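import Fermat.Agent.H26Final

/-!
# Reader's guide: statement S26, the evaluation lemma

**Statement served:** S26 (and nothing else). Companion of `GuideAbelian`, section 6: the steps of the
proofs of `GuideAbelian.vanishing_step` and `GuideAbelian.evaluation`. Prose: NOTES [102]. No proof
depends on this file, and it contains no new mathematics.

**The problem.** `K` is algebraically closed, `𝒜 : AV K` an abstract abelian variety of dimension `g`. A
space of sections of `O(D)` has to be bounded by `#A[n] ∏ (M_i + 1)`, where the number `M_i` is about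
`1/n²` times the height of `D` on a curve `C_i`. On a product of curves one would take `M_i + 1` points
on every curve and evaluate at the points of the grid. Here the variety is only dominated by a sum of
curves, and division by `n` is needed to gain the factor `n²`. The intersection theory of the classical
proof is replaced by counting zeros on one curve at a time, over larger and larger fields of constants.

**The steps.**

1. Reduction of points at the places of a function field (`reduction_def` to `reduction_map`).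
2. Let `n ≠ 0` in `K`. If `n x` is defined over `E₀`, then `E₀(x) / E₀` is finite and above every place
   of `E₀` there are `[E₀(x) : E₀]` places (`places_above`): multiplication by `n` is unramified.
3. Genericity is a matter of transcendence degrees (`generic_of_trdeg`, `generic_translate`).
4. Let `s` be a point over an algebraically closed field `k` and `φ ≠ 0` a function which is regular at
   `s`. There is a curve `C` through the origin, defined over `K`, such that `φ(C + s) ≠ 0`
   (`exists_curve`), where `C + s` is a point over the function field of `C` with constants `k`.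
5. The tower: `s_0 = 0`, `s_{i+1} = C_{i+1} + s_i`. The functions at the origin which vanish at `s_i` form
   a decreasing sequence of prime ideals. The local ring of the origin has dimension at most `g`, so
   `s_r` is generic for some `r ≤ g` (`at_most_g_curves`, `sum_is_generic`).
6. A section which vanishes at the `n`-division points of all points of the grid vanishes at the
   `n`-division points of `s_r` (`vanishing`, by induction with `vanishing_on_curve`). One of them is
   generic (`divide_generic_point`), so the section is zero. This is `GuideAbelian.evaluation`.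

**Notation** as in `GuideAbelian`: `IsFF k E`: `E` is a function field of one variable over `k`;
`Place k E` its places; `𝒜.Pt R` the `R`-valued points, `𝒜.map` their functoriality; `𝒜.dom P` the local
ring of the centre of `P` and `𝒜.val P φ` the value of a function; `𝒜.lift V X` the extension of `X` to a
valuation ring; `𝒜.η` the generic point. `IsCE K k E E'`: `E'` is the constant field extension of `E` to
`k`, `IsCE.pl k E' c` the place of `E'` above `c`. Every cited theorem is in the proof term of S26.
-/

set_option autoImplicit false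

noncomputable section

open AlgebraicCurve TensorProduct
open Fermat.Agent.H26 Fermat.Agent.H3RR

namespace Fermat.Agent.Guide.Evaluation

universe u

/-! ## 1. Reduction of points at places -/

/-- **Definition of the reduction** `redPt X v` of a point `X` over a function field `E` at a place `v`:
extend `X` to the valuation ring of `v` and apply the residue map `red K v`, which is surjective onto the
algebraically closed field `k` of constants and is the identity on constants. (`H98Ev1`.) -/
theorem reduction_def {K : Type u} [Field K] {𝒜 : AV K} {k E : Type u} [Field k] [Field E]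
    [Algebra K k] [Algebra K E] [Algebra k E] [IsScalarTower K k E] [IsAlgClosed k] [IsFF k E]
    (X : 𝒜.Pt E) (v : Place k E) :
    AV.redPt X v = 𝒜.map (AV.red K v) (𝒜.lift (plV K v) X) ∧ Function.Surjective (AV.red K v) ∧
      ∀ c : k, AV.red K v ⟨algebraMap k E c, v.algebraMap_mem' c⟩ = c :=
  ⟨rfl, AV.red_surjective v, AV.red_cst v⟩

/-- **The reduction is a homomorphism** which does not change constant points. (`H98Ev1`.) -/
theorem reduction_hom {K : Type u} [Field K] {𝒜 : AV K} {k E : Type u} [Field k] [Field E]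
    [Algebra K k] [Algebra K E] [Algebra k E] [IsScalarTower K k E] [IsAlgClosed k] [IsFF k E]
    (X Y : 𝒜.Pt E) (P : 𝒜.Pt k) (n : ℕ) (v : Place k E) :
    AV.redPt (X + Y) v = AV.redPt X v + AV.redPt Y v ∧ AV.redPt (n • X) v = n • AV.redPt X v ∧
      AV.redPt (𝒜.map (IsScalarTower.toAlgHom K k E) P) v = P :=
  ⟨AV.redPt_add X Y v, AV.redPt_nsmul n X v, AV.redPt_const P v⟩

/-- **Values of functions at the reduction:** a function is regular at the reduction of `X` if and only if
it is regular at the extended point, and its value is the residue of the value there. (`H98Ev1`.) -/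
theorem value_at_reduction {K : Type u} [Field K] {𝒜 : AV K} {k E : Type u} [Field k] [Field E]
    [Algebra K k] [Algebra K E] [Algebra k E] [IsScalarTower K k E] [IsAlgClosed k] [IsFF k E]
    (X : 𝒜.Pt E) (v : Place k E) : 𝒜.dom (AV.redPt X v) = 𝒜.dom (𝒜.lift (plV K v) X) ∧
    ∀ w ∈ 𝒜.dom (𝒜.lift (plV K v) X),
      𝒜.val (AV.redPt X v) w = AV.red K v (𝒜.val (𝒜.lift (plV K v) X) w) :=
  ⟨AV.dom_redPt X v, fun _ hw => AV.val_redPt X v hw⟩

/-- **Functoriality:** let `j : E → E'` be a homomorphism of function fields over `i : k → k'`, and `v'` a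
place of `E'` above the place `v` of `E`. Then the reduction of `j X` at `v'` is the image under `i` of
the reduction of `X` at `v`. (`H98Ev1`.) -/
theorem reduction_map {K : Type u} [Field K] {𝒜 : AV K} {k E k' E' : Type u} [Field k] [Field E]
    [Algebra K k] [Algebra K E] [Algebra k E] [IsScalarTower K k E] [IsAlgClosed k] [IsFF k E]
    [Field k'] [Field E'] [Algebra K k'] [Algebra K E'] [Algebra k' E'] [IsScalarTower K k' E']
    [IsAlgClosed k'] [IsFF k' E'] (v : Place k E) (v' : Place k' E') (j : E →ₐ[K] E')
    (i : k →ₐ[K] k') (hij : ∀ c : k, j (algebraMap k E c) = algebraMap k' E' (i c))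
    (hv : ∀ x, x ∈ v.toValuationSubring ↔ j x ∈ v'.toValuationSubring) (X : 𝒜.Pt E) :
    AV.redPt (𝒜.map j X) v' = 𝒜.map i (AV.redPt X v) :=
  AV.redPt_map v v' j i hij hv X

/-! ## 2. Places above a place -/

/-- **The field of definition.** `fieldOver L₀ x` is the subfield of `L` generated over `L₀` by the values of
functions at `x`; `x` comes from a point `ptOver L₀ x` over this field, and if `n x` is defined over `L₀`,
this is already true for `ptOver L₀ x`. (`H98AV2`.) -/
theorem field_of_definition {K : Type u} [Field K] {𝒜 : AV K} {L : Type u} [Field L] [Algebra K L]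
    (L₀ : Type u) [Field L₀] [Algebra K L₀] [Algebra L₀ L] [IsScalarTower K L₀ L] (x : 𝒜.Pt L) :
    AV.fieldOver L₀ x = IntermediateField.adjoin L₀ (Set.range (𝒜.ev x)) ∧
    𝒜.map ((AV.fieldOver L₀ x).val.restrictScalars K) (AV.ptOver L₀ x) = x ∧
    ∀ (n : ℕ) (y : 𝒜.Pt L₀), n • x = 𝒜.map (IsScalarTower.toAlgHom K L₀ L) y →
      n • AV.ptOver L₀ x = 𝒜.map (IsScalarTower.toAlgHom K L₀ (AV.fieldOver L₀ x)) y :=
  ⟨rfl, AV.map_ptOver L₀ x, fun n y h => AV.nsmul_ptOver L₀ n x y h⟩

/-- A field `E'` which is generated by a point `x` over `E₀`: an embedding of `E'` over `E₀` is determined by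
the image of `x`. So the conjugates of `x` correspond to the embeddings of `E'`. (`H98Ev2`.) -/
theorem embedding_of_point {K : Type u} [Field K] {𝒜 : AV K} {E₀ E' L : Type u} [Field E₀] [Field E']
    [Algebra K E₀] [Algebra K E'] [Algebra E₀ E'] [IsScalarTower K E₀ E'] [Field L] [Algebra K L]
    [Algebra E₀ L] [IsScalarTower K E₀ L] {x : 𝒜.Pt E'} (hx : AV.fieldOver E₀ x = ⊤)
    {τ σ : E' →ₐ[E₀] L} (h : 𝒜.map (τ.restrictScalars K) x = 𝒜.map (σ.restrictScalars K) x) :
    τ = σ :=
  AV.algHom_ext_fieldOver hx h

/-- A finite extension of a function field of one variable is one. (`H98Ev2`.) -/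
theorem function_field_of_finite (k E E' : Type*) [Field k] [Field E] [Field E'] [Algebra k E]
    [Algebra k E'] [Algebra E E'] [IsScalarTower k E E'] [FiniteDimensional E E'] [IsFF k E] :
    IsFF k E' :=
  isFF_of_finite k E E'

/-- **Multiplication by `n` is unramified** (`n ≠ 0` in `K`). Let `E'` be a finite separable extension of
the function field `E₀`, generated by a point `x` for which `n x` is defined over `E₀`. Then there are
`[E' : E₀]` places of `E'` above every place `c` of `E₀`. Proof: choose a valuation ring `W` of the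
algebraic closure `L` above `c`. Every embedding `τ : E' → L` over `E₀` gives the place `τ⁻¹ W`. If `τ`
and `σ` give the same place, then `τ x` and `σ x` have the same reduction modulo `W`; their difference is
killed by `n`, so it is a constant point (`K` is algebraically closed) with reduction `0`, and hence `0`.
So `τ = σ` by `embedding_of_point`, and there are `[E' : E₀]` embeddings. (`H98Ev2`.) -/
theorem places_above {K : Type u} [Field K] {𝒜 : AV K} [IsAlgClosed K] {k E₀ E' : Type u} [Field k]
    [Field E₀] [Field E'] [Algebra K k] [Algebra K E₀] [Algebra K E'] [Algebra k E₀] [Algebra k E']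
    [Algebra E₀ E'] [IsScalarTower K k E₀] [IsScalarTower K k E'] [IsScalarTower K E₀ E']
    [IsScalarTower k E₀ E'] [IsAlgClosed k] [IsFF k E₀] [IsFF k E'] [FiniteDimensional E₀ E']
    [Algebra.IsSeparable E₀ E'] (n : ℕ) (hn : (n : K) ≠ 0) (x : 𝒜.Pt E') (z : 𝒜.Pt E₀)
    (hx : n • x = 𝒜.map (IsScalarTower.toAlgHom K E₀ E') z) (hgen : AV.fieldOver E₀ x = ⊤)
    (c : Place k E₀) : ∃ S : Finset (Place k E'), S.card = Module.finrank E₀ E' ∧
      ∀ v ∈ S, ∀ e : E₀, e ∈ c.toValuationSubring ↔ algebraMap E₀ E' e ∈ v.toValuationSubring :=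
  AV.exists_places_above n hn x z hx hgen c

/-! ## 3. Generic points -/

/-- **Generic points** over a field: all functions are regular at `x`; equivalently no nonzero function
vanishes at `x`. Division and multiplication by `n` preserve this. (`H26AV`, `H98AV3`.) -/
theorem generic_iff {K : Type u} [Field K] {𝒜 : AV K} {L : Type u} [Field L] [Algebra K L]
    (x : 𝒜.Pt L) (n : ℕ) (hn : (n : K) ≠ 0) :
    (AV.IsGeneric x ↔ 𝒜.dom x = ⊤) ∧
    (AV.IsGeneric x ↔ ∀ w ∈ 𝒜.dom x, 𝒜.val x w = 0 → w = 0) ∧
    (AV.IsGeneric (n • x) ↔ AV.IsGeneric x) :=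
  ⟨Iff.rfl, AV.isGeneric_iff, AV.isGeneric_of_nsmul n hn, fun h => AV.isGeneric_nsmul h n hn⟩

/-- **The criterion with transcendence degrees:** if the values at `x` generate over a field `k` of
constants a field of transcendence degree at least that of `𝒜.F`, then `x` is generic. Proof:
`injective_of_trdeg` for the evaluation of functions at `x`. (`H98Ev4`.) -/
theorem generic_of_trdeg {K : Type u} [Field K] {𝒜 : AV K} {k L : Type u} [Field k] [Field L]
    [Algebra K k] [Algebra k L] [Algebra K L] [IsScalarTower K k L] (x : 𝒜.Pt L)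
    (h : Algebra.trdeg K 𝒜.F ≤ Algebra.trdeg k (AV.fieldOver k x)) : AV.IsGeneric x :=
  AV.isGeneric_of_trdeg x h

/-- The algebraic fact behind it: a homomorphism `φ` from a domain `B` over `K` to a field `M` which is
algebraic over `k(φ(B))` is injective if `trdeg_K B ≤ trdeg_k M` and `trdeg_K B` is finite. (For the local
rings of `𝒜` it is finite, since they are essentially of finite type.) (`H98Ev4`.) -/
theorem injective_of_trdeg {K k B M : Type u} [Field K] [Field k] [Algebra K k] [CommRing B]
    [IsDomain B] [Algebra K B] [Field M] [Algebra K M] [Algebra k M] [IsScalarTower K k M]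
    (φ : B →ₐ[K] M) [Algebra.IsAlgebraic (Algebra.adjoin k (Set.range φ)) M]
    (hfin : Algebra.trdeg K B < Cardinal.aleph0) (h : Algebra.trdeg K B ≤ Algebra.trdeg k M) :
    Function.Injective φ :=
  AV.injective_of_trdeg' φ hfin h

/-- Elements of `F` which are algebraically independent over `K` are algebraically independent over `k` in
the constant field extension `F'` of `F` to `k`, because the same is true for linear independence of
the monomials. (`H98Ev4`.) -/
theorem algebraic_independence {K k F F' : Type u} [Field K] [Field k] [Field F] [Field F']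
    [Algebra K k] [Algebra K F] [Algebra k F'] [Algebra F F'] [Algebra K F'] [IsScalarTower K k F']
    [IsScalarTower K F F'] [IsCE K k F F'] {ι : Type u} {t : ι → F}
    (ht : AlgebraicIndependent K t) : AlgebraicIndependent k fun i => algebraMap F F' (t i) :=
  AV.algebraicIndependent_map ht

/-- **Translates of the generic point are generic:** over the constant field extension `F'` of `𝒜.F` to `k`
the sum of a point `s` over `k` and of the generic point is generic. Proof: the generic point is the
difference of the sum and `s`; so the values at the sum generate over `k` a field which contains `𝒜.F`,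
and `algebraic_independence` and `generic_of_trdeg` apply. (`H98Ev4`.) -/
theorem generic_translate {K : Type u} [Field K] {𝒜 : AV K} {k : Type u} (F' : Type u) [Field k]
    [Field F'] [Algebra K k] [Algebra k F'] [Algebra 𝒜.F F'] [Algebra K F'] [IsScalarTower K k F']
    [IsScalarTower K 𝒜.F F'] [IsCE K k 𝒜.F F'] (s : 𝒜.Pt k) :
    AV.IsGeneric (𝒜.map (IsScalarTower.toAlgHom K k F') s +
      𝒜.map (IsScalarTower.toAlgHom K 𝒜.F F') 𝒜.η) :=
  AV.isGeneric_add_eta F' s

/-! ## 4. A curve on which a function does not vanish -/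

/-- **Nonvanishing of tensors.** Let `a` be an element of `R₀ ⊗ k`, written as a sum of `a_i ⊗ b_i` with
respect to a basis `b` of `k` over `K`. If `ψ(a_i) ≠ 0` for a homomorphism `ψ : R₀ → E` and one index
`i`, then the image of `a` in the constant field extension `E'` of `E` to `k` is not zero, because `E`
and `k` are linearly disjoint in `E'`. (`H98Ev4`.) -/
theorem tensor_ne_zero {K k E E' R₀ : Type u} [Field K] [Field k] [Field E] [Field E'] [Algebra K k]
    [Algebra K E] [Algebra k E'] [Algebra E E'] [Algebra K E'] [IsScalarTower K k E']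
    [IsScalarTower K E E'] [IsCE K k E E'] [CommRing R₀] [Algebra K R₀] (ψ : R₀ →ₐ[K] E)
    {ι : Type u} [DecidableEq ι] (b : Module.Basis ι K k) (a : R₀ ⊗[K] k) (i : ι)
    (hi : ψ (TensorProduct.equivFinsuppOfBasisRight b a i) ≠ 0) (γ : R₀ ⊗[K] k →ₐ[K] E')
    (hγ : ∀ (r : R₀) (c : k), γ (r ⊗ₜ[K] c) = algebraMap E E' (ψ r) * algebraMap k E' c) :
    γ a ≠ 0 :=
  AV.tens_ne_zero ψ b a i hi γ hγ

/-- **Translation by a point `s` over `k`.** Let `θ : 𝒜.dom 0 ⊗ k → k` be evaluation at the origin, the
identity on `k`, and `TS 𝒜 k` the localisation at its kernel: the local ring of the origin of the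
constant extension of `𝒜` to `k`. `YS s` is the sum of the tautological point at the origin and of `s`;
its reduction is `s`. Functions which are regular at `s` are regular at `YS s`, and `φ ≠ 0` does not
vanish at `YS s`, because `s + η` is generic (`generic_translate`). (`H98Ev5`.) -/
theorem translate_of_function {K : Type u} [Field K] [IsAlgClosed K] {𝒜 : AV K} {k : Type u}
    [Field k] [Algebra K k] (s : 𝒜.Pt k) :
    (∀ (r : 𝒜.dom (0 : 𝒜.Pt K)) (c : k),
      AV.theta 𝒜 k (r ⊗ₜ c) = algebraMap K k (𝒜.ev 0 r) * c) ∧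
    AV.YS s = 𝒜.map (IsScalarTower.toAlgHom K (𝒜.dom (0 : 𝒜.Pt K) ⊗[K] k) (AV.TS 𝒜 k))
      (𝒜.map (Algebra.TensorProduct.includeLeft (R := K) (S := K)) (𝒜.taut (0 : 𝒜.Pt K)) +
        𝒜.map (Algebra.TensorProduct.includeRight (R := K)) s) ∧
    𝒜.map (AV.thetaS 𝒜 k) (AV.YS s) = s ∧ 𝒜.dom (AV.YS s) = 𝒜.dom s ∧
    ∀ φ ∈ 𝒜.dom s, φ ≠ 0 → 𝒜.val (AV.YS s) φ ≠ 0 :=
  ⟨AV.theta_tmul, rfl, AV.map_thetaS_YS s, AV.dom_YS s, fun _ hφ h0 => AV.val_YS_ne_zero s hφ h0⟩

/-- **Sum of a curve and a constant point.** `f` is a point over a function field `E` over `K` (a curve in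
the variety) with reduction `0` at the place `c` (the curve passes through the origin), and `s` a point
over `k`. `addC f s` is the sum `f + s` over the constant field extension `E'` of `E` to `k`. Its
reduction at the place above `c` is `s`. (`H98Ev6`.) -/
theorem curve_add_constant {K : Type u} [Field K] [IsAlgClosed K] {𝒜 : AV K} {k E E' : Type u}
    [Field k] [Field E] [Field E'] [Algebra K k] [Algebra K E] [Algebra K E'] [Algebra k E']
    [Algebra E E'] [IsScalarTower K k E'] [IsScalarTower K E E'] [IsCE K k E E'] [IsAlgClosed k]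
    [IsFF K E] [IsFF k E'] (f : 𝒜.Pt E) (s : 𝒜.Pt k) (c : Place K E) (h : AV.redPt f c = 0) :
    (AV.addC f s : 𝒜.Pt E') = 𝒜.map (IsScalarTower.toAlgHom K E E') f +
        𝒜.map (IsScalarTower.toAlgHom K k E') s ∧
      AV.redPt (AV.addC f s) (IsCE.pl k E' c) = s :=
  ⟨rfl, AV.redPt_addC f s c h⟩

/-- **Specialisation to `s`:** functions which are regular at `s` are regular at `f + s`, and if such a
function vanishes at `f + s`, it vanishes at `s`. (`H98Ev6`.) -/
theorem zeros_specialise {K : Type u} [Field K] [IsAlgClosed K] {𝒜 : AV K} {k E E' : Type u}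
    [Field k] [Field E] [Field E'] [Algebra K k] [Algebra K E] [Algebra K E'] [Algebra k E']
    [Algebra E E'] [IsScalarTower K k E'] [IsScalarTower K E E'] [IsCE K k E E'] [IsAlgClosed k]
    [IsFF K E] [IsFF k E'] (f : 𝒜.Pt E) (s : 𝒜.Pt k) (c : Place K E) (h : AV.redPt f c = 0) :
    𝒜.dom s ≤ 𝒜.dom (AV.addC f s : 𝒜.Pt E') ∧
      ∀ φ ∈ 𝒜.dom s, 𝒜.val (AV.addC f s : 𝒜.Pt E') φ = 0 → 𝒜.val s φ = 0 :=
  ⟨AV.dom_le_dom_addC f s c h, fun _ hφ h0 => AV.val_eq_zero_of_addC f s c h hφ h0⟩

/-- **A function at the origin which controls the translate.** Let `φ ≠ 0` be regular at the point `s` over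
`k`. There is a function `a ≠ 0` in the local ring of the origin of `𝒜` (over `K`!) such that
`φ(f + s) ≠ 0` for every curve `f` through the origin with `a(f) ≠ 0`. Proof: the value of `φ` at `YS s` is
a nonzero quotient of elements of `𝒜.dom 0 ⊗ k` (`translate_of_function`). The numerator has a nonzero
coefficient `a` with respect to a basis of `k` over `K`; `φ(f + s)` is the image of the value at `YS s`
under evaluation at `f`, so it is not zero by `tensor_ne_zero`. (`H98Ev5`, `H98Ev6`.) -/
theorem exists_function_at_origin {K : Type u} [Field K] [IsAlgClosed K] {𝒜 : AV K} {k : Type u}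
    [Field k] [Algebra K k] [IsAlgClosed k] (s : 𝒜.Pt k) {φ : 𝒜.F} (hφ : φ ∈ 𝒜.dom s)
    (h0 : φ ≠ 0) : ∃ a : 𝒜.dom (0 : 𝒜.Pt K), a ≠ 0 ∧ ∀ {E E' : Type u} [Field E] [Field E']
      [Algebra K E] [Algebra K E'] [Algebra k E'] [Algebra E E'] [IsScalarTower K k E']
      [IsScalarTower K E E'] [IsCE K k E E'] [IsFF K E] (f : 𝒜.Pt E) (c : Place K E),
      AV.redPt f c = 0 → 𝒜.val f a ≠ 0 → 𝒜.val (AV.addC f s : 𝒜.Pt E') φ ≠ 0 :=
  AV.val_addC_ne_zero s hφ h0

/-! ## 5. The tower

A level `ℓ : 𝒜.Lev` is an algebraically closed extension `ℓ.k` of `K` with a point `ℓ.s` over it; a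
`C : 𝒜.Curve0` is a function field `C.E` over `K` with a place `C.c` and a point `C.f` over `C.E` which
reduces to `0` at `C.c`. -/

/-- **One step:** the new field is the algebraic closure of the constant field extension `ℓ.EE C` of the
function field of `C` to `ℓ.k` (chosen by `H26.ced`), and the new point is the sum of the curve and the old
point. For a list of curves, `tower` starts with the point `0` over `K`. (`H98Ev6`.) -/
theorem tower_def {K : Type u} [Field K] [IsAlgClosed K] {𝒜 : AV K} (ℓ : 𝒜.Lev) (C : 𝒜.Curve0)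
    (l : List 𝒜.Curve0) :
    ℓ.step C = ⟨AlgebraicClosure (ℓ.EE C), 𝒜.map (IsScalarTower.toAlgHom K (ℓ.EE C)
      (AlgebraicClosure (ℓ.EE C))) (AV.addC C.f ℓ.s)⟩ ∧
    AV.tower ([] : List 𝒜.Curve0) = ⟨K, 0⟩ ∧ AV.tower (C :: l) = (AV.tower l).step C :=
  ⟨rfl, rfl, rfl⟩

/-- Along a step regular functions remain regular, and functions which vanish at the new point vanish at
the old point (`zeros_specialise`). (`H98Ev6`.) -/
theorem zeros_along_step {K : Type u} [Field K] [IsAlgClosed K] {𝒜 : AV K} (ℓ : 𝒜.Lev)
    (C : 𝒜.Curve0) : 𝒜.dom ℓ.s ≤ 𝒜.dom (ℓ.step C).s ∧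
      ∀ φ ∈ 𝒜.dom ℓ.s, 𝒜.val (ℓ.step C).s φ = 0 → 𝒜.val ℓ.s φ = 0 :=
  ⟨AV.Lev.dom_le_step ℓ C, fun _ hφ h => AV.Lev.val_eq_zero_of_step ℓ C hφ h⟩

/-- **Existence of a curve:** for a function `φ ≠ 0` which is regular at `ℓ.s` there is a curve `C` through
the origin such that `φ` does not vanish at the new point. Proof: `exists_function_at_origin`, and the
last condition of `GuideAbelian.good_iff` for the function `a`. (`H98Ev6`.) -/
theorem exists_curve {K : Type u} [Field K] [IsAlgClosed K] {𝒜 : AV K} {g : ℕ} (hG : 𝒜.Good g)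
    (ℓ : 𝒜.Lev) {φ : 𝒜.F} (hφ : φ ∈ 𝒜.dom ℓ.s) (h0 : φ ≠ 0) :
    ∃ C : 𝒜.Curve0, 𝒜.val (ℓ.step C).s φ ≠ 0 :=
  AV.Lev.exists_step hG ℓ hφ h0

/-- **The prime ideals** `pr l` of the functions in the local ring of the origin which vanish at the point
of the tower of `l`. They decrease, and if `pr l ≠ 0`, then `pr (C :: l)` is strictly smaller for a
suitable curve `C`. (`H98Ev6`.) -/
theorem primes_decrease {K : Type u} [Field K] [IsAlgClosed K] {𝒜 : AV K} {g : ℕ} (hG : 𝒜.Good g)
    (l : List 𝒜.Curve0) :
    (∀ w : 𝒜.dom (0 : 𝒜.Pt K), w ∈ AV.pr l ↔ 𝒜.val (AV.tower l).s w = 0) ∧ (AV.pr l).IsPrime ∧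
      (∀ C : 𝒜.Curve0, AV.pr (C :: l) ≤ AV.pr l) ∧ (AV.pr l ≠ ⊥ → ∃ C, AV.pr (C :: l) < AV.pr l) :=
  ⟨fun _ => AV.mem_pr, AV.isPrime_pr l, fun C => AV.pr_cons_le C l, AV.exists_pr_lt hG l⟩

/-- By induction: for every `m`, either at most `m` curves suffice to make the prime ideal zero, or there are
`m` curves with nonzero prime ideal and a chain of `m + 1` prime ideals which begins with it.
(`H98Ev7`.) -/
theorem chain_of_primes {K : Type u} [Field K] [IsAlgClosed K] {𝒜 : AV K} {g : ℕ} (hG : 𝒜.Good g)
    (m : ℕ) : (∃ l : List 𝒜.Curve0, l.length ≤ m ∧ AV.pr l = ⊥) ∨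
      ∃ (l : List 𝒜.Curve0) (p : LTSeries (PrimeSpectrum (𝒜.dom (0 : 𝒜.Pt K)))),
        l.length = m ∧ AV.pr l ≠ ⊥ ∧ p.length = m ∧ p.head = ⟨AV.pr l, AV.isPrime_pr l⟩ :=
  AV.exists_chain hG m

/-- **At most `g` curves suffice** to make the prime ideal zero: otherwise `chain_of_primes` for `m = g`,
with the zero ideal added, is a chain of `g + 2` prime ideals in the local ring of the origin, which
has dimension at most `g`. (`H98Ev7`.) -/
theorem at_most_g_curves {K : Type u} [Field K] [IsAlgClosed K] {𝒜 : AV K} {g : ℕ}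
    (hG : 𝒜.Good g) : ∃ l : List 𝒜.Curve0, l.length ≤ g ∧ AV.pr l = ⊥ :=
  AV.exists_list hG

/-- **Then the sum of the curves is a generic point:** a function which vanishes there is a quotient of
functions at the origin. (`H98Ev7`.) -/
theorem sum_is_generic {K : Type u} [Field K] [IsAlgClosed K] {𝒜 : AV K} {l : List 𝒜.Curve0}
    (h : AV.pr l = ⊥) : AV.IsGeneric (AV.tower l).s :=
  AV.isGeneric_tower h

/-- **A generic point over an algebraically closed field is `n` times a generic point:** multiplication by
`n` is finite on function fields, so the embedding of `𝒜.F` extends. (`H98Ev7`.) -/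
theorem divide_generic_point {K : Type u} [Field K] {𝒜 : AV K} (n : ℕ) (hn : (n : K) ≠ 0)
    {L : Type u} [Field L] [Algebra K L] [IsAlgClosed L] (s : 𝒜.Pt L) (hs : AV.IsGeneric s) :
    ∃ x : 𝒜.Pt L, AV.IsGeneric x ∧ n • x = s :=
  AV.exists_generic_nsmul_eq n hn s hs

/-! ## 6. The grid -/

/-- **The grid** of a list of curves `C_i` and finite sets `S_i` of places of `C_i`: the sums of the
reductions of the `C_i` at places in `S_i`. It has at most `∏ #S_i` points. (`H98Ev8`.) -/
theorem grid_card {K : Type u} [Field K] [IsAlgClosed K] {𝒜 : AV K} (l : List 𝒜.Curve0)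
    (S : ∀ i : Fin l.length, Finset (Place K (l.get i).E)) :
    (AV.grid l S).card ≤ ∏ i, (S i).card :=
  AV.card_grid_le l S

/-- The recursive definition of the grid, written out. (`H98Ev8`.) -/
theorem mem_grid {K : Type u} [Field K] [IsAlgClosed K] {𝒜 : AV K} (C : 𝒜.Curve0)
    (l : List 𝒜.Curve0) (S₀ : ∀ i : Fin ([] : List 𝒜.Curve0).length, Finset (Place K (([] :
      List 𝒜.Curve0).get i).E)) (S : ∀ i : Fin (C :: l).length, Finset (Place K ((C :: l).get i).E))
    (u : 𝒜.Pt K) : (u ∈ AV.grid [] S₀ ↔ u = 0) ∧ (u ∈ AV.grid (C :: l) S ↔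
      ∃ u' ∈ AV.grid l (fun i => S i.succ), ∃ c ∈ S ⟨0, Nat.succ_pos _⟩, u' + AV.redPt C.f c = u) := by
  classical
  have e : AV.grid (C :: l) S = Finset.image₂ (· + ·) (AV.grid l fun i => S i.succ)
      ((S ⟨0, Nat.succ_pos _⟩).image fun c => AV.redPt C.f c) := rfl
  rw [e, Finset.mem_image₂]
  refine ⟨Finset.mem_singleton, ?_, ?_⟩
  · rintro ⟨u', hu', b, hb, h⟩
    obtain ⟨c, hc, rfl⟩ := Finset.mem_image.1 hb
    exact ⟨u', hu', c, hc, h⟩
  · rintro ⟨u', hu', c, hc, h⟩
    exact ⟨u', hu', _, Finset.mem_image_of_mem _ hc, h⟩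

/-- **Vanishing on one curve.** `φ` is a section of `O(D)`, where `D` has heights which are multiplied by
`n²` by multiplication by `n`. Let `f` be a point over `E/K` and `s`, `P` points over `k`. If `φ` vanishes
at the `n`-division points of `f(c) + s + P` for more than `ht_D(f) / n²` places `c`, then `φ` vanishes at
the `n`-division points of `f + s + P`. (A section `φ` of `O(D)` vanishes at `z` if `φ` times the local
equation `D.eqn` has the value zero at `z`.) Proof: `GuideAbelian.vanishing_step` for the constant field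
extension; heights do not change under translation and under constant extension. (`H98Ev8`.) -/
theorem vanishing_on_curve {K : Type u} [Field K] [IsAlgClosed K] {𝒜 : AV K} (n : ℕ)
    (hn : (n : K) ≠ 0) (D : 𝒜.CDiv) {φ : 𝒜.F} (hφ : φ ∈ D.sections)
    (hquad : ∀ (k E : Type u) [Field k] [Field E] [Algebra K k] [Algebra K E] [Algebra k E]
      [IsScalarTower K k E] [IsAlgClosed k] [IsFF k E] (X : 𝒜.Pt E),
      (n ^ 2 : ℤ) * D.ht k X = D.ht k (n • X))
    {k E E' : Type u} [Field k] [Field E] [Field E'] [Algebra K k] [Algebra K E] [Algebra K E']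
    [Algebra k E'] [Algebra E E'] [IsScalarTower K k E'] [IsScalarTower K E E'] [IsCE K k E E']
    [IsAlgClosed k] [IsFF K E] [IsFF k E'] (f : 𝒜.Pt E) (S : Finset (Place K E))
    (hS : D.ht K f < (n ^ 2 : ℤ) * S.card) (s P : 𝒜.Pt k)
    (hvan : ∀ c ∈ S, ∀ z : 𝒜.Pt k,
      n • z = s + (P + 𝒜.map (Algebra.ofId K k) (AV.redPt f c)) →
        𝒜.val z (φ * D.eqn (𝒜.dom z)) = 0)
    (x : 𝒜.Pt (AlgebraicClosure E'))
    (hx : n • x = 𝒜.map (IsScalarTower.toAlgHom K E' (AlgebraicClosure E')) (AV.addC f s) +
      𝒜.map (IsScalarTower.toAlgHom K k (AlgebraicClosure E')) P) :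
    𝒜.val x (φ * D.eqn (𝒜.dom x)) = 0 :=
  AV.vanish_step (AV.htAdd 𝒜) (AV.htCE 𝒜) n hn D hφ hquad f S hS s P hvan x hx

/-- **Vanishing at the point of the tower:** let `#S_i > ht_D(C_i) / n²` for all `i`. If `φ` vanishes at the
`n`-division points of `u + t` for all `u` in the grid, it vanishes at the `n`-division points of
`s_r + t`, `s_r` the point of the tower. Proof: induction on the number of curves, the point `t` over `K`
being arbitrary; the step is `vanishing_on_curve`. Application: `t = 0` and a generic `x`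
(`divide_generic_point`) give `φ = 0`, so evaluation at the `n`-division points of the grid, at most
`#A[n] ∏ #S_i` points, is injective on `H⁰(O(D))`: this is `GuideAbelian.evaluation`. (`H98Ev8`.) -/
theorem vanishing {K : Type u} [Field K] [IsAlgClosed K] {𝒜 : AV K} (n : ℕ) (hn : (n : K) ≠ 0)
    (D : 𝒜.CDiv) {φ : 𝒜.F} (hφ : φ ∈ D.sections)
    (hquad : ∀ (k E : Type u) [Field k] [Field E] [Algebra K k] [Algebra K E] [Algebra k E]
      [IsScalarTower K k E] [IsAlgClosed k] [IsFF k E] (X : 𝒜.Pt E),
      (n ^ 2 : ℤ) * D.ht k X = D.ht k (n • X))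
    (l : List 𝒜.Curve0) (S : ∀ i : Fin l.length, Finset (Place K (l.get i).E))
    (hS : ∀ i, D.ht K (l.get i).f < (n ^ 2 : ℤ) * (S i).card) (t : 𝒜.Pt K)
    (hvan : ∀ u ∈ AV.grid l S, ∀ z : 𝒜.Pt K, n • z = u + t → 𝒜.val z (φ * D.eqn (𝒜.dom z)) = 0)
    (x : 𝒜.Pt (AV.tower l).k)
    (hx : n • x = (AV.tower l).s + 𝒜.map (Algebra.ofId K (AV.tower l).k) t) :
    𝒜.val x (φ * D.eqn (𝒜.dom x)) = 0 :=
  AV.vanish (AV.htAdd 𝒜) (AV.htCE 𝒜) n hn D hφ hquad l S hS t hvan x hx

end Fermat.Agent.Guide.Evaluation
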