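import Fermat.Agent.S14

/-!
# Guide: extensions of `μ_p` by `ℤ/p`, the steps of the proof of S14

This file contains no new mathematics: every theorem is proved by citing the library (or, for a few steps
which are not declarations of the library, proved again, see Closures), and no other file uses it. It is
a companion of `GuideFermatSmall`, section 6, where `S14` is unfolded (`extension_splits`) and the main
steps are stated. Here are the steps between them.

**The statement.** Let `p ≥ 3` be a prime, `V` a `G_ℚ`-module of order `p ^ 2` on which an open subgroup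
acts trivially, and `C` a submodule of order `p` such that `G_ℚ` acts trivially on `C` and as on `μ_p` on
`V / C`. If `V` is unramified outside `p` and the extension `0 → C → V → V / C → 0` is split at the places
above `p`, it is split.

**The proof.** `χ` denotes the cyclotomic character modulo `p`, `K = ℚ(ζ)` the field of the `p`-th roots
of unity, `m` an exponent with `σ ζ = ζ ^ m`.

1. Sections 1 and 2 (`H14Kummer`). Choose `v₀` outside `C`. The function `c(σ) = σ v₀ - χ(σ) v₀` has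
   values in the line `C`; on `ker χ = Gal(ℚ̄ / K)` it is a homomorphism with `c(τ⁻¹ σ τ) = χ(τ) c(σ)`. If
   it is zero there, the extension splits, because `χ` is not trivial. Otherwise Kummer theory gives `β`
   with `σ β = ζ ^ c(σ) β` for `σ ∈ ker χ` (`C` is identified with `ℤ/p`), and `α = β ^ p` lies in `K`, with
   `τ α = α ^ (m ^ 2)` up to `p`-th powers if `τ ζ = ζ ^ m`.
2. Sections 3 to 5 (`H14Lift`, `H14Finite`, `H14AB`, `H14Cyclo`). `K(β) / K` is unramified at all primes,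
   and the primes above `p` split completely, since this holds for the extension `V`. The statement about
   `V` is about inertia and decomposition subgroups of `Gal(ℚ̄ / ℚ)`, and the consequences which are
   needed are about ideals of number fields: the bridge is a compactness argument. So all valuations of
   `α` are divisible by `p`, and `α` is a local `p`-th power at `1 - ζ`: after multiplication by a `p`-th
   power `(α) = 𝔞 ^ p` and `α` is congruent to a rational integer modulo `(1 - ζ) ^ 3`.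
3. Sections 6 to 8 (`H75LocalE`, `H14NoChar`, `H75ExistsChar`; they use Thaine's theorem, `H64Thaine*`, see
   `GuideThaine`, and the density theorem for the class group, `H76ClassBound` and `H45ClassL`, see
   `GuideDensity`). For `p ≥ 5` there is no class
   of order `p` on which the automorphism with `ζ ↦ ζ ^ u` acts by `u ^ 2`.
4. Section 9 (`H46UnitEigen`). An eigenspace of the units modulo `p`-th powers is at most one-dimensional.
5. Section 10 (`H14Assembly`). The end of the proof: `𝔞` is principal, `α` is a unit times a `p`-th power,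
   hence a power of the cyclotomic unit `E` times a `p`-th power, and the local condition at `1 - ζ`
   shows that it is a `p`-th power: a contradiction.

Authors: helper14 (sections 1 to 5, 7, 10), helper75 (6, 8), helper46 (9). Closures: everything here is in
the proof terms of S14, S15, S12, S09, S03, S01 (a step of a proof which is not a declaration of the
library is proved here again; the docstring says so: "A step in"). Prose: NOTES.md, notes [287], [92], [218].
-/

set_option autoImplicit false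

noncomputable section

open scoped NumberField Pointwise nonZeroDivisors
open IsDedekindDomain NumberField ExtCitation IntermediateField

namespace Fermat.Agent.Guide.ExtensionSteps

open Fermat.Agent

local notation "Qb" => AlgebraicClosure ℚ
local notation "Zb" => integralClosure ℤ (AlgebraicClosure ℚ)
local notation "Gq" => (AlgebraicClosure ℚ ≃ₐ[ℚ] AlgebraicClosure ℚ)

/-! ## 1. The cocycle of an extension

In sections 1 to 3 `V` is a vector space over `ℤ/p` with a linear action of `Gq = Gal(ℚ̄ / ℚ)`, `C` a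
subspace, and `cycloChar p : Gq →* (ℤ/p)ˣ` the cyclotomic character `χ`. -/

section Extension

variable {p : ℕ} [Fact p.Prime] {V : Type} [AddCommGroup V] [Module (ZMod p) V]
  [DistribMulAction (AlgebraicClosure ℚ ≃ₐ[ℚ] AlgebraicClosure ℚ) V]
  [SMulCommClass (AlgebraicClosure ℚ ≃ₐ[ℚ] AlgebraicClosure ℚ) (ZMod p) V]
  {C : Submodule (ZMod p) V}

/-- **The cyclotomic character** is determined by the action on one primitive `p`-th root of unity:
`χ(σ) = m` if and only if `σ ζ = ζ ^ m`. File `H14Kummer`. -/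
theorem cyclotomic_character {ζ : Qb} (hζ : IsPrimitiveRoot ζ p) (σ : Gq) (m : ℕ) :
    ((cycloChar p σ : (ZMod p)ˣ) : ZMod p) = m ↔ σ ζ = ζ ^ m :=
  ⟨fun h => H14.apply_root_of_cycloChar_eq hζ.pow_eq_one σ m h, fun h => H14.cycloChar_eq hζ σ m h⟩

/-- **The cocycle** `c(σ) = σ v₀ - χ(σ) v₀` (`H14.cf p v₀ σ`) has values in `C`, and
`c(σ τ) = c(τ) + χ(τ) c(σ)`. File `H14Kummer`. -/
theorem cocycle (h : IsAdmissibleExtension p V C) (v₀ : V) (σ τ : Gq) :
    H14.cf p v₀ σ = σ • v₀ - ((cycloChar p σ : (ZMod p)ˣ) : ZMod p) • v₀ ∧ H14.cf p v₀ σ ∈ C ∧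
      H14.cf p v₀ (σ * τ) =
        H14.cf p v₀ τ + ((cycloChar p τ : (ZMod p)ˣ) : ZMod p) • H14.cf p v₀ σ :=
  ⟨rfl, H14.cf_mem h v₀ σ, H14.cf_mul h v₀ σ τ⟩

/-- **Conjugation**: `c(τ⁻¹ σ τ) = χ(τ) c(σ)` for `σ` in the kernel of `χ`. This is where the exponent
`m ^ 2` of the Kummer generator comes from, see `conjugates_of_beta`. File `H14Kummer`. -/
theorem cocycle_conjugate (h : IsAdmissibleExtension p V C) (v₀ : V) (σ τ : Gq)
    (hσ : cycloChar p σ = 1) :
    H14.cf p v₀ (τ⁻¹ * σ * τ) = ((cycloChar p τ : (ZMod p)ˣ) : ZMod p) • H14.cf p v₀ σ :=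
  H14.cf_conj h v₀ σ τ hσ

/-- **Coordinates.** `C` is not everything, it is a line, and `V = C + (ℤ/p) v₀` for every `v₀` outside
`C`: this is what is used of the orders `p` and `p ^ 2`. File `H14Kummer`. -/
theorem coordinates (h : IsAdmissibleExtension p V C) :
    (∃ v₀ : V, v₀ ∉ C) ∧ (∀ c₀ ∈ C, c₀ ≠ 0 → ∀ c ∈ C, ∃ n : ZMod p, c = n • c₀) ∧
      ∀ v₀ : V, v₀ ∉ C → ∀ v : V, ∃ (n : ZMod p) (c : V), c ∈ C ∧ v = c + n • v₀ :=
  ⟨H14.exists_not_mem h, fun _ hc₀ h0 _ hc => H14.exists_smul_of_mem h hc₀ h0 hc,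
    fun _ hv₀ v => H14.exists_decomp h hv₀ v⟩

/-- **The kernel of the action** consists of the `σ` with `χ(σ) = 1` and `c(σ) = 0`. File `H14Kummer`. -/
theorem acts_trivially_iff (h : IsAdmissibleExtension p V C) {v₀ : V} (hv₀ : v₀ ∉ C) (σ : Gq) :
    (∀ v : V, σ • v = v) ↔ cycloChar p σ = 1 ∧ H14.cf p v₀ σ = 0 :=
  ⟨H14.eq_of_smul_eq h hv₀, fun hσ => H14.smul_eq_of_cf h hv₀ hσ.1 hσ.2⟩

/-- **Splitting.** If `c` is zero on the kernel of `χ` and `χ` is not trivial, the extension splits. Proof: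
let `χ(τ₀) ≠ 1`. Then `c(σ τ₀) = c(τ₀ σ)`, because the commutator of `σ` and `τ₀` is in the kernel of `χ`;
this gives `(χ(τ₀) - 1) c(σ) = (χ(σ) - 1) c(τ₀)`, so `v₀ + (χ(τ₀) - 1)⁻¹ c(τ₀)` is an eigenvector of all
elements of `Gq`. File `H14Kummer`. -/
theorem splits_of_cocycle_zero (h : IsAdmissibleExtension p V C) {v₀ : V} (hv₀ : v₀ ∉ C)
    (hf : ∀ σ : Gq, cycloChar p σ = 1 → H14.cf p v₀ σ = 0) (τ₀ : Gq) (hτ₀ : cycloChar p τ₀ ≠ 1) :
    SplitsGlobally C :=
  H14.splits_of_cf_eq_zero h hv₀ hf τ₀ hτ₀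

/-- `χ` is not trivial for `p ≥ 3`, because `ζ` is not rational. File `H14Kummer`. -/
theorem exists_character_ne_one (h3 : 3 ≤ p) {ζ : Qb} (hζ : IsPrimitiveRoot ζ p) :
    ∃ τ : Gq, cycloChar p τ ≠ 1 :=
  H14.exists_cycloChar_ne_one h3 hζ

/-! ## 2. The Kummer generator -/

/-- **Galois theory of the extension.** The subgroup `H14.kerSub V` of the elements which act trivially on
`V` is open, and an automorphism which fixes all elements fixed by this subgroup belongs to it. File
`H14Kummer`. -/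
theorem kernel_galois (h : IsAdmissibleExtensionCts p V C) :
    (∀ σ : Gq, σ ∈ H14.kerSub V ↔ ∀ v : V, σ • v = v) ∧ IsOpen (H14.kerSub V : Set Gq) ∧
      ∀ τ : Gq, (∀ x : Qb, (∀ σ ∈ H14.kerSub V, σ x = x) → τ x = x) → τ ∈ H14.kerSub V :=
  ⟨fun _ => H14.mem_kerSub, H14.isOpen_kerSub h, H14.fixed_of_forall h⟩

/-- **Kummer theory.** Let `s₀ ∈ ker χ` with `c(s₀) ≠ 0`. There is `β ≠ 0` with `σ β = ζ ^ n β` for all
`σ ∈ ker χ` with `c(σ) = n c(s₀)`. Proof: `β = ∑ ζ ^ (-i) s₀ ^ i x`, the sum over `0 ≤ i < p`, for a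
suitable `x` fixed by the kernel of the action (the resolvent of Lagrange). File `H14Kummer`. -/
theorem exists_beta (h : IsAdmissibleExtensionCts p V C) {v₀ : V} (hv₀ : v₀ ∉ C) {s₀ : Gq}
    (hs₀ : cycloChar p s₀ = 1) (hs₀' : H14.cf p v₀ s₀ ≠ 0) {ζ : Qb} (hζ : IsPrimitiveRoot ζ p) :
    ∃ β : Qb, β ≠ 0 ∧ ∀ σ : Gq, cycloChar p σ = 1 → ∀ n : ℕ,
      H14.cf p v₀ σ = (n : ZMod p) • H14.cf p v₀ s₀ → σ β = ζ ^ n * β :=
  H14.exists_beta h hv₀ hs₀ hs₀' hζ

/-- **The field `ℚ(ζ)`** is the fixed field of the kernel of `χ`. File `H14Kummer`. -/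
theorem mem_cyclotomic_field_iff {ζ : Qb} (hζ : IsPrimitiveRoot ζ p) (y : Qb) :
    y ∈ IntermediateField.adjoin ℚ {ζ} ↔ ∀ σ : Gq, cycloChar p σ = 1 → σ y = y :=
  H14.mem_adjoin_iff hζ y

/-- **The conjugates of `β`.** If the extension does not split there is `β ≠ 0` such that: some element of
`ker χ` maps `β` to `ζ β`; `β ^ p` lies in `K` (it is fixed by `ker χ`); if `τ ζ = ζ ^ m` then
`τ β / β ^ (m ^ 2)` lies in `K`, because `σ τ β = τ (τ⁻¹ σ τ) β = τ (ζ ^ (m n) β) = ζ ^ (m ^ 2 n) τ β` if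
`c(σ) = n c(s₀)`; and an element of `ker χ` fixes `β` if and only if it acts trivially on `V`, in
particular if it stabilises a complement of `C`. File `H14Kummer`. -/
theorem conjugates_of_beta (h3 : 3 ≤ p) (h : IsAdmissibleExtensionCts p V C)
    (hns : ¬ SplitsGlobally C) {ζ : Qb} (hζ : IsPrimitiveRoot ζ p) :
    ∃ β : Qb, β ≠ 0 ∧ (∃ s₀ : Gq, cycloChar p s₀ = 1 ∧ s₀ β = ζ * β) ∧
      (∀ σ : Gq, cycloChar p σ = 1 → σ (β ^ p) = β ^ p) ∧
      (∀ (τ : Gq) (m : ℕ), τ ζ = ζ ^ m → ∀ σ : Gq, cycloChar p σ = 1 →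
        σ (τ β / β ^ (m ^ 2)) = τ β / β ^ (m ^ 2)) ∧
      (∀ σ : Gq, cycloChar p σ = 1 → (∀ v : V, σ • v = v) → σ β = β) ∧
      (∀ σ : Gq, cycloChar p σ = 1 → σ β = β → (∀ v : V, σ • v = v)) ∧
      (∀ σ : Gq, cycloChar p σ = 1 → (∃ C' : Submodule (ZMod p) V,
        (∀ x ∈ C', σ • x ∈ C') ∧ IsCompl C C') → σ β = β) :=
  H14.exists_kummer_aux h3 h hns hζ

/-! ## 3. From the closure of `ℚ` to number fields

`Zb` is the ring of all algebraic integers, `H54.primeBelow A` the prime ideal of `Zb` below the place `A`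
of `ℚ̄`, and `H14.intMap F : 𝓞 F →+* Zb` the inclusion of the integers of a number field `F` with an
embedding into `ℚ̄`. -/

end Extension

/-- **Decomposition and inertia group in terms of the integers.** An automorphism which stabilises the prime
below the place `A` is in the decomposition group of `A`; if moreover it acts trivially on `Zb` modulo
this prime, it is in the inertia group. File `H14Lift`. -/
theorem inertia_by_integers {q : ℕ} (hq : q.Prime) {A : ValuationSubring Qb}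
    (hA : A.LiesOverPrime q) (σ : Gq) (hstab : σ • H54.primeBelow A = H54.primeBelow A) :
    σ ∈ A.decompositionSubgroup ℚ ∧
      ((∀ b : Zb, σ • b - b ∈ H54.primeBelow A) → σ ∈ A.inertiaSubgroupIn ℚ) :=
  ⟨H14.mem_decomposition_of_smul_primeBelow hq hA σ hstab,
    H14.mem_inertia_of_forall_integral hq hA σ hstab⟩

/-- **Transitivity on primes, by compactness.** Let `H` be a closed normal subgroup of `Gq`, `P` a prime of
`Zb` and `s` an automorphism with `s b ∈ P ↔ b ∈ P` for the integers `b` fixed by `H`. Then `h s P = P`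
for some `h ∈ H`. (`H` is compact and acts transitively on the primes above a given prime of the ring
of the integers fixed by `H`.) File `H14Lift`. -/
theorem exists_mul_smul_eq (H : Subgroup Gq) [H.Normal] (hH : IsClosed (H : Set Gq)) (s : Gq)
    (P : Ideal Zb) [P.IsPrime]
    (hs : ∀ b : Zb, (∀ h ∈ H, h • b = b) → (s • b ∈ P ↔ b ∈ P)) : ∃ h ∈ H, (h * s) • P = P :=
  H14.exists_smul_smul_primeBelow H hH s P hs

/-- **Lifting.** Let `H` be a closed normal subgroup of `Gq`. If `s` stabilises the prime below `A` on the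
integers fixed by `H`, some `h s` with `h ∈ H` is in the decomposition group of `A`; if `s` acts trivially
modulo this prime on the integers fixed by `H`, some `h s` is in the inertia group of `A`. (For the second
part the automorphism of `Zb / P` given by `h s` is induced by an element of `H`.) File `H14Lift`. -/
theorem lifting (H : Subgroup Gq) [H.Normal] (hH : IsClosed (H : Set Gq)) {q : ℕ} (hq : q.Prime)
    {A : ValuationSubring Qb} (hA : A.LiesOverPrime q) (s : Gq) :
    ((∀ b : Zb, (∀ h ∈ H, h • b = b) → (s • b ∈ H54.primeBelow A ↔ b ∈ H54.primeBelow A)) →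
      ∃ h ∈ H, h * s ∈ A.decompositionSubgroup ℚ) ∧
    ((∀ b : Zb, (∀ h ∈ H, h • b = b) → s • b - b ∈ H54.primeBelow A) →
      ∃ h ∈ H, h * s ∈ A.inertiaSubgroupIn ℚ) :=
  ⟨H14.exists_lift_decomposition H hH hq hA s, H14.exists_lift_inertia H hH hq hA s⟩

/-- **Places above primes.** Every prime ideal of `Zb` which contains the prime number `ℓ` is the prime below
a place of `ℚ̄` above `ℓ`; every nonzero prime `v` of a number field is the restriction of such a prime.
File `H14AB`. -/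
theorem places_above {K : Type} [Field K] [NumberField K] [Algebra K Qb] :
    (∀ ℓ : ℕ, ℓ.Prime → ∀ P : Ideal Zb, P.IsPrime → (ℓ : Zb) ∈ P →
      ∃ A : ValuationSubring Qb, A.LiesOverPrime ℓ ∧ H54.primeBelow A = P) ∧
    ∀ v : HeightOneSpectrum (𝓞 K), ∃ (ℓ : ℕ) (A : ValuationSubring Qb), ℓ.Prime ∧
      A.LiesOverPrime ℓ ∧ (ℓ : 𝓞 K) ∈ v.asIdeal ∧
      (H54.primeBelow A).comap (H14.intMap K) = v.asIdeal :=
  ⟨fun _ hℓ P hP h => H14.exists_place_of_prime (hP := hP) hℓ P h, H14.exists_place_above⟩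

/-- **The local conditions for `K(β) / K`.** Let `V` be an extension as in S14 and `β` a number such that the
elements of `ker χ` which fix `β` are those which act trivially on `V`, in particular those which
stabilise a complement of `C`. Let `w` be the prime of `L = K(β)` below a place `A` of `ℚ̄`. The inertia
group of `w` in `Gal(L / K)` is trivial; if `A` is above `p` the decomposition group of `w` is trivial.
Proof: lift `s` to `ℚ̄`, apply `lifting` to the kernel `H` of the action on `V` (the integers fixed by `H`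
are in `L`), and use the condition on `V` at `A`. File `H14AB`. -/
theorem local_conditions {p : ℕ} [Fact p.Prime] {V : Type} [AddCommGroup V] [Module (ZMod p) V]
    [DistribMulAction (AlgebraicClosure ℚ ≃ₐ[ℚ] AlgebraicClosure ℚ) V]
    [SMulCommClass (AlgebraicClosure ℚ ≃ₐ[ℚ] AlgebraicClosure ℚ) (ZMod p) V]
    {C : Submodule (ZMod p) V} (h : IsAdmissibleExtensionCts p V C) {ζ : Qb}
    (hζ : IsPrimitiveRoot ζ p) {β : Qb}
    (hker : ∀ σ : Gq, cycloChar p σ = 1 → (∀ v : V, σ • v = v) → σ β = β)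
    (hker' : ∀ σ : Gq, cycloChar p σ = 1 → σ β = β → (∀ v : V, σ • v = v))
    (hdec : ∀ σ : Gq, cycloChar p σ = 1 → (∃ C' : Submodule (ZMod p) V,
        (∀ x ∈ C', σ • x ∈ C') ∧ IsCompl C C') → σ β = β)
    (v₀ : V) (hv₀ : v₀ ∉ C) {ℓ : ℕ} (hℓ : ℓ.Prime) (A : ValuationSubring Qb)
    (hA : A.LiesOverPrime ℓ) :
    (∀ s : ℚ⟮ζ⟯⟮β⟯ ≃ₐ[ℚ⟮ζ⟯] ℚ⟮ζ⟯⟮β⟯,
      (∀ x : 𝓞 ℚ⟮ζ⟯⟮β⟯, s • x - x ∈ (H54.primeBelow A).comap (H14.intMap ℚ⟮ζ⟯⟮β⟯)) → s = 1) ∧
    (ℓ = p → ∀ s : ℚ⟮ζ⟯⟮β⟯ ≃ₐ[ℚ⟮ζ⟯] ℚ⟮ζ⟯⟮β⟯,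
      (∀ x : 𝓞 ℚ⟮ζ⟯⟮β⟯, s • x ∈ (H54.primeBelow A).comap (H14.intMap ℚ⟮ζ⟯⟮β⟯) ↔
        x ∈ (H54.primeBelow A).comap (H14.intMap ℚ⟮ζ⟯⟮β⟯)) → s = 1) :=
  H14.local_trivial h hζ hker hker' hdec v₀ hv₀ hℓ A hA

/-! ## 4. Number fields: trivial inertia, trivial decomposition -/

section Finite

variable (K L : Type*) [Field K] [NumberField K] [Field L] [NumberField L] [Algebra K L]
  [IsGalois K L]

/-- **Trivial inertia**: if the inertia group of `w` in `Gal(L / K)` is trivial, the ramification index is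
one, and the valuation of an element of `K` at `v` and at `w` is the same. Applied to `α = β ^ p` this
says that the valuation of `α` is divisible by `p`. File `H14Finite`. -/
theorem trivial_inertia (v : HeightOneSpectrum (𝓞 K)) (w : HeightOneSpectrum (𝓞 L))
    [w.asIdeal.LiesOver v.asIdeal]
    (h : ∀ s : L ≃ₐ[K] L, (∀ x : 𝓞 L, s • x - x ∈ w.asIdeal) → s = 1) :
    v.asIdeal.ramificationIdx' w.asIdeal = 1 ∧
      ∀ x : K, v.valuation K x = w.valuation L (algebraMap K L x) :=
  ⟨H14.ramificationIdx'_eq_one_of_inertia K L v w h, H14.valuation_eq_of_inertia K L v w h⟩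

/-- **Trivial decomposition**: if only the identity stabilises `w`, every integer `b` of `L` is congruent
to an integer of `K` modulo `w ^ n`. Proof: by the Chinese remainder theorem there is `y` with `y ≡ b`
modulo `w ^ n` and `y ≡ 0` modulo the `n`-th powers of the other conjugates of `w`; take the trace of
`y`. (No completion is needed.) File `H14Finite`. -/
theorem trivial_decomposition (w : HeightOneSpectrum (𝓞 L))
    (h : ∀ s : L ≃ₐ[K] L, s • w.asIdeal = w.asIdeal → s = 1) (b : 𝓞 L) (n : ℕ) :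
    ∃ t : 𝓞 K, algebraMap (𝓞 K) (𝓞 L) t - b ∈ w.asIdeal ^ n :=
  H14.exists_approx_of_decomposition K L w h b n

end Finite

/-- **Ideals and valuations**: if all valuations of the integer `a ≠ 0` are divisible by `p`, the ideal
`(a)` is a `p`-th power. File `H14Finite`. -/
theorem ideal_is_pow {K : Type*} [Field K] [NumberField K] (p : ℕ) (a : 𝓞 K) (ha : a ≠ 0)
    (h : ∀ v : HeightOneSpectrum (𝓞 K), ∃ m : ℤ,
      v.valuation K (a : K) = WithZero.exp ((p : ℤ) * m)) :
    ∃ 𝔞 : Ideal (𝓞 K), Ideal.span {a} = 𝔞 ^ p :=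
  H14.exists_eq_pow_of_valuation p a ha h

/-! ## 5. Integers of `ℚ(ζ)` modulo powers of `1 - ζ`

`H14.vZeta hζ` is the prime ideal generated by `1 - ζ`, as a point of the spectrum.

The result of sections 1 to 5 is `GuideFermatSmall.exists_kummer_generator`. Its last property, the congruence
modulo `(1 - ζ) ^ 3`, is obtained as follows. Let `a = (c β) ^ p` be as in `normalisation`, and `b = c β`,
an integer of `L = K(β)`. By `local_conditions` and `trivial_decomposition` there is `t ∈ 𝓞 K` with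
`t ≡ b` modulo `w ^ 3`, where `w` is a prime of `L` above `1 - ζ`. So `t ^ p ≡ a` modulo `w ^ 3`, and
modulo `(1 - ζ) ^ 3` by `trivial_inertia`; and `t ^ p` is congruent to a rational integer modulo
`(1 - ζ) ^ 3` by `residues`. -/

section Cyclotomic

variable {p : ℕ} [Fact p.Prime] {K : Type*} [Field K] [NumberField K]
  [IsCyclotomicExtension {p} ℚ K] {ζ : 𝓞 K}

/-- **The prime `1 - ζ`** and its valuation. File `H14Cyclo`. -/
theorem one_sub_zeta (hζ : IsPrimitiveRoot ζ p) : Prime (1 - ζ) ∧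
    (∀ x : 𝓞 K, ¬ (1 - ζ) ∣ x ↔ (H14.vZeta hζ).valuation K (x : K) = 1) ∧
    ∀ (x : 𝓞 K) (n : ℕ), (1 - ζ) ^ n ∣ x ↔
      (H14.vZeta hζ).valuation K (x : K) ≤ WithZero.exp (-(n : ℤ)) :=
  ⟨H14.prime_one_sub hζ, H14.not_dvd_iff hζ, H14.dvd_pow_iff hζ⟩

/-- **Normalisation**: if all valuations of `α ≠ 0` are divisible by `p`, there is `c ≠ 0` such that
`α c ^ p` is an integer prime to `1 - ζ`. File `H14Cyclo`. -/
theorem normalisation (hζ : IsPrimitiveRoot ζ p) (α : K) (hα : α ≠ 0)
    (h : ∀ v : HeightOneSpectrum (𝓞 K), ∃ m : ℤ, v.valuation K α = WithZero.exp ((p : ℤ) * m)) :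
    ∃ (c : K) (a : 𝓞 K), c ≠ 0 ∧ (a : K) = α * c ^ p ∧ ¬ (1 - ζ) ∣ a :=
  H14.exists_scale hζ α hα h

/-- **Residues.** Every integer of `K = ℚ(ζ)` is congruent to a rational integer modulo `1 - ζ`, and
`(1 - ζ) ^ (p - 1)` divides `p`. Hence, for `p ≥ 3`, every `p`-th power `x ^ p` is congruent to a rational
integer modulo `(1 - ζ) ^ 3`: if `x = n + (1 - ζ) c` then `x ^ p ≡ n ^ p`. File `H14Cyclo`. -/
theorem residues (hζ : IsPrimitiveRoot ζ p) (x : 𝓞 K) : (∃ n : ℤ, (1 - ζ) ∣ x - (n : 𝓞 K)) ∧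
    (1 - ζ) ^ (p - 1) ∣ (p : 𝓞 K) ∧ (3 ≤ p → ∃ n : ℤ, (1 - ζ) ^ 3 ∣ x ^ p - (n : 𝓞 K)) :=
  ⟨H14.exists_int_sub hζ x, H14.one_sub_pow_dvd_natCast hζ, fun h3 => H14.exists_int_pow_sub hζ h3 x⟩

end Cyclotomic

/-! ## 6. The local computation at `1 - ζ`

(Sections 6 and 8: text of helper75.)

Let `p ≥ 5`, `ζ` a primitive `p`-th root of unity, `K = ℚ(ζ)`. The ideal `(p)` is the power `p - 1` of
`(1 - ζ)`, and `p - 1 ≥ 3`; so `𝓞 K / (1 - ζ)³` is `𝔽_p[X] / X³`, with `ζ = 1 + X`. We write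
`H75.T3 R` for `R[X] / X³`; its elements are triples `a + b X + c X²`. For a unit `u = a + b X + c X²`
the coefficient of `X²` in `log (u / a)` is

  `L u = c / a - (b / a)² / 2`.

It is additive, zero on constants and on `p`-th powers. The cyclotomic unit `E` of the eigencomponent
of `ω²` (`ω` the cyclotomic character modulo `p`) has `24 L(E) = -1`. This is the point of the proof
where it is used that the Bernoulli number `B₂ = 1/6` is a unit at `p`. No `p`-adic logarithm and no
completion occurs.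

`GuideFermatSmall.cyclotomicUnit_local` (if `E^k x^p ≡ n mod (1 - ζ)³` with `n ∈ ℤ` and `x` prime to
`1 - ζ`, then `p` divides `k`) follows: apply `θ` (`exists_trunc_hom`) and then `L`, and get
`k L(E) + 0 = 0`. It is used twice: to see that `E` is not a `p`-th power
(`GuideFermatSmall.cyclotomicUnit_not_pow`), and at the end of the proof, where it says that the Kummer
generator is a `p`-th power. -/

section LocalUnits

variable {R : Type*} [CommRing R] {F : Type*} [Field F] {p : ℕ} [Fact p.Prime]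

/-- The product in `R[X] / X³`. File `H75LocalE`. -/
theorem trunc_mul (u v : H75.T3 R) :
    u * v = ⟨u.a * v.a, u.a * v.b + u.b * v.a, u.a * v.c + u.b * v.b + u.c * v.a⟩ :=
  rfl

/-- `X³ = 0`. File `H75LocalE`. -/
theorem trunc_X_cubed : (H75.T3.X : H75.T3 R) ^ 3 = 0 :=
  H75.T3.X_pow_three

/-- The binomial formula: `(1 + X)^j = 1 + j X + (j(j-1)/2) X²`. File `H75LocalE`. -/
theorem trunc_one_add_X_pow (h2 : (2 : F) ≠ 0) (j : ℕ) :
    (1 + H75.T3.X : H75.T3 F) ^ j = ⟨1, j, j * (j - 1) / 2⟩ :=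
  H75.T3.one_add_X_pow h2 j

/-- The image of `1 + ζ + … + ζ^{n-1}`:
`∑_{j < n} (1 + X)^j = n + (n(n-1)/2) X + (n(n-1)(n-2)/6) X²`. File `H75LocalE`. -/
theorem trunc_geometric_sum (h2 : (2 : F) ≠ 0) (h3 : (3 : F) ≠ 0) (n : ℕ) :
    ∑ j ∈ Finset.range n, (1 + H75.T3.X : H75.T3 F) ^ j
      = ⟨n, n * (n - 1) / 2, n * (n - 1) * (n - 2) / 6⟩ :=
  H75.T3.geom h2 h3 n

/-- **The reduction modulo `(1 - ζ)³`.** For `p ≥ 5` there is a ring homomorphism
`θ : 𝓞 K → 𝔽_p[X] / X³` with `θ(ζ) = 1 + X`: the value of the cyclotomic polynomial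
`1 + T + … + T^{p-1}` at `1 + X` is zero by `trunc_geometric_sum` with `n = p`. (A step in `H75.local_E`.) -/
theorem exists_trunc_hom (hp : 5 ≤ p) (K : Type) [Field K] [NumberField K]
    [IsCyclotomicExtension {p} ℚ K] (ζ : 𝓞 K) (hζ : IsPrimitiveRoot ζ p) :
    ∃ θ : 𝓞 K →+* H75.T3 (ZMod p), θ ζ = 1 + H75.T3.X := by
  have hpp : p.Prime := Fact.out
  have h2 : (2 : ZMod p) ≠ 0 := by
    intro h
    have h' : ((2 : ℕ) : ZMod p) = 0 := by exact_mod_cast h
    rw [ZMod.natCast_eq_zero_iff] at h'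
    have := Nat.le_of_dvd (by norm_num) h'
    omega
  have h3 : (3 : ZMod p) ≠ 0 := by
    intro h
    have h' : ((3 : ℕ) : ZMod p) = 0 := by exact_mod_cast h
    rw [ZMod.natCast_eq_zero_iff] at h'
    have := Nat.le_of_dvd (by norm_num) h'
    omega
  have hζK : IsPrimitiveRoot (ζ : K) p := hζ.map_of_injective RingOfIntegers.coe_injective
  have hgen : hζK.integralPowerBasis.gen = ζ := by
    rw [IsPrimitiveRoot.integralPowerBasis_gen]
    exact hζK.toInteger_coe
  have hmin : minpoly ℤ hζK.integralPowerBasis.gen = Polynomial.cyclotomic p ℤ := by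
    rw [hgen, Polynomial.cyclotomic_eq_minpoly hζK hpp.pos]
    exact (minpoly.algebraMap_eq RingOfIntegers.coe_injective ζ).symm
  have haev : Polynomial.aeval (1 + H75.T3.X : H75.T3 (ZMod p))
      (minpoly ℤ hζK.integralPowerBasis.gen) = 0 := by
    rw [hmin, Polynomial.cyclotomic_prime, map_sum]
    simp only [map_pow, Polynomial.aeval_X]
    rw [trunc_geometric_sum h2 h3]
    ext <;> simp
  refine ⟨(hζK.integralPowerBasis.lift (1 + H75.T3.X) haev).toRingHom, ?_⟩
  have h := PowerBasis.lift_gen hζK.integralPowerBasis (1 + H75.T3.X) haev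
  rw [hgen] at h
  exact h

/-- The kernel of `x ↦ (constant term of θ(x))` is the prime ideal `(1 - ζ)`, since the latter is
maximal and contained in it. Only this half is needed. (A step in `H75.local_E`.) -/
theorem one_sub_zeta_dvd (K : Type) [Field K] [NumberField K] [IsCyclotomicExtension {p} ℚ K]
    (ζ : 𝓞 K) (hζ : IsPrimitiveRoot ζ p) (θ : 𝓞 K →+* H75.T3 (ZMod p))
    (hθ : θ ζ = 1 + H75.T3.X) (x : 𝓞 K) (hx : (θ x).a = 0) : (1 - ζ) ∣ x := by
  have hζK : IsPrimitiveRoot (ζ : K) p := hζ.map_of_injective RingOfIntegers.coe_injective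
  have hprime : Prime (ζ - 1) := hζK.zeta_sub_one_prime'
  have hne : ζ - 1 ≠ 0 := hprime.ne_zero
  have hmax : (Ideal.span {ζ - 1} : Ideal (𝓞 K)).IsMaximal :=
    ((Ideal.span_singleton_prime hne).mpr hprime).isMaximal
      (by rwa [Ne, Ideal.span_singleton_eq_bot])
  have hker : (Ideal.span {ζ - 1} : Ideal (𝓞 K))
      = RingHom.ker ((H75.T3.constHom (R := ZMod p)).comp θ) := by
    apply hmax.eq_of_le (RingHom.ker_ne_top _)
    rw [Ideal.span_singleton_le_iff_mem, RingHom.mem_ker]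
    show (θ (ζ - 1)).a = 0
    rw [map_sub, map_one, hθ]
    simp [H75.T3.X, sub_eq_add_neg]
  have hxk : x ∈ (Ideal.span {ζ - 1} : Ideal (𝓞 K)) := by
    rw [hker, RingHom.mem_ker]
    exact hx
  rw [Ideal.mem_span_singleton] at hxk
  rw [← neg_dvd, neg_sub]
  exact hxk

/-- `L` is additive: `L (u v) = L u + L v` for units `u`, `v`. File `H75LocalE`. -/
theorem log_mul (h2 : (2 : F) ≠ 0) (u v : H75.T3 F) (hu : u.a ≠ 0) (hv : v.a ≠ 0) :
    H75.T3.L (u * v) = H75.T3.L u + H75.T3.L v :=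
  H75.T3.L_mul h2 u v hu hv

/-- `L` of a product of powers: `L (∏ u_i^{e_i}) = ∑ e_i L (u_i)`. File `H75LocalE`. -/
theorem log_prod_pow (h2 : (2 : F) ≠ 0) {ι : Type*} (s : Finset ι) (u : ι → H75.T3 F) (e : ι → ℕ)
    (hu : ∀ i ∈ s, (u i).a ≠ 0) :
    H75.T3.L (∏ i ∈ s, u i ^ e i) = ∑ i ∈ s, e i * H75.T3.L (u i) := by
  rw [H75.T3.L_prod h2 s _ fun i hi => by rw [H75.T3.pow_a]; exact pow_ne_zero _ (hu i hi)]
  exact Finset.sum_congr rfl fun i hi => H75.T3.L_pow h2 _ (hu i hi) _

/-- `L` is zero on integers. File `H75LocalE`. -/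
theorem log_intCast (n : ℤ) : H75.T3.L (n : H75.T3 F) = 0 := by
  rw [H75.T3.intCast_eq]
  simp [H75.T3.L]

/-- `L` is zero on `p`-th powers of units. File `H75LocalE`. -/
theorem log_pow_p (h2 : (2 : ZMod p) ≠ 0) (u : H75.T3 (ZMod p)) (hu : u.a ≠ 0) :
    H75.T3.L (u ^ p) = 0 := by
  rw [H75.T3.L_pow h2 _ hu, CharP.cast_eq_zero (ZMod p) p, zero_mul]

/-- The value of `L` on `1 + ζ + … + ζ^{b-1}`: it is `(b - 1)(b - 5) / 24`. Indeed
`(b-1)(b-2)/6 - (b-1)²/8 = (b-1)(b-5)/24`. (A step in `H75.local_E`.) -/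
theorem log_geometric_sum (h2 : (2 : F) ≠ 0) (h3 : (3 : F) ≠ 0) (b : ℕ) (hb : (b : F) ≠ 0) :
    24 * H75.T3.L (∑ j ∈ Finset.range b, (1 + H75.T3.X : H75.T3 F) ^ j)
      = ((b : F) - 1) * ((b : F) - 5) := by
  have h6 : (6 : F) ≠ 0 := by
    have h : (6 : F) = 2 * 3 := by norm_num
    rw [h]
    exact mul_ne_zero h2 h3
  rw [trunc_geometric_sum h2 h3]
  simp only [H75.T3.L]
  field_simp
  ring

/-- The power sums: `∑ u⁻² (u - 1)(u - 5) = ∑ (1 - 6 u⁻¹ + 5 u⁻²) = p - 1 = -1` in `𝔽_p`, the sum over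
all `u ≠ 0`, for `p ≥ 5` (the sums of `u⁻¹` and of `u⁻²` are zero because `p - 1` divides neither
`1` nor `2`). File `H75LocalE`. -/
theorem sum_units (hp : 5 ≤ p) :
    ∑ u : (ZMod p)ˣ, ((u : ZMod p)⁻¹ ^ 2 * (((u : ZMod p) - 1) * ((u : ZMod p) - 5))) = -1 :=
  H75.sum_key hp

/-- **The value on the cyclotomic unit**: if `e(b) b² = 1` in `𝔽_p` for `0 < b < p`, then
`24 L(E) = -1` for `E = ∏_{0 < b < p} (1 + ζ + … + ζ^{b-1})^{e(b)}`. (A step in `H75.local_E`.) -/
theorem log_cyclotomic_unit (hp : 5 ≤ p) (e : ℕ → ℕ)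
    (he : ∀ b ∈ Finset.Ico 1 p, (e b : ZMod p) * (b : ZMod p) ^ 2 = 1) :
    24 * H75.T3.L (∏ b ∈ Finset.Ico 1 p,
      (∑ j ∈ Finset.range b, (1 + H75.T3.X : H75.T3 (ZMod p)) ^ j) ^ e b) = -1 := by
  have h2 : (2 : ZMod p) ≠ 0 := by
    intro h
    have h' : ((2 : ℕ) : ZMod p) = 0 := by exact_mod_cast h
    rw [ZMod.natCast_eq_zero_iff] at h'
    have := Nat.le_of_dvd (by norm_num) h'
    omega
  have h3 : (3 : ZMod p) ≠ 0 := by
    intro h
    have h' : ((3 : ℕ) : ZMod p) = 0 := by exact_mod_cast h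
    rw [ZMod.natCast_eq_zero_iff] at h'
    have := Nat.le_of_dvd (by norm_num) h'
    omega
  have hb0 : ∀ b ∈ Finset.Ico 1 p, (b : ZMod p) ≠ 0 := by
    intro b hb h0
    have h := he b hb
    rw [h0] at h
    simp at h
  rw [log_prod_pow h2 _ _ _ fun b hb => by rw [trunc_geometric_sum h2 h3]; exact hb0 b hb,
    Finset.mul_sum, ← sum_units hp,
    ← H75.sum_Ico_eq_sum_units fun u => u⁻¹ ^ 2 * ((u - 1) * (u - 5))]
  refine Finset.sum_congr rfl fun b hb => ?_
  have heb : (e b : ZMod p) = ((b : ZMod p)⁻¹) ^ 2 := by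
    have h := he b hb
    have h0 := hb0 b hb
    field_simp
    exact h
  rw [mul_left_comm, log_geometric_sum h2 h3 b (hb0 b hb), heb]

end LocalUnits

/-! ## 7. Characters of the class group

In this section `K = ℚ(ζ)`, and `χ` is a homomorphism from the class group of `K` to `ℤ/p` (the class group is
written additively). The result is `GuideFermatSmall.no_eigencharacter`. -/

section ClassGroup

variable {p : ℕ} [Fact p.Prime] {K : Type} [Field K] [NumberField K]

/-- **The value of `χ` on an ideal** (`H14.chi χ I`, zero for `I = 0`): it is additive on nonzero ideals and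
zero on principal ideals. File `H14NoChar`. -/
theorem value_on_ideals (χ : Additive (ClassGroup (𝓞 K)) →+ ZMod p) :
    (∀ (I : Ideal (𝓞 K)) (h : I ∈ (Ideal (𝓞 K))⁰),
      H14.chi χ I = χ (Additive.ofMul (ClassGroup.mk0 ⟨I, h⟩))) ∧
    (∀ I J : Ideal (𝓞 K), I ≠ 0 → J ≠ 0 → H14.chi χ (I * J) = H14.chi χ I + H14.chi χ J) ∧
    ∀ x : 𝓞 K, x ≠ 0 → H14.chi χ (Ideal.span {x}) = 0 :=
  ⟨fun _ h => H14.chi_of_mem χ h, fun _ _ hI hJ => H14.chi_mul χ hI hJ, fun _ hx => H14.chi_span χ hx⟩

/-- **A complex character with the same kernel**, to which the theorem on the L-series of the class group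
applies: `ψ(c) = exp (2 π i χ(c) / p)`. File `H14NoChar`. -/
theorem complex_character [IsCyclotomicExtension {p} ℚ K] (χ : Additive (ClassGroup (𝓞 K)) →+ ZMod p) :
    ∃ ψ : ClassGroup (𝓞 K) →* ℂˣ, ∀ c, ψ c = 1 ↔ χ (Additive.ofMul c) = 0 :=
  H14.exists_complex_char χ

/-- **The Galois group acts on the class group** (`H14.classAct σ`), the class of `I` is mapped to the class
of `σ I`. File `H14NoChar`. -/
theorem galois_on_classes (σ τ : K ≃ₐ[ℚ] K) (c : ClassGroup (𝓞 K)) :
    (∀ (I : (Ideal (𝓞 K))⁰) (h : σ • (I : Ideal (𝓞 K)) ∈ (Ideal (𝓞 K))⁰),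
      H14.classAct σ (ClassGroup.mk0 I) = ClassGroup.mk0 ⟨σ • (I : Ideal (𝓞 K)), h⟩) ∧
    H14.classAct (σ * τ) c = H14.classAct σ (H14.classAct τ c) ∧
    H14.classAct (1 : K ≃ₐ[ℚ] K) c = c :=
  ⟨H14.classAct_mk0 σ, H14.classAct_mul σ τ c, H14.classAct_one c⟩

/-- **The Galois group of `ℚ(ζ)`** consists of the `τ_u` (`H14.tau K u`), `u ∈ (ℤ/p)ˣ`, with `τ_u ζ = ζ ^ u`.
File `H14NoChar`. -/
theorem galois_group [IsCyclotomicExtension {p} ℚ K] (u v : (ZMod p)ˣ) :
    (∀ x : 𝓞 K, x ^ p = 1 → H14.tau K u • x = x ^ (u : ZMod p).val) ∧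
      H14.tau K (u * v) = H14.tau K u * H14.tau K v ∧
      ∀ σ : K ≃ₐ[ℚ] K, ∃ w : (ZMod p)ˣ, H14.tau K w = σ :=
  ⟨fun _ hx => H14.tau_smul u hx, H14.tau_mul u v, H14.tau_surj⟩

/-- **The exponents** `e(b)`, the representative of `b ^ (-2)` modulo `p` (`H14.ee p b`). For `p ≥ 5` their
sum over `1 ≤ b < p` is divisible by `p`, because the sum of the `u ^ (-2)` over the units modulo `p` is
zero. File `H14NoChar`. -/
theorem exponents {p : ℕ} [Fact p.Prime] (h5 : 5 ≤ p) : (∀ b : ℕ, H14.ee p b = (((b : ZMod p)⁻¹) ^ 2).val) ∧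
    (∀ b ∈ Finset.Ico 1 p, (H14.ee p b : ZMod p) * (b : ZMod p) ^ 2 = 1) ∧
    p ∣ ∑ b ∈ Finset.Ico 1 p, H14.ee p b :=
  ⟨fun _ => rfl, H14.ee_spec, H14.sum_ee h5⟩

/-- **The cyclotomic unit** `E = ∏ ((1 - ζ ^ b) / (1 - ζ)) ^ e(b)`, the product over `1 ≤ b < p`
(`H14.cycU p ζ`), is a unit. File `H14NoChar`. -/
theorem cyclotomic_unit [IsCyclotomicExtension {p} ℚ K] {ζ : 𝓞 K} (hζ : IsPrimitiveRoot ζ p) :
    H14.cycU p ζ = ∏ b ∈ Finset.Ico 1 p, (∑ j ∈ Finset.range b, ζ ^ j) ^ H14.ee p b ∧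
      IsUnit (H14.cycU p ζ) :=
  ⟨rfl, H14.isUnit_cycU hζ⟩

/-- **There is no `χ ≠ 0` with `χ(τ_u c) = u ^ 2 χ(c)`.** Here the boundedness of the L-series of the
nontrivial characters of the class group near `s = 1` is a hypothesis (`hD2`); it is proved in
`H76ClassBound`, see `GuideFermatSmall.classGroup_LSeries_bounded`. Proof:
* `E` is not a `p`-th power (section 6), so there is a prime `P` of degree one, of large norm `q`, with
  `χ(P) ≠ 0` and such that `E` is not a `p`-th power modulo `P`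
  (`GuideFermatSmall.exists_auxiliary_prime` for `E` and `complex_character`). Then `q ≡ 1` modulo `p`,
  and the primes above `q` are the `τ_u⁻¹ P`, all different.
* Thaine's theorem (`GuideFermatSmall.thaine`) gives `(κ) = 𝔟 ^ p ∏ (τ_u⁻¹ P) ^ R(u)` with
  `1 - ζ ≡ g ^ R(u)` modulo `τ_u⁻¹ P`, so `1 - ζ ^ u ≡ g ^ R(u)` modulo `P`.
* The value of `χ` on the principal ideal `(κ)` is `0 = ∑ R(u) u ^ (-2) χ(P)`, so `p` divides
  `∑ R(u) e(u)`.
* Hence `∏ (1 - ζ ^ u) ^ e(u)` is congruent to a `p`-th power modulo `P`. It is `(1 - ζ) ^ (∑ e(u)) E`, and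
  `p` divides `∑ e(u)`. So `E` is a `p`-th power modulo `P`, a contradiction.
File `H14NoChar`. -/
theorem no_eigencharacter_of_bounded [IsCyclotomicExtension {p} ℚ K] {ζ : 𝓞 K}
    (hζ : IsPrimitiveRoot ζ p) (h5 : 5 ≤ p)
    (hD2 : ∀ χ : ClassGroup (𝓞 K) →* ℂˣ, χ ≠ 1 → ∃ C : ℝ, ∀ s : ℝ, 1 < s → s ≤ 2 →
      ‖∑' I : (Ideal (𝓞 K))⁰, (χ (ClassGroup.mk0 I) : ℂ) *
        (((Ideal.absNorm (I : Ideal (𝓞 K)) : ℝ) ^ (-s) : ℝ) : ℂ)‖ ≤ C)
    (χ : Additive (ClassGroup (𝓞 K)) →+ ZMod p)
    (hχ : ∀ (u : (ZMod p)ˣ) (c : ClassGroup (𝓞 K)),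
      χ (Additive.ofMul (H14.classAct (H14.tau K u) c)) = (u : ZMod p) ^ 2 * χ (Additive.ofMul c)) :
    χ = 0 :=
  H14.no_char hζ h5 hD2 χ hχ

end ClassGroup

/-! ## 8. Existence of an eigencharacter

`A` is a finite abelian group (the class group of `ℚ(ζ)`), `T` an endomorphism (a generator of the
Galois group). `GuideFermatSmall.exists_eigencharacter`: if `T` has an eigenvector with eigenvalue `m`
in `A[p]`, then it has an eigenvector with eigenvalue `m` in `Hom(A, ℤ/p)`. Proof: put `f = T - m` and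
`B = f(A) + p A`. If `B = A`, then `p` is surjective on `A / f(A)`, so `p` does not divide
`#(A / f(A)) = #ker f`, but the given eigenvector has order `p` in `ker f`. So `B ≠ A`, and every
nonzero homomorphism `A / B → ℤ/p` is a solution. -/

section EigenCharacter

/-- A nonzero vector of a vector space over `𝔽_p` is not killed by all linear forms. File `H75ExistsChar`. -/
theorem exists_linear_form (p : ℕ) [Fact p.Prime] (V : Type*) [AddCommGroup V] [Module (ZMod p) V]
    (v : V) (hv : v ≠ 0) : ∃ φ : V →ₗ[ZMod p] (ZMod p), φ v ≠ 0 :=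
  H75.exists_dual_ne_zero p V v hv

/-- The same for an abelian group `V` with `p V = 0`. File `H75ExistsChar`. -/
theorem exists_hom (p : ℕ) [Fact p.Prime] (V : Type*) [AddCommGroup V] (hV : ∀ v : V, p • v = 0)
    (v : V) (hv : v ≠ 0) : ∃ φ : V →+ ZMod p, φ v ≠ 0 :=
  H75.exists_hom_ne_zero p V hV v hv

/-- If multiplication by the prime `p` is surjective on a finite abelian group `Q`, then `p` does not
divide the order of `Q`. (A step in `H75.exists_char`, with `Q = A / f(A)`.) -/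
theorem not_dvd_card_of_surjective (Q : Type*) [AddCommGroup Q] [Finite Q] (p : ℕ) [Fact p.Prime]
    (h : Function.Surjective fun y : Q => p • y) : ¬ p ∣ Nat.card Q := by
  intro hdvd
  obtain ⟨y, hy⟩ := exists_prime_addOrderOf_dvd_card' p hdvd
  have hy1 : p • y = 0 := by rw [← hy]; exact addOrderOf_nsmul_eq_zero y
  have hy0 : y = 0 := Finite.injective_iff_surjective.mpr h (by simpa using hy1)
  rw [hy0, addOrderOf_zero] at hy
  exact (Fact.out : p.Prime).one_lt.ne hy

/-- The kernel and the cokernel of an endomorphism `f` of a finite abelian group have the same number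
of elements. (A step in `H75.exists_char`.) -/
theorem card_coker_eq_card_ker (A : Type*) [AddCommGroup A] [Finite A] (f : A →+ A) :
    Nat.card (A ⧸ f.range) = Nat.card f.ker := by
  have h1 : Nat.card A = Nat.card (A ⧸ f.range) * Nat.card f.range :=
    AddSubgroup.card_eq_card_quotient_mul_card_addSubgroup f.range
  have h2 : Nat.card A = Nat.card (A ⧸ f.ker) * Nat.card f.ker :=
    AddSubgroup.card_eq_card_quotient_mul_card_addSubgroup f.ker
  have h3 : Nat.card (A ⧸ f.ker) = Nat.card f.range :=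
    Nat.card_congr (QuotientAddGroup.quotientKerEquivRange f).toEquiv
  rw [h3, h1, mul_comm (Nat.card f.range)] at h2
  exact Nat.eq_of_mul_eq_mul_right Nat.card_pos h2

end EigenCharacter

/-! ## 9. The eigenspaces of the units modulo `p`-th powers

(Text of helper46.)

Let `K` be the field of the `p`-th roots of unity, `σ` a generator of its Galois group and `E` the group
of the units of `𝓞 K`. Result (`unit_eigenspace` in `GuideFermatSmall`): for every `m` such that `σ` does
not act on the roots of unity by `m`, the `m`-eigenspace of `σ` on `E / E ^ p` has dimension at most one. The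
idea: modulo roots of unity `E` is a lattice `LL K` in the space of the real functions on the set `P` of the
infinite places, on which `σ` acts by permutation of the places. The permutation is one cycle of length
`n = (p - 1) / 2`, so the characteristic polynomial of `σ` on the space is `X ^ n - 1`, and on the lattice
it is `(X ^ n - 1) / (X - 1)`. As `n < p` this polynomial has no multiple root modulo `p`. The isomorphism
class of the lattice as a Galois module is not needed. -/

section Units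

open NumberField.Units Polynomial Module

/-- **A cyclic permutation.** Let `σ` act transitively by its powers on a finite set `P` with `n` elements.
A monic real polynomial of degree `n` which kills the operator `φ ↦ φ(σ⁻¹ ·)` on the functions on `P` is
`X ^ n - 1`. Proof: apply it to the indicator function of a point; its `n` translates are different.
File `H46UnitEigen`. -/
theorem cyclic_permutation {G P : Type*} [Group G] [MulAction G P] [Fintype P] [DecidableEq P]
    (σ : G) (w₀ : P) (htrans : ∀ w : P, ∃ k : ℤ, w = σ ^ k • w₀) (T : (P → ℝ) →ₗ[ℝ] (P → ℝ))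
    (hT : ∀ φ w, T φ w = φ (σ⁻¹ • w)) (h : ℝ[X]) (hmon : h.Monic)
    (hdeg : h.natDegree = Fintype.card P) (hkill : aeval T h = 0) :
    h = X ^ (Fintype.card P) - 1 := by
  obtain rfl : T = H46U.shiftOp σ := LinearMap.ext fun φ => funext fun w => hT φ w
  exact H46U.eq_X_pow_sub_one σ w₀ htrans h hmon hdeg hkill

/-- **The lattice of logarithms.** `LL K` is the group of the functions `w ↦ log |u|_w` on the infinite
places, `u` a unit. The kernel of the logarithm is the group of the roots of unity (theorem of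
Kronecker). If `K` has no real place, the rank of `LL K` is the rank of the unit group, all its elements
have sum zero, and they span the real vector space of the functions with sum zero (Dirichlet's unit
theorem, from Mathlib). File `H46UnitEigen`. -/
theorem lattice_of_logarithms (K : Type*) [Field K] [NumberField K]
    (hm : ∀ w : InfinitePlace K, w.mult = 2) :
    (∀ φ : InfinitePlace K → ℝ, φ ∈ H46U.LL K ↔
      ∃ u : (𝓞 K)ˣ, (fun w => Real.log (w ((u : 𝓞 K) : K))) = φ) ∧
    (∀ u : (𝓞 K)ˣ, (fun w : InfinitePlace K => Real.log (w ((u : 𝓞 K) : K))) = 0 ↔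
      u ∈ torsion K) ∧
    finrank ℤ (H46U.LL K) = Units.rank K ∧
    (∀ φ ∈ H46U.LL K, ∑ w, φ w = 0) ∧
    ∀ φ : InfinitePlace K → ℝ, ∑ w, φ w = 0 →
      φ ∈ Submodule.span ℝ (H46U.LL K : Set (InfinitePlace K → ℝ)) := by
  refine ⟨fun φ => Iff.rfl, fun u => H46U.logMap_eq_zero u, H46U.finrank_LL hm, ?_, fun φ hφ => ?_⟩
  · rintro _ ⟨x, rfl⟩
    exact H46U.logMap_sum hm x
  · have h := H46U.logMap_span hm φ hφ
    rwa [show (Set.range (H46U.logMap K)) = (H46U.LL K : Set (InfinitePlace K → ℝ)) from rfl] at h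

/-- **The places form one orbit**: the Galois group of a Galois extension `K / ℚ` is transitive on the
infinite places; here it is generated by `σ`. File `H46UnitEigen`. -/
theorem places_one_orbit {K : Type*} [Field K] [NumberField K] (σ : K ≃ₐ[ℚ] K) [IsGalois ℚ K]
    (hσ : ∀ τ : K ≃ₐ[ℚ] K, τ ∈ Subgroup.zpowers σ) (w w' : InfinitePlace K) :
    ∃ k : ℤ, w = σ ^ k • w' :=
  H46U.exists_zpow_smul σ hσ w w'

/-- **The characteristic polynomial of `σ` on the lattice of logarithms**, multiplied by `X - 1`, is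
`X ^ n - 1`, `n` the number of the infinite places. (`H46U.TL σ` is the action of `σ` on the lattice, that
is, on units modulo roots of unity.) Proof: the polynomial times `X - 1` kills the whole space of
functions on the places, because `σ - 1` maps it to the functions with sum zero, the real span of the
lattice; apply `cyclic_permutation`. File `H46UnitEigen`. -/
theorem charpoly_on_units {K : Type*} [Field K] [NumberField K] (σ : K ≃ₐ[ℚ] K) [IsGalois ℚ K]
    (hm : ∀ w : InfinitePlace K, w.mult = 2) (hσ : ∀ τ : K ≃ₐ[ℚ] K, τ ∈ Subgroup.zpowers σ) :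
    (∀ (φ : H46U.LL K) (w : InfinitePlace K),
      ((H46U.TL σ φ : H46U.LL K) : InfinitePlace K → ℝ) w =
        (φ : InfinitePlace K → ℝ) (σ⁻¹ • w)) ∧
    (H46U.TL σ).charpoly * (X - 1) = X ^ (Fintype.card (InfinitePlace K)) - 1 :=
  ⟨fun φ w => congrFun (H46U.TL_coe σ φ) w, H46U.charpoly_TL σ hm hσ⟩

/-- **Eigenvectors modulo `p`.** Let `T` be an endomorphism of a lattice `L` whose characteristic polynomial
times `X - 1` is `X ^ n - 1`, with `0 < n < p`. If `x` and `y` are eigenvectors of `T` modulo `p` with the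
same eigenvalue `m`, and `y` is not divisible by `p`, then `x` is a multiple of `y` modulo `p`. Proof:
`X ^ n - 1` is separable modulo `p`, so all eigenspaces of `T` modulo `p` have dimension at most one.
File `H46UnitEigen`. -/
theorem eigenvectors_mod_p {L : Type*} [AddCommGroup L] [Module.Free ℤ L] [Module.Finite ℤ L]
    {p : ℕ} [Fact p.Prime] (T : L →ₗ[ℤ] L) (n : ℕ) (hn : 0 < n) (hnp : n < p)
    (hT : T.charpoly * (X - 1) = X ^ n - 1) (m : ℤ) (x y a b : L)
    (hx : T x = m • x + (p : ℤ) • a) (hy : T y = m • y + (p : ℤ) • b)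
    (hy0 : ∀ z : L, y ≠ (p : ℤ) • z) : ∃ (k : ℕ) (z : L), x = k • y + (p : ℤ) • z :=
  H46U.eigen_mod_p T n hn hnp hT m x y a b hx hy hy0

/-- **The roots of unity do not disturb.** Every root of unity of `K` is `ζ ^ r w ^ p` with a unit `w` (they
are the `± ζ ^ r`). If `ζ` itself is not an `m`-eigenvector of `σ` modulo `p`-th powers, then `ζ ^ r` is
one only if `p` divides `r`, and then it is a `p`-th power. So an `m`-eigenvector of `E / E ^ p` whose
logarithm is divisible by `p` is trivial. File `H46UnitEigen`. -/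
theorem roots_of_unity_mod_p {p : ℕ} [Fact p.Prime] (hp : 3 ≤ p) {K : Type*} [Field K]
    [NumberField K] [IsCyclotomicExtension {p} ℚ K] (ζ : (𝓞 K)ˣ) (hζ : IsPrimitiveRoot ζ p) :
    (∀ t ∈ torsion K, ∃ (r : ℕ) (w : (𝓞 K)ˣ), t = ζ ^ r * w ^ p) ∧
    ∀ (σ : K ≃ₐ[ℚ] K) (m : ℕ), (∀ x : K, σ (ζ : K) ≠ (ζ : K) ^ m * x ^ p) →
      ∀ (r : ℕ) (z : K), σ ((ζ : K) ^ r) = ((ζ : K) ^ r) ^ m * z ^ p → p ∣ r := by
  have hζK : IsPrimitiveRoot (ζ : K) p :=
    (hζ.map_of_injective (f := (Units.coeHom (𝓞 K))) Units.val_injective).map_of_injective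
      (f := algebraMap (𝓞 K) K) RingOfIntegers.coe_injective
  exact ⟨fun t ht => H46U.torsion_form hp ζ hζ t ht,
    fun σ m hm r z h => H46U.root_dvd (ζ : K) hζK σ m hm r z h⟩

/-- If the `p`-th power of an element of `K` is a unit, the element is a unit. File `H46UnitEigen`. -/
theorem unit_of_pow {p : ℕ} (hp : p ≠ 0) {K : Type*} [Field K] [NumberField K] (x : K)
    (u : (𝓞 K)ˣ) (h : x ^ p = (u : K)) : ∃ w : (𝓞 K)ˣ, (w : K) = x :=
  H46U.unit_of_pow hp x u h

end Units

/-! ## 10. The end of the proof -/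

/-- **The class of `𝔞`.** Let `(a) = 𝔞 ^ p` and `σ a = a ^ m x ^ p`. Then `σ 𝔞` is `𝔞 ^ m` times a principal
fractional ideal, so `σ` maps the class of `𝔞` to its `m`-th power. (The class is also killed by `p`.) With
`m = u ^ 2`, section 8 and section 7 it follows that `𝔞` is principal. File `H14Assembly`. -/
theorem class_of_ideal {K : Type} [Field K] [NumberField K] {p : ℕ} (hp : p ≠ 0) (σ : K ≃ₐ[ℚ] K)
    (a : 𝓞 K) (ha0 : a ≠ 0) (𝔞 : Ideal (𝓞 K)) (h𝔞 : Ideal.span {a} = 𝔞 ^ p)
    (h𝔞0 : 𝔞 ∈ (Ideal (𝓞 K))⁰) (m : ℕ) (x : K) (hx : σ (a : K) = (a : K) ^ m * x ^ p) :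
    (∃ x1 x2 : 𝓞 K, x1 ≠ 0 ∧ x2 ≠ 0 ∧
      Ideal.span {x2} * (σ • 𝔞) = Ideal.span {x1} * 𝔞 ^ m) ∧
    H14.classAct σ (ClassGroup.mk0 ⟨𝔞, h𝔞0⟩) = (ClassGroup.mk0 ⟨𝔞, h𝔞0⟩) ^ m :=
  ⟨H14.exists_ideal_eq hp σ a ha0 𝔞 h𝔞 m x hx, H14.classAct_eq_pow hp σ a ha0 𝔞 h𝔞 h𝔞0 m x hx⟩

/-- **Powers of `ζ`** with different exponents modulo `p` do not differ by a `p`-th power of an element of
`K = ℚ(ζ)`, `p ≥ 3`: there is no root of unity of order `p ^ 2` in `K`. So the eigenvalue `u ^ 2` of `a`
is not the eigenvalue `u` of `ζ` if `u ≠ 1`, and section 9 applies. File `H14Assembly`. -/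
theorem powers_of_zeta {p : ℕ} [Fact p.Prime] {K : Type} [Field K] [NumberField K]
    [IsCyclotomicExtension {p} ℚ K] {ζ : 𝓞 K} (hζ : IsPrimitiveRoot ζ p) (h3 : 3 ≤ p) (m m' : ℕ)
    (hm : (m : ZMod p) ≠ (m' : ZMod p)) (x : K) : (ζ : K) ^ m ≠ (ζ : K) ^ m' * x ^ p :=
  H14.zeta_pow_ne_pow hζ h3 m m' hm x

/-- **S14**, given the boundedness of the L-series (`hD2`). Proof: suppose that the extension does not
split and let `a`, `𝔞` be as in `GuideFermatSmall.exists_kummer_generator`.
* `p = 3`: `ℤ[ζ]` is a principal ideal domain, so `a` is a unit times a cube. The unit is congruent to a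
  rational integer modulo `(1 - ζ) ^ 2`, hence it is `± 1`, and `a` is a cube: a contradiction.
* `p ≥ 5`: let `u` generate `(ℤ/p)ˣ`. By `class_of_ideal` the class of `𝔞` is an eigenvector of `τ_u` for
  `u ^ 2`, killed by `p`. If it were not trivial there would be an eigencharacter (section 8), which
  contradicts section 7. So `a` is a unit times a `p`-th power, and the unit is an eigenvector for
  `u ^ 2`. So is the cyclotomic unit `E` (`GuideFermatSmall.cyclotomicUnit_eigen`), which is not a `p`-th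
  power. By section 9 `a = E ^ k y ^ p`, and by section 6 `p` divides `k`: `a` is a `p`-th power, a
  contradiction.
File `H14Assembly`. -/
theorem extensions_split_of_bounded {p : ℕ} [Fact p.Prime] (h3 : 3 ≤ p)
    (hD2 : ∀ (K : Type) [Field K] [NumberField K] (χ : ClassGroup (𝓞 K) →* ℂˣ), χ ≠ 1 →
      ∃ C : ℝ, ∀ s : ℝ, 1 < s → s ≤ 2 →
      ‖∑' I : (Ideal (𝓞 K))⁰, (χ (ClassGroup.mk0 I) : ℂ) *
        (((Ideal.absNorm (I : Ideal (𝓞 K)) : ℝ) ^ (-s) : ℝ) : ℂ)‖ ≤ C) :
    ExtVanishingCts p :=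
  H14.extVanishing_of_bounded h3 hD2

end Fermat.Agent.Guide.ExtensionSteps
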