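import Mathlib

/-! Sophie Germain's theorem: first case of Fermat's last theorem for exponents 5, 7, 11, 13. -/

set_option autoImplicit false

namespace Fermat.Agent.H1

open Finset

/-- The cofactor of `u + v` in `u ^ p + v ^ p`. -/
def gPhi {R : Type*} [CommRing R] (p : ℕ) (u v : R) : R :=
  ∑ i ∈ range p, u ^ i * (-v) ^ (p - 1 - i)

lemma gPhi_mul {R : Type*} [CommRing R] {p : ℕ} (hp : Odd p) (u v : R) :
    gPhi p u v * (u + v) = u ^ p + v ^ p := by
  have := (Commute.all u (-v)).geom_sum₂_mul p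
  rw [gPhi]
  rw [sub_neg_eq_add, hp.neg_pow, sub_neg_eq_add] at this
  exact this

lemma gPhi_map {R S : Type*} [CommRing R] [CommRing S] (f : R →+* S) (p : ℕ) (u v : R) :
    f (gPhi p u v) = gPhi p (f u) (f v) := by
  simp [gPhi]

lemma gPhi_of_add_eq_zero {R : Type*} [CommRing R] {p : ℕ} (hp : 0 < p) {u v : R}
    (h : u + v = 0) : gPhi p u v = p * u ^ (p - 1) := by
  have hv : -v = u := by rw [← add_eq_zero_iff_neg_eq']; exact h
  rw [gPhi, hv]
  rw [Finset.sum_congr rfl (g := fun _ => u ^ (p - 1))]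
  · simp
  · intro i hi
    rw [mem_range] at hi
    rw [← pow_add]
    congr 1
    omega

lemma gPhi_zero_right {R : Type*} [CommRing R] {p : ℕ} (hp : 0 < p) (u : R) :
    gPhi p u 0 = u ^ (p - 1) := by
  obtain ⟨k, rfl⟩ : ∃ k, p = k + 1 := ⟨p - 1, by omega⟩
  rw [gPhi, Finset.sum_range_succ]
  rw [Finset.sum_eq_zero]
  · simp
  · intro i hi
    rw [mem_range] at hi
    have : k - i ≠ 0 := by omega
    simp [zero_pow this]

/-- `gcd (u+v, Φ(u,v))` is one if `p` does not divide `u ^ p + v ^ p` and `u,v` are coprime. -/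
lemma gPhi_coprime {p : ℕ} (hp : p.Prime) (hodd : Odd p) {u v w : ℤ} (huv : IsCoprime u v)
    (h : u ^ p + v ^ p = w ^ p) (hw : ¬ (p : ℤ) ∣ w) : IsCoprime (gPhi p u v) (u + v) := by
  rw [Int.isCoprime_iff_gcd_eq_one]
  by_contra hne
  obtain ⟨r, hr, hrd⟩ := Nat.exists_prime_and_dvd hne
  have hr1 : (r : ℤ) ∣ gPhi p u v :=
    (Int.natCast_dvd_natCast.mpr hrd).trans (Int.gcd_dvd_left _ _)
  have hr2 : (r : ℤ) ∣ u + v :=
    (Int.natCast_dvd_natCast.mpr hrd).trans (Int.gcd_dvd_right _ _)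
  have : Fact r.Prime := ⟨hr⟩
  have e1 : ((u : ZMod r)) + (v : ZMod r) = 0 := by
    have := (ZMod.intCast_zmod_eq_zero_iff_dvd (u + v) r).mpr hr2
    simpa using this
  have e2 : gPhi p (u : ZMod r) (v : ZMod r) = 0 := by
    have := (ZMod.intCast_zmod_eq_zero_iff_dvd (gPhi p u v) r).mpr hr1
    have h2 := gPhi_map (Int.castRingHom (ZMod r)) p u v
    simp only [eq_intCast] at h2
    rw [← h2]
    exact this
  rw [gPhi_of_add_eq_zero hp.pos e1] at e2
  rcases mul_eq_zero.mp e2 with e | e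
  · -- r = p
    have hrp : r ∣ p := (ZMod.natCast_eq_zero_iff p r).mp e
    have : r = p := (Nat.prime_dvd_prime_iff_eq hr hp).mp hrp
    subst this
    apply hw
    have : (r : ℤ) ∣ w ^ r := by
      rw [← h, ← gPhi_mul hodd]
      exact dvd_mul_of_dvd_right hr2 _
    exact Int.Prime.dvd_pow' hp this
  · have hu0 : (u : ZMod r) = 0 := pow_eq_zero_iff (by have := hp.two_le; omega) |>.mp e
    have hv0 : (v : ZMod r) = 0 := by rw [hu0, zero_add] at e1; exact e1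
    have d1 : (r : ℤ) ∣ u := (ZMod.intCast_zmod_eq_zero_iff_dvd u r).mp hu0
    have d2 : (r : ℤ) ∣ v := (ZMod.intCast_zmod_eq_zero_iff_dvd v r).mp hv0
    have := huv.isUnit_of_dvd' d1 d2
    rw [Int.isUnit_iff_natAbs_eq] at this
    simp at this
    exact hr.one_lt.ne' this

/-- Both factors are `p`-th powers. -/
lemma exists_factors {p : ℕ} (hp : p.Prime) (hodd : Odd p) {u v w : ℤ} (huv : IsCoprime u v)
    (h : u ^ p + v ^ p = w ^ p) (hw : ¬ (p : ℤ) ∣ w) :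
    ∃ a t : ℤ, u + v = a ^ p ∧ gPhi p u v = t ^ p ∧ w = a * t := by
  have hc := gPhi_coprime hp hodd huv h hw
  have hm : gPhi p u v * (u + v) = w ^ p := by rw [gPhi_mul hodd, h]
  obtain ⟨t, ht⟩ := Int.eq_pow_of_mul_eq_pow_odd_left hc hodd hm
  obtain ⟨a, ha⟩ := Int.eq_pow_of_mul_eq_pow_odd_right hc hodd hm
  refine ⟨a, t, ha, ht, ?_⟩
  have : w ^ p = (a * t) ^ p := by rw [← hm, ht, ha]; ring
  exact hodd.strictMono_pow.injective this

/-- Key step of Germain's theorem: the auxiliary prime `q` cannot divide `x`. -/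
lemma germain_aux {p q : ℕ} (hp : p.Prime) (hodd : Odd p) [Fact q.Prime]
    (h1 : ∀ x y z : ZMod q, x ^ p + y ^ p + z ^ p = 0 → x = 0 ∨ y = 0 ∨ z = 0)
    (h2 : ∀ x : ZMod q, x ^ p ≠ (p : ZMod q))
    {x y z : ℤ} (hxy : IsCoprime x y) (hyz : IsCoprime y z) (hxz : IsCoprime x z)
    (h : x ^ p + y ^ p + z ^ p = 0) (hpx : ¬ (p : ℤ) ∣ x) (hpy : ¬ (p : ℤ) ∣ y)
    (hpz : ¬ (p : ℤ) ∣ z) (hqx : (x : ZMod q) = 0) : False := by
  have key : ∀ u v w : ℤ, u ^ p + v ^ p + w ^ p = 0 → u ^ p + v ^ p = (-w) ^ p := by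
    intro u v w h
    rw [hodd.neg_pow]
    linarith
  obtain ⟨a, t, ha, ht, hx'⟩ := exists_factors hp hodd hyz (key y z x (by linarith)) (by rwa [dvd_neg])
  obtain ⟨b, s, hb, hs, hy'⟩ := exists_factors hp hodd (hxz.symm) (key z x y (by linarith)) (by rwa [dvd_neg])
  obtain ⟨c, r, hc, hr, hz'⟩ := exists_factors hp hodd hxy (key x y z (by linarith)) (by rwa [dvd_neg])
  have hynz : (y : ZMod q) ≠ 0 := by
    intro hy0
    have d1 : (q : ℤ) ∣ x := (ZMod.intCast_zmod_eq_zero_iff_dvd x q).mp hqx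
    have d2 : (q : ℤ) ∣ y := (ZMod.intCast_zmod_eq_zero_iff_dvd y q).mp hy0
    have := hxy.isUnit_of_dvd' d1 d2
    rw [Int.isUnit_iff_natAbs_eq] at this
    simp at this
    exact (Fact.out : q.Prime).one_lt.ne' this
  have hznz : (z : ZMod q) ≠ 0 := by
    intro hz0
    have d1 : (q : ℤ) ∣ x := (ZMod.intCast_zmod_eq_zero_iff_dvd x q).mp hqx
    have d2 : (q : ℤ) ∣ z := (ZMod.intCast_zmod_eq_zero_iff_dvd z q).mp hz0
    have := hxz.isUnit_of_dvd' d1 d2
    rw [Int.isUnit_iff_natAbs_eq] at this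
    simp at this
    exact (Fact.out : q.Prime).one_lt.ne' this
  have hsum : (b : ZMod q) ^ p + (c : ZMod q) ^ p + (-(a : ZMod q)) ^ p = 0 := by
    rw [hodd.neg_pow]
    have e : b ^ p + c ^ p - a ^ p = 2 * x := by rw [← ha, ← hb, ← hc]; ring
    have e' : ((b ^ p + c ^ p - a ^ p : ℤ) : ZMod q) = ((2 * x : ℤ) : ZMod q) := by rw [e]
    push_cast at e'
    rw [hqx, mul_zero] at e'
    rw [← e']; ring
  have hyc : (y : ZMod q) = -((b : ZMod q) * s) := by
    have : ((-y : ℤ) : ZMod q) = ((b * s : ℤ) : ZMod q) := by rw [hy']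
    push_cast at this
    rw [← this, neg_neg]
  have hzc : (z : ZMod q) = -((c : ZMod q) * r) := by
    have : ((-z : ℤ) : ZMod q) = ((c * r : ℤ) : ZMod q) := by rw [hz']
    push_cast at this
    rw [← this, neg_neg]
  have ha0 : (a : ZMod q) = 0 := by
    rcases h1 _ _ _ hsum with h | h | h
    · exfalso; apply hynz; rw [hyc, h]; ring
    · exfalso; apply hznz; rw [hzc, h]; ring
    · exact neg_eq_zero.mp h
  have hyz0 : (y : ZMod q) + z = 0 := by
    have : ((y + z : ℤ) : ZMod q) = ((a ^ p : ℤ) : ZMod q) := by rw [ha]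
    push_cast at this
    rw [this, ha0, zero_pow hp.ne_zero]
  have ht' : (t : ZMod q) ^ p = p * (y : ZMod q) ^ (p - 1) := by
    rw [← gPhi_of_add_eq_zero hp.pos hyz0]
    have h2 := gPhi_map (Int.castRingHom (ZMod q)) p y z
    simp only [eq_intCast] at h2
    rw [← h2, ht]; push_cast; rfl
  have hs' : (s : ZMod q) ^ p = (y : ZMod q) ^ (p - 1) := by
    have h2 := gPhi_map (Int.castRingHom (ZMod q)) p z x
    simp only [eq_intCast] at h2
    rw [hs, hqx, gPhi_zero_right hp.pos] at h2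
    push_cast at h2
    rw [h2]
    have : (z : ZMod q) = -y := by rw [← add_eq_zero_iff_eq_neg']; exact hyz0
    rw [this]
    exact (Nat.Odd.sub_odd hodd odd_one).neg_pow _
  have hsnz : (s : ZMod q) ≠ 0 := by
    intro h0; apply hynz; rw [hyc, h0]; ring
  apply h2 ((t : ZMod q) / s)
  rw [div_pow, ht', hs']
  field_simp

theorem germain {p q : ℕ} (hp : p.Prime) (hodd : Odd p) [Fact q.Prime]
    (h1 : ∀ x y z : ZMod q, x ^ p + y ^ p + z ^ p = 0 → x = 0 ∨ y = 0 ∨ z = 0)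
    (h2 : ∀ x : ZMod q, x ^ p ≠ (p : ZMod q))
    {x y z : ℤ} (hxy : IsCoprime x y) (hyz : IsCoprime y z) (hxz : IsCoprime x z)
    (h : x ^ p + y ^ p + z ^ p = 0) : (p : ℤ) ∣ x * y * z := by
  by_contra hn
  have hpx : ¬ (p : ℤ) ∣ x := fun hd => hn (by rw [mul_assoc]; exact dvd_mul_of_dvd_left hd _)
  have hpy : ¬ (p : ℤ) ∣ y := fun hd => hn (dvd_mul_of_dvd_left (dvd_mul_of_dvd_right hd _) _)
  have hpz : ¬ (p : ℤ) ∣ z := fun hd => hn (dvd_mul_of_dvd_right hd _)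
  have hq : (x : ZMod q) = 0 ∨ (y : ZMod q) = 0 ∨ (z : ZMod q) = 0 := by
    apply h1
    have : ((x ^ p + y ^ p + z ^ p : ℤ) : ZMod q) = ((0 : ℤ) : ZMod q) := by rw [h]
    push_cast at this
    exact this
  rcases hq with hq | hq | hq
  · exact germain_aux hp hodd h1 h2 hxy hyz hxz h hpx hpy hpz hq
  · exact germain_aux hp hodd h1 h2 hyz hxz.symm hxy.symm (by linarith) hpy hpz hpx hq
  · exact germain_aux hp hodd h1 h2 hxz.symm hxy hyz.symm (by linarith) hpz hpx hpy hq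

/-- A finite criterion for the first hypothesis of Germain's theorem. -/
lemma germain_cond {p q : ℕ} [Fact q.Prime] (hp : p ≠ 0) (S : Finset (ZMod q))
    (hS : ∀ x : ZMod q, x ^ p ∈ S)
    (hS2 : ∀ a ∈ S, ∀ b ∈ S, ∀ c ∈ S, a + b + c = 0 → a = 0 ∨ b = 0 ∨ c = 0) :
    ∀ x y z : ZMod q, x ^ p + y ^ p + z ^ p = 0 → x = 0 ∨ y = 0 ∨ z = 0 := by
  intro x y z h
  rcases hS2 _ (hS x) _ (hS y) _ (hS z) h with h | h | h
  · exact Or.inl (pow_eq_zero_iff hp |>.mp h)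
  · exact Or.inr (Or.inl (pow_eq_zero_iff hp |>.mp h))
  · exact Or.inr (Or.inr (pow_eq_zero_iff hp |>.mp h))

section Finite

lemma g11a : ∀ x : ZMod 11, x ^ 5 ∈ ({0, 1, 10} : Finset (ZMod 11)) := by decide
lemma g11b : ∀ a ∈ ({0, 1, 10} : Finset (ZMod 11)), ∀ b ∈ ({0, 1, 10} : Finset (ZMod 11)),
    ∀ c ∈ ({0, 1, 10} : Finset (ZMod 11)), a + b + c = 0 → a = 0 ∨ b = 0 ∨ c = 0 := by decide
lemma g11c : ∀ x : ZMod 11, x ^ 5 ≠ ((5 : ℕ) : ZMod 11) := by decide

lemma g29a : ∀ x : ZMod 29, x ^ 7 ∈ ({0, 1, 28, 12, 17} : Finset (ZMod 29)) := by decide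
lemma g29b : ∀ a ∈ ({0, 1, 28, 12, 17} : Finset (ZMod 29)),
    ∀ b ∈ ({0, 1, 28, 12, 17} : Finset (ZMod 29)),
    ∀ c ∈ ({0, 1, 28, 12, 17} : Finset (ZMod 29)),
      a + b + c = 0 → a = 0 ∨ b = 0 ∨ c = 0 := by decide
lemma g29c : ∀ x : ZMod 29, x ^ 7 ≠ ((7 : ℕ) : ZMod 29) := by decide

lemma g23a : ∀ x : ZMod 23, x ^ 11 ∈ ({0, 1, 22} : Finset (ZMod 23)) := by decide
lemma g23b : ∀ a ∈ ({0, 1, 22} : Finset (ZMod 23)), ∀ b ∈ ({0, 1, 22} : Finset (ZMod 23)),
    ∀ c ∈ ({0, 1, 22} : Finset (ZMod 23)), a + b + c = 0 → a = 0 ∨ b = 0 ∨ c = 0 := by decide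
lemma g23c : ∀ x : ZMod 23, x ^ 11 ≠ ((11 : ℕ) : ZMod 23) := by decide

set_option maxRecDepth 100000 in
lemma g53a : ∀ x : ZMod 53, x ^ 13 ∈ ({0, 1, 52, 23, 30} : Finset (ZMod 53)) := by decide
set_option maxRecDepth 100000 in
lemma g53b : ∀ a ∈ ({0, 1, 52, 23, 30} : Finset (ZMod 53)),
    ∀ b ∈ ({0, 1, 52, 23, 30} : Finset (ZMod 53)),
    ∀ c ∈ ({0, 1, 52, 23, 30} : Finset (ZMod 53)),
      a + b + c = 0 → a = 0 ∨ b = 0 ∨ c = 0 := by decide
set_option maxRecDepth 100000 in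
lemma g53c : ∀ x : ZMod 53, x ^ 13 ≠ ((13 : ℕ) : ZMod 53) := by decide

end Finite

theorem case_one_coprime {p : ℕ} (hp : p = 5 ∨ p = 7 ∨ p = 11 ∨ p = 13)
    {x y z : ℤ} (hxy : IsCoprime x y) (hyz : IsCoprime y z) (hxz : IsCoprime x z)
    (h : x ^ p + y ^ p + z ^ p = 0) : (p : ℤ) ∣ x * y * z := by
  rcases hp with rfl | rfl | rfl | rfl
  · have : Fact (Nat.Prime 11) := ⟨by norm_num⟩
    refine germain (q := 11) (by norm_num) (by decide) ?_ ?_ hxy hyz hxz h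
    · exact germain_cond (by norm_num) {0, 1, 10} g11a g11b
    · exact g11c
  · have : Fact (Nat.Prime 29) := ⟨by norm_num⟩
    refine germain (q := 29) (by norm_num) (by decide) ?_ ?_ hxy hyz hxz h
    · exact germain_cond (by norm_num) {0, 1, 28, 12, 17} g29a g29b
    · exact g29c
  · have : Fact (Nat.Prime 23) := ⟨by norm_num⟩
    refine germain (q := 23) (by norm_num) (by decide) ?_ ?_ hxy hyz hxz h
    · exact germain_cond (by norm_num) {0, 1, 22} g23a g23b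
    · exact g23c
  · have : Fact (Nat.Prime 53) := ⟨by norm_num⟩
    refine germain (q := 53) (by norm_num) (by decide) ?_ ?_ hxy hyz hxz h
    · exact germain_cond (by norm_num) {0, 1, 52, 23, 30} g53a g53b
    · exact g53c

/-- First case of FLT for exponents `5, 7, 11, 13`. -/
theorem case_one {p : ℕ} (hp : p = 5 ∨ p = 7 ∨ p = 11 ∨ p = 13)
    {x y z : ℤ} (hxy : IsCoprime x y) (h : x ^ p + y ^ p = z ^ p) : (p : ℤ) ∣ x * y * z := by
  have hodd : Odd p := by rcases hp with rfl | rfl | rfl | rfl <;> decide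
  have hp0 : 0 < p := hodd.pos
  have hxz : IsCoprime x z := by
    have h1 : IsCoprime (x ^ p) (z ^ p) := by
      rw [← h]
      have := IsCoprime.add_mul_left_right (hxy.pow (m := p) (n := p)) 1
      rwa [mul_one, add_comm] at this
    exact (IsCoprime.pow_iff hp0 hp0).mp h1
  have hyz : IsCoprime y z := by
    have h1 : IsCoprime (y ^ p) (z ^ p) := by
      rw [← h]
      have := IsCoprime.add_mul_left_right (hxy.symm.pow (m := p) (n := p)) 1
      rwa [mul_one] at this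
    exact (IsCoprime.pow_iff hp0 hp0).mp h1
  have := case_one_coprime hp (x := x) (y := y) (z := -z) hxy hyz.neg_right hxz.neg_right
    (by rw [hodd.neg_pow, h]; ring)
  rw [mul_neg, dvd_neg] at this
  exact this

end Fermat.Agent.H1
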