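import Mathlib

/-!
Case II of Fermat's Last Theorem for a prime `p`, in an abstract principal ideal domain `R`
containing a primitive `p`-th root of unity and satisfying Kummer's lemma.
-/

set_option autoImplicit false

namespace Fermat.Agent.H2

open Polynomial

/-- The data needed for Kummer's Case II descent. -/
structure KummerRing (p : ℕ) (R : Type*) [CommRing R] (ζ : R) : Prop where
  prim : IsPrimitiveRoot ζ p
  lam_prime : Prime (ζ - 1)
  /-- the residue field at `ζ - 1` is `F_p` -/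
  resid : ∀ x : R, ∃ m : ℤ, ζ - 1 ∣ x - m
  /-- `ζ - 1` divides an integer only if `p` does. -/
  int_dvd : ∀ m : ℤ, ζ - 1 ∣ (m : R) → (p : ℤ) ∣ m
  /-- `p` divides `(ζ-1)^(p-1)` -/
  p_dvd : (p : R) ∣ (ζ - 1) ^ (p - 1)
  pow_int : ∀ x : R, ∃ m : ℤ, (p : R) ∣ x ^ p - m
  kummer : ∀ (u : Rˣ) (m : ℤ), (p : R) ∣ (u : R) - m → ∃ w : Rˣ, w ^ p = u

variable {p : ℕ} {R : Type*} [CommRing R] [IsDomain R] {ζ : R}

omit [IsDomain R] in
theorem geom_sum_sub_dvd (ζ : R) (k : ℕ) : ζ - 1 ∣ (∑ i ∈ Finset.range k, ζ ^ i) - k := by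
  have : (∑ i ∈ Finset.range k, ζ ^ i) - k = ∑ i ∈ Finset.range k, (ζ ^ i - 1) := by
    simp
  rw [this]
  apply Finset.dvd_sum
  intro i _
  simpa using sub_dvd_pow_sub_pow ζ 1 i

section

variable (hp : p.Prime) (H : KummerRing p R ζ)

include hp H

theorem KummerRing.dvd_p : ζ - 1 ∣ (p : R) := H.prim.sub_one_dvd_natCast hp.one_lt

theorem lam_dvd_factor {x y : R} (h : ζ - 1 ∣ x ^ p + y ^ p) (hodd : Odd p)
    {η : R} (hη : η ∈ nthRootsFinset p (1 : R)) : ζ - 1 ∣ x + η * y := by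
  rw [H.prim.pow_add_pow_eq_prod_add_mul _ _ hodd] at h
  obtain ⟨η', hη', h'⟩ := (H.lam_prime.dvd_finsetProd_iff _).1 h
  have h1 : ζ - 1 ∣ η - η' := H.prim.sub_one_dvd_sub hp hη hη'
  have : x + η * y = (x + η' * y) + (η - η') * y := by ring
  rw [this]
  exact dvd_add h' (Dvd.dvd.mul_right h1 y)

theorem exists_sq_dvd {x y : R} (h : ζ - 1 ∣ x ^ p + y ^ p) (hodd : Odd p)
    (hy : ¬ ζ - 1 ∣ y) : ∃ k : ℕ, (ζ - 1) ^ 2 ∣ x + ζ ^ k * y := by
  have h1 : ζ - 1 ∣ x + 1 * y := lam_dvd_factor hp H h hodd (one_mem_nthRootsFinset hp.pos)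
  rw [one_mul] at h1
  obtain ⟨g, hg⟩ := h1
  obtain ⟨b, hb⟩ := H.resid y
  obtain ⟨c, hc⟩ := H.resid g
  have hbp : ¬ (p : ℤ) ∣ b := by
    intro hpb
    apply hy
    have h2 : ζ - 1 ∣ (b : R) := by
      have h3 : ((p : ℤ) : R) ∣ (b : R) := by
        simpa only [eq_intCast] using map_dvd (Int.castRingHom R) hpb
      refine (H.dvd_p hp).trans ?_
      simpa using h3
    simpa using dvd_add hb h2
  have hcop : IsCoprime b (p : ℤ) := by
    have := (Nat.prime_iff_prime_int.1 hp).coprime_iff_not_dvd.2 hbp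
    exact this.symm
  obtain ⟨s, t, hst⟩ := hcop
  -- k ≡ - c * s mod p
  have hppos : (0 : ℤ) < p := by exact_mod_cast hp.pos
  refine ⟨((-c * s) % p).toNat, ?_⟩
  set k := ((-c * s) % p).toNat with hk
  have hk' : (k : ℤ) = (-c * s) % p := Int.toNat_of_nonneg (Int.emod_nonneg _ hppos.ne')
  have hkdvd : (p : ℤ) ∣ c + k * b := by
    have h4 : (p : ℤ) ∣ -c * s - (-c * s) % p := by
      exact Int.dvd_self_sub_emod
    rw [← hk'] at h4
    obtain ⟨q, hq⟩ := h4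
    refine ⟨c * t - q * b, ?_⟩
    have : (k : ℤ) = - c * s - p * q := by linarith
    rw [this]
    have hst' : c = c * (s * b + t * p) := by rw [hst, mul_one]
    linear_combination hst'
  have hgs := geom_sum_sub_dvd ζ k
  set S := ∑ i ∈ Finset.range k, ζ ^ i with hS
  have hpow : ζ ^ k - 1 = (ζ - 1) * S := by
    rw [hS, mul_geom_sum]
  have hx : x + ζ ^ k * y = (ζ - 1) * (g + S * y) := by
    have h5 : x + ζ ^ k * y = (x + y) + (ζ ^ k - 1) * y := by ring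
    rw [h5, hg, hpow]; ring
  rw [hx, pow_two]
  apply mul_dvd_mul_left
  have h6 : g + S * y = (g - c) + (S - k) * y + k * (y - b) + ((c + k * b : ℤ) : R) := by
    push_cast; ring
  rw [h6]
  have h7 : ζ - 1 ∣ ((c + k * b : ℤ) : R) := by
    have h3 : ((p : ℤ) : R) ∣ ((c + k * b : ℤ) : R) := by
      simpa only [eq_intCast] using map_dvd (Int.castRingHom R) hkdvd
    refine (H.dvd_p hp).trans ?_
    simpa using h3
  exact dvd_add (dvd_add (dvd_add hc (hgs.mul_right _)) (hb.mul_left _)) h7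

/-- **Case II** (Kummer's descent). -/
theorem caseII [IsPrincipalIdealRing R] (hp3 : 3 < p) :
    ∀ (n : ℕ) (x y z : R) (ε : Rˣ), IsCoprime x y → ¬ ζ - 1 ∣ z →
      x ^ p + y ^ p = ε * ((ζ - 1) ^ (n + 1) * z) ^ p → False := by
  classical
  have hodd : Odd p := hp.odd_of_ne_two (by omega)
  have hlam := H.lam_prime
  have hp0 : p ≠ 0 := hp.ne_zero
  have : NeZero p := ⟨hp0⟩
  intro n
  induction n using Nat.strong_induction_on with
  | _ n IH =>
  intro x y z ε hxy hz heq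
  have hdiv : ζ - 1 ∣ x ^ p + y ^ p := by
    rw [heq]
    apply Dvd.dvd.mul_left
    apply dvd_pow _ hp0
    apply Dvd.dvd.mul_right
    exact dvd_pow_self _ (Nat.succ_ne_zero n)
  have hyl : ¬ ζ - 1 ∣ y := by
    intro h
    have h1 : ζ - 1 ∣ x ^ p := by
      have h2 := dvd_sub hdiv (dvd_pow h hp0)
      simpa using h2
    have h3 : ζ - 1 ∣ x := hlam.dvd_of_dvd_pow h1
    exact hlam.not_isUnit (hxy.isUnit_of_dvd' h3 h)
  obtain ⟨k0, hsq⟩ := exists_sq_dvd hp H hdiv hodd hyl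
  have hζu : IsUnit ζ := H.prim.isUnit hp0
  -- replace y
  obtain ⟨y', hy'⟩ : ∃ y', y' = ζ ^ k0 * y := ⟨_, rfl⟩
  have hy'l : ¬ ζ - 1 ∣ y' := by
    rw [hy']
    intro h
    rcases hlam.dvd_or_dvd h with h | h
    · exact hlam.not_isUnit (isUnit_of_dvd_unit h (hζu.pow _))
    · exact hyl h
  have hxy' : IsCoprime x y' := by
    rw [hy']
    exact (isCoprime_mul_unit_left_right (hζu.pow k0) x y).2 hxy
  have hy'p : y' ^ p = y ^ p := by
    rw [hy', mul_pow, ← pow_mul, mul_comm k0 p, pow_mul, H.prim.pow_eq_one, one_pow, one_mul]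
  rw [← hy'] at hsq
  rw [← hy'p] at heq hdiv
  have hfac : ∀ η ∈ nthRootsFinset p (1 : R), ∃ g, x + η * y' = (ζ - 1) * g := fun η hη =>
    lam_dvd_factor hp H hdiv hodd hη
  choose! G hG using hfac
  have hprod : ∏ η ∈ nthRootsFinset p (1 : R), G η = ε * ((ζ - 1) ^ n * z) ^ p := by
    have h1 : (ζ - 1) ^ p * ∏ η ∈ nthRootsFinset p (1 : R), G η
        = (ζ - 1) ^ p * (ε * ((ζ - 1) ^ n * z) ^ p) := by
      have h2 : (ζ - 1) ^ p * ∏ η ∈ nthRootsFinset p (1 : R), G η =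
          ∏ η ∈ nthRootsFinset p (1 : R), ((ζ - 1) * G η) := by
        rw [Finset.prod_mul_distrib, Finset.prod_const, H.prim.card_nthRootsFinset]
      rw [h2, ← Finset.prod_congr rfl (fun η hη => hG η hη),
        ← H.prim.pow_add_pow_eq_prod_add_mul _ _ hodd, heq, mul_pow, mul_pow, pow_succ, mul_pow]
      ring
    exact mul_left_cancel₀ (pow_ne_zero _ hlam.ne_zero) h1
  have hcop : ∀ η ∈ nthRootsFinset p (1 : R), ∀ η' ∈ nthRootsFinset p (1 : R), η ≠ η' →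
      IsCoprime (G η) (G η') := by
    intro η hη η' hη' hne
    obtain ⟨u, hu⟩ := H.prim.nthRootsFinset_pairwise_associated_sub_one_sub_of_prime hp hη hη' hne
    have e1 : G η - G η' = u * y' := by
      apply mul_left_cancel₀ hlam.ne_zero
      rw [mul_sub, ← hG η hη, ← hG η' hη', ← mul_assoc, hu]
      ring
    have e2 : η * G η' - η' * G η = u * x := by
      apply mul_left_cancel₀ hlam.ne_zero
      have : (ζ - 1) * (η * G η' - η' * G η) = η * ((ζ - 1) * G η') - η' * ((ζ - 1) * G η) := by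
        ring
      rw [this, ← hG η hη, ← hG η' hη', ← mul_assoc, hu]
      ring
    obtain ⟨a, b, hab⟩ := hxy'
    -- 1 = a x + b y'
    refine ⟨(↑u⁻¹ : R) * (-(a * η') + b), (↑u⁻¹ : R) * (a * η - b), ?_⟩
    have h3 : (↑u⁻¹ : R) * (-(a * η') + b) * G η + (↑u⁻¹ : R) * (a * η - b) * G η' =
        (↑u⁻¹ : R) * (a * (η * G η' - η' * G η) + b * (G η - G η')) := by ring
    rw [h3, e1, e2]
    have h4 : (↑u⁻¹ : R) * (a * (↑u * x) + b * (↑u * y')) = (↑u⁻¹ * ↑u : R) * (a * x + b * y') := by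
      ring
    rw [h4, hab, mul_one, Units.inv_mul]
  have hpw : ∀ η ∈ nthRootsFinset p (1 : R), ∃ d : R, Associated (d ^ p) (G η) := by
    intro η hη
    have h1 : G η * (↑ε⁻¹ * ∏ η' ∈ (nthRootsFinset p (1 : R)).erase η, G η') =
        ((ζ - 1) ^ n * z) ^ p := by
      have h2 : G η * ∏ η' ∈ (nthRootsFinset p (1 : R)).erase η, G η' =
          ε * ((ζ - 1) ^ n * z) ^ p := by
        rw [Finset.mul_prod_erase _ _ hη, hprod]
      calc G η * (↑ε⁻¹ * ∏ η' ∈ (nthRootsFinset p (1 : R)).erase η, G η')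
          = ↑ε⁻¹ * (G η * ∏ η' ∈ (nthRootsFinset p (1 : R)).erase η, G η') := by ring
        _ = ((ζ - 1) ^ n * z) ^ p := by rw [h2, ← mul_assoc, Units.inv_mul, one_mul]
    refine exists_associated_pow_of_mul_eq_pow' ?_ h1
    rw [isCoprime_mul_unit_left_right (Units.isUnit ε⁻¹)]
    apply IsCoprime.prod_right
    intro η' hη'
    exact hcop η hη η' (Finset.mem_of_mem_erase hη') (Finset.ne_of_mem_erase hη').symm
  -- the three special roots
  have m1 : (1 : R) ∈ nthRootsFinset p (1 : R) := one_mem_nthRootsFinset hp.pos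
  have mζ : ζ ∈ nthRootsFinset p (1 : R) := H.prim.mem_nthRootsFinset hp.pos
  have mζ' : ζ ^ (p - 1) ∈ nthRootsFinset p (1 : R) := by
    rw [mem_nthRootsFinset hp.pos, ← pow_mul, mul_comm, pow_mul, H.prim.pow_eq_one, one_pow]
  have hζζ' : ζ * ζ ^ (p - 1) = 1 := by
    rw [← pow_succ', Nat.sub_add_cancel hp.one_lt.le, H.prim.pow_eq_one]
  have hζ1 : ζ ≠ 1 := H.prim.ne_one hp.one_lt
  have hζ'1 : ζ ^ (p - 1) ≠ 1 := by
    intro h
    rw [h, mul_one] at hζζ'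
    exact hζ1 hζζ'
  have hne : ζ ≠ ζ ^ (p - 1) := by
    intro h
    have h2 : ζ ^ 2 = 1 := by rw [pow_two]; nth_rewrite 2 [h]; exact hζζ'
    have := H.prim.dvd_of_pow_eq_one 2 h2
    have := Nat.le_of_dvd (by norm_num) this
    omega
  obtain ⟨d0, ε0, h0⟩ := hpw 1 m1
  obtain ⟨d1, ε1, h1⟩ := hpw ζ mζ
  obtain ⟨d2, ε2, h2⟩ := hpw _ mζ'
  have hrel : G ζ + ζ * G (ζ ^ (p - 1)) = (1 + ζ) * G 1 := by
    apply mul_left_cancel₀ hlam.ne_zero
    have e1 : (ζ - 1) * (G ζ + ζ * G (ζ ^ (p - 1))) =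
      (ζ - 1) * G ζ + ζ * ((ζ - 1) * G (ζ ^ (p - 1))) := by ring
    have e2 : (ζ - 1) * ((1 + ζ) * G 1) = (1 + ζ) * ((ζ - 1) * G 1) := by ring
    rw [e1, e2, ← hG ζ mζ, ← hG _ mζ', ← hG 1 m1]
    linear_combination y' * hζζ'
  have hlG1 : ζ - 1 ∣ G 1 := by
    have := hG 1 m1
    rw [one_mul] at this
    rw [this, pow_two] at hsq
    exact (mul_dvd_mul_iff_left hlam.ne_zero).1 hsq
  have hld0 : ζ - 1 ∣ d0 := by
    rw [← h0] at hlG1
    rcases hlam.dvd_or_dvd hlG1 with h | h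
    · exact hlam.dvd_of_dvd_pow h
    · exact absurd (isUnit_of_dvd_unit h ε0.isUnit) hlam.not_isUnit
  have hz0 : z ≠ 0 := by
    rintro rfl
    exact hz (dvd_zero _)
  have hd0 : d0 ≠ 0 := by
    rintro rfl
    have hG10 : G 1 = 0 := by rw [← h0, zero_pow hp0, zero_mul]
    have h3 : ∏ η ∈ nthRootsFinset p (1 : R), G η = 0 := Finset.prod_eq_zero m1 hG10
    rw [hprod] at h3
    have h4 : (ε : R) * ((ζ - 1) ^ n * z) ^ p ≠ 0 :=
      mul_ne_zero ε.ne_zero (pow_ne_zero _ (mul_ne_zero (pow_ne_zero _ hlam.ne_zero) hz0))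
    exact h4 h3
  obtain ⟨k, z', hz', hk⟩ : ∃ (k : ℕ) (z' : R), ¬ ζ - 1 ∣ z' ∧ d0 = (ζ - 1) ^ (k + 1) * z' := by
    have hfin : FiniteMultiplicity (ζ - 1) d0 :=
      FiniteMultiplicity.of_prime_left hlam hd0
    obtain ⟨c, hc1, hc2⟩ := hfin.exists_eq_pow_mul_and_not_dvd
    have hpos : multiplicity (ζ - 1) d0 ≠ 0 := by
      intro h
      rw [h, pow_zero, one_mul] at hc1
      exact hc2 (hc1 ▸ hld0)
    obtain ⟨k, hk⟩ := Nat.exists_eq_succ_of_ne_zero hpos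
    exact ⟨k, c, hc2, by rw [hk] at hc1; exact hc1⟩
  have hkn : k < n := by
    have h3 : ((ζ - 1) ^ ((k + 1) * p)) ∣ (ζ - 1) ^ (n * p) * z ^ p := by
      have h4 : G 1 ∣ ∏ η ∈ nthRootsFinset p (1 : R), G η := Finset.dvd_prod_of_mem G m1
      rw [hprod] at h4
      have h5 : (ζ - 1) ^ ((k + 1) * p) ∣ G 1 := by
        rw [← h0, hk, mul_pow, ← pow_mul, mul_assoc]
        exact dvd_mul_right _ _
      have h6 := h5.trans h4
      rw [mul_comm (ε : R), Units.dvd_mul_right, mul_pow, ← pow_mul] at h6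
      exact h6
    have h7 : (ζ - 1) ^ ((k + 1) * p) ∣ (ζ - 1) ^ (n * p) := by
      exact hlam.pow_dvd_of_dvd_mul_right _ (fun h => hz (hlam.dvd_of_dvd_pow h)) h3
    have h8 : (k + 1) * p ≤ n * p :=
      (pow_dvd_pow_iff hlam.ne_zero hlam.not_isUnit).1 h7
    have := Nat.le_of_mul_le_mul_right h8 hp.pos
    omega
  -- new relation
  have hpd0 : (p : R) ∣ d0 ^ p := by
    have h3 : (ζ - 1) ^ (p - 1) ∣ d0 ^ p := by
      refine (pow_dvd_pow _ (Nat.sub_le p 1)).trans (pow_dvd_pow_of_dvd hld0 p)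
    exact H.p_dvd.trans h3
  obtain ⟨ζu, hζu'⟩ := hζu
  have hrel2 : d1 ^ p + ((ζu * ε2 * ε1⁻¹ : Rˣ) : R) * d2 ^ p =
      (1 + ζ) * ((ε0 * ε1⁻¹ : Rˣ) : R) * d0 ^ p := by
    have h3 := hrel
    rw [← h0, ← h1, ← h2] at h3
    have h4 : (ε1 : R) * (ε1⁻¹ : Rˣ) = 1 := Units.mul_inv _
    push_cast
    rw [hζu']
    linear_combination (ε1⁻¹ : Rˣ) * h3 - d1 ^ p * h4
  have hd2 : ¬ ζ - 1 ∣ d2 := by
    intro h
    have h3 : ζ - 1 ∣ G (ζ ^ (p - 1)) := by
      rw [← h2]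
      exact (dvd_pow h hp0).mul_right _
    exact hlam.not_isUnit ((hcop _ m1 _ mζ' hζ'1.symm).isUnit_of_dvd' hlG1 h3)
  obtain ⟨a, ha⟩ := H.pow_int d1
  obtain ⟨b, hb⟩ := H.pow_int d2
  have hbp : ¬ (p : ℤ) ∣ b := by
    intro hpb
    apply hd2
    have h3 : ((p : ℤ) : R) ∣ (b : R) := by
      simpa only [eq_intCast] using map_dvd (Int.castRingHom R) hpb
    have h4 : (p : R) ∣ d2 ^ p := by
      have := dvd_add hb (by simpa using h3 : (p : R) ∣ (b : R))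
      simpa using this
    exact hlam.dvd_of_dvd_pow ((H.dvd_p hp).trans h4)
  have hcopb : IsCoprime b (p : ℤ) := ((Nat.prime_iff_prime_int.1 hp).coprime_iff_not_dvd.2 hbp).symm
  obtain ⟨s, t, hst⟩ := hcopb
  have hst' : (s : R) * b + t * p = 1 := by exact_mod_cast congrArg (Int.cast : ℤ → R) hst
  have hu : (p : R) ∣ ((ζu * ε2 * ε1⁻¹ : Rˣ) : R) - ((-(a * s) : ℤ) : R) := by
    set u : R := ((ζu * ε2 * ε1⁻¹ : Rˣ) : R) with hu
    have h3 : (p : R) ∣ d1 ^ p + u * d2 ^ p := by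
      rw [hrel2]; exact hpd0.mul_left _
    have h4 : u - ((-(a * s) : ℤ) : R) =
        s * (d1 ^ p + u * d2 ^ p) - s * (d1 ^ p - a) - s * u * (d2 ^ p - b) + (t * u) * p := by
      push_cast
      linear_combination (-u) * hst'
    rw [h4]
    exact dvd_add (dvd_sub (dvd_sub (h3.mul_left _) (ha.mul_left _)) (hb.mul_left _))
      (dvd_mul_left _ _)
  obtain ⟨w, hw⟩ := H.kummer _ _ hu
  have h1ζ : IsUnit (1 + ζ) := by
    have h3 := H.prim.geom_sum_isUnit hp.two_le (j := 2)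
      ((Nat.coprime_primes Nat.prime_two hp).2 (by omega))
    simpa [Finset.sum_range_succ] using h3
  obtain ⟨v, hv⟩ := h1ζ
  refine IH k hkn d1 (w * d2) z' (v * (ε0 * ε1⁻¹)) ?_ hz' ?_
  · have h3 : IsCoprime (G ζ) (G (ζ ^ (p - 1))) := hcop _ mζ _ mζ' hne
    rw [isCoprime_mul_unit_left_right w.isUnit]
    refine (h3.of_isCoprime_of_dvd_left ?_).of_isCoprime_of_dvd_right ?_
    · rw [← h1]
      exact (dvd_pow_self _ hp0).mul_right _
    · rw [← h2]
      exact (dvd_pow_self _ hp0).mul_right _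
  · rw [mul_pow, ← Units.val_pow_eq_pow_val, hw, hrel2, ← hk, Units.val_mul v, hv]

end

end Fermat.Agent.H2
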