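import Mathlib
import Fermat.Prelude.Def_FLTPrelim_FreyPackage
import Fermat.Agent.H2CaseII

set_option autoImplicit false

namespace Fermat.Agent.H2

open NumberField IsCyclotomicExtension

section

variable {p : ℕ} [hp : Fact p.Prime] {K : Type*} [Field K] [NumberField K]
  [hK : IsCyclotomicExtension {p} ℚ K]

theorem ring_exists_poly {ζ : K} (hζ : IsPrimitiveRoot ζ p) (x : 𝓞 K) :
    ∃ f : Polynomial ℤ, Polynomial.aeval hζ.toInteger f = x := by
  have h := IsCyclotomicExtension.Rat.adjoin_singleton_eq_top hζ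
  have hx : x ∈ Algebra.adjoin ℤ {hζ.toInteger} := by
    rw [h]; exact Algebra.mem_top
  rw [Algebra.adjoin_singleton_eq_range_aeval] at hx
  exact hx

theorem kummerRing_of {ζ : K} (hζ : IsPrimitiveRoot ζ p)
    (hk : ∀ (u : (𝓞 K)ˣ) (m : ℤ), (p : 𝓞 K) ∣ (u : 𝓞 K) - m → ∃ w : (𝓞 K)ˣ, w ^ p = u) :
    KummerRing p (𝓞 K) hζ.toInteger where
  prim := hζ.toInteger_isPrimitiveRoot
  lam_prime := hζ.zeta_sub_one_prime'
  resid := by
    intro x
    obtain ⟨f, rfl⟩ := ring_exists_poly hζ x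
    refine ⟨f.eval 1, ?_⟩
    have h := Polynomial.sub_dvd_eval_sub hζ.toInteger 1 (f.map (algebraMap ℤ (𝓞 K)))
    rw [Polynomial.eval_map_algebraMap, Polynomial.eval_one_map] at h
    simpa using h
  int_dvd := by
    intro m hm
    exact (Rat.zeta_sub_one_dvd_intCast_iff' p hζ).1 hm
  p_dvd := (Rat.associated_zeta_sub_one_pow_prime p hζ).symm.dvd
  pow_int := by
    intro x
    have hx : x ∈ Algebra.adjoin ℤ {hζ.toInteger} := by
      rw [IsCyclotomicExtension.Rat.adjoin_singleton_eq_top hζ]; exact Algebra.mem_top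
    induction hx using Algebra.adjoin_induction with
    | mem x hx =>
      rw [Set.mem_singleton_iff] at hx
      subst hx
      refine ⟨1, ?_⟩
      rw [hζ.toInteger_isPrimitiveRoot.pow_eq_one]
      simp
    | algebraMap r =>
      refine ⟨r ^ p, ?_⟩
      simp
    | add x y _ _ hx hy =>
      obtain ⟨a, ha⟩ := hx
      obtain ⟨b, hb⟩ := hy
      obtain ⟨r, hr⟩ := exists_add_pow_prime_eq hp.out x y
      refine ⟨a + b, ?_⟩
      rw [hr]
      push_cast
      have : x ^ p + y ^ p + p * x * y * r - (a + b) = (x ^ p - a) + (y ^ p - b) + p * (x * y * r) := by ring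
      rw [this]
      exact dvd_add (dvd_add ha hb) (dvd_mul_right _ _)
    | mul x y _ _ hx hy =>
      obtain ⟨a, ha⟩ := hx
      obtain ⟨b, hb⟩ := hy
      refine ⟨a * b, ?_⟩
      push_cast
      have : (x * y) ^ p - a * b = (x ^ p - a) * y ^ p + a * (y ^ p - b) := by ring
      rw [this]
      exact dvd_add (ha.mul_right _) (hb.mul_left _)
  kummer := hk


omit hK in
/-- Case II with `p ∣ c`. -/
theorem case_two_aux [IsPrincipalIdealRing (𝓞 K)] (hp5 : 5 ≤ p) {ζ : K}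
    (hζ : IsPrimitiveRoot ζ p) (H : KummerRing p (𝓞 K) hζ.toInteger) {a b c : ℤ}
    (hab : IsCoprime a b) (hpc : (p : ℤ) ∣ c) (hc : c ≠ 0) (h : a ^ p + b ^ p = c ^ p) :
    False := by
  have hpr := hp.out
  have hpint : Prime (p : ℤ) := Nat.prime_iff_prime_int.1 hpr
  obtain ⟨c', hc1, hc2⟩ := (FiniteMultiplicity.of_prime_left hpint hc).exists_eq_pow_mul_and_not_dvd
  set k := multiplicity (p : ℤ) c with hk
  have hk0 : k ≠ 0 := by
    intro h0
    rw [h0, pow_zero, one_mul] at hc1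
    exact hc2 (hc1 ▸ hpc)
  obtain ⟨v, hv⟩ := Rat.associated_zeta_sub_one_pow_prime p hζ
  -- hv : (ζ-1)^(p-1) * v = p
  have hnk : (p - 1) * k ≠ 0 := Nat.mul_ne_zero (by omega) hk0
  obtain ⟨n, hn⟩ := Nat.exists_eq_succ_of_ne_zero hnk
  refine caseII hpr H (by omega) n (a : 𝓞 K) (b : 𝓞 K) ((v : 𝓞 K) ^ k * c') 1 ?_ ?_ ?_
  · exact hab.map (Int.castRingHom (𝓞 K))
  · intro hd
    rcases H.lam_prime.dvd_or_dvd hd with hd | hd
    · exact H.lam_prime.not_isUnit (isUnit_of_dvd_unit hd (v.isUnit.pow k))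
    · exact hc2 (H.int_dvd _ hd)
  · have h1 : ((a : 𝓞 K)) ^ p + (b : 𝓞 K) ^ p = (c : 𝓞 K) ^ p := by exact_mod_cast h
    rw [h1, Units.val_one, one_mul]
    congr 1
    have h2 : ((hζ.toInteger - 1) ^ (n + 1)) * (v : 𝓞 K) ^ k = (p : 𝓞 K) ^ k := by
      rw [← hv, mul_pow, ← pow_mul, ← Nat.succ_eq_add_one, ← hn]
    rw [← mul_assoc, h2]
    conv_lhs => rw [hc1]
    push_cast
    rfl

omit hK in
theorem case_two [IsPrincipalIdealRing (𝓞 K)] (hp5 : 5 ≤ p) {ζ : K}
    (hζ : IsPrimitiveRoot ζ p) (H : KummerRing p (𝓞 K) hζ.toInteger) {a b c : ℤ}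
    (hab : IsCoprime a b) (hac : IsCoprime a c) (hbc : IsCoprime b c)
    (hpc : (p : ℤ) ∣ a * b * c) (h0 : a * b * c ≠ 0) (h : a ^ p + b ^ p = c ^ p) :
    False := by
  have hodd : Odd p := hp.out.odd_of_ne_two (by omega)
  have hpint : Prime (p : ℤ) := Nat.prime_iff_prime_int.1 hp.out
  have ha0 : a ≠ 0 := by rintro rfl; simp at h0
  have hb0 : b ≠ 0 := by rintro rfl; simp at h0
  have hc0 : c ≠ 0 := by rintro rfl; simp at h0
  rcases hpint.dvd_or_dvd hpc with hd | hd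
  · rcases hpint.dvd_or_dvd hd with hd | hd
    · refine case_two_aux hp5 hζ H (a := b) (b := -c) (c := -a) hbc.neg_right
        ((dvd_neg).2 hd) (neg_ne_zero.2 ha0) ?_
      rw [hodd.neg_pow, hodd.neg_pow, ← h]; ring
    · refine case_two_aux hp5 hζ H (a := a) (b := -c) (c := -b) hac.neg_right
        ((dvd_neg).2 hd) (neg_ne_zero.2 hb0) ?_
      rw [hodd.neg_pow, hodd.neg_pow, ← h]; ring
  · exact case_two_aux hp5 hζ H hab hd hc0 h

end

/-- Final assembly: a prime `p ≥ 5` for which Case I holds, `ℤ[ζ_p]` is a PID and Kummer's lemma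
holds is not the exponent of a Frey package. -/
theorem frey_false_of {p : ℕ} [hp : Fact p.Prime] (hp5 : 5 ≤ p)
    (hI : ∀ x y z : ℤ, IsCoprime x y → x ^ p + y ^ p = z ^ p → (p : ℤ) ∣ x * y * z)
    (K : Type*) [Field K] [NumberField K] [IsCyclotomicExtension {p} ℚ K]
    [hpid : IsPrincipalIdealRing (𝓞 K)]
    (hk : ∀ (u : (𝓞 K)ˣ) (m : ℤ), (p : 𝓞 K) ∣ (u : 𝓞 K) - m → ∃ w : (𝓞 K)ˣ, w ^ p = u)
    (P : FreyPackage) (hP : P.p = p) : False := by
  have hζ := IsCyclotomicExtension.zeta_spec p ℚ K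
  have hFLT := P.hFLT
  rw [hP] at hFLT
  have hab : IsCoprime P.a P.b := by
    rw [← gcd_isUnit_iff, P.hgcdab]; exact isUnit_one
  refine case_two hp5 hζ (kummerRing_of hζ hk) (a := P.a) (b := P.b) (c := P.c) hab ?_ ?_
    (hI _ _ _ hab hFLT) P.habc0 hFLT
  · rw [← gcd_isUnit_iff, P.hgcdac]; exact isUnit_one
  · rw [← gcd_isUnit_iff, P.hgcdbc]; exact isUnit_one

/-- A concrete cyclotomic number field. -/
theorem exists_cyclotomic (p : ℕ) [Fact p.Prime] : ∃ (K : Type) (_ : Field K) (_ : NumberField K),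
    IsCyclotomicExtension {p} ℚ K := by
  refine ⟨CyclotomicField p ℚ, inferInstance, inferInstance, ?_⟩
  have h := CyclotomicField.isCyclotomicExtension p ℚ
  have e : (DivisionRing.toRatAlgebra : Algebra ℚ (CyclotomicField p ℚ)) =
    CyclotomicField.algebra p ℚ := Subsingleton.elim _ _
  rw [e]
  exact h

end Fermat.Agent.H2
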