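import Mathlib

/-!
`ℤ[ζ₁₃]` is a PID, by the Minkowski bound and explicit generators.
-/

set_option autoImplicit false

namespace Fermat.Agent.H2

open NumberField IsCyclotomicExtension Polynomial

/-- If `P` is a prime over `q` (`q ≡ 1 mod p`), and there are explicit certificates, then `P` is
principal. -/
theorem principal_of_cert {R : Type*} [CommRing R] [IsDomain R] {p : ℕ} (hp : p.Prime) {ζ : R}
    (hζ : IsPrimitiveRoot ζ p)
    (hgen : ∀ z : R, IsPrimitiveRoot z p → ∀ x : R, ∃ f : ℤ[X], aeval z f = x)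
    (P : Ideal R) [hPp : P.IsPrime] (q : ℕ) (hqP : (q : R) ∈ P)
    (hpP : (p : R) ∉ P)
    (hP : ∀ m : ℤ, (m : R) ∈ P → (q : ℤ) ∣ m)
    (t : ℤ) (ht : (q : ℤ) ∣ t ^ p - 1) (ht1 : ¬ (q : ℤ) ∣ t - 1)
    (cert : ∀ z : R, IsPrimitiveRoot z p → ∃ π α β : R, π * α = q ∧ π * β = z - t ∧
      ∃ γ δ, π = (z - t) * γ + q * δ) :
    P.IsPrincipal := by
  have hA : IsDomain (R ⧸ P) := Ideal.Quotient.isDomain P
  have hzbar : IsPrimitiveRoot (Ideal.Quotient.mk P ζ) p := by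
    have h1 : (Ideal.Quotient.mk P ζ) ^ p = 1 := by
      rw [← map_pow, hζ.pow_eq_one, map_one]
    have h2 : Ideal.Quotient.mk P ζ ≠ 1 := by
      intro h
      rw [← map_one (Ideal.Quotient.mk P), Ideal.Quotient.eq] at h
      exact hpP (P.mem_of_dvd (hζ.sub_one_dvd_natCast hp.one_lt) h)
    have : Fact p.Prime := ⟨hp⟩
    have h3 := orderOf_eq_prime h1 h2
    exact h3 ▸ IsPrimitiveRoot.orderOf _
  have htbar : (Ideal.Quotient.mk P (t : R)) ^ p = 1 := by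
    rw [← map_pow, ← map_one (Ideal.Quotient.mk P), Ideal.Quotient.eq]
    obtain ⟨c, hc⟩ := ht
    have : (t : R) ^ p - 1 = q * c := by exact_mod_cast congrArg (Int.cast : ℤ → R) hc
    rw [this]
    exact P.mul_mem_right _ hqP
  have : NeZero p := ⟨hp.ne_zero⟩
  obtain ⟨i, hi, hit⟩ := hzbar.eq_pow_of_pow_eq_one htbar
  rw [← map_pow, Ideal.Quotient.eq] at hit
  have hi0 : i ≠ 0 := by
    rintro rfl
    rw [pow_zero] at hit
    apply ht1
    apply hP
    have := P.neg_mem hit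
    push_cast
    simpa using this
  have hz : IsPrimitiveRoot (ζ ^ i) p :=
    hζ.pow_of_coprime i (Nat.coprime_of_lt_prime hi0 hi hp).symm
  obtain ⟨z, hzz⟩ : ∃ z, z = ζ ^ i := ⟨_, rfl⟩
  rw [← hzz] at hz hit
  obtain ⟨π, α, β, h1, h2, γ, δ, h3⟩ := cert z hz
  refine ⟨⟨π, le_antisymm ?_ ?_⟩⟩
  · intro x hx
    obtain ⟨f, rfl⟩ := hgen z hz x
    have h4 : z - t ∣ aeval z f - aeval (t : R) f := by
      have h := Polynomial.sub_dvd_eval_sub z (t : R) (f.map (algebraMap ℤ R))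
      rw [Polynomial.eval_map_algebraMap, Polynomial.eval_map_algebraMap] at h
      exact h
    have h5 : aeval (t : R) f = ((f.eval t : ℤ) : R) := by
      have := Polynomial.aeval_algebraMap_apply_eq_algebraMap_eval (A := R) t f
      simpa using this
    rw [h5] at h4
    have h6 : ((f.eval t : ℤ) : R) ∈ P := by
      have h7 : aeval z f - ((f.eval t : ℤ) : R) ∈ P := P.mem_of_dvd h4 hit
      have := P.sub_mem hx h7
      simpa using this
    obtain ⟨m, hm⟩ := hP _ h6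
    obtain ⟨w, hw⟩ := h4
    have h8 : aeval z f = π * (β * w + α * m) := by
      have h9 : ((f.eval t : ℤ) : R) = q * m := by exact_mod_cast congrArg (Int.cast : ℤ → R) hm
      have : aeval z f = (z - t) * w + q * m := by rw [← hw, ← h9]; ring
      rw [this, ← h1, ← h2]; ring
    rw [h8]
    exact Ideal.mul_mem_right _ _ (Ideal.mem_span_singleton_self π)
  · rw [Submodule.span_le, Set.singleton_subset_iff, h3]
    exact P.add_mem (P.mul_mem_right _ hit) (P.mul_mem_right _ hqP)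

section Certs

variable {R : Type*} [CommRing R] {z : R}

theorem cert53 (hΦ : ∑ i ∈ Finset.range 13, z ^ i = 0) : ∃ π α β : R, π * α = (53 : ℕ) ∧
    π * β = z - (-17 : ℤ) ∧ ∃ γ δ, π = (z - (-17 : ℤ)) * γ + (53 : ℕ) * δ := by
  simp only [Finset.sum_range_succ, Finset.sum_range_zero] at hΦ
  refine ⟨1 + z + z ^ 3, 1 + (-24 * z) + (-35 * z ^ 2) + (-25 * z ^ 3) + (-10 * z ^ 4) + (-14 * z ^ 5) + (-20 * z ^ 6) + (-29 * z ^ 7) + (-16 * z ^ 8) + (-23 * z ^ 9) + (-7 * z ^ 10) + (-36 * z ^ 11), 1 + (-7 * z) + (-11 * z ^ 2) + (-8 * z ^ 3) + (-3 * z ^ 4) + (-4 * z ^ 5) + (-6 * z ^ 6) + (-9 * z ^ 7) + (-5 * z ^ 8) + (-7 * z ^ 9) + (-2 * z ^ 10) + (-11 * z ^ 11), ?_, ?_, 290 + (-17 * z) + 1 * z ^ 2, -93, ?_⟩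
  · push_cast; linear_combination ((-52) + 29 * z + (-36 * z ^ 2)) * hΦ
  · push_cast; linear_combination ((-16) + 9 * z + (-11 * z ^ 2)) * hΦ
  · push_cast; ring

theorem cert131 (hΦ : ∑ i ∈ Finset.range 13, z ^ i = 0) : ∃ π α β : R, π * α = (131 : ℕ) ∧
    π * β = z - (-51 : ℤ) ∧ ∃ γ δ, π = (z - (-51 : ℤ)) * γ + (131 : ℕ) * δ := by
  simp only [Finset.sum_range_succ, Finset.sum_range_zero] at hΦ
  refine ⟨1 + (-1 * z) + (-1 * z ^ 3), 111 + 78 * z + 17 * z ^ 2 + 67 * z ^ 3 + 84 * z ^ 4 + 40 * z ^ 5 + 46 * z ^ 6 + 69 * z ^ 7 + 48 * z ^ 8 + 33 * z ^ 9 + 41 * z ^ 10 + 28 * z ^ 11, 43 + 31 * z + 7 * z ^ 2 + 26 * z ^ 3 + 33 * z ^ 4 + 16 * z ^ 5 + 18 * z ^ 6 + 27 * z ^ 7 + 19 * z ^ 8 + 13 * z ^ 9 + 16 * z ^ 10 + 11 * z ^ 11, ?_, ?_, (-2602) + 51 * z + (-1 * z ^ 2), 1013, ?_⟩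
  · push_cast; linear_combination ((-20) + (-13 * z) + (-28 * z ^ 2)) * hΦ
  · push_cast; linear_combination ((-8) + (-5 * z) + (-11 * z ^ 2)) * hΦ
  · push_cast; ring

theorem cert79 (hΦ : ∑ i ∈ Finset.range 13, z ^ i = 0) : ∃ π α β : R, π * α = (79 : ℕ) ∧
    π * β = z - (-15 : ℤ) ∧ ∃ γ δ, π = (z - (-15 : ℤ)) * γ + (79 : ℕ) * δ := by
  simp only [Finset.sum_range_succ, Finset.sum_range_zero] at hΦ
  refine ⟨1 + 1 * z + (-1 * z ^ 4), 24 + (-25 * z) + (-27 * z ^ 2) + 10 * z ^ 3 + (-3 * z ^ 4) + (-39 * z ^ 5) + (-5 * z ^ 6) + (-2 * z ^ 7) + (-18 * z ^ 8) + (-38 * z ^ 9) + 16 * z ^ 10 + (-35 * z ^ 11), 5 + (-4 * z) + (-5 * z ^ 2) + 2 * z ^ 3 + (-7 * z ^ 5) + (-1 * z ^ 6) + (-3 * z ^ 8) + (-7 * z ^ 9) + 3 * z ^ 10 + (-6 * z ^ 11), ?_, ?_, 3376 + (-225 * z) + 15 * z ^ 2 + (-1 * z ^ 3), -641, ?_⟩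
  · push_cast; linear_combination ((-55) + 54 * z + (-51 * z ^ 2) + 35 * z ^ 3) * hΦ
  · push_cast; linear_combination ((-10) + 10 * z + (-9 * z ^ 2) + 6 * z ^ 3) * hΦ
  · push_cast; ring

theorem cert157 (hΦ : ∑ i ∈ Finset.range 13, z ^ i = 0) : ∃ π α β : R, π * α = (157 : ℕ) ∧
    π * β = z - (75 : ℤ) ∧ ∃ γ δ, π = (z - (75 : ℤ)) * γ + (157 : ℕ) * δ := by
  simp only [Finset.sum_range_succ, Finset.sum_range_zero] at hΦ
  refine ⟨1 + (-1 * z) + 1 * z ^ 2 + 1 * z ^ 4, 89 + 86 * z + 42 * z ^ 2 + 77 * z ^ 3 + 67 * z ^ 4 + 25 * z ^ 5 + 37 * z ^ 6 + 56 * z ^ 7 + 73 * z ^ 8 + 113 * z ^ 9 + 124 * z ^ 10 + 76 * z ^ 11, (-43) + (-41 * z) + (-20 * z ^ 2) + (-37 * z ^ 3) + (-32 * z ^ 4) + (-12 * z ^ 5) + (-18 * z ^ 6) + (-27 * z ^ 7) + (-35 * z ^ 8) + (-54 * z ^ 9) + (-59 * z ^ 10) + (-36 * z ^ 11), ?_, ?_, 421949 + 5626 * z + 75 * z ^ 2 + 1 * z ^ 3, 201568, ?_⟩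
  · push_cast; linear_combination ((-68) + 65 * z + 48 * z ^ 2 + 76 * z ^ 3) * hΦ
  · push_cast; linear_combination (32 + (-31 * z) + (-23 * z ^ 2) + (-36 * z ^ 3)) * hΦ
  · push_cast; ring

/-- The product of the four conjugates of `1 + z - z^3` over coset representatives of `⟨3⟩`. -/
theorem cert3_prod (hΦ : ∑ i ∈ Finset.range 13, z ^ i = 0) :
    (1 + z - z ^ 3) * (1 + z ^ 2 - (z ^ 2) ^ 3) * (1 + z ^ 4 - (z ^ 4) ^ 3) *
      (1 + z ^ 7 - (z ^ 7) ^ 3) =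
    3 * (1 + 1 * z ^ 2 + 1 * z ^ 3 + 1 * z ^ 4 + 1 * z ^ 5 + 1 * z ^ 6 + 1 * z ^ 7 + 1 * z ^ 9 + 1 * z ^ 11) := by
  simp only [Finset.sum_range_succ, Finset.sum_range_zero] at hΦ
  linear_combination ((-2) + 3 * z + (-3 * z ^ 2) + (-1 * z ^ 3) + 1 * z ^ 4 + (-1 * z ^ 5) + 4 * z ^ 8 + (-3 * z ^ 9) + 1 * z ^ 10 + (-2 * z ^ 11) + 2 * z ^ 12 + (-1 * z ^ 13) + 1 * z ^ 14 + (-1 * z ^ 15) + (-1 * z ^ 16) + 1 * z ^ 17 + (-1 * z ^ 18) + 1 * z ^ 21 + (-1 * z ^ 22) + 1 * z ^ 23 + 1 * z ^ 25 + (-1 * z ^ 28) + (-1 * z ^ 29) + 1 * z ^ 30) * hΦ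

theorem cert3_dvd (hΦ : ∑ i ∈ Finset.range 13, z ^ i = 0) :
    (1 + z - z ^ 3) * ((-1) + (-1 * z ^ 2) + (-1 * z ^ 3) + (-2 * z ^ 5) + (-1 * z ^ 7) + (-2 * z ^ 8) + 1 * z ^ 9 + (-3 * z ^ 10)) = 3 := by
  simp only [Finset.sum_range_succ, Finset.sum_range_zero] at hΦ
  linear_combination ((-4) + 3 * z) * hΦ

end Certs


/-- `X^3 - X - 1` is irreducible mod 3. -/
theorem irr3 : Irreducible (1 + X - X ^ 3 : (ZMod 3)[X]) := by
  have hdeg : (1 + X - X ^ 3 : (ZMod 3)[X]).natDegree = 3 := by compute_degree!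
  apply Polynomial.irreducible_of_degree_le_three_of_not_isRoot
  · rw [hdeg]; simp
  · intro x hx
    have h : 1 + x - x ^ 3 = 0 := by simpa [IsRoot] using hx
    clear hx
    revert h
    revert x
    decide

theorem principal_three {R : Type*} [CommRing R] [IsDomain R] {ζ : R}
    (hζ : IsPrimitiveRoot ζ 13)
    (hgen : ∀ z : R, IsPrimitiveRoot z 13 → ∀ x : R, ∃ f : ℤ[X], aeval z f = x)
    (P : Ideal R) [hPp : P.IsPrime] (h3P : (3 : R) ∈ P) : P.IsPrincipal := by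
  have hΦ := hζ.geom_sum_eq_zero (by norm_num)
  have h1 := cert3_prod hΦ
  have h2 : (1 + ζ - ζ ^ 3) * (1 + ζ ^ 2 - (ζ ^ 2) ^ 3) * (1 + ζ ^ 4 - (ζ ^ 4) ^ 3) *
      (1 + ζ ^ 7 - (ζ ^ 7) ^ 3) ∈ P := by
    rw [h1]; exact P.mul_mem_right _ h3P
  obtain ⟨z, hz, hzP⟩ : ∃ z : R, IsPrimitiveRoot z 13 ∧ 1 + z - z ^ 3 ∈ P := by
    rcases hPp.mem_or_mem h2 with h2 | h2
    · rcases hPp.mem_or_mem h2 with h2 | h2
      · rcases hPp.mem_or_mem h2 with h2 | h2
        · exact ⟨ζ, hζ, h2⟩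
        · exact ⟨ζ ^ 2, hζ.pow_of_coprime 2 (by norm_num), h2⟩
      · exact ⟨ζ ^ 4, hζ.pow_of_coprime 4 (by norm_num), h2⟩
    · exact ⟨ζ ^ 7, hζ.pow_of_coprime 7 (by norm_num), h2⟩
  have h3 := cert3_dvd (hz.geom_sum_eq_zero (by norm_num))
  have hdvd3 : (1 + z - z ^ 3) ∣ (3 : R) := ⟨_, h3.symm⟩
  -- polynomials divisible by 3 coefficientwise
  have hC : ∀ f : ℤ[X], f.map (Int.castRingHom (ZMod 3)) = 0 → ∃ g : ℤ[X], f = C 3 * g := by
    intro f hf
    have : C (3 : ℤ) ∣ f := by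
      rw [Polynomial.C_dvd_iff_dvd_coeff]
      intro i
      have h4 : (f.map (Int.castRingHom (ZMod 3))).coeff i = 0 := by rw [hf]; simp
      rw [coeff_map, eq_intCast] at h4
      exact (ZMod.intCast_zmod_eq_zero_iff_dvd (f.coeff i) 3).1 h4
    exact this
  have hsurj : Function.Surjective (Polynomial.map (Int.castRingHom (ZMod 3))) :=
    Polynomial.map_surjective _ (ZMod.intCast_surjective)
  refine ⟨⟨1 + z - z ^ 3, le_antisymm ?_ ?_⟩⟩
  · intro x hx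
    obtain ⟨f, rfl⟩ := hgen z hz x
    have hg : (1 + X - X ^ 3 : ℤ[X]).map (Int.castRingHom (ZMod 3)) = 1 + X - X ^ 3 := by
      simp
    rcases (dvd_or_isCoprime _ (f.map (Int.castRingHom (ZMod 3))) irr3) with h | h
    · obtain ⟨c, hc⟩ := h
      obtain ⟨c', rfl⟩ := hsurj c
      obtain ⟨d, hd⟩ := hC (f - (1 + X - X ^ 3) * c') (by
        rw [Polynomial.map_sub, Polynomial.map_mul, hg, hc, sub_self])
      have h5 : aeval z f = (1 + z - z ^ 3) * aeval z c' + 3 * aeval z d := by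
        have h6 := congrArg (aeval z) hd
        simp only [map_sub, map_mul, map_add, map_one, aeval_X, map_pow, aeval_C] at h6
        have h7 : (algebraMap ℤ R) 3 = 3 := by simp
        rw [h7] at h6
        linear_combination h6
      rw [h5]
      exact Ideal.add_mem _ (Ideal.mul_mem_right _ _ (Ideal.mem_span_singleton_self _))
        (Ideal.mem_span_singleton.2 (hdvd3.mul_right _))
    · exfalso
      obtain ⟨a, b, hab⟩ := h
      obtain ⟨a', rfl⟩ := hsurj a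
      obtain ⟨b', rfl⟩ := hsurj b
      obtain ⟨d, hd⟩ := hC (a' * (1 + X - X ^ 3) + b' * f - 1) (by
        rw [Polynomial.map_sub, Polynomial.map_add, Polynomial.map_mul, hg, Polynomial.map_mul,
          hab, Polynomial.map_one, sub_self])
      have h5 : aeval z a' * (1 + z - z ^ 3) + aeval z b' * aeval z f - 3 * aeval z d = 1 := by
        have h6 := congrArg (aeval z) hd
        simp only [map_sub, map_mul, map_add, map_one, aeval_X, map_pow, aeval_C] at h6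
        have h7 : (algebraMap ℤ R) 3 = 3 := by simp
        rw [h7] at h6
        linear_combination h6
      apply hPp.ne_top
      rw [Ideal.eq_top_iff_one, ← h5]
      exact P.sub_mem (P.add_mem (P.mul_mem_left _ hzP) (P.mul_mem_left _ hx))
        (P.mul_mem_right _ h3P)
  · rw [Submodule.span_le, Set.singleton_subset_iff]
    exact hzP


section Final

open Real

theorem gen_of {p : ℕ} [Fact p.Prime] {K : Type*} [Field K] [NumberField K]
    [IsCyclotomicExtension {p} ℚ K] (z : 𝓞 K) (hz : IsPrimitiveRoot z p) (x : 𝓞 K) :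
    ∃ f : ℤ[X], aeval z f = x := by
  have hz' : IsPrimitiveRoot (z : K) p := hz.map_of_injective RingOfIntegers.coe_injective
  have h := IsCyclotomicExtension.Rat.adjoin_singleton_eq_top hz'
  have hx : x ∈ Algebra.adjoin ℤ {hz'.toInteger} := by
    rw [h]; exact Algebra.mem_top
  rw [Algebra.adjoin_singleton_eq_range_aeval] at hx
  exact hx

theorem thirteen_bound {K : Type*} [Field K] [NumberField K] [IsCyclotomicExtension {13} ℚ K] :
    ⌊(4 / π) ^ InfinitePlace.nrComplexPlaces K *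
      ((Module.finrank ℚ K).factorial / (Module.finrank ℚ K) ^ (Module.finrank ℚ K) *
        √|discr K|)⌋₊ ≤ 307 := by
  have : Fact (Nat.Prime 13) := ⟨by norm_num⟩
  rw [Rat.discr_prime 13 K, IsCyclotomicExtension.finrank (n := 13) K
    (cyclotomic.irreducible_rat (by simp)), Rat.nrComplexPlaces_eq_totient_div_two 13,
    Nat.totient_prime (by norm_num : Nat.Prime 13)]
  have hpi : (3.14 : ℝ) < π := pi_gt_d2
  have hlt : (4 / π) ^ ((13 - 1) / 2) *
        (((13 - 1).factorial : ℝ) / ((13 - 1 : ℕ) : ℝ) ^ (13 - 1) *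
          √|((((-1) ^ ((13 - 1) / 2) * (13 : ℕ) ^ (13 - 2) : ℤ)) : ℝ)|) < 308 := by
    have h1 : (|((((-1) ^ ((13 - 1) / 2) * (13 : ℕ) ^ (13 - 2) : ℤ)) : ℝ)|) = 1792160394037 := by
      norm_num
    have h2 : √(1792160394037 : ℝ) < 1338717 := by
      rw [Real.sqrt_lt' (by norm_num)]; norm_num
    have h3 : (4 / π) ^ ((13 - 1) / 2) ≤ (4 / 3.14 : ℝ) ^ ((13 - 1) / 2) := by
      gcongr
    rw [h1]
    calc (4 / π) ^ ((13 - 1) / 2) *
        (((13 - 1).factorial : ℝ) / ((13 - 1 : ℕ) : ℝ) ^ (13 - 1) * √(1792160394037 : ℝ))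
        ≤ (4 / 3.14 : ℝ) ^ ((13 - 1) / 2) *
        (((13 - 1).factorial : ℝ) / ((13 - 1 : ℕ) : ℝ) ^ (13 - 1) * 1338717) := by
          gcongr
      _ < 308 := by
          norm_num [Nat.factorial]
  have h0 : ⌊(4 / π) ^ ((13 - 1) / 2) *
        (((13 - 1).factorial : ℝ) / ((13 - 1 : ℕ) : ℝ) ^ (13 - 1) *
          √|((((-1) ^ ((13 - 1) / 2) * (13 : ℕ) ^ (13 - 2) : ℤ)) : ℝ)|)⌋₊ < 308 :=
    Nat.floor_lt' (by norm_num) |>.2 (by exact_mod_cast hlt)
  exact Nat.lt_succ_iff.1 h0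

theorem thirteen_cases {q f : ℕ} (hq : q.Prime) (hq307 : q ≤ 307) (hf0 : 0 < f)
    (hf : q ^ f ≤ 307) (hqf : (q : ZMod 13) ^ f = 1) (hf1 : f = 1 → q % 13 = 1) :
    q = 3 ∨ q = 53 ∨ q = 79 ∨ q = 131 ∨ q = 157 := by
  rcases Nat.lt_or_ge 1 f with h1 | h1
  · -- f ≥ 2
    have h2 : q ^ 2 ≤ 307 := (Nat.pow_le_pow_right hq.pos h1).trans hf
    have h3 : q ≤ 17 := by nlinarith
    have h4 : f ≤ 8 := by
      by_contra h
      have h5 : 2 ^ 9 ≤ q ^ f :=
        (Nat.pow_le_pow_left hq.two_le 9).trans (Nat.pow_le_pow_right hq.pos (by omega))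
      omega
    have hqf' : q ^ f % 13 = 1 := by
      have : ((q ^ f : ℕ) : ZMod 13) = ((1 : ℕ) : ZMod 13) := by push_cast; exact hqf
      rw [ZMod.natCast_eq_natCast_iff'] at this
      simpa using this
    clear hqf hf1
    interval_cases q <;> first | (left; rfl) | (exfalso; revert hq; norm_num; done) |
      (exfalso; interval_cases f <;> omega)
  · have hfe : f = 1 := by omega
    have h2 := hf1 hfe
    obtain ⟨k, hk⟩ : ∃ k, q = 13 * k + 1 := ⟨q / 13, by omega⟩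
    have hk23 : k ≤ 23 := by omega
    subst hk
    clear hqf hf1 hf h2 hq307
    interval_cases k <;> first | simp; done | (exfalso; revert hq; norm_num; done)

/-- `ℤ[ζ₁₃]` is a PID. -/
theorem thirteen_pid (K : Type*) [Field K] [NumberField K] [hK : IsCyclotomicExtension {13} ℚ K] :
    IsPrincipalIdealRing (𝓞 K) := by
  have hp13 : Fact (Nat.Prime 13) := ⟨by norm_num⟩
  apply RingOfIntegers.isPrincipalIdealRing_of_isPrincipal_of_pow_le_of_mem_primesOver_of_mem_Icc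
  intro q hq hqp P hP hPle
  have hq307 : q ≤ 307 := (Finset.mem_Icc.1 hq).2.trans thirteen_bound
  have hPle' := hPle.trans thirteen_bound
  have hPp : P.IsPrime := hP.1
  have hPl : P.LiesOver (Ideal.span {(q : ℤ)}) := hP.2
  have hqF : Fact q.Prime := ⟨hqp⟩
  have hζ := IsCyclotomicExtension.zeta_spec 13 ℚ K
  have hmem : ∀ m : ℤ, (m : 𝓞 K) ∈ P → (q : ℤ) ∣ m := by
    intro m hm
    have h1 : m ∈ Ideal.span {(q : ℤ)} := by
      rw [Ideal.mem_of_liesOver P (Ideal.span {(q : ℤ)}) m]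
      simpa using hm
    exact Ideal.mem_span_singleton.1 h1
  have hqP : (q : 𝓞 K) ∈ P := by
    have h1 : (q : ℤ) ∈ Ideal.span {(q : ℤ)} := Ideal.mem_span_singleton_self _
    rw [Ideal.mem_of_liesOver P (Ideal.span {(q : ℤ)})] at h1
    simpa using h1
  by_cases hq13 : q = 13
  · subst hq13
    rw [Rat.eq_span_zeta_sub_one_of_liesOver' 13 K hζ P]
    exact ⟨⟨_, rfl⟩⟩
  have hnd : ¬ q ∣ 13 := by
    intro h
    exact hq13 ((Nat.prime_dvd_prime_iff_eq hqp hp13.out).1 h)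
  have hin : P.inertiaDeg ℤ = orderOf (q : ZMod 13) := Rat.inertiaDeg_eq_of_not_dvd q K P hnd
  have hpP : ((13 : ℕ) : 𝓞 K) ∉ P := by
    intro h
    have := hmem 13 (by exact_mod_cast h)
    exact hnd (by exact_mod_cast this)
  have hu : IsUnit (q : ZMod 13) := by
    rw [ZMod.isUnit_iff_coprime]
    exact (Nat.coprime_primes hqp hp13.out).2 hq13
  have hord : 0 < orderOf (q : ZMod 13) := by
    obtain ⟨u, hu⟩ := hu
    rw [← hu, orderOf_units]
    exact orderOf_pos u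
  rw [hin] at hPle'
  have hcases := thirteen_cases hqp hq307 hord hPle' (pow_orderOf_eq_one _) (by
    intro h
    rw [orderOf_eq_one_iff] at h
    have : ((q : ℕ) : ZMod 13) = ((1 : ℕ) : ZMod 13) := by rw [h]; simp
    rw [ZMod.natCast_eq_natCast_iff'] at this
    simpa using this)
  have hζ' := hζ.toInteger_isPrimitiveRoot
  rcases hcases with rfl | rfl | rfl | rfl | rfl
  · exact principal_three hζ' (fun z hz x => gen_of z hz x) P (by exact_mod_cast hqP)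
  · exact principal_of_cert hp13.out hζ' (fun z hz x => gen_of z hz x) P 53 hqP hpP hmem (-17)
      (by norm_num) (by norm_num) (fun z hz => cert53 (hz.geom_sum_eq_zero (by norm_num)))
  · exact principal_of_cert hp13.out hζ' (fun z hz x => gen_of z hz x) P 79 hqP hpP hmem (-15)
      (by norm_num) (by norm_num) (fun z hz => cert79 (hz.geom_sum_eq_zero (by norm_num)))
  · exact principal_of_cert hp13.out hζ' (fun z hz x => gen_of z hz x) P 131 hqP hpP hmem (-51)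
      (by norm_num) (by norm_num) (fun z hz => cert131 (hz.geom_sum_eq_zero (by norm_num)))
  · exact principal_of_cert hp13.out hζ' (fun z hz x => gen_of z hz x) P 157 hqP hpP hmem 75
      (by norm_num) (by norm_num) (fun z hz => cert157 (hz.geom_sum_eq_zero (by norm_num)))

end Final

end Fermat.Agent.H2
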