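import Mathlib
import Fermat.Agent.H2Pid13

/-!
`ℤ[ζ₁₁]` and `ℤ[ζ₇]` are PIDs, by the Minkowski bound and explicit generators.
-/

set_option autoImplicit false

namespace Fermat.Agent.H2

open NumberField IsCyclotomicExtension Polynomial Real

section Certs

variable {R : Type*} [CommRing R] {z : R}

theorem cert23 (hΦ : ∑ i ∈ Finset.range 11, z ^ i = 0) : ∃ ϖ α β : R, ϖ * α = (23 : ℕ) ∧
    ϖ * β = z - (4 : ℤ) ∧ ∃ γ δ, ϖ = (z - (4 : ℤ)) * γ + (23 : ℕ) * δ := by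
  simp only [Finset.sum_range_succ, Finset.sum_range_zero] at hΦ
  refine ⟨1 + 1 * z + 1 * z ^ 3, (-2) + (-14 * z) + (-17 * z ^ 2) + (-12 * z ^ 3) + (-5 * z ^ 4) + (-9 * z ^ 5) + (-10 * z ^ 6) + (-16 * z ^ 7) + (-6 * z ^ 8) + (-15 * z ^ 9), 1 + 3 * z + 3 * z ^ 2 + 2 * z ^ 3 + 1 * z ^ 4 + 2 * z ^ 5 + 2 * z ^ 6 + 3 * z ^ 7 + 1 * z ^ 8 + 3 * z ^ 9, ?_, ?_, 17 + 4 * z + 1 * z ^ 2, 3, ?_⟩
  · push_cast; linear_combination ((-25) + 9 * z + (-15 * z ^ 2)) * hΦ
  · push_cast; linear_combination (5 + (-2 * z) + 3 * z ^ 2) * hΦ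
  · push_cast; ring

end Certs

theorem eleven_bound {K : Type*} [Field K] [NumberField K] [IsCyclotomicExtension {11} ℚ K] :
    ⌊(4 / π) ^ InfinitePlace.nrComplexPlaces K *
      ((Module.finrank ℚ K).factorial / (Module.finrank ℚ K) ^ (Module.finrank ℚ K) *
        √|discr K|)⌋₊ ≤ 59 := by
  have : Fact (Nat.Prime 11) := ⟨by norm_num⟩
  rw [Rat.discr_prime 11 K, IsCyclotomicExtension.finrank (n := 11) K
    (cyclotomic.irreducible_rat (by simp)), Rat.nrComplexPlaces_eq_totient_div_two 11,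
    Nat.totient_prime (by norm_num : Nat.Prime 11)]
  have hpi : (3.14 : ℝ) < π := pi_gt_d2
  have hlt : (4 / π) ^ ((11 - 1) / 2) *
        (((11 - 1).factorial : ℝ) / ((11 - 1 : ℕ) : ℝ) ^ (11 - 1) *
          √|((((-1) ^ ((11 - 1) / 2) * (11 : ℕ) ^ (11 - 2) : ℤ)) : ℝ)|) < 60 := by
    have h1 : (|((((-1) ^ ((11 - 1) / 2) * (11 : ℕ) ^ (11 - 2) : ℤ)) : ℝ)|) = 2357947691 := by
      norm_num
    have h2 : √(2357947691 : ℝ) < 48559 := by
      rw [Real.sqrt_lt' (by norm_num)]; norm_num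
    have h3 : (4 / π) ^ ((11 - 1) / 2) ≤ (4 / 3.14 : ℝ) ^ ((11 - 1) / 2) := by
      gcongr
    rw [h1]
    calc (4 / π) ^ ((11 - 1) / 2) *
        (((11 - 1).factorial : ℝ) / ((11 - 1 : ℕ) : ℝ) ^ (11 - 1) * √(2357947691 : ℝ))
        ≤ (4 / 3.14 : ℝ) ^ ((11 - 1) / 2) *
        (((11 - 1).factorial : ℝ) / ((11 - 1 : ℕ) : ℝ) ^ (11 - 1) * 48559) := by
          gcongr
      _ < 60 := by
          norm_num [Nat.factorial]
  have h0 : ⌊(4 / π) ^ ((11 - 1) / 2) *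
        (((11 - 1).factorial : ℝ) / ((11 - 1 : ℕ) : ℝ) ^ (11 - 1) *
          √|((((-1) ^ ((11 - 1) / 2) * (11 : ℕ) ^ (11 - 2) : ℤ)) : ℝ)|)⌋₊ < 60 :=
    Nat.floor_lt' (by norm_num) |>.2 (by exact_mod_cast hlt)
  exact Nat.lt_succ_iff.1 h0

theorem seven_bound {K : Type*} [Field K] [NumberField K] [IsCyclotomicExtension {7} ℚ K] :
    ⌊(4 / π) ^ InfinitePlace.nrComplexPlaces K *
      ((Module.finrank ℚ K).factorial / (Module.finrank ℚ K) ^ (Module.finrank ℚ K) *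
        √|discr K|)⌋₊ ≤ 4 := by
  have : Fact (Nat.Prime 7) := ⟨by norm_num⟩
  rw [Rat.discr_prime 7 K, IsCyclotomicExtension.finrank (n := 7) K
    (cyclotomic.irreducible_rat (by simp)), Rat.nrComplexPlaces_eq_totient_div_two 7,
    Nat.totient_prime (by norm_num : Nat.Prime 7)]
  have hpi : (3.14 : ℝ) < π := pi_gt_d2
  have hlt : (4 / π) ^ ((7 - 1) / 2) *
        (((7 - 1).factorial : ℝ) / ((7 - 1 : ℕ) : ℝ) ^ (7 - 1) *
          √|((((-1) ^ ((7 - 1) / 2) * (7 : ℕ) ^ (7 - 2) : ℤ)) : ℝ)|) < 5 := by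
    have h1 : (|((((-1) ^ ((7 - 1) / 2) * (7 : ℕ) ^ (7 - 2) : ℤ)) : ℝ)|) = 16807 := by
      norm_num
    have h2 : √(16807 : ℝ) < 130 := by
      rw [Real.sqrt_lt' (by norm_num)]; norm_num
    have h3 : (4 / π) ^ ((7 - 1) / 2) ≤ (4 / 3.14 : ℝ) ^ ((7 - 1) / 2) := by
      gcongr
    rw [h1]
    calc (4 / π) ^ ((7 - 1) / 2) *
        (((7 - 1).factorial : ℝ) / ((7 - 1 : ℕ) : ℝ) ^ (7 - 1) * √(16807 : ℝ))
        ≤ (4 / 3.14 : ℝ) ^ ((7 - 1) / 2) *
        (((7 - 1).factorial : ℝ) / ((7 - 1 : ℕ) : ℝ) ^ (7 - 1) * 130) := by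
          gcongr
      _ < 5 := by
          norm_num [Nat.factorial]
  have h0 : ⌊(4 / π) ^ ((7 - 1) / 2) *
        (((7 - 1).factorial : ℝ) / ((7 - 1 : ℕ) : ℝ) ^ (7 - 1) *
          √|((((-1) ^ ((7 - 1) / 2) * (7 : ℕ) ^ (7 - 2) : ℤ)) : ℝ)|)⌋₊ < 5 :=
    Nat.floor_lt' (by norm_num) |>.2 (by exact_mod_cast hlt)
  exact Nat.lt_succ_iff.1 h0

theorem eleven_cases {q f : ℕ} (hq : q.Prime) (hq59 : q ≤ 59) (hf0 : 0 < f)
    (hf : q ^ f ≤ 59) (hqf : (q : ZMod 11) ^ f = 1) (hf1 : f = 1 → q % 11 = 1) :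
    q = 23 := by
  rcases Nat.lt_or_ge 1 f with h1 | h1
  · -- f ≥ 2
    have h2 : q ^ 2 ≤ 59 := (Nat.pow_le_pow_right hq.pos h1).trans hf
    have h3 : q ≤ 7 := by nlinarith
    have h4 : f ≤ 5 := by
      by_contra h
      have h5 : 2 ^ 6 ≤ q ^ f :=
        (Nat.pow_le_pow_left hq.two_le 6).trans (Nat.pow_le_pow_right hq.pos (by omega))
      omega
    have hqf' : q ^ f % 11 = 1 := by
      have : ((q ^ f : ℕ) : ZMod 11) = ((1 : ℕ) : ZMod 11) := by push_cast; exact hqf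
      rw [ZMod.natCast_eq_natCast_iff'] at this
      simpa using this
    clear hqf hf1
    interval_cases q <;> first | (exfalso; revert hq; norm_num; done) |
      (exfalso; interval_cases f <;> omega)
  · have hfe : f = 1 := by omega
    have h2 := hf1 hfe
    obtain ⟨k, hk⟩ : ∃ k, q = 11 * k + 1 := ⟨q / 11, by omega⟩
    have hk23 : k ≤ 5 := by omega
    subst hk
    clear hqf hf1 hf h2 hq59
    interval_cases k <;> first | rfl | (exfalso; revert hq; norm_num; done)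

theorem seven_cases {q f : ℕ} (hq : q.Prime) (hq4 : q ≤ 4) (hf0 : 0 < f)
    (hf : q ^ f ≤ 4) (hqf : (q : ZMod 7) ^ f = 1) : False := by
  have h4 : f ≤ 2 := by
    by_contra h
    have h5 : 2 ^ 3 ≤ q ^ f :=
      (Nat.pow_le_pow_left hq.two_le 3).trans (Nat.pow_le_pow_right hq.pos (by omega))
    omega
  have hqf' : q ^ f % 7 = 1 := by
    have : ((q ^ f : ℕ) : ZMod 7) = ((1 : ℕ) : ZMod 7) := by push_cast; exact hqf
    rw [ZMod.natCast_eq_natCast_iff'] at this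
    simpa using this
  have h2 := hq.two_le
  clear hqf
  interval_cases q <;> first | (exfalso; revert hq; norm_num; done) |
    (exfalso; interval_cases f <;> omega)

/-- `ℤ[ζ₁₁]` is a PID. -/
theorem eleven_pid (K : Type*) [Field K] [NumberField K] [hK : IsCyclotomicExtension {11} ℚ K] :
    IsPrincipalIdealRing (𝓞 K) := by
  have hp13 : Fact (Nat.Prime 11) := ⟨by norm_num⟩
  apply RingOfIntegers.isPrincipalIdealRing_of_isPrincipal_of_pow_le_of_mem_primesOver_of_mem_Icc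
  intro q hq hqp P hP hPle
  have hq307 : q ≤ 59 := (Finset.mem_Icc.1 hq).2.trans eleven_bound
  have hPle' := hPle.trans eleven_bound
  have hPp : P.IsPrime := hP.1
  have hPl : P.LiesOver (Ideal.span {(q : ℤ)}) := hP.2
  have hqF : Fact q.Prime := ⟨hqp⟩
  have hζ := IsCyclotomicExtension.zeta_spec 11 ℚ K
  have hmem : ∀ m : ℤ, (m : 𝓞 K) ∈ P → (q : ℤ) ∣ m := by
    intro m hm
    have h1 : m ∈ Ideal.span {(q : ℤ)} := by
      rw [Ideal.mem_of_liesOver P (Ideal.span {(q : ℤ)}) m]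
      simpa using hm
    exact Ideal.mem_span_singleton.1 h1
  have hqP : (q : 𝓞 K) ∈ P := by
    have h1 : (q : ℤ) ∈ Ideal.span {(q : ℤ)} := Ideal.mem_span_singleton_self _
    rw [Ideal.mem_of_liesOver P (Ideal.span {(q : ℤ)})] at h1
    simpa using h1
  by_cases hq13 : q = 11
  · subst hq13
    rw [Rat.eq_span_zeta_sub_one_of_liesOver' 11 K hζ P]
    exact ⟨⟨_, rfl⟩⟩
  have hnd : ¬ q ∣ 11 := by
    intro h
    exact hq13 ((Nat.prime_dvd_prime_iff_eq hqp hp13.out).1 h)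
  have hin : P.inertiaDeg ℤ = orderOf (q : ZMod 11) := Rat.inertiaDeg_eq_of_not_dvd q K P hnd
  have hpP : ((11 : ℕ) : 𝓞 K) ∉ P := by
    intro h
    have := hmem 11 (by exact_mod_cast h)
    exact hnd (by exact_mod_cast this)
  have hu : IsUnit (q : ZMod 11) := by
    rw [ZMod.isUnit_iff_coprime]
    exact (Nat.coprime_primes hqp hp13.out).2 hq13
  have hord : 0 < orderOf (q : ZMod 11) := by
    obtain ⟨u, hu⟩ := hu
    rw [← hu, orderOf_units]
    exact orderOf_pos u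
  rw [hin] at hPle'
  have hcases := eleven_cases hqp hq307 hord hPle' (pow_orderOf_eq_one _) (by
    intro h
    rw [orderOf_eq_one_iff] at h
    have : ((q : ℕ) : ZMod 11) = ((1 : ℕ) : ZMod 11) := by rw [h]; simp
    rw [ZMod.natCast_eq_natCast_iff'] at this
    simpa using this)
  have hζ' := hζ.toInteger_isPrimitiveRoot
  subst hcases
  exact principal_of_cert hp13.out hζ' (fun z hz x => gen_of z hz x) P 23 hqP hpP hmem 4
      (by norm_num) (by norm_num) (fun z hz => cert23 (hz.geom_sum_eq_zero (by norm_num)))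

/-- `ℤ[ζ₇]` is a PID. -/
theorem seven_pid (K : Type*) [Field K] [NumberField K] [hK : IsCyclotomicExtension {7} ℚ K] :
    IsPrincipalIdealRing (𝓞 K) := by
  have hp13 : Fact (Nat.Prime 7) := ⟨by norm_num⟩
  apply RingOfIntegers.isPrincipalIdealRing_of_isPrincipal_of_pow_le_of_mem_primesOver_of_mem_Icc
  intro q hq hqp P hP hPle
  exfalso
  have hq307 : q ≤ 4 := (Finset.mem_Icc.1 hq).2.trans seven_bound
  have hPle' := hPle.trans seven_bound
  have hPp : P.IsPrime := hP.1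
  have hPl : P.LiesOver (Ideal.span {(q : ℤ)}) := hP.2
  have hqF : Fact q.Prime := ⟨hqp⟩
  have hq13 : q ≠ 7 := by omega
  have hnd : ¬ q ∣ 7 := by
    intro h
    exact hq13 ((Nat.prime_dvd_prime_iff_eq hqp hp13.out).1 h)
  have hin : P.inertiaDeg ℤ = orderOf (q : ZMod 7) := Rat.inertiaDeg_eq_of_not_dvd q K P hnd
  have hu : IsUnit (q : ZMod 7) := by
    rw [ZMod.isUnit_iff_coprime]
    exact (Nat.coprime_primes hqp hp13.out).2 hq13
  have hord : 0 < orderOf (q : ZMod 7) := by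
    obtain ⟨u, hu⟩ := hu
    rw [← hu, orderOf_units]
    exact orderOf_pos u
  rw [hin] at hPle'
  exact seven_cases hqp hq307 hord hPle' (pow_orderOf_eq_one _)

end Fermat.Agent.H2
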