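import Fermat.Agent.H46KummerC
set_option autoImplicit false

namespace Fermat.Agent.H46

open NumberField Polynomial

def mz5 (i j : ℕ) : ℤ :=
  (([[1], [-2, -1, -2]] : List (List ℤ)).getD i []).getD j 0

def nz5 : Matrix (Fin 3) (Fin 2) (ZMod 5) :=
  !![1, 0; 3, 4; 0, 0]

theorem mn5 : (Matrix.of (fun i j => ((mz5 i j : ℤ) : ZMod 5)) :
      Matrix (Fin 2) (Fin 3) (ZMod 5)) * nz5 = 1 := by decide +kernel

theorem kummer_5 (K : Type*) [Field K] [NumberField K] [IsCyclotomicExtension {5} ℚ K]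
    (u : (𝓞 K)ˣ) (n : ℤ) (h : (5 : 𝓞 K) ∣ (u : 𝓞 K) - n) : ∃ w : (𝓞 K)ˣ, u = w ^ 5 := by
  have : Fact (Nat.Prime 5) := ⟨by norm_num⟩
  refine kummer_of_data (p := 5) (by norm_num) (r := 1) (d := 3) (by norm_num) (by norm_num) mz5 nz5
    mn5 ⟨rfl, ?_⟩ ?_ K u n (by exact_mod_cast h)
  · intro j hj
    obtain ⟨k, rfl⟩ := Nat.exists_eq_succ_of_ne_zero hj
    rfl
  intro A _ x hx hp i
  push_cast at hp
  fin_cases i
  · simp [Finset.sum_range_succ, mz5]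
    linear_combination ((-2)*x^0) * hx + ((-1)*x^0 + (-1)*x^1 + (-1)*x^2) * hp

def mz7 (i j : ℕ) : ℤ :=
  (([[1], [-3, 2, -1, -3, -2], [1, 3, 2, -3, 0]] : List (List ℤ)).getD i []).getD j 0

def nz7 : Matrix (Fin 5) (Fin 3) (ZMod 7) :=
  !![1, 0, 0; 3, 6, 1; 0, 0, 0; 1, 6, 3; 0, 0, 0]

theorem mn7 : (Matrix.of (fun i j => ((mz7 i j : ℤ) : ZMod 7)) :
      Matrix (Fin 3) (Fin 5) (ZMod 7)) * nz7 = 1 := by decide +kernel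

theorem kummer_7 (K : Type*) [Field K] [NumberField K] [IsCyclotomicExtension {7} ℚ K]
    (u : (𝓞 K)ˣ) (n : ℤ) (h : (7 : 𝓞 K) ∣ (u : 𝓞 K) - n) : ∃ w : (𝓞 K)ˣ, u = w ^ 7 := by
  have : Fact (Nat.Prime 7) := ⟨by norm_num⟩
  refine kummer_of_data (p := 7) (by norm_num) (r := 2) (d := 5) (by norm_num) (by norm_num) mz7 nz7
    mn7 ⟨rfl, ?_⟩ ?_ K u n (by exact_mod_cast h)
  · intro j hj
    obtain ⟨k, rfl⟩ := Nat.exists_eq_succ_of_ne_zero hj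
    rfl
  intro A _ x hx hp i
  push_cast at hp
  fin_cases i
  · simp [Finset.sum_range_succ, mz7]
    linear_combination ((-2)*x^0) * hx + ((-1)*x^0 + (-1)*x^3 + (-1)*x^4) * hp
  · simp [Finset.sum_range_succ, mz7]
    linear_combination ((-3)*x^0) * hx + ((1)*x^1 + (2)*x^2 + (-1)*x^4) * hp

def mz11 (i j : ℕ) : ℤ :=
  (([[1], [-5, 3, 4, -2, 1, 5, 3, 4, -2], [1, -3, -4, 5, 0, 2, -2, 5, 3], [-4, 4, -2, -2, 4, 2, -1, 4, 0], [2, 2, -1, 2, 3, -5, 0, 0, 0]] : List (List ℤ)).getD i []).getD j 0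

def nz11 : Matrix (Fin 9) (Fin 5) (ZMod 11) :=
  !![1, 0, 0, 0, 0; 0, 6, 7, 10, 4; 0, 0, 0, 0, 0; 9, 9, 8, 3, 9; 0, 0, 0, 0, 0; 4, 6, 6, 3, 5; 0, 0, 0, 0, 0; 9, 1, 5, 4, 9; 0, 0, 0, 0, 0]

theorem mn11 : (Matrix.of (fun i j => ((mz11 i j : ℤ) : ZMod 11)) :
      Matrix (Fin 5) (Fin 9) (ZMod 11)) * nz11 = 1 := by decide +kernel

theorem kummer_11 (K : Type*) [Field K] [NumberField K] [IsCyclotomicExtension {11} ℚ K]
    (u : (𝓞 K)ˣ) (n : ℤ) (h : (11 : 𝓞 K) ∣ (u : 𝓞 K) - n) : ∃ w : (𝓞 K)ˣ, u = w ^ 11 := by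
  have : Fact (Nat.Prime 11) := ⟨by norm_num⟩
  refine kummer_of_data (p := 11) (by norm_num) (r := 4) (d := 9) (by norm_num) (by norm_num) mz11 nz11
    mn11 ⟨rfl, ?_⟩ ?_ K u n (by exact_mod_cast h)
  · intro j hj
    obtain ⟨k, rfl⟩ := Nat.exists_eq_succ_of_ne_zero hj
    rfl
  intro A _ x hx hp i
  push_cast at hp
  fin_cases i
  · simp [Finset.sum_range_succ, mz11]
    linear_combination ((-2)*x^0) * hx + ((-1)*x^0 + (1)*x^2 + (1)*x^5 + (1)*x^6 + (1)*x^7) * hp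
  · simp [Finset.sum_range_succ, mz11]
    linear_combination ((14)*x^0 + (3)*x^1) * hx + ((-1)*x^1 + (-2)*x^2 + (1)*x^4 + (1)*x^5 + (1)*x^7 + (2)*x^8) * hp
  · simp [Finset.sum_range_succ, mz11]
    linear_combination ((15)*x^0 + (4)*x^1) * hx + ((-2)*x^0 + (-2)*x^1 + (-1)*x^2 + (-1)*x^3 + (2)*x^5 + (2)*x^6 + (2)*x^7 + (2)*x^8) * hp
  · simp [Finset.sum_range_succ, mz11]
    linear_combination ((-5)*x^0) * hx + ((1)*x^3 + (3)*x^4 + (2)*x^5 + (-1)*x^6 + (-3)*x^7 + (-2)*x^8) * hp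

def mz13 (i j : ℕ) : ℤ :=
  (([[1], [-6, -3, -5, -4, 2, -1, -6, 3, 5, 4, -2], [1, 5, 4, 3, 0, -1, 1, -5, -4, -3, 0], [-5, -2, 1, -4, -1, 2, -1, 3, -4, 0, 0], [2, 2, -1, 5, 6, 2, 0, 2, -2, -3, -5], [-4, 4, -2, -2, 4, -3, -6, 0, 0, 0, 0]] : List (List ℤ)).getD i []).getD j 0

def nz13 : Matrix (Fin 11) (Fin 6) (ZMod 13) :=
  !![1, 0, 0, 0, 0, 0; 10, 7, 6, 8, 12, 9; 0, 0, 0, 0, 0, 0; 9, 6, 1, 4, 7, 5; 0, 0, 0, 0, 0, 0; 6, 1, 3, 8, 7, 4; 0, 0, 0, 0, 0, 0; 12, 12, 12, 10, 4, 10; 0, 0, 0, 0, 0, 0; 4, 6, 7, 11, 5, 2; 0, 0, 0, 0, 0, 0]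

theorem mn13 : (Matrix.of (fun i j => ((mz13 i j : ℤ) : ZMod 13)) :
      Matrix (Fin 6) (Fin 11) (ZMod 13)) * nz13 = 1 := by decide +kernel

theorem kummer_13 (K : Type*) [Field K] [NumberField K] [IsCyclotomicExtension {13} ℚ K]
    (u : (𝓞 K)ˣ) (n : ℤ) (h : (13 : 𝓞 K) ∣ (u : 𝓞 K) - n) : ∃ w : (𝓞 K)ˣ, u = w ^ 13 := by
  have : Fact (Nat.Prime 13) := ⟨by norm_num⟩
  refine kummer_of_data (p := 13) (by norm_num) (r := 5) (d := 11) (by norm_num) (by norm_num) mz13 nz13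
    mn13 ⟨rfl, ?_⟩ ?_ K u n (by exact_mod_cast h)
  · intro j hj
    obtain ⟨k, rfl⟩ := Nat.exists_eq_succ_of_ne_zero hj
    rfl
  intro A _ x hx hp i
  push_cast at hp
  fin_cases i
  · simp [Finset.sum_range_succ, mz13]
    linear_combination ((-2)*x^0) * hx + ((-1)*x^0 + (-1)*x^1 + (-1)*x^2 + (-1)*x^3 + (-1)*x^6 + (1)*x^8 + (1)*x^9) * hp
  · simp [Finset.sum_range_succ, mz13]
    linear_combination ((-3)*x^0) * hx + ((1)*x^1 + (2)*x^2 + (2)*x^3 + (1)*x^4 + (-1)*x^7 + (-2)*x^8 + (-2)*x^9 + (-1)*x^10) * hp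
  · simp [Finset.sum_range_succ, mz13]
    linear_combination ((-4)*x^0) * hx + ((-2)*x^0 + (-4)*x^1 + (-3)*x^2 + (-2)*x^3 + (-2)*x^4 + (-1)*x^5 + (1)*x^7 + (-1)*x^9 + (-1)*x^10) * hp
  · simp [Finset.sum_range_succ, mz13]
    linear_combination ((-88)*x^0 + (-67)*x^1 + (-28)*x^2 + (-5)*x^3) * hx + ((2)*x^3 + (6)*x^4 + (9)*x^5 + (8)*x^6 + (5)*x^7 + (2)*x^8 + (-1)*x^9 + (-5)*x^10) * hp
  · simp [Finset.sum_range_succ, mz13]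
    linear_combination ((-6)*x^0) * hx + ((-3)*x^0 + (-7)*x^1 + (-9)*x^2 + (-7)*x^3 + (-3)*x^4 + (-1)*x^5 + (-3)*x^6 + (-8)*x^7 + (-11)*x^8 + (-8)*x^9 + (-3)*x^10) * hp
/-- **Kummer's lemma** for `p ∈ {5, 7, 11, 13}`: a unit of `𝓞 ℚ(ζ_p)` which is congruent modulo `p`
to a rational integer is a `p`-th power. -/
theorem kummer_lemma {p : ℕ} (hp : p = 5 ∨ p = 7 ∨ p = 11 ∨ p = 13) (K : Type*) [Field K]
    [NumberField K] [IsCyclotomicExtension {p} ℚ K]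
    (u : (𝓞 K)ˣ) (n : ℤ) (h : (p : 𝓞 K) ∣ (u : 𝓞 K) - n) : ∃ w : (𝓞 K)ˣ, u = w ^ p := by
  rcases hp with rfl | rfl | rfl | rfl
  · exact kummer_5 K u n (by exact_mod_cast h)
  · exact kummer_7 K u n (by exact_mod_cast h)
  · exact kummer_11 K u n (by exact_mod_cast h)
  · exact kummer_13 K u n (by exact_mod_cast h)

end Fermat.Agent.H46
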