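import Mathlib
import Fermat.Prelude.Def_FLTPrelim_FreyPackage
import Fermat.Agent.H2Inst
import Fermat.Agent.H2Pid13
import Fermat.Agent.H2Pid711
import Fermat.Agent.H46KummerD
import Fermat.Agent.H1Germain

/-!
Fermat's Last Theorem for the exponents 5, 7, 11, 13 (Kummer), in the form:
no `FreyPackage` has exponent 5, 7, 11 or 13.
-/

set_option autoImplicit false

namespace Fermat.Agent.H2

open NumberField

theorem pid_small {p : ℕ} (hp : p = 5 ∨ p = 7 ∨ p = 11 ∨ p = 13) (K : Type*) [Field K]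
    [NumberField K] [IsCyclotomicExtension {p} ℚ K] : IsPrincipalIdealRing (𝓞 K) := by
  rcases hp with rfl | rfl | rfl | rfl
  · exact IsCyclotomicExtension.Rat.five_pid K
  · exact seven_pid K
  · exact eleven_pid K
  · exact thirteen_pid K

/-- There is no Frey package with exponent 5, 7, 11 or 13. -/
theorem frey_small_false (P : FreyPackage) (hp : P.p = 5 ∨ P.p = 7 ∨ P.p = 11 ∨ P.p = 13) :
    False := by
  obtain ⟨p, hpe⟩ : ∃ p, P.p = p := ⟨_, rfl⟩
  have hpr : Fact p.Prime := ⟨hpe ▸ P.pp⟩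
  rw [hpe] at hp
  obtain ⟨K, _, _, _⟩ := exists_cyclotomic p
  have hpid := pid_small hp K
  refine frey_false_of (p := p) (hpe ▸ P.hp5) (fun x y z hxy h => Fermat.Agent.H1.case_one hp hxy h)
    K ?_ P hpe
  intro u m h
  obtain ⟨w, hw⟩ := Fermat.Agent.H46.kummer_lemma hp K u m h
  exact ⟨w, hw.symm⟩

end Fermat.Agent.H2
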