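import Mathlib

/-!
# Cyclotomic lemmas for S14: scaling and congruences modulo powers of `1 - ζ`
-/

set_option autoImplicit false

open scoped NumberField
open IsDedekindDomain NumberField

namespace Fermat.Agent.H14

section

variable {p : ℕ} [hp : Fact p.Prime] {K : Type*} [Field K] [NumberField K]
  [IsCyclotomicExtension {p} ℚ K] {ζ : 𝓞 K} (hζ : IsPrimitiveRoot ζ p)

include hζ

theorem isPrimitiveRoot_coe : IsPrimitiveRoot (ζ : K) p :=
  hζ.map_of_injective (f := algebraMap (𝓞 K) K) RingOfIntegers.coe_injective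

theorem prime_one_sub : Prime (1 - ζ) := by
  have h1 := (isPrimitiveRoot_coe hζ).zeta_sub_one_prime'
  have h2 : (isPrimitiveRoot_coe hζ).toInteger = ζ := RingOfIntegers.ext rfl
  rw [h2] at h1
  have := h1.neg
  rwa [neg_sub] at this

/-- the place `(1 - ζ)` -/
noncomputable def vZeta : HeightOneSpectrum (𝓞 K) where
  asIdeal := Ideal.span {1 - ζ}
  isPrime := (Ideal.span_singleton_prime (prime_one_sub hζ).ne_zero).mpr (prime_one_sub hζ)
  ne_bot := by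
    rw [Ne, Ideal.span_singleton_eq_bot]
    exact (prime_one_sub hζ).ne_zero

theorem vZeta_valuation_one_sub :
    (vZeta hζ).valuation K ((1 - ζ : 𝓞 K) : K) = WithZero.exp (-1 : ℤ) := by
  rw [show ((1 - ζ : 𝓞 K) : K) = algebraMap (𝓞 K) K (1 - ζ) from rfl,
    (vZeta hζ).valuation_of_algebraMap]
  exact (vZeta hζ).intValuation_singleton (prime_one_sub hζ).ne_zero rfl

theorem not_dvd_iff (x : 𝓞 K) : ¬ (1 - ζ) ∣ x ↔ (vZeta hζ).valuation K (x : K) = 1 := by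
  rw [show (x : K) = algebraMap (𝓞 K) K x from rfl, (vZeta hζ).valuation_eq_one_iff_notMem]
  rw [← Ideal.mem_span_singleton]
  rfl

theorem dvd_pow_iff (x : 𝓞 K) (n : ℕ) :
    (1 - ζ) ^ n ∣ x ↔ (vZeta hζ).valuation K (x : K) ≤ WithZero.exp (-(n : ℤ)) := by
  rw [show (x : K) = algebraMap (𝓞 K) K x from rfl, (vZeta hζ).valuation_of_algebraMap,
    (vZeta hζ).intValuation_le_pow_iff_mem]
  show _ ↔ x ∈ (Ideal.span {1 - ζ}) ^ n
  rw [Ideal.span_singleton_pow, Ideal.mem_span_singleton]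

theorem exists_scale (α : K) (hα : α ≠ 0)
    (h : ∀ v : HeightOneSpectrum (𝓞 K), ∃ m : ℤ, v.valuation K α = WithZero.exp ((p : ℤ) * m)) :
    ∃ (c : K) (a : 𝓞 K), c ≠ 0 ∧ (a : K) = α * c ^ p ∧ ¬ (1 - ζ) ∣ a := by
  obtain ⟨m, hm⟩ := h (vZeta hζ)
  set π : K := ((1 - ζ : 𝓞 K) : K) with hπ
  have hπ0 : π ≠ 0 := by
    rw [hπ, Ne, RingOfIntegers.coe_eq_zero_iff]
    exact (prime_one_sub hζ).ne_zero
  have hvπ := vZeta_valuation_one_sub hζ
  have h1 : (vZeta hζ).valuation K (α * (π ^ m) ^ p) = 1 := by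
    rw [← hπ] at hvπ
    rw [map_mul, hm, map_pow, map_zpow₀, hvπ, ← WithZero.exp_zsmul, ← WithZero.exp_nsmul,
      ← WithZero.exp_add, ← WithZero.exp_zero]
    congr 1
    simp
  obtain ⟨n, ⟨d, hd⟩, hnd⟩ := (vZeta hζ).exists_primeCompl_mul_eq_of_integer (K := K)
    (α * (π ^ m) ^ p) h1.le
  simp only at hnd
  have hd0 : (d : K) ≠ 0 := by
    rw [Ne, RingOfIntegers.coe_eq_zero_iff]
    rintro rfl
    exact hd (Ideal.zero_mem _)
  have hvd : (vZeta hζ).valuation K (d : K) = 1 := by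
    rw [show (d : K) = algebraMap (𝓞 K) K d from rfl, (vZeta hζ).valuation_eq_one_iff_notMem]
    exact hd
  have hvn : (vZeta hζ).valuation K (n : K) = 1 := by
    have : (n : K) = (α * (π ^ m) ^ p) * (d : K) := hnd.symm
    rw [this, map_mul, h1, hvd, one_mul]
  refine ⟨π ^ m * d, n * d ^ (p - 1), mul_ne_zero (zpow_ne_zero _ hπ0) hd0, ?_, ?_⟩
  · have h2 : (n : K) = (α * (π ^ m) ^ p) * (d : K) := hnd.symm
    rw [show ((n * d ^ (p - 1) : 𝓞 K) : K) = (n : K) * (d : K) ^ (p - 1) by push_cast; rfl, h2]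
    have h3 : (d : K) ^ p = d * d ^ (p - 1) := by
      rw [← pow_succ', Nat.sub_add_cancel hp.out.one_le]
    rw [mul_pow, h3]
    ring
  · rw [not_dvd_iff hζ]
    rw [show ((n * d ^ (p - 1) : 𝓞 K) : K) = (n : K) * (d : K) ^ (p - 1) by push_cast; rfl,
      map_mul, map_pow, hvn, hvd, one_pow, one_mul]

theorem exists_int_sub (x : 𝓞 K) : ∃ n : ℤ, (1 - ζ) ∣ x - (n : 𝓞 K) := by
  have h1 : x ∈ Algebra.adjoin ℤ {ζ} := by
    have h2 := (isPrimitiveRoot_coe hζ).integralPowerBasis.adjoin_gen_eq_top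
    have h3 : (isPrimitiveRoot_coe hζ).integralPowerBasis.gen = ζ := by
      rw [IsPrimitiveRoot.integralPowerBasis_gen]
      exact RingOfIntegers.ext rfl
    rw [h3] at h2
    rw [h2]
    trivial
  induction h1 using Algebra.adjoin_induction with
  | mem x hx =>
    rw [Set.mem_singleton_iff] at hx
    subst hx
    exact ⟨1, ⟨-1, by push_cast; ring⟩⟩
  | algebraMap r => exact ⟨r, by simp⟩
  | add x y _ _ hx hy =>
    obtain ⟨a, ha⟩ := hx
    obtain ⟨b, hb⟩ := hy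
    exact ⟨a + b, by
      have := dvd_add ha hb
      rw [show x + y - ((a + b : ℤ) : 𝓞 K) = x - a + (y - b) by push_cast; ring]
      exact this⟩
  | mul x y _ _ hx hy =>
    obtain ⟨a, ha⟩ := hx
    obtain ⟨b, hb⟩ := hy
    exact ⟨a * b, by
      have := dvd_add (ha.mul_right y) (hb.mul_left (a : 𝓞 K))
      rw [show x * y - ((a * b : ℤ) : 𝓞 K) = (x - a) * y + a * (y - b) by push_cast; ring]
      exact this⟩

theorem one_sub_pow_dvd_natCast : (1 - ζ) ^ (p - 1) ∣ (p : 𝓞 K) := by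
  have h1 : ∏ k ∈ Finset.range (p - 1), (1 - ζ ^ (k + 1)) = (p : 𝓞 K) := by
    have h0 : IsPrimitiveRoot ζ (p - 1 + 1) := by
      rw [Nat.sub_add_cancel hp.out.one_le]; exact hζ
    have := h0.prod_one_sub_pow_eq_order
    rw [this]
    have h2 : ((p - 1 : ℕ) : 𝓞 K) + 1 = ((p - 1 + 1 : ℕ) : 𝓞 K) := by push_cast; ring
    rw [h2, Nat.sub_add_cancel hp.out.one_le]
  rw [← h1]
  have h2 : ∏ k ∈ Finset.range (p - 1), (1 - ζ) = (1 - ζ) ^ (p - 1) := by
    rw [Finset.prod_const, Finset.card_range]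
  rw [← h2]
  exact Finset.prod_dvd_prod_of_dvd _ _ (fun k _ => by
    have := sub_dvd_pow_sub_pow (1 : 𝓞 K) ζ (k + 1)
    rwa [one_pow] at this)

theorem exists_int_pow_sub (h3 : 3 ≤ p) (x : 𝓞 K) : ∃ n : ℤ, (1 - ζ) ^ 3 ∣ x ^ p - (n : 𝓞 K) := by
  obtain ⟨n, c, hc⟩ := exists_int_sub hζ x
  refine ⟨n ^ p, ?_⟩
  have h1 : x = (n : 𝓞 K) + (1 - ζ) * c := by rw [← hc]; ring
  obtain ⟨r, hr⟩ := exists_add_pow_prime_eq hp.out (n : 𝓞 K) ((1 - ζ) * c)
  rw [h1, hr]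
  push_cast
  have h2 : (1 - ζ) ^ 2 ∣ (p : 𝓞 K) :=
    (pow_dvd_pow _ (by omega)).trans (one_sub_pow_dvd_natCast hζ)
  obtain ⟨e, he⟩ := h2
  obtain ⟨k, hk⟩ : ∃ k, p = 3 + k := ⟨p - 3, by omega⟩
  refine ⟨(1 - ζ) ^ k * c ^ p + e * n * c * r, ?_⟩
  rw [mul_pow]
  conv_lhs => rw [he]
  have h4 : (1 - ζ) ^ p = (1 - ζ) ^ 3 * (1 - ζ) ^ k := by rw [← pow_add, ← hk]
  rw [h4]
  ring

end

end Fermat.Agent.H14
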