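import Mathlib

/-!
# Finite level lemmas for S14: trivial inertia / trivial decomposition in a Galois extension
-/

set_option autoImplicit false

open scoped Pointwise NumberField
open IsDedekindDomain

namespace Fermat.Agent.H14

section

variable (K L : Type*) [Field K] [NumberField K] [Field L] [NumberField L] [Algebra K L]
  [IsGalois K L]

theorem ramificationIdx'_eq_one_of_inertia (v : HeightOneSpectrum (𝓞 K))
    (w : HeightOneSpectrum (𝓞 L)) [w.asIdeal.LiesOver v.asIdeal]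
    (h : ∀ s : L ≃ₐ[K] L, (∀ x : 𝓞 L, s • x - x ∈ w.asIdeal) → s = 1) :
    v.asIdeal.ramificationIdx' w.asIdeal = 1 := by
  have h1 := Ideal.card_inertia_eq_ramificationIdxIn (G := (L ≃ₐ[K] L)) v.asIdeal w.asIdeal
  have h2 : Ideal.inertia (L ≃ₐ[K] L) w.asIdeal = ⊥ := by
    rw [eq_bot_iff]
    intro s hs
    exact h s hs
  rw [h2, Subgroup.card_bot] at h1
  rw [Ideal.ramificationIdxIn_eq_ramificationIdx v.asIdeal w.asIdeal (L ≃ₐ[K] L)] at h1
  rw [Ideal.ramificationIdx'_eq_ramificationIdx v.asIdeal w.asIdeal v.ne_bot]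
  exact h1.symm

theorem valuation_eq_of_inertia (v : HeightOneSpectrum (𝓞 K))
    (w : HeightOneSpectrum (𝓞 L)) [w.asIdeal.LiesOver v.asIdeal]
    (h : ∀ s : L ≃ₐ[K] L, (∀ x : 𝓞 L, s • x - x ∈ w.asIdeal) → s = 1) (x : K) :
    v.valuation K x = w.valuation L (algebraMap K L x) := by
  have h1 := HeightOneSpectrum.valuation_liesOver (K := K) L v w x
  rw [ramificationIdx'_eq_one_of_inertia K L v w h, pow_one] at h1
  exact h1

theorem exists_approx_of_decomposition
    (w : HeightOneSpectrum (𝓞 L)) 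
    (h : ∀ s : L ≃ₐ[K] L, s • w.asIdeal = w.asIdeal → s = 1) (b : 𝓞 L) (n : ℕ) :
    ∃ t : 𝓞 K, algebraMap (𝓞 K) (𝓞 L) t - b ∈ w.asIdeal ^ n := by
  classical
  obtain ⟨y, hy⟩ := IsDedekindDomain.exists_forall_sub_mem_ideal (s := (Finset.univ : Finset (L ≃ₐ[K] L)))
    (fun s => s • w.asIdeal) (fun _ => n)
    (fun s _ => by
      have : (s • w.asIdeal).IsPrime := inferInstance
      refine Ideal.prime_of_isPrime ?_ this
      intro h0
      apply w.ne_bot
      rw [← smul_left_cancel_iff s, h0]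
      simp)
    (fun s _ t _ hst heq => hst (by
      have h1 : (t⁻¹ * s) • w.asIdeal = w.asIdeal := by
        rw [mul_smul]
        rw [heq, inv_smul_smul]
      exact (inv_mul_eq_one.mp (h _ h1)).symm))
    (fun s => if (s : L ≃ₐ[K] L) = 1 then b else 0)
  have h1 : y - b ∈ w.asIdeal ^ n := by
    have := hy 1 (Finset.mem_univ _)
    simpa using this
  have h2 : ∀ s : L ≃ₐ[K] L, s ≠ 1 → s • y ∈ w.asIdeal ^ n := by
    intro s hs
    have := hy s⁻¹ (Finset.mem_univ _)
    rw [if_neg (by simpa using hs), sub_zero] at this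
    have h3 : s • y ∈ s • ((s⁻¹ • w.asIdeal) ^ n) := Ideal.smul_mem_pointwise_smul _ _ _ this
    rwa [smul_pow', smul_inv_smul] at h3
  have hinv : ∀ g : L ≃ₐ[K] L, g • (∑ s : L ≃ₐ[K] L, s • y) = ∑ s : L ≃ₐ[K] L, s • y := by
    intro g
    rw [Finset.smul_sum]
    simp only [← mul_smul]
    exact Fintype.sum_equiv (Equiv.mulLeft g) _ _ (fun s => rfl)
  obtain ⟨t, ht⟩ := Algebra.IsInvariant.isInvariant (A := 𝓞 K) (G := (L ≃ₐ[K] L)) _ hinv
  refine ⟨t, ?_⟩
  rw [ht, ← Finset.add_sum_erase _ _ (Finset.mem_univ (1 : L ≃ₐ[K] L)), one_smul]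
  rw [show y + ∑ x ∈ Finset.univ.erase (1 : L ≃ₐ[K] L), x • y - b
    = (y - b) + ∑ x ∈ Finset.univ.erase (1 : L ≃ₐ[K] L), x • y by ring]
  refine Ideal.add_mem _ h1 (Ideal.sum_mem _ fun s hs => h2 s ?_)
  exact Finset.ne_of_mem_erase hs

end

theorem exists_eq_pow_of_valuation {K : Type*} [Field K] [NumberField K] (p : ℕ) (a : 𝓞 K)
    (ha : a ≠ 0)
    (h : ∀ v : HeightOneSpectrum (𝓞 K), ∃ m : ℤ,
      v.valuation K (a : K) = WithZero.exp ((p : ℤ) * m)) :
    ∃ 𝔞 : Ideal (𝓞 K), Ideal.span {a} = 𝔞 ^ p := by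
  classical
  have hs : Ideal.span {a} ≠ 0 := by simpa using ha
  obtain ⟨b, hb⟩ := Associates.is_pow_of_dvd_count (a := Associates.mk (Ideal.span {a}))
    (Associates.mk_ne_zero.mpr hs) (k := p) (by
      intro P hP
      obtain ⟨P, rfl⟩ := Associates.mk_surjective P
      rw [Associates.irreducible_mk] at hP
      let v : HeightOneSpectrum (𝓞 K) := ⟨P, Ideal.isPrime_of_prime hP.prime, hP.ne_zero⟩
      obtain ⟨m, hm⟩ := h v
      rw [show (a : K) = algebraMap (𝓞 K) K a from rfl, v.valuation_of_algebraMap,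
        v.intValuation_if_neg ha, WithZero.exp_inj] at hm
      have h1 : (((Associates.mk P).count (Associates.mk (Ideal.span {a})).factors : ℕ) : ℤ)
        = (p : ℤ) * (-m) := by
        rw [mul_neg, ← hm, neg_neg]
      exact Int.natCast_dvd_natCast.mp ⟨-m, h1⟩)
  obtain ⟨𝔟, rfl⟩ := Associates.mk_surjective b
  refine ⟨𝔟, ?_⟩
  rw [← Associates.mk_pow, Associates.mk_eq_mk_iff_associated] at hb
  exact associated_iff_eq.mp hb

end Fermat.Agent.H14
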