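import Mathlib
import Fermat.Prelude.Def_ExtCitation_AdmissibleExtension_v2
import Fermat.Prelude.Def_ExtCitation_KummerBridge
import Fermat.Agent.H54Frobenius

/-!
# S14, part A: the Kummer generator attached to a non-split admissible extension
-/

set_option autoImplicit false

open ExtCitation

namespace Fermat.Agent.H14

local notation "Qb" => AlgebraicClosure ℚ
local notation "Gq" => (AlgebraicClosure ℚ ≃ₐ[ℚ] AlgebraicClosure ℚ)

section Cocycle

variable {p : ℕ} [Fact p.Prime]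

theorem apply_root (σ : Gq) {ζ : Qb} (hζ : ζ ^ p = 1) : σ ζ = ζ ^ (cycloExp p σ) := by
  have : NeZero p := ⟨(Fact.out : p.Prime).ne_zero⟩
  have hu : IsUnit ζ := by
    refine IsUnit.of_mul_eq_one (ζ ^ (p - 1)) ?_
    rw [← pow_succ', Nat.sub_add_cancel (Fact.out : p.Prime).one_le, hζ]
  obtain ⟨u, rfl⟩ := hu
  have hmem : u ∈ rootsOfUnity p Qb := by
    rw [mem_rootsOfUnity]
    exact Units.ext (by simpa using hζ)
  have := modularCyclotomicCharacter.spec Qb (card_rootsOfUnity_eq_self p) (σ : Qb ≃+* Qb) hmem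
  exact this

theorem pow_eq_of_cast_eq {ζ : Qb} (hζ : ζ ^ p = 1) {a b : ℕ} (h : (a : ZMod p) = b) :
    ζ ^ a = ζ ^ b := by
  rw [ZMod.natCast_eq_natCast_iff] at h
  exact pow_eq_pow_of_modEq h hζ

/-- `σ ζ = ζ ^ m` determines the cyclotomic character. -/
theorem cycloChar_eq {ζ : Qb} (hζ : IsPrimitiveRoot ζ p) (σ : Gq) (m : ℕ) (h : σ ζ = ζ ^ m) :
    ((cycloChar p σ : (ZMod p)ˣ) : ZMod p) = m := by
  rw [coe_cycloChar]
  rw [apply_root σ hζ.pow_eq_one] at h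
  rw [ZMod.natCast_eq_natCast_iff]
  have h0 : ζ ≠ 0 := hζ.ne_zero (Fact.out : p.Prime).ne_zero
  have h1 := (pow_inj_mod (x := Units.mk0 ζ h0)).mp (Units.ext (by simpa using h))
  have h2 : orderOf (Units.mk0 ζ h0) = p := by
    rw [← orderOf_units]; exact hζ.eq_orderOf.symm
  rw [h2] at h1
  exact h1

theorem apply_root_of_cycloChar_eq {ζ : Qb} (hζ : ζ ^ p = 1) (σ : Gq) (m : ℕ)
    (h : ((cycloChar p σ : (ZMod p)ˣ) : ZMod p) = m) : σ ζ = ζ ^ m := by
  rw [apply_root σ hζ]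
  rw [coe_cycloChar] at h
  exact pow_eq_of_cast_eq hζ h

variable {V : Type} [AddCommGroup V] [Module (ZMod p) V]
    [DistribMulAction (AlgebraicClosure ℚ ≃ₐ[ℚ] AlgebraicClosure ℚ) V]
    [SMulCommClass (AlgebraicClosure ℚ ≃ₐ[ℚ] AlgebraicClosure ℚ) (ZMod p) V]

variable (p) in
/-- the cocycle attached to a vector -/
noncomputable def cf (v₀ : V) (σ : Gq) : V :=
  σ • v₀ - ((cycloChar p σ : (ZMod p)ˣ) : ZMod p) • v₀

variable {C : Submodule (ZMod p) V}

theorem cf_mem (h : IsAdmissibleExtension p V C) (v₀ : V) (σ : Gq) : cf p v₀ σ ∈ C := by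
  rw [cf, coe_cycloChar]
  exact h.cyclo_quot σ v₀

theorem cf_mul (h : IsAdmissibleExtension p V C) (v₀ : V) (σ τ : Gq) :
    cf p v₀ (σ * τ) = cf p v₀ τ + ((cycloChar p τ : (ZMod p)ˣ) : ZMod p) • cf p v₀ σ := by
  have h1 : τ • v₀ = cf p v₀ τ + ((cycloChar p τ : (ZMod p)ˣ) : ZMod p) • v₀ := by
    rw [cf]; abel
  have h2 : σ • cf p v₀ τ = cf p v₀ τ := h.fixed_sub σ _ (cf_mem h v₀ τ)
  have h3 : σ • v₀ = cf p v₀ σ + ((cycloChar p σ : (ZMod p)ˣ) : ZMod p) • v₀ := by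
    rw [cf]; abel
  have h4 : (σ * τ) • v₀ = cf p v₀ τ + ((cycloChar p τ : (ZMod p)ˣ) : ZMod p) • cf p v₀ σ
      + ((cycloChar p τ : (ZMod p)ˣ) : ZMod p) • ((cycloChar p σ : (ZMod p)ˣ) : ZMod p) • v₀ := by
    rw [mul_smul, h1, smul_add, h2, smul_comm σ, h3, smul_add]
    abel
  rw [cf, h4, map_mul, Units.val_mul, smul_smul, mul_comm ((cycloChar p τ : (ZMod p)ˣ) : ZMod p)]
  abel

theorem cf_one (v₀ : V) : cf p v₀ (1 : Gq) = 0 := by
  simp [cf]

theorem cf_inv (h : IsAdmissibleExtension p V C) (v₀ : V) (σ : Gq) :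
    ((cycloChar p σ : (ZMod p)ˣ) : ZMod p) • cf p v₀ σ⁻¹ = - cf p v₀ σ := by
  have := cf_mul h v₀ σ⁻¹ σ
  rw [inv_mul_cancel, cf_one] at this
  exact (neg_eq_of_add_eq_zero_right this.symm).symm

/-- conjugation -/
theorem cf_conj (h : IsAdmissibleExtension p V C) (v₀ : V) (σ τ : Gq)
    (hσ : cycloChar p σ = 1) :
    cf p v₀ (τ⁻¹ * σ * τ) = ((cycloChar p τ : (ZMod p)ˣ) : ZMod p) • cf p v₀ σ := by
  rw [cf_mul h, cf_mul h, hσ, smul_add, Units.val_one, one_smul, cf_inv h]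
  abel

theorem eq_of_smul_eq (h : IsAdmissibleExtension p V C) {v₀ : V} (hv₀ : v₀ ∉ C) {σ : Gq}
    (hσ : ∀ v : V, σ • v = v) : cycloChar p σ = 1 ∧ cf p v₀ σ = 0 := by
  have h1 : cf p v₀ σ ∈ C := cf_mem h v₀ σ
  rw [cf, hσ v₀] at h1
  have h2 : ((1 : ZMod p) - ((cycloChar p σ : (ZMod p)ˣ) : ZMod p)) • v₀ ∈ C := by
    rw [sub_smul, one_smul]; exact h1
  have h3 : (1 : ZMod p) - ((cycloChar p σ : (ZMod p)ˣ) : ZMod p) = 0 := by
    by_contra hne
    exact hv₀ ((Submodule.smul_mem_iff _ hne).mp h2)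
  have h4 : ((cycloChar p σ : (ZMod p)ˣ) : ZMod p) = 1 := (sub_eq_zero.mp h3).symm
  refine ⟨Units.ext h4, ?_⟩
  rw [cf, hσ v₀, h4, one_smul, sub_self]

theorem exists_not_mem (h : IsAdmissibleExtension p V C) : ∃ v₀ : V, v₀ ∉ C := by
  by_contra hcon
  push Not at hcon
  have h1 : C = ⊤ := by
    rw [eq_top_iff]; intro v _; exact hcon v
  have h2 := h.card_sub
  rw [h1] at h2
  have h3 : Nat.card (⊤ : Submodule (ZMod p) V) = Nat.card V :=
    Nat.card_congr (Submodule.topEquiv (R := ZMod p) (M := V)).toEquiv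
  rw [h3, h.card_total] at h2
  have hp := (Fact.out : p.Prime).two_le
  nlinarith

/-- `C` is spanned by any nonzero element -/
theorem exists_smul_of_mem (h : IsAdmissibleExtension p V C) {c₀ : V} (hc₀ : c₀ ∈ C) (h0 : c₀ ≠ 0)
    {c : V} (hc : c ∈ C) : ∃ n : ZMod p, c = n • c₀ := by
  have hfin : Finite C := Nat.finite_of_card_ne_zero (by rw [h.card_sub]; exact (Fact.out : p.Prime).ne_zero)
  have hle : Submodule.span (ZMod p) {c₀} ≤ C := by
    rw [Submodule.span_le]; simpa using hc₀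
  have h1 : Function.Injective (fun n : ZMod p => (⟨n • c₀, C.smul_mem n hc₀⟩ : C)) := by
    intro a b hab
    have := congrArg Subtype.val hab
    simp only at this
    exact smul_left_injective _ h0 this
  have h2 : Function.Surjective (fun n : ZMod p => (⟨n • c₀, C.smul_mem n hc₀⟩ : C)) := by
    have := Fintype.ofFinite C
    have : Fintype (ZMod p) := ZMod.fintype p
    refine ((Fintype.bijective_iff_injective_and_card _).mpr ⟨h1, ?_⟩).2
    rw [ZMod.card, ← Nat.card_eq_fintype_card, h.card_sub]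
  obtain ⟨n, hn⟩ := h2 ⟨c, hc⟩
  exact ⟨n, (congrArg Subtype.val hn).symm⟩

/-- `V` is spanned by `C` and `v₀` -/
theorem exists_decomp (h : IsAdmissibleExtension p V C) {v₀ : V} (hv₀ : v₀ ∉ C) (v : V) :
    ∃ (n : ZMod p) (c : V), c ∈ C ∧ v = c + n • v₀ := by
  have hfinV : Finite V := Nat.finite_of_card_ne_zero
    (by rw [h.card_total]; exact pow_ne_zero _ (Fact.out : p.Prime).ne_zero)
  have h1 : Function.Injective (fun x : C × ZMod p => (x.1 : V) + x.2 • v₀) := by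
    rintro ⟨a, m⟩ ⟨b, n⟩ hab
    simp only at hab
    have h2 : (m - n) • v₀ ∈ C := by
      have : (m - n) • v₀ = (b : V) - a := by
        rw [sub_smul]
        have := congrArg (fun z => z - (a : V) - n • v₀) hab
        rw [show (a : V) + m • v₀ - a - n • v₀ = m • v₀ - n • v₀ by abel] at this
        rw [this]; abel
      rw [this]
      exact C.sub_mem b.2 a.2
    have h3 : m - n = 0 := by
      by_contra hne
      exact hv₀ ((Submodule.smul_mem_iff _ hne).mp h2)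
    have h4 : m = n := sub_eq_zero.mp h3
    subst h4
    have h5 : (a : V) = b := by simpa using hab
    rw [Subtype.ext h5]
  have h2 : Function.Surjective (fun x : C × ZMod p => (x.1 : V) + x.2 • v₀) := by
    have := Fintype.ofFinite V
    have := Fintype.ofFinite C
    have : Fintype (ZMod p) := ZMod.fintype p
    refine ((Fintype.bijective_iff_injective_and_card _).mpr ⟨h1, ?_⟩).2
    rw [Fintype.card_prod, ZMod.card, ← Nat.card_eq_fintype_card, h.card_sub,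
      ← Nat.card_eq_fintype_card, h.card_total, pow_two]
  obtain ⟨⟨c, n⟩, hcn⟩ := h2 v
  exact ⟨n, c, c.2, hcn.symm⟩

theorem smul_eq_of_cf (h : IsAdmissibleExtension p V C) {v₀ : V} (hv₀ : v₀ ∉ C) {σ : Gq}
    (h1 : cycloChar p σ = 1) (h2 : cf p v₀ σ = 0) (v : V) : σ • v = v := by
  obtain ⟨n, c, hc, rfl⟩ := exists_decomp h hv₀ v
  have h3 : σ • v₀ = v₀ := by
    rw [cf, h1, Units.val_one, one_smul, sub_eq_zero] at h2
    exact h2
  rw [smul_add, h.fixed_sub σ c hc, smul_comm, h3]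

/-- If the cocycle vanishes on the kernel of the cyclotomic character, the extension splits. -/
theorem splits_of_cf_eq_zero (h : IsAdmissibleExtension p V C) {v₀ : V} (hv₀ : v₀ ∉ C)
    (hf : ∀ σ : Gq, cycloChar p σ = 1 → cf p v₀ σ = 0) (τ₀ : Gq) (hτ₀ : cycloChar p τ₀ ≠ 1) :
    SplitsGlobally C := by
  have hτ₀' : ((cycloChar p τ₀ : (ZMod p)ˣ) : ZMod p) - 1 ≠ 0 := by
    intro h0
    exact hτ₀ (Units.ext (sub_eq_zero.mp h0))
  set c : V := (((cycloChar p τ₀ : (ZMod p)ˣ) : ZMod p) - 1)⁻¹ • cf p v₀ τ₀ with hc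
  have hcC : c ∈ C := C.smul_mem _ (cf_mem h v₀ τ₀)
  have hcomm : ∀ σ τ : Gq, cf p v₀ (σ * τ) = cf p v₀ (τ * σ) := by
    intro σ τ
    have h1 : σ * τ = (τ * σ) * ((τ * σ)⁻¹ * (σ * τ)) := by group
    have h2 : cycloChar p ((τ * σ)⁻¹ * (σ * τ)) = 1 := by
      rw [map_mul, map_inv, map_mul, map_mul, mul_comm (cycloChar p τ), inv_mul_cancel]
    rw [h1, cf_mul h, hf _ h2, h2, Units.val_one, one_smul, zero_add]
  have hkey : ∀ σ : Gq, cf p v₀ σ = (((cycloChar p σ : (ZMod p)ˣ) : ZMod p) - 1) • c := by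
    intro σ
    have h1 := hcomm σ τ₀
    rw [cf_mul h, cf_mul h] at h1
    have h2 : (((cycloChar p τ₀ : (ZMod p)ˣ) : ZMod p) - 1) • cf p v₀ σ
        = (((cycloChar p σ : (ZMod p)ˣ) : ZMod p) - 1) • cf p v₀ τ₀ := by
      rw [sub_smul, sub_smul, one_smul, one_smul]
      have := congrArg (fun z => z - cf p v₀ τ₀ - cf p v₀ σ) h1
      rw [show cf p v₀ τ₀ + ((cycloChar p τ₀ : (ZMod p)ˣ) : ZMod p) • cf p v₀ σ - cf p v₀ τ₀
        - cf p v₀ σ = ((cycloChar p τ₀ : (ZMod p)ˣ) : ZMod p) • cf p v₀ σ - cf p v₀ σ by abel] at this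
      rw [this]; abel
    rw [hc, smul_comm, ← h2, inv_smul_smul₀ hτ₀']
  set v₁ : V := v₀ + c with hv₁
  have hact : ∀ σ : Gq, σ • v₁ = ((cycloChar p σ : (ZMod p)ˣ) : ZMod p) • v₁ := by
    intro σ
    have h1 : σ • v₀ = cf p v₀ σ + ((cycloChar p σ : (ZMod p)ˣ) : ZMod p) • v₀ := by
      rw [cf]; abel
    rw [hv₁, smul_add, h.fixed_sub σ c hcC, h1, hkey σ, smul_add, sub_smul, one_smul]
    abel
  have hv₁C : v₁ ∉ C := fun hmem => hv₀ (by
    have := C.sub_mem hmem hcC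
    rwa [hv₁, add_sub_cancel_right] at this)
  refine ⟨Submodule.span (ZMod p) {v₁}, ?_, ?_⟩
  · intro σ x hx
    rw [Submodule.mem_span_singleton] at hx ⊢
    obtain ⟨a, rfl⟩ := hx
    refine ⟨a * ((cycloChar p σ : (ZMod p)ˣ) : ZMod p), ?_⟩
    rw [smul_comm σ, hact σ, smul_smul]
  · rw [isCompl_iff, Submodule.disjoint_def, codisjoint_iff, eq_top_iff]
    constructor
    · intro x hx hx'
      rw [Submodule.mem_span_singleton] at hx'
      obtain ⟨a, rfl⟩ := hx'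
      by_cases ha : a = 0
      · rw [ha, zero_smul]
      · exact absurd ((Submodule.smul_mem_iff _ ha).mp hx) hv₁C
    · intro v _
      obtain ⟨n, c', hc', rfl⟩ := exists_decomp h hv₁C v
      exact Submodule.add_mem_sup hc' (Submodule.smul_mem _ _ (Submodule.mem_span_singleton_self _))

end Cocycle

section Kummer

variable {p : ℕ} [Fact p.Prime]
variable {V : Type} [AddCommGroup V] [Module (ZMod p) V]
    [DistribMulAction (AlgebraicClosure ℚ ≃ₐ[ℚ] AlgebraicClosure ℚ) V]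
    [SMulCommClass (AlgebraicClosure ℚ ≃ₐ[ℚ] AlgebraicClosure ℚ) (ZMod p) V]
variable {C : Submodule (ZMod p) V}

local instance isAlgebraicQb : Algebra.IsAlgebraic ℚ Qb := AlgebraicClosure.isAlgebraic ℚ
local instance isAlgClosureQb : IsAlgClosure ℚ Qb := ⟨inferInstance, inferInstance⟩
local instance normalQb : Normal ℚ Qb := IsAlgClosure.normal ℚ Qb
local instance isGaloisQb : IsGalois ℚ Qb := ⟨⟩

theorem cf_pow (h : IsAdmissibleExtension p V C) (v₀ : V) {s : Gq} (hs : cycloChar p s = 1)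
    (n : ℕ) : cf p v₀ (s ^ n) = (n : ZMod p) • cf p v₀ s := by
  induction n with
  | zero => simp [cf_one]
  | succ n ih =>
    rw [pow_succ, cf_mul h, hs, Units.val_one, one_smul, ih, Nat.cast_succ, add_smul, one_smul,
      add_comm]

theorem cf_pow_mul (h : IsAdmissibleExtension p V C) (v₀ : V) {s σ : Gq} (hs : cycloChar p s = 1)
    (hσ : cycloChar p σ = 1)
    (n : ℕ) (hn : cf p v₀ σ = (n : ZMod p) • cf p v₀ s) : cf p v₀ ((s ^ n)⁻¹ * σ) = 0 := by
  have h1 : cf p v₀ (s ^ n * ((s ^ n)⁻¹ * σ)) = cf p v₀ σ := by rw [mul_inv_cancel_left]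
  have h2 : cycloChar p ((s ^ n)⁻¹ * σ) = 1 := by
    rw [map_mul, map_inv, map_pow, hs, hσ]; simp
  rw [cf_mul h, h2, Units.val_one, one_smul, cf_pow h v₀ hs, hn] at h1
  simpa using h1

/-- The subgroup acting trivially on `V`. -/
noncomputable def kerSub (V : Type) [AddCommGroup V]
    [DistribMulAction (AlgebraicClosure ℚ ≃ₐ[ℚ] AlgebraicClosure ℚ) V] : Subgroup Gq :=
  (MulAction.toPermHom Gq V).ker

theorem mem_kerSub {σ : Gq} : σ ∈ kerSub V ↔ ∀ v : V, σ • v = v := by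
  rw [kerSub, MonoidHom.mem_ker, Equiv.ext_iff]
  rfl

theorem isOpen_kerSub (h : IsAdmissibleExtensionCts p V C) : IsOpen (kerSub V : Set Gq) := by
  have : (kerSub V : Set Gq) = {σ : Gq | ∀ v : V, σ • v = v} := by
    ext σ; exact mem_kerSub
  rw [this]
  exact h.open_kernel

theorem fixed_of_forall (h : IsAdmissibleExtensionCts p V C) (τ : Gq)
    (hτ : ∀ x : Qb, (∀ σ ∈ kerSub V, σ x = x) → τ x = x) : τ ∈ kerSub V := by
  have hclosed : IsClosed (kerSub V : Set Gq) := Subgroup.isClosed_of_isOpen _ (isOpen_kerSub h)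
  have h1 := InfiniteGalois.fixingSubgroup_fixedField (k := ℚ) (K := Qb) ⟨kerSub V, hclosed⟩
  have h2 : τ ∈ (IntermediateField.fixedField (kerSub V)).fixingSubgroup := by
    rw [IntermediateField.mem_fixingSubgroup_iff]
    intro x hx
    refine hτ x ?_
    rw [IntermediateField.mem_fixedField_iff] at hx
    exact hx
  rw [h1] at h2
  exact h2

/-- **Kummer generator**. -/
theorem exists_beta (h : IsAdmissibleExtensionCts p V C) {v₀ : V} (hv₀ : v₀ ∉ C) {s₀ : Gq}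
    (hs₀ : cycloChar p s₀ = 1) (hs₀' : cf p v₀ s₀ ≠ 0) {ζ : Qb} (hζ : IsPrimitiveRoot ζ p) :
    ∃ β : Qb, β ≠ 0 ∧ ∀ σ : Gq, cycloChar p σ = 1 → ∀ n : ℕ,
      cf p v₀ σ = (n : ZMod p) • cf p v₀ s₀ → σ β = ζ ^ n * β := by
  have hadm := h.toIsAdmissibleExtension
  have hker : ∀ σ : Gq, σ ∈ kerSub V ↔ cycloChar p σ = 1 ∧ cf p v₀ σ = 0 := by
    intro σ
    rw [mem_kerSub]
    exact ⟨fun hσ => eq_of_smul_eq hadm hv₀ hσ, fun hσ => smul_eq_of_cf hadm hv₀ hσ.1 hσ.2⟩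
  have hζfix : ∀ σ : Gq, cycloChar p σ = 1 → σ ζ = ζ := by
    intro σ hσ
    have := apply_root_of_cycloChar_eq hζ.pow_eq_one σ 1 (by rw [hσ]; simp)
    rwa [pow_one] at this
  let L : IntermediateField ℚ Qb := IntermediateField.fixedField (kerSub V)
  -- `p` distinct embeddings
  let e : Fin p → (L →* Qb) := fun i =>
    ((s₀ ^ (i : ℕ) : Gq) : Qb →* Qb).comp (L.val : L →* Qb)
  have he : Function.Injective e := by
    intro i j hij
    wlog hlt : (i : ℕ) ≤ j generalizing i j with H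
    · exact (H hij.symm (le_of_not_ge hlt)).symm
    have h1 : (s₀ ^ ((j : ℕ) - i)) ∈ kerSub V := by
      refine fixed_of_forall h _ fun x hx => ?_
      have h2 := DFunLike.congr_fun hij (⟨x, by
        rw [IntermediateField.mem_fixedField_iff]; exact hx⟩ : L)
      have h3 : (s₀ ^ (i : ℕ)) x = (s₀ ^ (j : ℕ)) x := h2
      have h4 : (s₀ ^ (j : ℕ)) = s₀ ^ (i : ℕ) * s₀ ^ ((j : ℕ) - i) := by
        rw [← pow_add]; congr 1; omega
      rw [h4, AlgEquiv.mul_apply] at h3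
      exact ((s₀ ^ (i : ℕ)).injective h3).symm
    rw [hker, cf_pow hadm v₀ hs₀, smul_eq_zero] at h1
    rcases h1.2 with h2 | h2
    · rw [ZMod.natCast_eq_zero_iff] at h2
      have h3 : (j : ℕ) - i < p := by omega
      have h4 : (j : ℕ) - i = 0 := Nat.eq_zero_of_dvd_of_lt h2 h3
      exact Fin.ext (by omega)
    · exact absurd h2 hs₀'
  have hli := (linearIndependent_monoidHom L Qb).comp e he
  obtain ⟨x, hx⟩ : ∃ x : L, ∑ i : Fin p, (ζ ^ (i : ℕ))⁻¹ * (s₀ ^ (i : ℕ)) (x : Qb) ≠ 0 := by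
    by_contra hcon
    push Not at hcon
    have h1 := Fintype.linearIndependent_iff.mp hli (fun i => (ζ ^ (i : ℕ))⁻¹) (by
      funext x
      have := hcon x
      simp only [Function.comp, Finset.sum_apply, Pi.smul_apply, Pi.zero_apply, smul_eq_mul]
      exact this) ⟨0, (Fact.out : p.Prime).pos⟩
    simp at h1
  have hxfix : ∀ σ ∈ kerSub V, σ (x : Qb) = x := by
    have := x.2
    rw [IntermediateField.mem_fixedField_iff] at this
    exact this
  rw [Fin.sum_univ_eq_sum_range (fun i => (ζ ^ i)⁻¹ * (s₀ ^ i) (x : Qb)) p] at hx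
  have hnorm : (kerSub V).Normal := by rw [kerSub]; infer_instance
  set β := ∑ i ∈ Finset.range p, (ζ ^ i)⁻¹ * (s₀ ^ i) (x : Qb) with hβ
  have hβN : ∀ σ ∈ kerSub V, σ β = β := by
    intro σ hσ
    rw [hβ, map_sum]
    refine Finset.sum_congr rfl fun i _ => ?_
    rw [map_mul, map_inv₀, map_pow, hζfix σ ((hker σ).mp hσ).1]
    congr 1
    have h1 : (s₀ ^ i)⁻¹ * σ * (s₀ ^ i) ∈ kerSub V := by
      have := hnorm.conj_mem σ hσ (s₀ ^ i)⁻¹
      simpa using this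
    have h2 := hxfix _ h1
    have h3 : σ * s₀ ^ i = s₀ ^ i * ((s₀ ^ i)⁻¹ * σ * (s₀ ^ i)) := by group
    rw [← AlgEquiv.mul_apply, h3, AlgEquiv.mul_apply, h2]
  have hs₀p : s₀ ^ p ∈ kerSub V := by
    rw [hker, map_pow, hs₀, one_pow, cf_pow hadm v₀ hs₀]
    exact ⟨rfl, by simp⟩
  have hζ0 : ζ ≠ 0 := hζ.ne_zero (Fact.out : p.Prime).ne_zero
  have hβs : s₀ β = ζ * β := by
    let F : ℕ → Qb := fun i => ζ * (ζ ^ i)⁻¹ * (s₀ ^ i) (x : Qb)
    have h1 : s₀ β = ∑ i ∈ Finset.range p, F (i + 1) := by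
      rw [hβ, map_sum]
      refine Finset.sum_congr rfl fun i _ => ?_
      rw [map_mul, map_inv₀, map_pow, hζfix s₀ hs₀]
      show _ = ζ * (ζ ^ (i + 1))⁻¹ * (s₀ ^ (i + 1)) (x : Qb)
      rw [← AlgEquiv.mul_apply, ← pow_succ' s₀ i]
      congr 1
      rw [pow_succ']
      field_simp
    have h2 : ζ * β = ∑ i ∈ Finset.range p, F i := by
      rw [hβ, Finset.mul_sum]
      refine Finset.sum_congr rfl fun i _ => ?_
      rw [← mul_assoc]
    have h3 := Finset.sum_range_succ F p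
    have h4 := Finset.sum_range_succ' F p
    have h5 : F p = F 0 := by
      show ζ * (ζ ^ p)⁻¹ * (s₀ ^ p) (x : Qb) = ζ * (ζ ^ 0)⁻¹ * (s₀ ^ 0) (x : Qb)
      rw [hxfix _ hs₀p, hζ.pow_eq_one]
      simp
    rw [h1, h2]
    rw [h3, h5] at h4
    exact (add_right_cancel h4).symm
  have hβpow : ∀ n : ℕ, (s₀ ^ n) β = ζ ^ n * β := by
    intro n
    induction n with
    | zero => simp
    | succ n ih =>
      rw [pow_succ', AlgEquiv.mul_apply, ih, map_mul, map_pow, hζfix s₀ hs₀, hβs]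
      ring
  refine ⟨β, hx, fun σ hσ n hn => ?_⟩
  have h1 : (s₀ ^ n)⁻¹ * σ ∈ kerSub V := by
    rw [hker]
    refine ⟨?_, cf_pow_mul hadm v₀ hs₀ hσ n hn⟩
    rw [map_mul, map_inv, map_pow, hs₀, hσ]; simp
  have h2 := hβN _ h1
  have h3 : σ = s₀ ^ n * ((s₀ ^ n)⁻¹ * σ) := by group
  rw [h3, AlgEquiv.mul_apply, h2, hβpow]

open IntermediateField in
theorem mem_adjoin_iff {ζ : Qb} (hζ : IsPrimitiveRoot ζ p) (y : Qb) :
    y ∈ ℚ⟮ζ⟯ ↔ ∀ σ : Gq, cycloChar p σ = 1 → σ y = y := by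
  have h1 := InfiniteGalois.fixedField_fixingSubgroup (k := ℚ) (K := Qb) ℚ⟮ζ⟯
  have h2 : ∀ σ : Gq, σ ∈ (ℚ⟮ζ⟯).fixingSubgroup ↔ cycloChar p σ = 1 := by
    intro σ
    rw [IntermediateField.mem_fixingSubgroup_iff]
    constructor
    · intro hσ
      have h3 := hσ ζ (mem_adjoin_simple_self ℚ ζ)
      have h4 := cycloChar_eq hζ σ 1 (by rw [pow_one]; exact h3)
      exact Units.ext (by simpa using h4)
    · intro hσ x hx
      have h3 : σ ζ = ζ := by
        have := apply_root_of_cycloChar_eq hζ.pow_eq_one σ 1 (by rw [hσ]; simp)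
        rwa [pow_one] at this
      induction hx using adjoin_induction with
      | mem x hx => rw [Set.mem_singleton_iff] at hx; rw [hx, h3]
      | algebraMap x => exact σ.commutes x
      | add x y _ _ hx hy => rw [map_add, hx, hy]
      | inv x _ hx => rw [map_inv₀, hx]
      | mul x y _ _ hx hy => rw [map_mul, hx, hy]
  constructor
  · intro hy σ hσ
    rw [← h2, IntermediateField.mem_fixingSubgroup_iff] at hσ
    exact hσ y hy
  · intro hy
    rw [← h1, IntermediateField.mem_fixedField_iff]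
    intro σ hσ
    exact hy σ ((h2 σ).mp hσ)

open IntermediateField in
theorem exists_cycloChar_ne_one (h3 : 3 ≤ p) {ζ : Qb} (hζ : IsPrimitiveRoot ζ p) :
    ∃ τ : Gq, cycloChar p τ ≠ 1 := by
  by_contra hcon
  push Not at hcon
  have h1 : ζ ∈ (⊥ : IntermediateField ℚ Qb) := by
    rw [InfiniteGalois.mem_bot_iff_fixed]
    intro σ
    have := apply_root_of_cycloChar_eq hζ.pow_eq_one σ 1 (by rw [hcon σ]; simp)
    rwa [pow_one] at this
  rw [IntermediateField.mem_bot] at h1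
  obtain ⟨r, hr⟩ := h1
  have h2 : r ^ p = 1 := by
    have : algebraMap ℚ Qb (r ^ p) = 1 := by rw [map_pow, hr, hζ.pow_eq_one]
    exact (algebraMap ℚ Qb).injective (by rw [this, map_one])
  have hodd : Odd p := (Fact.out : p.Prime).odd_of_ne_two (by omega)
  have h4 : r = 1 := by
    have h5 : r ^ p = 1 ^ p := by rw [h2, one_pow]
    exact hodd.pow_injective h5
  rw [h4, map_one] at hr
  have := hζ.ne_one (by omega)
  exact this hr.symm

/-- Everything about the Kummer generator in `ℚ̄`. -/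
theorem exists_kummer_aux (h3 : 3 ≤ p) (h : IsAdmissibleExtensionCts p V C)
    (hns : ¬ SplitsGlobally C) {ζ : Qb} (hζ : IsPrimitiveRoot ζ p) :
    ∃ β : Qb, β ≠ 0 ∧ (∃ s₀ : Gq, cycloChar p s₀ = 1 ∧ s₀ β = ζ * β) ∧
      (∀ σ : Gq, cycloChar p σ = 1 → σ (β ^ p) = β ^ p) ∧
      (∀ (τ : Gq) (m : ℕ), τ ζ = ζ ^ m → ∀ σ : Gq, cycloChar p σ = 1 →
        σ (τ β / β ^ (m ^ 2)) = τ β / β ^ (m ^ 2)) ∧
      (∀ σ : Gq, cycloChar p σ = 1 → (∀ v : V, σ • v = v) → σ β = β) ∧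
      (∀ σ : Gq, cycloChar p σ = 1 → σ β = β → (∀ v : V, σ • v = v)) ∧
      (∀ σ : Gq, cycloChar p σ = 1 → (∃ C' : Submodule (ZMod p) V,
        (∀ x ∈ C', σ • x ∈ C') ∧ IsCompl C C') → σ β = β) := by
  have hadm := h.toIsAdmissibleExtension
  obtain ⟨v₀, hv₀⟩ := exists_not_mem hadm
  obtain ⟨τ₀, hτ₀⟩ := exists_cycloChar_ne_one h3 hζ
  obtain ⟨s₀, hs₀, hs₀'⟩ : ∃ s₀ : Gq, cycloChar p s₀ = 1 ∧ cf p v₀ s₀ ≠ 0 := by
    by_contra hcon
    push Not at hcon
    exact hns (splits_of_cf_eq_zero hadm hv₀ hcon τ₀ hτ₀)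
  obtain ⟨β, hβ0, hβ⟩ := exists_beta h hv₀ hs₀ hs₀' hζ
  have hζfix : ∀ σ : Gq, cycloChar p σ = 1 → σ ζ = ζ := by
    intro σ hσ
    have := apply_root_of_cycloChar_eq hζ.pow_eq_one σ 1 (by rw [hσ]; simp)
    rwa [pow_one] at this
  have hn : ∀ σ : Gq, ∃ n : ℕ, cf p v₀ σ = (n : ZMod p) • cf p v₀ s₀ := by
    intro σ
    obtain ⟨n, hn⟩ := exists_smul_of_mem hadm (cf_mem hadm v₀ s₀) hs₀' (cf_mem hadm v₀ σ)
    exact ⟨n.val, by rw [hn, ZMod.natCast_zmod_val]⟩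
  refine ⟨β, hβ0, ⟨s₀, hs₀, ?_⟩, ?_, ?_, ?_, ?_, ?_⟩
  · have := hβ s₀ hs₀ 1 (by simp)
    rwa [pow_one] at this
  · intro σ hσ
    obtain ⟨n, hn⟩ := hn σ
    rw [map_pow, hβ σ hσ n hn, mul_pow, ← pow_mul, mul_comm n, pow_mul, hζ.pow_eq_one, one_pow,
      one_mul]
  · intro τ m hm σ hσ
    obtain ⟨n, hn⟩ := hn σ
    have hchar := cycloChar_eq hζ τ m hm
    have h1 : cycloChar p (τ⁻¹ * σ * τ) = 1 := by
      rw [map_mul, map_mul, hσ, mul_one, map_inv, inv_mul_cancel]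
    have h2 : cf p v₀ (τ⁻¹ * σ * τ) = ((m * n : ℕ) : ZMod p) • cf p v₀ s₀ := by
      rw [cf_conj hadm v₀ σ τ hσ, hn, smul_smul, hchar, Nat.cast_mul]
    have h4 := hβ _ h1 _ h2
    have h5 : σ (τ β) = τ ((τ⁻¹ * σ * τ) β) := by
      rw [← AlgEquiv.mul_apply, ← AlgEquiv.mul_apply]
      congr 1
      group
    rw [map_div₀, map_pow, h5, h4, hβ σ hσ n hn, map_mul, map_pow, hm, mul_pow, ← pow_mul, ← pow_mul]
    have hζ0 : ζ ≠ 0 := hζ.ne_zero (Fact.out : p.Prime).ne_zero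
    rw [show n * m ^ 2 = m * (m * n) by ring]
    rw [mul_div_mul_left _ _ (pow_ne_zero _ hζ0)]
  · intro σ hσ hσV
    have h1 := eq_of_smul_eq hadm hv₀ hσV
    have := hβ σ hσ 0 (by rw [h1.2]; simp)
    simpa using this
  · intro σ hσ hσβ
    obtain ⟨n, hn⟩ := hn σ
    have h1 := hβ σ hσ n hn
    rw [hσβ] at h1
    have h2 : ζ ^ n = 1 := by
      have h4 : (ζ ^ n - 1) * β = 0 := by rw [sub_mul, one_mul, ← h1, sub_self]
      rcases mul_eq_zero.mp h4 with h5 | h5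
      · exact sub_eq_zero.mp h5
      · exact absurd h5 hβ0
    have h5 : p ∣ n := (hζ.pow_eq_one_iff_dvd n).mp h2
    have h6 : (n : ZMod p) = 0 := (ZMod.natCast_eq_zero_iff n p).mpr h5
    rw [h6, zero_smul] at hn
    exact smul_eq_of_cf hadm hv₀ hσ hn
  · rintro σ hσ ⟨C', hC', hcompl⟩
    -- write `v₀ = c + w` with `w ∈ C'`
    have h1 : v₀ ∈ C ⊔ C' := by rw [hcompl.sup_eq_top]; trivial
    obtain ⟨c, hc, w, hw, hcw⟩ := Submodule.mem_sup.mp h1
    have h2 : cf p v₀ σ = σ • w - w := by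
      rw [cf, hσ, Units.val_one, one_smul, ← hcw, smul_add, hadm.fixed_sub σ c hc]
      abel
    have h4 : cf p v₀ σ ∈ C ⊓ C' := ⟨cf_mem hadm v₀ σ, by
      rw [h2]; exact C'.sub_mem (hC' w hw) hw⟩
    rw [hcompl.inf_eq_bot, Submodule.mem_bot] at h4
    have := hβ σ hσ 0 (by rw [h4]; simp)
    simpa using this

end Kummer

end Fermat.Agent.H14
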