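import Mathlib
import Fermat.Prelude.Def_FLTPrelim_Ramification
import Fermat.Agent.H54Frobenius

/-!
# Lifting of inertia and decomposition elements to `Gal(ℚ̄/ℚ)` (places as valuation subrings)

For a closed normal subgroup `H` of `Gal(ℚ̄/ℚ)` and a place `A` of `ℚ̄`, an element `s` that acts
trivially modulo `A` on the `H`-fixed algebraic integers is, up to `H`, in the inertia group of `A`;
similarly for decomposition groups.
-/

set_option autoImplicit false

open scoped Pointwise
open Fermat.Agent.H54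

namespace Fermat.Agent.H14

local notation "Qb" => AlgebraicClosure ℚ
local notation "Zb" => integralClosure ℤ (AlgebraicClosure ℚ)
local notation "Gq" => (AlgebraicClosure ℚ ≃ₐ[ℚ] AlgebraicClosure ℚ)

attribute [local instance] isAlgebraicQb isAlgClosureQb normalQb isGaloisQb

local instance topZb : TopologicalSpace Zb := ⊥
local instance discreteZb : DiscreteTopology Zb := ⟨rfl⟩
local instance contSMulZb : ContinuousSMul Gq Zb := Fermat.Agent.H54.continuousSMul_Zb

theorem mem_decomposition_of_smul_primeBelow {q : ℕ} (hq : q.Prime) {A : ValuationSubring Qb}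
    (hA : A.LiesOverPrime q) (σ : Gq) (hstab : σ • primeBelow A = primeBelow A) :
    σ ∈ A.decompositionSubgroup ℚ :=
  eq_of_primeBelow_eq hq (liesOverPrime_smul hA σ) hA (by rw [primeBelow_smul, hstab])

theorem mem_inertia_of_forall_integral {q : ℕ} (hq : q.Prime) {A : ValuationSubring Qb}
    (hA : A.LiesOverPrime q) (σ : Gq) (hstab : σ • primeBelow A = primeBelow A)
    (hσ : ∀ b : Zb, σ • b - b ∈ primeBelow A) : σ ∈ A.inertiaSubgroupIn ℚ := by
  have hdec : σ • A = A := mem_decomposition_of_smul_primeBelow hq hA σ hstab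
  refine ⟨⟨σ, hdec⟩, ?_, rfl⟩
  show _ ∈ MonoidHom.ker _
  rw [MonoidHom.mem_ker]
  ext x
  show (⟨σ, hdec⟩ : A.decompositionSubgroup ℚ) • x = x
  obtain ⟨⟨x, hx⟩, rfl⟩ := IsLocalRing.residue_surjective x
  obtain ⟨s, b, hs, hsb⟩ := exists_mul_eq hq hA hx
  have hres : ∀ c : Zb, IsLocalRing.residue A (toPlace A (σ • c))
      = (IsLocalRing.residue A (toPlace A c)) := by
    intro c
    rw [← sub_eq_zero, ← map_sub, ← map_sub, IsLocalRing.residue_eq_zero_iff]
    exact hσ c
  have hs0 : IsLocalRing.residue A (toPlace A s) ≠ 0 := by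
    rw [ne_eq, IsLocalRing.residue_eq_zero_iff]
    exact hs
  have hσx : σ x ∈ A := by
    have h : σ • x ∈ σ • A := ValuationSubring.smul_mem_pointwise_smul σ x A hx
    rw [hdec] at h
    exact h
  have e1 : toPlace A s * ⟨x, hx⟩ = toPlace A b := Subtype.ext hsb
  have e2 : toPlace A (σ • s) * ⟨σ x, hσx⟩ = toPlace A (σ • b) := by
    refine Subtype.ext ?_
    show σ (s : Qb) * σ x = σ (b : Qb)
    rw [← map_mul, hsb]
  have hsmul : (⟨σ, hdec⟩ : A.decompositionSubgroup ℚ) • IsLocalRing.residue A ⟨x, hx⟩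
      = IsLocalRing.residue A ⟨σ x, hσx⟩ := rfl
  rw [hsmul]
  have e1' := congrArg (fun y => (IsLocalRing.residue A y)) e1
  have e2' := congrArg (IsLocalRing.residue A) e2
  simp only [map_mul] at e1' e2'
  rw [hres, hres, ← e1'] at e2'
  exact mul_left_cancel₀ hs0 e2'

section

variable (H : Subgroup Gq)

/-- algebraic integers fixed by `H` -/
noncomputable abbrev FixZb : Subalgebra ℤ Zb := FixedPoints.subalgebra ℤ Zb H

local instance isInvariant_FixZb : Algebra.IsInvariant (FixZb H) Zb H :=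
  ⟨fun b hb => ⟨⟨b, hb⟩, rfl⟩⟩

theorem exists_smul_smul_primeBelow [hN : H.Normal] (hH : IsClosed (H : Set Gq)) (s : Gq)
    (P : Ideal Zb) [P.IsPrime]
    (hs : ∀ b : Zb, (∀ h ∈ H, h • b = b) → (s • b ∈ P ↔ b ∈ P)) :
    ∃ h ∈ H, (h * s) • P = P := by
  have hcomp : CompactSpace H := isCompact_iff_compactSpace.mp hH.isCompact
  have hp : (s • P).IsPrime := inferInstance
  have hu : (s • P).under (FixZb H) = P.under (FixZb H) := by
    ext a
    rw [Ideal.under_def, Ideal.under_def, Ideal.mem_comap, Ideal.mem_comap,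
      Ideal.mem_pointwise_smul_iff_inv_smul_mem]
    have h1 := hs (s⁻¹ • (a : Zb)) (fun h hh => by
      have h2 : s * h * s⁻¹ ∈ H := hN.conj_mem h hh s
      have h3 : (s * h * s⁻¹) • (a : Zb) = a := a.2 ⟨_, h2⟩
      calc h • s⁻¹ • (a : Zb) = s⁻¹ • ((s * h * s⁻¹) • (a : Zb)) := by
            simp only [smul_smul]; congr 1; group
        _ = s⁻¹ • (a : Zb) := by rw [h3])
    rw [smul_inv_smul] at h1
    exact h1.symm
  obtain ⟨h, hh⟩ := Algebra.IsInvariant.exists_smul_of_under_eq_of_profinite (A := FixZb H)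
    (B := Zb) (G := H) (s • P) P hu
  refine ⟨h, h.2, ?_⟩
  rw [mul_smul]
  exact hh.symm

theorem exists_lift_decomposition [H.Normal] (hH : IsClosed (H : Set Gq)) {q : ℕ} (hq : q.Prime)
    {A : ValuationSubring Qb} (hA : A.LiesOverPrime q) (s : Gq)
    (hs : ∀ b : Zb, (∀ h ∈ H, h • b = b) → (s • b ∈ primeBelow A ↔ b ∈ primeBelow A)) :
    ∃ h ∈ H, h * s ∈ A.decompositionSubgroup ℚ := by
  obtain ⟨h, hh, hP⟩ := exists_smul_smul_primeBelow H hH s (primeBelow A) hs
  exact ⟨h, hh, mem_decomposition_of_smul_primeBelow hq hA _ hP⟩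

theorem exists_lift_inertia [hN : H.Normal] (hH : IsClosed (H : Set Gq)) {q : ℕ} (hq : q.Prime)
    {A : ValuationSubring Qb} (hA : A.LiesOverPrime q) (s : Gq)
    (hs : ∀ b : Zb, (∀ h ∈ H, h • b = b) → s • b - b ∈ primeBelow A) :
    ∃ h ∈ H, h * s ∈ A.inertiaSubgroupIn ℚ := by
  have hcomp : CompactSpace H := isCompact_iff_compactSpace.mp hH.isCompact
  obtain ⟨h, hh, hP⟩ := exists_smul_smul_primeBelow H hH s (primeBelow A) (fun b hb => by
    have h1 := hs b hb
    constructor
    · intro h2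
      have := (primeBelow A).sub_mem h2 h1
      rwa [sub_sub_cancel] at this
    · intro h2
      have := (primeBelow A).add_mem h1 h2
      rwa [sub_add_cancel] at this)
  set s₁ : Gq := h * s with hs₁
  set P := primeBelow A with hPdef
  -- `s₁` acts trivially on the fixed ring modulo `P`
  have hfix : ∀ a : FixZb H, s₁ • (a : Zb) - a ∈ P := by
    intro a
    have h1 : ∀ g ∈ H, g • (s • (a : Zb)) = s • (a : Zb) := by
      intro g hg
      have h2 : s⁻¹ * g * s ∈ H := by
        have := hN.conj_mem g hg s⁻¹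
        simpa using this
      have h3 : (s⁻¹ * g * s) • (a : Zb) = a := a.2 ⟨_, h2⟩
      calc g • s • (a : Zb) = s • ((s⁻¹ * g * s) • (a : Zb)) := by
            simp only [smul_smul]; congr 1; group
        _ = s • (a : Zb) := by rw [h3]
    rw [hs₁, mul_smul, h1 h hh]
    exact hs a (fun g hg => a.2 ⟨g, hg⟩)
  -- the induced automorphism of the residue ring
  let e : (Zb ⧸ P) ≃+* (Zb ⧸ P) := Ideal.quotientEquiv P P (MulSemiringAction.toRingEquiv Gq Zb s₁)
    (by
      have h1 : s₁ • P = Ideal.map (MulSemiringAction.toRingEquiv Gq Zb s₁ : Zb →+* Zb) P :=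
        Ideal.pointwise_smul_def _
      rw [← h1]; exact hP.symm)
  have he : ∀ b : Zb, e (Ideal.Quotient.mk P b) = Ideal.Quotient.mk P (s₁ • b) := fun b => rfl
  let e' : (Zb ⧸ P) ≃ₐ[FixZb H ⧸ P.under (FixZb H)] (Zb ⧸ P) :=
    { e with
      commutes' := by
        intro r
        obtain ⟨a, rfl⟩ := Ideal.Quotient.mk_surjective r
        show e (Ideal.Quotient.mk P (a : Zb)) = Ideal.Quotient.mk P (a : Zb)
        rw [he, Ideal.Quotient.eq]
        exact hfix a }
  obtain ⟨⟨g, hgstab⟩, hg⟩ := Ideal.Quotient.stabilizerHom_surjective_of_profinite (A := FixZb H) (B := Zb)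
    (G := H) (P.under (FixZb H)) P e'
  have hg2 : ∀ b : Zb, (g : Gq) • b - s₁ • b ∈ P := by
    intro b
    have h1 := DFunLike.congr_fun hg (Ideal.Quotient.mk P b)
    have h2 : Ideal.Quotient.mk P ((g : Gq) • b) = Ideal.Quotient.mk P (s₁ • b) := h1
    rwa [Ideal.Quotient.eq] at h2
  have hgP : (g : Gq) • P = P := hgstab
  have hgP' : (g : Gq)⁻¹ • P = P := by
    conv_lhs => rw [← hgP]
    rw [inv_smul_smul]
  refine ⟨(g : Gq)⁻¹ * h, H.mul_mem (H.inv_mem g.2) hh, ?_⟩
  rw [mul_assoc, ← hs₁]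
  refine mem_inertia_of_forall_integral hq hA _ ?_ ?_
  · rw [mul_smul, hP, hgP']
  · intro b
    have h1 := hg2 b
    have h2 : (g : Gq)⁻¹ • ((g : Gq) • b - s₁ • b) ∈ (g : Gq)⁻¹ • P :=
      Ideal.smul_mem_pointwise_smul _ _ _ h1
    rw [hgP', smul_sub, inv_smul_smul, ← mul_smul] at h2
    have := P.neg_mem h2
    rwa [neg_sub] at this

end

end Fermat.Agent.H14
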