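import Mathlib
import Fermat.Prelude.Def_ExtCitation_AdmissibleExtension_v2
import Fermat.Agent.H14Kummer
import Fermat.Agent.H14Lift
import Fermat.Agent.H14Finite
import Fermat.Agent.H14Cyclo

/-!
# S14, [A+B]: Kummer generator attached to a non-split admissible extension, with local conditions
-/

set_option autoImplicit false

open scoped Pointwise NumberField
open IsDedekindDomain IntermediateField ExtCitation
open Fermat.Agent.H54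

namespace Fermat.Agent.H14

local notation "Qb" => AlgebraicClosure ℚ
local notation "Zb" => integralClosure ℤ (AlgebraicClosure ℚ)
local notation "Gq" => (AlgebraicClosure ℚ ≃ₐ[ℚ] AlgebraicClosure ℚ)

attribute [local instance] Fermat.Agent.H54.isAlgebraicQb Fermat.Agent.H54.isAlgClosureQb
  Fermat.Agent.H54.normalQb Fermat.Agent.H54.isGaloisQb

local instance topZb' : TopologicalSpace Zb := ⊥
local instance discreteZb' : DiscreteTopology Zb := ⟨rfl⟩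
local instance contSMulZb' : ContinuousSMul Gq Zb := Fermat.Agent.H54.continuousSMul_Zb
attribute [local instance] Fermat.Agent.H54.isInvariant_Zb

theorem exists_place_of_prime {ℓ : ℕ} (hℓ : ℓ.Prime) (P : Ideal Zb) [hP : P.IsPrime]
    (hPℓ : (ℓ : Zb) ∈ P) : ∃ A : ValuationSubring Qb, A.LiesOverPrime ℓ ∧ primeBelow A = P := by
  obtain ⟨A', hA'⟩ := exists_liesOverPrime hℓ
  have h1 : P.under ℤ = Ideal.span {(ℓ : ℤ)} := by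
    have hmax : (Ideal.span {(ℓ : ℤ)}).IsMaximal :=
      PrincipalIdealRing.isMaximal_of_irreducible (Nat.prime_iff_prime_int.mp hℓ).irreducible
    have hne : P.under ℤ ≠ ⊤ := (inferInstance : (P.under ℤ).IsPrime).ne_top
    refine (hmax.eq_of_le hne ?_).symm
    rw [Ideal.span_singleton_le_iff_mem, Ideal.under_def, Ideal.mem_comap]
    simpa using hPℓ
  obtain ⟨σ, hσ⟩ := Algebra.IsInvariant.exists_smul_of_under_eq_of_profinite (A := ℤ) (B := Zb)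
    (G := Gq) (primeBelow A') P (by rw [under_primeBelow hℓ hA', h1])
  exact ⟨σ • A', liesOverPrime_smul hA' σ, by rw [primeBelow_smul, ← hσ]⟩

/-- integers of a subfield of `ℚ̄` as algebraic integers -/
noncomputable def intMap (F : Type) [Field F] [Algebra F Qb] : 𝓞 F →+* Zb where
  toFun x := ⟨algebraMap F Qb (x : F), by
    have := x.isIntegral_coe
    exact this.map ((algebraMap F Qb).toIntAlgHom)⟩
  map_one' := Subtype.ext (by simp)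
  map_mul' x y := Subtype.ext (by simp)
  map_zero' := Subtype.ext (by simp)
  map_add' x y := Subtype.ext (by simp)

theorem coe_intMap (F : Type) [Field F] [Algebra F Qb] (x : 𝓞 F) :
    (intMap F x : Qb) = algebraMap F Qb (x : F) := rfl

theorem intMap_injective (F : Type) [Field F] [Algebra F Qb] :
    Function.Injective (intMap F) := by
  intro x y h
  have h1 := congrArg Subtype.val h
  rw [coe_intMap, coe_intMap] at h1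
  exact NumberField.RingOfIntegers.ext ((algebraMap F Qb).injective h1)

theorem exists_intMap_eq (F : Type) [Field F] [Algebra F Qb] (b : Zb) (y : F)
    (hy : algebraMap F Qb y = b) : ∃ x : 𝓞 F, intMap F x = b := by
  have h1 : IsIntegral ℤ (algebraMap F Qb y) := by rw [hy]; exact b.2
  have h2 : IsIntegral ℤ y :=
    (isIntegral_algHom_iff ((algebraMap F Qb).toIntAlgHom) (algebraMap F Qb).injective).mp h1
  exact ⟨⟨y, h2⟩, Subtype.ext hy⟩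

/-- a place of `ℚ̄` above a given prime of `𝓞 K` -/
theorem exists_place_above {K : Type} [Field K] [NumberField K] [Algebra K Qb]
    (v : HeightOneSpectrum (𝓞 K)) : ∃ (ℓ : ℕ) (A : ValuationSubring Qb), ℓ.Prime ∧
      A.LiesOverPrime ℓ ∧ (ℓ : 𝓞 K) ∈ v.asIdeal ∧ (primeBelow A).comap (intMap K) = v.asIdeal := by
  -- the rational prime below `v`
  obtain ⟨ℓ, hℓ, hℓv⟩ : ∃ ℓ : ℕ, ℓ.Prime ∧ (ℓ : 𝓞 K) ∈ v.asIdeal := by
    have h0 : Ideal.absNorm v.asIdeal ≠ 0 := by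
      rw [Ne, Ideal.absNorm_eq_zero_iff]; exact v.ne_bot
    have h1 : ((Ideal.absNorm v.asIdeal : ℕ) : 𝓞 K) ∈ v.asIdeal := Ideal.absNorm_mem _
    have key : ∀ n : ℕ, n ≠ 0 → (n : 𝓞 K) ∈ v.asIdeal → ∃ ℓ : ℕ, ℓ.Prime ∧ (ℓ : 𝓞 K) ∈ v.asIdeal := by
      intro n
      induction n using Nat.recOnMul with
      | zero => intro h; exact absurd rfl h
      | one =>
        intro _ h
        exact absurd ((Ideal.eq_top_iff_one _).mpr (by simpa using h)) v.isPrime.ne_top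
      | prime q hq => intro _ h; exact ⟨q, hq, h⟩
      | mul a b iha ihb =>
        intro hab h
        rw [Nat.cast_mul] at h
        rcases v.isPrime.mem_or_mem h with h | h
        · exact iha (left_ne_zero_of_mul hab) h
        · exact ihb (right_ne_zero_of_mul hab) h
    exact key _ h0 h1
  letI : Algebra (𝓞 K) Zb := (intMap K).toAlgebra
  have hint : Algebra.IsIntegral (𝓞 K) Zb := by
    constructor
    intro b
    have h1 : IsIntegral ℤ b := by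
      have h2 : IsIntegral ℤ (b : Qb) := b.2
      exact (isIntegral_algHom_iff (integralClosure ℤ Qb).val Subtype.val_injective).mp h2
    have : IsScalarTower ℤ (𝓞 K) Zb := IsScalarTower.of_algebraMap_eq' (RingHom.ext_int _ _)
    exact h1.tower_top
  obtain ⟨P, -, hPp, hP⟩ := Ideal.exists_ideal_over_prime_of_isIntegral (S := Zb) v.asIdeal ⊥ (by
    intro x hx
    rw [Ideal.mem_comap, Ideal.mem_bot] at hx
    have : x = 0 := intMap_injective K (by rw [map_zero]; exact hx)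
    rw [this]
    exact Ideal.zero_mem _)
  have hP' : P.comap (intMap K) = v.asIdeal := hP
  have hℓP : (ℓ : Zb) ∈ P := by
    have h1 : (ℓ : 𝓞 K) ∈ P.comap (intMap K) := by rw [hP']; exact hℓv
    rw [Ideal.mem_comap, map_natCast] at h1
    exact h1
  obtain ⟨A, hA, hAP⟩ := exists_place_of_prime hℓ P hℓP
  exact ⟨ℓ, A, hℓ, hA, hℓv, by rw [hAP, hP']⟩

section Main

variable {p : ℕ} [hp : Fact p.Prime]

variable {V : Type} [AddCommGroup V] [Module (ZMod p) V]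
    [DistribMulAction (AlgebraicClosure ℚ ≃ₐ[ℚ] AlgebraicClosure ℚ) V]
    [SMulCommClass (AlgebraicClosure ℚ ≃ₐ[ℚ] AlgebraicClosure ℚ) (ZMod p) V]
variable {C : Submodule (ZMod p) V}

/-- lift of an automorphism of `L/K` to `ℚ̄` -/
noncomputable def liftGal {K : IntermediateField ℚ Qb} {L : IntermediateField K Qb}
    (s : L ≃ₐ[K] L) : Gq :=
  (s.liftNormal Qb).restrictScalars ℚ

theorem liftGal_apply {K : IntermediateField ℚ Qb} {L : IntermediateField K Qb}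
    (s : L ≃ₐ[K] L) (x : L) : liftGal s (x : Qb) = (s x : Qb) :=
  s.liftNormal_commutes Qb x

theorem liftGal_apply_base {K : IntermediateField ℚ Qb} {L : IntermediateField K Qb}
    (s : L ≃ₐ[K] L) (x : K) : liftGal s (x : Qb) = (x : Qb) :=
  (s.liftNormal Qb).commutes x

theorem eq_one_of_liftGal {K : IntermediateField ℚ Qb} {β : Qb}
    (s : K⟮β⟯ ≃ₐ[K] K⟮β⟯) (h : liftGal s β = β) : s = 1 := by
  have key : ∀ x : Qb, x ∈ K⟮β⟯ → liftGal s x = x := by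
    intro x hx
    induction hx using adjoin_induction with
    | mem x hx => rw [Set.mem_singleton_iff] at hx; rw [hx, h]
    | algebraMap x => exact liftGal_apply_base s x
    | add x y _ _ hx hy => rw [map_add, hx, hy]
    | inv x _ hx => rw [map_inv₀, hx]
    | mul x y _ _ hx hy => rw [map_mul, hx, hy]
  ext x
  rw [← liftGal_apply]
  exact key x x.2

/-- Local triviality of inertia, at every prime, and of decomposition, at primes above `p`. -/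
theorem local_trivial (h : IsAdmissibleExtensionCts p V C) {ζ : Qb} (hζ : IsPrimitiveRoot ζ p)
    {β : Qb} (hker : ∀ σ : Gq, cycloChar p σ = 1 → (∀ v : V, σ • v = v) → σ β = β)
    (hker' : ∀ σ : Gq, cycloChar p σ = 1 → σ β = β → (∀ v : V, σ • v = v))
    (hdec : ∀ σ : Gq, cycloChar p σ = 1 → (∃ C' : Submodule (ZMod p) V,
        (∀ x ∈ C', σ • x ∈ C') ∧ IsCompl C C') → σ β = β)
    (v₀ : V) (hv₀ : v₀ ∉ C)
    {ℓ : ℕ} (hℓ : ℓ.Prime) (A : ValuationSubring Qb) (hA : A.LiesOverPrime ℓ) :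
    (∀ s : ℚ⟮ζ⟯⟮β⟯ ≃ₐ[ℚ⟮ζ⟯] ℚ⟮ζ⟯⟮β⟯,
      (∀ x : 𝓞 ℚ⟮ζ⟯⟮β⟯, s • x - x ∈ (primeBelow A).comap (intMap ℚ⟮ζ⟯⟮β⟯)) → s = 1) ∧
    (ℓ = p → ∀ s : ℚ⟮ζ⟯⟮β⟯ ≃ₐ[ℚ⟮ζ⟯] ℚ⟮ζ⟯⟮β⟯,
      (∀ x : 𝓞 ℚ⟮ζ⟯⟮β⟯, s • x ∈ (primeBelow A).comap (intMap ℚ⟮ζ⟯⟮β⟯) ↔
        x ∈ (primeBelow A).comap (intMap ℚ⟮ζ⟯⟮β⟯)) → s = 1) := by
  have hadm := h.toIsAdmissibleExtension
  have hclosed : IsClosed (kerSub V : Set Gq) := Subgroup.isClosed_of_isOpen _ (isOpen_kerSub h)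
  have hnorm : (kerSub V).Normal := by rw [kerSub]; infer_instance
  -- `χ = 1` on lifts
  have hχ : ∀ s : ℚ⟮ζ⟯⟮β⟯ ≃ₐ[ℚ⟮ζ⟯] ℚ⟮ζ⟯⟮β⟯, cycloChar p (liftGal s) = 1 := by
    intro s
    have h1 : liftGal s ζ = ζ := liftGal_apply_base s ⟨ζ, mem_adjoin_simple_self ℚ ζ⟩
    have h2 := cycloChar_eq hζ (liftGal s) 1 (by rw [pow_one]; exact h1)
    exact Units.ext (by simpa using h2)
  have hχker : ∀ σ ∈ kerSub V, cycloChar p σ = 1 := by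
    intro σ hσ
    exact (eq_of_smul_eq hadm hv₀ (mem_kerSub.mp hσ)).1
  -- fixed integers come from `L`
  have hfix : ∀ b : Zb, (∀ h ∈ kerSub V, h • b = b) → ∃ x : 𝓞 ℚ⟮ζ⟯⟮β⟯, intMap _ x = b := by
    intro b hb
    have h1 : (b : Qb) ∈ ℚ⟮ζ⟯⟮β⟯ := by
      have h2 := InfiniteGalois.fixedField_fixingSubgroup (k := ℚ⟮ζ⟯) (K := Qb) ℚ⟮ζ⟯⟮β⟯
      rw [← h2, IntermediateField.mem_fixedField_iff]
      intro σ hσ
      rw [IntermediateField.mem_fixingSubgroup_iff] at hσ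
      have h3 : σ β = β := hσ β (mem_adjoin_simple_self _ β)
      let σ' : Gq := σ.restrictScalars ℚ
      have h4 : cycloChar p σ' = 1 := by
        have h5 : σ' ζ = ζ := σ.commutes ⟨ζ, mem_adjoin_simple_self ℚ ζ⟩
        have h6 := cycloChar_eq hζ σ' 1 (by rw [pow_one]; exact h5)
        exact Units.ext (by simpa using h6)
      have h7 : σ' ∈ kerSub V := mem_kerSub.mpr (hker' σ' h4 h3)
      exact congrArg Subtype.val (hb σ' h7)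
    exact exists_intMap_eq _ b ⟨b, h1⟩ rfl
  -- action compatibility
  have hact : ∀ (s : ℚ⟮ζ⟯⟮β⟯ ≃ₐ[ℚ⟮ζ⟯] ℚ⟮ζ⟯⟮β⟯) (x : 𝓞 ℚ⟮ζ⟯⟮β⟯),
      liftGal s • (intMap _ x) = intMap _ (s • x) := by
    intro s x
    exact Subtype.ext (liftGal_apply s (x : ℚ⟮ζ⟯⟮β⟯))
  have hfin : ∀ (s : ℚ⟮ζ⟯⟮β⟯ ≃ₐ[ℚ⟮ζ⟯] ℚ⟮ζ⟯⟮β⟯) (g : Gq), g ∈ kerSub V →
      (g * liftGal s) β = β → s = 1 := by
    intro s g hg hs
    refine eq_one_of_liftGal s ?_
    have h1 : g⁻¹ β = β := hker g⁻¹ (by rw [map_inv, hχker g hg, inv_one])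
      (mem_kerSub.mp ((kerSub V).inv_mem hg))
    have h2 : g⁻¹ ((g * liftGal s) β) = liftGal s β := by
      rw [← AlgEquiv.mul_apply, inv_mul_cancel_left]
    rw [hs, h1] at h2
    exact h2.symm
  have hdecomp : ℓ = p → ∀ s : ℚ⟮ζ⟯⟮β⟯ ≃ₐ[ℚ⟮ζ⟯] ℚ⟮ζ⟯⟮β⟯,
      (∀ x : 𝓞 ℚ⟮ζ⟯⟮β⟯, s • x ∈ (primeBelow A).comap (intMap ℚ⟮ζ⟯⟮β⟯) ↔
        x ∈ (primeBelow A).comap (intMap ℚ⟮ζ⟯⟮β⟯)) → s = 1 := by
    intro hℓp s hs
    obtain ⟨g, hg, hgA⟩ := exists_lift_decomposition (kerSub V) hclosed hℓ hA (liftGal s) (by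
      intro b hb
      obtain ⟨x, rfl⟩ := hfix b hb
      rw [hact]
      exact hs x)
    refine hfin s g hg (hdec _ (by rw [map_mul, hχker g hg, hχ, one_mul]) ?_)
    subst hℓp
    obtain ⟨C', hC', hcompl⟩ := hadm.locally_split A hA
    exact ⟨C', hC' _ hgA, hcompl⟩
  refine ⟨?_, hdecomp⟩
  intro s hs
  by_cases hℓp : ℓ = p
  · refine hdecomp hℓp s fun x => ?_
    have h1 := hs x
    constructor
    · intro h2
      have := Ideal.sub_mem _ h2 h1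
      rwa [sub_sub_cancel] at this
    · intro h2
      have := Ideal.add_mem _ h1 h2
      rwa [sub_add_cancel] at this
  · obtain ⟨g, hg, hgA⟩ := exists_lift_inertia (kerSub V) hclosed hℓ hA (liftGal s) (by
      intro b hb
      obtain ⟨x, rfl⟩ := hfix b hb
      rw [hact, ← map_sub]
      exact hs x)
    have h1 : g * liftGal s ∈ kerSub V :=
      mem_kerSub.mpr (hadm.unramified_outside ℓ hℓ hℓp A hA _ hgA)
    exact hfin s g hg (hker _ (hχker _ h1) (mem_kerSub.mp h1))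

theorem isGalois_adjoin_aux {ζ : Qb} (hζ : IsPrimitiveRoot ζ p) {β : Qb} (hβ0 : β ≠ 0)
    (hα : ∀ σ : Gq, cycloChar p σ = 1 → σ (β ^ p) = β ^ p) : IsGalois ℚ⟮ζ⟯ ℚ⟮ζ⟯⟮β⟯ := by
  rw [← InfiniteGalois.normal_iff_isGalois]
  have hroot : ∀ τ : Qb ≃ₐ[ℚ⟮ζ⟯] Qb, ∃ i : ℕ, τ β = ζ ^ i * β := by
    intro τ
    have h1 : cycloChar p (τ.restrictScalars ℚ) = 1 := by
      have h5 : (τ.restrictScalars ℚ) ζ = ζ := τ.commutes ⟨ζ, mem_adjoin_simple_self ℚ ζ⟩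
      have h6 := cycloChar_eq hζ (τ.restrictScalars ℚ) 1 (by rw [pow_one]; exact h5)
      exact Units.ext (by simpa using h6)
    have h2 : τ (β ^ p) = β ^ p := hα _ h1
    have h3 : (τ β / β) ^ p = 1 := by
      rw [div_pow, ← map_pow, h2, div_self (pow_ne_zero _ hβ0)]
    obtain ⟨i, -, hi⟩ := hζ.eq_pow_of_pow_eq_one h3
    exact ⟨i, by rw [hi, div_mul_cancel₀ _ hβ0]⟩
  have hζτ : ∀ τ : Qb ≃ₐ[ℚ⟮ζ⟯] Qb, τ ζ = ζ :=
    fun τ => τ.commutes ⟨ζ, mem_adjoin_simple_self ℚ ζ⟩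
  have hmem : ∀ σ : Qb ≃ₐ[ℚ⟮ζ⟯] Qb, σ ∈ (ℚ⟮ζ⟯⟮β⟯).fixingSubgroup ↔ σ β = β := by
    intro σ
    rw [IntermediateField.mem_fixingSubgroup_iff]
    refine ⟨fun h => h β (mem_adjoin_simple_self _ β), fun h x hx => ?_⟩
    induction hx using adjoin_induction with
    | mem x hx => rw [Set.mem_singleton_iff] at hx; rw [hx, h]
    | algebraMap x => exact σ.commutes x
    | add x y _ _ hx hy => rw [map_add, hx, hy]
    | inv x _ hx => rw [map_inv₀, hx]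
    | mul x y _ _ hx hy => rw [map_mul, hx, hy]
  constructor
  intro σ hσ τ
  rw [hmem] at hσ ⊢
  obtain ⟨i, hi⟩ := hroot τ⁻¹
  have h1 : (τ * σ * τ⁻¹) β = τ (σ (τ⁻¹ β)) := rfl
  have h2 : τ (τ⁻¹ β) = β := by rw [← AlgEquiv.mul_apply, mul_inv_cancel]; rfl
  rw [h1, hi, map_mul, map_pow, hζτ, hσ, ← hi, h2]

/-- [A+B] Kummer generator attached to a non-split admissible extension. -/
theorem exists_kummer_generator (h3 : 3 ≤ p)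
    (V : Type) [AddCommGroup V] [Module (ZMod p) V]
    [DistribMulAction (AlgebraicClosure ℚ ≃ₐ[ℚ] AlgebraicClosure ℚ) V]
    [SMulCommClass (AlgebraicClosure ℚ ≃ₐ[ℚ] AlgebraicClosure ℚ) (ZMod p) V]
    (C : Submodule (ZMod p) V) (h : ExtCitation.IsAdmissibleExtensionCts p V C)
    (hns : ¬ ExtCitation.SplitsGlobally C) :
    ∃ (K : Type) (_ : Field K) (_ : NumberField K) (_ : IsCyclotomicExtension {p} ℚ K)
      (ζ : 𝓞 K) (_ : IsPrimitiveRoot ζ p) (a : 𝓞 K),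
      a ≠ 0 ∧ (∀ x : 𝓞 K, x ^ p ≠ a) ∧
      (∀ (σ : K ≃ₐ[ℚ] K) (m : ℕ), σ (ζ : K) = (ζ : K) ^ m →
        ∃ x : K, σ (a : K) = (a : K) ^ (m ^ 2) * x ^ p) ∧
      (∃ 𝔞 : Ideal (𝓞 K), Ideal.span {a} = 𝔞 ^ p) ∧
      ¬ (1 - ζ) ∣ a ∧ ∃ n : ℤ, (1 - ζ) ^ 3 ∣ a - (n : 𝓞 K) := by
  have hp0 : NeZero p := ⟨hp.out.ne_zero⟩
  obtain ⟨ζ, hζ⟩ : ∃ ζ : Qb, IsPrimitiveRoot ζ p :=
    HasEnoughRootsOfUnity.exists_primitiveRoot Qb p
  obtain ⟨v₀, hv₀⟩ := exists_not_mem h.toIsAdmissibleExtension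
  obtain ⟨β, hβ0, ⟨s₀, hs₀, hs₀β⟩, hα, heig, hker, hker', hdec⟩ := exists_kummer_aux h3 h hns hζ
  have hcyc : IsCyclotomicExtension {p} ℚ ℚ⟮ζ⟯ := hζ.intermediateField_adjoin_isCyclotomicExtension ℚ
  have hnf : NumberField ℚ⟮ζ⟯ := IsCyclotomicExtension.numberField {p} ℚ _
  have hfd : FiniteDimensional ℚ⟮ζ⟯ ℚ⟮ζ⟯⟮β⟯ :=
    adjoin.finiteDimensional (Algebra.IsIntegral.isIntegral β)
  have hnfL : NumberField ℚ⟮ζ⟯⟮β⟯ := by
    have : FiniteDimensional ℚ ℚ⟮ζ⟯⟮β⟯ := FiniteDimensional.trans ℚ ℚ⟮ζ⟯ _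
    exact ⟨⟩
  have hgal : IsGalois ℚ⟮ζ⟯ ℚ⟮ζ⟯⟮β⟯ := isGalois_adjoin_aux hζ hβ0 hα
  -- the element `α`
  have hαmem : β ^ p ∈ ℚ⟮ζ⟯ := (mem_adjoin_iff hζ _).mpr hα
  set α : ℚ⟮ζ⟯ := ⟨β ^ p, hαmem⟩ with hαdef
  have hα0 : α ≠ 0 := by
    intro h0
    exact pow_ne_zero p hβ0 (congrArg Subtype.val h0)
  set ζK : ℚ⟮ζ⟯ := ⟨ζ, mem_adjoin_simple_self ℚ ζ⟩ with hζK
  have hζKp : IsPrimitiveRoot ζK p := IsPrimitiveRoot.coe_submonoidClass_iff.mp hζ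
  set z : 𝓞 ℚ⟮ζ⟯ := hζKp.toInteger with hz
  have hzp : IsPrimitiveRoot z p := hζKp.toInteger_isPrimitiveRoot
  have hzcoe : (z : ℚ⟮ζ⟯) = ζK := rfl
  set βL : ℚ⟮ζ⟯⟮β⟯ := ⟨β, mem_adjoin_simple_self _ β⟩ with hβL
  have hβLp : βL ^ p = algebraMap ℚ⟮ζ⟯ ℚ⟮ζ⟯⟮β⟯ α := Subtype.ext rfl
  have hβL0 : βL ≠ 0 := by
    intro h0
    exact hβ0 (congrArg Subtype.val h0)
  -- valuations
  have hplace : ∀ v : HeightOneSpectrum (𝓞 ℚ⟮ζ⟯), ∃ w : HeightOneSpectrum (𝓞 ℚ⟮ζ⟯⟮β⟯),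
      w.asIdeal.LiesOver v.asIdeal ∧
      (∀ s : ℚ⟮ζ⟯⟮β⟯ ≃ₐ[ℚ⟮ζ⟯] ℚ⟮ζ⟯⟮β⟯, (∀ x : 𝓞 ℚ⟮ζ⟯⟮β⟯, s • x - x ∈ w.asIdeal) → s = 1) ∧
      ((p : 𝓞 ℚ⟮ζ⟯) ∈ v.asIdeal → ∀ s : ℚ⟮ζ⟯⟮β⟯ ≃ₐ[ℚ⟮ζ⟯] ℚ⟮ζ⟯⟮β⟯,
        s • w.asIdeal = w.asIdeal → s = 1) := by
    intro v
    obtain ⟨ℓ, A, hℓ, hA, hℓv, hAv⟩ := exists_place_above v
    obtain ⟨h1, h2⟩ := local_trivial h hζ hker hker' hdec v₀ hv₀ hℓ A hA
    have hcomap : ((primeBelow A).comap (intMap ℚ⟮ζ⟯⟮β⟯)).comap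
        (algebraMap (𝓞 ℚ⟮ζ⟯) (𝓞 ℚ⟮ζ⟯⟮β⟯)) = v.asIdeal := by
      rw [Ideal.comap_comap, ← hAv]
      congr 1
    let w : HeightOneSpectrum (𝓞 ℚ⟮ζ⟯⟮β⟯) :=
      ⟨(primeBelow A).comap (intMap ℚ⟮ζ⟯⟮β⟯), Ideal.comap_isPrime _ _, by
        intro h0
        rw [h0] at hcomap
        apply v.ne_bot
        rw [← hcomap]
        exact Ideal.comap_bot_of_injective _
          (FaithfulSMul.algebraMap_injective (𝓞 ℚ⟮ζ⟯) (𝓞 ℚ⟮ζ⟯⟮β⟯))⟩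
    refine ⟨w, ⟨hcomap.symm⟩, h1, ?_⟩
    intro hpv s hs
    refine h2 ?_ s ?_
    · -- `ℓ = p`
      by_contra hne
      have hcop : Nat.Coprime ℓ p := (Nat.coprime_primes hℓ hp.out).mpr hne
      have h4 : (1 : 𝓞 ℚ⟮ζ⟯) ∈ v.asIdeal := by
        obtain ⟨a, b, hab⟩ := Nat.isCoprime_iff_coprime.mpr hcop
        have h5 : (a : 𝓞 ℚ⟮ζ⟯) * (ℓ : 𝓞 ℚ⟮ζ⟯) + (b : 𝓞 ℚ⟮ζ⟯) * (p : 𝓞 ℚ⟮ζ⟯) = 1 := by
          exact_mod_cast congrArg (Int.cast : ℤ → 𝓞 ℚ⟮ζ⟯) hab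
        rw [← h5]
        exact Ideal.add_mem _ (Ideal.mul_mem_left _ _ hℓv) (Ideal.mul_mem_left _ _ hpv)
      exact v.isPrime.ne_top ((Ideal.eq_top_iff_one _).mpr h4)
    · intro x
      show s • x ∈ w.asIdeal ↔ x ∈ w.asIdeal
      conv_lhs => rw [← hs]
      exact Ideal.smul_mem_pointwise_smul_iff
  have hval : ∀ v : HeightOneSpectrum (𝓞 ℚ⟮ζ⟯), ∃ m : ℤ,
      v.valuation ℚ⟮ζ⟯ α = WithZero.exp ((p : ℤ) * m) := by
    intro v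
    obtain ⟨w, hwv, hw, -⟩ := hplace v
    rw [valuation_eq_of_inertia ℚ⟮ζ⟯ ℚ⟮ζ⟯⟮β⟯ v w hw, ← hβLp, map_pow]
    have h0 : w.valuation ℚ⟮ζ⟯⟮β⟯ βL ≠ 0 := (Valuation.ne_zero_iff _).mpr hβL0
    refine ⟨WithZero.log (w.valuation ℚ⟮ζ⟯⟮β⟯ βL), ?_⟩
    rw [← WithZero.exp_log h0, ← WithZero.exp_nsmul, WithZero.log_exp]
    simp
  obtain ⟨c, a, hc0, hac, hna⟩ := exists_scale hzp α hα0 hval
  have ha0 : a ≠ 0 := by
    rintro rfl
    exact hna (dvd_zero _)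
  refine ⟨ℚ⟮ζ⟯, inferInstance, hnf, hcyc, z, hzp, a, ha0, ?_, ?_, ?_, hna, ?_⟩
  · -- not a `p`-th power
    intro x hx
    have h1 : ((x : ℚ⟮ζ⟯) / c) ^ p = α := by
      rw [div_pow, div_eq_iff (pow_ne_zero _ hc0), ← hac, ← hx]
      push_cast
      rfl
    have h2 : (((x : ℚ⟮ζ⟯) / c : ℚ⟮ζ⟯) : Qb) ^ p = β ^ p := congrArg Subtype.val h1
    have hy0 : (((x : ℚ⟮ζ⟯) / c : ℚ⟮ζ⟯) : Qb) ≠ 0 := by
      intro h0
      rw [h0, zero_pow hp.out.ne_zero] at h2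
      exact pow_ne_zero p hβ0 h2.symm
    have h4 : (β / (((x : ℚ⟮ζ⟯) / c : ℚ⟮ζ⟯) : Qb)) ^ p = 1 := by
      rw [div_pow, h2, div_self (pow_ne_zero _ hβ0)]
    obtain ⟨i, -, hi⟩ := hζ.eq_pow_of_pow_eq_one h4
    have h5 : β ∈ ℚ⟮ζ⟯ := by
      have : β = ζ ^ i * (((x : ℚ⟮ζ⟯) / c : ℚ⟮ζ⟯) : Qb) := by
        rw [hi, div_mul_cancel₀ _ hy0]
      rw [this]
      exact mul_mem (pow_mem (mem_adjoin_simple_self ℚ ζ) i) (Subtype.property _)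
    have h6 := (mem_adjoin_iff hζ β).mp h5 s₀ hs₀
    rw [hs₀β] at h6
    have h7 : (ζ - 1) * β = 0 := by rw [sub_mul, one_mul, h6, sub_self]
    rcases mul_eq_zero.mp h7 with h8 | h8
    · exact hζ.ne_one (by omega) (sub_eq_zero.mp h8)
    · exact hβ0 h8
  · -- eigenvector
    intro σ m hσ
    let τ : Gq := σ.liftNormal Qb
    have hτ : ∀ x : ℚ⟮ζ⟯, τ (x : Qb) = (σ x : Qb) := fun x => σ.liftNormal_commutes Qb x
    have hτζ : τ ζ = ζ ^ m := by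
      have h1 := hτ ζK
      rw [hzcoe] at hσ
      rw [hσ] at h1
      exact h1
    have h1 : τ β / β ^ (m ^ 2) ∈ ℚ⟮ζ⟯ := (mem_adjoin_iff hζ _).mpr (heig τ m hτζ)
    set y : ℚ⟮ζ⟯ := ⟨_, h1⟩ with hy
    have h2 : σ α = α ^ (m ^ 2) * y ^ p := by
      apply Subtype.ext
      rw [← hτ]
      show τ (β ^ p) = (β ^ p) ^ (m ^ 2) * (τ β / β ^ (m ^ 2)) ^ p
      rw [map_pow, div_pow, ← pow_mul, ← pow_mul, mul_comm (m ^ 2) p]
      field_simp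
    refine ⟨y * σ c / c ^ (m ^ 2), ?_⟩
    rw [hac, map_mul, map_pow, h2]
    have hcm : c ^ (m ^ 2) ≠ 0 := pow_ne_zero _ hc0
    rw [mul_pow α, div_pow, mul_pow y, ← pow_mul, ← pow_mul, mul_comm p (m ^ 2), pow_mul c (m ^ 2) p]
    field_simp
  · -- the ideal is a `p`-th power
    refine exists_eq_pow_of_valuation p a ha0 fun v => ?_
    obtain ⟨m, hm⟩ := hval v
    have h0 : v.valuation ℚ⟮ζ⟯ c ≠ 0 := (Valuation.ne_zero_iff _).mpr hc0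
    refine ⟨m + WithZero.log (v.valuation ℚ⟮ζ⟯ c), ?_⟩
    rw [hac, map_mul, hm, map_pow]
    conv_lhs => rw [← WithZero.exp_log h0, ← WithZero.exp_nsmul, ← WithZero.exp_add]
    congr 1
    rw [nsmul_eq_mul]
    ring
  · -- congruence
    obtain ⟨w, hwv, hw, hw2⟩ := hplace (vZeta hzp)
    have hpv : (p : 𝓞 ℚ⟮ζ⟯) ∈ (vZeta hzp).asIdeal := by
      show (p : 𝓞 ℚ⟮ζ⟯) ∈ Ideal.span {1 - z}
      rw [Ideal.mem_span_singleton]
      exact (dvd_pow_self _ (by omega)).trans (one_sub_pow_dvd_natCast hzp)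
    -- the root `b`
    have hbint : IsIntegral ℤ (βL * algebraMap ℚ⟮ζ⟯ ℚ⟮ζ⟯⟮β⟯ c) := by
      refine IsIntegral.of_pow hp.out.pos ?_
      rw [mul_pow, hβLp, ← map_pow, ← map_mul, ← hac]
      exact a.isIntegral_coe.map ((algebraMap ℚ⟮ζ⟯ ℚ⟮ζ⟯⟮β⟯).toIntAlgHom)
    set b : 𝓞 ℚ⟮ζ⟯⟮β⟯ := ⟨_, hbint⟩ with hb
    have hbp : b ^ p = algebraMap (𝓞 ℚ⟮ζ⟯) (𝓞 ℚ⟮ζ⟯⟮β⟯) a := by
      apply NumberField.RingOfIntegers.ext
      show (βL * algebraMap ℚ⟮ζ⟯ ℚ⟮ζ⟯⟮β⟯ c) ^ p = algebraMap ℚ⟮ζ⟯ ℚ⟮ζ⟯⟮β⟯ (a : ℚ⟮ζ⟯)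
      rw [mul_pow, hβLp, ← map_pow, ← map_mul, ← hac]
    obtain ⟨t, ht⟩ := exists_approx_of_decomposition ℚ⟮ζ⟯ ℚ⟮ζ⟯⟮β⟯ w (hw2 hpv) b 3
    have h1 : algebraMap (𝓞 ℚ⟮ζ⟯) (𝓞 ℚ⟮ζ⟯⟮β⟯) (t ^ p - a) ∈ w.asIdeal ^ 3 := by
      rw [map_sub, map_pow, ← hbp]
      exact (Ideal.Quotient.eq).mp (by
        rw [map_pow, map_pow, (Ideal.Quotient.eq).mpr ht])
    have h2 : (1 - z) ^ 3 ∣ t ^ p - a := by
      rw [dvd_pow_iff hzp, valuation_eq_of_inertia ℚ⟮ζ⟯ ℚ⟮ζ⟯⟮β⟯ (vZeta hzp) w hw]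
      have h5 := (w.intValuation_le_pow_iff_mem _ 3).mpr h1
      rw [← w.valuation_of_algebraMap (K := ℚ⟮ζ⟯⟮β⟯)] at h5
      exact h5
    obtain ⟨n, hn⟩ := exists_int_pow_sub hzp h3 t
    refine ⟨n, ?_⟩
    have := dvd_sub hn h2
    rwa [show t ^ p - (n : 𝓞 ℚ⟮ζ⟯) - (t ^ p - a) = a - n by ring] at this

end Main

end Fermat.Agent.H14
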