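import Fermat.Agent.H14NoChar
import Fermat.Agent.H14AB

/-!
# S14: the endgame
-/

set_option autoImplicit false

open scoped Pointwise NumberField nonZeroDivisors
open IsDedekindDomain NumberField

namespace Fermat.Agent.H14

section General

variable {K : Type} [Field K] [NumberField K]

theorem ideal_pow_inj {n : ℕ} (hn : n ≠ 0) {I J : Ideal (𝓞 K)} (h : I ^ n = J ^ n) : I = J := by
  apply associated_iff_eq.mp
  exact associated_of_dvd_dvd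
    ((UniqueFactorizationMonoid.pow_dvd_pow_iff_dvd hn).mp (dvd_of_eq h))
    ((UniqueFactorizationMonoid.pow_dvd_pow_iff_dvd hn).mp (dvd_of_eq h.symm))

theorem coe_gal_smul (σ : K ≃ₐ[ℚ] K) (x : 𝓞 K) : ((σ • x : 𝓞 K) : K) = σ (x : K) := rfl

theorem smul_span (σ : K ≃ₐ[ℚ] K) (x : 𝓞 K) : σ • Ideal.span {x} = Ideal.span {σ • x} := by
  rw [Ideal.pointwise_smul_def, Ideal.map_span, Set.image_singleton]
  rfl

theorem smul_ideal_pow (σ : K ≃ₐ[ℚ] K) (I : Ideal (𝓞 K)) (n : ℕ) : σ • (I ^ n) = (σ • I) ^ n := by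
  rw [Ideal.pointwise_smul_def, Ideal.pointwise_smul_def, Ideal.map_pow]

theorem exists_ideal_eq {p : ℕ} (hp : p ≠ 0) (σ : K ≃ₐ[ℚ] K) (a : 𝓞 K) (ha0 : a ≠ 0)
    (𝔞 : Ideal (𝓞 K)) (h𝔞 : Ideal.span {a} = 𝔞 ^ p) (m : ℕ) (x : K)
    (hx : σ (a : K) = (a : K) ^ m * x ^ p) :
    ∃ x1 x2 : 𝓞 K, x1 ≠ 0 ∧ x2 ≠ 0 ∧
      Ideal.span {x2} * (σ • 𝔞) = Ideal.span {x1} * 𝔞 ^ m := by
  have ha0' : (a : K) ≠ 0 := RingOfIntegers.coe_ne_zero_iff.mpr ha0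
  have hx0 : x ≠ 0 := by
    rintro rfl
    rw [zero_pow hp, mul_zero] at hx
    exact ha0' ((map_eq_zero σ).mp hx)
  obtain ⟨x1, x2, hx2, hx12⟩ := IsFractionRing.div_surjective (A := 𝓞 K) x
  have hx20 : x2 ≠ 0 := nonZeroDivisors.ne_zero hx2
  have hx20' : (x2 : K) ≠ 0 := RingOfIntegers.coe_ne_zero_iff.mpr hx20
  have hx10 : x1 ≠ 0 := by
    rintro rfl
    rw [map_zero, zero_div] at hx12
    exact hx0 hx12.symm
  refine ⟨x1, x2, hx10, hx20, ?_⟩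
  have h1 : x2 ^ p * (σ • a) = x1 ^ p * a ^ m := by
    apply RingOfIntegers.ext
    push_cast
    change (x2 : K) ^ p * σ (a : K) = (x1 : K) ^ p * (a : K) ^ m
    rw [hx, ← hx12]
    change (x2 : K) ^ p * ((a : K) ^ m * ((x1 : K) / (x2 : K)) ^ p) = (x1 : K) ^ p * (a : K) ^ m
    rw [div_pow]
    field_simp
  apply ideal_pow_inj hp
  rw [mul_pow, mul_pow, ← smul_ideal_pow, ← h𝔞, smul_span, Ideal.span_singleton_pow,
    Ideal.span_singleton_mul_span_singleton, h1, Ideal.span_singleton_pow, ← pow_mul, mul_comm m p,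
    pow_mul, ← h𝔞, Ideal.span_singleton_pow, Ideal.span_singleton_mul_span_singleton]

theorem classAct_eq_pow {p : ℕ} (hp : p ≠ 0) (σ : K ≃ₐ[ℚ] K) (a : 𝓞 K) (ha0 : a ≠ 0)
    (𝔞 : Ideal (𝓞 K)) (h𝔞 : Ideal.span {a} = 𝔞 ^ p) (h𝔞0 : 𝔞 ∈ (Ideal (𝓞 K))⁰) (m : ℕ) (x : K)
    (hx : σ (a : K) = (a : K) ^ m * x ^ p) :
    classAct σ (ClassGroup.mk0 ⟨𝔞, h𝔞0⟩) = (ClassGroup.mk0 ⟨𝔞, h𝔞0⟩) ^ m := by
  obtain ⟨x1, x2, hx1, hx2, h⟩ := exists_ideal_eq hp σ a ha0 𝔞 h𝔞 m x hx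
  rw [classAct_mk0 σ ⟨𝔞, h𝔞0⟩ (smul_mem_nonZeroDivisors σ (mem_nonZeroDivisors_iff_ne_zero.mp h𝔞0)),
    ← map_pow, ClassGroup.mk0_eq_mk0_iff]
  exact ⟨x2, x1, hx2, hx1, h⟩

end General

section Three

theorem endgame_three {K : Type} [Field K] [NumberField K] [IsCyclotomicExtension {3} ℚ K]
    {ζ : 𝓞 K} (hζ : IsPrimitiveRoot ζ 3) (a : 𝓞 K)
    (hnp : ∀ x : 𝓞 K, x ^ 3 ≠ a) (𝔞 : Ideal (𝓞 K)) (h𝔞 : Ideal.span {a} = 𝔞 ^ 3)
    (hπ : ¬ (1 - ζ) ∣ a) (n : ℤ) (hn : (1 - ζ) ^ 3 ∣ a - (n : 𝓞 K)) : False := by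
  have hp3 : Fact (Nat.Prime 3) := ⟨Nat.prime_three⟩
  have hpid := IsCyclotomicExtension.Rat.three_pid K
  obtain ⟨y, hy⟩ := (IsPrincipalIdealRing.principal 𝔞).principal
  have hy' : 𝔞 = Ideal.span {y} := hy
  rw [hy', Ideal.span_singleton_pow, Ideal.span_singleton_eq_span_singleton] at h𝔞
  obtain ⟨u, hu⟩ := h𝔞.symm
  obtain ⟨n', hn'⟩ := exists_int_pow_sub hζ le_rfl y
  have hπ3 : (1 - ζ) ^ 2 ∣ (3 : 𝓞 K) := by
    have := one_sub_pow_dvd_natCast hζ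
    exact_mod_cast this
  have hπn' : ¬ (1 - ζ) ∣ (n' : 𝓞 K) := by
    intro h
    apply hπ
    rw [← hu]
    refine Dvd.dvd.mul_right ?_ _
    have h1 := (dvd_pow_self (1 - ζ) (by norm_num : 3 ≠ 0)).trans hn'
    have := dvd_add h1 h
    rwa [sub_add_cancel] at this
  have h3n' : ¬ (3 : ℤ) ∣ n' := by
    intro h
    apply hπn'
    obtain ⟨c, hc⟩ := h
    rw [hc]
    push_cast
    exact ((dvd_pow_self (1 - ζ) (by norm_num : 2 ≠ 0)).trans hπ3).mul_right _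
  have hcop : IsCoprime n' 3 := by
    rw [isCoprime_comm]
    exact (Prime.coprime_iff_not_dvd Int.prime_three).mpr h3n'
  obtain ⟨s, t, hst⟩ := hcop
  have hst' : (s : 𝓞 K) * (n' : 𝓞 K) + (t : 𝓞 K) * 3 = 1 := by exact_mod_cast congrArg (Int.cast : ℤ → 𝓞 K) hst
  have hcong : (1 - ζ) ^ 2 ∣ (u : 𝓞 K) - ((s * n : ℤ) : 𝓞 K) := by
    have h1 : (u : 𝓞 K) - ((s * n : ℤ) : 𝓞 K) =
        (s : 𝓞 K) * (a - n) - (s : 𝓞 K) * (u : 𝓞 K) * (y ^ 3 - (n' : 𝓞 K)) + 3 * ((t : 𝓞 K) * u) := by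
      push_cast
      rw [← hu]
      linear_combination (-(u : 𝓞 K)) * hst'
    rw [h1]
    have hd : (1 - ζ) ^ 2 ∣ (1 - ζ) ^ 3 := pow_dvd_pow _ (by norm_num)
    exact dvd_add (dvd_sub ((hd.trans hn).mul_left _) ((hd.trans hn').mul_left _)) (hπ3.mul_right _)
  have hζ' := isPrimitiveRoot_coe hζ
  have htoInt : hζ'.toInteger = ζ := RingOfIntegers.ext rfl
  have := IsCyclotomicExtension.Rat.Three.eq_one_or_neg_one_of_unit_of_congruent hζ' u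
    ⟨s * n, by
      rw [htoInt, show (ζ - 1) ^ 2 = (1 - ζ) ^ 2 by ring]
      exact hcong⟩
  rcases this with h | h
  · apply hnp y
    rw [← hu, h, Units.val_one, mul_one]
  · apply hnp (-y)
    rw [← hu, h, Units.val_neg, Units.val_one]
    ring

end Three

section Five

variable {p : ℕ} [hp : Fact p.Prime] {K : Type} [Field K] [NumberField K]
  [hcyc : IsCyclotomicExtension {p} ℚ K] {ζ : 𝓞 K} (hζ : IsPrimitiveRoot ζ p)

include hζ in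
theorem tau_zeta_coe (u : (ZMod p)ˣ) : tau K u (ζ : K) = (ζ : K) ^ (u : ZMod p).val := by
  have h1 := tau_smul (K := K) u hζ.pow_eq_one
  have h2 := congrArg (fun x : 𝓞 K => (x : K)) h1
  exact h2

include hζ in
/-- no nontrivial `p`-th root of unity is a `p`-th power in `K` -/
theorem zeta_pow_ne_pow (h3 : 3 ≤ p) (m m' : ℕ) (hm : (m : ZMod p) ≠ (m' : ZMod p)) (x : K) :
    (ζ : K) ^ m ≠ (ζ : K) ^ m' * x ^ p := by
  intro h
  have hζ' := isPrimitiveRoot_coe hζ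
  have hζ0 : (ζ : K) ≠ 0 := hζ'.ne_zero hp.out.ne_zero
  have hx0 : x ≠ 0 := by
    rintro rfl
    rw [zero_pow hp.out.ne_zero, mul_zero] at h
    exact pow_ne_zero _ hζ0 h
  have h1 : ¬ x ^ p ^ 1 = 1 := by
    rw [pow_one]
    intro h1
    rw [h1, mul_one] at h
    apply hm
    rw [ZMod.natCast_eq_natCast_iff']
    exact (hζ'.isOfFinOrder hp.out.ne_zero).pow_inj_mod.mp h |> fun h => by rwa [← hζ'.eq_orderOf] at h
  have h2 : x ^ p ^ (1 + 1) = 1 := by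
    have h3 : ((ζ : K) ^ m) ^ p = ((ζ : K) ^ m' * x ^ p) ^ p := by rw [h]
    rw [mul_pow, ← pow_mul, ← pow_mul, mul_comm m p, mul_comm m' p, pow_mul, pow_mul, hζ'.pow_eq_one,
      one_pow, one_pow, one_mul, ← pow_mul] at h3
    rw [pow_succ, pow_one]
    exact h3.symm
  have h4 := orderOf_eq_prime_pow h1 h2
  have h5 : IsPrimitiveRoot x (p ^ (1 + 1)) := by
    rw [← h4]
    exact IsPrimitiveRoot.orderOf x
  have h6 := h5.dvd_of_isCyclotomicExtension p (pow_ne_zero _ hp.out.ne_zero)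
  rw [pow_succ, pow_one, Nat.mul_dvd_mul_iff_right hp.out.pos] at h6
  have := Nat.le_of_dvd (by norm_num) h6
  omega

theorem pow_eq_pow_mul_pow {z : K} (hz : z ≠ 0) {m n : ℕ} (h : (m : ZMod p) = (n : ZMod p)) :
    ∃ w : K, w ≠ 0 ∧ z ^ m = z ^ n * w ^ p := by
  rw [ZMod.natCast_eq_natCast_iff, Nat.modEq_iff_dvd] at h
  obtain ⟨c, hc⟩ := h
  refine ⟨z ^ (-c), zpow_ne_zero _ hz, ?_⟩
  rw [← zpow_natCast, ← zpow_natCast, ← zpow_natCast, ← zpow_mul, ← zpow_add₀ hz]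
  congr 1
  linarith

include hζ in
/-- the cyclotomic unit lies in the `ω²` eigenspace modulo `p`-th powers -/
theorem cycU_eigen (h5 : 5 ≤ p) (u : (ZMod p)ˣ) :
    ∃ y : K, tau K u ((cycU p ζ : 𝓞 K) : K) = ((cycU p ζ : 𝓞 K) : K) ^ ((u : ZMod p).val ^ 2) * y ^ p := by
  classical
  have hζ' := isPrimitiveRoot_coe hζ
  obtain ⟨M, hM⟩ := sum_ee (p := p) h5
  set m : ℕ := (u : ZMod p).val with hm
  have hval0 : ∀ v : (ZMod p)ˣ, 1 - (ζ : K) ^ (v : ZMod p).val ≠ 0 := by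
    intro v
    rw [sub_ne_zero]
    intro h
    have h1 := (hζ'.pow_eq_one_iff_dvd _).mp h.symm
    rw [← ZMod.natCast_eq_zero_iff, ZMod.natCast_zmod_val] at h1
    exact v.ne_zero h1
  have hπ0 : 1 - (ζ : K) ≠ 0 := by
    have := hval0 1
    rwa [Units.val_one, ZMod.val_one_eq_one_mod, Nat.mod_eq_of_lt hp.out.one_lt, pow_one] at this
  -- `W = ∏ (1 - ζ^b)^{ee b}`
  have hW : ∏ v : (ZMod p)ˣ, (1 - (ζ : K) ^ (v : ZMod p).val) ^ ee p (v : ZMod p).val =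
      ((1 - (ζ : K)) ^ M) ^ p * ((cycU p ζ : 𝓞 K) : K) := by
    rw [prod_units_eq (fun b => (1 - (ζ : K) ^ b) ^ ee p b), ← pow_mul, mul_comm M p, ← hM,
      ← Finset.prod_pow_eq_pow_sum, cycU]
    push_cast
    rw [← Finset.prod_mul_distrib]
    refine Finset.prod_congr rfl fun b _ => ?_
    rw [← mul_pow, mul_neg_geom_sum]
  have hτ : ∀ v : (ZMod p)ˣ, tau K u (1 - (ζ : K) ^ (v : ZMod p).val) =
      1 - (ζ : K) ^ ((u * v : (ZMod p)ˣ) : ZMod p).val := by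
    intro v
    rw [map_sub, map_one, map_pow, tau_zeta_coe hζ, ← pow_mul]
    congr 1
    rw [(hζ'.isOfFinOrder hp.out.ne_zero).pow_inj_mod, ← hζ'.eq_orderOf, Units.val_mul, ZMod.val_mul,
      Nat.mod_mod]
  have hfac : ∀ v : (ZMod p)ˣ, ∃ w : K, w ≠ 0 ∧
      (1 - (ζ : K) ^ (v : ZMod p).val) ^ ee p ((u⁻¹ * v : (ZMod p)ˣ) : ZMod p).val =
      (1 - (ζ : K) ^ (v : ZMod p).val) ^ (ee p (v : ZMod p).val * m ^ 2) * w ^ p := by
    intro v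
    apply pow_eq_pow_mul_pow (hval0 v)
    push_cast
    rw [ee_cast, ee_cast, ZMod.natCast_zmod_val, ZMod.natCast_zmod_val, hm, ZMod.natCast_zmod_val,
      mul_inv, inv_inv]
    ring
  choose w hw0 hw using hfac
  have hτW : tau K u (∏ v : (ZMod p)ˣ, (1 - (ζ : K) ^ (v : ZMod p).val) ^ ee p (v : ZMod p).val) =
      (∏ v : (ZMod p)ˣ, (1 - (ζ : K) ^ (v : ZMod p).val) ^ ee p (v : ZMod p).val) ^ m ^ 2 *
        (∏ v : (ZMod p)ˣ, w v) ^ p := by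
    rw [map_prod, ← Finset.prod_pow, ← Finset.prod_pow, ← Finset.prod_mul_distrib]
    rw [← Equiv.prod_comp (Equiv.mulLeft u)
      (fun v => ((1 - (ζ : K) ^ (v : ZMod p).val) ^ ee p (v : ZMod p).val) ^ m ^ 2 * w v ^ p)]
    refine Finset.prod_congr rfl fun v _ => ?_
    rw [Equiv.coe_mulLeft, ← pow_mul, ← hw, map_pow, hτ, inv_mul_cancel_left]
  rw [hW, map_mul, map_pow, map_pow] at hτW
  have hτπ0 : (tau K u (1 - (ζ : K))) ≠ 0 := fun h => hπ0 ((map_eq_zero _).mp h)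
  refine ⟨((1 - (ζ : K)) ^ M) ^ (m ^ 2) * (∏ v : (ZMod p)ˣ, w v) / (tau K u (1 - (ζ : K))) ^ M, ?_⟩
  rw [div_pow, mul_div_assoc', eq_div_iff (pow_ne_zero _ (pow_ne_zero _ hτπ0)), mul_comm, hτW, mul_pow,
    mul_pow, ← pow_mul ((1 - (ζ : K)) ^ M) p, mul_comm p, pow_mul ((1 - (ζ : K)) ^ M) _ p]
  ring

include hζ in
theorem endgame_five (h5 : 5 ≤ p)
    (hD2 : ∀ χ : ClassGroup (𝓞 K) →* ℂˣ, χ ≠ 1 → ∃ C : ℝ, ∀ s : ℝ, 1 < s → s ≤ 2 →
      ‖∑' I : (Ideal (𝓞 K))⁰, (χ (ClassGroup.mk0 I) : ℂ) *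
        (((Ideal.absNorm (I : Ideal (𝓞 K)) : ℝ) ^ (-s) : ℝ) : ℂ)‖ ≤ C)
    (a : 𝓞 K) (ha0 : a ≠ 0) (hnp : ∀ x : 𝓞 K, x ^ p ≠ a)
    (hsig : ∀ (σ : K ≃ₐ[ℚ] K) (m : ℕ), σ (ζ : K) = (ζ : K) ^ m →
        ∃ x : K, σ (a : K) = (a : K) ^ (m ^ 2) * x ^ p)
    (𝔞 : Ideal (𝓞 K)) (h𝔞 : Ideal.span {a} = 𝔞 ^ p)
    (hπ : ¬ (1 - ζ) ∣ a) (n : ℤ) (hn : (1 - ζ) ^ 3 ∣ a - (n : 𝓞 K)) : False := by
  classical
  have hζ' := isPrimitiveRoot_coe hζ
  have h𝔞ne : 𝔞 ≠ 0 := by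
    rintro rfl
    rw [zero_pow hp.out.ne_zero] at h𝔞
    exact ha0 (by simpa using h𝔞)
  have h𝔞0 : 𝔞 ∈ (Ideal (𝓞 K))⁰ := mem_nonZeroDivisors_iff_ne_zero.mpr h𝔞ne
  set c : ClassGroup (𝓞 K) := ClassGroup.mk0 ⟨𝔞, h𝔞0⟩ with hc
  have hcp : c ^ p = 1 := by
    rw [hc, ← map_pow, ClassGroup.mk0_eq_one_iff]
    refine ⟨⟨a, ?_⟩⟩
    rw [← Ideal.submodule_span_eq, h𝔞] at *
    rfl
  -- a generator
  obtain ⟨u0, hu0⟩ := IsCyclic.exists_generator (α := (ZMod p)ˣ)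
  set m0 : ℕ := (u0 : ZMod p).val with hm0
  have hσζ : tau K u0 (ζ : K) = (ζ : K) ^ m0 := tau_zeta_coe hζ u0
  obtain ⟨x0, hx0⟩ := hsig _ _ hσζ
  have hTc : classAct (tau K u0) c = c ^ (m0 ^ 2) :=
    classAct_eq_pow hp.out.ne_zero _ a ha0 𝔞 h𝔞 h𝔞0 _ x0 hx0
  -- the class is trivial
  have hc1 : c = 1 := by
    by_contra hc1
    obtain ⟨χ, hχ0, hχ⟩ := Fermat.Agent.H75.exists_char (Additive (ClassGroup (𝓞 K))) p
      (MonoidHom.toAdditive (classAct (tau K u0)).toMonoidHom) (m0 ^ 2) (Additive.ofMul c)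
      (fun h => hc1 (Additive.ofMul.injective h))
      (by rw [← ofMul_pow, hcp, ofMul_one])
      (by rw [← ofMul_pow, ← hTc]; rfl)
    apply hχ0
    have hχ1 : ∀ c : ClassGroup (𝓞 K), χ (Additive.ofMul (classAct (tau K u0) c)) =
        (u0 : ZMod p) ^ 2 * χ (Additive.ofMul c) := by
      intro c
      have h1 := hχ (Additive.ofMul c)
      rw [nsmul_eq_mul, Nat.cast_pow, hm0, ZMod.natCast_zmod_val] at h1
      exact h1
    have hχ2 : ∀ (k : ℕ) (c : ClassGroup (𝓞 K)), χ (Additive.ofMul (classAct (tau K (u0 ^ k)) c)) =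
        ((u0 ^ k : (ZMod p)ˣ) : ZMod p) ^ 2 * χ (Additive.ofMul c) := by
      intro k
      induction k with
      | zero =>
        intro c
        rw [pow_zero, tau_one, classAct_one, Units.val_one, one_pow, one_mul]
      | succ k ih =>
        intro c
        rw [pow_succ, tau_mul, classAct_mul, ih, hχ1, Units.val_mul]
        ring
    refine no_char hζ h5 hD2 χ fun u c => ?_
    obtain ⟨k, hk⟩ := (mem_powers_iff_mem_zpowers.mpr (hu0 u))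
    have hk' : u0 ^ k = u := hk
    rw [← hk']
    exact hχ2 k c
  -- so `𝔞` is principal
  rw [hc, ClassGroup.mk0_eq_one_iff] at hc1
  obtain ⟨⟨y, hy⟩⟩ := hc1
  have hy' : 𝔞 = Ideal.span {y} := hy
  rw [hy', Ideal.span_singleton_pow, Ideal.span_singleton_eq_span_singleton] at h𝔞
  obtain ⟨u, hu⟩ := h𝔞.symm
  have hy0 : y ≠ 0 := by
    rintro rfl
    rw [zero_pow hp.out.ne_zero, zero_mul] at hu
    exact ha0 hu.symm
  have hy0K : (y : K) ≠ 0 := RingOfIntegers.coe_ne_zero_iff.mpr hy0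
  have huK : (y : K) ^ p * ((u : 𝓞 K) : K) = (a : K) := by
    rw [← hu]; push_cast; rfl
  -- the unit `u` is an eigenvector
  have hσy0 : tau K u0 (y : K) ≠ 0 := fun h => hy0K ((map_eq_zero _).mp h)
  have hu_eig : tau K u0 ((u : 𝓞 K) : K) = ((u : 𝓞 K) : K) ^ (m0 ^ 2) *
      ((y : K) ^ (m0 ^ 2) * x0 / tau K u0 (y : K)) ^ p := by
    have h1 : (tau K u0 (y : K)) ^ p * tau K u0 ((u : 𝓞 K) : K) =
        ((y : K) ^ p * ((u : 𝓞 K) : K)) ^ (m0 ^ 2) * x0 ^ p := by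
      rw [← map_pow, ← map_mul, huK, hx0]
    rw [div_pow, mul_div_assoc', eq_div_iff (pow_ne_zero _ hσy0), mul_comm, h1, mul_pow, mul_pow,
      ← pow_mul, ← pow_mul, mul_comm p]
    ring
  -- `u0 ≠ 1`
  have hu01 : u0 ≠ 1 := by
    rintro rfl
    have h1 : ∀ v : (ZMod p)ˣ, v = 1 := fun v => by
      have := hu0 v
      rwa [Subgroup.zpowers_one_eq_bot, Subgroup.mem_bot] at this
    have h2 : Nat.card (ZMod p)ˣ = 1 := by
      rw [Nat.card_eq_one_iff_unique]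
      exact ⟨⟨fun a b => by rw [h1 a, h1 b]⟩, ⟨1⟩⟩
    rw [Nat.card_eq_fintype_card, ZMod.card_units] at h2
    omega
  have hm : ∀ x : K, tau K u0 (ζ : K) ≠ (ζ : K) ^ (m0 ^ 2) * x ^ p := by
    intro x
    rw [hσζ]
    apply zeta_pow_ne_pow hζ (by omega)
    rw [Nat.cast_pow, hm0, ZMod.natCast_zmod_val]
    intro h
    apply hu01
    apply Units.ext
    rw [Units.val_one]
    have h2 : (u0 : ZMod p) * ((u0 : ZMod p) - 1) = 0 := by
      linear_combination -h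
    exact sub_eq_zero.mp ((mul_eq_zero.mp h2).resolve_left u0.ne_zero)
  obtain ⟨yv, hyv⟩ := cycU_eigen hζ h5 u0
  set v : (𝓞 K)ˣ := (isUnit_cycU hζ).unit with hv
  have hvval : (v : 𝓞 K) = cycU p ζ := IsUnit.unit_spec _
  set ζu : (𝓞 K)ˣ := (hζ.isUnit hp.out.ne_zero).unit with hζu
  have hζuval : (ζu : 𝓞 K) = ζ := IsUnit.unit_spec _
  have hζu' : IsPrimitiveRoot ζu p := by
    rw [← IsPrimitiveRoot.coe_units_iff, hζuval]
    exact hζ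
  obtain ⟨k, w, hkw⟩ := Fermat.Agent.H46U.unit_eigenspace (by omega : 3 ≤ p) K ζu hζu'
    (tau K u0) (fun τ => by
      obtain ⟨t, rfl⟩ := tau_surj (p := p) τ
      obtain ⟨j, hj⟩ := Subgroup.mem_zpowers_iff.mp (hu0 t)
      rw [← hj]
      exact Subgroup.mem_zpowers_iff.mpr ⟨j, (map_zpow
        (IsCyclotomicExtension.Rat.galEquivZMod p K).symm u0 j).symm⟩) (m0 ^ 2)
    (fun x => by rw [hζuval]; exact hm x) u v _ yv hu_eig (by rw [hvval]; exact hyv)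
    (fun w hw => cycU_not_pow hζ h5 (w : 𝓞 K) (by
      rw [← hvval, hw, Units.val_pow_eq_pow_val]))
  have ha' : a = cycU p ζ ^ k * ((w : 𝓞 K) * y) ^ p := by
    rw [← hu, hkw, Units.val_mul, Units.val_pow_eq_pow_val, Units.val_pow_eq_pow_val, hvval]
    ring
  have hpk : p ∣ k := by
    refine Fermat.Agent.H75.local_E h5 K ζ hζ (ee p) ee_spec k ((w : 𝓞 K) * y) ?_ n ?_
    · intro h
      apply hπ
      rw [ha']
      exact ((dvd_pow h hp.out.ne_zero)).mul_left _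
    · change (1 - ζ) ^ 3 ∣ cycU p ζ ^ k * ((w : 𝓞 K) * y) ^ p - (n : 𝓞 K)
      rw [← ha']
      exact hn
  obtain ⟨k', rfl⟩ := hpk
  apply hnp (cycU p ζ ^ k' * ((w : 𝓞 K) * y))
  rw [ha', mul_pow, ← pow_mul, mul_comm k' p]

end Five

/-- the main theorem modulo the boundedness of class group `L`-series near `s = 1` -/
theorem extVanishing_of_bounded {p : ℕ} [hp : Fact p.Prime] (h3 : 3 ≤ p)
    (hD2 : ∀ (K : Type) [Field K] [NumberField K] (χ : ClassGroup (𝓞 K) →* ℂˣ), χ ≠ 1 →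
      ∃ C : ℝ, ∀ s : ℝ, 1 < s → s ≤ 2 →
      ‖∑' I : (Ideal (𝓞 K))⁰, (χ (ClassGroup.mk0 I) : ℂ) *
        (((Ideal.absNorm (I : Ideal (𝓞 K)) : ℝ) ^ (-s) : ℝ) : ℂ)‖ ≤ C) :
    ExtCitation.ExtVanishingCts p := by
  intro V _ _ _ _ C h
  by_contra hns
  obtain ⟨K, _, _, _, ζ, hζ, a, ha0, hnp, hsig, ⟨𝔞, h𝔞⟩, hπ, n, hn⟩ :=
    exists_kummer_generator h3 V C h hns
  rcases h3.eq_or_lt with h | h
  · subst h
    exact endgame_three hζ a hnp 𝔞 h𝔞 hπ n hn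
  · have h5 : 5 ≤ p := by
      rcases (by omega : p = 4 ∨ 5 ≤ p) with h4 | h5
      · exfalso
        rw [h4] at hp
        exact absurd hp.out (by norm_num)
      · exact h5
    exact endgame_five hζ h5 (hD2 K) a ha0 hnp hsig 𝔞 h𝔞 hπ n hn

end Fermat.Agent.H14
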