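import Fermat.Agent.S02
import Fermat.Agent.S10
import Fermat.Agent.S11
import Fermat.Agent.S14

/-!
# Guide: Frey packages, small exponents, extensions of `μ_p` by `ℤ/p`

This file contains no new mathematics. It lists the key theorems behind four of the sixty
statements, each written out in full and proved by citing the library:

* `S02`: a solution of Fermat's equation with prime exponent `p ≥ 5` gives a Frey package;
* `S10`, `S11`: the `p`-torsion of a Frey curve has no stable line with trivial quotient action for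
  `p = 5, 7, 13`, respectively `p = 11`. In fact there is no Frey package with these exponents: this is
  Kummer's theorem for the regular primes 5, 7, 11, 13, proved from scratch;
* `S14`: an extension of `μ_p` by `ℤ/p`, unramified outside `p` and split at `p`, is split
  (`p ≥ 3`). The proof uses Kummer theory and Thaine's method; no class field theory.

All theorems cited here are used in the proof of `S01`. Explanations: notes [221], [111] (small
exponents), [287], [92], [218] (`S14`) in NOTES.md.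

Reading order of the library. `S02`. Small exponents: `H1Germain`; `H2Pid13`, `H2Pid711`; `H46Kummer`,
`H46KummerB`, `H46KummerC`, `H46KummerD`; `H2CaseII`, `H2Inst`, `H2FLTSmall`. `S14`: `H54Frobenius`,
`H14Kummer`, `H14Lift`, `H14Finite`, `H14Cyclo`, `H14AB`; `H76Tent`, `H76UnitSum`, `H76Place`, `H76Weight`,
`H76Lattice`, `H76Regroup`, `H76ClassBound`, `H76ClassL`; `H99PrimeSum`, `H45ClassL1`, `H45ClassL2`,
`H45ClassL`; `H64Thaine`, `H64Ram`, `H64ThaineMain`, `H64ThaineC`; `H75LocalE`, `H14NoChar`,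
`H75ExistsChar`, `H46UnitEigen`, `H14Assembly`.

Where the statements are used: `S10`, `S11` with `S12` and `S13` give `S09` (irreducibility of the `p`-torsion
of the Frey curve); `S14` is used in the proof of `S15` (Mazur).

Notation of Mathlib: `𝓞 K` is the ring of integers of the number field `K`;
`IsCyclotomicExtension {p} ℚ K` says that `K` is the field of the `p`-th roots of unity;
`IsPrimitiveRoot ζ p` that `ζ` is a primitive `p`-th root of unity.
-/

set_option autoImplicit false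

namespace Fermat.Agent.Guide.FermatSmall

open NumberField

/-! ## 1. Frey packages (`S02`) -/

/-- What a Frey package is: nonzero coprime integers `a, b, c` with `a ^ p + b ^ p = c ^ p`, `p ≥ 5`
prime, normalised such that `a ≡ 3` modulo 4 and `b` is even. (The Frey curve is
`y ^ 2 + x y = x ^ 3 + (b ^ p - 1 - a ^ p) / 4 x ^ 2 - a ^ p b ^ p / 16 x`, a model of
`y ^ 2 = x (x - a ^ p) (x + b ^ p)`.) -/
theorem freyPackage_spec (P : FreyPackage) :
    (P.a ≠ 0 ∧ P.b ≠ 0 ∧ P.c ≠ 0) ∧ P.p.Prime ∧ 5 ≤ P.p ∧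
      P.a ^ P.p + P.b ^ P.p = P.c ^ P.p ∧ gcd P.a P.b = 1 ∧
      ((P.a : ℤ) : ZMod 4) = 3 ∧ ((P.b : ℤ) : ZMod 2) = 0 :=
  ⟨⟨P.ha0, P.hb0, P.hc0⟩, P.pp, P.hp5, P.hFLT, P.hgcdab, P.ha4, P.hb2⟩

/-- **S02.** A solution in nonzero integers for a prime exponent `p ≥ 5` gives a Frey package: divide by
the greatest common divisor; exactly one of the three numbers is even; permute the numbers and
change signs. (The package has the same exponent, but this is not part of the statement.) -/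
theorem exists_freyPackage (a b c : ℤ) (ha : a ≠ 0) (hb : b ≠ 0) (hc : c ≠ 0) (p : ℕ)
    (pp : p.Prime) (hp5 : 5 ≤ p) (H : a ^ p + b ^ p = c ^ p) : Nonempty FreyPackage :=
  S02.result a b c ha hb hc p pp hp5 H

/-! ## 2. The first case for `p = 5, 7, 11, 13` (Sophie Germain) -/

/-- **Sophie Germain's theorem.** Let `p` be an odd prime and `q` an auxiliary prime such that
`x ^ p + y ^ p + z ^ p = 0` modulo `q` has only the trivial solutions and `p` is not a `p`-th power modulo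
`q`. Then the first case of Fermat's Last Theorem holds for `p`. Proved in `H1Germain`. -/
theorem sophie_germain {p q : ℕ} (hp : p.Prime) (hodd : Odd p) [Fact q.Prime]
    (h1 : ∀ x y z : ZMod q, x ^ p + y ^ p + z ^ p = 0 → x = 0 ∨ y = 0 ∨ z = 0)
    (h2 : ∀ x : ZMod q, x ^ p ≠ (p : ZMod q))
    {x y z : ℤ} (hxy : IsCoprime x y) (hyz : IsCoprime y z) (hxz : IsCoprime x z)
    (h : x ^ p + y ^ p + z ^ p = 0) : (p : ℤ) ∣ x * y * z :=
  H1.germain hp hodd h1 h2 hxy hyz hxz h

/-- The first case for `p = 5, 7, 11, 13`: the auxiliary primes are 11, 29, 23, 53. Proved in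
`H1Germain`. -/
theorem first_case {p : ℕ} (hp : p = 5 ∨ p = 7 ∨ p = 11 ∨ p = 13) {x y z : ℤ}
    (hxy : IsCoprime x y) (h : x ^ p + y ^ p = z ^ p) : (p : ℤ) ∣ x * y * z :=
  H1.case_one hp hxy h

/-! ## 3. The rings `ℤ[ζ_p]` for `p = 5, 7, 11, 13` are principal ideal domains -/

/-- A certificate for a prime ideal to be principal. Let `P` be a prime ideal above `q ≠ p` (so `q`
divides all integers in `P`), let `t` be an integer of order `p` modulo `q` and suppose that for every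
primitive `p`-th root of unity `z` there is `π` which divides `q` and `z - t` and lies in the ideal
`(z - t, q)`. Then `P` is principal (generated by `π` for the `z` congruent to `t` modulo `P`). All the
conditions on `π` are identities between polynomials in `z`. Proved in `H2Pid13`. -/
theorem isPrincipal_of_certificate {R : Type*} [CommRing R] [IsDomain R] {p : ℕ} (hp : p.Prime)
    {ζ : R} (hζ : IsPrimitiveRoot ζ p)
    (hgen : ∀ z : R, IsPrimitiveRoot z p → ∀ x : R, ∃ f : Polynomial ℤ, Polynomial.aeval z f = x)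
    (P : Ideal R) [P.IsPrime] (q : ℕ) (hqP : (q : R) ∈ P) (hpP : (p : R) ∉ P)
    (hP : ∀ m : ℤ, (m : R) ∈ P → (q : ℤ) ∣ m)
    (t : ℤ) (ht : (q : ℤ) ∣ t ^ p - 1) (ht1 : ¬ (q : ℤ) ∣ t - 1)
    (cert : ∀ z : R, IsPrimitiveRoot z p → ∃ π α β : R, π * α = q ∧ π * β = z - t ∧
      ∃ γ δ, π = (z - t) * γ + q * δ) :
    P.IsPrincipal :=
  H2.principal_of_cert hp hζ hgen P q hqP hpP hP t ht ht1 cert

/-- For `p = 5, 7, 11, 13` the ring of integers of the field of `p`-th roots of unity is a principal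
ideal domain: Minkowski's bound leaves finitely many prime ideals, and each of them has a
certificate. (`p = 5` is in Mathlib.) Proved in `H2Pid711`, `H2Pid13`, `H2FLTSmall`. -/
theorem isPrincipalIdealRing_small {p : ℕ} (hp : p = 5 ∨ p = 7 ∨ p = 11 ∨ p = 13) (K : Type*)
    [Field K] [NumberField K] [IsCyclotomicExtension {p} ℚ K] : IsPrincipalIdealRing (𝓞 K) :=
  H2.pid_small hp K

/-! ## 4. Kummer's lemma for `p = 5, 7, 11, 13` -/

/-- The group theoretic core of Kummer's lemma. Let `E` be an abelian group generated by `r`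
elements and `L` a homomorphism from `E` to a vector space over `𝔽_p` which takes linearly independent
values on `r` elements of `E`. Then every element of the kernel of `L` is a `p`-th power. Proved in
`H46Kummer`. -/
theorem isPow_of_map_eq_one {p : ℕ} [Fact p.Prime] {E A : Type*} [CommGroup E] [AddCommGroup A]
    [Module (ZMod p) A] (L : E →* Multiplicative A) (r : ℕ) (g : Fin r → E)
    (hg : ∀ u : E, ∃ n : Fin r → ℤ, u = ∏ i, g i ^ n i) (v : Fin r → E)
    (hv : LinearIndependent (ZMod p) (fun i => (L (v i)).toAdd))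
    (u : E) (hu : L u = 1) : ∃ w : E, u = w ^ p :=
  H46.kummer_core L r g hg v hv u hu

/-- **Kummer's lemma** for `p = 5, 7, 11, 13`: a unit of `ℤ[ζ_p]` which is congruent to an integer modulo
`p` is a `p`-th power. The group `E` of units has `(p - 1) / 2` generators (Dirichlet); `L` is the
logarithmic derivative with respect to `ζ`, with values in `𝔽_p[x] / (x ^ (p - 2))`, `ζ = 1 + x`; the
elements `v_i` are `ζ` and the cyclotomic units `1 + ζ + ⋯ + ζ ^ (a - 1)`, and their independence is one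
matrix identity modulo `p`. Proved in `H46KummerB`, `H46KummerC`, `H46KummerD`. -/
theorem kummer_lemma {p : ℕ} (hp : p = 5 ∨ p = 7 ∨ p = 11 ∨ p = 13) (K : Type*) [Field K]
    [NumberField K] [IsCyclotomicExtension {p} ℚ K] (u : (𝓞 K)ˣ) (n : ℤ)
    (h : (p : 𝓞 K) ∣ (u : 𝓞 K) - n) : ∃ w : (𝓞 K)ˣ, u = w ^ p :=
  H46.kummer_lemma hp K u n h

/-! ## 5. The second case: Kummer's descent -/

/-- The data of Kummer's descent, `H2.KummerRing p R ζ`, unfolded: `ζ` is a primitive `p`-th root of unity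
in the ring `R`, `ζ - 1` is a prime element with residue field `𝔽_p` whose `(p - 1)`-st power is divisible by
`p`, `p`-th powers are integers modulo `p`, and Kummer's lemma holds. -/
theorem kummerRing_iff (p : ℕ) (R : Type*) [CommRing R] (ζ : R) :
    H2.KummerRing p R ζ ↔
      IsPrimitiveRoot ζ p ∧ Prime (ζ - 1) ∧ (∀ x : R, ∃ m : ℤ, ζ - 1 ∣ x - m) ∧
      (∀ m : ℤ, ζ - 1 ∣ (m : R) → (p : ℤ) ∣ m) ∧ (p : R) ∣ (ζ - 1) ^ (p - 1) ∧
      (∀ x : R, ∃ m : ℤ, (p : R) ∣ x ^ p - m) ∧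
      (∀ (u : Rˣ) (m : ℤ), (p : R) ∣ (u : R) - m → ∃ w : Rˣ, w ^ p = u) :=
  ⟨fun h => ⟨h.1, h.2, h.3, h.4, h.5, h.6, h.7⟩,
    fun h => ⟨h.1, h.2.1, h.2.2.1, h.2.2.2.1, h.2.2.2.2.1, h.2.2.2.2.2.1, h.2.2.2.2.2.2⟩⟩

/-- **Kummer's descent.** Let `R` be a principal ideal domain with the properties of `kummerRing_iff`,
`p > 3`. Then `x ^ p + y ^ p = ε ((ζ - 1) ^ (n + 1) z) ^ p` has no solution with `x, y` coprime, `z`
prime to `ζ - 1` and `ε` a unit. Induction on `n`: factorisation of the left side over the `p`-th roots of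
unity. Proved in `H2CaseII`. -/
theorem kummer_descent {p : ℕ} (hp : p.Prime) (hp3 : 3 < p) {R : Type*} [CommRing R] [IsDomain R]
    [IsPrincipalIdealRing R] {ζ : R} (H : H2.KummerRing p R ζ) (n : ℕ) (x y z : R) (ε : Rˣ)
    (hxy : IsCoprime x y) (hz : ¬ ζ - 1 ∣ z)
    (h : x ^ p + y ^ p = ε * ((ζ - 1) ^ (n + 1) * z) ^ p) : False :=
  H2.caseII hp H hp3 n x y z ε hxy hz h

/-- **Kummer's theorem** in the form used here. Let `p ≥ 5` be a prime for which the first case holds, and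
`K` a field of `p`-th roots of unity whose ring of integers is a principal ideal domain in which
Kummer's lemma holds. Then `p` is not the exponent of a Frey package. Proved in `H2Inst`. -/
theorem no_freyPackage_of_kummer {p : ℕ} [Fact p.Prime] (hp5 : 5 ≤ p)
    (hI : ∀ x y z : ℤ, IsCoprime x y → x ^ p + y ^ p = z ^ p → (p : ℤ) ∣ x * y * z)
    (K : Type*) [Field K] [NumberField K] [IsCyclotomicExtension {p} ℚ K]
    [IsPrincipalIdealRing (𝓞 K)]
    (hk : ∀ (u : (𝓞 K)ˣ) (m : ℤ), (p : 𝓞 K) ∣ (u : 𝓞 K) - m → ∃ w : (𝓞 K)ˣ, w ^ p = u)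
    (P : FreyPackage) (hP : P.p = p) : False :=
  H2.frey_false_of hp5 hI K hk P hP

/-- There is no Frey package with exponent 5, 7, 11 or 13. Proved in `H2FLTSmall`. -/
theorem no_freyPackage_small (P : FreyPackage) (hp : P.p = 5 ∨ P.p = 7 ∨ P.p = 11 ∨ P.p = 13) :
    False :=
  H2.frey_small_false P hp

/-- **S10** and **S11** together, unfolded: the `p`-torsion `E[p]` of the Frey curve over `ℚ̄` has no
Galois stable subgroup `N` different from `0` and `E[p]` such that Galois acts trivially on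
`E[p] / N`, if `p = 5, 7, 11, 13`. -/
theorem no_cofixed_line_small (P : FreyPackage)
    (hp : P.p = 5 ∨ P.p = 7 ∨ P.p = 11 ∨ P.p = 13) :
    ¬ ∃ N : Submodule (ZMod P.p) (Submodule.torsionBy ℤ
          (WeierstrassCurve.Affine.Point (P.freyCurve.baseChange (AlgebraicClosure ℚ))) P.p),
        WeierstrassCurve.Affine.Point.IsGaloisStable ℚ N ∧ N ≠ ⊥ ∧ N ≠ ⊤ ∧
          ∀ (σ : AlgebraicClosure ℚ ≃ₐ[ℚ] AlgebraicClosure ℚ)
            (x : Submodule.torsionBy ℤ
              (WeierstrassCurve.Affine.Point (P.freyCurve.baseChange (AlgebraicClosure ℚ))) P.p),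
            σ • x - x ∈ N :=
  (H2.frey_small_false P hp).elim

/-! ## 6. Extensions of `μ_p` by `ℤ/p` (`S14`) -/

/-- Notation of `S14`: for an automorphism `σ` of `ℚ̄` the natural number `ExtCitation.cycloExp p σ` is the
cyclotomic character modulo `p`: `σ ζ = ζ ^ (cycloExp p σ)` for all `p`-th roots of unity `ζ`. -/
theorem cycloExp_spec {p : ℕ} [Fact p.Prime] (σ : AlgebraicClosure ℚ ≃ₐ[ℚ] AlgebraicClosure ℚ)
    {ζ : AlgebraicClosure ℚ} (hζ : ζ ^ p = 1) : σ ζ = ζ ^ ExtCitation.cycloExp p σ :=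
  H14.apply_root σ hζ

/-- **S14**, with all definitions unfolded. Let `p ≥ 3` be a prime, `V` an `𝔽_p`-vector space with `p ^ 2`
elements and a linear action of `G_ℚ` with open kernel, and `C` a stable line with trivial action such
that `G_ℚ` acts on `V / C` by the cyclotomic character. If `V` is unramified at all primes `ℓ ≠ p` and `C`
has a complement which is stable under the decomposition group at every place above `p`, then `C` has
a complement which is stable under `G_ℚ`. Used in Mazur's theorem (`S15`). -/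
theorem extension_splits {p : ℕ} [Fact p.Prime] (h3 : 3 ≤ p) (V : Type) [AddCommGroup V]
    [Module (ZMod p) V] [DistribMulAction (AlgebraicClosure ℚ ≃ₐ[ℚ] AlgebraicClosure ℚ) V]
    [SMulCommClass (AlgebraicClosure ℚ ≃ₐ[ℚ] AlgebraicClosure ℚ) (ZMod p) V]
    (C : Submodule (ZMod p) V)
    (hC : ∀ σ : AlgebraicClosure ℚ ≃ₐ[ℚ] AlgebraicClosure ℚ, ∀ x ∈ C, σ • x = x)
    (hq : ∀ (σ : AlgebraicClosure ℚ ≃ₐ[ℚ] AlgebraicClosure ℚ) (x : V),
      σ • x - (ExtCitation.cycloExp p σ : ZMod p) • x ∈ C)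
    (cardC : Nat.card C = p) (cardV : Nat.card V = p ^ 2)
    (hur : ∀ ℓ : ℕ, ℓ.Prime → ℓ ≠ p → ∀ A : ValuationSubring (AlgebraicClosure ℚ),
      A.LiesOverPrime ℓ → ∀ σ ∈ A.inertiaSubgroupIn ℚ, ∀ x : V, σ • x = x)
    (hloc : ∀ A : ValuationSubring (AlgebraicClosure ℚ), A.LiesOverPrime p →
      ∃ C' : Submodule (ZMod p) V,
        (∀ σ ∈ A.decompositionSubgroup ℚ, ∀ x ∈ C', σ • x ∈ C') ∧ IsCompl C C')
    (hopen : IsOpen {σ : AlgebraicClosure ℚ ≃ₐ[ℚ] AlgebraicClosure ℚ | ∀ v : V, σ • v = v}) :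
    ∃ C' : Submodule (ZMod p) V,
      (∀ σ : AlgebraicClosure ℚ ≃ₐ[ℚ] AlgebraicClosure ℚ, ∀ x ∈ C', σ • x ∈ C') ∧ IsCompl C C' :=
  S14.result h3 V C ⟨⟨fun σ x hx => (hC σ x hx).symm ▸ hx, hC, hq, cardC, cardV, hur, hloc⟩, hopen⟩

/-- **Step 1: the Kummer generator.** If an extension as in `extension_splits` does not split, then the
field `K` of `p`-th roots of unity contains an integer `a`, not a `p`-th power, such that
`σ a = a ^ (m ^ 2)` up to the `p`-th power of an element of `K` whenever `σ ζ = ζ ^ m`, the ideal `(a)` is a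
`p`-th power (unramified outside `p`), and `a` is prime to `1 - ζ` and congruent to a rational integer
modulo `(1 - ζ) ^ 3` (split at `p`). Kummer theory over `K`; no completions. Proved in `H14Kummer`,
`H14Lift`, `H14Finite`, `H14Cyclo`, `H14AB`. -/
theorem exists_kummer_generator {p : ℕ} [Fact p.Prime] (h3 : 3 ≤ p) (V : Type) [AddCommGroup V]
    [Module (ZMod p) V] [DistribMulAction (AlgebraicClosure ℚ ≃ₐ[ℚ] AlgebraicClosure ℚ) V]
    [SMulCommClass (AlgebraicClosure ℚ ≃ₐ[ℚ] AlgebraicClosure ℚ) (ZMod p) V]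
    (C : Submodule (ZMod p) V) (h : ExtCitation.IsAdmissibleExtensionCts p V C)
    (hns : ¬ ExtCitation.SplitsGlobally C) :
    ∃ (K : Type) (_ : Field K) (_ : NumberField K) (_ : IsCyclotomicExtension {p} ℚ K)
      (ζ : 𝓞 K) (_ : IsPrimitiveRoot ζ p) (a : 𝓞 K),
      a ≠ 0 ∧ (∀ x : 𝓞 K, x ^ p ≠ a) ∧
      (∀ (σ : K ≃ₐ[ℚ] K) (m : ℕ), σ (ζ : K) = (ζ : K) ^ m →
        ∃ x : K, σ (a : K) = (a : K) ^ (m ^ 2) * x ^ p) ∧
      (∃ 𝔞 : Ideal (𝓞 K), Ideal.span {a} = 𝔞 ^ p) ∧
      ¬ (1 - ζ) ∣ a ∧ ∃ n : ℤ, (1 - ζ) ^ 3 ∣ a - (n : 𝓞 K) :=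
  H14.exists_kummer_generator h3 V C h hns

/-- For `p = 3` such an `a` does not exist, because the class number of `ℚ(ζ_3)` is one and the units
are `± ζ ^ k`. Proved in `H14Assembly`. -/
theorem no_kummer_generator_three {K : Type} [Field K] [NumberField K]
    [IsCyclotomicExtension {3} ℚ K] {ζ : 𝓞 K} (hζ : IsPrimitiveRoot ζ 3) (a : 𝓞 K)
    (ha : ∀ x : 𝓞 K, x ^ 3 ≠ a) (𝔞 : Ideal (𝓞 K)) (h𝔞 : Ideal.span {a} = 𝔞 ^ 3)
    (h1 : ¬ (1 - ζ) ∣ a) (n : ℤ) (hn : (1 - ζ) ^ 3 ∣ a - (n : 𝓞 K)) : False :=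
  H14.endgame_three hζ a ha 𝔞 h𝔞 h1 n hn

/-! ### Step 2a: class group L-series are bounded near `s = 1`

`∑ χ(I) N(I) ^ (-s)` is bounded for `1 < s ≤ 2` if `χ ≠ 1` is a character of the class group of a number
field `K`. No analytic continuation and no counting of lattice points in a domain with boundary:
the sum over the ideals of a class is a sum over lattice points modulo units, and the quotient by
the units is taken with a Lipschitz partition of unity. (Texts of helper76, note [218].) `mixedSpace K`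
is Mathlib's `ℝ ^ r₁ × ℂ ^ r₂`, `H76.emb` the embedding of `𝓞 K` in it. -/

/-- The tent function `max 0 (1 - |t|)` gives a partition of unity for the translations by `ℤ ^ ι`.
Proved in `H76Tent`. -/
theorem tent_partition_of_unity {ι : Type*} [Fintype ι] (x : ι → ℝ) :
    HasSum (fun k : ι → ℤ => ∏ i, max 0 (1 - |x i + (k i : ℝ)|)) 1 :=
  H76.hasSum_tents x

open scoped Classical in
/-- The weight `H76.wt`, unfolded: `N(y) ^ (-s)` times the product of the tents of the coordinates of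
the logarithm of `y` in the basis given by the unit lattice. By the previous theorem the sum of these
products over all `u y`, `u` a unit, is the number of roots of unity (`H76.hasSum_pou`). -/
theorem weight_eq (K : Type*) [Field K] [NumberField K] (s : ℝ) (y : mixedEmbedding.mixedSpace K) :
    H76.wt s y = (mixedEmbedding.norm y) ^ (-s) *
      ∏ i, max 0 (1 - |((Units.basisUnitLattice K).ofZLatticeBasis ℝ (Units.unitLattice K)).repr
        (mixedEmbedding.logMap y) i|) :=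
  rfl

open scoped Classical in
/-- The translation estimate: `|wt_s(β + c) - wt_s(β)| ≤ C ‖β‖ ^ (-(n + 1))` for all integers `β ≠ 0` of
`K`, `n = [K : ℚ]`, uniformly for `1 ≤ s ≤ 2`; this bound is summable. On the support of the weight all
archimedean absolute values are comparable, and there `wt_s` is Lipschitz. Proved in `H76Place`,
`H76Weight`, `H76Lattice`. -/
theorem weight_translation (K : Type*) [Field K] [NumberField K] (c : 𝓞 K) :
    ∃ C : ℝ, 0 ≤ C ∧ ∀ β : 𝓞 K, ∀ s : ℝ, 1 ≤ s → s ≤ 2 →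
      |H76.wt s (H76.emb (β + c)) - H76.wt s (H76.emb β)| ≤
        C * ((if β = 0 then 1 else 0) + (‖H76.emb β‖⁻¹) ^ (Module.finrank ℚ K + 1)) :=
  H76.exists_diff_bound c

/-- Regrouping by ideals. Let `J` be a nonzero ideal. The sum of `N(I) ^ (-s)` over the ideals `I` of the
class inverse to the class of `J` is `N(J) ^ s / w` times the sum of `wt_s(β)` over `β ∈ J`, `w` the number
of roots of unity (`β` generates `I J`). Proved in `H76Regroup`. -/
theorem sum_over_class (K : Type*) [Field K] [NumberField K]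
    (J : nonZeroDivisors (Ideal (𝓞 K))) {s : ℝ} (hs : 1 < s) :
    HasSum (fun I : {I : nonZeroDivisors (Ideal (𝓞 K)) //
          ClassGroup.mk0 I * ClassGroup.mk0 J = 1} =>
        (Ideal.absNorm (I.1 : Ideal (𝓞 K)) : ℝ) ^ (-s))
      ((Ideal.absNorm (J : Ideal (𝓞 K)) : ℝ) ^ s * (Units.torsionOrder K : ℝ)⁻¹ *
        ∑' β : (J : Ideal (𝓞 K)), H76.wt s (H76.emb (β : 𝓞 K))) :=
  H76.hasSum_invClass hs

/-- The main term does not depend on the class: the partial zeta function of every ideal class is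
`1 / w` times the sum of `wt_s` over `𝓞 K`, up to a function which is bounded for `1 < s ≤ 2`. (The sums
over the cosets of `J` in `𝓞 K` differ by bounded functions.) Proved in `H76ClassBound`. -/
theorem partial_zeta (K : Type*) [Field K] [NumberField K]
    (J : nonZeroDivisors (Ideal (𝓞 K))) :
    ∃ C : ℝ, 0 ≤ C ∧ ∀ s : ℝ, 1 < s ∧ s ≤ 2 →
      |(Ideal.absNorm (J : Ideal (𝓞 K)) : ℝ) ^ s * (Units.torsionOrder K : ℝ)⁻¹ *
          (∑' β : (J : Ideal (𝓞 K)), H76.wt s (H76.emb (β : 𝓞 K))) -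
        (Units.torsionOrder K : ℝ)⁻¹ * ∑' β : 𝓞 K, H76.wt s (H76.emb β)| ≤ C :=
  H76.exists_pz_bound J

/-- **Class group L-series are bounded near `s = 1`**: multiply the partial zeta functions by `χ` and sum
over the classes; the sum of the values of `χ` is zero. Proved in `H76ClassL`; also used for S47, S48. -/
theorem classGroup_LSeries_bounded (K : Type*) [Field K] [NumberField K]
    (χ : ClassGroup (𝓞 K) →* ℂˣ) (hχ : χ ≠ 1) :
    ∃ C : ℝ, ∀ s : ℝ, 1 < s → s ≤ 2 →
      ‖∑' I : nonZeroDivisors (Ideal (𝓞 K)), (χ (ClassGroup.mk0 I) : ℂ) *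
        (((Ideal.absNorm (I : Ideal (𝓞 K)) : ℝ) ^ (-s) : ℝ) : ℂ)‖ ≤ C :=
  H76.classLSeries_bounded K χ hχ

/-! ### Steps 2b to 6 -/

/-- **Step 2b: an auxiliary prime** (instead of Chebotarev's theorem). Let `K` contain the `p`-th roots
of unity, let `E` be an integer of `K` which is not a `p`-th power and `χ` a character of the class
group with bounded L-series. There are primes `P` of degree one, of arbitrarily large norm, with
`χ(P) ≠ 1` modulo which `E` is not a `p`-th power. One compares the sums of `N(P) ^ (-s)` for the zeta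
function of `K`, the L-series of `χ` and the zeta function of `K(E ^ (1 / p))` as `s → 1+`. Proved in
`H99PrimeSum`, `H45ClassL1`, `H45ClassL2`, `H45ClassL`. -/
theorem exists_auxiliary_prime (K : Type*) [Field K] [NumberField K] {p : ℕ} (hp : p.Prime)
    (h3 : 3 ≤ p) (ζ : 𝓞 K) (hζ : IsPrimitiveRoot ζ p) (E : 𝓞 K) (hE : E ≠ 0)
    (hEp : ∀ x : 𝓞 K, x ^ p ≠ E) (χ : ClassGroup (𝓞 K) →* ℂˣ)
    (hχ : ∃ C : ℝ, ∀ s : ℝ, 1 < s → s ≤ 2 →
      ‖∑' I : nonZeroDivisors (Ideal (𝓞 K)), (χ (ClassGroup.mk0 I) : ℂ) *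
        (((Ideal.absNorm (I : Ideal (𝓞 K)) : ℝ) ^ (-s) : ℝ) : ℂ)‖ ≤ C) (B : ℕ) :
    ∃ P : nonZeroDivisors (Ideal (𝓞 K)), (P : Ideal (𝓞 K)).IsPrime ∧
      (Ideal.absNorm (P : Ideal (𝓞 K))).Prime ∧ B < Ideal.absNorm (P : Ideal (𝓞 K)) ∧
      χ (ClassGroup.mk0 P) ≠ 1 ∧ ∀ x : 𝓞 K, x ^ p - E ∉ (P : Ideal (𝓞 K)) :=
  H45.exists_prime_char_ne_one_not_pow_of K hp h3 ζ hζ E hE hEp χ hχ B

/-- **Step 3a: a unit of norm one.** Let `q ≡ 1` modulo `p` be a prime, `K` the field of `p`-th roots of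
unity and `F` the field of `q`-th roots of unity over `K`. The norm of `1 - ζ_p ζ_q` from `F` to `K` is
`(1 - ζ_p ^ q) / (1 - ζ_p) = 1`, so Hilbert's Theorem 90 applies to it. Proved in `H64Thaine`. -/
theorem norm_one_sub_zeta {p q : ℕ} [Fact p.Prime] [Fact q.Prime] (hpq : q ≡ 1 [MOD p])
    {K F : Type*} [Field K] [NumberField K] [Field F] [NumberField F] [Algebra K F]
    [IsCyclotomicExtension {p} ℚ K] [IsCyclotomicExtension {q} K F]
    {z : K} (hz : IsPrimitiveRoot z p) {μ : F} (hμ : IsPrimitiveRoot μ q) :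
    Algebra.norm K (1 - algebraMap K F z * μ) = 1 :=
  H64.norm_one_sub hpq hz hμ

/-- **Step 3b: Thaine's theorem** for the number `1 - ζ`. Let `p` and `q` be primes, `p ∣ q - 1`. There
are `κ ≠ 0` in `𝓞 K`, an ideal `𝔟`, an integer `g` and exponents `r P`, one for each prime `P` above `q`,
with `(κ) = 𝔟 ^ p ∏ P ^ (r P)` and `1 - ζ ≡ g ^ (r P)` modulo `P`. (`primesOverFinset` is the finite set of
these primes.) If `ε = 1 - ζ_p ζ_q` and `ε σ(β) = β` with a generator `σ` of the Galois group of `F / K`,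
then `κ = N(β)`. Proved in `H64Ram`, `H64ThaineMain`, `H64ThaineC`. -/
theorem thaine {p q : ℕ} [Fact p.Prime] [Fact q.Prime] (hpq : p ∣ q - 1)
    (K : Type) [Field K] [NumberField K] [IsCyclotomicExtension {p} ℚ K]
    (ζ : 𝓞 K) (hζ : IsPrimitiveRoot ζ p) :
    ∃ (κ : 𝓞 K) (𝔟 : Ideal (𝓞 K)) (g : ℕ) (r : Ideal (𝓞 K) → ℕ), κ ≠ 0 ∧
      Ideal.span {κ} = 𝔟 ^ p *
        ∏ P ∈ IsDedekindDomain.primesOverFinset (Ideal.span {(q : ℤ)}) (𝓞 K), P ^ r P ∧
      ∀ P ∈ IsDedekindDomain.primesOverFinset (Ideal.span {(q : ℤ)}) (𝓞 K),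
        (1 - ζ) - (g : 𝓞 K) ^ r P ∈ P :=
  H64.thaine hpq K ζ hζ

/-- **Step 4a: the computation at `p`.** Let `p ≥ 5` and `E = ∏ (1 + ζ + ⋯ + ζ ^ (b - 1)) ^ (e b)` with
`e b ≡ 1 / b ^ 2` modulo `p`, `1 ≤ b < p`. If `E ^ k x ^ p` is congruent to a rational integer modulo
`(1 - ζ) ^ 3`, `x` prime to `1 - ζ`, then `p` divides `k`. Underneath is the sum of
`u ^ (-2) (u - 1) (u - 5)` over the units `u` modulo `p`, which is `-1` (in the literature:
`B_2 = 1 / 6 ≠ 0` modulo `p`). Proved in `H75LocalE`. -/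
theorem cyclotomicUnit_local {p : ℕ} [Fact p.Prime] (hp : 5 ≤ p)
    (K : Type) [Field K] [NumberField K] [IsCyclotomicExtension {p} ℚ K]
    (ζ : 𝓞 K) (hζ : IsPrimitiveRoot ζ p) (e : ℕ → ℕ)
    (he : ∀ b ∈ Finset.Ico 1 p, (e b : ZMod p) * (b : ZMod p) ^ 2 = 1)
    (k : ℕ) (x : 𝓞 K) (hx : ¬ (1 - ζ) ∣ x) (n : ℤ)
    (h : (1 - ζ) ^ 3 ∣
      (∏ b ∈ Finset.Ico 1 p, (∑ j ∈ Finset.range b, ζ ^ j) ^ e b) ^ k * x ^ p - (n : 𝓞 K)) :
    p ∣ k :=
  H75.local_E hp K ζ hζ e he k x hx n h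

/-- **Step 4b.** The cyclotomic unit `E` of step 4a lies in the same eigenspace as the element `a` of
`exists_kummer_generator`: `τ(E) = E ^ (u ^ 2)` up to `p`-th powers if `τ ζ = ζ ^ u`. (The isomorphism
`galEquivZMod` of Mathlib identifies the Galois group with `(ℤ / p)ˣ`.) Proved in `H14Assembly`. -/
theorem cyclotomicUnit_eigen {p : ℕ} [Fact p.Prime] {K : Type} [Field K] [NumberField K]
    [IsCyclotomicExtension {p} ℚ K] {ζ : 𝓞 K} (hζ : IsPrimitiveRoot ζ p) (h5 : 5 ≤ p)
    (u : (ZMod p)ˣ) :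
    ∃ y : K, (IsCyclotomicExtension.Rat.galEquivZMod p K).symm u
        ((∏ b ∈ Finset.Ico 1 p,
          (∑ j ∈ Finset.range b, ζ ^ j) ^ (((b : ZMod p)⁻¹) ^ 2).val : 𝓞 K) : K) =
      ((∏ b ∈ Finset.Ico 1 p,
          (∑ j ∈ Finset.range b, ζ ^ j) ^ (((b : ZMod p)⁻¹) ^ 2).val : 𝓞 K) : K) ^
        ((u : ZMod p).val ^ 2) * y ^ p :=
  H14.cycU_eigen hζ h5 u

/-- `E` is not a `p`-th power (`p ≥ 5`): apply step 4a with `k = 1`. Proved in `H14NoChar`. -/
theorem cyclotomicUnit_not_pow {p : ℕ} [Fact p.Prime] {K : Type} [Field K] [NumberField K]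
    [IsCyclotomicExtension {p} ℚ K] {ζ : 𝓞 K} (hζ : IsPrimitiveRoot ζ p) (h5 : 5 ≤ p) (x : 𝓞 K) :
    x ^ p ≠ ∏ b ∈ Finset.Ico 1 p,
      (∑ j ∈ Finset.range b, ζ ^ j) ^ (((b : ZMod p)⁻¹) ^ 2).val :=
  H14.cycU_not_pow hζ h5 x

/-- **Step 5: the `ω ^ 2`-part of the class group of `ℚ(ζ_p)` modulo `p` is trivial** (in the literature:
Herbrand's theorem and `B_2 = 1 / 6`, together with reflection). There is no nonzero homomorphism
`χ` from the class group to `𝔽_p` with `χ(τ_u c) = u ^ 2 χ(c)`. Choose `P` as in step 2b for `χ` and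
`E`; Thaine's ideal relation and `χ` show that the discrete logarithm of `E` modulo `P` is divisible by
`p`. Proved in `H14NoChar`. -/
theorem no_eigencharacter {p : ℕ} [Fact p.Prime] {K : Type} [Field K] [NumberField K]
    [IsCyclotomicExtension {p} ℚ K] {ζ : 𝓞 K} (hζ : IsPrimitiveRoot ζ p) (h5 : 5 ≤ p)
    (χ : Additive (ClassGroup (𝓞 K)) →+ ZMod p)
    (hχ : ∀ (u : (ZMod p)ˣ) (c : ClassGroup (𝓞 K)),
      χ (Additive.ofMul (ClassGroup.mulEquiv (MulSemiringAction.toRingEquiv (K ≃ₐ[ℚ] K) (𝓞 K)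
        ((IsCyclotomicExtension.Rat.galEquivZMod p K).symm u)) c)) =
        (u : ZMod p) ^ 2 * χ (Additive.ofMul c)) :
    χ = 0 :=
  H14.no_char hζ h5 (fun ψ hψ => H76.classLSeries_bounded K ψ hψ) χ hχ

/-- **Step 6a: duality.** If a finite abelian group has a nonzero element of order `p` on which an
endomorphism `T` acts by `m`, it has a nonzero homomorphism `χ` to `𝔽_p` with `χ ∘ T = m χ`. With step 5
it shows that the ideal `𝔞` of `exists_kummer_generator` is principal (its class is killed by `p` and lies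
in the eigenspace of step 5), so that `a` is a unit times a `p`-th power. Proved in `H75ExistsChar`. -/
theorem exists_eigencharacter (A : Type*) [AddCommGroup A] [Finite A] (p : ℕ) [Fact p.Prime]
    (T : A →+ A) (m : ℕ) (x : A) (hx : x ≠ 0) (hpx : p • x = 0) (hTx : T x = m • x) :
    ∃ χ : A →+ ZMod p, χ ≠ 0 ∧ ∀ a, χ (T a) = m • χ a :=
  H75.exists_char A p T m x hx hpx hTx

/-- **Step 6b: eigenspaces of units.** Let `σ` generate the Galois group of `ℚ(ζ_p)` and let `u` and `v` be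
units on which `σ` acts by `m`, up to `p`-th powers, where `m` is not the value for `ζ`. If `v` is not a
`p`-th power, then `u = v ^ k w ^ p`. (Dirichlet's unit theorem: the units modulo torsion are one copy of
each nontrivial even character.) With `v = E` and step 4a the element `a` is a `p`-th power, a
contradiction. Proved in `H46UnitEigen`. -/
theorem unit_eigenspace {p : ℕ} [Fact p.Prime] (hp : 3 ≤ p)
    (K : Type) [Field K] [NumberField K] [IsCyclotomicExtension {p} ℚ K]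
    (ζ : (𝓞 K)ˣ) (hζ : IsPrimitiveRoot ζ p)
    (σ : K ≃ₐ[ℚ] K) (hσ : ∀ τ : K ≃ₐ[ℚ] K, τ ∈ Subgroup.zpowers σ) (m : ℕ)
    (hm : ∀ x : K, σ (ζ : K) ≠ (ζ : K) ^ m * x ^ p)
    (u v : (𝓞 K)ˣ) (x y : K) (hu : σ (u : K) = (u : K) ^ m * x ^ p)
    (hv : σ (v : K) = (v : K) ^ m * y ^ p) (hv1 : ∀ w : (𝓞 K)ˣ, v ≠ w ^ p) :
    ∃ (k : ℕ) (w : (𝓞 K)ˣ), u = v ^ k * w ^ p :=
  H46U.unit_eigenspace hp K ζ hζ σ hσ m hm u v x y hu hv hv1

/-- **The end for `p ≥ 5`.** There is no element `a` as in `exists_kummer_generator`. Proved in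
`H14Assembly` from steps 4, 5 and 6. -/
theorem no_kummer_generator {p : ℕ} [Fact p.Prime] {K : Type} [Field K] [NumberField K]
    [IsCyclotomicExtension {p} ℚ K] {ζ : 𝓞 K} (hζ : IsPrimitiveRoot ζ p) (h5 : 5 ≤ p)
    (a : 𝓞 K) (ha0 : a ≠ 0) (hnp : ∀ x : 𝓞 K, x ^ p ≠ a)
    (hsig : ∀ (σ : K ≃ₐ[ℚ] K) (m : ℕ), σ (ζ : K) = (ζ : K) ^ m →
      ∃ x : K, σ (a : K) = (a : K) ^ (m ^ 2) * x ^ p)
    (𝔞 : Ideal (𝓞 K)) (h𝔞 : Ideal.span {a} = 𝔞 ^ p)
    (hπ : ¬ (1 - ζ) ∣ a) (n : ℤ) (hn : (1 - ζ) ^ 3 ∣ a - (n : 𝓞 K)) : False :=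
  H14.endgame_five hζ h5 (fun ψ hψ => H76.classLSeries_bounded K ψ hψ) a ha0 hnp hsig 𝔞 h𝔞 hπ n hn

end Fermat.Agent.Guide.FermatSmall
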