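import Fermat.Agent.H92CarD

/-!
# Reader's guide to the block CARAYOL: from inertia invariants to functions, step by step

Companion of `GuideCarayol` (theorems 2, 3 and 6) and of `GuideCarayolTools` (section A, theorems 1
to 10): the steps inside those theorems.  Every theorem of this file is proved by citing the library;
the file is imported only by the list `Guide`.

**The chain.**  What is needed about `J₀(q² m)`, `q ∤ m`, is a bound for the points `x` of `p`-power
order which are fixed by the inertia group `I` of a place above `q` and are killed by the two push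
forward maps to `J₀(q m)` (`H35.FixedInput p q (m q)`).  It is deduced from a statement on functions
over a field `K` of constants which contains the fixed field of `I` (`H92.CoreK`, proved with the
models of `GuideCarayol`):

* a point `x` killed by `d = p ^ n` is represented by a function `u` with divisor `d D`, `D` in the
  class `x`, with leading coefficient one (section 3); it can be chosen fixed by all automorphisms
  which fix `x` (`GuideCarayolTools`, 4), so by `I`;
* the norms of `u` to level `q m` are constants times `d`-th powers, because the push forwards of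
  `x` are zero, and the `d`-th roots and the constants are fixed by `I` (section 4);
* so `u`, the roots and the constants come from `K`.  The divisor of `u` is divisible by `d` over
  `K` too, because an algebraic extension of the constants is unramified (sections 1 and 2), and the
  norms commute with the extension (section 6);
* `CoreK` says that `u ^ C` is a constant times a `d`-th power, so `C x = 0`; and `x` is then killed
  by a power of `p` which depends only on `C` (`bounded_exponent`);
* the level may be multiplied by `4` or `9` (section 5).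

**Sections.**  1. A place above a place.  2. Constant extensions of modular function fields.
3. Leading coefficients and functions representing torsion classes.  4. Push forwards and norms.
5. The auxiliary level.  6. The conclusion.

**Notation.**  `H99.FX L N` is the function field of `X₀(N)` over `L`, a subfield of `L((q))`;
`H90.baseIncl L L' _` is the inclusion of function fields given by an extension `L' / L` of the
constants; `arithmeticGalois _ σ` is the action of `σ` on the coefficients of `q`-expansions.

**Used in** the proofs of S01, S03, S04, S06, S36, S38, S43, S45, S46, S50, S58, S59 and S60, through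
`GuideCarayol`, theorem 30; `normalisation` and most of `isRep_iff` and `leading_coefficients` also in
those of S39, S40 and S44.
`NOTES.md`: [130].  Files by helper92 (`H92CarOrd`, `H92CarBase`, `H92CarAux`, `H92CarB`, `H92CarC`,
`H92CarD`) and helper40 (`H40Rep`).  Text: helper92.
-/

set_option autoImplicit false

namespace Fermat.Agent.Guide.FixedFunctions

open ModularCurve AlgebraicCurve Polynomial
open scoped IntermediateField

/-- The field of algebraic numbers. -/
local notation "ℚbar" => AlgebraicClosure ℚ

/-! ## 1. A place above a place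

`K' / K` are fields of characteristic zero, `F` is a function field over `K` and `F' ⊃ F` one over
`K'`; `H92.Above P v`: the valuation ring of the place `P` of `F / K` is the trace on `F` of the
valuation ring of the place `v` of `F' / K'`. -/

section Places

variable {K K' F F' : Type*} [Field K] [Field K'] [Field F] [Field F'] [Algebra K K'] [Algebra K F]
  [Algebra K' F'] [Algebra F F'] [Algebra K F'] [IsScalarTower K K' F'] [IsScalarTower K F F']
  {P : Place K F} {v : Place K' F'}

/-- **The ramification index.**  Let `v` lie above `P` and let `π` be a uniformiser of `P`.  Then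
`v(π) > 0`, and `v(f) = P(f) v(π)` for all `f ∈ F`; in particular `v(f) = 0` if `P(f) = 0`.
File: `H92CarOrd`. -/
theorem ramification_index (h : H92.Above P v) {π : F} (hπ : P.ord π = 1) :
    0 < v.ord (algebraMap F F' π) ∧
      (∀ f : F, v.ord (algebraMap F F' f) = P.ord f * v.ord (algebraMap F F' π)) ∧
      ∀ f : F, P.ord f = 0 → v.ord (algebraMap F F' f) = 0 :=
  ⟨h.ord_pos hπ, fun f => h.ord_algebraMap hπ f, fun _ hf => h.ord_eq_zero hf⟩

/-- **The inclusion of the valuation rings** `h.incl : O_P → O_v` is local: an element of `O_P` which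
is a unit of `O_v` is a unit.  For `α ∈ K'` the map `h.ev α : O_P[X] → O_v` is the evaluation at `α`;
it vanishes at the polynomials over `K` with `g(α) = 0`, and modulo the maximal ideals it is the
evaluation at the residue of `α`.  File: `H92CarOrd`. -/
theorem evaluation (h : H92.Above P v) (α : K') :
    (∀ x : P.toValuationSubring, IsUnit (h.incl x) → IsUnit x) ∧
      (∀ x : P.toValuationSubring, ((h.incl x : v.toValuationSubring) : F') = algebraMap F F' x) ∧
      (∀ X : P.toValuationSubring[X], h.ev α X =
        eval₂ h.incl (algebraMap K' v.toValuationSubring α) X) ∧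
      (∀ g : K[X], aeval α g = 0 → h.ev α (g.map (algebraMap K P.toValuationSubring)) = 0) ∧
      ∀ X : P.toValuationSubring[X], IsLocalRing.residue v.toValuationSubring (h.ev α X) =
        eval₂ (IsLocalRing.ResidueField.map h.incl) (IsLocalRing.residue v.toValuationSubring
          (algebraMap K' v.toValuationSubring α))
          (X.map (IsLocalRing.residue P.toValuationSubring)) :=
  ⟨fun _ hx => h.isUnit_of_incl hx, fun _ => rfl, fun _ => rfl, fun g hg => h.ev_minpoly α g hg,
    fun X => h.residue_ev α X⟩

/-- **The key lemma.**  Let `K` have characteristic zero, `α ∈ K'` integral over `K`, `ϖ` a prime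
element of `O_P`.  There is a unit `y` of `O_v` such that `b y ∈ ϖ O_P[α]` for every `b ∈ O_P[α]`
which is not a unit of `O_v`.  Proof: the minimal polynomial `g` of `α` over `K` is separable, so it
has no multiple factors over the residue field of `P`; there `g = g₁ g₂`, `g₁` the minimal polynomial
of the residue of `α`.  Take `y = G₂(α)` for a lift `G₂` of `g₂`: if `X(α)` has residue zero, then
`g₁` divides `X` modulo `ϖ`, so `X G₂ = g C + ϖ R`.  File: `H92CarOrd`. -/
theorem key_lemma (h : H92.Above P v) [CharZero K] {α : K'} (hα : IsIntegral K α)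
    {ϖ : P.toValuationSubring} (hϖ : Irreducible ϖ) :
    ∃ y : v.toValuationSubring, IsUnit y ∧ ∀ X : P.toValuationSubring[X],
      ¬ IsUnit (h.ev α X) → ∃ R : P.toValuationSubring[X],
        h.ev α X * y = h.incl ϖ * h.ev α R :=
  h.exists_unit hα hϖ

/-- **Orders of polynomials in `α`.**  So the order at `v` of a nonzero element `b` of `O_P[α]` is a
multiple of `v(ϖ)` (replace `b` by `b y / ϖ` until it is a unit), and with a denominator in `O_P` the
same holds for the elements of `F[α]`.  If these are all elements of `F'` (for varying `α`), one of them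
is a uniformiser of `v`, so `v(ϖ) = 1`: this is `GuideCarayolTools`, 2.  File: `H92CarOrd`. -/
theorem dvd_order (h : H92.Above P v) [CharZero K] {α : K'} (hα : IsIntegral K α) :
    (∀ {ϖ : P.toValuationSubring}, Irreducible ϖ → ∀ X : P.toValuationSubring[X],
      h.ev α X ≠ 0 → v.ord (algebraMap F F' ϖ) ∣ v.ord (h.ev α X : F')) ∧
    ∀ {π : F}, P.ord π = 1 → ∀ Z : F[X],
      v.ord (algebraMap F F' π) ∣ v.ord (aeval (algebraMap K' F' α) Z) :=
  ⟨fun hϖ X hX => h.dvd_ord_ev hα hϖ X hX, fun hπ Z => h.dvd_ord_aeval hα hπ Z⟩

end Places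

/-! ## 2. Constant extensions of modular function fields -/

/-- **Two constants are polynomials in a third one** (primitive element), `K' / K` algebraic of
characteristic zero.  File: `H92CarBase`. -/
theorem common_constant {K K' : Type*} [Field K] [Field K'] [Algebra K K'] [CharZero K]
    [Algebra.IsIntegral K K'] (α β : K') :
    ∃ (γ : K') (p r : K[X]), aeval γ p = α ∧ aeval γ r = β :=
  H92.exists_common α β

/-- **Elements of `F K'`.**  Hence every element of the subalgebra of `F'` generated by `F` and the
constants `K'` is a polynomial over `F` in one constant.  File: `H92CarBase`. -/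
theorem polynomial_in_one_constant {K K' F F' : Type*} [Field K] [Field K'] [Field F] [Field F']
    [Algebra K K'] [Algebra K F] [Algebra K' F'] [Algebra F F'] [Algebra K F']
    [IsScalarTower K K' F'] [IsScalarTower K F F'] [CharZero K] [Algebra.IsIntegral K K'] {z : F'}
    (hz : z ∈ Algebra.adjoin F (Set.range (algebraMap K' F'))) :
    ∃ (α : K') (Z : F[X]), z = aeval (algebraMap K' F' α) Z :=
  H92.exists_aeval_of_mem (K := K) hz

/-- **Modular function fields.**  `F₀` is a field of Laurent series over `ℚ`, `L₀ ⊂ L₁` an algebraic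
extension; `laurentBaseChange L F₀` is the field generated by `L` and `F₀` in `L((q))`, and
`H90.baseIncl L₀ L₁ F₀` the inclusion.  It maps constants to constants, and the field over `L₁` is
generated, as an algebra, by the one over `L₀` and `L₁` (the elements of `L₁` are algebraic over
it).  File: `H92CarBase`. -/
theorem generated_by_constants {L₀ L₁ : Type*} [Field L₀] [Field L₁] [Algebra L₀ L₁]
    [Algebra ℚ L₀] [Algebra ℚ L₁] (F₀ : IntermediateField ℚ (LaurentSeries ℚ)) :
    (∀ a : L₀, H90.baseIncl L₀ L₁ F₀ (algebraMap L₀ _ a) = algebraMap L₁ _ (algebraMap L₀ L₁ a)) ∧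
    ∀ [Algebra.IsIntegral L₀ L₁] (z : laurentBaseChange L₁ F₀),
      letI := (H90.baseIncl L₀ L₁ F₀).toAlgebra
      z ∈ Algebra.adjoin (laurentBaseChange L₀ F₀)
        (Set.range (algebraMap L₁ (laurentBaseChange L₁ F₀))) :=
  ⟨fun a => H92.baseIncl_algebraMap F₀ a, fun z => H92.mem_adjoin_baseIncl F₀ z⟩

/-- **A place above with the same order function.**  For every place `P` over `L₀` there is a place
`v` over `L₁` with `v(f) = P(f)` for the functions `f` over `L₀` (`GuideCarayolTools`, 1 and 2, with
the two preceding theorems).  So divisibility of divisors descends (`GuideCarayolTools`, 3).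
File: `H92CarBase`. -/
theorem place_above {L₀ L₁ : Type*} [Field L₀] [Field L₁] [Algebra L₀ L₁] [Algebra ℚ L₀]
    [Algebra ℚ L₁] (F₀ : IntermediateField ℚ (LaurentSeries ℚ)) [Algebra.IsIntegral L₀ L₁]
    [H3RR.IsFF L₁ (laurentBaseChange L₁ F₀)] (P : Place L₀ (laurentBaseChange L₀ F₀)) :
    ∃ v : Place L₁ (laurentBaseChange L₁ F₀), ∀ f : laurentBaseChange L₀ F₀,
      v.ord (H90.baseIncl L₀ L₁ F₀ f) = P.ord f :=
  H92.exists_place_baseIncl F₀ P

/-! ## 3. Leading coefficients and functions representing torsion classes

`H40.lc u` is the leading coefficient of the `q`-expansion of `u`.  `H40.IsRep n x u`: `u` has leading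
coefficient `1` and divisor `n D` for a divisor `D` of degree zero in the class `x`. -/

section Representatives

variable {L : Type*} [Field L] [Algebra ℚ L] {F₀ : IntermediateField ℚ (LaurentSeries ℚ)}

/-- **Leading coefficients** are multiplicative, nonzero for `u ≠ 0`, and Galois automorphisms act on
them as on the other coefficients.  File: `H40Rep`. -/
theorem leading_coefficients (u w : laurentBaseChange L F₀) (a : L) (n : ℕ) (σ : L ≃ₐ[ℚ] L) :
    H40.lc (u * w) = H40.lc u * H40.lc w ∧ H40.lc (u ^ n) = H40.lc u ^ n ∧
      H40.lc (algebraMap L (laurentBaseChange L F₀) a) = a ∧ (u ≠ 0 → H40.lc u ≠ 0) ∧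
      H40.lc (arithmeticGalois F₀ σ • u) = σ (H40.lc u) :=
  ⟨H40.lc_mul u w, H40.lc_pow u n, H40.lc_algebraMap a, H40.lc_ne_zero, H40.lc_galois σ u⟩

/-- **The leading coefficient decides**: two nonzero functions with the same divisor and the same
leading coefficient are equal.  Here, and wherever `IsAlgClosed L` is assumed below, one uses that a
function without zeros and poles is constant.  (`hinf`: some function has an expansion of order one.)
File: `H40Rep`. -/
theorem leading_coefficient_decides [IsAlgClosed L] [H3RR.IsFF L (laurentBaseChange L F₀)]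
    (hinf : ∃ x ∈ F₀, x.order = 1) {u v : laurentBaseChange L F₀} (hu : u ≠ 0) (hv : v ≠ 0)
    (h : ∀ P : Place L (laurentBaseChange L F₀), P.ord u = P.ord v) (hlc : H40.lc u = H40.lc v) :
    u = v :=
  H40.eq_of_ord_eq_of_lc_eq hinf hu hv h hlc

/-- **The definition.**  File: `H40Rep`. -/
theorem isRep_iff (n : ℕ) (x : Pic0 L (laurentBaseChange L F₀)) (u : laurentBaseChange L F₀) :
    H40.IsRep n x u ↔ u ≠ 0 ∧ H40.lc u = 1 ∧
      ∃ D : Divisor.degZero (K := L) (F := laurentBaseChange L F₀), Pic0.mk D = x ∧
        ∀ v : Place L (laurentBaseChange L F₀), v.ord u = n * (D : Divisor L _) v :=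
  ⟨fun h => ⟨h.ne_zero, h.lc_eq, h.exists_div⟩, fun h => ⟨h.1, h.2.1, h.2.2⟩⟩

/-- **Rules**: products represent sums, `1` represents `0`, and the orders of a representative are
divisible by `n`.  File: `H40Rep`. -/
theorem rules_for_representatives (n : ℕ) :
    H40.IsRep n (0 : Pic0 L (laurentBaseChange L F₀)) 1 ∧
    ∀ {x : Pic0 L (laurentBaseChange L F₀)} {u : laurentBaseChange L F₀}, H40.IsRep n x u →
      (∀ {y : Pic0 L (laurentBaseChange L F₀)} {w : laurentBaseChange L F₀},
        H40.IsRep n y w → H40.IsRep n (x + y) (u * w)) ∧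
      (∀ k : ℕ, H40.IsRep n (k • x) (u ^ k)) ∧
      ∀ v : Place L (laurentBaseChange L F₀), (n : ℤ) ∣ v.ord u :=
  ⟨H40.isRep_zero, fun h => ⟨fun h' => h.mul h', fun k => h.pow k, fun v => h.dvd_ord v⟩⟩

/-- **Existence.**  Every class killed by `n` is represented: `n D` is the divisor of a function `u₀`,
divide it by its leading coefficient.  If a semilinear automorphism multiplies `u₀` by a constant,
then it fixes the normalised function: this is why no cohomology is needed for the existence of an
invariant representative (`GuideCarayolTools`, 4).  File: `H40Rep`. -/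
theorem normalisation [IsAlgClosed L] [H3RR.IsFF L (laurentBaseChange L F₀)] {n : ℕ}
    {D : Divisor.degZero (K := L) (F := laurentBaseChange L F₀)} :
    (n • Pic0.mk D = 0 → ∃ u₀ : laurentBaseChange L F₀, u₀ ≠ 0 ∧
      ∀ v : Place L (laurentBaseChange L F₀), v.ord u₀ = n * (D : Divisor L _) v) ∧
    (∀ {u₀ : laurentBaseChange L F₀}, u₀ ≠ 0 →
      (∀ v : Place L (laurentBaseChange L F₀), v.ord u₀ = n * (D : Divisor L _) v) →
      H40.IsRep n (Pic0.mk D) (algebraMap L (laurentBaseChange L F₀) (H40.lc u₀)⁻¹ * u₀)) ∧
    ∀ {u : laurentBaseChange L F₀}, u ≠ 0 → ∀ {σ : L ≃ₐ[ℚ] L} {c : L},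
      arithmeticGalois F₀ σ • u = algebraMap L _ c * u →
      arithmeticGalois F₀ σ • (algebraMap L (laurentBaseChange L F₀) (H40.lc u)⁻¹ * u) =
        algebraMap L (laurentBaseChange L F₀) (H40.lc u)⁻¹ * u :=
  ⟨fun h => H40.exists_function_of_nsmul h, fun h h' => H40.isRep_normalise h h',
    fun hu _ _ hc => H40.galois_eq_of_const hu hc⟩

/-- **Two representatives** of the same class differ by the `n`-th power of a function with leading
coefficient one.  File: `H40Rep`. -/
theorem two_representatives [IsAlgClosed L] [H3RR.IsFF L (laurentBaseChange L F₀)]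
    (hinf : ∃ x ∈ F₀, x.order = 1) {n : ℕ} {x : Pic0 L (laurentBaseChange L F₀)}
    {u w : laurentBaseChange L F₀} (hx : H40.IsRep n x u) (hw : H40.IsRep n x w) :
    ∃ g : laurentBaseChange L F₀, H40.lc g = 1 ∧ w = u * g ^ n :=
  hx.exists_mul_pow hinf hw

/-- **The class is zero if and only if the representative is an `n`-th power** (`n ≠ 0`).
File: `H40Rep`. -/
theorem power_iff_trivial [IsAlgClosed L] [H3RR.IsFF L (laurentBaseChange L F₀)]
    (hinf : ∃ x ∈ F₀, x.order = 1) {n : ℕ} (hn : n ≠ 0) {x : Pic0 L (laurentBaseChange L F₀)}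
    {u : laurentBaseChange L F₀} (hx : H40.IsRep n x u) :
    x = 0 ↔ ∃ g : laurentBaseChange L F₀, H40.lc g = 1 ∧ u = g ^ n := by
  constructor
  · rintro rfl
    exact hx.exists_pow_of_zero hinf
  · rintro ⟨g, -, hg⟩
    exact hx.eq_zero_of_pow hn hg

end Representatives

/-! ## 4. Push forwards and norms

`H60.normAlong φ` is the norm of the extension given by the embedding `φ` of fields, `H67.dg L a h`,
`M a ∣ N`, the embedding `f(t) ↦ f(t^a)` of the function field of `X₀(M)` into the one of `X₀(N)`,
and `degPush a h`, `degPull a h` the maps between `J₀(N)` and `J₀(M)` which it induces. -/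

/-- **A function of order one** at the cusp `∞` of `X₀(N)`: `1/j`.  File: `H92CarB`. -/
theorem exists_order_one (N : ℕ) [NeZero N] :
    ∃ x ∈ modularFunctionFieldFull N, x.order = 1 :=
  H92.exists_order_one_full N

/-- **Norms are equivariant.**  If semilinear automorphisms `g` of `F` and `g'` of `F'` are
compatible with the embedding `φ : F → F'`, then `N(g' z) = g N(z)`.  File: `H92CarB`. -/
theorem norm_equivariant {K F F' : Type*} [Field K] [Field F] [Field F'] [Algebra K F]
    [Algebra K F'] (g : SemilinearAut K F) (g' : SemilinearAut K F') (φ : F →ₐ[K] F')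
    (h : ∀ x : F, g' • φ x = φ (g • x)) (z : F') :
    H60.normAlong φ (g' • z) = g • H60.normAlong φ z :=
  H92.normAlong_smul g g' φ h z

/-- **Roots of invariants are invariant.**  Let `g`, `h` have leading coefficient one and
`g ^ d = h ^ d`.  Then `g = h` (the quotient is a constant).  Therefore, if `v` is fixed by `σ` and
`v / lc(v) = g ^ d` with `lc(g) = 1`, then `g` is fixed by `σ`.  File: `H92CarB`. -/
theorem roots_of_invariants {L : Type*} [Field L] [Algebra ℚ L] [IsAlgClosed L]
    {F₀ : IntermediateField ℚ (LaurentSeries ℚ)} {d : ℕ} (hd : d ≠ 0)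
    {g : laurentBaseChange L F₀} (hg : H40.lc g = 1) :
    (∀ {h : laurentBaseChange L F₀}, H40.lc h = 1 → g ^ d = h ^ d → g = h) ∧
    ∀ {v : laurentBaseChange L F₀},
      algebraMap L (laurentBaseChange L F₀) (H40.lc v)⁻¹ * v = g ^ d →
      ∀ {σ : L ≃ₐ[ℚ] L}, arithmeticGalois F₀ σ • v = v → arithmeticGalois F₀ σ • g = g :=
  ⟨fun hh hgh => H92.eq_of_pow_eq_of_lc hd hg hh hgh,
    fun hgv _ hσ => H92.smul_eq_of_pow hd hg hgv hσ⟩

/-- **Norms of representatives.**  Let `u` represent the point `x` of `J₀(N)`, with divisor `d D`, be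
fixed by the group `I`, and let the push forward of `x` to `J₀(M)` be zero.  Then the norm of `u` is
a constant times a `d`-th power, both fixed by `I` (`H92.IsPowInv`, written out): its divisor is
`d` times the push forward of `D`, a principal divisor; divide by the leading coefficient, take the
root (`power_iff_trivial`) and apply the two preceding theorems.  File: `H92CarB`. -/
theorem norm_of_representative {M N : ℕ} [NeZero M] [NeZero N] {a : ℕ} [NeZero a] (h : M * a ∣ N)
    {d : ℕ} (hd : d ≠ 0) {I : Subgroup (ℚbar ≃ₐ[ℚ] ℚbar)} {x : JZero N} {u : H99.FX ℚbar N}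
    (hu : H40.IsRep d x u)
    (hI : ∀ σ ∈ I, arithmeticGalois (modularFunctionFieldFull N) σ • u = u)
    (hx : H67.degPush a h x = 0) :
    ∃ (g : H99.FX ℚbar M) (c : ℚbar),
      (∀ σ ∈ I, arithmeticGalois (modularFunctionFieldFull M) σ • g = g) ∧
      (∀ σ ∈ I, σ c = c) ∧ H60.normAlong (H67.dg ℚbar a h) u = algebraMap ℚbar _ c * g ^ d :=
  H92.isPowInv_norm h hd hu hI hx

/-- **The exponent is bounded.**  An element killed by some power of `p` and by the integer `c ≠ 0` is
killed by the largest power of `p` which divides `c`.  File: `H92CarAux`. -/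
theorem bounded_exponent {J : Type*} [AddCommGroup J] {p : ℕ} (hp : p.Prime) {c : ℕ}
    (hc : c ≠ 0) {x : J} {n : ℕ} (hx : p ^ n • x = 0) (h : c • x = 0) :
    p ^ (c.factorization p) • x = 0 :=
  H92.pow_smul_eq_zero_of_smul hp hc hx h

/-! ## 5. The auxiliary level

Let `m ∣ m'` and `q ∤ m'`.  The function field of `X₀(q² m')` is the tensor product of those of
`X₀(q m')` and `X₀(q² m)` over the one of `X₀(q m)`, for both degeneracy maps.  `H66.J K d` is the
expansion of `j(d τ)` over `K`. -/

/-- **Generators of the function field of level `q² m'`.**  A field `T` of Laurent series over `K`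
which contains the functions `j(a d τ)` for all `d ∣ q m'` (`a = 1` or `q`) and `j(e τ)` for all
`e ∣ q² m` contains `j(d τ)` for all `d ∣ q² m'`.  The intermediate steps are: from `j` and the
`j(q d τ)`, `d ∣ m'`, one gets the `j(d τ)`, and from `j(q² τ)` and the `j(q d τ)` the
`j(q² d τ)`, one prime factor of `d` at a time.  (`K` contains enough roots of unity; prime numbers
are invertible in `K`.)  File: `H92CarAux`. -/
theorem generators {K : Type*} [Field K] (hK : H66.HasRoots K)
    (hchar : ∀ p : ℕ, p.Prime → (p : K) ≠ 0) (T : IntermediateField K (LaurentSeries K))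
    {m' q : ℕ} (hm' : m' ≠ 0) (hq : q.Prime) :
    (H66.J K 1 ∈ T → (∀ d, d ∣ m' → H66.J K (q * d) ∈ T) → ∀ d, d ∣ m' → H66.J K d ∈ T) ∧
    (¬ q ∣ m' → H66.J K (q * q) ∈ T → (∀ d, d ∣ m' → H66.J K (q * d) ∈ T) →
      ∀ d, d ∣ m' → H66.J K (q * (q * d)) ∈ T) ∧
    ∀ {m a : ℕ}, ¬ q ∣ m' → a = 1 ∨ a = q → (∀ d, d ∣ m' * q → H66.J K (a * d) ∈ T) →
      (∀ e, e ∣ m * q * q → H66.J K e ∈ T) → ∀ d, d ∣ m' * q * q → H66.J K d ∈ T :=
  ⟨fun h0 h1 => H92.J_mem_aux_low hK hchar T hm' hq h0 h1,
    fun hqm' h0 h1 => H92.J_mem_aux_sq hK hchar T hm' hq hqm' h0 h1,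
    fun hqm' ha h1 h2 => H92.J_mem_aux hK hchar T hm' hq hqm' ha h1 h2⟩

/-- **The two fields generate.**  Hence the function field of `X₀(q² m')` over `ℚbar` is generated by
the images of those of `X₀(q m')` (under `t ↦ t^a`, `a = 1` or `q`) and of `X₀(q² m)`.
File: `H92CarAux`. -/
theorem composite {m m' q a : ℕ} [NeZero m] [NeZero m'] [NeZero q] [NeZero (m * q)]
    [NeZero (m' * q)] [NeZero (m * q * q)] [NeZero (m' * q * q)] [NeZero a] (hq : q.Prime)
    (hqm' : ¬ q ∣ m') (ha : a = 1 ∨ a = q) (h1 : m' * q * a ∣ m' * q * q)
    (h2 : m * q * q * 1 ∣ m' * q * q) :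
    Subfield.closure (Set.range (H67.dg ℚbar a h1) ∪ Set.range (H67.dg ℚbar 1 h2)) = ⊤ :=
  H92.square_gen_aux hq hqm' ha h1 h2

/-- **Base change for the degeneracy maps.**  Pull back from level `q m` to `q m'` after push forward
from `q² m` to `q m`, along one of the two degeneracy maps (`a = 1` or `a = q`), equals push forward
from `q² m'` to `q m'`, along the same map, after pull back from `q² m` to `q² m'`.  (The coverings
from level `q² m` to `q m` and from `q² m'` to `q m'` have the same degree `q`, so by the preceding
theorem the square of function fields is a tensor product.)  File: `H92CarAux`. -/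
theorem base_change {m m' q a : ℕ} [NeZero m] [NeZero m'] [NeZero q] [NeZero (m * q)]
    [NeZero (m' * q)] [NeZero (m * q * q)] [NeZero (m' * q * q)] [NeZero a] (hq : q.Prime)
    (hqm' : ¬ q ∣ m') (ha : a = 1 ∨ a = q) (hmm : m * q * 1 ∣ m' * q)
    (h0 : m * q * a ∣ m * q * q) (h1 : m' * q * a ∣ m' * q * q) (h2 : m * q * q * 1 ∣ m' * q * q)
    (x : JZero (m * q * q)) :
    H67.degPull 1 hmm (H67.degPush a h0 x) = H67.degPush a h1 (H67.degPull 1 h2 x) :=
  H92.degPull_degPush_aux hq hqm' ha hmm h0 h1 h2 x

/-! ## 6. The conclusion -/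

/-- **The norm along `α` commutes with extension of the constants**: a basis of the function field of
`X₀(N ℓ)` over the one of `X₀(N)`, over the constants `L`, is also one over `L'` (theorem 14 of
`GuideThreeSheets`, which also has the trace).  For `β` see `norm_beta`.  File: `H99Base2`
(helper99). -/
theorem norm_alpha {L L' : Type*} [Field L] [Field L'] [Algebra ℚ L] [Algebra ℚ L'] [Algebra L L']
    (N ℓ : ℕ) [NeZero N] [NeZero ℓ] (z : H99.FX L (N * ℓ)) :
    H60.normAlong (heckeAlphaBar L' N ℓ) (H90.baseIncl L L' _ z) =
      H90.baseIncl L L' _ (H60.normAlong (heckeAlphaBar L N ℓ) z) :=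
  H99.baseIncl_normAlong N ℓ z

/-- **The norm along `β`.**  Let `w`, `w₂` be the Atkin-Lehner involutions at `q` of levels `q m` and
`q² m` (`H99.AL`, `H99.AL2`); `w₂` carries the embedding `α` composed with `w` into `β`.  So
`N_β(w₂ z) = w N_α(z)`, and with `norm_alpha` one gets the base change for `β`
(`GuideCarayolTools`, 6).  File: `H92CarD`. -/
theorem norm_beta {L : Type*} [Field L] [Algebra ℚ L] {m q : ℕ} [NeZero m] [NeZero q]
    (w : H99.AL L m q) (w₂ : H99.AL2 L m q w) (z : H99.FX L (m * q * q)) :
    H60.normAlong (heckeBetaBar L (m * q) q) (w₂.W₂ z) =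
      w.W (H60.normAlong (heckeAlphaBar L (m * q) q) z) :=
  H92.normAlong_beta_eq w w₂ z

/-- **The bound from the statement on functions**, for any field `K` of constants which contains the
fixed field of the inertia group of a place `A` above `q`, and a multiple `m'` of `m` prime to `q`:
sections 1 to 5 together.  For the inertia field itself this is theorem 6 of `GuideCarayol`.
File: `H92CarD`. -/
theorem fixed_input {p q m m' : ℕ} [NeZero m] [NeZero m'] [NeZero q] [NeZero (m * q)]
    [NeZero (m' * q)] [NeZero (m * q * q)] [NeZero (m' * q * q)]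
    (hp : p.Prime) (hq : q.Prime) (hqm' : ¬ q ∣ m') (hmm : m ∣ m')
    (A : ValuationSubring ℚbar) (hA : A.LiesOverPrime q)
    (K : Type*) [Field K] [Algebra ℚ K] [Algebra K ℚbar] [Algebra.IsIntegral K ℚbar]
    (hK : ∀ a : ℚbar, (∀ σ ∈ A.inertiaSubgroupIn ℚ, σ a = a) → ∃ c : K, algebraMap K ℚbar c = a)
    {C : ℕ} (hC : C ≠ 0) (hcore : ∀ n : ℕ, H92.CoreK K m' q (p ^ n) C) :
    H35.FixedInput p q (m * q) :=
  H92.fixedInput_of_coreK hp hq hqm' hmm A hA K hK hC hcore

end Fermat.Agent.Guide.FixedFunctions
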