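import Fermat.Agent.H53Cond6

set_option autoImplicit false
set_option linter.style.haveILetI false
set_option linter.unusedSectionVars false

noncomputable section

open scoped TensorProduct
open IsLocalRing GaloisRep

namespace Fermat.Agent.H53

/-- elements of inertia above `p` on which the mod `p` cyclotomic character is nontrivial -/
theorem exists_tau (p : ℕ) [Fact p.Prime] (hp2 : p ≠ 2)
    (P : ValuationSubring (AlgebraicClosure ℚ)) (hP : P.LiesOverPrime p) :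
    ∃ τ ∈ P.inertiaSubgroupIn ℚ, ExtCitation.cycloChar p τ ≠ 1 := by
  by_contra hcon
  push Not at hcon
  have hp : p.Prime := Fact.out
  have hNe : NeZero p := ⟨hp.ne_zero⟩
  have hopen : IsOpen ((ExtCitation.cycloChar p).ker : Set GQ) := H63.isOpen_ker_cycloChar
  have key := H63.eq_one_of_isOpen_ker (ExtCitation.cycloChar p) hopen (fun q hq => by
    by_cases hqp : q = p
    · subst hqp
      exact ⟨P, hP, hcon⟩
    · obtain ⟨A, hA⟩ := H63.exists_liesOverPrime (AlgebraicClosure ℚ) hq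
      exact ⟨A, hA, fun σ hσ => H63.cycloChar_eq_one_of_mem_inertia hq hqp hA hσ⟩)
  obtain ⟨ζ, -, hζ⟩ := H63.exists_primitiveRoot p
  have hfix : ∀ σ : GQ, σ (ζ : AlgebraicClosure ℚ) = ζ := by
    intro σ
    rw [H63.apply_of_pow_eq_one p σ hζ.pow_eq_one, key]
    have h1 : ((1 : (ZMod p)ˣ) : ZMod p).val = 1 := by
      haveI : Fact (1 < p) := ⟨hp.one_lt⟩
      rw [Units.val_one, ZMod.val_one]
    rw [MonoidHom.one_apply, h1, pow_one]
  obtain ⟨x, hx⟩ := (InfiniteGalois.mem_range_algebraMap_iff_fixed (k := ℚ)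
    (K := AlgebraicClosure ℚ) (ζ : AlgebraicClosure ℚ)).mpr hfix
  have h1 : x ^ p = 1 := by
    apply (algebraMap ℚ (AlgebraicClosure ℚ)).injective
    rw [map_pow, hx, map_one]
    exact hζ.pow_eq_one
  have h2 : x = 1 := by
    have hodd : Odd p := hp.odd_of_ne_two hp2
    exact hodd.strictMono_pow.injective (by simpa using h1)
  rw [h2, map_one] at hx
  exact hζ.ne_one hp.one_lt hx.symm

lemma cyc_one_val (p : ℕ) [Fact p.Prime] (σ : GQ) :
    Cyc p 1 σ (ExtCitation.cycloChar p σ : ZMod p).val := by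
  intro μ hμ
  rw [pow_one] at hμ
  exact H63.apply_of_pow_eq_one p σ hμ

lemma isUnit_natCast_of_not_dvd {A : Type} [CommRing A] [IsLocalRing A] {p : ℕ}
    (hp : p.Prime) (hpA : (p : A) ∈ maximalIdeal A) {a : ℤ} (ha : ¬ (p : ℤ) ∣ a) :
    IsUnit (a : A) := by
  have hcop : IsCoprime (a : ℤ) (p : ℤ) := by
    rw [isCoprime_comm]
    exact (Prime.coprime_iff_not_dvd (Nat.prime_iff_prime_int.mp hp)).mpr ha
  obtain ⟨u, v, huv⟩ := hcop
  have h1 : (u : A) * a = 1 - (v : A) * (p : A) := by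
    have := congrArg (fun z : ℤ => (z : A)) huv
    push_cast at this
    linear_combination this
  have h2 : IsUnit ((u : A) * a) := by
    rw [h1]
    by_contra hcon
    have h3 : (1 - (v : A) * (p : A)) ∈ maximalIdeal A := (mem_maximalIdeal _).mpr hcon
    have h4 : (1 : A) ∈ maximalIdeal A := by
      have := (maximalIdeal A).add_mem h3 ((maximalIdeal A).mul_mem_left (v : A) hpA)
      rwa [sub_add_cancel] at this
    exact (Ideal.ne_top_iff_one _).mp (Ideal.IsPrime.ne_top inferInstance) h4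
  exact isUnit_of_mul_isUnit_right h2

lemma isUnit_det_sub_one {A : Type} [CommRing A] [IsLocalRing A] (p : ℕ) [Fact p.Prime]
    (ρ : GaloisRepAdic A) (hdet : ρ.DetIsCyclotomic p) (b : Module.Basis (Fin 2) A ρ.V) {τ : GQ}
    (hτ : ExtCitation.cycloChar p τ ≠ 1) : IsUnit ((toMat ρ.ρ b τ).det - 1) := by
  obtain ⟨hpA, h⟩ := hdet
  have hp : p.Prime := Fact.out
  set a := (ExtCitation.cycloChar p τ : ZMod p).val with ha
  have h1 := h 1 τ a (cyc_one_val p τ)
  rw [toMat_det ρ b, pow_one, Ideal.mem_span_singleton] at h1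
  obtain ⟨c, hc⟩ := h1
  have h2 : IsUnit (((a : ℤ) - 1 : ℤ) : A) := by
    apply isUnit_natCast_of_not_dvd hp hpA
    intro hdvd
    apply hτ
    ext
    rw [Units.val_one, ← ZMod.natCast_zmod_val (ExtCitation.cycloChar p τ : ZMod p), ← ha]
    have h3 : (((a : ℤ) - 1 : ℤ) : ZMod p) = 0 := (ZMod.intCast_zmod_eq_zero_iff_dvd _ p).mpr hdvd
    push_cast at h3
    exact sub_eq_zero.mp h3
  have h3 : (toMat ρ.ρ b τ).det - 1 = (((a : ℤ) - 1 : ℤ) : A) + (p : A) * c := by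
    push_cast
    linear_combination hc
  rw [h3]
  by_contra hcon
  have h4 : (((a : ℤ) - 1 : ℤ) : A) + (p : A) * c ∈ maximalIdeal A := (mem_maximalIdeal _).mpr hcon
  have h5 : (((a : ℤ) - 1 : ℤ) : A) ∈ maximalIdeal A := by
    have := (maximalIdeal A).sub_mem h4 ((maximalIdeal A).mul_mem_right c hpA)
    rwa [add_sub_cancel_right] at this
  exact (mem_maximalIdeal _).mp h5 h2

/-- matrix condition equivalent to `OrdC` together with `p ∈ 𝔪` -/
def OrdMat (p : ℕ) (P : ValuationSubring (AlgebraicClosure ℚ)) (τ : GQ)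
    ⦃A : Type⦄ [CommRing A] [IsLocalRing A] (ρ : GaloisRepAdic A) : Prop :=
  (MatCond (PlainC (ordF1 τ)) ρ ∧ MatCond (PlainC (ordF2 P τ)) ρ) ∧
  (MatCond (PlainC (ordF3 P τ)) ρ ∧ MatCond (CycC p (ordU P τ) (ordV P τ) (fun i => i.1)) ρ)

lemma ordMat_iff (p : ℕ) (hp0 : p ≠ 0) (P : ValuationSubring (AlgebraicClosure ℚ)) (τ : GQ)
    {A : Type} [CommRing A] [IsLocalRing A] (hpA : (p : A) ∈ maximalIdeal A)
    (ρ : GaloisRepAdic A) (b : Module.Basis (Fin 2) A ρ.V) :
    OrdMat p P τ ρ ↔ OrdC P τ p (toMat ρ.ρ b) := by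
  rw [OrdMat, (isMatCondition_plain _).matCond_iff ρ b, (isMatCondition_plain _).matCond_iff ρ b,
    (isMatCondition_plain _).matCond_iff ρ b, (isMatCondition_cyc p _ _ _ hp0).matCond_iff ρ b]
  constructor
  · rintro ⟨⟨h1, h2⟩, h3, h4⟩
    constructor
    · have e : (toMat ρ.ρ b τ).trace • (1 : M2 A) - (1 + (toMat ρ.ρ b τ).det • (1 : M2 A)) = 0 :=
        h1 ()
      have e' := congrFun (congrFun e 0) 0
      simp only [Matrix.sub_apply, Matrix.smul_apply, Matrix.add_apply, Matrix.one_apply_eq,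
        Matrix.zero_apply, smul_eq_mul, mul_one, sub_eq_zero] at e'
      exact e'
    · intro σ hσ
      exact h2 ⟨σ, hσ⟩
    · intro σ hσ
      exact h3 ⟨σ, hσ⟩
    · intro σ hσ n a ha
      have e : ((toMat ρ.ρ b σ * (toMat ρ.ρ b τ - 1)).trace • (1 : M2 A)) 0 0 -
          (a : A) * ((toMat ρ.ρ b σ * ((toMat ρ.ρ b τ).det • (1 : M2 A) -
            toMat ρ.ρ b τ)).trace • (1 : M2 A)) 0 0 ∈ Ideal.span {((p ^ n : ℕ) : A)} :=
        h4.2 ⟨σ, hσ⟩ n a ha 0 0
      simpa using e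
  · rintro ⟨h1, h2, h3, h4⟩
    refine ⟨⟨fun _ => ?_, fun i => h2 i.1 i.2⟩, fun i => h3 i.1 i.2, hpA, fun i n a ha j k => ?_⟩
    · show (toMat ρ.ρ b τ).trace • (1 : M2 A) - (1 + (toMat ρ.ρ b τ).det • (1 : M2 A)) = 0
      rw [h1, add_smul, one_smul, sub_self]
    · show ((toMat ρ.ρ b i.1 * (toMat ρ.ρ b τ - 1)).trace • (1 : M2 A)) j k -
          (a : A) * ((toMat ρ.ρ b i.1 * ((toMat ρ.ρ b τ).det • (1 : M2 A) -
            toMat ρ.ρ b τ)).trace • (1 : M2 A)) j k ∈ Ideal.span {((p ^ n : ℕ) : A)}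
      rw [Matrix.smul_apply, Matrix.smul_apply, smul_eq_mul, smul_eq_mul, ← mul_assoc, ← sub_mul]
      exact Ideal.mul_mem_right _ _ (h4 i.1 i.2 n a ha)

/-- choice of `τ` for each place -/
def tauAt (p : ℕ) [Fact p.Prime] (hp2 : p ≠ 2)
    (P : {P : ValuationSubring (AlgebraicClosure ℚ) // P.LiesOverPrime p}) : GQ :=
  (exists_tau p hp2 P.1 P.2).choose

lemma det_and_strictOrdinary_iff (p : ℕ) [Fact p.Prime] (hp2 : p ≠ 2) {A : Type} [CommRing A]
    [IsLocalRing A] (ρ : GaloisRepAdic A) :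
    (ρ.DetIsCyclotomic p ∧ ρ.IsStrictOrdinaryAt p) ↔
      (ρ.DetIsCyclotomic p ∧
        ∀ P : {P : ValuationSubring (AlgebraicClosure ℚ) // P.LiesOverPrime p},
          OrdMat p P.1 (tauAt p hp2 P) ρ) := by
  have hp0 : p ≠ 0 := (Fact.out : p.Prime).ne_zero
  refine and_congr_right fun hdet => ?_
  obtain ⟨b⟩ := exists_basis ρ
  constructor
  · rintro ⟨hpA, h⟩ P
    have hτ := (exists_tau p hp2 P.1 P.2).choose_spec
    obtain ⟨b', hb'⟩ := (strictOrd_iff_exists_ordB ρ p P.1).mp (h P.1 P.2)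
    exact (ordMat_iff p hp0 P.1 _ hpA ρ b').mpr (hb'.ordC hτ.1)
  · intro h
    refine ⟨hdet.1, fun P hP => ?_⟩
    have hτ := (exists_tau p hp2 P hP).choose_spec
    have h1 := (ordMat_iff p hp0 P _ hdet.1 ρ b).mp (h ⟨P, hP⟩)
    rw [strictOrd_iff_exists_ordB]
    exact OrdC.exists_ordB ρ b (isUnit_det_sub_one p ρ hdet b hτ.2) h1

theorem isDeformationCondition_det_and_strictOrdinary (𝒪 : Type) [CommRing 𝒪] [IsLocalRing 𝒪]
    (p : ℕ) [Fact p.Prime] (hp2 : p ≠ 2) :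
    IsDeformationCondition 𝒪 (fun _A _ _ _ ρ => ρ.DetIsCyclotomic p ∧ ρ.IsStrictOrdinaryAt p) := by
  have hp0 : p ≠ 0 := (Fact.out : p.Prime).ne_zero
  refine isDeformationCondition_congr (isDeformationCondition_and
    (isDeformationCondition_detIsCyclotomic 𝒪 p hp0)
    (isDeformationCondition_forall (fun P : {P : ValuationSubring (AlgebraicClosure ℚ) //
        P.LiesOverPrime p} => isDeformationCondition_and
      (isDeformationCondition_and
        ((isMatCondition_plain (ordF1 (tauAt p hp2 P))).isDeformationCondition 𝒪)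
        ((isMatCondition_plain (ordF2 P.1 (tauAt p hp2 P))).isDeformationCondition 𝒪))
      (isDeformationCondition_and
        ((isMatCondition_plain (ordF3 P.1 (tauAt p hp2 P))).isDeformationCondition 𝒪)
        ((isMatCondition_cyc p (ordU P.1 (tauAt p hp2 P)) (ordV P.1 (tauAt p hp2 P))
          (fun i => i.1) hp0).isDeformationCondition 𝒪)))))
    fun _ _ _ _ ρ => (det_and_strictOrdinary_iff p hp2 ρ).symm

/-- the strict ordinary condition with unipotent inertia at a set of primes -/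
theorem isDeformationCondition_strictOrdinary (𝒪 : Type) [CommRing 𝒪] [IsLocalRing 𝒪]
    (p : ℕ) [Fact p.Prime] (hp2 : p ≠ 2) (S T : Finset ℕ) :
    IsDeformationCondition 𝒪 (fun _A _ _ _ ρ => strictOrdinaryCondition 𝒪 p S ρ ∧
      ∀ q ∈ T, q.Prime → q ≠ p → ρ.IsUnipotentOnInertiaAt q) := by
  refine isDeformationCondition_congr (isDeformationCondition_and (isDeformationCondition_and
    (isDeformationCondition_det_and_strictOrdinary 𝒪 p hp2)
    (isDeformationCondition_forall (fun q : {q : ℕ // q.Prime ∧ q ∉ S} =>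
      isDeformationCondition_unramifiedAt 𝒪 q.1)))
    (isDeformationCondition_forall (fun q : {q : ℕ // q ∈ T ∧ q.Prime ∧ q ≠ p} =>
      isDeformationCondition_unipotentOnInertiaAt 𝒪 q.1))) ?_
  intro A _ _ _ ρ
  constructor
  · rintro ⟨⟨⟨h1, h2⟩, h3⟩, h4⟩
    exact ⟨⟨h1, h2, fun q hq hqS => h3 ⟨q, hq, hqS⟩⟩, fun q hqT hq hqp => h4 ⟨q, hqT, hq, hqp⟩⟩
  · rintro ⟨⟨h1, h2, h3⟩, h4⟩
    exact ⟨⟨⟨h1, h2⟩, fun q => h3 q.1 q.2.1 q.2.2⟩, fun q => h4 q.1 q.2.1 q.2.2.1 q.2.2.2⟩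

end Fermat.Agent.H53
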