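import Fermat.Agent.H64FQuot
import Fermat.Agent.H54TotRam

/-!
# S56-[B4] : tame characters, the action of inertia on connected simple pieces
-/

set_option autoImplicit false

open ExtCitation

noncomputable section

namespace Fermat.Agent.H64

variable {p : ℕ} [Fact p.Prime]

section Tame

variable (p) in
/-- the tame character attached to `z` -/
def th (z : FQb) (σ : FGQ) : Kap p := rs (σ z / z)

theorem nm_sigma_div {z : FQb} (hz : z ≠ 0) {σ : FGQ} (hσ : σ ∈ Dp p) : nm p (σ z / z) = 1 := by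
  rw [nm_div, nm_dec hσ, div_self (nm_pos.mpr hz).ne']

theorem th_ne_zero {z : FQb} (hz : z ≠ 0) {σ : FGQ} (hσ : σ ∈ Dp p) : th p z σ ≠ 0 := by
  rw [th, Ne, rs_eq_zero_iff (nm_sigma_div hz hσ).le, nm_sigma_div hz hσ]
  exact lt_irrefl _

theorem th_one {z : FQb} (hz : z ≠ 0) : th p z 1 = 1 := by
  rw [th, AlgEquiv.one_apply, div_self hz, rs_one]

theorem th_mul {z : FQb} (hz : z ≠ 0) {σ τ : FGQ} (hσ : σ ∈ Ip p) (hτ : τ ∈ Ip p) :
    th p z (σ * τ) = th p z σ * th p z τ := by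
  have hσz : σ z ≠ 0 := (map_ne_zero σ).mpr hz
  have h1 := (nm_sigma_div (p := p) hz (Ip_le_Dp hσ)).le
  have h2 := (nm_sigma_div (p := p) hz (Ip_le_Dp hτ)).le
  have h3 : nm p (σ (τ z / z)) ≤ 1 := by rw [nm_dec (Ip_le_Dp hσ)]; exact h2
  have e1 : (σ * τ) z / z = σ z / z * σ (τ z / z) := by
    rw [AlgEquiv.mul_apply, map_div₀]
    field_simp
  rw [th, e1, rs_mul h1 h3, rs_inertia hσ h2]
  rfl

theorem th_mul_elem {z w : FQb} (hz : z ≠ 0) (hw : w ≠ 0) {σ : FGQ} (hσ : σ ∈ Dp p) :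
    th p (z * w) σ = th p z σ * th p w σ := by
  have h1 := (nm_sigma_div (p := p) hz hσ).le
  have h2 := (nm_sigma_div (p := p) hw hσ).le
  rw [th, map_mul, mul_div_mul_comm, rs_mul h1 h2]
  rfl

theorem th_pow {z : FQb} (hz : z ≠ 0) {σ : FGQ} (hσ : σ ∈ Dp p) (m : ℕ) :
    th p (z ^ m) σ = th p z σ ^ m := by
  rw [th, map_pow, ← div_pow, rs_pow (nm_sigma_div hz hσ).le]
  rfl

theorem th_of_nm_one {u : FQb} (hu : nm p u = 1) {σ : FGQ} (hσ : σ ∈ Ip p) : th p u σ = 1 := by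
  have hu0 : u ≠ 0 := nm_pos.mp (by rw [hu]; exact zero_lt_one)
  rw [th, ← rs_one, rs_eq_iff (nm_sigma_div hu0 (Ip_le_Dp hσ)).le (by simp), div_sub_one hu0,
    nm_div, hu, div_one]
  exact nm_inertia hσ hu.le

theorem th_congr {z w : FQb} (hz : z ≠ 0) (hzw : nm p z = nm p w) {σ : FGQ} (hσ : σ ∈ Ip p) :
    th p z σ = th p w σ := by
  have hw : w ≠ 0 := by
    rw [← nm_pos (p := p), ← hzw]
    exact nm_pos.mpr hz
  have e1 : z = (z / w) * w := by rw [div_mul_cancel₀ _ hw]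
  have h1 : nm p (z / w) = 1 := by rw [nm_div, hzw, div_self (nm_pos.mpr hw).ne']
  conv_lhs => rw [e1]
  rw [th_mul_elem (div_ne_zero hz hw) hw (Ip_le_Dp hσ), th_of_nm_one h1 hσ, one_mul]

theorem conj_mem_Ip {σ : FGQ} (hσ : σ ∈ Ip p) {g : FGQ} (hg : g ∈ Dp p) :
    g * σ * g⁻¹ ∈ Ip p := by
  rw [mem_Ip_iff]
  refine ⟨mul_mem (mul_mem hg (Ip_le_Dp hσ)) (inv_mem hg), fun x hx => ?_⟩
  have hx' : nm p (g⁻¹ x) ≤ 1 := by rw [nm_dec (inv_mem hg)]; exact hx
  have h1 := nm_inertia hσ hx'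
  have e1 : (g * σ * g⁻¹) x - x = g (σ (g⁻¹ x) - g⁻¹ x) := by
    rw [map_sub, AlgEquiv.mul_apply, AlgEquiv.mul_apply]
    congr 1
    exact (AlgEquiv.apply_symm_apply g x).symm
  rw [e1, nm_dec hg]
  exact h1

/-- compatibility with conjugation -/
theorem th_conj {z : FQb} (hz : z ≠ 0) {σ : FGQ} (hσ : σ ∈ Ip p) {g : FGQ} (hg : g ∈ Dp p) :
    th p z (g * σ * g⁻¹) = rs (g (σ z / z)) := by
  have hgz : g z ≠ 0 := (map_ne_zero g).mpr hz
  rw [th_congr hz (nm_dec hg z).symm (conj_mem_Ip hσ hg), th, map_div₀]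
  congr 2
  rw [AlgEquiv.mul_apply, AlgEquiv.mul_apply]
  congr 2
  exact AlgEquiv.symm_apply_apply g z

theorem th_conj_frob {z : FQb} (hz : z ≠ 0) {σ : FGQ} (hσ : σ ∈ Ip p) :
    th p z (frob p * σ * (frob p)⁻¹) = th p z σ ^ p := by
  rw [th_conj hz hσ frob_mem, rs_frob (nm_sigma_div hz (Ip_le_Dp hσ)).le]
  rfl

variable (p) in
/-- the tame character as a homomorphism -/
def thHom {z : FQb} (hz : z ≠ 0) : Ip p →* (Kap p)ˣ where
  toFun σ := Units.mk0 (th p z σ) (th_ne_zero hz (Ip_le_Dp σ.2))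
  map_one' := by ext; exact th_one hz
  map_mul' σ τ := by ext; exact th_mul hz σ.2 τ.2

/-- the norm of `z ^ m` when the orbit of `z` under inertia is as small as possible -/
theorem orbit_norm {z : FQb} (hz : z ≠ 0) {m : ℕ} (hm : 0 < m)
    (hzm : ∀ σ ∈ Ip p, th p z σ ^ m = 1)
    (horb : ∀ σ ∈ Ip p, ∀ τ ∈ Ip p, th p z σ = th p z τ → σ z = τ z) :
    ∃ j : ℤ, nm p z ^ m = nm p (p : FQb) ^ j := by
  classical
  set χ := thHom p hz with hχ
  have hval : ∀ σ : Ip p, ((χ σ : (Kap p)ˣ) : Kap p) = th p z σ := fun σ => rfl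
  have hpow : ∀ u ∈ χ.range, u ^ m = 1 := by
    rintro _ ⟨σ, rfl⟩
    ext
    rw [Units.val_pow_eq_pow_val, hval, hzm σ σ.2]
    rfl
  have hfin : Finite χ.range := by
    have : NeZero m := ⟨hm.ne'⟩
    refine Finite.of_injective (β := rootsOfUnity m (Kap p))
      (fun u => ⟨u.1, (mem_rootsOfUnity _ _).mpr (hpow u.1 u.2)⟩) ?_
    intro u v huv
    exact Subtype.ext (congrArg (fun z : rootsOfUnity m (Kap p) => (z : (Kap p)ˣ)) huv)
  have hft : Fintype χ.range := Fintype.ofFinite _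
  choose s hs using fun y : χ.range => y.2
  -- the product over the orbit
  set N : FQb := ∏ y : χ.range, (s y : FGQ) z with hN
  have hNfix : FixI p N := by
    intro τ hτ
    rw [hN, map_prod]
    refine Fintype.prod_equiv (Equiv.mulLeft (⟨χ ⟨τ, hτ⟩, ⟨_, rfl⟩⟩ : χ.range)) _ _ fun y => ?_
    rw [← AlgEquiv.mul_apply]
    apply horb _ (mul_mem hτ (s y).2) _ (s _).2
    rw [← hval (s _), hs, th_mul hz hτ (s y).2, ← hval (s y), hs]
    simp only [Equiv.coe_mulLeft, Subgroup.coe_mul, Units.val_mul]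
    rfl
  have hN0 : N ≠ 0 := Finset.prod_ne_zero_iff.mpr fun y _ => (map_ne_zero _).mpr hz
  obtain ⟨k, hk⟩ := hNfix.exists_zpow hN0
  have hnN : nm p N = nm p z ^ Nat.card χ.range := by
    have h1 : nm p N = ∏ y : χ.range, nm p ((s y : FGQ) z) := by
      rw [hN]
      unfold nm
      rw [map_prod, norm_prod]
    rw [h1, Nat.card_eq_fintype_card]
    simp only [nm_dec (Ip_le_Dp (s _).2), Finset.prod_const, Finset.card_univ]
  have hdvd : Nat.card χ.range ∣ m := by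
    rw [← IsCyclic.exponent_eq_card]
    apply Monoid.exponent_dvd_of_forall_pow_eq_one
    intro y
    exact Subtype.ext (hpow y.1 y.2)
  obtain ⟨d, hd⟩ := hdvd
  refine ⟨k * d, ?_⟩
  rw [hd, pow_mul, ← hnN, hk, zpow_mul, zpow_natCast]

/-- elements with the valuation of `ζ_p - 1` have the cyclotomic tame character -/
theorem th_cyclo {z : FQb} (hz : nm p z ^ (p - 1) = nm p (p : FQb)) {σ : FGQ} (hσ : σ ∈ Ip p) :
    th p z σ = ((cycloChar p σ : ZMod p).val : Kap p) := by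
  have hp := (Fact.out : p.Prime)
  have : NeZero p := ⟨hp.ne_zero⟩
  have hp1 : p - 1 ≠ 0 := by have := hp.two_le; omega
  obtain ⟨ζ, hζ⟩ := HasEnoughRootsOfUnity.exists_primitiveRoot FQb p
  have hζ1 : ζ ≠ 1 := hζ.ne_one hp.one_lt
  have h1 := nm_zeta_sub_one hζ.pow_eq_one hζ1
  have hz0 : z ≠ 0 := by
    rintro rfl
    rw [nm_zero, zero_pow hp1] at hz
    exact (nm_p_pos p).ne hz
  have h2 : nm p z = nm p (ζ - 1) :=
    (pow_left_inj₀ (nm_nonneg _) (nm_nonneg _) hp1).mp (hz.trans h1.symm)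
  rw [th_congr hz0 h2 hσ, th, map_sub, map_one, H54.cycloChar_spec p σ hζ.pow_eq_one]
  set m := (cycloChar p σ : ZMod p).val with hm
  have e1 : (ζ ^ m - 1) / (ζ - 1) = ∑ i ∈ Finset.range m, ζ ^ i := by
    rw [eq_comm, eq_div_iff (sub_ne_zero.mpr hζ1), geom_sum_mul]
  have hζn : nm p ζ = 1 := by
    have := congrArg (nm p) hζ.pow_eq_one
    rw [nm_pow, nm_one] at this
    exact (pow_eq_one_iff_of_nonneg (nm_nonneg _) hp.ne_zero).mp this
  have hζr : rs (p := p) ζ = 1 := by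
    rw [← rs_one, rs_eq_iff hζn.le (by simp)]
    exact nm_zeta_sub_one_lt hζ.pow_eq_one
  rw [e1, rs_sum _ _ (fun i _ => by rw [nm_pow, hζn, one_pow])]
  simp only [rs_pow hζn.le, hζr, one_pow, Finset.sum_const, Finset.card_range, nsmul_eq_mul,
    mul_one]

theorem exists_cyclo_ne_one (hp3 : 3 ≤ p) : ∃ σ ∈ Ip p, cycloChar p σ ≠ 1 := by
  have hp := (Fact.out : p.Prime)
  have he : 0 < p - 1 := by omega
  have hep : (p - 1).Coprime p := by
    rw [Nat.coprime_comm, hp.coprime_iff_not_dvd]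
    exact fun h => absurd (Nat.le_of_dvd he h) (by omega)
  obtain ⟨π, hπ⟩ := IsAlgClosed.exists_pow_nat_eq (-(p : FQb)) he
  obtain ⟨t, ht, ζ, hζ, htπ⟩ := exists_tame_gen he hep hπ
  refine ⟨t, ht, fun h1 => ?_⟩
  have h2 := th_cyclo (nm_pi_pow hπ) ht
  have hval : ((cycloChar p t : (ZMod p)ˣ) : ZMod p).val = 1 := by
    rw [h1, Units.val_one, ZMod.val_one'' (by omega)]
  rw [hval, Nat.cast_one, th, htπ, mul_div_cancel_right₀ _ (pi_ne_zero he hπ)] at h2
  have hT := isTeich_of_pow_eq_one he hep hζ.pow_eq_one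
  have h3 : ζ = 1 := by
    apply hT.eq_of_nm_sub_lt ⟨1, one_pos, one_pow _⟩
    rw [← rs_eq_iff hT.nm_le (by simp), h2, rs_one]
  rw [h3] at hζ
  have := hζ.eq_orderOf
  rw [orderOf_one] at this
  omega

end Tame

variable {W : Type*} [AddCommGroup W] {act : FGQ → W → W} {n : ℕ}
  {e : Fin n → W → FQb} {a : Fin n → Fin n → Fin n → ℚ}

/-- data attached to a simple connected piece -/
structure CoreData (p : ℕ) [Fact p.Prime] {W : Type*} [AddCommGroup W] (act : FGQ → W → W)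
    (M : AddSubgroup W) (x₀ : W) (z : FQb) : Prop where
  mem : x₀ ∈ M
  ne : z ≠ 0
  lt : nm p z < 1
  le : nm p (p : FQb) ≤ nm p z ^ (p - 1)
  orb : ∀ σ τ : FGQ, act σ x₀ = act τ x₀ → σ z = τ z
  iff : ∀ (ι : Type) (s : Finset ι) (σ : ι → FGQ) (c : ι → ℤ), (∀ i ∈ s, σ i ∈ Ip p) →
    ((∑ i ∈ s, (c i : Kap p) * th p z (σ i)) = 0 ↔ ∀ x ∈ M, ∑ i ∈ s, c i • act (σ i) x = 0)

theorem FData.exists_core (h : FData p act n e a) {k : Type*} [Field k] [Module k W]
    (hlin : ∀ g ∈ Dp p, ∀ (b : k) (x : W), act g (b • x) = b • act g x)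
    (M : AddSubgroup W) [Finite M] (hM : ∀ x ∈ M, CPt p e x) (hpM : ∀ x ∈ M, p • x = 0)
    (hMk : ∀ (b : k), ∀ x ∈ M, b • x ∈ M) (hMD : ∀ g ∈ Dp p, ∀ x ∈ M, act g x ∈ M)
    (hne : M ≠ ⊥)
    (hsimple : ∀ U : AddSubgroup W, U ≤ M → (∀ (b : k), ∀ x ∈ U, b • x ∈ U) →
      (∀ g ∈ Dp p, ∀ x ∈ U, act g x ∈ U) → U = ⊥ ∨ U = M) :
    ∃ x₀ z, CoreData p act M x₀ z := by
  classical
  have hp := (Fact.out : p.Prime)
  have hp1 : p - 1 ≠ 0 := by have := hp.two_le; omega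
  obtain ⟨x₁, hx₁M, hx₁⟩ := (AddSubgroup.bot_or_exists_ne_zero M).resolve_left hne
  obtain ⟨i₁, hi₁⟩ := h.exists_le (hM x₁ hx₁M) (hpM x₁ hx₁M) hx₁
  have : Nonempty (Fin n) := ⟨i₁⟩
  have hft : Fintype M := Fintype.ofFinite _
  obtain ⟨⟨i₀, x₀⟩, -, hmax⟩ := Finset.exists_max_image (Finset.univ : Finset (Fin n × M))
    (fun y => nm p (e y.1 y.2 - e y.1 0)) ⟨(i₁, ⟨x₁, hx₁M⟩), Finset.mem_univ _⟩
  set z := e i₀ x₀ - e i₀ 0 with hz
  have hmax' : ∀ i, ∀ x ∈ M, nm p (e i x - e i 0) ≤ nm p z := fun i x hx =>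
    hmax (i, ⟨x, hx⟩) (Finset.mem_univ _)
  have hle : nm p (p : FQb) ≤ nm p z ^ (p - 1) :=
    hi₁.trans (pow_le_pow_left₀ (nm_nonneg _) (hmax' i₁ x₁ hx₁M) _)
  have hzne : z ≠ 0 := by
    intro h0
    rw [h0, nm_zero, zero_pow hp1] at hle
    exact absurd hle (not_le.mpr (nm_p_pos p))
  have hzpos := nm_pos (p := p).mpr hzne
  have hzlt : nm p z < 1 := hM x₀ x₀.2 i₀
  -- the functional `ℓ`
  let ℓ : W → Kap p := fun x => rs ((e i₀ x - e i₀ 0) / z)
  have hℓn : ∀ x ∈ M, nm p ((e i₀ x - e i₀ 0) / z) ≤ 1 := by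
    intro x hx
    rw [nm_div]
    exact div_le_one_of_le₀ (hmax' i₀ x hx) (nm_nonneg _)
  have hℓadd : ∀ x ∈ M, ∀ y ∈ M, ℓ (x + y) = ℓ x + ℓ y := by
    intro x hx y hy
    show rs _ = rs _ + rs _
    rw [← rs_add (hℓn x hx) (hℓn y hy),
      rs_eq_iff (hℓn _ (M.add_mem hx hy)) (nm_add_le_of (hℓn x hx) (hℓn y hy)),
      ← add_div, ← sub_div, nm_div, div_lt_one hzpos]
    refine (h.nm_comul_err i₀ x y (nm_nonneg z) (nm_nonneg z) (fun i => hmax' i x hx)
      (fun i => hmax' i y hy)).trans_lt ?_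
    exact mul_lt_of_lt_one_left hzpos hzlt
  have hℓ0 : ℓ 0 = 0 := by
    show rs _ = 0
    rw [sub_self, zero_div, rs_zero]
  have hℓx₀ : ℓ x₀ = 1 := by
    show rs _ = 1
    rw [← hz, div_self hzne, rs_one]
  have hℓneg : ∀ x ∈ M, ℓ (-x) = -ℓ x := by
    intro x hx
    have h1 := hℓadd x hx (-x) (M.neg_mem hx)
    rw [add_neg_cancel, hℓ0] at h1
    exact (neg_eq_of_add_eq_zero_right h1.symm).symm
  have hℓzsmul : ∀ (m : ℤ), ∀ x ∈ M, ℓ (m • x) = m * ℓ x := by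
    let L : M →+ Kap p := AddMonoidHom.mk' (fun x => ℓ x) (fun x y => hℓadd x x.2 y y.2)
    intro m x hx
    have h1 := map_zsmul L m ⟨x, hx⟩
    rw [zsmul_eq_mul] at h1
    exact h1
  have hℓsum : ∀ (ι : Type) (s : Finset ι) (f : ι → W), (∀ i ∈ s, f i ∈ M) →
      ℓ (∑ i ∈ s, f i) = ∑ i ∈ s, ℓ (f i) := by
    intro ι s f hf
    induction s using Finset.induction_on with
    | empty => simpa using hℓ0
    | insert i s his ih =>
      rw [Finset.sum_insert his, Finset.sum_insert his,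
        hℓadd _ (hf i (Finset.mem_insert_self i s)) _
          (M.sum_mem fun j hj => hf j (Finset.mem_insert_of_mem hj)),
        ih fun j hj => hf j (Finset.mem_insert_of_mem hj)]
  have hℓσ : ∀ σ ∈ Ip p, ∀ x ∈ M, ℓ (act σ x) = th p z σ * ℓ x := by
    intro σ hσ x hx
    have hσz : σ z ≠ 0 := (map_ne_zero σ).mpr hzne
    have e1 : (e i₀ (act σ x) - e i₀ 0) / z = σ z / z * σ ((e i₀ x - e i₀ 0) / z) := by
      rw [h.act_sub0, map_div₀]
      field_simp
    show rs _ = _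
    rw [e1, rs_mul (nm_sigma_div hzne (Ip_le_Dp hσ)).le
      (by rw [nm_dec (Ip_le_Dp hσ)]; exact hℓn x hx), rs_inertia hσ (hℓn x hx)]
    rfl
  -- the kernel is trivial
  let U : AddSubgroup W :=
    { carrier := {x | x ∈ M ∧ ∀ (b : k), ∀ g ∈ Dp p, ℓ (act g (b • x)) = 0}
      add_mem' := by
        rintro x y ⟨hx, hx'⟩ ⟨hy, hy'⟩
        refine ⟨M.add_mem hx hy, fun b g hg => ?_⟩
        rw [smul_add, h.act_add, hℓadd _ (hMD g hg _ (hMk b x hx)) _ (hMD g hg _ (hMk b y hy)),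
          hx' b g hg, hy' b g hg, add_zero]
      zero_mem' := by
        refine ⟨M.zero_mem, fun b g hg => ?_⟩
        rw [smul_zero, h.act_zero, hℓ0]
      neg_mem' := by
        rintro x ⟨hx, hx'⟩
        refine ⟨M.neg_mem hx, fun b g hg => ?_⟩
        have e1 : act g (b • (-x)) = -act g (b • x) := by
          rw [smul_neg, eq_neg_iff_add_eq_zero, ← h.act_add, neg_add_cancel, h.act_zero]
        rw [e1, hℓneg _ (hMD g hg _ (hMk b x hx)), hx' b g hg, neg_zero] }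
  have hUmem : ∀ x, x ∈ U ↔ x ∈ M ∧ ∀ (b : k), ∀ g ∈ Dp p, ℓ (act g (b • x)) = 0 :=
    fun x => Iff.rfl
  have hUk : ∀ (b : k), ∀ x ∈ U, b • x ∈ U := by
    intro b x hx
    rw [hUmem] at hx ⊢
    refine ⟨hMk b x hx.1, fun b' g hg => ?_⟩
    rw [smul_smul]
    exact hx.2 _ g hg
  have hUD : ∀ g ∈ Dp p, ∀ x ∈ U, act g x ∈ U := by
    intro g hg x hx
    rw [hUmem] at hx ⊢
    refine ⟨hMD g hg x hx.1, fun b' g' hg' => ?_⟩
    rw [← hlin g hg, h.act_act]
    exact hx.2 _ _ (mul_mem hg' hg)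
  have hU : U = ⊥ := by
    rcases hsimple U (fun x hx => ((hUmem x).mp hx).1) hUk hUD with h1 | h1
    · exact h1
    · exfalso
      have h2 : (x₀ : W) ∈ U := by rw [h1]; exact x₀.2
      have h3 := ((hUmem _).mp h2).2 1 1 (one_mem _)
      rw [one_smul, h.act_one] at h3
      exact one_ne_zero (hℓx₀.symm.trans h3)
  have hactsum : ∀ (ι : Type) (s : Finset ι) (f : ι → W) (g : FGQ),
      act g (∑ i ∈ s, f i) = ∑ i ∈ s, act g (f i) := by
    intro ι s f g
    exact map_sum (AddMonoidHom.mk' (act g) (h.act_add g)) f s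
  have hactz : ∀ (m : ℤ) (x : W) (g : FGQ), act g (m • x) = m • act g x := by
    intro m x g
    exact map_zsmul (AddMonoidHom.mk' (act g) (h.act_add g)) m x
  refine ⟨x₀, z, x₀.2, hzne, hzlt, hle, ?_, ?_⟩
  · intro σ τ hστ
    rw [hz, ← h.act_sub0, ← h.act_sub0, hστ]
  · intro ι s σ c hσ
    have hkey : ∀ (c : ι → ℤ) (τ : ι → FGQ), (∀ i ∈ s, τ i ∈ Ip p) → ∀ x ∈ M,
        ℓ (∑ i ∈ s, c i • act (τ i) x) = (∑ i ∈ s, (c i : Kap p) * th p z (τ i)) * ℓ x := by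
      intro c τ hτ x hx
      have hmem : ∀ i ∈ s, act (τ i) x ∈ M := fun i hi => hMD _ (Ip_le_Dp (hτ i hi)) x hx
      rw [hℓsum ι s _ (fun i hi => M.zsmul_mem (hmem i hi) _), Finset.sum_mul]
      refine Finset.sum_congr rfl fun i hi => ?_
      rw [hℓzsmul _ _ (hmem i hi), hℓσ _ (hτ i hi) x hx]
      ring
    constructor
    · intro h0 x hx
      have hyM : ∑ i ∈ s, c i • act (σ i) x ∈ M :=
        M.sum_mem fun i hi => M.zsmul_mem (hMD _ (Ip_le_Dp (hσ i hi)) x hx) _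
      have hyU : ∑ i ∈ s, c i • act (σ i) x ∈ U := by
        rw [hUmem]
        refine ⟨hyM, fun b g hg => ?_⟩
        have e1 : act g (b • ∑ i ∈ s, c i • act (σ i) x) =
            ∑ i ∈ s, c i • act (g * σ i * g⁻¹) (act g (b • x)) := by
          rw [Finset.smul_sum, hactsum]
          refine Finset.sum_congr rfl fun i hi => ?_
          rw [smul_comm, ← hlin _ (Ip_le_Dp (hσ i hi)), hactz, h.act_act, h.act_act]
          congr 2
          group
        rw [e1, hkey _ _ (fun i hi => conj_mem_Ip (hσ i hi) hg) _ (hMD g hg _ (hMk b x hx))]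
        have h2 : ∑ i ∈ s, (c i : Kap p) * th p z (g * σ i * g⁻¹) = 0 := by
          -- pass to elements
          have hn : ∀ i ∈ s, nm p ((c i : FQb) * (σ i z / z)) ≤ 1 := fun i hi =>
            nm_mul_le_one (nm_intCast_le_one _) (nm_sigma_div hzne (Ip_le_Dp (hσ i hi))).le
          have hrsint : ∀ m : ℤ, rs (p := p) (m : FQb) = (m : Kap p) := by
            intro m
            obtain ⟨m, rfl | rfl⟩ := m.eq_nat_or_neg
            · simpa using rs_natCast m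
            · rw [Int.cast_neg, Int.cast_natCast, rs_neg (nm_natCast_le_one m), rs_natCast]
              simp
          have h3 : rs (p := p) (∑ i ∈ s, (c i : FQb) * (σ i z / z)) = 0 := by
            rw [rs_sum _ _ hn, ← h0]
            refine Finset.sum_congr rfl fun i hi => ?_
            rw [rs_mul (nm_intCast_le_one _) (nm_sigma_div hzne (Ip_le_Dp (hσ i hi))).le, hrsint]
            rfl
          rw [rs_eq_zero_iff (nm_sum_le _ _ zero_le_one hn)] at h3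
          have h4 : rs (p := p) (g (∑ i ∈ s, (c i : FQb) * (σ i z / z))) = 0 := by
            rw [rs_eq_zero_iff (by rw [nm_dec hg]; exact nm_sum_le _ _ zero_le_one hn), nm_dec hg]
            exact h3
          rw [← h4, map_sum, rs_sum _ _ (fun i hi => by rw [nm_dec hg]; exact hn i hi)]
          refine Finset.sum_congr rfl fun i hi => ?_
          rw [map_mul, map_intCast, rs_mul (nm_intCast_le_one _)
            (by rw [nm_dec hg]; exact (nm_sigma_div hzne (Ip_le_Dp (hσ i hi))).le), hrsint,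
            th_conj hzne (hσ i hi) hg]
        rw [h2, zero_mul]
      rw [hU, AddSubgroup.mem_bot] at hyU
      exact hyU
    · intro h0
      have h1 := hkey c σ hσ x₀ x₀.2
      rw [h0 x₀ x₀.2, hℓ0, hℓx₀, mul_one] at h1
      exact h1.symm

end Fermat.Agent.H64
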