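import Fermat.Agent.H53Flat1
import Fermat.Agent.H64FCore
import Fermat.Agent.H53TW1
import Fermat.Agent.H53Cond7

/-!
# Flat and residually ordinary representations are ordinary
-/

set_option autoImplicit false

noncomputable section

open IsLocalRing GaloisRep
open Fermat.Agent.H53 (M2 FlatM mapMat)
open Fermat.Agent.H64
open scoped Pointwise

namespace Fermat.Agent.H23

variable {p : ℕ} [hp : Fact p.Prime]

/-- the subgroup generated by the `σ x - x`, `σ` in inertia -/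
def augI (p : ℕ) [Fact p.Prime] {M : Type*} [AddCommGroup M] (act : FGQ → M → M) : AddSubgroup M :=
  AddSubgroup.closure {y | ∃ σ ∈ Ip p, ∃ x, act σ x - x = y}

theorem mem_augI {M : Type*} [AddCommGroup M] {act : FGQ → M → M} {σ : FGQ} (hσ : σ ∈ Ip p)
    (x : M) : act σ x - x ∈ augI p act :=
  AddSubgroup.subset_closure ⟨σ, hσ, x, rfl⟩

section Core

variable {M : Type*} [AddCommGroup M] {act : FGQ → M → M} {n : ℕ}
  {e : Fin n → M → FQb} {a : Fin n → Fin n → Fin n → ℚ}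

theorem cpt_augI [Finite M] (h : FData p act n e a) {y : M} (hy : y ∈ augI p act) :
    CPt p e y := by
  induction hy using AddSubgroup.closure_induction with
  | mem y hy =>
    obtain ⟨σ, hσ, x, rfl⟩ := hy
    exact h.cpt_inertia x hσ
  | zero => exact CPt.zero
  | add x y _ _ hx hy => exact h.cpt_add hx hy
  | neg x _ hx =>
    have h1 : -x = (addOrderOf x - 1) • x := by
      rw [neg_eq_iff_add_eq_zero, add_comm, ← succ_nsmul,
        Nat.sub_add_cancel (addOrderOf_pos x), addOrderOf_nsmul_eq_zero]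
    rw [h1]
    exact h.cpt_nsmul hx _

/-- elements of the augmentation submodule of the form `s • x` with `s` killed by `p` -/
theorem exists_smul_eq_of_mem_augI {A : Type*} [CommRing A] [Module A M] (hp3 : 3 ≤ p)
    (hflat : H32.HasFlatOrder p M act)
    (hlin : ∀ (σ : FGQ) (b : A) (x : M), act σ (b • x) = b • act σ x) (s : A)
    (hps : (p : A) * s = 0) {x : M} (hx : s • x ∈ augI p act) :
    ∃ y ∈ augI p act, s • x = s • y := by
  obtain ⟨hfin, H, hH⟩ := hflat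
  obtain ⟨n, e, a, h, -, -⟩ := exists_FData hH
  have hz : s • x ∈ (augI p act).map (DistribSMul.toAddMonoidHom M s) := by
    refine h.mem_of_cpt hp3 _ ?_ (cpt_augI h hx) ?_ ?_
    · rintro σ hσ _ ⟨y, hy, rfl⟩
      refine ⟨act σ y, ?_, ?_⟩
      · have h1 : act σ y = (act σ y - y) + y := by abel
        rw [h1]
        exact (augI p act).add_mem (mem_augI hσ y) hy
      · exact (hlin σ s y).symm
    · rw [← Nat.cast_smul_eq_nsmul A, smul_smul, hps, zero_smul]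
    · intro σ hσ
      refine ⟨act σ x - x, mem_augI hσ x, ?_⟩
      show s • (act σ x - x) = _
      rw [smul_sub, hlin]
  obtain ⟨y, hy, hys⟩ := hz
  exact ⟨y, hy, hys.symm⟩

end Core

section Socle

variable {A : Type*} [CommRing A]

/-- nonzero elements have nonzero multiples in the socle -/
theorem exists_socle {m : Ideal A} {k : ℕ} {t : A} (ht : t ≠ 0) (hk : ∀ x ∈ m ^ k, x * t = 0) :
    ∃ b : A, b * t ≠ 0 ∧ ∀ x ∈ m, x * (b * t) = 0 := by
  induction k generalizing t with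
  | zero =>
    exfalso
    apply ht
    have := hk 1 (by simp)
    rwa [one_mul] at this
  | succ k ih =>
    by_cases h : ∀ x ∈ m ^ k, x * t = 0
    · exact ih ht h
    · push Not at h
      obtain ⟨b, hb, hbt⟩ := h
      refine ⟨b, hbt, fun x hx => ?_⟩
      rw [← mul_assoc]
      apply hk
      rw [pow_succ, mul_comm x b]
      exact Ideal.mul_mem_mul hb hx

end Socle

/-- the action attached to a matrix representation -/
abbrev mact {A : Type} [CommRing A] (r : FGQ →* M2 A) (σ : FGQ) (v : Fin 2 → A) : Fin 2 → A :=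
  (r σ).mulVec v

section FiniteLevel

variable {A : Type} [CommRing A]

theorem smul_mem_augI (r : FGQ →* M2 A) {y : Fin 2 → A} (hy : y ∈ augI p (mact r)) (b : A) :
    b • y ∈ augI p (mact r) := by
  induction hy using AddSubgroup.closure_induction with
  | mem y hy =>
    obtain ⟨σ, hσ, x, rfl⟩ := hy
    have h1 : b • (mact r σ x - x) = mact r σ (b • x) - b • x := by
      rw [smul_sub, mact, mact, Matrix.mulVec_smul]
    rw [h1]
    exact mem_augI hσ _
  | zero => rw [smul_zero]; exact AddSubgroup.zero_mem _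
  | add x y _ _ hx hy => rw [smul_add]; exact AddSubgroup.add_mem _ hx hy
  | neg x _ hx => rw [smul_neg]; exact AddSubgroup.neg_mem _ hx

variable [IsLocalRing A]

theorem augI_one_mem (r : FGQ →* M2 A) (h10 : ∀ σ ∈ Ip p, r σ 1 0 ∈ maximalIdeal A)
    (h11 : ∀ σ ∈ Ip p, r σ 1 1 - 1 ∈ maximalIdeal A) {y : Fin 2 → A}
    (hy : y ∈ augI p (mact r)) : y 1 ∈ maximalIdeal A := by
  induction hy using AddSubgroup.closure_induction with
  | mem y hy =>
    obtain ⟨σ, hσ, x, rfl⟩ := hy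
    have h1 : (mact r σ x - x) 1 = r σ 1 0 * x 0 + (r σ 1 1 - 1) * x 1 := by
      simp only [mact, Pi.sub_apply, Matrix.mulVec, dotProduct, Fin.sum_univ_two]
      ring
    rw [h1]
    exact Ideal.add_mem _ (Ideal.mul_mem_right _ _ (h10 σ hσ)) (Ideal.mul_mem_right _ _ (h11 σ hσ))
  | zero => exact Ideal.zero_mem _
  | add x y _ _ hx hy => exact Ideal.add_mem _ hx hy
  | neg x _ hx => exact (Ideal.neg_mem_iff _).mpr hx

theorem finite_level (hp3 : 3 ≤ p) (hpA : (p : A) ∈ maximalIdeal A) (r : FGQ →* M2 A)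
    (hflat : FlatM p r) (h10 : ∀ σ ∈ Ip p, r σ 1 0 ∈ maximalIdeal A)
    (h11 : ∀ σ ∈ Ip p, r σ 1 1 - 1 ∈ maximalIdeal A) {σ₀ : FGQ} (hσ₀ : σ₀ ∈ Ip p)
    (v₀ : Fin 2 → A) (h0 : ((r σ₀).mulVec v₀ - v₀) 0 = 1) {y : Fin 2 → A}
    (hy : y ∈ augI p (mact r)) :
    y 1 = ((r σ₀).mulVec v₀ - v₀) 1 * y 0 := by
  have hfin : Finite A := hflat.finite
  obtain ⟨k, hk⟩ := (isArtinianRing_iff_isNilpotent_maximalIdeal A).mp inferInstance
  set w : Fin 2 → A := (r σ₀).mulVec v₀ - v₀ with hw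
  have hwm : w ∈ augI p (mact r) := mem_augI hσ₀ v₀
  by_contra hne
  set t : A := y 1 - w 1 * y 0 with ht
  have ht0 : t ≠ 0 := sub_ne_zero.mpr hne
  have htm : ∀ b : A, ((b * t) • (Pi.single 1 1 : Fin 2 → A)) ∈ augI p (mact r) := by
    intro b
    have h1 : (b * t) • (Pi.single 1 1 : Fin 2 → A) = b • (y - y 0 • w) := by
      ext i
      fin_cases i
      · simp [h0]
      · simp [ht, mul_comm]
    rw [h1]
    exact smul_mem_augI r (AddSubgroup.sub_mem _ hy (smul_mem_augI r hwm _)) b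
  obtain ⟨b, hb, hb'⟩ := exists_socle (m := maximalIdeal A) (k := k) ht0 (by
    intro x hx
    rw [hk] at hx
    rw [show x = 0 from hx, zero_mul])
  obtain ⟨z, hz, hzs⟩ := exists_smul_eq_of_mem_augI (act := mact r) hp3 hflat
    (fun σ b x => by rw [mact, Matrix.mulVec_smul]) (b * t) (hb' _ hpA) (htm b)
  have h2 := congrFun hzs 1
  simp only [Pi.smul_apply, Pi.single_eq_same, smul_eq_mul, mul_one] at h2
  rw [mul_comm _ (z 1), hb' _ (augI_one_mem r h10 h11 hz)] at h2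
  exact hb h2

/-- the noetherian version -/
theorem noeth_level [IsNoetherianRing A] (hp3 : 3 ≤ p)
    (hpA : (p : A) ∈ maximalIdeal A) (r : FGQ →* M2 A)
    (hflat : ∀ n : ℕ, FlatM p (mapMat (Ideal.Quotient.mk (maximalIdeal A ^ n)) r))
    (h10 : ∀ σ ∈ Ip p, r σ 1 0 ∈ maximalIdeal A)
    (h11 : ∀ σ ∈ Ip p, r σ 1 1 - 1 ∈ maximalIdeal A) {σ₀ : FGQ} (hσ₀ : σ₀ ∈ Ip p)
    (v₀ : Fin 2 → A) (h0 : ((r σ₀).mulVec v₀ - v₀) 0 = 1) {σ : FGQ} (hσ : σ ∈ Ip p)
    (v : Fin 2 → A) :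
    ((r σ).mulVec v - v) 1 = ((r σ₀).mulVec v₀ - v₀) 1 * ((r σ).mulVec v - v) 0 := by
  rw [← sub_eq_zero, ← Ideal.mem_bot, ← Ideal.iInf_pow_eq_bot_of_isLocalRing (maximalIdeal A)
    (Ideal.IsPrime.ne_top inferInstance), Ideal.mem_iInf]
  intro n
  rcases Nat.eq_zero_or_pos n with rfl | hn
  · simp
  set I := maximalIdeal A ^ n with hI
  have hle : I ≤ maximalIdeal A := Ideal.pow_le_self hn.ne'
  have : Nontrivial (A ⧸ I) := Ideal.Quotient.nontrivial_iff.mpr fun h =>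
    Ideal.IsPrime.ne_top (I := maximalIdeal A) inferInstance (top_le_iff.mp (h ▸ hle))
  have : IsLocalRing (A ⧸ I) :=
    IsLocalRing.of_surjective' (Ideal.Quotient.mk _) Ideal.Quotient.mk_surjective
  have hloc : IsLocalHom (Ideal.Quotient.mk I) :=
    IsLocalHom.of_surjective _ Ideal.Quotient.mk_surjective
  have hmem : ∀ x ∈ maximalIdeal A, Ideal.Quotient.mk I x ∈ maximalIdeal (A ⧸ I) := by
    intro x hx
    rw [mem_maximalIdeal, mem_nonunits_iff] at hx ⊢
    exact fun h => hx (isUnit_of_map_unit _ _ h)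
  have hmul : ∀ (τ : FGQ) (u : Fin 2 → A) (i : Fin 2), Ideal.Quotient.mk I (((r τ).mulVec u - u) i) =
      ((mapMat (Ideal.Quotient.mk I) r τ).mulVec (fun j => Ideal.Quotient.mk I (u j)) -
        (fun j => Ideal.Quotient.mk I (u j))) i := by
    intro τ u i
    simp only [Pi.sub_apply, Matrix.mulVec, dotProduct, map_sub, map_sum, map_mul,
      Fermat.Agent.H53.mapMat_apply]
  have key := finite_level (A := A ⧸ I) hp3 (by simpa using hmem _ hpA)
    (mapMat (Ideal.Quotient.mk I) r) (hflat n) (fun σ hσ => hmem _ (h10 σ hσ))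
    (fun σ hσ => by simpa using hmem _ (h11 σ hσ)) hσ₀ (fun j => Ideal.Quotient.mk I (v₀ j))
    (by rw [← hmul, h0, map_one])
    (mem_augI hσ (fun j => Ideal.Quotient.mk I (v j)))
  rw [← Ideal.Quotient.eq_zero_iff_mem, map_sub, map_mul, hmul, hmul, hmul, sub_eq_zero]
  exact key

end FiniteLevel

section Main

variable {A : Type} [CommRing A]

/-- conjugation of a matrix representation by a unit -/
def cjM (u : (M2 A)ˣ) (r : FGQ →* M2 A) : FGQ →* M2 A where
  toFun σ := ↑u⁻¹ * r σ * ↑u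
  map_one' := by rw [map_one, mul_one, Units.inv_mul]
  map_mul' σ τ := by
    rw [map_mul]
    simp only [mul_assoc, Units.mul_inv_cancel_left]

theorem cjM_apply (u : (M2 A)ˣ) (r : FGQ →* M2 A) (σ : FGQ) : cjM u r σ = ↑u⁻¹ * r σ * ↑u := rfl

theorem u_mul_cjM (u : (M2 A)ˣ) (r : FGQ →* M2 A) (σ : FGQ) : ↑u * cjM u r σ = r σ * ↑u := by
  rw [cjM_apply, mul_assoc, Units.mul_inv_cancel_left]

variable [IsLocalRing A]

theorem isUnit_of_isUnit_residue {g : M2 A} (h : IsUnit (g.map (residue A))) : IsUnit g := by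
  rw [Matrix.isUnit_iff_isUnit_det] at h ⊢
  have h1 : (g.map (residue A)).det = residue A g.det := by
    rw [RingHom.map_det]; rfl
  rw [h1] at h
  exact isUnit_of_map_unit (residue A) _ h

/-- **flat and residually ordinary implies ordinary** (at the chosen place) -/
theorem exists_ordinary_padic [IsNoetherianRing A] (hp3 : 3 ≤ p)
    (hpA : (p : A) ∈ maximalIdeal A) (r : FGQ →* M2 A)
    (hflat : ∀ n : ℕ, FlatM p (mapMat (Ideal.Quotient.mk (maximalIdeal A ^ n)) r))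
    (g₀ : M2 (ResidueField A)) (hg₀ : IsUnit g₀)
    (hI : ∀ σ ∈ Ip p, ∃ x y, mapMat (residue A) r σ * g₀ = g₀ * !![x, y; 0, 1])
    (hne : ∃ σ ∈ Ip p, mapMat (residue A) r σ ≠ 1) :
    ∃ g : M2 A, IsUnit g ∧ g.map (residue A) = g₀ ∧
      (∀ σ ∈ Dp p, ∃ x y z, r σ * g = g * !![x, y; 0, z]) ∧
      (∀ σ ∈ Ip p, ∃ x y, r σ * g = g * !![x, y; 0, 1]) := by
  -- lift the base change
  obtain ⟨g₁, hg₁⟩ : ∃ g₁ : M2 A, g₁.map (residue A) = g₀ := by
    choose f hf using residue_surjective (R := A)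
    refine ⟨g₀.map f, ?_⟩
    ext i j
    exact hf _
  have hu₁ : IsUnit g₁ := isUnit_of_isUnit_residue (by rw [hg₁]; exact hg₀)
  obtain ⟨u, rfl⟩ := hu₁
  set r₁ : FGQ →* M2 A := cjM u r with hr₁
  -- residual form
  have hmap : ∀ (a b : M2 A), (a * b).map (residue A) = a.map (residue A) * b.map (residue A) :=
    fun a b => Matrix.map_mul
  have hres : ∀ σ ∈ Ip p, ∃ x y, (r₁ σ).map (residue A) = !![x, y; 0, 1] := by
    intro σ hσ
    obtain ⟨x, y, hxy⟩ := hI σ hσ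
    refine ⟨x, y, ?_⟩
    have h1 := congrArg (fun a : M2 A => a.map (residue A)) (u_mul_cjM u r σ)
    simp only [hmap, hg₁] at h1
    have h2 : (r σ).map (residue A) * g₀ = g₀ * !![x, y; 0, 1] := hxy
    rw [h2] at h1
    exact hg₀.mul_left_cancel h1
  have h10 : ∀ σ ∈ Ip p, r₁ σ 1 0 ∈ maximalIdeal A := by
    intro σ hσ
    obtain ⟨x, y, hxy⟩ := hres σ hσ
    have h1 := congrFun (congrFun hxy 1) 0
    rw [← residue_eq_zero_iff]
    exact h1
  have h11 : ∀ σ ∈ Ip p, r₁ σ 1 1 - 1 ∈ maximalIdeal A := by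
    intro σ hσ
    obtain ⟨x, y, hxy⟩ := hres σ hσ
    have h1 : residue A (r₁ σ 1 1) = 1 := congrFun (congrFun hxy 1) 1
    rw [← residue_eq_zero_iff, map_sub, h1, map_one, sub_self]
  -- flatness
  have hflat₁ : ∀ n : ℕ, FlatM p (mapMat (Ideal.Quotient.mk (maximalIdeal A ^ n)) r₁) := by
    intro n
    set φ := Ideal.Quotient.mk (maximalIdeal A ^ n) with hφ
    refine FlatM.conj (u := ((↑u⁻¹ : M2 A)).map φ) ?_ ?_ (hflat n)
    · exact (u⁻¹).isUnit.map (φ.mapMatrix : M2 A →+* M2 _)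
    · intro σ
      show ((↑u⁻¹ : M2 A)).map φ * (r σ).map φ = (r₁ σ).map φ * ((↑u⁻¹ : M2 A)).map φ
      rw [← Matrix.map_mul, ← Matrix.map_mul]
      congr 1
      rw [hr₁, cjM_apply, mul_assoc, Units.mul_inv, mul_one]
  -- the vector
  obtain ⟨σ₀, hσ₀, v₀, h0⟩ : ∃ σ₀ ∈ Ip p, ∃ v₀ : Fin 2 → A,
      ((r₁ σ₀).mulVec v₀ - v₀) 0 = 1 := by
    obtain ⟨σ₀, hσ₀, hne₀⟩ := hne
    obtain ⟨x, y, hxy⟩ := hres σ₀ hσ₀
    have h1 : residue A (r₁ σ₀ 0 0) = x := congrFun (congrFun hxy 0) 0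
    have h2 : residue A (r₁ σ₀ 0 1) = y := congrFun (congrFun hxy 0) 1
    have h3 : x ≠ 1 ∨ y ≠ 0 := by
      by_contra hcon
      push Not at hcon
      apply hne₀
      have h4 : (r₁ σ₀).map (residue A) = 1 := by
        rw [hxy, hcon.1, hcon.2]
        ext i j
        fin_cases i <;> fin_cases j <;> rfl
      have h5 := congrArg (fun a : M2 A => a.map (residue A)) (u_mul_cjM u r σ₀)
      simp only [hmap] at h5
      rw [← hr₁, h4, mul_one, hg₁] at h5
      have h6 : (1 : M2 (ResidueField A)) * g₀ = (r σ₀).map (residue A) * g₀ := by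
        rw [one_mul]; exact h5
      exact (hg₀.mul_right_cancel h6).symm
    have h4 : ∃ v : Fin 2 → A, IsUnit (((r₁ σ₀).mulVec v - v) 0) := by
      rcases h3 with h3 | h3
      · refine ⟨Pi.single 0 1, ?_⟩
        rw [← residue_ne_zero_iff_isUnit]
        have h5 : ((r₁ σ₀).mulVec (Pi.single 0 1 : Fin 2 → A) - (Pi.single 0 1 : Fin 2 → A)) 0 = r₁ σ₀ 0 0 - 1 := by
          simp
        rw [h5, map_sub, map_one, h1]
        exact sub_ne_zero.mpr h3
      · refine ⟨Pi.single 1 1, ?_⟩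
        rw [← residue_ne_zero_iff_isUnit]
        have h5 : ((r₁ σ₀).mulVec (Pi.single 1 1 : Fin 2 → A) - (Pi.single 1 1 : Fin 2 → A)) 0 = r₁ σ₀ 0 1 := by
          simp
        rw [h5, h2]
        exact h3
    obtain ⟨v, w, hw⟩ := h4
    refine ⟨σ₀, hσ₀, (↑w⁻¹ : A) • v, ?_⟩
    rw [Matrix.mulVec_smul, ← smul_sub, Pi.smul_apply, ← hw, smul_eq_mul, Units.inv_mul]
  have key := fun (σ : FGQ) (hσ : σ ∈ Ip p) (v : Fin 2 → A) =>
    noeth_level hp3 hpA r₁ hflat₁ h10 h11 hσ₀ v₀ h0 hσ v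
  set w : Fin 2 → A := (r₁ σ₀).mulVec v₀ - v₀ with hw
  set c : A := w 1 with hc
  have hcm : c ∈ maximalIdeal A := augI_one_mem r₁ h10 h11 (mem_augI hσ₀ v₀)
  have hw' : w = ![1, c] := by
    ext i
    fin_cases i
    · exact h0
    · rfl
  -- the new base change
  set L : M2 A := !![1, 0; c, 1] with hL
  have hLu : IsUnit L := by
    rw [Matrix.isUnit_iff_isUnit_det, hL, Matrix.det_fin_two_of]
    simp
  have hLres : L.map (residue A) = 1 := by
    have hc0 : residue A c = 0 := (residue_eq_zero_iff _).mpr hcm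
    ext i j
    fin_cases i <;> fin_cases j <;> simp [hL, hc0]
  have hD : ∀ σ ∈ Dp p, ((r₁ σ).mulVec w) 1 = c * ((r₁ σ).mulVec w) 0 := by
    intro σ hσ
    have h1 : (r₁ σ).mulVec w = (r₁ (σ * σ₀ * σ⁻¹)).mulVec ((r₁ σ).mulVec v₀) -
        (r₁ σ).mulVec v₀ := by
      rw [Matrix.mulVec_mulVec, ← map_mul, inv_mul_cancel_right, hw, Matrix.mulVec_sub,
        Matrix.mulVec_mulVec, ← map_mul]
    rw [h1]
    exact key _ (conj_mem_Ip hσ₀ hσ) _
  have hcol : ∀ σ, r₁ σ * L = !![((r₁ σ).mulVec w) 0, r₁ σ 0 1; ((r₁ σ).mulVec w) 1, r₁ σ 1 1] := by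
    intro σ
    rw [hw']
    ext i j
    fin_cases i <;> fin_cases j <;>
      simp [hL, Matrix.mul_apply, Matrix.mulVec, dotProduct, Fin.sum_univ_two]
  have hgen : ∀ σ ∈ Dp p, r₁ σ * L =
      L * !![((r₁ σ).mulVec w) 0, r₁ σ 0 1; 0, r₁ σ 1 1 - c * r₁ σ 0 1] := by
    intro σ hσ
    rw [hcol, hD σ hσ, hL]
    ext i j
    fin_cases i <;> fin_cases j <;>
      simp [Matrix.mul_apply, Fin.sum_univ_two]
  have htrans : ∀ (σ : FGQ) (T : M2 A), r₁ σ * L = L * T → r σ * (↑u * L) = (↑u * L) * T := by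
    intro σ T h
    rw [← mul_assoc, ← u_mul_cjM, mul_assoc, mul_assoc, ← h]
  refine ⟨↑u * L, u.isUnit.mul hLu, ?_, ?_, ?_⟩
  · rw [hmap, hLres, mul_one, hg₁]
  · intro σ hσ
    exact ⟨_, _, _, htrans σ _ (hgen σ hσ)⟩
  · intro σ hσ
    refine ⟨((r₁ σ).mulVec w) 0, r₁ σ 0 1, htrans σ _ ?_⟩
    rw [hgen σ (Ip_le_Dp hσ)]
    have h1 := key σ hσ (Pi.single 1 1)
    have h2 : r₁ σ 1 1 - c * r₁ σ 0 1 = 1 := by
      have h3 : ((r₁ σ).mulVec (Pi.single 1 1 : Fin 2 → A) -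
        (Pi.single 1 1 : Fin 2 → A)) 0 = r₁ σ 0 1 := by simp
      have h4 : ((r₁ σ).mulVec (Pi.single 1 1 : Fin 2 → A) -
        (Pi.single 1 1 : Fin 2 → A)) 1 = r₁ σ 1 1 - 1 := by simp
      rw [h3, h4] at h1
      rw [← h1]
      ring
    rw [h2]

/-- decomposition groups of conjugate places -/
theorem conj_mem_decomp {P : ValuationSubring FQb} {g σ : FGQ}
    (hσ : σ ∈ P.decompositionSubgroup ℚ) : g * σ * g⁻¹ ∈ (g • P).decompositionSubgroup ℚ := by
  have h1 : σ • P = P := hσ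
  show (g * σ * g⁻¹) • g • P = g • P
  rw [smul_smul, inv_mul_cancel_right, mul_smul, h1]

/-- **flat and residually ordinary implies ordinary** (at any place above `p`) -/
theorem exists_ordinary [IsNoetherianRing A] (hp3 : 3 ≤ p)
    (hpA : (p : A) ∈ maximalIdeal A) {P : ValuationSubring (AlgebraicClosure ℚ)}
    (hP : P.LiesOverPrime p) (r : FGQ →* M2 A)
    (hflat : ∀ n : ℕ, FlatM p (mapMat (Ideal.Quotient.mk (maximalIdeal A ^ n)) r))
    (g₀ : M2 (ResidueField A)) (hg₀ : IsUnit g₀)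
    (hI : ∀ σ ∈ P.inertiaSubgroupIn ℚ, ∃ x y, mapMat (residue A) r σ * g₀ = g₀ * !![x, y; 0, 1])
    (hne : ∃ σ ∈ P.inertiaSubgroupIn ℚ, mapMat (residue A) r σ ≠ 1) :
    ∃ g : M2 A, IsUnit g ∧ g.map (residue A) = g₀ ∧
      (∀ σ ∈ P.decompositionSubgroup ℚ, ∃ x y z, r σ * g = g * !![x, y; 0, z]) ∧
      (∀ σ ∈ P.inertiaSubgroupIn ℚ, ∃ x y, r σ * g = g * !![x, y; 0, 1]) := by
  obtain ⟨h, hh⟩ := Fermat.Agent.H53.exists_smul_eq_place hp.out hP
    (Fermat.Agent.H54.liesOverPrime_padicPlace (q := p))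
  have hh' : h⁻¹ • padicPlace p = P := by rw [← hh, inv_smul_smul]
  set r' : FGQ →* M2 A := r.comp (MulAut.conj h⁻¹).toMonoidHom with hr'
  have hr'a : ∀ σ, r' σ = r (h⁻¹ * σ * h) := by
    intro σ
    rw [hr']
    show r (MulAut.conj h⁻¹ σ) = _
    rw [MulAut.conj_apply, inv_inv]
  have hback : ∀ σ, r' (h * σ * h⁻¹) = r σ := by
    intro σ
    rw [hr'a]
    congr 1
    group
  have hflat' : ∀ n : ℕ, FlatM p (mapMat (Ideal.Quotient.mk (maximalIdeal A ^ n)) r') := by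
    intro n
    refine FlatM.conj (u := mapMat (Ideal.Quotient.mk (maximalIdeal A ^ n)) r h⁻¹) ?_ ?_ (hflat n)
    · exact ((Group.isUnit h⁻¹).map (mapMat (Ideal.Quotient.mk (maximalIdeal A ^ n)) r))
    · intro σ
      show mapMat _ r h⁻¹ * mapMat _ r σ = mapMat _ r (MulAut.conj h⁻¹ σ) * mapMat _ r h⁻¹
      rw [← map_mul, ← map_mul, MulAut.conj_apply]
      congr 1
      group
  obtain ⟨g, hg, hg', hD, hI'⟩ := exists_ordinary_padic hp3 hpA r' hflat' g₀ hg₀
    (fun σ hσ => by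
      have h1 := Fermat.Agent.H63.conj_mem_inertiaSubgroupIn h⁻¹ σ hσ
      rw [hh', inv_inv] at h1
      obtain ⟨x, y, hxy⟩ := hI _ h1
      refine ⟨x, y, ?_⟩
      rw [← hxy]
      show (r' σ).map (residue A) * g₀ = (r (h⁻¹ * σ * h)).map (residue A) * g₀
      rw [hr'a])
    (by
      obtain ⟨σ, hσ, hne⟩ := hne
      refine ⟨h * σ * h⁻¹, ?_, ?_⟩
      · have h1 := Fermat.Agent.H63.conj_mem_inertiaSubgroupIn h σ hσ
        rwa [hh] at h1
      · intro h1
        apply hne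
        rw [← h1]
        show (r σ).map (residue A) = (r' (h * σ * h⁻¹)).map (residue A)
        rw [hback])
  refine ⟨g, hg, hg', fun σ hσ => ?_, fun σ hσ => ?_⟩
  · have h1 := conj_mem_decomp (g := h) hσ
    rw [hh] at h1
    obtain ⟨x, y, z, hxyz⟩ := hD _ h1
    rw [hback] at hxyz
    exact ⟨x, y, z, hxyz⟩
  · have h1 := Fermat.Agent.H63.conj_mem_inertiaSubgroupIn h σ hσ
    rw [hh] at h1
    obtain ⟨x, y, hxy⟩ := hI' _ h1
    rw [hback] at hxy
    exact ⟨x, y, hxy⟩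

end Main

section Adic

open Fermat.Agent.H53 in
/-- **flat, residually ordinary, cyclotomic determinant implies ordinary** -/
theorem isOrdinaryAt_of_isFlatAt {A : Type} [CommRing A] [IsLocalRing A] [IsNoetherianRing A]
    (hp2 : p ≠ 2) (ρ : GaloisRepAdic A) (hdet : ρ.DetIsCyclotomic p) (hflat : ρ.IsFlatAt p)
    (hres : (GaloisRepAdic.ofResidualGaloisRep ρ.residual).IsOrdinaryAt p) :
    ρ.IsOrdinaryAt p := by
  have hp3 : 3 ≤ p := by
    have := hp.out.two_le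
    omega
  obtain ⟨b⟩ := exists_basis ρ
  have hflat' := (isFlatAt_iff_flatM p ρ b).mp hflat
  have := hflat'.1
  have hfin : ∀ n : ℕ, Finite (A ⧸ maximalIdeal A ^ n) := fun n => by
    have : Finite (A ⧸ maximalIdeal A) := ‹Finite (ResidueField A)›
    exact Ideal.finite_quotient_pow (IsNoetherian.noetherian _) n
  intro P hP
  obtain ⟨L₀, ⟨b₀, rfl⟩, hD₀, hI₀⟩ := hres P hP
  let bR : Module.Basis (Fin 2) (ResidueField A) ρ.residual.V := resBasis ρ b
  let b₀' : Module.Basis (Fin 2) (ResidueField A) ρ.residual.V := b₀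
  -- transition matrix
  let g₀ : M2 (ResidueField A) := bR.toMatrix b₀'
  have hg₀ : IsUnit g₀ := by
    rw [isUnit_iff_exists]
    exact ⟨b₀'.toMatrix bR, Module.Basis.toMatrix_mul_toMatrix_flip _ _,
      Module.Basis.toMatrix_mul_toMatrix_flip _ _⟩
  have hconj : ∀ σ, mapMat (residue A) (toMat ρ.ρ b) σ * g₀ = g₀ * toMat ρ.residual.ρ b₀' σ := by
    intro σ
    rw [← toMat_resBasis]
    show LinearMap.toMatrix bR bR (ρ.residual.ρ σ) * bR.toMatrix b₀' =
      bR.toMatrix b₀' * LinearMap.toMatrix b₀' b₀' (ρ.residual.ρ σ)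
    rw [linearMap_toMatrix_mul_basis_toMatrix, basis_toMatrix_mul_linearMap_toMatrix]
  have hI : ∀ σ ∈ P.inertiaSubgroupIn ℚ, toMat ρ.residual.ρ b₀' σ 1 0 = 0 ∧
      toMat ρ.residual.ρ b₀' σ 1 1 = 1 := by
    intro σ hσ
    have h1 := hI₀ σ hσ (b₀' 0)
    have h2 := hI₀ σ hσ (b₀' 1)
    have e1 : b₀'.repr (ρ.residual.ρ σ (b₀' 0) - b₀' 0) 1 = 0 :=
      (mem_span_basis_zero_iff b₀' _).mp h1
    have e2 : b₀'.repr (ρ.residual.ρ σ (b₀' 1) - b₀' 1) 1 = 0 :=
      (mem_span_basis_zero_iff b₀' _).mp h2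
    rw [map_sub, Finsupp.sub_apply, repr_apply_eq] at e1 e2
    simp [sub_eq_zero] at e1 e2
    exact ⟨e1, e2⟩
  obtain ⟨τ, hτ, hτ1⟩ := exists_tau p hp2 P hP
  obtain ⟨g, hg, hg', hD, hI'⟩ := exists_ordinary hp3 hdet.1 hP (toMat ρ.ρ b)
    (fun n => hflat'.2 _ (hfin n)) g₀ hg₀
    (fun σ hσ => by
      refine ⟨toMat ρ.residual.ρ b₀' σ 0 0, toMat ρ.residual.ρ b₀' σ 0 1, ?_⟩
      rw [hconj]
      congr 1
      ext i j
      fin_cases i <;> fin_cases j
      · rfl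
      · rfl
      · exact (hI σ hσ).1
      · exact (hI σ hσ).2)
    ⟨τ, hτ, fun h1 => by
      have h2 := isUnit_det_sub_one p ρ hdet b hτ1
      have h3 : residue A ((toMat ρ.ρ b τ).det - 1) = 0 := by
        have h4 : ((toMat ρ.ρ b τ).map (residue A)).det = residue A (toMat ρ.ρ b τ).det := by
          rw [RingHom.map_det]; rfl
        have h5 : (toMat ρ.ρ b τ).map (residue A) = 1 := h1
        rw [map_sub, ← h4, h5, Matrix.det_one, map_one, sub_self]
      rw [residue_eq_zero_iff] at h3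
      exact (mem_nonunits_iff.mp ((mem_maximalIdeal _).mp h3)) h2⟩
  obtain ⟨b', hb'⟩ := exists_basis_conj ρ b g hg
  refine ⟨_, ⟨b', rfl⟩, fun σ hσ v hv => ?_, fun σ hσ v => ?_⟩
  · obtain ⟨x, y, z, h1⟩ := hD σ hσ
    have h2 : toMat ρ.ρ b' σ = !![x, y; 0, z] := hg.mul_left_cancel ((hb' σ).trans h1)
    rw [mem_span_basis_zero_iff] at hv ⊢
    rw [repr_apply_eq, hv, h2]
    simp
  · obtain ⟨x, y, h1⟩ := hI' σ hσ
    have h2 : toMat ρ.ρ b' σ = !![x, y; 0, 1] := hg.mul_left_cancel ((hb' σ).trans h1)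
    rw [mem_span_basis_zero_iff, map_sub, Finsupp.sub_apply, repr_apply_eq, h2]
    simp

end Adic

end Fermat.Agent.H23
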