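/-
H30Main: unconditional versions of the statement of S30 and of the Hecke-Galois datum.
-/
import Fermat.Agent.H30Local
import Fermat.Agent.H31Inputs
import Fermat.Agent.S23

set_option autoImplicit false

noncomputable section

namespace Fermat.Agent.H30

open IsLocalRing CuspForm

/-- The statement of S30 -/
theorem statementS30 : H96.StatementS30 := statementS30_of fun N _ => H31.jzeroInputs N

instance hasIntegralStructure_fact (N : ℕ) [NeZero N] : Fact (HasIntegralStructure N 2) :=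
  ⟨Fermat.Agent.S23.result N⟩

/-- **The Hecke-Galois datum over `heckeLocal`**. -/
theorem exists_heckeDatum {p : ℕ} [Fact p.Prime] (hp2 : p ≠ 2)
    (N : ℕ) [NeZero N] (S : Finset ℕ) (hpS : p ∈ S)
    (hNS : ∀ q : ℕ, q.Prime → q ∣ N → q ∈ S)
    (𝒪 : Type) [CommRing 𝒪] [IsDomain 𝒪] [IsDiscreteValuationRing 𝒪]
    [IsAdicComplete (maximalIdeal 𝒪) 𝒪] [Finite (ResidueField 𝒪)] [CharZero 𝒪]
    (hp𝒪 : (p : 𝒪) ∈ maximalIdeal 𝒪)
    (θ : heckeAlgebra N 2 (↑S : Set ℕ) →+* ResidueField 𝒪)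
    (ρbar : ResidualGaloisRep (ResidueField 𝒪)) (hirr : ρbar.IsIrreducible)
    (hfrob : ∀ (ℓ : ℕ) (hℓ : ℓ.Prime) (hℓN : ¬ ℓ ∣ N) (hℓS : ℓ ∉ (↑S : Set ℕ)),
      ∀ A : ValuationSubring (AlgebraicClosure ℚ), A.LiesOverPrime ℓ →
        ∀ σ : AlgebraicClosure ℚ ≃ₐ[ℚ] AlgebraicClosure ℚ, A.IsFrobeniusAt σ ℓ →
          LinearMap.charpoly (ρbar.ρ σ) = Polynomial.X ^ 2 -
            Polynomial.C (θ (heckeAlgebra.T hℓ hℓN hℓS)) * Polynomial.X +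
              Polynomial.C ((ℓ : ResidueField 𝒪))) :
    ∃ H : HeckeGaloisRepDatum N (↑S : Set ℕ) 𝒪 θ (heckeLocal N (↑S : Set ℕ) 𝒪 θ),
      H.π = heckeLocal.π N (↑S : Set ℕ) 𝒪 θ ∧
      H.ρ.residual.IsEquiv (ρbar.baseChangeAlong
        (ResidueField.map (algebraMap 𝒪 (heckeLocal N (↑S : Set ℕ) 𝒪 θ)))) ∧
      (∀ q : ℕ, q.Prime → ¬ q ∣ N → q ≠ p → H.ρ.IsUnramifiedAt q) :=
  exists_datum statementS30 hp2 N S hpS hNS 𝒪 hp𝒪 θ ρbar hirr hfrob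

end Fermat.Agent.H30
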