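import Fermat.Agent.H53Cond7
import Fermat.Agent.H53Flat2
import Fermat.Agent.H87Ord

/-!
# Base change of local conditions along an arbitrary local homomorphism
-/

set_option autoImplicit false

noncomputable section

open scoped TensorProduct
open IsLocalRing GaloisRep
open Fermat.Agent.H53

namespace Fermat.Agent.H87.BC

variable {A B : Type} [CommRing A] [IsLocalRing A] [CommRing B] [IsLocalRing B]
  (φ : A →+* B) (hφ : IsLocalHom φ) {ρ : GaloisRepAdic A}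

theorem matCond_baseChangeAlong
    {C : ∀ ⦃A : Type⦄ [CommRing A] [IsLocalRing A], (GQ →* M2 A) → Prop}
    (hC : IsMatCondition C) (h : MatCond C ρ) : MatCond C (ρ.baseChangeAlong φ hφ) := by
  obtain ⟨b⟩ := exists_basis ρ
  rw [hC.matCond_bc_iff φ hφ ρ b]
  exact hC.map φ hφ _ (h b)

theorem isUnramifiedAt_baseChangeAlong {q : ℕ} (h : ρ.IsUnramifiedAt q) :
    (ρ.baseChangeAlong φ hφ).IsUnramifiedAt q := by
  rw [isUnramifiedAt_iff] at h ⊢
  exact matCond_baseChangeAlong φ hφ (isMatCondition_plain _) h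

theorem isUnipotentOnInertiaAt_baseChangeAlong {q : ℕ} (h : ρ.IsUnipotentOnInertiaAt q) :
    (ρ.baseChangeAlong φ hφ).IsUnipotentOnInertiaAt q := by
  rw [isUnipotentOnInertiaAt_iff] at h ⊢
  exact ⟨matCond_baseChangeAlong φ hφ (isMatCondition_plain _) h.1,
    matCond_baseChangeAlong φ hφ (isMatCondition_plain _) h.2⟩

theorem detIsCyclotomic_baseChangeAlong {p : ℕ} (hp : p ≠ 0) (h : ρ.DetIsCyclotomic p) :
    (ρ.baseChangeAlong φ hφ).DetIsCyclotomic p := by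
  rw [detIsCyclotomic_iff _ p hp] at h ⊢
  exact matCond_baseChangeAlong φ hφ (isMatCondition_cyc p _ _ _ hp) h

theorem isFlatAt_baseChangeAlong {p : ℕ} [Fact p.Prime] (hB : Finite (ResidueField B))
    (h : ρ.IsFlatAt p) : (ρ.baseChangeAlong φ hφ).IsFlatAt p := by
  obtain ⟨b⟩ := exists_basis ρ
  rw [isFlatAt_iff_flatM p ρ b] at h
  rw [isFlatAt_iff_flatM p _ (bcBasis φ hφ ρ b)]
  refine ⟨hB, fun I hI => ?_⟩
  rw [toMat_bcBasis, ← mapMat_comp]
  -- the kernel of `A → B/I`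
  let J : Ideal A := RingHom.ker ((Ideal.Quotient.mk I).comp φ)
  have hJ : Finite (A ⧸ J) :=
    Finite.of_injective _ (RingHom.kerLift_injective ((Ideal.Quotient.mk I).comp φ))
  have h1 := (h.2 J hJ).map (RingHom.kerLift ((Ideal.Quotient.mk I).comp φ))
  rw [← mapMat_comp] at h1
  exact h1

/-- characteristic polynomials of Frobenius etc. after base change -/
theorem charpoly_baseChangeAlong (σ : GQ) :
    LinearMap.charpoly ((ρ.baseChangeAlong φ hφ).ρ σ) = (LinearMap.charpoly (ρ.ρ σ)).map φ := by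
  obtain ⟨b⟩ := exists_basis ρ
  rw [toMat_charpoly ρ b, toMat_charpoly _ (bcBasis φ hφ ρ b), toMat_bcBasis, mapMat_apply',
    Matrix.charpoly_map]

/-- the flat condition after base change -/
theorem flatCondition_baseChangeAlong (𝒪 𝒪' : Type) [CommRing 𝒪] [CommRing 𝒪'] [Algebra 𝒪 A]
    [Algebra 𝒪' B] {p : ℕ} [Fact p.Prime]
    {S : Finset ℕ} (hB : Finite (ResidueField B)) (h : flatCondition 𝒪 p S ρ) :
    flatCondition 𝒪' p S (ρ.baseChangeAlong φ hφ) :=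
  ⟨detIsCyclotomic_baseChangeAlong φ hφ (Fact.out : p.Prime).ne_zero h.1,
    isFlatAt_baseChangeAlong φ hφ hB h.2.1,
    fun q hq hqS => isUnramifiedAt_baseChangeAlong φ hφ (h.2.2 q hq hqS)⟩

theorem minimalFlatCondition_baseChangeAlong (𝒪 𝒪' : Type) [CommRing 𝒪] [CommRing 𝒪']
    [Algebra 𝒪 A] [Algebra 𝒪' B] {p : ℕ} [Fact p.Prime]
    {S : Finset ℕ} (hB : Finite (ResidueField B)) (h : minimalFlatCondition 𝒪 p S ρ) :
    minimalFlatCondition 𝒪' p S (ρ.baseChangeAlong φ hφ) :=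
  ⟨flatCondition_baseChangeAlong φ hφ 𝒪 𝒪' hB h.1,
    fun q hqS hq hqp => isUnipotentOnInertiaAt_baseChangeAlong φ hφ (h.2 q hqS hq hqp)⟩

theorem strictOrdinaryCondition_baseChangeAlong (𝒪 𝒪' : Type) [CommRing 𝒪] [CommRing 𝒪']
    [Algebra 𝒪 A] [Algebra 𝒪' B] {p : ℕ} [Fact p.Prime]
    {S : Finset ℕ} (h : strictOrdinaryCondition 𝒪 p S ρ) :
    strictOrdinaryCondition 𝒪' p S (ρ.baseChangeAlong φ hφ) :=
  ⟨detIsCyclotomic_baseChangeAlong φ hφ (Fact.out : p.Prime).ne_zero h.1,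
    Ord.isStrictOrdinaryAt_baseChangeAlong φ hφ h.2.1,
    fun q hq hqS => isUnramifiedAt_baseChangeAlong φ hφ (h.2.2 q hq hqS)⟩

theorem minimalStrictOrdinaryCondition_baseChangeAlong (𝒪 𝒪' : Type) [CommRing 𝒪] [CommRing 𝒪']
    [Algebra 𝒪 A] [Algebra 𝒪' B] {p : ℕ} [Fact p.Prime]
    {S : Finset ℕ} (h : minimalStrictOrdinaryCondition 𝒪 p S ρ) :
    minimalStrictOrdinaryCondition 𝒪' p S (ρ.baseChangeAlong φ hφ) :=
  ⟨strictOrdinaryCondition_baseChangeAlong φ hφ 𝒪 𝒪' h.1,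
    fun q hqS hq hqp => isUnipotentOnInertiaAt_baseChangeAlong φ hφ (h.2 q hqS hq hqp)⟩

end Fermat.Agent.H87.BC
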