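import Fermat.Agent.S32
import Fermat.Agent.H80FlatPt
import Fermat.Agent.H73Flat
import Fermat.Agent.H53Flat2
import Fermat.Agent.H87Glue
import Fermat.Agent.H87BC
import Fermat.Agent.H23FlatOrd
import Fermat.Agent.H47LL2
import Fermat.Agent.H30Main

/-!
# Guide: finite flat group schemes over `ℤ_(p)` and flatness of Galois representations (S32)

This file is a machine-checked table of contents.  It contains no new mathematics: every theorem
below is a theorem of the library, its statement is written out in full, and its proof is a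
reference to the library.  The docstrings say what the statement means, how it is proved and where.
Only `Guide` imports this file.

## What "flat at p" means and how it is handled

A two-dimensional representation `ρ` of the Galois group of `ℚ` over a local ring `A` with finite
residue field is *flat at `p`* if for every ideal `I` of finite index the finite Galois module
`V/IV` is the group of `ℚ̄`-points of a commutative finite flat group scheme over `ℤ_(p)`, the local
ring of `ℤ` at `p` (`flatAt_iff`).  The Prelude says this with Hopf algebras.  The library works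
with *orders of functions*: a finite flat model of a finite Galois module `M` is the same as a ring
of equivariant functions `M → ℚ̄`, finitely generated over `ℤ_(p)`, which separates points and is
stable under `h ↦ h(x + y)` (`hasFlatOrder_def`, `hasFlatOrder_iff_hasFlatModel`).  With this
description Raynaud's closure properties (subgroups, quotients, products, subquotients) are one-line
constructions, without schematic closures and without any hypothesis on the ramification.

## Statement S32

Let `p` be an odd prime not dividing `N`, and let `ρ` be the representation over a finite free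
Hecke algebra `T` of weight two and level `N` (a `HeckeGaloisRepDatum`): the Frobenius elements at
the primes `ℓ` outside `S` have characteristic polynomial `X² - T_ℓ X + ℓ`, and the residual
representation is absolutely irreducible.  Then `ρ` is flat at `p`.  Nothing is assumed about a
realisation of `ρ` in a Tate module, and no multiplicity one theorem is used.  The proof (section 3):

1. S19 (file `GuideFlatTorsion`): `J₀(N)[p^n]` has a finite flat model over `ℤ_(p)`.
2. On `J₀(N)[p^n]` every element `g` of the Galois group satisfies, by the Eichler-Shimura relation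
   and a weak form of the density theorem of Frobenius, a quadratic relation
   `μ(g)² - t(g) μ(g) + d(g) = 0` with `t(g)` a polynomial in the Hecke operators (depending on a
   choice) and `d(g)` a positive integer which represents the value of the cyclotomic character
   modulo `p^n` (`eichler_shimura_J0`, `weak_frobenius_density`).
3. *Trace argument* (section 2): such relations imply that every linear relation between the
   operators `μ(g)` gives the same relation between the operators `ρ(g)`, up to the determinants of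
   commutators; one of these is a unit since the residual representation is absolutely irreducible
   (`det_commutator`, `invertible_commutator`, `trace_relation`, `trace_argument`).
4. Hence `V/IV` is a Galois equivariant subquotient of a power of `J₀(N)[p^n]` for large `n`
   (`relations_descend`, with `hecke_faithful_J0`), and subquotients of flat modules are flat.

## Where it is used

The notion and its closure properties: S32, S56 (the flat deformation condition), and everything
above them.  S32 is used in S38, S43, S59, S60 and through them in S45, S46, S50, S06, S04, S03 and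
S01, and so are most theorems of section 4 (elliptic curves, points of Hecke algebras, ordinary
representations).
NOTES.md: [141] (NOTES-S19-S32), [249] (elliptic curves), [246] (deformation conditions), [160]
(points of Hecke algebras), [284] (residual flatness), [151] (flat and residually ordinary).  The
count of flat cocycles at `p` (S56) is in the file `GuideFlatBound`.
Steps of the proofs: `GuideFlatOrders` (orders, trace argument, S32), `GuideResidualFlat` (residual
flatness), `GuideFlatOrdinary` (flat and ordinary), `GuideFlatCurve` (curves with good reduction).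
Reading order of the library: H19Flat, H32FlatOrder, H32FlatClosure, H32Bridge, H32Burnside,
H32Commutator, H32Trace, H32S32, H32JZero, S32; then H53Flat1, H53Flat2, H73Flat, H87Glue, H87BC,
H80FlatPt, H47LL2, H23FlatOrd.

## Vocabulary

* `GaloisRep.ratLocalizedAt ℓ` (also `H19.Zl ℓ`) is the subring `ℤ_(ℓ)` of `ℚ`.
* `GaloisRepAdic A`: a free `A`-module `ρ.V` of rank two with a homomorphism `ρ.ρ` from the Galois
  group to `End_A(V)`, continuous for the topology of the powers of the maximal ideal;
  `ρ.residual` is its reduction modulo the maximal ideal.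
* `HeckeAlg` is the polynomial ring over `ℤ` in variables `T_ℓ`, `ℓ` prime (`heckeGen ℓ`); it acts on
  `J₀(N)` (`JZero N`) by the Hecke correspondences (`heckeModuleBar N`).
* `CuspForm.heckeAlgebra N 2 S` is the ring generated by the `T_ℓ`, `ℓ ∤ N`, and the `U_q`, `q ∣ N`,
  for the primes outside `S`, on the cusp forms of weight 2; in this file `S` contains the prime
  divisors of `N`, so only the `T_ℓ` occur.  The polynomial ring `MvPolynomial (H31.GoodPrimes N S) ℤ`
  in the variables `T_ℓ`, `ℓ ∤ N`, `ℓ ∉ S`, maps to `HeckeAlg` by `H31.inclHecke N S` and to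
  `CuspForm.heckeAlgebra N 2 S` by `H31.evHecke N S`.
* `CuspForm.HeckeGaloisRepDatum N S 𝒪 θ T`: the data of S32; the fields of this structure are listed in
  the file `GuideGalois` (theorem `datum_fields`).
* `A.LiesOverPrime ℓ`: `ℓ` is a nonunit of the valuation ring `A` of `ℚ̄`; `A.IsFrobeniusAt φ ℓ`:
  `φ` preserves `A` and induces `x ↦ x^ℓ` on its residue field (see the file `GuideAbsGal`).
-/

set_option autoImplicit false

open AlgebraicCurve ModularCurve
open scoped Pointwise TensorProduct WeierstrassCurve.Affine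

namespace Fermat.Agent.Guide.Flat

/-- The absolute Galois group of `ℚ` (notation of this file; in the library also `H32.GQ`). -/
local notation "GQ" => AlgebraicClosure ℚ ≃ₐ[ℚ] AlgebraicClosure ℚ

/-- The field of algebraic numbers (notation of this file only). -/
local notation "Qbar" => AlgebraicClosure ℚ

/-! ### 1. Finite flat models over `ℤ_(ℓ)` and orders of functions -/

/-- **The ring `ℤ_(ℓ)`.**  `GaloisRep.ratLocalizedAt ℓ` is the subring of the rational numbers with
denominator prime to `ℓ` (Prelude).  It is a discrete valuation ring.  File H19Zl. -/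
theorem ratLocalizedAt_def (ℓ : ℕ) [Fact ℓ.Prime] :
    (∀ x : ℚ, x ∈ GaloisRep.ratLocalizedAt ℓ ↔ x.den.Coprime ℓ) ∧
      IsDiscreteValuationRing (GaloisRep.ratLocalizedAt ℓ) :=
  ⟨fun _ => Iff.rfl, H19.isDVR_Zl ℓ⟩

/-- **Definition unfolded: finite flat model.**  `H19.HasFlatModel R K L M act` says that the abelian
group `M` with the operation `act` of `Gal(L/K)` is the group of `L`-points of a commutative finite
flat group scheme over `R`: there are a commutative, cocommutative Hopf algebra `H`, finite and flat
over `R`, and a bijection `e` between the `R`-algebra homomorphisms `H → L` and `M` which is additive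
(`f * g` is the convolution product, Mathlib's `WithConv`) and Galois equivariant (`g = σ ∘ f`
implies `e g = act σ (e f)`).  File H19Flat; the same condition is written out in the frozen
statement S19 and in the Prelude definition `GaloisRepAdic.IsFlatAt`. -/
theorem hasFlatModel_def (R K L : Type) [CommRing R] [Field K] [Field L] [Algebra K L] [Algebra R L]
    (M : Type) [AddCommGroup M] (act : (L ≃ₐ[K] L) → M → M) :
    H19.HasFlatModel R K L M act ↔
      ∃ (H : Type) (_ : CommRing H) (_ : HopfAlgebra R H),
        Module.Finite R H ∧ Module.Flat R H ∧ Coalgebra.IsCocomm R H ∧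
        ∃ e : WithConv (H →ₐ[R] L) ≃ M,
          (∀ f g, e (f * g) = e f + e g) ∧
          ∀ (σ : L ≃ₐ[K] L) (f g : WithConv (H →ₐ[R] L)),
            (∀ h : H, g h = σ (f h)) → e g = act σ (e f) :=
  Iff.rfl

/-- **Definition unfolded: flat order.**  Let `M` be an abelian group with an operation of the Galois
group.  `H32.HasFlatOrder ℓ M act` says that `M` is finite and that there is a `ℤ_(ℓ)`-algebra `H`
of functions `M → ℚ̄` which is a finite module, whose elements are Galois equivariant,
`h(σ m) = σ(h(m))`, which separates the points of `M`, and which is stable under comultiplication: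
for `h ∈ H` the function `(x, y) ↦ h(x + y)` is a combination of functions `a(x) b(y)`, `a, b ∈ H`.
File H32FlatClosure (Galois descent: H32FlatOrder). -/
theorem hasFlatOrder_def (ℓ : ℕ) (M : Type) [AddCommGroup M] (act : GQ → M → M) :
    H32.HasFlatOrder ℓ M act ↔ Finite M ∧
      ∃ H : Subalgebra (GaloisRep.ratLocalizedAt ℓ) (M → Qbar),
        Module.Finite (GaloisRep.ratLocalizedAt ℓ) H ∧
        (∀ h ∈ H, ∀ σ m, h (act σ m) = σ (h m)) ∧
        (∀ m m', (∀ h ∈ H, h m = h m') → m = m') ∧
        ∀ h ∈ H, (fun x : M × M => h (x.1 + x.2)) ∈ Submodule.span (GaloisRep.ratLocalizedAt ℓ)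
          {F : M × M → Qbar | ∃ a ∈ H, ∃ b ∈ H, F = fun x => a x.1 * b x.2} :=
  ⟨fun ⟨h, H, h1, h2, h3, h4⟩ => ⟨h, H, h1, h2, h3, h4⟩,
    fun ⟨h, H, h1, h2, h3, h4⟩ => ⟨h, H, h1, h2, h3, h4⟩⟩

/-- **The dictionary.**  A Galois module has a flat order at the prime `ℓ` if and only if it has a
finite flat model over `ℤ_(ℓ)`.
Proof: an order is itself the Hopf algebra.  The point is that `H ⊗ H → (M × M → ℚ̄)` is injective,
because equivariant functions which are linearly independent over `ℚ` stay independent over `ℚ̄`
(Galois descent); the counit, the antipode, coassociativity, cocommutativity, flatness and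
`Hom(H, ℚ̄) = M` are then automatic.  Conversely the image of the Hopf algebra in the ring of
functions is an order.  Files H19Flat (over any principal ideal domain), H32Bridge. -/
theorem hasFlatOrder_iff_hasFlatModel (ℓ : ℕ) [Fact ℓ.Prime] (M : Type) [AddCommGroup M]
    (act : GQ → M → M) :
    H32.HasFlatOrder ℓ M act ↔ H19.HasFlatModel (GaloisRep.ratLocalizedAt ℓ) ℚ Qbar M act :=
  ⟨H32.HasFlatOrder.hasFlatModel, H32.hasFlatOrder_of_hasFlatModel⟩

/-- **Subgroups.**  A Galois stable subgroup `N` (`i : N → M` injective, equivariant) of a module with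
a flat order has a flat order: restrict the functions to `N`.  (This is Raynaud's schematic closure.)
File H32FlatClosure (`HasFlatOrder.sub`).  Used in H32JZero, H32S32, H53Flat1, H47LL2, H29FK1h. -/
theorem flat_sub (ℓ : ℕ) (M N : Type) [AddCommGroup M] [AddCommGroup N] (actM : GQ → M → M)
    (actN : GQ → N → N) (h : H32.HasFlatOrder ℓ M actM) (i : N →+ M) (hi : Function.Injective i)
    (hact : ∀ σ n, i (actN σ n) = actM σ (i n)) : H32.HasFlatOrder ℓ N actN :=
  h.sub i hi hact

/-- **Quotients.**  A Galois equivariant quotient of a module with a flat order has a flat order: take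
the functions of the order which come from the quotient.  File H32FlatClosure
(`HasFlatOrder.quotient`).  Used in H32S32, H53Flat1, H47LL2. -/
theorem flat_quotient (ℓ : ℕ) (M N : Type) [AddCommGroup M] [AddCommGroup N] (actM : GQ → M → M)
    (actN : GQ → N → N) (h : H32.HasFlatOrder ℓ M actM) (π : M →+ N) (hπ : Function.Surjective π)
    (hact : ∀ σ m, π (actM σ m) = actN σ (π m)) : H32.HasFlatOrder ℓ N actN :=
  h.quotient π hπ hact

/-- **Products** of two modules with flat orders have flat orders.  File H32FlatClosure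
(`HasFlatOrder.prod`).  Used in H53Flat1, for the fibre product axiom of the deformation condition
(`flat_deformation_condition`). -/
theorem flat_prod (ℓ : ℕ) (M N : Type) [AddCommGroup M] [AddCommGroup N] (actM : GQ → M → M)
    (actN : GQ → N → N) (hM : H32.HasFlatOrder ℓ M actM) (hN : H32.HasFlatOrder ℓ N actN) :
    H32.HasFlatOrder ℓ (M × N) (fun σ x => (actM σ x.1, actN σ x.2)) :=
  hM.prod hN

/-- **Powers.**  Finite powers of a module with a flat order have flat orders.  File H32FlatClosure
(`HasFlatOrder.pi`).  Used in H32S32, H53Flat1, H47LL2, H80FlatPt. -/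
theorem flat_power (ℓ : ℕ) (M : Type) [AddCommGroup M] (act : GQ → M → M)
    (h : H32.HasFlatOrder ℓ M act) (ι : Type) [Finite ι] :
    H32.HasFlatOrder ℓ (ι → M) (fun σ x i => act σ (x i)) :=
  h.pi ι

/-- **Subquotients.**  Let a Galois module `A` (not assumed finite) map equivariantly to `M` by `Φ`
and onto `W` by `Ψ`, with `Ker Φ ⊆ Ker Ψ`.  If `M` has a flat order, so has `W`.  This is the form
in which the closure properties are applied: `A` is the group ring of the Galois group over the
Hecke algebra.  File H32S32 (`HasFlatOrder.subquotient`).  Used in H32S32 and H80FlatPt. -/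
theorem flat_subquotient (ℓ : ℕ) (M W A : Type) [AddCommGroup M] [AddCommGroup W] [AddCommGroup A]
    (actM : GQ → M → M) (actW : GQ → W → W) (h : H32.HasFlatOrder ℓ M actM)
    (actA : GQ → A →+ A) (Φ : A →+ M) (Ψ : A →+ W) (hΨ : Function.Surjective Ψ)
    (hker : ∀ a, Φ a = 0 → Ψ a = 0) (hΦact : ∀ σ a, Φ (actA σ a) = actM σ (Φ a))
    (hΨact : ∀ σ a, Ψ (actA σ a) = actW σ (Ψ a)) : H32.HasFlatOrder ℓ W actW :=
  h.subquotient actA Φ Ψ hΨ hker hΦact hΨact

/-- **Continuity is automatic.**  The Galois operation on a module with a flat order factors through a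
finite extension of `ℚ`, generated by the values of finitely many functions.  File H32FlatClosure
(`HasFlatOrder.exists_finite_level`).  Used in H32S32. -/
theorem flat_finite_level (ℓ : ℕ) (M : Type) [AddCommGroup M] (act : GQ → M → M)
    (h : H32.HasFlatOrder ℓ M act) :
    ∃ L : IntermediateField ℚ Qbar, FiniteDimensional ℚ L ∧
      ∀ σ : GQ, (∀ x ∈ L, σ x = x) → ∀ m, act σ m = m :=
  h.exists_finite_level

/-- **Flatness of a representation.**  A representation `ρ` over a local ring `A` is flat at `p`
(Prelude definition `GaloisRepAdic.IsFlatAt`) if and only if the residue field of `A` is finite and,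
for every ideal `I` of finite index, `V/IV` with the induced Galois action (`ρ.levelAction I`) has a
flat order at `p`.  File H53Flat1 (`isFlatAt_iff`).  Used for the deformation condition (H53Flat1,
H53Flat2) and in H47LL2. -/
theorem flatAt_iff (p : ℕ) [Fact p.Prime] (A : Type) [CommRing A] [IsLocalRing A]
    (ρ : GaloisRepAdic A) :
    ρ.IsFlatAt p ↔ Finite (IsLocalRing.ResidueField A) ∧
      ∀ I : Ideal A, Finite (A ⧸ I) →
        H32.HasFlatOrder p (ρ.V ⧸ (I • (⊤ : Submodule A ρ.V))) (fun σ x => ρ.levelAction I σ x) :=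
  H53.isFlatAt_iff p ρ

/-! ### 2. The trace argument -/

/-- **Burnside's theorem over a local ring.**  If the residual representation of `ρ` is absolutely
irreducible then the operators `ρ(g)` span the `A`-module `End_A(V)`, and there is a cyclic vector:
the translates `ρ(g) v₀` of a suitable `v₀` span `V`.  Proof: Burnside's theorem over the algebraic
closure of the residue field, descent to the residue field, Nakayama's lemma.
Files H32Burnside (`span_range_eq_top`), H32S32 (`exists_span_vector`).  Used in H32S32, H31Wire,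
H33Glue, H32RealK, H4OrdP, H75R3, H80FlatPt. -/
theorem burnside (A : Type) [CommRing A] [IsLocalRing A] (ρ : GaloisRepAdic A)
    (h : ρ.residual.IsAbsolutelyIrreducible) :
    Submodule.span A (Set.range ρ.ρ) = ⊤ ∧
      ∃ v₀ : ρ.V, Submodule.span A (Set.range fun g => ρ.ρ g v₀) = ⊤ :=
  ⟨H32.span_range_eq_top ρ h, H32.exists_span_vector ρ h⟩

/-- **An invertible commutator.**  If the residual representation is absolutely irreducible, some
commutator `ρ(x)ρ(y) - ρ(y)ρ(x)` is invertible.  Proof: if all commutators of a group of `2 × 2`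
matrices over an algebraically closed field are singular, the group has an invariant line.
File H32Commutator (`exists_isUnit_det_commutator`). -/
theorem invertible_commutator (A : Type) [CommRing A] [IsLocalRing A] (ρ : GaloisRepAdic A)
    (h : ρ.residual.IsAbsolutelyIrreducible) :
    ∃ x y : GQ, IsUnit (LinearMap.det (ρ.ρ x * ρ.ρ y - ρ.ρ y * ρ.ρ x)) :=
  H32.exists_isUnit_det_commutator ρ h

/-- **The determinant of a commutator** of two endomorphisms of a free module of rank two is a
polynomial in the traces and determinants: with `t = tr X`, `t' = tr Y`, `s = tr XY`, `d = det X`,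
`d' = det Y` it is `4 d d' - t² d' - t'² d + t t' s - s²`.  File H32Trace (`det_comm_eq`). -/
theorem det_commutator (T V : Type) [CommRing T] [AddCommGroup V] [Module T V]
    (b : Module.Basis (Fin 2) T V) (X Y : Module.End T V) :
    LinearMap.det (X * Y - Y * X) =
      4 * LinearMap.det X * LinearMap.det Y - LinearMap.trace T V X ^ 2 * LinearMap.det Y -
        LinearMap.trace T V Y ^ 2 * LinearMap.det X +
        LinearMap.trace T V X * LinearMap.trace T V Y * LinearMap.trace T V (X * Y) -
        LinearMap.trace T V (X * Y) ^ 2 :=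
  H32.det_comm_eq b X Y

/-- **The key identity.**  Let `μ` be a homomorphism from a group to an algebra `E` over a commutative
ring `R`, with functions `t`, `d` to `R` such that `μ(g)² - t(g) μ(g) + d(g) = 0` in `E` and `d` is
multiplicative in `E`.  If `∑ a(g) μ(g) = 0`, then `D(x, y) ∑ a(g) t(gh) = 0` in `E` for all `x`, `y`,
`h`, where `D(x, y)` is the polynomial of `det_commutator` in `t(x)`, `t(y)`, `t(xy)`, `d(x)`, `d(y)`.
Proof: put `c = ∑ a(g) t(g)`.  The relation gives `∑ a(g) t(gh) = d(h) μ(h)⁻¹ c`, so `c μ(x)` is a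
scalar; hence `c` kills `μ(x)μ(y) - μ(y)μ(x)`, whose square is `-D(x, y)`.
File H32Trace (`disc_mul_trace_sum`). -/
theorem trace_relation (R E G : Type) [CommRing R] [Ring E] [Algebra R E] [Group G] (μ : G →* E)
    (t d : G → R) (hQ : ∀ g, μ g * μ g - algebraMap R E (t g) * μ g + algebraMap R E (d g) = 0)
    (hD1 : algebraMap R E (d 1) = 1)
    (hD2 : ∀ g h, algebraMap R E (d (g * h)) = algebraMap R E (d g) * algebraMap R E (d h))
    (s : Finset G) (a : G → R) (hz : ∑ g ∈ s, algebraMap R E (a g) * μ g = 0) (x y h : G) :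
    algebraMap R E ((4 * d x * d y - t x ^ 2 * d y - t y ^ 2 * d x + t x * t y * t (x * y) -
      t (x * y) ^ 2) * ∑ g ∈ s, a g * t (g * h)) = 0 :=
  H32.disc_mul_trace_sum μ t d hQ hD1 hD2 s a hz x y h

/-- **The trace argument.**  Let `ρ` act on a free `T`-module `V` of rank two, with operators
spanning `End_T(V)` and one invertible commutator, and let `μ`, `t`, `d` be as in `trace_relation`.
Let `π : R → T` be a ring homomorphism and `K` an ideal of `T` such that `π(t(g))`, `π(d(g))` are the
trace and the determinant of `ρ(g)` modulo `K`, and `π(P) ∈ K` for all `P ∈ R` which vanish in `E`.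
Then `∑ a(g) μ(g) = 0` in `E` implies `∑ π(a(g)) ρ(g) v ∈ K V`: the group ring acts on `V / K V`
through its image in `E`.  Proof: by `trace_relation` the traces of `(∑ π(a(g)) ρ(g)) ρ(h)` are in
`K`, since `D(x₀, y₀)` is a unit; the trace form on `End_T(V)` is perfect.
File H32Trace (`sum_apply_mem_of_sum_eq_zero`).  Used in H32S32. -/
theorem trace_argument (T V R E G : Type) [CommRing T] [AddCommGroup V] [Module T V] [CommRing R]
    [Ring E] [Algebra R E] [Group G] (b : Module.Basis (Fin 2) T V) (ρ : G →* Module.End T V)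
    (hspan : Submodule.span T (Set.range ρ) = ⊤) (x₀ y₀ : G)
    (hu : IsUnit (LinearMap.det (ρ x₀ * ρ y₀ - ρ y₀ * ρ x₀))) (K : Ideal T) (π : R →+* T)
    (μ : G →* E) (t d : G → R)
    (hQ : ∀ g, μ g * μ g - algebraMap R E (t g) * μ g + algebraMap R E (d g) = 0)
    (hD1 : algebraMap R E (d 1) = 1)
    (hD2 : ∀ g h, algebraMap R E (d (g * h)) = algebraMap R E (d g) * algebraMap R E (d h))
    (ht : ∀ g, π (t g) - LinearMap.trace T V (ρ g) ∈ K)
    (hd : ∀ g, π (d g) - LinearMap.det (ρ g) ∈ K)
    (hfaith : ∀ P : R, algebraMap R E P = 0 → π P ∈ K) (s : Finset G) (a : G → R)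
    (hz : ∑ g ∈ s, algebraMap R E (a g) * μ g = 0) (v : V) :
    ∑ g ∈ s, π (a g) • ρ g v ∈ K • (⊤ : Submodule T V) :=
  H32.sum_apply_mem_of_sum_eq_zero b ρ hspan x₀ y₀ hu K π μ t d hQ hD1 hD2 ht hd hfaith s a hz v

/-! ### 3. Statement S32 -/

/-- **A weak form of the density theorem of Frobenius.**  For every finite extension `L` of `ℚ`,
every finite set `S` of primes and every `g` in the Galois group there are a prime `ℓ ∉ S`, a place
`A` above `ℓ`, a Frobenius element `φ` at `A` and an exponent `j` such that `g = φ^j` on `L`.  (The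
theorem of Frobenius: a conjugate of some generator of the cyclic group of `g` is a Frobenius
element.)  Files H82FrobDensity, H86Density, H31Wire (`weakFrobeniusDensity`).  Used in S31-S33,
S43, S44, S59 and S01. -/
theorem weak_frobenius_density (L : IntermediateField ℚ Qbar) (hL : FiniteDimensional ℚ L)
    (S : Finset ℕ) (g : GQ) :
    ∃ ℓ : ℕ, ℓ.Prime ∧ ℓ ∉ S ∧ ∃ A : ValuationSubring Qbar, A.LiesOverPrime ℓ ∧
      ∃ φ : GQ, A.IsFrobeniusAt φ ℓ ∧ ∃ j : ℕ, ∀ x ∈ L, g x = (φ ^ j) x :=
  H31.weakFrobeniusDensity L hL S g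

/-- **Eichler-Shimura relation on the `p`-power torsion of `J₀(N)`.**  For `ℓ ∤ N p` and a Frobenius
element `φ` at a place above `ℓ`: `φ² x - T_ℓ φ x + ℓ x = 0` if `x` has `p`-power order.
Proof: in characteristic `ℓ` one has `T_ℓ = F + V` and `F V = ℓ` (S37), and the reduction is
injective on torsion of order prime to `ℓ` and compatible with the Hecke operators (S18).
Files H31Inputs (`specializationExists`), H31JZero.  Used in S29-S36, S42, S43, S59 and S01. -/
theorem eichler_shimura_J0 (N p : ℕ) [NeZero N] (ℓ : ℕ) (hℓ : ℓ.Prime) (hℓN : ¬ ℓ ∣ N * p)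
    (A : ValuationSubring Qbar) (hA : A.LiesOverPrime ℓ) (φ : GQ) (hφ : A.IsFrobeniusAt φ ℓ)
    (x : JZero N) (n : ℕ) (hx : p ^ n • x = 0) :
    letI := heckeModuleBar N
    φ • φ • x - heckeGen ⟨ℓ, hℓ⟩ • φ • x + ℓ • x = 0 :=
  letI := heckeModuleBar N; haveI := H31.smulCommClass N
  H31.frobeniusQuadratic_of_specializationExists (H31.specializationExists N p)
    ℓ hℓ hℓN A hA φ hφ x ⟨n, hx⟩

/-- **The Hecke algebra acts faithfully on `J₀(N)`, up to bounded torsion.**  There are `c` and `u`,
`u` prime to `p`, such that for all `n` and all polynomials `P` in the Hecke operators `T_ℓ`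
(`ℓ ∤ N`, `ℓ ∉ S`): if `P` kills `J₀(N)[p^n]` then `u P` is divisible by `p^(n - c)` in the ring of
Hecke operators on cusp forms (no division if `n ≤ c`).  Proof: periods of cusp forms and the
description of `J₀(N)[p^n]` by homomorphisms `Γ₀(N) → ℤ/p^n`.  File H90Faithful. -/
theorem hecke_faithful_J0 (N : ℕ) [NeZero N] (S : Set ℕ)
    (hNS : ∀ q : ℕ, q.Prime → q ∣ N → q ∈ S) (p : ℕ) (hp : p.Prime) :
    letI := heckeModuleBar N
    ∃ c u : ℕ, ¬ p ∣ u ∧ ∀ (n : ℕ) (P : MvPolynomial (H31.GoodPrimes N S) ℤ),
      (∀ x : JZero N, p ^ n • x = 0 → H31.inclHecke N S P • x = 0) →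
        ∃ y : CuspForm.heckeAlgebra N 2 S,
          (u : CuspForm.heckeAlgebra N 2 S) * H31.evHecke N S P =
            (p : CuspForm.heckeAlgebra N 2 S) ^ (n - c) * y :=
  H90.heckeFaithful_jzero N hNS hp

/-- **Relations descend from the torsion of `J` to `ρ`.**  Let `H` be a Hecke Galois representation
(`HeckeGaloisRepDatum`: a homomorphism `H.π` from the Hecke algebra to `T` and a representation
`H.ρ` over `T` with characteristic polynomials `X² - H.π(T_ℓ) X + ℓ` at the Frobenius elements,
residually absolutely irreducible), and `J` a module with commuting actions of the Galois group and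
of the Hecke operators which satisfies the relation of `eichler_shimura_J0`, has finite level and
satisfies `hecke_faithful_J0`.  Then for every `k` there is an `n` such that every relation
`∑ P_g g = 0` on `J[p^n]`, with Hecke polynomials `P_g`, holds for `H.ρ` modulo the `k`-th power of
the maximal ideal.  This is `trace_argument`.  File H32S32 (`exists_level_relations`). -/
theorem relations_descend (p N : ℕ) [NeZero N] (S : Finset ℕ) (𝒪 : Type) [CommRing 𝒪] [IsDomain 𝒪]
    [IsDiscreteValuationRing 𝒪] [IsAdicComplete (IsLocalRing.maximalIdeal 𝒪) 𝒪]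
    (θ : CuspForm.heckeAlgebra N 2 (↑S : Set ℕ) →+* IsLocalRing.ResidueField 𝒪) (T : Type)
    [CommRing T] [IsLocalRing T] [IsNoetherianRing T] [IsAdicComplete (IsLocalRing.maximalIdeal T) T]
    [Algebra 𝒪 T] [IsLocalHom (algebraMap 𝒪 T)] [Module.Finite 𝒪 T] [Module.Free 𝒪 T]
    (J : Type) [AddCommGroup J] [Module HeckeAlg J] [DistribMulAction GQ J]
    [SMulCommClass GQ HeckeAlg J] (hp : p.Prime) (hp𝒪 : (p : 𝒪) ∈ IsLocalRing.maximalIdeal 𝒪)
    (hpS : p ∈ S) (hNS : ∀ q : ℕ, q.Prime → q ∣ N → q ∈ S)
    (H : CuspForm.HeckeGaloisRepDatum N (↑S : Set ℕ) 𝒪 θ T)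
    (hF : ∀ (ℓ : ℕ) (hℓ : ℓ.Prime), ¬ ℓ ∣ N * p → ∀ A : ValuationSubring Qbar,
      A.LiesOverPrime ℓ → ∀ φ : GQ, A.IsFrobeniusAt φ ℓ → ∀ x : J, (∃ n : ℕ, p ^ n • x = 0) →
        φ • φ • x - heckeGen ⟨ℓ, hℓ⟩ • φ • x + ℓ • x = 0)
    (hfin : ∀ n : ℕ, ∃ L : IntermediateField ℚ Qbar, FiniteDimensional ℚ L ∧
      ∀ σ : GQ, (∀ x ∈ L, σ x = x) → ∀ x : J, p ^ n • x = 0 → σ • x = x)
    (hfaith : ∃ c u : ℕ, ¬ p ∣ u ∧
      ∀ (n : ℕ) (P : MvPolynomial (H31.GoodPrimes N (↑S : Set ℕ)) ℤ),
        (∀ x : J, p ^ n • x = 0 → H31.inclHecke N (↑S : Set ℕ) P • x = 0) →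
          ∃ y : CuspForm.heckeAlgebra N 2 (↑S : Set ℕ),
            (u : CuspForm.heckeAlgebra N 2 (↑S : Set ℕ)) * H31.evHecke N (↑S : Set ℕ) P =
              (p : CuspForm.heckeAlgebra N 2 (↑S : Set ℕ)) ^ (n - c) * y) (k : ℕ) :
    ∃ n : ℕ, ∀ P : GQ →₀ MvPolynomial (H31.GoodPrimes N (↑S : Set ℕ)) ℤ,
      (∀ x : J, p ^ n • x = 0 → (P.sum fun g a => H31.inclHecke N (↑S : Set ℕ) a • g • x) = 0) →
      ∀ v : H.ρ.V, (P.sum fun g a => H.π (H31.evHecke N (↑S : Set ℕ) a) • H.ρ.ρ g v) ∈
        (IsLocalRing.maximalIdeal T) ^ k • (⊤ : Submodule T H.ρ.V) := by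
  obtain ⟨n, hn⟩ := H32.exists_level_relations hp hp𝒪 hpS hNS H hF hfin hfaith k
  refine ⟨n, fun P hP => hn P (LinearMap.ext fun x => Subtype.ext ?_)⟩
  simpa only [Finsupp.sum, LinearMap.sum_apply, Submodule.coe_sum] using!
    hP x (H31.nsmul_eq_zero_of_mem x)

/-- **Flatness from the module `J`.**  In the situation of `relations_descend`, if moreover each
`J[p^n]` has a flat order at `p`, then `H.ρ` is flat at `p`.  (`H31.torsEnd p n J σ` is the action of
`σ` on `J[p^n]`; the finite level follows from `flat_finite_level`.)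
Proof: let `B` be the group ring of the Galois group over the Hecke polynomials.  It maps to `V/IV`
by `z ↦ z v₀`, `v₀` a cyclic vector (the power of `B` indexed by `T/I` maps onto `V/IV`), and to a
power of `J[p^n]` by `z ↦ (z m)_m`; by `relations_descend` the kernel of the second map is contained
in the kernel of the first; apply `flat_subquotient`.  File H32S32 (`isFlatAt_of_module`). -/
theorem flat_of_module (p N : ℕ) [NeZero N] (S : Finset ℕ) (𝒪 : Type) [CommRing 𝒪] [IsDomain 𝒪]
    [IsDiscreteValuationRing 𝒪] [IsAdicComplete (IsLocalRing.maximalIdeal 𝒪) 𝒪]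
    [Finite (IsLocalRing.ResidueField 𝒪)]
    (θ : CuspForm.heckeAlgebra N 2 (↑S : Set ℕ) →+* IsLocalRing.ResidueField 𝒪) (T : Type)
    [CommRing T] [IsLocalRing T] [IsNoetherianRing T] [IsAdicComplete (IsLocalRing.maximalIdeal T) T]
    [Algebra 𝒪 T] [IsLocalHom (algebraMap 𝒪 T)] [Module.Finite 𝒪 T] [Module.Free 𝒪 T]
    (J : Type) [AddCommGroup J] [Module HeckeAlg J] [DistribMulAction GQ J]
    [SMulCommClass GQ HeckeAlg J] (hp : p.Prime) (hp𝒪 : (p : 𝒪) ∈ IsLocalRing.maximalIdeal 𝒪)
    (hpS : p ∈ S) (hNS : ∀ q : ℕ, q.Prime → q ∣ N → q ∈ S)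
    (H : CuspForm.HeckeGaloisRepDatum N (↑S : Set ℕ) 𝒪 θ T)
    (hF : ∀ (ℓ : ℕ) (hℓ : ℓ.Prime), ¬ ℓ ∣ N * p → ∀ A : ValuationSubring Qbar,
      A.LiesOverPrime ℓ → ∀ φ : GQ, A.IsFrobeniusAt φ ℓ → ∀ x : J, (∃ n : ℕ, p ^ n • x = 0) →
        φ • φ • x - heckeGen ⟨ℓ, hℓ⟩ • φ • x + ℓ • x = 0)
    (hfaith : ∃ c u : ℕ, ¬ p ∣ u ∧
      ∀ (n : ℕ) (P : MvPolynomial (H31.GoodPrimes N (↑S : Set ℕ)) ℤ),
        (∀ x : J, p ^ n • x = 0 → H31.inclHecke N (↑S : Set ℕ) P • x = 0) →
          ∃ y : CuspForm.heckeAlgebra N 2 (↑S : Set ℕ),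
            (u : CuspForm.heckeAlgebra N 2 (↑S : Set ℕ)) * H31.evHecke N (↑S : Set ℕ) P =
              (p : CuspForm.heckeAlgebra N 2 (↑S : Set ℕ)) ^ (n - c) * y)
    (hflat : ∀ n : ℕ, H32.HasFlatOrder p (Submodule.torsionBy HeckeAlg J ((p : HeckeAlg) ^ n))
      (fun σ m => H31.torsEnd p n J σ m)) :
    H.ρ.IsFlatAt p :=
  H32.isFlatAt_of_module hp hp𝒪 hpS hNS H hF hfaith hflat

/-- **Statement S32**, as frozen.  Let `p` be an odd prime not dividing `N`, in the maximal ideal of
`𝒪`, and `S` a finite set containing `p` and the prime divisors of `N`; then the representation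
`H.ρ` over the Hecke algebra `T` is flat at `p`.  Proof: `flat_of_module` for `J = J₀(N)`, with
`eichler_shimura_J0`, `hecke_faithful_J0` and the flatness of `J₀(N)[p^n]`
(`GuideFlatTorsion`: `torsion_flat`).  The hypothesis `p ≠ 2` is not used in the proof.
Files H32JZero, S32.  Used in S38, S43, S46, S50, S59, S60, S45, S06, S04, S03 and S01. -/
theorem statement_S32 (p N : ℕ) [NeZero N] (S : Finset ℕ) (𝒪 : Type) [CommRing 𝒪] [IsDomain 𝒪]
    [IsDiscreteValuationRing 𝒪] [IsAdicComplete (IsLocalRing.maximalIdeal 𝒪) 𝒪]
    [Finite (IsLocalRing.ResidueField 𝒪)] [CharZero 𝒪]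
    (θ : CuspForm.heckeAlgebra N 2 (↑S : Set ℕ) →+* IsLocalRing.ResidueField 𝒪) (T : Type)
    [CommRing T] [IsLocalRing T] [IsNoetherianRing T] [IsAdicComplete (IsLocalRing.maximalIdeal T) T]
    [Algebra 𝒪 T] [IsLocalHom (algebraMap 𝒪 T)] [Module.Finite 𝒪 T] [Module.Free 𝒪 T]
    (hp : p.Prime) (hp2 : p ≠ 2) (hp𝒪 : (p : 𝒪) ∈ IsLocalRing.maximalIdeal 𝒪) (hpN : ¬ p ∣ N)
    (hpS : p ∈ S) (hNS : ∀ q : ℕ, q.Prime → q ∣ N → q ∈ S)
    (H : CuspForm.HeckeGaloisRepDatum N (↑S : Set ℕ) 𝒪 θ T) :
    H.ρ.IsFlatAt p :=
  S32.result hp hp2 hp𝒪 hpN hpS hNS H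

/-! ### 4. Flatness elsewhere in the proof -/

/-- **Torsion of elliptic curves.**  Let `W` be a Weierstrass equation over `ℤ` with good reduction at
the odd prime `p`, and `n` odd (`p ∣ n` allowed).  Then the group of `n`-torsion points over `ℚ̄` has a
finite flat model over `ℤ_(p)`.  Proof: at points of odd order `η = 2y + a₁x + a₃` does not vanish,
also modulo a place above `p`, so `t = x/η` and `s = 1/η` (zero at the point `0`) are integral on the
`n`-torsion.  The addition law gives relations `g t(P+Q) = a`, `g s(P+Q) = b` with `g`, `a`, `b` in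
the ring generated by the coordinates of `P` and `Q`; at every place above `p` one of the `g` is a
unit, and a proper ideal of a ring of functions on a finite set lies in a valuation ideal at some
point; so `t(P+Q)`, `s(P+Q)` are in that ring, and `t`, `s` generate an order.  Files H73FlatAlg,
H73FlatVal, H73FlatLoc, H73Flat (`hasFlatModel_tors`); NOTES.md [249].  Used in H87Glue. -/
theorem elliptic_torsion_flat (W : WeierstrassCurve ℤ) (p n : ℕ) [Fact p.Prime] (hp2 : p ≠ 2)
    (hΔ : ¬ (p : ℤ) ∣ W.Δ) (hn : Odd n) :
    H19.HasFlatModel (GaloisRep.ratLocalizedAt p) ℚ Qbar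
      (Submodule.torsionBy ℤ ((W.map (Int.castRingHom ℚ))⁄Qbar).Point (n : ℤ))
      (fun σ m => σ • m) :=
  H73.hasFlatModel_tors W hp2 hΔ hn

/-- **The Tate module of an elliptic curve, definition unfolded.**  `H87.Glue.tateZ W hΔ p` is the
representation over `ℤ_p` whose matrices, in a suitable basis `b`, reduce modulo `p^n` to the matrices
of the Galois action on `E[p^n]` in bases `c n` which are compatible with multiplication by `p`.
(`galoisRepModuleEnd` is the Prelude name of the action on the torsion.)  File H87TateEC. -/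
theorem tate_module_content (W : WeierstrassCurve ℤ) (hΔ0 : W.Δ ≠ 0) (p : ℕ) [Fact p.Prime] :
    ∃ (b : Module.Basis (Fin 2) ℤ_[p] (H87.Glue.tateZ W hΔ0 p).V)
      (c : ∀ n : ℕ, Module.Basis (Fin 2) (ZMod (p ^ n))
        (Submodule.torsionBy ℤ ((W.map (Int.castRingHom ℚ))⁄Qbar).Point ((p ^ n : ℕ) : ℤ))),
      (∀ n i, p • (c (n + 1) i : ((W.map (Int.castRingHom ℚ))⁄Qbar).Point) = c n i) ∧
      ∀ n (σ : GQ),
        (LinearMap.toMatrix b b ((H87.Glue.tateZ W hΔ0 p).ρ σ)).map (PadicInt.toZModPow n) =
          LinearMap.toMatrix (c n) (c n) (WeierstrassCurve.Affine.Point.galoisRepModuleEnd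
            (K := Qbar) ℚ (W.map (Int.castRingHom ℚ)) (p ^ n) σ) :=
  ⟨H87.Tate.tateStd _ _ p, H87.Tate.tateBasis _ _ p, H87.Tate.tateBasis_compat _ _ p,
    fun n σ => by rw [← H87.Tate.tateMat_map, ← H87.Tate.toMat_tateStd]; rfl⟩

/-- **The Tate module of an elliptic curve is flat at an odd prime of good reduction**, by
`elliptic_torsion_flat` for the powers of `p`.  File H87Glue (`isFlatAt_of_good`).  Used in H30PT2:
a curve with good reduction at `p` gives a point of the flat deformation problem. -/
theorem tate_module_flat (W : WeierstrassCurve ℤ) (hΔ0 : W.Δ ≠ 0) (p : ℕ) [Fact p.Prime]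
    (hp2 : p ≠ 2) (hΔ : ¬ (p : ℤ) ∣ W.Δ) : (H87.Glue.tateZ W hΔ0 p).IsFlatAt p :=
  H87.Glue.isFlatAt_of_good W hΔ0 p hp2 hΔ

/-- **Base change.**  Flatness at `p` is preserved by base change along a local homomorphism
`φ : A → B` of local rings with finite residue fields: `V_B / J V_B` is a quotient of a power of
`V / IV`, `I` the preimage of `J`.  File H87BC (`isFlatAt_baseChangeAlong`).  Used in H30PT2. -/
theorem flat_base_change (A B : Type) [CommRing A] [IsLocalRing A] [CommRing B] [IsLocalRing B]
    (φ : A →+* B) (hφ : IsLocalHom φ) (ρ : GaloisRepAdic A) (p : ℕ) [Fact p.Prime]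
    (hB : Finite (IsLocalRing.ResidueField B)) (hρ : ρ.IsFlatAt p) :
    (ρ.baseChangeAlong φ hφ).IsFlatAt p :=
  H87.BC.isFlatAt_baseChangeAlong φ hφ hB hρ

/-- **Flatness is a deformation condition** in the sense of the Prelude structure
`GaloisRep.IsDeformationCondition`: it is invariant under isomorphism and under base change between
artinian test algebras, it descends along injective homomorphisms, it holds for a fibre product
`A ×_C B` if it holds over `A` and over `B`, and over a complete noetherian local ring with the same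
residue field it holds if and only if it holds over all artinian quotients.  Proof: `flatAt_iff` and
the closure properties of section 1 (subgroups, quotients, products).  Files H53Flat1, H53Flat2
(`isDeformationCondition_flatAt`).  Used in H53Rings, H53TWB1, H53TWL3, H56S56 (flat deformation
rings; S56, S38, S43, S59, S60, S03 and S01). -/
theorem flat_deformation_condition (𝒪 : Type) [CommRing 𝒪] [IsLocalRing 𝒪]
    [Finite (IsLocalRing.ResidueField 𝒪)] (p : ℕ) [Fact p.Prime] :
    GaloisRep.IsDeformationCondition 𝒪
      (fun _A _ _ _ (ρ : GaloisRepAdic _A) => ρ.IsFlatAt p) :=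
  H53.isDeformationCondition_flatAt 𝒪 p

/-- **Representations inside the Tate module of `J₀(N)` are flat.**  `H30.TateMod p J` is the Tate
module of `J` (sequences `x_n` with `p x_{n+1} = x_n`, `x_0 = 0`), `H30.galTate p J g` the action of
`g` on it.  Let `p ∤ N` (`p = 2` allowed), `𝒪'` a complete discrete valuation ring of characteristic
zero with finite residue field of characteristic `p`, and `ρ` a representation over `𝒪'` which
embeds equivariantly into `𝒪' ⊗ T_p J₀(N)`.  Then `ρ` is flat at `p`.  No irreducibility is assumed.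
File H80FlatPt (`isFlatAt_of_embedding_JZero`).  Used for the points of Hecke algebras (S59, S60). -/
theorem flat_of_embedding_J0 (p : ℕ) [Fact p.Prime] (𝒪' : Type) [CommRing 𝒪'] [IsDomain 𝒪']
    [IsDiscreteValuationRing 𝒪'] [IsAdicComplete (IsLocalRing.maximalIdeal 𝒪') 𝒪']
    [Finite (IsLocalRing.ResidueField 𝒪')] [CharZero 𝒪'] [Algebra ℤ_[p] 𝒪'] (N : ℕ) [NeZero N]
    (hpN : ¬ p ∣ N) (hp𝒪' : (p : 𝒪') ∈ IsLocalRing.maximalIdeal 𝒪')
    (hinj : Function.Injective (algebraMap ℤ_[p] 𝒪')) (ρ : GaloisRepAdic 𝒪')
    (Φ : ρ.V →ₗ[𝒪'] 𝒪' ⊗[ℤ_[p]] H30.TateMod p (JZero N)) (hΦ : Function.Injective Φ)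
    (hg : ∀ (g : GQ) (x : ρ.V),
      Φ (ρ.ρ g x) = (H30.galTate p (JZero N) g).baseChange 𝒪' (Φ x)) :
    ρ.IsFlatAt p :=
  H80.FlatPt.isFlatAt_of_embedding_JZero hpN hp𝒪' hinj ρ Φ hΦ hg

/-- **Residual flatness from modularity.**  Let `W` be a Weierstrass equation over `ℤ`, `p` odd, `E[p]`
irreducible, and `W` residually modular of level `M` at `p` (Prelude: there are a normalised eigenform
`f` of weight 2 on `Γ₀(M)` and a maximal ideal above `p` of the ring of all algebraic integers modulo
which `a_ℓ(f)` and `a_ℓ(W)` are congruent for all primes `ℓ ∤ M p` of good reduction).  Then `E[p] ⊗ k`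
(`H87.Glue.resZ W hΔ p` is `E[p]` as a representation over `ℤ/p`) is unramified at the primes `q ≠ p`
not dividing `M`, and flat at `p` if `p ∤ M`, also when `W` has bad reduction at `p`.  Proof: S30
gives a Hecke Galois representation `H.ρ` whose residual representation is `E[p]` over a finite field;
apply S32 to `H.ρ`, reduce modulo the maximal ideal, descend the field of coefficients.
File H47LL2 (`isFlatAt_resZ'`).  Used in H59LocAt (S43, S38, S59, S60) and H65C1 (S38). -/
theorem residual_flat_of_modular (W : WeierstrassCurve ℤ) (hΔ0 : W.Δ ≠ 0) (p : ℕ) [Fact p.Prime]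
    (hp2 : p ≠ 2) (hirr : W.ModRepIsIrreducible p) (M : ℕ) [NeZero M]
    (hmod : W.IsResiduallyModularOfLevel p M) :
    (¬ p ∣ M → ∀ (k : Type) [Field k] [Finite k] [Algebra (ZMod p) k],
      (GaloisRepAdic.ofResidualGaloisRep ((H87.Glue.resZ W hΔ0 p).baseChange k)).IsFlatAt p) ∧
    ∀ q : ℕ, q.Prime → ¬ q ∣ M → q ≠ p → (H87.Glue.resZ W hΔ0 p).IsUnramifiedAt q :=
  H47.isFlatAt_resZ' W hΔ0 hp2 H30.statementS30 S32.result
    (H87.Glue.resZ_isIrreducible W hΔ0 p hirr) hmod

/-- **Flat and residually ordinary implies ordinary.**  Let `p` be odd, `A` a noetherian local ring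
and `ρ` a representation over `A` with cyclotomic determinant (`p` is not a unit, and if `σ` acts on
the `p^n`-th roots of unity by `a`-th powers then `det ρ(σ) - a` is divisible by `p^n`) which is flat
at `p`.  If the residual representation is ordinary at `p` (stable line under the decomposition
groups, trivial inertia action on the quotient), so is `ρ`.
Proof: the submodule generated by all `σ v - v`, `σ` in inertia, consists of connected points, and a
connected point killed by `p` which is fixed by inertia modulo an inertia stable subgroup lies in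
that subgroup.  File H23FlatOrd, with H64FData, H64FConn, H64FQuot.  Used in H30Type4. -/
theorem ordinary_of_flat (p : ℕ) [Fact p.Prime] (A : Type) [CommRing A] [IsLocalRing A]
    [IsNoetherianRing A] (hp2 : p ≠ 2) (ρ : GaloisRepAdic A) (hdet : ρ.DetIsCyclotomic p)
    (hflat : ρ.IsFlatAt p)
    (hres : (GaloisRepAdic.ofResidualGaloisRep ρ.residual).IsOrdinaryAt p) : ρ.IsOrdinaryAt p :=
  H23.isOrdinaryAt_of_isFlatAt hp2 ρ hdet hflat hres

end Fermat.Agent.Guide.Flat
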