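import Fermat.Agent.H56S56
import Fermat.Agent.H64StatementF

/-!
# Guide to the proof: the local bound for flat deformations at `p` (S56, S43, S59)

This file is a machine-checked table of contents. Every theorem below is a citation of a theorem of
the library, with its statement written out. Nothing imports this file.

**What the block does.** Let `r` be a two-dimensional representation of the Galois group of `ℚ` over a
finite field `k` of odd characteristic `p`, flat at `p`, with cyclotomic determinant. The cocycles of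
its flat lifts to the dual numbers `k[ε]` lie in a group with at most `|k|^4` elements
(`flat_local_bound`), equivalently the tangent space of the flat condition has dimension at most
`1 + dim H^0(ad⁰ r)`. Classically this is a theorem of Raynaud, Fontaine-Laffaille and Ramakrishna. The
proof here uses no Dieudonné theory and no classification of finite flat group schemes, and of local
fields only the absolute value.

**The idea.** A finite flat group scheme over `ℤ_(p)` is given by coordinates: a basis `e_i` of the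
functions on the finite group `W` of its points, with integral structure constants (`FData`).
 * A nonzero point near the origin is not too near (`point_not_too_near`); if inertia acts on it by
   multiples, then it acts through the cyclotomic character (`size_and_character`). The points near
   the origin (`InW0`) form a subobject which does not depend on the coordinates, the connected part.
 * Case (I): the connected part of `r` is a line. Then the lifts are triangular, and the unknowns are an
   unramified homomorphism and an extension class which on inertia is a Kummer class of units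
   (`unit_lemma`; `GuideUnitCocycles`).
 * Case (II): all points are near the origin, and `r` is irreducible at `p`. The leading terms of the
   coordinates (`leading_terms`) show that inertia acts by the fundamental characters of level 2
   (`level_two_structure`). On the group `Tm` of the elements of inertia fixing
   `π = (-p)^(1/(p² - 1))`, which acts trivially, the cocycle of a flat lift consists of three
   homomorphisms `Tm → k`, the entries of a trace zero matrix, given by Kummer classes of units
   (`unit_lemma`) which are congruent to `p`-th powers modulo `p`, i.e. modulo `π^(p² - 1)`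
   (`derivation_argument`). The diagonal one is invariant under `t` and vanishes, the two others are
   exchanged by Frobenius. Beyond the level `p² + p` a class is trivial;
   at the levels `p²` and `p² + p` its residue can be removed; of the other levels the action of
   inertia allows only `p² + 1`, and one counts the residues there (`count_case_two`).

**Order of the file.** 1. Absolute values and roots. 2. Coordinates of finite flat group schemes.
3. The connected part. 4. Kummer classes in flat extensions. 5. The two cases. 6. Case (II).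
7. The bound.

**Where.** NOTES.md, Appendix A.10: [296] (overview of S56), [91] NOTES-S56-FLAT, [280], [297]; also [86],
[212]. Used in S56, S43, S59 and through them in S01, S03, S04, S06, S38, S45, S46, S50, S60
(`flat_local_bound` not in S56, where `H56.statementF` is used; `matrix_near_one` not in S43, S56).
Authors: helpers 64, 29, 56, 95 (case (I): see `GuideUnitCocycles`), 20. Steps of the proofs:
`GuideLayers` (sections 1, 4 and 6), `GuideLevelTwo` (section 6). The place, its decomposition and inertia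
group: see also `GuideAbsGal`.
-/

set_option autoImplicit false
set_option maxSynthPendingDepth 3

open scoped Pointwise

open IsLocalRing GaloisRep Polynomial ExtCitation
open Fermat.Agent.H53 Fermat.Agent.H55 Fermat.Agent.H56 Fermat.Agent.H64

namespace Fermat.Agent.Guide.FlatBound

/-- The absolute Galois group of the rational numbers. -/
local notation "GQ" => (AlgebraicClosure ℚ ≃ₐ[ℚ] AlgebraicClosure ℚ)

/-! ## 1. Absolute values and roots

`nm p x` is the absolute value of `x` in the algebraic closure of `ℚ` given by the fixed embedding into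
the algebraic closure of `ℚ_p`; `Dp p`, `Ip p` are the decomposition and inertia group of this place,
`frob p` is a Frobenius element; `FQb` is the algebraic closure of `ℚ`, `FGQ` its Galois group. `FixI p x`:
`x` is fixed by `Ip p`; `Kap p` is the residue field and `rs` the reduction. -/

/-- **The value group of the field fixed by inertia is `|p|^ℤ`** (`H64FLayer2`): every nonzero algebraic
number fixed by the inertia group has the absolute value of a power of `p`. -/
theorem value_group_fixed_by_inertia {p : ℕ} [Fact p.Prime] {x : FQb} (hx : FixI p x) (hx0 : x ≠ 0) :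
    ∃ k : ℤ, nm p x = nm p (p : FQb) ^ k :=
  hx.exists_zpow hx0

/-- **Uniformizers** (`H64FLayer2`, `H64FLayer`; totally ramified extensions: `H54TotRam`). In a number
field `L`, Galois over `ℚ`, there is `ϖ` with `|ϖ|^N = |p|` such that every element of `L` is a polynomial
in `ϖ` of degree `< N` with coefficients in `L` fixed by inertia. So the expansions of a totally ramified
extension are available inside `ℚ̄`. -/
theorem exists_uniformizer {p : ℕ} [Fact p.Prime] (L : IntermediateField ℚ FQb) [NumberField L]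
    [IsGalois ℚ L] :
    ∃ (N : ℕ) (ϖ : FQb), 0 < N ∧ ϖ ∈ L ∧ nm p ϖ ^ N = nm p (p : FQb) ∧
      ∀ x ∈ L, ∃ f : Fin N → FQb, (∀ i, f i ∈ L ∧ FixI p (f i)) ∧ x = ∑ i, f i * ϖ ^ (i : ℕ) :=
  H64.exists_uniformizer L

/-- In such an expansion no cancellation occurs: every term is at most as large as the sum
(`H64FLayer2`; the absolute values of the nonzero terms are pairwise different). -/
theorem term_le_sum {p : ℕ} [Fact p.Prime] {N : ℕ} (hN : 0 < N) {π : FQb}
    (hπ : nm p π ^ N = nm p (p : FQb)) (f : Fin N → FQb) (hf : ∀ i, FixI p (f i)) (i : Fin N) :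
    nm p (f i * π ^ (i : ℕ)) ≤ nm p (∑ i, f i * π ^ (i : ℕ)) :=
  H64.nm_term_le_sum hN hπ f hf i

/-- **The `p`-th power map near `1`** (`H64FRoot`): if `|y|^(p-1) < |p|`, then
`|(1 + y)^p - 1| = |p| |y|`. -/
theorem pow_near_one {p : ℕ} [Fact p.Prime] {y : FQb} (hy : nm p y ^ (p - 1) < nm p (p : FQb)) :
    nm p ((1 + y) ^ p - 1) = nm p (p : FQb) * nm p y :=
  H64.nm_one_add_pow_sub_one hy

/-- **Roots near `1`** (`H64FRoot`): if `|κ - 1|^(p-1) < |p|^p`, then `κ` has a `p`-th root `α` with
`|α - 1|^(p-1) < |p|`. It is the only one (roots of unity of order `p` are not so near to `1`), so it is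
fixed by every element of the decomposition group which fixes `κ`: this makes Kummer classes beyond
this level trivial. -/
theorem exists_root_near_one {p : ℕ} [Fact p.Prime] {κ : FQb}
    (hκ : nm p (κ - 1) ^ (p - 1) < nm p (p : FQb) ^ p) :
    ∃ α, α ^ p = κ ∧ nm p (α - 1) ^ (p - 1) < nm p (p : FQb) ∧
      nm p (κ - 1) = nm p (p : FQb) * nm p (α - 1) :=
  H64.exists_root_near_one' hκ

/-! ## 2. Coordinates of finite flat group schemes -/

/-- **Coordinates of a finite flat group scheme** (`H64FData`). `FData p act n e a`: the functions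
`e_1, ..., e_n : W → ℚ̄` are a basis of all functions on the finite group `W`, integral at `p`, Galois
equivariant for the action `act` of `GQ` on `W`, and their comultiplication
`e_i(x + y) = ∑ a_ijk e_j(x) e_k(y)` has `p`-integral rational coefficients. In the application
(`exists_coordinates`) `∑ ℤ_(p) e_i` is the Hopf algebra of a finite flat group scheme over `ℤ_(p)` with
points `W`; that it is closed under multiplication is not needed and not part of `FData`. -/
theorem fdata_iff {p : ℕ} [Fact p.Prime] {W : Type*} [AddCommGroup W] (act : H64.FGQ → W → W)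
    (n : ℕ) (e : Fin n → W → AlgebraicClosure ℚ) (a : Fin n → Fin n → Fin n → ℚ) :
    H64.FData p act n e a ↔
      LinearIndependent (AlgebraicClosure ℚ) e ∧
      (∀ F : W → AlgebraicClosure ℚ, ∃ c : Fin n → AlgebraicClosure ℚ, F = ∑ i, c i • e i) ∧
      (∀ i x y, e i (x + y) = ∑ j, ∑ k, (a i j k : AlgebraicClosure ℚ) * (e j x * e k y)) ∧
      (∀ i j k, H64.nm p (a i j k : AlgebraicClosure ℚ) ≤ 1) ∧
      (∀ σ i x, e i (act σ x) = σ (e i x)) ∧ ∀ i x, H64.nm p (e i x) ≤ 1 :=
  ⟨fun h => ⟨h.indep, h.span, h.comul, h.nm_a, h.equiv, h.nm_le⟩,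
    fun ⟨h1, h2, h3, h4, h5, h6⟩ => ⟨h1, h2, h3, h4, h5, h6⟩⟩

/-- **Coordinates exist** (`H64FData`): the points of a finite flat order `H` in the algebra of functions
on `W` (`H32.IsFlatOrder`: a finite algebra over `ℤ_(p)` of equivariant functions which separates the
points and is stable under comultiplication; this is what `IsFlatAt` provides) have coordinates as
above, and `H` is spanned by them. -/
theorem exists_coordinates {p : ℕ} [Fact p.Prime] {W : Type*} [AddCommGroup W] [Finite W]
    {act : FGQ → W → W} {H : Subalgebra (GaloisRep.ratLocalizedAt p) (W → FQb)}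
    (hH : H32.IsFlatOrder p act H) :
    ∃ (n : ℕ) (e : Fin n → W → FQb) (a : Fin n → Fin n → Fin n → ℚ), FData p act n e a ∧
      (∀ i, e i ∈ H) ∧ ∀ h ∈ H, ∃ r : Fin n → GaloisRep.ratLocalizedAt p, h = ∑ i, r i • e i :=
  H64.exists_FData hH

/-- **Coordinates of a flat lift** (`H29FK1f`). `H53.FlatM p R`: the module `B²` with the Galois action
given by the matrices `R` is finite and has a flat order (for a lift which is flat at `p`:
`H29.flatM_of_isFlatAt`, `H29FK1h`). -/
theorem exists_coordinates_of_flat {p : ℕ} [Fact p.Prime] {B : Type} [CommRing B]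
    {R : FGQ →* M2 B} (hR : H53.FlatM p R) :
    ∃ (n : ℕ) (e : Fin n → (Fin 2 → B) → FQb) (a : Fin n → Fin n → Fin n → ℚ),
      FData p (fun σ x => (R σ).mulVec x) n e a :=
  H29.exists_FData_of_flatM hR

/-- **Matrices near the identity** (`H64FConn`): if the entries of `N` have absolute value `< 1`,
`(1 + N)^p = 1` and `N ≠ 0`, then the largest entry satisfies `|p| ≤ |N_ij|^(p-1)`. Used in `H64FQuot`
for the translations by points near the origin, and so in `GuideFlatOrdinary`; in the present block the
same bound for one point is the next theorem. -/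
theorem matrix_near_one {p : ℕ} [Fact p.Prime] {m : Type*} [Fintype m] [DecidableEq m]
    {N : Matrix m m FQb} (hN : ∀ i j, nm p (N i j) < 1) (hp : (1 + N) ^ p = 1) (h0 : N ≠ 0) :
    ∃ i j, (∀ i' j', nm p (N i' j') ≤ nm p (N i j)) ∧
      nm p (p : FQb) ≤ nm p (N i j) ^ (p - 1) :=
  H64.matrix_near_one hN hp h0

/-- **A nonzero point is not too near the origin** (`H29FK1`): `W` killed by `p`, `x ≠ 0` and
`|e_i(x) - e_i(0)| ≤ M < 1` for all `i`; then `|p| ≤ M^(p-1)`. (Expansion of the coordinates of `p x` at
`x`, by the powers of `x` in the dual algebra.) This replaces the theory of Oort-Tate and Raynaud. -/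
theorem point_not_too_near {p : ℕ} [Fact p.Prime] {W : Type*} [AddCommGroup W]
    {act : FGQ → W → W} {n : ℕ} {e : Fin n → W → FQb} {a : Fin n → Fin n → Fin n → ℚ}
    (h : FData p act n e a) (hpW : ∀ x : W, p • x = 0) {x : W} (hx0 : x ≠ 0) {M : ℝ}
    (hM1 : M < 1) (hx : ∀ i, nm p (e i x - e i 0) ≤ M) : nm p (p : FQb) ≤ M ^ (p - 1) :=
  H29.le_size_pow h hpW hx0 hM1 hx

/-- **The size of a point on a line and the character** (`H29FK1`, `H29FK1b`). Let `x ≠ 0` be near the
origin, `W` killed by `p`, and let inertia act on `x` by multiples `c(σ)`. Then the largest coordinate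
`uu e x i = e_i(x) - e_i(0)` satisfies `|uu|^(p-1) = |p|` and `c` is the cyclotomic character.
`H29.InW0 p e x`: `|e_i(x) - e_i(0)| < 1` for all `i`. -/
theorem size_and_character {p : ℕ} [Fact p.Prime] {W : Type*} [AddCommGroup W]
    {act : FGQ → W → W} {n : ℕ} {e : Fin n → W → FQb} {a : Fin n → Fin n → Fin n → ℚ}
    (h : FData p act n e a) (hpW : ∀ x : W, p • x = 0) {x : W} (hx0 : x ≠ 0)
    (hx : H29.InW0 p e x) (c : FGQ → ℕ) (hc : ∀ σ ∈ Ip p, act σ x = c σ • x) :
    (∃ i, (∀ j, nm p (H29.uu e x j) ≤ nm p (H29.uu e x i)) ∧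
      nm p (H29.uu e x i) ^ (p - 1) = nm p (p : FQb)) ∧
      ∀ σ ∈ Ip p, ∀ ζ : FQb, ζ ^ p = 1 → σ ζ = ζ ^ c σ :=
  H29.size_and_char h hpW hx0 hx c hc

/-! ## 3. The connected part

The points `x` with `H29.InW0 p e x` are the points of the connected component of the group scheme. For a
representation `r` in matrix form `FinLev r` says that `r` is trivial on an open subgroup, and `DetCyc p r`
that its determinant is the cyclotomic character modulo `p`. -/

/-- **No étale points in the connected part** (`H29FK1d`, with `H29FK1c`). Let `T ⊂ W` be a subgroup stable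
under inertia, `W` killed by `p ≠ 2`, and `x` near the origin. If inertia acts trivially on `x` modulo
`T`, then `x ∈ T`. (A `T`-invariant combination `F` of the `e_i`, with integral coefficients fixed by
inertia, takes at `x` and at `0` values fixed by inertia, so `F(x) = F(0)` or `|F(x) - F(0)| = |p|^k` with
`k ≥ 1`. If some difference is not `0`, the relation `p x = 0` shows that the largest one is at least
`|p|^(1/(p-1))`, a contradiction for `p > 2`. So all differences vanish, and `x ∈ T`.) -/
theorem mem_of_inertia_trivial_mod {p : ℕ} [Fact p.Prime] {W : Type*} [AddCommGroup W]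
    {act : FGQ → W → W} {n : ℕ} {e : Fin n → W → FQb} {a : Fin n → Fin n → Fin n → ℚ} [Finite W]
    (h : FData p act n e a) (hp2 : p ≠ 2) (hpW : ∀ x : W, p • x = 0) (T : AddSubgroup W)
    (hT : ∀ σ ∈ Ip p, ∀ t ∈ T, act σ t ∈ T) {x : W} (hx : H29.InW0 p e x)
    (hxT : ∀ σ ∈ Ip p, act σ x - x ∈ T) : x ∈ T :=
  H29.mem_of_act_sub_mem h hp2 hpW T hT hx hxT

/-- **The connected part does not depend on the coordinates** (`H29FK1e`, from the preceding theorem; a part
of what Raynaud's uniqueness of finite flat models over `ℤ_p`, `p ≠ 2`, says). -/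
theorem connected_part_unique {p : ℕ} [Fact p.Prime] {W : Type*} [AddCommGroup W]
    {act : FGQ → W → W} {n n' : ℕ} {e : Fin n → W → FQb} {a : Fin n → Fin n → Fin n → ℚ}
    {e' : Fin n' → W → FQb} {a' : Fin n' → Fin n' → Fin n' → ℚ} [Finite W]
    (h : FData p act n e a) (h' : FData p act n' e' a') (hp2 : p ≠ 2)
    (hpW : ∀ x : W, p • x = 0) {x : W} : H29.InW0 p e x ↔ H29.InW0 p e' x :=
  H29.inW0_iff h h' hp2 hpW

/-- **The connected part is a submodule** (`H29FK1f`): for the representation on `B²`, `B` a finite local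
ring of characteristic `p` (in the application `k` or `k[ε]`), the connected part is stable under
multiplication by `B`. (A unit of `B` gives new coordinates; now apply the preceding theorem. A nonunit
`b` is `(1 + b) - 1`.) -/
theorem connected_part_smul {p : ℕ} [Fact p.Prime] {B : Type} [CommRing B] [IsLocalRing B]
    {R : FGQ →* M2 B} {n : ℕ} {e : Fin n → (Fin 2 → B) → FQb} {a : Fin n → Fin n → Fin n → ℚ}
    [Finite B] (h : FData p (fun σ x => (R σ).mulVec x) n e a) (hp2 : p ≠ 2)
    (hB : (p : B) = 0) (b : B) {x : Fin 2 → B} (hx : H29.InW0 p e x) : H29.InW0 p e (b • x) :=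
  H29.inW0_smul h hp2 hB b hx

/-- **Wild inertia** (`H29FWild`). `Wild p` is the group of the `σ` in the inertia group with
`|σ y - y| < |y|` for all `y ≠ 0`. On a number field such an element has `p`-power order, and a
Frobenius element `φ` acts on inertia modulo wild inertia by the `p`-th power. So on a line of `k²` which
is stable under the decomposition group wild inertia acts trivially, and inertia acts by numbers `c`
with `c^p = c` (`H29FK1g`). -/
theorem wild_inertia {p : ℕ} [Fact p.Prime] :
    (∀ σ : FGQ, σ ∈ H29.Wild p ↔ σ ∈ Ip p ∧ ∀ y, y ≠ 0 → nm p (σ y - y) < nm p y) ∧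
    (∀ g ∈ H29.Wild p, ∀ (L : IntermediateField ℚ FQb) [FiniteDimensional ℚ L],
      ∃ s : ℕ, ∀ y ∈ L, (g ^ (p ^ s)) y = y) ∧
    ∀ σ ∈ Ip p, ∀ φ ∈ Dp p, (∀ x, nm p x ≤ 1 → nm p (φ x - x ^ p) < 1) →
      (σ ^ p)⁻¹ * (φ * σ * φ⁻¹) ∈ H29.Wild p :=
  ⟨fun _ => Iff.rfl, fun _ hg L _ => H29.exists_pow_fixes hg L,
    fun _ hσ φ hφ hφ' => H29.frob_conj_mem_Wild hσ φ hφ hφ'⟩

/-- **No stable line when everything is connected** (`H29FK1g`): if all points of `k²` are near the origin
and the determinant is cyclotomic, then there is no line stable under the decomposition group. (By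
`wild_inertia` inertia acts on such a line by numbers `c = c^p`, and through the cyclotomic character by
`size_and_character`, hence trivially on the quotient, which contradicts `mem_of_inertia_trivial_mod`.) -/
theorem no_stable_line {p : ℕ} [Fact p.Prime] {k : Type} [Field k] [Algebra (ZMod p) k]
    {r : FGQ →* M2 k} [Finite k] (hp2 : p ≠ 2) (hr : FinLev r) (hdet : DetCyc p r) {n : ℕ}
    {e : Fin n → (Fin 2 → k) → FQb} {a : Fin n → Fin n → Fin n → ℚ}
    (h : FData p (fun σ x => (r σ).mulVec x) n e a) (hall : ∀ x, H29.InW0 p e x) :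
    ¬ ∃ x : Fin 2 → k, x ≠ 0 ∧ ∀ σ ∈ Dp p, ∃ c : k, (r σ).mulVec x = c • x :=
  H29.no_stable_line hp2 hr hdet h hall

/-! ## 4. Kummer classes in flat extensions

Lifts are given by matrices `R(σ)` over the dual numbers `k[ε]`; `redM k` is the reduction of such
matrices to `k`, `coc R` the cocycle of `R`: `R(σ) = (1 + ε coc R(σ)) r(σ)`. -/

/-- **The unit lemma** (`H64FK2`). Let `W` be killed by `p`, `G'` a subgroup of `GQ`, `W₁ ⊂ W` a subgroup
stable under `G'`, `x ∈ W` with `σ x - x ∈ W₁` for all `σ ∈ G'`, and `ψ : W → μ_p` a character which is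
`G'`-equivariant on `W₁`. Then there is a combination `α = ∑ b_i e_i(x)` with `b_i` integral and fixed
by `G'` such that `|α| = 1` and `σ α = ψ(σ x - x) α` for all `σ ∈ G'`. In words: the Kummer classes
hidden in a flat extension are classes of units. Used in `H56FC5b` and `H95K3Final`; `H75PFlat` proves
the same for characters of arbitrary order (`exists_unit'`). -/
theorem unit_lemma {p : ℕ} [Fact p.Prime] {W : Type*} [AddCommGroup W] [Finite W]
    {act : H64.FGQ → W → W} {n : ℕ} {e : Fin n → W → AlgebraicClosure ℚ}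
    {a : Fin n → Fin n → Fin n → ℚ} (h : H64.FData p act n e a) (hpW : ∀ x : W, p • x = 0)
    (G' : Subgroup H64.FGQ) (W₁ : AddSubgroup W) (x : W) (hx : ∀ σ ∈ G', act σ x - x ∈ W₁)
    (hW₁ : ∀ σ ∈ G', ∀ w ∈ W₁, act σ w ∈ W₁) (ψ : AddChar W (AlgebraicClosure ℚ))
    (hψ : ∀ σ ∈ G', ∀ w ∈ W₁, ψ (act σ w) = σ (ψ w)) :
    ∃ b : Fin n → AlgebraicClosure ℚ, (∀ i, ∀ σ ∈ G', σ (b i) = b i) ∧ (∀ i, H64.nm p (b i) ≤ 1) ∧
      H64.nm p (∑ i, b i * e i x) = 1 ∧
      ∀ σ ∈ G', σ (∑ i, b i * e i x) = ψ (act σ x - x) * ∑ i, b i * e i x :=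
  h.exists_unit hpW G' W₁ x hx hW₁ ψ hψ

/-- **Torsion points kill derivations** (`H64FTors`). `BL p L` is the ring of the elements of `L` of absolute
value at most `1`. If `m x = 0`, then `m · D(e_i(x)) = 0` for every derivation `D` of `BL p L` which kills
the elements fixed by inertia. (The translations `T(x)` are commuting matrices, and `v(x) = D(e(x))`
satisfies `v(x + y) = T(y) v(x) + T(x) v(y)`, so `0 = v(m x) = m T(x)^(m-1) v(x)`.) -/
theorem torsion_derivation {p : ℕ} [Fact p.Prime] {W : Type*} [AddCommGroup W]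
    {act : FGQ → W → W} {n : ℕ} {e : Fin n → W → FQb} {a : Fin n → Fin n → Fin n → ℚ}
    (h : FData p act n e a) {L : IntermediateField ℚ FQb}
    (heL : ∀ i x, e i x ∈ L) {M : Type*} [AddCommGroup M] [Module (BL p L) M]
    (D : Derivation ℤ (BL p L) M) (hD : ∀ b : BL p L, FixI p (b : FQb) → D b = 0)
    {m : ℕ} {x : W} (hx : m • x = 0) (i : Fin n) :
    m • D ⟨e i x, heL i x, h.nm_le i x⟩ = 0 :=
  h.torsion_derivation heL D hD hx i

/-- **The derivation argument** (`H64FK4`, with the derivation of `H64FDeriv`). Let `W` be killed by `p`,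
`π ^ d = -p` with `d > 1` prime to `p`, and `Tm` the stabiliser of `π` in the inertia group. If
`α = ∑ b_i e_i(x)` is a unit, the `b_i` are integral and fixed by `Tm`, and `α ^ p` is fixed by `Tm`, then
`α ^ p ≡ β ^ p mod p` for a unit `β` fixed by `Tm`. (By `torsion_derivation` for the differentials of a
layer; this replaces Fontaine's bounds for the different.) Used in `H56FC5b`. -/
theorem derivation_argument {p : ℕ} [Fact p.Prime] {W : Type*} [AddCommGroup W] [Finite W]
    {act : H64.FGQ → W → W} {n : ℕ} {e : Fin n → W → AlgebraicClosure ℚ}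
    {a : Fin n → Fin n → Fin n → ℚ} (h : H64.FData p act n e a) (hpW : ∀ x : W, p • x = 0) {d : ℕ}
    (hd : 1 < d) (hdp : d.Coprime p) {π : AlgebraicClosure ℚ}
    (hπ : π ^ d = -(p : AlgebraicClosure ℚ)) (x : W) (b : Fin n → AlgebraicClosure ℚ)
    (hb : ∀ i, ∀ σ ∈ H64.Tm p π, σ (b i) = b i) (hb1 : ∀ i, H64.nm p (b i) ≤ 1)
    {α : AlgebraicClosure ℚ} (hα : α = ∑ i, b i * e i x) (hα1 : H64.nm p α = 1)
    (hκ : ∀ σ ∈ H64.Tm p π, σ (α ^ p) = α ^ p) :
    ∃ β, (∀ σ ∈ H64.Tm p π, σ β = β) ∧ H64.nm p β = 1 ∧
      H64.nm p (α ^ p - β ^ p) ≤ H64.nm p (p : AlgebraicClosure ℚ) :=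
  h.exists_congr_pow hpW hd hdp hπ x b hb hb1 hα hα1 hκ

/-- **Flat lifts give good Kummer classes** (`H56FC5b`; `unit_lemma` and `derivation_argument`). `R` a lift
of `r` to the dual numbers with coordinates as above, `r` trivial on `Tm p π`, `u` a basis. Every entry
(in the basis `u`) of the cocycle of `R` is `KumX p π`: a homomorphism `x` on `Tm p π` such that for every
additive character `ψ` of `k` there is `α` with `|α^p - 1| ≤ |p|` and `σ α = ψ(x(σ)) α` for
`σ ∈ Tm p π`. -/
theorem kummer_of_flat_lift {p : ℕ} [Fact p.Prime] {k : Type} [Field k] [Algebra (ZMod p) k]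
    [Finite k] (hp2 : p ≠ 2) {r : FGQ →* M2 k} {π : FQb} (hπ : π ^ (p ^ 2 - 1) = -(p : FQb))
    (hTm : ∀ σ ∈ Tm p π, r σ = 1) {R : FGQ →* M2 (DualNumber k)}
    (hred : ∀ σ, redM k (R σ) = r σ) {n : ℕ} {e : Fin n → (Fin 2 → DualNumber k) → FQb}
    {a : Fin n → Fin n → Fin n → ℚ} (h : FData p (fun σ x => (R σ).mulVec x) n e a)
    (u : (M2 k)ˣ) (i j : Fin 2) :
    KumX p π (fun σ => co u (coc R σ) i j) :=
  H56.kumX_of_FData hp2 hπ hTm hred h u i j

/-! ## 5. The two cases

As in `GuideLocalBounds`, section 3: `Dq (pPrime p)`, `Iq (pPrime p)` are the groups `Dp p`, `Ip p`, `Dlev`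
are the open subgroups of `Dq`, and `GoodLift r R` says that `R` is a continuous lift of `r` to the dual
numbers with the determinant of `r`. -/

/-- **Two cases** (`H29FK1h`). Let `r` be flat at `p` with cyclotomic determinant. Either (I) there is a
basis `u` in which `Dp` acts by upper triangular matrices with lower right entry trivial on inertia,
and every flat lift has an adapted basis of the same kind; or (II) all points are near the origin and
there is no line stable under `Dp`. In case (I) the unknowns are a homomorphism to `k` which is trivial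
on inertia and an extension class which on inertia is a Kummer class of units; they are counted in
`GuideUnitCocycles` (`H95K3Final`). For case (II) see the following theorems. -/
theorem case_division {p : ℕ} [Fact p.Prime] {k : Type} [Field k] [Algebra (ZMod p) k]
    {r : FGQ →* M2 k} [Finite k] (hp2 : p ≠ 2) (hr : FinLev r) (hdet : DetCyc p r)
    (hfl : H53.FlatM p r) :
    (∃ u : (M2 k)ˣ, (∀ σ : Dq (pPrime p), ∃ A T Z : k,
        r (σ : FGQ) * (u : M2 k) = (u : M2 k) * !![A, T; 0, Z] ∧
          ((σ : FGQ) ∈ Iq (pPrime p) → Z = 1)) ∧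
      ∀ R : FGQ →* M2 (DualNumber k), GoodLift r R →
        (∃ h : MCont (DualNumber k) R, (ofMatrix R h).IsFlatAt p) →
        ∃ g : M2 (DualNumber k), IsUnit g ∧ redM k g = (u : M2 k) ∧
          ∀ σ : Dq (pPrime p), ∃ A T Z : DualNumber k,
            R (σ : FGQ) * g = g * !![A, T; 0, Z] ∧ ((σ : FGQ) ∈ Iq (pPrime p) → Z = 1)) ∨
    ((∀ (n : ℕ) (e : Fin n → (Fin 2 → k) → FQb) (a : Fin n → Fin n → Fin n → ℚ),
        FData p (fun σ x => (r σ).mulVec x) n e a → ∀ x, H29.InW0 p e x) ∧
      ¬ ∃ x : Fin 2 → k, x ≠ 0 ∧ ∀ σ ∈ Dp p, ∃ c : k, (r σ).mulVec x = c • x) :=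
  H29.case_division hp2 hr hdet hfl

/-! ## 6. Case (II)

`Tm p π` is the group of the elements of inertia fixing `π`, where `π^(p² - 1) = -p`; `t` is an element
of inertia with `t π = ζ π`, `ζ` a primitive root of unity of order `p² - 1`. `co u Y` is the matrix `Y` in
the basis `u`. -/

/-- **Leading terms** (`H56FC2a`, `H56FC2b`, `H64FCore`; this replaces Raynaud's theorem on fundamental
characters). `W` = points of a finite flat group scheme over `ℤ_(p)`, a `k`-vector space with a `k`-linear
action of `GQ`, irreducible under the decomposition group, all points near the origin. All nonzero points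
have the same size (the largest `|e_i(c x) - e_i(0)|`, `c ∈ k`), and their leading coefficients give
additive functions `l_j` on `W` with values in the residue field `Kap p`, jointly injective (only `x = 0`
has all `l_j x = 0`), on which inertia acts through one tame character
`σ ↦ (σ ϖ / ϖ mod the maximal ideal)`; `rs` is the reduction. -/
theorem leading_terms {p : ℕ} [Fact p.Prime] {k : Type*} [Field k] [Finite k] {W : Type*}
    [AddCommGroup W] [Module k W] [Finite W] [Nontrivial W] {n : ℕ} {e : Fin n → W → FQb}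
    {a : Fin n → Fin n → Fin n → ℚ} {act : FGQ → W → W} (h : FData p act n e a)
    (hconn : ∀ x i, nm p (e i x - e i 0) < 1)
    (hact : ∀ (σ : FGQ) (c : k) (x : W), act σ (c • x) = c • act σ x)
    (hirr : ∀ U : Submodule k W, (∀ σ ∈ Dp p, ∀ x ∈ U, act σ x ∈ U) → U = ⊥ ∨ U = ⊤) :
    ∃ (ϖ : FQb) (l : k × Fin n → W → Kap p), ϖ ≠ 0 ∧ nm p ϖ ≤ 1 ∧
      (∀ j x y, l j (x + y) = l j x + l j y) ∧
      (∀ x, (∀ j, l j x = 0) → x = 0) ∧
      ∀ σ ∈ Ip p, ∀ j x, l j (act σ x) = rs (σ ϖ / ϖ) * l j x :=
  exists_leading_terms h hconn hact hirr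

/-- **Structure in case (II)** (`H56FC2c` to `H56FC2e`; linear algebra: `H56FC2d`; tame inertia:
`H64FTame`; the fundamental characters of level 2). With `π^(p² - 1) = -p`, `t` in the inertia group,
`t π = ζ π`, `ζ` a primitive root of unity of order `p² - 1`: the elements of inertia fixing `π` (the
group `Tm p π`) act trivially, Frobenius acts on inertia by the `p`-th power, and in a suitable basis
`r(t) = diag(g, g^p)`, `r(Frob) = (0 b; 1 0)`, `g^(p + 1) = χ_p(t)`, `g ≠ g^p`. -/
theorem level_two_structure {p : ℕ} [Fact p.Prime] {k : Type} [Field k] [Algebra (ZMod p) k]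
    [Finite k] {r : FGQ →* M2 k} (hr : FinLev r) (hdet : DetCyc p r)
    (hsplit : ∀ σ, ∃ α β : k, (r σ).charpoly =
      (Polynomial.X - Polynomial.C α) * (Polynomial.X - Polynomial.C β))
    {n : ℕ} {e : Fin n → (Fin 2 → k) → FQb} {a : Fin n → Fin n → Fin n → ℚ}
    (h : FData p (fun σ x => (r σ).mulVec x) n e a) (hconn : ∀ x i, nm p (e i x - e i 0) < 1)
    (hirr : ∀ v : Fin 2 → k, v ≠ 0 → ¬ ∀ σ ∈ Dp p, ∃ c : k, (r σ).mulVec v = c • v)
    {π : FQb} (hπ : π ^ (p ^ 2 - 1) = -(p : FQb)) {t : FGQ} (ht : t ∈ Ip p) {ζ : FQb}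
    (hζ : IsPrimitiveRoot ζ (p ^ 2 - 1)) (htπ : t π = ζ * π) :
    (∀ σ ∈ Ip p, σ π = π → r σ = 1) ∧
    (∀ σ ∈ Ip p, r (frob p * σ * (frob p)⁻¹) = r σ ^ p) ∧
    ∃ (P : M2 k) (g b : k), IsUnit P ∧ r t * P = P * !![g, 0; 0, g ^ p] ∧
      r (frob p) * P = P * !![0, b; 1, 0] ∧ g ≠ g ^ p ∧ (g ^ p) ^ p = g ∧ g ≠ 0 ∧ b ≠ 0 ∧
      g ^ (p + 1) = algebraMap (ZMod p) k (cycloChar p t : ZMod p) := by
  obtain ⟨h1, h2, h3⟩ := caseII_structure hr hdet hsplit h hconn hirr hπ ht hζ htπ
  exact ⟨fun σ hσ hσπ => h1 σ ⟨hσ, hσπ⟩, h2, h3⟩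

/-- **A cocycle vanishing on `Tm` is a coboundary** (`H56FC5a`). In the basis of `level_two_structure`: a
cocycle `c` of the decomposition group at `p` with values in the trace zero matrices which vanishes on
`Tm p π` is a coboundary. (After subtracting a coboundary `c` is zero at `t`, hence on inertia; then
`c(Frob)` is a multiple of `diag(1, -1)`, on which Frobenius acts by `-1`; `p` is odd.) So flat cocycles
modulo coboundaries are determined by their entries on `Tm p π`: the diagonal entry is invariant under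
`t` and vanishes, the two other entries are exchanged by Frobenius. -/
theorem coboundary_of_vanishing_on_Tm {p : ℕ} [Fact p.Prime] (hp2 : p ≠ 2) {k : Type} [Field k]
    [Algebra (ZMod p) k] [Finite k] {r : FGQ →* M2 k} (hr : FinLev r) {π : FQb}
    (hπ : π ^ (p ^ 2 - 1) = -(p : FQb)) {t : FGQ} (ht : t ∈ Ip p) {ζ : FQb}
    (hζ : IsPrimitiveRoot ζ (p ^ 2 - 1)) (htπ : t π = ζ * π) (hTm : ∀ σ ∈ Tm p π, r σ = 1)
    {u : (M2 k)ˣ} {g b : k} (htu : r t * u = u * !![g, 0; 0, g ^ p])
    (hφu : r (frob p) * u = u * !![0, b; 1, 0]) (hg : g ≠ g ^ p) (hgp : (g ^ p) ^ p = g)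
    (hg0 : g ≠ 0) (hb : b ≠ 0) {c : Dq (pPrime p) → SL p k}
    (hc : c ∈ Z1 (Dlev (pPrime p)) (rhoD (ad p r) (pPrime p)))
    (hcT : ∀ (σ : FGQ) (hσ : σ ∈ Tm p π), c ⟨σ, mem_Dq_of_Tm hσ⟩ = 0) :
    c ∈ B1 (rhoD (ad p r) (pPrime p)) := by
  refine mem_B1_of_Tm hp2 hr hπ ht hζ htπ hTm htu hφu hg hgp hg0 hb hc fun σ hσ => ?_
  rw [H28.extD_of_mem c (mem_Dq_of_Tm hσ), hcT σ hσ]

/-- **Kummer classes modulo powers of `π`** (`H64FLev`). `Res p π x n ψ m`: the Kummer class `ψ ∘ x` on
`Tm p π` is given by an `α` with `α^p ≡ 1 mod π^n`, and `m` is the residue of `(α^p - 1) / π^n`. If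
the residue is zero, the class has a residue at the next level. -/
theorem res_raise {p : ℕ} [Fact p.Prime] {k : Type*} [Field k] {π : FQb}
    (hπ : π ^ (p ^ 2 - 1) = -(p : FQb)) {x : FGQ → k} [CharP k p] {t : FGQ} (ht : t ∈ Ip p)
    {ζ : FQb} (hζ : IsPrimitiveRoot ζ (p ^ 2 - 1)) (htπ : t π = ζ * π) {n : ℕ}
    {ψ : AddChar k FQb} (h : Res p π x n ψ 0) : ∃ m, Res p π x (n + 1) ψ m :=
  Res.raise hπ ht hζ htπ h

/-- At the level `p²` every residue can be removed by the `p`-th power of some `1 + b π^p`, which is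
`1 + b^p π^(p²)` up to terms of higher level (`H64FLev`). -/
theorem res_improve_one {p : ℕ} [Fact p.Prime] {k : Type*} [Field k] {π : FQb}
    (hπ : π ^ (p ^ 2 - 1) = -(p : FQb)) {x : FGQ → k} [CharP k p] {t : FGQ} (ht : t ∈ Ip p)
    {ζ : FQb} (hζ : IsPrimitiveRoot ζ (p ^ 2 - 1)) (htπ : t π = ζ * π) {ψ : AddChar k FQb}
    {m : Kap p} (h : Res p π x (p ^ 2) ψ m) : ∃ m', Res p π x (p ^ 2 + 1) ψ m' :=
  Res.improve1 hπ ht hζ htπ h

/-- At the level `p² + p` every residue can be removed by the `p`-th power of some `1 + b π^(p + 1)`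
(`H64FLev`): the terms `b^p π^(p² + p)` and `p b π^(p + 1)` have the same level, and one solves the
equation `b^p - b = -m` modulo the maximal ideal. -/
theorem res_improve_two {p : ℕ} [Fact p.Prime] {k : Type*} [Field k] {π : FQb}
    (hπ : π ^ (p ^ 2 - 1) = -(p : FQb)) {x : FGQ → k} [CharP k p] {t : FGQ} (ht : t ∈ Ip p)
    {ζ : FQb} (hζ : IsPrimitiveRoot ζ (p ^ 2 - 1)) (htπ : t π = ζ * π) {ψ : AddChar k FQb}
    {m : Kap p} (h : Res p π x (p ^ 2 + p) ψ m) : ∃ m', Res p π x (p ^ 2 + p + 1) ψ m' :=
  Res.improve2 hπ ht hζ htπ h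

/-- Beyond the level `p² + p` the class is trivial (`H64FLev`, by `exists_root_near_one`). -/
theorem res_final {p : ℕ} [Fact p.Prime] {k : Type*} [Field k] {π : FQb}
    (hπ : π ^ (p ^ 2 - 1) = -(p : FQb)) {x : FGQ → k} [CharP k p] {ψ : AddChar k FQb}
    {m : Kap p} (h : Res p π x (p ^ 2 + p + 1) ψ m) {σ : FGQ} (hσ : σ ∈ Tm p π) :
    ψ (x σ) = 1 :=
  Res.final hπ h hσ

/-- **The count in case (II)** (`H64FCount`). `KumT p π x`: `x` is a homomorphism on `Tm p π` and for every
additive character `ψ` of `k` there is `α` with `|α^p - 1| ≤ |p|` and `σ α = ψ(x σ) α` on `Tm p π`, as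
in `kummer_of_flat_lift`. The homomorphisms of this kind on which `t` acts through `g^(1-p)` and which
are fixed by `Frob²` are finite, and at most `|k|`, in number: by the preceding theorems such a
homomorphism is determined by its residues at the level `p² + 1`, the only one compatible with the
action of `t`; the map "residue" is semilinear, and its values are counted in `H20SemiCount`. -/
theorem count_case_two {p : ℕ} [Fact p.Prime] {k : Type*} [Field k] [CharP k p] {π : FQb}
    (hπ : π ^ (p ^ 2 - 1) = -(p : FQb)) {t : FGQ} (ht : t ∈ Ip p) {ζ : FQb}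
    (hζ : IsPrimitiveRoot ζ (p ^ 2 - 1)) (htπ : t π = ζ * π) [Finite k] (hp3 : 2 < p) {g : k}
    (hg : g ^ p ≠ g) (hg2 : (g ^ p) ^ p = g)
    (hgt : g ^ (p + 1) = ((cycloChar p t : ZMod p).val : k)) :
    {y : Tm p π → k | ∃ x : FGQ → k, (∀ σ : Tm p π, x σ = y σ) ∧ KumT p π x ∧
      (∀ σ ∈ Tm p π, g ^ p * x (t * σ * t⁻¹) = g * x σ) ∧
      ∀ σ ∈ Tm p π, x (frob p * frob p * σ * (frob p * frob p)⁻¹) = x σ}.Finite ∧
    {y : Tm p π → k | ∃ x : FGQ → k, (∀ σ : Tm p π, x σ = y σ) ∧ KumT p π x ∧
      (∀ σ ∈ Tm p π, g ^ p * x (t * σ * t⁻¹) = g * x σ) ∧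
      ∀ σ ∈ Tm p π, x (frob p * frob p * σ * (frob p * frob p)⁻¹) = x σ}.ncard ≤ Nat.card k :=
  H64.kumT_card hπ ht hζ htπ hp3 hg hg2 hgt

/-- **The bound in case (II) from the counts** (`H56FC5c`). With the structure of `level_two_structure`:
if every good homomorphism invariant under `t` is zero (`hL1`; it holds because for such a homomorphism
the action of inertia allows only the level `p² + p`, where the residue can be removed), and the good
homomorphisms on which `t` acts through `g^(1-p)` and which are fixed by `Frob²` lie in a set `X` with at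
most `|k|` elements (`hX`, `hXcard`), then the lifts which have coordinates satisfy the bound with
`N = 4`. -/
theorem local_bound_of_counts {p : ℕ} [Fact p.Prime] {k : Type} [Field k] [Algebra (ZMod p) k]
    [Finite k] (hp2 : p ≠ 2) {r : FGQ →* M2 k} (hr : FinLev r)
    {π : FQb} (hπ : π ^ (p ^ 2 - 1) = -(p : FQb)) {t : FGQ} (ht : t ∈ Ip p) {ζ : FQb}
    (hζ : IsPrimitiveRoot ζ (p ^ 2 - 1)) (htπ : t π = ζ * π)
    (hTm : ∀ σ ∈ Tm p π, r σ = 1) {u : (M2 k)ˣ} {g b : k}
    (htu : r t * u = u * !![g, 0; 0, g ^ p]) (hφu : r (frob p) * u = u * !![0, b; 1, 0])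
    (hg : g ≠ g ^ p) (hgp : (g ^ p) ^ p = g) (hg0 : g ≠ 0) (hb : b ≠ 0)
    (hL1 : ∀ x : FGQ → k, KumX p π x → (∀ σ ∈ Tm p π, x (t * σ * t⁻¹) = x σ) →
      ∀ σ ∈ Tm p π, x σ = 0)
    (X : Set (Tm p π → k)) (hXfin : X.Finite) (hXcard : X.ncard ≤ Nat.card k)
    (hX : ∀ x : FGQ → k, KumX p π x →
      (∀ σ ∈ Tm p π, g ^ p * x (t * σ * t⁻¹) = g * x σ) →
      (∀ σ ∈ Tm p π, x (frob p * (frob p * σ * (frob p)⁻¹) * (frob p)⁻¹) = x σ) →
      (fun σ : Tm p π => x σ) ∈ X)
    {Cond : (FGQ →* M2 (DualNumber k)) → Prop}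
    (hFD : ∀ R, GoodLift r R → Cond R →
      ∃ (n : ℕ) (e : Fin n → (Fin 2 → DualNumber k) → FQb) (a : Fin n → Fin n → Fin n → ℚ),
        FData p (fun σ (x : Fin 2 → DualNumber k) => (R σ).mulVec x) n e a) :
    LocalBound p r (pPrime p) 4 Cond :=
  H56.caseII_localBound hp2 hr hπ ht hζ htπ hTm htu hφu hg hgp hg0 hb hL1 X hXfin hXcard hX hFD

/-! ## 7. The bound -/

/-- **The flat local bound** (`H64StatementF`; for S56 `H56Flat`). `p` odd, `r` of finite level with
cyclotomic determinant and with all characteristic polynomials split. There is ONE group `L` of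
cocycles of the decomposition group at `p` which contains the coboundaries, has at most `#k ^ 4`
elements, and contains the restrictions of the cocycles of all lifts which are flat at `p`.
Equivalently `h^1_fl(ad⁰ r) - h^0(ad⁰ r) ≤ 1`. Used in S43, S59 and, as `H56.statementF`, in S56. -/
theorem flat_local_bound {p : ℕ} [Fact p.Prime] {k : Type} [Field k] [Finite k]
    [Algebra (ZMod p) k] (hp2 : p ≠ 2) (r : GQ →* M2 k)
    (hfin : ∃ U, krullLevels.op U ∧ ∀ σ ∈ U, r σ = 1)
    (hdet : ∀ σ, (r σ).det = algebraMap (ZMod p) k (cycloChar p σ : ZMod p))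
    (hsplit : ∀ σ, ∃ α β : k, (r σ).charpoly = (X - C α) * (X - C β)) :
    ∃ L : Submodule (ZMod p) (Dq (pPrime p) → SL p k),
      B1 (rhoD (ad p r) (pPrime p)) ≤ L ∧
      L ≤ Z1 (Dlev (pPrime p)) (rhoD (ad p r) (pPrime p)) ∧
      Finite L ∧ Nat.card L ≤ Nat.card k ^ 4 ∧
      ∀ R : GQ →* M2 (DualNumber k), GoodLift r R →
        (∃ h : MCont (DualNumber k) R, (ofMatrix R h).IsFlatAt p) →
        ∀ c : Dq (pPrime p) → SL p k, (∀ σ, (c σ : M2 k) = coc R (σ : GQ)) → c ∈ L :=
  H64.statementF hp2 r hfin hdet hsplit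

end Fermat.Agent.Guide.FlatBound
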