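import Fermat.Agent.H73Flat

/-!
# Reader's guide: finite flat models of the torsion of an elliptic curve, step by step

Companion of `GuideCurvesTate`, section 2 (there: the chart, the addition law, the result
`exists_flat_model`); no theorem of that file is repeated. Every theorem is proved by citing theorems of the
library; no other file imports this one.

**What is proved.** Let `W` be a Weierstrass equation over `ℤ`, `p` an odd prime which does not divide its
discriminant, and `n` an odd number (divisible by `p` or not). Then the Galois module `W[n]` has a finite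
flat model over `ℤ_(p)`: a finite flat commutative Hopf algebra with `W[n]` as group of points over `ℚ̄`.

**The classical proof** takes the kernel of multiplication by `n` on the Néron model. Here there are no
schemes. By the dictionary `GuideFlatTorsion.hasFlatModel_iff_exists_order` it suffices to find a ring `H`
of functions `W[n] → ℚ̄` which is finite over `ℤ_(p)`, consists of Galois equivariant functions, separates
the points, and contains with `f` the function `f(P + Q)`, as a sum of products of functions of `P` and of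
`Q`. We take the ring generated by the two functions `t = x / ψ₂` and `s = 1 / ψ₂`, where
`ψ₂ = 2 y + a₁ x + a₃`.
* `t` and `s` are integral over `ℤ_(p)` (section 4), since they are integral at all places above `p`:
  `GuideCurvesTate.chart_integral`. This uses the filtration of the points (`GuideCurvesLocal`) and section
  2.
* The addition law. On the affine cubic `4 t³ + b₂ t² s + 2 b₄ t s² + b₆ s³ = s` the points `P`, `Q` and
  `-(P + Q)` are on a line. This gives two sets of formulas for `P + Q`, with the denominators `G(d)` and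
  `G(d')`, the values of the cubic form `G` at two direction vectors of the line: `d` is the difference of
  `P` and `Q`, and `d'` comes from the difference quotients of `G` (section 1). Modulo a place above `p` at
  least one of them is not zero, since the reduced cubic contains no line and is smooth (sections 2, 3).
* So the ideal of all denominators is not contained in a maximal ideal of the ring of functions on
  `W[n] × W[n]` generated by `t(P)`, `s(P)`, `t(Q)`, `s(Q)`, hence contains `1` (section 4).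

**Where it is used.** For `GuideCurvesTate.tate_flat`: the `p`-adic Tate module is flat at `p`, if `p` is
odd and `p ∤ Δ`. All theorems cited here are in the closures of exactly S01, S03, S04, S06, S38, S45, S46,
S50, S59 and S60. Notes: NOTES-EC9-FLAT (helper73). Files `H73FlatAlg`, `H73FlatVal`, `H73FlatLoc`,
`H73Flat` (helper73).

**Notation.** `H73.Gf b₂ b₄ b₆ t s = 4 t³ + b₂ t² s + 2 b₄ t s² + b₆ s³` is the form `G`; `H73.tC W P` and
`H73.sC W P` are the coordinates `t`, `s` of the point `P` (zero at the origin); `H73.No2 W P`: `P` is not a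
point of exact order two; `H73.Rel`: the addition law along a direction vector (`GuideCurvesTate.rel_iff`).
`H73.curveBar W` is the curve `W` over `ℚ̄`; `A.nonunits` is the maximal ideal of a valuation ring `A`;
`H19.Zl p` is the ring `ℤ_(p)`.
-/

set_option autoImplicit false

noncomputable section

open WeierstrassCurve
open scoped WeierstrassCurve.Affine

namespace Fermat.Agent.Guide.FlatCurve

local notation "Qbar" => AlgebraicClosure ℚ

/-! ## 1. The cubic in the chart and its lines -/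

section Ring

variable {R : Type*} [CommRing R]

/-- **The form and its restriction to a line.** `C1` and `C2` are the coefficients of `τ` and `τ²` in
`G(t + τ u, s + τ v) - (s + τ v)`; the coefficient of `τ³` is `G(u, v)`. File `H73FlatAlg`. -/
theorem restriction_to_line (b₂ b₄ b₆ t s u v τ : R) :
    H73.Gf b₂ b₄ b₆ t s = 4 * t ^ 3 + b₂ * t ^ 2 * s + 2 * b₄ * t * s ^ 2 + b₆ * s ^ 3 ∧
    H73.Gf b₂ b₄ b₆ (t + τ * u) (s + τ * v) - (s + τ * v) =
      H73.Gf b₂ b₄ b₆ t s - s + H73.C1 b₂ b₄ b₆ t s u v * τ + H73.C2 b₂ b₄ b₆ t s u v * τ ^ 2 +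
        H73.Gf b₂ b₄ b₆ u v * τ ^ 3 :=
  ⟨rfl, H73.Gf_line b₂ b₄ b₆ t s u v τ⟩

/-- **Difference quotients.** `Uf` and `Vf` are difference quotients of `G` in the first and in the second
variable. File `H73FlatAlg`. -/
theorem difference_quotients (b₂ b₄ b₆ t₁ s₁ t₂ s₂ : R) :
    H73.Uf b₂ b₄ t₁ s₁ t₂ =
      4 * (t₁ ^ 2 + t₁ * t₂ + t₂ ^ 2) + b₂ * s₁ * (t₁ + t₂) + 2 * b₄ * s₁ ^ 2 ∧
    H73.Vf b₂ b₄ b₆ s₁ t₂ s₂ =
      b₂ * t₂ ^ 2 + 2 * b₄ * t₂ * (s₁ + s₂) + b₆ * (s₁ ^ 2 + s₁ * s₂ + s₂ ^ 2) ∧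
    H73.Gf b₂ b₄ b₆ t₁ s₁ - H73.Gf b₂ b₄ b₆ t₂ s₂ =
      (t₁ - t₂) * H73.Uf b₂ b₄ t₁ s₁ t₂ + (s₁ - s₂) * H73.Vf b₂ b₄ b₆ s₁ t₂ s₂ :=
  ⟨rfl, rfl, H73.Gf_sub b₂ b₄ b₆ t₁ s₁ t₂ s₂⟩

/-- **Two direction vectors.** If `(t₁, s₁)` and `(t₂, s₂)` are on the cubic `G(t, s) = s`, the vectors
`(t₁ - t₂, s₁ - s₂)` and `(1 - Vf, Uf)` are parallel. (For equal points the second one is the direction of
the tangent.) File `H73FlatAlg`. -/
theorem two_directions {k : Type*} [Field k] [DecidableEq k] {b₂ b₄ b₆ t₁ s₁ t₂ s₂ : k}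
    (h₁ : H73.Gf b₂ b₄ b₆ t₁ s₁ = s₁) (h₂ : H73.Gf b₂ b₄ b₆ t₂ s₂ = s₂) :
    (s₁ - s₂) * (1 - H73.Vf b₂ b₄ b₆ s₁ t₂ s₂) = (t₁ - t₂) * H73.Uf b₂ b₄ t₁ s₁ t₂ :=
  H73.parallel h₁ h₂

/-- **From parameters to the addition law.** Let `(e, f)` be a direction, let `(t₂, s₂)` and `(-t₃, -s₃)` be
the points of the line through `(t₁, s₁)` with the parameters `τ₂`, `τ₃`, and let these be the two other
roots of the cubic polynomial of `restriction_to_line` (Vieta: `C2 = -G(e, f) (τ₂ + τ₃)`,
`C1 = G(e, f) τ₂ τ₃`). Then the relations `H73.Rel` hold for every multiple of `(e, f)`: they are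
homogeneous in it. File `H73FlatAlg`. -/
theorem relation_of_parameters {b₂ b₄ b₆ t₁ s₁ t₂ s₂ t₃ s₃ e f : R} (τ₂ τ₃ : R)
    (h1 : τ₂ * e = t₂ - t₁) (h2 : τ₂ * f = s₂ - s₁) (h3 : τ₃ * e = -t₃ - t₁)
    (h4 : τ₃ * f = -s₃ - s₁)
    (h5 : H73.C2 b₂ b₄ b₆ t₁ s₁ e f = -H73.Gf b₂ b₄ b₆ e f * (τ₂ + τ₃))
    (h6 : H73.C1 b₂ b₄ b₆ t₁ s₁ e f = H73.Gf b₂ b₄ b₆ e f * τ₂ * τ₃) (κ : R) :
    H73.Rel b₂ b₄ b₆ t₁ s₁ t₂ s₂ t₃ s₃ (κ * e) (κ * f) :=
  H73.Rel.of_chord τ₂ τ₃ h1 h2 h3 h4 h5 h6 κ

/-- **Relations are tested pointwise**: for functions, and in a ring which embeds in another one. File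
`H73Flat`. -/
theorem relation_pointwise :
    (∀ {X K : Type*} [CommRing K] {b₂ b₄ b₆ t₁ s₁ t₂ s₂ t₃ s₃ u v : X → K},
      (∀ x, H73.Rel (b₂ x) (b₄ x) (b₆ x) (t₁ x) (s₁ x) (t₂ x) (s₂ x) (t₃ x) (s₃ x) (u x) (v x)) →
        H73.Rel b₂ b₄ b₆ t₁ s₁ t₂ s₂ t₃ s₃ u v) ∧
    ∀ {R S : Type*} [CommRing R] [CommRing S] (f : R →+* S), Function.Injective f →
      ∀ {b₂ b₄ b₆ t₁ s₁ t₂ s₂ t₃ s₃ u v : R},
        H73.Rel (f b₂) (f b₄) (f b₆) (f t₁) (f s₁) (f t₂) (f s₂) (f t₃) (f s₃) (f u) (f v) →
          H73.Rel b₂ b₄ b₆ t₁ s₁ t₂ s₂ t₃ s₃ u v :=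
  ⟨H73.Rel.of_pi, fun f hf _ _ _ _ _ _ _ _ _ _ _ h => H73.Rel.comap f hf h⟩

end Ring

/-! ## 2. Geometry of the cubic over a field of characteristic different from two -/

section Field

variable {k : Type*} [Field k]

/-- **The cubic contains no line**: if all coefficients of the cubic polynomial of `restriction_to_line` are
zero, then `(u, v) = 0`. Proof: for `v = 0` the leading coefficient is `4 u³`. For `v ≠ 0` the point with
`s = 0` on the line has `t = 0`, so `(t, s)` is a multiple of `(u, v)`, hence `s = G(t, s) = 0` and `t = 0`;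
but at the origin `C1 = -v`. File `H73FlatAlg`. -/
theorem contains_no_line (h2 : (2 : k) ≠ 0) {b₂ b₄ b₆ t s u v : k}
    (hG : H73.Gf b₂ b₄ b₆ t s = s) (hd : H73.Gf b₂ b₄ b₆ u v = 0)
    (hc1 : H73.C1 b₂ b₄ b₆ t s u v = 0) (hc2 : H73.C2 b₂ b₄ b₆ t s u v = 0) : u = 0 ∧ v = 0 :=
  H73.no_line h2 hG hd hc1 hc2

/-- **The cubic is smooth**: the partial derivatives `Uf` and `Vf - 1` of `G(t, s) - s` do not both vanish
at a point of the cubic. By Euler's relation `t G_t + s G_s = 3 G`, so `2 s = 0` at such a point; then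
`t = 0`, and at the origin the derivative with respect to `s` is `-1`. (The discriminant does not occur: the
singular points of a Weierstrass equation have `ψ₂ = 0`, so they are not in the chart.) File `H73FlatAlg`.
-/
theorem smooth_in_chart (h2 : (2 : k) ≠ 0) {b₂ b₄ b₆ t s : k} (hG : H73.Gf b₂ b₄ b₆ t s = s) :
    ¬ (H73.Uf b₂ b₄ t s t = 0 ∧ 1 - H73.Vf b₂ b₄ b₆ s t s = 0) :=
  fun h => H73.smooth_chart h2 hG h.1 h.2

/-- **Chord and tangent** in the coordinates `x` and `w = ψ₂`: if `(x₁, w₁)`, `(x₂, w₂)`, `(x₃, w₃)` are the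
points `P`, `Q`, `P + Q`, and `m` is the slope of the line in these coordinates (`w² = 4 x³ + b₂ x² + ...`;
`L1` to `L4`: chord or tangent, third point, its negative), then the relations hold in the chart for the
multiples of `(m x₁ - w₁, m)`. File `H73FlatAlg`. -/
theorem chord_and_tangent {b₂ b₄ b₆ x₁ w₁ x₂ w₂ x₃ w₃ m : k} (hw₁ : w₁ ≠ 0) (hw₂ : w₂ ≠ 0)
    (hw₃ : w₃ ≠ 0) (E1 : w₁ ^ 2 = 4 * x₁ ^ 3 + b₂ * x₁ ^ 2 + 2 * b₄ * x₁ + b₆)
    (L1 : m * (x₁ - x₂) = w₁ - w₂)
    (L2 : m * (w₁ + w₂) = 4 * (x₁ ^ 2 + x₁ * x₂ + x₂ ^ 2) + b₂ * (x₁ + x₂) + 2 * b₄)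
    (L3 : 4 * (x₁ + x₂ + x₃) = m ^ 2 - b₂) (L4 : w₃ = -(m * (x₃ - x₁) + w₁)) (κ : k) :
    H73.Rel b₂ b₄ b₆ (x₁ * w₁⁻¹) w₁⁻¹ (x₂ * w₂⁻¹) w₂⁻¹ (x₃ * w₃⁻¹) w₃⁻¹
      (κ * (m * x₁ - w₁)) (κ * m) :=
  H73.chord_generic hw₁ hw₂ hw₃ E1 L1 L2 L3 L4 κ

/-- **Parallel vectors.** If `(e, f) ≠ 0` and `u f = v e`, then `(u, v)` is a multiple of `(e, f)`. File
`H73FlatAlg`. -/
theorem multiple_of_parallel [DecidableEq k] {u v e f : k} (hne : ¬ (e = 0 ∧ f = 0)) (h : u * f = v * e) :
    ∃ κ, u = κ * e ∧ v = κ * f :=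
  H73.exists_scale_of_parallel hne h

variable [DecidableEq k] {W : WeierstrassCurve k}

/-- **The chart**: `P ↦ -P` changes the signs of `t` and `s`; in the chart only the origin has `s = 0`; and
a point in the chart is determined by its coordinates. (A point of exact order two is not in the chart;
there the Lean value of `s` is `0`, too.) File `H73FlatAlg`. -/
theorem chart_properties (h2 : (2 : k) ≠ 0) (P : W.toAffine.Point) :
    H73.tC W (-P) = -H73.tC W P ∧ H73.sC W (-P) = -H73.sC W P ∧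
    (H73.No2 W P → (H73.sC W P = 0 ↔ P = 0)) ∧
    ∀ Q, H73.No2 W P → H73.No2 W Q → H73.tC W P = H73.tC W Q → H73.sC W P = H73.sC W Q → P = Q :=
  ⟨H73.tC_neg P, H73.sC_neg P, H73.sC_eq_zero, fun _ => H73.eq_of_chart h2⟩

/-- **The direction of the line** through `P`, `Q` and `-(P + Q)`, all cases included: a vector
`(e, f) ≠ 0`, parallel to the difference of `P` and `Q` and, for `P = Q`, to the direction of the tangent,
such that the relations hold for all its multiples. With `two_directions` and `multiple_of_parallel` this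
gives `GuideCurvesTate.addition_law`. File `H73FlatAlg`. -/
theorem direction_of_line (h2 : (2 : k) ≠ 0) {P Q : W.toAffine.Point} (hP : H73.No2 W P)
    (hQ : H73.No2 W Q) (hPQ : H73.No2 W (P + Q)) :
    ∃ e f : k, ¬ (e = 0 ∧ f = 0) ∧
      (H73.tC W P - H73.tC W Q) * f = (H73.sC W P - H73.sC W Q) * e ∧
      (P = Q → (1 - H73.Vf W.b₂ W.b₄ W.b₆ (H73.sC W P) (H73.tC W P) (H73.sC W P)) * f =
        H73.Uf W.b₂ W.b₄ (H73.tC W P) (H73.sC W P) (H73.tC W P) * e) ∧
      ∀ κ : k, H73.Rel W.b₂ W.b₄ W.b₆ (H73.tC W P) (H73.sC W P) (H73.tC W Q) (H73.sC W Q)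
        (H73.tC W (P + Q)) (H73.sC W (P + Q)) (κ * e) (κ * f) :=
  H73.exists_direction h2 hP hQ hPQ

/-- **Points of odd order are in the chart.** File `H73FlatVal`. -/
theorem odd_order_in_chart {n : ℕ} (hn : Odd n) {P : W.toAffine.Point} (hP : n • P = 0) :
    H73.No2 W P :=
  H73.no2_of_odd hn hP

end Field

/-! ## 3. Reduction at a place -/

section Reduction

variable {K : Type*} [Field K] {A : ValuationSubring K}

/-- **Points with the same reduction** on a curve with good reduction: if `x`, `y` are integral and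
congruent to `x'`, `y'`, then the difference of the two points is in the kernel of reduction (`InE1`,
`GuideCurvesLocal`); otherwise the reduced point would be singular. It is used for `P` and `-P` in the proof
that `t` and `s` are integral. File `H73FlatVal`. -/
theorem same_reduction [DecidableEq K] {W : WeierstrassCurve K}
    (hW : ∃ W₀ : WeierstrassCurve A, W₀.map (algebraMap A K) = W) (hΔ : W.Δ ∉ A.nonunits)
    {x y x' y' : K} (h : W.toAffine.Nonsingular x y) (h' : W.toAffine.Nonsingular x' y')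
    (hx : x ∈ A) (hxx : x' - x ∈ A.nonunits) (hyy : y' - y ∈ A.nonunits) :
    H73.InE1 A (Affine.Point.some x y h - Affine.Point.some x' y' h') :=
  H73.inE1_sub_of_congr hW hΔ h h' hx hxx hyy

/-- **The denominator of one law.** If the relations hold along `(u, v)` and `(u, v)` is not zero modulo the
place, then `G(u, v)` is a unit: otherwise `C1` and `C2` would be zero modulo the place, too, and
`contains_no_line` would give `(u, v) = 0`. File `H73FlatVal`. -/
theorem denominator_unit (h2 : (2 : K) ∉ A.nonunits) {b₂ b₄ b₆ t₁ s₁ t₂ s₂ t₃ s₃ u v : A}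
    (hG : H73.Gf b₂ b₄ b₆ t₁ s₁ = s₁) (hrel : H73.Rel b₂ b₄ b₆ t₁ s₁ t₂ s₂ t₃ s₃ u v)
    (hd : ¬ ((u : K) ∈ A.nonunits ∧ (v : K) ∈ A.nonunits)) :
    ((H73.Gf b₂ b₄ b₆ u v : A) : K) ∉ A.nonunits :=
  H73.Gf_notMem_nonunits h2 hG hrel hd

/-- **At every place one of the two laws is defined**: if the points `P`, `Q` have different reductions, the
first one, by `denominator_unit`; if they have the same reduction, the second direction is that of the
tangent, which is not zero by `smooth_in_chart`. File `H73FlatVal`. -/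
theorem one_law_is_defined (h2 : (2 : K) ∉ A.nonunits) {b₂ b₄ b₆ t₁ s₁ t₂ s₂ t₃ s₃ : A}
    (hG : H73.Gf b₂ b₄ b₆ t₁ s₁ = s₁)
    (hrel : H73.Rel b₂ b₄ b₆ t₁ s₁ t₂ s₂ t₃ s₃ (t₁ - t₂) (s₁ - s₂))
    (hrel' : H73.Rel b₂ b₄ b₆ t₁ s₁ t₂ s₂ t₃ s₃ (1 - H73.Vf b₂ b₄ b₆ s₁ t₂ s₂)
      (H73.Uf b₂ b₄ t₁ s₁ t₂)) :
    ((H73.Gf b₂ b₄ b₆ (t₁ - t₂) (s₁ - s₂) : A) : K) ∉ A.nonunits ∨
      ((H73.Gf b₂ b₄ b₆ (1 - H73.Vf b₂ b₄ b₆ s₁ t₂ s₂) (H73.Uf b₂ b₄ t₁ s₁ t₂) : A) : K) ∉
        A.nonunits :=
  H73.Gf_unit_or h2 hG hrel hrel'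

end Reduction

/-! ## 4. Rings of functions on a finite set, and the flat order -/

/-- **Integrality is tested pointwise and at the places above `p`**: a function on a finite set is integral
if all its values are; an algebraic number which lies in all valuation rings above `p` is integral over
`ℤ_(p)`. (If it is not, a valuation ring contains the integral closure but not the number; if `p` is a unit
there, the ring contains `ℚ`, so all algebraic numbers.) File `H73FlatLoc`. -/
theorem integrality :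
    (∀ {R K X : Type} [CommRing R] [Field K] [Algebra R K] [Finite X] {f : X → K},
      (∀ x, IsIntegral R (f x)) → IsIntegral R f) ∧
    ∀ {p : ℕ} [Fact p.Prime] {x : Qbar},
      (∀ A : ValuationSubring Qbar, A.LiesOverPrime p → x ∈ A) → IsIntegral (H19.Zl p) x :=
  ⟨H73.isIntegral_pi, H73.isIntegral_of_forall⟩

/-- **Proper ideals**, version over `ℤ_(p)` of `GuideCurvesTate.exists_valuation_of_proper_ideal`: if the
ring `B` of functions is integral over `ℤ_(p)`, the valuation ring lies above `p`. File `H73FlatLoc`. -/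
theorem proper_ideal {X : Type*} [Finite X] (p : ℕ) [Fact p.Prime]
    (B : Subalgebra (H19.Zl p) (X → Qbar)) [Algebra.IsIntegral (H19.Zl p) B] (I : Ideal B)
    (hI : I ≠ ⊤) :
    ∃ (j : X) (A : ValuationSubring Qbar), A.LiesOverPrime p ∧
      (∀ b : B, (b : X → Qbar) j ∈ A) ∧ ∀ b ∈ I, (b : X → Qbar) j ∈ A.nonunits :=
  H73.exists_valuation_of_ne_top' p B I hI

section Order

variable {W : WeierstrassCurve ℤ} {n p : ℕ}

/-- **The ring of functions** `H73.order W n p` on `W[n]` (`H73.Tors W n`): generated over `ℤ_(p)` by the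
functions `t` and `s` (`H73.tT`, `H73.sT`). File `H73Flat`. -/
theorem order_definition (P : H73.Tors W n) :
    H73.order W n p = Algebra.adjoin (H19.Zl p) {H73.tT, H73.sT} ∧
    H73.tT P = H73.tC (H73.curveBar W) (P : ((W.map (Int.castRingHom ℚ))⁄Qbar).Point) ∧
    H73.sT P = H73.sC (H73.curveBar W) (P : ((W.map (Int.castRingHom ℚ))⁄Qbar).Point) :=
  ⟨rfl, rfl, rfl⟩

/-- **Galois equivariance** of `t` and `s`. File `H73Flat`. -/
theorem chart_galois (σ : Qbar ≃ₐ[ℚ] Qbar) (P : ((W.map (Int.castRingHom ℚ))⁄Qbar).Point) :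
    H73.tC (H73.curveBar W) (σ • P) = σ (H73.tC (H73.curveBar W) P) ∧
      H73.sC (H73.curveBar W) (σ • P) = σ (H73.sC (H73.curveBar W) P) :=
  ⟨H73.tC_smul σ P, H73.sC_smul σ P⟩

/-- **At all places above `p`** the values of `t` and `s` on `W[n]` are integral, for `p` odd, `p ∤ Δ`, `n`
odd. File `H73Flat`. -/
theorem values_integral (hp : p.Prime) (hp2 : p ≠ 2) (hΔ : ¬ (p : ℤ) ∣ W.Δ) (hn : Odd n)
    {A : ValuationSubring Qbar} (hA : A.LiesOverPrime p) (P : H73.Tors W n) :
    H73.tT P ∈ A ∧ H73.sT P ∈ A :=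
  ⟨H73.tT_mem hp hp2 hΔ hn hA P, H73.sT_mem hp hp2 hΔ hn hA P⟩

variable [Fact p.Prime] [Finite (H73.Tors W n)]

/-- **The ring is finite over `ℤ_(p)`**: it is generated by two integral elements. File `H73Flat`. -/
theorem order_finite (hp2 : p ≠ 2) (hΔ : ¬ (p : ℤ) ∣ W.Δ) (hn : Odd n) :
    (Subalgebra.toSubmodule (H73.order W n p)).FG :=
  H73.order_fg hp2 hΔ hn

/-- **Comultiplication of the generators.** `H73.ord2 W n p` is the ring of the functions on `W[n] × W[n]`
which are sums of products of functions of the first and of the second argument, taken from the order. It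
contains the functions `t(P + Q)` and `s(P + Q)`. Proof: the elements `b` of this ring for which
`b t(P + Q)` and `b s(P + Q)` are in it form an ideal. The relations show that it contains both denominators
of the addition laws. If it were proper, both would be in the maximal ideal of a valuation ring above `p` at
one pair `(P, Q)` (`proper_ideal`), which contradicts `one_law_is_defined`. File `H73Flat`. -/
theorem comultiplication (hp2 : p ≠ 2) (hΔ : ¬ (p : ℤ) ∣ W.Δ) (hn : Odd n) :
    (fun q : H73.Tors W n × H73.Tors W n => (H73.tT (q.1 + q.2) : Qbar)) ∈ H73.ord2 W n p ∧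
      (fun q : H73.Tors W n × H73.Tors W n => (H73.sT (q.1 + q.2) : Qbar)) ∈ H73.ord2 W n p :=
  H73.add_mem_ord2 hp2 hΔ hn

/-- **The ring is a flat order** in the sense of `GuideFlatTorsion.isFlatOrder_def`: finitely generated,
equivariant, it separates the points (`chart_properties`), and it is closed under comultiplication. File
`H73Flat`. -/
theorem flat_order (hp2 : p ≠ 2) (hΔ : ¬ (p : ℤ) ∣ W.Δ) (hn : Odd n) :
    H19.IsFlatOrder (H19.Zl p) ℚ Qbar (fun σ (P : H73.Tors W n) => σ • P) (H73.order W n p) :=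
  H73.isFlatOrder_order hp2 hΔ hn

end Order

end Fermat.Agent.Guide.FlatCurve
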