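import Fermat.Agent.H43Descent

/-!
# Guide: from a place above `ℓ` to `ℤ_(ℓ)`, step by step (statement S19, descent)

Companion of `GuideFlatTorsion`, section 4 (`descent_to_Zl` there is the result), and of `GuideAbsGal`,
sections 1, 2, 4 (places of `ℚ̄`). Every theorem is proved by citing the library; no other file imports
this one. Modules `H43Place` and `H43Descent` (helper43, also the text). Everything is in the closures
of S19, S32, S59, S60, S50, S46, S45, S43, S38, S06, S04, S03 and S01 (the description of the inertia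
group and the finiteness of `G / N` also in those of S09, S12, S15). Notes: [302] and, for S19, [141].

**The problem.** `M` is a finite abelian group with a continuous action of `G = Gal(ℚ̄/ℚ)`, `A` a place
of `ℚ̄` above the prime `ℓ`, `D ⊃ I` its decomposition and inertia group. The geometry of the curve
gives at this place a ring `H` of functions `M → A`: equivariant for `I`, stable under `D`,
separating the points of `M` and closed under `f ↦ f(x + y)` (in `H ⊗ H`). So `H` is a finite flat group
scheme over the ring `W` of the elements of `A` fixed by `I`, the strict Henselisation of `ℤ_(ℓ)`.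
Wanted is a finite flat group scheme over `ℤ_(ℓ)` with the Galois module `M`, that is an order in the
ring of the functions `M → ℚ̄` which are equivariant for the whole group `G`
(`hasFlatModel_iff_exists_order` of `GuideFlatTorsion`). In the literature this is étale descent from
the strict Henselisation to the Henselisation, and then glueing with the generic fibre. Here: the
order is

  `H₀ = {f ∈ H : f(σ m) = σ f(m) for all σ ∈ G}`,

and the only thing to show is that `H₀` is large: `H` is spanned by `H₀` over `W`
(`spanned_by_equivariant`).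

**The proof.** Let `h ∈ H`, and let `E` be a finite normal extension of `ℚ` which contains the values
of `h` and such that `N = Gal(ℚ̄/E)` acts trivially on `M` (`exists_level`). Let `U = I N`; it has
finite index, and `h` is fixed by `U` for the semilinear action `(g ⋆ f)(m) = g(f(g⁻¹ m))`. For `x` in
`W ∩ E` the trace `T(x h) = ∑_{c ∈ G/U} c ⋆ (x h)` is equivariant for `G`. A coset is called good if it
contains an element of `D`.
1. *The good cosets* other than `U` are separated from `U` by residues of elements of `W ∩ E`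
   (`inertia_at_finite_level` in `GuideFlatTorsion`; steps in section 2). So there are finitely many
   `u ∈ W ∩ E` and `w_u ∈ W` with `∑_u w_u u = 1` and `∑_u w_u c(u) = 0` for these cosets `c`
   (`separation_of_homomorphisms`): in `∑_u w_u T(u h)` only `h` and the bad cosets are left.
2. *The bad cosets*: there is an algebraic integer `v ∈ W ∩ E`, a unit at `A`, with `c(v)` in the
   maximal ideal of `A` for all of them (`exists_inertia_fixed_unit` in `GuideFlatTorsion`). If one
   replaces `u` by `u vⁿ` and `w_u` by `w_u v⁻ⁿ`, `n` large, their contribution is divisible by any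
   given power of `ℓ`, because places of `ℚ̄` have rank one (section 1).
3. The traces `T(u vⁿ h)` are in `H`, hence in `H₀`: the part of the good cosets is in `H` because `H` is
   stable under `D`; the part of the bad cosets is equivariant for `I` and divisible by a large power
   of `ℓ`, so it is in `H` by `closure_over_inertia`.
4. The error term (the bad cosets in `∑_u w_u v⁻ⁿ T(u vⁿ h)`) is equivariant for `I` and divisible by a
   large power of `ℓ`. There is a basis of all functions which consists of elements of `H₀`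
   (`equivariant_functions_span` in `GuideFlatTorsion`); the coordinates of the error term are fixed by
   `I` (`coefficients_fixed`) and in `A` (`cramer`), that is in `W`.

The same linear algebra shows that `H₀` is finitely generated over `ℤ_(ℓ)`, separates points and is
closed under `f ↦ f(x + y)`: a coefficient which is in `A` and fixed by `G` is in `ℤ_(ℓ)`
(`rational_numbers_in_place`).

**Order of the file.** 1. Rank one. 2. Decomposition and inertia at a finite level. 3. Linear algebra
of functions on a finite set. 4. The semilinear action and traces. 5. The ring `W` and the main step.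
-/

set_option autoImplicit false

open Polynomial
open scoped Pointwise

namespace Fermat.Agent.Guide.FlatDescent

/-- The algebraic closure of `ℚ` of Mathlib. -/
local notation "Qbar" => AlgebraicClosure ℚ

/-- The absolute Galois group of `ℚ`. -/
local notation "GQ" => (AlgebraicClosure ℚ ≃ₐ[ℚ] AlgebraicClosure ℚ)

/-! ## 1. Places above `ℓ` have rank one

`A` is a valuation ring of `ℚ̄` with `ℓ` in its maximal ideal `A.nonunits` (`A.LiesOverPrime ℓ`). -/

section RankOne

variable {ℓ : ℕ} {A : ValuationSubring Qbar}

/-- **Rules for the maximal ideal**: it is contained in `A`, stable under sums and under products with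
elements of `A`, does not contain `1`, and an element outside it has its inverse in `A`. Algebraic
integers are in `A`. File `H43Place`. -/
theorem nonunits_rules :
    (∀ x ∈ A.nonunits, x ∈ A) ∧ (∀ x ∈ A.nonunits, ∀ y ∈ A.nonunits, x + y ∈ A.nonunits) ∧
      (∀ x ∈ A.nonunits, ∀ y ∈ A, x * y ∈ A.nonunits) ∧ (1 : Qbar) ∉ A.nonunits ∧
      (∀ x, x ∉ A.nonunits → x⁻¹ ∈ A) ∧ ∀ x : Qbar, IsIntegral ℤ x → x ∈ A :=
  ⟨fun _ h => H43.mem_of_mem_nonunits h, fun _ h _ h' => H43.add_mem_nonunits h h',
    fun _ h _ h' => H43.mul_mem_nonunits h h', H43.one_not_mem_nonunits,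
    fun _ h => H43.inv_mem_of_not_mem_nonunits h, fun _ h => H43.int_mem_place h⟩

/-- **A polynomial for `x`**: every algebraic number is a root of a polynomial over `ℤ` which is not
divisible by `ℓ`. File `H43Place`. -/
theorem exists_primitive_polynomial (hℓ : ℓ.Prime) (x : Qbar) :
    ∃ f : ℤ[X], aeval x f = 0 ∧ ∃ i, ¬ (ℓ : ℤ) ∣ f.coeff i :=
  H43.exists_primitive hℓ x

/-- **The maximal ideal is nilpotent modulo `ℓ`, induction step.** Let `x` be in the maximal ideal and
`f` a polynomial over `ℤ`, not divisible by `ℓ`. If `x^k f(x)` is in `ℓ A`, a power of `x` is in `ℓ A`.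
Proof: if `f(0)` is not divisible by `ℓ`, `f(x)` is a unit; otherwise replace `f` by `(f - f(0)) / X`
and `k` by `k + 1` (`n` is a bound for the degree). File `H43Place`. -/
theorem power_of_nonunit_step (hℓ : ℓ.Prime) (hA : A.LiesOverPrime ℓ) {x : Qbar}
    (hx : x ∈ A.nonunits) (n : ℕ) (f : ℤ[X]) (k : ℕ) (hn : f.natDegree ≤ n)
    (hf : ∃ i, ¬ (ℓ : ℤ) ∣ f.coeff i) (h : ∃ a ∈ A, x ^ k * aeval x f = ℓ * a) :
    ∃ m : ℕ, ∃ a ∈ A, x ^ m = ℓ * a :=
  H43.exists_pow_mem_aux hℓ hA hx n f k hn hf h

/-- **Rank one, first form**: a power of every element of the maximal ideal is divisible by `ℓ`. (The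
second form, every `x ≠ 0` divides a power of `ℓ`, is `places_rank_one` of `GuideFlatTorsion`.) File
`H43Place`. -/
theorem power_of_nonunit (hℓ : ℓ.Prime) (hA : A.LiesOverPrime ℓ) {x : Qbar}
    (hx : x ∈ A.nonunits) : ∃ m : ℕ, ∃ a ∈ A, x ^ m = ℓ * a :=
  H43.exists_pow_mem hℓ hA hx

/-- **Small powers.** Let `y` be in the maximal ideal and `z` arbitrary. For every `k` the product
`y^n z` is in `ℓ^k A` for all large `n`. File `H43Place`. -/
theorem small_powers (hℓ : ℓ.Prime) (hA : A.LiesOverPrime ℓ) {y : Qbar} (hy : y ∈ A.nonunits)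
    (z : Qbar) (k : ℕ) : ∃ n₀ : ℕ, ∀ n, n₀ ≤ n → ∃ a ∈ A, y ^ n * z = (ℓ : Qbar) ^ k * a :=
  H43.exists_forall_pow_mul_mem hℓ hA hy z k

/-- `ℤ_(ℓ)` (`GaloisRep.ratLocalizedAt ℓ`, the rational numbers with denominator prime to `ℓ`) is the
intersection of `ℚ` and `A`. Files `H19Zl`, `H43Descent`. -/
theorem rational_numbers_in_place [hℓ : Fact ℓ.Prime] (hA : A.LiesOverPrime ℓ) (x : ℚ) :
    x ∈ GaloisRep.ratLocalizedAt ℓ ↔ (x : Qbar) ∈ A :=
  ⟨fun h => H43.coe_mem_of_mem_Zl hℓ.out hA h, fun h => H19.mem_Zl_of_mem hA h⟩

end RankOne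

/-! ## 2. Decomposition and inertia at a finite level -/

section Galois

variable {ℓ : ℕ} {A : ValuationSubring Qbar}

/-- **The decomposition group** consists of the `σ` with `σ A = A`; they preserve `A` and its maximal
ideal. The inertia group consists of those which act trivially modulo the maximal ideal, and is normal
in the decomposition group. File `H43Place`. -/
theorem decomposition_and_inertia :
    (∀ σ : GQ, σ • A = A → ∀ x : Qbar, (σ x ∈ A ↔ x ∈ A) ∧ (σ x ∈ A.nonunits ↔ x ∈ A.nonunits)) ∧
      (∀ σ : GQ, σ ∈ A.inertiaSubgroupIn ℚ ↔ σ • A = A ∧ ∀ x ∈ A, σ x - x ∈ A.nonunits) ∧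
      ∀ σ τ : GQ, σ ∈ A.inertiaSubgroupIn ℚ → τ • A = A →
        τ⁻¹ * σ * τ ∈ A.inertiaSubgroupIn ℚ :=
  ⟨fun _ h x => ⟨H43.apply_mem_iff h x, H43.apply_mem_nonunits_iff h x⟩,
    fun _ => H43.mem_inertia_iff, fun _ _ h h' => H43.conj_mem_inertia h h'⟩

/-- **Levels** (Galois theory). `E` is a normal extension of `ℚ` in `ℚ̄` and `N = Gal(ℚ̄/E)`
(`E.fixingSubgroup`): `E` is the fixed field of `N`, it is stable under `G`, and `N` is normal. File
`H43Place`. -/
theorem level_rules (E : IntermediateField ℚ Qbar) [Normal ℚ E] :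
    (∀ x : Qbar, (∀ σ ∈ E.fixingSubgroup, σ x = x) → x ∈ E) ∧
      (∀ x ∈ E, ∀ σ ∈ E.fixingSubgroup, σ x = x) ∧ (∀ (σ : GQ), ∀ x ∈ E, σ x ∈ E) ∧
      (E.fixingSubgroup).Normal :=
  ⟨fun _ h => H43.mem_of_fixed E h, fun _ h _ h' => H43.fixed_of_mem E h h',
    fun σ _ h => H43.apply_mem_of_normal E σ h, H43.normal_fixingSubgroup E⟩

/-- If `E` is finite over `ℚ`, `N` has finite index, and a power of every element of `G` is in `N`.
File `H43Place`. -/
theorem finite_level (E : IntermediateField ℚ Qbar) [Normal ℚ E] [FiniteDimensional ℚ E] :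
    Finite (GQ ⧸ E.fixingSubgroup) ∧ ∀ g : GQ, ∃ k : ℕ, 0 < k ∧ g ^ k ∈ E.fixingSubgroup :=
  ⟨H43.finite_quotient_fixingSubgroup E, H43.exists_pow_mem_fixingSubgroup E⟩

/-- **Places with the same restriction are conjugate**: if the maximal ideals of two places above `ℓ`
contain the same algebraic integers of `E`, the places are conjugate under `Gal(ℚ̄/E)`. (Transitivity
for the profinite group `Gal(ℚ̄/E)` acting on the ring of algebraic integers, from Mathlib.) File
`H43Place`. -/
theorem conjugate_over_level (E : IntermediateField ℚ Qbar) (hℓ : ℓ.Prime)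
    {A A' : ValuationSubring Qbar} (hA : A.LiesOverPrime ℓ) (hA' : A'.LiesOverPrime ℓ)
    (h : ∀ v : Qbar, v ∈ E → IsIntegral ℤ v → (v ∈ A.nonunits ↔ v ∈ A'.nonunits)) :
    ∃ ρ ∈ E.fixingSubgroup, ρ • A = A' :=
  H43.exists_smul_eq_of_restrict E hℓ hA hA' h

/-- **Separation of one conjugate.** Let `g` not be in `D N`. There is an algebraic integer `v` in `E`
which is a unit at `A`, with `g v` in the maximal ideal. Proof: otherwise `g v` nonunit implies `v`
nonunit for all integers of `E`, and the converse follows because a power of `g` is in `N`; so `g⁻¹ A`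
and `A` have the same restriction to `E`, and `conjugate_over_level` gives `g ∈ D N`. File
`H43Place`. -/
theorem separate_one_conjugate (E : IntermediateField ℚ Qbar) [Normal ℚ E] [FiniteDimensional ℚ E]
    (hℓ : ℓ.Prime) (hA : A.LiesOverPrime ℓ) {g : GQ}
    (hg : ∀ d : GQ, d • A = A → ∀ n ∈ E.fixingSubgroup, g ≠ d * n) :
    ∃ v ∈ E, IsIntegral ℤ v ∧ v ∉ A.nonunits ∧ g v ∈ A.nonunits :=
  H43.exists_of_forall_ne E hℓ hA hg

/-- **Products at a place**: a product of units of `A` is a unit, and a product of elements of `A` with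
one factor in the maximal ideal is in the maximal ideal. With this `exists_inertia_fixed_unit` of
`GuideFlatTorsion` follows from `separate_one_conjugate`: take the product over the finitely many
cosets of `N`, and then the product over the conjugates under inertia. File `H43Place`. -/
theorem products_at_place {ι : Type*} [DecidableEq ι] (s : Finset ι) (f : ι → Qbar)
    (hf : ∀ i ∈ s, f i ∈ A) :
    ((∀ i ∈ s, f i ∉ A.nonunits) → ∏ i ∈ s, f i ∉ A.nonunits) ∧
      ∀ i ∈ s, f i ∈ A.nonunits → ∏ i ∈ s, f i ∈ A.nonunits :=
  ⟨fun h => H43.prod_not_mem_nonunits s f hf h, fun _ hi h => H43.prod_mem_nonunits s f hf hi h⟩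

/-- **Residues of inertia invariants.** Let `g` be in the decomposition group and act trivially modulo
the maximal ideal on the elements of `A ∩ E` which are fixed by inertia. Then it acts trivially
modulo the maximal ideal on `A ∩ E`. Proof: let `F` be the product of the `X - y`, `y` the different
conjugates of `x` under inertia. Its coefficients are in `A ∩ E` and fixed by inertia, so
`(g F)(x) ≡ F(x) = 0`, and `x ≡ g y` for some `y = ι x`; and `g y ≡ g x` because `y ≡ x`. File
`H43Place`. -/
theorem residues_of_invariants (E : IntermediateField ℚ Qbar) [Normal ℚ E] {g : GQ}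
    (hg : g • A = A)
    (h : ∀ x ∈ A, x ∈ E → (∀ ι ∈ A.inertiaSubgroupIn ℚ, ι x = x) → g x - x ∈ A.nonunits)
    {x : Qbar} (hx : x ∈ A) (hxE : x ∈ E) : g x - x ∈ A.nonunits :=
  H43.residue_trivial_of_invariants E hg h hx hxE

/-- **Inertia surjects onto inertia at the level `E`.** If `g` is in the decomposition group and trivial
on the residues of `A ∩ E`, it is the product of an element of inertia and one of `N`. Proof: `g` acts
on the residue field of `A` trivially over the residue field of `A ∩ E`; by the surjectivity of the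
decomposition group of `N` onto the automorphisms of this extension (Mathlib, profinite version) some
`n ∈ N` which preserves `A` has the same action, and `g n⁻¹` is in inertia. With
`residues_of_invariants` this is `inertia_at_finite_level` of `GuideFlatTorsion`. File `H43Place`. -/
theorem lift_to_inertia (E : IntermediateField ℚ Qbar) [Normal ℚ E] (hℓ : ℓ.Prime)
    (hA : A.LiesOverPrime ℓ) {g : GQ} (hg : g • A = A)
    (h : ∀ x ∈ A, x ∈ E → g x - x ∈ A.nonunits) :
    ∃ ι ∈ A.inertiaSubgroupIn ℚ, ∃ n ∈ E.fixingSubgroup, g = ι * n :=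
  H43.exists_mem_inertia_of_residue E hℓ hA hg h

end Galois

/-! ## 3. Linear algebra of functions on a finite set

`L` is a field, `M` a finite set. -/

section Functions

variable {L : Type*} [Field L] {M : Type*} [Finite M]

/-- **Rings which separate points span**: the `L`-linear combinations of the elements of a ring `S` of
functions `M → L` which separates the points are all functions (products of `(f - f(m')) / (f(m) -
f(m'))` are the characteristic functions). So `S` contains a basis, indexed by `M` itself. File
`H43Descent`. -/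
theorem separating_rings_span (S : Subring (M → L))
    (hS : ∀ m m', (∀ f ∈ S, f m = f m') → m = m') :
    Submodule.span L (S : Set (M → L)) = ⊤ ∧
      ∃ b : M → (M → L), LinearIndependent L b ∧ ∀ m, b m ∈ S :=
  ⟨H43.span_eq_top_of_separates S hS,
    H43.exists_basis_of_span (H43.span_eq_top_of_separates S hS)⟩

omit [Finite M] in
/-- **Coordinates** with respect to a linearly independent family indexed by `M`. File `H43Descent`. -/
theorem coordinates [Fintype M] {b : M → (M → L)} (hb : LinearIndependent L b) (f : M → L) :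
    ∃ c : M → L, f = ∑ i, c i • b i :=
  H43.exists_coords hb f

omit [Finite M] in
/-- **Cramer's rule over a valuation ring.** Let `b` be a basis of `A`-valued functions. There is
`δ ≠ 0` in `L` (the determinant) with `δ c_i ∈ A` for the coordinates of every `A`-valued function. File
`H43Descent`. -/
theorem cramer [Fintype M] (A : ValuationSubring L) {b : M → (M → L)}
    (hb : LinearIndependent L b) (hbA : ∀ i m, b i m ∈ A) :
    ∃ δ : L, δ ≠ 0 ∧ ∀ c : M → L, (∀ m, (∑ i, c i • b i) m ∈ A) → ∀ i, δ * c i ∈ A :=
  H43.exists_cramer A hb hbA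

/-- **Coordinates of equivariant functions are fixed**: if `b_i(τ m) = σ(b_i(m))` for all `i` and
`f(τ m) = σ(f(m))`, the coordinates of `f` are fixed by `σ`. File `H43Descent`. -/
theorem coefficients_fixed {ι : Type*} [Fintype ι] (σ : L ≃+* L) {τ : M → M}
    (hτ : Function.Surjective τ) {b : ι → (M → L)} (hb : LinearIndependent L b)
    (hbσ : ∀ i m, b i (τ m) = σ (b i m)) {f : M → L} (hf : ∀ m, f (τ m) = σ (f m)) {c : ι → L}
    (hc : f = ∑ i, c i • b i) (i : ι) : σ (c i) = c i :=
  H43.coeff_fixed σ hτ hb hbσ hf hc i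

end Functions

/-- **Separation of homomorphisms with integral coefficients.** `χ_i : R₀ → R` are ring homomorphisms,
`W` a subring of `R`, `χ_c(R₀) ⊂ W` for `c ∈ t`, and for every `c ∈ t` some difference
`χ_{i₀}(u) - χ_c(u)` is a unit with inverse in `W`. Then there are `w_u ∈ W` with
`∑_u w_u χ_{i₀}(u) = 1` and `∑_u w_u χ_c(u) = 0` for all `c ∈ t`: expand the product of the
`w_c (u_c - χ_c(u_c))`. (Artin's lemma on the independence of characters, with control of the
denominators.) File `H43Descent`. -/
theorem separation_of_homomorphisms {ι R₀ R : Type*} [CommRing R₀] [CommRing R] (W : Subring R)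
    (χ : ι → R₀ →+* R) (i₀ : ι) (t : Finset ι) (hW : ∀ c ∈ t, ∀ u, χ c u ∈ W)
    (h : ∀ c ∈ t, ∃ u, ∃ w ∈ W, w * (χ i₀ u - χ c u) = 1) :
    ∃ (s : Finset R₀) (w : R₀ → R), (∀ u, w u ∈ W) ∧ ∑ u ∈ s, w u * χ i₀ u = 1 ∧
      ∀ c ∈ t, ∑ u ∈ s, w u * χ c u = 0 :=
  H43.exists_sep W χ i₀ t hW h

/-! ## 4. The semilinear action on functions, and traces -/

section Star

variable {M : Type} {act : GQ → M → M}

/-- **The action on functions**, `(g ⋆ f)(m) = g(f(g⁻¹ m))` (`H43.star act g f`). It is semilinear, a
group action, and `f` is equivariant for `σ` if and only if `σ ⋆ f = f`. File `H43Descent`. -/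
theorem action_on_functions (hone : ∀ m, act 1 m = m)
    (hmul : ∀ σ τ m, act (σ * τ) m = act σ (act τ m)) (g h : GQ) (c : Qbar) (f : M → Qbar) :
    (∀ m, H43.star act g f m = g (f (act g⁻¹ m))) ∧
      H43.star act g (c • f) = g c • H43.star act g f ∧ H43.star act 1 f = f ∧
      H43.star act g (H43.star act h f) = H43.star act (g * h) f ∧
      ((∀ m, f (act g m) = g (f m)) ↔ H43.star act g f = f) :=
  ⟨fun _ => rfl, H43.star_smul act g c f, H43.star_one hone f, H43.star_mul hmul g h f,
    H43.equivariant_iff hone hmul g f⟩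

/-- **Traces.** `F` is fixed by the subgroup `U` of finite index. The function
`trc act U F = ∑_{c ∈ G/U} c ⋆ F` does not depend on the representatives of the cosets, and it is
equivariant for the whole group. File `H43Descent`. -/
theorem trace_over_cosets (hone : ∀ m, act 1 m = m)
    (hmul : ∀ σ τ m, act (σ * τ) m = act σ (act τ m)) {U : Subgroup GQ} [Fintype (GQ ⧸ U)]
    {F : M → Qbar} (hF : ∀ s ∈ U, H43.star act s F = F) :
    H43.trc act U F = ∑ c : GQ ⧸ U, H43.star act c.out F ∧
      (∀ g : GQ, H43.star act (QuotientGroup.mk g : GQ ⧸ U).out F = H43.star act g F) ∧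
      ∀ (σ : GQ) (m : M), H43.trc act U F (act σ m) = σ (H43.trc act U F m) :=
  ⟨rfl, H43.star_out hmul hF,
    fun σ => (H43.equivariant_iff hone hmul σ _).mpr (H43.star_trc hmul hF σ)⟩

/-- **Combinations of traces**:
`∑_u w_u T(x_u F) = ∑_{c ∈ G/U} (∑_u w_u c(x_u)) (c ⋆ F)`. File `H43Descent`. -/
theorem combination_of_traces (hmul : ∀ σ τ m, act (σ * τ) m = act σ (act τ m))
    {U : Subgroup GQ} [Fintype (GQ ⧸ U)] {F : M → Qbar} {R₀ : Type*} (s : Finset R₀)
    (w x : R₀ → Qbar) :
    ∑ u ∈ s, w u • H43.trc act U (x u • F) =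
      ∑ c : GQ ⧸ U, (∑ u ∈ s, w u * c.out (x u)) • H43.star act c.out F :=
  H43.sum_trc hmul s w x

/-- **Existence of a level**: if `G` acts on the finite set `M` through a finite quotient, every
function `f : M → ℚ̄` has a finite normal level `E`: its values are in `E` and `Gal(ℚ̄/E)` acts
trivially on `M`. (From this, `combination_of_traces` and `separation_of_homomorphisms` with `W = ℚ̄` one
gets `equivariant_functions_span` of `GuideFlatTorsion`.) File `H43Descent`. -/
theorem exists_level [Finite M]
    (hopen : ∃ E : IntermediateField ℚ Qbar, FiniteDimensional ℚ E ∧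
      ∀ σ : GQ, (∀ x ∈ E, σ x = x) → ∀ m, act σ m = m) (f : M → Qbar) :
    ∃ E : IntermediateField ℚ Qbar, Normal ℚ E ∧ FiniteDimensional ℚ E ∧ (∀ m, f m ∈ E) ∧
      ∀ σ ∈ E.fixingSubgroup, ∀ m, act σ m = m :=
  H43.exists_level hopen f

end Star

/-! ## 5. The ring of inertia invariants, and the main step -/

section Main

variable {ℓ : ℕ} {A : ValuationSubring Qbar}

/-- **The ring `W`** (`H43.inertiaRing A`) of the elements of `A` fixed by inertia. It is stable under
the decomposition group, and it is local: an element of `W` which is a unit of `A` has its inverse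
in `W`. File `H43Descent`. -/
theorem inertia_ring :
    (∀ x : Qbar, x ∈ H43.inertiaRing A ↔ x ∈ A ∧ ∀ ι ∈ A.inertiaSubgroupIn ℚ, ι x = x) ∧
      (∀ d : GQ, d • A = A → ∀ x ∈ H43.inertiaRing A, d x ∈ H43.inertiaRing A) ∧
      ∀ x ∈ H43.inertiaRing A, x ∉ A.nonunits → x⁻¹ ∈ H43.inertiaRing A :=
  ⟨fun _ => Iff.rfl, fun _ hd _ hx => H43.apply_mem_inertiaRing hd hx,
    fun _ hx hx' => H43.inv_mem_inertiaRing hx hx'⟩

variable {M : Type} [Finite M] {act : GQ → M → M} {H : Subring (M → Qbar)}

/-- **Closure lemma over inertia.** `H` is an algebra of analytic functions on `M` for the inertia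
group (`H19.IsAnAlg`, `isAnAlg_def` of `GuideFlatTorsion`: `A`-valued, equivariant, contains the
constants in `W`, separates points). There is `n₀` such that `ℓ^{n₀} f` is in `H` for EVERY `A`-valued
function `f` which is equivariant for inertia. Proof: `H` contains a basis of all functions
(`separating_rings_span`); the coordinates of `f` are fixed by inertia (`coefficients_fixed`) and have a
common denominator (`cramer`), which divides a power of `ℓ`. File `H43Descent`. -/
theorem closure_over_inertia (hone : ∀ m, act 1 m = m)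
    (hmul : ∀ σ τ m, act (σ * τ) m = act σ (act τ m)) (hℓ : ℓ.Prime) (hA : A.LiesOverPrime ℓ)
    (hH : H19.IsAnAlg A (fun σ : A.inertiaSubgroupIn ℚ => ((σ : GQ) : Qbar ≃+* Qbar))
      (fun σ => act σ) H) :
    ∃ n₀ : ℕ, ∀ f : M → Qbar, (∀ m, f m ∈ A) →
      (∀ ι ∈ A.inertiaSubgroupIn ℚ, ∀ m, f (act ι m) = ι (f m)) → ((ℓ : Qbar) ^ n₀ • f) ∈ H :=
  H43.exists_closure hone hmul hℓ hA hH

/-- **The main step**: every element of `H` is a combination, with coefficients in `W`, of elements of
`H` which are equivariant for the whole Galois group. The auxiliary data are: `n₀` from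
`closure_over_inertia`; a basis `e` of functions in `H` which are equivariant for `G` (from
`equivariant_functions_span` of `GuideFlatTorsion`, multiplied by a power of `ℓ`); and `k` from
Cramer's rule for `e`. The proof is described in the header: with `U = I N`, `w_u` from
`separation_of_homomorphisms` (ring `W ∩ E`, cosets in the decomposition group) and `v` from
`exists_inertia_fixed_unit`, one has
`h = ∑_u w_u v⁻ⁿ T(u vⁿ h) - ∑_c v⁻ⁿ c(v)ⁿ (∑_u w_u c(u)) (c ⋆ h)`, the second sum over the bad cosets;
for large `n` it is divisible by `ℓ^k`, so it is a combination of the `e_i` with coefficients in `W`,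
and the bad part of `T(u vⁿ h)` is divisible by `ℓ^{n₀}`. File `H43Descent`. -/
theorem spanned_by_equivariant [Fintype M] (hone : ∀ m, act 1 m = m)
    (hmul : ∀ σ τ m, act (σ * τ) m = act σ (act τ m))
    (hopen : ∃ E : IntermediateField ℚ Qbar, FiniteDimensional ℚ E ∧
      ∀ σ : GQ, (∀ x ∈ E, σ x = x) → ∀ m, act σ m = m)
    (hℓ : ℓ.Prime) (hA : A.LiesOverPrime ℓ)
    (hH : H19.IsAnAlg A (fun σ : A.inertiaSubgroupIn ℚ => ((σ : GQ) : Qbar ≃+* Qbar))
      (fun σ => act σ) H)
    (hdec : ∀ σ : GQ, σ • A = A → ∀ f ∈ H, H43.star act σ f ∈ H) {n₀ k : ℕ}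
    (hclo : ∀ f : M → Qbar, (∀ m, f m ∈ A) →
      (∀ ι ∈ A.inertiaSubgroupIn ℚ, ∀ m, f (act ι m) = ι (f m)) → ((ℓ : Qbar) ^ n₀ • f) ∈ H)
    {e : M → (M → Qbar)} (he : LinearIndependent Qbar e) (heH : ∀ i, e i ∈ H)
    (heG : ∀ i σ m, e i (act σ m) = σ (e i m))
    (hek : ∀ c : M → Qbar, (∀ m, (∑ i, c i • e i) m ∈ A) → ∀ i, (ℓ : Qbar) ^ k * c i ∈ A)
    {h : M → Qbar} (hh : h ∈ H) :
    h ∈ Submodule.span (H43.inertiaRing A)
      {f : M → Qbar | f ∈ H ∧ ∀ σ m, f (act σ m) = σ (f m)} :=
  H43.mem_span hone hmul hopen hℓ hA hH hdec hclo he heH heG hek hh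

end Main

end Fermat.Agent.Guide.FlatDescent
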