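import Fermat.Agent.S19

/-!
# Guide: the analytic order on a finite group of divisor classes, step by step (statement S19)

This file is a companion of `GuideFlatTorsion` (the `ℓ`-power torsion of `J₀(N)` is finite flat at
`ℓ ∤ N`) and continues `GuideFlatSteps` (the addition lemma).  It contains no new mathematics: every
statement below is a theorem of the library, written out in full, and its proof is a reference to the
library.  The docstrings say what the statement means, how it is proved and where.  Only `Guide`
imports this file.

## What is proved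

Let `S` be a good reduction of the function field `F/K` to `E/k`, of genus `g`, with an inertia
action of `Γ`.  Let `M` be a finite `Γ`-stable subgroup of `Pic⁰ F`.  The aim is a ring of functions
on `M` which plays the role of the affine ring of the finite flat group scheme `M` over the
`Γ`-invariant constants.

1. *Coordinates of a class* (section 1).  A nonspecial system of `g` discs gives `g` coordinates for
   every class in the kernel of the reduction; they are equivariant and separate classes.
2. *Analytic maps* (section 2).  A map from a finite set into the kernel of the reduction is analytic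
   if its coordinates belong to a given algebra `H` of analytic functions.  By the addition lemma,
   applied to three disjoint systems and the relation `u + v + w = 0`, this does not depend on the
   system, and analytic maps form a group.
3. *The analytic algebra* (section 3).  `M` is cut into the fibres of the reduction; each fibre is
   moved into the kernel of the reduction by an invariant lift.  The algebra is generated by the
   invariant constants, the indicator functions of the fibres and the `g` coordinates.
4. *Transport* (section 4).  An automorphism which preserves the ring of integral functions induces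
   an automorphism of the reduction and carries systems of discs to systems of discs.  So the
   analytic algebra is stable under the decomposition group.
5. *The modular curve* (section 5).  The hypotheses are checked for `X₀(N)` at `ℓ ∤ N`, and the
   algebra is handed to the descent theorem (`descent_to_Zl` in `GuideFlatTorsion`).

## Vocabulary

See `GuideFlatTorsion` for `Place K F`, `Divisor K F`, `riemannRochSpace`, `Pic0 K F`, function fields
(`H94.FunField`), semilinear automorphisms (`SemilinearAut K F`, `SemilinearAut.baseAut`), good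
reductions (`H19.GoodRed`: `S.A`, `S.π`, `S.B`, `S.ρ`, `S.r`, `S.g`) and inertia actions
(`H19.InertiaAction`: `I.Pinf`).  Further:

* `H19.DSys S I ι`: a system of pairwise different residue discs `Y.Q i`, `i ∈ ι`, with coordinates
  `Y.C i` (centre `(Y.C i).P0`, function `(Y.C i).z`) invariant under `Γ`, avoiding the disc of `∞`
  (`disc_system_content` in `GuideFlatSteps`); `H19.Sys S I`: such a system with `g` discs, nonspecial
  in the sense of `system_content`.
* `H19.pval P f` is the value of `f` at `P`; `H23.redPic0 S` is the reduction of classes;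
  `H23.classOf P R` is the class of `∑ P_i - ∑ R_i` (file `GuideRedPic`).
* `H19.IsAnAlg A σ τ H`: `H` is a ring of `A`-valued functions on a set, equivariant for the
  symmetries `σ i` of `K` and `τ i` of the set, containing the invariant integral constants and
  separating points.  `H19.IsAn I act H u`: the map `u` into the kernel of the reduction is analytic
  (`isAnAlg_def`, `isAn_def` in `GuideFlatTorsion`).
* `H19.RankOne S Γ`: an invariant pseudo-uniformizer (`rankOne_content` in `GuideFlatSteps`).
* `H23.Compat S δ`: the semilinear automorphism `δ` satisfies `δ • f ∈ S.B ↔ f ∈ S.B`.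

## Where it is used

In S19; through S19 and its companion for Hecke algebras in S32, S38, S43, S46, S50, S59, S60, S45,
S06, S04, S03 and S01.  The induced automorphism of the reduction (section 4, the first three
theorems), the compatibility of the decomposition group of `X₀(N)` and `inertia_normal` (section 5)
are also used in S09, S12 and S15, the compatibility also in S39 and S40.  NOTES.md: [141]
(NOTES-S19-S32), [148] (NOTES-REDPIC), [110] (inertia).
Reading order of the library: H19Bar, H19Sys, H19Order, H19Compat, H19Reduce, H19Final, H19Main, S19.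
-/

set_option autoImplicit false

open AlgebraicCurve ModularCurve
open scoped Pointwise

namespace Fermat.Agent.Guide.FlatOrder

/-- The absolute Galois group of `ℚ` (notation of this file only). -/
local notation "GQ" => AlgebraicClosure ℚ ≃ₐ[ℚ] AlgebraicClosure ℚ

/-- The field of algebraic numbers (notation of this file only). -/
local notation "Qbar" => AlgebraicClosure ℚ

/-! ### 1. Systems of discs and the coordinates of a class -/

/-- **What a nonspecial system of discs is** (`Y : H19.Sys S I`): `g` pairwise different places `Q_i`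
of `E`, none of them the reduction of `∞`, with coordinates with invariant centre and function on
their discs, such that `L(∑ Q_i)` consists of the constants.  File H19Sys. -/
theorem system_content (K F k E : Type) [Field K] [Field F] [Algebra K F] [Field k] [Field E]
    [Algebra k E] (S : H19.GoodRed K F k E) (Γ : Subgroup (SemilinearAut K F))
    (I : H19.InertiaAction S Γ) (Y : H19.Sys S I) :
    Function.Injective Y.Q ∧ (∀ i, Y.Q i ≠ S.r I.Pinf) ∧ (∀ i, S.r (Y.C i).P0 = Y.Q i) ∧
      (∀ γ ∈ Γ, ∀ i, γ • (Y.C i).P0 = (Y.C i).P0) ∧ (∀ γ ∈ Γ, ∀ i, γ • (Y.C i).z = (Y.C i).z) ∧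
      ∀ f ∈ riemannRochSpace (∑ i : Fin S.g, Finsupp.single (Y.Q i) (1 : ℤ)),
        ∃ c : k, f = algebraMap k E c :=
  ⟨Y.Q_inj, Y.ne_inf, fun i => (Y.C i).r_P0, Y.smul_P0, Y.smul_z, Y.ns⟩

/-- **Systems exist**, with discs outside any given finite set of places of `E`.  Proof: nonspecial
systems of places of `E` exist (`exists_nonspecial_system` in `GuideRedPic`); over each of them there
is an invariant place of `F` with an invariant coordinate (`invariant_place` there).
File H19Sys (`Sys.exists_sys`). -/
theorem exists_system (K F k E : Type) [Field K] [Field F] [Algebra K F] [Field k] [Field E]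
    [Algebra k E] [IsAlgClosed K] [IsAlgClosed k] [H94.FunField K F] [H94.FunField k E]
    (S : H19.GoodRed K F k E) (Γ : Subgroup (SemilinearAut K F)) (I : H19.InertiaAction S Γ)
    (T : Finset (Place k E)) : ∃ Y : H19.Sys S I, ∀ i, Y.Q i ∉ T :=
  H19.Sys.exists_sys S I T

/-- **The points of a class.**  Let `x` be a class with trivial reduction.  The points `Y.pts x i` lie
in the discs of the system, `x` is the class of `∑ (Y.pts x i) - ∑ R_i` (`R_i` the centres), and they
are the only points with these two properties.  From `kernel_of_reduction` in `GuideFlatTorsion`.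
File H19Sys (`Sys.r_pts`, `Sys.classOf_pts`, `Sys.pts_eq`). -/
theorem points_of_class (K F k E : Type) [Field K] [Field F] [Algebra K F] [Field k] [Field E]
    [Algebra k E] [IsAlgClosed K] [IsAlgClosed k] [H94.FunField K F] [H94.FunField k E]
    (S : H19.GoodRed K F k E) (Γ : Subgroup (SemilinearAut K F)) (I : H19.InertiaAction S Γ)
    (Y : H19.Sys S I) (x : Pic0 K F) (hx : H23.redPic0 S x = 0) :
    (∀ i, S.r (Y.pts x i) = Y.Q i) ∧ H23.classOf (Y.pts x) (fun i => (Y.C i).P0) = x ∧
      ∀ P : Fin S.g → Place K F, (∀ i, S.r (P i) = Y.Q i) →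
        H23.classOf P (fun i => (Y.C i).P0) = x → Y.pts x = P :=
  ⟨Y.r_pts x, Y.classOf_pts hx, fun _ hP h => Y.pts_eq hP h⟩

/-- **The points are equivariant.**  Proof: uniqueness, since the centres are invariant and `Γ` does
not move the discs.  File H19Sys (`Sys.pts_smul`). -/
theorem points_equivariant (K F k E : Type) [Field K] [Field F] [Algebra K F] [Field k] [Field E]
    [Algebra k E] [IsAlgClosed K] [IsAlgClosed k] [H94.FunField K F] [H94.FunField k E]
    (S : H19.GoodRed K F k E) (Γ : Subgroup (SemilinearAut K F)) (I : H19.InertiaAction S Γ)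
    (Y : H19.Sys S I) (x : Pic0 K F) (hx : H23.redPic0 S x = 0) (γ : SemilinearAut K F)
    (hγ : γ ∈ Γ) (i : Fin S.g) : Y.pts (γ • x) i = γ • Y.pts x i :=
  Y.pts_smul hx hγ i

/-- **The coordinates of a class.**  The `i`-th coordinate `Y.t i x` of a class `x` is the value of
the `i`-th coordinate function at the `i`-th point.  It is integral; the coordinates of `0` are `0`.
(For a class with nonzero reduction the points `Y.pts x i` are the centres, by convention.)
File H19Sys (`Sys.t`, `Sys.t_mem`, `Sys.t_zero`). -/
theorem coordinates_of_class (K F k E : Type) [Field K] [Field F] [Algebra K F] [Field k]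
    [Field E] [Algebra k E] [IsAlgClosed K] [IsAlgClosed k] [H94.FunField K F]
    [H94.FunField k E] (S : H19.GoodRed K F k E) (Γ : Subgroup (SemilinearAut K F))
    (I : H19.InertiaAction S Γ) (Y : H19.Sys S I) (i : Fin S.g) (x : Pic0 K F) :
    Y.t i x = H19.pval (Y.pts x i) (Y.C i).z ∧ Y.t i x ∈ S.A ∧ Y.t i 0 = 0 :=
  ⟨rfl, Y.t_mem i x, Y.t_zero i⟩

/-- **The coordinates are equivariant and separate classes** with trivial reduction.
File H19Sys (`Sys.t_smul`, `Sys.t_injective`). -/
theorem coordinates_separate (K F k E : Type) [Field K] [Field F] [Algebra K F] [Field k]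
    [Field E] [Algebra k E] [IsAlgClosed K] [IsAlgClosed k] [H94.FunField K F]
    [H94.FunField k E] (S : H19.GoodRed K F k E) (Γ : Subgroup (SemilinearAut K F))
    (I : H19.InertiaAction S Γ) (Y : H19.Sys S I) (x : Pic0 K F) (hx : H23.redPic0 S x = 0) :
    (∀ γ ∈ Γ, ∀ i, Y.t i (γ • x) = SemilinearAut.baseAut γ (Y.t i x)) ∧
      ∀ x' : Pic0 K F, H23.redPic0 S x' = 0 → (∀ i, Y.t i x = Y.t i x') → x = x' :=
  ⟨fun _ hγ i => Y.t_smul hx hγ i, fun _ hx' h => Y.t_injective hx hx' h⟩

/-! ### 2. Analytic maps into the kernel of reduction -/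

/-- **Three systems.**  Let `Y`, `Y'`, `Y''` be systems with disjoint sets of discs and let `u`, `u'`
be equivariant maps from the finite set `X` to the kernel of the reduction.  If the coordinates of
`u` in `Y` and of `u'` in `Y'` belong to `H`, then so do the coordinates of `-(u + u')` in `Y''`.
Proof: the sum of the three relations says that `∑ P - ∑ R` is principal for the union of the three
systems; apply the addition lemma (`addition_lemma` in `GuideFlatTorsion`) with the discs of `Y`,
`Y'` known and the discs of `Y''` nonspecial.  File H19Sys (`key_an`). -/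
theorem three_systems (K F k E : Type) [Field K] [Field F] [Algebra K F] [Field k] [Field E]
    [Algebra k E] [IsAlgClosed K] [IsAlgClosed k] [H94.FunField K F] [H94.FunField k E]
    (S : H19.GoodRed K F k E) (Γ : Subgroup (SemilinearAut K F)) (I : H19.InertiaAction S Γ)
    (R1 : H19.RankOne S Γ) (X : Type) [Finite X] (act : Γ → X → X) (H : Subring (X → K))
    (hH : H19.IsAnAlg S.A (fun γ : Γ => SemilinearAut.baseAut (γ : SemilinearAut K F)) act H)
    (Y Y' Y'' : H19.Sys S I) (h1 : ∀ i j, Y.Q i ≠ Y'.Q j) (h2 : ∀ i j, Y.Q i ≠ Y''.Q j)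
    (h3 : ∀ i j, Y'.Q i ≠ Y''.Q j) (u u' : X → Pic0 K F) (hu : ∀ x, H23.redPic0 S (u x) = 0)
    (hu' : ∀ x, H23.redPic0 S (u' x) = 0)
    (hue : ∀ (γ : Γ) x, u (act γ x) = (γ : SemilinearAut K F) • u x)
    (hue' : ∀ (γ : Γ) x, u' (act γ x) = (γ : SemilinearAut K F) • u' x)
    (ht : ∀ i, (fun x => Y.t i (u x)) ∈ H) (ht' : ∀ i, (fun x => Y'.t i (u' x)) ∈ H)
    (i : Fin S.g) : (fun x => Y''.t i (-(u x + u' x))) ∈ H :=
  H19.key_an R1 hH h1 h2 h3 hu hu' hue hue' ht ht' i

/-- **One system suffices.**  An equivariant map into the kernel of the reduction whose coordinates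
in one system belong to `H` is analytic, i.e. this holds in every system.  Proof: apply
`three_systems` twice, with `u' = 0` and auxiliary disjoint systems: first to get `-u`, then `u`.
File H19Sys (`IsAn.of_sys`). -/
theorem analytic_of_one_system (K F k E : Type) [Field K] [Field F] [Algebra K F] [Field k]
    [Field E] [Algebra k E] [IsAlgClosed K] [IsAlgClosed k] [H94.FunField K F]
    [H94.FunField k E] (S : H19.GoodRed K F k E) (Γ : Subgroup (SemilinearAut K F))
    (I : H19.InertiaAction S Γ) (R1 : H19.RankOne S Γ) (X : Type) [Finite X] (act : Γ → X → X)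
    (H : Subring (X → K))
    (hH : H19.IsAnAlg S.A (fun γ : Γ => SemilinearAut.baseAut (γ : SemilinearAut K F)) act H)
    (u : X → Pic0 K F) (hu : ∀ x, H23.redPic0 S (u x) = 0)
    (hue : ∀ (γ : Γ) x, u (act γ x) = (γ : SemilinearAut K F) • u x)
    (Y : H19.Sys S I) (ht : ∀ i, (fun x => Y.t i (u x)) ∈ H) : H19.IsAn I act H u :=
  H19.IsAn.of_sys R1 hH hu hue ht

/-- **Analytic maps form a group**: zero, negative and (`analytic_add` in `GuideFlatTorsion`) sum.
File H19Sys (`IsAn.zero`, `IsAn.neg`). -/
theorem analytic_zero_neg (K F k E : Type) [Field K] [Field F] [Algebra K F] [Field k] [Field E]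
    [Algebra k E] [IsAlgClosed K] [IsAlgClosed k] [H94.FunField K F] [H94.FunField k E]
    (S : H19.GoodRed K F k E) (Γ : Subgroup (SemilinearAut K F)) (I : H19.InertiaAction S Γ)
    (R1 : H19.RankOne S Γ) (X : Type) [Finite X] (act : Γ → X → X) (H : Subring (X → K))
    (hH : H19.IsAnAlg S.A (fun γ : Γ => SemilinearAut.baseAut (γ : SemilinearAut K F)) act H) :
    H19.IsAn I act H (fun _ => (0 : Pic0 K F)) ∧
      ∀ u : X → Pic0 K F, H19.IsAn I act H u → H19.IsAn I act H (fun x => -(u x)) :=
  ⟨H19.IsAn.zero, fun _ h => H19.IsAn.neg R1 hH h⟩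

/-- **Composition.**  An analytic map composed with an equivariant map of finite sets which pulls `H`
back into `H'` is analytic.  File H19Order (`IsAn.comp`). -/
theorem analytic_comp (K F k E : Type) [Field K] [Field F] [Algebra K F] [Field k] [Field E]
    [Algebra k E] [IsAlgClosed K] [IsAlgClosed k] [H94.FunField K F] [H94.FunField k E]
    (S : H19.GoodRed K F k E) (Γ : Subgroup (SemilinearAut K F)) (I : H19.InertiaAction S Γ)
    (X X' : Type) (act : Γ → X → X) (act' : Γ → X' → X') (H : Subring (X → K))
    (H' : Subring (X' → K)) (u : X → Pic0 K F) (h : H19.IsAn I act H u) (φ : X' → X)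
    (hφ : ∀ γ x, φ (act' γ x) = act γ (φ x)) (hH : ∀ f ∈ H, (fun x => f (φ x)) ∈ H') :
    H19.IsAn I act' H' (fun x => u (φ x)) :=
  H19.IsAn.comp h φ hφ hH

/-- **Functions of a locally constant map.**  Let `π : X → Z` be a map such that the indicator
functions of its fibres (`H19.fib K π z`, equal to `1` where `π x = z` and to `0` elsewhere) belong to
`H`.  Then every function of `π x` with integral invariant values belongs to `H`.
File H19Sys (`mem_of_locConst`). -/
theorem locally_constant_functions (K F k E : Type) [Field K] [Field F] [Algebra K F] [Field k]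
    [Field E] [Algebra k E] [IsAlgClosed K] [IsAlgClosed k] [H94.FunField K F]
    [H94.FunField k E] (S : H19.GoodRed K F k E) (Γ : Subgroup (SemilinearAut K F))
    (X : Type) [Finite X] (act : Γ → X → X) (H : Subring (X → K))
    (hH : H19.IsAnAlg S.A (fun γ : Γ => SemilinearAut.baseAut (γ : SemilinearAut K F)) act H)
    (Z : Type) (π : X → Z) (hπ : ∀ z, H19.fib K π z ∈ H) (φ : Z → K)
    (hφ : ∀ x, φ (π x) ∈ S.A)
    (hφΓ : ∀ γ ∈ Γ, ∀ x, SemilinearAut.baseAut γ (φ (π x)) = φ (π x)) :
    (fun x => φ (π x)) ∈ H :=
  H19.mem_of_locConst hH hπ hφ hφΓ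

/-- **Locally constant maps are analytic**: functions of `π x`, where `π` is also constant on the
orbits, if their values are invariant classes with trivial reduction.  Reason: their coordinates are
invariant constants on the fibres.  File H19Sys (`IsAn.locConst`). -/
theorem locally_constant_maps (K F k E : Type) [Field K] [Field F] [Algebra K F] [Field k]
    [Field E] [Algebra k E] [IsAlgClosed K] [IsAlgClosed k] [H94.FunField K F]
    [H94.FunField k E] (S : H19.GoodRed K F k E) (Γ : Subgroup (SemilinearAut K F))
    (I : H19.InertiaAction S Γ) (X : Type) [Finite X] (act : Γ → X → X) (H : Subring (X → K))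
    (hH : H19.IsAnAlg S.A (fun γ : Γ => SemilinearAut.baseAut (γ : SemilinearAut K F)) act H)
    (Z : Type) (π : X → Z) (hπ : ∀ z, H19.fib K π z ∈ H) (hπe : ∀ (γ : Γ) x, π (act γ x) = π x)
    (c : Z → Pic0 K F) (hc : ∀ x, H23.redPic0 S (c (π x)) = 0)
    (hcΓ : ∀ γ ∈ Γ, ∀ x, γ • c (π x) = c (π x)) : H19.IsAn I act H (fun x => c (π x)) :=
  H19.IsAn.locConst hH hπ hπe hc hcΓ

/-! ### 3. The analytic algebra -/

/-- **Generated algebras.**  A ring of functions generated by integral equivariant functions, among
them the invariant integral constants, which separate points, is an algebra of analytic functions.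
File H19Order (`isAnAlg_closure`). -/
theorem generated_algebra (K : Type) [Field K] (A : ValuationSubring K) (ι X : Type)
    (σ : ι → K ≃+* K) (τ : ι → X → X) (G : Set (X → K)) (hint : ∀ f ∈ G, ∀ x, f x ∈ A)
    (heq : ∀ f ∈ G, ∀ i x, f (τ i x) = σ i (f x))
    (hconst : ∀ c ∈ A, (∀ i, σ i c = c) → (fun _ => c) ∈ G)
    (hsep : ∀ x x', (∀ f ∈ G, f x = f x') → x = x') :
    H19.IsAnAlg A σ τ (Subring.closure G) :=
  H19.isAnAlg_closure hint heq hconst hsep

/-- **Product algebras.**  `H19.prodAlg H H'` is the ring of the functions `∑ a_i(x) b_i(x')` on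
`X × X'` with `a_i` in `H` and `b_i` in `H'`; it is an algebra of analytic functions if `H` and `H'`
are.  So "closed under comultiplication" says that `(m, m') ↦ f (m + m')` belongs to `prodAlg H H`.
File H19Order (`prodAlg`, `IsAnAlg.prod`). -/
theorem product_algebra (K : Type) [Field K] (A : ValuationSubring K) (ι X X' : Type)
    (σ : ι → K ≃+* K) (τ : ι → X → X) (τ' : ι → X' → X') (H : Subring (X → K))
    (H' : Subring (X' → K)) (h : H19.IsAnAlg A σ τ H) (h' : H19.IsAnAlg A σ τ' H') :
    (∀ f, f ∈ H19.prodAlg H H' ↔ ∃ (n : ℕ) (a : Fin n → X → K) (b : Fin n → X' → K),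
      (∀ i, a i ∈ H) ∧ (∀ i, b i ∈ H') ∧ ∀ x x', f (x, x') = ∑ i, a i x * b i x') ∧
      H19.IsAnAlg A σ (fun i (p : X × X') => (τ i p.1, τ' i p.2)) (H19.prodAlg H H') :=
  ⟨fun _ => Iff.rfl, h.prod h'⟩

/-- **Invariant lifts.**  `H19.lift I y` is a chosen `Γ`-invariant class with reduction `y`
(`exists_invariant_lift` in `GuideFlatTorsion`).  File H19Order (`red_lift`, `smul_lift`). -/
theorem invariant_lift (K F k E : Type) [Field K] [Field F] [Algebra K F] [Field k] [Field E]
    [Algebra k E] [IsAlgClosed K] [IsAlgClosed k] [H94.FunField K F] [H94.FunField k E]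
    (S : H19.GoodRed K F k E) (Γ : Subgroup (SemilinearAut K F)) (I : H19.InertiaAction S Γ)
    (y : Pic0 k E) :
    H23.redPic0 S (H19.lift I y) = y ∧ ∀ γ ∈ Γ, γ • H19.lift I y = H19.lift I y :=
  ⟨H19.red_lift I y, fun _ hγ => H19.smul_lift I y hγ⟩

/-- **The component in the kernel of the reduction.**  `H19.vv I x = x - lift (red x)` has trivial
reduction and depends equivariantly on `x`.  File H19Order (`red_vv`, `vv_smul`). -/
theorem component_in_kernel (K F k E : Type) [Field K] [Field F] [Algebra K F] [Field k]
    [Field E] [Algebra k E] [IsAlgClosed K] [IsAlgClosed k] [H94.FunField K F]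
    [H94.FunField k E] (S : H19.GoodRed K F k E) (Γ : Subgroup (SemilinearAut K F))
    (I : H19.InertiaAction S Γ) (x : Pic0 K F) :
    H19.vv I x = x - H19.lift I (H23.redPic0 S x) ∧ H23.redPic0 S (H19.vv I x) = 0 ∧
      ∀ γ ∈ Γ, H19.vv I (γ • x) = γ • H19.vv I x :=
  ⟨rfl, H19.red_vv I x, fun _ hγ => H19.vv_smul I hγ x⟩

/-- **Definition unfolded: the analytic algebra** `H19.anAlg I M Y` of a subgroup `M` of `Pic⁰ F` and
a system `Y`: the ring of functions on `M` generated by the invariant integral constants, the
indicator functions `H19.ind S M z` of the fibres of the reduction and the coordinates of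
`vv m = m - lift (red m)`.  For finite `Γ`-stable `M` it is an algebra of analytic functions closed
under comultiplication (`analytic_algebra` in `GuideFlatTorsion`).  File H19Order (`anAlg`). -/
theorem anAlg_def (K F k E : Type) [Field K] [Field F] [Algebra K F] [Field k] [Field E]
    [Algebra k E] [IsAlgClosed K] [IsAlgClosed k] [H94.FunField K F] [H94.FunField k E]
    (S : H19.GoodRed K F k E) (Γ : Subgroup (SemilinearAut K F)) (I : H19.InertiaAction S Γ)
    (M : AddSubgroup (Pic0 K F)) (Y : H19.Sys S I) :
    H19.anAlg I M Y = Subring.closure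
      ({f | ∃ c ∈ S.A, (∀ γ : Γ, SemilinearAut.baseAut (γ : SemilinearAut K F) c = c) ∧
          f = fun _ => c} ∪
        ({f | ∃ z : Pic0 k E, f = H19.ind S M z} ∪
          {f | ∃ i, f = fun m : M => Y.t i (H19.vv I m)})) :=
  rfl

/-- **The indicator functions of the fibres of the reduction**: `H19.ind S M z` is `1` at the `m ∈ M`
with reduction `z` and `0` elsewhere; it belongs to the analytic algebra.
File H19Order (`ind_pos`, `ind_neg`, `ind_mem`). -/
theorem indicator_functions (K F k E : Type) [Field K] [Field F] [Algebra K F] [Field k]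
    [Field E] [Algebra k E] [IsAlgClosed K] [IsAlgClosed k] [H94.FunField K F]
    [H94.FunField k E] (S : H19.GoodRed K F k E) (Γ : Subgroup (SemilinearAut K F))
    (I : H19.InertiaAction S Γ) (M : AddSubgroup (Pic0 K F)) (Y : H19.Sys S I) (z : Pic0 k E) :
    (∀ m : M, H23.redPic0 S (m : Pic0 K F) = z → H19.ind S M z m = 1) ∧
      (∀ m : M, H23.redPic0 S (m : Pic0 K F) ≠ z → H19.ind S M z m = 0) ∧
      H19.ind S M z ∈ H19.anAlg I M Y :=
  ⟨fun _ h => H19.ind_pos M h, fun _ h => H19.ind_neg M h, H19.ind_mem I M Y z⟩

/-- **The map `m ↦ m - lift (red m)` is analytic** on `M` for the analytic algebra (in every system,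
not only in `Y`): `analytic_of_one_system`.  (`H19.actM M hM γ m = γ • m`.)  Since
`vv (m + m') = vv m + vv m' + (lift a + lift b - lift (a + b))` with `a`, `b` the reductions of `m`,
`m'`, the sum is analytic on `M × M` by `analytic_add`, `analytic_comp` and `locally_constant_maps`;
this is the proof of the comultiplication.  File H19Order (`isAn_vv`, `comul_mem`). -/
theorem component_analytic (K F k E : Type) [Field K] [Field F] [Algebra K F] [Field k] [Field E]
    [Algebra k E] [IsAlgClosed K] [IsAlgClosed k] [H94.FunField K F] [H94.FunField k E]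
    (S : H19.GoodRed K F k E) (Γ : Subgroup (SemilinearAut K F)) (I : H19.InertiaAction S Γ)
    (R1 : H19.RankOne S Γ) (M : AddSubgroup (Pic0 K F)) [Finite M]
    (hM : ∀ γ ∈ Γ, ∀ m ∈ M, γ • m ∈ M) (Y : H19.Sys S I) :
    H19.IsAn I (H19.actM M hM) (H19.anAlg I M Y) (fun m : M => H19.vv I m) :=
  H19.isAn_vv I M hM R1 Y

/-! ### 4. Transport by automorphisms -/

/-- **An automorphism of a ring which preserves the kernel of a surjection** induces an automorphism
of the target.  File H19Bar (`exists_induced_equiv`). -/
theorem induced_automorphism (R R' : Type) [CommRing R] [CommRing R'] (f : R →+* R')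
    (hf : Function.Surjective f) (e : R ≃+* R) (he : ∀ r, f (e r) = 0 ↔ f r = 0) :
    ∃ e' : R' ≃+* R', ∀ r, e' (f r) = f (e r) :=
  H19.exists_induced_equiv f hf e he

/-- **The induced automorphism of the reduction.**  Let `δ` be a semilinear automorphism of `F/K`
which preserves the ring of integral functions (`H23.Compat S δ`); it acts on this ring by
`hδ.act b = δ • b`.  Then there is a semilinear automorphism `β` of `E/k` with
`β (ρ b) = ρ (δ b)` for all integral functions `b`.  Proof: an integral function `b ≠ 0` has
reduction `0` if and only if `b = a x` with `a` small and `x` integral with nonzero reduction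
(`scaling` in `GuideFlatSteps`), and `δ` preserves `S.A`, hence its maximal ideal; so `δ` preserves
the kernels of `ρ` and `π`.  Apply `induced_automorphism` to `ρ` (onto its image) and to `π` and pass
to quotients in `E`.  Files H23RedPic (`Compat.ρ_act_eq_zero`), H19Bar (`compat_exists_bar`). -/
theorem automorphism_of_reduction (K F k E : Type) [Field K] [Field F] [Algebra K F] [Field k]
    [Field E] [Algebra k E] (S : H19.GoodRed K F k E) (δ : SemilinearAut K F)
    (hδ : H23.Compat S δ) :
    ∃ β : SemilinearAut k E, ∀ b : S.B, β • S.ρ b = S.ρ (hδ.act b) := by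
  obtain ⟨β, hβ, -⟩ := H19.compat_exists_bar hδ
  exact ⟨β, hβ⟩

/-- **The reduction of places is compatible with `δ` and `β`.**  Proof: the place `S.r P` is
determined by the space `L(n S.r P)`, `n` large, which is the reduction of `L(n P)`.
File H19Bar (`compat_r_bar`). -/
theorem places_transported (K F k E : Type) [Field K] [Field F] [Algebra K F] [Field k] [Field E]
    [Algebra k E] [IsAlgClosed K] [IsAlgClosed k] [H94.FunField K F] [H94.FunField k E]
    (S : H19.GoodRed K F k E) (δ : SemilinearAut K F) (hδ : H23.Compat S δ)
    (β : SemilinearAut k E) (hβ : ∀ b : S.B, β • S.ρ b = S.ρ (hδ.act b)) (P : Place K F) :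
    S.r (δ • P) = β • S.r P :=
  H19.compat_r_bar hδ hβ P

/-- **Systems are transported.**  Let `δ` preserve the ring of integral functions and the place `∞`,
and let `δ⁻¹ Γ δ ⊆ Γ`.  For every system `Y` there is a system `Z` (with discs `β • Y.Q i` and
coordinates `δ • (Y.C i).z`) such that the coordinates in `Z` of `δ • x` are the images under `δ` of
the coordinates in `Y` of `x`.  With `analytic_of_one_system` this gives the stability of the analytic
algebra (`analytic_algebra_stable` in `GuideFlatTorsion`).  File H19Order (`exists_sys_smul`). -/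
theorem system_transported (K F k E : Type) [Field K] [Field F] [Algebra K F] [Field k] [Field E]
    [Algebra k E] [IsAlgClosed K] [IsAlgClosed k] [H94.FunField K F] [H94.FunField k E]
    (S : H19.GoodRed K F k E) (Γ : Subgroup (SemilinearAut K F)) (I : H19.InertiaAction S Γ)
    (Y : H19.Sys S I) (δ : SemilinearAut K F) (hδ : H23.Compat S δ)
    (hinf : δ • I.Pinf = I.Pinf) (hΓ : ∀ γ ∈ Γ, δ⁻¹ * γ * δ ∈ Γ) :
    ∃ Z : H19.Sys S I, ∀ x : Pic0 K F, H23.redPic0 S x = 0 → ∀ i,
      Z.t i (δ • x) = SemilinearAut.baseAut δ (Y.t i x) :=
  H19.exists_sys_smul I Y hδ hinf hΓ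

/-! ### 5. The modular curve -/

/-- **The decomposition group and the residue field.**  An element `σ` of the decomposition group of
a place `A` of `ℚ̄` preserves `A`, and it does not change whether the residue of an element is zero
(`H19.decRingEquiv hσ` is the automorphism of `A` given by `σ`).
File H19Compat (`apply_mem_of_dec`, `residue_decRingEquiv_eq_zero`). -/
theorem decomposition_residue (A : ValuationSubring Qbar) (σ : GQ) (hσ : σ • A = A) :
    (∀ a ∈ A, σ a ∈ A) ∧ ∀ a : A,
      IsLocalRing.residue A (H19.decRingEquiv hσ a) = 0 ↔ IsLocalRing.residue A a = 0 :=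
  ⟨fun _ ha => H19.apply_mem_of_dec hσ ha, H19.residue_decRingEquiv_eq_zero hσ⟩

/-- **The decomposition group preserves the integral functions on `X₀(N)`**: it is compatible with the
good reduction (`H23.Compat`).  Proof: integral functions are quotients `y / z` of Laurent series in
`q` with coefficients in `A`, with the reduction of `z` nonzero (`integral_functions_X0` in
`GuideFlatTorsion`); `σ` acts on the coefficients.  (`hS`: the reduction of functions which belongs to
the good reduction `S` is the reduction of `q`-expansions `H42.modRed`; the structure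
`H40.ReductionData` is explained in `GuideDeuring`.)
File H19Compat (`dec_smul_mem`, `compat_dec`). -/
theorem decomposition_compatible (A : ValuationSubring Qbar) (N : ℕ) [NeZero N]
    (hdeg : H42.DegLE Qbar (IsLocalRing.ResidueField A) N)
    (S : H19.GoodRed Qbar (modularFunctionFieldBar N) (IsLocalRing.ResidueField A)
      (modularFunctionFieldFullC (IsLocalRing.ResidueField A) N))
    (hS : S.toReductionData = H42.modRed hdeg) (σ : GQ) (hσ : σ • A = A) :
    H23.Compat S (arithmeticGalois (modularFunctionFieldFull N) σ) :=
  H19.compat_dec hdeg hS hσ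

/-- **Inertia is normal in the decomposition group** (as subgroups of `Gal(ℚ̄/ℚ)`).
File H19Final (`inertia_conj`). -/
theorem inertia_normal (A : ValuationSubring Qbar) (σ ι : GQ) (hσ : σ • A = A)
    (hι : ι ∈ A.inertiaSubgroupIn ℚ) : σ⁻¹ * ι * σ ∈ A.inertiaSubgroupIn ℚ :=
  H19.inertia_conj hσ hι

/-- **The rank one hypothesis for `X₀(N)`**: `ℓ` is a pseudo-uniformizer, invariant under inertia.
Reason: if `x ≠ 0` belongs to `A` and `y` to its maximal ideal, then some power of `y` is divisible by
`x` in `A`; apply this with `y = ℓ` and with `x = ℓ`.  Files H19Compat (`rankOne`), H18S18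
(`dvd_pow_of_algebraicClosure`). -/
theorem rank_one_X0 (A : ValuationSubring Qbar) (N ℓ : ℕ) [NeZero N] (hℓ : ℓ.Prime)
    (hA : A.LiesOverPrime ℓ) (hdeg : H42.DegLE Qbar (IsLocalRing.ResidueField A) N)
    (S : H19.GoodRed Qbar (modularFunctionFieldBar N) (IsLocalRing.ResidueField A)
      (modularFunctionFieldFullC (IsLocalRing.ResidueField A) N))
    (hS : S.toReductionData = H42.modRed hdeg) :
    ∃ R1 : H19.RankOne S ((A.inertiaSubgroupIn ℚ).map
      (arithmeticGalois (modularFunctionFieldFull N))), R1.ϖ = (ℓ : Qbar) :=
  ⟨H19.rankOne hdeg hS hℓ hA, rfl⟩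

/-- **The `ℓ^n`-torsion of `J₀(N)` is finite** (from S27).  File H19Final (`finite_torsionBy`). -/
theorem torsion_finite (N ℓ n : ℕ) [NeZero N] [Fact ℓ.Prime] :
    Finite ↥(Submodule.torsionBy ℤ (JZero N) ((ℓ : ℤ) ^ n)) :=
  H19.finite_torsionBy N ℓ n

/-- **Assembly.**  Given the good reduction and the inertia action of `X₀(N)` at a place `A` above
`ℓ`, with `∞` fixed by the decomposition group, the `ℓ^n`-torsion of `J₀(N)` has a finite flat model
over `ℤ_(ℓ)`.  Proof: `M` is the torsion, `H` its analytic algebra for a system of discs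
(`exists_system`); it is an algebra of analytic functions closed under comultiplication and stable
under the decomposition group; apply `descent_to_Zl` of `GuideFlatTorsion`.  The hypotheses are
`good_reduction_X0` and `inertia_X0` there; `H19.torsionAct` is the Galois action on the torsion.
File H19Final (`hasFlatModel_of_inertiaAction`). -/
theorem flat_model_of_inertia_action (A : ValuationSubring Qbar) (N ℓ : ℕ) [NeZero N]
    [Fact ℓ.Prime] (hA : A.LiesOverPrime ℓ) (n : ℕ)
    (hdeg : H42.DegLE Qbar (IsLocalRing.ResidueField A) N)
    (S : H19.GoodRed Qbar (modularFunctionFieldBar N) (IsLocalRing.ResidueField A)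
      (modularFunctionFieldFullC (IsLocalRing.ResidueField A) N))
    (hS : S.toReductionData = H42.modRed hdeg)
    (I : H19.InertiaAction S ((A.inertiaSubgroupIn ℚ).map
      (arithmeticGalois (modularFunctionFieldFull N))))
    (hPinf : ∀ σ : GQ, σ • A = A →
      arithmeticGalois (modularFunctionFieldFull N) σ • I.Pinf = I.Pinf) :
    H19.HasFlatModel (GaloisRep.ratLocalizedAt ℓ) ℚ Qbar
      ↥(Submodule.torsionBy ℤ (JZero N) ((ℓ : ℤ) ^ n)) (H19.torsionAct N ((ℓ : ℤ) ^ n)) :=
  H19.hasFlatModel_of_inertiaAction hA n hdeg hS I hPinf

/-- **Transport of flat models** along an equivariant isomorphism of groups.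
File H19Final (`HasFlatModel.congr`). -/
theorem flat_model_congr (R K L : Type) [CommRing R] [Field K] [Field L] [Algebra K L]
    [Algebra R L] (M M' : Type) [AddCommGroup M] [AddCommGroup M'] (act : (L ≃ₐ[K] L) → M → M)
    (act' : (L ≃ₐ[K] L) → M' → M') (h : H19.HasFlatModel R K L M act) (e : M ≃+ M')
    (he : ∀ σ m, e (act σ m) = act' σ (e m)) : H19.HasFlatModel R K L M' act' :=
  H19.HasFlatModel.congr h e he

end Fermat.Agent.Guide.FlatOrder
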