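import Fermat.Agent.H32JZero

/-!
# Reader's guide: orders of functions and the trace argument, step by step (S32, S56)

Every theorem of this file is proved by citing a theorem of the library; nothing here is used by any
other file. Companion of `GuideFlat`, sections 1 to 3: there are the statements, here the steps of their
proofs. Library: `H32FlatOrder`, `H32FlatClosure`, `H32Bridge` (sections 1 to 3), `H32Commutator`
(section 4), `H32Trace` (section 5), `H32S32`, `H32JZero` (section 6). Text and library: helper32.
Notes in NOTES.md: [141] NOTES-S19-S32, [286] NOTES-PARTS-helper32 (item 4).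

**Sections 1 to 3.** Let `M` be a finite abelian group with an operation of the Galois group of `ℚ`. A
*flat order* at `ℓ` is a ring `H` of Galois equivariant functions `M → ℚ̄`, finitely generated as a module
over `ℤ_(ℓ)`, which separates the points of `M` and for which `h(x + y)` is a combination of products
`a(x) b(y)`, `a, b ∈ H`. It is a finite flat model of `M` over `ℤ_(ℓ)`
(`GuideFlat.hasFlatOrder_iff_hasFlatModel`). All that is needed to prove Raynaud's closure properties for
orders is linear algebra: `H` has a basis over `ℤ_(ℓ)`; by Galois descent this is a basis over `ℚ̄` of the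
space of all functions on `M`; so the coefficients of a function with respect to it are unique, and they
can be read off. No group schemes, no Hopf algebras, no hypothesis on the ramification; for this `ℓ` need
not even be prime.

**Sections 4 to 6.** Let `μ` be a representation of a group in some algebra, of which one knows only
that every `μ(g)` satisfies a quadratic equation (here: the Galois group acting on the torsion of
`J₀(N)`, by the Eichler-Shimura relation). The trace argument shows that every linear relation between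
the `μ(g)` holds also for a two dimensional representation `ρ` whose characteristic polynomials are
these equations, if `ρ` is residually absolutely irreducible. The steps: some commutator in the image
of `ρ` is invertible; `t(g) = μ(g) + d(g) μ(g)⁻¹`; a relation `∑ a(g) μ(g) = 0` makes
`c = ∑ a(g) t(g)` kill all commutators; the square of a commutator is, up to the sign, a polynomial in
the traces and determinants.

**Where it is used.** Sections 1 to 3: S32, S56 and the statements above them (S38, S43, S45, S46, S50,
S59, S60, S03, S04, S06, S01); `finitely_many_generators` in all of these but S56, `fixed_elements` also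
in S09, S12, S15. Sections 4 to 6: S32 and the same statements above it.
-/

set_option autoImplicit false

noncomputable section

namespace Fermat.Agent.Guide.FlatOrders

open Fermat.Agent GaloisRep

/-- The absolute Galois group of `ℚ` (notation of this file only). -/
local notation "GQ" => AlgebraicClosure ℚ ≃ₐ[ℚ] AlgebraicClosure ℚ

/-- The field of algebraic numbers (notation of this file only). -/
local notation "Qbar" => AlgebraicClosure ℚ

/-! ## 1. Galois descent -/

/-- **The ring `ℤ_(ℓ)`** of the rational numbers with denominator prime to `ℓ`: all its ideals are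
principal (generated by integers), and every rational number has a multiple by a natural number `n ≠ 0`
in it. The number `ℓ` is arbitrary, also `0`, `1` or composite. File `H32FlatOrder`. -/
theorem ring_of_denominators (ℓ : ℕ) :
    IsPrincipalIdealRing (ratLocalizedAt ℓ) ∧
      ∀ q : ℚ, ∃ n : ℕ, n ≠ 0 ∧ (n : ℚ) * q ∈ ratLocalizedAt ℓ :=
  ⟨H32.isPrincipalIdealRing_ratLocalizedAt ℓ,
    fun q => H32.exists_nat_mul_mem_ratLocalizedAt q ℓ⟩

/-- **Fixed elements.** An algebraic number which is fixed by all automorphisms of `ℚ̄` is rational.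
File `H32FlatOrder`. -/
theorem fixed_elements (x : Qbar) (h : ∀ σ : GQ, σ x = x) : x ∈ Set.range (algebraMap ℚ Qbar) :=
  H32.mem_range_of_forall_fixed x h

/-- **Descent of linear independence.** Galois equivariant functions on a set `M` with values in `ℚ̄`
which are linearly independent over `ℚ` are linearly independent over `ℚ̄`. Take a shortest relation
with one coefficient equal to `1`; the difference with its conjugate by `σ` is a shorter relation, so
the coefficients are fixed by all `σ`. (`act` is any operation by surjective maps.) File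
`H32FlatOrder`. -/
theorem descent_of_independence {M : Type*} (act : GQ → M → M) {ι : Type*} (f : ι → M → Qbar)
    (hsurj : ∀ σ m, ∃ m', act σ m' = m) (heq : ∀ i σ m, f i (act σ m) = σ (f i m))
    (hli : LinearIndependent ℚ f) : LinearIndependent Qbar f :=
  H32.linearIndependent_of_equivariant act f hsurj heq hli

/-- **Descent of coefficients.** If a combination of equivariant functions which are independent over
`ℚ̄` is equivariant, its coefficients are rational. File `H32FlatOrder`. -/
theorem descent_of_coefficients {M : Type*} (act : GQ → M → M) {ι : Type*} [Fintype ι]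
    (f : ι → M → Qbar) (hsurj : ∀ σ m, ∃ m', act σ m' = m)
    (heq : ∀ i σ m, f i (act σ m) = σ (f i m)) (hli : LinearIndependent Qbar f) (c : ι → Qbar)
    (hF : ∀ σ m, (∑ i, c i • f i) (act σ m) = σ ((∑ i, c i • f i) m)) (i : ι) :
    c i ∈ Set.range (algebraMap ℚ Qbar) :=
  H32.coeff_fixed_of_equivariant act f hsurj heq hli c hF i

/-- **Separating algebras.** An algebra of functions which separates the points of a finite set spans
all functions over `ℚ̄`: the characteristic function of a point is a product of functions
`(h - h(m')) / (h(m) - h(m'))`. File `H32FlatOrder`. -/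
theorem separating_algebra_spans {M : Type*} [Finite M] {R : Type*} [CommRing R] [Algebra R Qbar]
    (H : Subalgebra R (M → Qbar)) (hsep : ∀ m m', (∀ h ∈ H, h m = h m') → m = m') :
    Submodule.span Qbar (H : Set (M → Qbar)) = ⊤ :=
  H32.span_eq_top_of_separates H hsep

/-! ## 2. Orders -/

/-- **Notation of `H32FlatClosure`.** `tensorSpan H` is the span of the functions `a(x) b(y)` on `M × M`
with `a, b ∈ H`; `comulFun h` is the function `h(x + y)`; `pull R i` is the composition with a map
`i : N → M`; `comulSubalgebra H` is the algebra of the functions `h` for which `h(x + y)` is in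
`tensorSpan H`. -/
theorem notions {M N : Type*} [AddCommGroup M] {R : Type*} [CommRing R] [Algebra R Qbar]
    (H : Subalgebra R (M → Qbar)) (h : M → Qbar) (x : M × M) (i : N → M) (n : N) :
    H32.tensorSpan H =
        Submodule.span R {F | ∃ a ∈ H, ∃ b ∈ H, F = fun x => a x.1 * b x.2} ∧
      H32.comulFun h x = h (x.1 + x.2) ∧ H32.pull R i h n = h (i n) ∧
      (h ∈ H32.comulSubalgebra H ↔ H32.comulFun h ∈ H32.tensorSpan H) :=
  ⟨rfl, rfl, rfl, Iff.rfl⟩

/-- **Products.** `tensorSpan H` is closed under multiplication; this is why the functions `h` with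
`h(x + y)` in it form an algebra, and it is enough to check the condition on generators. File
`H32FlatClosure`. -/
theorem tensorSpan_mul {M : Type*} {R : Type*} [CommRing R] [Algebra R Qbar]
    (H : Subalgebra R (M → Qbar)) {F G : M × M → Qbar} (hF : F ∈ H32.tensorSpan H)
    (hG : G ∈ H32.tensorSpan H) : F * G ∈ H32.tensorSpan H :=
  H32.mul_mem_tensorSpan H hF hG

/-- **Pull back.** Let `i : N → M` be a homomorphism of groups such that `h ∘ i ∈ H'` for `h ∈ H`. If
`h(x + y)` is in the span for `H`, then `h(i(x) + i(y))` is in the span for `H'`. File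
`H32FlatClosure`. -/
theorem pull_back {M N : Type*} [AddCommGroup M] [AddCommGroup N] {R : Type*} [CommRing R]
    [Algebra R Qbar] (H : Subalgebra R (M → Qbar)) (H' : Subalgebra R (N → Qbar)) (i : N →+ M)
    (hle : ∀ h ∈ H, H32.pull R i h ∈ H') {h : M → Qbar} (hh : H32.comulFun h ∈ H32.tensorSpan H) :
    H32.comulFun (H32.pull R i h) ∈ H32.tensorSpan H' :=
  H32.pull_mem_tensorSpan H H' i hle hh

section Orders

variable {ℓ : ℕ} {M : Type*} [AddCommGroup M] {act : GQ → M → M}

/-- **The definition.** `H` is a flat order for `M` at `ℓ` (`IsFlatOrder`) if it is a finite module over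
`ℤ_(ℓ)`, its elements are equivariant, it separates points, and `h(x + y) ∈ tensorSpan H` for
`h ∈ H`. (`HasFlatOrder ℓ M act`: `M` is finite and there is such an `H`.) File `H32FlatClosure`. -/
theorem isFlatOrder_content (H : Subalgebra (ratLocalizedAt ℓ) (M → Qbar)) :
    (H32.IsFlatOrder ℓ act H ↔ Module.Finite (ratLocalizedAt ℓ) H ∧
      (∀ h ∈ H, ∀ σ m, h (act σ m) = σ (h m)) ∧ (∀ m m', (∀ h ∈ H, h m = h m') → m = m') ∧
      ∀ h ∈ H, H32.comulFun h ∈ H32.tensorSpan H) ∧
    (H32.HasFlatOrder ℓ M act ↔
      Finite M ∧ ∃ H : Subalgebra (ratLocalizedAt ℓ) (M → Qbar), H32.IsFlatOrder ℓ act H) :=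
  ⟨⟨fun h => ⟨h.finite, h.equivariant, h.separates, h.comul⟩,
    fun h => ⟨h.1, h.2.1, h.2.2.1, h.2.2.2⟩⟩, Iff.rfl⟩

variable {H : Subalgebra (ratLocalizedAt ℓ) (M → Qbar)}

/-- **It is a group action.** In the definition `act` is only a family of maps. That it is an action of
the Galois group follows: both sides have the same values under all functions of `H`. In particular
all these maps are surjective. File `H32FlatClosure`. -/
theorem action_is_automatic (h : H32.IsFlatOrder ℓ act H) (σ τ : GQ) (m : M) :
    act σ (act τ m) = act (σ * τ) m ∧ act 1 m = m ∧ ∃ m', act σ m' = m :=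
  ⟨h.act_act σ τ m, h.act_one m, h.surj σ m⟩

/-- **From `ℤ_(ℓ)` to `ℚ`.** An order has no torsion, and elements of a rational vector space which are
linearly independent over `ℤ_(ℓ)` are linearly independent over `ℚ` (common denominator). File
`H32FlatClosure`. -/
theorem rational_independence {M : Type*} (H : Subalgebra (ratLocalizedAt ℓ) (M → Qbar)) :
    Module.IsTorsionFree (ratLocalizedAt ℓ) H ∧
    ∀ {ι V : Type} [AddCommGroup V] [Module ℚ V] (f : ι → V),
      (∀ (s : Finset ι) (g : ι → ratLocalizedAt ℓ), ∑ i ∈ s, (g i : ℚ) • f i = 0 →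
        ∀ i ∈ s, g i = 0) → LinearIndependent ℚ f :=
  ⟨H32.isTorsionFree_subalgebra H, fun f hf => H32.linearIndependent_rat_of_ratLocalizedAt f hf⟩

/-- **Bases.** A finite `ℤ_(ℓ)`-algebra of equivariant functions has a basis `e_1, ..., e_n` over
`ℤ_(ℓ)`, which is linearly independent over `ℚ̄` (`descent_of_independence`). File `H32FlatClosure`. -/
theorem exists_basis {M : Type*} {act : GQ → M → M} (H : Subalgebra (ratLocalizedAt ℓ) (M → Qbar))
    (hfin : Module.Finite (ratLocalizedAt ℓ) H) (hsurj : ∀ σ m, ∃ m', act σ m' = m)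
    (heq : ∀ h ∈ H, ∀ σ m, h (act σ m) = σ (h m)) :
    ∃ (n : ℕ) (e : Fin n → M → Qbar), (∀ i, e i ∈ H) ∧ LinearIndependent Qbar e ∧
      ∀ h ∈ H, ∃ r : Fin n → ratLocalizedAt ℓ, h = ∑ i, r i • e i :=
  H32.exists_basis H hfin hsurj heq

/-- **Coefficients in the order.** If `e_1, ..., e_n` generate `H`, every `F ∈ tensorSpan H` has the form
`F(x, y) = ∑ a_i(x) e_i(y)` with `a_i ∈ H`. File `H32FlatClosure`. -/
theorem coefficients_in_order {M : Type*} {R : Type*} [CommRing R] [Algebra R Qbar]
    (H : Subalgebra R (M → Qbar)) {n : ℕ} (e : Fin n → M → Qbar)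
    (he : ∀ h ∈ H, ∃ r : Fin n → R, h = ∑ i, r i • e i) {F : M × M → Qbar}
    (hF : F ∈ H32.tensorSpan H) :
    ∃ a : Fin n → M → Qbar, (∀ i, a i ∈ H) ∧ ∀ x y, F (x, y) = ∑ i, a i x * e i y :=
  H32.exists_coeff_of_mem_tensorSpan H e he hF

/-- **They are unique**: if the `e_i` are independent over `ℚ̄`, the numbers `c_i` are determined by the
function `∑ c_i e_i(y)` of `y`. File `H32FlatClosure`. -/
theorem coefficients_unique {M : Type*} {n : ℕ} {e : Fin n → M → Qbar}
    (he : LinearIndependent Qbar e) {c d : Fin n → Qbar}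
    (h : ∀ y, ∑ i, c i * e i y = ∑ i, d i * e i y) : c = d :=
  H32.coeff_eq_of_linearIndependent he h

/-- **All equivariant functions.** Every equivariant function on `M` has a multiple by a natural number
`D ≠ 0` in the order `H`: a basis of `H` over `ℤ_(ℓ)` is a basis over `ℚ̄` of the space of all functions
(`separating_algebra_spans`), the coefficients are rational (`descent_of_coefficients`), and one
multiplies by a common denominator. So `H ⊗ ℚ` is the same for all orders. File `H32FlatClosure`. -/
theorem multiple_in_order [Finite M] (h : H32.IsFlatOrder ℓ act H) (F : M → Qbar)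
    (hF : ∀ σ m, F (act σ m) = σ (F m)) : ∃ D : ℕ, D ≠ 0 ∧ D • F ∈ H :=
  h.exists_nsmul_mem F hF

/-- **Another form of the definition** (`H19.IsFlatOrder`, used for the dictionary with Hopf algebras,
`GuideFlatTorsion`): the module `H` is finitely generated, and `h(x + y)` is a finite sum of products
`a_i(x) b_i(y)`. File `H32Bridge`. -/
theorem finitely_many_generators {M : Type} [AddCommGroup M] {act : GQ → M → M}
    (H : Subalgebra (ratLocalizedAt ℓ) (M → Qbar)) :
    (H32.IsFlatOrder ℓ act H ↔ H19.IsFlatOrder (ratLocalizedAt ℓ) ℚ Qbar act H) ∧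
    (H32.HasFlatOrder ℓ M act ↔ Finite M ∧
      ∃ H : Subalgebra (ratLocalizedAt ℓ) (M → Qbar),
        H19.IsFlatOrder (ratLocalizedAt ℓ) ℚ Qbar act H) :=
  ⟨H32.isFlatOrder_iff H, H32.hasFlatOrder_iff⟩

end Orders

/-! ## 3. Subgroups, quotients, products -/

section Constructions

variable {ℓ : ℕ} {M N : Type*} [AddCommGroup M] [AddCommGroup N] {actM : GQ → M → M}
  {actN : GQ → N → N} {H : Subalgebra (ratLocalizedAt ℓ) (M → Qbar)}
  {K : Subalgebra (ratLocalizedAt ℓ) (N → Qbar)}

/-- **Subgroups.** If `i : N → M` is injective and equivariant, the restrictions `h ∘ i`, `h ∈ H`, form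
an order for `N`. All four conditions are immediate (`pull_back`). File `H32FlatClosure`. -/
theorem order_of_subgroup (h : H32.IsFlatOrder ℓ actM H) (i : N →+ M) (hi : Function.Injective i)
    (hact : ∀ σ n, i (actN σ n) = actM σ (i n)) :
    H32.IsFlatOrder ℓ actN (H.map (H32.pull (ratLocalizedAt ℓ) i)) :=
  h.sub i hi hact

/-- **Quotients.** If `π : M → N` is surjective and equivariant, the functions `f` on `N` for which
`f ∘ π ∈ H` form an order for `N`. Separation of points: for `h ∈ H` the sums of `h` over the fibres of `π`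
are an equivariant function, so a multiple of it is in `H` (`multiple_in_order`); if two fibres were
not separated, the sums over them would agree for all `h ∈ H`, hence for all functions, also for the
characteristic function of a point. Comultiplication: write `f(π(x + y)) = ∑ a_i(x) e_i(y)` with a
basis `e_i` of `H`; the left side depends only on `π(x)`, so the `a_i` do (`coefficients_unique`), and
they are in the new order. Expand them in a basis `e'_j` of it:
`f(π(x + y)) = ∑ e'_j(π(x)) g_j(y)`; now the `g_j` depend only on `π(y)`. File `H32FlatClosure`. -/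
theorem order_of_quotient [Finite M] (h : H32.IsFlatOrder ℓ actM H) (π : M →+ N)
    (hπ : Function.Surjective π) (hact : ∀ σ m, π (actM σ m) = actN σ (π m)) :
    H32.IsFlatOrder ℓ actN (H.comap (H32.pull (ratLocalizedAt ℓ) π)) :=
  h.quotient π hπ hact

/-- **Products.** The algebra generated by the functions `h(x)`, `h ∈ H`, and `k(y)`, `k ∈ K`, is an order
for `M × N`: the conditions need to be checked only for these generators (`tensorSpan_mul`).
File `H32FlatClosure`. -/
theorem order_of_product (h : H32.IsFlatOrder ℓ actM H) (k : H32.IsFlatOrder ℓ actN K) :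
    H32.IsFlatOrder ℓ (M := M × N) (fun σ x => (actM σ x.1, actN σ x.2))
      (H.map (H32.pull (ratLocalizedAt ℓ) Prod.fst) ⊔
        K.map (H32.pull (ratLocalizedAt ℓ) Prod.snd)) :=
  h.prod k

/-- **Powers** `M^n` by induction; the case `n = 0` is the trivial group, with the constants
`ℤ_(ℓ)` as order. (Other finite index sets by a bijection, `GuideFlat.flat_power`.) File
`H32FlatClosure`. -/
theorem order_of_power (h : H32.HasFlatOrder ℓ M actM) (n : ℕ) :
    (∀ {M₀ : Type} [AddCommGroup M₀] [Subsingleton M₀] (act : GQ → M₀ → M₀),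
      H32.HasFlatOrder ℓ M₀ act) ∧ H32.HasFlatOrder ℓ (Fin n → M) (fun σ x i => actM σ (x i)) :=
  ⟨fun act => H32.hasFlatOrder_of_subsingleton act, h.fin_pi n⟩

end Constructions

/-! ## 4. An invertible commutator -/

section Commutator

variable {K V : Type*} [Field K] [IsAlgClosed K] [AddCommGroup V] [Module K V]
  [FiniteDimensional K V]

/-- A nonzero subspace which is stable under `B` contains an eigenvector of `B` (`K` is algebraically
closed). File `H32Commutator`. -/
theorem eigenvector_in_subspace (B : Module.End K V) (W : Submodule K V) (hW : W ≠ ⊥)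
    (hB : ∀ w ∈ W, B w ∈ W) : ∃ v ∈ W, v ≠ 0 ∧ ∃ b : K, B v = b • v :=
  H32.exists_eigenvector_mem B W hW hB

/-- **Common eigenvectors.** In dimension two, if the commutator `C = A B - B A` is singular, then `A`
and `B` have a common eigenvector: from `A C + C A = tr(A) C` (Cayley-Hamilton) one sees that the kernel
of `C` is stable under `A` and `B`, and on this kernel they commute. File `H32Commutator`. -/
theorem common_eigenvector (hV : Module.finrank K V = 2) (A B : Module.End K V)
    (h : LinearMap.det (A * B - B * A) = 0) :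
    ∃ v : V, v ≠ 0 ∧ (∃ a : K, A v = a • v) ∧ ∃ b : K, B v = b • v :=
  H32.exists_common_eigenvector hV A B h

/-- In a two dimensional space a nonzero vector in a proper subspace spans it. File
`H32Commutator`. -/
theorem proper_subspace {K V : Type*} [Field K] [AddCommGroup V] [Module K V]
    [FiniteDimensional K V] (hV : Module.finrank K V = 2) (L : Submodule K V) (hL : L ≠ ⊤) (v : V)
    (hv : v ∈ L) (hv0 : v ≠ 0) : L = Submodule.span K {v} :=
  H32.eq_span_singleton_of_mem hV L hL v hv hv0

/-- **A commutator with nonzero determinant.** Let a group act irreducibly on a two dimensional space.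
Then `det (ρ(x) ρ(y) - ρ(y) ρ(x)) ≠ 0` for some `x`, `y`. Otherwise choose `x₀` with `A = ρ(x₀)` not
scalar, with eigenvalues `a₁`, `a₂` (perhaps equal) and eigenlines `L₁`, `L₂`; by `common_eigenvector`
every `ρ(y)` preserves `L₁` or `L₂`; so the group is the union of the stabilisers of `L₁` and `L₂`, hence
equal to one of them, and this line is invariant. File `H32Commutator`. -/
theorem nonsingular_commutator {G : Type*} [Group G] (hV : Module.finrank K V = 2)
    (ρ : G →* Module.End K V)
    (hirr : ∀ W : Submodule K V, (∀ g, ∀ x ∈ W, ρ g x ∈ W) → W = ⊥ ∨ W = ⊤) :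
    ∃ x y : G, LinearMap.det (ρ x * ρ y - ρ y * ρ x) ≠ 0 :=
  H32.exists_det_commutator_ne_zero hV ρ hirr

end Commutator

/-! ## 5. The trace argument

`μ` is a homomorphism from a group `G` to an algebra `E` over a commutative ring `R`, and `t`, `d` are
functions on `G` with values in `R`, with

* `hQ`: `μ(g)² - t(g) μ(g) + d(g) = 0`,
* `hD1`, `hD2`: `d(1) = 1` and `d(gh) = d(g) d(h)` in `E`.

(`R → E` need not be injective, and nothing is assumed about `t`.) -/

section Trace

variable {R E G : Type*} [CommRing R] [Ring E] [Algebra R E] [Group G] (μ : G →* E) (t d : G → R)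

/-- **The polynomial** `discComm`, which gives the determinant of a commutator in terms of the traces of
`X`, `Y`, `X Y` and the determinants of `X`, `Y`. Compare `GuideFlat.det_commutator`. File
`H32Trace`. -/
theorem discComm_eq (tx ty txy dx dy : R) : H32.discComm tx ty txy dx dy =
    4 * dx * dy - tx ^ 2 * dy - ty ^ 2 * dx + tx * ty * txy - txy ^ 2 :=
  rfl

/-- **`t(g) = μ(g) + d(g) μ(g)⁻¹`**: multiply the quadratic equation by `μ(g⁻¹)`. File `H32Trace`. -/
theorem trace_as_sum (hQ : ∀ g, μ g * μ g - algebraMap R E (t g) * μ g + algebraMap R E (d g) = 0)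
    (g : G) :
    algebraMap R E (t g) = μ g + algebraMap R E (d g) * μ g⁻¹ ∧
      algebraMap R E (d g) * μ g⁻¹ = algebraMap R E (t g) - μ g :=
  ⟨H32.map_t_eq μ t d hQ g, H32.map_d_mul_inv μ t d hQ g⟩

/-- **Translates.** If `∑ a(g) μ(g) = 0` then `∑ a(g) t(gh) = d(h) μ(h)⁻¹ c` with `c = ∑ a(g) t(g)`, for
every `h`: insert `t(gh) = μ(g) μ(h) + d(g) d(h) μ(h)⁻¹ μ(g)⁻¹`. File `H32Trace`. -/
theorem translated_sum (hQ : ∀ g, μ g * μ g - algebraMap R E (t g) * μ g + algebraMap R E (d g) = 0)
    (hD2 : ∀ g h, algebraMap R E (d (g * h)) = algebraMap R E (d g) * algebraMap R E (d h))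
    (s : Finset G) (a : G → R) (hz : ∑ g ∈ s, algebraMap R E (a g) * μ g = 0) (h : G) :
    algebraMap R E (∑ g ∈ s, a g * t (g * h)) =
      algebraMap R E (d h) * μ h⁻¹ * algebraMap R E (∑ g ∈ s, a g * t g) :=
  H32.trace_sum_eq μ t d hQ hD2 s a hz h

/-- **`c μ(x)` is a scalar** (an element of the image of `R`), for every `x`. Hence `c` kills all
commutators `μ(x) μ(y) - μ(y) μ(x)`: `c μ(x) μ(y) = μ(y) c μ(x)`. File `H32Trace`. -/
theorem product_is_scalar
    (hQ : ∀ g, μ g * μ g - algebraMap R E (t g) * μ g + algebraMap R E (d g) = 0)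
    (hD1 : algebraMap R E (d 1) = 1)
    (hD2 : ∀ g h, algebraMap R E (d (g * h)) = algebraMap R E (d g) * algebraMap R E (d h))
    (s : Finset G) (a : G → R) (hz : ∑ g ∈ s, algebraMap R E (a g) * μ g = 0) (x : G) :
    algebraMap R E (∑ g ∈ s, a g * t g) * μ x =
      algebraMap R E (d x * ∑ g ∈ s, a g * t (g * x⁻¹)) :=
  H32.scalar_mul μ t d hQ hD1 hD2 s a hz x

/-- **Exchange.** `μ(y) μ(x) = t(xy) - t(x) t(y) - μ(x) μ(y) + t(y) μ(x) + t(x) μ(y)`: apply
`trace_as_sum` to `xy` and write `d(y) μ(y)⁻¹ = t(y) - μ(y)`, `d(x) μ(x)⁻¹ = t(x) - μ(x)`. File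
`H32Trace`. -/
theorem exchange (hQ : ∀ g, μ g * μ g - algebraMap R E (t g) * μ g + algebraMap R E (d g) = 0)
    (hD2 : ∀ g h, algebraMap R E (d (g * h)) = algebraMap R E (d g) * algebraMap R E (d h))
    (x y : G) :
    μ y * μ x = (t (x * y) - t x * t y) • (1 : E) - μ x * μ y + t y • μ x + t x • μ y :=
  H32.map_mul_swap μ t d hQ hD2 x y

/-- **The square of a commutator** is `-D(x, y)`, where `D(x, y)` is the polynomial `discComm` in `t(x)`,
`t(y)`, `t(xy)`, `d(x)`, `d(y)` (from `exchange` and the quadratic equations). So
`D(x, y) c = -(μ(x) μ(y) - μ(y) μ(x))² c = 0`, and `D(x, y) ∑ a(g) t(gh) = 0` by `translated_sum`: this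
is `GuideFlat.trace_relation`. File `H32Trace`. -/
theorem square_of_commutator
    (hQ : ∀ g, μ g * μ g - algebraMap R E (t g) * μ g + algebraMap R E (d g) = 0)
    (hD2 : ∀ g h, algebraMap R E (d (g * h)) = algebraMap R E (d g) * algebraMap R E (d h))
    (x y : G) :
    (μ x * μ y - μ y * μ x) * (μ x * μ y - μ y * μ x) =
      -algebraMap R E (H32.discComm (t x) (t y) (t (x * y)) (d x) (d y)) :=
  H32.comm_sq μ t d hQ hD2 x y

end Trace

/-- **The trace form of `2 × 2` matrices is perfect**, also modulo an ideal: if `tr(x y) ∈ K` for all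
endomorphisms `y` of a free module `V` of rank two, then `x V ⊆ K V` (take for `y` the elementary
matrices). The relation `x = ∑ π(a(g)) ρ(g)` of `GuideFlat.trace_argument` is tested with this for
`y = ρ(h)`, which is enough because the `ρ(h)` span all endomorphisms. File `H32Trace`. -/
theorem trace_form {T V : Type*} [CommRing T] [AddCommGroup V] [Module T V]
    (b : Module.Basis (Fin 2) T V) (K : Ideal T) (x : Module.End T V)
    (h : ∀ y : Module.End T V, LinearMap.trace T V (x * y) ∈ K) (v : V) :
    x v ∈ K • (⊤ : Submodule T V) :=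
  H32.apply_mem_of_trace_mem b K x h v

/-! ## 6. The functions `t` and `d` for the torsion of a module -/

section Torsion

open CuspForm ModularCurve H31

/-- **The operators** on `J[p^n]`, `J` a module over the Hecke polynomials and the Galois group:
`torsEnd p n J` is the action of the Galois group, `alphaHecke N S p n J` the action of the polynomials in
the Hecke operators `T_ℓ`, `ℓ ∤ N`, `ℓ ∉ S`, by Hecke linear maps. These are the homomorphisms `μ` and
`R → E` of section 5. Files `H32S32`, `H31Mod`. -/
theorem torsion_operators {N : ℕ} {S : Set ℕ} {p n : ℕ} {J : Type*} [AddCommGroup J]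
    [Module HeckeAlg J] [DistribMulAction GQ J] [SMulCommClass GQ HeckeAlg J]
    (P : MvPolynomial (GoodPrimes N S) ℤ) (g : GQ)
    (x : Submodule.torsionBy HeckeAlg J ((p : HeckeAlg) ^ n)) :
    H32.alphaHecke N S p n J P x = inclHecke N S P • x ∧
      ((torsEnd p n J g x : Submodule.torsionBy HeckeAlg J ((p : HeckeAlg) ^ n)) : J) =
        g • (x : J) :=
  ⟨rfl, rfl⟩

/-- **Approximation of trace and determinant.** Let `H` be a Hecke Galois representation of level `N`
(as in `GuideFlat.relations_descend`) and `J` a module with the Eichler-Shimura relation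
(`FrobeniusQuadratic`), on whose `p`-power torsion the Galois group acts through finite extensions
(`FiniteLevel`). For every `g` in the Galois group, every `n` and `k` there are a Hecke polynomial `t`
and a natural number `d` such that the quadratic equation `g² - t g + d = 0` holds on `J[p^n]`,
`g ζ = ζ^d` for the root of unity `ζ` of order `p^n`, and the images of `t` and `d` in `T` are the trace
and the determinant of `ρ(g)` modulo the `k`-th power of the maximal ideal. Proof: write `g = φ^j`, `φ`
a Frobenius element at some prime `ℓ`, on a finite extension which is large enough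
(`GuideFlat.weak_frobenius_density`); then `d = ℓ^j`, and `t` is the polynomial in `T_ℓ` and `ℓ` for the
trace of a `j`-th power (`GuideUnramified.luc_def`, `quadratic_equation_of_power`). The second property
shows that `d` is multiplicative modulo `p^n`, which is `hD2` of section 5; the choice of `t` does not
matter. File `H32S32`. -/
theorem approximation {p N : ℕ} [NeZero N] {S : Finset ℕ} {𝒪 : Type} [CommRing 𝒪] [IsDomain 𝒪]
    [IsDiscreteValuationRing 𝒪] [IsAdicComplete (IsLocalRing.maximalIdeal 𝒪) 𝒪]
    {θ : CuspForm.heckeAlgebra N 2 (↑S : Set ℕ) →+* IsLocalRing.ResidueField 𝒪} {T : Type}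
    [CommRing T] [IsLocalRing T] [IsNoetherianRing T] [IsAdicComplete (IsLocalRing.maximalIdeal T) T]
    [Algebra 𝒪 T] [IsLocalHom (algebraMap 𝒪 T)] [Module.Finite 𝒪 T] [Module.Free 𝒪 T]
    {J : Type*} [AddCommGroup J] [Module HeckeAlg J] [DistribMulAction GQ J]
    [SMulCommClass GQ HeckeAlg J] (hp : p.Prime) (hpS : p ∈ S)
    (hNS : ∀ q : ℕ, q.Prime → q ∣ N → q ∈ S)
    (H : CuspForm.HeckeGaloisRepDatum N (↑S : Set ℕ) 𝒪 θ T)
    (hF : FrobeniusQuadratic (K := ℚ) (L := Qbar) N p J) (hfin : FiniteLevel p J) (n k : ℕ)
    (ζ : Qbar) (hζ : IsPrimitiveRoot ζ (p ^ n)) (g : GQ) :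
    ∃ (t : MvPolynomial (GoodPrimes N (↑S : Set ℕ)) ℤ) (d : ℕ),
      torsEnd p n J g * torsEnd p n J g -
        H32.alphaHecke N (↑S : Set ℕ) p n J t * torsEnd p n J g +
        H32.alphaHecke N (↑S : Set ℕ) p n J (d : MvPolynomial (GoodPrimes N (↑S : Set ℕ)) ℤ) = 0 ∧
      g ζ = ζ ^ d ∧
      H.π (evHecke N (↑S : Set ℕ) t) - LinearMap.trace T H.ρ.V (H.ρ.ρ g) ∈
        IsLocalRing.maximalIdeal T ^ k ∧
      (d : T) - LinearMap.det (H.ρ.ρ g) ∈ IsLocalRing.maximalIdeal T ^ k :=
  H32.exists_trace_det hp hpS hNS H hF hfin n k ζ hζ g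

/-- **S32 from four properties of `J₀(N)`**: the Hecke operators commute with the Galois group, the
Eichler-Shimura relation (`GuideFlat.eichler_shimura_J0`), the Hecke algebra acts faithfully up to bounded
torsion (`GuideFlat.hecke_faithful_J0`), and the groups `J₀(N)[p^n]` have finite flat models over
`ℤ_(p)` (`GuideFlatTorsion.torsion_flat`; `H19.torsionAct` is the action of the Galois group). This is
`GuideFlat.flat_of_module` for `J = J₀(N)`; the torsion of `J₀(N)` as a module over the Hecke
polynomials and as an abelian group is the same. File `H32JZero`. -/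
theorem S32_from_jacobian {p N : ℕ} [NeZero N] {S : Finset ℕ} {𝒪 : Type} [CommRing 𝒪] [IsDomain 𝒪]
    [IsDiscreteValuationRing 𝒪] [IsAdicComplete (IsLocalRing.maximalIdeal 𝒪) 𝒪]
    {θ : CuspForm.heckeAlgebra N 2 (↑S : Set ℕ) →+* IsLocalRing.ResidueField 𝒪} {T : Type}
    [CommRing T] [IsLocalRing T] [IsNoetherianRing T] [IsAdicComplete (IsLocalRing.maximalIdeal T) T]
    [Algebra 𝒪 T] [IsLocalHom (algebraMap 𝒪 T)] [Module.Finite 𝒪 T] [Module.Free 𝒪 T]
    [Finite (IsLocalRing.ResidueField 𝒪)] (hp : p.Prime)
    (hp𝒪 : (p : 𝒪) ∈ IsLocalRing.maximalIdeal 𝒪) (hpS : p ∈ S)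
    (hNS : ∀ q : ℕ, q.Prime → q ∣ N → q ∈ S)
    (H : CuspForm.HeckeGaloisRepDatum N (↑S : Set ℕ) 𝒪 θ T)
    (hcommG : letI := heckeModuleBar N; SMulCommClass GQ HeckeAlg (JZero N))
    (hF : letI := heckeModuleBar N; haveI := hcommG;
      FrobeniusQuadratic (K := ℚ) (L := AlgebraicClosure ℚ) N p (JZero N))
    (hfaith : letI := heckeModuleBar N; H31.HeckeFaithful N (↑S : Set ℕ) p (JZero N))
    (hflat : ∀ n : ℕ, H19.HasFlatModel (ratLocalizedAt p) ℚ Qbar
      ↥(Submodule.torsionBy ℤ (JZero N) ((p : ℤ) ^ n)) (H19.torsionAct N ((p : ℤ) ^ n))) :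
    H.ρ.IsFlatAt p :=
  H32.S32_of_JZero hp hp𝒪 hpS hNS H hcommG hF hfaith hflat

end Torsion

end Fermat.Agent.Guide.FlatOrders
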