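import Fermat.Agent.H23FlatOrd

/-!
# Reader's guide: flat and residually ordinary implies ordinary, step by step

Every theorem of this file is proved by citing a theorem of the library; nothing here is used by any
other file. Editor: helper23. Companion of GuideFlat (last theorem `ordinary_of_flat`, which is the
result) and GuideFlatBound (section 2, finite flat group schemes in coordinates). Files: `H23FlatOrd`
(helper23; where no file is named below), `H64FConn`, `H64FQuot` (helper64), `H53Cond7` (helper53). The
result is used in `H30Type4` (representations over Hecke rings which are flat at `p` and ordinary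
modulo the maximal ideal), for S59, S60, S50 and through them S01, S03, S04, S06, S38, S45, S46.

**The statement.** `p` is odd, `A` a noetherian local ring with finite residue field of characteristic
`p`, `ρ` a two-dimensional representation of the Galois group of `ℚ` over `A`, flat at `p`, with
cyclotomic determinant. If the residual representation has a line stable under the decomposition group
with trivial action of inertia on the quotient, then so has `ρ`. Usually this is a consequence of the
theorems of Raynaud and Tate: the connected component of the `p`-divisible group or of the finite flat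
group schemes `ρ/m^n` gives the line. Here there are no group schemes, only points and coordinates.

**Proof.** Let `M` be the module of `ρ` modulo `m^n`, `σ₀` an element of inertia with residually
nontrivial action, and `I M` the subgroup generated by the `σ x - x`, `σ` in inertia.
1. The points `σ x - x` reduce to the origin ("connected points"), and so do all elements of `I M`.
2. *Key fact* (`connected_point_in_subgroup`): let `W₁ ⊂ M` be a subgroup stable under inertia and `z`
   a connected point with `p z = 0` which is invariant modulo `W₁`. Then `z ∈ W₁`. Idea: translation by `z`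
   on the functions on `M/W₁`, written in an ultrametric basis, is a matrix `1 + N` over the
   unramified ring with `|N| < 1`, hence `|N| ≤ |p|`; and `(1 + N)^p = 1` forces `N = 0`, since
   otherwise `|p| ≤ |N|^(p-1)` and `p - 1 ≥ 2`.
3. Let `s ∈ A`, `p s = 0`, and let `s x ∈ I M`. Apply 2 with `W₁ = s (I M)`: then `s x = s y` with
   `y ∈ I M`.
4. `I M` is stable under `A`, and modulo the maximal ideal it is contained in the residual line. If
   `I M` were not generated by `w = σ₀ v₀ - v₀ = (1, c)`, it would contain `(0, t)` with `t ≠ 0` killed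
   by the maximal ideal (socle), and 3 would give `t = t y_1` with `y_1` in the maximal ideal, so
   `t = 0`.
5. So `I M = A w` for all `n`, and in the limit for `ρ`; the decomposition group normalises inertia, so
   it preserves the line.

**Notation.** `nm p x` is the `p`-adic absolute value on the algebraic closure `FQb` of `ℚ` given by a
fixed embedding, `Dp p`, `Ip p` are the decomposition and inertia group of this place in `FGQ`, the
Galois group of `ℚ`; `M2 A` is the ring of 2 by 2 matrices; `mapMat φ r` is the representation `r` with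
coefficients changed by `φ`. Details: NOTES.md, Appendix A.11, note [151], and Appendix A.10, note [91].
-/

set_option autoImplicit false
set_option linter.unusedSectionVars false

namespace Fermat.Agent.Guide.FlatOrdinary

open IsLocalRing GaloisRep
open Fermat.Agent.H53 (M2 FlatM mapMat)
open Fermat.Agent.H64 (FGQ FQb Ip Dp nm FData CPt)

/-! ## 1. Connected points

`FData p act n e a` (GuideFlatBound, section 2): the functions `e_1, ..., e_n` on the finite group `W`
are a basis of all functions, `p`-integral, Galois equivariant, and `e_i(x + y) = ∑ a_ijk e_j(x) e_k(y)`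
with `p`-integral rational numbers `a_ijk`. -/

section Connected

variable {p : ℕ} [Fact p.Prime] {W : Type*} [AddCommGroup W] {act : FGQ → W → W} {n : ℕ}
  {e : Fin n → W → FQb} {a : Fin n → Fin n → Fin n → ℚ}

/-- **Connected points** are the points which reduce to the origin: `|e_i(x) - e_i(0)| < 1` for all `i`.
They contain zero and are closed under sums. File `H64FConn`. -/
theorem connected_points (h : FData p act n e a) :
    (∀ x, CPt p e x ↔ ∀ i, nm p (e i x - e i 0) < 1) ∧ CPt p e (0 : W) ∧
      ∀ x y, CPt p e x → CPt p e y → CPt p e (x + y) :=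
  ⟨fun _ => Iff.rfl, H64.CPt.zero, fun _ _ hx hy => h.cpt_add hx hy⟩

/-- **Inertia moves points by connected points**: `|σ c - c| < 1` for integral `c` and `σ` in inertia.
File `H64FConn`. -/
theorem inertia_connected (h : FData p act n e a) (x : W) {σ : FGQ} (hσ : σ ∈ Ip p) :
    CPt p e (act σ x - x) :=
  h.cpt_inertia x hσ

/-- **Ultrametric bases.** Every subspace `S` of `FQb^n` has a basis `f_j`, `j ∈ P ⊂ {1, ..., n}`, with
coordinates of absolute value at most one and `f_j(i) = δ_ij` for `i ∈ P` (then the coefficients of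
`s ∈ S` are its coordinates `s_j`). File `H64FQuot`. -/
theorem exists_echelon_basis {n : ℕ} (S : Submodule FQb (Fin n → FQb)) :
    ∃ (P : Finset (Fin n)) (f : Fin n → Fin n → FQb),
      (∀ j ∈ P, f j ∈ S ∧ (∀ i ∈ P, f j i = if i = j then 1 else 0) ∧ ∀ i, nm p (f j i) ≤ 1) ∧
      ∀ s ∈ S, s = ∑ j ∈ P, s j • f j :=
  H64.exists_echelon S

/-- **Key fact.** Let `p` be odd, `W₁ ⊂ W` a subgroup stable under inertia, `z` a connected point with
`p z = 0` and `σ z - z ∈ W₁` for all `σ` in inertia. Then `z ∈ W₁`. Proof: the space `S` of the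
`W₁`-invariant functions has an ultrametric basis, which is fixed by inertia (uniqueness of reduced
bases); the translation by `z` acts on it by a matrix `1 + N` with entries fixed by inertia and
`|N_ij| < 1`, so `|N_ij| ≤ |p|` (the fixed field of inertia is unramified); as `(1 + N)^p = 1`, `N = 0`
(`matrix_near_one` in GuideFlatBound). So the characteristic function of `W₁` is invariant under
translation by `z`. File `H64FQuot`. (For `W` killed by `p`: `mem_of_inertia_trivial_mod` in
GuideFlatBound.) -/
theorem connected_point_in_subgroup (h : FData p act n e a) (hp3 : 3 ≤ p) (W₁ : AddSubgroup W)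
    (hW₁ : ∀ σ ∈ Ip p, ∀ w ∈ W₁, act σ w ∈ W₁) {z : W} (hz : ∀ i, nm p (e i z - e i 0) < 1)
    (hpz : p • z = 0) (hσz : ∀ σ ∈ Ip p, act σ z - z ∈ W₁) : z ∈ W₁ :=
  h.mem_of_cpt hp3 W₁ hW₁ hz hpz hσz

end Connected

/-! ## 2. The subgroup generated by the `σ x - x`

`augI p act` is the additive subgroup generated by the `act σ x - x`, `σ` in inertia. -/

section Augmentation

variable {p : ℕ} [Fact p.Prime] {M : Type*} [AddCommGroup M] {act : FGQ → M → M}

/-- **All elements of `augI` are connected points** (in a finite module). -/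
theorem augmentation_connected [Finite M] {n : ℕ} {e : Fin n → M → FQb}
    {a : Fin n → Fin n → Fin n → ℚ} (h : FData p act n e a) {y : M}
    (hy : y ∈ AddSubgroup.closure {y | ∃ σ ∈ Ip p, ∃ x, act σ x - x = y}) :
    ∀ i, nm p (e i y - e i 0) < 1 :=
  H23.cpt_augI h hy

/-- **Multiples in `augI`.** Let `M` be a flat module (`H32.HasFlatOrder`: a finite flat order in the
functions on `M`) over a ring `A` which commutes with the Galois action, and let `s ∈ A` be killed by
`p`. If `s x ∈ augI`, then `s x = s y` with `y ∈ augI`. Proof: `connected_point_in_subgroup` with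
`W₁ = s augI` and `z = s x`. -/
theorem exists_in_augmentation {A : Type*} [CommRing A] [Module A M] (hp3 : 3 ≤ p)
    (hflat : H32.HasFlatOrder p M act)
    (hlin : ∀ (σ : FGQ) (b : A) (x : M), act σ (b • x) = b • act σ x) (s : A)
    (hps : (p : A) * s = 0) {x : M} (hx : s • x ∈ H23.augI p act) :
    ∃ y ∈ H23.augI p act, s • x = s • y :=
  H23.exists_smul_eq_of_mem_augI hp3 hflat hlin s hps hx

/-- **Socle.** If `t ≠ 0` is killed by a power of the ideal `m`, then some multiple `b t ≠ 0` is killed
by `m`. -/
theorem exists_socle_multiple {A : Type*} [CommRing A] {m : Ideal A} {k : ℕ} {t : A} (ht : t ≠ 0)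
    (hk : ∀ x ∈ m ^ k, x * t = 0) : ∃ b : A, b * t ≠ 0 ∧ ∀ x ∈ m, x * (b * t) = 0 :=
  H23.exists_socle ht hk

/-- **For a matrix representation** `r` over `A`, acting on `A²`: `augI` is an `A`-submodule, and if
the second row of `r(σ)` is congruent to `(0, 1)` modulo the maximal ideal for `σ` in inertia, then the
second coordinates of the elements of `augI` are in the maximal ideal. -/
theorem augmentation_of_matrix {A : Type} [CommRing A] (r : FGQ →* M2 A) {y : Fin 2 → A}
    (hy : y ∈ H23.augI p fun σ v => (r σ).mulVec v) :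
    (∀ b : A, b • y ∈ H23.augI p fun σ v => (r σ).mulVec v) ∧
      ∀ [IsLocalRing A], (∀ σ ∈ Ip p, r σ 1 0 ∈ maximalIdeal A) →
        (∀ σ ∈ Ip p, r σ 1 1 - 1 ∈ maximalIdeal A) → y 1 ∈ maximalIdeal A :=
  ⟨H23.smul_mem_augI r hy, fun h10 h11 => H23.augI_one_mem r h10 h11 hy⟩

end Augmentation

/-! ## 3. The line -/

section Line

variable {p : ℕ} [hp : Fact p.Prime] {A : Type} [CommRing A] [IsLocalRing A]

/-- **Flat matrix representations**: `FlatM p r` says that `B` is finite and that there is a flat order
in the functions on `B²`. File `H53Flat1`. -/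
theorem flatM_iff {B : Type} [CommRing B] (r : FGQ →* M2 B) :
    FlatM p r ↔ Finite (Fin 2 → B) ∧ ∃ H : Subalgebra (ratLocalizedAt p) ((Fin 2 → B) → FQb),
      H32.IsFlatOrder p (fun σ v => (r σ).mulVec v) H :=
  Iff.rfl

/-- **Finite level.** `A` is a finite local ring, `r` flat with second rows `≡ (0, 1)` on inertia, and
`w = σ₀ v₀ - v₀` has first coordinate one for some `σ₀` in inertia. Then every element `y` of `augI` is
`y_0 w`. Proof: otherwise `t = y_1 - w_1 y_0 ≠ 0` and `(0, t)` is in `augI`; we may assume that the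
maximal ideal kills `t` (`exists_socle_multiple`); by `exists_in_augmentation`, `(0, t) = t z` with
`z ∈ augI`, but `t z_1 = 0`. -/
theorem finite_level (hp3 : 3 ≤ p) (hpA : (p : A) ∈ maximalIdeal A) (r : FGQ →* M2 A)
    (hflat : FlatM p r) (h10 : ∀ σ ∈ Ip p, r σ 1 0 ∈ maximalIdeal A)
    (h11 : ∀ σ ∈ Ip p, r σ 1 1 - 1 ∈ maximalIdeal A) {σ₀ : FGQ} (hσ₀ : σ₀ ∈ Ip p)
    (v₀ : Fin 2 → A) (h0 : ((r σ₀).mulVec v₀ - v₀) 0 = 1) {y : Fin 2 → A}
    (hy : y ∈ H23.augI p fun σ v => (r σ).mulVec v) :
    y 1 = ((r σ₀).mulVec v₀ - v₀) 1 * y 0 :=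
  H23.finite_level hp3 hpA r hflat h10 h11 hσ₀ v₀ h0 hy

/-- **Noetherian level**: the same for a noetherian local ring `A` and a representation which is flat
modulo all powers of the maximal ideal, for the vectors `σ v - v` (theorem of Krull). -/
theorem noetherian_level [IsNoetherianRing A] (hp3 : 3 ≤ p) (hpA : (p : A) ∈ maximalIdeal A)
    (r : FGQ →* M2 A)
    (hflat : ∀ n : ℕ, FlatM p (mapMat (Ideal.Quotient.mk (maximalIdeal A ^ n)) r))
    (h10 : ∀ σ ∈ Ip p, r σ 1 0 ∈ maximalIdeal A)
    (h11 : ∀ σ ∈ Ip p, r σ 1 1 - 1 ∈ maximalIdeal A) {σ₀ : FGQ} (hσ₀ : σ₀ ∈ Ip p)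
    (v₀ : Fin 2 → A) (h0 : ((r σ₀).mulVec v₀ - v₀) 0 = 1) {σ : FGQ} (hσ : σ ∈ Ip p)
    (v : Fin 2 → A) :
    ((r σ).mulVec v - v) 1 = ((r σ₀).mulVec v₀ - v₀) 1 * ((r σ).mulVec v - v) 0 :=
  H23.noeth_level hp3 hpA r hflat h10 h11 hσ₀ v₀ h0 hσ v

/-- **Ordinary at the fixed place.** Let the residual representation be `(* *; 0 1)` on inertia in the
basis given by `g₀`, and not trivial on inertia. Then `g₀` lifts to `g ∈ GL_2(A)` such that in the
basis `g` the decomposition group acts by `(* *; 0 *)` and inertia by `(* *; 0 1)`: the first vector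
is `w = (1, c)` of `noetherian_level`, in the basis given by any lift of `g₀`; it spans a line stable
under the decomposition group because `σ w` is again of the form `τ v - v` with `τ = σ σ₀ σ⁻¹`. -/
theorem ordinary_at_fixed_place [IsNoetherianRing A] (hp3 : 3 ≤ p)
    (hpA : (p : A) ∈ maximalIdeal A) (r : FGQ →* M2 A)
    (hflat : ∀ n : ℕ, FlatM p (mapMat (Ideal.Quotient.mk (maximalIdeal A ^ n)) r))
    (g₀ : M2 (ResidueField A)) (hg₀ : IsUnit g₀)
    (hI : ∀ σ ∈ Ip p, ∃ x y, mapMat (residue A) r σ * g₀ = g₀ * !![x, y; 0, 1])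
    (hne : ∃ σ ∈ Ip p, mapMat (residue A) r σ ≠ 1) :
    ∃ g : M2 A, IsUnit g ∧ g.map (residue A) = g₀ ∧
      (∀ σ ∈ Dp p, ∃ x y z, r σ * g = g * !![x, y; 0, z]) ∧
      (∀ σ ∈ Ip p, ∃ x y, r σ * g = g * !![x, y; 0, 1]) :=
  H23.exists_ordinary_padic hp3 hpA r hflat g₀ hg₀ hI hne

/-- **Ordinary at every place** above `p` (places above `p` are conjugate). -/
theorem ordinary_at_place [IsNoetherianRing A] (hp3 : 3 ≤ p) (hpA : (p : A) ∈ maximalIdeal A)
    {P : ValuationSubring (AlgebraicClosure ℚ)} (hP : P.LiesOverPrime p) (r : FGQ →* M2 A)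
    (hflat : ∀ n : ℕ, FlatM p (mapMat (Ideal.Quotient.mk (maximalIdeal A ^ n)) r))
    (g₀ : M2 (ResidueField A)) (hg₀ : IsUnit g₀)
    (hI : ∀ σ ∈ P.inertiaSubgroupIn ℚ, ∃ x y, mapMat (residue A) r σ * g₀ = g₀ * !![x, y; 0, 1])
    (hne : ∃ σ ∈ P.inertiaSubgroupIn ℚ, mapMat (residue A) r σ ≠ 1) :
    ∃ g : M2 A, IsUnit g ∧ g.map (residue A) = g₀ ∧
      (∀ σ ∈ P.decompositionSubgroup ℚ, ∃ x y z, r σ * g = g * !![x, y; 0, z]) ∧
      (∀ σ ∈ P.inertiaSubgroupIn ℚ, ∃ x y, r σ * g = g * !![x, y; 0, 1]) :=
  H23.exists_ordinary hp3 hpA hP r hflat g₀ hg₀ hI hne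

/-- **Residually nontrivial inertia.** For odd `p` there is an element `τ` of inertia above `p` whose
value under the cyclotomic character mod `p` is not one; if `ρ` has cyclotomic determinant, then
`det ρ(τ) - 1` is a unit, so `ρ(τ)` is residually not the identity. This is where the determinant is
used. File `H53Cond7`. -/
theorem exists_nontrivial_inertia (hp2 : p ≠ 2) (P : ValuationSubring (AlgebraicClosure ℚ))
    (hP : P.LiesOverPrime p) (ρ : GaloisRepAdic A) (hdet : ρ.DetIsCyclotomic p)
    (b : Module.Basis (Fin 2) A ρ.V) :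
    ∃ τ ∈ P.inertiaSubgroupIn ℚ, ExtCitation.cycloChar p τ ≠ 1 ∧
      IsUnit ((H53.toMat ρ.ρ b τ).det - 1) := by
  obtain ⟨τ, hτ, h1⟩ := H53.exists_tau p hp2 P hP
  exact ⟨τ, hτ, h1, H53.isUnit_det_sub_one p ρ hdet b h1⟩

end Line

end Fermat.Agent.Guide.FlatOrdinary
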