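import Fermat.Agent.S19

/-!
# Guide: the `ℓ`-power torsion of `J₀(N)` is finite flat at `ℓ ∤ N` (statement S19)

This file is a machine-checked table of contents of the proof of S19.  It contains no new
mathematics: every theorem below is a theorem of the library, its statement is written out in full,
and its proof is a reference to the library.  The docstrings say what the statement means, how it
is proved and where.  Only `Guide` imports this file.

## What is proved

`J₀(N)` is the Prelude object `ModularCurve.JZero N`: the group of divisor classes of degree zero of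
the function field of `X₀(N)` over `ℚ̄`, with the action of the absolute Galois group through the
coefficients of q-expansions.  S19 (`statement_S19` below): for a prime `ℓ ∤ N` (`ℓ = 2` allowed) and
`k ≥ 0` there are a commutative Hopf algebra `H`, finite, flat and cocommutative over `ℤ_(ℓ)`, and a
Galois equivariant isomorphism of groups `Hom(H, ℚ̄) ≃ J₀(N)[ℓ^k]`.  In the literature this is read
off from the Néron model of `J₀(N)` (Igusa 1959, Serre-Tate 1968).  Here there is no scheme, no
abelian variety, no Néron model, no formal group and no restriction on the ramification.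

## The proof, and the order of this file

1. *Dictionary* (section 1).  A finite flat model of a finite Galois module `M` over `ℤ_(ℓ)` is the
   same as an order in the ring of equivariant functions `M → ℚ̄` which separates points and is
   stable under `f ↦ f(x + y)` (`hasFlatModel_iff_exists_order`).
2. *Good reduction of function fields* (section 2).  A place `A` of `ℚ̄` above `ℓ` with residue field
   `k = 𝔽̄_ℓ` gives a reduction of the function field `F` of `X₀(N)` over `ℚ̄` to the function field
   `E` of the same curve over `k`, of the same genus (Igusa); it reduces functions, places, divisors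
   and classes, and the inertia group `I_A` acts trivially on the reduction.
3. *Analytic functions on a finite set* (section 3).  The places of `F` above a given place `Q` of
   `E` form a residue disc with an `I_A`-invariant coordinate; a nonspecial system of `g` discs
   parametrises the kernel of the reduction `Pic⁰ F → Pic⁰ E`.  On the finite set `M = J₀(N)[ℓ^k]`
   one takes the ring `H` of `A`-valued functions generated by the `I_A`-invariant constants, the
   indicator functions of the fibres of the reduction and the `g` coordinates of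
   `m - (invariant lift of the reduction of m)`.  The *addition lemma* (`addition_lemma`) shows that
   `H` is stable under addition on `M` (`analytic_algebra`).
4. *Descent* (section 4).  The functions in `H` which are equivariant under the whole Galois group
   form an order over `ℤ_(ℓ)` (`descent_to_Zl`), whence `torsion_flat` and S19.  Henselisation,
   completion and étale descent are replaced by traces and approximation.

## Vocabulary of the Prelude and of the library

* `Place K F`: a discrete valuation ring of `F` containing the constants `K`; `v.ord f` is the order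
  of `f` at `v` (with `v.ord 0 = 0`).  `Divisor K F` is `Place K F →₀ ℤ`, `riemannRochSpace D` is
  `L(D)`, `genusFF K F` is the genus, `Pic0 K F` the group of classes of divisors of degree zero,
  `Pic0.mk` the class of a divisor.
* `H94.FunField K F`: `F` is a function field in one variable over `K`, i.e. finite over `K(x)` for
  some transcendental `x`.
* `SemilinearAut K F`: pairs of automorphisms of `F` and of `K` compatible with `K → F`; `γ • f` is
  the action on `F`, `SemilinearAut.baseAut γ` the automorphism of `K`; it acts on places, divisors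
  and classes.  `arithmeticGalois (modularFunctionFieldFull N)` is the homomorphism from the Galois
  group to the semilinear automorphisms of the function field of `X₀(N)` given by the action on the
  coefficients of Laurent series in `q`.
* `A.LiesOverPrime ℓ`: `ℓ` is a nonunit of the valuation ring `A`; `A.decompositionSubgroup ℚ`,
  `A.inertiaSubgroupIn ℚ` are the decomposition and the inertia group as subgroups of `Gal(ℚ̄/ℚ)`
  (see the file `GuideAbsGal`).
* `modularFunctionFieldBar N` (over `ℚ̄`) and `modularFunctionFieldFullC k N` (over `k`) are the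
  subfields of the field of Laurent series generated by the expansions `j(q^d)`, `d ∣ N`.

## Where it is used

`torsion_flat` is used in S32 (see the file `GuideFlat`) and for the flatness at `p` of the
representations attached to points of Hecke algebras of level prime to `p` (`H80FlatPt`), and
through them in S38, S43, S46, S50, S59, S60, S45, S06, S04, S03 and S01.  The reduction of divisor
classes (section 2) is also used in S09, S12, S15, S39, S40, the equality of genera in all reduction
arguments for `J₀(N)` (S17, S18, S29-S37, S44).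
NOTES.md: [141] (NOTES-S19-S32), [148] (NOTES-REDPIC, divisor classes), [110] (NOTES-S19-E, inertia),
[291] (NOTES-S18-GENUS, equality of genera), [302] (descent to `ℤ_(ℓ)`), [117] (NOTES-S18).
Steps of the proofs: `GuideRedPic` (end of section 2), `GuideFlatSteps` (section 3 up to
`addition_lemma`), `GuideFlatOrder` (rest of section 3), `GuideFlatDescent` (section 4),
`GuideFlatOrders` (orders of functions).
Reading order of the library: H19Flat, H19Setting, H19Value, H19Disc, H19Closure, H19Add, H19Norm,
H19AddMain, H23RedPic, H19Bar, H19Sys, H19Order, H19GoodRed, H19Compat, H43Place, H43Descent,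
H19Reduce, H19Final, H19Main, S19.
-/

set_option autoImplicit false

open AlgebraicCurve ModularCurve
open scoped Pointwise

namespace Fermat.Agent.Guide.FlatTorsion

/-- The absolute Galois group of `ℚ` (notation of this file only). -/
local notation "GQ" => AlgebraicClosure ℚ ≃ₐ[ℚ] AlgebraicClosure ℚ

/-- The field of algebraic numbers (notation of this file only). -/
local notation "Qbar" => AlgebraicClosure ℚ

/-! ### 1. Dictionary: finite flat models and orders of functions -/

/-- **Definition unfolded: finite flat model.**  `H19.HasFlatModel R K L M act` says that the abelian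
group `M` with the action `act` of `Gal(L/K)` is the group of `L`-points of a finite flat commutative
group scheme over `R`: there are a commutative, cocommutative Hopf algebra `H`, finite and flat over
`R`, and a bijection `e` between the `R`-algebra homomorphisms `H → L` and `M` which is additive
(`f * g` is the convolution product, Mathlib's `WithConv`) and Galois equivariant (`g = σ ∘ f`
implies `e g = act σ (e f)`).  In S19: `R = ℤ_(ℓ)`, `K = ℚ`, `L = ℚ̄`.  File H19Flat. -/
theorem hasFlatModel_def (R K L : Type) [CommRing R] [Field K] [Field L] [Algebra K L] [Algebra R L]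
    (M : Type) [AddCommGroup M] (act : (L ≃ₐ[K] L) → M → M) :
    H19.HasFlatModel R K L M act ↔
      ∃ (H : Type) (_ : CommRing H) (_ : HopfAlgebra R H),
        Module.Finite R H ∧ Module.Flat R H ∧ Coalgebra.IsCocomm R H ∧
        ∃ e : WithConv (H →ₐ[R] L) ≃ M,
          (∀ f g, e (f * g) = e f + e g) ∧
          ∀ (σ : L ≃ₐ[K] L) (f g : WithConv (H →ₐ[R] L)),
            (∀ h : H, g h = σ (f h)) → e g = act σ (e f) :=
  Iff.rfl

/-- **Definition unfolded: flat order.**  An `R`-subalgebra `H` of the ring of functions `M → L` is a
flat order if it is a finitely generated `R`-module, consists of Galois equivariant functions,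
separates the points of `M`, and is closed under comultiplication: `f (m + m')` is a finite sum of
products `a i m * b i m'` with `a i`, `b i` in `H`.  File H19Flat. -/
theorem isFlatOrder_def (R K L : Type) [CommRing R] [Field K] [Field L] [Algebra R K]
    [Algebra K L] [Algebra R L] (M : Type) [AddCommGroup M] (act : (L ≃ₐ[K] L) → M → M)
    (H : Subalgebra R (M → L)) :
    H19.IsFlatOrder R K L act H ↔
      (Subalgebra.toSubmodule H).FG ∧
      (∀ f ∈ H, ∀ σ m, f (act σ m) = σ (f m)) ∧
      (∀ m m', (∀ f ∈ H, f m = f m') → m = m') ∧
      ∀ f ∈ H, ∃ (n : ℕ) (a b : Fin n → M → L), (∀ i, a i ∈ H) ∧ (∀ i, b i ∈ H) ∧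
        ∀ m m', f (m + m') = ∑ i, a i m * b i m' :=
  ⟨fun h => ⟨h.fg, h.equivariant, h.separates, h.comul⟩, fun ⟨a, b, c, d⟩ => ⟨a, b, c, d⟩⟩

/-- **The dictionary.**  Over a principal ideal domain `R` with fraction field `K` and a Galois
extension `L/K` (possibly infinite), `M` has a finite flat model over `R` if and only if `M` is finite
and there is a flat order of functions on `M`.
Proof: from an order `H` one gets the Hopf algebra `H` itself; the point is that
`H ⊗ H → (M × M → L)` is injective, because equivariant functions which are linearly independent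
over `K` stay independent over `L` (Galois descent); the counit, the antipode and all identities are
then forced.  Conversely the image of a model in the ring of functions is an order.
File H19Flat (`H19.hasFlatModel_iff`).  Used in S32, S56 and wherever flatness is checked; S19 uses
the direction from orders to models (`IsFlatOrder.hasFlatModel`). -/
theorem hasFlatModel_iff_exists_order (R K L : Type) [CommRing R] [IsDomain R]
    [IsPrincipalIdealRing R] [Field K] [Field L] [Algebra R K] [IsFractionRing R K] [Algebra K L]
    [Algebra R L] [IsScalarTower R K L] [IsGalois K L] (M : Type) [AddCommGroup M]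
    (act : (L ≃ₐ[K] L) → M → M) :
    H19.HasFlatModel R K L M act ↔
      Finite M ∧ ∃ H : Subalgebra R (M → L), H19.IsFlatOrder R K L act H :=
  H19.hasFlatModel_iff

/-! ### 2. Good reduction of function fields -/

/-- **What a good reduction consists of** (`H19.GoodRed K F k E`, `H40.ReductionData`).  The data of
`S` are: a valuation ring `S.A` of `K` with a surjection `S.π : S.A → k` whose kernel is the set of
nonunits; a ring `S.B ⊆ F` of "integral functions" with a reduction map `S.ρ : S.B → E` compatible
with `S.π`; a map `S.r : Place K F → Place k E` on places; integers `S.g`, `S.c`.  Its properties are: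
every finite dimensional space of functions has a basis of integral functions with linearly
independent reductions; every element of `E` is a quotient of reductions; Riemann's theorem with the
same genus `S.g` on both sides for divisors of degree `≥ S.c`; for `deg D > S.c` the space `L(D)`
reduces onto `L(r_* D)`; the divisor of the reduction of `x` is the image of the divisor of `x`.
Files H40Deuring (the ring and the map `ρ`), H40DeuringPlace (the map `r`, Deuring's theorem),
H19Setting. -/
theorem goodRed_content (K F k E : Type) [Field K] [Field F] [Algebra K F] [Field k] [Field E]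
    [Algebra k E] (S : H19.GoodRed K F k E) :
    Function.Surjective S.π ∧ (∀ a : S.A, S.π a = 0 ↔ ¬ IsUnit a) ∧
    (∀ a : S.A, S.ρ ⟨algebraMap K F a, S.mem_B a⟩ = algebraMap k E (S.π a)) ∧
    (∀ V : Submodule K F, FiniteDimensional K V → ∃ (n : ℕ) (b : Fin n → S.B),
      Submodule.span K (Set.range fun i => (b i : F)) = V ∧
        LinearIndependent k (fun i => S.ρ (b i))) ∧
    (∀ e : E, ∃ x y : S.B, S.ρ y ≠ 0 ∧ e * S.ρ y = S.ρ x) ∧
    (∀ D : Divisor K F, S.c ≤ Divisor.degree D →
      (Module.finrank K (riemannRochSpace D) : ℤ) = Divisor.degree D + 1 - S.g) ∧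
    (∀ D : Divisor k E, S.c ≤ Divisor.degree D →
      (Module.finrank k (riemannRochSpace D) : ℤ) = Divisor.degree D + 1 - S.g) ∧
    (∀ D : Divisor K F, S.c < Divisor.degree D →
      Divisor.degree (Finsupp.mapDomain S.r D) = Divisor.degree D ∧
      S.red (riemannRochSpace D) = riemannRochSpace (Finsupp.mapDomain S.r D)) ∧
    (∀ x : S.B, S.ρ x ≠ 0 → ∀ D : Divisor K F, (∀ v, D v = v.ord (x : F)) →
      ∀ w, Finsupp.mapDomain S.r D w = w.ord (S.ρ x)) :=
  ⟨S.π_surj, S.π_eq_zero, S.ρ_algebraMap, S.exists_basis, S.frac, fun D h => (S.riemF D h).2,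
    fun D h => (S.riemE D h).2, S.isRed, S.div_red⟩

/-- **What an inertia action consists of** (`H19.InertiaAction S Γ`).  A group `Γ` of semilinear
automorphisms of `F/K` preserves integral functions and does not change their reductions; it
preserves integral constants, and every residue class of constants contains a `Γ`-invariant constant;
it fixes a place `I.Pinf` (the cusp `∞`); and every `Γ`-stable finite dimensional space of functions
has a basis of `Γ`-INVARIANT integral functions with linearly independent reductions.
File H19Setting. -/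
theorem inertiaAction_content (K F k E : Type) [Field K] [Field F] [Algebra K F] [Field k]
    [Field E] [Algebra k E] (S : H19.GoodRed K F k E) (Γ : Subgroup (SemilinearAut K F))
    (I : H19.InertiaAction S Γ) :
    (∀ (γ : SemilinearAut K F) (hγ : γ ∈ Γ) (b : S.B),
      S.ρ ⟨γ • (b : F), I.smul_mem γ hγ b⟩ = S.ρ b) ∧
    (∀ γ ∈ Γ, ∀ a ∈ S.A, SemilinearAut.baseAut γ a ∈ S.A) ∧
    (∀ x : k, ∃ a : S.A, (∀ γ ∈ Γ, SemilinearAut.baseAut γ (a : K) = a) ∧ S.π a = x) ∧
    (∀ γ ∈ Γ, γ • I.Pinf = I.Pinf) ∧
    (∀ V : Submodule K F, FiniteDimensional K V → (∀ γ ∈ Γ, ∀ f ∈ V, γ • f ∈ V) →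
      ∃ (n : ℕ) (b : Fin n → S.B), (∀ i, ∀ γ ∈ Γ, γ • (b i : F) = b i) ∧
        Submodule.span K (Set.range fun i => (b i : F)) = V ∧
        LinearIndependent k (fun i => S.ρ (b i))) :=
  ⟨I.ρ_smul, I.baseAut_mem, I.exists_const, I.smul_Pinf, I.exists_basis_fixed⟩

/-- **Igusa's theorem in genus form.**  For a prime `ℓ ∤ N` and a place `A` of `ℚ̄` above `ℓ` the
function fields of `X₀(N)` over `ℚ̄` and over the residue field of `A` have the same genus.
Idea: (1) for the places `S` upstairs and `T` downstairs over a set of branch points a count in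
Riemann-Roch spaces gives `#T + g(E) ≤ #S + g(F)`, and the Riemann-Hurwitz inequality holds in every
characteristic; with a Hauptmodul of level 2 or 3 this proves the theorem for levels divisible by 2
(`ℓ` odd) or by 3 (`ℓ ≠ 3`); (2) good reduction descends from level `2N` or `3N` to level `N`: norms
and traces of liftable functions are liftable, and they generate the affine rings downstairs.
File H88GenusEq (`H88.genusFFEq`), with H88Trace, H88RH, H88Count, H88Genus, H88Norm, H88NT,
H88Compat, H88Descent, H88Mod, H18Haupt.  Used in S17-S19, S29-S37, S42, S44, S01. -/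
theorem genus_eq (N ℓ : ℕ) [NeZero N] [Fact ℓ.Prime] (hℓN : ¬ ℓ ∣ N)
    (A : ValuationSubring Qbar) (hA : A.LiesOverPrime ℓ) :
    genusFF Qbar (modularFunctionFieldBar N) =
      genusFF (IsLocalRing.ResidueField A)
        (modularFunctionFieldFullC (IsLocalRing.ResidueField A) N) :=
  H88.genusFFEq N hℓN A hA

/-- **The integral functions on `X₀(N)`** at a place `A` above `ℓ ∤ N` (the ring `B` of the reduction
data `H42.modRed`): those `f` which are quotients `y / z` of Laurent series in `q` with coefficients
in `A`, with `z` in the function field and the reduction of `z` nonzero.  (`coeffMap φ` applies `φ` to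
the coefficients of a Laurent series.)  The proof that this ring has good bases uses that the degree
of the function field over `ℚ̄(j)` does not drop in characteristic `ℓ` (`H42.degLE_place`).
Files H42Gauss, H42GaussMod, H42Inputs, H19Compat (`H19.mem_modRed_B`). -/
theorem integral_functions_X0 (N ℓ : ℕ) [NeZero N] (hℓ : ℓ.Prime) (hℓN : ¬ ℓ ∣ N)
    (A : ValuationSubring Qbar) (hA : A.LiesOverPrime ℓ) (f : modularFunctionFieldBar N) :
    f ∈ (H42.modRed (H42.degLE_place hℓ hA hℓN)).B ↔
      ∃ y z : LaurentSeries A, coeffMap A.subtype z ∈ modularFunctionFieldBar N ∧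
        coeffMap (IsLocalRing.residue A) z ≠ 0 ∧
        (f : LaurentSeries Qbar) * coeffMap A.subtype z = coeffMap A.subtype y :=
  H19.mem_modRed_B _

/-- **`X₀(N)` has good reduction at `ℓ ∤ N`** in the sense of `goodRed_content`, with the ring of
integral functions of `integral_functions_X0`.  Proof: Gauss reduction of q-expansions, equality of
genera (`genus_eq`), Riemann's theorem for both fields, and the theorem of Deuring that a reduction
of functions which preserves the genus induces a reduction of places.
File H19GoodRed (`H19.exists_goodRed`), H40DeuringPlace (`exists_placeReduction`). -/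
theorem good_reduction_X0 (N ℓ : ℕ) [NeZero N] [hℓ : Fact ℓ.Prime] (hℓN : ¬ ℓ ∣ N)
    (A : ValuationSubring Qbar) (hA : A.LiesOverPrime ℓ) :
    ∃ S : H19.GoodRed Qbar (modularFunctionFieldBar N) (IsLocalRing.ResidueField A)
        (modularFunctionFieldFullC (IsLocalRing.ResidueField A) N),
      S.toReductionData = H42.modRed (H42.degLE_place hℓ.out hA hℓN) :=
  H19.exists_goodRed _ (genus_eq N ℓ hℓN A hA)

/-- **The inertia group at `ℓ` acts on the good reduction of `X₀(N)`** in the sense of
`inertiaAction_content`, and the fixed place (the cusp `∞`) is fixed by the whole Galois group.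
Idea: elements of the residue field are `0` or roots of unity of order prime to `ℓ`, so they lift to
inertia-invariant constants; the functions `j(q^d)` are rational; invariant bases are obtained from
reduced echelon forms, which are unique, hence invariant.
Files H1Inertia, H1InvGauss, H1InvMod, H1QPlace, H1InvFinal (`H1.modInertiaRD`), H19Main. -/
theorem inertia_X0 (N ℓ : ℕ) [NeZero N] [hℓ : Fact ℓ.Prime] (hℓN : ¬ ℓ ∣ N)
    (A : ValuationSubring Qbar) (hA : A.LiesOverPrime ℓ)
    (S : H19.GoodRed Qbar (modularFunctionFieldBar N) (IsLocalRing.ResidueField A)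
      (modularFunctionFieldFullC (IsLocalRing.ResidueField A) N))
    (hS : S.toReductionData = H42.modRed (H42.degLE_place hℓ.out hA hℓN)) :
    ∃ I : H19.InertiaAction S ((A.inertiaSubgroupIn ℚ).map
        (arithmeticGalois (modularFunctionFieldFull N))),
      ∀ σ : GQ, arithmeticGalois (modularFunctionFieldFull N) σ • I.Pinf = I.Pinf :=
  H19.modInertiaAction_Pinf hA _ S hS

/-- **Reduction of classes.**  A good reduction induces a homomorphism `H23.redPic0 S` from `Pic⁰ F`
to `Pic⁰ E`: the class of `D` goes to the class of the image of `D` under the reduction of places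
(well defined since divisors of functions go to divisors of functions).  File H23RedPic; this and the
next two theorems are explained step by step in the file `GuideRedPic`. -/
theorem reduction_of_classes (K F k E : Type) [Field K] [Field F] [Algebra K F] [Field k]
    [Field E] [Algebra k E] [IsAlgClosed K] [IsAlgClosed k] [H94.FunField K F]
    [H94.FunField k E] (S : H19.GoodRed K F k E) (D : Divisor.degZero (K := K) (F := F)) :
    H23.redPic0 S (Pic0.mk D) = Pic0.mk (H23.redDegZero S D) ∧
      (H23.redDegZero S D : Divisor k E) = Finsupp.mapDomain S.r (D : Divisor K F) :=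
  ⟨H23.redPic0_mk S D, rfl⟩

/-- **Inertia and reduction of classes.**  `Γ` does not change the reduction of a class, and every
class of `E` has a `Γ`-invariant lift (because every place of `E` lifts to a `Γ`-invariant place: the
reduction of `∞` lifts to `∞`; for any other place `Q` a function downstairs with a simple zero at
`Q` lifts to an invariant function, whose unique zero in the disc of `Q` is invariant).
File H23RedPic (`redPic0_smul`, `exists_fixed_class`). -/
theorem exists_invariant_lift (K F k E : Type) [Field K] [Field F] [Algebra K F] [Field k]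
    [Field E] [Algebra k E] [IsAlgClosed K] [IsAlgClosed k] [H94.FunField K F]
    [H94.FunField k E] (S : H19.GoodRed K F k E) (Γ : Subgroup (SemilinearAut K F))
    (I : H19.InertiaAction S Γ) :
    (∀ x : Pic0 K F, ∀ γ ∈ Γ, H23.redPic0 S (γ • x) = H23.redPic0 S x) ∧
      ∀ y : Pic0 k E, ∃ x : Pic0 K F, H23.redPic0 S x = y ∧ ∀ γ ∈ Γ, γ • x = x :=
  ⟨fun x _ hγ => H23.redPic0_smul I hγ x, H23.exists_fixed_class I⟩

/-- **Parametrisation of the kernel of reduction.**  Let `R₁, …, R_g` be places of `F` with pairwise
different reductions, such that `∑ r(R_i)` is nonspecial (its space `L` consists of constants; such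
systems exist, avoiding any finite set: `H23.exists_nonspecial`).  Write `H23.classOf P R` for the
class of `∑ P_i - ∑ R_i`.  Then every class `x` with trivial reduction is `classOf P R` with `P_i` in
the residue disc of `R_i`, and the `P_i` are unique: the kernel of reduction is a product of `g`
residue discs.  Proof: Riemann's theorem on both sides and semicontinuity of `dim L(D)` under
reduction.  File H23RedPic (`IsNonspecial.exists_repr`, `IsNonspecial.classOf_injective`). -/
theorem kernel_of_reduction (K F k E : Type) [Field K] [Field F] [Algebra K F] [Field k]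
    [Field E] [Algebra k E] [IsAlgClosed K] [IsAlgClosed k] [H94.FunField K F]
    [H94.FunField k E] (S : H19.GoodRed K F k E) (R : Fin S.g → Place K F)
    (hinj : Function.Injective fun i => S.r (R i))
    (hns : ∀ f ∈ riemannRochSpace (∑ i, Finsupp.single (S.r (R i)) (1 : ℤ)),
      ∃ c : k, f = algebraMap k E c) :
    (∀ x : Pic0 K F, H23.redPic0 S x = 0 →
      ∃ P : Fin S.g → Place K F, (∀ i, S.r (P i) = S.r (R i)) ∧ x = H23.classOf P R) ∧
    ∀ P P' : Fin S.g → Place K F, (∀ i, S.r (P i) = S.r (R i)) → (∀ i, S.r (P' i) = S.r (R i)) →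
      H23.classOf P R = H23.classOf P' R → P = P' :=
  ⟨fun _ hx => H23.IsNonspecial.exists_repr ⟨hinj, hns⟩ hx,
    fun _ _ hP hP' h => H23.IsNonspecial.classOf_injective ⟨hinj, hns⟩ hP hP' h⟩

/-! ### 3. Residue discs and analytic functions on a finite set -/

/-- **Coordinates on a residue disc.**  `C : H19.Coord S Q` is a coordinate on the disc of all places
`P` of `F` with `S.r P = Q`: an integral function `C.z` without poles in the disc, with a simple zero
at the centre `C.P0` of the disc, whose reduction has a simple zero at `Q`.  Then `C.z` is injective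
on the disc.  (`H19.HasVal P f c` means that `f` takes the value `c` at `P`, i.e. `f - c` is zero or
has positive order.)  Reason: the sum of the orders of an integral function over the disc is the
order of its reduction at `Q`.  File H19Disc (`Coord.eq_of_hasVal`, `Coord.ord_z_P0`). -/
theorem coord_content (K F k E : Type) [Field K] [Field F] [Algebra K F] [Field k]
    [Field E] [Algebra k E] (S : H19.GoodRed K F k E) (Q : Place k E) (C : H19.Coord S Q) :
    (C.z ∈ S.B ∧ ∀ P, S.r P = Q → C.z ∈ P.toValuationSubring) ∧ S.r C.P0 = Q ∧
      C.P0.ord C.z = 1 ∧ Q.ord (S.ρ ⟨C.z, C.hz.1⟩) = 1 ∧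
      ∀ P P', S.r P = Q → S.r P' = Q → ∀ a, H19.HasVal P C.z a → H19.HasVal P' C.z a → P = P' :=
  ⟨C.hz, C.r_P0, C.ord_z_P0, C.ord_ρ, fun _ _ hP hP' _ h h' => C.eq_of_hasVal hP hP' h h'⟩

/-- **Taylor expansions.**  Let `f` be integral without poles in the disc of `Q` and `C` a coordinate.
The Taylor coefficients `C.coeff f n` of `f` at the centre are integral, and for all `m` and all `P`
in the disc the value of `f` at `P` is `∑_{n<m} (coeff f n) z(P)^n + z(P)^m a` with `a` integral
(`H19.pval P f` is the value of `f` at `P`).  As `z(P)` is topologically nilpotent this is a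
convergent expansion.  Proof: `f = f(P0) + z f₁` with `f₁` again integral without poles in the disc;
iterate.  File H19Disc (`Coord.exists_expansion_pval`). -/
theorem taylor_expansion (K F k E : Type) [Field K] [Field F] [Algebra K F] [Field k]
    [Field E] [Algebra k E] [IsAlgClosed K] [H94.FunField K F]
    (S : H19.GoodRed K F k E) (Q : Place k E) (C : H19.Coord S Q) (f : F)
    (hf : f ∈ S.B ∧ ∀ P, S.r P = Q → f ∈ P.toValuationSubring) (m : ℕ) (P : Place K F)
    (hP : S.r P = Q) :
    (∀ n, C.coeff f n ∈ S.A) ∧ ∃ a ∈ S.A, H19.pval P f =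
      (∑ n ∈ Finset.range m, C.coeff f n * H19.pval P C.z ^ n) + H19.pval P C.z ^ m * a :=
  ⟨C.coeff_mem hf, C.exists_expansion_pval hf m hP⟩

/-- **Definition unfolded: algebra of analytic functions on a finite set.**  `H19.IsAnAlg A σ τ H`:
`H` is a ring of `A`-valued functions on `X`, equivariant for the symmetries `σ i` of `K` and `τ i`
of `X` (`i ∈ ι`, in the application the elements of the inertia group), which contains the invariant
integral constants and separates the points of `X`.  File H19Setting. -/
theorem isAnAlg_def (K : Type) [Field K] (A : ValuationSubring K) (ι X : Type)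
    (σ : ι → K ≃+* K) (τ : ι → X → X) (H : Subring (X → K)) :
    H19.IsAnAlg A σ τ H ↔
      (∀ f ∈ H, ∀ x, f x ∈ A) ∧ (∀ f ∈ H, ∀ i x, f (τ i x) = σ i (f x)) ∧
      (∀ c ∈ A, (∀ i, σ i c = c) → (fun _ => c) ∈ H) ∧
      ∀ x x', (∀ f ∈ H, f x = f x') → x = x' :=
  ⟨fun h => ⟨h.int, h.equiv, h.const, h.sep⟩, fun ⟨a, b, c, d⟩ => ⟨a, b, c, d⟩⟩

/-- **Closure lemma.**  If `ϖ` is an invariant pseudo-uniformizer of `A` (every `x ∈ K` satisfies
`ϖ^n x ∈ A` for some `n`; in the application `ϖ = ℓ`) then for some `n` the ring `H` contains
`ϖ^n φ` for EVERY equivariant function `φ : X → A`.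
Proof: `H` separates points, so it contains a `K`-basis of the functions on the finite set `X`; the
coordinates of an equivariant function in this basis are invariant, with bounded denominators.
File H19Closure (`IsAnAlg.exists_pow_mul_mem`).  This replaces completeness. -/
theorem closure_lemma (K : Type) [Field K] (A : ValuationSubring K) (ι X : Type) [Finite X]
    (σ : ι → K ≃+* K) (τ : ι → X → X) (H : Subring (X → K)) (h : H19.IsAnAlg A σ τ H)
    (ϖ : K) (hϖA : ϖ ∈ A) (hϖσ : ∀ i, σ i ϖ = ϖ) (hrank : ∀ x : K, ∃ n : ℕ, ϖ ^ n * x ∈ A) :
    ∃ n : ℕ, ∀ φ : X → K, (∀ x, φ x ∈ A) → (∀ i x, φ (τ i x) = σ i (φ x)) →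
      (fun x => ϖ ^ n * φ x) ∈ H :=
  h.exists_pow_mul_mem hϖA hϖσ hrank

/-- **`H` is closed under limits.**  An equivariant function which is approximated by elements of `H`
modulo every power of `ϖ` belongs to `H`.  Immediate from `closure_lemma`.  So convergent power
series may be evaluated in `H` although nothing is complete.
File H19Closure (`IsAnAlg.mem_of_approx`). -/
theorem closed_under_limits (K : Type) [Field K] (A : ValuationSubring K) (ι X : Type) [Finite X]
    (σ : ι → K ≃+* K) (τ : ι → X → X) (H : Subring (X → K)) (h : H19.IsAnAlg A σ τ H)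
    (ϖ : K) (hϖ0 : ϖ ≠ 0) (hϖA : ϖ ∈ A) (hϖσ : ∀ i, σ i ϖ = ϖ)
    (hrank : ∀ x : K, ∃ n : ℕ, ϖ ^ n * x ∈ A) (φ : X → K)
    (hφσ : ∀ i x, φ (τ i x) = σ i (φ x))
    (happ : ∀ n : ℕ, ∃ f ∈ H, ∀ x, ∃ a ∈ A, φ x - f x = ϖ ^ n * a) : φ ∈ H :=
  h.mem_of_approx hϖ0 hϖA hϖσ hrank hφσ happ

/-- **Implicit function.**  Let `P x` (`x ∈ X`) be an equivariant family of points of the disc of `Q`
with invariant coordinate `z` and centre.  If the coordinates satisfy
`z(P x) + ∑_j s_j(x) h_j(P x) = 0` with invariant functions `h_j`, integral without poles in the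
disc, and `s_j ∈ H` with values in the maximal ideal, then `x ↦ z(P x)` belongs to `H`.
Proof: successive approximation with `taylor_expansion` and `closed_under_limits`.
(`H19.RankOne S Γ`: an invariant pseudo-uniformizer `ϖ` as in `closure_lemma` such that every element
of the maximal ideal has a power divisible by `ϖ`.)
File H19Add (`coord_mem_of_eq`). -/
theorem implicit_function (K F k E : Type) [Field K] [Field F] [Algebra K F] [Field k] [Field E]
    [Algebra k E] [IsAlgClosed K] [H94.FunField K F] (S : H19.GoodRed K F k E)
    (Γ : Subgroup (SemilinearAut K F)) (R1 : H19.RankOne S Γ)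
    (X : Type) [Finite X] (act : Γ → X → X) (H : Subring (X → K))
    (hH : H19.IsAnAlg S.A (fun γ : Γ => SemilinearAut.baseAut (γ : SemilinearAut K F)) act H)
    (Q : Place k E) (C : H19.Coord S Q) (hP0 : ∀ γ ∈ Γ, γ • C.P0 = C.P0)
    (hz : ∀ γ ∈ Γ, γ • C.z = C.z) (P : X → Place K F) (hP : ∀ x, S.r (P x) = Q)
    (hPe : ∀ (γ : Γ) x, P (act γ x) = (γ : SemilinearAut K F) • P x)
    (n : ℕ) (h : Fin n → F)
    (hh : ∀ j, h j ∈ S.B ∧ ∀ P', S.r P' = Q → h j ∈ P'.toValuationSubring)
    (hhΓ : ∀ j, ∀ γ ∈ Γ, γ • h j = h j) (s : Fin n → X → K) (hs : ∀ j, s j ∈ H)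
    (hsmall : ∀ j x, ∃ ha : s j x ∈ S.A, S.π ⟨s j x, ha⟩ = 0)
    (heq : ∀ x, H19.pval (P x) C.z + ∑ j, s j x * H19.pval (P x) (h j) = 0) :
    (fun x => H19.pval (P x) C.z) ∈ H :=
  H19.coord_mem_of_eq R1 hH C hP0 hz hP hPe hh hhΓ hs hsmall heq

/-- **The addition lemma**, the heart of the proof.  Let `Y : H19.DSys S I ι` be a finite system of
pairwise different residue discs `Y.Q i`, none of them the disc of `∞`, with invariant coordinates
`Y.C i` and centres `R_i = (Y.C i).P0`, and `P x i` an equivariant family of points in these discs
such that `∑ P x i - ∑ R_i` is principal for every `x`.  Suppose that the discs of `q` are nonspecial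
downstairs.  If the coordinates of the points with index in `p` (`p ∪ q = ι`) belong to `H`, then so
do all the coordinates.  Proof: the function `f_x` with divisor `∑ P x i - ∑ R_i` and `f_x(∞) = 1` is
`1 + ∑ s_j(x) e_j` for an invariant good basis `e_j` of `L(∑ R_i - ∞)`, `s_j(x)` small; the equations
`f_x(P x i) = 0`, `i ∈ p`, are linear in the `s_j` with coefficients in `H` and solvable in `H`, since
the reduced matrix is injective by nonspeciality; for the other `i` apply `implicit_function`.
Files H19Add, H19Norm, H19AddMain (`DSys.coord_mem_of_known`). -/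
theorem addition_lemma (K F k E : Type) [Field K] [Field F] [Algebra K F] [Field k] [Field E]
    [Algebra k E] [IsAlgClosed K] [H94.FunField K F] [IsAlgClosed k] [H94.FunField k E]
    (S : H19.GoodRed K F k E) (Γ : Subgroup (SemilinearAut K F)) (I : H19.InertiaAction S Γ)
    (R1 : H19.RankOne S Γ) (X : Type) [Finite X] (act : Γ → X → X) (H : Subring (X → K))
    (hH : H19.IsAnAlg S.A (fun γ : Γ => SemilinearAut.baseAut (γ : SemilinearAut K F)) act H)
    (ι : Type) [Fintype ι] (Y : H19.DSys S I ι) (p q : Finset ι) (hpq : ∀ i, i ∈ p ∨ i ∈ q)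
    (hns : ∀ f ∈ riemannRochSpace (∑ i ∈ q, Finsupp.single (Y.Q i) (1 : ℤ)),
      ∃ c : k, f = algebraMap k E c)
    (P : X → ι → Place K F) (hP : ∀ x i, S.r (P x i) = Y.Q i)
    (hPe : ∀ (γ : Γ) x i, P (act γ x) i = (γ : SemilinearAut K F) • P x i)
    (hprinc : ∀ x, ∃ f : F, f ≠ 0 ∧ ∀ v : Place K F,
      v.ord f = (∑ i, Finsupp.single (P x i) (1 : ℤ)) v -
        (∑ i, Finsupp.single (Y.C i).P0 (1 : ℤ)) v)
    (hknown : ∀ i ∈ p, (fun x => H19.pval (P x i) (Y.C i).z) ∈ H) (i : ι) :
    (fun x => H19.pval (P x i) (Y.C i).z) ∈ H :=
  Y.coord_mem_of_known R1 hH p q hpq hns P hP hPe hprinc hknown i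

/-- **Definition unfolded: analytic map into the kernel of reduction.**  A map `u` from the finite
set `X` to `Pic⁰ F` is analytic (`H19.IsAn I act H u`) if its values have trivial reduction, it is
equivariant, and for every nonspecial system `Y : H19.Sys S I` of `g` discs the `g` coordinates of
`u x` belong to `H`; here `Y.pts c i` are the points `P_i` of `kernel_of_reduction` for the class
`c`, and `(Y.C i).z` is the coordinate of the `i`-th disc.  File H19Sys. -/
theorem isAn_def (K F k E : Type) [Field K] [Field F] [Algebra K F] [Field k] [Field E]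
    [Algebra k E] [IsAlgClosed K] [H94.FunField K F] [IsAlgClosed k] [H94.FunField k E]
    (S : H19.GoodRed K F k E) (Γ : Subgroup (SemilinearAut K F)) (I : H19.InertiaAction S Γ)
    (X : Type) (act : Γ → X → X) (H : Subring (X → K)) (u : X → Pic0 K F) :
    H19.IsAn I act H u ↔
      (∀ x, H23.redPic0 S (u x) = 0) ∧
      (∀ (γ : Γ) x, u (act γ x) = (γ : SemilinearAut K F) • u x) ∧
      ∀ (Y : H19.Sys S I) i, (fun x => H19.pval (Y.pts (u x) i) (Y.C i).z) ∈ H :=
  ⟨fun h => ⟨h.red, h.equiv, h.t_mem⟩, fun ⟨a, b, c⟩ => ⟨a, b, c⟩⟩

/-- **The sum of analytic maps is analytic.**  Proof: apply `addition_lemma` to three disjoint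
nonspecial systems and the relation `u + v + (-(u + v)) = 0`; this also shows that it suffices to
check analyticity on one system.  File H19Sys (`key_an`, `IsAn.of_sys`, `IsAn.add`). -/
theorem analytic_add (K F k E : Type) [Field K] [Field F] [Algebra K F] [Field k] [Field E]
    [Algebra k E] [IsAlgClosed K] [H94.FunField K F] [IsAlgClosed k] [H94.FunField k E]
    (S : H19.GoodRed K F k E) (Γ : Subgroup (SemilinearAut K F)) (I : H19.InertiaAction S Γ)
    (R1 : H19.RankOne S Γ) (X : Type) [Finite X] (act : Γ → X → X) (H : Subring (X → K))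
    (hH : H19.IsAnAlg S.A (fun γ : Γ => SemilinearAut.baseAut (γ : SemilinearAut K F)) act H)
    (u v : X → Pic0 K F) (hu : H19.IsAn I act H u) (hv : H19.IsAn I act H v) :
    H19.IsAn I act H (fun x => u x + v x) :=
  H19.IsAn.add R1 hH hu hv

/-- **The analytic algebra of a finite group of classes.**  Let `M` be a finite `Γ`-stable subgroup
of `Pic⁰ F`.  The ring `H19.anAlg I M Y`, generated by the invariant integral constants, the
indicator functions of the fibres of the reduction on `M` and the coordinates (in the system `Y`) of
`m - lift (red m)`, is an algebra of analytic functions on `M` (with `Γ` acting by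
`H19.actM M hM γ m = γ • m`) and is closed under comultiplication.
Proof: by `analytic_add`, since `lift a + lift b - lift (a + b)` is invariant with trivial
reduction.  File H19Order (`isAnAlg`, `comul_mem`). -/
theorem analytic_algebra (K F k E : Type) [Field K] [Field F] [Algebra K F] [Field k] [Field E]
    [Algebra k E] [IsAlgClosed K] [H94.FunField K F] [IsAlgClosed k] [H94.FunField k E]
    (S : H19.GoodRed K F k E) (Γ : Subgroup (SemilinearAut K F)) (I : H19.InertiaAction S Γ)
    (R1 : H19.RankOne S Γ) (M : AddSubgroup (Pic0 K F)) [Finite M]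
    (hM : ∀ γ ∈ Γ, ∀ m ∈ M, γ • m ∈ M) (Y : H19.Sys S I) :
    H19.IsAnAlg S.A (fun γ : Γ => SemilinearAut.baseAut (γ : SemilinearAut K F))
      (H19.actM M hM) (H19.anAlg I M Y) ∧
    ∀ f ∈ H19.anAlg I M Y, ∃ (n : ℕ) (a b : Fin n → M → K), (∀ i, a i ∈ H19.anAlg I M Y) ∧
      (∀ i, b i ∈ H19.anAlg I M Y) ∧ ∀ m m' : M, f (m + m') = ∑ i, a i m * b i m' :=
  ⟨H19.isAnAlg I M hM Y, fun _ hf => H19.comul_mem I M hM R1 Y hf⟩

/-- **Stability under the decomposition group.**  Let `δ` be a semilinear automorphism which
preserves the ring of integral functions and the place `∞`, normalises `Γ`, and acts on `M` with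
inverse `ψ`.  Then `m ↦ δ (f (δ⁻¹ m))` belongs to the analytic algebra for `f` in it.
Proof: `δ` induces an automorphism of the reduction (H19Bar) and carries the system `Y` to another
nonspecial system; use independence of the system.  File H19Order (`dec_mem`).  In the application
`δ` is an element of the decomposition group (H19Compat: `compat_dec`). -/
theorem analytic_algebra_stable (K F k E : Type) [Field K] [Field F] [Algebra K F] [Field k]
    [Field E] [Algebra k E] [IsAlgClosed K] [H94.FunField K F] [IsAlgClosed k]
    [H94.FunField k E] (S : H19.GoodRed K F k E) (Γ : Subgroup (SemilinearAut K F))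
    (I : H19.InertiaAction S Γ) (R1 : H19.RankOne S Γ) (M : AddSubgroup (Pic0 K F)) [Finite M]
    (hM : ∀ γ ∈ Γ, ∀ m ∈ M, γ • m ∈ M) (Y : H19.Sys S I) (δ : SemilinearAut K F)
    (hδ : ∀ f : F, δ • f ∈ S.B ↔ f ∈ S.B) (hinf : δ • I.Pinf = I.Pinf)
    (hΓ : ∀ γ ∈ Γ, δ⁻¹ * γ * δ ∈ Γ) (ψ : M → M)
    (hψ : ∀ m : M, δ • ((ψ m : M) : Pic0 K F) = m) (f : M → K) (hf : f ∈ H19.anAlg I M Y) :
    (fun m => SemilinearAut.baseAut δ (f (ψ m))) ∈ H19.anAlg I M Y :=
  H19.dec_mem I M hM R1 Y ⟨hδ⟩ hinf hΓ hψ hf

/-! ### 4. Descent to `ℤ_(ℓ)` and conclusion -/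

/-- **Places of `ℚ̄` have rank one.**  Let `A` be a place above `ℓ`.  Every `x ≠ 0` divides a power of
`ℓ` in `A`; equivalently every `y` satisfies `ℓ^n y ∈ A` for some `n`.  So `ℓ` is an invariant
pseudo-uniformizer (`closure_lemma`).  Proof: a primitive integral polynomial of `x`.
File H43Place (`exists_pow_eq_mul`).  Used in H43Descent. -/
theorem places_rank_one (ℓ : ℕ) (hℓ : ℓ.Prime) (A : ValuationSubring Qbar)
    (hA : A.LiesOverPrime ℓ) (x : Qbar) (hx : x ≠ 0) :
    ∃ n : ℕ, ∃ a ∈ A, (ℓ : Qbar) ^ n = x * a :=
  H43.exists_pow_eq_mul hℓ hA hx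

/-- **An algebraic integer which sees the decomposition group.**  Let `E` be a finite normal
extension of `ℚ`.  There is an algebraic integer `v` in `E`, fixed by inertia, a unit at `A`, such
that `g v` is in the maximal ideal of `A` for every automorphism `g` which is not the product of an
element of the decomposition group and one fixing `E`.  Multiplication by powers of `v` makes the
terms of a trace outside the decomposition group divisible by any given power of `ℓ` at `A` and does
not change divisibility at `A` of the terms inside; so a function given at one place above `ℓ` is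
approximated by functions equivariant for the whole group.  File H43Place (`exists_inertia_fixed`). -/
theorem exists_inertia_fixed_unit (E : IntermediateField ℚ Qbar) [Normal ℚ E]
    [FiniteDimensional ℚ E] (ℓ : ℕ) (hℓ : ℓ.Prime) (A : ValuationSubring Qbar)
    (hA : A.LiesOverPrime ℓ) :
    ∃ v ∈ E, IsIntegral ℤ v ∧ (∀ ι ∈ A.inertiaSubgroupIn ℚ, ι v = v) ∧ v ∉ A.nonunits ∧
      ∀ g : GQ, (∀ d : GQ, d • A = A → ∀ n ∈ E.fixingSubgroup, g ≠ d * n) → g v ∈ A.nonunits :=
  H43.exists_inertia_fixed E hℓ hA

/-- **Inertia at a finite level is the image of inertia.**  Let `g` preserve `A` and be trivial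
modulo the maximal ideal on the elements of `A` in `E` which are fixed by inertia.  Then `g` is the
product of an element of the inertia group and one fixing `E`.
File H43Place (`exists_mem_inertia_mul`). -/
theorem inertia_at_finite_level (E : IntermediateField ℚ Qbar) [Normal ℚ E] (ℓ : ℕ)
    (hℓ : ℓ.Prime) (A : ValuationSubring Qbar) (hA : A.LiesOverPrime ℓ) (g : GQ) (hg : g • A = A)
    (h : ∀ x ∈ A, x ∈ E → (∀ ι ∈ A.inertiaSubgroupIn ℚ, ι x = x) → g x - x ∈ A.nonunits) :
    ∃ ι ∈ A.inertiaSubgroupIn ℚ, ∃ n ∈ E.fixingSubgroup, g = ι * n :=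
  H43.exists_mem_inertia_mul E hℓ hA hg h

/-- **Equivariant functions span.**  Let `M` be a finite set on which the Galois group acts through a
finite quotient.  The functions `f : M → ℚ̄` with `f (σ m) = σ (f m)` span all functions over `ℚ̄`:
Galois descent without cohomology, by traces.  File H43Descent (`span_equivariant`). -/
theorem equivariant_functions_span (M : Type) [Finite M] (act : GQ → M → M)
    (hone : ∀ m, act 1 m = m) (hmul : ∀ σ τ m, act (σ * τ) m = act σ (act τ m))
    (hopen : ∃ E : IntermediateField ℚ Qbar, FiniteDimensional ℚ E ∧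
      ∀ σ : GQ, (∀ x ∈ E, σ x = x) → ∀ m, act σ m = m) :
    Submodule.span Qbar {f : M → Qbar | ∀ σ m, f (act σ m) = σ (f m)} = ⊤ :=
  H43.span_equivariant hone hmul hopen

/-- **Descent.**  Let `M` be a finite abelian group with a continuous action of the Galois group, `A`
a place above `ℓ`, and `H` a ring of `A`-valued functions on `M` which is an algebra of analytic
functions for the INERTIA group, closed under comultiplication and stable under the decomposition
group.  Then `M` has a finite flat model over `ℤ_(ℓ)` (`GaloisRep.ratLocalizedAt ℓ`).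
Proof: the order is the ring of the functions in `H` which are equivariant for the whole Galois
group; it generates `H` over the inertia-invariant constants (traces over the cosets of inertia at a
finite level: the cosets in the decomposition group are separated by residues of inertia-fixed
elements, `inertia_at_finite_level`, the other ones are made small by `exists_inertia_fixed_unit`), and
it is finitely generated by Cramer's rule.  File H43Descent (`hasFlatModel_of_local`). -/
theorem descent_to_Zl (ℓ : ℕ) [Fact ℓ.Prime] (A : ValuationSubring Qbar)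
    (hA : A.LiesOverPrime ℓ) (M : Type) [AddCommGroup M] [Finite M] (act : GQ → M → M)
    (hone : ∀ m, act 1 m = m) (hmul : ∀ σ τ m, act (σ * τ) m = act σ (act τ m))
    (hadd : ∀ σ m m', act σ (m + m') = act σ m + act σ m')
    (hopen : ∃ E : IntermediateField ℚ Qbar, FiniteDimensional ℚ E ∧
      ∀ σ : GQ, (∀ x ∈ E, σ x = x) → ∀ m, act σ m = m)
    (H : Subring (M → Qbar))
    (hH : H19.IsAnAlg A (fun σ : A.inertiaSubgroupIn ℚ => ((σ : GQ) : Qbar ≃+* Qbar))
      (fun σ => act σ) H)
    (hcomul : ∀ f ∈ H, ∃ (n : ℕ) (a b : Fin n → M → Qbar),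
      (∀ i, a i ∈ H) ∧ (∀ i, b i ∈ H) ∧ ∀ m m', f (m + m') = ∑ i, a i m * b i m')
    (hdec : ∀ σ ∈ A.decompositionSubgroup ℚ, ∀ f ∈ H, (fun m => σ (f (act σ⁻¹ m))) ∈ H) :
    H19.HasFlatModel (GaloisRep.ratLocalizedAt ℓ) ℚ Qbar M act :=
  H43.hasFlatModel_of_local A hA act hone hmul hadd hopen H hH hcomul hdec

/-- **The `ℓ^k`-torsion of `J₀(N)` has a finite flat model over `ℤ_(ℓ)`, `ℓ ∤ N`.**  Here
`H19.torsionAct N n σ x = σ • x` is the Galois action on the `n`-torsion.  Proof: choose a place `A`
above `ℓ`; `good_reduction_X0`, `inertia_X0`, `analytic_algebra`, `analytic_algebra_stable`,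
`descent_to_Zl`; the torsion is finite by S27 and the Galois action on it is of finite level
(H31Level).  Files H19Final, H19Main (`hasFlatModel_torsion`).  Used in S32 and H80FlatPt. -/
theorem torsion_flat (N ℓ : ℕ) [NeZero N] [Fact ℓ.Prime] (hℓN : ¬ ℓ ∣ N) (k : ℕ)
    (A : ValuationSubring Qbar) (hA : A.LiesOverPrime ℓ) :
    H19.HasFlatModel (GaloisRep.ratLocalizedAt ℓ) ℚ Qbar
      ↥(Submodule.torsionBy ℤ (JZero N) ((ℓ : ℤ) ^ k)) (H19.torsionAct N ((ℓ : ℤ) ^ k)) :=
  H19.hasFlatModel_torsion hℓN k hA (genus_eq N ℓ hℓN A hA)

/-- **Statement S19**, as frozen (with `Qbar` for `AlgebraicClosure ℚ` and `GQ` for its Galois group):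
the unfolded form of `torsion_flat`.  File S19 (`Fermat.Agent.S19.result`). -/
theorem statement_S19 (p : ℕ) [NeZero p] (ℓ : ℕ) [Fact ℓ.Prime] (hℓp : ¬ ℓ ∣ p) (k : ℕ) :
    ∃ (H : Type) (_ : CommRing H) (_ : HopfAlgebra (GaloisRep.ratLocalizedAt ℓ) H),
      Module.Finite (GaloisRep.ratLocalizedAt ℓ) H ∧ Module.Flat (GaloisRep.ratLocalizedAt ℓ) H ∧
      Coalgebra.IsCocomm (GaloisRep.ratLocalizedAt ℓ) H ∧
      ∃ e : WithConv (H →ₐ[GaloisRep.ratLocalizedAt ℓ] Qbar) ≃
          ↥(Submodule.torsionBy ℤ (JZero p) ((ℓ : ℤ) ^ k)),
        (∀ f g, e (f * g) = e f + e g) ∧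
        ∀ (σ : GQ) (f g : WithConv (H →ₐ[GaloisRep.ratLocalizedAt ℓ] Qbar)),
          (∀ h : H, g h = σ (f h)) → ((e g : JZero p)) = σ • (e f : JZero p) :=
  S19.result p ℓ hℓp k

end Fermat.Agent.Guide.FlatTorsion
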