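import Fermat.Agent.H71C46
import Fermat.Agent.H71Eigenform
import Fermat.Agent.H61L5A

/-!
# Guide to the proof: formal eigensystems and congruences between eigenforms, step by step (S46, S49)

Companion of `GuideDeligneSerre` (section 6: S49) and of `GuideResidualThree` (section 5: S46). Every
theorem below is a citation of a theorem of the library, of the Prelude or of Mathlib, with its statement
written out. Only `Guide` imports this file.

**What it does.** The frozen statements S46, S47 and S49 speak about FORMAL eigensystems: sequences `a` with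
`a_1 = 1` and `a_{ℓ n} + e_ℓ a_{n/ℓ} = a_ℓ a_n` for all primes `ℓ`, where the second term is present only if
`ℓ ∣ n` (`GuideNotionsForms.eigensystem_iff`). For `e_ℓ = ℓ` outside the level and `e_ℓ = 0` at the primes of
the level these are the relations between the coefficients of a normalised eigenform of weight two; for
`e_ℓ = χ₋₃(ℓ)` they are the relations of weight one. Modulo `3` there is no difference, because
`ℓ ≡ χ₋₃(ℓ)`; and the Eisenstein series `1 + 6 ∑ …` of weight one with character `χ₋₃` is `1` modulo `3`.
 * Sections 1, 2: S46 from the modularity of `W` at its exact level. A formal eigensystem is an arbitrary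
   family of values at the primes (`prescribed_values`). So the eigensystem of weight one is simply the
   one with the values `a_ℓ(W)` at the good `ℓ` and `0` at the bad `ℓ`. Modulo `3` it is equal to the
   eigensystem of weight two with the same values, and this one consists of the coefficients `a_n` of the
   eigenform of `W`, with `0` in the place of `a_n` if `n` is not prime to the level
   (`depleted_eigensystem`).
 * Section 3: how the hypothesis of S49, a congruence of coefficients, becomes a proper ideal of the Hecke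
   algebra which contains `3` and all `T_ℓ - a_ℓ` (`GuideDeligneSerre.congruence_ideal`).
 * Section 4: five facts of commutative algebra which give the lifting lemma
   (`GuideDeligneSerre.exists_eigenvector_lift`; Deligne-Serre, Lemme 6.11). A proof by characteristic
   polynomials of another form of the lemma is in `GuideEigenLifting`.
 * Section 5: the lifting lemma for torsion points of `J₀(N)` (used for the lowering of the level).

**Where.** NOTES.md: [323] NOTES-S46, [73] NOTES-S49. Files: `H71C46` (sections 1, 2), `H71S49Ideal`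
(section 3), `H71Lift` (section 4), `H71Eigenform`, `H61L5A` (section 5). Closures, from the table of the
team: `H71C46` only S46; `H71S49Ideal` and `H71Eigenform` only S49, with the exceptions in the docstrings;
`eigenform_relations` S46, S01 and eight others. The lifting lemma is in the proof terms of S49, of level
raising S41 (`GuideIharaSteps.eigenvector_of_functional`), of S39, S40, S43, S44, S45 and of S01, S03
(section 5). Author: helper71; section 5: helper61.
-/

set_option autoImplicit false

noncomputable section

open ModularFormClass CuspForm EisensteinWeightOne CongruenceSubgroup ModularCurve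

namespace Fermat.Agent.Guide.FormalEigensystems

open Fermat.Agent

/-! ## 1. Formal eigensystems -/

/-- **The local factor** (`H71C46`). `loc t e r` is the coefficient of `X^r` in
`1 / (1 - t X + e X²)`. -/
theorem local_factor {R : Type*} [CommRing R] (t e : R) (r : ℕ) :
    H71C.loc t e 0 = 1 ∧ H71C.loc t e 1 = t ∧
      H71C.loc t e (r + 2) = t * H71C.loc t e (r + 1) - e * H71C.loc t e r :=
  ⟨rfl, rfl, rfl⟩

/-- **The Euler product** (`H71C46`). `eig A e n` is the product of `loc (A p) (e p) r` over the prime
powers `p^r` which exactly divide `n` (and `eig A e 0 = 0`). So its value is `1` at `1` and `A p` at the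
prime `p`, and it is multiplicative. -/
theorem euler_product {R : Type*} [CommRing R] (A e : ℕ → R) :
    (∀ n : ℕ, H71C.eig A e n =
      if n = 0 then 0 else n.factorization.prod fun p r => H71C.loc (A p) (e p) r) ∧
    H71C.eig A e 0 = 0 ∧ H71C.eig A e 1 = 1 ∧ (∀ p : ℕ, p.Prime → H71C.eig A e p = A p) ∧
    ∀ p : ℕ, p.Prime → ∀ r m : ℕ, ¬ p ∣ m →
      H71C.eig A e (p ^ r * m) = H71C.loc (A p) (e p) r * H71C.eig A e m :=
  ⟨fun _ => rfl, H71C.eig_zero A e, H71C.eig_one A e, fun _ => H71C.eig_prime A e,
    fun _ hp r _ => H71C.eig_pow_mul A e hp r⟩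

/-- **A formal eigensystem is a family of values at the primes** (`H71C46`). Given `e`, there is exactly one
eigensystem `a` with `a_0 = 0` and with prescribed values at the primes: existence is the Euler product,
uniqueness is `GuideResidualThree.s46_eigensystem_unique`. -/
theorem prescribed_values {R : Type*} [CommRing R] (A e : ℕ → R) :
    ∃! a : ℕ → R, FormalHecke.IsEigensystem e a ∧ a 0 = 0 ∧ ∀ p : ℕ, p.Prime → a p = A p :=
  ⟨H71C.eig A e, ⟨H71C.eig_isEigensystem A e, H71C.eig_zero A e, fun _ => H71C.eig_prime A e⟩,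
    fun _ h => funext (H71C.eigensystem_unique h.1 (H71C.eig_isEigensystem A e) (fun _ _ => rfl)
      (h.2.1.trans (H71C.eig_zero A e).symm)
      fun p hp => (h.2.2 p hp).trans (H71C.eig_prime A e hp).symm)⟩

/-- **Change of rings** (`H71C46`): the image of an eigensystem under a homomorphism of rings is an
eigensystem. It is applied to `ℤ → ℂ` and to `ℤ → ℤ/3`. -/
theorem change_of_rings {R S : Type*} [CommRing R] [CommRing S] (φ : R →+* S) {e a : ℕ → R}
    (h : FormalHecke.IsEigensystem e a) :
    FormalHecke.IsEigensystem (fun n => φ (e n)) (fun n => φ (a n)) :=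
  H71C.isEigensystem_map φ h

/-- **Multiplicativity** (`H71Eigenform`). The relations at the primes imply `a_{mn} = a_m a_n` for coprime
`m`, `n` (if `a_0 = 0`), by induction on `m`. Used to pass from the Hecke relations to the definition of
a normalised eigenform. -/
theorem multiplicative {e a : ℕ → ℂ} (h0 : a 0 = 0) (h : ∀ ℓ : ℕ, ℓ.Prime → ∀ n : ℕ,
      a (ℓ * n) + e ℓ * (if ℓ ∣ n then a (n / ℓ) else 0) = a ℓ * a n) (h1 : a 1 = 1) :
    ∀ m n : ℕ, m.Coprime n → a (m * n) = a m * a n :=
  H71.formal_mul_of_relation h0 h h1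

/-! ## 2. From weight two to weight one modulo `3`: the steps of S46 -/

/-- **The relations of a normalised eigenform** (`H58Newform`), in the form in which they are used: for a
prime `ℓ ∤ N` and for a prime `q ∣ N`. (In the Prelude the definition is: `a_1 = 1`, multiplicativity, and
the recursion for prime powers.) -/
theorem eigenform_relations {N : ℕ} {f : CuspForm (Gamma0 N) 2} (hf : f.IsNormalizedEigenform)
    (n : ℕ) (hn : n ≠ 0) :
    (∀ ℓ : ℕ, ℓ.Prime → ¬ ℓ ∣ N →
      qCoeff ⇑f (ℓ * n) + (if ℓ ∣ n then (ℓ : ℂ) * qCoeff ⇑f (n / ℓ) else 0) =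
        qCoeff ⇑f ℓ * qCoeff ⇑f n) ∧
    ∀ q : ℕ, q.Prime → q ∣ N → qCoeff ⇑f (q * n) = qCoeff ⇑f q * qCoeff ⇑f n :=
  ⟨fun _ hℓ hℓN => H58.qCoeff_mul_add hf hℓ hℓN n hn, fun _ hq hqN => H58.qCoeff_mul_of_dvd hf hq hqN n hn⟩

/-- **Depletion is an eigensystem** (`H71C46`). Let `f` be a normalised eigenform of level `N`, and `c_n` be
`a_n(f)` if `n` is prime to `N`, and `0` otherwise. Then `c` is a formal eigensystem with `e_ℓ = ℓ` for
`ℓ ∤ N`, and `e_ℓ = 0` for `ℓ ∣ N`. (There is a cusp form with these coefficients, of level `N²`: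
`GuideResidualThree.s46_deplete`.) -/
theorem depleted_eigensystem {N : ℕ} {f : CuspForm (Gamma0 N) 2} (hf : f.IsNormalizedEigenform)
    {c : ℕ → ℂ} (hc : ∀ n, c n = if n.Coprime N then qCoeff ⇑f n else 0) :
    FormalHecke.IsEigensystem (fun ℓ => if ℓ ∣ N then 0 else (ℓ : ℂ)) c :=
  H71C.isEigensystem_deplete hf hc

/-- **The character `χ₋₃`** (`1`, `-1`, `0` for `l ≡ 1, 2, 0`) is congruent to the identity modulo `3`
(`H71S49Ideal`; closures S46, S49): the weights one and two are not distinguished modulo `3`. -/
theorem chi_mod_three (l : ℕ) : (3 : ℤ) ∣ (l : ℤ) - chiNegThree l :=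
  H71.three_dvd_natCast_sub_chiNegThree l

/-- **The level** of S46 is `N²`, `N` squarefree: it is free of cubes (`H71C46`). -/
theorem cube_free {N : ℕ} (hN : Squarefree N) {q : ℕ} (hq : q.Prime) : ¬ q ^ 3 ∣ N * N :=
  H71C.not_cube_dvd_of_squarefree hN hq

/-- **The integral basis** (`H71C46`): for every `N` the forms with integral coefficients span
`S₂(Γ₀(N))`. This is S23 (`H23.hasIntegralStructure`) and `mem_qIntegralSet_iff` below. -/
theorem integral_basis (N : ℕ) [NeZero N] :
    Submodule.span ℂ (CuspForm.qIntegralSet N) = ⊤ :=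
  H71C.hasIntegralBasis N

/-- **S46 from the exact level** (`H71C46`). The hypothesis (`GuideLifting.exact_level_iff`): there is a
normalised eigenform `f` of weight two on `Γ₀(N₀)` with `a_ℓ(f) = a_ℓ(W)` for the good primes `ℓ`, where `N₀`
is squarefree and its prime divisors are the bad primes. Then the conclusion of S46 holds with `N = N₀²`:
`a` is the eigensystem of `prescribed_values` with `A_ℓ = a_ℓ(W)`, `e_ℓ = χ₋₃(ℓ)` for `ℓ ∤ N` and
`A_ℓ = e_ℓ = 0` for `ℓ ∣ N`. The form which realises it modulo `3` (`IsLatticeRealized`, unfolded in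
`GuideResidualThree.s46_isLatticeRealized_iff`) is the depletion of `f` (`GuideResidualThree.s46_deplete`),
whose coefficients are those of `prescribed_values` with the same `A_ℓ` and `e_ℓ = ℓ`. -/
theorem s46_of_exact_level (W : WeierstrassCurve ℤ) (h : Mlc1IsModularModelOfExactConductorLevel W) :
    ∃ (N : ℕ) (_ : NeZero N) (a : ℕ → ℤ),
      CuspForm.HasIntegralBasis N ∧
      FormalHecke.IsEigensystem (fun ℓ => if ℓ ∣ N then 0 else ((chiNegThree ℓ : ℤ) : ℤ)) a ∧
      CuspForm.IsLatticeRealized N a ∧
      (∀ q : ℕ, q.Prime → q ≠ 3 → ¬ q ^ 3 ∣ N) ∧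
      ∀ ℓ : ℕ, ℓ.Prime → W.IsGoodPrimeFor ℓ → ¬ ℓ ∣ N → ℓ ≠ 3 →
        (3 : ℤ) ∣ (a ℓ - W.apOfModel ℓ) :=
  H71C.weightOne_of_exact W h

/-! ## 3. Congruences of coefficients and ideals of the Hecke algebra: the steps of S49

`intLattice N k` is the lattice of the forms in `S_k(Γ₀(N))` with integral coefficients
(`GuideEisensteinIndex.mem_lattice_iff` for `k = 2`), `heckeAlgebra N 2 ∅` the ring generated over `ℤ` by all
`T_ℓ` (`ℓ ∤ N`) and `U_q` (`q ∣ N`). -/

/-- **Coefficients are linear in the form** (`H71S49Ideal`), and the `0`-th coefficient of a cusp form is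
`0` (`H71Eigenform`; also S16). The first three are in the closures of 18 statements, S01 among them. -/
theorem coefficients {N : ℕ} [NeZero N] {k : ℤ} (f g : CuspForm (Gamma0 N) k) (n : ℕ) :
    qCoeff ⇑(f + g) n = qCoeff ⇑f n + qCoeff ⇑g n ∧
    (∀ c : ℂ, qCoeff ⇑(c • f) n = c * qCoeff ⇑f n) ∧
    (∀ c : ℤ, qCoeff ⇑(c • f) n = c * qCoeff ⇑f n) ∧
    qCoeff ⇑(f - g) n = qCoeff ⇑f n - qCoeff ⇑g n ∧ qCoeff ⇑f 0 = 0 :=
  ⟨H71.qCoeff_add f g n, fun c => H71.qCoeff_smul c f n, fun c => H71.qCoeff_zsmul c f n,
    H71.qCoeff_sub f g n, H71.qCoeff_zero_eq_zero f⟩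

/-- **Integral forms**, the two definitions of the frozen statements (`H71S49Ideal`; closures S46, S49): the
set `qIntegralSet N` is the lattice `intLattice N 2`. -/
theorem mem_qIntegralSet_iff {N : ℕ} (f : CuspForm (Gamma0 N) 2) :
    (f ∈ CuspForm.qIntegralSet N ↔ ∀ n : ℕ, ∃ m : ℤ, qCoeff f n = (m : ℂ)) ∧
      (f ∈ CuspForm.qIntegralSet N ↔ f ∈ CuspForm.intLattice N 2) :=
  ⟨H71.mem_qIntegralSet_iff f, (H71.mem_qIntegralSet_iff f).trans (H71.mem_intLattice_iff f).symm⟩

/-- **The lattice is stable and of finite rank** (Prelude): the Hecke operators map forms with integral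
coefficients to forms with integral coefficients (`a_{nℓ} + ℓ^{k-1} a_{n/ℓ}`), and these form a finitely
generated group (bound of Sturm). -/
theorem lattice_stable {N : ℕ} [NeZero N] {k : ℤ} (hk : 1 ≤ k) :
    (∀ (S : Set ℕ), ∀ t ∈ CuspForm.heckeAlgebra N k S, ∀ f ∈ CuspForm.intLattice N k,
      t f ∈ CuspForm.intLattice N k) ∧ (CuspForm.intLattice N k).FG :=
  ⟨fun _ _ ht _ hf => CuspForm.mem_intLattice_of_mem_heckeAlgebra hk ht hf,
    CuspForm.intLattice_fg N k⟩

/-- **The Hecke algebra is finite over `ℤ`** (Prelude), because it acts faithfully on the lattice if the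
lattice spans the space (`latticeActionHom` is this action, and `HasIntegralStructure` the condition; it is
the hypothesis `HasIntegralBasis` of S49). This is the hypothesis `Module.Finite ℤ T` of the lifting
lemma. -/
theorem hecke_algebra_finite {N : ℕ} [NeZero N] (hint : CuspForm.HasIntegralStructure N 2) :
    Function.Injective (CuspForm.latticeActionHom N ∅) ∧
      Module.Finite ℤ (CuspForm.heckeAlgebra N 2 ∅) :=
  ⟨CuspForm.latticeActionHom_injective N ∅ hint,
    have := CuspForm.intLattice.moduleFinite N
    have := CuspForm.intLattice.moduleFree N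
    Module.Finite.of_injective (CuspForm.latticeActionHom N ∅).toIntAlgHom.toLinearMap
      (CuspForm.latticeActionHom_injective N ∅ hint)⟩

/-- **Division** (`H71S49Ideal`; also used for S16): a form all of whose coefficients are integers divisible
by `p` is `p` times a form with integral coefficients. -/
theorem division {N : ℕ} {k : ℤ} {p : ℤ} (hp : p ≠ 0) (f : CuspForm (Gamma0 N) k)
    (hf : ∀ n, ∃ m : ℤ, qCoeff f n = ((p * m : ℤ) : ℂ)) :
    ∃ g ∈ CuspForm.intLattice N k, f = p • g :=
  H71.exists_eq_smul_of_forall_dvd hp f hf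

/-- **The congruence ideal** `congIdeal N f₀ p` (`H71S49Ideal`) of an integral form `f₀` and an integer `p`:
the operators `t` which map `f₀` into `p` times the lattice. It contains `p`. It is an ideal because the
lattice is stable. -/
theorem mem_congruence_ideal_iff {N : ℕ} [NeZero N] {f₀ : CuspForm (Gamma0 N) 2}
    (hf₀ : f₀ ∈ CuspForm.intLattice N 2) (p : ℤ) :
    (∀ t : CuspForm.heckeAlgebra N 2 ∅, t ∈ H71.congIdeal N f₀ p ↔
      ∃ g ∈ CuspForm.intLattice N 2, (t : Module.End ℂ (CuspForm (Gamma0 N) 2)) f₀ = p • g) ∧
    ((p : ℤ) : CuspForm.heckeAlgebra N 2 ∅) ∈ H71.congIdeal N f₀ p :=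
  ⟨fun _ => H71.mem_congIdeal, H71.intCast_mem_congIdeal hf₀ p⟩

/-! ## 4. The lifting lemma in five steps

`T` is a commutative ring, finite over `ℤ`, which acts faithfully on a finite dimensional complex vector
space `V`, and `I ≠ T` an ideal. Choose a maximal ideal `P` above `I`, and let `A` be the `ℂ`-algebra
generated by the operators; it is commutative and finite dimensional. Then
 (1) there is a minimal prime ideal `q` of `T` in `P`;
 (2) since `T → A` is injective, `q` is the contraction of a prime ideal `Q` of `A`;
 (3) `A / Q = ℂ`; so `Q` is the kernel of a character `λ : A → ℂ`;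
 (4) `A` acts faithfully on `V`, and `Q` is a minimal prime ideal (by (3) all prime ideals of `A` are),
     hence the annihilator of a vector `v ≠ 0`: this is an eigenvector with `a v = λ(a) v`;
 (5) the restriction `χ` of `λ` to `T` has integral values, and its kernel is `q ⊆ P`; by lying over
     there is a maximal ideal `𝔪` of `ℤ̄` with `χ⁻¹(𝔪) = P`. So `χ(I) ⊆ 𝔪`.
All five are theorems of Mathlib. -/

/-- Step (1): a prime ideal contains a minimal prime ideal. -/
theorem minimal_prime {T : Type*} [CommRing T] (P : Ideal T) [P.IsPrime] :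
    ∃ q ∈ minimalPrimes T, q ≤ P :=
  Ideal.exists_minimalPrimes_le bot_le

/-- Step (2): under an injective homomorphism every minimal prime ideal is a contraction. -/
theorem minimal_prime_is_contraction {T A : Type*} [CommRing T] [CommRing A] {ψ : T →+* A}
    (hψ : Function.Injective ψ) (q : Ideal T) (hq : q ∈ minimalPrimes T) :
    ∃ Q : Ideal A, Q.IsPrime ∧ Q.comap ψ = q :=
  Ideal.exists_comap_eq_of_mem_minimalPrimes_of_injective hψ q hq

/-- Step (3): in a finite dimensional commutative algebra over `ℂ` (or any algebraically closed field) every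
prime ideal is maximal, with residue field `ℂ`. -/
theorem residue_field {k A : Type*} [Field k] [IsAlgClosed k] [CommRing A] [Algebra k A]
    [FiniteDimensional k A] (Q : Ideal A) [Q.IsPrime] :
    Q.IsMaximal ∧ Function.Bijective (algebraMap k (A ⧸ Q)) :=
  have : IsArtinianRing A := isArtinian_of_tower k inferInstance
  ⟨IsArtinianRing.isMaximal_of_isPrime Q, IsAlgClosed.algebraMap_bijective_of_isIntegral⟩

/-- Step (4): a minimal prime ideal above the annihilator of a finite module over a noetherian ring is the
annihilator of an element `v` of the module (`v ≠ 0`, as the ideal is not the whole ring). -/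
theorem minimal_prime_is_associated {A V : Type*} [CommRing A] [IsNoetherianRing A] [AddCommGroup V]
    [Module A V] [Module.Finite A V] {Q : Ideal A} (hQ : Q ∈ (Module.annihilator A V).minimalPrimes) :
    Q ∈ associatedPrimes A V :=
  Module.associatedPrimes.minimalPrimes_annihilator_subset_associatedPrimes A V hQ

/-- Step (5): lying over for an integral extension. -/
theorem lying_over {T B : Type*} [CommRing T] [CommRing B] [Algebra T B] [Algebra.IsIntegral T B]
    (P : Ideal T) [P.IsMaximal] (hP : RingHom.ker (algebraMap T B) ≤ P) :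
    ∃ 𝔪 : Ideal B, 𝔪.IsMaximal ∧ 𝔪.comap (algebraMap T B) = P :=
  Ideal.exists_ideal_over_maximal_of_isIntegral P hP

/-! ## 5. The lifting lemma for torsion points -/

/-- **From torsion points to eigenforms** (`H61L5A`, helper61). `JZero N` is the group of the divisor classes
of degree `0` on `X₀(N)` over `ℚ̄`. Let `x ≠ 0` be an element of order `p` with `T_ℓ x = a_ℓ x` for all
primes `ℓ` outside a finite set `S` which contains the prime divisors of `N`. Then there are a normalised
eigenform `f` of weight two and level `N` and a maximal ideal `𝔪 ∋ p` of `ℤ̄` with `a_ℓ(f) ≡ a_ℓ` modulo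
`𝔪` for all `ℓ ∉ S`. (By `GuideNewforms.hecke_relation_on_torsion` relations between Hecke operators on
cusp forms hold on torsion points. So the ring `T` generated by the operators `T_ℓ`, `ℓ ∉ S`, on
`S₂(Γ₀(N))` acts on the multiples of `x`; this is a homomorphism `T → ℤ/p`, and the lifting lemma for its
kernel gives an eigenvector in `S₂(Γ₀(N))`. `GuideNewforms.normalizedEigenform_of_partial` makes it a
normalised eigenform.) Closure: S39, S40, S43, S44, S45, S03, S01. -/
theorem eigenform_of_torsion_point {N : ℕ} [NeZero N] {S : Finset ℕ}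
    (hNS : ∀ q : ℕ, q.Prime → q ∣ N → q ∈ S) {p : ℕ} (hp : p.Prime) (a : ℕ → ℤ) {x : JZero N}
    (hx0 : x ≠ 0) (hpx : p • x = 0)
    (hT : ∀ ℓ : Nat.Primes, (ℓ : ℕ) ∉ S → heckeOperatorBar N ℓ x = a ℓ • x) :
    ∃ (f : CuspForm (Gamma0 N) 2) (𝔪 : Ideal (integralClosure ℤ ℂ)),
      f.IsNormalizedEigenform ∧ 𝔪.IsMaximal ∧ (p : integralClosure ℤ ℂ) ∈ 𝔪 ∧
      ∀ ℓ : ℕ, ℓ.Prime → ℓ ∉ S → ∃ b : integralClosure ℤ ℂ, (b : ℂ) = qCoeff f ℓ ∧
        b - (a ℓ : integralClosure ℤ ℂ) ∈ 𝔪 :=
  H61.L5.exists_eigenform_of_torsion hNS hp a hx0 hpx hT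

end Fermat.Agent.Guide.FormalEigensystems
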