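import Fermat.Agent.H55Main

/-!
# Guide to the proof: the Fourier argument for S55 (companion of GuidePoitouTate)

This file is a machine-checked table of contents. Every theorem below is a citation of a theorem of
the library, with its statement written out. Nothing imports this file.

**What it does.** `GuidePoitouTate.fourier` says: for the one dimensional module `μ = μ_p` the cokernel
`C(μ)` of the localisation map `H^2(G_S, μ) → ⊕ H^2(G_v, μ)`, `v ∈ S`, is one dimensional, and every single
group `H^2(G_v, μ)` maps isomorphically onto it. (In class field theory: `H^2(G_v, μ)` is identified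
with `ℤ/p` by the invariant, and the image of localisation consists of the families with sum zero.)
It is deduced from the arithmetic input (structure `ArithInput`, written out in
`GuidePoitouTate.arithInput_iff`). Apart from one local condition (`H^2(G_p, μ) ≠ 0`) this only speaks of
*trivial* coefficients, over fields which contain the `p`-th roots of unity. Here are the steps.

**The idea.** Let `K = ℚ(μ_p)`, the field of `ker χ`, and let `X` be the module of the functions on
`G / ker χ` with values in `k = F_p`. By Shapiro's lemma the cohomology of `X` is the cohomology of `K`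
with trivial coefficients. The order of `G / ker χ` divides `p - 1`, so `X` is the direct sum of one
dimensional modules `μ^i`, given by the powers `χ^i`, and `μ` is one of them.
 (a) *Upper bound.* `C(X)` has dimension at most one: the arithmetic input says this for a cofinal family
   of fields `K'`, and summation over the fibres is a surjection from the functions on `G / U'` to `X`.
   Here right exactness of the local groups `H^2` is used.
 (b) *One place.* A class in `H^2(G_v, X)` with at most one nonzero component (the components correspond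
   to the places of `K` above `v`) which dies in `C(X)` is zero: the arithmetic input says that no class
   of `H^2(K, k)` has exactly one nonzero local component.
 (c) *A totally ramified place* (`v = p`): there is only one place of `K` above `v`, so by (b) the map
   from `H^2(G_v, X)` to `C(X)` is injective. As `H^2(G_v, μ) ≠ 0`, one gets `C(μ) ≠ 0`. With (a):
   `dim C(μ) = dim C(X) = 1`, and `C(μ^i) = 0` for all other characters `χ^i ≠ χ`.
 (d) *Every other place* `v`: take a nonzero class at one place of `K` above `v`. By (b) it does not die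
   in `C(X)`. Decompose it into characters: some component does not die, by (c) it is the component of
   `χ`. So `H^2(G_v, μ) → C(μ)` is not zero. It is bijective, since `dim H^2(G_v, μ) ≤ 1`.

**Notation** (as in `GuidePoitouTate` and `GuideLevelCohomology`). `𝓛 : Levels G` is a group with its
open subgroups, `D : LD 𝓛` a finite family of local groups `D.Gv v` with homomorphisms `D.loc v` to `G`;
`D.rv ρ v` is the restriction of `ρ` to `D.Gv v`, `D.P2 ρ` the product of the `H^2` of the local groups,
`D.loc2 ρ` the localisation map to it and `D.Cok ρ = C(ρ)` its cokernel. `mu χ` is the one dimensional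
module of the character `χ`. `H65.XU k U` are the functions on `G/U` with values in the trivial module
`k`. For `U` open, `Places (D.loc v) U` are the places above `v` of the field of `U`,
`place (D.loc v) U g` the place of `g U`, `dec (D.loc v) U g` its decomposition group in `D.Gv v`
(`GuideDecomposition.double_cosets_are_places`, `galois_group_at_double_coset`, `number_of_places`).

**Where.** NOTES.md, Appendix A.10: [206]; Appendix A.12: [289], part 1. Everything is in the proof terms
of S55 and S56, and of S01, S03, S04, S06, S38, S43, S45, S46, S50, S59, S60 (through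
`GuideEulerChar.greenberg_wiles`).
Author: helper65 (`H65Fourier`, `H65FourierB`, `H65FourierC`); section 7: helper55 (`H55Main`), helper75.
-/

set_option autoImplicit false
set_option maxSynthPendingDepth 3

namespace Fermat.Agent.Guide.Fourier

open Module Fermat.Agent Fermat.Agent.H55

/-! ## 1. The cokernel of localisation -/

/-- **The cokernel is a functor** (`H65Fourier`): an equivariant map `φ : A → B` induces
`CokMap D hφ : C(A) → C(B)`; the class of a family `(x_v)` goes to the class of the family `(φ x_v)`. It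
is compatible with composition. (Localisation commutes with the change of coefficients.) -/
theorem cokernel_functor {k G A B C : Type} [CommRing k] [Group G] [AddCommGroup A] [Module k A]
    [AddCommGroup B] [Module k B] [AddCommGroup C] [Module k C] {𝓛 : Levels G} (D : LD 𝓛)
    {ρA : Representation k G A} {ρB : Representation k G B} {ρC : Representation k G C}
    {φ : A →ₗ[k] B} {ψ : B →ₗ[k] C} (hψ : Equivar ρB ρC ψ) (hφ : Equivar ρA ρB φ) :
    (∀ x : D.P2 ρA, H65.CokMap D hφ (Submodule.Quotient.mk x) =
        Submodule.Quotient.mk (fun v => H2c (D.lev v) (hφ.res (D.loc v)) (x v))) ∧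
      ∀ x : D.Cok ρA, H65.CokMap D (hψ.comp hφ) x = H65.CokMap D hψ (H65.CokMap D hφ x) :=
  ⟨fun _ => rfl, H65.CokMap_comp D hψ hφ⟩

/-- **Surjectivity is a local condition** (`H65Fourier`): if the maps `H^2(G_v, A) → H^2(G_v, B)` are
surjective for all `v`, then so is `C(A) → C(B)`. No condition on the global groups is needed. -/
theorem cokernel_surjective {k G A B : Type} [CommRing k] [Group G] [AddCommGroup A] [Module k A]
    [AddCommGroup B] [Module k B] {𝓛 : Levels G} (D : LD 𝓛) {ρA : Representation k G A}
    {ρB : Representation k G B} {φ : A →ₗ[k] B} (hφ : Equivar ρA ρB φ)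
    (h : ∀ v, Function.Surjective (H2c (D.lev v) (hφ.res (D.loc v)))) :
    Function.Surjective (H65.CokMap D hφ) :=
  H65.CokMap_surjective D hφ h

open Classical in
/-- **The maps `J_v`** (`H65Fourier`). `J D ρ v : H^2(G_v, ρ) → C(ρ)` sends `x` to the class of the family
with the component `x` at `v` and zero elsewhere. So `x` goes to zero iff there is a global class
whose localisation is `x` at `v` and zero at all other places. -/
theorem J_eq_zero_iff {k G A : Type} [CommRing k] [Group G] [AddCommGroup A] [Module k A]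
    {𝓛 : Levels G} (D : LD 𝓛) {ρ : Representation k G A} (v : D.ι)
    (x : H2 (D.lev v) (D.rv ρ v)) :
    H65.J D ρ v x = Submodule.Quotient.mk (Pi.single v x) ∧
      (H65.J D ρ v x = 0 ↔ ∃ z : H2 𝓛 ρ, D.loc2 ρ z = Pi.single v x) :=
  ⟨rfl, H65.J_eq_zero_iff D v x⟩

/-- **`J_v` is natural** (`H65Fourier`) with respect to equivariant maps `φ : A → B`. -/
theorem J_natural {k G A B : Type} [CommRing k] [Group G] [AddCommGroup A] [Module k A]
    [AddCommGroup B] [Module k B] {𝓛 : Levels G} (D : LD 𝓛) {ρA : Representation k G A}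
    {ρB : Representation k G B} {φ : A →ₗ[k] B} (hφ : Equivar ρA ρB φ) (v : D.ι)
    (x : H2 (D.lev v) (D.rv ρA v)) :
    H65.CokMap D hφ (H65.J D ρA v x) = H65.J D ρB v (H2c (D.lev v) (hφ.res (D.loc v)) x) :=
  H65.CokMap_J D hφ v x

/-! ## 2. Fourier analysis on `G / ker χ`

`χ : G → kˣ` is a character with values in a field (which is finite in the last steps); `chib χ` is the
injective function on `G / ker χ` induced by `χ`. -/

/-- **The projection to a character** (`H65Fourier`). `G` acts on the functions `f` on `G/U` by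
`(g f)(x) = f(g⁻¹ x)`. `π_i(f) = ∑_x χ(x)^i f(x)` is an equivariant map from the functions on `G / ker χ` to
the one dimensional module `μ^i` of the character `χ^i`. -/
theorem projection {k G : Type} [Field k] [Group G] (χ : G →* kˣ) [Fintype (G ⧸ χ.ker)] (i : ℕ) :
    (∀ (g : G) (f : G ⧸ χ.ker → k) (x : G ⧸ χ.ker), H65.XU k χ.ker g f x = f (g⁻¹ • x)) ∧
      (∀ f : G ⧸ χ.ker → k, H65.fpi χ i f = ∑ x, ((H65.chib χ x) ^ i : kˣ) * f x) ∧
      Equivar (H65.XU k χ.ker) (mu (χ ^ i)) (H65.fpi χ i) :=
  ⟨fun _ _ _ => rfl, H65.fpi_apply χ i, H65.equivar_fpi χ i⟩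

/-- **The embedding of a character** (`H65Fourier`): `s_i(a)` is the function `x ↦ χ(x)^{-i} a`; `s_i` is
an equivariant map from `μ^i` to the functions on `G / ker χ`. -/
theorem embedding {k G : Type} [Field k] [Group G] (χ : G →* kˣ) (i : ℕ) :
    (∀ (a : k) (x : G ⧸ χ.ker), H65.fsi χ i a x = (((H65.chib χ x) ^ i)⁻¹ : kˣ) * a) ∧
      Equivar (mu (χ ^ i)) (H65.XU k χ.ker) (H65.fsi χ i) :=
  ⟨H65.fsi_apply χ i, H65.equivar_fsi χ i⟩

/-- **Orthogonality** (`H65Fourier`): `π_i s_i` is multiplication by the order of `G / ker χ`, and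
`π_i s_j = 0` if `χ^i ≠ χ^j` (the sum over a finite group of the values of a nontrivial homomorphism to
`kˣ` is zero). -/
theorem orthogonality {k G : Type} [Field k] [Group G] (χ : G →* kˣ) [Fintype (G ⧸ χ.ker)] :
    (∀ i, H65.fpi χ i ∘ₗ H65.fsi χ i =
        ((Fintype.card (G ⧸ χ.ker) : ℕ) : k) • LinearMap.id) ∧
      ∀ i j, χ ^ i ≠ χ ^ j → H65.fpi χ i ∘ₗ H65.fsi χ j = 0 :=
  ⟨H65.fpi_comp_fsi_self χ, fun _ _ h => H65.fpi_comp_fsi_of_ne χ h⟩

/-- **Fourier inversion** (`H65Fourier`): the sum of `s_i π_i` over `0 ≤ i < |kˣ|` is multiplication by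
`|kˣ|` on the functions on `G / ker χ` (geometric series). -/
theorem inversion {k G : Type} [Field k] [Finite k] [Group G] (χ : G →* kˣ)
    [Fintype (G ⧸ χ.ker)] :
    ∑ i ∈ Finset.range (Nat.card kˣ), H65.fsi χ i ∘ₗ H65.fpi χ i =
      ((Nat.card kˣ : ℕ) : k) • LinearMap.id :=
  H65.sum_fsi_fpi χ

/-- **The two numbers are not zero in `k`** (`H65Fourier`): `|kˣ| = |k| - 1`, and the order of `G / ker χ`
divides `|kˣ|`. -/
theorem cardinalities {k G : Type} [Field k] [Finite k] [Group G] (χ : G →* kˣ)
    [Fintype (G ⧸ χ.ker)] :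
    ((Nat.card kˣ : ℕ) : k) ≠ 0 ∧ ((Fintype.card (G ⧸ χ.ker) : ℕ) : k) ≠ 0 :=
  ⟨H65.natCard_units_ne_zero k, H65.card_quot_ne_zero χ⟩

/-- **Direct summands** (`H65Fourier`): if `ψ φ = c` is a nonzero constant, then `φ` induces injections of
`H^2` and of the cokernels. It is applied to `φ = s_i`, `ψ = π_i`. -/
theorem direct_summands {k G A B : Type} [Field k] [Group G] [AddCommGroup A] [Module k A]
    [AddCommGroup B] [Module k B] {𝓛 : Levels G} {ρA : Representation k G A}
    {ρB : Representation k G B} {φ : A →ₗ[k] B} {ψ : B →ₗ[k] A} (hφ : Equivar ρA ρB φ)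
    (hψ : Equivar ρB ρA ψ) {c : k} (hc : c ≠ 0) (h : ψ ∘ₗ φ = c • LinearMap.id) :
    Function.Injective (H2c 𝓛 hφ) ∧ ∀ D : LD 𝓛, Function.Injective (H65.CokMap D hφ) :=
  ⟨H65.H2c_injective_of_comp hφ hψ hc h, fun D => H65.CokMap_injective_of_comp D hφ hψ hc h⟩

/-! ## 3. Evaluation at the places

`evP k D U v g` maps `H^2(G_v, Fun(G/U, k))` to the `H^2` of the decomposition group of the place of `g U`,
`evG k 𝓛 U` maps `H^2(G, Fun(G/U, k))` to `H^2(U, k)`. Both are the restriction to a subgroup, followed by
the evaluation of the functions at a point fixed by it. -/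

/-- **Evaluation at a place** (`H65Fourier`): on classes of cocycles `evP` is the restriction to the
decomposition group and evaluation of the values at the point `g U`. It is the map `evd2` of
`GuideLevelCohomology`, section 3. -/
theorem evaluation {k G : Type} [CommRing k] [Group G] {𝓛 : Levels G} (D : LD 𝓛) (U : Subgroup G)
    (v : D.ι) (g : G) :
    (∀ z : Z2 (D.lev v) (D.rv (H65.XU k U) v),
      ∃ z' : Z2 ((D.lev v).onSub (dec (D.loc v) U g))
          (Representation.trivial k (dec (D.loc v) U g) k),
        (∀ x y : dec (D.loc v) U g, (z' : _ × _ → k) (x, y) =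
          (z : D.Gv v × D.Gv v → G ⧸ U → k) (x, y) (g : G ⧸ U)) ∧
        H65.evP k D U v g (H2π (D.lev v) (D.rv (H65.XU k U) v) z) =
          H2π ((D.lev v).onSub (dec (D.loc v) U g)) (Representation.trivial k _ k) z') ∧
      ∀ ξ, H65.evP k D U v g ξ =
        evd2 (Representation.trivial k G k) (D.lev v) (D.loc v) U g ξ :=
  ⟨fun _ => ⟨_, fun _ _ => rfl, rfl⟩, fun _ => rfl⟩

/-- **Shapiro's lemma for the local groups** (`H65Fourier`, from `H55ShapiroD`): a class in
`H^2(G_v, Fun(G/U, k))` is zero if all its components at the places are zero; and there is a class with a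
given component at one place and zero at all the other ones. -/
theorem components {k G : Type} [CommRing k] [Group G] {𝓛 : Levels G} (D : LD 𝓛) {U : Subgroup G}
    (hU : 𝓛.op U) (v : D.ι) :
    (∀ ξ : H2 (D.lev v) (D.rv (H65.XU k U) v), (∀ g, H65.evP k D U v g ξ = 0) → ξ = 0) ∧
      ∀ (g₀ : G) (y : H2 ((D.lev v).onSub (dec (D.loc v) U g₀))
          (Representation.trivial k (dec (D.loc v) U g₀) k)),
        ∃ ξ : H2 (D.lev v) (D.rv (H65.XU k U) v), H65.evP k D U v g₀ ξ = y ∧
          ∀ g, place (D.loc v) U g ≠ place (D.loc v) U g₀ → H65.evP k D U v g ξ = 0 :=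
  ⟨(H65.shap D hU).ext v, (H65.shap D hU).surj v⟩

/-- **Shapiro's lemma for `G`, and localisation** (`H65Fourier`, from `H55ShapiroC`):
`H^2(G, Fun(G/U, k)) = H^2(U, k)`; and (Mackey's formula) the component at the place of `g` of the
localisation of a class `z` is the localisation at this place (`D.locU2`: the pull back along
`x ↦ g⁻¹ loc(x) g`) of the class in `H^2(U, k)` which corresponds to `z`. -/
theorem evaluation_localisation {k G : Type} [CommRing k] [Group G] {𝓛 : Levels G} (D : LD 𝓛)
    {U : Subgroup G} (hU : 𝓛.op U) :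
    Function.Bijective (H65.evG k 𝓛 U) ∧
      ∀ (z : H2 𝓛 (H65.XU k U)) (v : D.ι) (g : G),
        H65.evP k D U v g (H2res (D.cont v) (H65.XU k U) z) =
          D.locU2 k U v g (H65.evG k 𝓛 U z) :=
  ⟨H65.evG_bijective hU, (H65.shap D hU).mackey⟩

/-! ## 4. The cokernel for the functions on `G / U` -/

/-- **The local groups** (`H65FourierB`): `H^2(G_v, Fun(G/U, k))` has the number of places above `v` as
its dimension, if the groups `H^2` of the decomposition groups are one dimensional. -/
theorem dim_local {k G : Type} [Field k] [Group G] {𝓛 : Levels G} (D : LD 𝓛) {U : Subgroup G}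
    (hU : 𝓛.op U) (v : D.ι)
    (hfin : ∀ g, Module.Finite k (H2 ((D.lev v).onSub (dec (D.loc v) U g))
      (Representation.trivial k (dec (D.loc v) U g) k)))
    (h1 : ∀ g, finrank k (H2 ((D.lev v).onSub (dec (D.loc v) U g))
      (Representation.trivial k (dec (D.loc v) U g) k)) = 1) :
    Module.Finite k (H2 (D.lev v) (D.rv (H65.XU k U) v)) ∧
      finrank k (H2 (D.lev v) (D.rv (H65.XU k U) v)) = nPl (D.loc v) U :=
  H65.finrank_H2_rv_XU D hU v hfin h1

/-- **The kernel of localisation** (`H65FourierB`): the isomorphism of Shapiro's lemma carries the kernel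
of localisation for `Fun(G/U, k)` to the group `D.ShaU2 k U` of the classes in `H^2(U, k)` which vanish at
all places. -/
theorem kernel_of_localisation {k G : Type} [Field k] [Group G] {𝓛 : Levels G} (D : LD 𝓛)
    {U : Subgroup G} (hU : 𝓛.op U) :
    (LinearMap.ker (D.loc2 (H65.XU k U))).map
      ((LinearEquiv.ofBijective (H65.evG k 𝓛 U) (H65.evG_bijective hU)) :
        H2 𝓛 (H65.XU k U) →ₗ[k] H2 (𝓛.onSub U) (Representation.trivial k U k)) =
      D.ShaU2 k U :=
  H65.map_ker_loc2_XU D hU

/-- **The dimension of the cokernel** (`H65FourierB`), for `U ≤ ker χ` (the fields `K' ⊇ ℚ(μ_p)`):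
`dim C(Fun(G/U, k)) + dim H^2(U, k) = (number of places of K') + dim Sha^2(U, k)`. -/
theorem dim_cokernel {k G : Type} [Field k] [Group G] {𝓛 : Levels G} {D : LD 𝓛} {χ : G →* kˣ}
    (hA : ArithInput D χ) {U : Subgroup G} (hU : 𝓛.op U) (hle : U ≤ χ.ker) :
    Module.Finite k (D.Cok (H65.XU k U)) ∧
      finrank k (D.Cok (H65.XU k U)) +
          finrank k (H2 (𝓛.onSub U) (Representation.trivial k U k)) =
        D.nPlaces U + finrank k (D.ShaU2 k U) :=
  H65.finrank_Cok_XU hA hU hle

open Classical in
/-- **Summation over the fibres** (`H65FourierB`) of `G/U' → G/U`, `U' ≤ U`: this is an equivariant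
surjection `Fun(G/U', k) → Fun(G/U, k)` (no condition on the index). -/
theorem sum_over_fibres {k G : Type} [CommRing k] [Group G] {U' U : Subgroup G}
    [Fintype (G ⧸ U')] (h : U' ≤ U) :
    (∀ (f : G ⧸ U' → k) (y : G ⧸ U), H65.fsum h f y =
        ∑ x, if Subgroup.quotientMapOfLE h x = y then f x else 0) ∧
      Equivar (H65.XU k U') (H65.XU k U) (H65.fsum (k := k) h) ∧
      Function.Surjective (H65.fsum (k := k) h) :=
  ⟨H65.fsum_apply h, H65.equivar_fsum h, H65.fsum_surjective h⟩

/-- **Right exactness** (`H65FourierC`). `H75.RightExact k 𝓛`: for finite dimensional smooth modules `H^1`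
and `H^2` are finite dimensional and `H^2` is right exact (for `k = F_p` a criterion is
`GuidePoitouTate.right_exact`). For an equivariant surjection `q : B → C`, `B` smooth and finite
dimensional, it gives the surjectivity of `H^2(B) → H^2(C)` (the third module is the kernel of `q`). -/
theorem h2_surjective {k G : Type} [Field k] [Group G] {𝓛 : Levels G} (hR : H75.RightExact k 𝓛)
    {B C : Type} [AddCommGroup B] [Module k B] [AddCommGroup C] [Module k C] [Module.Finite k B]
    {ρB : Representation k G B} {ρC : Representation k G C} {q : B →ₗ[k] C}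
    (hq : Equivar ρB ρC q) (hs : Function.Surjective q) (hB : Smooth 𝓛 ρB) :
    Function.Surjective (H2c 𝓛 hq) :=
  H65.surj_of_rightExact hR hq hs hB

/-- **Upper bound** (`H65FourierC`): `dim C(Fun(G/U, k)) ≤ 1` for *every* open subgroup `U`. For some
smaller `U'` the arithmetic input (`ArithInput.codim`) and `dim_cokernel` give the bound; then use the
surjection of `sum_over_fibres`, `h2_surjective` for the local groups, and `cokernel_surjective`. -/
theorem dim_cokernel_le {k G : Type} [Field k] [Group G] {𝓛 : Levels G} {D : LD 𝓛} {χ : G →* kˣ}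
    (hA : ArithInput D χ) (hR : ∀ v, H75.RightExact k (D.lev v)) {U : Subgroup G}
    (hU : 𝓛.op U) :
    Module.Finite k (D.Cok (H65.XU k U)) ∧ finrank k (D.Cok (H65.XU k U)) ≤ 1 :=
  H65.finrank_Cok_XU_le_of_rightExact hA hR hU

/-! ## 5. Classes concentrated in one place

From now on `X = H65.XU k χ.ker`, and `K` is the field of `ker χ`. -/

/-- **One place** (`H65Fourier`): a class `ξ` in `H^2(G_v, X)` whose components vanish at all places above
`v` with the possible exception of the one of `g₀`, and which goes to zero in `C(X)`, is zero. Proof: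
`ξ` is the localisation at `v` of a global class which vanishes at all other places `w`. The
corresponding class over `K` has at most one nonzero local component, hence none
(`ArithInput.iso`); now use `components`. -/
theorem one_place {k G : Type} [Field k] [Group G] {𝓛 : Levels G} {D : LD 𝓛} {χ : G →* kˣ}
    (hA : ArithInput D χ) (v : D.ι) (g₀ : G) (ξ : H2 (D.lev v) (D.rv (H65.XU k χ.ker) v))
    (hξ : ∀ g, place (D.loc v) χ.ker g ≠ place (D.loc v) χ.ker g₀ →
      H65.evP k D χ.ker v g ξ = 0)
    (hJ : H65.J D (H65.XU k χ.ker) v ξ = 0) : ξ = 0 :=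
  H65.eq_zero_of_J_eq_zero hA (H65.shap D hA.open_ker) v g₀ ξ hξ hJ

/-- **Totally ramified places** (`H65Fourier`): if `G_v` and `G` have the same image under `χ`, there is
only one place of `K` above `v`, and `H^2(G_v, X) → C(X)` is injective. -/
theorem totally_ramified {k G : Type} [Field k] [Group G] {𝓛 : Levels G} {D : LD 𝓛}
    {χ : G →* kˣ} (hA : ArithInput D χ) (v : D.ι)
    (hv : ∀ g : G, ∃ x : D.Gv v, χ (D.loc v x) = χ g) :
    Function.Injective (H65.J D (H65.XU k χ.ker) v) :=
  H65.J_injective_of_transitive hA (H65.shap D hA.open_ker) v hv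

/-! ## 6. The cokernel for `μ` -/

/-- **`dim C(μ) = dim C(X) = 1`** (`H65Fourier`), if `dim C(X) ≤ 1` (which is `dim_cokernel_le`). `C(μ)` is
a direct summand of `C(X)`; it is not zero by `totally_ramified`, applied to the image in
`H^2(G_v, X)` of a nonzero class of `H^2(G_v, μ)` (`ArithInput.tot_ram`). -/
theorem dim_cokernel_mu {k G : Type} [Field k] [Finite k] [Group G] {𝓛 : Levels G} {D : LD 𝓛}
    {χ : G →* kˣ} (hA : ArithInput D χ) (hfin : Module.Finite k (D.Cok (H65.XU k χ.ker)))
    (hcok : finrank k (D.Cok (H65.XU k χ.ker)) ≤ 1) :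
    Module.Finite k (D.Cok (mu χ)) ∧ finrank k (D.Cok (mu χ)) = 1 ∧
      finrank k (D.Cok (H65.XU k χ.ker)) = 1 :=
  H65.finrank_Cok_mu hA (H65.shap D hA.open_ker) hfin hcok

/-- **The other characters do not contribute** (`H65Fourier`): `C(μ^i) = 0` if `χ^i ≠ χ`. Otherwise
`s_i` would identify `C(μ^i)` with `C(X)`, which contains `s_1 C(μ) ≠ 0`; but `π_1 s_i = 0`, and `π_1 s_1`
is a nonzero constant. -/
theorem other_characters {k G : Type} [Field k] [Finite k] [Group G] {𝓛 : Levels G} {D : LD 𝓛}
    {χ : G →* kˣ} (hA : ArithInput D χ) (hfin : Module.Finite k (D.Cok (H65.XU k χ.ker)))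
    (hcok : finrank k (D.Cok (H65.XU k χ.ker)) ≤ 1) {i : ℕ} (hi : χ ^ i ≠ χ) :
    Subsingleton (D.Cok (mu (χ ^ i))) :=
  H65.subsingleton_Cok_mu_pow hA (H65.shap D hA.open_ker) hfin hcok hi

/-- **`J_v ≠ 0` for every `v`** (`H65Fourier`). Take a class `ξ` in `H^2(G_v, X)` with exactly one nonzero
component; it exists by `components`, because the groups `H^2` of the decomposition groups are one
dimensional. It does not go to zero (`one_place`). Up to the factor `|kˣ|` it is the sum of the
`s_i π_i ξ`; the `i` with `χ^i ≠ χ` contribute nothing (`other_characters`). -/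
theorem J_ne_zero {k G : Type} [Field k] [Finite k] [Group G] {𝓛 : Levels G} {D : LD 𝓛}
    {χ : G →* kˣ} (hA : ArithInput D χ) (hfin : Module.Finite k (D.Cok (H65.XU k χ.ker)))
    (hcok : finrank k (D.Cok (H65.XU k χ.ker)) ≤ 1) (v : D.ι) :
    ∃ y : H2 (D.lev v) (D.rv (mu χ) v), H65.J D (mu χ) v y ≠ 0 :=
  H65.exists_J_ne_zero hA (H65.shap D hA.open_ker) hfin hcok v

/-- **`dim H^2(G_v, μ) ≤ 1`** (`H65Fourier`): `μ` is a direct summand of the functions on `G_v / V`, where
`V` is the kernel of `χ` on `G_v`, and `H^2(V, k)` is one dimensional (`ArithInput.loc_h2`). -/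
theorem dim_local_mu_le {k G : Type} [Field k] [Finite k] [Group G] {𝓛 : Levels G} {D : LD 𝓛}
    {χ : G →* kˣ} (hA : ArithInput D χ) (v : D.ι) :
    Module.Finite k (H2 (D.lev v) (mu (χ.comp (D.loc v)))) ∧
      finrank k (H2 (D.lev v) (mu (χ.comp (D.loc v)))) ≤ 1 :=
  H65.finrank_H2_mu_le hA v (H65.evG_bijective
    (by rw [← MonoidHom.comap_ker]; exact D.cont v _ hA.open_ker)).1

/-- **The result, if `dim C(X) ≤ 1`** (`H65Fourier`): every `J_v : H^2(G_v, μ) → C(μ)` is bijective. With
`dim_cokernel_le` and `dim_cokernel_mu` this is `GuidePoitouTate.fourier`. -/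
theorem J_bijective {k G : Type} [Field k] [Finite k] [Group G] {𝓛 : Levels G} {D : LD 𝓛}
    {χ : G →* kˣ} (hA : ArithInput D χ) (hfin : Module.Finite k (D.Cok (H65.XU k χ.ker)))
    (hcok : finrank k (D.Cok (H65.XU k χ.ker)) ≤ 1) (v : D.ι) :
    Function.Bijective (H65.J D (mu χ) v) :=
  H65.J_bijective hA (H65.shap D hA.open_ker) hfin hcok v (H65.evG_bijective
    (by rw [← MonoidHom.comap_ker]; exact D.cont v _ hA.open_ker)).1

/-! ## 7. How the result is used -/

/-- **The local groups `H^2` are right exact** (`H55Main`). `EC p 𝓛 W` is the hypothesis of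
`GuidePoitouTate.right_exact`: an open normal subgroup `W` of index prime to `p` with finite cohomology
and multiplicative Euler characteristic below it. It holds for `G_v` and the kernel of `χ` on `G_v`, since
`dim H^2(V) = 1` and `dim H^1(V) = 2 + c_v [G_v : V]` give `χ(V) = - c_v [G_v : V]`. -/
theorem local_right_exact {p : ℕ} [Fact p.Prime] {G : Type} [Group G] {𝓛 : Levels G} {D : LD 𝓛}
    {χ : G →* (ZMod p)ˣ} (hA : ArithInput D χ) (v : D.ι) :
    EC p (D.lev v) (χ.comp (D.loc v)).ker ∧ H75.RightExact (ZMod p) (D.lev v) :=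
  ⟨hA.locEC v, hA.locRE v⟩

/-- **`dim C(Fun(G/U, k)) = 1` for all `U ≤ ker χ`** (`H55Main`). The upper bound is `dim_cokernel_le`;
the map `f ↦ ∑ χ(x) f(x)` from `Fun(G/U, k)` to `μ` is surjective, and `C(μ) ≠ 0`. -/
theorem dim_cokernel_eq {p : ℕ} [Fact p.Prime] {G : Type} [Group G] {𝓛 : Levels G} {D : LD 𝓛}
    {χ : G →* (ZMod p)ˣ} (hA : ArithInput D χ) (U : Subgroup G) (hU : 𝓛.op U)
    (hle : U ≤ χ.ker) :
    Module.Finite (ZMod p) (D.Cok (H65.XU (ZMod p) U)) ∧
      finrank (ZMod p) (D.Cok (H65.XU (ZMod p) U)) = 1 :=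
  hA.finrank_Cok U hU hle

/-- **The global group `H^2` is right exact** (`H75Ind`, `H55Main`). Now `dim_cokernel` gives
`dim H^2(U, k)`, and with the formula for `dim H^1(U, k)` in the arithmetic input one gets
`2 χ(U, k) = -[G : U]` for all `U ≤ ker χ` (`χ = h^0 - h^1 + h^2`; `χ(U, k)` is the Euler characteristic of
`G` with values in `Fun(G/U, k)`). This is multiplicative, i.e. `EC` holds for `G` and `ker χ`. -/
theorem global_right_exact {p : ℕ} [Fact p.Prime] {G : Type} [Group G] {𝓛 : Levels G}
    {D : LD 𝓛} {χ : G →* (ZMod p)ˣ} (hA : ArithInput D χ) :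
    (∀ U, 𝓛.op U → U ≤ χ.ker → 2 * chi2 𝓛 (H65.XU (ZMod p) U) = -(U.index : ℤ)) ∧
      EC p 𝓛 χ.ker ∧ H75.RightExact (ZMod p) 𝓛 :=
  ⟨fun U hU hle => H75.two_mul_chi2_XU hA hU hle (hA.finrank_Cok U hU hle).2, hA.globEC,
    hA.globRE⟩

/-- **Both functors are dual to `Hom(·, μ)`** (`H55Main`). For `H^2` of a local group and for the cokernel
`C` the three conditions `Good` of `GuideLevelCohomology`, section 5, hold (`ker χ` is open, the functions
on `G/U` go to a space of dimension one for all `U ≤ ker χ`, and `μ` to a nonzero space). Hence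
`dim H^2(G_v, A) = dim Hom(A, μ)` and `dim C(A) = dim Hom(A, μ)` for all finite smooth `A`, which is
`local_duality_H2` and `cokernel_duality` of `GuidePoitouTate`. -/
theorem good_functors {p : ℕ} [Fact p.Prime] {G : Type} [Group G] {𝓛 : Levels G} {D : LD 𝓛}
    {χ : G →* (ZMod p)ˣ} (hA : ArithInput D χ) :
    (∀ v, (h2RF (hA.locRE v)).Good (χ.comp (D.loc v))) ∧
      (ArithInput.cokRF D hA.globRE hA.locRE).Good χ :=
  ⟨hA.locGood, hA.cokGood⟩

end Fermat.Agent.Guide.Fourier
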