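import Fermat.Agent.H84SSp

/-!
# Guide: components, frames and Kummer covers

Statements served: S33 (everything), S44 (everything except Theorems 22 and 25), S34 and S35
(Theorems 1, 3, 4, 6, 7, 8), S36 (Theorems 1, 4, 6, 7), and through them S01, S03, S04, S06, S38,
S39, S40, S43, S45, S46, S50, S59 and S60 (Theorems 1, 3, 4, 6, 7, 8 also S09, S12, S15 and S58).
Companion files: GuideFramesSteps (the steps of the proofs), GuideOrdinary (S33: Theorems 17 and 18
there are Theorems 25 and 26 below applied to `X_0(M)` and `X_0(Mp)`), GuideBadRed (the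
two-component reduction of `X_0(mq)`), GuideGaussSeries, GuideTwoSheets and GuideTwoComponents
(components and frames of modular curves).  NOTES.md: [90] NOTES-FRAMES.
No modular curve occurs in this file.  The library files which contain the proofs are named in
parentheses.

**Setting.**  `K` is a field with a valuation ring `A` and a surjection `π : A → k` onto its residue
field; `F/K` is a function field in one variable (`H3RR.IsFF K F`: finite over `K(x)` for some
transcendental `x`), the function field of a curve `X`.  Instead of a model of `X` over `A` we use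
finitely many *components*: valuation rings `V` of `F` above `A` with a reduction map to a function
field `κ` over `k`.  For modular curves these are Gauss valuations: `f` is integral if its
`q`-expansion is a quotient of series with coefficients in `A`.

**The theory in one page.**

1. (Section 1) Components over an algebraically closed field have the value group of `K`; finitely
   many different ones satisfy weak approximation, and `Σ [κ : k(x̄_i)] ≤ [F : K(x)]` for a
   coordinate `x` with transcendental reductions `x̄_i`.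
2. (Section 2) If equality holds there is a *frame*.  With a frame every finite dimensional space of
   functions has an orthonormal basis: the dimension does not change under reduction, and functions
   regular off the poles of `x` reduce to functions regular off the poles of `x̄_i`.  This replaces
   flatness and base change for a model.  The special fibre is connected.
3. (Section 3) Let `F'/F` be generated by `p`-th roots of functions with divisor divisible by `p`
   which are close to `p`-th powers at every component (`≡ 1` modulo `(ζ_p - 1)^p 𝔪`, up to `p`-th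
   powers).  Then `F'/F` splits completely above every component, and the genus of `F'` satisfies
   the inequality of an unramified cover.
4. (Section 4) So the reduction of `F'` consists of copies of the components, indexed by the Galois
   group `G`, which are glued along elements `c_σ ∈ G` at the points where the components of `F`
   meet; a dimension count shows that there are no other conditions.  By connectedness the `c_σ`
   determine `G`.
5. (Section 5) One component: `G = 1`, the function is a `p`-th power.  Two components: the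
   quotients `c_σ c_τ⁻¹` generate `G` and commute with a suitable lift of every inertia element;
   this gives the action of inertia on the Kummer classes.

In the literature these results are theorems on finite flat group schemes and on the Picard functor
of a semistable curve (Raynaud, Grothendieck, Deligne-Rapoport); here they are valuation theory and
Riemann-Roch.  Checked on the proof terms: every library theorem cited in this file is used in the
proof of S01.
-/

set_option autoImplicit false

open AlgebraicCurve WithZero Polynomial IntermediateField Module Fermat.Agent.H84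

namespace Fermat.Agent.Guide.Frames

-- The setting described above: `F/K` and `κ/k`, `π : A → k`, and an extension `F'/F`.
variable {K k : Type*} [Field K] [Field k] {A : ValuationSubring K} {π : A →+* k}
  {F F' κ : Type*} [Field F] [Algebra K F] [Field F'] [Algebra K F'] [Field κ] [Algebra k κ]
  [Algebra F F'] [IsScalarTower K F F'] {ι : Type*}

/-! ## 1. Components -/

/-- **1. Components.**  A component `C : Comp A π F κ` of `F` with values in `κ` is a valuation ring
`C.V` of `F` with a ring homomorphism to `κ`, extended by `0` to the function `C.red`, such that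
elements with nonzero reduction are units and the reduction extends `π : A → k`.  (H84Approx) -/
theorem component (C : Comp A π F κ) :
    (∀ a : A, algebraMap K F a ∈ C.V ∧ C.red (algebraMap K F a) = algebraMap k κ (π a)) ∧
    (∀ f g : F, f ∈ C.V → g ∈ C.V →
      C.red (f + g) = C.red f + C.red g ∧ C.red (f * g) = C.red f * C.red g) ∧
    (∀ f : F, C.red f ≠ 0 ↔ f ≠ 0 ∧ f ∈ C.V ∧ f⁻¹ ∈ C.V) :=
  ⟨fun a => ⟨C.mem a, C.red_algebraMap a⟩, fun _ _ hf hg => ⟨C.red_add hf hg, C.red_mul hf hg⟩,
    fun _ => C.red_ne_zero_iff⟩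

/-- **2. The value group does not grow.**  `K` algebraically closed.  If `x` is residually
transcendental at the component `C` then every `f ≠ 0` has a multiple `c f`, `c ∈ K`, with nonzero
reduction at `C`.  Proof: an equation of `f` over `K[x]` has two terms of equal value.
(H84Value) -/
theorem value_group [IsAlgClosed K] (C : Comp A π F κ) {x : F} (hxK : Transcendental K x)
    [FiniteDimensional K⟮x⟯ F] (hx : x ∈ C.V) (hxt : Transcendental k (C.red x)) (f : F)
    (hf : f ≠ 0) : ∃ c : K, c ≠ 0 ∧ C.red (algebraMap K F c * f) ≠ 0 :=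
  C.scalable hxK hx hxt f hf

/-- **3. Different components are incomparable.**  (H84Value) -/
theorem incomparable (hπ : Function.Surjective π) {C₁ C₂ : Comp A π F κ}
    (h₁ : ∀ f : F, f ≠ 0 → ∃ c : K, c ≠ 0 ∧ C₁.red (algebraMap K F c * f) ≠ 0)
    (h : C₁.V ≠ C₂.V) : ¬ C₁.V ≤ C₂.V :=
  Comp.Scalable.not_le hπ h₁ h

/-- **4. Weak approximation.**  Given values `t i` in the images of the residue maps of finitely
many incomparable components, there is a function `y`, integral at all of them, with reductions
`t i`.  (H84Approx) -/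
theorem weak_approximation (C : ι → Comp A π F κ) [Finite ι] [Infinite k]
    (hπ : Function.Surjective π) (hC : ∀ i j, i ≠ j → ¬ (C i).V ≤ (C j).V) (t : ι → κ)
    (ht : ∀ i, ∃ f ∈ (C i).V, (C i).red f = t i) :
    ∃ y : F, (∀ i, y ∈ (C i).V) ∧ ∀ i, (C i).red y = t i := by
  obtain ⟨y, hy, hyt⟩ := exists_lift hπ hC t ht
  exact ⟨y, (mem_B C).mp hy, hyt⟩

/-- **5. The fundamental inequality** `Σ [κ : k(x̄_i)] ≤ [F : K(x)]` for a coordinate `x` which is
residually transcendental at finitely many incomparable components with residue field `κ`; here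
`x̄_i = (C i).red x`.  (H84Frame) -/
theorem sum_of_residue_degrees (C : ι → Comp A π F κ) (x : F) [Fintype ι] [Nonempty ι]
    [Infinite k] (hπ : Function.Surjective π) (hC : ∀ i j, i ≠ j → ¬ (C i).V ≤ (C j).V)
    (hx : ∀ i, x ∈ (C i).V ∧ Transcendental k ((C i).red x))
    (hsurj : ∀ i t, ∃ f ∈ (C i).V, (C i).red f = t) [FiniteDimensional K⟮x⟯ F]
    [∀ i, FiniteDimensional k⟮(C i).red x⟯ κ] :
    ∑ i, finrank k⟮(C i).red x⟯ κ ≤ finrank K⟮x⟯ F :=
  sum_finrank_le C x (AlgHom.id k κ) (fun i => (C i).red x) hπ hC hx (fun _ => rfl) hsurj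

/-! ## 2. Frames -/

/-- **6. Frames.**  A frame is a finite family `b j` of functions which are integral at all
components, which spans `F` over `K(x)`, and whose tuples of reductions are linearly independent
over the polynomial ring `k[X]`, where `X` acts as multiplication by `x̄_i` at the component `i`.
(H84Approx, H84Frame) -/
theorem isFrame_iff (C : ι → Comp A π F κ) (x : F) {J : Type*} [Fintype J] (b : J → F) :
    IsFrame C x b ↔ (∀ j i, b j ∈ (C i).V) ∧
      (∀ q : J → k[X], (∀ i, ∑ j, aeval ((C i).red x) (q j) * (C i).red (b j) = 0) → q = 0) ∧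
      ∀ f : F, ∃ (Q : K[X]) (p : J → K[X]), Q ≠ 0 ∧ aeval x Q * f = ∑ j, aeval x (p j) * b j :=
  ⟨fun h => ⟨fun j => (mem_B C).mp (h.mem j), h.ind, h.span⟩,
    fun h => ⟨fun j => (mem_B C).mpr (h.1 j), h.2.1, h.2.2⟩⟩

/-- **7. Existence of frames**: if equality holds in 5.  Proof: lift bases of the fields `κ` over
`k(x̄)` by weak approximation.  (H84Frame) -/
theorem exists_frame (C : ι → Comp A π F κ) (x : F) [Fintype ι] [Nonempty ι] [Infinite k]
    (hπ : Function.Surjective π) (hC : ∀ i j, i ≠ j → ¬ (C i).V ≤ (C j).V)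
    (hx : ∀ i, x ∈ (C i).V ∧ Transcendental k ((C i).red x))
    (hsurj : ∀ i t, ∃ f ∈ (C i).V, (C i).red f = t) [FiniteDimensional K⟮x⟯ F]
    [∀ i, FiniteDimensional k⟮(C i).red x⟯ κ]
    (hsum : finrank K⟮x⟯ F ≤ ∑ i, finrank k⟮(C i).red x⟯ κ) :
    ∃ b : (Σ i, Fin (finrank k⟮(C i).red x⟯ κ)) → F, IsFrame C x b :=
  exists_isFrame_of_sum C x (AlgHom.id k κ) (fun i => (C i).red x) hπ hC hx (fun _ => rfl) hsurj
    hsum

/-- **8. Orthonormal bases.**  If there is a frame then every finite dimensional space `W` of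
functions has a basis `w` of functions integral at all components whose reductions are linearly
independent.  Proof: for a suitable `P ∈ A[X]` with nonzero reduction `P(x) W` lies in the span of
the functions `x^a b_j`, `a < M`, which have independent reductions; a subspace of a space with such
a basis has such a basis (normalise by a maximal minor of largest value).  (H84Basis, H84Frame) -/
theorem orthonormal_basis {C : ι → Comp A π F κ} {x : F} {J : Type*} [Fintype J] {b : J → F}
    [Nonempty ι] (hx : ∀ i, x ∈ (C i).V ∧ Transcendental k ((C i).red x)) (hb : IsFrame C x b)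
    (W : Submodule K F) [FiniteDimensional K W] :
    ∃ (d : ℕ) (w : Fin d → F), (∀ m i, w m ∈ (C i).V) ∧ Submodule.span K (Set.range w) = W ∧
      LinearIndependent k (fun m i => (C i).red (w m)) := by
  obtain ⟨d, w, h1, h2, h3⟩ := hb.exists_basis hx W
  exact ⟨d, w, fun m => (mem_B C).mp (h1 m), h2, h3⟩

/-- **9. The dimension does not change**: the space `W̄` of the reductions of the elements of `W`
which are integral at all components has the dimension of `W`.  (H84Basis; for two components in
the form used in GuideBadRed: H84Two, H34Two5) -/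
theorem dimension_of_reduction {C : ι → Comp A π F κ} {x : F} {J : Type*} [Fintype J] {b : J → F}
    [Nonempty ι] (hπ : Function.Surjective π)
    (hx : ∀ i, x ∈ (C i).V ∧ Transcendental k ((C i).red x)) (hb : IsFrame C x b)
    (W : Submodule K F) [FiniteDimensional K W] :
    ∃ Wbar : Submodule k (ι → κ), finrank k Wbar = finrank K W ∧
      ∀ t, t ∈ Wbar ↔ ∃ f ∈ W, f ∈ B C ∧ ∀ i, (C i).red f = t i :=
  ⟨redSub C hπ W, IsFrame.finrank_redSub hπ hx hb W, fun _ => Iff.rfl⟩

/-- **10. Poles under reduction.**  A function integral at all components and regular off the poles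
of `x` reduces to functions regular off the poles of `x̄`.  Proof: its minimal polynomial over
`K(x)` has coefficients in `K[x]` and, by means of the frame, in `A[x]`; reduce the equation.
(H84Int, H84Red) -/
theorem reduction_regular {C : ι → Comp A π F κ} {x : F} {J : Type*} [Fintype J] {b : J → F}
    [Nonempty ι] [H3RR.IsFF K F] (hπ : Function.Surjective π)
    (hx : ∀ i, x ∈ (C i).V ∧ Transcendental k ((C i).red x)) (hb : IsFrame C x b) {f : F}
    (hf : ∀ i, f ∈ (C i).V)
    (hreg : ∀ v : Place K F, v.adicValuation x ≤ 1 → v.adicValuation f ≤ 1) (i : ι)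
    (s : Place k κ) (hs : s.adicValuation ((C i).red x) ≤ 1) :
    s.adicValuation ((C i).red f) ≤ 1 :=
  hb.red_le_one hπ hx ((mem_B C).mpr hf) hreg i s hs

/-- **11. The special fibre is connected.**  `A` archimedean (`hA`).  Let `e` be regular off the
poles of `x` and `e'` regular off the zeros of `x`, both integral at all components, and suppose
that at each component both reduce to the same constant `c i`.  Then `c` is constant.
Proof (H84Conn): take such a family which is the indicator function of a minimal nonempty set `Z`,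
with `e`, `e'` vanishing at a point `P` where `x(P) = 1` (their values at `P` are congruent to `0`
or `1`; pass to the complement of the set if it is `1`, then subtract the values).  Let `g` have its
only pole at `P`, scaled so that it is integral at the components in `Z`.  For large `n` the
functions `e^n g`, `e'^n g` have no pole at `P` and reduce to `ḡ` on `Z` and, since `A` is
archimedean, to `0` off `Z`.  By 10 the reductions of `g` on `Z` have no poles: they are constants,
all equal because `Z` is minimal.  But `g` can be chosen with a nonconstant reduction. -/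
theorem connectedness {C : ι → Comp A π F κ} {x : F} {J : Type*} [Fintype J] {b : J → F}
    [Nonempty ι] [Finite ι] [IsAlgClosed K] [H3RR.IsFF K F] [IsAlgClosed k] [H3RR.IsFF k κ]
    (hπ : Function.Surjective π) (hA : ∀ a b : A, π a = 0 → b ≠ 0 → ∃ n : ℕ, b ∣ a ^ n)
    (hx : ∀ i, x ∈ (C i).V ∧ Transcendental k ((C i).red x)) (hb : IsFrame C x b) (c : ι → k)
    (e e' : F) (he : ∀ i, e ∈ (C i).V) (he' : ∀ i, e' ∈ (C i).V)
    (hreg : ∀ v : Place K F, v.adicValuation x ≤ 1 → v.adicValuation e ≤ 1)
    (hreg' : ∀ v : Place K F, v.adicValuation x⁻¹ ≤ 1 → v.adicValuation e' ≤ 1)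
    (hred : ∀ i, (C i).red e = algebraMap k κ (c i))
    (hred' : ∀ i, (C i).red e' = algebraMap k κ (c i)) (i j : ι) : c i = c j :=
  IsFrame.const_of_glued hπ hA hx hb
    ⟨e, e', (mem_B C).mpr he, (mem_B C).mpr he', hreg, hreg', hred, hred'⟩ i j

/-! ## 3. Covers which split over the components -/

/-- **12. Close to a `p`-th power.**  (Used with `λ = ζ_p - 1`.) -/
theorem close_iff (C : Comp A π F κ) (p : ℕ) (lam : K) (w : F) :
    Close C p lam w ↔ ∃ y z : F, y ≠ 0 ∧ z ∈ C.V ∧ C.red z = 0 ∧
      w * y ^ p = 1 + algebraMap K F lam ^ p * z :=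
  Iff.rfl

/-- **13. Components above.**  A component `C` with residue field `κ` has an extension `C'` to every
algebraic extension `F'` of `F`, with values in an algebraic closure of `κ`.  (H84Ext) -/
theorem exists_component_above [Algebra.IsAlgebraic F F'] (C : Comp A π F κ)
    (hC : ∀ t, ∃ f ∈ C.V, C.red f = t) :
    ∃ C' : Comp A π F' (AlgebraicClosure κ), (∀ f : F, algebraMap F F' f ∈ C'.V ↔ f ∈ C.V) ∧
      ∀ f : F, C'.red (algebraMap F F' f) = algebraMap κ (AlgebraicClosure κ) (C.red f) := by
  obtain ⟨C', h⟩ := exists_over (F' := F') C hC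
  exact ⟨C', h.mem, h.red⟩

/-- **14. The decomposition group fixes the roots.**  `C'` above `C`, `y^p = w`, `w` close to a
`p`-th power at `C`.  Every `g ∈ Gal(F'/F)` which maps the valuation ring of `C'` to itself fixes
`y`.  Proof: up to an element of `F` and a root of unity `y` is `1 + (ζ - 1) t` with `t` in the
maximal ideal; `g` preserves this condition, but `ζ^a y` satisfies it only for `a = 0`.
(H84Close) -/
theorem decomposition_fixes_roots {Ω : Type*} [Field Ω] [Algebra k Ω] [Algebra κ Ω]
    [FiniteDimensional F F'] {p : ℕ} [Fact p.Prime] [CharP k p] {ζ : K}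
    (hζ : IsPrimitiveRoot ζ p) {C : Comp A π F κ} {C' : Comp A π F' Ω}
    (hmem : ∀ f : F, algebraMap F F' f ∈ C'.V ↔ f ∈ C.V)
    (hred : ∀ f : F, C'.red (algebraMap F F' f) = algebraMap κ Ω (C.red f))
    {g : F' ≃ₐ[F] F'} (hg : ∀ φ ∈ C'.V, g φ ∈ C'.V) {w : F} (hw : Close C p (ζ - 1) w)
    {y : F'} (hy : y ^ p = algebraMap F F' w) : g y = y :=
  smul_eq_of_close hζ ⟨hmem, hred⟩ hg hw hy

omit [IsScalarTower K F F'] in
/-- **15. Split families.**  The conclusion of the next theorem in words: `W i` is a component of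
`F'` with values in `κ` itself; `x` is residually transcendental; the translates of `W i` by the
Galois group are different; the `W i` lie over different components of `F`; the residue maps are
onto `κ`; and `[F : K(x)] ≤ Σ [κ : k(x̄_i)]`.  (H84CovBase, H84Count) -/
theorem covHyp_iff [Fintype ι] (W : ι → Comp A π F' κ) (x : F) :
    CovHyp W x ↔ (∀ i, algebraMap F F' x ∈ (W i).V) ∧
      (∀ i, Transcendental k ((W i).red (algebraMap F F' x))) ∧
      (∀ i (g : F' ≃ₐ[F] F'), g ≠ 1 → ∃ φ, φ ∈ (W i).V ∧ g φ ∉ (W i).V) ∧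
      (∀ i j, i ≠ j → ∃ φ : F, algebraMap F F' φ ∈ (W i).V ∧ algebraMap F F' φ ∉ (W j).V) ∧
      (∀ i t, ∃ f ∈ (W i).V, (W i).red f = t) ∧
      finrank K⟮x⟯ F ≤ ∑ i, finrank k⟮(W i).red (algebraMap F F' x)⟯ κ :=
  ⟨fun h => ⟨h.mem, h.transc, h.split, h.dist, h.surj, h.deg⟩,
    fun h => ⟨h.1, h.2.1, h.2.2.1, h.2.2.2.1, h.2.2.2.2.1, h.2.2.2.2.2⟩⟩

/-- **16. Complete splitting of the Kummer cover.**  `C i`, `i ∈ ι`, are incomparable components of
`F` with residue field `κ` and `[F : K(x)] ≤ Σ [κ : k(x̄_i)]`; `S` is a set of functions, finite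
modulo `p`-th powers, close to `p`-th powers at all `C i`.  Then the components of the field
`Kum p S = F(w^{1/p} : w ∈ S)` above the `C i` have the same residue field `κ`, and their translates
by the Galois group are different.  Proof: by 14 there are `#G` translates above each `C i`; by 5
their residue fields cannot be larger than `κ`.  (H84Ext, H84Main) -/
theorem splitting_of_kummer_cover [Fintype ι] [IsAlgClosed K] [CharZero K] [H3RR.IsFF K F]
    [IsAlgClosed k] [H3RR.IsFF k κ] {p : ℕ} [Fact p.Prime] [CharP k p]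
    (hπ : Function.Surjective π) {C : ι → Comp A π F κ} {x : F} (hx : ∀ i, x ∈ (C i).V)
    (hxt : ∀ i, Transcendental k ((C i).red x))
    (hdist : ∀ i j, i ≠ j → ∃ φ, φ ∈ (C i).V ∧ φ ∉ (C j).V)
    (hsurj : ∀ i t, ∃ f ∈ (C i).V, (C i).red f = t)
    (hdeg : finrank K⟮x⟯ F ≤ ∑ i, finrank k⟮(C i).red x⟯ κ) {ζ : K} (hζ : IsPrimitiveRoot ζ p)
    {S : Set F} (hfin : ∃ T : Finset F, ∀ w ∈ S, ∃ t ∈ T, ∃ f : F, w = t * f ^ p)
    (hclose : ∀ w ∈ S, ∀ i, Close (C i) p (ζ - 1) w) :
    ∃ W : ι → Comp A π (Kum p S) κ,
      (∀ i f, algebraMap F (Kum p S) f ∈ (W i).V ↔ f ∈ (C i).V) ∧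
      (∀ i f, (W i).red (algebraMap F (Kum p S) f) = (C i).red f) ∧ CovHyp W x := by
  obtain ⟨W, h, h'⟩ := exists_cover_kum hπ ⟨hx, hxt, hdist, hsurj, hdeg⟩ hζ hfin hclose
  exact ⟨W, h.mem, h.red, h'⟩

/-- **17. The genus of the cover.**  If `F'` is spanned over `F` by elements `y` with `y^p ∈ F` and
`div(y^p)` divisible by `p` then `g(F') - 1 ≤ [F' : F] (g(F) - 1)`.  Proof: for such a basis `y_i`,
`div(y_i^p) = p D_i`, the space `⊕ y_i L(D + D_i)` lies in `L(D)` of `F'`; apply Riemann-Roch to
both sides for large `D`.  (H84KumG) -/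
theorem genus_of_kummer_cover [IsAlgClosed K] [H3RR.IsFF K F] [H3RR.IsFF K F']
    [FiniteDimensional F F'] {p : ℕ} (hp : p ≠ 0)
    (hspan : Submodule.span F {y : F' | ∃ h : F, h ≠ 0 ∧ y ^ p = algebraMap F F' h ∧
      ∀ v : Place K F, (p : ℤ) ∣ v.ord h} = ⊤) :
    (genusFF K F' : ℤ) - 1 ≤ finrank F F' * ((genusFF K F : ℤ) - 1) :=
  genus_le_of_span hp hspan

/-! ## 4. Gluing -/

omit [Algebra K F] [IsScalarTower K F F'] in
/-- **18. Marked points.**  `m : Marks W x Sig` consists of two points `m.lft σ`, `m.rgt σ` (pairs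
of an index `i` and a place of `κ`) for every `σ ∈ Sig`, all different, at which `x̄` is regular and
not zero.  `ev s f` is the value of `f` at the place `s`.  (H84Glue, H84Red) -/
theorem marks_fields [IsAlgClosed k] [H3RR.IsFF k κ] (W : ι → Comp A π F' κ) (x : F)
    {Sig : Type*} (m : Marks W x Sig) :
    Function.Injective (Sum.elim m.lft m.rgt) ∧
    (∀ σ, (m.lft σ).2.adicValuation ((W (m.lft σ).1).red (algebraMap F F' x)) = 1) ∧
    (∀ σ, (m.rgt σ).2.adicValuation ((W (m.rgt σ).1).red (algebraMap F F' x)) = 1) ∧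
    ∀ (s : Place k κ) (f : κ), s.adicValuation f ≤ 1 →
      s.adicValuation (f - algebraMap k κ (ev s f)) < 1 :=
  ⟨m.inj, m.lft_reg, m.rgt_reg, fun _ _ h => ev_spec h⟩

/-- **19. Gluing elements.**  Let `φ` run through the functions on the cover whose conjugates are
integral at all components and which have no poles off the zeros and poles of `x`.  The element
`c σ` of `Gal(F'/F)` glues `m.lft σ` with `m.rgt σ` if the value of (the reduction of) `φ` at the
first point is always the value of `(c σ)⁻¹ φ` at the second one.  (H84Count, H84Glue2) -/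
theorem gluedBy_iff [Fintype ι] [IsAlgClosed K] [H3RR.IsFF K F'] [IsAlgClosed k]
    [H3RR.IsFF k κ] {W : ι → Comp A π F' κ} {x : F} {Sig : Type*} (m : Marks W x Sig)
    (c : Sig → F' ≃ₐ[F] F') :
    GluedBy m c ↔ ∀ σ, ∀ φ : F', (∀ i (g : F' ≃ₐ[F] F'), g φ ∈ (W i).V) →
      (∀ v : Place K F', v.adicValuation (algebraMap F F' x) = 1 → v.adicValuation φ ≤ 1) →
      ev (m.lft σ).2 ((W (m.lft σ).1).red φ) =
        ev (m.rgt σ).2 ((W (m.rgt σ).1).red ((c σ)⁻¹ φ)) :=
  ⟨fun h σ φ h1 h2 => h σ φ ⟨mem_B_trans.mpr h1, h2⟩,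
    fun h σ φ hφ => h σ φ (mem_B_trans.mp hφ.1) hφ.2⟩

/-- **20. Existence of gluing elements.**  If the points are glued on `F` (functions on `F` which
are integral at all components and have no poles off `x = 0, ∞` have the same value at the two
points) then they are glued on `F'` by some elements of the Galois group: the Galois group permutes
the prime ideals above a prime ideal transitively.  `trans W` is the family of all translates of the
`W i`; it has a frame by 7.  (H84Count, H84Glue2) -/
theorem exists_gluing_elements [Fintype ι] [Nonempty ι] [IsAlgClosed K] [H3RR.IsFF K F]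
    [H3RR.IsFF K F'] [IsAlgClosed k] [H3RR.IsFF k κ] [FiniteDimensional F F'] [IsGalois F F']
    {W : ι → Comp A π F' κ} {x : F} {Sig : Type*} {n : ℕ} {b : Fin n → F'}
    (hπ : Function.Surjective π) (H : CovHyp W x)
    (hb : IsFrame (trans (F := F) W) (algebraMap F F' x) b) (m : Marks W x Sig)
    (hglue : ∀ σ, ∀ φ : F, (∀ l, algebraMap F F' φ ∈ (W l).V) →
      (∀ v : Place K F, v.adicValuation x = 1 → v.adicValuation φ ≤ 1) →
      ev (m.lft σ).2 ((W (m.lft σ).1).red (algebraMap F F' φ)) =
        ev (m.rgt σ).2 ((W (m.rgt σ).1).red (algebraMap F F' φ))) :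
    ∃ c : Sig → F' ≃ₐ[F] F', GluedBy m c :=
  exists_gluedBy hπ H hb m hglue

/-- **21. The counting theorem.**  Let `r = #ι`, `s = #Sig`, `n = #Gal(F'/F)`, and suppose
`g(F') + r n ≤ 1 + n s + r n g(κ)`.  By 17 this follows from `g(F) + r ≤ 1 + s + r g(κ)`: the genus
of `F` is at most the arithmetic genus of `r` curves of genus `g(κ)` which meet in `s` points.  Then
for large `N` the reductions of the elements of `L(N (x)_∞)` which are integral at all translates
are exactly the tuples `t` with `t (i, g) ∈ L(N (x̄_i)_∞)` which satisfy the gluing conditions.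
Proof: both spaces have the same dimension, by 9 and Riemann-Roch on `F'` and on `κ`.
(H84Glue, H84Glue2) -/
theorem counting [Fintype ι] [Nonempty ι] [IsAlgClosed K] [H3RR.IsFF K F'] [IsAlgClosed k]
    [H3RR.IsFF k κ] [FiniteDimensional F F'] [IsGalois F F'] {W : ι → Comp A π F' κ} {x : F}
    {Sig : Type*} [Fintype Sig] {n : ℕ} {b : Fin n → F'} (hπ : Function.Surjective π)
    (H : CovHyp W x) (hb : IsFrame (trans (F := F) W) (algebraMap F F' x) b) (m : Marks W x Sig)
    {c : Sig → F' ≃ₐ[F] F'} (hc : GluedBy m c)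
    (hgen : genusFF K F' + Fintype.card ι * Nat.card (F' ≃ₐ[F] F') ≤
      1 + Nat.card (F' ≃ₐ[F] F') * Fintype.card Sig +
        Fintype.card ι * Nat.card (F' ≃ₐ[F] F') * genusFF k κ) {N : ℕ}
    (hN : 2 * genusFF K F' + 2 * genusFF k κ + 2 * Fintype.card Sig ≤ N)
    (t : ι × (F' ≃ₐ[F] F') → κ) :
    (∃ f ∈ riemannRochSpace (N • H3RR.poleDiv (algebraMap F F' x) : Divisor K F'),
      f ∈ B (trans (F := F) W) ∧ ∀ p, (trans (F := F) W p).red f = t p) ↔
    (∀ p, t p ∈ riemannRochSpace
      (N • H3RR.poleDiv ((W p.1).red (algebraMap F F' x)) : Divisor k κ)) ∧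
    ∀ σ g, ev (m.lft σ).2 (t ((m.lft σ).1, g)) = ev (m.rgt σ).2 (t ((m.rgt σ).1, g * c σ)) :=
  SetLike.ext_iff.mp (redSub_eq_glueSub hπ H hb m hc hgen hN) t

/-- **22. No marked points** (used for one component): the Galois group is trivial.  Proof: by 21
the indicator function of one translate is the reduction of a function regular off the poles of `x`,
and also of one regular off the zeros of `x`; by 11 it is constant.  (H84Iner) -/
theorem trivial_group [Fintype ι] [Nonempty ι] [IsAlgClosed K] [H3RR.IsFF K F'] [IsAlgClosed k]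
    [H3RR.IsFF k κ] [FiniteDimensional F F'] [IsGalois F F'] {W : ι → Comp A π F' κ} {x : F}
    {Sig : Type*} [Fintype Sig] [IsEmpty Sig] {n : ℕ} {b : Fin n → F'}
    (hπ : Function.Surjective π) (hA : ∀ a b : A, π a = 0 → b ≠ 0 → ∃ n : ℕ, b ∣ a ^ n)
    (H : CovHyp W x) (hb : IsFrame (trans (F := F) W) (algebraMap F F' x) b) (m : Marks W x Sig)
    {c : Sig → F' ≃ₐ[F] F'} (hc : GluedBy m c)
    (hgen : genusFF K F' + Fintype.card ι * Nat.card (F' ≃ₐ[F] F') ≤
      1 + Nat.card (F' ≃ₐ[F] F') * Fintype.card Sig +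
        Fintype.card ι * Nat.card (F' ≃ₐ[F] F') * genusFF k κ) (g : F' ≃ₐ[F] F') : g = 1 :=
  GluedBy.eq_one hπ hA H hb m hc hgen g

/-- **23. Two components**: the quotients `c_σ c_τ⁻¹` generate the Galois group.  Proof: as in 22,
with the indicator function of a coset of the subgroup generated by them.  (H84Iner) -/
theorem quotients_generate [IsAlgClosed K] [H3RR.IsFF K F'] [IsAlgClosed k] [H3RR.IsFF k κ]
    [FiniteDimensional F F'] [IsGalois F F'] {W : Bool → Comp A π F' κ} {x : F} {Sig : Type*}
    [Fintype Sig] {n : ℕ} {b : Fin n → F'} (hπ : Function.Surjective π)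
    (hA : ∀ a b : A, π a = 0 → b ≠ 0 → ∃ n : ℕ, b ∣ a ^ n) (H : CovHyp W x)
    (hb : IsFrame (trans (F := F) W) (algebraMap F F' x) b) (m : Marks W x Sig)
    {c : Sig → F' ≃ₐ[F] F'} (hc : GluedBy m c) (hl : ∀ σ, (m.lft σ).1 = false)
    (hr : ∀ σ, (m.rgt σ).1 = true)
    (hgen : genusFF K F' + Fintype.card Bool * Nat.card (F' ≃ₐ[F] F') ≤
      1 + Nat.card (F' ≃ₐ[F] F') * Fintype.card Sig +
        Fintype.card Bool * Nat.card (F' ≃ₐ[F] F') * genusFF k κ) :
    Subgroup.closure {g | ∃ σ τ : Sig, g = c σ * (c τ)⁻¹} = ⊤ :=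
  GluedBy.closure_eq_top hπ hA H hb m hc hl hr hgen

/-- **24. Inertia centralises.**  Two components.  Let `τ` be a semilinear endomorphism of `F'`
which normalises the Galois group, maps the component `W false` to itself and `W true` to itself up
to the element `d` of the Galois group, acting trivially on the reductions in both cases; moreover
`τ x` is integral over `K[x]`, so that `τ` preserves regularity off the poles of `x`.  Then `τ`
commutes with the Galois group.  Proof: by 21 the gluing elements are unique; this gives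
`τ c_σ = c_σ d⁻¹ τ` for all `σ`, so `τ` commutes with the quotients in 23.  (H84Iner) -/
theorem inertia_centralises [IsAlgClosed K] [H3RR.IsFF K F'] [IsAlgClosed k] [H3RR.IsFF k κ]
    [FiniteDimensional F F'] [IsGalois F F'] {W : Bool → Comp A π F' κ} {x : F} {Sig : Type*}
    [Fintype Sig] {n : ℕ} {b : Fin n → F'} (hπ : Function.Surjective π)
    (hA : ∀ a b : A, π a = 0 → b ≠ 0 → ∃ n : ℕ, b ∣ a ^ n) (H : CovHyp W x)
    (hb : IsFrame (trans (F := F) W) (algebraMap F F' x) b) (m : Marks W x Sig)
    {c : Sig → F' ≃ₐ[F] F'} (hc : GluedBy m c) (hl : ∀ σ, (m.lft σ).1 = false)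
    (hr : ∀ σ, (m.rgt σ).1 = true)
    (hgen : genusFF K F' + Fintype.card Bool * Nat.card (F' ≃ₐ[F] F') ≤
      1 + Nat.card (F' ≃ₐ[F] F') * Fintype.card Sig +
        Fintype.card Bool * Nat.card (F' ≃ₐ[F] F') * genusFF k κ)
    (τ : F' →+* F') (τ₀ : K → K) (hτ₀ : ∀ c, τ (algebraMap K F' c) = algebraMap K F' (τ₀ c))
    (hτx : IsIntegral (Algebra.adjoin K {algebraMap F F' x}) (τ (algebraMap F F' x)))
    (hτG : ∀ g : F' ≃ₐ[F] F', ∃ g' : F' ≃ₐ[F] F', ∀ φ, g (τ φ) = τ (g' φ))
    (d : F' ≃ₐ[F] F')
    (h₁ : ∀ φ ∈ (W false).V, τ φ ∈ (W false).V ∧ (W false).red (τ φ) = (W false).red φ)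
    (h₂ : ∀ φ ∈ (W true).V, d⁻¹ (τ φ) ∈ (W true).V ∧
      (W true).red (d⁻¹ (τ φ)) = (W true).red φ) (g : F' ≃ₐ[F] F') (φ : F') :
    τ (g φ) = g (τ φ) :=
  GluedBy.centralises hπ hA H hb m hc hl hr hgen τ τ₀ hτ₀ hτx hτG d h₁ h₂ g φ

/-! ## 5. The two theorems on Kummer classes -/

/-- **25. Good reduction.**  `K` algebraically closed of characteristic zero with an archimedean
valuation ring `A`, residue field `k` algebraically closed of characteristic `p`; one component `C`
with residue field `κ`, `[F : K(x)] ≤ [κ : k(x̄)]` and `g(F) ≤ g(κ)` (this is good reduction).  If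
`w ≠ 0` has divisor divisible by `p` and is close to a `p`-th power at `C` then `w` is a `p`-th
power.  Proof: apply 16, 17 and 22 to `S = {w}`.  (H84Main; GuideOrdinary, Theorem 17) -/
theorem good_reduction [IsAlgClosed K] [CharZero K] [H3RR.IsFF K F] [IsAlgClosed k]
    [H3RR.IsFF k κ] {p : ℕ} [Fact p.Prime] [CharP k p] (hπ : Function.Surjective π)
    (hA : ∀ a b : A, π a = 0 → b ≠ 0 → ∃ n : ℕ, b ∣ a ^ n) (C : Comp A π F κ) {x : F}
    (hx : x ∈ C.V) (hxt : Transcendental k (C.red x)) (hsurj : ∀ t, ∃ f ∈ C.V, C.red f = t)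
    (hdeg : finrank K⟮x⟯ F ≤ finrank k⟮C.red x⟯ κ) (hgen : genusFF K F ≤ genusFF k κ)
    {ζ : K} (hζ : IsPrimitiveRoot ζ p) {w : F} (hw0 : w ≠ 0)
    (hdiv : ∀ v : Place K F, (p : ℤ) ∣ v.ord w)
    (hclose : ∃ y z : F, y ≠ 0 ∧ z ∈ C.V ∧ C.red z = 0 ∧
      w * y ^ p = 1 + algebraMap K F (ζ - 1) ^ p * z) :
    ∃ u : F, u ^ p = w :=
  exists_root_of_close hπ hA C hx hxt hsurj hdeg hgen hζ hw0 hdiv hclose

/-- **26. Semistable reduction with two components.**  Two incomparable components `C false` and
`C true` of `F` with the same residue field `κ` and `[F : K(x)] ≤ Σ [κ : k(x̄_i)]`; points `l σ` of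
the first and `r σ` of the second one, all different, where `x̄_i` is regular and not zero, and
where the reductions of integral functions without poles off `x = 0, ∞` have the same values; and
`g(F) + 1 ≤ #Sig + 2 g(κ)`.  Let `S` be a set of functions whose divisors are divisible by `p`,
finite modulo `p`-th powers, close to `p`-th powers at both components, and stable under the
semilinear automorphism `τ` (over `τ₀ : K → K`), which preserves both components, acts trivially on
the reductions and maps `x` to an element integral over `K[x]`.  If `τ₀ ζ = ζ^a` then `τ w / w^a` is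
a `p`-th power for every `w ∈ S`.  Proof: 16, 17, 20; by 24 a suitable lift of `τ` to the Kummer
cover commutes with its Galois group.  (H84Main, H84Lift.  For the two-component reductions of
GuideBadRed: H84TwoSS, H84TwoSS2; for `X_0(Mp)`: H84SSp, H84Vv; GuideOrdinary, Theorem 18) -/
theorem semistable_reduction [IsAlgClosed K] [CharZero K] [H3RR.IsFF K F] [IsAlgClosed k]
    [H3RR.IsFF k κ] {p : ℕ} [Fact p.Prime] [CharP k p] (hπ : Function.Surjective π)
    (hA : ∀ a b : A, π a = 0 → b ≠ 0 → ∃ n : ℕ, b ∣ a ^ n) {C : Bool → Comp A π F κ} {x : F}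
    (hx : ∀ i, x ∈ (C i).V) (hxt : ∀ i, Transcendental k ((C i).red x))
    (hdist : ∀ i j, i ≠ j → ∃ φ, φ ∈ (C i).V ∧ φ ∉ (C j).V)
    (hsurj : ∀ i t, ∃ f ∈ (C i).V, (C i).red f = t)
    (hdeg : finrank K⟮x⟯ F ≤ ∑ i, finrank k⟮(C i).red x⟯ κ)
    {Sig : Type*} [Fintype Sig] (l r : Sig → Place k κ) (hl : Function.Injective l)
    (hr : Function.Injective r)
    (hlx : ∀ σ, (l σ).adicValuation ((C false).red x) = 1)
    (hrx : ∀ σ, (r σ).adicValuation ((C true).red x) = 1)
    (hglue : ∀ σ, ∀ φ : F, (∀ i, φ ∈ (C i).V) →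
      (∀ v : Place K F, v.adicValuation x = 1 → v.adicValuation φ ≤ 1) →
      ev (l σ) ((C false).red φ) = ev (r σ) ((C true).red φ))
    (hgen : genusFF K F + 2 ≤ 1 + Fintype.card Sig + 2 * genusFF k κ)
    {ζ : K} (hζ : IsPrimitiveRoot ζ p) {S : Set F} (hS0 : ∀ w ∈ S, w ≠ 0)
    (hdiv : ∀ w ∈ S, ∀ v : Place K F, (p : ℤ) ∣ v.ord w)
    (hfin : ∃ T : Finset F, ∀ w ∈ S, ∃ t ∈ T, ∃ f : F, w = t * f ^ p)
    (hclose : ∀ w ∈ S, ∀ i, Close (C i) p (ζ - 1) w)
    {τ : F ≃+* F} {τ₀ : K → K} (hτ₀ : ∀ c, τ (algebraMap K F c) = algebraMap K F (τ₀ c))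
    (hτA : ∀ a : A, τ₀ a ∈ A) (hτπ : ∀ a : A, π ⟨τ₀ a, hτA a⟩ = π a)
    (hτV : ∀ i f, f ∈ (C i).V ↔ τ f ∈ (C i).V) (hτr : ∀ i f, (C i).red (τ f) = (C i).red f)
    (hτx : IsIntegral (Algebra.adjoin K {x}) (τ x))
    (hτS : ∀ w ∈ S, τ w ∈ S) (hτS' : ∀ w ∈ S, τ.symm w ∈ S) {a : ℕ} (ha : τ₀ ζ = ζ ^ a)
    {w : F} (hw : w ∈ S) : ∃ u : F, u ^ p = τ w / w ^ a :=
  inertia_kummer hπ hA ⟨hx, hxt, hdist, hsurj, hdeg⟩
    { lft := fun σ => (false, l σ)
      rgt := fun σ => (true, r σ)
      inj := Function.Injective.sumElim (fun _ _ h => hl (congrArg Prod.snd h))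
        (fun _ _ h => hr (congrArg Prod.snd h)) fun _ _ h => Bool.noConfusion (congrArg Prod.fst h)
      lft_reg := hlx
      rgt_reg := hrx
      glue := hglue }
    (fun _ => rfl) (fun _ => rfl) hgen hζ hS0 hdiv hfin hclose ⟨hτ₀, hτA, hτπ, hτV, hτr⟩ hτx
    hτS hτS' ha hw

end Fermat.Agent.Guide.Frames
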