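import Fermat.Agent.H84SSp

/-!
# Guide: steps of the proofs behind GuideFrames

Companion of GuideFrames (same setting, same notation): the lemmas from which the theorems of that
file are put together, and the application to curves whose reduction has two components.
Statements served: S33 and S44, and through them S01, S03, S04, S06, S38, S39, S40, S43, S45, S46,
S50, S59 and S60; Theorems 1, 4, 6, 7 and 9 to 14 also serve S09, S12, S15, S34, S35 and S58,
Theorems 1, 6, 7, 10 to 13 and 15 also S36 (and 15 also S58).  NOTES.md: [90] NOTES-FRAMES.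
Related files: GuideGaussSeries (the same ideas for `q`-expansions), GuideTwoComponents (the frames
of `X_0(mq)`), GuideTwoSheets, GuideBadRed and GuideBadRedSteps (curves with two components).  The
library files which contain the proofs are named in parentheses.

**Setting** (as in GuideFrames).  `K` is a field with a valuation ring `A` and a surjection
`π : A → k`; `F/K` is a function field; `C : Comp A π F κ` is a component: a valuation ring `C.V` of
`F` above `A` with a reduction map `C.red` to a function field `κ/k`, extended by `0` to all of `F`.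
`B C` is the ring of the functions which are integral at all components of a family `C`.
`ResTrans C x` means: `x` is integral and its reduction `x̄_i = (C i).red x` is transcendental over
`k` at every component.  `Arch A π` means that `A` has rank at most one: every nonzero element of
`A` divides a power of every element of the maximal ideal.  `ev v f` is the value of `f` at the
place `v`.

**The file in one page.**

1. (Section 1) Values.  Polynomials in a residually transcendental `x` have the value of their
   largest coefficient; this is the reason why components have the value group of `K`.  Weak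
   approximation for finitely many components is proved by separating two of them, then one from
   all others.
2. (Section 2) Orthonormal families.  A family of integral functions whose reductions are
   independent over `k` is orthonormal: a `K`-linear combination is integral only if its
   coefficients are.  Subspaces have orthonormal bases, by Cramer's rule.  With a frame this gives
   integral equations with coefficients in `A[x]`, and with them the behaviour of poles.
3. (Section 3) The steps of the proof of connectedness.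
4. (Section 4) Kummer covers: finiteness, automorphisms, components with different translates do
   not need a larger residue field, divisors.
5. (Section 5) Gluing: Riemann-Roch gives functions with prescribed values at the marked points, so
   the gluing conditions are independent; the Galois group acts transitively on the components
   above a component and on the points above a point.
6. (Section 6) Curves with two components meeting in the points of a finite set (GuideBadRed): a
   coordinate `x` of degree at most `2n` which reduces to functions of degree `n`, the marked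
   points, and their number.  By GuideFrames, Theorem 26, inertia acts on the Kummer classes
   through the cyclotomic character.

Checked on the proof terms: every library theorem cited in this file is used in the proof of S01.
-/

set_option autoImplicit false

open AlgebraicCurve WithZero Polynomial IntermediateField Module Fermat.Agent.H84

namespace Fermat.Agent.Guide.FramesSteps

variable {K k : Type*} [Field K] [Field k] {A : ValuationSubring K} {π : A →+* k}
  {F F' κ : Type*} [Field F] [Algebra K F] [Field F'] [Algebra K F'] [Field κ] [Algebra k κ]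
  [Algebra F F'] [IsScalarTower K F F'] {ι : Type*}

/-! ## 1. Values and approximation -/

/-- **0. Notation.**  (H84Approx, H84Frame, H84Conn) -/
theorem notation_iff (C : ι → Comp A π F κ) (x f : F) :
    (f ∈ B C ↔ ∀ i, f ∈ (C i).V) ∧
    (ResTrans C x ↔ ∀ i, x ∈ (C i).V ∧ Transcendental k ((C i).red x)) ∧
    (Arch A π ↔ ∀ a b : A, π a = 0 → b ≠ 0 → ∃ n : ℕ, b ∣ a ^ n) :=
  ⟨mem_B C, Iff.rfl, Iff.rfl⟩

/-- **1. Primitive polynomials.**  A nonzero polynomial over `K` is a constant times a polynomial
over `A` with nonzero reduction; and the reduction of `P(x)`, `P ∈ A[X]`, is `P̄(x̄)`.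
(H84Frame) -/
theorem primitive_polynomials (C : Comp A π F κ) {x : F} (hx : x ∈ C.V) :
    (∀ Q : K[X], Q ≠ 0 → ∃ (c : K) (P : A[X]), c ≠ 0 ∧ Q = Polynomial.C c * P.map A.subtype ∧
      P.map π ≠ 0) ∧
    ∀ P : A[X], C.red (aeval x (P.map A.subtype)) = aeval (C.red x) (P.map π) :=
  ⟨fun _ hQ => exists_primitive hQ, fun P => C.red_aeval hx P⟩

/-- **2. The value of a polynomial in `x`** is the value of a constant, if `x̄` is transcendental:
write the polynomial as in 1; the value of the second factor is `1`.  (H84Value) -/
theorem value_of_polynomial (C : Comp A π F κ) {x : F} (hx : x ∈ C.V)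
    (hxt : Transcendental k (C.red x)) {p : K[X]} (hp : p ≠ 0) :
    ∃ c : K, c ≠ 0 ∧ C.V.valuation (aeval x p) = C.V.valuation (algebraMap K F c) :=
  C.valuation_aeval hx hxt hp

/-- **3. Equations.**  Every `y ∈ F` satisfies an equation `Σ p_l(x) y^l = 0` with polynomials
`p_l ∈ K[X]`, not all `0`.  Two of the terms have the same largest value; so by 2 some power of `y`
has the value of a constant, and, since `K` is algebraically closed, so does `y` (GuideFrames,
Theorem 2).  (H84Value) -/
theorem polynomial_relation {x : F} (hx : Transcendental K x) [FiniteDimensional K⟮x⟯ F] (y : F) :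
    ∃ (n : ℕ) (p : Fin n → K[X]), ∑ l, aeval x (p l) * y ^ (l : ℕ) = 0 ∧ ∃ l, p l ≠ 0 :=
  Comp.exists_poly_relation hx y

/-- **4. Comparable components are equal**, if every nonzero function has a multiple by a constant
with nonzero reduction at the smaller ring.  Proof: if `f` is in the larger ring only and `c f` is
a unit of the smaller one, then `c` is in the maximal ideal of `A`, so `c f` is not a unit of the
larger ring.  (H84Value) -/
theorem comparable_equal (hπ : Function.Surjective π) {C₁ C₂ : Comp A π F κ}
    (h₁ : ∀ f : F, f ≠ 0 → ∃ c : K, c ≠ 0 ∧ C₁.red (algebraMap K F c * f) ≠ 0)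
    (h : C₁.V ≤ C₂.V) : C₁.V = C₂.V :=
  Comp.Scalable.eq_of_le hπ h₁ h

/-- **5. Nonconstant reductions.**  Every nonconstant function `f` has a transform `a (f - c)` with
nonconstant reduction.  Used in the proof of connectedness.  (H84Value) -/
theorem nonconstant_reduction [IsAlgClosed K] {C : Comp A π F κ}
    (hC : ∀ f : F, f ≠ 0 → ∃ c : K, c ≠ 0 ∧ C.red (algebraMap K F c * f) ≠ 0) {x : F}
    (hx : x ∈ C.V) (hxt : Transcendental k (C.red x)) {f : F} (hf : Transcendental K f)
    [FiniteDimensional K⟮f⟯ F] :
    ∃ a c : K, a ≠ 0 ∧ C.red (algebraMap K F a * (f - algebraMap K F c)) ∉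
      Set.range (algebraMap k κ) :=
  Comp.Scalable.exists_translate hC hx hxt hf

/-- **6. Denominators**: `a` is a function, the `C i` are finitely many components.  There is a
function `u`, integral at all of them, such that `a u` is integral at all of them, and the reduction
of `u` at `C i` is not `0` if `a` is integral at `C i`, is `1` if moreover the reduction of `a` is
`0`, and is `0` if `a` is not integral.  Proof: take `u = 1 / (1 + c a)` with a suitable constant
`c`.  (H84Approx) -/
theorem denominators [Finite ι] [Infinite k] (C : ι → Comp A π F κ) (hπ : Function.Surjective π)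
    (a : F) :
    ∃ u : F, ∀ i, u ∈ (C i).V ∧ a * u ∈ (C i).V ∧ (a ∈ (C i).V → (C i).red u ≠ 0) ∧
      (a ∈ (C i).V → (C i).red a = 0 → (C i).red u = 1) ∧
      (a ∉ (C i).V → (C i).red u = 0) :=
  exists_denominator C hπ a

/-- **7. Separation**: if the finitely many components are pairwise incomparable then for every `i`
some function, integral at all components, reduces to `1` at `C i` and to `0` at all others.  Proof:
two incomparable components are separated with 6; multiply.  Multiplying with preimages of the
`t i`, made integral with 6, gives weak approximation (GuideFrames, Theorem 4).  (H84Approx) -/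
theorem separation [Finite ι] [Infinite k] {C : ι → Comp A π F κ} (hπ : Function.Surjective π)
    (hC : ∀ i j, i ≠ j → ¬ (C i).V ≤ (C j).V) (i : ι) :
    (∀ j, j ≠ i → ∃ e : F, (∀ l, e ∈ (C l).V) ∧ (C i).red e = 1 ∧ (C j).red e = 0) ∧
    ∃ e : F, (∀ l, e ∈ (C l).V) ∧ (C i).red e = 1 ∧ ∀ j, j ≠ i → (C j).red e = 0 := by
  refine ⟨fun j hj => ?_, ?_⟩
  · obtain ⟨e, he, h⟩ := exists_sep_pair hπ (hC i j hj.symm) (hC j i hj)
    exact ⟨e, (mem_B C).mp he, h⟩
  · obtain ⟨e, he, h⟩ := exists_sep hπ hC i
    exact ⟨e, (mem_B C).mp he, h⟩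

/-! ## 2. Orthonormal families and frames -/

/-- **8. Orthonormal families.**  If the functions `u j` are integral at all components and their
tuples of reductions are linearly independent over `k`, then a combination `Σ c_j u_j`, `c_j ∈ K`,
is integral at all components only if all `c_j ∈ A`; in particular the `u j` are linearly
independent over `K`.  Proof: divide by the coefficient of largest value and reduce.  (H84Frame) -/
theorem orthonormal (C : ι → Comp A π F κ) (hπ : Function.Surjective π) {J : Type*} [Fintype J]
    (u : J → F) (hu : ∀ j i, u j ∈ (C i).V)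
    (hind : LinearIndependent k (fun j i => (C i).red (u j))) :
    (∀ c : J → K, (∀ i, ∑ j, algebraMap K F (c j) * u j ∈ (C i).V) → ∀ j, c j ∈ A) ∧
      LinearIndependent K u :=
  ⟨fun c h j => coeff_mem_of_sum_mem C hπ u (fun j => (mem_B C).mpr (hu j)) hind c
      ((mem_B C).mpr h) j,
    linearIndependent_of_red C hπ u (fun j => (mem_B C).mpr (hu j)) hind⟩

/-- **9. Reduced bases.**  Every subspace of `K^J` has a basis of vectors with coordinates in `A` in
reduced form: there are positions `p m` where the `m`-th vector has coordinate `1` and the others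
`0`.  Proof: multiply the matrix of a basis by the inverse of a maximal minor of largest value
(Cramer's rule; GuideGaussSeries, `maximal_minor`).  So every subspace `W` of a space with an
orthonormal basis has an orthonormal basis.  (H42Gauss, H84Frame) -/
theorem reduced_basis (C : ι → Comp A π F κ) {J : Type*} [Fintype J] :
    (∀ W : Submodule K (J → K), ∃ (d : ℕ) (w : Fin d → J → A) (p : Fin d → J),
      Submodule.span K (Set.range fun (m : Fin d) (j : J) => (w m j : K)) = W ∧
        ∀ m m', w m (p m') = if m = m' then 1 else 0) ∧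
    ∀ u : J → F, (∀ j i, u j ∈ (C i).V) →
      LinearIndependent k (fun j i => (C i).red (u j)) →
      ∀ W : Submodule K F, W ≤ Submodule.span K (Set.range u) →
      ∃ (d : ℕ) (w : Fin d → F), (∀ m i, w m ∈ (C i).V) ∧ Submodule.span K (Set.range w) = W ∧
        LinearIndependent k (fun m i => (C i).red (w m)) := by
  refine ⟨fun W => H42.exists_lattice_basis A W, fun u hu hind W hW => ?_⟩
  obtain ⟨d, w, h1, h2, h3⟩ := exists_basis_of_le C u (fun j => (mem_B C).mpr (hu j)) hind W hW
  exact ⟨d, w, fun m => (mem_B C).mp (h1 m), h2, h3⟩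

/-- **10. Independence lifts to `K(x)`**: the tuples of reductions of the integral functions `b j`
are independent over `k[X]` (`X` acts at `C i` as multiplication by `x̄_i`); then the `b j` are
independent over `K[x]`.  (H84Frame) -/
theorem independence_lifts {C : ι → Comp A π F κ} {x : F} {J : Type*} [Fintype J] {b : J → F}
    (hx : ResTrans C x) (hb : ∀ j, b j ∈ B C)
    (hind : ∀ q : J → k[X], (∀ i, ∑ j, aeval ((C i).red x) (q j) * (C i).red (b j) = 0) → q = 0)
    (p : J → K[X]) (h : ∑ j, aeval x (p j) * b j = 0) : p = 0 :=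
  poly_ind hx hb hind p h

open Classical in
/-- **11. Lifting bases of the residue fields.**  `β j ∈ κ` is the reduction of a function at the
component `C (τ j)`, and the `β j` at the same component are independent over `k[x̄]`.  There are
functions `b j`, integral at all components, which reduce to `β j` at `C (τ j)` and to `0` at the
others, and whose tuples of reductions are independent over `k[X]`.  With 10 this proves the
fundamental inequality (GuideFrames, Theorem 5).  (H84Frame) -/
theorem lift_bases (C : ι → Comp A π F κ) (x : F) [Finite ι] [Infinite k]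
    (hπ : Function.Surjective π) (hC : ∀ i j, i ≠ j → ¬ (C i).V ≤ (C j).V) {J : Type*} [Fintype J]
    (τ : J → ι) (β : J → κ) (hβ : ∀ j, ∃ f ∈ (C (τ j)).V, (C (τ j)).red f = β j)
    (hind : ∀ q : J → k[X],
      (∀ i, ∑ j, (if τ j = i then aeval ((C i).red x) (q j) * β j else 0) = 0) → q = 0) :
    ∃ b : J → F, (∀ j, b j ∈ B C) ∧ (∀ j i, (C i).red (b j) = if τ j = i then β j else 0) ∧
      ∀ q : J → k[X], (∀ i, ∑ j, aeval ((C i).red x) (q j) * (C i).red (b j) = 0) → q = 0 :=
  exists_lift_family C x hπ hC τ β hβ hind

/-- **12. Frames by counting**: a family of `[F : K(x)]` integral functions whose reductions are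
independent over `k[X]` is a frame.  (H84Frame) -/
theorem frame_of_card {C : ι → Comp A π F κ} {x : F} [Nonempty ι] {J : Type*} [Fintype J]
    {b : J → F} (hx : ResTrans C x) [FiniteDimensional K⟮x⟯ F] (hb : ∀ j, b j ∈ B C)
    (hind : ∀ q : J → k[X], (∀ i, ∑ j, aeval ((C i).red x) (q j) * (C i).red (b j) = 0) → q = 0)
    (hcard : finrank K⟮x⟯ F ≤ Fintype.card J) : IsFrame C x b :=
  isFrame_of_card hx hb hind hcard

/-- **13. The residue fields are not larger.**  `κ₀ → κ` is a field between `k` and `κ` which
contains the `x̄_i` (as `x₀ i`) and is contained in the images of the residue maps.  If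
`[F : K(x)] ≤ Σ [κ₀ : k(x₀ i)]` then every function reduces into `κ₀`.  Otherwise one could add an
element to the lifted basis in 11, against 10.  (H84Frame) -/
theorem residue_fields (C : ι → Comp A π F κ) (x : F) {κ₀ : Type*} [Field κ₀] [Algebra k κ₀]
    (j₀ : κ₀ →ₐ[k] κ) (x₀ : ι → κ₀) [Fintype ι] [Infinite k] (hπ : Function.Surjective π)
    (hC : ∀ i j, i ≠ j → ¬ (C i).V ≤ (C j).V) (hx : ResTrans C x)
    (hx₀ : ∀ i, j₀ (x₀ i) = (C i).red x) (hj₀ : ∀ i t, ∃ f ∈ (C i).V, (C i).red f = j₀ t)
    [FiniteDimensional K⟮x⟯ F] [∀ i, FiniteDimensional k⟮x₀ i⟯ κ₀]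
    (hsum : finrank K⟮x⟯ F ≤ ∑ i, finrank k⟮x₀ i⟯ κ₀) (i : ι) {f : F} (hf : f ∈ (C i).V) :
    ∃ t : κ₀, j₀ t = (C i).red f :=
  image_le_range_of_sum C x j₀ x₀ hπ hC hx hx₀ hj₀ hsum i ⟨f, hf, rfl⟩

/-- **14. Common denominators.**  With a frame `b`, finitely many functions `f s` have a common
denominator `P(x)`, `P ∈ A[X]` with nonzero reduction: `P(x) f_s = Σ p_{s j}(x) b_j`.  The functions
`x^a b_j`, `a < M`, are orthonormal; so 9 gives orthonormal bases of all finite dimensional spaces
(GuideFrames, Theorem 8).  (H84Basis) -/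
theorem common_denominator {C : ι → Comp A π F κ} {x : F} {J : Type*} [Fintype J] {b : J → F}
    (hb : IsFrame C x b) :
    (∀ {S : Type} [Fintype S] (f : S → F), ∃ (P : A[X]) (p : S → J → K[X]), P.map π ≠ 0 ∧
      ∀ s, aeval x (P.map A.subtype) * f s = ∑ j, aeval x (p s j) * b j) ∧
    ∀ M : ℕ, LinearIndependent k
      (fun (y : Fin M × J) i => (C i).red x ^ (y.1 : ℕ) * (C i).red (b y.2)) :=
  ⟨fun f => hb.exists_common_denominator f, fun M => hb.linearIndependent_monomials M⟩

/-- **15. Integral equations.**  With a frame: let `f` be integral at all components and integral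
over `K[x]`.  Then `f` satisfies a monic equation over `A[x]`; so the reduction of `f` is integral
over `k[x̄_i]`.  Proof: by 8 and 14 the matrix of the multiplication by `f` with respect to the
frame has entries which are integral at the components.  So `f` is integral over the ring of these
elements of `K(x)`, and over `K[x]`: the coefficients of its minimal polynomial over `K(x)` lie in
both rings, and by 1 they are of the form `P(x)` with `P ∈ A[X]`.  (H84Int) -/
theorem integral_equation {C : ι → Comp A π F κ} {x : F} {J : Type*} [Fintype J] {b : J → F}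
    [Nonempty ι] (hπ : Function.Surjective π) (hx : ResTrans C x) (hb : IsFrame C x b) {f : F}
    (hf : f ∈ B C) (hint : IsIntegral (Algebra.adjoin K {x}) f) :
    (∃ (d : ℕ) (P : Fin d → A[X]),
      f ^ d + ∑ m : Fin d, aeval x ((P m).map A.subtype) * f ^ (m : ℕ) = 0) ∧
    ∀ i, IsIntegral (Algebra.adjoin k {(C i).red x}) ((C i).red f) :=
  ⟨hb.exists_monic hπ hx hf hint, fun i => hb.isIntegral_red hπ hx hf hint i⟩

/-- **16. Integral means regular**: `f` is integral over `K[x]` if and only if it has no poles off
the poles of `x`.  This translates 15 into the statement on poles (GuideFrames, Theorem 10).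
(H84Red) -/
theorem integral_iff_regular [H3RR.IsFF K F] {x f : F} :
    IsIntegral (Algebra.adjoin K {x}) f ↔
      ∀ v : Place K F, v.adicValuation x ≤ 1 → v.adicValuation f ≤ 1 :=
  isIntegral_iff_forall_le_one

/-- **17. Pole divisors.**  A frame for `x` is a frame for `x⁻¹`; with both, the reductions of the
integral elements of `L(N (x)_∞)` lie in `L(N (x̄_i)_∞)`.  (H84Red) -/
theorem reduction_of_L {C : ι → Comp A π F κ} {x : F} {J : Type*} [Fintype J] {b : J → F}
    [Nonempty ι] [IsAlgClosed K] [H3RR.IsFF K F] [IsAlgClosed k] [H3RR.IsFF k κ]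
    (hπ : Function.Surjective π) (hx : ResTrans C x) (hb : IsFrame C x b) :
    IsFrame C x⁻¹ b ∧ ∀ {f : F}, f ∈ B C → ∀ {N : ℕ},
      f ∈ riemannRochSpace (N • H3RR.poleDiv x : Divisor K F) → ∀ i,
      (C i).red f ∈ riemannRochSpace (N • H3RR.poleDiv ((C i).red x) : Divisor k κ) :=
  ⟨hb.inv hx, fun hf _ hfN i => hb.red_mem_L hπ hx hf hfN i⟩

/-! ## 3. Connectedness -/

/-- **18. High powers kill.**  `A` of rank one: if `t` has reduction `0` at `C` and `g` is any
function, then `t^n g` has reduction `0` for all large `n`.  (H84Conn) -/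
theorem powers_kill (hπ : Function.Surjective π) (arch : Arch A π) {C : Comp A π F κ}
    (hC : ∀ f : F, f ≠ 0 → ∃ c : K, c ≠ 0 ∧ C.red (algebraMap K F c * f) ≠ 0) {t : F}
    (ht : t ∈ C.V) (ht0 : C.red t = 0) (g : F) :
    ∃ N : ℕ, ∀ n ≥ N, t ^ n * g ∈ C.V ∧ C.red (t ^ n * g) = 0 :=
  Comp.Scalable.exists_pow_kill hπ arch hC ht ht0 g

/-- **19. Scaling at several components**: every `f ≠ 0` has a multiple `a⁻¹ f` which is integral at
the components in the nonempty finite set `Z` and has nonzero reduction at one of them.
(H84Conn) -/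
theorem scaling {C : ι → Comp A π F κ}
    (hS : ∀ i, ∀ f : F, f ≠ 0 → ∃ c : K, c ≠ 0 ∧ (C i).red (algebraMap K F c * f) ≠ 0)
    (Z : Finset ι) (hZ : Z.Nonempty) {f : F} (hf : f ≠ 0) :
    ∃ a : K, a ≠ 0 ∧ (∀ i ∈ Z, algebraMap K F a⁻¹ * f ∈ (C i).V) ∧
      ∃ i ∈ Z, (C i).red (algebraMap K F a⁻¹ * f) ≠ 0 :=
  exists_scale_family hS Z hZ hf

/-- **20. Values at a point `P` with `x(P) = 1`.**  A function `f` which is integral at all
components and regular off `x = 0, ∞` has its value at `P` in `A`, and in the maximal ideal if its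
reductions are all `0`.  Proof: put `x = 1` in the monic equation (15) of `x^N f`; for the second
statement divide `f` by a constant as in 19.  (H84Conn) -/
theorem value_at_point {C : ι → Comp A π F κ} {x : F} {J : Type*} [Fintype J] {b : J → F}
    [IsAlgClosed K] [H3RR.IsFF K F] [Finite ι] [Nonempty ι] {P : Place K F}
    (hπ : Function.Surjective π) (hx : ResTrans C x) (hb : IsFrame C x b)
    (hS : ∀ i, ∀ f : F, f ≠ 0 → ∃ c : K, c ≠ 0 ∧ (C i).red (algebraMap K F c * f) ≠ 0)
    (hP : P.adicValuation (x - 1) < 1) {f : F} (hf : f ∈ B C)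
    (hreg : ∀ v : Place K F, v.adicValuation x = 1 → v.adicValuation f ≤ 1) :
    ∃ h : ev P f ∈ A, (∀ i, (C i).red f = 0) → π ⟨ev P f, h⟩ = 0 := by
  have hm := hb.ev_mem hπ hx hP hf hreg
  refine ⟨hm, fun h0 => ?_⟩
  have h1 := hb.red_ev_eq_zero hπ hx hS hP hf hreg h0
  rwa [Comp.red_of_mem (baseComp hπ) (f := ev P f) hm] at h1

open Classical in
/-- **21. Indicator functions.**  If `c` lies in a subalgebra of `k^ι`, `ι` finite, then so does the
indicator function of each set `{c = a}`.  Applied to the algebra of the families of constants which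
are the common reductions of a function `e` regular off the poles of `x` and of a function `e'`
regular off the zeros of `x`.  (H84Conn) -/
theorem indicator [Finite ι] (S : Subalgebra k (ι → k)) {c : ι → k} (hc : c ∈ S) (a : k) :
    (fun i => if c i = a then (1 : k) else 0) ∈ S :=
  indicator_mem S hc a

/-- **22. Functions with one pole**: every point `P` is the only pole of some nonconstant function.
(H84Conn, by Riemann-Roch) -/
theorem one_pole [IsAlgClosed K] [H3RR.IsFF K F] (P : Place K F) :
    ∃ f : F, Transcendental K f ∧ ∀ v : Place K F, v ≠ P → v.adicValuation f ≤ 1 :=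
  exists_nonconst_pole P

/-! ## 4. Kummer covers -/

/-- **23. Roots of unity of order `p` reduce to `1`**, if `k` has characteristic `p`.
(H84Close) -/
theorem root_of_unity {p : ℕ} {ζ : K} [Fact p.Prime] [CharP k p] (hζ : ζ ^ p = 1) :
    ∃ h : ζ ∈ A, π ⟨ζ, h⟩ = 1 :=
  ⟨_, pi_root hζ⟩

/-- **24. The Kummer field** `Kum p S = F(w^{1/p} : w ∈ S)`: it is finite over `F` if `S` is finite
modulo `p`-th powers; it contains a `p`-th root of every `w ∈ S`; an automorphism over `F` which
fixes all these roots is the identity; and a ring automorphism `τ` of `F` with `τ S = S` extends to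
it.  (H84Kum) -/
theorem kummer_field {p : ℕ} {S : Set F} (hp : p ≠ 0)
    (h : ∃ T : Finset F, ∀ w ∈ S, ∃ t ∈ T, ∃ f : F, w = t * f ^ p) :
    FiniteDimensional F (Kum p S) ∧
    (∀ w ∈ S, ∃ y : Kum p S, y ^ p = algebraMap F (Kum p S) w) ∧
    (∀ g : Kum p S ≃ₐ[F] Kum p S,
      (∀ w ∈ S, ∀ y : Kum p S, y ^ p = algebraMap F (Kum p S) w → g y = y) → g = 1) ∧
    ∀ τ : F ≃+* F, (∀ w ∈ S, τ w ∈ S) → (∀ w ∈ S, τ.symm w ∈ S) →
      ∃ τ' : Kum p S ≃+* Kum p S,
        ∀ f, τ' (algebraMap F (Kum p S) f) = algebraMap F (Kum p S) (τ f) :=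
  ⟨finiteDimensional_kum hp h, fun _ hw => exists_root_kum hp hw, fun _ hg => kum_aut_eq_one hg,
    fun τ h1 h2 => exists_lift_kum τ h1 h2⟩

/-- **25. Components which split.**  `F'/F` is a finite Galois extension, `C i` are components of
`F` as in GuideFrames, Theorem 16, and `C' i` is a component of `F'` above `C i` with values in a
larger field `Ω`.  If the translates of each `C' i` by the Galois group are different, then all
`C' i` have residue field `κ`: there are components `W i` with the same valuation rings and with
values in `κ`, which reduce functions on `F` in the same way as `C i`, and satisfy the conditions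
`CovHyp` (GuideFrames, Theorem 15).  Proof: the translates are incomparable, and
`#G · Σ [κ : k(x̄_i)] ≥ [F' : K(x)]` for the Galois group `G`; apply 13.  (H84Ext) -/
theorem split_components {Ω : Type*} [Fintype ι] [Field Ω] [Algebra k Ω] [Algebra κ Ω]
    [IsScalarTower k κ Ω] [IsAlgClosed K] [IsAlgClosed k] [H3RR.IsFF K F'] [H3RR.IsFF k κ]
    [FiniteDimensional F F'] [IsGalois F F'] (hπ : Function.Surjective π) {C : ι → Comp A π F κ}
    {x : F} (hx : ∀ i, x ∈ (C i).V) (hxt : ∀ i, Transcendental k ((C i).red x))
    (hdist : ∀ i j, i ≠ j → ∃ φ, φ ∈ (C i).V ∧ φ ∉ (C j).V)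
    (hsurj : ∀ i t, ∃ f ∈ (C i).V, (C i).red f = t)
    (hdeg : finrank K⟮x⟯ F ≤ ∑ i, finrank k⟮(C i).red x⟯ κ) {C' : ι → Comp A π F' Ω}
    (hmem : ∀ i (f : F), algebraMap F F' f ∈ (C' i).V ↔ f ∈ (C i).V)
    (hred : ∀ i (f : F), (C' i).red (algebraMap F F' f) = algebraMap κ Ω ((C i).red f))
    (split : ∀ i (g : F' ≃ₐ[F] F'), g ≠ 1 → ∃ φ, φ ∈ (C' i).V ∧ g φ ∉ (C' i).V) :
    ∃ W : ι → Comp A π F' κ, (∀ i, (W i).V = (C' i).V) ∧
      (∀ i f, (W i).red (algebraMap F F' f) = (C i).red f) ∧ CovHyp W x := by
  obtain ⟨W, h1, h2, h3⟩ :=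
    exists_cover hπ ⟨hx, hxt, hdist, hsurj, hdeg⟩ (fun i => ⟨hmem i, hred i⟩) split
  exact ⟨W, h1, h2.red, h3⟩

/-- **26. Frames upstairs.**  `W` satisfies `CovHyp`.  All translates of all `W i` are pairwise
incomparable; `[F' : K(x)] = [F : K(x)] [F' : F]`, and for the family of all translates there is a
frame.  (H84CovBase, H84Count) -/
theorem frames_upstairs [Fintype ι] {W : ι → Comp A π F' κ} {x : F} (H : CovHyp W x)
    [IsAlgClosed K] [Infinite k] [H3RR.IsFF K F'] [H3RR.IsFF k κ] [FiniteDimensional F F']
    [IsGalois F F'] [Nonempty ι] (hπ : Function.Surjective π) :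
    (∀ p q : ι × (F' ≃ₐ[F] F'), p ≠ q → ¬ (trans W p).V ≤ (trans W q).V) ∧
    finrank K⟮algebraMap F F' x⟯ F' = finrank K⟮x⟯ F * finrank F F' ∧
    ∃ (n : ℕ) (b : Fin n → F'), IsFrame (trans (F := F) W) (algebraMap F F' x) b :=
  ⟨H.incomparable hπ, finrank_adjoin_algebraMap x, H.exists_frame hπ⟩

/-- **27. Divisors.**  If the divisor of `h` is divisible by `p` then it is `p D` with `deg D = 0`;
and `y^p ∈ L(p D)` implies `y ∈ L(D)`.  With these two facts one constructs the subspace of `L(D)`
upstairs in the proof of the genus inequality (GuideFrames, Theorem 17).  (H84KumG) -/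
theorem divisors [IsAlgClosed K] [H3RR.IsFF K F] {p : ℕ} (hp : p ≠ 0) :
    (∀ h : F, h ≠ 0 → (∀ v : Place K F, (p : ℤ) ∣ v.ord h) →
      ∃ D : Divisor K F, Divisor.degree D = 0 ∧ ∀ v, v.ord h = p * D v) ∧
    ∀ (y : F) (D : Divisor K F), y ^ p ∈ riemannRochSpace (p • D) → y ∈ riemannRochSpace D :=
  ⟨fun _ hh hd => exists_divisor_div hp hh hd, fun _ _ h => mem_L_of_pow_mem hp h⟩

/-! ## 5. Gluing -/

/-- **28. Prescribed values.**  Let `D` be a divisor which is `0` at the finitely many places in `Z`
and of degree at least `2g + #Z`.  There are functions in `L(D)` with arbitrary values at the places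
in `Z`.  (H84Glue, by Riemann-Roch) -/
theorem prescribed_values [IsAlgClosed k] [H3RR.IsFF k κ] (D : Divisor k κ)
    (Z : Finset (Place k κ)) (hD : ∀ s ∈ Z, D s = 0)
    (hdeg : 2 * (genusFF k κ : ℤ) + Z.card ≤ Divisor.degree D) (c : Place k κ → k) :
    ∃ y ∈ riemannRochSpace D, ∀ s ∈ Z, ev s y = c s :=
  exists_values D Z hD hdeg c

/-- **29. The gluing conditions are independent.**  The tuples `t` with `t (i, g) ∈ L(N (x̄_i)_∞)`
which satisfy the gluing conditions for the marked points `m : Marks W x Sig` (GuideFrames,
Theorem 18) and the elements `c σ` form the space `glueSub m c N`.  For large `N` its dimension is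
at most the sum of the dimensions (`H3RR.ell`) of these spaces `L(D)` minus the number `#Sig · #G`
of conditions, by 28.  This bound and Riemann-Roch on `F'` give the counting theorem (GuideFrames,
Theorem 21).  (H84Glue) -/
theorem independent_conditions [IsAlgClosed k] [H3RR.IsFF k κ] {W : ι → Comp A π F' κ} {x : F}
    {Sig : Type*} [Fintype ι] [Fintype Sig] [FiniteDimensional F F'] (H : CovHyp W x)
    (m : Marks W x Sig) (c : Sig → F' ≃ₐ[F] F') {N : ℕ}
    (hN : 2 * genusFF k κ + 2 * Fintype.card Sig ≤ N) :
    finrank k (glueSub m c N) + Fintype.card Sig * Nat.card (F' ≃ₐ[F] F') ≤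
      ∑ i, Nat.card (F' ≃ₐ[F] F') * H3RR.ell
        (N • H3RR.poleDiv ((W i).red (algebraMap F F' x)) : Divisor k κ) :=
  (finrank_glueSub_le H m c hN).2

/-- **30. Points above glued points.**  `s` and `s'` are points of the components `i` and `j`, where
`x̄` is regular and not `0`, and functions on `F` (integral at all components, regular off
`x = 0, ∞`) have the same values there.  Then for a suitable element `c` of the Galois group every
such function `φ` on `F'` (`regRing`) has the same value at `s` as `c⁻¹ φ` at `s'`.  Proof: let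
`χ φ` be the value of `φ` at `s`, `χ_c φ` that of `c⁻¹ φ` at `s'`; these are homomorphisms from
`regRing` to `k` (the reductions of its elements are regular where `x̄` is regular and not `0`),
equal to `π` on `A`.  If `χ ≠ χ_c` for all `c`, the kernel of `χ` is not contained in that of any
`χ_c`, so by prime avoidance `χ φ = 0` and `χ_c φ ≠ 0` for all `c` for some `φ`.  Then the norm of
`φ` to `F` has the value `0` at `s`, but not at `s'`.  (H84Count, H84CovBase) -/
theorem points_above [Fintype ι] [Nonempty ι] [IsAlgClosed K] [H3RR.IsFF K F] [H3RR.IsFF K F']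
    [IsAlgClosed k] [H3RR.IsFF k κ] [FiniteDimensional F F'] [IsGalois F F']
    {W : ι → Comp A π F' κ} {x : F} {n : ℕ} {b : Fin n → F'} (hπ : Function.Surjective π)
    (H : CovHyp W x) (hb : IsFrame (trans (F := F) W) (algebraMap F F' x) b) (i j : ι)
    {s s' : Place k κ} (hs : s.adicValuation ((W i).red (algebraMap F F' x)) = 1)
    (hs' : s'.adicValuation ((W j).red (algebraMap F F' x)) = 1)
    (hglue : ∀ φ : F, (∀ l, algebraMap F F' φ ∈ (W l).V) →
      (∀ v : Place K F, v.adicValuation x = 1 → v.adicValuation φ ≤ 1) →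
      ev s ((W i).red (algebraMap F F' φ)) = ev s' ((W j).red (algebraMap F F' φ))) :
    ∃ c : F' ≃ₐ[F] F', ∀ φ ∈ regRing W x, ev s ((W i).red φ) = ev s' ((W j).red (c⁻¹ φ)) :=
  exists_glue hπ H hb i j hs hs' hglue

/-- **31. Uniqueness of the gluing elements**, under the genus condition of the counting theorem:
if `d` has the property of `c σ` for the functions regular off the poles of `x`, then `d = c σ`.
Proof: by the counting theorem there is a function with value `1` at `m.lft σ` and at the point
glued with it, and `0` at all other marked points of all translates.  (H84Glue2) -/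
theorem gluing_unique [Fintype ι] [Nonempty ι] [IsAlgClosed K] [H3RR.IsFF K F'] [IsAlgClosed k]
    [H3RR.IsFF k κ] [FiniteDimensional F F'] [IsGalois F F'] {W : ι → Comp A π F' κ} {x : F}
    {Sig : Type*} [Fintype Sig] {n : ℕ} {b : Fin n → F'} (hπ : Function.Surjective π)
    (H : CovHyp W x) (hb : IsFrame (trans (F := F) W) (algebraMap F F' x) b) (m : Marks W x Sig)
    {c : Sig → F' ≃ₐ[F] F'} (hc : GluedBy m c)
    (hgen : genusFF K F' + Fintype.card ι * Nat.card (F' ≃ₐ[F] F') ≤
      1 + Nat.card (F' ≃ₐ[F] F') * Fintype.card Sig +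
        Fintype.card ι * Nat.card (F' ≃ₐ[F] F') * genusFF k κ) {σ : Sig} {d : F' ≃ₐ[F] F'}
    (hd : ∀ φ ∈ B (trans (F := F) W),
      (∀ v : Place K F', v.adicValuation (algebraMap F F' x) ≤ 1 → v.adicValuation φ ≤ 1) →
      ev (m.lft σ).2 ((W (m.lft σ).1).red φ) = ev (m.rgt σ).2 ((W (m.rgt σ).1).red (d⁻¹ φ))) :
    d = c σ :=
  GluedBy.unique hπ H hb m hc hgen hd

/-- **32. Transitivity on components.**  Every component `D` of `F'` above `C i` is a translate of
`W i`, with the same reductions.  Proof: otherwise `D` and the translates of all `W j` contradict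
the fundamental inequality; the two reduction maps agree because every element of `κ` is the
reduction of a function on `F`.  (H84Lift) -/
theorem transitivity [Fintype ι] {W : ι → Comp A π F' κ} {x : F} [IsAlgClosed K] [IsAlgClosed k]
    [H3RR.IsFF K F'] [H3RR.IsFF k κ] [FiniteDimensional F F'] [IsGalois F F']
    (hπ : Function.Surjective π) (H : CovHyp W x) {C : ι → Comp A π F κ}
    (hm : ∀ i f, algebraMap F F' f ∈ (W i).V ↔ f ∈ (C i).V)
    (hr : ∀ i f, (W i).red (algebraMap F F' f) = (C i).red f)
    (hC : ∀ i t, ∃ f ∈ (C i).V, (C i).red f = t) (i : ι) (D : Comp A π F' κ)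
    (hDm : ∀ f : F, algebraMap F F' f ∈ D.V ↔ f ∈ (C i).V)
    (hDr : ∀ f : F, D.red (algebraMap F F' f) = (C i).red f) :
    ∃ g : F' ≃ₐ[F] F', ∀ φ, (φ ∈ D.V ↔ g φ ∈ (W i).V) ∧ D.red φ = (W i).red (g φ) :=
  exists_translate_eq hπ H ⟨hm, hr⟩ hC i D hDm hDr

/-- **33. Central lifts.**  `F'/F` is a finite Galois extension with two split components, gluing
elements `c σ`, and the genus condition (as in GuideFrames, Theorem 24); `τ` is a ring automorphism
of `F` which preserves both components of `F`, acts trivially on the reductions and maps `x` to an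
element integral over `K[x]`.  If `τ` extends to `F'`, then it has an extension to `F'` which
commutes with the Galois group.  Proof: an extension `τ'` normalises the
Galois group; by 32 one can change it by an element of the Galois group so that it preserves
`W false`, and it preserves `W true` up to an element `d`; apply GuideFrames, Theorem 24.
(H84Lift) -/
theorem central_lift {x : F} {Sig : Type*} {W : Bool → Comp A π F' κ} [IsAlgClosed K]
    [H3RR.IsFF K F'] [IsAlgClosed k] [H3RR.IsFF k κ] [Fintype Sig] [FiniteDimensional F F']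
    [IsGalois F F'] {n : ℕ} {b : Fin n → F'} (hπ : Function.Surjective π) (arch : Arch A π)
    (H : CovHyp W x) (hb : IsFrame (trans (F := F) W) (algebraMap F F' x) b) (m : Marks W x Sig)
    {c : Sig → F' ≃ₐ[F] F'} (hc : GluedBy m c) (hl : ∀ σ, (m.lft σ).1 = false)
    (hr : ∀ σ, (m.rgt σ).1 = true)
    (hgen : genusFF K F' + Fintype.card Bool * Nat.card (F' ≃ₐ[F] F') ≤
      1 + Nat.card (F' ≃ₐ[F] F') * Fintype.card Sig +
        Fintype.card Bool * Nat.card (F' ≃ₐ[F] F') * genusFF k κ)
    {C : Bool → Comp A π F κ} (hm : ∀ i f, algebraMap F F' f ∈ (W i).V ↔ f ∈ (C i).V)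
    (hred : ∀ i f, (W i).red (algebraMap F F' f) = (C i).red f)
    (hC : ∀ i t, ∃ f ∈ (C i).V, (C i).red f = t)
    {τ : F ≃+* F} {τ₀ : K → K} (hτ₀ : ∀ c, τ (algebraMap K F c) = algebraMap K F (τ₀ c))
    (hτA : ∀ a : A, τ₀ a ∈ A) (hτπ : ∀ a : A, π ⟨τ₀ a, hτA a⟩ = π a)
    (hτV : ∀ i f, f ∈ (C i).V ↔ τ f ∈ (C i).V) (hτr : ∀ i f, (C i).red (τ f) = (C i).red f)
    (hτx : IsIntegral (Algebra.adjoin K {x}) (τ x))
    (τ' : F' ≃+* F') (hτ' : ∀ f, τ' (algebraMap F F' f) = algebraMap F F' (τ f)) :
    ∃ τ'' : F' ≃+* F', (∀ f, τ'' (algebraMap F F' f) = algebraMap F F' (τ f)) ∧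
      ∀ (g : F' ≃ₐ[F] F') φ, τ'' (g φ) = g (τ'' φ) :=
  exists_central_lift hπ arch H hb m hc hl hr hgen ⟨hm, hred⟩ hC ⟨hτ₀, hτA, hτπ, hτV, hτr⟩ hτx
    τ' hτ'

/-! ## 6. Two components -/

section Two

open Fermat.Agent.H89SS (TwoComp)

-- `T : TwoComp K F k κ A π q` is a two-component reduction (GuideBadRed, `twoComp`).
variable {q : ℕ} (T : TwoComp K F k κ A π q)

/-- **34. Good coordinates** of a two-component reduction `T : TwoComp K F k κ A π q` (GuideBadRed:
valuation rings `V₁`, `V₂` with reductions to the same field `κ`, cusps `P₁`, `P₂`, `P`, Frobenius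
`fr`, and the finite set `T.SS hπ` of the glued places `v`: the place `v` of the first component is
glued with `fr v` on the second one): a function `x` with poles of order at most `n` at `P₁` and
`P₂` and no others, whose reductions have a pole of order `n` at `P` and no others, and have equal
values, not `0`, at glued places.  There are such coordinates for arbitrarily large `n`.  Here
`comp₁ T` and `comp₂ T` are the two components in the sense of GuideFrames; `comps T` is the family
of both.  (H84TwoSS) -/
theorem good_coordinates [IsAlgClosed K] [IsAlgClosed k] [H3RR.IsFF K F] [H3RR.IsFF k κ]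
    [IsLocalHom π] (hπ : Function.Surjective π) (hq : 2 ≤ q) (n₀ : ℕ) :
    ∃ n ≥ n₀, ∃ x : F, 0 < n ∧ x ∈ T.V₁ ∧ x ∈ T.V₂ ∧
      x ∈ riemannRochSpace
        (Finsupp.single T.P₁ (n : ℤ) + Finsupp.single T.P₂ (n : ℤ) : Divisor K F) ∧
      T.P.adicValuation ((comp₁ T).red x) = exp (n : ℤ) ∧
      T.P.adicValuation ((comp₂ T).red x) = exp (n : ℤ) ∧
      (∀ v, v ≠ T.P → v.adicValuation ((comp₁ T).red x) ≤ 1 ∧
        v.adicValuation ((comp₂ T).red x) ≤ 1) ∧
      ∀ v ∈ T.SS hπ, v.adicValuation ((comp₁ T).red x) = 1 ∧
        (T.fr • v).adicValuation ((comp₂ T).red x) = 1 ∧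
        ev v ((comp₁ T).red x) = ev (T.fr • v) ((comp₂ T).red x) := by
  obtain ⟨n, hn, x, hx⟩ := exists_coord T hπ hq n₀
  exact ⟨n, hn, x, hx.pos, hx.h₁, hx.h₂, hx.L, hx.pole₁, hx.pole₂,
    fun v hv => ⟨hx.reg₁ v hv, hx.reg₂ v hv⟩,
    fun v hv => ⟨hx.mark₁ v hv, hx.mark₂ v hv, hx.val_eq v hv⟩⟩

/-- **35. The number of glued places** is `g(F) + 1 - 2 g(κ)`: this is the genus condition of
GuideFrames, Theorem 26.  Proof: compare the dimension of the reductions of `L(n P₁ + n P₂)` with
that of the pairs in `L(n P)²` with equal values at glued places.  (H84TwoSS) -/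
theorem number_of_glued_places [IsAlgClosed K] [IsAlgClosed k] [H3RR.IsFF K F] [H3RR.IsFF k κ]
    [IsLocalHom π] (hπ : Function.Surjective π) (hq : 2 ≤ q) :
    genusFF K F + 1 = (T.finite_SS hπ hq).toFinset.card + 2 * genusFF k κ :=
  card_SS T hπ hq

/-- **36. Properties of good coordinates** `x` (`GoodCoord` is the structure with the conditions in
34): the degree of `x` is at most `2n`, its reductions have degree `n`, so that the inequality of
GuideFrames, Theorem 7, holds; `x` is regular exactly off `P₁` and `P₂`; functions which are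
integral at both components and regular off `P₁`, `P₂` have the same values at glued places.
(H84TwoSS) -/
theorem properties_of_good_coordinates [IsAlgClosed K] [IsAlgClosed k] [H3RR.IsFF K F]
    [H3RR.IsFF k κ] (hπ : Function.Surjective π) {x : F} {n : ℕ} (hx : GoodCoord T hπ x n) :
    finrank K⟮x⟯ F ≤ 2 * n ∧ (∀ i, finrank k⟮(comps T i).red x⟯ κ = n) ∧
    (∀ v : Place K F, v.adicValuation x ≤ 1 ↔ v ≠ T.P₁ ∧ v ≠ T.P₂) ∧
    ∀ φ : F, φ ∈ T.V₁ → φ ∈ T.V₂ →
      (∀ v : Place K F, v.adicValuation x ≤ 1 → v.adicValuation φ ≤ 1) →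
      ((comp₁ T).red φ, (comp₂ T).red φ) ∈ T.glueRing hπ :=
  ⟨hx.finrank_le, hx.finrank_eq, hx.le_one_iff, fun _ h₁ h₂ h => hx.glued h₁ h₂ h⟩

/-- **37. The set of functions.**  If the `p`-torsion of the group `Pic0` of divisor classes of
degree `0` is finite, then any set of functions with divisors divisible by `p` is finite modulo
`p`-th powers: `w` is determined up to a `p`-th power by the class of `div(w)/p`.  And a
semilinear automorphism `τ` which preserves the components and acts trivially on the reductions
preserves closeness to `p`-th powers.  (H84TwoSS2) -/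
theorem finite_and_stable [IsAlgClosed K] [H3RR.IsFF K F] {p : ℕ} (hp : p ≠ 0) :
    ({x : Pic0 K F | p • x = 0}.Finite → ∀ S : Set F, (∀ w ∈ S, w ≠ 0) →
      (∀ w ∈ S, ∀ v : Place K F, (p : ℤ) ∣ v.ord w) →
      ∃ U : Finset F, ∀ w ∈ S, ∃ t ∈ U, ∃ f : F, w = t * f ^ p) ∧
    ∀ (C : ι → Comp A π F κ) (τ : F ≃+* F) (τ₀ : K → K),
      (∀ c, τ (algebraMap K F c) = algebraMap K F (τ₀ c)) →
      (∀ a : A, ∃ h : τ₀ a ∈ A, π ⟨τ₀ a, h⟩ = π a) →
      (∀ i f, f ∈ (C i).V ↔ τ f ∈ (C i).V) → (∀ i f, (C i).red (τ f) = (C i).red f) →
      ∀ ζ : K, IsPrimitiveRoot ζ p → ∀ i w, Close (C i) p (ζ - 1) w →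
        Close (C i) p (ζ - 1) (τ w) :=
  ⟨fun hJ _ hS0 hdiv => finMod_of_torsion hp hJ hS0 hdiv,
    fun _ _ _ h1 h2 h3 h4 _ hζ _ _ hw =>
      Close.map ⟨h1, fun a => (h2 a).1, fun a => (h2 a).2, h3, h4⟩ hp hζ hw⟩

/-- **38. Inertia acts on Kummer classes through the cyclotomic character**, at a prime `q` equal to
the residue characteristic.  `g` is a semilinear automorphism of `F` which respects both components
and cusps and acts trivially on the reductions (`T.Compat g 1`; GuideBadRed, `compat_iff`); it maps
`ζ` to `ζ ^ a`.  If `w ≠ 0` has divisor divisible by `q` and is close to a `q`-th power at both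
components, then `g w / w^a` is a `q`-th power.  Proof: GuideFrames, Theorem 26, with a good
coordinate `x` (34, 36), the number of glued places (35), and the set `S` of all such functions,
which is finite modulo `q`-th powers and stable under `g` and `g⁻¹` (37).  The function `g x` is
integral over `K[x]`, because `g` respects the cusps, so that `g x` has no poles off `P₁` and `P₂`.
(H84TwoSS, H84TwoSS2) -/
theorem inertia_on_kummer_classes [IsAlgClosed K] [CharZero K] [IsAlgClosed k] [H3RR.IsFF K F]
    [H3RR.IsFF k κ] [Fact q.Prime] [CharP k q] (hπ : Function.Surjective π)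
    (arch : ∀ a b : A, π a = 0 → b ≠ 0 → ∃ n : ℕ, b ∣ a ^ n)
    (hJ : {x : Pic0 K F | q • x = 0}.Finite) {g : SemilinearAut K F} (hg : T.Compat g 1)
    {ζ : K} (hζ : IsPrimitiveRoot ζ q) {a : ℕ} (ha : SemilinearAut.baseAut g ζ = ζ ^ a) {w : F}
    (hw0 : w ≠ 0) (hdiv : ∀ v : Place K F, (q : ℤ) ∣ v.ord w)
    (hc₁ : Close (comp₁ T) q (ζ - 1) w) (hc₂ : Close (comp₂ T) q (ζ - 1) w) :
    ∃ u : F, u ^ q = (g • w) / w ^ a :=
  smul_eq_of_twoComp hπ arch hJ hg hζ ha hw0 hdiv hc₁ hc₂

end Two

end Fermat.Agent.Guide.FramesSteps
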