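import Mathlib

set_option autoImplicit false

/-! # Three collinear points on a Weierstrass curve, and `x`-coordinate addition formulae -/

namespace Fermat.Agent.H05

open WeierstrassCurve WeierstrassCurve.Affine Polynomial

variable {K : Type*} [Field K] [DecidableEq K] {W : WeierstrassCurve.Affine K}

/-- The line through three points summing to zero. -/
theorem exists_line {x₁ y₁ x₂ y₂ x₃ y₃ : K} {h₁ : W.Nonsingular x₁ y₁}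
    {h₂ : W.Nonsingular x₂ y₂} {h₃ : W.Nonsingular x₃ y₃}
    (h : Point.some x₁ y₁ h₁ + Point.some x₂ y₂ h₂ + Point.some x₃ y₃ h₃ = 0) :
    ∃ ℓ ν : K, y₁ = ℓ * x₁ + ν ∧ y₂ = ℓ * x₂ + ν ∧ y₃ = ℓ * x₃ + ν ∧
      x₁ + x₂ + x₃ = ℓ ^ 2 + W.a₁ * ℓ - W.a₂ ∧
      x₁ * x₂ + x₁ * x₃ + x₂ * x₃ = W.a₄ - 2 * ℓ * ν - W.a₃ * ℓ - W.a₁ * ν ∧
      x₁ * x₂ * x₃ = ν ^ 2 + W.a₃ * ν - W.a₆ := by
  have hne : ¬(x₁ = x₂ ∧ y₁ = W.negY x₂ y₂) := by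
    rintro ⟨hx, hy⟩
    rw [Point.add_of_Y_eq hx hy, zero_add] at h
    exact Point.some_ne_zero _ h
  have h12 := Point.add_some hne (h₁ := h₁) (h₂ := h₂)
  have h3 : Point.some x₃ y₃ h₃ = -(Point.some x₁ y₁ h₁ + Point.some x₂ y₂ h₂) :=
    (neg_eq_of_add_eq_zero_right h).symm
  rw [h12, Point.neg_some, Point.some.injEq] at h3
  obtain ⟨hx3, hy3⟩ := h3
  rw [addY, negY_negY] at hy3
  set ℓ := W.slope x₁ x₂ y₁ y₂ with hℓ
  have hpoly := addPolynomial_slope h₁.1 h₂.1 hne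
  rw [← hℓ, addPolynomial_eq, neg_inj, Cubic.prod_X_sub_C_eq, Cubic.toPoly_injective] at hpoly
  rw [Cubic.mk.injEq] at hpoly
  obtain ⟨-, h2, h1, h0⟩ := hpoly
  rw [← hx3] at h2 h1 h0
  have hy2 : y₂ = ℓ * (x₂ - x₁) + y₁ := by
    by_cases hx : x₁ = x₂
    · have hy : y₁ ≠ W.negY x₂ y₂ := fun h => hne ⟨hx, h⟩
      have := Y_eq_of_Y_ne h₁.1 h₂.1 hx hy
      subst hx
      subst this
      ring
    · rw [hℓ, slope_of_X_ne hx]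
      have : x₁ - x₂ ≠ 0 := sub_ne_zero.mpr hx
      field_simp
      ring
  refine ⟨ℓ, y₁ - ℓ * x₁, by ring, by rw [hy2]; ring, ?_, ?_, ?_, ?_⟩
  · rw [hy3, hx3, negAddY]; ring
  · linear_combination h2
  · linear_combination -h1
  · linear_combination h0

/-- Sum formula for the `x`-coordinates of `P + Q` and `P - Q`. -/
theorem addX_add_addX {x y X Y : K} (h1 : W.Equation x y) (h2 : W.Equation X Y) (hx : x ≠ X) :
    (W.addX x X (W.slope x X y Y) + W.addX x X (W.slope x X y (W.negY X Y))) * (x - X) ^ 2 =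
      2 * x * X * (x + X) + (W.a₁ ^ 2 + 4 * W.a₂) * x * X + (2 * W.a₄ + W.a₁ * W.a₃) * (x + X)
        + (W.a₃ ^ 2 + 4 * W.a₆) := by
  rw [equation_iff] at h1 h2
  have hx' : x - X ≠ 0 := sub_ne_zero.mpr hx
  rw [slope_of_X_ne hx, slope_of_X_ne hx, addX, addX, negY]
  have e : ∀ z : K, (((y - z) / (x - X)) ^ 2 + W.a₁ * ((y - z) / (x - X)) - W.a₂ - x - X)
      = ((y - z) ^ 2 + W.a₁ * (y - z) * (x - X) - (W.a₂ + x + X) * (x - X) ^ 2) / (x - X) ^ 2 := by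
    intro z; field_simp; ring
  rw [e, e, ← add_div, div_mul_cancel₀ _ (pow_ne_zero 2 hx')]
  grind

/-- Product formula for the `x`-coordinates of `P + Q` and `P - Q`. -/
theorem addX_mul_addX {x y X Y : K} (h1 : W.Equation x y) (h2 : W.Equation X Y) (hx : x ≠ X) :
    (W.addX x X (W.slope x X y Y) * W.addX x X (W.slope x X y (W.negY X Y))) * (x - X) ^ 2 =
      (x * X) ^ 2 - (2 * W.a₄ + W.a₁ * W.a₃) * (x * X) - (W.a₃ ^ 2 + 4 * W.a₆) * (x + X)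
        - (W.a₁ ^ 2 * W.a₆ + 4 * W.a₂ * W.a₆ - W.a₁ * W.a₃ * W.a₄ + W.a₂ * W.a₃ ^ 2
            - W.a₄ ^ 2) := by
  rw [equation_iff] at h1 h2
  have hx' : x - X ≠ 0 := sub_ne_zero.mpr hx
  have hx2 : (x - X) ^ 2 ≠ 0 := pow_ne_zero 2 hx'
  rw [slope_of_X_ne hx, slope_of_X_ne hx, addX, addX, negY]
  have e : ∀ z : K, (((y - z) / (x - X)) ^ 2 + W.a₁ * ((y - z) / (x - X)) - W.a₂ - x - X)
      = ((y - z) ^ 2 + W.a₁ * (y - z) * (x - X) - (W.a₂ + x + X) * (x - X) ^ 2) / (x - X) ^ 2 := by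
    intro z; field_simp; ring
  rw [e, e]
  have key : ((y-Y)^2 + W.a₁*(y-Y)*(x-X) - (W.a₂+x+X)*(x-X)^2)
      * ((y-(-Y-W.a₁*X-W.a₃))^2 + W.a₁*(y-(-Y-W.a₁*X-W.a₃))*(x-X) - (W.a₂+x+X)*(x-X)^2)
      = (x-X)^2*((x*X)^2 - (2*W.a₄+W.a₁*W.a₃)*(x*X) - (W.a₃^2+4*W.a₆)*(x+X)
        - (W.a₁^2*W.a₆+4*W.a₂*W.a₆ - W.a₁*W.a₃*W.a₄+W.a₂*W.a₃^2-W.a₄^2)) := by
    grind
  rw [div_mul_div_comm, key]
  field_simp

/-- Duplication formula. -/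
theorem addX_self {X Y : K} (h2 : W.Equation X Y) (hy : Y ≠ W.negY X Y) :
    W.addX X X (W.slope X X Y Y) *
      (4 * X ^ 3 + (W.a₁ ^ 2 + 4 * W.a₂) * X ^ 2 + 2 * (2 * W.a₄ + W.a₁ * W.a₃) * X
        + (W.a₃ ^ 2 + 4 * W.a₆)) =
      X ^ 4 - (2 * W.a₄ + W.a₁ * W.a₃) * X ^ 2 - 2 * (W.a₃ ^ 2 + 4 * W.a₆) * X
        - (W.a₁ ^ 2 * W.a₆ + 4 * W.a₂ * W.a₆ - W.a₁ * W.a₃ * W.a₄ + W.a₂ * W.a₃ ^ 2
            - W.a₄ ^ 2) := by
  rw [equation_iff] at h2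
  rw [slope_of_Y_ne rfl hy, addX]
  have hd : Y - W.negY X Y ≠ 0 := sub_ne_zero.mpr hy
  have hψ : (4 * X ^ 3 + (W.a₁ ^ 2 + 4 * W.a₂) * X ^ 2 + 2 * (2 * W.a₄ + W.a₁ * W.a₃) * X
        + (W.a₃ ^ 2 + 4 * W.a₆)) = (Y - W.negY X Y) ^ 2 := by
    rw [negY]; linear_combination (-4) * h2
  rw [hψ]
  set d := Y - W.negY X Y with hdd
  have hd' : d = 2 * Y + W.a₁ * X + W.a₃ := by rw [hdd, negY]; ring
  field_simp
  rw [hd']
  grind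

omit [DecidableEq K] in
/-- The discriminant-like `2`-division relation for a point of order two. -/
theorem psi_two_sq {X Y : K} (h2 : W.Equation X Y) :
    (4 * X ^ 3 + (W.a₁ ^ 2 + 4 * W.a₂) * X ^ 2 + 2 * (2 * W.a₄ + W.a₁ * W.a₃) * X
        + (W.a₃ ^ 2 + 4 * W.a₆)) = (Y - W.negY X Y) ^ 2 := by
  rw [equation_iff] at h2
  rw [negY]; linear_combination (-4) * h2

end Fermat.Agent.H05
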