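import Mathlib
import Fermat.Agent.H05_Line

set_option autoImplicit false

/-! # No prime-to-residue-characteristic torsion in the kernel of reduction -/

namespace Fermat.Agent.H05

open WeierstrassCurve WeierstrassCurve.Affine

variable {K : Type*} [Field K]

theorem aux_prod {x X r i P b4 b6 b8 : K} (hr : r * x = X) (hi : i * X = 1)
   (h : P * (x - X) ^ 2 = (x * X) ^ 2 - b4 * (x * X) - b6 * (x + X) - b8) :
   P * (1 - r) ^ 2 * i ^ 2 = 1 - b4 * r * i ^ 2 - b6 * (r ^ 2 + r) * i ^ 3 - b8 * r ^ 2 * i ^ 4 := by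
  have h1 : P * (1 - r) ^ 2 * i ^ 2 = (P * (x - X) ^ 2) * r ^ 2 * i ^ 4 := by
    have e : (x - X) * r * i = 1 - r := by
      linear_combination i * hr + (1 - r) * hi
    have : P * (1 - r) ^ 2 * i ^ 2 = P * ((x - X) * r * i) ^ 2 * i ^ 2 := by rw [e]
    rw [this]; ring
  rw [h1, h]
  have e1 : x * r * i = 1 := by linear_combination i * hr + hi
  have e2 : (x * X) * r * i ^ 2 = 1 := by
    linear_combination (x * r * i) * hi + e1
  have e3 : (x + X) * r * i = 1 + r := by linear_combination e1 + r * hi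
  have : ((x * X) ^ 2 - b4 * (x * X) - b6 * (x + X) - b8) * r ^ 2 * i ^ 4
     = ((x * X) * r * i ^ 2) ^ 2 - b4 * ((x * X) * r * i ^ 2) * r * i ^ 2 - b6 * ((x + X) * r * i) * r * i ^ 3
        - b8 * r ^ 2 * i ^ 4 := by ring
  rw [this, e2, e3]; ring

theorem aux_sum {x X r i S b2 b4 b6 : K} (hr : r * x = X) (hi : i * X = 1)
   (h : S * (x - X) ^ 2 = 2 * x * X * (x + X) + b2 * x * X + b4 * (x + X) + b6) :
   S * (1 - r) ^ 2 * i = 2 * (1 + r) + b2 * r * i + b4 * (r ^ 2 + r) * i ^ 2 + b6 * r ^ 2 * i ^ 3 := by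
  have h1 : S * (1 - r) ^ 2 * i = (S * (x - X) ^ 2) * r ^ 2 * i ^ 3 := by
    have e : (x - X) * r * i = 1 - r := by
      linear_combination i * hr + (1 - r) * hi
    have : S * (1 - r) ^ 2 * i = S * ((x - X) * r * i) ^ 2 * i := by rw [e]
    rw [this]; ring
  rw [h1, h]
  have e1 : x * r * i = 1 := by linear_combination i * hr + hi
  have e2 : (x * X) * r * i ^ 2 = 1 := by
    linear_combination (x * r * i) * hi + e1
  have e3 : (x + X) * r * i = 1 + r := by linear_combination e1 + r * hi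
  have : (2 * x * X * (x + X) + b2 * x * X + b4 * (x + X) + b6) * r ^ 2 * i ^ 3
     = 2 * ((x * X) * r * i ^ 2) * ((x + X) * r * i) + b2 * ((x * X) * r * i ^ 2) * r * i
      + b4 * ((x + X) * r * i) * r * i ^ 2 + b6 * r ^ 2 * i ^ 3 := by ring
  rw [this, e2, e3]; ring

/-- The Weierstrass coefficients lie in the valuation subring `A`. -/
structure CoeffsIn (A : ValuationSubring K) (W : WeierstrassCurve K) : Prop where
  a₁ : W.a₁ ∈ A
  a₂ : W.a₂ ∈ A
  a₃ : W.a₃ ∈ A
  a₄ : W.a₄ ∈ A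
  a₆ : W.a₆ ∈ A

/-- `r = X / x(Q)` (with `r = 0` for `Q = O`) lies in `A` and is congruent to `c`. -/
def Rel (A : ValuationSubring K) {W : WeierstrassCurve.Affine K} (X : K)
    (Q : W.Point) (c : IsLocalRing.ResidueField A) : Prop :=
  ∃ r : A, IsLocalRing.residue A r = c ∧
    match Q with
    | .zero => (r : K) = 0
    | .some x _ _ => (r : K) * x = X

lemma rel_zero {A : ValuationSubring K} {W : WeierstrassCurve.Affine K} {X : K} {c} :
    Rel A X (0 : W.Point) c ↔ c = 0 := by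
  constructor
  · rintro ⟨r, hr, h0⟩
    have : r = 0 := Subtype.ext h0
    rw [← hr, this, map_zero]
  · rintro rfl
    exact ⟨0, map_zero _, rfl⟩

lemma rel_some {A : ValuationSubring K} {W : WeierstrassCurve.Affine K} {X x y : K}
    {h : W.Nonsingular x y} {c} :
    Rel A X (Point.some x y h) c ↔ ∃ r : A, IsLocalRing.residue A r = c ∧ (r : K) * x = X :=
  Iff.rfl

lemma ne_zero_of_residue_ne_zero {A : ValuationSubring K} {D : A}
    (h : IsLocalRing.residue A D ≠ 0) : (D : K) ≠ 0 := by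
  rintro h0
  apply h
  have : D = 0 := Subtype.ext h0
  rw [this, map_zero]

/-- inverse of a unit in the valuation ring -/
lemma exists_inv {A : ValuationSubring K} {D : A}
    (h : IsLocalRing.residue A D ≠ 0) : ∃ E : A, D * E = 1 := by
  have hu : IsUnit D := (IsLocalRing.residue_ne_zero_iff_isUnit D).mp h
  obtain ⟨u, rfl⟩ := hu
  exact ⟨↑u⁻¹, u.mul_inv⟩

/-- inverse of an element outside the valuation ring -/
lemma exists_inv_mem {A : ValuationSubring K} {X : K} (hX : X ∉ A) :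
    ∃ i : A, IsLocalRing.residue A i = 0 ∧ (i : K) = X⁻¹ := by
  have hiA : X⁻¹ ∈ A.nonunits := A.inv_mem_nonunits_iff.mpr (Or.inr hX)
  obtain ⟨him, hi⟩ := (A.mem_nonunits_iff_exists_mem_maximalIdeal).mp hiA
  exact ⟨⟨_, him⟩, (IsLocalRing.residue_eq_zero_iff _).mpr hi, rfl⟩

section

variable [DecidableEq K] {A : ValuationSubring K} {W : WeierstrassCurve.Affine K}

/-- duplication -/
lemma rel_two (hW : CoeffsIn A W) {X Y : K} (hP : W.Nonsingular X Y) (hX : X ∉ A) :
    Rel A X (Point.some X Y hP + Point.some X Y hP) 4 := by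
  have hX0 : X ≠ 0 := by rintro rfl; exact hX A.zero_mem
  obtain ⟨a1, ha1⟩ : ∃ a : A, (a : K) = W.a₁ := ⟨⟨_, hW.a₁⟩, rfl⟩
  obtain ⟨a2, ha2⟩ : ∃ a : A, (a : K) = W.a₂ := ⟨⟨_, hW.a₂⟩, rfl⟩
  obtain ⟨a3, ha3⟩ : ∃ a : A, (a : K) = W.a₃ := ⟨⟨_, hW.a₃⟩, rfl⟩
  obtain ⟨a4, ha4⟩ : ∃ a : A, (a : K) = W.a₄ := ⟨⟨_, hW.a₄⟩, rfl⟩
  obtain ⟨a6, ha6⟩ : ∃ a : A, (a : K) = W.a₆ := ⟨⟨_, hW.a₆⟩, rfl⟩
  obtain ⟨i, hires, hi'⟩ := exists_inv_mem hX
  have hiX : (i : K) * X = 1 := by rw [hi']; exact inv_mul_cancel₀ hX0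
  set E : A := 4 + (a1 ^ 2 + 4 * a2) * i + 2 * (2 * a4 + a1 * a3) * i ^ 2
      + (a3 ^ 2 + 4 * a6) * i ^ 3 with hE
  have hEres : IsLocalRing.residue A E = 4 := by
    rw [hE]; simp only [map_add, map_mul, map_pow, hires]; simp only [map_ofNat]; ring
  set D : A := 1 - (2 * a4 + a1 * a3) * i ^ 2 - 2 * (a3 ^ 2 + 4 * a6) * i ^ 3
      - (a1 ^ 2 * a6 + 4 * a2 * a6 - a1 * a3 * a4 + a2 * a3 ^ 2 - a4 ^ 2) * i ^ 4 with hD
  have hDres : IsLocalRing.residue A D = 1 := by
    rw [hD]; simp [hires]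
  obtain ⟨D', hDD'⟩ := exists_inv (D := D) (by rw [hDres]; exact one_ne_zero)
  have hD'res : IsLocalRing.residue A D' = 1 := by
    have := congrArg (IsLocalRing.residue A) hDD'
    rwa [map_mul, hDres, one_mul, map_one] at this
  have hEK : (E : K) = 4 + (W.a₁ ^ 2 + 4 * W.a₂) * i + 2 * (2 * W.a₄ + W.a₁ * W.a₃) * i ^ 2
      + (W.a₃ ^ 2 + 4 * W.a₆) * i ^ 3 := by
    rw [hE]; push_cast; rw [ha1, ha2, ha3, ha4, ha6]; rfl
  have hDK : (D : K) = 1 - (2 * W.a₄ + W.a₁ * W.a₃) * i ^ 2 - 2 * (W.a₃ ^ 2 + 4 * W.a₆) * i ^ 3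
      - (W.a₁ ^ 2 * W.a₆ + 4 * W.a₂ * W.a₆ - W.a₁ * W.a₃ * W.a₄ + W.a₂ * W.a₃ ^ 2
        - W.a₄ ^ 2) * i ^ 4 := by
    rw [hD]; push_cast; rw [ha1, ha2, ha3, ha4, ha6]; rfl
  have hDD'K : (D : K) * D' = 1 := by exact_mod_cast congrArg (Subtype.val) hDD'
  by_cases hy : Y = W.negY X Y
  · rw [Point.add_self_of_Y_eq hy, rel_zero]
    have h := psi_two_sq hP.1
    rw [← hy, sub_self] at h
    have hE0 : E = 0 := by
      apply Subtype.ext
      rw [hEK]
      show _ = (0 : K)
      have : (i : K) ^ 3 * (4 * X ^ 3 + (W.a₁ ^ 2 + 4 * W.a₂) * X ^ 2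
        + 2 * (2 * W.a₄ + W.a₁ * W.a₃) * X + (W.a₃ ^ 2 + 4 * W.a₆)) = 0 := by rw [h]; ring
      linear_combination this - (4 * ((i : K)^2*X^2 + i * X + 1) + (W.a₁ ^ 2 + 4 * W.a₂) * i * (i * X + 1) + 2 * (2 * W.a₄ + W.a₁ * W.a₃) * i ^2) * hiX
    rw [← hEres, hE0, map_zero]
  · rw [Point.add_self_of_Y_ne hy, rel_some]
    have h := addX_self hP.1 hy
    set x2 := W.addX X X (W.slope X X Y Y) with hx2
    refine ⟨E * D', by rw [map_mul, hEres, hD'res, mul_one], ?_⟩
    push_cast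
    have h3 : (i : K) ^ 4 * (x2 * (4 * X ^ 3 + (W.a₁ ^ 2 + 4 * W.a₂) * X ^ 2
        + 2 * (2 * W.a₄ + W.a₁ * W.a₃) * X + (W.a₃ ^ 2 + 4 * W.a₆))) = D := by
      rw [h, hDK]
      grind
    have h4 : i * (x2 * E) = (D : K) := by
      rw [← h3, hEK]
      grind
    have h5 : x2 * (E : K) = D * X := by
      rw [← h4]
      linear_combination (- x2 * (E : K)) * hiX
    linear_combination (D' : K) * h5 + X * hDD'K

/-- The inductive step. -/
lemma rel_step (hW : CoeffsIn A W) {X Y : K} (hP : W.Nonsingular X Y) (hX : X ∉ A)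
    {Q : W.Point} {n : IsLocalRing.ResidueField A}
    (hR : Rel A X (Q - Point.some X Y hP) ((n - 1) ^ 2))
    (hQ : Rel A X Q (n ^ 2)) :
    Rel A X (Q + Point.some X Y hP) ((n + 1) ^ 2) := by
  have hX0 : X ≠ 0 := by rintro rfl; exact hX A.zero_mem
  rcases Q with _ | ⟨x, y, hQns⟩
  · have h0 : (Point.zero : W.Point) = 0 := rfl
    rw [h0] at hR hQ ⊢
    rw [rel_zero] at hQ
    rw [zero_add, rel_some]
    refine ⟨1, ?_, by simp⟩
    have hn : n = 0 := by simpa using hQ
    rw [hn]; simp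
  · by_cases hx : x = X
    · subst hx
      rw [rel_some] at hQ
      obtain ⟨r, hr, hr'⟩ := hQ
      have hr1 : r = 1 := by
        apply Subtype.ext
        exact mul_right_cancel₀ hX0 (by rw [hr']; simp)
      rw [hr1, map_one] at hr
      rcases Y_eq_of_X_eq hQns.1 hP.1 rfl with hy | hy
      · subst hy
        have h2 := rel_two hW hP hX
        rw [sub_self, rel_zero] at hR
        have hn : n = 1 := by
          have := pow_eq_zero_iff (two_ne_zero) |>.mp hR
          exact sub_eq_zero.mp this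
        rw [hn]
        convert! h2 using 1
        norm_num
      · have hQP : Point.some x y hQns = - Point.some x Y hP := by
          rw [Point.neg_some, Point.some.injEq]; exact ⟨rfl, hy⟩
        have hsum : Point.some x y hQns + Point.some x Y hP = 0 := by
          rw [hQP, neg_add_cancel]
        rw [hsum, rel_zero]
        have h2 := rel_two hW hP hX
        have hneg : Point.some x y hQns - Point.some x Y hP =
            -(Point.some x Y hP + Point.some x Y hP) := by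
          rw [hQP]; abel
        rw [hneg] at hR
        have h4 : (n - 1) ^ 2 = 4 := by
          revert hR h2
          generalize Point.some x Y hP + Point.some x Y hP = T
          rcases T with _ | ⟨x', y', hT⟩
          · intro hR h2
            have h0 : (Point.zero : W.Point) = 0 := rfl
            rw [h0] at h2 hR
            rw [neg_zero, rel_zero] at hR
            rw [rel_zero] at h2
            rw [hR, h2]
          · intro hR h2
            rw [Point.neg_some, rel_some] at hR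
            rw [rel_some] at h2
            obtain ⟨r1, hr1, hr1'⟩ := hR
            obtain ⟨r2, hr2, hr2'⟩ := h2
            have hx' : x' ≠ 0 := by
              rintro rfl
              rw [mul_zero] at hr2'
              exact hX0 hr2'.symm
            have : r1 = r2 := Subtype.ext (mul_right_cancel₀ hx' (hr1'.trans hr2'.symm))
            rw [← hr1, ← hr2, this]
        linear_combination 2 * (-hr) - h4
    · rw [sub_eq_add_neg, Point.neg_some, Point.add_of_X_ne hx, rel_some] at hR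
      rw [rel_some] at hQ
      rw [Point.add_of_X_ne hx, rel_some]
      have hS := addX_add_addX hQns.1 hP.1 hx
      have hPr := addX_mul_addX hQns.1 hP.1 hx
      set xp := W.addX x X (W.slope x X y Y) with hxp
      set xm := W.addX x X (W.slope x X y (W.negY X Y)) with hxm
      obtain ⟨r, hr, hr'⟩ := hQ
      obtain ⟨rm, hrm, hrm'⟩ := hR
      obtain ⟨a1, ha1⟩ : ∃ a : A, (a : K) = W.a₁ := ⟨⟨_, hW.a₁⟩, rfl⟩
      obtain ⟨a2, ha2⟩ : ∃ a : A, (a : K) = W.a₂ := ⟨⟨_, hW.a₂⟩, rfl⟩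
      obtain ⟨a3, ha3⟩ : ∃ a : A, (a : K) = W.a₃ := ⟨⟨_, hW.a₃⟩, rfl⟩
      obtain ⟨a4, ha4⟩ : ∃ a : A, (a : K) = W.a₄ := ⟨⟨_, hW.a₄⟩, rfl⟩
      obtain ⟨a6, ha6⟩ : ∃ a : A, (a : K) = W.a₆ := ⟨⟨_, hW.a₆⟩, rfl⟩
      obtain ⟨i, hires, hi'⟩ := exists_inv_mem hX
      have hiX : (i : K) * X = 1 := by rw [hi']; exact inv_mul_cancel₀ hX0
      have hi0 : (i : K) ≠ 0 := by rw [hi']; exact inv_ne_zero hX0
      set E : A := 2 * (1 + r) + (a1 ^ 2 + 4 * a2) * r * i
          + (2 * a4 + a1 * a3) * (r ^ 2 + r) * i ^ 2 + (a3 ^ 2 + 4 * a6) * r ^ 2 * i ^ 3 with hE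
      have hEres : IsLocalRing.residue A E = 2 * (1 + n ^ 2) := by
        rw [hE]; simp only [map_add, map_mul, map_pow, hires, hr]; simp only [map_ofNat, map_one]
        ring
      set D : A := 1 - (2 * a4 + a1 * a3) * r * i ^ 2 - (a3 ^ 2 + 4 * a6) * (r ^ 2 + r) * i ^ 3
          - (a1 ^ 2 * a6 + 4 * a2 * a6 - a1 * a3 * a4 + a2 * a3 ^ 2 - a4 ^ 2) * r ^ 2 * i ^ 4
        with hD
      have hDres : IsLocalRing.residue A D = 1 := by
        rw [hD]; simp [hires]
      obtain ⟨D', hDD'⟩ := exists_inv (D := D) (by rw [hDres]; exact one_ne_zero)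
      have hD'res : IsLocalRing.residue A D' = 1 := by
        have := congrArg (IsLocalRing.residue A) hDD'
        rwa [map_mul, hDres, one_mul, map_one] at this
      have hEK : (E : K) = 2 * (1 + r) + (W.a₁ ^ 2 + 4 * W.a₂) * r * i
          + (2 * W.a₄ + W.a₁ * W.a₃) * (r ^ 2 + r) * i ^ 2
          + (W.a₃ ^ 2 + 4 * W.a₆) * r ^ 2 * i ^ 3 := by
        rw [hE]; push_cast; rw [ha1, ha2, ha3, ha4, ha6]; rfl
      have hDK : (D : K) = 1 - (2 * W.a₄ + W.a₁ * W.a₃) * r * i ^ 2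
          - (W.a₃ ^ 2 + 4 * W.a₆) * (r ^ 2 + r) * i ^ 3
          - (W.a₁ ^ 2 * W.a₆ + 4 * W.a₂ * W.a₆ - W.a₁ * W.a₃ * W.a₄ + W.a₂ * W.a₃ ^ 2
            - W.a₄ ^ 2) * r ^ 2 * i ^ 4 := by
        rw [hD]; push_cast; rw [ha1, ha2, ha3, ha4, ha6]; rfl
      have hDD'K : (D : K) * D' = 1 := by exact_mod_cast congrArg (Subtype.val) hDD'
      have hr1 : (1 - (r : K)) ≠ 0 := by
        intro h
        have : (r : K) = 1 := (sub_eq_zero.mp h).symm
        rw [this, one_mul] at hr'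
        exact hx hr'
      have e1 : (xp * xm) * (1 - r) ^ 2 * i ^ 2 = (D : K) := by
        rw [hDK]; exact aux_prod hr' hiX hPr
      have e2 : (xp + xm) * (1 - r) ^ 2 * i = (E : K) := by
        rw [hEK]; exact aux_sum hr' hiX hS
      have e3 : (E : K) * (xp * xm) * i = D * (xp + xm) := by
        have : ((E : K) * (xp * xm) * i) * ((1 - (r : K)) ^ 2 * i)
            = (D * (xp + xm)) * ((1 - (r : K)) ^ 2 * i) := by
          linear_combination (E : K) * e1 - (D : K) * e2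
        exact mul_right_cancel₀ (mul_ne_zero (pow_ne_zero 2 hr1) hi0) this
      have e4 : (E : K) * xp = D * (rm * xp + X) := by
        linear_combination (rm : K) * e3 - (E : K) * xp * i * hrm' + (D : K) * hrm'
          - (E : K) * xp * hiX
      refine ⟨E * D' - rm, ?_, ?_⟩
      · rw [map_sub, map_mul, hEres, hD'res, hrm]
        ring
      · push_cast
        linear_combination (D' : K) * e4 + (rm * xp + X) * hDD'K

/-- For a point `P = (X, Y)` in the kernel of reduction, `X / x(nP) ≡ n²`. -/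
theorem rel_nsmul (hW : CoeffsIn A W) {X Y : K} (hP : W.Nonsingular X Y) (hX : X ∉ A) (n : ℕ) :
    Rel A X (n • Point.some X Y hP) ((n : IsLocalRing.ResidueField A) ^ 2) := by
  have key : ∀ n : ℕ, Rel A X (n • Point.some X Y hP) ((n : IsLocalRing.ResidueField A) ^ 2) ∧
      Rel A X ((n + 1) • Point.some X Y hP) (((n + 1 : ℕ) : IsLocalRing.ResidueField A) ^ 2) := by
    intro n
    induction n with
    | zero =>
      constructor
      · rw [zero_smul, rel_zero]; simp
      · rw [zero_add, one_smul, rel_some]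
        exact ⟨1, by simp, by simp⟩
    | succ n ih =>
      refine ⟨ih.2, ?_⟩
      have h := rel_step hW hP hX (Q := (n + 1) • Point.some X Y hP)
        (n := ((n + 1 : ℕ) : IsLocalRing.ResidueField A)) ?_ ih.2
      · rw [← succ_nsmul] at h
        convert! h using 2
        push_cast; ring
      · convert! ih.1 using 1
        · rw [succ_nsmul, add_sub_cancel_right]
        · push_cast; ring
  exact (key n).1

/-- No prime-to-residue-characteristic torsion in the kernel of reduction. -/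
theorem mem_of_nsmul_eq_zero (hW : CoeffsIn A W) {X Y : K} (hP : W.Nonsingular X Y) {n : ℕ}
    (hn : (n : IsLocalRing.ResidueField A) ≠ 0) (h : n • Point.some X Y hP = 0) : X ∈ A := by
  by_contra hX
  have h1 := rel_nsmul hW hP hX n
  rw [h, rel_zero] at h1
  exact hn (pow_eq_zero_iff two_ne_zero |>.mp h1)

end

end Fermat.Agent.H05
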