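import Mathlib
import Fermat.Agent.H05_Kernel

set_option autoImplicit false

/-! # Inertia acts trivially on torsion points with nonsingular reduction -/

namespace Fermat.Agent.H05

open WeierstrassCurve WeierstrassCurve.Affine

variable {K : Type*} [Field K] {A : ValuationSubring K}

lemma mul_mem_nonunits {a b : K} (ha : a ∈ A) (hb : b ∈ A.nonunits) : a * b ∈ A.nonunits := by
  rw [ValuationSubring.mem_nonunits_iff] at hb ⊢
  rw [map_mul]
  exact mul_lt_one_of_nonneg_of_lt_one_right ((A.valuation_le_one_iff a).mpr ha) zero_le hb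

lemma mem_of_mem_nonunits {a : K} (ha : a ∈ A.nonunits) : a ∈ A :=
  A.nonunits_subset ha

lemma one_lt_valuation {a : K} (ha : a ∉ A) : 1 < A.valuation a := by
  rw [← not_le, A.valuation_le_one_iff]; exact ha

/-- If the slope is not integral then neither is the abscissa of the sum. -/
lemma addX_notMem {W : WeierstrassCurve.Affine K} (hW : CoeffsIn A W) {x₁ x₂ ℓ : K}
    (h1 : x₁ ∈ A) (h2 : x₂ ∈ A) (hℓ : ℓ ∉ A) : W.addX x₁ x₂ ℓ ∉ A := by
  intro h
  rw [addX] at h
  have h3 : ℓ * (ℓ + W.a₁) ∈ A := by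
    have := A.add_mem _ _ (A.add_mem _ _ (A.add_mem _ _ h hW.a₂) h1) h2
    convert! this using 1
    ring
  have h4 : ℓ + W.a₁ ∉ A := by
    intro h5
    apply hℓ
    have := A.add_mem _ _ h5 (A.neg_mem _ hW.a₁)
    convert! this using 1
    ring
  have h5 := one_lt_valuation hℓ
  have h6 := one_lt_valuation h4
  have h7 := (A.valuation_le_one_iff _).mpr h3
  rw [map_mul] at h7
  exact absurd h7 (not_le.mpr (one_lt_mul'' h5 h6))

variable [DecidableEq K] {W : WeierstrassCurve.Affine K}

/-- Congruent points with nonsingular reduction differ by a point of the kernel of reduction. -/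
theorem sub_mem_kernel (hW : CoeffsIn A W) {x y x' y' : K} {h : W.Nonsingular x y}
    {h' : W.Nonsingular x' y'} (hx : x ∈ A) (hy : y ∈ A) (hx' : x' - x ∈ A.nonunits)
    (hy' : y' - y ∈ A.nonunits)
    (hns : 2 * y + W.a₁ * x + W.a₃ ∉ A.nonunits ∨
      3 * x ^ 2 + 2 * W.a₂ * x + W.a₄ - W.a₁ * y ∉ A.nonunits) :
    Point.some x' y' h' = Point.some x y h ∨ ∃ (u w : K) (hu : W.Nonsingular u w),
      Point.some x' y' h' - Point.some x y h = Point.some u w hu ∧ u ∉ A := by
  have hx'A : x' ∈ A := by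
    have := A.add_mem _ _ (mem_of_mem_nonunits hx') hx
    simpa using this
  by_cases hxx : x' = x
  · subst hxx
    rcases Y_eq_of_X_eq h'.1 h.1 rfl with hyy | hyy
    · left; subst hyy; rfl
    · by_cases hyy' : y' = y
      · left; subst hyy'; rfl
      right
      have hneg : - Point.some x' y h = Point.some x' y' h' := by
        rw [Point.neg_some, Point.some.injEq]; exact ⟨rfl, hyy.symm⟩
      have hy2 : W.negY x' y' = y := by rw [hyy, negY_negY]
      have hyne : y' ≠ W.negY x' y' := by rw [hy2]; exact hyy'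
      rw [sub_eq_add_neg, hneg, Point.add_self_of_Y_ne hyne]
      refine ⟨_, _, _, rfl, ?_⟩
      apply addX_notMem hW hx hx
      rw [slope_of_Y_ne rfl hyne, hy2]
      intro hℓ
      have hd : y' - y ≠ 0 := sub_ne_zero.mpr hyy'
      have h1 := mul_mem_nonunits hℓ hy'
      rw [div_mul_cancel₀ _ hd] at h1
      have h2 : 2 * y + W.a₁ * x' + W.a₃ ∈ A.nonunits := by
        have := neg_mem hy'
        rw [hyy, negY] at this
        convert! this using 1; ring
      rcases hns with hns | hns
      · exact hns h2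
      · apply hns
        have h3 := add_mem h1 (mul_mem_nonunits hW.a₁ hy')
        convert! h3 using 1
        ring
  · right
    rw [sub_eq_add_neg, Point.neg_some, Point.add_of_X_ne hxx]
    refine ⟨_, _, _, rfl, ?_⟩
    apply addX_notMem hW hx'A hx
    intro hℓ
    rw [slope_of_X_ne hxx] at hℓ
    have hd : x' - x ≠ 0 := sub_ne_zero.mpr hxx
    have h1 := mul_mem_nonunits hℓ hx'
    rw [div_mul_cancel₀ _ hd] at h1
    have h2 : 2 * y + W.a₁ * x + W.a₃ ∈ A.nonunits := by
      have := sub_mem h1 hy'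
      rw [negY] at this
      convert! this using 1; ring
    rcases hns with hns | hns
    · exact hns h2
    · apply hns
      have hG : (y' - W.negY x y) / (x' - x) * (y' - y) =
          x' ^ 2 + x' * x + x ^ 2 + W.a₂ * (x' + x) + W.a₄ - W.a₁ * y' := by
        have e1 := (equation_iff ..).mp h.1
        have e2 := (equation_iff ..).mp h'.1
        rw [div_mul_eq_mul_div, div_eq_iff hd, negY]
        linear_combination e2 - e1
      have h3 := mul_mem_nonunits hℓ hy'
      rw [hG] at h3
      have h4 : (x' + 2 * x + W.a₂) * (x' - x) ∈ A.nonunits :=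
        mul_mem_nonunits (A.add_mem _ _ (A.add_mem _ _ hx'A
          (A.mul_mem _ _ (by exact_mod_cast natCast_mem A 2) hx)) hW.a₂) hx'
      have h5 := mul_mem_nonunits hW.a₁ hy'
      have h6 := add_mem (sub_mem h3 h4) h5
      convert! h6 using 1
      ring

/-- Congruent `n`-torsion points, with nonsingular reduction, are equal. -/
theorem eq_of_congr (hW : CoeffsIn A W) {x y x' y' : K} {h : W.Nonsingular x y}
    {h' : W.Nonsingular x' y'} (hx : x ∈ A) (hy : y ∈ A) (hx' : x' - x ∈ A.nonunits)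
    (hy' : y' - y ∈ A.nonunits)
    (hns : 2 * y + W.a₁ * x + W.a₃ ∉ A.nonunits ∨
      3 * x ^ 2 + 2 * W.a₂ * x + W.a₄ - W.a₁ * y ∉ A.nonunits)
    {n : ℕ} (hn : (n : IsLocalRing.ResidueField A) ≠ 0) (ht : n • Point.some x y h = 0)
    (ht' : n • Point.some x' y' h' = 0) : Point.some x' y' h' = Point.some x y h := by
  rcases sub_mem_kernel hW hx hy hx' hy' hns (h := h) (h' := h') with h1 | ⟨u, w, hu, h1, h2⟩
  · exact h1
  · exfalso
    apply h2
    apply mem_of_nsmul_eq_zero hW hu hn
    rw [← h1, smul_sub, ht, ht', sub_zero]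

omit [DecidableEq K] in
/-- integrality of `y` -/
theorem y_mem (hW : CoeffsIn A W) {x y : K} (h : W.Equation x y) (hx : x ∈ A) : y ∈ A := by
  by_contra hy
  rw [equation_iff] at h
  have h1 : y * (y + (W.a₁ * x + W.a₃)) ∈ A := by
    have : x ^ 3 + W.a₂ * x ^ 2 + W.a₄ * x + W.a₆ ∈ A :=
      A.add_mem _ _ (A.add_mem _ _ (A.add_mem _ _ (pow_mem hx 3)
        (A.mul_mem _ _ hW.a₂ (pow_mem hx 2))) (A.mul_mem _ _ hW.a₄ hx)) hW.a₆
    rw [← h] at this
    convert! this using 1; ring
  have h0 : W.a₁ * x + W.a₃ ∈ A := A.add_mem _ _ (A.mul_mem _ _ hW.a₁ hx) hW.a₃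
  have h2 : y + (W.a₁ * x + W.a₃) ∉ A := by
    intro h5
    apply hy
    have := A.add_mem _ _ h5 (A.neg_mem _ h0)
    convert! this using 1
    ring
  have h5 := one_lt_valuation hy
  have h6 := one_lt_valuation h2
  have h7 := (A.valuation_le_one_iff _).mpr h1
  rw [map_mul] at h7
  exact absurd h7 (not_le.mpr (one_lt_mul'' h5 h6))

end Fermat.Agent.H05
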