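import Mathlib
import Fermat.Prelude.Def_FLTPrelim_Ramification
import Fermat.Agent.H05_Good

set_option autoImplicit false

/-! # Inertia acts trivially on prime-to-residue-characteristic torsion: good reduction, and
torsion points with nonsingular reduction in general -/

namespace Fermat.Agent.H05

open WeierstrassCurve WeierstrassCurve.Affine

section inertia

variable {S K : Type*} [Field S] [Field K] [Algebra S K] {A : ValuationSubring K}

/-- Elements of the inertia group preserve `A` and act trivially modulo the maximal ideal. -/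
theorem inertia_congr {σ : K ≃ₐ[S] K} (hσ : σ ∈ A.inertiaSubgroupIn S) {a : K} (ha : a ∈ A) :
    σ a ∈ A ∧ σ a - a ∈ A.nonunits := by
  obtain ⟨τ, hτ, rfl⟩ := hσ
  have h1 : (τ • (⟨a, ha⟩ : A) : A) - ⟨a, ha⟩ ∈ IsLocalRing.maximalIdeal A := by
    rw [← IsLocalRing.residue_eq_zero_iff, map_sub, IsLocalRing.ResidueField.residue_smul,
      sub_eq_zero]
    have : MulSemiringAction.toRingAut (A.decompositionSubgroup S) (IsLocalRing.ResidueField A) τ
        = 1 := hτ
    exact DFunLike.congr_fun this (IsLocalRing.residue A ⟨a, ha⟩)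
  have h2 : ((τ • (⟨a, ha⟩ : A) : A) : K) = (τ : K ≃ₐ[S] K) a := rfl
  refine ⟨?_, ?_⟩
  · rw [Subgroup.coe_subtype, ← h2]; exact Subtype.property _
  · rw [Subgroup.coe_subtype, ← h2]
    have h3 := (A.coe_mem_nonunits_iff).mpr h1
    exact h3

/-- Elements of the inertia group preserve the maximal ideal. -/
theorem inertia_nonunits {σ : K ≃ₐ[S] K} (hσ : σ ∈ A.inertiaSubgroupIn S) {a : K}
    (ha : a ∈ A.nonunits) : σ a ∈ A.nonunits := by
  have h := (inertia_congr hσ (A.nonunits_subset ha)).2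
  have := add_mem h ha
  simpa using this

end inertia

section

variable {K : Type*} [Field K] {A : ValuationSubring K}

lemma coe_notMem_nonunits_iff {a : A} :
    (a : K) ∉ A.nonunits ↔ IsLocalRing.residue A a ≠ 0 := by
  rw [A.coe_mem_nonunits_iff, ← IsLocalRing.residue_eq_zero_iff]

/-- An integral point of a Weierstrass curve with unit discriminant has nonsingular reduction. -/
theorem nonsingular_of_disc {W : WeierstrassCurve.Affine K} (hW : CoeffsIn A W)
    (hΔ : W.Δ ∉ A.nonunits) {x y : K} (h : W.Equation x y) (hx : x ∈ A) (hy : y ∈ A) :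
    2 * y + W.a₁ * x + W.a₃ ∉ A.nonunits ∨
      3 * x ^ 2 + 2 * W.a₂ * x + W.a₄ - W.a₁ * y ∉ A.nonunits := by
  let WA : WeierstrassCurve.Affine A := ⟨⟨_, hW.a₁⟩, ⟨_, hW.a₂⟩, ⟨_, hW.a₃⟩, ⟨_, hW.a₄⟩, ⟨_, hW.a₆⟩⟩
  have hWA : WA.map (algebraMap A K) = W := rfl
  let xA : A := ⟨x, hx⟩
  let yA : A := ⟨y, hy⟩
  have heq : WA.Equation xA yA := by
    have h1 : (WA.map (algebraMap A K)).toAffine.Equation (algebraMap A K xA)
      (algebraMap A K yA) := by
      rw [hWA]; exact h
    exact (Affine.map_equation WA (IsFractionRing.injective A K) xA yA).mp h1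
  have heq' : (WA.map (IsLocalRing.residue A)).toAffine.Equation (IsLocalRing.residue A xA)
      (IsLocalRing.residue A yA) := Affine.Equation.map (IsLocalRing.residue A) heq
  have hΔ' : (WA.map (IsLocalRing.residue A)).toAffine.Δ ≠ 0 := by
    have h1 : (algebraMap A K WA.Δ) = W.Δ := by rw [← WA.map_Δ]; rfl
    have h2 : (WA.map (IsLocalRing.residue A)).Δ = IsLocalRing.residue A WA.Δ := WA.map_Δ _
    rw [h2]
    apply coe_notMem_nonunits_iff.mp
    have h3 : ((WA.Δ : A) : K) = W.Δ := h1
    rw [h3]; exact hΔ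
  have hns := (Affine.equation_iff_nonsingular_of_Δ_ne_zero hΔ').mp heq'
  rw [Affine.nonsingular_iff'] at hns
  rcases hns.2 with h1 | h1
  · right
    have h2 : IsLocalRing.residue A (3 * xA ^ 2 + 2 * WA.a₂ * xA + WA.a₄ - WA.a₁ * yA) ≠ 0 := by
      intro h3
      apply h1
      simp only [map_add, map_sub, map_mul, map_pow, map_ofNat] at h3
      have e1 : (WA.map (IsLocalRing.residue A)).a₁ = IsLocalRing.residue A WA.a₁ := rfl
      have e2 : (WA.map (IsLocalRing.residue A)).a₂ = IsLocalRing.residue A WA.a₂ := rfl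
      have e4 : (WA.map (IsLocalRing.residue A)).a₄ = IsLocalRing.residue A WA.a₄ := rfl
      rw [e1, e2, e4]
      linear_combination -h3
    exact coe_notMem_nonunits_iff.mpr h2
  · left
    have h2 : IsLocalRing.residue A (2 * yA + WA.a₁ * xA + WA.a₃) ≠ 0 := by
      intro h3
      apply h1
      simp only [map_add, map_sub, map_mul, map_pow, map_ofNat] at h3
      have e1 : (WA.map (IsLocalRing.residue A)).a₁ = IsLocalRing.residue A WA.a₁ := rfl
      have e3 : (WA.map (IsLocalRing.residue A)).a₃ = IsLocalRing.residue A WA.a₃ := rfl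
      rw [e1, e3]
      linear_combination h3
    exact coe_notMem_nonunits_iff.mpr h2

end

section

variable {R S K : Type*} [CommRing R] [Field S] [Field K] [DecidableEq K] [Algebra R S]
  [Algebra R K] [Algebra S K] [IsScalarTower R S K] {A : ValuationSubring K}
  {W' : WeierstrassCurve.Affine R}

/-- Inertia fixes every prime-to-residue-characteristic torsion point with nonsingular
reduction. -/
theorem inertia_smul_some (hW : CoeffsIn A (W'⁄K)) {σ : K ≃ₐ[S] K}
    (hσ : σ ∈ A.inertiaSubgroupIn S) {n : ℕ} (hn : (n : IsLocalRing.ResidueField A) ≠ 0)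
    {x y : K} (h : (W'⁄K).Nonsingular x y) (ht : n • Point.some x y h = 0)
    (hns : 2 * y + (W'⁄K).a₁ * x + (W'⁄K).a₃ ∉ A.nonunits ∨
      3 * x ^ 2 + 2 * (W'⁄K).a₂ * x + (W'⁄K).a₄ - (W'⁄K).a₁ * y ∉ A.nonunits) :
    σ • (Point.some x y h : (W'⁄K).Point) = Point.some x y h := by
  have hx : x ∈ A := mem_of_nsmul_eq_zero hW h hn ht
  have hy : y ∈ A := y_mem hW h.1 hx
  have hσP : σ • (Point.some x y h : (W'⁄K).Point) =
      Point.some (σ x) (σ y) ((W'.baseChange_nonsingular (f := σ.toAlgHom)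
        σ.toAlgHom.injective ..).mpr h) := rfl
  have ht' : n • (σ • (Point.some x y h : (W'⁄K).Point)) = 0 := by
    rw [← smul_comm σ n, ht, smul_zero]
  rw [hσP] at ht' ⊢
  exact eq_of_congr hW hx hy (inertia_congr hσ hx).2 (inertia_congr hσ hy).2 hns hn ht ht'

/-- **Good reduction**: inertia acts trivially on prime-to-residue-characteristic torsion. -/
theorem inertia_smul_of_good (hW : CoeffsIn A (W'⁄K)) (hΔ : (W'⁄K).Δ ∉ A.nonunits)
    {σ : K ≃ₐ[S] K} (hσ : σ ∈ A.inertiaSubgroupIn S) {n : ℕ}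
    (hn : (n : IsLocalRing.ResidueField A) ≠ 0) (P : (W'⁄K).Point) (ht : n • P = 0) :
    σ • P = P := by
  rcases P with _ | ⟨x, y, h⟩
  · rfl
  · have hx : x ∈ A := mem_of_nsmul_eq_zero hW h hn ht
    have hy : y ∈ A := y_mem hW h.1 hx
    exact inertia_smul_some hW hσ hn h ht (nonsingular_of_disc hW hΔ h.1 hx hy)

end

end Fermat.Agent.H05
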