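import Mathlib
import Fermat.Prelude.Def_FLTPrelim_Ramification
import Fermat.Agent.H05_GoodRed

set_option autoImplicit false

/-! # The Frey representation at primes `q ∤ 2abc`, `q ≠ p` -/

namespace Fermat.Agent.H05

open WeierstrassCurve WeierstrassCurve.Affine

section

variable {K : Type*} [Field K] {A : ValuationSubring K} {q : ℕ}

/-- The residue field of a valuation ring over `q` has characteristic `q`. -/
theorem charP_residueField (hq : q.Prime) (hA : A.LiesOverPrime q) :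
    CharP (IsLocalRing.ResidueField A) q := by
  have h0 : ((q : ℕ) : IsLocalRing.ResidueField A) = 0 := by
    have h1 : IsLocalRing.residue A (q : A) = 0 := by
      rw [IsLocalRing.residue_eq_zero_iff, ← A.coe_mem_nonunits_iff]
      exact_mod_cast hA
    rwa [map_natCast] at h1
  obtain ⟨r, hr⟩ := CharP.exists (IsLocalRing.ResidueField A)
  have hdvd : r ∣ q := (CharP.cast_eq_zero_iff _ r q).mp h0
  rcases (Nat.dvd_prime hq).mp hdvd with h1 | h1
  · subst h1
    exact absurd rfl (CharP.char_ne_one (R := IsLocalRing.ResidueField A) 1)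
  · rwa [← h1]

/-- Natural numbers prime to `q` are nonzero in the residue field. -/
theorem natCast_residue_ne_zero (hq : q.Prime) (hA : A.LiesOverPrime q) {n : ℕ}
    (hn : ¬ q ∣ n) : (n : IsLocalRing.ResidueField A) ≠ 0 := by
  have := charP_residueField hq hA
  rwa [Ne, CharP.cast_eq_zero_iff (IsLocalRing.ResidueField A) q n]

/-- Integers prime to `q` are units at `q`. -/
theorem intCast_notMem_nonunits (hq : q.Prime) (hA : A.LiesOverPrime q) {n : ℤ}
    (hn : ¬ (q : ℤ) ∣ n) : (n : K) ∉ A.nonunits := by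
  have := charP_residueField hq hA
  have h1 : (n : IsLocalRing.ResidueField A) ≠ 0 := by
    rwa [Ne, CharP.intCast_eq_zero_iff (IsLocalRing.ResidueField A) q n]
  have h2 : IsLocalRing.residue A (n : A) ≠ 0 := by rwa [map_intCast]
  have h3 := coe_notMem_nonunits_iff.mpr h2
  intro h4
  exact h3 (by exact_mod_cast h4)

/-- Integers are integral. -/
theorem intCast_mem (n : ℤ) : (n : K) ∈ A := _root_.intCast_mem A n

/-- Inverses of elements of `A` outside the maximal ideal are in `A`. -/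
theorem inv_mem_of_notMem_nonunits {a : K} (ha : a ∉ A.nonunits) : a⁻¹ ∈ A := by
  by_contra h
  apply ha
  have := A.inv_mem_nonunits_iff.mpr (Or.inr h)
  rwa [inv_inv] at this

end

section Frey

variable (P : FreyPackage)

/-- the discriminant of the Frey curve -/
theorem freyCurve_disc : 256 * P.freyCurve.Δ = ((P.a * P.b * P.c : ℤ) : ℚ) ^ (2 * P.p) := by
  have h := P.hFLT
  have hc : ((P.c : ℤ) : ℚ) ^ P.p = (P.a : ℚ) ^ P.p + (P.b : ℚ) ^ P.p := by
    exact_mod_cast h.symm
  have : ((P.a * P.b * P.c : ℤ) : ℚ) ^ (2 * P.p) =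
      ((P.a : ℚ) ^ P.p) ^ 2 * ((P.b : ℚ) ^ P.p) ^ 2 * ((P.c : ℚ) ^ P.p) ^ 2 := by
    push_cast; ring
  rw [this, hc]
  simp only [FreyPackage.freyCurve, WeierstrassCurve.Δ, WeierstrassCurve.b₂,
    WeierstrassCurve.b₄, WeierstrassCurve.b₆, WeierstrassCurve.b₈]
  ring

variable {K : Type*} [Field K] [Algebra ℚ K] {A : ValuationSubring K} {q : ℕ}

/-- The Frey curve is integral at odd primes. -/
theorem freyCurve_coeffsIn (hq : q.Prime) (hq2 : q ≠ 2) (hA : A.LiesOverPrime q) :
    CoeffsIn A (P.freyCurve⁄K) := by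
  have h2 : ¬ (q : ℤ) ∣ 2 := by
    intro h
    have : q ∣ 2 := by exact_mod_cast h
    exact hq2 ((Nat.prime_dvd_prime_iff_eq hq Nat.prime_two).mp this)
  have h2' : ((2 : ℤ) : K)⁻¹ ∈ A := inv_mem_of_notMem_nonunits (intCast_notMem_nonunits hq hA h2)
  have hcast : ∀ n : ℤ, algebraMap ℚ K (n : ℚ) = (n : K) := fun n => map_intCast _ n
  refine ⟨?_, ?_, ?_, ?_, ?_⟩
  · have : (P.freyCurve⁄K).a₁ = 1 := by
      simp [WeierstrassCurve.baseChange, FreyPackage.freyCurve]
    rw [this]; exact A.one_mem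
  · have : (P.freyCurve⁄K).a₂ = ((P.b ^ P.p - 1 - P.a ^ P.p : ℤ) : K) * (((2 : ℤ) : K)⁻¹) ^ 2 := by
      have h1 : P.freyCurve.a₂ = ((P.b ^ P.p - 1 - P.a ^ P.p : ℤ) : ℚ) * (((2 : ℤ) : ℚ)⁻¹) ^ 2 := by
        simp only [FreyPackage.freyCurve]; push_cast; ring
      have h3 : (P.freyCurve⁄K).a₂ = algebraMap ℚ K P.freyCurve.a₂ := rfl
      rw [h3, h1, map_mul, map_pow, map_inv₀, hcast, hcast]
    rw [this]; exact A.mul_mem _ _ (intCast_mem _) (pow_mem h2' 2)
  · have : (P.freyCurve⁄K).a₃ = 0 := by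
      simp [WeierstrassCurve.baseChange, FreyPackage.freyCurve]
    rw [this]; exact A.zero_mem
  · have : (P.freyCurve⁄K).a₄ = ((-(P.a ^ P.p) * (P.b ^ P.p) : ℤ) : K) * (((2 : ℤ) : K)⁻¹) ^ 4 := by
      have h1 : P.freyCurve.a₄ = ((-(P.a ^ P.p) * (P.b ^ P.p) : ℤ) : ℚ) * (((2 : ℤ) : ℚ)⁻¹) ^ 4 := by
        simp only [FreyPackage.freyCurve]; push_cast; ring
      have h3 : (P.freyCurve⁄K).a₄ = algebraMap ℚ K P.freyCurve.a₄ := rfl
      rw [h3, h1, map_mul, map_pow, map_inv₀, hcast, hcast]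
    rw [this]; exact A.mul_mem _ _ (intCast_mem _) (pow_mem h2' 4)
  · have : (P.freyCurve⁄K).a₆ = 0 := by
      simp [WeierstrassCurve.baseChange, FreyPackage.freyCurve]
    rw [this]; exact A.zero_mem

/-- The Frey curve has unit discriminant at primes not dividing `abc`. -/
theorem freyCurve_disc_notMem (hq : q.Prime) (hA : A.LiesOverPrime q)
    (habc : ¬ (q : ℤ) ∣ P.a * P.b * P.c) :
    (P.freyCurve⁄K).Δ ∉ A.nonunits := by
  intro h
  have h1 : (P.freyCurve⁄K).Δ = algebraMap ℚ K P.freyCurve.Δ := P.freyCurve.map_Δ _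
  have h2 : (256 : K) * (P.freyCurve⁄K).Δ = ((P.a * P.b * P.c : ℤ) : K) ^ (2 * P.p) := by
    have := congrArg (algebraMap ℚ K) (freyCurve_disc P)
    rw [map_mul, map_pow, map_intCast, map_ofNat, ← h1] at this
    exact this
  have h3 : ((P.a * P.b * P.c : ℤ) : K) ^ (2 * P.p) ∈ A.nonunits := by
    rw [← h2]
    refine mul_mem_nonunits ?_ h
    exact_mod_cast intCast_mem (A := A) (K := K) 256
  have h4 : (((P.a * P.b * P.c) ^ (2 * P.p) : ℤ) : K) ∉ A.nonunits := by
    apply intCast_notMem_nonunits hq hA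
    intro h5
    exact habc ((Nat.prime_iff_prime_int.mp hq).dvd_of_dvd_pow h5)
  apply h4
  exact_mod_cast h3

end Frey

/-- **S05, good case.** -/
theorem frey_unramified_good (P : FreyPackage) {q : ℕ} (hq : q.Prime) (hq2 : q ≠ 2)
    (hqp : q ≠ P.p) (habc : ¬ (q : ℤ) ∣ P.a * P.b * P.c) : P.GaloisRepUnramifiedAt q := by
  intro A hA σ hσ x
  have hn : (P.p : IsLocalRing.ResidueField A) ≠ 0 := by
    apply natCast_residue_ne_zero hq hA
    rw [Nat.prime_dvd_prime_iff_eq hq P.pp]; exact hqp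
  apply Subtype.ext
  refine inertia_smul_of_good (freyCurve_coeffsIn P hq hq2 hA)
    (freyCurve_disc_notMem P hq hA habc) hσ hn x.1 ?_
  have := x.2
  rw [Submodule.mem_torsionBy_iff] at this
  exact (natCast_zsmul x.1 P.p).symm.trans this

end Fermat.Agent.H05
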