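import Fermat.Agent.H72Mult

/-! The Frey curve at odd primes dividing `abc`. -/

set_option autoImplicit false

namespace Fermat.Agent.H72

open WeierstrassCurve WeierstrassCurve.Affine WeierstrassCurve.Affine.Point

lemma frey_integralAt (P : FreyPackage) {q : ℕ} (hq : q.Prime) (hq2 : q ≠ 2)
    {A : ValuationSubring (AlgebraicClosure ℚ)} (hA : A.LiesOverPrime q) :
    IntegralAt P.freyCurve A := by
  have h4 : A.valuation (4 : AlgebraicClosure ℚ) = 1 := by
    have := val_natCast_eq_one hq hA (n := 4) (by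
      intro h
      have : q ∣ 2 ^ 2 := by norm_num; exact h
      exact hq2 ((Nat.prime_dvd_prime_iff_eq hq Nat.prime_two).mp (hq.dvd_of_dvd_pow this)))
    exact_mod_cast this
  have h16 : A.valuation (16 : AlgebraicClosure ℚ) = 1 := by
    have : (16 : AlgebraicClosure ℚ) = 4 ^ 2 := by norm_num
    rw [this, map_pow, h4, one_pow]
  have hz : ∀ n : ℤ, A.valuation (n : AlgebraicClosure ℚ) ≤ 1 := fun n => val_intCast_le n
  constructor
  · simp [FreyPackage.freyCurve]
  · have : algebraMap ℚ (AlgebraicClosure ℚ) P.freyCurve.a₂ =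
      ((P.b ^ P.p - 1 - P.a ^ P.p : ℤ) : AlgebraicClosure ℚ) / 4 := by
      simp only [FreyPackage.freyCurve]
      push_cast
      simp
    rw [this, map_div₀, h4, div_one]
    exact hz _
  · simp [FreyPackage.freyCurve]
  · have : algebraMap ℚ (AlgebraicClosure ℚ) P.freyCurve.a₄ =
      ((-(P.a ^ P.p) * P.b ^ P.p : ℤ) : AlgebraicClosure ℚ) / 16 := by
      simp only [FreyPackage.freyCurve]
      push_cast
      simp
    rw [this, map_div₀, h16, div_one]
    exact hz _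
  · simp [FreyPackage.freyCurve]

/-- `P.GaloisRepUnramifiedAt q` for odd `q ∣ abc`, `q ≠ p`. -/
theorem frey_unramified_mult (P : FreyPackage) {q : ℕ} (hq : q.Prime) (hq2 : q ≠ 2)
    (hqp : q ≠ P.p) (hdvd : (q : ℤ) ∣ P.a * P.b * P.c) : P.GaloisRepUnramifiedAt q := by
  intro A hA σ hσ T
  have hint := frey_integralAt P hq hq2 hA
  have hp2 : P.p ≠ 2 := by have := P.hp5; omega
  have h4 : A.valuation (4 : AlgebraicClosure ℚ) = 1 := by
    have := val_natCast_eq_one hq hA (n := 4) (by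
      intro h
      have : q ∣ 2 ^ 2 := by norm_num; exact h
      exact hq2 ((Nat.prime_dvd_prime_iff_eq hq Nat.prime_two).mp (hq.dvd_of_dvd_pow this)))
    exact_mod_cast this
  have hpA : A.valuation (P.p : AlgebraicClosure ℚ) = 1 :=
    val_natCast_eq_one hq hA (fun h => hqp ((Nat.prime_dvd_prime_iff_eq hq P.pp).mp h))
  have hqZ : Prime (q : ℤ) := Nat.prime_iff_prime_int.mp hq
  have hT : P.p • T.1 = 0 := by
    have := (Submodule.mem_torsionBy_iff _ _).mp T.2
    rw [← this]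
    exact (natCast_zsmul _ _).symm
  apply Subtype.ext
  show σ • T.1 = T.1
  have hFLT : (P.a : ℚ) ^ P.p + (P.b : ℚ) ^ P.p = (P.c : ℚ) ^ P.p := by exact_mod_cast P.hFLT
  have hpp := P.hp0
  -- valuations
  have hval : ∀ n : ℤ, A.valuation (algebraMap ℚ (AlgebraicClosure ℚ) ((n : ℚ) ^ P.p / 4)) =
      A.valuation (algebraMap ℚ (AlgebraicClosure ℚ) (n : ℚ)) ^ P.p := by
    intro n
    rw [map_div₀, map_div₀, map_pow, map_pow, map_ofNat, h4, div_one]
  have hvalneg : ∀ n : ℤ, A.valuation (algebraMap ℚ (AlgebraicClosure ℚ) (-((n : ℚ) ^ P.p / 4))) =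
      A.valuation (algebraMap ℚ (AlgebraicClosure ℚ) (n : ℚ)) ^ P.p := by
    intro n
    rw [map_neg, Valuation.map_neg, hval]
  have hlt : ∀ n : ℤ, (q : ℤ) ∣ n → A.valuation (algebraMap ℚ (AlgebraicClosure ℚ) (n : ℚ)) ^ P.p < 1 := by
    intro n hn
    refine pow_lt_one' ?_ hpp
    obtain ⟨m, rfl⟩ := hn
    have h6 : algebraMap ℚ (AlgebraicClosure ℚ) (((q : ℤ) * m : ℤ) : ℚ) =
        (q : AlgebraicClosure ℚ) * (m : AlgebraicClosure ℚ) := by
      rw [map_intCast, Int.cast_mul, Int.cast_natCast]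
    rw [h6]
    exact sm_mul' A.valuation (val_natCast_lt hA) (val_intCast_le m)
  have hone : ∀ n : ℤ, ¬ (q : ℤ) ∣ n → A.valuation (algebraMap ℚ (AlgebraicClosure ℚ) (n : ℚ)) ^ P.p = 1 := by
    intro n hn
    rw [map_intCast, val_intCast_eq_one hq hA hn, one_pow]
  have hcop : ∀ {m n : ℤ}, gcd m n = 1 → (q : ℤ) ∣ m → ¬ (q : ℤ) ∣ n := by
    intro m n hg hm hn
    have : (q : ℤ) ∣ gcd m n := dvd_gcd hm hn
    rw [hg] at this
    exact hqZ.not_dvd_one this
  have ha0 : (P.a : ℚ) ≠ 0 := by exact_mod_cast P.ha0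
  have hb0 : (P.b : ℚ) ≠ 0 := by exact_mod_cast P.hb0
  have hc0 : (P.c : ℚ) ≠ 0 := by exact_mod_cast P.hc0
  rcases hqZ.dvd_or_dvd hdvd with h1 | h1
  · rcases hqZ.dvd_or_dvd h1 with h2 | h2
    · -- `q ∣ a`
      refine smul_eq_of_mult hint 0 ((P.a : ℚ) ^ P.p / 4) ((P.b : ℚ) ^ P.p / 4) ?_ ?_ ?_ ?_ ?_ ?_ ?_ ?_
        h4 P.pp hp2 hpA (P.a : ℚ) (hval _) hσ hT
      · simp only [WeierstrassCurve.b₂, FreyPackage.freyCurve]; ring
      · simp only [WeierstrassCurve.b₄, FreyPackage.freyCurve]; ring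
      · simp only [WeierstrassCurve.b₆, FreyPackage.freyCurve]; ring
      · simp only [WeierstrassCurve.b₈, FreyPackage.freyCurve]; ring
      · simp
      · exact div_ne_zero (pow_ne_zero _ ha0) (by norm_num)
      · rw [hval]; exact hlt _ h2
      · rw [hval]; exact hone _ (hcop P.hgcdab h2)
    · -- `q ∣ b`
      refine smul_eq_of_mult hint 0 (-((P.b : ℚ) ^ P.p / 4)) (-((P.a : ℚ) ^ P.p / 4)) ?_ ?_ ?_ ?_ ?_ ?_ ?_ ?_
        h4 P.pp hp2 hpA (P.b : ℚ) (hvalneg _) hσ hT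
      · simp only [WeierstrassCurve.b₂, FreyPackage.freyCurve]; ring
      · simp only [WeierstrassCurve.b₄, FreyPackage.freyCurve]; ring
      · simp only [WeierstrassCurve.b₆, FreyPackage.freyCurve]; ring
      · simp only [WeierstrassCurve.b₈, FreyPackage.freyCurve]; ring
      · simp
      · exact neg_ne_zero.mpr (div_ne_zero (pow_ne_zero _ hb0) (by norm_num))
      · rw [hvalneg]; exact hlt _ h2
      · rw [hvalneg]; exact hone _ (fun h3 => hcop P.hgcdab h3 h2)
  · -- `q ∣ c`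
    have hac : gcd P.a P.c = 1 := P.hgcdac
    have hna : ¬ (q : ℤ) ∣ P.a := fun h3 => hcop hac h3 h1
    refine smul_eq_of_mult hint ((P.a : ℚ) ^ P.p / 4) (-((P.c : ℚ) ^ P.p / 4)) ((P.a : ℚ) ^ P.p / 4) ?_ ?_ ?_ ?_ ?_ ?_ ?_ ?_
        h4 P.pp hp2 hpA (P.c : ℚ) (hvalneg _) hσ hT
    · simp only [WeierstrassCurve.b₂, FreyPackage.freyCurve, ← hFLT]; ring
    · simp only [WeierstrassCurve.b₄, FreyPackage.freyCurve, ← hFLT]; ring
    · simp only [WeierstrassCurve.b₆, FreyPackage.freyCurve, ← hFLT]; ring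
    · simp only [WeierstrassCurve.b₈, FreyPackage.freyCurve, ← hFLT]; ring
    · rw [hval]; exact (hone _ hna).le
    · exact neg_ne_zero.mpr (div_ne_zero (pow_ne_zero _ hc0) (by norm_num))
    · rw [hvalneg]; exact hlt _ h1
    · rw [hval]; exact hone _ hna

end Fermat.Agent.H72
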