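import Mathlib

set_option autoImplicit false

/-!
# A consequence of Gauss' lemma

If `h ∈ ℤ[X]` has prime leading coefficient and `α β` are roots of `h` in a field of
characteristic zero which are not conjugate over `ℚ`, then one of them is integral over `ℤ`.
-/

namespace Fermat.Agent.H13

open Polynomial

section

variable {L : Type*} [Field L] [CharZero L]

omit [CharZero L] in
lemma exists_irreducible_factor {h : ℤ[X]} (h0 : h ≠ 0) {α : L} (hα : aeval α h = 0) :
    ∃ F : ℤ[X], Irreducible F ∧ F ∣ h ∧ aeval α F = 0 := by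
  obtain ⟨f, hf, u, hu⟩ := UniqueFactorizationMonoid.exists_prime_factors h h0
  have h1 : aeval α f.prod = 0 := by
    have h2 : aeval α (f.prod * (u : ℤ[X])) = 0 := by rw [hu]; exact hα
    rw [map_mul] at h2
    rcases mul_eq_zero.mp h2 with h3 | h3
    · exact h3
    · exfalso
      have : IsUnit (aeval α (u : ℤ[X])) := u.isUnit.map (aeval α)
      exact this.ne_zero h3
  rw [map_multiset_prod, Multiset.prod_eq_zero_iff, Multiset.mem_map] at h1
  obtain ⟨F, hF, hF0⟩ := h1
  refine ⟨F, (hf F hF).irreducible, ?_, hF0⟩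
  rw [← hu]
  exact (Multiset.dvd_prod hF).mul_right _

lemma natDegree_ne_zero_of_root {F : ℤ[X]} (hF : Irreducible F) {α : L} (hα : aeval α F = 0) :
    F.natDegree ≠ 0 := by
  intro h
  rw [natDegree_eq_zero] at h
  obtain ⟨c, rfl⟩ := h
  rw [aeval_C] at hα
  have : (c : L) = 0 := by simpa using hα
  have hc : c = 0 := by exact_mod_cast this
  rw [hc, C_0] at hF
  exact hF.ne_zero rfl

omit [CharZero L] in
lemma isIntegral_of_isUnit_leadingCoeff {F : ℤ[X]} (hu : IsUnit F.leadingCoeff) {α : L}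
    (hα : aeval α F = 0) : IsIntegral ℤ α := by
  rcases Int.isUnit_iff.mp hu with h | h
  · exact ⟨F, h, by rwa [← aeval_def]⟩
  · refine ⟨-F, by rw [Monic, leadingCoeff_neg, h, neg_neg], ?_⟩
    rw [← aeval_def, map_neg, hα, neg_zero]

theorem isIntegral_or_isIntegral {h : ℤ[X]} {p : ℕ} (hp : p.Prime)
    (hlc : h.leadingCoeff = p) [Algebra ℚ L] {α β : L} (hα : aeval α h = 0) (hβ : aeval β h = 0)
    (hne : minpoly ℚ α ≠ minpoly ℚ β) : IsIntegral ℤ α ∨ IsIntegral ℤ β := by
  have h0 : h ≠ 0 := by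
    rintro rfl
    rw [leadingCoeff_zero] at hlc
    exact hp.ne_zero (by exact_mod_cast hlc.symm)
  obtain ⟨F, hF, hFh, hFα⟩ := exists_irreducible_factor h0 hα
  obtain ⟨G, hG, hGh, hGβ⟩ := exists_irreducible_factor h0 hβ
  have hFp : F.IsPrimitive := hF.isPrimitive (natDegree_ne_zero_of_root hF hFα)
  have hFQ : Irreducible (F.map (Int.castRingHom ℚ)) :=
    (IsPrimitive.Int.irreducible_iff_irreducible_map_cast hFp).mp hF
  have hna : ¬ Associated F G := by
    intro hass
    apply hne
    have hFβ : aeval β F = 0 := by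
      obtain ⟨u, hu⟩ := hass.symm
      rw [← hu, map_mul, hGβ, zero_mul]
    have e1 : aeval α (F.map (Int.castRingHom ℚ)) = 0 := by
      have : Int.castRingHom ℚ = algebraMap ℤ ℚ := rfl
      rw [this, aeval_map_algebraMap]; exact hFα
    have e2 : aeval β (F.map (Int.castRingHom ℚ)) = 0 := by
      have : Int.castRingHom ℚ = algebraMap ℤ ℚ := rfl
      rw [this, aeval_map_algebraMap]; exact hFβ
    rw [← minpoly.eq_of_irreducible hFQ e1, ← minpoly.eq_of_irreducible hFQ e2]
  obtain ⟨K, rfl⟩ := hFh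
  have hGprime : Prime G := hG.prime
  have hGK : G ∣ K := by
    rcases hGprime.dvd_or_dvd hGh with h1 | h1
    · exact absurd ((hG.associated_of_dvd hF h1).symm) hna
    · exact h1
  obtain ⟨M, rfl⟩ := hGK
  rw [leadingCoeff_mul, leadingCoeff_mul] at hlc
  have hp' : Prime (p : ℤ) := Nat.prime_iff_prime_int.mp hp
  have hirr := hp'.irreducible
  rcases hirr.isUnit_or_isUnit hlc.symm with h1 | h1
  · exact Or.inl (isIntegral_of_isUnit_leadingCoeff h1 hFα)
  · exact Or.inr (isIntegral_of_isUnit_leadingCoeff (isUnit_of_mul_isUnit_left h1) hGβ)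

end

end Fermat.Agent.H13
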