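import Mathlib

set_option autoImplicit false

/-!
# 2-adic core of "no rational point of order p on the Frey curve"

`D n x` : the 2-adic valuation of `x : ℚ` is at least `n`;
`E n x` : the 2-adic valuation of `x : ℚ` is exactly `n`.
-/

namespace Fermat.Agent.H13

/-- the 2-adic valuation of `x` is at least `n`. -/
def D (n : ℤ) (x : ℚ) : Prop := ∃ a b : ℤ, ¬ (2:ℤ) ∣ b ∧ x * b = 2 ^ n * a

/-- the 2-adic valuation of `x` is exactly `n`. -/
def E (n : ℤ) (x : ℚ) : Prop := ∃ a b : ℤ, ¬ (2:ℤ) ∣ a ∧ ¬ (2:ℤ) ∣ b ∧ x * b = 2 ^ n * a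

lemma odd_mul {a b : ℤ} (ha : ¬ (2:ℤ) ∣ a) (hb : ¬ (2:ℤ) ∣ b) : ¬ (2:ℤ) ∣ a * b := by
  intro h
  rcases Int.prime_two.dvd_or_dvd h with h | h
  · exact ha h
  · exact hb h

lemma odd_ne_zero {a : ℤ} (ha : ¬ (2:ℤ) ∣ a) : (a : ℚ) ≠ 0 := by
  intro h
  apply ha
  have : a = 0 := by exact_mod_cast h
  rw [this]; exact dvd_zero _

lemma E.toD {n : ℤ} {x : ℚ} (h : E n x) : D n x := by
  obtain ⟨a, b, _, hb, h⟩ := h
  exact ⟨a, b, hb, h⟩

lemma D.mono {m n : ℤ} {x : ℚ} (hmn : m ≤ n) (h : D n x) : D m x := by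
  obtain ⟨a, b, hb, h⟩ := h
  obtain ⟨k, rfl⟩ := Int.le.dest hmn
  refine ⟨2 ^ k * a, b, hb, ?_⟩
  rw [h, zpow_add₀ (by norm_num), zpow_natCast]
  push_cast; ring

lemma D.add {n : ℤ} {x y : ℚ} (hx : D n x) (hy : D n y) : D n (x + y) := by
  obtain ⟨a, b, hb, h⟩ := hx
  obtain ⟨c, d, hd, h'⟩ := hy
  refine ⟨a * d + c * b, b * d, odd_mul hb hd, ?_⟩
  push_cast
  linear_combination (d : ℚ) * h + (b : ℚ) * h'

lemma D.neg {n : ℤ} {x : ℚ} (hx : D n x) : D n (-x) := by
  obtain ⟨a, b, hb, h⟩ := hx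
  refine ⟨-a, b, hb, ?_⟩
  push_cast
  linear_combination -h

lemma E.neg {n : ℤ} {x : ℚ} (hx : E n x) : E n (-x) := by
  obtain ⟨a, b, ha, hb, h⟩ := hx
  refine ⟨-a, b, by rwa [dvd_neg], hb, ?_⟩
  push_cast
  linear_combination -h

lemma D.sub {n : ℤ} {x y : ℚ} (hx : D n x) (hy : D n y) : D n (x - y) := by
  rw [sub_eq_add_neg]; exact hx.add hy.neg

lemma D.mul {m n : ℤ} {x y : ℚ} (hx : D m x) (hy : D n y) : D (m + n) (x * y) := by
  obtain ⟨a, b, hb, h⟩ := hx
  obtain ⟨c, d, hd, h'⟩ := hy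
  refine ⟨a * c, b * d, odd_mul hb hd, ?_⟩
  rw [zpow_add₀ (by norm_num)]
  push_cast
  calc x * y * (b * d) = (x * b) * (y * d) := by ring
    _ = _ := by rw [h, h']; ring

lemma E.mul {m n : ℤ} {x y : ℚ} (hx : E m x) (hy : E n y) : E (m + n) (x * y) := by
  obtain ⟨a, b, ha, hb, h⟩ := hx
  obtain ⟨c, d, hc, hd, h'⟩ := hy
  refine ⟨a * c, b * d, odd_mul ha hc, odd_mul hb hd, ?_⟩
  rw [zpow_add₀ (by norm_num)]
  push_cast
  calc x * y * (b * d) = (x * b) * (y * d) := by ring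
    _ = _ := by rw [h, h']; ring

lemma E.sq {m : ℤ} {x : ℚ} (hx : E m x) : E (2 * m) (x ^ 2) := by
  rw [_root_.sq, two_mul]; exact hx.mul hx

lemma D.sq {m : ℤ} {x : ℚ} (hx : D m x) : D (2 * m) (x ^ 2) := by
  rw [_root_.sq, two_mul]; exact hx.mul hx

lemma E.add_D {n : ℤ} {x y : ℚ} (hx : E n x) (hy : D (n + 1) y) : E n (x + y) := by
  obtain ⟨a, b, ha, hb, h⟩ := hx
  obtain ⟨c, d, hd, h'⟩ := hy
  refine ⟨a * d + 2 * (c * b), b * d, ?_, odd_mul hb hd, ?_⟩
  · intro hdvd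
    apply odd_mul ha hd
    exact (dvd_add_left (Dvd.intro _ rfl)).mp hdvd
  · rw [zpow_add₀ (by norm_num), zpow_one] at h'
    push_cast
    linear_combination (d : ℚ) * h + (b : ℚ) * h'

lemma E.add_D' {n m : ℤ} {x y : ℚ} (hx : E n x) (hy : D m y) (h : n < m) : E n (x + y) :=
  hx.add_D (hy.mono h)

lemma E.sub_D' {n m : ℤ} {x y : ℚ} (hx : E n x) (hy : D m y) (h : n < m) : E n (x - y) := by
  rw [sub_eq_add_neg]; exact hx.add_D' hy.neg h

lemma E.add_E {n : ℤ} {x y : ℚ} (hx : E n x) (hy : E n y) : D (n + 1) (x + y) := by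
  obtain ⟨a, b, ha, hb, h⟩ := hx
  obtain ⟨c, d, hc, hd, h'⟩ := hy
  have h1 := odd_mul ha hd
  have h2 := odd_mul hc hb
  obtain ⟨k, hk⟩ : (2:ℤ) ∣ a * d + c * b := by omega
  refine ⟨k, b * d, odd_mul hb hd, ?_⟩
  rw [zpow_add₀ (by norm_num), zpow_one]
  have hk' : (a : ℚ) * d + c * b = 2 * k := by exact_mod_cast hk
  push_cast
  linear_combination (d : ℚ) * h + (b : ℚ) * h' + 2 ^ n * hk'

lemma E.sub_E {n : ℤ} {x y : ℚ} (hx : E n x) (hy : E n y) : D (n + 1) (x - y) := by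
  rw [sub_eq_add_neg]; exact hx.add_E hy.neg

lemma E.le_of_D {n m : ℤ} {x : ℚ} (hx : E n x) (hy : D m x) : m ≤ n := by
  by_contra hlt
  push Not at hlt
  obtain ⟨a, b, ha, hb, h⟩ := hx
  obtain ⟨c, d, hd, h'⟩ := hy.mono (show n + 1 ≤ m from hlt)
  apply odd_mul ha hd
  refine ⟨c * b, ?_⟩
  rw [zpow_add₀ (by norm_num), zpow_one] at h'
  have h2 : (2:ℚ) ^ n ≠ 0 := zpow_ne_zero _ (by norm_num)
  have : (2:ℚ) ^ n * (a * d) = 2 ^ n * (2 * (c * b)) := by
    linear_combination -(d : ℚ) * h + (b : ℚ) * h'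
  have := mul_left_cancel₀ h2 this
  exact_mod_cast this

lemma E.unique {n m : ℤ} {x : ℚ} (hx : E n x) (hy : E m x) : n = m :=
  le_antisymm (hy.le_of_D hx.toD) (hx.le_of_D hy.toD)

lemma E.ne_zero {n : ℤ} {x : ℚ} (hx : E n x) : x ≠ 0 := by
  obtain ⟨a, b, ha, hb, h⟩ := hx
  rintro rfl
  rw [zero_mul] at h
  have := mul_ne_zero (zpow_ne_zero n (by norm_num : (2:ℚ) ≠ 0)) (odd_ne_zero ha)
  exact this h.symm

lemma D_zero (n : ℤ) : D n 0 := ⟨0, 1, by norm_num, by simp⟩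

lemma exists_odd_pow {a : ℤ} (ha : a ≠ 0) : ∃ (k : ℕ) (b : ℤ), ¬ (2:ℤ) ∣ b ∧ a = 2 ^ k * b := by
  have hfin : FiniteMultiplicity (2:ℤ) a := by
    rw [Int.finiteMultiplicity_iff]; exact ⟨by norm_num, ha⟩
  obtain ⟨b, hb, hb'⟩ := hfin.exists_eq_pow_mul_and_not_dvd
  exact ⟨_, b, hb', hb⟩

lemma exists_E {x : ℚ} (hx : x ≠ 0) : ∃ n : ℤ, E n x := by
  have hn : x.num ≠ 0 := Rat.num_ne_zero.mpr hx
  have hd : (x.den : ℤ) ≠ 0 := by exact_mod_cast x.den_nz
  obtain ⟨k, a, ha, hka⟩ := exists_odd_pow hn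
  obtain ⟨l, b, hb, hlb⟩ := exists_odd_pow hd
  refine ⟨k - l, a, b, ha, hb, ?_⟩
  have h1 : x * (x.den : ℚ) = x.num := Rat.mul_den_eq_num x
  have h2 : ((x.den : ℤ) : ℚ) = 2 ^ l * b := by rw [hlb]; push_cast; ring
  have h3 : ((x.num : ℤ) : ℚ) = 2 ^ k * a := by rw [hka]; push_cast; ring
  have h2' : (x.den : ℚ) = 2 ^ l * b := by exact_mod_cast h2
  rw [h2', h3] at h1
  rw [zpow_sub₀ (by norm_num), zpow_natCast, zpow_natCast]
  field_simp
  linear_combination h1

lemma E_of_mul {x y z : ℚ} {n m : ℤ} (h : x * y = z) (hy : E n y) (hz : E m z) :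
    E (m - n) x := by
  have hx : x ≠ 0 := by
    rintro rfl
    rw [zero_mul] at h
    exact hz.ne_zero h.symm
  obtain ⟨k, hk⟩ := exists_E hx
  have h1 := hk.mul hy
  rw [h] at h1
  have := h1.unique hz
  have h2 : m - n = k := by omega
  rwa [h2]

lemma D_of_mul {x y z : ℚ} {n m : ℤ} (h : x * y = z) (hy : E n y) (hz : D m z) :
    D (m - n) x := by
  by_cases hx : x = 0
  · rw [hx]; exact D_zero _
  obtain ⟨k, hk⟩ := exists_E hx
  have h1 := hk.mul hy
  rw [h] at h1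
  have := h1.le_of_D hz
  exact hk.toD.mono (by omega)

lemma E_odd {a : ℤ} (ha : ¬ (2:ℤ) ∣ a) : E 0 (a : ℚ) :=
  ⟨a, 1, ha, by norm_num, by simp⟩

lemma D_int (a : ℤ) : D 0 (a : ℚ) := ⟨a, 1, by norm_num, by simp⟩

lemma E_two : E 1 2 := ⟨1, 1, by norm_num, by norm_num, by norm_num⟩

lemma E_four : E 2 4 := ⟨1, 1, by norm_num, by norm_num, by norm_num⟩

/-- auxiliary: combine valuations of sum and product -/
lemma aux_sum_prod {u v : ℚ} {cu cv σ : ℤ} (hu : E cu u) (hv : E cv v) (hS : E σ (u + v)) :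
    (cu = cv ∧ cu + 1 ≤ σ) ∨ (cu < cv ∧ cu = σ) ∨ (cv < cu ∧ cv = σ) := by
  rcases lt_trichotomy cu cv with h | h | h
  · right; left
    exact ⟨h, (hu.add_D' hv.toD h).unique hS⟩
  · left
    subst h
    exact ⟨rfl, hS.le_of_D (hu.add_E hv)⟩
  · right; right
    have := hv.add_D' hu.toD h
    rw [add_comm] at this
    exact ⟨h, this.unique hS⟩

section core

variable {p s : ℕ} {A B : ℚ} {x : ℕ → ℚ}

/-- Hypotheses on the sequence `x k = x(k P)`. -/
structure Hyp (p s : ℕ) (A B : ℚ) (x : ℕ → ℚ) : Prop where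
  hp5 : 5 ≤ p
  hp : p.Prime
  hs : 0 < s
  hps : ¬ p ∣ s
  hA : E s A
  hB : E 0 B
  x_ne : ∀ k, ¬ p ∣ k → x k ≠ 0
  per : ∀ k l, k ≡ l [MOD p] → x k = x l
  dbl : ∀ k, ¬ p ∣ k → x (2 * k) * (x k * (4 * x k ^ 2 + B * x k + 4 * A)) = (x k ^ 2 - A) ^ 2
  prod : ∀ k m, m ≤ k → ¬ p ∣ k → ¬ p ∣ m → ¬ p ∣ k + m → ¬ p ∣ k - m →
    (x (k + m) * x (k - m)) * (x k - x m) ^ 2 = (x k * x m - A) ^ 2
  sum : ∀ k m, m ≤ k → ¬ p ∣ k → ¬ p ∣ m → ¬ p ∣ k + m → ¬ p ∣ k - m →
    (x (k + m) + x (k - m)) * (x k - x m) ^ 2 =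
      2 * (x k * x m) * (x k + x m) + B * (x k * x m) + 2 * A * (x k + x m)
  symm : ∀ k, k ≤ p → x (p - k) = x k

variable (H : Hyp p s A B x)
include H

omit H in
lemma Hyp.not_dvd_small' {k : ℕ} (h0 : 0 < k) (hk : k < p) : ¬ p ∣ k := fun h =>
  absurd (Nat.le_of_dvd h0 h) (by omega)

set_option linter.unusedSectionVars false in
lemma Hyp.not_dvd_small {k : ℕ} (h0 : 0 < k) (hk : k < p) : ¬ p ∣ k := fun h =>
  absurd (Nat.le_of_dvd h0 h) (by omega)

lemma Hyp.not_dvd_mul {j k : ℕ} (hj0 : 0 < j) (hj : j < 5) (hk : ¬ p ∣ k) : ¬ p ∣ j * k := by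
  intro h
  rcases (Nat.Prime.dvd_mul H.hp).mp h with h | h
  · exact H.not_dvd_small hj0 (lt_of_lt_of_le hj H.hp5) h
  · exact hk h

/-- doubling a non-integral value makes it strictly less integral -/
lemma Hyp.dbl_neg {k : ℕ} (hk : ¬ p ∣ k) {c : ℤ} (hc : E c (x k)) (hneg : c < 0) {c2 : ℤ}
    (hc2 : E c2 (x (2 * k))) : c2 < c := by
  have hs : (0:ℤ) < s := by exact_mod_cast H.hs
  have hR : E (2 * (2 * c)) ((x k ^ 2 - A) ^ 2) :=
    (hc.sq.sub_D' H.hA.toD (by omega)).sq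
  have h1 : D (0 + c) (B * x k) := H.hB.toD.mul hc.toD
  have h3 : D (2 + 2 * c) (4 * x k ^ 2) := E_four.toD.mul hc.sq.toD
  have h4 : D (2 + s) (4 * A) := E_four.toD.mul H.hA.toD
  rcases lt_or_ge c (-1) with h | h
  · have hbr : D (2 + 2 * c) (4 * x k ^ 2 + B * x k + 4 * A) :=
      ((h3).add (h1.mono (by omega))).add (h4.mono (by omega))
    have hL := hc2.toD.mul (hc.toD.mul hbr)
    rw [H.dbl k hk] at hL
    have := hR.le_of_D hL
    omega
  · have hbr : D c (4 * x k ^ 2 + B * x k + 4 * A) :=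
      ((h3.mono (by omega)).add (h1.mono (by omega))).add (h4.mono (by omega))
    have hL := hc2.toD.mul (hc.toD.mul hbr)
    rw [H.dbl k hk] at hL
    have := hR.le_of_D hL
    omega

lemma Hyp.x_int (k : ℕ) (hk : ¬ p ∣ k) : D 0 (x k) := by
  obtain ⟨c, hc⟩ := exists_E (H.x_ne k hk)
  rcases lt_or_ge c 0 with hneg | hpos
  swap
  · exact hc.toD.mono hpos
  exfalso
  have h2 : ¬ p ∣ 2 := fun h => absurd (Nat.le_of_dvd (by norm_num) h) (by have := H.hp5; omega)
  have hk2 : ∀ i : ℕ, ¬ p ∣ 2 ^ i * k := by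
    intro i h
    rcases (Nat.Prime.dvd_mul H.hp).mp h with h | h
    · exact h2 (H.hp.dvd_of_dvd_pow h)
    · exact hk h
  have key : ∀ i : ℕ, ∀ d : ℤ, E d (x (2 ^ i * k)) → d ≤ c - i := by
    intro i
    induction i with
    | zero =>
      intro d hd
      rw [pow_zero, one_mul] at hd
      rw [hd.unique hc]; simp
    | succ i ih =>
      intro d hd
      obtain ⟨e, he⟩ := exists_E (H.x_ne _ (hk2 i))
      have h1 := ih e he
      rw [show 2 ^ (i + 1) * k = 2 * (2 ^ i * k) by ring] at hd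
      have := H.dbl_neg (hk2 i) he (by omega) hd
      push_cast
      omega
  have hmod : 2 ^ (p - 1) * k ≡ 1 * k [MOD p] := by
    apply Nat.ModEq.mul_right
    have hcop : Nat.Coprime 2 p := by
      rw [Nat.coprime_comm]; exact (Nat.Prime.coprime_iff_not_dvd H.hp).mpr h2
    have := Nat.ModEq.pow_totient hcop
    rwa [Nat.totient_prime H.hp] at this
  rw [one_mul] at hmod
  have := key (p - 1) c (by rw [H.per _ _ hmod]; exact hc)
  have hp5 := H.hp5
  omega

/-- Claim 1 -/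
lemma Hyp.one_le {k : ℕ} (hk : ¬ p ∣ k) {c : ℤ} (hc : E c (x k)) : 1 ≤ c := by
  by_contra hlt
  have h0 : 0 ≤ c := hc.le_of_D (H.x_int k hk)
  have hc0 : c = 0 := by omega
  subst hc0
  have hs : (0:ℤ) < s := by exact_mod_cast H.hs
  have h2k : ¬ p ∣ 2 * k := H.not_dvd_mul (by norm_num) (by norm_num) hk
  have h3k : ¬ p ∣ 2 * k + k := by
    have := H.not_dvd_mul (j := 3) (by norm_num) (by norm_num) hk
    rwa [show 2 * k + k = 3 * k by ring]
  have hkk : ¬ p ∣ 2 * k - k := by rwa [show 2 * k - k = k by omega]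
  have hbr : E 0 (4 * x k ^ 2 + B * x k + 4 * A) := by
    have h1 : E 0 (B * x k) := by simpa using H.hB.mul hc
    have h2 : D 1 (4 * x k ^ 2 + 4 * A) := by
      have h3 : D (2 + 0) (4 * x k ^ 2) := E_four.toD.mul (by simpa using hc.sq.toD)
      have h4 : D (2 + s) (4 * A) := E_four.toD.mul H.hA.toD
      exact (h3.mono (by norm_num)).add (h4.mono (by omega))
    have := h1.add_D' h2 (by norm_num)
    rwa [show B * x k + (4 * x k ^ 2 + 4 * A) = 4 * x k ^ 2 + B * x k + 4 * A by ring] at this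
  have hR : E 0 ((x k ^ 2 - A) ^ 2) := by
    have h1 : E 0 (x k ^ 2) := by simpa using hc.sq
    have h2 : E 0 (x k ^ 2 - A) := h1.sub_D' H.hA.toD hs
    simpa using h2.sq
  have h2 : E 0 (x (2 * k)) := by
    have h3 : E 0 (x k * (4 * x k ^ 2 + B * x k + 4 * A)) := by simpa using hc.mul hbr
    simpa using E_of_mul (H.dbl k hk) h3 hR
  have hprod := H.prod (2 * k) k (by omega) h2k hk h3k hkk
  have hR' : E 0 ((x (2 * k) * x k - A) ^ 2) := by
    have h1 : E 0 (x (2 * k) * x k) := by simpa using h2.mul hc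
    have h3 : E 0 (x (2 * k) * x k - A) := h1.sub_D' H.hA.toD hs
    simpa using h3.sq
  have hL : D 2 ((x (2 * k + k) * x (2 * k - k)) * (x (2 * k) - x k) ^ 2) := by
    have h1 : D (0 + 0) (x (2 * k + k) * x (2 * k - k)) := (H.x_int _ h3k).mul (H.x_int _ hkk)
    have h3 : D (2 * (0 + 1)) ((x (2 * k) - x k) ^ 2) := (h2.sub_E hc).sq
    exact (h1.mul h3).mono (by norm_num)
  rw [hprod] at hL
  have := hR'.le_of_D hL
  omega

/-- Claim 2 -/
lemma Hyp.lt_s {k : ℕ} (hk : ¬ p ∣ k) {c : ℤ} (hc : E c (x k)) : c < s := by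
  by_contra hlt
  push Not at hlt
  have hs : (0:ℤ) < s := by exact_mod_cast H.hs
  have h2k : ¬ p ∣ 2 * k := H.not_dvd_mul (by norm_num) (by norm_num) hk
  obtain ⟨c2, hc2⟩ := exists_E (H.x_ne _ h2k)
  have h1 := H.one_le h2k hc2
  have hR : E (2 * s) ((x k ^ 2 - A) ^ 2) := by
    have h2 : D (2 * c) (x k ^ 2) := hc.sq.toD
    have h3 : E s (x k ^ 2 - A) := by
      have := H.hA.neg.add_D' h2 (by omega)
      rwa [show -A + x k ^ 2 = x k ^ 2 - A by ring] at this
    exact h3.sq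
  have hbr : D s (4 * x k ^ 2 + B * x k + 4 * A) := by
    have h1 : D (0 + c) (B * x k) := H.hB.toD.mul hc.toD
    have h3 : D (2 + 2 * c) (4 * x k ^ 2) := E_four.toD.mul hc.sq.toD
    have h4 : D (2 + s) (4 * A) := E_four.toD.mul H.hA.toD
    exact ((h3.mono (by omega)).add (h1.mono (by omega))).add (h4.mono (by omega))
  have hL : D (c2 + (c + s)) (x (2 * k) * (x k * (4 * x k ^ 2 + B * x k + 4 * A))) :=
    hc2.toD.mul (hc.toD.mul hbr)
  rw [H.dbl k hk] at hL
  have := hR.le_of_D hL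
  omega

/-- doubling -/
lemma Hyp.c_two {k : ℕ} (hk : ¬ p ∣ k) {c c2 : ℤ} (hc : E c (x k)) (hc2 : E c2 (x (2 * k))) :
    c2 = 2 * c ∨ c2 = 2 * s - 2 * c := by
  have hs : (0:ℤ) < s := by exact_mod_cast H.hs
  have h2k : ¬ p ∣ 2 * k := H.not_dvd_mul (by norm_num) (by norm_num) hk
  have h1 := H.one_le hk hc
  have h2 := H.lt_s hk hc
  have h3 := H.one_le h2k hc2
  have h4 := H.lt_s h2k hc2
  have hbr : E c (4 * x k ^ 2 + B * x k + 4 * A) := by
    have h1 : E c (B * x k) := by simpa using H.hB.mul hc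
    have h2 : D (c + 1) (4 * x k ^ 2 + 4 * A) := by
      have h3 : D (2 + 2 * c) (4 * x k ^ 2) := E_four.toD.mul hc.sq.toD
      have h4 : D (2 + s) (4 * A) := E_four.toD.mul H.hA.toD
      exact (h3.mono (by omega)).add (h4.mono (by omega))
    have := h1.add_D h2
    rwa [show B * x k + (4 * x k ^ 2 + 4 * A) = 4 * x k ^ 2 + B * x k + 4 * A by ring] at this
  have hL := hc2.mul (hc.mul hbr)
  rw [H.dbl k hk] at hL
  rcases lt_trichotomy (2 * c) (s : ℤ) with h5 | h5 | h5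
  · left
    have hR : E (2 * (2 * c)) ((x k ^ 2 - A) ^ 2) := (hc.sq.sub_D' H.hA.toD h5).sq
    have := hL.unique hR
    omega
  · exfalso
    have hR : D (2 * (2 * c + 1)) ((x k ^ 2 - A) ^ 2) := by
      have h6 : E (2 * c) A := by rw [h5]; exact H.hA
      exact (hc.sq.sub_E h6).sq
    have := hL.le_of_D hR
    omega
  · right
    have hR : E (2 * s) ((x k ^ 2 - A) ^ 2) := by
      have h3 : E s (x k ^ 2 - A) := by
        have := H.hA.neg.add_D' hc.sq.toD h5
        rwa [show -A + x k ^ 2 = x k ^ 2 - A by ring] at this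
      exact h3.sq
    have := hL.unique hR
    omega

/-- Claim 3 core, for two values `X, Y` of valuations `i < j` -/
lemma Hyp.claim3_core {X Y u v : ℚ} {i j cu cv : ℤ} (hX : E i X) (hY : E j Y) (hi : 1 ≤ i)
    (hij : i < j) (hjs : j < s) (hu : E cu u) (hv : E cv v)
    (hu1 : 1 ≤ cu) (hus : cu < s) (hv1 : 1 ≤ cv) (hvs : cv < s)
    (hprod : (u * v) * (X - Y) ^ 2 = (X * Y - A) ^ 2)
    (hsum : (u + v) * (X - Y) ^ 2 = 2 * (X * Y) * (X + Y) + B * (X * Y) + 2 * A * (X + Y)) :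
    (cu = j - i ∧ (cv = i + j ∨ cv = 2 * s - i - j)) ∨
      (cv = j - i ∧ (cu = i + j ∨ cu = 2 * s - i - j)) := by
  have hd : E (2 * i) ((X - Y) ^ 2) := (hX.sub_D' hY.toD hij).sq
  have hXY : E (i + j) (X * Y) := hX.mul hY
  have hXpY : D i (X + Y) := hX.toD.add (hY.toD.mono hij.le)
  have hS : E (i + j) (2 * (X * Y) * (X + Y) + B * (X * Y) + 2 * A * (X + Y)) := by
    have h1 : E (i + j) (B * (X * Y)) := by simpa using H.hB.mul hXY
    have h2 : D (i + j + 1) (2 * (X * Y) * (X + Y)) :=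
      ((E_two.toD.mul hXY.toD).mul hXpY).mono (by omega)
    have h3 : D (i + j + 1) (2 * A * (X + Y)) :=
      ((E_two.toD.mul H.hA.toD).mul hXpY).mono (by omega)
    have := (h1.add_D h2).add_D h3
    rwa [show B * (X * Y) + 2 * (X * Y) * (X + Y) + 2 * A * (X + Y) =
      2 * (X * Y) * (X + Y) + B * (X * Y) + 2 * A * (X + Y) by ring] at this
  have hσ : E (i + j - 2 * i) (u + v) := E_of_mul hsum hd hS
  have hcase := aux_sum_prod hu hv hσ
  have huv := (hu.mul hv).mul hd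
  rw [hprod] at huv
  rcases lt_trichotomy (i + j) (s : ℤ) with h5 | h5 | h5
  · have hR := (hXY.sub_D' H.hA.toD h5).sq
    have := huv.unique hR
    omega
  · exfalso
    have hR : D (2 * (i + j + 1)) ((X * Y - A) ^ 2) := by
      have h6 : E (i + j) A := by rw [h5]; exact H.hA
      exact (hXY.sub_E h6).sq
    have := huv.le_of_D hR
    omega
  · have hR : E (2 * s) ((X * Y - A) ^ 2) := by
      have h3 : E s (X * Y - A) := by
        have := H.hA.neg.add_D' hXY.toD h5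
        rwa [show -A + X * Y = X * Y - A by ring] at this
      exact h3.sq
    have := huv.unique hR
    omega

/-- Claim 3a: equal valuations impossible -/
lemma Hyp.claim3_ne {X Y u v : ℚ} {i cu cv : ℤ} (hX : E i X) (hY : E i Y) (hi : 1 ≤ i)
    (his : i < s) (hu : E cu u) (hv : E cv v)
    (hu1 : 1 ≤ cu) (hv1 : 1 ≤ cv)
    (hsum : (u + v) * (X - Y) ^ 2 = 2 * (X * Y) * (X + Y) + B * (X * Y) + 2 * A * (X + Y)) :
    False := by
  have hXY : E (i + i) (X * Y) := hX.mul hY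
  have hXpY : D i (X + Y) := hX.toD.add hY.toD
  have hS : E (i + i) (2 * (X * Y) * (X + Y) + B * (X * Y) + 2 * A * (X + Y)) := by
    have h1 : E (i + i) (B * (X * Y)) := by simpa using H.hB.mul hXY
    have h2 : D (i + i + 1) (2 * (X * Y) * (X + Y)) :=
      ((E_two.toD.mul hXY.toD).mul hXpY).mono (by omega)
    have h3 : D (i + i + 1) (2 * A * (X + Y)) :=
      ((E_two.toD.mul H.hA.toD).mul hXpY).mono (by omega)
    have := (h1.add_D h2).add_D h3
    rwa [show B * (X * Y) + 2 * (X * Y) * (X + Y) + 2 * A * (X + Y) =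
      2 * (X * Y) * (X + Y) + B * (X * Y) + 2 * A * (X + Y) by ring] at this
  have hL : D (1 + 2 * (i + 1)) ((u + v) * (X - Y) ^ 2) :=
    ((hu.toD.mono hu1).add (hv.toD.mono hv1)).mul (hX.sub_E hY).sq
  rw [hsum] at hL
  have := hS.le_of_D hL
  omega

/-- Claim 3 for the sequence -/
lemma Hyp.claim3 {k m : ℕ} (hmk : m ≤ k) (hk : ¬ p ∣ k) (hm : ¬ p ∣ m) (hkm : ¬ p ∣ k + m)
    (hkm' : ¬ p ∣ k - m) {i j cu cv : ℤ} (hi : E i (x k)) (hj : E j (x m))
    (hu : E cu (x (k + m))) (hv : E cv (x (k - m))) :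
    ((cu = j - i ∨ cu = i - j) ∧ (cv = i + j ∨ cv = 2 * s - i - j)) ∨
      ((cv = j - i ∨ cv = i - j) ∧ (cu = i + j ∨ cu = 2 * s - i - j)) := by
  have hprod := H.prod k m hmk hk hm hkm hkm'
  have hsum := H.sum k m hmk hk hm hkm hkm'
  have a1 := H.one_le hk hi
  have a2 := H.lt_s hk hi
  have b1 := H.one_le hm hj
  have b2 := H.lt_s hm hj
  have c1 := H.one_le hkm hu
  have c2 := H.lt_s hkm hu
  have d1 := H.one_le hkm' hv
  have d2 := H.lt_s hkm' hv
  rcases lt_trichotomy i j with h | h | h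
  · have := H.claim3_core hi hj a1 h b2 hu hv c1 c2 d1 d2 hprod hsum
    omega
  · exfalso
    subst h
    exact H.claim3_ne hi hj a1 a2 hu hv c1 d1 hsum
  · have hprod' : (x (k + m) * x (k - m)) * (x m - x k) ^ 2 = (x m * x k - A) ^ 2 := by
      rw [show (x m - x k) ^ 2 = (x k - x m) ^ 2 by ring, hprod]; ring
    have hsum' : (x (k + m) + x (k - m)) * (x m - x k) ^ 2 =
        2 * (x m * x k) * (x m + x k) + B * (x m * x k) + 2 * A * (x m + x k) := by
      rw [show (x m - x k) ^ 2 = (x k - x m) ^ 2 by ring, hsum]; ring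
    have := H.claim3_core hj hi b1 h a2 hu hv c1 c2 d1 d2 hprod' hsum'
    omega

/-- Claim 4 -/
lemma Hyp.claim4 {c1 : ℤ} (hc1 : E c1 (x 1)) : ∀ k : ℕ, 1 ≤ k → k < p → ∀ c : ℤ, E c (x k) →
    (2 * s : ℤ) ∣ c - k * c1 ∨ (2 * s : ℤ) ∣ c + k * c1 := by
  have hp5 := H.hp5
  intro k
  induction k using Nat.strong_induction_on with
  | _ k ih =>
    intro hk1 hkp c hc
    rcases Nat.lt_or_ge k 3 with h3 | h3
    · rcases (by omega : k = 1 ∨ k = 2) with rfl | rfl
      · left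
        have := hc.unique hc1
        rw [this]; simp
      · have hd1 : ¬ p ∣ 1 := H.not_dvd_small (by norm_num) (by omega)
        have := H.c_two hd1 hc1 (c2 := c) (by simpa using hc)
        rcases this with h | h
        · left; rw [h]; simp
        · right
          rw [h]
          exact ⟨1, by push_cast; ring⟩
    · obtain ⟨k', rfl⟩ : ∃ k', k = k' + 1 := ⟨k - 1, by omega⟩
      have hk' : ¬ p ∣ k' := H.not_dvd_small (by omega) (by omega)
      have hd1 : ¬ p ∣ 1 := H.not_dvd_small (by norm_num) (by omega)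
      have hk'' : ¬ p ∣ k' - 1 := H.not_dvd_small (by omega) (by omega)
      have hkk : ¬ p ∣ k' + 1 := H.not_dvd_small (by omega) (by omega)
      obtain ⟨i, hi⟩ := exists_E (H.x_ne k' hk')
      obtain ⟨w, hw⟩ := exists_E (H.x_ne (k' - 1) hk'')
      have ih1 := ih k' (by omega) (by omega) (by omega) i hi
      have ih2 := ih (k' - 1) (by omega) (by omega) (by omega) w hw
      have key := H.claim3 (by omega : 1 ≤ k') hk' hd1 hkk hk'' hi hc1 hc hw
      have e1 := H.one_le hkk hc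
      have e2 := H.lt_s hkk hc
      have e3 := H.one_le hk'' hw
      have e4 := H.lt_s hk'' hw
      have hcast : ((k' - 1 : ℕ) : ℤ) = k' - 1 := by
        rw [Nat.cast_sub (by omega)]; norm_num
      rw [hcast] at ih2
      -- c ≡ ± (k'+1) c1 or c ≡ ± (k'-1) c1 and w ≡ the other
      have hor : (((2 * s : ℤ) ∣ c - (k' + 1) * c1 ∨ (2 * s : ℤ) ∣ c + (k' + 1) * c1)) ∨
          (((2 * s : ℤ) ∣ c - (k' - 1) * c1 ∨ (2 * s : ℤ) ∣ c + (k' - 1) * c1) ∧
          ((2 * s : ℤ) ∣ w - (k' + 1) * c1 ∨ (2 * s : ℤ) ∣ w + (k' + 1) * c1)) := by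
        rcases ih1 with ⟨t, ht⟩ | ⟨t, ht⟩
        · -- i = k' c1 + 2 s t
          rcases key with ⟨hcu, hcv⟩ | ⟨hcv, hcu⟩
          · right
            constructor
            · rcases hcu with h | h
              · right; exact ⟨-t, by rw [h]; linear_combination -ht⟩
              · left; exact ⟨t, by rw [h]; linear_combination ht⟩
            · rcases hcv with h | h
              · left; exact ⟨t, by rw [h]; linear_combination ht⟩
              · right; exact ⟨1 - t, by rw [h]; linear_combination -ht⟩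
          · left
            rcases hcu with h | h
            · left; exact ⟨t, by rw [h]; linear_combination ht⟩
            · right; exact ⟨1 - t, by rw [h]; linear_combination -ht⟩
        · -- i = - k' c1 + 2 s t
          rcases key with ⟨hcu, hcv⟩ | ⟨hcv, hcu⟩
          · left
            rcases hcu with h | h
            · left; exact ⟨-t, by rw [h]; linear_combination -ht⟩
            · right; exact ⟨t, by rw [h]; linear_combination ht⟩
          · right
            constructor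
            · rcases hcu with h | h
              · right; exact ⟨t, by rw [h]; linear_combination ht⟩
              · left; exact ⟨1 - t, by rw [h]; linear_combination -ht⟩
            · rcases hcv with h | h
              · left; exact ⟨-t, by rw [h]; linear_combination -ht⟩
              · right; exact ⟨t, by rw [h]; linear_combination ht⟩
      push_cast
      rcases hor with hor | ⟨hor1, hor2⟩
      · exact hor
      · -- then c = w
        have hcw : c = w := by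
          have hdiv : (2 * s : ℤ) ∣ c - w ∨ (2 * s : ℤ) ∣ c + w := by
            rcases hor1 with ⟨t, ht⟩ | ⟨t, ht⟩ <;> rcases ih2 with ⟨r, hr⟩ | ⟨r, hr⟩
            · left; exact ⟨t - r, by linear_combination ht - hr⟩
            · right; exact ⟨t + r, by linear_combination ht + hr⟩
            · right; exact ⟨t + r, by linear_combination ht + hr⟩
            · left; exact ⟨t - r, by linear_combination ht - hr⟩
          rcases hdiv with h | h
          · have := Int.eq_zero_of_abs_lt_dvd h (by rw [abs_lt]; constructor <;> omega)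
            omega
          · have := Int.eq_zero_of_abs_lt_dvd h (by rw [abs_lt]; constructor <;> omega)
            omega
        rw [hcw]
        exact hor2

theorem two_adic_core : False := by
  have hp5 := H.hp5
  have hs : (0:ℤ) < s := by exact_mod_cast H.hs
  have hd1 : ¬ p ∣ 1 := H.not_dvd_small (by norm_num) (by omega)
  have hd2 : ¬ p ∣ 2 := H.not_dvd_small (by norm_num) (by omega)
  obtain ⟨c1, hc1⟩ := exists_E (H.x_ne 1 hd1)
  obtain ⟨c2, hc2⟩ := exists_E (H.x_ne 2 hd2)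
  have a1 := H.one_le hd1 hc1
  have a2 := H.lt_s hd1 hc1
  have b1 := H.one_le hd2 hc2
  have b2 := H.lt_s hd2 hc2
  have h1 := H.claim4 hc1 (p - 1) (by omega) (by omega) c1 (by rw [H.symm 1 (by omega)]; exact hc1)
  have h2 := H.claim4 hc1 (p - 2) (by omega) (by omega) c2 (by rw [H.symm 2 (by omega)]; exact hc2)
  have hcast1 : ((p - 1 : ℕ) : ℤ) = p - 1 := by rw [Nat.cast_sub (by omega)]; norm_num
  have hcast2 : ((p - 2 : ℕ) : ℤ) = p - 2 := by rw [Nat.cast_sub (by omega)]; norm_num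
  rw [hcast1] at h1
  rw [hcast2] at h2
  have hdvd : (2 * s : ℤ) ∣ p * c1 := by
    rcases h1 with ⟨t, ht⟩ | ⟨t, ht⟩
    · -- c1 - (p-1) c1 = (2-p) c1 = 2 s t, so 2 s ∣ c2
      exfalso
      have hc2' : (2 * s : ℤ) ∣ c2 := by
        rcases h2 with ⟨r, hr⟩ | ⟨r, hr⟩
        · exact ⟨r - t, by linear_combination hr - ht⟩
        · exact ⟨r + t, by linear_combination hr + ht⟩
      have := Int.le_of_dvd (by omega) hc2'
      omega
    · exact ⟨t, by linear_combination ht⟩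
  have hcop : IsCoprime (2 * s : ℤ) (p : ℤ) := by
    have h3 : Nat.Coprime (2 * s) p := by
      rw [Nat.coprime_comm, Nat.Prime.coprime_iff_not_dvd H.hp]
      intro h
      rcases (Nat.Prime.dvd_mul H.hp).mp h with h | h
      · exact hd2 h
      · exact H.hps h
    have := Nat.isCoprime_iff_coprime.mpr h3
    push_cast at this
    exact this
  have := hcop.dvd_of_dvd_mul_left hdvd
  have := Int.le_of_dvd (by omega) this
  omega

end core

end Fermat.Agent.H13
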