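import Mathlib

/-!
# The Kummer (x-coordinate) relation on a Weierstrass curve

For all points `P Q` of a Weierstrass curve over a field, the triple
`sym2x (P+Q) (P-Q)` is projectively equal to `addSubMap (sym2x P Q)`.
-/

set_option autoImplicit false

namespace Fermat.Agent.H72

open WeierstrassCurve WeierstrassCurve.Affine WeierstrassCurve.Affine.Point

variable {F : Type*} [Field F] [DecidableEq F] {W : Affine F}

/-- numerator of the x-coordinate -/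
noncomputable def xN (P : W.Point) : F := P.xRep 0

/-- denominator of the x-coordinate -/
noncomputable def xD (P : W.Point) : F := P.xRep 1

omit [DecidableEq F] in
@[simp] lemma xN_zero : xN (0 : W.Point) = 1 := by simp [xN]
omit [DecidableEq F] in
@[simp] lemma xD_zero : xD (0 : W.Point) = 0 := by simp [xD]
omit [DecidableEq F] in
@[simp] lemma xN_some {x y : F} (h : W.Nonsingular x y) : xN (Point.some x y h) = x := by simp [xN]
omit [DecidableEq F] in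
@[simp] lemma xD_some {x y : F} (h : W.Nonsingular x y) : xD (Point.some x y h) = 1 := by simp [xD]
omit [DecidableEq F] in
@[simp] lemma xN_neg (P : W.Point) : xN (-P) = xN P := by simp [xN]
omit [DecidableEq F] in
@[simp] lemma xD_neg (P : W.Point) : xD (-P) = xD P := by simp [xD]

/-- The statement of the Kummer relation for a pair of points `P Q` and the sum `S`, difference `D`. -/
def KummerRel (W : Affine F) (P Q S D : W.Point) : Prop :=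
  ∃ c : F, c ≠ 0 ∧
    c * (xN S * xN D) = (xN P * xN Q) ^ 2 - W.b₄ * (xN P * xN Q) * (xD P * xD Q)
      - W.b₆ * (xN P * xD Q + xD P * xN Q) * (xD P * xD Q) - W.b₈ * (xD P * xD Q) ^ 2 ∧
    c * (xN S * xD D + xD S * xN D) =
      2 * (xN P * xD Q + xD P * xN Q) * (xN P * xN Q) + W.b₂ * (xN P * xN Q) * (xD P * xD Q)
      + W.b₄ * (xN P * xD Q + xD P * xN Q) * (xD P * xD Q) + W.b₆ * (xD P * xD Q) ^ 2 ∧
    c * (xD S * xD D) = (xN P * xD Q - xD P * xN Q) ^ 2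

omit [DecidableEq F] in
lemma KummerRel.swap {P Q S D : W.Point} (h : KummerRel W P Q S D) : KummerRel W P Q D S := by
  obtain ⟨c, hc, h0, h1, h2⟩ := h
  refine ⟨c, hc, ?_, ?_, ?_⟩
  · rw [← h0]; ring
  · rw [← h1]; ring
  · rw [← h2]; ring

omit [DecidableEq F] in
lemma KummerRel.neg_right {P Q S D : W.Point} (h : KummerRel W P Q S D) :
    KummerRel W P (-Q) S D := by
  simpa only [KummerRel, xN_neg, xD_neg] using h

/-- doubling case -/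
lemma kummerRel_self (P : W.Point) : KummerRel W P P (P + P) 0 := by
  rcases P with _ | ⟨x, y, h⟩
  · change KummerRel W (0 : W.Point) 0 (0 + 0) 0
    rw [add_zero]
    exact ⟨1, one_ne_zero, by simp, by simp, by simp⟩
  · have heq := (equation_iff ..).mp h.1
    by_cases hy : y = W.negY x y
    · rw [add_self_of_Y_eq hy]
      have hns := (nonsingular_iff' ..).mp h
      have hy' : 2 * y + W.a₁ * x + W.a₃ = 0 := by
        rw [negY] at hy; linear_combination hy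
      have hN : W.a₁ * y - (3 * x ^ 2 + 2 * W.a₂ * x + W.a₄) ≠ 0 := by
        rcases hns.2 with h1 | h1
        · exact h1
        · exact absurd hy' h1
      refine ⟨(W.a₁ * y - (3 * x ^ 2 + 2 * W.a₂ * x + W.a₄)) ^ 2, pow_ne_zero 2 hN, ?_, ?_, ?_⟩
      · simp only [xN_zero, xN_some, xD_some, b₄, b₆, b₈]
        linear_combination (-(W.a₁ ^ 2 + 4 * W.a₂ + 8 * x)) * heq +
          (W.a₁ * (W.a₁ * y - (3 * x ^ 2 + 2 * W.a₂ * x + W.a₄)) +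
            (W.a₂ + 2 * x) * (2 * y + W.a₁ * x + W.a₃)) * hy'
      · simp only [xN_zero, xD_zero, xN_some, xD_some, b₂, b₄, b₆]
        linear_combination 4 * heq - (2 * y + W.a₁ * x + W.a₃) * hy'
      · simp
    · rw [add_self_of_Y_ne hy]
      have hD : y - W.negY x y ≠ 0 := sub_ne_zero.mpr hy
      obtain ⟨ℓ, hℓ⟩ : ∃ ℓ, ℓ = W.slope x x y y := ⟨_, rfl⟩
      have hℓ' : ℓ * (2 * y + W.a₁ * x + W.a₃) =
          3 * x ^ 2 + 2 * W.a₂ * x + W.a₄ - W.a₁ * y := by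
        rw [hℓ, slope_of_Y_ne rfl hy]
        have : 2 * y + W.a₁ * x + W.a₃ = y - W.negY x y := by rw [negY]; ring
        rw [this, div_mul_cancel₀ _ hD]
      have hD' : (y - W.negY x y) = 2 * y + W.a₁ * x + W.a₃ := by rw [negY]; ring
      refine ⟨(y - W.negY x y) ^ 2, pow_ne_zero 2 hD, ?_, ?_, ?_⟩
      · simp only [xN_zero, xN_some, ← hℓ, xD_some, addX, hD', b₄, b₆, b₈]
        linear_combination (-(W.a₁ ^ 2 + 4 * W.a₂ + 8 * x)) * heq +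
          (ℓ * (2 * y + W.a₁ * x + W.a₃) + (3 * x ^ 2 + 2 * W.a₂ * x + W.a₄ - W.a₁ * y)
            + W.a₁ * (2 * y + W.a₁ * x + W.a₃)) * hℓ'
      · simp only [xN_zero, xD_zero, xN_some, xD_some, hD', b₂, b₄, b₆]
        linear_combination 4 * heq
      · simp

/-- The Kummer relation. -/
theorem kummerRel (P Q : W.Point) : KummerRel W P Q (P + Q) (P - Q) := by
  rcases P with _ | ⟨x₁, y₁, h₁⟩
  · change KummerRel W (0 : W.Point) Q (0 + Q) (0 - Q)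
    rw [zero_add, zero_sub]
    refine ⟨1, one_ne_zero, ?_, ?_, ?_⟩ <;> simp <;> ring
  rcases Q with _ | ⟨x₂, y₂, h₂⟩
  · change KummerRel W (Point.some x₁ y₁ h₁) 0 (Point.some x₁ y₁ h₁ + 0) (Point.some x₁ y₁ h₁ - 0)
    rw [add_zero, sub_zero]
    refine ⟨1, one_ne_zero, ?_, ?_, ?_⟩ <;> simp <;> ring
  by_cases hx : x₁ = x₂
  · rcases (X_eq_iff (h₁ := h₁) (h₂ := h₂)).mp hx with hPQ | hPQ
    · rw [hPQ, sub_self]; exact kummerRel_self _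
    · have hQ : Point.some x₂ y₂ h₂ = - Point.some x₁ y₁ h₁ := by rw [hPQ, neg_neg]
      rw [hQ, add_neg_cancel, sub_neg_eq_add]
      exact (kummerRel_self (Point.some x₁ y₁ h₁)).neg_right.swap
  · have heq₁ := (equation_iff ..).mp h₁.1
    have heq₂ := (equation_iff ..).mp h₂.1
    have hd : x₁ - x₂ ≠ 0 := sub_ne_zero.mpr hx
    rw [sub_eq_add_neg, neg_some, add_of_X_ne hx, add_of_X_ne hx]
    obtain ⟨ℓ, hℓ⟩ : ∃ ℓ, ℓ = W.slope x₁ x₂ y₁ y₂ := ⟨_, rfl⟩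
    obtain ⟨ℓ', hℓ'⟩ : ∃ ℓ, ℓ = W.slope x₁ x₂ y₁ (W.negY x₂ y₂) := ⟨_, rfl⟩
    have hs : ℓ * (x₁ - x₂) = y₁ - y₂ := by
      rw [hℓ, slope_of_X_ne hx, div_mul_cancel₀ _ hd]
    have hs' : ℓ' * (x₁ - x₂) = y₁ + y₂ + W.a₁ * x₂ + W.a₃ := by
      rw [hℓ', slope_of_X_ne hx, div_mul_cancel₀ _ hd, negY]; ring
    refine ⟨(x₁ - x₂) ^ 2, pow_ne_zero 2 hd, ?_, ?_, ?_⟩
    · simp only [xN_some, xD_some, ← hℓ, ← hℓ', addX, b₄, b₆, b₈]
      apply mul_left_cancel₀ (pow_ne_zero 2 hd)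
      -- abbreviations
      obtain ⟨d, hd'⟩ : ∃ d, d = x₁ - x₂ := ⟨_, rfl⟩
      obtain ⟨M, hM⟩ : ∃ M, M = y₁ - y₂ := ⟨_, rfl⟩
      obtain ⟨M', hM'⟩ : ∃ M', M' = y₁ + y₂ + W.a₁ * x₂ + W.a₃ := ⟨_, rfl⟩
      obtain ⟨h, hh⟩ : ∃ h, h = W.a₂ + x₁ + x₂ := ⟨_, rfl⟩
      obtain ⟨G, hG⟩ : ∃ G, G = x₁ ^ 2 + x₁ * x₂ + x₂ ^ 2 + W.a₂ * (x₁ + x₂) + W.a₄ - W.a₁ * y₁ :=
        ⟨_, rfl⟩
      have key : (M ^ 2 + W.a₁ * M * d - h * d ^ 2) * (M' ^ 2 + W.a₁ * M' * d - h * d ^ 2) =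
          d ^ 2 * ((x₁ * x₂) ^ 2 - (2 * W.a₄ + W.a₁ * W.a₃) * (x₁ * x₂)
            - (W.a₃ ^ 2 + 4 * W.a₆) * (x₁ + x₂)
            - (W.a₁ ^ 2 * W.a₆ + 4 * W.a₂ * W.a₆ - W.a₁ * W.a₃ * W.a₄ + W.a₂ * W.a₃ ^ 2
              - W.a₄ ^ 2)) := by
        rw [hM, hM', hh, hd']
        linear_combination (heq₁ - heq₂) * ((y₁ - y₂) * (y₁ + y₂ + W.a₁ * x₂ + W.a₃) +
            (x₁ - x₂) * (x₁ ^ 2 + x₁ * x₂ + x₂ ^ 2 + W.a₂ * (x₁ + x₂) + W.a₄ - W.a₁ * y₁)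
            + W.a₁ * (x₁ - x₂) * (y₁ - y₂ + (y₁ + y₂ + W.a₁ * x₂ + W.a₃))
            + W.a₁ ^ 2 * (x₁ - x₂) ^ 2)
          + (x₁ - x₂) ^ 2 * (-(W.a₁ ^ 2 + 2 * (W.a₂ + x₁ + x₂)) * heq₁
            - 2 * (W.a₂ + x₁ + x₂) * heq₂)
      rw [← hM] at hs
      rw [← hM'] at hs'
      rw [← hd'] at hs hs' ⊢
      have e1 : d ^ 2 * (ℓ ^ 2 + W.a₁ * ℓ - W.a₂ - x₁ - x₂) = M ^ 2 + W.a₁ * M * d - h * d ^ 2 := by
        rw [← hs, hh]; ring
      have e2 : d ^ 2 * (ℓ' ^ 2 + W.a₁ * ℓ' - W.a₂ - x₁ - x₂) =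
          M' ^ 2 + W.a₁ * M' * d - h * d ^ 2 := by
        rw [← hs', hh]; ring
      calc d ^ 2 * (d ^ 2 * ((ℓ ^ 2 + W.a₁ * ℓ - W.a₂ - x₁ - x₂) *
              (ℓ' ^ 2 + W.a₁ * ℓ' - W.a₂ - x₁ - x₂)))
          = (d ^ 2 * (ℓ ^ 2 + W.a₁ * ℓ - W.a₂ - x₁ - x₂)) *
            (d ^ 2 * (ℓ' ^ 2 + W.a₁ * ℓ' - W.a₂ - x₁ - x₂)) := by ring
        _ = _ := by rw [e1, e2, key]; ring
    · simp only [xN_some, xD_some, ← hℓ, ← hℓ', addX, b₂, b₄, b₆]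
      linear_combination 2 * heq₁ + 2 * heq₂ +
        (ℓ * (x₁ - x₂) + (y₁ - y₂) + W.a₁ * (x₁ - x₂)) * hs +
        (ℓ' * (x₁ - x₂) + (y₁ + y₂ + W.a₁ * x₂ + W.a₃) + W.a₁ * (x₁ - x₂)) * hs'
    · simp only [xD_some, xN_some]; ring

end Fermat.Agent.H72
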