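import Mathlib
import Fermat.Agent.H13TwoAdic
import Fermat.Agent.H72Kummer
import Fermat.Agent.H4FreySemistable
import Fermat.Prelude.Def_FLTPrelim_FreyPackage
import Fermat.Prelude.Def_FLTPrelim_GaloisRep

set_option autoImplicit false

/-!
# No Galois-fixed point of order `p` on the Frey curve
-/

open WeierstrassCurve WeierstrassCurve.Affine WeierstrassCurve.Affine.Point

namespace Fermat.Agent.H13

open Fermat.Agent.H72

/-- abbreviation for `ℚ̄` -/
local notation "Qb" => AlgebraicClosure ℚ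

theorem isAlgebraic_Qb : Algebra.IsAlgebraic ℚ Qb := AlgebraicClosure.isAlgebraic ℚ

theorem isGalois_Qb : IsGalois ℚ Qb := by
  have := isAlgebraic_Qb
  have : IsAlgClosure ℚ Qb := ⟨inferInstance, inferInstance⟩
  have : Normal ℚ Qb := IsAlgClosure.normal ℚ Qb
  exact ⟨⟩

/-- A point of `E(ℚ̄)` fixed by Galois has rational x-coordinate representative. -/
lemma exists_rat_of_fixed {E : WeierstrassCurve ℚ}
    (R : (E⁄Qb).Point)
    (hR : ∀ σ : Qb ≃ₐ[ℚ] Qb, σ • R = R) :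
    ∃ r : ℚ, R ≠ 0 → algebraMap ℚ Qb r = xN R := by
  rcases R with _ | ⟨x, y, h⟩
  · exact ⟨0, fun h => absurd rfl h⟩
  · have hx : ∀ σ : Qb ≃ₐ[ℚ] Qb, σ x = x := by
      intro σ
      have h1 := hR σ
      rw [algEquiv_smul_def, map_some] at h1
      have h2 := (Point.some.injEq _ _ _ _ _ _).mp h1
      exact h2.1
    have := isGalois_Qb
    have : x ∈ (⊥ : IntermediateField ℚ Qb) :=
      (InfiniteGalois.mem_bot_iff_fixed x).mpr hx
    obtain ⟨r, hr⟩ := IntermediateField.mem_bot.mp this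
    exact ⟨r, fun _ => by rw [hr, xN_some]⟩

lemma xD_of_ne_zero {E : WeierstrassCurve ℚ} {R : (E⁄Qb).Point} (hR : R ≠ 0) : xD R = 1 := by
  rcases R with _ | ⟨x, y, h⟩
  · exact absurd rfl hR
  · exact xD_some h

section

variable {E : WeierstrassCurve ℚ} {A B : ℚ}

lemma kummer_prod_sum (hb2 : E.b₂ = B) (hb4 : E.b₄ = 2 * A) (hb6 : E.b₆ = 0)
    (hb8 : E.b₈ = -A ^ 2) (R S : (E⁄Qb).Point) (hR : R ≠ 0) (hS : S ≠ 0) (h1 : R + S ≠ 0)
    (h2 : R - S ≠ 0) :
    (xN (R + S) * xN (R - S)) * (xN R - xN S) ^ 2 =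
        (xN R * xN S - algebraMap ℚ Qb A) ^ 2 ∧
      (xN (R + S) + xN (R - S)) * (xN R - xN S) ^ 2 =
        2 * (xN R * xN S) * (xN R + xN S) + algebraMap ℚ Qb B * (xN R * xN S) +
          2 * algebraMap ℚ Qb A * (xN R + xN S) := by
  obtain ⟨c, hc, e0, e1, e2⟩ := kummerRel R S
  have hb2' : (E⁄Qb).b₂ = algebraMap ℚ Qb B := by rw [show (E⁄Qb).b₂ = algebraMap ℚ Qb E.b₂ from map_b₂ .., hb2]
  have hb4' : (E⁄Qb).b₄ = 2 * algebraMap ℚ Qb A := by
    rw [show (E⁄Qb).b₄ = algebraMap ℚ Qb E.b₄ from map_b₄ .., hb4, map_mul, map_ofNat]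
  have hb6' : (E⁄Qb).b₆ = 0 := by rw [show (E⁄Qb).b₆ = algebraMap ℚ Qb E.b₆ from map_b₆ .., hb6, _root_.map_zero]
  have hb8' : (E⁄Qb).b₈ = -(algebraMap ℚ Qb A) ^ 2 := by
    rw [show (E⁄Qb).b₈ = algebraMap ℚ Qb E.b₈ from map_b₈ .., hb8, map_neg, map_pow]
  rw [hb4', hb6', hb8', xD_of_ne_zero hR, xD_of_ne_zero hS] at e0
  rw [hb2', hb4', hb6', xD_of_ne_zero hR, xD_of_ne_zero hS, xD_of_ne_zero h1,
    xD_of_ne_zero h2] at e1
  rw [xD_of_ne_zero hR, xD_of_ne_zero hS, xD_of_ne_zero h1, xD_of_ne_zero h2] at e2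
  have hc' : c = (xN R - xN S) ^ 2 := by linear_combination e2
  rw [hc'] at e0 e1
  constructor
  · linear_combination e0
  · linear_combination e1

lemma kummer_dbl (hb2 : E.b₂ = B) (hb4 : E.b₄ = 2 * A) (hb6 : E.b₆ = 0)
    (hb8 : E.b₈ = -A ^ 2) (R : (E⁄Qb).Point) (hR : R ≠ 0) (h1 : R + R ≠ 0) :
    xN (R + R) * (xN R * (4 * xN R ^ 2 + algebraMap ℚ Qb B * xN R + 4 * algebraMap ℚ Qb A)) =
        (xN R ^ 2 - algebraMap ℚ Qb A) ^ 2 := by
  obtain ⟨c, hc, e0, e1, e2⟩ := kummerRel R R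
  have hb2' : (E⁄Qb).b₂ = algebraMap ℚ Qb B := by rw [show (E⁄Qb).b₂ = algebraMap ℚ Qb E.b₂ from map_b₂ .., hb2]
  have hb4' : (E⁄Qb).b₄ = 2 * algebraMap ℚ Qb A := by
    rw [show (E⁄Qb).b₄ = algebraMap ℚ Qb E.b₄ from map_b₄ .., hb4, map_mul, map_ofNat]
  have hb6' : (E⁄Qb).b₆ = 0 := by rw [show (E⁄Qb).b₆ = algebraMap ℚ Qb E.b₆ from map_b₆ .., hb6, _root_.map_zero]
  have hb8' : (E⁄Qb).b₈ = -(algebraMap ℚ Qb A) ^ 2 := by
    rw [show (E⁄Qb).b₈ = algebraMap ℚ Qb E.b₈ from map_b₈ .., hb8, map_neg, map_pow]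
  rw [sub_self] at e0 e1
  rw [hb4', hb6', hb8', xD_of_ne_zero hR, xN_zero] at e0
  rw [hb2', hb4', hb6', xD_of_ne_zero hR, xD_of_ne_zero h1, xN_zero, xD_zero] at e1
  have hc' : c = xN R * (4 * xN R ^ 2 + algebraMap ℚ Qb B * xN R + 4 * algebraMap ℚ Qb A) := by
    linear_combination e1
  rw [hc'] at e0
  linear_combination e0

end

/-- The multiples of a Galois-fixed point of order `p` give a sequence as in `Hyp`. -/
theorem false_of_fixed {E : WeierstrassCurve ℚ} {A B : ℚ} {p s : ℕ}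
    (hb2 : E.b₂ = B) (hb4 : E.b₄ = 2 * A) (hb6 : E.b₆ = 0) (hb8 : E.b₈ = -A ^ 2)
    (hp5 : 5 ≤ p) (hp : p.Prime) (hs : 0 < s) (hps : ¬ p ∣ s) (hA : H13.E s A) (hB : H13.E 0 B)
    (Q : (E⁄Qb).Point) (hQ : ∀ σ : Qb ≃ₐ[ℚ] Qb, σ • Q = Q) (hpQ : p • Q = 0) (hQ0 : Q ≠ 0) :
    False := by
  have hord : addOrderOf Q = p := by
    rcases (Nat.dvd_prime hp).mp (addOrderOf_dvd_of_nsmul_eq_zero hpQ) with h | h
    · exact absurd (AddMonoid.addOrderOf_eq_one_iff.mp h) hQ0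
    · exact h
  have hne : ∀ k : ℕ, ¬ p ∣ k → k • Q ≠ 0 := by
    intro k hk h
    apply hk
    rw [← hord]
    exact addOrderOf_dvd_of_nsmul_eq_zero h
  have hfix : ∀ k : ℕ, ∀ σ : Qb ≃ₐ[ℚ] Qb, σ • (k • Q) = k • Q := by
    intro k σ
    have h1 := algEquiv_smul_zsmul σ (k : ℤ) Q
    rw [hQ σ] at h1
    simpa using h1
  choose x hx using fun k => exists_rat_of_fixed (k • Q) (hfix k)
  -- choose a sequence depending only on the residue class
  set X : ℕ → ℚ := fun k => x (k % p) with hX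
  have hmod : ∀ k : ℕ, (k % p) • Q = k • Q := by
    intro k
    conv_rhs => rw [← Nat.mod_add_div k p, add_smul, mul_comm, mul_smul, hpQ, nsmul_zero, add_zero]
  have hxX : ∀ k : ℕ, ¬ p ∣ k → algebraMap ℚ Qb (X k) = xN (k • Q) := by
    intro k hk
    have h1 := hx (k % p) (by rw [hmod]; exact hne k hk)
    rw [hmod] at h1
    exact h1
  have hinj : Function.Injective (algebraMap ℚ Qb) := (algebraMap ℚ Qb).injective
  have hA0 : A ≠ 0 := hA.ne_zero
  have hdbl : ∀ k, ¬ p ∣ k →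
      X (2 * k) * (X k * (4 * X k ^ 2 + B * X k + 4 * A)) = (X k ^ 2 - A) ^ 2 := by
    intro k hk
    have h2k : ¬ p ∣ 2 * k := by
      intro h
      rcases (Nat.Prime.dvd_mul hp).mp h with h | h
      · exact absurd (Nat.le_of_dvd (by norm_num) h) (by omega)
      · exact hk h
    apply hinj
    have h2 : (2 * k) • Q = k • Q + k • Q := by rw [two_mul, add_smul]
    have := kummer_dbl hb2 hb4 hb6 hb8 (k • Q) (hne k hk) (by rw [← h2]; exact hne _ h2k)
    rw [← h2, ← hxX _ hk, ← hxX _ h2k] at this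
    push_cast
    simpa using this
  have hps' : ∀ k m, m ≤ k → ¬ p ∣ k → ¬ p ∣ m → ¬ p ∣ k + m → ¬ p ∣ k - m →
      (X (k + m) * X (k - m)) * (X k - X m) ^ 2 = (X k * X m - A) ^ 2 ∧
      (X (k + m) + X (k - m)) * (X k - X m) ^ 2 =
      2 * (X k * X m) * (X k + X m) + B * (X k * X m) + 2 * A * (X k + X m) := by
    intro k m hmk hk hm hkm hkm'
    have h1 : (k + m) • Q = k • Q + m • Q := add_smul _ _ _
    have h2 : (k - m) • Q = k • Q - m • Q := by
      rw [eq_sub_iff_add_eq, ← add_smul, Nat.sub_add_cancel hmk]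
    have := kummer_prod_sum hb2 hb4 hb6 hb8 (k • Q) (m • Q) (hne k hk) (hne m hm)
      (by rw [← h1]; exact hne _ hkm) (by rw [← h2]; exact hne _ hkm')
    rw [← h1, ← h2, ← hxX _ hk, ← hxX _ hm, ← hxX _ hkm, ← hxX _ hkm'] at this
    constructor
    · apply hinj
      simpa using this.1
    · apply hinj
      simpa using this.2
  refine two_adic_core (p := p) (s := s) (A := A) (B := B) (x := X)
    ⟨hp5, hp, hs, hps, hA, hB, ?_, ?_, hdbl, fun k m a b c d e => (hps' k m a b c d e).1,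
      fun k m a b c d e => (hps' k m a b c d e).2, ?_⟩
  · intro k hk h0
    have := hdbl k hk
    rw [h0] at this
    have : A ^ 2 = 0 := by
      have h3 : X (2 * k) * (0 * (4 * 0 ^ 2 + B * 0 + 4 * A)) = (0 ^ 2 - A) ^ 2 := this
      linear_combination -h3
    exact hA0 (pow_eq_zero_iff (two_ne_zero) |>.mp this)
  · intro k l hkl
    simp only [hX]
    rw [show k % p = l % p from hkl]
  · intro k hk
    by_cases hpk : p ∣ k
    · have h1 : p ∣ p - k := Nat.dvd_sub (dvd_refl p) hpk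
      simp only [hX]
      rw [Nat.mod_eq_zero_of_dvd hpk, Nat.mod_eq_zero_of_dvd h1]
    · have h1 : ¬ p ∣ p - k := by
        intro h
        apply hpk
        have := Nat.dvd_sub (dvd_refl p) h
        rwa [Nat.sub_sub_self hk] at this
      apply hinj
      rw [hxX _ h1, hxX _ hpk]
      have h2 : (p - k) • Q = - (k • Q) := by
        rw [eq_neg_iff_add_eq_zero, ← add_smul, Nat.sub_add_cancel hk, hpQ]
      rw [h2, xN_neg]

/-! ### The Frey curve -/

open Fermat.Agent.H4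

lemma not_two_dvd_a (P : FreyPackage) : ¬ (2:ℤ) ∣ P.a := by
  intro h
  have := dvd_gcd h (two_dvd_b P)
  rw [P.hgcdab] at this
  exact Int.prime_two.not_isUnit (isUnit_of_dvd_one this)

/-- There is no nonzero Galois-fixed `p`-torsion point on the Frey curve. -/
theorem no_fixed (P : FreyPackage)
    (Q : Submodule.torsionBy ℤ (P.freyCurve⁄(AlgebraicClosure ℚ)).Point P.p)
    (hQ : ∀ σ : AlgebraicClosure ℚ ≃ₐ[ℚ] AlgebraicClosure ℚ, σ • Q = Q) : Q = 0 := by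
  by_contra hQ0
  obtain ⟨t, b', hb', hb⟩ := exists_odd_pow P.hb0
  have ht : 1 ≤ t := by
    rcases Nat.eq_zero_or_pos t with h | h
    · exfalso
      rw [h, pow_zero, one_mul] at hb
      exact hb' (hb ▸ two_dvd_b P)
    · exact h
  have hp5 := P.hp5
  have hpt : 5 ≤ P.p * t := le_trans hp5 (Nat.le_mul_of_pos_right _ ht)
  have ha := not_two_dvd_a P
  have hodd_pow : ∀ {z : ℤ} (n : ℕ), ¬ (2:ℤ) ∣ z → ¬ (2:ℤ) ∣ z ^ n := by
    intro z n hz h
    exact hz (Int.prime_two.dvd_of_dvd_pow h)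
  have hA : H13.E ((P.p * t - 4 : ℕ) : ℤ) (P.freyCurveInt.a₄ : ℚ) := by
    refine ⟨-(P.a ^ P.p) * b' ^ P.p, 1, ?_, by norm_num, ?_⟩
    · apply odd_mul
      · rw [dvd_neg]; exact hodd_pow _ ha
      · exact hodd_pow _ hb'
    · have h4 := freyCurveInt_a₄_mul P
      have h16 : (16 : ℚ) * (P.freyCurveInt.a₄ : ℚ) = -(P.a ^ P.p) * (P.b ^ P.p) := by
        exact_mod_cast h4
      have hbq : (P.b : ℚ) = 2 ^ t * b' := by exact_mod_cast hb
      have e : (2:ℚ) ^ (P.p * t) = 16 * 2 ^ (P.p * t - 4) := by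
        rw [show (16:ℚ) = 2 ^ 4 by norm_num, ← pow_add]
        congr 1; omega
      rw [hbq, mul_pow, ← pow_mul, mul_comm t P.p, e] at h16
      rw [zpow_natCast]
      push_cast
      linear_combination (1/16) * h16
  have hB : H13.E 0 ((P.freyCurveInt.b₂ : ℤ) : ℚ) := by
    apply E_odd
    have h2 : P.freyCurveInt.b₂ = 1 + 4 * P.freyCurveInt.a₂ := by
      simp [WeierstrassCurve.b₂, FreyPackage.freyCurveInt]
    rw [h2]
    omega
  have hps : ¬ P.p ∣ P.p * t - 4 := by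
    intro h
    have h1 : P.p ∣ P.p * t - (P.p * t - 4) := Nat.dvd_sub (Dvd.intro _ rfl) h
    rw [show P.p * t - (P.p * t - 4) = 4 by omega] at h1
    exact absurd (Nat.le_of_dvd (by norm_num) h1) (by omega)
  have hmap := freyCurveInt_map P
  have e2 : P.freyCurve.b₂ = ((P.freyCurveInt.b₂ : ℤ) : ℚ) := by
    rw [← hmap, map_b₂]; rfl
  have e4 : P.freyCurve.b₄ = 2 * (P.freyCurveInt.a₄ : ℚ) := by
    rw [← hmap, map_b₄]
    simp [WeierstrassCurve.b₄, FreyPackage.freyCurveInt]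
  have e6 : P.freyCurve.b₆ = 0 := by
    simp [WeierstrassCurve.b₆, FreyPackage.freyCurve]
  have e8 : P.freyCurve.b₈ = - (P.freyCurveInt.a₄ : ℚ) ^ 2 := by
    rw [← hmap, map_b₈]
    simp [WeierstrassCurve.b₈, FreyPackage.freyCurveInt]
  refine false_of_fixed (E := P.freyCurve) e2 e4 e6 e8 hp5 P.pp (by omega) hps hA hB
    (Q : (P.freyCurve⁄(AlgebraicClosure ℚ)).Point) ?_ ?_ ?_
  · intro σ
    exact congrArg Subtype.val (hQ σ)
  · have := (Submodule.mem_torsionBy_iff _ _).mp Q.2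
    simpa using this
  · intro h
    exact hQ0 (Subtype.ext h)

end Fermat.Agent.H13
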