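import Mathlib
import Fermat.Agent.H13Gauss
import Fermat.Agent.H13NoFixed

set_option autoImplicit false

open WeierstrassCurve WeierstrassCurve.Affine WeierstrassCurve.Affine.Point Polynomial

namespace Fermat.Agent.H13

local notation "Qb" => AlgebraicClosure ℚ

/-- the x-coordinate of a point of `E[p](ℚ̄)` is an algebraic integer (or the point is zero). -/
def XInt (P : FreyPackage) (Q : Submodule.torsionBy ℤ (P.freyCurve⁄Qb).Point P.p) : Prop :=
  ∀ (x y : Qb) (h : (P.freyCurve⁄Qb).Nonsingular x y),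
    (Q : (P.freyCurve⁄Qb).Point) = .some x y h → IsIntegral ℤ x

/-- Galois dichotomy for a stable line. -/
theorem dichotomy_of_root (P : FreyPackage)
    (hroot : ∀ (Q : Submodule.torsionBy ℤ (P.freyCurve⁄Qb).Point P.p) (x y : Qb)
      (h : (P.freyCurve⁄Qb).Nonsingular x y),
      (Q : (P.freyCurve⁄Qb).Point) = .some x y h →
        aeval x (P.freyCurveInt.preΨ' P.p) = 0)
    (N : Submodule (ZMod P.p) (Submodule.torsionBy ℤ (P.freyCurve⁄Qb).Point P.p))
    (hN : IsGaloisStable ℚ N) :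
    (∀ Q ∈ N, XInt P Q) ∨ (∀ Q, Q ∉ N → XInt P Q) := by
  by_contra hcon
  push Not at hcon
  obtain ⟨⟨Q, hQN, hQ⟩, ⟨R, hRN, hR⟩⟩ := hcon
  unfold XInt at hQ hR
  push Not at hQ hR
  obtain ⟨x, y, h, hQe, hx⟩ := hQ
  obtain ⟨x', y', h', hRe, hx'⟩ := hR
  have hlc : (P.freyCurveInt.preΨ' P.p).leadingCoeff = (P.p : ℤ) := by
    have h1 := P.freyCurveInt.leadingCoeff_preΨ' (n := P.p) (by exact_mod_cast P.hp0)
    rw [if_neg (Nat.not_even_iff_odd.mpr P.hp_odd)] at h1
    exact_mod_cast h1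
  by_cases hne : minpoly ℚ x = minpoly ℚ x'
  · -- conjugate
    have := isAlgebraic_Qb
    have := isGalois_Qb
    obtain ⟨σ, hσ⟩ := isConjRoot_iff_exists_algEquiv.mp
      (show IsConjRoot ℚ x' x from hne.symm)
    -- σ x = x'
    have hmem : σ • Q ∈ N := hN σ Q hQN
    have hσQ : ((σ • Q : Submodule.torsionBy ℤ (P.freyCurve⁄Qb).Point P.p) :
        (P.freyCurve⁄Qb).Point) = σ • (Q : (P.freyCurve⁄Qb).Point) := rfl
    rw [hQe, algEquiv_smul_def, map_some] at hσQ
    have hxx : (σ.toAlgHom x) = x' := hσ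
    have key : (R : (P.freyCurve⁄Qb).Point) = ((σ • Q :
        Submodule.torsionBy ℤ (P.freyCurve⁄Qb).Point P.p) : (P.freyCurve⁄Qb).Point) ∨
        (R : (P.freyCurve⁄Qb).Point) = -((σ • Q :
        Submodule.torsionBy ℤ (P.freyCurve⁄Qb).Point P.p) : (P.freyCurve⁄Qb).Point) := by
      rw [hσQ, hRe]
      exact X_eq_iff.mp hxx.symm
    rcases key with hk | hk
    · apply hRN
      have : R = σ • Q := Subtype.ext hk
      rw [this]; exact hmem
    · apply hRN
      have : R = -(σ • Q) := Subtype.ext hk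
      rw [this]; exact N.neg_mem hmem
  · rcases isIntegral_or_isIntegral P.pp hlc (hroot Q x y h hQe) (hroot R x' y' h' hRe) hne
      with h1 | h1
    · exact hx h1
    · exact hx' h1

end Fermat.Agent.H13
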