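import Mathlib
import Fermat.Agent.H13Dichotomy
import Fermat.Agent.H87ECTorsion
import Fermat.Prelude.Def_FLTPrelim_CofixedLine
import Fermat.Prelude.Def_FLTPrelim_Ramification

set_option autoImplicit false

open WeierstrassCurve WeierstrassCurve.Affine WeierstrassCurve.Affine.Point Polynomial

namespace Fermat.Agent.H13

local notation "Qb" => AlgebraicClosure ℚ
local notation "GQ" => AlgebraicClosure ℚ ≃ₐ[ℚ] AlgebraicClosure ℚ

lemma freyCurve_Δ_ne_zero (P : FreyPackage) : P.freyCurve.Δ ≠ 0 := by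
  rw [← H4.freyCurveInt_map]
  exact H87.EC.map_int_Δ_ne_zero (H4.freyCurveInt_Δ_ne_zero P)

/-- x-coordinates of `p`-torsion points are roots of the integral division polynomial. -/
theorem root_preΨ' (P : FreyPackage)
    (Q : Submodule.torsionBy ℤ (P.freyCurve⁄Qb).Point P.p) (x y : Qb)
    (h : (P.freyCurve⁄Qb).Nonsingular x y)
    (hQ : (Q : (P.freyCurve⁄Qb).Point) = .some x y h) :
    aeval x (P.freyCurveInt.preΨ' P.p) = 0 := by
  have h1 : P.p • (Q : (P.freyCurve⁄Qb).Point) = 0 := by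
    have := (Submodule.mem_torsionBy_iff _ _).mp Q.2
    rwa [natCast_zsmul] at this
  rw [hQ] at h1
  have h2 := (H87.nsmul_eq_zero_iff P.p h).mp h1
  rw [ΨSq_ofNat, if_neg (Nat.not_even_iff_odd.mpr P.hp_odd), mul_one, eval_pow] at h2
  have h3 := pow_eq_zero_iff (two_ne_zero) |>.mp h2
  have h4 : (P.freyCurve⁄Qb).preΨ' P.p = (P.freyCurveInt.preΨ' P.p).map (algebraMap ℤ Qb) := by
    have e1 : (P.freyCurve⁄Qb) = P.freyCurveInt.map (algebraMap ℤ Qb) := by
      change P.freyCurve.map (algebraMap ℚ Qb) = _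
      rw [← H4.freyCurveInt_map, WeierstrassCurve.map_map]
      rfl
    rw [e1, map_preΨ']
  rw [h4, eval_map_algebraMap] at h3
  exact h3

theorem dichotomy (P : FreyPackage)
    (N : Submodule (ZMod P.p) (Submodule.torsionBy ℤ (P.freyCurve⁄Qb).Point P.p))
    (hN : IsGaloisStable ℚ N) :
    (∀ Q ∈ N, XInt P Q) ∨ (∀ Q, Q ∉ N → XInt P Q) :=
  dichotomy_of_root P (root_preΨ' P) N hN

/-- algebraic integers are in every valuation ring -/
lemma isIntegral_mem {x : Qb} (hx : IsIntegral ℤ x) (A : ValuationSubring Qb) : x ∈ A := by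
  have h1 : IsIntegral A x := hx.tower_top
  obtain ⟨y, hy⟩ := IsIntegrallyClosed.isIntegral_iff.mp h1
  rw [← hy]
  exact y.2

/-- the subgroup fixing a finite level is open -/
lemma isOpen_of_finite_level {H : Subgroup GQ} (L : IntermediateField ℚ Qb)
    (hL : FiniteDimensional ℚ L) (h : ∀ σ : GQ, (∀ x ∈ L, σ x = x) → σ ∈ H) :
    IsOpen (H : Set GQ) := by
  have h1 : IsOpen (L.fixingSubgroup : Set GQ) := L.fixingSubgroup_isOpen
  refine Subgroup.isOpen_mono (H₁ := L.fixingSubgroup) ?_ h1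
  intro σ hσ
  exact h σ ((IntermediateField.mem_fixingSubgroup_iff L σ).mp hσ)

/-- Minkowski input -/
def MinkowskiInertia : Prop :=
  ∀ (H : Subgroup GQ), IsOpen (H : Set GQ) →
    (∀ q : ℕ, q.Prime → ∀ A : ValuationSubring Qb, A.LiesOverPrime q →
      A.inertiaSubgroupIn ℚ ≤ H) → H = ⊤

/-- local input, case I -/
def CaseI : Prop :=
  ∀ (P : FreyPackage)
    (N : Submodule (ZMod P.p) (Submodule.torsionBy ℤ (P.freyCurve⁄Qb).Point P.p)),
    IsGaloisStable ℚ N → (∀ M ≤ N, M = ⊥ ∨ M = N) →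
    ∀ (ℓ : ℕ), ℓ.Prime → ∀ A : ValuationSubring Qb, A.LiesOverPrime ℓ →
    (∀ Q ∈ N, ∀ (x y : Qb) (h : (P.freyCurve⁄Qb).Nonsingular x y),
      (Q : (P.freyCurve⁄Qb).Point) = .some x y h → x ∈ A) →
    ∀ σ ∈ A.inertiaSubgroupIn ℚ, ∀ Q ∈ N, σ • Q = Q

/-- local input, case II -/
def CaseII : Prop :=
  ∀ (P : FreyPackage)
    (N : Submodule (ZMod P.p) (Submodule.torsionBy ℤ (P.freyCurve⁄Qb).Point P.p)),
    IsGaloisStable ℚ N → (∀ M ≤ N, M = ⊥ ∨ M = N) → (∀ M, N ≤ M → M = N ∨ M = ⊤) →
    ∀ (ℓ : ℕ), ℓ.Prime → ∀ A : ValuationSubring Qb, A.LiesOverPrime ℓ →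
    (∀ Q, Q ∉ N → ∀ (x y : Qb) (h : (P.freyCurve⁄Qb).Nonsingular x y),
      (Q : (P.freyCurve⁄Qb).Point) = .some x y h → x ∈ A) →
    ∀ σ ∈ A.inertiaSubgroupIn ℚ, ∀ Q : Submodule.torsionBy ℤ (P.freyCurve⁄Qb).Point P.p,
      σ • Q - Q ∈ N

theorem S13_of (hM : MinkowskiInertia) (hI : CaseI) (hII : CaseII) (P : FreyPackage)
    (hred : ¬ GaloisRepIsIrreducible (K := AlgebraicClosure ℚ) ℚ P.freyCurve P.p) :
    HasGaloisStableCofixedLine (K := AlgebraicClosure ℚ) ℚ P.freyCurve P.p := by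
  have hp : P.p.Prime := P.pp
  have hfp : Fact P.p.Prime := ⟨hp⟩
  have hΔ := freyCurve_Δ_ne_zero P
  have hnt := H87.EC.nontrivial_torsionBy_rat P.freyCurve hΔ hp.ne_zero hp.ne_one
  have hrank := H87.EC.finrank_torsionBy_rat P.freyCurve hΔ hp.ne_zero hp.ne_one
  have hfin := H87.EC.finite_torsionBy_rat P.freyCurve hΔ hp.ne_zero
  -- a stable proper submodule
  unfold GaloisRepIsIrreducible at hred
  rw [not_and] at hred
  have hred' := hred hnt
  push Not at hred'
  obtain ⟨N, hN, hbot, htop⟩ := hred'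
  have hmodfin : Module.Finite (ZMod P.p)
      (Submodule.torsionBy ℤ (P.freyCurve⁄Qb).Point P.p) := Module.Finite.of_finite
  have hN1 : Module.finrank (ZMod P.p) N = 1 := by
    have h1 : Module.finrank (ZMod P.p) N < 2 := by
      rw [← hrank]; exact Submodule.finrank_lt htop
    have h2 : Module.finrank (ZMod P.p) N ≠ 0 := by
      intro h
      exact hbot (Submodule.finrank_eq_zero.mp h)
    omega
  have hmin : ∀ M ≤ N, M = ⊥ ∨ M = N := by
    intro M hM
    by_cases hMN : M = N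
    · exact Or.inr hMN
    · left
      have h1 := Submodule.finrank_lt_finrank_of_lt (lt_of_le_of_ne hM hMN)
      rw [hN1] at h1
      exact Submodule.finrank_eq_zero.mp (by omega)
  have hmax : ∀ M, N ≤ M → M = N ∨ M = ⊤ := by
    intro M hM
    by_cases hMN : M = N
    · exact Or.inl hMN
    · right
      have h1 := Submodule.finrank_lt_finrank_of_lt (lt_of_le_of_ne hM (Ne.symm hMN))
      rw [hN1] at h1
      have h2 : Module.finrank (ZMod P.p) M ≤ 2 := by
        rw [← hrank]; exact Submodule.finrank_le M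
      apply Submodule.eq_top_of_finrank_eq
      rw [hrank]; omega
  obtain ⟨L, hL, hLfix⟩ := H87.EC.galoisFactorsThroughFiniteLevel P.freyCurve hΔ hp.ne_zero
  have hLfix' : ∀ σ : GQ, (∀ x ∈ L, σ x = x) →
      ∀ Q : Submodule.torsionBy ℤ (P.freyCurve⁄Qb).Point P.p, σ • Q = Q := by
    intro σ hσ Q
    have := hLfix σ hσ
    have h2 := congrArg (fun f => f Q) this
    exact h2
  rcases dichotomy P N hN with hd | hd
  · -- case I : N is fixed pointwise
    exfalso
    let H : Subgroup GQ :=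
      { carrier := {σ | ∀ Q ∈ N, σ • Q = Q}
        mul_mem' := by
          intro σ τ hσ hτ Q hQ
          rw [mul_smul, hτ Q hQ, hσ Q hQ]
        one_mem' := by
          intro Q _
          exact one_smul _ Q
        inv_mem' := by
          intro σ hσ Q hQ
          rw [inv_smul_eq_iff, hσ Q hQ] }
    have hHtop : H = ⊤ := by
      apply hM H (isOpen_of_finite_level L hL fun σ hσ Q _ => hLfix' σ hσ Q)
      intro q hq A hA σ hσ
      exact hI P N hN hmin q hq A hA
        (fun Q hQ x y h hQe => isIntegral_mem (hd Q hQ x y h hQe) A) σ hσ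
    obtain ⟨Q, hQN, hQ0⟩ := Submodule.exists_mem_ne_zero_of_ne_bot hbot
    apply hQ0
    apply no_fixed P Q
    intro σ
    have : σ ∈ H := by rw [hHtop]; trivial
    exact this Q hQN
  · -- case II : T/N is fixed pointwise
    refine ⟨N, hN, hbot, htop, ?_⟩
    let H : Subgroup GQ :=
      { carrier := {σ | ∀ Q, σ • Q - Q ∈ N}
        mul_mem' := by
          intro σ τ hσ hτ Q
          have h1 := hσ (τ • Q)
          have h2 := hτ Q
          rw [mul_smul]
          have := N.add_mem h1 h2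
          rwa [sub_add_sub_cancel] at this
        one_mem' := by
          intro Q
          rw [one_smul, sub_self]; exact N.zero_mem
        inv_mem' := by
          intro σ hσ Q
          have h1 := hσ (σ⁻¹ • Q)
          rw [smul_inv_smul] at h1
          have := N.neg_mem h1
          rwa [neg_sub] at this }
    have hHtop : H = ⊤ := by
      apply hM H (isOpen_of_finite_level L hL fun σ hσ Q => by
        rw [hLfix' σ hσ Q, sub_self]; exact N.zero_mem)
      intro q hq A hA σ hσ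
      exact hII P N hN hmin hmax q hq A hA
        (fun Q hQ x y h hQe => isIntegral_mem (hd Q hQ x y h hQe) A) σ hσ
    intro σ Q
    have : σ ∈ H := by rw [hHtop]; trivial
    exact this Q

end Fermat.Agent.H13
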