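import Fermat.Statements.S13
import Fermat.Agent.H13Assembly
import Fermat.Agent.H63Minkowski
import Fermat.Agent.H73Frey

set_option autoImplicit false
open WeierstrassCurve WeierstrassCurve.Affine WeierstrassCurve.Affine.Point
open CuspForm ModularFormClass UpperHalfPlane
open FreyPackage

namespace Fermat.Agent.S13

theorem minkowski : Fermat.Agent.H13.MinkowskiInertia := by
  have h := Fermat.Agent.H13.isAlgebraic_Qb
  have h' := Fermat.Agent.H13.isGalois_Qb
  intro H hH hI
  exact Fermat.Agent.H63.eq_top_of_isOpen_of_inertia_le H hH hI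

theorem caseI : Fermat.Agent.H13.CaseI := by
  intro P N hN hmin ℓ hℓ A hA hI σ hσ
  exact Fermat.Agent.H73.case_I N hN hmin hℓ hA hI σ hσ

theorem caseII : Fermat.Agent.H13.CaseII := by
  intro P N hN hmin hmax ℓ hℓ A hA hII σ hσ
  exact Fermat.Agent.H73.case_II N hN hmax hℓ hA hII σ hσ

theorem result (P : FreyPackage) (hred : ¬ GaloisRepIsIrreducible (K := AlgebraicClosure ℚ) ℚ P.freyCurve P.p) : HasGaloisStableCofixedLine (K := AlgebraicClosure ℚ) ℚ P.freyCurve P.p := by
  exact Fermat.Agent.H13.S13_of minkowski caseI caseII P hred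

end Fermat.Agent.S13
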