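import Fermat.Agent.H4FreySemistable
import Fermat.Agent.S05
import Fermat.Agent.S13

set_option autoImplicit false

/-!
# Reader's guide: the Frey curve (S05, S13)

Every theorem of this file is a citation of the library (at most three lines), with the statement written
out in full; no other module imports it.  It continues `GuideCurves` and `GuideCurvesLocal`, but can be read
independently.  More steps of section 1: `GuideFreySteps`.

**What the block does.**
* **S05** (section 2): `E[p]`, `E` the Frey curve, is unramified at every prime `q ≠ 2, p`.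
* **S13** (section 3): if `E[p]` is reducible, it has a stable line with trivial action on the quotient.

The published proofs use Tate curves, formal groups and Néron models; here there are only x-coordinates,
valuations, Gauss' lemma, Minkowski's theorem and a 2-adic argument.

**Reading order.**  S05: kernel of reduction (`kernel_of_reduction_multiples`, `_torsion_free`), good
reduction (`congruent_torsion_points`, `unramified_of_good_reduction`), the node (`ordered_group_lemma`,
`kummer_structure`, `node_valuation`, `unramified_of_multiplicative_reduction`), `S05`.  S13: `gauss`,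
`divisionPolynomial_root`, `dichotomy`, `local_filtration` (from `GuideCurvesLocal`, section 2), `case_one`,
`case_two`, `minkowski`, `two_adic_bounds`, `two_adic_progression`, `two_adic_core`, `no_rational_point`,
`S13`.  How the pieces of S13 fit: by `dichotomy` case I or case II holds at ALL places at once; case I and
`minkowski` would give a rational point of order `p` (`no_rational_point`), so case II holds and `minkowski`
gives S13.

**Where it is used.**  S05 in S45 and S01 (local behaviour of `E[p]` for level lowering); S13 in S09 (with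
Mazur's theorem: `E[p]` is irreducible) and S01.  The line "Closures: ..." at the end of a docstring names
all statements SNN whose proof term depends on the library theorem cited (computed by a traversal of the
proof terms of the 60 statements).

**Conventions.**  A place of `Q̄` is a valuation subring `A`, `A.LiesOverPrime q` means that `q` is a nonunit
of `A`, `A.inertiaSubgroupIn ℚ` is its inertia group; `|x|` stands for `A.valuation x`.

**Texts** by helper72 (section 2), helper13, helper73 (section 3), helper4 (integral model).  **Prose**: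
NOTES.md, Appendix A: NOTES-S05 (helper72), NOTES-S13 (helper13), NOTES-S13-LOCAL (helper73),
NOTES-FREY-SEMISTABLE (helper4).
-/

namespace Fermat.Agent.Guide.Frey

open WeierstrassCurve WeierstrassCurve.Affine WeierstrassCurve.Affine.Point Polynomial

/-- the field of algebraic numbers -/
local notation "Qbar" => AlgebraicClosure ℚ
/-- its Galois group over `ℚ` -/
local notation "GQ" => AlgebraicClosure ℚ ≃ₐ[ℚ] AlgebraicClosure ℚ

/-! ## 1. The Frey curve -/

/-- *Frey packages* (Prelude, `Def_FLTPrelim_FreyPackage`): nonzero coprime integers with `a^p + b^p = c^p`,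
`p ≥ 5` prime, `a ≡ 3` modulo 4 and `b` even. -/
theorem frey_package (P : FreyPackage) :
    P.a ^ P.p + P.b ^ P.p = P.c ^ P.p ∧ P.a ≠ 0 ∧ P.b ≠ 0 ∧ P.c ≠ 0 ∧ gcd P.a P.b = 1 ∧
      P.p.Prime ∧ 5 ≤ P.p ∧ (P.a : ZMod 4) = 3 ∧ (P.b : ZMod 2) = 0 :=
  ⟨P.hFLT, P.ha0, P.hb0, P.hc0, P.hgcdab, P.pp, P.hp5, P.ha4, P.hb2⟩

/-- *The Frey curve* `y² + xy = x³ + (b^p - 1 - a^p)/4 x² - a^p b^p/16 x`, a model of
`y² = x (x - a^p) (x + b^p)` over `ℚ`. -/
theorem frey_curve (P : FreyPackage) :
    P.freyCurve.a₁ = 1 ∧ P.freyCurve.a₂ = ((P.b : ℚ) ^ P.p - 1 - (P.a : ℚ) ^ P.p) / 4 ∧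
      P.freyCurve.a₃ = 0 ∧ P.freyCurve.a₄ = -((P.a : ℚ) ^ P.p) * ((P.b : ℚ) ^ P.p) / 16 ∧
      P.freyCurve.a₆ = 0 :=
  ⟨rfl, rfl, rfl, rfl, rfl⟩

/-- **The integral model of the Frey curve**: `P.freyCurveInt : y² + xy = x³ + a₂ x² + a₄ x` has integral
coefficients with `4 a₂ = b ^ p - 1 - a ^ p` and `16 a₄ = - a ^ p b ^ p` (the divisions are exact because
`a ^ p ≡ -1 mod 4` and `32 ∣ b ^ p`), and over `ℚ` it is the Frey curve. Module `H4FreySemistable`.
Closures: S01, S03, S04, S09, S12, S13, S43, S45. -/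
theorem integral_model (P : FreyPackage) :
    4 * P.freyCurveInt.a₂ = P.b ^ P.p - 1 - P.a ^ P.p ∧
      16 * P.freyCurveInt.a₄ = -(P.a ^ P.p) * (P.b ^ P.p) ∧
      P.freyCurveInt.map (Int.castRingHom ℚ) = P.freyCurve :=
  ⟨H4.freyCurveInt_a₂_mul P, H4.freyCurveInt_a₄_mul P, H4.freyCurveInt_map P⟩

/-- **Discriminant of the Frey curve**: `2⁸ Δ = (a ^ p b ^ p c ^ p)²`. In particular `Δ ≠ 0`, and for an odd
prime `q` the exponent of `q` in `Δ` is divisible by `2p`; this is what makes `E[p]` unramified (`q ≠ p`) or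
flat (`q = p`) at `q`. Module `H4FreySemistable`.
Closures: S01, S03, S04, S06, S09, S13, S43, S45. -/
theorem discriminant (P : FreyPackage) :
    256 * P.freyCurveInt.Δ = (P.a ^ P.p * P.b ^ P.p * P.c ^ P.p) ^ 2 ∧ P.freyCurveInt.Δ ≠ 0 :=
  ⟨H4.freyCurveInt_Δ P, H4.freyCurveInt_Δ_ne_zero P⟩

/-- **The invariant `c₄`** of the Frey curve. Module `H4FreySemistable`.
Closures: S01, S03, S04, S06, S45. -/
theorem c4 (P : FreyPackage) :
    P.freyCurveInt.c₄ = (P.a ^ P.p) ^ 2 + P.a ^ P.p * P.b ^ P.p + (P.b ^ P.p) ^ 2 :=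
  H4.freyCurveInt_c₄ P

/-- **The Frey curve is semistable**: no prime `q` divides both `Δ` and `c₄`; indeed `q ∣ Δ` implies
`q ∣ abc`, and `q ∣ abc`, `q ∣ c₄` would imply that `q` divides two of `a`, `b`, `c`. Module
`H4FreySemistable`; used by S03, S04, S06, S45.
Closures: S01, S03, S04, S06, S45. -/
theorem semistable (P : FreyPackage) (q : ℕ) (hq : q.Prime)
    (hΔ : (q : ℤ) ∣ P.freyCurveInt.Δ) : ¬ (q : ℤ) ∣ P.freyCurveInt.c₄ :=
  H4.freyCurveInt_isSemistableModel P q hq hΔ

/-! ## 2. S05: the Frey representation is unramified at `q ≠ 2, p` -/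

/-! `H72.xN P`, `H72.xD P` are homogeneous coordinates of `x(P)`: `(x : 1)` for an affine point, `(1 : 0)` for
the origin. The group law enters only through the Kummer relation (`GuideCurves`, `kummer_relation`). -/

/-- **Multiples in the kernel of reduction.** Let `v` be an arbitrary (not necessarily discrete) valuation
for which the `b_i` are integral and let `w = xD/xN = 1/x`. If `v(w(P)) < 1` then `w(nP)/w(P) ≡ n²` modulo
the maximal ideal for every `n`. This replaces the formal group of the curve. Proof: induction on `n`, the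
Kummer relation for `nP` and `P`. Module `H72Red`.
Closures: S01, S03, S05, S39, S40, S43-S45. -/
theorem kernel_of_reduction_multiples {F : Type*} [Field F] [DecidableEq F] {W : Affine F}
    {Γ₀ : Type*} [LinearOrderedCommGroupWithZero Γ₀] {v : Valuation F Γ₀}
    (hb₂ : v W.b₂ ≤ 1) (hb₄ : v W.b₄ ≤ 1) (hb₆ : v W.b₆ ≤ 1) (hb₈ : v W.b₈ ≤ 1)
    {P : W.Point} (hP0 : P ≠ 0) (nP : H72.xN P ≠ 0) (hP : v (H72.xD P / H72.xN P) < 1) (n : ℕ) :
    H72.xN (n • P) ≠ 0 ∧
      v (H72.xD (n • P) / H72.xN (n • P) / (H72.xD P / H72.xN P) - (n : F) ^ 2) < 1 :=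
  H72.wc_nsmul hb₂ hb₄ hb₆ hb₈ hP0 nP hP n

/-- Hence the kernel of reduction has no `n`-torsion if `n` is a unit at `v`. Module `H72Red`.
Closures: S01, S03, S05, S45. -/
theorem kernel_of_reduction_torsion_free {F : Type*} [Field F] [DecidableEq F] {W : Affine F}
    {Γ₀ : Type*} [LinearOrderedCommGroupWithZero Γ₀] {v : Valuation F Γ₀}
    (hb₂ : v W.b₂ ≤ 1) (hb₄ : v W.b₄ ≤ 1) (hb₆ : v W.b₆ ≤ 1) (hb₈ : v W.b₈ ≤ 1)
    {P : W.Point} (hP0 : P ≠ 0) (hP : v (H72.xD P) < v (H72.xN P)) {n : ℕ}
    (hn : v (n : F) = 1) : n • P ≠ 0 :=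
  H72.nsmul_ne_zero_of_wc_lt hb₂ hb₄ hb₆ hb₈ hP0 hP hn

/-- **Congruent torsion points are equal.** `A` is an arbitrary valuation ring of `K` containing the
coefficients of `W`. Two affine `n`-torsion points with congruent coordinates, one integral and with
nonsingular reduction (one of the two partial derivatives of the equation is a unit), are equal if `n` is
nonzero in the residue field. Proof: `P' - P` is zero or in the kernel of reduction (the slope of the chord
through `P'` and `-P` is not integral), which has no `n`-torsion. Module `H05_Good`.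
Closures: S01, S03, S05, S45. -/
theorem congruent_torsion_points {K : Type*} [Field K] [DecidableEq K] {A : ValuationSubring K}
    {W : WeierstrassCurve.Affine K}
    (h₁ : W.a₁ ∈ A) (h₂ : W.a₂ ∈ A) (h₃ : W.a₃ ∈ A) (h₄ : W.a₄ ∈ A) (h₆ : W.a₆ ∈ A)
    {x y x' y' : K} {h : W.Nonsingular x y} {h' : W.Nonsingular x' y'} (hx : x ∈ A) (hy : y ∈ A)
    (hx' : x' - x ∈ A.nonunits) (hy' : y' - y ∈ A.nonunits)
    (hns : 2 * y + W.a₁ * x + W.a₃ ∉ A.nonunits ∨
      3 * x ^ 2 + 2 * W.a₂ * x + W.a₄ - W.a₁ * y ∉ A.nonunits)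
    {n : ℕ} (hn : (n : IsLocalRing.ResidueField A) ≠ 0) (ht : n • Point.some x y h = 0)
    (ht' : n • Point.some x' y' h' = 0) : Point.some x' y' h' = Point.some x y h :=
  H05.eq_of_congr ⟨h₁, h₂, h₃, h₄, h₆⟩ hx hy hx' hy' hns hn ht ht'

/-- **What inertia means.** `A` is a valuation ring of `L`; `A.inertiaSubgroupIn K` (Prelude) is the image
in `Gal(L/K)` of the inertia group of `A`, that is of the automorphisms which stabilise `A` and act
trivially on its residue field. The only property which is used: such a `σ` moves every element of `A` by an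
element of the maximal ideal. Module `H72Inertia`.
Closures: S01, S03-S06, S09, S12, S15, S38, S43, S45, S46, S50, S56, S59, S60. -/
theorem inertia_moves_little {K L : Type*} [Field K] [Field L] [Algebra K L]
    {A : ValuationSubring L} {σ : L ≃ₐ[K] L} (hσ : σ ∈ A.inertiaSubgroupIn K) {a : L}
    (ha : A.valuation a ≤ 1) : A.valuation (σ a - a) < 1 :=
  H72.val_inertia_sub_lt hσ ha

/-- **Good reduction implies unramified.** `V` is a Weierstrass curve over a field `k` whose coefficients
lie in a valuation ring `A` of an extension `L` and whose discriminant is not in the maximal ideal; `n` is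
nonzero in the residue field. Then every inertial automorphism fixes every `n`-torsion point of `V(L)`
(`V⁄L` is the base change). Proof: torsion points are integral and have nonsingular reduction; by
`inertia_moves_little` `P` and `σP` have congruent coordinates; `congruent_torsion_points`. Module
`H05_GoodRed`.
Closures: S01, S03, S05, S45. -/
theorem unramified_of_good_reduction {k L : Type*} [Field k] [Field L] [DecidableEq L]
    [Algebra k L] {V : WeierstrassCurve k} {A : ValuationSubring L}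
    (h₁ : algebraMap k L V.a₁ ∈ A) (h₂ : algebraMap k L V.a₂ ∈ A)
    (h₃ : algebraMap k L V.a₃ ∈ A) (h₄ : algebraMap k L V.a₄ ∈ A)
    (h₆ : algebraMap k L V.a₆ ∈ A) (hΔ : algebraMap k L V.Δ ∉ A.nonunits)
    {σ : L ≃ₐ[k] L} (hσ : σ ∈ A.inertiaSubgroupIn k) {n : ℕ}
    (hn : (n : IsLocalRing.ResidueField A) ≠ 0) (P : (V⁄L).Point) (hP : n • P = 0) :
    σ • P = P :=
  H05.inertia_smul_of_good ⟨h₁, h₂, h₃, h₄, h₆⟩ (by rwa [← V.map_Δ] at hΔ) hσ hn P hP

/-- **The ordered-group lemma** (the combinatorics of the Néron polygon, without Tate curve). `h n` plays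
the role of the valuation of `x(nP)`, where `P` has order `p` and specialises to the node, `s` that of the
root which tends to the node. `A n`, `B n` are the valuations of `x(nP) x(P) + αβ` and `x(nP) - x(P)`; they
are known except when there is a tie. Conclusion: `p h(1)` is an even multiple `2 k s`. The value group is
an arbitrary linearly ordered abelian group. Proof: the pair `(h n, h (n-1))` follows the reflections of
`n h(1)` at the ends of the segment `[0, s]` (two states, one induction). Module `H72Tropical`.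
Closures: S01, S03, S05, S09, S12, S45. -/
theorem ordered_group_lemma {Γ : Type*} [AddCommGroup Γ] [LinearOrder Γ] [IsOrderedAddMonoid Γ]
    (p : ℕ) (hp : 3 ≤ p) (s : Γ) (h A B : ℕ → Γ)
    (hpos : ∀ n, 1 ≤ n → n < p → 0 < h n ∧ h n < s)
    (hA : ∀ n, 1 ≤ n → n + 1 < p → min (h n + h 1) s ≤ A n ∧
      (h n + h 1 ≠ s → A n = min (h n + h 1) s))
    (hB : ∀ n, 2 ≤ n → n + 1 < p → min (h n) (h 1) ≤ B n ∧ (h n ≠ h 1 → B n = min (h n) (h 1)))
    (hrel : ∀ n, 2 ≤ n → n + 1 < p → h (n + 1) + h (n - 1) + 2 • B n = 2 • A n)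
    (hrel1 : h 2 + 2 • h 1 = 2 • A 1)
    (hend : h (p - 1) = h 1) : ∃ k : ℕ, p • h 1 = (2 * k) • s :=
  H72.tropical p hp s h A B hpos hA hB hrel hrel1 hend

/-- **The Kummer structure of a curve with rational 2-torsion.** `H72.Kum G K α β` is an abelian group `G`
with homogeneous coordinates `κ.N P`, `κ.D P` in `K` satisfying the Kummer relation with the `b_i` of
`y² = x (x - α) (x + β)` (`kummer_structure_fields`). Such a structure exists on the points of every
Weierstrass curve with `4x³ + b₂x² + 2b₄x + b₆ = 4 (x-e)(x-e-α)(x-e+β)`, with `x` translated by the root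
`e`. Modules `H72Abs` (definition), `H72Mult` (construction).
Closures: S01, S03, S05, S45. -/
theorem kummer_structure {F : Type*} [Field F] [DecidableEq F] (W : Affine F) (e α β : F)
    (hb₂ : W.b₂ = 4 * (β - α - 3 * e))
    (hb₄ : W.b₄ = 2 * (3 * e ^ 2 - 2 * e * (β - α) - α * β))
    (hb₆ : W.b₆ = 4 * (-e ^ 3 + (β - α) * e ^ 2 + α * β * e))
    (hb₈ : W.b₈ = 4 * (β - α - 3 * e) * (-e ^ 3 + (β - α) * e ^ 2 + α * β * e)
      - (3 * e ^ 2 - 2 * e * (β - α) - α * β) ^ 2) :
    ∃ κ : H72.Kum W.Point F α β, ∀ P : W.Point,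
      κ.N P = H72.xN P - e * H72.xD P ∧ κ.D P = H72.xD P :=
  ⟨H72.kumOf W e α β hb₂ hb₄ hb₆ hb₈, fun _ => ⟨rfl, rfl⟩⟩

/-- All fields of the structure `H72.Kum`, written out. Module `H72Abs`.
Closures: S01, S03, S05, S45. -/
theorem kummer_structure_fields {G K : Type*} [AddCommGroup G] [Field K] {α β : K}
    (κ : H72.Kum G K α β) :
    (∀ P, κ.D P = 0 ↔ P = 0) ∧ κ.N 0 ≠ 0 ∧ (∀ P, κ.N (-P) = κ.N P) ∧ (∀ P, κ.D (-P) = κ.D P) ∧
    ∀ P Q : G, ∃ c : K, c ≠ 0 ∧
      c * (κ.N (P + Q) * κ.N (P - Q)) = (κ.N P * κ.N Q + α * β * (κ.D P * κ.D Q)) ^ 2 ∧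
      c * (κ.N (P + Q) * κ.D (P - Q) + κ.D (P + Q) * κ.N (P - Q)) =
        2 * (κ.N P * κ.D Q + κ.D P * κ.N Q) * (κ.N P * κ.N Q - α * β * (κ.D P * κ.D Q))
          + 4 * (β - α) * (κ.N P * κ.N Q) * (κ.D P * κ.D Q) ∧
      c * (κ.D (P + Q) * κ.D (P - Q)) = (κ.N P * κ.D Q - κ.D P * κ.N Q) ^ 2 :=
  ⟨κ.D_eq_zero, κ.N_zero, κ.N_neg, κ.D_neg, κ.rel⟩

/-- **Torsion points which specialise to the node.** Let `α ≠ 0` be small, `β` and `4` units, `p` an odd
prime and `p P = 0`. If `P` specialises to the node (`v(x(P)) < 1`, written `v(N) < v(D)`), then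
`v(α) < v(x(P)) < 1` and `v(x(P))^p = v(α)^(2k)` for some `k`. Proof: the points which do not specialise to
the node are stable under addition and subtraction, so all `nP` with `0 < n < p` specialise to the node; the
Kummer relation gives the hypotheses of `ordered_group_lemma`. Module `H72Abs`.
Closures: S01, S03, S05, S45. -/
theorem node_valuation {G K : Type*} [AddCommGroup G] [Field K] {α β : K} (κ : H72.Kum G K α β)
    {Γ₀ : Type*} [LinearOrderedCommGroupWithZero Γ₀] {v : Valuation K Γ₀}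
    (hα0 : α ≠ 0) (hα : v α < 1) (hβ : v β = 1) (h4 : v (4 : K) = 1)
    {p : ℕ} (hp : p.Prime) (hp2 : p ≠ 2) {P : G} (hpP : p • P = 0)
    (hP : v (κ.N P) < v (κ.D P)) :
    κ.N P / κ.D P ≠ 0 ∧ v α < v (κ.N P / κ.D P) ∧ v (κ.N P / κ.D P) < 1 ∧
      ∃ k : ℕ, v (κ.N P / κ.D P) ^ p = v α ^ (2 * k) :=
  κ.main hα0 hα hβ h4 hp hp2 hpP hP

/-- **Multiplicative reduction, `v(α)` a `p`-th power.** `V` has integral coefficients at `A` and rational
2-torsion as in `kummer_structure`; `α` is small, `β` and `4` are units; `p` is an odd prime and a unit at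
`A`, and `v(α)` is the `p`-th power of the value of an element `ϖ` of the ground field `k`. Then every
inertial automorphism `σ` fixes the `p`-torsion of `V(L)`. Proof, for `P` specialising to the node: by
`node_valuation` the value of `x(P) - e` is a value of `k`, hence `σ` moves `x(P) - e` by strictly less than
that. If `σP ≠ ±P`, the Kummer relation for `P`, `σP` bounds the first two forms by `v(x(P) - x(σP))²`, but
the second has value `v(x(P) - e)²`; if `σP = -P`, then `2y + a₁x + a₃`, whose value is also that of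
`x(P) - e`, changes sign. The other points are simpler. Module `H72Mult`.
Closures: S01, S03, S05, S45. -/
theorem unramified_of_multiplicative_reduction {k L : Type*} [Field k] [Field L] [DecidableEq L]
    [Algebra k L] {V : WeierstrassCurve k} {A : ValuationSubring L}
    (h₁ : A.valuation (algebraMap k L V.a₁) ≤ 1) (h₂ : A.valuation (algebraMap k L V.a₂) ≤ 1)
    (h₃ : A.valuation (algebraMap k L V.a₃) ≤ 1) (h₄ : A.valuation (algebraMap k L V.a₄) ≤ 1)
    (h₆ : A.valuation (algebraMap k L V.a₆) ≤ 1) (e α β : k)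
    (hb₂ : V.b₂ = 4 * (β - α - 3 * e))
    (hb₄ : V.b₄ = 2 * (3 * e ^ 2 - 2 * e * (β - α) - α * β))
    (hb₆ : V.b₆ = 4 * (-e ^ 3 + (β - α) * e ^ 2 + α * β * e))
    (hb₈ : V.b₈ = 4 * (β - α - 3 * e) * (-e ^ 3 + (β - α) * e ^ 2 + α * β * e)
      - (3 * e ^ 2 - 2 * e * (β - α) - α * β) ^ 2)
    (he : A.valuation (algebraMap k L e) ≤ 1) (hα0 : α ≠ 0)
    (hα : A.valuation (algebraMap k L α) < 1) (hβ : A.valuation (algebraMap k L β) = 1)
    (h4 : A.valuation (4 : L) = 1) {p : ℕ} (hp : p.Prime) (hp2 : p ≠ 2)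
    (hpA : A.valuation (p : L) = 1) (ϖ : k)
    (hαϖ : A.valuation (algebraMap k L α) = A.valuation (algebraMap k L ϖ) ^ p)
    {σ : L ≃ₐ[k] L} (hσ : σ ∈ A.inertiaSubgroupIn k) {P : (V⁄L).Point} (hP : p • P = 0) :
    σ • P = P :=
  H72.smul_eq_of_mult ⟨h₁, h₂, h₃, h₄, h₆⟩ e α β hb₂ hb₄ hb₆ hb₈ he hα0 hα hβ h4 hp hp2 hpA ϖ
    hαϖ hσ hP

/-- **The Frey curve at an odd prime `q ≠ p` dividing `abc`**: exactly two roots collide, their difference
is `a^p/4`, `b^p/4` or `c^p/4` up to sign, so `unramified_of_multiplicative_reduction` applies with `ϖ = a`,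
`b` or `c`. Module `H72Frey`.
Closures: S01, S03, S05, S45. -/
theorem unramified_at_bad_prime (P : FreyPackage) {q : ℕ} (hq : q.Prime) (hq2 : q ≠ 2)
    (hqp : q ≠ P.p) (hdvd : (q : ℤ) ∣ P.a * P.b * P.c) (A : ValuationSubring Qbar)
    (hA : A.LiesOverPrime q) (σ : GQ) (hσ : σ ∈ A.inertiaSubgroupIn ℚ)
    (x : Submodule.torsionBy ℤ (P.freyCurve⁄Qbar).Point (P.p : ℤ)) : σ • x = x :=
  H72.frey_unramified_mult P hq hq2 hqp hdvd A hA σ hσ x

/-- **S05.** `E` is the Frey curve of `P` and `q ≠ 2, p` a prime; inertia at every place above `q` acts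
trivially on `E[p]`. For `q ∣ abc` this is `unramified_at_bad_prime`; otherwise the discriminant is a unit
at `q` and `unramified_of_good_reduction` applies (`H05_FreyGood`).
Closures: S01, S03, S05, S45. -/
theorem S05 (P : FreyPackage) {q : ℕ} (hq : q.Prime) (hq2 : q ≠ 2) (hqp : q ≠ P.p)
    (A : ValuationSubring Qbar) (hA : A.LiesOverPrime q) (σ : GQ)
    (hσ : σ ∈ A.inertiaSubgroupIn ℚ)
    (x : Submodule.torsionBy ℤ (P.freyCurve⁄Qbar).Point (P.p : ℤ)) : σ • x = x :=
  S05.result P hq hq2 hqp A hA σ hσ x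

/-! ## 3. S13: a reducible Frey representation has a cofixed line -/

/-- **Gauss' lemma**: of two roots, not conjugate over `ℚ`, of a polynomial in `ℤ[X]` whose leading
coefficient is a *prime number*, one is an algebraic integer. Applied to the `p`-th division polynomial,
whose leading coefficient is `p`. Module `H13Gauss`.
Closures: S01, S03, S09, S13. -/
theorem gauss {L : Type*} [Field L] [CharZero L] [Algebra ℚ L] {h : ℤ[X]}
    {p : ℕ} (hp : p.Prime) (hlc : h.leadingCoeff = p) {α β : L} (hα : aeval α h = 0)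
    (hβ : aeval β h = 0) (hne : minpoly ℚ α ≠ minpoly ℚ β) :
    IsIntegral ℤ α ∨ IsIntegral ℤ β :=
  H13.isIntegral_or_isIntegral hp hlc hα hβ hne

/-- The x-coordinates of the `p`-torsion points of the Frey curve are roots of the `p`-th division
polynomial of the integral model (`GuideCurves`, `nsmul_eq_zero_iff`; `preΨ'` is Mathlib's). Module
`H13Assembly`.
Closures: S01, S03, S09, S13. -/
theorem divisionPolynomial_root (P : FreyPackage)
    (Q : Submodule.torsionBy ℤ (P.freyCurve⁄Qbar).Point P.p)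
    (x y : Qbar) (h : (P.freyCurve⁄Qbar).Nonsingular x y)
    (hQ : (Q : (P.freyCurve⁄Qbar).Point) = .some x y h) :
    aeval x (P.freyCurveInt.preΨ' P.p) = 0 :=
  H13.root_preΨ' P Q x y h hQ

/-- **The dichotomy**: for a Galois stable subspace `N` of `E[p]`, either all points of `N` or all points of
`E[p]` outside `N` have integral x-coordinate, by `gauss`: the x-coordinates of a point of `N` and of a
point outside `N` are not conjugate. Modules `H13Dichotomy` (the dichotomy for roots), `H13Assembly`.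
Closures: S01, S03, S09, S13. -/
theorem dichotomy (P : FreyPackage)
    (N : Submodule (ZMod P.p) (Submodule.torsionBy ℤ (P.freyCurve⁄Qbar).Point P.p))
    (hN : ∀ σ : GQ, ∀ x ∈ N, σ • x ∈ N) :
    (∀ Q ∈ N, ∀ (x y : Qbar) (h : (P.freyCurve⁄Qbar).Nonsingular x y),
      (Q : (P.freyCurve⁄Qbar).Point) = .some x y h → IsIntegral ℤ x) ∨
    (∀ Q, Q ∉ N → ∀ (x y : Qbar) (h : (P.freyCurve⁄Qbar).Nonsingular x y),
      (Q : (P.freyCurve⁄Qbar).Point) = .some x y h → IsIntegral ℤ x) :=
  H13.dichotomy P N hN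

/-- **The local filtration at an arbitrary place**, also above 2 and `p`: there is a subgroup `E₀` (the
points with nonsingular reduction) such that for `σ` in the inertia group `σ Q - Q ∈ E₀` for all `Q`, and
for `Q ∈ E₀` the difference `σ Q - Q` is in the kernel of reduction (its x-coordinate is not integral).
Proof: `GuideCurvesLocal`, section 2; no Tate curve. Modules `H73Local`, `H73Frey`.
Closures: S01, S03, S09, S13. -/
theorem local_filtration (P : FreyPackage) {ℓ : ℕ} (hℓ : ℓ.Prime) {A : ValuationSubring Qbar}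
    (hA : A.LiesOverPrime ℓ) :
    ∃ E0 : AddSubgroup (P.freyCurve⁄Qbar).Point,
      (∀ σ ∈ A.inertiaSubgroupIn ℚ, ∀ Q : (P.freyCurve⁄Qbar).Point, σ • Q - Q ∈ E0) ∧
      (∀ σ ∈ A.inertiaSubgroupIn ℚ, ∀ Q ∈ E0, ∀ x y h,
        (σ • Q - Q : (P.freyCurve⁄Qbar).Point) = .some x y h → x ∉ A) :=
  H73.local_groups P hℓ hA

/-- **Case I**: if all points of a stable line `N` are integral at the place `A`, inertia at `A` acts
trivially on `N`. By `local_filtration` for `σ` in inertia `(σ - 1)² N` consists of points which are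
integral and in the kernel of reduction, so it is `0`, and `σ` stabilises the line `N`. Module `H73Frey`.
Closures: S01, S03, S09, S13. -/
theorem case_one (P : FreyPackage)
    (N : Submodule (ZMod P.p) (Submodule.torsionBy ℤ (P.freyCurve⁄Qbar).Point P.p))
    (hN : ∀ σ : GQ, ∀ x ∈ N, σ • x ∈ N) (hN1 : ∀ M ≤ N, M = ⊥ ∨ M = N) {ℓ : ℕ} (hℓ : ℓ.Prime)
    {A : ValuationSubring Qbar} (hA : A.LiesOverPrime ℓ)
    (hI : ∀ Q ∈ N, ∀ (x y : Qbar) (h : (P.freyCurve⁄Qbar).Nonsingular x y),
      (Q : (P.freyCurve⁄Qbar).Point) = .some x y h → x ∈ A)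
    (σ : GQ) (hσ : σ ∈ A.inertiaSubgroupIn ℚ) : ∀ Q ∈ N, σ • Q = Q :=
  H73.case_I N hN hN1 hℓ hA hI σ hσ

/-- **Case II**: if all points of `E[p]` outside the stable line `N` are integral at `A`, inertia at `A`
acts trivially on `E[p]/N`. Module `H73Frey`.
Closures: S01, S03, S09, S13. -/
theorem case_two (P : FreyPackage)
    (N : Submodule (ZMod P.p) (Submodule.torsionBy ℤ (P.freyCurve⁄Qbar).Point P.p))
    (hN : ∀ σ : GQ, ∀ x ∈ N, σ • x ∈ N) (hN2 : ∀ M, N ≤ M → M = N ∨ M = ⊤) {ℓ : ℕ}
    (hℓ : ℓ.Prime) {A : ValuationSubring Qbar} (hA : A.LiesOverPrime ℓ)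
    (hII : ∀ Q, Q ∉ N → ∀ (x y : Qbar) (h : (P.freyCurve⁄Qbar).Nonsingular x y),
      (Q : (P.freyCurve⁄Qbar).Point) = .some x y h → x ∈ A)
    (σ : GQ) (hσ : σ ∈ A.inertiaSubgroupIn ℚ) : ∀ Q, σ • Q - Q ∈ N :=
  H73.case_II N hN hN2 hℓ hA hII σ hσ

/-- **Minkowski's theorem** for the absolute Galois group: an *open* subgroup containing all inertia groups
is everything. From Mathlib's theorem that a number field different from `ℚ` is ramified at some prime, and
lifting of inertia to `Q̄`. Module `H63Minkowski`.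
Closures: S01, S03, S09, S13. -/
theorem minkowski (H : Subgroup GQ) (hH : IsOpen (H : Set GQ))
    (hI : ∀ q : ℕ, q.Prime → ∀ A : ValuationSubring Qbar, A.LiesOverPrime q →
      A.inertiaSubgroupIn ℚ ≤ H) : H = ⊤ :=
  S13.minkowski H hH hI

/-- **The 2-adic core, first steps.** `H13.Hyp p s A B x` is the list of hypotheses of `two_adic_core`
below, `H13.E n x` means that `x ≠ 0` has 2-adic valuation `n`, and `c_k = v₂(x k)` for `p ∤ k`. Then
`1 ≤ c_k < s`, and `c_{2k}` is `2 c_k` or `2 s - 2 c_k`. Proof, by duplication unless stated otherwise: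
`c_k < 0` gives `c_{2k} < c_k`, against periodicity; `c_k = 0` gives `c_{2k} = 0`, and the product formula
for `2k`, `k` is contradictory modulo 2; `c_k ≥ s` gives `c_{2k} ≤ 0`; now compare the valuations of the two
sides (`2 c_k = s` is impossible). Module `H13TwoAdic`.
Closures: S01, S03, S09, S13. -/
theorem two_adic_bounds {p s : ℕ} {A B : ℚ} {x : ℕ → ℚ} (H : H13.Hyp p s A B x) {k : ℕ}
    (hk : ¬ p ∣ k) {c : ℤ} (hc : H13.E c (x k)) :
    (1 ≤ c ∧ c < s) ∧ ∀ c₂ : ℤ, H13.E c₂ (x (2 * k)) → c₂ = 2 * c ∨ c₂ = 2 * s - 2 * c :=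
  ⟨⟨H.one_le hk hc, H.lt_s hk hc⟩, fun _ h => H.c_two hk hc h⟩

/-- **The 2-adic core, the progression.** From the product and the sum of `x(P + Q)` and `x(P - Q)`: of the
numbers `c_{k+m}`, `c_{k-m}` one is `|c_k - c_m|` and the other `c_k + c_m` or `2 s - c_k - c_m`. By
induction (`m = 1`) `c_k` is congruent to `k c_1` or to `- k c_1` modulo `2 s` for `1 ≤ k < p`. Module
`H13TwoAdic`.
Closures: S01, S03, S09, S13. -/
theorem two_adic_progression {p s : ℕ} {A B : ℚ} {x : ℕ → ℚ} (H : H13.Hyp p s A B x) :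
    (∀ {k m : ℕ}, m ≤ k → ¬ p ∣ k → ¬ p ∣ m → ¬ p ∣ k + m → ¬ p ∣ k - m → ∀ {i j cu cv : ℤ},
      H13.E i (x k) → H13.E j (x m) → H13.E cu (x (k + m)) → H13.E cv (x (k - m)) →
        ((cu = j - i ∨ cu = i - j) ∧ (cv = i + j ∨ cv = 2 * s - i - j)) ∨
          ((cv = j - i ∨ cv = i - j) ∧ (cu = i + j ∨ cu = 2 * s - i - j))) ∧
      ∀ {c₁ : ℤ}, H13.E c₁ (x 1) → ∀ k : ℕ, 1 ≤ k → k < p → ∀ c : ℤ, H13.E c (x k) →
        (2 * s : ℤ) ∣ c - k * c₁ ∨ (2 * s : ℤ) ∣ c + k * c₁ :=
  ⟨fun h1 h2 h3 h4 h5 => H.claim3 h1 h2 h3 h4 h5, fun h => H.claim4 h⟩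

/-- **The 2-adic core.** There is no sequence `x 1, x 2, ...` of rational numbers with the following
properties, which hold for the x-coordinates of the multiples of a rational point of prime order `p ≥ 5` on
the model `y² = x (x² + (B/4) x + A)` of the Frey curve, where `v₂(A) = s > 0`, `p ∤ s`, `B` a 2-adic unit:
periodicity and symmetry, the duplication formula, the product and the sum of `x(P + Q)` and `x(P - Q)`. By
`two_adic_bounds` and `two_adic_progression`, `c_k = v₂(x k)` satisfies `1 ≤ c_k < s` and `c_k = ± k c_1`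
modulo `2 s`; as `c_{p-k} = c_k`, the cases `k = p - 1`, `p - 2` give `2 s ∣ c_2` or `2 s ∣ c_1`, a
contradiction. (`H13.E n x`: `x ≠ 0` has 2-adic valuation `n`.) Module `H13TwoAdic`.
Closures: S01, S03, S09, S13. -/
theorem two_adic_core {p s : ℕ} {A B : ℚ} {x : ℕ → ℚ} (hp5 : 5 ≤ p) (hp : p.Prime) (hs : 0 < s)
    (hps : ¬ p ∣ s) (hA : H13.E s A) (hB : H13.E 0 B) (x_ne : ∀ k, ¬ p ∣ k → x k ≠ 0)
    (per : ∀ k l, k ≡ l [MOD p] → x k = x l)
    (dbl : ∀ k, ¬ p ∣ k → x (2 * k) * (x k * (4 * x k ^ 2 + B * x k + 4 * A)) = (x k ^ 2 - A) ^ 2)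
    (prod : ∀ k m, m ≤ k → ¬ p ∣ k → ¬ p ∣ m → ¬ p ∣ k + m → ¬ p ∣ k - m →
      (x (k + m) * x (k - m)) * (x k - x m) ^ 2 = (x k * x m - A) ^ 2)
    (sum : ∀ k m, m ≤ k → ¬ p ∣ k → ¬ p ∣ m → ¬ p ∣ k + m → ¬ p ∣ k - m →
      (x (k + m) + x (k - m)) * (x k - x m) ^ 2 =
        2 * (x k * x m) * (x k + x m) + B * (x k * x m) + 2 * A * (x k + x m))
    (symm : ∀ k, k ≤ p → x (p - k) = x k) : False :=
  H13.two_adic_core ⟨hp5, hp, hs, hps, hA, hB, x_ne, per, dbl, prod, sum, symm⟩

/-- **The Frey curve has no rational point of order `p`**, by `two_adic_core`. This excludes case I of the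
dichotomy. Module `H13NoFixed`.
Closures: S01, S03, S09, S13. -/
theorem no_rational_point (P : FreyPackage)
    (Q : Submodule.torsionBy ℤ (P.freyCurve⁄Qbar).Point P.p) (hQ : ∀ σ : GQ, σ • Q = Q) : Q = 0 :=
  H13.no_fixed P Q hQ

/-- **S13.** If `E[p]` has a stable subspace other than `0` and `E[p]`, there is one such that `Gal(Q̄/ℚ)`
acts trivially on the quotient. Proof: take a stable line `N` and the `dichotomy`. In the first case all
inertia groups act trivially on `N` (`case_one`), so the whole Galois group does (`minkowski`), against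
`no_rational_point`; in the second case it acts trivially on `E[p]/N` (`case_two`, `minkowski`).
Closures: S01, S03, S09, S13. -/
theorem S13 (P : FreyPackage)
    (hred : ¬ ∀ N : Submodule (ZMod P.p) (Submodule.torsionBy ℤ (P.freyCurve⁄Qbar).Point P.p),
      (∀ σ : GQ, ∀ x ∈ N, σ • x ∈ N) → N = ⊥ ∨ N = ⊤) :
    ∃ N : Submodule (ZMod P.p) (Submodule.torsionBy ℤ (P.freyCurve⁄Qbar).Point P.p),
      (∀ σ : GQ, ∀ x ∈ N, σ • x ∈ N) ∧ N ≠ ⊥ ∧ N ≠ ⊤ ∧ ∀ (σ : GQ) x, σ • x - x ∈ N :=
  S13.result P fun h => hred h.2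

end Fermat.Agent.Guide.Frey
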