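import Fermat.Agent.H44EWild
import Fermat.Agent.H62VarChange
import Fermat.Agent.H6_FreyCurve

/-!
# E-side at `p` for the Frey curve, any integral model
-/

set_option autoImplicit false
set_option linter.unusedSectionVars false

open WeierstrassCurve WeierstrassCurve.Affine IsLocalRing

namespace Fermat.Agent.H44E

open Fermat.Agent.H13

local notation "Qb" => AlgebraicClosure ℚ
local notation "GQ" => (AlgebraicClosure ℚ ≃ₐ[ℚ] AlgebraicClosure ℚ)

/-- The data on constants attached to a point `x` and `τ` in inertia moving it: the hypotheses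
`hε0, hε1, hτ, hval, hy` of `node_const_wild`. -/
def WildConst (p : ℕ) (A : ValuationSubring Qb) (Hx : Subgroup (A.inertiaSubgroupIn ℚ))
    (Hy : Subgroup (A.inertiaSubgroupIn ℚ) → Prop) (τ : A.inertiaSubgroupIn ℚ) : Prop :=
  ∃ ε : Qb, ε ≠ 0 ∧ A.valuation ε < 1 ∧
    (∀ a : Qb, (∀ σ ∈ Hx, σ • a = a) → A.valuation a < 1 → A.valuation a ≤ A.valuation ε ^ 2) ∧
    (∀ a : Qb, (∀ σ ∈ Hx, σ • a = a) → A.valuation a ≤ 1 →
      A.valuation (τ • a - a) ≤ A.valuation ε ^ 2) ∧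
    (∀ a : Qb, a ≠ 0 → (∀ σ ∈ Hx, σ • a = a) →
      ∃ n : ℤ, A.valuation a ^ p = A.valuation (p : Qb) ^ n ∧
        A.valuation ((τ • a) / a - 1 - n * ε) ≤ A.valuation ε ^ 2) ∧
    (∀ H : Subgroup (A.inertiaSubgroupIn ℚ), Hy H → ∀ a : Qb, (∀ σ ∈ H, σ • a = a) →
      A.valuation a < 1 → A.valuation a ≤ A.valuation ε ^ 2)

/-- The local structure at `p` of the `p`-torsion of a Galois module with a distinguished line `V`. -/
structure LineAtP (p : ℕ) (A : ValuationSubring Qb) (M : Type*) [AddCommGroup M]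
    [DistribMulAction GQ M] (V : AddSubgroup M) : Prop where
  card : Nat.card V = p
  tors : ∀ T ∈ V, p • T = 0
  smul_mem : ∀ (σ : A.inertiaSubgroupIn ℚ), ∀ T ∈ V, σ • T ∈ V
  smul_sub_mem : ∀ (σ : A.inertiaSubgroupIn ℚ) (x : M), p • x = 0 → σ • x - x ∈ V
  exists_ne : ∀ T ∈ V, T ≠ 0 → ∃ σ : A.inertiaSubgroupIn ℚ, σ • T ≠ T
  index_y : ∀ y ∈ V, y ≠ 0 → (MulAction.stabilizer (A.inertiaSubgroupIn ℚ) y).index ≠ 0 ∧
    (MulAction.stabilizer (A.inertiaSubgroupIn ℚ) y).index ≤ p - 1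
  wild : ∀ x : M, p • x = 0 → x ∉ V →
    (∀ T ∈ V, ∃ σ : A.inertiaSubgroupIn ℚ, σ • (x + T) ≠ x + T) →
    (∀ T ∈ V, ∃ σ : A.inertiaSubgroupIn ℚ, σ • x = x + T) ∧
    (MulAction.stabilizer (A.inertiaSubgroupIn ℚ) x).index = p ∧
    ∀ τ : A.inertiaSubgroupIn ℚ, τ • x ≠ x →
      WildConst p A (MulAction.stabilizer (A.inertiaSubgroupIn ℚ) x)
        (fun H => ∃ y ∈ V, y ≠ 0 ∧ H = MulAction.stabilizer (A.inertiaSubgroupIn ℚ) y) τ

section transport

variable {p : ℕ} {A : ValuationSubring Qb} {M M' : Type*} [AddCommGroup M] [DistribMulAction GQ M]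
  [AddCommGroup M'] [DistribMulAction GQ M'] {V' : AddSubgroup M'}

/-- Two lines with the same property coincide. -/
theorem LineAtP.eq_of_line {V : AddSubgroup M} (h : LineAtP p A M V) (hp : p.Prime)
    {L : AddSubgroup M} (hL : Nat.card L = p)
    (hLσ : ∀ (σ : A.inertiaSubgroupIn ℚ) (x : M), p • x = 0 → σ • x - x ∈ L) : L = V := by
  have hfact := Fact.mk hp
  obtain ⟨T₀, hT₀, hT00⟩ : ∃ T₀ ∈ V, T₀ ≠ 0 := by
    by_contra hcon
    push Not at hcon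
    have h1 : V = ⊥ := by
      rw [eq_bot_iff]
      intro T hT
      rw [AddSubgroup.mem_bot]
      exact hcon T hT
    have h2 := h.card
    rw [h1, AddSubgroup.card_bot] at h2
    exact hp.one_lt.ne h2
  obtain ⟨σ₀, hne⟩ := h.exists_ne T₀ hT₀ hT00
  have h1 : σ₀ • T₀ - T₀ ∈ V := V.sub_mem (h.smul_mem σ₀ T₀ hT₀) hT₀
  have h2 : σ₀ • T₀ - T₀ ∈ L := hLσ σ₀ T₀ (h.tors T₀ hT₀)
  have h3 : σ₀ • T₀ - T₀ ≠ 0 := sub_ne_zero.mpr hne
  apply le_antisymm
  · intro T hT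
    obtain ⟨n, rfl⟩ := exists_nsmul_of_prime_card hL h2 h3 hT
    exact AddSubgroup.nsmul_mem _ h1 n
  · intro T hT
    obtain ⟨n, rfl⟩ := exists_nsmul_of_prime_card h.card h1 h3 hT
    exact AddSubgroup.nsmul_mem _ h2 n

/-- Transport along an equivariant injection whose image contains all the `p`-torsion. -/
theorem LineAtP.comap (h : LineAtP p A M' V') (j : M →+ M') (hj : Function.Injective j)
    (heq : ∀ (σ : GQ) (x : M), j (σ • x) = σ • j x)
    (hsurj : ∀ x' : M', p • x' = 0 → ∃ x, j x = x') : LineAtP p A M (V'.comap j) := by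
  have heq' : ∀ (σ : A.inertiaSubgroupIn ℚ) (x : M), j (σ • x) = σ • j x := fun σ x => heq σ x
  have hstab : ∀ x : M, MulAction.stabilizer (A.inertiaSubgroupIn ℚ) x =
      MulAction.stabilizer (A.inertiaSubgroupIn ℚ) (j x) := by
    intro x
    ext σ
    rw [MulAction.mem_stabilizer_iff, MulAction.mem_stabilizer_iff, ← heq', hj.eq_iff]
  have htor : ∀ x : M, p • x = 0 → p • j x = 0 := by
    intro x hx
    rw [← map_nsmul, hx, map_zero]
  have h0 : ∀ x : M, x ≠ 0 → j x ≠ 0 := by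
    intro x hx h0
    exact hx (hj (by rw [h0, map_zero]))
  constructor
  · rw [← h.card]
    refine Nat.card_congr (Equiv.ofBijective (fun T : V'.comap j => (⟨j T, T.2⟩ : V')) ⟨?_, ?_⟩)
    · intro T T' h1
      exact Subtype.ext (hj (congrArg Subtype.val h1))
    · rintro ⟨T, hT⟩
      obtain ⟨x, rfl⟩ := hsurj T (h.tors T hT)
      exact ⟨⟨x, hT⟩, rfl⟩
  · intro T hT
    apply hj
    rw [map_nsmul, h.tors _ hT, map_zero]
  · intro σ T hT
    show j (σ • T) ∈ V'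
    rw [heq']
    exact h.smul_mem σ _ hT
  · intro σ x hx
    show j (σ • x - x) ∈ V'
    rw [map_sub, heq']
    exact h.smul_sub_mem σ _ (htor x hx)
  · intro T hT hT0
    obtain ⟨σ, hσ⟩ := h.exists_ne (j T) hT (h0 T hT0)
    refine ⟨σ, fun h1 => hσ ?_⟩
    rw [← heq', h1]
  · intro y hy hy0
    rw [hstab]
    exact h.index_y (j y) hy (h0 y hy0)
  · intro x hx hxV hnf
    obtain ⟨w1, w2, w3⟩ := h.wild (j x) (htor x hx) hxV (by
      intro T hT
      obtain ⟨T₁, rfl⟩ := hsurj T (h.tors T hT)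
      obtain ⟨σ, hσ⟩ := hnf T₁ hT
      refine ⟨σ, fun h1 => hσ (hj ?_)⟩
      rw [heq', map_add, h1])
    refine ⟨?_, ?_, ?_⟩
    · intro T hT
      obtain ⟨σ, hσ⟩ := w1 (j T) hT
      refine ⟨σ, hj ?_⟩
      rw [heq', hσ, map_add]
    · rw [hstab]; exact w2
    · intro τ hτ
      rw [hstab]
      obtain ⟨ε, e1, e2, e3, e4, e5, e6⟩ := w3 τ (fun h1 => hτ (hj (by rw [heq', h1])))
      refine ⟨ε, e1, e2, e3, e4, e5, ?_⟩
      rintro H ⟨y, hy, hy0, rfl⟩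
      exact e6 _ ⟨j y, hy, h0 y hy0, hstab y⟩

end transport

/-- **E-side at `p`**, multiplicative reduction, `p ∣ v_p(Δ)`. -/
theorem lineAtP_of_multiplicative {W : WeierstrassCurve ℤ} {p : ℕ} (hp : p.Prime) (hp2 : p ≠ 2)
    (hbad : (p : ℤ) ∣ W.Δ) (hΔ : W.Δ ≠ 0) (hc : ¬ (p : ℤ) ∣ W.c₄) (hdvd : p ∣ padicValInt p W.Δ)
    {A : ValuationSubring Qb} (hA : A.LiesOverPrime p) : LineAtP p A (PtQ W) (V1 W p A) := by
  obtain ⟨x₀, y₀, α, β, g, hN⟩ := exists_goodNode hp hbad hΔ hc hA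
  refine ⟨natCard_V1 hp hA hΔ hN, fun T hT => hT.1, fun σ T hT => smul_mem_V1 σ.2 hT,
    fun σ x hx => smul_sub_mem_V1 hp hA hN σ.2 hx, ?_, ?_, ?_⟩
  · intro T hT hT0
    obtain ⟨σ, hσ, hne⟩ := exists_smul_ne hp hp2 hA hΔ hN hT hT0
    exact ⟨⟨σ, hσ⟩, hne⟩
  · intro y hy hy0
    exact index_stabilizer_V1 hp hA hΔ hN hy hy0
  · intro x hpx hx hnf
    obtain ⟨w1, w2, w3⟩ := wild_E hp hp2 hA hΔ hN hdvd hpx hx hnf
    refine ⟨w1, w2, fun τ hτ => ?_⟩
    obtain ⟨ε, e1, e2, e3, e4, e5, e6⟩ := w3 τ hτ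
    refine ⟨ε, e1, e2, e3, e4, e5, ?_⟩
    rintro H ⟨y, hy, hy0, rfl⟩
    exact e6 y hy hy0

section frey

theorem exists_equiv_of_eq {X Y : WeierstrassCurve ℚ} {C : VariableChange ℚ} (h : C • Y = X) :
    ∃ e : (X⁄Qb).Point ≃+ (Y⁄Qb).Point, ∀ (σ : GQ) (P : (X⁄Qb).Point), e (σ • P) = σ • e P := by
  subst h
  exact H62.exists_equivariant_equiv (K := Qb) Y C

variable (P : FreyPackage)

theorem frey_dvd_padicVal : P.p ∣ padicValInt P.p P.freyCurveInt.Δ := by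
  have hfact : Fact (Nat.Prime P.p) := ⟨P.pp⟩
  have h1 := H6.freyCurveInt_Δ P
  have h2 := congrArg (padicValInt P.p) h1
  rw [padicValInt.mul (by norm_num) (H6.freyCurveInt_Δ_ne_zero P)] at h2
  have h3 : padicValInt P.p ((P.a * P.b * P.c) ^ (2 * P.p)) =
      2 * P.p * padicValInt P.p (P.a * P.b * P.c) := by
    have := padicValRat.pow (p := P.p) (q := ((P.a * P.b * P.c : ℤ) : ℚ)) (k := 2 * P.p)
    rw [← Int.cast_pow, padicValRat.of_int, padicValRat.of_int] at this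
    exact_mod_cast this
  have h4 : padicValInt P.p 256 = 0 := by
    apply padicValInt.eq_zero_of_not_dvd
    intro h
    have h5 : P.p ∣ 2 ^ 8 := by
      have : (256 : ℤ) = ((2 ^ 8 : ℕ) : ℤ) := by norm_num
      rw [this, Int.natCast_dvd_natCast] at h
      exact h
    have h6 := (Nat.prime_dvd_prime_iff_eq P.pp Nat.prime_two).mp (P.pp.dvd_of_dvd_pow h5)
    have := P.hp5
    omega
  rw [h3, h4, zero_add] at h2
  rw [h2]
  exact ⟨2 * padicValInt P.p (P.a * P.b * P.c), by ring⟩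

theorem frey_p_dvd_Δ (h : (P.p : ℤ) ∣ P.a * P.b * P.c) : (P.p : ℤ) ∣ P.freyCurveInt.Δ := by
  have hp : Prime (P.p : ℤ) := Nat.prime_iff_prime_int.mp P.pp
  have h1 : (P.p : ℤ) ∣ 256 * P.freyCurveInt.Δ := by
    rw [H6.freyCurveInt_Δ P]
    exact dvd_pow h (by have := P.hp5; omega)
  rcases hp.dvd_or_dvd h1 with h2 | h2
  · exfalso
    have h5 : P.p ∣ 2 ^ 8 := by
      have : (256 : ℤ) = ((2 ^ 8 : ℕ) : ℤ) := by norm_num
      rw [this, Int.natCast_dvd_natCast] at h2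
      exact h2
    have h6 := (Nat.prime_dvd_prime_iff_eq P.pp Nat.prime_two).mp (P.pp.dvd_of_dvd_pow h5)
    have := P.hp5
    omega
  · exact h2

/-- **E-side at `p` for the Frey curve**, points. -/
theorem frey_lineAtP_pt (h : (P.p : ℤ) ∣ P.a * P.b * P.c) {W : WeierstrassCurve ℤ}
    (hW : W.IsIntegralModelOf P.freyCurve) {A : ValuationSubring Qb} (hA : A.LiesOverPrime P.p) :
    ∃ V : AddSubgroup (PtQ W), LineAtP P.p A (PtQ W) V := by
  have hp2 : P.p ≠ 2 := by have := P.hp5; omega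
  have h1 := frey_p_dvd_Δ P h
  have h2 := lineAtP_of_multiplicative P.pp hp2 h1 (H6.freyCurveInt_Δ_ne_zero P)
    (H6.freyCurveInt_isSemistableModel P P.p P.pp h1) (frey_dvd_padicVal P) hA
  obtain ⟨C, hC⟩ := hW
  rw [← H6.freyCurveInt_map P] at hC
  obtain ⟨e, he⟩ := exists_equiv_of_eq hC
  exact ⟨_, h2.comap (e : PtQ W →+ PtQ P.freyCurveInt) e.injective he
    fun x' _ => ⟨e.symm x', e.apply_symm_apply x'⟩⟩

/-- `E[n]`, as in `H39.Tor`. -/
abbrev TorQ (W : WeierstrassCurve ℤ) (n : ℕ) : Type :=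
  Submodule.torsionBy ℤ (WeierstrassCurve.Affine.Point
    ((W.map (Int.castRingHom ℚ))⁄(AlgebraicClosure ℚ))) (n : ℤ)

/-- **E-side at `p` for the Frey curve**, `p`-torsion. -/
theorem frey_lineAtP (h : (P.p : ℤ) ∣ P.a * P.b * P.c) {W : WeierstrassCurve ℤ}
    (hW : W.IsIntegralModelOf P.freyCurve) {A : ValuationSubring Qb} (hA : A.LiesOverPrime P.p) :
    ∃ V : AddSubgroup (TorQ W P.p), LineAtP P.p A (TorQ W P.p) V := by
  obtain ⟨V, hV⟩ := frey_lineAtP_pt P h hW hA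
  refine ⟨_, hV.comap ((Submodule.torsionBy ℤ (PtQ W) (P.p : ℤ)).subtype.toAddMonoidHom)
    Subtype.val_injective (fun σ x => rfl) (fun x' hx' => ?_)⟩
  refine ⟨⟨x', ?_⟩, rfl⟩
  rw [Submodule.mem_torsionBy_iff, natCast_zsmul]
  exact hx'

end frey

end Fermat.Agent.H44E
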