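import Mathlib

/-!
# Two-dimensional representations with a transvection (helper45, ML-J8)

`HasTv ρ` : there is a basis `e` of `V` and `g h` in the group with `ρ g` an upper and
`ρ (h g h⁻¹)` a lower elementary matrix.

* `hasTv_of_unipotent` : an irreducible 2-dimensional representation with a nontrivial unipotent
  element `ρ g` has `HasTv ρ`.
* `HasTv.baseChange`.
* `HasTv.irred` : the restriction to every subgroup containing all squares is irreducible (`2 ≠ 0`).
* `HasTv.exists_eq_of_det_one` : over `ZMod p` (`5 ≤ p`) the image of every subgroup containing the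
  commutator subgroup contains all endomorphisms of determinant one.
-/

set_option autoImplicit false

namespace Fermat.Agent.H45

open Module

/-- `ρ g` and `ρ (h g h⁻¹)` are nontrivial transvections with distinct axes. -/
def HasTv {k V G : Type*} [Field k] [AddCommGroup V] [Module k V] [Group G]
    (ρ : G →* Module.End k V) : Prop :=
  ∃ (e : Basis (Fin 2) k V) (g h : G) (a b : k), a ≠ 0 ∧ b ≠ 0 ∧
    ρ g (e 0) = e 0 ∧ ρ g (e 1) = e 1 + a • e 0 ∧
    ρ (h * g * h⁻¹) (e 1) = e 1 ∧ ρ (h * g * h⁻¹) (e 0) = e 0 + b • e 1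

section

variable {k V G : Type*} [Field k] [AddCommGroup V] [Module k V] [Group G]
  {ρ : G →* Module.End k V}

theorem hasTv_of_unipotent (hV : Module.finrank k V = 2)
    (hirr : ∀ W : Submodule k V, (∀ σ : G, ∀ x ∈ W, ρ σ x ∈ W) → W = ⊥ ∨ W = ⊤)
    (g : G) (hg1 : ρ g ≠ 1) (hg : ∀ x, ρ g (ρ g x - x) = ρ g x - x) : HasTv ρ := by
  have hfin : Module.Finite k V := Module.finite_of_finrank_eq_succ hV
  -- the axis
  let N : Module.End k V := ρ g - 1
  have hN : ∀ x, N x = ρ g x - x := fun x => rfl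
  have hNN : ∀ x, N (N x) = 0 := by
    intro x
    rw [hN (N x), hN x, hg x, sub_self]
  let L : Submodule k V := LinearMap.ker N
  have hL : ∀ x, x ∈ L ↔ ρ g x = x := by
    intro x
    rw [LinearMap.mem_ker, hN, sub_eq_zero]
  have hLtop : L ≠ ⊤ := by
    intro h
    apply hg1
    refine LinearMap.ext fun x => ?_
    have : x ∈ L := by rw [h]; exact Submodule.mem_top
    rw [(hL x).mp this]
    rfl
  have hLbot : L ≠ ⊥ := by
    intro h
    apply hg1
    refine LinearMap.ext fun x => ?_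
    have h1 : N x ∈ L := LinearMap.mem_ker.mpr (hNN x)
    rw [h, Submodule.mem_bot, hN, sub_eq_zero] at h1
    rw [h1]
    rfl
  -- `L` is not stable
  obtain ⟨h, v, hv, hhv⟩ : ∃ (h : G) (v : V), v ∈ L ∧ ρ h v ∉ L := by
    by_contra hcon
    push Not at hcon
    rcases hirr L (fun σ x hx => hcon σ x hx) with h1 | h1
    · exact hLbot h1
    · exact hLtop h1
  have hv0 : v ≠ 0 := by
    rintro rfl
    rw [map_zero] at hhv
    exact hhv (Submodule.zero_mem _)
  have hLI : LinearIndependent k ![v, ρ h v] := by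
    rw [LinearIndependent.pair_iff]
    intro s t hst
    have ht : t = 0 := by
      by_contra ht
      apply hhv
      have : ρ h v = (-(t⁻¹ * s)) • v := by
        have h2 : t • ρ h v = -(s • v) := by
          rw [eq_neg_iff_add_eq_zero, add_comm]; exact hst
        calc ρ h v = t⁻¹ • (t • ρ h v) := by rw [smul_smul, inv_mul_cancel₀ ht, one_smul]
          _ = (-(t⁻¹ * s)) • v := by rw [h2, smul_neg, smul_smul, neg_smul]
      rw [this]
      exact Submodule.smul_mem _ _ hv
    rw [ht, zero_smul, add_zero] at hst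
    exact ⟨(smul_eq_zero.mp hst).resolve_right hv0, ht⟩
  let e : Basis (Fin 2) k V := basisOfLinearIndependentOfCardEqFinrank hLI (by simp [hV])
  have he0 : e 0 = v := by simp [e]
  have he1 : e 1 = ρ h v := by simp [e]
  -- `N e₁ = a e₀`
  have hconj : ∀ x, ρ (h * g * h⁻¹) (ρ h x) = ρ h (ρ g x) := by
    intro x
    rw [← Module.End.mul_apply, ← Module.End.mul_apply, ← map_mul, ← map_mul]
    congr 2
    group
  have hrep : ∀ x : V, x = e.repr x 0 • e 0 + e.repr x 1 • e 1 := by
    intro x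
    conv_lhs => rw [← e.sum_repr x]
    rw [Fin.sum_univ_two]
  have hga : ∃ a : k, a ≠ 0 ∧ ρ g (e 1) = e 1 + a • e 0 := by
    have h1 : N (e 1) ∈ L := LinearMap.mem_ker.mpr (hNN _)
    have h2 := hrep (N (e 1))
    have h3 : N (N (e 1)) = 0 := hNN _
    have hN0 : N (e 0) = 0 := by rw [he0]; exact hv
    have hN1 : N (e 1) ≠ 0 := by rw [he1]; exact hhv
    rw [h2, map_add, map_smul, map_smul, hN0, smul_zero, zero_add] at h3
    have h4 : e.repr (N (e 1)) 1 = 0 := (smul_eq_zero.mp h3).resolve_right hN1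
    rw [h4, zero_smul, add_zero] at h2
    refine ⟨e.repr (N (e 1)) 0, ?_, ?_⟩
    · intro h5
      rw [h5, zero_smul] at h2
      exact hN1 h2
    · rw [← h2, hN]
      abel
  obtain ⟨a, ha, hga⟩ := hga
  -- `N' = ρ(h g h⁻¹) - 1`
  have hg'1 : ρ (h * g * h⁻¹) (e 1) = e 1 := by
    rw [he1, hconj, (hL v).mp hv]
  have hg'u : ∀ x, ρ (h * g * h⁻¹) (ρ (h * g * h⁻¹) x - x) = ρ (h * g * h⁻¹) x - x := by
    intro x
    obtain ⟨y, rfl⟩ : ∃ y, ρ h y = x := ⟨ρ h⁻¹ x, by
      rw [← Module.End.mul_apply, ← map_mul, mul_inv_cancel, map_one]; rfl⟩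
    rw [hconj, ← map_sub, hconj, hg y]
  have hg'ne : ρ (h * g * h⁻¹) (e 0) ≠ e 0 := by
    intro h0
    apply hg1
    refine LinearMap.ext fun x => ?_
    have h1 : ∀ y, ρ (h * g * h⁻¹) y = y := by
      intro y
      rw [hrep y, map_add, map_smul, map_smul, h0, hg'1]
    have h2 := h1 (ρ h x)
    rw [hconj] at h2
    have h3 : ρ h⁻¹ (ρ h (ρ g x)) = ρ h⁻¹ (ρ h x) := by rw [h2]
    rw [← Module.End.mul_apply, ← Module.End.mul_apply (ρ h⁻¹) (ρ h) x, ← map_mul,
      inv_mul_cancel, map_one] at h3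
    exact h3
  have hgb : ∃ b : k, b ≠ 0 ∧ ρ (h * g * h⁻¹) (e 0) = e 0 + b • e 1 := by
    set g' := h * g * h⁻¹
    have h2 := hrep (ρ g' (e 0) - e 0)
    have h3 := hg'u (e 0)
    set s := e.repr (ρ g' (e 0) - e 0) 0
    set t := e.repr (ρ g' (e 0) - e 0) 1
    rw [h2, map_add, map_smul, map_smul, hg'1] at h3
    have h4 : s • (ρ g' (e 0) - e 0) = 0 := by
      rw [smul_sub, sub_eq_zero]
      exact add_right_cancel h3
    have h5 : s = 0 := (smul_eq_zero.mp h4).resolve_right (sub_ne_zero.mpr hg'ne)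
    rw [h5, zero_smul, zero_add] at h2
    refine ⟨t, ?_, ?_⟩
    · intro h6
      rw [h6, zero_smul] at h2
      exact hg'ne (sub_eq_zero.mp h2)
    · rw [← h2]; abel
  obtain ⟨b, hb, hgb⟩ := hgb
  refine ⟨e, g, h, a, b, ha, hb, ?_, hga, hg'1, hgb⟩
  rw [he0]
  exact (hL v).mp hv

/-- Subspaces stable under a transvection. -/
theorem stable_of_transvection (e : Basis (Fin 2) k V) {u : Module.End k V} {a : k} (ha : a ≠ 0)
    (h0 : u (e 0) = e 0) (h1 : u (e 1) = e 1 + a • e 0) (W : Submodule k V)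
    (hW : ∀ x ∈ W, u x ∈ W) : W ≤ Submodule.span k {e 0} ∨ e 0 ∈ W := by
  by_cases hle : W ≤ Submodule.span k {e 0}
  · exact Or.inl hle
  · right
    obtain ⟨x, hx, hx'⟩ := Set.not_subset.mp hle
    have hrep : x = e.repr x 0 • e 0 + e.repr x 1 • e 1 := by
      conv_lhs => rw [← e.sum_repr x]
      rw [Fin.sum_univ_two]
    set s := e.repr x 0
    set t := e.repr x 1
    have ht : t ≠ 0 := by
      intro ht
      apply hx'
      rw [hrep, ht, zero_smul, add_zero]
      exact Submodule.smul_mem _ _ (Submodule.mem_span_singleton_self _)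
    have h2 : u x - x = (t * a) • e 0 := by
      conv_lhs => rw [hrep]
      rw [map_add, map_smul, map_smul, h0, h1, smul_add, smul_smul]
      abel
    have h3 : (t * a) • e 0 ∈ W := by
      rw [← h2]
      exact Submodule.sub_mem _ (hW x hx) hx
    have h4 : (t * a)⁻¹ • ((t * a) • e 0) = e 0 := by
      rw [smul_smul, inv_mul_cancel₀ (mul_ne_zero ht ha), one_smul]
    rw [← h4]
    exact Submodule.smul_mem _ _ h3

/-- **The restriction of `ρ` to every subgroup containing the squares is irreducible.** -/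
theorem HasTv.irred (h : HasTv ρ) (h2 : (2 : k) ≠ 0) (G' : Subgroup G) (hG' : ∀ x : G, x * x ∈ G')
    (W : Submodule k V) (hW : ∀ σ ∈ G', ∀ x ∈ W, ρ σ x ∈ W) : W = ⊥ ∨ W = ⊤ := by
  obtain ⟨e, g, h, a, b, ha, hb, hg0, hg1, hg'1, hg'0⟩ := h
  set g' := h * g * h⁻¹
  have hu0 : ρ (g * g) (e 0) = e 0 := by rw [map_mul, Module.End.mul_apply, hg0, hg0]
  have hu1 : ρ (g * g) (e 1) = e 1 + (2 * a) • e 0 := by
    rw [map_mul, Module.End.mul_apply, hg1, map_add, map_smul, hg0, hg1, two_mul, add_smul,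
      add_assoc]
  have hl1 : ρ (g' * g') (e 1) = e 1 := by rw [map_mul, Module.End.mul_apply, hg'1, hg'1]
  have hl0 : ρ (g' * g') (e 0) = e 0 + (2 * b) • e 1 := by
    rw [map_mul, Module.End.mul_apply, hg'0, map_add, map_smul, hg'1, hg'0, two_mul, add_smul,
      add_assoc]
  have e' : Basis (Fin 2) k V := e.reindex (Equiv.swap 0 1)
  have A1 := stable_of_transvection e (mul_ne_zero h2 ha) hu0 hu1 W (hW _ (hG' g))
  have A2 := stable_of_transvection (e.reindex (Equiv.swap 0 1)) (mul_ne_zero h2 hb)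
    (u := ρ (g' * g')) (by simpa using hl1) (by simpa using hl0) W (hW _ (hG' g'))
  have he' : (e.reindex (Equiv.swap (0 : Fin 2) 1)) 0 = e 1 := by simp
  rw [he'] at A2
  have hli := e.linearIndependent
  have hne : ∀ s t : k, s • e 0 = t • e 1 → s = 0 ∧ t = 0 := by
    intro s t hst
    have h3 := congrArg (fun x => e.repr x 0) hst
    have h4 := congrArg (fun x => e.repr x 1) hst
    simp at h3 h4
    exact ⟨h3, h4.symm⟩
  have htop : e 0 ∈ W → e 1 ∈ W → W = ⊤ := by
    intro h3 h4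
    rw [eq_top_iff, ← e.span_eq, Submodule.span_le]
    rintro _ ⟨i, rfl⟩
    fin_cases i
    · exact h3
    · exact h4
  rcases A1 with h3 | h3 <;> rcases A2 with h4 | h4
  · left
    rw [eq_bot_iff]
    intro x hx
    obtain ⟨s, hs⟩ := Submodule.mem_span_singleton.mp (h3 hx)
    obtain ⟨t, ht⟩ := Submodule.mem_span_singleton.mp (h4 hx)
    have := (hne s t (hs.trans ht.symm)).1
    rw [this, zero_smul] at hs
    rw [Submodule.mem_bot, ← hs]
  · exfalso
    obtain ⟨s, hs⟩ := Submodule.mem_span_singleton.mp (h3 h4)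
    exact one_ne_zero (hne s 1 (by rw [hs, one_smul])).2
  · exfalso
    obtain ⟨s, hs⟩ := Submodule.mem_span_singleton.mp (h4 h3)
    exact one_ne_zero (hne 1 s (by rw [hs, one_smul])).1
  · right
    exact htop h3 h4

end

section BaseChange

open scoped TensorProduct

variable {k V G : Type*} [Field k] [AddCommGroup V] [Module k V] [Group G]
  {ρ : G →* Module.End k V}

theorem HasTv.baseChange (h : HasTv ρ) (K : Type*) [Field K] [Algebra k K]
    (ρ' : G →* Module.End K (K ⊗[k] V)) (hρ' : ∀ σ, ρ' σ = (ρ σ).baseChange K) : HasTv ρ' := by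
  obtain ⟨e, g, h, a, b, ha, hb, hg0, hg1, hg'1, hg'0⟩ := h
  have hinj : Function.Injective (algebraMap k K) := (algebraMap k K).injective
  refine ⟨e.baseChange K, g, h, algebraMap k K a, algebraMap k K b,
    (map_ne_zero _).mpr ha, (map_ne_zero _).mpr hb, ?_, ?_, ?_, ?_⟩
  · rw [hρ', Basis.baseChange_apply, LinearMap.baseChange_tmul, hg0]
  · rw [hρ', Basis.baseChange_apply, Basis.baseChange_apply, LinearMap.baseChange_tmul, hg1,
      TensorProduct.tmul_add, TensorProduct.tmul_smul, algebraMap_smul]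
  · rw [hρ', Basis.baseChange_apply, LinearMap.baseChange_tmul, hg'1]
  · rw [hρ', Basis.baseChange_apply, Basis.baseChange_apply, LinearMap.baseChange_tmul, hg'0,
      TensorProduct.tmul_add, TensorProduct.tmul_smul, algebraMap_smul]

end BaseChange

/-! ### The image contains `SL₂(𝔽_p)` -/

section SL2

/-- A submonoid of `M₂(F)` containing all elementary matrices contains all matrices of determinant
one. -/
theorem mem_of_elementary {F : Type*} [Field F] (S : Submonoid (Matrix (Fin 2) (Fin 2) F))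
    (hU : ∀ x : F, !![1, x; 0, 1] ∈ S) (hL : ∀ x : F, !![1, 0; x, 1] ∈ S)
    (M : Matrix (Fin 2) (Fin 2) F) (hM : M.det = 1) : M ∈ S := by
  have key : ∀ M : Matrix (Fin 2) (Fin 2) F, M.det = 1 → M 1 0 ≠ 0 → M ∈ S := by
    intro M hM hc
    have h1 : M = !![1, (M 0 0 - 1) / M 1 0; 0, 1] * !![1, 0; M 1 0, 1] *
        !![1, (M 1 1 - 1) / M 1 0; 0, 1] := by
      rw [Matrix.det_fin_two] at hM
      ext i j
      fin_cases i <;> fin_cases j
      · simp [Matrix.mul_apply, Fin.sum_univ_two]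
        field_simp
        ring
      · simp [Matrix.mul_apply, Fin.sum_univ_two]
        field_simp
        linear_combination -hM
      · simp [Matrix.mul_apply, Fin.sum_univ_two]
      · simp [Matrix.mul_apply, Fin.sum_univ_two]
        field_simp
        ring
    rw [h1]
    exact S.mul_mem (S.mul_mem (hU _) (hL _)) (hU _)
  by_cases hc : M 1 0 = 0
  · have hd : M 1 1 ≠ 0 := by
      intro hd
      rw [Matrix.det_fin_two, hc, hd] at hM
      simp at hM
    have h1 : M = (M * !![1, 0; 1, 1]) * !![1, 0; -1, 1] := by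
      rw [mul_assoc]
      have : (!![1, 0; 1, 1] : Matrix (Fin 2) (Fin 2) F) * !![1, 0; -1, 1] = 1 := by
        ext i j
        fin_cases i <;> fin_cases j <;> simp [Matrix.mul_apply, Fin.sum_univ_two]
      rw [this, mul_one]
    rw [h1]
    refine S.mul_mem (key _ ?_ ?_) (hL _)
    · rw [Matrix.det_mul, hM]
      simp [Matrix.det_fin_two]
    · simp [Matrix.mul_apply, Fin.sum_univ_two, hc, hd]
  · exact key M hM hc

variable {p : ℕ} [Fact p.Prime] {V G : Type*} [AddCommGroup V] [Module (ZMod p) V] [Group G]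
  {ρ : G →* Module.End (ZMod p) V}

theorem upper_pow {F : Type*} [Field F] (a : F) (n : ℕ) :
    (!![1, a; 0, 1] : Matrix (Fin 2) (Fin 2) F) ^ n = !![1, n * a; 0, 1] := by
  induction n with
  | zero => ext i j; fin_cases i <;> fin_cases j <;> simp
  | succ n ih =>
    rw [pow_succ, ih]
    ext i j
    fin_cases i <;> fin_cases j <;> simp [Matrix.mul_apply, Fin.sum_univ_two]
    ring

theorem lower_pow {F : Type*} [Field F] (a : F) (n : ℕ) :
    (!![1, 0; a, 1] : Matrix (Fin 2) (Fin 2) F) ^ n = !![1, 0; n * a, 1] := by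
  induction n with
  | zero => ext i j; fin_cases i <;> fin_cases j <;> simp
  | succ n ih =>
    rw [pow_succ, ih]
    ext i j
    fin_cases i <;> fin_cases j <;> simp [Matrix.mul_apply, Fin.sum_univ_two]
    ring

/-- **The image of `ρ` contains all endomorphisms of determinant one.** -/
theorem HasTv.exists_eq_of_det_one_top (h : HasTv ρ) (f : Module.End (ZMod p) V)
    (hf : LinearMap.det f = 1) : ∃ σ : G, ρ σ = f := by
  obtain ⟨e, g, h, a, b, ha, hb, hg0, hg1, hg'1, hg'0⟩ := h
  obtain ⟨g', hg'⟩ : ∃ g', h * g * h⁻¹ = g' := ⟨_, rfl⟩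
  rw [hg'] at hg'1 hg'0
  let r : G →* Matrix (Fin 2) (Fin 2) (ZMod p) :=
    ((LinearMap.toMatrixAlgEquiv e : _ ≃ₐ[ZMod p] _) : _ →* _).comp ρ
  have hr : ∀ σ, r σ = LinearMap.toMatrix e e (ρ σ) := fun σ => rfl
  have hrg : r g = !![1, a; 0, 1] := by
    rw [hr]
    ext i j
    rw [LinearMap.toMatrix_apply]
    fin_cases j
    · fin_cases i <;> simp [hg0]
    · fin_cases i <;> simp [hg1]
  have hrg' : r g' = !![1, 0; b, 1] := by
    rw [hr]
    ext i j
    rw [LinearMap.toMatrix_apply]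
    fin_cases j
    · fin_cases i <;> simp [hg'0]
    · fin_cases i <;> simp [hg'1]
  have hmem : LinearMap.toMatrix e e f ∈ MonoidHom.mrange r := by
    refine mem_of_elementary _ ?_ ?_ _ ?_
    · intro x
      refine ⟨g ^ (x / a).val, ?_⟩
      rw [map_pow, hrg, upper_pow, ZMod.natCast_zmod_val, div_mul_cancel₀ _ ha]
    · intro x
      refine ⟨g' ^ (x / b).val, ?_⟩
      rw [map_pow, hrg', lower_pow, ZMod.natCast_zmod_val, div_mul_cancel₀ _ hb]
    · rw [LinearMap.det_toMatrix, hf]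
  obtain ⟨σ, hσ⟩ := hmem
  exact ⟨σ, (LinearMap.toMatrix e e).injective hσ⟩

/-- **The image of every subgroup containing the commutators contains all endomorphisms of
determinant one** (`5 ≤ p`). -/
theorem HasTv.exists_eq_of_det_one (h : HasTv ρ) (hp : 5 ≤ p) (G' : Subgroup G)
    (hG' : ∀ x y : G, x * y * x⁻¹ * y⁻¹ ∈ G') (f : Module.End (ZMod p) V)
    (hf : LinearMap.det f = 1) : ∃ σ ∈ G', ρ σ = f := by
  have htop := h.exists_eq_of_det_one_top
  obtain ⟨e, -⟩ := h
  let r : G →* Matrix (Fin 2) (Fin 2) (ZMod p) :=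
    ((LinearMap.toMatrixAlgEquiv e : _ ≃ₐ[ZMod p] _) : _ →* _).comp ρ
  have hr : ∀ σ, r σ = LinearMap.toMatrix e e (ρ σ) := fun σ => rfl
  have htop' : ∀ M : Matrix (Fin 2) (Fin 2) (ZMod p), M.det = 1 → ∃ σ, r σ = M := by
    intro M hM
    obtain ⟨σ, hσ⟩ := htop (Matrix.toLin e e M) (by rw [LinearMap.det_toLin, hM])
    exact ⟨σ, by rw [hr, hσ, LinearMap.toMatrix_toLin]⟩
  have h2 : (2 : ZMod p) ≠ 0 := by
    intro h2
    have : p ∣ 2 := by rw [← ZMod.natCast_eq_zero_iff]; exact_mod_cast h2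
    have := Nat.le_of_dvd (by norm_num) this
    omega
  have h3 : (3 : ZMod p) ≠ 0 := by
    intro h3
    have : p ∣ 3 := by rw [← ZMod.natCast_eq_zero_iff]; exact_mod_cast h3
    have := Nat.le_of_dvd (by norm_num) this
    omega
  have hinv : ∀ x : G, ∀ M N : Matrix (Fin 2) (Fin 2) (ZMod p), r x = M → M * N = 1 →
      r x⁻¹ = N := by
    intro x M N hx hMN
    have h1 : r x⁻¹ * M = 1 := by rw [← hx, ← map_mul, inv_mul_cancel, map_one]
    calc r x⁻¹ = r x⁻¹ * (M * N) := by rw [hMN, mul_one]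
      _ = N := by rw [← mul_assoc, h1, one_mul]
  obtain ⟨d, hd⟩ := htop' !![2, 0; 0, 2⁻¹] (by simp [Matrix.det_fin_two, h2])
  have hd' : r d⁻¹ = !![2⁻¹, 0; 0, 2] := by
    refine hinv d _ _ hd ?_
    ext i j
    fin_cases i <;> fin_cases j <;> simp [Matrix.mul_apply, Fin.sum_univ_two, h2]
  have hmem : LinearMap.toMatrix e e f ∈ Submonoid.map r G'.toSubmonoid := by
    refine mem_of_elementary _ ?_ ?_ _ ?_
    · intro x
      obtain ⟨u, hu⟩ := htop' !![1, x / 3; 0, 1] (by simp [Matrix.det_fin_two])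
      have hu' : r u⁻¹ = !![1, -(x / 3); 0, 1] := by
        refine hinv u _ _ hu ?_
        ext i j
        fin_cases i <;> fin_cases j <;> simp [Matrix.mul_apply, Fin.sum_univ_two]
      refine ⟨d * u * d⁻¹ * u⁻¹, hG' d u, ?_⟩
      rw [map_mul, map_mul, map_mul, hd, hd', hu, hu']
      ext i j
      fin_cases i <;> fin_cases j
      · simp [Matrix.mul_apply, Fin.sum_univ_two, h2]
      · simp [Matrix.mul_apply, Fin.sum_univ_two, h2]
        field_simp
        ring
      · simp [Matrix.mul_apply, Fin.sum_univ_two, h2]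
      · simp [Matrix.mul_apply, Fin.sum_univ_two, h2]
    · intro x
      obtain ⟨u, hu⟩ := htop' !![1, 0; x / 3, 1] (by simp [Matrix.det_fin_two])
      have hu' : r u⁻¹ = !![1, 0; -(x / 3), 1] := by
        refine hinv u _ _ hu ?_
        ext i j
        fin_cases i <;> fin_cases j <;> simp [Matrix.mul_apply, Fin.sum_univ_two]
      refine ⟨d⁻¹ * u * d⁻¹⁻¹ * u⁻¹, hG' d⁻¹ u, ?_⟩
      rw [inv_inv, map_mul, map_mul, map_mul, hd, hd', hu, hu']
      ext i j
      fin_cases i <;> fin_cases j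
      · simp [Matrix.mul_apply, Fin.sum_univ_two, h2]
      · simp [Matrix.mul_apply, Fin.sum_univ_two, h2]
      · simp [Matrix.mul_apply, Fin.sum_univ_two]
        field_simp
        ring
      · simp [Matrix.mul_apply, Fin.sum_univ_two, h2]
    · rw [LinearMap.det_toMatrix, hf]
  obtain ⟨σ, hσ, hσf⟩ := hmem
  exact ⟨σ, hσ, (LinearMap.toMatrix e e).injective hσf⟩

end SL2

end Fermat.Agent.H45
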