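import Mathlib
import Fermat.Prelude.Def_GaloisRep_Residual
import Fermat.Prelude.Def_GaloisRep_Adic
import Fermat.Prelude.Def_GaloisRep_LocalConditions
import Fermat.Agent.H45Transv
import Fermat.Agent.H86DensityFinal
import Fermat.Agent.H87Glue
import Fermat.Agent.H13EC7

/-!
# Residual representations with a transvection: Taylor-Wiles hypotheses, large image (helper45, ML-J8)

For `ρbar : ResidualGaloisRep k` with `HasTv ρbar.ρ` and `2 ≠ 0` in `k`:

* `hasTv_baseChange`, `irred_of_hasTv`, `isAbsolutelyIrreducible_of_hasTv`,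
  `hTW_of_hasTv` (hypothesis `hTW` of S56 verbatim);
* `hsplit_baseChange` (hypothesis `hsplit` of S56 for the base change to a finite field of even
  degree), `isOdd_baseChange`, `detIsCyclotomic_baseChange` (hypothesis `hdet` of S56);
* `exists_fix_roots_eq` : over `ZMod p`, `5 ≤ p`, every endomorphism of determinant one is `ρ σ` with
  `σ` fixing the `m`-th roots of unity;
* `exists_frobenius_neg_one` : infinitely many `ℓ ≡ 1 (mod m)` with `ρ(Frob_ℓ) = -1`;
* `hasTv_of_multiplicative` : `W[p]` irreducible, `q ≠ p` multiplicative, `p ∤ v_q(Δ)`.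
-/

set_option autoImplicit false

noncomputable section

open Polynomial
open scoped TensorProduct

namespace Fermat.Agent.H45

local notation "Qb" => AlgebraicClosure ℚ
local notation "Gq" => (AlgebraicClosure ℚ ≃ₐ[ℚ] AlgebraicClosure ℚ)

section Residual

variable {k : Type} [Field k] (ρbar : ResidualGaloisRep k)

theorem hasTv_baseChange (h : HasTv ρbar.ρ) (K : Type) [Field K] [Algebra k K] :
    HasTv (ρbar.baseChange K).ρ :=
  h.baseChange K _ fun _ => rfl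

theorem hasTv_of_isIrreducible (hirr : ρbar.IsIrreducible) {g : Gq} (hg1 : ρbar.ρ g ≠ 1)
    (hg : ∀ x, ρbar.ρ g (ρbar.ρ g x - x) = ρbar.ρ g x - x) : HasTv ρbar.ρ :=
  hasTv_of_unipotent ρbar.finrank_eq hirr g hg1 hg

theorem two_ne_zero_of_algebra (h2 : (2 : k) ≠ 0) (K : Type) [Field K] [Algebra k K] :
    (2 : K) ≠ 0 := by
  have : (algebraMap k K) 2 ≠ 0 := (_root_.map_ne_zero _).mpr h2
  rwa [map_ofNat] at this

/-- The restriction of every base change to every subgroup containing the squares is irreducible. -/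
theorem irred_of_hasTv (h2 : (2 : k) ≠ 0) (h : HasTv ρbar.ρ) (K : Type) [Field K] [Algebra k K]
    (G : Subgroup Gq) (hG : ∀ x : Gq, x * x ∈ G)
    (V : Submodule K (ρbar.baseChange K).V)
    (hV : ∀ σ ∈ G, ∀ x ∈ V, (ρbar.baseChange K).ρ σ x ∈ V) : V = ⊥ ∨ V = ⊤ :=
  (hasTv_baseChange ρbar h K).irred (two_ne_zero_of_algebra h2 K) G hG V hV

theorem isIrreducible_of_hasTv (h2 : (2 : k) ≠ 0) (h : HasTv ρbar.ρ) : ρbar.IsIrreducible :=
  fun W hW => h.irred h2 ⊤ (fun _ => Subgroup.mem_top _) W fun σ _ => hW σ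

theorem isAbsolutelyIrreducible_of_hasTv (h2 : (2 : k) ≠ 0) (h : HasTv ρbar.ρ) :
    ρbar.IsAbsolutelyIrreducible :=
  fun W hW => irred_of_hasTv ρbar h2 h (AlgebraicClosure k) ⊤ (fun _ => Subgroup.mem_top _) W
    fun σ _ => hW σ

/-- **The hypothesis `hTW` of S56.** -/
theorem hTW_of_hasTv (h2 : (2 : k) ≠ 0) (h : HasTv ρbar.ρ) :
    ∀ (K : Type) [Field K] [Algebra k K]
      (G : Subgroup (AlgebraicClosure ℚ ≃ₐ[ℚ] AlgebraicClosure ℚ)), G.index = 2 →
      ∀ V : Submodule K (ρbar.baseChange K).V,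
        (∀ σ ∈ G, ∀ x ∈ V, (ρbar.baseChange K).ρ σ x ∈ V) → V = ⊥ ∨ V = ⊤ :=
  fun K _ _ G hG V hV =>
    irred_of_hasTv ρbar h2 h K G (fun x => Subgroup.mul_self_mem_of_index_two hG x) V hV

theorem det_baseChange_apply (K : Type) [Field K] [Algebra k K] (σ : Gq) :
    LinearMap.det ((ρbar.baseChange K).ρ σ) = algebraMap k K (LinearMap.det (ρbar.ρ σ)) :=
  LinearMap.det_baseChange (ρbar.ρ σ)

theorem charpoly_baseChange_apply (K : Type) [Field K] [Algebra k K] (σ : Gq) :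
    ((ρbar.baseChange K).ρ σ).charpoly = ((ρbar.ρ σ).charpoly).map (algebraMap k K) :=
  LinearMap.charpoly_baseChange (ρbar.ρ σ) K

theorem isOdd_baseChange (h : ρbar.IsOdd) (K : Type) [Field K] [Algebra k K] :
    (ρbar.baseChange K).IsOdd := by
  intro c hc hc1
  rw [det_baseChange_apply, h c hc hc1, map_neg, map_one]

theorem isUnramifiedAt_baseChange_iff {q : ℕ} (K : Type) [Field K] [Algebra k K] :
    (ρbar.baseChange K).IsUnramifiedAt q ↔ ρbar.IsUnramifiedAt q := by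
  constructor
  · intro h A hA σ hσ
    have h1 := h A hA σ hσ
    refine LinearMap.ext fun x => ?_
    have h2 : (ρbar.ρ σ).baseChange K ((1 : K) ⊗ₜ[k] x) = (1 : K) ⊗ₜ[k] x :=
      congrArg (fun f : Module.End K (K ⊗[k] ρbar.V) => f ((1 : K) ⊗ₜ[k] x)) h1
    rw [LinearMap.baseChange_tmul] at h2
    have h3 : (1 : K) ⊗ₜ[k] (ρbar.ρ σ x - x) = 0 := by
      rw [TensorProduct.tmul_sub, h2, sub_self]
    have hff := Module.FaithfullyFlat.tensorProduct_mk_injective (A := k) (B := K) ρbar.V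
    have h4 : ρbar.ρ σ x - x = 0 := hff (by
      rw [TensorProduct.mk_apply, TensorProduct.mk_apply, h3, TensorProduct.tmul_zero])
    exact sub_eq_zero.mp h4
  · intro h A hA σ hσ
    change (ρbar.ρ σ).baseChange K = 1
    rw [h A hA σ hσ, LinearMap.baseChange_one]

/-- Quadratic polynomials over a finite field split in extensions of even degree. -/
theorem exists_split_of_even {F L : Type*} [Field F] [Field L] [Finite L] [Algebra F L]
    (h2 : 2 ∣ Module.finrank F L) (t d : F) :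
    ∃ α β : L, (X ^ 2 - C t * X + C d : F[X]).map (algebraMap F L) = (X - C α) * (X - C β) := by
  have hF : Finite F := Finite.of_injective (algebraMap F L) (algebraMap F L).injective
  set f : F[X] := X ^ 2 - C t * X + C d with hf
  have hroot : ∃ α : L, aeval α f = 0 := by
    have hmon : f.Monic := by rw [hf]; monicity!
    have hdeg : f.natDegree = 2 := by rw [hf]; compute_degree!
    by_cases hr : ∃ x : F, f.IsRoot x
    · obtain ⟨x, hx⟩ := hr
      refine ⟨algebraMap F L x, ?_⟩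
      rw [aeval_algebraMap_apply, coe_aeval_eq_eval, hx.eq_zero, map_zero]
    · have hirr : Irreducible f := by
        rw [hmon.irreducible_iff_roots_eq_zero_of_degree_le_three (by rw [hdeg]) (by rw [hdeg]; omega)]
        rw [Multiset.eq_zero_iff_forall_notMem]
        intro x hx
        exact hr ⟨x, (mem_roots'.mp hx).2⟩
      have : Fact (Irreducible f) := ⟨hirr⟩
      have hK : Module.finrank F (AdjoinRoot f) = 2 := by
        rw [(AdjoinRoot.powerBasis hirr.ne_zero).finrank, AdjoinRoot.powerBasis_dim, hdeg]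
      have hfinK : Finite (AdjoinRoot f) := by
        have : Module.Finite F (AdjoinRoot f) := Module.finite_of_finrank_pos (by rw [hK]; norm_num)
        exact Module.finite_of_finite F
      obtain ⟨φ⟩ := FiniteField.nonempty_algHom_of_finrank_dvd (F := F) (K := AdjoinRoot f) (L := L)
        (by rw [hK]; exact h2)
      refine ⟨φ (AdjoinRoot.root f), ?_⟩
      rw [aeval_algHom_apply, AdjoinRoot.aeval_eq, AdjoinRoot.mk_self, map_zero]
  obtain ⟨α, hα⟩ := hroot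
  refine ⟨α, algebraMap F L t - α, ?_⟩
  have h1 : α ^ 2 - algebraMap F L t * α + algebraMap F L d = 0 := by
    simpa [hf] using hα
  have h2 : algebraMap F L d = algebraMap F L t * α - α ^ 2 := by linear_combination h1
  rw [hf]
  simp only [Polynomial.map_add, Polynomial.map_sub, Polynomial.map_mul, Polynomial.map_pow, map_X,
    map_C, h2, C_sub, C_mul, C_pow]
  ring

/-- **The hypothesis `hsplit` of S56** after a base change of even degree. -/
theorem hsplit_baseChange (K : Type) [Field K] [Finite K] [Algebra k K]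
    (h2 : 2 ∣ Module.finrank k K) :
    ∀ σ : AlgebraicClosure ℚ ≃ₐ[ℚ] AlgebraicClosure ℚ,
      ∃ α β : K, LinearMap.charpoly ((ρbar.baseChange K).ρ σ) = (X - C α) * (X - C β) := by
  intro σ
  rw [charpoly_baseChange_apply, H86.charpoly_eq_of_finrank_two ρbar.finrank_eq]
  exact exists_split_of_even h2 _ _

end Residual

/-! ### Frobenius elements and roots of unity -/

/-- The subgroup fixing the `m`-th roots of unity. -/
def fixRoots (m : ℕ) : Subgroup Gq where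
  carrier := {σ | ∀ ζ : Qb, ζ ^ m = 1 → σ ζ = ζ}
  one_mem' := fun _ _ => rfl
  mul_mem' := by
    intro σ τ hσ hτ ζ hζ
    rw [AlgEquiv.mul_apply, hτ ζ hζ, hσ ζ hζ]
  inv_mem' := by
    intro σ hσ ζ hζ
    change σ.symm ζ = ζ
    rw [AlgEquiv.symm_apply_eq, hσ ζ hζ]

theorem mem_fixRoots {m : ℕ} {σ : Gq} : σ ∈ fixRoots m ↔ ∀ ζ : Qb, ζ ^ m = 1 → σ ζ = ζ := Iff.rfl

theorem exists_pow_of_rootsOfUnity {m : ℕ} (hm : m ≠ 0) (σ : Gq) :
    ∃ a : ℕ, ∀ ζ : Qb, ζ ^ m = 1 → σ ζ = ζ ^ a := by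
  have : NeZero m := ⟨hm⟩
  obtain ⟨z, hz⟩ := HasEnoughRootsOfUnity.exists_primitiveRoot Qb m
  obtain ⟨a, -, ha⟩ := hz.eq_pow_of_pow_eq_one (ξ := σ z) (by rw [← map_pow, hz.1, map_one])
  refine ⟨a, fun ζ hζ => ?_⟩
  obtain ⟨i, -, rfl⟩ := hz.eq_pow_of_pow_eq_one hζ
  rw [map_pow, ← ha, ← pow_mul, ← pow_mul, mul_comm]

theorem commutator_mem_fixRoots {m : ℕ} (hm : m ≠ 0) (σ τ : Gq) :
    σ * τ * σ⁻¹ * τ⁻¹ ∈ fixRoots m := by
  intro ζ hζ
  obtain ⟨a, ha⟩ := exists_pow_of_rootsOfUnity hm σ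
  obtain ⟨b, hb⟩ := exists_pow_of_rootsOfUnity hm τ
  -- `σ τ = τ σ` on roots of unity
  have hcomm : ∀ ξ : Qb, ξ ^ m = 1 → σ (τ ξ) = τ (σ ξ) := by
    intro ξ hξ
    rw [hb ξ hξ, ha ξ hξ, map_pow, map_pow, ha ξ hξ, hb ξ hξ, ← pow_mul, ← pow_mul, mul_comm]
  have h1 : (σ⁻¹ (τ⁻¹ ζ)) ^ m = 1 := by rw [← map_pow, ← map_pow, hζ, map_one, map_one]
  rw [AlgEquiv.mul_apply, AlgEquiv.mul_apply, AlgEquiv.mul_apply, hcomm _ h1]
  change τ (σ (σ.symm (τ.symm ζ))) = ζ
  rw [AlgEquiv.apply_symm_apply, AlgEquiv.apply_symm_apply]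

section SL2

variable {p : ℕ} [Fact p.Prime] (ρbar : ResidualGaloisRep (ZMod p))

/-- **Every endomorphism of determinant one is `ρ σ` with `σ` fixing the `m`-th roots of unity.** -/
theorem exists_fix_roots_eq (hp : 5 ≤ p) (h : HasTv ρbar.ρ) {m : ℕ} (hm : m ≠ 0)
    (f : Module.End (ZMod p) ρbar.V) (hf : LinearMap.det f = 1) :
    ∃ σ : Gq, (∀ ζ : Qb, ζ ^ m = 1 → σ ζ = ζ) ∧ ρbar.ρ σ = f :=
  h.exists_eq_of_det_one hp (fixRoots m) (commutator_mem_fixRoots hm) f hf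

/-- Frobenius density with prescribed order: if `σ` fixes the `m`-th roots of unity there is a
Frobenius `φ` at a prime `ℓ ≡ 1 (mod m)` outside `S` such that `ρ φ` and `ρ σ` generate the same
group. -/
theorem exists_frobenius_of_fix {k : Type} [Field k] (ρbar : ResidualGaloisRep k) {m : ℕ}
    (hm : m ≠ 0) {σ : Gq} (hσ : ∀ ζ : Qb, ζ ^ m = 1 → σ ζ = ζ) (S : Finset ℕ) :
    ∃ ℓ : ℕ, ℓ.Prime ∧ ℓ ∉ S ∧ ℓ ≡ 1 [MOD m] ∧ ∃ A : ValuationSubring Qb, A.LiesOverPrime ℓ ∧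
      ∃ φ : Gq, A.IsFrobeniusAt φ ℓ ∧ (∀ ζ : Qb, ζ ^ m = 1 → φ ζ = ζ) ∧
        ∃ i j : ℕ, ρbar.ρ φ = ρbar.ρ σ ^ i ∧ ρbar.ρ σ = ρbar.ρ φ ^ j := by
  have : NeZero m := ⟨hm⟩
  obtain ⟨z, hz⟩ := HasEnoughRootsOfUnity.exists_primitiveRoot Qb m
  obtain ⟨L, hfin, hL⟩ := ρbar.factorsThroughFiniteLevel
  let M : IntermediateField ℚ Qb := IntermediateField.adjoin ℚ {z}
  have hint : IsIntegral ℚ z := (hz.isIntegral (Nat.pos_of_ne_zero hm)).tower_top
  have hfM : FiniteDimensional ℚ M := IntermediateField.adjoin.finiteDimensional hint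
  have : FiniteDimensional ℚ (L ⊔ M : IntermediateField ℚ Qb) :=
    IntermediateField.finiteDimensional_sup L M
  obtain ⟨ℓ, h1, h2, A, h3, φ, h4, j, i, h5, h6⟩ :=
    H86.frobenius_density H86.frobDensityFinite (L ⊔ M) σ (S ∪ m.primeFactors)
  rw [Finset.mem_union, not_or] at h2
  have hzM : z ∈ (L ⊔ M : IntermediateField ℚ Qb) :=
    (le_sup_right : M ≤ L ⊔ M) (IntermediateField.mem_adjoin_simple_self ℚ z)
  have hℓm : ¬ ℓ ∣ m := fun h => h2.2 (Nat.mem_primeFactors.mpr ⟨h1, h, hm⟩)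
  have hσi : ∀ n : ℕ, (σ ^ n) z = z := by
    intro n
    induction n with
    | zero => rfl
    | succ n ih => rw [pow_succ, AlgEquiv.mul_apply, hσ z hz.1, ih]
  have hφz : φ z = z := by rw [h6 z hzM, hσi]
  have hφz' := H86.frobenius_apply_rootsOfUnity h1 h3 h4 hℓm hz.1
  have hmod : ℓ ≡ 1 [MOD m] := by
    have h7 : z ^ ℓ = z ^ 1 := by rw [← hφz', hφz, pow_one]
    have h8 := (IsUnit.mk0 z (hz.ne_zero hm)).unit
    have h9 : orderOf z = m := hz.eq_orderOf.symm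
    rw [← h9]
    have hzu : ∃ u : Qbˣ, (u : Qb) = z := ⟨Units.mk0 z (hz.ne_zero hm), rfl⟩
    obtain ⟨u, hu⟩ := hzu
    rw [← hu, orderOf_units]
    rw [← hu, ← Units.val_pow_eq_pow_val, ← Units.val_pow_eq_pow_val, Units.val_inj] at h7
    exact pow_eq_pow_iff_modEq.mp h7
  refine ⟨ℓ, h1, h2.1, hmod, A, h3, φ, h4, ?_, i, j, ?_, ?_⟩
  · intro ζ hζ
    obtain ⟨n, -, rfl⟩ := hz.eq_pow_of_pow_eq_one hζ
    rw [map_pow, hφz]
  · rw [← map_pow]
    exact H86.map_eq_of_forall_mem hL fun x hx => h6 x ((le_sup_left : L ≤ L ⊔ M) hx)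
  · rw [← map_pow]
    exact H86.map_eq_of_forall_mem hL fun x hx => h5 x ((le_sup_left : L ≤ L ⊔ M) hx)

/-- **Infinitely many `ℓ ≡ 1 (mod m)` with `ρ(Frob_ℓ) = -1`.** -/
theorem exists_frobenius_neg_one (hp : 5 ≤ p) (h : HasTv ρbar.ρ) {m : ℕ} (hm : m ≠ 0)
    (S : Finset ℕ) :
    ∃ ℓ : ℕ, ℓ.Prime ∧ ℓ ∉ S ∧ ℓ ≡ 1 [MOD m] ∧ ∃ A : ValuationSubring Qb, A.LiesOverPrime ℓ ∧
      ∃ φ : Gq, A.IsFrobeniusAt φ ℓ ∧ (∀ ζ : Qb, ζ ^ m = 1 → φ ζ = ζ) ∧ ρbar.ρ φ = -1 := by
  have hdet : LinearMap.det (-1 : Module.End (ZMod p) ρbar.V) = 1 := by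
    have h1 : (-1 : Module.End (ZMod p) ρbar.V) = (-1 : ZMod p) • (1 : Module.End (ZMod p) ρbar.V) := by
      rw [neg_smul, one_smul]
    rw [h1, LinearMap.det_smul, ρbar.finrank_eq, map_one]
    norm_num
  obtain ⟨σ, hσ, hρσ⟩ := exists_fix_roots_eq ρbar hp h hm (-1) hdet
  obtain ⟨ℓ, h1, h2, h3, A, h4, φ, h5, h6, i, j, h7, h8⟩ := exists_frobenius_of_fix ρbar hm hσ S
  refine ⟨ℓ, h1, h2, h3, A, h4, φ, h5, h6, ?_⟩
  rw [hρσ] at h7 h8
  rcases Nat.even_or_odd i with hi | hi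
  · exfalso
    rw [hi.neg_one_pow] at h7
    rw [h7, one_pow] at h8
    have hV : Nontrivial ρbar.V := Module.nontrivial_of_finrank_pos (R := ZMod p) (by
      rw [ρbar.finrank_eq]; norm_num)
    obtain ⟨x, hx⟩ := exists_ne (0 : ρbar.V)
    have h9 : -x = x := by
      have := congrArg (fun f : Module.End (ZMod p) ρbar.V => f x) h8
      simpa using this
    have h10 : (2 : ZMod p) • x = 0 := by
      rw [two_smul]
      nth_rewrite 1 [← h9]
      exact neg_add_cancel x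
    have h2' : (2 : ZMod p) ≠ 0 := by
      intro h2
      have : p ∣ 2 := by rw [← ZMod.natCast_eq_zero_iff]; exact_mod_cast h2
      have := Nat.le_of_dvd (by norm_num) this
      omega
    exact hx ((smul_eq_zero.mp h10).resolve_left h2')
  · rw [h7, hi.neg_one_pow]

end SL2

end Fermat.Agent.H45
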