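import Mathlib
import Fermat.Agent.H45ResImage
import Fermat.Agent.H6_FreyCurve
import Fermat.Agent.H2FLTSmall

/-!
# The image of the mod `p` representation of semistable curves and of the Frey curve (helper45, ML-J8)

`resZ W hΔ p : ResidualGaloisRep (ZMod p)` is helper87's residual representation of the integral
model `W`.

* `hasTv_of_multiplicative` : `W[p]` irreducible, `q ≠ p` multiplicative with `p ∤ v_q(Δ)`;
* `detIsCyclotomic_resZ_baseChange` (hypothesis `hdet` of S56 for base changes);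
* `exists_noneisenstein` : infinitely many `ℓ ≡ 1 (mod m)` with `a_ℓ ≡ -2`;
* Frey curve: `frey_hasTv`, `frey_isAbsolutelyIrreducible`, `frey_hTW`, `frey_hsplit`, `frey_isOdd`,
  `frey_det`, `frey_exists_noneisenstein`, `frey_seventeen_le`.
-/

set_option autoImplicit false

noncomputable section

open Polynomial WeierstrassCurve WeierstrassCurve.Affine
open scoped TensorProduct WeierstrassCurve.Affine

namespace Fermat.Agent.H45

open Fermat.Agent.H87.Glue

local notation "Qb" => AlgebraicClosure ℚ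
local notation "Gq" => (AlgebraicClosure ℚ ≃ₐ[ℚ] AlgebraicClosure ℚ)

section Curve

variable (W : WeierstrassCurve ℤ) (hΔ : W.Δ ≠ 0) (p : ℕ) [hp : Fact p.Prime]

/-- A curve with irreducible `p`-torsion and a prime `q ≠ p` of multiplicative reduction such that
`p ∤ v_q(Δ)` has a transvection in its mod `p` image. -/
theorem hasTv_of_multiplicative (hirr : W.ModRepIsIrreducible p) {q : ℕ} (hq : q.Prime)
    (hqp : q ≠ p) (hbad : (q : ℤ) ∣ W.Δ) (hc : ¬ (q : ℤ) ∣ W.c₄)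
    (hram : ¬ p ∣ padicValInt q W.Δ) : HasTv (resZ W hΔ p).ρ := by
  have h1 := mt (H13.unramified_iff hq hp.out hbad hΔ hc hqp).mp hram
  obtain ⟨A, hA, σ, hσ, x, hx⟩ : ∃ A : ValuationSubring Qb, ∃ _ : A.LiesOverPrime q,
      ∃ σ : Gq, ∃ _ : σ ∈ A.inertiaSubgroupIn ℚ,
        ∃ x : Submodule.torsionBy ℤ ((W.map (Int.castRingHom ℚ))⁄Qb).Point (p : ℤ),
          σ • x ≠ x := by
    by_contra hcon
    push Not at hcon
    exact h1 fun A hA σ hσ x => hcon A hA σ hσ x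
  refine hasTv_of_isIrreducible _ (resZ_isIrreducible W hΔ p hirr) (g := σ) ?_ ?_
  · intro h2
    exact hx (LinearMap.congr_fun h2 x)
  · intro y
    exact H13.unipotent_of_multiplicative hq hbad hΔ hc
      (fun h => hqp ((Nat.prime_dvd_prime_iff_eq hq hp.out).mp h)) A hA σ hσ y

/-- determinant of the residual representation on elements acting by `a` on `μ_p` -/
theorem det_resZ (σ : Gq) (a : ℕ) (ha : ∀ μ : Qb, μ ^ p = 1 → σ μ = μ ^ a) :
    LinearMap.det ((resZ W hΔ p).ρ σ) = (a : ZMod p) :=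
  H87.Tate.det_rep_eq (EQ W) (H87.EC.map_int_Δ_ne_zero hΔ) hp.out.ne_zero σ a ha

/-- **Hypothesis `hdet` of S56** for the base change to a field `K ⊇ 𝔽_p`. -/
theorem detIsCyclotomic_resZ_baseChange (K : Type) [Field K] [Algebra (ZMod p) K] :
    (GaloisRepAdic.ofResidualGaloisRep ((resZ W hΔ p).baseChange K)).DetIsCyclotomic p := by
  have hpK : ((p : ℕ) : K) = 0 := by
    have := map_natCast (algebraMap (ZMod p) K) p
    rw [ZMod.natCast_self, map_zero] at this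
    exact this.symm
  refine ⟨by rw [hpK]; exact Ideal.zero_mem _, fun n σ a ha => ?_⟩
  rcases Nat.eq_zero_or_pos n with rfl | hn
  · rw [pow_zero, Nat.cast_one, Ideal.span_singleton_one]
    exact Submodule.mem_top
  · have h1 : LinearMap.det ((resZ W hΔ p).ρ σ) = (a : ZMod p) := by
      refine det_resZ W hΔ p σ a fun μ hμ => ha μ ?_
      obtain ⟨m, rfl⟩ : ∃ m, n = m + 1 := ⟨n - 1, by omega⟩
      rw [pow_succ', pow_mul, hμ, one_pow]
    have h2 : LinearMap.det ((GaloisRepAdic.ofResidualGaloisRep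
        ((resZ W hΔ p).baseChange K)).ρ σ) = (a : K) :=
      (det_baseChange_apply (resZ W hΔ p) K σ).trans (by rw [h1, map_natCast])
    rw [h2, sub_self]
    exact Ideal.zero_mem _

/-- trace of the residual representation at a Frobenius -/
theorem trace_resZ_frob {ℓ : ℕ} (hℓ : ℓ.Prime) (hℓp : ℓ ≠ p) (hW : W.IsGoodPrimeFor ℓ)
    {P : ValuationSubring Qb} (hP : P.LiesOverPrime ℓ) {σ : Gq} (hσ : P.IsFrobeniusAt σ ℓ) :
    LinearMap.trace (ZMod p) _ ((resZ W hΔ p).ρ σ) = (W.apOfModel ℓ : ZMod p) :=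
  H62.trace_frob_rat W (n := p) hℓ hW
    (fun h => hℓp ((Nat.prime_dvd_prime_iff_eq hℓ hp.out).mp h)) hP hσ

include hΔ in
/-- **Non-Eisenstein**: for every `m ≠ 0` and every finite set `S` there is a prime `ℓ ∉ S` of good
reduction, `ℓ ≡ 1 (mod m)`, `ℓ ≡ 1 (mod p)`, `a_ℓ ≡ -2 (mod p)`. -/
theorem exists_noneisenstein (hp5 : 5 ≤ p) (h : HasTv (resZ W hΔ p).ρ) {m : ℕ} (hm : m ≠ 0)
    (S : Finset ℕ) :
    ∃ ℓ : ℕ, ℓ.Prime ∧ ℓ ∉ S ∧ ℓ ≠ p ∧ W.IsGoodPrimeFor ℓ ∧ ℓ ≡ 1 [MOD m] ∧ (ℓ : ZMod p) = 1 ∧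
      (W.apOfModel ℓ : ZMod p) = -2 ∧ (W.apOfModel ℓ : ZMod p) ≠ (ℓ : ZMod p) + 1 := by
  obtain ⟨ℓ, h1, h2, h3, A, h4, φ, h5, h6, h7⟩ := exists_frobenius_neg_one (resZ W hΔ p) hp5 h
    (m := m * p) (mul_ne_zero hm hp.out.ne_zero) (S ∪ {p} ∪ W.Δ.natAbs.primeFactors)
  simp only [Finset.mem_union, Finset.mem_singleton, not_or] at h2
  have hgood : W.IsGoodPrimeFor ℓ := by
    intro hd
    refine h2.2 (Nat.mem_primeFactors.mpr ⟨h1, ?_, Int.natAbs_ne_zero.mpr hΔ⟩)
    exact Int.natCast_dvd.mp hd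
  have hℓ1 : (ℓ : ZMod p) = 1 := by
    have := (ZMod.natCast_eq_natCast_iff ℓ 1 p).mpr (h3.of_mul_left m)
    rw [this, Nat.cast_one]
  have htr : (W.apOfModel ℓ : ZMod p) = -2 := by
    rw [← trace_resZ_frob W hΔ p h1 h2.1.2 hgood h4 h5, h7, map_neg, LinearMap.trace_one,
      (resZ W hΔ p).finrank_eq]
    norm_num
  refine ⟨ℓ, h1, h2.1.1, h2.1.2, hgood, h3.of_mul_right p, hℓ1, htr, ?_⟩
  rw [htr, hℓ1]
  intro h8
  have h9 : ((4 : ℕ) : ZMod p) = 0 := by push_cast; linear_combination -h8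
  rw [ZMod.natCast_eq_zero_iff] at h9
  have := Nat.le_of_dvd (by norm_num) h9
  omega

end Curve

/-! ### The Frey curve -/

section Frey

variable (P : FreyPackage)

instance factPrimeFrey : Fact P.p.Prime := ⟨P.pp⟩

/-- Kummer: `17 ≤ p`. -/
theorem frey_seventeen_le : 17 ≤ P.p := by
  by_contra hlt
  have h5 := P.hp5
  have hpp := P.pp
  refine H2.frey_small_false P ?_
  have hcases : ∀ n : ℕ, 5 ≤ n → n < 17 → n.Prime → n = 5 ∨ n = 7 ∨ n = 11 ∨ n = 13 := by
    intro n h1 h2 h3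
    interval_cases n <;> first | omega | (exfalso; revert h3; norm_num)
  exact hcases P.p h5 (by omega) hpp

theorem frey_two_dvd_Δ : (2 : ℤ) ∣ P.freyCurveInt.Δ := by
  have h1 := H6.freyCurveInt_Δ P
  have h2 : (2 : ℤ) ∣ P.a * P.b * P.c := P.two_dvd_abc
  have h3 : (2 : ℤ) ^ (2 * P.p) ∣ 256 * P.freyCurveInt.Δ := by
    rw [h1]; exact pow_dvd_pow_of_dvd h2 _
  have h4 : (2 : ℤ) ^ 9 ∣ 256 * P.freyCurveInt.Δ :=
    (pow_dvd_pow 2 (by have := P.hp5; omega)).trans h3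
  rw [show (256 : ℤ) = 2 ^ 8 by norm_num, show (2 : ℤ) ^ 9 = 2 ^ 8 * 2 by norm_num] at h4
  exact (mul_dvd_mul_iff_left (by norm_num)).mp h4

theorem frey_padicVal_two : 8 + padicValInt 2 P.freyCurveInt.Δ =
    2 * P.p * padicValInt 2 (P.a * P.b * P.c) := by
  have h1 := H6.freyCurveInt_Δ P
  have : Fact (Nat.Prime 2) := ⟨Nat.prime_two⟩
  have h2 := congrArg (padicValInt 2) h1
  rw [padicValInt.mul (by norm_num) (H6.freyCurveInt_Δ_ne_zero P)] at h2
  have h3 : padicValInt 2 ((P.a * P.b * P.c) ^ (2 * P.p)) =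
      2 * P.p * padicValInt 2 (P.a * P.b * P.c) := by
    have := padicValRat.pow (p := 2) (q := ((P.a * P.b * P.c : ℤ) : ℚ)) (k := 2 * P.p)
    rw [← Int.cast_pow, padicValRat.of_int, padicValRat.of_int] at this
    exact_mod_cast this
  have h4 : padicValInt 2 256 = 8 := by
    rw [show (256 : ℤ) = ((2 ^ 8 : ℕ) : ℤ) by norm_num, padicValInt.of_nat]
    exact padicValNat.prime_pow 8
  rw [h3, h4] at h2
  exact h2

theorem frey_not_dvd_padicVal : ¬ P.p ∣ padicValInt 2 P.freyCurveInt.Δ := by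
  intro h
  have h1 := frey_padicVal_two P
  have h2 : P.p ∣ 8 := by
    refine (Nat.dvd_add_left h).mp ?_
    rw [h1, mul_comm 2 P.p, mul_assoc]
    exact dvd_mul_right _ _
  have h3 : P.p ∣ 2 ^ 3 := by simpa using h2
  have h4 := (Nat.prime_dvd_prime_iff_eq P.pp Nat.prime_two).mp (P.pp.dvd_of_dvd_pow h3)
  have := P.hp5
  omega

/-- the residual representation of the Frey curve -/
abbrev freyRes : ResidualGaloisRep (ZMod P.p) :=
  resZ P.freyCurveInt (H6.freyCurveInt_Δ_ne_zero P) P.p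

theorem frey_modRepIsIrreducible
    (hirr : Affine.Point.GaloisRepIsIrreducible (K := Qb) ℚ P.freyCurve P.p) :
    P.freyCurveInt.ModRepIsIrreducible P.p := by
  unfold WeierstrassCurve.ModRepIsIrreducible
  rw [H6.freyCurveInt_map]
  exact hirr

variable (hirr : Affine.Point.GaloisRepIsIrreducible (K := Qb) ℚ P.freyCurve P.p)

include hirr

theorem frey_hasTv : HasTv (freyRes P).ρ := by
  have h5 := P.hp5
  refine hasTv_of_multiplicative P.freyCurveInt _ P.p (frey_modRepIsIrreducible P hirr)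
    Nat.prime_two (by omega) (frey_two_dvd_Δ P) ?_ (frey_not_dvd_padicVal P)
  exact H6.freyCurveInt_isSemistableModel P 2 Nat.prime_two (frey_two_dvd_Δ P)

omit hirr in
theorem frey_two_ne_zero : (2 : ZMod P.p) ≠ 0 := by
  intro h2
  have : P.p ∣ 2 := by rw [← ZMod.natCast_eq_zero_iff]; exact_mod_cast h2
  have := Nat.le_of_dvd (by norm_num) this
  have := P.hp5
  omega

/-- the image contains every endomorphism of determinant one, even over `ℚ(ζ_m)` -/
theorem frey_exists_eq_of_det_one {m : ℕ} (hm : m ≠ 0) (f : Module.End (ZMod P.p) (freyRes P).V)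
    (hf : LinearMap.det f = 1) :
    ∃ σ : Gq, (∀ ζ : Qb, ζ ^ m = 1 → σ ζ = ζ) ∧ (freyRes P).ρ σ = f :=
  exists_fix_roots_eq _ P.hp5 (frey_hasTv P hirr) hm f hf

theorem frey_isIrreducible_baseChange (K : Type) [Field K] [Algebra (ZMod P.p) K] :
    ((freyRes P).baseChange K).IsIrreducible :=
  isIrreducible_of_hasTv _ (two_ne_zero_of_algebra (frey_two_ne_zero P) K)
    (hasTv_baseChange _ (frey_hasTv P hirr) K)

theorem frey_isAbsolutelyIrreducible (K : Type) [Field K] [Algebra (ZMod P.p) K] :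
    ((freyRes P).baseChange K).IsAbsolutelyIrreducible :=
  isAbsolutelyIrreducible_of_hasTv _ (two_ne_zero_of_algebra (frey_two_ne_zero P) K)
    (hasTv_baseChange _ (frey_hasTv P hirr) K)

/-- **`hTW` of S56** for the Frey curve over any `k ⊇ 𝔽_p`. -/
theorem frey_hTW (k : Type) [Field k] [Algebra (ZMod P.p) k] :
    ∀ (K : Type) [Field K] [Algebra k K]
      (G : Subgroup (AlgebraicClosure ℚ ≃ₐ[ℚ] AlgebraicClosure ℚ)), G.index = 2 →
      ∀ V : Submodule K (((freyRes P).baseChange k).baseChange K).V,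
        (∀ σ ∈ G, ∀ x ∈ V, (((freyRes P).baseChange k).baseChange K).ρ σ x ∈ V) →
          V = ⊥ ∨ V = ⊤ :=
  hTW_of_hasTv _ (two_ne_zero_of_algebra (frey_two_ne_zero P) k)
    (hasTv_baseChange _ (frey_hasTv P hirr) k)

omit hirr in
/-- **`hsplit` of S56** for the Frey curve over any finite `k ⊇ 𝔽_p` of even degree. -/
theorem frey_hsplit (k : Type) [Field k] [Finite k] [Algebra (ZMod P.p) k]
    (h2 : 2 ∣ Module.finrank (ZMod P.p) k) :
    ∀ σ : AlgebraicClosure ℚ ≃ₐ[ℚ] AlgebraicClosure ℚ,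
      ∃ α β : k, LinearMap.charpoly (((freyRes P).baseChange k).ρ σ) = (X - C α) * (X - C β) :=
  hsplit_baseChange _ k h2

omit hirr in
theorem frey_isOdd (k : Type) [Field k] [Algebra (ZMod P.p) k] :
    ((freyRes P).baseChange k).IsOdd :=
  isOdd_baseChange _ (resZ_isOdd _ _ _) k

omit hirr in
/-- **`hdet` of S56** for the Frey curve. -/
theorem frey_det (k : Type) [Field k] [Algebra (ZMod P.p) k] :
    (GaloisRepAdic.ofResidualGaloisRep ((freyRes P).baseChange k)).DetIsCyclotomic P.p :=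
  detIsCyclotomic_resZ_baseChange _ _ _ k

/-- **The Frey curve is not Eisenstein mod `p`**, even along `ℓ ≡ 1 (mod m)`. -/
theorem frey_exists_noneisenstein {m : ℕ} (hm : m ≠ 0) (S : Finset ℕ) :
    ∃ ℓ : ℕ, ℓ.Prime ∧ ℓ ∉ S ∧ ℓ ≠ P.p ∧ P.freyCurveInt.IsGoodPrimeFor ℓ ∧ ℓ ≡ 1 [MOD m] ∧
      (ℓ : ZMod P.p) = 1 ∧ (P.freyCurveInt.apOfModel ℓ : ZMod P.p) = -2 ∧
      (P.freyCurveInt.apOfModel ℓ : ZMod P.p) ≠ (ℓ : ZMod P.p) + 1 :=
  exists_noneisenstein _ _ _ P.hp5 (frey_hasTv P hirr) hm S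

end Frey

end Fermat.Agent.H45
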