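import Fermat.Agent.S02
import Fermat.Agent.H4FreySemistable
import Fermat.Agent.H05_FreyGood
import Fermat.Agent.H72Frey
import Fermat.Agent.H44EFrey
import Fermat.Agent.H45FreyImage

/-!
# Guide: from a solution of the Fermat equation to the Frey curve, step by step

Companion of `GuideFrey`, section 1, and of `GuideEndgame`. There the results are quoted; here are the
elementary steps of their proofs. Sections 1 to 4 use only divisibility of integers.

**Order.**
1. From a solution `a^p + b^p = c^p` to a *Frey package*: `a`, `b` coprime, `a ≡ 3` modulo `4`, `b` even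
   (S02).
2. The curve `y² + xy = x³ + (b^p - 1 - a^p)/4 x² - a^p b^p/16 x` has integral coefficients.
3. Its discriminant and its invariant `c₄` have no common prime factor (semistability).
4. The exponents of the primes in the discriminant: divisible by `p`, except at `2`.
5. The curve at a place over an odd prime `q`: integral, with good reduction if `q` does not divide `abc`
   (S05 in this case).
6. Consequences: S06 from exact modularity; the inertia group at `p` if `p` divides `abc`.

**Statements served.** Section 1: S01, S02. Section 2: S01, S03, S04, S06, S09, S12, S13, S43-S45.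
Section 3: S01, S03, S04, S06, S09, S13, S43-S45. Section 4: S01, S03, S43, S44, S45. Section 5: S01, S03,
S05, S45 (the lemmas on places serve many other statements, too). Section 6: `modular_rep_of_level` S01,
S03, S06, S45, the two others S01, S03, S43, S44, S45. NOTES.md, Appendix A: NOTES-FREY-SEMISTABLE
(helper4), NOTES-S05 (helper72).

**Authors of the library files.** `S02` helper2, `H4FreySemistable` helper4, `H6_FreyCurve` helper6,
`H05_FreyGood` helper5, `H72Frey` helper72, `H44EFrey` helper44, `H45FreyImage` helper45. (Two files,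
`H4FreySemistable` and `H6_FreyCurve`, prove the same facts; both are used.)

**Notation.** `P : FreyPackage` has the fields `P.a`, `P.b`, `P.c`, `P.p` (`GuideFrey.frey_package`);
`P.freyCurve` is the Frey curve over `ℚ`, `P.freyCurveInt` its integral model, with discriminant
`P.freyCurveInt.Δ`. `(q : ℤ) ∣ x` is divisibility, `padicValInt q x` is the exponent `v_q(x)`.
-/

set_option autoImplicit false

open WeierstrassCurve WeierstrassCurve.Affine

namespace Fermat.Agent.Guide.FreySteps

/-! ## 1. From a solution to a Frey package -/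

/-- **Common divisors.** If `a^p + b^p = c^p` then `gcd(a, b) = gcd(a, c)`. (`Fermat.Prelude`.) -/
theorem gcd_eq {a b c : ℤ} {p : ℕ} (hp : 0 < p) (h : a ^ p + b ^ p = c ^ p) : gcd a b = gcd a c :=
  FreyPackage.gcdab_eq_gcdac hp h

/-- **Normalised solutions** (`a ≡ 3` modulo `4`, `b` even) are Frey packages. File `S02`. -/
theorem normalised (a b c : ℤ) (ha : a ≠ 0) (hb : b ≠ 0) (hc : c ≠ 0) (p : ℕ) (pp : p.Prime)
    (hp5 : 5 ≤ p) (H : a ^ p + b ^ p = c ^ p) (hgcd : gcd a b = 1) (ha4 : a % 4 = 3)
    (hb2 : b % 2 = 0) : Nonempty FreyPackage :=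
  S02.of_normalised a b c ha hb hc p pp hp5 H hgcd ha4 hb2

/-- **Signs.** If `b` is even then `a` is odd; if `a ≡ 1` modulo `4`, replace `(a, b, c)` by
`(-a, -b, -c)`, which is a solution because `p` is odd. File `S02`. -/
theorem of_b_even (a b c : ℤ) (ha : a ≠ 0) (hb : b ≠ 0) (hc : c ≠ 0) (p : ℕ) (pp : p.Prime)
    (hp5 : 5 ≤ p) (H : a ^ p + b ^ p = c ^ p) (hgcd : gcd a b = 1) (hb2 : b % 2 = 0) :
    Nonempty FreyPackage :=
  S02.of_b_even a b c ha hb hc p pp hp5 H hgcd hb2

/-- **Permutations.** Exactly one of three pairwise coprime numbers `a`, `b`, `c` with `a^p + b^p = c^p` is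
even. If it is `a`, exchange `a` and `b`; if it is `c`, use `a^p + (-c)^p = (-b)^p`. The general case
(`GuideEndgame.frey_package_of_solution`) is reduced to this one by dividing by `gcd(a, b)`. File `S02`. -/
theorem of_coprime (a b c : ℤ) (ha : a ≠ 0) (hb : b ≠ 0) (hc : c ≠ 0) (p : ℕ) (pp : p.Prime)
    (hp5 : 5 ≤ p) (H : a ^ p + b ^ p = c ^ p) (hgcd : gcd a b = 1) : Nonempty FreyPackage :=
  S02.of_coprime a b c ha hb hc p pp hp5 H hgcd

/-! ## 2. The integral model -/

/-- **Congruences**: `a^p ≡ -1` modulo `4` (as `a ≡ -1` and `p` is odd), and `b^p` is divisible by `2^p`,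
hence by `32`. File `H4FreySemistable`. -/
theorem congruences (P : FreyPackage) :
    (4 : ℤ) ∣ P.a ^ P.p + 1 ∧ (2 : ℤ) ∣ P.b ∧ (32 : ℤ) ∣ P.b ^ P.p ∧ Odd P.p :=
  ⟨H4.freyA_mod_four P, H4.two_dvd_b P, H4.freyB_dvd P, P.hp_odd⟩

/-- **So the two divisions are exact.** File `H4FreySemistable`. -/
theorem exact_divisions (P : FreyPackage) :
    (4 : ℤ) ∣ P.b ^ P.p - 1 - P.a ^ P.p ∧ (16 : ℤ) ∣ -(P.a ^ P.p) * (P.b ^ P.p) :=
  ⟨H4.frey_a₂_dvd P, H4.frey_a₄_dvd P⟩

/-- **The model.** `P.freyCurveInt` is an integral model of `P.freyCurve` in the sense of the frozen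
statements (here the change of variables is the identity). Its invariant `b₂ = a₁² + 4 a₂` is
`b^p - a^p`: the equation is `(2y + x)² = 4x³ + b₂ x² + 4 a₄ x`, and with `X = 4x` the right side becomes
`X (X - a^p) (X + b^p) / 16`. Files `H4FreySemistable`, `H6_FreyCurve`. -/
theorem integral_model (P : FreyPackage) :
    P.freyCurveInt.IsIntegralModelOf P.freyCurve ∧ P.freyCurveInt.b₂ = P.b ^ P.p - P.a ^ P.p :=
  ⟨H4.freyCurveInt_isIntegralModelOf P, H6.freyCurveInt_b₂ P⟩

/-! ## 3. Semistability -/

/-- **Pairwise coprimality**: `gcd(a, c) = gcd(b, c) = 1`; `abc ≠ 0` is even. (`Fermat.Prelude`.) -/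
theorem coprime (P : FreyPackage) :
    gcd P.a P.c = 1 ∧ gcd P.b P.c = 1 ∧ P.a * P.b * P.c ≠ 0 ∧ (2 : ℤ) ∣ P.a * P.b * P.c :=
  ⟨P.hgcdac, P.hgcdbc, P.habc0, P.two_dvd_abc⟩

/-- **A prime divides at most one of `a`, `b`, `c`.** File `H4FreySemistable`. -/
theorem prime_divides_at_most_one (P : FreyPackage) {q : ℕ} (hq : q.Prime) :
    ¬ ((q : ℤ) ∣ P.a ∧ (q : ℤ) ∣ P.b) ∧ ¬ ((q : ℤ) ∣ P.a ∧ (q : ℤ) ∣ P.c) ∧
      ¬ ((q : ℤ) ∣ P.b ∧ (q : ℤ) ∣ P.c) :=
  ⟨fun h => H4.not_dvd_both_ab P hq h.1 h.2, fun h => H4.not_dvd_both_ac P hq h.1 h.2,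
    fun h => H4.not_dvd_both_bc P hq h.1 h.2⟩

/-- **The invariants** in the form with powers of `abc`: `2⁸ Δ = (abc)^(2p)`,
`c₄ = a^(2p) + a^p b^p + b^(2p)`. The first formula is where the equation `a^p + b^p = c^p` is used: `Δ` is
`16` times the discriminant of `x (x - a^p/4) (x + b^p/4)`, and the differences of the roots are, up to
sign, `a^p/4`, `b^p/4` and `(a^p + b^p)/4 = c^p/4`. File `H6_FreyCurve`. -/
theorem invariants (P : FreyPackage) :
    256 * P.freyCurveInt.Δ = (P.a * P.b * P.c) ^ (2 * P.p) ∧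
      P.freyCurveInt.c₄ = P.a ^ (2 * P.p) + P.a ^ P.p * P.b ^ P.p + P.b ^ (2 * P.p) :=
  ⟨H6.freyCurveInt_Δ P, H6.freyCurveInt_c₄ P⟩

/-- **Primes in the discriminant divide `abc`.** Files `H4FreySemistable`, `H6_FreyCurve`. -/
theorem prime_of_discriminant (P : FreyPackage) {q : ℕ} (hq : q.Prime)
    (h : (q : ℤ) ∣ P.freyCurveInt.Δ) :
    ((q : ℤ) ∣ P.a ∨ (q : ℤ) ∣ P.b ∨ (q : ℤ) ∣ P.c) ∧ (q : ℤ) ∣ P.a * P.b * P.c :=
  ⟨H4.dvd_abc_of_dvd_Δ P hq h, H6.prime_dvd_abc_of_dvd_Δ P hq h⟩

/-- **`c₄` is prime to `abc`**: modulo a prime `q` it is `b^(2p)` if `q ∣ a`, it is `a^(2p)` if `q ∣ b`, and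
it is `(a^p + b^p)² - a^p b^p`, that is `-a^p b^p`, if `q ∣ c`. With the previous theorem: no prime divides
both `Δ` and `c₄` (`GuideFrey.semistable`). File `H4FreySemistable`. -/
theorem c4_prime_to_abc (P : FreyPackage) {q : ℕ} (hq : q.Prime)
    (h : (q : ℤ) ∣ P.a ∨ (q : ℤ) ∣ P.b ∨ (q : ℤ) ∣ P.c) : ¬ (q : ℤ) ∣ P.freyCurveInt.c₄ :=
  H4.not_dvd_c₄ P hq h

/-! ## 4. The exponents of the discriminant -/

/-- **At `p`**: the exponent of `p` in `Δ` is divisible by `p` (from `2⁸ Δ = (abc)^(2p)`; the same holds for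
every odd prime). If `p` divides `abc` it divides `Δ`. File `H44EFrey`. -/
theorem exponent_at_p (P : FreyPackage) :
    P.p ∣ padicValInt P.p P.freyCurveInt.Δ ∧
      ((P.p : ℤ) ∣ P.a * P.b * P.c → (P.p : ℤ) ∣ P.freyCurveInt.Δ) :=
  ⟨H44E.frey_dvd_padicVal P, H44E.frey_p_dvd_Δ P⟩

/-- **At `2`**: the Frey curve has bad (multiplicative) reduction at `2`, and the exponent of `2` in `Δ` is
`2p v_2(abc) - 8`, which is not divisible by `p`. So inertia at `2` acts nontrivially on the `p`-torsion;
this yields a transvection in the image of the Galois group (`GuideLargeImage`), and it is the reason why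
level lowering stops at the level `2` and not at the level `1`. File `H45FreyImage`. -/
theorem exponent_at_two (P : FreyPackage) :
    (2 : ℤ) ∣ P.freyCurveInt.Δ ∧
      8 + padicValInt 2 P.freyCurveInt.Δ = 2 * P.p * padicValInt 2 (P.a * P.b * P.c) ∧
      ¬ P.p ∣ padicValInt 2 P.freyCurveInt.Δ :=
  ⟨H45.frey_two_dvd_Δ P, H45.frey_padicVal_two P, H45.frey_not_dvd_padicVal P⟩

/-! ## 5. The curve at a place over an odd prime

A place over `q` of a field `K` (in the applications of characteristic zero) is a valuation subring `A`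
with `A.LiesOverPrime q`: `q` is a nonunit of `A`. -/

section Places

variable {K : Type*} [Field K] {A : ValuationSubring K} {q : ℕ}

/-- **The residue field** of a place over `q` has characteristic `q`; a natural number which is not
divisible by `q` is not zero in it. File `H05_FreyGood`. -/
theorem residue_field (hq : q.Prime) (hA : A.LiesOverPrime q) :
    CharP (IsLocalRing.ResidueField A) q ∧
      ∀ {n : ℕ}, ¬ q ∣ n → (n : IsLocalRing.ResidueField A) ≠ 0 :=
  ⟨H05.charP_residueField hq hA, fun hn => H05.natCast_residue_ne_zero hq hA hn⟩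

/-- **Integers** are in `A`; those not divisible by `q` are units of `A` (not in `A.nonunits`, and their
inverses are in `A`). File `H05_FreyGood`. -/
theorem integers (hq : q.Prime) (hA : A.LiesOverPrime q) :
    (∀ n : ℤ, (n : K) ∈ A) ∧ (∀ {n : ℤ}, ¬ (q : ℤ) ∣ n → (n : K) ∉ A.nonunits) ∧
      ∀ {a : K}, a ∉ A.nonunits → a⁻¹ ∈ A :=
  ⟨H05.intCast_mem, fun hn => H05.intCast_notMem_nonunits hq hA hn,
    fun ha => H05.inv_mem_of_notMem_nonunits ha⟩

/-- **The discriminant over `ℚ`.** File `H05_FreyGood`. -/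
theorem rational_discriminant (P : FreyPackage) :
    256 * P.freyCurve.Δ = ((P.a * P.b * P.c : ℤ) : ℚ) ^ (2 * P.p) :=
  H05.freyCurve_disc P

/-- **Integrality at odd primes**: the coefficients of the Frey curve are integers by section 2. For `q ≠ 2`
one does not need this, since `4` and `16` are units of `A`. File `H05_FreyGood`. -/
theorem integral_at_odd_prime (P : FreyPackage) [Algebra ℚ K] (hq : q.Prime) (hq2 : q ≠ 2)
    (hA : A.LiesOverPrime q) :
    (P.freyCurve⁄K).a₁ ∈ A ∧ (P.freyCurve⁄K).a₂ ∈ A ∧ (P.freyCurve⁄K).a₃ ∈ A ∧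
      (P.freyCurve⁄K).a₄ ∈ A ∧ (P.freyCurve⁄K).a₆ ∈ A :=
  have h := H05.freyCurve_coeffsIn P hq hq2 hA
  ⟨h.a₁, h.a₂, h.a₃, h.a₄, h.a₆⟩

/-- **Good reduction** at the primes which do not divide `abc`: the discriminant is a unit of `A`. File
`H05_FreyGood`. -/
theorem good_reduction (P : FreyPackage) [Algebra ℚ K] (hq : q.Prime) (hA : A.LiesOverPrime q)
    (habc : ¬ (q : ℤ) ∣ P.a * P.b * P.c) : (P.freyCurve⁄K).Δ ∉ A.nonunits :=
  H05.freyCurve_disc_notMem P hq hA habc

end Places

/-- **S05 at the primes of good reduction**: if `q ≠ 2, p` does not divide `abc`, the inertia groups at `q`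
act trivially on the `p`-torsion points over `Q̄`. By the two previous theorems this is a case of
`GuideFrey.unramified_of_good_reduction`. File `H05_FreyGood`. -/
theorem S05_good (P : FreyPackage) {q : ℕ} (hq : q.Prime) (hq2 : q ≠ 2) (hqp : q ≠ P.p)
    (habc : ¬ (q : ℤ) ∣ P.a * P.b * P.c) (A : ValuationSubring (AlgebraicClosure ℚ))
    (hA : A.LiesOverPrime q) (σ : AlgebraicClosure ℚ ≃ₐ[ℚ] AlgebraicClosure ℚ)
    (hσ : σ ∈ A.inertiaSubgroupIn ℚ)
    (x : Submodule.torsionBy ℤ (P.freyCurve⁄(AlgebraicClosure ℚ)).Point (P.p : ℤ)) : σ • x = x :=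
  H05.frey_unramified_good P hq hq2 hqp habc A hA σ hσ x

/-- **The primes `q ≠ 2, p` dividing `abc`** (`GuideFrey.unramified_at_bad_prime`). The curve is integral at
`q`; modulo `q` two of the roots `0`, `a^p/4`, `-b^p/4` of the cubic polynomial coincide, and their
difference is `a^p/4`, `b^p/4` or `c^p/4`, up to sign, so its exponent at `q` is divisible by `p`. Here:
the integrality, in the form which is used for `GuideFrey.unramified_of_multiplicative_reduction`. File
`H72Frey`. -/
theorem integral_at_bad_prime (P : FreyPackage) {q : ℕ} (hq : q.Prime) (hq2 : q ≠ 2)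
    {A : ValuationSubring (AlgebraicClosure ℚ)} (hA : A.LiesOverPrime q) :
    A.valuation (algebraMap ℚ _ P.freyCurve.a₂) ≤ 1 ∧ A.valuation (algebraMap ℚ _ P.freyCurve.a₄) ≤ 1 :=
  have h := H72.frey_integralAt P hq hq2 hA
  ⟨h.a₂, h.a₄⟩

/-! ## 6. Consequences -/

/-- **S06 from exact modularity.** Suppose the integral model is modular of a squarefree level `N` all of
whose primes divide `Δ` (there is a normalised eigenform of level `N` with `a_ℓ(f) = a_ℓ(E)` for all good
`ℓ ∤ N`). Then `N` is a conductor level of the Frey package, and the representation on the `p`-torsion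
comes from the form modulo a maximal ideal containing `p`: take the congruence to be an equality. File
`H6_FreyCurve`. -/
theorem modular_rep_of_level (P : FreyPackage) {N : ℕ} (hN : 0 < N) (hsf : Squarefree N)
    (hsupp : ∀ q : ℕ, q.Prime → q ∣ N → (q : ℤ) ∣ P.freyCurveInt.Δ)
    (hmod : P.freyCurveInt.IsModularModelOfLevel N) :
    P.IsConductorLevel N ∧ P.ModularRepOfLevel N :=
  H6.s06_of_isModularModelOfLevel P hN hsf hsupp hmod

/-- **Two equations of the same curve.** A change of variables `C` over `ℚ` gives an isomorphism between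
the groups of points over `Q̄` which commutes with the Galois group. (So it does not matter which integral
model of the Frey curve a statement is about.) File `H44EFrey`. -/
theorem equivalent_equations {X Y : WeierstrassCurve ℚ} {C : VariableChange ℚ} (h : C • Y = X) :
    ∃ e : (X⁄(AlgebraicClosure ℚ)).Point ≃+ (Y⁄(AlgebraicClosure ℚ)).Point,
      ∀ (σ : AlgebraicClosure ℚ ≃ₐ[ℚ] AlgebraicClosure ℚ) (P : (X⁄(AlgebraicClosure ℚ)).Point),
        e (σ • P) = σ • e P :=
  H44E.exists_equiv_of_eq h

/-- **Inertia at `p` if `p ∣ abc`.** Then the reduction at `p` is multiplicative and the exponent of `p` in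
the discriminant is divisible by `p` (section 4), and the `p`-torsion of every integral model of the Frey
curve (`TorQ W p`, points over `Q̄`) contains a line `V` (a subgroup of order `p`) with the properties
`LineAtP`: it is stable under inertia, inertia acts trivially on the quotient and nontrivially on every
element `≠ 0` of `V`, and there are conditions on the ramification of the elements of `V` and of a point
outside `V` (`GuideLevelsAtP.lineAtP_fields`). Used for S44 (`p` can be removed from the level).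
File `H44EFrey`. -/
theorem line_at_p (P : FreyPackage) (h : (P.p : ℤ) ∣ P.a * P.b * P.c) {W : WeierstrassCurve ℤ}
    (hW : W.IsIntegralModelOf P.freyCurve) {A : ValuationSubring (AlgebraicClosure ℚ)}
    (hA : A.LiesOverPrime P.p) :
    ∃ V : AddSubgroup (H44E.TorQ W P.p), H44E.LineAtP P.p A (H44E.TorQ W P.p) V :=
  H44E.frey_lineAtP P h hW hA

end Fermat.Agent.Guide.FreySteps
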