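import Fermat.Agent.H67Ord

/-!
# Guide: Frobenius at `p` on the `p`-new part of `T_p J₀(Mp)`

Theorems and text: helper67 (16, 25 and the library files H67Delta, H67OrdA, H67Ord) and helper84.
All constants cited here are in the proof terms of S59, S60, S50, S46, S45, S38, S06, S04, S03 and
S01. Companion files: GuideOrdinary (Kummer functions and their reductions, case N; S33),
GuideUnitRoot (the case of good reduction at `p`, and the applications), GuideRealisation and
GuideEigen (where the equivariant maps to `T_p J₀(N)` come from). NOTES.md: [295] NOTES-ORDP-P2, and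
[170] NOTES-ORDP-P1 for the case of good reduction. Every theorem below is proved by citation; the
file where the proof is found is named in parentheses.

**The result** (Theorem 25). `ρ` is a representation with values in `GL₂(𝒪')` which is realised in
the `p`-new part of `T_p J₀(Mp)`, where `p` is odd and `p ∤ M`, and the Atkin-Lehner involution `w`
at `p` acts by `-s`, so that `U_p = s`. Then a Frobenius element at `p` acts by `s` on the
unramified quotient of `ρ`. In the literature this is deduced from the reduction of `J₀(Mp)` at `p`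
(Deligne-Rapoport), by means of Néron models and `p`-divisible groups, which are not used here.

**The idea.** `A` is a place of `ℚ̄` above `p`, with residue field `k`. A class `x ∈ J₀(N)[p^n]` has
Kummer functions `f`: `div f = p^n D`, `x = [D]`. The `q`-expansion of `f` has a reduction `r` at
`A`, a Laurent series over `k`, well defined up to constants and `p^n`-th powers. This gives a map

    `J₀(N)[p^n] → k((q))^* / k^* (k((q))^*)^(p^n)`,  `x ↦ r`,

which is compatible with the decomposition group at `A`. On the right inertia acts trivially and a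
Frobenius element `φ` acts by the Frobenius automorphism of `k` on the coefficients. (If `p ∤ N` the
series `r` is a Kummer function of the reduction of the class `x`, and it is a `p^n`-th power if and
only if this reduction is zero. For `N = Mp` one only sees the component of the special fibre
through the cusp `∞`.) `Δ ⊆ T_p J₀(N)` is the submodule of the elements all of whose components
are in the kernels of these maps.

* Section 1: reductions of functions. The norm operator `N` of GuideOrdinary, Theorem 11, acts on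
  reductions like `φ`: the source of the relations of Eichler and Shimura.
* Section 2: the kernels. If `α_* x = 0` then the norm of `f` to `X₀(M)`, whose `q`-expansion is
  `f · N(w f)`, is a `p^n`-th power; therefore `x + φ(w x)` is in the kernel.
* Section 3: the submodule `Δ`. `T_p J₀(N) / Δ` is torsion free and inertia acts trivially on it.
* Section 4: an equivariant map `V → T_p J₀(Mp)` as above does not have its values in `Δ`, since
  otherwise inertia would act by scalars on a part of `J₀(Mp)[p]` (case N of GuideOrdinary).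
* Section 5: coefficients `𝒪'`. A nonzero coordinate of `V → 𝒪' ⊗ (T_p J₀(Mp) / Δ)` is a functional
  on `V` which is invariant under inertia, hence proportional to the one which defines the
  unramified quotient, and `φ` acts on it by `s`.
-/

set_option autoImplicit false

open ModularCurve AlgebraicCurve
open scoped TensorProduct

namespace Fermat.Agent.Guide.FrobeniusAtP

local notation "Qb" => AlgebraicClosure ℚ
local notation "Gq" => AlgebraicClosure ℚ ≃ₐ[ℚ] AlgebraicClosure ℚ

/-! ### 1. Reductions of functions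

`Red A π f r` (GuideOrdinary, Theorem 9) says that the Laurent series `r ≠ 0` over the residue field
`k` is the reduction of a multiple `c f` of the Laurent series `f`, `c` a nonzero constant. -/

/-- **1. Every function has a reduction**, and it is unique up to constants. `A` is a place of
`ℚ̄`, `f ≠ 0` a function on `X₀(N)` over `ℚ̄`. Proof: `f` is a quotient of two elements of the
`ℚ̄`-span of `ℤ((q))`. Such an element is a combination of finitely many series over `ℤ` which
remain linearly independent modulo `p`; divide by a coefficient of minimal valuation.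
(H67Delta, H33Red, H34Two1) -/
theorem exists_reduction {A : ValuationSubring Qb} {N : ℕ} {f : H99.FX Qb N} (hf : f ≠ 0) :
    (∃ r, H33.Red A (IsLocalRing.residue A) (f : LaurentSeries Qb) r) ∧
      ∀ r s, H33.Red A (IsLocalRing.residue A) (f : LaurentSeries Qb) r →
        H33.Red A (IsLocalRing.residue A) (f : LaurentSeries Qb) s →
        ∃ c : IsLocalRing.ResidueField A, c ≠ 0 ∧ s = algebraMap _ (LaurentSeries _) c * r :=
  ⟨H67.Dl.exists_red_FX hf, fun _ _ hr hs => hr.unique IsLocalRing.residue_surjective hs⟩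

/-- **2. Products and inverses** reduce to products and inverses. (H33Red) -/
theorem reduction_mul {K : Type*} [Field K] {A : ValuationSubring K} {k : Type*} [Field k]
    {π : A →+* k} {f g : LaurentSeries K} {r s : LaurentSeries k} (hf : H33.Red A π f r)
    (hg : H33.Red A π g s) : H33.Red A π (f * g) (r * s) ∧ H33.Red A π f⁻¹ r⁻¹ :=
  ⟨hf.mul hg, hf.inv⟩

/-- **3. Automorphisms.** If the automorphism `τ` of `K` (applied to the coefficients of Laurent
series) preserves `A` and induces `τk` on the residue field, and `f` reduces to `r`, then `τ f`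
reduces to `τk r`. (H67Delta) -/
theorem reduction_map {K : Type*} [Field K] {A : ValuationSubring K} {k : Type*} [Field k]
    {π : A →+* k} {τ : K →+* K} {τk : k →+* k} (hτ : ∀ a ∈ A, τ a ∈ A)
    (hτπ : ∀ a : A, π ⟨τ a, hτ a a.2⟩ = τk (π a)) {f : LaurentSeries K} {r : LaurentSeries k}
    (hf : H33.Red A π f r) : H33.Red A π (coeffMap τ f) (coeffMap τk r) :=
  H67.Dl.red_map hτ hτπ hf

/-- **4. Frobenius elements**: if `σ` is a Frobenius element at `A` and `f` reduces to `r` then
`σ f` reduces to the series whose coefficients are the `p`-th powers of those of `r`. (H67Delta) -/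
theorem reduction_frobenius {p : ℕ} [Fact p.Prime] [NeZero p] {A : ValuationSubring Qb} {σ : Gq}
    (hσ : A.IsFrobeniusAt σ p) (hk : CharP (IsLocalRing.ResidueField A) p)
    {f : LaurentSeries Qb} {r : LaurentSeries (IsLocalRing.ResidueField A)}
    (hr : H33.Red A (IsLocalRing.residue A) f r) :
    H33.Red A (IsLocalRing.residue A) (coeffMap (σ : Qb →+* Qb) f)
      (coeffMap (frobenius (IsLocalRing.ResidueField A) p) r) :=
  H67.Dl.red_frob hσ hk hr

/-- **5. The norm operator** `(N f)(q^p) = ∏_{i < p} f(ζ^i q)` (GuideOrdinary, Theorem 11): if `f`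
reduces to `r` then `N f` also reduces to the series whose coefficients are the `p`-th powers of
those of `r`. Reason: `ζ` reduces to `1`, so `(N f)(q^p)` reduces to `r(q)^p`. (H67Delta) -/
theorem reduction_norm {K : Type*} [Field K] {A : ValuationSubring K} {k : Type*} [Field k]
    {π : A →+* k} {p : ℕ} [Fact p.Prime] [NeZero p] [CharP k p] {ζ : Aˣ}
    (hζ : IsPrimitiveRoot (Units.map (A.subtype : A →* K) ζ) p)
    (hζ1 : Units.map (π : A →* k) ζ = 1) {f : LaurentSeries K} {r : LaurentSeries k}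
    (hf : H33.Red A π f r) :
    H33.Red A π (H33.normOp p (Units.map (A.subtype : A →* K) ζ) f)
      (coeffMap (frobenius k p) r) :=
  H67.Dl.red_normOp hζ hζ1 hf

/-! ### 2. Classes whose Kummer functions reduce to `p^n`-th powers -/

/-- **6. Kummer functions exist and are unique up to `n`-th powers**: `n x = 0`, `n ≠ 0`; then there
is a function `f` with `div f = n D`, `x = [D]`, and two of them differ by an `n`-th power.
(H33Kummer) -/
theorem kummer_function {N : ℕ} [NeZero N] {n : ℕ} (hn : n ≠ 0) {x : JZero N}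
    (hx : n • x = 0) :
    (∃ f : H99.FX Qb N, H33.IsKum n x f) ∧ ∀ f g : H99.FX Qb N, H33.IsKum n x f →
      H33.IsKum n x g → ∃ h, h ≠ 0 ∧ f = g * h ^ n :=
  ⟨H33.IsKum.exists_of_nsmul hx, fun _ _ hf hg =>
    have := H33.funFieldFX N
    hf.unique hn hg⟩

/-- **7. The kernel at level `n`.** `InDl p A n x` says that some Kummer function of level `p^n` of
the class `x` reduces at `A` to a `p^n`-th power of a Laurent series. -/
theorem inDl_iff (p : ℕ) (A : ValuationSubring Qb) (n : ℕ) {N : ℕ} [NeZero N] (x : JZero N) :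
    H67.Dl.InDl p A n x ↔ ∃ f : H99.FX Qb N, H33.IsKum (p ^ n) x f ∧
      ∃ ω, H33.Red A (IsLocalRing.residue A) (f : LaurentSeries Qb) (ω ^ p ^ n) :=
  Iff.rfl

/-- **8. Then all its Kummer functions do**, since they differ by `p^n`-th powers of functions, and
every function has a reduction. (H67Delta) -/
theorem inDl_every {p : ℕ} [Fact p.Prime] [NeZero p] {N : ℕ} [NeZero N]
    {A : ValuationSubring Qb} {n : ℕ} {x : JZero N} (h : H67.Dl.InDl p A n x)
    {f : H99.FX Qb N} (hf : H33.IsKum (p ^ n) x f) :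
    ∃ ω, H33.Red A (IsLocalRing.residue A) (f : LaurentSeries Qb) (ω ^ p ^ n) :=
  h.forall_kum hf

/-- **9. They form a subgroup** of `J₀(N)[p^n]`; for the inverse note that this group is killed by
`p^n`. (H67Delta) -/
theorem inDl_subgroup {p : ℕ} [Fact p.Prime] [NeZero p] {N : ℕ} [NeZero N]
    {A : ValuationSubring Qb} {n : ℕ} :
    H67.Dl.InDl p A n (0 : JZero N) ∧
      (∀ x y : JZero N, H67.Dl.InDl p A n x → H67.Dl.InDl p A n y →
        H67.Dl.InDl p A n (x + y)) ∧
      ∀ (x : JZero N) (a : ℕ), H67.Dl.InDl p A n x → H67.Dl.InDl p A n (a • x) :=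
  ⟨H67.Dl.InDl.zero, fun _ _ => H67.Dl.InDl.add, fun _ a h => h.nsmul a⟩

/-- **10. Division by `p`.** If `p^(n+1) x = 0` and `p x` is in the kernel at level `n + 1`, then
`p x` is in the kernel at level `n`. Proof: let `f` be a Kummer function of level `p^(n+1)` of `x`,
with reduction `r`. Then `f^p` is a Kummer function of this level of `p x`, so `r^p` is a
`p^(n+1)`-th power, and `r` is a `p^n`-th power, because `y ↦ y^p` is injective in characteristic
`p`. Now `f` is also a Kummer function of level `p^n` of `p x`. (H67Delta) -/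
theorem inDl_divide {p : ℕ} [Fact p.Prime] [NeZero p] {N : ℕ} [NeZero N]
    {A : ValuationSubring Qb} {n : ℕ} {x : JZero N} (hA : A.LiesOverPrime p)
    (hx : p ^ (n + 1) • x = 0) (h : H67.Dl.InDl p A (n + 1) (p • x)) :
    H67.Dl.InDl p A n (p • x) :=
  H67.Dl.InDl.of_nsmul hA hx h

/-- **11. Inertia acts trivially modulo the kernel**: `σ f` and `f` have the same reduction for `σ`
in the inertia group at `A`. (H67Delta) -/
theorem inDl_inertia {p : ℕ} [Fact p.Prime] [NeZero p] {N : ℕ} [NeZero N]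
    {A : ValuationSubring Qb} {n : ℕ} {x : JZero N} (hx : p ^ n • x = 0) {σ : Gq}
    (hσ : σ ∈ A.inertiaSubgroupIn ℚ) : H67.Dl.InDl p A n (σ • x - x) :=
  H67.Dl.InDl.inertia hx hσ

/-- **12. The relation on the `p`-new part.** `p ∤ M`, `w` the Atkin-Lehner involution of `X₀(Mp)`
at `p` (`H99.AL`, see GuideCarayolModel, 10). If `p^n x = 0` and `α_* x = 0` in `J₀(M)`, then
`x + φ(w x)` is in the kernel for every Frobenius element `φ` at `A`. Proof: let `f` be a Kummer
function of `x` with reduction `r`; then `w f` is one of `w x`, with a reduction `s`. The norm of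
`f` along `α` is a Kummer function of `α_* x = 0`, hence a `p^n`-th power. Its `q`-expansion is
`f · N(w f)` (GuideOrdinary, Theorem 12), which by 5 reduces to `r s'`, where the coefficients of
`s'` are the `p`-th powers of those of `s`. By 4 the Kummer function `f · φ(w f)` of `x + φ(w x)`
has the same reduction. (H67Delta) -/
theorem inDl_new {p : ℕ} [Fact p.Prime] [NeZero p] {M : ℕ} [NeZero M]
    {A : ValuationSubring Qb} {n : ℕ} (hA : A.LiesOverPrime p) (hpM : ¬ p ∣ M)
    (w : H99.AL Qb M p) {x : JZero (M * p)} (hx : p ^ n • x = 0)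
    (hα : H67.pushP (heckeAlphaBar Qb M p) x = 0) {φ : Gq} (hφ : A.IsFrobeniusAt φ p) :
    H67.Dl.InDl p A n (x + φ • H67.pushP w.W.toAlgHom x) :=
  H67.Dl.InDl.new hA hpM w hx hα hφ

/-! ### 3. The submodule `Δ` of the Tate module -/

/-- **13. The submodule `Δ`** of `T_p J₀(N)`: all components are in the kernels of Section 2. -/
theorem mem_delta_iff {p : ℕ} [Fact p.Prime] [NeZero p] {A : ValuationSubring Qb} {N : ℕ}
    [NeZero N] (x : H30.TateMod p (JZero N)) :
    x ∈ H67.Dl.Delta p A N ↔ ∀ n, H67.Dl.InDl p A n (H30.TateMod.proj n x) :=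
  Iff.rfl

/-- **14. `T_p J₀(N) / Δ` is torsion free**, by 10. (H67Delta) -/
theorem delta_saturated {p : ℕ} [Fact p.Prime] [NeZero p] {A : ValuationSubring Qb} {N : ℕ}
    [NeZero N] (hA : A.LiesOverPrime p) :
    (∀ (a : ℤ_[p]) (x : H30.TateMod p (JZero N)), a ≠ 0 → a • x ∈ H67.Dl.Delta p A N →
      x ∈ H67.Dl.Delta p A N) ∧
    Module.IsTorsionFree ℤ_[p] (H30.TateMod p (JZero N) ⧸ H67.Dl.Delta p A N) :=
  ⟨fun _ _ ha h => H67.Dl.Delta.sat hA ha h, H67.Dl.Delta.isTorsionFree hA⟩

/-- **15. Inertia acts trivially on `T_p J₀(N) / Δ`.** (H67Delta) -/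
theorem delta_inertia {p : ℕ} [Fact p.Prime] [NeZero p] {A : ValuationSubring Qb} {N : ℕ}
    [NeZero N] {σ : Gq} (hσ : σ ∈ A.inertiaSubgroupIn ℚ) (x : H30.TateMod p (JZero N)) :
    H30.galTate p (JZero N) σ x - x ∈ H67.Dl.Delta p A N :=
  H67.Dl.Delta.inertia hσ x

/-- **16. The relation on the `p`-new part** (helper67): if `α_* x = 0` on `J₀(Mp)`, `p ∤ M`, then
`x + φ(w x) ∈ Δ` for every Frobenius element `φ` at `A`. Here `α_*` is `degPush 1` and `w` is
`wJ M p`. (H67Delta) -/
theorem delta_new {p : ℕ} [Fact p.Prime] [NeZero p] {A : ValuationSubring Qb} {M : ℕ} [NeZero M]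
    (hA : A.LiesOverPrime p) (hpM : ¬ p ∣ M) (hc : M.Coprime p)
    {x : H30.TateMod p (JZero (M * p))} (h1 : M * 1 ∣ M * p)
    (hα : H35.tateMap (p := p) (H67.degPush (M := M) (N := M * p) 1 h1) x = 0) {φ : Gq}
    (hφ : A.IsFrobeniusAt φ p) :
    x + H30.galTate p (JZero (M * p)) φ (H35.tateMap (p := p) (H67.wJ M p rfl hc) x) ∈
      H67.Dl.Delta p A (M * p) :=
  H67.Dl.Delta.new hA hpM hc h1 hα hφ

/-- **17. `Δ` modulo `p`**: the Kummer functions of level `p` of the component in `J₀(N)[p]` of an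
element of `Δ` reduce to `p`-th powers. This is the hypothesis of case N in GuideOrdinary.
(H67Delta) -/
theorem delta_mod_p {p : ℕ} [Fact p.Prime] [NeZero p] {A : ValuationSubring Qb} {N : ℕ}
    [NeZero N] {x : H30.TateMod p (JZero N)} (hx : x ∈ H67.Dl.Delta p A N) {f : H99.FX Qb N}
    (hf : H33.IsKum p (H30.TateMod.proj 1 x) f) :
    ∃ ω, H33.Red A (IsLocalRing.residue A) (f : LaurentSeries Qb) (ω ^ p) :=
  H67.Dl.Delta.red hx hf

/-! ### 4. Equivariant maps with values in `Δ`

`V` is the space of the representation `ρ` over the local ring `T`. -/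

/-- **18. A nonzero equivariant map into a Tate module is a multiple of a primitive one**: `h` is
`p^k h'`, where `h'` is equivariant and not zero modulo `p`. (H67OrdA) -/
theorem exists_primitive {T : Type} [CommRing T] [IsLocalRing T] {ρ : GaloisRepAdic T} {p : ℕ}
    [Fact p.Prime] {J : Type*} [AddCommGroup J] [DistribMulAction Gq J]
    {h : ρ.V →+ H30.TateMod p J} (hG : ∀ σ v, h (ρ.ρ σ v) = H30.galTate p J σ (h v))
    (h0 : h ≠ 0) :
    ∃ (h' : ρ.V →+ H30.TateMod p J) (k : ℕ),
      (∀ σ v, h' (ρ.ρ σ v) = H30.galTate p J σ (h' v)) ∧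
      (∃ v, H30.TateMod.proj 1 (h' v) ≠ 0) ∧ ∀ v, (p : ℤ_[p]) ^ k • h' v = h v := by
  have hh : H33.IsRealHom ρ (⊥ : Ideal T) h := ⟨hG, fun t ht v => by
    rw [Ideal.mem_bot.mp ht, zero_smul, map_zero]⟩
  obtain ⟨h', k, hh', hbar, hk⟩ := H67.Dl.exists_saturation hh h0
  exact ⟨h', k, hh'.gal, by_contra fun hc => hbar (AddMonoidHom.ext fun v =>
    by_contra fun hv => hc ⟨v, hv⟩), hk⟩

/-- **19. Not all values are in `Δ`.** `ρ` is residually absolutely irreducible with cyclotomic
determinant (`DetIsCyclotomic`, which includes that `p` is not a unit in `T`), `p` odd, `p ∤ M`;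
`h : V → T_p J₀(Mp)` is nonzero and equivariant, `α_* h = 0`, and the Atkin-Lehner involution acts
by an integer `ε` on the values of `h`. Proof: suppose that all values are in `Δ`. This remains true
for the primitive map `h'` of 18, because of 14; and `α_* h' = 0`, `w h' = ε h'`, as `p^k h' = h`
and `T_p J₀(Mp)` has no torsion. Let `W` be the image of `h'` in `J₀(Mp)[p]`. By 17 case N
(GuideOrdinary, Theorem 19) applies to `W`, and inertia at `A` acts on `W` through the cyclotomic
character. This contradicts the hypotheses on `ρ` (GuideOrdinary, Theorem 22). (H67OrdA, H67Ord) -/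
theorem not_in_delta {T : Type} [CommRing T] [IsLocalRing T] {ρ : GaloisRepAdic T} {p : ℕ}
    [Fact p.Prime] [NeZero p] {A : ValuationSubring Qb} {M : ℕ} [NeZero M] (hp2 : p ≠ 2)
    (hA : A.LiesOverPrime p) (hpM : ¬ p ∣ M) (hc : M.Coprime p)
    (hirr : ρ.residual.IsAbsolutelyIrreducible) (hdet : ρ.DetIsCyclotomic p)
    {h : ρ.V →+ H30.TateMod p (JZero (M * p))}
    (hG : ∀ σ v, h (ρ.ρ σ v) = H30.galTate p (JZero (M * p)) σ (h v)) (h0 : h ≠ 0)
    (h1 : M * 1 ∣ M * p)
    (hα : ∀ v, H35.tateMap (p := p) (H67.degPush (M := M) (N := M * p) 1 h1) (h v) = 0) {ε : ℤ}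
    (hw : ∀ v, H35.tateMap (p := p) (H67.wJ M p rfl hc) (h v) = ε • h v) :
    ∃ v, h v ∉ H67.Dl.Delta p A (M * p) := by
  have hh : H33.IsRealHom ρ (⊥ : Ideal T) h := ⟨hG, fun t ht v => by
    rw [Ideal.mem_bot.mp ht, zero_smul, map_zero]⟩
  exact by_contra fun hn => H67.Dl.false_new' hp2 hA hpM hc hirr hdet hh h0
    (fun v => by_contra fun hv => hn ⟨v, hv⟩) h1 hα hw

/-! ### 5. Coefficients, and the unramified quotient -/

/-- **20. Contractions.** A functional `c : O → ℤ_p` gives `O ⊗ T → T`, `a ⊗ x ↦ c(a) x`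
(`H67.Dl.ctr`). It commutes with the maps coming from `T`, and if `O` is free the contractions
separate the elements of `O ⊗ T`. (H67Ord) -/
theorem contraction {p : ℕ} [Fact p.Prime] {O : Type*} [CommRing O] [Algebra ℤ_[p] O]
    [Module.Free ℤ_[p] O] {T T' : Type*} [AddCommGroup T] [Module ℤ_[p] T] [AddCommGroup T']
    [Module ℤ_[p] T'] :
    (∀ (c : O →ₗ[ℤ_[p]] ℤ_[p]) (a : O) (x : T), H67.Dl.ctr c T (a ⊗ₜ[ℤ_[p]] x) = c a • x) ∧
    (∀ (c : O →ₗ[ℤ_[p]] ℤ_[p]) (f : T →ₗ[ℤ_[p]] T') (u : O ⊗[ℤ_[p]] T),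
      H67.Dl.ctr c T' (f.baseChange O u) = f (H67.Dl.ctr c T u)) ∧
    ∀ u : O ⊗[ℤ_[p]] T, (∀ c : O →ₗ[ℤ_[p]] ℤ_[p], H67.Dl.ctr c T u = 0) → u = 0 :=
  ⟨H67.Dl.ctr_tmul, H67.Dl.ctr_baseChange, fun _ => H67.Dl.ctr_eq_zero⟩

/-- **21. The coefficients.** A complete discrete valuation ring of characteristic zero with finite
residue field of characteristic `p` is a free `ℤ_p`-module. (H67Ord, H89Point) -/
theorem coefficients_free (p : ℕ) [Fact p.Prime] (𝒪' : Type) [CommRing 𝒪'] [IsDomain 𝒪']
    [IsDiscreteValuationRing 𝒪'] [IsAdicComplete (IsLocalRing.maximalIdeal 𝒪') 𝒪']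
    [Finite (IsLocalRing.ResidueField 𝒪')] [CharZero 𝒪'] [Algebra ℤ_[p] 𝒪']
    (hp𝒪' : (p : 𝒪') ∈ IsLocalRing.maximalIdeal 𝒪') : Module.Free ℤ_[p] 𝒪' :=
  H67.Dl.free_padic p 𝒪' hp𝒪'

/-- **22. Invariant functionals in rank two.** `V` free of rank two over a domain, `σ` an
endomorphism of determinant `≠ 1`. Two functionals with `l ∘ σ = l`, `l' ∘ σ = l'` are proportional:
otherwise `σ` would be the identity. In particular, if `l' ≠ 0`, `l` vanishes where `l'` vanishes.
(H67Ord) -/
theorem functionals_proportional {O : Type*} [CommRing O] [IsDomain O] {V : Type*}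
    [AddCommGroup V] [Module O V] [Module.Free O V] [Module.Finite O V]
    (hV : Module.finrank O V = 2) (σ : V →ₗ[O] V) (hdet : LinearMap.det σ ≠ 1)
    (l l' : V →ₗ[O] O) (hl : ∀ v, l (σ v) = l v) (hl' : ∀ v, l' (σ v) = l' v) (h0 : l' ≠ 0)
    {v : V} (hv : l' v = 0) : l v = 0 :=
  H67.Dl.eq_zero_of_functionals hV σ hdet l l' hl hl' h0 hv

/-- **23. The key step.** `Δ ⊆ T` with `T / Δ` torsion free, `Φ : V → O ⊗ T`, `V` of rank two, `σ`
an endomorphism of `V` of determinant `≠ 1`. Suppose that `Φ(σ v - v)` is in `O ⊗ Δ` for all `v`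
(in terms of contractions), and that not all `Φ v` are. Then every functional `l` on `V` with
`l ∘ σ = l` vanishes at all `v` with `Φ v ∈ O ⊗ Δ`. Proof: `T / Δ` is free; a nonzero coordinate of
`V → O ⊗ T / Δ` is a functional `l'` as in 22. (H67Ord) -/
theorem functional_vanishes {p : ℕ} [Fact p.Prime] {O : Type*} [CommRing O] [IsDomain O]
    [Algebra ℤ_[p] O] [Module.Free ℤ_[p] O] {T : Type*} [AddCommGroup T] [Module ℤ_[p] T]
    [Module.Finite ℤ_[p] T] {V : Type*} [AddCommGroup V] [Module O V] [Module.Free O V]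
    [Module.Finite O V] (Δ : Submodule ℤ_[p] T) (htf : Module.IsTorsionFree ℤ_[p] (T ⧸ Δ))
    (hV : Module.finrank O V = 2) (Φ : V →ₗ[O] O ⊗[ℤ_[p]] T)
    (hnot : ∃ (c : O →ₗ[ℤ_[p]] ℤ_[p]) (v : V), H67.Dl.ctr c T (Φ v) ∉ Δ)
    (σ : V →ₗ[O] V) (hdet : LinearMap.det σ ≠ 1)
    (hσ : ∀ (c : O →ₗ[ℤ_[p]] ℤ_[p]) (v : V), H67.Dl.ctr c T (Φ (σ v - v)) ∈ Δ)
    (l : V →ₗ[O] O) (hl : ∀ v, l (σ v) = l v)
    {v : V} (hv : ∀ c : O →ₗ[ℤ_[p]] ℤ_[p], H67.Dl.ctr c T (Φ v) ∈ Δ) : l v = 0 :=
  H67.Dl.functional_abs Δ htf hV Φ hnot σ hdet hσ l hl hv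

/-- **24. The same for `ρ`.** `ρ : G_ℚ → GL₂(𝒪')` with cyclotomic determinant, `p` odd,
`Φ : V → 𝒪' ⊗ T_p J₀(N)` equivariant and not with values in `𝒪' ⊗ Δ`. Every functional `l` on `V`
which is invariant under inertia at `A` vanishes at all `v` with `Φ v ∈ 𝒪' ⊗ Δ`. Here `σ` is an
element of inertia at which the cyclotomic character modulo `p` is not `1`, and 14 and 15 are the
hypotheses of 23. (H67Ord) -/
theorem unramified_quotient {p : ℕ} [Fact p.Prime] [NeZero p] {A : ValuationSubring Qb}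
    {𝒪' : Type} [CommRing 𝒪'] [IsDomain 𝒪'] [IsDiscreteValuationRing 𝒪']
    [IsAdicComplete (IsLocalRing.maximalIdeal 𝒪') 𝒪'] [Finite (IsLocalRing.ResidueField 𝒪')]
    [CharZero 𝒪'] [Algebra ℤ_[p] 𝒪'] {ρ : GaloisRepAdic 𝒪'} {N : ℕ} [NeZero N]
    {Φ : ρ.V →ₗ[𝒪'] 𝒪' ⊗[ℤ_[p]] H30.TateMod p (JZero N)}
    (hp2 : p ≠ 2) (hA : A.LiesOverPrime p) (hp𝒪' : (p : 𝒪') ∈ IsLocalRing.maximalIdeal 𝒪')
    (hdet : ρ.DetIsCyclotomic p)
    (hG : ∀ g x, Φ (ρ.ρ g x) = (H30.galTate p (JZero N) g).baseChange 𝒪' (Φ x))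
    (hnot : ∃ (c : 𝒪' →ₗ[ℤ_[p]] ℤ_[p]) (v : ρ.V),
      H67.Dl.ctr c (H30.TateMod p (JZero N)) (Φ v) ∉ H67.Dl.Delta p A N)
    (l : ρ.V →ₗ[𝒪'] 𝒪') (hlI : ∀ σ ∈ A.inertiaSubgroupIn ℚ, ∀ v, l (ρ.ρ σ v) = l v)
    {v : ρ.V} (hv : ∀ c : 𝒪' →ₗ[ℤ_[p]] ℤ_[p],
      H67.Dl.ctr c (H30.TateMod p (JZero N)) (Φ v) ∈ H67.Dl.Delta p A N) : l v = 0 :=
  H67.Dl.functional_eq_zero hp2 hA hp𝒪' hdet hG hnot l hlI hv

/-- **25. Frobenius at `p` on the unramified quotient of a `p`-new form** (helper67). `p` an odd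
prime, `p ∤ M`, `𝒪'` a complete discrete valuation ring of characteristic zero with finite residue
field of characteristic `p`, `ρ : G_ℚ → GL₂(𝒪')` with absolutely irreducible residual representation
and determinant the cyclotomic character, `Φ : V → 𝒪' ⊗ T_p J₀(Mp)` nonzero and equivariant with
image in the `p`-new part: `α_* Φ = 0` for the push-forward `α_* = degPush 1` to level `M`, and
`w Φ = -s Φ`, `s = ± 1`, for the Atkin-Lehner involution `w = wJ M p` (so also `β_* Φ = 0` and
`U_p Φ = s Φ`). Let `l` be a nonzero functional on `V` invariant under the inertia group at a place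
`A` above `p`, and `l(ρ(φ) v) = z l(v)` for a Frobenius element `φ` at `A`. Then `z = s`. Proof: by
16, applied to the contractions of `Φ` (for them `w = -s`), the elements `Φ(ρ(φ) v - s v)` are in
`𝒪' ⊗ Δ`; by 19 not all values of `Φ` are; so `l(ρ(φ) v - s v) = 0` by 24. (H67Ord; used in
H75R4) -/
theorem frobenius_new {p : ℕ} [Fact p.Prime] [NeZero p] {A : ValuationSubring Qb} {𝒪' : Type}
    [CommRing 𝒪'] [IsDomain 𝒪'] [IsDiscreteValuationRing 𝒪']
    [IsAdicComplete (IsLocalRing.maximalIdeal 𝒪') 𝒪'] [Finite (IsLocalRing.ResidueField 𝒪')]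
    [CharZero 𝒪'] [Algebra ℤ_[p] 𝒪'] {ρ : GaloisRepAdic 𝒪'} {M : ℕ} [NeZero M]
    (hp2 : p ≠ 2) (hA : A.LiesOverPrime p) (hpM : ¬ p ∣ M) (hcop : M.Coprime p)
    (hp𝒪' : (p : 𝒪') ∈ IsLocalRing.maximalIdeal 𝒪')
    (hirr : ρ.residual.IsAbsolutelyIrreducible) (hdet : ρ.DetIsCyclotomic p)
    {Φ : ρ.V →ₗ[𝒪'] 𝒪' ⊗[ℤ_[p]] H30.TateMod p (JZero (M * p))} (hΦ : Φ ≠ 0)
    (hG : ∀ g x, Φ (ρ.ρ g x) = (H30.galTate p (JZero (M * p)) g).baseChange 𝒪' (Φ x))
    (h1 : M * 1 ∣ M * p)
    (hpush : ∀ x, (H35.tateMap (p := p)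
      (H67.degPush (M := M) (N := M * p) 1 h1)).baseChange 𝒪' (Φ x) = 0)
    {s : ℤ} (hs : s = 1 ∨ s = -1)
    (hw : ∀ x, (H35.tateMap (p := p) (H67.wJ M p rfl hcop)).baseChange 𝒪' (Φ x) =
      ((-s : ℤ) : 𝒪') • Φ x)
    {φ : Gq} (hφ : A.IsFrobeniusAt φ p) (l : ρ.V →ₗ[𝒪'] 𝒪') (hl : l ≠ 0)
    (hlI : ∀ σ ∈ A.inertiaSubgroupIn ℚ, ∀ v, l (ρ.ρ σ v) = l v)
    {z : 𝒪'} (hlφ : ∀ v, l (ρ.ρ φ v) = z * l v) : z = (s : 𝒪') :=
  H67.Dl.ordP_new hp2 hA hpM hcop hp𝒪' hirr hdet hΦ hG h1 hpush hs hw hφ l hl hlI hlφ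

end Fermat.Agent.Guide.FrobeniusAtP
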