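/-
H17Unr: points of `J₀(N)` whose double is rational are unramified outside `2N`.
-/
import Mathlib
import Fermat.Agent.S18
import Fermat.Agent.H42Inputs

set_option autoImplicit false

open AlgebraicCurve ModularCurve

namespace Fermat.Agent.H17

local notation "Qb" => AlgebraicClosure ℚ

/-- Equality of genera in the form used by helper42. -/
theorem genusEq42 (N : ℕ) [NeZero N] {ℓ : ℕ} (hℓ : ℓ.Prime) (hℓN : ¬ ℓ ∣ N)
    (A : ValuationSubring Qb) (hA : A.LiesOverPrime ℓ) : H42.GenusEq N A :=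
  haveI : Fact ℓ.Prime := ⟨hℓ⟩
  H88.genusFFEq N hℓN A hA

/-- The reduction inputs hold at every good place. -/
theorem reductionInputs (N : ℕ) [NeZero N] {ℓ : ℕ} (hℓ : ℓ.Prime) (hℓN : ¬ ℓ ∣ N)
    (A : ValuationSubring Qb) (hA : A.LiesOverPrime ℓ) : ReductionInputsModL A N :=
  H42.reductionInputsModL_of_genusEq hℓ hA hℓN (genusEq42 N hℓ hℓN A hA)

set_option synthInstance.maxHeartbeats 400000 in
set_option maxHeartbeats 4000000 in
/-- Inertia acts trivially on the reduction of `J₀(N)` at a good place. -/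
theorem reductionModL_inertia (N : ℕ) [NeZero N] {ℓ : ℕ} (hℓ : ℓ.Prime) (hℓN : ¬ ℓ ∣ N)
    (A : ValuationSubring Qb) (hA : A.LiesOverPrime ℓ) {σ : Qb ≃ₐ[ℚ] Qb}
    (hσ : σ ∈ A.inertiaSubgroupIn ℚ) (x : JZero N) :
    reductionModL A N (σ • x) = reductionModL A N x := by
  have hred := reductionInputs N hℓ hℓN A hA
  have hr := hred.choose_spec.1
  have hgen := hred.choose_spec.2
  have hs : reductionModL A N = reductionPic0Along hred.choose hr hgen := reductionAlong_eq hred
  obtain ⟨σ', hσ', rfl⟩ := hσ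
  have hid : ∀ x : IsLocalRing.ResidueField A, σ' • x = RingEquiv.refl _ x := by
    intro x
    have h := MonoidHom.mem_ker.mp hσ'
    exact DFunLike.congr_fun h x
  have hc := H60.compat_of_mem (A := A) σ'.2 (RingEquiv.refl _) hid
  rw [hs]
  have h1 := H60.reductionPic0Along_smul (H42.riemannBound _ _) (H42.deg_bar N) hr hgen hc x
  rw [H60.coeffAut_refl, one_smul] at h1
  exact h1

set_option synthInstance.maxHeartbeats 400000 in
set_option maxHeartbeats 4000000 in
/-- Division points of rational points are unramified outside `2N`. -/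
theorem inertia_fix (N : ℕ) [NeZero N] {q : ℕ} (hq : q.Prime) (hqN : ¬ q ∣ 2 * N)
    (V : ValuationSubring (AlgebraicClosure ℚ)) (hV : V.LiesOverPrime q)
    (σ : AlgebraicClosure ℚ ≃ₐ[ℚ] AlgebraicClosure ℚ) (hσ : σ ∈ V.inertiaSubgroupIn ℚ)
    (a : JZero N)
    (ha : ∀ g : AlgebraicClosure ℚ ≃ₐ[ℚ] AlgebraicClosure ℚ, g • (2 • a) = 2 • a) :
    σ • a = a := by
  haveI : Fact q.Prime := ⟨hq⟩
  have hqN' : ¬ q ∣ N := fun h => hqN (h.mul_left 2)
  have hq2 : ¬ q ∣ 2 := fun h => hqN (h.mul_right N)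
  have h2 : 2 • (σ • a - a) = 0 := by
    have h1 := ha σ
    rw [two_nsmul, smul_add] at h1
    rw [two_nsmul]
    have h3 : σ • a - a + (σ • a - a) = (σ • a + σ • a) - (a + a) := by abel
    rw [h3, h1, sub_self]
  have hz : reductionModL V N (σ • a - a) = 0 := by
    rw [map_sub, reductionModL_inertia N hq hqN' V hV hσ a, sub_self]
  exact sub_eq_zero.1 (Fermat.Agent.S18.result N hqN' V hV (reductionInputs N hq hqN' V hV) 2 hq2
    _ h2 hz)

end Fermat.Agent.H17
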