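import Mathlib
import Fermat.Prelude.Def_AlgebraicCurve_BaseChangeGalois
import Fermat.Prelude.Def_AlgebraicCurve_Repartitions
import Fermat.Agent.H40DeuringPlace
import Fermat.Agent.H94FunField

/-!
# S19: abstract setting (good reduction of a function field, inertia action) (helper19)
-/

set_option autoImplicit false

noncomputable section

open AlgebraicCurve WithZero

namespace Fermat.Agent.H19

open Fermat.Agent.H40 Fermat.Agent.H94

/-! ### Algebras of "analytic" functions on a finite set -/

/-- `H` is a ring of `A`-valued functions on the finite set `S`, equivariant for the symmetries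
`σ i` of `K` and `τ i` of `S`, containing the fixed integral constants and separating points. -/
structure IsAnAlg {K : Type*} [Field K] (A : ValuationSubring K) {ι S : Type*}
    (σ : ι → K ≃+* K) (τ : ι → S → S) (H : Subring (S → K)) : Prop where
  int : ∀ f ∈ H, ∀ s, f s ∈ A
  equiv : ∀ f ∈ H, ∀ i s, f (τ i s) = σ i (f s)
  const : ∀ c ∈ A, (∀ i, σ i c = c) → (fun _ => c) ∈ H
  sep : ∀ s s', (∀ f ∈ H, f s = f s') → s = s'

/-! ### Values of functions at places -/

section Value

variable {K F : Type*} [Field K] [Field F] [Algebra K F]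

/-- the function `f` takes the value `c` at the place `P` -/
def HasVal (P : Place K F) (f : F) (c : K) : Prop :=
  f - algebraMap K F c = 0 ∨ 0 < P.ord (f - algebraMap K F c)

/-- `f` has no pole at `P` -/
def RegAt (P : Place K F) (f : F) : Prop := f = 0 ∨ 0 ≤ P.ord f

end Value

/-! ### Good reduction -/

/-- Good reduction of the function field `F/K` to the function field `E/k`
(same genus `g` on both sides). -/
structure GoodRed (K F k E : Type*) [Field K] [Field F] [Algebra K F]
    [Field k] [Field E] [Algebra k E] extends ReductionData K F k E where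
  /-- the genus -/
  g : ℕ
  /-- the degree from which on Riemann's theorem holds -/
  c : ℤ
  /-- the reduction of places -/
  r : Place K F → Place k E
  pdF : HasPrincipalDivisors K F
  pdE : HasPrincipalDivisors k E
  riemF : RiemannFor K F g c
  riemE : RiemannFor k E g c
  isRed : ∀ D : Divisor K F, c < Divisor.degree D →
    toReductionData.IsRed D (Finsupp.mapDomain r D)
  div_red : ∀ x : B, ρ x ≠ 0 → ∀ Δ : Divisor K F, (∀ v, Δ v = v.ord (x : F)) →
    ∀ w, Finsupp.mapDomain r Δ w = w.ord (ρ x)

/-- The action of an "inertia group" on a situation of good reduction. -/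
structure InertiaAction {K F k E : Type*} [Field K] [Field F] [Algebra K F]
    [Field k] [Field E] [Algebra k E] (S : GoodRed K F k E)
    (Γ : Subgroup (SemilinearAut K F)) where
  /-- integral functions are preserved -/
  smul_mem : ∀ γ ∈ Γ, ∀ b : S.B, γ • (b : F) ∈ S.B
  /-- reductions are not changed -/
  ρ_smul : ∀ (γ : SemilinearAut K F) (hγ : γ ∈ Γ) (b : S.B), S.ρ ⟨γ • (b : F), smul_mem γ hγ b⟩ = S.ρ b
  /-- the constants: integral constants are preserved -/
  baseAut_mem : ∀ γ ∈ Γ, ∀ a ∈ S.A, SemilinearAut.baseAut γ a ∈ S.A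
  /-- every residue class of constants contains an invariant constant -/
  exists_const : ∀ x : k, ∃ a : S.A, (∀ γ ∈ Γ, SemilinearAut.baseAut γ (a : K) = a) ∧ S.π a = x
  /-- an invariant place -/
  Pinf : Place K F
  smul_Pinf : ∀ γ ∈ Γ, γ • Pinf = Pinf
  /-- good invariant bases of invariant spaces -/
  exists_basis_fixed : ∀ V : Submodule K F, FiniteDimensional K V →
    (∀ γ ∈ Γ, ∀ f ∈ V, γ • f ∈ V) →
    ∃ (n : ℕ) (b : Fin n → S.B), (∀ i, ∀ γ ∈ Γ, γ • (b i : F) = b i) ∧
      Submodule.span K (Set.range fun i => (b i : F)) = V ∧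
      LinearIndependent k (fun i => S.ρ (b i))

end Fermat.Agent.H19
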