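import Mathlib
import Fermat.Agent.H19Setting
import Fermat.Agent.H3RR_Bridge
import Fermat.Agent.H3RR_Special

/-!
# Nonspecial systems, reduction of divisor classes, the kernel of reduction (helper23)
-/

set_option autoImplicit false
set_option linter.unusedSectionVars false

noncomputable section

open AlgebraicCurve WithZero

namespace Fermat.Agent.H23

open Fermat.Agent.H40 Fermat.Agent.H19

section Divisors

variable {K F : Type*} [Field K] [Field F] [Algebra K F]

/-- an effective divisor of degree `n` is a sum of `n` places -/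
theorem exists_eq_sum_single (hdeg : ∀ v : Place K F, v.deg = 1) (n : ℕ) :
    ∀ D : Divisor K F, 0 ≤ D → Divisor.degree D = n →
      ∃ P : Fin n → Place K F, D = ∑ i, Finsupp.single (P i) 1 := by
  classical
  induction n with
  | zero =>
    intro D hD hd
    refine ⟨Fin.elim0, ?_⟩
    rw [Finset.univ_eq_empty, Finset.sum_empty]
    exact (H40.eq_of_le_of_degree_le hdeg hD (by rw [hd]; simp)).symm
  | succ n ih =>
    intro D hD hd
    have hne : D ≠ 0 := by
      rintro rfl
      rw [map_zero] at hd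
      push_cast at hd
      omega
    obtain ⟨v, hv⟩ := Finsupp.ne_iff.mp hne
    have hv' : 1 ≤ D v := by
      have := Finsupp.le_def.mp hD v
      simp only [Finsupp.coe_zero, Pi.zero_apply] at this hv
      omega
    have hD' : 0 ≤ D - Finsupp.single v 1 := by
      rw [Finsupp.le_def]
      intro w
      rw [Finsupp.sub_apply, Finsupp.single_apply]
      have h2 := Finsupp.le_def.mp hD w
      simp only [Finsupp.coe_zero, Pi.zero_apply] at h2 ⊢
      split_ifs with h
      · subst h; omega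
      · omega
    obtain ⟨P, hP⟩ := ih (D - Finsupp.single v 1) hD' (by
      rw [map_sub, Divisor.degree_single, hdeg, hd]; push_cast; ring)
    refine ⟨Fin.cons v P, ?_⟩
    rw [Fin.sum_univ_succ]
    simp only [Fin.cons_zero, Fin.cons_succ]
    rw [← hP]
    abel

theorem sum_single_nonneg {n : ℕ} (P : Fin n → Place K F) :
    (0 : Divisor K F) ≤ ∑ i, Finsupp.single (P i) (1 : ℤ) :=
  Finset.sum_nonneg fun v _ => by rw [Finsupp.single_nonneg]; norm_num

theorem degree_sum_single (hdeg : ∀ v : Place K F, v.deg = 1) {n : ℕ} (P : Fin n → Place K F) :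
    Divisor.degree (∑ i, Finsupp.single (P i) (1 : ℤ)) = n := by
  rw [map_sum]
  simp [hdeg]

theorem sum_single_apply_pos {n : ℕ} (P : Fin n → Place K F) (i : Fin n) :
    1 ≤ (∑ j, Finsupp.single (P j) (1 : ℤ)) (P i) := by
  classical
  rw [Finsupp.finsetSum_apply]
  have h1 : (Finsupp.single (P i) (1 : ℤ)) (P i) ≤ ∑ j, (Finsupp.single (P j) (1 : ℤ)) (P i) :=
    Finset.single_le_sum (f := fun j => (Finsupp.single (P j) (1 : ℤ)) (P i))
      (fun j _ => by rw [Finsupp.single_apply]; split_ifs <;> norm_num) (Finset.mem_univ i)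
  rwa [Finsupp.single_eq_same] at h1

theorem exists_of_sum_single_apply_pos {n : ℕ} (P : Fin n → Place K F) (v : Place K F)
    (h : 1 ≤ (∑ j, Finsupp.single (P j) (1 : ℤ)) v) : ∃ i, P i = v := by
  classical
  by_contra hcon
  push Not at hcon
  rw [Finsupp.finsetSum_apply, Finset.sum_eq_zero] at h
  · omega
  · intro j _
    exact Finsupp.single_eq_of_ne (hcon j).symm

end Divisors

section Genus

variable {K F : Type*} [Field K] [Field F] [Algebra K F] [IsAlgClosed K] [H94.FunField K F]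

theorem genusFF_eq_of_riemannFor {g c : ℤ} (h : RiemannFor K F g c) : (genusFF K F : ℤ) = g := by
  obtain ⟨P⟩ := H3RR.exists_place K F
  set N : ℤ := max c (2 * (genusFF K F : ℤ) + 1) with hN
  have hd : Divisor.degree (Finsupp.single P N) = N := by
    rw [Divisor.degree_single, H94.deg_eq_one]; simp
  have h1 := (h (Finsupp.single P N) (by rw [hd]; exact le_max_left _ _)).2
  have h2 := H3RR.ell_of_degree_gt (D := (Finsupp.single P N : Divisor K F)) (by
    rw [hd]
    have : 2 * (genusFF K F : ℤ) + 1 ≤ N := le_max_right _ _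
    omega)
  rw [hd] at h1 h2
  unfold H3RR.ell at h2
  omega

end Genus

section GoodRed

variable {K F k E : Type*} [Field K] [Field F] [Algebra K F] [Field k] [Field E] [Algebra k E]
variable (S : GoodRed K F k E)

section C1

variable [IsAlgClosed k] [H94.FunField k E]

/-- (C1) nonspecial systems of `g` distinct points avoiding a finite set -/
theorem exists_nonspecial (T : Finset (Place k E)) :
    ∃ Q : Fin S.g → Place k E, Function.Injective Q ∧ (∀ i, Q i ∉ T) ∧
      ∀ f ∈ riemannRochSpace (∑ i, Finsupp.single (Q i) (1 : ℤ)), ∃ c : k, f = algebraMap k E c := by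
  classical
  obtain ⟨R, hRc, hRT, -, hR1⟩ := H3RR.exists_nonspecial (K := k) (F := E) T
  have hg : genusFF k E = S.g := by
    have := genusFF_eq_of_riemannFor S.riemE
    exact_mod_cast this
  let e : Fin S.g ≃ R := (R.equivFinOfCardEq (hRc.trans hg)).symm
  have hsum : (∑ i, Finsupp.single ((e i : R) : Place k E) (1 : ℤ)) = H3RR.redDiv R := by
    rw [H3RR.redDiv, ← Finset.sum_coe_sort R, ← e.sum_comp]
  refine ⟨fun i => (e i : Place k E), fun i j hij => e.injective (Subtype.ext hij), ?_, ?_⟩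
  · intro i hi
    exact (Finset.disjoint_left.mp hRT) (e i).2 hi
  · intro f hf
    rw [hsum] at hf
    obtain ⟨c, hc⟩ := H3RR.exists_const_of_mem_L (H3RR.redDiv_nonneg R) hR1 hf
    exact ⟨c, hc.symm⟩

end C1

section C2

variable [IsAlgClosed K] [IsAlgClosed k] [H94.FunField K F] [H94.FunField k E]

theorem degree_mapDomain (D : Divisor K F) :
    Divisor.degree (Finsupp.mapDomain S.r D) = Divisor.degree D := by
  induction D using Finsupp.induction_linear with
  | zero => simp
  | add D E hD hE => rw [Finsupp.mapDomain_add, map_add, map_add, hD, hE]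
  | single v n =>
    rw [Finsupp.mapDomain_single, Divisor.degree_single, Divisor.degree_single,
      H94.deg_eq_one, H94.deg_eq_one]

omit [IsAlgClosed K] [IsAlgClosed k] [H94.FunField K F] [H94.FunField k E] in
/-- every nonzero function is, up to a constant, integral with nonzero reduction; the divisor
of its reduction is the image of its divisor -/
theorem exists_scale_div {f : F} (hf : f ≠ 0) :
    ∃ c : K, c ≠ 0 ∧ ∃ x : S.B, (x : F) = c • f ∧ S.ρ x ≠ 0 ∧
      ∀ D : Divisor K F, (∀ v, D v = v.ord f) → ∀ w, Finsupp.mapDomain S.r D w = w.ord (S.ρ x) := by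
  obtain ⟨c, hc, x, hx, hρ⟩ := S.exists_scale hf
  refine ⟨c, hc, x, hx, hρ, fun D hD => S.div_red x hρ D fun v => ?_⟩
  rw [hD v, hx, Algebra.smul_def, v.ord_mul (by simpa using hc) hf, H40.ord_algebraMap, zero_add]

omit [IsAlgClosed K] [IsAlgClosed k] [H94.FunField K F] [H94.FunField k E] in
theorem mapDomain_mem_principal {D : Divisor K F} (hD : D ∈ Divisor.principal (K := K) (F := F)) :
    Finsupp.mapDomain S.r D ∈ Divisor.principal (K := k) (F := E) := by
  obtain ⟨f, hf, hD⟩ := hD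
  obtain ⟨c, hc, x, hx, hρ, h⟩ := exists_scale_div S hf
  exact ⟨S.ρ x, hρ, h D hD⟩

/-- reduction of divisors of degree zero -/
def redDegZero : Divisor.degZero (K := K) (F := F) →+ Divisor.degZero (K := k) (F := E) :=
  ((Finsupp.mapDomain.addMonoidHom S.r).comp (Divisor.degZero (K := K) (F := F)).subtype).codRestrict
    (Divisor.degZero (K := k) (F := E)) fun D => by
      rw [Divisor.mem_degZero]
      exact (degree_mapDomain S (D : Divisor K F)).trans D.2

@[simp] theorem coe_redDegZero (D : Divisor.degZero (K := K) (F := F)) :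
    (redDegZero S D : Divisor k E) = Finsupp.mapDomain S.r (D : Divisor K F) := rfl

/-- (C2) reduction of divisor classes of degree zero -/
def redPic0 : Pic0 K F →+ Pic0 k E :=
  QuotientAddGroup.map _ _ (redDegZero S) (by
    rintro D hD
    rw [AddSubgroup.mem_addSubgroupOf] at hD
    rw [AddSubgroup.mem_comap, AddSubgroup.mem_addSubgroupOf]
    exact mapDomain_mem_principal S hD)

theorem redPic0_mk (D : Divisor.degZero (K := K) (F := F)) :
    redPic0 S (Pic0.mk D) = Pic0.mk (redDegZero S D) := rfl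

end C2

section C3

/-- the reduction of `L(D)` is contained in `L(D mod p)` -/
theorem red_L_le (D : Divisor K F) (Δ : ∀ f : F, f ≠ 0 → ∃ D : Divisor K F, ∀ v, D v = v.ord f) :
    S.red (riemannRochSpace D) ≤ riemannRochSpace (Finsupp.mapDomain S.r D) := by
  classical
  rintro _ ⟨x, hx, rfl⟩
  by_cases hρ : S.ρ x = 0
  · rw [hρ]; exact Submodule.zero_mem _
  have hx0 := S.ne_zero_of_ρ_ne_zero hρ
  obtain ⟨G, hG⟩ := Δ _ hx0
  have h1 := S.div_red x hρ G hG
  have h2 : 0 ≤ D + G := by
    rw [Finsupp.le_def]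
    intro v
    have := (H40.mem_L hx0).mp hx v
    rw [Finsupp.add_apply, hG v]
    simp only [Finsupp.coe_zero, Pi.zero_apply]
    omega
  have h3 : (0 : Divisor k E) ≤ Finsupp.mapDomain S.r (D + G) := by
    rw [Finsupp.mapDomain]
    exact Finset.sum_nonneg fun v _ => by
      rw [Finsupp.single_nonneg]
      exact Finsupp.le_def.mp h2 v
  rw [H40.mem_L hρ]
  intro w
  have h4 := Finsupp.le_def.mp h3 w
  rw [Finsupp.mapDomain_add, Finsupp.add_apply, h1 w] at h4
  simp only [Finsupp.coe_zero, Pi.zero_apply] at h4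
  omega

variable [IsAlgClosed K] [IsAlgClosed k] [H94.FunField K F] [H94.FunField k E]

theorem red_L_le' (D : Divisor K F) :
    S.red (riemannRochSpace D) ≤ riemannRochSpace (Finsupp.mapDomain S.r D) :=
  red_L_le S D fun f hf => by
    obtain ⟨G, hG, -⟩ := S.pdF.exists_divisor f hf
    exact ⟨G, hG⟩

theorem ell_le_ell (D : Divisor K F) : H3RR.ell D ≤ H3RR.ell (Finsupp.mapDomain S.r D) := by
  have h1 := (S.finrank_red (riemannRochSpace D)).2
  unfold H3RR.ell
  rw [← h1]
  exact Submodule.finrank_mono (red_L_le' S D)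

theorem mapDomain_sum_single {n : ℕ} (P : Fin n → Place K F) :
    Finsupp.mapDomain S.r (∑ i, Finsupp.single (P i) (1 : ℤ)) =
      ∑ i, Finsupp.single (S.r (P i)) (1 : ℤ) := by
  rw [← Finsupp.mapDomain.addMonoidHom_apply, map_sum]
  exact Finset.sum_congr rfl fun i _ => Finsupp.mapDomain_single

theorem sum_sub_mem_degZero {n : ℕ} (P R : Fin n → Place K F) :
    (∑ i, Finsupp.single (P i) (1 : ℤ) - ∑ i, Finsupp.single (R i) 1 : Divisor K F) ∈
      Divisor.degZero (K := K) (F := F) := by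
  rw [Divisor.mem_degZero, map_sub, degree_sum_single H94.deg_eq_one,
    degree_sum_single H94.deg_eq_one, sub_self]

/-- the class `∑ P i - ∑ R i` -/
def classOf {n : ℕ} (P R : Fin n → Place K F) : Pic0 K F :=
  Pic0.mk ⟨_, sum_sub_mem_degZero P R⟩

theorem Pic0_mk_eq_mk_iff {D D' : Divisor.degZero (K := K) (F := F)} :
    Pic0.mk D = Pic0.mk D' ↔
      (D' : Divisor K F) - (D : Divisor K F) ∈ Divisor.principal (K := K) (F := F) := by
  rw [Pic0.mk, Pic0.mk, QuotientAddGroup.eq, AddSubgroup.mem_addSubgroupOf]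
  simp only [AddSubgroup.coe_add, AddSubgroup.coe_neg]
  rw [neg_add_eq_sub]

theorem smul_classOf (δ : SemilinearAut K F) {n : ℕ} (P R : Fin n → Place K F) :
    δ • classOf P R = classOf (fun i => δ • P i) (fun i => δ • R i) := by
  rw [classOf, SemilinearAut.pic0_smul_mk, classOf]
  congr 1
  apply Subtype.ext
  rw [SemilinearAut.coe_degZeroSMulHom]
  show δ • ((∑ i, Finsupp.single (P i) (1 : ℤ)) - ∑ i, Finsupp.single (R i) (1 : ℤ)) =
    (∑ i, Finsupp.single (δ • P i) (1 : ℤ)) - ∑ i, Finsupp.single (δ • R i) (1 : ℤ)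
  rw [smul_sub, Finset.smul_sum, Finset.smul_sum]
  simp only [SemilinearAut.smul_single]

/-- `R` is a good system: pairwise different reductions, nonspecial reduction -/
structure IsNonspecial (R : Fin S.g → Place K F) : Prop where
  inj : Function.Injective fun i => S.r (R i)
  const : ∀ f ∈ riemannRochSpace (∑ i, Finsupp.single (S.r (R i)) (1 : ℤ)),
    ∃ c : k, f = algebraMap k E c

variable {S}

theorem IsNonspecial.ell_red {R : Fin S.g → Place K F} (hR : IsNonspecial S R) :
    H3RR.ell (∑ i, Finsupp.single (S.r (R i)) (1 : ℤ)) = 1 := by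
  apply le_antisymm
  · have hle : riemannRochSpace (∑ i, Finsupp.single (S.r (R i)) (1 : ℤ)) ≤
        Submodule.span k {(1 : E)} := by
      intro f hf
      obtain ⟨c, rfl⟩ := hR.const f hf
      rw [Algebra.algebraMap_eq_smul_one]
      exact Submodule.smul_mem _ _ (Submodule.mem_span_singleton_self _)
    have h1 := Submodule.finrank_mono hle
    rw [finrank_span_singleton one_ne_zero] at h1
    exact h1
  · rw [Nat.one_le_iff_ne_zero]
    intro h0
    have h1 : (1 : E) ∈ riemannRochSpace (∑ i, Finsupp.single (S.r (R i)) (1 : ℤ)) :=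
      H40.one_mem_L.mpr (sum_single_nonneg _)
    have h2 : riemannRochSpace (∑ i, Finsupp.single (S.r (R i)) (1 : ℤ)) = ⊥ :=
      Submodule.finrank_eq_zero.mp h0
    rw [h2, Submodule.mem_bot] at h1
    exact one_ne_zero h1

theorem IsNonspecial.ell_eq_one {R : Fin S.g → Place K F} (hR : IsNonspecial S R)
    {P : Fin S.g → Place K F} (hP : ∀ i, S.r (P i) = S.r (R i)) :
    H3RR.ell (∑ i, Finsupp.single (P i) (1 : ℤ)) = 1 := by
  apply le_antisymm
  · have h1 := ell_le_ell S (∑ i, Finsupp.single (P i) (1 : ℤ))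
    rw [mapDomain_sum_single] at h1
    simp only [hP] at h1
    rwa [hR.ell_red] at h1
  · rw [Nat.one_le_iff_ne_zero]
    intro h0
    have h1 : (1 : F) ∈ riemannRochSpace (∑ i, Finsupp.single (P i) (1 : ℤ)) :=
      H40.one_mem_L.mpr (sum_single_nonneg _)
    have h2 : riemannRochSpace (∑ i, Finsupp.single (P i) (1 : ℤ)) = ⊥ :=
      Submodule.finrank_eq_zero.mp h0
    rw [h2, Submodule.mem_bot] at h1
    exact one_ne_zero h1

theorem IsNonspecial.eq_of_sum_eq {R : Fin S.g → Place K F} (hR : IsNonspecial S R)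
    {P P' : Fin S.g → Place K F} (hP : ∀ i, S.r (P i) = S.r (R i))
    (hP' : ∀ i, S.r (P' i) = S.r (R i))
    (h : (∑ i, Finsupp.single (P i) (1 : ℤ)) = ∑ i, Finsupp.single (P' i) (1 : ℤ)) : P = P' := by
  funext i
  have h1 := sum_single_apply_pos P i
  rw [h] at h1
  obtain ⟨j, hj⟩ := exists_of_sum_single_apply_pos P' _ h1
  have h2 : S.r (R j) = S.r (R i) := by rw [← hP' j, hj, hP i]
  have h3 : j = i := hR.inj h2
  rw [← hj, h3]

/-- (C3), uniqueness -/
theorem IsNonspecial.classOf_injective {R : Fin S.g → Place K F} (hR : IsNonspecial S R)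
    {P P' : Fin S.g → Place K F} (hP : ∀ i, S.r (P i) = S.r (R i))
    (hP' : ∀ i, S.r (P' i) = S.r (R i)) (h : classOf P R = classOf P' R) : P = P' := by
  apply hR.eq_of_sum_eq hP hP'
  rw [classOf, classOf, Pic0_mk_eq_mk_iff] at h
  obtain ⟨f, hf0, hf⟩ := h
  have h1 : ∀ v : Place K F, (∑ i, Finsupp.single (P' i) (1 : ℤ)) v =
      (∑ i, Finsupp.single (P i) (1 : ℤ)) v + v.ord f := by
    intro v
    have := hf v
    simp only [Finsupp.sub_apply] at this
    omega
  have h2 : f ∈ riemannRochSpace (∑ i, Finsupp.single (P i) (1 : ℤ)) := by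
    rw [H40.mem_L hf0]
    intro v
    have h3 := Finsupp.le_def.mp (sum_single_nonneg P') v
    have h4 := h1 v
    rw [Finsupp.coe_zero, Pi.zero_apply] at h3
    omega
  obtain ⟨c, rfl⟩ := H3RR.exists_const_of_mem_L (sum_single_nonneg P) (hR.ell_eq_one hP) h2
  ext v
  rw [h1 v, H40.ord_algebraMap, add_zero]

/-- (C3), existence -/
theorem IsNonspecial.exists_repr {R : Fin S.g → Place K F} (hR : IsNonspecial S R)
    {x : Pic0 K F} (hx : redPic0 S x = 0) :
    ∃ P : Fin S.g → Place K F, (∀ i, S.r (P i) = S.r (R i)) ∧ x = classOf P R := by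
  classical
  obtain ⟨D, rfl⟩ := Pic0.mk_surjective x
  have hD0 : Divisor.degree (D : Divisor K F) = 0 := D.2
  rw [redPic0_mk, ← Pic0.mk_zero, eq_comm, Pic0_mk_eq_mk_iff] at hx
  rw [coe_redDegZero, AddSubgroup.coe_zero, sub_zero] at hx
  obtain ⟨h, hh0, hh⟩ := hx
  set R' : Divisor K F := ∑ i, Finsupp.single (R i) (1 : ℤ) with hR'
  have hdR : Divisor.degree R' = S.g := degree_sum_single H94.deg_eq_one R
  have hg : (genusFF K F : ℤ) = S.g := genusFF_eq_of_riemannFor S.riemF
  obtain ⟨f, hf0, hf⟩ := H3RR.exists_effective (D := (D : Divisor K F) + R') (by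
    rw [hg, map_add, hD0, hdR, zero_add])
  obtain ⟨P, hP⟩ := exists_eq_sum_single H94.deg_eq_one S.g _ hf (by
    rw [map_add, map_add, hD0, hdR, H3RR.degree_divOf hf0]; simp)
  -- the reduction of `∑ P i`
  obtain ⟨a, ha, y, hy, hρy, hydiv⟩ := exists_scale_div S hf0
  have hred : ∀ w, (∑ i, Finsupp.single (S.r (P i)) (1 : ℤ)) w =
      w.ord (h * S.ρ y) + (∑ i, Finsupp.single (S.r (R i)) (1 : ℤ)) w := by
    intro w
    rw [← mapDomain_sum_single S P, ← hP, Finsupp.mapDomain_add, Finsupp.mapDomain_add, hR',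
      mapDomain_sum_single S R, Finsupp.add_apply, Finsupp.add_apply, hh w,
      hydiv _ (fun v => H3RR.divOf_apply hf0 v) w, w.ord_mul hh0 hρy]
    ring
  have hu0 : h * S.ρ y ≠ 0 := mul_ne_zero hh0 hρy
  have hmem : h * S.ρ y ∈ riemannRochSpace (∑ i, Finsupp.single (S.r (R i)) (1 : ℤ)) := by
    rw [H40.mem_L hu0]
    intro w
    have h3 := Finsupp.le_def.mp (sum_single_nonneg fun i => S.r (P i)) w
    have h4 := hred w
    rw [Finsupp.coe_zero, Pi.zero_apply] at h3
    omega
  obtain ⟨b, hb⟩ := hR.const _ hmem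
  have hred' : (∑ i, Finsupp.single (S.r (P i)) (1 : ℤ)) =
      ∑ i, Finsupp.single (S.r (R i)) (1 : ℤ) := by
    ext w
    rw [hred w, hb, H40.ord_algebraMap, zero_add]
  -- reorder
  have hex : ∀ i, ∃ j, S.r (P j) = S.r (R i) := by
    intro i
    have h1 := sum_single_apply_pos (fun i => S.r (R i)) i
    rw [← hred'] at h1
    exact exists_of_sum_single_apply_pos _ _ h1
  choose σ hσ using hex
  have hσinj : Function.Injective σ := by
    intro i j hij
    apply hR.inj
    show S.r (R i) = S.r (R j)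
    rw [← hσ i, ← hσ j, hij]
  let e : Fin S.g ≃ Fin S.g := Equiv.ofBijective σ (Finite.injective_iff_bijective.mp hσinj)
  refine ⟨fun i => P (σ i), hσ, ?_⟩
  rw [classOf, Pic0_mk_eq_mk_iff]
  refine ⟨f, hf0, fun v => ?_⟩
  have h5 : (∑ i, Finsupp.single (P (σ i)) (1 : ℤ)) = ∑ i, Finsupp.single (P i) (1 : ℤ) :=
    e.sum_comp fun i => Finsupp.single (P i) (1 : ℤ)
  have h6 := DFunLike.congr_fun hP v
  rw [Finsupp.add_apply, Finsupp.add_apply, H3RR.divOf_apply hf0] at h6
  show ((∑ i, Finsupp.single (P (σ i)) (1 : ℤ)) - ∑ i, Finsupp.single (R i) (1 : ℤ) -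
    (D : Divisor K F)) v = v.ord f
  rw [h5, Finsupp.sub_apply, Finsupp.sub_apply, ← h6, ← hR']
  ring

/-- the classes `∑ P i - ∑ R i` with `P i ≡ R i` are in the kernel of reduction -/
theorem redPic0_classOf {R P : Fin S.g → Place K F} (hP : ∀ i, S.r (P i) = S.r (R i)) :
    redPic0 S (classOf P R) = 0 := by
  rw [classOf, redPic0_mk]
  have : redDegZero S ⟨_, sum_sub_mem_degZero P R⟩ = 0 := by
    apply Subtype.ext
    rw [coe_redDegZero]
    show Finsupp.mapDomain S.r (_ - _) = 0
    rw [← Finsupp.mapDomain.addMonoidHom_apply, map_sub, Finsupp.mapDomain.addMonoidHom_apply,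
      Finsupp.mapDomain.addMonoidHom_apply, mapDomain_sum_single, mapDomain_sum_single]
    simp only [hP, sub_self]
  rw [this, Pic0.mk_zero]

/-- (C3) coordinates on the kernel of reduction -/
theorem IsNonspecial.exists_unique_repr {R : Fin S.g → Place K F} (hR : IsNonspecial S R)
    (x : Pic0 K F) (hx : redPic0 S x = 0) :
    ∃! P : Fin S.g → Place K F, (∀ i, S.r (P i) = S.r (R i)) ∧ x = classOf P R := by
  obtain ⟨P, hP, hx'⟩ := hR.exists_repr hx
  refine ⟨P, ⟨hP, hx'⟩, ?_⟩
  rintro P' ⟨hP', hx''⟩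
  exact hR.classOf_injective hP' hP (hx''.symm.trans hx')

variable (S) in
/-- (C3) in the unbundled form -/
theorem exists_unique_repr (R : Fin S.g → Place K F)
    (hinj : Function.Injective fun i => S.r (R i))
    (hns : ∀ f ∈ riemannRochSpace (∑ i, Finsupp.single (S.r (R i)) (1 : ℤ)),
      ∃ c : k, f = algebraMap k E c)
    (x : Pic0 K F) (hx : redPic0 S x = 0) :
    ∃! P : Fin S.g → Place K F, (∀ i, S.r (P i) = S.r (R i)) ∧
      ∃ h, x = Pic0.mk ⟨∑ i, Finsupp.single (P i) 1 - ∑ i, Finsupp.single (R i) 1, h⟩ := by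
  have hR : IsNonspecial S R := ⟨hinj, hns⟩
  obtain ⟨P, ⟨hP, hx'⟩, hu⟩ := hR.exists_unique_repr x hx
  exact ⟨P, ⟨hP, _, hx'⟩, fun P' ⟨hP', _, hx''⟩ => hu P' ⟨hP', hx''⟩⟩

end C3

section C4

theorem smul_mem_L_iff (δ : SemilinearAut K F) (D : Divisor K F) (f : F) :
    δ • f ∈ riemannRochSpace (δ • D) ↔ f ∈ riemannRochSpace D := by
  rw [mem_riemannRochSpace_iff, mem_riemannRochSpace_iff]
  constructor
  · intro h v
    have := h (δ • v)
    rw [SemilinearAut.divisor_smul_apply_smul, SemilinearAut.ord_smul] at this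
    rcases this with h0 | h0
    · exact Or.inl ((smul_eq_zero_iff_eq δ).mp h0)
    · exact Or.inr h0
  · intro h v
    have := h (δ⁻¹ • v)
    have e1 : v.ord (δ • f) = (δ⁻¹ • v).ord f := by
      have := SemilinearAut.ord_smul δ (δ⁻¹ • v) f
      rwa [smul_inv_smul] at this
    rw [SemilinearAut.divisor_smul_apply, e1]
    rcases this with h0 | h0
    · exact Or.inl (by rw [h0, smul_zero])
    · exact Or.inr h0

theorem mem_A_iff (a : K) : a ∈ S.A ↔ algebraMap K F a ∈ S.B := by
  constructor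
  · intro h
    exact S.mem_B ⟨a, h⟩
  · intro h
    have h1 : LinearIndependent k fun i : Fin 1 => S.ρ ((fun _ => 1 : Fin 1 → S.B) i) := by
      rw [Fintype.linearIndependent_iff]
      intro g hg i
      simp only [map_one, Fin.sum_univ_one] at hg
      rw [Subsingleton.elim i 0]
      rw [← Algebra.algebraMap_eq_smul_one] at hg
      exact (map_eq_zero_iff (algebraMap k E) (algebraMap k E).injective).mp hg
    have h2 := S.coeff_mem (c := fun _ => a) h1 (by
      simp only [Fin.sum_univ_one, Subring.coe_one]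
      rwa [← Algebra.algebraMap_eq_smul_one]) 0
    exact h2

theorem coeff_mem_A {x : S.B} (hx : S.ρ x ≠ 0) {a : K} (ha : a • (x : F) ∈ S.B) : a ∈ S.A := by
  have h1 : LinearIndependent k fun i : Fin 1 => S.ρ ((fun _ => x : Fin 1 → S.B) i) := by
    rw [Fintype.linearIndependent_iff]
    intro g hg i
    simp only [Fin.sum_univ_one] at hg
    rw [Subsingleton.elim i 0]
    exact (smul_eq_zero.mp hg).resolve_right hx
  exact S.coeff_mem (c := fun _ => a) h1 (by simpa using ha) 0

theorem π_eq_zero_iff' (a : S.A) : S.π a = 0 ↔ (a : K) = 0 ∨ (a : K)⁻¹ ∉ S.A := by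
  rw [S.π_eq_zero]
  constructor
  · intro h
    by_contra hcon
    push Not at hcon
    apply h
    exact ⟨⟨a, ⟨_, hcon.2⟩, Subtype.ext (mul_inv_cancel₀ hcon.1),
      Subtype.ext (inv_mul_cancel₀ hcon.1)⟩, rfl⟩
  · rintro h ⟨u, hu⟩
    rcases h with h | h
    · have h1 : (u : S.A) = 0 := by rw [hu]; exact Subtype.ext h
      exact u.ne_zero h1
    · apply h
      have h2 : ((u⁻¹ : S.Aˣ) : S.A) * (u : S.A) = 1 := u.inv_mul
      have h3 := congrArg Subtype.val h2
      rw [hu] at h3
      have h4 : (((u⁻¹ : S.Aˣ) : S.A) : K) = (a : K)⁻¹ := eq_inv_of_mul_eq_one_left h3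
      rw [← h4]
      exact SetLike.coe_mem _

/-- `δ` is compatible with the reduction -/
structure Compat (S : GoodRed K F k E) (δ : SemilinearAut K F) : Prop where
  mem_iff : ∀ f : F, δ • f ∈ S.B ↔ f ∈ S.B

variable {S}

theorem Compat.inv {δ : SemilinearAut K F} (hδ : Compat S δ) : Compat S δ⁻¹ :=
  ⟨fun f => by rw [← hδ.mem_iff (δ⁻¹ • f), smul_inv_smul]⟩

theorem Compat.mul {δ δ' : SemilinearAut K F} (hδ : Compat S δ) (hδ' : Compat S δ') :
    Compat S (δ * δ') :=
  ⟨fun f => by rw [mul_smul, hδ.mem_iff, hδ'.mem_iff]⟩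

theorem Compat.one : Compat S (1 : SemilinearAut K F) := ⟨fun f => by rw [one_smul]⟩

theorem Compat.mem_A_iff {δ : SemilinearAut K F} (hδ : Compat S δ) (a : K) :
    SemilinearAut.baseAut δ a ∈ S.A ↔ a ∈ S.A := by
  rw [H23.mem_A_iff, H23.mem_A_iff, ← SemilinearAut.smul_algebraMap, hδ.mem_iff]

/-- the automorphism of `S.B` given by a compatible `δ` -/
def Compat.act {δ : SemilinearAut K F} (hδ : Compat S δ) (b : S.B) : S.B :=
  ⟨δ • (b : F), (hδ.mem_iff _).mpr b.2⟩

@[simp] theorem Compat.coe_act {δ : SemilinearAut K F} (hδ : Compat S δ) (b : S.B) :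
    (hδ.act b : F) = δ • (b : F) := rfl

theorem smul_smul_semilinear (δ : SemilinearAut K F) (a : K) (f : F) :
    δ • (a • f) = SemilinearAut.baseAut δ a • (δ • f) := by
  rw [Algebra.smul_def, Algebra.smul_def, smul_mul', SemilinearAut.smul_algebraMap]

theorem Compat.ρ_act_eq_zero {δ : SemilinearAut K F} (hδ : Compat S δ) {b : S.B}
    (hb : S.ρ b = 0) : S.ρ (hδ.act b) = 0 := by
  by_cases hb0 : (b : F) = 0
  · have : hδ.act b = 0 := Subtype.ext (by rw [hδ.coe_act, hb0, smul_zero]; rfl)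
    rw [this, map_zero]
  obtain ⟨c, hc, x, hx, hρx⟩ := S.exists_scale hb0
  have hbx : (b : F) = c⁻¹ • (x : F) := by rw [hx, smul_smul, inv_mul_cancel₀ hc, one_smul]
  have hcA : c⁻¹ ∈ S.A := coeff_mem_A S hρx (by rw [← hbx]; exact b.2)
  have hb' : b = S.const ⟨c⁻¹, hcA⟩ * x := by
    apply Subtype.ext
    rw [Subring.coe_mul, ReductionData.coe_const, hbx, Algebra.smul_def]
  have hπ : S.π ⟨c⁻¹, hcA⟩ = 0 := by
    rw [hb', map_mul, ReductionData.ρ_const] at hb
    have := (mul_eq_zero.mp hb).resolve_right hρx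
    exact (map_eq_zero_iff (algebraMap k E) (algebraMap k E).injective).mp this
  rw [π_eq_zero_iff'] at hπ
  have hcn : c ∉ S.A := by
    rcases hπ with h | h
    · exact absurd h (inv_ne_zero hc)
    · simpa using h
  have hcA' : SemilinearAut.baseAut δ c⁻¹ ∈ S.A := (hδ.mem_A_iff _).mpr hcA
  have hπ' : S.π ⟨_, hcA'⟩ = 0 := by
    rw [π_eq_zero_iff']
    right
    show (SemilinearAut.baseAut δ c⁻¹)⁻¹ ∉ S.A
    rw [map_inv₀, inv_inv, hδ.mem_A_iff]
    exact hcn
  have he : hδ.act b = S.const ⟨_, hcA'⟩ * hδ.act x := by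
    apply Subtype.ext
    rw [Subring.coe_mul, ReductionData.coe_const, hδ.coe_act, hδ.coe_act, hbx,
      smul_smul_semilinear, Algebra.smul_def]
  rw [he, map_mul, ReductionData.ρ_const, hπ', map_zero, zero_mul]

theorem Compat.ρ_act_congr {δ : SemilinearAut K F} (hδ : Compat S δ) {b b' : S.B}
    (h : S.ρ b = S.ρ b') : S.ρ (hδ.act b) = S.ρ (hδ.act b') := by
  have h1 : S.ρ (b - b') = 0 := by rw [map_sub, h, sub_self]
  have h2 := hδ.ρ_act_eq_zero h1
  have h3 : hδ.act (b - b') = hδ.act b - hδ.act b' := by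
    apply Subtype.ext
    rw [hδ.coe_act, AddSubgroupClass.coe_sub, AddSubgroupClass.coe_sub, hδ.coe_act, hδ.coe_act,
      smul_sub]
  rw [h3, map_sub] at h2
  exact sub_eq_zero.mp h2

variable [IsAlgClosed K] [IsAlgClosed k] [H94.FunField K F] [H94.FunField k E]

/-- the reduction of a place is determined by the reduction of the Riemann-Roch spaces -/
theorem r_eq_of_red {P P' : Place K F} {n : ℤ} (hn : S.c < n) (hn0 : 0 < n)
    (h : S.red (riemannRochSpace (Finsupp.single P n)) =
      S.red (riemannRochSpace (Finsupp.single P' n))) : S.r P = S.r P' := by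
  have hd : ∀ P : Place K F, Divisor.degree (Finsupp.single P n) = n := fun P => by
    rw [Divisor.degree_single, H94.deg_eq_one]; simp
  have hd' : ∀ P : Place k E, Divisor.degree (Finsupp.single P n) = n := fun P => by
    rw [Divisor.degree_single, H94.deg_eq_one]; simp
  have h1 := (S.isRed (Finsupp.single P n) (by rw [hd]; exact hn)).2
  have h2 := (S.isRed (Finsupp.single P' n) (by rw [hd]; exact hn)).2
  rw [Finsupp.mapDomain_single] at h1 h2
  have h3 := H40.eq_of_L_eq S.riemE H94.deg_eq_one (D := Finsupp.single (S.r P) n)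
    (E := Finsupp.single (S.r P') n) (by rw [hd']; exact hn) (by rw [hd']; exact hn)
    (by rw [← h1, ← h2, h])
  exact (Finsupp.single_left_inj (by omega)).mp h3

theorem red_congr_smul {δ : SemilinearAut K F} (hδ : Compat S δ) {D D' : Divisor K F}
    (h : S.red (riemannRochSpace D) ≤ S.red (riemannRochSpace D')) :
    S.red (riemannRochSpace (δ • D)) ≤ S.red (riemannRochSpace (δ • D')) := by
  rintro _ ⟨x, hx, rfl⟩
  have hx1 : (hδ.inv.act x : F) ∈ riemannRochSpace D := by
    rw [← smul_mem_L_iff δ, Compat.coe_act, smul_inv_smul]; exact hx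
  obtain ⟨y, hy, hyx⟩ := h ⟨_, hx1, rfl⟩
  refine ⟨hδ.act y, ?_, ?_⟩
  · rw [hδ.coe_act, smul_mem_L_iff]; exact hy
  · rw [hδ.ρ_act_congr hyx]
    congr 1
    apply Subtype.ext
    rw [hδ.coe_act, Compat.coe_act, smul_inv_smul]

/-- (C4) `S.r (δ • P)` only depends on `S.r P` -/
theorem Compat.r_smul_congr {δ : SemilinearAut K F} (hδ : Compat S δ) {P P' : Place K F}
    (h : S.r P = S.r P') : S.r (δ • P) = S.r (δ • P') := by
  set n : ℤ := max S.c 0 + 1 with hn
  have hn1 : S.c < n := by have := le_max_left S.c 0; omega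
  have hn0 : 0 < n := by have := le_max_right S.c 0; omega
  have hd : ∀ P : Place K F, Divisor.degree (Finsupp.single P n) = n := fun P => by
    rw [Divisor.degree_single, H94.deg_eq_one]; simp
  have h1 := (S.isRed (Finsupp.single P n) (by rw [hd]; exact hn1)).2
  have h2 := (S.isRed (Finsupp.single P' n) (by rw [hd]; exact hn1)).2
  rw [Finsupp.mapDomain_single, h] at h1
  rw [Finsupp.mapDomain_single] at h2
  have h3 := h1.trans h2.symm
  apply r_eq_of_red hn1 hn0
  rw [← SemilinearAut.smul_single, ← SemilinearAut.smul_single]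
  exact le_antisymm (red_congr_smul hδ h3.le) (red_congr_smul hδ h3.ge)

theorem Compat.exists_place_map {δ : SemilinearAut K F} (hδ : Compat S δ) :
    ∃ τ : Place k E → Place k E, ∀ P, S.r (δ • P) = τ (S.r P) := by
  classical
  refine ⟨fun Q => if h : ∃ P, S.r P = Q then S.r (δ • h.choose) else Q, fun P => ?_⟩
  have h : ∃ P', S.r P' = S.r P := ⟨P, rfl⟩
  show _ = dite _ _ _
  rw [dif_pos h]
  exact (hδ.r_smul_congr h.choose_spec).symm

/-- (C4) the kernel of reduction is stable under compatible automorphisms -/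
theorem Compat.redPic0_smul_eq_zero {δ : SemilinearAut K F} (hδ : Compat S δ) {x : Pic0 K F}
    (hx : redPic0 S x = 0) : redPic0 S (δ • x) = 0 := by
  obtain ⟨τ, hτ⟩ := hδ.exists_place_map
  obtain ⟨D, rfl⟩ := Pic0.mk_surjective x
  rw [redPic0_mk, ← Pic0.mk_zero, eq_comm, Pic0_mk_eq_mk_iff] at hx
  rw [coe_redDegZero, AddSubgroup.coe_zero, sub_zero] at hx
  obtain ⟨h, hh0, hh⟩ := hx
  obtain ⟨x, y, hy, hxy⟩ := S.frac h
  have hx : S.ρ x ≠ 0 := by rw [← hxy]; exact mul_ne_zero hh0 hy
  have hx0 := S.ne_zero_of_ρ_ne_zero hx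
  have hy0 := S.ne_zero_of_ρ_ne_zero hy
  obtain ⟨X, hX, -⟩ := S.pdF.exists_divisor (x : F) hx0
  obtain ⟨Y, hY, -⟩ := S.pdF.exists_divisor (y : F) hy0
  have h1 : Finsupp.mapDomain S.r (D : Divisor K F) = Finsupp.mapDomain S.r (X - Y) := by
    ext w
    rw [hh w]
    rw [← Finsupp.mapDomain.addMonoidHom_apply, map_sub, Finsupp.mapDomain.addMonoidHom_apply,
      Finsupp.mapDomain.addMonoidHom_apply, Finsupp.sub_apply, S.div_red x hx X hX w,
      S.div_red y hy Y hY w, ← hxy, w.ord_mul hh0 hy]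
    ring
  have h2 : ∀ G : Divisor K F, Finsupp.mapDomain S.r (δ • G) =
      Finsupp.mapDomain τ (Finsupp.mapDomain S.r G) := by
    intro G
    rw [SemilinearAut.divisor_smul_def, ← Finsupp.mapDomain_comp, ← Finsupp.mapDomain_comp]
    congr 1
    funext P
    exact hτ P
  rw [SemilinearAut.pic0_smul_mk, redPic0_mk, ← Pic0.mk_zero, eq_comm, Pic0_mk_eq_mk_iff,
    coe_redDegZero, AddSubgroup.coe_zero, sub_zero, SemilinearAut.coe_degZeroSMulHom, h2, h1, ← h2]
  apply mapDomain_mem_principal S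
  apply SemilinearAut.smul_mem_principal
  refine ⟨(x : F) / y, div_ne_zero hx0 hy0, fun v => ?_⟩
  rw [Finsupp.sub_apply, hX, hY, div_eq_mul_inv, v.ord_mul hx0 (inv_ne_zero hy0), v.ord_inv]
  ring

theorem Compat.redPic0_smul_congr {δ : SemilinearAut K F} (hδ : Compat S δ) {x y : Pic0 K F}
    (h : redPic0 S x = redPic0 S y) : redPic0 S (δ • x) = redPic0 S (δ • y) := by
  have h1 : redPic0 S (x - y) = 0 := by rw [map_sub, h, sub_self]
  have h2 := hδ.redPic0_smul_eq_zero h1
  rw [smul_sub, map_sub] at h2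
  exact sub_eq_zero.mp h2

end C4

section Inertia

variable {S} {Γ : Subgroup (SemilinearAut K F)} (I : InertiaAction S Γ)
include I

theorem InertiaAction.compat {γ : SemilinearAut K F} (hγ : γ ∈ Γ) : Compat S γ :=
  ⟨fun f => ⟨fun h => by
    have := I.smul_mem γ⁻¹ (Γ.inv_mem hγ) ⟨_, h⟩
    simpa only [inv_smul_smul] using this, fun h => I.smul_mem γ hγ ⟨f, h⟩⟩⟩

theorem InertiaAction.ρ_act {γ : SemilinearAut K F} (hγ : γ ∈ Γ) (b : S.B) :
    S.ρ ((InertiaAction.compat I hγ).act b) = S.ρ b := I.ρ_smul γ hγ b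

variable [IsAlgClosed K] [IsAlgClosed k] [H94.FunField K F] [H94.FunField k E]

theorem InertiaAction.red_le {γ : SemilinearAut K F} (hγ : γ ∈ Γ) (D : Divisor K F) :
    S.red (riemannRochSpace D) ≤ S.red (riemannRochSpace (γ • D)) := by
  rintro _ ⟨x, hx, rfl⟩
  refine ⟨(InertiaAction.compat I hγ).act x, ?_, InertiaAction.ρ_act I hγ x⟩
  rw [Compat.coe_act, smul_mem_L_iff]
  exact hx

/-- (C4) inertia does not change the reduction of places -/
theorem r_smul {γ : SemilinearAut K F} (hγ : γ ∈ Γ) (P : Place K F) : S.r (γ • P) = S.r P := by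
  set n : ℤ := max S.c 0 + 1 with hn
  have hn1 : S.c < n := by have := le_max_left S.c 0; omega
  have hn0 : 0 < n := by have := le_max_right S.c 0; omega
  apply r_eq_of_red hn1 hn0
  rw [← SemilinearAut.smul_single]
  apply le_antisymm
  · have := InertiaAction.red_le I (Γ.inv_mem hγ) (γ • Finsupp.single P n)
    rwa [inv_smul_smul] at this
  · exact InertiaAction.red_le I hγ _

theorem mapDomain_r_smul {γ : SemilinearAut K F} (hγ : γ ∈ Γ) (D : Divisor K F) :
    Finsupp.mapDomain S.r (γ • D) = Finsupp.mapDomain S.r D := by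
  rw [SemilinearAut.divisor_smul_def, ← Finsupp.mapDomain_comp]
  congr 1
  funext P
  exact r_smul I hγ P

/-- (C4) inertia does not change the reduction of classes -/
theorem redPic0_smul {γ : SemilinearAut K F} (hγ : γ ∈ Γ) (x : Pic0 K F) :
    redPic0 S (γ • x) = redPic0 S x := by
  obtain ⟨D, rfl⟩ := Pic0.mk_surjective x
  rw [SemilinearAut.pic0_smul_mk, redPic0_mk, redPic0_mk]
  congr 1
  apply Subtype.ext
  rw [coe_redDegZero, coe_redDegZero, SemilinearAut.coe_degZeroSMulHom]
  exact mapDomain_r_smul I hγ _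

/-- invariant lifts of elements of the reduction of a Riemann-Roch space at the invariant
place -/
theorem exists_lift {n : ℤ} (hn : S.c < n) {zb : E}
    (hzb : zb ∈ riemannRochSpace (Finsupp.single (S.r I.Pinf) n)) :
    ∃ z : S.B, (z : F) ∈ riemannRochSpace (Finsupp.single I.Pinf n) ∧
      (∀ γ ∈ Γ, γ • (z : F) = z) ∧ S.ρ z = zb := by
  classical
  have hd : Divisor.degree (Finsupp.single I.Pinf n) = n := by
    rw [Divisor.degree_single, H94.deg_eq_one]; simp
  have h1 := (S.isRed (Finsupp.single I.Pinf n) (by rw [hd]; exact hn)).2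
  rw [Finsupp.mapDomain_single] at h1
  obtain ⟨m, b, hbΓ, hbV, hbli⟩ := I.exists_basis_fixed (riemannRochSpace (Finsupp.single I.Pinf n))
    (S.riemF _ (by rw [hd]; exact hn.le)).1 (fun γ hγ f hf => by
      rw [← smul_mem_L_iff γ, SemilinearAut.smul_single, I.smul_Pinf γ hγ] at hf
      exact hf)
  rw [← h1, S.red_eq_span hbli hbV] at hzb
  obtain ⟨c, hc⟩ := (Submodule.mem_span_range_iff_exists_fun k).mp hzb
  choose a haΓ haπ using fun i => I.exists_const (c i)
  refine ⟨∑ i, S.const (a i) * b i, ?_, ?_, ?_⟩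
  · rw [show ((∑ i, S.const (a i) * b i : S.B) : F) =
      ∑ i, ((S.const (a i) * b i : S.B) : F) from map_sum S.B.subtype _ _]
    refine Submodule.sum_mem _ fun i _ => ?_
    rw [Subring.coe_mul, ReductionData.coe_const, ← Algebra.smul_def]
    apply Submodule.smul_mem
    rw [← hbV]
    exact Submodule.subset_span ⟨i, rfl⟩
  · intro γ hγ
    rw [show ((∑ i, S.const (a i) * b i : S.B) : F) =
      ∑ i, ((S.const (a i) * b i : S.B) : F) from map_sum S.B.subtype _ _, Finset.smul_sum]
    refine Finset.sum_congr rfl fun i _ => ?_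
    rw [Subring.coe_mul, ReductionData.coe_const, smul_mul', hbΓ i γ hγ,
      SemilinearAut.smul_algebraMap, haΓ i γ hγ]
  · rw [map_sum, ← hc]
    refine Finset.sum_congr rfl fun i _ => ?_
    rw [map_mul, ReductionData.ρ_const, haπ, Algebra.smul_def]

omit [IsAlgClosed K] [IsAlgClosed k] [H94.FunField K F] [H94.FunField k E] I in
/-- a nonnegative fibre sum equal to one comes from one place -/
theorem exists_of_mapDomain_eq_one {D : Divisor K F} {Q : Place k E}
    (h0 : ∀ P, S.r P = Q → 0 ≤ D P) (h1 : Finsupp.mapDomain S.r D Q = 1) :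
    ∃ P, S.r P = Q ∧ D P = 1 ∧ ∀ P', S.r P' = Q → D P' ≠ 0 → P' = P := by
  classical
  have h2 : Finsupp.mapDomain S.r D Q = ∑ P ∈ D.support with S.r P = Q, D P := by
    rw [Finsupp.mapDomain, Finsupp.sum_apply, Finsupp.sum, Finset.sum_filter]
    exact Finset.sum_congr rfl fun P _ => by rw [Finsupp.single_apply]
  rw [h2] at h1
  have hne : (D.support.filter fun P => S.r P = Q).Nonempty := by
    rw [Finset.nonempty_iff_ne_empty]
    intro he
    rw [he, Finset.sum_empty] at h1
    exact zero_ne_one h1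
  obtain ⟨P, hP⟩ := hne
  have hP' := hP
  rw [Finset.mem_filter, Finsupp.mem_support_iff] at hP
  have hle : ∀ P' ∈ D.support.filter fun P => S.r P = Q, 1 ≤ D P' := by
    intro P' hP'
    rw [Finset.mem_filter, Finsupp.mem_support_iff] at hP'
    have := h0 P' hP'.2
    omega
  have hcard : ((D.support.filter fun P => S.r P = Q).card : ℤ) ≤ 1 := by
    rw [← h1]
    have := Finset.card_nsmul_le_sum (D.support.filter fun P => S.r P = Q) D 1 hle
    simpa using this
  have hcard' : (D.support.filter fun P => S.r P = Q).card ≤ 1 := by exact_mod_cast hcard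
  have hone := Finset.card_le_one.mp hcard'
  refine ⟨P, hP.2, ?_, fun P' h3 h4 => ?_⟩
  · have h5 : D.support.filter (fun P => S.r P = Q) = {P} := by
      ext P'
      rw [Finset.mem_singleton]
      exact ⟨fun h => hone _ h _ hP', fun h => h ▸ hP'⟩
    rwa [h5, Finset.sum_singleton] at h1
  · exact hone P' (by rw [Finset.mem_filter, Finsupp.mem_support_iff]; exact ⟨h4, h3⟩) P hP'

/-- (C5) invariant lifts of places, with invariant parameters -/
theorem exists_fixed_place {Q : Place k E} (hQ : Q ≠ S.r I.Pinf) :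
    ∃ (P : Place K F) (z : S.B), S.r P = Q ∧ (∀ γ ∈ Γ, γ • P = P) ∧
      (∀ γ ∈ Γ, γ • (z : F) = z) ∧
      (∀ P', S.r P' = Q → 0 ≤ P'.ord (z : F) ∨ (z : F) = 0) ∧
      0 < P.ord (z : F) ∧ Q.ord (S.ρ z) = 1 ∧ P.ord (z : F) = 1 ∧
      (∀ P', S.r P' = Q → P'.ord (z : F) ≠ 0 → P' = P) ∧
      ∃ n : ℤ, (z : F) ∈ riemannRochSpace (Finsupp.single I.Pinf n) := by
  classical
  set n : ℤ := max S.c 0 + 2 with hn
  have hn1 : S.c + 1 < n := by have := le_max_left S.c 0; omega
  -- a function with a simple zero at `Q`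
  have hd : Divisor.degree (Finsupp.single (S.r I.Pinf) n - Finsupp.single Q 1) = n - 1 := by
    rw [map_sub, Divisor.degree_single, Divisor.degree_single, H94.deg_eq_one, H94.deg_eq_one]
    simp
  obtain ⟨zb, hzb, hzb0, hord⟩ := H40.exists_ord_eq S.riemE H94.deg_eq_one
    (D := Finsupp.single (S.r I.Pinf) n - Finsupp.single Q 1) (by rw [hd]; omega) Q
  rw [Finsupp.sub_apply, Finsupp.single_eq_same, Finsupp.single_eq_of_ne hQ] at hord
  have hord1 : Q.ord zb = 1 := by rw [hord]; norm_num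
  obtain ⟨z, hz, hzΓ, hzρ⟩ := exists_lift I (n := n) (by omega) (H40.L_mono (by
    rw [sub_le_self_iff, Finsupp.single_nonneg]; norm_num) hzb)
  have hρ : S.ρ z ≠ 0 := by rw [hzρ]; exact hzb0
  have hz0 := S.ne_zero_of_ρ_ne_zero hρ
  obtain ⟨Z, hZ, -⟩ := S.pdF.exists_divisor (z : F) hz0
  have hZr := S.div_red z hρ Z hZ
  have hnn : ∀ P, S.r P = Q → 0 ≤ P.ord (z : F) := by
    intro P hP
    have h1 := (H40.mem_L hz0).mp hz P
    rwa [Finsupp.single_eq_of_ne (fun h => hQ (by rw [← hP, h])), neg_zero] at h1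
  obtain ⟨P, hP, hP1, hPu⟩ := exists_of_mapDomain_eq_one (S := S) (D := Z) (Q := Q)
    (fun P hP => by rw [hZ P]; exact hnn P hP) (by rw [hZr Q, hzρ, hord1])
  rw [hZ P] at hP1
  have hPu' : ∀ P', S.r P' = Q → P'.ord (z : F) ≠ 0 → P' = P := fun P' h h' =>
    hPu P' h (by rw [hZ P']; exact h')
  refine ⟨P, z, hP, ?_, hzΓ, fun P' h => Or.inl (hnn P' h), by omega, by rw [hzρ, hord1], hP1,
    hPu', n, hz⟩
  intro γ hγ
  apply hPu' _ (by rw [r_smul I hγ, hP])
  have h1 := SemilinearAut.ord_smul γ P (z : F)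
  rw [hzΓ γ hγ] at h1
  rw [h1, hP1]
  exact one_ne_zero

theorem exists_fixed_place' (Q : Place k E) :
    ∃ P : Place K F, S.r P = Q ∧ ∀ γ ∈ Γ, γ • P = P := by
  by_cases hQ : Q = S.r I.Pinf
  · exact ⟨I.Pinf, hQ.symm, I.smul_Pinf⟩
  · obtain ⟨P, z, hP, hPΓ, -⟩ := exists_fixed_place I hQ
    exact ⟨P, hP, hPΓ⟩

theorem exists_fixed_divisor (D : Divisor k E) :
    ∃ G : Divisor K F, Finsupp.mapDomain S.r G = D ∧ (∀ γ ∈ Γ, γ • G = G) ∧
      Divisor.degree G = Divisor.degree D := by
  choose P hP hPΓ using exists_fixed_place' I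
  have h1 : Finsupp.mapDomain S.r (Finsupp.mapDomain P D) = D := by
    rw [← Finsupp.mapDomain_comp]
    have : S.r ∘ P = id := funext hP
    rw [this, Finsupp.mapDomain_id]
  refine ⟨Finsupp.mapDomain P D, h1, ?_, ?_⟩
  · intro γ hγ
    rw [SemilinearAut.divisor_smul_def, ← Finsupp.mapDomain_comp]
    congr 1
    funext Q
    exact hPΓ Q γ hγ
  · rw [← degree_mapDomain S, h1]

/-- (C5) invariant classes surject onto the classes of the reduction -/
theorem exists_fixed_class (y : Pic0 k E) :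
    ∃ x : Pic0 K F, redPic0 S x = y ∧ ∀ γ ∈ Γ, γ • x = x := by
  obtain ⟨D, rfl⟩ := Pic0.mk_surjective y
  obtain ⟨G, hG, hGΓ, hGd⟩ := exists_fixed_divisor I (D : Divisor k E)
  have hG0 : G ∈ Divisor.degZero (K := K) (F := F) := by
    rw [Divisor.mem_degZero, hGd]; exact D.2
  refine ⟨Pic0.mk ⟨G, hG0⟩, ?_, ?_⟩
  · rw [redPic0_mk]
    congr 1
    exact Subtype.ext hG
  · intro γ hγ
    rw [SemilinearAut.pic0_smul_mk]
    congr 1
    exact Subtype.ext (hGΓ γ hγ)

end Inertia

end GoodRed

end Fermat.Agent.H23
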