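/-
H93ResFun (helper93): the functional `lam f = coefficient of 1/x at infinity of Tr(f)` on a function
field `F / K(x)` and its local vanishing / non-vanishing properties.
-/
import Mathlib
import Fermat.Agent.H93ResTrace

set_option autoImplicit false
set_option maxHeartbeats 400000

open AlgebraicCurve WithZero IsLocalRing IntermediateField Polynomial

namespace Fermat.Agent.H93.Res

open Fermat.Agent.H3RR

variable {K F : Type*} [Field K] [Field F] [Algebra K F]

theorem mem_nonunits_place_iff (v : Place K F) {f : F} :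
    f ∈ v.toValuationSubring.nonunits ↔ v.adicValuation f < 1 := by
  rw [lt_one_iff, v.toValuationSubring.mem_nonunits_iff_or]

section PlaceTrace

variable [IsFF K F] {x : F} [FiniteDimensional K⟮x⟯ F] [Algebra.IsSeparable K⟮x⟯ F]

theorem mem_nonunits_of_comap {V : ValuationSubring (AlgebraicClosure F)} {v : Place K F}
    (hV : V.comap (algebraMap F (AlgebraicClosure F)) = v.toValuationSubring) (f : F) :
    algebraMap F (AlgebraicClosure F) f ∈ V.nonunits ↔ v.adicValuation f < 1 := by
  rw [lt_one_iff, V.mem_nonunits_iff_or, ← map_inv₀, map_eq_zero, ← hV]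
  rfl

theorem place_trace_le_one (v : Place K F) {t : F} (ht0 : t ≠ 0) (htx : t ∈ K⟮x⟯)
    (hv : v.adicValuation t < 1) {f : F}
    (hf : ∀ w : Place K F, w.adicValuation t < 1 → w.adicValuation f ≤ 1) :
    v.adicValuation (Algebra.trace K⟮x⟯ F f : F) ≤ 1 := by
  obtain ⟨V, hV⟩ := exists_ext (L := AlgebraicClosure F) v.toValuationSubring
  have hK : ∀ a : K, algebraMap K (AlgebraicClosure F) a ∈ V := by
    intro a
    have : algebraMap K F a ∈ V.comap (algebraMap F (AlgebraicClosure F)) := by
      rw [hV]; exact v.algebraMap_mem' a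
    exact this
  have h := trace_mem ht0 htx V hK ((mem_nonunits_of_comap hV t).mpr hv) hf
  rw [← mem_iff_adicValuation_le_one, ← hV]
  exact h

theorem place_trace_lt_one (v : Place K F) {t : F} (ht0 : t ≠ 0) (htx : t ∈ K⟮x⟯)
    (hv : v.adicValuation t < 1) {f : F}
    (hf : ∀ w : Place K F, w.adicValuation t < 1 → w.adicValuation f < 1) :
    v.adicValuation (Algebra.trace K⟮x⟯ F f : F) < 1 := by
  obtain ⟨V, hV⟩ := exists_ext (L := AlgebraicClosure F) v.toValuationSubring
  have hK : ∀ a : K, algebraMap K (AlgebraicClosure F) a ∈ V := by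
    intro a
    have : algebraMap K F a ∈ V.comap (algebraMap F (AlgebraicClosure F)) := by
      rw [hV]; exact v.algebraMap_mem' a
    exact this
  have h := trace_mem_nonunits ht0 htx V hK ((mem_nonunits_of_comap hV t).mpr hv) hf
  rw [← mem_nonunits_of_comap hV]
  exact h

theorem place_trace_sub_natCast (v₀ : Place K F) {t : F} (ht0 : t ≠ 0) (htx : t ∈ K⟮x⟯)
    (hv : v₀.adicValuation t < 1) {f : F} (hf0 : v₀.adicValuation (f - 1) < 1)
    (hf : ∀ v : Place K F, v ≠ v₀ → v.adicValuation t < 1 → v.adicValuation f < 1) :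
    ∃ n : ℕ, 0 < n ∧ v₀.adicValuation ((Algebra.trace K⟮x⟯ F f : F) - algebraMap K F n) < 1 := by
  obtain ⟨V, hV⟩ := exists_ext (L := AlgebraicClosure F) v₀.toValuationSubring
  have hK : ∀ a : K, algebraMap K (AlgebraicClosure F) a ∈ V := by
    intro a
    have : algebraMap K F a ∈ V.comap (algebraMap F (AlgebraicClosure F)) := by
      rw [hV]; exact v₀.algebraMap_mem' a
    exact this
  obtain ⟨n, hn, h⟩ := trace_sub_natCast ht0 htx V hK ((mem_nonunits_of_comap hV t).mpr hv) hV hf0 hf
  refine ⟨n, hn, ?_⟩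
  rw [← mem_nonunits_of_comap hV, map_sub]
  have e : algebraMap F (AlgebraicClosure F) (algebraMap K F (n : K)) = (n : AlgebraicClosure F) := by
    rw [map_natCast, map_natCast]
  rw [e]
  exact h

end PlaceTrace

section Cinf

variable {x : F}

theorem adjoin_le_inv (x : F) : K⟮x⟯ ≤ K⟮x⁻¹⟯ := by
  rw [adjoin_simple_le_iff]
  have h := mem_adjoin_simple_self K x⁻¹
  have := inv_mem h
  rwa [inv_inv] at this

/-- The coefficient of `x⁻¹` in the expansion at infinity. -/
noncomputable def cinf (hx : Transcendental K x) : K⟮x⟯ →ₗ[K] K where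
  toFun f := (lau (H3RR.transcendental_inv hx) (inclusion (adjoin_le_inv x) f)).coeff 1
  map_add' f g := by rw [map_add, map_add, HahnSeries.coeff_add]
  map_smul' c f := by
    have h : inclusion (adjoin_le_inv x) (c • f) =
        algebraMap K K⟮x⁻¹⟯ c * inclusion (adjoin_le_inv x) f := by
      rw [map_smul, Algebra.smul_def]
    rw [h, map_mul, lau_C, HahnSeries.C_mul_eq_smul, HahnSeries.coeff_smul]
    rfl

theorem cinf_poly (hx : Transcendental K x) (p : K[X]) :
    cinf hx (aeval (AdjoinSimple.gen K x) p) = 0 := by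
  induction p using Polynomial.induction_on' with
  | add p q hp hq => rw [map_add, map_add, hp, hq, add_zero]
  | monomial n a =>
    rw [← Polynomial.smul_X_eq_monomial, map_smul, map_smul, map_pow, aeval_X]
    have h : cinf hx (AdjoinSimple.gen K x ^ n) = 0 := by
      show (lau (H3RR.transcendental_inv hx) (inclusion (adjoin_le_inv x)
        (AdjoinSimple.gen K x ^ n))).coeff 1 = 0
      have e : inclusion (adjoin_le_inv x) (AdjoinSimple.gen K x ^ n) =
          ((AdjoinSimple.gen K x⁻¹)⁻¹) ^ n := by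
        apply Subtype.ext
        show x ^ n = (x⁻¹)⁻¹ ^ n
        rw [inv_inv]
      rw [e, map_pow, map_inv₀, lau_gen, HahnSeries.inv_single, inv_one, HahnSeries.single_pow,
        one_pow, HahnSeries.coeff_single_of_ne]
      rw [nsmul_eq_mul]
      omega
    rw [h, smul_zero]

theorem cinf_of_poly (hx : Transcendental K x) {f : K⟮x⟯} {p : K[X]} (h : (f : F) = aeval x p) :
    cinf hx f = 0 := by
  have : f = aeval (AdjoinSimple.gen K x) p := by
    apply Subtype.ext
    rw [h]
    have := Polynomial.aeval_algebraMap_apply F (AdjoinSimple.gen K x) p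
    rw [AdjoinSimple.algebraMap_gen] at this
    exact this
  rw [this, cinf_poly]

theorem cinf_apply (hx : Transcendental K x) (f : K⟮x⟯) : cinf hx f =
    (lau (H3RR.transcendental_inv hx) (inclusion (adjoin_le_inv x) f)).coeff 1 := rfl

theorem coe_mk_adjoin (y z : F) (h : z ∈ K⟮y⟯) : ((⟨z, h⟩ : K⟮y⟯) : F) = z := rfl

theorem gen_inv_mul (hx0 : x ≠ 0) (f : K⟮x⟯) (hmem : x * (f : F) ∈ K⟮x⁻¹⟯) :
    AdjoinSimple.gen K x⁻¹ * ⟨x * (f : F), hmem⟩ = inclusion (adjoin_le_inv x) f := by
  apply Subtype.ext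
  rw [IntermediateField.coe_inclusion, MulMemClass.coe_mul, AdjoinSimple.coe_gen, coe_mk_adjoin]
  rw [inv_mul_cancel_left₀ hx0]

theorem cinf_spec (hx : Transcendental K x) (v : Place K F) (hv : v.adicValuation x⁻¹ < 1)
    (f : K⟮x⟯) (hf : v.adicValuation (x * f) ≤ 1) :
    v.adicValuation (x * f - algebraMap K F (cinf hx f)) < 1 := by
  have hx0 := transcendental_ne_zero hx
  have hmem : x * (f : F) ∈ K⟮x⁻¹⟯ := mul_mem (adjoin_le_inv x (mem_adjoin_simple_self K x))
    (adjoin_le_inv x f.2)
  have h := coeff_lau_mul (H3RR.transcendental_inv hx) v.toValuationSubring v.algebraMap_mem'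
    ((mem_nonunits_place_iff v).mpr hv) ⟨x * (f : F), hmem⟩ (mem_of_adicValuation_le_one v hf)
  rw [coe_mk_adjoin, gen_inv_mul hx0, mem_nonunits_place_iff, ← cinf_apply] at h
  exact h

end Cinf

section Lam

variable [IsAlgClosed K] [IsFF K F] {x : F} [FiniteDimensional K⟮x⟯ F] [Algebra.IsSeparable K⟮x⟯ F]

/-- `lam f` = coefficient of `x⁻¹` at infinity of `Tr f`. -/
noncomputable def lam (hx : Transcendental K x) : F →ₗ[K] K :=
  (cinf hx).comp ((Algebra.trace K⟮x⟯ F).restrictScalars K)

theorem lam_apply (hx : Transcendental K x) (f : F) :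
    lam hx f = cinf hx (Algebra.trace K⟮x⟯ F f) := rfl

theorem sub_ne_zero' (hx : Transcendental K x) (a : K) : x - algebraMap K F a ≠ 0 := by
  intro h0
  apply hx
  exact ⟨X - C a, Polynomial.X_sub_C_ne_zero a, by simpa using h0⟩

theorem transcendental_sub (hx : Transcendental K x) (a : K) :
    Transcendental K (x - algebraMap K F a) := by
  intro h
  apply hx
  have := h.add (isAlgebraic_algebraMap a)
  rwa [sub_add_cancel] at this

theorem sub_mem_adjoin (x : F) (a : K) : x - algebraMap K F a ∈ K⟮x⟯ :=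
  sub_mem (mem_adjoin_simple_self K x) (K⟮x⟯.algebraMap_mem a)

theorem le_one_of_sub_lt_one {v : Place K F} {a : K}
    (h : v.adicValuation (x - algebraMap K F a) < 1) : v.adicValuation x ≤ 1 := by
  have : x = (x - algebraMap K F a) + algebraMap K F a := by ring
  rw [this]
  exact (Valuation.map_add _ _ _).trans (max_le h.le (v.adicValuation_algebraMap_le_one a))

theorem trace_mul_coe (c : K⟮x⟯) (f : F) :
    ((Algebra.trace K⟮x⟯ F ((c : F) * f) : K⟮x⟯) : F) = (c : F) * (Algebra.trace K⟮x⟯ F f : K⟮x⟯) := by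
  have h : (c : F) * f = c • f := rfl
  rw [h, map_smul]
  rfl

theorem algebraMap_lt_one_iff (v : Place K F) {c : K} :
    v.adicValuation (algebraMap K F c) < 1 ↔ c = 0 := by
  constructor
  · intro h
    by_contra hc
    rw [adicValuation_algebraMap v hc] at h
    exact lt_irrefl _ h
  · rintro rfl
    rw [map_zero, map_zero]; exact zero_lt_one

/-- no finite poles -/
theorem lam_eq_zero_of_finite (hx : Transcendental K x) {f : F}
    (hf : ∀ v : Place K F, v.adicValuation x ≤ 1 → v.adicValuation f ≤ 1) : lam hx f = 0 := by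
  obtain ⟨p, hp⟩ := exists_poly_of_forall_mem (L := F) hx (Algebra.trace K⟮x⟯ F f).2 (fun a => by
    obtain ⟨v, hv⟩ := exists_place_lt_one (transcendental_sub hx a)
    refine ⟨v.toValuationSubring, v.algebraMap_mem', (mem_nonunits_place_iff v).mpr hv, ?_⟩
    apply mem_of_adicValuation_le_one
    exact place_trace_le_one v (sub_ne_zero' hx a) (sub_mem_adjoin x a) hv
      fun w hw => hf w (le_one_of_sub_lt_one hw))
  rw [lam_apply]
  exact cinf_of_poly hx hp

theorem inv_mem_adjoin (x : F) : x⁻¹ ∈ K⟮x⟯ := inv_mem (mem_adjoin_simple_self K x)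

/-- zero at infinity of high enough order -/
theorem lam_eq_zero_of_infinite (hx : Transcendental K x) {f : F}
    (hf : ∀ v : Place K F, v.adicValuation x⁻¹ < 1 → v.adicValuation (x * f) < 1) :
    lam hx f = 0 := by
  have hx0 := transcendental_ne_zero hx
  obtain ⟨v, hv⟩ := exists_place_lt_one (H3RR.transcendental_inv hx)
  have h1 := place_trace_lt_one (x := x) v (inv_ne_zero hx0) (inv_mem_adjoin x) hv hf
  have h2 := trace_mul_coe (⟨x, mem_adjoin_simple_self K x⟩ : K⟮x⟯) f
  rw [h2] at h1
  have h3 := cinf_spec hx v hv (Algebra.trace K⟮x⟯ F f) h1.le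
  rw [lam_apply, ← algebraMap_lt_one_iff v]
  have e : algebraMap K F (cinf hx (Algebra.trace K⟮x⟯ F f)) =
      x * (Algebra.trace K⟮x⟯ F f : K⟮x⟯) - (x * (Algebra.trace K⟮x⟯ F f : K⟮x⟯) -
        algebraMap K F (cinf hx (Algebra.trace K⟮x⟯ F f))) := by ring
  rw [e]
  exact lt_of_le_of_lt (Valuation.map_sub _ _ _) (max_lt h1 h3)

/-- non-vanishing at infinity -/
theorem lam_ne_zero_of_infinite [CharZero K] (hx : Transcendental K x) (v₀ : Place K F)
    (hv : v₀.adicValuation x⁻¹ < 1) {f : F} (hf0 : v₀.adicValuation (x * f - 1) < 1)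
    (hf : ∀ v : Place K F, v ≠ v₀ → v.adicValuation x⁻¹ < 1 → v.adicValuation (x * f) < 1) :
    lam hx f ≠ 0 := by
  have hx0 := transcendental_ne_zero hx
  obtain ⟨n, hn, h1⟩ := place_trace_sub_natCast (x := x) v₀ (inv_ne_zero hx0) (inv_mem_adjoin x) hv
    hf0 hf
  have h2 := trace_mul_coe (⟨x, mem_adjoin_simple_self K x⟩ : K⟮x⟯) f
  rw [h2] at h1
  have hle : v₀.adicValuation (x * (Algebra.trace K⟮x⟯ F f : K⟮x⟯)) ≤ 1 := by
    have e : x * ((Algebra.trace K⟮x⟯ F f : K⟮x⟯) : F) =
      (x * (Algebra.trace K⟮x⟯ F f : K⟮x⟯) - algebraMap K F n) + algebraMap K F n := by ring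
    rw [e]
    exact (Valuation.map_add _ _ _).trans (max_le h1.le (v₀.adicValuation_algebraMap_le_one _))
  have h3 := cinf_spec hx v₀ hv (Algebra.trace K⟮x⟯ F f) hle
  rw [lam_apply]
  intro h0
  rw [h0, map_zero, sub_zero] at h3
  have h4 : v₀.adicValuation (algebraMap K F (n : K)) < 1 := by
    have e : algebraMap K F (n : K) = x * ((Algebra.trace K⟮x⟯ F f : K⟮x⟯) : F) -
      (x * (Algebra.trace K⟮x⟯ F f : K⟮x⟯) - algebraMap K F n) := by ring
    rw [e]
    exact lt_of_le_of_lt (Valuation.map_sub _ _ _) (max_lt h3 h1)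
  rw [algebraMap_lt_one_iff] at h4
  have : n = 0 := by exact_mod_cast h4
  omega

/-- value of `cinf` on an element with at most one simple finite pole -/
theorem cinf_of_simple_pole (hx : Transcendental K x) {a r : K} {g : K⟮x⟯}
    (ha : ∃ v : Place K F, v.adicValuation (x - algebraMap K F a) < 1 ∧
      v.adicValuation ((x - algebraMap K F a) * g - algebraMap K F r) < 1)
    (h : ∀ b : K, b ≠ a → ∃ v : Place K F, v.adicValuation (x - algebraMap K F b) < 1 ∧
      v.adicValuation (g : F) ≤ 1) : cinf hx g = r := by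
  have hxa := sub_ne_zero' hx a
  set w : K⟮x⟯ := ⟨x - algebraMap K F a, sub_mem_adjoin x a⟩ with hw
  have hw0 : w ≠ 0 := fun h => hxa (congrArg Subtype.val h)
  set g' : K⟮x⟯ := g - r • w⁻¹ with hg'
  have hcoe : (g' : F) = (g : F) - algebraMap K F r * (x - algebraMap K F a)⁻¹ := by
    rw [hg', Algebra.smul_def]
    rfl
  obtain ⟨p, hp⟩ := exists_poly_of_forall_mem (L := F) hx g'.2 (fun b => by
    by_cases hb : b = a
    · obtain ⟨v, hv, hv2⟩ := ha
      refine ⟨v.toValuationSubring, v.algebraMap_mem', ?_, ?_⟩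
      · rw [hb]; exact (mem_nonunits_place_iff v).mpr hv
      · apply mem_of_mul_mem_nonunits hx g'.2 v.toValuationSubring v.algebraMap_mem'
          ((mem_nonunits_place_iff v).mpr hv)
        rw [mem_nonunits_place_iff, hcoe, mul_sub, ← mul_assoc,
          mul_comm (x - algebraMap K F a) (algebraMap K F r), mul_assoc, mul_inv_cancel₀ hxa, mul_one]
        exact hv2
    · obtain ⟨v, hv, hv2⟩ := h b hb
      refine ⟨v.toValuationSubring, v.algebraMap_mem', (mem_nonunits_place_iff v).mpr hv, ?_⟩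
      rw [hcoe]
      apply sub_mem (mem_of_adicValuation_le_one v hv2)
      apply mul_mem (v.algebraMap_mem' r)
      apply mem_of_adicValuation_le_one
      have h1 : v.adicValuation (x - algebraMap K F a) = 1 := by
        have e : x - algebraMap K F a = (x - algebraMap K F b) + algebraMap K F (b - a) := by
          rw [map_sub]; ring
        have h2 := adicValuation_algebraMap v (sub_ne_zero.mpr hb)
        rw [e, Valuation.map_add_eq_of_lt_right _ (by rw [h2]; exact hv), h2]
      rw [map_inv₀, h1, inv_one])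
  have h1 : cinf hx g' = 0 := cinf_of_poly hx hp
  -- cinf w⁻¹ = 1
  have h2 : cinf hx w⁻¹ = 1 := by
    obtain ⟨v, hv⟩ := exists_place_lt_one (H3RR.transcendental_inv hx)
    have hx0 := transcendental_ne_zero hx
    have hvx : 1 < v.adicValuation x := by
      rw [map_inv₀] at hv
      exact (inv_lt_one₀ (zero_lt_iff.mpr (v.adicValuation_ne_zero hx0))).mp hv
    have hvw : v.adicValuation (x - algebraMap K F a) = v.adicValuation x := by
      have h3 : v.adicValuation (algebraMap K F a) < v.adicValuation x :=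
        lt_of_le_of_lt (v.adicValuation_algebraMap_le_one a) hvx
      rw [Valuation.map_sub_eq_of_lt_left _ h3]
    have hcw : ((w⁻¹ : K⟮x⟯) : F) = (x - algebraMap K F a)⁻¹ := rfl
    have hle : v.adicValuation (x * ((w⁻¹ : K⟮x⟯) : F) - 1) < 1 := by
      have e : x * ((w⁻¹ : K⟮x⟯) : F) - 1 = algebraMap K F a * (x - algebraMap K F a)⁻¹ := by
        rw [hcw]; field_simp; ring
      rw [e, map_mul, map_inv₀, hvw]
      exact mul_lt_one_of_nonneg_of_lt_one_right (v.adicValuation_algebraMap_le_one a) zero_le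
        ((inv_lt_one₀ (zero_lt_iff.mpr (v.adicValuation_ne_zero hx0))).mpr hvx)
    have hle1 : v.adicValuation (x * ((w⁻¹ : K⟮x⟯) : F)) ≤ 1 := by
      have e : x * ((w⁻¹ : K⟮x⟯) : F) = (x * ((w⁻¹ : K⟮x⟯) : F) - 1) + 1 := by ring
      rw [e]
      exact (Valuation.map_add _ _ _).trans (max_le hle.le (map_one _).le)
    have h4 := cinf_spec hx v hv w⁻¹ hle1
    have h5 : v.adicValuation (algebraMap K F (cinf hx w⁻¹ - 1)) < 1 := by
      have e : algebraMap K F (cinf hx w⁻¹ - 1) = (x * ((w⁻¹ : K⟮x⟯) : F) - 1) -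
        (x * ((w⁻¹ : K⟮x⟯) : F) - algebraMap K F (cinf hx w⁻¹)) := by
        rw [map_sub, map_one]; ring
      rw [e]
      exact lt_of_le_of_lt (Valuation.map_sub _ _ _) (max_lt hle h4)
    rw [algebraMap_lt_one_iff] at h5
    exact sub_eq_zero.mp h5
  have h3 : g = g' + r • w⁻¹ := by rw [hg']; ring
  rw [h3, map_add, map_smul, h1, h2, zero_add, smul_eq_mul, mul_one]

/-- vanishing at a finite place -/
theorem lam_eq_zero_of_place (hx : Transcendental K x) (v₀ : Place K F) {a : K} {f : F}
    (hv₀ : v₀.adicValuation (x - algebraMap K F a) < 1)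
    (hf0 : v₀.adicValuation ((x - algebraMap K F a) * f) < 1)
    (hf : ∀ v : Place K F, v ≠ v₀ → v.adicValuation x ≤ 1 → v.adicValuation f ≤ 1) :
    lam hx f = 0 := by
  rw [lam_apply]
  apply cinf_of_simple_pole hx (a := a)
  · refine ⟨v₀, hv₀, ?_⟩
    rw [map_zero, sub_zero]
    have h1 := place_trace_lt_one (x := x) v₀ (sub_ne_zero' hx a) (sub_mem_adjoin x a) hv₀
      (f := (x - algebraMap K F a) * f) (fun w hw => by
        by_cases hwv : w = v₀
        · rw [hwv]; exact hf0
        · rw [map_mul]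
          exact mul_lt_one_of_nonneg_of_lt_one_left zero_le hw (hf w hwv (le_one_of_sub_lt_one hw)))
    have h2 := trace_mul_coe (⟨x - algebraMap K F a, sub_mem_adjoin x a⟩ : K⟮x⟯) f
    rw [h2] at h1
    exact h1
  · intro b hb
    obtain ⟨v, hv⟩ := exists_place_lt_one (transcendental_sub hx b)
    refine ⟨v, hv, ?_⟩
    apply place_trace_le_one v (sub_ne_zero' hx b) (sub_mem_adjoin x b) hv
    intro w hw
    apply hf w _ (le_one_of_sub_lt_one hw)
    rintro rfl
    have : w.adicValuation (algebraMap K F (b - a)) < 1 := by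
      have e : algebraMap K F (b - a) = (x - algebraMap K F a) - (x - algebraMap K F b) := by
        rw [map_sub]; ring
      rw [e]
      exact lt_of_le_of_lt (Valuation.map_sub _ _ _) (max_lt hv₀ hw)
    rw [algebraMap_lt_one_iff, sub_eq_zero] at this
    exact hb this

/-- non-vanishing at a finite place -/
theorem lam_ne_zero_of_place [CharZero K] (hx : Transcendental K x) (v₀ : Place K F) {a : K} {f : F}
    (hv₀ : v₀.adicValuation (x - algebraMap K F a) < 1)
    (hf0 : v₀.adicValuation ((x - algebraMap K F a) * f - 1) < 1)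
    (hf : ∀ v : Place K F, v ≠ v₀ → v.adicValuation x ≤ 1 → v.adicValuation f ≤ 1) :
    lam hx f ≠ 0 := by
  rw [lam_apply]
  obtain ⟨n, hn, h1⟩ := place_trace_sub_natCast (x := x) v₀ (sub_ne_zero' hx a) (sub_mem_adjoin x a)
    hv₀ hf0 (fun w hwv hw => by
      rw [map_mul]
      exact mul_lt_one_of_nonneg_of_lt_one_left zero_le hw (hf w hwv (le_one_of_sub_lt_one hw)))
  have h2 := trace_mul_coe (⟨x - algebraMap K F a, sub_mem_adjoin x a⟩ : K⟮x⟯) f
  rw [h2] at h1
  rw [cinf_of_simple_pole hx (a := a) (r := n)]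
  · exact_mod_cast hn.ne'
  · exact ⟨v₀, hv₀, h1⟩
  · intro b hb
    obtain ⟨v, hv⟩ := exists_place_lt_one (transcendental_sub hx b)
    refine ⟨v, hv, ?_⟩
    apply place_trace_le_one v (sub_ne_zero' hx b) (sub_mem_adjoin x b) hv
    intro w hw
    apply hf w _ (le_one_of_sub_lt_one hw)
    rintro rfl
    have : w.adicValuation (algebraMap K F (b - a)) < 1 := by
      have e : algebraMap K F (b - a) = (x - algebraMap K F a) - (x - algebraMap K F b) := by
        rw [map_sub]; ring
      rw [e]
      exact lt_of_le_of_lt (Valuation.map_sub _ _ _) (max_lt hv₀ hw)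
    rw [algebraMap_lt_one_iff, sub_eq_zero] at this
    exact hb this

end Lam

end Fermat.Agent.H93.Res
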