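import Fermat.Agent.H94OrdDiff
set_option autoImplicit false

/-!
# Degree of the canonical divisor (Riemann-Hurwitz for `x : X → P¹`) (helper94)
-/

noncomputable section

open AlgebraicCurve IsDedekindDomain WithZero IntermediateField KaehlerDifferential
open scoped IntermediateField.algebraAdjoinAdjoin

namespace Fermat.Agent.H94
variable {K F : Type*} [Field K] [Field F] [Algebra K F]
variable [CharZero K] [IsAlgClosed K] [FunField K F]

theorem degree_eq_sum (D : Divisor K F) : Divisor.degree D = ∑ v ∈ D.support, D v := by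
  show (Finsupp.liftAddHom fun v : Place K F => AddMonoidHom.mulRight (v.deg : ℤ)) D = _
  rw [Finsupp.liftAddHom_apply, Finsupp.sum]
  refine Finset.sum_congr rfl fun v _ => ?_
  rw [deg_eq_one]
  simp

theorem degree_eq_sum_of_support_subset (D : Divisor K F) {S : Finset (Place K F)}
    (hS : D.support ⊆ S) : Divisor.degree D = ∑ v ∈ S, D v := by
  rw [degree_eq_sum]
  exact Finset.sum_subset hS fun v _ hv => by simpa using hv

theorem degree_of_eq_ord (D : Divisor K F) {f : F} (hf : f ≠ 0) (hD : ∀ v, D v = v.ord f) :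
    Divisor.degree D = 0 := by
  obtain ⟨D', hD', hdeg⟩ := (hasPrincipalDivisors K F).exists_divisor f hf
  have : D = D' := Finsupp.ext fun v => by rw [hD, hD']
  rw [this, hdeg]

/-- The degree of the divisor of a differential does not depend on the differential. -/
theorem degree_canonical_eq {x : F} (hx : Transcendental K x) {ω : Ω[F⁄K]} (hω : ω ≠ 0)
    (Dx Dω : Divisor K F) (hDx : ∀ v : Place K F, Dx v = v.ordDifferential (D K F x))
    (hDω : ∀ v : Place K F, Dω v = v.ordDifferential ω) :
    Divisor.degree Dω = Divisor.degree Dx := by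
  obtain ⟨g, hg⟩ := (dxEquiv hx).surjective ω
  have hgω : g • D K F x = ω := hg
  have hg0 : g ≠ 0 := by rintro rfl; rw [zero_smul] at hgω; exact hω hgω.symm
  have h1 : ∀ v : Place K F, (Dω - Dx) v = v.ord g := by
    intro v
    rw [Finsupp.sub_apply, hDω, hDx, ← hgω, ordDifferential_smul' v hg0 (D_ne_zero hx)]
    ring
  have h2 := degree_of_eq_ord (Dω - Dx) hg0 h1
  rw [map_sub] at h2
  linarith

/-- **Riemann-Hurwitz** for `x : X → ℙ¹` unramified outside `S ∪ {∞}`. -/
theorem degree_div_dx {x : F} (hx : Transcendental K x) (S : Finset K)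
    (hS : ∀ a ∉ S, ∀ v : Place K F, 0 < v.ord (x - algebraMap K F a) →
      v.ord (x - algebraMap K F a) = 1)
    (Dx : Divisor K F) (hDx : ∀ v : Place K F, Dx v = v.ordDifferential (D K F x)) :
    Divisor.degree Dx = ∑ a ∈ S, ((Module.finrank K⟮x⟯ F : ℤ) -
        Nat.card {v : Place K F // 0 < v.ord (x - algebraMap K F a)}) -
      Module.finrank K⟮x⟯ F - Nat.card {v : Place K F // 0 < v.ord x⁻¹} := by
  classical
  have htr : ∀ a : K, Transcendental K (x - algebraMap K F a) := by
    intro a h
    apply hx
    have := h.add (isAlgebraic_algebraMap (A := F) a)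
    rwa [sub_add_cancel] at this
  have hadj : ∀ a : K, K⟮x - algebraMap K F a⟯ = K⟮x⟯ := by
    intro a
    apply le_antisymm
    · rw [adjoin_simple_le_iff]
      exact sub_mem (mem_adjoin_simple_self K x) (IntermediateField.algebraMap_mem _ _)
    · rw [adjoin_simple_le_iff]
      have := add_mem (mem_adjoin_simple_self K (x - algebraMap K F a))
        (IntermediateField.algebraMap_mem K⟮x - algebraMap K F a⟯ a)
      rwa [sub_add_cancel] at this
  have hfinS : ∀ a : K, {v : Place K F | 0 < v.ord (x - algebraMap K F a)}.Finite := fun a =>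
    finite_setOf_ord_pos (htr a)
  have hfinN : {v : Place K F | v.ord x < 0}.Finite := finite_setOf_ord_neg hx
  -- the set of bad places
  let Z : K → Finset (Place K F) := fun a => (hfinS a).toFinset
  let N : Finset (Place K F) := hfinN.toFinset
  have hZ : ∀ a v, v ∈ Z a ↔ 0 < v.ord (x - algebraMap K F a) := by
    intro a v; simp [Z]
  have hN : ∀ v, v ∈ N ↔ v.ord x < 0 := by
    intro v; simp [N]
  have hDZ : ∀ a, ∀ v ∈ Z a, Dx v = v.ord (x - algebraMap K F a) - 1 := by
    intro a v hv
    rw [hDx]
    exact ordDifferential_D_sub v (ne_of_gt ((hZ a v).mp hv))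
  have hDN : ∀ v ∈ N, Dx v = v.ord x - 1 := by
    intro v hv
    rw [hDx]
    exact ordDifferential_D v (ne_of_lt ((hN v).mp hv))
  have hsub : Dx.support ⊆ (S.biUnion Z) ∪ N := by
    intro v hv
    rw [Finsupp.mem_support_iff] at hv
    rw [Finset.mem_union, Finset.mem_biUnion]
    by_cases hneg : v.ord x < 0
    · right; exact (hN v).mpr hneg
    left
    have hmem : x ∈ v.toValuationSubring := mem_of_ord_nonneg v (not_lt.mp hneg)
    obtain ⟨a, ha⟩ := exists_sub_algebraMap_ord_pos v hmem
    have ha' : 0 < v.ord (x - algebraMap K F a) := by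
      rcases ha with h | h
      · exfalso
        have := sub_eq_zero.mp h
        exact hx (this ▸ isAlgebraic_algebraMap a)
      · exact h
    refine ⟨a, ?_, (hZ a v).mpr ha'⟩
    by_contra haS
    apply hv
    rw [hDZ a v ((hZ a v).mpr ha'), hS a haS v ha']
    norm_num
  have hdisjN : Disjoint (S.biUnion Z) N := by
    rw [Finset.disjoint_left]
    intro v hv hvN
    rw [Finset.mem_biUnion] at hv
    obtain ⟨a, -, hva⟩ := hv
    rw [hZ] at hva
    rw [hN] at hvN
    have h1 := v.adicValuation
    have hx0 : x ≠ 0 := by rintro rfl; simp at hvN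
    have h2 : x - algebraMap K F a ∈ v.toValuationSubring := mem_of_ord_nonneg v hva.le
    have h3 : x ∈ v.toValuationSubring := by
      have := add_mem h2 (v.algebraMap_mem' a)
      rwa [sub_add_cancel] at this
    have := ord_nonneg_of_mem v h3
    omega
  have hdisjZ : (S : Set K).PairwiseDisjoint Z := by
    intro a _ b _ hab
    rw [Function.onFun, Finset.disjoint_left]
    intro v hva hvb
    rw [hZ] at hva hvb
    have hne : algebraMap K F (b - a) ≠ 0 := by
      rw [ne_eq, map_eq_zero_iff _ (algebraMap K F).injective, sub_eq_zero]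
      exact fun h => hab h.symm
    have h1 : algebraMap K F (b - a) = (x - algebraMap K F a) +
        (-1 : F) * (x - algebraMap K F b) := by
      rw [map_sub]; ring
    have hb0 : x - algebraMap K F b ≠ 0 := by
      intro h; rw [h, Place.ord_zero] at hvb; exact lt_irrefl _ hvb
    have h2 : v.ord ((-1 : F) * (x - algebraMap K F b)) = v.ord (x - algebraMap K F b) := by
      rw [v.ord_mul (by norm_num) hb0]
      have h6 := ord_algebraMap v (-1 : K)
      rw [map_neg, map_one] at h6
      rw [h6, zero_add]
    have h3 := (ord_add_ge v (n := 1) (f := x - algebraMap K F a)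
      (g := (-1 : F) * (x - algebraMap K F b)) (Or.inr (by omega))
      (Or.inr (by rw [h2]; omega))).resolve_left (by rw [← h1]; exact hne)
    rw [← h1, ord_algebraMap] at h3
    omega
  rw [degree_eq_sum_of_support_subset Dx hsub, Finset.sum_union hdisjN,
    Finset.sum_biUnion hdisjZ]
  have hZsum : ∀ a, ∑ v ∈ Z a, Dx v = (Module.finrank K⟮x⟯ F : ℤ) -
      Nat.card {v : Place K F // 0 < v.ord (x - algebraMap K F a)} := by
    intro a
    obtain ⟨hfin1, hsum1⟩ := sum_ord_pos (F := F) (htr a)
    rw [hadj] at hsum1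
    rw [Finset.sum_congr rfl (hDZ a), Finset.sum_sub_distrib, Finset.sum_const, nsmul_eq_mul,
      mul_one]
    have h1 : Z a = hfin1.toFinset := by ext v; simp [Z]
    have h2 : (Z a).card = Nat.card {v : Place K F // 0 < v.ord (x - algebraMap K F a)} := by
      rw [← Nat.card_eq_card_finite_toFinset (hfinS a)]
      rfl
    rw [h2, h1, hsum1]
  have hNsum : ∑ v ∈ N, Dx v = -(Module.finrank K⟮x⟯ F : ℤ) -
      Nat.card {v : Place K F // 0 < v.ord x⁻¹} := by
    have hsum1 := sum_ord_neg (F := F) hx
    rw [Finset.sum_congr rfl hDN, Finset.sum_sub_distrib, Finset.sum_const, nsmul_eq_mul,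
      mul_one]
    have h2 : N.card = Nat.card {v : Place K F // 0 < v.ord x⁻¹} := by
      rw [← Nat.card_eq_card_finite_toFinset hfinN]
      refine Nat.card_congr (Equiv.subtypeEquivRight fun v => ?_)
      rw [v.ord_inv]
      show v.ord x < 0 ↔ _
      omega
    rw [h2, hsum1]
  rw [Finset.sum_congr rfl (fun a _ => hZsum a), hNsum]
  ring

end Fermat.Agent.H94
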