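/-
H93Weil (helper93): the Weil differential attached to `dx`, and its divisor.
-/
import Mathlib
import Fermat.Agent.H93ResFun
import Fermat.Agent.H3RR_Bridge
import Fermat.Agent.H94RiemannHurwitz

set_option autoImplicit false
set_option maxHeartbeats 400000
set_option linter.unusedSectionVars false

open AlgebraicCurve WithZero IsLocalRing IntermediateField Polynomial

namespace Fermat.Agent.H93.Res

open Fermat.Agent.H3RR

variable {K F : Type*} [Field K] [Field F] [Algebra K F] [IsAlgClosed K] [IsFF K F]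

theorem poleDiv_of_le_one {x : F} (hx : x ≠ 0) {v : Place K F} (h : v.adicValuation x ≤ 1) :
    (poleDiv x : Divisor K F) v = 0 := by
  rw [poleDiv_apply hx]
  have := (v.adicValuation_le_one_iff).mp h
  rcases this with h0 | h0
  · exact absurd h0 hx
  · exact max_eq_right (by omega)

theorem val_eq_exp_poleDiv {x : F} (hx : x ≠ 0) {v : Place K F} (h : v.adicValuation x⁻¹ < 1) :
    v.adicValuation x = exp ((poleDiv x : Divisor K F) v) ∧ 1 ≤ (poleDiv x : Divisor K F) v := by
  have h1 := ord_pos_of_lt_one (inv_ne_zero hx) h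
  rw [v.ord_inv] at h1
  rw [poleDiv_apply hx, max_eq_left (by omega), v.adicValuation_eq_exp_neg_ord hx]
  exact ⟨rfl, by omega⟩

theorem le_one_or {x : F} (hx : x ≠ 0) (v : Place K F) :
    v.adicValuation x ≤ 1 ∨ v.adicValuation x⁻¹ < 1 := by
  rcases le_or_gt (v.adicValuation x) 1 with h | h
  · exact Or.inl h
  · right
    rw [map_inv₀]
    exact (inv_lt_one₀ (zero_lt_iff.mpr (v.adicValuation_ne_zero hx))).mpr h

theorem not_lt_of_le_one {x : F} (hx : x ≠ 0) {v : Place K F} (h : v.adicValuation x ≤ 1) :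
    ¬ v.adicValuation x⁻¹ < 1 := by
  rw [map_inv₀, inv_lt_one₀ (zero_lt_iff.mpr (v.adicValuation_ne_zero hx))]
  exact not_lt.mpr h

/-- strong approximation away from the poles of `x` -/
theorem strong_approx {x : F} (hx : Transcendental K x) (D : Divisor K F)
    (α : ↥(repartitions K F)) :
    ∃ N : ℕ, ∃ β ∈ repartitionsOf (D + N • (poleDiv x : Divisor K F)), ∃ f : F,
      α = β + algebraMap F ↥(repartitions K F) f := by
  have := IsFF.finiteDimensional (K := K) (F := F) hx
  have hn : 0 < Module.finrank K⟮x⟯ F := Module.finrank_pos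
  set N : ℕ := (2 * (genusFF K F : ℤ) - 1 - Divisor.degree D).toNat with hN
  have hN' := Int.self_le_toNat (2 * (genusFF K F : ℤ) - 1 - Divisor.degree D)
  rw [← hN] at hN'
  have hdeg : 2 * (genusFF K F : ℤ) - 2 < Divisor.degree (D + N • (poleDiv x : Divisor K F)) := by
    rw [map_add, map_nsmul, degree_poleDiv hx, nsmul_eq_mul]
    have : (N : ℤ) * 1 ≤ N * Module.finrank K⟮x⟯ F := by
      apply mul_le_mul_of_nonneg_left
      · exact_mod_cast hn
      · positivity
    omega
  have h0 := h1_eq_zero_of_degree_gt hdeg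
  have hsub : Subsingleton (H1 (D + N • (poleDiv x : Divisor K F))) :=
    Module.finrank_zero_iff.mp h0
  have hmem : α ∈ repartitionsOf (D + N • (poleDiv x : Divisor K F)) ⊔ principalRepartitions K F := by
    rw [← Submodule.Quotient.mk_eq_zero]
    exact Subsingleton.elim _ _
  obtain ⟨β, hβ, γ, hγ, h⟩ := Submodule.mem_sup.mp hmem
  obtain ⟨f, hf⟩ := hγ
  refine ⟨N, β, hβ, f, ?_⟩
  rw [← h, ← hf]
  rfl

open Classical in
/-- repartition supported at one place -/
noncomputable def sgl (v₀ : Place K F) : F →ₗ[K] ↥(repartitions K F) where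
  toFun h := ⟨fun v => if v = v₀ then h else 0, mem_repartitions_of_finite <| by
    apply (Set.finite_singleton v₀).subset
    intro v hv
    by_contra hne
    simp only [Set.mem_singleton_iff] at hne
    simp [hne] at hv⟩
  map_add' f g := by
    apply Subtype.ext
    funext v
    show (if v = v₀ then f + g else 0) = (if v = v₀ then f else 0) + (if v = v₀ then g else 0)
    split_ifs <;> simp
  map_smul' c f := by
    apply Subtype.ext
    funext v
    show (if v = v₀ then c • f else 0) = c • (if v = v₀ then f else 0)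
    split_ifs <;> simp

open Classical in
theorem sgl_apply (v₀ : Place K F) (h : F) (v : Place K F) :
    (sgl v₀ h : Place K F → F) v = if v = v₀ then h else 0 := rfl

section Jinf

variable {x : F}

open Classical in
/-- repartition supported at the poles of `x` -/
noncomputable def jinf (hx : Transcendental K x) : F →ₗ[K] ↥(repartitions K F) where
  toFun h := ⟨fun v => if v.adicValuation x⁻¹ < 1 then h else 0, mem_repartitions_of_finite <| by
    apply (finite_zeros (H3RR.transcendental_inv hx)).subset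
    intro v hv
    by_contra hne
    simp only [Set.mem_ofPred_eq] at hne
    simp only [Set.mem_ofPred_eq, if_neg hne, map_zero] at hv
    exact hv zero_le⟩
  map_add' f g := by
    apply Subtype.ext
    funext v
    show (if v.adicValuation x⁻¹ < 1 then f + g else 0) =
      (if v.adicValuation x⁻¹ < 1 then f else 0) + (if v.adicValuation x⁻¹ < 1 then g else 0)
    split_ifs <;> simp
  map_smul' c f := by
    apply Subtype.ext
    funext v
    show (if v.adicValuation x⁻¹ < 1 then c • f else 0) = c • (if v.adicValuation x⁻¹ < 1 then f else 0)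
    split_ifs <;> simp

open Classical in
theorem jinf_apply (hx : Transcendental K x) (h : F) (v : Place K F) :
    (jinf hx h : Place K F → F) v = if v.adicValuation x⁻¹ < 1 then h else 0 := rfl

theorem jinf_apply_inf (hx : Transcendental K x) (h : F) {v : Place K F}
    (hv : v.adicValuation x⁻¹ < 1) : (jinf hx h : Place K F → F) v = h := by
  rw [jinf_apply, if_pos hv]

theorem jinf_apply_fin (hx : Transcendental K x) (h : F) {v : Place K F}
    (hv : v.adicValuation x ≤ 1) : (jinf hx h : Place K F → F) v = 0 := by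
  rw [jinf_apply, if_neg (not_lt_of_le_one (transcendental_ne_zero hx) hv)]

theorem coe_add_apply (α β : ↥(repartitions K F)) (v : Place K F) :
    ((α + β : ↥(repartitions K F)) : Place K F → F) v =
      (α : Place K F → F) v + (β : Place K F → F) v := rfl

theorem coe_sub_apply (α β : ↥(repartitions K F)) (v : Place K F) :
    ((α - β : ↥(repartitions K F)) : Place K F → F) v =
      (α : Place K F → F) v - (β : Place K F → F) v := rfl

theorem coe_algebraMap_apply (f : F) (v : Place K F) :
    ((algebraMap F ↥(repartitions K F) f : ↥(repartitions K F)) : Place K F → F) v = f := rfl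

theorem algebraMap_mem_principal (f : F) :
    algebraMap F ↥(repartitions K F) f ∈ principalRepartitions K F := by
  rw [mem_principalRepartitions_iff]
  exact ⟨f, rfl⟩

/-- `-2 (x)_∞` -/
noncomputable def D0 (K : Type*) {F : Type*} [Field K] [Field F] [Algebra K F] [IsAlgClosed K]
    [IsFF K F] (x : F) : Divisor K F := -(2 • (poleDiv x : Divisor K F))

theorem D0_fin (hx : x ≠ 0) {v : Place K F} (h : v.adicValuation x ≤ 1) : D0 K x v = 0 := by
  rw [D0, Finsupp.neg_apply, Finsupp.smul_apply, poleDiv_of_le_one hx h]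
  simp

theorem D0_inf (v : Place K F) : D0 K x v = - (2 * (poleDiv x : Divisor K F) v) := by
  rw [D0, Finsupp.neg_apply, Finsupp.smul_apply]
  simp

theorem exists_jinf (hx : Transcendental K x) (α : ↥(repartitions K F)) :
    ∃ h f : F, ∃ β ∈ repartitionsOf (D0 K x), α = jinf hx h + β + algebraMap F _ f := by
  classical
  have hx0 := transcendental_ne_zero hx
  obtain ⟨N, β, hβ, f, hf⟩ := strong_approx hx (D0 K x) α
  obtain ⟨h, hh⟩ := weak_approximation (finite_zeros (H3RR.transcendental_inv hx)).toFinset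
    (fun v => (β : Place K F → F) v) (fun v => D0 K x v)
  refine ⟨h, f, β - jinf hx h, ?_, by rw [hf]; ring⟩
  intro v
  rw [coe_sub_apply]
  rcases le_one_or hx0 v with hv | hv
  · rw [jinf_apply_fin hx h hv, sub_zero]
    have := hβ v
    rwa [Finsupp.add_apply, Finsupp.smul_apply, poleDiv_of_le_one hx0 hv, smul_zero, add_zero] at this
  · rw [jinf_apply_inf hx h hv, Valuation.map_sub_swap]
    exact hh v ((Set.Finite.mem_toFinset _).mpr hv)

variable [FiniteDimensional K⟮x⟯ F] [Algebra.IsSeparable K⟮x⟯ F]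

theorem lam_eq_zero_of_jinf (hx : Transcendental K x) {h f : F}
    (hhf : jinf hx h - algebraMap F _ f ∈ repartitionsOf (D0 K x)) : lam hx h = 0 := by
  have hx0 := transcendental_ne_zero hx
  have h1 : lam hx f = 0 := by
    apply lam_eq_zero_of_finite hx
    intro v hv
    have := hhf v
    rw [coe_sub_apply, jinf_apply_fin hx h hv, coe_algebraMap_apply, D0_fin hx0 hv, zero_sub,
      Valuation.map_neg, exp_zero] at this
    exact this
  have h2 : lam hx (h - f) = 0 := by
    apply lam_eq_zero_of_infinite hx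
    intro v hv
    have := hhf v
    rw [coe_sub_apply, jinf_apply_inf hx h hv, coe_algebraMap_apply, D0_inf] at this
    obtain ⟨h3, h4⟩ := val_eq_exp_poleDiv hx0 hv
    rw [map_mul, h3]
    calc exp ((poleDiv x : Divisor K F) v) * v.adicValuation (h - f)
        ≤ exp ((poleDiv x : Divisor K F) v) * exp (-(2 * (poleDiv x : Divisor K F) v)) :=
          mul_le_mul_right this _
      _ = exp (-(poleDiv x : Divisor K F) v) := by rw [← exp_add]; congr 1; ring
      _ < 1 := by rw [← exp_zero, exp_lt_exp]; omega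
  have : h = (h - f) + f := by ring
  rw [this, map_add, h1, h2, add_zero]

theorem exists_weil (hx : Transcendental K x) : ∃ ω : Module.Dual K ↥(repartitions K F),
    ω ∈ Om (D0 K x) ∧ ∀ h, ω (jinf hx h) = lam hx h := by
  set π : F →ₗ[K] H1 (D0 K x) := (Submodule.mkQ _).comp (jinf hx) with hπ
  have hsurj : Function.Surjective π := by
    intro y
    obtain ⟨α, rfl⟩ := Submodule.mkQ_surjective _ y
    obtain ⟨h, f, β, hβ, hα⟩ := exists_jinf hx α
    refine ⟨h, ?_⟩
    rw [hπ, LinearMap.comp_apply, Submodule.mkQ_apply, Submodule.mkQ_apply, Submodule.Quotient.eq, hα]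
    have : jinf hx h - (jinf hx h + β + algebraMap F _ f) = -β + algebraMap F _ (-f) := by
      rw [map_neg]; ring
    rw [this]
    exact Submodule.add_mem_sup (neg_mem hβ) (algebraMap_mem_principal _)
  have hker : LinearMap.ker π ≤ LinearMap.ker (lam hx) := by
    intro h hh
    rw [LinearMap.mem_ker] at hh ⊢
    rw [hπ, LinearMap.comp_apply, Submodule.mkQ_apply, Submodule.Quotient.mk_eq_zero] at hh
    obtain ⟨β, hβ, γ, hγ, e⟩ := Submodule.mem_sup.mp hh
    obtain ⟨f, rfl⟩ := hγ
    apply lam_eq_zero_of_jinf hx (f := f)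
    rw [← e]
    have : β + (Algebra.linearMap F ↥(repartitions K F)) f - algebraMap F _ f = β := by
      rw [Algebra.linearMap_apply]; ring
    rw [this]
    exact hβ
  set e := π.quotKerEquivOfSurjective hsurj with he
  set lam' : (F ⧸ LinearMap.ker π) →ₗ[K] K := (LinearMap.ker π).liftQ (lam hx) hker with hlam'
  refine ⟨(lam'.comp e.symm.toLinearMap).comp (Submodule.mkQ _), ?_, ?_⟩
  · rw [mem_Om]
    constructor
    · intro α hα
      rw [LinearMap.comp_apply, Submodule.mkQ_apply, (Submodule.Quotient.mk_eq_zero _).mpr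
        (Submodule.mem_sup_left hα), map_zero]
    · intro α hα
      rw [LinearMap.comp_apply, Submodule.mkQ_apply, (Submodule.Quotient.mk_eq_zero _).mpr
        (Submodule.mem_sup_right hα), map_zero]
  · intro h
    rw [LinearMap.comp_apply, LinearMap.comp_apply]
    have h1 : (Submodule.mkQ (repartitionsOf (D0 K x) ⊔ principalRepartitions K F)) (jinf hx h) = π h := rfl
    rw [h1]
    have h2 : e.symm (π h) = Submodule.Quotient.mk h := by
      rw [LinearEquiv.symm_apply_eq, he]
      rfl
    have h3 : e.symm.toLinearMap (π h) = Submodule.Quotient.mk h := h2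
    rw [h3, hlam', Submodule.liftQ_apply]

/-- The Weil differential of `dx`. -/
noncomputable def weilDx (hx : Transcendental K x) : Module.Dual K ↥(repartitions K F) :=
  (exists_weil hx).choose

theorem weilDx_mem (hx : Transcendental K x) : weilDx hx ∈ Om (D0 K x) :=
  (exists_weil hx).choose_spec.1

theorem weilDx_jinf (hx : Transcendental K x) (h : F) : weilDx hx (jinf hx h) = lam hx h :=
  (exists_weil hx).choose_spec.2 h

theorem weilDx_of_sub_mem (hx : Transcendental K x) {α : ↥(repartitions K F)} {h : F}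
    (hα : α - jinf hx h ∈ repartitionsOf (D0 K x)) : weilDx hx α = lam hx h := by
  have h1 := (mem_Om.mp (weilDx_mem hx)).1 _ hα
  rw [map_sub, sub_eq_zero] at h1
  rw [h1, weilDx_jinf]

theorem weilDx_algebraMap (hx : Transcendental K x) (f : F) :
    weilDx hx (algebraMap F _ f) = 0 :=
  (mem_Om.mp (weilDx_mem hx)).2 _ (algebraMap_mem_principal f)

/-- finite place: reduction to `lam` of an approximation. -/
theorem weilDx_sgl_fin (hx : Transcendental K x) {v₀ : Place K F} (hv₀ : v₀.adicValuation x ≤ 1)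
    (h : F) (m : ℕ) : ∃ f : F, v₀.adicValuation (h - f) ≤ exp (-(m : ℤ)) ∧
      (∀ v : Place K F, v ≠ v₀ → v.adicValuation x ≤ 1 → v.adicValuation f ≤ 1) ∧
      weilDx hx (sgl v₀ h) = - lam hx f := by
  classical
  have hx0 := transcendental_ne_zero hx
  obtain ⟨N, β, hβ, f, hf⟩ := strong_approx hx (Finsupp.single v₀ (-(m : ℤ))) (sgl v₀ h)
  have hcomp : ∀ v, (if v = v₀ then h else 0) = (β : Place K F → F) v + f := by
    intro v
    have := congrFun (congrArg Subtype.val hf) v
    exact this
  have hβfin : ∀ v : Place K F, v.adicValuation x ≤ 1 → v.adicValuation ((β : Place K F → F) v) ≤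
      exp ((Finsupp.single v₀ (-(m : ℤ)) : Divisor K F) v) := by
    intro v hv
    have := hβ v
    rwa [Finsupp.add_apply, Finsupp.smul_apply, poleDiv_of_le_one hx0 hv, smul_zero, add_zero] at this
  have h1 : v₀.adicValuation (h - f) ≤ exp (-(m : ℤ)) := by
    have h2 := hcomp v₀
    rw [if_pos rfl] at h2
    have h3 := hβfin v₀ hv₀
    rw [Finsupp.single_eq_same] at h3
    rw [h2, add_sub_cancel_right]
    exact h3
  have h2 : ∀ v : Place K F, v ≠ v₀ → v.adicValuation x ≤ 1 → v.adicValuation f ≤ 1 := by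
    intro v hv hv1
    have h2 := hcomp v
    rw [if_neg hv] at h2
    have h3 := hβfin v hv1
    rw [Finsupp.single_eq_of_ne hv, exp_zero] at h3
    have h4 : f = - (β : Place K F → F) v := by rw [eq_neg_iff_add_eq_zero, add_comm]; exact h2.symm
    rw [h4, Valuation.map_neg]
    exact h3
  refine ⟨f, h1, h2, ?_⟩
  have h3 : weilDx hx (sgl v₀ h - algebraMap F _ f) = lam hx (-f) := by
    apply weilDx_of_sub_mem
    intro v
    rw [coe_sub_apply, coe_sub_apply, coe_algebraMap_apply, sgl_apply]
    rcases le_one_or hx0 v with hv | hv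
    · rw [jinf_apply_fin hx _ hv, sub_zero, D0_fin hx0 hv, exp_zero]
      by_cases hvv : v = v₀
      · rw [if_pos hvv, hvv]
        refine h1.trans ?_
        rw [← exp_zero, exp_le_exp]; omega
      · rw [if_neg hvv, zero_sub, Valuation.map_neg]
        exact h2 v hvv hv
    · have hvv : v ≠ v₀ := by
        rintro rfl
        exact not_lt_of_le_one hx0 hv₀ hv
      rw [if_neg hvv, jinf_apply_inf hx _ hv]
      simp
  rw [map_sub, weilDx_algebraMap, sub_zero, map_neg] at h3
  exact h3

/-- infinite place -/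
theorem weilDx_sgl_inf (hx : Transcendental K x) {v₀ : Place K F} (hv₀ : v₀.adicValuation x⁻¹ < 1)
    (h : F) (m : ℕ) : ∃ f : F, v₀.adicValuation (f - h) ≤ exp (-(m : ℤ)) ∧
      (∀ v : Place K F, v ≠ v₀ → v.adicValuation x⁻¹ < 1 → v.adicValuation (x * f) < 1) ∧
      weilDx hx (sgl v₀ h) = lam hx f := by
  classical
  have hx0 := transcendental_ne_zero hx
  obtain ⟨f, hf⟩ := weak_approximation (finite_zeros (H3RR.transcendental_inv hx)).toFinset
    (fun v => if v = v₀ then h else 0) (fun v => min (D0 K x v) (-(m : ℤ)))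
  have hf' : ∀ v : Place K F, v.adicValuation x⁻¹ < 1 →
      v.adicValuation (f - if v = v₀ then h else 0) ≤ exp (min (D0 K x v) (-(m : ℤ))) :=
    fun v hv => hf v ((Set.Finite.mem_toFinset _).mpr hv)
  refine ⟨f, ?_, ?_, ?_⟩
  · have h1 := hf' v₀ hv₀
    rw [if_pos rfl] at h1
    exact h1.trans (exp_le_exp.mpr (min_le_right _ _))
  · intro v hvv hv
    have h1 := hf' v hv
    rw [if_neg hvv, sub_zero] at h1
    have h2 := h1.trans (exp_le_exp.mpr (min_le_left _ _))
    rw [D0_inf] at h2
    obtain ⟨h3, h4⟩ := val_eq_exp_poleDiv hx0 hv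
    rw [map_mul, h3]
    calc exp ((poleDiv x : Divisor K F) v) * v.adicValuation f
        ≤ exp ((poleDiv x : Divisor K F) v) * exp (-(2 * (poleDiv x : Divisor K F) v)) :=
          mul_le_mul_right h2 _
      _ = exp (-(poleDiv x : Divisor K F) v) := by rw [← exp_add]; congr 1; ring
      _ < 1 := by rw [← exp_zero, exp_lt_exp]; omega
  · apply weilDx_of_sub_mem
    intro v
    rw [coe_sub_apply, sgl_apply]
    rcases le_one_or hx0 v with hv | hv
    · have hvv : v ≠ v₀ := by
        rintro rfl
        exact not_lt_of_le_one hx0 hv hv₀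
      rw [jinf_apply_fin hx _ hv, sub_zero, if_neg hvv, map_zero]
      exact zero_le
    · rw [jinf_apply_inf hx _ hv, Valuation.map_sub_swap]
      exact (hf' v hv).trans (exp_le_exp.mpr (min_le_left _ _))

theorem weilDx_sgl_fin_eq_zero (hx : Transcendental K x) {v₀ : Place K F} {a : K}
    (hv₀ : v₀.adicValuation (x - algebraMap K F a) < 1) {h : F}
    (hh : v₀.adicValuation ((x - algebraMap K F a) * h) < 1) : weilDx hx (sgl v₀ h) = 0 := by
  obtain ⟨f, h1, h2, h3⟩ := weilDx_sgl_fin hx (le_one_of_sub_lt_one hv₀) h 0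
  rw [h3, lam_eq_zero_of_place hx v₀ hv₀ _ h2, neg_zero]
  have e : (x - algebraMap K F a) * f = (x - algebraMap K F a) * h -
      (x - algebraMap K F a) * (h - f) := by ring
  rw [e]
  refine lt_of_le_of_lt (Valuation.map_sub _ _ _) (max_lt hh ?_)
  rw [map_mul]
  refine mul_lt_one_of_nonneg_of_lt_one_left zero_le hv₀ ?_
  simpa using h1

theorem weilDx_sgl_fin_ne_zero [CharZero K] (hx : Transcendental K x) {v₀ : Place K F} {a : K}
    (hv₀ : v₀.adicValuation (x - algebraMap K F a) < 1) :
    weilDx hx (sgl v₀ (x - algebraMap K F a)⁻¹) ≠ 0 := by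
  obtain ⟨f, h1, h2, h3⟩ := weilDx_sgl_fin hx (le_one_of_sub_lt_one hv₀) (x - algebraMap K F a)⁻¹ 0
  rw [h3, neg_ne_zero]
  apply lam_ne_zero_of_place hx v₀ hv₀ _ h2
  have e : (x - algebraMap K F a) * f - 1 =
      - ((x - algebraMap K F a) * ((x - algebraMap K F a)⁻¹ - f)) := by
    rw [mul_sub, mul_inv_cancel₀ (sub_ne_zero' hx a)]; ring
  rw [e, Valuation.map_neg, map_mul]
  refine mul_lt_one_of_nonneg_of_lt_one_left zero_le hv₀ ?_
  simpa using h1

theorem weilDx_sgl_inf_eq_zero (hx : Transcendental K x) {v₀ : Place K F}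
    (hv₀ : v₀.adicValuation x⁻¹ < 1) {h : F} (hh : v₀.adicValuation (x * h) < 1) :
    weilDx hx (sgl v₀ h) = 0 := by
  have hx0 := transcendental_ne_zero hx
  obtain ⟨h5, h6⟩ := val_eq_exp_poleDiv hx0 hv₀
  obtain ⟨f, h1, h2, h3⟩ := weilDx_sgl_inf hx hv₀ h ((poleDiv x : Divisor K F) v₀ + 1).toNat
  rw [h3]
  apply lam_eq_zero_of_infinite hx
  intro v hv
  by_cases hvv : v = v₀
  · subst hvv
    have e : x * f = x * h + x * (f - h) := by ring
    rw [e]
    refine lt_of_le_of_lt (Valuation.map_add _ _ _) (max_lt hh ?_)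
    rw [map_mul, h5]
    calc exp ((poleDiv x : Divisor K F) v) * v.adicValuation (f - h)
        ≤ exp ((poleDiv x : Divisor K F) v) * exp (-((((poleDiv x : Divisor K F) v + 1).toNat : ℕ) : ℤ)) :=
          mul_le_mul_right h1 _
      _ = exp ((poleDiv x : Divisor K F) v + -((((poleDiv x : Divisor K F) v + 1).toNat : ℕ) : ℤ)) := by
          rw [← exp_add]
      _ < 1 := by
          rw [← exp_zero, exp_lt_exp]
          have := Int.self_le_toNat ((poleDiv x : Divisor K F) v + 1)
          omega
  · exact h2 v hvv hv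

theorem weilDx_sgl_inf_ne_zero [CharZero K] (hx : Transcendental K x) {v₀ : Place K F}
    (hv₀ : v₀.adicValuation x⁻¹ < 1) : weilDx hx (sgl v₀ x⁻¹) ≠ 0 := by
  have hx0 := transcendental_ne_zero hx
  obtain ⟨h5, h6⟩ := val_eq_exp_poleDiv hx0 hv₀
  obtain ⟨f, h1, h2, h3⟩ := weilDx_sgl_inf hx hv₀ x⁻¹ ((poleDiv x : Divisor K F) v₀ + 1).toNat
  rw [h3]
  apply lam_ne_zero_of_infinite hx v₀ hv₀ _ h2
  have e : x * f - 1 = x * (f - x⁻¹) := by field_simp
  rw [e, map_mul, h5]
  calc exp ((poleDiv x : Divisor K F) v₀) * v₀.adicValuation (f - x⁻¹)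
      ≤ exp ((poleDiv x : Divisor K F) v₀) * exp (-((((poleDiv x : Divisor K F) v₀ + 1).toNat : ℕ) : ℤ)) :=
        mul_le_mul_right h1 _
    _ = exp ((poleDiv x : Divisor K F) v₀ + -((((poleDiv x : Divisor K F) v₀ + 1).toNat : ℕ) : ℤ)) := by
        rw [← exp_add]
    _ < 1 := by
        rw [← exp_zero, exp_lt_exp]
        have := Int.self_le_toNat ((poleDiv x : Divisor K F) v₀ + 1)
        omega

theorem sgl_mem_iff {D : Divisor K F} {v : Place K F} {h : F} :
    sgl v h ∈ repartitionsOf D ↔ v.adicValuation h ≤ exp (D v) := by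
  classical
  constructor
  · intro hh
    have := hh v
    rwa [sgl_apply, if_pos rfl] at this
  · intro hh w
    rw [sgl_apply]
    by_cases hw : w = v
    · rw [if_pos hw, hw]; exact hh
    · rw [if_neg hw, map_zero]; exact zero_le

theorem mem_Om_plus {ω : Module.Dual K ↥(repartitions K F)} {W : Divisor K F} (hW : ω ∈ Om W)
    {v : Place K F} (h : ∀ f : F, v.adicValuation f ≤ exp (W v + 1) → ω (sgl v f) = 0) :
    ω ∈ Om (plus W v) := by
  classical
  rw [mem_Om] at hW ⊢
  refine ⟨fun α hα => ?_, hW.2⟩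
  have h1 : ω (sgl v ((α : Place K F → F) v)) = 0 := by
    apply h
    have := hα v
    rwa [single_apply_self'] at this
  have h2 : ω (α - sgl v ((α : Place K F → F) v)) = 0 := by
    apply hW.1
    intro w
    rw [coe_sub_apply, sgl_apply]
    by_cases hw : w = v
    · subst hw
      rw [if_pos rfl, sub_self, map_zero]; exact zero_le
    · rw [if_neg hw, sub_zero]
      have := hα w
      rwa [single_apply_of_ne' W v hw] at this
  rw [map_sub, h1, sub_zero] at h2
  exact h2

theorem divisor_apply_eq {ω : Module.Dual K ↥(repartitions K F)} {W : Divisor K F} (hW : ω ∈ Om W)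
    (hmax : ∀ D, ω ∈ Om D → D ≤ W) {v : Place K F} {d : ℤ}
    (h1 : ∀ f : F, v.adicValuation f ≤ exp d → ω (sgl v f) = 0)
    (h2 : ∃ f : F, v.adicValuation f ≤ exp (d + 1) ∧ ω (sgl v f) ≠ 0) : W v = d := by
  apply le_antisymm
  · by_contra hcon
    push Not at hcon
    obtain ⟨f, hf, hne⟩ := h2
    apply hne
    apply (mem_Om.mp hW).1
    rw [sgl_mem_iff]
    exact hf.trans (exp_le_exp.mpr (by omega))
  · by_contra hcon
    push Not at hcon
    have h3 := hmax _ (mem_Om_plus hW (v := v) fun f hf => h1 f (hf.trans (exp_le_exp.mpr (by omega))))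
    have h4 := h3 v
    rw [single_apply_self'] at h4
    omega

theorem weilDx_ne_zero [CharZero K] (hx : Transcendental K x) : weilDx hx ≠ 0 := by
  obtain ⟨v, hv⟩ := exists_place_lt_one (H3RR.transcendental_inv hx)
  intro h
  apply weilDx_sgl_inf_ne_zero hx hv
  rw [h]; rfl

theorem exists_weilDiv [CharZero K] (hx : Transcendental K x) : ∃ W : Divisor K F,
    weilDx hx ∈ Om W ∧ (∀ D, weilDx hx ∈ Om D → D ≤ W) ∧
    (∀ (v : Place K F) (a : K), v.adicValuation (x - algebraMap K F a) < 1 →
      W v = v.ord (x - algebraMap K F a) - 1) ∧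
    ∀ v : Place K F, v.adicValuation x⁻¹ < 1 → W v = v.ord x - 1 := by
  obtain ⟨W, hW, hmax⟩ := exists_divisor (weilDx_ne_zero hx) ⟨_, weilDx_mem hx⟩
  have hx0 := transcendental_ne_zero hx
  refine ⟨W, hW, hmax, fun v a hv => ?_, fun v hv => ?_⟩
  · have hxa := sub_ne_zero' hx a
    have hval := v.adicValuation_eq_exp_neg_ord hxa
    apply divisor_apply_eq hW hmax
    · intro f hf
      apply weilDx_sgl_fin_eq_zero hx hv
      rw [map_mul, hval]
      calc exp (-v.ord (x - algebraMap K F a)) * v.adicValuation f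
          ≤ exp (-v.ord (x - algebraMap K F a)) * exp (v.ord (x - algebraMap K F a) - 1) :=
            mul_le_mul_right hf _
        _ = exp (-1) := by rw [← exp_add]; congr 1; ring
        _ < 1 := by rw [← exp_zero, exp_lt_exp]; omega
    · refine ⟨_, ?_, weilDx_sgl_fin_ne_zero hx hv⟩
      rw [map_inv₀, hval, ← exp_neg, exp_le_exp]
      omega
  · have hval := v.adicValuation_eq_exp_neg_ord hx0
    apply divisor_apply_eq hW hmax
    · intro f hf
      apply weilDx_sgl_inf_eq_zero hx hv
      rw [map_mul, hval]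
      calc exp (-v.ord x) * v.adicValuation f
          ≤ exp (-v.ord x) * exp (v.ord x - 1) := mul_le_mul_right hf _
        _ = exp (-1) := by rw [← exp_add]; congr 1; ring
        _ < 1 := by rw [← exp_zero, exp_lt_exp]; omega
    · refine ⟨_, ?_, weilDx_sgl_inf_ne_zero hx hv⟩
      rw [map_inv₀, hval, ← exp_neg, exp_le_exp]
      omega

end Jinf

/-- Serre duality for a nonzero Weil differential with divisor `W`. -/
theorem h1_eq_of_maximal {ω : Module.Dual K ↥(repartitions K F)} (hω0 : ω ≠ 0) {W : Divisor K F}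
    (hW : ω ∈ Om W) (hmax : ∀ D, ω ∈ Om D → D ≤ W) (D : Divisor K F) : h1 D = ell (W - D) := by
  have hbij : Function.Bijective (toOm W D ω hW) := by
    refine ⟨toOm_injective W D hW hω0, ?_⟩
    rintro ⟨η, hη⟩
    by_cases hη0 : η = 0
    · exact ⟨0, by rw [map_zero]; exact Subtype.ext hη0.symm⟩
    · obtain ⟨f, hf, rfl⟩ := exists_fmul_eq hW hη hω0 hη0
      have h1 : ω ∈ Om (D + divOf f⁻¹) := by
        have := fmul_mem_Om (inv_ne_zero hf) hη
        rwa [fmul_fmul, mul_inv_cancel₀ hf, fmul_one] at this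
      have h2 := hmax _ h1
      refine ⟨⟨f, ?_⟩, rfl⟩
      rw [mem_riemannRochSpace_iff]
      intro v
      right
      have h3 := h2 v
      rw [Finsupp.add_apply, divOf_apply (inv_ne_zero hf), v.ord_inv] at h3
      rw [Finsupp.sub_apply]
      omega
  rw [← finrank_Om, ell]
  exact (LinearEquiv.ofBijective _ hbij).finrank_eq.symm

end Fermat.Agent.H93.Res
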