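import Fermat.Agent.S18
import Fermat.Agent.H17Unr
import Fermat.Agent.H23RedPic
import Fermat.Agent.H93Weil

/-!
# Reader's guide: function fields in one variable, `Pic⁰` and its reduction (S18, library)

Every theorem of this file is proved by citing a theorem of the library; nothing here is used by any
other file. Editor: helper10, with texts of helper18 (S18), helper23 (reduction of divisor classes)
and helper93 (strong approximation).

**What the block does.** The frozen statements define the Jacobian `J₀(N)(ℚ̄)` as `Pic⁰` of a function
field: divisor classes of degree zero of the field `F_N` of modular functions of level `N` over `ℚ̄`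
(generated by the series `j(q^d)`, `d ∣ N`). No scheme, no Riemann surface, no abelian variety occurs
in the definition, and none is used in this block:

1. Riemann-Roch for function fields over an algebraically closed field of any characteristic
   (it serves 33 of the 60 statements, S01 included);
2. reduction of a function field to a function field of the same genus (Deuring): places, Riemann-Roch
   spaces, divisor classes; injectivity on torsion prime to the residue characteristic;
3. the function field of `X₀(N)`: degree over the `j`-line, good reduction at `ℓ ∤ N` in the form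
   "equality of genera" (Igusa), the reduction map of `J₀(N)`; S18.

**Companion files.** `GuideModularCurves` (places of `X₀(N)` from expansions, Riemann-Hurwitz, genus,
S24), `GuideHecke` (correspondences on `J₀(N)`, Eichler-Shimura, S37), `GuideTorsion` (S27),
`GuideMordellWeil` and `GuideHeights` (S17), `GuideFlatTorsion` (more on good reduction, S19),
`GuideReduction` (the two components of `X₀(mq)` at `q`), `GuideAbelian`, `GuideAbelianTools` (S26;
function fields over arbitrary fields, constant field extensions). Proofs step by step:
`GuideRiemannRoch` (section 1), `GuideDeuring` (section 2, helper97), `GuideRedPic` (section 2,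
helper23), `GuideIgusa` and `GuideModularEquation` (section 3: equality of genera; degree over the
`j`-line).

**Reading order.** Sections 1, 2, 3. Details: NOTES.md, Appendix A.3, notes [268], [291], [117],
[115].

**References.** M. Deuring, Math. Z. 47 (1942); J. Igusa, Amer. J. Math. 81 (1959); H. Stichtenoth,
*Algebraic function fields and codes*.
-/

set_option autoImplicit false
set_option linter.unusedSectionVars false

namespace Fermat.Agent.Guide.FunctionField

open AlgebraicCurve ModularCurve IntermediateField
open Fermat.Agent.H3RR (IsFF)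
open Fermat.Agent.H40 (ReductionData RiemannFor)
open Fermat.Agent.H19 (GoodRed InertiaAction)

/-! ## 1. Function fields over an algebraically closed field

`K` is algebraically closed of arbitrary characteristic; `Place K F`: the discrete valuation rings of
`F` which contain `K`; `v.ord f`: order of `f` at the place `v` (with `v.ord 0 = 0` by convention);
`Divisor K F`: finitely supported functions from places to `ℤ`; `Pic0 K F`: divisors of degree zero
modulo divisors of functions. These are the definitions of the frozen statements (`Fermat.Prelude`).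
-/

section RiemannRoch

variable (K F : Type*) [Field K] [Field F] [Algebra K F]

/-- `IsFF K F` (function field in one variable): `F` is a finite extension of `K(x)` for some
transcendental `x`. (File `H3RR_FF`; the class `H94.FunField` is the same condition.) -/
theorem isFF_iff : IsFF K F ↔ ∃ x : F, Transcendental K x ∧ FiniteDimensional K⟮x⟯ F :=
  ⟨fun h => h.exists_gen, fun h => ⟨h⟩⟩

/-- **Every valuation ring is a place.** A valuation ring `A ≠ F` of `F` which contains `K` is
principal, hence the ring of a `Place`. Proof: the generators of a strictly increasing chain of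
`n + 1` principal ideals, the first one `(y) ≠ 0`, the last one different from `A`, are independent
over `K(y)`, so `n < [F : K(y)]` (`GuideRiemannRoch.chain_bound`). File `H3RR_FF`. -/
theorem valuationSubring_isPrincipal [IsAlgClosed K] [IsFF K F] (A : ValuationSubring F)
    (hK : ∀ a : K, algebraMap K F a ∈ A) : IsPrincipalIdealRing A :=
  H3RR.isPrincipalIdealRing_of_isFF A hK

/-- **Residue fields.** The residue field of a place is `K`; so all places have degree one and the
degree of a divisor is the sum of its coefficients. File `H3RR_FF`. -/
theorem residue_field_eq [IsAlgClosed K] [IsFF K F] (v : Place K F) :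
    Function.Bijective (algebraMap K v.ResidueField) ∧ v.deg = 1 :=
  ⟨H3RR.residue_bijective v, H3RR.deg_eq_one v⟩

/-- **Weak approximation** (Chinese remainder theorem for finitely many places): there is a function
as close as one wants to prescribed functions `a v` at the places `v` of a finite set. Here
`v.adicValuation f ≤ exp m` means `f = 0` or `-m ≤ v.ord f`. File `H3RR_Places`. -/
theorem weak_approximation [IsAlgClosed K] [IsFF K F] (S : Finset (Place K F)) (a : Place K F → F)
    (m : Place K F → ℤ) :
    ∃ f : F, ∀ v ∈ S, v.adicValuation (f - a v) ≤ WithZero.exp (m v) :=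
  H3RR.weak_approximation S a m

/-- **Divisors of functions.** The orders `v.ord f` of a nonzero function form a divisor of degree
zero. Files `H3RR_Degree`, `H3RR_Riemann`. -/
theorem exists_divisor [IsAlgClosed K] [IsFF K F] {f : F} (hf : f ≠ 0) :
    ∃ D : Divisor K F, (∀ v, D v = v.ord f) ∧ Divisor.degree D = 0 :=
  ⟨H3RR.divOf f, H3RR.divOf_apply hf, H3RR.degree_divOf hf⟩

/-- **Functions without zeros and poles are constant.** File `H18Div`. -/
theorem eq_const_of_ord_eq_zero [IsAlgClosed K] [IsFF K F] {f : F}
    (h : ∀ v : Place K F, v.ord f = 0) : ∃ a : K, f = algebraMap K F a :=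
  have : H94.FunField K F := ⟨IsFF.exists_gen⟩
  H18.exists_eq_algebraMap_of_forall_ord_eq_zero h

/-- **Number of poles.** A transcendental function `y` has `[F : K(y)]` poles, counted with
multiplicity. File `H3RR_Riemann`. -/
theorem degree_poles [IsAlgClosed K] [IsFF K F] {y : F} (hy : Transcendental K y) :
    ∃ D : Divisor K F, (∀ v, D v = max (-v.ord y) 0) ∧
      Divisor.degree D = Module.finrank K⟮y⟯ F :=
  ⟨H3RR.poleDiv y, H3RR.poleDiv_apply fun h => hy (h ▸ isAlgebraic_zero), H3RR.degree_poleDiv hy⟩

/-- **Riemann-Roch spaces and the genus.** `L(D) = riemannRochSpace D` is the space of the functions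
`f` with `f = 0` or `v.ord f ≥ -D v` at all places, and the genus `genusFF K F` of the Prelude is
`dim H¹(0)`, the dimension of repartitions modulo (everywhere regular repartitions + `F`). -/
theorem riemannRochSpace_and_genus (D : Divisor K F) (f : F) :
    (f ∈ riemannRochSpace D ↔ ∀ v : Place K F, f = 0 ∨ -D v ≤ v.ord f) ∧
      genusFF K F = Module.finrank K
        (↥(repartitions K F) ⧸ (repartitionsOf (0 : Divisor K F) ⊔ principalRepartitions K F)) :=
  ⟨mem_riemannRochSpace_iff, rfl⟩

/-- **The theorem of Riemann and Roch.** There is a divisor `W` (canonical divisor) of degree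
`2 g - 2` such that `dim L(D) - dim L(W - D) = deg D + 1 - g` for all divisors `D`; all these spaces
are finite dimensional. Proof: Weil's proof with repartitions and Weil differentials.
Files `H3RR_Exact`, `H3RR_Dim`, `H3RR_Genus`, `H3RR_Duality`. -/
theorem riemann_roch [IsAlgClosed K] [IsFF K F] :
    ∃ W : Divisor K F, Divisor.degree W = 2 * (genusFF K F : ℤ) - 2 ∧
      ∀ D : Divisor K F, Module.Finite K (riemannRochSpace D) ∧
        (Module.finrank K (riemannRochSpace D) : ℤ) - Module.finrank K (riemannRochSpace (W - D)) =
          Divisor.degree D + 1 - genusFF K F :=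
  ⟨H3RR.canon K F, H3RR.degree_canon, fun D => ⟨H3RR.finite_L D, H3RR.riemann_roch D⟩⟩

/-- **Strong approximation.** Let `α` be a family of functions, one for every place, with `α v`
regular at `v` for almost all `v`, and let `x` be transcendental. For every divisor `D` there is one
function `f` with `v.ord (α v - f) ≥ -D v` at all `v`, except at the poles of `x`, where a pole of
high order is allowed. Here `v.adicValuation f ≤ exp m` means `f = 0` or `-m ≤ v.ord f`. Proof: the
space `H¹(D + n (x)_∞)` of the theorem of Riemann is zero for large `n`. File `H93Weil`; used in S12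
and S15 (Mazur). (The file imports `H93ResFun`, the functional "coefficient of `1/x` at infinity of
the trace `F → K(x)`"; of that file only one lemma on nonunits is used, in S12 and S15.) -/
theorem strong_approximation [IsAlgClosed K] [IsFF K F] {x : F} (hx : Transcendental K x)
    (D : Divisor K F) (α : Place K F → F)
    (hα : {v : Place K F | ¬ v.adicValuation (α v) ≤ 1}.Finite) :
    ∃ (P : Divisor K F) (n : ℕ) (f : F), (∀ v, P v = max (-v.ord x) 0) ∧
      ∀ v : Place K F, v.adicValuation (α v - f) ≤ WithZero.exp ((D + n • P) v) := by
  obtain ⟨n, β, hβ, f, hf⟩ := H93.Res.strong_approx hx D ⟨α, mem_repartitions_of_finite hα⟩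
  refine ⟨_, n, f, H3RR.poleDiv_apply fun h => hx (h ▸ isAlgebraic_zero), fun v => ?_⟩
  simpa [hf, show α v = β.1 v + f from congrArg (fun a => a.1 v) hf] using hβ v

/-- **Nonspecial divisors.** Outside any finite set `S` of places there are `g` different places
`R_1, ..., R_g` such that the only functions with at most simple poles at the `R_i` are the constants
(`dim L(∑ R_i) = 1`). File `H3RR_Special`; used for coordinates on Jacobians (S15, S17, S19, S32) and
for the theorem of the square (S26, `GuideAbelian`). -/
theorem exists_nonspecial [IsAlgClosed K] [IsFF K F] (S : Finset (Place K F)) :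
    ∃ R : Finset (Place K F), R.card = genusFF K F ∧ Disjoint R S ∧
      Module.finrank K (riemannRochSpace (∑ v ∈ R, Finsupp.single v 1 : Divisor K F)) = 1 := by
  obtain ⟨R, h1, h2, -, h3⟩ := H3RR.exists_nonspecial (K := K) (F := F) S
  exact ⟨R, h1, h2, h3⟩

end RiemannRoch

/-! ## 2. Reduction of function fields

`R : ReductionData K F k E` is a reduction of Gauss type of `F/K` to `E/k`: a valuation ring `R.A` of
`K` with residue map `R.π` onto `k`, a ring `R.B` of integral functions of `F` with a homomorphism
`R.ρ : R.B → E` extending `R.π`, such that every finite dimensional space of functions has a basis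
of integral functions with independent reductions, and every element of `E` is a quotient of
reductions. `RiemannFor K F g c` is Riemann's theorem `dim L(D) = deg D + 1 - g` for `deg D ≥ c`; that
it holds for `F/K` and for `E/k` with the same `g` (equality of genera, `c = 2g`) is the only form in
which good reduction is used. The hypotheses common to the theorems of this section are collected
here; `hdF`, `hdE` hold over algebraically closed fields. -/

section Reduction

variable {K F k E : Type*} [Field K] [Field F] [Algebra K F] [Field k] [Field E] [Algebra k E]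

/-- **Riemann's theorem as a hypothesis** (definition). -/
theorem riemannFor_iff (g c : ℤ) :
    RiemannFor K F g c ↔ ∀ D : Divisor K F, c ≤ Divisor.degree D →
      FiniteDimensional K (riemannRochSpace D) ∧
        (Module.finrank K (riemannRochSpace D) : ℤ) = Divisor.degree D + 1 - g :=
  Iff.rfl

/-- **Degree of the poles under reduction**: if an integral function `x` has poles bounded by the
divisor `D ≥ 0` and its reduction is not zero, then the divisor of poles of the reduction has degree
at most `deg D`. (Integral functions whose reductions are independent over `k(ρ x)` are independent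
over `K(x)`, so `[E : k(ρ x)] ≤ [F : K(x)]`, and these numbers are the degrees of the two divisors of
poles.) File `H40Pole`. -/
theorem degree_poles_reduction [CharZero K] [IsAlgClosed K] [H94.FunField K F] [IsAlgClosed k]
    [IsFF k E] (R : ReductionData K F k E) (x : R.B) (D : Divisor K F) (D' : Divisor k E)
    (hD : 0 ≤ D) (hx : (x : F) ∈ riemannRochSpace D) (hρ : R.ρ x ≠ 0)
    (hD' : ∀ v : Place k E, D' v = max 0 (-(v.ord (R.ρ x)))) :
    Divisor.degree D' ≤ Divisor.degree D :=
  R.poleIneq x D D' hD hx hρ hD'

/-- **Reduction of places (Deuring).** Equality of genera gives a map `r` from the places of `F` to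
the places of `E`, compatible with divisors: `div (ρ x) = r_* (div x)` for all integral functions `x`
with nonzero reduction. Proof: for `n` large `L(n P)` reduces to a space `L(D_n)` with `deg D_n = n`,
and `D_(m + n) = D_m + D_n`, so `D_n = n r(P)` for a place `r(P)`. `hpole` is the conclusion of
`degree_poles_reduction`. Files `H40DeuringMain`, `H40DeuringPlace`. -/
theorem exists_place_reduction (R : ReductionData K F k E) {g c : ℤ} [HasPrincipalDivisors K F]
    [HasPrincipalDivisors k E] [Infinite k] [Nonempty (Place K F)] [Nonempty (Place k E)]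
    (hF : RiemannFor K F g c) (hE : RiemannFor k E g c) (hdF : ∀ v : Place K F, v.deg = 1)
    (hdE : ∀ v : Place k E, v.deg = 1)
    (hpole : ∀ (x : R.B) (D : Divisor K F) (D' : Divisor k E), 0 ≤ D →
      (x : F) ∈ riemannRochSpace D → R.ρ x ≠ 0 →
      (∀ v : Place k E, D' v = max 0 (-(v.ord (R.ρ x)))) → Divisor.degree D' ≤ Divisor.degree D)
    (hgc : g ≤ c) (hc : 0 ≤ c) :
    ∃ r : Place K F → Place k E, ∀ x : R.B, R.ρ x ≠ 0 → ∀ D : Divisor K F,
      (∀ v, D v = v.ord (x : F)) → ∀ w, Finsupp.mapDomain r D w = w.ord (R.ρ x) := by
  obtain ⟨r, -, h⟩ := R.exists_placeReduction hF hE hdF hdE hpole hgc hc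
  exact ⟨r, h⟩

/-- **Riemann-Roch spaces of large degree reduce onto Riemann-Roch spaces**: every function in
`L(r_* D)` is the reduction of an integral function in `L(D)`. File `H18Torsion`. -/
theorem riemannRoch_lift {R : ReductionData K F k E} {r : Place K F → Place k E} {g c : ℤ}
    [HasPrincipalDivisors K F] (hF : RiemannFor K F g c) (hE : RiemannFor k E g c)
    (hdF : ∀ v : Place K F, v.deg = 1) (hdE : ∀ v : Place k E, v.deg = 1)
    (hr : ∀ x : R.B, R.ρ x ≠ 0 → ∀ D : Divisor K F, (∀ v, D v = v.ord (x : F)) →
      ∀ w, Finsupp.mapDomain r D w = w.ord (R.ρ x))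
    {D : Divisor K F} (hD : c ≤ Divisor.degree D) {e : E}
    (he : e ∈ riemannRochSpace (Finsupp.mapDomain r D)) :
    ∃ x : R.B, (x : F) ∈ riemannRochSpace D ∧ R.ρ x = e :=
  H18.exists_lift hF hE hdF hdE hr hD he

/-- **Lifting of roots.** If `m ≠ 0` in `k`, `f` is an integral function with reduction `1` and
divisor `m D`, and `r_* D = 0`, then `f` is an `m`-th power: Newton iteration gives approximate roots
in a fixed Riemann-Roch space (by `riemannRoch_lift`), and the finite dimension of this space
together with `hA` (`R.A` has rank one) gives a root. No completeness. File `H18Torsion`. -/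
theorem exists_root {R : ReductionData K F k E} {r : Place K F → Place k E} {g c : ℤ}
    [IsAlgClosed K] [HasPrincipalDivisors K F] [HasPrincipalDivisors k E] [Nonempty (Place K F)]
    (hF : RiemannFor K F g c) (hE : RiemannFor k E g c) (hdF : ∀ v : Place K F, v.deg = 1)
    (hdE : ∀ v : Place k E, v.deg = 1)
    (hr : ∀ x : R.B, R.ρ x ≠ 0 → ∀ D : Divisor K F, (∀ v, D v = v.ord (x : F)) →
      ∀ w, Finsupp.mapDomain r D w = w.ord (R.ρ x))
    (hA : ∀ a b : R.A, a ≠ 0 → ¬ IsUnit b → ∃ n : ℕ, a ∣ b ^ n) {m : ℕ} (hm : (m : k) ≠ 0)
    (f : R.B) (hf : R.ρ f = 1) (D : Divisor K F) (hfD : ∀ P : Place K F, P.ord (f : F) = m * D P)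
    (hD : Finsupp.mapDomain r D = 0) : ∃ y : F, y ^ m = f :=
  H18.exists_root hF hE hdF hdE hr hA hm f hf D hfD hD

/-- **Injectivity on torsion prime to the residue characteristic.** If `m ≠ 0` in `k`, `m D` is
principal and `r_* D` is principal, then `D` is principal. (Normalise to `r_* D = 0`, then
`exists_root`.) `hconst`: functions of `E` without zeros and poles are constants. File `H18Torsion`;
this replaces "the `m`-torsion of the Jacobian is étale". -/
theorem torsion_injectivity {R : ReductionData K F k E} {r : Place K F → Place k E} {g c : ℤ}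
    [IsAlgClosed K] [HasPrincipalDivisors K F] [HasPrincipalDivisors k E] [Nonempty (Place K F)]
    (hF : RiemannFor K F g c) (hE : RiemannFor k E g c) (hdF : ∀ v : Place K F, v.deg = 1)
    (hdE : ∀ v : Place k E, v.deg = 1)
    (hr : ∀ x : R.B, R.ρ x ≠ 0 → ∀ D : Divisor K F, (∀ v, D v = v.ord (x : F)) →
      ∀ w, Finsupp.mapDomain r D w = w.ord (R.ρ x))
    (hA : ∀ a b : R.A, a ≠ 0 → ¬ IsUnit b → ∃ n : ℕ, a ∣ b ^ n)
    (hconst : ∀ e : E, e ≠ 0 → (∀ Q : Place k E, Q.ord e = 0) → ∃ a : k, e = algebraMap k E a)
    {m : ℕ} (hm : (m : k) ≠ 0) (D : Divisor K F) (hmD : Divisor.IsPrincipal (m • D))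
    (hrD : Divisor.IsPrincipal (Finsupp.mapDomain r D)) : Divisor.IsPrincipal D :=
  H18.isPrincipal_of_mapDomain hF hE hdF hdE hr hA hconst hm D hmD hrD

/-- **Reduction of divisor classes.** `S : GoodRed K F k E` collects a reduction datum, a reduction
`S.r` of places and Riemann's theorem on both sides with the same `S.g`. There is a homomorphism
`Pic⁰(F) → Pic⁰(E)` which sends the class of `D` to the class of `r_* D`. File `H23RedPic`; used in
S12, S15, S19, S32, S39, S40. -/
theorem exists_reduction_of_classes (S : GoodRed K F k E) [IsAlgClosed K] [IsAlgClosed k]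
    [H94.FunField K F] [H94.FunField k E] :
    ∃ φ : Pic0 K F →+ Pic0 k E, ∀ D : Divisor.degZero (K := K) (F := F),
      ∃ h, φ (Pic0.mk D) = Pic0.mk ⟨Finsupp.mapDomain S.r (D : Divisor K F), h⟩ :=
  ⟨H23.redPic0 S, fun D => ⟨_, H23.redPic0_mk S D⟩⟩

/-- **Coordinates on the kernel of reduction.** Let `R_1, ..., R_g` be places of `F` with different
reductions such that only constants have at most simple poles at the reductions. Then every class
with reduction `0` is the class `classOf P R` of `∑ P_i - ∑ R_i` for a tuple of places `P_i` with
`r(P_i) = r(R_i)`, and the tuple is unique. This replaces the formal group of the Jacobian. File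
`H23RedPic`; used in S19, S32. -/
theorem kernel_of_reduction (S : GoodRed K F k E) [IsAlgClosed K] [IsAlgClosed k]
    [H94.FunField K F] [H94.FunField k E] (R : Fin S.g → Place K F)
    (hinj : Function.Injective fun i => S.r (R i))
    (hns : ∀ f ∈ riemannRochSpace (∑ i, Finsupp.single (S.r (R i)) (1 : ℤ)),
      ∃ c : k, f = algebraMap k E c) :
    (∀ x : Pic0 K F, H23.redPic0 S x = 0 →
      ∃ P : Fin S.g → Place K F, (∀ i, S.r (P i) = S.r (R i)) ∧ x = H23.classOf P R) ∧
    ∀ P P' : Fin S.g → Place K F, (∀ i, S.r (P i) = S.r (R i)) →
      (∀ i, S.r (P' i) = S.r (R i)) → H23.classOf P R = H23.classOf P' R → P = P' :=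
  ⟨fun _ hx => H23.IsNonspecial.exists_repr ⟨hinj, hns⟩ hx,
    fun _ _ h h' e => H23.IsNonspecial.classOf_injective ⟨hinj, hns⟩ h h' e⟩

/-- **Invariant lifts.** Let a group `Γ` of semilinear automorphisms of `F` act as inertia
(`InertiaAction`: it preserves integral functions and their reductions). Then `γ x` and `x` have the
same reduction, and every class of `E` is the reduction of a `Γ`-invariant class of `F`.
File `H23RedPic`; used in S12, S15, S19, S32. -/
theorem inertia_and_lifts (S : GoodRed K F k E) [IsAlgClosed K] [IsAlgClosed k]
    [H94.FunField K F] [H94.FunField k E] (Γ : Subgroup (SemilinearAut K F))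
    (I : InertiaAction S Γ) :
    (∀ γ ∈ Γ, ∀ x : Pic0 K F, H23.redPic0 S (γ • x) = H23.redPic0 S x) ∧
      ∀ y : Pic0 k E, ∃ x : Pic0 K F, H23.redPic0 S x = y ∧ ∀ γ ∈ Γ, γ • x = x :=
  ⟨fun _ hγ x => H23.redPic0_smul I hγ x, fun y => H23.exists_fixed_class I y⟩

end Reduction

/-! ## 3. The function field of `X₀(N)` and S18

`jqModC K = q⁻¹ + 744 + ...` is the `q`-expansion of `j` with coefficients in `K`; `qExpand K d`
is the substitution `q ↦ q^d` on Laurent series; `A` is a place of `ℚ̄` above `ℓ` (a valuation ring)
and `k` its residue field. -/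

section ModularFunctionField

-- instance priorities (they only make the file faster)
attribute [-instance] IsLocalRing.ResidueField.algebra
attribute [local instance 5000] SubalgebraClass.toAlgebra

/-- **The field of modular functions** of level `N` over `K` (any field): the subfield of the field
`K((q))` of Laurent series generated over `K` by the series `j(q^d)`, `d ∣ N` (definition of the
Prelude). -/
theorem modularFunctionFieldFullC_eq (K : Type*) [Field K] (N : ℕ) :
    modularFunctionFieldFullC K N =
      IntermediateField.adjoin K
        {x : LaurentSeries K | ∃ (d : ℕ) (_ : NeZero d), d ∣ N ∧ x = qExpand K d (jqModC K)} :=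
  rfl

/-- **Degree over the `j`-line.** If `K` is algebraically closed and `N ≠ 0` in `K`, then
`[K(j(q^d), d ∣ N) : K(j)] = ψ(N) = N ∏_{p ∣ N} (1 + 1/p)`, in every characteristic. Proof: for one
prime after the other, by the monodromy `q^{1/p} ↦ ζ q^{1/p}`. File `H66Degree`. -/
theorem degree_over_j (K : Type*) [Field K] [IsAlgClosed K] (N : ℕ) [NeZero N] (hN : (N : K) ≠ 0) :
    relfinrank K⟮jqModC K⟯ (modularFunctionFieldFullC K N) =
      ∑ d ∈ N.divisors with Squarefree d, N / d :=
  H66.relfinrank_full K N hN

/-- **Good reduction of `X₀(N)` at `ℓ ∤ N`, levels divisible by 2 or 3**: the function field of level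
`N` has the same genus over `k` as over `ℚ̄`. Proof: ramification over the line of a Hauptmodul of
level 2 or 3, which is tame and takes place over three points in both characteristics. Files
`H18Haupt`, `H18Inst`. -/
theorem genus_eq_of_two_or_three_dvd (N : ℕ) [NeZero N] {ℓ : ℕ} [Fact ℓ.Prime] (hℓN : ¬ ℓ ∣ N)
    (A : ValuationSubring (AlgebraicClosure ℚ)) (hA : A.LiesOverPrime ℓ) (h : 2 ∣ N ∨ 3 ∣ N) :
    genusFF (AlgebraicClosure ℚ) (modularFunctionFieldBar N) =
      genusFF (IsLocalRing.ResidueField A)
        (modularFunctionFieldFullC (IsLocalRing.ResidueField A) N) :=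
  H18.genusFF_eq_of_dvd N hℓN A hA h

/-- **Theorem of Igusa, genus form** ("`X₀(N)` has good reduction at `ℓ ∤ N`"): the same for all `N`,
by descent from level `2N` or `3N` with norms and traces. Files `H88Genus`, `H88Descent`, `H88Mod`,
`H88GenusEq`. -/
theorem genus_eq_genus_of_reduction (N : ℕ) [NeZero N] {ℓ : ℕ} [Fact ℓ.Prime] (hℓN : ¬ ℓ ∣ N)
    (A : ValuationSubring (AlgebraicClosure ℚ)) (hA : A.LiesOverPrime ℓ) :
    genusFF (AlgebraicClosure ℚ) (modularFunctionFieldBar N) =
      genusFF (IsLocalRing.ResidueField A)
        (modularFunctionFieldFullC (IsLocalRing.ResidueField A) N) :=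
  H88.genusFFEq N hℓN A hA

/-- **Reduction of places and divisors of `X₀(N)`**, for `A` above `ℓ ∤ N`. There is a map `r` from the
places of the function field over `ℚ̄` to those of the function field over `k`, compatible with
functions: if `y` is a Laurent series with coefficients in `A`, a modular function over `ℚ̄`, whose
reduction `ȳ` is nonzero (and is a modular function over `k`), then `div ȳ = r_* (div y)`. Moreover
the divisors of such `y` generate all principal divisors, so `r_*` induces the homomorphism
`reductionModL A N : J₀(N)(ℚ̄) → Pic⁰` over `k`. (Section 2 for the ring of the Gauss valuation, with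
equality of genera.) Files `H42Gauss`, ..., `H42RedInputs`, `H42Inputs`, `H17Unr`. -/
theorem exists_reduction (N : ℕ) [NeZero N] {ℓ : ℕ} (hℓ : ℓ.Prime) (hℓN : ¬ ℓ ∣ N)
    (A : ValuationSubring (AlgebraicClosure ℚ)) (hA : A.LiesOverPrime ℓ) :
    ∃ r : Place (AlgebraicClosure ℚ) (modularFunctionFieldBar N) →
        Place (IsLocalRing.ResidueField A) (modularFunctionFieldFullC (IsLocalRing.ResidueField A) N),
      ((∀ P, (r P).deg = P.deg) ∧
        ∀ (y : LaurentSeries A) (hy : coeffMap A.subtype y ∈ modularFunctionFieldBar N)
          (hyk : coeffMap (IsLocalRing.residue A) y ∈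
            modularFunctionFieldFullC (IsLocalRing.ResidueField A) N),
          coeffMap (IsLocalRing.residue A) y ≠ 0 →
            ∀ D : Divisor (AlgebraicClosure ℚ) (modularFunctionFieldBar N),
              (∀ P, D P = P.ord (⟨coeffMap A.subtype y, hy⟩ : modularFunctionFieldBar N)) →
                ∀ Q, Finsupp.mapDomain r D Q = Q.ord
                  (⟨coeffMap (IsLocalRing.residue A) y, hyk⟩ :
                    modularFunctionFieldFullC (IsLocalRing.ResidueField A) N)) ∧
        Divisor.principal ≤
          AddSubgroup.closure (integralPrincipalDivisors A (IsLocalRing.residue A) N) :=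
  H17.reductionInputs N hℓ hℓN A hA

/-- **Inertia acts trivially on the reduction**: `σ x` and `x` have the same reduction for
`x ∈ J₀(N)(ℚ̄)` and `σ` in the inertia group of `A`. File `H17Unr` (from `H60Pic`). -/
theorem reduction_inertia (N : ℕ) [NeZero N] {ℓ : ℕ} (hℓ : ℓ.Prime) (hℓN : ¬ ℓ ∣ N)
    (A : ValuationSubring (AlgebraicClosure ℚ)) (hA : A.LiesOverPrime ℓ)
    {σ : AlgebraicClosure ℚ ≃ₐ[ℚ] AlgebraicClosure ℚ} (hσ : σ ∈ A.inertiaSubgroupIn ℚ)
    (x : JZero N) : reductionModL A N (σ • x) = reductionModL A N x :=
  H17.reductionModL_inertia N hℓ hℓN A hA hσ x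

/-- **Rank one.** A valuation ring of an algebraic extension of `ℚ` has rank at most one: a nonunit
has powers divisible by any given nonzero element. File `H18Arch`. -/
theorem valuationSubring_archimedean {L : Type*} [Field L] [CharZero L] [Algebra.IsAlgebraic ℚ L]
    (A : ValuationSubring L) (a b : A) (ha : a ≠ 0) (hb : ¬ IsUnit b) : ∃ n : ℕ, a ∣ b ^ n :=
  H18.exists_dvd_pow A a b ha hb

/-- **S18** (without its hypothesis on the reduction map, which holds by `exists_reduction`): for
`ℓ ∤ N`, `ℓ ∤ m`, a class `z ∈ J₀(N)(ℚ̄)` with `m z = 0` and reduction `0` is zero. -/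
theorem reduction_injective_on_torsion (N : ℕ) [NeZero N] {ℓ : ℕ} [Fact ℓ.Prime] (hℓN : ¬ ℓ ∣ N)
    (A : ValuationSubring (AlgebraicClosure ℚ)) (hA : A.LiesOverPrime ℓ) (m : ℕ) (hm : ¬ ℓ ∣ m)
    (z : JZero N) (hmz : m • z = 0) (hz : reductionModL A N z = 0) : z = 0 :=
  S18.result N hℓN A hA (H17.reductionInputs N Fact.out hℓN A hA) m hm z hmz hz

end ModularFunctionField

end Fermat.Agent.Guide.FunctionField
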