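import Fermat.Agent.H18CmInv
import Fermat.Agent.H18C2

/-!
# Reader's guide: lifting functions from characteristic `q` to characteristic zero

Companion of `GuideCarayol` (section D, theorems 11 and 12) and of `GuideIgusa`: the steps between
the equality of the genera of `X₀(m)` in characteristic `0` and `q` and the lifting of functions on
the special fibre.  It contains no new mathematics and nothing imports it: all theorems are proved by
citing theorems of the library.  Editor: helper66; the library files are those of helper18
(`H18Int`, `H18ResData`, `H18Lift`, `H18LiftK`, `H18LiftKK`, `H18LiftGR`, `H18Dedekind`, `H18CmInv`,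
`H18DerLift`, `H18C2`, `H18BaseDeg`) and, for one theorem each, `H40Deuring` (helper40) and
`H88Descent` (helper88).  In prose: NOTES.md, Appendix A.6, [118].

**Where it is used.**  Every cited theorem is in the proof terms of S01, S03, S04, S06, S36, S38,
S43, S45, S46, S50, S58, S59, S60 (the models of `X₀(q m)` and `X₀(q² m)` at `q`, `GuideCarayol`); the
theorems on integral functions over an algebraically closed field (`integral_in_subfield`,
`integral_iff_places`, `integral_reduces`, `lift_integral`, `lift_level`, `derivation_level`) are also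
in those of S39, S40, and `finrank_red` and `space_reduction` are in those of 31 statements
(`space_reduction` is a step of the theorem of Igusa in genus form; `finrank_red` is also in those of
S26).

**The setting.**  `L` is an algebraically closed field of characteristic zero with a valuation ring
`A` and residue map `π : A → k` onto an algebraically closed field `k` in which `m ≠ 0`.  The function
field `F` of `X₀(m)` over `L` is a subfield of `L((q))`, the function field of `X₀(m)` over `k` is
`E = k(j(q^d) : d ∣ m) ⊂ k((q))`.  Reduction of the coefficients of the expansions is a map from a ring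
`B ⊂ F` onto `E` (Gauss valuation).

**The result.**  (i) The reduction of a function in `B` which is integral over `L[j]` is integral over
`k[j]`.  (ii) Every element of `E` which is integral over `k[j]` is the reduction of a function in `B`
which is integral over `L[j]`.  (iii) In (ii) the function can be found with coefficients in a subfield
`K ⊂ L` if the residue field of `K` is already `k` (for instance the inertia field in `Q̄`).  The same
holds with `1/j` in place of `j`: functions which are regular at the cusps.

**The idea.**  Integral over `L[j]` means: no poles outside the cusps.  The spaces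
`L(n (j)_∞)` of functions with poles bounded by `n` times the poles of `j` have for `n ≥ 2g` the
dimension `n [F : L(j)] + 1 - g` by Riemann-Roch, and the same number is the dimension of the space
for `E`, because the degrees of `j` agree (`ψ(m)`, `GuideModularEquation`) and the genera agree
(`GuideIgusa`).  Reduction preserves dimensions of spaces, so it is surjective (ii).  Galois descent
gives a basis of `L(n (j)_∞)` over `K`, and again by dimensions the reductions of its elements over
`K` are everything (iii).  Neither completeness of `A` nor smoothness of a model is used.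
-/

set_option autoImplicit false

open AlgebraicCurve ModularCurve IntermediateField Fermat.Agent.H94
open scoped Polynomial

noncomputable section

namespace Fermat.Agent.Guide.FunctionLifting

/-! ## 1. Integral functions and places -/

/-- **Integrality does not depend on the ambient field**: for a homomorphism `ι : F → E` of extension
fields of `K`, `ι f` is integral over `K[ι x]` if and only if `f` is integral over `K[x]`.  File:
`H18ResData`. -/
theorem integral_in_subfield {K F E : Type*} [Field K] [Field F] [Algebra K F] [Field E]
    [Algebra K E] (ι : F →ₐ[K] E) (x f : F) :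
    IsIntegral (Algebra.adjoin K {ι x}) (ι f) ↔ IsIntegral (Algebra.adjoin K {x}) f :=
  H18.isIntegral_adjoin_iff ι x f

/-- **Integral functions have no new poles**: let `F` be finite and separable over `K(x)`, `x`
transcendental.  Then `f` is integral over `K[x]` if and only if `f` is regular at all places at which
`x` is regular.  (The integral closure of `K[x]` is a Dedekind ring, whose maximal ideals are these
places.)  File: `H18Int`. -/
theorem integral_iff_places {K F : Type*} [Field K] [Field F] [Algebra K F] {x : F}
    [FiniteDimensional K⟮x⟯ F] [Algebra.IsSeparable K⟮x⟯ F] (hx : Transcendental K x) {f : F} :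
    IsIntegral (Algebra.adjoin K {x}) f ↔
      ∀ v : Place K F, x ∈ v.toValuationSubring → f ∈ v.toValuationSubring :=
  H18.isIntegral_iff_forall_mem hx

/-- **Riemann-Roch spaces and integrality.**  `f` has at most the poles of `x^n` if and only if `f` is
integral over `K[x]` and `f / x^n` is integral over `K[1/x]`.  File: `H18LiftK`. -/
theorem mem_space_iff {K F : Type*} [Field K] [Field F] [Algebra K F] [IsAlgClosed K] [CharZero K]
    [FunField K F] {x : F} (hx : Transcendental K x) (n : ℕ) (f : F) :
    f ∈ riemannRochSpace (n • (H3RR.poleDiv x : Divisor K F)) ↔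
      IsIntegral (Algebra.adjoin K {x}) f ∧ IsIntegral (Algebra.adjoin K {x⁻¹}) (f * x⁻¹ ^ n) :=
  H18.mem_L_pole_iff_isIntegral hx n f

/-! ## 2. Algebraically closed fields

`R : ReductionData K F k E` is a reduction of Gauss type of the function field `F/K` to `E/k`: a
valuation ring `R.A` of `K` with residue map onto `k`, a ring `R.B ⊂ F` and a homomorphism
`R.ρ : R.B → E`, such that every finite dimensional space `V ⊂ F` has a basis of elements of `R.B` with
independent reductions, and every element of `E` is a quotient of reductions (`GuideFunctionField`,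
section 2).  `R.red V` is the space of the reductions of the elements of `V ∩ R.B`. -/

section Abstract

variable {K F k E : Type*} [Field K] [Field F] [Algebra K F] [Field k] [Field E] [Algebra k E]

/-- **Reduction preserves dimensions**: `dim_k (red V) = dim_K V` for every finite dimensional space
`V ⊂ F`.  File: `H40Deuring`. -/
theorem finrank_red (R : H40.ReductionData K F k E) (V : Submodule K F) [FiniteDimensional K V] :
    (∀ e : E, e ∈ R.red V ↔ ∃ b : R.B, (b : F) ∈ V ∧ R.ρ b = e) ∧
      FiniteDimensional k (R.red V) ∧ Module.finrank k (R.red V) = Module.finrank K V :=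
  ⟨fun _ => Iff.rfl, (R.finrank_red V).1, (R.finrank_red V).2⟩

/-- **Reduction of Riemann-Roch spaces.**  Let `x ∈ B` be a function whose reduction is transcendental,
with `[F : K(x)] = [E : k(ρ x)]`, and let the genera be equal.  For `n ≥ 2g` the reduction of
`L(n (x)_∞)` is `L(n (ρ x)_∞)`: it is contained in it, and both dimensions are
`n [F : K(x)] + 1 - g`.  File: `H88Descent`. -/
theorem space_reduction [IsAlgClosed K] [IsAlgClosed k] [H3RR.IsFF K F] [H3RR.IsFF k E]
    [CharZero K] (R : H40.ReductionData K F k E) {x : R.B} (hx : Transcendental k (R.ρ x))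
    (hdeg : Module.finrank K⟮(x : F)⟯ F = Module.finrank k⟮R.ρ x⟯ E)
    (hg : genusFF K F = genusFF k E) {n : ℕ} (hn : 2 * genusFF K F ≤ n) :
    R.red (riemannRochSpace (n • (H3RR.poleDiv (x : F) : Divisor K F))) =
      riemannRochSpace (n • (H3RR.poleDiv (R.ρ x) : Divisor k E)) :=
  H88.red_eq R hx hdeg hg hn

/-- **Integral functions have integral reductions** (result (i)).  Let `E` be separable over `k(ρ x)`
and `[F : K(x)] = [E : k(ρ x)]`.  If `b ∈ B` is integral over `K[x]`, its reduction is integral over
`k[ρ x]`.  (The genera may be different.)  File: `H18Lift`. -/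
theorem integral_reduces [IsAlgClosed K] [IsAlgClosed k] [FunField K F] [FunField k E] [CharZero K]
    (R : H40.ReductionData K F k E) (x : R.B) (hx : Transcendental k (R.ρ x))
    (hdeg : Module.finrank K⟮(x : F)⟯ F = Module.finrank k⟮R.ρ x⟯ E)
    (hsep : Algebra.IsSeparable k⟮R.ρ x⟯ E) {b : R.B}
    (hb : IsIntegral (Algebra.adjoin K {(x : F)}) (b : F)) :
    IsIntegral (Algebra.adjoin k {R.ρ x}) (R.ρ b) :=
  H18.isIntegral_ρ R x hx hdeg hsep hb

/-- **Lifting of integral functions** (result (ii)).  If moreover the genera are equal, every element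
of `E` which is integral over `k[ρ x]` is the reduction of an element of `B` which is integral over
`K[x]`: it is in `L(n (ρ x)_∞)` for large `n`.  File: `H18Lift`. -/
theorem lift_integral [IsAlgClosed K] [IsAlgClosed k] [FunField K F] [FunField k E] [CharZero K]
    (R : H40.ReductionData K F k E) (x : R.B) (hx : Transcendental k (R.ρ x))
    (hdeg : Module.finrank K⟮(x : F)⟯ F = Module.finrank k⟮R.ρ x⟯ E)
    (hsep : Algebra.IsSeparable k⟮R.ρ x⟯ E) (hg : genusFF K F = genusFF k E) {e : E}
    (he : IsIntegral (Algebra.adjoin k {R.ρ x}) e) :
    ∃ b : R.B, R.ρ b = e ∧ IsIntegral (Algebra.adjoin K {(x : F)}) (b : F) :=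
  H18.exists_lift_isIntegral R x hx hdeg hsep hg he

end Abstract

/-! ## 3. Galois descent of Riemann-Roch spaces

`L/K` is an extension of fields such that the elements of `L` which are fixed by all automorphisms of
`L` over `K` are in `K` (`hfix`).  For instance `L` is the algebraic closure of a perfect field `K`. -/

/-- **Galois descent for spaces with coordinates.**  Let `W` be a finite dimensional space over `L`
with linear functions `c_i` which separate points, and let `W` be stable under the automorphisms `σ` of
`L/K`, applied to the coordinates.  Then `W` is spanned by its elements with coordinates in `K`.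
(Choose coordinates which are a basis of the dual space; the elements of the dual basis of `W` are
fixed by all `σ`, so their coordinates are in `K`.)  File: `H18LiftK`. -/
theorem descent {K L : Type*} [Field K] [Field L] [Algebra K L]
    (hfix : ∀ z : L, (∀ σ : L ≃ₐ[K] L, σ z = z) → ∃ a : K, algebraMap K L a = z)
    {W : Type*} [AddCommGroup W] [Module L W] [FiniteDimensional L W]
    {ι : Type*} (c : ι → W →ₗ[L] L) (hc : ∀ w, (∀ i, c i w = 0) → w = 0)
    (hσ : ∀ (σ : L ≃ₐ[K] L) (w : W), ∃ w' : W, ∀ i, c i w' = σ (c i w)) :
    Submodule.span L {w : W | ∀ i, ∃ a : K, algebraMap K L a = c i w} = ⊤ :=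
  H18.descent_gen hfix c hc hσ

/-- **Rational bases of Riemann-Roch spaces.**  `FL ⊂ L((q))` is a function field over `L` which is
stable under the automorphisms of `L/K` acting on the coefficients, `FK ⊂ K((q))` consists of the series
over `K` which are in `FL` (`hdesc`, `hKL`), and `x ∈ FL` is transcendental and fixed.  Then the space
`L(m (x)_∞)` has a basis of elements of `FK`.  (Stability of the space: `mem_space_iff`.  The
coordinates are the coefficients of the expansions.)  File: `H18LiftK`. -/
theorem rational_basis {K L : Type*} [Field K] [Field L] [Algebra K L] [IsAlgClosed L] [CharZero L]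
    (hfix : ∀ z : L, (∀ σ : L ≃ₐ[K] L, σ z = z) → ∃ a : K, algebraMap K L a = z)
    (FL : IntermediateField L (LaurentSeries L)) [FunField L FL]
    (hσF : ∀ σ : L ≃ₐ[K] L, ∀ f ∈ FL, coeffMap (σ : L →+* L) f ∈ FL)
    (FK : IntermediateField K (LaurentSeries K))
    (hdesc : ∀ g : LaurentSeries K, coeffMap (algebraMap K L) g ∈ FL → g ∈ FK)
    (hKL : ∀ g ∈ FK, coeffMap (algebraMap K L) g ∈ FL) (x : FL) (hx : Transcendental L x)
    (hxσ : ∀ σ : L ≃ₐ[K] L, coeffMap (σ : L →+* L) (x : LaurentSeries L) = x) (m : ℕ) :
    ∃ g : Fin (Module.finrank L (riemannRochSpace (m • (H3RR.poleDiv x : Divisor L FL)))) → FK,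
      LinearIndependent K g ∧ ∀ i, ∃ h : coeffMap (algebraMap K L) (g i : LaurentSeries K) ∈ FL,
        (⟨_, h⟩ : FL) ∈ riemannRochSpace (m • (H3RR.poleDiv x : Divisor L FL)) :=
  H18.exists_rational_basis hfix FL hσF FK hdesc hKL x hx hxσ m

/-- **Rational lifts.**  Let `RK` and `RL` be compatible reductions of `FK/K` and `FL/L` to the same
`E/k`, and let a space `V ⊂ FL` have a basis in `FK`.  Every reduction of an element of `V` is the
reduction of an element of `V` which comes from `FK`.  (The space over `K` spanned by the basis has the
same dimension, so its reduction is everything.)  The residue fields of `K` and `L` are equal: this is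
where it is used.  File: `H18LiftK`. -/
theorem rational_lift {K L k FK FL E : Type*} [Field K] [Field L] [Algebra K L] [Field k]
    [Field FK] [Field FL] [Field E] [Algebra K FK] [Algebra L FL] [Algebra k E]
    (RK : H40.ReductionData K FK k E) (RL : H40.ReductionData L FL k E) (ε : FK →+* FL)
    (hε : ∀ a : K, ε (algebraMap K FK a) = algebraMap L FL (algebraMap K L a))
    (hcomp : ∀ b : RK.B, ∃ h : ε (b : FK) ∈ RL.B, RL.ρ ⟨_, h⟩ = RK.ρ b) (V : Submodule L FL)
    [FiniteDimensional L V] (g : Fin (Module.finrank L V) → FK) (hg : LinearIndependent K g)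
    (hgV : ∀ i, ε (g i) ∈ V) {e : E} (he : e ∈ RL.red V) :
    ∃ b : RK.B, RK.ρ b = e ∧ ε (b : FK) ∈ V :=
  H18.exists_rational_lift RK RL ε hε hcomp V g hg hgV he

/-- **Integrality over `K[y]` and over `L[y]`.**  `L/K` algebraic, `ε : EK → EL` a homomorphism of
fields over `K → L`.  If `ε f` is integral over `L[ε y]`, then `f` is integral over `K[y]`.  File:
`H18LiftK`. -/
theorem integral_of_extension {K L EK EL : Type*} [Field K] [Field L] [Algebra K L] [Field EK]
    [Field EL] [Algebra K EK] [Algebra L EL] [Algebra.IsAlgebraic K L] (ε : EK →+* EL)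
    (hε : ∀ a : K, ε (algebraMap K EK a) = algebraMap L EL (algebraMap K L a)) {y f : EK}
    (hf : IsIntegral (Algebra.adjoin L {ε y}) (ε f)) : IsIntegral (Algebra.adjoin K {y}) f :=
  H18.isIntegral_of_ext ε hε hf

/-! ## 4. The coordinate rings of the special fibre

`k` is a field of any characteristic and `m ≥ 1`.  The function field of `X₀(m)` over `k` is
`modularFunctionFieldFullC k m = k(j(q^d) : d ∣ m) ⊂ k((q))`. -/

/-- **The rings `Cm` and `CmInv`** consist of the functions on `X₀(m)` over `k` which are integral over
`k[j]`, respectively over `k[1/j]`: functions which are regular outside the cusps, respectively at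
all points where `j ≠ 0` (the cusps included).  They contain `j`, respectively `1/j`.  A homomorphism
`τ : k → k`, applied to the coefficients, maps `Cm` to itself, and if `τ` is an automorphism, `x` is in
`Cm` if and only if `τ x` is (`H18.coeffEquiv k τ` is `τ` on the coefficients).  Files: `H18ResData`,
`H18CmInv`. -/
theorem coordinate_rings {k : Type*} [Field k] {m : ℕ} {x : LaurentSeries k} :
    (x ∈ H18.Cm k m ↔ x ∈ modularFunctionFieldFullC k m ∧
      IsIntegral (Algebra.adjoin k {jqModC k}) x) ∧
    (x ∈ H18.CmInv k m ↔ x ∈ modularFunctionFieldFullC k m ∧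
      IsIntegral (Algebra.adjoin k {(jqModC k)⁻¹}) x) ∧
    jqModC k ∈ H18.Cm k m ∧ (jqModC k)⁻¹ ∈ H18.CmInv k m ∧
    (∀ τ : k →+* k, x ∈ H18.Cm k m → coeffMap τ x ∈ H18.Cm k m) ∧
    ∀ τ : k ≃+* k, x ∈ H18.Cm k m ↔ H18.coeffEquiv k τ x ∈ H18.Cm k m :=
  ⟨H18.mem_Cm, H18.mem_CmInv, H18.jqModC_mem_Cm, H18.inv_jqModC_mem_CmInv,
    fun τ h => H18.coeffMap_mem_Cm k τ h, fun τ => H18.coeffEquiv_mem_Cm_iff k τ⟩

/-- **Integral closures of `K[x]` in a function field.**  `F/K(x)` is finite and separable, `x`
transcendental, and `C` is the ring of the elements of `E ⊃ F` which come from elements of `F` integral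
over `K[x]`.  Then `C` is a Dedekind ring, and if `K` is algebraically closed, its residue fields at
all maximal ideals are `K`.  File: `H18Dedekind`. -/
theorem integral_closure_facts {K F E : Type*} [Field K] [Field F] [Algebra K F] [Field E]
    [Algebra K E] (ι : F →ₐ[K] E) (x : F) (C : Subalgebra K E)
    (hC : ∀ y, y ∈ C ↔ ∃ f : F, ι f = y ∧ IsIntegral (Algebra.adjoin K {x}) f)
    [FiniteDimensional K⟮x⟯ F] [Algebra.IsSeparable K⟮x⟯ F] (hx : Transcendental K x) :
    IsDedekindDomain C ∧ ([IsAlgClosed K] → ∀ n : Ideal C, n.IsMaximal → ∀ c : C,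
      ∃ a : K, c - algebraMap K C a ∈ n) :=
  ⟨H18.isDedekindDomain_intImage ι x C hC hx,
    fun {_} n hn c => H18.res_surj_intImage ι x C hC hx n hn c⟩

/-- **`j` is a separating element**: for `k` algebraically closed and `m ≠ 0` in `k` the function
field `F` of `X₀(m)` over `k` is finite and separable over `k(j)`.  (Finite by `GuideModularEquation`;
separable, because `j = 1/q + ...` is not a `p`-th power: `separable_of_simple_pole` in
`GuideIgusa`.)  File: `H18Dedekind`. -/
theorem separable_over_j {k : Type*} [Field k] [IsAlgClosed k]
    (F : IntermediateField k (LaurentSeries k)) (hj : jqModC k ∈ F) (m : ℕ) (hm : (m : k) ≠ 0)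
    (hF : F = modularFunctionFieldFullC k m) :
    FiniteDimensional k⟮(⟨jqModC k, hj⟩ : F)⟯ F ∧ Algebra.IsSeparable k⟮(⟨jqModC k, hj⟩ : F)⟯ F ∧
      Transcendental k (⟨jqModC k, hj⟩ : F) :=
  H18.cm_aux F hj m hm hF (hF ▸ H18.funField_Cm k m hm)

/-- **`Cm` and `CmInv` are Dedekind rings** with all residue fields equal to `k`, if `k` is
algebraically closed and `m ≠ 0` in `k`.  This replaces the smoothness of the special fibre.  Files:
`H18Dedekind`, `H18CmInv`. -/
theorem coordinate_rings_dedekind {k : Type*} [Field k] [IsAlgClosed k] {m : ℕ}
    (hm : (m : k) ≠ 0) :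
    (IsDedekindDomain (H18.Cm k m) ∧ ∀ n : Ideal (H18.Cm k m), n.IsMaximal →
      ∀ c : H18.Cm k m, ∃ a : k, c - algebraMap k (H18.Cm k m) a ∈ n) ∧
    IsDedekindDomain (H18.CmInv k m) ∧ ∀ n : Ideal (H18.CmInv k m), n.IsMaximal →
      ∀ c : H18.CmInv k m, ∃ a : k, c - algebraMap k (H18.CmInv k m) a ∈ n :=
  ⟨⟨H18.isDedekindDomain_Cm k m hm, H18.res_surj_Cm k m hm⟩, H18.isDedekindDomain_CmInv hm,
    H18.res_surj_CmInv hm⟩

/-! ## 5. Lifting for `X₀(m)`

`laurentBaseChange L (modularFunctionFieldFull m)` is the function field of `X₀(m)` over a field `L` of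
characteristic zero, inside `L((q))`.  `H42.modReductionData A π m hπ hdeg` is the reduction of Gauss
type given by the coefficients of the expansions (`GuideDeuring`): `B` consists of the quotients
of functions with coefficients in `A` whose denominator is not zero modulo the maximal ideal. -/

/-- **The hypotheses on degree and genus.**  `DegLE L k m`: the degree of `j` on `X₀(m)` over `L` is at
most the degree over `k`, and it is not `0` (finite); it holds if `k` is algebraically closed and
`m ≠ 0` in `k`, for every field `L` of characteristic zero (section 7).  `GenusFFEq L k m`: the genera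
over `L` and `k` are equal (`igusa` in `GuideIgusa`).  Files: `H42GaussMod`, `H18Inst`, `H18BaseDeg`. -/
theorem degree_and_genus {L k : Type*} [Field L] [Algebra ℚ L] [CharZero L] [Field k] {m : ℕ} :
    (H42.DegLE L k m ↔
      relfinrank L⟮jqModC L⟯ (modularFunctionFieldFullC L m) ≠ 0 ∧
      relfinrank L⟮jqModC L⟯ (modularFunctionFieldFullC L m) ≤
        relfinrank k⟮jqModC k⟯ (modularFunctionFieldFullC k m)) ∧
    (H18.GenusFFEq L k m ↔ genusFF L (laurentBaseChange L (modularFunctionFieldFull m)) =
      genusFF k (modularFunctionFieldFullC k m)) ∧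
    ([IsAlgClosed k] → (m : k) ≠ 0 → H42.DegLE L k m) :=
  ⟨Iff.rfl, Iff.rfl, fun {_} hm => H18.degLE_of_charZero L m hm⟩

/-- **Over an algebraically closed field.**  If the genera are equal, every `c ∈ Cm` is the reduction of
a function `b ∈ B` which is integral over `L[j]`; and such functions always reduce to elements of `Cm`.
This is `lift_integral` and `integral_reduces` for `x = j`.  File: `H18Lift`. -/
theorem lift_level {L : Type*} [Field L] [Algebra ℚ L] [IsAlgClosed L] (A : ValuationSubring L)
    {k : Type*} [Field k] [IsAlgClosed k] (π : A →+* k) [IsLocalHom π] (m : ℕ)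
    (hπ : Function.Surjective π) (hdeg : H42.DegLE L k m) (hm : (m : k) ≠ 0) :
    (H18.GenusFFEq L k m → ∀ c ∈ H18.Cm k m, ∃ b : (H42.modReductionData A π m hπ hdeg).B,
      (((H42.modReductionData A π m hπ hdeg).ρ b : modularFunctionFieldFullC k m) :
        LaurentSeries k) = c ∧
      IsIntegral (Algebra.adjoin L {jqModC L})
        ((b : laurentBaseChange L (modularFunctionFieldFull m)) : LaurentSeries L)) ∧
    ∀ b : (H42.modReductionData A π m hπ hdeg).B, IsIntegral (Algebra.adjoin L {jqModC L})
        ((b : laurentBaseChange L (modularFunctionFieldFull m)) : LaurentSeries L) →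
      (((H42.modReductionData A π m hπ hdeg).ρ b : modularFunctionFieldFullC k m) :
        LaurentSeries k) ∈ H18.Cm k m :=
  ⟨fun hg _ hc => H18.lift_Cm A π m hπ hdeg hm hg hc,
    fun _ hb => H18.res_mem_Cm A π m hπ hdeg hm hb⟩

/-- **Compatibility of the reductions over `K ⊂ L`.**  Let `AK` and `AL` be valuation rings of `K` and
`L` with residue maps `πK`, `πL` onto the same field `k`, and `AK ⊂ AL` by `iA`, compatible with the
residue maps.  If `b` is in the ring `B` for `K`, then it is in the ring `B` for `L`, with the same
reduction (`H18.incKL m` is the inclusion of the function field over `K` into the one over `L`).  File: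
`H18LiftK`. -/
theorem reductions_compatible {K L : Type*} [Field K] [Field L] [Algebra ℚ K] [Algebra ℚ L]
    [Algebra K L] (AK : ValuationSubring K) (AL : ValuationSubring L) {k : Type*} [Field k]
    (πK : AK →+* k) (πL : AL →+* k) (iA : AK →+* AL)
    (hiA : ∀ a, ((iA a : AL) : L) = algebraMap K L a) (hπ : πK = πL.comp iA) (m : ℕ)
    (hπK : Function.Surjective πK) (hπL : Function.Surjective πL) (hdK : H42.DegLE K k m)
    (hdL : H42.DegLE L k m) [IsLocalHom πK] [IsLocalHom πL]
    (b : (H42.modReductionData AK πK m hπK hdK).B) :
    ∃ h : H18.incKL (L := L) m (b : laurentBaseChange K (modularFunctionFieldFull m)) ∈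
        (H42.modReductionData AL πL m hπL hdL).B,
      (H42.modReductionData AL πL m hπL hdL).ρ ⟨_, h⟩ =
        (H42.modReductionData AK πK m hπK hdK).ρ b :=
  H18.red_comp AK AL πK πL iA hiA hπ m hπK hπL hdK hdL b

section Subfield

variable {K L : Type*} [Field K] [Field L] [Algebra ℚ K] [Algebra ℚ L] [Algebra K L]
  (AK : ValuationSubring K) (AL : ValuationSubring L) {k : Type*} [Field k] (πK : AK →+* k)
  (πL : AL →+* k) (iA : AK →+* AL) (hiA : ∀ a, ((iA a : AL) : L) = algebraMap K L a)
  (hπ : πK = πL.comp iA) (m : ℕ) (hπK : Function.Surjective πK) (hπL : Function.Surjective πL)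
  [IsAlgClosed L] [IsAlgClosed k] [IsLocalHom πK] [IsLocalHom πL] [Algebra.IsAlgebraic K L]
  (hm : (m : k) ≠ 0)
  (hfix : ∀ z : L, (∀ σ : L ≃ₐ[K] L, σ z = z) → ∃ a : K, algebraMap K L a = z)

include hiA hπ hπL hm hfix in
/-- **Lifting over a subfield with the same residue field** (result (iii)).  Hypotheses as in
`reductions_compatible`, `L` algebraically closed and algebraic over `K`, `hfix` as in section 3,
`m ≠ 0` in `k`, equal genera.  Every `c ∈ Cm` is the reduction of a function over `K` which is integral
over `K[j]`.  Applied to `L = Q̄` and the inertia field `K` of a place (`lift_special` in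
`GuideCarayol`).  File: `H18LiftKK`. -/
theorem lift_over_subfield (hdK : H42.DegLE K k m) (hg : H18.GenusFFEq L k m)
    {c : LaurentSeries k} (hc : c ∈ H18.Cm k m) :
    ∃ b : (H42.modReductionData AK πK m hπK hdK).B,
      (((H42.modReductionData AK πK m hπK hdK).ρ b : modularFunctionFieldFullC k m) :
        LaurentSeries k) = c ∧
      IsIntegral (Algebra.adjoin K {jqModC K})
        ((b : laurentBaseChange K (modularFunctionFieldFull m)) : LaurentSeries K) :=
  H18.lift_Cm_K AK AL πK πL iA hiA hπ m hπK hπL hdK hm hfix hg hc

include hiA hπ hπK hπL hm hfix in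
/-- **The same at the cusps**: every `c ∈ CmInv` is the residue of a function over `K` which is integral
over `K[1/j]`.  Here the reduction is expressed with the Gauss ring `H99.GR AK πK` and its residue map
`H99.gres` (`gaussRing` in `GuideCarayol`).  File: `H18LiftGR`. -/
theorem lift_at_cusps (hg : H18.GenusFFEq L k m) {c : LaurentSeries k} (hc : c ∈ H18.CmInv k m) :
    ∃ f : laurentBaseChange K (modularFunctionFieldFull m),
      IsIntegral (Algebra.adjoin K {(jqModC K)⁻¹}) (f : LaurentSeries K) ∧
      (f : LaurentSeries K) ∈ H99.GR AK πK ∧ H99.gres AK πK (f : LaurentSeries K) = c :=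
  H18.lift_inv_GR AK AL πK πL iA hiA hπ m hπK hπL hm hfix hg hc.1 hc.2

end Subfield

/-- **The two descriptions of the reduction agree**: the elements of `B` are in the Gauss ring, and
their reductions are their residues.  File: `H18LiftGR`. -/
theorem reduction_is_residue {L : Type*} [Field L] [Algebra ℚ L] (A : ValuationSubring L)
    {k : Type*} [Field k] (π : A →+* k) [IsLocalHom π] (N : ℕ) (hπ : Function.Surjective π)
    (hdeg : H42.DegLE L k N) (b : (H42.modReductionData A π N hπ hdeg).B) :
    ((b : laurentBaseChange L (modularFunctionFieldFull N)) : LaurentSeries L) ∈ H99.GR A π ∧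
    H99.gres A π ((b : laurentBaseChange L (modularFunctionFieldFull N)) : LaurentSeries L) =
      (((H42.modReductionData A π N hπ hdeg).ρ b : modularFunctionFieldFullC k N) :
        LaurentSeries k) :=
  H18.mem_GR_of_mem_B A π N hπ hdeg b

/-! ## 6. The derivation `d/dX` and Frobenius

`H61.theta = θ` is `q d/dq` on Laurent series. -/

/-- **The derivation `d/dX`** of `k((q))`, for a series `X` with `θ X ≠ 0`, is `θ / θ X`.  The operator
`θ` commutes with homomorphisms applied to the coefficients.  Files: `H18ResData`, `H18DerLift`. -/
theorem derivation_facts {R S : Type*} [CommRing R] [CommRing S] (f : R →+* S)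
    (y : LaurentSeries R) {k : Type*} [Field k] (X x : LaurentSeries k) (n : ℤ) :
    (H61.theta x).coeff n = n * x.coeff n ∧
    coeffMap f (H61.theta y) = H61.theta (coeffMap f y) ∧
    H18.derivX k X x = H61.theta x / H61.theta X ∧
    (H61.theta X ≠ 0 → H18.derivX k X X = 1) :=
  ⟨rfl, H18.coeffMap_theta f y, rfl, H18.derivX_self k⟩

/-- **`d/dX` preserves `Cm`.**  Let `XA` be a series over `A` such that `θ XA` is a unit of `A((q))`, and
let `d/dX` preserve the function field over `L` and its functions integral over `L[j]` (in
characteristic zero this is proved with the upper half plane, theorem 8 of `GuideCarayol`).  Then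
`d/dX`, `X` the reduction of `XA`, preserves `Cm`: lift, differentiate and reduce.  File: `H18Lift`. -/
theorem derivation_level {L : Type*} [Field L] [Algebra ℚ L] [IsAlgClosed L]
    (A : ValuationSubring L) {k : Type*} [Field k] [IsAlgClosed k] (π : A →+* k) [IsLocalHom π]
    (m : ℕ) (hπ : Function.Surjective π) (hdeg : H42.DegLE L k m) (hm : (m : k) ≠ 0)
    (hg : H18.GenusFFEq L k m) {XA u : LaurentSeries A} (hu : u * H61.theta XA = 1)
    (hF : ∀ f ∈ laurentBaseChange L (modularFunctionFieldFull m),
      H61.theta f / H61.theta (coeffMap A.subtype XA) ∈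
        laurentBaseChange L (modularFunctionFieldFull m))
    (hint : ∀ f ∈ laurentBaseChange L (modularFunctionFieldFull m),
      IsIntegral (Algebra.adjoin L {jqModC L}) f →
      IsIntegral (Algebra.adjoin L {jqModC L}) (H61.theta f / H61.theta (coeffMap A.subtype XA)))
    {c : LaurentSeries k} (hc : c ∈ H18.Cm k m) :
    H61.theta c / H61.theta (coeffMap π XA) ∈ H18.Cm k m :=
  H18.derX_mem_Cm A π m hπ hdeg hm hg hu hF hint hc

/-- **Frobenius.**  In characteristic `q` every series `x ∈ k((t))` satisfies `x^q = Φ (φ x)` with
`Φ : t ↦ t^q` and `φ` the Frobenius of the coefficients, an automorphism of `k((t))` if `k` is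
algebraically closed.  (The letter `q` is the prime here.)  File: `H18C2`. -/
theorem power_q (k : Type*) [Field k] [IsAlgClosed k] (q : ℕ) [Fact q.Prime] [CharP k q]
    (x : LaurentSeries k) :
    x ^ q = qExpand k q (H18.frobL k q x) ∧ H18.frobL k q x = coeffMap (frobenius k q) x :=
  ⟨H18.pow_eq_qExpand_frobL k q x, H18.frobL_apply k q x⟩

/-! ## 7. Degrees and extension of the field of constants

`K ⊂ L` fields.  The degree of `j` over `K` is at most the degree over `L`: with the degree theorem over
the algebraic closure this gives `DegLE K k m` for every field `K` of characteristic zero. -/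

/-- **Linear independence over `K(x)`** in terms of polynomials, for `x` transcendental.  File:
`H18BaseDeg`. -/
theorem independence_iff {K E : Type*} [Field K] [Field E] [Algebra K E] {ι : Type*} [Fintype ι]
    (x : E) (hx : Transcendental K x) (b : ι → E) :
    LinearIndependent K⟮x⟯ b ↔
      ∀ P : ι → K[X], ∑ i, Polynomial.aeval x (P i) * b i = 0 → P = 0 :=
  H18.linearIndependent_adjoin_iff x hx b

/-- **Relations descend.**  Series `b_i` over `K` which satisfy no relation `∑ P_i(x) b_i = 0` with
polynomials over `K` satisfy none with polynomials over `L` (apply to all coefficients a linear map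
`L → K` which is not zero at one of the coefficients of the `P_i`).  File: `H18BaseDeg`. -/
theorem relations_descend {K L : Type*} [Field K] [Field L] [Algebra K L] {ι : Type*} [Fintype ι]
    (x : LaurentSeries K) (b : ι → LaurentSeries K)
    (hb : ∀ P : ι → K[X], ∑ i, Polynomial.aeval x (P i) * b i = 0 → P = 0) (P : ι → L[X])
    (hP : ∑ i, Polynomial.aeval (coeffMap (algebraMap K L) x) (P i) *
      coeffMap (algebraMap K L) (b i) = 0) : P = 0 :=
  H18.poly_indep_coeffMap x b hb P hP

/-- **Degrees do not go up under restriction of the constants.**  `FK ⊂ K((q))` and `FL ⊂ L((q))` are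
fields with `FK ⊂ FL` (`hF`), and `x ∈ FK` is transcendental.  If `FL` has finite degree over `L(x)`, then
`FK` has finite degree over `K(x)`, at most the first one.  (`relfinrank` is the degree, and `0` if it is
infinite.)  File: `H18BaseDeg`. -/
theorem degree_restriction {K L : Type*} [Field K] [Field L] [Algebra K L]
    (FK : IntermediateField K (LaurentSeries K)) (FL : IntermediateField L (LaurentSeries L))
    (hF : ∀ f ∈ FK, coeffMap (algebraMap K L) f ∈ FL) (x : LaurentSeries K)
    (hx : Transcendental K x) (hxK : x ∈ FK)
    (hne : relfinrank L⟮coeffMap (algebraMap K L) x⟯ FL ≠ 0) :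
    relfinrank K⟮x⟯ FK ≠ 0 ∧
      relfinrank K⟮x⟯ FK ≤ relfinrank L⟮coeffMap (algebraMap K L) x⟯ FL :=
  H18.relfinrank_le_of_coeffMap FK FL hF x hx hxK hne

/-- **The degree over an arbitrary field**: if `K` is contained in an algebraically closed field `L` in
which `N ≠ 0`, the degree of `j` on `X₀(N)` over `K` is finite and at most `ψ(N)`.  File:
`H18BaseDeg`. -/
theorem degree_le_psi {K L : Type*} [Field K] [Field L] [Algebra K L] [IsAlgClosed L] (N : ℕ)
    (hN : (N : L) ≠ 0) :
    relfinrank K⟮jqModC K⟯ (modularFunctionFieldFullC K N) ≠ 0 ∧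
      relfinrank K⟮jqModC K⟯ (modularFunctionFieldFullC K N) ≤ dedekindPsi N :=
  H18.relfinrank_full_le (L := L) N hN

end Fermat.Agent.Guide.FunctionLifting
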