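import Fermat.Agent.H42Torsion
import Fermat.Agent.H87Mul

/-!
# Unconditional structure of `n`-torsion of elliptic curves

(using helper87's division polynomial formulas)
-/

set_option autoImplicit false

open Polynomial WeierstrassCurve

namespace Fermat.Agent.H42

/-- The division polynomial formulas hold for every elliptic curve over a field. -/
theorem divFormula {K : Type*} [Field K] [DecidableEq K] (W : WeierstrassCurve K) (hΔ : W.Δ ≠ 0) :
    DivFormula W where
  nsmul_eq_zero_iff n _ _ h := H87.nsmul_eq_zero_iff n h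
  x_nsmul n _ _ _ _ h h2 he := H87.x_nsmul n h h2 he
  isCoprime_Φ_ΨSq n := H87.isCoprime_Φ_ΨSq (W := W) hΔ n

section Field

variable {K : Type*} [Field K] [DecidableEq K] (W : WeierstrassCurve K)

theorem finite_torsion (hΔ : W.Δ ≠ 0) {n : ℕ} (hn : n ≠ 0) :
    Finite (Submodule.torsionBy ℤ W.toAffine.Point (n : ℤ)) :=
  finite_torsionBy (divFormula W hΔ) hn

theorem natCard_torsion [IsAlgClosed K] (hΔ : W.Δ ≠ 0) {n : ℕ} (hn : (n : K) ≠ 0) :
    Nat.card (Submodule.torsionBy ℤ W.toAffine.Point (n : ℤ)) = n ^ 2 :=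
  natCard_torsionBy hΔ (divFormula W hΔ) hn

theorem exists_torsion_basis' [IsAlgClosed K] (hΔ : W.Δ ≠ 0) {n : ℕ} (hn : (n : K) ≠ 0)
    [Module (ZMod n) (Submodule.torsionBy ℤ W.toAffine.Point (n : ℤ))] :
    Nonempty (Module.Basis (Fin 2) (ZMod n) (Submodule.torsionBy ℤ W.toAffine.Point (n : ℤ))) :=
  exists_torsion_zmod_basis hΔ (divFormula W hΔ) hn

theorem nsmul_surjective [IsAlgClosed K] (hΔ : W.Δ ≠ 0) {n : ℕ} (hn : n ≠ 0) :
    Function.Surjective (fun P : W.toAffine.Point => n • P) := by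
  intro Q
  obtain ⟨P, hP⟩ := exists_nsmul_eq hΔ (divFormula W hΔ) hn Q
  exact ⟨P, hP⟩

end Field

section BaseChange

open scoped WeierstrassCurve.Affine
open WeierstrassCurve.Affine.Point

variable {R : Type*} {K : Type*} [CommRing R] [Field K] [DecidableEq K] [Algebra R K]
  (W' : Affine R)

theorem divFormula_baseChange (hΔ : algebraMap R K W'.Δ ≠ 0) : DivFormula (W'⁄K) :=
  divFormula _ (map_Δ_ne_zero W' hΔ)

theorem finite_torsion_baseChange (hΔ : algebraMap R K W'.Δ ≠ 0) {n : ℕ} (hn : n ≠ 0) :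
    Finite (Submodule.torsionBy ℤ (W'⁄K).Point (n : ℤ)) :=
  finite_torsionBy (divFormula_baseChange W' hΔ) hn

theorem natCard_torsion_baseChange [IsAlgClosed K] (hΔ : algebraMap R K W'.Δ ≠ 0)
    {n : ℕ} (hn : (n : K) ≠ 0) :
    Nat.card (Submodule.torsionBy ℤ (W'⁄K).Point (n : ℤ)) = n ^ 2 :=
  natCard_torsionBy (map_Δ_ne_zero W' hΔ) (divFormula_baseChange W' hΔ) hn

theorem exists_basis_torsion_baseChange [IsAlgClosed K] (hΔ : algebraMap R K W'.Δ ≠ 0)
    {n : ℕ} (hn : (n : K) ≠ 0) :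
    Nonempty (Module.Basis (Fin 2) (ZMod n) (Submodule.torsionBy ℤ (W'⁄K).Point (n : ℤ))) :=
  exists_torsion_zmod_basis (map_Δ_ne_zero W' hΔ) (divFormula_baseChange W' hΔ) hn

theorem finrank_torsion_baseChange [IsAlgClosed K] (hΔ : algebraMap R K W'.Δ ≠ 0)
    {n : ℕ} (hn1 : n ≠ 1) (hn : (n : K) ≠ 0) :
    Module.finrank (ZMod n) (Submodule.torsionBy ℤ (W'⁄K).Point (n : ℤ)) = 2 :=
  finrank_torsionBy_baseChange W' hΔ (divFormula_baseChange W' hΔ) hn1 hn

end BaseChange

section Q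

open scoped WeierstrassCurve.Affine
open WeierstrassCurve.Affine.Point

theorem algebraMap_Δ_ne_zero {W : WeierstrassCurve ℚ} (hΔ : W.Δ ≠ 0) :
    algebraMap ℚ (AlgebraicClosure ℚ) W.Δ ≠ 0 :=
  (_root_.map_ne_zero _).mpr hΔ

/-- The torsion representations of an elliptic curve over `ℚ` factor through a finite level. -/
theorem galoisFactorsThroughFiniteLevel_of_Δ (W : WeierstrassCurve ℚ) (hΔ : W.Δ ≠ 0)
    {n : ℕ} (hn : n ≠ 0) :
    GaloisFactorsThroughFiniteLevel
      (WeierstrassCurve.Affine.Point.galoisRepModuleEnd (K := AlgebraicClosure ℚ) ℚ W n) :=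
  galoisFactors_of_divFormula W (divFormula_baseChange W (algebraMap_Δ_ne_zero hΔ)) hn

/-- The torsion of the Frey curve is finite. -/
theorem freyCurve_torsion_finite (P : FreyPackage) :
    Finite (Submodule.torsionBy ℤ (P.freyCurve⁄(AlgebraicClosure ℚ)).Point P.p) :=
  finite_torsion_baseChange P.freyCurve (algebraMap_Δ_ne_zero (freyCurve_Δ_ne_zero P)) P.pp.ne_zero

/-- S42 from S29. -/
theorem statementS42_of_S29 (h29 : StatementS29) (P : FreyPackage) :
    ∀ M : ℕ, 0 < M → P.EigenformResidualAttachmentAt M :=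
  eigenformResidualAttachment_of h29 P (freyCurve_torsion_finite P)

end Q

end Fermat.Agent.H42
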