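import Fermat.Agent.S29
import Fermat.Agent.S31
import Fermat.Agent.S32
import Fermat.Agent.S42

/-!
# Guide: Galois representations attached to eigenforms of weight two

Statements served: S29, S30, S31, S32, S42.  S29 and S30 are used in the proofs of S01, S03, S04,
S06, S38, S43, S45, S46, S50, S59 and S60; theorems of Sections 2 to 4 (the relations on the
torsion, density, linear algebra) also in those of S33-S36, S39, S40, S44, S58 and, in part, of
S09, S12, S15 (`finite_torsion` also in that of S17, the density theorem also in those of S41, S47,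
S48, S55, S56).
Companion files: GuideTateJacobian (the Tate module of `J_0(N)`; Sections 2, 4 and 5 step by step),
GuideLatticeReps (Sections 3 and 4 step by step: representations on lattices), GuideDensity (the
density theorem of Section 3), GuideUnramified (S31 step by step), GuideNewforms (primes dividing
the level: S34, S35, S36), GuideReduction and GuideBadRed (the reduction of `X_0(mq)` at `q`),
GuideOrdinary and GuideFrames (S33), GuideFrobeniusAtP and GuideUnitRoot (Frobenius at `p`),
GuideFunctionField and GuideCongruenceRelation (S37: reduction modulo good primes, the relation of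
Eichler and Shimura), GuideFlat and GuideFlatOrders (S32 step by step), GuideFlatTorsion (S19),
GuideRealisation (equivariant maps from a representation to `T_p J_0(N)`), GuideBridge and
GuideEigen (torsion of `J_0(N)` = characters of `Γ_0(N)`), GuideHeckeRings (the representation over
the Hecke ring: its construction by gluing, and S32, S33, S34 applied to it), GuideAbsGal (places of
`ℚ̄`, inertia and Frobenius elements).
NOTES.md: [254] NOTES-GALREP, [80] NOTES-GALREP-S30, [88] NOTES-S31, [240] NOTES-GALREP-GLUE, [95]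
and [215] (Frobenius density).

**What the block does.**  `J = J_0(N)(ℚ̄)` is realised as `Pic⁰` of the function field of `X_0(N)`
over `ℚ̄`, a field of Laurent series with coefficients in `ℚ̄`; the Galois group acts on the
coefficients.  `J` is a module over the polynomial ring `HeckeAlg = ℤ[T_ℓ : ℓ prime]`.

1. (Section 2) Everything that is used about `J`: the Hecke operators commute with each other and
   with Galois, the torsion is finite and unramified outside `N p`, the Eichler-Shimura relation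
   `σ² - T_ℓ σ + ℓ = 0` holds on it, and the Hecke algebra acts faithfully on it.
2. (Section 3) Every element of a finite Galois group over `ℚ` generates the same cyclic group as
   some Frobenius element (Frobenius' density theorem; Chebotarev's theorem is not needed).
3. (Section 4) Hence on the `p`-adic Tate module EVERY Galois element satisfies a quadratic equation
   with coefficients in the Hecke algebra, and linear algebra over a discrete valuation ring yields
   the two-dimensional representation: no decomposition of the Tate module, no multiplicity one, no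
   pseudo-representations.
4. (Section 5) The theorems S30 (adic), S29 (residual), S42 (for the Frey package).
5. (Section 6) Representations over a local component `T` of the Hecke algebra
   (`HeckeGaloisRepDatum`): unramified outside `N p` (S31), flat at `p ∤ N` (S32).

Checked on the proof terms: every library theorem cited in this file is used in the proof of S01,
except `S31.result` and `S42.result` (which are not needed for S01).
-/

set_option autoImplicit false

open Polynomial IsLocalRing AlgebraicCurve ModularCurve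

namespace Fermat.Agent.Guide.Galois

/-- An algebraic closure of `ℚ`. -/
local notation "Qb" => AlgebraicClosure ℚ

/-- The absolute Galois group of `ℚ`. -/
local notation "Gℚ" => AlgebraicClosure ℚ ≃ₐ[ℚ] AlgebraicClosure ℚ

/-! ## 1. Places of `ℚ̄` and Galois representations -/

/-- **Places.**  A place of `ℚ̄` is a valuation ring `A`; it lies over the prime `q` if `q` is in
its maximal ideal.  `σ` is a Frobenius element at `A` for `q` if `σ A = A` (`σ` is in the
decomposition group) and `σ x = x ^ q` on the residue field of `A`.  The inertia group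
`A.inertiaSubgroupIn ℚ` is the group of the elements of the decomposition group which act trivially
on the residue field. -/
theorem isFrobeniusAt_iff (A : ValuationSubring Qb) (σ : Gℚ) (q : ℕ) :
    (A.LiesOverPrime q ↔ (q : Qb) ∈ A.nonunits) ∧
    (A.IsFrobeniusAt σ q ↔ ∃ hσ : σ ∈ A.decompositionSubgroup ℚ,
      ∀ x : ResidueField A, (⟨σ, hσ⟩ : A.decompositionSubgroup ℚ) • x = x ^ q) :=
  ⟨Iff.rfl, Iff.rfl⟩

/-- Every place over a prime `q` has a Frobenius element.  Proved in `H54Frobenius`. -/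
theorem exists_frobenius {q : ℕ} (hq : q.Prime) :
    (∃ A : ValuationSubring Qb, A.LiesOverPrime q) ∧
    ∀ A : ValuationSubring Qb, A.LiesOverPrime q → ∃ σ : Gℚ, A.IsFrobeniusAt σ q :=
  ⟨H54.exists_liesOverPrime hq, fun _ hA => H54.exists_isFrobeniusAt hq hA⟩

/-- **Adic representations.**  `R` is a local ring.  A `GaloisRepAdic R` is a free `R`-module `V` of
rank two with a homomorphism `ρ` from the Galois group to the endomorphisms of `V` which is
continuous: for every `n` there is a number field `L` such that `σ v - v ∈ 𝔪^n V` for all `σ` which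
fix `L`.  (A `ResidualGaloisRep k` is the same over a field `k`, trivial on the elements which fix a
number field.) -/
theorem galoisRepAdic_fields {R : Type} [CommRing R] [IsLocalRing R] (ρ : GaloisRepAdic R) :
    Module.Free R ρ.V ∧ Module.Finite R ρ.V ∧ Module.finrank R ρ.V = 2 ∧
    ∀ n : ℕ, ∃ L : IntermediateField ℚ Qb, FiniteDimensional ℚ L ∧
      ∀ σ : Gℚ, (∀ x ∈ L, σ x = x) →
        ∀ v : ρ.V, ρ.ρ σ v - v ∈ (maximalIdeal R ^ n) • (⊤ : Submodule R ρ.V) :=
  ⟨ρ.instFree, ρ.instFinite, ρ.finrank_eq, ρ.isAdicContinuous⟩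

/-- **Local conditions.**  `ρ` is unramified at `q` if inertia at all places over `q` acts
trivially; it is unipotent on inertia at `q` if all elements of inertia have characteristic
polynomial `(X - 1)²`.  (`IsOrdinaryAt`: see GuideOrdinary; `IsFlatAt`: see GuideFlat.) -/
theorem localConditions_iff {R : Type} [CommRing R] [IsLocalRing R] (ρ : GaloisRepAdic R) (q : ℕ) :
    (ρ.IsUnramifiedAt q ↔ ∀ A : ValuationSubring Qb, A.LiesOverPrime q →
      ∀ σ ∈ A.inertiaSubgroupIn ℚ, ρ.ρ σ = 1) ∧
    (ρ.IsUnipotentOnInertiaAt q ↔ ∀ A : ValuationSubring Qb, A.LiesOverPrime q →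
      ∀ σ ∈ A.inertiaSubgroupIn ℚ, LinearMap.charpoly (ρ.ρ σ) = (X - 1) ^ 2) :=
  ⟨Iff.rfl, Iff.rfl⟩

/-! ## 2. The jacobian `J_0(N)` as a Galois-Hecke module -/

/-- **The jacobian.**  `J_0(N)(ℚ̄)` is the group `Pic⁰` (divisors of degree zero modulo principal
divisors) of the function field of `X_0(N)` over `ℚ̄`.  This field consists of Laurent series with
coefficients in `ℚ̄` (expansions at the cusp `∞`), and `σ` acts on it, on its places and on
`J_0(N)(ℚ̄)` through the coefficients. -/
theorem jacobian_def (N : ℕ) (σ : Gℚ) (f : modularFunctionFieldBar N) :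
    JZero N = Pic0 Qb (modularFunctionFieldBar N) ∧
    ((arithmeticGalois (modularFunctionFieldFull N) σ • f : modularFunctionFieldBar N) :
      LaurentSeries Qb) = coeffMap (σ : Qb →+* Qb) (f : LaurentSeries Qb) ∧
    ∀ x : JZero N, σ • x = arithmeticGalois (modularFunctionFieldFull N) σ • x :=
  ⟨rfl, coe_arithmeticGalois_smul _ σ f, fun x => galois_smul_pic0_def _ σ x⟩

/-- **The Hecke operators commute** on `J_0(N)`.  `heckeOperatorBar N ℓ` is `T_ℓ = α_* β^*` for the
two degeneracy maps `α, β : X_0(Nℓ) → X_0(N)` (it is `U_ℓ` if `ℓ` divides `N`).  Proved in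
`H67Comm` by computing with correspondences. -/
theorem hecke_commute (N : ℕ) [NeZero N] (ℓ ℓ' : Nat.Primes) (x : JZero N) :
    heckeOperatorBar N ℓ (heckeOperatorBar N ℓ' x) =
      heckeOperatorBar N ℓ' (heckeOperatorBar N ℓ x) :=
  LinearMap.congr_fun (H67.heckeOperatorsCommuteBar N ℓ ℓ') x

/-- **The Hecke module.**  Therefore `J_0(N)` is a module over the polynomial ring `HeckeAlg` in the
variables `heckeGen ℓ`, `ℓ` prime (`heckeModuleBar N`), the variable acting as `T_ℓ`.
(`H67Comm`) -/
theorem hecke_smul (N : ℕ) [NeZero N] (ℓ : Nat.Primes) (x : JZero N) :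
    (letI := heckeModuleBar N; heckeGen ℓ • x) = heckeOperatorBar N ℓ x :=
  heckeModuleBar_heckeGen_smul (H67.heckeOperatorsCommuteBar N) ℓ x

/-- **Hecke operators and Galois commute**: the degeneracy maps are defined over `ℚ`.  Proved in
`H67Galois`. -/
theorem galois_hecke (N : ℕ) [NeZero N] (ℓ : Nat.Primes) (σ : Gℚ) (x : JZero N) :
    heckeOperatorBar N ℓ (σ • x) = σ • heckeOperatorBar N ℓ x :=
  H67.heckeOperatorBar_smul N ℓ σ x

/-- **The torsion of `J_0(N)` is finite.**  Proof (`H90Exist`, `H90Rel`): the `n`-torsion classes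
are characters of `Γ_0(N)` with values in the `n`-th roots of unity; see GuideBridge. -/
theorem finite_torsion (N : ℕ) [NeZero N] (n : ℕ) (hn : n ≠ 0) :
    {x : JZero N | n • x = 0}.Finite :=
  H90.finite_jzero N hn

/-- **Specialisation at a good prime** (`SpecializationExists`, `H31Inputs`, from S37; see
GuideFunctionField).  For a prime `ℓ ∤ N p` and a place `A` over `ℓ` there are an abelian group `J'`
(the jacobian of the reduction of `X_0(N)` over the residue field of `A`) with Hecke operators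
`T r`, an endomorphism `F` (Frobenius) and a homomorphism `sp : J_0(N) → J'` such that: `sp`
commutes with the Hecke operators; inertia becomes trivial; a Frobenius element becomes `F`; `sp` is
injective on the `p`-power torsion; and `F² - T_ℓ F + ℓ = 0` on `J'`. -/
theorem specialisation (N p : ℕ) [NeZero N] (ℓ : Nat.Primes) (hℓN : ¬ (ℓ : ℕ) ∣ N * p)
    (A : ValuationSubring Qb) (hA : A.LiesOverPrime ℓ) :
    ∃ (J' : Type) (_ : AddCommGroup J') (T : Nat.Primes → J' →+ J') (sp : JZero N →+ J')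
      (F : J' →+ J'),
      (∀ (r : Nat.Primes) (x : JZero N), sp (heckeOperatorBar N r x) = T r (sp x)) ∧
      (∀ σ ∈ A.inertiaSubgroupIn ℚ, ∀ x : JZero N, sp (σ • x) = sp x) ∧
      (∀ σ : Gℚ, A.IsFrobeniusAt σ ℓ → ∀ x : JZero N, sp (σ • x) = F (sp x)) ∧
      (∀ x : JZero N, (∃ n : ℕ, p ^ n • x = 0) → sp x = 0 → x = 0) ∧
      (∀ y : J', F (F y) - T ℓ (F y) + (ℓ : ℕ) • y = 0) := by
  let _ := heckeModuleBar N
  obtain ⟨J', _, _, sp, F, h, h'⟩ := H31.specializationExists N p ℓ ℓ.2 hℓN A hA
  exact ⟨J', _, fun r => DistribSMul.toAddMonoidHom J' (heckeGen r), sp, F,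
    fun r x => by rw [← hecke_smul]; exact h.hecke_comm _ x,
    h.inertia_comm, h.frobenius_comm, h.injective_torsion, h'⟩

/-- **The `p`-power torsion is unramified outside `N p`.**  Consequence of `specialisation`
(`H31JZero`). -/
theorem inertia_torsion (N p : ℕ) [NeZero N] (ℓ : Nat.Primes) (hℓN : ¬ (ℓ : ℕ) ∣ N * p)
    (A : ValuationSubring Qb) (hA : A.LiesOverPrime ℓ) (σ : Gℚ) (hσ : σ ∈ A.inertiaSubgroupIn ℚ)
    (x : JZero N) (n : ℕ) (hx : p ^ n • x = 0) : σ • x = x :=
  let _ := heckeModuleBar N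
  have := H31.smulCommClass N
  H31.unramifiedOutside_of_specializationExists (H31.specializationExists N p) ℓ ℓ.2 hℓN A hA σ
    hσ x ⟨n, hx⟩

/-- **The Eichler-Shimura relation.**  `σ² - T_ℓ σ + ℓ = 0` on the `p`-power torsion of `J_0(N)` for
every Frobenius element `σ` at `ℓ ∤ N p`.  Consequence of `specialisation` (`H31JZero`). -/
theorem eichler_shimura (N p : ℕ) [NeZero N] (ℓ : Nat.Primes) (hℓN : ¬ (ℓ : ℕ) ∣ N * p)
    (A : ValuationSubring Qb) (hA : A.LiesOverPrime ℓ) (σ : Gℚ) (hσ : A.IsFrobeniusAt σ ℓ)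
    (x : JZero N) (n : ℕ) (hx : p ^ n • x = 0) :
    σ • σ • x - heckeOperatorBar N ℓ (σ • x) + (ℓ : ℕ) • x = 0 := by
  let _ := heckeModuleBar N
  have := H31.smulCommClass N
  rw [← hecke_smul]
  exact H31.frobeniusQuadratic_of_specializationExists (H31.specializationExists N p) ℓ ℓ.2 hℓN A
    hA σ hσ x ⟨n, hx⟩

/-- **Continuity**: the action on the `p^n`-torsion factors through a finite Galois group.  Proof:
there are finitely many classes, and each of them is fixed by an open subgroup, because finitely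
many functions which separate the points of the divisor have expansions with coefficients in a
number field.  Proved in `H31Level`, `H31JZero`. -/
theorem torsion_finiteLevel (N p : ℕ) [NeZero N] (hp : p.Prime) (n : ℕ) :
    ∃ L : IntermediateField ℚ Qb, FiniteDimensional ℚ L ∧
      ∀ σ : Gℚ, (∀ x ∈ L, σ x = x) → ∀ x : JZero N, p ^ n • x = 0 → σ • x = x :=
  have := (H31.jzeroInputs N).principal
  H31.finiteLevel_JZero N p (fun n => (H31.jzeroInputs N).finite p n hp) n

/-- **The Hecke algebra acts faithfully on the torsion.**  `S` contains the prime divisors of `N`.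
For a polynomial `P` in the `T_ℓ`, `ℓ ∤ N`, `ℓ ∉ S`, let `inclHecke P` be the same polynomial in
`HeckeAlg`, and `evHecke P` its value in `heckeAlgebra N 2 S`, the ring generated by these `T_ℓ` on
`S_2(Γ_0(N))` (by definition also by the `U_q`, `q ∣ N`, `q ∉ S`; here there are none).  If `P`
kills `J_0(N)[p^n]` then `u · P` is divisible by `p^(n-c)` in the Hecke algebra, with `c` and `u`,
`p ∤ u`, depending only on `N`, `S` and `p`.  Proved in `H4FaithfulJ`, `H90Faithful` by comparing
both sides with the cohomology of `Γ_0(N)` (see GuideBridge). -/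
theorem hecke_faithful (N p : ℕ) [NeZero N] (S : Finset ℕ) (hp : p.Prime)
    (hNS : ∀ q : ℕ, q.Prime → q ∣ N → q ∈ S) :
    letI := heckeModuleBar N
    ∃ c u : ℕ, ¬ p ∣ u ∧
      ∀ (n : ℕ) (P : MvPolynomial (H31.GoodPrimes N (↑S : Set ℕ)) ℤ),
        (∀ x : JZero N, p ^ n • x = 0 → H31.inclHecke N (↑S : Set ℕ) P • x = 0) →
          ∃ y : CuspForm.heckeAlgebra N 2 (↑S : Set ℕ),
            (u : CuspForm.heckeAlgebra N 2 (↑S : Set ℕ)) * H31.evHecke N (↑S : Set ℕ) P =
              (p : CuspForm.heckeAlgebra N 2 (↑S : Set ℕ)) ^ (n - c) * y :=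
  H90.heckeFaithful_jzero N hNS hp

/-! ## 3. Frobenius elements are dense enough -/

/-- **Frobenius' density theorem** (1896; existence form, finite level).  `L/ℚ` is a finite Galois
extension, `σ` an element of its group, `S` a finite set of primes.  There are a prime `ℓ ∉ S`, a
prime ideal `P` of the ring of integers of `L` which contains `ℓ` and has trivial inertia group, and
a Frobenius element `φ` at `P` which generates the same cyclic group as `σ`.  Only this group is
prescribed, not the conjugacy class of `φ` (this would be Chebotarev's theorem).  Analytic input: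
the pole at `s = 1` of the zeta functions of the fixed fields of the subgroups of the cyclic group
generated by `σ` (`H99PrimeSum`, combined in `H99Combo`); group theory in `H82Galois`.  Proved in
`H82FrobDensity` (helper82). -/
theorem frobenius_density_finite (L : Type) [Field L] [NumberField L] [IsGalois ℚ L]
    (σ : L ≃ₐ[ℚ] L) (S : Finset ℕ) :
    ∃ ℓ : ℕ, ℓ.Prime ∧ ℓ ∉ S ∧ ∃ P : Ideal (NumberField.RingOfIntegers L), P.IsPrime ∧
      ((ℓ : ℕ) : NumberField.RingOfIntegers L) ∈ P ∧
      (∀ τ : L ≃ₐ[ℚ] L, (∀ x : NumberField.RingOfIntegers L, τ • x - x ∈ P) → τ = 1) ∧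
      ∃ φ : L ≃ₐ[ℚ] L, (∀ x : NumberField.RingOfIntegers L, φ • x - x ^ ℓ ∈ P) ∧
        Subgroup.zpowers φ = Subgroup.zpowers σ :=
  H82.exists_frob_finite L σ S

/-- **Frobenius density in the absolute Galois group.**  Let `L` be a number field in `ℚ̄`, `σ` a
Galois element and `S` a finite set of primes.  There are a prime `ℓ ∉ S` and a Frobenius element
`φ` at a place over `ℓ` such that on `L` both `σ` is a power of `φ` and `φ` is a power of `σ`.
Proved in `H86Density`, `H86DensityFinal` (helper86). -/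
theorem frobenius_density (L : IntermediateField ℚ Qb) [FiniteDimensional ℚ L] (σ : Gℚ)
    (S : Finset ℕ) :
    ∃ ℓ : ℕ, ℓ.Prime ∧ ℓ ∉ S ∧ ∃ A : ValuationSubring Qb, A.LiesOverPrime ℓ ∧
      ∃ φ : Gℚ, A.IsFrobeniusAt φ ℓ ∧ ∃ j k : ℕ,
        (∀ x ∈ L, σ x = (φ ^ j) x) ∧ (∀ x ∈ L, φ x = (σ ^ k) x) :=
  H86.frobenius_density H86.frobDensityFinite L σ S

/-- **Characteristic polynomials are determined by Frobenius elements.**  If two adic
representations have the same characteristic polynomials at all Frobenius elements outside a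
finite set of primes then they have the same characteristic polynomials at all `σ`: a `2 × 2` matrix
and its powers satisfy the same identities, so Chebotarev's theorem is not needed.  Proved in
`H86DensityRep`. -/
theorem charpoly_eq_of_frobenius {R : Type} [CommRing R] [IsLocalRing R]
    [IsHausdorff (maximalIdeal R) R] (ρ₁ ρ₂ : GaloisRepAdic R) (S : Finset ℕ)
    (h : ∀ ℓ : ℕ, ℓ.Prime → ℓ ∉ S → ∀ A : ValuationSubring Qb, A.LiesOverPrime ℓ →
      ∀ φ : Gℚ, A.IsFrobeniusAt φ ℓ → (ρ₁.ρ φ).charpoly = (ρ₂.ρ φ).charpoly) (σ : Gℚ) :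
    (ρ₁.ρ σ).charpoly = (ρ₂.ρ σ).charpoly :=
  H86.charpoly_eq_of_frobenius H86.frobDensityFinite ρ₁ ρ₂ S h σ

/-- **Determinants.**  If `det ρ(φ) = ℓ` for all Frobenius elements `φ` at the primes `ℓ ∉ S` then
`det ρ` is the `p`-adic cyclotomic character: whenever `σ` raises the `p^n`-th roots of unity to
the power `a`, `det ρ(σ) ≡ a` modulo `p^n`.  Proved in `H86DensityRep`. -/
theorem det_cyclotomic {R : Type} [CommRing R] [IsLocalRing R] [IsNoetherianRing R]
    (ρ : GaloisRepAdic R) {p : ℕ} (hp : p.Prime) (hpR : (p : R) ∈ maximalIdeal R) (S : Finset ℕ)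
    (h : ∀ ℓ : ℕ, ℓ.Prime → ℓ ∉ S → ∀ A : ValuationSubring Qb, A.LiesOverPrime ℓ →
      ∀ φ : Gℚ, A.IsFrobeniusAt φ ℓ → LinearMap.det (ρ.ρ φ) = (ℓ : R))
    (n : ℕ) (σ : Gℚ) (a : ℕ) (ha : ∀ μ : Qb, μ ^ p ^ n = 1 → σ μ = μ ^ a) :
    LinearMap.det (ρ.ρ σ) - (a : R) ∈ Ideal.span {((p ^ n : ℕ) : R)} :=
  (H86.detIsCyclotomic_of_frobenius H86.frobDensityFinite ρ hp hpR S h).2 n σ a ha

/-! ## 4. From quadratic relations to two-dimensional representations -/

/-- **The cyclotomic character with values in `O`.**  `O` is a complete local ring whose maximal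
ideal contains `p`.  The character `H35.cyc O hp` of the Galois group is continuous, takes the value
`ℓ` at all Frobenius elements at all primes `ℓ ≠ p`, and is trivial on inertia at all primes
`q ≠ p`.  Proved in `H35Cyclo` (helper35). -/
theorem cyclotomic_character (O : Type) [CommRing O] [IsLocalRing O]
    [IsAdicComplete (maximalIdeal O) O] {p : ℕ} [Fact p.Prime] (hp : (p : O) ∈ maximalIdeal O) :
    (∀ n : ℕ, ∃ L : IntermediateField ℚ Qb, FiniteDimensional ℚ L ∧
      ∀ σ : Gℚ, (∀ x ∈ L, σ x = x) → H35.cyc O hp σ - 1 ∈ maximalIdeal O ^ n) ∧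
    (∀ ℓ : ℕ, ℓ.Prime → ℓ ≠ p → ∀ A : ValuationSubring Qb, A.LiesOverPrime ℓ →
      ∀ φ : Gℚ, A.IsFrobeniusAt φ ℓ → H35.cyc O hp φ = (ℓ : O)) ∧
    (∀ q : ℕ, q.Prime → q ≠ p → ∀ A : ValuationSubring Qb, A.LiesOverPrime q →
      ∀ τ ∈ A.inertiaSubgroupIn ℚ, H35.cyc O hp τ = 1) :=
  ⟨H35.cyc_charCont O hp, fun _ hℓ hℓp _ hA _ hφ => H35.cyc_frobenius O hp hℓ hℓp hA hφ,
    fun _ hq hqp _ hA _ hτ => H35.cyc_inertia O hp hq hqp hA hτ⟩

/-- **From Frobenius elements to the whole Galois group.**  `R` is a continuous representation by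
`m × m` matrices over a complete local ring `O`.  If `R(φ)² - a_ℓ R(φ) + ℓ = 0` for all Frobenius
elements `φ` at the primes `ℓ ∉ S`, then for every `g` there is `t ∈ O` with
`R(g)² - t R(g) + χ(g) = 0`, `χ` the cyclotomic character.  By `frobenius_density`, since the powers
of a quadratic element are quadratic.  Proved in `H35Dens` (helper35). -/
theorem quadratic_of_frobenius {O : Type} [CommRing O] [IsLocalRing O]
    [IsAdicComplete (maximalIdeal O) O] {p : ℕ} [Fact p.Prime] (hp : (p : O) ∈ maximalIdeal O)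
    {m : ℕ} (hm : 0 < m) (R : Gℚ →* Matrix (Fin m) (Fin m) O)
    (hR : ∀ n : ℕ, ∃ L : IntermediateField ℚ Qb, FiniteDimensional ℚ L ∧
      ∀ σ : Gℚ, (∀ x ∈ L, σ x = x) →
        ∀ i j, R σ i j - (1 : Matrix (Fin m) (Fin m) O) i j ∈ maximalIdeal O ^ n)
    (S : Finset ℕ) (hpS : p ∈ S) (a : ℕ → O)
    (h : ∀ ℓ : ℕ, ℓ.Prime → ℓ ∉ S → ∀ A : ValuationSubring Qb, A.LiesOverPrime ℓ →
      ∀ φ : Gℚ, A.IsFrobeniusAt φ ℓ →
        R φ * R φ - a ℓ • R φ + (ℓ : O) • (1 : Matrix (Fin m) (Fin m) O) = 0) (g : Gℚ) :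
    ∃ t : O, R g * R g - t • R g + H35.cyc O hp g • (1 : Matrix (Fin m) (Fin m) O) = 0 :=
  H35.quadratic_of_frobenius hp hm R hR S hpS a h g

/-- **A stable line or plane.**  A nonzero finite-dimensional representation over an algebraically
closed field in which every `g` satisfies `g² - t(g) g + d(g) = 0` with a character `d` contains a
stable line, or a stable plane on which `g` has trace `t(g)` and determinant `d(g)`.  No
semisimplicity is needed.  (`H35.restrictRep ρ U hU` is the restriction of `ρ` to the stable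
subspace `U`.)  Proved in `H35Stable` (helper35). -/
theorem exists_stable_line_or_plane {G : Type*} [Group G] {k : Type*} [Field k] [IsAlgClosed k]
    {W : Type*} [AddCommGroup W] [Module k W] [FiniteDimensional k W] [Nontrivial W]
    (ρ : G →* Module.End k W) (d : G →* k) (t : G → k)
    (h : ∀ g, ρ g * ρ g - t g • ρ g + d g • (1 : Module.End k W) = 0) :
    ∃ (U : Submodule k W) (hU : ∀ g, ∀ x ∈ U, ρ g x ∈ U),
      Module.finrank k U = 1 ∨ (Module.finrank k U = 2 ∧ ∀ g,
        LinearMap.trace k U (H35.restrictRep ρ U hU g) = t g ∧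
          LinearMap.det (H35.restrictRep ρ U hU g) = d g) :=
  H35.exists_stable_sub ρ d t h

/-- **Integral models.**  `O` is a complete discrete valuation ring of characteristic zero with
finite residue field, `R` a continuous representation by `m × m` matrices over `O`, `m > 0`, and `d`
a continuous character, such that for every `g` there is `t` with `R(g)² - t R(g) + d(g) = 0`.  Then
over a finite extension `O''` of `O` there is a continuous two-dimensional representation `R'` with
`tr R'(g) = t` and `det R'(g) = d(g)` whenever `R(g)² - t R(g) + d(g) = 0`, and which is trivial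
where `R` and `d` are.  (If there is only a stable line, take its character `ψ` and the sum of `ψ`
and `d ψ⁻¹`.)  Proved in `H35Lattice` (helper35). -/
theorem exists_integral_model (O : Type) [CommRing O] [IsDomain O] [IsDiscreteValuationRing O]
    [IsAdicComplete (maximalIdeal O) O] [Finite (ResidueField O)] [CharZero O]
    {m : ℕ} (hm : 0 < m) (R : Gℚ →* Matrix (Fin m) (Fin m) O)
    (hR : ∀ n : ℕ, ∃ L : IntermediateField ℚ Qb, FiniteDimensional ℚ L ∧
      ∀ σ : Gℚ, (∀ x ∈ L, σ x = x) →
        ∀ i j, R σ i j - (1 : Matrix (Fin m) (Fin m) O) i j ∈ maximalIdeal O ^ n)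
    (d : Gℚ →* O)
    (hd : ∀ n : ℕ, ∃ L : IntermediateField ℚ Qb, FiniteDimensional ℚ L ∧
      ∀ σ : Gℚ, (∀ x ∈ L, σ x = x) → d σ - 1 ∈ maximalIdeal O ^ n)
    (h : ∀ g, ∃ t : O, R g * R g - t • R g + d g • (1 : Matrix (Fin m) (Fin m) O) = 0) :
    ∃ (O'' : Type) (_ : CommRing O'') (_ : IsDomain O'') (_ : IsDiscreteValuationRing O'')
      (_ : IsAdicComplete (maximalIdeal O'') O'') (_ : Finite (ResidueField O''))
      (_ : CharZero O'') (_ : Algebra O O'') (_ : Module.Finite O O'')
      (_ : IsLocalHom (algebraMap O O'')),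
      Function.Injective (algebraMap O O'') ∧
      ∃ R' : Gℚ →* Matrix (Fin 2) (Fin 2) O'',
        (∀ n : ℕ, ∃ L : IntermediateField ℚ Qb, FiniteDimensional ℚ L ∧
          ∀ σ : Gℚ, (∀ x ∈ L, σ x = x) →
            ∀ i j, R' σ i j - (1 : Matrix (Fin 2) (Fin 2) O'') i j ∈ maximalIdeal O'' ^ n) ∧
        (∀ g t, R g * R g - t • R g + d g • (1 : Matrix (Fin m) (Fin m) O) = 0 →
          (R' g).trace = algebraMap O O'' t ∧ (R' g).det = algebraMap O O'' (d g)) ∧
        ∀ g, R g = 1 → d g = 1 → R' g = 1 :=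
  H35.exists_matrixRep_of_quadratic O hm R hR d hd h

/-- **Eigenvectors.**  If a commutative algebra `P`, finite over a noetherian domain `O`, acts
faithfully on a finite `O`-module `V`, then every character `χ : P → O` has a nonzero eigenvector in
`V`.  With `P` = Hecke algebra and `V = O ⊗ T_p J_0(N)`: every system of Hecke eigenvalues occurs in
the Tate module.  Proved in `H35Eigen` (helper35). -/
theorem exists_eigenvector {O P V : Type*} [CommRing O] [IsDomain O] [IsNoetherianRing O]
    [CommRing P] [Algebra O P] [Module.Finite O P] [AddCommGroup V] [Module O V]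
    [Module.Finite O V] (f : P →ₐ[O] Module.End O V) (hf : Function.Injective f)
    (χ : P →ₐ[O] O) : ∃ v : V, v ≠ 0 ∧ ∀ r : P, f r v = χ r • v :=
  H35.exists_eigenvector_end f hf χ

/-- **The attached representation from a Hecke-Galois lattice.**  `T` is a finite free `ℤ_p`-module
with commuting actions of the Galois group (`ρT`, continuous, unramified outside `N p`) and of the
polynomial ring in the `T_ℓ`, `ℓ ∤ N`, `ℓ ∉ S` (`act`); `φ² - T_ℓ φ + ℓ = 0` for Frobenius elements
`φ` at `ℓ`; a polynomial in the `T_ℓ` which maps `T` into `p^n T` is, up to a fixed factor `u` and a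
fixed loss `c`, divisible by `p^n` in the Hecke algebra.  Then every character `χ` of the Hecke
algebra with values in `𝒪'` has an attached two-dimensional representation over a finite extension
of `𝒪'`.  (Section 2 says that `T = T_p J_0(N)` is such a lattice.)  Proved in `H35S30`
(helper35). -/
theorem attached_of_lattice {p : ℕ} [Fact p.Prime] {N : ℕ} [NeZero N] {S : Finset ℕ}
    (hpS : p ∈ S) (hNS : ∀ q : ℕ, q.Prime → q ∣ N → q ∈ S)
    (𝒪' : Type) [CommRing 𝒪'] [IsDomain 𝒪'] [IsDiscreteValuationRing 𝒪']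
    [IsAdicComplete (maximalIdeal 𝒪') 𝒪'] [Finite (ResidueField 𝒪')]
    [CharZero 𝒪'] (hp𝒪' : (p : 𝒪') ∈ maximalIdeal 𝒪')
    (χ : CuspForm.heckeAlgebra N 2 (↑S : Set ℕ) →+* 𝒪')
    {T : Type*} [AddCommGroup T] [Module ℤ_[p] T] [Module.Free ℤ_[p] T] [Module.Finite ℤ_[p] T]
    (ρT : Gℚ →* Module.End ℤ_[p] T)
    (hcont : ∀ n : ℕ, ∃ L : IntermediateField ℚ Qb, FiniteDimensional ℚ L ∧
      ∀ σ : Gℚ, (∀ x ∈ L, σ x = x) → ∀ x : T, ∃ y : T, ρT σ x - x = (p : ℤ_[p]) ^ n • y)
    (act : MvPolynomial (H31.GoodPrimes N (↑S : Set ℕ)) ℤ →+* Module.End ℤ_[p] T)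
    (hcomm : ∀ P σ, Commute (act P) (ρT σ))
    (hfrob : ∀ (a : H31.GoodPrimes N (↑S : Set ℕ)) (A : ValuationSubring Qb),
      A.LiesOverPrime (a.1 : ℕ) → ∀ φ : Gℚ, A.IsFrobeniusAt φ (a.1 : ℕ) →
        ∀ x : T, ρT φ (ρT φ x) - act (MvPolynomial.X a) (ρT φ x) + (a.1 : ℕ) • x = 0)
    (hunr : ∀ q : ℕ, q.Prime → ¬ q ∣ N → q ≠ p → ∀ A : ValuationSubring Qb,
      A.LiesOverPrime q → ∀ τ ∈ A.inertiaSubgroupIn ℚ, ρT τ = 1)
    (hfaith : ∃ c u : ℕ, u ≠ 0 ∧
      ∀ (n : ℕ) (P : MvPolynomial (H31.GoodPrimes N (↑S : Set ℕ)) ℤ),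
        (∀ x : T, ∃ y : T, act P x = (p : ℤ_[p]) ^ n • y) →
          ∃ y : CuspForm.heckeAlgebra N 2 (↑S : Set ℕ),
            (u : CuspForm.heckeAlgebra N 2 (↑S : Set ℕ)) * H31.evHecke N (↑S : Set ℕ) P =
              (p : CuspForm.heckeAlgebra N 2 (↑S : Set ℕ)) ^ (n - c) * y) :
    ∃ (𝒪'' : Type) (_ : CommRing 𝒪'') (_ : IsDomain 𝒪'') (_ : IsDiscreteValuationRing 𝒪'')
      (_ : IsAdicComplete (maximalIdeal 𝒪'') 𝒪'') (_ : Finite (ResidueField 𝒪''))
      (_ : CharZero 𝒪'') (_ : Algebra 𝒪' 𝒪'') (_ : Module.Finite 𝒪' 𝒪'')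
      (_ : IsLocalHom (algebraMap 𝒪' 𝒪'')),
    Function.Injective (algebraMap 𝒪' 𝒪'') ∧
    ∃ ρ : GaloisRepAdic 𝒪'',
      (∀ (ℓ : ℕ) (hℓ : ℓ.Prime) (hℓN : ¬ ℓ ∣ N) (hℓS : ℓ ∉ (↑S : Set ℕ)),
        ∀ A : ValuationSubring Qb, A.LiesOverPrime ℓ → ∀ σ : Gℚ, A.IsFrobeniusAt σ ℓ →
          LinearMap.charpoly (ρ.ρ σ) =
            X ^ 2 - C (algebraMap 𝒪' 𝒪'' (χ (CuspForm.heckeAlgebra.T hℓ hℓN hℓS))) * X
              + C ((ℓ : 𝒪''))) ∧
      (∀ q : ℕ, q.Prime → ¬ q ∣ N → q ≠ p → ρ.IsUnramifiedAt q) :=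
  H35.s30_of_faithful hpS hNS 𝒪' hp𝒪' χ ρT hcont act hcomm hfrob hunr hfaith

/-! ## 5. The representations attached to eigenforms -/

/-- **S30: adic representations.**  `S` is a finite set of primes containing `p` and the prime
divisors of `N`, `𝒪'` a complete discrete valuation ring of characteristic zero with finite residue
field of characteristic `p`, `χ` a ring homomorphism from the Hecke algebra of `S_2(Γ_0(N))`
(generated by the `T_ℓ`, `ℓ ∤ N`, `ℓ ∉ S`) to `𝒪'`.  Then, over a finite extension `𝒪''` of `𝒪'`,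
there is a continuous two-dimensional representation, unramified outside `N p`, such that the
Frobenius elements at `ℓ ∤ N`, `ℓ ∉ S`, have characteristic polynomial `X² - χ(T_ℓ) X + ℓ`. -/
theorem S30_statement (p : ℕ) [Fact p.Prime] (N : ℕ) [NeZero N] (S : Finset ℕ)
    (hpS : p ∈ S) (hNS : ∀ q : ℕ, q.Prime → q ∣ N → q ∈ S)
    (𝒪' : Type) [CommRing 𝒪'] [IsDomain 𝒪'] [IsDiscreteValuationRing 𝒪']
    [IsAdicComplete (maximalIdeal 𝒪') 𝒪'] [Finite (ResidueField 𝒪')]
    [CharZero 𝒪'] (hp𝒪' : (p : 𝒪') ∈ maximalIdeal 𝒪')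
    (χ : CuspForm.heckeAlgebra N 2 (↑S : Set ℕ) →+* 𝒪') :
    ∃ (𝒪'' : Type) (_ : CommRing 𝒪'') (_ : IsDomain 𝒪'') (_ : IsDiscreteValuationRing 𝒪'')
      (_ : IsAdicComplete (maximalIdeal 𝒪'') 𝒪'') (_ : Finite (ResidueField 𝒪''))
      (_ : CharZero 𝒪'') (_ : Algebra 𝒪' 𝒪'') (_ : Module.Finite 𝒪' 𝒪'')
      (_ : IsLocalHom (algebraMap 𝒪' 𝒪'')),
    Function.Injective (algebraMap 𝒪' 𝒪'') ∧
    ∃ ρ : GaloisRepAdic 𝒪'',
      (∀ (ℓ : ℕ) (hℓ : ℓ.Prime) (hℓN : ¬ ℓ ∣ N) (hℓS : ℓ ∉ (↑S : Set ℕ)),
        ∀ A : ValuationSubring Qb, A.LiesOverPrime ℓ → ∀ σ : Gℚ, A.IsFrobeniusAt σ ℓ →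
          LinearMap.charpoly (ρ.ρ σ) =
            X ^ 2 - C (algebraMap 𝒪' 𝒪'' (χ (CuspForm.heckeAlgebra.T hℓ hℓN hℓS))) * X
              + C ((ℓ : 𝒪''))) ∧
      (∀ q : ℕ, q.Prime → ¬ q ∣ N → q ≠ p → ρ.IsUnramifiedAt q) :=
  S30.result p N S hpS hNS 𝒪' hp𝒪' χ

/-- **The character of an eigenform.**  The coefficients `a_ℓ(g)` of a normalised eigenform `g` of
weight two on `Γ_0(N)` are the values at the `T_ℓ` of a homomorphism from the Hecke algebra to the
ring of integers of a number field.  Proved in `H96S29` (helper96). -/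
theorem eigenform_character {N : ℕ} [NeZero N] {g : CuspForm (CongruenceSubgroup.Gamma0 N) 2}
    (hg : g.IsNormalizedEigenform) (S : Set ℕ) :
    ∃ (K : IntermediateField ℚ ℂ) (_ : NumberField K)
      (χ : CuspForm.heckeAlgebra N 2 S →+* NumberField.RingOfIntegers K),
      ∀ (ℓ : ℕ) (hℓ : ℓ.Prime) (hℓN : ¬ ℓ ∣ N) (hℓS : ℓ ∉ S),
        (((χ (CuspForm.heckeAlgebra.T hℓ hℓN hℓS) : NumberField.RingOfIntegers K) : K) : ℂ) =
          ModularFormClass.qCoeff g ℓ :=
  H96.exists_numberField_char hg S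

/-- **S29: residual representations.**  `g` is a normalised eigenform of weight two on `Γ_0(N)`, `k`
a field of characteristic `p` and `φ : ℤ̄ → k` a homomorphism from the ring of algebraic integers
(in `ℂ`).  There is a two-dimensional representation over `k`, trivial on the Galois group of a
number field, unramified outside `N p`, such that the Frobenius elements at `ℓ ∤ N p` have
characteristic polynomial `X² - φ(a_ℓ(g)) X + ℓ`.  Proof (`H96S29`, `H96Completion`): by
`eigenform_character` the coefficients are the values of a homomorphism to the integers of a number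
field; `φ` restricted to them factors through the residue field of their completion at a prime over
`p`.  Apply S30 and reduce modulo the maximal ideal.  The residue field of the finite extension
which occurs in S30 embeds in `k` over the given one, because monic polynomials with integer
coefficients (here `X^q - X`) split in `k`, by `φ`. -/
theorem S29_statement {N : ℕ} {g : CuspForm (CongruenceSubgroup.Gamma0 N) 2}
    (hg : g.IsNormalizedEigenform) {p : ℕ} (hp : p.Prime) {k : Type} [Field k] [CharP k p]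
    (φ : integralClosure ℤ ℂ →+* k) :
    ∃ ρ : ResidualGaloisRep k,
      (∀ ℓ : ℕ, ℓ.Prime → ¬ ℓ ∣ N → (ℓ : k) ≠ 0 → ∀ A : ValuationSubring Qb,
        A.LiesOverPrime ℓ → ∀ σ : Gℚ, A.IsFrobeniusAt σ ℓ →
          ∃ a : integralClosure ℤ ℂ, (a : ℂ) = ModularFormClass.qCoeff g ℓ ∧
            LinearMap.charpoly (ρ.ρ σ) = X ^ 2 - C (φ a) * X + C ((ℓ : k))) ∧
      ∀ ℓ : ℕ, ℓ.Prime → ¬ ℓ ∣ N * p → ρ.IsUnramifiedAt ℓ :=
  S29.result hg hp φ

/-- **S42: attachment for a Frey package.**  `P` is a Frey package with prime exponent `p` and Frey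
curve `E`.  For every normalised eigenform `g` of weight two on `Γ_0(M)` and every maximal ideal `𝔪`
of the ring of algebraic integers containing `p` there are a field `K` with a map `ψ : ℤ̄ → K`
killing `𝔪` and a two-dimensional representation over `K` such that at the Frobenius elements at
`ℓ ∤ M p` the trace is `ψ(a_ℓ(g))` and the determinant is `ℓ`; moreover there is a finite Galois
extension `F` of `ℚ` such that the Galois elements which are trivial on `F` act trivially on this
representation and on `E[p]`.  Proved from S29 in `H42Glue` (discriminant of the Frey curve, common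
finite level, trace and determinant from the characteristic polynomial) and `H42TorsionFinal`
(`E[p]` is finite). -/
theorem S42_statement (P : FreyPackage) (M : ℕ) (hM : 0 < M)
    (g : CuspForm (CongruenceSubgroup.Gamma0 M) 2) (hg : g.IsNormalizedEigenform)
    (𝔪 : Ideal (integralClosure ℤ ℂ)) (h𝔪 : 𝔪.IsMaximal) (hp : (P.p : integralClosure ℤ ℂ) ∈ 𝔪) :
    ∃ (K : Type) (_ : Field K) (_ : Algebra (ZMod P.p) K)
      (V : Type) (_ : AddCommGroup V) (_ : Module K V) (ρ : Representation K Gℚ V)
      (ψ : integralClosure ℤ ℂ →+* K)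
      (F : Type) (_ : Field F) (_ : NumberField F) (_ : IsGalois ℚ F) (_ : Algebra F Qb)
      (_ : IsScalarTower ℚ F Qb),
      𝔪 ≤ RingHom.ker ψ ∧ Module.finrank K V = 2 ∧
      (AlgEquiv.restrictNormalHom (F := ℚ) (K₁ := Qb) F).ker ≤
        (WeierstrassCurve.Affine.Point.galoisRepModuleEnd (S := ℚ) (K := Qb)
          P.freyCurve P.p).ker ⊓ ρ.ker ∧
      (∀ ℓ : ℕ, ℓ.Prime → ¬ ℓ ∣ M → ℓ ≠ P.p → ∀ A : ValuationSubring Qb, A.LiesOverPrime ℓ →
        ∀ τ : Gℚ, A.IsFrobeniusAt τ ℓ → ∃ a : integralClosure ℤ ℂ,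
          (a : ℂ) = ModularFormClass.qCoeff g ℓ ∧ LinearMap.trace K V (ρ τ) = ψ a) ∧
      (∀ ℓ : ℕ, ℓ.Prime → ¬ ℓ ∣ M → ℓ ≠ P.p → ∀ A : ValuationSubring Qb, A.LiesOverPrime ℓ →
        ∀ τ : Gℚ, A.IsFrobeniusAt τ ℓ → LinearMap.det (ρ τ) = (ℓ : K)) :=
  S42.result P M hM g hg 𝔪 h𝔪 hp

/-! ## 6. Representations over a local component of the Hecke algebra

In this section `𝒪` is a complete discrete valuation ring, `θ` a homomorphism from the Hecke algebra
of `S_2(Γ_0(N))` away from `S` (generated by the `T_ℓ`, `ℓ ∤ N`, and the `U_q`, `q ∣ N`, for the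
primes outside `S`) to its residue field, and `T` a complete noetherian local `𝒪`-algebra, finite
and free as a module. -/

/-- **What is a Hecke-Galois datum.**  A `HeckeGaloisRepDatum N S 𝒪 θ T` consists of a homomorphism
`π` from the Hecke algebra to `T` which lifts `θ` and whose image generates `T` over `𝒪`, such that
every lift `χ` of `θ` with values in `𝒪` factors through `T`, and of a representation `ρ` over `T`
with absolutely irreducible reduction and with `X² - T_ℓ X + ℓ` as characteristic polynomial of the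
Frobenius elements at `ℓ ∤ N`, `ℓ ∉ S`.  Moreover `T` and `𝒪` have the same residue field. -/
theorem datum_fields {N : ℕ} [NeZero N] {S : Set ℕ} {𝒪 : Type} [CommRing 𝒪] [IsDomain 𝒪]
    [IsDiscreteValuationRing 𝒪] [IsAdicComplete (maximalIdeal 𝒪) 𝒪]
    {θ : CuspForm.heckeAlgebra N 2 S →+* ResidueField 𝒪}
    {T : Type} [CommRing T] [IsLocalRing T] [IsNoetherianRing T]
    [IsAdicComplete (maximalIdeal T) T] [Algebra 𝒪 T] [IsLocalHom (algebraMap 𝒪 T)]
    [Module.Finite 𝒪 T] [Module.Free 𝒪 T] (H : CuspForm.HeckeGaloisRepDatum N S 𝒪 θ T) :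
    (∀ t : CuspForm.heckeAlgebra N 2 S,
      residue T (H.π t) = ResidueField.map (algebraMap 𝒪 T) (θ t)) ∧
    Function.Surjective (residue T ∘ algebraMap 𝒪 T) ∧
    Algebra.adjoin 𝒪 (Set.range H.π) = ⊤ ∧
    (∀ χ : CuspForm.heckeAlgebra N 2 S →+* 𝒪,
      (∀ t : CuspForm.heckeAlgebra N 2 S, residue 𝒪 (χ t) = θ t) →
        ∃ ψ : T →ₐ[𝒪] 𝒪, ∀ t : CuspForm.heckeAlgebra N 2 S, ψ (H.π t) = χ t) ∧
    (∀ (ℓ : ℕ) (hℓ : ℓ.Prime) (hℓN : ¬ ℓ ∣ N) (hℓS : ℓ ∉ S), ∀ A : ValuationSubring Qb,
      A.LiesOverPrime ℓ → ∀ σ : Gℚ, A.IsFrobeniusAt σ ℓ →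
        LinearMap.charpoly (H.ρ.ρ σ) =
          X ^ 2 - C (H.π (CuspForm.heckeAlgebra.T hℓ hℓN hℓS)) * X + C ((ℓ : T))) ∧
    H.ρ.residual.IsAbsolutelyIrreducible :=
  ⟨H.residue_π, H.residue_surjective, H.adjoin_range_π, H.exists_point, H.charpoly_frob,
    H.residual_absIrr⟩

/-- **S31: unramified outside `S`.**  Idea: by absolute irreducibility (the trace form is
nondegenerate) it is enough that `tr ρ(g τ) = tr ρ(g)` for all `g` and all `τ` in inertia at `q`.
Modulo `𝔪^n` both sides are traces of powers `φ^j`, `φ'^j'` of Frobenius elements at good primes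
`ℓ`, `ℓ'`, that is, polynomials `t`, `t'` in `T_ℓ` and `T_ℓ'`.  Since `τ` acts trivially on
`J_0(N)[p^n]`, the elements `φ^j` and `φ'^j'` act in the same way, as `x` say; subtract the
relations `x² - t x + ℓ^j = 0` and `x² - t' x + ℓ'^j' = 0`: since `x` is invertible and
`ℓ^j = ℓ'^j'` modulo `p^n` (`τ` fixes the roots of unity), `t = t'` on `J_0(N)[p^n]`; then use
`hecke_faithful`.  Proved in `H31Glue`, `H31Mod`, `H31Wire`, `H31JZero` (helper31); step by step in
GuideUnramified. -/
theorem S31_statement {p N : ℕ} [NeZero N] {S : Finset ℕ} {𝒪 : Type} [CommRing 𝒪] [IsDomain 𝒪]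
    [IsDiscreteValuationRing 𝒪] [IsAdicComplete (maximalIdeal 𝒪) 𝒪]
    {θ : CuspForm.heckeAlgebra N 2 (↑S : Set ℕ) →+* ResidueField 𝒪}
    {T : Type} [CommRing T] [IsLocalRing T] [IsNoetherianRing T]
    [IsAdicComplete (maximalIdeal T) T] [Algebra 𝒪 T] [IsLocalHom (algebraMap 𝒪 T)]
    [Module.Finite 𝒪 T] [Module.Free 𝒪 T] (hp : p.Prime) (hp𝒪 : (p : 𝒪) ∈ maximalIdeal 𝒪)
    (hpS : p ∈ S) (hNS : ∀ q : ℕ, q.Prime → q ∣ N → q ∈ S)
    (H : CuspForm.HeckeGaloisRepDatum N (↑S : Set ℕ) 𝒪 θ T) (q : ℕ) (hq : q.Prime)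
    (hqS : q ∉ S) : H.ρ.IsUnramifiedAt q :=
  S31.result hp hp𝒪 hpS hNS H q hq hqS

/-- **Relations on `J_0(N)[p^n]` hold for `ρ` modulo `𝔪^k`.**  `z` is a formal linear combination of
Galois elements whose coefficients are polynomials in the Hecke operators `T_ℓ`, `ℓ ∤ N`, `ℓ ∉ S`.
For every `k` there is `n` such that: if `z` acts as zero on `J_0(N)[p^n]` then `z` maps `V` into
`𝔪^k V`.  Hence the Galois module `V / 𝔪^k V` is a subquotient of a power of `J_0(N)[p^n]` (`V` is
spanned by the conjugates of one vector).  Proof: every Galois element `g` satisfies a quadratic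
relation `g² - t(g) g + d(g) = 0` on the torsion; formally, `Σ a_g g = 0` on the torsion implies
that `det [x, y] · Σ a_g t(g h)` kills the torsion for all `x`, `y`, `h` (`H32Trace`), so it is in
`𝔪^k` by `hecke_faithful`; `det [ρ(x), ρ(y)]` is a unit for suitable `x`, `y` (absolute
irreducibility, `H32Commutator`), so the traces of `Σ a_g ρ(g) ρ(h)` are in `𝔪^k` for all `h`, and
the `ρ(h)` span `End V` (Burnside).  Proved in `H32S32` (helper32). -/
theorem relations_descend {p N : ℕ} [NeZero N] {S : Finset ℕ} {𝒪 : Type} [CommRing 𝒪] [IsDomain 𝒪]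
    [IsDiscreteValuationRing 𝒪] [IsAdicComplete (maximalIdeal 𝒪) 𝒪]
    {θ : CuspForm.heckeAlgebra N 2 (↑S : Set ℕ) →+* ResidueField 𝒪}
    {T : Type} [CommRing T] [IsLocalRing T] [IsNoetherianRing T]
    [IsAdicComplete (maximalIdeal T) T] [Algebra 𝒪 T] [IsLocalHom (algebraMap 𝒪 T)]
    [Module.Finite 𝒪 T] [Module.Free 𝒪 T] (hp : p.Prime) (hp𝒪 : (p : 𝒪) ∈ maximalIdeal 𝒪)
    (hpS : p ∈ S) (hNS : ∀ q : ℕ, q.Prime → q ∣ N → q ∈ S)
    (H : CuspForm.HeckeGaloisRepDatum N (↑S : Set ℕ) 𝒪 θ T) (k : ℕ) :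
    ∃ n : ℕ, ∀ z : Gℚ →₀ MvPolynomial (H31.GoodPrimes N (↑S : Set ℕ)) ℤ,
      (letI := heckeModuleBar N
       ∀ x : JZero N, p ^ n • x = 0 →
        z.sum (fun g a => H31.inclHecke N (↑S : Set ℕ) a • g • x) = 0) →
      ∀ v : H.ρ.V, z.sum (fun g a => H.π (H31.evHecke N (↑S : Set ℕ) a) • H.ρ.ρ g v) ∈
        maximalIdeal T ^ k • (⊤ : Submodule T H.ρ.V) := by
  let _ := heckeModuleBar N
  have := H31.smulCommClass N
  have h := H31.specializationExists N p
  have hfl := H31.finiteLevel_JZero N p (fun n => (H31.jzeroInputs N).finite p n hp)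
  obtain ⟨n, hn⟩ := H32.exists_level_relations hp hp𝒪 hpS hNS H
    (H31.frobeniusQuadratic_of_specializationExists h) hfl (H90.heckeFaithful_jzero N hNS hp) k
  refine ⟨n, fun z hz v => hn z (LinearMap.ext fun x => Subtype.ext ?_) v⟩
  have h1 := hz x (H31.nsmul_eq_zero_of_mem x)
  rw [Finsupp.sum] at h1 ⊢
  rw [LinearMap.sum_apply, Submodule.coe_sum]
  exact h1

/-- **S32: flat at `p`** (`p` odd, `p ∤ N`).  By `relations_descend` every finite quotient `V/IV` is
isomorphic, as a Galois module, to a subquotient of a power of `J_0(N)[p^n]`; the latter is the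
group of points of a finite flat group scheme over `ℤ_(p)` (S19, see GuideFlatTorsion), and
subquotients of such modules are such modules (`H32FlatClosure`).  Proved in `H32S32`, `H32JZero`
(helper32); step by step in GuideFlat. -/
theorem S32_statement {p N : ℕ} [NeZero N] {S : Finset ℕ} {𝒪 : Type} [CommRing 𝒪] [IsDomain 𝒪]
    [IsDiscreteValuationRing 𝒪] [IsAdicComplete (maximalIdeal 𝒪) 𝒪]
    {θ : CuspForm.heckeAlgebra N 2 (↑S : Set ℕ) →+* ResidueField 𝒪}
    {T : Type} [CommRing T] [IsLocalRing T] [IsNoetherianRing T]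
    [IsAdicComplete (maximalIdeal T) T] [Algebra 𝒪 T] [IsLocalHom (algebraMap 𝒪 T)]
    [Module.Finite 𝒪 T] [Module.Free 𝒪 T] [Finite (ResidueField 𝒪)] [CharZero 𝒪]
    (hp : p.Prime) (hp2 : p ≠ 2) (hp𝒪 : (p : 𝒪) ∈ maximalIdeal 𝒪) (hpN : ¬ p ∣ N) (hpS : p ∈ S)
    (hNS : ∀ q : ℕ, q.Prime → q ∣ N → q ∈ S)
    (H : CuspForm.HeckeGaloisRepDatum N (↑S : Set ℕ) 𝒪 θ T) : H.ρ.IsFlatAt p :=
  S32.result hp hp2 hp𝒪 hpN hpS hNS H

end Fermat.Agent.Guide.Galois
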