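import Fermat.Agent.S48

/-!
# Reader's guide: the Galois action on the characters of `Γ₁(M)` (S48)

Nothing is proved in this file. Every theorem is the exact statement of a theorem of the library,
with all hypotheses written out, followed by a citation. No file imports this one.

## What the block does

For `M ≥ 5` and a prime `n ≥ 5` let `V` be the finite group of the characters `Γ₁(M) → μ_n` which are
trivial on parabolic and elliptic elements. Geometrically `V = J₁(M)[n]`. The block constructs an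
action of `Gal(ℚ̄/ℚ)` on `V` which factors through a finite quotient, commutes with the Hecke
operators, is unramified at the primes `p ∤ M n`, and satisfies the Eichler-Shimura relation
`Frob_p² + p ⟨p⟩ = Frob_p T_p` (`galoisAction`). No modular curve over `ℤ`, no Jacobian, no moduli
problem and no scheme occurs. The result is the input `H48.HasGalAction` of the proof of S48, see
`Fermat.Agent.GuideDeligneSerre`.

## Plan (reading order of this file)

1. *Twisted modular forms* (`twisted_notions` to `conjugate_character`). A form with character `χ ∈ V`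
   has a `q`-expansion at `∞` and determines `χ`. If `σ` is a field automorphism of `ℂ` and `f` a form
   with character `χ`, the series obtained by applying `σ` to the coefficients of `f` is the expansion
   of a form with a character `χ^σ ∈ V`. This is proved through `f ^ n`, which is an ordinary modular
   form; its conjugate is an `n`-th power again, because `Δ` is a sum of products of forms with the
   characters `χ` and `χ⁻¹`.
2. *The Galois action* (`gal_spec` to `gal_hecke`): `χ ↦ χ^σ` depends only on the restriction of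
   `σ` to `ℚ̄`, factors through a finite quotient and commutes with `T_p` and `⟨d⟩`.
3. *Reduction modulo `p`* (`norm_reduction` to `galoisAction`). Two inputs: the `q`-expansion
   principle for the diamond operators, and the injectivity of reduction on characters ("Kummer
   injectivity"). Unramifiedness and the Eichler-Shimura relation are then computations with power
   series modulo `p`.
4. *From forms to functions* (`expansion_notions` to `kummer_injectivity_functions`): the two inputs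
   are reduced to statements on functions of weight zero for `±Γ₁(M) ∩ Γ₀(r)`, `r = 2` or `3`,
   `r ≠ p`. The auxiliary level gives a Hauptmodul `t` with integral expansion, ramified only over
   `0`, `∞` and a point `c` with `|c|` a power of `r`.
5. *The function field over the `t`-line* (`hauptmodul` to `separating_generator`): the embeddings of
   the function field over `K(t)` in Laurent series are the expansions of the `x ∘ γ`, `γ ∈ Γ₀(r)`;
   the field is unramified over `t ≠ 0, c, ∞`, and also at the Gauss valuation, because there is one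
   function all of whose conjugates have pairwise distinct reductions.
6. *Connectedness* (`gauss_notions` to `ki_qexp`): abstract theorem on covers of the projective line
   over a discrete valuation ring which are unramified at the Gauss valuation, have reduced branch
   divisor, and have a rational cusp: the special fibre is irreducible. The `q`-expansion principle
   is a consequence; Kummer injectivity is the same theorem for the cover given by an `n`-th root.
   The theorems of section 4 are `qexp_principle` and `ki_qexp` for the data of section 5 (files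
   `H78KIAbs`, `H78KIMain`, `H78KIFinal`, over a number field; and descent from `ℚ̄`).

## References

NOTES.md, section A.9: [145] twisted modular forms, files `H22Tw*` (helper22); [238] the core
statements, files `H78KI*`, `H78FF*` (helper78); [279] the abstract theorem, files `H29ChartA` to
`H29Window` (helper29); [278] division values and separating generator, files `H58*` (helper58); [161]
Hauptmoduln and forms on `Γ₁(N)`, files `H50*` (helper50); [173] overview of S48 (helper48).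
All theorems are in the closure of S48 (and of S47, which uses S48).
More details: `GuideTwistedForms` (the steps of sections 1 to 3), `GuideWeightOne` (the steps of
`qExpansion_principle`), `GuideDivisionValues` (the steps of `separating_generator` and
`kummer_injectivity`), `GuideSeparation` (function fields and Hauptmoduln in section 5, and the
application of section 6), `GuideSpecialFibre` (the steps of section 6).

## Notation

`Qb` is the algebraic closure of `ℚ` used by Mathlib, `Gq` its Galois group over `ℚ`. `𝕢 h τ` is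
`exp (2 π i τ / h)`.
-/

set_option autoImplicit false

open CongruenceSubgroup UpperHalfPlane ModularCurve IntermediateField
open scoped MatrixGroups ModularForm Manifold Polynomial IntermediateField

namespace Fermat.Agent.Guide.GaloisAction

local notation "Qb" => AlgebraicClosure ℚ
local notation "Gq" => (AlgebraicClosure ℚ ≃ₐ[ℚ] AlgebraicClosure ℚ)
local notation "𝕢" => Function.Periodic.qParam

/-! ## 1. Twisted modular forms

Further files of this section: `H90TwistedEis` (twisted Eisenstein series), `H20VMF`, `H20Mat`,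
`H20Inf`, `H20Inf2`, `H80Level1`, `H80Free`, `H80Det`, `H80Dual` (vector valued forms over level
one), `H4Root` (roots of holomorphic functions), `H78Ring` (conjugation of forms of level one). -/

/-- **Notions.** `IsM Γ k f`: `f` is a modular form of weight `k` on `Γ` (a plain function).
`IsTw Γ χ k f`: the same with a character `χ`. `parChar Γ n`: the group of the characters of `Γ` of
order dividing `n` which are trivial on the elements conjugate in `SL₂(ℤ)` to a power of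
`T = (1 1; 0 1)`. `pmG M` is the group `±Γ₁(M)`. Files `H22TwForms`, `H22TwInt`. -/
theorem twisted_notions (Γ : Subgroup SL(2, ℤ)) (χ : Γ →* ℂˣ) (k : ℤ) (f : ℍ → ℂ) (n M : ℕ)
    (γ : SL(2, ℤ)) :
    (H22.Tw.IsM Γ k f ↔ (∀ γ ∈ Γ, f ∣[k] γ = f) ∧ MDiff f ∧
      ∀ g : SL(2, ℤ), IsBoundedAtImInfty (f ∣[k] g)) ∧
    (H22.Tw.IsTw Γ χ k f ↔ (∀ γ : Γ, f ∣[k] (γ : SL(2, ℤ)) = (χ γ : ℂ) • f) ∧ MDiff f ∧
      ∀ g : SL(2, ℤ), IsBoundedAtImInfty (f ∣[k] g)) ∧
    (χ ∈ H22.Tw.parChar Γ n ↔ χ ^ n = 1 ∧ ∀ (γ : Γ) (g : SL(2, ℤ)) (m : ℤ),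
      (γ : SL(2, ℤ)) = g * ModularGroup.T ^ m * g⁻¹ → χ γ = 1) ∧
    (γ ∈ H22.Tw.pmG M ↔ γ ∈ Gamma1 M ∨ -γ ∈ Gamma1 M) :=
  ⟨⟨fun h => ⟨h.1, h.2, h.3⟩, fun h => ⟨h.1, h.2.1, h.2.2⟩⟩,
    ⟨fun h => ⟨h.1, h.2, h.3⟩, fun h => ⟨h.1, h.2.1, h.2.2⟩⟩, Iff.rfl, Iff.rfl⟩

/-- **Characters of `Γ₁(M)` and of `±Γ₁(M)`.** For `M ≥ 3` and a prime `n ≥ 5` the restriction of
characters (`resC`) is an isomorphism `vnEquiv` from `parChar (±Γ₁(M)) n` to the group
`H48.Vn (Gamma1 M) n` of the characters of `Γ₁(M)` killed by `n` and trivial on parabolic and elliptic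
elements. Files `H22TwPm`, `H48Gal`. -/
theorem characters_pm {M n : ℕ} (hM : 3 ≤ M) (hn : n.Prime) (hn5 : 5 ≤ n)
    (ψ : Additive (H22.Tw.parChar (H22.Tw.pmG M) n)) (χ : Additive (Gamma1 M) →+ Additive ℂˣ) :
    (H22.Tw.vnEquiv hM hn hn5 ψ : Additive (Gamma1 M) →+ Additive ℂˣ) =
      MonoidHom.toAdditive (H22.Tw.resC ψ.toMul.1) ∧
    (χ ∈ H48.Vn (Gamma1 M) n ↔ H48.IsPE χ ∧ ∀ γ, n • χ γ = 0) :=
  ⟨H22.Tw.vnEquiv_apply hM hn hn5 ψ, Iff.rfl⟩

/-- **Forms with character which do not vanish at any cusp.** Let `χ` be a unitary character of a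
subgroup `Γ ∋ -1` of finite index, trivial on parabolic elements and on `-1`, and `k ≥ 4` even. There is
a form of weight `k` and character `χ` with a nonzero limit at every cusp. Proof: twisted Eisenstein
series. File `H22TwEis`. -/
theorem exists_nonvanishing_at_cusps {Γ : Subgroup SL(2, ℤ)} {χ : Γ →* ℂˣ} {k : ℤ}
    [Γ.FiniteIndex] (hneg : (-1 : SL(2, ℤ)) ∈ Γ) (h1 : ∀ γ, ‖(χ γ : ℂ)‖ = 1)
    (hpar : ∀ (γ : Γ) (g : SL(2, ℤ)) (m : ℤ),
      (γ : SL(2, ℤ)) = g * ModularGroup.T ^ m * g⁻¹ → χ γ = 1)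
    (hχneg : χ ⟨-1, hneg⟩ = 1) (hk : Even k) (hk4 : 4 ≤ k) :
    ∃ E : ℍ → ℂ, H22.Tw.IsTw Γ χ k E ∧ ∀ g : SL(2, ℤ), ∃ c : ℂ, c ≠ 0 ∧
      Filter.Tendsto (E ∣[k] g) atImInfty (nhds c) :=
  H22.Tw.exists_tw_NV hneg h1 hpar hχneg hk hk4

/-- **Decomposition of `Δ`.** Let `Γ ∋ -1` be a group of finite index which is the stabiliser of a
modular form, and `χ` a parabolic character of `Γ` of finite order with `χ(-1) = 1`. Then
`Δ = ∑ F_i G_i` with forms `F_i` of character `χ` and `G_i` of character `χ⁻¹`. This replaces the local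
triviality of the line bundle attached to `χ`: in `ℍ` the forms with character `χ` have no common
zero. Proof: a free basis of the vector valued forms attached to `SL₂(ℤ) / ker χ` over level one, and
its dual basis. File `H22TwDual`. -/
theorem discriminant_decomposition {Γ : Subgroup SL(2, ℤ)} {χ : Γ →* ℂˣ} [Γ.FiniteIndex]
    (hsep : ∃ (w : ℕ) (G : ℍ → ℂ), 2 ≤ w ∧ H22.Tw.IsM Γ (2 * w) G ∧ G ≠ 0 ∧
      ∀ γ : SL(2, ℤ), G ∣[(2 * w : ℤ)] γ = G → γ ∈ Γ)
    (hneg : (-1 : SL(2, ℤ)) ∈ Γ) {n : ℕ} (hn : n ≠ 0) (hχ : χ ^ n = 1)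
    (hpar : ∀ (γ : Γ) (g : SL(2, ℤ)) (m : ℤ),
      (γ : SL(2, ℤ)) = g * ModularGroup.T ^ m * g⁻¹ → χ γ = 1)
    (hχneg : χ ⟨-1, hneg⟩ = 1) :
    ∃ (m : ℕ) (kk : Fin m → ℤ) (F G : Fin m → ℍ → ℂ),
      (∀ i, Even (kk i)) ∧ (∀ i, H22.Tw.IsTw Γ χ (kk i) (F i)) ∧
      (∀ i, H22.Tw.IsTw Γ χ⁻¹ (12 - kk i) (G i)) ∧
      ∀ τ, ∑ i, F i τ * G i τ = ModularForm.discriminant τ :=
  H22.Tw.exists_disc_decomp hsep hneg hn hχ hpar hχneg

/-- **Roots of modular forms.** A nonzero modular form of weight `n k` all of whose orders of vanishing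
in `ℍ` are divisible by `n` is the `n`-th power of a form of weight `k` with a character of order
dividing `n`. File `H22TwRoot`. -/
theorem exists_root {Γ : Subgroup SL(2, ℤ)} {k : ℤ} {n : ℕ} (hn : n ≠ 0) {G : ℍ → ℂ}
    (hG : H22.Tw.IsM Γ ((n : ℤ) * k) G) (hG0 : G ≠ 0)
    (hord : ∀ τ : ℍ, n ∣ analyticOrderNatAt (G ∘ ofComplex) (τ : ℂ)) :
    ∃ (χ : Γ →* ℂˣ) (g : ℍ → ℂ), χ ^ n = 1 ∧ H22.Tw.IsTw Γ χ k g ∧ g ^ n = G :=
  H22.Tw.exists_tw_root hn hG hG0 hord

/-- **Conjugation of modular forms.** `IsConj σ f f'`: there is a power series `P` which is the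
`q`-expansion of `f`, and `P` with `σ` applied to its coefficients is the `q`-expansion of `f'`
(`IsQ 1 f P`: `f` has period one, is holomorphic, bounded at `i∞`, with expansion `P`). For every
ring homomorphism `σ : ℂ → ℂ`, every modular form of even weight on `±Γ₁(M)` has such a conjugate,
again a modular form on `±Γ₁(M)`. Proof: let `g` be a form on `Γ₁(M)` with integral expansion and
stabiliser exactly `Γ₁(M)` (`H50Prim1`). Then `D f = ∑ H_i g ^ i` and `0 ≠ D = ∑ G_i g ^ i` with forms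
`G_i`, `H_i` of level one, which can be conjugated; the quotient of the conjugated sums is integral
over the forms of level one, hence a modular form (`H50ConjM`, `H50Arith`). File `H22TwPm`. -/
theorem conjugate_form (σ : ℂ →+* ℂ) (f f' : ℍ → ℂ) (M : ℕ) [NeZero M] :
    (H22.Tw.IsConj σ f f' ↔
      ∃ P : PowerSeries ℂ, H22.Tw.IsQ 1 f P ∧ H22.Tw.IsQ 1 f' (P.map σ)) ∧
    ∀ (k : ℤ) (f : ℍ → ℂ), Even k → H22.Tw.IsM (H22.Tw.pmG M) k f →
      ∃ f', H22.Tw.IsM (H22.Tw.pmG M) k f' ∧ H22.Tw.IsConj σ f f' :=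
  ⟨Iff.rfl, H22.Tw.conjStable_pmG σ⟩

/-- **Conjugation of characters.** Let `M ≥ 3`, `n` odd and `σ : ℂ → ℂ` a ring homomorphism. For
`χ ∈ parChar (±Γ₁(M)) n` there is `χ' ∈ parChar (±Γ₁(M)) n` such that every form of even weight with
character `χ` has a conjugate by `σ` with character `χ'`. Proof: let `E` be a form with character
`χ` which does not vanish at the cusps. The conjugate of the modular form `E ^ n` is again an `n`-th
power (`exists_root`): if `Δ = ∑ F_i G_i`, then `E ^ n G_i ^ n` is the `n`-th power of the modular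
form `E G_i`, so its conjugate has orders divisible by `n`, and the conjugates of the `G_i ^ n` have
no common zero. A second form `f` with character `χ` is compared with `E` through `f E ^ (n - 1)`,
which is a modular form on `±Γ₁(M)`; `χ'` is parabolic because the conjugate of `E ^ n` does not
vanish at the cusps either (its values there are compared through the norm to level one). File
`H22TwConj`. -/
theorem conjugate_character {M : ℕ} [NeZero M] (hM : 3 ≤ M) {n : ℕ} (hodd : Odd n)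
    (σ : ℂ →+* ℂ) (χ : H22.Tw.pmG M →* ℂˣ) (hχ : χ ∈ H22.Tw.parChar (H22.Tw.pmG M) n) :
    ∃ χ' ∈ H22.Tw.parChar (H22.Tw.pmG M) n, ∀ (k : ℤ) (f : ℍ → ℂ), Even k →
      H22.Tw.IsTw (H22.Tw.pmG M) χ k f →
        ∃ f', H22.Tw.IsTw (H22.Tw.pmG M) χ' k f' ∧ H22.Tw.IsConj σ f f' :=
  have := (H22.Tw.hyp_pmG hM).fin
  H22.Tw.exists_conj_char H22.Tw.T_mem_pmG H22.Tw.neg_mem_pmG (H22.Tw.hasSep_pmG hM)
    (H22.Tw.conjStable_pmG σ) hodd hχ

/-! ## 2. The Galois action

Further files of this section: `H90DescentLin` (complex numbers with finitely many conjugates are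
algebraic), `H48Defs`, `H4Transfer` (Hecke correspondences). -/

/-- **The action.** `hΓ : Hyp Γ` says that `Γ` has the properties of `±Γ₁(M)`, `M ≥ 3`, which are
used: finite index, `T, -1 ∈ Γ`, `Γ` is the stabiliser of a modular form, and the conclusion of
`conjugate_form` (`H22.Tw.hyp_pmG : 3 ≤ M → Hyp (pmG M)`). `gal hΓ hodd ι` is the homomorphism from
`Gal(ℚ̄/ℚ)` to the endomorphisms of `parChar Γ n` characterised by this theorem: if `σ` extends
`s ∈ Gal(ℚ̄/ℚ)` along `ι : ℚ̄ → ℂ`, the forms of even weight with character `χ` are conjugate by `σ` to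
forms with character `gal s χ`. It does not depend on `σ` because the form of weight four with
character `χ` and maximal order at `∞`, normalised, is unique, hence, as there are only finitely many
characters, its coefficients have finitely many conjugates and are algebraic (`H22TwCanon`). The
action factors through a finite quotient, because finitely many of these coefficients separate the
characters. File `H22TwGal`. -/
theorem gal_spec {Γ : Subgroup SL(2, ℤ)} (hΓ : H22.Tw.Hyp Γ) {n : ℕ} (hodd : Odd n)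
    (ι : Qb →+* ℂ) :
    (∀ (s : Gq) (σ : ℂ →+* ℂ), (∀ x, σ (ι x) = ι (s x)) → ∀ (χ : H22.Tw.parChar Γ n) (k : ℤ)
      (f : ℍ → ℂ), Even k → H22.Tw.IsTw Γ χ k f →
      ∃ f', H22.Tw.IsTw Γ (H22.Tw.gal hΓ hodd ι s χ) k f' ∧ H22.Tw.IsConj σ f f') ∧
    ∃ L : IntermediateField ℚ Qb, FiniteDimensional ℚ L ∧
      ∀ s : Gq, (∀ x ∈ L, s x = x) → H22.Tw.gal hΓ hodd ι s = 1 := by
  refine ⟨fun s σ h χ k f hk hf => ?_, H22.Tw.gal_finite_level hΓ hodd ι⟩
  rw [← show _ = H22.Tw.gal hΓ hodd ι s χ from H22.Tw.cj_congr hΓ hodd ι (σ := σ) (fun x =>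
    (h x).trans (H22.Tw.liftC_apply ι s x).symm) χ]; exact H22.Tw.cj_spec hΓ hodd σ χ hk hf

/-- **Hecke operators on forms with character, multiplicatively.** For `p ∤ M` let `T_p χ` be the
transfer of the character `χ` along the Hecke correspondence (`hChar (sysT M p)`: `α_i γ` is
`γ_i α_j`, and `(T_p χ)(γ) = ∏ χ(γ_i)`). If `f` has character `χ`, the product
`(f ∣ σ_p)(p τ) ∏_{j < p} f((τ + j) / p)` is a form with character `T_p χ`; here `σ_p = sig M p` is an
element of `Γ₀(M)` with lower right entry `p`, and `mulArg p _ τ = p τ`,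
`divArg p _ j τ = (τ + j) / p`. File `H22TwHecke`. -/
theorem norm_form {M p : ℕ} (hp : p.Prime) (hpM : ¬ p ∣ M) {χ : Gamma1 M →* ℂˣ} {k : ℤ}
    {f : ℍ → ℂ} (hf : H22.Tw.IsTw (Gamma1 M) χ k f) :
    (∀ γ, H22.Tw.hChar (H48.sysT M p hp hpM) χ γ = ∏ i, χ ((H48.sysT M p hp hpM).coc γ i)) ∧
    H22.Tw.IsTw (Gamma1 M) (H22.Tw.hChar (H48.sysT M p hp hpM) χ) (((p + 1 : ℕ) : ℤ) * k)
      (((f ∣[k] H58.sig M p) ∘ H22.Tw.mulArg p hp.ne_zero) *
        ∏ j ∈ Finset.range p, (f ∘ H22.Tw.divArg p hp.ne_zero j)) :=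
  ⟨H22.Tw.hChar_apply _ χ, H22.Tw.isTw_NP hp hpM hf⟩

/-- **Hecke equivariance.** `hV hM hn hn5 H` is the endomorphism of `parChar (±Γ₁(M)) n` induced by
the Hecke correspondence `H` (last part: it is transported by `vnEquiv` from the action `H.homV n` on
the characters of `Γ₁(M)`; `H48.HeckeSys`, `H48.sysT` and `H48.sysDia` are explained in
`heckeSys_notions` of `GuideDeligneSerre`). It commutes with the conjugation `cj σ : χ ↦ χ^σ` of
characters for `H = T_p` and `H = ⟨d⟩` (and `gal s = cj σ` for every extension `σ` of `s` to `ℂ`).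
Proof: the product in `norm_form` is compatible with conjugation. File `H22TwEqv`. -/
theorem gal_hecke {M n p : ℕ} [NeZero M] (hM : 3 ≤ M) (hn : n.Prime) (hn5 : 5 ≤ n)
    (σ : ℂ →+* ℂ) (ψ : H22.Tw.parChar (H22.Tw.pmG M) n) (hp : p.Prime) (hpM : ¬ p ∣ M) (d : ℤ) :
    H22.Tw.cj (H22.Tw.hyp_pmG hM) (H22.Tw.odd_of_prime hn hn5) σ
        (H22.Tw.hV hM hn hn5 (H48.sysT M p hp hpM) ψ) =
      H22.Tw.hV hM hn hn5 (H48.sysT M p hp hpM)
        (H22.Tw.cj (H22.Tw.hyp_pmG hM) (H22.Tw.odd_of_prime hn hn5) σ ψ) ∧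
    H22.Tw.cj (H22.Tw.hyp_pmG hM) (H22.Tw.odd_of_prime hn hn5) σ
        (H22.Tw.hV hM hn hn5 (H48.sysDia M d) ψ) =
      H22.Tw.hV hM hn hn5 (H48.sysDia M d)
        (H22.Tw.cj (H22.Tw.hyp_pmG hM) (H22.Tw.odd_of_prime hn hn5) σ ψ) ∧
    ∀ H : H48.HeckeSys (Gamma1 M),
      H22.Tw.vnEquiv hM hn hn5 (Additive.ofMul (H22.Tw.hV hM hn hn5 H ψ)) =
        H.homV n (H22.Tw.vnEquiv hM hn hn5 (Additive.ofMul ψ)) :=
  ⟨H22.Tw.cj_T hM hn hn5 σ ψ hp hpM, H22.Tw.cj_dia hM hn hn5 σ ψ d,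
    fun H => H22.Tw.vnEquiv_hV hM hn hn5 H ψ⟩

/-! ## 3. Reduction modulo `p` -/

/-- **The multiplicative congruence relation.** Let `P`, `Q`, `R` be the expansions of `f`, `g` and of
`g(p τ) ∏_{j < p} f((τ + j) / p)`, with coefficients in a domain `S` which contains the `p`-th roots of
unity, so `R(q^p) = Q(q^(p²)) ∏_{ζ^p = 1} P(ζ q)`. A homomorphism `ρ` from `S` to a field of
characteristic `p` maps `R` to `Q(q^p)` times the series `P` with its coefficients raised to the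
`p`-th power. This replaces the geometry of the reduction of `T_p`. File `H22TwNP`. -/
theorem norm_reduction {S κ : Type*} [CommRing S] [IsDomain S] [Field κ] {p : ℕ} [CharP κ p]
    [Fact p.Prime] (ρ : S →+* κ) (hp : p ≠ 0)
    (hS : (Polynomial.nthRootsFinset p (1 : S)).card = p) {P Q R : PowerSeries S}
    (h : R.expand p hp = (Q.expand p hp).expand p hp *
      ∏ ζ ∈ Polynomial.nthRootsFinset p (1 : S), PowerSeries.rescale ζ P) :
    R.map ρ = (Q.map ρ).expand p hp * (P.map ρ).map (frobenius κ p) :=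
  H22.Tw.IsNP.reduce ρ hp hS h

/-- **The `q`-expansion principle** for the diamond operators. Let `A` be a place of `ℚ̄` above a prime
`p ∤ M`. If a modular form of even weight on `Γ₁(M)` has its `q`-expansion coefficients in `A`, the same
holds for `f ∣[k] δ`, `δ ∈ Γ₀(M)`. Proof: reduction to weight zero, `qExpansion_principle_functions`
for `r = 2` or `3`, `r ≠ p`; the steps are in `GuideWeightOne` (`translates_over_subfield` to
`from_functions_to_forms`). Statement `H22.Tw.QEIn`, file `H50QEIn`. -/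
theorem qExpansion_principle {M : ℕ} (hM : 2 ≤ M) (p : ℕ) (hp : p.Prime) (hpM : ¬ p ∣ M)
    (A : ValuationSubring Qb) (hA : A.LiesOverPrime p) (ι : Qb →+* ℂ) (k : ℤ) (hk : Even k)
    (f : ℍ → ℂ) (hf : H22.Tw.IsM (Gamma1 M) k f)
    (hfA : ∀ i, ∃ a ∈ A, (qExpansion 1 f).coeff i = ι a) (δ : SL(2, ℤ)) (hδ : δ ∈ Gamma0 M)
    (i : ℕ) : ∃ a ∈ A, (qExpansion 1 (f ∣[k] δ)).coeff i = ι a :=
  have : NeZero (M * 2) := ⟨by omega⟩; have : NeZero (M * 3) := ⟨by omega⟩
  H50.QEIn_of (H78.KI.coreQE hM (.inl rfl)) (H78.KI.coreQE hM (.inr rfl))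
    p hp hpM A hA ι k hk f hf hfA δ hδ i

/-- **Kummer injectivity.** Let `A` be a place of `ℚ̄` above a prime `p ∤ M n`, and let `x`, `y` be
forms of the same even weight on `±Γ₁(M)` with characters `χ₁`, `χ₂` in `parChar (±Γ₁(M)) n`. If
`x ^ n` and `y ^ n` have coefficients in `A` and equal nonzero reductions, then `χ₁ = χ₂`. In other
words, reduction modulo `p` is injective on `J₁(M)[n]`. Proof: reduction to weight zero and
`kummer_injectivity_functions` for one `r = 2` or `3`, `r ≠ p`: the characters agree on `GG M r`,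
which contains `γ⁶` for every `γ`, and `n` is prime to `6`. Statement `H22.Tw.KIIn`, file
`H58KIIn`. -/
theorem kummer_injectivity {M n : ℕ} (hM : 5 ≤ M) (hn : n.Prime) (hn5 : 5 ≤ n) (p : ℕ)
    (hp : p.Prime) (hpM : ¬ p ∣ M) (hpn : ¬ p ∣ n) (A : ValuationSubring Qb)
    (hA : A.LiesOverPrime p) (ι : Qb →+* ℂ) (k : ℤ) (hk : Even k)
    (χ₁ : H22.Tw.pmG M →* ℂˣ) (h₁ : χ₁ ∈ H22.Tw.parChar (H22.Tw.pmG M) n)
    (χ₂ : H22.Tw.pmG M →* ℂˣ) (h₂ : χ₂ ∈ H22.Tw.parChar (H22.Tw.pmG M) n) (x y : ℍ → ℂ)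
    (hx : H22.Tw.IsTw (H22.Tw.pmG M) χ₁ k x) (hy : H22.Tw.IsTw (H22.Tw.pmG M) χ₂ k y)
    (a b : ℕ → Qb) (ha : ∀ i, a i ∈ A) (hb : ∀ i, b i ∈ A)
    (hxa : ∀ i, (qExpansion 1 (x ^ n)).coeff i = ι (a i))
    (hyb : ∀ i, (qExpansion 1 (y ^ n)).coeff i = ι (b i))
    (hab : ∀ i, a i - b i ∈ A.nonunits) (hne : ∃ i, a i ∉ A.nonunits) : χ₁ = χ₂ :=
  have : NeZero (M * 2) := ⟨by omega⟩; have : NeZero (M * 3) := ⟨by omega⟩
  H58.KIIn_of hM hn hn5 (H78.KI.coreKI (by omega) (.inl rfl) hn) (H78.KI.coreKI (by omega) (.inr rfl) hn)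
    p hp hpM hpn A hA ι k hk χ₁ h₁ χ₂ h₂ x y hx hy a b ha hb hxa hyb hab hne

/-- **Unramifiedness.** The inertia group of a place above `p ∤ M n` acts trivially on
`parChar (±Γ₁(M)) n`. Proof: normalise a form `f` with character `ψ` such that `f ^ n` is integral with
nonzero reduction; its conjugate has the same reduction; Kummer injectivity. (`hM` occurs in the
statement because the action is constructed for `M ≥ 3`.) File `H22TwES`. -/
theorem gal_inertia {M n p : ℕ} [NeZero M] (hM : 3 ≤ M) (hM5 : 5 ≤ M) (hn : n.Prime) (hn5 : 5 ≤ n)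
    (hp : p.Prime) (hpM : ¬ p ∣ M) (hpn : ¬ p ∣ n)
    {A : ValuationSubring Qb} (hA : A.LiesOverPrime p) (ι : Qb →+* ℂ) {s : Gq}
    (hs : s ∈ A.inertiaSubgroupIn ℚ) (ψ : H22.Tw.parChar (H22.Tw.pmG M) n) :
    H22.Tw.gal (H22.Tw.hyp_pmG hM) (H22.Tw.odd_of_prime hn hn5) ι s ψ = ψ :=
  H22.Tw.gal_inertia hM hn hn5 (kummer_injectivity hM5 hn hn5) hp hpM hpn hA ι hs ψ

/-- **The Eichler-Shimura relation** `T_p ψ = F ψ · (F⁻¹ ⟨p⟩ ψ)ᵖ` for a Frobenius element `F` above
`p ∤ M n`. Proof: let `f` have character `ψ`. By `norm_form` and `norm_reduction`, `T_p ψ` is the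
character of a form whose reduction is the product of the reductions of the forms `(F⁻¹ (⟨p⟩ f))ᵖ` and
`F f`; Kummer injectivity. The `q`-expansion principle is used to normalise `f` and `⟨p⟩ f` at the
same time. File `H22TwES`. -/
theorem eichler_shimura {M n p : ℕ} [NeZero M] (hM : 3 ≤ M) (hM5 : 5 ≤ M) (hn : n.Prime)
    (hn5 : 5 ≤ n) (hp : p.Prime) (hpM : ¬ p ∣ M) (hpn : ¬ p ∣ n)
    {A : ValuationSubring Qb} (hA : A.LiesOverPrime p) (ι : Qb →+* ℂ) {s : Gq}
    (hs : A.IsFrobeniusAt s p) (ψ : H22.Tw.parChar (H22.Tw.pmG M) n) :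
    H22.Tw.hV hM hn hn5 (H48.sysT M p hp hpM) ψ =
      H22.Tw.gal (H22.Tw.hyp_pmG hM) (H22.Tw.odd_of_prime hn hn5) ι s ψ *
        (H22.Tw.gal (H22.Tw.hyp_pmG hM) (H22.Tw.odd_of_prime hn hn5) ι s⁻¹
          (H22.Tw.hV hM hn hn5 (H48.sysDia M p) ψ)) ^ p :=
  H22.Tw.gal_frob hM hn hn5 (qExpansion_principle (by omega)) (kummer_injectivity hM5 hn hn5)
    hp hpM hpn hA ι hs ψ

/-- **The Galois action on the characters of `Γ₁(M)`**, for `M ≥ 5` and a prime `n ≥ 5`. The statement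
`H48.HasGalAction M n` is written out in the theorem `galoisAction` of
`Fermat.Agent.GuideDeligneSerre`. The two inputs of the proof are `qExpansion_principle` and
`kummer_injectivity`. Files `H22TwMain`, `H50S48Asm`. Used for S48 with `M = N ℓ`, `n = ℓ`. -/
theorem galoisAction {M n : ℕ} (hM : 5 ≤ M) (hn : n.Prime) (hn5 : 5 ≤ n) : H48.HasGalAction M n :=
  H22.Tw.hasGalAction hM hn hn5 (qExpansion_principle (by omega)) (kummer_injectivity hM hn hn5)

/-! ## 4. From forms to functions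

Further files of this section: `H28Exp`, `H28Jq`, `H61Valence` (the function `j`), `H24Cayley`,
`H24Coset`, `H24Inv`, `H24Rel`, `H24Field`, `H78FFField` (functions, their expansions at the cusps
and at the points of `ℍ`, the degree over `K(j)`), `H58Dict` (forms and functions), `H58Num`,
`H58DVR` (restriction of a place of `ℚ̄` to a number field). -/

/-- **Expansions.** For a Laurent series `F` over `ℂ` and a function `z` on `ℍ` with values in the unit
disc, `HasExpC z f F` says that `F` converges on the punctured disc (`IsConv F`) and `f(τ) = F(z(τ))`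
where `z(τ) ≠ 0`. For a subfield `K` of `ℂ` and a Laurent series `x` over `K`, `incl K x` is the same
series over `ℂ`, `ev K x` is the function `x(q)`, `q = 𝕢 1 τ`, and `GoodAlg K Γ N` is the ring of the
`x` such that `ev K x` is holomorphic on `ℍ`, invariant under `Γ`, and meromorphic at all cusps, with
expansions in `𝕢 N τ`. Files `H24Conv`, `H24Ring`, `H78FFRing`. -/
theorem expansion_notions (z f : ℍ → ℂ) (F : LaurentSeries ℂ) (K : Type*) [Field K] [Algebra K ℂ]
    (Γ : Subgroup SL(2, ℤ)) (N : ℕ) [NeZero N] (x : LaurentSeries K) :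
    (H24.HasExpC z f F ↔
      (∀ r : ℝ, 0 < r → r < 1 → Summable (fun n : ℤ => ‖F.coeff n‖ * r ^ n)) ∧
      ∀ τ, z τ ≠ 0 → ∑' n : ℤ, F.coeff n * z τ ^ n = f τ) ∧
    (x ∈ H78.FF.GoodAlg K Γ N ↔ H24.IsConv (H24.incl K x) ∧ MDiff (H24.ev K x) ∧
      (∀ γ : SL(2, ℤ), ∃ F, H24.HasExpC (fun τ : ℍ => 𝕢 (N : ℝ) τ)
        (fun τ => H24.ev K x (γ • τ)) F) ∧
      ∀ γ ∈ Γ, ∀ τ, H24.ev K x (γ • τ) = H24.ev K x τ) :=
  ⟨Iff.rfl, ⟨fun h => ⟨h.conv, h.hol, h.exp, fun γ hγ τ => congrFun (h.inv γ hγ) τ⟩,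
    fun h => ⟨h.1, h.2.1, h.2.2.1, fun γ hγ => funext (h.2.2.2 γ hγ)⟩⟩⟩

/-- **The `q`-expansion principle for functions.** `GG M r = ±Γ₁(M) ∩ Γ₀(r)`. Let `x` be a modular function
for this group, holomorphic on `ℍ`, with coefficients in a place `A` above `p ∤ M r` (and in a number
field `L`). If the expansion of `x ∘ δ`, `δ ∈ Γ₀(r)`, is `c X` with `X` over `A` and nonzero modulo the
maximal ideal, then `c ∈ A`. Proof: `qexp_principle`. In the literature: irreducibility of the modular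
curve modulo `p` through the moduli of elliptic curves. Statement `H78.KI.CoreQE`, file `H78KIFinal`. -/
theorem qExpansion_principle_functions {M r : ℕ} [NeZero (M * r)] (hM : 2 ≤ M)
    (hr : r = 2 ∨ r = 3) (p : ℕ) (hp : p.Prime) (hpM : ¬ p ∣ M) (hpr : p ≠ r)
    (A : ValuationSubring Qb) (hA : A.LiesOverPrime p) [Algebra Qb ℂ]
    (L : IntermediateField ℚ Qb) (hL : FiniteDimensional ℚ L)
    (x : LaurentSeries Qb) (hx : x ∈ H78.FF.GoodAlg Qb (H78.KI.GG M r) (M * r))
    (hxL : ∀ i, x.coeff i ∈ L) (hxA : ∀ i, x.coeff i ∈ A)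
    (δ : SL(2, ℤ)) (hδ : δ ∈ Gamma0 r) (X : LaurentSeries Qb) (c : Qb)
    (hX : ∀ i, X.coeff i ∈ A) (hX0 : ∃ i, X.coeff i ∉ A.nonunits)
    (hexp : H24.HasExpC (fun τ : ℍ => 𝕢 ((M * r : ℕ) : ℝ) τ) (fun τ => H24.ev Qb x (δ • τ))
      (coeffMap (algebraMap Qb ℂ) (HahnSeries.C c * X))) : c ∈ A :=
  H78.KI.coreQE hM hr p hp hpM hpr A hA L hL x hx hxL hxA δ hδ X c hX hX0 hexp

/-- **Kummer injectivity for functions.** Same setting, `n ≠ p` a prime. Let `u₁ = h₁ ^ n` and
`u₂ = h₂ ^ n` be modular functions for `GG M r` with `h₁`, `h₂` holomorphic on `ℍ`, with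
coefficients in `A` and equal nonzero reductions, of order divisible by `n` at `i∞`. Then `u₁ / u₂`
is the `n`-th power of a modular function. (For `χ₁ = χ₂` one applies this to `h₁ = x U`, `h₂ = y U`
with `U = E₄ᵃ E₆ᵇ Δ⁻ᶜ` of weight `-k`: it follows that `χ₁ = χ₂` on `GG M r`.) Proof: `ki_qexp`.
Statement `H78.KI.CoreKI`, file `H78KIFinal`. -/
theorem kummer_injectivity_functions {M r : ℕ} [NeZero (M * r)] (hM : 2 ≤ M)
    (hr : r = 2 ∨ r = 3) {n : ℕ} (hn : n.Prime) (p : ℕ) (hp : p.Prime) (hpM : ¬ p ∣ M)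
    (hpr : p ≠ r) (hpn : ¬ p ∣ n) (A : ValuationSubring Qb) (hA : A.LiesOverPrime p)
    [Algebra Qb ℂ] (L : IntermediateField ℚ Qb) (hL : FiniteDimensional ℚ L)
    (u₁ : LaurentSeries Qb) (hu₁ : u₁ ∈ H78.FF.GoodAlg Qb (H78.KI.GG M r) (M * r))
    (u₂ : LaurentSeries Qb) (hu₂ : u₂ ∈ H78.FF.GoodAlg Qb (H78.KI.GG M r) (M * r))
    (hL₁ : ∀ i, u₁.coeff i ∈ L) (hL₂ : ∀ i, u₂.coeff i ∈ L)
    (hA₁ : ∀ i, u₁.coeff i ∈ A) (hA₂ : ∀ i, u₂.coeff i ∈ A)
    (hcong : ∀ i, u₁.coeff i - u₂.coeff i ∈ A.nonunits) (hne : ∃ i, u₁.coeff i ∉ A.nonunits)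
    (hd₁ : (n : ℤ) ∣ u₁.order) (hd₂ : (n : ℤ) ∣ u₂.order)
    (h₁ : ℍ → ℂ) (hh₁ : MDiff h₁) (h₂ : ℍ → ℂ) (hh₂ : MDiff h₂)
    (e₁ : ∀ τ, h₁ τ ^ n = H24.ev Qb u₁ τ) (e₂ : ∀ τ, h₂ τ ^ n = H24.ev Qb u₂ τ) :
    ∃ a ∈ H78.FF.GoodAlg Qb (H78.KI.GG M r) (M * r),
      ∃ b ∈ H78.FF.GoodAlg Qb (H78.KI.GG M r) (M * r), b ≠ 0 ∧ u₁ * b ^ n = a ^ n * u₂ :=
  H78.KI.coreKI hM hr hn p hp hpM hpr hpn A hA L hL u₁ hu₁ u₂ hu₂ hL₁ hL₂ hA₁ hA₂ hcong hne
    hd₁ hd₂ h₁ hh₁ h₂ hh₂ e₁ e₂

/-! ## 5. The function field over the `t`-line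

Further files of this section: `H80Stab`, `H45P1Basic`, `H45P1Index` (stabiliser and index of
`Γ₀(r)`), `H23Trunc`, `H61Formal`, `H66Level1`, `H66Lead` (identities between expansions),
`H50HauptA`, `H50HauptB`, `H50HauptC` (the Hauptmoduln as functions), `H58Wp`, `H58Wp2`, `H58Wp3`,
`H58Sep2`, `H58Sep1`, `H58Sep` (division values and their expansions), `H05_FreyGood` (residue
characteristic of a place). -/

/-- **Hauptmoduln of level 2 and 3.** For `r = 2, 3` there are a series `t` over `ℤ` with leading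
term `q⁻¹` and `c = - r ^ k` such that `t` is a modular function for `Γ₀(r)`, its stabiliser is
`Γ₀(r)`, it takes every value `≠ 0`, it is a local coordinate at every point where its value is not
`c` (`oAt τ₀ f` is the order of vanishing of `f` at `τ₀`), and `j ∈ K(t)`. Hence a cover of the
`t`-line given by modular functions is ramified only over `0`, `∞`, `c`, and these three values
remain distinct modulo `p ≠ r`. Here `t = Δ(τ) / Δ(2τ)`, `c = -64` for `r = 2`, and
`t² = Δ(τ) / Δ(3τ)`, `c = -27` for `r = 3`. Files `H23Haupt*`, `H50HauptA/B/C`, `H50EmbA/B`,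
`H78KISetup`. -/
theorem hauptmodul (K : Type*) [Field K] [Algebra K ℂ] (r N : ℕ) [NeZero r] [NeZero N]
    (hr : r = 2 ∨ r = 3) (hN : r ∣ N) :
    ∃ (tZ : LaurentSeries ℤ) (t : LaurentSeries K) (c : ℤ),
      coeffMap (Int.castRingHom K) tZ = t ∧ (tZ.coeff (-1) = 1 ∧ ∀ m < -1, tZ.coeff m = 0) ∧
      (∃ k : ℕ, c = -((r : ℤ) ^ k)) ∧ t ∈ H78.FF.GoodAlg K (Gamma0 r) N ∧
      (∀ γ : SL(2, ℤ), (∀ τ, H24.ev K t (γ • τ) = H24.ev K t τ) → γ ∈ Gamma0 r) ∧
      (∀ α : ℂ, α ≠ 0 → ∃ τ, H24.ev K t τ = α) ∧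
      (∀ τ₀, H24.ev K t τ₀ ≠ (c : ℂ) → H50.Haupt.oAt τ₀ (fun τ => H24.ev K t τ - H24.ev K t τ₀) = 1) ∧
      jqModC K ∈ K⟮t⟯ := by
  obtain ⟨H⟩ := H78.KI.exists_haupZ K r N hr hN
  exact ⟨H.tZ, H.t, H.cZ, H.t_eq, H.lead, H.c_pow, H.good, by rw [H.ev_t]; exact H.sep, by
    rw [H.ev_t]; exact H.surj, by rw [H.ev_t, ← H.c_eq]; exact H.order, H.j_mem⟩

/-- **The conjugates.** Let `K` contain the `M r`-th roots of unity, let `E` be the field generated by the
modular functions for `GG M r` with coefficients in `K` (`FF K (GG M r) (M r)`), and `t` a Hauptmodul as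
above (`H : HaupZ K r (M r)`, `H.tF _` is `t` as an element of `E`). The degree `[E : K(t)]` is the
index of `GG M r` in `Γ₀(r)`, and for every coset `γ` there is an embedding `tau γ` of `E` in
`ℂ((q^(1/(M r))))` which maps `x` to the expansion of `x ∘ γ⁻¹`, and `t` to its own expansion. By
`separating_generator` they are distinct, hence they are all the embeddings over `K(t)`. Files
`H50EmbC`, `H78KISetup`, `H78KIMain`. -/
theorem conjugates {K : Type*} [Field K] [CharZero K] [Algebra K ℂ] {M r : ℕ} [NeZero M]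
    [NeZero r] [NeZero (M * r)] (hM : 2 ≤ M) (hr : r = 2 ∨ r = 3)
    (hK : ∀ z : ℂ, z ^ (M * r) = 1 → z ∈ (algebraMap K ℂ).range) (H : H78.KI.HaupZ K r (M * r)) :
    Nat.card (Gamma0 r ⧸ (H78.KI.GG M r).subgroupOf (Gamma0 r)) =
      Module.finrank K⟮H.tF (H78.KI.GG_le M r)⟯ (H78.FF.FF K (H78.KI.GG M r) (M * r)) ∧
    (∀ i, H78.KI.tau K M r i (H.tF (H78.KI.GG_le M r)) =
      qExpand ℂ (M * r) (coeffMap (Int.castRingHom ℂ) H.tZ)) ∧
    ∀ (γ : Gamma0 r) (x : H78.FF.GoodAlg K (H78.KI.GG M r) (M * r)) (F : LaurentSeries ℂ),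
      H24.HasExpC (fun τ : ℍ => 𝕢 ((M * r : ℕ) : ℝ) τ)
        (fun τ => H24.ev K x ((γ : SL(2, ℤ))⁻¹ • τ)) F →
      H78.KI.tau K M r (QuotientGroup.mk γ) (algebraMap _ _ x) = F :=
  ⟨H78.KI.card_tau (H78.KI.sep_GG hM hr hK H) H, H78.KI.tau_tF H,
    fun γ x _ h => H78.KI.tau_mk γ x h⟩

/-- **Unramifiedness over the values `≠ 0, c`.** Let `H` be a Hauptmodul `t` of `Γ₀(r)` as above
(`Haup K r N`; `H.c` is the elliptic value), `Γ ≤ Γ₀(r)` of finite index, and suppose that the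
modular functions for `Γ` with coefficients in `K` separate the cosets of `Γ`. For every `α ≠ 0, c`
the field `E = FF K Γ N` has `[E : K(t)]` distinct embeddings `σ_i` in `ℂ((u))` which agree on
`K(t)` and in which `t = α + a₁ u + ⋯`, `a₁ ≠ 0`: the expansions of the `x ∘ γ` at a point of `ℍ`
where `t` has the value `α`. If `a`, `b` are modular functions with `a = A ^ m U`, `b = B ^ m U` and
`A`, `B`, `U` holomorphic on `ℍ`, the orders of the `σ_i (a / b)` are divisible by `m`. Files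
`H50EmbA`, `H50EmbB`, `H50EmbC`. -/
theorem embeddings_over_the_line {K : Type*} [Field K] [Algebra K ℂ] {r : ℕ} [NeZero r] {N : ℕ}
    [NeZero N] (H : H50.Haupt.Haup K r N) {Γ : Subgroup SL(2, ℤ)} (hΓ : Γ ≤ Gamma0 r)
    [Γ.FiniteIndex] (hsep : ∀ γ : SL(2, ℤ), (∀ x ∈ H78.FF.GoodAlg K Γ N,
      (fun τ => H24.ev K x (γ • τ)) = H24.ev K x) → γ ∈ Γ)
    (m : ℕ) (a b : H78.FF.GoodAlg K Γ N) {A B U : ℍ → ℂ} (hA : MDiff A) (hB : MDiff B)
    (hU : MDiff U) (ha : ∀ τ, H24.ev K (a : LaurentSeries K) τ = A τ ^ m * U τ)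
    (hb : ∀ τ, H24.ev K (b : LaurentSeries K) τ = B τ ^ m * U τ)
    (α : ℂ) (h0 : α ≠ 0) (hc : α ≠ H.c) :
    ∃ (φ : K⟮H.tF hΓ⟯ →+* LaurentSeries ℂ) (y : PowerSeries ℂ) (ι : Type)
      (σ : ι → H78.FF.FF K Γ N →+* LaurentSeries ℂ),
      φ (AdjoinSimple.gen K (H.tF hΓ)) = HahnSeries.ofPowerSeries ℤ ℂ y ∧
      PowerSeries.constantCoeff y = α ∧ PowerSeries.coeff 1 y ≠ 0 ∧
      Nat.card ι = Module.finrank K⟮H.tF hΓ⟯ (H78.FF.FF K Γ N) ∧
      Function.Injective σ ∧ (∀ i x, σ i (algebraMap _ _ x) = φ x) ∧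
      ∀ i, (m : ℤ) ∣ (σ i (algebraMap (H78.FF.GoodAlg K Γ N) (H78.FF.FF K Γ N) a /
        algebraMap (H78.FF.GoodAlg K Γ N) (H78.FF.FF K Γ N) b)).order := by
  obtain ⟨D, hD⟩ := H50.Haupt.Haup.exists_embAt_dvd H hΓ hsep m a b hA hB hU ha hb α h0 hc
  exact ⟨D.φ, D.y, D.ι, D.σ, D.hy, D.y0, D.y1, D.card, D.inj, D.ext, hD⟩

/-- **A separating generator.** Let `A` be a place of an algebraically closed field `Ω ⊆ ℂ` in which
`M r` is invertible (`aC A : A → ℂ` the inclusion) and `K ⊆ Ω` contain the `M r`-th roots of unity.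
There is `θ ∈ E` whose conjugates have expansions with coefficients in `A`, with pairwise distinct
reductions. It is `(x(1/M) - x(1/r)) E₄ E₆ / Δ` where `x(1/D)` is the value of the Weierstrass
function at the division point `1/D`: distinct conjugates differ by a series with invertible leading
coefficient (computed from the first coefficients of the expansions of the division values,
`H58Sep1`). Files `H58*` (helper58), `H78KIMain`. -/
theorem separating_generator {Ω : Type*} [Field Ω] [CharZero Ω] [IsAlgClosed Ω] [Algebra Ω ℂ]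
    (A : ValuationSubring Ω) {K : Type*} [Field K] [CharZero K] [Algebra K Ω] [Algebra K ℂ]
    [IsScalarTower K Ω ℂ] {M r : ℕ} [NeZero M] [NeZero r] [NeZero (M * r)] (hM : 2 ≤ M)
    (hr : r = 2 ∨ r = 3) (hK : ∀ z : Ω, z ^ (M * r) = 1 → z ∈ (algebraMap K Ω).range)
    (hD : IsUnit ((M * r : ℕ) : A)) :
    ∃ (θ : H78.FF.FF K (H78.KI.GG M r) (M * r))
      (a : Gamma0 r ⧸ (H78.KI.GG M r).subgroupOf (Gamma0 r) → LaurentSeries A),
      (∀ i, H78.KI.tau K M r i θ = coeffMap (H78.KI.aC A) (a i)) ∧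
      ∀ i j, i ≠ j → coeffMap (IsLocalRing.residue A) (a i) ≠
        coeffMap (IsLocalRing.residue A) (a j) :=
  H78.KI.exists_theta A hM hr hK hD

/-! ## 6. Connectedness of the special fibre

The setting of all theorems of this section, declared once: `𝔬` is a discrete valuation ring with
uniformiser `ϖ` and field of fractions `L₀` of characteristic zero; `K₀ = L₀(s)` is a field of rational
functions in one variable `s` (`hs : IsRatGen L₀ s`); `E` is a finite extension of `K₀`. The residue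
field of `𝔬` is arbitrary, and `𝔬` need not be complete.

Further files of this section: `H29Trace`, `H29Integral`, `H29Dual` (trace forms and duals of integral
closures), `H29ChartA` to `H29ChartE`, `H29Charts`, `H29Local` (the Gauss ring and its extensions). -/

section Connected

open IsLocalRing Polynomial in
/-- **Notions.** `IsRatGen L₀ s`: `s` is transcendental over `L₀` and generates `K₀`. `gaussRing 𝔬 s` is
the valuation ring of the Gauss valuation of `K₀ = L₀(s)`: the quotients of polynomials over `𝔬` with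
nonzero reduction of the denominator. `intGauss 𝔬 E s` is its integral closure in `E`.
`IntOver 𝔯 s x`: `x` is integral over `𝔯[s]`. `RedAt L₀ s g` (for an irreducible `g`): the fibre of the
cover over `g` is reduced. Files `H29Charts`, `H29ChartD`, `H29ChartE`, `H29ConnThm`. -/
theorem gauss_notions {𝔬 L₀ K₀ E : Type*} [CommRing 𝔬] [IsDomain 𝔬] [IsDiscreteValuationRing 𝔬]
    [Field L₀] [Field K₀] [Algebra L₀ K₀] [Algebra 𝔬 K₀] [Field E] [Algebra K₀ E] [Algebra L₀ E]
    [Algebra 𝔬 E] (s c : K₀) (x t : E) (g : L₀[X]) :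
    (H29.IsRatGen L₀ s ↔ (∀ p : L₀[X], aeval s p = 0 → p = 0) ∧
      ∀ x : K₀, ∃ p q : L₀[X], q ≠ 0 ∧ x * aeval s q = aeval s p) ∧
    (c ∈ H29.gaussRing 𝔬 s ↔
      ∃ a b : 𝔬[X], b.map (residue 𝔬) ≠ 0 ∧ c * aeval s b = aeval s a) ∧
    (x ∈ H29.intGauss 𝔬 E s ↔ IsIntegral (H29.gaussRing 𝔬 s) x) ∧
    (H29.IntOver 𝔬 t x ↔ ∃ p : 𝔬[X][X], p.Monic ∧ eval₂ (aeval t : 𝔬[X] →ₐ[𝔬] E) x p = 0) ∧
    (H29.RedAt L₀ t g ↔ ∀ a b : E, H29.IntOver L₀ t a → H29.IntOver L₀ t b →
      a ^ 2 = aeval t g * b → ∃ c : E, H29.IntOver L₀ t c ∧ a = aeval t g * c) :=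
  ⟨⟨fun h => ⟨h.1, h.2⟩, fun h => ⟨h.1, h.2⟩⟩, Iff.rfl, Iff.rfl, Iff.rfl, Iff.rfl⟩

variable {𝔬 L₀ K₀ E : Type*} [CommRing 𝔬] [IsDomain 𝔬] [IsDiscreteValuationRing 𝔬]
  [Field L₀] [CharZero L₀] [Algebra 𝔬 L₀] [IsFractionRing 𝔬 L₀]
  [Field K₀] [Algebra L₀ K₀] [Algebra 𝔬 K₀] [IsScalarTower 𝔬 L₀ K₀]
  [Field E] [Algebra K₀ E] [Algebra L₀ E] [Algebra 𝔬 E] [IsScalarTower L₀ K₀ E]
  [IsScalarTower 𝔬 K₀ E] [FiniteDimensional K₀ E]
  {s : K₀} {ϖ : 𝔬}

open IsLocalRing Polynomial in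
/-- **Self-duality** (`H29.SelfDual 𝔬 E s`): if the trace pairing of `y` with the Gauss integers is
integral, `y` is a Gauss integer, i.e. `E / K₀` is unramified at the Gauss valuation. Hypotheses: a
ring `B` (integral Laurent series) in a field `F`, with a reduction `ρ` to a field; an embedding
`φ : K₀ → F` which sends `𝔬` and `s` to `B`, such that `ρ` kills the maximal ideal of `𝔬` and the
reduction of `s` is transcendental; as many extensions `τ i` of `φ` to `E` as the degree; and `θ ∈ E`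
whose conjugates are in `B` with pairwise distinct reductions. Proof: the dual basis of the powers of
`θ`. File `H29Etale`; the data are the fields of the structure `GaussRed`; used with `conjugates` and
`separating_generator`. -/
theorem selfDual (hs : H29.IsRatGen L₀ s) (hϖ : Irreducible ϖ)
    {B F κ : Type*} [CommRing B] [Field F] [Field κ] (j : B →+* F) (hj : Function.Injective j)
    (ρ : B →+* κ) (φ : K₀ →+* F) (o : 𝔬 →+* B) (hφ : ∀ c : 𝔬, φ (algebraMap 𝔬 K₀ c) = j (o c))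
    (s₀ : B) (hs₀ : φ s = j s₀) (hred : ∀ c ∈ maximalIdeal 𝔬, ρ (o c) = 0)
    (htrans : ∀ p : 𝔬[X], p.map (residue 𝔬) ≠ 0 → ρ (eval₂ o s₀ p) ≠ 0)
    {ι : Type*} [Finite ι] (τ : ι → (E →+* F)) (hcard : Nat.card ι = Module.finrank K₀ E)
    (hext : ∀ i x, τ i (algebraMap K₀ E x) = φ x) (θ : E) (a : ι → B)
    (ha : ∀ i, τ i θ = j (a i)) (hdist : ∀ i i', i ≠ i' → ρ (a i) ≠ ρ (a i')) (y : E)
    (hy : ∀ z : E, IsIntegral (H29.gaussRing 𝔬 s) z →
      Algebra.trace K₀ E (y * z) ∈ H29.gaussRing 𝔬 s) : IsIntegral (H29.gaussRing 𝔬 s) y :=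
  H29.GaussRed.selfDual hs hϖ ⟨j, hj, ρ, φ, o, hφ, s₀, hs₀, hred, htrans⟩ τ hcard hext θ a ha
    hdist y hy

omit [CharZero L₀] in
/-- **Almost idempotents in a lattice.** Let `ψ : E → L₀((q))` be an embedding over `L₀` (a rational
point) and `N` a finitely generated `𝔬`-submodule of `E` containing `1`. If `z_j ∈ N` and
`z_j² - z_j ∈ ϖ ^ (j + 1) N` for all `j`, some `z_j` is congruent to `0` or `1` modulo `ϖ N`. Proof: a
limit of the `z_j` along an ultrafilter is an idempotent of a ring of Laurent series over a domain.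
This replaces the completion of `𝔬` (Stein factorisation). File `H29Window`. -/
theorem window [IsScalarTower 𝔬 L₀ E] (hϖ : Irreducible ϖ) (ψ : E →+* LaurentSeries L₀)
    (hψ : ∀ c : L₀, ψ (algebraMap L₀ E c) = HahnSeries.C c)
    (N : Submodule 𝔬 E) (hN : N.FG) (h1 : (1 : E) ∈ N) (z : ℕ → E) (hz : ∀ j, z j ∈ N)
    (hzz : ∀ j, ∃ ρ ∈ N, z j ^ 2 - z j = algebraMap 𝔬 E (ϖ ^ (j + 1)) * ρ) :
    ∃ j, (∃ ρ ∈ N, z j = algebraMap 𝔬 E ϖ * ρ) ∨ (∃ ρ ∈ N, z j - 1 = algebraMap 𝔬 E ϖ * ρ) :=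
  H29.window hϖ ψ hψ N hN h1 z hz hzz

open IsLocalRing Polynomial in
/-- **Connectedness.** Let `ϖ ∣ p`, and let `E / K₀` be unramified at the Gauss valuation (`H1`), reduced
in characteristic zero over the primes of `L₀[s]` and of `L₀[s⁻¹]` which do not divide polynomials `f`,
`f'` over `𝔬` with squarefree nonzero reductions (`H2`, `H2'`), and with a rational point `ψ`. Then the
ring of Gauss integers modulo `ϖ` has no idempotent except `0` and `1`. Proof: an idempotent modulo `ϖ`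
comes from an element `x` integral over `𝔬[s]` and from an element `x'` integral over `𝔬[s⁻¹]` (the
dual lattice for the trace is the ring itself up to the radical of the branch divisor). The powers
`x ^ (p ^ j)` and `x' ^ (p ^ j)` are congruent modulo `ϖ ^ (j + 1)`, so they are approximated by `y_j` in
the finitely generated module of the sections with bounded poles, and `window` applies. Files
`H29Chart*`, `H29Lattice`, `H29Connected`, `H29ConnThm`. -/
theorem connected (hs : H29.IsRatGen L₀ s) (hϖ : Irreducible ϖ) (p : ℕ) (hp : ϖ ∣ (p : 𝔬))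
    (hp1 : 1 ≤ p)
    (H1 : ∀ y : E, (∀ z : E, IsIntegral (H29.gaussRing 𝔬 s) z →
      Algebra.trace K₀ E (y * z) ∈ H29.gaussRing 𝔬 s) → IsIntegral (H29.gaussRing 𝔬 s) y)
    (H2 : ∃ f : 𝔬[X], f.map (residue 𝔬) ≠ 0 ∧ (Ideal.span {f.map (residue 𝔬)}).IsRadical ∧
      ∀ g : L₀[X], Irreducible g → ¬ g ∣ f.map (algebraMap 𝔬 L₀) →
        H29.RedAt L₀ (algebraMap K₀ E s) g)
    (H2' : ∃ f : 𝔬[X], f.map (residue 𝔬) ≠ 0 ∧ (Ideal.span {f.map (residue 𝔬)}).IsRadical ∧
      ∀ g : L₀[X], Irreducible g → ¬ g ∣ f.map (algebraMap 𝔬 L₀) →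
        H29.RedAt L₀ (algebraMap K₀ E s⁻¹) g)
    (ψ : E →+* LaurentSeries L₀) (hψ : ∀ c : L₀, ψ (algebraMap L₀ E c) = HahnSeries.C c)
    (ε σ : E) (hε : ε ∈ H29.intGauss 𝔬 E s) (hσ : σ ∈ H29.intGauss 𝔬 E s)
    (h : ε ^ 2 - ε = algebraMap 𝔬 E ϖ * σ) :
    (∃ ρ ∈ H29.intGauss 𝔬 E s, ε = algebraMap 𝔬 E ϖ * ρ) ∨
      (∃ ρ ∈ H29.intGauss 𝔬 E s, ε - 1 = algebraMap 𝔬 E ϖ * ρ) :=
  H29.connected hs hϖ p hp hp1 H1 H2 H2' ψ hψ ε σ hε hσ h

/-- **The special fibre is irreducible.** Under self-duality (`H1`) and connectedness (`H3`, the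
conclusion of `connected`), the Gauss valuation has exactly one extension to `E`: every valuation ring
`W` of `E` which contains the Gauss ring and in which `ϖ` is not invertible is `intGauss 𝔬 E s`. File
`H29Field`. -/
theorem unique_valuation (hs : H29.IsRatGen L₀ s) (hϖ : Irreducible ϖ)
    (H1 : ∀ y : E, (∀ z : E, IsIntegral (H29.gaussRing 𝔬 s) z →
      Algebra.trace K₀ E (y * z) ∈ H29.gaussRing 𝔬 s) → IsIntegral (H29.gaussRing 𝔬 s) y)
    (H3 : ∀ ε σ : E, ε ∈ H29.intGauss 𝔬 E s → σ ∈ H29.intGauss 𝔬 E s →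
      ε ^ 2 - ε = algebraMap 𝔬 E ϖ * σ →
      (∃ ρ ∈ H29.intGauss 𝔬 E s, ε = algebraMap 𝔬 E ϖ * ρ) ∨
        (∃ ρ ∈ H29.intGauss 𝔬 E s, ε - 1 = algebraMap 𝔬 E ϖ * ρ))
    (W : Subring E) (h1 : ∀ c ∈ H29.gaussRing 𝔬 s, algebraMap K₀ E c ∈ W)
    (h2 : ∀ x : E, x ∉ W → x⁻¹ ∈ W) (h3 : (algebraMap 𝔬 E ϖ)⁻¹ ∉ W) : W = H29.intGauss 𝔬 E s :=
  H29.unique_valuation hs hϖ H1 H3 W h1 h2 h3

omit [CharZero L₀] [FiniteDimensional K₀ E] [IsScalarTower L₀ K₀ E] [Algebra L₀ E] in
/-- **Embeddings at a value of `s`.** `EmbAt L₀ Υ E s α` is the following set of data at a point where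
`s = α`, with a local coordinate `u`: an embedding `φ` of `K₀` in `Υ((u))` over `L₀` which sends `s` to a
power series `y = α + a₁ u + ⋯` with `a₁ ≠ 0`, and as many extensions of `φ` to `E` as the degree. It
expresses that `E` is unramified over `s = α`. In the application `Υ = ℂ`, and the embeddings are
the expansions of the `x ∘ γ` at a point `τ₀` of `ℍ`. Files `H29Emb`, `H29EmbB`, `H50EmbC`. -/
theorem emb_notion {Υ : Type*} [Field Υ] [Algebra L₀ Υ] (α : Υ) :
    Nonempty (H29.EmbAt L₀ Υ E s α) ↔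
      ∃ (φ : K₀ →+* LaurentSeries Υ) (y : PowerSeries Υ) (ι : Type)
        (σ : ι → (E →+* LaurentSeries Υ)),
        (∀ c : L₀, φ (algebraMap L₀ K₀ c) = algebraMap _ _ (PowerSeries.C (algebraMap L₀ Υ c))) ∧
        φ s = algebraMap _ _ y ∧ PowerSeries.constantCoeff y = α ∧ PowerSeries.coeff 1 y ≠ 0 ∧
        Finite ι ∧ Nat.card ι = Module.finrank K₀ E ∧ Function.Injective σ ∧
        ∀ i x, σ i (algebraMap K₀ E x) = φ x := by
  refine ⟨by rintro ⟨D⟩; exact ⟨D.φ, D.y, D.ι, D.σ, D.hφ, D.hy, D.y0, D.y1, D.fin, D.card, D.inj, D.ext⟩, ?_⟩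
  rintro ⟨φ, y, ι, σ, hφ, hy, y0, y1, fin, card, inj, ext⟩
  exact ⟨⟨φ, hφ, y, hy, y0, y1, ι, fin, card, σ, inj, ext⟩⟩

open IsLocalRing Polynomial in
/-- **The abstract `q`-expansion principle.** Data as in `selfDual` and `connected`; the cover may be
ramified only over `0`, `∞` and a unit `c` of `𝔬` (`hemb`, see `emb_notion`; `Υ` is an algebraically
closed field). If one conjugate `τ i z` of `z ∈ E` is integral (a quotient of elements of `B`, the
reduction of the denominator being nonzero), then all conjugates are. Proof: by `unique_valuation`,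
the ring of the `z` such that `τ i z` is integral does not depend on `i`. File `H29Final`. -/
theorem qexp_principle (hs : H29.IsRatGen L₀ s) (hϖ : Irreducible ϖ) (p : ℕ) (hp : ϖ ∣ (p : 𝔬))
    (hp1 : 1 ≤ p) {B F κ : Type*} [CommRing B] [Field F] [Field κ] (b : B →+* F)
    (hb : Function.Injective b) (ρ : B →+* κ) (φ : K₀ →+* F) (o : 𝔬 →+* B)
    (hφ : ∀ c : 𝔬, φ (algebraMap 𝔬 K₀ c) = b (o c)) (s₀ : B) (hs₀ : φ s = b s₀)
    (hred : ∀ c ∈ maximalIdeal 𝔬, ρ (o c) = 0)
    (htrans : ∀ p : 𝔬[X], p.map (residue 𝔬) ≠ 0 → ρ (eval₂ o s₀ p) ≠ 0)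
    {ι : Type*} [Finite ι] (τ : ι → (E →+* F)) (hcard : Nat.card ι = Module.finrank K₀ E)
    (hext : ∀ i x, τ i (algebraMap K₀ E x) = φ x) (θ : E) (a : ι → B)
    (ha : ∀ i, τ i θ = b (a i)) (hdist : ∀ i i', i ≠ i' → ρ (a i) ≠ ρ (a i'))
    (c : 𝔬) (hc : IsUnit c) (ψ : E →+* LaurentSeries L₀)
    (hψ : ∀ c : L₀, ψ (algebraMap L₀ E c) = HahnSeries.C c)
    {Υ : Type*} [Field Υ] [CharZero Υ] [IsAlgClosed Υ] [Algebra L₀ Υ]
    (hemb : ∀ α : Υ, α ≠ 0 → α ≠ algebraMap L₀ Υ (algebraMap 𝔬 L₀ c) →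
      Nonempty (H29.EmbAt L₀ Υ E s α))
    {z : E} (i j : ι) (hz : ∃ P Q : B, ρ Q ≠ 0 ∧ τ i z * b Q = b P) :
    ∃ P Q : B, ρ Q ≠ 0 ∧ τ j z * b Q = b P :=
  H29.qexp_principle hs hϖ ⟨b, hb, ρ, φ, o, hφ, s₀, hs₀, hred, htrans⟩ τ hcard hext θ a ha hdist
    p hp hp1 c hc ψ hψ hemb i j hz

open IsLocalRing Polynomial in
/-- **Abstract Kummer injectivity.** Same data. Let `w ∈ E`, `m` a prime which is a unit of `𝔬`, let the
orders of `w` outside `s = 0, c, ∞` be divisible by `m`, let one conjugate of `w` be congruent to `1`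
(`P / Q` with equal reductions), and `w` an `m`-th power at the rational point. Then `w` is an `m`-th
power in `E`. Proof: otherwise `E(w^(1/m))` is a field to which `connected` applies; but its Gauss
integers modulo `ϖ` contain `κ(E)[X]/(X^m - 1)`, which is not connected. Files `H29Kummer`, `H29KI`,
`H29Final`. -/
theorem ki_qexp (hs : H29.IsRatGen L₀ s) (hϖ : Irreducible ϖ) (p : ℕ) (hp : ϖ ∣ (p : 𝔬))
    (hp1 : 1 ≤ p) {B F κ : Type*} [CommRing B] [Field F] [Field κ] (b : B →+* F)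
    (hb : Function.Injective b) (ρ : B →+* κ) (φ : K₀ →+* F) (o : 𝔬 →+* B)
    (hφ : ∀ c : 𝔬, φ (algebraMap 𝔬 K₀ c) = b (o c)) (s₀ : B) (hs₀ : φ s = b s₀)
    (hred : ∀ c ∈ maximalIdeal 𝔬, ρ (o c) = 0)
    (htrans : ∀ p : 𝔬[X], p.map (residue 𝔬) ≠ 0 → ρ (eval₂ o s₀ p) ≠ 0)
    {ι : Type*} [Finite ι] (τ : ι → (E →+* F)) (hcard : Nat.card ι = Module.finrank K₀ E)
    (hext : ∀ i x, τ i (algebraMap K₀ E x) = φ x) (θ : E) (a : ι → B)
    (ha : ∀ i, τ i θ = b (a i)) (hdist : ∀ i i', i ≠ i' → ρ (a i) ≠ ρ (a i'))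
    (c : 𝔬) (hc : IsUnit c) (ψ : E →+* LaurentSeries L₀)
    (hψ : ∀ c : L₀, ψ (algebraMap L₀ E c) = HahnSeries.C c)
    {Υ : Type*} [Field Υ] [CharZero Υ] [IsAlgClosed Υ] [Algebra L₀ Υ]
    {m : ℕ} (hm : m.Prime) (hmu : IsUnit (m : 𝔬)) {w : E}
    (hemb : ∀ α : Υ, α ≠ 0 → α ≠ algebraMap L₀ Υ (algebraMap 𝔬 L₀ c) →
      ∃ D : H29.EmbAt L₀ Υ E s α, ∀ i, (m : ℤ) ∣ (D.σ i w).order)
    (i : ι) (P Q : B) (hPQ : τ i w * b Q = b P) (hQ : ρ Q ≠ 0) (hP : ρ P = ρ Q)
    (h₀ : LaurentSeries L₀) (hh : h₀ ^ m = ψ w) : ∃ g : E, g ^ m = w :=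
  H29.ki_qexp hs hϖ ⟨b, hb, ρ, φ, o, hφ, s₀, hs₀, hred, htrans⟩ τ hcard hext θ a ha hdist
    p hp hp1 c hc ψ hψ hm hmu hemb i P Q hPQ hQ hP h₀ hh

end Connected

end Fermat.Agent.Guide.GaloisAction
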