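/-
H30Act: relations between Hecke operators in `heckeLocal` come, up to localisation, from integral
relations in the Hecke algebra ([A3](iii) of the MODLIFT assembly).
-/
import Fermat.Agent.H30Main
import Fermat.Agent.H59Loc
import Mathlib.RingTheory.TensorProduct.MvPolynomial

set_option autoImplicit false
set_option linter.style.haveILetI false
set_option linter.unusedSectionVars false

noncomputable section

namespace Fermat.Agent.H30

open IsLocalRing CuspForm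
open scoped TensorProduct

section Act

set_option synthInstance.maxHeartbeats 400000
set_option maxHeartbeats 1000000

variable (N : ℕ) [NeZero N] (S : Set ℕ) (hNS : ∀ q : ℕ, q.Prime → q ∣ N → q ∈ S)

/-- the Hecke operator attached to a prime outside `S` -/
def TIdx (i : {ℓ : ℕ // ℓ.Prime ∧ ℓ ∉ S}) : heckeAlgebra N 2 S :=
  heckeAlgebra.T i.2.1 (fun h => i.2.2 (hNS i.1 i.2.1 h)) i.2.2

/-- evaluation of integral polynomials in the Hecke algebra -/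
def evZ : MvPolynomial {ℓ : ℕ // ℓ.Prime ∧ ℓ ∉ S} ℤ →ₐ[ℤ] heckeAlgebra N 2 S :=
  MvPolynomial.aeval (TIdx N S hNS)

@[simp] theorem evZ_X (i : {ℓ : ℕ // ℓ.Prime ∧ ℓ ∉ S}) :
    evZ N S hNS (MvPolynomial.X i) = TIdx N S hNS i := by
  rw [evZ, MvPolynomial.aeval_X]

theorem evZ_surjective : Function.Surjective (evZ N S hNS) := by
  rintro ⟨t, ht⟩
  induction ht using Algebra.adjoin_induction with
  | mem x hx =>
    rcases hx with ⟨ℓ, hℓ, hℓN, hℓS, rfl⟩ | ⟨q, hqN, hq, hqS, rfl⟩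
    · exact ⟨MvPolynomial.X ⟨ℓ, hℓ, hℓS⟩, by rw [evZ_X]; rfl⟩
    · exact absurd (hNS q hq hqN) hqS
  | algebraMap a => exact ⟨algebraMap ℤ _ a, (evZ N S hNS).commutes a⟩
  | add x y hx hy h1 h2 =>
    obtain ⟨a, ha⟩ := h1
    obtain ⟨b, hb⟩ := h2
    exact ⟨a + b, by rw [map_add, ha, hb]; rfl⟩
  | mul x y hx hy h1 h2 =>
    obtain ⟨a, ha⟩ := h1
    obtain ⟨b, hb⟩ := h2
    exact ⟨a * b, by rw [map_mul, ha, hb]; rfl⟩

variable (𝒪 : Type) [CommRing 𝒪] [IsDomain 𝒪] [IsDiscreteValuationRing 𝒪]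
  [IsAdicComplete (maximalIdeal 𝒪) 𝒪]
variable (θ : heckeAlgebra N 2 S →+* ResidueField 𝒪)

/-- evaluation `𝒪[X_ℓ] → 𝒪 ⊗ 𝕋` -/
def evO : MvPolynomial {ℓ : ℕ // ℓ.Prime ∧ ℓ ∉ S} 𝒪 →ₐ[𝒪] 𝒪 ⊗[ℤ] ↥(heckeAlgebra N 2 S) :=
  MvPolynomial.aeval fun i => (1 : 𝒪) ⊗ₜ[ℤ] TIdx N S hNS i

theorem evO_eq (P : MvPolynomial {ℓ : ℕ // ℓ.Prime ∧ ℓ ∉ S} 𝒪) :
    evO N S hNS 𝒪 P = Algebra.TensorProduct.map (AlgHom.id ℤ 𝒪) (evZ N S hNS)
      ((MvPolynomial.algebraTensorAlgEquiv ℤ 𝒪).symm P) := by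
  induction P using MvPolynomial.induction_on with
  | C a =>
    have h1 : (MvPolynomial.algebraTensorAlgEquiv (σ := {ℓ : ℕ // ℓ.Prime ∧ ℓ ∉ S}) ℤ 𝒪).symm
        (MvPolynomial.C a) = a ⊗ₜ 1 :=
      ((MvPolynomial.algebraTensorAlgEquiv (σ := {ℓ : ℕ // ℓ.Prime ∧ ℓ ∉ S}) ℤ 𝒪).symm).commutes a
    have h2 : evO N S hNS 𝒪 (MvPolynomial.C a) = a ⊗ₜ 1 := (evO N S hNS 𝒪).commutes a
    rw [h1, h2, Algebra.TensorProduct.map_tmul, map_one]
    rfl
  | add P Q hP hQ => rw [map_add, map_add, map_add, hP, hQ]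
  | mul_X P i hP =>
    rw [map_mul, map_mul, map_mul, hP, MvPolynomial.algebraTensorAlgEquiv_symm_X,
      Algebra.TensorProduct.map_tmul, evZ_X, evO, MvPolynomial.aeval_X, map_one]

theorem evO_surjective : Function.Surjective (evO N S hNS 𝒪) := by
  intro y
  obtain ⟨x, hx⟩ := Algebra.TensorProduct.map_surjective (AlgHom.id ℤ 𝒪) (evZ N S hNS)
    Function.surjective_id (evZ_surjective N S hNS) y
  refine ⟨MvPolynomial.algebraTensorAlgEquiv ℤ 𝒪 x, ?_⟩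
  rw [evO_eq, AlgEquiv.symm_apply_apply, hx]

/-- The kernel of `𝒪[X_ℓ] → 𝒪 ⊗ 𝕋` is generated by the integral relations. -/
theorem ker_evO : RingHom.ker (evO N S hNS 𝒪) =
    (RingHom.ker (evZ N S hNS)).map (MvPolynomial.map (algebraMap ℤ 𝒪)) := by
  apply le_antisymm
  · intro P hP
    rw [RingHom.mem_ker, evO_eq] at hP
    have h1 : (MvPolynomial.algebraTensorAlgEquiv ℤ 𝒪).symm P ∈
        RingHom.ker (Algebra.TensorProduct.map (AlgHom.id ℤ 𝒪) (evZ N S hNS)) := hP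
    rw [Algebra.TensorProduct.lTensor_ker _ (evZ_surjective N S hNS)] at h1
    have key : (RingHom.ker (evZ N S hNS)).map
        (Algebra.TensorProduct.includeRight : MvPolynomial {ℓ : ℕ // ℓ.Prime ∧ ℓ ∉ S} ℤ →ₐ[ℤ]
          𝒪 ⊗[ℤ] MvPolynomial {ℓ : ℕ // ℓ.Prime ∧ ℓ ∉ S} ℤ) ≤
        ((RingHom.ker (evZ N S hNS)).map (MvPolynomial.map (algebraMap ℤ 𝒪))).comap
        (MvPolynomial.algebraTensorAlgEquiv (σ := {ℓ : ℕ // ℓ.Prime ∧ ℓ ∉ S}) ℤ 𝒪) := by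
      rw [Ideal.map_le_iff_le_comap]
      intro x hx
      rw [Ideal.mem_comap, Ideal.mem_comap]
      have h3 : MvPolynomial.algebraTensorAlgEquiv ℤ 𝒪
          ((Algebra.TensorProduct.includeRight : MvPolynomial {ℓ : ℕ // ℓ.Prime ∧ ℓ ∉ S} ℤ →ₐ[ℤ]
          𝒪 ⊗[ℤ] MvPolynomial {ℓ : ℕ // ℓ.Prime ∧ ℓ ∉ S} ℤ) x) =
          MvPolynomial.map (algebraMap ℤ 𝒪) x := by
        show MvPolynomial.algebraTensorAlgEquiv ℤ 𝒪 (1 ⊗ₜ x) = _
        rw [MvPolynomial.algebraTensorAlgEquiv_tmul, one_smul]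
      rw [h3]
      exact Ideal.mem_map_of_mem _ hx
    have h2 := key h1
    rw [Ideal.mem_comap, AlgEquiv.apply_symm_apply] at h2
    exact h2
  · rw [Ideal.map_le_iff_le_comap]
    intro P hP
    rw [Ideal.mem_comap, RingHom.mem_ker, evO_eq, MvPolynomial.algebraTensorAlgEquiv_symm_map,
      Algebra.TensorProduct.map_tmul, RingHom.mem_ker.mp hP, TensorProduct.tmul_zero]

/-- the residual eigensystem on polynomials -/
def thetaPoly : MvPolynomial {ℓ : ℕ // ℓ.Prime ∧ ℓ ∉ S} 𝒪 →+* ResidueField 𝒪 :=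
  MvPolynomial.eval₂Hom (residue 𝒪) fun i => θ (TIdx N S hNS i)

@[simp] theorem thetaPoly_C (a : 𝒪) :
    thetaPoly N S hNS 𝒪 θ (MvPolynomial.C a) = residue 𝒪 a := by
  rw [thetaPoly, MvPolynomial.eval₂Hom_C]

@[simp] theorem thetaPoly_X (i : {ℓ : ℕ // ℓ.Prime ∧ ℓ ∉ S}) :
    thetaPoly N S hNS 𝒪 θ (MvPolynomial.X i) = θ (TIdx N S hNS i) := by
  rw [thetaPoly, MvPolynomial.eval₂Hom_X']

theorem residualCharacter_evO (P : MvPolynomial {ℓ : ℕ // ℓ.Prime ∧ ℓ ∉ S} 𝒪) :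
    residualCharacter N S 𝒪 θ (evO N S hNS 𝒪 P) = thetaPoly N S hNS 𝒪 θ P := by
  induction P using MvPolynomial.induction_on with
  | C a =>
    have h2 : evO N S hNS 𝒪 (MvPolynomial.C a) = a ⊗ₜ 1 := (evO N S hNS 𝒪).commutes a
    rw [h2, residualCharacter_tmul, map_one, mul_one, thetaPoly_C]
  | add P Q hP hQ => rw [map_add, map_add, map_add, hP, hQ]
  | mul_X P i hP =>
    rw [map_mul, map_mul, map_mul, hP, thetaPoly_X, evO, MvPolynomial.aeval_X,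
      residualCharacter_tmul, map_one, one_mul]

/-- the projection `𝒪[X_ℓ] → 𝕋_𝔪` -/
def toLocal : MvPolynomial {ℓ : ℕ // ℓ.Prime ∧ ℓ ∉ S} 𝒪 →ₐ[𝒪] heckeLocal N S 𝒪 θ :=
  MvPolynomial.aeval fun i => heckeLocal.π N S 𝒪 θ (TIdx N S hNS i)

@[simp] theorem toLocal_X (i : {ℓ : ℕ // ℓ.Prime ∧ ℓ ∉ S}) :
    toLocal N S hNS 𝒪 θ (MvPolynomial.X i) = heckeLocal.π N S 𝒪 θ (TIdx N S hNS i) := by
  rw [toLocal, MvPolynomial.aeval_X]

theorem toLocal_eq (P : MvPolynomial {ℓ : ℕ // ℓ.Prime ∧ ℓ ∉ S} 𝒪) :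
    toLocal N S hNS 𝒪 θ P = locMap N S 𝒪 θ (evO N S hNS 𝒪 P) := by
  induction P using MvPolynomial.induction_on with
  | C a =>
    have h2 : evO N S hNS 𝒪 (MvPolynomial.C a) = algebraMap 𝒪 _ a := (evO N S hNS 𝒪).commutes a
    have h3 : toLocal N S hNS 𝒪 θ (MvPolynomial.C a) = algebraMap 𝒪 _ a :=
      (toLocal N S hNS 𝒪 θ).commutes a
    rw [h2, h3, locMap_tmul_one]
  | add P Q hP hQ => rw [map_add, map_add, map_add, hP, hQ]
  | mul_X P i hP =>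
    rw [map_mul, map_mul, map_mul, hP, toLocal_X, evO, MvPolynomial.aeval_X, locMap_one_tmul]

theorem toLocal_surjective : Function.Surjective (toLocal N S hNS 𝒪 θ) := by
  intro y
  obtain ⟨x, rfl⟩ := locMap_surjective N S 𝒪 θ y
  obtain ⟨P, rfl⟩ := evO_surjective N S hNS 𝒪 x
  exact ⟨P, toLocal_eq N S hNS 𝒪 θ P⟩

theorem residue_toLocal (P : MvPolynomial {ℓ : ℕ // ℓ.Prime ∧ ℓ ∉ S} 𝒪) :
    residue (heckeLocal N S 𝒪 θ) (toLocal N S hNS 𝒪 θ P) =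
      ResidueField.map (algebraMap 𝒪 (heckeLocal N S 𝒪 θ)) (thetaPoly N S hNS 𝒪 θ P) := by
  rw [toLocal_eq, residue_locMap, residualCharacter_evO]

/-- **A polynomial which vanishes in `𝕋_𝔪` is, up to a polynomial `s` with `θ s ≠ 0`, a combination
of integral relations between the Hecke operators.** -/
theorem exists_mul_mem_of_toLocal_eq_zero
    (P : MvPolynomial {ℓ : ℕ // ℓ.Prime ∧ ℓ ∉ S} 𝒪) (hP : toLocal N S hNS 𝒪 θ P = 0) :
    ∃ s, thetaPoly N S hNS 𝒪 θ s ≠ 0 ∧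
      s * P ∈ (RingHom.ker (evZ N S hNS)).map (MvPolynomial.map (algebraMap ℤ 𝒪)) := by
  rw [toLocal_eq, locMap, RingHom.comp_apply] at hP
  obtain ⟨⟨_, c, hc, rfl⟩, hc'⟩ := (IsLocalization.map_eq_zero_iff (heckeLocalSubmonoid N S 𝒪 θ)
    (heckeLocal N S 𝒪 θ) _).mp hP
  have h1 : c * evO N S hNS 𝒪 P = 0 := by
    apply latticeBaseChange_injective N S 𝒪 (Fact.out : HasIntegralStructure N 2)
    rw [map_mul, map_zero]
    exact hc'
  obtain ⟨s, rfl⟩ := evO_surjective N S hNS 𝒪 c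
  refine ⟨s, ?_, ?_⟩
  · intro h0
    refine Ideal.mem_primeCompl_iff.mp hc ?_
    rw [mem_heckeCharKernel_iff, residualCharacter_evO, h0]
  · rw [← ker_evO, RingHom.mem_ker, map_mul, h1]

/-- **The action of `𝕋_𝔪` on a localised module.** -/
theorem exists_loc_heckeLocal {Λ H : Type} [CommRing Λ] [Algebra 𝒪 Λ] [AddCommGroup H]
    [Module Λ H] [Module 𝒪 H] [IsScalarTower 𝒪 Λ H]
    {T : {ℓ : ℕ // ℓ.Prime ∧ ℓ ∉ S} → Module.End Λ H} {hT : ∀ i j, T i * T j = T j * T i}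
    {e : MvPolynomial {ℓ : ℕ // ℓ.Prime ∧ ℓ ∉ S} 𝒪}
    (he : H59.IsLocIdem T hT (thetaPoly N S hNS 𝒪 θ) e)
    (hrel : ∀ P₀ : MvPolynomial {ℓ : ℕ // ℓ.Prime ∧ ℓ ∉ S} ℤ, evZ N S hNS P₀ = 0 →
      ∀ x ∈ H59.Loc T hT e, H59.act T hT (MvPolynomial.map (algebraMap ℤ 𝒪) P₀) x = 0) :
    ∃ Φ : heckeLocal N S 𝒪 θ →ₐ[𝒪] Module.End Λ (H59.Loc T hT e),
      ∀ P, Φ (toLocal N S hNS 𝒪 θ P) = H59.act (H59.locT T hT e) H59.locT_comm P := by
  refine H59.exists_loc_ringHom (toLocal N S hNS 𝒪 θ) (toLocal_surjective N S hNS 𝒪 θ) ?_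
  intro P hP x hx
  obtain ⟨s, hs, hsP⟩ := exists_mul_mem_of_toLocal_eq_zero N S hNS 𝒪 θ P hP
  have h1 : ∀ Q ∈ (RingHom.ker (evZ N S hNS)).map (MvPolynomial.map (algebraMap ℤ 𝒪)),
      ∀ x ∈ H59.Loc T hT e, H59.act T hT Q x = 0 := by
    intro Q hQ
    refine Submodule.span_induction (p := fun Q _ => ∀ x ∈ H59.Loc T hT e,
      H59.act T hT Q x = 0) ?_ ?_ ?_ ?_ hQ
    · rintro _ ⟨P₀, hP₀, rfl⟩ x hx
      exact hrel P₀ (RingHom.mem_ker.mp hP₀) x hx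
    · intro x _
      rw [map_zero]
      rfl
    · intro A B _ _ hA hB x hx
      rw [map_add, LinearMap.add_apply, hA x hx, hB x hx, add_zero]
    · intro a A _ hA x hx
      rw [smul_eq_mul, map_mul, Module.End.mul_apply, hA x hx, map_zero]
  obtain ⟨s', hs'⟩ := he.exists_inv hs
  have h2 : H59.act (H59.locT T hT e) H59.locT_comm P = 0 := by
    have h3 : H59.act (H59.locT T hT e) H59.locT_comm (s * P) = 0 := by
      apply LinearMap.ext
      intro y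
      apply Subtype.ext
      rw [H59.act_locT_coe, h1 _ hsP y.1 y.2]
      rfl
    calc H59.act (H59.locT T hT e) H59.locT_comm P
        = H59.act (H59.locT T hT e) H59.locT_comm s * H59.act (H59.locT T hT e) H59.locT_comm s' *
          H59.act (H59.locT T hT e) H59.locT_comm P := by rw [hs', one_mul]
      _ = H59.act (H59.locT T hT e) H59.locT_comm s' *
          H59.act (H59.locT T hT e) H59.locT_comm (s * P) := by
        rw [H59.act_commute _ _ s s', mul_assoc, map_mul]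
      _ = 0 := by rw [h3, mul_zero]
  have h4 := H59.act_locT_coe (T := T) (hT := hT) (e := e) P ⟨x, hx⟩
  rw [h2] at h4
  exact h4.symm

end Act

end Fermat.Agent.H30
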