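import Mathlib.RingTheory.Etale.Field
import Mathlib.Algebra.Algebra.Rat
import Mathlib.Algebra.Module.Rat
import Mathlib.RingTheory.Unramified.Field
import Mathlib.RingTheory.Localization.BaseChange
import Mathlib.RingTheory.LocalProperties.Reduced
import Mathlib.RingTheory.Flat.Basic
import Mathlib.RingTheory.TensorProduct.Finite
import Mathlib.RingTheory.Finiteness.Basic
import Mathlib.FieldTheory.Perfect
import Mathlib.FieldTheory.IsAlgClosed.AlgebraicClosure

/-!
# Points of a finite free algebra generated by the image of a reduced ring (helper33)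

`T` finite free over a domain `𝒪` of characteristic zero and generated by the image of a reduced
ring finite over `ℤ`: the `𝒪`-algebra maps `T → K` (`K` algebraically closed, containing `𝒪`)
are jointly injective.
-/

set_option autoImplicit false

open scoped TensorProduct

namespace Fermat.Agent.H33

attribute [local instance] Algebra.TensorProduct.rightAlgebra in
theorem isReduced_rat_tensor (R : Type) [CommRing R] [IsReduced R] : IsReduced (ℚ ⊗[ℤ] R) := by
  have : IsLocalization (Algebra.algebraMapSubmonoid R (nonZeroDivisors ℤ)) (ℚ ⊗[ℤ] R) :=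
    IsLocalization.tensorRight ℚ (nonZeroDivisors ℤ)
  exact isReduced_localizationPreserves (Algebra.algebraMapSubmonoid R (nonZeroDivisors ℤ))
    (ℚ ⊗[ℤ] R) inferInstance

/-- A reduced ring finite over `ℤ` is unramified over `ℚ` after tensoring with `ℚ`. -/
theorem formallyUnramified_rat (R : Type) [CommRing R] [IsReduced R] [Module.Finite ℤ R] :
    Algebra.FormallyUnramified ℚ (ℚ ⊗[ℤ] R) := by
  have hred : IsReduced (ℚ ⊗[ℤ] R) := isReduced_rat_tensor R
  have hfin : Module.Finite ℚ (ℚ ⊗[ℤ] R) := inferInstance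
  have : IsArtinianRing (ℚ ⊗[ℤ] R) := isArtinian_of_tower ℚ inferInstance
  have : Algebra.EssFiniteType ℚ (ℚ ⊗[ℤ] R) := inferInstance
  suffices h : Algebra.FormallyEtale ℚ (ℚ ⊗[ℤ] R) from inferInstance
  rw [Algebra.FormallyEtale.iff_exists_algEquiv_prod]
  refine ⟨MaximalSpectrum (ℚ ⊗[ℤ] R), inferInstance, fun m => (ℚ ⊗[ℤ] R) ⧸ m.asIdeal,
    fun m => Ideal.Quotient.field m.asIdeal, fun m => inferInstance,
    (IsArtinianRing.equivPi _).restrictScalars ℚ, fun m => ?_⟩
  let := Ideal.Quotient.field m.asIdeal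
  infer_instance

section

variable {𝒪 : Type} [CommRing 𝒪] {T : Type} [CommRing T] [Algebra 𝒪 T]
  {K : Type} [Field K] [Algebra 𝒪 K]
  {R : Type} [CommRing R] [IsReduced R] [Module.Finite ℤ R]

theorem formallyUnramified_tensor [CharZero K] (π : R →+* T)
    (hπ : Algebra.adjoin 𝒪 (Set.range π) = ⊤) :
    Algebra.FormallyUnramified K (K ⊗[𝒪] T) := by
  have h1 : Algebra.FormallyUnramified ℚ (ℚ ⊗[ℤ] R) := formallyUnramified_rat R
  have h2 : Algebra.FormallyUnramified K (K ⊗[ℚ] (ℚ ⊗[ℤ] R)) := inferInstance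
  let f₀ : R →+* K ⊗[𝒪] T :=
    (Algebra.TensorProduct.includeRight : T →ₐ[𝒪] K ⊗[𝒪] T).toRingHom.comp π
  let f₁ : (ℚ ⊗[ℤ] R) →ₐ[ℚ] K ⊗[𝒪] T :=
    Algebra.TensorProduct.lift (Algebra.ofId ℚ _) f₀.toIntAlgHom (fun _ _ => Commute.all _ _)
  let f₂ : (K ⊗[ℚ] (ℚ ⊗[ℤ] R)) →ₐ[K] K ⊗[𝒪] T :=
    Algebra.TensorProduct.lift (Algebra.ofId K _) f₁ (fun _ _ => Commute.all _ _)
  refine Algebra.FormallyUnramified.of_surjective (R := K) (A := K ⊗[ℚ] (ℚ ⊗[ℤ] R))
    (B := K ⊗[𝒪] T) f₂ ?_
  rw [← AlgHom.range_eq_top, eq_top_iff]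
  have hR : ∀ r : R, (1 : K) ⊗ₜ[𝒪] (π r) ∈ f₂.range := fun r => by
    refine ⟨1 ⊗ₜ[ℚ] (1 ⊗ₜ[ℤ] r), ?_⟩
    simp [f₂, f₁, f₀]
  have hT : ∀ t : T, (1 : K) ⊗ₜ[𝒪] t ∈ f₂.range := by
    intro t
    have ht : t ∈ Algebra.adjoin 𝒪 (Set.range π) := by rw [hπ]; trivial
    induction ht using Algebra.adjoin_induction with
    | mem y hy => obtain ⟨r, rfl⟩ := hy; exact hR r
    | algebraMap c =>
      have : (1 : K) ⊗ₜ[𝒪] (algebraMap 𝒪 T c) = algebraMap K _ (algebraMap 𝒪 K c) := by
        rw [Algebra.TensorProduct.algebraMap_apply, Algebra.algebraMap_self, RingHom.id_apply,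
          Algebra.algebraMap_eq_smul_one, Algebra.algebraMap_eq_smul_one,
          TensorProduct.smul_tmul]
      rw [this]
      exact Subalgebra.algebraMap_mem _ _
    | add x y _ _ hx hy => rw [TensorProduct.tmul_add]; exact add_mem hx hy
    | mul x y _ _ hx hy =>
      have : (1 : K) ⊗ₜ[𝒪] (x * y) = (1 ⊗ₜ[𝒪] x) * (1 ⊗ₜ[𝒪] y) := by
        rw [Algebra.TensorProduct.tmul_mul_tmul, one_mul]
      rw [this]
      exact mul_mem hx hy
  intro z _
  induction z using TensorProduct.induction_on with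
  | zero => exact zero_mem _
  | tmul k t =>
    have : k ⊗ₜ[𝒪] t = k • ((1 : K) ⊗ₜ[𝒪] t) := by
      rw [TensorProduct.smul_tmul', smul_eq_mul, mul_one]
    rw [this]
    exact Subalgebra.smul_mem _ (hT t) k
  | add x y hx hy => exact add_mem (hx trivial) (hy trivial)

/-- The `𝒪`-points of `T` with values in an algebraically closed field are jointly injective. -/
theorem points_jointly_injective [CharZero 𝒪] [Module.Finite 𝒪 T] [Module.Free 𝒪 T]
    [FaithfulSMul 𝒪 K] [IsAlgClosed K] (π : R →+* T)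
    (hπ : Algebra.adjoin 𝒪 (Set.range π) = ⊤) (t : T) (ht : ∀ ψ : T →ₐ[𝒪] K, ψ t = 0) :
    t = 0 := by
  have hinj : Function.Injective (algebraMap 𝒪 K) := FaithfulSMul.algebraMap_injective 𝒪 K
  have : CharZero K := charZero_of_injective_algebraMap hinj
  have h1 : Algebra.FormallyUnramified K (K ⊗[𝒪] T) := formallyUnramified_tensor π hπ
  have h2 : Algebra.FormallyEtale K (K ⊗[𝒪] T) :=
    Algebra.FormallyEtale.of_formallyUnramified_of_field K _
  have h3 : (1 : K) ⊗ₜ[𝒪] t = 0 := by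
    let e := Algebra.FormallyEtale.equivPiOfIsSepClosed K (K ⊗[𝒪] T)
    apply e.injective
    rw [map_zero]
    funext P
    let ev : (PrimeSpectrum (K ⊗[𝒪] T) → K) →ₐ[K] K := Pi.evalAlgHom K _ P
    let ψ : T →ₐ[𝒪] K := ((ev.comp e.toAlgHom).restrictScalars 𝒪).comp
      Algebra.TensorProduct.includeRight
    exact ht ψ
  have h4 : Function.Injective (Algebra.TensorProduct.includeRight : T →ₐ[𝒪] K ⊗[𝒪] T) :=
    Algebra.TensorProduct.includeRight_injective hinj
  exact h4 (h3.trans (map_zero _).symm)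

end

end Fermat.Agent.H33
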