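import Mathlib

/-!
Weights (exact partitions of unity under a countable group of measure preserving transformations).
They replace fundamental domains in the construction of the Petersson product.
-/

set_option autoImplicit false

open MeasureTheory
open scoped ENNReal Pointwise

namespace Fermat.Agent.H70

variable {G X : Type*} [Group G] [MulAction G X] [MeasurableSpace X] {μ : Measure X}

/-- `φ` is a weight for `Γ`: measurable, of finite mass and its translates sum up to one. -/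
structure IsWeight (μ : Measure X) (Γ : Subgroup G) (φ : X → ℝ≥0∞) : Prop where
  meas : Measurable φ
  tsum_eq : ∀ x, ∑' γ : Γ, φ ((γ : G) • x) = 1
  lintegral_ne_top : ∫⁻ x, φ x ∂μ ≠ ∞

theorem IsWeight.tsum_inv_eq {Γ : Subgroup G} {φ : X → ℝ≥0∞} (h : IsWeight μ Γ φ) (x : X) :
    ∑' γ : Γ, φ ((γ : G)⁻¹ • x) = 1 := by
  rw [← h.tsum_eq x]
  exact (Equiv.inv Γ).tsum_eq (fun γ : Γ => φ ((γ : G) • x))

theorem IsWeight.lintegral_mul_eq [MeasurableConstSMul G X] [SMulInvariantMeasure G X μ]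
    {Γ : Subgroup G} [Countable Γ] {φ ψ : X → ℝ≥0∞}
    (hφ : IsWeight μ Γ φ) (hψ : IsWeight μ Γ ψ) {F : X → ℝ≥0∞} (hF : Measurable F)
    (hinv : ∀ γ ∈ Γ, ∀ x, F (γ • x) = F x) :
    ∫⁻ x, F x * φ x ∂μ = ∫⁻ x, F x * ψ x ∂μ := by
  calc ∫⁻ x, F x * φ x ∂μ = ∫⁻ x, ∑' γ : Γ, F x * φ x * ψ ((γ : G) • x) ∂μ := by
        refine lintegral_congr fun x => ?_
        rw [ENNReal.tsum_mul_left, hψ.tsum_eq, mul_one]
    _ = ∑' γ : Γ, ∫⁻ x, F x * φ x * ψ ((γ : G) • x) ∂μ := by
        refine lintegral_tsum fun γ => Measurable.aemeasurable ?_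
        exact (hF.mul hφ.meas).mul (hψ.meas.comp (measurable_const_smul (γ : G)))
    _ = ∑' γ : Γ, ∫⁻ x, F x * φ ((γ : G)⁻¹ • x) * ψ x ∂μ := by
        congr 1
        ext γ
        rw [← (measurePreserving_smul (γ : G) μ).lintegral_comp
          (f := fun x => F x * φ ((γ : G)⁻¹ • x) * ψ x)
          ((hF.mul (hφ.meas.comp (measurable_const_smul (γ : G)⁻¹))).mul hψ.meas)]
        refine lintegral_congr fun x => ?_
        rw [inv_smul_smul, hinv γ γ.2]
    _ = ∫⁻ x, ∑' γ : Γ, F x * φ ((γ : G)⁻¹ • x) * ψ x ∂μ := by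
        refine (lintegral_tsum fun γ => Measurable.aemeasurable ?_).symm
        exact (hF.mul (hφ.meas.comp (measurable_const_smul (γ : G)⁻¹))).mul hψ.meas
    _ = ∫⁻ x, F x * ψ x ∂μ := by
        refine lintegral_congr fun x => ?_
        rw [ENNReal.tsum_mul_right, ENNReal.tsum_mul_left, hφ.tsum_inv_eq, mul_one]

/-- The sigma-algebra of `Γ`-invariant measurable sets. -/
@[reducible] def invSigma (Γ : Subgroup G) : MeasurableSpace X where
  MeasurableSet' A := MeasurableSet A ∧ ∀ γ ∈ Γ, ∀ x, γ • x ∈ A ↔ x ∈ A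
  measurableSet_empty := ⟨MeasurableSet.empty, fun _ _ _ => by simp⟩
  measurableSet_compl A hA := ⟨hA.1.compl, fun γ hγ x => by simp [hA.2 γ hγ x]⟩
  measurableSet_iUnion f hf := ⟨MeasurableSet.iUnion fun i => (hf i).1,
    fun γ hγ x => by simp [fun i => (hf i).2 γ hγ x]⟩

theorem invSigma_le (Γ : Subgroup G) : (invSigma Γ : MeasurableSpace X) ≤ ‹MeasurableSpace X› :=
  fun _ hA => hA.1

theorem measurable_invSigma {Γ : Subgroup G} {E : Type*} [MeasurableSpace E] {F : X → E}
    (hF : Measurable F) (hinv : ∀ γ ∈ Γ, ∀ x, F (γ • x) = F x) :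
    @Measurable X E (invSigma Γ) _ F :=
  fun B hB => ⟨hF hB, fun γ hγ x => by simp [hinv γ hγ x]⟩

theorem IsWeight.integral_withDensity_eq [MeasurableConstSMul G X] [SMulInvariantMeasure G X μ]
    {Γ : Subgroup G} [Countable Γ] {φ ψ : X → ℝ≥0∞}
    (hφ : IsWeight μ Γ φ) (hψ : IsWeight μ Γ ψ) {F : X → ℂ} (hF : Measurable F)
    (hinv : ∀ γ ∈ Γ, ∀ x, F (γ • x) = F x) :
    ∫ x, F x ∂(μ.withDensity φ) = ∫ x, F x ∂(μ.withDensity ψ) := by
  have hm := invSigma_le (X := X) Γ
  have hF' : @StronglyMeasurable X ℂ _ (invSigma Γ) F :=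
    (measurable_invSigma hF hinv).stronglyMeasurable
  have htrim : (μ.withDensity φ).trim hm = (μ.withDensity ψ).trim hm := by
    refine @Measure.ext X (invSigma Γ) _ _ fun A hA => ?_
    rw [trim_measurableSet_eq hm hA, trim_measurableSet_eq hm hA, withDensity_apply _ hA.1,
      withDensity_apply _ hA.1]
    have h1 := hφ.lintegral_mul_eq hψ (F := A.indicator 1)
      (measurable_one.indicator hA.1) (fun γ hγ x => by
        by_cases hx : x ∈ A
        · rw [Set.indicator_of_mem hx, Set.indicator_of_mem ((hA.2 γ hγ x).mpr hx)]; rfl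
        · rw [Set.indicator_of_notMem hx, Set.indicator_of_notMem (fun h => hx ((hA.2 γ hγ x).mp h))])
    rw [← lintegral_indicator hA.1, ← lintegral_indicator hA.1]
    convert h1 using 2
    · ext x
      by_cases hx : x ∈ A <;> simp [hx]
    · ext x
      by_cases hx : x ∈ A <;> simp [hx]
  rw [integral_trim hm hF', integral_trim hm hF', htrim]

/-- coset decomposition of a group. -/
noncomputable def cosetEquiv {A : Type*} [Group A] (K : Subgroup A) : (A ⧸ K) × K ≃ A :=
  Equiv.ofBijective (fun p => p.1.out * p.2) (by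
    constructor
    · rintro ⟨q, h⟩ ⟨q', h'⟩ e
      have e' : q.out * (h : A) = q'.out * h' := e
      have hq : q = q' := by
        rw [← QuotientGroup.out_eq' q, ← QuotientGroup.out_eq' q', QuotientGroup.eq]
        have : (q.out)⁻¹ * q'.out = h * (h' : A)⁻¹ := by
          rw [eq_mul_inv_iff_mul_eq, mul_assoc, ← e', inv_mul_cancel_left]
        rw [this]
        exact K.mul_mem h.2 (K.inv_mem h'.2)
      subst hq
      have : (h : A) = h' := mul_left_cancel e'
      rw [Subtype.ext this]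
    · intro a
      refine ⟨⟨(a : A ⧸ K), ⟨((a : A ⧸ K).out)⁻¹ * a, ?_⟩⟩, ?_⟩
      · rw [← QuotientGroup.eq, QuotientGroup.out_eq']
      · simp)

@[simp] theorem cosetEquiv_apply {A : Type*} [Group A] (K : Subgroup A) (q : A ⧸ K) (h : K) :
    cosetEquiv K (q, h) = q.out * h := rfl

/-- A weight for a finite index subgroup yields a weight for the big group. -/
theorem IsWeight.up {H Γ : Subgroup G} (hle : H ≤ Γ) [hfin : (H.subgroupOf Γ).FiniteIndex]
    {φ : X → ℝ≥0∞} (hφ : IsWeight μ H φ) :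
    IsWeight μ Γ (fun x => ((H.subgroupOf Γ).index : ℝ≥0∞)⁻¹ * φ x) := by
  have hidx : ((H.subgroupOf Γ).index : ℝ≥0∞) ≠ 0 := by
    exact_mod_cast hfin.index_ne_zero
  refine ⟨hφ.meas.const_mul _, fun x => ?_, ?_⟩
  · rw [ENNReal.tsum_mul_left]
    have h1 : ∑' γ : Γ, φ ((γ : G) • x) = ((H.subgroupOf Γ).index : ℝ≥0∞) := by
      rw [← (Equiv.inv Γ).tsum_eq, ← (cosetEquiv (H.subgroupOf Γ)).tsum_eq, ENNReal.tsum_prod']
      have h2 : ∀ q : Γ ⧸ (H.subgroupOf Γ), ∑' h : (H.subgroupOf Γ),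
          φ ((((Equiv.inv Γ) (cosetEquiv (H.subgroupOf Γ) (q, h)) : Γ) : G) • x) = 1 := by
        intro q
        rw [← hφ.tsum_inv_eq ((q.out : G)⁻¹ • x),
          ← (Subgroup.subgroupOfEquivOfLe hle).toEquiv.tsum_eq]
        refine tsum_congr fun h => ?_
        congr 1
        simp [mul_smul]
      rw [tsum_congr h2, ENNReal.tsum_const, mul_one]
      have : Finite (Γ ⧸ (H.subgroupOf Γ)) := Subgroup.finite_quotient_of_finiteIndex
      rw [Subgroup.index, ENat.card_eq_coe_natCard]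
      simp
    rw [h1]
    exact ENNReal.inv_mul_cancel hidx (ENNReal.natCast_ne_top _)
  · rw [lintegral_const_mul _ hφ.meas]
    exact ENNReal.mul_ne_top (ENNReal.inv_ne_top.mpr hidx) hφ.lintegral_ne_top

/-- A weight for a group yields a weight for a finite index subgroup. -/
theorem IsWeight.down [MeasurableConstSMul G X] [SMulInvariantMeasure G X μ]
    {H Γ : Subgroup G} (hle : H ≤ Γ) [hfin : (H.subgroupOf Γ).FiniteIndex]
    {φ : X → ℝ≥0∞} (hφ : IsWeight μ Γ φ) :
    IsWeight μ H (fun x => ∑' q : Γ ⧸ (H.subgroupOf Γ), φ ((q.out : G) • x)) := by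
  have : Finite (Γ ⧸ (H.subgroupOf Γ)) := Subgroup.finite_quotient_of_finiteIndex
  cases nonempty_fintype (Γ ⧸ (H.subgroupOf Γ))
  refine ⟨?_, fun x => ?_, ?_⟩
  · simp only [tsum_fintype]
    exact Finset.measurable_sum _ fun q _ => hφ.meas.comp (measurable_const_smul (q.out : G))
  · rw [ENNReal.tsum_comm, ← hφ.tsum_eq x, ← (cosetEquiv (H.subgroupOf Γ)).tsum_eq,
      ENNReal.tsum_prod']
    refine tsum_congr fun q => ?_
    rw [← (Subgroup.subgroupOfEquivOfLe hle).toEquiv.tsum_eq]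
    refine tsum_congr fun h => ?_
    congr 1
    simp [mul_smul]
  · simp only [tsum_fintype]
    rw [lintegral_finsetSum Finset.univ
      (f := fun (q : Γ ⧸ (H.subgroupOf Γ)) x => φ ((q.out : G) • x))
      fun q _ => hφ.meas.comp (measurable_const_smul (q.out : G))]
    refine (ENNReal.sum_lt_top.mpr fun q _ => ?_).ne
    rw [(measurePreserving_smul (q.out : G) μ).lintegral_comp hφ.meas]
    exact lt_top_iff_ne_top.mpr hφ.lintegral_ne_top

theorem IsWeight.conj [MeasurableConstSMul G X] [SMulInvariantMeasure G X μ]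
    {Γ : Subgroup G} {φ : X → ℝ≥0∞} (hφ : IsWeight μ Γ φ) (α : G) :
    IsWeight μ (ConjAct.toConjAct α • Γ) (fun x => φ (α⁻¹ • x)) := by
  refine ⟨hφ.meas.comp (measurable_const_smul α⁻¹), fun x => ?_, ?_⟩
  · rw [← hφ.tsum_eq (α⁻¹ • x)]
    rw [← (Subgroup.equivSMul (ConjAct.toConjAct α) Γ).toEquiv.tsum_eq]
    refine tsum_congr fun γ => ?_
    congr 1
    simp only [MulEquiv.toEquiv_eq_coe, EquivLike.coe_coe, Subgroup.equivSMul_apply_coe]
    simp only [ConjAct.smul_def, mul_smul, ConjAct.ofConjAct_toConjAct, inv_smul_smul]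
  · rw [(measurePreserving_smul α⁻¹ μ).lintegral_comp hφ.meas]
    exact hφ.lintegral_ne_top

theorem integral_withDensity_comp_smul [MeasurableConstSMul G X] [SMulInvariantMeasure G X μ]
    {φ : X → ℝ≥0∞} (hφ : Measurable φ) (α : G) (F : X → ℂ) :
    ∫ x, F (α • x) ∂(μ.withDensity φ) = ∫ x, F x ∂(μ.withDensity (fun x => φ (α⁻¹ • x))) := by
  have h1 : (μ.withDensity φ).map (α • ·) = μ.withDensity (fun x => φ (α⁻¹ • x)) := by
    ext A hA
    rw [Measure.map_apply (measurable_const_smul α) hA,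
      withDensity_apply _ (measurable_const_smul α hA), withDensity_apply _ hA,
      ← lintegral_indicator hA, ← lintegral_indicator (measurable_const_smul α hA),
      ← (measurePreserving_smul α μ).lintegral_comp
        (f := A.indicator (fun x => φ (α⁻¹ • x)))
        ((hφ.comp (measurable_const_smul α⁻¹)).indicator hA)]
    refine lintegral_congr fun x => ?_
    by_cases hx : α • x ∈ A
    · rw [Set.indicator_of_mem hx, Set.indicator_of_mem (show x ∈ (α • ·) ⁻¹' A from hx),
        inv_smul_smul]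
    · rw [Set.indicator_of_notMem hx,
        Set.indicator_of_notMem (show x ∉ (α • ·) ⁻¹' A from hx)]
  rw [← h1]
  exact (MeasurableEquiv.smul α).measurableEmbedding.integral_map F |>.symm

end Fermat.Agent.H70
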