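import Mathlib
import Fermat.Agent.H70PetWeight

/-!
The canonical weight for the image of `SL(2, ℤ)` in `GL(2, ℝ)`, existence of weights for
arithmetic subgroups.
-/

set_option autoImplicit false

open MeasureTheory UpperHalfPlane ModularGroup
open scoped ENNReal Pointwise MatrixGroups Modular

namespace Fermat.Agent.H70

theorem finite_setOf_smul_mem_fd (τ : ℍ) : {g : SL(2, ℤ) | g • τ ∈ 𝒟}.Finite := by
  obtain ⟨δ, hδ⟩ := exists_smul_mem_fd τ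
  have h1 : {g : SL(2, ℤ) | g • (δ • τ) ∈ 𝒟}.Finite := by
    refine Set.Finite.subset (List.finite_toSet ([1, -1, T, -T, T⁻¹, -T⁻¹, S, -S, T * S, -(T * S),
      T⁻¹ * S * T⁻¹, -(T⁻¹ * S * T⁻¹), S * T⁻¹, -(S * T⁻¹), S * T, -(S * T),
      T * S * T, -(T * S * T), T⁻¹ * S, -(T⁻¹ * S)] : List SL(2, ℤ))) ?_
    intro g hg
    have := cases_of_mem_fd_smul_mem_fd hδ hg
    rw [Set.mem_ofPred_eq]
    rcases this with (h | h) | ⟨h | h, -⟩ | ⟨h | h, -⟩ | ⟨h | h, -⟩ | ⟨h | h, -⟩ | ⟨h | h, -⟩ |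
      ⟨h | h, -⟩ | ⟨h | h, -⟩ | ⟨h | h, -⟩ | ⟨h | h, -⟩ <;>
      simp only [h, List.mem_cons, true_or, or_true]
  refine (h1.image (fun g => g * δ)).subset ?_
  intro g hg
  refine ⟨g * δ⁻¹, ?_, by simp⟩
  show (g * δ⁻¹) • δ • τ ∈ 𝒟
  rw [← mul_smul, inv_mul_cancel_right]
  exact hg

theorem measurableSet_fd : MeasurableSet (𝒟 : Set ℍ) := isClosed_fd.measurableSet

/-- number of translates of `τ` in the fundamental domain. -/
noncomputable def fdCount (τ : ℍ) : ℝ≥0∞ := ∑' γ : 𝒮ℒ, (𝒟 : Set ℍ).indicator 1 ((γ : GL (Fin 2) ℝ) • τ)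

theorem tsum_SL_eq (f : ℍ → ℝ≥0∞) (τ : ℍ) :
    ∑' γ : 𝒮ℒ, f ((γ : GL (Fin 2) ℝ) • τ) = ∑' g : SL(2, ℤ), f (g • τ) := by
  rw [← (MonoidHom.ofInjective (f := (Matrix.SpecialLinearGroup.mapGL ℝ : SL(2, ℤ) →* GL (Fin 2) ℝ))
    Matrix.SpecialLinearGroup.mapGL_injective).toEquiv.tsum_eq]
  rfl

theorem fdCount_ne_top (τ : ℍ) : fdCount τ ≠ ∞ := by
  rw [fdCount, tsum_SL_eq]
  have hfin := finite_setOf_smul_mem_fd τ
  rw [tsum_eq_sum (s := hfin.toFinset) (fun g hg => by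
    rw [Set.indicator_of_notMem]
    intro h
    exact hg (hfin.mem_toFinset.mpr h))]
  refine (ENNReal.sum_lt_top.mpr fun g _ => ?_).ne
  by_cases h : g • τ ∈ 𝒟
  · rw [Set.indicator_of_mem h]; exact ENNReal.one_lt_top
  · rw [Set.indicator_of_notMem h]; exact ENNReal.zero_lt_top

theorem fdCount_ne_zero (τ : ℍ) : fdCount τ ≠ 0 := by
  rw [fdCount, tsum_SL_eq]
  obtain ⟨δ, hδ⟩ := exists_smul_mem_fd τ
  intro h
  rw [ENNReal.tsum_eq_zero] at h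
  have := h δ
  rw [Set.indicator_of_mem hδ] at this
  exact one_ne_zero this

theorem volume_fd_lt_top : volume (𝒟 : Set ℍ) < ∞ := by
  rw [UpperHalfPlane.volume_eq_lintegral]
  have hsub : (UpperHalfPlane.coe '' (𝒟 : Set ℍ)) ⊆
      Complex.measurableEquivRealProd ⁻¹' (Set.Icc (-1 : ℝ) 1 ×ˢ Set.Ioi (1 / 2 : ℝ)) := by
    rw [coe_fd]
    rintro z ⟨h1, h2, h3⟩
    have h2' : 1 ≤ ‖z‖ ^ 2 := one_le_pow₀ h2
    rw [← Complex.normSq_eq_norm_sq, Complex.normSq_apply] at h2'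
    rw [abs_le] at h3
    refine ⟨⟨?_, ?_⟩, ?_⟩
    · show -1 ≤ z.re
      linarith
    · show z.re ≤ 1
      linarith
    · show 1 / 2 < z.im
      by_contra hc
      rw [not_lt] at hc
      nlinarith
  refine lt_of_le_of_lt (lintegral_mono_set hsub) ?_
  have key := (Complex.volume_preserving_equiv_real_prod).setLIntegral_comp_preimage_emb
    Complex.measurableEquivRealProd.measurableEmbedding
    (fun z : ℝ × ℝ => (((1 / ‖z.2‖₊) ^ 2 : NNReal) : ℝ≥0∞)) (Set.Icc (-1 : ℝ) 1 ×ˢ Set.Ioi (1 / 2 : ℝ))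
  have key' : ∫⁻ z : ℂ in Complex.measurableEquivRealProd ⁻¹'
      (Set.Icc (-1 : ℝ) 1 ×ˢ Set.Ioi (1 / 2 : ℝ)), (((1 / ‖z.im‖₊) ^ 2 : NNReal) : ℝ≥0∞) =
      ∫⁻ z : ℝ × ℝ in (Set.Icc (-1 : ℝ) 1 ×ˢ Set.Ioi (1 / 2 : ℝ)),
        (((1 / ‖z.2‖₊) ^ 2 : NNReal) : ℝ≥0∞) := key
  rw [key', Measure.volume_eq_prod, ← Measure.prod_restrict]
  have hm : Measurable (fun y : ℝ => (((1 / ‖y‖₊) ^ 2 : NNReal) : ℝ≥0∞)) := by fun_prop
  rw [lintegral_prod (fun z : ℝ × ℝ => (((1 / ‖z.2‖₊) ^ 2 : NNReal) : ℝ≥0∞))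
    (hm.comp measurable_snd).aemeasurable]
  simp only [lintegral_const]
  refine ENNReal.mul_lt_top ?_ (by simp)
  have h := integrableOn_Ioi_rpow_of_lt (a := (-2 : ℝ)) (by norm_num) (c := (1 / 2 : ℝ)) (by norm_num)
  have h2 := h.2
  rw [hasFiniteIntegral_iff_enorm] at h2
  refine lt_of_eq_of_lt ?_ h2
  refine setLIntegral_congr_fun measurableSet_Ioi fun y hy => ?_
  have hy0 : 0 < y := lt_trans (by norm_num) hy
  rw [Real.rpow_neg hy0.le, Real.rpow_ofNat]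
  simp only [enorm_eq_nnnorm, one_div, inv_pow, nnnorm_inv, nnnorm_pow]

instance countable_of_isArithmetic (Γ : Subgroup (GL (Fin 2) ℝ)) [hΓ : Γ.IsArithmetic] :
    Countable Γ := by
  have h1 : Countable (𝒮ℒ : Subgroup (GL (Fin 2) ℝ)) := by
    have : Countable (Matrix (Fin 2) (Fin 2) ℤ) := inferInstanceAs (Countable (Fin 2 → Fin 2 → ℤ))
    have : Countable SL(2, ℤ) := Subtype.countable
    exact (MonoidHom.ofInjective (f := (Matrix.SpecialLinearGroup.mapGL ℝ :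
      SL(2, ℤ) →* GL (Fin 2) ℝ)) Matrix.SpecialLinearGroup.mapGL_injective).symm.injective.countable
  have h2 : ((𝒮ℒ : Subgroup (GL (Fin 2) ℝ)).subgroupOf Γ).FiniteIndex :=
    ⟨hΓ.is_commensurable.2⟩
  have h3 : Countable ((𝒮ℒ : Subgroup (GL (Fin 2) ℝ)).subgroupOf Γ) := by
    refine Function.Injective.countable (β := (𝒮ℒ : Subgroup (GL (Fin 2) ℝ)))
      (f := fun x => ⟨((x : Γ) : GL (Fin 2) ℝ), x.2⟩) ?_
    intro x y h
    have h' : ((x : Γ) : GL (Fin 2) ℝ) = ((y : Γ) : GL (Fin 2) ℝ) := Subtype.mk.inj h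
    exact Subtype.ext (Subtype.ext h')
  have h4 : Finite (Γ ⧸ ((𝒮ℒ : Subgroup (GL (Fin 2) ℝ)).subgroupOf Γ)) :=
    Subgroup.finite_quotient_of_finiteIndex
  exact (cosetEquiv ((𝒮ℒ : Subgroup (GL (Fin 2) ℝ)).subgroupOf Γ)).symm.injective.countable

theorem fdCount_smul {γ : GL (Fin 2) ℝ} (hγ : γ ∈ (𝒮ℒ : Subgroup (GL (Fin 2) ℝ))) (τ : ℍ) :
    fdCount (γ • τ) = fdCount τ := by
  rw [fdCount, fdCount, ← (Equiv.mulRight (⟨γ, hγ⟩ : (𝒮ℒ : Subgroup (GL (Fin 2) ℝ)))).tsum_eq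
    (fun δ : (𝒮ℒ : Subgroup (GL (Fin 2) ℝ)) => (𝒟 : Set ℍ).indicator 1 ((δ : GL (Fin 2) ℝ) • τ))]
  refine tsum_congr fun δ => ?_
  rw [← mul_smul]
  rfl

theorem measurable_fdCount : Measurable fdCount := by
  unfold fdCount
  refine Measurable.tsum fun γ => ?_
  exact (measurable_one.indicator measurableSet_fd).comp (measurable_const_smul (γ : GL (Fin 2) ℝ))

theorem isWeight_SL : IsWeight (volume : Measure ℍ) (𝒮ℒ : Subgroup (GL (Fin 2) ℝ))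
    (fun τ => (fdCount τ)⁻¹ * (𝒟 : Set ℍ).indicator 1 τ) := by
  refine ⟨measurable_fdCount.inv.mul (measurable_one.indicator measurableSet_fd), fun τ => ?_, ?_⟩
  · simp only [fun γ : (𝒮ℒ : Subgroup (GL (Fin 2) ℝ)) => fdCount_smul γ.2 τ]
    rw [ENNReal.tsum_mul_left]
    exact ENNReal.inv_mul_cancel (fdCount_ne_zero τ) (fdCount_ne_top τ)
  · refine (lt_of_le_of_lt (lintegral_mono (g := (𝒟 : Set ℍ).indicator 1) fun τ => ?_) ?_).ne
    · by_cases h : τ ∈ 𝒟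
      · rw [Set.indicator_of_mem h]
        simp only [Pi.one_apply, mul_one]
        rw [ENNReal.inv_le_one]
        refine le_trans ?_ (ENNReal.le_tsum (1 : (𝒮ℒ : Subgroup (GL (Fin 2) ℝ))))
        rw [OneMemClass.coe_one, one_smul, Set.indicator_of_mem h]
        rfl
      · simp [Set.indicator_of_notMem h]
    · rw [lintegral_indicator_one measurableSet_fd]
      exact volume_fd_lt_top

theorem exists_isWeight (Γ : Subgroup (GL (Fin 2) ℝ)) [hΓ : Γ.IsArithmetic] :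
    ∃ φ, IsWeight (volume : Measure ℍ) Γ φ := by
  let H : Subgroup (GL (Fin 2) ℝ) := Γ ⊓ 𝒮ℒ
  have h1 : (H.subgroupOf (𝒮ℒ : Subgroup (GL (Fin 2) ℝ))).FiniteIndex := by
    rw [show H.subgroupOf (𝒮ℒ : Subgroup (GL (Fin 2) ℝ)) = Γ.subgroupOf 𝒮ℒ from
      Subgroup.inf_subgroupOf_right _ _]
    exact ⟨hΓ.is_commensurable.1⟩
  have h2 : (H.subgroupOf Γ).FiniteIndex := by
    rw [show H.subgroupOf Γ = (𝒮ℒ : Subgroup (GL (Fin 2) ℝ)).subgroupOf Γ from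
      Subgroup.inf_subgroupOf_left _ _]
    exact ⟨hΓ.is_commensurable.2⟩
  exact ⟨_, (isWeight_SL.down (H := H) inf_le_right).up (H := H) inf_le_left⟩

end Fermat.Agent.H70
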