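import Mathlib
import Fermat.Agent.H70PetSL

/-!
The normalised integral of functions on the upper half plane which are invariant under some
arithmetic subgroup; it is invariant under the commensurator.
-/

set_option autoImplicit false

open MeasureTheory UpperHalfPlane ModularGroup
open scoped ENNReal Pointwise MatrixGroups Modular

namespace Fermat.Agent.H70

instance isOpenPosMeasure_upperHalfPlane : (volume : Measure ℍ).IsOpenPosMeasure := by
  constructor
  intro U hU hne h0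
  rw [UpperHalfPlane.volume_eq_lintegral] at h0
  have hopen : IsOpen (UpperHalfPlane.coe '' U) := isOpenEmbedding_coe.isOpenMap U hU
  have hm : Measurable (fun z : ℂ => (((1 / ‖z.im‖₊) ^ 2 : NNReal) : ℝ≥0∞)) := by fun_prop
  rw [lintegral_eq_zero_iff hm] at h0
  have h1 : volume (UpperHalfPlane.coe '' U) = 0 := by
    rw [Filter.EventuallyEq, ae_restrict_iff' hopen.measurableSet] at h0
    rw [measure_eq_zero_iff_ae_notMem]
    filter_upwards [h0] with z hz hzU
    have := hz hzU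
    obtain ⟨τ, -, rfl⟩ := hzU
    simp [τ.im_ne_zero] at this
  exact (hopen.measure_pos volume (hne.image _)).ne' h1

theorem IsWeight.lintegral_ne_zero {Γ : Subgroup (GL (Fin 2) ℝ)} [Countable Γ] {φ : ℍ → ℝ≥0∞}
    (hφ : IsWeight (volume : Measure ℍ) Γ φ) : ∫⁻ x, φ x ≠ 0 := by
  intro h0
  rw [lintegral_eq_zero_iff hφ.meas] at h0
  have h1 : ∀ᵐ x : ℍ, ∀ γ : Γ, φ ((γ : GL (Fin 2) ℝ) • x) = 0 := by
    rw [ae_all_iff]
    intro γ
    exact (measurePreserving_smul (γ : GL (Fin 2) ℝ) (volume : Measure ℍ)).quasiMeasurePreserving.ae h0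
  have h2 : ∀ᵐ x : ℍ, False := by
    filter_upwards [h1] with x hx
    have := hφ.tsum_eq x
    simp [hx] at this
  have h3 : (volume : Measure ℍ) Set.univ = 0 := by
    rw [ae_iff] at h2
    simpa using h2
  exact (isOpen_univ.measure_pos volume ⟨I, trivial⟩).ne' h3

theorem IsWeight.ratio_eq_of_le {H Γ : Subgroup (GL (Fin 2) ℝ)} (hle : H ≤ Γ) [Countable Γ]
    [hfin : (H.subgroupOf Γ).FiniteIndex] {φ ψ : ℍ → ℝ≥0∞} (hφ : IsWeight (volume : Measure ℍ) Γ φ)
    (hψ : IsWeight (volume : Measure ℍ) H ψ) {F : ℍ → ℂ} (hF : Measurable F)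
    (hinv : ∀ γ ∈ Γ, ∀ x, F (γ • x) = F x) :
    (∫ x, F x ∂((volume : Measure ℍ).withDensity φ)) / ((∫⁻ x, φ x).toReal : ℂ) =
    (∫ x, F x ∂((volume : Measure ℍ).withDensity ψ)) / ((∫⁻ x, ψ x).toReal : ℂ) := by
  have hidx : ((H.subgroupOf Γ).index : ℝ≥0∞) ≠ 0 := by
    exact_mod_cast hfin.index_ne_zero
  set c : ℝ≥0∞ := ((H.subgroupOf Γ).index : ℝ≥0∞)⁻¹ with hc
  have hc0 : c ≠ 0 := ENNReal.inv_ne_zero.mpr (ENNReal.natCast_ne_top _)
  have hct : c ≠ ∞ := ENNReal.inv_ne_top.mpr hidx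
  have h1 := hφ.integral_withDensity_eq (hψ.up hle) hF hinv
  have h2 := hφ.lintegral_mul_eq (hψ.up hle) (F := fun _ => 1) measurable_const
    (fun _ _ _ => rfl)
  simp only [one_mul] at h2
  rw [h1, h2]
  have h3 : (volume : Measure ℍ).withDensity (fun x => c * ψ x) =
      c • (volume : Measure ℍ).withDensity ψ := by
    rw [← withDensity_smul _ hψ.meas]
    rfl
  rw [← hc, h3, integral_smul_measure, lintegral_const_mul _ hψ.meas, ENNReal.toReal_mul]
  have hcr : (c.toReal : ℂ) ≠ 0 := by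
    exact_mod_cast (ENNReal.toReal_pos hc0 hct).ne'
  rw [Complex.ofReal_mul, Complex.real_smul, mul_div_mul_left _ _ hcr]

theorem finiteIndex_inf_left (Γ Γ' : Subgroup (GL (Fin 2) ℝ)) [hΓ : Γ.IsArithmetic]
    [hΓ' : Γ'.IsArithmetic] : ((Γ ⊓ Γ').subgroupOf Γ).FiniteIndex := by
  rw [Subgroup.inf_subgroupOf_left]
  exact ⟨(hΓ'.is_commensurable.trans hΓ.is_commensurable.symm).1⟩

theorem finiteIndex_inf_right (Γ Γ' : Subgroup (GL (Fin 2) ℝ)) [hΓ : Γ.IsArithmetic]
    [hΓ' : Γ'.IsArithmetic] : ((Γ ⊓ Γ').subgroupOf Γ').FiniteIndex := by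
  rw [Subgroup.inf_subgroupOf_right]
  exact ⟨(hΓ.is_commensurable.trans hΓ'.is_commensurable.symm).1⟩

/-- Measurable functions invariant under some arithmetic subgroup. -/
structure IsAmb (F : ℍ → ℂ) : Prop where
  meas : Measurable F
  inv : ∃ Γ : Subgroup (GL (Fin 2) ℝ), Γ.IsArithmetic ∧ ∀ γ ∈ Γ, ∀ τ, F (γ • τ) = F τ

open Classical in
/-- The average of a function invariant under some arithmetic subgroup. -/
noncomputable def petAvg (F : ℍ → ℂ) : ℂ :=
  if h : IsAmb F then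
    haveI := h.inv.choose_spec.1
    (∫ x, F x ∂((volume : Measure ℍ).withDensity (exists_isWeight h.inv.choose).choose)) /
      ((∫⁻ x, (exists_isWeight h.inv.choose).choose x).toReal : ℂ)
  else 0

theorem petAvg_eq {Γ : Subgroup (GL (Fin 2) ℝ)} [Γ.IsArithmetic] {φ : ℍ → ℝ≥0∞}
    (hφ : IsWeight (volume : Measure ℍ) Γ φ) {F : ℍ → ℂ} (hF : Measurable F)
    (hinv : ∀ γ ∈ Γ, ∀ x, F (γ • x) = F x) :
    petAvg F = (∫ x, F x ∂((volume : Measure ℍ).withDensity φ)) / ((∫⁻ x, φ x).toReal : ℂ) := by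
  have h : IsAmb F := ⟨hF, Γ, inferInstance, hinv⟩
  rw [petAvg, dif_pos h]
  have := h.inv.choose_spec.1
  have hinv' := h.inv.choose_spec.2
  have hφ' := (exists_isWeight h.inv.choose).choose_spec
  generalize (exists_isWeight h.inv.choose).choose = φ' at hφ' ⊢
  generalize h.inv.choose = Γ' at *
  obtain ⟨ψ, hψ⟩ := exists_isWeight (Γ ⊓ Γ')
  have := finiteIndex_inf_left Γ Γ'
  have := finiteIndex_inf_right Γ Γ'
  rw [hφ.ratio_eq_of_le inf_le_left hψ hF hinv, hφ'.ratio_eq_of_le inf_le_right hψ hF hinv']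

end Fermat.Agent.H70
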