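import Mathlib
import Fermat.Agent.H70PetInt

/-!
The normalised Petersson product and its behaviour under slashing by rational matrices.
-/

set_option autoImplicit false

open MeasureTheory UpperHalfPlane ModularGroup
open scoped ENNReal Pointwise MatrixGroups Modular ModularForm ComplexConjugate

namespace Fermat.Agent.H70

/-- elements of `GL(2, ℝ)` coming from `GL(2, ℚ)` -/
def IsRatGL (α : GL (Fin 2) ℝ) : Prop :=
  ∃ β : GL (Fin 2) ℚ, α = β.map (Rat.castHom ℝ)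

theorem IsRatGL.inv {α : GL (Fin 2) ℝ} (h : IsRatGL α) : IsRatGL α⁻¹ := by
  obtain ⟨β, rfl⟩ := h
  exact ⟨β⁻¹, (map_inv _ _).symm⟩

theorem IsRatGL.mul {α β : GL (Fin 2) ℝ} (h : IsRatGL α) (h' : IsRatGL β) : IsRatGL (α * β) := by
  obtain ⟨a, rfl⟩ := h
  obtain ⟨b, rfl⟩ := h'
  exact ⟨a * b, (map_mul _ _ _).symm⟩

theorem IsRatGL.isArithmetic {α : GL (Fin 2) ℝ} (h : IsRatGL α) (Γ : Subgroup (GL (Fin 2) ℝ))
    [Γ.IsArithmetic] : (ConjAct.toConjAct α • Γ).IsArithmetic := by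
  obtain ⟨β, rfl⟩ := h
  exact Subgroup.IsArithmetic.conj Γ β

theorem petAvg_comp_smul {F : ℍ → ℂ} (hF : IsAmb F) {α : GL (Fin 2) ℝ} (hα : IsRatGL α) :
    petAvg (fun τ => F (α • τ)) = petAvg F := by
  obtain ⟨Γ, hΓ, hinv⟩ := hF.inv
  obtain ⟨φ, hφ⟩ := exists_isWeight Γ
  have := hα.inv.isArithmetic Γ
  have h1 := hφ.conj α⁻¹
  rw [petAvg_eq hφ hF.meas hinv, petAvg_eq (F := fun τ => F (α • τ)) h1
    (hF.meas.comp (measurable_const_smul α)) ?_,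
    integral_withDensity_comp_smul (μ := (volume : Measure ℍ)) h1.meas]
  · simp only [inv_inv, smul_inv_smul]
    rw [(measurePreserving_smul α (volume : Measure ℍ)).lintegral_comp hφ.meas]
  · intro γ hγ x
    rw [Subgroup.mem_pointwise_smul_iff_inv_smul_mem] at hγ
    have h2 := hinv _ hγ (α • x)
    rw [← h2]
    congr 1
    rw [← mul_smul, ← mul_smul]
    congr 1
    simp [ConjAct.smul_def]

/-- bounded automorphic functions -/
structure IsAmbB (F : ℍ → ℂ) : Prop extends IsAmb F where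
  bdd : ∃ C : ℝ, ∀ τ, ‖F τ‖ ≤ C

theorem IsWeight.isFiniteMeasure {Γ : Subgroup (GL (Fin 2) ℝ)} {φ : ℍ → ℝ≥0∞}
    (hφ : IsWeight (volume : Measure ℍ) Γ φ) :
    IsFiniteMeasure ((volume : Measure ℍ).withDensity φ) :=
  MeasureTheory.isFiniteMeasure_withDensity hφ.lintegral_ne_top

theorem IsAmbB.integrable {F : ℍ → ℂ} (hF : IsAmbB F) {Γ : Subgroup (GL (Fin 2) ℝ)} {φ : ℍ → ℝ≥0∞}
    (hφ : IsWeight (volume : Measure ℍ) Γ φ) :
    Integrable F ((volume : Measure ℍ).withDensity φ) := by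
  have := hφ.isFiniteMeasure
  obtain ⟨C, hC⟩ := hF.bdd
  exact Integrable.of_bound hF.meas.aestronglyMeasurable C (Filter.Eventually.of_forall hC)

theorem IsAmbB.exists_common {F F' : ℍ → ℂ} (hF : IsAmbB F) (hF' : IsAmbB F') :
    ∃ Γ : Subgroup (GL (Fin 2) ℝ), Γ.IsArithmetic ∧ (∀ γ ∈ Γ, ∀ τ, F (γ • τ) = F τ) ∧
      (∀ γ ∈ Γ, ∀ τ, F' (γ • τ) = F' τ) := by
  obtain ⟨Γ, hΓ, h⟩ := hF.inv
  obtain ⟨Γ', hΓ', h'⟩ := hF'.inv
  exact ⟨Γ ⊓ Γ', inferInstance, fun γ hγ => h γ hγ.1, fun γ hγ => h' γ hγ.2⟩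

theorem IsAmbB.add {F F' : ℍ → ℂ} (hF : IsAmbB F) (hF' : IsAmbB F') :
    IsAmbB (fun τ => F τ + F' τ) := by
  obtain ⟨Γ, hΓ, h, h'⟩ := hF.exists_common hF'
  obtain ⟨C, hC⟩ := hF.bdd
  obtain ⟨C', hC'⟩ := hF'.bdd
  exact ⟨⟨hF.meas.add hF'.meas, Γ, hΓ, fun γ hγ τ => by rw [h γ hγ, h' γ hγ]⟩,
    C + C', fun τ => (norm_add_le _ _).trans (add_le_add (hC τ) (hC' τ))⟩

theorem IsAmbB.const_mul {F : ℍ → ℂ} (hF : IsAmbB F) (c : ℂ) :
    IsAmbB (fun τ => c * F τ) := by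
  obtain ⟨Γ, hΓ, h⟩ := hF.inv
  obtain ⟨C, hC⟩ := hF.bdd
  exact ⟨⟨hF.meas.const_mul c, Γ, hΓ, fun γ hγ τ => by rw [h γ hγ]⟩,
    ‖c‖ * C, fun τ => by rw [norm_mul]; exact mul_le_mul_of_nonneg_left (hC τ) (norm_nonneg _)⟩

theorem petAvg_add {F F' : ℍ → ℂ} (hF : IsAmbB F) (hF' : IsAmbB F') :
    petAvg (fun τ => F τ + F' τ) = petAvg F + petAvg F' := by
  obtain ⟨Γ, hΓ, h, h'⟩ := hF.exists_common hF'
  obtain ⟨φ, hφ⟩ := exists_isWeight Γ
  rw [petAvg_eq hφ hF.meas h, petAvg_eq hφ hF'.meas h', petAvg_eq (F := fun τ => F τ + F' τ) hφ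
    (hF.meas.add hF'.meas) (fun γ hγ τ => by rw [h γ hγ, h' γ hγ]),
    integral_add (hF.integrable hφ) (hF'.integrable hφ), add_div]

theorem petAvg_const_mul {F : ℍ → ℂ} (hF : IsAmbB F) (c : ℂ) :
    petAvg (fun τ => c * F τ) = c * petAvg F := by
  obtain ⟨Γ, hΓ, h⟩ := hF.inv
  obtain ⟨φ, hφ⟩ := exists_isWeight Γ
  rw [petAvg_eq hφ hF.meas h, petAvg_eq (F := fun τ => c * F τ) hφ
    (hF.meas.const_mul c) (fun γ hγ τ => by rw [h γ hγ]), integral_const_mul, mul_div_assoc]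

theorem petAvg_conj {F : ℍ → ℂ} (hF : IsAmb F) :
    petAvg (fun τ => conj (F τ)) = conj (petAvg F) := by
  obtain ⟨Γ, hΓ, h⟩ := hF.inv
  obtain ⟨φ, hφ⟩ := exists_isWeight Γ
  rw [petAvg_eq hφ hF.meas h, petAvg_eq (F := fun τ => conj (F τ)) hφ
    (Complex.continuous_conj.measurable.comp hF.meas) (fun γ hγ τ => by rw [h γ hγ]),
    integral_conj, map_div₀, Complex.conj_ofReal]

theorem petAvg_re_nonneg {F : ℍ → ℂ} (hF : IsAmbB F) (h0 : ∀ τ, 0 ≤ (F τ).re) :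
    0 ≤ (petAvg F).re := by
  obtain ⟨Γ, hΓ, h⟩ := hF.inv
  obtain ⟨φ, hφ⟩ := exists_isWeight Γ
  rw [petAvg_eq hφ hF.meas h, Complex.div_ofReal_re]
  refine div_nonneg ?_ ENNReal.toReal_nonneg
  have h1 := integral_re (𝕜 := ℂ) (hF.integrable hφ)
  simp only [RCLike.re_eq_complex_re] at h1
  rw [← h1]
  exact integral_nonneg h0

theorem eq_zero_of_petAvg_re_eq_zero {F : ℍ → ℂ} (hF : IsAmbB F) (hc : Continuous F)
    (h0 : ∀ τ, 0 ≤ (F τ).re) (hz : (petAvg F).re = 0) (τ : ℍ) : (F τ).re = 0 := by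
  obtain ⟨Γ, hΓ, h⟩ := hF.inv
  obtain ⟨φ, hφ⟩ := exists_isWeight Γ
  rw [petAvg_eq hφ hF.meas h, Complex.div_ofReal_re, div_eq_zero_iff] at hz
  have hmass : (∫⁻ x, φ x).toReal ≠ 0 :=
    (ENNReal.toReal_pos hφ.lintegral_ne_zero hφ.lintegral_ne_top).ne'
  have h1 := integral_re (𝕜 := ℂ) (hF.integrable hφ)
  simp only [RCLike.re_eq_complex_re] at h1
  rw [← h1] at hz
  have h2 := hz.resolve_right hmass
  rw [integral_eq_zero_iff_of_nonneg h0 (hF.integrable hφ).re] at h2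
  have h3 : ∀ᵐ x : ℍ, φ x ≠ 0 → (F x).re = 0 := by
    have := (ae_withDensity_iff hφ.meas).mp h2
    simpa using this
  have h4 : ∀ᵐ x : ℍ, ∀ γ : Γ, φ ((γ : GL (Fin 2) ℝ) • x) ≠ 0 → (F x).re = 0 := by
    rw [ae_all_iff]
    intro γ
    have h5 := (measurePreserving_smul (γ : GL (Fin 2) ℝ)
      (volume : Measure ℍ)).quasiMeasurePreserving.ae h3
    filter_upwards [h5] with x hx hx'
    have := hx hx'
    rwa [h γ γ.2] at this
  have h6 : ∀ᵐ x : ℍ, (F x).re = 0 := by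
    filter_upwards [h4] with x hx
    by_contra hne
    have h7 : ∀ γ : Γ, φ ((γ : GL (Fin 2) ℝ) • x) = 0 := fun γ => by
      by_contra h8
      exact hne (hx γ h8)
    have := hφ.tsum_eq x
    simp [h7] at this
  have h9 : (fun x => (F x).re) = fun _ => 0 := by
    refine (Continuous.ae_eq_iff_eq (volume : Measure ℍ) (Complex.continuous_re.comp hc)
      continuous_const).mp ?_
    exact h6
  exact congrFun h9 τ

theorem IsAmbB.comp_smul {F : ℍ → ℂ} (hF : IsAmbB F) {α : GL (Fin 2) ℝ} (hα : IsRatGL α) :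
    IsAmbB (fun τ => F (α • τ)) := by
  obtain ⟨Γ, hΓ, hinv⟩ := hF.inv
  obtain ⟨C, hC⟩ := hF.bdd
  refine ⟨⟨hF.meas.comp (measurable_const_smul α), ConjAct.toConjAct α⁻¹ • Γ,
    hα.inv.isArithmetic Γ, fun γ hγ x => ?_⟩, C, fun τ => hC _⟩
  rw [Subgroup.mem_pointwise_smul_iff_inv_smul_mem] at hγ
  have h2 := hinv _ hγ (α • x)
  rw [← h2]
  congr 1
  rw [← mul_smul, ← mul_smul]
  congr 1
  simp [ConjAct.smul_def]

/-- Functions behaving like cusp forms of weight `k` for some arithmetic group. -/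
structure PForm (k : ℤ) (f : ℍ → ℂ) : Prop where
  cont : Continuous f
  inv : ∃ Γ : Subgroup (GL (Fin 2) ℝ), Γ.IsArithmetic ∧ Γ.HasDetOne ∧ ∀ γ ∈ Γ, f ∣[k] γ = f
  bdd : ∃ C : ℝ, ∀ τ, ‖f τ‖ ^ 2 * τ.im ^ k ≤ C

theorem PForm.exists_common {k : ℤ} {f f' : ℍ → ℂ} (hf : PForm k f) (hf' : PForm k f') :
    ∃ Γ : Subgroup (GL (Fin 2) ℝ), Γ.IsArithmetic ∧ Γ.HasDetOne ∧ (∀ γ ∈ Γ, f ∣[k] γ = f) ∧
      (∀ γ ∈ Γ, f' ∣[k] γ = f') := by
  obtain ⟨Γ, hΓ, hd, h⟩ := hf.inv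
  obtain ⟨Γ', hΓ', hd', h'⟩ := hf'.inv
  exact ⟨Γ ⊓ Γ', inferInstance, inferInstance, fun γ hγ => h γ hγ.1, fun γ hγ => h' γ hγ.2⟩

theorem norm_petersson_le {k : ℤ} (f f' : ℍ → ℂ) (τ : ℍ) :
    ‖petersson k f f' τ‖ ≤ ‖f τ‖ ^ 2 * τ.im ^ k + ‖f' τ‖ ^ 2 * τ.im ^ k := by
  have h1 : ‖petersson k f f' τ‖ = ‖f τ‖ * ‖f' τ‖ * τ.im ^ k := by
    simp [petersson, abs_of_pos τ.im_pos]
  rw [h1, ← add_mul]
  refine mul_le_mul_of_nonneg_right ?_ (zpow_nonneg τ.im_pos.le _)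
  nlinarith [sq_nonneg (‖f τ‖ - ‖f' τ‖), norm_nonneg (f τ), norm_nonneg (f' τ)]

theorem PForm.petersson {k : ℤ} {f f' : ℍ → ℂ} (hf : PForm k f) (hf' : PForm k f') :
    IsAmbB (petersson k f f') := by
  obtain ⟨Γ, hΓ, hd, h, h'⟩ := hf.exists_common hf'
  obtain ⟨C, hC⟩ := hf.bdd
  obtain ⟨C', hC'⟩ := hf'.bdd
  refine ⟨⟨(petersson_continuous k hf.cont hf'.cont).measurable, Γ, hΓ, fun γ hγ τ => ?_⟩,
    C + C', fun τ => (norm_petersson_le f f' τ).trans (add_le_add (hC τ) (hC' τ))⟩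
  have h1 := petersson_slash k f f' γ τ
  rw [h γ hγ, h' γ hγ, Subgroup.HasDetOne.det_eq hγ] at h1
  have hσ : σ γ = .refl ℝ ℂ := by
    rw [UpperHalfPlane.σ, if_pos]
    rw [Subgroup.HasDetOne.det_eq hγ]
    simp
  rw [hσ] at h1
  simpa using h1.symm

theorem σ_eq_refl {α : GL (Fin 2) ℝ} (hα : 0 < α.det.val) : σ α = .refl ℝ ℂ := by
  rw [UpperHalfPlane.σ, if_pos hα]

theorem slash_apply_of_det_pos (k : ℤ) (f : ℍ → ℂ) {α : GL (Fin 2) ℝ} (hα : 0 < α.det.val) (τ : ℍ) :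
    (f ∣[k] α) τ = f (α • τ) * (α.det.val : ℂ) ^ (k - 1) * denom α τ ^ (-k) := by
  rw [ModularForm.slash_apply, σ_eq_refl hα, abs_of_pos hα]
  rfl

theorem petersson_slash_of_det_pos (k : ℤ) (f f' : ℍ → ℂ) {α : GL (Fin 2) ℝ} (hα : 0 < α.det.val)
    (τ : ℍ) : petersson k (f ∣[k] α) (f' ∣[k] α) τ =
      (α.det.val : ℂ) ^ (k - 2) * petersson k f f' (α • τ) := by
  rw [petersson_slash, σ_eq_refl hα, abs_of_pos hα]
  rfl

theorem PForm.slash {k : ℤ} {f : ℍ → ℂ} (hf : PForm k f) {α : GL (Fin 2) ℝ} (hr : IsRatGL α)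
    (hα : 0 < α.det.val) : PForm k (f ∣[k] α) := by
  obtain ⟨Γ, hΓ, hd, h⟩ := hf.inv
  obtain ⟨C, hC⟩ := hf.bdd
  refine ⟨?_, ⟨ConjAct.toConjAct α⁻¹ • Γ, hr.inv.isArithmetic Γ, inferInstance, fun γ hγ => ?_⟩, ?_⟩
  · have h1 : (f ∣[k] α) = fun τ => f (α • τ) * (α.det.val : ℂ) ^ (k - 1) * denom α τ ^ (-k) := by
      ext τ; exact slash_apply_of_det_pos k f hα τ
    rw [h1]
    refine ((hf.cont.comp (continuous_const_smul α)).mul continuous_const).mul ?_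
    refine Continuous.zpow₀ ?_ _ (fun τ => Or.inl (denom_ne_zero α τ))
    unfold denom
    fun_prop
  · rw [Subgroup.mem_pointwise_smul_iff_inv_smul_mem] at hγ
    have h1 := h _ hγ
    have h2 : α * γ = ((ConjAct.toConjAct α⁻¹)⁻¹ • γ) * α := by
      simp [ConjAct.smul_def]
    rw [← SlashAction.slash_mul, h2, SlashAction.slash_mul, h1]
  · refine ⟨|α.det.val| ^ (k - 2) * C, fun τ => ?_⟩
    have h1 := petersson_slash k f f α τ
    have h2 := congrArg norm h1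
    rw [norm_mul, norm_zpow] at h2
    have h3 : ∀ (g : ℍ → ℂ) τ, ‖UpperHalfPlane.petersson k g g τ‖ = ‖g τ‖ ^ 2 * τ.im ^ k := by
      intro g τ
      simp [UpperHalfPlane.petersson, abs_of_pos τ.im_pos, sq]
    rw [σ_eq_refl hα] at h2
    simp only [ContinuousAlgEquiv.refl_apply] at h2
    rw [h3, h3] at h2
    rw [h2, Complex.norm_real, Real.norm_eq_abs, abs_abs]
    exact mul_le_mul_of_nonneg_left (hC _) (zpow_nonneg (abs_nonneg _) _)

theorem PForm.add {k : ℤ} {f f' : ℍ → ℂ} (hf : PForm k f) (hf' : PForm k f') : PForm k (f + f') := by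
  obtain ⟨Γ, hΓ, hd, h, h'⟩ := hf.exists_common hf'
  obtain ⟨C, hC⟩ := hf.bdd
  obtain ⟨C', hC'⟩ := hf'.bdd
  refine ⟨hf.cont.add hf'.cont, ⟨Γ, hΓ, hd, fun γ hγ => ?_⟩, 2 * C + 2 * C', fun τ => ?_⟩
  · rw [SlashAction.add_slash, h γ hγ, h' γ hγ]
  · have h1 : ‖(f + f') τ‖ ^ 2 ≤ 2 * ‖f τ‖ ^ 2 + 2 * ‖f' τ‖ ^ 2 := by
      have := norm_add_le (f τ) (f' τ)
      have h0 : 0 ≤ ‖(f + f') τ‖ := norm_nonneg _
      simp only [Pi.add_apply] at h0 ⊢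
      nlinarith [sq_nonneg (‖f τ‖ - ‖f' τ‖), norm_nonneg (f τ), norm_nonneg (f' τ)]
    have h2 : 0 ≤ τ.im ^ k := zpow_nonneg τ.im_pos.le _
    nlinarith [hC τ, hC' τ, mul_le_mul_of_nonneg_right h1 h2]

theorem PForm.const_smul {k : ℤ} {f : ℍ → ℂ} (hf : PForm k f) (c : ℂ) : PForm k (c • f) := by
  obtain ⟨Γ, hΓ, hd, h⟩ := hf.inv
  obtain ⟨C, hC⟩ := hf.bdd
  refine ⟨hf.cont.const_smul c, ⟨Γ, hΓ, hd, fun γ hγ => ?_⟩, ‖c‖ ^ 2 * C, fun τ => ?_⟩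
  · rw [ModularForm.smul_slash, h γ hγ, σ_eq_refl (by rw [Subgroup.HasDetOne.det_eq hγ]; simp)]
    rfl
  · rw [Pi.smul_apply, norm_smul, mul_pow, mul_assoc]
    exact mul_le_mul_of_nonneg_left (hC τ) (by positivity)

/-- The (normalised) Petersson product. -/
noncomputable def pip (k : ℤ) (f f' : ℍ → ℂ) : ℂ := petAvg (petersson k f f')

theorem pip_add_right {k : ℤ} {f g g' : ℍ → ℂ} (hf : PForm k f) (hg : PForm k g) (hg' : PForm k g') :
    pip k f (g + g') = pip k f g + pip k f g' := by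
  rw [pip, pip, pip, ← petAvg_add (hf.petersson hg) (hf.petersson hg')]
  congr 1
  ext τ
  simp only [petersson, Pi.add_apply]
  ring

theorem pip_smul_right {k : ℤ} {f g : ℍ → ℂ} (hf : PForm k f) (hg : PForm k g) (c : ℂ) :
    pip k f (c • g) = c * pip k f g := by
  rw [pip, pip, ← petAvg_const_mul (hf.petersson hg)]
  congr 1
  ext τ
  simp only [petersson, Pi.smul_apply, smul_eq_mul]
  ring

theorem pip_conj {k : ℤ} {f g : ℍ → ℂ} (hf : PForm k f) (hg : PForm k g) :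
    conj (pip k f g) = pip k g f := by
  rw [pip, pip, ← petAvg_conj (hf.petersson hg).toIsAmb]
  congr 1
  ext τ
  rw [petersson_symm k f g]

theorem pip_add_left {k : ℤ} {f g g' : ℍ → ℂ} (hf : PForm k f) (hg : PForm k g) (hg' : PForm k g') :
    pip k (g + g') f = pip k g f + pip k g' f := by
  rw [← pip_conj hf (hg.add hg'), pip_add_right hf hg hg', map_add, pip_conj hf hg, pip_conj hf hg']

theorem pip_smul_left {k : ℤ} {f g : ℍ → ℂ} (hf : PForm k f) (hg : PForm k g) (c : ℂ) :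
    pip k (c • g) f = conj c * pip k g f := by
  rw [← pip_conj hf (hg.const_smul c), pip_smul_right hf hg, map_mul, pip_conj hf hg]

theorem pip_slash {k : ℤ} {f g : ℍ → ℂ} (hf : PForm k f) (hg : PForm k g) {α : GL (Fin 2) ℝ}
    (hr : IsRatGL α) (hα : 0 < α.det.val) :
    pip k (f ∣[k] α) (g ∣[k] α) = (α.det.val : ℂ) ^ (k - 2) * pip k f g := by
  rw [pip, pip, ← petAvg_comp_smul (hf.petersson hg).toIsAmb hr]
  have h1 : IsAmbB (fun τ => petersson k f g (α • τ)) := (hf.petersson hg).comp_smul hr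
  rw [← petAvg_const_mul h1]
  congr 1
  ext τ
  exact petersson_slash_of_det_pos k f g hα τ

theorem pip_slash_left {k : ℤ} {f g : ℍ → ℂ} (hf : PForm k f) (hg : PForm k g) {α : GL (Fin 2) ℝ}
    (hr : IsRatGL α) (hα : 0 < α.det.val) :
    pip k (f ∣[k] α) g = (α.det.val : ℂ) ^ (k - 2) * pip k f (g ∣[k] α⁻¹) := by
  have hα' : 0 < (α⁻¹).det.val := by
    rw [map_inv, Units.val_inv_eq_inv_val]
    exact inv_pos.mpr hα
  have h1 : g = (g ∣[k] α⁻¹) ∣[k] α := by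
    rw [← SlashAction.slash_mul, inv_mul_cancel, SlashAction.slash_one]
  conv_lhs => rw [h1]
  rw [pip_slash hf (hg.slash hr.inv hα') hr hα]

theorem pip_self_re_nonneg {k : ℤ} {f : ℍ → ℂ} (hf : PForm k f) : 0 ≤ (pip k f f).re := by
  refine petAvg_re_nonneg (hf.petersson hf) fun τ => ?_
  have : petersson k f f τ = ((‖f τ‖ ^ 2 * τ.im ^ k : ℝ) : ℂ) := by
    rw [petersson, Complex.conj_mul']
    push_cast
    rfl
  rw [this, Complex.ofReal_re]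
  exact mul_nonneg (sq_nonneg _) (zpow_nonneg τ.im_pos.le _)

theorem eq_zero_of_pip_self {k : ℤ} {f : ℍ → ℂ} (hf : PForm k f) (h0 : (pip k f f).re = 0) :
    f = 0 := by
  have h1 : ∀ τ, petersson k f f τ = ((‖f τ‖ ^ 2 * τ.im ^ k : ℝ) : ℂ) := by
    intro τ
    rw [petersson, Complex.conj_mul']
    push_cast
    rfl
  ext τ
  have h2 := eq_zero_of_petAvg_re_eq_zero (hf.petersson hf)
    (petersson_continuous k hf.cont hf.cont) (fun τ => by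
      rw [h1, Complex.ofReal_re]
      exact mul_nonneg (sq_nonneg _) (zpow_nonneg τ.im_pos.le _)) h0 τ
  rw [h1, Complex.ofReal_re, mul_eq_zero] at h2
  have h3 := h2.resolve_right (zpow_pos τ.im_pos _).ne'
  simpa using h3

/-- cusp forms for arithmetic subgroups of determinant one are `PForm`s. -/
theorem pform_of_cuspForm {k : ℤ} {Γ : Subgroup (GL (Fin 2) ℝ)} [Γ.IsArithmetic] [Γ.HasDetOne]
    (f : CuspForm Γ k) : PForm k f := by
  refine ⟨(CuspFormClass.holo f).continuous, ⟨Γ, inferInstance, inferInstance,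
    fun γ hγ => SlashInvariantFormClass.slash_action_eq f γ hγ⟩, ?_⟩
  obtain ⟨C, hC⟩ := CuspFormClass.petersson_bounded_left k Γ f f
  refine ⟨C, fun τ => ?_⟩
  have h1 : petersson k f f τ = ((‖f τ‖ ^ 2 * τ.im ^ k : ℝ) : ℂ) := by
    rw [petersson, Complex.conj_mul']
    push_cast
    rfl
  have h2 := hC τ
  rw [h1, Complex.norm_real, Real.norm_of_nonneg (mul_nonneg (sq_nonneg _)
    (zpow_nonneg τ.im_pos.le _))] at h2
  exact h2

end Fermat.Agent.H70
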