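import Mathlib
import Fermat.Agent.H70PetForm
import Fermat.Prelude.Def_CuspForm_HeckeAlgebra

/-!
Self-adjointness of the Hecke operators `T_p`, `p ∤ N`, for the Petersson product.
-/

set_option autoImplicit false

open MeasureTheory UpperHalfPlane ModularGroup
open scoped ENNReal Pointwise MatrixGroups Modular ModularForm ComplexConjugate

namespace Fermat.Agent.H70

open ModularForm

theorem isRatGL_upperTriangularGL (a b d : ℚ) (h : (a : ℝ) * d ≠ 0) :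
    IsRatGL (upperTriangularGL a b d h) := by
  have h' : (!![a, b; 0, d] : Matrix (Fin 2) (Fin 2) ℚ).det ≠ 0 := by
    rw [Matrix.det_fin_two_of]
    intro h0
    apply h
    have : (a : ℚ) * d = 0 := by linarith
    exact_mod_cast this
  refine ⟨Matrix.GeneralLinearGroup.mkOfDetNeZero !![a, b; 0, d] h', ?_⟩
  apply Units.ext
  ext i j
  fin_cases i <;> fin_cases j <;> simp [upperTriangularGL, Matrix.GeneralLinearGroup.mkOfDetNeZero]

theorem isRatGL_heckeMatrix (p j : ℕ) (hp : p ≠ 0) : IsRatGL (heckeMatrix p j) := by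
  rw [heckeMatrix, dif_neg hp]
  have := isRatGL_upperTriangularGL 1 j p (by push_cast; rw [one_mul]; exact_mod_cast hp)
  convert this using 2 <;> simp

theorem isRatGL_heckeDiagMatrix (p : ℕ) (hp : p ≠ 0) : IsRatGL (heckeDiagMatrix p) := by
  rw [heckeDiagMatrix, dif_neg hp]
  have := isRatGL_upperTriangularGL p 0 1 (by push_cast; rw [mul_one]; exact_mod_cast hp)
  convert this using 2 <;> simp

theorem isRatGL_mapGL (g : SL(2, ℤ)) :
    IsRatGL (Matrix.SpecialLinearGroup.mapGL ℝ g) := by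
  refine ⟨Matrix.SpecialLinearGroup.mapGL ℚ g, ?_⟩
  apply Units.ext
  ext i j
  simp

theorem isRatGL_of_mem {N : ℕ} {γ : GL (Fin 2) ℝ}
    (hγ : γ ∈ (CongruenceSubgroup.Gamma0 N : Subgroup (GL (Fin 2) ℝ))) : IsRatGL γ := by
  obtain ⟨g, -, rfl⟩ := hγ
  exact isRatGL_mapGL g

theorem det_of_mem {N : ℕ} {γ : GL (Fin 2) ℝ}
    (hγ : γ ∈ (CongruenceSubgroup.Gamma0 N : Subgroup (GL (Fin 2) ℝ))) : γ.det.val = 1 := by
  obtain ⟨g, -, rfl⟩ := hγ
  simp

/-- Double coset invariance. -/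
theorem pip_slash_doubleCoset {N : ℕ} {k : ℤ} {f g : ℍ → ℂ} (hf : PForm k f) (hg : PForm k g)
    (hfi : ∀ γ ∈ (CongruenceSubgroup.Gamma0 N : Subgroup (GL (Fin 2) ℝ)), f ∣[k] γ = f)
    (hgi : ∀ γ ∈ (CongruenceSubgroup.Gamma0 N : Subgroup (GL (Fin 2) ℝ)), g ∣[k] γ = g)
    {α γ₁ γ₂ : GL (Fin 2) ℝ} (hr : IsRatGL α) (hα : 0 < α.det.val)
    (h₁ : γ₁ ∈ (CongruenceSubgroup.Gamma0 N : Subgroup (GL (Fin 2) ℝ)))
    (h₂ : γ₂ ∈ (CongruenceSubgroup.Gamma0 N : Subgroup (GL (Fin 2) ℝ))) :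
    pip k (f ∣[k] (γ₁ * α * γ₂)) g = pip k (f ∣[k] α) g := by
  have hd : 0 < γ₂.det.val := by rw [det_of_mem h₂]; exact one_pos
  rw [SlashAction.slash_mul, SlashAction.slash_mul, hfi _ h₁]
  conv_lhs => rw [← hgi γ₂ h₂]
  rw [pip_slash (hf.slash hr hα) hg (isRatGL_of_mem h₂) hd, det_of_mem h₂]
  simp

theorem mapGL_val_apply (g : SL(2, ℤ)) (i j : Fin 2) :
    ((Matrix.SpecialLinearGroup.mapGL ℝ g : GL (Fin 2) ℝ) : Matrix (Fin 2) (Fin 2) ℝ) i j =
      ((g.1 i j : ℤ) : ℝ) := rfl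

theorem exists_decomp_heckeMatrix {p : ℕ} (hp : p ≠ 0) (j N : ℕ) :
    ∃ γ₂ ∈ (CongruenceSubgroup.Gamma0 N : Subgroup (GL (Fin 2) ℝ)),
      heckeMatrix p j = 1 * heckeMatrix p 0 * γ₂ := by
  let g : SL(2, ℤ) := ⟨!![1, (j : ℤ); 0, 1], by rw [Matrix.det_fin_two_of]; ring⟩
  have hg : g ∈ CongruenceSubgroup.Gamma0 N := by
    rw [CongruenceSubgroup.Gamma0_mem]
    simp [g]
  refine ⟨Matrix.SpecialLinearGroup.mapGL ℝ g, ⟨g, hg, rfl⟩, ?_⟩
  apply Units.ext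
  rw [one_mul, Units.val_mul, val_heckeMatrix hp, val_heckeMatrix hp]
  ext a b
  fin_cases a <;> fin_cases b <;>
    simp only [Matrix.mul_apply, Fin.sum_univ_two, mapGL_val_apply] <;> simp [g]

theorem exists_decomp_heckeDiagMatrix {p : ℕ} (hp : p.Prime) {N : ℕ} (hpN : ¬ p ∣ N) :
    ∃ γ₁ ∈ (CongruenceSubgroup.Gamma0 N : Subgroup (GL (Fin 2) ℝ)),
    ∃ γ₂ ∈ (CongruenceSubgroup.Gamma0 N : Subgroup (GL (Fin 2) ℝ)),
      heckeDiagMatrix p = γ₁ * heckeMatrix p 0 * γ₂ := by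
  have hco : IsCoprime (p : ℤ) (N : ℤ) := by
    rw [Nat.isCoprime_iff_coprime]
    exact (Nat.Prime.coprime_iff_not_dvd hp).mpr hpN
  obtain ⟨m, n, hmn⟩ := hco
  let g₁ : SL(2, ℤ) := ⟨!![m, -n; (N : ℤ), p], by rw [Matrix.det_fin_two_of]; linarith⟩
  let g₂ : SL(2, ℤ) := ⟨!![m * p, -n; (N : ℤ), 1], by rw [Matrix.det_fin_two_of]; linarith⟩
  have h1 : g₁ ∈ CongruenceSubgroup.Gamma0 N := by
    rw [CongruenceSubgroup.Gamma0_mem]
    simp [g₁]
  have h2 : g₂ ∈ CongruenceSubgroup.Gamma0 N := by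
    rw [CongruenceSubgroup.Gamma0_mem]
    simp [g₂]
  refine ⟨(Matrix.SpecialLinearGroup.mapGL ℝ g₁)⁻¹, inv_mem ⟨g₁, h1, rfl⟩,
    Matrix.SpecialLinearGroup.mapGL ℝ g₂, ⟨g₂, h2, rfl⟩, ?_⟩
  rw [mul_assoc, eq_inv_mul_iff_mul_eq]
  apply Units.ext
  rw [Units.val_mul, Units.val_mul, val_heckeDiagMatrix hp.ne_zero, val_heckeMatrix hp.ne_zero]
  ext a b
  fin_cases a <;> fin_cases b <;>
    simp only [Matrix.mul_apply, Fin.sum_univ_two, mapGL_val_apply] <;>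
    simp [g₁, g₂, mul_comm]

/-- slashing by a scalar matrix. -/
theorem slash_scalar (k : ℤ) {p : ℕ} (hp : p ≠ 0) (f : ℍ → ℂ) (h : (p : ℝ) * p ≠ 0) :
    f ∣[k] (upperTriangularGL p 0 p h) = ((p : ℂ) ^ (k - 2)) • f := by
  have hp' : (p : ℂ) ≠ 0 := by exact_mod_cast hp
  have hdet : (upperTriangularGL (p : ℝ) 0 p h).det.val = (p : ℝ) * p := by
    rw [Matrix.GeneralLinearGroup.val_det_apply, val_upperTriangularGL, Matrix.det_fin_two_of]
    ring
  have hpos : 0 < (upperTriangularGL (p : ℝ) 0 p h).det.val := by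
    rw [hdet]; exact mul_self_pos.mpr (by exact_mod_cast hp)
  ext τ
  rw [slash_apply_of_det_pos k f hpos, hdet]
  have hden : denom (upperTriangularGL (p : ℝ) 0 p h) τ = p := by
    simp [denom]
  have hsm : (upperTriangularGL (p : ℝ) 0 p h) • τ = τ := by
    apply UpperHalfPlane.ext
    rw [UpperHalfPlane.coe_smul_of_det_pos hpos]
    simp [num, denom, hp']
  rw [hden, hsm, Pi.smul_apply, smul_eq_mul]
  push_cast
  rw [mul_zpow, mul_assoc, ← zpow_add₀ hp', ← zpow_add₀ hp', mul_comm]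
  congr 2
  ring

theorem heckeDiagMatrix_eq {p : ℕ} (hp : p ≠ 0) (h : (p : ℝ) * p ≠ 0) :
    heckeDiagMatrix p = (heckeMatrix p 0)⁻¹ * upperTriangularGL p 0 p h := by
  rw [eq_inv_mul_iff_mul_eq]
  apply Units.ext
  rw [Units.val_mul, val_heckeDiagMatrix hp, val_heckeMatrix hp, val_upperTriangularGL]
  ext a b
  fin_cases a <;> fin_cases b <;>
    simp [Matrix.mul_apply, Fin.sum_univ_two]

section Hecke

variable {N : ℕ} {k : ℤ} {p : ℕ} {f g : ℍ → ℂ}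

theorem pip_slash_heckeMatrix (hf : PForm k f) (hg : PForm k g)
    (hfi : ∀ γ ∈ (CongruenceSubgroup.Gamma0 N : Subgroup (GL (Fin 2) ℝ)), f ∣[k] γ = f)
    (hgi : ∀ γ ∈ (CongruenceSubgroup.Gamma0 N : Subgroup (GL (Fin 2) ℝ)), g ∣[k] γ = g)
    (hp : p ≠ 0) (j : ℕ) :
    pip k (f ∣[k] heckeMatrix p j) g = pip k (f ∣[k] heckeMatrix p 0) g := by
  obtain ⟨γ₂, h₂, he⟩ := exists_decomp_heckeMatrix hp j N
  rw [he]
  exact pip_slash_doubleCoset hf hg hfi hgi (isRatGL_heckeMatrix p 0 hp) (det_heckeMatrix_pos p 0)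
    (one_mem _) h₂

theorem pip_slash_heckeDiagMatrix (hf : PForm k f) (hg : PForm k g)
    (hfi : ∀ γ ∈ (CongruenceSubgroup.Gamma0 N : Subgroup (GL (Fin 2) ℝ)), f ∣[k] γ = f)
    (hgi : ∀ γ ∈ (CongruenceSubgroup.Gamma0 N : Subgroup (GL (Fin 2) ℝ)), g ∣[k] γ = g)
    (hp : p.Prime) (hpN : ¬ p ∣ N) :
    pip k (f ∣[k] heckeDiagMatrix p) g = pip k (f ∣[k] heckeMatrix p 0) g := by
  obtain ⟨γ₁, h₁, γ₂, h₂, he⟩ := exists_decomp_heckeDiagMatrix hp hpN
  rw [he]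
  exact pip_slash_doubleCoset hf hg hfi hgi (isRatGL_heckeMatrix p 0 hp.ne_zero)
    (det_heckeMatrix_pos p 0) h₁ h₂

theorem pip_slash_heckeMatrix_adjoint (hf : PForm k f) (hg : PForm k g) (hp : p ≠ 0) :
    pip k (f ∣[k] heckeMatrix p 0) g = pip k f (g ∣[k] heckeDiagMatrix p) := by
  have hpp : (p : ℝ) * p ≠ 0 := mul_ne_zero (by exact_mod_cast hp) (by exact_mod_cast hp)
  have hr := isRatGL_heckeMatrix p 0 hp
  have hd := det_heckeMatrix_pos p 0
  have hd' : 0 < ((heckeMatrix p 0)⁻¹).det.val := by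
    rw [map_inv, Units.val_inv_eq_inv_val]
    exact inv_pos.mpr hd
  rw [pip_slash_left hf hg hr hd, heckeDiagMatrix_eq hp hpp, SlashAction.slash_mul,
    slash_scalar k hp, pip_smul_right hf (hg.slash hr.inv hd'), det_heckeMatrix hp]
  simp

theorem PForm.sum {ι : Type*} (s : Finset ι) {F : ι → ℍ → ℂ} (h : ∀ i ∈ s, PForm k (F i))
    (h0 : PForm k (0 : ℍ → ℂ)) : PForm k (∑ i ∈ s, F i) := by
  classical
  induction s using Finset.induction_on with
  | empty => simpa using h0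
  | insert a s ha ih =>
    rw [Finset.sum_insert ha]
    exact (h a (Finset.mem_insert_self _ _)).add (ih fun i hi => h i (Finset.mem_insert_of_mem hi))

theorem pip_sum_left {ι : Type*} (s : Finset ι) {F : ι → ℍ → ℂ} (h : ∀ i ∈ s, PForm k (F i))
    (h0 : PForm k (0 : ℍ → ℂ)) (hg : PForm k g) :
    pip k (∑ i ∈ s, F i) g = ∑ i ∈ s, pip k (F i) g := by
  classical
  induction s using Finset.induction_on with
  | empty =>
    simp only [Finset.sum_empty]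
    have := pip_smul_left hg h0 0
    simpa using this
  | insert a s ha ih =>
    rw [Finset.sum_insert ha, Finset.sum_insert ha, pip_add_left hg (h a (Finset.mem_insert_self _ _))
      (PForm.sum s (fun i hi => h i (Finset.mem_insert_of_mem hi)) h0),
      ih fun i hi => h i (Finset.mem_insert_of_mem hi)]

theorem PForm.zero_of (hf : PForm k f) : PForm k (0 : ℍ → ℂ) := by
  have := hf.const_smul 0
  simpa using this

theorem PForm.heckeT (hf : PForm k f) (hp : p ≠ 0) : PForm k (heckeT k p f) := by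
  rw [ModularForm.heckeT_def]
  exact (PForm.sum _ (fun j _ => hf.slash (isRatGL_heckeMatrix p j hp) (det_heckeMatrix_pos p j))
    hf.zero_of).add (hf.slash (isRatGL_heckeDiagMatrix p hp) (det_heckeDiagMatrix_pos p))

theorem pip_heckeT_left (hf : PForm k f) (hg : PForm k g)
    (hfi : ∀ γ ∈ (CongruenceSubgroup.Gamma0 N : Subgroup (GL (Fin 2) ℝ)), f ∣[k] γ = f)
    (hgi : ∀ γ ∈ (CongruenceSubgroup.Gamma0 N : Subgroup (GL (Fin 2) ℝ)), g ∣[k] γ = g)
    (hp : p.Prime) (hpN : ¬ p ∣ N) :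
    pip k (heckeT k p f) g = (p + 1) * pip k (f ∣[k] heckeMatrix p 0) g := by
  rw [heckeT_def, pip_add_left hg (PForm.sum _ (fun j _ => hf.slash
    (isRatGL_heckeMatrix p j hp.ne_zero) (det_heckeMatrix_pos p j)) hf.zero_of)
    (hf.slash (isRatGL_heckeDiagMatrix p hp.ne_zero) (det_heckeDiagMatrix_pos p)),
    pip_sum_left _ (fun j _ => hf.slash (isRatGL_heckeMatrix p j hp.ne_zero)
      (det_heckeMatrix_pos p j)) hf.zero_of hg, pip_slash_heckeDiagMatrix hf hg hfi hgi hp hpN,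
    Finset.sum_congr rfl fun j _ => pip_slash_heckeMatrix hf hg hfi hgi hp.ne_zero j,
    Finset.sum_const, Finset.card_range, nsmul_eq_mul]
  ring

/-- Self-adjointness of `T_p`. -/
theorem pip_heckeT_symm (hf : PForm k f) (hg : PForm k g)
    (hfi : ∀ γ ∈ (CongruenceSubgroup.Gamma0 N : Subgroup (GL (Fin 2) ℝ)), f ∣[k] γ = f)
    (hgi : ∀ γ ∈ (CongruenceSubgroup.Gamma0 N : Subgroup (GL (Fin 2) ℝ)), g ∣[k] γ = g)
    (hp : p.Prime) (hpN : ¬ p ∣ N) :
    pip k (heckeT k p f) g = pip k f (heckeT k p g) := by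
  rw [pip_heckeT_left hf hg hfi hgi hp hpN, ← pip_conj (hg.heckeT hp.ne_zero) hf,
    pip_heckeT_left hg hf hgi hfi hp hpN, map_mul,
    pip_conj (hg.slash (isRatGL_heckeMatrix p 0 hp.ne_zero) (det_heckeMatrix_pos p 0)) hf,
    pip_slash_heckeMatrix_adjoint hf hg hp.ne_zero]
  rw [← pip_conj (hg.slash (isRatGL_heckeDiagMatrix p hp.ne_zero) (det_heckeDiagMatrix_pos p)) hf,
    pip_slash_heckeDiagMatrix hg hf hgi hfi hp hpN,
    pip_conj (hg.slash (isRatGL_heckeMatrix p 0 hp.ne_zero) (det_heckeMatrix_pos p 0)) hf]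
  simp

end Hecke

end Fermat.Agent.H70
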