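import Mathlib
import Fermat.Agent.H70PetHecke
import Fermat.Agent.H49HeckeBasic

/-!
Consequences of the Petersson product: semisimplicity of the Hecke operators away from the level,
reducedness of the Hecke algebra.
-/

set_option autoImplicit false

open MeasureTheory UpperHalfPlane ModularGroup
open scoped ENNReal Pointwise MatrixGroups Modular ModularForm ComplexConjugate

namespace Fermat.Agent.H70

variable {N : ℕ} [NeZero N] {k : ℤ}

theorem pform (f : CuspForm (CongruenceSubgroup.Gamma0 N) k) : PForm k f :=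
  pform_of_cuspForm f

omit [NeZero N] in
theorem slash_inv (f : CuspForm (CongruenceSubgroup.Gamma0 N) k) :
    ∀ γ ∈ (CongruenceSubgroup.Gamma0 N : Subgroup (GL (Fin 2) ℝ)), (f : ℍ → ℂ) ∣[k] γ = f :=
  fun γ hγ => SlashInvariantFormClass.slash_action_eq f γ hγ

/-- The Petersson inner product on cusp forms for `Γ₀(N)`. -/
@[reducible] noncomputable def petCore (N : ℕ) [NeZero N] (k : ℤ) :
    InnerProductSpace.Core ℂ (CuspForm (CongruenceSubgroup.Gamma0 N) k) where
  inner f g := pip k f g
  conj_inner_symm f g := pip_conj (pform g) (pform f)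
  re_inner_nonneg f := pip_self_re_nonneg (pform f)
  add_left f g h := by
    rw [FunLike.coe_add]
    exact pip_add_left (pform h) (pform f) (pform g)
  smul_left f g c := by
    rw [FunLike.coe_smul]
    exact pip_smul_left (pform g) (pform f) c
  definite f h := by
    have := eq_zero_of_pip_self (pform f) (by rw [h]; rfl)
    exact DFunLike.coe_injective this

theorem inner_heckeTLin {p : ℕ} (hp : p.Prime) (hpN : ¬ p ∣ N)
    (f g : CuspForm (CongruenceSubgroup.Gamma0 N) k) :
    pip k (CuspForm.heckeTLin k hp hpN f) g = pip k f (CuspForm.heckeTLin k hp hpN g) :=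
  pip_heckeT_symm (pform f) (pform g) (slash_inv f) (slash_inv g) hp hpN

/-- Every element of the Hecke algebra away from the level is self-adjoint. -/
theorem pip_symm_of_mem_heckeAlgebra {S : Set ℕ} (hS : ∀ q : ℕ, q.Prime → q ∣ N → q ∈ S)
    {t : Module.End ℂ (CuspForm (CongruenceSubgroup.Gamma0 N) k)}
    (ht : t ∈ CuspForm.heckeAlgebra N k S) (f g : CuspForm (CongruenceSubgroup.Gamma0 N) k) :
    pip k (t f) g = pip k f (t g) := by
  have hcomm : ∀ s t : CuspForm.heckeAlgebra N k S, s * t = t * s := fun s t => mul_comm s t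
  induction ht using Algebra.adjoin_induction generalizing f g with
  | mem x hx =>
    rcases hx with ⟨ℓ, hℓ, hℓN, -, rfl⟩ | ⟨q, hqN, hq, hqS, rfl⟩
    · exact inner_heckeTLin hℓ hℓN f g
    · exact absurd (hS q hq hqN) hqS
  | algebraMap n =>
    have h1 : ∀ f : CuspForm (CongruenceSubgroup.Gamma0 N) k,
        (algebraMap ℤ (Module.End ℂ (CuspForm (CongruenceSubgroup.Gamma0 N) k)) n) f =
          ((n : ℂ)) • f := by
      intro f
      rw [Module.algebraMap_end_apply, Int.cast_smul_eq_zsmul]
    rw [h1, h1, FunLike.coe_smul, FunLike.coe_smul,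
      pip_smul_left (pform g) (pform f), pip_smul_right (pform f) (pform g)]
    simp
  | add x y hx hy ihx ihy =>
    rw [LinearMap.add_apply, LinearMap.add_apply, FunLike.coe_add, FunLike.coe_add,
      pip_add_left (pform g) (pform _) (pform _), pip_add_right (pform f) (pform _) (pform _),
      ihx, ihy]
  | mul x y hx hy ihx ihy =>
    have h1 : x * y = y * x := congrArg Subtype.val (hcomm ⟨x, hx⟩ ⟨y, hy⟩)
    conv_rhs => rw [h1]
    rw [Module.End.mul_apply, Module.End.mul_apply, ihx, ihy]

/-- The Hecke algebra away from the level is reduced. -/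
theorem isReduced_heckeAlgebra {S : Set ℕ} (hS : ∀ q : ℕ, q.Prime → q ∣ N → q ∈ S) :
    IsReduced (CuspForm.heckeAlgebra N k S) := by
  rw [isReduced_iff_pow_one_lt 2 one_lt_two]
  intro t ht
  apply Subtype.ext
  apply LinearMap.ext
  intro f
  have h1 : pip k ((t : Module.End ℂ (CuspForm (CongruenceSubgroup.Gamma0 N) k)) f)
      ((t : Module.End ℂ (CuspForm (CongruenceSubgroup.Gamma0 N) k)) f) = 0 := by
    rw [pip_symm_of_mem_heckeAlgebra hS t.2, ← Module.End.mul_apply]
    have h2 : (t : Module.End ℂ (CuspForm (CongruenceSubgroup.Gamma0 N) k)) * t = 0 := by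
      have := congrArg Subtype.val ht
      simpa [sq] using this
    rw [h2]
    have := pip_smul_right (pform f) (pform f) 0
    simpa using this
  have h2 := eq_zero_of_pip_self (pform _) (by rw [h1]; rfl)
  exact DFunLike.coe_injective h2

section Eigen

attribute [local instance] H49.finiteDimensional_cuspForm

/-- A linear endomorphism is Petersson self-adjoint. -/
def IsPetSymm (t : Module.End ℂ (CuspForm (CongruenceSubgroup.Gamma0 N) k)) : Prop :=
  ∀ f g : CuspForm (CongruenceSubgroup.Gamma0 N) k, pip k (t f) g = pip k f (t g)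

/-- joint diagonalisation of a commuting family of Petersson self-adjoint operators. -/
theorem iSup_iInf_eigenspace_eq_top {ι : Type*}
    {t : ι → Module.End ℂ (CuspForm (CongruenceSubgroup.Gamma0 N) k)}
    (hs : ∀ i, IsPetSymm (t i)) (hc : ∀ i j, Commute (t i) (t j)) :
    ⨆ χ : ι → ℂ, ⨅ i, Module.End.eigenspace (t i) (χ i) = ⊤ := by
  let c := petCore N k
  let : NormedAddCommGroup (CuspForm (CongruenceSubgroup.Gamma0 N) k) := c.toNormedAddCommGroup
  let : InnerProductSpace ℂ (CuspForm (CongruenceSubgroup.Gamma0 N) k) :=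
    InnerProductSpace.ofCore c.toCore
  exact LinearMap.IsSymmetric.iSup_iInf_eq_top_of_commute (T := t) (fun i => hs i)
    (fun i j _ => hc i j)

theorem isSemisimple_of_isPetSymm {t : Module.End ℂ (CuspForm (CongruenceSubgroup.Gamma0 N) k)}
    (hs : IsPetSymm t) : t.IsSemisimple := by
  let c := petCore N k
  let : NormedAddCommGroup (CuspForm (CongruenceSubgroup.Gamma0 N) k) := c.toNormedAddCommGroup
  let : InnerProductSpace ℂ (CuspForm (CongruenceSubgroup.Gamma0 N) k) :=
    InnerProductSpace.ofCore c.toCore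
  have h : LinearMap.IsSymmetric (𝕜 := ℂ) t := fun f g => hs f g
  exact (Module.End.isFinitelySemisimple_iff_isSemisimple).mp h.isFinitelySemisimple

theorem isPetSymm_of_mem_heckeAlgebra {S : Set ℕ} (hS : ∀ q : ℕ, q.Prime → q ∣ N → q ∈ S)
    {t : Module.End ℂ (CuspForm (CongruenceSubgroup.Gamma0 N) k)}
    (ht : t ∈ CuspForm.heckeAlgebra N k S) : IsPetSymm t :=
  fun f g => pip_symm_of_mem_heckeAlgebra hS ht f g

theorem isSemisimple_of_mem_heckeAlgebra {S : Set ℕ} (hS : ∀ q : ℕ, q.Prime → q ∣ N → q ∈ S)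
    {t : Module.End ℂ (CuspForm (CongruenceSubgroup.Gamma0 N) k)}
    (ht : t ∈ CuspForm.heckeAlgebra N k S) : t.IsSemisimple :=
  isSemisimple_of_isPetSymm (isPetSymm_of_mem_heckeAlgebra hS ht)

/-- The cusp forms are spanned by simultaneous eigenforms for the Hecke algebra away from the
level. -/
theorem iSup_iInf_eigenspace_heckeAlgebra {S : Set ℕ} (hS : ∀ q : ℕ, q.Prime → q ∣ N → q ∈ S) :
    ⨆ χ : CuspForm.heckeAlgebra N k S → ℂ, ⨅ t : CuspForm.heckeAlgebra N k S,
      Module.End.eigenspace
        (t : Module.End ℂ (CuspForm (CongruenceSubgroup.Gamma0 N) k)) (χ t) = ⊤ :=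
  iSup_iInf_eigenspace_eq_top (fun t => isPetSymm_of_mem_heckeAlgebra hS t.2)
    (fun s t => congrArg Subtype.val (mul_comm s t))

/-- Eigenvalues of Petersson self-adjoint operators are real. -/
theorem conj_eq_of_eigenvector {t : Module.End ℂ (CuspForm (CongruenceSubgroup.Gamma0 N) k)}
    (hs : IsPetSymm t) {f : CuspForm (CongruenceSubgroup.Gamma0 N) k} (hf : f ≠ 0) {c : ℂ}
    (hc : t f = c • f) : conj c = c := by
  have h1 := hs f f
  rw [hc, FunLike.coe_smul, pip_smul_left (pform f) (pform f),
    pip_smul_right (pform f) (pform f)] at h1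
  refine mul_right_cancel₀ (fun h0 => hf ?_) h1
  exact DFunLike.coe_injective (eq_zero_of_pip_self (pform f) (by rw [h0]; rfl))

end Eigen

end Fermat.Agent.H70
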