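import Fermat.Agent.H33Patch
import Fermat.Agent.H33Cyclo
import Fermat.Agent.H33Points
import Fermat.Agent.H86DensityFinal
import Fermat.Agent.H86DensityRep
import Fermat.Agent.H70PetSpace
import Fermat.Agent.S22
import Fermat.Prelude.Def_CuspForm_HeckeGaloisRepDatum

/-!
# Reduction of S33 to points (helper33)

For a `HeckeGaloisRepDatum` with `S` containing all primes dividing the level:
* the points `T → K` (`K` algebraically closed containing `𝒪`) are jointly injective;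
* `H.ρ` has cyclotomic determinant;
* `H.ρ` is ordinary at `p` as soon as for each point `ψ : T → K` the space `K ⊗[ψ] V` has a
  nonzero functional invariant under inertia.
-/

set_option autoImplicit false

open scoped TensorProduct
open Polynomial

namespace Fermat.Agent.H33

local notation "Qb" => AlgebraicClosure ℚ

variable {p : ℕ} {N : ℕ} [NeZero N] {S : Finset ℕ}
  {𝒪 : Type} [CommRing 𝒪] [IsDomain 𝒪] [IsDiscreteValuationRing 𝒪]
  [IsAdicComplete (IsLocalRing.maximalIdeal 𝒪) 𝒪]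
  {θ : CuspForm.heckeAlgebra N 2 (↑S : Set ℕ) →+* IsLocalRing.ResidueField 𝒪}
  {T : Type} [CommRing T] [IsLocalRing T] [IsNoetherianRing T]
  [IsAdicComplete (IsLocalRing.maximalIdeal T) T] [Algebra 𝒪 T] [IsLocalHom (algebraMap 𝒪 T)]
  [Module.Finite 𝒪 T] [Module.Free 𝒪 T]

/-- points of the Hecke ring `T` in an algebraically closed field are jointly injective. -/
theorem datum_points_jointly_injective [CharZero 𝒪]
    (hNS : ∀ q : ℕ, q.Prime → q ∣ N → q ∈ S)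
    (H : CuspForm.HeckeGaloisRepDatum N (↑S : Set ℕ) 𝒪 θ T)
    {K : Type} [Field K] [Algebra 𝒪 K] [FaithfulSMul 𝒪 K] [IsAlgClosed K]
    (t : T) (ht : ∀ ψ : T →ₐ[𝒪] K, ψ t = 0) : t = 0 := by
  have h1 : IsReduced (CuspForm.heckeAlgebra N 2 (↑S : Set ℕ)) :=
    Fermat.Agent.H70.isReduced_heckeAlgebra (fun q hq hqN => hNS q hq hqN)
  have h2 : Module.Finite ℤ (CuspForm.heckeAlgebra N 2 (↑S : Set ℕ)) :=
    Fermat.Agent.S22.result N 2 _
  exact points_jointly_injective H.π H.adjoin_range_π t ht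

/-- the determinant of `H.ρ` is cyclotomic. -/
theorem datum_detIsCyclotomic (hp : p.Prime) (hp𝒪 : (p : 𝒪) ∈ IsLocalRing.maximalIdeal 𝒪)
    (hNS : ∀ q : ℕ, q.Prime → q ∣ N → q ∈ S)
    (H : CuspForm.HeckeGaloisRepDatum N (↑S : Set ℕ) 𝒪 θ T) : H.ρ.DetIsCyclotomic p := by
  have hpT : (p : T) ∈ IsLocalRing.maximalIdeal T := by
    have : (p : T) = algebraMap 𝒪 T (p : 𝒪) := (map_natCast _ p).symm
    rw [this, IsLocalRing.mem_maximalIdeal, mem_nonunits_iff, isUnit_map_iff]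
    exact hp𝒪
  refine Fermat.Agent.H86.detIsCyclotomic_of_frobenius Fermat.Agent.H86.frobDensityFinite H.ρ hp hpT
    S ?_
  intro ℓ hℓ hℓS P hP φ hφ
  have hℓN : ¬ ℓ ∣ N := fun h => hℓS (hNS ℓ hℓ h)
  have h := H.charpoly_frob ℓ hℓ hℓN hℓS P hP φ hφ
  have hV := H.ρ.finrank_eq
  have h2 := LinearMap.det_eq_sign_charpoly_coeff (H.ρ.ρ φ)
  rw [hV, h] at h2
  simpa [coeff_X_pow] using h2

/-- **Reduction of S33 to points.** -/
theorem S33_of_functional [CharZero 𝒪]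
    (hp : p.Prime) (hp2 : p ≠ 2) (hp𝒪 : (p : 𝒪) ∈ IsLocalRing.maximalIdeal 𝒪)
    (hNS : ∀ q : ℕ, q.Prime → q ∣ N → q ∈ S)
    (H : CuspForm.HeckeGaloisRepDatum N (↑S : Set ℕ) 𝒪 θ T)
    {K : Type} [Field K] [Algebra 𝒪 K] [FaithfulSMul 𝒪 K] [IsAlgClosed K]
    (h : ∀ P : ValuationSubring Qb, P.LiesOverPrime p → ∀ ψ : T →ₐ[𝒪] K,
      letI : Algebra T K := ψ.toRingHom.toAlgebra
      ∃ (W : Type) (_ : AddCommGroup W) (_ : Module K W) (f : K ⊗[T] H.ρ.V →ₗ[K] W),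
        f ≠ 0 ∧ ∀ σ ∈ P.inertiaSubgroupIn ℚ, ∀ v, f ((H.ρ.ρ σ).baseChange K v) = f v) :
    H.ρ.IsOrdinaryAt p := by
  refine @isOrdinaryAt_of_functional T _ _ H.ρ p (T →ₐ[𝒪] K) (fun _ => K) (fun _ => inferInstance)
    (fun ψ => ψ.toRingHom.toAlgebra) (fun t ht => ?_) h ?_
  · exact datum_points_jointly_injective hNS H (K := K) t ht
  · intro P hP
    exact exists_inertia_isUnit_det H.ρ hp hp2 (datum_detIsCyclotomic hp hp𝒪 hNS H) P hP

end Fermat.Agent.H33
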