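/-
H30Type: the Galois representation of a Hecke ring is of flat type; the surjection from the
deformation ring onto `heckeLocal` in matrix form ([A3](i),(ii) of the MODLIFT assembly).
-/
import Fermat.Agent.H30Main
import Fermat.Agent.H33Reduce
import Fermat.Agent.H53Rings
import Fermat.Agent.S54

set_option autoImplicit false
set_option linter.style.haveILetI false
set_option linter.unusedSectionVars false

noncomputable section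

namespace Fermat.Agent.H30

open IsLocalRing CuspForm GaloisRep
open Fermat.Agent.H53 (GQ M2 MCont toMat mapMat FlatType)

/-- The statement of S32 (verbatim). -/
def StatementS32 : Prop :=
  ∀ {p : ℕ} {N : ℕ} [NeZero N] {S : Finset ℕ}
  {𝒪 : Type} [CommRing 𝒪] [IsDomain 𝒪] [IsDiscreteValuationRing 𝒪]
  [IsAdicComplete (IsLocalRing.maximalIdeal 𝒪) 𝒪]
  {θ : CuspForm.heckeAlgebra N 2 (↑S : Set ℕ) →+* IsLocalRing.ResidueField 𝒪}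
  {T : Type} [CommRing T] [IsLocalRing T] [IsNoetherianRing T]
  [IsAdicComplete (IsLocalRing.maximalIdeal T) T] [Algebra 𝒪 T] [IsLocalHom (algebraMap 𝒪 T)]
  [Module.Finite 𝒪 T] [Module.Free 𝒪 T]
    [Finite (IsLocalRing.ResidueField 𝒪)] [CharZero 𝒪]
    (_hp : p.Prime) (_hp2 : p ≠ 2) (_hp𝒪 : (p : 𝒪) ∈ IsLocalRing.maximalIdeal 𝒪) (_hpN : ¬ p ∣ N)
    (_hpS : p ∈ S) (_hNS : ∀ q : ℕ, q.Prime → q ∣ N → q ∈ S)
    (H : CuspForm.HeckeGaloisRepDatum N (↑S : Set ℕ) 𝒪 θ T), H.ρ.IsFlatAt p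

/-- The statement of S34 (verbatim). -/
def StatementS34 : Prop :=
    ∀ {𝒪 : Type} [CommRing 𝒪] [IsDomain 𝒪] [IsDiscreteValuationRing 𝒪]
    [IsAdicComplete (maximalIdeal 𝒪) 𝒪] [Finite (ResidueField 𝒪)] [CharZero 𝒪]
    {p : ℕ} (_hp : p.Prime) (_hp𝒪 : (p : 𝒪) ∈ maximalIdeal 𝒪)
    {N : ℕ} [NeZero N] {S : Finset ℕ} (_hpS : p ∈ S)
    (_hNS : ∀ q : ℕ, q.Prime → q ∣ N → q ∈ S)
    {θ : CuspForm.heckeAlgebra N 2 (↑S : Set ℕ) →+* ResidueField 𝒪}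
    {T : Type} [CommRing T] [IsLocalRing T] [IsNoetherianRing T]
    [IsAdicComplete (maximalIdeal T) T] [Algebra 𝒪 T] [IsLocalHom (algebraMap 𝒪 T)]
    [Module.Finite 𝒪 T] [Module.Free 𝒪 T]
    (H : CuspForm.HeckeGaloisRepDatum N (↑S : Set ℕ) 𝒪 θ T)
    (q : ℕ) (_hq : q.Prime) (_hqp : q ≠ p) (_hqN : q ∣ N) (_hq2 : ¬ q ^ 2 ∣ N),
    H.ρ.IsUnipotentOnInertiaAt q

variable {p : ℕ} [Fact p.Prime] {N : ℕ} [NeZero N] {S : Finset ℕ}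
  {𝒪 : Type} [CommRing 𝒪] [IsDomain 𝒪] [IsDiscreteValuationRing 𝒪]
  [IsAdicComplete (maximalIdeal 𝒪) 𝒪] [Finite (ResidueField 𝒪)] [CharZero 𝒪]
  {θ : heckeAlgebra N 2 (↑S : Set ℕ) →+* ResidueField 𝒪}

section Type'

variable {T : Type} [CommRing T] [IsLocalRing T] [IsNoetherianRing T]
  [IsAdicComplete (maximalIdeal T) T] [Algebra 𝒪 T] [IsLocalHom (algebraMap 𝒪 T)]
  [Module.Finite 𝒪 T] [Module.Free 𝒪 T]

/-- The representation of a Hecke datum of level prime to `p` has flat type. -/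
theorem flatType_datum (h32 : StatementS32) (h34 : StatementS34) (hp2 : p ≠ 2)
    (hp𝒪 : (p : 𝒪) ∈ maximalIdeal 𝒪) (hpS : p ∈ S) (hNS : ∀ q : ℕ, q.Prime → q ∣ N → q ∈ S)
    (hpN : ¬ p ∣ N) (H : HeckeGaloisRepDatum N (↑S : Set ℕ) 𝒪 θ T)
    (hunr : ∀ q : ℕ, q.Prime → ¬ q ∣ N → q ≠ p → H.ρ.IsUnramifiedAt q)
    (S' A : Finset ℕ) (hS' : ∀ q : ℕ, q.Prime → q ∉ S' → ¬ q ∣ N ∧ q ≠ p)
    (hA : ∀ q ∈ A, q.Prime → q ≠ p → q ∣ N ∧ ¬ q ^ 2 ∣ N) :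
    FlatType 𝒪 p S' A H.ρ :=
  ⟨⟨H33.datum_detIsCyclotomic Fact.out hp𝒪 hNS H, h32 Fact.out hp2 hp𝒪 hpN hpS hNS H,
    fun q hq hqS => hunr q hq (hS' q hq hqS).1 (hS' q hq hqS).2⟩,
    fun q hqA hq hqp => h34 Fact.out hp𝒪 hpS hNS H q hq hqp (hA q hqA hq hqp).1
      (hA q hqA hq hqp).2⟩

end Type'

/-- Transport of a basis along an equivalence of representations. -/
theorem exists_basis_of_isEquiv {A B : Type} [CommRing A] [IsLocalRing A] [CommRing B]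
    [IsLocalRing B] (φ : A →+* B) (hφ : IsLocalHom φ) (ρ : GaloisRepAdic A) (ρ' : GaloisRepAdic B)
    (h : (ρ.baseChangeAlong φ hφ).IsEquiv ρ') (b : Module.Basis (Fin 2) A ρ.V) :
    ∃ b' : Module.Basis (Fin 2) B ρ'.V, toMat ρ'.ρ b' = mapMat φ (toMat ρ.ρ b) := by
  obtain ⟨e⟩ := h
  refine ⟨(H53.bcBasis φ hφ ρ b).map e.toLinearEquiv, ?_⟩
  rw [← H53.toMat_bcBasis φ hφ ρ b]
  ext σ i j
  rw [H53.toMat_apply, H53.toMat_apply, LinearMap.toMatrix_apply, LinearMap.toMatrix_apply,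
    Module.Basis.map_apply, ← e.map_apply, Module.Basis.map_repr, LinearEquiv.trans_apply,
    LinearEquiv.symm_apply_apply]

/-- **The surjection from the deformation ring onto the Hecke ring, in matrix form.** -/
theorem exists_surjection_heckeLocal (h32 : StatementS32) (h34 : StatementS34) (hp2 : p ≠ 2)
    (hp𝒪 : (p : 𝒪) ∈ maximalIdeal 𝒪) (hpS : p ∈ S) (hNS : ∀ q : ℕ, q.Prime → q ∣ N → q ∈ S)
    (hpN : ¬ p ∣ N) (θ : heckeAlgebra N 2 (↑S : Set ℕ) →+* ResidueField 𝒪)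
    (ρbar : ResidualGaloisRep (ResidueField 𝒪)) (hirr : ρbar.IsIrreducible)
    (hfrob : ∀ (ℓ : ℕ) (hℓ : ℓ.Prime) (hℓN : ¬ ℓ ∣ N) (hℓS : ℓ ∉ (↑S : Set ℕ)),
      ∀ A : ValuationSubring (AlgebraicClosure ℚ), A.LiesOverPrime ℓ →
        ∀ σ : AlgebraicClosure ℚ ≃ₐ[ℚ] AlgebraicClosure ℚ, A.IsFrobeniusAt σ ℓ →
          LinearMap.charpoly (ρbar.ρ σ) = Polynomial.X ^ 2 -
            Polynomial.C (θ (heckeAlgebra.T hℓ hℓN hℓS)) * Polynomial.X +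
              Polynomial.C ((ℓ : ResidueField 𝒪)))
    (S' A : Finset ℕ) (hS' : ∀ q : ℕ, q.Prime → q ∉ S' → ¬ q ∣ N ∧ q ≠ p)
    (hA : ∀ q ∈ A, q.Prime → q ≠ p → q ∣ N ∧ ¬ q ^ 2 ∣ N)
    (D : DeformationRingData 𝒪 ρbar (FlatType 𝒪 p S' A))
    (b₁ : Module.Basis (Fin 2) D.R D.ρ.V) :
    ∃ (H : HeckeGaloisRepDatum N (↑S : Set ℕ) 𝒪 θ (heckeLocal N (↑S : Set ℕ) 𝒪 θ))
      (π : D.R →ₐ[𝒪] heckeLocal N (↑S : Set ℕ) 𝒪 θ)
      (b₂ : Module.Basis (Fin 2) (heckeLocal N (↑S : Set ℕ) 𝒪 θ) H.ρ.V),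
      H.π = heckeLocal.π N (↑S : Set ℕ) 𝒪 θ ∧ Function.Surjective π ∧
      toMat H.ρ.ρ b₂ = mapMat (π : D.R →+* heckeLocal N (↑S : Set ℕ) 𝒪 θ) (toMat D.ρ.ρ b₁) ∧
      (∀ q : ℕ, q.Prime → ¬ q ∣ N → q ≠ p → H.ρ.IsUnramifiedAt q) := by
  obtain ⟨H, hπ, hres, hunr⟩ := exists_heckeDatum hp2 N S hpS hNS 𝒪 hp𝒪 θ ρbar hirr hfrob
  obtain ⟨π, hsurj, hφ, heq⟩ := S54.result D H (fun q hq hqN => by simpa using hNS q hq hqN)
    (flatType_datum h32 h34 hp2 hp𝒪 hpS hNS hpN H hunr S' A hS' hA) hres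
  obtain ⟨b₂, hb₂⟩ := exists_basis_of_isEquiv (π : D.R →+* heckeLocal N (↑S : Set ℕ) 𝒪 θ) hφ
    D.ρ H.ρ heq b₁
  exact ⟨H, π, b₂, hπ, hsurj, hb₂, hunr⟩

/-- Traces and determinants at Frobenius elements of the universal representation. -/
theorem trace_det_frob {H : HeckeGaloisRepDatum N (↑S : Set ℕ) 𝒪 θ (heckeLocal N (↑S : Set ℕ) 𝒪 θ)}
    (hπ : H.π = heckeLocal.π N (↑S : Set ℕ) 𝒪 θ)
    (b₂ : Module.Basis (Fin 2) (heckeLocal N (↑S : Set ℕ) 𝒪 θ) H.ρ.V)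
    {ℓ : ℕ} (hℓ : ℓ.Prime) (hℓN : ¬ ℓ ∣ N) (hℓS : ℓ ∉ (↑S : Set ℕ))
    {A : ValuationSubring (AlgebraicClosure ℚ)} (hA : A.LiesOverPrime ℓ)
    {σ : AlgebraicClosure ℚ ≃ₐ[ℚ] AlgebraicClosure ℚ} (hσ : A.IsFrobeniusAt σ ℓ) :
    (toMat H.ρ.ρ b₂ σ).trace = heckeLocal.π N (↑S : Set ℕ) 𝒪 θ (heckeAlgebra.T hℓ hℓN hℓS) ∧
    (toMat H.ρ.ρ b₂ σ).det = ℓ := by
  have h := H.charpoly_frob ℓ hℓ hℓN hℓS A hA σ hσ
  constructor
  · have h2 := H31.trace_eq_of_charpoly H.ρ.finrank_eq _ _ _ h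
    rw [LinearMap.trace_eq_matrix_trace _ b₂, hπ] at h2
    exact h2
  · have h2 := H31.det_eq_of_charpoly H.ρ.finrank_eq _ _ _ h
    rw [← LinearMap.det_toMatrix b₂] at h2
    exact h2

/-- `heckeLocal` is reduced when all primes dividing the level are omitted. -/
theorem isReduced_heckeLocal (hNS : ∀ q : ℕ, q.Prime → q ∣ N → q ∈ S)
    (θ : heckeAlgebra N 2 (↑S : Set ℕ) →+* ResidueField 𝒪) :
    IsReduced (heckeLocal N (↑S : Set ℕ) 𝒪 θ) :=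
  H70.isReduced_of_adjoin_heckeAlgebra (S := (↑S : Set ℕ))
    (fun q hq hqN => by simpa using hNS q hq hqN) (heckeLocal.π N (↑S : Set ℕ) 𝒪 θ)
    (adjoin_range_π N (↑S : Set ℕ) 𝒪 θ)

end Fermat.Agent.H30
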