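import Fermat.Agent.H53Rings
import Fermat.Prelude.Thm_IsAdicComplete_of_module_finite

set_option autoImplicit false
set_option linter.style.haveILetI false
set_option linter.unusedSectionVars false

/-!
# Deformation rings in matrix form
-/

noncomputable section

open scoped TensorProduct
open IsLocalRing GaloisRep

namespace Fermat.Agent.H53

section

variable {𝒪 : Type} [CommRing 𝒪] [IsLocalRing 𝒪]
  {𝒟 : ∀ ⦃A : Type⦄ [CommRing A] [IsLocalRing A] [Algebra 𝒪 A], GaloisRepAdic A → Prop}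

/-- base change in steps -/
lemma bc_bc_isEquiv {A B C : Type} [CommRing A] [IsLocalRing A] [CommRing B] [IsLocalRing B]
    [CommRing C] [IsLocalRing C] (f : A →+* B) (hf : IsLocalHom f) (g : B →+* C)
    (hg : IsLocalHom g) (hgf : IsLocalHom (g.comp f)) (ρ : GaloisRepAdic A) :
    (ρ.baseChangeAlong (g.comp f) hgf).IsEquiv ((ρ.baseChangeAlong f hf).baseChangeAlong g hg) := by
  obtain ⟨b⟩ := exists_basis ρ
  rw [isEquiv_iff_conj _ _ (bcBasis (g.comp f) hgf ρ b) (bcBasis g hg _ (bcBasis f hf ρ b))]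
  refine ⟨1, isUnit_one, fun σ => ?_⟩
  rw [toMat_bcBasis, toMat_bcBasis, toMat_bcBasis, one_mul, mul_one, mapMat_comp]

/-- base change of isomorphisms -/
lemma bc_congr {A B : Type} [CommRing A] [IsLocalRing A] [CommRing B] [IsLocalRing B]
    (f : A →+* B) (hf : IsLocalHom f) {ρ ρ' : GaloisRepAdic A} (h : ρ.IsEquiv ρ') :
    (ρ.baseChangeAlong f hf).IsEquiv (ρ'.baseChangeAlong f hf) := by
  obtain ⟨b⟩ := exists_basis ρ
  obtain ⟨b'⟩ := exists_basis ρ'
  obtain ⟨u, hu, huc⟩ := (isEquiv_iff_conj ρ ρ' b b').mp h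
  rw [isEquiv_iff_conj _ _ (bcBasis f hf ρ b) (bcBasis f hf ρ' b')]
  refine ⟨u.map f, hu.map (f.mapMatrix : M2 A →+* M2 B), fun σ => ?_⟩
  rw [toMat_bcBasis, toMat_bcBasis]
  have := congrArg (fun m : M2 A => m.map f) (huc σ)
  simp only [Matrix.map_mul] at this
  exact this

/-- quotients of complete noetherian local rings are complete -/
lemma isAdicComplete_of_surj {A B : Type*} [CommRing A] [CommRing B] [IsLocalRing A]
    [IsNoetherianRing A] [IsLocalRing B] [IsAdicComplete (maximalIdeal A) A]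
    (f : A →+* B) (hf : Function.Surjective f) :
    IsAdicComplete (maximalIdeal B) B := by
  have hmap : (maximalIdeal A).map f = maximalIdeal B := by
    haveI : IsLocalHom f := IsLocalHom.of_surjective f hf
    apply le_antisymm (Ideal.map_le_iff_le_comap.mpr fun a ha =>
      Ideal.mem_comap.mpr (map_nonunit f a ha))
    intro y hy
    obtain ⟨x, rfl⟩ := hf y
    refine Ideal.mem_map_of_mem f ?_
    rw [mem_maximalIdeal, mem_nonunits_iff]
    intro hx
    exact hy (hx.map f)
  let _ : Algebra A B := f.toAlgebra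
  have : Module.Finite A B := Module.Finite.of_surjective (Algebra.linearMap A B) hf
  have h1 : IsAdicComplete (maximalIdeal A) B :=
    IsAdicComplete.of_module_finite (maximalIdeal A) B
  rw [← hmap]
  exact (IsAdicComplete.map_algebraMap_iff (maximalIdeal A) B).mpr h1

/-- the type passes to quotients of complete noetherian local algebras -/
lemma type_of_surjective (h𝒟 : IsDeformationCondition 𝒪 𝒟) {A B : Type} [CommRing A]
    [IsLocalRing A] [IsNoetherianRing A] [IsAdicComplete (maximalIdeal A) A] [Algebra 𝒪 A]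
    (hA1 : IsLocalHom (algebraMap 𝒪 A))
    (hA2 : Function.Surjective (IsLocalRing.residue A ∘ algebraMap 𝒪 A)) [CommRing B]
    [IsLocalRing B] [IsNoetherianRing B] [IsAdicComplete (maximalIdeal B) B] [Algebra 𝒪 B]
    (hB1 : IsLocalHom (algebraMap 𝒪 B))
    (hB2 : Function.Surjective (IsLocalRing.residue B ∘ algebraMap 𝒪 B))
    (f : A →ₐ[𝒪] B) (hf : IsLocalHom (f : A →+* B)) (hfs : Function.Surjective f)
    {ρ : GaloisRepAdic A} (hρ : 𝒟 ρ) : 𝒟 (ρ.baseChangeAlong (f : A →+* B) hf) := by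
  rw [h𝒟.iff_forall_surjective hB1 hB2]
  intro C _ _ _ hC g hg hgs
  have hgf : IsLocalHom ((g.comp f : A →ₐ[𝒪] C) : A →+* C) :=
    @RingHom.isLocalHom_comp _ _ _ _ _ _ (g : B →+* C) (f : A →+* B) hg hf
  have h1 := (h𝒟.iff_forall_surjective hA1 hA2 ρ).mp hρ hC (g.comp f) hgf (hgs.comp hfs)
  exact h𝒟.of_isEquiv hC (bc_bc_isEquiv (f : A →+* B) hf (g : B →+* C) hg hgf ρ) h1

/-- the type is invariant under isomorphisms for complete noetherian local algebras -/
lemma type_of_isEquiv (h𝒟 : IsDeformationCondition 𝒪 𝒟) {A : Type} [CommRing A]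
    [IsLocalRing A] [IsNoetherianRing A] [IsAdicComplete (maximalIdeal A) A] [Algebra 𝒪 A]
    (hA1 : IsLocalHom (algebraMap 𝒪 A))
    (hA2 : Function.Surjective (IsLocalRing.residue A ∘ algebraMap 𝒪 A))
    {ρ ρ' : GaloisRepAdic A} (h : ρ.IsEquiv ρ') (hρ : 𝒟 ρ) : 𝒟 ρ' := by
  rw [h𝒟.iff_forall_surjective hA1 hA2] at hρ ⊢
  intro C _ _ _ hC g hg hgs
  refine h𝒟.of_isEquiv hC ?_ (hρ hC g hg hgs)
  obtain ⟨b⟩ := exists_basis ρ
  obtain ⟨b'⟩ := exists_basis ρ'
  obtain ⟨u, hu, huc⟩ := (isEquiv_iff_conj ρ ρ' b b').mp h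
  rw [isEquiv_iff_conj _ _ (bcBasis (g : A →+* C) hg ρ b) (bcBasis (g : A →+* C) hg ρ' b')]
  refine ⟨u.map (g : A →+* C), hu.map ((g : A →+* C).mapMatrix : M2 A →+* M2 C), fun σ => ?_⟩
  rw [toMat_bcBasis, toMat_bcBasis]
  have := congrArg (fun m : M2 A => m.map (g : A →+* C)) (huc σ)
  simp only [Matrix.map_mul] at this
  exact this

/-- residual representations of base changes -/
lemma residual_bc_isEquiv (ρbar : ResidualGaloisRep (ResidueField 𝒪)) {A B : Type} [CommRing A]
    [IsLocalRing A] [Algebra 𝒪 A] [IsLocalHom (algebraMap 𝒪 A)] [CommRing B]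
    [IsLocalRing B] [Algebra 𝒪 B] [IsLocalHom (algebraMap 𝒪 B)] (f : A →ₐ[𝒪] B)
    (hf : IsLocalHom (f : A →+* B)) (ρ : GaloisRepAdic A)
    (h : ρ.residual.IsEquiv (ρbar.baseChangeAlong (ResidueField.map (algebraMap 𝒪 A)))) :
    (ρ.baseChangeAlong (f : A →+* B) hf).residual.IsEquiv
      (ρbar.baseChangeAlong (ResidueField.map (algebraMap 𝒪 B))) := by
  obtain ⟨b⟩ := exists_basis ρ
  let bb : Module.Basis (Fin 2) (ResidueField 𝒪) ρbar.V :=
    Module.finBasisOfFinrankEq _ ρbar.V ρbar.finrank_eq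
  rw [residual_isEquiv_iff_conj _ _ (resBasis ρ b) (rbcBasis _ ρbar bb)] at h
  obtain ⟨u, hu, huc⟩ := h
  rw [residual_isEquiv_iff_conj _ _ (resBasis _ (bcBasis (f : A →+* B) hf ρ b))
    (rbcBasis _ ρbar bb)]
  have hcomp : (ResidueField.map (f : A →+* B)).comp (ResidueField.map (algebraMap 𝒪 A)) =
      ResidueField.map (algebraMap 𝒪 B) := by
    ext x
    obtain ⟨x, rfl⟩ := residue_surjective x
    simp only [RingHom.comp_apply, ResidueField.map_residue]
    congr 1
    exact f.commutes x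
  refine ⟨u.map (ResidueField.map (f : A →+* B)),
    hu.map ((ResidueField.map (f : A →+* B)).mapMatrix), fun σ => ?_⟩
  have h1 := congrArg (fun m : M2 (ResidueField A) => m.map (ResidueField.map (f : A →+* B)))
    (huc σ)
  simp only [Matrix.map_mul] at h1
  rw [toMat_resBasis, toMat_rbcBasis] at h1 ⊢
  rw [toMat_bcBasis]
  have e1 : mapMat (residue B) (mapMat (f : A →+* B) (toMat ρ.ρ b)) σ =
      (mapMat (residue A) (toMat ρ.ρ b) σ).map (ResidueField.map (f : A →+* B)) := by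
    ext i j
    simp only [mapMat_apply, Matrix.map_apply]
    rw [ResidueField.map_residue]
  have e2 : mapMat (ResidueField.map (algebraMap 𝒪 B)) (toMat ρbar.ρ bb) σ =
      (mapMat (ResidueField.map (algebraMap 𝒪 A)) (toMat ρbar.ρ bb) σ).map
        (ResidueField.map (f : A →+* B)) := by
    ext i j
    simp only [mapMat_apply, Matrix.map_apply]
    rw [← hcomp]; rfl
  rw [e1, e2]
  exact h1

end

end Fermat.Agent.H53
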