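import Mathlib

set_option autoImplicit false
set_option linter.style.haveILetI false
set_option linter.unusedSectionVars false

/-!
# Generators of the relative cotangent space from a count of points in the dual numbers
-/

noncomputable section

open IsLocalRing

namespace Fermat.Agent.H53

theorem exists_gens {𝒪 P : Type*} [CommRing 𝒪] [IsLocalRing 𝒪] [Finite (ResidueField 𝒪)]
    [CommRing P] [Algebra 𝒪 P]
    (π : P →+* ResidueField 𝒪) (hπ : ∀ c, π (algebraMap 𝒪 P c) = residue 𝒪 c)
    (I : Ideal P) [Finite (P ⧸ I)] (hI1 : (RingHom.ker π) ^ 2 ≤ I)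
    (hI2 : (maximalIdeal 𝒪).map (algebraMap 𝒪 P) ≤ I)
    (hI3 : I ≤ RingHom.ker π) (N : ℕ) (H : Set (P →+* DualNumber (ResidueField 𝒪)))
    (hHfin : H.Finite)
    (hH : ∀ f : P →+* DualNumber (ResidueField 𝒪),
      (∀ c, f (algebraMap 𝒪 P c) = TrivSqZeroExt.inl (residue 𝒪 c)) →
      (∀ p, TrivSqZeroExt.fst (f p) = π p) → I ≤ RingHom.ker f → f ∈ H)
    (hcard : H.ncard ≤ Nat.card (ResidueField 𝒪) ^ N) :
    ∃ x : Fin N → P, (∀ i, π (x i) = 0) ∧ RingHom.ker π ≤ Ideal.span (Set.range x) ⊔ I := by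
  classical
  -- `P / I` is a vector space over the residue field
  let φ : ResidueField 𝒪 →+* P ⧸ I :=
    Ideal.Quotient.lift (maximalIdeal 𝒪) ((Ideal.Quotient.mk I).comp (algebraMap 𝒪 P)) (by
      intro a ha
      rw [RingHom.comp_apply, Ideal.Quotient.eq_zero_iff_mem]
      exact hI2 (Ideal.mem_map_of_mem _ ha))
  have hφ : ∀ c : 𝒪, φ (residue 𝒪 c) = Ideal.Quotient.mk I (algebraMap 𝒪 P c) := fun c => rfl
  letI : Algebra (ResidueField 𝒪) (P ⧸ I) := φ.toAlgebra
  have hsmul : ∀ (c : ResidueField 𝒪) (y : P ⧸ I), c • y = φ c * y := fun c y => rfl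
  let π' : P ⧸ I →+* ResidueField 𝒪 := Ideal.Quotient.lift I π (fun a ha => hI3 ha)
  have hπ' : ∀ p : P, π' (Ideal.Quotient.mk I p) = π p := fun p => rfl
  have hπφ : ∀ c : ResidueField 𝒪, π' (φ c) = c := by
    intro c
    obtain ⟨c, rfl⟩ := IsLocalRing.residue_surjective c
    rw [hφ, hπ', hπ]
  let πl : P ⧸ I →ₗ[ResidueField 𝒪] ResidueField 𝒪 :=
    { toFun := π'
      map_add' := map_add π'
      map_smul' := fun c y => by
        rw [hsmul, map_mul, hπφ]; rfl }
  haveI hfd : Module.Finite (ResidueField 𝒪) (P ⧸ I) := Module.Finite.of_finite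
  have hπls : Function.Surjective πl := fun c => ⟨φ c, hπφ c⟩
  have h1ne : (1 : P ⧸ I) ≠ 0 := fun h => by
    have := congrArg π' h
    rw [map_one, map_zero] at this
    exact one_ne_zero this
  -- dimensions
  have hdim1 : Module.finrank (ResidueField 𝒪) (LinearMap.ker πl) + 1 =
      Module.finrank (ResidueField 𝒪) (P ⧸ I) := by
    have := LinearMap.finrank_range_add_finrank_ker πl
    rw [LinearMap.range_eq_top.mpr hπls, finrank_top, Module.finrank_self] at this
    omega
  set W := (P ⧸ I) ⧸ (Submodule.span (ResidueField 𝒪) {(1 : P ⧸ I)}) with hW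
  have hdim2 : Module.finrank (ResidueField 𝒪) W + 1 =
      Module.finrank (ResidueField 𝒪) (P ⧸ I) := by
    have := Submodule.finrank_quotient_add_finrank
      (Submodule.span (ResidueField 𝒪) {(1 : P ⧸ I)})
    rwa [finrank_span_singleton h1ne] at this
  -- the homs attached to functionals
  have hder : ∀ (ℓ : P ⧸ I →ₗ[ResidueField 𝒪] ResidueField 𝒪) (_ : ℓ 1 = 0) (a b : P),
      ℓ (Ideal.Quotient.mk I (a * b)) =
      π a * ℓ (Ideal.Quotient.mk I b) + π b * ℓ (Ideal.Quotient.mk I a) := by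
    intro ℓ hℓ1 a b
    have hprod : (Ideal.Quotient.mk I a - φ (π a)) * (Ideal.Quotient.mk I b - φ (π b)) = 0 := by
      obtain ⟨ca, hca⟩ := IsLocalRing.residue_surjective (π a)
      obtain ⟨cb, hcb⟩ := IsLocalRing.residue_surjective (π b)
      rw [← hca, ← hcb, hφ, hφ, ← map_sub, ← map_sub, ← map_mul, Ideal.Quotient.eq_zero_iff_mem]
      apply hI1
      rw [pow_two]
      apply Ideal.mul_mem_mul
      · rw [RingHom.mem_ker, map_sub, hπ, hca, sub_self]
      · rw [RingHom.mem_ker, map_sub, hπ, hcb, sub_self]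
    have hexp : Ideal.Quotient.mk I (a * b) = (π a) • Ideal.Quotient.mk I b +
        (π b) • Ideal.Quotient.mk I a - (π a * π b) • (1 : P ⧸ I) := by
      rw [hsmul, hsmul, hsmul, map_mul, map_mul]
      linear_combination hprod
    rw [hexp, map_sub, map_add, map_smul, map_smul, map_smul, hℓ1, smul_zero, sub_zero,
      smul_eq_mul, smul_eq_mul]
  let mkW : P ⧸ I →ₗ[ResidueField 𝒪] W := Submodule.mkQ _
  have hmkW1 : mkW 1 = 0 :=
    (Submodule.Quotient.mk_eq_zero _).mpr (Submodule.mem_span_singleton_self _)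
  have hder' : ∀ (g : Module.Dual (ResidueField 𝒪) W) (a b : P),
      g (mkW (Ideal.Quotient.mk I (a * b))) = π a * g (mkW (Ideal.Quotient.mk I b)) +
        π b * g (mkW (Ideal.Quotient.mk I a)) := fun g a b =>
    hder (g ∘ₗ mkW) (by rw [LinearMap.comp_apply, hmkW1, map_zero]) a b
  let F : Module.Dual (ResidueField 𝒪) W → (P →+* DualNumber (ResidueField 𝒪)) := fun g =>
    { toFun := fun p => TrivSqZeroExt.inl (π p) +
        TrivSqZeroExt.inr (g (mkW (Ideal.Quotient.mk I p)))
      map_one' := by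
        rw [map_one, map_one, hmkW1, map_zero]
        simp
      map_mul' := by
        intro a b
        rw [hder']
        ext
        · simp
        · simp [mul_comm]
      map_zero' := by
        rw [map_zero, map_zero, map_zero, map_zero]
        simp
      map_add' := by
        intro a b
        rw [map_add, map_add, map_add, map_add]
        ext
        · simp
        · simp }
  have hF : ∀ g p, F g p = TrivSqZeroExt.inl (π p) +
    TrivSqZeroExt.inr (g (mkW (Ideal.Quotient.mk I p))) := fun g p => rfl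
  have hFH : ∀ g, F g ∈ H := by
    intro g
    refine hH _ ?_ ?_ ?_
    · intro c
      have h1 : mkW (Ideal.Quotient.mk I (algebraMap 𝒪 P c)) = 0 := by
        have h2 : Ideal.Quotient.mk I (algebraMap 𝒪 P c) = residue 𝒪 c • (1 : P ⧸ I) := by
          rw [hsmul, hφ, mul_one]
        rw [h2, map_smul, hmkW1, smul_zero]
      rw [hF, h1, map_zero, hπ]
      simp
    · intro p
      rw [hF]; simp
    · intro p hp
      have h1 : Ideal.Quotient.mk I p = 0 := Ideal.Quotient.eq_zero_iff_mem.mpr hp
      have h2 : π p = 0 := hI3 hp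
      rw [RingHom.mem_ker, hF, h1, h2, map_zero, map_zero]
      simp
  have hFinj : Function.Injective F := by
    intro g g' h
    apply LinearMap.ext
    intro w
    obtain ⟨y, rfl⟩ := Submodule.Quotient.mk_surjective _ w
    obtain ⟨p, rfl⟩ := Ideal.Quotient.mk_surjective y
    have h1 := congrArg TrivSqZeroExt.snd (RingHom.congr_fun h p)
    rw [hF, hF, TrivSqZeroExt.snd_add, TrivSqZeroExt.snd_add, TrivSqZeroExt.snd_inl,
      TrivSqZeroExt.snd_inr, TrivSqZeroExt.snd_inr, zero_add, zero_add] at h1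
    exact h1
  have hcardle : Nat.card (Module.Dual (ResidueField 𝒪) W) ≤ H.ncard := by
    haveI := hHfin.to_subtype
    rw [← Nat.card_coe_set_eq]
    exact Nat.card_le_card_of_injective (fun g => (⟨F g, hFH g⟩ : H))
      fun g g' h => hFinj (congrArg Subtype.val h)
  have hle : Module.finrank (ResidueField 𝒪) (LinearMap.ker πl) ≤ N := by
    have h1 : Nat.card (Module.Dual (ResidueField 𝒪) W) =
        Nat.card (ResidueField 𝒪) ^ Module.finrank (ResidueField 𝒪) W := by
      rw [Module.natCard_eq_pow_finrank (K := ResidueField 𝒪), Subspace.dual_finrank_eq]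
    rw [h1] at hcardle
    have h2 := (Nat.pow_le_pow_iff_right (Finite.one_lt_card (α := ResidueField 𝒪))).mp
      (hcardle.trans hcard)
    omega
  -- generators
  let bs := Module.finBasis (ResidueField 𝒪) (LinearMap.ker πl)
  set d := Module.finrank (ResidueField 𝒪) (LinearMap.ker πl) with hd
  choose y hy using fun i => Ideal.Quotient.mk_surjective ((bs i : LinearMap.ker πl) : P ⧸ I)
  let x : Fin N → P := fun i => if h : (i : ℕ) < d then y ⟨i, h⟩ else 0
  have hyπ : ∀ i, π (y i) = 0 := fun i => by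
    rw [← hπ', hy]
    exact (bs i).2
  refine ⟨x, fun i => ?_, ?_⟩
  · show π (if h : (i : ℕ) < d then y ⟨i, h⟩ else 0) = 0
    split_ifs with h
    · exact hyπ _
    · exact map_zero _
  · intro z hz
    have hz' : Ideal.Quotient.mk I z ∈ LinearMap.ker πl := hz
    have hrepr := bs.sum_repr ⟨Ideal.Quotient.mk I z, hz'⟩
    choose c hc using fun i => residue_surjective (bs.repr ⟨Ideal.Quotient.mk I z, hz'⟩ i)
    have h1 : Ideal.Quotient.mk I z = Ideal.Quotient.mk I (∑ i, algebraMap 𝒪 P (c i) * y i) := by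
      have h2 : ∑ i, (((bs.repr ⟨Ideal.Quotient.mk I z, hz'⟩) i • bs i :
          LinearMap.ker πl) : P ⧸ I) = Ideal.Quotient.mk I z := by
        rw [← Submodule.coe_sum]
        exact congrArg Subtype.val hrepr
      rw [map_sum, ← h2]
      refine Finset.sum_congr rfl fun i _ => ?_
      rw [Submodule.coe_smul, hsmul, ← hc i, hφ, map_mul, hy]
    have h2 : z - ∑ i, algebraMap 𝒪 P (c i) * y i ∈ I := Ideal.Quotient.eq.mp h1
    have h3 : ∑ i, algebraMap 𝒪 P (c i) * y i ∈ Ideal.span (Set.range x) := by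
      refine Ideal.sum_mem _ fun i _ => Ideal.mul_mem_left _ _ (Ideal.subset_span ?_)
      refine ⟨⟨i, lt_of_lt_of_le i.2 hle⟩, ?_⟩
      show (if h : (i : ℕ) < d then y ⟨i, h⟩ else 0) = y i
      rw [dif_pos i.2]
    have h4 : z = ∑ i, algebraMap 𝒪 P (c i) * y i + (z - ∑ i, algebraMap 𝒪 P (c i) * y i) := by
      ring
    rw [h4]
    exact Submodule.add_mem_sup h3 h2

end Fermat.Agent.H53
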