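import Mathlib

set_option autoImplicit false
set_option linter.style.haveILetI false
set_option linter.unusedSectionVars false

/-!
# Presentations of complete local rings by power series rings in finitely many variables
(adapted from `H56PowerSeries`, arbitrary finite index types)
-/

open IsLocalRing

namespace Fermat.Agent.H53

/-- Evaluation of formal power series over an arbitrary ring `O` at elements of an ideal `I` of
an `I`-adically complete `O`-algebra `R`. -/
theorem exists_psEval {O R : Type*} [CommRing O] [CommRing R] [Algebra O R]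
    (I : Ideal R) [hI : IsAdicComplete I R] {σ : Type*} [Finite σ] (x : σ → R)
    (hx : ∀ i, x i ∈ I) :
    ∃ γ : MvPowerSeries σ O →ₐ[O] R, ∀ i, γ (MvPowerSeries.X i) = x i := by
  letI : WithIdeal R := ⟨I⟩
  letI : UniformSpace O := ⊥
  haveI : DiscreteTopology O := ⟨rfl⟩
  haveI : IsUniformAddGroup O := by infer_instance
  haveI : IsTopologicalRing O := by infer_instance
  have hadic : IsAdic I := rfl
  have hc := (IsAdic.isAdicComplete_iff (I := I) (R := R) hadic).1 hI
  haveI : CompleteSpace R := hc.1
  haveI : T2Space R := hc.2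
  haveI : IsLinearTopology R R := by infer_instance
  haveI : ContinuousSMul O R := by
    refine continuousSMul_of_algebraMap O R ?_
    exact continuous_of_discreteTopology
  have ha : MvPowerSeries.HasEval x := by
    refine ⟨fun i => ?_, ?_⟩
    · rw [IsTopologicallyNilpotent, hadic.hasBasis_nhds_zero.tendsto_right_iff]
      intro n _
      filter_upwards [Filter.eventually_ge_atTop n] with m hm
      exact Ideal.pow_le_pow_right hm (Ideal.pow_mem_pow (hx i) m)
    · rw [Filter.cofinite_eq_bot]
      exact Filter.tendsto_bot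
  refine ⟨MvPowerSeries.aeval ha, fun i => ?_⟩
  rw [← MvPolynomial.coe_X, MvPowerSeries.aeval_coe, MvPolynomial.aeval_X]

/-- A complete Noetherian local `O`-algebra `R` (with `O` complete local, same residue field) whose
maximal ideal is generated by `x_1, …, x_r`, the image of the maximal ideal of `O`, and `m_R ^ 2`, is
a quotient of `O⟦X_1, …, X_r⟧`. -/
theorem exists_psSurjective {O R : Type*} [CommRing O] [IsLocalRing O]
    [IsAdicComplete (maximalIdeal O) O] [CommRing R] [IsLocalRing R] [IsNoetherianRing R]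
    [IsAdicComplete (maximalIdeal R) R] [Algebra O R] [IsLocalHom (algebraMap O R)]
    (hres : Function.Surjective (residue R ∘ algebraMap O R))
    {σ : Type*} [Finite σ] (x : σ → R) (hx : ∀ i, x i ∈ maximalIdeal R)
    (hgen : maximalIdeal R ≤
      Ideal.span (Set.range x) ⊔ (maximalIdeal O).map (algebraMap O R) ⊔ maximalIdeal R ^ 2) :
    ∃ γ : MvPowerSeries σ O →ₐ[O] R, (∀ i, γ (MvPowerSeries.X i) = x i) ∧
      Function.Surjective γ := by
  obtain ⟨γ, hγ⟩ := exists_psEval (O := O) (maximalIdeal R) x hx
  refine ⟨γ, hγ, ?_⟩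
  -- Nakayama: the maximal ideal is generated by the `x i` and the image of the maximal ideal of `O`
  set J : Ideal R := Ideal.span (Set.range x) ⊔ (maximalIdeal O).map (algebraMap O R) with hJ
  have hJle : J ≤ maximalIdeal R := by
    refine sup_le (Ideal.span_le.2 ?_) (map_maximalIdeal_le _)
    rintro _ ⟨i, rfl⟩
    exact hx i
  have hJeq : J = maximalIdeal R := by
    refine le_antisymm hJle ?_
    refine Submodule.le_of_le_smul_of_le_jacobson_bot (IsNoetherian.noetherian _)
      (IsLocalRing.maximalIdeal_le_jacobson ⊥) ?_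
    rwa [smul_eq_mul, ← pow_two]
  have hIX : (Ideal.span (Set.range (MvPowerSeries.X : σ → MvPowerSeries σ O))).map
      (γ : MvPowerSeries σ O →+* R) = Ideal.span (Set.range x) := by
    rw [Ideal.map_span]
    congr 1
    ext y
    simp [hγ]
  set Q : Ideal R := Ideal.span (Set.range x) with hQ
  have hQle : Q ≤ maximalIdeal R := le_trans le_sup_left hJle
  have hQtop : Q ≠ ⊤ := fun h => (maximalIdeal.isMaximal R).ne_top (top_le_iff.1 (h ▸ hQle))
  haveI : IsHausdorff ((Ideal.span (Set.range
      (MvPowerSeries.X : σ → MvPowerSeries σ O))).map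
      (γ : MvPowerSeries σ O →+* R)) R := by
    rw [hIX]
    exact IsHausdorff.of_isLocalRing _ _ hQtop
  refine surjective_of_mk_map_comp_surjective (γ : MvPowerSeries σ O →+* R)
    (I := Ideal.span (Set.range (MvPowerSeries.X : σ → MvPowerSeries σ O))) ?_
  rw [hIX]
  -- now `O → R ⧸ Q` is surjective
  haveI : Nontrivial (R ⧸ Q) := Ideal.Quotient.nontrivial_iff.2 hQtop
  haveI : IsLocalRing (R ⧸ Q) := IsLocalRing.of_surjective' (Ideal.Quotient.mk Q)
    Ideal.Quotient.mk_surjective
  have hmapeq : (maximalIdeal O).map (algebraMap O (R ⧸ Q)) =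
      (maximalIdeal R).map (Ideal.Quotient.mk Q) := by
    rw [IsScalarTower.algebraMap_eq O R (R ⧸ Q), ← Ideal.map_map, ← hJeq, hJ, Ideal.map_sup]
    simp only [Ideal.Quotient.algebraMap_eq]
    rw [Ideal.map_quotient_self, bot_sup_eq]
  have hmapeq' : (maximalIdeal R).map (Ideal.Quotient.mk Q) = maximalIdeal (R ⧸ Q) :=
    map_maximalIdeal_of_surjective _ Ideal.Quotient.mk_surjective
  haveI : IsHausdorff ((maximalIdeal O).map (algebraMap O (R ⧸ Q))) (R ⧸ Q) := by
    rw [hmapeq, hmapeq']
    exact IsHausdorff.of_isLocalRing _ _ (maximalIdeal.isMaximal _).ne_top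
  have hsurj : Function.Surjective (algebraMap O (R ⧸ Q)) := by
    refine surjective_of_mk_map_comp_surjective (algebraMap O (R ⧸ Q)) (I := maximalIdeal O) ?_
    intro y
    obtain ⟨y, rfl⟩ := Ideal.Quotient.mk_surjective y
    obtain ⟨y, rfl⟩ := Ideal.Quotient.mk_surjective y
    obtain ⟨a, ha⟩ := hres (residue R y)
    refine ⟨a, ?_⟩
    rw [RingHom.comp_apply, Ideal.Quotient.eq, hmapeq, IsScalarTower.algebraMap_apply O R (R ⧸ Q),
      Ideal.Quotient.algebraMap_eq, ← map_sub]
    apply Ideal.mem_map_of_mem
    rw [Function.comp_apply] at ha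
    rwa [← residue_eq_zero_iff, map_sub, sub_eq_zero]
  intro y
  obtain ⟨a, rfl⟩ := hsurj y
  refine ⟨algebraMap O _ a, ?_⟩
  rw [RingHom.comp_apply]
  change Ideal.Quotient.mk Q (γ (algebraMap O _ a)) = _
  rw [AlgHom.commutes]
  rfl

end Fermat.Agent.H53
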