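import Fermat.Agent.H56Tangent
import Fermat.Agent.H53Gen1
import Fermat.Agent.H53Gen2

set_option autoImplicit false
set_option maxSynthPendingDepth 3
set_option linter.style.haveILetI false
set_option linter.unusedSectionVars false

/-!
# Generators of a deformation ring relative to marked elements
-/

noncomputable section

open scoped TensorProduct
open IsLocalRing GaloisRep
open Fermat.Agent.H56

namespace Fermat.Agent.H53

variable {𝒪 : Type} [CommRing 𝒪] [IsDomain 𝒪] [IsDiscreteValuationRing 𝒪]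
    [IsAdicComplete (maximalIdeal 𝒪) 𝒪] [Finite (ResidueField 𝒪)]

variable (ρbar : ResidualGaloisRep (ResidueField 𝒪))
    (𝒟 : ∀ ⦃A : Type⦄ [CommRing A] [IsLocalRing A] [Algebra 𝒪 A], GaloisRepAdic A → Prop)

/-- **Bounding the number of generators of a deformation ring relative to marked elements by
counting cocycles.** The marked elements `g i` act residually by scalars `u i`; the relevant
cocycles are those of the lifts which are constant at the marked elements. -/
theorem exists_gens_marked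
    (h𝒟 : IsDeformationCondition 𝒪 𝒟)
    (b : Module.Basis (Fin 2) (ResidueField 𝒪) ρbar.V)
    (hcent : ∀ X : M2 (ResidueField 𝒪), X.trace = 0 →
      (∀ σ, toMat ρbar.ρ b σ * X = X * toMat ρbar.ρ b σ) → X = 0)
    (DQ : DeformationRingData 𝒪 ρbar 𝒟)
    (b₁ : Module.Basis (Fin 2) DQ.R DQ.ρ.V)
    (hb₁ : mapMat (residue DQ.R) (toMat DQ.ρ.ρ b₁) =
      mapMat (ResidueField.map (algebraMap 𝒪 DQ.R)) (toMat ρbar.ρ b))
    {ι : Type} (g : ι → GQ) (u : ι → 𝒪)
    (N : ℕ) (Z : Set (GQ → M2 (ResidueField 𝒪))) (hZfin : Z.Finite)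
    (hcard : Z.ncard ≤ Nat.card (ResidueField 𝒪) ^ (N + 3))
    (hcob : ∀ c ∈ Z, ∀ X : M2 (ResidueField 𝒪), X.trace = 0 →
      c + cob (toMat ρbar.ρ b) X ∈ Z)
    (hZ : ∀ (R : GQ →* M2 (DualNumber (ResidueField 𝒪))) (h : MCont _ R),
      (∀ σ, redM _ (R σ) = toMat ρbar.ρ b σ) →
      (letI := H69.algDual 𝒪; 𝒟 (ofMatrix R h)) → (∀ i, coc R (g i) = 0) → coc R ∈ Z)
    (J : Ideal DQ.R) (hJ : J ≤ maximalIdeal DQ.R)
    (hJ𝒪 : (maximalIdeal 𝒪).map (algebraMap 𝒪 DQ.R) ≤ J)
    (hJg : ∀ i a c, toMat DQ.ρ.ρ b₁ (g i) a c - algebraMap 𝒪 DQ.R (u i) * (1 : M2 DQ.R) a c ∈ J) :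
    ∃ x : Fin N → DQ.R, (∀ i, x i ∈ maximalIdeal DQ.R) ∧
      maximalIdeal DQ.R ≤ Ideal.span (Set.range x) ⊔ J ⊔ maximalIdeal DQ.R ^ 2 := by
  classical
  letI := H69.algDual 𝒪
  haveI : Finite (DualNumber (ResidueField 𝒪)) :=
    inferInstanceAs (Finite (ResidueField 𝒪 × ResidueField 𝒪))
  haveI : IsArtinianRing (DualNumber (ResidueField 𝒪)) := inferInstance
  have htest : IsArtinianTestAlgebra 𝒪 (DualNumber (ResidueField 𝒪)) := by
    refine isArtinianTestAlgebra_of_algHom inferInstance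
      { (TrivSqZeroExt.fstHom (ResidueField 𝒪) (ResidueField 𝒪) (ResidueField 𝒪)).toRingHom with
        commutes' := fun c => ?_ }
    rfl
  haveI := htest.isLocalHom
  set r := toMat ρbar.ρ b with hr
  set r₁ := toMat DQ.ρ.ρ b₁ with hr₁
  set π := piR DQ.R DQ.residue_surjective with hπdef
  have hπ : ∀ c, π (algebraMap 𝒪 DQ.R c) = residue 𝒪 c := piR_algebraMap _ _
  have hker : RingHom.ker π = maximalIdeal DQ.R := ker_piR _ _
  have hπr : mapMat π r₁ = r := by
    ext σ i j
    apply (ResidueField.map (algebraMap 𝒪 DQ.R)).injective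
    rw [mapMat_apply, map_piR]
    have := congrArg (fun f : GQ →* M2 (ResidueField DQ.R) => f σ i j) hb₁
    simpa using this
  -- homs to the dual numbers
  have hloc : ∀ f ∈ DualHoms π, IsLocalHom f := by
    intro f hf
    refine ⟨fun a ha => ?_⟩
    by_contra hna
    have h1 : a ∈ RingHom.ker π := by rw [hker]; exact (mem_maximalIdeal a).2 hna
    have h2 := TrivSqZeroExt.isUnit_iff_isUnit_fst.1 ha
    rw [hf.2, RingHom.mem_ker.1 h1] at h2
    exact not_isUnit_zero h2
  let toAlg : ∀ f ∈ DualHoms π, (DQ.R →ₐ[𝒪] DualNumber (ResidueField 𝒪)) := fun f hf =>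
    { f with commutes' := fun c => hf.1 c }
  have htoAlg : ∀ f hf, ((toAlg f hf : DQ.R →ₐ[𝒪] _) : DQ.R →+* _) = f := fun f hf => rfl
  have hred : ∀ f ∈ DualHoms π, ∀ σ, redM _ (mapMat f r₁ σ) = r σ := by
    intro f hf σ
    ext i j
    rw [redM_apply, mapMat_apply, hf.2, ← mapMat_apply, hπr]
  have hgood : ∀ f ∈ DualHoms π, Good 𝒟 (DualNumber (ResidueField 𝒪)) (mapMat f r₁) := by
    intro f hf
    -- pass to the quotient by the kernel
    let g : DQ.R →ₐ[𝒪] DualNumber (ResidueField 𝒪) := toAlg f hf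
    let J : Ideal DQ.R := RingHom.ker g
    haveI hnt : Nontrivial (DQ.R ⧸ J) := Ideal.Quotient.nontrivial_iff.2 (RingHom.ker_ne_top _)
    haveI hlr : IsLocalRing (DQ.R ⧸ J) :=
      IsLocalRing.of_surjective' (Ideal.Quotient.mk J) Ideal.Quotient.mk_surjective
    let gl : (DQ.R ⧸ J) →ₐ[𝒪] DualNumber (ResidueField 𝒪) :=
      Ideal.Quotient.liftₐ J g (fun a ha => ha)
    have hgl : Function.Injective gl := by
      rw [injective_iff_map_eq_zero]
      intro a ha
      obtain ⟨a, rfl⟩ := Ideal.Quotient.mk_surjective a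
      exact Ideal.Quotient.eq_zero_iff_mem.2 ha
    haveI : Finite (DQ.R ⧸ J) := Finite.of_injective gl hgl
    haveI : IsArtinianRing (DQ.R ⧸ J) := inferInstance
    have htJ : IsArtinianTestAlgebra 𝒪 (DQ.R ⧸ J) := by
      refine isArtinianTestAlgebra_of_algHom inferInstance
        (AlgHom.comp { (TrivSqZeroExt.fstHom (ResidueField 𝒪) (ResidueField 𝒪)
          (ResidueField 𝒪)).toRingHom with commutes' := fun c => ?_ } gl)
      rfl
    have hmk : IsLocalHom ((Ideal.Quotient.mkₐ 𝒪 J : DQ.R →ₐ[𝒪] DQ.R ⧸ J) : DQ.R →+* DQ.R ⧸ J) :=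
      IsLocalHom.of_surjective _ Ideal.Quotient.mk_surjective
    have h1 := (h𝒟.iff_forall_surjective (A := DQ.R) inferInstance DQ.residue_surjective DQ.ρ).1
      DQ.isOfType htJ (Ideal.Quotient.mkₐ 𝒪 J) hmk Ideal.Quotient.mk_surjective
    have h2 : Good 𝒟 (DQ.R ⧸ J) (mapMat (Ideal.Quotient.mk J) r₁) := by
      refine Good.of_isEquiv h𝒟 htJ _ (bcBasis _ hmk DQ.ρ b₁) h1 1 isUnit_one fun σ => ?_
      rw [toMat_bcBasis, one_mul, mul_one]
      rfl
    have h3 := h2.map h𝒟 htJ htest gl (isLocalHom_of_artinian _)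
    have h4 : mapMat (gl : (DQ.R ⧸ J) →+* _) (mapMat (Ideal.Quotient.mk J) r₁) = mapMat f r₁ := by
      ext σ i j <;> rfl
    rwa [h4] at h3
  -- the relevant homs
  set H : Set (DQ.R →+* DualNumber (ResidueField 𝒪)) :=
    {f | f ∈ DualHoms π ∧ J ≤ RingHom.ker f} with hHdef
  have hcoc : ∀ f ∈ H, coc (mapMat f r₁) ∈ Z := by
    rintro f ⟨hf, hfJ⟩
    obtain ⟨_, hc, hD⟩ := hgood f hf
    refine hZ (mapMat f r₁) hc (hred f hf) hD fun i => ?_
    have h1 : mapMat f r₁ (g i) = Matrix.of fun a c =>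
        TrivSqZeroExt.inl (residue 𝒪 (u i)) * (1 : M2 (DualNumber (ResidueField 𝒪))) a c := by
      ext1 a c
      have h2 : f (r₁ (g i) a c - algebraMap 𝒪 DQ.R (u i) * (1 : M2 DQ.R) a c) = 0 :=
        hfJ (hJg i a c)
      rw [map_sub, map_mul, hf.1, sub_eq_zero] at h2
      rw [mapMat_apply, h2, Matrix.of_apply, Matrix.one_apply, Matrix.one_apply]
      split_ifs <;> simp
    have h2 : sndM (mapMat f r₁ (g i)) = 0 := by
      rw [h1]
      ext a c
      rw [sndM_apply, Matrix.of_apply, Matrix.one_apply]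
      split_ifs <;> simp
    rw [coc, h2, zero_mul]
  -- injectivity
  have hinj : ∀ f (hf : f ∈ DualHoms π) f' (hf' : f' ∈ DualHoms π) (X : M2 (ResidueField 𝒪)),
      coc (mapMat f r₁) = coc (mapMat f' r₁) + cob r X → f = f' := by
    intro f hf f' hf' X h
    obtain ⟨_, hc', hD'⟩ := hgood f' hf'
    have hconj := conj_of_coc (hred f hf) (hred f' hf') h
    have hresid : (ofMatrix (mapMat f' r₁) hc').residual.IsEquiv
        (ρbar.baseChangeAlong (ResidueField.map (algebraMap 𝒪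
          (DualNumber (ResidueField 𝒪))))) := by
      rw [residual_isEquiv_iff_conj _ _ (resBasis _ (stdBasis _ _)) (rbcBasis _ _ b)]
      refine ⟨1, isUnit_one, fun σ => ?_⟩
      rw [toMat_resBasis, toMat_stdBasis, toMat_rbcBasis, one_mul, mul_one, ← hr]
      ext i j
      rw [mapMat_apply, mapMat_apply, mapMat_apply, H69.residue_dual, hf'.2, ← mapMat_apply, hπr]
      obtain ⟨c, hc⟩ := residue_surjective (r σ i j)
      rw [← hc]
      rfl
    obtain ⟨φ₀, -, huniq⟩ := DQ.universal (DualNumber (ResidueField 𝒪)) htest.residue_surjective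
      (ofMatrix (mapMat f' r₁) hc') hD' hresid
    have hlf : IsLocalHom ((toAlg f hf : DQ.R →ₐ[𝒪] DualNumber (ResidueField 𝒪)) :
        DQ.R →+* DualNumber (ResidueField 𝒪)) := hloc f hf
    have hlf' : IsLocalHom ((toAlg f' hf' : DQ.R →ₐ[𝒪] DualNumber (ResidueField 𝒪)) :
        DQ.R →+* DualNumber (ResidueField 𝒪)) := hloc f' hf'
    have e1 : toAlg f hf = φ₀ := by
      refine huniq _ ⟨hlf, ?_⟩
      rw [isEquiv_iff_conj _ _ (bcBasis _ hlf DQ.ρ b₁) (stdBasis _ _)]
      refine ⟨onePlus X, isUnit_onePlus X, fun σ => ?_⟩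
      rw [toMat_bcBasis, toMat_stdBasis]
      have h1 : onePlus (-X) * mapMat f' r₁ σ = mapMat f r₁ σ * onePlus (-X) := hconj σ
      have h2 : onePlus X * onePlus (-X) = 1 := by
        rw [onePlus_mul, add_neg_cancel, onePlus_zero]
      have h3 : onePlus (-X) * onePlus X = 1 := by
        rw [onePlus_mul, neg_add_cancel, onePlus_zero]
      calc onePlus X * mapMat f r₁ σ
          = onePlus X * (mapMat f r₁ σ * onePlus (-X)) * onePlus X := by
            rw [mul_assoc, mul_assoc, h3, mul_one]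
        _ = onePlus X * (onePlus (-X) * mapMat f' r₁ σ) * onePlus X := by rw [h1]
        _ = (onePlus X * onePlus (-X)) * mapMat f' r₁ σ * onePlus X := by noncomm_ring
        _ = _ := by rw [h2, one_mul]
    have e2 : toAlg f' hf' = φ₀ := by
      refine huniq _ ⟨hlf', ?_⟩
      rw [isEquiv_iff_conj _ _ (bcBasis _ hlf' DQ.ρ b₁) (stdBasis _ _)]
      refine ⟨1, isUnit_one, fun σ => ?_⟩
      rw [toMat_bcBasis, toMat_stdBasis, one_mul, mul_one]
      rfl
    have e3 : toAlg f hf = toAlg f' hf' := e1.trans e2.symm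
    ext a : 1
    exact AlgHom.congr_fun e3 a
  -- counting
  let Φ : H × {X : M2 (ResidueField 𝒪) // X.trace = 0} → Z := fun t =>
    ⟨coc (mapMat t.1.1 r₁) + cob r t.2.1, hcob _ (hcoc _ t.1.2) _ t.2.2⟩
  have hΦ : Function.Injective Φ := by
    rintro ⟨⟨f, hf⟩, ⟨X, hX⟩⟩ ⟨⟨f', hf'⟩, ⟨X', hX'⟩⟩ h
    have h1 : coc (mapMat f r₁) + cob r X = coc (mapMat f' r₁) + cob r X' :=
      congrArg Subtype.val h
    have hsub : cob r (X' - X) = cob r X' - cob r X := by
      funext σ
      simp only [cob, Pi.sub_apply]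
      noncomm_ring
    have h2 : f = f' := hinj f hf.1 f' hf'.1 (X' - X) (by
      rw [hsub, eq_sub_of_add_eq h1]; abel)
    subst h2
    have h3 : cob r (X' - X) = 0 := by
      rw [hsub, add_left_cancel h1, sub_self]
    have h4 : X' - X = 0 := by
      apply hcent
      · rw [Matrix.trace_sub, hX, hX', sub_self]
      · intro σ
        have h5 := congrFun h3 σ
        simp only [cob, Pi.zero_apply] at h5
        rw [sub_eq_zero] at h5
        calc r σ * (X' - X) = r σ * (X' - X) * (r σ⁻¹ * r σ) := by rw [rinv_mul, mul_one]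
          _ = (r σ * (X' - X) * r σ⁻¹) * r σ := by noncomm_ring
          _ = _ := by rw [h5]
    have h6 : X = X' := (sub_eq_zero.1 h4).symm
    subst h6
    rfl
  haveI : Finite Z := hZfin
  haveI hfinP : Finite (H × {X : M2 (ResidueField 𝒪) // X.trace = 0}) :=
    Finite.of_injective Φ hΦ
  have hfinD : Finite H := by
    refine Finite.of_injective (fun f : H =>
      ((f, ⟨0, by simp⟩) : H × {X : M2 (ResidueField 𝒪) // X.trace = 0})) ?_
    intro f f' h
    exact congrArg Prod.fst h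
  have hcardD : H.ncard ≤ Nat.card (ResidueField 𝒪) ^ N := by
    have h1 := Nat.card_le_card_of_injective Φ hΦ
    rw [Nat.card_prod, natCard_traceZero, Nat.card_coe_set_eq, Nat.card_coe_set_eq] at h1
    have h2 := h1.trans hcard
    rw [pow_add] at h2
    exact Nat.le_of_mul_le_mul_right h2 (pow_pos Nat.card_pos 3)
  -- the quotient is finite
  haveI hk : Finite (DQ.R ⧸ maximalIdeal DQ.R) := by
    have : Finite (ResidueField DQ.R) := Finite.of_surjective _
      (bijective_map_residue DQ.R DQ.residue_surjective).2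
    exact this
  haveI hq2 : Finite (DQ.R ⧸ maximalIdeal DQ.R ^ 2) :=
    Ideal.finite_quotient_pow (IsNoetherian.noetherian _) 2
  haveI hfinq : Finite (DQ.R ⧸ (J ⊔ maximalIdeal DQ.R ^ 2)) :=
    Finite.of_surjective (Ideal.Quotient.factor (le_sup_right : _ ≤ J ⊔ maximalIdeal DQ.R ^ 2))
      (Ideal.Quotient.factor_surjective _)
  obtain ⟨x, hx0, hx⟩ := exists_gens π hπ (J ⊔ maximalIdeal DQ.R ^ 2)
    (by rw [hker]; exact le_sup_right) (hJ𝒪.trans le_sup_left)
    (by rw [hker]; exact sup_le hJ (Ideal.pow_le_self two_ne_zero)) N H hfinD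
    (fun f h1 h2 h3 => ⟨⟨h1, h2⟩, le_sup_left.trans h3⟩) hcardD
  rw [hker, ← sup_assoc] at hx
  exact ⟨x, fun i => by rw [← hker]; exact hx0 i, hx⟩

end Fermat.Agent.H53
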