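import Fermat.Agent.H53TW4
import Fermat.Agent.H53Gen3

set_option autoImplicit false
set_option maxSynthPendingDepth 3
set_option linter.style.haveILetI false
set_option linter.unusedSectionVars false

/-!
# The ring side of the Taylor-Wiles-Kisin levels
-/

noncomputable section

open scoped TensorProduct Pointwise
open IsLocalRing GaloisRep Polynomial

namespace Fermat.Agent.H53

/-- a place above `q`, a Frobenius and a tame generator -/
structure PlaceData (p q : ℕ) [Fact p.Prime] where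
  /-- the place -/
  P : ValuationSubring (AlgebraicClosure ℚ)
  lies : P.LiesOverPrime q
  /-- a Frobenius element -/
  φ : GQ
  frob : P.IsFrobeniusAt φ q
  /-- a tame generator -/
  σ : GQ
  inert : σ ∈ P.inertiaSubgroupIn ℚ
  tame : σ (piSys p q 1) ≠ piSys p q 1

lemma nonempty_placeData {p q : ℕ} [Fact p.Prime] (hq : q.Prime) (hpq : p ≠ q)
    {P : ValuationSubring (AlgebraicClosure ℚ)} (hP : P.LiesOverPrime q) {φ : GQ}
    (hφ : P.IsFrobeniusAt φ q) : ∃ pl : PlaceData p q, pl.P = P ∧ pl.φ = φ := by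
  obtain ⟨σ, hσ, hne⟩ := exists_tame_generator hq hP hpq
  exact ⟨⟨P, hP, φ, hφ, σ, hσ, hne⟩, rfl, rfl⟩

lemma nonempty_placeData' {p q : ℕ} [Fact p.Prime] (hq : q.Prime) (hpq : p ≠ q) :
    Nonempty (PlaceData p q) := by
  obtain ⟨P, hP⟩ := H54.exists_liesOverPrime hq
  obtain ⟨φ, hφ⟩ := H54.exists_isFrobeniusAt hq hP
  obtain ⟨pl, -, -⟩ := nonempty_placeData hq hpq hP hφ
  exact ⟨pl⟩

namespace PlaceData

variable {p q : ℕ} [Fact p.Prime] (pl : PlaceData p q)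

/-- Frobenius in the decomposition group -/
def φD : pl.P.decompositionSubgroup ℚ := ⟨pl.φ, pl.frob.mem_decompositionSubgroup⟩

/-- the tame generator in the decomposition group -/
def σD : pl.P.decompositionSubgroup ℚ := ⟨pl.σ, inertia_le_decomp pl.inert⟩

@[simp] lemma coe_φD : (pl.φD : GQ) = pl.φ := rfl
@[simp] lemma coe_σD : (pl.σD : GQ) = pl.σ := rfl

end PlaceData

section Det

variable {A : Type} [CommRing A] [IsLocalRing A] {p : ℕ} [Fact p.Prime]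
  (hH : ∀ x : A, (∀ n, x ∈ maximalIdeal A ^ n) → x = 0) {ρ : GaloisRepAdic A}
  (hdet : ρ.DetIsCyclotomic p) (b : Module.Basis (Fin 2) A ρ.V)

include hH hdet in
lemma det_eq_of_cyc {σ : GQ} {a : ℕ} (h : ∀ n, Cyc p n σ a) : (toMat ρ.ρ b σ).det = a := by
  obtain ⟨hp, h2⟩ := hdet
  rw [← sub_eq_zero]
  refine hH _ fun n => ?_
  have h3 := h2 n σ a (h n)
  rw [toMat_det ρ b] at h3
  refine (Ideal.span_le.mpr ?_) h3
  rw [Set.singleton_subset_iff, SetLike.mem_coe, Nat.cast_pow]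
  exact Ideal.pow_mem_pow hp n

include hH hdet in
lemma det_inertia {q : ℕ} (hq : q.Prime) {P : ValuationSubring (AlgebraicClosure ℚ)}
    (hP : P.LiesOverPrime q) (hpq : p ≠ q) {τ : GQ} (hτ : τ ∈ P.inertiaSubgroupIn ℚ) :
    (toMat ρ.ρ b τ).det = 1 := by
  have := det_eq_of_cyc hH hdet b (σ := τ) (a := 1) fun n μ hμ => by
    rw [pow_one]
    exact inertia_root_of_unity hq hP Fact.out hpq hτ n hμ
  rwa [Nat.cast_one] at this

include hH hdet in
lemma det_frobenius {q : ℕ} (hq : q.Prime) {P : ValuationSubring (AlgebraicClosure ℚ)}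
    (hP : P.LiesOverPrime q) (hpq : p ≠ q) {φ : GQ} (hφ : P.IsFrobeniusAt φ q) :
    (toMat ρ.ρ b φ).det = q :=
  det_eq_of_cyc hH hdet b fun n _ hμ => frobenius_root_of_unity hq hP hpq hφ n hμ

end Det

/-- a two by two matrix which is residually scalar is congruent to the scalar modulo its traceless
coordinates and the defect of the determinant -/
lemma entries_mem {R : Type} [CommRing R] [IsLocalRing R] (J : Ideal R)
    (h2 : IsUnit (2 : R)) (M : M2 R) {d u : R} (hd : M 0 0 * M 1 1 - M 0 1 * M 1 0 = d)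
    (hdu : d - u ^ 2 ∈ J) (hu : IsUnit u)
    (htr : M 0 0 + M 1 1 - 2 * u ∈ maximalIdeal R) {n : R} (hn : 2 * n = M 0 0 - M 1 1)
    (hnJ : n ∈ J) (h01 : M 0 1 ∈ J) (h10 : M 1 0 ∈ J) (a c : Fin 2) :
    M a c - u * (1 : M2 R) a c ∈ J := by
  obtain ⟨v, hv⟩ := h2
  -- half the trace
  set s : R := (↑v⁻¹ : R) * (M 0 0 + M 1 1) with hs
  have hvi : (↑v⁻¹ : R) * 2 = 1 := by rw [← hv, Units.inv_mul]
  have h2s : 2 * s = M 0 0 + M 1 1 := by
    rw [hs, ← mul_assoc, mul_comm 2, hvi, one_mul]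
  have h4 : (s - u) * (s + u) = (d - u ^ 2) + n * n + M 0 1 * M 1 0 := by
    have h5 : 4 * ((s - u) * (s + u)) = 4 * ((d - u ^ 2) + n * n + M 0 1 * M 1 0) := by
      have e1 : 4 * ((s - u) * (s + u)) = (2 * s) * (2 * s) - 4 * u ^ 2 := by ring
      have e2 : 4 * ((d - u ^ 2) + n * n + M 0 1 * M 1 0) =
          4 * (d - u ^ 2) + (2 * n) * (2 * n) + 4 * (M 0 1 * M 1 0) := by ring
      rw [e1, e2, h2s, hn, ← hd]
      ring
    have h44 : (↑v⁻¹ : R) * (↑v⁻¹ : R) * 4 = 1 := by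
      have : (↑v⁻¹ : R) * (↑v⁻¹ : R) * 4 = ((↑v⁻¹ : R) * 2) * ((↑v⁻¹ : R) * 2) := by ring
      rw [this, hvi, one_mul]
    calc (s - u) * (s + u) = (↑v⁻¹ : R) * (↑v⁻¹ : R) * 4 * ((s - u) * (s + u)) := by
          rw [h44, one_mul]
      _ = (↑v⁻¹ : R) * (↑v⁻¹ : R) * (4 * ((s - u) * (s + u))) := by ring
      _ = (↑v⁻¹ : R) * (↑v⁻¹ : R) * 4 * ((d - u ^ 2) + n * n + M 0 1 * M 1 0) := by
          rw [h5]; ring
      _ = _ := by rw [h44, one_mul]
  have hsu : IsUnit (s + u) := by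
    by_contra hcon
    have h5 := (mem_maximalIdeal _).mpr hcon
    have h6 : 4 * u = 2 * (s + u) - (M 0 0 + M 1 1 - 2 * u) := by
      rw [mul_add, h2s]; ring
    have h7 : 4 * u ∈ maximalIdeal R := by
      rw [h6]
      exact Ideal.sub_mem _ (Ideal.mul_mem_left _ _ h5) htr
    refine (mem_maximalIdeal _).mp h7 (IsUnit.mul ?_ hu)
    have : (4 : R) = v * v := by rw [hv]; norm_num
    rw [this]
    exact v.isUnit.mul v.isUnit
  have hsJ : s - u ∈ J := by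
    have h5 : (s - u) * (s + u) ∈ J := by
      rw [h4]
      exact J.add_mem (J.add_mem hdu (J.mul_mem_left _ hnJ)) (J.mul_mem_left _ h10)
    obtain ⟨w, hw⟩ := hsu
    have h6 : s - u = (s - u) * (s + u) * (↑w⁻¹ : R) := by
      rw [← hw, mul_assoc, Units.mul_inv, mul_one]
    rw [h6]
    exact J.mul_mem_right _ h5
  have h00 : M 0 0 = s + n := by
    have : (2 : R) * M 0 0 = 2 * (s + n) := by rw [mul_add, h2s, hn]; ring
    calc M 0 0 = (↑v⁻¹ : R) * 2 * M 0 0 := by rw [hvi, one_mul]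
      _ = (↑v⁻¹ : R) * 2 * (s + n) := by rw [mul_assoc, this, ← mul_assoc]
      _ = _ := by rw [hvi, one_mul]
  have h11 : M 1 1 = s - n := by
    have : (2 : R) * M 1 1 = 2 * (s - n) := by rw [mul_sub, h2s, hn]; ring
    calc M 1 1 = (↑v⁻¹ : R) * 2 * M 1 1 := by rw [hvi, one_mul]
      _ = (↑v⁻¹ : R) * 2 * (s - n) := by rw [mul_assoc, this, ← mul_assoc]
      _ = _ := by rw [hvi, one_mul]
  fin_cases a <;> fin_cases c
  · show M 0 0 - u * (1 : M2 R) 0 0 ∈ J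
    rw [Matrix.one_apply_eq, mul_one, h00, show s + n - u = (s - u) + n by ring]
    exact J.add_mem hsJ hnJ
  · show M 0 1 - u * (1 : M2 R) 0 1 ∈ J
    rw [Matrix.one_apply_ne (by decide), mul_zero, sub_zero]
    exact h01
  · show M 1 0 - u * (1 : M2 R) 1 0 ∈ J
    rw [Matrix.one_apply_ne (by decide), mul_zero, sub_zero]
    exact h10
  · show M 1 1 - u * (1 : M2 R) 1 1 ∈ J
    rw [Matrix.one_apply_eq, mul_one, h11, show s - n - u = (s - u) - n by ring]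
    exact J.sub_mem hsJ hnJ

lemma isUnit_two_of_odd {A : Type} [CommRing A] [IsLocalRing A] {p : ℕ} [Fact p.Prime]
    (hp2 : p ≠ 2) (hpA : (p : A) ∈ maximalIdeal A) : IsUnit (2 : A) := by
  have h := isUnit_natCast_of_not_dvd (Fact.out : p.Prime) hpA (a := 2) (by
    intro h
    have h1 : p ∣ 2 := by exact_mod_cast h
    exact hp2 ((Nat.prime_dvd_prime_iff_eq Fact.out Nat.prime_two).mp h1))
  exact_mod_cast h

lemma cong_of_map_residue {A : Type} [CommRing A] [IsLocalRing A] {M : M2 A}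
    (h : M.map (residue A) = 1) : Cong (maximalIdeal A) M := by
  rw [cong_iff_map]
  exact h

section Main

variable {𝒪 : Type} [CommRing 𝒪] [IsDomain 𝒪] [IsDiscreteValuationRing 𝒪]
    [IsAdicComplete (maximalIdeal 𝒪) 𝒪]
    {ρbar : ResidualGaloisRep (ResidueField 𝒪)}
    {𝒟 : ∀ ⦃A : Type⦄ [CommRing A] [IsLocalRing A] [Algebra 𝒪 A], GaloisRepAdic A → Prop}
    (D : DeformationRingData 𝒪 ρbar 𝒟) {p : ℕ} [Fact p.Prime]
    (b : Module.Basis (Fin 2) (ResidueField 𝒪) ρbar.V)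
    (b₁ : Module.Basis (Fin 2) D.R D.ρ.V)
    (hb₁ : mapMat (residue D.R) (toMat D.ρ.ρ b₁) =
      mapMat (ResidueField.map (algebraMap 𝒪 D.R)) (toMat ρbar.ρ b))

lemma hausdorff_of_complete {A : Type} [CommRing A] [IsLocalRing A]
    [IsAdicComplete (maximalIdeal A) A] : ∀ x : A, (∀ n, x ∈ maximalIdeal A ^ n) → x = 0 :=
  fun x hx => IsHausdorff.haus (inferInstance : IsHausdorff (maximalIdeal A) A) x fun n => by
    rw [SModEq.zero, smul_eq_mul, Ideal.mul_top]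
    exact hx n

include hb₁ in
/-- residually trivial elements are congruent to one -/
lemma cong_of_residual {σ : GQ} (h : toMat ρbar.ρ b σ = 1) :
    Cong (maximalIdeal D.R) (toMat D.ρ.ρ b₁ σ) := by
  refine cong_of_map_residue ?_
  have h1 := DFunLike.congr_fun hb₁ σ
  have h2 : mapMat (ResidueField.map (algebraMap 𝒪 D.R)) (toMat ρbar.ρ b) σ = 1 := by
    rw [mapMat_apply', h]
    exact Matrix.map_one _ (map_zero _) (map_one _)
  rw [h2] at h1
  exact h1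

include hb₁ in
/-- residually scalar elements are congruent to a scalar -/
lemma residual_scalar {σ : GQ} {u : 𝒪}
    (h : toMat ρbar.ρ b σ = residue 𝒪 u • (1 : M2 (ResidueField 𝒪))) (a c : Fin 2) :
    toMat D.ρ.ρ b₁ σ a c - algebraMap 𝒪 D.R u * (1 : M2 D.R) a c ∈ maximalIdeal D.R := by
  rw [← residue_eq_zero_iff, map_sub, sub_eq_zero, map_mul]
  have h1 := congrFun (congrFun (DFunLike.congr_fun hb₁ σ) a) c
  rw [mapMat_apply, mapMat_apply, h, Matrix.smul_apply, smul_eq_mul, map_mul,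
    ResidueField.map_residue] at h1
  rw [h1]
  congr 1
  rw [Matrix.one_apply, Matrix.one_apply]
  split_ifs <;> simp

/-- the standard relations at a prime `q ≡ 1 mod p` where the residual representation is scalar -/
theorem scalar_relations (hdet : D.ρ.DetIsCyclotomic p) {q : ℕ} (hq : q.Prime)
    (hpq : p ≠ q) (pl : PlaceData p q)
    (hI : ∀ σ ∈ pl.P.inertiaSubgroupIn ℚ, Cong (maximalIdeal D.R) (toMat D.ρ.ρ b₁ σ)) :
    toMat D.ρ.ρ b₁ pl.φ * toMat D.ρ.ρ b₁ pl.σ =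
      toMat D.ρ.ρ b₁ pl.σ ^ q * toMat D.ρ.ρ b₁ pl.φ ∧
    (toMat D.ρ.ρ b₁ pl.σ).det = 1 ∧ (toMat D.ρ.ρ b₁ pl.φ).det = q := by
  refine ⟨?_, det_inertia hausdorff_of_complete hdet b₁ hq pl.lies hpq pl.inert,
    det_frobenius hausdorff_of_complete hdet b₁ hq pl.lies hpq pl.frob⟩
  exact frob_rel_eq hq pl.lies hpq hdet.1 (mcont_toMat D.ρ b₁)
    (fun τ hτ => ⟨0, by simpa using hI τ hτ⟩) hausdorff_of_complete pl.inert pl.frob

variable [Finite (ResidueField 𝒪)]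

include hb₁ in
/-- **The presentation of the deformation ring over the tame rings.** -/
theorem exists_beta (h𝒟 : IsDeformationCondition 𝒪 𝒟) (hdet : D.ρ.DetIsCyclotomic p)
    (hp2 : p ≠ 2)
    (hcent : ∀ X : M2 (ResidueField 𝒪), X.trace = 0 →
      (∀ σ, toMat ρbar.ρ b σ * X = X * toMat ρbar.ρ b σ) → X = 0)
    {τ : Type} [Finite τ] (q : τ → ℕ) (hq : ∀ t, (q t).Prime) (hpq : ∀ t, p ∣ q t - 1)
    (pl : ∀ t, PlaceData p (q t)) (u : τ → 𝒪) (hu : ∀ t, u t ^ 2 = 1)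
    (hφ : ∀ t, toMat ρbar.ρ b (pl t).φ = residue 𝒪 (u t) • (1 : M2 (ResidueField 𝒪)))
    (hσ : ∀ t, toMat ρbar.ρ b (pl t).σ = 1)
    (N : ℕ) (Z : Set (GQ → M2 (ResidueField 𝒪))) (hZfin : Z.Finite)
    (hcard : Z.ncard ≤ Nat.card (ResidueField 𝒪) ^ (N + 3))
    (hcob : ∀ c ∈ Z, ∀ X : M2 (ResidueField 𝒪), X.trace = 0 →
      c + H56.cob (toMat ρbar.ρ b) X ∈ Z)
    (hZ : ∀ (R : GQ →* M2 (DualNumber (ResidueField 𝒪))) (h : MCont _ R),
      (∀ σ, H56.redM _ (R σ) = toMat ρbar.ρ b σ) →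
      (letI := H69.algDual 𝒪; 𝒟 (ofMatrix R h)) → (∀ t, H56.coc R (pl t).φ = 0) →
      (∀ t, H56.coc R (pl t).σ = 0) → H56.coc R ∈ Z) :
    ∃ β : MvPowerSeries ((τ × Fin 6) ⊕ Fin N) 𝒪 →ₐ[𝒪] D.R, Function.Surjective β ∧ ∀ t,
      2 * β (MvPowerSeries.X (Sum.inl (t, 0))) =
        toMat D.ρ.ρ b₁ (pl t).σ 0 0 - toMat D.ρ.ρ b₁ (pl t).σ 1 1 ∧
      β (MvPowerSeries.X (Sum.inl (t, 1))) = toMat D.ρ.ρ b₁ (pl t).σ 0 1 ∧
      β (MvPowerSeries.X (Sum.inl (t, 2))) = toMat D.ρ.ρ b₁ (pl t).σ 1 0 ∧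
      2 * β (MvPowerSeries.X (Sum.inl (t, 3))) =
        toMat D.ρ.ρ b₁ (pl t).φ 0 0 - toMat D.ρ.ρ b₁ (pl t).φ 1 1 ∧
      β (MvPowerSeries.X (Sum.inl (t, 4))) = toMat D.ρ.ρ b₁ (pl t).φ 0 1 ∧
      β (MvPowerSeries.X (Sum.inl (t, 5))) = toMat D.ρ.ρ b₁ (pl t).φ 1 0 := by
  classical
  set r := toMat D.ρ.ρ b₁ with hr
  have h2 : IsUnit (2 : D.R) := isUnit_two_of_odd hp2 hdet.1
  obtain ⟨v, hv⟩ := h2
  have hvi : 2 * (↑v⁻¹ : D.R) = 1 := by rw [← hv, Units.mul_inv]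
  -- the entries in the maximal ideal
  have hσm : ∀ t a c, r (pl t).σ a c - (1 : M2 D.R) a c ∈ maximalIdeal D.R := fun t a c =>
    cong_of_residual D b b₁ hb₁ (hσ t) a c
  have hφm : ∀ t a c, r (pl t).φ a c - algebraMap 𝒪 D.R (u t) * (1 : M2 D.R) a c ∈
      maximalIdeal D.R := fun t a c => residual_scalar D b b₁ hb₁ (hφ t) a c
  have hentry : ∀ (M : M2 D.R) (w : D.R),
      (∀ a c, M a c - w * (1 : M2 D.R) a c ∈ maximalIdeal D.R) →
      (↑v⁻¹ : D.R) * (M 0 0 - M 1 1) ∈ maximalIdeal D.R ∧ M 0 1 ∈ maximalIdeal D.R ∧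
        M 1 0 ∈ maximalIdeal D.R := by
    intro M w hM
    have h00 := hM 0 0
    have h11 := hM 1 1
    have h01 := hM 0 1
    have h10 := hM 1 0
    rw [Matrix.one_apply_eq, mul_one] at h00 h11
    rw [Matrix.one_apply_ne (by decide), mul_zero, sub_zero] at h01 h10
    refine ⟨Ideal.mul_mem_left _ _ ?_, h01, h10⟩
    have := Ideal.sub_mem _ h00 h11
    rwa [sub_sub_sub_cancel_right] at this
  have hσe := fun t => hentry (r (pl t).σ) 1 (fun a c => by rw [one_mul]; exact hσm t a c)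
  have hφe := fun t => hentry (r (pl t).φ) _ (hφm t)
  -- the elements
  let co : M2 D.R → Fin 3 → D.R := fun M => ![(↑v⁻¹ : D.R) * (M 0 0 - M 1 1), M 0 1, M 1 0]
  let y : τ × Fin 6 → D.R := fun t => ![(↑v⁻¹ : D.R) * (r (pl t.1).σ 0 0 - r (pl t.1).σ 1 1),
    r (pl t.1).σ 0 1, r (pl t.1).σ 1 0, (↑v⁻¹ : D.R) * (r (pl t.1).φ 0 0 - r (pl t.1).φ 1 1),
    r (pl t.1).φ 0 1, r (pl t.1).φ 1 0] t.2
  have hy : ∀ t, y t ∈ maximalIdeal D.R := by
    rintro ⟨t, i⟩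
    fin_cases i
    · exact (hσe t).1
    · exact (hσe t).2.1
    · exact (hσe t).2.2
    · exact (hφe t).1
    · exact (hφe t).2.1
    · exact (hφe t).2.2
  set J : Ideal D.R := Ideal.span (Set.range y) ⊔ (maximalIdeal 𝒪).map (algebraMap 𝒪 D.R) with hJ
  have hyJ : ∀ t, y t ∈ J := fun t => Ideal.mem_sup_left (Ideal.subset_span ⟨t, rfl⟩)
  have hp𝒪 : ∀ t, ((q t : D.R) - 1) ∈ J := by
    intro t
    obtain ⟨m, hm⟩ := hpq t
    have h1 : q t = p * m + 1 := by have := (hq t).one_lt; omega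
    have h3 : (q t : D.R) - 1 = algebraMap 𝒪 D.R ((p : 𝒪) * m) := by
      rw [h1]; push_cast; simp
    rw [h3]
    refine Ideal.mem_sup_right (Ideal.mem_map_of_mem _ (Ideal.mul_mem_right _ _ ?_))
    have h4 := hdet.1
    by_contra hcon
    have h5 : IsUnit (p : 𝒪) := by
      by_contra h6
      exact hcon ((mem_maximalIdeal _).mpr h6)
    have h6 := h5.map (algebraMap 𝒪 D.R)
    rw [map_natCast] at h6
    exact (mem_maximalIdeal _).mp h4 h6
  have hne : ∀ t, p ≠ q t := fun t => ne_of_dvd_sub_one Fact.out (hq t) (hpq t)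
  have hσJ : ∀ t a c, r (pl t).σ a c - 1 * (1 : M2 D.R) a c ∈ J := by
    intro t a c
    refine entries_mem J ⟨v, hv⟩ (r (pl t).σ) (d := 1) ?_ (by simp) isUnit_one ?_
      (n := (↑v⁻¹ : D.R) * (r (pl t).σ 0 0 - r (pl t).σ 1 1)) ?_ (hyJ (t, 0)) (hyJ (t, 1))
      (hyJ (t, 2)) a c
    · rw [← Matrix.det_fin_two]
      exact det_inertia hausdorff_of_complete hdet b₁ (hq t) (pl t).lies (hne t) (pl t).inert
    · have h00 := hσm t 0 0
      have h11 := hσm t 1 1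
      rw [Matrix.one_apply_eq] at h00 h11
      have h3 : r (pl t).σ 0 0 + r (pl t).σ 1 1 - 2 * 1 =
        (r (pl t).σ 0 0 - 1) + (r (pl t).σ 1 1 - 1) := by ring
      rw [h3]
      exact Ideal.add_mem _ h00 h11
    · rw [← mul_assoc, hvi, one_mul]
  have hφJ : ∀ t a c, r (pl t).φ a c - algebraMap 𝒪 D.R (u t) * (1 : M2 D.R) a c ∈ J := by
    intro t a c
    have hu1 : algebraMap 𝒪 D.R (u t) ^ 2 = 1 := by rw [← map_pow, hu, map_one]
    refine entries_mem J ⟨v, hv⟩ (r (pl t).φ) (d := (q t : D.R)) ?_ ?_ ?_ ?_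
      (n := (↑v⁻¹ : D.R) * (r (pl t).φ 0 0 - r (pl t).φ 1 1)) ?_ (hyJ (t, 3)) (hyJ (t, 4))
      (hyJ (t, 5)) a c
    · rw [← Matrix.det_fin_two]
      exact det_frobenius hausdorff_of_complete hdet b₁ (hq t) (pl t).lies (hne t) (pl t).frob
    · rw [hu1]
      exact hp𝒪 t
    · exact IsUnit.of_pow_eq_one hu1 two_ne_zero
    · have h00 := hφm t 0 0
      have h11 := hφm t 1 1
      rw [Matrix.one_apply_eq, mul_one] at h00 h11
      have h3 : r (pl t).φ 0 0 + r (pl t).φ 1 1 - 2 * algebraMap 𝒪 D.R (u t) =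
        (r (pl t).φ 0 0 - algebraMap 𝒪 D.R (u t)) +
          (r (pl t).φ 1 1 - algebraMap 𝒪 D.R (u t)) := by ring
      rw [h3]
      exact Ideal.add_mem _ h00 h11
    · rw [← mul_assoc, hvi, one_mul]
  -- generators
  obtain ⟨x, hx, hxJ⟩ := exists_gens_marked ρbar 𝒟 h𝒟 b hcent D b₁ hb₁
    (ι := τ ⊕ τ) (Sum.elim (fun t => (pl t).φ) (fun t => (pl t).σ)) (Sum.elim u (fun _ => 1))
    N Z hZfin hcard hcob
    (fun R h h1 h2 h3 => hZ R h h1 h2 (fun t => h3 (Sum.inl t)) (fun t => h3 (Sum.inr t))) J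
    (sup_le (Ideal.span_le.mpr (by rintro _ ⟨t, rfl⟩; exact hy t)) (map_maximalIdeal_le _))
    le_sup_right (by
      rintro (t | t) a c
      · exact hφJ t a c
      · simp only [Sum.elim_inr, map_one]
        exact hσJ t a c)
  obtain ⟨β, hβ, hβs⟩ := exists_psSurjective (O := 𝒪) (R := D.R) D.residue_surjective
    (σ := (τ × Fin 6) ⊕ Fin N) (Sum.elim y x) (by
      rintro (t | i)
      · exact hy t
      · exact hx i) (by
      refine hxJ.trans (sup_le (sup_le ?_ (sup_le ?_ ?_)) le_sup_right)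
      · refine le_trans (Ideal.span_mono ?_) (le_sup_left.trans le_sup_left)
        rintro _ ⟨i, rfl⟩
        exact ⟨Sum.inr i, rfl⟩
      · refine le_trans (Ideal.span_mono ?_) (le_sup_left.trans le_sup_left)
        rintro _ ⟨t, rfl⟩
        exact ⟨Sum.inl t, rfl⟩
      · exact le_sup_right.trans le_sup_left)
  refine ⟨β, hβs, fun t => ⟨?_, ?_, ?_, ?_, ?_, ?_⟩⟩
  · rw [hβ]
    show 2 * ((↑v⁻¹ : D.R) * _) = _
    rw [← mul_assoc, hvi, one_mul]
  · rw [hβ]; rfl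
  · rw [hβ]; rfl
  · rw [hβ]
    show 2 * ((↑v⁻¹ : D.R) * _) = _
    rw [← mul_assoc, hvi, one_mul]
  · rw [hβ]; rfl
  · rw [hβ]; rfl

end Main

end Fermat.Agent.H53
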