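import Fermat.Agent.H53TW4
import Fermat.Agent.H53Level

set_option autoImplicit false
set_option linter.style.haveILetI false
set_option linter.unusedSectionVars false

/-!
# Characters at Taylor-Wiles primes and arbitrary specialisations
-/

noncomputable section

open IsLocalRing Polynomial GaloisRep
open scoped Pointwise

namespace Fermat.Agent.H53

/-- congruences modulo all the powers of the maximal ideal for infinitely many `n` -/
lemma eq_of_infinitely_often {A : Type} [CommRing A] [IsLocalRing A]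
    (hA : ∀ x : A, (∀ n, x ∈ maximalIdeal A ^ n) → x = 0) {M : M2 A} {N : ℕ}
    (M' : ℕ → M2 A)
    (h : ∀ n, ∃ a < N, ∀ i j, M i j - M' a i j ∈ maximalIdeal A ^ n) : ∃ a < N, M = M' a := by
  classical
  choose f hf1 hf2 using h
  -- infinite pigeonhole
  obtain ⟨a, ha⟩ : ∃ a, ∀ n, ∃ m, n ≤ m ∧ f m = a := by
    by_contra hcon
    push Not at hcon
    choose g hg using hcon
    exact hg (f ((Finset.range N).sup g)) ((Finset.range N).sup g)
      (Finset.le_sup (f := g) (Finset.mem_range.mpr (hf1 _))) rfl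
  refine ⟨a, ?_, ?_⟩
  · obtain ⟨m, -, hm⟩ := ha 0
    rw [← hm]
    exact hf1 m
  · ext i j
    refine sub_eq_zero.mp (hA _ fun n => ?_)
    obtain ⟨m, hm1, hm2⟩ := ha n
    have := hf2 m i j
    rw [hm2] at this
    exact Ideal.pow_le_pow_right hm1 this

section

variable {P : ValuationSubring (AlgebraicClosure ℚ)} {q : ℕ} (hq : q.Prime) (hP : P.LiesOverPrime q)
  {p : ℕ} [Fact p.Prime] (hpq : p ≠ q) {A : Type} [CommRing A] [IsLocalRing A]
  (hpA : (p : A) ∈ maximalIdeal A) {r : GQ →* M2 A} (hr : MCont A r)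
  (hI : ∀ τ ∈ P.inertiaSubgroupIn ℚ, ∃ n, Cong (maximalIdeal A) (r τ ^ p ^ n))

include hq hP hpq hpA hr hI in
/-- if the tame generator has finite order then it generates the image of inertia -/
theorem exists_pow_eq_of_generator (hA : ∀ x : A, (∀ n, x ∈ maximalIdeal A ^ n) → x = 0)
    {σ₀ : GQ} (hσ₀ : σ₀ ∈ P.inertiaSubgroupIn ℚ) (hne : σ₀ (piSys p q 1) ≠ piSys p q 1)
    {N : ℕ} (hN : 0 < N) (h0 : r σ₀ ^ N = 1) {σ : GQ} (hσ : σ ∈ P.inertiaSubgroupIn ℚ) :
    ∃ a < N, r σ = r σ₀ ^ a := by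
  refine eq_of_infinitely_often hA (fun a => r σ₀ ^ a) fun n => ?_
  obtain ⟨a, ha⟩ := exists_pow_cong hq hP hpq hpA hr hI hσ₀ hne hσ n
  refine ⟨a % N, Nat.mod_lt _ hN, ?_⟩
  have h1 : r σ₀ ^ (a % N) = r (σ₀ ^ a) := by
    conv_rhs => rw [map_pow, ← Nat.div_add_mod a N, pow_add, pow_mul, h0, one_pow, one_mul]
  have h2 : Cong (maximalIdeal A ^ n) (r ((σ₀ ^ a)⁻¹ * σ)) := ha
  rw [cong_iff_map] at h2
  have h3 : (r σ).map (Ideal.Quotient.mk (maximalIdeal A ^ n)) =
      (r σ₀ ^ (a % N)).map (Ideal.Quotient.mk (maximalIdeal A ^ n)) := by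
    have h4 : r σ = r (σ₀ ^ a) * r ((σ₀ ^ a)⁻¹ * σ) := by rw [← map_mul, mul_inv_cancel_left]
    rw [h4, Matrix.map_mul, h2, mul_one, h1]
  intro i j
  rw [← Ideal.Quotient.eq_zero_iff_mem, map_sub, sub_eq_zero]
  exact congrFun (congrFun h3 i) j

end

namespace TWSplit

variable {P : ValuationSubring (AlgebraicClosure ℚ)} {A : Type} [CommRing A]
  {r : GQ →* M2 A}

lemma pow_eq_one (s : TWSplit P r) {g : P.decompositionSubgroup ℚ} {N : ℕ}
    (h1 : s.χ₁ g ^ N = 1) (h2 : s.χ₂ g ^ N = 1) : r g ^ N = 1 := by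
  have h := s.eq_one_of_chi (g := g ^ N) (by rw [map_pow, h1]) (by rw [map_pow, h2])
  rwa [Subgroup.coe_pow, map_pow] at h

/-- in a reduced ring, a unipotent element has trivial characters -/
lemma chi_eq_one_of_unipotent [IsReduced A] (s : TWSplit P r) {g : P.decompositionSubgroup ℚ}
    (h : (r g).charpoly = (X - 1) ^ 2) : s.χ₁ g = 1 := by
  have h1 := s.trace_eq g
  have h2 := s.det_eq g
  nontriviality A
  rw [Matrix.charpoly_fin_two] at h
  have h3 : (r g).det = 1 := by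
    have := congrArg (Polynomial.coeff · 0) h
    simpa [Polynomial.coeff_zero_eq_eval_zero] using this
  have h4 : (r g).trace = 2 := by
    have := congrArg (Polynomial.eval 1) h
    simp only [h3, eval_add, eval_sub, eval_pow, eval_X, eval_mul, eval_C, eval_one, map_one,
      one_pow, mul_one, sub_self, ne_eq, OfNat.ofNat_ne_zero, not_false_eq_true, zero_pow] at this
    linear_combination -this
  have h5 : ((s.χ₁ g : A) - 1) ^ 2 = 0 := by
    have e1 : (s.χ₁ g : A) + s.χ₂ g = 2 := by rw [← h1, h4]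
    have e2 : (s.χ₁ g : A) * s.χ₂ g = 1 := by rw [← h2, h3]
    linear_combination (s.χ₁ g : A) * e1 - e2
  ext
  exact sub_eq_zero.mp (pow_eq_zero_iff (two_ne_zero) |>.mp h5)

end TWSplit

section

variable {P : ValuationSubring (AlgebraicClosure ℚ)} {q : ℕ} (hq : q.Prime) (hP : P.LiesOverPrime q)
  {p : ℕ} [Fact p.Prime] (hpq : p ∣ q - 1) {A : Type} [CommRing A] [IsLocalRing A]
  [IsAdicComplete (maximalIdeal A) A]
  (hpA : (p : A) ∈ maximalIdeal A) {r : GQ →* M2 A} (hr : MCont A r)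
  (hI : ∀ τ ∈ P.inertiaSubgroupIn ℚ, Cong (maximalIdeal A) (r τ))

include hq hP hpq hpA hr hI in
/-- the tame generator generates the image of the inertia group -/
theorem TWSplit.exists_pow_eq (s : TWSplit P r) {φ : GQ} (hφ : P.IsFrobeniusAt φ q)
    {σ₀ : GQ} (hσ₀ : σ₀ ∈ P.inertiaSubgroupIn ℚ) (hne : σ₀ (piSys p q 1) ≠ piSys p q 1)
    {σ : GQ} (hσ : σ ∈ P.inertiaSubgroupIn ℚ) : ∃ a : ℕ, r σ = r σ₀ ^ a := by
  have hq1 : 0 < q - 1 := by have := hq.one_lt; omega
  obtain ⟨h1, h2⟩ := s.chi_pow_sub_one hq hP hpq hpA hr hI hφ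
    (τ := ⟨σ₀, inertia_le_decomp hσ₀⟩) hσ₀
  have h3 := s.pow_eq_one h1 h2
  obtain ⟨a, -, ha⟩ := exists_pow_eq_of_generator hq hP (ne_of_dvd_sub_one Fact.out hq hpq) hpA hr
    (fun τ hτ => ⟨0, by simpa using hI τ hτ⟩) hausdorff_of_complete hσ₀ hne hq1 h3 hσ
  exact ⟨a, ha⟩

include hq hP hpq hpA hr hI in
/-- **Specialisations of the universal representation at a Taylor-Wiles prime**: the inertia group
acts trivially if and only if the character `χ₁` of the tame generator specialises to `1`. -/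
theorem TWSplit.map_inertia_iff (s : TWSplit P r) {φ : GQ} (hφ : P.IsFrobeniusAt φ q)
    {σ₀ : P.decompositionSubgroup ℚ} (hσ₀ : (σ₀ : GQ) ∈ P.inertiaSubgroupIn ℚ)
    (hne : (σ₀ : GQ) (piSys p q 1) ≠ piSys p q 1) (hdet : (r σ₀).det = 1)
    {B : Type} [CommRing B] (f : A →+* B) :
    (∀ σ ∈ P.inertiaSubgroupIn ℚ, mapMat f r σ = 1) ↔ f (s.χ₁ σ₀) = 1 := by
  constructor
  · intro h
    exact congrArg Units.val ((s.map f).eq_one_of_eq (h _ hσ₀)).1
  · intro h σ hσ
    obtain ⟨a, ha⟩ := s.exists_pow_eq hq hP hpq hpA hr hI hφ hσ₀ hne hσ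
    have h1 : (s.map f).χ₁ σ₀ = 1 := Units.ext h
    have hdet' : (mapMat f r σ₀).det = 1 := by
      have h5 := congrArg f hdet
      rw [RingHom.map_det, map_one] at h5
      exact h5
    have h2 : (s.map f).χ₂ σ₀ = 1 := by
      have := (s.map f).chi_mul_chi hdet'
      rwa [h1, one_mul] at this
    have h3 := (s.map f).eq_one_of_chi h1 h2
    have h4 : mapMat f r σ = mapMat f r σ₀ ^ a := by
      rw [mapMat_apply', ha, mapMat_apply']
      exact map_pow (f.mapMatrix : M2 A →+* M2 B) _ a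
    rw [h4, h3, one_pow]

end

/-- conjugation of inertia groups: a matrix representation is trivial on the inertia groups of all
the places above `q` if it is for one place -/
lemma inertia_trivial_all {q : ℕ} (hq : q.Prime) {P : ValuationSubring (AlgebraicClosure ℚ)}
    (hP : P.LiesOverPrime q) {B : Type} [CommRing B] {r : GQ →* M2 B}
    (h : ∀ σ ∈ P.inertiaSubgroupIn ℚ, r σ = 1) :
    ∀ P' : ValuationSubring (AlgebraicClosure ℚ), P'.LiesOverPrime q →
      ∀ σ ∈ P'.inertiaSubgroupIn ℚ, r σ = 1 := by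
  intro P' hP' σ hσ
  obtain ⟨g, rfl⟩ := exists_smul_eq_place hq hP hP'
  have h1 : g⁻¹ * σ * g ∈ P.inertiaSubgroupIn ℚ := by
    have := H63.conj_mem_inertiaSubgroupIn (g⁻¹) σ hσ
    rwa [inv_smul_smul, inv_inv] at this
  have h4 : σ = g * (g⁻¹ * σ * g) * g⁻¹ := by group
  rw [h4, map_mul, map_mul, h _ h1, mul_one, ← map_mul, mul_inv_cancel, map_one]

end Fermat.Agent.H53
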