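import Fermat.Agent.H53TWL1
import Fermat.Agent.H53TWL2
import Fermat.Agent.H53Rings

set_option autoImplicit false
set_option maxSynthPendingDepth 3
set_option linter.style.haveILetI false
set_option linter.unusedSectionVars false

/-!
# The Galois side of the Taylor-Wiles-Kisin levels
-/

noncomputable section

open IsLocalRing Module ExtCitation Polynomial GaloisRep
open Fermat.Agent.H55 Fermat.Agent.H56

namespace Fermat.Agent.H53

/-- the set of primes allowed to ramify -/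
def levelSet (p : ℕ) (A : Finset ℕ) {τ : Type} [Fintype τ] (qT : τ → ℕ) {r : ℕ} (qv : Fin r → ℕ) :
    Finset ℕ :=
  {p} ∪ A ∪ Finset.univ.image qT ∪ Finset.univ.image qv

lemma mem_levelSet {p : ℕ} {A : Finset ℕ} {τ : Type} [Fintype τ] {qT : τ → ℕ} {r : ℕ}
    {qv : Fin r → ℕ} {q : ℕ} :
    q ∈ levelSet p A qT qv ↔ q = p ∨ q ∈ A ∨ (∃ t, qT t = q) ∨ ∃ i, qv i = q := by
  simp only [levelSet, Finset.mem_union, Finset.mem_singleton, Finset.mem_image,
    Finset.mem_univ, true_and, or_assoc]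

variable {𝒪 : Type} [CommRing 𝒪] [IsDomain 𝒪] [IsDiscreteValuationRing 𝒪]
    [IsAdicComplete (maximalIdeal 𝒪) 𝒪]

/-- **The Galois side of a Taylor-Wiles-Kisin level** -/
structure GalLevel (p : ℕ) [Fact p.Prime] (ρbar : ResidualGaloisRep (ResidueField 𝒪))
    (b : Module.Basis (Fin 2) (ResidueField 𝒪) ρbar.V) (A : Finset ℕ) {τ : Type} [Fintype τ]
    (qT : τ → ℕ) (pl : ∀ t, PlaceData p (qT t)) (u : τ → 𝒪) (k n : ℕ) (S : Finset ℕ) :
    Type 1 where
  /-- the Taylor-Wiles primes -/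
  qv : Fin (3 * Nat.card τ + k) → ℕ
  prime : ∀ i, (qv i).Prime
  inj : Function.Injective qv
  not_mem_S : ∀ i, qv i ∉ S
  not_mem_A : ∀ i, qv i ∉ A
  ne_qT : ∀ i t, qv i ≠ qT t
  ne_p : ∀ i, qv i ≠ p
  dvd : ∀ i, p ^ (n + 1) ∣ qv i - 1
  /-- the exponent of `p` in `qv i - 1` -/
  e : Fin (3 * Nat.card τ + k) → ℕ
  le_e : ∀ i, n ≤ e i
  e_spec : ∀ i, ∃ m, qv i - 1 = p ^ e i * m ∧ ¬ p ∣ m
  unram : ∀ i, ρbar.IsUnramifiedAt (qv i)
  frob : ∀ i, ∀ P : ValuationSubring (AlgebraicClosure ℚ), P.LiesOverPrime (qv i) →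
    ∀ φ : AlgebraicClosure ℚ ≃ₐ[ℚ] AlgebraicClosure ℚ, P.IsFrobeniusAt φ (qv i) →
      LinearMap.det (ρbar.ρ φ) = 1 ∧
      ∃ α β : ResidueField 𝒪, α ≠ β ∧ LinearMap.charpoly (ρbar.ρ φ) = (X - C α) * (X - C β)
  /-- the universal deformation ring -/
  D : DeformationRingData 𝒪 ρbar (FlatType 𝒪 p (levelSet p A qT qv) A)
  /-- a basis of the universal representation -/
  b₁ : Module.Basis (Fin 2) D.R D.ρ.V
  hb₁ : mapMat (residue D.R) (toMat D.ρ.ρ b₁) =
    mapMat (ResidueField.map (algebraMap 𝒪 D.R)) (toMat ρbar.ρ b)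
  /-- places above the Taylor-Wiles primes, Frobenius and tame generator -/
  plQ : ∀ i, PlaceData p (qv i)
  plQ_eq : ∀ i, (plQ i).P = primeLocalPlace ⟨qv i, prime i⟩
  /-- the splitting at the Taylor-Wiles primes -/
  s : ∀ i, TWSplit (plQ i).P (toMat D.ρ.ρ b₁)
  s_ne : ∀ i, residue D.R ((s i).χ₁ (plQ i).φD) ≠ residue D.R ((s i).χ₂ (plQ i).φD)
  /-- the presentation -/
  β : MvPowerSeries ((τ × Fin 6) ⊕ Fin k) 𝒪 →ₐ[𝒪] D.R
  β_surj : Function.Surjective β
  hX0 : ∀ t, 2 * β (MvPowerSeries.X (Sum.inl (t, 0))) =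
    toMat D.ρ.ρ b₁ (pl t).σ 0 0 - toMat D.ρ.ρ b₁ (pl t).σ 1 1
  hX1 : ∀ t, β (MvPowerSeries.X (Sum.inl (t, 1))) = toMat D.ρ.ρ b₁ (pl t).σ 0 1
  hX2 : ∀ t, β (MvPowerSeries.X (Sum.inl (t, 2))) = toMat D.ρ.ρ b₁ (pl t).σ 1 0
  hX3 : ∀ t, 2 * β (MvPowerSeries.X (Sum.inl (t, 3))) =
    toMat D.ρ.ρ b₁ (pl t).φ 0 0 - toMat D.ρ.ρ b₁ (pl t).φ 1 1
  hX4 : ∀ t, β (MvPowerSeries.X (Sum.inl (t, 4))) = toMat D.ρ.ρ b₁ (pl t).φ 0 1
  hX5 : ∀ t, β (MvPowerSeries.X (Sum.inl (t, 5))) = toMat D.ρ.ρ b₁ (pl t).φ 1 0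
  det_Sg : ∀ t, toMat D.ρ.ρ b₁ (pl t).σ 0 0 * toMat D.ρ.ρ b₁ (pl t).σ 1 1 -
    toMat D.ρ.ρ b₁ (pl t).σ 0 1 * toMat D.ρ.ρ b₁ (pl t).σ 1 0 = 1
  det_Ph : ∀ t, toMat D.ρ.ρ b₁ (pl t).φ 0 0 * toMat D.ρ.ρ b₁ (pl t).φ 1 1 -
    toMat D.ρ.ρ b₁ (pl t).φ 0 1 * toMat D.ρ.ρ b₁ (pl t).φ 1 0 = qT t
  tame : ∀ t, toMat D.ρ.ρ b₁ (pl t).φ * toMat D.ρ.ρ b₁ (pl t).σ =
    toMat D.ρ.ρ b₁ (pl t).σ ^ qT t * toMat D.ρ.ρ b₁ (pl t).φ
  tr_Sg : ∀ t, toMat D.ρ.ρ b₁ (pl t).σ 0 0 + toMat D.ρ.ρ b₁ (pl t).σ 1 1 - 2 ∈ maximalIdeal D.R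
  tr_Ph : ∀ t, toMat D.ρ.ρ b₁ (pl t).φ 0 0 + toMat D.ρ.ρ b₁ (pl t).φ 1 1 -
    2 * algebraMap 𝒪 D.R (u t) ∈ maximalIdeal D.R
  /-- the diamond operators -/
  φ : MvPowerSeries (Fin (3 * Nat.card τ + k)) 𝒪 →ₐ[𝒪] D.R
  φ_X : ∀ i, φ (MvPowerSeries.X i) = ((s i).χ₁ (plQ i).σD : D.R) - 1

section TypeAndExistence

variable [Finite (ResidueField 𝒪)]

/-- the residual representation has the type of the level -/
lemma flatType_residual (p : ℕ) [Fact p.Prime] (ρbar : ResidualGaloisRep (ResidueField 𝒪))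
    (hdet : (GaloisRepAdic.ofResidualGaloisRep ρbar).DetIsCyclotomic p)
    (hflat : (GaloisRepAdic.ofResidualGaloisRep ρbar).IsFlatAt p) (A : Finset ℕ)
    (hAu : ∀ q ∈ A, (GaloisRepAdic.ofResidualGaloisRep ρbar).IsUnipotentOnInertiaAt q)
    (hunr : ∀ q, q.Prime → q ≠ p → q ∉ A →
      (GaloisRepAdic.ofResidualGaloisRep ρbar).IsUnramifiedAt q)
    {τ : Type} [Fintype τ] (qT : τ → ℕ) {r : ℕ} (qv : Fin r → ℕ) :
    FlatType 𝒪 p (levelSet p A qT qv) A (GaloisRepAdic.ofResidualGaloisRep ρbar) := by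
  refine ⟨⟨hdet, hflat, fun q hq hqS => ?_⟩, fun q hq _ _ => hAu q hq⟩
  rw [mem_levelSet] at hqS
  push Not at hqS
  exact hunr q hq hqS.1 hqS.2.1

variable {p : ℕ} [Fact p.Prime]

/-- **Existence of the Galois side of the Taylor-Wiles-Kisin levels.** -/
theorem exists_galLevel (hp2 : p ≠ 2) (hp𝒪 : (p : 𝒪) ∈ maximalIdeal 𝒪) (GW : GWIneq p)
    (F : ∀ [Algebra (ZMod p) (ResidueField 𝒪)], StatementF (k := ResidueField 𝒪) p)
    (ρbar : ResidualGaloisRep (ResidueField 𝒪)) (habs : ρbar.IsAbsolutelyIrreducible)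
    (hdet : (GaloisRepAdic.ofResidualGaloisRep ρbar).DetIsCyclotomic p)
    (hsplit : ∀ σ : AlgebraicClosure ℚ ≃ₐ[ℚ] AlgebraicClosure ℚ,
      ∃ α β : ResidueField 𝒪, LinearMap.charpoly (ρbar.ρ σ) = (X - C α) * (X - C β))
    (hTW : ∀ (K : Type) [Field K] [Algebra (ResidueField 𝒪) K]
      (G : Subgroup (AlgebraicClosure ℚ ≃ₐ[ℚ] AlgebraicClosure ℚ)), G.index = 2 →
      ∀ V : Submodule K (ρbar.baseChange K).V,
        (∀ σ ∈ G, ∀ x ∈ V, (ρbar.baseChange K).ρ σ x ∈ V) → V = ⊥ ∨ V = ⊤)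
    (b : Module.Basis (Fin 2) (ResidueField 𝒪) ρbar.V)
    (hflat : (GaloisRepAdic.ofResidualGaloisRep ρbar).IsFlatAt p) (A : Finset ℕ)
    (hAp : ∀ q ∈ A, q.Prime ∧ q ≠ p)
    (hAram : ∀ q ∈ A, ¬ (GaloisRepAdic.ofResidualGaloisRep ρbar).IsUnramifiedAt q)
    (hAu : ∀ q ∈ A, (GaloisRepAdic.ofResidualGaloisRep ρbar).IsUnipotentOnInertiaAt q)
    (hunr : ∀ q, q.Prime → q ≠ p → q ∉ A →
      (GaloisRepAdic.ofResidualGaloisRep ρbar).IsUnramifiedAt q)
    {τ : Type} [Fintype τ] (qT : τ → ℕ) (hqT : ∀ t, (qT t).Prime) (hqinj : Function.Injective qT)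
    (hqp : ∀ t, p ∣ qT t - 1) (hqA : ∀ t, qT t ∉ A)
    (u : τ → 𝒪) (hu : ∀ t, u t ^ 2 = 1) (pl : ∀ t, PlaceData p (qT t))
    (hpl : ∀ t, (pl t).P = primeLocalPlace ⟨qT t, hqT t⟩)
    (hφ : ∀ t, toMat ρbar.ρ b (pl t).φ = residue 𝒪 (u t) • (1 : M2 (ResidueField 𝒪))) :
    ∃ k₀ : ℕ, ∀ k, k₀ ≤ k → ∀ (n : ℕ) (S : Finset ℕ),
      Nonempty (GalLevel p ρbar b A qT pl u k n S) := by
  classical
  have hpk : ((p : ℕ) : ResidueField 𝒪) = 0 := by
    rw [← map_natCast (residue 𝒪), residue_eq_zero_iff]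
    exact hp𝒪
  haveI hchar : CharP (ResidueField 𝒪) p :=
    (CharP.charP_iff_prime_eq_zero Fact.out).mpr hpk
  letI : Algebra (ZMod p) (ResidueField 𝒪) := ZMod.algebra _ p
  have hqne : ∀ t, p ≠ qT t := fun t => ne_of_dvd_sub_one Fact.out (hqT t) (hqp t)
  set r := toMat ρbar.ρ b with hr
  have hrdet : DetCyc p r := detCyc_toMat ρbar b hdet
  have hfl : FinLev r := finLev_toMat ρbar b
  -- finsets of primes
  let A' : Finset Nat.Primes := A.subtype Nat.Prime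
  let T' : Finset Nat.Primes := Finset.univ.image fun t => (⟨qT t, hqT t⟩ : Nat.Primes)
  have hA' : ∀ q : Nat.Primes, q ∈ A' ↔ (q : ℕ) ∈ A := fun q => Finset.mem_subtype
  have hT' : ∀ q : Nat.Primes, q ∈ T' ↔ ∃ t, qT t = (q : ℕ) := by
    intro q
    simp only [T', Finset.mem_image, Finset.mem_univ, true_and]
    exact ⟨fun ⟨t, ht⟩ => ⟨t, congrArg Subtype.val ht⟩, fun ⟨t, ht⟩ => ⟨t, Subtype.ext ht⟩⟩
  have hT'card : T'.card = Nat.card τ := by
    have hinj' : Function.Injective fun t => (⟨qT t, hqT t⟩ : Nat.Primes) := fun t t' h =>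
      hqinj (congrArg (fun q : Nat.Primes => (q : ℕ)) h)
    have h2 : T'.card = (Finset.univ : Finset τ).card := Finset.card_image_of_injective _ hinj'
    rw [h2, Finset.card_univ, Nat.card_eq_fintype_card]
  have hrI : ∀ q : ℕ, q.Prime → q ≠ p → q ∉ A → ∀ P : ValuationSubring (AlgebraicClosure ℚ),
      P.LiesOverPrime q → ∀ σ ∈ P.inertiaSubgroupIn ℚ, r σ = 1 := by
    intro q hq hqp' hqA' P hP σ hσ
    have h1 := hunr q hq hqp' hqA' P hP σ hσ
    exact (toMat_eq_one_iff (GaloisRepAdic.ofResidualGaloisRep ρbar) b σ).mp h1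
  have hpT : pPrime p ∉ T' := by
    rw [hT']
    rintro ⟨t, ht⟩
    exact hqne t ht.symm
  have hAram' : ∀ q ∈ A', ∃ σ ∈ Iq q, r σ ≠ 1 := by
    intro q hq
    by_contra hcon
    push Not at hcon
    refine hAram q ((hA' q).mp hq) fun P hP σ hσ => ?_
    exact (toMat_eq_one_iff (GaloisRepAdic.ofResidualGaloisRep ρbar) b σ).mpr
      (inertia_trivial_all q.2 (H28.primeLocalPlace_liesOver q) hcon P hP σ hσ)
  have hAu' : ∀ q ∈ A', ∀ σ ∈ Iq q, (r σ).charpoly = (X - 1) ^ 2 := by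
    intro q hq σ hσ
    have h1 := hAu q ((hA' q).mp hq) _ (H28.primeLocalPlace_liesOver q) σ hσ
    rw [toMat_charpoly (GaloisRepAdic.ofResidualGaloisRep ρbar) b] at h1
    exact h1
  have hur' : ∀ q, q ∉ A' → q ≠ pPrime p → ∀ σ ∈ Iq q, r σ = 1 := fun q hq hqp' =>
    hrI q q.2 (fun h => hqp' (Subtype.ext h)) (fun h => hq ((hA' q).mpr h)) _
      (H28.primeLocalPlace_liesOver q)
  have hTs : ∀ t ∈ T', ∀ σ ∈ Dq t, ∃ u : ResidueField 𝒪,
      r σ = u • (1 : M2 (ResidueField 𝒪)) := by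
    intro q hq
    obtain ⟨t, ht⟩ := (hT' q).mp hq
    obtain rfl : q = ⟨qT t, hqT t⟩ := Subtype.ext ht.symm
    refine scalar_D hfl (hur' _ ?_ ?_) (φ := (pl t).φ) ?_ (hφ t)
    · rw [hA']
      exact hqA t
    · intro h
      exact hpT (h ▸ hq)
    · rw [← hpl t]
      exact (pl t).frob
  obtain ⟨s, hs⟩ := selmer_bound hp2 GW ρbar habs hdet hsplit hTW b (r := r) (fun _ => rfl) hrdet
    hfl A' T' hpT hAram' hAu' hur' hTs _ (F r hfl hrdet (fun σ => by
      obtain ⟨α, β, h⟩ := hsplit σ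
      exact ⟨α, β, by rw [← h, hr, toMat_apply, LinearMap.charpoly_toMatrix]⟩))
  refine ⟨s, fun k hk n S => ?_⟩
  obtain ⟨qv, hinj, hqS, hqA', hqur, hqF, h3T, Z, hZfin, hZcard, hZcob, hZmem⟩ :=
    hs (3 * Nat.card τ + k) (by omega) n S
  have hcard : Z.ncard ≤ Nat.card (ResidueField 𝒪) ^ (k + 3) := by
    rw [hT'card] at hZcard
    have h1 : 3 * Nat.card τ + k - 3 * Nat.card τ + 3 = k + 3 := by omega
    rwa [h1] at hZcard
  let qn : Fin (3 * Nat.card τ + k) → ℕ := fun i => (qv i : ℕ)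
  have hqnp : ∀ i, (qn i).Prime := fun i => (qv i).2
  have hqnp' : ∀ i, qn i ≠ p := fun i h => (hqA' i).2.2 (Subtype.ext h)
  have hqnA : ∀ i, qn i ∉ A := fun i h => (hqA' i).1 ((hA' _).mpr h)
  have hdvd : ∀ i, p ∣ qn i - 1 := fun i =>
    dvd_trans (dvd_pow_self p (Nat.succ_ne_zero n)) (hqS i).2
  have hbar := flatType_residual p ρbar hdet hflat A hAu hunr qT qn
  obtain ⟨D⟩ := nonempty_flatType 𝒪 p ρbar (levelSet p A qT qn) A habs hbar
  have hDdet : D.ρ.DetIsCyclotomic p := D.isOfType.1.1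
  have hpD : (p : D.R) ∈ maximalIdeal D.R := hDdet.1
  obtain ⟨b₁, hb₁⟩ := exists_basis_lift ρbar b D.ρ D.residual_isEquiv
  choose plQ hplQ using fun i => exists_stdPlace (p := p) (qv i) (fun h => hqnp' i h.symm)
  have hIQ : ∀ i, ∀ σ ∈ (plQ i).P.inertiaSubgroupIn ℚ,
      Cong (maximalIdeal D.R) (toMat D.ρ.ρ b₁ σ) := fun i σ hσ =>
    cong_of_residual D b b₁ hb₁ (hrI _ (hqnp i) (hqnp' i) (hqnA i) _ (plQ i).lies σ hσ)
  -- the splittings
  have hs : ∀ i, ∃ s : TWSplit (plQ i).P (toMat D.ρ.ρ b₁),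
      residue D.R (s.χ₁ (plQ i).φD) ≠ residue D.R (s.χ₂ (plQ i).φD) := by
    intro i
    obtain ⟨-, α, β, hαβ, hch⟩ := hqF i _ (plQ i).lies (plQ i).φ (plQ i).frob
    set g := ResidueField.map (algebraMap 𝒪 D.R) with hg
    obtain ⟨s, h1, h2⟩ := exists_twSplit (hqnp i) (plQ i).lies (hdvd i) hpD
      (mcont_toMat D.ρ b₁) (hIQ i) (plQ i).frob (a := g α) (b := g β)
      (fun h => hαβ (g.injective h)) (by
        have h3 : (toMat D.ρ.ρ b₁ (plQ i).φ).map (residue D.R) =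
            (toMat ρbar.ρ b (plQ i).φ).map g := DFunLike.congr_fun hb₁ (plQ i).φ
        rw [h3, Matrix.charpoly_map, toMat_apply, LinearMap.charpoly_toMatrix, hch,
          Polynomial.map_mul, Polynomial.map_sub, Polynomial.map_sub, map_X, map_C, map_C])
    refine ⟨s, ?_⟩
    intro h
    apply hαβ
    apply g.injective
    rw [← h1, ← h2]
    exact h
  choose s hsne using hs
  -- the presentation
  have hcent : ∀ X : M2 (ResidueField 𝒪), X.trace = 0 →
      (∀ σ, toMat ρbar.ρ b σ * X = X * toMat ρbar.ρ b σ) → X = 0 := by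
    intro X hX hcomm
    refine H51Dual.eq_zero_of_cob_eq_zero (H51Dual.two_ne_zero' p _ hp2) r
      (H69.burnside ρbar habs b) hX fun σ => ?_
    show r σ * X * r σ⁻¹ - X = 0
    rw [hr, hcomm σ, mul_assoc, ← map_mul, mul_inv_cancel, map_one, mul_one, sub_self]
  have hσ1 : ∀ t, toMat ρbar.ρ b (pl t).σ = 1 := fun t =>
    hrI _ (hqT t) (Ne.symm (hqne t)) (hqA t) _ (pl t).lies _ (pl t).inert
  have hIT : ∀ t, ∀ σ ∈ Iq ⟨qT t, hqT t⟩, r σ = 1 := fun t =>
    hrI _ (hqT t) (Ne.symm (hqne t)) (hqA t) _ (H28.primeLocalPlace_liesOver ⟨qT t, hqT t⟩)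
  obtain ⟨β, hβs, hβ⟩ := exists_beta D b b₁ hb₁
    (isDeformationCondition_flat 𝒪 p (levelSet p A qT qn) A) hDdet hp2 hcent qT hqT hqp pl u hu hφ
    hσ1 k Z hZfin hcard hZcob (by
      intro R h hred htype hφ0 hσ0
      have hgood : GoodLift r R := goodLift_of_det b hdet h hred htype.1.1
      refine hZmem R hgood ⟨h, htype.1.2.1⟩ ?_ ?_ ?_
      · intro q hq σ hσ
        exact charpoly_of_unip h (htype.2 q ((hA' q).mp hq) q.2 (hAp q ((hA' q).mp hq)).2)
          (H28.primeLocalPlace_liesOver q) hσ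
      · intro q hqA1 hqT1 hqp1 hqv1 σ hσ
        refine eq_one_of_unram h (htype.1.2.2 q q.2 ?_) (H28.primeLocalPlace_liesOver q) hσ
        rw [mem_levelSet]
        push Not
        refine ⟨fun h => hqp1 (Subtype.ext h), fun h => hqA1 ((hA' q).mpr h), fun t h =>
          hqT1 ((hT' q).mpr ⟨t, h⟩), fun i h => hqv1 i (Subtype.ext h.symm)⟩
      · intro q hq
        obtain ⟨t, ht⟩ := (hT' q).mp hq
        obtain rfl : q = ⟨qT t, hqT t⟩ := Subtype.ext ht.symm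
        exact coc_eq_zero_D (t := ⟨qT t, hqT t⟩) hgood (hqne t) (pl t) (hpl t) (hIT t) (hφ0 t)
          (hσ0 t))
  -- the relations
  have hrel := fun t => scalar_relations D b₁ hDdet (hqT t) (hqne t) (pl t) fun σ hσ =>
    cong_of_residual D b b₁ hb₁ (hrI _ (hqT t) (Ne.symm (hqne t)) (hqA t) _ (pl t).lies σ hσ)
  have hσc := fun t => cong_of_residual D b b₁ hb₁ (hσ1 t)
  have hφc := fun t => residual_scalar D b b₁ hb₁ (hφ t)
  -- the diamond operators
  obtain ⟨φ, hφX⟩ := exists_psEval (O := 𝒪) (maximalIdeal D.R)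
    (fun i => ((s i).χ₁ (plQ i).σD : D.R) - 1)
    (fun i => ((s i).chi_sub_one_mem _ (hIQ i _ (plQ i).inert)).1)
  -- the exponents
  have he : ∀ i, ∃ e m, ¬ p ∣ m ∧ qn i - 1 = p ^ e * m := fun i =>
    Nat.exists_eq_pow_mul_and_not_dvd (by have := (hqnp i).one_lt; omega) p
      (Fact.out : p.Prime).ne_one
  choose e m hm hem using he
  refine ⟨{ qv := qn
            prime := hqnp
            inj := fun i j h => hinj (Subtype.ext h)
            not_mem_S := fun i => (hqS i).1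
            not_mem_A := hqnA
            ne_qT := fun i t h => (hqA' i).2.1 ((hT' _).mpr ⟨t, h.symm⟩)
            ne_p := hqnp'
            dvd := fun i => (hqS i).2
            e := e
            le_e := fun i => ?_
            e_spec := fun i => ⟨m i, hem i, hm i⟩
            unram := hqur
            frob := hqF
            D := D
            b₁ := b₁
            hb₁ := hb₁
            plQ := plQ
            plQ_eq := hplQ
            s := s
            s_ne := hsne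
            β := β
            β_surj := hβs
            hX0 := fun t => (hβ t).1
            hX1 := fun t => (hβ t).2.1
            hX2 := fun t => (hβ t).2.2.1
            hX3 := fun t => (hβ t).2.2.2.1
            hX4 := fun t => (hβ t).2.2.2.2.1
            hX5 := fun t => (hβ t).2.2.2.2.2
            det_Sg := fun t => by
              rw [← Matrix.det_fin_two]
              exact (hrel t).2.1
            det_Ph := fun t => by
              rw [← Matrix.det_fin_two]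
              exact (hrel t).2.2
            tame := fun t => (hrel t).1
            tr_Sg := fun t => by
              have h1 := hσc t 0 0
              have h2 := hσc t 1 1
              rw [Matrix.one_apply_eq] at h1 h2
              have h3 := Ideal.add_mem _ h1 h2
              convert h3 using 1
              ring
            tr_Ph := fun t => by
              have h1 := hφc t 0 0
              have h2 := hφc t 1 1
              rw [Matrix.one_apply_eq, mul_one] at h1 h2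
              have h3 := Ideal.add_mem _ h1 h2
              convert h3 using 1
              ring
            φ := φ
            φ_X := hφX }⟩
  have h1 : p ^ n ∣ p ^ e i * m i := by
    rw [← hem i]
    exact dvd_trans (pow_dvd_pow p (Nat.le_succ n)) (hqS i).2
  by_contra hlt
  push Not at hlt
  have h2 : p ^ (e i + 1) ∣ p ^ e i * m i := dvd_trans (pow_dvd_pow p hlt) h1
  rw [pow_succ] at h2
  exact hm i (Nat.dvd_of_mul_dvd_mul_left (pow_pos (Fact.out : p.Prime).pos _) h2)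

end TypeAndExistence

namespace GalLevel

variable {p : ℕ} [Fact p.Prime] {ρbar : ResidualGaloisRep (ResidueField 𝒪)}
  {b : Module.Basis (Fin 2) (ResidueField 𝒪) ρbar.V} {A : Finset ℕ} {τ : Type} [Fintype τ]
  {qT : τ → ℕ} {pl : ∀ t, PlaceData p (qT t)} {u : τ → 𝒪} {k n : ℕ} {S : Finset ℕ}
  (L : GalLevel p ρbar b A qT pl u k n S)

/-- the universal representation in matrix form -/
def r : GQ →* M2 L.D.R := toMat L.D.ρ.ρ L.b₁

/-- the diamond parameter `χ₁(σ_i) - 1` -/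
def c (i : Fin (3 * Nat.card τ + k)) : L.D.R := ((L.s i).χ₁ (L.plQ i).σD : L.D.R) - 1

lemma one_add_c (i : Fin (3 * Nat.card τ + k)) :
    1 + L.c i = ((L.s i).χ₁ (L.plQ i).σD : L.D.R) := by
  rw [c]; ring

lemma φ_X' (i : Fin (3 * Nat.card τ + k)) : L.φ (MvPowerSeries.X i) = L.c i := L.φ_X i

lemma detCyc : L.D.ρ.DetIsCyclotomic p := L.D.isOfType.1.1

lemma p_mem : (p : L.D.R) ∈ maximalIdeal L.D.R := L.detCyc.1

lemma p_dvd (i : Fin (3 * Nat.card τ + k)) : p ∣ L.qv i - 1 :=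
  dvd_trans (dvd_pow_self p (Nat.succ_ne_zero n)) (L.dvd i)

lemma mcont : MCont L.D.R L.r := mcont_toMat _ _

/-- the inertia groups at the Taylor-Wiles primes are residually trivial -/
lemma inertia_cong (i : Fin (3 * Nat.card τ + k)) {P : ValuationSubring (AlgebraicClosure ℚ)}
    (hP : P.LiesOverPrime (L.qv i)) :
    ∀ σ ∈ P.inertiaSubgroupIn ℚ, Cong (maximalIdeal L.D.R) (L.r σ) := fun σ hσ =>
  cong_of_residual L.D b L.b₁ L.hb₁ (by
    have h1 := L.unram i P hP σ hσ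
    exact (toMat_eq_one_iff (GaloisRepAdic.ofResidualGaloisRep ρbar) b σ).mp h1)

lemma c_mem (i : Fin (3 * Nat.card τ + k)) : L.c i ∈ maximalIdeal L.D.R :=
  ((L.s i).chi_sub_one_mem _ (L.inertia_cong i (L.plQ i).lies _ (L.plQ i).inert)).1

lemma φ_mem (i : Fin (3 * Nat.card τ + k)) :
    L.φ (MvPowerSeries.X i) ∈ maximalIdeal L.D.R := by
  rw [φ_X']
  exact L.c_mem i

/-- the diamond parameters have the right order -/
lemma one_add_c_pow (i : Fin (3 * Nat.card τ + k)) : (1 + L.c i) ^ p ^ L.e i = 1 := by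
  obtain ⟨m, hm1, hm2⟩ := L.e_spec i
  have h := ((L.s i).chi_pow (L.prime i) (L.plQ i).lies (L.p_dvd i) L.p_mem L.mcont
    (L.inertia_cong i (L.plQ i).lies) (L.plQ i).frob (τ := (L.plQ i).σD) (L.plQ i).inert
    hm1 hm2).1
  rw [one_add_c, ← Units.val_pow_eq_pow_val, h, Units.val_one]

lemma det_inertia_TW (i : Fin (3 * Nat.card τ + k)) {P : ValuationSubring (AlgebraicClosure ℚ)}
    (hP : P.LiesOverPrime (L.qv i)) {σ : GQ} (hσ : σ ∈ P.inertiaSubgroupIn ℚ) :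
    (L.r σ).det = 1 :=
  det_inertia hausdorff_of_complete L.detCyc L.b₁ (L.prime i) hP (Ne.symm (L.ne_p i)) hσ

/-- **Specialisations of the universal representation**: the specialisation at `f` is unramified
at the Taylor-Wiles prime `qv i` if and only if `f (c i) = 0`. -/
theorem unram_iff {B : Type} [CommRing B] (f : L.D.R →+* B) (i : Fin (3 * Nat.card τ + k)) :
    (∀ P : ValuationSubring (AlgebraicClosure ℚ), P.LiesOverPrime (L.qv i) →
      ∀ σ ∈ P.inertiaSubgroupIn ℚ, mapMat f L.r σ = 1) ↔ f (L.c i) = 0 := by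
  have h := (L.s i).map_inertia_iff (L.prime i) (L.plQ i).lies (L.p_dvd i) L.p_mem L.mcont
    (L.inertia_cong i (L.plQ i).lies) (L.plQ i).frob (σ₀ := (L.plQ i).σD) (L.plQ i).inert
    (L.plQ i).tame (L.det_inertia_TW i (L.plQ i).lies (L.plQ i).inert) f
  have h2 : f (L.c i) = 0 ↔ f ((L.s i).χ₁ (L.plQ i).σD) = 1 := by
    rw [c, map_sub, map_one, sub_eq_zero]
  rw [h2, ← h]
  exact ⟨fun h3 => h3 _ (L.plQ i).lies, fun h3 => inertia_trivial_all (L.prime i)
    (L.plQ i).lies h3⟩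

/-- the same for one place -/
theorem unram_iff' {B : Type} [CommRing B] (f : L.D.R →+* B) (i : Fin (3 * Nat.card τ + k))
    {P : ValuationSubring (AlgebraicClosure ℚ)} (hP : P.LiesOverPrime (L.qv i)) :
    (∀ σ ∈ P.inertiaSubgroupIn ℚ, mapMat f L.r σ = 1) ↔ f (L.c i) = 0 := by
  rw [← L.unram_iff]
  exact ⟨fun h => inertia_trivial_all (L.prime i) hP h, fun h => h P hP⟩

/-- **Unipotent specialisations are unramified at Taylor-Wiles primes** -/
theorem c_eq_zero_of_unipotent {B : Type} [CommRing B] [IsReduced B] (f : L.D.R →+* B)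
    (i : Fin (3 * Nat.card τ + k))
    (h : (mapMat f L.r (L.plQ i).σ).charpoly = (X - 1) ^ 2) : f (L.c i) = 0 := by
  have h1 := ((L.s i).map f).chi_eq_one_of_unipotent (g := (L.plQ i).σD) h
  rw [c, map_sub, map_one, sub_eq_zero]
  exact congrArg Units.val h1

/-- the same for the universal representation pushed forward along a local homomorphism -/
theorem isUnramifiedAt_iff {B : Type} [CommRing B] [IsLocalRing B] (f : L.D.R →+* B)
    (hf : IsLocalHom f) (i : Fin (3 * Nat.card τ + k)) :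
    (L.D.ρ.baseChangeAlong f hf).IsUnramifiedAt (L.qv i) ↔ f (L.c i) = 0 := by
  rw [← L.unram_iff f i]
  refine forall₂_congr fun P _ => forall₂_congr fun σ _ => ?_
  rw [toMat_eq_one_iff _ (bcBasis f hf L.D.ρ L.b₁), toMat_bcBasis]
  rfl

theorem c_eq_zero_of_isUnipotent {B : Type} [CommRing B] [IsLocalRing B] [IsReduced B]
    (f : L.D.R →+* B) (hf : IsLocalHom f) (i : Fin (3 * Nat.card τ + k))
    (h : (L.D.ρ.baseChangeAlong f hf).IsUnipotentOnInertiaAt (L.qv i)) : f (L.c i) = 0 := by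
  refine L.c_eq_zero_of_unipotent f i ?_
  have h1 := h _ (L.plQ i).lies _ (L.plQ i).inert
  rw [toMat_charpoly _ (bcBasis f hf L.D.ρ L.b₁), toMat_bcBasis] at h1
  exact h1

end GalLevel

end Fermat.Agent.H53
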