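import Mathlib
import Fermat.Agent.H35DVR

/-!
# Coefficient rings: complete DVR of characteristic zero with enough roots of unity and a
residue field containing `F_{p²}`.
-/

set_option autoImplicit false

open IsLocalRing Polynomial

namespace Fermat.Agent.H55

/-- In a field `k` containing an element of order `p ^ 2 - 1`, every monic quadratic over the prime
field splits. -/
theorem exists_roots_of_orderOf {p : ℕ} [hp : Fact p.Prime] {k : Type*} [Field k] [CharP k p]
    {ξ : k} (hξ : orderOf ξ = p ^ 2 - 1) (t d : ℤ) :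
    ∃ α β : k, α + β = t ∧ α * β = d := by
  classical
  have hp2 : 1 < p ^ 2 := Nat.one_lt_pow two_ne_zero hp.out.one_lt
  let F := AlgebraicClosure k
  have : CharP F p := charP_of_injective_algebraMap (algebraMap k F).injective p
  -- roots in the algebraic closure
  let f : F[X] := X ^ 2 - C (t : F) * X + C (d : F)
  have hdeg : f.degree = 2 := by
    have : f = C 1 * X ^ 2 + C (-(t : F)) * X + C (d : F) := by
      simp only [f, map_neg, C_1]; ring
    rw [this]; exact degree_quadratic one_ne_zero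
  obtain ⟨α, hα⟩ := IsAlgClosed.exists_root f (by rw [hdeg]; decide)
  have hα' : α ^ 2 - t * α + d = 0 := by simpa [f] using hα
  -- Frobenius
  have frob : ∀ x : F, x ^ 2 - t * x + d = 0 → (x ^ p) ^ 2 - t * x ^ p + d = 0 := by
    intro x hx
    have h1 := congrArg (frobenius F p) hx
    rw [map_zero, map_add, map_sub, map_mul, map_pow, frobenius_def, map_intCast,
      map_intCast] at h1
    exact h1
  have hcase : ∀ x : F, x ^ 2 - t * x + d = 0 → x = α ∨ x = t - α := by
    intro x hx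
    have h1 : (x - α) * (x - (t - α)) = 0 := by linear_combination hx - hα'
    rcases mul_eq_zero.1 h1 with h | h
    · left; exact sub_eq_zero.1 h
    · right; exact sub_eq_zero.1 h
  have hfix : α ^ (p ^ 2) = α := by
    have h1 := frob α hα'
    have h2 : α ^ (p ^ 2) = (α ^ p) ^ p := by rw [← pow_mul, sq]
    rw [h2]
    rcases hcase _ h1 with h | h
    · rw [h, h]
    · have h3 : (t - α : F) ^ p = t - α ^ p := by
        have := map_sub (frobenius F p) (t : F) α
        rwa [frobenius_def, map_intCast, frobenius_def] at this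
      rw [h, h3, h]; ring
  -- `X ^ (p^2) - X` has all its roots in `k`
  have hξ0 : ξ ≠ 0 := by
    rintro rfl
    have : orderOf (0 : k) = 0 := orderOf_eq_zero_iff.2 (by
      rw [isOfFinOrder_iff_pow_eq_one]
      rintro ⟨n, hn, h⟩
      rw [zero_pow hn.ne'] at h
      exact zero_ne_one h)
    rw [this] at hξ
    omega
  have key : ∃ a : k, algebraMap k F a = α := by
    by_cases hα0 : α = 0
    · exact ⟨0, by rw [map_zero, hα0]⟩
    have hprim : IsPrimitiveRoot ξ (p ^ 2 - 1) := hξ ▸ IsPrimitiveRoot.orderOf ξ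
    have hprim' : IsPrimitiveRoot (algebraMap k F ξ) (p ^ 2 - 1) :=
      hprim.map_of_injective (algebraMap k F).injective
    have : NeZero (p ^ 2 - 1) := ⟨by omega⟩
    have h1 : α ^ (p ^ 2 - 1) = 1 := by
      have h2 : α ^ (p ^ 2 - 1) * α = 1 * α := by
        rw [← pow_succ, Nat.sub_add_cancel hp2.le, hfix, one_mul]
      exact mul_right_cancel₀ hα0 h2
    obtain ⟨i, -, hi⟩ := hprim'.eq_pow_of_pow_eq_one h1
    exact ⟨ξ ^ i, by rw [map_pow, hi]⟩
  obtain ⟨a, ha⟩ := key
  refine ⟨a, t - a, by ring, ?_⟩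
  apply (algebraMap k F).injective
  rw [map_mul, map_sub, ha, map_intCast, map_intCast]
  linear_combination -hα'

/-- the order of a root of unity of order prime to `p` does not change under reduction -/
theorem orderOf_residue {O : Type*} [CommRing O] [IsDomain O] [IsLocalRing O] {n : ℕ} {ξ : O}
    (hξ : IsPrimitiveRoot ξ (n + 1)) (hn : IsUnit ((n + 1 : ℕ) : O)) :
    orderOf (residue O ξ) = n + 1 := by
  have h1 := hξ.prod_one_sub_pow_eq_order
  have h2 : ∀ i < n, IsUnit (1 - ξ ^ (i + 1)) := by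
    intro i hi
    have h3 : (1 - ξ ^ (i + 1)) ∣ ((n + 1 : ℕ) : O) := by
      push_cast
      rw [← h1]
      exact Finset.dvd_prod_of_mem (fun k => 1 - ξ ^ (k + 1)) (Finset.mem_range.2 hi)
    exact isUnit_of_dvd_unit h3 hn
  apply (orderOf_eq_iff (Nat.succ_pos n)).2
  refine ⟨by rw [← map_pow, hξ.pow_eq_one, map_one], fun m hm hm0 h => ?_⟩
  obtain ⟨i, rfl⟩ : ∃ i, m = i + 1 := ⟨m - 1, by omega⟩
  have h3 := h2 i (by omega)
  have h4 : residue O (1 - ξ ^ (i + 1)) = 0 := by
    rw [map_sub, map_one, map_pow, h, sub_self]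
  rw [residue_eq_zero_iff, mem_maximalIdeal] at h4
  exact h4 h3

/-- **Existence of coefficient rings.** -/
theorem exists_coeffRing (p : ℕ) [hp : Fact p.Prime] (a : ℕ) :
    ∃ (O : Type) (_ : CommRing O) (_ : IsDomain O) (_ : IsDiscreteValuationRing O),
      IsAdicComplete (maximalIdeal O) O ∧ CharZero O ∧ Finite (ResidueField O) ∧
      CharP (ResidueField O) p ∧ (p : O) ∈ maximalIdeal O ∧
      (∀ t d : ℤ, ∃ α β : ResidueField O, α + β = t ∧ α * β = d) ∧
      ∃ ζ : O, IsPrimitiveRoot ζ (p ^ a) := by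
  classical
  have hp2 : 1 < p ^ 2 := Nat.one_lt_pow two_ne_zero hp.out.one_lt
  have hn : p ^ a * (p ^ 2 - 1) ≠ 0 :=
    mul_ne_zero (pow_ne_zero _ hp.out.ne_zero) (by omega)
  have : NeZero (p ^ a * (p ^ 2 - 1)) := ⟨hn⟩
  obtain ⟨ω, hω⟩ := HasEnoughRootsOfUnity.exists_primitiveRoot (AlgebraicClosure ℚ_[p])
    (p ^ a * (p ^ 2 - 1))
  have hωint : IsIntegral ℚ_[p] ω := (AlgebraicClosure.isAlgebraic ℚ_[p]).isIntegral.isIntegral ω
  let L := IntermediateField.adjoin ℚ_[p] {ω}
  have hfd : FiniteDimensional ℚ_[p] L := IntermediateField.adjoin.finiteDimensional hωint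
  let ω' : L := ⟨ω, IntermediateField.mem_adjoin_simple_self ℚ_[p] ω⟩
  have hω' : IsPrimitiveRoot ω' (p ^ a * (p ^ 2 - 1)) :=
    IsPrimitiveRoot.of_map_of_injective (f := algebraMap L (AlgebraicClosure ℚ_[p])) hω
      (algebraMap L (AlgebraicClosure ℚ_[p])).injective
  let O := integralClosure ℤ_[p] L
  have i1 : IsLocalRing O := H35.isLocalRing_integralClosure ℤ_[p] ℚ_[p] L
  have i2 : IsDiscreteValuationRing O := H35.isDiscreteValuationRing_integralClosure ℤ_[p] ℚ_[p] L
  have i3 : IsAdicComplete (maximalIdeal O) O := H35.isAdicComplete_integralClosure ℤ_[p] ℚ_[p] L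
  have i4 : Finite (ResidueField ℤ_[p]) := Finite.of_equiv _ (PadicInt.residueField (p := p)).symm.toEquiv
  have i5 : Finite (ResidueField O) := H35.finite_residueField_integralClosure ℤ_[p] ℚ_[p] L
  have i6 : IsLocalHom (algebraMap ℤ_[p] O) := H35.isLocalHom_integralClosure ℤ_[p] ℚ_[p] L
  have i7 : CharZero O := charZero_of_injective_algebraMap
    (H35.injective_algebraMap_integralClosure ℤ_[p] ℚ_[p] L)
  have hpm : (p : O) ∈ maximalIdeal O := by
    rw [mem_maximalIdeal]
    have h1 : (p : O) = algebraMap ℤ_[p] O (p : ℤ_[p]) := (map_natCast _ p).symm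
    rw [h1]
    intro h
    have h2 := isUnit_of_map_unit (algebraMap ℤ_[p] O) _ h
    exact PadicInt.p_nonunit h2
  have i8 : CharP (ResidueField O) p := by
    have h1 : ((p : ℕ) : ResidueField O) = 0 := by
      rw [← map_natCast (residue O), residue_eq_zero_iff]; exact hpm
    exact (CharP.charP_iff_prime_eq_zero hp.out).2 h1
  let ω₀ : O := ⟨ω', by
    rw [mem_integralClosure_iff]
    refine IsIntegral.of_pow (Nat.pos_of_ne_zero hn) ?_
    rw [hω'.pow_eq_one]
    exact isIntegral_one⟩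
  have hω₀ : IsPrimitiveRoot ω₀ (p ^ a * (p ^ 2 - 1)) :=
    IsPrimitiveRoot.of_map_of_injective (f := algebraMap O L) hω' Subtype.val_injective
  refine ⟨O, inferInstance, inferInstance, i2, i3, i7, i5, i8, hpm, ?_, ?_⟩
  · have hξ : IsPrimitiveRoot (ω₀ ^ (p ^ a)) (p ^ 2 - 1) :=
      hω₀.pow (Nat.pos_of_ne_zero hn) rfl
    obtain ⟨m, hm⟩ : ∃ m, p ^ 2 - 1 = m + 1 := ⟨p ^ 2 - 2, by omega⟩
    rw [hm] at hξ
    have hu : IsUnit ((m + 1 : ℕ) : O) := by
      by_contra hcon
      rw [← mem_nonunits_iff, ← mem_maximalIdeal, ← residue_eq_zero_iff, map_natCast,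
        CharP.cast_eq_zero_iff (ResidueField O) p, ← hm] at hcon
      have h2 : p ∣ p ^ 2 - (p ^ 2 - 1) := Nat.dvd_sub (dvd_pow_self p two_ne_zero) hcon
      have h3 : p ^ 2 - (p ^ 2 - 1) = 1 := by omega
      rw [h3, Nat.dvd_one] at h2
      exact hp.out.one_lt.ne' h2
    have h1 := orderOf_residue hξ hu
    rw [← hm] at h1
    exact fun t d => exists_roots_of_orderOf h1 t d
  · exact ⟨ω₀ ^ (p ^ 2 - 1), hω₀.pow (Nat.pos_of_ne_zero hn) (mul_comm _ _)⟩

section Roots

variable {O : Type*} [CommRing O] [IsDomain O] {p a : ℕ} [hp : Fact p.Prime]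

/-- roots of unity of `p`-power order in extensions come from `O` -/
theorem exists_algebraMap_eq_of_pow {ζ : O} (hζ : IsPrimitiveRoot ζ (p ^ a)) {O' : Type*}
    [CommRing O'] [IsDomain O'] [Algebra O O'] (hinj : Function.Injective (algebraMap O O'))
    {z : O'} (hz : z ^ p ^ a = 1) : ∃ w : Oˣ, w ^ p ^ a = 1 ∧ algebraMap O O' w = z := by
  have hpa : p ^ a ≠ 0 := pow_ne_zero _ hp.out.ne_zero
  have : NeZero (p ^ a) := ⟨hpa⟩
  have h1 : IsPrimitiveRoot (algebraMap O O' ζ) (p ^ a) := hζ.map_of_injective hinj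
  obtain ⟨i, -, hi⟩ := h1.eq_pow_of_pow_eq_one hz
  have hu : (ζ ^ i) ^ p ^ a = 1 := by rw [← pow_mul, mul_comm, pow_mul, hζ.pow_eq_one, one_pow]
  refine ⟨Units.ofPowEqOne (ζ ^ i) (p ^ a) hu hpa, ?_, ?_⟩
  · apply Units.ext
    rw [Units.val_pow_eq_pow_val, Units.val_ofPowEqOne, hu, Units.val_one]
  · rw [Units.val_ofPowEqOne, map_pow, hi]

/-- finiteness of the set of nontrivial `p ^ a`-th roots of unity -/
theorem finite_ntRoots : {z : Oˣ | z ^ p ^ a = 1 ∧ z ≠ 1}.Finite := by
  have : NeZero (p ^ a) := ⟨pow_ne_zero _ hp.out.ne_zero⟩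
  have h1 : Finite (rootsOfUnity (p ^ a) O) := inferInstance
  exact (Set.finite_coe_iff.1 h1).subset fun z hz => (mem_rootsOfUnity _ _).2 hz.1

variable (O p a) in
/-- the nontrivial `p ^ a`-th roots of unity -/
noncomputable def ntRoots : Finset Oˣ := (finite_ntRoots (O := O) (p := p) (a := a)).toFinset

@[simp] theorem mem_ntRoots {z : Oˣ} : z ∈ ntRoots O p a ↔ z ^ p ^ a = 1 ∧ z ≠ 1 := by
  rw [ntRoots, Set.Finite.mem_toFinset]
  exact Iff.rfl

/-- roots of unity of `p`-power order are `1` in the residue field -/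
theorem residue_of_pow [IsLocalRing O] [CharP (ResidueField O) p] {z : O} (hz : z ^ p ^ a = 1) :
    residue O z = 1 := by
  have h1 : (residue O z) ^ p ^ a = 1 := by rw [← map_pow, hz, map_one]
  have h2 : (residue O z - 1) ^ p ^ a = 0 := by
    rw [sub_pow_char_pow, h1, one_pow, sub_self]
  exact sub_eq_zero.1 (pow_eq_zero_iff (pow_ne_zero _ hp.out.ne_zero) |>.1 h2)

theorem sub_one_mem_of_pow [IsLocalRing O] [CharP (ResidueField O) p] {z : O}
    (hz : z ^ p ^ a = 1) : z - 1 ∈ maximalIdeal O := by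
  rw [← residue_eq_zero_iff, map_sub, map_one, residue_of_pow hz, sub_self]

end Roots

end Fermat.Agent.H55
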