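import Mathlib
import Fermat.Agent.H53TWL3
import Fermat.Agent.H55CoeffRing

/-!
# Tame analysis at primes `q ≡ 1 mod p` where the residual representation is unipotent (helper68)

`[A12]` of the MODLIFT assembly: (g2).
-/

set_option autoImplicit false
set_option linter.style.haveILetI false
set_option linter.unusedSectionVars false

noncomputable section

open IsLocalRing Polynomial
open scoped Pointwise
open Fermat.Agent.H53 Fermat.Agent.H55

namespace Fermat.Agent.H68.Tw

section Alg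

/-- in a local ring, `1 + z + ... + z^(n-1)` is a unit if `z ≡ 1` and `n` is a unit -/
theorem isUnit_geom_sum {A : Type*} [CommRing A] [IsLocalRing A] {z : A} {n : ℕ}
    (hz : z - 1 ∈ maximalIdeal A) (hn : IsUnit (n : A)) : IsUnit (∑ i ∈ Finset.range n, z ^ i) := by
  have h1 : (∑ i ∈ Finset.range n, z ^ i) - n ∈ maximalIdeal A := by
    have h2 : (n : A) = ∑ i ∈ Finset.range n, (1 : A) := by simp
    rw [h2, ← Finset.sum_sub_distrib]
    refine Ideal.sum_mem _ fun i _ => ?_
    have h3 : z ^ i - 1 = (∑ j ∈ Finset.range i, z ^ j) * (z - 1) := (geom_sum_mul z i).symm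
    rw [h3]
    exact Ideal.mul_mem_left _ _ hz
  by_contra hcon
  have h4 : (∑ i ∈ Finset.range n, z ^ i) ∈ maximalIdeal A := hcon
  have h5 : (n : A) ∈ maximalIdeal A := by
    have : (n : A) = (∑ i ∈ Finset.range n, z ^ i) - ((∑ i ∈ Finset.range n, z ^ i) - n) := by ring
    rw [this]
    exact Ideal.sub_mem _ h4 h1
  exact h5 hn

/-- **The tame alternative in a local domain containing the eigenvalue.** -/
theorem eq_one_or_pow {A : Type*} [CommRing A] [IsDomain A] [IsLocalRing A] {p : ℕ}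
    (hp : p.Prime) (hp2 : p ≠ 2) (hpA : (p : A) ∈ maximalIdeal A) {q a m : ℕ}
    (hq : 0 < q) (hqa : q - 1 = p ^ a * m) (hm : ¬ p ∣ m) (ha : 0 < a) {z w : A} (hzw : z * w = 1)
    (hz : z - 1 ∈ maximalIdeal A) (h : z ^ q + w ^ q = z + w) :
    z = 1 ∨ z ^ p ^ a = 1 := by
  have hcop : ∀ n : ℕ, ¬ p ∣ n → IsUnit (n : A) := by
    intro n hn
    have h1 : IsCoprime (n : ℤ) (p : ℤ) :=
      Int.isCoprime_iff_gcd_eq_one.mpr ((Nat.Prime.coprime_iff_not_dvd hp).mpr hn).symm
    obtain ⟨x, y, hxy⟩ := h1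
    by_contra hcon
    have h2 : (n : A) ∈ maximalIdeal A := hcon
    have h3 : (1 : A) ∈ maximalIdeal A := by
      have h4 : (1 : A) = (x : A) * n + (y : A) * p := by exact_mod_cast congrArg (Int.cast : ℤ → A) hxy.symm
      rw [h4]
      exact Ideal.add_mem _ (Ideal.mul_mem_left _ _ h2) (Ideal.mul_mem_left _ _ hpA)
    exact (Ideal.ne_top_iff_one _).mp (maximalIdeal.isMaximal A).ne_top h3
  obtain ⟨q', rfl⟩ : ∃ q', q = q' + 1 := ⟨q - 1, by omega⟩
  rw [Nat.add_sub_cancel] at hqa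
  -- `(z^(q+1) - 1) (z^(q-1) - 1) = 0`
  have hw : w ^ (q' + 1) * z ^ (q' + 1) = 1 := by rw [← mul_pow, mul_comm w, hzw, one_pow]
  have h1 : (z ^ (q' + 2) - 1) * (z ^ q' - 1) = 0 := by
    have e1 : (z ^ (q' + 1) + w ^ (q' + 1) - (z + w)) * z ^ (q' + 1) = 0 := by rw [h, sub_self, zero_mul]
    have e2 : w * z ^ (q' + 1) = z ^ q' := by rw [pow_succ' z q', ← mul_assoc, mul_comm w z, hzw, one_mul]
    calc (z ^ (q' + 2) - 1) * (z ^ q' - 1)
        = z ^ (q' + 1) * z ^ (q' + 1) + 1 - z * z ^ (q' + 1) - z ^ q' := by ring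
      _ = z ^ (q' + 1) * z ^ (q' + 1) + w ^ (q' + 1) * z ^ (q' + 1) - z * z ^ (q' + 1) -
          w * z ^ (q' + 1) := by rw [hw, e2]
      _ = _ := by rw [← e1]; ring
  rcases mul_eq_zero.mp h1 with h2 | h2
  · left
    have h3 : (∑ i ∈ Finset.range (q' + 2), z ^ i) * (z - 1) = 0 := by rw [geom_sum_mul, h2]
    have h4 : IsUnit ((q' + 2 : ℕ) : A) := by
      apply hcop
      intro h5
      have h6 : p ∣ q' := by rw [hqa]; exact dvd_mul_of_dvd_left (dvd_pow_self p ha.ne') m
      have h7 : p ∣ 2 := (Nat.dvd_add_right h6).mp h5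
      exact hp2 ((Nat.prime_dvd_prime_iff_eq hp Nat.prime_two).mp h7)
    have h5 := (isUnit_geom_sum hz h4).ne_zero
    exact sub_eq_zero.mp ((mul_eq_zero.mp h3).resolve_left h5)
  · right
    rw [hqa, pow_mul] at h2
    have h3 : (∑ i ∈ Finset.range m, (z ^ p ^ a) ^ i) * (z ^ p ^ a - 1) = 0 := by
      rw [geom_sum_mul, h2]
    have hz' : z ^ p ^ a - 1 ∈ maximalIdeal A := by
      rw [← geom_sum_mul]
      exact Ideal.mul_mem_left _ _ hz
    have h5 := (isUnit_geom_sum hz' (hcop m hm)).ne_zero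
    exact sub_eq_zero.mp ((mul_eq_zero.mp h3).resolve_left h5)

/-- trace of powers of a 2x2 matrix of determinant one -/
theorem trace_pow_eq {B : Type*} [CommRing B] [Nontrivial B] (S : Matrix (Fin 2) (Fin 2) B) (hdet : S.det = 1)
    {K : Type*} [CommRing K] (f : B →+* K) {z w : K} (hzw : z * w = 1) (hT : f S.trace = z + w)
    (n : ℕ) : f (S ^ n).trace = z ^ n + w ^ n := by
  have hch : S ^ 2 = S.trace • S - 1 := by
    have h1 := Matrix.aeval_self_charpoly S
    rw [Matrix.charpoly_fin_two] at h1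
    simp only [map_add, map_sub, map_mul, map_pow, aeval_X, aeval_C, hdet, map_one] at h1
    rw [Algebra.algebraMap_eq_smul_one, smul_mul_assoc, one_mul] at h1
    have h2 : S ^ 2 = S.trace • S - 1 + (S ^ 2 - S.trace • S + 1) := by abel
    rw [h2, h1, add_zero]
  induction n using Nat.strong_induction_on with
  | _ n ih =>
    match n with
    | 0 =>
      rw [pow_zero, pow_zero, pow_zero, Matrix.trace_one, Fintype.card_fin, map_natCast]
      norm_num
    | 1 => rw [pow_one, pow_one, pow_one, hT]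
    | n + 2 =>
      have h1 : S ^ (n + 2) = S.trace • S ^ (n + 1) - S ^ n := by
        rw [pow_add, hch, mul_sub, mul_one, mul_smul_comm, ← pow_succ]
      rw [h1, Matrix.trace_sub, Matrix.trace_smul, smul_eq_mul, map_sub, map_mul, hT,
        ih (n + 1) (by omega), ih n (by omega)]
      linear_combination (z ^ n + w ^ n) * hzw

/-- **Tame alternative.** -/
theorem tame_alt {B : Type} [CommRing B] [IsDomain B] [IsLocalRing B] {p : ℕ} (hp : p.Prime)
    (hp2 : p ≠ 2) (hpB : (p : B) ∈ maximalIdeal B) {q a m : ℕ} (hq : 0 < q)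
    (hqa : q - 1 = p ^ a * m) (hm : ¬ p ∣ m) (ha : 0 < a)
    {Sg Ph : Matrix (Fin 2) (Fin 2) B} (hdS : Sg.det = 1) (hdP : Ph.det ≠ 0)
    (hrel : Ph * Sg = Sg ^ q * Ph) (htr : Sg.trace - 2 ∈ maximalIdeal B) :
    Sg.trace = 2 ∨ ∃ z w : AlgebraicClosure (FractionRing B), z * w = 1 ∧ z ≠ 1 ∧
      z ^ p ^ a = 1 ∧ algebraMap B (AlgebraicClosure (FractionRing B)) Sg.trace = z + w := by
  classical
  set Kb := AlgebraicClosure (FractionRing B) with hKb
  set ι := algebraMap B Kb with hι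
  have hιinj : Function.Injective ι := by
    rw [hι, IsScalarTower.algebraMap_eq B (FractionRing B) Kb]
    exact (algebraMap (FractionRing B) Kb).injective.comp (IsFractionRing.injective B _)
  -- the eigenvalue
  obtain ⟨z, hz⟩ : ∃ z : Kb, z ^ 2 - ι Sg.trace * z + 1 = 0 := by
    have hdeg : (X ^ 2 - C (ι Sg.trace) * X + 1 : Kb[X]).degree ≠ 0 := by
      have : (X ^ 2 - C (ι Sg.trace) * X + 1 : Kb[X]).degree = 2 := by
        compute_degree!
      rw [this]; decide
    obtain ⟨z, hz⟩ := IsAlgClosed.exists_root _ hdeg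
    refine ⟨z, ?_⟩
    simpa [IsRoot] using hz
  set w : Kb := ι Sg.trace - z with hw
  have hzw : z * w = 1 := by rw [hw]; linear_combination -hz
  have hT : ι Sg.trace = z + w := by rw [hw]; ring
  -- a valuation ring dominating `B`
  obtain ⟨V, hV, hloc⟩ := IsLocalRing.exists_factor_valuationRing ι
  set g : B →+* V.toSubring := ι.codRestrict V.toSubring hV with hg
  have hgV : ∀ b, ((g b : V.toSubring) : Kb) = ι b := fun b => rfl
  have hint : ∀ y : Kb, y ^ 2 - ι Sg.trace * y + 1 = 0 → y ∈ V := by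
    intro y hy
    rcases V.mem_or_inv_mem y with h | h
    · exact h
    · have hy0 : y ≠ 0 := by
        rintro rfl
        simp at hy
      have h1 : y = ι Sg.trace - y⁻¹ := by
        apply mul_left_cancel₀ hy0
        rw [mul_sub, mul_inv_cancel₀ hy0]
        linear_combination hy
      rw [h1]
      exact sub_mem (hV _) h
  have hzV : z ∈ V := hint z hz
  have hwV : w ∈ V := by rw [hw]; exact sub_mem (hV _) hzV
  let z' : V := ⟨z, hzV⟩
  let w' : V := ⟨w, hwV⟩
  have hmap : ∀ b ∈ maximalIdeal B, (⟨ι b, hV b⟩ : V) ∈ maximalIdeal V := by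
    intro b hb hcon
    have h1 : IsUnit (g b) := hcon
    exact hb (hloc.map_nonunit b h1)
  have hpV : (p : V) ∈ maximalIdeal V := by
    have h1 := hmap _ hpB
    have h2 : (⟨ι (p : B), hV (p : B)⟩ : V) = (p : V) := by
      apply Subtype.ext
      show ι (p : B) = ((p : V) : Kb)
      rw [map_natCast]; rfl
    rwa [h2] at h1
  have hz1 : z' - 1 ∈ maximalIdeal V := by
    have h1 := hmap _ htr
    have h2 : (z' - 1) ^ 2 = (⟨ι (Sg.trace - 2), hV _⟩ : V) * z' := by
      apply Subtype.ext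
      show (z - 1) ^ 2 = ι (Sg.trace - 2) * z
      rw [map_sub, map_ofNat]
      linear_combination hz
    have h3 : (z' - 1) ^ 2 ∈ maximalIdeal V := by
      rw [h2]
      exact Ideal.mul_mem_right _ _ h1
    exact Ideal.IsPrime.mem_of_pow_mem inferInstance 2 h3
  -- the relation on traces
  have htrq : (Sg ^ q).trace = Sg.trace := by
    have h1 : (Ph * Sg * Ph.adjugate).trace = (Sg ^ q * Ph * Ph.adjugate).trace := by rw [hrel]
    have h2 : (Ph * Sg * Ph.adjugate).trace = Ph.det * Sg.trace := by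
      rw [Matrix.trace_mul_comm, ← mul_assoc, Matrix.adjugate_mul, Matrix.smul_mul, one_mul,
        Matrix.trace_smul, smul_eq_mul]
    have h3 : (Sg ^ q * Ph * Ph.adjugate).trace = Ph.det * (Sg ^ q).trace := by
      rw [mul_assoc, Matrix.mul_adjugate, Matrix.mul_smul, mul_one, Matrix.trace_smul, smul_eq_mul]
    rw [h2, h3] at h1
    exact (mul_left_cancel₀ hdP h1).symm
  have hpow : z ^ q + w ^ q = z + w := by
    rw [← trace_pow_eq Sg hdS ι hzw hT q, htrq, hT]
  have halt := eq_one_or_pow (A := V) hp hp2 hpV hq hqa hm ha (z := z') (w := w')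
    (Subtype.ext hzw) hz1 (Subtype.ext hpow)
  rcases halt with h | h
  · left
    have h1 : z = 1 := congrArg Subtype.val h
    have h2 : w = 1 := by rw [h1, one_mul] at hzw; exact hzw
    apply hιinj
    rw [hT, h1, h2, map_ofNat]
    norm_num
  · by_cases h1 : z = 1
    · left
      have h2 : w = 1 := by rw [h1, one_mul] at hzw; exact hzw
      apply hιinj
      rw [hT, h1, h2, map_ofNat]
      norm_num
    · right
      exact ⟨z, w, hzw, h1, congrArg Subtype.val h, hT⟩

/-- **Tame alternative** with roots of unity in the coefficient ring. -/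
theorem tame_alt_ntRoots {O B : Type} [CommRing O] [IsDomain O] [CommRing B] [IsDomain B]
    [IsLocalRing B] [Algebra O B] (hinj : Function.Injective (algebraMap O B)) {p : ℕ}
    [Fact p.Prime]
    (hp2 : p ≠ 2) (hpB : (p : B) ∈ maximalIdeal B) {q a m : ℕ} (hq : 0 < q)
    (hqa : q - 1 = p ^ a * m) (hm : ¬ p ∣ m) (ha : 0 < a) {ζ : O}
    (hζ : IsPrimitiveRoot ζ (p ^ a))
    {Sg Ph : Matrix (Fin 2) (Fin 2) B} (hdS : Sg.det = 1) (hdP : Ph.det ≠ 0)
    (hrel : Ph * Sg = Sg ^ q * Ph) (htr : Sg.trace - 2 ∈ maximalIdeal B) :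
    Sg.trace = 2 ∨ ∃ z ∈ ntRoots O p a, Sg.trace = algebraMap O B ((z : O) + (z⁻¹ : Oˣ)) := by
  rcases tame_alt Fact.out hp2 hpB hq hqa hm ha hdS hdP hrel htr with h | ⟨z, w, hzw, hz1, hz, hT⟩
  · exact Or.inl h
  · right
    have hBK : Function.Injective (algebraMap B (AlgebraicClosure (FractionRing B))) := by
      rw [IsScalarTower.algebraMap_eq B (FractionRing B) (AlgebraicClosure (FractionRing B))]
      exact (algebraMap (FractionRing B) (AlgebraicClosure (FractionRing B))).injective.comp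
        (IsFractionRing.injective B _)
    letI : Algebra O (AlgebraicClosure (FractionRing B)) :=
      ((algebraMap B (AlgebraicClosure (FractionRing B))).comp (algebraMap O B)).toAlgebra
    have hOK : Function.Injective (algebraMap O (AlgebraicClosure (FractionRing B))) :=
      hBK.comp hinj
    obtain ⟨u, hu, huz⟩ := exists_algebraMap_eq_of_pow hζ hOK hz
    have huz' : algebraMap B (AlgebraicClosure (FractionRing B)) (algebraMap O B (u : O)) = z :=
      huz
    refine ⟨u, ?_, ?_⟩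
    · rw [mem_ntRoots]
      refine ⟨hu, ?_⟩
      rintro rfl
      apply hz1
      rw [← huz, Units.val_one, map_one]
    · apply hBK
      rw [hT, map_add, map_add, huz']
      have h1 : algebraMap B (AlgebraicClosure (FractionRing B))
          (algebraMap O B ((u⁻¹ : Oˣ) : O)) = w := by
        have h2 : algebraMap B (AlgebraicClosure (FractionRing B))
            (algebraMap O B ((u⁻¹ : Oˣ) : O)) * z = 1 := by
          rw [← huz', ← map_mul, ← map_mul, Units.inv_mul, map_one, map_one]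
        have h3 : z ≠ 0 := by rintro rfl; simp at hzw
        apply mul_right_cancel₀ h3
        rw [h2, mul_comm, hzw]
      rw [h1]

end Alg

section Galois

theorem charpoly_eq_of_trace_det {B : Type*} [CommRing B] [Nontrivial B]
    {M : Matrix (Fin 2) (Fin 2) B} (h1 : M.trace = 2) (h2 : M.det = 1) :
    M.charpoly = (X - 1) ^ 2 := by
  rw [Matrix.charpoly_fin_two, h1, h2, map_ofNat, map_one]
  ring

theorem trace_det_of_charpoly {B : Type*} [CommRing B] [Nontrivial B]
    {M : Matrix (Fin 2) (Fin 2) B} {t d : B} (h : M.charpoly = X ^ 2 - C t * X + C d) :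
    M.trace = t ∧ M.det = d := by
  rw [Matrix.charpoly_fin_two] at h
  constructor
  · have h1 := congrArg (Polynomial.coeff · 1) h
    simpa [coeff_X, coeff_one, coeff_C] using h1
  · have h1 := congrArg (Polynomial.coeff · 0) h
    simpa [coeff_X, coeff_one, coeff_C] using h1

theorem trace_of_charpoly_unip {B : Type*} [CommRing B] [Nontrivial B]
    {M : Matrix (Fin 2) (Fin 2) B} (h : M.charpoly = (X - 1) ^ 2) : M.trace = 2 :=
  (trace_det_of_charpoly (t := 2) (d := 1) (by rw [h, map_ofNat, map_one]; ring)).1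

variable {P : ValuationSubring (AlgebraicClosure ℚ)} {q : ℕ} {p : ℕ} [Fact p.Prime]
  {B : Type} [CommRing B] [IsLocalRing B] {r : GQ →* M2 B}

/-- If the tame generator acts with trace `2` (and inertia has determinant `1`) then the whole
inertia group does. -/
theorem trace_inertia_of_generator (hq : q.Prime) (hP : P.LiesOverPrime q) (hpq : p ≠ q)
    (hH : ∀ x : B, (∀ n, x ∈ maximalIdeal B ^ n) → x = 0) (hpB : (p : B) ∈ maximalIdeal B)
    (hr : MCont B r) (hI : ∀ τ ∈ P.inertiaSubgroupIn ℚ, ∃ n, Cong (maximalIdeal B) (r τ ^ p ^ n))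
    {σ₀ : GQ} (hσ₀ : σ₀ ∈ P.inertiaSubgroupIn ℚ) (hne : σ₀ (piSys p q 1) ≠ piSys p q 1)
    (hdet : (r σ₀).det = 1) (htr : (r σ₀).trace = 2) {σ : GQ} (hσ : σ ∈ P.inertiaSubgroupIn ℚ) :
    (r σ).trace = 2 := by
  rw [← sub_eq_zero]
  refine hH _ fun n => ?_
  obtain ⟨a, ha⟩ := exists_pow_cong hq hP hpq hpB hr hI hσ₀ hne hσ n
  have h1 : r σ = r σ₀ ^ a * r ((σ₀ ^ a)⁻¹ * σ) := by
    rw [← map_pow, ← map_mul, mul_inv_cancel_left]
  have h2 : (r σ₀ ^ a).trace = 2 := by
    have := trace_pow_eq (r σ₀) hdet (RingHom.id B) (z := 1) (w := 1) (one_mul 1)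
      (by rw [RingHom.id_apply, htr]; norm_num) a
    rw [RingHom.id_apply] at this
    rw [this, one_pow]
    norm_num
  have h3 : Ideal.Quotient.mk (maximalIdeal B ^ n) (r σ).trace =
      Ideal.Quotient.mk (maximalIdeal B ^ n) 2 := by
    have h4 : ((r σ).map (Ideal.Quotient.mk (maximalIdeal B ^ n))).trace =
        ((r σ₀ ^ a).map (Ideal.Quotient.mk (maximalIdeal B ^ n))).trace := by
      rw [h1, Matrix.map_mul, (cong_iff_map _ _).mp ha, mul_one]
    have h5 : ∀ M : M2 B, (M.map (Ideal.Quotient.mk (maximalIdeal B ^ n))).trace =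
        Ideal.Quotient.mk (maximalIdeal B ^ n) M.trace := fun M =>
      (AddMonoidHom.map_trace (Ideal.Quotient.mk (maximalIdeal B ^ n)) M).symm
    rw [h5, h5, h2] at h4
    exact h4
  exact Ideal.Quotient.eq.mp h3

/-- the unipotence of inertia, for all places above `q` -/
theorem unipotent_of_generator (hq : q.Prime) (hP : P.LiesOverPrime q) (hpq : p ≠ q)
    (hH : ∀ x : B, (∀ n, x ∈ maximalIdeal B ^ n) → x = 0) (hpB : (p : B) ∈ maximalIdeal B)
    (hr : MCont B r) (hI : ∀ τ ∈ P.inertiaSubgroupIn ℚ, ∃ n, Cong (maximalIdeal B) (r τ ^ p ^ n))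
    (hdet : ∀ τ ∈ P.inertiaSubgroupIn ℚ, (r τ).det = 1)
    {σ₀ : GQ} (hσ₀ : σ₀ ∈ P.inertiaSubgroupIn ℚ) (hne : σ₀ (piSys p q 1) ≠ piSys p q 1)
    (htr : (r σ₀).trace = 2) :
    ∀ P' : ValuationSubring (AlgebraicClosure ℚ), P'.LiesOverPrime q →
      ∀ σ ∈ P'.inertiaSubgroupIn ℚ, (r σ).charpoly = (X - 1) ^ 2 := by
  intro P' hP' σ hσ
  obtain ⟨g, rfl⟩ := exists_smul_eq_place hq hP hP'
  have h1 : g⁻¹ * σ * g ∈ P.inertiaSubgroupIn ℚ := by
    have := H63.conj_mem_inertiaSubgroupIn (g⁻¹) σ hσ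
    rwa [inv_smul_smul, inv_inv] at this
  have h2 := trace_inertia_of_generator hq hP hpq hH hpB hr hI hσ₀ hne (hdet _ hσ₀) htr h1
  have h2' := hdet _ h1
  have h3 : r σ = r g * r (g⁻¹ * σ * g) * r g⁻¹ := by
    rw [← map_mul, ← map_mul]
    congr 1
    group
  have hu : r g⁻¹ * r g = 1 := by rw [← map_mul, inv_mul_cancel, map_one]
  apply charpoly_eq_of_trace_det
  · rw [h3, Matrix.trace_mul_comm, ← mul_assoc, hu, one_mul, h2]
  · have hu'' := congrArg Matrix.det hu
    rw [Matrix.det_mul, Matrix.det_one] at hu''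
    rw [h3, Matrix.det_mul, Matrix.det_mul, h2', mul_one, mul_comm, hu'']

/-- **Tame alternative for representations**: at a place above `q ≡ 1 mod p` where the tame
generator is residually unipotent. Either the representation is unipotent on all inertia groups
above `q`, or the trace of the tame generator is `z + z⁻¹` for a non-trivial `p^a`-th root of
unity `z` of `O`. -/
theorem unipotent_or_trace {O : Type} [CommRing O] [IsDomain O] [IsDomain B] [Algebra O B]
    (hinj : Function.Injective (algebraMap O B)) (hp2 : p ≠ 2) (hq : q.Prime)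
    (hP : P.LiesOverPrime q) (hpB : (p : B) ∈ maximalIdeal B)
    (hH : ∀ x : B, (∀ n, x ∈ maximalIdeal B ^ n) → x = 0)
    {a m : ℕ} (hqa : q - 1 = p ^ a * m) (hm : ¬ p ∣ m) (ha : 0 < a) {ζ : O}
    (hζ : IsPrimitiveRoot ζ (p ^ a)) (hr : MCont B r)
    (hI : ∀ τ ∈ P.inertiaSubgroupIn ℚ, ∃ n, Cong (maximalIdeal B) (r τ ^ p ^ n))
    (hdet : ∀ τ ∈ P.inertiaSubgroupIn ℚ, (r τ).det = 1) {σ₀ φ : GQ}
    (hσ₀ : σ₀ ∈ P.inertiaSubgroupIn ℚ) (hne : σ₀ (piSys p q 1) ≠ piSys p q 1)
    (hrel : r φ * r σ₀ = r σ₀ ^ q * r φ) (htr : (r σ₀).trace - 2 ∈ maximalIdeal B) :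
    (∀ P' : ValuationSubring (AlgebraicClosure ℚ), P'.LiesOverPrime q →
      ∀ σ ∈ P'.inertiaSubgroupIn ℚ, (r σ).charpoly = (X - 1) ^ 2) ∨
    ∃ z ∈ ntRoots O p a, (r σ₀).trace = algebraMap O B ((z : O) + (z⁻¹ : Oˣ)) := by
  have hpq : p ≠ q := by
    rintro rfl
    have h1 : p ∣ p - 1 := by rw [hqa]; exact dvd_mul_of_dvd_left (dvd_pow_self p ha.ne') m
    have h2 := Nat.le_of_dvd (by have := hq.two_le; omega) h1
    have := hq.two_le
    omega
  have hdP : (r φ).det ≠ 0 := by
    intro h0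
    have h1 : r φ * r φ⁻¹ = 1 := by rw [← map_mul, mul_inv_cancel, map_one]
    have h2 := congrArg Matrix.det h1
    rw [Matrix.det_mul, h0, zero_mul, Matrix.det_one] at h2
    exact zero_ne_one h2
  rcases tame_alt_ntRoots hinj hp2 hpB hq.pos hqa hm ha hζ (hdet _ hσ₀) hdP hrel htr with h | h
  · exact Or.inl (unipotent_of_generator hq hP hpq hH hpB hr hI hdet hσ₀ hne h)
  · exact Or.inr h

end Galois

end Fermat.Agent.H68.Tw
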