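import Mathlib
import Fermat.Prelude.Def_GaloisRep_Residual

set_option autoImplicit false
set_option linter.style.haveILetI false
set_option linter.unusedSimpArgs false

open scoped TensorProduct

namespace Fermat.Agent.H69

/-- Burnside's theorem over an algebraically closed field. -/
theorem burnside_end {K V : Type*} [Field K] [IsAlgClosed K] [AddCommGroup V] [Module K V]
    [Module.Finite K V] [Nontrivial V] (A : Subalgebra K (Module.End K V))
    (h : ∀ W : Submodule K V, (∀ a ∈ A, ∀ x ∈ W, a x ∈ W) → W = ⊥ ∨ W = ⊤) : A = ⊤ := by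
  classical
  haveI : IsSimpleModule A V := by
    haveI : Nontrivial (Submodule A V) := by
      refine ⟨⊥, ⊤, ?_⟩
      intro hbt
      obtain ⟨v, hv⟩ := exists_ne (0 : V)
      have : v ∈ (⊤ : Submodule A V) := trivial
      rw [← hbt] at this
      exact hv (by simpa using this)
    haveI : IsSimpleOrder (Submodule A V) := by
      refine ⟨fun W => ?_⟩
      have hW := h (W.restrictScalars K) (by
        intro a ha x hx
        exact W.smul_mem (⟨a, ha⟩ : A) hx)
      rcases hW with hW | hW
      · left
        ext x
        have : x ∈ W.restrictScalars K ↔ x ∈ (⊥ : Submodule K V) := by rw [hW]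
        simpa using this
      · right
        ext x
        have : x ∈ W.restrictScalars K ↔ x ∈ (⊤ : Submodule K V) := by rw [hW]
        simpa using this
    exact (isSimpleModule_iff A V).mpr inferInstance
  rw [eq_top_iff]
  intro f _
  have hscal := (IsSimpleModule.algebraMap_end_bijective_of_isAlgClosed (A := A) (V := V) K).2
  let f' : Module.End (Module.End A V) V :=
    { toFun := f
      map_add' := map_add f
      map_smul' := by
        intro c x
        obtain ⟨t, rfl⟩ := hscal c
        simp }
  obtain ⟨s, hs⟩ := (Module.Finite.fg_top : (⊤ : Submodule K V).FG)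
  obtain ⟨r, hr⟩ := jacobson_density (R := A) (M := V) f' s
  have : f = (r : Module.End K V) := by
    refine LinearMap.ext_on hs ?_
    intro m hm
    exact hr m hm
  rw [this]
  exact r.2

/-- Matrix version of Burnside's theorem for absolutely irreducible residual Galois
representations. -/
theorem burnside {k : Type} [Field k] (ρ : ResidualGaloisRep k) (h : ρ.IsAbsolutelyIrreducible)
    (b : Module.Basis (Fin 2) k ρ.V) :
    Submodule.span k (Set.range fun σ => LinearMap.toMatrix b b (ρ.ρ σ)) = ⊤ := by
  classical
  by_contra hne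
  obtain ⟨ℓ, hℓ0, hℓ⟩ := Submodule.exists_le_ker_of_lt_top _ (lt_top_iff_ne_top.mpr hne)
  let K := AlgebraicClosure k
  let ρ' := ρ.baseChange K
  let b' : Module.Basis (Fin 2) K (K ⊗[k] ρ.V) := Algebra.TensorProduct.basis K b
  haveI : Module.Finite K (K ⊗[k] ρ.V) := Module.Finite.of_basis b'
  haveI : Nontrivial (K ⊗[k] ρ.V) := ⟨⟨b' 0, b' 1, fun h01 => by
    have := b'.injective h01
    exact absurd this (by decide)⟩⟩
  -- the algebra generated by the image is everything
  have htop : Algebra.adjoin K (Set.range ρ'.ρ) = ⊤ := by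
    apply burnside_end
    intro W hW
    refine h W ?_
    intro σ x hx
    exact hW _ (Algebra.subset_adjoin ⟨σ, rfl⟩) x hx
  have hspan : Submodule.span K (Set.range ρ'.ρ) = ⊤ := by
    have h1 : (Algebra.adjoin K (Set.range ρ'.ρ)).toSubmodule =
        Submodule.span K (Submonoid.closure (Set.range ρ'.ρ) : Set (Module.End K (K ⊗[k] ρ.V))) :=
      Algebra.adjoin_eq_span (R := K) (s := Set.range ρ'.ρ)
    have h2 : (Submonoid.closure (Set.range ρ'.ρ) : Set (Module.End K (K ⊗[k] ρ.V))) =
        Set.range ρ'.ρ := by
      have : Submonoid.closure (Set.range ρ'.ρ) = MonoidHom.mrange ρ'.ρ := by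
        rw [← MonoidHom.coe_mrange, Submonoid.closure_eq]
      rw [this, MonoidHom.coe_mrange]
    rw [htop, h2] at h1
    rw [← h1]
    rfl
  -- extension of the functional
  let L : Matrix (Fin 2) (Fin 2) K →ₗ[K] K :=
    { toFun := fun N => ∑ i, ∑ j, algebraMap k K (ℓ (Matrix.single i j 1)) * N i j
      map_add' := by
        intro x y
        simp only [Matrix.add_apply, mul_add, Finset.sum_add_distrib]
      map_smul' := by
        intro c x
        simp only [Matrix.smul_apply, smul_eq_mul, RingHom.id_apply]
        rw [Finset.mul_sum]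
        refine Finset.sum_congr rfl fun i _ => ?_
        rw [Finset.mul_sum]
        refine Finset.sum_congr rfl fun j _ => ?_
        ring }
  have hL : ∀ M : Matrix (Fin 2) (Fin 2) k, L (M.map (algebraMap k K)) = algebraMap k K (ℓ M) := by
    intro M
    have hM : M = ∑ i, ∑ j, (M i j) • Matrix.single i j (1 : k) := by
      conv_lhs => rw [Matrix.matrix_eq_sum_single M]
      refine Finset.sum_congr rfl fun i _ => Finset.sum_congr rfl fun j _ => ?_
      rw [Matrix.smul_single, smul_eq_mul, mul_one]
    conv_rhs => rw [hM]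
    simp only [map_sum, map_smul, smul_eq_mul, map_mul]
    show ∑ i, ∑ j, algebraMap k K (ℓ (Matrix.single i j 1)) * (M.map (algebraMap k K)) i j = _
    refine Finset.sum_congr rfl fun i _ => Finset.sum_congr rfl fun j _ => ?_
    rw [Matrix.map_apply, mul_comm]
  have hker : ∀ f : Module.End K (K ⊗[k] ρ.V), L (LinearMap.toMatrix b' b' f) = 0 := by
    intro f
    have hf : f ∈ Submodule.span K (Set.range ρ'.ρ) := by rw [hspan]; trivial
    have hle : Submodule.span K (Set.range ρ'.ρ) ≤
        LinearMap.ker (L ∘ₗ (LinearMap.toMatrix b' b').toLinearMap) := by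
      rw [Submodule.span_le]
      rintro _ ⟨σ, rfl⟩
      show L (LinearMap.toMatrix b' b' (ρ'.ρ σ)) = 0
      have : LinearMap.toMatrix b' b' (ρ'.ρ σ) =
          (LinearMap.toMatrix b b (ρ.ρ σ)).map (algebraMap k K) :=
        LinearMap.toMatrix_baseChange K (ρ.ρ σ) b b
      rw [this, hL]
      have h0 : ℓ (LinearMap.toMatrix b b (ρ.ρ σ)) = 0 :=
        hℓ (Submodule.subset_span ⟨σ, rfl⟩)
      rw [h0, map_zero]
    exact hle hf
  apply hℓ0
  ext M
  have h1 := hker (Matrix.toLin b' b' (M.map (algebraMap k K)))
  rw [LinearMap.toMatrix_toLin, hL] at h1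
  simpa using h1

end Fermat.Agent.H69
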