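import Mathlib
import Fermat.Agent.H68TwTame
import Fermat.Agent.H53Uni
import Fermat.Agent.H69Burnside
import Fermat.Agent.H30Type
import Fermat.Agent.H30Act
import Fermat.Agent.H62New

/-!
# Representations attached to the points of Hecke algebras (helper68)

`[A12]` of the MODLIFT assembly: (g1), for an arbitrary deformation type `𝒟`.
-/

set_option autoImplicit false
set_option linter.style.haveILetI false
set_option linter.unusedSectionVars false

noncomputable section

open IsLocalRing Polynomial CuspForm GaloisRep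
open Fermat.Agent.H53 Fermat.Agent.H30

namespace Fermat.Agent.H68.Tw

section Irreducible

/-- An absolutely irreducible residual representation stays irreducible after any extension of
the coefficient field. -/
theorem isIrreducible_baseChangeAlong {k k' : Type} [Field k] [Field k'] (φ : k →+* k')
    (ρ : ResidualGaloisRep k) (h : ρ.IsAbsolutelyIrreducible) :
    (ρ.baseChangeAlong φ).IsIrreducible := by
  classical
  intro W hW
  let b : Module.Basis (Fin 2) k ρ.V := Module.finBasisOfFinrankEq _ ρ.V ρ.finrank_eq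
  let c := rbcBasis φ ρ b
  by_cases hW0 : W = ⊥
  · exact Or.inl hW0
  right
  obtain ⟨w, hw, hw0⟩ := Submodule.exists_mem_ne_zero_of_ne_bot hW0
  -- all matrices preserve `W`
  have hact : ∀ M : M2 k, ∀ x ∈ W, c.equivFun.symm ((M.map φ).mulVec (c.equivFun x)) ∈ W := by
    intro M
    have hM : M ∈ Submodule.span k (Set.range fun σ => LinearMap.toMatrix b b (ρ.ρ σ)) := by
      rw [H69.burnside ρ h b]; trivial
    induction hM using Submodule.span_induction with
    | mem M hM =>
      obtain ⟨σ, rfl⟩ := hM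
      intro x hx
      have h1 : (LinearMap.toMatrix b b (ρ.ρ σ)).map φ = toMat (ρ.baseChangeAlong φ).ρ c σ := by
        rw [toMat_rbcBasis]; rfl
      have h2 : c.equivFun.symm (((LinearMap.toMatrix b b (ρ.ρ σ)).map φ).mulVec (c.equivFun x)) =
          (ρ.baseChangeAlong φ).ρ σ x := by
        rw [h1, LinearEquiv.symm_apply_eq, toMat_apply]
        exact LinearMap.toMatrix_mulVec_repr c c ((ρ.baseChangeAlong φ).ρ σ) x
      rw [h2]
      exact hW σ x hx
    | zero =>
      intro x _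
      have h1 : (0 : M2 k).map φ = 0 := by ext i j; simp
      rw [h1, Matrix.zero_mulVec, map_zero]
      exact W.zero_mem
    | add M N _ _ hM hN =>
      intro x hx
      have h1 : (M + N).map φ = M.map φ + N.map φ := by ext i j; simp
      rw [h1, Matrix.add_mulVec, map_add]
      exact W.add_mem (hM x hx) (hN x hx)
    | smul a M _ hM =>
      intro x hx
      have h1 : (a • M).map φ = φ a • M.map φ := by ext i j; simp
      rw [h1, Matrix.smul_mulVec, map_smul]
      exact W.smul_mem _ (hM x hx)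
  -- a non-zero coordinate of `w`
  obtain ⟨j, hj⟩ : ∃ j, c.equivFun w j ≠ 0 := by
    by_contra hcon
    push Not at hcon
    apply hw0
    rw [← LinearEquiv.map_eq_zero_iff c.equivFun]
    exact funext hcon
  have hbasis : ∀ i, c i ∈ W := by
    intro i
    have h1 := hact (Matrix.single i j 1) w hw
    have h2 : ((Matrix.single i j (1 : k)).map φ).mulVec (c.equivFun w) =
        (c.equivFun w j) • (Pi.single i 1 : Fin 2 → k') := by
      ext l
      have h3 : (Matrix.single i j (1 : k)).map φ = Matrix.single i j (1 : k') := by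
        rw [Matrix.map_single, map_one]
      rw [h3, Matrix.single_mulVec]
      simp [Function.update_apply, Pi.single_apply]
    rw [h2, map_smul] at h1
    have h4 : c.equivFun.symm (Pi.single i 1) = c i := by
      rw [Module.Basis.equivFun_symm_apply]
      simp [Pi.single_apply]
    rw [h4] at h1
    exact (W.smul_mem_iff hj).mp h1
  rw [eq_top_iff]
  intro x _
  rw [← c.sum_repr x]
  exact Submodule.sum_mem _ fun i _ => W.smul_mem _ (hbasis i)

theorem isIrreducible_of_isEquiv {k : Type} [Field k] {ρ ρ' : ResidualGaloisRep k}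
    (e : ρ.IsEquiv ρ') (h : ρ'.IsIrreducible) : ρ.IsIrreducible := by
  obtain ⟨e⟩ := e
  intro W hW
  have h1 := h (W.map (e.toLinearEquiv : ρ.V →ₗ[k] ρ'.V)) (by
    rintro σ _ ⟨x, hx, rfl⟩
    exact ⟨ρ.ρ σ x, hW σ x hx, e.map_apply σ x⟩)
  rcases h1 with h1 | h1
  · left
    rwa [Submodule.map_eq_bot_iff] at h1
  · right
    have h2 := congrArg (Submodule.comap (e.toLinearEquiv : ρ.V →ₗ[k] ρ'.V)) h1
    rwa [Submodule.comap_map_eq_of_injective e.toLinearEquiv.injective, Submodule.comap_top] at h2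

end Irreducible

section Local

/-- An `O`-algebra homomorphism from a finite local `O`-algebra to a local `O`-algebra is
local. -/
theorem isLocalHom_of_finite {O T O' : Type*} [CommRing O] [IsLocalRing O] [CommRing T]
    [IsLocalRing T] [Algebra O T] [Module.Finite O T] [CommRing O'] [IsLocalRing O'] [Algebra O O']
    [IsLocalHom (algebraMap O O')] (lam : T →ₐ[O] O') : IsLocalHom (lam : T →+* O') := by
  have hcomap : (maximalIdeal O').comap (lam : T →+* O') = maximalIdeal T := by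
    haveI : ((maximalIdeal O').comap (lam : T →+* O')).IsPrime := Ideal.IsPrime.comap _
    apply IsLocalRing.eq_maximalIdeal
    apply Ideal.isMaximal_of_isIntegral_of_isMaximal_comap (R := O)
    rw [Ideal.comap_comap]
    have h1 : (lam : T →+* O').comp (algebraMap O T) = algebraMap O O' := lam.comp_algebraMap
    rw [h1]
    have h2 : (maximalIdeal O').comap (algebraMap O O') = maximalIdeal O := by
      have h3 := (IsLocalRing.local_hom_TFAE (algebraMap O O')).out 0 4
      exact h3.mp inferInstance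
    rw [h2]
    infer_instance
  exact ((IsLocalRing.local_hom_TFAE (lam : T →+* O')).out 0 4).mpr hcomap

end Local

section Point

variable {O : Type} [CommRing O] [IsDomain O] [IsDiscreteValuationRing O]
  [IsAdicComplete (maximalIdeal O) O] {ρbar : ResidualGaloisRep (ResidueField O)}
  {𝒟 : ∀ ⦃A : Type⦄ [CommRing A] [IsLocalRing A] [Algebra O A], GaloisRepAdic A → Prop}
  (D : DeformationRingData O ρbar 𝒟)
  {O' : Type} [CommRing O'] [IsLocalRing O'] [Algebra O O'] [IsLocalHom (algebraMap O O')]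

/-- the representation attached to a point of the deformation ring -/
abbrev ptRep (f : D.R →ₐ[O] O') (hf : IsLocalHom (f : D.R →+* O')) : GaloisRepAdic O' :=
  D.ρ.baseChangeAlong (f : D.R →+* O') hf

theorem ptRep_toMat (f : D.R →ₐ[O] O') (hf : IsLocalHom (f : D.R →+* O'))
    (b₁ : Module.Basis (Fin 2) D.R D.ρ.V) :
    toMat (ptRep D f hf).ρ (bcBasis (f : D.R →+* O') hf D.ρ b₁) =
      mapMat (f : D.R →+* O') (toMat D.ρ.ρ b₁) :=
  toMat_bcBasis _ _ _ _

/-- **The residual representation at a point is irreducible.** -/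
theorem ptRep_residual_irreducible (f : D.R →ₐ[O] O') (hf : IsLocalHom (f : D.R →+* O')) :
    (ptRep D f hf).residual.IsIrreducible :=
  isIrreducible_of_isEquiv (residual_bc_isEquiv ρbar f hf D.ρ D.residual_isEquiv)
    (isIrreducible_baseChangeAlong _ ρbar D.absIrr)

/-- characteristic polynomials at a point -/
theorem ptRep_charpoly (f : D.R →ₐ[O] O') (hf : IsLocalHom (f : D.R →+* O'))
    (b₁ : Module.Basis (Fin 2) D.R D.ρ.V) (σ : GQ) :
    LinearMap.charpoly ((ptRep D f hf).ρ σ) =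
      (mapMat (f : D.R →+* O') (toMat D.ρ.ρ b₁) σ).charpoly := by
  rw [← ptRep_toMat D f hf b₁, toMat_charpoly _ (bcBasis (f : D.R →+* O') hf D.ρ b₁)]

theorem ptRep_isUnipotent_iff (f : D.R →ₐ[O] O') (hf : IsLocalHom (f : D.R →+* O'))
    (b₁ : Module.Basis (Fin 2) D.R D.ρ.V) (q : ℕ) :
    (ptRep D f hf).IsUnipotentOnInertiaAt q ↔
      ∀ P : ValuationSubring (AlgebraicClosure ℚ), P.LiesOverPrime q →
        ∀ σ ∈ P.inertiaSubgroupIn ℚ,
          (mapMat (f : D.R →+* O') (toMat D.ρ.ρ b₁) σ).charpoly = (X - 1) ^ 2 := by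
  refine forall₂_congr fun P _ => forall₂_congr fun σ _ => ?_
  rw [ptRep_charpoly D f hf b₁]

end Point

section Hecke

variable {p : ℕ} [Fact p.Prime] {N : ℕ} [NeZero N] {S : Finset ℕ}
  {O : Type} [CommRing O] [IsDomain O] [IsDiscreteValuationRing O]
  [IsAdicComplete (maximalIdeal O) O] [Finite (ResidueField O)] [CharZero O]
  {θ : heckeAlgebra N 2 (↑S : Set ℕ) →+* ResidueField O}
  {ρbar : ResidualGaloisRep (ResidueField O)}
  {𝒟 : ∀ ⦃A : Type⦄ [CommRing A] [IsLocalRing A] [Algebra O A], GaloisRepAdic A → Prop}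
  (D : DeformationRingData O ρbar 𝒟)
  {O' : Type} [CommRing O'] [IsLocalRing O'] [Algebra O O'] [IsLocalHom (algebraMap O O')]

/-- the eigenvalues of the Hecke operators at a point, as a function on natural numbers -/
def aOf (lam : heckeLocal N (↑S : Set ℕ) O θ →ₐ[O] O') (ℓ : ℕ) : O' :=
  open Classical in
  if h : ℓ.Prime ∧ ¬ ℓ ∣ N ∧ ℓ ∉ (↑S : Set ℕ) then
    lam (heckeLocal.π N (↑S : Set ℕ) O θ (heckeAlgebra.T h.1 h.2.1 h.2.2)) else 0

theorem aOf_eq (lam : heckeLocal N (↑S : Set ℕ) O θ →ₐ[O] O') {ℓ : ℕ} (hℓ : ℓ.Prime)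
    (hℓN : ¬ ℓ ∣ N) (hℓS : ℓ ∉ (↑S : Set ℕ)) :
    aOf lam ℓ = lam (heckeLocal.π N (↑S : Set ℕ) O θ (heckeAlgebra.T hℓ hℓN hℓS)) := by
  rw [aOf, dif_pos ⟨hℓ, hℓN, hℓS⟩]

theorem aOf_idx (hNS : ∀ q : ℕ, q.Prime → q ∣ N → q ∈ (↑S : Set ℕ))
    (lam : heckeLocal N (↑S : Set ℕ) O θ →ₐ[O] O')
    (i : {ℓ : ℕ // ℓ.Prime ∧ ℓ ∉ (↑S : Set ℕ)}) :
    aOf lam i.1 = lam (heckeLocal.π N (↑S : Set ℕ) O θ (TIdx N (↑S : Set ℕ) hNS i)) :=
  aOf_eq lam i.2.1 (fun h => i.2.2 (hNS i.1 i.2.1 h)) i.2.2

/-- **The representation attached to the point `lam ∘ π` of the deformation ring is attached to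
the eigensystem `lam`.** -/
theorem ptRep_isAttached (hNS : ∀ q : ℕ, q.Prime → q ∣ N → q ∈ S)
    {H : HeckeGaloisRepDatum N (↑S : Set ℕ) O θ (heckeLocal N (↑S : Set ℕ) O θ)}
    (hH : H.π = heckeLocal.π N (↑S : Set ℕ) O θ)
    (b₁ : Module.Basis (Fin 2) D.R D.ρ.V)
    (b₂ : Module.Basis (Fin 2) (heckeLocal N (↑S : Set ℕ) O θ) H.ρ.V)
    (π : D.R →ₐ[O] heckeLocal N (↑S : Set ℕ) O θ)
    (hb₂ : toMat H.ρ.ρ b₂ = mapMat (π : D.R →+* heckeLocal N (↑S : Set ℕ) O θ) (toMat D.ρ.ρ b₁))
    (lam : heckeLocal N (↑S : Set ℕ) O θ →ₐ[O] O')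
    (hf : IsLocalHom ((lam.comp π : D.R →ₐ[O] O') : D.R →+* O')) :
    H62.IsAttached S (aOf lam) (ptRep D (lam.comp π) hf) := by
  intro ℓ hℓ hℓS A hA φ hφ
  have hℓS' : ℓ ∉ (↑S : Set ℕ) := by simpa using hℓS
  have hℓN : ¬ ℓ ∣ N := fun h => hℓS (hNS ℓ hℓ h)
  obtain ⟨h1, h2⟩ := trace_det_frob hH b₂ hℓ hℓN hℓS' hA hφ
  have h3 : mapMat ((lam.comp π : D.R →ₐ[O] O') : D.R →+* O') (toMat D.ρ.ρ b₁) φ =
      (toMat H.ρ.ρ b₂ φ).map (lam : heckeLocal N (↑S : Set ℕ) O θ →+* O') := by
    rw [hb₂]; rfl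
  rw [ptRep_charpoly D _ hf b₁, h3, Matrix.charpoly_map, Matrix.charpoly_fin_two, h1, h2,
    aOf_eq lam hℓ hℓN hℓS']
  rw [Polynomial.map_add, Polynomial.map_sub, Polynomial.map_mul, Polynomial.map_pow,
    Polynomial.map_X, Polynomial.map_C, Polynomial.map_C, map_natCast, Algebra.algebraMap_self,
    RingHom.id_apply]
  rfl

end Hecke

end Fermat.Agent.H68.Tw
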