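import Fermat.Agent.H53POrd
import Fermat.Agent.H68TwAtt

set_option autoImplicit false
set_option maxSynthPendingDepth 3
set_option linter.style.haveILetI false
set_option linter.unusedSectionVars false

/-!
# The points of the deformation rings of the levels with raising primes
-/

noncomputable section

open IsLocalRing Module ExtCitation Polynomial GaloisRep
open Fermat.Agent.H55 Fermat.Agent.H56 Fermat.Agent.H68.Tw

namespace Fermat.Agent.H53

variable {𝒪 : Type} [CommRing 𝒪] [IsDomain 𝒪] [IsDiscreteValuationRing 𝒪]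
    [IsAdicComplete (maximalIdeal 𝒪) 𝒪] [Finite (ResidueField 𝒪)]

section General

variable {p : ℕ} [Fact p.Prime] {ρbar : ResidualGaloisRep (ResidueField 𝒪)}
  {b : Module.Basis (Fin 2) (ResidueField 𝒪) ρbar.V} {pd : PData p ρbar b} {A : Finset ℕ}
  {τ ι : Type} [Fintype τ] [Fintype ι] {qT : τ → ℕ} {pl : ∀ t, PlaceData p (qT t)} {u : τ → 𝒪}
  {qB : ι → ℕ} {plB : ∀ i, PlaceData p (qB i)} {uB : ι → 𝒪} {k n : ℕ} {S : Finset ℕ}
  (L : GalLevelB p ρbar b pd A qT pl u qB plB uB k n S)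

namespace GalLevelB

/-- the level raising relation at the prime `qB i` -/
theorem h_eq (i : ι) : ∃ v : L.D.R, IsUnit v ∧
    (L.r (plB i).φ 0 0 + L.r (plB i).φ 1 1) ^ 2 - ((qB i : L.D.R) + 1) ^ 2 =
      v * (L.mB (Sum.inl i) 0 *
        (L.mB (Sum.inl i) 0 + algebraMap 𝒪 L.D.R (uB i * ((qB i : 𝒪) + 1)))) := by
  obtain ⟨v, hv, h⟩ := (L.isBMarks i).h_eq
  refine ⟨v, hv, ?_⟩
  rw [Matrix.trace_fin_two] at h
  rw [map_mul, map_add, map_natCast, map_one]
  exact h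

variable {O' : Type} [CommRing O'] [IsDomain O'] [IsLocalRing O']
  [IsAdicComplete (maximalIdeal O') O'] [Algebra 𝒪 O'] [IsLocalHom (algebraMap 𝒪 O')]
  (f : L.D.R →ₐ[𝒪] O') (hf : IsLocalHom (f : L.D.R →+* O'))

include hf

omit [IsDomain O'] [IsAdicComplete (maximalIdeal O') O'] [IsLocalHom (algebraMap 𝒪 O')] in
lemma pt_mem {x : L.D.R} (hx : x ∈ maximalIdeal L.D.R) : f x ∈ maximalIdeal O' :=
  haveI := hf
  map_nonunit (f : L.D.R →+* O') x hx

/-- at the Taylor-Wiles primes: unipotent ⇔ unramified ⇔ the diamond parameter vanishes. -/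
theorem pt_isUnipotent_iff (j : Fin (numB τ ι pd.ε k)) :
    (ptRep L.D f hf).IsUnipotentOnInertiaAt (L.qv j) ↔ f (L.c j) = 0 := by
  constructor
  · intro h
    have h1 := (ptRep_isUnipotent_iff L.D f hf L.b₁ (L.qv j)).mp h _ (L.plQ j).lies _
      (L.plQ j).inert
    exact L.c_eq_zero_of_unipotent (f : L.D.R →+* O') j h1
  · intro h
    have h1 := (L.unram_iff (f : L.D.R →+* O') j).mpr h
    refine (ptRep_isUnipotent_iff L.D f hf L.b₁ (L.qv j)).mpr fun P hP σ hσ => ?_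
    have h2 := h1 P hP σ hσ
    have h3 : mapMat (f : L.D.R →+* O') (toMat L.D.ρ.ρ L.b₁) σ = 1 := h2
    rw [h3, Matrix.charpoly_one, Fintype.card_fin]

/-- unipotent points at the primes of `T` -/
theorem pt_uniElt (t : τ) (h : (ptRep L.D f hf).IsUnipotentOnInertiaAt (qT t)) :
    f (L.r (pl t).σ 0 0 + L.r (pl t).σ 1 1 - 2) = 0 := by
  have h1 := (ptRep_isUnipotent_iff L.D f hf L.b₁ (qT t)).mp h _ (pl t).lies _ (pl t).inert
  have h2 := trace_eq_two_of_charpoly h1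
  rw [Matrix.trace_fin_two] at h2
  rw [map_sub, map_add, map_ofNat]
  exact sub_eq_zero.mpr h2

/-- the trace of the tame generator at the primes of `T` -/
theorem pt_trace_of_not_unipotent (hinj : Function.Injective (algebraMap 𝒪 O')) (hp2 : p ≠ 2)
    {t : τ} (hqT : (qT t).Prime) (hunr : ρbar.IsUnramifiedAt (qT t))
    {a m : ℕ} (hqa : qT t - 1 = p ^ a * m) (hm : ¬ p ∣ m) (ha : 0 < a) {ζ : 𝒪}
    (hζ : IsPrimitiveRoot ζ (p ^ a))
    (h : ¬ (ptRep L.D f hf).IsUnipotentOnInertiaAt (qT t)) :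
    ∃ z ∈ ntRoots 𝒪 p a, f (L.r (pl t).σ).trace = algebraMap 𝒪 O' ((z : 𝒪) + (z⁻¹ : 𝒪ˣ)) := by
  have hpqT : p ≠ qT t := by
    intro hpe
    have h1 : p ∣ qT t - 1 := by rw [hqa]; exact dvd_mul_of_dvd_left (dvd_pow_self p ha.ne') m
    have h2 := Nat.le_of_dvd (by have := hqT.two_le; omega) h1
    have := hqT.two_le
    omega
  have hmap : ∀ x ∈ maximalIdeal L.D.R, f x ∈ maximalIdeal O' := fun x hx => L.pt_mem f hf hx
  have hpO' : (p : O') ∈ maximalIdeal O' := by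
    have h1 := hmap _ L.p_mem
    rwa [map_natCast] at h1
  have hcong : ∀ σ ∈ (pl t).P.inertiaSubgroupIn ℚ, Cong (maximalIdeal L.D.R) (L.r σ) := fun σ hσ =>
    cong_of_residual L.D b L.b₁ L.hb₁ (by
      have h1 := hunr (pl t).P (pl t).lies σ hσ
      exact (toMat_eq_one_iff (GaloisRepAdic.ofResidualGaloisRep ρbar) b σ).mp h1)
  have hcong' : ∀ σ ∈ (pl t).P.inertiaSubgroupIn ℚ,
      Cong (maximalIdeal O') (mapMat (f : L.D.R →+* O') L.r σ) := by
    intro σ hσ i j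
    have h1 := hmap _ (hcong σ hσ i j)
    rw [map_sub] at h1
    have h2 : f ((1 : M2 L.D.R) i j) = (1 : M2 O') i j := by
      rw [Matrix.one_apply, Matrix.one_apply]
      split_ifs <;> simp
    rw [h2] at h1
    exact h1
  have hdet : ∀ σ ∈ (pl t).P.inertiaSubgroupIn ℚ, (mapMat (f : L.D.R →+* O') L.r σ).det = 1 := by
    intro σ hσ
    have h1 : (L.r σ).det = 1 :=
      det_inertia hausdorff_of_complete L.detCyc L.b₁ hqT (pl t).lies hpqT hσ
    have h2 : (mapMat (f : L.D.R →+* O') L.r σ).det = (f : L.D.R →+* O') (L.r σ).det := by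
      rw [mapMat_apply']
      exact (RingHom.map_det (f : L.D.R →+* O') (L.r σ)).symm
    rw [h2, h1, map_one]
  have htrmap : ∀ M : M2 L.D.R, (M.map (f : L.D.R →+* O')).trace = f M.trace := fun M =>
    (AddMonoidHom.map_trace (f : L.D.R →+* O') M).symm
  have htr : (mapMat (f : L.D.R →+* O') L.r (pl t).σ).trace - 2 ∈ maximalIdeal O' := by
    have h1 := hmap _ (L.tr_Sg t)
    rw [map_sub, map_ofNat] at h1
    have h2 : (mapMat (f : L.D.R →+* O') L.r (pl t).σ).trace = f (L.r (pl t).σ).trace := by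
      rw [mapMat_apply']; exact htrmap _
    rw [h2, Matrix.trace_fin_two]
    exact h1
  have hrel : mapMat (f : L.D.R →+* O') L.r (pl t).φ * mapMat (f : L.D.R →+* O') L.r (pl t).σ =
      mapMat (f : L.D.R →+* O') L.r (pl t).σ ^ qT t * mapMat (f : L.D.R →+* O') L.r (pl t).φ := by
    have h1 := congrArg ((f : L.D.R →+* O').mapMatrix : M2 L.D.R →+* M2 O') (L.tame t)
    rw [map_mul, map_mul, map_pow] at h1
    exact h1
  rcases unipotent_or_trace (O := 𝒪) (B := O') hinj hp2 hqT (pl t).lies hpO' hausdorff_of_complete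
    hqa hm ha hζ (L.mcont.map (f : L.D.R →+* O') hf) (fun σ hσ => ⟨0, by simpa using hcong' σ hσ⟩)
    hdet (pl t).inert (pl t).tame hrel htr with h1 | ⟨z, hz, h1⟩
  · exact absurd ((ptRep_isUnipotent_iff L.D f hf L.b₁ (qT t)).mpr h1) h
  · refine ⟨z, hz, ?_⟩
    rw [← h1, mapMat_apply']
    exact (htrmap _).symm

/-- if the point is not unipotent at `qT t`, the product over the non-trivial roots of
unity vanishes. -/
theorem pt_prodElt (hinj : Function.Injective (algebraMap 𝒪 O')) (hp2 : p ≠ 2)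
    {t : τ} (hqT : (qT t).Prime) (hunr : ρbar.IsUnramifiedAt (qT t))
    {a m : ℕ} (hqa : qT t - 1 = p ^ a * m) (hm : ¬ p ∣ m) (ha : 0 < a) {ζ : 𝒪}
    (hζ : IsPrimitiveRoot ζ (p ^ a))
    (h : ¬ (ptRep L.D f hf).IsUnipotentOnInertiaAt (qT t)) :
    f (∏ z ∈ ntRoots 𝒪 p a, (L.r (pl t).σ 0 0 + L.r (pl t).σ 1 1 -
      algebraMap 𝒪 L.D.R ((z : 𝒪) + (z⁻¹ : 𝒪ˣ)))) = 0 := by
  obtain ⟨z, hz, h1⟩ := L.pt_trace_of_not_unipotent f hf hinj hp2 hqT hunr hqa hm ha hζ h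
  rw [map_prod]
  refine Finset.prod_eq_zero hz ?_
  rw [map_sub, AlgHom.commutes, ← h1, Matrix.trace_fin_two, sub_self]

/-- unramified points at the primes of `B` -/
theorem pt_nr (i : ι) (h : (ptRep L.D f hf).IsUnramifiedAt (qB i)) :
    f (L.mB (Sum.inl i) 1) = 0 ∧ f (L.mB (Sum.inl i) 2) = 0 := by
  refine (L.isBMarks i).nr (f : L.D.R →+* O') ?_
  have h1 := h _ (plB i).lies _ (plB i).inert
  rw [toMat_eq_one_iff _ (bcBasis (f : L.D.R →+* O') hf L.D.ρ L.b₁), toMat_bcBasis] at h1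
  exact h1

/-- unipotent points at the primes of `B` -/
theorem pt_uni [CharZero O'] (i : ι) (h : (ptRep L.D f hf).IsUnipotentOnInertiaAt (qB i)) :
    f (L.mB (Sum.inl i) 1) * f (L.mB (Sum.inl i) 0) = 0 ∧
    f (L.mB (Sum.inl i) 2) *
      (f (L.mB (Sum.inl i) 0) + algebraMap 𝒪 O' (uB i * ((qB i : 𝒪) + 1))) = 0 := by
  have h1 := (ptRep_isUnipotent_iff L.D f hf L.b₁ (qB i)).mp h _ (plB i).lies _ (plB i).inert
  obtain ⟨h2, h3, -⟩ := (L.isBMarks i).uni (f : L.D.R →+* O') (sub_one_sq_of_charpoly h1)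
  refine ⟨h2, ?_⟩
  have h4 : (f : L.D.R →+* O') (algebraMap 𝒪 L.D.R (uB i)) = algebraMap 𝒪 O' (uB i) :=
    f.commutes _
  rw [h4] at h3
  rw [map_mul, map_add, map_natCast, map_one]
  exact h3

omit hf [IsDomain O'] [IsLocalRing O'] [IsAdicComplete (maximalIdeal O') O']
  [IsLocalHom (algebraMap 𝒪 O')] in
/-- points with `(tr Φ) ^ 2 = (q + 1) ^ 2` at the primes of `B` -/
theorem pt_new (i : ι)
    (h : f (L.r (plB i).φ 0 0 + L.r (plB i).φ 1 1) ^ 2 = ((qB i : O') + 1) ^ 2) :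
    f (L.mB (Sum.inl i) 0 * (L.mB (Sum.inl i) 0 +
      algebraMap 𝒪 L.D.R (uB i * ((qB i : 𝒪) + 1)))) = 0 := by
  obtain ⟨v, hv, h1⟩ := L.h_eq i
  have h2 := congrArg f h1
  rw [map_sub, map_pow, h, map_pow, map_add, map_natCast, map_one, sub_self, map_mul] at h2
  exact ((hv.map f).mul_right_eq_zero.mp h2.symm)

end GalLevelB

end General

/-- base change preserves the determinant condition -/
theorem detIsCyclotomic_bc {p : ℕ} {A B : Type} [CommRing A] [IsLocalRing A] [CommRing B]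
    [IsLocalRing B] (f : A →+* B) (hf : IsLocalHom f) {ρ : GaloisRepAdic A}
    (h : ρ.DetIsCyclotomic p) : (ρ.baseChangeAlong f hf).DetIsCyclotomic p := by
  obtain ⟨b⟩ := exists_basis ρ
  refine ⟨?_, fun n σ a ha => ?_⟩
  · have h1 := map_maximalIdeal_pow f hf 1 (a := (p : A)) (by rw [pow_one]; exact h.1)
    rwa [pow_one, map_natCast] at h1
  · have h1 := h.2 n σ a ha
    have h2 : LinearMap.det ((ρ.baseChangeAlong f hf).ρ σ) = f (LinearMap.det (ρ.ρ σ)) := by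
      rw [toMat_det _ (bcBasis f hf ρ b), toMat_det ρ b, toMat_bcBasis, mapMat_apply']
      exact (RingHom.map_det f (toMat ρ.ρ b σ)).symm
    rw [h2]
    have h3 : f (LinearMap.det (ρ.ρ σ)) - (a : B) = f (LinearMap.det (ρ.ρ σ) - (a : A)) := by
      rw [map_sub, map_natCast]
    rw [h3, Ideal.mem_span_singleton]
    rw [Ideal.mem_span_singleton] at h1
    have h4 := map_dvd f h1
    rwa [map_natCast] at h4

section Ord

open Fermat.Agent.H64
open Fermat.Agent.H75P (OrdMark MarkElts OrdI cj DetC UU)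

/-- a functional detecting the unramified quotient -/
theorem exists_functional_of_ordI {p : ℕ} [Fact p.Prime] {B : Type} [CommRing B] [IsLocalRing B]
    (ρ : GaloisRepAdic B) (b' : Module.Basis (Fin 2) B ρ.V) {g : (M2 B)ˣ}
    (hg : OrdI p (cj g (toMat ρ.ρ b'))) :
    ∃ l : Module.Dual B ρ.V, l ≠ 0 ∧
      ∀ σ ∈ Dp p, ∀ v, l (ρ.ρ σ v) = cj g (toMat ρ.ρ b') σ 1 1 * l v := by
  classical
  let l : Module.Dual B ρ.V :=
    (LinearMap.proj 1 : (Fin 2 → B) →ₗ[B] B).comp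
      ((Matrix.mulVecLin (↑g⁻¹ : M2 B)).comp b'.equivFun.toLinearMap)
  have hl : ∀ v, l v = (↑g⁻¹ : M2 B).mulVec (b'.equivFun v) 1 := fun _ => rfl
  refine ⟨l, ?_, fun σ hσ v => ?_⟩
  · intro h0
    have h1 := LinearMap.congr_fun h0 (b'.equivFun.symm ((g : M2 B).mulVec (Pi.single 1 1)))
    rw [hl, LinearEquiv.apply_symm_apply, Matrix.mulVec_mulVec, Units.inv_mul,
      Matrix.one_mulVec] at h1
    simp at h1
  · have h1 : b'.equivFun (ρ.ρ σ v) = (toMat ρ.ρ b' σ).mulVec (b'.equivFun v) := by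
      have := LinearMap.toMatrix_mulVec_repr b' b' (ρ.ρ σ) v
      rw [toMat_apply]
      exact this.symm
    have h2 : (↑g⁻¹ : M2 B) * toMat ρ.ρ b' σ = cj g (toMat ρ.ρ b') σ * (↑g⁻¹ : M2 B) := by
      rw [H75P.cj_apply, mul_assoc, Units.mul_inv, mul_one]
    rw [hl, hl, h1, Matrix.mulVec_mulVec, h2, ← Matrix.mulVec_mulVec]
    set x := (↑g⁻¹ : M2 B).mulVec (b'.equivFun v) with hx
    rw [Matrix.mulVec, dotProduct, Fin.sum_univ_two, hg.1 σ hσ, zero_mul, zero_add]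

variable {p : ℕ} [Fact p.Prime] (hp2 : p ≠ 2) {ρbar : ResidualGaloisRep (ResidueField 𝒪)}
  {b : Module.Basis (Fin 2) (ResidueField 𝒪) ρbar.V}
  (hdet : (GaloisRepAdic.ofResidualGaloisRep ρbar).DetIsCyclotomic p)
  (hord : (GaloisRepAdic.ofResidualGaloisRep ρbar).IsOrdinaryAt p)
  {φ σ₀ : GQ} (hm : MarkElts p φ σ₀) (hr0 : toMat ρbar.ρ b σ₀ = 1) (w : ℤ) (hw : w ^ 2 = 1)
  {g₀ : (M2 (ResidueField 𝒪))ˣ} (hg₀ : OrdI p (cj g₀ (toMat ρbar.ρ b)))
  (hu : cj g₀ (toMat ρbar.ρ b) φ 1 1 = (w : ResidueField 𝒪))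
  {A : Finset ℕ}
  {τ ι : Type} [Fintype τ] [Fintype ι] {qT : τ → ℕ} {pl : ∀ t, PlaceData p (qT t)} {u : τ → 𝒪}
  {qB : ι → ℕ} {plB : ∀ i, PlaceData p (qB i)} {uB : ι → 𝒪} {k n : ℕ} {S : Finset ℕ}
  (L : GalLevelB p ρbar b (PData.ord hp2 ρbar b hdet hord hm hr0 w hw hg₀ hu) A qT pl u qB plB uB
    k n S)
  {O' : Type} [CommRing O'] [IsDomain O'] [IsDiscreteValuationRing O']
  [IsAdicComplete (maximalIdeal O') O'] [Finite (ResidueField O')] [Algebra 𝒪 O']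
  (f : L.D.R →ₐ[𝒪] O') (hf : IsLocalHom (f : L.D.R →+* O'))

include L

/-- flat points -/
theorem GalLevelB.pt_ord_nr (h : (ptRep L.D f hf).IsFlatAt p) :
    f (L.mB (Sum.inr ()) 1) = 0 ∧ f (L.mB (Sum.inr ()) 2) = 0 := by
  refine ⟨?_, ?_⟩
  · exact ordMark_point_flat (inferInstance : IsHausdorff (maximalIdeal O') O') hm L.isPMark.1
      (f : L.D.R →+* O') (ptRep L.D f hf) (bcBasis (f : L.D.R →+* O') hf L.D.ρ L.b₁)
      (toMat_bcBasis _ _ _ _) h (detIsCyclotomic_bc _ hf L.detCyc)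
  · have h1 : L.mB (Sum.inr ()) 2 = 0 := L.isPMark.2
    rw [h1, map_zero]

omit [IsDomain O'] [IsDiscreteValuationRing O'] [IsAdicComplete (maximalIdeal O') O']
  [Finite (ResidueField O')] in
/-- all points -/
theorem GalLevelB.pt_ord_uni (c : O') :
    f (L.mB (Sum.inr ()) 1) * f (L.mB (Sum.inr ()) 0) = 0 ∧
    f (L.mB (Sum.inr ()) 2) * (f (L.mB (Sum.inr ()) 0) + c) = 0 := by
  have h1 : L.mB (Sum.inr ()) 2 = 0 := L.isPMark.2
  have h2 := GalLevelB.ord_mul hp2 hdet hord hm hr0 w hw hg₀ hu L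
  refine ⟨?_, ?_⟩
  · rw [mul_comm, ← map_mul, h2, map_zero]
  · rw [h1, map_zero, zero_mul]

/-- strictly ordinary points -/
theorem GalLevelB.pt_ord_strict (h : (ptRep L.D f hf).IsStrictOrdinaryAt p) :
    f (L.mB (Sum.inr ()) 0) = 0 :=
  GalLevelB.ord_pt hp2 hdet hord hm hr0 w hw hg₀ hu L
    (inferInstance : IsHausdorff (maximalIdeal O') O') (f : L.D.R →+* O') hf (ptRep L.D f hf)
    (bcBasis (f : L.D.R →+* O') hf L.D.ρ L.b₁) (toMat_bcBasis _ _ _ _) h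
    (detIsCyclotomic_bc _ hf L.detCyc)

/-- points for which Frobenius acts on unramified quotients with eigenvalues of square one -/
theorem GalLevelB.pt_ord_new (h : ∀ (l : Module.Dual O' (ptRep L.D f hf).V) (z : O'), l ≠ 0 →
      (∀ σ ∈ Ip p, ∀ v, l ((ptRep L.D f hf).ρ σ v) = l v) →
      (∀ v, l ((ptRep L.D f hf).ρ φ v) = z * l v) → z ^ 2 = 1) :
    f (L.mB (Sum.inr ()) 0) = 0 := by
  have hmark : OrdMark p (mapMat (f : L.D.R →+* O') (toMat L.D.ρ.ρ L.b₁))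
      ((f : L.D.R →+* O') (w : L.D.R)) φ σ₀ ((f : L.D.R →+* O') (L.mB (Sum.inr ()) 0))
      ((f : L.D.R →+* O') (L.mB (Sum.inr ()) 1)) := (L.isPMark.1).map (f : L.D.R →+* O')
  obtain ⟨g, hg, ht, -⟩ := hmark
  have hbc := toMat_bcBasis (f : L.D.R →+* O') hf L.D.ρ L.b₁
  rw [← hbc] at hg ht
  obtain ⟨l, hl0, hl⟩ := exists_functional_of_ordI (ptRep L.D f hf)
    (bcBasis (f : L.D.R →+* O') hf L.D.ρ L.b₁) hg
  have hz := h l _ hl0 (fun σ hσ v => by
    rw [hl σ (Ip_le_Dp hσ) v, hg.2 σ hσ, one_mul]) (hl φ hm.dec)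
  have hpm : (p : O') ∈ maximalIdeal O' := by
    have := L.pt_mem f hf L.p_mem
    rwa [map_natCast] at this
  have htm : (f : L.D.R →+* O') (L.mB (Sum.inr ()) 0) ∈ maximalIdeal O' :=
    L.pt_mem f hf (L.mB_mem _ _)
  rw [map_intCast] at ht
  have hw' : ((w : O')) ^ 2 = 1 := by rw [← Int.cast_pow, hw, Int.cast_one]
  have h3 := H75P.eq_of_sq_mul (p := p) (y := 1) hp2 hpm hw' (by rw [← ht]; exact htm)
    (by rw [hz, sub_self, zero_mul])
  rw [mul_one, ← ht] at h3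
  exact h3

end Ord

end Fermat.Agent.H53
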