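import Fermat.Agent.H53RPart
import Fermat.Agent.H53GalPt

/-!
# Reader's guide: the deformation rings of the levels, step by step (companion of `GuideLiftingGalois`)

Every theorem of this file is proved by citing a theorem of the library; nothing here is used by any
other file.  Editor: helper53.

**Statements served:** S59 and S01, and through them S03, S04, S06, S38, S45, S46, S50, S60; sections 1
to 5 also S43 (without `unramified_of_generator`, `base_change_determinant`, `exists_point`,
`trace_unipotent`, `generators_modulo_ideal` and part (2) of `traceless_coordinates`); `action_on_roots`,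
`tame_relation` and the second part of `tame_relation_matrices` also S56, the second parts of the first
two also S09, S12, S15.  The file gives the steps behind sections 2 to 5 of `GuideLiftingGalois` and
sections 1 and 2 of `GuideLocalBounds`, and should be read after them.  In prose: `NOTES.md`, Appendix
A.11 [247].

**What is proved here.**

1. *Tame inertia in matrices* (section 1): for a prime `q ≠ p`, the relation `φ σ φ⁻¹ = σ ^ q` in group
   and in matrix form, powers of one element of inertia, the determinant.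
2. *Taylor-Wiles primes* (section 2): eigenvalues of Frobenius, the splitting into two characters, and
   how it decides ramification of the specialisations.
3. *Points of universal rings* (section 3): a deformation is a homomorphism which carries the universal
   matrices to its matrices.
4. *Generators* (section 4): from a count of homomorphisms to the dual numbers to a power series ring.
5. *Scalar primes* (section 5): coordinates of matrices which are residually scalar, and of their
   tangent vectors.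
6. *Raising primes* (section 6): the construction of the marks `t, y, z`.
7. *The ring of a level* (section 7): the diamond variables and the marks at the points of the ring.
8. *Marks at `p`* (section 8): the values at the points.

**Conventions.**  `GQ` is the Galois group of `ℚ̄` over `ℚ`; `P` is a place of `ℚ̄` (a valuation
subring) above the prime `q`, with its decomposition group, its inertia group and its Frobenius
elements.  `H53.toMat ρ.ρ b` is the matrix representation `GQ → M₂(A)` of `ρ` in the basis `b`,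
`H53.mapMat f r` the representation `r` with `f` applied to the coefficients, `H53.Cong I M` says
`M ≡ 1` modulo `I`, `H53.MCont A r` that `r` modulo every power of the maximal ideal is trivial on an
open subgroup, and then `H53.ofMatrix r h` is the representation on `A²` with the matrices `r`
(`Mat₂ A`, in the library `H53.M2 A`: matrices of size two).  `π_m = H53.piSys p q m` is a compatible
system of roots: `π_m ^ (p ^ m) = q`.  `H56.Dq t`, `H56.Iq t` are the decomposition and the inertia
group of the distinguished place above the prime `t`.  A matrix `X` over the dual numbers has the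
constant part `H56.redM k X` and the `ε`-component `H56.sndM X`; `H56.coc R` is the cocycle `c` of a
lift `R` to the dual numbers, `R σ = (1 + ε c(σ)) r(σ)`, and `H56.cob r X` the coboundary
`σ ↦ r(σ) X r(σ)⁻¹ - X` (see `GuideLocalBounds`); `H56.FinLev r` says that `r` is trivial on an open
subgroup, `H56.DetCyc p r` that its determinant is the cyclotomic character modulo `p`.

**Reading order.**  Sections 1 - 8 in order.
-/

set_option autoImplicit false
set_option maxSynthPendingDepth 3
set_option linter.unusedSectionVars false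

noncomputable section

open IsLocalRing GaloisRep Polynomial
open Fermat.Agent.H53 (PlaceData TWSplit GalLevelB PData NonScalar)

namespace Fermat.Agent.Guide.GaloisPoints

/-- The absolute Galois group of the rational numbers. -/
local notation "GQ" => (AlgebraicClosure ℚ ≃ₐ[ℚ] AlgebraicClosure ℚ)

/-- Matrices of size two. -/
local notation "Mat₂" => Matrix (Fin 2) (Fin 2)

/-! ## 1. Tame inertia in matrices -/

/-- **Action on roots.**  Let `P` lie above `q ≠ p`.  A Frobenius element acts on the `p`-power roots of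
unity by the `q`-th power (two `p`-power roots of unity which are congruent modulo the place are
equal), and an element of inertia multiplies `π_m` by a `p ^ m`-th root of unity.  File `H53Tame3`. -/
theorem action_on_roots {P : ValuationSubring (AlgebraicClosure ℚ)} {q : ℕ} (hq : q.Prime)
    (hP : P.LiesOverPrime q) {p : ℕ} [Fact p.Prime] (hpq : p ≠ q) (m : ℕ) :
    (∀ {φ : GQ}, P.IsFrobeniusAt φ q → ∀ {ζ : AlgebraicClosure ℚ}, ζ ^ p ^ m = 1 → φ ζ = ζ ^ q) ∧
      ∀ {σ : GQ}, σ ∈ P.inertiaSubgroupIn ℚ →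
        ∃ ζ : AlgebraicClosure ℚ, ζ ^ p ^ m = 1 ∧ σ (H53.piSys p q m) = ζ * H53.piSys p q m :=
  ⟨fun {_} hφ {_} hζ => H53.frobenius_root_of_unity hq hP hpq hφ m hζ,
    fun hσ => H53.tameRoot hq hP hpq hσ m⟩

/-- **The tame relation in the group.**  Up to an element of inertia which fixes all the roots `π_m`, the
conjugate of `σ` by a Frobenius element `φ` is `σ ^ q`; and, if `σ₀` is an element of inertia with
`σ₀ π_1 ≠ π_1`, every element of inertia is a power of `σ₀` times an element which fixes `π_m`.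
Files `H53Tame3`, `H53Tame4`. -/
theorem tame_relation {P : ValuationSubring (AlgebraicClosure ℚ)} {q : ℕ} (hq : q.Prime)
    (hP : P.LiesOverPrime q) {p : ℕ} [Fact p.Prime] (hpq : p ≠ q) {σ : GQ}
    (hσ : σ ∈ P.inertiaSubgroupIn ℚ) :
    (∀ {φ : GQ}, P.IsFrobeniusAt φ q → (φ * σ * φ⁻¹) * (σ ^ q)⁻¹ ∈ P.inertiaSubgroupIn ℚ ∧
      ∀ m, ((φ * σ * φ⁻¹) * (σ ^ q)⁻¹) (H53.piSys p q m) = H53.piSys p q m) ∧
    ∀ {σ₀ : GQ}, σ₀ ∈ P.inertiaSubgroupIn ℚ → σ₀ (H53.piSys p q 1) ≠ H53.piSys p q 1 → ∀ m : ℕ,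
      ∃ a : ℕ, (σ₀ ^ a)⁻¹ * σ ∈ P.inertiaSubgroupIn ℚ ∧
        ((σ₀ ^ a)⁻¹ * σ) (H53.piSys p q m) = H53.piSys p q m :=
  ⟨fun hφ => H53.frob_rel hq hP hpq hσ hφ, fun h0 h1 m => H53.exists_pow_fix hq hP hpq h0 h1 hσ m⟩

/-- **Elements which fix the roots.**  Let `r` be a continuous matrix representation over the local ring
`A`, `p` in the maximal ideal `𝔪`, such that the matrices of inertia have a `p`-power congruent to `1`
modulo `𝔪`.  An element `τ` of inertia which fixes all the roots `π_m` acts trivially modulo every power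
of `𝔪`.  (A `p`-power of `τ` lies in the kernel of `r` modulo `𝔪 ^ n`, which is open; by
`p_part_procyclic` of `GuideLocalBounds` so does `τ`.)  File `H53Tame5`. -/
theorem trivial_of_fixes_roots {P : ValuationSubring (AlgebraicClosure ℚ)} {q : ℕ} (hq : q.Prime)
    (hP : P.LiesOverPrime q) {p : ℕ} [Fact p.Prime] (hpq : p ≠ q) {A : Type} [CommRing A]
    [IsLocalRing A] (hpA : (p : A) ∈ maximalIdeal A) {r : GQ →* Mat₂ A} (hr : H53.MCont A r)
    (hI : ∀ τ ∈ P.inertiaSubgroupIn ℚ, ∃ n, H53.Cong (maximalIdeal A) (r τ ^ p ^ n)) {τ : GQ}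
    (hτ : τ ∈ P.inertiaSubgroupIn ℚ) (hfix : ∀ m, τ (H53.piSys p q m) = H53.piSys p q m) (n : ℕ) :
    H53.Cong (maximalIdeal A ^ n) (r τ) :=
  H53.cong_of_fix hq hP hpq hpA hr hI hτ hfix n

/-- **The tame relation in matrices**, in the situation of the previous theorem and modulo `𝔪 ^ n`: for
`σ` in inertia the matrix of `φ σ φ⁻¹ σ^(-q)` is congruent to `1`, `φ` a Frobenius element, and the
matrix of `σ` is congruent to a power of the matrix of `σ₀`, if `σ₀ π_1 ≠ π_1`.  File `H53Tame5`. -/
theorem tame_relation_matrices {P : ValuationSubring (AlgebraicClosure ℚ)} {q : ℕ} (hq : q.Prime)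
    (hP : P.LiesOverPrime q) {p : ℕ} [Fact p.Prime] (hpq : p ≠ q) {A : Type} [CommRing A]
    [IsLocalRing A] (hpA : (p : A) ∈ maximalIdeal A) {r : GQ →* Mat₂ A} (hr : H53.MCont A r)
    (hI : ∀ τ ∈ P.inertiaSubgroupIn ℚ, ∃ n, H53.Cong (maximalIdeal A) (r τ ^ p ^ n)) {σ : GQ}
    (hσ : σ ∈ P.inertiaSubgroupIn ℚ) (n : ℕ) :
    (∀ {φ : GQ}, P.IsFrobeniusAt φ q →
      H53.Cong (maximalIdeal A ^ n) (r ((φ * σ * φ⁻¹) * (σ ^ q)⁻¹))) ∧
    ∀ {σ₀ : GQ}, σ₀ ∈ P.inertiaSubgroupIn ℚ → σ₀ (H53.piSys p q 1) ≠ H53.piSys p q 1 →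
      ∃ a : ℕ, H53.Cong (maximalIdeal A ^ n) (r ((σ₀ ^ a)⁻¹ * σ)) :=
  ⟨fun hφ => H53.frob_rel_cong hq hP hpq hpA hr hI hσ hφ n,
    fun h0 h1 => H53.exists_pow_cong hq hP hpq hpA hr hI h0 h1 hσ n⟩

/-- **A generator of finite order.**  In the same situation let `A` be separated, `σ₀` an element of inertia
with `σ₀ π_1 ≠ π_1`, and the order of its matrix a divisor of `N > 0`.  Then every matrix of inertia is
a power of the matrix of `σ₀` (for infinitely many `n` the same exponent `a < N` works modulo `𝔪 ^ n`).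
File `H53TWL2`. -/
theorem powers_of_generator {P : ValuationSubring (AlgebraicClosure ℚ)} {q : ℕ} (hq : q.Prime)
    (hP : P.LiesOverPrime q) {p : ℕ} [Fact p.Prime] (hpq : p ≠ q) {A : Type} [CommRing A]
    [IsLocalRing A] (hpA : (p : A) ∈ maximalIdeal A) {r : GQ →* Mat₂ A} (hr : H53.MCont A r)
    (hI : ∀ τ ∈ P.inertiaSubgroupIn ℚ, ∃ n, H53.Cong (maximalIdeal A) (r τ ^ p ^ n))
    (hA : ∀ x : A, (∀ n, x ∈ maximalIdeal A ^ n) → x = 0) {σ₀ : GQ}
    (hσ₀ : σ₀ ∈ P.inertiaSubgroupIn ℚ) (hne : σ₀ (H53.piSys p q 1) ≠ H53.piSys p q 1) {N : ℕ}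
    (hN : 0 < N) (h0 : r σ₀ ^ N = 1) {σ : GQ} (hσ : σ ∈ P.inertiaSubgroupIn ℚ) :
    ∃ a < N, r σ = r σ₀ ^ a :=
  H53.exists_pow_eq_of_generator hq hP hpq hpA hr hI hA hσ₀ hne hN h0 hσ

/-- **One element decides** whether a representation is unramified at `q`: if, in the situation of
`trivial_of_fixes_roots` with `A` separated, the matrix of `σ₀` is `1`, then `ρ` is unramified.  Second
statement: a matrix representation which is trivial on one inertia group above `q` is trivial on all of
them (they are conjugate).  Files `H53TW4`, `H53TWL2`. -/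
theorem unramified_of_generator {q : ℕ} (hq : q.Prime) {P : ValuationSubring (AlgebraicClosure ℚ)}
    (hP : P.LiesOverPrime q) {p : ℕ} [Fact p.Prime] (hpq : p ≠ q) {A : Type} [CommRing A]
    [IsLocalRing A] (hA : ∀ x : A, (∀ n, x ∈ maximalIdeal A ^ n) → x = 0)
    (hpA : (p : A) ∈ maximalIdeal A) (ρ : GaloisRepAdic A) (b : Module.Basis (Fin 2) A ρ.V)
    (hI : ∀ τ ∈ P.inertiaSubgroupIn ℚ,
      ∃ n, H53.Cong (maximalIdeal A) (H53.toMat ρ.ρ b τ ^ p ^ n))
    {σ₀ : GQ} (hσ₀ : σ₀ ∈ P.inertiaSubgroupIn ℚ)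
    (hne : σ₀ (H53.piSys p q 1) ≠ H53.piSys p q 1) (h0 : H53.toMat ρ.ρ b σ₀ = 1) :
    ρ.IsUnramifiedAt q ∧ ∀ {B : Type} [CommRing B] {r : GQ →* Mat₂ B},
      (∀ σ ∈ P.inertiaSubgroupIn ℚ, r σ = 1) →
        ∀ P' : ValuationSubring (AlgebraicClosure ℚ), P'.LiesOverPrime q →
          ∀ σ ∈ P'.inertiaSubgroupIn ℚ, r σ = 1 :=
  ⟨H53.isUnramifiedAt_of_generator hq hP hpq hA hpA ρ b hI hσ₀ hne h0,
    fun h => H53.inertia_trivial_all hq hP h⟩

/-- **The determinant at `q`.**  For a representation with cyclotomic determinant over a separated local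
ring and a place above `q ≠ p`, the determinant is `1` on inertia and `q` at a Frobenius element.
File `H53Level`. -/
theorem determinant_at {A : Type} [CommRing A] [IsLocalRing A] {p : ℕ} [Fact p.Prime]
    (hA : ∀ x : A, (∀ n, x ∈ maximalIdeal A ^ n) → x = 0) {ρ : GaloisRepAdic A}
    (hdet : ρ.DetIsCyclotomic p) (b : Module.Basis (Fin 2) A ρ.V) {q : ℕ} (hq : q.Prime)
    {P : ValuationSubring (AlgebraicClosure ℚ)} (hP : P.LiesOverPrime q) (hpq : p ≠ q) :
    (∀ {τ : GQ}, τ ∈ P.inertiaSubgroupIn ℚ → (H53.toMat ρ.ρ b τ).det = 1) ∧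
      ∀ {φ : GQ}, P.IsFrobeniusAt φ q → (H53.toMat ρ.ρ b φ).det = q :=
  ⟨fun hτ => H53.det_inertia hA hdet b hq hP hpq hτ,
    fun hφ => H53.det_frobenius hA hdet b hq hP hpq hφ⟩

/-- **Places with their elements.**  `PlaceData p q` consists of a place `P` above `q`, a Frobenius element
`φ` and a *tame generator* `σ` (an element of inertia with `σ π_1 ≠ π_1`).  It exists for every place
and every Frobenius element.  File `H53Level`. -/
theorem exists_place_data {p q : ℕ} [Fact p.Prime] (hq : q.Prime) (hpq : p ≠ q)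
    {P : ValuationSubring (AlgebraicClosure ℚ)} (hP : P.LiesOverPrime q) {φ : GQ}
    (hφ : P.IsFrobeniusAt φ q) :
    (∃ pl : PlaceData p q, pl.P = P ∧ pl.φ = φ) ∧
      ∀ pl : PlaceData p q, pl.P.LiesOverPrime q ∧ pl.P.IsFrobeniusAt pl.φ q ∧
        pl.σ ∈ pl.P.inertiaSubgroupIn ℚ ∧ pl.σ (H53.piSys p q 1) ≠ H53.piSys p q 1 :=
  ⟨H53.nonempty_placeData hq hpq hP hφ, fun pl => ⟨pl.lies, pl.frob, pl.inert, pl.tame⟩⟩

/-! ## 2. Taylor-Wiles primes -/

/-- **Eigenvalues lift.**  Let `A` be a complete local ring and `M` a matrix whose reduction has two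
different eigenvalues `a, b` in the residue field.  Then `M` has eigenvalues `α, β` lifting them, with
`α - β` a unit (Hensel), and is conjugate to the diagonal matrix.  File `H53TW2`. -/
theorem eigenvalues_lift {A : Type} [CommRing A] [IsLocalRing A]
    [IsAdicComplete (maximalIdeal A) A] (M : Mat₂ A) {a b : ResidueField A} (hab : a ≠ b)
    (h : (M.map (residue A)).charpoly = (X - C a) * (X - C b)) :
    ∃ α β : A, residue A α = a ∧ residue A β = b ∧ IsUnit (α - β) ∧
      ∃ u : (Mat₂ A)ˣ, M * u = u * !![α, 0; 0, β] := by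
  obtain ⟨α, β, h1, h2, h3, h4, h5⟩ := H53.exists_eigen_lift M hab h
  exact ⟨α, β, h1, h2, h5, H53.exists_diag_of_eigen M h3 h4 h5⟩

/-- **Two facts used for the splitting**: the commutator of an element `g` of the decomposition group with
a Frobenius element is in inertia, and an `m`-th root of unity congruent to `1` is `1` if `m` is a unit.
File `H53TW3`. -/
theorem splitting_tools {P : ValuationSubring (AlgebraicClosure ℚ)} {q : ℕ} {g φ : GQ}
    (hg : g ∈ P.decompositionSubgroup ℚ) (hφ : P.IsFrobeniusAt φ q) {A : Type} [CommRing A]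
    [IsLocalRing A] :
    (φ * g)⁻¹ * (g * φ) ∈ P.inertiaSubgroupIn ℚ ∧
      ∀ {x : A} {m : ℕ}, x - 1 ∈ maximalIdeal A → IsUnit (m : A) → x ^ m = 1 → x = 1 :=
  ⟨H53.commutator_mem_inertia hg hφ, fun h1 h2 h3 => H53.root_of_one_eq_one h1 h2 h3⟩

/-- **The splitting.**  A splitting `s : TWSplit P r` (`taylorWiles_splitting` of `GuideLocalBounds`) gives
characters `χ₁, χ₂` of the decomposition group with values in the units of `A`, such that `r` is
conjugate there to the diagonal matrices `(χ₁, χ₂)`.  Determinant and trace; if `r g ≡ 1` modulo an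
ideal `I`, then `χ₁(g), χ₂(g) ≡ 1`.  File `H53TW4`. -/
theorem splitting_rules {P : ValuationSubring (AlgebraicClosure ℚ)} {A : Type} [CommRing A]
    {r : GQ →* Mat₂ A} (s : TWSplit P r) (g : P.decompositionSubgroup ℚ) :
    r g * s.u = s.u * !![(s.χ₁ g : A), 0; 0, (s.χ₂ g : A)] ∧ (r g).det = s.χ₁ g * s.χ₂ g ∧
      (r g).trace = s.χ₁ g + s.χ₂ g ∧
      ∀ I : Ideal A, H53.Cong I (r g) → (s.χ₁ g : A) - 1 ∈ I ∧ (s.χ₂ g : A) - 1 ∈ I :=
  ⟨s.spec g, s.det_eq g, s.trace_eq g, fun I h => s.chi_sub_one_mem I h⟩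

/-- **Inertia is generated by one element** in a representation which splits at a prime `q ≡ 1` modulo `p`
(`A` complete, inertia trivial modulo the maximal ideal): every matrix of inertia is a power of the
matrix of the tame generator `σ₀`.  (The characters of inertia have order dividing the `p`-part of
`q - 1`, `inertia_character_order` of `GuideLocalBounds`, so `powers_of_generator` applies.)  File
`H53TWL2`. -/
theorem inertia_powers {P : ValuationSubring (AlgebraicClosure ℚ)} {q : ℕ} (hq : q.Prime)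
    (hP : P.LiesOverPrime q) {p : ℕ} [Fact p.Prime] (hpq : p ∣ q - 1) {A : Type} [CommRing A]
    [IsLocalRing A] [IsAdicComplete (maximalIdeal A) A] (hpA : (p : A) ∈ maximalIdeal A)
    {r : GQ →* Mat₂ A} (hr : H53.MCont A r)
    (hI : ∀ τ ∈ P.inertiaSubgroupIn ℚ, H53.Cong (maximalIdeal A) (r τ)) (s : TWSplit P r) {φ : GQ}
    (hφ : P.IsFrobeniusAt φ q) {σ₀ : GQ} (hσ₀ : σ₀ ∈ P.inertiaSubgroupIn ℚ)
    (hne : σ₀ (H53.piSys p q 1) ≠ H53.piSys p q 1) {σ : GQ} (hσ : σ ∈ P.inertiaSubgroupIn ℚ) :
    ∃ a : ℕ, r σ = r σ₀ ^ a :=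
  TWSplit.exists_pow_eq hq hP hpq hpA hr hI s hφ hσ₀ hne hσ

/-- **One number decides ramification at a Taylor-Wiles prime**, in the situation of the previous theorem:
for a homomorphism `f` from `A` to any ring, the representation `f ∘ r` is trivial on inertia if and
only if `f (χ₁(σ₀)) = 1`.  (`det r(σ₀) = 1` gives `χ₂(σ₀) = χ₁(σ₀)⁻¹`.)  File `H53TWL2`. -/
theorem unramified_specialisation {P : ValuationSubring (AlgebraicClosure ℚ)} {q : ℕ} (hq : q.Prime)
    (hP : P.LiesOverPrime q) {p : ℕ} [Fact p.Prime] (hpq : p ∣ q - 1) {A : Type} [CommRing A]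
    [IsLocalRing A] [IsAdicComplete (maximalIdeal A) A] (hpA : (p : A) ∈ maximalIdeal A)
    {r : GQ →* Mat₂ A} (hr : H53.MCont A r)
    (hI : ∀ τ ∈ P.inertiaSubgroupIn ℚ, H53.Cong (maximalIdeal A) (r τ)) (s : TWSplit P r) {φ : GQ}
    (hφ : P.IsFrobeniusAt φ q) {σ₀ : P.decompositionSubgroup ℚ}
    (hσ₀ : (σ₀ : GQ) ∈ P.inertiaSubgroupIn ℚ)
    (hne : (σ₀ : GQ) (H53.piSys p q 1) ≠ H53.piSys p q 1) (hdet : (r σ₀).det = 1) {B : Type}
    [CommRing B] (f : A →+* B) :
    (∀ σ ∈ P.inertiaSubgroupIn ℚ, H53.mapMat f r σ = 1) ↔ f (s.χ₁ σ₀) = 1 :=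
  TWSplit.map_inertia_iff hq hP hpq hpA hr hI s hφ hσ₀ hne hdet f

/-- **Unipotent implies trivial.**  If `A` is reduced and the matrix of `g` has characteristic polynomial
`(X - 1)²`, then `χ₁(g) = 1` (from the polynomial, `(χ₁(g) - 1)² = 0`).  So a specialisation to a
reduced ring which is unipotent at a Taylor-Wiles prime is unramified there.  File `H53TWL2`. -/
theorem character_of_unipotent {P : ValuationSubring (AlgebraicClosure ℚ)} {A : Type} [CommRing A]
    [IsReduced A] {r : GQ →* Mat₂ A} (s : TWSplit P r) {g : P.decompositionSubgroup ℚ}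
    (h : (r g).charpoly = (X - 1) ^ 2) : s.χ₁ g = 1 :=
  s.chi_eq_one_of_unipotent h

/-! ## 3. Points of universal rings -/

/-- **Adapted bases.**  If the residual representation of `ρ` is `rhobar` (with the residue field
extended), then for every basis `bb` of `rhobar` there is a basis of `ρ` such that the matrices of `ρ`
reduce to the matrices of `rhobar` in `bb` (an invertible matrix over the residue field lifts); and the
condition on the residual representation is stable under base change.  Files `H53Uni2`, `H53Uni`. -/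
theorem adapted_basis {O : Type} [CommRing O] [IsLocalRing O]
    (ρbar : ResidualGaloisRep (ResidueField O))
    (bb : Module.Basis (Fin 2) (ResidueField O) ρbar.V) {A : Type} [CommRing A] [IsLocalRing A]
    [Algebra O A] [IsLocalHom (algebraMap O A)] (ρ : GaloisRepAdic A)
    (h : ρ.residual.IsEquiv (ρbar.baseChangeAlong (ResidueField.map (algebraMap O A)))) :
    (∃ b : Module.Basis (Fin 2) A ρ.V, H53.mapMat (residue A) (H53.toMat ρ.ρ b) =
      H53.mapMat (ResidueField.map (algebraMap O A)) (H53.toMat ρbar.ρ bb)) ∧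
    ∀ {B : Type} [CommRing B] [IsLocalRing B] [Algebra O B] [IsLocalHom (algebraMap O B)]
      (f : A →ₐ[O] B) (hf : IsLocalHom (f : A →+* B)),
      (ρ.baseChangeAlong (f : A →+* B) hf).residual.IsEquiv
        (ρbar.baseChangeAlong (ResidueField.map (algebraMap O B))) :=
  ⟨H53.exists_basis_lift ρbar bb ρ h, fun f hf => H53.residual_bc_isEquiv ρbar f hf ρ h⟩

/-- **The determinant condition is stable under base change.**  File `H53GalPt`. -/
theorem base_change_determinant {p : ℕ} {A B : Type} [CommRing A] [IsLocalRing A] [CommRing B]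
    [IsLocalRing B] (f : A →+* B) (hf : IsLocalHom f) {ρ : GaloisRepAdic A}
    (h : ρ.DetIsCyclotomic p) : (ρ.baseChangeAlong f hf).DetIsCyclotomic p :=
  H53.detIsCyclotomic_bc f hf h

/-- **Points.**  Let `R` be the universal ring of the condition `D`, with universal representation in the
basis `b₁`.  A representation `ρ` over a complete noetherian local `O`-algebra `A` with the same
residue field, of type `D` and with residual representation `rhobar`, gives a homomorphism `f : R → A`
and a basis of `ρ` whose matrices are `f` of the universal matrices; then `f` sends the universal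
traces to the traces of `ρ`.  File `H53Pt`. -/
theorem exists_point {O : Type} [CommRing O] [IsDomain O] [IsDiscreteValuationRing O]
    [IsAdicComplete (maximalIdeal O) O] {ρbar : ResidualGaloisRep (ResidueField O)}
    {D : ∀ ⦃A : Type⦄ [CommRing A] [IsLocalRing A] [Algebra O A], GaloisRepAdic A → Prop}
    (U : DeformationRingData O ρbar D) (b₁ : Module.Basis (Fin 2) U.R U.ρ.V) {A : Type} [CommRing A]
    [IsLocalRing A] [IsNoetherianRing A] [IsAdicComplete (maximalIdeal A) A] [Algebra O A]
    [IsLocalHom (algebraMap O A)] (hsurj : Function.Surjective (residue A ∘ algebraMap O A))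
    (ρ : GaloisRepAdic A) (hA : D ρ)
    (hres : ρ.residual.IsEquiv (ρbar.baseChangeAlong (ResidueField.map (algebraMap O A)))) :
    ∃ f : U.R →ₐ[O] A, IsLocalHom (f : U.R →+* A) ∧
      (∃ b : Module.Basis (Fin 2) A ρ.V,
        H53.toMat ρ.ρ b = H53.mapMat (f : U.R →+* A) (H53.toMat U.ρ.ρ b₁)) ∧
      ∀ σ : GQ, f (H53.toMat U.ρ.ρ b₁ σ).trace = LinearMap.trace A ρ.V (ρ.ρ σ) := by
  obtain ⟨f, hf, b, hb⟩ := H53.exists_point U b₁ hsurj ρ hA hres
  exact ⟨f, hf, ⟨b, hb⟩, fun σ => H53.trace_of_point hb σ⟩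

/-- **Unipotent in matrices.**  If `ρ` is unipotent on inertia at `q`, the matrix `M` of an element of
inertia has trace `2` and `(M - 1)² = 0`.  File `H53Pt`. -/
theorem trace_unipotent {R : Type} [CommRing R] [IsLocalRing R] {ρ : GaloisRepAdic R} {q : ℕ}
    (h : ρ.IsUnipotentOnInertiaAt q) {P : ValuationSubring (AlgebraicClosure ℚ)}
    (hP : P.LiesOverPrime q) {σ : GQ} (hσ : σ ∈ P.inertiaSubgroupIn ℚ)
    (b : Module.Basis (Fin 2) R ρ.V) :
    (H53.toMat ρ.ρ b σ).trace = 2 ∧ (H53.toMat ρ.ρ b σ - 1) ^ 2 = 0 :=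
  H53.trace_two_of_unipotent h hP hσ b

/-! ## 4. Generators by counting

The theorems of this section are versions of those in section 4 of `GuideTaylorWiles` relative to an ideal
(in the application it is generated by the marks and the maximal ideal of `O`). -/

/-- **Power series rings over `O` map to complete rings.**  Let `R` be a complete noetherian local
`O`-algebra (`O` complete) and `x_i` finitely many elements of its maximal ideal `m`.  (1) There is a
homomorphism `O⟦X_i⟧ → R` with `X_i ↦ x_i`.  (2) If `R` has the same residue field as `O` and the `x_i`,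
the maximal ideal of `O` and `m²` generate `m`, there is a surjective one.  File `H53Gen2`. -/
theorem power_series_presentation {O : Type} [CommRing O] [IsLocalRing O]
    [IsAdicComplete (maximalIdeal O) O] {R : Type} [CommRing R] [IsLocalRing R] [IsNoetherianRing R]
    [IsAdicComplete (maximalIdeal R) R] [Algebra O R] [IsLocalHom (algebraMap O R)] {ι : Type}
    [Finite ι] (x : ι → R) (hx : ∀ i, x i ∈ maximalIdeal R) :
    (∃ γ : MvPowerSeries ι O →ₐ[O] R, ∀ i, γ (MvPowerSeries.X i) = x i) ∧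
    (Function.Surjective (residue R ∘ algebraMap O R) →
      maximalIdeal R ≤
        Ideal.span (Set.range x) ⊔ (maximalIdeal O).map (algebraMap O R) ⊔ maximalIdeal R ^ 2 →
      ∃ γ : MvPowerSeries ι O →ₐ[O] R, (∀ i, γ (MvPowerSeries.X i) = x i) ∧
        Function.Surjective γ) :=
  ⟨H53.exists_psEval (maximalIdeal R) x hx, fun h1 h2 => H53.exists_psSurjective h1 x hx h2⟩

/-- **From points in the dual numbers to generators.**  Let `π : P → k` be a homomorphism to the (finite)
residue field `k` of `O`, `I` an ideal of `P` of finite index with `(ker π)² + m_O P ≤ I ≤ ker π`.  If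
there are at most `#k ^ N` homomorphisms of `O`-algebras from `P` to `k[ε]` which lift `π` and kill `I`
(`H` is a set which contains them), then `ker π` is generated by `N` elements modulo `I`: the
homomorphisms correspond to the linear forms on `ker π / I`.  File `H53Gen1`. -/
theorem generators_of_count {O P : Type} [CommRing O] [IsLocalRing O] [Finite (ResidueField O)]
    [CommRing P] [Algebra O P] (π : P →+* ResidueField O)
    (hπ : ∀ c, π (algebraMap O P c) = residue O c) (I : Ideal P) [Finite (P ⧸ I)]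
    (hI1 : (RingHom.ker π) ^ 2 ≤ I) (hI2 : (maximalIdeal O).map (algebraMap O P) ≤ I)
    (hI3 : I ≤ RingHom.ker π) (N : ℕ) (H : Set (P →+* DualNumber (ResidueField O)))
    (hHfin : H.Finite)
    (hH : ∀ f : P →+* DualNumber (ResidueField O),
      (∀ c, f (algebraMap O P c) = TrivSqZeroExt.inl (residue O c)) →
      (∀ a, TrivSqZeroExt.fst (f a) = π a) → I ≤ RingHom.ker f → f ∈ H)
    (hcard : H.ncard ≤ Nat.card (ResidueField O) ^ N) :
    ∃ x : Fin N → P, (∀ i, π (x i) = 0) ∧ RingHom.ker π ≤ Ideal.span (Set.range x) ⊔ I :=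
  H53.exists_gens π hπ I hI1 hI2 hI3 N H hHfin hH hcard

/-- **Generators of a deformation ring modulo an ideal.**  Let `R` be the universal ring of the deformation
condition `D`, with universal matrices `r₁`, `J` an ideal with `m_O R ≤ J ≤ m`, and `Z` a finite set of
functions from `GQ` to `M₂(k)`, stable under addition of the coboundaries of trace-free matrices `X`,
which contains the cocycle of `f ∘ r₁` for every homomorphism of `O`-algebras `f : R → k[ε]` killing `J`
(to check this one may use that `f ∘ r₁` is continuous, lifts `rhobar` and is of type `D`).  If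
`#Z ≤ #k ^ (N + 3)` and only `X = 0` is trace-free and commutes with `rhobar`, then the maximal ideal is
generated by `N` elements modulo `J + m²`: the pairs (`f`, `X`) inject into `Z`, because `f` is
determined by the class of its cocycle modulo coboundaries (universality), and there are `#k ³`
matrices `X`.  With `J` generated by the marks and `m_O` this gives `generators_by_counting_cocycles` of
`GuideLiftingGalois`.  (`H69.algDual O` is the structure of `O`-algebra on `k[ε]` through `O → k`.)  File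
`H53Gen4`. -/
theorem generators_modulo_ideal {O : Type} [CommRing O] [IsDomain O] [IsDiscreteValuationRing O]
    [IsAdicComplete (maximalIdeal O) O] [Finite (ResidueField O)]
    (ρbar : ResidualGaloisRep (ResidueField O))
    (D : ∀ ⦃A : Type⦄ [CommRing A] [IsLocalRing A] [Algebra O A], GaloisRepAdic A → Prop)
    (hD : IsDeformationCondition O D) (b : Module.Basis (Fin 2) (ResidueField O) ρbar.V)
    (hcent : ∀ X : Mat₂ (ResidueField O), X.trace = 0 →
      (∀ σ, H53.toMat ρbar.ρ b σ * X = X * H53.toMat ρbar.ρ b σ) → X = 0)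
    (U : DeformationRingData O ρbar D) (b₁ : Module.Basis (Fin 2) U.R U.ρ.V)
    (hb₁ : H53.mapMat (residue U.R) (H53.toMat U.ρ.ρ b₁) =
      H53.mapMat (ResidueField.map (algebraMap O U.R)) (H53.toMat ρbar.ρ b))
    (N : ℕ) (Z : Set (GQ → Mat₂ (ResidueField O))) (hZfin : Z.Finite)
    (hcard : Z.ncard ≤ Nat.card (ResidueField O) ^ (N + 3))
    (hcob : ∀ c ∈ Z, ∀ X : Mat₂ (ResidueField O), X.trace = 0 →
      c + H56.cob (H53.toMat ρbar.ρ b) X ∈ Z)
    (J : Ideal U.R) (hJ : J ≤ maximalIdeal U.R)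
    (hJO : (maximalIdeal O).map (algebraMap O U.R) ≤ J)
    (hZ : ∀ (f : U.R →+* DualNumber (ResidueField O)) (_ : IsLocalHom f)
      (_ : ∀ c, f (algebraMap O U.R c) = TrivSqZeroExt.inl (residue O c)) (_ : J ≤ RingHom.ker f)
      (h : H53.MCont _ (H53.mapMat f (H53.toMat U.ρ.ρ b₁))),
      (∀ σ, H56.redM _ (H53.mapMat f (H53.toMat U.ρ.ρ b₁) σ) = H53.toMat ρbar.ρ b σ) →
      (letI := H69.algDual O; D (H53.ofMatrix (H53.mapMat f (H53.toMat U.ρ.ρ b₁)) h)) →
      H56.coc (H53.mapMat f (H53.toMat U.ρ.ρ b₁)) ∈ Z) :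
    ∃ x : Fin N → U.R, (∀ i, x i ∈ maximalIdeal U.R) ∧
      maximalIdeal U.R ≤ Ideal.span (Set.range x) ⊔ J ⊔ maximalIdeal U.R ^ 2 :=
  H53.exists_gens_ideal ρbar D hD b hcent U b₁ hb₁ N Z hZfin hcard hcob J hJ hJO hZ

/-- **The local types of a lift in matrices.**  The matrices of `rhobar` have open kernel, and determinant
the cyclotomic character if the representation has; a lift `R` of them to `k[ε]` with cyclotomic
determinant is a lift with constant determinant (`H56.GoodLift`, see `goodLift_iff` in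
`GuideLocalBounds`).  For matrices `R` over any local ring: if the representation is unipotent on
inertia at `q`, inertia has characteristic polynomial `(X - 1)²`, if it is unramified, inertia acts
trivially.  File `H53TWL1`. -/
theorem types_of_lifts {p : ℕ} [Fact p.Prime] {k : Type} [Field k] [Algebra (ZMod p) k]
    {ρbar : ResidualGaloisRep k} (b : Module.Basis (Fin 2) k ρbar.V) :
    H56.FinLev (H53.toMat ρbar.ρ b) ∧
    ((GaloisRepAdic.ofResidualGaloisRep ρbar).DetIsCyclotomic p →
      H56.DetCyc p (H53.toMat ρbar.ρ b) ∧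
      ∀ {R : GQ →* Mat₂ (DualNumber k)} (h : H53.MCont (DualNumber k) R),
        (∀ σ, H56.redM k (R σ) = H53.toMat ρbar.ρ b σ) → (H53.ofMatrix R h).DetIsCyclotomic p →
          H56.GoodLift (H53.toMat ρbar.ρ b) R) ∧
    ∀ {A : Type} [CommRing A] [IsLocalRing A] {R : GQ →* Mat₂ A} (h : H53.MCont A R) {q : ℕ}
      {P : ValuationSubring (AlgebraicClosure ℚ)}, P.LiesOverPrime q →
      ∀ {σ : GQ}, σ ∈ P.inertiaSubgroupIn ℚ →
        ((H53.ofMatrix R h).IsUnipotentOnInertiaAt q → (R σ).charpoly = (X - 1) ^ 2) ∧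
        ((H53.ofMatrix R h).IsUnramifiedAt q → R σ = 1) :=
  ⟨H53.finLev_toMat ρbar b, fun hdet => ⟨H53.detCyc_toMat ρbar b hdet,
    fun {_} h h1 h2 => H53.goodLift_of_det b hdet h h1 h2⟩,
    fun {_} _ _ {_} h {_ _} hP {_} hσ =>
      ⟨fun hR => H53.charpoly_of_unip h hR hP hσ, fun hR => H53.eq_one_of_unram h hR hP hσ⟩⟩

/-! ## 5. Scalar primes -/

/-- **Residually trivial and residually scalar elements.**  In the universal representation (in a basis
adapted to the basis `b` of `rhobar`) an element with trivial residual matrix has a matrix `≡ 1`, an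
element with residual matrix `ū · 1` a matrix `≡ u · 1` modulo the maximal ideal.  File `H53Level`. -/
theorem residual_matrices {O : Type} [CommRing O] [IsDomain O] [IsDiscreteValuationRing O]
    [IsAdicComplete (maximalIdeal O) O] {ρbar : ResidualGaloisRep (ResidueField O)}
    {D : ∀ ⦃A : Type⦄ [CommRing A] [IsLocalRing A] [Algebra O A], GaloisRepAdic A → Prop}
    (U : DeformationRingData O ρbar D) (b : Module.Basis (Fin 2) (ResidueField O) ρbar.V)
    (b₁ : Module.Basis (Fin 2) U.R U.ρ.V)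
    (hb₁ : H53.mapMat (residue U.R) (H53.toMat U.ρ.ρ b₁) =
      H53.mapMat (ResidueField.map (algebraMap O U.R)) (H53.toMat ρbar.ρ b)) (σ : GQ) :
    (H53.toMat ρbar.ρ b σ = 1 → H53.Cong (maximalIdeal U.R) (H53.toMat U.ρ.ρ b₁ σ)) ∧
      ∀ {u : O}, H53.toMat ρbar.ρ b σ = residue O u • (1 : Mat₂ (ResidueField O)) →
        ∀ i j, H53.toMat U.ρ.ρ b₁ σ i j - algebraMap O U.R u * (1 : Mat₂ U.R) i j ∈
          maximalIdeal U.R :=
  ⟨fun h => H53.cong_of_residual U b b₁ hb₁ h, fun h => H53.residual_scalar U b b₁ hb₁ h⟩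

/-- **The relations of the two matrices at `q`**: `Φ Σ = Σ ^ q Φ`, `det Σ = 1`, `det Φ = q` for the
universal matrices `Φ, Σ` of a Frobenius element and a tame generator, if inertia is residually
trivial and the determinant cyclotomic.  These are the equations of the tame ring of
`GuideTameRings`.  File `H53Level`. -/
theorem relations_at {O : Type} [CommRing O] [IsDomain O] [IsDiscreteValuationRing O]
    [IsAdicComplete (maximalIdeal O) O] {ρbar : ResidualGaloisRep (ResidueField O)}
    {D : ∀ ⦃A : Type⦄ [CommRing A] [IsLocalRing A] [Algebra O A], GaloisRepAdic A → Prop}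
    (U : DeformationRingData O ρbar D) {p : ℕ} [Fact p.Prime] (b₁ : Module.Basis (Fin 2) U.R U.ρ.V)
    (hdet : U.ρ.DetIsCyclotomic p) {q : ℕ} (hq : q.Prime) (hpq : p ≠ q) (pl : PlaceData p q)
    (hI : ∀ σ ∈ pl.P.inertiaSubgroupIn ℚ,
      H53.Cong (maximalIdeal U.R) (H53.toMat U.ρ.ρ b₁ σ)) :
    H53.toMat U.ρ.ρ b₁ pl.φ * H53.toMat U.ρ.ρ b₁ pl.σ =
        H53.toMat U.ρ.ρ b₁ pl.σ ^ q * H53.toMat U.ρ.ρ b₁ pl.φ ∧
      (H53.toMat U.ρ.ρ b₁ pl.σ).det = 1 ∧ (H53.toMat U.ρ.ρ b₁ pl.φ).det = q :=
  H53.scalar_relations U b₁ hdet hq hpq pl hI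

/-- **Three coordinates suffice.**  Let `2` be a unit, `M` a matrix over the local ring `R` with
determinant `d`, `u` a unit with `tr M ≡ 2 u` modulo the maximal ideal.  (1) If the ideal `J` contains
`d - u²`, the off-diagonal entries and half the difference `n` of the diagonal entries, then
`M ≡ u · 1` modulo `J`.  (2) The same for a homomorphism `f` to the dual numbers which kills these
elements and maps `u` to a constant: `f (M)` is constant.  Files `H53Level`, `H53TWB2`. -/
theorem traceless_coordinates {R : Type} [CommRing R] [IsLocalRing R] (h2 : IsUnit (2 : R))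
    (M : Mat₂ R) {d u : R} (hd : M 0 0 * M 1 1 - M 0 1 * M 1 0 = d) (hu : IsUnit u)
    (htr : M 0 0 + M 1 1 - 2 * u ∈ maximalIdeal R) {n : R} (hn : 2 * n = M 0 0 - M 1 1) :
    (∀ J : Ideal R, d - u ^ 2 ∈ J → n ∈ J → M 0 1 ∈ J → M 1 0 ∈ J →
      ∀ i j, M i j - u * (1 : Mat₂ R) i j ∈ J) ∧
    ∀ {k : Type} [Field k] (f : R →+* DualNumber k), f (d - u ^ 2) = 0 → f n = 0 →
      f (M 0 1) = 0 → f (M 1 0) = 0 → TrivSqZeroExt.snd (f u) = 0 → H56.sndM (M.map f) = 0 :=
  ⟨fun J h1 h3 h4 h5 => H53.entries_mem J h2 M hd h1 hu htr hn h3 h4 h5,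
    fun f h1 h3 h4 h5 h6 => H53.sndM_eq_zero_of_coords f h2 M hd h1 hu htr hn h3 h4 h5 h6⟩

/-- **Two elements decide on the decomposition group.**  Let `r` be unramified at `t ≠ p` and `R` a lift
to the dual numbers with constant determinant.  If the cocycle of `R` vanishes at a Frobenius element
and at a tame generator, it vanishes on the decomposition group `Dq t`.  If moreover `r(φ)` is scalar,
`r` is scalar on `Dq t`, so the coboundaries vanish there.  File `H53TWL1`. -/
theorem scalar_prime_cocycles {p : ℕ} [Fact p.Prime] {k : Type} [Field k] [Algebra (ZMod p) k]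
    {r : GQ →* Mat₂ k} {t : Nat.Primes} (hI : ∀ σ ∈ H56.Iq t, r σ = 1) :
    (∀ {R : GQ →* Mat₂ (DualNumber k)}, H56.GoodLift r R → p ≠ (t : ℕ) →
      ∀ pl : PlaceData p (t : ℕ), pl.P = ExtCitation.primeLocalPlace t →
        H56.coc R pl.φ = 0 → H56.coc R pl.σ = 0 → ∀ σ ∈ H56.Dq t, H56.coc R σ = 0) ∧
    (H56.FinLev r → ∀ {φ : GQ}, (ExtCitation.primeLocalPlace t).IsFrobeniusAt φ t →
      ∀ {u : k}, r φ = u • (1 : Mat₂ k) → ∀ σ ∈ H56.Dq t, ∃ v : k, r σ = v • (1 : Mat₂ k)) :=
  ⟨fun hR htp pl hpl h1 h2 => H53.coc_eq_zero_D hR htp pl hpl hI h1 h2,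
    fun hfl {_} hφ {_} hu => H53.scalar_D hfl hI hφ hu⟩

/-! ## 6. Raising primes -/

/-- **Commutators with a non-scalar matrix.**  Let `2 ≠ 0` in the field `k` and `Φ` not a scalar matrix
(`NonScalar Φ`).  Every matrix `Y` with `tr Y = 0` and `tr (Y Φ) = 0` is `Φ X - X Φ` with `tr X = 0`; in
terms of cocycles: for a representation `r` with `r(φ)` not scalar, every trace-free `F` with
`tr (F r(φ)) = 0` is the value at `φ` of a coboundary.  So a lift to the dual numbers whose trace at `φ`
is constant is, after conjugation, constant at `φ` (`cocycle_eq_coboundary` of `GuideLocalBounds`).  File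
`H53LocB`. -/
theorem commutators {k : Type} [Field k] (h2 : (2 : k) ≠ 0) :
    (∀ {Φ : Mat₂ k}, NonScalar Φ → ∀ {Y : Mat₂ k}, Y.trace = 0 → (Y * Φ).trace = 0 →
      ∃ X : Mat₂ k, X.trace = 0 ∧ Y = Φ * X - X * Φ) ∧
    ∀ {G : Type} [Group G] (r : G →* Mat₂ k) {φ : G}, NonScalar (r φ) → ∀ {F : Mat₂ k},
      F.trace = 0 → (F * r φ).trace = 0 → ∃ X : Mat₂ k, X.trace = 0 ∧ F = H56.cob r X φ :=
  ⟨fun {_} hΦ {_} h3 h4 => H53.exists_commutator h2 hΦ h3 h4,
    fun {_} _ r {_} hΦ {_} h3 h4 => H53.exists_cob h2 r hΦ h3 h4⟩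

/-- **Unramified decomposition groups.**  If `r` (with open kernel) is trivial on inertia at `t`, every
element of the decomposition group acts as a power of Frobenius; so a matrix which commutes with `r(φ)`
commutes with the image of the decomposition group.  File `H53LocB`. -/
theorem unramified_powers {k : Type} [Field k] {r : GQ →* Mat₂ k} (hfl : H56.FinLev r)
    {t : Nat.Primes} (hI : ∀ σ ∈ H56.Iq t, r σ = 1) {φ : GQ}
    (hφ : (ExtCitation.primeLocalPlace t).IsFrobeniusAt φ t) :
    (∀ σ ∈ H56.Dq t, ∃ n : ℕ, r σ = r φ ^ n) ∧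
      ∀ {X : Mat₂ k}, r φ * X = X * r φ → ∀ σ ∈ H56.Dq t, r σ * X = X * r σ :=
  ⟨H53.exists_pow_of_unram hfl hI hφ, fun hX => H53.commute_of_unram hfl hI hφ hX⟩

/-- **The tame relation for `N = Σ - 1` with `N² = 0`**: `(1 + N) ^ q = 1 + q N`, hence `Φ N = q N Φ`.
This applies to unipotent points and to tangent vectors: if `f : A → k[ε]` is local and `Σ ≡ 1` modulo
the maximal ideal, then `(f(Σ) - 1)² = 0`.  File `H53MarkB`. -/
theorem linear_tame_relation {B : Type} [CommRing B] {Ph Sg : Mat₂ B} {q : ℕ} :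
    (∀ {N : Mat₂ B}, N ^ 2 = 0 → (1 + N) ^ q = 1 + (q : B) • N) ∧
    (Ph * Sg = Sg ^ q * Ph → (Sg - 1) ^ 2 = 0 → Ph * (Sg - 1) = (q : B) • ((Sg - 1) * Ph)) ∧
    ∀ [IsLocalRing B] {k : Type} [Field k] (f : B →+* DualNumber k), IsLocalHom f →
      H53.Cong (maximalIdeal B) Sg → (Sg.map f - 1) ^ 2 = 0 :=
  ⟨fun hN => H53.one_add_pow_of_sq hN q, H53.tame_nilpotent, fun f hf h => H53.cong_map_dual f hf h⟩

/-- **The trace of Frobenius at a ramified unipotent point.**  Over a domain let `det Φ = q`, `N ≠ 0` and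
`Φ N = q N Φ`, with `q ≠ 0, 1`.  Then `(tr Φ)² = (q + 1)²`.  (By the theorem of Cayley and Hamilton
`N (tr(Φ) Φ - (q + 1)) = 0`, so the determinant of the second factor vanishes.)  File `H53MarkB`. -/
theorem trace_of_steinberg {B : Type} [CommRing B] [IsDomain B] {Ph N : Mat₂ B} {q : ℕ}
    (hq0 : (q : B) ≠ 0) (hq1 : (q : B) ≠ 1) (hdet : Ph.det = q) (hN0 : N ≠ 0)
    (h : Ph * N = (q : B) • (N * Ph)) : Ph.trace ^ 2 = (q + 1) ^ 2 :=
  H53.trace_sq_of_nilpotent hq0 hq1 hdet hN0 h

/-- **First case: `q ≢ 1` modulo `p`.**  Frobenius is diagonal with entries `α ≡ u q`, `β ≡ u` modulo the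
maximal ideal.  If `N² = 0` and `Φ N = q N Φ`, then `N` has zero diagonal, `N₀₁ (β - u) = 0`,
`N₁₀ (β + u q) = 0` and `N₀₁ N₁₀ = 0` (`q - 1`, `q`, `α - u`, `β + u` are units).  The marks are
`t = β - u`, `y = Σ₀₁`, `z = Σ₁₀` in the eigenbasis.  `IsBMarks q u Φ Σ t y z` is the list of properties
in `exists_marks` of `GuideLiftingGalois`.  File `H53MarkB`. -/
theorem marks_first_case {A : Type} [CommRing A] {q : ℕ} {u : A} (hu : u ^ 2 = 1)
    (hq : IsUnit ((q : A) - 1)) (hqu : IsUnit (q : A)) :
    (∀ {α β : A} {N : Mat₂ A}, α * β = q → IsUnit (α - u) → IsUnit (β + u) → N ^ 2 = 0 →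
      !![α, 0; 0, β] * N = (q : A) • (N * !![α, 0; 0, β]) →
        N 0 0 = 0 ∧ N 1 1 = 0 ∧ N 0 1 * (β - u) = 0 ∧ N 1 0 * ((β - u) + u * (q + 1)) = 0 ∧
          N 0 1 * N 1 0 = 0) ∧
    ∀ [IsLocalRing A] [IsAdicComplete (maximalIdeal A) A], IsUnit (2 : A) → ∀ {Ph Sg : Mat₂ A},
      Ph * Sg = Sg ^ q * Ph → Ph.det = q → H53.Cong (maximalIdeal A) Sg →
        Ph.trace - u * (q + 1) ∈ maximalIdeal A → ∃ t y z, H53.IsBMarks q u Ph Sg t y z :=
  ⟨fun h1 h2 h3 h4 h5 => H53.eigen_relations hu hq hqu h1 h2 h3 h4 h5,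
    fun _ _ h1 {_ _} h3 h4 h5 h6 => H53.exists_bMarks_one hu h1 h3 h4 h5 h6 hq hqu⟩

/-- **Second case: `q ≡ 1` modulo `p`**, `Φ` residually not scalar with the double eigenvalue `u`.  The
marks are `t = tr Φ - u (q + 1)`, `y` = one entry of `Σ - 1` in a position where `Φ - u` has a unit, and
`z = 0`.  For tangent vectors: a trace-free matrix `N` which commutes with the residual `Φ` and has a
zero in this position is `0`.  File `H53MarkB`. -/
theorem marks_second_case {A : Type} [CommRing A] [IsLocalRing A] {q : ℕ} {u : A} (hu : u ^ 2 = 1)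
    (h2 : IsUnit (2 : A)) {Ph Sg : Mat₂ A} (htame : Ph * Sg = Sg ^ q * Ph) (hdet : Ph.det = q)
    (hdetS : Sg.det = 1) (hSg : H53.Cong (maximalIdeal A) Sg)
    (htr : Ph.trace - u * (q + 1) ∈ maximalIdeal A) (hq : (q : A) - 1 ∈ maximalIdeal A)
    (hq1 : 1 < q) (hns : NonScalar (Ph.map (residue A))) :
    (∃ t y z, H53.IsBMarks q u Ph Sg t y z) ∧
      ∀ {k : Type} [Field k], (2 : k) ≠ 0 → ∀ {Φ N : Mat₂ k}, N.trace = 0 → Φ * N = N * Φ →
        ∀ {i j : Fin 2} {v : k}, Φ.trace = 2 * v → (Φ - v • (1 : Mat₂ k)) i j ≠ 0 → N i j = 0 →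
          N = 0 :=
  ⟨H53.exists_bMarks_two hu h2 htame hdet hdetS hSg htr hq hq1 hns,
    fun {_} _ h3 {_ _} h4 h5 {_ _ _} h6 h7 h8 => H53.eq_zero_of_commute h3 h4 h5 h6 h7 h8⟩

/-! ## 7. The ring of a level

In this section `L : GalLevelB ...` is the Galois side of a level (`galois_side_raising`,
`galLevel_fields` of `GuideLiftingGalois`): `L.D` the universal ring `R = L.D.R` of the type `H53.typeB`
of the level (`level_type_iff` there), `L.r` the universal representation in matrices, `pd : PData ...`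
the data at `p` (`pData_fields` there), `qT t` the scalar primes with elements `pl t`, `qB i` the raising
primes with elements `plB i`, `L.qv j` the Taylor-Wiles primes with elements `L.plQ j` and splitting
`L.s j` (their number is `H53.numB T B pd.ε k = 3 #T + #B + #ε + k`), `L.mB` the marks.  `(L.plQ j).σD` is
the tame generator `(L.plQ j).σ` as an element of the decomposition group. -/

section Level

variable {O : Type} [CommRing O] [IsDomain O] [IsDiscreteValuationRing O]
  [IsAdicComplete (maximalIdeal O) O] [Finite (ResidueField O)] {p : ℕ} [Fact p.Prime]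
  {ρbar : ResidualGaloisRep (ResidueField O)} {b : Module.Basis (Fin 2) (ResidueField O) ρbar.V}
  {pd : PData p ρbar b} {A : Finset ℕ} {T B : Type} [Fintype T] [Fintype B] {qT : T → ℕ}
  {pl : ∀ t, PlaceData p (qT t)} {u : T → O} {qB : B → ℕ} {plB : ∀ i, PlaceData p (qB i)}
  {uB : B → O} {k n : ℕ} {S : Finset ℕ} (L : GalLevelB p ρbar b pd A qT pl u qB plB uB k n S)

/-- **The diamond variables.**  `c_j = χ₁(σ_j) - 1`, `σ_j` the tame generator at the Taylor-Wiles prime
`L.qv j`, lies in the maximal ideal and `(1 + c_j) ^ (p ^ e_j) = 1`, `p ^ e_j` the exact power of `p` in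
`L.qv j - 1`; inertia at `L.qv j` has matrices `≡ 1` of determinant `1`.  File `H53TWB2`. -/
theorem diamond_variables (j : Fin (H53.numB T B pd.ε k)) :
    1 + L.c j = ((L.s j).χ₁ (L.plQ j).σD : L.D.R) ∧ L.c j ∈ maximalIdeal L.D.R ∧
      (1 + L.c j) ^ p ^ L.e j = 1 ∧ (∃ m : ℕ, L.qv j - 1 = p ^ L.e j * m ∧ ¬ p ∣ m) ∧
      ∀ {P : ValuationSubring (AlgebraicClosure ℚ)}, P.LiesOverPrime (L.qv j) →
        ∀ σ ∈ P.inertiaSubgroupIn ℚ, H53.Cong (maximalIdeal L.D.R) (L.r σ) ∧ (L.r σ).det = 1 :=
  ⟨L.one_add_c j, L.c_mem j, L.one_add_c_pow j, L.e_spec j,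
    fun hP σ hσ => ⟨L.inertia_cong j hP σ hσ, L.det_inertia_TW j hP hσ⟩⟩

/-- **Specialisations and the diamond variables.**  For a homomorphism `f` from `R` to a ring `R'`, the
representation `f ∘ L.r` is trivial on the inertia groups at `L.qv j` if and only if `f (c_j) = 0`.  If
`R'` is reduced, it is enough that the matrix of `σ_j` has characteristic polynomial `(X - 1)²`.  File
`H53TWB2`. -/
theorem unramified_iff_diamond {R' : Type} [CommRing R'] (f : L.D.R →+* R')
    (j : Fin (H53.numB T B pd.ε k)) :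
    ((∀ P : ValuationSubring (AlgebraicClosure ℚ), P.LiesOverPrime (L.qv j) →
      ∀ σ ∈ P.inertiaSubgroupIn ℚ, H53.mapMat f L.r σ = 1) ↔ f (L.c j) = 0) ∧
    (IsReduced R' → (H53.mapMat f L.r (L.plQ j).σ).charpoly = (X - 1) ^ 2 → f (L.c j) = 0) :=
  ⟨L.unram_iff f j, fun _ h => L.c_eq_zero_of_unipotent f j h⟩

/-- **The level raising element** at `qB i`: with `t = L.mB i 0` and `u_i (q + 1)` as in `exists_marks`,
`(tr Φ)² - (q + 1)² = v t (t + u_i (q + 1))` with a unit `v`; so for a homomorphism `f` with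
`f(tr Φ)² = (q + 1)²` the product `t (t + u_i (q + 1))` goes to `0`.  File `H53GalPt`. -/
theorem raising_element (i : B) :
    (∃ v : L.D.R, IsUnit v ∧
      (L.r (plB i).φ 0 0 + L.r (plB i).φ 1 1) ^ 2 - ((qB i : L.D.R) + 1) ^ 2 =
        v * (L.mB (Sum.inl i) 0 *
          (L.mB (Sum.inl i) 0 + algebraMap O L.D.R (uB i * ((qB i : O) + 1))))) ∧
    ∀ {O' : Type} [CommRing O'] [Algebra O O'] (f : L.D.R →ₐ[O] O'),
      f (L.r (plB i).φ 0 0 + L.r (plB i).φ 1 1) ^ 2 = ((qB i : O') + 1) ^ 2 →
        f (L.mB (Sum.inl i) 0 *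
          (L.mB (Sum.inl i) 0 + algebraMap O L.D.R (uB i * ((qB i : O) + 1)))) = 0 :=
  ⟨L.h_eq i, fun f h => L.pt_new f i h⟩

section Point

variable {O' : Type} [CommRing O'] [IsDomain O'] [IsLocalRing O']
  [IsAdicComplete (maximalIdeal O') O'] [Algebra O O'] [IsLocalHom (algebraMap O O')]
  (f : L.D.R →ₐ[O] O') (hf : IsLocalHom (f : L.D.R →+* O'))

/-- **Points at the Taylor-Wiles primes.**  A *point* is a local homomorphism `f` of `O`-algebras from `R`
to a complete local domain `O'`; its representation is the base change of the universal one.  It is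
unipotent on inertia at `L.qv j` (equivalently unramified) if and only if `f (c_j) = 0`.  File
`H53GalPt`. -/
theorem point_at_taylorWiles (j : Fin (H53.numB T B pd.ε k)) :
    (L.D.ρ.baseChangeAlong (f : L.D.R →+* O') hf).IsUnipotentOnInertiaAt (L.qv j) ↔
      f (L.c j) = 0 :=
  L.pt_isUnipotent_iff f hf j

/-- **Points at the scalar primes.**  If the representation of the point is unipotent at `qT t`, the trace
of the tame generator is `2`.  If not, it is `z + z⁻¹` with a non-trivial `p ^ a`-th root of unity `z` of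
`O` (`p ^ a` the power of `p` in `qT t - 1`; `O` contains a primitive one, `O → O'` is injective), so
the product over these `z` of the differences goes to `0`.  (`H55.ntRoots O p a` is the set of these
`z`; the alternative is `unipotent_or_trace` of `GuideLevelsPoints`.)  File `H53GalPt`. -/
theorem point_at_scalar_primes (t : T) :
    ((L.D.ρ.baseChangeAlong (f : L.D.R →+* O') hf).IsUnipotentOnInertiaAt (qT t) →
      f (L.r (pl t).σ 0 0 + L.r (pl t).σ 1 1 - 2) = 0) ∧
    (Function.Injective (algebraMap O O') → p ≠ 2 → (qT t).Prime → ρbar.IsUnramifiedAt (qT t) →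
      ∀ {a m : ℕ}, qT t - 1 = p ^ a * m → ¬ p ∣ m → 0 < a → ∀ {ζ : O}, IsPrimitiveRoot ζ (p ^ a) →
        ¬ (L.D.ρ.baseChangeAlong (f : L.D.R →+* O') hf).IsUnipotentOnInertiaAt (qT t) →
          (∃ z ∈ H55.ntRoots O p a,
            f (L.r (pl t).σ).trace = algebraMap O O' ((z : O) + (z⁻¹ : Oˣ))) ∧
          f (∏ z ∈ H55.ntRoots O p a, (L.r (pl t).σ 0 0 + L.r (pl t).σ 1 1 -
            algebraMap O L.D.R ((z : O) + (z⁻¹ : Oˣ)))) = 0) :=
  ⟨fun h => L.pt_uniElt f hf t h, fun h1 h2 h3 h4 {_ _} h5 h6 h7 {_} h8 h9 =>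
    ⟨L.pt_trace_of_not_unipotent f hf h1 h2 h3 h4 h5 h6 h7 h8 h9,
      L.pt_prodElt f hf h1 h2 h3 h4 h5 h6 h7 h8 h9⟩⟩

/-- **Points at the raising primes** (`O'` of characteristic zero in the second statement).  Unramified at
`qB i`: `y` and `z` go to `0`.  Unipotent at `qB i`: `y t` and `z (t + u_i (q + 1))` go to `0`, where
`t, y, z = L.mB i 0, 1, 2`.  File `H53GalPt`. -/
theorem point_at_raising_primes (i : B) :
    ((L.D.ρ.baseChangeAlong (f : L.D.R →+* O') hf).IsUnramifiedAt (qB i) →
      f (L.mB (Sum.inl i) 1) = 0 ∧ f (L.mB (Sum.inl i) 2) = 0) ∧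
    (CharZero O' → (L.D.ρ.baseChangeAlong (f : L.D.R →+* O') hf).IsUnipotentOnInertiaAt (qB i) →
      f (L.mB (Sum.inl i) 1) * f (L.mB (Sum.inl i) 0) = 0 ∧
      f (L.mB (Sum.inl i) 2) *
        (f (L.mB (Sum.inl i) 0) + algebraMap O O' (uB i * ((qB i : O) + 1))) = 0) :=
  ⟨fun h => L.pt_nr f hf i h, fun _ h => L.pt_uni f hf i h⟩

end Point

/-- **The ring part of a level.**  The patching argument works with the structure `RPart`
(`ring_of_level` of `GuideLiftingAlgebra`): a ring with a presentation and two matrices `Σ, Φ` for every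
scalar prime, with their relations and coordinates.  `L.rpart` is the one of `L`: the universal ring and
the universal matrices of the tame generators and of the Frobenius elements.  File `H53RPart`. -/
theorem ring_part :
    L.rpart.R = L.D.R ∧ (∀ t, L.rpart.Sg t = L.r (pl t).σ) ∧ (∀ t, L.rpart.Ph t = L.r (pl t).φ) ∧
      ∀ x, L.rpart.β x = L.β x :=
  ⟨rfl, fun _ => rfl, fun _ => rfl, fun _ => rfl⟩

end Level

/-! ## 8. Marks at `p` -/

/-- **The data for the ordinary type.**  Let `p` be odd and `rhobar`, over a finite field, strictly ordinary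
and flat at `p` with cyclotomic determinant.  There are a Frobenius element `φ` and an element `σ₀` of
inertia as in `markElts_iff` of `GuideLiftingGalois` (`MarkElts p φ σ₀`), `rhobar(σ₀) = 1`, and in a
suitable basis `rhobar` has the ordinary form: it is upper triangular on the decomposition group with
lower right entry `1` on inertia (`OrdI p r`, for `r = cj g₀ rhobar = g₀⁻¹ rhobar g₀`), and `w = ±1` at
`φ`.  This is the input of `pData_ordinary` of `GuideLiftingGalois`.  File `H53POrd`. -/
theorem ordinary_data {p : ℕ} [Fact p.Prime] (hp2 : p ≠ 2) {k : Type} [Field k] [Finite k]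
    (ρbar : ResidualGaloisRep k) (b : Module.Basis (Fin 2) k ρbar.V)
    (hdet : (GaloisRepAdic.ofResidualGaloisRep ρbar).DetIsCyclotomic p)
    (hstr : (GaloisRepAdic.ofResidualGaloisRep ρbar).IsStrictOrdinaryAt p)
    (hflat : (GaloisRepAdic.ofResidualGaloisRep ρbar).IsFlatAt p) :
    ∃ φ σ₀ : GQ, H75P.MarkElts p φ σ₀ ∧ H53.toMat ρbar.ρ b σ₀ = 1 ∧ ∃ w : ℤ, w ^ 2 = 1 ∧
      ∃ g₀ : (Mat₂ k)ˣ, H75P.OrdI p (H75P.cj g₀ (H53.toMat ρbar.ρ b)) ∧
        H75P.cj g₀ (H53.toMat ρbar.ρ b) φ 1 1 = (w : k) :=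
  H53.exists_ordData hp2 ρbar b hdet hstr hflat

/-- **The unramified quotient as a linear form.**  If the matrices of `ρ`, conjugated by `g`, have the
ordinary form, there is a linear form `l ≠ 0` on `ρ.V` with `l (ρ(σ) v) = ψ(σ) l(v)` on the
decomposition group, `ψ(σ)` the lower right entry of the conjugated matrix.  File `H53GalPt`. -/
theorem quotient_form {p : ℕ} [Fact p.Prime] {B : Type} [CommRing B] [IsLocalRing B]
    (ρ : GaloisRepAdic B) (b' : Module.Basis (Fin 2) B ρ.V) {g : (Mat₂ B)ˣ}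
    (hg : H75P.OrdI p (H75P.cj g (H53.toMat ρ.ρ b'))) :
    ∃ l : Module.Dual B ρ.V, l ≠ 0 ∧ ∀ σ ∈ (padicPlace p).decompositionSubgroup ℚ, ∀ v,
      l (ρ.ρ σ v) = H75P.cj g (H53.toMat ρ.ρ b') σ 1 1 * l v :=
  H53.exists_functional_of_ordI ρ b' hg

/-- **Points and the marks at `p`.**  Let `L` be the Galois side of a level of the ordinary type (the data
at `p` are `PData.ord ...`: the condition "ordinary at `p`", and one mark `t, y, z = L.mB e 0, 1, 2` at
`p`, `e` the only element of `ε`) and `f` a point with values in a complete discrete valuation ring `O'`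
with finite residue field.  (1) If the representation of the point is flat at `p`, then `y` and `z` go to
`0`.  (2) In any case `y t` and `z (t + c)` go to `0` (`z = 0`).  (3) If Frobenius acts with square one on
every unramified quotient line of the representation, then `t` goes to `0`.  File `H53GalPt`. -/
theorem point_at_p {O : Type} [CommRing O] [IsDomain O] [IsDiscreteValuationRing O]
    [IsAdicComplete (maximalIdeal O) O] [Finite (ResidueField O)] {p : ℕ} [Fact p.Prime]
    (hp2 : p ≠ 2) {ρbar : ResidualGaloisRep (ResidueField O)}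
    {b : Module.Basis (Fin 2) (ResidueField O) ρbar.V}
    (hdet : (GaloisRepAdic.ofResidualGaloisRep ρbar).DetIsCyclotomic p)
    (hord : (GaloisRepAdic.ofResidualGaloisRep ρbar).IsOrdinaryAt p) {φ σ₀ : GQ}
    (hm : H75P.MarkElts p φ σ₀) (hr0 : H53.toMat ρbar.ρ b σ₀ = 1) (w : ℤ) (hw : w ^ 2 = 1)
    {g₀ : (Mat₂ (ResidueField O))ˣ} (hg₀ : H75P.OrdI p (H75P.cj g₀ (H53.toMat ρbar.ρ b)))
    (hu : H75P.cj g₀ (H53.toMat ρbar.ρ b) φ 1 1 = (w : ResidueField O)) {A : Finset ℕ}
    {T B : Type} [Fintype T] [Fintype B] {qT : T → ℕ} {pl : ∀ t, PlaceData p (qT t)} {u : T → O}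
    {qB : B → ℕ} {plB : ∀ i, PlaceData p (qB i)} {uB : B → O} {k n : ℕ} {S : Finset ℕ}
    (L : GalLevelB p ρbar b (PData.ord hp2 ρbar b hdet hord hm hr0 w hw hg₀ hu) A qT pl u qB plB uB
      k n S)
    {O' : Type} [CommRing O'] [IsDomain O'] [IsDiscreteValuationRing O']
    [IsAdicComplete (maximalIdeal O') O'] [Finite (ResidueField O')] [Algebra O O']
    (f : L.D.R →ₐ[O] O') (hf : IsLocalHom (f : L.D.R →+* O')) :
    ((L.D.ρ.baseChangeAlong (f : L.D.R →+* O') hf).IsFlatAt p →
      f (L.mB (Sum.inr ()) 1) = 0 ∧ f (L.mB (Sum.inr ()) 2) = 0) ∧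
    (∀ c : O', f (L.mB (Sum.inr ()) 1) * f (L.mB (Sum.inr ()) 0) = 0 ∧
      f (L.mB (Sum.inr ()) 2) * (f (L.mB (Sum.inr ()) 0) + c) = 0) ∧
    ((∀ (l : Module.Dual O' (L.D.ρ.baseChangeAlong (f : L.D.R →+* O') hf).V) (z : O'), l ≠ 0 →
      (∀ σ ∈ (padicPlace p).inertiaSubgroupIn ℚ, ∀ v,
        l ((L.D.ρ.baseChangeAlong (f : L.D.R →+* O') hf).ρ σ v) = l v) →
      (∀ v, l ((L.D.ρ.baseChangeAlong (f : L.D.R →+* O') hf).ρ φ v) = z * l v) → z ^ 2 = 1) →
        f (L.mB (Sum.inr ()) 0) = 0) :=
  ⟨fun h => GalLevelB.pt_ord_nr hp2 hdet hord hm hr0 w hw hg₀ hu L f hf h,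
    fun c => GalLevelB.pt_ord_uni hp2 hdet hord hm hr0 w hw hg₀ hu L f c,
    fun h => GalLevelB.pt_ord_new hp2 hdet hord hm hr0 w hw hg₀ hu L f hf h⟩

end Fermat.Agent.Guide.GaloisPoints
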