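import Fermat.Agent.H34Arch
import Fermat.Agent.H34Two7

/-!
# Reader's guide: Gauss norms of Laurent series and the components of `X_0(mq)` (steps)

Companion of `GuideReduction`, sections 2 - 4. There the theorems on the good reduction of `X_0(N)` and on
the two components of `X_0(mq)` modulo `q` are stated; here one finds how they are proved, without a model
over a ring of integers, for a valuation ring `A` of a field `L` which need not be discrete (`L = ℚ̄` in the
applications) and a homomorphism `π` of `A` to a field `k`.

**Idea.** A function is its Laurent expansion. One takes the series with coefficients in `A` and reduces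
their coefficients. Two things have to be proved.
(1) There are enough integral functions: every function is a constant times a quotient of integral ones with
reduction not zero, and every finite dimensional space of functions over `L` has a basis of integral
functions whose reductions are linearly independent over `k`. Over a valuation ring which is not discrete
this is not automatic. The first holds because the function field has generators with coefficients in `ℤ`
(section 2), the second because there is a basis over `L(j)` which stays independent after the reduction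
(`gauss_data`; for two components: a frame, `Frames.exists_frame`).
(2) The reductions of functions are functions, and there is no component besides the obvious ones. Both
follow by COUNTING DEGREES over the `j`-line: the degrees in characteristic `0` and in characteristic `q` are
known (`Reduction.degree_eq_psi`), and equality in the fundamental inequality leaves no room.

* section 1: linear algebra over a valuation ring;
* section 2: bounded Laurent series;
* section 3: rings with a reduction map, the lemma of Gauss for families of polynomials, Gauss data;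
* section 4: modular functions at a place prime to the level;
* section 5: the two components of `X_0(mq)` at `q`;
* section 6: Galois action and the cusps; places of rank one.

Used for: sections 1, 3, 4: S17 - S19, S26 (`H42Gauss` only), S29 - S40, S42 - S46, S50, S58 - S60, S03, S04,
S06, S09, S12, S15 and S01; sections 2, 5, 6: S33 - S35, S38 - S40, S43 - S46, S50, S58 - S60, S03, S04, S06,
S09, S12, S15 and S01 (the last theorem: S33, S38 - S40, S43, S45, S46, S50, S59, S60, S03, S04, S06, S01).
Fewer: the last part of `local_ring` (not S17 - S19, S29 - S32, S36, S37, S42), `gauss_valuation` (not S18,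
S19), the last part of `components` (not S33). Nothing here is used in S47, except the two facts of the
Prelude cited in `generators_integral`. Notes: NOTES.md [230], [291], [271]. The results: `GuideReduction`;
components of function fields in general: `GuideFrames`, `GuideFramesSteps`; what is built on them:
`GuideDeuring` (sections 3, 4: reduction of divisors of `X_0(N)`), `GuideBadRed`, `GuideTwoSheets`
(sections 5, 6).

Notation: `coeffMap φ` applies `φ` to all coefficients of a Laurent series, `coeffMap A.subtype` is the
inclusion `A((t)) ⊂ L((t))`, `coeffMap π` the reduction `A((t)) → k((t))`; `qExpand R d` is `t ↦ t ^ d`;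
`jqModC R` is the expansion of `j` over `R`, `H66.J L d = j(t ^ d)`; `FX L N` is the function field of
`X_0(N)` over `L ⊇ ℚ`, `modularFunctionFieldFullC k N` the one over `k`, both inside Laurent series;
`relfinrank E F` is the degree `[F : E]` of two subfields of one field. `H34.Two.gC A π M` is the Gauss
valuation ring `.V` of `FX L M` with its reduction map `.red` (`Reduction.mem_component_iff`),
`H34.Two.gC2 A π w` its image under the Atkin-Lehner involution `w.W`. Here `w : H99.AL L m q` is an
automorphism `w.W` of `FX L (mq)` over `L` with `w.W (w.W f) = f`, which exchanges the two embeddings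
`heckeAlphaBar` (`f ↦ f`) and `heckeBetaBar` (`f ↦ f(t ^ q)`) of `FX L m`. `H84.Comp A π F κ` is the type of
the components of `F` with values in `κ` (`Frames.component`). The hypotheses on degrees are
`H67.DegreeFact L` (`[FX L N : L(j)] = ψ(N)` for all `N`) and `H42.DegLE L k N` (this degree is not `0` and
not larger than the one over `k(j)`); they hold over algebraically closed fields if `N ≠ 0` in `k`
(`Reduction.degree_hypotheses`). `IsLocalHom π`: the kernel of `π` is the maximal ideal of `A`.

Authors of the library files: helper42 (`H42Gauss*`), helper34 (`H34Two*`, `H34Arch`), helper84 (`H84*`),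
helper99 (`H99Emb*`), helper60, 67, 97. Text: helper34; read by helper1, 17, 41, 42, 44, 51, 68, 70, 71, 73,
74, 75, 84, 97, 98.
-/

set_option autoImplicit false

noncomputable section

open Polynomial Module IntermediateField ModularCurve AlgebraicCurve
open Fermat.Agent.H99 (FX)

namespace Fermat.Agent.Guide.GaussSeries

-- Mathlib has two (equal) structures of a vector space on `L((t))`; here the one of the algebra is used. The
-- third instance is switched off in this file only for speed.
attribute [-instance] HahnSeries.instModule HahnSeries.instSMul IsScalarTower.of_algHom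

/-! ### 1. Linear algebra over a valuation ring -/

/-- **Scaling.** Finitely many elements of `L`, not all `0`, are a constant `c ≠ 0` times elements of the
valuation ring `A`, one of which is `1`: divide by an element of largest valuation. (Nothing is assumed on
the value group.) File `H42Gauss`. -/
theorem scaling {L : Type*} [Field L] (A : ValuationSubring L) {κ : Type*} (s : Finset κ)
    (f : κ → L) (h : ∃ i ∈ s, f i ≠ 0) :
    ∃ c : L, c ≠ 0 ∧ (∀ i ∈ s, c⁻¹ * f i ∈ A) ∧ ∃ i ∈ s, c⁻¹ * f i = 1 :=
  H42.exists_scale A s f h

/-- **Normalisation by a maximal minor.** `P` is a matrix with `m` rows and `r` columns over a field with a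
valuation `v`, and some minor of order `r` is not `0`. There are `r` rows `I` such that the minor of the
submatrix `P_I` is not `0` and all entries of `P P_I⁻¹` have valuation at most `1`. Proof: choose the minor
of largest valuation; by Cramer's rule the entries of `P P_I⁻¹` are quotients of two minors. File
`H42Gauss`. -/
theorem maximal_minor {L Γ : Type*} [Field L] [LinearOrderedCommGroupWithZero Γ]
    (v : Valuation L Γ) {m r : ℕ} (P : Matrix (Fin m) (Fin r) L)
    (hP : ∃ I : Fin r → Fin m, (P.submatrix I id).det ≠ 0) :
    ∃ I : Fin r → Fin m, (P.submatrix I id).det ≠ 0 ∧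
      ∀ k a, v ((P * (P.submatrix I id)⁻¹) k a) ≤ 1 :=
  H42.exists_normalized_minor v P hP

/-- **Lattice bases.** Every subspace `W` of `L ^ ι`, `ι` finite, has a basis `w_1, ..., w_d` of vectors with
coordinates in `A` which contains an identity matrix: there are coordinates `p_1, ..., p_d` with
`w_i(p_j) = δ_ij`. In particular the reductions of the `w_i` are linearly independent, for every homomorphism
of `A` to a field. (This is what replaces the theorem on elementary divisors.) File `H42Gauss`. -/
theorem lattice_basis {L : Type*} [Field L] (A : ValuationSubring L) {ι : Type*} [Finite ι]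
    (W : Submodule L (ι → L)) :
    ∃ (d : ℕ) (w : Fin d → ι → A) (p : Fin d → ι),
      Submodule.span L (Set.range fun (i : Fin d) (j : ι) => (w i j : L)) = W ∧
        ∀ i j, w i (p j) = if i = j then 1 else 0 :=
  H42.exists_lattice_basis A W

/-! ### 2. Bounded Laurent series -/

/-- **Integral Laurent series.** Finitely many series `M_1, ..., M_s ∈ ℤ((t))` are combinations with integral
coefficients of series `b_1, ..., b_r ∈ ℤ((t))` for which there are finite integral combinations `x_j` of
coefficients (`x_j(f) = Σ_n x_(j,n) f_n`) with `x_j(b_i) = δ_ij`. Proof: the coefficient vectors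
`(M_1, ..., M_s)_n ∈ ℤ ^ s` generate a subgroup `C`, which is free; the `b_j` are the coordinates of these
vectors in a basis of `C`. File `H34Two1`. -/
theorem columns_generate {s : ℕ} (M : Fin s → LaurentSeries ℤ) :
    ∃ (r : ℕ) (b : Fin r → LaurentSeries ℤ),
      (∃ x : Fin r → (ℤ →₀ ℤ), ∀ i j,
        ((x j).sum fun n c => c * (b i).coeff n) = if i = j then 1 else 0) ∧
      ∀ i, ∃ d : Fin r → ℤ, M i = ∑ j, HahnSeries.single (0 : ℤ) (d j) * b j :=
  H34.Two.exists_colGen M

/-- **Independence over every field.** Such series `b_1, ..., b_r ∈ ℤ((t))` stay linearly independent over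
every field `k`, of any characteristic: if `Σ g_i b_i = 0` in `k((t))`, apply `x_j` to get `g_j = 0`. File
`H34Two1`. -/
theorem independent_over_every_field {r : ℕ} {b : Fin r → LaurentSeries ℤ}
    (hb : ∃ x : Fin r → (ℤ →₀ ℤ), ∀ i j,
      ((x j).sum fun n c => c * (b i).coeff n) = if i = j then 1 else 0)
    (k : Type*) [Field k] (g : Fin r → k) (hg : ∀ n : ℤ, ∑ i, g i * ((b i).coeff n : k) = 0)
    (i : Fin r) : g i = 0 := by
  refine Fintype.linearIndependent_iff.mp (H34.Two.ColGen.linearIndependent hb k) g ?_ i
  ext n
  rw [HahnSeries.coeff_sum, HahnSeries.coeff_zero, ← hg n]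
  exact Finset.sum_congr rfl fun i _ => by rw [H34.Two.coeff_smul', coeffMap_coeff]; rfl

/-- **The bounded series**, for the purpose of modular functions: `H34.Two.intSpan L` is the span over `L` of
`ℤ((t))` inside `L((t))`. It contains `1` and all `j(t ^ d)` and is closed under products. The theorem of
Gauss for such series (`Reduction.gauss_norm_attained`: a nonzero series `f` is a constant times a series
over `A` with reduction not zero) follows from `scaling` and the two theorems above: write `f = Σ g_i b_i`
and scale the `g_i`. Files `H34Two1`, `H34Two4`. -/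
theorem bounded_series (L : Type*) [Field L] :
    H34.Two.intSpan L = Submodule.span L (Set.range (coeffMap (Int.castRingHom L))) ∧
      (1 : LaurentSeries L) ∈ H34.Two.intSpan L ∧
      (∀ d : ℕ, H66.J L d ∈ H34.Two.intSpan L) ∧
      ∀ x ∈ H34.Two.intSpan L, ∀ y ∈ H34.Two.intSpan L, x * y ∈ H34.Two.intSpan L :=
  ⟨rfl, H34.Two.one_mem_intSpan, H34.Two.J_mem_intSpan, fun _ hx _ hy => H34.Two.intSpan_mul hx hy⟩

/-- **Fields of quotients.** If `S` is a set of bounded series, every element of the field `L(S)` is a
quotient of two bounded series. So this holds for all modular functions: `S` the set of the `j(t ^ d)`. File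
`H34Two4`. -/
theorem fields_of_quotients {L : Type*} [Field L] {S : Set (LaurentSeries L)}
    (hS : ∀ f ∈ S, f ∈ H34.Two.intSpan L) (f : LaurentSeries L) (hf : f ∈ adjoin L S) :
    ∃ P ∈ H34.Two.intSpan L, ∃ Q ∈ H34.Two.intSpan L, Q ≠ 0 ∧ f * Q = P :=
  H34.Two.isQuot_adjoin hS f hf

/-- **Modular functions are quotients of integral series.** Every function `f ≠ 0` on `X_0(M)` over `L` is of
the form `c y / z` with a constant `c ≠ 0` and series `y, z` with coefficients in `A`, both with reduction
not zero. (`f` is a quotient of polynomials in the `j(t ^ d)` with coefficients in `L`; apply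
`Reduction.gauss_norm_attained` to both.) So `f` or `f⁻¹` is the quotient of an integral series by one with
reduction not zero: these quotients form a valuation ring of the function field. Files `H34Two3`,
`H34Two4`. -/
theorem modular_function_scaled {L : Type*} [Field L] [Algebra ℚ L] (A : ValuationSubring L)
    {k : Type*} [Field k] (π : A →+* k) {M : ℕ} (f : FX L M) (hf : f ≠ 0) :
    ∃ (c : L) (y z : LaurentSeries A), c ≠ 0 ∧ coeffMap π y ≠ 0 ∧ coeffMap π z ≠ 0 ∧
      ∀ n, ((f : LaurentSeries L) * coeffMap A.subtype z).coeff n = c * (y.coeff n : L) := by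
  obtain ⟨c, y, z, hc, hy, hz, h⟩ :=
    H34.Two.exists_scale_quot A π (H34.Two.isQuot_FX M) f.2 fun h => hf (Subtype.ext h)
  exact ⟨c, y, z, hc, hy, hz, fun n => by rw [h, H34.Two.coeff_smul', coeffMap_coeff]; rfl⟩

/-! ### 3. Rings with a reduction map, Gauss data -/

/-- **Rings with a reduction map.** `H42.RedRing F Fk A π`, for fields `F ⊇ L` and `Fk ⊇ k`, is a subring `B`
of `F` with a homomorphism `ρ : B → Fk`, such that `A ⊂ B` and `ρ = π` on `A`. Example: `F = L((t))`,
`B = A((t))`, `Fk = k((t))` and the reduction of the coefficients (`H42.laurentRed`). File `H42Gauss`. -/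
theorem redRing_rules {L F k Fk : Type*} [Field L] [Field F] [Algebra L F] [Field k] [Field Fk]
    [Algebra k Fk] {A : ValuationSubring L} {π : A →+* k} (R : H42.RedRing F Fk A π) (a : A) :
    ∃ h : algebraMap L F a ∈ R.B, R.ρ ⟨algebraMap L F a, h⟩ = algebraMap k Fk (π a) :=
  ⟨R.mem a, R.ρ_mem a⟩

/-- **Spaces inside a span.** `u_1, ..., u_n` are elements of `B` with linearly independent reductions. Every
subspace `W` over `L` of the span of the `u_i` has a basis of elements of `B` with linearly independent
reductions. (By `lattice_basis`.) File `H42Gauss`. -/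
theorem basis_of_le {L F k Fk : Type*} [Field L] [Field F] [Algebra L F] [Field k] [Field Fk]
    [Algebra k Fk] {A : ValuationSubring L} {π : A →+* k} (R : H42.RedRing F Fk A π)
    {ι : Type*} [Fintype ι] (u : ι → R.B) (hu : LinearIndependent k (fun i => R.ρ (u i)))
    (W : Submodule L F) (hW : W ≤ Submodule.span L (Set.range fun i => (u i : F))) :
    ∃ (d : ℕ) (w : Fin d → R.B), Submodule.span L (Set.range fun i => (w i : F)) = W ∧
      LinearIndependent k (fun i => R.ρ (w i)) :=
  R.exists_basis_of_le u hu W hW

/-- **The local ring and its residue map.** `R.loc` is the ring of the quotients `y / z` with `y, z ∈ B` and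
`ρ z ≠ 0`, and `R.res : R.loc → Fk` is `y / z ↦ ρ y / ρ z`. An element with residue not zero is invertible
in `R.loc`. File `H42Gauss`. -/
theorem local_ring {L F k Fk : Type*} [Field L] [Field F] [Algebra L F] [Field k] [Field Fk]
    [Algebra k Fk] {A : ValuationSubring L} {π : A →+* k} (R : H42.RedRing F Fk A π) :
    (∀ f : F, f ∈ R.loc ↔ ∃ y z : R.B, R.ρ z ≠ 0 ∧ f * z = y) ∧
      (∀ (f : R.loc) (y z : R.B), R.ρ z ≠ 0 → (f : F) * z = y → R.res f = R.ρ y / R.ρ z) ∧
      ∀ f : R.loc, R.res f ≠ 0 → (f : F)⁻¹ ∈ R.loc :=
  ⟨fun _ => Iff.rfl, fun f _ _ hz h => R.res_eq_div f hz h, fun _ hf => R.inv_mem_loc hf⟩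

/-- **Families of polynomials.** A nonzero finite family of polynomials over `L` is a constant times a family
of polynomials over `A`, one coefficient of which is `1`. File `H42Gauss`. -/
theorem primitive_family {L : Type*} [Field L] (A : ValuationSubring L) {ι : Type*} [Finite ι]
    (q : ι → L[X]) (hq : q ≠ 0) :
    ∃ (c : L) (q' : ι → A[X]), c ≠ 0 ∧ (∀ i, q i = C c * (q' i).map A.subtype) ∧
      ∃ i a, (q' i).coeff a = 1 :=
  H42.exists_scale_poly A q hq

/-- **Gauss data.** `H42.GaussData F Fk A π` is a ring `B` with a reduction map `ρ`, an element `x ∈ B` and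
finitely many elements `b_i ∈ B` such that `ρ x` is transcendental over `k`, the `ρ b_i` are linearly
independent over `k(ρ x)`, and the `b_i` generate `F` as a vector space over `L(x)`. (The coefficients are
written as polynomials, to avoid rational functions.) File `H42Gauss`. -/
theorem gaussData_rules {L F k Fk : Type*} [Field L] [Field F] [Algebra L F] [Field k] [Field Fk]
    [Algebra k Fk] {A : ValuationSubring L} {π : A →+* k} (G : H42.GaussData F Fk A π) :
    (∀ q : k[X], aeval (G.ρ G.x) q = 0 → q = 0) ∧
      (∀ q : G.ι → k[X], ∑ i, aeval (G.ρ G.x) (q i) * G.ρ (G.b i) = 0 → q = 0) ∧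
      ∀ f : F, ∃ (Q : L[X]) (q : G.ι → L[X]), Q ≠ 0 ∧
        aeval (G.x : F) Q * f = ∑ i, aeval (G.x : F) (q i) * G.b i :=
  ⟨G.transc, G.ind, G.span⟩

/-- **Existence of Gauss data by counting degrees.** Given are fields `E₁ ⊇ L` and `E₂ ⊇ k`, a subring `B` of
`E₁` with a reduction map `ρ` to `E₂` (`π` onto `k`), a field `F` between `L` and `E₁` and a set
`S ⊂ B ∩ F`; let `Fk = k(ρ S)`. Let `x ∈ B ∩ F`, with `ρ x ∈ Fk` transcendental over `k`, and suppose
`0 ≠ [F : L(x)] ≤ [Fk : k(ρ x)]`. Then there are Gauss data for `F` and `Fk` with the ring `B ∩ F` and the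
restriction of `ρ`; in particular all reductions of elements of `B ∩ F` are in `Fk`. Every element of `Fk` is
a quotient of two such reductions. Proof: a basis of `Fk` over `k(ρ x)` can be chosen of the form `ρ b_i`;
the `b_i` are independent over `L(x)` (`primitive_family`), so by the inequality they generate `F`. File
`H42GaussField`. -/
theorem gauss_data {L E₁ k E₂ : Type*} [Field L] [Field E₁] [Algebra L E₁] [Field k] [Field E₂]
    [Algebra k E₂] {A : ValuationSubring L} {π : A →+* k} (R : H42.RedRing E₁ E₂ A π)
    (hπ : Function.Surjective π) (F : IntermediateField L E₁) (S : Set R.B)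
    (hS : ∀ s ∈ S, (s : E₁) ∈ F) (Fk : IntermediateField k E₂) (hFk : adjoin k (R.ρ '' S) = Fk)
    (x : R.B) (hx : (x : E₁) ∈ F) (hxk : R.ρ x ∈ Fk)
    (htr : ∀ q : k[X], aeval (R.ρ x) q = 0 → q = 0) (hne : relfinrank L⟮(x : E₁)⟯ F ≠ 0)
    (hdeg : relfinrank L⟮(x : E₁)⟯ F ≤ relfinrank k⟮R.ρ x⟯ Fk) :
    ∃ G : H42.GaussData F Fk A π,
      (∀ y : F, y ∈ G.B ↔ (y : E₁) ∈ R.B) ∧
      (∀ (y : F) (h : (y : E₁) ∈ R.B) (h' : y ∈ G.B),
        ((G.ρ ⟨y, h'⟩ : Fk) : E₂) = R.ρ ⟨y, h⟩) ∧
      ∀ t : Fk, ∃ y z : G.B, G.ρ z ≠ 0 ∧ t * G.ρ z = G.ρ y :=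
  ⟨H42.gaussData R hπ F S hS Fk hFk x hx hxk htr hne hdeg, fun _ => Iff.rfl, fun _ _ _ => rfl,
    H42.gaussData_frac R hπ F S hS Fk hFk x hx hxk htr hne hdeg⟩

/-- **Reductions of elements of `B` are combinations of the `ρ b_i`** with coefficients in `k(ρ x)`: write
`Q(x) y = Σ q_i(x) b_i`, scale the family `Q, q_i` by `primitive_family` and reduce; the reduction of `Q` is
not zero, because the `ρ b_i` are independent. File `H42GaussField`. -/
theorem reduction_is_combination {L F k Fk : Type*} [Field L] [Field F] [Algebra L F] [Field k]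
    [Field Fk] [Algebra k Fk] {A : ValuationSubring L} {π : A →+* k} (G : H42.GaussData F Fk A π)
    (y : G.B) :
    ∃ (Q : k[X]) (q : G.ι → k[X]), Q ≠ 0 ∧
      aeval (G.ρ G.x) Q * G.ρ y = ∑ i, aeval (G.ρ G.x) (q i) * G.ρ (G.b i) :=
  G.exists_relation_ρ y

/-- **Bases of finite dimensional spaces.** In the presence of Gauss data every finite dimensional space `W`
over `L` in `F` has a basis `w_i` with a common denominator `Q(x)`, `Q` a polynomial over `A` with reduction
not zero, such that the elements `Q(x) w_i` are in `B` and have linearly independent reductions. Proof: after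
multiplication by a common denominator (scaled by `primitive_family`) the space is in the span of the
monomials `x^a b_i`, whose reductions are independent; `basis_of_le`. File `H42Gauss`. -/
theorem basis_of_space {L F k Fk : Type*} [Field L] [Field F] [Algebra L F] [Field k] [Field Fk]
    [Algebra k Fk] {A : ValuationSubring L} {π : A →+* k} (G : H42.GaussData F Fk A π)
    (W : Submodule L F) [FiniteDimensional L W] :
    ∃ (Q : A[X]) (d : ℕ) (w : Fin d → F) (w' : Fin d → G.B), Q.map π ≠ 0 ∧
      (∀ i, (w' i : F) = aeval (G.x : F) (Q.map A.subtype) * w i) ∧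
      Submodule.span L (Set.range w) = W ∧ LinearIndependent k (fun i => G.ρ (w' i)) := by
  obtain ⟨Q, hQ, d, w, w', h1, h2, h3⟩ := G.exists_basis W
  exact ⟨Q, d, w, w', hQ, fun i => by rw [h1, H42.RedRing.coe_ev], h2, h3⟩

/-- **The Gauss valuation ring.** In the presence of Gauss data every `f ≠ 0` in `F` is `c y / z` with a
constant `c ≠ 0` and `y, z ∈ B` with reductions not zero. So the local ring of `local_ring` is a valuation
ring of `F` with the value group of `A`. (`basis_of_space` for the line of `f`.) File `H42Gauss`. -/
theorem gauss_valuation {L F k Fk : Type*} [Field L] [Field F] [Algebra L F] [Field k] [Field Fk]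
    [Algebra k Fk] {A : ValuationSubring L} {π : A →+* k} (G : H42.GaussData F Fk A π)
    {f : F} (hf : f ≠ 0) :
    ∃ (c : L) (y z : G.B), c ≠ 0 ∧ G.ρ y ≠ 0 ∧ G.ρ z ≠ 0 ∧ f * z = algebraMap L F c * y :=
  G.exists_eq_const_mul hf

/-! ### 4. Modular functions at a place prime to the level -/

/-- **The generators are integral.** The expansion of `j(t ^ d)` has coefficients in the prime ring: it is
the image of the series over `A`, and it reduces to the expansion of `j(t ^ d)` over `k`. File
`H42GaussMod`. -/
theorem generators_integral {L : Type*} [Field L] (A : ValuationSubring L) {k : Type*} [Field k]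
    (π : A →+* k) (d : ℕ) [NeZero d] :
    coeffMap A.subtype (qExpand A d (jqModC A)) = qExpand L d (jqModC L) ∧
      coeffMap π (qExpand A d (jqModC A)) = qExpand k d (jqModC k) := by
  constructor <;> rw [coeffMap_qExpand, coeffMap_jqModC]

/-- **`j` is transcendental** over every field: the expansion of a polynomial of degree `n` in `j` begins
with the leading coefficient times `t ^ (-n)`. File `H42GaussMod`. -/
theorem j_transcendental (k : Type*) [Field k] (q : k[X]) :
    (aeval (jqModC k) q).coeff (-(q.natDegree : ℤ)) = q.leadingCoeff ∧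
      (aeval (jqModC k) q = 0 → q = 0) :=
  ⟨H42.coeff_aeval_jqModC k q, H42.transc_jqModC k q⟩

/-- **Functions as quotients of integral functions.** Let `0 ≠ [F : L(j)] ≤ [Fk : k(j)]` for the function
fields of `X_0(N)` over `L` and over `k` (`H42.DegLE`; it holds if `N ≠ 0` in `k`, see
`Reduction.degree_hypotheses`). Then `gauss_data` applies to the two fields, with `x = j` and `S` the set of
the `j(t ^ d)`. In particular every function `f ≠ 0` is `c y / z` with a constant `c ≠ 0` and FUNCTIONS
`y, z` of level `N` with coefficients in `A`, whose reductions are functions of level `N` over `k`, not zero.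
So the divisor of `f` is the difference of two divisors which can be reduced. Files `H42GaussMod`,
`H42RedInputs`. -/
theorem quotient_of_integral_functions {L : Type*} [Field L] [Algebra ℚ L]
    (A : ValuationSubring L) {k : Type*} [Field k] (π : A →+* k) (N : ℕ)
    (hπ : Function.Surjective π) (hdeg : H42.DegLE L k N) (f : FX L N) (hf : f ≠ 0) :
    ∃ (c : L) (y z : LaurentSeries A), c ≠ 0 ∧
      coeffMap A.subtype y ∈ FX L N ∧ coeffMap A.subtype z ∈ FX L N ∧
      coeffMap π y ∈ modularFunctionFieldFullC k N ∧ coeffMap π y ≠ 0 ∧
      coeffMap π z ∈ modularFunctionFieldFullC k N ∧ coeffMap π z ≠ 0 ∧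
      (f : LaurentSeries L) * coeffMap A.subtype z =
        algebraMap L (LaurentSeries L) c * coeffMap A.subtype y := by
  have key : ∀ b : (H42.modGauss A π N hπ hdeg).B, (H42.modGauss A π N hπ hdeg).ρ b ≠ 0 →
      ∃ y : LaurentSeries A, coeffMap A.subtype y = ((b : FX L N) : LaurentSeries L) ∧
        coeffMap A.subtype y ∈ FX L N ∧ coeffMap π y ∈ modularFunctionFieldFullC k N ∧
        coeffMap π y ≠ 0 := by
    rintro ⟨⟨g, hg⟩, hb⟩ h
    obtain ⟨y, rfl⟩ : ∃ y, coeffMap A.subtype y = g := hb
    exact ⟨y, rfl, hg, H42.coeffMap_mem_full A π N hπ hdeg y hg,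
      fun h0 => h (Subtype.ext ((H42.coe_modGauss_ρ A π N hπ hdeg y hg).trans h0))⟩
  obtain ⟨c, b, b', hc, h1, h2, h⟩ := (H42.modGauss A π N hπ hdeg).exists_eq_const_mul hf
  obtain ⟨y, ey, y1, y2, y3⟩ := key b h1
  obtain ⟨z, ez, z1, z2, z3⟩ := key b' h2
  refine ⟨c, y, z, hc, y1, z1, y2, y3, z2, z3, ?_⟩
  rw [ey, ez]
  exact congrArg Subtype.val h

/-! ### 5. The two components of `X_0(mq)` at `q` -/

/-- **All modular functions over `k` are reductions** (`π` onto `k`). The values of the residue map of the
Gauss valuation ring of level `M` contain the function field of `X_0(M)` over `k`. (They are a field and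
contain `k` and the `j(t ^ d)`. At this place one does not yet know that there are no other values.) File
`H34Two4`. -/
theorem reductions_contain {L : Type*} [Field L] [Algebra ℚ L] (A : ValuationSubring L)
    {k : Type*} [Field k] (π : A →+* k) (hπ : Function.Surjective π) {M : ℕ} (hM : M ≠ 0)
    {t : LaurentSeries k} (ht : t ∈ modularFunctionFieldFullC k M) :
    ∃ f ∈ (H34.Two.gC A π M).V, (H34.Two.gC A π M).red f = t :=
  H34.Two.mem_image_gC A π hπ hM ht

/-- **Components are pulled back along embeddings.** `C` is a component of `F` with values in `κ`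
(`Frames.component`) and `φ : F' → F` a homomorphism over `K`. The functions `f ∈ F'` with `φ f` integral,
with the reduction map `f ↦ red(φ f)`, are a component of `F'`. The second component of `X_0(mq)` is the pull
back of the first one along `w_q`. File `H34Two4`. -/
theorem component_pull_back {K k F F' κ : Type*} [Field K] [Field k] [Field F] [Algebra K F]
    [Field F'] [Algebra K F'] [Field κ] [Algebra k κ] {A : ValuationSubring K} {π : A →+* k}
    (C : H84.Comp A π F κ) (φ : F' →ₐ[K] F) (f : F') :
    (f ∈ (H34.Two.compComap C φ).V ↔ φ f ∈ C.V) ∧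
      (H34.Two.compComap C φ).red f = C.red (φ f) :=
  ⟨Iff.rfl, H34.Two.red_compComap C φ f⟩

/-- **Integrality of the pull-backs.** For each of the two degeneracy maps and each of the two components of
`X_0(mq)`, the pull-back of a function `f` on `X_0(m)` is integral on the component if and only if `f` is
Gauss integral: all four restrictions of valuations are the Gauss valuation of `X_0(m)`. (For the values of
the reduction maps see `Reduction.degeneracy_reduction`.) Files `H34Two4`, `H34Two5`. -/
theorem degeneracy_integral {L : Type*} [Field L] [Algebra ℚ L] (A : ValuationSubring L)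
    {k : Type*} [Field k] (π : A →+* k) {m q : ℕ} [NeZero m] [NeZero q] (w : H99.AL L m q)
    (f : FX L m) :
    (heckeAlphaBar L m q f ∈ (H34.Two.gC A π (m * q)).V ↔ f ∈ (H34.Two.gC A π m).V) ∧
    (heckeBetaBar L m q f ∈ (H34.Two.gC A π (m * q)).V ↔ f ∈ (H34.Two.gC A π m).V) ∧
    (heckeAlphaBar L m q f ∈ (H34.Two.gC2 A π w).V ↔ f ∈ (H34.Two.gC A π m).V) ∧
    (heckeBetaBar L m q f ∈ (H34.Two.gC2 A π w).V ↔ f ∈ (H34.Two.gC A π m).V) :=
  ⟨H34.Two.mem_alpha_iff A π, H34.Two.beta_mem_iff A π, H34.Two.mem_gC2_alpha A π w,
    H34.Two.mem_gC2_beta A π w⟩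

/-- **`j(t ^ q) = j(t) ^ q` in characteristic `q`**, because the coefficients of `j` are in the prime field;
and the substitution `t ↦ t ^ q` maps the function field of `X_0(m)` over `k` into itself. Files `H34Two5`,
`H34Two6`. -/
theorem frobenius_on_expansions {k : Type*} [Field k] {m q : ℕ} [NeZero q] [Fact q.Prime]
    [CharP k q] :
    qExpand k q (jqModC k) = jqModC k ^ q ∧
      ∀ x ∈ modularFunctionFieldFullC k m, qExpand k q x ∈ modularFunctionFieldFullC k m :=
  ⟨H34.Two.qExpand_jqModC_char, fun _ hx => H34.Two.qExpand_mem_full hx⟩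

/-- **Degrees over the `j`-line.** `jmq` is the function `j` on `X_0(mq)`, of degree `ψ(mq)`, and `jk` the
function `j` on `X_0(m)` over `k`, of degree at least `ψ(m)`; the degree over `k(j ^ n)` is `n` times the
degree over `k(j)`. Since `ψ(mq) = (q + 1) ψ(m)` for a prime `q ∤ m`, the degree of `X_0(mq)` is at most
`deg(j) + deg(j ^ q)` on `X_0(m)` over `k` (`Reduction.degree_sum`). The hypotheses `hD`, `hdeg` on degrees
hold for `q ∤ m` over algebraically closed fields: `Reduction.degree_hypotheses`. File `H34Two5`. -/
theorem degrees {L : Type*} [Field L] [Algebra ℚ L] {k : Type*} [Field k] {m q : ℕ} [NeZero m]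
    [NeZero q] [Fact q.Prime] (hD : H67.DegreeFact L) (hdeg : H42.DegLE L k m) :
    finrank L⟮H34.Two.jmq L m q⟯ (FX L (m * q)) = dedekindPsi (m * q) ∧
      dedekindPsi m ≤ finrank k⟮H34.Two.jk k m⟯ (modularFunctionFieldFullC k m) ∧
      ∀ n : ℕ, finrank k⟮H34.Two.jk k m ^ n⟯ (modularFunctionFieldFullC k m) =
        n * finrank k⟮H34.Two.jk k m⟯ (modularFunctionFieldFullC k m) :=
  ⟨H34.Two.finrank_jmq hD, H34.Two.finrank_jk hD hdeg, H34.Two.finrank_jk_pow⟩

/-- **No third component (general form).** `C₁`, `C₂` are two components of a function field `F` over `K`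
(`Frames.component`: valuation rings with reduction maps to a field `κ ⊇ k`), different, and such that every
function can be scaled; `x ∈ F` is integral for both, with transcendental reductions, `[F : K(x)] < ∞`. Let
`κ₀` be a field over `k` with an embedding `j₀` in `κ`, all of whose elements are reductions for both
components, and let `x₁, x₂ ∈ κ₀` be the reductions of `x`. If `[F : K(x)] ≤ [κ₀ : k(x₁)] + [κ₀ : k(x₂)]`,
then ALL reductions of functions for both components are in `κ₀` (`k` infinite, `π` onto `k`). Proof: the
fundamental inequality for two different valuation rings; more values would make the sum of the residue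
degrees larger. This is applied to `X_0(mq)`, `x = j`, `κ₀` the function field of `X_0(m)` over `k`. File
`H34Two5`. -/
theorem residue_fields_by_counting {K k : Type*} [Field K] [Field k] {A : ValuationSubring K}
    {π : A →+* k} {F κ κ₀ : Type*} [Field F] [Algebra K F] [Field κ] [Algebra k κ] [Field κ₀]
    [Algebra k κ₀] {C₁ C₂ : H84.Comp A π F κ} {x : F} (j₀ : κ₀ →ₐ[k] κ) {x₁ x₂ : κ₀} [Infinite k]
    (hπ : Function.Surjective π)
    (hs₁ : ∀ f : F, f ≠ 0 → ∃ c : K, c ≠ 0 ∧ C₁.red (algebraMap K F c * f) ≠ 0)
    (hs₂ : ∀ f : F, f ≠ 0 → ∃ c : K, c ≠ 0 ∧ C₂.red (algebraMap K F c * f) ≠ 0)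
    (hx₁ : x ∈ C₁.V) (hx₂ : x ∈ C₂.V) (ht₁ : Transcendental k (C₁.red x)) (ht₂ : Transcendental k (C₂.red x))
    [FiniteDimensional K⟮x⟯ F] (hne : C₁.V ≠ C₂.V) (h₁ : j₀ x₁ = C₁.red x) (h₂ : j₀ x₂ = C₂.red x)
    (him₁ : ∀ t, ∃ f ∈ C₁.V, C₁.red f = j₀ t) (him₂ : ∀ t, ∃ f ∈ C₂.V, C₂.red f = j₀ t)
    [FiniteDimensional k⟮x₁⟯ κ₀] [FiniteDimensional k⟮x₂⟯ κ₀]
    (hsum : finrank K⟮x⟯ F ≤ finrank k⟮x₁⟯ κ₀ + finrank k⟮x₂⟯ κ₀) (f : F) :
    C₁.red f ∈ Set.range j₀ ∧ C₂.red f ∈ Set.range j₀ :=
  H34.Two.red_mem_range_pair' j₀ hπ hs₁ hs₂ hx₁ hx₂ ht₁ ht₂ hne h₁ h₂ him₁ him₂ hsum f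

/-- **The two components, with their residue fields.** `k` is infinite of characteristic `q`. `comp1`, `comp2`
are the two components of `X_0(mq)` with reduction maps to the function field of `X_0(m)` over `k` (by
`Reduction.residue_fields`); `jmq` reduces to `j` on the first and to `j ^ q` on the second one, and the
reduction on the second one is the reduction of `w f` on the first one. File `H34Two6`. -/
theorem components {L : Type*} [Field L] [Algebra ℚ L] (A : ValuationSubring L) {k : Type*}
    [Field k] (π : A →+* k) {m q : ℕ} [NeZero m] [NeZero q] [Fact q.Prime] [CharP k q]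
    [Infinite k] [IsLocalHom π] (w : H99.AL L m q) (hπ : Function.Surjective π)
    (hD : H67.DegreeFact L) (hdeg : H42.DegLE L k m) (hqm : ¬ q ∣ m) :
    (H34.Two.comp1 A π w hπ hD hdeg hqm).red (H34.Two.jmq L m q) = H34.Two.jk k m ∧
      (H34.Two.comp2 A π w hπ hD hdeg hqm).red (H34.Two.jmq L m q) = H34.Two.jk k m ^ q ∧
      ∀ f, ((H34.Two.comp1 A π w hπ hD hdeg hqm).red f : LaurentSeries k) =
          (H34.Two.gC A π (m * q)).red f ∧
        (H34.Two.comp2 A π w hπ hD hdeg hqm).red f =
          (H34.Two.comp1 A π w hπ hD hdeg hqm).red (w.W f) :=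
  ⟨H34.Two.red1_jmq A π w hπ hD hdeg hqm, H34.Two.red2_jmq A π w hπ hD hdeg hqm, fun f =>
    ⟨H34.Two.coe_red1 A π w hπ hD hdeg hqm f, H34.Two.red2_eq A π w hπ hD hdeg hqm f⟩⟩

/-- **Bases for both components.** Every finite dimensional space of functions on `X_0(mq)` over `L` has a
basis of functions which are integral on both components and for which the PAIRS of reductions are linearly
independent over `k`. So a space of dimension `d` over `L` gives a space of dimension `d` over `k` of pairs of
functions on `X_0(m)`; this is the main input of `GuideBadRed`. Proof: because of the inequality of degrees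
there is a frame for the pair of components (`Frames.exists_frame`). File `H34Two6`. -/
theorem basis_for_both_components {L : Type*} [Field L] [Algebra ℚ L] (A : ValuationSubring L)
    {k : Type*} [Field k] (π : A →+* k) {m q : ℕ} [NeZero m] [NeZero q] [Fact q.Prime]
    [CharP k q] [Infinite k] [IsLocalHom π] (w : H99.AL L m q) (hπ : Function.Surjective π)
    (hD : H67.DegreeFact L) (hdeg : H42.DegLE L k m) (hqm : ¬ q ∣ m)
    (W : Submodule L (FX L (m * q))) [FiniteDimensional L W] :
    ∃ (d : ℕ) (v : Fin d → FX L (m * q))
      (h₁ : ∀ i, v i ∈ (H34.Two.comp1 A π w hπ hD hdeg hqm).V)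
      (h₂ : ∀ i, v i ∈ (H34.Two.comp2 A π w hπ hD hdeg hqm).V),
      Submodule.span L (Set.range v) = W ∧
      LinearIndependent k (fun i => (((H34.Two.comp1 A π w hπ hD hdeg hqm).ρ ⟨v i, h₁ i⟩,
        (H34.Two.comp2 A π w hπ hD hdeg hqm).ρ ⟨v i, h₂ i⟩) :
        modularFunctionFieldFullC k m × modularFunctionFieldFullC k m)) :=
  H34.Two.exists_basis_comp A π w hπ hD hdeg hqm W

/-! ### 6. Galois action and the cusps -/

/-- **Galois action and reduction.** `σ` is an automorphism of `L` which preserves `A`; `s` and `τ` are the
maps which it induces on `A` and on `k`. It acts on functions over `L` through the coefficients of their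
expansions (`arithmeticGalois`). Then `σ` preserves the Gauss valuation ring of level `M`, and the reduction
of `σ f` is obtained by applying `τ` to the coefficients of the reduction of `f`. File `H34Two7`. -/
theorem galois_on_component {L : Type*} [Field L] [Algebra ℚ L] {A : ValuationSubring L}
    {k : Type*} [Field k] {π : A →+* k} {M : ℕ} {σ : L ≃ₐ[ℚ] L} {s : A →+* A} {τ : k ≃+* k}
    (hs : ∀ a : A, (s a : L) = σ a) (hτ : ∀ a : A, π (s a) = τ (π a))
    {f : FX L M} (hf : f ∈ (H34.Two.gC A π M).V) :
    arithmeticGalois (modularFunctionFieldFull M) σ • f ∈ (H34.Two.gC A π M).V ∧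
      (H34.Two.gC A π M).red (arithmeticGalois (modularFunctionFieldFull M) σ • f) =
        coeffMap (τ : k →+* k) ((H34.Two.gC A π M).red f) :=
  H34.Two.smul_gC ⟨hs, hτ⟩ hf

/-- **`w_q` is defined over `ℚ`.** The Atkin-Lehner involution of `X_0(mq)`, `q` a prime not dividing `m`,
commutes with the Galois action on the coefficients, because it only permutes the generators `j(t ^ d)`,
whose coefficients are rational. So `galois_on_component` holds for the second component too. Files
`H34Two7`, `H67AL`. -/
theorem atkinLehner_galois {L : Type*} [Field L] [Algebra ℚ L] {m q : ℕ} [NeZero m] [NeZero q]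
    (w : H99.AL L m q) (hq : q.Prime) (hqm : ¬ q ∣ m) (σ : L ≃ₐ[ℚ] L) (f : FX L (m * q)) :
    w.W (arithmeticGalois (modularFunctionFieldFull (m * q)) σ • f) =
      arithmeticGalois (modularFunctionFieldFull (m * q)) σ • w.W f :=
  (H34.Two.isAL w hq hqm).galois σ f

/-- **Two rational cusps.** `q` is a prime not dividing `m`, `L` algebraically closed, `P₁` the place of
`X_0(mq)` given by the order of the expansion (the cusp `∞`), and `P₂` its image under `w_q`. Every
automorphism `σ` of `L` fixes both. File `H34Two7`. -/
theorem galois_fixes_cusps {L : Type*} [Field L] [Algebra ℚ L] [CharZero L] [IsAlgClosed L]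
    {m q : ℕ} [NeZero m] [NeZero q] [Fact q.Prime] (w : H99.AL L m q) (hqm : ¬ q ∣ m)
    {P₁ : Place L (FX L (m * q))}
    (hP₁ : ∀ f : FX L (m * q), P₁.ord f = (f : LaurentSeries L).order) (σ : L ≃ₐ[ℚ] L) :
    arithmeticGalois (modularFunctionFieldFull (m * q)) σ • P₁ = P₁ ∧
      arithmeticGalois (modularFunctionFieldFull (m * q)) σ •
        (SemilinearAut.ofAlgAut w.W • P₁) = SemilinearAut.ofAlgAut w.W • P₁ :=
  ⟨H34.Two.arithmetic_smul_place hP₁ σ,
    H34.Two.arithmetic_smul_P₂ w hP₁ σ ((H34.Two.isAL w Fact.out hqm).galois σ)⟩

/-- **The cusp `∞` in characteristic `q`.** The automorphisms `τ` of `k` act on the functions on `X_0(m)` over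
`k` through the coefficients of the expansions (`H60.coeffAut m τ`); they fix the place `P` given by the order
of the expansion. File `H34Two7`. -/
theorem coefficient_action_fixes_cusp {k : Type*} [Field k] {m : ℕ}
    {P : Place k (modularFunctionFieldFullC k m)}
    (hP : ∀ f : modularFunctionFieldFullC k m, P.ord f = (f : LaurentSeries k).order)
    (τ : k ≃+* k) :
    (∀ f : modularFunctionFieldFullC k m,
      ((H60.coeffAut m τ • f : modularFunctionFieldFullC k m) : LaurentSeries k) =
        coeffMap (τ : k →+* k) (f : LaurentSeries k)) ∧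
      H60.coeffAut m τ • P = P :=
  ⟨H60.coe_coeffAut_smul τ, H34.Two.coeffAut_smul_place hP τ⟩

/-- **Frobenius.** `k` is a field of characteristic `q` and `τ` the Frobenius `x ↦ x ^ q` of `k` (an
automorphism). For a function `a` on `X_0(m)` over `k` let `a^τ` be the function with the coefficients
`τ(a_n)`, and `Φ` the substitution `t ↦ t ^ q`. Then `Φ(a^τ) = a ^ q`. This is the congruence of Eichler and
Shimura at the level of functions: on the second component the reduction of `α f` is `Φ` of the reduction of
`f`. File `H34Two6`. -/
theorem frobenius_of_function {k : Type*} [Field k] {m q : ℕ} [NeZero q] [Fact q.Prime]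
    [CharP k q] {τ : k ≃+* k} (hτ : ∀ x, τ x = x ^ q) (a : modularFunctionFieldFullC k m) :
    qExpand k q (coeffMap (τ : k →+* k) (a : LaurentSeries k)) = (a : LaurentSeries k) ^ q :=
  congrArg Subtype.val (H34.Two.phi_fr hτ a)

/-- **Places of `ℚ̄` have rank one, the two steps.** `A` is a valuation ring of a field of characteristic zero
over the prime `q`, and `a, b ∈ A` are algebraic over `ℤ`. (i) If `a` is in the maximal ideal, then `q`
divides a power of `a`: take a primitive equation of `a` over `ℤ` and its first coefficient which is prime to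
`q`. (ii) If `b ≠ 0`, then `b` divides a power of `q`: `b` divides a nonzero integer, and integers prime to
`q` are units. (`Reduction.exists_dvd_pow` follows: `b` divides a power of `a`.) File `H34Arch`. -/
theorem rank_one_steps {K : Type*} [Field K] [CharZero K] {A : ValuationSubring K} {q : ℕ}
    (hq : q.Prime) (hA : A.LiesOverPrime q) :
    (∀ a ∈ IsLocalRing.maximalIdeal A, IsAlgebraic ℤ a → ∃ n : ℕ, (q : A) ∣ a ^ n) ∧
      ∀ b : A, b ≠ 0 → IsAlgebraic ℤ b → ∃ n : ℕ, b ∣ (q : A) ^ n :=
  ⟨fun _ ha halg => H34.Two.exists_dvd_pow hq hA ha halg,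
    fun _ hb halg => H34.Two.exists_dvd_pow_q hq hA hb halg⟩

end Fermat.Agent.Guide.GaussSeries
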