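/-
Deformations of a dihedral representation in characteristic 2: if a Selmer group of the
two-dimensional off-diagonal part vanishes, every deformation of the given type is dihedral.
-/
import Mathlib.LinearAlgebra.Matrix.Notation
import Mathlib.LinearAlgebra.Matrix.NonsingularInverse
import Mathlib.LinearAlgebra.Matrix.Trace
import Mathlib.LinearAlgebra.Matrix.Determinant.Basic
import Mathlib.RingTheory.LocalRing.Quotient
import Mathlib.RingTheory.Artinian.Ring
import Mathlib.RingTheory.Nakayama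
import Mathlib.GroupTheory.Index
import Mathlib.Tactic.LinearCombination

set_option autoImplicit false
set_option linter.style.haveILetI false

namespace Fermat.Agent.H69.Dih

open IsLocalRing Matrix

/-- diagonal on `H`, antidiagonal off `H` -/
def Shape {G : Type*} [Group G] (H : Subgroup G) {A : Type*} [CommRing A]
    (r : G → Matrix (Fin 2) (Fin 2) A) : Prop :=
  (∀ g ∈ H, r g 0 1 = 0 ∧ r g 1 0 = 0) ∧ (∀ g, g ∉ H → r g 0 0 = 0 ∧ r g 1 1 = 0)

section Socle

/-- a finite local ring with nonzero maximal ideal has a nonzero element killed by the maximal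
ideal and contained in it -/
lemma exists_socle {A : Type*} [CommRing A] [IsLocalRing A] [Finite A]
    (h : maximalIdeal A ≠ ⊥) :
    ∃ x : A, x ≠ 0 ∧ x ∈ maximalIdeal A ∧ ∀ y ∈ maximalIdeal A, x * y = 0 := by
  classical
  have hnil : ∃ n, maximalIdeal A ^ n = ⊥ := by
    obtain ⟨n, hn⟩ := IsArtinianRing.isNilpotent_jacobson_bot (R := A)
    rw [IsLocalRing.jacobson_eq_maximalIdeal ⊥ bot_ne_top] at hn
    exact ⟨n, hn⟩
  have hn := Nat.find_spec hnil
  set n := Nat.find hnil with hndef
  have hn1 : 2 ≤ n := by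
    by_contra hlt
    have h01 : n = 0 ∨ n = 1 := by omega
    rcases h01 with h0 | h1
    · rw [h0, pow_zero, Ideal.one_eq_top] at hn
      exact top_ne_bot hn
    · rw [h1, pow_one] at hn
      exact h hn
  have hlt : maximalIdeal A ^ (n - 1) ≠ ⊥ := Nat.find_min hnil (by omega)
  obtain ⟨x, hx, hx0⟩ := Submodule.exists_mem_ne_zero_of_ne_bot hlt
  refine ⟨x, hx0, Ideal.pow_le_self (by omega) hx, fun y hy => ?_⟩
  have h1 : x * y ∈ maximalIdeal A ^ (n - 1) * maximalIdeal A := Ideal.mul_mem_mul hx hy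
  rw [← pow_succ, Nat.sub_add_cancel (by omega), hn] at h1
  exact (Submodule.mem_bot _).mp h1

end Socle

section Step

variable {G : Type*} [Group G] {H : Subgroup G} {A k : Type*} [CommRing A] [Field k]

/-- The computation at a small extension: `x` generates a minimal ideal. -/
theorem step (h2 : (2 : A) = 0) (π : A →+* k) (hπ : Function.Surjective π)
    {x : A} (hxx : x * x = 0) (hx : ∀ a b : A, x * a = x * b ↔ π a = π b) (hπx : π x = 0)
    (hH : ∀ a b : G, a * b ∈ H ↔ (a ∈ H ↔ b ∈ H))
    (r : G →* Matrix (Fin 2) (Fin 2) A) (hdet : ∀ g, r g 0 0 * r g 1 1 - r g 0 1 * r g 1 0 = 1)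
    (hr1 : ∀ g ∈ H, (∃ b, r g 0 1 = x * b) ∧ ∃ c, r g 1 0 = x * c)
    (hr2 : ∀ g, g ∉ H → (∃ b, r g 0 0 = x * b) ∧ ∃ c, r g 1 1 = x * c)
    (hk : ∀ y : k, y ≠ 0 → y ^ 3 = 1)
    {ι : Type*} (D : ι → Subgroup G) (hD : ∀ v, ∃ g ∈ D v, g ∉ H)
    (s : ι → G → A) (hs : ∀ v, ∀ g ∈ D v, s v g ^ 2 = 1)
    (hloc : ∀ v, ∀ g ∈ D v, ∀ g' ∈ D v,
      (r g - s v g • (1 : Matrix (Fin 2) (Fin 2) A)) *
        (r g' - s v g' • (1 : Matrix (Fin 2) (Fin 2) A)) = 0)
    {κ : Type*} (I : κ → Set G) (hI : ∀ w, ∀ g ∈ I w, r g = 1)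
    (N : Set G) (hN : ∀ n ∈ N, r n = 1)
    (hSel : ∀ b : G → Fin 2 → k,
      (∀ g g', b (g * g') = b g + (π.mapMatrix (r g)) *ᵥ b g') →
      (∀ g, ∀ n ∈ N, b (g * n) = b g) →
      (∀ w, ∀ g ∈ I w, b g = 0) →
      (∀ v, ∀ g ∈ D v, ∀ g' ∈ D v, (π.mapMatrix (r g')) *ᵥ b g = b g) →
      ∃ m : Fin 2 → k, ∀ g, b g = (π.mapMatrix (r g)) *ᵥ m - m) :
    ∃ m0 m1 : A, Shape H (fun g => (1 + !![0, x * m1; x * m0, 0]) * r g *
      (1 + !![0, x * m1; x * m0, 0])) := by
  classical
  have h2k : (2 : k) = 0 := by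
    have := congrArg π h2
    rwa [map_ofNat, map_zero] at this
  choose B C hBC using fun g : G => (show ∃ B C : A,
      (g ∈ H → r g 0 1 = x * B ∧ r g 1 0 = x * C) ∧
      (g ∉ H → r g 0 0 = x * B ∧ r g 1 1 = x * C) by
    by_cases hg : g ∈ H
    · obtain ⟨⟨b, hb⟩, c, hc⟩ := hr1 g hg
      exact ⟨b, c, fun _ => ⟨hb, hc⟩, fun h => absurd hg h⟩
    · obtain ⟨⟨b, hb⟩, c, hc⟩ := hr2 g hg
      exact ⟨b, c, fun h => absurd h hg, fun _ => ⟨hb, hc⟩⟩)
  have hB1 : ∀ g ∈ H, r g 0 1 = x * B g := fun g hg => ((hBC g).1 hg).1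
  have hC1 : ∀ g ∈ H, r g 1 0 = x * C g := fun g hg => ((hBC g).1 hg).2
  have hB2 : ∀ g, g ∉ H → r g 0 0 = x * B g := fun g hg => ((hBC g).2 hg).1
  have hC2 : ∀ g, g ∉ H → r g 1 1 = x * C g := fun g hg => ((hBC g).2 hg).2
  -- residual entries
  have e01 : ∀ g ∈ H, π (r g 0 1) = 0 := fun g hg => by rw [hB1 g hg, map_mul, hπx, zero_mul]
  have e10 : ∀ g ∈ H, π (r g 1 0) = 0 := fun g hg => by rw [hC1 g hg, map_mul, hπx, zero_mul]
  have e00 : ∀ g, g ∉ H → π (r g 0 0) = 0 := fun g hg => by
    rw [hB2 g hg, map_mul, hπx, zero_mul]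
  have e11 : ∀ g, g ∉ H → π (r g 1 1) = 0 := fun g hg => by
    rw [hC2 g hg, map_mul, hπx, zero_mul]
  have d1 : ∀ g ∈ H, π (r g 0 0) * π (r g 1 1) = 1 := fun g hg => by
    have := congrArg π (hdet g)
    simp only [map_sub, map_mul, map_one] at this
    rw [e01 g hg, zero_mul, sub_zero] at this
    exact this
  have d2 : ∀ g, g ∉ H → π (r g 0 1) * π (r g 1 0) = 1 := fun g hg => by
    have := congrArg π (hdet g)
    simp only [map_sub, map_mul, map_one] at this
    rw [e00 g hg, zero_mul] at this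
    linear_combination -this - h2k
  -- cubes
  have c1 : ∀ g ∈ H, π (r g 0 0) ^ 2 = π (r g 1 1) ∧ π (r g 1 1) ^ 2 = π (r g 0 0) := by
    intro g hg
    have h3 := d1 g hg
    have h4 := hk _ (left_ne_zero_of_mul_eq_one h3)
    have h5 := hk _ (right_ne_zero_of_mul_eq_one h3)
    constructor
    · linear_combination π (r g 1 1) * h4 - π (r g 0 0) ^ 2 * h3
    · linear_combination π (r g 0 0) * h5 - π (r g 1 1) ^ 2 * h3
  have c2 : ∀ g, g ∉ H → π (r g 0 1) ^ 2 = π (r g 1 0) ∧ π (r g 1 0) ^ 2 = π (r g 0 1) := by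
    intro g hg
    have h3 := d2 g hg
    have h4 := hk _ (left_ne_zero_of_mul_eq_one h3)
    have h5 := hk _ (right_ne_zero_of_mul_eq_one h3)
    constructor
    · linear_combination π (r g 1 0) * h4 - π (r g 0 1) ^ 2 * h3
    · linear_combination π (r g 0 1) * h5 - π (r g 1 0) ^ 2 * h3
  -- multiplication
  have mul_entry : ∀ g g' i j, r (g * g') i j = r g i 0 * r g' 0 j + r g i 1 * r g' 1 j := by
    intro g g' i j
    rw [map_mul, Matrix.mul_apply, Fin.sum_univ_two]
  have kill : ∀ a b : A, x * a * (x * b) = 0 := fun a b => by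
    linear_combination a * b * hxx
  have canc : ∀ {a b : A}, x * a = x * b → π a = π b := fun h => (hx _ _).mp h
  let b : G → Fin 2 → k := fun g =>
    if g ∈ H then ![π (C g) * π (r g 1 1), π (B g) * π (r g 0 0)]
    else ![π (C g) * π (r g 1 0), π (B g) * π (r g 0 1)]
  have b1 : ∀ g ∈ H, b g = ![π (C g) * π (r g 1 1), π (B g) * π (r g 0 0)] :=
    fun g hg => if_pos hg
  have b2 : ∀ g, g ∉ H → b g = ![π (C g) * π (r g 1 0), π (B g) * π (r g 0 1)] :=
    fun g hg => if_neg hg
  have mv : ∀ (g : G) (m : Fin 2 → k), (π.mapMatrix (r g)) *ᵥ m =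
      ![π (r g 0 0) * m 0 + π (r g 0 1) * m 1, π (r g 1 0) * m 0 + π (r g 1 1) * m 1] := by
    intro g m
    funext i
    fin_cases i <;> simp [Matrix.mulVec, dotProduct, Fin.sum_univ_two]
  -- the cocycle relation
  have hcoc : ∀ g g', b (g * g') = b g + (π.mapMatrix (r g)) *ᵥ b g' := by
    intro g g'
    rw [mv]
    by_cases hg : g ∈ H <;> by_cases hg' : g' ∈ H
    · have hgg : g * g' ∈ H := (hH g g').mpr (by simp [hg, hg'])
      have q1 : π (B (g * g')) = π (r g 0 0) * π (B g') + π (B g) * π (r g' 1 1) := by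
        rw [← map_mul, ← map_mul, ← map_add]
        refine canc ?_
        rw [← hB1 _ hgg, mul_entry, hB1 g hg, hB1 g' hg']
        ring
      have q2 : π (C (g * g')) = π (C g) * π (r g' 0 0) + π (r g 1 1) * π (C g') := by
        rw [← map_mul, ← map_mul, ← map_add]
        refine canc ?_
        rw [← hC1 _ hgg, mul_entry, hC1 g hg, hC1 g' hg']
        ring
      have q3 : π (r (g * g') 0 0) = π (r g 0 0) * π (r g' 0 0) := by
        rw [mul_entry, map_add, map_mul, map_mul, e01 g hg, zero_mul, add_zero]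
      have q4 : π (r (g * g') 1 1) = π (r g 1 1) * π (r g' 1 1) := by
        rw [mul_entry, map_add, map_mul, map_mul, e10 g hg, zero_mul, zero_add]
      rw [b1 _ hgg, b1 g hg, b1 g' hg', q1, q2, q3, q4, e01 g hg, e10 g hg]
      funext i
      fin_cases i
      · simp only [Fin.zero_eta, Fin.isValue, cons_val_zero, Pi.add_apply, cons_val_one,
          zero_mul, add_zero]
        linear_combination π (C g) * π (r g 1 1) * d1 g' hg' +
          π (C g') * π (r g' 1 1) * (c1 g hg).2
      · simp only [Fin.mk_one, Fin.isValue, cons_val_one, Pi.add_apply, cons_val_zero,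
          zero_mul, zero_add]
        linear_combination π (B g) * π (r g 0 0) * d1 g' hg' +
          π (B g') * π (r g' 0 0) * (c1 g hg).1
    · have hgg : g * g' ∉ H := fun h => by
        have := (hH g g').mp h
        simp [hg, hg'] at this
      have q1 : π (B (g * g')) = π (r g 0 0) * π (B g') + π (B g) * π (r g' 1 0) := by
        rw [← map_mul, ← map_mul, ← map_add]
        refine canc ?_
        rw [← hB2 _ hgg, mul_entry, hB1 g hg, hB2 g' hg']
        ring
      have q2 : π (C (g * g')) = π (C g) * π (r g' 0 1) + π (r g 1 1) * π (C g') := by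
        rw [← map_mul, ← map_mul, ← map_add]
        refine canc ?_
        rw [← hC2 _ hgg, mul_entry, hC1 g hg, hC2 g' hg']
        ring
      have q3 : π (r (g * g') 0 1) = π (r g 0 0) * π (r g' 0 1) := by
        rw [mul_entry, map_add, map_mul, map_mul, e01 g hg, zero_mul, add_zero]
      have q4 : π (r (g * g') 1 0) = π (r g 1 1) * π (r g' 1 0) := by
        rw [mul_entry, map_add, map_mul, map_mul, e10 g hg, zero_mul, zero_add]
      rw [b2 _ hgg, b1 g hg, b2 g' hg', q1, q2, q3, q4, e01 g hg, e10 g hg]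
      funext i
      fin_cases i
      · simp only [Fin.zero_eta, Fin.isValue, cons_val_zero, Pi.add_apply, cons_val_one,
          zero_mul, add_zero]
        linear_combination π (C g) * π (r g 1 1) * d2 g' hg' +
          π (C g') * π (r g' 1 0) * (c1 g hg).2
      · simp only [Fin.mk_one, Fin.isValue, cons_val_one, Pi.add_apply, cons_val_zero,
          zero_mul, zero_add]
        linear_combination π (B g) * π (r g 0 0) * d2 g' hg' +
          π (B g') * π (r g' 0 1) * (c1 g hg).1
    · have hgg : g * g' ∉ H := fun h => by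
        have := (hH g g').mp h
        simp [hg, hg'] at this
      have q1 : π (B (g * g')) = π (B g) * π (r g' 0 0) + π (r g 0 1) * π (C g') := by
        rw [← map_mul, ← map_mul, ← map_add]
        refine canc ?_
        rw [← hB2 _ hgg, mul_entry, hB2 g hg, hC1 g' hg']
        ring
      have q2 : π (C (g * g')) = π (r g 1 0) * π (B g') + π (C g) * π (r g' 1 1) := by
        rw [← map_mul, ← map_mul, ← map_add]
        refine canc ?_
        rw [← hC2 _ hgg, mul_entry, hC2 g hg, hB1 g' hg']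
        ring
      have q3 : π (r (g * g') 0 1) = π (r g 0 1) * π (r g' 1 1) := by
        rw [mul_entry, map_add, map_mul, map_mul, e00 g hg, zero_mul, zero_add]
      have q4 : π (r (g * g') 1 0) = π (r g 1 0) * π (r g' 0 0) := by
        rw [mul_entry, map_add, map_mul, map_mul, e11 g hg, zero_mul, add_zero]
      rw [b2 _ hgg, b2 g hg, b1 g' hg', q1, q2, q3, q4, e00 g hg, e11 g hg]
      funext i
      fin_cases i
      · simp only [Fin.zero_eta, Fin.isValue, cons_val_zero, Pi.add_apply, cons_val_one,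
          zero_mul, zero_add]
        linear_combination π (C g) * π (r g 1 0) * d1 g' hg' +
          π (B g') * π (r g' 0 0) * (c2 g hg).2
      · simp only [Fin.mk_one, Fin.isValue, cons_val_one, Pi.add_apply, cons_val_zero,
          zero_mul, add_zero]
        linear_combination π (B g) * π (r g 0 1) * d1 g' hg' +
          π (C g') * π (r g' 1 1) * (c2 g hg).1
    · have hgg : g * g' ∈ H := (hH g g').mpr (by simp [hg, hg'])
      have q1 : π (B (g * g')) = π (B g) * π (r g' 0 1) + π (r g 0 1) * π (C g') := by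
        rw [← map_mul, ← map_mul, ← map_add]
        refine canc ?_
        rw [← hB1 _ hgg, mul_entry, hB2 g hg, hC2 g' hg']
        ring
      have q2 : π (C (g * g')) = π (r g 1 0) * π (B g') + π (C g) * π (r g' 1 0) := by
        rw [← map_mul, ← map_mul, ← map_add]
        refine canc ?_
        rw [← hC1 _ hgg, mul_entry, hC2 g hg, hB2 g' hg']
        ring
      have q3 : π (r (g * g') 0 0) = π (r g 0 1) * π (r g' 1 0) := by
        rw [mul_entry, map_add, map_mul, map_mul, e00 g hg, zero_mul, zero_add]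
      have q4 : π (r (g * g') 1 1) = π (r g 1 0) * π (r g' 0 1) := by
        rw [mul_entry, map_add, map_mul, map_mul, e11 g hg, zero_mul, add_zero]
      rw [b1 _ hgg, b2 g hg, b2 g' hg', q1, q2, q3, q4, e00 g hg, e11 g hg]
      funext i
      fin_cases i
      · simp only [Fin.zero_eta, Fin.isValue, cons_val_zero, Pi.add_apply, cons_val_one,
          zero_mul, zero_add]
        linear_combination π (C g) * π (r g 1 0) * d2 g' hg' +
          π (B g') * π (r g' 0 1) * (c2 g hg).2
      · simp only [Fin.mk_one, Fin.isValue, cons_val_one, Pi.add_apply, cons_val_zero,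
          zero_mul, add_zero]
        linear_combination π (B g) * π (r g 0 1) * d2 g' hg' +
          π (C g') * π (r g' 1 0) * (c2 g hg).1
  -- vanishing on the kernel
  have hker : ∀ g, r g = 1 → b g = 0 := by
    intro g hg
    have hgH : g ∈ H := by
      by_contra h
      have h3 := e00 g h
      rw [hg, one_apply_eq, map_one] at h3
      exact one_ne_zero h3
    have hB0 : π (B g) = 0 := by
      have h3 : x * B g = x * 0 := by
        rw [← hB1 g hgH, hg, one_apply_ne (by decide), mul_zero]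
      rw [canc h3, map_zero]
    have hC0 : π (C g) = 0 := by
      have h3 : x * C g = x * 0 := by
        rw [← hC1 g hgH, hg, one_apply_ne (by decide), mul_zero]
      rw [canc h3, map_zero]
    rw [b1 g hgH, hB0, hC0, zero_mul, zero_mul]
    funext i
    fin_cases i <;> rfl
  have hNinv : ∀ g, ∀ n ∈ N, b (g * n) = b g := by
    intro g n hn
    rw [hcoc, hker n (hN n hn), mulVec_zero, add_zero]
  have hIv : ∀ w, ∀ g ∈ I w, b g = 0 := fun w g hg => hker g (hI w g hg)
  -- the local computation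
  have hs1 : ∀ v, ∀ g ∈ D v, π (s v g) = 1 := by
    intro v g hg
    have h3 := congrArg π (hs v g hg)
    rw [map_pow, map_one] at h3
    have h4 : (π (s v g) - 1) * (π (s v g) - 1) = 0 := by
      linear_combination h3 - (π (s v g) - 1) * h2k
    exact sub_eq_zero.mp (mul_self_eq_zero.mp h4)
  have hlocv : ∀ v, ∀ g ∈ D v, ∀ g' ∈ D v, (π.mapMatrix (r g')) *ᵥ b g = b g := by
    intro v
    obtain ⟨g0, hg0, hg0H⟩ := hD v
    -- entries of the local relation
    have ent : ∀ g ∈ D v, ∀ g' ∈ D v,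
        (r g 0 0 - s v g) * (r g' 0 0 - s v g') + r g 0 1 * r g' 1 0 = 0 ∧
        (r g 0 0 - s v g) * r g' 0 1 + r g 0 1 * (r g' 1 1 - s v g') = 0 ∧
        r g 1 0 * (r g' 0 0 - s v g') + (r g 1 1 - s v g) * r g' 1 0 = 0 ∧
        r g 1 0 * r g' 0 1 + (r g 1 1 - s v g) * (r g' 1 1 - s v g') = 0 := by
      intro g hg g' hg'
      have h3 := hloc v g hg g' hg'
      have h00 := congrFun (congrFun h3 0) 0
      have h01 := congrFun (congrFun h3 0) 1
      have h10 := congrFun (congrFun h3 1) 0
      have h11 := congrFun (congrFun h3 1) 1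
      simp only [Matrix.mul_apply, Fin.sum_univ_two, Matrix.sub_apply, Matrix.smul_apply,
        smul_eq_mul, Matrix.one_apply_eq, Matrix.one_apply_ne (zero_ne_one : (0 : Fin 2) ≠ 1),
        Matrix.one_apply_ne (one_ne_zero : (1 : Fin 2) ≠ 0), mul_one, mul_zero, sub_zero,
        Matrix.zero_apply] at h00 h01 h10 h11
      exact ⟨h00, h01, h10, h11⟩
    -- elements off `H`
    have hoff : ∀ g ∈ D v, g ∉ H → π (B g) = π (C g) ∧ π (r g 0 1) = π (r g0 0 1) ∧
        π (r g 1 0) = π (r g0 1 0) := by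
      intro g hg hgH
      obtain ⟨-, h3, -, -⟩ := ent g hg g hg
      obtain ⟨h4, -, -, -⟩ := ent g hg g0 hg0
      obtain ⟨-, -, -, h5⟩ := ent g hg g0 hg0
      have h6 := d2 g hgH
      have h7 := d2 g0 hg0H
      refine ⟨?_, ?_, ?_⟩
      · have h8 : x * (r g 0 1 * (B g + C g)) = x * 0 := by
          rw [hB2 g hgH, hC2 g hgH] at h3
          linear_combination h3 + r g 0 1 * s v g * h2
        have h9 := canc h8
        rw [map_mul, map_add, map_zero] at h9
        have h10 : π (B g) + π (C g) = 0 := by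
          linear_combination π (r g 1 0) * h9 - (π (B g) + π (C g)) * h6
        linear_combination h10 - π (C g) * h2k
      · have h8 := congrArg π h4
        simp only [map_add, map_mul, map_sub, map_zero] at h8
        rw [e00 g hgH, e00 g0 hg0H, hs1 v g hg, hs1 v g0 hg0] at h8
        have h9 : π (r g 0 1) * π (r g0 1 0) = 1 := by linear_combination h8 - h2k
        linear_combination π (r g0 0 1) * h9 - π (r g 0 1) * h7
      · have h8 := congrArg π h5
        simp only [map_add, map_mul, map_sub, map_zero] at h8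
        rw [e11 g hgH, e11 g0 hg0H, hs1 v g hg, hs1 v g0 hg0] at h8
        have h9 : π (r g 1 0) * π (r g0 0 1) = 1 := by linear_combination h8 - h2k
        linear_combination π (r g0 1 0) * h9 - π (r g 1 0) * h7
    -- elements in `H`
    have hon : ∀ g ∈ D v, g ∈ H → π (r g 0 0) = 1 ∧ π (r g 1 1) = 1 ∧
        π (B g) * π (r g0 1 0) = π (C g) * π (r g0 0 1) := by
      intro g hg hgH
      obtain ⟨-, h3, h4, -⟩ := ent g hg g0 hg0
      have h7 := d2 g0 hg0H
      have h3' : (r g 0 0 - s v g) * r g0 0 1 = x * (B g * s v g0) := by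
        rw [hB1 g hgH, hC2 g0 hg0H] at h3
        linear_combination h3 - kill (B g) (C g0)
      have h4' : (r g 1 1 - s v g) * r g0 1 0 = x * (C g * s v g0) := by
        rw [hC1 g hgH, hB2 g0 hg0H] at h4
        linear_combination h4 - kill (C g) (B g0)
      have h5 : π (r g 0 0) = 1 := by
        have h8 := congrArg π h3'
        simp only [map_mul, map_sub] at h8
        rw [hπx, zero_mul, hs1 v g hg] at h8
        linear_combination π (r g0 1 0) * h8 - (π (r g 0 0) - 1) * h7
      have h6 : π (r g 1 1) = 1 := by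
        have h8 := congrArg π h4'
        simp only [map_mul, map_sub] at h8
        rw [hπx, zero_mul, hs1 v g hg] at h8
        linear_combination π (r g0 0 1) * h8 - (π (r g 1 1) - 1) * h7
      refine ⟨h5, h6, ?_⟩
      -- `a d = 1`, hence `a + d = 0`
      have h9 : r g 0 0 * r g 1 1 = 1 := by
        have := hdet g
        rw [hB1 g hgH, hC1 g hgH] at this
        linear_combination this + kill (B g) (C g)
      have h10 : (r g 0 0 - s v g) * (r g 1 1 - s v g) * (r g0 0 1 * r g0 1 0) = 0 := by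
        linear_combination (r g 1 1 - s v g) * r g0 1 0 * h3' +
          x * (B g * s v g0) * h4' + kill (B g * s v g0) (C g * s v g0)
      have h11 : r g0 0 1 * r g0 1 0 = -1 + x * B g0 * (x * C g0) := by
        have := hdet g0
        rw [hB2 g0 hg0H, hC2 g0 hg0H] at this
        linear_combination -this
      have h12 : (r g 0 0 - s v g) * (r g 1 1 - s v g) = 0 := by
        rw [h11, kill, add_zero] at h10
        linear_combination -h10
      have h13 : r g 0 0 + r g 1 1 = 0 := by
        have h14 := hs v g hg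
        linear_combination -(s v g) * h12 + s v g * h9 -
          (r g 0 0 + r g 1 1 - s v g) * h14 + s v g * h2
      have h15 : x * (B g * s v g0 * r g0 1 0 + C g * s v g0 * r g0 0 1) = x * 0 := by
        linear_combination -(r g0 1 0) * h3' - r g0 0 1 * h4' +
          r g0 0 1 * r g0 1 0 * h13 - r g0 0 1 * r g0 1 0 * s v g * h2
      have h16 := canc h15
      simp only [map_add, map_mul, map_zero] at h16
      rw [hs1 v g0 hg0] at h16
      linear_combination h16 - π (C g) * π (r g0 0 1) * h2k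
    intro g hg g' hg'
    have h7 := d2 g0 hg0H
    obtain ⟨h8, h9⟩ := c2 g0 hg0H
    -- `b g` is fixed by `r g0`
    have hfix : ![π (r g0 0 1) * b g 1, π (r g0 1 0) * b g 0] = b g := by
      by_cases hgH : g ∈ H
      · obtain ⟨h3, h4, h5⟩ := hon g hg hgH
        rw [b1 g hgH, h3, h4]
        funext i
        fin_cases i
        · simp only [Fin.zero_eta, Fin.isValue, cons_val_zero, cons_val_one]
          linear_combination π (r g0 1 0) * h5 - π (B g) * h9 + π (C g) * h7
        · simp only [Fin.mk_one, Fin.isValue, cons_val_zero, cons_val_one]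
          linear_combination -(π (r g0 0 1)) * h5 - π (C g) * h8 + π (B g) * h7
      · obtain ⟨h3, h4, h5⟩ := hoff g hg hgH
        rw [b2 g hgH, h4, h5, ← h3]
        funext i
        fin_cases i
        · simp only [Fin.zero_eta, Fin.isValue, cons_val_zero, cons_val_one]
          linear_combination π (B g) * h8
        · simp only [Fin.mk_one, Fin.isValue, cons_val_zero, cons_val_one]
          linear_combination π (B g) * h9
    rw [mv]
    by_cases hgH' : g' ∈ H
    · obtain ⟨h3, h4, -⟩ := hon g' hg' hgH'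
      rw [h3, h4, e01 g' hgH', e10 g' hgH']
      funext i
      fin_cases i <;> simp
    · obtain ⟨-, h4, h5⟩ := hoff g' hg' hgH'
      rw [h4, h5, e00 g' hgH', e11 g' hgH']
      simp only [zero_mul, zero_add, add_zero]
      exact hfix
  obtain ⟨m, hm⟩ := hSel b hcoc hNinv hIv hlocv
  obtain ⟨m0, hm0⟩ := hπ (m 0)
  obtain ⟨m1, hm1⟩ := hπ (m 1)
  refine ⟨m0, m1, ?_, ?_⟩
  · intro g hg
    have h3 := hm g
    rw [mv, b1 g hg, e01 g hg, e10 g hg] at h3
    have h4 := congrFun h3 0
    have h5 := congrFun h3 1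
    simp only [Fin.isValue, cons_val_zero, cons_val_one, Pi.sub_apply, zero_mul, add_zero,
      zero_add] at h4 h5
    have h6 := d1 g hg
    obtain ⟨h7, h8⟩ := c1 g hg
    have h9 : π (B g) = π (m1 * (r g 0 0 + r g 1 1)) := by
      rw [map_mul, map_add, hm1]
      linear_combination π (r g 1 1) * h5 - π (B g) * h6 + m 1 * h8 - m 1 * π (r g 1 1) * h2k
    have h10 : π (C g) = π (m0 * (r g 0 0 + r g 1 1)) := by
      rw [map_mul, map_add, hm0]
      linear_combination π (r g 0 0) * h4 - π (C g) * h6 + m 0 * h7 - m 0 * π (r g 0 0) * h2k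
    have h11 := (hx _ _).mpr h9
    have h12 := (hx _ _).mpr h10
    rw [← hB1 g hg] at h11
    rw [← hC1 g hg] at h12
    constructor
    · simp only [Matrix.mul_apply, Fin.sum_univ_two, Matrix.add_apply, Matrix.one_apply_eq,
        Matrix.one_apply_ne (zero_ne_one : (0 : Fin 2) ≠ 1),
        Matrix.one_apply_ne (one_ne_zero : (1 : Fin 2) ≠ 0), Matrix.of_apply, Matrix.cons_val',
        Matrix.cons_val_zero, Matrix.cons_val_one, Matrix.cons_val_fin_one, Fin.isValue]
      rw [h11, h12]
      have h15 := kill m1 (m0 * (r g 0 0 + r g 1 1))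
      linear_combination (x * m1 * (r g 0 0 + r g 1 1)) * h2 + x * m1 * h15
    · simp only [Matrix.mul_apply, Fin.sum_univ_two, Matrix.add_apply, Matrix.one_apply_eq,
        Matrix.one_apply_ne (zero_ne_one : (0 : Fin 2) ≠ 1),
        Matrix.one_apply_ne (one_ne_zero : (1 : Fin 2) ≠ 0), Matrix.of_apply, Matrix.cons_val',
        Matrix.cons_val_zero, Matrix.cons_val_one, Matrix.cons_val_fin_one, Fin.isValue]
      rw [h11, h12]
      have h15 := kill m0 (m1 * (r g 0 0 + r g 1 1))
      linear_combination (x * m0 * (r g 0 0 + r g 1 1)) * h2 + x * m0 * h15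
  · intro g hg
    have h3 := hm g
    rw [mv, b2 g hg, e00 g hg, e11 g hg] at h3
    have h4 := congrFun h3 0
    have h5 := congrFun h3 1
    simp only [Fin.isValue, cons_val_zero, cons_val_one, Pi.sub_apply, zero_mul, add_zero,
      zero_add] at h4 h5
    have h6 := d2 g hg
    obtain ⟨h7, h8⟩ := c2 g hg
    have h9 : π (B g) = π (m1 * r g 1 0 + m0 * r g 0 1) := by
      rw [map_add, map_mul, map_mul, hm1, hm0]
      linear_combination π (r g 1 0) * h5 - π (B g) * h6 + m 0 * h8 - m 1 * π (r g 1 0) * h2k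
    have h10 : π (C g) = π (m0 * r g 0 1 + m1 * r g 1 0) := by
      rw [map_add, map_mul, map_mul, hm1, hm0]
      linear_combination π (r g 0 1) * h4 - π (C g) * h6 + m 1 * h7 - m 0 * π (r g 0 1) * h2k
    have h11 := (hx _ _).mpr h9
    have h12 := (hx _ _).mpr h10
    rw [← hB2 g hg] at h11
    rw [← hC2 g hg] at h12
    constructor
    · simp only [Matrix.mul_apply, Fin.sum_univ_two, Matrix.add_apply, Matrix.one_apply_eq,
        Matrix.one_apply_ne (zero_ne_one : (0 : Fin 2) ≠ 1),
        Matrix.one_apply_ne (one_ne_zero : (1 : Fin 2) ≠ 0), Matrix.of_apply, Matrix.cons_val',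
        Matrix.cons_val_zero, Matrix.cons_val_one, Matrix.cons_val_fin_one, Fin.isValue]
      rw [h11, h12]
      linear_combination (x * m1 * r g 1 0 + x * m0 * r g 0 1) * h2 +
        (x * m1 * m0 * (m0 * r g 0 1 + m1 * r g 1 0)) * hxx
    · simp only [Matrix.mul_apply, Fin.sum_univ_two, Matrix.add_apply, Matrix.one_apply_eq,
        Matrix.one_apply_ne (zero_ne_one : (0 : Fin 2) ≠ 1),
        Matrix.one_apply_ne (one_ne_zero : (1 : Fin 2) ≠ 0), Matrix.of_apply, Matrix.cons_val',
        Matrix.cons_val_zero, Matrix.cons_val_one, Matrix.cons_val_fin_one, Fin.isValue]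
      rw [h11, h12]
      linear_combination (x * m1 * r g 1 0 + x * m0 * r g 0 1) * h2 +
        (x * m1 * m0 * (m0 * r g 0 1 + m1 * r g 1 0)) * hxx

end Step

section Induction

universe u v w

variable {G : Type w} [Group G] {H : Subgroup G} {k : Type u} [Field k]

/-- conjugation of a matrix representation -/
def conj {A : Type*} [CommRing A] (P : (Matrix (Fin 2) (Fin 2) A)ˣ)
    (r : G →* Matrix (Fin 2) (Fin 2) A) : G →* Matrix (Fin 2) (Fin 2) A where
  toFun g := P.val * r g * P⁻¹.val
  map_one' := by rw [map_one, mul_one, Units.mul_inv]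
  map_mul' g g' := by
    rw [map_mul]
    calc P.val * (r g * r g') * P⁻¹.val
        = P.val * r g * (P⁻¹.val * P.val) * r g' * P⁻¹.val := by
          rw [Units.inv_mul, mul_one, mul_assoc P.val (r g) (r g')]
      _ = _ := by simp only [mul_assoc]

lemma conj_apply {A : Type*} [CommRing A] (P : (Matrix (Fin 2) (Fin 2) A)ˣ)
    (r : G →* Matrix (Fin 2) (Fin 2) A) (g : G) : conj P r g = P.val * r g * P⁻¹.val := rfl

lemma det_eq {A : Type*} [CommRing A] (M : Matrix (Fin 2) (Fin 2) A) :
    M.det = M 0 0 * M 1 1 - M 0 1 * M 1 0 := Matrix.det_fin_two M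

/-- **Theorem B**, conjugation form. -/
theorem exists_conj_shape
    (hH : ∀ a b : G, a * b ∈ H ↔ (a ∈ H ↔ b ∈ H))
    (hk : ∀ y : k, y ≠ 0 → y ^ 3 = 1)
    {ι : Type*} (D : ι → Subgroup G) (hD : ∀ v, ∃ g ∈ D v, g ∉ H)
    {κ : Type*} (I : κ → Set G) (N : Set G) (n : ℕ) :
    ∀ (A : Type v) [CommRing A] [IsLocalRing A] [Finite A] (_ : Nat.card A = n)
      (_ : (2 : A) = 0) (π : A →+* k) (_ : Function.Surjective π)
      (r : G →* Matrix (Fin 2) (Fin 2) A) (_ : ∀ g, (r g).det = 1)
      (_ : Shape H fun g => π.mapMatrix (r g))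
      (s : ι → G → A) (_ : ∀ v, ∀ g ∈ D v, s v g ^ 2 = 1)
      (_ : ∀ v, ∀ g ∈ D v, ∀ g' ∈ D v,
        (r g - s v g • (1 : Matrix (Fin 2) (Fin 2) A)) *
          (r g' - s v g' • (1 : Matrix (Fin 2) (Fin 2) A)) = 0)
      (_ : ∀ w, ∀ g ∈ I w, r g = 1) (_ : ∀ n ∈ N, r n = 1)
      (_ : ∀ b : G → Fin 2 → k,
        (∀ g g', b (g * g') = b g + (π.mapMatrix (r g)) *ᵥ b g') →
        (∀ g, ∀ n ∈ N, b (g * n) = b g) →
        (∀ w, ∀ g ∈ I w, b g = 0) →
        (∀ v, ∀ g ∈ D v, ∀ g' ∈ D v, (π.mapMatrix (r g')) *ᵥ b g = b g) →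
        ∃ m : Fin 2 → k, ∀ g, b g = (π.mapMatrix (r g)) *ᵥ m - m),
      ∃ P : (Matrix (Fin 2) (Fin 2) A)ˣ, π.mapMatrix P.val = 1 ∧ Shape H (conj P r) := by
  induction n using Nat.strong_induction_on with
  | _ n ih =>
  intro A _ _ _ hn h2 π hπ r hdet hbar s hs hloc hI hN hSel
  have hker : RingHom.ker π = maximalIdeal A :=
    IsLocalRing.eq_maximalIdeal (RingHom.ker_isMaximal_of_surjective π hπ)
  by_cases hm : maximalIdeal A = ⊥
  · -- `A` is a field
    have hinj : Function.Injective π := by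
      rw [RingHom.injective_iff_ker_eq_bot, hker, hm]
    refine ⟨1, by simp, ?_, ?_⟩
    · intro g hg
      obtain ⟨h1, h3⟩ := hbar.1 g hg
      simp only [conj_apply, Units.val_one, one_mul, inv_one, mul_one]
      exact ⟨hinj (by rw [map_zero]; exact h1), hinj (by rw [map_zero]; exact h3)⟩
    · intro g hg
      obtain ⟨h1, h3⟩ := hbar.2 g hg
      simp only [conj_apply, Units.val_one, one_mul, inv_one, mul_one]
      exact ⟨hinj (by rw [map_zero]; exact h1), hinj (by rw [map_zero]; exact h3)⟩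
  obtain ⟨x, hx0, hxm, hxk⟩ := exists_socle hm
  have hπx : π x = 0 := by rw [← RingHom.mem_ker, hker]; exact hxm
  have hx : ∀ a b : A, x * a = x * b ↔ π a = π b := by
    intro a b
    rw [← sub_eq_zero, ← mul_sub, ← sub_eq_zero (a := π a), ← map_sub, ← RingHom.mem_ker, hker]
    constructor
    · intro h
      by_contra hu
      have hu' : IsUnit (a - b) := by
        by_contra hu'
        exact hu hu'
      exact hx0 ((hu'.mul_left_eq_zero).mp h)
    · exact hxk _
  -- the quotient
  let J : Ideal A := Ideal.span {x}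
  have hJm : J ≤ maximalIdeal A := (Ideal.span_singleton_le_iff_mem _).mpr hxm
  have hJtop : J ≠ ⊤ := fun h => (maximalIdeal.isMaximal A).ne_top (top_le_iff.mp (h ▸ hJm))
  haveI : Nontrivial (A ⧸ J) := Ideal.Quotient.nontrivial_iff.mpr hJtop
  haveI : IsLocalRing (A ⧸ J) :=
    IsLocalRing.of_surjective' (Ideal.Quotient.mk J) Ideal.Quotient.mk_surjective
  haveI : Finite (A ⧸ J) := Finite.of_surjective _ (Ideal.Quotient.mk_surjective (I := J))
  let q := Ideal.Quotient.mk J
  let π' : (A ⧸ J) →+* k := Ideal.Quotient.lift J π (fun a ha => by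
    rw [← RingHom.mem_ker, hker]; exact hJm ha)
  have hπ'q : ∀ a, π' (q a) = π a := fun a => Ideal.Quotient.lift_mk J π _
  have hπ'q' : ∀ M : Matrix (Fin 2) (Fin 2) A, π'.mapMatrix (q.mapMatrix M) = π.mapMatrix M := by
    intro M
    ext i j
    exact hπ'q _
  have hcard : Nat.card (A ⧸ J) < n := by
    rw [← hn]
    letI := Fintype.ofFinite A
    letI := Fintype.ofFinite (A ⧸ J)
    rw [Nat.card_eq_fintype_card, Nat.card_eq_fintype_card]
    refine Fintype.card_lt_of_surjective_not_injective q Ideal.Quotient.mk_surjective ?_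
    intro hinj
    refine hx0 (hinj ?_)
    rw [map_zero, Ideal.Quotient.eq_zero_iff_mem]
    exact Ideal.mem_span_singleton_self x
  let r' : G →* Matrix (Fin 2) (Fin 2) (A ⧸ J) :=
    (q.mapMatrix : Matrix (Fin 2) (Fin 2) A →+* _).toMonoidHom.comp r
  have hr' : ∀ g, r' g = q.mapMatrix (r g) := fun _ => rfl
  obtain ⟨P', hP', hsh'⟩ := ih _ hcard (A ⧸ J) rfl
    (by rw [← map_ofNat q 2, h2, map_zero]) π' (fun y => by
      obtain ⟨a, ha⟩ := hπ y
      exact ⟨q a, by rw [hπ'q, ha]⟩) r'
    (fun g => by rw [hr', ← RingHom.map_det, hdet, map_one])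
    (by simpa only [hr', hπ'q'] using hbar) (fun v g => q (s v g))
    (fun v g hg => by rw [← map_pow, hs v g hg, map_one])
    (fun v g hg g' hg' => by
      have h3 := congrArg q.mapMatrix (hloc v g hg g' hg')
      rw [map_mul, map_sub, map_sub, map_zero] at h3
      have h4 : ∀ a : A, q.mapMatrix (a • (1 : Matrix (Fin 2) (Fin 2) A)) =
          q a • (1 : Matrix (Fin 2) (Fin 2) (A ⧸ J)) := by
        intro a
        ext i j
        simp only [RingHom.mapMatrix_apply, Matrix.map_apply, Matrix.smul_apply, smul_eq_mul,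
          map_mul, Matrix.one_apply]
        split_ifs <;> simp
      rw [h4, h4] at h3
      exact h3)
    (fun w g hg => by rw [hr', hI w g hg, map_one])
    (fun g hg => by rw [hr', hN g hg, map_one])
    (by simpa only [hr', hπ'q'] using hSel)
  -- lift the conjugating matrix
  choose P0 hP0 using fun i j => Ideal.Quotient.mk_surjective (P'.val i j)
  let P1 : Matrix (Fin 2) (Fin 2) A := Matrix.of fun i j => P0 i j
  have hP1 : q.mapMatrix P1 = P'.val := by
    ext i j
    exact hP0 i j
  have hP1π : π.mapMatrix P1 = 1 := by rw [← hπ'q', hP1, hP']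
  have hP1u : IsUnit P1 := by
    rw [Matrix.isUnit_iff_isUnit_det]
    by_contra hu
    have h3 : P1.det ∈ maximalIdeal A := hu
    rw [← hker, RingHom.mem_ker, RingHom.map_det, hP1π,
      Matrix.det_one] at h3
    exact one_ne_zero h3
  obtain ⟨P, hP⟩ := hP1u
  have hqP : Units.map (q.mapMatrix : Matrix (Fin 2) (Fin 2) A →+* _).toMonoidHom P = P' := by
    ext1
    rw [← hP1, ← hP]
    rfl
  have hqPi : q.mapMatrix P⁻¹.val = P'⁻¹.val := by
    rw [← hqP, ← map_inv]
    rfl
  have hr1q : ∀ g, q.mapMatrix (conj P r g) = conj P' r' g := by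
    intro g
    rw [conj_apply, conj_apply, map_mul, map_mul, hP, hP1, hqPi]
    rfl
  have hPπ : π.mapMatrix P.val = 1 := by rw [hP, hP1π]
  have hPiπ : π.mapMatrix P⁻¹.val = 1 := by
    have h3 := congrArg π.mapMatrix P.mul_inv
    rwa [map_mul, hPπ, one_mul, map_one] at h3
  have hr1π : ∀ g, π.mapMatrix (conj P r g) = π.mapMatrix (r g) := by
    intro g
    rw [conj_apply, map_mul, map_mul, hPπ, hPiπ, one_mul, mul_one]
  have hmemJ : ∀ a : A, q a = 0 → ∃ b, a = x * b := by
    intro a ha
    rw [Ideal.Quotient.eq_zero_iff_mem, Ideal.mem_span_singleton] at ha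
    exact ha
  have h1 : ∀ g, (conj P r g).det = 1 := by
    intro g
    rw [conj_apply, Matrix.det_mul, Matrix.det_mul, hdet, mul_one, ← Matrix.det_mul,
      Units.mul_inv, Matrix.det_one]
  obtain ⟨m0, m1, hsh⟩ := step (H := H) h2 π hπ (x := x) (hxk x hxm) hx hπx hH (conj P r)
    (fun g => by rw [← det_eq, h1]) (fun g hg => by
      obtain ⟨h3, h4⟩ := hsh'.1 g hg
      rw [← hr1q] at h3 h4
      exact ⟨hmemJ _ h3, hmemJ _ h4⟩) (fun g hg => by
      obtain ⟨h3, h4⟩ := hsh'.2 g hg
      rw [← hr1q] at h3 h4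
      exact ⟨hmemJ _ h3, hmemJ _ h4⟩) hk D hD s hs (fun v g hg g' hg' => by
      have h3 : ∀ g, conj P r g - s v g • (1 : Matrix (Fin 2) (Fin 2) A) =
          P.val * (r g - s v g • (1 : Matrix (Fin 2) (Fin 2) A)) * P⁻¹.val := by
        intro g
        rw [conj_apply, mul_sub, sub_mul, mul_smul_comm, smul_mul_assoc, mul_one, Units.mul_inv]
      rw [h3, h3]
      calc P.val * (r g - s v g • (1 : Matrix (Fin 2) (Fin 2) A)) * P⁻¹.val *
            (P.val * (r g' - s v g' • (1 : Matrix (Fin 2) (Fin 2) A)) * P⁻¹.val)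
          = P.val * ((r g - s v g • (1 : Matrix (Fin 2) (Fin 2) A)) * (P⁻¹.val *
            P.val) * (r g' - s v g' • (1 : Matrix (Fin 2) (Fin 2) A))) * P⁻¹.val := by
            simp only [mul_assoc]
        _ = 0 := by
            rw [Units.inv_mul, mul_one, hloc v g hg g' hg', mul_zero, zero_mul])
    I (fun w g hg => by rw [conj_apply, hI w g hg, mul_one, Units.mul_inv]) N
    (fun g hg => by rw [conj_apply, hN g hg, mul_one, Units.mul_inv])
    (by simpa only [hr1π] using hSel)
  -- the conjugating matrix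
  have hsq : (1 + !![0, x * m1; x * m0, 0] : Matrix (Fin 2) (Fin 2) A) *
      (1 + !![0, x * m1; x * m0, 0]) = 1 := by
    have hxx := hxk x hxm
    have h3 : (!![0, x * m1; x * m0, 0] : Matrix (Fin 2) (Fin 2) A) *
        !![0, x * m1; x * m0, 0] = 0 := by
      ext i j
      fin_cases i <;> fin_cases j
      · simp
        linear_combination m1 * m0 * hxx
      · simp
      · simp
      · simp
        linear_combination m1 * m0 * hxx
    have h4 : (!![0, x * m1; x * m0, 0] : Matrix (Fin 2) (Fin 2) A) +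
        !![0, x * m1; x * m0, 0] = 0 := by
      ext i j
      fin_cases i <;> fin_cases j
      · simp
      · simp
        linear_combination x * m1 * h2
      · simp
        linear_combination x * m0 * h2
      · simp
    rw [mul_add, add_mul, add_mul, h3, mul_one, one_mul, mul_one, add_zero, add_assoc, h4,
      add_zero]
  let Q : (Matrix (Fin 2) (Fin 2) A)ˣ := ⟨1 + !![0, x * m1; x * m0, 0],
    1 + !![0, x * m1; x * m0, 0], hsq, hsq⟩
  refine ⟨Q * P, ?_, ?_⟩
  · rw [Units.val_mul, map_mul, hPπ, mul_one]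
    change π.mapMatrix (1 + !![0, x * m1; x * m0, 0]) = 1
    rw [map_add, map_one]
    have h3 : π.mapMatrix (!![0, x * m1; x * m0, 0] : Matrix (Fin 2) (Fin 2) A) = 0 := by
      ext i j
      fin_cases i <;> fin_cases j <;> simp [hπx]
    rw [h3, add_zero]
  · have h3 : ∀ g, conj (Q * P) r g = (1 + !![0, x * m1; x * m0, 0]) * conj P r g *
        (1 + !![0, x * m1; x * m0, 0]) := by
      intro g
      rw [conj_apply, conj_apply, _root_.mul_inv_rev, Units.val_mul, Units.val_mul]
      change (1 + !![0, x * m1; x * m0, 0]) * P.val * r g *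
        (P⁻¹.val * (1 + !![0, x * m1; x * m0, 0])) = _
      simp only [mul_assoc]
    constructor
    · intro g hg
      rw [h3]
      exact hsh.1 g hg
    · intro g hg
      rw [h3]
      exact hsh.2 g hg

end Induction

section Character

universe u v w

variable {G : Type w} [Group G] {H : Subgroup G} {k : Type u} [Field k]
  {A : Type v} [CommRing A]

lemma mul_entry (r : G →* Matrix (Fin 2) (Fin 2) A) (g g' : G) (i j : Fin 2) :
    r (g * g') i j = r g i 0 * r g' 0 j + r g i 1 * r g' 1 j := by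
  rw [map_mul, Matrix.mul_apply, Fin.sum_univ_two]

/-- the character of a dihedral representation -/
def chr (r : G →* Matrix (Fin 2) (Fin 2) A) (hsh : Shape H r) (hdet : ∀ g, (r g).det = 1) :
    H →* Aˣ where
  toFun g := ⟨r g 0 0, r g 1 1, by
      have h1 := hdet g
      rw [det_eq, (hsh.1 g g.2).1, zero_mul, sub_zero] at h1
      exact h1, by
      have h1 := hdet g
      rw [det_eq, (hsh.1 g g.2).1, zero_mul, sub_zero] at h1
      rw [mul_comm]
      exact h1⟩
  map_one' := by
    ext
    simp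
  map_mul' g g' := by
    ext
    rw [Units.val_mul]
    change r ((g : G) * g') 0 0 = r g 0 0 * r g' 0 0
    rw [mul_entry, (hsh.1 g g.2).1, zero_mul, add_zero]

lemma chr_val (r : G →* Matrix (Fin 2) (Fin 2) A) (hsh : Shape H r)
    (hdet : ∀ g, (r g).det = 1) (g : H) : ((chr r hsh hdet g : Aˣ) : A) = r g 0 0 := rfl

lemma chr_inv (r : G →* Matrix (Fin 2) (Fin 2) A) (hsh : Shape H r)
    (hdet : ∀ g, (r g).det = 1) (g : H) : (((chr r hsh hdet g)⁻¹ : Aˣ) : A) = r g 1 1 := rfl

/-- the `1 + m`-part of the character of a dihedral representation over a `k`-algebra -/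
def kap [Algebra k A] (π : A →+* k) (r : G →* Matrix (Fin 2) (Fin 2) A) (hsh : Shape H r)
    (hdet : ∀ g, (r g).det = 1) : H →* Aˣ :=
  chr r hsh hdet *
    ((Units.map (algebraMap k A : k →* A)).comp ((Units.map (π : A →* k)).comp
      (chr r hsh hdet)))⁻¹

lemma chr_eq [Algebra k A] (π : A →+* k) (r : G →* Matrix (Fin 2) (Fin 2) A) (hsh : Shape H r)
    (hdet : ∀ g, (r g).det = 1) (g : H) : r g 0 0 =
      algebraMap k A (π (r g 0 0)) * (kap (k := k) π r hsh hdet g : A) := by
  rw [kap, MonoidHom.mul_apply, MonoidHom.inv_apply, Units.val_mul, chr_val]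
  have h1 : algebraMap k A (π (r g 0 0)) = ((Units.map (algebraMap k A : k →* A)).comp
    ((Units.map (π : A →* k)).comp (chr r hsh hdet)) g : Aˣ) := rfl
  rw [h1, mul_left_comm, Units.mul_inv, mul_one]

lemma chr_eq' [Algebra k A] (π : A →+* k) (r : G →* Matrix (Fin 2) (Fin 2) A) (hsh : Shape H r)
    (hdet : ∀ g, (r g).det = 1) (g : H) : r g 1 1 =
      algebraMap k A (π (r g 1 1)) * ((kap (k := k) π r hsh hdet g)⁻¹ : Aˣ) := by
  rw [kap, MonoidHom.mul_apply, MonoidHom.inv_apply, mul_inv, inv_inv, Units.val_mul, chr_inv]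
  have h1 : algebraMap k A (π (r g 1 1)) = ((((Units.map (algebraMap k A : k →* A)).comp
    ((Units.map (π : A →* k)).comp (chr r hsh hdet)) g : Aˣ)⁻¹ : Aˣ) : A) := rfl
  rw [h1, mul_left_comm, Units.inv_mul, mul_one]

lemma π_kap [Algebra k A] (π : A →+* k) (hπk : ∀ c, π (algebraMap k A c) = c)
    (r : G →* Matrix (Fin 2) (Fin 2) A) (hsh : Shape H r)
    (hdet : ∀ g, (r g).det = 1) (g : H) : π (kap (k := k) π r hsh hdet g : Aˣ) = 1 := by
  have h1 := congrArg π (chr_eq (k := k) π r hsh hdet g)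
  rw [map_mul, hπk] at h1
  have h2 : π (r g 0 0) ≠ 0 := by
    have h3 : IsUnit (r g 0 0) := (chr r hsh hdet g).isUnit
    exact (h3.map π).ne_zero
  exact (mul_left_cancel₀ h2 (by rw [mul_one]; exact h1)).symm

/-- dimension bound: a dihedral trace algebra is generated by the group of values of `κ` -/
theorem finrank_le [Algebra k A] (π : A →+* k) (r : G →* Matrix (Fin 2) (Fin 2) A)
    (hsh : Shape H r) (hdet : ∀ g, (r g).det = 1)
    [Finite (kap (k := k) π r hsh hdet).range]
    (hgen : Algebra.adjoin k (Set.range fun g => (r g).trace) = ⊤) :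
    Module.finrank k A ≤ Nat.card (kap (k := k) π r hsh hdet).range := by
  classical
  set κ := kap (k := k) π r hsh hdet with hκ
  -- the span of the values is a subalgebra
  let S : Set A := (fun u : Aˣ => (u : A)) '' (κ.range : Set Aˣ)
  have hSfin : S.Finite := (Set.toFinite _).image _
  have hmul : ∀ x ∈ Submodule.span k S, ∀ y ∈ Submodule.span k S, x * y ∈ Submodule.span k S := by
    intro x hx y hy
    have h1 := Submodule.mul_mem_mul hx hy
    rw [Submodule.span_mul_span] at h1
    refine Submodule.span_mono ?_ h1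
    rintro _ ⟨_, ⟨u, hu, rfl⟩, _, ⟨v, hv, rfl⟩, rfl⟩
    exact ⟨u * v, mul_mem hu hv, Units.val_mul _ _⟩
  have hone : (1 : A) ∈ Submodule.span k S :=
    Submodule.subset_span ⟨1, one_mem _, Units.val_one⟩
  let B : Subalgebra k A := (Submodule.span k S).toSubalgebra hone (fun x y hx hy => hmul x hx y hy)
  have hB : Algebra.adjoin k (Set.range fun g => (r g).trace) ≤ B := by
    rw [Algebra.adjoin_le_iff]
    rintro _ ⟨g, rfl⟩
    change (r g).trace ∈ Submodule.span k S
    rw [Matrix.trace_fin_two]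
    by_cases hg : g ∈ H
    · have e1 := chr_eq (k := k) π r hsh hdet ⟨g, hg⟩
      have e2 := chr_eq' (k := k) π r hsh hdet ⟨g, hg⟩
      simp only at e1 e2
      rw [e1, e2, ← Algebra.smul_def, ← Algebra.smul_def]
      refine add_mem (Submodule.smul_mem _ _ (Submodule.subset_span ?_))
        (Submodule.smul_mem _ _ (Submodule.subset_span ?_))
      · exact ⟨_, ⟨⟨g, hg⟩, rfl⟩, rfl⟩
      · exact ⟨_, inv_mem ⟨⟨g, hg⟩, rfl⟩, rfl⟩
    · rw [(hsh.2 g hg).1, (hsh.2 g hg).2, add_zero]
      exact zero_mem _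
  have htop : Submodule.span k S = ⊤ := by
    rw [hgen, top_le_iff] at hB
    have h1 : B.toSubmodule = ⊤ := by rw [hB]; rfl
    exact h1
  have h1 : Module.finrank k A = Set.finrank k S := by
    rw [Set.finrank, htop, finrank_top]
  rw [h1]
  haveI := hSfin.fintype
  refine (finrank_span_le_card S).trans ?_
  rw [Set.toFinset_card, ← Nat.card_eq_fintype_card]
  exact Nat.card_image_le (Set.toFinite _)

/-- at the places `v`: the character is the given unramified one -/
theorem chr_local (h2 : (2 : A) = 0) (r : G →* Matrix (Fin 2) (Fin 2) A) (hsh : Shape H r)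
    (hdet : ∀ g, (r g).det = 1) {D : Subgroup G} (hD : ∃ g ∈ D, g ∉ H) {s : G → A}
    (hloc : ∀ g ∈ D, ∀ g' ∈ D,
        (r g - s g • (1 : Matrix (Fin 2) (Fin 2) A)) *
          (r g' - s g' • (1 : Matrix (Fin 2) (Fin 2) A)) = 0) {g : G} (hg : g ∈ D)
    (hgH : g ∈ H) : r g 0 0 = s g := by
  obtain ⟨g0, hg0, hg0H⟩ := hD
  have h3 := congrFun (congrFun (hloc g hg g0 hg0) 0) 1
  simp only [Matrix.mul_apply, Fin.sum_univ_two, Matrix.sub_apply, Matrix.smul_apply,
    smul_eq_mul, Matrix.one_apply_eq, Matrix.one_apply_ne (zero_ne_one : (0 : Fin 2) ≠ 1),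
    mul_one, mul_zero, sub_zero, Matrix.zero_apply] at h3
  rw [(hsh.1 g hgH).1, zero_mul, add_zero] at h3
  have h4 := hdet g0
  rw [det_eq, (hsh.2 g0 hg0H).1, zero_mul, zero_sub] at h4
  have h5 : (r g 0 0 - s g) = 0 := by
    linear_combination -(r g0 1 0) * h3 - (r g 0 0 - s g) * h4
  exact sub_eq_zero.mp h5

end Character

end Fermat.Agent.H69.Dih
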