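import Mathlib
import Fermat.Agent.H69DihB

/-!
# LT, surjectivity of the dihedral point of the Hecke algebra (helper51)

Abstract theorem: `r : G →* M₂(B)` a dihedral representation (shape of `H69.Dih`) over a local
`k`-algebra `B` of characteristic two whose traces at Frobenius elements are
`η(c) ι(c) + η(c)⁻¹ ι(c)⁻¹`, `c` running through the classes of the degree one primes.  Frobenius
density and genus theory imply that the `1 + 𝔪` part of its character is a surjection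
`κ : H →* C`, and that every `k`-subalgebra containing the traces contains `ι(C)`.
-/

set_option autoImplicit false

open Matrix IsLocalRing
open Fermat.Agent.H69.Dih

namespace Fermat.Agent.H51S

universe u v

section basic

variable {k : Type*} [Field k] [CharP k 2] {B : Type*} [CommRing B] [IsLocalRing B] [Algebra k B]

/-- Hensel uniqueness for `X² - t X + 1`. -/
lemma eq_or_eq_inv (aug : B →ₐ[k] k) (a x : Bˣ) (h : (a : B) + (a⁻¹ : Bˣ) = x + (x⁻¹ : Bˣ))
    (hx : aug x ≠ aug (x⁻¹ : Bˣ)) : a = x ∨ a = x⁻¹ := by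
  have h0 : ((a : B) - x) * ((a : B) - (x⁻¹ : Bˣ)) = 0 := by
    have h1 : (a : B) * (a⁻¹ : Bˣ) = 1 := Units.mul_inv a
    have h2 : (x : B) * (x⁻¹ : Bˣ) = 1 := Units.mul_inv x
    linear_combination (a : B) * h + h2 - h1
  have hker : ∀ b : B, aug b ≠ 0 → IsUnit b := by
    intro b hb
    by_contra hnu
    have h1 : b ∈ maximalIdeal B := (mem_maximalIdeal b).2 hnu
    have h2 : RingHom.ker (aug : B →+* k) = maximalIdeal B := by
      apply IsLocalRing.eq_maximalIdeal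
      apply RingHom.ker_isMaximal_of_surjective
      intro c
      exact ⟨algebraMap k B c, aug.commutes c⟩
    rw [← h2, RingHom.mem_ker] at h1
    exact hb h1
  by_cases h1 : aug (a : B) = aug (x : B)
  · left
    have h2 : IsUnit ((a : B) - (x⁻¹ : Bˣ)) := by
      apply hker
      rw [map_sub, h1, sub_ne_zero]
      exact hx
    exact Units.ext (sub_eq_zero.mp ((h2.mul_left_eq_zero).mp h0))
  · right
    have h2 : IsUnit ((a : B) - x) := by
      apply hker
      rw [map_sub, sub_ne_zero]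
      exact h1
    exact Units.ext (sub_eq_zero.mp ((h2.mul_right_eq_zero).mp h0))

/-- `x ∈ R` if `x + x⁻¹ ∈ R`, `x ^ (2^m) = u ∈ k` and `u ≠ u⁻¹`. -/
lemma mem_of_trace_mem (R : Subalgebra k B) (x : Bˣ) (m : ℕ) (u : kˣ)
    (hxm : ((x ^ (2 ^ m) : Bˣ) : B) = algebraMap k B u) (hu : (u : k) + (u⁻¹ : kˣ) ≠ 0)
    (ht : (x : B) + (x⁻¹ : Bˣ) ∈ R) : (x : B) ∈ R := by
  have : CharP B 2 := by
    exact charP_of_injective_algebraMap (algebraMap k B).injective 2
  set t : B := (x : B) + (x⁻¹ : Bˣ) with htdef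
  have hxx : (x : B) * (x⁻¹ : Bˣ) = 1 := Units.mul_inv x
  have h2 : (2 : B) = 0 := CharTwo.two_eq_zero
  have hx2 : (x : B) ^ 2 = t * x + 1 := by
    have : t * x = (x : B) ^ 2 + (x : B) * (x⁻¹ : Bˣ) := by rw [htdef]; ring
    rw [this, hxx]
    linear_combination -h2
  -- `x^(2^j) = t^(2^j-1) x + B_j`
  have hrec : ∀ j : ℕ, ∃ b ∈ R, t * (x : B) ^ (2 ^ j) = t ^ (2 ^ j) * x + b := by
    intro j
    induction j with
    | zero => exact ⟨0, R.zero_mem, by simp⟩
    | succ j ih =>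
      obtain ⟨b, hb, h⟩ := ih
      -- square: t² x^(2^(j+1)) = t^(2^(j+1)) x² + b² = t^(2^(j+1)) (t x + 1) + b²
      have h3 : t * (t * (x : B) ^ (2 ^ (j + 1))) = t * (t ^ (2 ^ (j + 1)) * x) +
          (t ^ (2 ^ (j + 1)) + b ^ 2) := by
        have h4 : (t * (x : B) ^ (2 ^ j)) ^ 2 = (t ^ (2 ^ j) * x + b) ^ 2 := by rw [h]
        rw [CharTwo.add_sq, mul_pow, mul_pow, ← pow_mul, ← pow_mul, hx2, ← pow_succ] at h4
        calc t * (t * (x : B) ^ (2 ^ (j + 1))) = t ^ 2 * (x : B) ^ (2 ^ (j + 1)) := by ring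
          _ = _ := by rw [h4]; ring
      -- divide by t
      have htu : t ^ (2 ^ m) = algebraMap k B ((u : k) + (u⁻¹ : kˣ)) := by
        rw [htdef, add_pow_char_pow]
        have h5 : ((x⁻¹ : Bˣ) : B) ^ (2 ^ m) = algebraMap k B (u⁻¹ : kˣ) := by
          have h6 : ((x⁻¹ : Bˣ) : B) ^ (2 ^ m) * algebraMap k B u = 1 := by
            rw [← hxm, Units.val_pow_eq_pow_val, ← mul_pow, Units.inv_mul, one_pow]
          have h7 : algebraMap k B u * algebraMap k B (u⁻¹ : kˣ) = 1 := by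
            rw [← map_mul, Units.mul_inv, map_one]
          calc ((x⁻¹ : Bˣ) : B) ^ (2 ^ m) = ((x⁻¹ : Bˣ) : B) ^ (2 ^ m) *
              (algebraMap k B u * algebraMap k B (u⁻¹ : kˣ)) := by rw [h7, mul_one]
            _ = _ := by rw [← mul_assoc, h6, one_mul]
        rw [h5, map_add, ← hxm, Units.val_pow_eq_pow_val]
      set w : k := (u : k) + (u⁻¹ : kˣ) with hw
      have hw1 : algebraMap k B w⁻¹ * t ^ (2 ^ m) = 1 := by
        rw [htu, ← map_mul, inv_mul_cancel₀ hu, map_one]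
      -- inverse of t
      set t' : B := algebraMap k B w⁻¹ * t ^ (2 ^ m - 1) with ht'
      have htt : t' * t = 1 := by
        rw [ht', mul_assoc, ← pow_succ, Nat.sub_add_cancel (Nat.one_le_two_pow), hw1]
      have ht'R : t' ∈ R := R.mul_mem (R.algebraMap_mem _) (R.pow_mem ht _)
      refine ⟨t' * (t ^ (2 ^ (j + 1)) + b ^ 2), R.mul_mem ht'R
        (R.add_mem (R.pow_mem ht _) (R.pow_mem hb _)), ?_⟩
      calc t * (x : B) ^ (2 ^ (j + 1)) = (t' * t) * (t * (x : B) ^ (2 ^ (j + 1))) := by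
            rw [htt, one_mul]
        _ = t' * (t * (t * (x : B) ^ (2 ^ (j + 1)))) := by ring
        _ = (t' * t) * (t ^ (2 ^ (j + 1)) * x) + t' * (t ^ (2 ^ (j + 1)) + b ^ 2) := by
            rw [h3]; ring
        _ = _ := by rw [htt, one_mul]
  obtain ⟨b, hb, h⟩ := hrec m
  have htu : t ^ (2 ^ m) = algebraMap k B ((u : k) + (u⁻¹ : kˣ)) := by
    rw [htdef, add_pow_char_pow]
    have h5 : ((x⁻¹ : Bˣ) : B) ^ (2 ^ m) = algebraMap k B (u⁻¹ : kˣ) := by
      have h6 : ((x⁻¹ : Bˣ) : B) ^ (2 ^ m) * algebraMap k B u = 1 := by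
        rw [← hxm, Units.val_pow_eq_pow_val, ← mul_pow, Units.inv_mul, one_pow]
      have h7 : algebraMap k B u * algebraMap k B (u⁻¹ : kˣ) = 1 := by
        rw [← map_mul, Units.mul_inv, map_one]
      calc ((x⁻¹ : Bˣ) : B) ^ (2 ^ m) = ((x⁻¹ : Bˣ) : B) ^ (2 ^ m) *
          (algebraMap k B u * algebraMap k B (u⁻¹ : kˣ)) := by rw [h7, mul_one]
        _ = _ := by rw [← mul_assoc, h6, one_mul]
    rw [h5, map_add, ← hxm, Units.val_pow_eq_pow_val]
  have hxm' : (x : B) ^ (2 ^ m) = algebraMap k B u := by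
    rw [← hxm, Units.val_pow_eq_pow_val]
  rw [hxm', htu] at h
  set w : k := (u : k) + (u⁻¹ : kˣ) with hw
  have h8 : (x : B) = algebraMap k B w⁻¹ * (t * algebraMap k B u - b) := by
    rw [h, add_sub_cancel_right, ← mul_assoc, ← map_mul, inv_mul_cancel₀ hu, map_one, one_mul]
  rw [h8]
  exact R.mul_mem (R.algebraMap_mem _) (R.sub_mem (R.mul_mem ht (R.algebraMap_mem _)) hb)

end basic

/-- a nontrivial quadratic character of an elementary quotient -/
lemma exists_char {C : Type*} [CommGroup C] (D₁ : Subgroup C) (hD : D₁ ≠ ⊤) (hsq : ∀ c : C, c ^ 2 ∈ D₁) :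
    ∃ χ : C →* ℤˣ, χ ≠ 1 ∧ ∀ c ∈ D₁, χ c = 1 := by
  classical
  obtain ⟨c₀, hc₀⟩ : ∃ c₀, c₀ ∉ D₁ := by
    by_contra h
    push Not at h
    exact hD (eq_top_iff.mpr fun c _ => h c)
  have h2 : ∀ x : Additive (C ⧸ D₁), 2 • x = 0 := by
    intro x
    induction x using Additive.rec with
    | _ x =>
    induction x using QuotientGroup.induction_on with
    | _ x =>
    change Additive.ofMul ((QuotientGroup.mk x : C ⧸ D₁) ^ 2) = 0
    rw [← QuotientGroup.mk_pow, (QuotientGroup.eq_one_iff _).2 (hsq x)]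
    rfl
  letI : Module (ZMod 2) (Additive (C ⧸ D₁)) := AddCommGroup.zmodModule h2
  set v : Additive (C ⧸ D₁) := Additive.ofMul (QuotientGroup.mk c₀ : C ⧸ D₁) with hv
  have hv0 : v ≠ 0 := by
    intro h
    apply hc₀
    rw [← QuotientGroup.eq_one_iff]
    exact h
  obtain ⟨f, hf⟩ : ∃ f : Module.Dual (ZMod 2) (Additive (C ⧸ D₁)), f v ≠ 0 := by
    by_contra h
    push Not at h
    exact hv0 ((Module.forall_dual_apply_eq_zero_iff (ZMod 2) v).1 h)
  let e : Multiplicative (ZMod 2) →* ℤˣ :=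
    { toFun := fun z => if z = 1 then 1 else -1
      map_one' := by simp
      map_mul' := by decide }
  refine ⟨e.comp ((AddMonoidHom.toMultiplicative (f : Additive (C ⧸ D₁) →+ ZMod 2)).comp
    ((MulEquiv.refl _ : (C ⧸ D₁) ≃* (C ⧸ D₁)).toMonoidHom.comp (QuotientGroup.mk' D₁))), ?_, ?_⟩
  · intro h
    have h1 := DFunLike.congr_fun h c₀
    change (if Multiplicative.ofAdd (f v) = 1 then (1 : ℤˣ) else -1) = 1 at h1
    rw [if_neg] at h1
    · exact absurd h1 (by decide)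
    · intro h3
      exact hf h3
  · intro c hc
    change (if Multiplicative.ofAdd (f (Additive.ofMul (QuotientGroup.mk c : C ⧸ D₁))) = 1
      then (1 : ℤˣ) else -1) = 1
    rw [if_pos]
    rw [(QuotientGroup.eq_one_iff c).2 hc]
    change Multiplicative.ofAdd (f 0) = 1
    rw [map_zero]
    rfl

section main

variable {G : Type*} [Group G] {k : Type*} [Field k]
  {B : Type*} [CommRing B] [Algebra k B] {C : Type*} [CommGroup C] {Cl : Type*} [CommGroup Cl]

/-- the unit `η(c) ι(c)` -/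
def xu (ι : C →* B) (p : Cl →* C) (η : Cl →* kˣ) : Cl →* Bˣ :=
  (Units.map (algebraMap k B : k →* B)).comp η * ι.toHomUnits.comp p

/-- the `1 + 𝔪` part of a unit -/
def E (aug : B →ₐ[k] k) : Bˣ →* Bˣ :=
  MonoidHom.id _ * ((Units.map (algebraMap k B : k →* B)).comp (Units.map (aug : B →* k)))⁻¹

lemma E_apply (aug : B →ₐ[k] k) (u : Bˣ) :
    E aug u = u * (Units.map (algebraMap k B : k →* B) (Units.map (aug : B →* k) u))⁻¹ := rfl

/-- the subgroup generated by the classes with `η ≠ 1` -/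
def Dc (p : Cl →* C) (η : Cl →* kˣ) (IsCls : G → Cl → Prop) : Subgroup C :=
  Subgroup.closure {d | ∃ φ c, IsCls φ c ∧ η c ≠ 1 ∧ d = p c}

/-- Everything that is used. `IsCls φ c` : `φ` is a Frobenius element at a good prime `ℓ` and `c` is
the class of a prime ideal of norm `ℓ`. -/
structure Data (aug : B →ₐ[k] k) (ι : C →* B) (p : Cl →* C) (η : Cl →* kˣ)
    (r : G →* Matrix (Fin 2) (Fin 2) B) (H : Subgroup G) (Ω : Set (G →* ℤˣ)) (Fr : Set G)
    (IsCls : G → Cl → Prop) : Prop where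
  hH : ∀ a b : G, a * b ∈ H ↔ (a ∈ H ↔ b ∈ H)
  hk : ∀ y : k, y ≠ 0 → y ^ 3 = 1
  aug_ι : ∀ c, aug (ι c) = 1
  ι_inj : Function.Injective ι
  ι_sum : ∀ c d, ι c + ι c⁻¹ = ι d + ι d⁻¹ → c ^ 2 = 1 ∨ c = d ∨ c = d⁻¹
  exp : ∃ m, ∀ c : C, c ^ (2 ^ m) = 1
  shape : Shape H r
  det : ∀ g, (r g).det = 1
  ex3 : ∃ g, aug (r g).trace ≠ 0
  F1 : ∀ φ ∈ Fr, (r φ).trace ≠ 0 → ∃ c, IsCls φ c
  F2 : ∀ φ c, IsCls φ c → φ ∈ H ∧
    (r φ).trace = ((xu ι p η c : Bˣ) : B) + ((xu ι p η c)⁻¹ : Bˣ)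
  gen : ∀ D : Subgroup C, (∀ φ c, IsCls φ c → p c ∈ D) → D = ⊤
  one_mem : (1 : G →* ℤˣ) ∈ Ω
  dens : ∀ g, ∀ ω ∈ Ω, ∃ φ ∈ Fr, ∃ j : ℕ, r g = (r φ) ^ j ∧ ω g = ω φ ^ j
  genus : ∀ χ : C →* ℤˣ, χ ≠ 1 → ∃ ω ∈ Ω, (∃ h ∈ H, ω h = -1) ∧
    ∀ φ c, IsCls φ c → χ (p c) = ω φ

namespace Data

variable {aug : B →ₐ[k] k} {ι : C →* B} {p : Cl →* C} {η : Cl →* kˣ}
    {r : G →* Matrix (Fin 2) (Fin 2) B} {H : Subgroup G} {Ω : Set (G →* ℤˣ)} {Fr : Set G}
    {IsCls : G → Cl → Prop} (D : Data aug ι p η r H Ω Fr IsCls)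

include D

/-- the character -/
noncomputable def chi : H →* Bˣ := chr r D.shape D.det

lemma trace_eq (g : H) : (r g).trace = ((D.chi g : Bˣ) : B) + ((D.chi g)⁻¹ : Bˣ) := by
  rw [chi, chr_val, chr_inv, Matrix.trace_fin_two]

lemma aug_xu (c : Cl) : Units.map (aug : B →* k) (xu ι p η c) = η c := by
  ext
  rw [xu]
  simp only [MonoidHom.mul_apply, MonoidHom.comp_apply, Units.coe_map, Units.val_mul, map_mul,
    MonoidHom.coe_toHomUnits]
  change aug (algebraMap k B (η c)) * aug (ι (p c)) = _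
  rw [D.aug_ι, mul_one, AlgHom.commutes]
  rfl

lemma E_xu (c : Cl) : E aug (xu ι p η c) = ι.toHomUnits (p c) := by
  rw [E_apply, D.aug_xu, xu, MonoidHom.mul_apply, MonoidHom.comp_apply, MonoidHom.comp_apply,
    mul_inv_cancel_comm]

variable [CharP k 2]

omit D in
lemma add_inv_ne (hk : ∀ y : k, y ≠ 0 → y ^ 3 = 1) {y : kˣ} (hy : y ≠ 1) :
    (y : k) + (y⁻¹ : kˣ) ≠ 0 := by
  intro h
  apply hy
  have h1 : (y : k) = (y⁻¹ : kˣ) := by
    rw [← CharTwo.sub_eq_add, sub_eq_zero] at h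
    exact h
  have h2 : y = y⁻¹ := Units.ext h1
  have h3 : y ^ 2 = 1 := by
    rw [pow_two]
    nth_rw 2 [h2]
    exact mul_inv_cancel y
  have h4 : y ^ 3 = 1 := by
    apply Units.ext
    rw [Units.val_pow_eq_pow_val, hk _ y.ne_zero, Units.val_one]
  rw [pow_succ, h3, one_mul] at h4
  exact h4

omit D in
lemma add_inv_one : ((1 : kˣ) : k) + ((1 : kˣ)⁻¹ : kˣ) = 0 := by
  rw [inv_one, Units.val_one]
  exact CharTwo.add_self_eq_zero 1

lemma aug_trace (g : H) : aug (r g).trace =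
    ((Units.map (aug : B →* k) (D.chi g) : kˣ) : k) +
      ((Units.map (aug : B →* k) (D.chi g))⁻¹ : kˣ) := by
  rw [D.trace_eq, map_add]
  rfl

lemma ne_one_of_trace {g : H} (hg : aug (r g).trace ≠ 0) :
    Units.map (aug : B →* k) (D.chi g) ≠ 1 := by
  intro h
  apply hg
  rw [D.aug_trace, h]
  exact add_inv_one

lemma trace_of_ne_one {g : H} (hg : Units.map (aug : B →* k) (D.chi g) ≠ 1) :
    aug (r g).trace ≠ 0 := by
  rw [D.aug_trace]
  exact add_inv_ne D.hk hg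

lemma charP : CharP B 2 := by
  have : Nontrivial B := by
    by_contra h
    rw [not_nontrivial_iff_subsingleton] at h
    have h1 : aug (1 : B) = aug 0 := by rw [Subsingleton.elim (1 : B) 0]
    rw [map_one, map_zero] at h1
    exact one_ne_zero h1
  exact charP_of_injective_algebraMap (algebraMap k B).injective 2

lemma mem_of_trace_ne {g : G} (hg : aug (r g).trace ≠ 0) : g ∈ H := by
  by_contra h
  apply hg
  rw [Matrix.trace_fin_two, (D.shape.2 g h).1, (D.shape.2 g h).2, add_zero, map_zero]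

lemma mem_of_pow {g φ : G} {j : ℕ} (hg : aug (r g).trace ≠ 0) (h : r g = r φ ^ j) : φ ∈ H := by
  by_contra hφ
  have := D.charP
  have h1 : r φ ^ 2 = 1 := by
    have h2 := D.det φ
    rw [H69.Dih.det_eq, (D.shape.2 φ hφ).1, zero_mul, zero_sub, CharTwo.neg_eq] at h2
    have h3 : r φ 0 1 * r φ 1 0 = 1 := h2
    have h3' : r φ 1 0 * r φ 0 1 = 1 := by rw [mul_comm]; exact h2
    rw [pow_two]
    ext i j
    rw [Matrix.mul_apply, Fin.sum_univ_two]
    fin_cases i <;> fin_cases j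
    · simp [(D.shape.2 φ hφ).1, h3]
    · simp [(D.shape.2 φ hφ).1, (D.shape.2 φ hφ).2]
    · simp [(D.shape.2 φ hφ).1, (D.shape.2 φ hφ).2]
    · simp [(D.shape.2 φ hφ).2, h3']
  apply hg
  rcases Nat.even_or_odd' j with ⟨i, hi | hi⟩
  · rw [h, hi, pow_mul, h1, one_pow, Matrix.trace_one, Fintype.card_fin]
    simp [CharTwo.two_eq_zero]
  · rw [h, hi, pow_succ, pow_mul, h1, one_pow, one_mul, Matrix.trace_fin_two,
      (D.shape.2 φ hφ).1, (D.shape.2 φ hφ).2, add_zero, map_zero]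

lemma chi_eq_of_pow {g φ : H} {j : ℕ} (h : r g = r φ ^ j) : D.chi g = D.chi φ ^ j := by
  rw [← map_pow]
  apply Units.ext
  rw [chi, chr_val, chr_val, h, ← map_pow]
  rfl

/-- the value of the character at a Frobenius element with `η ≠ 1` -/
lemma chi_frob [IsLocalRing B] {φ : G} {c : Cl} (h : IsCls φ c) (hc : η c ≠ 1) :
    D.chi ⟨φ, (D.F2 φ c h).1⟩ = xu ι p η c ∨ D.chi ⟨φ, (D.F2 φ c h).1⟩ = (xu ι p η c)⁻¹ := by
  refine eq_or_eq_inv aug _ _ ?_ ?_
  · exact (D.trace_eq _).symm.trans (D.F2 φ c h).2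
  · intro h1
    have h2 : Units.map (aug : B →* k) (xu ι p η c) = Units.map (aug : B →* k) (xu ι p η c)⁻¹ :=
      Units.ext h1
    rw [map_inv, D.aug_xu] at h2
    apply add_inv_ne D.hk hc
    rw [← h2]
    exact CharTwo.add_self_eq_zero _

/-- Elements of order three mod `𝔪` are powers of good Frobenius elements. -/
lemma exists_frob {g : G} (hg : aug (r g).trace ≠ 0) {ω : G →* ℤˣ} (hω : ω ∈ Ω) :
    ∃ φ c, ∃ h : IsCls φ c, η c ≠ 1 ∧ ∃ j : ℕ, ω g = ω φ ^ j ∧
      D.chi ⟨g, D.mem_of_trace_ne hg⟩ = D.chi ⟨φ, (D.F2 φ c h).1⟩ ^ j := by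
  obtain ⟨φ, hφ, j, h1, h2⟩ := D.dens g ω hω
  have hφH := D.mem_of_pow hg h1
  have h3 : D.chi ⟨g, D.mem_of_trace_ne hg⟩ = D.chi ⟨φ, hφH⟩ ^ j :=
    D.chi_eq_of_pow (g := ⟨g, D.mem_of_trace_ne hg⟩) (φ := ⟨φ, hφH⟩) h1
  have h4 : Units.map (aug : B →* k) (D.chi ⟨φ, hφH⟩) ≠ 1 := by
    intro h5
    apply D.ne_one_of_trace (g := ⟨g, D.mem_of_trace_ne hg⟩) hg
    rw [h3, map_pow, h5, one_pow]
  have h5 := D.trace_of_ne_one h4
  have h6 : (r φ).trace ≠ 0 := by
    intro h7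
    apply h5
    change aug (r φ).trace = 0
    rw [h7, map_zero]
  obtain ⟨c, hc⟩ := D.F1 φ hφ h6
  refine ⟨φ, c, hc, ?_, j, h2, h3⟩
  intro h7
  apply h5
  change aug (r φ).trace = 0
  have h8 := congrArg aug (D.F2 φ c hc).2
  rw [h8, map_add]
  have h9 : aug ((xu ι p η c : Bˣ) : B) = ((1 : kˣ) : k) := by
    rw [← h7, ← D.aug_xu]
    rfl
  have h10 : aug ((xu ι p η c)⁻¹ : Bˣ) = ((1 : kˣ)⁻¹ : kˣ) := by
    rw [← h7, ← D.aug_xu]
    rfl
  rw [h9, h10]
  exact add_inv_one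

lemma E_chi_frob [IsLocalRing B] {φ : G} {c : Cl} (h : IsCls φ c) (hc : η c ≠ 1) :
    E aug (D.chi ⟨φ, (D.F2 φ c h).1⟩) = ι.toHomUnits (p c) ∨
      E aug (D.chi ⟨φ, (D.F2 φ c h).1⟩) = ι.toHomUnits (p c)⁻¹ := by
  rcases D.chi_frob h hc with h1 | h1
  · left
    rw [h1, D.E_xu]
  · right
    rw [h1, map_inv, D.E_xu, map_inv]

lemma exists_kap3 [IsLocalRing B] {g : G} (hg : aug (r g).trace ≠ 0) :
    ∃ d ∈ Dc p η IsCls, E aug (D.chi ⟨g, D.mem_of_trace_ne hg⟩) = ι.toHomUnits d := by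
  obtain ⟨φ, c, h, hc, j, -, h2⟩ := D.exists_frob hg D.one_mem
  have hpc : p c ∈ Dc p η IsCls := Subgroup.subset_closure ⟨φ, c, h, hc, rfl⟩
  rcases D.E_chi_frob h hc with h3 | h3
  · exact ⟨p c ^ j, pow_mem hpc _, by rw [h2, map_pow, h3, map_pow]⟩
  · exact ⟨(p c)⁻¹ ^ j, pow_mem (inv_mem hpc) _, by rw [h2, map_pow, h3, map_pow]⟩

lemma exists_kap [IsLocalRing B] (g : H) :
    ∃ d ∈ Dc p η IsCls, E aug (D.chi g) = ι.toHomUnits d := by
  by_cases hg : aug (r g).trace ≠ 0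
  · exact D.exists_kap3 hg
  · obtain ⟨g₀, hg₀⟩ := D.ex3
    set g₁ : H := ⟨g₀, D.mem_of_trace_ne hg₀⟩ with hg₁
    have h1 : Units.map (aug : B →* k) (D.chi g) = 1 := by
      by_contra h2
      exact hg (D.trace_of_ne_one h2)
    have h2 : Units.map (aug : B →* k) (D.chi g₁) ≠ 1 := D.ne_one_of_trace hg₀
    have h3 : Units.map (aug : B →* k) (D.chi (g * g₁)) ≠ 1 := by
      rw [map_mul, map_mul, h1, one_mul]
      exact h2
    obtain ⟨d, hd, h4⟩ := D.exists_kap3 (D.trace_of_ne_one h3)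
    obtain ⟨d', hd', h5⟩ := D.exists_kap3 hg₀
    refine ⟨d * d'⁻¹, mul_mem hd (inv_mem hd'), ?_⟩
    have h6 : D.chi g = D.chi (g * g₁) * (D.chi g₁)⁻¹ := by
      rw [map_mul, mul_inv_cancel_right]
    have h7 : ι.toHomUnits (d * d'⁻¹) = ι.toHomUnits d * (ι.toHomUnits d')⁻¹ := by
      rw [map_mul, map_inv]
    rw [h6, map_mul (E aug), map_inv (E aug), h7]
    exact congrArg₂ (· * ·) h4 (congrArg (·⁻¹) h5)

/-- The `1 + 𝔪` part of the character, with values in `C`. -/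
theorem exists_kappa [IsLocalRing B] : ∃ κ : H →* C, (∀ g : H, κ g ∈ Dc p η IsCls) ∧
    (∀ g : H, E aug (D.chi g) = ι.toHomUnits (κ g)) := by
  classical
  have hinj : Function.Injective ι.toHomUnits := by
    intro a b h
    apply D.ι_inj
    have h1 := congrArg (fun u : Bˣ => (u : B)) h
    simpa only [MonoidHom.coe_toHomUnits] using h1
  choose κ h1 h2 using D.exists_kap
  refine ⟨⟨⟨κ, ?_⟩, ?_⟩, h1, h2⟩
  · apply hinj
    rw [← h2, map_one, map_one, map_one]
  · intro g g'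
    apply hinj
    change ι.toHomUnits (κ (g * g')) = ι.toHomUnits (κ g * κ g')
    rw [← h2, map_mul, map_mul, h2, h2, map_mul]

/-- **Main theorem**: the `1 + 𝔪` part of the character is a surjection onto `C`. -/
theorem exists_surjective [IsLocalRing B] : ∃ κ : H →* C, Function.Surjective κ ∧
    (∀ g : H, κ g ∈ Dc p η IsCls) ∧ (∀ g : H, E aug (D.chi g) = ι.toHomUnits (κ g)) := by
  classical
  obtain ⟨κ, hκ1, hκ2⟩ := D.exists_kappa
  refine ⟨κ, ?_, hκ1, hκ2⟩
  have hinj : Function.Injective ι.toHomUnits := by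
    intro a b h
    apply D.ι_inj
    have h1 := congrArg (fun u : Bˣ => (u : B)) h
    simpa only [MonoidHom.coe_toHomUnits] using h1
  have := D.charP
  -- classes with `η ≠ 1` are values
  have hval : ∀ φ c, IsCls φ c → η c ≠ 1 → p c ∈ κ.range := by
    intro φ c h hc
    rcases D.E_chi_frob h hc with h1 | h1
    · rw [hκ2] at h1
      exact ⟨_, hinj h1⟩
    · rw [hκ2] at h1
      have h2 := hinj h1
      rw [← inv_inv (p c), ← h2]
      exact inv_mem ⟨_, rfl⟩
  -- the other classes are values or have square one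
  have hval1 : ∀ φ c, IsCls φ c → p c ∈ κ.range ∨ p c ^ 2 = 1 := by
    intro φ c h
    by_cases hc : η c = 1
    · have hφ := (D.F2 φ c h).1
      set g : H := ⟨φ, hφ⟩ with hg
      have h1 : (r g).trace = ι (p c) + ι (p c)⁻¹ := by
        have h2 : (xu ι p η c : Bˣ) = ι.toHomUnits (p c) := by
          rw [xu, MonoidHom.mul_apply, MonoidHom.comp_apply, hc, map_one, one_mul]
          rfl
        have h3 := (D.F2 φ c h).2
        rw [h2, ← map_inv, MonoidHom.coe_toHomUnits, MonoidHom.coe_toHomUnits] at h3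
        exact h3
      have h2 : Units.map (aug : B →* k) (D.chi g) = 1 := by
        by_contra h3
        apply D.trace_of_ne_one h3
        rw [h1, map_add, D.aug_ι, D.aug_ι]
        exact CharTwo.add_self_eq_zero 1
      have h3 : D.chi g = ι.toHomUnits (κ g) := by
        rw [← hκ2, E_apply, h2, map_one, inv_one, mul_one]
      have h4 : ι (p c) + ι (p c)⁻¹ = ι (κ g) + ι (κ g)⁻¹ := by
        rw [← h1, D.trace_eq, h3, ← map_inv, MonoidHom.coe_toHomUnits, MonoidHom.coe_toHomUnits]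
      rcases D.ι_sum _ _ h4 with h5 | h5 | h5
      · exact Or.inr h5
      · exact Or.inl (h5 ▸ ⟨g, rfl⟩)
      · exact Or.inl (h5 ▸ inv_mem ⟨g, rfl⟩)
    · exact Or.inl (hval φ c h hc)
  have hsq : ∀ c : C, c ^ 2 ∈ κ.range := by
    have h1 : (κ.range.comap (powMonoidHom 2)) = ⊤ := by
      apply D.gen
      intro φ c h
      rw [Subgroup.mem_comap, powMonoidHom_apply]
      rcases hval1 φ c h with h2 | h2
      · exact pow_mem h2 2
      · rw [h2]
        exact κ.range.one_mem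
    intro c
    have h2 : c ∈ (κ.range.comap (powMonoidHom 2)) := by
      rw [h1]
      trivial
    exact h2
  rw [← MonoidHom.range_eq_top]
  by_contra hne
  obtain ⟨χ, hχ, hχ1⟩ := exists_char κ.range hne hsq
  obtain ⟨ω, hω, ⟨h₀, hh₀, hωh⟩, hχω⟩ := D.genus χ hχ
  obtain ⟨g₀, hg₀⟩ := D.ex3
  -- an element with nontrivial cubic part and `ω = -1`
  obtain ⟨g, hg, hωg⟩ : ∃ g : G, aug (r g).trace ≠ 0 ∧ ω g = -1 := by
    by_cases h1 : aug (r h₀).trace ≠ 0
    · exact ⟨h₀, h1, hωh⟩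
    · set h₁ : H := ⟨h₀, hh₀⟩
      set g₁ : H := ⟨g₀, D.mem_of_trace_ne hg₀⟩ with hg₁
      have h2 : Units.map (aug : B →* k) (D.chi h₁) = 1 := by
        by_contra h2
        exact h1 (D.trace_of_ne_one h2)
      have h3 : Units.map (aug : B →* k) (D.chi g₁) ≠ 1 := D.ne_one_of_trace hg₀
      refine ⟨h₀ * (g₀ * g₀), ?_, ?_⟩
      · apply D.trace_of_ne_one (g := h₁ * (g₁ * g₁))
        rw [map_mul, map_mul, h2, one_mul, map_mul, map_mul]
        intro h4
        apply h3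
        have h5 : Units.map (aug : B →* k) (D.chi g₁) ^ 3 = 1 := by
          apply Units.ext
          rw [Units.val_pow_eq_pow_val, D.hk _ (Units.ne_zero _), Units.val_one]
        rw [pow_succ, pow_two, h4, one_mul] at h5
        exact h5
      · rw [map_mul, map_mul, hωh, Int.units_mul_self, mul_one]
  obtain ⟨φ, c, h, hc, j, h1, -⟩ := D.exists_frob hg hω
  have h2 := hχ1 _ (hval φ c h hc)
  rw [hχω φ c h] at h2
  rw [h2, one_pow, hωg] at h1
  exact absurd h1 (by decide)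

/-- every class belongs to every subalgebra containing the traces of the good Frobenii -/
theorem ι_mem [IsLocalRing B] (R : Subalgebra k B)
    (hR : ∀ φ c, IsCls φ c → (r φ).trace ∈ R) (c : C) : ι c ∈ R := by
  classical
  obtain ⟨κ, hκ, hκ1, -⟩ := D.exists_surjective
  obtain ⟨m, hm⟩ := D.exp
  have key : Dc p η IsCls ≤ (⊤ : Subgroup C) := le_top
  -- the elements `d` with `ι d ∈ R`
  let S : Subgroup C :=
    { carrier := {d | ι d ∈ R}
      mul_mem' := fun {a b} ha hb => by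
        change ι (a * b) ∈ R
        rw [map_mul]
        exact R.mul_mem ha hb
      one_mem' := by
        change ι 1 ∈ R
        rw [map_one]
        exact R.one_mem
      inv_mem' := fun {a} ha => by
        change ι a⁻¹ ∈ R
        have h1 : a⁻¹ = a ^ (2 ^ m - 1) := by
          rw [inv_eq_iff_mul_eq_one, ← pow_succ', Nat.sub_add_cancel Nat.one_le_two_pow, hm]
        rw [h1, map_pow]
        exact R.pow_mem ha _ }
  have hS : Dc p η IsCls ≤ S := by
    rw [Dc, Subgroup.closure_le]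
    rintro d ⟨φ, c, h, hc, rfl⟩
    change ι (p c) ∈ R
    have h1 : ((xu ι p η c : Bˣ) : B) ∈ R := by
      refine mem_of_trace_mem R (xu ι p η c) m (η c ^ 2 ^ m) ?_ ?_ ?_
      · have h2 : (xu ι p η c : Bˣ) ^ 2 ^ m =
            Units.map (algebraMap k B : k →* B) (η c ^ 2 ^ m) := by
          rw [xu, MonoidHom.mul_apply, mul_pow, MonoidHom.comp_apply, MonoidHom.comp_apply,
            ← map_pow, ← map_pow ι.toHomUnits, hm, map_one, mul_one]
        rw [h2]
        rfl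
      · apply add_inv_ne D.hk
        intro h2
        apply hc
        have h3 : η c ^ 3 = 1 := by
          apply Units.ext
          rw [Units.val_pow_eq_pow_val, D.hk _ (Units.ne_zero _), Units.val_one]
        have h4 : Nat.Coprime 3 (2 ^ m) := Nat.Coprime.pow_right m (by decide)
        have h5 := pow_gcd_eq_one.2 ⟨h3, h2⟩
        rwa [h4, pow_one] at h5
      · rw [← (D.F2 φ c h).2]
        exact hR φ c h
    have h2 : ι (p c) = algebraMap k B ((η c)⁻¹ : kˣ) * (xu ι p η c : Bˣ) := by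
      rw [xu, MonoidHom.mul_apply, Units.val_mul, MonoidHom.comp_apply, MonoidHom.comp_apply,
        Units.coe_map, MonoidHom.coe_toHomUnits, ← mul_assoc]
      change _ = algebraMap k B ((η c)⁻¹ : kˣ) * algebraMap k B (η c) * _
      rw [← map_mul, Units.inv_mul, map_one, one_mul]
    rw [h2]
    exact R.mul_mem (R.algebraMap_mem _) h1
  obtain ⟨g, rfl⟩ := hκ c
  exact hS (hκ1 g)

end Data

end main

end Fermat.Agent.H51S
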