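import Mathlib
import Fermat.Agent.H63Dict

/-!
# Frobenius elements on square roots (helper51)
-/

set_option autoImplicit false

namespace Fermat.Agent.H51S

open NumberField

local notation "Qb" => AlgebraicClosure ℚ
local notation "GQ" => (AlgebraicClosure ℚ ≃ₐ[ℚ] AlgebraicClosure ℚ)

lemma val_int_le (A : ValuationSubring Qb) (n : ℤ) : A.valuation (n : Qb) ≤ 1 := by
  rw [ValuationSubring.valuation_le_one_iff]
  exact intCast_mem A n

lemma val_int_eq_one {A : ValuationSubring Qb} {ℓ : ℕ} (hℓ : ℓ.Prime) (hA : A.LiesOverPrime ℓ)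
    {n : ℤ} (hn : ¬ (ℓ : ℤ) ∣ n) : A.valuation (n : Qb) = 1 := by
  refine le_antisymm (val_int_le A n) ?_
  by_contra hlt
  rw [not_le] at hlt
  have hℓ1 : A.valuation ((ℓ : ℤ) : Qb) < 1 := by
    have h1 : (ℓ : Qb) ∈ A.nonunits := hA
    rw [ValuationSubring.mem_nonunits_iff] at h1
    exact_mod_cast h1
  have hcop : IsCoprime (ℓ : ℤ) n := (Prime.coprime_iff_not_dvd (Nat.prime_iff_prime_int.mp hℓ)).mpr hn
  obtain ⟨a, b, hab⟩ := hcop
  have h2 : ((a * ℓ + b * n : ℤ) : Qb) = 1 := by rw [hab]; simp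
  have h3 : A.valuation ((a * ℓ + b * n : ℤ) : Qb) < 1 := by
    push_cast
    refine lt_of_le_of_lt (Valuation.map_add _ _ _) (max_lt ?_ ?_)
    · rw [map_mul]
      have h5 := val_int_le A a
      have h6 : A.valuation ((ℓ : ℕ) : Qb) < 1 := by exact_mod_cast hℓ1
      exact lt_of_le_of_lt (mul_le_of_le_one_left' h5) h6
    · rw [map_mul]
      have h5 := val_int_le A b
      exact lt_of_le_of_lt (mul_le_of_le_one_left' h5) hlt
  rw [h2, map_one] at h3
  exact lt_irrefl _ h3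

/-- **Frobenius on square roots.** -/
theorem frob_sqrt {A : ValuationSubring Qb} {ℓ : ℕ} (hℓ : ℓ.Prime) (hA : A.LiesOverPrime ℓ)
    {φ : GQ} (hφ : A.IsFrobeniusAt φ ℓ) {d : ℤ} (h2 : ℓ ≠ 2) (hd : ¬ (ℓ : ℤ) ∣ d) {x : Qb}
    (hx : x ^ 2 = d) : φ x = ((jacobiSym d ℓ : ℤ) : Qb) * x := by
  have : Fact ℓ.Prime := ⟨hℓ⟩
  have hℓZ : Prime (ℓ : ℤ) := Nat.prime_iff_prime_int.mp hℓ
  rw [← jacobiSym.legendreSym.to_jacobiSym]
  -- `φ x = ± x`
  have hpm : φ x = x ∨ φ x = -x := by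
    have h1 : (φ x) ^ 2 = x ^ 2 := by
      rw [← map_pow, hx, map_intCast]
    exact sq_eq_sq_iff_eq_or_eq_neg.mp h1
  have hxA : x ∈ A := by
    rw [← ValuationSubring.valuation_le_one_iff]
    have h1 : A.valuation x ^ 2 ≤ 1 := by
      rw [← map_pow, hx]
      exact val_int_le A d
    exact (pow_le_one_iff (two_ne_zero)).1 h1
  have hvx : A.valuation x = 1 := by
    have h1 : A.valuation x ^ 2 = 1 := by
      rw [← map_pow, hx]
      exact val_int_eq_one hℓ hA hd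
    exact ((pow_eq_one_iff).1 h1).resolve_right two_ne_zero
  have hF := ((H63.isFrobeniusAt_iff A φ ℓ).1 hφ).2 x hxA
  rw [ValuationSubring.mem_nonunits_iff] at hF
  -- Euler's criterion
  have hodd : ℓ % 2 = 1 := hℓ.eq_two_or_odd.resolve_left h2
  have hpow : x ^ ℓ = ((d ^ (ℓ / 2) : ℤ) : Qb) * x := by
    have h3 : ℓ = 2 * (ℓ / 2) + 1 := by omega
    conv_lhs => rw [h3]
    rw [pow_succ, pow_mul, hx]
    push_cast
    ring
  obtain ⟨m, hm⟩ : (ℓ : ℤ) ∣ d ^ (ℓ / 2) - legendreSym ℓ d := by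
    rw [← ZMod.intCast_zmod_eq_zero_iff_dvd]
    push_cast
    rw [legendreSym.eq_pow, sub_self]
  have hval2 : A.valuation (φ x - ((legendreSym ℓ d : ℤ) : Qb) * x) < 1 := by
    have h4 : φ x - ((legendreSym ℓ d : ℤ) : Qb) * x =
        (φ x - x ^ ℓ) + ((ℓ : ℤ) : Qb) * ((m : ℤ) : Qb) * x := by
      rw [hpow]
      have h5 : ((d ^ (ℓ / 2) : ℤ) : Qb) = ((legendreSym ℓ d : ℤ) : Qb) + (ℓ : ℤ) * (m : ℤ) := by
        rw [← Int.cast_mul, ← hm]
        push_cast
        ring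
      rw [h5]
      ring
    rw [h4]
    refine lt_of_le_of_lt (Valuation.map_add _ _ _) (max_lt hF ?_)
    rw [map_mul, map_mul, hvx, mul_one]
    have h1 : A.valuation ((ℓ : ℤ) : Qb) < 1 := by
      have h1 : (ℓ : Qb) ∈ A.nonunits := hA
      rw [ValuationSubring.mem_nonunits_iff] at h1
      exact_mod_cast h1
    exact lt_of_le_of_lt (mul_le_of_le_one_right' (val_int_le A m)) h1
  have hd0 : (d : ZMod ℓ) ≠ 0 := by
    rw [Ne, ZMod.intCast_zmod_eq_zero_iff_dvd]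
    exact hd
  have h2Z : ¬ (ℓ : ℤ) ∣ 2 := by
    intro h
    have h1 : ℓ ∣ 2 := by exact_mod_cast h
    exact h2 ((Nat.prime_dvd_prime_iff_eq hℓ Nat.prime_two).1 h1)
  have hv2 : A.valuation ((2 : ℤ) : Qb) = 1 := val_int_eq_one hℓ hA h2Z
  rcases legendreSym.eq_one_or_neg_one ℓ hd0 with hl | hl
  · rw [hl] at hval2 ⊢
    rcases hpm with h | h
    · rw [h]; simp
    · exfalso
      have h5 : φ x - ((1 : ℤ) : Qb) * x = -(((2 : ℤ) : Qb) * x) := by
        rw [h]
        push_cast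
        ring
      rw [h5, Valuation.map_neg, map_mul, hv2, hvx, one_mul] at hval2
      exact lt_irrefl _ hval2
  · rw [hl] at hval2 ⊢
    rcases hpm with h | h
    · exfalso
      have h5 : φ x - ((-1 : ℤ) : Qb) * x = (((2 : ℤ) : Qb) * x) := by
        rw [h]
        push_cast
        ring
      rw [h5, map_mul, hv2, hvx, one_mul] at hval2
      exact lt_irrefl _ hval2
    · rw [h]; simp

end Fermat.Agent.H51S
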