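import Mathlib

/-!
# TA5: the weight one theta series of a character of the ideals

`S` is a Dedekind domain, finite and free over `ℤ` (in the application `𝓞 K`, `K` quadratic).
`lam : Ideal S →* B` is a completely multiplicative function on the ideals,
`tc lam n = ∑_{N I = n} lam I`.
-/

set_option autoImplicit false

namespace Fermat.Agent.H22.Th

open Ideal
open scoped nonZeroDivisors

section generic

variable (S : Type*) [CommRing S] [IsDedekindDomain S] [CharZero S] [Module.Free ℤ S]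
  [Module.Finite ℤ S]

/-- the ideals of norm `n` -/
noncomputable def idn (n : ℕ) : Finset (Ideal S) :=
  (Ideal.finite_setOfPred_absNorm_eq (S := S) n).toFinset

variable {S}

theorem mem_idn {n : ℕ} {I : Ideal S} : I ∈ idn S n ↔ absNorm I = n := by
  simp [idn]

variable {B : Type*} [CommRing B]

/-- the coefficients of the theta series of `lam` -/
noncomputable def tc (lam : Ideal S →* B) (n : ℕ) : B := ∑ I ∈ idn S n, lam I

theorem idn_one : idn S 1 = {⊤} := by
  ext I
  rw [mem_idn, Finset.mem_singleton, absNorm_eq_one_iff]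

theorem tc_one (lam : Ideal S →* B) : tc lam 1 = 1 := by
  rw [tc, idn_one, Finset.sum_singleton, ← Ideal.one_eq_top, map_one]

theorem tc_zero (lam : Ideal S →* B) : tc lam 0 = lam ⊥ := by
  have : idn S 0 = {⊥} := by
    ext I
    rw [mem_idn, Finset.mem_singleton, absNorm_eq_zero_iff]
  rw [tc, this, Finset.sum_singleton]

open Classical in
/-- sum over the multiples of `A`. -/
theorem sum_dvd (lam : Ideal S →* B) {A : Ideal S} (hA : A ≠ ⊥) (m : ℕ) :
    (∑ I ∈ idn S m, if A ∣ I then lam I else 0) =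
      if absNorm A ∣ m then lam A * tc lam (m / absNorm A) else 0 := by
  have hA0 : absNorm A ≠ 0 := fun h => hA (absNorm_eq_zero_iff.mp h)
  rw [← Finset.sum_filter]
  split_ifs with h
  · rw [tc, Finset.mul_sum]
    symm
    refine Finset.sum_bij (fun J _ => A * J) ?_ ?_ ?_ ?_
    · intro J hJ
      rw [mem_idn] at hJ
      rw [Finset.mem_filter, mem_idn, map_mul, hJ]
      exact ⟨Nat.mul_div_cancel' h, Dvd.intro _ rfl⟩
    · intro J _ J' _ e
      exact mul_left_cancel₀ (by rwa [Ideal.zero_eq_bot]) e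
    · intro I hI
      rw [Finset.mem_filter, mem_idn] at hI
      obtain ⟨hI, J, rfl⟩ := hI
      refine ⟨J, ?_, rfl⟩
      rw [mem_idn]
      rw [map_mul] at hI
      rw [← hI, Nat.mul_div_cancel_left _ (Nat.pos_of_ne_zero hA0)]
    · intro J _
      rw [map_mul]
  · refine Finset.sum_eq_zero fun I hI => ?_
    rw [Finset.mem_filter, mem_idn] at hI
    obtain ⟨hI, J, rfl⟩ := hI
    rw [map_mul] at hI
    exact absurd ⟨_, hI.symm⟩ h

/-- if every ideal of norm `a * n` is a multiple of `A`, `a = N A` -/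
theorem tc_mul_of_forall_dvd (lam : Ideal S →* B) {A : Ideal S} (hA : A ≠ ⊥) {m : ℕ}
    (h : ∀ I : Ideal S, absNorm I = m → A ∣ I) :
    tc lam m = if absNorm A ∣ m then lam A * tc lam (m / absNorm A) else 0 := by
  classical
  rw [← sum_dvd lam hA, tc]
  refine Finset.sum_congr rfl fun I hI => ?_
  rw [if_pos (h I (mem_idn.mp hI))]

/-- inert primes: `r` prime, every ideal with norm divisible by `r` is a multiple of `(r)`,
`N (r) = r²`. -/
theorem tc_inert (lam : Ideal S →* B) {r : ℕ} (hr : r.Prime)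
    (hN : absNorm (span {(r : S)}) = r ^ 2)
    (h : ∀ I : Ideal S, r ∣ absNorm I → span {(r : S)} ∣ I) (n : ℕ) :
    tc lam (r * n) = if r ∣ n then lam (span {(r : S)}) * tc lam (n / r) else 0 := by
  have hr0 : span {(r : S)} ≠ ⊥ := by
    intro e
    rw [e, absNorm_bot] at hN
    exact (pow_pos hr.pos 2).ne hN
  rw [tc_mul_of_forall_dvd lam hr0 (m := r * n) fun I hI => h I (hI ▸ Dvd.intro _ rfl), hN, sq]
  have h1 : r * r ∣ r * n ↔ r ∣ n := Nat.mul_dvd_mul_iff_left hr.pos
  have h2 : r * n / (r * r) = n / r := Nat.mul_div_mul_left _ _ hr.pos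
  simp only [h1, h2]

/-- ramified primes -/
theorem tc_ram (lam : Ideal S →* B) {r : ℕ} (hr : r.Prime) {P : Ideal S} (hN : absNorm P = r)
    (h : ∀ I : Ideal S, r ∣ absNorm I → P ∣ I) (n : ℕ) :
    tc lam (r * n) = lam P * tc lam n := by
  have hr0 : P ≠ ⊥ := by
    rintro rfl
    rw [absNorm_bot] at hN
    exact hr.pos.ne hN
  rw [tc_mul_of_forall_dvd lam hr0 (m := r * n) fun I hI => h I (hI ▸ Dvd.intro _ rfl), hN,
    if_pos (Dvd.intro _ rfl), Nat.mul_div_cancel_left _ hr.pos]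

/-- split primes -/
theorem tc_split (lam : Ideal S →* B) {r : ℕ} (hr : r.Prime) {P P' : Ideal S}
    (hP : P.IsPrime) (hP' : P'.IsPrime) (hne : P ≠ P')
    (hN : absNorm P = r) (hN' : absNorm P' = r) (hPP : P * P' = span {(r : S)})
    (h : ∀ I : Ideal S, r ∣ absNorm I → P ∣ I ∨ P' ∣ I) (n : ℕ) :
    tc lam (r * n) + (if r ∣ n then lam (span {(r : S)}) * tc lam (n / r) else 0) =
      (lam P + lam P') * tc lam n := by
  classical
  have hP0 : P ≠ ⊥ := by
    rintro rfl
    rw [absNorm_bot] at hN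
    exact hr.pos.ne hN
  have hP0' : P' ≠ ⊥ := by
    rintro rfl
    rw [absNorm_bot] at hN'
    exact hr.pos.ne hN'
  have hpr : Prime P := Ideal.prime_of_isPrime hP0 hP
  have hpr' : Prime P' := Ideal.prime_of_isPrime hP0' hP'
  have hand : ∀ I : Ideal S, (P ∣ I ∧ P' ∣ I) ↔ span {(r : S)} ∣ I := by
    intro I
    rw [← hPP]
    constructor
    · rintro ⟨⟨J, rfl⟩, h2⟩
      rcases hpr'.dvd_or_dvd h2 with h3 | h3
      · exfalso
        apply hne
        have h4 : P ≤ P' := Ideal.dvd_iff_le.mp h3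
        exact (hP.isMaximal hP0).eq_of_le hP'.ne_top h4
      · exact mul_dvd_mul_left _ h3
    · intro h1
      exact ⟨(Dvd.intro _ rfl).trans h1, (Dvd.intro_left _ rfl).trans h1⟩
  have key : tc lam (r * n) = (∑ I ∈ idn S (r * n), if P ∣ I then lam I else 0) +
      (∑ I ∈ idn S (r * n), if P' ∣ I then lam I else 0) -
      ∑ I ∈ idn S (r * n), if span {(r : S)} ∣ I then lam I else 0 := by
    rw [tc, ← Finset.sum_add_distrib, ← Finset.sum_sub_distrib]
    refine Finset.sum_congr rfl fun I hI => ?_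
    have h1 := h I ((mem_idn.mp hI) ▸ Dvd.intro _ rfl)
    have h2 := hand I
    by_cases hA : P ∣ I <;> by_cases hB : P' ∣ I
    · have hC := h2.mp ⟨hA, hB⟩
      simp [hA, hB, hC]
    · have hC : ¬ span {(r : S)} ∣ I := fun hC => hB (h2.mpr hC).2
      simp [hA, hB, hC]
    · have hC : ¬ span {(r : S)} ∣ I := fun hC => hA (h2.mpr hC).1
      simp [hA, hB, hC]
    · exact absurd h1 (by tauto)
  have hNr : absNorm (span {(r : S)}) = r * r := by rw [← hPP, map_mul, hN, hN']
  have hr0 : span {(r : S)} ≠ ⊥ := by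
    intro e
    rw [e, absNorm_bot] at hNr
    exact (Nat.mul_pos hr.pos hr.pos).ne hNr
  rw [sum_dvd lam hP0, sum_dvd lam hP0', sum_dvd lam hr0, hNr, hN, hN',
    if_pos (Dvd.intro _ rfl), if_pos (Dvd.intro _ rfl), Nat.mul_div_cancel_left _ hr.pos] at key
  have h1 : r * r ∣ r * n ↔ r ∣ n := Nat.mul_dvd_mul_iff_left hr.pos
  have h2 : r * n / (r * r) = n / r := Nat.mul_div_mul_left _ _ hr.pos
  simp only [h1, h2] at key
  rw [key]
  ring

end generic

section quad

set_option linter.unusedSectionVars false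

variable {S : Type*} [CommRing S] [IsDedekindDomain S] [CharZero S] [Module.Free ℤ S]
  [Module.Finite ℤ S] {B : Type*} [CommRing B]

/-- uniqueness of coordinates -/
theorem coord {N : ℕ} (hN : 0 < N) {s : S} (hs : s ^ 2 = -(N : S)) {a b : ℤ}
    (h : (a : S) + b * s = 0) : a = 0 ∧ b = 0 := by
  have h1 : (a : S) ^ 2 + N * (b : S) ^ 2 = 0 := by
    have : (a : S) = -(b * s) := by linear_combination h
    rw [this]
    linear_combination (b : S) ^ 2 * hs
  have h2 : a ^ 2 + N * b ^ 2 = 0 := by exact_mod_cast h1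
  have hN' : (0 : ℤ) < N := by exact_mod_cast hN
  have h3 : b = 0 := by
    by_contra hb
    have : 0 < b ^ 2 := by positivity
    nlinarith [sq_nonneg a, mul_pos hN' this]
  subst h3
  simpa using h2

theorem mem_of_under {r : ℕ} {M : Ideal S} (h : M.under ℤ = span {(r : ℤ)}) : (r : S) ∈ M := by
  have : (r : ℤ) ∈ M.under ℤ := by
    rw [h]
    exact Ideal.mem_span_singleton_self _
  simpa [Ideal.mem_comap, Ideal.under] using this

theorem absNorm_natCast (h2 : Module.finrank ℤ S = 2) (r : ℕ) :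
    absNorm (span {(r : S)}) = r ^ 2 := by
  rw [absNorm_span_natCast, h2]

/-- **inert primes** -/
theorem inert {N : ℕ} (h2 : Module.finrank ℤ S = 2) {s : S} (hs : s ^ 2 = -(N : S)) {r : ℕ}
    (hr : r.Prime) (hsq : ¬ IsSquare ((-(N : ℤ) : ℤ) : ZMod r)) (I : Ideal S)
    (hI : r ∣ absNorm I) : span {(r : S)} ∣ I := by
  obtain ⟨M, hM, hMu, hMI⟩ := exists_isMaximal_dvd_of_dvd_absNorm' hr I hI
  have hrM : (r : S) ∈ M := mem_of_under hMu
  have hdvd : M ∣ span {(r : S)} := by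
    rw [Ideal.dvd_iff_le, span_singleton_le_iff_mem]
    exact hrM
  obtain ⟨J, hJ⟩ := hdvd
  have hn : absNorm M * absNorm J = r ^ 2 := by
    rw [← map_mul, ← hJ, absNorm_natCast h2]
  have hM1 : absNorm M ≠ 1 := fun h => hM.ne_top (absNorm_eq_one_iff.mp h)
  by_cases hJ1 : absNorm J = 1
  · rw [absNorm_eq_one_iff] at hJ1
    rw [hJ, hJ1, Ideal.mul_top]
    exact hMI
  exfalso
  have hMr : absNorm M = r := ((hr.mul_eq_prime_sq_iff hM1 hJ1).mp hn).1
  -- `s ≡ c` modulo `M`
  have hcard : Nat.card (S ⧸ M) = r := by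
    rw [← hMr]
    rfl
  have : Fact r.Prime := ⟨hr⟩
  have : Nontrivial (S ⧸ M) := Ideal.Quotient.nontrivial_iff.mpr hM.ne_top
  have h1 : (1 : S ⧸ M) ≠ 0 := one_ne_zero
  have hmem := mem_zmultiples_of_prime_card hcard h1 (g' := Ideal.Quotient.mk M s)
  obtain ⟨c, hc⟩ := AddSubgroup.mem_zmultiples_iff.mp hmem
  have hc' : Ideal.Quotient.mk M s = (c : S ⧸ M) := by
    rw [← hc]
    simp
  have hz : (((-(N : ℤ) - c ^ 2 : ℤ)) : S ⧸ M) = 0 := by
    have := congrArg (Ideal.Quotient.mk M) hs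
    rw [map_pow, hc', map_neg, map_natCast] at this
    push_cast
    rw [this]
    ring
  have hz' : (-(N : ℤ) - c ^ 2 : ℤ) ∈ M.under ℤ := by
    rw [Ideal.under, Ideal.mem_comap, ← Ideal.Quotient.eq_zero_iff_mem]
    simpa using hz
  rw [hMu, Ideal.mem_span_singleton] at hz'
  apply hsq
  refine ⟨(c : ZMod r), ?_⟩
  have := (ZMod.intCast_zmod_eq_zero_iff_dvd _ r).mpr hz'
  push_cast at this ⊢
  linear_combination this

/-- **ramified primes** -/
theorem ram {N : ℕ} (hN : Squarefree N) (h2 : Module.finrank ℤ S = 2) {s : S}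
    (hs : s ^ 2 = -(N : S)) {v : ℕ} (hv : v.Prime) (hvN : v ∣ N) :
    span {(v : S), s} * span {(v : S), s} = span {(v : S)} ∧
      (span {(v : S), s}).IsPrime ∧ absNorm (span {(v : S), s}) = v ∧
      ∀ I : Ideal S, v ∣ absNorm I → span {(v : S), s} ∣ I := by
  obtain ⟨m, rfl⟩ := hvN
  have hcop : Nat.Coprime v m := Nat.coprime_of_squarefree_mul hN
  have hsq : span {(v : S), s} * span {(v : S), s} = span {(v : S)} := by
    rw [span_pair_mul_span_pair]
    apply le_antisymm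
    · rw [Ideal.span_le]
      intro x hx
      simp only [Set.mem_insert_iff, Set.mem_singleton_iff] at hx
      rw [SetLike.mem_coe, Ideal.mem_span_singleton]
      rcases hx with rfl | rfl | rfl | rfl
      · exact ⟨_, rfl⟩
      · exact ⟨_, rfl⟩
      · exact ⟨s, by ring⟩
      · refine ⟨-(m : S), ?_⟩
        rw [← sq, hs]
        push_cast
        ring
    · rw [span_singleton_le_iff_mem]
      obtain ⟨a, b, hab⟩ := (Nat.isCoprime_iff_coprime.mpr hcop)
      have hab' : (a : S) * v + b * m = 1 := by exact_mod_cast congrArg (fun z : ℤ => (z : S)) hab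
      have h1 : (v : S) * v ∈ span ({(v : S) * v, v * s, s * v, s * s} : Set S) :=
        Ideal.subset_span (by simp)
      have h2 : s * s ∈ span ({(v : S) * v, v * s, s * v, s * s} : Set S) :=
        Ideal.subset_span (by simp)
      have h3 : (v : S) = a * (v * v) + (-b) * (s * s) := by
        have : s * s = -((v : S) * m) := by
          rw [← sq, hs]
          push_cast
          ring
        rw [this]
        linear_combination -(v : S) * hab'
      have h5 := Ideal.add_mem _ (Ideal.mul_mem_left _ (a : S) h1)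
        (Ideal.mul_mem_left _ (-b : S) h2)
      rwa [← h3] at h5
  have hnorm : absNorm (span {(v : S), s}) = v := by
    have := congrArg absNorm hsq
    rw [map_mul, absNorm_natCast h2, ← sq] at this
    exact (Nat.pow_left_injective (n := 2) (by norm_num)) this
  have hprime : (span {(v : S), s}).IsPrime :=
    isPrime_of_irreducible_absNorm (by rw [hnorm]; exact hv)
  refine ⟨hsq, hprime, hnorm, fun I hI => ?_⟩
  obtain ⟨M, hM, hMu, hMI⟩ := exists_isMaximal_dvd_of_dvd_absNorm' hv I hI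
  have hvM : (v : S) ∈ M := mem_of_under hMu
  have hle : span {(v : S), s} * span {(v : S), s} ≤ M := by
    rw [hsq, span_singleton_le_iff_mem]
    exact hvM
  have hle' : span {(v : S), s} ≤ M := by
    rcases (Ideal.IsPrime.mul_le hM.isPrime).mp hle with h | h <;> exact h
  have hne : span {(v : S), s} ≠ ⊥ := by
    intro e
    rw [e, absNorm_bot] at hnorm
    exact hv.pos.ne hnorm
  rw [(hprime.isMaximal hne).eq_of_le hM.ne_top hle']
  exact hMI

/-- **split primes** -/
theorem split {N : ℕ} (hN : 0 < N) (h2 : Module.finrank ℤ S = 2) {s : S}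
    (hs : s ^ 2 = -(N : S)) (hb : ∀ x : S, ∃ a b : ℤ, x = a + b * s) {r : ℕ}
    (hr : r.Prime) (hr2 : ¬ r ∣ 2 * N) {c : ℤ} (hc : (r : ℤ) ∣ c ^ 2 + N) :
    span {(r : S), s - c} * span {(r : S), s + c} = span {(r : S)} ∧
      (span {(r : S), s - c}).IsPrime ∧ (span {(r : S), s + c}).IsPrime ∧
      absNorm (span {(r : S), s - c}) = r ∧ absNorm (span {(r : S), s + c}) = r ∧
      span {(r : S), s - c} ≠ span {(r : S), s + c} ∧
      ∀ I : Ideal S, r ∣ absNorm I → span {(r : S), s - c} ∣ I ∨ span {(r : S), s + c} ∣ I := by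
  have hr2' : ¬ r ∣ 2 := fun h => hr2 (h.mul_right _)
  have hrN : ¬ r ∣ N := fun h => hr2 (h.mul_left _)
  have hrp : _root_.Prime (r : ℤ) := Nat.prime_iff_prime_int.mp hr
  have hrc : ¬ (r : ℤ) ∣ 2 * c := by
    intro h
    rcases hrp.dvd_or_dvd h with h | h
    · exact hr2' (by exact_mod_cast h)
    · apply hrN
      have h3 : (r : ℤ) ∣ c ^ 2 := dvd_pow h (by norm_num)
      exact_mod_cast (dvd_add_right h3).mp hc
  have hcop : IsCoprime (r : ℤ) (2 * c) := (Prime.coprime_iff_not_dvd hrp).mpr hrc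
  obtain ⟨a, b, hab⟩ := hcop
  have hab' : (a : S) * r + b * (2 * c) = 1 := by
    exact_mod_cast congrArg (fun z : ℤ => (z : S)) hab
  obtain ⟨k, hk⟩ := hc
  have hk' : (c : S) ^ 2 + N = r * k := by
    exact_mod_cast congrArg (fun z : ℤ => (z : S)) hk
  have hmul : span {(r : S), s - c} * span {(r : S), s + c} = span {(r : S)} := by
    rw [span_pair_mul_span_pair]
    apply le_antisymm
    · rw [Ideal.span_le]
      intro x hx
      simp only [Set.mem_insert_iff, Set.mem_singleton_iff] at hx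
      rw [SetLike.mem_coe, Ideal.mem_span_singleton]
      rcases hx with rfl | rfl | rfl | rfl
      · exact ⟨_, rfl⟩
      · exact ⟨_, rfl⟩
      · exact ⟨s - c, by ring⟩
      · refine ⟨-(k : S), ?_⟩
        linear_combination hs - hk'
    · rw [span_singleton_le_iff_mem]
      have h1 : (r : S) * r ∈ span ({(r : S) * r, r * (s + c), (s - c) * r,
        (s - c) * (s + c)} : Set S) := Ideal.subset_span (by simp)
      have h2 : (r : S) * (s + c) ∈ span ({(r : S) * r, r * (s + c), (s - c) * r,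
        (s - c) * (s + c)} : Set S) := Ideal.subset_span (by simp)
      have h3 : (s - c) * (r : S) ∈ span ({(r : S) * r, r * (s + c), (s - c) * r,
        (s - c) * (s + c)} : Set S) := Ideal.subset_span (by simp)
      have h4 : (r : S) = a * (r * r) + (b * (r * (s + c)) + (-b) * ((s - c) * r)) := by
        linear_combination -(r : S) * hab'
      have h5 := Ideal.add_mem _ (Ideal.mul_mem_left _ (a : S) h1)
        (Ideal.add_mem _ (Ideal.mul_mem_left _ (b : S) h2) (Ideal.mul_mem_left _ (-b : S) h3))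
      rwa [← h4] at h5
  have hnt : ∀ e : ℤ, ¬ (s + e) ∈ span {(r : S)} := by
    intro e he
    rw [Ideal.mem_span_singleton] at he
    obtain ⟨y, hy⟩ := he
    obtain ⟨a', b', rfl⟩ := hb y
    have h0 : ((e - r * a' : ℤ) : S) + ((1 - r * b' : ℤ) : S) * s = 0 := by
      push_cast
      linear_combination hy
    have h5 := (coord hN hs h0).2
    have h6 : (r : ℤ) ∣ 1 := ⟨b', by linarith⟩
    exact hr.one_lt.ne' (by exact_mod_cast Int.eq_one_of_dvd_one (by positivity) h6)
  have hP1 : absNorm (span {(r : S), s - c}) ≠ 1 := by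
    intro h
    rw [absNorm_eq_one_iff] at h
    rw [h, Ideal.top_mul] at hmul
    apply hnt c
    rw [← hmul]
    exact Ideal.subset_span (by simp)
  have hP1' : absNorm (span {(r : S), s + c}) ≠ 1 := by
    intro h
    rw [absNorm_eq_one_iff] at h
    rw [h, Ideal.mul_top] at hmul
    apply hnt (-c)
    rw [← hmul]
    refine Ideal.subset_span ?_
    push_cast
    rw [← sub_eq_add_neg]
    simp
  have hnn := congrArg absNorm hmul
  rw [map_mul, absNorm_natCast h2] at hnn
  obtain ⟨hn, hn'⟩ := (hr.mul_eq_prime_sq_iff hP1 hP1').mp hnn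
  have hp : (span {(r : S), s - c}).IsPrime :=
    isPrime_of_irreducible_absNorm (by rw [hn]; exact hr)
  have hp' : (span {(r : S), s + c}).IsPrime :=
    isPrime_of_irreducible_absNorm (by rw [hn']; exact hr)
  have hne : span {(r : S), s - c} ≠ ⊥ := by
    intro e
    rw [e, absNorm_bot] at hn
    exact hr.pos.ne hn
  have hne' : span {(r : S), s + c} ≠ ⊥ := by
    intro e
    rw [e, absNorm_bot] at hn'
    exact hr.pos.ne hn'
  refine ⟨hmul, hp, hp', hn, hn', ?_, ?_⟩
  · intro e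
    apply hp'.ne_top
    rw [Ideal.eq_top_iff_one]
    have h1 : (r : S) ∈ span {(r : S), s + c} := Ideal.subset_span (by simp)
    have h2 : s + c ∈ span {(r : S), s + c} := Ideal.subset_span (by simp)
    have h3 : s - c ∈ span {(r : S), s + c} := by
      rw [← e]
      exact Ideal.subset_span (by simp)
    have h4 : (1 : S) = a * r + (b * (s + c) + (-b) * (s - c)) := by
      linear_combination -hab'
    rw [h4]
    exact Ideal.add_mem _ (Ideal.mul_mem_left _ _ h1)
      (Ideal.add_mem _ (Ideal.mul_mem_left _ _ h2) (Ideal.mul_mem_left _ _ h3))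
  · intro I hI
    obtain ⟨M, hM, hMu, hMI⟩ := exists_isMaximal_dvd_of_dvd_absNorm' hr I hI
    have hrM : (r : S) ∈ M := mem_of_under hMu
    have hle : span {(r : S), s - c} * span {(r : S), s + c} ≤ M := by
      rw [hmul, span_singleton_le_iff_mem]
      exact hrM
    rcases (Ideal.IsPrime.mul_le hM.isPrime).mp hle with h | h
    · left
      rw [(hp.isMaximal hne).eq_of_le hM.ne_top h]
      exact hMI
    · right
      rw [(hp'.isMaximal hne').eq_of_le hM.ne_top h]
      exact hMI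

/-- `χ(r) = (-N / r)` for `r ∤ 2N` -/
noncomputable def chi (N r : ℕ) : ℤ := by
  classical
  exact if IsSquare ((-(N : ℤ) : ℤ) : ZMod r) then 1 else -1

/-- the value at a split prime -/
theorem tc_split_prime {N : ℕ} (hN : 0 < N) (h2 : Module.finrank ℤ S = 2) {s : S}
    (hs : s ^ 2 = -(N : S)) (hb : ∀ x : S, ∃ a b : ℤ, x = a + b * s) {r : ℕ}
    (hr : r.Prime) (hr2 : ¬ r ∣ 2 * N) (hsq : IsSquare ((-(N : ℤ) : ℤ) : ZMod r))
    (lam : Ideal S →* B) :
    ∃ P P' : Ideal S, P.IsPrime ∧ P'.IsPrime ∧ P ≠ P' ∧ absNorm P = r ∧ absNorm P' = r ∧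
      P * P' = span {(r : S)} ∧ tc lam r = lam P + lam P' ∧
      ∀ n, tc lam (r * n) + (if r ∣ n then lam (span {(r : S)}) * tc lam (n / r) else 0) =
        (lam P + lam P') * tc lam n := by
  obtain ⟨c, hc⟩ := hsq
  have : NeZero r := ⟨hr.ne_zero⟩
  have hc' : (r : ℤ) ∣ (c.val : ℤ) ^ 2 + N := by
    rw [← ZMod.intCast_zmod_eq_zero_iff_dvd]
    push_cast at hc ⊢
    rw [ZMod.natCast_zmod_val]
    linear_combination -hc
  obtain ⟨h3, h4, h5, h6, h7, h8, h9⟩ := split hN h2 hs hb hr hr2 hc'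
  have key := tc_split lam hr h4 h5 h8 h6 h7 h3 h9
  refine ⟨_, _, h4, h5, h8, h6, h7, h3, ?_, key⟩
  have h10 := key 1
  rw [mul_one, tc_one, mul_one, if_neg (fun h => hr.one_lt.ne' (Nat.dvd_one.mp h)), add_zero]
    at h10
  exact h10

/-- **The Hecke recursion** at `r ∤ 2N`. -/
theorem tc_hecke {N : ℕ} (hN : 0 < N) (h2 : Module.finrank ℤ S = 2) {s : S}
    (hs : s ^ 2 = -(N : S)) (hb : ∀ x : S, ∃ a b : ℤ, x = a + b * s) {r : ℕ}
    (hr : r.Prime) (hr2 : ¬ r ∣ 2 * N) (lam : Ideal S →* B) (n : ℕ) :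
    tc lam (r * n) +
        (chi N r : B) * (if r ∣ n then lam (span {(r : S)}) * tc lam (n / r) else 0) =
      tc lam r * tc lam n := by
  by_cases hsq : IsSquare ((-(N : ℤ) : ℤ) : ZMod r)
  · obtain ⟨P, P', -, -, -, -, -, -, h1, h3⟩ := tc_split_prime hN h2 hs hb hr hr2 hsq lam
    rw [chi, if_pos hsq, h1, ← h3 n]
    push_cast
    ring
  · have key := tc_inert lam hr (absNorm_natCast h2 r) (inert h2 hs hr hsq)
    have h1 := key 1
    rw [mul_one, if_neg (fun h => hr.one_lt.ne' (Nat.dvd_one.mp h))] at h1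
    rw [chi, if_neg hsq, key n, h1]
    push_cast
    ring

/-- **The Hecke recursion** in characteristic two -/
theorem tc_hecke_two {N : ℕ} (hN : 0 < N) (h2 : Module.finrank ℤ S = 2) {s : S}
    (hs : s ^ 2 = -(N : S)) (hb : ∀ x : S, ∃ a b : ℤ, x = a + b * s) {r : ℕ}
    (hr : r.Prime) (hr2 : ¬ r ∣ 2 * N) (lam : Ideal S →* B) (hB : (2 : B) = 0) (n : ℕ) :
    tc lam (r * n) + (if r ∣ n then lam (span {(r : S)}) * tc lam (n / r) else 0) =
      tc lam r * tc lam n := by
  rw [← tc_hecke hN h2 hs hb hr hr2 lam n]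
  have hchi : ((chi N r : ℤ) : B) = 1 := by
    rw [chi]
    split_ifs
    · simp
    · push_cast
      linear_combination -hB
  rw [hchi, one_mul]

/-- inert primes: `U_q Θ = λ((q)) Θ(qτ)` -/
theorem tc_inert' {N : ℕ} (h2 : Module.finrank ℤ S = 2) {s : S} (hs : s ^ 2 = -(N : S)) {q : ℕ}
    (hq : q.Prime) (hsq : ¬ IsSquare ((-(N : ℤ) : ℤ) : ZMod q)) (lam : Ideal S →* B) (n : ℕ) :
    tc lam (q * n) = if q ∣ n then lam (span {(q : S)}) * tc lam (n / q) else 0 :=
  tc_inert lam hq (absNorm_natCast h2 q) (inert h2 hs hq hsq) n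

/-- the coefficient vanishes if an inert prime divides `d` exactly once -/
theorem tc_eq_zero {N : ℕ} (h2 : Module.finrank ℤ S = 2) {s : S} (hs : s ^ 2 = -(N : S)) {q : ℕ}
    (hq : q.Prime) (hsq : ¬ IsSquare ((-(N : ℤ) : ℤ) : ZMod q)) (lam : Ideal S →* B) {d : ℕ}
    (hd : q ∣ d) (hd2 : ¬ q ∣ d / q) : tc lam d = 0 := by
  obtain ⟨n, rfl⟩ := hd
  rw [Nat.mul_div_cancel_left _ hq.pos] at hd2
  rw [tc_inert' h2 hs hq hsq, if_neg hd2]

/-- coefficients at squarefree products of inert primes -/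
theorem tc_squarefree {N : ℕ} (h2 : Module.finrank ℤ S = 2) {s : S} (hs : s ^ 2 = -(N : S))
    (lam : Ideal S →* B) {d : ℕ} (hd : Squarefree d)
    (hq : ∀ q : ℕ, q.Prime → q ∣ d → ¬ IsSquare ((-(N : ℤ) : ℤ) : ZMod q)) :
    tc lam d = if d = 1 then 1 else 0 := by
  split_ifs with h
  · rw [h, tc_one]
  · obtain ⟨q, hqp, hqd⟩ := Nat.exists_prime_and_dvd h
    refine tc_eq_zero h2 hs hqp (hq q hqp hqd) lam hqd ?_
    intro h3
    obtain ⟨e, he⟩ := hqd
    rw [he, Nat.mul_div_cancel_left _ hqp.pos] at h3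
    obtain ⟨f, rfl⟩ := h3
    have := hd q ⟨f, by rw [he]; ring⟩
    exact hqp.one_lt.ne' (Nat.isUnit_iff.mp this)

/-- ramified primes: `U_v Θ = λ(𝔭_v) Θ`, `𝔭_v² = (v)`. -/
theorem tc_ram' {N : ℕ} (hN : Squarefree N) (h2 : Module.finrank ℤ S = 2) {s : S}
    (hs : s ^ 2 = -(N : S)) {v : ℕ} (hv : v.Prime) (hvN : v ∣ N) (lam : Ideal S →* B) :
    ∃ P : Ideal S, P.IsPrime ∧ absNorm P = v ∧ P * P = span {(v : S)} ∧
      ∀ n, tc lam (v * n) = lam P * tc lam n := by
  obtain ⟨h3, h4, h5, h6⟩ := ram hN h2 hs hv hvN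
  exact ⟨_, h4, h5, h3, tc_ram lam hv h5 h6⟩

theorem tc_ram_sq {N : ℕ} (hN : Squarefree N) (h2 : Module.finrank ℤ S = 2) {s : S}
    (hs : s ^ 2 = -(N : S)) {v : ℕ} (hv : v.Prime) (hvN : v ∣ N) (lam : Ideal S →* B) (n : ℕ) :
    tc lam (v * (v * n)) = lam (span {(v : S)}) * tc lam n := by
  obtain ⟨P, -, -, h3, h4⟩ := tc_ram' hN h2 hs hv hvN lam
  rw [h4, h4, ← h3, map_mul, mul_assoc]

end quad

section classgroup

variable {S : Type*} [CommRing S] [IsDedekindDomain S] {B : Type*} [CommRing B]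

/-- the function on the ideals attached to a character of the class group -/
noncomputable def cg (ψ : ClassGroup S →* B) : Ideal S →* B := by
  classical
  exact
  { toFun := fun I => if h : I ∈ (Ideal S)⁰ then ψ (ClassGroup.mk0 ⟨I, h⟩) else 0
    map_one' := by
      rw [dif_pos (one_mem _)]
      have : (⟨1, one_mem _⟩ : (Ideal S)⁰) = 1 := rfl
      rw [this, map_one, map_one]
    map_mul' := fun I J => by
      by_cases hI : I ∈ (Ideal S)⁰
      · by_cases hJ : J ∈ (Ideal S)⁰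
        · rw [dif_pos (mul_mem hI hJ), dif_pos hI, dif_pos hJ, ← map_mul, ← map_mul]
          rfl
        · rw [dif_neg hJ, mul_zero, dif_neg]
          intro h
          rw [mem_nonZeroDivisors_iff_ne_zero] at h hI hJ
          exact hJ (right_ne_zero_of_mul h)
      · rw [dif_neg hI, zero_mul, dif_neg]
        intro h
        rw [mem_nonZeroDivisors_iff_ne_zero] at h hI
        exact hI (left_ne_zero_of_mul h) }

theorem cg_mk0 (ψ : ClassGroup S →* B) {I : Ideal S} (h : I ∈ (Ideal S)⁰) :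
    cg ψ I = ψ (ClassGroup.mk0 ⟨I, h⟩) := by
  classical
  exact dif_pos h

theorem cg_coe (ψ : ClassGroup S →* B) (I : (Ideal S)⁰) : cg ψ I = ψ (ClassGroup.mk0 I) :=
  cg_mk0 ψ I.2

theorem cg_bot (ψ : ClassGroup S →* B) : cg ψ ⊥ = 0 := by
  classical
  refine dif_neg fun h => ?_
  rw [mem_nonZeroDivisors_iff_ne_zero] at h
  exact h rfl

theorem cg_span (ψ : ClassGroup S →* B) {a : S} (ha : a ≠ 0) : cg ψ (span {a}) = 1 := by
  have h : span {a} ∈ (Ideal S)⁰ := by
    rw [mem_nonZeroDivisors_iff_ne_zero, Ideal.zero_eq_bot, Ne, Ideal.span_singleton_eq_bot]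
    exact ha
  rw [cg_mk0 ψ h, (ClassGroup.mk0_eq_one_iff h).mpr ⟨⟨a, rfl⟩⟩, map_one]

end classgroup

section cgquad

variable {S : Type*} [CommRing S] [IsDedekindDomain S] [CharZero S] [Module.Free ℤ S]
  [Module.Finite ℤ S] {B : Type*} [CommRing B]

theorem th_zero (ψ : ClassGroup S →* B) : tc (cg ψ) 0 = 0 := by
  rw [tc_zero, cg_bot]

/-- Hecke recursion for class group characters in characteristic two -/
theorem th_hecke_two {N : ℕ} (hN : 0 < N) (h2 : Module.finrank ℤ S = 2) {s : S}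
    (hs : s ^ 2 = -(N : S)) (hb : ∀ x : S, ∃ a b : ℤ, x = a + b * s) {r : ℕ}
    (hr : r.Prime) (hr2 : ¬ r ∣ 2 * N) (ψ : ClassGroup S →* B) (hB : (2 : B) = 0) (n : ℕ) :
    tc (cg ψ) (r * n) + (if r ∣ n then tc (cg ψ) (n / r) else 0) =
      tc (cg ψ) r * tc (cg ψ) n := by
  rw [← tc_hecke_two hN h2 hs hb hr hr2 (cg ψ) hB n,
    cg_span ψ (by exact_mod_cast hr.ne_zero : (r : S) ≠ 0), one_mul]

theorem th_inert {N : ℕ} (h2 : Module.finrank ℤ S = 2) {s : S} (hs : s ^ 2 = -(N : S)) {q : ℕ}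
    (hq : q.Prime) (hsq : ¬ IsSquare ((-(N : ℤ) : ℤ) : ZMod q)) (ψ : ClassGroup S →* B) (n : ℕ) :
    tc (cg ψ) (q * n) = if q ∣ n then tc (cg ψ) (n / q) else 0 := by
  rw [tc_inert' h2 hs hq hsq, cg_span ψ (by exact_mod_cast hq.ne_zero : (q : S) ≠ 0), one_mul]

/-- `U_v² Θ = Θ` for `v ∣ N`, in particular `v = 2`. -/
theorem th_ram {N : ℕ} (hN : Squarefree N) (h2 : Module.finrank ℤ S = 2) {s : S}
    (hs : s ^ 2 = -(N : S)) {v : ℕ} (hv : v.Prime) (hvN : v ∣ N) (ψ : ClassGroup S →* B) (n : ℕ) :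
    tc (cg ψ) (v * (v * n)) = tc (cg ψ) n := by
  rw [tc_ram_sq hN h2 hs hv hvN, cg_span ψ (by exact_mod_cast hv.ne_zero : (v : S) ≠ 0), one_mul]

/-- at a split prime: `t_r = ψ(𝔯) + ψ(𝔯)⁻¹`. -/
theorem th_split_prime {N : ℕ} (hN : 0 < N) (h2 : Module.finrank ℤ S = 2) {s : S}
    (hs : s ^ 2 = -(N : S)) (hb : ∀ x : S, ∃ a b : ℤ, x = a + b * s) {r : ℕ}
    (hr : r.Prime) (hr2 : ¬ r ∣ 2 * N) (hsq : IsSquare ((-(N : ℤ) : ℤ) : ZMod r))
    (ψ : ClassGroup S →* B) :
    ∃ P : (Ideal S)⁰, (P : Ideal S).IsPrime ∧ absNorm (P : Ideal S) = r ∧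
      tc (cg ψ) r = ψ (ClassGroup.mk0 P) + ψ (ClassGroup.mk0 P)⁻¹ := by
  obtain ⟨P, P', h1, h1', h3, h4, h5, h6, h7, -⟩ :=
    tc_split_prime hN h2 hs hb hr hr2 hsq (cg ψ)
  have hP : P ∈ (Ideal S)⁰ := by
    rw [mem_nonZeroDivisors_iff_ne_zero]
    rintro rfl
    rw [map_zero] at h4
    exact hr.pos.ne h4
  have hP' : P' ∈ (Ideal S)⁰ := by
    rw [mem_nonZeroDivisors_iff_ne_zero]
    rintro rfl
    rw [map_zero] at h5
    exact hr.pos.ne h5
  refine ⟨⟨P, hP⟩, h1, h4, ?_⟩
  rw [h7, cg_mk0 ψ hP, cg_mk0 ψ hP']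
  have h8 : ClassGroup.mk0 ⟨P, hP⟩ * ClassGroup.mk0 ⟨P', hP'⟩ = 1 := by
    rw [← map_mul]
    refine (ClassGroup.mk0_eq_one_iff (mul_mem hP hP')).mpr ⟨⟨(r : S), ?_⟩⟩
    exact h6
  rw [inv_eq_of_mul_eq_one_right h8]

end cgquad

end Fermat.Agent.H22.Th
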