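import Mathlib
import Fermat.Agent.H46LTDefs

/-!
# LT-MOD2: the automorphic side, block TA (docs 42, helper96), statement only (helper46)
-/

set_option autoImplicit false

noncomputable section

open WeierstrassCurve CuspForm ModularFormClass IsLocalRing
open scoped NumberField

namespace Fermat.Agent.LT

section classgroup

variable (K : Type) [Field K] [NumberField K]

/-- classes of odd order -/
def oddClasses : Set (ClassGroup (𝓞 K)) := {c | Odd (orderOf c)}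

/-- `C₂`: the 2-part of the class group, as a quotient. -/
abbrev C2' : Type := ClassGroup (𝓞 K) ⧸ Subgroup.closure (oddClasses K)

/-- prime ideals of norm `ℓ` (two of them if `ℓ` splits, none if `ℓ` is inert) -/
def primesOver (ℓ : ℕ) : Finset (Ideal (𝓞 K)) :=
  (Set.Finite.toFinset (s := {P : Ideal (𝓞 K) | P.IsPrime ∧ Ideal.absNorm P = ℓ})
    (Set.Finite.subset (Ideal.finite_setOfPred_absNorm_eq (S := 𝓞 K) ℓ) (fun _ h => h.2)))

/-- the class of an ideal, `1` for the zero ideal -/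
def cls (P : Ideal (𝓞 K)) : ClassGroup (𝓞 K) := by
  classical
  exact if h : P ∈ nonZeroDivisors (Ideal (𝓞 K)) then ClassGroup.mk0 ⟨P, h⟩ else 1

end classgroup

/-- the coefficient ring `O = W(𝔽₄)` (any complete DVR with uniformizer `2`, char 0, residue field
with 4 elements). -/
class CoefRing (O : Type) [CommRing O] [IsDomain O] [IsDiscreteValuationRing O] : Prop where
  char_zero : CharZero O
  complete : IsAdicComplete (maximalIdeal O) O
  two : maximalIdeal O = Ideal.span {(2 : O)}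
  card : Nat.card (ResidueField O) = 4

/-- the group `C₂ × ∏_{q ∈ Q} μ₂` -/
abbrev C2Q (K : Type) [Field K] [NumberField K] (Q : Finset ℕ) : Type :=
  C2' K × ({q // q ∈ Q} → Multiplicative (ZMod 2))

/-- the generator `[δ_q]` -/
def deltaQ (K : Type) [Field K] [NumberField K] (Q : Finset ℕ) (q : {q // q ∈ Q}) : C2Q K Q := by
  classical
  exact (1, Pi.mulSingle q (Multiplicative.ofAdd 1))

/-- **Output of block TA** (Theorem A'). `L = N ∏ Q` is the level, `t ℓ` the image of `T_ℓ`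
(`ℓ ∤ L` prime), `u q` the image of `U_q` (`q ∈ Q`). -/
structure TSide' (O : Type) [CommRing O] [IsDomain O] [IsDiscreteValuationRing O]
    (K : Type) [Field K] [NumberField K] (η : ClassGroup (𝓞 K) →* (ResidueField O)ˣ)
    (N : ℕ) (Q : Finset ℕ) (L : ℕ) [NeZero L] where
  T : Type
  [commRing : CommRing T]
  [algebra : Algebra O T]
  [finite : Module.Finite O T]
  [free : Module.Free O T]
  [isLocal : IsLocalRing T]
  [reduced : IsReduced T]
  t : ℕ → T
  u : ℕ → T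
  u_sq : ∀ q ∈ Q, u q ^ 2 = 1
  gen : Algebra.adjoin O (t '' {ℓ | ℓ.Prime ∧ ¬ ℓ ∣ L} ∪ u '' (↑Q : Set ℕ)) = ⊤
  /-- the Hecke algebra without the operators at the primes dividing `N` -/
  pi : heckeAlgebra L 2 {v : ℕ | v ∣ N} →+* T
  pi_T : ∀ (ℓ : ℕ) (hℓ : ℓ.Prime) (hℓL : ¬ ℓ ∣ L) (hS : ℓ ∉ {v : ℕ | v ∣ N}),
    pi (heckeAlgebra.T hℓ hℓL hS) = t ℓ
  pi_U : ∀ (q : ℕ) (_ : q ∈ Q) (hq : q.Prime) (hqL : q ∣ L) (hS : q ∉ {v : ℕ | v ∣ N}),
    pi (heckeAlgebra.U hq hqL hS) = u q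
  /-- the explicit theta eigenform modulo 2 -/
  π : T →+* MonoidAlgebra (ResidueField O) (C2Q K Q)
  π_alg : ∀ a : O, π (algebraMap O T a) =
    algebraMap (ResidueField O) (MonoidAlgebra (ResidueField O) (C2Q K Q)) (residue O a)
  π_t : ∀ ℓ : ℕ, ℓ.Prime → ¬ ℓ ∣ L →
    π (t ℓ) = ∑ P ∈ primesOver K ℓ,
      MonoidAlgebra.single ((QuotientGroup.mk (cls K P) : C2' K),
        (1 : {q // q ∈ Q} → Multiplicative (ZMod 2)))
        ((η (cls K P) : (ResidueField O)ˣ) : ResidueField O)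
  π_u : ∀ q : {q // q ∈ Q}, π (u q) = MonoidAlgebra.single (deltaQ K Q q) 1
  /-- points are eigenforms -/
  point : ∀ (F : Type) [Field F] [IsAlgClosed F] [CharZero F] (φ : T →+* F),
    ∃ f : CuspForm (CongruenceSubgroup.Gamma0 L) 2, f.IsNormalizedEigenform ∧
      (∀ q ∈ Q, qCoeff f q = 1 ∨ qCoeff f q = -1) ∧ (qCoeff f 2 = 1 ∨ qCoeff f 2 = -1) ∧
      ∃ ι : integralClosure ℤ ℂ →+* F,
        (∀ ℓ : ℕ, ℓ.Prime → ¬ ℓ ∣ L → ∃ a : integralClosure ℤ ℂ, (a : ℂ) = qCoeff f ℓ ∧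
          ι a = φ (t ℓ)) ∧
        (∀ q ∈ Q, ∃ a : integralClosure ℤ ℂ, (a : ℂ) = qCoeff f q ∧ ι a = φ (u q))

/-- **Block TA** (Theorem A' of docs 42). -/
def StatementT' : Prop :=
  ∀ (O : Type) [CommRing O] [IsDomain O] [IsDiscreteValuationRing O] [CoefRing O]
    (K : Type) [Field K] [NumberField K] (N : ℕ), Squarefree N → 2 ∣ N → 2 < N →
    Module.finrank ℚ K = 2 → (∃ x : K, x ^ 2 = -(N : K)) →
    ∀ Q : Finset ℕ, (∀ q ∈ Q, q.Prime ∧ ¬ q ∣ N ∧ q % 8 = 7 ∧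
      ¬ IsSquare ((-(N : ℤ) : ℤ) : ZMod q)) →
    ∀ (L : ℕ) [NeZero L], L = N * ∏ q ∈ Q, q →
    ∀ η : ClassGroup (𝓞 K) →* (ResidueField O)ˣ, η ≠ 1 → (∀ c, η c ^ 3 = 1) →
      Nonempty (TSide' O K η N Q L)

end Fermat.Agent.LT
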