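import Mathlib

set_option autoImplicit false

open NumberField Ideal
open scoped nonZeroDivisors

namespace Fermat.Agent.H63.LT

/-- Setting: `K` is a quadratic field containing `w` with `w ^ 2 = -N`, `N` even squarefree. -/
structure QuadData (K : Type*) [Field K] [NumberField K] (N : ℕ) (w : 𝓞 K) : Prop where
  finrank : Module.finrank ℚ K = 2
  sq : w ^ 2 = -(N : 𝓞 K)
  sqf : Squarefree N
  even : 2 ∣ N

variable {K : Type*} [Field K] [NumberField K] {N : ℕ} {w : 𝓞 K}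

namespace QuadData

variable (h : QuadData K N w)
include h

theorem N_pos : 0 < N := Nat.pos_of_ne_zero h.sqf.ne_zero

theorem sqK : ((w : 𝓞 K) : K) ^ 2 = -(N : K) := by
  have := congrArg (fun x : 𝓞 K => (x : K)) h.sq
  simpa using this

theorem w_notMem (r : ℚ) : ((w : 𝓞 K) : K) ≠ algebraMap ℚ K r := by
  intro hr
  have h1 := h.sqK
  rw [hr, ← map_pow] at h1
  have h2 : algebraMap ℚ K (r ^ 2) = algebraMap ℚ K (-(N : ℚ)) := by
    rw [h1]; simp
  have h3 := (algebraMap ℚ K).injective h2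
  have h4 : (0 : ℚ) < N := by exact_mod_cast h.N_pos
  nlinarith [sq_nonneg r]

/-- Coordinates of an element of `K`. -/
theorem exists_coord (x : K) : ∃ r s : ℚ, x = algebraMap ℚ K r + algebraMap ℚ K s * w := by
  have hli : LinearIndependent ℚ ![(1 : K), (w : K)] := by
    rw [LinearIndependent.pair_iff]
    intro s t hst
    have ht : t = 0 := by
      by_contra ht
      apply h.w_notMem (-s / t)
      have ht' : (algebraMap ℚ K t) ≠ 0 := by
        simpa using ht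
      rw [Algebra.smul_def, Algebra.smul_def, mul_one] at hst
      rw [map_div₀, map_neg, eq_div_iff ht']
      linear_combination hst
    subst ht
    rw [zero_smul, add_zero, Algebra.smul_def, mul_one] at hst
    exact ⟨by simpa using hst, rfl⟩
  let b := basisOfLinearIndependentOfCardEqFinrank hli (by rw [h.finrank]; rfl)
  have hb : ∀ i, b i = ![(1 : K), (w : K)] i := fun i => by
    rw [coe_basisOfLinearIndependentOfCardEqFinrank]
  refine ⟨b.repr x 0, b.repr x 1, ?_⟩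
  have h1 := b.sum_repr x
  rw [Fin.sum_univ_two, hb, hb] at h1
  conv_lhs => rw [← h1]
  simp [Algebra.smul_def]

theorem isGalois : IsGalois ℚ K := by
  have : Algebra.IsQuadraticExtension ℚ K := ⟨h.finrank⟩
  infer_instance

/-- The conjugation. -/
theorem exists_conj : ∃ σ : K ≃ₐ[ℚ] K, σ (w : K) = -(w : K) := by
  have := h.isGalois
  have hcard : Nat.card (K ≃ₐ[ℚ] K) = 2 := by
    rw [IsGalois.card_aut_eq_finrank, h.finrank]
  have : Nontrivial (K ≃ₐ[ℚ] K) := by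
    rw [← Finite.one_lt_card_iff_nontrivial, hcard]
    norm_num
  obtain ⟨σ, hσ⟩ := exists_ne (1 : K ≃ₐ[ℚ] K)
  refine ⟨σ, ?_⟩
  have h1 : (σ (w : K)) ^ 2 = (w : K) ^ 2 := by
    rw [← map_pow, h.sqK]; simp
  rcases sq_eq_sq_iff_eq_or_eq_neg.1 h1 with h2 | h2
  · exfalso
    apply hσ
    ext x
    obtain ⟨r, s, rfl⟩ := h.exists_coord x
    simp [h2]
  · exact h2

/-- The ring of integers is `ℤ[w]`. -/
theorem exists_int (x : 𝓞 K) : ∃ a b : ℤ, x = (a : 𝓞 K) + (b : 𝓞 K) * w := by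
  obtain ⟨σ, hσ⟩ := h.exists_conj
  obtain ⟨r, s, hx⟩ := h.exists_coord (x : K)
  have hσx : σ (x : K) = algebraMap ℚ K r - algebraMap ℚ K s * w := by
    rw [hx]; simp [hσ, sub_eq_add_neg]
  have hint : IsIntegral ℤ (σ (x : K)) := x.2.map (σ.restrictScalars ℤ : K →ₐ[ℤ] K)
  have hx2 : IsIntegral ℤ (x : K) := x.2
  -- the trace
  have htr : IsIntegral ℤ (2 * r) := by
    have h1 : IsIntegral ℤ ((x : K) + σ (x : K)) := hx2.add hint
    have h2 : (x : K) + σ (x : K) = algebraMap ℚ K (2 * r) := by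
      rw [hσx, hx]; simp; ring
    rw [h2] at h1
    exact (isIntegral_algebraMap_iff (algebraMap ℚ K).injective).1 h1
  have hno : IsIntegral ℤ (r ^ 2 + N * s ^ 2) := by
    have h1 : IsIntegral ℤ ((x : K) * σ (x : K)) := hx2.mul hint
    have h2 : (x : K) * σ (x : K) = algebraMap ℚ K (r ^ 2 + N * s ^ 2) := by
      rw [hσx, hx]
      have := h.sqK
      simp only [map_add, map_mul, map_pow, map_natCast]
      linear_combination (-(algebraMap ℚ K s) ^ 2) * this
    rw [h2] at h1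
    exact (isIntegral_algebraMap_iff (algebraMap ℚ K).injective).1 h1
  obtain ⟨A, hA⟩ := IsIntegrallyClosed.isIntegral_iff.1 htr
  obtain ⟨n, hn⟩ := IsIntegrallyClosed.isIntegral_iff.1 hno
  have hA' : (A : ℚ) = 2 * r := by simpa using hA
  have hn' : (n : ℚ) = r ^ 2 + N * s ^ 2 := by simpa using hn
  -- `N (2 s)^2` is an integer
  have h4 : (N : ℚ) * (2 * s) ^ 2 = ((4 * n - A ^ 2 : ℤ) : ℚ) := by
    push_cast; rw [hn', hA']; ring
  have hB : ∃ B : ℤ, (B : ℚ) = 2 * s := by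
    set q : ℚ := 2 * s with hq
    have h5 : (N : ℤ) * q.num ^ 2 = (4 * n - A ^ 2) * q.den ^ 2 := by
      have h6 : (q.num : ℚ) = q * q.den := by rw [Rat.mul_den_eq_num]
      have h7 : ((N : ℤ) * q.num ^ 2 : ℚ) = ((4 * n - A ^ 2 : ℤ) : ℚ) * q.den ^ 2 := by
        rw [← h4, h6]; push_cast; ring
      exact_mod_cast h7
    have h8 : (q.den : ℤ) ^ 2 ∣ (N : ℤ) * q.num ^ 2 := Dvd.intro_left _ h5.symm
    have hcop : IsCoprime ((q.den : ℤ) ^ 2) (q.num ^ 2) := by
      apply IsCoprime.pow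
      rw [Int.isCoprime_iff_gcd_eq_one, Int.gcd_comm]
      exact_mod_cast q.reduced
    have h9 : (q.den : ℤ) ^ 2 ∣ (N : ℤ) := hcop.dvd_of_dvd_mul_right h8
    have h10 : q.den * q.den ∣ N := by
      rw [← pow_two]; exact_mod_cast h9
    have h11 := h.sqf _ h10
    have h12 : q.den = 1 := Nat.isUnit_iff.1 h11
    exact ⟨q.num, by rw [← Rat.den_eq_one_iff]; exact h12⟩
  obtain ⟨B, hB⟩ := hB
  have h5 : A ^ 2 + N * B ^ 2 = 4 * n := by
    have : ((A : ℚ) ^ 2 + N * (B : ℚ) ^ 2) = 4 * n := by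
      rw [hA', hB, hn']; ring
    exact_mod_cast this
  -- parity
  obtain ⟨m, hm⟩ := h.even
  have hmodd : m % 2 = 1 := by
    by_contra hcon
    have : 2 ∣ m := Nat.dvd_of_mod_eq_zero (by omega)
    obtain ⟨m', rfl⟩ := this
    have h6 := h.sqf 2 ⟨m', by rw [hm]; ring⟩
    exact absurd (Nat.isUnit_iff.1 h6) (by norm_num)
  have hBeven : B % 2 = 0 := by
    by_contra hcon
    have hB1 : B % 2 = 1 := by omega
    obtain ⟨k, hk⟩ : ∃ k, B = 2 * k + 1 := ⟨B / 2, by omega⟩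
    obtain ⟨m', hm'⟩ : ∃ m', m = 2 * m' + 1 := ⟨m / 2, by omega⟩
    have h7 : A ^ 2 % 4 = 2 := by
      have h8 : A ^ 2 = 4 * n - N * B ^ 2 := by linarith
      rw [h8, hm, hm', hk]
      push_cast
      have : (4 * n - 2 * (2 * (m' : ℤ) + 1) * (2 * k + 1) ^ 2) =
        2 + 4 * (n - 1 - (m' : ℤ) - 2 * k * (k + 1) * (2 * m' + 1)) := by ring
      rw [this]
      omega
    have h9 : A % 2 = 0 ∨ A % 2 = 1 := by omega
    rcases h9 with h9 | h9
    · obtain ⟨k, hk⟩ : ∃ k, A = 2 * k := ⟨A / 2, by omega⟩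
      rw [hk] at h7
      have : (2 * k) ^ 2 = 4 * k ^ 2 := by ring
      rw [this] at h7
      omega
    · obtain ⟨k, hk⟩ : ∃ k, A = 2 * k + 1 := ⟨A / 2, by omega⟩
      rw [hk] at h7
      have : (2 * k + 1) ^ 2 = 4 * (k ^ 2 + k) + 1 := by ring
      rw [this] at h7
      omega
  obtain ⟨b, hb⟩ : ∃ k, B = 2 * k := ⟨B / 2, by omega⟩
  have hAeven : A % 2 = 0 := by
    by_contra hcon
    obtain ⟨k, hk⟩ : ∃ k, A = 2 * k + 1 := ⟨A / 2, by omega⟩
    rw [hk, hb] at h5
    have : (2 * k + 1) ^ 2 + (N : ℤ) * (2 * b) ^ 2 = 4 * (k ^ 2 + k + N * b ^ 2) + 1 := by ring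
    rw [this] at h5
    omega
  obtain ⟨a, ha⟩ : ∃ k, A = 2 * k := ⟨A / 2, by omega⟩
  refine ⟨a, b, ?_⟩
  have hr : r = a := by
    have : (A : ℚ) = 2 * a := by rw [ha]; push_cast; ring
    linarith
  have hs : s = b := by
    have : (B : ℚ) = 2 * b := by rw [hb]; push_cast; ring
    linarith
  apply RingOfIntegers.ext
  rw [hx, hr, hs]
  simp

end QuadData

end Fermat.Agent.H63.LT
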