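import Mathlib
import Fermat.Agent.H22Th
import Fermat.Agent.H63LTQuad
import Fermat.Agent.H46LTDefsTA

/-!
# TA5: the theta series `Θ = ∑ ψ(𝔠) q^{N 𝔠}` of `K = ℚ(√-N)`, in the language of `QuadData`
-/

set_option autoImplicit false

namespace Fermat.Agent.H22.Th

open Ideal
open Fermat.Agent.H63.LT
open scoped nonZeroDivisors NumberField

variable {K : Type} [Field K] [NumberField K] {N : ℕ} {w : 𝓞 K} {B : Type*} [CommRing B]

theorem finrankQ (h : QuadData K N w) : Module.finrank ℤ (𝓞 K) = 2 := by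
  rw [NumberField.RingOfIntegers.rank, h.finrank]

/-- the coefficients of `Θ`, for a character `ψ` of the class group with values in `B` -/
noncomputable abbrev th (ψ : ClassGroup (𝓞 K) →* B) (n : ℕ) : B := tc (cg ψ) n

theorem cg_eq_cls (ψ : ClassGroup (𝓞 K) →* B) {I : Ideal (𝓞 K)} (hI : I ≠ ⊥) :
    cg ψ I = ψ (LT.cls K I) := by
  have h : I ∈ (Ideal (𝓞 K))⁰ := by
    rw [mem_nonZeroDivisors_iff_ne_zero]
    exact hI
  rw [cg_mk0 ψ h, LT.cls, dif_pos h]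

theorem primesOver_eq {r : ℕ} (hr : r.Prime) : LT.primesOver K r = idn (𝓞 K) r := by
  ext I
  rw [mem_idn, LT.primesOver, Set.Finite.mem_toFinset]
  constructor
  · exact fun h => h.2
  · exact fun h => ⟨isPrime_of_irreducible_absNorm (by rw [h]; exact hr), h⟩

/-- `t_r = ∑_{N P = r} ψ([P])` -/
theorem th_prime (ψ : ClassGroup (𝓞 K) →* B) {r : ℕ} (hr : r.Prime) :
    th ψ r = ∑ P ∈ LT.primesOver K r, ψ (LT.cls K P) := by
  rw [primesOver_eq hr]
  refine Finset.sum_congr rfl fun I hI => cg_eq_cls ψ ?_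
  rintro rfl
  rw [mem_idn, absNorm_bot] at hI
  exact hr.pos.ne hI

theorem th_eq_sum (ψ : ClassGroup (𝓞 K) →* B) {n : ℕ} (hn : n ≠ 0) :
    th ψ n = ∑ I ∈ idn (𝓞 K) n, ψ (LT.cls K I) := by
  refine Finset.sum_congr rfl fun I hI => cg_eq_cls ψ ?_
  rintro rfl
  rw [mem_idn, absNorm_bot] at hI
  exact hn hI.symm

/-- sum over the classes: `t_n = ∑_A ψ(A) #{𝔠 ∈ A : N 𝔠 = n}`. -/
theorem th_eq_sum_classes (ψ : ClassGroup (𝓞 K) →* B) {n : ℕ} (hn : n ≠ 0) :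
    th ψ n = ∑ A : ClassGroup (𝓞 K),
      (Nat.card {I : Ideal (𝓞 K) // absNorm I = n ∧ LT.cls K I = A} : B) * ψ A := by
  classical
  rw [th_eq_sum ψ hn, ← Finset.sum_fiberwise_of_maps_to
    (g := fun I => LT.cls K I) (t := Finset.univ) (fun _ _ => Finset.mem_univ _)]
  refine Finset.sum_congr rfl fun A _ => ?_
  rw [Finset.sum_congr rfl (g := fun _ => ψ A)
    (fun I hI => by rw [(Finset.mem_filter.mp hI).2]), Finset.sum_const, nsmul_eq_mul]
  congr 2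
  exact (Nat.subtype_card _ fun x => by rw [Finset.mem_filter, mem_idn]).symm

namespace QD

variable (h : QuadData K N w)
include h

/-- **Hecke recursion, weight one form** (`χ(r) = ±1`). -/
theorem hecke (ψ : ClassGroup (𝓞 K) →* B) {r : ℕ} (hr : r.Prime) (hrN : ¬ r ∣ N) (n : ℕ) :
    th ψ (r * n) + (chi N r : B) * (if r ∣ n then th ψ (n / r) else 0) = th ψ r * th ψ n := by
  have hr2 : ¬ r ∣ 2 * N := by
    intro h2
    rcases hr.dvd_mul.mp h2 with h3 | h3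
    · exact hrN (h3.trans h.even)
    · exact hrN h3
  rw [← tc_hecke h.N_pos (finrankQ h) h.sq h.exists_int hr hr2 (cg ψ) n,
    cg_span ψ (by exact_mod_cast hr.ne_zero : (r : 𝓞 K) ≠ 0), one_mul]

/-- **Hecke recursion in characteristic two**. -/
theorem hecke_two (ψ : ClassGroup (𝓞 K) →* B) (hB : (2 : B) = 0) {r : ℕ} (hr : r.Prime)
    (hrN : ¬ r ∣ N) (n : ℕ) :
    th ψ (r * n) + (if r ∣ n then th ψ (n / r) else 0) = th ψ r * th ψ n := by
  have hr2 : ¬ r ∣ 2 * N := by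
    intro h2
    rcases hr.dvd_mul.mp h2 with h3 | h3
    · exact hrN (h3.trans h.even)
    · exact hrN h3
  exact th_hecke_two h.N_pos (finrankQ h) h.sq h.exists_int hr hr2 ψ hB n

/-- inert primes -/
theorem inert (ψ : ClassGroup (𝓞 K) →* B) {q : ℕ} (hq : q.Prime)
    (hsq : ¬ IsSquare ((-(N : ℤ) : ℤ) : ZMod q)) (n : ℕ) :
    th ψ (q * n) = if q ∣ n then th ψ (n / q) else 0 :=
  th_inert (finrankQ h) h.sq hq hsq ψ n

/-- ramified primes: `U_v² Θ = Θ`. -/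
theorem ram (ψ : ClassGroup (𝓞 K) →* B) {v : ℕ} (hv : v.Prime) (hvN : v ∣ N) (n : ℕ) :
    th ψ (v * (v * n)) = th ψ n :=
  th_ram h.sqf (finrankQ h) h.sq hv hvN ψ n

/-- `U_2² Θ = Θ` -/
theorem four (ψ : ClassGroup (𝓞 K) →* B) (n : ℕ) : th ψ (4 * n) = th ψ n := by
  rw [← ram h ψ Nat.prime_two h.even n]
  congr 1
  ring

omit h in
theorem zero (ψ : ClassGroup (𝓞 K) →* B) : th ψ 0 = 0 := th_zero ψ

/-- coefficients at squarefree products of inert primes -/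
theorem squarefree (ψ : ClassGroup (𝓞 K) →* B) {d : ℕ} (hd : Squarefree d)
    (hq : ∀ q : ℕ, q.Prime → q ∣ d → ¬ IsSquare ((-(N : ℤ) : ℤ) : ZMod q)) :
    th ψ d = if d = 1 then 1 else 0 :=
  tc_squarefree (finrankQ h) h.sq (cg ψ) hd hq

/-- at a split prime: `t_r = ψ(𝔯) + ψ(𝔯)⁻¹`. -/
theorem split (ψ : ClassGroup (𝓞 K) →* B) {r : ℕ} (hr : r.Prime) (hrN : ¬ r ∣ N)
    (hsq : IsSquare ((-(N : ℤ) : ℤ) : ZMod r)) :
    ∃ P : (Ideal (𝓞 K))⁰, (P : Ideal (𝓞 K)).IsPrime ∧ absNorm (P : Ideal (𝓞 K)) = r ∧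
      th ψ r = ψ (ClassGroup.mk0 P) + ψ (ClassGroup.mk0 P)⁻¹ := by
  have hr2 : ¬ r ∣ 2 * N := by
    intro h2
    rcases hr.dvd_mul.mp h2 with h3 | h3
    · exact hrN (h3.trans h.even)
    · exact hrN h3
  exact th_split_prime h.N_pos (finrankQ h) h.sq h.exists_int hr hr2 hsq ψ

end QD

end Fermat.Agent.H22.Th
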