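import Mathlib

/-!
Lattice combinatorics for the products of binary theta series `θ_I(τ) θ_J(Qτ)`:
representation numbers of `a N_I(x) + b N_J(y)`, where `N_I(x) = N(x)/N(I)` for `x ∈ I`,
at inert primes and at the ramified prime `2`.
-/

set_option autoImplicit false

namespace Fermat.Agent.H80.Th

open Ideal

variable {S : Type*} [CommRing S] [IsDedekindDomain S] [Module.Free ℤ S] [Module.Finite ℤ S]

/-- The normalised norm `N(x)/N(I)` of an element `x` of the ideal `I`. -/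
noncomputable def nm (I : Ideal S) (x : S) : ℕ := absNorm (span {x}) / absNorm I

/-- The number of `(x, y) ∈ I × J` with `a N_I(x) + b N_J(y) = n`. -/
noncomputable def rth (I J : Ideal S) (a b n : ℕ) : ℕ :=
  Nat.card {p : I × J // a * nm I (p.1 : S) + b * nm J (p.2 : S) = n}

omit [Module.Finite ℤ S] in
theorem charZero_of_free : CharZero S := by
  have : IsAddTorsionFree S := .of_isTorsionFree ℤ _
  exact CharZero.of_isAddTorsionFree S S

theorem absNorm_ne_zero {I : Ideal S} (hI : I ≠ ⊥) : absNorm I ≠ 0 := by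
  rwa [Ne, absNorm_eq_zero_iff]

omit [Module.Free ℤ S] [Module.Finite ℤ S] in
theorem exists_eq_mul {I : Ideal S} {x : S} (hx : x ∈ I) : ∃ J : Ideal S, span {x} = I * J :=
  Ideal.dvd_iff_le.mpr ((span_singleton_le_iff_mem _).mpr hx)

theorem nm_eq_of_eq {I J : Ideal S} {x : S} (hI : I ≠ ⊥) (h : span {x} = I * J) :
    nm I x = absNorm J := by
  rw [nm, h, map_mul, Nat.mul_div_cancel_left _ (Nat.pos_of_ne_zero (absNorm_ne_zero hI))]

theorem exists_nm_eq {I : Ideal S} {x : S} (hI : I ≠ ⊥) (hx : x ∈ I) :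
    ∃ J : Ideal S, span {x} = I * J ∧ nm I x = absNorm J := by
  obtain ⟨J, hJ⟩ := exists_eq_mul hx
  exact ⟨J, hJ, nm_eq_of_eq hI hJ⟩

theorem nm_mul_absNorm {I : Ideal S} {x : S} (hI : I ≠ ⊥) (hx : x ∈ I) :
    nm I x * absNorm I = absNorm (span {x}) := by
  obtain ⟨J, hJ, h⟩ := exists_nm_eq hI hx
  rw [h, hJ, map_mul, mul_comm]

theorem nm_eq_zero_iff {I : Ideal S} {x : S} (hI : I ≠ ⊥) (hx : x ∈ I) :
    nm I x = 0 ↔ x = 0 := by
  have h := nm_mul_absNorm hI hx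
  constructor
  · intro h0
    rw [h0, zero_mul, eq_comm, absNorm_eq_zero_iff, span_singleton_eq_bot] at h
    exact h
  · rintro rfl
    simp [nm]

theorem nm_smul {I : Ideal S} {x : S} (hI : I ≠ ⊥) (hx : x ∈ I) (hrk : Module.finrank ℤ S = 2)
    (c : ℕ) : nm I ((c : S) * x) = c ^ 2 * nm I x := by
  obtain ⟨J, hJ, h⟩ := exists_nm_eq hI hx
  have h2 : span {(c : S) * x} = I * (span {(c : S)} * J) := by
    rw [← span_singleton_mul_span_singleton, hJ]
    ring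
  rw [nm_eq_of_eq hI h2, map_mul, absNorm_span_natCast, hrk, h]

/-- Any prime `q` dividing the norm of an ideal `J`, `(q)` prime: `(q)` divides `J`. -/
theorem span_dvd_of_dvd_absNorm {q : ℕ} (hq : q.Prime) (hqP : (span {(q : S)}).IsPrime)
    {J : Ideal S} (h : q ∣ absNorm J) : span {(q : S)} ∣ J := by
  obtain ⟨P, hPm, hPu, hPJ⟩ := Ideal.exists_isMaximal_dvd_of_dvd_absNorm' hq J h
  have := charZero_of_free (S := S)
  have hqmem : (q : S) ∈ P := by
    have h1 : (q : ℤ) ∈ P.under ℤ := by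
      rw [hPu]; exact mem_span_singleton_self _
    have h2 := Ideal.mem_comap.mp h1
    simpa using h2
  have hne : span {(q : S)} ≠ ⊥ := by
    rw [Ne, span_singleton_eq_bot]
    exact_mod_cast hq.ne_zero
  have hmax : (span {(q : S)}).IsMaximal := hqP.isMaximal hne
  have heq : span {(q : S)} = P :=
    hmax.eq_of_le hPm.ne_top ((span_singleton_le_iff_mem _).mpr hqmem)
  rw [heq]
  exact hPJ

omit [IsDedekindDomain S] [Module.Free ℤ S] [Module.Finite ℤ S] in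
theorem exists_mem_of_dvd {c : S} {I J : Ideal S} {x : S}
    (hJ : span {x} = I * J) (h : span {c} ∣ J) : ∃ y ∈ I, c * y = x := by
  obtain ⟨J', rfl⟩ := h
  have hx : x ∈ span {c} * I := by
    have h1 : x ∈ span {x} := mem_span_singleton_self x
    rw [hJ] at h1
    have h3 : I * (span {c} * J') = (span {c} * I) * J' := by ring
    rw [h3] at h1
    exact Ideal.mul_le_left h1
  exact Ideal.mem_span_singleton_mul.mp hx

/-- (b) for a prime `q` that is inert: `q ∣ N_I(x)` implies `x ∈ q I`. -/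
theorem exists_mem_of_dvd_nm {q : ℕ} (hq : q.Prime) (hqP : (span {(q : S)}).IsPrime)
    {I : Ideal S} (hI : I ≠ ⊥) {x : S} (hx : x ∈ I) (h : q ∣ nm I x) :
    ∃ y ∈ I, (q : S) * y = x := by
  obtain ⟨J, hJ, hn⟩ := exists_nm_eq hI hx
  rw [hn] at h
  exact exists_mem_of_dvd hJ (span_dvd_of_dvd_absNorm hq hqP h)

/-- the scaling bijection behind all the identities -/
theorem rth_scale_left {I J : Ideal S} (hI : I ≠ ⊥) (hrk : Module.finrank ℤ S = 2)
    {q : ℕ} (hq : 0 < q) {a b n a' b' n' : ℕ}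
    (hdvd : ∀ x ∈ I, ∀ y ∈ J, a * nm I x + b * nm J y = n → ∃ x' ∈ I, (q : S) * x' = x)
    (heq : ∀ x y : ℕ, a * (q ^ 2 * x) + b * y = n ↔ a' * x + b' * y = n') :
    rth I J a b n = rth I J a' b' n' := by
  have := charZero_of_free (S := S)
  have hq0 : (q : S) ≠ 0 := by exact_mod_cast hq.ne'
  unfold rth
  symm
  refine Nat.card_congr (Equiv.ofBijective
    (fun p => ⟨(⟨(q : S) * (p.1.1 : S), I.mul_mem_left _ p.1.1.2⟩, p.1.2), ?_⟩) ⟨?_, ?_⟩)
  · have h := p.2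
    simp only [nm_smul hI p.1.1.2 hrk]
    exact (heq _ _).mpr h
  · rintro ⟨⟨x, y⟩, h⟩ ⟨⟨x', y'⟩, h'⟩ hxy
    simp only [Subtype.mk.injEq, Prod.mk.injEq] at hxy
    have h1 := mul_left_cancel₀ hq0 hxy.1
    have h2 := hxy.2
    have h3 : x = x' := Subtype.ext h1
    subst h3; subst h2; rfl
  · rintro ⟨⟨⟨x, hx⟩, ⟨y, hy⟩⟩, h⟩
    obtain ⟨x', hx', rfl⟩ := hdvd x hx y hy h
    refine ⟨⟨(⟨x', hx'⟩, ⟨y, hy⟩), ?_⟩, rfl⟩
    refine (heq _ _).mp ?_
    rw [← nm_smul hI hx' hrk]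
    exact h

omit [Module.Finite ℤ S] in
/-- symmetry -/
theorem rth_comm (I J : Ideal S) (a b n : ℕ) : rth I J a b n = rth J I b a n := by
  unfold rth
  refine Nat.card_congr ((Equiv.prodComm I J).subtypeEquiv ?_)
  rintro ⟨x, y⟩
  simp only [Equiv.prodComm_apply, Prod.swap_prod_mk]
  rw [add_comm]

/-- `U_q` for `q` inert, `q ∤ a`: `r_{a, qb}(q n) = r_{qa, b}(n)`. -/
theorem rth_inert_left {I J : Ideal S} (hI : I ≠ ⊥) (hrk : Module.finrank ℤ S = 2)
    {q : ℕ} (hq : q.Prime) (hqP : (span {(q : S)}).IsPrime) {a : ℕ} (ha : ¬ q ∣ a) (b n : ℕ) :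
    rth I J a (q * b) (q * n) = rth I J (q * a) b n := by
  refine rth_scale_left hI hrk hq.pos ?_ ?_
  · intro x hx y hy h
    refine exists_mem_of_dvd_nm hq hqP hI hx ?_
    have h1 : q ∣ a * nm I x := by
      have h2 : q ∣ a * nm I x + q * b * nm J y := h ▸ Dvd.intro _ rfl
      exact (Nat.dvd_add_left (by rw [mul_assoc]; exact Dvd.intro _ rfl)).mp h2
    exact (hq.dvd_mul.mp h1).resolve_left ha
  · intro x y
    have h1 : a * (q ^ 2 * x) + q * b * y = q * (q * a * x + b * y) := by ring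
    rw [h1]
    exact Nat.mul_right_inj hq.ne_zero

/-- `U_q` for `q` inert, `q ∤ b`: `r_{qa, b}(q n) = r_{a, qb}(n)`. -/
theorem rth_inert_right {I J : Ideal S} (hJ : J ≠ ⊥) (hrk : Module.finrank ℤ S = 2)
    {q : ℕ} (hq : q.Prime) (hqP : (span {(q : S)}).IsPrime) (a : ℕ) {b : ℕ} (hb : ¬ q ∣ b) (n : ℕ) :
    rth I J (q * a) b (q * n) = rth I J a (q * b) n := by
  rw [rth_comm, rth_inert_left hJ hrk hq hqP hb, rth_comm]

/-- (b): `U_q ^ 2 = 1` on `θ_I(τ) θ_J(q b τ)`, for `q` inert, `q ∤ a b`. -/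
theorem rth_inert_sq {I J : Ideal S} (hI : I ≠ ⊥) (hJ : J ≠ ⊥) (hrk : Module.finrank ℤ S = 2)
    {q : ℕ} (hq : q.Prime) (hqP : (span {(q : S)}).IsPrime) {a b : ℕ} (ha : ¬ q ∣ a)
    (hb : ¬ q ∣ b) (n : ℕ) :
    rth I J a (q * b) (q ^ 2 * n) = rth I J a (q * b) n := by
  have h1 : q ^ 2 * n = q * (q * n) := by ring
  rw [h1, rth_inert_left hI hrk hq hqP ha, rth_inert_right hJ hrk hq hqP a hb]

/-- Same with `Q = q b`. -/
theorem rth_inert_sq' {I J : Ideal S} (hI : I ≠ ⊥) (hJ : J ≠ ⊥) (hrk : Module.finrank ℤ S = 2)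
    {q : ℕ} (hq : q.Prime) (hqP : (span {(q : S)}).IsPrime) {Q : ℕ} (h1 : q ∣ Q)
    (h2 : ¬ q ^ 2 ∣ Q) (n : ℕ) :
    rth I J 1 Q (q ^ 2 * n) = rth I J 1 Q n := by
  obtain ⟨b, rfl⟩ := h1
  refine rth_inert_sq hI hJ hrk hq hqP (fun h => hq.one_lt.ne' (Nat.dvd_one.mp h)) ?_ n
  intro h
  exact h2 (by rw [pow_two]; exact Nat.mul_dvd_mul_left q h)

/-- `U_q` for `q` inert, `q ∥ Q`. -/
theorem rth_inert_Uq {I J : Ideal S} (hI : I ≠ ⊥) (hrk : Module.finrank ℤ S = 2)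
    {q : ℕ} (hq : q.Prime) (hqP : (span {(q : S)}).IsPrime) {Q : ℕ} (h1 : q ∣ Q) (n : ℕ) :
    rth I J 1 Q (q * n) = rth I J q (Q / q) n := by
  obtain ⟨b, rfl⟩ := h1
  rw [Nat.mul_div_cancel_left _ hq.pos,
    rth_inert_left hI hrk hq hqP (fun h => hq.one_lt.ne' (Nat.dvd_one.mp h)), mul_one]

/-! ### The prime `2` -/

/-- If `(2) = 𝔭²` and `4 ∣ N_I(x)` then `x ∈ 2 I`. -/
theorem exists_mem_of_four_dvd_nm {p2 : Ideal S} (hp2 : p2 ^ 2 = span {(2 : S)})
    (hrk : Module.finrank ℤ S = 2)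
    {I : Ideal S} (hI : I ≠ ⊥) {x : S} (hx : x ∈ I) (h : 4 ∣ nm I x) :
    ∃ y ∈ I, (2 : S) * y = x := by
  have := charZero_of_free (S := S)
  obtain ⟨J, hJ, hn⟩ := exists_nm_eq hI hx
  rw [hn] at h
  have hN2 : absNorm p2 = 2 := by
    have h1 : absNorm (span {((2 : ℕ) : S)}) = 2 ^ 2 := by
      rw [absNorm_span_natCast, hrk]
    rw [Nat.cast_ofNat, ← hp2, map_pow] at h1
    exact Nat.pow_left_injective (n := 2) (by norm_num) h1
  have hp2P : p2.IsPrime := isPrime_of_irreducible_absNorm (by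
    rw [hN2]; exact Nat.prime_two)
  have hp2ne : p2 ≠ ⊥ := by
    rintro rfl
    simp at hN2
  have hp2M : p2.IsMaximal := hp2P.isMaximal hp2ne
  have key : ∀ J : Ideal S, 2 ∣ absNorm J → p2 ∣ J := by
    intro J hJ2
    obtain ⟨P, hPm, hPu, hPJ⟩ := Ideal.exists_isMaximal_dvd_of_dvd_absNorm' Nat.prime_two J hJ2
    have h2mem : (2 : S) ∈ P := by
      have h1 : ((2 : ℕ) : ℤ) ∈ P.under ℤ := by
        rw [hPu]; exact mem_span_singleton_self _
      have h2 := Ideal.mem_comap.mp h1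
      simpa using h2
    have h3 : p2 ≤ P := by
      have h4 : p2 ^ 2 ≤ P := by
        rw [hp2]; exact (span_singleton_le_iff_mem _).mpr h2mem
      exact hPm.isPrime.le_of_pow_le h4
    rw [hp2M.eq_of_le hPm.ne_top h3]
    exact hPJ
  obtain ⟨J1, rfl⟩ := key J (dvd_trans (by norm_num) h)
  rw [map_mul, hN2] at h
  have h5 : 2 ∣ absNorm J1 := by omega
  obtain ⟨J2, rfl⟩ := key J1 h5
  refine exists_mem_of_dvd hJ ?_
  rw [← hp2]
  exact ⟨J2, by ring⟩

theorem four_dvd_nm {I : Ideal S} (hI : I ≠ ⊥) (hrk : Module.finrank ℤ S = 2) {x : S}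
    (hx : x ∈ I) (h : ∃ y ∈ I, (2 : S) * y = x) : 4 ∣ nm I x := by
  obtain ⟨y, hy, rfl⟩ := h
  have h1 := nm_smul hI hy hrk 2
  rw [Nat.cast_ofNat] at h1
  rw [h1]
  exact ⟨_, rfl⟩

/-- elementary descent: `e T² = u² + N v²`, `e` odd, `N ≡ 2 mod 4` forces `e ≡ 1, 1+N mod 8`. -/
theorem mod_eight_of_norm {N : ℤ} (hN : N % 4 = 2) {e : ℤ} (he : e % 2 = 1) :
    ∀ (n : ℕ) (T u v : ℤ), T.natAbs = n → T ≠ 0 → e * T ^ 2 = u ^ 2 + N * v ^ 2 →
      e % 8 = 1 ∨ e % 8 = (1 + N) % 8 := by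
  intro n
  induction n using Nat.strong_induction_on with
  | _ n ih =>
    intro T u v hTn hT h
    rcases Int.even_or_odd T with hTe | hTo
    · obtain ⟨T', rfl⟩ := hTe.two_dvd
      have hu : Even u := by
        by_contra hu
        rw [Int.not_even_iff_odd] at hu
        obtain ⟨u', rfl⟩ := hu
        obtain ⟨N', hN'⟩ : ∃ N', N = 2 * N' := ⟨N / 2, by omega⟩
        rw [hN'] at h
        have : (2 * (2 * e * T' ^ 2) : ℤ) = 2 * (2 * u' ^ 2 + 2 * u' + N' * v ^ 2) + 1 := by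
          linear_combination h
        omega
      obtain ⟨u', rfl⟩ := hu.two_dvd
      have hv : Even v := by
        by_contra hv
        rw [Int.not_even_iff_odd] at hv
        obtain ⟨v', rfl⟩ := hv
        obtain ⟨N', hN'⟩ : ∃ N', N = 4 * N' + 2 := ⟨N / 4, by omega⟩
        rw [hN'] at h
        have : (4 * (e * T' ^ 2) : ℤ) =
            4 * (u' ^ 2 + (4 * N' + 2) * (v' ^ 2 + v') + N') + 2 := by
          linear_combination h
        omega
      obtain ⟨v', rfl⟩ := hv.two_dvd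
      have hT' : T' ≠ 0 := by rintro rfl; simp at hT
      refine ih T'.natAbs ?_ T' u' v' rfl hT' ?_
      · rw [← hTn, Int.natAbs_mul]
        have := Int.natAbs_pos.mpr hT'
        simp only [Int.reduceAbs]
        omega
      · have h4 : (4 : ℤ) * (e * T' ^ 2) = 4 * (u' ^ 2 + N * v' ^ 2) := by linear_combination h
        exact mul_left_cancel₀ (by norm_num) h4
    · obtain ⟨t, rfl⟩ := hTo
      obtain ⟨N', hN'⟩ : ∃ N', N = 4 * N' + 2 := ⟨N / 4, by omega⟩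
      have hu : Odd u := by
        by_contra hu
        rw [Int.not_odd_iff_even] at hu
        obtain ⟨u', rfl⟩ := hu.two_dvd
        obtain ⟨e', he'⟩ : ∃ e', e = 2 * e' + 1 := ⟨e / 2, by omega⟩
        rw [hN', he'] at h
        have : (2 * ((2 * e' + 1) * (2 * t ^ 2 + 2 * t) + e') + 1 : ℤ) =
            2 * (2 * u' ^ 2 + (2 * N' + 1) * v ^ 2) := by
          linear_combination h
        omega
      obtain ⟨u', rfl⟩ := hu
      obtain ⟨t', ht'⟩ : ∃ t', t ^ 2 + t = 2 * t' := by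
        have := Int.even_mul_succ_self t
        obtain ⟨r, hr⟩ := this
        exact ⟨r, by linear_combination hr⟩
      obtain ⟨u'', hu''⟩ : ∃ t', u' ^ 2 + u' = 2 * t' := by
        have := Int.even_mul_succ_self u'
        obtain ⟨r, hr⟩ := this
        exact ⟨r, by linear_combination hr⟩
      rcases Int.even_or_odd v with hv | hv
      · obtain ⟨v', rfl⟩ := hv.two_dvd
        left
        rw [hN'] at h
        have h8 : e + 8 * (e * t') = 8 * (u'' + 2 * N' * v' ^ 2 + v' ^ 2) + 1 := by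
          linear_combination h - 4 * e * ht' + 4 * hu''
        omega
      · obtain ⟨v', rfl⟩ := hv
        obtain ⟨v'', hv''⟩ : ∃ t', v' ^ 2 + v' = 2 * t' := by
          have := Int.even_mul_succ_self v'
          obtain ⟨r, hr⟩ := this
          exact ⟨r, by linear_combination hr⟩
        right
        have h8 : e + 8 * (e * t') = 8 * (u'' + N * v'') + 1 + N := by
          linear_combination h - 4 * e * ht' + 4 * hu'' + 4 * N * hv''
        omega

/-- (c), the congruence: the only solutions of `N_I(x) + Q N_J(y) ≡ 0 mod 16` are in `2I × 2J`. -/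
theorem four_dvd_of_sixteen_dvd {N : ℕ} (hN : N % 4 = 2)
    (hnorm : ∀ z : S, ∃ u v : ℤ, (absNorm (span {z}) : ℤ) = u ^ 2 + N * v ^ 2)
    {I J B : Ideal S} (hI : I ≠ ⊥) (hJ : J ≠ ⊥) (hB : Odd (absNorm B))
    (hcls : ∃ c d : S, c ≠ 0 ∧ d ≠ 0 ∧ span {c} * J = span {d} * (I * B))
    {Q : ℕ} (hQo : Odd Q) (hQ1 : (-(Q * absNorm B : ℤ)) % 8 ≠ 1)
    (hQN : (-(Q * absNorm B : ℤ)) % 8 ≠ (1 + N) % 8)
    {x y : S} (hx : x ∈ I) (hy : y ∈ J) (h16 : 16 ∣ nm I x + Q * nm J y) :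
    4 ∣ nm I x ∧ 4 ∣ nm J y := by
  obtain ⟨I', hI', hn1⟩ := exists_nm_eq hI hx
  obtain ⟨J', hJ', hn2⟩ := exists_nm_eq hJ hy
  obtain ⟨c, d, hc, hd, hcd⟩ := hcls
  set n1 := nm I x with hn1def
  set n2 := nm J y with hn2def
  have hNI := absNorm_ne_zero hI
  have hNd : absNorm (span {d}) ≠ 0 := absNorm_ne_zero (by rwa [Ne, span_singleton_eq_bot])
  -- the norm identity
  have hid : span {x * y * (c * d)} =
      (I ^ 2 * (span {d}) ^ 2) * (I' * J' * B) := by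
    rw [← span_singleton_mul_span_singleton, ← span_singleton_mul_span_singleton,
      ← span_singleton_mul_span_singleton, hI', hJ']
    calc I * I' * (J * J') * (span {c} * span {d})
        = I * I' * J' * span {d} * (span {c} * J) := by ring
      _ = I * I' * J' * span {d} * (span {d} * (I * B)) := by rw [hcd]
      _ = _ := by ring
  obtain ⟨u, v, huv⟩ := hnorm (x * y * (c * d))
  rw [hid] at huv
  simp only [map_mul, map_pow, ← hn1, ← hn2] at huv
  push_cast at huv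
  -- the case distinction
  by_contra hcon
  obtain ⟨b, hb⟩ := hB
  obtain ⟨k, hk⟩ := h16
  obtain ⟨r, hr⟩ := hQo
  have hT : (absNorm I : ℤ) * (absNorm (span {d}) : ℤ) ≠ 0 := by
    exact_mod_cast mul_ne_zero hNI hNd
  have hmain : ∀ (w : ℕ) (m1 m2 : ℤ), (n1 : ℤ) = 2 ^ w * m1 → (n2 : ℤ) = 2 ^ w * m2 →
      m1 % 2 = 1 → m2 % 2 = 1 → (∃ j, m1 + Q * m2 = 8 * j) → False := by
    intro w m1 m2 h1 h2 ho1 ho2 ⟨j, hj⟩
    have h3 : (m1 * m2 * (absNorm B : ℤ)) *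
        (2 ^ w * ((absNorm I : ℤ) * (absNorm (span {d}) : ℤ))) ^ 2 = u ^ 2 + N * v ^ 2 := by
      rw [← huv, h1, h2]; ring
    have hodd : (m1 * m2 * (absNorm B : ℤ)) % 2 = 1 := by
      have e1 : m1 * m2 % 2 = 1 := by
        rw [Int.mul_emod, ho1, ho2]; rfl
      rw [Int.mul_emod, e1, hb]; push_cast; omega
    have h4 := mod_eight_of_norm (N := N) (by omega) hodd _ _ u v rfl
      (mul_ne_zero (pow_ne_zero _ (by norm_num)) hT) h3
    -- `m1 m2 N(B) ≡ -Q N(B) mod 8`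
    have h5 : (m1 * m2 * (absNorm B : ℤ)) % 8 = (-(Q * absNorm B : ℤ)) % 8 := by
      obtain ⟨t, ht⟩ : ∃ t, m2 = 2 * t + 1 := ⟨m2 / 2, by omega⟩
      obtain ⟨t', ht'⟩ : ∃ t', t ^ 2 + t = 2 * t' := by
        have := Int.even_mul_succ_self t
        obtain ⟨r, hr⟩ := this
        exact ⟨r, by linear_combination hr⟩
      apply Int.emod_emod_of_dvd _ (dvd_refl (8 : ℤ)) |>.symm.trans
      rw [Int.emod_emod_of_dvd _ (dvd_refl (8 : ℤ))]
      refine Int.emod_eq_emod_iff_emod_sub_eq_zero.mpr ?_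
      refine Int.emod_eq_zero_of_dvd ⟨(j * m2 - Q * t') * (absNorm B : ℤ), ?_⟩
      have hm1 : m1 = 8 * j - Q * m2 := by linear_combination hj
      rw [hm1, ht]
      linear_combination (-4 * (Q : ℤ) * (absNorm B : ℤ)) * ht'
    rw [h5] at h4
    exact h4.elim hQ1 hQN
  rcases Nat.even_or_odd n1 with h1 | h1
  · -- both even
    obtain ⟨m1, hm1⟩ := h1.two_dvd
    have h2 : Even n2 := by
      by_contra h2
      rw [Nat.not_even_iff_odd] at h2
      obtain ⟨s, hs⟩ := h2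
      have : n1 + Q * n2 = 2 * (m1 + r * (2 * s + 1) + s) + 1 := by
        rw [hm1, hr, hs]; ring
      omega
    obtain ⟨m2, hm2⟩ := h2.two_dvd
    have hsum : m1 + Q * m2 = 8 * k := by
      have : 2 * (m1 + Q * m2) = 2 * (8 * k) := by
        rw [hm1, hm2] at hk; linarith
      omega
    have hm2o : m2 % 2 = 1 := by
      by_contra hcon2
      have hm2e : m2 % 2 = 0 := by omega
      obtain ⟨s, hs⟩ : ∃ s, m2 = 2 * s := ⟨m2 / 2, by omega⟩
      have hm1e : 2 ∣ m1 := by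
        have : m1 + 2 * (Q * s) = 8 * k := by rw [← hsum, hs]; ring
        omega
      exact hcon ⟨by omega, by omega⟩
    have hm1o : m1 % 2 = 1 := by
      obtain ⟨s, hs⟩ : ∃ s, m2 = 2 * s + 1 := ⟨m2 / 2, by omega⟩
      have : m1 + (2 * (r * (2 * s + 1) + s) + 1) = 8 * k := by rw [← hsum, hs, hr]; ring
      omega
    exact hmain 1 m1 m2 (by rw [hm1]; push_cast; ring) (by rw [hm2]; push_cast; ring)
      (by omega) (by omega) ⟨k, by exact_mod_cast hsum⟩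
  · -- both odd
    obtain ⟨m1, hm1⟩ := h1
    have h2 : n2 % 2 = 1 := by
      by_contra hcon2
      obtain ⟨s, hs⟩ : ∃ s, n2 = 2 * s := ⟨n2 / 2, by omega⟩
      have : n1 + Q * n2 = 2 * (m1 + Q * s) + 1 := by rw [hm1, hs]; ring
      omega
    refine hmain 0 n1 n2 (by ring) (by ring) (by omega) (by omega) ⟨2 * k, ?_⟩
    have : (n1 : ℤ) + Q * n2 = 16 * k := by exact_mod_cast hk
    linarith

/-- (c), representation numbers: `r(16 n) = r(4 n)`. -/
theorem rth_sixteen {N : ℕ} (hN : N % 4 = 2) (hrk : Module.finrank ℤ S = 2)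
    (hnorm : ∀ z : S, ∃ u v : ℤ, (absNorm (span {z}) : ℤ) = u ^ 2 + N * v ^ 2)
    {p2 : Ideal S} (hp2 : p2 ^ 2 = span {(2 : S)})
    {I J B : Ideal S} (hI : I ≠ ⊥) (hJ : J ≠ ⊥) (hB : Odd (absNorm B))
    (hcls : ∃ c d : S, c ≠ 0 ∧ d ≠ 0 ∧ span {c} * J = span {d} * (I * B))
    {Q : ℕ} (hQo : Odd Q) (hQ1 : (-(Q * absNorm B : ℤ)) % 8 ≠ 1)
    (hQN : (-(Q * absNorm B : ℤ)) % 8 ≠ (1 + N) % 8) (n : ℕ) :
    rth I J 1 Q (16 * n) = rth I J 1 Q (4 * n) := by
  have := charZero_of_free (S := S)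
  have h20 : (2 : S) ≠ 0 := by exact_mod_cast (two_ne_zero : (2 : S) ≠ 0)
  unfold rth
  symm
  have hs : ∀ (K : Ideal S) (hK : K ≠ ⊥) (x : S) (hx : x ∈ K), nm K (2 * x) = 4 * nm K x := by
    intro K hK x hx
    have := nm_smul hK hx hrk 2
    rw [Nat.cast_ofNat] at this
    rw [this]; norm_num
  refine Nat.card_congr (Equiv.ofBijective
    (fun p => ⟨(⟨(2 : S) * (p.1.1 : S), I.mul_mem_left _ p.1.1.2⟩,
      ⟨(2 : S) * (p.1.2 : S), J.mul_mem_left _ p.1.2.2⟩), ?_⟩) ⟨?_, ?_⟩)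
  · have h := p.2
    simp only [hs I hI _ p.1.1.2, hs J hJ _ p.1.2.2]
    linarith
  · rintro ⟨⟨x, y⟩, h⟩ ⟨⟨x', y'⟩, h'⟩ hxy
    simp only [Subtype.mk.injEq, Prod.mk.injEq] at hxy
    have h1 : x = x' := Subtype.ext (mul_left_cancel₀ h20 hxy.1)
    have h2 : y = y' := Subtype.ext (mul_left_cancel₀ h20 hxy.2)
    subst h1; subst h2; rfl
  · rintro ⟨⟨⟨x, hx⟩, ⟨y, hy⟩⟩, h⟩
    have h' : 1 * nm I x + Q * nm J y = 16 * n := h
    have h4 := four_dvd_of_sixteen_dvd hN hnorm hI hJ hB hcls hQo hQ1 hQN hx hy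
      ⟨n, by rw [← h', one_mul]⟩
    obtain ⟨x', hx', rfl⟩ := exists_mem_of_four_dvd_nm hp2 hrk hI hx h4.1
    obtain ⟨y', hy', rfl⟩ := exists_mem_of_four_dvd_nm hp2 hrk hJ hy h4.2
    refine ⟨⟨(⟨x', hx'⟩, ⟨y', hy'⟩), ?_⟩, rfl⟩
    show 1 * nm I x' + Q * nm J y' = 4 * n
    rw [hs I hI _ hx', hs J hJ _ hy'] at h'
    linarith

end Fermat.Agent.H80.Th
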