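import Fermat.Agent.H63LTQuad
import Fermat.Agent.H80ThLat

/-!
Facts on the ring of integers `ℤ[w]`, `w² = -N`, `N` even squarefree: rank, norm form, the
ramified prime above `2`, inert primes, units.
-/

set_option autoImplicit false

open NumberField Ideal

namespace Fermat.Agent.H80.Th

variable {K : Type*} [Field K] [NumberField K] {N : ℕ} {w : 𝓞 K}

open Fermat.Agent.H63.LT

section

variable (h : QuadData K N w)
include h

theorem finrank_int : Module.finrank ℤ (𝓞 K) = 2 := by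
  rw [RingOfIntegers.rank, h.finrank]

theorem N_mod_four : N % 4 = 2 := by
  obtain ⟨m, hm⟩ := h.even
  by_contra hcon
  have : 2 ∣ m := Nat.dvd_of_mod_eq_zero (by omega)
  obtain ⟨m', rfl⟩ := this
  have h6 := h.sqf 2 ⟨m', by rw [hm]; ring⟩
  exact absurd (Nat.isUnit_iff.1 h6) (by norm_num)

theorem coord_unique {a b a' b' : ℤ} (hab : (a : 𝓞 K) + b * w = a' + b' * w) :
    a = a' ∧ b = b' := by
  have h1 : ((b - b' : ℤ) : 𝓞 K) * w = ((a' - a : ℤ) : 𝓞 K) := by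
    push_cast; linear_combination hab
  have hb : b = b' := by
    by_contra hne
    have hne' : ((b - b' : ℤ) : K) ≠ 0 := by
      exact_mod_cast sub_ne_zero.mpr hne
    apply h.w_notMem (((a' - a : ℤ) : ℚ) / ((b - b' : ℤ) : ℚ))
    have h2 := congrArg (fun x : 𝓞 K => (x : K)) h1
    simp only [map_mul, map_intCast] at h2
    rw [map_div₀, map_intCast, map_intCast, eq_div_iff hne', mul_comm]
    exact h2
  subst hb
  refine ⟨?_, rfl⟩
  have h2 : (a : 𝓞 K) = a' := by linear_combination hab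
  exact_mod_cast h2

/-- the basis `1, w` -/
theorem exists_basis : ∃ b : Module.Basis (Fin 2) ℤ (𝓞 K), b 0 = 1 ∧ b 1 = w := by
  have hli : LinearIndependent ℤ ![(1 : 𝓞 K), w] := by
    rw [LinearIndependent.pair_iff]
    intro s t hst
    refine coord_unique h (a' := 0) (b' := 0) ?_
    simpa [zsmul_eq_mul] using hst
  have hsp : ⊤ ≤ Submodule.span ℤ (Set.range ![(1 : 𝓞 K), w]) := by
    intro x _
    obtain ⟨a, b, rfl⟩ := h.exists_int x
    refine Submodule.add_mem _ ?_ ?_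
    · have : (a : 𝓞 K) = a • (1 : 𝓞 K) := by simp
      rw [this]
      exact Submodule.smul_mem _ _ (Submodule.subset_span ⟨0, rfl⟩)
    · have : (b : 𝓞 K) * w = b • w := by simp
      rw [this]
      exact Submodule.smul_mem _ _ (Submodule.subset_span ⟨1, rfl⟩)
  refine ⟨Module.Basis.mk hli hsp, ?_, ?_⟩
  · rw [Module.Basis.mk_apply]; rfl
  · rw [Module.Basis.mk_apply]; rfl

theorem norm_int (a b : ℤ) :
    Algebra.norm ℤ ((a : 𝓞 K) + b * w) = a ^ 2 + N * b ^ 2 := by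
  obtain ⟨B, hB0, hB1⟩ := exists_basis h
  rw [Algebra.norm_eq_matrix_det B, Matrix.det_fin_two]
  have hw := h.sq
  have hr : ∀ (x y : ℤ), B.repr ((x : 𝓞 K) + y * w) 0 = x ∧ B.repr ((x : 𝓞 K) + y * w) 1 = y := by
    intro x y
    have : (x : 𝓞 K) + y * w = x • B 0 + y • B 1 := by
      rw [hB0, hB1]; simp
    rw [this, map_add, map_smul, map_smul, B.repr_self, B.repr_self]
    constructor
    · simp
    · simp
  simp only [Algebra.leftMulMatrix_eq_repr_mul, hB0, hB1, mul_one]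
  have e1 : ((a : 𝓞 K) + b * w) * w = ((-(N * b) : ℤ) : 𝓞 K) + (a : ℤ) * w := by
    push_cast; linear_combination (b : 𝓞 K) * hw
  rw [e1, (hr a b).1, (hr a b).2, (hr _ _).1, (hr _ _).2]
  ring

theorem absNorm_int (a b : ℤ) :
    (absNorm (span {(a : 𝓞 K) + b * w}) : ℤ) = a ^ 2 + N * b ^ 2 := by
  rw [absNorm_span_singleton, norm_int h, Int.natCast_natAbs, abs_of_nonneg (by positivity)]

theorem exists_absNorm_eq (z : 𝓞 K) :
    ∃ u v : ℤ, (absNorm (span {z}) : ℤ) = u ^ 2 + N * v ^ 2 := by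
  obtain ⟨a, b, rfl⟩ := h.exists_int z
  exact ⟨a, b, absNorm_int h a b⟩

/-- The prime above `2`. -/
theorem p2_sq : (span {(2 : 𝓞 K), w}) ^ 2 = span {(2 : 𝓞 K)} := by
  have hN := N_mod_four h
  obtain ⟨m, hm⟩ : ∃ m, N = 4 * m + 2 := ⟨N / 4, by omega⟩
  have hw := h.sq
  rw [pow_two, Ideal.span_pair_mul_span_pair]
  apply le_antisymm
  · rw [span_le]
    rintro x hx
    simp only [Set.mem_insert_iff, Set.mem_singleton_iff] at hx
    rw [SetLike.mem_coe, mem_span_singleton]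
    rcases hx with rfl | rfl | rfl | rfl
    · exact ⟨2, rfl⟩
    · exact ⟨w, rfl⟩
    · exact ⟨w, by ring⟩
    · refine ⟨-(2 * m + 1), ?_⟩
      rw [← pow_two, hw, hm]; push_cast; ring
  · rw [span_singleton_le_iff_mem]
    have h2 : (2 : 𝓞 K) = -(w * w) - (m : 𝓞 K) * (2 * 2) := by
      rw [← pow_two, hw, hm]; push_cast; ring
    have h3 : -(w * w) - (m : 𝓞 K) * (2 * 2) ∈
        span {(2 : 𝓞 K) * 2, 2 * w, w * 2, w * w} := by
      refine Ideal.sub_mem _ (neg_mem (Ideal.subset_span ?_))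
        (Ideal.mul_mem_left _ _ (Ideal.subset_span ?_))
      · simp
      · simp
    rw [← h2] at h3
    exact h3

/-- inert primes -/
theorem isPrime_of_not_isSquare {q : ℕ} (hq : q.Prime) (hns : ¬ IsSquare ((-(N : ℤ) : ℤ) : ZMod q)) :
    (span {(q : 𝓞 K)}).IsPrime := by
  have : Fact q.Prime := ⟨hq⟩
  have hq0 : (q : 𝓞 K) ≠ 0 := by exact_mod_cast hq.ne_zero
  have hnu : ¬ IsUnit (q : 𝓞 K) := by
    intro hu
    have h1 : absNorm (span {(q : 𝓞 K)}) = 1 := by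
      rw [absNorm_eq_one_iff, span_singleton_eq_top]; exact hu
    rw [absNorm_span_natCast, finrank_int h] at h1
    have := hq.one_lt
    nlinarith
  have key : ∀ a b : ℤ, (q : ℤ) ∣ a ^ 2 + N * b ^ 2 → (q : 𝓞 K) ∣ (a : 𝓞 K) + b * w := by
    intro a b hd
    have h0 : ((a : ZMod q)) ^ 2 + N * (b : ZMod q) ^ 2 = 0 := by
      have := (ZMod.intCast_zmod_eq_zero_iff_dvd _ q).mpr hd
      push_cast at this
      exact this
    have hb : (b : ZMod q) = 0 := by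
      by_contra hb
      apply hns
      refine ⟨(a : ZMod q) / b, ?_⟩
      field_simp
      push_cast
      linear_combination -h0
    have ha : (a : ZMod q) = 0 := by
      rw [hb] at h0
      have : (a : ZMod q) ^ 2 = 0 := by linear_combination h0
      exact pow_eq_zero_iff (two_ne_zero) |>.mp this
    obtain ⟨a', rfl⟩ := (ZMod.intCast_zmod_eq_zero_iff_dvd _ q).mp ha
    obtain ⟨b', rfl⟩ := (ZMod.intCast_zmod_eq_zero_iff_dvd _ q).mp hb
    exact ⟨(a' : 𝓞 K) + b' * w, by push_cast; ring⟩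
  rw [span_singleton_prime hq0]
  refine ⟨hq0, hnu, ?_⟩
  intro x y hxy
  obtain ⟨a, b, rfl⟩ := h.exists_int x
  obtain ⟨c, d, rfl⟩ := h.exists_int y
  have h1 : (q : ℤ) ∣ (a ^ 2 + N * b ^ 2) * (c ^ 2 + N * d ^ 2) := by
    obtain ⟨z, hz⟩ := hxy
    obtain ⟨e, f, rfl⟩ := h.exists_int z
    have h2 : Algebra.norm ℤ (((a : 𝓞 K) + b * w) * ((c : 𝓞 K) + d * w)) =
        Algebra.norm ℤ ((q : 𝓞 K) * ((e : 𝓞 K) + f * w)) := by rw [hz]
    have h3 : (q : 𝓞 K) * ((e : 𝓞 K) + f * w) = ((q * e : ℤ) : 𝓞 K) + (q * f : ℤ) * w := by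
      push_cast; ring
    rw [map_mul, norm_int h, norm_int h, h3, norm_int h] at h2
    rw [h2]
    exact ⟨q * e ^ 2 + N * (q * f ^ 2), by ring⟩
  rcases (Nat.prime_iff_prime_int.mp hq).dvd_or_dvd h1 with h2 | h2
  · exact Or.inl (key a b h2)
  · exact Or.inr (key c d h2)

theorem units_int (u : (𝓞 K)ˣ) : u = 1 ∨ u = -1 := by
  obtain ⟨a, b, hab⟩ := h.exists_int (u : 𝓞 K)
  have h1 : absNorm (span {(u : 𝓞 K)}) = 1 := by
    rw [absNorm_eq_one_iff, span_singleton_eq_top]; exact u.isUnit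
  have h2 := absNorm_int h a b
  rw [← hab, h1] at h2
  have hN : (2 : ℤ) ≤ N := by
    have := N_mod_four h
    omega
  have hb : b = 0 := by
    by_contra hb
    have : 0 < b ^ 2 := by positivity
    have h3 : (0 : ℤ) ≤ a ^ 2 := sq_nonneg a
    push_cast at h2
    nlinarith
  subst hb
  have ha : a ^ 2 = 1 := by push_cast at h2; linarith
  rcases (show a = 1 ∨ a = -1 from by rw [← sq_eq_sq_iff_eq_or_eq_neg]; linarith) with rfl | rfl
  · left
    ext
    rw [hab]; simp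
  · right
    ext
    rw [hab]; simp

/-- (c) for `𝓞 K`, classes form. -/
theorem rth_sixteen_quad {I J B : Ideal (𝓞 K)} (hI : I ≠ ⊥) (hJ : J ≠ ⊥)
    (hB : Odd (absNorm B))
    (hcls : ∃ c d : 𝓞 K, c ≠ 0 ∧ d ≠ 0 ∧ span {c} * J = span {d} * (I * B))
    {Q : ℕ} (hQo : Odd Q) (hQ1 : (-(Q * absNorm B : ℤ)) % 8 ≠ 1)
    (hQN : (-(Q * absNorm B : ℤ)) % 8 ≠ (1 + N) % 8) (n : ℕ) :
    rth I J 1 Q (16 * n) = rth I J 1 Q (4 * n) :=
  rth_sixteen (N_mod_four h) (finrank_int h) (exists_absNorm_eq h) (p2_sq h) hI hJ hB hcls hQo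
    hQ1 hQN n

/-- (b) for `𝓞 K`. -/
theorem rth_inert_sq_quad {I J : Ideal (𝓞 K)} (hI : I ≠ ⊥) (hJ : J ≠ ⊥) {q : ℕ} (hq : q.Prime)
    (hns : ¬ IsSquare ((-(N : ℤ) : ℤ) : ZMod q)) {Q : ℕ} (h1 : q ∣ Q) (h2 : ¬ q ^ 2 ∣ Q) (n : ℕ) :
    rth I J 1 Q (q ^ 2 * n) = rth I J 1 Q n :=
  rth_inert_sq' hI hJ (finrank_int h) hq (isPrime_of_not_isSquare h hq hns) h1 h2 n

end

/-- the class group form of the hypothesis `hcls`. -/
theorem exists_of_mk0_eq {I J B : Ideal (𝓞 K)} (hI : I ∈ nonZeroDivisors (Ideal (𝓞 K)))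
    (hJ : J ∈ nonZeroDivisors (Ideal (𝓞 K))) (hB : B ∈ nonZeroDivisors (Ideal (𝓞 K)))
    (hc : ClassGroup.mk0 ⟨J, hJ⟩ = ClassGroup.mk0 ⟨I, hI⟩ * ClassGroup.mk0 ⟨B, hB⟩) :
    ∃ c d : 𝓞 K, c ≠ 0 ∧ d ≠ 0 ∧ span {c} * J = span {d} * (I * B) := by
  rw [← map_mul, ClassGroup.mk0_eq_mk0_iff] at hc
  obtain ⟨x, y, hx, hy, hxy⟩ := hc
  exact ⟨x, y, hx, hy, hxy⟩

end Fermat.Agent.H80.Th
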