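import Mathlib
import Fermat.Agent.H63LTQuad
import Fermat.Agent.H80ThQuad
import Fermat.Agent.H22ThK
import Fermat.Agent.H46LTDefsTA

/-!
# LT: the class group of `ℚ(√-N)` is generated by the primes of degree one outside `M`
-/

set_option autoImplicit false

open Ideal NumberField
open scoped NumberField nonZeroDivisors

namespace Fermat.Agent.H51S

section dede

variable {S : Type*} [CommRing S] [IsDedekindDomain S]

/-- every class is the inverse of the class of an ideal prime to a given element -/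
theorem exists_coprime_inv (c : ClassGroup S) (m : S) (hm : m ≠ 0) :
    ∃ J : (Ideal S)⁰, (J : Ideal S) ⊔ span {m} = ⊤ ∧ c = (ClassGroup.mk0 J)⁻¹ := by
  by_cases hu : IsUnit m
  · obtain ⟨J, hJ⟩ := ClassGroup.mk0_surjective c⁻¹
    refine ⟨J, ?_, by rw [hJ, inv_inv]⟩
    rw [span_singleton_eq_top.mpr hu, sup_top_eq]
  obtain ⟨I, rfl⟩ := ClassGroup.mk0_surjective c
  have hI0 : (I : Ideal S) ≠ ⊥ := nonZeroDivisors.ne_zero I.2
  have hm0 : span {m} ≠ (⊥ : Ideal S) := by simpa using hm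
  obtain ⟨a, ha⟩ := IsDedekindDomain.exists_sup_span_eq (I := (I : Ideal S) * span {m})
    (J := I) Ideal.mul_le_left (mul_ne_zero hI0 hm0)
  have ha0 : a ≠ 0 := by
    rintro rfl
    rw [Set.singleton_zero, span_zero, sup_bot_eq] at ha
    have h1 : (I : Ideal S) * span {m} = I * ⊤ := by rw [ha, mul_top]
    have h2 := mul_left_cancel₀ hI0 h1
    exact hu (span_singleton_eq_top.mp h2)
  have hle : span {a} ≤ (I : Ideal S) := by
    rw [← ha]
    exact le_sup_right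
  obtain ⟨J, hJ⟩ := Ideal.dvd_iff_le.mpr hle
  have hJ0 : J ≠ ⊥ := by
    rintro rfl
    rw [mul_bot, span_singleton_eq_bot] at hJ
    exact ha0 hJ
  refine ⟨⟨J, mem_nonZeroDivisors_of_ne_zero hJ0⟩, ?_, ?_⟩
  · have h1 : (I : Ideal S) * (J ⊔ span {m}) = I * ⊤ := by
      rw [Ideal.mul_sup, ← hJ, sup_comm, ha, mul_top]
    exact mul_left_cancel₀ hI0 h1
  · rw [eq_inv_iff_mul_eq_one, ← map_mul]
    refine (ClassGroup.mk0_eq_one_iff _).mpr ⟨⟨a, ?_⟩⟩
    change (I : Ideal S) * J = _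
    rw [← hJ]

end dede

section quad

variable {K : Type*} [Field K] [NumberField K] {N : ℕ} {w : 𝓞 K}

/-- a nonzero prime of a quadratic field has prime norm or is generated by a rational prime -/
theorem prime_cases (h : H63.LT.QuadData K N w) {P : Ideal (𝓞 K)} (hP : P.IsPrime) (hP0 : P ≠ ⊥) :
    ∃ ℓ : ℕ, ℓ.Prime ∧ (ℓ : 𝓞 K) ∈ P ∧ (absNorm P = ℓ ∨ P = span {(ℓ : 𝓞 K)}) := by
  have hmem : ((absNorm P : ℕ) : 𝓞 K) ∈ P := Ideal.absNorm_mem P
  have hn0 : absNorm P ≠ 0 := by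
    rw [Ne, Ideal.absNorm_eq_zero_iff]
    exact hP0
  -- a rational prime in P
  obtain ⟨ℓ, hℓ, hℓP⟩ : ∃ ℓ : ℕ, ℓ.Prime ∧ (ℓ : 𝓞 K) ∈ P := by
    have h1 : ∀ n : ℕ, n ≠ 0 → (n : 𝓞 K) ∈ P → ∃ ℓ : ℕ, ℓ.Prime ∧ (ℓ : 𝓞 K) ∈ P := by
      intro n
      induction n using Nat.recOnMul with
      | zero => intro h; exact absurd rfl h
      | one => intro _ h; exact absurd ((Ideal.eq_top_iff_one P).mpr (by simpa using h)) hP.ne_top
      | prime p hp => intro _ h; exact ⟨p, hp, h⟩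
      | mul a b iha ihb =>
        intro hab h
        rw [Nat.cast_mul] at h
        rcases hP.mem_or_mem h with h | h
        · exact iha (left_ne_zero_of_mul hab) h
        · exact ihb (right_ne_zero_of_mul hab) h
    exact h1 _ hn0 hmem
  refine ⟨ℓ, hℓ, hℓP, ?_⟩
  have hle : span {(ℓ : 𝓞 K)} ≤ P := (span_singleton_le_iff_mem P).mpr hℓP
  have hnorm : absNorm (span {(ℓ : 𝓞 K)}) = ℓ ^ 2 := by
    have h1 := H80.Th.absNorm_int h (ℓ : ℤ) 0
    simp only [Int.cast_natCast, Int.cast_zero, zero_mul, add_zero] at h1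
    have h2 : (absNorm (span {(ℓ : 𝓞 K)}) : ℤ) = ((ℓ ^ 2 : ℕ) : ℤ) := by
      rw [h1]
      push_cast
      ring
    exact_mod_cast h2
  have hdvd : absNorm P ∣ ℓ ^ 2 := by
    rw [← hnorm]
    exact absNorm_dvd_absNorm_of_le hle
  obtain ⟨i, hi, hPi⟩ := (Nat.dvd_prime_pow hℓ).1 hdvd
  interval_cases i
  · exfalso
    rw [pow_zero, absNorm_eq_one_iff] at hPi
    exact hP.ne_top hPi
  · left
    rw [hPi, pow_one]
  · right
    obtain ⟨R, hR⟩ := Ideal.dvd_iff_le.mpr hle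
    have h1 := congrArg absNorm hR
    rw [hnorm, map_mul, hPi] at h1
    have h2 : absNorm R = 1 := by
      have h3 : 0 < ℓ ^ 2 := pow_pos hℓ.pos 2
      nlinarith
    rw [absNorm_eq_one_iff.mp h2, mul_top] at hR
    exact hR.symm

/-- **Generation**: the class group is generated by the primes of prime norm not dividing `M`. -/
theorem eq_top_of_primes (h : H63.LT.QuadData K N w) (M : ℕ) (hM : M ≠ 0)
    (D : Subgroup (ClassGroup (𝓞 K)))
    (hD : ∀ (P : (Ideal (𝓞 K))⁰) (ℓ : ℕ), ℓ.Prime → ¬ ℓ ∣ M → absNorm (P : Ideal (𝓞 K)) = ℓ →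
      ClassGroup.mk0 P ∈ D) : D = ⊤ := by
  rw [eq_top_iff]
  intro c _
  obtain ⟨J, hJ, rfl⟩ := exists_coprime_inv c ((M : ℕ) : 𝓞 K) (by exact_mod_cast hM)
  apply inv_mem
  -- induction over the prime factors
  have key : ∀ I : Ideal (𝓞 K), ∀ hI : I ∈ (Ideal (𝓞 K))⁰, I ⊔ span {((M : ℕ) : 𝓞 K)} = ⊤ →
      ClassGroup.mk0 ⟨I, hI⟩ ∈ D := by
    intro I
    induction I using UniqueFactorizationMonoid.induction_on_prime with
    | h₁ =>
      intro hI _
      exact absurd rfl (nonZeroDivisors.ne_zero hI)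
    | h₂ I hu =>
      intro hI _
      have h1 : I = ⊤ := by rwa [Ideal.isUnit_iff] at hu
      have h2 : ClassGroup.mk0 ⟨I, hI⟩ = 1 := by
        refine (ClassGroup.mk0_eq_one_iff _).mpr ⟨⟨1, ?_⟩⟩
        rw [h1]
        exact (Ideal.span_singleton_one).symm
      rw [h2]
      exact D.one_mem
    | h₃ I P hI0 hP ih =>
      intro hPI hcop
      have hPp : P.IsPrime := Ideal.isPrime_of_prime hP
      have hP0 : P ≠ ⊥ := hP.ne_zero
      have hPm : P ∈ (Ideal (𝓞 K))⁰ := mem_nonZeroDivisors_of_ne_zero hP0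
      have hIm : I ∈ (Ideal (𝓞 K))⁰ := mem_nonZeroDivisors_of_ne_zero hI0
      have hsplit : ClassGroup.mk0 ⟨P * I, hPI⟩ =
          ClassGroup.mk0 ⟨P, hPm⟩ * ClassGroup.mk0 ⟨I, hIm⟩ := by
        rw [← map_mul]
        rfl
      rw [hsplit]
      refine D.mul_mem ?_ (ih hIm ?_)
      · obtain ⟨ℓ, hℓ, hℓP, h1 | h1⟩ := prime_cases h hPp hP0
        · refine hD ⟨P, hPm⟩ ℓ hℓ ?_ h1
          rintro ⟨m, rfl⟩
          have h2 : P = ⊤ := by
            rw [eq_top_iff, ← hcop]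
            refine sup_le Ideal.mul_le_left ?_
            rw [span_singleton_le_iff_mem, Nat.cast_mul]
            exact P.mul_mem_right _ hℓP
          exact hPp.ne_top h2
        · have h2 : ClassGroup.mk0 ⟨P, hPm⟩ = 1 := by
            refine (ClassGroup.mk0_eq_one_iff _).mpr ⟨⟨(ℓ : 𝓞 K), ?_⟩⟩
            exact h1
          rw [h2]
          exact D.one_mem
      · rw [eq_top_iff, ← hcop]
        exact sup_le_sup_right Ideal.mul_le_right _
  exact key J J.2 hJ

end quad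

end Fermat.Agent.H51S
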