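import Mathlib
import Fermat.Prelude
import Fermat.Agent.H51Frob
import Fermat.Agent.H63Cyclo
import Fermat.Agent.H51SurK

/-!
# Quadratic characters of `Gal(ℚ̄/ℚ)` (helper51)
-/

set_option autoImplicit false

open NumberField
open scoped NumberField

namespace Fermat.Agent.H51S

local notation "Qb" => AlgebraicClosure ℚ
local notation "GQ" => (AlgebraicClosure ℚ ≃ₐ[ℚ] AlgebraicClosure ℚ)

section omega

variable {x : Qb} {d : ℚ} (hx : x ^ 2 = algebraMap ℚ Qb d)

include hx in
lemma apply_sqrt (g : GQ) : g x = x ∨ g x = -x := by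
  have h1 : (g x) ^ 2 = x ^ 2 := by
    rw [← map_pow, hx, AlgEquiv.commutes]
  exact sq_eq_sq_iff_eq_or_eq_neg.mp h1

/-- the quadratic character attached to a square root of a nonzero rational -/
noncomputable def omega (hx : x ^ 2 = algebraMap ℚ Qb d) (hx0 : x ≠ 0) : GQ →* ℤˣ := by
  classical
  exact
  { toFun := fun g => if g x = x then 1 else -1
    map_one' := by simp
    map_mul' := by
      intro g h
      have hne : -x ≠ x := by
        intro h1
        apply hx0
        have h2 : (2 : Qb) * x = 0 := by linear_combination -h1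
        exact (mul_eq_zero.mp h2).resolve_left two_ne_zero
      rcases apply_sqrt hx g with hg | hg <;> rcases apply_sqrt hx h with hh | hh <;>
        simp [AlgEquiv.mul_apply, hg, hh, hne] }

lemma omega_apply (hx : x ^ 2 = algebraMap ℚ Qb d) (hx0 : x ≠ 0) (g : GQ) :
    g x = ((omega hx hx0 g : ℤˣ) : ℤ) * x := by
  classical
  change g x = (((if g x = x then 1 else -1 : ℤˣ) : ℤ) : Qb) * x
  rcases apply_sqrt hx g with hg | hg
  · rw [if_pos hg]; simp [hg]
  · have hne : -x ≠ x := by
      intro h1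
      apply hx0
      have h2 : (2 : Qb) * x = 0 := by linear_combination -h1
      exact (mul_eq_zero.mp h2).resolve_left two_ne_zero
    rw [if_neg (by rw [hg]; exact hne)]
    simp [hg]

lemma omega_eq_one_iff (hx : x ^ 2 = algebraMap ℚ Qb d) (hx0 : x ≠ 0) (g : GQ) :
    omega hx hx0 g = 1 ↔ g x = x := by
  classical
  change (if g x = x then (1 : ℤˣ) else -1) = 1 ↔ _
  by_cases h : g x = x
  · simp [h]
  · rw [if_neg h]
    exact ⟨fun h1 => absurd h1 (by decide), fun h1 => absurd h1 h⟩

lemma omega_finite (hx : x ^ 2 = algebraMap ℚ Qb d) (hx0 : x ≠ 0) :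
    GaloisFactorsThroughFiniteLevel (omega hx hx0) := by
  refine ⟨IntermediateField.adjoin ℚ {x}, ?_, ?_⟩
  · exact IntermediateField.adjoin.finiteDimensional (Algebra.IsIntegral.isIntegral x)
  · intro σ hσ
    rw [omega_eq_one_iff]
    exact hσ x (IntermediateField.mem_adjoin_simple_self ℚ x)

end omega

section GK

variable {K : Type} [Field K] [NumberField K] {N : ℕ} {w : 𝓞 K}

/-- `√d ∉ ℚ(√-N)` gives an element of `G_K` moving `√d`. -/
theorem exists_mem_GK (h : H63.LT.QuadData K N w) {x : Qb} {d : ℤ}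
    (hx : x ^ 2 = algebraMap ℚ Qb d) (hd1 : ¬ IsSquare (d : ℚ))
    (hd2 : ¬ IsSquare (-(N : ℚ) * d)) : ∃ σ ∈ LT.GK N, σ x = -x := by
  let j : K →ₐ[ℚ] Qb := IsAlgClosed.lift
  let F : IntermediateField ℚ Qb := j.fieldRange
  -- otherwise `x ∈ F`
  by_contra hcon
  push Not at hcon
  have hxF : x ∈ F := by
    have h1 : IntermediateField.fixedField F.fixingSubgroup = F :=
      InfiniteGalois.fixedField_fixingSubgroup F
    rw [← h1, IntermediateField.mem_fixedField_iff]
    intro σ hσ
    have hGK : σ ∈ LT.GK N := by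
      intro y hy
      have hj : j (w : K) ^ 2 = -(N : Qb) := by
        rw [← map_pow, h.sqK, map_neg, map_natCast]
      have h2 : y ^ 2 = j (w : K) ^ 2 := by rw [hy, hj]
      have h3 : σ (j (w : K)) = j (w : K) :=
        ((IntermediateField.mem_fixingSubgroup_iff F σ).1 hσ) _ ⟨(w : K), rfl⟩
      rcases sq_eq_sq_iff_eq_or_eq_neg.mp h2 with h4 | h4
      · rw [h4, h3]
      · rw [h4, map_neg, h3]
    rcases apply_sqrt hx σ with h2 | h2
    · exact h2
    · exact absurd h2 (hcon σ hGK)
  obtain ⟨z, hz⟩ : ∃ z : K, j z = x := hxF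
  obtain ⟨r, s, hrs⟩ := h.exists_coord z
  have hz2 : z ^ 2 = algebraMap ℚ K d := by
    apply j.injective
    change j (z ^ 2) = j (algebraMap ℚ K d)
    rw [map_pow, hz, hx, AlgHom.commutes]
  have hw2 := h.sqK
  have h5 : algebraMap ℚ K (r ^ 2 - N * s ^ 2 - d) + algebraMap ℚ K (2 * r * s) * w = 0 := by
    have h6 : z ^ 2 = algebraMap ℚ K (r ^ 2 - N * s ^ 2) + algebraMap ℚ K (2 * r * s) * w := by
      rw [hrs]
      simp only [map_sub, map_mul, map_pow, map_natCast, map_ofNat]
      linear_combination (algebraMap ℚ K s) ^ 2 * hw2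
    rw [map_sub, sub_add_eq_add_sub, ← h6, hz2, sub_self]
  have h7 : 2 * r * s = 0 := by
    by_contra h8
    apply h.w_notMem (-(r ^ 2 - N * s ^ 2 - d) / (2 * r * s))
    have h9 : algebraMap ℚ K (2 * r * s) ≠ 0 := by
      rw [Ne, map_eq_zero]
      exact h8
    rw [map_div₀, map_neg, eq_div_iff h9]
    linear_combination h5
  have h8 : r ^ 2 - N * s ^ 2 - d = 0 := by
    rw [h7, map_zero, zero_mul, add_zero, map_eq_zero] at h5
    exact h5
  rcases mul_eq_zero.mp h7 with h9 | h9
  · have hr0 : r = 0 := by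
      rcases mul_eq_zero.mp h9 with h10 | h10
      · norm_num at h10
      · exact h10
    apply hd2
    refine ⟨N * s, ?_⟩
    rw [hr0] at h8
    linear_combination (-(N : ℚ)) * (-h8)
  · apply hd1
    refine ⟨r, ?_⟩
    rw [h9] at h8
    linear_combination -h8

end GK

end Fermat.Agent.H51S
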