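/-
H61TE: units of the group algebra of a finite abelian 2-group in characteristic two (TA-UNIT).
-/
import Mathlib
import Fermat.Agent.H46LTDefsTA

set_option autoImplicit false
set_option linter.style.haveILetI false
set_option linter.unusedSectionVars false

noncomputable section

namespace Fermat.Agent.H61.TE

open MonoidAlgebra IsLocalRing

section General

variable {k : Type*} [Field k] [CharP k 2] {G : Type*} [CommGroup G]

/-- the augmentation -/
def aug (k : Type*) [Field k] (G : Type*) [CommGroup G] : MonoidAlgebra k G →ₐ[k] k :=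
  MonoidAlgebra.lift k k G 1

@[simp] theorem aug_single (g : G) (c : k) : aug k G (single g c) = c := by
  rw [aug, MonoidAlgebra.lift_single]
  simp

theorem pow_two_pow_eq {n : ℕ} (hn : ∀ g : G, g ^ 2 ^ n = 1) (x : MonoidAlgebra k G) :
    x ^ 2 ^ n = algebraMap k (MonoidAlgebra k G) (aug k G x ^ 2 ^ n) := by
  haveI : CharP (MonoidAlgebra k G) 2 := charP_of_injective_algebraMap
    (algebraMap k (MonoidAlgebra k G)).injective 2
  haveI : Fact (Nat.Prime 2) := ⟨Nat.prime_two⟩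
  induction x using MonoidAlgebra.induction_on with
  | of g =>
    rw [MonoidAlgebra.of_apply, MonoidAlgebra.single_pow, hn, aug_single, one_pow, map_one]
    rfl
  | add x y hx hy => rw [add_pow_char_pow, hx, hy, map_add, add_pow_char_pow, map_add]
  | smul r x hx => rw [_root_.smul_pow, hx, map_smul, smul_eq_mul, mul_pow, map_mul,
      Algebra.smul_def]

theorem isUnit_iff {n : ℕ} (hn : ∀ g : G, g ^ 2 ^ n = 1) (x : MonoidAlgebra k G) :
    IsUnit x ↔ aug k G x ≠ 0 := by
  constructor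
  · intro h
    exact (h.map (aug k G)).ne_zero
  · intro h
    have h1 : IsUnit (x ^ 2 ^ n) := by
      rw [pow_two_pow_eq hn]
      exact (IsUnit.mk0 _ (pow_ne_zero _ h)).map _
    exact (isUnit_pow_iff (by positivity)).mp h1

theorem isLocalRing {n : ℕ} (hn : ∀ g : G, g ^ 2 ^ n = 1) : IsLocalRing (MonoidAlgebra k G) := by
  refine IsLocalRing.of_nonunits_add fun a b ha hb => ?_
  rw [mem_nonunits_iff, isUnit_iff hn, not_not] at ha hb ⊢
  rw [map_add, ha, hb, add_zero]

/-- `a + a⁻¹` is a unit when `a` has augmentation `≠ 1`. -/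
theorem isUnit_add_inv {n : ℕ} (hn : ∀ g : G, g ^ 2 ^ n = 1) (a : (MonoidAlgebra k G)ˣ)
    (ha : aug k G (a : MonoidAlgebra k G) ≠ 1) :
    IsUnit ((a : MonoidAlgebra k G) + ((a⁻¹ : (MonoidAlgebra k G)ˣ) : MonoidAlgebra k G)) := by
  rw [isUnit_iff hn, map_add]
  set x := aug k G (a : MonoidAlgebra k G) with hx
  set y := aug k G ((a⁻¹ : (MonoidAlgebra k G)ˣ) : MonoidAlgebra k G) with hy
  have hxy : x * y = 1 := by rw [hx, hy, ← map_mul, Units.mul_inv, map_one]
  intro h
  have h2 : y = x := by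
    have h3 : x = -y := eq_neg_of_add_eq_zero_left h
    rw [h3, CharTwo.neg_eq]
  rw [h2] at hxy
  apply ha
  have h4 : (x - 1) * (x - 1) = 0 := by
    have h5 : (2 : k) = 0 := CharTwo.two_eq_zero
    linear_combination hxy + (1 - x) * h5
  exact sub_eq_zero.mp (mul_self_eq_zero.mp h4)

theorem isUnit_one_add_single {n : ℕ} (hn : ∀ g : G, g ^ 2 ^ n = 1) (g : G) {c : k} (hc : c ≠ 1) :
    IsUnit (1 + single g c : MonoidAlgebra k G) := by
  rw [isUnit_iff hn, map_add, map_one, aug_single]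
  intro h
  apply hc
  have h3 : (1 : k) = -c := eq_neg_of_add_eq_zero_left h
  rw [h3, CharTwo.neg_eq]

end General

section C2Q

open Fermat.Agent.LT

variable (K : Type) [Field K] [NumberField K] (Q : Finset ℕ)

theorem exists_pow_C2' : ∃ n : ℕ, ∀ g : C2' K, g ^ 2 ^ n = 1 := by
  refine ⟨Nat.card (ClassGroup (NumberField.RingOfIntegers K)), fun g => ?_⟩
  obtain ⟨c, rfl⟩ := QuotientGroup.mk_surjective g
  rw [← QuotientGroup.mk_pow, QuotientGroup.eq_one_iff]
  refine Subgroup.subset_closure ?_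
  show Odd (orderOf _)
  have h0 : orderOf c ≠ 0 := (isOfFinOrder_of_finite c).orderOf_pos.ne'
  obtain ⟨a, m, hm, ham⟩ := Nat.exists_eq_two_pow_mul_odd h0
  have hle : a ≤ Nat.card (ClassGroup (NumberField.RingOfIntegers K)) := by
    have h1 : orderOf c ≤ Nat.card (ClassGroup (NumberField.RingOfIntegers K)) := orderOf_le_card
    have h2 : 2 ^ a ≤ orderOf c := by
      rw [ham]
      exact Nat.le_mul_of_pos_right _ hm.pos
    exact (Nat.lt_two_pow_self.le.trans h2).trans h1
  rw [orderOf_pow, ham]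
  have h3 : Nat.gcd (2 ^ a * m) (2 ^ Nat.card (ClassGroup (NumberField.RingOfIntegers K))) = 2 ^ a := by
    obtain ⟨b, hb⟩ := Nat.exists_eq_add_of_le hle
    rw [hb, pow_add, Nat.gcd_mul_left]
    have h4 : Nat.Coprime m (2 ^ b) := (Nat.Coprime.pow_right b hm.coprime_two_right)
    rw [h4, mul_one]
  rw [h3, Nat.mul_div_cancel_left _ (by positivity)]
  exact hm

theorem exists_pow_C2Q : ∃ n : ℕ, ∀ g : C2Q K Q, g ^ 2 ^ n = 1 := by
  obtain ⟨n, hn⟩ := exists_pow_C2' K
  refine ⟨n + 1, fun g => ?_⟩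
  refine Prod.ext ?_ ?_
  · show g.1 ^ 2 ^ (n + 1) = 1
    rw [pow_succ, pow_mul, hn, one_pow]
  · funext q
    show (g.2 q) ^ 2 ^ (n + 1) = 1
    have h1 : ∀ x : Multiplicative (ZMod 2), x ^ 2 = 1 := by decide
    rw [pow_succ', pow_mul, h1, one_pow]

variable {k : Type*} [Field k] [CharP k 2]

theorem isLocalRing_C2Q : IsLocalRing (MonoidAlgebra k (C2Q K Q)) := by
  obtain ⟨n, hn⟩ := exists_pow_C2Q K Q
  exact isLocalRing hn

theorem isUnit_iff_C2Q (x : MonoidAlgebra k (C2Q K Q)) : IsUnit x ↔ aug k (C2Q K Q) x ≠ 0 := by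
  obtain ⟨n, hn⟩ := exists_pow_C2Q K Q
  exact isUnit_iff hn x

theorem isUnit_add_inv_C2Q (a : (MonoidAlgebra k (C2Q K Q))ˣ)
    (ha : aug k (C2Q K Q) (a : MonoidAlgebra k (C2Q K Q)) ≠ 1) :
    IsUnit ((a : MonoidAlgebra k (C2Q K Q)) +
      ((a⁻¹ : (MonoidAlgebra k (C2Q K Q))ˣ) : MonoidAlgebra k (C2Q K Q))) := by
  obtain ⟨n, hn⟩ := exists_pow_C2Q K Q
  exact isUnit_add_inv hn a ha

theorem isUnit_one_add_single_C2Q (g : C2Q K Q) {c : k} (hc : c ≠ 1) :
    IsUnit (1 + single g c : MonoidAlgebra k (C2Q K Q)) := by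
  obtain ⟨n, hn⟩ := exists_pow_C2Q K Q
  exact isUnit_one_add_single hn g hc

end C2Q

end Fermat.Agent.H61.TE
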