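import Fermat.Agent.H63LTGenus

set_option autoImplicit false

open NumberField Ideal
open scoped nonZeroDivisors

namespace Fermat.Agent.H63.LT

theorem not_isSquare_of_two {a : ℤ} (h2 : (2 : ℤ) ∣ a) (h4 : ¬ (4 : ℤ) ∣ a) : ¬ IsSquare (a : ℚ) := by
  intro hs
  have h1 : IsSquare a := by
    rwa [Rat.isSquare_intCast_iff] at hs
  obtain ⟨b, rfl⟩ := h1
  have hb : (2 : ℤ) ∣ b := by
    rcases Int.prime_two.dvd_or_dvd h2 with h | h <;> exact h
  obtain ⟨c, rfl⟩ := hb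
  exact h4 ⟨c * c, by ring⟩

theorem jacobi_star {d ℓ : ℕ} (hd : Odd d) (hℓ : Odd ℓ) :
    jacobiSym (if d % 4 = 1 then (d : ℤ) else -d) ℓ = jacobiSym ℓ d := by
  split_ifs with h1
  · exact jacobiSym.quadratic_reciprocity_one_mod_four h1 hℓ
  · have hd3 : d % 4 = 3 := by
      have := Nat.odd_iff.1 hd
      omega
    rw [jacobiSym.neg _ hℓ]
    have hℓ' : ℓ % 4 = 1 ∨ ℓ % 4 = 3 := by
      have := Nat.odd_iff.1 hℓ
      omega
    rcases hℓ' with h2 | h2
    · rw [ZMod.χ₄_nat_one_mod_four h2, one_mul]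
      exact jacobiSym.quadratic_reciprocity_one_mod_four' hd h2
    · rw [ZMod.χ₄_nat_three_mod_four h2, jacobiSym.quadratic_reciprocity_three_mod_four hd3 h2]
      ring

variable {K : Type*} [Field K] [NumberField K] {N : ℕ} {w : 𝓞 K}

namespace QuadData

variable (h : QuadData K N w)

include h

theorem genus_char (χ : ClassGroup (𝓞 K) →* ℤˣ) (hχ : χ ≠ 1) :
    ∃ d : ℤ, d ≠ 0 ∧ ¬ IsSquare (d : ℚ) ∧ ¬ IsSquare (-(N : ℚ) * d) ∧
      ∀ ℓ : ℕ, ℓ.Prime → ¬ ℓ ∣ 2 * N → (¬ (ℓ : ℤ) ∣ d) ∧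
        ∀ P : (Ideal (𝓞 K))⁰, absNorm (P : Ideal (𝓞 K)) = ℓ →
          ((χ (ClassGroup.mk0 P) : ℤˣ) : ℤ) = jacobiSym d ℓ := by
  obtain ⟨d, hdN, hd1, hd⟩ := h.exists_genus χ
  have hd1 := hd1 hχ
  obtain ⟨m, hm⟩ := h.even
  have hNm : N / 2 = m := by omega
  rw [hNm] at hdN
  have hsq : Squarefree (2 * m) := hm ▸ h.sqf
  have hm0 : m ≠ 0 := by
    have := h.N_pos
    omega
  have hcop : Nat.Coprime 2 m := Nat.coprime_of_squarefree_mul hsq
  have hmodd : Odd m := Nat.coprime_two_left.1 hcop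
  have hdodd : Odd d := Odd.of_dvd_nat hmodd hdN
  have hd0 : d ≠ 0 := ne_zero_of_dvd_ne_zero hm0 hdN
  have hdsq : Squarefree d := (hsq.of_mul_right).squarefree_of_dvd hdN
  set D : ℤ := if d % 4 = 1 then (d : ℤ) else -d with hD
  have hDd : D = d ∨ D = -d := by
    rw [hD]; split_ifs
    · exact Or.inl rfl
    · exact Or.inr rfl
  have hDodd : ¬ (2 : ℤ) ∣ D := by
    have h1 : ¬ (2 : ℤ) ∣ (d : ℤ) := by
      intro hh
      have : 2 ∣ d := by exact_mod_cast hh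
      rw [Nat.odd_iff] at hdodd
      omega
    rcases hDd with e | e <;> rw [e]
    · exact h1
    · rwa [dvd_neg]
  refine ⟨D, ?_, ?_, ?_, ?_⟩
  · rcases hDd with e | e <;> rw [e] <;> simpa using hd0
  · intro hs
    rw [Rat.isSquare_intCast_iff] at hs
    obtain ⟨b, hb⟩ := hs
    have hbd : b.natAbs * b.natAbs = d := by
      rw [← Int.natAbs_mul, ← hb]
      rcases hDd with e | e <;> rw [e] <;> simp
    have := hdsq b.natAbs (Dvd.intro_left 1 (by rw [one_mul]; exact hbd))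
    rw [Nat.isUnit_iff] at this
    rw [this] at hbd
    exact hd1 (by simpa using hbd.symm)
  · have e1 : (-(N : ℚ) * D) = (((-(N : ℤ) * D : ℤ)) : ℚ) := by push_cast; ring
    rw [e1]
    apply not_isSquare_of_two
    · exact Dvd.dvd.mul_right ((Int.dvd_neg).2 (by exact_mod_cast h.even)) _
    · intro h4
      rw [hm] at h4
      obtain ⟨k, hk⟩ := h4
      push_cast at hk
      have h2 : (2 : ℤ) ∣ (m : ℤ) * D := ⟨-k, by linarith⟩
      rcases Int.prime_two.dvd_or_dvd h2 with h3 | h3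
      · have : 2 ∣ m := by exact_mod_cast h3
        rw [Nat.odd_iff] at hmodd
        omega
      · exact hDodd h3
  · intro ℓ hℓ hℓN
    have hℓd : ¬ ℓ ∣ d := fun h1 => hℓN (h1.trans (hdN.trans ⟨4, by rw [hm]; ring⟩))
    have hℓodd : Odd ℓ := by
      rcases hℓ.eq_two_or_odd' with h1 | h1
      · exact absurd (h1 ▸ (Dvd.intro N rfl)) hℓN
      · exact h1
    refine ⟨?_, ?_⟩
    · intro h1
      apply hℓd
      have : (ℓ : ℤ) ∣ (d : ℤ) := by
        rcases hDd with e | e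
        · rwa [e] at h1
        · rw [e] at h1; exact (dvd_neg).1 h1
      exact_mod_cast this
    · intro P hP
      rw [hd P (by rw [hP]; exact (Nat.Prime.coprime_iff_not_dvd hℓ).2 hℓd), hP, hD,
        jacobi_star hdodd hℓodd]

end QuadData

end Fermat.Agent.H63.LT
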