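import Mathlib
import Fermat.Prelude
import Fermat.Agent.H51Sur
import Fermat.Agent.H51SurQ
import Fermat.Agent.H63LTGenusChar
import Fermat.Agent.H61TE
import Fermat.Agent.H54Frobenius
import Fermat.Agent.H86DensityFinal

/-!
# LT: surjectivity of `π` in `TSide'` and of `κ₀ : G_K → C₂` (helper51)
-/

set_option autoImplicit false

noncomputable section

open Ideal NumberField Matrix
open scoped NumberField nonZeroDivisors
open Fermat.Agent.H69.Dih (Shape chr)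
open Fermat.Agent.LT (C2' C2Q GK primesOver cls)

namespace Fermat.Agent.H51S

local notation "Qb" => AlgebraicClosure ℚ
local notation "GQ" => (AlgebraicClosure ℚ ≃ₐ[ℚ] AlgebraicClosure ℚ)

section numbers

variable {K : Type} [Field K] [NumberField K] {N : ℕ} {w : 𝓞 K}

theorem not_dvd_two_mul (h : H63.LT.QuadData K N w) {L ℓ : ℕ} (hNL : N ∣ L) (hℓ : ℓ.Prime)
    (hL : ¬ ℓ ∣ L) : ¬ ℓ ∣ 2 * N := by
  intro h1
  rcases hℓ.dvd_mul.mp h1 with h2 | h2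
  · exact hL ((h2.trans h.even).trans hNL)
  · exact hL (h2.trans hNL)

/-- a prime ideal of norm `ℓ` makes `-N` a square modulo `ℓ` -/
theorem isSquare_of_absNorm (h : H63.LT.QuadData K N w) {ℓ : ℕ} (hℓ : ℓ.Prime)
    {P : Ideal (𝓞 K)} (hP : absNorm P = ℓ) : IsSquare ((-(N : ℤ) : ℤ) : ZMod ℓ) := by
  by_contra hns
  have h1 := H80.Th.isPrime_of_not_isSquare h hℓ hns
  have hmem : ((ℓ : ℕ) : 𝓞 K) ∈ P := by
    rw [← hP]
    exact absNorm_mem P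
  have hle : span {((ℓ : ℕ) : 𝓞 K)} ≤ P := (span_singleton_le_iff_mem P).mpr hmem
  have hne : span {((ℓ : ℕ) : 𝓞 K)} ≠ ⊥ := by
    rw [Ne, span_singleton_eq_bot]
    exact_mod_cast hℓ.ne_zero
  have hPne : P ≠ ⊤ := by
    rintro rfl
    rw [absNorm_top] at hP
    exact hℓ.one_lt.ne hP
  have heq : span {((ℓ : ℕ) : 𝓞 K)} = P := (h1.isMaximal hne).eq_of_le hPne hle
  have hnorm : (absNorm (span {((ℓ : ℕ) : 𝓞 K)}) : ℤ) = (ℓ : ℤ) ^ 2 := by
    have h1 := H80.Th.absNorm_int h (ℓ : ℤ) 0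
    simp only [Int.cast_natCast, Int.cast_zero, zero_mul, add_zero] at h1
    rw [h1]
    ring
  rw [heq, hP] at hnorm
  have h3 := hℓ.one_lt
  have h4 : (ℓ : ℤ) * (ℓ - 1) = 0 := by linear_combination -hnorm
  rcases mul_eq_zero.mp h4 with h5 | h5 <;> omega

/-- `t_ℓ = ψ([P]) + ψ([P])⁻¹` for every prime ideal `P` of norm `ℓ` -/
theorem th_eq (h : H63.LT.QuadData K N w) {B : Type*} [CommRing B]
    (ψ : ClassGroup (𝓞 K) →* B) {ℓ : ℕ} (hℓ : ℓ.Prime) (hℓN : ¬ ℓ ∣ 2 * N)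
    (P : (Ideal (𝓞 K))⁰) (hP : absNorm (P : Ideal (𝓞 K)) = ℓ) :
    ∑ R ∈ primesOver K ℓ, ψ (cls K R) = ψ (ClassGroup.mk0 P) + ψ (ClassGroup.mk0 P)⁻¹ := by
  have hsq := isSquare_of_absNorm h hℓ hP
  rw [← H22.Th.th_prime ψ hℓ]
  obtain ⟨P₁, P₂, h1, h2, -, h4, h5, h6, h7, -⟩ :=
    H22.Th.tc_split_prime h.N_pos (H22.Th.finrankQ h) h.sq h.exists_int hℓ hℓN hsq (H22.Th.cg ψ)
  have hne : ∀ {R : Ideal (𝓞 K)}, absNorm R = ℓ → R ∈ (Ideal (𝓞 K))⁰ := by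
    intro R hR
    refine mem_nonZeroDivisors_of_ne_zero ?_
    rintro rfl
    rw [map_zero] at hR
    exact hℓ.pos.ne hR
  have h8 : ClassGroup.mk0 ⟨P₁, hne h4⟩ * ClassGroup.mk0 ⟨P₂, hne h5⟩ = 1 := by
    rw [← map_mul]
    exact (ClassGroup.mk0_eq_one_iff (mul_mem (hne h4) (hne h5))).mpr ⟨⟨((ℓ : ℕ) : 𝓞 K), h6⟩⟩
  have h7' : H22.Th.th ψ ℓ = ψ (ClassGroup.mk0 ⟨P₁, hne h4⟩) + ψ (ClassGroup.mk0 ⟨P₂, hne h5⟩) := by
    change H22.Th.tc (H22.Th.cg ψ) ℓ = _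
    rw [h7, H22.Th.cg_mk0 ψ (hne h4), H22.Th.cg_mk0 ψ (hne h5)]
  have hPp : (P : Ideal (𝓞 K)).IsPrime := isPrime_of_irreducible_absNorm (by rw [hP]; exact hℓ)
  have hmem : ((ℓ : ℕ) : 𝓞 K) ∈ (P : Ideal (𝓞 K)) := by
    rw [← hP]
    exact absNorm_mem _
  have hle : P₁ * P₂ ≤ (P : Ideal (𝓞 K)) := by
    rw [h6]
    exact (span_singleton_le_iff_mem _).mpr hmem
  have hmax : ∀ {R : Ideal (𝓞 K)}, R.IsPrime → absNorm R = ℓ → R ≤ P → R = P := by
    intro R hR hRn hRP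
    exact (hR.isMaximal (nonZeroDivisors.ne_zero (hne hRn))).eq_of_le hPp.ne_top hRP
  rw [h7']
  rcases (hPp.mul_le).mp hle with h9 | h9
  · have h10 : P = ⟨P₁, hne h4⟩ := Subtype.ext (hmax h1 h4 h9).symm
    rw [h10, inv_eq_of_mul_eq_one_right h8]
  · have h10 : P = ⟨P₂, hne h5⟩ := Subtype.ext (hmax h2 h5 h9).symm
    rw [h10, inv_eq_of_mul_eq_one_left h8, add_comm]

/-- Frobenius elements at primes of norm `ℓ` belong to `G_K`. -/
theorem mem_GK_of_frob (h : H63.LT.QuadData K N w) {ℓ : ℕ} (hℓ : ℓ.Prime) (hℓN : ¬ ℓ ∣ 2 * N)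
    {P : Ideal (𝓞 K)} (hP : absNorm P = ℓ) {A : ValuationSubring Qb} (hA : A.LiesOverPrime ℓ)
    {φ : GQ} (hφ : A.IsFrobeniusAt φ ℓ) : φ ∈ GK N := by
  have hsq := isSquare_of_absNorm h hℓ hP
  have : Fact ℓ.Prime := ⟨hℓ⟩
  have h2 : ℓ ≠ 2 := by
    rintro rfl
    exact hℓN (dvd_mul_right 2 N)
  have hN : ¬ (ℓ : ℤ) ∣ -(N : ℤ) := by
    rw [dvd_neg]
    intro h3
    exact hℓN ((Int.natCast_dvd_natCast.mp h3).mul_left 2)
  intro x hx
  have h3 := frob_sqrt hℓ hA hφ (d := -(N : ℤ)) h2 hN (x := x) (by rw [hx]; push_cast; ring)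
  have h4 : jacobiSym (-(N : ℤ)) ℓ = 1 := by
    rw [← jacobiSym.legendreSym.to_jacobiSym]
    refine (legendreSym.eq_one_iff ℓ ?_).2 hsq
    rw [Ne, ZMod.intCast_zmod_eq_zero_iff_dvd]
    exact hN
  rw [h3, h4, Int.cast_one, one_mul]

end numbers

section data

variable {k : Type} [Field k] [CharP k 2] {K : Type} [Field K] [NumberField K] {N : ℕ} {w : 𝓞 K}

/-- the embedding `C₂ → k[C₂ × μ₂^Q]` -/
def iotaQ (k : Type) [Field k] (K : Type) [Field K] [NumberField K] (Q : Finset ℕ) :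
    C2' K →* MonoidAlgebra k (C2Q K Q) :=
  (MonoidAlgebra.of k (C2Q K Q)).comp (MonoidHom.inl _ _)

lemma iotaQ_apply (Q : Finset ℕ) (c : C2' K) :
    iotaQ k K Q c = MonoidAlgebra.single (c, 1) 1 := rfl

/-- the projection `Cl(K) → C₂` -/
def pQ (K : Type) [Field K] [NumberField K] : ClassGroup (𝓞 K) →* C2' K := QuotientGroup.mk' _

lemma xu_apply (Q : Finset ℕ) (η : ClassGroup (𝓞 K) →* kˣ) (c : ClassGroup (𝓞 K)) :
    ((xu (iotaQ k K Q) (pQ K) η c : (MonoidAlgebra k (C2Q K Q))ˣ) : MonoidAlgebra k (C2Q K Q)) =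
      MonoidAlgebra.single ((QuotientGroup.mk c : C2' K), 1) ((η c : kˣ) : k) := by
  rw [xu, MonoidHom.mul_apply, Units.val_mul, MonoidHom.comp_apply, MonoidHom.comp_apply,
    Units.coe_map, MonoidHom.coe_toHomUnits, iotaQ_apply]
  change algebraMap k (MonoidAlgebra k (C2Q K Q)) (η c : k) * _ = _
  rw [← Algebra.smul_def, MonoidAlgebra.smul_single, smul_eq_mul, mul_one]
  rfl

/-- `φ` is a Frobenius element at the prime `ℓ ∤ L` -/
def IsFrob (L : ℕ) (φ : GQ) (ℓ : ℕ) : Prop :=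
  ℓ.Prime ∧ ¬ ℓ ∣ L ∧ ∃ A : ValuationSubring Qb, A.LiesOverPrime ℓ ∧ A.IsFrobeniusAt φ ℓ

/-- `φ` is a Frobenius element at `ℓ ∤ L` and `c` is the class of a prime ideal of norm `ℓ` -/
def IsClass (K : Type) [Field K] [NumberField K] (L : ℕ) (φ : GQ) (c : ClassGroup (𝓞 K)) : Prop :=
  ∃ ℓ, IsFrob L φ ℓ ∧ ∃ P : (Ideal (𝓞 K))⁰, absNorm (P : Ideal (𝓞 K)) = ℓ ∧ c = ClassGroup.mk0 P

theorem data (h : H63.LT.QuadData K N w) (hk : ∀ y : k, y ≠ 0 → y ^ 3 = 1) (Q : Finset ℕ)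
    {L : ℕ} (hL : L ≠ 0) (hNL : N ∣ L) (η : ClassGroup (𝓞 K) →* kˣ) (hη : η ≠ 1)
    (r : GQ →* Matrix (Fin 2) (Fin 2) (MonoidAlgebra k (C2Q K Q)))
    (hfin : GaloisFactorsThroughFiniteLevel r) (hsh : Shape (GK N) r) (hdet : ∀ g, (r g).det = 1)
    (htr : ∀ (ℓ : ℕ) (φ : GQ), IsFrob L φ ℓ → (r φ).trace = ∑ P ∈ primesOver K ℓ,
      MonoidAlgebra.single ((QuotientGroup.mk (cls K P) : C2' K),
        (1 : {q // q ∈ Q} → Multiplicative (ZMod 2))) ((η (cls K P) : kˣ) : k)) :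
    Data (H61.TE.aug k (C2Q K Q)) (iotaQ k K Q) (pQ K) η r (GK N)
      {ω : GQ →* ℤˣ | GaloisFactorsThroughFiniteLevel ω} {φ | ∃ ℓ, IsFrob L φ ℓ}
      (IsClass K L) := by
  classical
  -- the trace at a Frobenius element
  have htr' : ∀ (ℓ : ℕ) (φ : GQ), IsFrob L φ ℓ → (r φ).trace =
      ∑ P ∈ primesOver K ℓ, ((Units.coeHom _).comp (xu (iotaQ k K Q) (pQ K) η)) (cls K P) := by
    intro ℓ φ hφ
    rw [htr ℓ φ hφ]
    refine Finset.sum_congr rfl fun P _ => ?_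
    rw [MonoidHom.comp_apply, Units.coeHom_apply, xu_apply]
  have hF2 : ∀ φ c, IsClass K L φ c → φ ∈ GK N ∧
      (r φ).trace = ((xu (iotaQ k K Q) (pQ K) η c : (MonoidAlgebra k (C2Q K Q))ˣ) :
        MonoidAlgebra k (C2Q K Q)) +
        ((xu (iotaQ k K Q) (pQ K) η c)⁻¹ : (MonoidAlgebra k (C2Q K Q))ˣ) := by
    rintro φ c ⟨ℓ, hφ, P, hP, rfl⟩
    obtain ⟨hℓ, hℓL, A, hA, hA'⟩ := hφ
    have hℓN := not_dvd_two_mul h hNL hℓ hℓL
    refine ⟨mem_GK_of_frob h hℓ hℓN hP hA hA', ?_⟩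
    rw [htr' ℓ φ ⟨hℓ, hℓL, A, hA, hA'⟩, th_eq h _ hℓ hℓN P hP]
    rw [MonoidHom.comp_apply, MonoidHom.comp_apply, map_inv (xu (iotaQ k K Q) (pQ K) η)]
    rfl
  -- Frobenius elements exist
  have hex : ∀ (P : (Ideal (𝓞 K))⁰) (ℓ : ℕ), ℓ.Prime → ¬ ℓ ∣ L → absNorm (P : Ideal (𝓞 K)) = ℓ →
      ∃ φ, IsClass K L φ (ClassGroup.mk0 P) := by
    intro P ℓ hℓ hℓL hP
    obtain ⟨A, hA⟩ := H54.exists_liesOverPrime hℓ
    obtain ⟨φ, hφ⟩ := H54.exists_isFrobeniusAt hℓ hA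
    exact ⟨φ, ℓ, ⟨hℓ, hℓL, A, hA, hφ⟩, P, hP, rfl⟩
  have hsurj : Function.Surjective (pQ K) := QuotientGroup.mk'_surjective _
  refine
    { hH := ?_
      hk := hk
      aug_ι := ?_
      ι_inj := ?_
      ι_sum := ?_
      exp := H61.TE.exists_pow_C2' K
      shape := hsh
      det := hdet
      ex3 := ?_
      F1 := ?_
      F2 := hF2
      gen := ?_
      one_mem := ?_
      dens := ?_
      genus := ?_ }
  · -- `G_K` has index two
    intro a b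
    obtain ⟨x, hx⟩ := IsAlgClosed.exists_pow_nat_eq (k := Qb) (algebraMap ℚ Qb (-(N : ℚ)))
      (n := 2) (by norm_num)
    have hN0 : (N : ℚ) ≠ 0 := by exact_mod_cast h.N_pos.ne'
    have hx0 : x ≠ 0 := by
      rintro rfl
      rw [zero_pow two_ne_zero] at hx
      have : (-(N : ℚ)) = 0 := by
        apply (algebraMap ℚ Qb).injective
        rw [map_zero, ← hx]
      exact hN0 (neg_eq_zero.mp this)
    have key : ∀ g : GQ, g ∈ GK N ↔ omega hx hx0 g = 1 := by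
      intro g
      rw [omega_eq_one_iff]
      constructor
      · intro hg
        exact hg x (by rw [hx]; simp)
      · intro hg y hy
        have h2 : y ^ 2 = x ^ 2 := by rw [hy, hx]; simp
        rcases sq_eq_sq_iff_eq_or_eq_neg.mp h2 with h4 | h4
        · rw [h4, hg]
        · rw [h4, map_neg, hg]
    rw [key, key, key, map_mul]
    rcases Int.units_eq_one_or (omega hx hx0 a) with h1 | h1 <;>
      rcases Int.units_eq_one_or (omega hx hx0 b) with h2 | h2 <;> rw [h1, h2] <;> decide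
  · intro c
    rw [iotaQ_apply, H61.TE.aug_single]
  · intro a b hab
    rw [iotaQ_apply, iotaQ_apply] at hab
    have := MonoidAlgebra.of_injective (R := k) (M := C2Q K Q) hab
    exact congrArg Prod.fst this
  · intro c d hcd
    by_contra hcon
    push Not at hcon
    obtain ⟨h1, h2, h3⟩ := hcon
    have h4 := congrArg (fun z : MonoidAlgebra k (C2Q K Q) => z.coeff (c, 1)) hcd
    have hcc : c⁻¹ ≠ c := by
      intro h5
      apply h1
      rw [pow_two]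
      nth_rw 1 [← h5]
      exact inv_mul_cancel c
    have hdc : d ≠ c := fun h5 => h2 h5.symm
    have hdc' : d⁻¹ ≠ c := fun h5 => h3 h5.symm
    simp only [iotaQ_apply, MonoidAlgebra.coeff_add, Finsupp.add_apply,
      MonoidAlgebra.coeff_single, Finsupp.single_apply, Prod.mk.injEq,
      and_true, if_true, if_neg hcc, if_neg hdc, if_neg hdc', add_zero] at h4
    exact one_ne_zero h4
  · -- an element of order three
    obtain ⟨P, ℓ, hℓ, hℓL, hP, hPη⟩ : ∃ (P : (Ideal (𝓞 K))⁰) (ℓ : ℕ), ℓ.Prime ∧ ¬ ℓ ∣ L ∧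
        absNorm (P : Ideal (𝓞 K)) = ℓ ∧ η (ClassGroup.mk0 P) ≠ 1 := by
      by_contra hcon
      push Not at hcon
      apply hη
      have h1 : η.ker = ⊤ := eq_top_of_primes h L hL η.ker fun P ℓ h1 h2 h3 => hcon P ℓ h1 h2 h3
      ext c
      have h2 : c ∈ η.ker := by rw [h1]; trivial
      rw [MonoidHom.mem_ker.mp h2]
      rfl
    obtain ⟨φ, hφ⟩ := hex P ℓ hℓ hℓL hP
    refine ⟨φ, ?_⟩
    rw [(hF2 φ _ hφ).2, map_add]
    have h1 : H61.TE.aug k (C2Q K Q) ((xu (iotaQ k K Q) (pQ K) η (ClassGroup.mk0 P) :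
        (MonoidAlgebra k (C2Q K Q))ˣ) : MonoidAlgebra k (C2Q K Q)) =
        ((η (ClassGroup.mk0 P) : kˣ) : k) := by
      rw [xu_apply, H61.TE.aug_single]
    have h2 : H61.TE.aug k (C2Q K Q) (((xu (iotaQ k K Q) (pQ K) η (ClassGroup.mk0 P))⁻¹ :
        (MonoidAlgebra k (C2Q K Q))ˣ) : MonoidAlgebra k (C2Q K Q)) =
        (((η (ClassGroup.mk0 P))⁻¹ : kˣ) : k) := by
      rw [← map_inv, xu_apply, H61.TE.aug_single, map_inv]
    rw [h1, h2]
    exact Data.add_inv_ne hk hPη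
  · rintro φ ⟨ℓ, hφ⟩ hne
    rw [htr' ℓ φ hφ] at hne
    obtain ⟨P, hP, -⟩ := Finset.exists_ne_zero_of_sum_ne_zero hne
    rw [H22.Th.primesOver_eq hφ.1, H22.Th.mem_idn] at hP
    have hP0 : P ∈ (Ideal (𝓞 K))⁰ := by
      refine mem_nonZeroDivisors_of_ne_zero ?_
      rintro rfl
      rw [map_zero] at hP
      exact hφ.1.pos.ne hP
    exact ⟨ClassGroup.mk0 ⟨P, hP0⟩, ℓ, hφ, ⟨P, hP0⟩, hP, rfl⟩
  · intro D hD
    have h1 : D.comap (pQ K) = ⊤ := by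
      refine eq_top_of_primes h L hL _ fun P ℓ hℓ hℓL hP => ?_
      obtain ⟨φ, hφ⟩ := hex P ℓ hℓ hℓL hP
      exact hD φ _ hφ
    rw [eq_top_iff]
    intro c _
    obtain ⟨c', rfl⟩ := hsurj c
    have h2 : c' ∈ D.comap (pQ K) := by rw [h1]; trivial
    exact h2
  · exact ⟨⊥, inferInstance, fun _ _ => rfl⟩
  · intro g ω hω
    have hprod : GaloisFactorsThroughFiniteLevel (r.prod ω) := by
      obtain ⟨L₁, hL₁, h1⟩ := hfin
      obtain ⟨L₂, hL₂, h2⟩ := hω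
      refine ⟨L₁ ⊔ L₂, IntermediateField.finiteDimensional_sup L₁ L₂, fun σ hσ => ?_⟩
      rw [MonoidHom.prod_apply, h1 σ fun x hx => hσ x ((le_sup_left : L₁ ≤ L₁ ⊔ L₂) hx),
        h2 σ fun x hx => hσ x ((le_sup_right : L₂ ≤ L₁ ⊔ L₂) hx)]
      rfl
    obtain ⟨ℓ, hℓ, hℓS, A, hA, φ, hφ, j, -, h1, -⟩ :=
      H86.density_hom H86.frobDensityFinite hprod g L.primeFactors
    refine ⟨φ, ⟨ℓ, hℓ, ?_, A, hA, hφ⟩, j, ?_, ?_⟩
    · intro h2
      exact hℓS (Nat.mem_primeFactors.mpr ⟨hℓ, h2, hL⟩)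
    · exact congrArg Prod.fst h1
    · exact congrArg Prod.snd h1
  · intro χ hχ
    have hχ' : χ.comp (pQ K) ≠ 1 := by
      intro h1
      apply hχ
      refine MonoidHom.ext fun c => ?_
      obtain ⟨c', rfl⟩ := hsurj c
      exact DFunLike.congr_fun h1 c'
    obtain ⟨d, hd0, hd1, hd2, hd3⟩ := h.genus_char _ hχ'
    obtain ⟨x, hx⟩ := IsAlgClosed.exists_pow_nat_eq (k := Qb) (algebraMap ℚ Qb (d : ℚ))
      (n := 2) (by norm_num)
    have hx0 : x ≠ 0 := by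
      rintro rfl
      rw [zero_pow two_ne_zero] at hx
      have : (d : ℚ) = 0 := by
        apply (algebraMap ℚ Qb).injective
        rw [map_zero, ← hx]
      exact hd0 (by exact_mod_cast this)
    refine ⟨omega hx hx0, omega_finite hx hx0, ?_, ?_⟩
    · obtain ⟨σ, hσ, hσx⟩ := exists_mem_GK h hx hd1 hd2
      refine ⟨σ, hσ, ?_⟩
      rcases Int.units_eq_one_or (omega hx hx0 σ) with h1 | h1
      · exfalso
        rw [omega_eq_one_iff, hσx] at h1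
        apply hx0
        have h2 : (2 : Qb) * x = 0 := by linear_combination -h1
        exact (mul_eq_zero.mp h2).resolve_left two_ne_zero
      · exact h1
    · rintro φ c ⟨ℓ, hφ, P, hP, rfl⟩
      obtain ⟨hℓ, hℓL, A, hA, hA'⟩ := hφ
      have hℓN := not_dvd_two_mul h hNL hℓ hℓL
      obtain ⟨h1, h2⟩ := hd3 ℓ hℓ hℓN
      have h3 := h2 P hP
      have hℓ2 : ℓ ≠ 2 := by
        rintro rfl
        exact hℓN (dvd_mul_right 2 N)
      have h4 := frob_sqrt hℓ hA hA' hℓ2 h1 (x := x) (by rw [hx]; simp)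
      rw [omega_apply hx hx0] at h4
      have h5 := mul_right_cancel₀ hx0 h4
      have h6 : ((omega hx hx0 φ : ℤˣ) : ℤ) = jacobiSym d ℓ := by exact_mod_cast h5
      apply Units.ext
      rw [h6, ← h3]
      rfl

end data

end Fermat.Agent.H51S
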