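import Mathlib

/-!
# LT-MOD2, Theorem C: the commutative algebra
-/

set_option autoImplicit false

open IsLocalRing Module

namespace Fermat.Agent.H55.LT

section C1

variable {O : Type*} [CommRing O] [IsLocalRing O] [IsNoetherianRing O]
  {A T : Type*} [CommRing A] [CommRing T] [Algebra O A] [Algebra O T]
  [Module.Finite O A]

/-- If `A → T` is surjective, `A` finite over `O`, `T` is `ϖ`-torsion free and `A/ϖ → T/ϖ` is
injective, then `A → T` is bijective. -/
theorem bijective_of_mod {ϖ : O} (hϖ : ϖ ∈ maximalIdeal O) (π : A →ₐ[O] T)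
    (hsurj : Function.Surjective π) (htf : ∀ x : T, ϖ • x = 0 → x = 0)
    (hmod : ∀ a : A, (∃ t : T, π a = ϖ • t) → ∃ b : A, a = ϖ • b) :
    Function.Bijective π := by
  refine ⟨?_, hsurj⟩
  let J : Submodule O A := LinearMap.ker π.toLinearMap
  have hJ : J ≤ Ideal.span {ϖ} • J := by
    intro x hx
    have hx0 : π x = 0 := hx
    obtain ⟨b, rfl⟩ := hmod x ⟨0, by rw [hx0, smul_zero]⟩
    have hb : b ∈ J := by
      rw [map_smul] at hx0
      exact htf _ hx0
    exact Submodule.smul_mem_smul (Ideal.mem_span_singleton_self ϖ) hb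
  have hfg : J.FG := IsNoetherian.noetherian J
  have h0 : J = ⊥ := by
    refine Submodule.eq_bot_of_le_smul_of_le_jacobson_bot (Ideal.span {ϖ}) J hfg hJ ?_
    rw [IsLocalRing.jacobson_eq_maximalIdeal ⊥ bot_ne_top, Ideal.span_singleton_le_iff_mem]
    exact hϖ
  intro x y hxy
  have : x - y ∈ J := by
    show π (x - y) = 0
    rw [map_sub, hxy, sub_self]
  rw [h0, Submodule.mem_bot] at this
  exact sub_eq_zero.1 this

/-- cardinality version of `bijective_of_mod` -/
theorem bijective_of_card {ϖ : O} (hϖ : ϖ ∈ maximalIdeal O) (π : A →ₐ[O] T)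
    (hsurj : Function.Surjective π) (htf : ∀ x : T, ϖ • x = 0 → x = 0)
    (hfin : Finite (A ⧸ Ideal.span {algebraMap O A ϖ}))
    (hcard : Nat.card (A ⧸ Ideal.span {algebraMap O A ϖ}) ≤
      Nat.card (T ⧸ Ideal.span {algebraMap O T ϖ})) :
    Function.Bijective π := by
  refine bijective_of_mod hϖ π hsurj htf ?_
  let I := Ideal.span {algebraMap O A ϖ}
  let J := Ideal.span {algebraMap O T ϖ}
  have hIJ : I ≤ J.comap (π : A →+* T) := by
    rw [Ideal.span_le, Set.singleton_subset_iff]
    show π (algebraMap O A ϖ) ∈ J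
    rw [AlgHom.commutes]
    exact Ideal.mem_span_singleton_self _
  let f : A ⧸ I →+* T ⧸ J := Ideal.quotientMap J (π : A →+* T) hIJ
  have hf : Function.Surjective f := by
    intro y
    obtain ⟨y, rfl⟩ := Ideal.Quotient.mk_surjective y
    obtain ⟨x, rfl⟩ := hsurj y
    exact ⟨Ideal.Quotient.mk I x, rfl⟩
  have hfin' : Finite (T ⧸ J) := Finite.of_surjective f hf
  have hcard' : Nat.card (T ⧸ J) ≤ Nat.card (A ⧸ I) := Nat.card_le_card_of_surjective f hf
  have hinj : Function.Injective f := by
    have := (Nat.bijective_iff_surjective_and_card f).2 ⟨hf, le_antisymm hcard hcard'⟩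
    exact this.1
  rintro a ⟨t, ht⟩
  have h1 : f (Ideal.Quotient.mk I a) = 0 := by
    show Ideal.Quotient.mk J (π a) = 0
    rw [ht, Ideal.Quotient.eq_zero_iff_mem, Algebra.smul_def]
    exact J.mul_mem_right _ (Ideal.mem_span_singleton_self _)
  have h2 : Ideal.Quotient.mk I a = 0 := hinj (by rw [h1, map_zero])
  rw [Ideal.Quotient.eq_zero_iff_mem, Ideal.mem_span_singleton] at h2
  obtain ⟨b, hb⟩ := h2
  exact ⟨b, by rw [Algebra.smul_def, hb]⟩

end C1

section Theta

variable {O : Type*} [CommRing O] [IsLocalRing O] [IsNoetherianRing O]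
  {T B : Type*} [CommRing T] [Algebra O T] [Module.Finite O T]
  [CommRing B] [Algebra O B] [Module.Finite O B] {ι : Type*}

variable (O) in
/-- the algebra generated by the pairs `(t i, a i)` -/
def pairAlg (t : ι → T) (a : ι → B) : Subalgebra O (T × B) :=
  Algebra.adjoin O (Set.range fun i => (t i, a i))

lemma mem_pairAlg (t : ι → T) (a : ι → B) (i : ι) : (t i, a i) ∈ pairAlg O t a :=
  Algebra.subset_adjoin ⟨i, rfl⟩

instance (t : ι → T) (a : ι → B) : Module.Finite O (pairAlg O t a) :=
  inferInstanceAs (Module.Finite O (Subalgebra.toSubmodule (pairAlg O t a)))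

variable (O) in
/-- the first projection -/
def pairFst (t : ι → T) (a : ι → B) : pairAlg O t a →ₐ[O] T :=
  (AlgHom.fst O T B).comp (pairAlg O t a).val

variable (O) in
/-- the second projection -/
def pairSnd (t : ι → T) (a : ι → B) : pairAlg O t a →ₐ[O] B :=
  (AlgHom.snd O T B).comp (pairAlg O t a).val

lemma pairFst_surjective {t : ι → T} (a : ι → B) (ht : Algebra.adjoin O (Set.range t) = ⊤) :
    Function.Surjective (pairFst O t a) := by
  rw [← AlgHom.range_eq_top, eq_top_iff, ← ht, Algebra.adjoin_le_iff]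
  rintro _ ⟨i, rfl⟩
  exact ⟨⟨_, mem_pairAlg t a i⟩, rfl⟩

/-- **Theorem C.** -/
theorem exists_theta {ϖ : O} (hϖ : ϖ ∈ maximalIdeal O) {t : ι → T} {a : ι → B}
    (ht : Algebra.adjoin O (Set.range t) = ⊤) (htf : ∀ x : T, ϖ • x = 0 → x = 0)
    (hfin : Finite (pairAlg O t a ⧸ Ideal.span {algebraMap O (pairAlg O t a) ϖ}))
    (hcard : Nat.card (pairAlg O t a ⧸ Ideal.span {algebraMap O (pairAlg O t a) ϖ}) ≤
      Nat.card (T ⧸ Ideal.span {algebraMap O T ϖ})) :
    ∃ θ : T →ₐ[O] B, ∀ i, θ (t i) = a i := by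
  have h := bijective_of_card hϖ (pairFst O t a) (pairFst_surjective a ht) htf hfin hcard
  let e := AlgEquiv.ofBijective (pairFst O t a) h
  refine ⟨(pairSnd O t a).comp e.symm.toAlgHom, fun i => ?_⟩
  have h1 : e.symm (t i) = ⟨_, mem_pairAlg t a i⟩ := by
    rw [AlgEquiv.symm_apply_eq]; rfl
  show pairSnd O t a (e.symm (t i)) = a i
  rw [h1]; rfl

end Theta

section Local

variable {O : Type*} [CommRing O] [IsLocalRing O] [IsNoetherianRing O]
  {T B : Type*} [CommRing T] [IsLocalRing T] [Algebra O T] [Module.Finite O T]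
  [CommRing B] [IsLocalRing B] [Algebra O B] [Module.Finite O B] {ι : Type*}

/-- common residue map -/
structure ResData (k : Type*) [Field k] [Algebra O k] (t : ι → T) (a : ι → B) where
  rT : T →ₐ[O] k
  rB : B →ₐ[O] k
  ker_T : RingHom.ker rT = maximalIdeal T
  ker_B : RingHom.ker rB = maximalIdeal B
  compat : ∀ i, rT (t i) = rB (a i)

variable {k : Type*} [Field k] [Algebra O k] {t : ι → T} {a : ι → B} (D : ResData (O := O) k t a)

/-- the residue map of the pair algebra -/
def ResData.res : pairAlg O t a →ₐ[O] k := D.rT.comp (pairFst O t a)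

lemma ResData.res_eq : D.res = D.rB.comp (pairSnd O t a) := by
  have key : pairAlg O t a ≤ AlgHom.equalizer (D.rT.comp (AlgHom.fst O T B))
      (D.rB.comp (AlgHom.snd O T B)) := by
    rw [pairAlg, Algebra.adjoin_le_iff]
    rintro _ ⟨i, rfl⟩
    exact D.compat i
  ext x
  exact key x.2

lemma ResData.isUnit_of_res_ne {x : pairAlg O t a} (hx : D.res x ≠ 0) : IsUnit x := by
  -- `x` is a unit in `T × B`
  have h1 : IsUnit (x : T × B) := by
    rw [Prod.isUnit_iff]
    constructor
    · by_contra h
      rw [← mem_nonunits_iff, ← mem_maximalIdeal, ← D.ker_T] at h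
      exact hx h
    · by_contra h
      rw [← mem_nonunits_iff, ← mem_maximalIdeal, ← D.ker_B] at h
      apply hx
      rw [D.res_eq]
      exact h
  have h2 : Algebra.IsIntegral O (T × B) := inferInstance
  have h3 : Algebra.IsIntegral (pairAlg O t a) (T × B) := Algebra.IsIntegral.tower_top O
  exact isUnit_of_map_unit (algebraMap (pairAlg O t a) (T × B)) x h1

include D in
theorem ResData.isLocalRing : IsLocalRing (pairAlg O t a) := by
  have : Nontrivial (pairAlg O t a) := D.res.toRingHom.domain_nontrivial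
  refine IsLocalRing.of_isUnit_or_isUnit_one_sub_self fun x => ?_
  by_cases h : D.res x = 0
  · right
    apply D.isUnit_of_res_ne
    rw [map_sub, map_one, h, sub_zero]
    exact one_ne_zero
  · left
    exact D.isUnit_of_res_ne h

theorem ResData.ker_res : haveI := D.isLocalRing
    RingHom.ker D.res = maximalIdeal (pairAlg O t a) := by
  haveI := D.isLocalRing
  ext x
  rw [RingHom.mem_ker, mem_maximalIdeal, mem_nonunits_iff]
  constructor
  · intro h hu
    exact (hu.map D.res).ne_zero h
  · intro h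
    by_contra hne
    exact h (D.isUnit_of_res_ne hne)

end Local

end Fermat.Agent.H55.LT
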