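import Mathlib
import Fermat.Agent.H55LTC
import Fermat.Agent.H69DihB

/-!
# LT-MOD2, Theorems B and C combined, general form: free signs at every place, extra generators of
square `1`
-/

set_option autoImplicit false

open IsLocalRing Module Matrix
open Fermat.Agent.H69.Dih

namespace Fermat.Agent.H55.LT

section Group

/-- adjoining elements of square one to a finite subgroup of a commutative group -/
theorem exists_subgroup_adjoin {G : Type*} [CommGroup G] (Γ : Subgroup G) (hΓ : Finite Γ)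
    (U : Finset G) (hU : ∀ u ∈ U, u ^ 2 = 1) :
    ∃ Γ' : Subgroup G, Finite Γ' ∧ Γ ≤ Γ' ∧ (∀ u ∈ U, u ∈ Γ') ∧
      Nat.card Γ' ≤ Nat.card Γ * 2 ^ U.card := by
  classical
  induction U using Finset.induction_on with
  | empty => exact ⟨Γ, hΓ, le_rfl, by simp, by simp⟩
  | insert u U hu ih =>
    obtain ⟨Γ', hfin, hle, hmem, hcard⟩ := ih fun x hx => hU x (Finset.mem_insert_of_mem hx)
    have hu2 : u ^ 2 = 1 := hU u (Finset.mem_insert_self u U)
    refine ⟨Γ' ⊔ Subgroup.zpowers u, ?_, hle.trans le_sup_left, ?_, ?_⟩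
    · have hsub : ((Γ' ⊔ Subgroup.zpowers u : Subgroup G) : Set G) ⊆
          (Γ' : Set G) ∪ (fun x => x * u) '' (Γ' : Set G) := by
        intro x hx
        obtain ⟨y, hy, z, hz, rfl⟩ := Subgroup.mem_sup.1 hx
        obtain ⟨n, rfl⟩ := Subgroup.mem_zpowers_iff.1 hz
        rcases Int.even_or_odd n with ⟨m, rfl⟩ | ⟨m, rfl⟩
        · left
          have : u ^ (m + m) = 1 := by
            rw [← two_mul, _root_.zpow_mul]
            have : u ^ (2 : ℤ) = 1 := by exact_mod_cast hu2
            rw [this, _root_.one_zpow]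
          rw [this, mul_one]; exact hy
        · right
          refine ⟨y, hy, ?_⟩
          have : u ^ (2 : ℤ) = 1 := by exact_mod_cast hu2
          show y * u = y * u ^ (2 * m + 1)
          rw [_root_.zpow_add, _root_.zpow_mul, this, _root_.one_zpow, one_mul, zpow_one]
      have hf : ((Γ' : Set G) ∪ (fun x => x * u) '' (Γ' : Set G)).Finite :=
        (Set.toFinite _).union ((Set.toFinite _).image _)
      exact (hf.subset hsub).to_subtype
    · intro x hx
      rcases Finset.mem_insert.1 hx with rfl | hx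
      · exact Subgroup.mem_sup_right (Subgroup.mem_zpowers x)
      · exact Subgroup.mem_sup_left (hmem x hx)
    · have hsub : ((Γ' ⊔ Subgroup.zpowers u : Subgroup G) : Set G) ⊆
          (Γ' : Set G) ∪ (fun x => x * u) '' (Γ' : Set G) := by
        intro x hx
        obtain ⟨y, hy, z, hz, rfl⟩ := Subgroup.mem_sup.1 hx
        obtain ⟨n, rfl⟩ := Subgroup.mem_zpowers_iff.1 hz
        have h3 : u ^ (2 : ℤ) = 1 := by exact_mod_cast hu2
        rcases Int.even_or_odd n with ⟨m, rfl⟩ | ⟨m, rfl⟩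
        · left
          rw [← two_mul, _root_.zpow_mul, h3, _root_.one_zpow, mul_one]; exact hy
        · right
          refine ⟨y, hy, ?_⟩
          show y * u = y * u ^ (2 * m + 1)
          rw [_root_.zpow_add, _root_.zpow_mul, h3, _root_.one_zpow, one_mul, zpow_one]
      have hf : ((Γ' : Set G) ∪ (fun x => x * u) '' (Γ' : Set G)).Finite :=
        (Set.toFinite _).union ((Set.toFinite _).image _)
      have h1 : Nat.card (Γ' ⊔ Subgroup.zpowers u : Subgroup G) ≤ Nat.card Γ' + Nat.card Γ' := by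
        calc Nat.card (Γ' ⊔ Subgroup.zpowers u : Subgroup G)
            = ((Γ' ⊔ Subgroup.zpowers u : Subgroup G) : Set G).ncard := rfl
          _ ≤ ((Γ' : Set G) ∪ (fun x => x * u) '' (Γ' : Set G)).ncard := Set.ncard_le_ncard hsub hf
          _ ≤ (Γ' : Set G).ncard + ((fun x => x * u) '' (Γ' : Set G)).ncard := Set.ncard_union_le _ _
          _ ≤ (Γ' : Set G).ncard + (Γ' : Set G).ncard :=
              Nat.add_le_add_left (Set.ncard_image_le (Set.toFinite _)) _
      rw [Finset.card_insert_of_notMem hu, pow_succ]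
      calc _ ≤ Nat.card Γ' + Nat.card Γ' := h1
        _ = Nat.card Γ' * 2 := by ring
        _ ≤ (Nat.card Γ * 2 ^ U.card) * 2 := Nat.mul_le_mul_right _ hcard
        _ = _ := by ring

end Group

section Bound

universe u v w

variable {G : Type w} [Group G] {H : Subgroup G} {k : Type u} [Field k]

/-- dimension bound with extra generators -/
theorem finrank_le_gen {A : Type v} [CommRing A] [Algebra k A] (π : A →+* k)
    (r : G →* Matrix (Fin 2) (Fin 2) A)
    (hsh : Shape H r) (hdet : ∀ g, (r g).det = 1) (Γ : Subgroup Aˣ) [Finite Γ]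
    (hΓ : (kap (k := k) π r hsh hdet).range ≤ Γ)
    (U : Set A) (hU : ∀ u ∈ U, ∃ γ ∈ Γ, (γ : A) = u)
    (hgen : Algebra.adjoin k (Set.range (fun g => (r g).trace) ∪ U) = ⊤) :
    Module.finrank k A ≤ Nat.card Γ := by
  classical
  set κ := kap (k := k) π r hsh hdet with hκ
  let S : Set A := (fun u : Aˣ => (u : A)) '' (Γ : Set Aˣ)
  have hSfin : S.Finite := (Set.toFinite _).image _
  have hmul : ∀ x ∈ Submodule.span k S, ∀ y ∈ Submodule.span k S, x * y ∈ Submodule.span k S := by
    intro x hx y hy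
    have h1 := Submodule.mul_mem_mul hx hy
    rw [Submodule.span_mul_span] at h1
    refine Submodule.span_mono ?_ h1
    rintro _ ⟨_, ⟨u, hu, rfl⟩, _, ⟨v, hv, rfl⟩, rfl⟩
    exact ⟨u * v, mul_mem hu hv, Units.val_mul _ _⟩
  have hone : (1 : A) ∈ Submodule.span k S :=
    Submodule.subset_span ⟨1, one_mem _, Units.val_one⟩
  let B : Subalgebra k A := (Submodule.span k S).toSubalgebra hone (fun x y hx hy => hmul x hx y hy)
  have hB : Algebra.adjoin k (Set.range (fun g => (r g).trace) ∪ U) ≤ B := by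
    rw [Algebra.adjoin_le_iff]
    rintro x (⟨g, rfl⟩ | hx)
    · change (r g).trace ∈ Submodule.span k S
      rw [Matrix.trace_fin_two]
      by_cases hg : g ∈ H
      · have e1 := chr_eq (k := k) π r hsh hdet ⟨g, hg⟩
        have e2 := chr_eq' (k := k) π r hsh hdet ⟨g, hg⟩
        simp only at e1 e2
        rw [e1, e2, ← Algebra.smul_def, ← Algebra.smul_def]
        refine add_mem (Submodule.smul_mem _ _ (Submodule.subset_span ?_))
          (Submodule.smul_mem _ _ (Submodule.subset_span ?_))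
        · exact ⟨_, hΓ ⟨⟨g, hg⟩, rfl⟩, rfl⟩
        · exact ⟨_, hΓ (inv_mem ⟨⟨g, hg⟩, rfl⟩), rfl⟩
      · rw [(hsh.2 g hg).1, (hsh.2 g hg).2, add_zero]
        exact zero_mem _
    · change x ∈ Submodule.span k S
      obtain ⟨γ, hγ, rfl⟩ := hU x hx
      exact Submodule.subset_span ⟨γ, hγ, rfl⟩
  have htop : Submodule.span k S = ⊤ := by
    rw [hgen, top_le_iff] at hB
    have h1 : B.toSubmodule = ⊤ := by rw [hB]; rfl
    exact h1
  have h1 : Module.finrank k A = Set.finrank k S := by
    rw [Set.finrank, htop, finrank_top]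
  rw [h1]
  haveI := hSfin.fintype
  refine (finrank_span_le_card S).trans ?_
  rw [Set.toFinset_card, ← Nat.card_eq_fintype_card]
  exact Nat.card_image_le (Set.toFinite _)

variable [Finite k]

/-- consequence of Theorem B: the cardinality bound (free signs, extra generators of square 1) -/
theorem card_le_of_type_gen
    (hH : ∀ a b : G, a * b ∈ H ↔ (a ∈ H ↔ b ∈ H))
    (hk : ∀ y : k, y ≠ 0 → y ^ 3 = 1)
    {ι : Type*} (D : ι → Subgroup G) (hD : ∀ v, ∃ g ∈ D v, g ∉ H)
    {κ : Type*} (I : κ → Set G) (N : Set G)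
    (A : Type v) [CommRing A] [IsLocalRing A] [Finite A] [Algebra k A]
    (h2 : (2 : A) = 0) (π : A →+* k) (hπk : ∀ c, π (algebraMap k A c) = c)
    (r : G →* Matrix (Fin 2) (Fin 2) A) (hdet : ∀ g, (r g).det = 1)
    (hbar : Shape H fun g => π.mapMatrix (r g))
    (s : ι → G → A) (hs : ∀ v, ∀ g ∈ D v, s v g ^ 2 = 1)
    (hloc : ∀ v, ∀ g ∈ D v, ∀ g' ∈ D v,
      (r g - s v g • (1 : Matrix (Fin 2) (Fin 2) A)) *
        (r g' - s v g' • (1 : Matrix (Fin 2) (Fin 2) A)) = 0)
    (hI : ∀ w, ∀ g ∈ I w, r g = 1) (hN : ∀ n ∈ N, r n = 1)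
    (hSel : ∀ b : G → Fin 2 → k,
      (∀ g g', b (g * g') = b g + (π.mapMatrix (r g)) *ᵥ b g') →
      (∀ g, ∀ n ∈ N, b (g * n) = b g) →
      (∀ w, ∀ g ∈ I w, b g = 0) →
      (∀ v, ∀ g ∈ D v, ∀ g' ∈ D v, (π.mapMatrix (r g')) *ᵥ b g = b g) →
      ∃ m : Fin 2 → k, ∀ g, b g = (π.mapMatrix (r g)) *ᵥ m - m)
    (U : Finset A) (hU : ∀ u ∈ U, u ^ 2 = 1)
    (hgen : Algebra.adjoin k (Set.range (fun g => (r g).trace) ∪ (U : Set A)) = ⊤) {h : ℕ}
    (hM5 : ∀ c : H →* Aˣ, (∀ g, π (c g) = 1) → (∀ g : H, (g : G) ∈ N → c g = 1) →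
      (∀ v, ∀ g : H, (g : G) ∈ D v → (c g : A) = s v g) → (∀ w, ∀ g : H, (g : G) ∈ I w → c g = 1) →
      Nat.card c.range ≤ h) :
    Nat.card A ≤ Nat.card k ^ (h * 2 ^ U.card) := by
  classical
  have hπ : Function.Surjective π := fun c => ⟨algebraMap k A c, hπk c⟩
  obtain ⟨P, hP, hsh⟩ := exists_conj_shape hH hk D hD I N (Nat.card A) A rfl h2 π hπ r hdet hbar
    s hs hloc hI hN hSel
  have hdet1 : ∀ g, (conj P r g).det = 1 := by
    intro g
    rw [conj_apply, Matrix.det_mul, Matrix.det_mul, hdet, mul_one, ← Matrix.det_mul,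
      Units.mul_inv, Matrix.det_one]
  have hloc1 : ∀ v, ∀ g ∈ D v, ∀ g' ∈ D v,
      (conj P r g - s v g • (1 : Matrix (Fin 2) (Fin 2) A)) *
        (conj P r g' - s v g' • (1 : Matrix (Fin 2) (Fin 2) A)) = 0 := by
    intro v g hg g' hg'
    have h3 : ∀ g, conj P r g - s v g • (1 : Matrix (Fin 2) (Fin 2) A) =
        P.val * (r g - s v g • (1 : Matrix (Fin 2) (Fin 2) A)) * P⁻¹.val := by
      intro g
      rw [conj_apply, mul_sub, sub_mul, mul_smul_comm, smul_mul_assoc, mul_one, Units.mul_inv]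
    rw [h3, h3]
    calc P.val * (r g - s v g • (1 : Matrix (Fin 2) (Fin 2) A)) * P⁻¹.val *
          (P.val * (r g' - s v g' • (1 : Matrix (Fin 2) (Fin 2) A)) * P⁻¹.val)
        = P.val * ((r g - s v g • (1 : Matrix (Fin 2) (Fin 2) A)) * (P⁻¹.val *
          P.val) * (r g' - s v g' • (1 : Matrix (Fin 2) (Fin 2) A))) * P⁻¹.val := by
          simp only [mul_assoc]
      _ = 0 := by
          rw [Units.inv_mul, mul_one, hloc v g hg g' hg', mul_zero, zero_mul]
  set c := kap (k := k) π (conj P r) hsh hdet1 with hc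
  have h2k : (2 : k) = 0 := by rw [← map_ofNat π 2, h2, map_zero]
  have hsq : ∀ x : k, x ^ 2 = 1 → x = 1 := by
    intro x hx
    have : (x - 1) ^ 2 = 0 := by linear_combination hx + (1 - x) * h2k
    exact sub_eq_zero.1 (pow_eq_zero_iff (two_ne_zero)|>.1 this)
  -- the value of `c` is the diagonal entry if the latter has residue `1`
  have key : ∀ g : H, π (conj P r g 0 0) = 1 → (c g : A) = conj P r g 0 0 := by
    intro g hg
    have h4 := chr_eq (k := k) π (conj P r) hsh hdet1 g
    rw [hg, map_one, one_mul] at h4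
    exact h4.symm
  have key1 : ∀ g : H, r g = 1 → c g = 1 := by
    intro g hg
    have h3 : conj P r g 0 0 = 1 := by
      rw [conj_apply, hg, mul_one, Units.mul_inv, Matrix.one_apply_eq]
    apply Units.ext
    rw [key g (by rw [h3, map_one]), h3, Units.val_one]
  have hfin : Finite c.range := inferInstance
  have hgen1 : Algebra.adjoin k (Set.range (fun g => (conj P r g).trace) ∪ (U : Set A)) = ⊤ := by
    rw [← hgen]
    congr 3
    funext g
    rw [conj_apply, Matrix.trace_mul_comm, ← mul_assoc, Units.inv_mul, one_mul]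
  -- the finite subgroup
  let toU : U → Aˣ := fun u => ⟨u, u, by rw [← sq]; exact hU u u.2, by rw [← sq]; exact hU u u.2⟩
  obtain ⟨Γ, hΓf, hΓ, hΓU, hΓc⟩ := exists_subgroup_adjoin c.range hfin (Finset.univ.image toU) (by
    intro x hx
    obtain ⟨u, -, rfl⟩ := Finset.mem_image.1 hx
    exact Units.ext (hU u u.2))
  have h5 : finrank k A ≤ Nat.card Γ := finrank_le_gen (k := k) π (conj P r) hsh hdet1 Γ hΓ U
    (fun u hu => ⟨toU ⟨u, hu⟩, hΓU _ (Finset.mem_image_of_mem _ (Finset.mem_univ _)), rfl⟩) hgen1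
  have h6 : Nat.card c.range ≤ h := by
    refine hM5 c (fun g => π_kap π hπk _ hsh hdet1 g) (fun g hg => key1 g (hN g hg)) ?_
      (fun w g hg => key1 g (hI w g hg))
    intro v g hg
    have h7 := chr_local h2 (conj P r) hsh hdet1 (hD v) (hloc1 v) hg g.2
    rw [key g, h7]
    rw [h7]
    apply hsq
    rw [← map_pow, hs v g hg, map_one]
  have hfd : Module.Finite k A := Module.Finite.of_finite
  rw [Module.natCard_eq_pow_finrank (K := k) (V := A)]
  refine Nat.pow_le_pow_right (Nat.card_pos) (h5.trans (hΓc.trans ?_))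
  refine Nat.mul_le_mul h6 (Nat.pow_le_pow_right (by norm_num) ?_)
  refine Finset.card_image_le.trans ?_
  rw [Finset.card_univ, Fintype.card_coe]

end Bound

end Fermat.Agent.H55.LT
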