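import Mathlib
import Fermat.Agent.H69DihB

/-!
# LT-MOD2: diagonalising `GL₂(𝔽₂)` over `𝔽₄`
-/

set_option autoImplicit false

open Matrix
open Fermat.Agent.H69.Dih

namespace Fermat.Agent.H55.LT

/-- even elements of `GL₂(𝔽₂) = S₃` -/
def Ev (M : Matrix (Fin 2) (Fin 2) (ZMod 2)) : Prop := M = 1 ∨ M.trace = 1

lemma ev_iff (M : Matrix (Fin 2) (Fin 2) (ZMod 2)) : Ev M ↔
    (M 0 0 = 1 ∧ M 0 1 = 0 ∧ M 1 0 = 0 ∧ M 1 1 = 1) ∨ M 0 0 + M 1 1 = 1 := by
  rw [Ev, Matrix.trace_fin_two]
  constructor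
  · rintro (h | h)
    · left; rw [h]; simp
    · right; exact h
  · rintro (⟨h1, h2, h3, h4⟩ | h)
    · left
      ext i j
      fin_cases i <;> fin_cases j <;> simp [h1, h2, h3, h4]
    · right; exact h

lemma zmod_even : ∀ a b c d : ZMod 2, a * d - b * c ≠ 0 →
    ((a = 1 ∧ b = 0 ∧ c = 0 ∧ d = 1) ∨ a + d = 1) → a + b + d = 0 ∧ a + c + d = 0 ∧ b + c = 0 := by
  decide

lemma zmod_odd : ∀ a b c d : ZMod 2, a * d - b * c ≠ 0 →
    ¬ ((a = 1 ∧ b = 0 ∧ c = 0 ∧ d = 1) ∨ a + d = 1) → a + d = 0 ∧ a + b + c = 0 ∧ b + c + d = 0 := by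
  decide

set_option maxRecDepth 100000 in
lemma zmod_mul : ∀ a b c d a' b' c' d' : ZMod 2, a * d - b * c ≠ 0 → a' * d' - b' * c' ≠ 0 →
    (((a * a' + b * c' = 1 ∧ a * b' + b * d' = 0 ∧ c * a' + d * c' = 0 ∧ c * b' + d * d' = 1) ∨
      (a * a' + b * c') + (c * b' + d * d') = 1) ↔
    (((a = 1 ∧ b = 0 ∧ c = 0 ∧ d = 1) ∨ a + d = 1) ↔
      ((a' = 1 ∧ b' = 0 ∧ c' = 0 ∧ d' = 1) ∨ a' + d' = 1))) := by
  decide +kernel

lemma ev_mul (M M' : Matrix (Fin 2) (Fin 2) (ZMod 2)) (h : M.det ≠ 0) (h' : M'.det ≠ 0) :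
    Ev (M * M') ↔ (Ev M ↔ Ev M') := by
  rw [Matrix.det_fin_two] at h h'
  rw [ev_iff, ev_iff, ev_iff]
  simp only [Matrix.mul_apply, Fin.sum_univ_two]
  exact zmod_mul _ _ _ _ _ _ _ _ h h'

variable {k : Type*} [Field k] [Algebra (ZMod 2) k]

lemma two_eq_zero_of_algebra : (2 : k) = 0 := by
  have h : (2 : ZMod 2) = 0 := by decide
  rw [← map_ofNat (algebraMap (ZMod 2) k) 2, h, map_zero]

/-- a primitive third root of unity in `𝔽₄` -/
lemma exists_omega (hk : Nat.card k = 4) : ∃ ω : k, ω ^ 2 = ω + 1 := by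
  have hfin : Finite k := Nat.finite_of_card_ne_zero (by rw [hk]; norm_num)
  classical
  have : Fintype k := Fintype.ofFinite k
  have h2 := two_eq_zero_of_algebra (k := k)
  have hc : Fintype.card k = 4 := by rw [← Nat.card_eq_fintype_card, hk]
  obtain ⟨x, hx⟩ : ∃ x : k, x ∉ ({0, 1} : Finset k) := by
    by_contra hcon
    push Not at hcon
    have h3 : Finset.univ ⊆ ({0, 1} : Finset k) := fun x _ => hcon x
    have h4 := (Finset.card_le_card h3).trans Finset.card_le_two
    rw [Finset.card_univ, hc] at h4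
    omega
  have h0 : x ≠ 0 := fun h => hx (by simp [h])
  have h1 : x ≠ 1 := fun h => hx (by simp [h])
  have h3 : x ^ 3 = 1 := by
    have := FiniteField.pow_card_sub_one_eq_one x h0
    rwa [hc] at this
  refine ⟨x, ?_⟩
  have h4 : (x - 1) * (x ^ 2 + x + 1) = 0 := by linear_combination h3
  rcases mul_eq_zero.1 h4 with h5 | h5
  · exact absurd (sub_eq_zero.1 h5) h1
  · linear_combination h5 - (x + 1) * h2

/-- the diagonalising matrix -/
def diagU (ω : k) (h : ω ^ 2 = ω + 1) : (Matrix (Fin 2) (Fin 2) k)ˣ where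
  val := !![ω + 1, 1; ω, 1]
  inv := !![1, 1; ω, ω + 1]
  val_inv := by
    have h2 := two_eq_zero_of_algebra (k := k)
    ext i j
    fin_cases i <;> fin_cases j <;> simp [Matrix.mul_apply, Fin.sum_univ_two]
    · linear_combination ω * h2
    · linear_combination (ω + 1) * h2
    · linear_combination ω * h2
    · linear_combination ω * h2
  inv_val := by
    have h2 := two_eq_zero_of_algebra (k := k)
    ext i j
    fin_cases i <;> fin_cases j <;> simp [Matrix.mul_apply, Fin.sum_univ_two]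
    · linear_combination ω * h2
    · linear_combination h2
    · linear_combination (ω + ω ^ 2) * h2
    · linear_combination ω * h2

theorem shape_diagU {ω : k} (h : ω ^ 2 = ω + 1) (M : Matrix (Fin 2) (Fin 2) (ZMod 2))
    (hM : M.det ≠ 0) :
    (Ev M → ((diagU ω h).val * M.map (algebraMap (ZMod 2) k) * (diagU ω h)⁻¹.val) 0 1 = 0 ∧
      ((diagU ω h).val * M.map (algebraMap (ZMod 2) k) * (diagU ω h)⁻¹.val) 1 0 = 0) ∧
    (¬ Ev M → ((diagU ω h).val * M.map (algebraMap (ZMod 2) k) * (diagU ω h)⁻¹.val) 0 0 = 0 ∧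
      ((diagU ω h).val * M.map (algebraMap (ZMod 2) k) * (diagU ω h)⁻¹.val) 1 1 = 0) := by
  have h2 := two_eq_zero_of_algebra (k := k)
  have e1 : (diagU ω h).val = !![ω + 1, 1; ω, 1] := rfl
  have e2 : (diagU ω h)⁻¹.val = !![1, 1; ω, ω + 1] := rfl
  rw [Matrix.det_fin_two] at hM
  rw [ev_iff, e1, e2]
  generalize hf : algebraMap (ZMod 2) k = f
  constructor
  · intro hev
    obtain ⟨h3, h4, h5⟩ := zmod_even _ _ _ _ hM hev
    have h3' := congrArg f h3
    have h4' := congrArg f h4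
    have h5' := congrArg f h5
    rw [map_add, map_zero] at h5'
    rw [map_add, map_add, map_zero] at h3' h4'
    constructor
    · simp only [Matrix.mul_apply, Fin.sum_univ_two, Matrix.map_apply, Matrix.of_apply,
        Matrix.cons_val_zero, Matrix.cons_val_one, Matrix.cons_val', Matrix.cons_val_fin_one]
      linear_combination ω * h3' + h4' + f (M 0 1) * h + f (M 0 1) * (1 + ω) * h2
    · simp only [Matrix.mul_apply, Fin.sum_univ_two, Matrix.map_apply, Matrix.of_apply,
        Matrix.cons_val_zero, Matrix.cons_val_one, Matrix.cons_val', Matrix.cons_val_fin_one]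
      linear_combination ω * h3' + h5' + f (M 0 1) * h
  · intro hev
    obtain ⟨h3, h4, h5⟩ := zmod_odd _ _ _ _ hM hev
    have h3' := congrArg f h3
    have h4' := congrArg f h4
    have h5' := congrArg f h5
    rw [map_add, map_zero] at h3'
    rw [map_add, map_add, map_zero] at h4' h5'
    constructor
    · simp only [Matrix.mul_apply, Fin.sum_univ_two, Matrix.map_apply, Matrix.of_apply,
        Matrix.cons_val_zero, Matrix.cons_val_one, Matrix.cons_val', Matrix.cons_val_fin_one]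
      linear_combination ω * h3' + h4' + f (M 0 1) * h + f (M 0 1) * ω * h2
    · simp only [Matrix.mul_apply, Fin.sum_univ_two, Matrix.map_apply, Matrix.of_apply,
        Matrix.cons_val_zero, Matrix.cons_val_one, Matrix.cons_val', Matrix.cons_val_fin_one]
      linear_combination ω * h3' + h5' + f (M 0 1) * h + f (M 0 1) * ω * h2

end Fermat.Agent.H55.LT
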