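import Mathlib
import Fermat.Agent.H86DensityFinal
import Fermat.Agent.H91Inertia

/-!
# Primes with prescribed Frobenius, all places at once
-/

set_option autoImplicit false

open scoped Pointwise
open NumberField

namespace Fermat.Agent.H6

local notation "Qb" => AlgebraicClosure ℚ
local notation "Gq" => (AlgebraicClosure ℚ ≃ₐ[ℚ] AlgebraicClosure ℚ)

local instance isAlgebraicQb6 : Algebra.IsAlgebraic ℚ Qb := AlgebraicClosure.isAlgebraic ℚ
local instance isAlgClosureQb6 : IsAlgClosure ℚ Qb := ⟨inferInstance, inferInstance⟩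
local instance normalQb6 : Normal ℚ Qb := IsAlgClosure.normal ℚ Qb
local instance isGaloisQb6 : IsGalois ℚ Qb := ⟨⟩

section

variable {L : Type*} [Field L] {K : Type*} [Field K] [Algebra K L]

theorem isFrobeniusAt_iff (A : ValuationSubring L) (σ : L ≃ₐ[K] L) (q : ℕ) :
    A.IsFrobeniusAt σ q ↔ σ • A = A ∧ ∀ x ∈ A, σ x - x ^ q ∈ A.nonunits := by
  constructor
  · rintro ⟨hσ, h⟩
    refine ⟨hσ, fun x hx => ?_⟩
    have h2 := h (IsLocalRing.residue A ⟨x, hx⟩)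
    have h3 : IsLocalRing.residue A ((⟨σ, hσ⟩ : A.decompositionSubgroup K) • (⟨x, hx⟩ : A)) =
        IsLocalRing.residue A (⟨x, hx⟩ ^ q) := by rw [map_pow]; exact h2
    rw [← sub_eq_zero, ← map_sub, IsLocalRing.residue_eq_zero_iff] at h3
    exact ValuationSubring.mem_nonunits_iff_exists_mem_maximalIdeal.mpr ⟨_, h3⟩
  · rintro ⟨hσ, h⟩
    refine ⟨hσ, fun y => ?_⟩
    obtain ⟨⟨x, hx⟩, rfl⟩ := IsLocalRing.residue_surjective y
    have h3 : IsLocalRing.residue A ((⟨σ, hσ⟩ : A.decompositionSubgroup K) • (⟨x, hx⟩ : A)) =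
        IsLocalRing.residue A (⟨x, hx⟩ ^ q) := by
      rw [← sub_eq_zero, ← map_sub, IsLocalRing.residue_eq_zero_iff]
      obtain ⟨h4, h5⟩ := ValuationSubring.mem_nonunits_iff_exists_mem_maximalIdeal.mp (h x hx)
      exact h5
    rw [map_pow] at h3
    exact h3

theorem frobenius_conj {A : ValuationSubring L} {σ : L ≃ₐ[K] L} {q : ℕ}
    (h : A.IsFrobeniusAt σ q) (g : L ≃ₐ[K] L) : (g • A).IsFrobeniusAt (g * σ * g⁻¹) q := by
  rw [isFrobeniusAt_iff] at h ⊢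
  obtain ⟨h1, h2⟩ := h
  constructor
  · rw [smul_smul, inv_mul_cancel_right, mul_smul, h1]
  · intro x hx
    have hx' : g⁻¹ x ∈ A := ValuationSubring.mem_pointwise_smul_iff_inv_smul_mem.mp hx
    rw [H91.mem_nonunits_smul_iff']
    have h3 := h2 _ hx'
    rw [map_sub, map_pow]
    have h4 : g⁻¹ ((g * σ * g⁻¹) x) = σ (g⁻¹ x) := by
      simp [AlgEquiv.mul_apply, AlgEquiv.aut_inv]
    rw [h4]
    exact h3

/-- Two Frobenius elements at the same place differ by inertia. -/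
theorem frobenius_inv_mul_mem {A : ValuationSubring L} {σ τ : L ≃ₐ[K] L} {q : ℕ}
    (hσ : A.IsFrobeniusAt σ q) (hτ : A.IsFrobeniusAt τ q) :
    σ⁻¹ * τ ∈ A.inertiaSubgroupIn K := by
  rw [isFrobeniusAt_iff] at hσ hτ
  rw [H91.mem_inertiaSubgroupIn_iff]
  obtain ⟨h1, h2⟩ := hσ
  obtain ⟨h3, h4⟩ := hτ
  have h1' : σ⁻¹ • A = A := by rw [inv_smul_eq_iff, h1]
  refine ⟨by rw [mul_smul, h3, h1'], fun x hx => ?_⟩
  have h5 : σ⁻¹ (τ x - σ x) ∈ A.nonunits := by
    rw [← H91.mem_nonunits_smul_iff', h1]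
    have h6 := h2 x hx
    have h7 := h4 x hx
    have h8 : τ x - σ x = (τ x - x ^ q) - (σ x - x ^ q) := by ring
    rw [h8]
    obtain ⟨a, ha⟩ := ValuationSubring.mem_nonunits_iff_exists_mem_maximalIdeal.mp h7
    obtain ⟨b, hb⟩ := ValuationSubring.mem_nonunits_iff_exists_mem_maximalIdeal.mp h6
    exact ValuationSubring.mem_nonunits_iff_exists_mem_maximalIdeal.mpr
      ⟨_, Ideal.sub_mem _ ha hb⟩
  rw [map_sub] at h5
  have h9 : (σ⁻¹ * τ) x - x = σ⁻¹ (τ x) - σ⁻¹ (σ x) := by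
    rw [AlgEquiv.mul_apply]
    congr 1
    exact (σ.symm_apply_apply x).symm
  rw [h9]
  exact h5

end

/-- **Primes with prescribed Frobenius class** (up to the choice of generators of cyclic groups),
unramified in `M`, with all places controlled. -/
theorem good_prime (M : IntermediateField ℚ Qb) [FiniteDimensional ℚ M] [Normal ℚ M]
    (σ : Gq) (S : Finset ℕ) :
    ∃ ℓ : ℕ, ℓ.Prime ∧ ℓ ∉ S ∧
      (∀ P : ValuationSubring Qb, P.LiesOverPrime ℓ → ∀ τ ∈ P.inertiaSubgroupIn ℚ,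
        ∀ x ∈ M, τ x = x) ∧
      ∃ (A : ValuationSubring Qb) (φ : Gq), A.LiesOverPrime ℓ ∧ A.IsFrobeniusAt φ ℓ ∧
        (∃ j : ℕ, ∀ x ∈ M, σ x = (φ ^ j) x) ∧ (∃ j : ℕ, ∀ x ∈ M, φ x = (σ ^ j) x) ∧
        ∀ P : ValuationSubring Qb, P.LiesOverPrime ℓ → ∀ φ' : Gq, P.IsFrobeniusAt φ' ℓ →
          ∃ g : Gq, ∀ x ∈ M, φ' x = (g * φ * g⁻¹) x := by
  obtain ⟨ℓ, hℓ, hℓS, A, hA, φ, hφ, hunr, hz⟩ :=
    H86.frobenius_density_aux H86.frobDensityFinite M σ S
  have hres : ∀ (τ : Gq) (x : Qb) (hx : x ∈ M),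
      ((AlgEquiv.restrictNormalHom M τ ⟨x, hx⟩ : M) : Qb) = τ x := fun τ x hx =>
    AlgEquiv.restrictNormal_commutes τ M ⟨x, hx⟩
  have hone : ∀ τ : Gq, AlgEquiv.restrictNormalHom M τ = 1 → ∀ x ∈ M, τ x = x := by
    intro τ hτ x hx
    rw [← hres τ x hx, hτ]; rfl
  -- inertia at `A` is trivial on `M`
  have hinA : ∀ τ ∈ A.inertiaSubgroupIn ℚ, AlgEquiv.restrictNormalHom M τ = 1 := by
    intro τ hτ
    apply hunr
    intro x
    rw [H86.mem_centre]
    rw [H91.mem_inertiaSubgroupIn_iff] at hτ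
    have hxA : ((x : M) : Qb) ∈ A := by
      have := H54.integral_mem A (H86.toZb M x)
      exact this
    have h1 := hτ.2 _ hxA
    have h2 : ((((AlgEquiv.restrictNormalHom M τ) • x - x : 𝓞 M) : M) : Qb) =
        τ ((x : M) : Qb) - ((x : M) : Qb) := by
      have h3 : ((((AlgEquiv.restrictNormalHom M τ) • x : 𝓞 M) : M) : Qb) = τ ((x : M) : Qb) :=
        AlgEquiv.restrictNormal_commutes τ M (x : M)
      rw [← h3]; rfl
    rw [h2]
    exact h1
  -- inertia at any place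
  have hinP : ∀ P : ValuationSubring Qb, P.LiesOverPrime ℓ → ∀ τ ∈ P.inertiaSubgroupIn ℚ,
      AlgEquiv.restrictNormalHom M τ = 1 := by
    intro P hP τ hτ
    obtain ⟨g, rfl⟩ := H54.exists_smul_eq hℓ hA hP
    have h1 := H91.conj_mem_inertia hτ g⁻¹
    rw [inv_smul_smul, inv_inv] at h1
    have h2 := hinA _ h1
    rw [map_mul, map_mul, map_inv] at h2
    have h3 : AlgEquiv.restrictNormalHom M τ = AlgEquiv.restrictNormalHom M g *
        ((AlgEquiv.restrictNormalHom M g)⁻¹ * AlgEquiv.restrictNormalHom M τ *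
          AlgEquiv.restrictNormalHom M g) * (AlgEquiv.restrictNormalHom M g)⁻¹ := by group
    rw [h3, h2]; group
  have hfin : Finite (M ≃ₐ[ℚ] M) := inferInstance
  have h1 : AlgEquiv.restrictNormalHom M σ ∈ Subgroup.zpowers (AlgEquiv.restrictNormalHom M φ) := by
    rw [hz]; exact Subgroup.mem_zpowers _
  have h2 : AlgEquiv.restrictNormalHom M φ ∈ Subgroup.zpowers (AlgEquiv.restrictNormalHom M σ) := by
    rw [← hz]; exact Subgroup.mem_zpowers _
  rw [← mem_powers_iff_mem_zpowers] at h1 h2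
  obtain ⟨j, hj⟩ := h1
  obtain ⟨i, hi⟩ := h2
  simp only at hj hi
  rw [← map_pow] at hj hi
  refine ⟨ℓ, hℓ, hℓS, fun P hP τ hτ => hone τ (hinP P hP τ hτ), A, φ, hA, hφ,
    ⟨j, fun x hx => ?_⟩, ⟨i, fun x hx => ?_⟩, ?_⟩
  · rw [← hres σ x hx, ← hj, hres]
  · rw [← hres φ x hx, ← hi, hres]
  · intro P hP φ' hφ'
    obtain ⟨g, rfl⟩ := H54.exists_smul_eq hℓ hA hP
    refine ⟨g, fun x hx => ?_⟩
    have h3 := frobenius_inv_mul_mem (frobenius_conj hφ g) hφ'
    have h4 := hinP _ hP _ h3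
    rw [map_mul, map_inv, inv_mul_eq_one] at h4
    rw [← hres φ' x hx, ← h4, hres]

end Fermat.Agent.H6
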