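import Mathlib
import Fermat.Agent.H6TWFrob

/-!
# LT-MOD2, module M6: Selmer conditions for `E[2]` (Step D)

`rb : Gq →* GL (Fin 2) (ZMod 2)` is the mod 2 representation, `V = Fin 2 → ZMod 2`.
-/

set_option autoImplicit false

open scoped Pointwise
open Matrix

namespace Fermat.Agent.H6.MD

local notation "Qb" => AlgebraicClosure ℚ
local notation "Gq" => (AlgebraicClosure ℚ ≃ₐ[ℚ] AlgebraicClosure ℚ)

/-- The module `E[2]`. -/
abbrev V2 : Type := Fin 2 → ZMod 2

/-- level constant functions (right cosets of the Galois group of a finite extension) -/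
def LevC {X : Type*} (f : Gq → X) : Prop :=
  ∃ F : IntermediateField ℚ Qb, FiniteDimensional ℚ F ∧
    ∀ g τ : Gq, (∀ x ∈ F, τ x = x) → f (g * τ) = f g

/-- action of a matrix over `ZMod 2` on `J²` -/
def mv {J : Type*} [AddCommGroup J] [Module (ZMod 2) J] (A : Matrix (Fin 2) (Fin 2) (ZMod 2))
    (w : Fin 2 → J) : Fin 2 → J := fun i => ∑ j, A i j • w j

/-- `b` is a 1-cocycle with values in `V ⊗ J = J²` (`J` an `F_2`-vector space),
`g` acting by the matrix `rb g`. -/
def Coc {Γ : Type*} [Group Γ] (rb : Γ →* GL (Fin 2) (ZMod 2)) {J : Type*} [AddCommGroup J]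
    [Module (ZMod 2) J] (b : Γ → Fin 2 → J) : Prop :=
  ∀ g h, b (g * h) = b g + mv (rb g).val (b h)

section mv

variable {J : Type*} [AddCommGroup J] [Module (ZMod 2) J]

/-- coboundaries -/
def Cob {Γ : Type*} [Group Γ] (rb : Γ →* GL (Fin 2) (ZMod 2)) (b : Γ → Fin 2 → J) : Prop :=
  ∃ w : Fin 2 → J, ∀ g, b g = mv (rb g).val w - w

theorem mv_apply (A : Matrix (Fin 2) (Fin 2) (ZMod 2)) (w : Fin 2 → J) (i : Fin 2) :
    mv A w i = ∑ j, A i j • w j := rfl

@[simp] theorem mv_one (w : Fin 2 → J) : mv 1 w = w := by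
  funext i
  simp [mv, Matrix.one_apply]

theorem mv_mul (A B : Matrix (Fin 2) (Fin 2) (ZMod 2)) (w : Fin 2 → J) :
    mv (A * B) w = mv A (mv B w) := by
  funext i
  simp only [mv, Matrix.mul_apply, Fin.sum_univ_two, smul_add, add_smul, smul_smul]
  abel

@[simp] theorem mv_add (A : Matrix (Fin 2) (Fin 2) (ZMod 2)) (v w : Fin 2 → J) :
    mv A (v + w) = mv A v + mv A w := by
  funext i
  simp only [mv, Pi.add_apply, Fin.sum_univ_two, smul_add]
  abel

@[simp] theorem mv_sub (A : Matrix (Fin 2) (Fin 2) (ZMod 2)) (v w : Fin 2 → J) :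
    mv A (v - w) = mv A v - mv A w := by
  funext i
  simp only [mv, Pi.sub_apply, Fin.sum_univ_two, smul_sub]
  abel

@[simp] theorem mv_neg (A : Matrix (Fin 2) (Fin 2) (ZMod 2)) (v : Fin 2 → J) :
    mv A (-v) = - mv A v := by
  funext i
  simp only [mv, Pi.neg_apply, Fin.sum_univ_two, smul_neg]
  abel

@[simp] theorem mv_zero (A : Matrix (Fin 2) (Fin 2) (ZMod 2)) :
    mv A (0 : Fin 2 → J) = 0 := by
  funext i
  simp [mv]

theorem mv_eq_mulVec (A : Matrix (Fin 2) (Fin 2) (ZMod 2)) (v : V2) : mv A v = A *ᵥ v := by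
  funext i
  simp [mv, Matrix.mulVec, dotProduct]

theorem mv_smul (A : Matrix (Fin 2) (Fin 2) (ZMod 2)) (c : ZMod 2) (v : Fin 2 → J) :
    mv A (c • v) = c • mv A v := by
  funext i
  simp only [mv, Pi.smul_apply, Fin.sum_univ_two, smul_add, smul_smul, mul_comm]

theorem two_eq_zero (x : J) : x + x = 0 := by
  have h : (2 : ZMod 2) • x = 0 := by
    have : (2 : ZMod 2) = 0 := by decide
    rw [this, zero_smul]
  rwa [two_smul] at h

end mv

section Sel

variable {J : Type*} [AddCommGroup J] [Module (ZMod 2) J] (rb : Gq →* GL (Fin 2) (ZMod 2))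

/-- The local condition `β_v ∈ l_v` : up to a coboundary, `b` takes values in the vectors fixed by
the decomposition group. -/
def InL (P : ValuationSubring Qb) (b : Gq → Fin 2 → J) : Prop :=
  ∃ w : Fin 2 → J, ∀ g ∈ P.decompositionSubgroup ℚ, ∀ h ∈ P.decompositionSubgroup ℚ,
    mv (rb h).val (b g - (mv (rb g).val w - w)) = b g - (mv (rb g).val w - w)

/-- the cocycle kills the inertia group at `P` -/
def UnrAt (P : ValuationSubring Qb) (b : Gq → Fin 2 → J) : Prop :=
  ∀ τ ∈ P.inertiaSubgroupIn ℚ, b τ = 0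

/-- The Selmer cocycles for the finite set of primes `S` (bad primes, including 2, and auxiliary
primes). -/
structure Sel (S : Finset ℕ) (b : Gq → Fin 2 → J) : Prop where
  coc : Coc rb b
  lev : LevC b
  unr : ∀ ℓ : ℕ, ℓ.Prime → ℓ ∉ S → ∀ P : ValuationSubring Qb, P.LiesOverPrime ℓ → UnrAt P b
  inL : ∀ ℓ ∈ S, ∀ P : ValuationSubring Qb, P.LiesOverPrime ℓ → InL rb P b


/-- All Selmer classes vanish. -/
def SelZero (S : Finset ℕ) : Prop := ∀ b : Gq → V2, Sel rb S b → Cob rb b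

/-- The reciprocity statement (global reciprocity for `b ∪ b'`, all local terms but the one at `q`
being zero). -/
def Recip (S : Finset ℕ) (q : ℕ) : Prop :=
  ∀ b b' : Gq → V2, Coc rb b → Coc rb b' → LevC b → LevC b' →
    (∀ ℓ : ℕ, ℓ.Prime → ℓ ∉ S → ℓ ≠ q → ∀ P : ValuationSubring Qb, P.LiesOverPrime ℓ →
      UnrAt P b ∧ UnrAt P b') →
    (∀ ℓ ∈ S, ∀ P : ValuationSubring Qb, P.LiesOverPrime ℓ → InL rb P b ∧ InL rb P b') →
    (∀ P : ValuationSubring Qb, P.LiesOverPrime q → UnrAt P b ∧ InL rb P b') →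
    (∀ P : ValuationSubring Qb, P.LiesOverPrime q → ∀ φ : Gq, P.IsFrobeniusAt φ q →
      ∀ w : V2, b φ ≠ mv (rb φ).val w - w) →
    ∀ P : ValuationSubring Qb, P.LiesOverPrime q → UnrAt P b'

end Sel

end Fermat.Agent.H6.MD
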