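import Mathlib
import Fermat.Agent.H46LTDefs
import Fermat.Agent.H6MDDefs

/-!
# LT-MOD2: translation of the Selmer hypothesis from `𝔽₂` to a field extension, and to a conjugate
representation
-/

set_option autoImplicit false

open Matrix
open Fermat.Agent.H53 (GQ M2)

namespace Fermat.Agent.H55.LT

/-- The vanishing of the (strict) Selmer group over `𝔽₂`, raw form (weaker than `SelZero` of
H46 and H6). -/
def Sel0 (rb : GQ →* M2 (ZMod 2)) (S : Set ℕ) : Prop :=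
  ∀ b : GQ → Fin 2 → ZMod 2,
    (∀ g h, b (g * h) = b g + (rb g) *ᵥ (b h)) →
    (∃ L : IntermediateField ℚ (AlgebraicClosure ℚ), FiniteDimensional ℚ L ∧
      ∀ g σ : GQ, (∀ x ∈ L, σ x = x) → b (g * σ) = b g) →
    (∀ ℓ : ℕ, ℓ.Prime → ℓ ∉ S → ∀ P : ValuationSubring (AlgebraicClosure ℚ), P.LiesOverPrime ℓ →
      ∀ σ ∈ P.inertiaSubgroupIn ℚ, b σ = 0) →
    (∀ v : ℕ, v.Prime → v ∈ S → ∀ P : ValuationSubring (AlgebraicClosure ℚ), P.LiesOverPrime v →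
      ∀ g ∈ P.decompositionSubgroup ℚ, ∀ h ∈ P.decompositionSubgroup ℚ, (rb h) *ᵥ (b g) = b g) →
    ∃ x : Fin 2 → ZMod 2, ∀ g, b g = (rb g) *ᵥ x - x

/-- from helper46's form -/
theorem Sel0.of_selZero {rb : GQ →* M2 (ZMod 2)} {S : Set ℕ} (h : Fermat.Agent.LT.SelZero rb S) :
    Sel0 rb S := by
  intro b h1 h2 h3 h4
  refine h b ⟨h1, h2, h3, ?_⟩
  intro v hv hvS P hP
  refine ⟨0, fun g hg h' hh' => ?_⟩
  have : (rb g).mulVec (0 : Fin 2 → ZMod 2) - 0 = 0 := by rw [Matrix.mulVec_zero, sub_zero]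
  rw [this, sub_zero]
  exact h4 v hv hvS P hP g hg h' hh'

/-- from helper6's form -/
theorem Sel0.of_selZero' {rb : GQ →* GL (Fin 2) (ZMod 2)} {S : Finset ℕ}
    (hS : ∀ v ∈ S, v.Prime)
    (h : Fermat.Agent.H6.MD.SelZero rb S) :
    Sel0 ((Units.coeHom (M2 (ZMod 2))).comp rb) (S : Set ℕ) := by
  intro b h1 h2 h3 h4
  have h5 : Fermat.Agent.H6.MD.Sel rb S b := by
    refine ⟨?_, h2, ?_, ?_⟩
    · intro g h'
      rw [Fermat.Agent.H6.MD.mv_eq_mulVec]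
      exact h1 g h'
    · intro ℓ hℓ hS' P hP
      exact h3 ℓ hℓ hS' P hP
    · intro v hvS P hP
      refine ⟨0, fun g hg h' hh' => ?_⟩
      rw [Fermat.Agent.H6.MD.mv_zero, sub_zero, sub_zero, Fermat.Agent.H6.MD.mv_eq_mulVec]
      exact h4 v (hS v hvS) hvS P hP g hg h' hh'
  obtain ⟨w, hw⟩ := h b h5
  refine ⟨w, fun g => ?_⟩
  rw [hw g, Fermat.Agent.H6.MD.mv_eq_mulVec]
  rfl

section Coeff

variable {k : Type*} [Field k] [Algebra (ZMod 2) k]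

lemma functional_mulVec (f : k →ₗ[ZMod 2] ZMod 2) (A : M2 (ZMod 2)) (w : Fin 2 → k) :
    (fun i => f ((A.map (algebraMap (ZMod 2) k) *ᵥ w) i)) = A *ᵥ (fun i => f (w i)) := by
  funext i
  simp only [Matrix.mulVec, dotProduct, Fin.sum_univ_two, Matrix.map_apply, map_add]
  rw [← Algebra.smul_def, ← Algebra.smul_def, map_smul, map_smul, smul_eq_mul, smul_eq_mul]

/-- the strict Selmer group with coefficients in `k` vanishes -/
theorem Sel0.coeff [Finite k] {rb : GQ →* M2 (ZMod 2)} {S : Set ℕ} (h : Sel0 rb S)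
    (b : GQ → Fin 2 → k)
    (h1 : ∀ g h, b (g * h) = b g + ((rb g).map (algebraMap (ZMod 2) k)) *ᵥ (b h))
    (h2 : ∃ L : IntermediateField ℚ (AlgebraicClosure ℚ), FiniteDimensional ℚ L ∧
      ∀ g σ : GQ, (∀ x ∈ L, σ x = x) → b (g * σ) = b g)
    (h3 : ∀ ℓ : ℕ, ℓ.Prime → ℓ ∉ S → ∀ P : ValuationSubring (AlgebraicClosure ℚ),
      P.LiesOverPrime ℓ → ∀ σ ∈ P.inertiaSubgroupIn ℚ, b σ = 0)
    (h4 : ∀ v : ℕ, v.Prime → v ∈ S → ∀ P : ValuationSubring (AlgebraicClosure ℚ),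
      P.LiesOverPrime v → ∀ g ∈ P.decompositionSubgroup ℚ, ∀ h ∈ P.decompositionSubgroup ℚ,
        ((rb h).map (algebraMap (ZMod 2) k)) *ᵥ (b g) = b g) :
    ∃ x : Fin 2 → k, ∀ g, b g = ((rb g).map (algebraMap (ZMod 2) k)) *ᵥ x - x := by
  classical
  haveI : Module.Finite (ZMod 2) k := Module.Finite.of_finite
  let B := Module.finBasis (ZMod 2) k
  have key : ∀ i, ∃ x : Fin 2 → ZMod 2, ∀ g, (fun j => B.coord i (b g j)) = (rb g) *ᵥ x - x := by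
    intro i
    apply h
    · intro g h'
      funext j
      rw [h1 g h', Pi.add_apply, map_add, Pi.add_apply, ← functional_mulVec]
    · obtain ⟨L, hL, hb⟩ := h2
      refine ⟨L, hL, fun g σ hσ => ?_⟩
      rw [hb g σ hσ]
    · intro ℓ hℓ hS P hP σ hσ
      funext j
      rw [h3 ℓ hℓ hS P hP σ hσ]
      simp
    · intro v hv hS P hP g hg h' hh'
      rw [← functional_mulVec, h4 v hv hS P hP g hg h' hh']
  choose x hx using key
  refine ⟨fun j => ∑ i, (x i j) • B i, fun g => ?_⟩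
  funext j
  apply B.ext_elem
  intro i
  have h5 := congrFun (hx i g) j
  have h6 : (fun j => B.coord i ((fun j => ∑ i, (x i j) • B i) j)) = x i := by
    funext j
    simp [Finsupp.single_apply]
  have h7 := congrFun (functional_mulVec (B.coord i) (rb g) (fun j => ∑ i, (x i j) • B i)) j
  rw [h6] at h7
  have h8 := congrFun h6 j
  change B.coord i (b g j) = B.coord i (_)
  rw [Pi.sub_apply, map_sub]
  change B.coord i (b g j) = _
  have h5' : B.coord i (b g j) = (rb g *ᵥ x i) j - x i j := h5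
  rw [h5', h7]
  congr 1
  exact h8.symm

/-- the conjugate version -/
theorem Sel0.conj [Finite k] {rb : GQ →* M2 (ZMod 2)} {S : Set ℕ} (h : Sel0 rb S)
    (Q : (Matrix (Fin 2) (Fin 2) k)ˣ) (rk : GQ → Matrix (Fin 2) (Fin 2) k)
    (hrk : ∀ g, rk g = Q.val * (rb g).map (algebraMap (ZMod 2) k) * Q⁻¹.val)
    (b : GQ → Fin 2 → k)
    (h1 : ∀ g h, b (g * h) = b g + rk g *ᵥ (b h))
    (h2 : ∃ L : IntermediateField ℚ (AlgebraicClosure ℚ), FiniteDimensional ℚ L ∧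
      ∀ g σ : GQ, (∀ x ∈ L, σ x = x) → b (g * σ) = b g)
    (h3 : ∀ ℓ : ℕ, ℓ.Prime → ℓ ∉ S → ∀ P : ValuationSubring (AlgebraicClosure ℚ),
      P.LiesOverPrime ℓ → ∀ σ ∈ P.inertiaSubgroupIn ℚ, b σ = 0)
    (h4 : ∀ v : ℕ, v.Prime → v ∈ S → ∀ P : ValuationSubring (AlgebraicClosure ℚ),
      P.LiesOverPrime v → ∀ g ∈ P.decompositionSubgroup ℚ, ∀ h ∈ P.decompositionSubgroup ℚ,
        rk h *ᵥ (b g) = b g) :
    ∃ x : Fin 2 → k, ∀ g, b g = rk g *ᵥ x - x := by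
  have hQ : ∀ w : Fin 2 → k, Q.val *ᵥ (Q⁻¹.val *ᵥ w) = w := by
    intro w; rw [Matrix.mulVec_mulVec, Units.mul_inv, Matrix.one_mulVec]
  have hQ' : ∀ w : Fin 2 → k, Q⁻¹.val *ᵥ (Q.val *ᵥ w) = w := by
    intro w; rw [Matrix.mulVec_mulVec, Units.inv_mul, Matrix.one_mulVec]
  have hrk' : ∀ g (w : Fin 2 → k), Q⁻¹.val *ᵥ (rk g *ᵥ w) =
      (rb g).map (algebraMap (ZMod 2) k) *ᵥ (Q⁻¹.val *ᵥ w) := by
    intro g w
    rw [hrk g, ← Matrix.mulVec_mulVec, ← Matrix.mulVec_mulVec, hQ']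
  obtain ⟨x, hx⟩ := h.coeff (fun g => Q⁻¹.val *ᵥ b g)
    (by
      intro g h'
      change Q⁻¹.val *ᵥ b (g * h') = _
      rw [h1, Matrix.mulVec_add, hrk'])
    (by
      obtain ⟨L, hL, hb⟩ := h2
      refine ⟨L, hL, fun g σ hσ => ?_⟩
      change Q⁻¹.val *ᵥ b (g * σ) = _
      rw [hb g σ hσ])
    (by
      intro ℓ hℓ hS P hP σ hσ
      change Q⁻¹.val *ᵥ b σ = _
      rw [h3 ℓ hℓ hS P hP σ hσ, Matrix.mulVec_zero])
    (by
      intro v hv hS P hP g hg h' hh'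
      rw [← hrk', h4 v hv hS P hP g hg h' hh'])
  refine ⟨Q.val *ᵥ x, fun g => ?_⟩
  have h5 := hx g
  have h6 : b g = Q.val *ᵥ (Q⁻¹.val *ᵥ b g) := (hQ _).symm
  rw [h6, h5, Matrix.mulVec_sub]
  congr 1
  have h7 := hrk' g (Q.val *ᵥ x)
  rw [hQ'] at h7
  rw [← h7, hQ]

end Coeff

end Fermat.Agent.H55.LT
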