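import Mathlib
import Fermat.Agent.H55LTC
import Fermat.Agent.H55LTC3
import Fermat.Agent.H55LTRes
import Fermat.Agent.H55LTSel

/-!
# LT-MOD2, module M4: the bound for `A0 / 2`
-/

set_option autoImplicit false

open IsLocalRing Module Matrix
open Fermat.Agent.H69.Dih
open Fermat.Agent.H53 (GQ M2 MCont)

namespace Fermat.Agent.H55.LT

section PGroup

/-- units with residue `1` in a finite local ring of characteristic 2 form a 2-group -/
theorem isPGroup_of_residue {A k : Type*} [CommRing A] [IsLocalRing A] [Finite A] [Field k]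
    (h2 : (2 : A) = 0) (π : A →+* k) (Γ : Subgroup Aˣ) (hΓ : ∀ u ∈ Γ, π (u : A) = 1) :
    IsPGroup 2 Γ := by
  have hchar : CharP A 2 := by
    haveI := CharTwo.of_one_ne_zero_of_two_eq_zero (R := A) one_ne_zero h2
    infer_instance
  haveI : ExpChar A 2 := ExpChar.prime Nat.prime_two
  obtain ⟨n, hn⟩ := IsArtinianRing.isNilpotent_jacobson_bot (R := A)
  rw [IsLocalRing.jacobson_eq_maximalIdeal ⊥ bot_ne_top] at hn
  rintro ⟨u, hu⟩
  have hm : (u : A) - 1 ∈ maximalIdeal A := by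
    rw [mem_maximalIdeal, mem_nonunits_iff]
    intro hunit
    have h3 := (hunit.map π).ne_zero
    rw [map_sub, map_one, hΓ u hu, sub_self] at h3
    exact h3 rfl
  refine ⟨n, ?_⟩
  apply Subtype.ext
  apply Units.ext
  rw [SubgroupClass.coe_pow, Units.val_pow_eq_pow_val]
  have h4 : ((u : A) - 1) ^ 2 ^ n = 0 := by
    have h5 : ((u : A) - 1) ^ n ∈ maximalIdeal A ^ n := Ideal.pow_mem_pow hm n
    rw [hn] at h5
    have h6 : ((u : A) - 1) ^ n = 0 := h5
    obtain ⟨m, hm⟩ := Nat.exists_eq_add_of_le (Nat.lt_two_pow_self (n := n)).le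
    rw [hm, pow_add, h6, zero_mul]
  rw [sub_pow_expChar_pow, one_pow] at h4
  exact sub_eq_zero.1 h4

end PGroup

section Algebra

variable {O : Type} [CommRing O] {k : Type} [Field k] [Algebra O k]

/-- the `k`-algebra structure on `A0 / 2` -/
theorem exists_kAlg (hOk : Function.Surjective (algebraMap O k))
    (hker : RingHom.ker (algebraMap O k) = Ideal.span {(2 : O)})
    (A0 : Type) [CommRing A0] [Algebra O A0] :
    ∃ j : k →+* A0 ⧸ Ideal.span {(2 : A0)}, ∀ x : O,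
      j (algebraMap O k x) = Ideal.Quotient.mk _ (algebraMap O A0 x) := by
  let f : O →+* A0 ⧸ Ideal.span {(2 : A0)} := (Ideal.Quotient.mk _).comp (algebraMap O A0)
  have hf : RingHom.ker (algebraMap O k) ≤ RingHom.ker f := by
    rw [hker, Ideal.span_le, Set.singleton_subset_iff]
    show f 2 = 0
    show Ideal.Quotient.mk _ (algebraMap O A0 2) = 0
    rw [map_ofNat, Ideal.Quotient.eq_zero_iff_mem]
    exact Ideal.mem_span_singleton_self _
  refine ⟨RingHom.liftOfSurjective (algebraMap O k) hOk ⟨f, hf⟩, fun x => ?_⟩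
  exact RingHom.liftOfRightInverse_comp_apply _ _ _ ⟨f, hf⟩ x

/-- generation of `A0 / 2` over `k` -/
theorem adjoin_quot_eq_top {A0 : Type} [CommRing A0] [Algebra O A0]
    [Algebra k (A0 ⧸ Ideal.span {(2 : A0)})]
    (hj : ∀ x : O, algebraMap k (A0 ⧸ Ideal.span {(2 : A0)})
      (algebraMap O k x) = Ideal.Quotient.mk _ (algebraMap O A0 x))
    (X : Set A0) (hX : Algebra.adjoin O X = ⊤) :
    Algebra.adjoin k (Ideal.Quotient.mk (Ideal.span {(2 : A0)}) '' X) = ⊤ := by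
  rw [eq_top_iff]
  rintro y -
  obtain ⟨x, rfl⟩ := Ideal.Quotient.mk_surjective y
  have hx : x ∈ Algebra.adjoin O X := by rw [hX]; trivial
  induction hx using Algebra.adjoin_induction with
  | mem x hx => exact Algebra.subset_adjoin ⟨x, hx, rfl⟩
  | algebraMap c =>
    rw [← hj]
    exact Subalgebra.algebraMap_mem _ _
  | add x y _ _ hx hy => rw [map_add]; exact add_mem hx hy
  | mul x y _ _ hx hy => rw [map_mul]; exact mul_mem hx hy

end Algebra

lemma inertia_le_dec (P : ValuationSubring (AlgebraicClosure ℚ)) {g : GQ}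
    (hg : g ∈ P.inertiaSubgroupIn ℚ) : g ∈ P.decompositionSubgroup ℚ := by
  obtain ⟨x, -, rfl⟩ := Subgroup.mem_map.1 hg
  exact x.2

section Bound

variable {k : Type} [Field k] [Finite k]

/-- **The bound, char 2 form.** `A` is a finite local `k`-algebra, `2 = 0`, `k = 𝔽₄`. -/
theorem card_le_char2 (hk4 : Nat.card k = 4) [Algebra (ZMod 2) k]
    (A : Type) [CommRing A] [IsLocalRing A] [Finite A] [Algebra k A]
    (h2 : (2 : A) = 0) (π : A →+* k) (hπk : ∀ c, π (algebraMap k A c) = c)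
    -- residual representation
    (rb : GQ →* M2 (ZMod 2)) (hrb : ∀ g, (rb g).det ≠ 0) (H : Subgroup GQ)
    (hH : ∀ g, g ∈ H ↔ Ev (rb g))
    -- the representation
    (r : GQ →* M2 A)
    (hcont : ∃ L : IntermediateField ℚ (AlgebraicClosure ℚ), FiniteDimensional ℚ L ∧
      ∀ σ : GQ, (∀ x ∈ L, σ x = x) → r σ = 1)
    (hdet : ∀ g, (r g).det = 1)
    (Q : (M2 k)ˣ)
    (hQ : ∀ g, π.mapMatrix (r g) = Q.val * (rb g).map (algebraMap (ZMod 2) k) * Q⁻¹.val)
    (S : Set ℕ)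
    (hunr : ∀ ℓ : ℕ, ℓ.Prime → ℓ ∉ S → ∀ P : ValuationSubring (AlgebraicClosure ℚ),
      P.LiesOverPrime ℓ → ∀ σ ∈ P.inertiaSubgroupIn ℚ, r σ = 1)
    (htype : ∀ v : ℕ, v.Prime → v ∈ S → ∀ P : ValuationSubring (AlgebraicClosure ℚ),
      P.LiesOverPrime v → ∃ χ : GQ → A,
        (∀ g ∈ P.decompositionSubgroup ℚ, χ g ^ 2 = 1) ∧
        (∀ g ∈ P.inertiaSubgroupIn ℚ, χ g = 1) ∧
        ∀ g ∈ P.decompositionSubgroup ℚ, ∀ g' ∈ P.decompositionSubgroup ℚ,
          (r g - χ g • (1 : M2 A)) * (r g' - χ g' • (1 : M2 A)) = 0)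
    (hnsp : ∀ v : ℕ, v.Prime → v ∈ S → ∀ P : ValuationSubring (AlgebraicClosure ℚ),
      P.LiesOverPrime v → ∃ g ∈ P.decompositionSubgroup ℚ, g ∉ H)
    (hSel : Sel0 rb S)
    (U : Finset A) (hU : ∀ u ∈ U, u ^ 2 = 1)
    (hgen : Algebra.adjoin k (Set.range (fun g => (r g).trace) ∪ (U : Set A)) = ⊤) (h : ℕ)
    (hM5 : ∀ (X : Type) [CommGroup X] [Finite X], IsPGroup 2 X → ∀ c : H →* X,
      (∃ L : IntermediateField ℚ (AlgebraicClosure ℚ), FiniteDimensional ℚ L ∧
        ∀ g : H, (∀ x ∈ L, (g : GQ) x = x) → c g = 1) →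
      (∀ ℓ : ℕ, ℓ.Prime → ∀ P : ValuationSubring (AlgebraicClosure ℚ), P.LiesOverPrime ℓ →
        ∀ g : H, (g : GQ) ∈ P.inertiaSubgroupIn ℚ → c g = 1) → Nat.card c.range ≤ h) :
    Nat.card A ≤ Nat.card k ^ (h * 2 ^ U.card) := by
  classical
  have hπ : Function.Surjective π := fun c => ⟨algebraMap k A c, hπk c⟩
  -- diagonalise
  obtain ⟨ω, hω⟩ := exists_omega (k := k) hk4
  obtain ⟨P, hP⟩ : ∃ P : (M2 A)ˣ, π.mapMatrix P.val = (diagU ω hω * Q⁻¹).val := by
    choose f hf using hπ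
    let M : M2 A := fun i j => f ((diagU ω hω * Q⁻¹).val i j)
    have hM : π.mapMatrix M = (diagU ω hω * Q⁻¹).val := by
      ext i j
      exact hf _
    have hdet : IsUnit M.det := by
      by_contra hcon
      have h1 : π M.det = (π.mapMatrix M).det := RingHom.map_det π M
      rw [hM] at h1
      have h3 : (diagU ω hω * Q⁻¹).val.det ≠ 0 :=
        ((Matrix.isUnit_iff_isUnit_det _).1 (diagU ω hω * Q⁻¹).isUnit).ne_zero
      rw [← h1] at h3
      apply h3
      have hnil : IsNilpotent M.det := by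
        obtain ⟨n, hn⟩ := IsArtinianRing.isNilpotent_jacobson_bot (R := A)
        rw [IsLocalRing.jacobson_eq_maximalIdeal ⊥ bot_ne_top] at hn
        refine ⟨n, ?_⟩
        have h5 : M.det ^ n ∈ maximalIdeal A ^ n :=
          Ideal.pow_mem_pow ((mem_maximalIdeal _).2 hcon) n
        rw [hn] at h5
        exact h5
      exact (hnil.map π).eq_zero
    exact ⟨((Matrix.isUnit_iff_isUnit_det _).2 hdet).unit, hM⟩
  have hPinv : π.mapMatrix P⁻¹.val = Q.val * (diagU ω hω)⁻¹.val := by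
    have h2 : π.mapMatrix P⁻¹.val * π.mapMatrix P.val = 1 := by
      rw [← map_mul, Units.inv_mul, map_one]
    rw [hP, Units.val_mul] at h2
    calc π.mapMatrix P⁻¹.val
        = π.mapMatrix P⁻¹.val * ((diagU ω hω).val * (Q⁻¹.val * Q.val) *
          (diagU ω hω)⁻¹.val) := by
          rw [Units.inv_mul, mul_one, Units.mul_inv, mul_one]
      _ = (π.mapMatrix P⁻¹.val * ((diagU ω hω).val * Q⁻¹.val)) * Q.val *
          (diagU ω hω)⁻¹.val := by simp only [mul_assoc]
      _ = _ := by rw [h2, one_mul]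
  have hπr : ∀ g, π.mapMatrix (conj P r g) =
      (diagU ω hω).val * (rb g).map (algebraMap (ZMod 2) k) * (diagU ω hω)⁻¹.val := by
    intro g
    rw [conj_apply, map_mul, map_mul, hQ, hP, hPinv, Units.val_mul]
    calc (diagU ω hω).val * Q⁻¹.val * (Q.val * (rb g).map (algebraMap (ZMod 2) k) * Q⁻¹.val) *
          (Q.val * (diagU ω hω)⁻¹.val)
        = (diagU ω hω).val * (Q⁻¹.val * Q.val) * (rb g).map (algebraMap (ZMod 2) k) *
          (Q⁻¹.val * Q.val) * (diagU ω hω)⁻¹.val := by simp only [mul_assoc]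
      _ = _ := by rw [Units.inv_mul, mul_one, mul_one]
  -- the index sets
  let ιD : Type := {P : ValuationSubring (AlgebraicClosure ℚ) // ∃ v : ℕ, v.Prime ∧ v ∈ S ∧
    P.LiesOverPrime v}
  let ιI : Type := {P : ValuationSubring (AlgebraicClosure ℚ) // ∃ v : ℕ, v.Prime ∧ v ∉ S ∧
    P.LiesOverPrime v}
  have hχ : ∀ P : ιD, ∃ χ : GQ → A,
        (∀ g ∈ P.1.decompositionSubgroup ℚ, χ g ^ 2 = 1) ∧
        (∀ g ∈ P.1.inertiaSubgroupIn ℚ, χ g = 1) ∧
        ∀ g ∈ P.1.decompositionSubgroup ℚ, ∀ g' ∈ P.1.decompositionSubgroup ℚ,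
          (r g - χ g • (1 : M2 A)) * (r g' - χ g' • (1 : M2 A)) = 0 := by
    rintro ⟨P, v, hv, hvS, hP⟩
    exact htype v hv hvS P hP
  choose χ hχ1 hχ2 hχ3 using hχ
  obtain ⟨L, hL, hLr⟩ := hcont
  have hone : ∀ g, r g = 1 → conj P r g = 1 := by
    intro g hg
    rw [conj_apply, hg, mul_one, Units.mul_inv]
  refine card_le_of_type_gen (G := GQ) (H := H) (k := k) ?_ ?_
      (fun P : ιD => P.1.decompositionSubgroup ℚ) ?_ (fun P : ιI => {g | g ∈ P.1.inertiaSubgroupIn ℚ})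
      {σ | ∀ x ∈ L, σ x = x} A h2 π hπk (conj P r) ?_ ?_ χ hχ1 ?_ ?_ ?_ ?_
      U hU ?_ ?_
  · intro a b
    rw [hH, hH, hH, map_mul]
    exact ev_mul _ _ (hrb a) (hrb b)
  · intro y hy
    haveI : Fintype k := Fintype.ofFinite k
    have h3 := FiniteField.pow_card_sub_one_eq_one y hy
    rwa [← Nat.card_eq_fintype_card, hk4] at h3
  · rintro ⟨P, v, hv, hvS, hP⟩
    exact hnsp v hv hvS P hP
  · intro g
    rw [conj_apply, Matrix.det_mul, Matrix.det_mul, hdet, mul_one, ← Matrix.det_mul,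
      Units.mul_inv, Matrix.det_one]
  · constructor
    · intro g hg
      show (π.mapMatrix (conj P r g)) 0 1 = 0 ∧ (π.mapMatrix (conj P r g)) 1 0 = 0
      rw [hπr]
      exact (shape_diagU hω (rb g) (hrb g)).1 ((hH g).1 hg)
    · intro g hg
      show (π.mapMatrix (conj P r g)) 0 0 = 0 ∧ (π.mapMatrix (conj P r g)) 1 1 = 0
      rw [hπr]
      exact (shape_diagU hω (rb g) (hrb g)).2 (fun h3 => hg ((hH g).2 h3))
  · intro v g hg g' hg'
    have h3 : ∀ g, conj P r g - χ v g • (1 : M2 A) =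
        P.val * (r g - χ v g • (1 : M2 A)) * P⁻¹.val := by
      intro g
      rw [conj_apply, mul_sub, sub_mul, mul_smul_comm, smul_mul_assoc, mul_one, Units.mul_inv]
    rw [h3, h3]
    calc P.val * (r g - χ v g • (1 : M2 A)) * P⁻¹.val *
          (P.val * (r g' - χ v g' • (1 : M2 A)) * P⁻¹.val)
        = P.val * ((r g - χ v g • (1 : M2 A)) * (P⁻¹.val *
          P.val) * (r g' - χ v g' • (1 : M2 A))) * P⁻¹.val := by
          simp only [mul_assoc]
      _ = 0 := by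
          rw [Units.inv_mul, mul_one, hχ3 v g hg g' hg', mul_zero, zero_mul]
  · rintro ⟨P', v, hv, hvS, hP'⟩ g hg
    exact hone g (hunr v hv hvS P' hP' g hg)
  · intro n hn
    exact hone n (hLr n hn)
  · intro b h1 h3 h4 h5
    refine hSel.conj (diagU ω hω) (fun g => π.mapMatrix (conj P r g)) hπr b h1 ⟨L, hL, ?_⟩ ?_ ?_
    · intro g σ hσ
      exact h3 g σ hσ
    · intro ℓ hℓ hℓS P' hP' σ hσ
      exact h4 ⟨P', ℓ, hℓ, hℓS, hP'⟩ σ hσ
    · intro v hv hvS P' hP' g hg h' hh'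
      exact h5 ⟨P', v, hv, hvS, hP'⟩ g hg h' hh'
  · rw [← hgen]
    congr 3
    funext g
    rw [conj_apply, Matrix.trace_mul_comm, ← mul_assoc, Units.inv_mul, one_mul]
  · intro c hc1 hc2 hc3 hc4
    have hpg : IsPGroup 2 c.range := isPGroup_of_residue h2 π c.range (by
      rintro _ ⟨g, rfl⟩
      exact hc1 g)
    have h6 : Nat.card c.rangeRestrict.range ≤ h := by
      refine hM5 c.range hpg c.rangeRestrict ⟨L, hL, ?_⟩ ?_
      · intro g hg
        apply Subtype.ext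
        exact hc2 g hg
      · intro ℓ hℓ P' hP' g hg
        apply Subtype.ext
        by_cases hℓS : ℓ ∈ S
        · apply Units.ext
          have h7 := hc3 ⟨P', ℓ, hℓ, hℓS, hP'⟩ g (inertia_le_dec P' hg)
          rw [MonoidHom.coe_rangeRestrict, h7, hχ2 ⟨P', ℓ, hℓ, hℓS, hP'⟩ g hg]
          rfl
        · exact hc4 ⟨P', ℓ, hℓ, hℓS, hP'⟩ g hg
    rw [MonoidHom.range_eq_top.2 c.rangeRestrict_surjective, Subgroup.card_top] at h6
    exact h6

end Bound

end Fermat.Agent.H55.LT
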