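import Mathlib
import Fermat.Agent.H55LTD

/-!
# LT-MOD2, module M4: Theorem C, final form
-/

set_option autoImplicit false

open IsLocalRing Module Matrix
open Fermat.Agent.H69.Dih
open Fermat.Agent.H53 (GQ M2 MCont)

namespace Fermat.Agent.H55.LT

section Quot

variable {O : Type} [CommRing O] {k : Type} [Field k] [Finite k] [Algebra O k]
  [Algebra (ZMod 2) k]

/-- the hypothesis provided by M5: every everywhere unramified character of `H` of finite level
with values in a finite 2-group has at most `h` values -/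
def UnrBound (H : Subgroup GQ) (h : ℕ) : Prop :=
  ∀ (X : Type) [CommGroup X] [Finite X], IsPGroup 2 X → ∀ c : H →* X,
      (∃ L : IntermediateField ℚ (AlgebraicClosure ℚ), FiniteDimensional ℚ L ∧
        ∀ g : H, (∀ x ∈ L, (g : GQ) x = x) → c g = 1) →
      (∀ ℓ : ℕ, ℓ.Prime → ∀ P : ValuationSubring (AlgebraicClosure ℚ), P.LiesOverPrime ℓ →
        ∀ g : H, (g : GQ) ∈ P.inertiaSubgroupIn ℚ → c g = 1) → Nat.card c.range ≤ h

/-- **the bound for `A0 / 2`** -/
theorem card_quot_le (hOk : Function.Surjective (algebraMap O k))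
    (hker : RingHom.ker (algebraMap O k) = Ideal.span {(2 : O)}) (hk4 : Nat.card k = 4)
    {A0 : Type} [CommRing A0] [IsLocalRing A0] [Algebra O A0] [Module.Finite O A0]
    (res : A0 →ₐ[O] k)
    (rb : GQ →* M2 (ZMod 2)) (hrb : ∀ g, (rb g).det ≠ 0) (H : Subgroup GQ)
    (hH : ∀ g, g ∈ H ↔ Ev (rb g))
    (ρ : GQ →* M2 A0)
    (hcont : ∃ L : IntermediateField ℚ (AlgebraicClosure ℚ), FiniteDimensional ℚ L ∧
      ∀ σ : GQ, (∀ x ∈ L, σ x = x) → ∀ i j, ρ σ i j - (1 : M2 A0) i j ∈ Ideal.span {(2 : A0)})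
    (hdet : ∀ g, (ρ g).det - 1 ∈ Ideal.span {(2 : A0)})
    (Q : (M2 k)ˣ)
    (hQ : ∀ g, (res : A0 →+* k).mapMatrix (ρ g) =
      Q.val * (rb g).map (algebraMap (ZMod 2) k) * Q⁻¹.val)
    (S : Set ℕ)
    (hunr : ∀ ℓ : ℕ, ℓ.Prime → ℓ ∉ S → ∀ P : ValuationSubring (AlgebraicClosure ℚ),
      P.LiesOverPrime ℓ → ∀ σ ∈ P.inertiaSubgroupIn ℚ, ρ σ = 1)
    (htype : ∀ v : ℕ, v.Prime → v ∈ S → ∀ P : ValuationSubring (AlgebraicClosure ℚ),
      P.LiesOverPrime v → ∃ χ : GQ → A0,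
        (∀ g ∈ P.decompositionSubgroup ℚ, χ g ^ 2 = 1) ∧
        (∀ g ∈ P.inertiaSubgroupIn ℚ, χ g = 1) ∧
        ∀ g ∈ P.decompositionSubgroup ℚ, ∀ g' ∈ P.decompositionSubgroup ℚ,
          (ρ g - ((ρ g).det * χ g) • (1 : M2 A0)) * (ρ g' - χ g' • (1 : M2 A0)) = 0)
    (hnsp : ∀ v : ℕ, v.Prime → v ∈ S → ∀ P : ValuationSubring (AlgebraicClosure ℚ),
      P.LiesOverPrime v → ∃ g ∈ P.decompositionSubgroup ℚ, g ∉ H)
    (hSel : Sel0 rb S)
    (U : Finset A0) (hU : ∀ u ∈ U, u ^ 2 = 1)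
    (hgen : Algebra.adjoin O (Set.range (fun g => (ρ g).trace) ∪ (U : Set A0)) = ⊤) (h : ℕ)
    (hM5 : UnrBound H h) :
    Finite (A0 ⧸ Ideal.span {(2 : A0)}) ∧
      Nat.card (A0 ⧸ Ideal.span {(2 : A0)}) ≤ Nat.card k ^ (h * 2 ^ U.card) := by
  classical
  let I : Ideal A0 := Ideal.span {(2 : A0)}
  -- the quotient
  obtain ⟨j, hj⟩ := exists_kAlg hOk hker A0
  letI : Algebra k (A0 ⧸ I) := j.toAlgebra
  have hjalg : ∀ x : O, algebraMap k (A0 ⧸ I) (algebraMap O k x) =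
    Ideal.Quotient.mk _ (algebraMap O A0 x) := hj
  have h2k : (2 : k) = 0 := two_eq_zero_of_algebra
  have hIres : ∀ x ∈ I, (res : A0 →+* k) x = 0 := by
    intro x hx
    obtain ⟨y, rfl⟩ := Ideal.mem_span_singleton.1 hx
    rw [map_mul, map_ofNat, h2k, zero_mul]
  let π : A0 ⧸ I →+* k := Ideal.Quotient.lift I (res : A0 →+* k) hIres
  have hπmk : ∀ x : A0, π (Ideal.Quotient.mk I x) = res x := fun x => rfl
  have hπk : ∀ c, π (algebraMap k (A0 ⧸ I) c) = c := by
    intro c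
    obtain ⟨x, rfl⟩ := hOk c
    rw [hjalg, hπmk]
    exact res.commutes x
  haveI : Nontrivial (A0 ⧸ I) := π.domain_nontrivial
  haveI : IsLocalRing (A0 ⧸ I) :=
    IsLocalRing.of_surjective' (Ideal.Quotient.mk I) Ideal.Quotient.mk_surjective
  haveI : IsScalarTower O k (A0 ⧸ I) := IsScalarTower.of_algebraMap_eq fun x => by
    rw [hjalg]; rfl
  haveI : Module.Finite O (A0 ⧸ I) := Module.Finite.of_surjective
    (Ideal.Quotient.mkₐ O I).toLinearMap Ideal.Quotient.mk_surjective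
  haveI : Module.Finite k (A0 ⧸ I) := Module.Finite.of_restrictScalars_finite O k (A0 ⧸ I)
  haveI hfin : Finite (A0 ⧸ I) := Module.finite_of_finite k
  refine ⟨hfin, ?_⟩
  have h2A : (2 : A0 ⧸ I) = 0 := by
    have : Ideal.Quotient.mk I (2 : A0) = 0 :=
      Ideal.Quotient.eq_zero_iff_mem.2 (Ideal.mem_span_singleton_self _)
    rwa [map_ofNat] at this
  let mk : A0 →+* A0 ⧸ I := Ideal.Quotient.mk I
  let r : GQ →* M2 (A0 ⧸ I) := Fermat.Agent.H53.mapMat mk ρ
  have hr : ∀ g, r g = mk.mapMatrix (ρ g) := fun g => rfl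
  have hrdet : ∀ g, (r g).det = 1 := by
    intro g
    have h1 : mk (ρ g).det = (mk.mapMatrix (ρ g)).det := RingHom.map_det mk (ρ g)
    rw [hr, ← h1, ← sub_eq_zero, ← map_one mk, ← map_sub]
    exact Ideal.Quotient.eq_zero_iff_mem.2 (hdet g)
  have hrtr : ∀ g, (r g).trace = mk (ρ g).trace := by
    intro g
    rw [Matrix.trace_fin_two, Matrix.trace_fin_two, map_add]
    rfl
  let U' : Finset (A0 ⧸ I) := U.image mk
  have hUcard : U'.card ≤ U.card := Finset.card_image_le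
  have hbound : Nat.card (A0 ⧸ I) ≤ Nat.card k ^ (h * 2 ^ U'.card) := by
    refine card_le_char2 hk4 (A0 ⧸ I) h2A π hπk rb hrb H hH r ?_ hrdet Q ?_ S ?_ ?_ hnsp hSel U'
      ?_ ?_ h hM5
    · obtain ⟨L, hL, hLρ⟩ := hcont
      refine ⟨L, hL, fun σ hσ => ?_⟩
      ext i j
      have h1 : mk (ρ σ i j - (1 : M2 A0) i j) = 0 :=
        Ideal.Quotient.eq_zero_iff_mem.2 (hLρ σ hσ i j)
      rw [map_sub, sub_eq_zero] at h1
      rw [hr]
      show mk (ρ σ i j) = _
      rw [h1, Matrix.one_apply, Matrix.one_apply, apply_ite mk, map_one, map_zero]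
    · intro g
      rw [← hQ]
      rfl
    · intro ℓ hℓ hℓS P hP σ hσ
      rw [hr, hunr ℓ hℓ hℓS P hP σ hσ, map_one]
    · intro v hv hvS P hP
      obtain ⟨χ, h1, h2, h3⟩ := htype v hv hvS P hP
      refine ⟨fun g => mk (χ g), fun g hg => by rw [← map_pow, h1 g hg, map_one],
        fun g hg => by show mk (χ g) = 1; rw [h2 g hg, map_one], fun g hg g' hg' => ?_⟩
      have h4 := congrArg mk.mapMatrix (h3 g hg g' hg')
      rw [map_mul, map_sub, map_sub, map_zero] at h4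
      have h5 : ∀ (c : A0), mk.mapMatrix (c • (1 : M2 A0)) = mk c • (1 : M2 (A0 ⧸ I)) := by
        intro c
        ext i j
        show mk (c * (1 : M2 A0) i j) = mk c * (1 : M2 (A0 ⧸ I)) i j
        rw [map_mul, Matrix.one_apply, Matrix.one_apply, apply_ite mk, map_one, map_zero]
      have h6 : mk (ρ g).det = 1 := by
        rw [← sub_eq_zero, ← map_one mk, ← map_sub]
        exact Ideal.Quotient.eq_zero_iff_mem.2 (hdet g)
      rw [h5, h5, map_mul, h6, one_mul] at h4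
      exact h4
    · intro u hu
      obtain ⟨x, hx, rfl⟩ := Finset.mem_image.1 hu
      rw [← map_pow, hU x hx, map_one]
    · have h1 := adjoin_quot_eq_top hjalg _ hgen
      rw [← h1, Set.image_union]
      congr 2
      · rw [← Set.range_comp]
        congr 1
      · exact Finset.coe_image
  exact hbound.trans (Nat.pow_le_pow_right Nat.card_pos (Nat.mul_le_mul_left _
    (Nat.pow_le_pow_right (by norm_num) hUcard)))

end Quot

section Main

variable {O : Type} [CommRing O] [IsLocalRing O] [IsNoetherianRing O]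
  {T B : Type} [CommRing T] [IsLocalRing T] [Algebra O T] [Module.Finite O T]
  [CommRing B] [IsLocalRing B] [Algebra O B] [Module.Finite O B] {ι : Type}
  {k : Type} [Field k] [Finite k] [Algebra O k] {t : ι → T} {a : ι → B}

/-- **Theorem C.** -/
theorem theoremC (D : ResData (O := O) k t a)
    (h2O : (2 : O) ∈ maximalIdeal O)
    (hOk : Function.Surjective (algebraMap O k))
    (hker : RingHom.ker (algebraMap O k) = Ideal.span {(2 : O)}) (hk4 : Nat.card k = 4)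
    [Algebra (ZMod 2) k]
    (ht : Algebra.adjoin O (Set.range t) = ⊤) (htf : ∀ x : T, (2 : O) • x = 0 → x = 0)
    -- residual representation
    (rb : GQ →* M2 (ZMod 2)) (hrb : ∀ g, (rb g).det ≠ 0) (H : Subgroup GQ)
    (hH : ∀ g, g ∈ H ↔ Ev (rb g))
    -- the representation over the pair algebra
    (ρ : GQ →* M2 (pairAlg O t a))
    (hcont : ∃ L : IntermediateField ℚ (AlgebraicClosure ℚ), FiniteDimensional ℚ L ∧
      ∀ σ : GQ, (∀ x ∈ L, σ x = x) → ∀ i j, ρ σ i j - (1 : M2 (pairAlg O t a)) i j ∈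
        Ideal.span {(2 : pairAlg O t a)})
    (hdet : ∀ g, (ρ g).det - 1 ∈ Ideal.span {(2 : pairAlg O t a)})
    (Q : (M2 k)ˣ)
    (hQ : ∀ g, (D.res : pairAlg O t a →+* k).mapMatrix (ρ g) =
      Q.val * (rb g).map (algebraMap (ZMod 2) k) * Q⁻¹.val)
    (S : Set ℕ)
    (hunr : ∀ ℓ : ℕ, ℓ.Prime → ℓ ∉ S → ∀ P : ValuationSubring (AlgebraicClosure ℚ),
      P.LiesOverPrime ℓ → ∀ σ ∈ P.inertiaSubgroupIn ℚ, ρ σ = 1)
    (htype : ∀ v : ℕ, v.Prime → v ∈ S → ∀ P : ValuationSubring (AlgebraicClosure ℚ),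
      P.LiesOverPrime v → ∃ χ : GQ → pairAlg O t a,
        (∀ g ∈ P.decompositionSubgroup ℚ, χ g ^ 2 = 1) ∧
        (∀ g ∈ P.inertiaSubgroupIn ℚ, χ g = 1) ∧
        ∀ g ∈ P.decompositionSubgroup ℚ, ∀ g' ∈ P.decompositionSubgroup ℚ,
          (ρ g - ((ρ g).det * χ g) • (1 : M2 (pairAlg O t a))) *
            (ρ g' - χ g' • (1 : M2 (pairAlg O t a))) = 0)
    (hnsp : ∀ v : ℕ, v.Prime → v ∈ S → ∀ P : ValuationSubring (AlgebraicClosure ℚ),
      P.LiesOverPrime v → ∃ g ∈ P.decompositionSubgroup ℚ, g ∉ H)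
    (hSel : Sel0 rb S)
    -- generation
    (U : Finset ι) (hU : ∀ i ∈ U, t i ^ 2 = 1 ∧ a i ^ 2 = 1)
    (hgen : ∀ i, i ∉ U → ∃ g, (((ρ g).trace : pairAlg O t a) : T × B) = (t i, a i))
    (h : ℕ) (hM5 : UnrBound H h)
    (hT : Nat.card k ^ (h * 2 ^ U.card) ≤ Nat.card (T ⧸ Ideal.span {(2 : T)})) :
    ∃ θ : T →ₐ[O] B, ∀ i, θ (t i) = a i := by
  classical
  haveI hloc := D.isLocalRing
  let gen : ι → pairAlg O t a := fun i => ⟨(t i, a i), mem_pairAlg t a i⟩
  let U' : Finset (pairAlg O t a) := U.image gen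
  have hUcard : U'.card ≤ U.card := Finset.card_image_le
  have hgen' : Algebra.adjoin O (Set.range (fun g => (ρ g).trace) ∪
      (U' : Set (pairAlg O t a))) = ⊤ := by
    have h2 : Algebra.adjoin O (Set.range gen) = ⊤ := by
      have h3 := Algebra.adjoin_adjoin_coe_preimage (R := O)
        (s := Set.range fun i => ((t i, a i) : T × B))
      rw [eq_top_iff]
      refine (le_of_eq h3.symm).trans (Algebra.adjoin_mono ?_)
      rintro ⟨x, hx⟩ ⟨i, hi⟩
      exact ⟨i, Subtype.ext hi⟩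
    rw [eq_top_iff, ← h2]
    apply Algebra.adjoin_mono
    rintro _ ⟨i, rfl⟩
    by_cases hi : i ∈ U
    · right
      exact Finset.mem_coe.2 (Finset.mem_image_of_mem _ hi)
    · left
      obtain ⟨g, hg⟩ := hgen i hi
      exact ⟨g, Subtype.ext hg⟩
  obtain ⟨h1, h2⟩ := card_quot_le hOk hker hk4 D.res rb hrb H hH ρ hcont hdet Q hQ S hunr htype
    hnsp hSel U' (by
      intro u hu
      obtain ⟨i, hi, rfl⟩ := Finset.mem_image.1 hu
      apply Subtype.ext
      show (t i, a i) ^ 2 = 1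
      rw [Prod.pow_mk, (hU i hi).1, (hU i hi).2]
      rfl) hgen' h hM5
  have hmap2 : algebraMap O (pairAlg O t a) 2 = 2 := map_ofNat _ 2
  have hmap2T : algebraMap O T 2 = 2 := map_ofNat _ 2
  refine exists_theta h2O ht htf ?_ ?_
  · rw [hmap2]; exact h1
  rw [hmap2, hmap2T]
  exact (h2.trans (Nat.pow_le_pow_right Nat.card_pos (Nat.mul_le_mul_left _
    (Nat.pow_le_pow_right (by norm_num) hUcard)))).trans hT

end Main

end Fermat.Agent.H55.LT
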