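import Fermat.Agent.H80ThQuad

/-!
# The quadratic field `ℚ(√-N)`: existence of `QuadData`, signature, discriminant, unit rank
-/

set_option autoImplicit false

open NumberField Ideal Module

namespace Fermat.Agent.H96

open Fermat.Agent.H63.LT

variable {K : Type*} [Field K] [NumberField K] {N : ℕ}

theorem exists_quadData (hfin : finrank ℚ K = 2) (hx : ∃ x : K, x ^ 2 = -(N : K))
    (hsq : Squarefree N) (h2 : 2 ∣ N) : ∃ w : 𝓞 K, QuadData K N w := by
  obtain ⟨x, hx⟩ := hx
  have hint : IsIntegral ℤ x := by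
    refine ⟨Polynomial.X ^ 2 + Polynomial.C (N : ℤ), Polynomial.monic_X_pow_add_C _ two_ne_zero, ?_⟩
    simp [hx]
  obtain ⟨w, hw⟩ : ∃ w : 𝓞 K, (w : K) = x := ⟨⟨x, hint⟩, rfl⟩
  refine ⟨w, ⟨hfin, ?_, hsq, h2⟩⟩
  apply RingOfIntegers.ext
  have hw' : algebraMap (𝓞 K) K w = x := hw
  change algebraMap (𝓞 K) K (w ^ 2) = algebraMap (𝓞 K) K (-(N : 𝓞 K))
  rw [map_pow, map_neg, map_natCast, hw', hx]

section

variable {w : 𝓞 K} (h : QuadData K N w)
include h

theorem isTotallyComplex : IsTotallyComplex K := by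
  refine ⟨fun v => ?_⟩
  rw [← InfinitePlace.not_isReal_iff_isComplex]
  rintro ⟨φ, hφ, -⟩
  have h1 := congrArg φ h.sqK
  rw [map_pow, map_neg, map_natCast] at h1
  have h2 : (starRingEnd ℂ) (φ (w : K)) = φ (w : K) := by
    have := RingHom.congr_fun hφ (w : K)
    simpa [ComplexEmbedding.conjugate_coe_eq] using this
  obtain ⟨r, hr⟩ := Complex.conj_eq_iff_real.mp h2
  rw [hr] at h1
  have h3 : (r : ℝ) ^ 2 = -(N : ℝ) := by exact_mod_cast h1
  have h4 : 0 < (N : ℝ) := by exact_mod_cast h.N_pos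
  nlinarith [sq_nonneg r]

theorem discr_eq : discr K = -(4 * N : ℤ) := by
  obtain ⟨b, hb0, hb1⟩ := H80.Th.exists_basis h
  rw [← discr_eq_discr K b, Algebra.discr_def, Matrix.det_fin_two]
  have hN : Algebra.norm ℤ (w : 𝓞 K) = N := by
    have := H80.Th.norm_int h 0 1
    simpa using this
  have hr : ∀ (x y : ℤ), b.repr ((x : 𝓞 K) + y * w) 0 = x ∧ b.repr ((x : 𝓞 K) + y * w) 1 = y := by
    intro x y
    have h1 : (x : 𝓞 K) + y * w = x • b 0 + y • b 1 := by
      rw [hb0, hb1]; simp
    rw [h1, map_add, map_smul, map_smul, b.repr_self, b.repr_self]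
    constructor <;> simp
  have htr : ∀ x y : ℤ, Algebra.trace ℤ (𝓞 K) ((x : 𝓞 K) + y * w) = 2 * x := by
    intro x y
    rw [Algebra.trace_eq_matrix_trace b, Matrix.trace_fin_two, Algebra.leftMulMatrix_eq_repr_mul,
      Algebra.leftMulMatrix_eq_repr_mul, hb0, hb1]
    have h1 : ((x : 𝓞 K) + y * w) * 1 = x + y * w := mul_one _
    have h2 : ((x : 𝓞 K) + y * w) * w = ((-(y * N) : ℤ) : 𝓞 K) + x * w := by
      push_cast
      linear_combination (y : 𝓞 K) * h.sq
    rw [h1, h2, (hr x y).1, (hr _ x).2]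
    ring
  have e11 : Algebra.traceForm ℤ (𝓞 K) 1 1 = 2 := by
    rw [Algebra.traceForm_apply]
    have := htr 1 0
    simpa using this
  have e12 : Algebra.traceForm ℤ (𝓞 K) 1 w = 0 := by
    rw [Algebra.traceForm_apply]
    have := htr 0 1
    simpa using this
  have e21 : Algebra.traceForm ℤ (𝓞 K) w 1 = 0 := by
    rw [Algebra.traceForm_apply]
    have := htr 0 1
    simpa using this
  have e22 : Algebra.traceForm ℤ (𝓞 K) w w = 2 * -(N : ℤ) := by
    rw [Algebra.traceForm_apply]
    have := htr (-(N : ℤ)) 0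
    rw [← this]
    congr 1
    push_cast
    linear_combination h.sq
  rw [Algebra.traceMatrix_apply, Algebra.traceMatrix_apply, Algebra.traceMatrix_apply,
    Algebra.traceMatrix_apply, hb0, hb1, e11, e12, e21, e22]
  ring

theorem discr_natAbs : (discr K).natAbs = 4 * N := by
  rw [discr_eq h, Int.natAbs_neg]
  exact_mod_cast Int.natAbs_natCast (4 * N)

theorem units_rank : Units.rank K = 0 := by
  have : IsTotallyComplex K := isTotallyComplex h
  have h1 := IsTotallyComplex.finrank (K := K)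
  rw [h.finrank] at h1
  rw [Units.rank]
  have h2 : Fintype.card (InfinitePlace K) = InfinitePlace.nrComplexPlaces K := by
    have h3 := InfinitePlace.card_eq_nrRealPlaces_add_nrComplexPlaces K
    rw [h3, IsTotallyComplex.nrRealPlaces_eq_zero, zero_add]
  omega

end

end Fermat.Agent.H96
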