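import Mathlib
import Fermat.Agent.H91M5b
import Fermat.Agent.H96TAQuad
import Fermat.Agent.H46LTDefsTA
import Fermat.Agent.H55LTE

/-!
# M5: the literal form of the bound for everywhere unramified characters of `G_K` (LT-MOD2)
-/

set_option autoImplicit false

open NumberField IsDedekindDomain
open Fermat.Agent.H64 (placeBelow placeBelow_asIdeal)
open Fermat.Agent.H91.M5 Fermat.Agent.H91.FI
open Fermat.Agent.H53 (GQ)
open Fermat.Agent

namespace Fermat.Agent.H63.LT

local notation "Ω" => AlgebraicClosure ℚ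

/-- `c` has finite level on the subgroup `H` of `G_ℚ`. -/
def FLev {H : Subgroup GQ} {X : Type*} [Group X] (c : H →* X) : Prop :=
  ∃ L : IntermediateField ℚ Ω, FiniteDimensional ℚ L ∧
    ∀ g : H, (∀ x ∈ L, (g : GQ) x = x) → c g = 1

section transport

variable {K : Type} [Field K] [NumberField K] [Algebra K Ω] {N : ℕ} {w : 𝓞 K}

/-- the square root of `-N` in `ℚbar` -/
theorem w_sq (h : QuadData K N w) : (algebraMap K Ω (w : K)) ^ 2 = -(N : Ω) := by
  rw [← map_pow, h.sqK]; simp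

theorem mem_GK_of (h : QuadData K N w) (σ : Ω ≃ₐ[K] Ω) : σ.restrictScalars ℚ ∈ LT.GK N := by
  intro x hx
  rw [← w_sq h] at hx
  change σ x = x
  rcases sq_eq_sq_iff_eq_or_eq_neg.1 hx with e | e
  · rw [e]; exact σ.commutes _
  · rw [e, map_neg]; exact congrArg Neg.neg (σ.commutes _)

theorem fix_of_mem_GK (h : QuadData K N w) {g : GQ} (hg : g ∈ LT.GK N) (x : K) :
    g (algebraMap K Ω x) = algebraMap K Ω x := by
  obtain ⟨r, s, rfl⟩ := h.exists_coord x
  have h1 : g (algebraMap K Ω (w : K)) = algebraMap K Ω (w : K) := hg _ (w_sq h)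
  have h2 : ∀ r : ℚ, g (algebraMap K Ω (algebraMap ℚ K r)) = algebraMap K Ω (algebraMap ℚ K r) := by
    intro r
    rw [← IsScalarTower.algebraMap_apply ℚ K Ω]
    exact g.commutes r
  rw [map_add, map_mul, map_add, map_mul, h1, h2, h2]

/-- `Gal(ℚbar / K) ≃ G_K` -/
noncomputable def galEquiv (h : QuadData K N w) : (Ω ≃ₐ[K] Ω) ≃* LT.GK N where
  toFun σ := ⟨σ.restrictScalars ℚ, mem_GK_of h σ⟩
  invFun g := AlgEquiv.ofRingEquiv (f := (g : GQ).toRingEquiv) (fix_of_mem_GK h g.2)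
  left_inv σ := by ext x; rfl
  right_inv g := by apply Subtype.ext; ext x; rfl
  map_mul' a b := by apply Subtype.ext; ext x; rfl

@[simp] theorem galEquiv_coe (h : QuadData K N w) (σ : Ω ≃ₐ[K] Ω) :
    ((galEquiv h σ : LT.GK N) : GQ) = σ.restrictScalars ℚ := rfl

theorem isOpen_ker (h : QuadData K N w) {X : Type*} [Group X] {c : LT.GK N →* X} (hc : FLev c) :
    IsOpen ((c.comp (galEquiv h).toMonoidHom).ker : Set (Ω ≃ₐ[K] Ω)) := by
  obtain ⟨L, hL, hLc⟩ := hc
  have hgal : IsGalois K Ω := isGalois_Qbar'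
  let b := Module.finBasis ℚ L
  let E : IntermediateField K Ω := IntermediateField.adjoin K (Set.range fun i => (b i : Ω))
  have hE : FiniteDimensional K E := by
    apply IntermediateField.finiteDimensional_adjoin
    rintro x -
    exact (Algebra.IsAlgebraic.isAlgebraic (R := K) x).isIntegral
  apply Subgroup.isOpen_of_mem_nhds (g := 1)
  rw [krullTopology_mem_nhds_one_iff]
  refine ⟨E, hE, ?_⟩
  intro σ hσ
  rw [SetLike.mem_coe, MonoidHom.mem_ker]
  change c (galEquiv h σ) = 1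
  apply hLc
  intro x hx
  rw [SetLike.mem_coe, IntermediateField.mem_fixingSubgroup_iff] at hσ
  change σ x = x
  have h1 := b.sum_repr ⟨x, hx⟩
  have h2 : x = ∑ i, (b.repr ⟨x, hx⟩ i) • (b i : Ω) := by
    have := congrArg (fun y : L => (y : Ω)) h1
    refine this.symm.trans ?_
    simp only [IntermediateField.coe_sum, IntermediateField.coe_smul]
  rw [h2, map_sum]
  refine Finset.sum_congr rfl fun i _ => ?_
  have h3 : σ (b i : Ω) = (b i : Ω) := hσ _ (IntermediateField.subset_adjoin _ _ ⟨i, rfl⟩)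
  rw [Algebra.smul_def, map_mul, h3]
  congr 1
  rw [IsScalarTower.algebraMap_apply ℚ K Ω]
  exact σ.commutes _

/-- If there is a Frobenius element at `A` fixing `K`, the prime of `K` below `A` has norm `ℓ`. -/
theorem absNorm_placeBelow {ℓ : ℕ} (hℓ : ℓ.Prime) {A : ValuationSubring Ω}
    (hA : A.LiesOverPrime ℓ) {φ : Ω ≃ₐ[K] Ω} (hφ : A.IsFrobeniusAt φ ℓ) :
    Ideal.absNorm (placeBelow K hℓ hA).asIdeal = ℓ := by
  have hgal : IsGalois K Ω := isGalois_Qbar'
  set v := placeBelow K hℓ hA with hv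
  have hmax : v.asIdeal.IsMaximal := v.isMaximal
  let _ : Field (𝓞 K ⧸ v.asIdeal) := Ideal.Quotient.field _
  have hfin : Finite (𝓞 K ⧸ v.asIdeal) := Ideal.finiteQuotientOfFreeOfNeBot v.asIdeal v.ne_bot
  rw [isFrobeniusAt_iff_center A φ hℓ.ne_zero] at hφ
  have hpow : ∀ x : 𝓞 K ⧸ v.asIdeal, x ^ ℓ = x := by
    intro x
    obtain ⟨x, rfl⟩ := Ideal.Quotient.mk_surjective x
    rw [← map_pow, Ideal.Quotient.eq]
    have h1 := hφ (algebraMap (𝓞 K) (𝓞 Ω) x)
    have h2 : φ • (algebraMap (𝓞 K) (𝓞 Ω) x) = algebraMap (𝓞 K) (𝓞 Ω) x := by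
      apply RingOfIntegers.ext
      exact φ.commutes (x : K)
    rw [h2, ← map_pow, ← map_sub] at h1
    rw [hv, placeBelow_asIdeal, Ideal.mem_comap, ← neg_sub, map_neg]
    exact (Ideal.neg_mem_iff _).2 h1
  have hle : Nat.card (𝓞 K ⧸ v.asIdeal) ≤ ℓ := by
    classical
    have hX : (Polynomial.X ^ ℓ - Polynomial.X : Polynomial (𝓞 K ⧸ v.asIdeal)) ≠ 0 :=
      FiniteField.X_pow_card_sub_X_ne_zero _ hℓ.one_lt
    have := Fintype.ofFinite (𝓞 K ⧸ v.asIdeal)
    rw [Nat.card_eq_fintype_card, ← Finset.card_univ]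
    calc Finset.univ.card ≤ (Polynomial.X ^ ℓ - Polynomial.X :
        Polynomial (𝓞 K ⧸ v.asIdeal)).roots.toFinset.card := by
          apply Finset.card_le_card
          intro x _
          rw [Multiset.mem_toFinset, Polynomial.mem_roots hX]
          simp [Polynomial.IsRoot, hpow x]
      _ ≤ (Polynomial.X ^ ℓ - Polynomial.X : Polynomial (𝓞 K ⧸ v.asIdeal)).roots.card :=
          Multiset.toFinset_card_le _
      _ ≤ _ := Polynomial.card_roots' _
      _ = ℓ := FiniteField.X_pow_card_sub_X_natDegree_eq _ hℓ.one_lt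
  have hℓv : ((ℓ : ℕ) : 𝓞 K) ∈ v.asIdeal := by
    rw [hv, placeBelow_asIdeal, Ideal.mem_comap, map_natCast, mem_center_iff]
    exact_mod_cast hA
  rw [Ideal.absNorm_apply, Submodule.cardQuot_apply]
  have hdvd : ℓ ∣ Nat.card (𝓞 K ⧸ v.asIdeal) := by
    have : Fact ℓ.Prime := ⟨hℓ⟩
    have h1 : ((ℓ : ℕ) : 𝓞 K ⧸ v.asIdeal) = 0 := by
      rw [← map_natCast (Ideal.Quotient.mk v.asIdeal), Ideal.Quotient.eq_zero_iff_mem]
      exact hℓv
    have h2 : addOrderOf (1 : 𝓞 K ⧸ v.asIdeal) = ℓ :=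
      addOrderOf_eq_prime (by rw [nsmul_one]; exact h1) one_ne_zero
    conv_lhs => rw [← h2]
    exact addOrderOf_dvd_natCard _
  exact le_antisymm hle (Nat.le_of_dvd Nat.card_pos hdvd)

end transport

theorem odd_orderOf_of_mem {C : Type*} [CommGroup C] [Finite C] {c : C}
    (hc : c ∈ Subgroup.closure {c : C | Odd (orderOf c)}) : Odd (orderOf c) := by
  induction hc using Subgroup.closure_induction with
  | mem x hx => exact hx
  | one => rw [orderOf_one]; exact odd_one
  | mul x y _ _ hx hy =>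
    exact Odd.of_dvd_nat (hx.mul hy) ((Commute.all x y).orderOf_mul_dvd_mul_orderOf)
  | inv x _ hx => rwa [orderOf_inv]

/-- **M5** : every everywhere unramified character of `G_K` of finite level with values in a finite
`2`-group has at most `|C₂|` values (`C₂` = 2-part of the class group of `K = ℚ(√-N)`). -/
theorem unrBound_of {K : Type} [Field K] [NumberField K] {N : ℕ} {w : 𝓞 K}
    (h : QuadData K N w) (S : Finset ℕ)
    (ψ : LT.GK N →* Multiplicative (ZMod 3)) (hψ1 : ψ ≠ 1) (hψ : FLev ψ)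
    (κ₀ : LT.GK N →* LT.C2' K) (hsurj : Function.Surjective κ₀) (hκ₀ : FLev κ₀)
    (hfrob : ∀ ℓ : ℕ, ℓ.Prime → ℓ ∉ S → ∀ A : ValuationSubring Ω, A.LiesOverPrime ℓ →
      ∀ φ : LT.GK N, A.IsFrobeniusAt (φ : GQ) ℓ → ψ φ ≠ 1 → ∀ P ∈ LT.primesOver K ℓ,
        κ₀ φ = QuotientGroup.mk (LT.cls K P) ∨ κ₀ φ = (QuotientGroup.mk (LT.cls K P))⁻¹) :
    H55.LT.UnrBound (LT.GK N) (Nat.card (LT.C2' K)) := by
  intro X _ _ hX c hc hunr
  let _ : Algebra K Ω := (IsAlgClosed.lift (R := ℚ) (S := K) (M := Ω)).toRingHom.toAlgebra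
  have hgal : IsGalois K Ω := isGalois_Qbar'
  have : IsTotallyComplex K := H96.isTotallyComplex h
  have hψ1' : ψ.comp (galEquiv h).toMonoidHom ≠ 1 := by
    intro h1
    apply hψ1
    ext g
    have h2 := DFunLike.congr_fun h1 ((galEquiv h).symm g)
    simpa using h2
  have hκs : Function.Surjective (κ₀.comp (galEquiv h).toMonoidHom) :=
    hsurj.comp (galEquiv h).surjective
  obtain ⟨-, h2⟩ := m5_end (K := K) (H96.units_rank h) (S := S) (dense S)
    (ψ.comp (galEquiv h).toMonoidHom) hψ1' (isOpen_ker h hψ)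
    (QuotientGroup.mk' (Subgroup.closure (LT.oddClasses K)))
    (fun c hc => odd_orderOf_of_mem ((QuotientGroup.eq_one_iff c).1 hc))
    (κ₀.comp (galEquiv h).toMonoidHom) (isOpen_ker h hκ₀)
    (by
      intro ℓ hℓ A hA φ hℓS hφ hψφ
      have hφ' : A.IsFrobeniusAt ((galEquiv h φ : LT.GK N) : GQ) ℓ := by
        rw [galEquiv_coe, isFrobeniusAt_restrictScalars A φ hℓ.ne_zero]
        exact hφ
      have hP : (placeBelow K hℓ hA).asIdeal ∈ LT.primesOver K ℓ := by
        rw [LT.primesOver, Set.Finite.mem_toFinset]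
        exact ⟨(placeBelow K hℓ hA).isPrime, absNorm_placeBelow hℓ hA hφ⟩
      have h3 := hfrob ℓ hℓ hℓS A hA (galEquiv h φ) hφ' hψφ _ hP
      have h4 : LT.cls K (placeBelow K hℓ hA).asIdeal = clv (placeBelow K hℓ hA) := by
        rw [LT.cls, clv, dif_pos]
      rw [h4] at h3
      exact h3)
    (by rw [MonoidHom.range_eq_top.2 hκs, MonoidHom.range_eq_top.2 (QuotientGroup.mk'_surjective _)])
    (c.comp (galEquiv h).toMonoidHom) (isOpen_ker h hc)
    (fun g => by
      obtain ⟨m, hm⟩ := hX (c (galEquiv h g))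
      exact ⟨m, hm⟩)
    (by
      intro ℓ hℓ A hA σ hσ
      rw [MonoidHom.mem_ker]
      apply hunr ℓ hℓ A hA
      change σ.restrictScalars ℚ ∈ A.inertiaSubgroupIn ℚ
      rw [mem_inertia_restrictScalars]
      exact hσ)
  have h5 : (c.comp (galEquiv h).toMonoidHom).range = c.range := by
    rw [MonoidHom.range_comp]
    have : (galEquiv h).toMonoidHom.range = ⊤ := MonoidHom.range_eq_top.2 (galEquiv h).surjective
    rw [this, ← MonoidHom.range_eq_map]
  rw [h5, MonoidHom.range_eq_top.2 (QuotientGroup.mk'_surjective _), Subgroup.card_top] at h2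
  exact h2

end Fermat.Agent.H63.LT
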