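import Mathlib
import Fermat.Agent.H63UnrBound
import Fermat.Agent.H51SurT

/-!
# M5 from a dihedral representation over `F₄[C₂ × μ₂^Q]`
-/

set_option autoImplicit false

open NumberField IsDedekindDomain
open Fermat.Agent.H69.Dih (Shape chr chr_val)
open Fermat.Agent.H53 (GQ)
open Fermat.Agent

namespace Fermat.Agent.H63.LT

local notation "Qb" => AlgebraicClosure ℚ

theorem exists_equiv_three {k : Type} [Field k] [Finite k] (hk : ∀ y : k, y ≠ 0 → y ^ 3 = 1)
    (hne : ∃ u : kˣ, u ≠ 1) : Nonempty (kˣ ≃* Multiplicative (ZMod 3)) := by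
  have h3 : ∀ u : kˣ, u ^ 3 = 1 := fun u => by
    ext; rw [Units.val_pow_eq_pow_val, hk _ u.ne_zero, Units.val_one]
  have hcard : Nat.card kˣ = 3 := by
    have h1 : Nat.card kˣ ∣ 3 := by
      rw [← IsCyclic.exponent_eq_card]
      exact Monoid.exponent_dvd_of_forall_pow_eq_one h3
    rcases (Nat.dvd_prime Nat.prime_three).1 h1 with h2 | h2
    · exfalso
      obtain ⟨u, hu⟩ := hne
      have := (Nat.card_eq_one_iff_unique.1 h2).1
      exact hu (Subsingleton.elim _ _)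
    · exact h2
  exact ⟨mulEquivOfCyclicCardEq (by
    rw [hcard, Nat.card_eq_fintype_card, Fintype.card_multiplicative, ZMod.card])⟩

/-- **M5 from a dihedral representation with the traces of the theta form** (any `Q`, e.g.
`Q = ∅`). -/
theorem unrBound_of_rep {k : Type} [Field k] [Finite k] [CharP k 2]
    {K : Type} [Field K] [NumberField K] {N : ℕ} {w : 𝓞 K} (h : QuadData K N w)
    (hk : ∀ y : k, y ≠ 0 → y ^ 3 = 1) (Q : Finset ℕ)
    {L : ℕ} (hL : L ≠ 0) (hNL : N ∣ L) (η : ClassGroup (𝓞 K) →* kˣ) (hη : η ≠ 1)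
    (r : GQ →* Matrix (Fin 2) (Fin 2) (MonoidAlgebra k (LT.C2Q K Q)))
    (hfin : GaloisFactorsThroughFiniteLevel r) (hsh : Shape (LT.GK N) r)
    (hdet : ∀ g, (r g).det = 1)
    (htr : ∀ (ℓ : ℕ) (φ : GQ), H51S.IsFrob L φ ℓ → (r φ).trace = ∑ P ∈ LT.primesOver K ℓ,
      MonoidAlgebra.single ((QuotientGroup.mk (LT.cls K P) : LT.C2' K),
        (1 : {q // q ∈ Q} → Multiplicative (ZMod 2))) ((η (LT.cls K P) : kˣ) : k)) :
    H55.LT.UnrBound (LT.GK N) (Nat.card (LT.C2' K)) := by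
  classical
  have hloc : IsLocalRing (MonoidAlgebra k (LT.C2Q K Q)) := H61.TE.isLocalRing_C2Q K Q
  have D := H51S.data h hk Q hL hNL η hη r hfin hsh hdet htr
  obtain ⟨κ₀, hκs, -, hκ⟩ := D.exists_surjective
  have hne : ∃ u : kˣ, u ≠ 1 := by
    by_contra hcon
    push Not at hcon
    exact hη (MonoidHom.ext fun c => hcon _)
  obtain ⟨e⟩ := exists_equiv_three hk hne
  have hinj : Function.Injective (H51S.iotaQ k K Q).toHomUnits := by
    intro a b hab
    apply D.ι_inj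
    have h1 := congrArg (fun u : (MonoidAlgebra k (LT.C2Q K Q))ˣ => (u : MonoidAlgebra k (LT.C2Q K Q))) hab
    simpa only [MonoidHom.coe_toHomUnits] using h1
  -- the residual character
  let ψ₀ : LT.GK N →* kˣ :=
    (Units.map (H61.TE.aug k (LT.C2Q K Q) : MonoidAlgebra k (LT.C2Q K Q) →* k)).comp D.chi
  obtain ⟨L₀, hL₀, hL₀r⟩ := hfin
  have hchi : ∀ g : LT.GK N, (∀ x ∈ L₀, (g : GQ) x = x) → D.chi g = 1 := by
    intro g hg
    apply Units.ext
    rw [H51S.Data.chi, chr_val, hL₀r _ hg]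
    simp
  apply unrBound_of h L.primeFactors (e.toMonoidHom.comp ψ₀) ?_ ?_ κ₀ hκs ?_ ?_
  · -- nontrivial
    intro h1
    obtain ⟨g, hg⟩ := D.ex3
    have hgH := D.mem_of_trace_ne hg
    have h2 := D.ne_one_of_trace (g := ⟨g, hgH⟩) hg
    apply h2
    have h3 := DFunLike.congr_fun h1 ⟨g, hgH⟩
    exact e.injective (by rw [map_one]; exact h3)
  · refine ⟨L₀, hL₀, fun g hg => ?_⟩
    change e (Units.map _ (D.chi g)) = 1
    rw [hchi g hg, map_one, map_one]
  · refine ⟨L₀, hL₀, fun g hg => ?_⟩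
    apply hinj
    rw [← hκ, hchi g hg, map_one, map_one]
  · intro ℓ hℓ hℓL A hA φ hφ hψφ P hP
    have hℓL' : ¬ ℓ ∣ L := fun hd => hℓL (Nat.mem_primeFactors.2 ⟨hℓ, hd, hL⟩)
    have hfr : H51S.IsFrob L (φ : GQ) ℓ := ⟨hℓ, hℓL', A, hA, hφ⟩
    rw [LT.primesOver, Set.Finite.mem_toFinset] at hP
    have hP0 : P ∈ nonZeroDivisors (Ideal (𝓞 K)) := by
      refine mem_nonZeroDivisors_of_ne_zero ?_
      rintro rfl
      have := hP.2
      rw [map_zero] at this
      exact hℓ.pos.ne this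
    have hcls : LT.cls K P = ClassGroup.mk0 ⟨P, hP0⟩ := by
      rw [LT.cls, dif_pos hP0]
    have hIC : H51S.IsClass K L (φ : GQ) (LT.cls K P) := ⟨ℓ, hfr, ⟨P, hP0⟩, hP.2, hcls⟩
    have hηP : η (LT.cls K P) ≠ 1 := by
      intro h1
      apply hψφ
      change e (Units.map _ (D.chi φ)) = 1
      have h2 : Units.map (H61.TE.aug k (LT.C2Q K Q) : MonoidAlgebra k (LT.C2Q K Q) →* k) (D.chi φ)
          = 1 := by
        by_contra h3
        apply D.trace_of_ne_one h3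
        rw [(D.F2 _ _ hIC).2, map_add]
        have h4 : H61.TE.aug k (LT.C2Q K Q) ((H51S.xu (H51S.iotaQ k K Q) (H51S.pQ K) η (LT.cls K P) :
            (MonoidAlgebra k (LT.C2Q K Q))ˣ) : MonoidAlgebra k (LT.C2Q K Q)) = ((1 : kˣ) : k) := by
          rw [← h1, ← D.aug_xu]
          rfl
        have h5 : H61.TE.aug k (LT.C2Q K Q) (((H51S.xu (H51S.iotaQ k K Q) (H51S.pQ K) η (LT.cls K P))⁻¹ :
            (MonoidAlgebra k (LT.C2Q K Q))ˣ) : MonoidAlgebra k (LT.C2Q K Q)) = ((1 : kˣ)⁻¹ : kˣ) := by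
          rw [← h1, ← D.aug_xu]
          rfl
        rw [h4, h5]
        exact H51S.Data.add_inv_one
      rw [h2, map_one]
    have h6 := D.E_chi_frob hIC hηP
    have h7 : (⟨(φ : GQ), (D.F2 _ _ hIC).1⟩ : LT.GK N) = φ := Subtype.ext rfl
    rw [h7, hκ] at h6
    rcases h6 with h6 | h6
    · exact Or.inl (hinj h6)
    · exact Or.inr (hinj h6)

end Fermat.Agent.H63.LT
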