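import Fermat.Agent.H63LTGenusChar
import Fermat.Agent.H63UnrBound2

/-!
# Reader's guide: genus theory of `ℚ(√-N)` (block LT)

Every theorem of this file is proved by citing a theorem of the library; nothing here is used by any other
file.  Editor: helper63.  Companion of `GuideResidualSteps`, section M5.

**What the block does.**  In the block LT (residual modularity modulo 3 of the curves with even discriminant,
used for S01) a modular form modulo 2 is constructed whose coefficients lie in a group algebra
`𝔽₄[C₂ × μ₂^Q]`, `C₂` the 2-part of the class group of `K = ℚ(√-N)`, `N` even and squarefree.  To see that the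
coefficients generate this algebra one must know all quadratic characters of the class group: they are the
genus characters of Gauss, that is, they come from the fields `K(√d)` with `d ∈ ℚ`.  (Modules `H51SurT`,
`H51Surj`.)  The library proves this with elementary means:

1. the ring of integers is `ℤ[w]`, `w² = -N`; every ideal satisfies `I c(I) = (N(I))`, `c` the conjugation;
2. **upper bound**: a class `c` with `c² = 1` contains an ideal which is invariant under conjugation; these
   ideals are the products `(r) (s, w)`, `s ∣ N`; hence at most `2 ^ t` classes, `t` the number of odd primes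
   dividing `N`;
3. **lower bound**: for every odd prime `p ∣ N` the function `(n / p)`, suitably extended to the multiples of
   `p`, is `1` on the norms of elements, so it defines a character of the class group; Dirichlet's theorem and
   quadratic reciprocity give prime ideals at which these `t` characters have prescribed signs;
4. a lemma on finite abelian groups: so every quadratic character is a product of some of these characters.

**Reading order**: 1 - 4 as above.  The final form `genus_theory` (character `χ`, integer `d`) is in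
`GuideResidualSteps`.  Section 5 is the form in which the first inequality of class field theory
(`GuideResidualSteps`, end step) enters the block LT.  `NOTES.md`, Appendix A, note [154].  Closures: S01,
S03, S04, S06, S38, S45, S46, S50, S59, S60.

**References.**  C. F. Gauss, *Disquisitiones arithmeticae*, art. 257 - 262, 286, 287; D. Cox, *Primes of
the form x² + n y²*, §3, §6 (there with the reduction of forms instead of ambiguous ideals).
-/

set_option autoImplicit false

namespace Fermat.Agent.Guide.Genus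

open NumberField Ideal
open Fermat.Agent.H63 Fermat.Agent.H63.LT
open scoped nonZeroDivisors

/-! ## 1. The field `ℚ(√-N)`

In the whole file `K` is a quadratic field, `w` an element of its ring of integers with `w² = -N`, and `N` is
squarefree and even.  These four conditions are the structure `H63.LT.QuadData K N w`. -/

/-- The conditions on `K`, `N`, `w`.  File `H63LTQuad`. -/
theorem quadData_iff {K : Type*} [Field K] [NumberField K] (N : ℕ) (w : 𝓞 K) :
    QuadData K N w ↔
      Module.finrank ℚ K = 2 ∧ w ^ 2 = -(N : 𝓞 K) ∧ Squarefree N ∧ 2 ∣ N :=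
  ⟨fun h => ⟨h.finrank, h.sq, h.sqf, h.even⟩, fun h => ⟨h.1, h.2.1, h.2.2.1, h.2.2.2⟩⟩

section Field

variable {K : Type*} [Field K] [NumberField K] {N : ℕ} {w : 𝓞 K}

/-- **The ring of integers is `ℤ[w]`** (because `-N ≡ 2 mod 4`).  File `H63LTQuad`. -/
theorem integers (h : QuadData K N w) (x : 𝓞 K) : ∃ a b : ℤ, x = (a : 𝓞 K) + (b : 𝓞 K) * w :=
  h.exists_int x

/-- **The norm of an element** `a + b w`, `a`, `b ∈ ℤ`, is `a² + N b²`; here as the norm of the ideal which it
generates.  File `H63LTConj`. -/
theorem norm_of_element (h : QuadData K N w) (a b : ℤ) :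
    (absNorm (span {(a : 𝓞 K) + b * w}) : ℤ) = a ^ 2 + N * b ^ 2 :=
  h.absNorm_coord a b

/-- **Ideals and conjugation**: there is an automorphism `c` of the ring of integers of order two with
`c(w) = -w`, and every ideal satisfies `I c(I) = (N(I))`.  (First `I c(I)` is generated by a rational integer:
this is the lemma of Hurwitz, proved by hand, without factorisation into prime ideals.)  File `H63LTConj`. -/
theorem ideal_mul_conjugate (h : QuadData K N w) :
    ∃ c : 𝓞 K ≃+* 𝓞 K, c w = -w ∧ (∀ x, c (c x) = x) ∧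
      ∀ I : Ideal (𝓞 K), I * I.map c = span {(absNorm I : 𝓞 K)} :=
  ⟨h.conj, h.conj_w, h.conj_conj, h.mul_map_conj⟩

/-! ## 2. Ambiguous ideals and the upper bound

`lam w s` is the ideal `(s, w)`, for a divisor `s` of `N`; `h.conj` is the automorphism of
`ideal_mul_conjugate`. -/

/-- **The ramified ideals** `(s, w)`, `s ∣ N`: the square is `(s)`, and `(s, w) (t, w) = (w)` if `s t = N`.
File `H63LTAmb`. -/
theorem ramified_ideals (h : QuadData K N w) :
    (∀ s : ℕ, s ∣ N → span {(s : 𝓞 K), w} ^ 2 = span {(s : 𝓞 K)}) ∧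
      ∀ s t : ℕ, s * t = N → span {(s : 𝓞 K), w} * span {(t : 𝓞 K), w} = span {w} :=
  ⟨fun _ hs => h.lam_sq hs, fun _ _ hst => h.lam_mul_lam hst⟩

/-- **Ambiguous ideals**: a nonzero ideal which is invariant under conjugation is `(r) (s, w)` with an integer
`r` and `s ∣ N`.  File `H63LTAmb`. -/
theorem ambiguous_ideals (h : QuadData K N w) {J : Ideal (𝓞 K)} (hJ0 : J ≠ ⊥)
    (hJ : J.map h.conj = J) :
    ∃ r s : ℕ, r ≠ 0 ∧ s ∣ N ∧ J = span {(r : 𝓞 K)} * span {(s : 𝓞 K), w} :=
  h.ambiguous hJ0 hJ

/-- **An ambiguous ideal in a class of order two**: if `I² = (α)`, then `(δ) I` is invariant under conjugation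
for some `δ ≠ 0`.  (With `n = N(I)` one has `n I = α c(I)` and `α c(α) = n²`; so `δ = n + c(α)` is a solution
if it is not zero.  Otherwise `α = -n`, hence `I = c(I)`, and `δ = 1`.  This is Hilbert's theorem 90 by hand.)
File `H63LTTors`. -/
theorem exists_ambiguous_ideal (h : QuadData K N w) {I : Ideal (𝓞 K)} (hI0 : I ≠ ⊥) {α : 𝓞 K}
    (hα : I ^ 2 = span {α}) : ∃ δ : 𝓞 K, δ ≠ 0 ∧ (span {δ} * I).map h.conj = span {δ} * I :=
  h.exists_ambiguous hI0 hα

/-- **The 2-torsion of the class group** consists of the classes of the ideals `(s, w)` with `s ∣ N / 2`.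
(The relation `(2, w) (N/2, w) = (w)` eliminates the prime `2`.)  File `H63LTTors`. -/
theorem two_torsion (h : QuadData K N w) (c : ClassGroup (𝓞 K)) (hc : c ^ 2 = 1) :
    ∃ s : ℕ, ∃ hs : s ≠ 0, s ∣ N / 2 ∧ c = ClassGroup.mk0 ⟨lam w s, QuadData.lam_mem hs⟩ :=
  h.exists_lam_of_sq_eq_one c hc

/-- **The upper bound**: at most `2 ^ t` classes with `c² = 1`, `t` the number of odd primes dividing `N`.
File `H63LTTors`. -/
theorem card_two_torsion_le (h : QuadData K N w) :
    Nat.card {c : ClassGroup (𝓞 K) // c ^ 2 = 1} ≤ 2 ^ (N / 2).primeFactors.card :=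
  h.card_two_torsion_le

/-! ## 3. Genus characters and the lower bound -/

/-- **The genus functions.**  For a prime `p ∣ N` and `n ≥ 1` let `n = p ^ v m` with `p ∤ m`.  Then
`gfun N p n = (m / p) (N/p / p) ^ v` with Legendre symbols; in particular it is `(n / p)` if `p ∤ n`.  It is
multiplicative.  (For `p = 2` the symbols are trivial; only the odd primes `p` are used.)  File
`H63LTGfun`. -/
theorem genus_function (N p : ℕ) :
    (∀ n : ℕ, gfun N p n = jacobiSym (n / p ^ n.factorization p : ℕ) p *
        jacobiSym (N / p : ℕ) p ^ n.factorization p) ∧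
      (∀ n : ℕ, ¬ p ∣ n → gfun N p n = jacobiSym n p) ∧
      ∀ m n : ℕ, m ≠ 0 → n ≠ 0 → gfun N p (m * n) = gfun N p m * gfun N p n :=
  ⟨fun _ => rfl, fun _ hn => gfun_of_not_dvd N hn, fun _ _ hm hn => gfun_mul N p hm hn⟩

/-- **Genus functions are trivial on norms of elements**: if `n = a² + N b²`, then `gfun N p n = 1`.  (If
`p ∤ a`, then `n ≡ a² mod p`.  If `p ∣ a` and `p ∤ b`, then `n / p ≡ (N / p) b² mod p`.  Otherwise divide by
`p²`.)  File `H63LTGfun`. -/
theorem genus_function_norm {N p : ℕ} (hN : Squarefree N) (hp : p.Prime) (hpN : p ∣ N) (n : ℕ) (a b : ℤ)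
    (hn : n ≠ 0) (hab : (n : ℤ) = a ^ 2 + N * b ^ 2) : gfun N p n = 1 :=
  gfun_norm hN hp hpN n a b hn hab

/-- **Genus characters**: for every prime `p ∣ N` there is a character of the class group whose value at the
class of `I` is `gfun N p (N(I))` (for `p = 2` it is trivial).  File `H63LTGenus`. -/
theorem genus_character (h : QuadData K N w) {p : ℕ} (hp : p.Prime) (hpN : p ∣ N) :
    ∃ θ : ClassGroup (𝓞 K) →* ℤˣ, ∀ I : (Ideal (𝓞 K))⁰,
      ((θ (ClassGroup.mk0 I) : ℤˣ) : ℤ) = gfun N p (absNorm (I : Ideal (𝓞 K))) :=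
  h.exists_genusChar hp hpN

/-- **Primes with prescribed symbols**: for every prime `p ∣ N / 2` there is an arbitrarily large prime number
`ℓ` with `(-N / ℓ) = 1`, `(ℓ / p) = -1` and `(ℓ / p') = 1` for the other primes `p' ∣ N / 2`.  Proof:
Dirichlet's theorem on primes in arithmetic progressions (Mathlib) for a progression modulo `4 N`, and
quadratic reciprocity.  File `H63LTPrim`. -/
theorem primes_with_symbols {N : ℕ} (hN : Squarefree N) (h2 : 2 ∣ N) {p : ℕ} (hp : p.Prime)
    (hpN : p ∣ N / 2) (B : ℕ) :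
    ∃ ℓ : ℕ, ℓ.Prime ∧ B < ℓ ∧ jacobiSym (-(N : ℤ)) ℓ = 1 ∧ jacobiSym ℓ p = -1 ∧
      ∀ p', p'.Prime → p' ∣ N / 2 → p' ≠ p → jacobiSym ℓ p' = 1 :=
  exists_prime_jacobi hN h2 hp hpN B

/-- **Ideals of prime norm**: if `(-N / ℓ) = 1` for an odd prime number `ℓ`, there is an ideal of norm `ℓ`.
File `H63LTGenus`. -/
theorem exists_ideal_of_prime_norm (h : QuadData K N w) {ℓ : ℕ} (hℓ : ℓ.Prime) (hℓ2 : ℓ ≠ 2)
    (hJ : jacobiSym (-(N : ℤ)) ℓ = 1) : ∃ P : Ideal (𝓞 K), absNorm P = ℓ :=
  h.exists_ideal_of_jacobi hℓ hℓ2 hJ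

/-! ## 4. The theorem -/

/-- **A lemma on finite abelian groups.**  Let `Φ : C → {±1}^ι` be surjective and suppose that at most `2^#ι`
elements of `C` have square `1`.  Then every homomorphism `C → {±1}` is a product of components of `Φ`.
(`#C[2] = #C/C²`, so `Φ` induces an isomorphism of `C/C²` with `{±1}^ι`.)  File `H63LTGrp`. -/
theorem quadratic_characters {C : Type*} [CommGroup C] [Finite C] {ι : Type*} [Fintype ι]
    (Φ : C →* (ι → ℤˣ)) (hΦ : Function.Surjective Φ)
    (hcard : Nat.card {c : C // c ^ 2 = 1} ≤ 2 ^ Fintype.card ι) (θ : C →* ℤˣ) :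
    ∃ S : Finset ι, ∀ c, θ c = ∏ i ∈ S, Φ c i :=
  exists_finset_of_surjective Φ hΦ hcard θ

/-- **Genus theory**: for every character `θ` of the class group of `K = ℚ(√-N)` with values `±1` there is a
divisor `d` of `N / 2` such that `θ([I]) = (N(I) / d)` for all ideals `I` of norm prime to `d`; and `d ≠ 1` if
`θ ≠ 1`.  File `H63LTGenus`. -/
theorem genus (h : QuadData K N w) (θ : ClassGroup (𝓞 K) →* ℤˣ) :
    ∃ d : ℕ, d ∣ N / 2 ∧ (θ ≠ 1 → d ≠ 1) ∧
      ∀ I : (Ideal (𝓞 K))⁰, (absNorm (I : Ideal (𝓞 K))).Coprime d →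
        ((θ (ClassGroup.mk0 I) : ℤˣ) : ℤ) = jacobiSym (absNorm (I : Ideal (𝓞 K))) d :=
  h.exists_genus θ

/-- **Quadratic reciprocity** in the form `(d* / ℓ) = (ℓ / d)`, with `d* = ±d ≡ 1 mod 4`: it translates the
preceding theorem into `GuideResidualSteps.genus_theory`.  File `H63LTGenusChar`. -/
theorem reciprocity {d ℓ : ℕ} (hd : Odd d) (hℓ : Odd ℓ) :
    jacobiSym (if d % 4 = 1 then (d : ℤ) else -d) ℓ = jacobiSym ℓ d :=
  jacobi_star hd hℓ

end Field

/-! ## 5. Unramified characters of `Gal(ℚ̄/K)`

`LT.GK N` is the subgroup `Gal(ℚ̄/K)` of `Gal(ℚ̄/ℚ)`; `LT.primesOver K ℓ` the set of the prime ideals of norm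
`ℓ` and `LT.cls K P` the class of `P`; `LT.C2' K` the class group modulo the classes of odd order
(`LT.oddClasses`), and `LT.C2Q K Q` its product with the groups `μ₂`, one for each `q ∈ Q` (see
`GuideResidual`). -/

/-- **The bound for unramified characters, from a dihedral representation.**  Let `k` be a finite field of
characteristic 2 whose nonzero elements have cube 1 and `η` a nontrivial character of the class group of `K`
with values in `kˣ` (so `k` is the field with four elements).  Let `r` be a representation of `Gal(ℚ̄/ℚ)` of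
finite level over the group algebra `k[C₂ × μ₂^Q]`, of determinant one, diagonal on `Gal(ℚ̄/K)` and
antidiagonal outside, with trace `Σ η(P) [P]` over the prime ideals `P` of norm `ℓ` at the Frobenius elements
over the primes `ℓ ∤ L`.  Then a character of finite level of `Gal(ℚ̄/K)` with values in a finite abelian
2-group, which is unramified at all places, has at most `#C₂` values (`UnrBound`, see
`GuideResidual.unrBound_iff`).  Proof: the factor in `1 + 𝔪` of the first diagonal entry of `r` is a
homomorphism `κ₀ : Gal(ℚ̄/K) → C₂` (the other factor has order three) with `κ₀(Frob) = [P]^{±1}` where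
`η(P) ≠ 1`, by Frobenius' density theorem; it is surjective by genus theory (`H51Sur`, `H51SurT`), and
`GuideResidual.m5_unramified_characters` can be applied.  File `H63UnrBound2`. -/
theorem unramified_bound_of_representation {k : Type} [Field k] [Finite k] [CharP k 2]
    {K : Type} [Field K] [NumberField K] {N : ℕ} {w : 𝓞 K} (h : QuadData K N w)
    (hk : ∀ y : k, y ≠ 0 → y ^ 3 = 1) (Q : Finset ℕ) {L : ℕ} (hL : L ≠ 0) (hNL : N ∣ L)
    (η : ClassGroup (𝓞 K) →* kˣ) (hη : η ≠ 1)
    (r : H53.GQ →* Matrix (Fin 2) (Fin 2) (MonoidAlgebra k (Fermat.Agent.LT.C2Q K Q)))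
    (hfin : ∃ E : IntermediateField ℚ (AlgebraicClosure ℚ), FiniteDimensional ℚ E ∧
      ∀ σ : H53.GQ, (∀ x ∈ E, σ x = x) → r σ = 1)
    (hsh : (∀ g ∈ Fermat.Agent.LT.GK N, r g 0 1 = 0 ∧ r g 1 0 = 0) ∧
      ∀ g, g ∉ Fermat.Agent.LT.GK N → r g 0 0 = 0 ∧ r g 1 1 = 0)
    (hdet : ∀ g, (r g).det = 1)
    (htr : ∀ (ℓ : ℕ) (φ : H53.GQ), (ℓ.Prime ∧ ¬ ℓ ∣ L ∧
        ∃ A : ValuationSubring (AlgebraicClosure ℚ), A.LiesOverPrime ℓ ∧ A.IsFrobeniusAt φ ℓ) →
      (r φ).trace = ∑ P ∈ Fermat.Agent.LT.primesOver K ℓ,
        MonoidAlgebra.single ((QuotientGroup.mk (Fermat.Agent.LT.cls K P) : Fermat.Agent.LT.C2' K),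
          (1 : {q // q ∈ Q} → Multiplicative (ZMod 2))) ((η (Fermat.Agent.LT.cls K P) : kˣ) : k)) :
    H55.LT.UnrBound (Fermat.Agent.LT.GK N) (Nat.card (Fermat.Agent.LT.C2' K)) :=
  unrBound_of_rep h hk Q hL hNL η hη r hfin hsh hdet htr

end Fermat.Agent.Guide.Genus
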