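/-
H19LTGlue: gluing of two-dimensional matrix representations with traces in a subring, using an
element `c` whose eigenvalues `α`, `β` are distinct modulo the maximal ideal (any residue
characteristic, including two).
-/
import Mathlib.LinearAlgebra.Matrix.Trace
import Mathlib.LinearAlgebra.Matrix.NonsingularInverse
import Mathlib.LinearAlgebra.Matrix.Notation
import Mathlib.RingTheory.LocalRing.Basic
import Mathlib.RingTheory.Ideal.Basic
import Mathlib.Tactic.LinearCombination
import Mathlib.Tactic.FinCases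

set_option autoImplicit false

noncomputable section

namespace Fermat.Agent.H19LT

open Matrix

section Diag

variable {B : Type*} [CommRing B]

/-- Diagonalisation of a two by two matrix with eigenvalues `α`, `β`, `α - β` a unit. -/
theorem exists_diag [IsLocalRing B] {α β e : B} (he : (α - β) * e = 1)
    (C : Matrix (Fin 2) (Fin 2) B) (htr : C.trace = α + β) (hdet : C.det = α * β) :
    ∃ P : (Matrix (Fin 2) (Fin 2) B)ˣ,
      (P : Matrix (Fin 2) (Fin 2) B) * C * ((P⁻¹ : (Matrix (Fin 2) (Fin 2) B)ˣ) :
        Matrix (Fin 2) (Fin 2) B) = !![α, 0; 0, β] := by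
  rw [trace_fin_two] at htr
  rw [det_fin_two] at hdet
  set a := C 0 0 with ha
  set b := C 0 1 with hb
  set c := C 1 0 with hc
  set d := C 1 1 with hd
  have hCeq : C = !![a, b; c, d] := by
    ext i j
    fin_cases i <;> fin_cases j <;> simp [ha, hb, hc, hd]
  have hu : IsUnit (α - β) := IsUnit.of_mul_eq_one _ he
  have key : ∀ Q : Matrix (Fin 2) (Fin 2) B, IsUnit Q.det → C * Q = Q * !![α, 0; 0, β] →
      ∃ P : (Matrix (Fin 2) (Fin 2) B)ˣ,
      (P : Matrix (Fin 2) (Fin 2) B) * C * ((P⁻¹ : (Matrix (Fin 2) (Fin 2) B)ˣ) :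
        Matrix (Fin 2) (Fin 2) B) = !![α, 0; 0, β] := by
    intro Q hQ hCQ
    obtain ⟨q, hq⟩ := (Matrix.isUnit_iff_isUnit_det Q).mpr hQ
    refine ⟨q⁻¹, ?_⟩
    rw [inv_inv, mul_assoc, hq, hCQ, ← hq, ← mul_assoc, Units.inv_mul, one_mul]
  rcases IsLocalRing.isUnit_or_isUnit_of_add_one (a := (a - β) * e) (b := (d - β) * e)
    (by linear_combination he + e * htr) with h | h
  · have h1 : IsUnit (a - β) := isUnit_of_mul_isUnit_left h
    refine key !![a - β, b; c, d - α] ?_ ?_
    · have : (!![a - β, b; c, d - α] : Matrix (Fin 2) (Fin 2) B).det =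
          -((a - β) * (α - β)) := by
        rw [det_fin_two_of]
        linear_combination hdet + (-β) * htr
      rw [this]
      exact (h1.mul hu).neg
    · rw [hCeq, mul_fin_two, mul_fin_two]
      ext i j
      fin_cases i <;> fin_cases j <;> simp
      · linear_combination (-1 : B) * hdet + a * htr
      · linear_combination b * htr
      · linear_combination c * htr
      · linear_combination (-1 : B) * hdet + d * htr
  · have h1 : IsUnit (d - β) := isUnit_of_mul_isUnit_left h
    refine key !![b, a - α; d - β, c] ?_ ?_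
    · have : (!![b, a - α; d - β, c] : Matrix (Fin 2) (Fin 2) B).det =
          (d - β) * (α - β) := by
        rw [det_fin_two_of]
        linear_combination (-1 : B) * hdet + β * htr
      rw [this]
      exact h1.mul hu
    · rw [hCeq, mul_fin_two, mul_fin_two]
      ext i j
      fin_cases i <;> fin_cases j <;> simp
      · linear_combination b * htr
      · linear_combination (-1 : B) * hdet + a * htr
      · linear_combination (-1 : B) * hdet + d * htr
      · linear_combination c * htr

end Diag

section Glue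

variable {G : Type*} [Group G] {R : Type*} [CommRing R]

/-- The `(1,1)` entry from traces -/
def entA (β e : R) (t : G → R) (c g : G) : R := e * (t (c * g) - β * t g)

/-- The `(2,2)` entry from traces -/
def entD (α e : R) (t : G → R) (c g : G) : R := e * (α * t g - t (c * g))

/-- The product of the `(1,2)` entry of `g` and the `(2,1)` entry of `h`, from traces. -/
def entX (β e : R) (t : G → R) (c g h : G) : R :=
  entA β e t c (g * h) - entA β e t c g * entA β e t c h

/-- the glued matrix -/
def glueMat (α β e : R) (t : G → R) (c g₀ h₀ : G) (u : R) (g : G) : Matrix (Fin 2) (Fin 2) R :=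
  !![entA β e t c g, entX β e t c g h₀ * u; entX β e t c g₀ g, entD α e t c g]

theorem entA_eq {B : Type*} [CommRing B] {φ : R →+* B} {α β e : R} (he : (α - β) * e = 1)
    {r : G →* Matrix (Fin 2) (Fin 2) B} {t : G → R} (ht : ∀ g, φ (t g) = (r g).trace)
    {c : G} (hc : r c = !![φ α, 0; 0, φ β]) (g : G) : φ (entA β e t c g) = r g 0 0 := by
  have he' : (φ α - φ β) * φ e = 1 := by
    rw [← map_sub, ← map_mul, he, map_one]
  rw [entA, map_mul, map_sub, map_mul, ht, ht, map_mul, hc, trace_fin_two, trace_fin_two,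
    mul_apply, mul_apply]
  simp only [Fin.sum_univ_two, of_apply, cons_val', cons_val_zero, cons_val_one,
    empty_val', cons_val_fin_one]
  linear_combination (r g 0 0) * he'

theorem entD_eq {B : Type*} [CommRing B] {φ : R →+* B} {α β e : R} (he : (α - β) * e = 1)
    {r : G →* Matrix (Fin 2) (Fin 2) B} {t : G → R} (ht : ∀ g, φ (t g) = (r g).trace)
    {c : G} (hc : r c = !![φ α, 0; 0, φ β]) (g : G) : φ (entD α e t c g) = r g 1 1 := by
  have he' : (φ α - φ β) * φ e = 1 := by
    rw [← map_sub, ← map_mul, he, map_one]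
  rw [entD, map_mul, map_sub, map_mul, ht, ht, map_mul, hc, trace_fin_two, trace_fin_two,
    mul_apply, mul_apply]
  simp only [Fin.sum_univ_two, of_apply, cons_val', cons_val_zero, cons_val_one,
    empty_val', cons_val_fin_one]
  linear_combination (r g 1 1) * he'

theorem entX_eq {B : Type*} [CommRing B] {φ : R →+* B} {α β e : R} (he : (α - β) * e = 1)
    {r : G →* Matrix (Fin 2) (Fin 2) B} {t : G → R} (ht : ∀ g, φ (t g) = (r g).trace)
    {c : G} (hc : r c = !![φ α, 0; 0, φ β]) (g h : G) :
    φ (entX β e t c g h) = r g 0 1 * r h 1 0 := by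
  rw [entX, map_sub, map_mul, entA_eq he ht hc, entA_eq he ht hc, entA_eq he ht hc, map_mul,
    mul_apply]
  simp only [Fin.sum_univ_two]
  ring

/-- the glued matrix is conjugate to `r g` -/
theorem map_glueMat {B : Type*} [CommRing B] {φ : R →+* B} {α β e : R} (he : (α - β) * e = 1)
    {r : G →* Matrix (Fin 2) (Fin 2) B} {t : G → R} (ht : ∀ g, φ (t g) = (r g).trace)
    {c : G} (hc : r c = !![φ α, 0; 0, φ β]) {g₀ h₀ : G} {u : R}
    (hu : entX β e t c g₀ h₀ * u = 1) (g : G) :
    !![1, 0; 0, r g₀ 0 1] * r g =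
      (glueMat α β e t c g₀ h₀ u g).map φ * !![1, 0; 0, r g₀ 0 1] := by
  have hu' : r g₀ 0 1 * r h₀ 1 0 * φ u = 1 := by
    rw [← entX_eq he ht hc, ← map_mul, hu, map_one]
  ext i j
  fin_cases i <;> fin_cases j <;>
    simp only [glueMat, mul_apply, Fin.sum_univ_two, of_apply, cons_val', cons_val_zero,
      cons_val_one, empty_val', cons_val_fin_one, map_apply, entA_eq he ht hc, entD_eq he ht hc,
      entX_eq he ht hc, map_mul, Fin.zero_eta, Fin.mk_one, Fin.isValue] <;> ring_nf
  linear_combination (- r g 0 1) * hu'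

variable {ι : Type*} (B : ι → Type*) [∀ i, CommRing (B i)] (φ : ∀ i, R →+* B i)
  (hinj : ∀ x : R, (∀ i, φ i x = 0) → x = 0) {α β e : R} (he : (α - β) * e = 1)
  (r : ∀ i, G →* Matrix (Fin 2) (Fin 2) (B i)) {t : G → R}
  (ht : ∀ i g, φ i (t g) = (r i g).trace)
  {c : G} (hc : ∀ i, r i c = !![φ i α, 0; 0, φ i β]) {g₀ h₀ : G} {u : R}
  (hu : entX β e t c g₀ h₀ * u = 1)

include he ht hc hu in
theorem isUnit_entry (i : ι) : IsUnit (r i g₀ 0 1) := by
  have hu' : r i g₀ 0 1 * r i h₀ 1 0 * φ i u = 1 := by
    rw [← entX_eq he (ht i) (hc i), ← map_mul, hu, map_one]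
  exact IsUnit.of_mul_eq_one (r i h₀ 1 0 * φ i u) (by rw [← mul_assoc]; exact hu')

include he ht hc hu in
theorem exists_conj_glueMat (i : ι) : ∃ P : (Matrix (Fin 2) (Fin 2) (B i))ˣ,
    ∀ g, (P : Matrix (Fin 2) (Fin 2) (B i)) * r i g *
      ((P⁻¹ : (Matrix (Fin 2) (Fin 2) (B i))ˣ) : Matrix (Fin 2) (Fin 2) (B i)) =
        (glueMat α β e t c g₀ h₀ u g).map (φ i) := by
  obtain ⟨P, hP⟩ := (Matrix.isUnit_iff_isUnit_det
    (!![1, 0; 0, r i g₀ 0 1] : Matrix (Fin 2) (Fin 2) (B i))).mpr (by
      rw [det_fin_two_of, one_mul, zero_mul, sub_zero]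
      exact isUnit_entry B φ he r ht hc hu i)
  refine ⟨P, fun g => ?_⟩
  rw [hP, map_glueMat he (ht i) (hc i) hu, ← hP, mul_assoc, Units.mul_inv, mul_one]

include hinj he ht hc hu in
/-- The glued representation. -/
def glueHom : G →* Matrix (Fin 2) (Fin 2) R where
  toFun := glueMat α β e t c g₀ h₀ u
  map_one' := by
    ext a b
    rw [← sub_eq_zero]
    apply hinj
    intro i
    obtain ⟨P, hP⟩ := exists_conj_glueMat B φ he r ht hc hu i
    have h := hP 1
    rw [map_one, mul_one, Units.mul_inv] at h
    have h' := congrFun (congrFun h a) b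
    rw [map_apply] at h'
    rw [map_sub, ← h', sub_eq_zero]
    by_cases hab : a = b
    · subst hab; simp
    · simp [one_apply_ne hab]
  map_mul' g h := by
    ext a b
    rw [← sub_eq_zero]
    apply hinj
    intro i
    obtain ⟨P, hP⟩ := exists_conj_glueMat B φ he r ht hc hu i
    have h1 : (glueMat α β e t c g₀ h₀ u (g * h)).map (φ i) =
        (glueMat α β e t c g₀ h₀ u g * glueMat α β e t c g₀ h₀ u h).map (φ i) := by
      rw [Matrix.map_mul, ← hP, ← hP, ← hP, map_mul]
      simp only [mul_assoc, Units.inv_mul_cancel_left]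
    have h' := congrFun (congrFun h1 a) b
    rw [map_apply, map_apply] at h'
    rw [map_sub, h', sub_self]

theorem glueHom_apply (g : G) :
    glueHom B φ hinj he r ht hc hu g = glueMat α β e t c g₀ h₀ u g := rfl

include hinj ht in
theorem trace_one_eq : t 1 = 2 := by
  rw [← sub_eq_zero]
  apply hinj
  intro i
  rw [map_sub, ht, map_one, trace_one, map_ofNat]
  simp

include hinj ht hc in
theorem trace_c_eq : t c = α + β := by
  rw [← sub_eq_zero]
  apply hinj
  intro i
  rw [map_sub, ht, hc, trace_fin_two, map_add]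
  simp

include hinj ht in
theorem trace_comm_eq (g h : G) : t (g * h) = t (h * g) := by
  rw [← sub_eq_zero]
  apply hinj
  intro i
  rw [map_sub, ht, ht, map_mul, map_mul, trace_mul_comm, sub_self]

include hinj he ht hc in
/-- If the traces of `g * σ` and `g` agree modulo `J` then `glueMat σ ≡ 1`. -/
theorem glueMat_sub_one_mem (J : Ideal R) (σ : G) (hσ : ∀ g, t (g * σ) - t g ∈ J) (a b : Fin 2) :
    glueMat α β e t c g₀ h₀ u σ a b - (1 : Matrix (Fin 2) (Fin 2) R) a b ∈ J := by
  have t1 := trace_one_eq B φ hinj r ht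
  have tc := trace_c_eq B φ hinj r ht hc
  have hσ1 : t σ - 2 ∈ J := by have := hσ 1; rwa [one_mul, t1] at this
  have hσc : t (c * σ) - (α + β) ∈ J := by have := hσ c; rwa [tc] at this
  have ha : entA β e t c σ - 1 ∈ J := by
    have : entA β e t c σ - 1 = e * ((t (c * σ) - (α + β)) - β * (t σ - 2)) := by
      rw [entA]; linear_combination he
    rw [this]
    exact J.mul_mem_left _ (J.sub_mem hσc (J.mul_mem_left _ hσ1))
  have hd : entD α e t c σ - 1 ∈ J := by
    have : entD α e t c σ - 1 = e * (α * (t σ - 2) - (t (c * σ) - (α + β))) := by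
      rw [entD]; linear_combination he
    rw [this]
    exact J.mul_mem_left _ (J.sub_mem (J.mul_mem_left _ hσ1) hσc)
  have hgσ : ∀ g, entA β e t c (g * σ) - entA β e t c g ∈ J := by
    intro g
    have : entA β e t c (g * σ) - entA β e t c g =
        e * ((t (c * g * σ) - t (c * g)) - β * (t (g * σ) - t g)) := by
      rw [entA, entA, ← mul_assoc c g σ]; ring
    rw [this]
    exact J.mul_mem_left _ (J.sub_mem (hσ _) (J.mul_mem_left _ (hσ _)))
  have hσg : ∀ g, entA β e t c (σ * g) - entA β e t c g ∈ J := by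
    intro g
    have : entA β e t c (σ * g) - entA β e t c g =
        e * ((t (g * c * σ) - t (g * c)) - β * (t (g * σ) - t g)) := by
      rw [entA, entA, trace_comm_eq B φ hinj r ht σ g, trace_comm_eq B φ hinj r ht c (σ * g),
        trace_comm_eq B φ hinj r ht c g, mul_assoc σ g c, trace_comm_eq B φ hinj r ht σ (g * c)]
      ring
    rw [this]
    exact J.mul_mem_left _ (J.sub_mem (hσ _) (J.mul_mem_left _ (hσ _)))
  fin_cases a <;> fin_cases b
  · simpa [glueMat] using ha
  · have : entX β e t c σ h₀ * u ∈ J := by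
      refine J.mul_mem_right _ ?_
      have e : entX β e t c σ h₀ = (entA β e t c (σ * h₀) - entA β e t c h₀) -
          (entA β e t c σ - 1) * entA β e t c h₀ := by
        rw [entX]; ring
      rw [e]
      exact J.sub_mem (hσg _) (J.mul_mem_right _ ha)
    simpa [glueMat] using this
  · have : entX β e t c g₀ σ ∈ J := by
      have e : entX β e t c g₀ σ = (entA β e t c (g₀ * σ) - entA β e t c g₀) -
          entA β e t c g₀ * (entA β e t c σ - 1) := by
        rw [entX]; ring
      rw [e]
      exact J.sub_mem (hgσ _) (J.mul_mem_left _ ha)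
    simpa [glueMat] using this
  · simpa [glueMat] using hd

end Glue

end Fermat.Agent.H19LT
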