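/-
H19LTAsm: gluing two-dimensional Galois representations over points of a complete local ring `T`
into one representation over `T`, in any residue characteristic: one element `h` with two
distinct residual eigenvalues is used instead of complex conjugation.
-/
import Fermat.Agent.H19LTGlue
import Fermat.Agent.H30Assemble

set_option autoImplicit false
set_option linter.style.haveILetI false
set_option linter.unusedSectionVars false

noncomputable section

namespace Fermat.Agent.H19LT

open IsLocalRing Matrix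
open Fermat.Agent.H53 (GQ M2 MCont)
open Fermat.Agent.H30 (FrobData MIrr conjRep exists_common_level exists_trace residue_trace
  sub_entry_mem trace_sub_mem det_sub_mem map_mem_pow exists_of_approx)

section Main

variable {T : Type} [CommRing T] [IsLocalRing T] [IsAdicComplete (maximalIdeal T) T]
  {ι : Type} [Finite ι] (B : ι → Type) [∀ i, CommRing (B i)] [∀ i, IsLocalRing (B i)]
  [∀ i, IsHausdorff (maximalIdeal (B i)) (B i)]
  (φ : ∀ i, T →+* B i) (hφ : ∀ i, IsLocalHom (φ i))
  (hT0 : ∀ n : ℕ, ∃ N : ℕ, ∀ x : T, (∀ i, φ i x ∈ maximalIdeal (B i) ^ N) →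
    x ∈ maximalIdeal T ^ n)
  {S : Finset ℕ} {a : ∀ ℓ : ℕ, ℓ.Prime → ℓ ∉ S → T}
  {r : ∀ i, GQ →* M2 (B i)} (hr : ∀ i, MCont (B i) (r i))
  (hfr : ∀ i, FrobData S (fun ℓ h h' => φ i (a ℓ h h')) (r i))

include hφ hT0 hr hfr in
/-- the determinant takes values in `T` -/
theorem exists_det (σ : GQ) : ∃ x : T, ∀ i, φ i x = (r i σ).det := by
  refine exists_of_approx B φ hφ hT0 (fun i => (r i σ).det) fun N => ?_
  obtain ⟨L, hL, hLr⟩ := exists_common_level B hr N
  obtain ⟨ℓ, hℓ, hℓS, P, hP, f, hf, j, hj⟩ := H31.weakFrobeniusDensity L hL S σ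
  refine ⟨(ℓ : T) ^ j, fun i => ?_⟩
  have h1 := det_sub_mem (sub_entry_mem (hLr i) (f ^ j) σ fun x hx => (hj x hx).symm)
  obtain ⟨h2, h3⟩ := hfr i ℓ hℓ hℓS P hP f hf
  rw [map_pow, det_pow, h3] at h1
  rw [map_pow, map_natCast]
  exact h1

include hT0 hr hfr in
/-- The determinant modulo the maximal ideal is that of the residual representation. -/
theorem residue_det {rbar : GQ →* M2 (ResidueField T)} (hrbar : MCont _ rbar)
    (hfrbar : FrobData S (fun ℓ h h' => residue T (a ℓ h h')) rbar)
    (σ : GQ) (x : T) (hx : ∀ i, φ i x = (r i σ).det) :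
    residue T x = (rbar σ).det := by
  obtain ⟨N, hN⟩ := hT0 1
  obtain ⟨L, hL, hLr⟩ := exists_common_level B hr N
  obtain ⟨L', hL', hLr'⟩ := hrbar 1
  obtain ⟨ℓ, hℓ, hℓS, P, hP, f, hf, j, hj⟩ := H31.weakFrobeniusDensity (L ⊔ L') inferInstance S σ
  have h0 : x - (ℓ : T) ^ j ∈ maximalIdeal T ^ 1 := by
    refine hN _ fun i => ?_
    have h1 := det_sub_mem (sub_entry_mem (hLr i) σ (f ^ j)
      fun x hx => hj x ((le_sup_left : L ≤ L ⊔ L') hx))
    obtain ⟨h2, h3⟩ := hfr i ℓ hℓ hℓS P hP f hf
    rw [map_pow, det_pow, h3] at h1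
    rw [map_sub, map_pow, map_natCast, hx]
    exact h1
  rw [pow_one] at h0
  have h4 : residue T x = (ℓ : ResidueField T) ^ j := by
    rw [← sub_eq_zero, ← map_natCast (residue T), ← map_pow, ← map_sub, residue_eq_zero_iff]
    exact h0
  have h1 := det_sub_mem (sub_entry_mem hLr' σ (f ^ j)
      fun x hx => hj x ((le_sup_right : L' ≤ L ⊔ L') hx))
  obtain ⟨h2, h3⟩ := hfrbar ℓ hℓ hℓS P hP f hf
  have hbot : maximalIdeal (ResidueField T) = ⊥ :=
    (Ideal.eq_bot_or_top _).resolve_right (Ideal.IsMaximal.ne_top inferInstance)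
  rw [map_pow, det_pow, h3, hbot, pow_one, Ideal.mem_bot, sub_eq_zero] at h1
  rw [h4, h1]

/-- Hensel: factorisation of a quadratic polynomial with distinct residual roots. -/
theorem exists_roots {x d : T} {αb βb : ResidueField T} (hne : αb ≠ βb)
    (hx : residue T x = αb + βb) (hd : residue T d = αb * βb) :
    ∃ α β e : T, (α - β) * e = 1 ∧ x = α + β ∧ d = α * β ∧ residue T α = αb ∧
      residue T β = βb := by
  obtain ⟨α₀, hα₀⟩ := residue_surjective αb
  set f : Polynomial T := Polynomial.X ^ 2 - Polynomial.C x * Polynomial.X + Polynomial.C d with hf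
  have hmonic : f.Monic := by
    rw [hf]
    monicity!
  have hev : f.eval α₀ ∈ maximalIdeal T := by
    rw [← residue_eq_zero_iff]
    rw [hf]
    simp only [Polynomial.eval_add, Polynomial.eval_sub, Polynomial.eval_pow, Polynomial.eval_X,
      Polynomial.eval_mul, Polynomial.eval_C, map_add, map_sub, map_pow, map_mul, hx, hd, hα₀]
    ring
  have hder : IsUnit (Ideal.Quotient.mk (maximalIdeal T) (f.derivative.eval α₀)) := by
    have h1 : residue T (f.derivative.eval α₀) ≠ 0 := by
      have h0 : f.derivative.eval α₀ = α₀ + α₀ - x := by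
        rw [hf]
        simp
        ring
      rw [h0, map_sub, map_add, hα₀, hx]
      intro h
      apply hne
      linear_combination h
    have h2 : residue T (f.derivative.eval α₀) = Ideal.Quotient.mk (maximalIdeal T)
      (f.derivative.eval α₀) := rfl
    rw [← h2]
    exact h1.isUnit
  obtain ⟨α, hα, hαα⟩ := HenselianRing.is_henselian f hmonic α₀ hev hder
  have hres : residue T α = αb := by
    rw [← hα₀, ← sub_eq_zero, ← map_sub, residue_eq_zero_iff]
    exact hαα
  have hroot : α ^ 2 - x * α + d = 0 := by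
    have : f.eval α = 0 := hα
    rw [hf] at this
    simpa only [Polynomial.eval_add, Polynomial.eval_sub, Polynomial.eval_pow, Polynomial.eval_X,
      Polynomial.eval_mul, Polynomial.eval_C] using this
  have hres' : residue T (x - α) = βb := by
    rw [map_sub, hx, hres]; ring
  have hu : IsUnit (α - (x - α)) := by
    by_contra h
    have h1 : residue T (α - (x - α)) = 0 :=
      (residue_eq_zero_iff _).mpr ((mem_maximalIdeal _).mpr h)
    rw [map_sub, hres, hres', sub_eq_zero] at h1
    exact hne h1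
  obtain ⟨e, he⟩ := hu.exists_right_inv
  exact ⟨α, x - α, e, he, by ring, by linear_combination hroot, hres, hres'⟩

include hφ hT0 hr hfr in
/-- **Gluing**: Galois representations over the points `B i` of `T`, with Frobenius traces coming
from `T`, come from a representation over `T`. Any residue characteristic. -/
theorem exists_glued (hinj : ∀ x : T, (∀ i, φ i x = 0) → x = 0)
    {rbar : GQ →* M2 (ResidueField T)} (hrbar : MCont _ rbar)
    (hfrbar : FrobData S (fun ℓ h h' => residue T (a ℓ h h')) rbar) (hirr : MIrr rbar)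
    {c : GQ} {αb βb : ResidueField T} (hne : αb ≠ βb) (hctr : (rbar c).trace = αb + βb)
    (hcdet : (rbar c).det = αb * βb) :
    ∃ ρ : GQ →* M2 T, MCont T ρ ∧ FrobData S a ρ ∧
      (∀ i, ∃ P : (M2 (B i))ˣ, ∀ g, (P : M2 (B i)) * r i g *
        ((P⁻¹ : (M2 (B i))ˣ) : M2 (B i)) = (ρ g).map (φ i)) ∧
      ∃ P : (M2 (ResidueField T))ˣ, ∀ g, (P : M2 (ResidueField T)) * rbar g *
        ((P⁻¹ : (M2 (ResidueField T))ˣ) : M2 (ResidueField T)) = (ρ g).map (residue T) := by
  classical
  choose t ht using exists_trace B φ hφ hT0 hr hfr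
  have htbar : ∀ g, residue T (t g) = (rbar g).trace := fun g =>
    residue_trace B φ hT0 hr hfr hrbar hfrbar g (t g) (ht g)
  obtain ⟨d, hd⟩ := exists_det B φ hφ hT0 hr hfr c
  have hdbar : residue T d = αb * βb := by
    rw [residue_det B φ hT0 hr hfr hrbar hfrbar c d hd, hcdet]
  obtain ⟨α, β, e, he, hxα, hdα, hα, hβ⟩ := exists_roots hne
    (by rw [htbar, hctr]) hdbar
  have hPe : ∀ i, (φ i α - φ i β) * φ i e = 1 := fun i => by
    rw [← map_sub, ← map_mul, he, map_one]
  have hP : ∀ i, ∃ P : (M2 (B i))ˣ, conjRep P (r i) c = !![φ i α, 0; 0, φ i β] := fun i =>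
    exists_diag (hPe i) (r i c) (by rw [← ht c i, hxα, map_add]) (by rw [← hd i, hdα, map_mul])
  choose P hP using hP
  obtain ⟨Q, hQ⟩ : ∃ Q : (M2 (ResidueField T))ˣ, conjRep Q rbar c =
      !![residue T α, 0; 0, residue T β] :=
    exists_diag (e := residue T e) (by rw [← map_sub, ← map_mul, he, map_one]) (rbar c)
      (by rw [hctr, hα, hβ]) (by rw [hcdet, hα, hβ])
  obtain ⟨⟨g₀, hg₀⟩, ⟨h₀, hh₀⟩⟩ := hirr Q
  have htc : ∀ i g, φ i (t g) = (conjRep (P i) (r i) g).trace := fun i g => by
    rw [H30.trace_conjRep]; exact ht g i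
  have hX : residue T (entX β e t c g₀ h₀) ≠ 0 := by
    have h3 := entX_eq (φ := residue T) (α := α) (β := β) he (r := conjRep Q rbar) (t := t)
      (fun g => by rw [H30.trace_conjRep]; exact htbar g) hQ g₀ h₀
    rw [h3]
    exact mul_ne_zero hg₀ hh₀
  have hXu : IsUnit (entX β e t c g₀ h₀) := by
    by_contra h
    exact hX ((residue_eq_zero_iff _).mpr ((mem_maximalIdeal _).mpr h))
  obtain ⟨u, hu⟩ := hXu.exists_right_inv
  let ρ : GQ →* M2 T := glueHom B φ hinj he (fun i => conjRep (P i) (r i)) htc hP hu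
  have hρtr : ∀ g, (ρ g).trace = t g := by
    intro g
    show (glueMat α β e t c g₀ h₀ u g).trace = t g
    rw [glueMat, trace_fin_two_of, entA, entD]
    linear_combination (t g) * he
  have hconj : ∀ i, ∃ P' : (M2 (B i))ˣ, ∀ g, (P' : M2 (B i)) * r i g *
        ((P'⁻¹ : (M2 (B i))ˣ) : M2 (B i)) = (ρ g).map (φ i) := by
    intro i
    obtain ⟨P', hP'⟩ := exists_conj_glueMat B φ he (fun i => conjRep (P i) (r i)) htc hP hu i
    refine ⟨P' * P i, fun g => ?_⟩
    have h3 := hP' g
    rw [H30.conjRep_apply] at h3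
    rw [_root_.mul_inv_rev, Units.val_mul, Units.val_mul]
    simp only [mul_assoc] at h3 ⊢
    exact h3
  have hconjbar : ∃ P : (M2 (ResidueField T))ˣ, ∀ g, (P : M2 (ResidueField T)) * rbar g *
        ((P⁻¹ : (M2 (ResidueField T))ˣ) : M2 (ResidueField T)) = (ρ g).map (residue T) := by
    have h1 := exists_conj_glueMat (ι := Unit) (fun _ => ResidueField T) (fun _ => residue T) he
      (fun _ => conjRep Q rbar) (t := t) (fun _ g => by rw [H30.trace_conjRep]; exact htbar g)
      (fun _ => hQ) hu ()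
    obtain ⟨P', hP'⟩ := h1
    refine ⟨P' * Q, fun g => ?_⟩
    have h3 := hP' g
    rw [H30.conjRep_apply] at h3
    rw [_root_.mul_inv_rev, Units.val_mul, Units.val_mul]
    simp only [mul_assoc] at h3 ⊢
    exact h3
  refine ⟨ρ, ?_, ?_, hconj, hconjbar⟩
  · -- continuity
    intro n
    obtain ⟨N, hN⟩ := hT0 n
    obtain ⟨L, hL, hLr⟩ := exists_common_level B hr N
    refine ⟨L, hL, fun σ hσ k j => ?_⟩
    refine glueMat_sub_one_mem B φ hinj he (fun i => conjRep (P i) (r i)) htc hP
      (maximalIdeal T ^ n) σ (fun g => ?_) k j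
    refine hN _ fun i => ?_
    rw [map_sub, ht (g * σ) i, ht g i]
    refine trace_sub_mem (sub_entry_mem (hLr i) (g * σ) g fun x hx => ?_)
    rw [AlgEquiv.mul_apply, hσ x hx]
  · -- Frobenius
    intro ℓ hℓ hℓS V hV σ hσ
    constructor
    · rw [hρtr, ← sub_eq_zero]
      apply hinj
      intro i
      rw [map_sub, ht σ i, (hfr i ℓ hℓ hℓS V hV σ hσ).1, sub_self]
    · rw [← sub_eq_zero]
      apply hinj
      intro i
      obtain ⟨P', hP'⟩ := hconj i
      have h3 : (φ i) (ρ σ).det = (r i σ).det := by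
        rw [RingHom.map_det, RingHom.mapMatrix_apply, ← hP' σ, det_mul_comm, ← mul_assoc,
          Units.inv_mul, one_mul]
      rw [map_sub, h3, (hfr i ℓ hℓ hℓS V hV σ hσ).2, map_natCast, sub_self]

end Main

end Fermat.Agent.H19LT
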