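/-
H19LTType: the local type `(χ s, s)` of a two-dimensional representation on a set `D` of group
elements, as a matrix identity; descent of types along jointly injective families; the common sign.
-/
import Fermat.Agent.H19LTAsm

set_option autoImplicit false
set_option linter.style.haveILetI false
set_option linter.unusedSectionVars false

noncomputable section

namespace Fermat.Agent.H19LT

open IsLocalRing Matrix
open Fermat.Agent.H53 (GQ M2 MCont)

/-- `r` has type `s` on `D`: it is an extension of the character `s` by the character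
`det * s` on `D` (`s` is quadratic), written as a matrix identity. -/
def HasType {G A : Type*} [Group G] [CommRing A] (D : Set G) (s : G → A)
    (r : G →* Matrix (Fin 2) (Fin 2) A) : Prop :=
  ∀ g ∈ D, ∀ g' ∈ D, (r g - ((r g).det * s g) • 1) * (r g' - s g' • 1) = 0

section Basic

variable {G A B : Type*} [Group G] [CommRing A] [CommRing B] {D : Set G}

/-- map of a representation along a ring homomorphism -/
def mapRep (f : A →+* B) (r : G →* Matrix (Fin 2) (Fin 2) A) : G →* Matrix (Fin 2) (Fin 2) B :=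
  (f.mapMatrix (m := Fin 2)).toMonoidHom.comp r

theorem mapRep_apply (f : A →+* B) (r : G →* Matrix (Fin 2) (Fin 2) A) (g : G) :
    mapRep f r g = (r g).map f := rfl

theorem det_mapRep (f : A →+* B) (r : G →* Matrix (Fin 2) (Fin 2) A) (g : G) :
    (mapRep f r g).det = f (r g).det := by
  rw [mapRep_apply, RingHom.map_det, RingHom.mapMatrix_apply]

theorem trace_mapRep (f : A →+* B) (r : G →* Matrix (Fin 2) (Fin 2) A) (g : G) :
    (mapRep f r g).trace = f (r g).trace := by
  rw [mapRep_apply, trace_fin_two, trace_fin_two, map_add]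
  rfl

theorem map_sub_smul (f : A →+* B) (M : Matrix (Fin 2) (Fin 2) A) (c : A) :
    (M - c • (1 : Matrix (Fin 2) (Fin 2) A)).map f = M.map f - f c • 1 := by
  ext i j
  by_cases h : i = j
  · subst h; simp
  · simp [one_apply_ne h]

theorem HasType.map {s : G → A} {r : G →* Matrix (Fin 2) (Fin 2) A} (h : HasType D s r)
    (f : A →+* B) : HasType D (fun g => f (s g)) (mapRep f r) := by
  intro g hg g' hg'
  have h1 := congrArg (fun M : Matrix (Fin 2) (Fin 2) A => M.map f) (h g hg g' hg')
  simp only [Matrix.map_mul, map_sub_smul, map_mul] at h1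
  rw [det_mapRep, mapRep_apply, mapRep_apply, h1]
  ext i j
  simp

/-- Types are checked on a jointly injective family. -/
theorem hasType_of_family {ι : Type*} {C : ι → Type*} [∀ i, CommRing (C i)]
    (φ : ∀ i, A →+* C i) (hinj : ∀ x : A, (∀ i, φ i x = 0) → x = 0)
    {s : G → A} {r : G →* Matrix (Fin 2) (Fin 2) A}
    (h : ∀ i, HasType D (fun g => φ i (s g)) (mapRep (φ i) r)) : HasType D s r := by
  intro g hg g' hg'
  ext a b
  rw [Matrix.zero_apply]
  apply hinj
  intro i
  have h1 := h i g hg g' hg'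
  rw [det_mapRep, mapRep_apply, mapRep_apply, ← map_mul, ← map_sub_smul, ← map_sub_smul,
    ← Matrix.map_mul] at h1
  have h2 := congrFun (congrFun h1 a) b
  exact h2

/-- Conjugation invariance of types. -/
theorem HasType.conj {s : G → A} {r r' : G →* Matrix (Fin 2) (Fin 2) A} (h : HasType D s r)
    (P : (Matrix (Fin 2) (Fin 2) A)ˣ)
    (hP : ∀ g, (P : Matrix (Fin 2) (Fin 2) A) * r g *
      ((P⁻¹ : (Matrix (Fin 2) (Fin 2) A)ˣ) : Matrix (Fin 2) (Fin 2) A) = r' g) :
    HasType D s r' := by
  intro g hg g' hg'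
  have hdet : (r' g).det = (r g).det := by
    rw [← hP g, det_mul_comm, ← mul_assoc, Units.inv_mul, one_mul]
  have key : ∀ (c : A) (k : G), r' k - c • 1 = (P : Matrix (Fin 2) (Fin 2) A) * (r k - c • 1) *
      ((P⁻¹ : (Matrix (Fin 2) (Fin 2) A)ˣ) : Matrix (Fin 2) (Fin 2) A) := by
    intro c k
    rw [mul_sub, sub_mul, hP, mul_smul_comm, smul_mul_assoc, mul_one, Units.mul_inv]
  rw [hdet, key, key]
  have := h g hg g' hg'
  calc _ = (P : Matrix (Fin 2) (Fin 2) A) * ((r g - ((r g).det * s g) • 1) *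
      (r g' - s g' • 1)) *
      ((P⁻¹ : (Matrix (Fin 2) (Fin 2) A)ˣ) : Matrix (Fin 2) (Fin 2) A) := by
        simp only [mul_assoc, Units.inv_mul_cancel_left]
    _ = 0 := by rw [this, mul_zero, zero_mul]

theorem HasType.mono {D' : Set G} {s : G → A} {r : G →* Matrix (Fin 2) (Fin 2) A}
    (h : HasType D s r) (hD : D' ⊆ D) : HasType D' s r :=
  fun g hg g' hg' => h g (hD hg) g' (hD hg')

theorem HasType.congr {s s' : G → A} {r : G →* Matrix (Fin 2) (Fin 2) A}
    (h : HasType D s r) (hs : ∀ g ∈ D, s g = s' g) : HasType D s' r := by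
  intro g hg g' hg'
  rw [← hs g hg, ← hs g' hg']
  exact h g hg g' hg'

/-- The type at a conjugate set. -/
theorem HasType.conj_set {s : G → A} {r : G →* Matrix (Fin 2) (Fin 2) A} (h : HasType D s r)
    (τ : G) : HasType {g | τ⁻¹ * g * τ ∈ D} (fun g => s (τ⁻¹ * g * τ)) r := by
  intro g hg g' hg'
  have h1 := h _ hg _ hg'
  have hu : r τ * r τ⁻¹ = 1 := by rw [← map_mul, mul_inv_cancel, map_one]
  have hu' : r τ⁻¹ * r τ = 1 := by rw [← map_mul, inv_mul_cancel, map_one]
  have hdet : (r (τ⁻¹ * g * τ)).det = (r g).det := by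
    rw [map_mul, det_mul_comm, ← map_mul, mul_inv_cancel_left]
  have key : ∀ (c : A) (k : G), r k - c • 1 = r τ * (r (τ⁻¹ * k * τ) - c • 1) * r τ⁻¹ := by
    intro c k
    rw [mul_sub, sub_mul, ← map_mul, ← map_mul, mul_smul_comm, smul_mul_assoc, mul_one, hu]
    congr 2
    group
  rw [hdet] at h1
  rw [key _ g, key _ g']
  calc _ = r τ * ((r (τ⁻¹ * g * τ) - ((r g).det * s (τ⁻¹ * g * τ)) • 1) * ((r τ⁻¹ * r τ) *
      (r (τ⁻¹ * g' * τ) - s (τ⁻¹ * g' * τ) • 1))) * r τ⁻¹ := by
        simp only [mul_assoc]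
    _ = 0 := by rw [hu', one_mul, h1, mul_zero, zero_mul]

/-- the adjugate of a two by two matrix -/
def adj2 (X : Matrix (Fin 2) (Fin 2) A) : Matrix (Fin 2) (Fin 2) A :=
  !![X 1 1, - X 0 1; - X 1 0, X 0 0]

theorem adj2_mul_self (X : Matrix (Fin 2) (Fin 2) A) : adj2 X * X = X.det • 1 := by
  ext i j
  fin_cases i <;> fin_cases j <;>
    simp [adj2, mul_apply, Fin.sum_univ_two, det_fin_two] <;> ring

theorem adj2_sub_smul (X : Matrix (Fin 2) (Fin 2) A) (c : A) :
    adj2 (X - c • 1) = (X.trace - c) • 1 - X := by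
  ext i j
  fin_cases i <;> fin_cases j <;>
    simp [adj2, trace_fin_two] <;> ring

theorem adj2_mul_eq_zero {X Y : Matrix (Fin 2) (Fin 2) A} {w : Fin 2 → A}
    (hw : ∃ i, IsUnit (w i)) (hX : w ᵥ* X = 0) (hY : w ᵥ* Y = 0) : adj2 X * Y = 0 := by
  have x := fun k => congrFun hX k
  have y := fun k => congrFun hY k
  simp only [vecMul, dotProduct, Fin.sum_univ_two, Pi.zero_apply] at x y
  have key : ∀ k i j, w k * (adj2 X * Y) i j = 0 := by
    intro k i j
    have yj := y j
    have x0 := x 0
    have x1 := x 1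
    fin_cases k <;> fin_cases i <;>
      simp only [adj2, mul_apply, Fin.sum_univ_two, Fin.zero_eta, Fin.mk_one, Fin.isValue,
        of_apply, cons_val', cons_val_zero, cons_val_one, empty_val', cons_val_fin_one]
    · linear_combination X 1 1 * yj - Y 1 j * x1
    · linear_combination Y 1 j * x0 - X 1 0 * yj
    · linear_combination Y 0 j * x1 - X 0 1 * yj
    · linear_combination X 0 0 * yj - Y 0 j * x0
  obtain ⟨k, hk⟩ := hw
  ext i j
  exact (hk.mul_right_eq_zero).mp (key k i j)

/-- A unimodular functional `w` with `w (r g) = s g • w` and `(s g)² = 1` on `D` gives the type. -/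
theorem hasType_of_functional {s : G → A} {r : G →* Matrix (Fin 2) (Fin 2) A}
    (hs : ∀ g ∈ D, s g * s g = 1) (w : Fin 2 → A) (hw : ∃ i, IsUnit (w i))
    (hwr : ∀ g ∈ D, w ᵥ* r g = s g • w) : HasType D s r := by
  intro g hg g' hg'
  have h0 : ∀ k ∈ D, w ᵥ* (r k - s k • 1) = 0 := by
    intro k hk
    rw [vecMul_sub, hwr k hk, vecMul_smul, vecMul_one, sub_self]
  have h1 := adj2_mul_eq_zero hw (h0 g hg) (h0 g' hg')
  have h2 := adj2_mul_eq_zero hw (h0 g hg) (h0 g hg)
  rw [adj2_mul_self] at h2
  have h3 : (r g - s g • 1).det = 0 := by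
    have := congrFun (congrFun h2 0) 0
    simpa using this
  have h4 : (r g).trace - s g = (r g).det * s g := by
    have e : (r g - s g • (1 : Matrix (Fin 2) (Fin 2) A)).det =
        (r g).det - s g * (r g).trace + s g * s g := by
      rw [det_fin_two, det_fin_two, trace_fin_two]
      simp
      ring
    rw [e] at h3
    linear_combination (-(s g)) * h3 - ((r g).trace - s g) * hs g hg
  rw [adj2_sub_smul, h4, ← neg_sub, neg_mul, neg_eq_zero] at h1
  exact h1

end Basic

end Fermat.Agent.H19LT
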