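/-
H19LTHecke: the Galois representation over a local Hecke ring, any residue characteristic.
-/
import Fermat.Agent.H19LTType
import Fermat.Agent.H30Points
import Fermat.Agent.H31Inputs

set_option autoImplicit false
set_option linter.style.haveILetI false
set_option linter.unusedSectionVars false

noncomputable section

namespace Fermat.Agent.H19LT

open IsLocalRing Matrix
open Fermat.Agent.H53 (GQ M2 MCont)
open Fermat.Agent.H30 (FrobData MIrr PointRep frobElt exists_pointRep)

/-- S30 for all levels. -/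
theorem statementS30 : H96.StatementS30 := H30.statementS30_of fun N _ => H31.jzeroInputs N

/-- **The Galois representation over a local Hecke ring**, any residue characteristic. -/
theorem exists_heckeRep {p : ℕ} [Fact p.Prime]
    {N : ℕ} [NeZero N] {S : Finset ℕ} (hpS : p ∈ S) (hNS : ∀ q : ℕ, q.Prime → q ∣ N → q ∈ S)
    (O : Type) [CommRing O] [IsDomain O] [IsDiscreteValuationRing O]
    [IsAdicComplete (maximalIdeal O) O] [Finite (ResidueField O)] [CharZero O]
    (hpO : (p : O) ∈ maximalIdeal O)
    {T : Type} [CommRing T] [IsLocalRing T] [IsNoetherianRing T]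
    [IsAdicComplete (maximalIdeal T) T] [Algebra O T] [IsLocalHom (algebraMap O T)]
    [Module.Finite O T] [Module.Free O T] [IsReduced T]
    (π : CuspForm.heckeAlgebra N 2 (↑S : Set ℕ) →+* T)
    {rbar : GQ →* M2 (ResidueField T)} (hrbar : MCont _ rbar)
    (hfrbar : FrobData S (fun ℓ h h' => residue T (frobElt hNS π ℓ h h')) rbar)
    (hirr : MIrr rbar)
    {c : GQ} {αb βb : ResidueField T} (hne : αb ≠ βb) (hctr : (rbar c).trace = αb + βb)
    (hcdet : (rbar c).det = αb * βb) :
    ∃ ρ : GQ →* M2 T, MCont T ρ ∧ FrobData S (frobElt hNS π) ρ ∧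
      (∀ q : ℕ, q.Prime → ¬ q ∣ N → q ≠ p → ∀ A : ValuationSubring (AlgebraicClosure ℚ),
        A.LiesOverPrime q → ∀ σ ∈ A.inertiaSubgroupIn ℚ, ρ σ = 1) ∧
      ∃ P : (M2 (ResidueField T))ˣ, ∀ g, (P : M2 (ResidueField T)) * rbar g *
        ((P⁻¹ : (M2 (ResidueField T))ˣ) : M2 (ResidueField T)) = (ρ g).map (residue T) := by
  classical
  haveI : Finite (minimalPrimes T) := (minimalPrimes.finite_of_isNoetherianRing T).to_subtype
  have hpts : ∀ I : minimalPrimes T, Nonempty (PointRep O T N p S (frobElt hNS π) I.1) :=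
    fun I => exists_pointRep statementS30 hpS hNS O hpO π I.2
  let D : ∀ I : minimalPrimes T, PointRep O T N p S (frobElt hNS π) I.1 := fun I => (hpts I).some
  have hinj : ∀ x : T, (∀ I, (D I).φ x = 0) → x = 0 := by
    intro x hx
    have h1 : x ∈ sInf (minimalPrimes T) := by
      rw [Submodule.mem_sInf]
      intro I hI
      exact (D ⟨I, hI⟩).ker_le ((RingHom.mem_ker).mpr (hx ⟨I, hI⟩))
    have h2 : sInf (minimalPrimes T) = (⊥ : Ideal T) := by
      rw [minimalPrimes, Ideal.sInf_minimalPrimes, Ideal.radical_bot_of_isReduced]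
    rw [h2] at h1
    exact h1
  have hT0 := H30.exists_forall_mem_pow (O := O) (T := T) (fun I => (D I).B) (fun I => (D I).φ)
    hinj
  obtain ⟨ρ, hρc, hρf, hρP, hρbar⟩ := exists_glued (fun I => (D I).B)
    (fun I => ((D I).φ : T →+* (D I).B)) (fun I => (D I).isLocalHom) hT0
    (S := S) (a := frobElt hNS π) (r := fun I => (D I).r) (fun I => (D I).cont)
    (fun I => (D I).frob) hinj hrbar hfrbar hirr hne hctr hcdet
  refine ⟨ρ, hρc, hρf, ?_, hρbar⟩
  intro q hq hqN hqp A hA σ hσ
  ext i j
  rw [← sub_eq_zero]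
  apply hinj
  intro I
  obtain ⟨P, hP⟩ := hρP I
  have h2 := hP σ
  rw [(D I).unram q hq hqN hqp A hA σ hσ, mul_one, Units.mul_inv] at h2
  have h3 := congrFun (congrFun h2 i) j
  rw [map_sub, sub_eq_zero]
  have h4 : (ρ σ).map ((D I).φ : T →+* (D I).B) i j = (D I).φ (ρ σ i j) := rfl
  rw [← h4, ← h3]
  by_cases hij : i = j
  · subst hij; simp
  · simp [one_apply_ne hij]

section Points

variable (O : Type) [CommRing O] [IsDomain O] [IsDiscreteValuationRing O]
    [IsAdicComplete (maximalIdeal O) O] [Finite (ResidueField O)] [CharZero O]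
    {T : Type} [CommRing T] [IsLocalRing T] [Algebra O T] [Module.Finite O T] [Module.Free O T]
    [IsReduced T]

/-- A nonzero element of a reduced finite free local algebra is detected by a point with values in a
complete discrete valuation ring. -/
theorem exists_point_ne_zero {x : T} (hx : x ≠ 0) :
    ∃ (B : Type) (_ : CommRing B) (_ : IsDomain B) (_ : IsDiscreteValuationRing B)
      (_ : IsAdicComplete (maximalIdeal B) B) (_ : Finite (ResidueField B)) (_ : CharZero B)
      (_ : Algebra O B) (_ : Module.Finite O B) (φ : T →ₐ[O] B),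
      IsLocalHom (φ : T →+* B) ∧ φ x ≠ 0 := by
  have h2 : sInf (minimalPrimes T) = (⊥ : Ideal T) := by
    rw [minimalPrimes, Ideal.sInf_minimalPrimes, Ideal.radical_bot_of_isReduced]
  obtain ⟨I, hI, hxI⟩ : ∃ I ∈ minimalPrimes T, x ∉ I := by
    by_contra h
    push Not at h
    apply hx
    have : x ∈ sInf (minimalPrimes T) := by
      rw [Submodule.mem_sInf]
      exact fun I hI => h I hI
    rw [h2] at this
    exact this
  haveI : I.IsPrime := hI.1.1
  haveI : FaithfulSMul O (T ⧸ I) := by
    rw [faithfulSMul_iff_algebraMap_injective, injective_iff_map_eq_zero]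
    intro x hx
    by_contra hx0
    have h1 : algebraMap O T x ∈ I := by
      rw [← Ideal.Quotient.eq_zero_iff_mem]
      exact hx
    have h2 : algebraMap O T x ∈ nonZeroDivisors T := by
      haveI : Module.IsTorsionFree O T := inferInstance
      rw [mem_nonZeroDivisors_iff_right]
      intro y hy
      rw [mul_comm, ← Algebra.smul_def] at hy
      exact (smul_eq_zero.mp hy).resolve_left hx0
    exact Set.disjoint_left.mp (Ideal.disjoint_nonZeroDivisors_of_mem_minimalPrimes hI) h1 h2
  obtain ⟨O', i1, i2, i3, i4, i5, i6, i7, i8, i9, ψ, hψ⟩ := H30.exists_normalization O (T ⧸ I)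
  refine ⟨O', i1, i2, i3, i4, i5, i6, i7, i8, ψ.comp (Ideal.Quotient.mkₐ O I), ?_, ?_⟩
  · have hψint : (ψ : T ⧸ I →+* O').IsIntegral := by
      intro x
      have h1 : IsIntegral O x := Algebra.IsIntegral.isIntegral x
      obtain ⟨f, hf, hfx⟩ := h1
      refine ⟨f.map (algebraMap O (T ⧸ I)), hf.map _, ?_⟩
      rw [Polynomial.eval₂_map]
      have h2 : (ψ : T ⧸ I →+* O').comp (algebraMap O (T ⧸ I)) = algebraMap O O' :=
        ψ.comp_algebraMap
      rw [h2]
      exact hfx
    haveI : IsLocalHom (ψ : T ⧸ I →+* O') := hψint.isLocalHom hψ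
    haveI : IsLocalHom (Ideal.Quotient.mk I) :=
      IsLocalHom.of_surjective _ Ideal.Quotient.mk_surjective
    constructor
    intro x hx
    have h2 : IsUnit (ψ (Ideal.Quotient.mk I x)) := hx
    have h3 : IsUnit (Ideal.Quotient.mk I x) := isUnit_of_map_unit (ψ : T ⧸ I →+* O') _ h2
    exact isUnit_of_map_unit (Ideal.Quotient.mk I) _ h3
  · intro h
    apply hxI
    rw [← Ideal.Quotient.eq_zero_iff_mem]
    apply hψ
    rw [map_zero]
    exact h

end Points

end Fermat.Agent.H19LT
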