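/-
H34LTOld: the ramified case of block M8 at an odd prime follows from the signed case.
-/
import Fermat.Agent.H19LTHecke
import Fermat.Agent.H19LTM8
import Fermat.Agent.H44OldForm
import Fermat.Agent.H58Newform
import Fermat.Agent.H54Frobenius

set_option autoImplicit false
set_option linter.style.haveILetI false

noncomputable section

namespace Fermat.Agent.H34.LTOld

open IsLocalRing Matrix CuspForm ModularFormClass
open Fermat.Agent.H53 (GQ M2 MCont mapMat)
open Fermat.Agent.LT (TypeAt Qb TwoRing)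
open Fermat.Agent.H19LT (Attached ResIrr M8Ram M8Sign)
open Fermat.Agent.H30 (FrobData MIrr frobElt)

/-- The integral eigencharacter of a normalised eigenform. -/
theorem exists_intChar {N : ℕ} [NeZero N] {f : CuspForm (CongruenceSubgroup.Gamma0 N) 2}
    (hf : f.IsNormalizedEigenform) (S : Set ℕ) :
    ∃ χ : heckeAlgebra N 2 S →+* integralClosure ℤ ℂ,
      ∀ t, ((χ t : integralClosure ℤ ℂ) : ℂ) = H58.eigenChar hf S t := by
  have hfin : Module.Finite ℤ (CuspForm.heckeAlgebra N 2 S) := S22.result N 2 S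
  have hint : ∀ t, IsIntegral ℤ (H58.eigenChar hf S t) := fun t => by
    have h1 : IsIntegral ℤ t := Algebra.IsIntegral.isIntegral t
    exact h1.map (H58.eigenChar hf S).toIntAlgHom
  exact ⟨(H58.eigenChar hf S).codRestrict (integralClosure ℤ ℂ).toSubring hint, fun t => rfl⟩

/-- residual irreducibility in the matrix form. -/
theorem mIrr_of {κ : Type} [Field κ] {r : GQ →* M2 κ}
    (h : ∀ x : Fin 2 → κ, x ≠ 0 → ∃ g : GQ, ∀ c : κ, (r g).mulVec x ≠ c • x) : MIrr r := by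
  have key : ∀ (P : (M2 κ)ˣ) (i j : Fin 2), i ≠ j →
      ∃ g, ((P : M2 κ) * r g * ((P⁻¹ : (M2 κ)ˣ) : M2 κ)) i j ≠ 0 := by
    intro P i j hij
    by_contra hcon
    push Not at hcon
    have hx0 : ((P⁻¹ : (M2 κ)ˣ) : M2 κ).mulVec (Pi.single j 1) ≠ 0 := by
      intro h0
      have h1 := congrArg (fun y => (P : M2 κ).mulVec y) h0
      simp only [mulVec_mulVec, Units.mul_inv, one_mulVec, mulVec_zero] at h1
      have h2 := congrFun h1 j
      simp at h2
    obtain ⟨g, hg⟩ := h _ hx0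
    apply hg (((P : M2 κ) * r g * ((P⁻¹ : (M2 κ)ˣ) : M2 κ)) j j)
    have h3 : ((P : M2 κ) * r g * ((P⁻¹ : (M2 κ)ˣ) : M2 κ)).mulVec (Pi.single j 1) =
        (((P : M2 κ) * r g * ((P⁻¹ : (M2 κ)ˣ) : M2 κ)) j j) • Pi.single j (1 : κ) := by
      funext k
      rw [mulVec_single_one]
      by_cases hk : k = j
      · subst hk; simp
      · have hki : k = i := by
          fin_cases k <;> fin_cases i <;> fin_cases j <;> simp_all
        subst hki
        rw [Pi.smul_apply, Pi.single_eq_of_ne hk, smul_zero]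
        exact hcon g
    have h4 := congrArg (fun y => ((P⁻¹ : (M2 κ)ˣ) : M2 κ).mulVec y) h3
    simp only [mulVec_mulVec, mulVec_smul] at h4
    rw [← h4, mulVec_mulVec, mul_assoc, ← mul_assoc, ← mul_assoc, Units.inv_mul, one_mul]
  intro P
  exact ⟨key P 0 1 (by decide), key P 1 0 (by decide)⟩

/-- A representation attached to an eigenform of level `L`, good eigensystem of which occurs at a
level `M` prime to `v`, is residually unramified at `v`. -/
theorem residual_unramified {L M : ℕ} [NeZero L] [NeZero M]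
    {f : CuspForm (CongruenceSubgroup.Gamma0 L) 2}
    {g : CuspForm (CongruenceSubgroup.Gamma0 M) 2} (hg : g.IsNormalizedEigenform)
    (hfg : ∀ ℓ : ℕ, ℓ.Prime → ¬ ℓ ∣ L → qCoeff g ℓ = qCoeff f ℓ) (hML : M ∣ L)
    {v : ℕ} (hv : v.Prime) (hv2 : v ≠ 2) (hvM : ¬ v ∣ M)
    {O' : Type} [CommRing O'] [IsDomain O'] [IsDiscreteValuationRing O'] [TwoRing O']
    {F : Type} [Field F] (j : O' →+* F) (ι : integralClosure ℤ ℂ →+* F) (S : Finset ℕ)
    (r : GQ →* M2 O') (hr : Attached f S j ι r) (hirr : ResIrr r) :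
    ∀ P : ValuationSubring Qb, P.LiesOverPrime v → ∀ σ ∈ P.inertiaSubgroupIn ℚ,
      mapMat (residue O') r σ = 1 := by
  classical
  haveI : Fact (Nat.Prime 2) := ⟨Nat.prime_two⟩
  haveI := TwoRing.char_zero (O' := O')
  haveI := TwoRing.complete (O' := O')
  haveI := TwoRing.finite (O' := O')
  have h2 : ((2 : ℕ) : O') ∈ maximalIdeal O' := by
    rw [Nat.cast_ofNat]; exact TwoRing.two
  have hL0 : L ≠ 0 := NeZero.ne L
  set S' : Finset ℕ := S ∪ (L.primeFactors ∪ {2}) with hS'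
  have hpS : 2 ∈ S' := by simp [hS']
  have hLS : ∀ q : ℕ, q.Prime → q ∣ L → q ∈ S' := fun q hq hqL => by
    rw [hS', Finset.mem_union, Finset.mem_union]
    exact Or.inr (Or.inl (Nat.mem_primeFactors.mpr ⟨hq, hqL, hL0⟩))
  have hNS : ∀ q : ℕ, q.Prime → q ∣ M → q ∈ S' := fun q hq hqM => hLS q hq (hqM.trans hML)
  obtain ⟨χ, hχ⟩ := exists_intChar hg (↑S' : Set ℕ)
  -- values at Frobenius elements
  have hT : ∀ (ℓ : ℕ) (hℓ : ℓ.Prime) (hℓM : ¬ ℓ ∣ M) (hℓS : ℓ ∉ (↑S' : Set ℕ))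
      (P : ValuationSubring Qb), P.LiesOverPrime ℓ → ∀ φ : GQ, P.IsFrobeniusAt φ ℓ →
      j (r φ).trace = ι (χ (heckeAlgebra.T hℓ hℓM hℓS)) ∧ (r φ).det = (ℓ : O') := by
    intro ℓ hℓ hℓM hℓS P hP φ hφ
    have hℓS' : ℓ ∉ S' := by simpa using hℓS
    have hℓL : ¬ ℓ ∣ L := fun h => hℓS' (hLS ℓ hℓ h)
    refine hr.frob ℓ hℓ (fun h => hℓS' ?_) _ ?_ P hP φ hφ
    · rw [hS']; exact Finset.mem_union_left _ h
    · rw [hχ, H58.eigenChar_T]
      exact hfg ℓ hℓ hℓL
  have hmem : ∀ t : heckeAlgebra M 2 (↑S' : Set ℕ), ι (χ t) ∈ j.range := by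
    rintro ⟨t, ht⟩
    refine Algebra.adjoin_induction (p := fun t ht => ι (χ ⟨t, ht⟩) ∈ j.range) ?_ ?_ ?_ ?_ ht
    · rintro T (⟨ℓ, hℓ, hℓN, hℓS, rfl⟩ | ⟨q, hqN, hq, hqS, rfl⟩)
      · obtain ⟨P, hP⟩ := H54.exists_liesOverPrime hℓ
        obtain ⟨φ, hφ⟩ := H54.exists_isFrobeniusAt hℓ hP
        exact ⟨_, (hT ℓ hℓ hℓN hℓS P hP φ hφ).1⟩
      · exact absurd (hNS q hq hqN) (by simpa using hqS)
    · intro n
      have : (⟨algebraMap ℤ _ n, Subalgebra.algebraMap_mem _ n⟩ :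
          heckeAlgebra M 2 (↑S' : Set ℕ)) = (n : heckeAlgebra M 2 (↑S' : Set ℕ)) := by
        ext1
        simp
      rw [this, map_intCast, map_intCast]
      exact ⟨n, map_intCast j n⟩
    · intro x y hx hy h1 h2
      have : (⟨x + y, add_mem hx hy⟩ : heckeAlgebra M 2 (↑S' : Set ℕ)) = ⟨x, hx⟩ + ⟨y, hy⟩ := rfl
      rw [this, map_add, map_add]
      exact add_mem h1 h2
    · intro x y hx hy h1 h2
      have : (⟨x * y, mul_mem hx hy⟩ : heckeAlgebra M 2 (↑S' : Set ℕ)) = ⟨x, hx⟩ * ⟨y, hy⟩ := rfl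
      rw [this, map_mul, map_mul]
      exact mul_mem h1 h2
  let e : O' ≃+* j.range := RingEquiv.ofBijective j.rangeRestrict
    ⟨fun a b hab => hr.inj (congrArg Subtype.val hab), j.rangeRestrict_surjective⟩
  let π : heckeAlgebra M 2 (↑S' : Set ℕ) →+* O' :=
    (e.symm : j.range →+* O').comp ((ι.comp χ).codRestrict j.range hmem)
  have hπ : ∀ t, j (π t) = ι (χ t) := fun t => by
    have := congrArg Subtype.val (e.apply_symm_apply ⟨ι (χ t), hmem t⟩)
    exact this
  have hfrob : FrobData S' (frobElt hNS π) r := by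
    intro ℓ hℓ hℓS P hP φ hφ
    obtain ⟨h1, h3⟩ := hT ℓ hℓ (fun h => hℓS (hNS ℓ hℓ h)) (by simpa using hℓS) P hP φ hφ
    refine ⟨hr.inj ?_, h3⟩
    rw [h1, frobElt, hπ]
  have hfrbar : FrobData S' (fun ℓ h h' => residue O' (frobElt hNS π ℓ h h'))
      (mapMat (residue O') r) := by
    intro ℓ hℓ hℓS P hP φ hφ
    obtain ⟨h1, h3⟩ := hfrob ℓ hℓ hℓS P hP φ hφ
    constructor
    · show _ = residue O' (frobElt hNS π ℓ hℓ hℓS)
      rw [← h1, trace_fin_two, trace_fin_two, map_add, H53.mapMat_apply, H53.mapMat_apply]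
    · rw [H53.mapMat_apply', ← map_natCast (residue O'), ← h3, RingHom.map_det]
      rfl
  obtain ⟨⟨ω, hω⟩, ⟨c, hctr, hcdet⟩, hlines⟩ := hirr
  have h2κ : (2 : ResidueField O') = 0 := by
    have := (residue_eq_zero_iff _).mpr h2
    rwa [map_natCast, Nat.cast_ofNat] at this
  haveI : IsAdicComplete (maximalIdeal O') O' := TwoRing.complete
  obtain ⟨ρ, -, -, hunr, P, hP⟩ := H19LT.exists_heckeRep (p := 2) hpS hNS O' h2 (T := O') π
    (rbar := mapMat (residue O') r) (hr.cont.map (residue O') inferInstance) hfrbar (mIrr_of hlines)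
    (c := c) (αb := ω) (βb := ω + 1) (by simp)
    (by rw [hctr]; linear_combination (-ω) * h2κ)
    (by rw [hcdet]; linear_combination (-1) * hω + h2κ)
  intro A hA σ hσ
  have h1 := hP σ
  rw [hunr v hv hvM hv2 A hA σ hσ] at h1
  have h3 : ((1 : M2 O').map (residue O')) = 1 := by
    rw [Matrix.map_one _ (map_zero _) (map_one _)]
  rw [h3] at h1
  have h4 := congrArg (fun X => ((P⁻¹ : (M2 (ResidueField O'))ˣ) : M2 (ResidueField O')) * X *
    (P : M2 (ResidueField O'))) h1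
  simp only [mul_assoc, Units.inv_mul_cancel_left, Units.inv_mul, mul_one] at h4
  exact h4

/-- **M8, ramified case, odd prime** from the signed case. -/
theorem m8Ram_of_m8Sign {v : ℕ} (hv2 : v ≠ 2) (h : M8Sign v) : M8Ram v := by
  intro L _ f hf hv hvL hvL2 _ O' _ _ _ _ F _ _ _ j ι S r hr hirr hram
  obtain ⟨M, rfl⟩ := hvL
  have hM : M ≠ 0 := fun h0 => (NeZero.ne (v * M)) (by rw [h0, mul_zero])
  haveI : NeZero M := ⟨hM⟩
  have hvM : ¬ v ∣ M := fun ⟨k, hk⟩ => hvL2 ⟨k, by rw [hk]; ring⟩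
  by_cases ha : qCoeff f v ^ 2 = 1
  · rcases sq_eq_one_iff.mp ha with h1 | h1
    · left
      have := h (v * M) f hf hv hv2 (dvd_mul_right v M) hvL2 1 (Or.inl rfl) (by simpa using h1)
        O' F j ι S r hr hirr
      simpa using this
    · right
      have := h (v * M) f hf hv hv2 (dvd_mul_right v M) hvL2 (-1) (Or.inr rfl) (by simpa using h1)
        O' F j ι S r hr hirr
      simpa using this
  · exfalso
    obtain ⟨g, hg, hgf⟩ := H44.goodEigensystemOccursAt_of_qCoeff_sq_ne_one hv hvM hM hf ha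
    obtain ⟨A, hA⟩ := H54.exists_liesOverPrime hv
    obtain ⟨σ, hσ, hne⟩ := hram A hA
    exact hne (residual_unramified hg hgf (dvd_mul_left M v) hv hv2 hvM j ι S r hr hirr A hA σ hσ)

end Fermat.Agent.H34.LTOld
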