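/-
H34LTDet: the determinant is the cyclotomic character, by density.
-/
import Fermat.Agent.H30Assemble
import Fermat.Agent.H46LTDefs

set_option autoImplicit false
set_option linter.style.haveILetI false

noncomputable section

namespace Fermat.Agent.H34.LTDet

open IsLocalRing Matrix
open Fermat.Agent.H53 (GQ M2 MCont mapMat)
open Fermat.Agent.LT (DetCyc)

variable {A : Type} [CommRing A] [IsLocalRing A]

/-- The determinant is cyclotomic if it is so at Frobenius elements outside a finite set. -/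
theorem detCyc_of_frob {p : ℕ} (hp : p.Prime) {S : Finset ℕ} (hpS : p ∈ S)
    {r : GQ →* M2 A} (hr : MCont A r)
    (hfr : ∀ ℓ : ℕ, ℓ.Prime → ℓ ∉ S → ∀ P : ValuationSubring (AlgebraicClosure ℚ),
      P.LiesOverPrime ℓ → ∀ φ : GQ, P.IsFrobeniusAt φ ℓ → (r φ).det = (ℓ : A))
    (hcl : ∀ n : ℕ, ∃ k : ℕ, maximalIdeal A ^ k ≤ Ideal.span {((p ^ n : ℕ) : A)}) :
    DetCyc p r := by
  intro n σ a ha
  obtain ⟨k, hk⟩ := hcl n
  obtain ⟨L, hL, hLr⟩ := hr k
  have hpn : NeZero (p ^ n) := ⟨pow_ne_zero _ hp.ne_zero⟩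
  obtain ⟨ζ, hζ⟩ := HasEnoughRootsOfUnity.exists_primitiveRoot (AlgebraicClosure ℚ) (p ^ n)
  have hint : IsIntegral ℚ ζ := (hζ.isIntegral (Nat.pos_of_ne_zero hpn.ne)).tower_top
  haveI : FiniteDimensional ℚ (IntermediateField.adjoin ℚ {ζ}) :=
    IntermediateField.adjoin.finiteDimensional hint
  obtain ⟨ℓ, hℓ, hℓS, P, hP, φ, hφ, j, hj⟩ :=
    H31.weakFrobeniusDensity (L ⊔ IntermediateField.adjoin ℚ {ζ}) inferInstance S σ
  have h1 : (r σ).det - (r (φ ^ j)).det ∈ Ideal.span {((p ^ n : ℕ) : A)} :=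
    hk (H30.det_sub_mem (H30.sub_entry_mem hLr σ (φ ^ j) fun x hx =>
      hj x ((le_sup_left : L ≤ L ⊔ IntermediateField.adjoin ℚ {ζ}) hx)))
  have hζL : ζ ∈ L ⊔ IntermediateField.adjoin ℚ {ζ} :=
    (le_sup_right : _ ≤ L ⊔ IntermediateField.adjoin ℚ {ζ})
      (IntermediateField.mem_adjoin_simple_self ℚ ζ)
  have hℓp : ℓ ≠ p := fun h => hℓS (h ▸ hpS)
  have hφζ : ∀ k : ℕ, (φ ^ k) ζ = ζ ^ (ℓ ^ k) := by
    intro k
    induction k with
    | zero => simp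
    | succ k ih =>
      rw [pow_succ', AlgEquiv.mul_apply, ih, map_pow]
      have := H31.frobenius_apply_rootOfUnity P hP
        (Nat.Coprime.pow_right n ((Nat.coprime_primes hℓ hp).mpr hℓp))
        (pow_pos hp.pos n) hφ hζ.1
      rw [this, ← pow_mul, pow_succ']
  have h2 : ζ ^ a = ζ ^ ℓ ^ j := by
    rw [← ha ζ hζ.1, hj ζ hζL, hφζ]
  have h3 : (r (φ ^ j)).det = ((ℓ ^ j : ℕ) : A) := by
    rw [map_pow, det_pow, hfr ℓ hℓ hℓS P hP φ hφ, Nat.cast_pow]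
  have h4 : ((ℓ ^ j : ℕ) : A) - (a : A) ∈ Ideal.span {((p ^ n : ℕ) : A)} := by
    have h5 : ((p ^ n : ℕ) : ℤ) ∣ ((ℓ ^ j : ℕ) : ℤ) - (a : ℤ) := by
      rw [← hζ.zpow_eq_one_iff_dvd, zpow_sub₀ (hζ.ne_zero hpn.ne), zpow_natCast, zpow_natCast,
        h2, div_self (pow_ne_zero _ (hζ.ne_zero hpn.ne))]
    obtain ⟨c, hc⟩ := h5
    rw [Ideal.mem_span_singleton]
    refine ⟨(c : A), ?_⟩
    have h7 := congrArg (Int.cast : ℤ → A) hc
    push_cast at h7 ⊢
    exact h7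
  have h5 := Ideal.add_mem _ h1 h4
  rw [h3] at h5
  convert h5 using 1
  ring

/-- The hypothesis on ideals for a discrete valuation ring of characteristic zero. -/
theorem exists_pow_le {A : Type} [CommRing A] [IsDomain A] [IsDiscreteValuationRing A]
    {x : A} (hx : x ≠ 0) : ∃ k : ℕ, maximalIdeal A ^ k ≤ Ideal.span {x} := by
  obtain ⟨ϖ, hϖ⟩ := IsDiscreteValuationRing.exists_irreducible A
  obtain ⟨k, u, hu⟩ := IsDiscreteValuationRing.eq_unit_mul_pow_irreducible hx hϖ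
  refine ⟨k, ?_⟩
  rw [hϖ.maximalIdeal_eq, Ideal.span_singleton_pow, Ideal.span_singleton_le_span_singleton, hu]
  exact ⟨((u⁻¹ : Aˣ) : A), by rw [mul_comm, ← mul_assoc, Units.inv_mul, one_mul]⟩

end Fermat.Agent.H34.LTDet
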