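/-
H34LTPull: the Steinberg relation and the unipotence relation pull back along a realisation
`V → O ⊗ T`.
-/
import Fermat.Agent.H35VGlue
import Fermat.Agent.H35S35

set_option autoImplicit false
set_option linter.unusedSectionVars false

noncomputable section

open TensorProduct Fermat.Agent.H35 Fermat.Agent.H30 Fermat.Agent.H31

namespace Fermat.Agent.H34.LTPull

section General

variable {Z O : Type*} [CommRing Z] [IsDomain Z] [IsPrincipalIdealRing Z] [CommRing O] [IsDomain O]
  [Algebra Z O] {T : Type*} [AddCommGroup T] [Module Z T] [Module.Free Z T]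
  {V : Type*} [AddCommGroup V] [Module O V]

theorem baseChange_nsmul (q : ℕ) (G : T →ₗ[Z] T) (v : O ⊗[Z] T) :
    (q • G).baseChange O v = (q : O) • G.baseChange O v := by
  rw [← Nat.cast_smul_eq_nsmul Z, LinearMap.baseChange_smul, LinearMap.smul_apply,
    ← algebraMap_smul O, map_natCast]

/-- The Steinberg relation. -/
theorem star_pull (hinj : Function.Injective (algebraMap Z O)) (w D s : Module.End Z T) {q : ℕ}
    (hst : ∀ x : T, D x = 0 → D (w x) = 0 → s (s x) + s (w x) + q • w (s x) + q • x = 0)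
    (F : V →ₗ[O] O ⊗[Z] T) (hF : Function.Injective F) (A : V →ₗ[O] V)
    (hA : ∀ x, F (A x) = s.baseChange O (F x))
    (c : O) (hw : ∀ x, w.baseChange O (F x) = c • F x)
    (hD : ∀ x, D.baseChange O (F x) = 0) (x : V) :
    A (A x) + (c * (1 + q)) • A x + (q : O) • x = 0 := by
  obtain ⟨n, e, y, he, hvy⟩ := exists_split hinj (F x)
  have h1 : ∀ k, D (y k) = 0 := apply_eq_zero_of_split he hvy D (hD x)
  have hDw : (D ∘ₗ w).baseChange O (F x) = 0 := by
    rw [LinearMap.baseChange_comp, LinearMap.comp_apply, hw, map_smul, hD, smul_zero]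
  have h2 : ∀ k, D (w (y k)) = 0 := apply_eq_zero_of_split he hvy (D ∘ₗ w) hDw
  let G : T →ₗ[Z] T := s ∘ₗ s + s ∘ₗ w + q • (w ∘ₗ s) + q • LinearMap.id
  have h3 : ∀ k, G (y k) = 0 := fun k => hst (y k) (h1 k) (h2 k)
  have h4 := baseChange_eq_zero_of_split hvy G h3
  have h5 : G.baseChange O (F x) = F (A (A x) + (c * (1 + q)) • A x + (q : O) • x) := by
    simp only [G, LinearMap.baseChange_add, LinearMap.add_apply, baseChange_nsmul,
      LinearMap.baseChange_comp, LinearMap.comp_apply, LinearMap.baseChange_id, LinearMap.id_apply,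
      ← hA, hw, map_smul, map_add]
    rw [mul_add, mul_one, add_smul, mul_comm c (q : O), mul_smul]
    abel
  rw [h5] at h4
  exact hF (by rw [h4, map_zero])

/-- The unipotence relation. -/
theorem unip_pull (s : Module.End Z T) (hs : ∀ x : T, s (s x - x) = s x - x)
    (F : V →ₗ[O] O ⊗[Z] T) (hF : Function.Injective F) (A : V →ₗ[O] V)
    (hA : ∀ x, F (A x) = s.baseChange O (F x)) (x : V) :
    A (A x - x) = A x - x := by
  have h1 : s ∘ₗ (s - LinearMap.id) = s - LinearMap.id := LinearMap.ext hs
  have h2 := congrArg (fun G : T →ₗ[Z] T => G.baseChange O (F x)) h1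
  simp only [LinearMap.baseChange_comp, LinearMap.comp_apply, LinearMap.baseChange_sub,
    LinearMap.sub_apply, LinearMap.baseChange_id, LinearMap.id_apply, ← hA, ← map_sub] at h2
  exact hF h2

end General

section Tate

variable {p : ℕ} [Fact p.Prime] {O : Type*} [CommRing O] [IsDomain O] [Algebra ℤ_[p] O]
  {J J₁ : Type*} [AddCommGroup J] [DistribMulAction GQ J] [AddCommGroup J₁]
  {V : Type*} [AddCommGroup V] [Module O V]

/-- The Steinberg relation for a realisation in a Tate module. -/
theorem star_pull_tate (hinj : Function.Injective (algebraMap ℤ_[p] O))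
    (hfin : {x : J | p • x = 0}.Finite)
    (w : J →+ J) (f : J →+ J₁) (g : J₁ →+ J) {q : ℕ} (σ : GQ)
    (hst : ∀ x : J, (∃ n : ℕ, p ^ n • x = 0) → g (f x) = 0 → g (f (w x)) = 0 →
      σ • (σ • x) + σ • (w x) + q • w (σ • x) + q • x = 0)
    (F : V →ₗ[O] O ⊗[ℤ_[p]] TateMod p J) (hF : Function.Injective F) (A : V →ₗ[O] V)
    (hA : ∀ x, F (A x) = (galTate p J σ).baseChange O (F x))
    (c : O) (hw : ∀ x, (tateMap w).baseChange O (F x) = c • F x)
    (hf : ∀ x, (tateMap (p := p) f).baseChange O (F x) = 0) (x : V) :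
    A (A x) + (c * (1 + q)) • A x + (q : O) • x = 0 := by
  have := TateMod.free_of_finite_torsion (p := p) (J := J) hfin
  refine star_pull hinj (tateMap w) (tateMap (g.comp f)) (galTate p J σ) ?_ F hF A hA c hw ?_ x
  · intro x h1 h2
    ext n
    have e1 : g (f (TateMod.proj n x)) = 0 := by
      have := congrArg (TateMod.proj n) h1
      rwa [map_zero] at this
    have e2 : g (f (w (TateMod.proj n x))) = 0 := by
      have := congrArg (TateMod.proj n) h2
      rwa [map_zero] at this
    have h := hst (TateMod.proj n x) ⟨n, TateMod.pow_smul_proj x n⟩ e1 e2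
    simp only [map_add, map_nsmul, proj_galTate, proj_tateMap, map_zero]
    exact h
  · intro x
    have h1 : tateMap (p := p) (g.comp f) = tateMap g ∘ₗ tateMap f := LinearMap.ext fun _ => rfl
    rw [h1, LinearMap.baseChange_comp, LinearMap.comp_apply, hf, map_zero]

/-- Unipotence for a realisation in a Tate module. -/
theorem unip_pull_tate (hfin : {x : J | p • x = 0}.Finite) (σ : GQ)
    (hs : ∀ x : J, (∃ n : ℕ, p ^ n • x = 0) → σ • (σ • x - x) = σ • x - x)
    (F : V →ₗ[O] O ⊗[ℤ_[p]] TateMod p J) (hF : Function.Injective F) (A : V →ₗ[O] V)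
    (hA : ∀ x, F (A x) = (galTate p J σ).baseChange O (F x)) (x : V) :
    A (A x - x) = A x - x := by
  have := TateMod.free_of_finite_torsion (p := p) (J := J) hfin
  refine unip_pull (galTate p J σ) ?_ F hF A hA x
  intro x
  ext n
  have h := hs (TateMod.proj n x) ⟨n, TateMod.pow_smul_proj x n⟩
  simp only [map_sub, proj_galTate]
  rw [← smul_sub]
  exact h

end Tate

end Fermat.Agent.H34.LTPull
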