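import Fermat.Agent.H53Tame5
import Fermat.Agent.H63Lift
import Fermat.Agent.H56Defs

/-!
# The decomposition group is topologically generated by inertia and a Frobenius element
-/

set_option autoImplicit false

noncomputable section

open Pointwise NumberField

namespace Fermat.Agent.H28

local notation "Qb" => AlgebraicClosure ℚ
local notation "Gq" => (AlgebraicClosure ℚ ≃ₐ[ℚ] AlgebraicClosure ℚ)

theorem exists_pow_frobenius {F₀ : Type*} [Field F₀] [Finite F₀] (q : ℕ) [Fact q.Prime]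
    [CharP F₀ q] (s : F₀ →+* F₀) : ∃ n : ℕ, ∀ x, s x = x ^ q ^ n := by
  classical
  let _ : Algebra (ZMod q) F₀ := ZMod.algebra F₀ q
  have hbij : Function.Bijective s := Finite.injective_iff_bijective.1 s.injective
  let s' : F₀ ≃ₐ[ZMod q] F₀ := AlgEquiv.ofRingEquiv (f := RingEquiv.ofBijective s hbij) (by
    intro r
    exact congrArg (fun f : ZMod q →+* F₀ => f r)
      (Subsingleton.elim ((s : F₀ →+* F₀).comp (algebraMap (ZMod q) F₀)) (algebraMap (ZMod q) F₀)))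
  have : Algebra.IsAlgebraic (ZMod q) F₀ := Algebra.IsAlgebraic.of_finite _ _
  obtain ⟨n, hn⟩ := (FiniteField.bijective_frobeniusAlgEquivOfAlgebraic_pow (ZMod q) F₀).2 s'
  refine ⟨n, fun x => ?_⟩
  have h1 := congrArg (fun e : F₀ ≃ₐ[ZMod q] F₀ => e x) hn
  simp only [AlgEquiv.coe_pow, FiniteField.coe_frobeniusAlgEquivOfAlgebraic_iterate] at h1
  rw [ZMod.card] at h1
  exact h1.symm


open H63 in
theorem exists_frobenius_mul {A : ValuationSubring Qb} {q : ℕ} (hq : q.Prime)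
    (hA : A.LiesOverPrime q) {φ : Gq} (hφ : A.IsFrobeniusAt φ q) {σ : Gq} (hσ : σ • A = A)
    {U : Subgroup Gq} (hU : H55.krullLevels.op U) :
    ∃ n : ℕ, ∃ ι ∈ A.inertiaSubgroupIn ℚ, ∃ u ∈ U, σ = φ ^ n * ι * u := by
  classical
  have : Fact q.Prime := ⟨hq⟩
  rw [H55.krullLevels_op_iff] at hU
  obtain ⟨F, hF, hFU⟩ := hU
  let E : IntermediateField ℚ Qb := IntermediateField.normalClosure ℚ F Qb
  have hFE : F ≤ E := by
    have := IntermediateField.le_normalClosure F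
    exact this
  have hEfin : FiniteDimensional ℚ E := inferInstance
  have hQn : Normal ℚ Qb := IsAlgClosure.normal ℚ Qb
  have hEnorm : Normal ℚ E := normalClosure.normal ℚ F Qb
  have hEU : E.fixingSubgroup ≤ U := (IntermediateField.fixingSubgroup_le hFE).trans hFU
  have : NumberField E := ⟨⟩
  set P₀ : Ideal (𝓞 E) := (center A).comap (algebraMap (𝓞 E) (𝓞 Qb)) with hP₀
  have hqP : (q : 𝓞 E) ∈ P₀ := by
    rw [hP₀, Ideal.mem_comap, map_natCast]
    exact (liesOverPrime_iff A q).1 hA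
  have hP0 : P₀ ≠ ⊥ := by
    intro h
    rw [h, Ideal.mem_bot] at hqP
    exact hq.ne_zero (by exact_mod_cast hqP)
  have hmax : P₀.IsMaximal := Ideal.IsPrime.isMaximal inferInstance hP0
  let _ : Field (𝓞 E ⧸ P₀) := Ideal.Quotient.field P₀
  have : Finite (𝓞 E ⧸ P₀) := Ideal.finiteQuotientOfFreeOfNeBot P₀ hP0
  have : CharP (𝓞 E ⧸ P₀) q := by
    refine (CharP.charP_iff_prime_eq_zero hq).2 ?_
    rw [← map_natCast (Ideal.Quotient.mk P₀), Ideal.Quotient.eq_zero_iff_mem]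
    exact hqP
  let σE : E ≃ₐ[ℚ] E := AlgEquiv.restrictNormal σ E
  let m : 𝓞 E →+* 𝓞 E := RingOfIntegers.mapRingHom (σE : E →+* E)
  have hm : ∀ b : 𝓞 E, algebraMap (𝓞 E) (𝓞 Qb) (m b) = σ • algebraMap (𝓞 E) (𝓞 Qb) b := by
    intro b
    apply RingOfIntegers.ext
    exact AlgEquiv.restrictNormal_commutes σ E (b : E)
  have hcen : ∀ τ : Gq, τ • A = A → ∀ x : 𝓞 Qb, τ • x ∈ center A ↔ x ∈ center A := by
    intro τ hτ x
    have h1 : τ • center A = center A := by rw [← center_smul, hτ]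
    have h2 : τ • x ∈ τ • center A ↔ x ∈ center A := Ideal.smul_mem_pointwise_smul_iff
    rwa [h1] at h2
  have hle : P₀ ≤ P₀.comap m := by
    intro b hb
    rw [Ideal.mem_comap, hP₀, Ideal.mem_comap, hm, hcen σ hσ]
    exact hb
  let s : (𝓞 E ⧸ P₀) →+* (𝓞 E ⧸ P₀) := Ideal.quotientMap P₀ m hle
  obtain ⟨n, hn⟩ := exists_pow_frobenius q s
  have hkey : ∀ a : 𝓞 E, σ • algebraMap (𝓞 E) (𝓞 Qb) a - (algebraMap (𝓞 E) (𝓞 Qb) a) ^ q ^ n ∈
      center A := by
    intro a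
    have h1 := hn (Ideal.Quotient.mk P₀ a)
    rw [← map_pow] at h1
    have h2 : Ideal.Quotient.mk P₀ (m a) = Ideal.Quotient.mk P₀ (a ^ q ^ n) := h1
    rw [Ideal.Quotient.eq, hP₀, Ideal.mem_comap, map_sub, hm, map_pow] at h2
    exact h2
  have hφA : φ • A = A := ((isFrobeniusAt_iff A φ q).mp hφ).1
  have hφn : ∀ n : ℕ, φ ^ n • A = A := by
    intro n
    induction n with
    | zero => rw [pow_zero, one_smul]
    | succ n ih => rw [pow_succ, mul_smul, hφA, ih]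
  have hφpow : ∀ (n : ℕ) (x : 𝓞 Qb), φ ^ n • x - x ^ q ^ n ∈ center A := by
    intro n
    induction n with
    | zero => intro x; rw [pow_zero, pow_zero, pow_one, one_smul, sub_self]; exact zero_mem _
    | succ n ih =>
      intro x
      have h1 := (isFrobeniusAt_iff_center A φ hq.ne_zero).1 hφ x
      have h2 := (hcen (φ ^ n) (hφn n) _).2 h1
      have h3 := ih (x ^ q)
      rw [smul_sub] at h2
      have h4 : φ ^ (n + 1) • x - x ^ q ^ (n + 1) =
          (φ ^ n • φ • x - φ ^ n • x ^ q) + (φ ^ n • x ^ q - (x ^ q) ^ q ^ n) := by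
        rw [← mul_smul, ← pow_succ, ← pow_mul, ← pow_succ']; ring
      rw [h4]
      exact add_mem h2 h3
  obtain ⟨h, hh, hmem⟩ := exists_mul_mem_inertiaSubgroupIn (K := ℚ) A E.fixingSubgroup
    (InfiniteGalois.fixingSubgroup_isClosed E) ((φ ^ n)⁻¹ * σ) (by
      intro b hb
      obtain ⟨a, rfl⟩ := exists_ringOfIntegers_of_fixed (K := ℚ) (F := E) b (fun g hg => hb g (by
        rw [IntermediateField.mem_fixingSubgroup_iff]
        intro x hx
        exact hg ⟨x, hx⟩))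
      have h1 := sub_mem (hkey a) (hφpow n (algebraMap (𝓞 E) (𝓞 Qb) a))
      have hφn' : (φ ^ n)⁻¹ • A = A := by rw [inv_smul_eq_iff, hφn]
      have h2 := (hcen _ hφn' _).2 h1
      have h3 : (φ ^ n)⁻¹ • (σ • algebraMap (𝓞 E) (𝓞 Qb) a - algebraMap (𝓞 E) (𝓞 Qb) a ^ q ^ n -
          (φ ^ n • algebraMap (𝓞 E) (𝓞 Qb) a - algebraMap (𝓞 E) (𝓞 Qb) a ^ q ^ n)) =
          ((φ ^ n)⁻¹ * σ) • algebraMap (𝓞 E) (𝓞 Qb) a - algebraMap (𝓞 E) (𝓞 Qb) a := by
        rw [sub_sub_sub_cancel_right, smul_sub, inv_smul_smul, mul_smul]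
      rwa [h3] at h2)
  refine ⟨n, (φ ^ n)⁻¹ * σ * h, hmem, h⁻¹, inv_mem (hEU hh), ?_⟩
  group

end Fermat.Agent.H28
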