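import Fermat.Agent.H53Tame4

set_option autoImplicit false
set_option linter.style.haveILetI false
set_option linter.unusedSectionVars false

noncomputable section

open IsLocalRing Polynomial
open scoped Pointwise

namespace Fermat.Agent.H53

local notation "Qb" => AlgebraicClosure ℚ

/-- congruent to `1` modulo the ideal `I` -/
def Cong {A : Type} [CommRing A] (I : Ideal A) (M : M2 A) : Prop :=
  ∀ i j, M i j - (1 : M2 A) i j ∈ I

lemma cong_iff_map {A : Type} [CommRing A] (I : Ideal A) (M : M2 A) :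
    Cong I M ↔ M.map (Ideal.Quotient.mk I) = 1 := by
  constructor
  · intro h
    ext i j
    have h1 := Ideal.Quotient.eq_zero_iff_mem.mpr (h i j)
    rw [map_sub, sub_eq_zero] at h1
    rw [Matrix.map_apply, h1, Matrix.one_apply, Matrix.one_apply]
    split_ifs <;> simp
  · intro h i j
    rw [← Ideal.Quotient.eq_zero_iff_mem, map_sub, sub_eq_zero]
    have h1 := congrFun (congrFun h i) j
    rw [Matrix.map_apply] at h1
    rw [h1, Matrix.one_apply, Matrix.one_apply]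
    split_ifs <;> simp

lemma Cong.mul {A : Type} [CommRing A] {I : Ideal A} {M N : M2 A} (hM : Cong I M)
    (hN : Cong I N) : Cong I (M * N) := by
  rw [cong_iff_map] at *
  rw [Matrix.map_mul, hM, hN, one_mul]

lemma Cong.mono {A : Type} [CommRing A] {I J : Ideal A} (h : I ≤ J) {M : M2 A} (hM : Cong I M) :
    Cong J M := fun i j => h (hM i j)

/-- the `p`-th power improves congruences -/
lemma Cong.pow_p {A : Type} [CommRing A] [IsLocalRing A] {p : ℕ} (hp : (p : A) ∈ maximalIdeal A)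
    {n : ℕ} (hn : n ≠ 0) {M : M2 A} (hM : Cong (maximalIdeal A ^ n) M) :
    Cong (maximalIdeal A ^ (n + 1)) (M ^ p) := by
  have h1 : M ^ p - 1 = (∑ i ∈ Finset.range p, M ^ i) * (M - 1) := (geom_sum_mul M p).symm
  have hM1 : Cong (maximalIdeal A) M := hM.mono (Ideal.pow_le_self hn)
  have h2 : ∀ i j, (∑ i ∈ Finset.range p, M ^ i) i j ∈ maximalIdeal A := by
    intro i j
    rw [cong_iff_map] at hM1
    rw [← Ideal.Quotient.eq_zero_iff_mem]
    have h3 : (∑ i ∈ Finset.range p, M ^ i).map (Ideal.Quotient.mk (maximalIdeal A)) = 0 := by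
      have h4 : ((Ideal.Quotient.mk (maximalIdeal A)).mapMatrix (∑ i ∈ Finset.range p, M ^ i) :
          M2 (A ⧸ maximalIdeal A)) = 0 := by
        rw [map_sum]
        simp only [map_pow]
        have h5 : ((Ideal.Quotient.mk (maximalIdeal A)).mapMatrix M : M2 (A ⧸ maximalIdeal A)) = 1 :=
          hM1
        rw [h5]
        simp only [one_pow, Finset.sum_const, Finset.card_range, nsmul_eq_mul, mul_one]
        ext a b
        rw [← Matrix.diagonal_natCast, Matrix.diagonal_apply]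
        split_ifs
        · rw [← map_natCast (Ideal.Quotient.mk (maximalIdeal A))]
          exact Ideal.Quotient.eq_zero_iff_mem.mpr hp
        · rfl
      exact h4
    exact congrFun (congrFun h3 i) j
  intro i j
  have h6 : (M ^ p) i j - (1 : M2 A) i j = (M ^ p - 1) i j := rfl
  rw [h6, h1, Matrix.mul_apply, pow_succ, mul_comm (maximalIdeal A ^ n)]
  exact Ideal.sum_mem _ fun k _ => Ideal.mul_mem_mul (h2 i k) (hM k j)

lemma Cong.pow_p_pow {A : Type} [CommRing A] [IsLocalRing A] {p : ℕ}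
    (hp : (p : A) ∈ maximalIdeal A) {M : M2 A} (hM : Cong (maximalIdeal A) M) (n : ℕ) :
    Cong (maximalIdeal A ^ (n + 1)) (M ^ p ^ n) := by
  induction n with
  | zero => simpa using hM
  | succ n ih =>
    rw [pow_succ p, pow_mul]
    exact ih.pow_p hp (Nat.succ_ne_zero n)

/-- the kernel of a representation modulo an ideal -/
def levelKer {A : Type} [CommRing A] (r : GQ →* M2 A) (I : Ideal A) : Subgroup GQ :=
  ((mapMat (Ideal.Quotient.mk I) r).toHomUnits).ker

lemma mem_levelKer {A : Type} [CommRing A] (r : GQ →* M2 A) (I : Ideal A) (σ : GQ) :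
    σ ∈ levelKer r I ↔ Cong I (r σ) := by
  rw [levelKer, MonoidHom.mem_ker, Units.ext_iff, cong_iff_map]
  rfl

lemma isOpen_levelKer {A : Type} [CommRing A] [IsLocalRing A] {r : GQ →* M2 A} (hr : MCont A r)
    (n : ℕ) : IsOpen ((levelKer r (maximalIdeal A ^ n) : Subgroup GQ) : Set GQ) := by
  obtain ⟨L, hL, h⟩ := hr n
  have hle : L.fixingSubgroup ≤ levelKer r (maximalIdeal A ^ n) := by
    intro σ hσ
    rw [mem_levelKer]
    exact h σ fun x hx => (IntermediateField.mem_fixingSubgroup_iff L σ).mp hσ x hx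
  exact Subgroup.isOpen_mono hle (IntermediateField.fixingSubgroup_isOpen L)

section

variable {P : ValuationSubring (AlgebraicClosure ℚ)} {q : ℕ} (hq : q.Prime) (hP : P.LiesOverPrime q)
  {p : ℕ} [Fact p.Prime] (hpq : p ≠ q) {A : Type} [CommRing A] [IsLocalRing A]
  (hpA : (p : A) ∈ maximalIdeal A) {r : GQ →* M2 A} (hr : MCont A r)
  (hI : ∀ τ ∈ P.inertiaSubgroupIn ℚ, ∃ n, Cong (maximalIdeal A) (r τ ^ p ^ n))

include hpA hI in
lemma exists_pow_mem_levelKer (n : ℕ) : ∀ τ ∈ P.inertiaSubgroupIn ℚ,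
    ∃ k, τ ^ p ^ k ∈ levelKer r (maximalIdeal A ^ n) := by
  intro τ hτ
  obtain ⟨k, hk⟩ := hI τ hτ
  refine ⟨k + n, ?_⟩
  rw [mem_levelKer, map_pow, pow_add, pow_mul]
  exact (hk.pow_p_pow hpA n).mono (Ideal.pow_le_pow_right (Nat.le_succ n))

include hq hP hpq hpA hr hI

/-- elements fixing all the `p`-power roots of `q` act trivially -/
theorem cong_of_fix {τ : GQ} (hτ : τ ∈ P.inertiaSubgroupIn ℚ)
    (hfix : ∀ m, τ (piSys p q m) = piSys p q m) (n : ℕ) : Cong (maximalIdeal A ^ n) (r τ) := by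
  obtain ⟨k, hk⟩ := exists_pow_mem_levelKer hpA hI n τ hτ
  rw [← mem_levelKer]
  exact mem_of_pow_mem hq hP hpq (isOpen_levelKer hr n) hτ hfix k hk

/-- elements fixing a deep `p`-power root of `q` act trivially at a finite level -/
theorem exists_level_cong (n : ℕ) : ∃ m, ∀ τ ∈ P.inertiaSubgroupIn ℚ,
    τ (piSys p q m) = piSys p q m → Cong (maximalIdeal A ^ n) (r τ) := by
  obtain ⟨m, hm⟩ := exists_level hq hP hpq (isOpen_levelKer hr n)
    (exists_pow_mem_levelKer hpA hI n)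
  exact ⟨m, fun τ hτ h => (mem_levelKer _ _ _).mp (hm τ hτ h)⟩

/-- topological generation of the image of inertia by a tame generator -/
theorem exists_pow_cong {σ₀ : GQ} (hσ₀ : σ₀ ∈ P.inertiaSubgroupIn ℚ)
    (hne : σ₀ (piSys p q 1) ≠ piSys p q 1) {σ : GQ} (hσ : σ ∈ P.inertiaSubgroupIn ℚ) (n : ℕ) :
    ∃ a : ℕ, Cong (maximalIdeal A ^ n) (r ((σ₀ ^ a)⁻¹ * σ)) := by
  obtain ⟨m, hm⟩ := exists_level_cong hq hP hpq hpA hr hI n
  obtain ⟨a, ha1, ha2⟩ := exists_pow_fix hq hP hpq hσ₀ hne hσ m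
  exact ⟨a, hm _ ha1 ha2⟩

/-- the Frobenius relation -/
theorem frob_rel_cong {σ φ : GQ} (hσ : σ ∈ P.inertiaSubgroupIn ℚ) (hφ : P.IsFrobeniusAt φ q)
    (n : ℕ) : Cong (maximalIdeal A ^ n) (r ((φ * σ * φ⁻¹) * (σ ^ q)⁻¹)) := by
  obtain ⟨h1, h2⟩ := frob_rel hq hP hpq (p := p) hσ hφ
  exact cong_of_fix hq hP hpq hpA hr hI h1 h2 n

/-- the Frobenius relation, Hausdorff case -/
theorem frob_rel_eq (hA : ∀ x : A, (∀ n, x ∈ maximalIdeal A ^ n) → x = 0) {σ φ : GQ}
    (hσ : σ ∈ P.inertiaSubgroupIn ℚ) (hφ : P.IsFrobeniusAt φ q) :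
    r φ * r σ = r σ ^ q * r φ := by
  have h1 : r ((φ * σ * φ⁻¹) * (σ ^ q)⁻¹) = 1 := by
    ext i j
    exact sub_eq_zero.mp (hA _ fun n => frob_rel_cong hq hP hpq hpA hr hI hσ hφ n i j)
  have h2 : (φ * σ * φ⁻¹) * (σ ^ q)⁻¹ * (σ ^ q * φ) = φ * σ := by group
  calc r φ * r σ = r ((φ * σ * φ⁻¹) * (σ ^ q)⁻¹ * (σ ^ q * φ)) := by rw [h2, map_mul]
    _ = r σ ^ q * r φ := by rw [map_mul, h1, one_mul, map_mul, map_pow]

/-- if the tame generator acts trivially then inertia acts trivially -/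
theorem inertia_trivial_of_generator (hA : ∀ x : A, (∀ n, x ∈ maximalIdeal A ^ n) → x = 0)
    {σ₀ : GQ} (hσ₀ : σ₀ ∈ P.inertiaSubgroupIn ℚ) (hne : σ₀ (piSys p q 1) ≠ piSys p q 1)
    (h0 : r σ₀ = 1) {σ : GQ} (hσ : σ ∈ P.inertiaSubgroupIn ℚ) : r σ = 1 := by
  ext i j
  refine sub_eq_zero.mp (hA _ fun n => ?_)
  obtain ⟨a, ha⟩ := exists_pow_cong hq hP hpq hpA hr hI hσ₀ hne hσ n
  have h1 : r σ = r ((σ₀ ^ a)⁻¹ * σ) := by
    have h2 : r σ₀ ^ a = 1 := by rw [h0, one_pow]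
    have h3 : r ((σ₀ ^ a)⁻¹) = 1 := by
      have h4 : r ((σ₀ ^ a)⁻¹) * r (σ₀ ^ a) = 1 := by rw [← map_mul, inv_mul_cancel, map_one]
      rwa [map_pow, h2, mul_one] at h4
    rw [map_mul, h3, one_mul]
  rw [h1]
  exact ha i j

end

end Fermat.Agent.H53
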