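import Mathlib
import Fermat.Agent.H46LTDefs
import Fermat.Agent.H53Tame5
import Fermat.Agent.H28FrobGen

/-!
# Steinberg type at `q` from one Frobenius relation and unipotent inertia (M8b glue, helper46)

`A` a Hausdorff local domain of characteristic `0` with residue characteristic `p ≠ q` (`p = 2`
allowed), `r : GQ →* M2 A` continuous. If `φ` is a Frobenius at `P ∣ q` with
`(r φ - q s)(r φ - s) = 0`, `det r φ = q`, `s² = 1`, and inertia is unipotent, then `r` is of Steinberg
type at `P` with sign `s` (`TypeAt`).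
-/

set_option autoImplicit false
set_option linter.unusedSectionVars false

noncomputable section

open IsLocalRing Matrix
open scoped Pointwise

namespace Fermat.Agent.LT

open Fermat.Agent.H53 (GQ M2 mapMat MCont Cong levelKer mem_levelKer)

section algebra

variable {A : Type} [CommRing A]

/-- `g` acts on the line `im (F - s)` by `det g * c` and on the quotient by `c`
(`F` = matrix of Frobenius). -/
def GoodMat (F : M2 A) (q s : A) (M : M2 A) (c : A) : Prop :=
  (M - (M.det * c) • (1 : M2 A)) * (F - s • (1 : M2 A)) = 0 ∧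
    (F - (q * s) • (1 : M2 A)) * (M - c • (1 : M2 A)) = 0

variable {F : M2 A} {q s : A}

theorem GoodMat.mul {M N : M2 A} {c d : A} (hM : GoodMat F q s M c) (hN : GoodMat F q s N d) :
    GoodMat F q s (M * N) (c * d) := by
  obtain ⟨h1, h2⟩ := hM
  obtain ⟨h3, h4⟩ := hN
  rw [sub_mul, sub_eq_zero, smul_mul_assoc, one_mul] at h1 h3
  rw [mul_sub, sub_eq_zero, mul_smul_comm, mul_one] at h2 h4
  constructor
  · rw [sub_mul, sub_eq_zero, smul_mul_assoc, one_mul, mul_assoc, h3, mul_smul_comm, h1, smul_smul,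
      det_mul]
    congr 1
    ring
  · rw [mul_sub, sub_eq_zero, mul_smul_comm, mul_one, ← mul_assoc, h2, smul_mul_assoc, h4, smul_smul]

theorem goodMat_one : GoodMat F q s 1 1 := by
  constructor
  · rw [det_one, mul_one, one_smul, sub_self, zero_mul]
  · rw [one_smul, sub_self, mul_zero]

theorem GoodMat.pow {M : M2 A} {c : A} (hM : GoodMat F q s M c) (n : ℕ) :
    GoodMat F q s (M ^ n) (c ^ n) := by
  induction n with
  | zero => rw [pow_zero, pow_zero]; exact goodMat_one
  | succ n ih => rw [pow_succ, pow_succ]; exact ih.mul hM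

/-- `F` itself -/
theorem goodMat_self (hF : (F - (q * s) • (1 : M2 A)) * (F - s • (1 : M2 A)) = 0)
    (hdet : F.det = q) : GoodMat F q s F s := by
  constructor
  · rw [hdet]; exact hF
  · exact hF

theorem smul_M2_eq_zero [IsDomain A] {a : A} (ha : a ≠ 0) {M : M2 A} (h : a • M = 0) : M = 0 := by
  ext i j
  have := congrFun (congrFun h i) j
  exact (mul_eq_zero.mp this).resolve_left ha

/-- uniqueness of the quotient character -/
theorem GoodMat.unique [IsDomain A] {M : M2 A} {c d : A} (h : GoodMat F q s M c)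
    (h' : GoodMat F q s M d) (hY : F - (q * s) • (1 : M2 A) ≠ 0) : c = d := by
  by_contra hne
  apply hY
  have h1 := h.2
  have h2 := h'.2
  rw [mul_sub, sub_eq_zero, mul_smul_comm, mul_one] at h1 h2
  have h3 : (c - d) • (F - (q * s) • (1 : M2 A)) = 0 := by
    rw [sub_smul, ← h1, ← h2, sub_self]
  exact smul_M2_eq_zero (sub_ne_zero.mpr hne) h3

/-- the product relation -/
theorem GoodMat.mul_eq_zero [IsDomain A] {M N : M2 A} {c d : A} (hM : GoodMat F q s M c)
    (hN : GoodMat F q s N d) (hqs : (q - 1) * s ≠ 0) :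
    (M - (M.det * c) • (1 : M2 A)) * (N - d • (1 : M2 A)) = 0 := by
  have h1 := hM.1
  have h2 := hN.2
  -- `(F - s) Z = (q - 1) s Z` for `Z = N - d`
  have h3 : (F - s • (1 : M2 A)) * (N - d • (1 : M2 A)) = ((q - 1) * s) • (N - d • (1 : M2 A)) := by
    have : F - s • (1 : M2 A) = (F - (q * s) • (1 : M2 A)) + ((q - 1) * s) • (1 : M2 A) := by
      rw [sub_mul, one_mul, sub_smul]
      abel
    rw [this, add_mul, h2, zero_add, smul_mul_assoc, one_mul]
  have h4 : ((q - 1) * s) • ((M - (M.det * c) • (1 : M2 A)) * (N - d • (1 : M2 A))) = 0 := by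
    rw [← mul_smul_comm, ← h3, ← mul_assoc, h1, zero_mul]
  exact smul_M2_eq_zero hqs h4

/-- an invertible-over-the-fraction-field combination -/
theorem eq_zero_of_mul_right [IsDomain A] {Z B : M2 A} (h : Z * B = 0) (hB : B.det ≠ 0) : Z = 0 := by
  have h1 : Z * (B * B.adjugate) = 0 := by rw [← mul_assoc, h, zero_mul]
  rw [mul_adjugate, mul_smul_comm, mul_one] at h1
  exact smul_M2_eq_zero hB h1

theorem eq_zero_of_mul_left [IsDomain A] {Z B : M2 A} (h : B * Z = 0) (hB : B.det ≠ 0) : Z = 0 := by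
  have h1 : (B.adjugate * B) * Z = 0 := by rw [mul_assoc, h, mul_zero]
  rw [adjugate_mul, smul_mul_assoc, one_mul] at h1
  exact smul_M2_eq_zero hB h1

/-- Cayley–Hamilton -/
theorem frob_rel_of_trace (hs : s ^ 2 = 1) (htr : F.trace = (q + 1) * s) (hdet : F.det = q) :
    (F - (q * s) • (1 : M2 A)) * (F - s • (1 : M2 A)) = 0 := by
  rw [trace_fin_two] at htr
  rw [det_fin_two] at hdet
  ext i j
  fin_cases i <;> fin_cases j <;>
    simp [Matrix.mul_apply, Fin.sum_univ_two, Matrix.sub_apply, Matrix.smul_apply]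
  · linear_combination (F 0 0) * htr - hdet + q * hs
  · linear_combination (F 0 1) * htr
  · linear_combination (F 1 0) * htr
  · linear_combination (F 1 1) * htr - hdet + q * hs

/-- conversely (over a domain, `q ≠ 0, 1`) -/
theorem trace_of_frob_rel [IsDomain A] (hs : s ^ 2 = 1) (hq0 : q ≠ 0) (hq1 : q ≠ 1)
    (hF : (F - (q * s) • (1 : M2 A)) * (F - s • (1 : M2 A)) = 0) (hdet : F.det = q) :
    F.trace = (q + 1) * s := by
  have hs0 : s ≠ 0 := by
    rintro rfl
    simp at hs
  have h00 := congrFun (congrFun hF 0) 0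
  have h01 := congrFun (congrFun hF 0) 1
  have h10 := congrFun (congrFun hF 1) 0
  have h11 := congrFun (congrFun hF 1) 1
  simp [Matrix.mul_apply, Fin.sum_univ_two, Matrix.sub_apply, Matrix.smul_apply] at h00 h01 h10 h11
  rw [det_fin_two] at hdet
  rw [trace_fin_two]
  generalize F 0 0 = a at *
  generalize F 0 1 = b at *
  generalize F 1 0 = c at *
  generalize F 1 1 = d at *
  by_contra hne
  have hne' : a + d - (q + 1) * s ≠ 0 := sub_ne_zero.mpr hne
  have hb : b = 0 := by
    have : (a + d - (q + 1) * s) * b = 0 := by linear_combination h01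
    exact (mul_eq_zero.mp this).resolve_left hne'
  have hc : c = 0 := by
    have : (a + d - (q + 1) * s) * c = 0 := by linear_combination h10
    exact (mul_eq_zero.mp this).resolve_left hne'
  subst hb hc
  have ha : (a - q * s) * (a - s) = 0 := by linear_combination h00
  have hd : (d - q * s) * (d - s) = 0 := by linear_combination h11
  rcases mul_eq_zero.mp ha with ha | ha <;> rcases mul_eq_zero.mp hd with hd | hd
  · have e1 : a = q * s := by linear_combination ha
    have e2 : d = q * s := by linear_combination hd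
    have : q * (q - 1) = 0 := by
      rw [e1, e2] at hdet
      linear_combination hdet + (-q ^ 2) * hs
    rcases mul_eq_zero.mp this with h | h
    · exact hq0 h
    · exact hq1 (sub_eq_zero.mp h)
  · apply hne; linear_combination ha + hd
  · apply hne; linear_combination ha + hd
  · have e1 : a = s := by linear_combination ha
    have e2 : d = s := by linear_combination hd
    rw [e1, e2] at hdet
    apply hq1
    linear_combination (-1 : A) * hdet + hs

/-- **Key step**: a unipotent `T` with `F T = T ^ n F` (`n = q`) respects the Frobenius line. -/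
theorem goodMat_of_unipotent [IsDomain A] {n : ℕ} (hqn : q = (n : A)) (hs : s ^ 2 = 1)
    (hq0 : q ≠ 0) (hq1 : q ≠ 1) (hq2 : q ≠ -1)
    (htr : F.trace = (q + 1) * s) (hdet : F.det = q) {T : M2 A}
    (hT : (T - 1) * (T - 1) = 0) (hrel : F * T = T ^ n * F) : GoodMat F q s T 1 := by
  have hF := frob_rel_of_trace hs htr hdet
  set N := T - 1 with hN
  have hTN : T = 1 + N := by rw [hN]; abel
  have hTn : ∀ k : ℕ, T ^ k = 1 + (k : A) • N := by
    intro k
    induction k with
    | zero => simp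
    | succ k ih =>
      rw [pow_succ, ih, hTN, add_mul, one_mul, mul_add, mul_one, smul_mul_assoc, hT, smul_zero,
        add_zero, Nat.cast_succ, add_smul, one_smul]
      abel
  have h1 : F * N = q • (N * F) := by
    rw [hTn n, hTN, mul_add, mul_one, add_mul, one_mul, smul_mul_assoc, ← hqn] at hrel
    exact add_left_cancel hrel
  -- `det T = 1`
  have hTdet : T.det = 1 := by
    have hNd : N.det = 0 := by
      have : N.det * N.det = 0 := by rw [← det_mul, hT, Matrix.det_zero]
      simpa using this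
    have hNt : N.trace = 0 := by
      have e00 := congrFun (congrFun hT 0) 0
      have e11 := congrFun (congrFun hT 1) 1
      simp only [Matrix.mul_apply, Fin.sum_univ_two, Matrix.zero_apply] at e00 e11
      rw [det_fin_two] at hNd
      rw [trace_fin_two]
      have : (N 0 0 + N 1 1) ^ 2 = 0 := by linear_combination e00 + e11 + 2 * hNd
      exact pow_eq_zero_iff (two_ne_zero) |>.mp this
    rw [hTN, det_fin_two]
    rw [det_fin_two] at hNd
    rw [trace_fin_two] at hNt
    simp [Matrix.add_apply]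
    linear_combination hNd + hNt
  have htr' := htr
  have hdet' := hdet
  rw [trace_fin_two] at htr'
  rw [det_fin_two] at hdet'
  constructor
  · -- `N (F - s) = 0`
    rw [hTdet, one_mul, one_smul, ← hN]
    have e1 : F * (F - s • (1 : M2 A)) = (q * s) • (F - s • (1 : M2 A)) := by
      rw [sub_mul, smul_mul_assoc, one_mul, sub_eq_zero] at hF
      exact hF
    have e2 : (F - (q ^ 2 * s) • (1 : M2 A)) * (N * (F - s • (1 : M2 A))) = 0 := by
      rw [sub_mul, smul_mul_assoc, one_mul, ← mul_assoc, h1, smul_mul_assoc, mul_assoc, e1,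
        mul_smul_comm, smul_smul, sub_eq_zero]
      congr 1
      ring
    refine eq_zero_of_mul_left e2 ?_
    have : (F - (q ^ 2 * s) • (1 : M2 A)).det = q * (q - 1) ^ 2 * (q + 1) := by
      rw [det_fin_two]
      simp [Matrix.sub_apply, Matrix.smul_apply]
      linear_combination hdet' - (q ^ 2 * s) * htr' + (q ^ 4 - q ^ 2 * (q + 1)) * hs
    rw [this]
    refine mul_ne_zero (mul_ne_zero hq0 (pow_ne_zero 2 (sub_ne_zero.mpr hq1))) ?_
    intro h
    exact hq2 (by linear_combination h)
  · -- `(F - q s) N = 0`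
    rw [one_smul, ← hN]
    have e1 : (F - (q * s) • (1 : M2 A)) * F = s • (F - (q * s) • (1 : M2 A)) := by
      rw [mul_sub, mul_smul_comm, mul_one, sub_eq_zero] at hF
      exact hF
    have e2 : ((F - (q * s) • (1 : M2 A)) * N) * (q • F - s • (1 : M2 A)) = 0 := by
      rw [mul_sub, mul_smul_comm, mul_smul_comm, mul_one, mul_assoc, ← mul_smul_comm, ← h1,
        ← mul_assoc, e1, smul_mul_assoc, sub_self]
    refine eq_zero_of_mul_right e2 ?_
    have : (q • F - s • (1 : M2 A)).det = (q - 1) ^ 2 * (q + 1) := by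
      rw [det_fin_two]
      simp [Matrix.sub_apply, Matrix.smul_apply]
      linear_combination q ^ 2 * hdet' - (q * s) * htr' + (1 - q * (q + 1)) * hs
    rw [this]
    refine mul_ne_zero (pow_ne_zero 2 (sub_ne_zero.mpr hq1)) ?_
    intro h
    exact hq2 (by linear_combination h)

end algebra

section galois

variable {p q : ℕ} [Fact p.Prime] {A : Type} [CommRing A] [IsDomain A] [IsLocalRing A] [CharZero A]
  {r : GQ →* M2 A} {P : ValuationSubring Qb}

theorem cong_of_unipotent (hpA : (p : A) ∈ maximalIdeal A) {T : M2 A}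
    (hT : (T - 1) * (T - 1) = 0) : ∃ n, Cong (maximalIdeal A) (T ^ p ^ n) := by
  refine ⟨1, fun i j => ?_⟩
  have hTn : ∀ k : ℕ, T ^ k = 1 + (k : A) • (T - 1) := by
    intro k
    induction k with
    | zero => simp
    | succ k ih =>
      have e : T = 1 + (T - 1) := by abel
      rw [pow_succ, ih]
      nth_rewrite 2 [e]
      rw [add_mul, one_mul, mul_add, mul_one, smul_mul_assoc, hT, smul_zero,
        add_zero, Nat.cast_succ, add_smul, one_smul]
      abel
  rw [pow_one, hTn, Matrix.add_apply, add_sub_cancel_left, Matrix.smul_apply, smul_eq_mul]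
  exact Ideal.mul_mem_right _ _ hpA

/-- congruence modulo an ideal -/
def MCong (I : Ideal A) (M N : M2 A) : Prop := ∀ i j, M i j - N i j ∈ I

/-- products with small elements -/
theorem mcong_mul_of_cong {I : Ideal A} {M U : M2 A} (hU : Cong I U) : MCong I (M * U) M := by
  intro i j
  have h1 : (M * U) i j - M i j = ∑ k, M i k * (U k j - (1 : M2 A) k j) := by
    have : M i j = (M * 1) i j := by rw [mul_one]
    rw [this, Matrix.mul_apply, Matrix.mul_apply, ← Finset.sum_sub_distrib]
    exact Finset.sum_congr rfl fun k _ => by ring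
  rw [h1]
  exact Ideal.sum_mem _ fun k _ => Ideal.mul_mem_left _ _ (hU k j)

theorem entry_mem_of_goodMat {I : Ideal A} {F M N : M2 A} {qq s c : A} (h : MCong I M N)
    (hN : GoodMat F qq s N c) :
    (∀ i j, ((M - (M.det * c) • (1 : M2 A)) * (F - s • (1 : M2 A))) i j ∈ I) ∧
      ∀ i j, ((F - (qq * s) • (1 : M2 A)) * (M - c • (1 : M2 A))) i j ∈ I := by
  have hmap : (Ideal.Quotient.mk I).mapMatrix M = (Ideal.Quotient.mk I).mapMatrix N := by
    ext i j
    exact (Ideal.Quotient.eq).mpr (h i j)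
  have hdet : Ideal.Quotient.mk I M.det = Ideal.Quotient.mk I N.det := by
    rw [RingHom.map_det, RingHom.map_det, hmap]
  have hmem : ∀ X : M2 A, (Ideal.Quotient.mk I).mapMatrix X = 0 → ∀ i j, X i j ∈ I := by
    intro X hX i j
    exact Ideal.Quotient.eq_zero_iff_mem.mp (congrFun (congrFun hX i) j)
  have hsm : ∀ (a : A) (X : M2 A), (Ideal.Quotient.mk I).mapMatrix (a • X) =
      (Ideal.Quotient.mk I a) • (Ideal.Quotient.mk I).mapMatrix X := by
    intro a X
    ext i j
    simp
  refine ⟨hmem _ ?_, hmem _ ?_⟩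
  · have := congrArg (Ideal.Quotient.mk I).mapMatrix hN.1
    rw [map_mul, map_sub, hsm, map_mul, map_zero] at this
    rw [map_mul, map_sub, hsm, map_mul, hmap, hdet]
    exact this
  · have := congrArg (Ideal.Quotient.mk I).mapMatrix hN.2
    rw [map_mul, map_sub ((Ideal.Quotient.mk I).mapMatrix) N, hsm c, map_zero] at this
    rw [map_mul, map_sub ((Ideal.Quotient.mk I).mapMatrix) M, hsm c, hmap]
    exact this

variable (hq : q.Prime) (hP : P.LiesOverPrime q) (hpq : p ≠ q) (hpA : (p : A) ∈ maximalIdeal A)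
  (hr : MCont A r) (hA : ∀ x : A, (∀ n, x ∈ maximalIdeal A ^ n) → x = 0)
  {s : A} (hs : s = 1 ∨ s = -1) {φ : GQ} (hφ : P.IsFrobeniusAt φ q)
  (htr : (r φ).trace = ((q : A) + 1) * s) (hdet : (r φ).det = q)
  (hU : ∀ τ ∈ P.inertiaSubgroupIn ℚ, (r τ - 1) * (r τ - 1) = 0)

include hq hP hpq hpA hr hA hs hφ htr hdet hU

theorem goodMat_inertia {τ : GQ} (hτ : τ ∈ P.inertiaSubgroupIn ℚ) :
    GoodMat (r φ) (q : A) s (r τ) 1 := by
  have hs2 : s ^ 2 = 1 := by rcases hs with rfl | rfl <;> ring
  refine goodMat_of_unipotent rfl hs2 (Nat.cast_ne_zero.mpr hq.ne_zero) ?_ ?_ htr hdet (hU τ hτ)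
    (H53.frob_rel_eq hq hP hpq hpA hr (fun σ hσ => cong_of_unipotent hpA (hU σ hσ)) hA hτ hφ)
  · exact_mod_cast hq.ne_one
  · intro h
    have : ((q + 1 : ℕ) : A) = 0 := by push_cast; rw [h]; ring
    exact Nat.succ_ne_zero q (Nat.cast_eq_zero.mp this)

theorem goodMat_decomp {g : GQ} (hg : g ∈ P.decompositionSubgroup ℚ) :
    ∃ c : A, (c = 1 ∨ c = -1) ∧ GoodMat (r φ) (q : A) s (r g) c := by
  have hs2 : s ^ 2 = 1 := by rcases hs with rfl | rfl <;> ring
  have hF := frob_rel_of_trace hs2 htr hdet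
  have hself : GoodMat (r φ) (q : A) s (r φ) s := goodMat_self hF hdet
  -- approximations
  have happ : ∀ n : ℕ, ∃ c : A, (c = 1 ∨ c = -1) ∧ ∃ N : M2 A,
      MCong (maximalIdeal A ^ n) (r g) N ∧ GoodMat (r φ) (q : A) s N c := by
    intro n
    obtain ⟨L, hL, hLr⟩ := hr n
    have hop : H55.krullLevels.op L.fixingSubgroup :=
      (H55.krullLevels_op_iff _).mpr ⟨L, hL, le_rfl⟩
    obtain ⟨k, τ, hτ, u, hu, hgu⟩ := H28.exists_frobenius_mul hq hP hφ hg hop
    refine ⟨s ^ k * 1, ?_, r (φ ^ k * τ), ?_, ?_⟩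
    · rw [mul_one]
      rcases hs with h | h
      · left; rw [h, one_pow]
      · rw [h]
        rcases neg_one_pow_eq_or A k with h' | h'
        · exact Or.inl h'
        · exact Or.inr h'
    · rw [hgu, map_mul r (φ ^ k * τ) u]
      refine mcong_mul_of_cong fun i j => hLr u (fun x hx => ?_) i j
      exact (IntermediateField.mem_fixingSubgroup_iff L u).mp hu x hx
    · rw [map_mul, map_pow]
      exact (hself.pow k).mul (goodMat_inertia hq hP hpq hpA hr hA hs hφ htr hdet hU hτ)
  -- one of the two signs occurs infinitely often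
  choose c hc N hN1 hN2 using happ
  have hinf : (∀ n, ∃ m, n ≤ m ∧ c m = 1) ∨ (∀ n, ∃ m, n ≤ m ∧ c m = -1) := by
    by_contra hcon
    push Not at hcon
    obtain ⟨⟨n₁, h₁⟩, ⟨n₂, h₂⟩⟩ := hcon
    rcases hc (max n₁ n₂) with h | h
    · exact h₁ _ (le_max_left _ _) h
    · exact h₂ _ (le_max_right _ _) h
  have fin : ∀ e : A, (∀ n, ∃ m, n ≤ m ∧ c m = e) → GoodMat (r φ) (q : A) s (r g) e := by
    intro e he
    constructor
    · ext i j
      refine hA _ fun n => ?_
      obtain ⟨m, hm, hme⟩ := he n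
      have := (entry_mem_of_goodMat (hN1 m) (hN2 m)).1 i j
      rw [hme] at this
      exact Ideal.pow_le_pow_right hm this
    · ext i j
      refine hA _ fun n => ?_
      obtain ⟨m, hm, hme⟩ := he n
      have := (entry_mem_of_goodMat (hN1 m) (hN2 m)).2 i j
      rw [hme] at this
      exact Ideal.pow_le_pow_right hm this
  rcases hinf with h | h
  · exact ⟨1, Or.inl rfl, fin 1 h⟩
  · exact ⟨-1, Or.inr rfl, fin (-1) h⟩

omit hP hpq hpA hr hA hs htr hdet hU hq in
/-- two Frobenius elements differ by inertia -/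
theorem inv_mul_mem_inertia {φ' : GQ} (hφ' : P.IsFrobeniusAt φ' q) :
    φ⁻¹ * φ' ∈ P.inertiaSubgroupIn ℚ := by
  obtain ⟨h1, h2⟩ := hφ
  obtain ⟨h3, h4⟩ := hφ'
  refine ⟨⟨φ, h1⟩⁻¹ * ⟨φ', h3⟩, ?_, rfl⟩
  rw [ValuationSubring.inertiaSubgroup, SetLike.mem_coe, MonoidHom.mem_ker]
  refine RingEquiv.ext fun x => ?_
  change ((⟨φ, h1⟩⁻¹ * ⟨φ', h3⟩ : P.decompositionSubgroup ℚ)) • x = x
  rw [mul_smul, h4, ← h2, inv_smul_smul]

/-- **M8b glue**: Steinberg type at `P`. -/
theorem exists_char_of_frob : ∃ χ : GQ → A,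
    (∀ g ∈ P.decompositionSubgroup ℚ, χ g ^ 2 = 1) ∧
    (∀ g ∈ P.decompositionSubgroup ℚ, ∀ h ∈ P.decompositionSubgroup ℚ, χ (g * h) = χ g * χ h) ∧
    (∀ g ∈ P.inertiaSubgroupIn ℚ, χ g = 1) ∧
    (∀ φ' : GQ, P.IsFrobeniusAt φ' q → χ φ' = s) ∧
    ∀ g ∈ P.decompositionSubgroup ℚ, ∀ g' ∈ P.decompositionSubgroup ℚ,
      (r g - ((r g).det * χ g) • (1 : M2 A)) * (r g' - χ g' • (1 : M2 A)) = 0 := by
  classical
  have hs2 : s ^ 2 = 1 := by rcases hs with rfl | rfl <;> ring
  have hs0 : s ≠ 0 := by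
    rintro rfl
    simp at hs2
  have hq1 : (q : A) - 1 ≠ 0 := by
    rw [sub_ne_zero]
    exact_mod_cast hq.ne_one
  have hY : r φ - ((q : A) * s) • (1 : M2 A) ≠ 0 := by
    intro h
    rw [sub_eq_zero] at h
    rw [h, Matrix.trace_smul, Matrix.trace_one, smul_eq_mul] at htr
    have : ((q : A) - 1) * s = 0 := by
      have h2 : ((Fintype.card (Fin 2) : ℕ) : A) = 2 := by simp
      rw [h2] at htr
      linear_combination htr
    exact (mul_ne_zero hq1 hs0) this
  have hex : ∀ g ∈ P.decompositionSubgroup ℚ, ∃ c : A, (c = 1 ∨ c = -1) ∧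
      GoodMat (r φ) (q : A) s (r g) c := fun g hg =>
    goodMat_decomp hq hP hpq hpA hr hA hs hφ htr hdet hU hg
  have hin : ∀ g ∈ P.inertiaSubgroupIn ℚ, g ∈ P.decompositionSubgroup ℚ := by
    rintro _ ⟨⟨σ, hσ⟩, -, rfl⟩
    exact hσ
  let χ : GQ → A := fun g => if h : g ∈ P.decompositionSubgroup ℚ then (hex g h).choose else 1
  have hχ : ∀ g (hg : g ∈ P.decompositionSubgroup ℚ), (χ g = 1 ∨ χ g = -1) ∧
      GoodMat (r φ) (q : A) s (r g) (χ g) := by
    intro g hg
    have : χ g = (hex g hg).choose := dif_pos hg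
    rw [this]
    exact (hex g hg).choose_spec
  have hτ1 : ∀ g ∈ P.inertiaSubgroupIn ℚ, χ g = 1 := fun g hg =>
    (hχ g (hin g hg)).2.unique (goodMat_inertia hq hP hpq hpA hr hA hs hφ htr hdet hU hg) hY
  refine ⟨χ, ?_, ?_, hτ1, ?_, ?_⟩
  · intro g hg
    rcases (hχ g hg).1 with h | h <;> rw [h] <;> ring
  · intro g hg h hh
    refine (hχ (g * h) (mul_mem hg hh)).2.unique ?_ hY
    rw [map_mul]
    exact (hχ g hg).2.mul (hχ h hh).2
  · intro φ' hφ'
    refine (hχ φ' hφ'.mem_decompositionSubgroup).2.unique ?_ hY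
    have h1 := inv_mul_mem_inertia hφ hφ'
    have h2 : φ' = φ * (φ⁻¹ * φ') := by group
    have h3 := (goodMat_self (frob_rel_of_trace hs2 htr hdet) hdet).mul
      (goodMat_inertia hq hP hpq hpA hr hA hs hφ htr hdet hU h1)
    rw [mul_one, ← map_mul, ← h2] at h3
    exact h3
  · intro g hg g' hg'
    exact (hχ g hg).2.mul_eq_zero (hχ g' hg').2 (mul_ne_zero hq1 hs0)

end galois

/-- **M8b glue**, all places at once. -/
theorem typeAt_of_frob {p q : ℕ} [Fact p.Prime] {A : Type} [CommRing A] [IsDomain A]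
    [IsLocalRing A] [CharZero A] {r : GQ →* M2 A} (hq : q.Prime) (hpq : p ≠ q)
    (hpA : (p : A) ∈ maximalIdeal A) (hr : MCont A r)
    (hA : ∀ x : A, (∀ n, x ∈ maximalIdeal A ^ n) → x = 0) {s : A} (hs : s = 1 ∨ s = -1)
    (hfr : ∀ P : ValuationSubring Qb, P.LiesOverPrime q → ∃ φ : GQ, P.IsFrobeniusAt φ q ∧
      (r φ).trace = ((q : A) + 1) * s ∧ (r φ).det = q)
    (hU : ∀ P : ValuationSubring Qb, P.LiesOverPrime q → ∀ τ ∈ P.inertiaSubgroupIn ℚ,
      (r τ - 1) * (r τ - 1) = 0) : TypeAt q s r := by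
  intro P hP
  obtain ⟨φ, hφ, htr, hdet⟩ := hfr P hP
  exact exists_char_of_frob hq hP hpq hpA hr hA hs hφ htr hdet (hU P hP)

end Fermat.Agent.LT
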