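/-
H34LTSign: the local type at an odd prime `q ∥ L` from a realisation of `r` in the new part of the
Tate module of `J_0(Mq)`.
-/
import Fermat.Agent.H34LTPull
import Fermat.Agent.H34LTDet
import Fermat.Agent.H46LTStein
import Fermat.Agent.H19LTM8
import Fermat.Agent.H89Inst
import Fermat.Agent.H31Inputs
import Fermat.Agent.H35Fin

set_option autoImplicit false
set_option linter.style.haveILetI false
set_option linter.unusedSectionVars false

noncomputable section

namespace Fermat.Agent.H34.LTSign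

open IsLocalRing Matrix TensorProduct ModularCurve
open Fermat.Agent.H53 (GQ M2 MCont mapMat)
open Fermat.Agent.LT (TypeAt DetCyc Qb)
open Fermat.Agent.H30 Fermat.Agent.H35 Fermat.Agent.H67

theorem eq_zero_of_mem_pow {A : Type} [CommRing A] [IsDomain A] [IsDiscreteValuationRing A]
    {x : A} (hx : ∀ n, x ∈ maximalIdeal A ^ n) : x = 0 := by
  have h1 : x ∈ (⨅ n : ℕ, maximalIdeal A ^ n) := by
    rw [Submodule.mem_iInf]; exact hx
  rwa [Ideal.iInf_pow_eq_bot_of_isLocalRing _ (Ideal.IsPrime.ne_top inferInstance),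
    Ideal.mem_bot] at h1

/-- values of a cyclotomic determinant -/
theorem det_eq_of_cyc {p : ℕ} {A : Type} [CommRing A] [IsDomain A] [IsDiscreteValuationRing A]
    (hpA : (p : A) ∈ maximalIdeal A) {r : GQ →* M2 A} (hdet : DetCyc p r)
    {σ : GQ} {a : ℕ} (h : ∀ (n : ℕ) (ζ : AlgebraicClosure ℚ), ζ ^ p ^ n = 1 → σ ζ = ζ ^ a) :
    (r σ).det = a := by
  rw [← sub_eq_zero]
  refine eq_zero_of_mem_pow fun n => ?_
  have h1 := hdet n σ a (h n)
  refine (Ideal.span_le.mpr ?_) h1
  rw [Set.singleton_subset_iff, SetLike.mem_coe, Nat.cast_pow]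
  exact Ideal.pow_mem_pow hpA n

theorem mat_eq_zero_of_mulVec {A : Type} [CommRing A] {M : M2 A}
    (h : ∀ x : Fin 2 → A, M.mulVec x = 0) : M = 0 := by
  ext i j
  have := congrFun (h (Pi.single j 1)) i
  rwa [mulVec_single_one] at this

variable {p M q : ℕ} [Fact p.Prime] [NeZero M] [NeZero (M * q)] [NeZero q]
  {O : Type} [CommRing O] [IsDomain O] [IsDiscreteValuationRing O] [CharZero O] [Algebra ℤ_[p] O]

/-- **The local type from a realisation.** -/
theorem typeAt_of_real (hinj : Function.Injective (algebraMap ℤ_[p] O)) (hq : q.Prime)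
    (hpq : p ≠ q) (hqM : ¬ q ∣ M) (hpO : (p : O) ∈ maximalIdeal O)
    {r : GQ →* M2 O} (hr : MCont O r) (hdet : DetCyc p r) {s : O} (hs : s = 1 ∨ s = -1)
    (hc : M.Coprime q)
    (F : (Fin 2 → O) →ₗ[O] O ⊗[ℤ_[p]] TateMod p (JZero (M * q))) (hF : Function.Injective F)
    (hgal : ∀ (g : GQ) (x : Fin 2 → O), F ((r g).mulVec x) =
      (galTate p (JZero (M * q)) g).baseChange O (F x))
    (hw : ∀ x, (tateMap (p := p) (wJ (R := M * q) M q rfl hc)).baseChange O (F x) = -(s • F x))
    (hpush : ∀ x, (tateMap (p := p) (degPush (M := M) (N := M * q) 1 (by simp))).baseChange O (F x)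
      = 0) :
    TypeAt q s r := by
  have hp : p.Prime := Fact.out
  have hss : s ^ 2 = 1 := by rcases hs with rfl | rfl <;> ring
  have hfin : {x : JZero (M * q) | p • x = 0}.Finite := by
    simpa using (H31.jzeroInputs (M * q)).finite p 1 hp
  refine LT.typeAt_of_frob hq hpq hpO hr (fun x hx => eq_zero_of_mem_pow hx) hs ?_ ?_
  · intro P hP
    obtain ⟨φ, hφ⟩ := H54.exists_isFrobeniusAt hq hP
    have hdetφ : (r φ).det = q := det_eq_of_cyc hpO hdet fun n ζ hζ =>
      H53.frobenius_root_of_unity hq hP hpq hφ n hζ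
    refine ⟨φ, hφ, ?_, hdetφ⟩
    have hstar := H89J.starInput' (m := M) hq hqM hp hpq hc P hP φ hφ
    have h1 : ∀ x : Fin 2 → O, (r φ).mulVec ((r φ).mulVec x) +
        (-s * (1 + q)) • (r φ).mulVec x + (q : O) • x = 0 := by
      intro x
      exact LTPull.star_pull_tate hinj hfin (wJ (R := M * q) M q rfl hc)
        (degPush (M := M) (N := M * q) 1 (by simp)) (degPull (M := M) (N := M * q) q (dvd_refl _)) φ
        hstar F hF (r φ).mulVecLin (fun x => hgal φ x) (-s)
        (fun x => (hw x).trans (neg_smul s (F x)).symm) hpush x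
    have h2 : (r φ - ((q : O) * s) • (1 : M2 O)) * (r φ - s • (1 : M2 O)) = 0 := by
      refine mat_eq_zero_of_mulVec fun x => ?_
      simp only [← mulVec_mulVec, sub_mulVec, smul_mulVec, one_mulVec, mulVec_sub, mulVec_smul]
      have h3 := h1 x
      rw [← h3, smul_sub, smul_smul, show s * ((q : O) * s) = q by
        rw [mul_comm, mul_assoc, ← pow_two, hss, mul_one]]
      module
    refine LT.trace_of_frob_rel hss ?_ ?_ h2 hdetφ
    · exact Nat.cast_ne_zero.mpr hq.ne_zero
    · exact_mod_cast hq.ne_one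
  · intro P hP τ hτ
    have hun := H89J.unipotentTorsion' (m := M) hq hqM hp hpq P hP τ hτ
    have h1 : ∀ x : Fin 2 → O, (r τ).mulVec ((r τ).mulVec x - x) = (r τ).mulVec x - x := fun x =>
      LTPull.unip_pull_tate hfin τ hun F hF (r τ).mulVecLin (fun x => hgal τ x) x
    refine mat_eq_zero_of_mulVec fun x => ?_
    rw [← mulVec_mulVec, sub_mulVec, one_mulVec, sub_mulVec, one_mulVec, h1 x, sub_self]

/-- the determinant of an attached representation is cyclotomic -/
theorem detCyc_of_attached {L : ℕ} {f : CuspForm (CongruenceSubgroup.Gamma0 L) 2} {S : Finset ℕ}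
    (hp : p.Prime) {K : Type} [Field K] {j : O →+* K}
    {ι : integralClosure ℤ ℂ →+* K} {r : GQ →* M2 O} (h : H19LT.Attached f S j ι r)
    (hfi : ∀ ℓ : ℕ, ℓ.Prime → IsIntegral ℤ (ModularFormClass.qCoeff f ℓ)) : DetCyc p r := by
  classical
  refine LTDet.detCyc_of_frob (S := insert p S) hp (Finset.mem_insert_self _ _) h.cont ?_ ?_
  · intro ℓ hℓ hℓS P hP φ hφ
    exact (h.frob ℓ hℓ (fun h' => hℓS (Finset.mem_insert_of_mem h')) ⟨_, hfi ℓ hℓ⟩ rfl P hP φ
      hφ).2
  · intro n
    refine LTDet.exists_pow_le ?_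
    rw [Nat.cast_ne_zero]
    exact pow_ne_zero _ hp.ne_zero

end Fermat.Agent.H34.LTSign
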