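/-
H34M8: blocks M8Sign q (all q) and M8Ram v (v odd) of the two-adic local theory.
-/
import Fermat.Agent.H34LTOld
import Fermat.Agent.H34LTSign
import Fermat.Agent.H88RealD
import Fermat.Agent.H35S30

set_option autoImplicit false
set_option linter.style.haveILetI false

noncomputable section

namespace Fermat.Agent.H34.M8

open IsLocalRing Matrix ModularFormClass
open Fermat.Agent.H53 (GQ M2 MCont mapMat)
open Fermat.Agent.LT (TypeAt Qb TwoRing)
open Fermat.Agent.H19LT (Attached ResIrr M8Ram M8Sign)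

/-- **Block M8, signed case.** -/
theorem m8Sign (q : ℕ) : M8Sign q := by
  intro L _ f hf hq hq2 hqL hqL2 s hs ha O' _ _ _ _ K _ _ _ j ι S r hr hirr
  haveI : Fact (Nat.Prime 2) := ⟨Nat.prime_two⟩
  haveI := TwoRing.char_zero (O' := O')
  haveI := TwoRing.complete (O' := O')
  haveI := TwoRing.finite (O' := O')
  have h2 : ((2 : ℕ) : O') ∈ maximalIdeal O' := by
    rw [Nat.cast_ofNat]; exact TwoRing.two
  letI : Algebra ℤ_[2] O' := (H35.padicToAdic O' h2).toAlgebra
  have hinj : Function.Injective (algebraMap ℤ_[2] O') := H35.padicToAdic_injective O' h2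
  obtain ⟨M, hM⟩ := hqL
  obtain rfl : L = M * q := by rw [hM, mul_comm]
  have hM0 : M ≠ 0 := fun h0 => (NeZero.ne (M * q)) (by rw [h0, zero_mul])
  haveI : NeZero M := ⟨hM0⟩
  haveI : NeZero q := ⟨hq.ne_zero⟩
  have hqM : ¬ q ∣ M := fun ⟨k, hk⟩ => hqL2 ⟨k, by rw [hk]; ring⟩
  have hc : M.Coprime q := (Nat.coprime_comm.mp ((Nat.Prime.coprime_iff_not_dvd hq).mpr hqM))
  have hspan := H88.RealP.span_of_resIrr (r := r) (by rw [← Nat.cast_ofNat (R := O')]; exact h2) hirr
  obtain ⟨Φ, hΦ, -, hgal, hp1, -, hw⟩ := H88.RealP.real_plus (p := 2) hq hqM hc hf hs ha h2 hr hspan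
  have hfi : ∀ ℓ : ℕ, ℓ.Prime → IsIntegral ℤ (qCoeff f ℓ) := by
    intro ℓ hℓ
    obtain ⟨χ, hχ⟩ := LTOld.exists_intChar hf (∅ : Set ℕ)
    by_cases hℓL : ℓ ∣ M * q
    · have h := (χ (CuspForm.heckeAlgebra.U hℓ hℓL (Set.notMem_empty ℓ))).2
      rw [hχ, H58.eigenChar_U] at h
      exact h
    · have h := (χ (CuspForm.heckeAlgebra.T hℓ hℓL (Set.notMem_empty ℓ))).2
      rw [hχ, H58.eigenChar_T] at h
      exact h
  have hdet := LTSign.detCyc_of_attached (p := 2) Nat.prime_two hr hfi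
  refine LTSign.typeAt_of_real (p := 2) hinj hq (Ne.symm hq2) hqM h2 hr.cont hdet ?_ hc Φ hΦ hgal ?_
    (fun x => hp1 _ x)
  · rcases hs with rfl | rfl
    · left; simp
    · right; simp
  · intro x
    rw [hw x, Int.cast_neg]
    exact neg_smul ((s : ℤ) : O') (Φ x)

/-- **Block M8, ramified case, odd prime.** -/
theorem m8Ram {v : ℕ} (hv : v ≠ 2) : M8Ram v := LTOld.m8Ram_of_m8Sign hv (m8Sign v)

end Fermat.Agent.H34.M8
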