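/-
H42XGal (project LT-X, X3): Frobenius density applied to `W[p]`:
* `congr_all` : a congruence `a_ℓ(W) ≡ a_ℓ(W') mod p` for almost all `ℓ` holds for all good `ℓ ≠ p`;
* `irr_of_frob` : `W[p]` is irreducible if `a_ℓ² - 4ℓ` is not a square mod `p` for one good `ℓ ≠ p`;
* `exists_prime_nonsq` : such an `ℓ` can then be chosen outside any finite set.
-/
import Fermat.Agent.H62NE
import Fermat.Agent.H70Frob
import Fermat.Agent.H86Charpoly

set_option autoImplicit false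

namespace Fermat.Agent.H42X

open WeierstrassCurve WeierstrassCurve.Affine WeierstrassCurve.Affine.Point

local notation "Qb" => AlgebraicClosure ℚ
local notation "Gq" => (AlgebraicClosure ℚ ≃ₐ[ℚ] AlgebraicClosure ℚ)

theorem factors_prod {X Y : Type} [Monoid X] [Monoid Y] {ρ : Gq →* X} {ρ' : Gq →* Y}
    (h : GaloisFactorsThroughFiniteLevel ρ) (h' : GaloisFactorsThroughFiniteLevel ρ') :
    GaloisFactorsThroughFiniteLevel (ρ.prod ρ') := by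
  obtain ⟨L, hL, h⟩ := h
  obtain ⟨L', hL', h'⟩ := h'
  refine ⟨L ⊔ L', inferInstance, fun σ hσ => ?_⟩
  rw [MonoidHom.prod_apply, h σ fun x hx => hσ x ((le_sup_left : L ≤ L ⊔ L') hx),
    h' σ fun x hx => hσ x ((le_sup_right : L' ≤ L ⊔ L') hx)]
  rfl

section

variable {W W' : WeierstrassCurve ℤ} {p : ℕ} [hp : Fact p.Prime]

/-- congruences for almost all primes extend to all good primes `≠ p` -/
theorem congr_all (hΔ : W.Δ ≠ 0) (hΔ' : W'.Δ ≠ 0) (S : Finset ℕ)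
    (h : ∀ ℓ : ℕ, ℓ.Prime → ℓ ∉ S → W.IsGoodPrimeFor ℓ → W'.IsGoodPrimeFor ℓ →
      (p : ℤ) ∣ W'.apOfModel ℓ - W.apOfModel ℓ)
    {ℓ₀ : ℕ} (hℓ₀ : ℓ₀.Prime) (hg : W.IsGoodPrimeFor ℓ₀) (hg' : W'.IsGoodPrimeFor ℓ₀) (hne : ℓ₀ ≠ p) :
    (p : ℤ) ∣ W'.apOfModel ℓ₀ - W.apOfModel ℓ₀ := by
  classical
  have hΔq := H62.map_Δ_ne_zero hΔ
  have hΔq' := H62.map_Δ_ne_zero hΔ'
  have hp0 : p ≠ 0 := hp.out.ne_zero
  have : NeZero p := ⟨hp0⟩
  have h2 := H87.EC.finrank_torsionBy_rat (W.map (Int.castRingHom ℚ)) hΔq hp0 hp.out.ne_one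
  have h2' := H87.EC.finrank_torsionBy_rat (W'.map (Int.castRingHom ℚ)) hΔq' hp0 hp.out.ne_one
  have := H87.EC.finite_torsionBy_rat (W.map (Int.castRingHom ℚ)) hΔq hp0
  have := H87.EC.finite_torsionBy_rat (W'.map (Int.castRingHom ℚ)) hΔq' hp0
  have : Module.Finite (ZMod p) (Submodule.torsionBy ℤ ((W.map (Int.castRingHom ℚ))⁄Qb).Point p) :=
    Module.Finite.of_finite
  have : Module.Finite (ZMod p) (Submodule.torsionBy ℤ ((W'.map (Int.castRingHom ℚ))⁄Qb).Point p) :=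
    Module.Finite.of_finite
  obtain ⟨A₀, φ₀, hA₀, hφ₀⟩ := H70.exists_place_frobenius hℓ₀
  have hfac := factors_prod
    (H87.EC.galoisFactorsThroughFiniteLevel (W.map (Int.castRingHom ℚ)) hΔq hp0)
    (H87.EC.galoisFactorsThroughFiniteLevel (W'.map (Int.castRingHom ℚ)) hΔq' hp0)
  have hne' : p * (W.Δ.natAbs * W'.Δ.natAbs) ≠ 0 :=
    mul_ne_zero hp0 (mul_ne_zero (Int.natAbs_ne_zero.mpr hΔ) (Int.natAbs_ne_zero.mpr hΔ'))
  obtain ⟨ℓ, hℓ, hℓS, A, hA, φ, hφ, j, k, h3, h4⟩ := H86.density_hom H86.frobDensityFinite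
    hfac φ₀ (S ∪ (p * (W.Δ.natAbs * W'.Δ.natAbs)).primeFactors)
  rw [Finset.mem_union, not_or] at hℓS
  have hndvd : ¬ ℓ ∣ p * (W.Δ.natAbs * W'.Δ.natAbs) := fun h =>
    hℓS.2 (Nat.mem_primeFactors.mpr ⟨hℓ, h, hne'⟩)
  have hℓp : ¬ ℓ ∣ p := fun h => hndvd (h.mul_right _)
  have hgℓ : W.IsGoodPrimeFor ℓ := fun h => hndvd (((Int.natCast_dvd.mp h).mul_right _).mul_left _)
  have hgℓ' : W'.IsGoodPrimeFor ℓ := fun h => hndvd (((Int.natCast_dvd.mp h).mul_left _).mul_left _)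
  have hℓ₀p : ¬ ℓ₀ ∣ p := fun h => hne ((Nat.prime_dvd_prime_iff_eq hℓ₀ hp.out).mp h)
  rw [MonoidHom.prod_apply, MonoidHom.prod_apply, Prod.pow_mk, Prod.mk.injEq] at h3
  have hchar : (galoisRepModuleEnd (K := Qb) ℚ (W.map (Int.castRingHom ℚ)) p φ).charpoly =
      (galoisRepModuleEnd (K := Qb) ℚ (W'.map (Int.castRingHom ℚ)) p φ).charpoly := by
    rw [H86.charpoly_eq_iff_of_finrank_two h2 h2', H62.trace_frob_rat W hℓ hgℓ hℓp hA hφ,
      H62.trace_frob_rat W' hℓ hgℓ' hℓp hA hφ, H62.det_frob_rat W hℓ hgℓ hℓp hA hφ,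
      H62.det_frob_rat W' hℓ hgℓ' hℓp hA hφ]
    refine ⟨?_, rfl⟩
    have := (ZMod.intCast_zmod_eq_zero_iff_dvd _ p).mpr (h ℓ hℓ hℓS.1 hgℓ hgℓ')
    push_cast at this
    exact (sub_eq_zero.mp this).symm
  have hchar' := H86.charpoly_pow_eq h2 h2' hchar j
  rw [← h3.1, ← h3.2, H86.charpoly_eq_iff_of_finrank_two h2 h2',
    H62.trace_frob_rat W hℓ₀ hg hℓ₀p hA₀ hφ₀, H62.trace_frob_rat W' hℓ₀ hg' hℓ₀p hA₀ hφ₀] at hchar'
  apply (ZMod.intCast_zmod_eq_zero_iff_dvd _ p).mp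
  push_cast
  rw [hchar'.1, sub_self]

/-- an eigenvector in `W[p]` of a Frobenius makes `a_ℓ² - 4ℓ` a square -/
theorem isSquare_of_eigen (hΔ : W.Δ ≠ 0) {ℓ : ℕ} (hℓ : ℓ.Prime) (hg : W.IsGoodPrimeFor ℓ) (hne : ℓ ≠ p)
    {A : ValuationSubring Qb} (hA : A.LiesOverPrime ℓ) {φ : Gq} (hφ : A.IsFrobeniusAt φ ℓ)
    {c : ZMod p} {v : Submodule.torsionBy ℤ ((W.map (Int.castRingHom ℚ))⁄Qb).Point p} (hv : v ≠ 0)
    (h : galoisRepModuleEnd (K := Qb) ℚ (W.map (Int.castRingHom ℚ)) p φ v = c • v) :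
    IsSquare (((W.apOfModel ℓ : ZMod p)) ^ 2 - 4 * (ℓ : ZMod p)) := by
  classical
  have hΔq := H62.map_Δ_ne_zero hΔ
  have hp0 : p ≠ 0 := hp.out.ne_zero
  have : NeZero p := ⟨hp0⟩
  have h2 := H87.EC.finrank_torsionBy_rat (W.map (Int.castRingHom ℚ)) hΔq hp0 hp.out.ne_one
  have := H87.EC.finite_torsionBy_rat (W.map (Int.castRingHom ℚ)) hΔq hp0
  have : Module.Finite (ZMod p) (Submodule.torsionBy ℤ ((W.map (Int.castRingHom ℚ))⁄Qb).Point p) :=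
    Module.Finite.of_finite
  have hℓp : ¬ ℓ ∣ p := fun h => hne ((Nat.prime_dvd_prime_iff_eq hℓ hp.out).mp h)
  have h3 := congrArg (fun f => f v) (H86.sq_eq_of_finrank_two h2
    (galoisRepModuleEnd (K := Qb) ℚ (W.map (Int.castRingHom ℚ)) p φ))
  rw [H62.trace_frob_rat W hℓ hg hℓp hA hφ, H62.det_frob_rat W hℓ hg hℓp hA hφ] at h3
  simp only [pow_two, Module.End.mul_apply, LinearMap.sub_apply, LinearMap.smul_apply,
    Module.End.one_apply, h, map_smul] at h3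
  have h4 : (c * c - (W.apOfModel ℓ : ZMod p) * c + (ℓ : ZMod p)) • v = 0 := by
    rw [add_smul, sub_smul, mul_smul, mul_smul, h3]
    abel
  have h5 := (smul_eq_zero.mp h4).resolve_right hv
  refine ⟨2 * c - (W.apOfModel ℓ : ZMod p), ?_⟩
  linear_combination (-4) * h5

/-- irreducibility from one Frobenius -/
theorem irr_of_frob (hΔ : W.Δ ≠ 0) {ℓ : ℕ} (hℓ : ℓ.Prime) (hg : W.IsGoodPrimeFor ℓ) (hne : ℓ ≠ p)
    (hns : ¬ IsSquare (((W.apOfModel ℓ : ZMod p)) ^ 2 - 4 * (ℓ : ZMod p))) :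
    W.ModRepIsIrreducible p := by
  classical
  have hΔq := H62.map_Δ_ne_zero hΔ
  have hp0 : p ≠ 0 := hp.out.ne_zero
  have : NeZero p := ⟨hp0⟩
  have h2 := H87.EC.finrank_torsionBy_rat (W.map (Int.castRingHom ℚ)) hΔq hp0 hp.out.ne_one
  have := H87.EC.finite_torsionBy_rat (W.map (Int.castRingHom ℚ)) hΔq hp0
  have : Module.Finite (ZMod p) (Submodule.torsionBy ℤ ((W.map (Int.castRingHom ℚ))⁄Qb).Point p) :=
    Module.Finite.of_finite
  refine ⟨H87.EC.nontrivial_torsionBy_rat (W.map (Int.castRingHom ℚ)) hΔq hp0 hp.out.ne_one, fun N hN => ?_⟩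
  by_contra hcon
  rw [not_or] at hcon
  obtain ⟨A, φ, hA, hφ⟩ := H70.exists_place_frobenius hℓ
  have hN1 : Module.finrank (ZMod p) N = 1 := by
    have h1 : Module.finrank (ZMod p) N < 2 := by
      rw [← h2]; exact Submodule.finrank_lt hcon.2
    have h2 : Module.finrank (ZMod p) N ≠ 0 := by
      intro h
      exact hcon.1 (Submodule.finrank_eq_zero.mp h)
    omega
  obtain ⟨v, hv0, hv⟩ := finrank_eq_one_iff'.mp hN1
  have h1 : galoisRepModuleEnd (K := Qb) ℚ (W.map (Int.castRingHom ℚ)) p φ v ∈ N := hN φ v v.2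
  obtain ⟨c, hc⟩ := hv ⟨_, h1⟩
  have hc' : galoisRepModuleEnd (K := Qb) ℚ (W.map (Int.castRingHom ℚ)) p φ v = c • (v : Submodule.torsionBy ℤ ((W.map (Int.castRingHom ℚ))⁄Qb).Point p) := by
    have := congrArg Subtype.val hc
    exact this.symm
  exact hns (isSquare_of_eigen hΔ hℓ hg hne hA hφ (fun h => hv0 (Subtype.ext h)) hc')

/-- a prime with irreducible Frobenius outside a finite set -/
theorem exists_prime_nonsq (hΔ : W.Δ ≠ 0) (hp2 : p ≠ 2) {ℓ₀ : ℕ} (hℓ₀ : ℓ₀.Prime)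
    (hg : W.IsGoodPrimeFor ℓ₀) (hne : ℓ₀ ≠ p)
    (hns : ¬ IsSquare (((W.apOfModel ℓ₀ : ZMod p)) ^ 2 - 4 * (ℓ₀ : ZMod p))) (B : ℕ) (hB : 0 < B) :
    ∃ r : ℕ, r.Prime ∧ W.IsGoodPrimeFor r ∧ ¬ r ∣ B ∧ r ≠ p ∧
      ¬ IsSquare (((W.apOfModel r : ZMod p)) ^ 2 - 4 * (r : ZMod p)) := by
  classical
  have hΔq := H62.map_Δ_ne_zero hΔ
  have hp0 : p ≠ 0 := hp.out.ne_zero
  have : NeZero p := ⟨hp0⟩
  have h2 := H87.EC.finrank_torsionBy_rat (W.map (Int.castRingHom ℚ)) hΔq hp0 hp.out.ne_one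
  have := H87.EC.finite_torsionBy_rat (W.map (Int.castRingHom ℚ)) hΔq hp0
  have : Module.Finite (ZMod p) (Submodule.torsionBy ℤ ((W.map (Int.castRingHom ℚ))⁄Qb).Point p) :=
    Module.Finite.of_finite
  obtain ⟨A₀, φ₀, hA₀, hφ₀⟩ := H70.exists_place_frobenius hℓ₀
  obtain ⟨ℓ, hℓ, hℓS, A, hA, φ, hφ, j, k, h3, h4⟩ := H86.density_hom H86.frobDensityFinite
    (H87.EC.galoisFactorsThroughFiniteLevel (W.map (Int.castRingHom ℚ)) hΔq hp0) φ₀
    (p * B * W.Δ.natAbs).primeFactors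
  have hne' : p * B * W.Δ.natAbs ≠ 0 :=
    mul_ne_zero (mul_ne_zero hp0 hB.ne') (Int.natAbs_ne_zero.mpr hΔ)
  have hndvd : ¬ ℓ ∣ p * B * W.Δ.natAbs := fun h =>
    hℓS (Nat.mem_primeFactors.mpr ⟨hℓ, h, hne'⟩)
  have hℓp : ¬ ℓ ∣ p := fun h => hndvd ((h.mul_right B).mul_right _)
  have hℓB : ¬ ℓ ∣ B := fun h => hndvd ((h.mul_left p).mul_right _)
  have hgood : W.IsGoodPrimeFor ℓ := fun h =>
    hndvd ((Int.natCast_dvd.mp h).mul_left _)
  refine ⟨ℓ, hℓ, hgood, hℓB, fun h => hℓp (h ▸ dvd_rfl), fun hsq => hns ?_⟩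
  obtain ⟨s, hs⟩ := hsq
  set f := galoisRepModuleEnd (K := Qb) ℚ (W.map (Int.castRingHom ℚ)) p φ with hf
  have h22 : (2 : ZMod p) ≠ 0 := H62.two_ne_zero_zmod hp2
  set c : ZMod p := ((W.apOfModel ℓ : ZMod p) + s) / 2 with hc
  have hroot : f.charpoly.IsRoot c := by
    rw [H86.charpoly_eq_of_finrank_two h2, hf, H62.trace_frob_rat W hℓ hgood hℓp hA hφ,
      H62.det_frob_rat W hℓ hgood hℓp hA hφ, Polynomial.IsRoot.def]
    simp only [Polynomial.eval_add, Polynomial.eval_sub, Polynomial.eval_mul, Polynomial.eval_pow,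
      Polynomial.eval_X, Polynomial.eval_C]
    rw [hc]
    field_simp
    linear_combination -hs
  have hev : Module.End.HasEigenvalue f c := (Module.End.hasEigenvalue_iff_isRoot_charpoly f c).mpr hroot
  obtain ⟨v, hv⟩ := hev.exists_hasEigenvector
  have hpow : (f ^ j) v = c ^ j • v := by
    clear h3
    induction j with
    | zero => simp
    | succ j ih => rw [pow_succ', Module.End.mul_apply, ih, map_smul, hv.apply_eq_smul, smul_smul, pow_succ]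
  exact isSquare_of_eigen hΔ hℓ₀ hg hne hA₀ hφ₀ hv.2 (by rw [h3]; exact hpow)

end

end Fermat.Agent.H42X
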