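/-
H3LTFam: the Hesse pencil of 3-congruent elliptic curves in terms of `c₄ = a`, `c₆ = b`
(project LT, module M1).  For `(l : m)` the member has invariants `hC4 a b l m`, `hC6 a b l m`,
and `hC4^3 - hC6^2 = (a^3 - b^2) * hD^3`.
-/
import Mathlib

set_option autoImplicit false

namespace Fermat.Agent.H3LT

section Hesse

variable {R : Type*} [CommRing R]

/-- the discriminant form of the Hesse pencil = homogenised 3-division polynomial in `z = 12 x + b₂` -/
def hD (a b l m : R) : R :=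
  l ^ 4 - 6 * a * l ^ 2 * m ^ 2 - 8 * b * l * m ^ 3 - 3 * a ^ 2 * m ^ 4

/-- `c₄` of the member `(l : m)` of the Hesse pencil -/
def hC4 (a b l m : R) : R :=
  a * l ^ 4 + 4 * b * l ^ 3 * m + 6 * a ^ 2 * l ^ 2 * m ^ 2 + 4 * a * b * l * m ^ 3 -
    (3 * a ^ 3 - 4 * b ^ 2) * m ^ 4

/-- `c₆` of the member `(l : m)` of the Hesse pencil -/
def hC6 (a b l m : R) : R :=
  b * l ^ 6 + 6 * a ^ 2 * l ^ 5 * m + 15 * a * b * l ^ 4 * m ^ 2 + 20 * b ^ 2 * l ^ 3 * m ^ 3 +
    15 * a ^ 2 * b * l ^ 2 * m ^ 4 + 6 * (3 * a ^ 4 - 2 * a * b ^ 2) * l * m ^ 5 +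
    (9 * a ^ 3 * b - 8 * b ^ 3) * m ^ 6

/-- `∂D/∂l / 4` -/
def hG (a b l m : R) : R := l ^ 3 - 3 * a * l * m ^ 2 - 2 * b * m ^ 3

/-- `- ∂D/∂m / 4` -/
def hL (a b l m : R) : R := 3 * a * l ^ 2 * m + 6 * b * l * m ^ 2 + 3 * a ^ 2 * m ^ 3

theorem hC4_pow_sub_hC6_sq (a b l m : R) :
    hC4 a b l m ^ 3 - hC6 a b l m ^ 2 = (a ^ 3 - b ^ 2) * hD a b l m ^ 3 := by
  unfold hC4 hC6 hD; ring

theorem hG_sq (a b l m : R) :
    hG a b l m ^ 2 = hD a b l m * (l ^ 2 - a * m ^ 2) + m ^ 2 * hC4 a b l m := by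
  unfold hG hD hC4; ring

/-- Euler relation -/
theorem hD_eq (a b l m : R) : l * hG a b l m - m * hL a b l m = hD a b l m := by
  unfold hG hD hL; ring

/-- composition of the pencils: `D(l,m) D'(l',m') = D(l' l + m' λ'', l' m + m' μ'')` -/
theorem hD_comp (a b l m s t : R) :
    hD a b l m * hD (hC4 a b l m) (hC6 a b l m) s t =
      hD a b (s * l + t * hL a b l m) (s * m + t * hG a b l m) := by
  unfold hG hD hL hC4 hC6; ring

end Hesse

section map

variable {R S : Type*} [CommRing R] [CommRing S] (f : R →+* S)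

theorem map_hD (a b l m : R) : hD (f a) (f b) (f l) (f m) = f (hD a b l m) := by
  unfold hD; simp only [map_sub, map_mul, map_pow, map_ofNat]

theorem map_hC4 (a b l m : R) : hC4 (f a) (f b) (f l) (f m) = f (hC4 a b l m) := by
  unfold hC4; simp only [map_sub, map_add, map_mul, map_pow, map_ofNat]

theorem map_hC6 (a b l m : R) : hC6 (f a) (f b) (f l) (f m) = f (hC6 a b l m) := by
  unfold hC6; simp only [map_sub, map_add, map_mul, map_pow, map_ofNat]

end map

end Fermat.Agent.H3LT
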