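/-
H3LTInt: the integral form of the Hesse pencil through an integral Weierstrass curve, Kraus' criterion,
local conditions (project LT, module M1).
-/
import Mathlib
import Fermat.Agent.H3LTFam

set_option autoImplicit false

namespace Fermat.Agent.H3LT

section Forms

variable {R : Type*} [CommRing R]

/-- the discriminant form in integral coordinates -/
def fP (b2 b4 b6 b8 X Y : R) : R :=
  X ^ 4 + b2 * X ^ 3 * Y + 9 * b4 * X ^ 2 * Y ^ 2 + 27 * b6 * X * Y ^ 3 + 27 * b8 * Y ^ 4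

def fC4 (b2 b4 b6 b8 X Y : R) : R :=
  (b2 ^ 2 - 24 * b4) * X ^ 4 + (12 * b2 * b4 - 216 * b6) * X ^ 3 * Y +
    (54 * b4 ^ 2 - 648 * b8) * X ^ 2 * Y ^ 2 + (324 * b4 * b6 - 216 * b2 * b8) * X * Y ^ 3 +
    (729 * b6 ^ 2 - 648 * b4 * b8) * Y ^ 4

def fC6 (b2 b4 b6 b8 X Y : R) : R :=
  (-b2 ^ 3 + 36 * b2 * b4 - 216 * b6) * X ^ 6 +
    (-18 * b2 ^ 2 * b4 - 324 * b2 * b6 + 864 * b4 ^ 2) * X ^ 5 * Y +
    (-405 * b2 ^ 2 * b6 + 270 * b2 * b4 ^ 2 + 4860 * b4 * b6) * X ^ 4 * Y ^ 2 +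
    (-540 * b2 ^ 2 * b8 + 14580 * b6 ^ 2) * X ^ 3 * Y ^ 3 +
    (-4860 * b2 * b4 * b8 + 10935 * b2 * b6 ^ 2 - 7290 * b4 ^ 2 * b6) * X ^ 2 * Y ^ 4 +
    (2187 * b2 ^ 2 * b6 ^ 2 - 8019 * b2 * b4 ^ 2 * b6 + 5832 * b4 ^ 4 + 13122 * b4 * b6 ^ 2) * X * Y ^ 5 +
    (5832 * b2 * b8 ^ 2 - 26244 * b4 * b6 * b8 + 19683 * b6 ^ 3) * Y ^ 6

variable {b2 b4 b6 b8 : R} (hb : 4 * b8 = b2 * b6 - b4 ^ 2)

include hb in
theorem fP_eq (X Y : R) : 256 * fP b2 b4 b6 b8 X Y =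
    hD (b2 ^ 2 - 24 * b4) (-b2 ^ 3 + 36 * b2 * b4 - 216 * b6) (4 * X + b2 * Y) Y := by
  unfold fP hD
  linear_combination 1728 * Y ^ 4 * hb

include hb in
theorem fC4_eq (X Y : R) : 256 * fC4 b2 b4 b6 b8 X Y =
    hC4 (b2 ^ 2 - 24 * b4) (-b2 ^ 3 + 36 * b2 * b4 - 216 * b6) (4 * X + b2 * Y) Y := by
  unfold fC4 hC4
  linear_combination (-64 * (648 * X ^ 2 * Y ^ 2 + 216 * b2 * X * Y ^ 3 + 648 * b4 * Y ^ 4)) * hb

include hb in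
theorem fC6_eq (X Y : R) : 4096 * fC6 b2 b4 b6 b8 X Y =
    hC6 (b2 ^ 2 - 24 * b4) (-b2 ^ 3 + 36 * b2 * b4 - 216 * b6) (4 * X + b2 * Y) Y := by
  unfold fC6 hC6
  linear_combination (-1024 * (540 * b2 ^ 2 * X ^ 3 * Y ^ 3 + 4860 * b2 * b4 * X ^ 2 * Y ^ 4 +
    26244 * b4 * b6 * Y ^ 6) + 256 * 5832 * b2 * Y ^ 6 * (4 * b8 + b2 * b6 - b4 ^ 2)) * hb

end Forms

section Curve

variable (W : WeierstrassCurve ℤ)

/-- discriminant form of the pencil through `W` -/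
def P (X Y : ℤ) : ℤ := fP W.b₂ W.b₄ W.b₆ W.b₈ X Y
def C4 (X Y : ℤ) : ℤ := fC4 W.b₂ W.b₄ W.b₆ W.b₈ X Y
def C6 (X Y : ℤ) : ℤ := fC6 W.b₂ W.b₄ W.b₆ W.b₈ X Y

theorem P_eq (X Y : ℤ) : 256 * P W X Y = hD W.c₄ W.c₆ (4 * X + W.b₂ * Y) Y :=
  fP_eq W.b_relation X Y

theorem C4_eq (X Y : ℤ) : 256 * C4 W X Y = hC4 W.c₄ W.c₆ (4 * X + W.b₂ * Y) Y :=
  fC4_eq W.b_relation X Y

theorem C6_eq (X Y : ℤ) : 4096 * C6 W X Y = hC6 W.c₄ W.c₆ (4 * X + W.b₂ * Y) Y :=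
  fC6_eq W.b_relation X Y

theorem C_relation (X Y : ℤ) : 1728 * (W.Δ * P W X Y ^ 3) = C4 W X Y ^ 3 - C6 W X Y ^ 2 := by
  have h := hC4_pow_sub_hC6_sq W.c₄ W.c₆ (4 * X + W.b₂ * Y) Y
  rw [← P_eq, ← C4_eq, ← C6_eq, ← W.c_relation] at h
  have h2 : (16777216 : ℤ) * (1728 * (W.Δ * P W X Y ^ 3)) =
      16777216 * (C4 W X Y ^ 3 - C6 W X Y ^ 2) := by
    linear_combination (-1) * h
  exact mul_left_cancel₀ (by norm_num) h2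

theorem P_one_zero : P W 1 0 = 1 := by unfold P fP; ring
theorem C4_one_zero : C4 W 1 0 = W.c₄ := by unfold C4 fC4 WeierstrassCurve.c₄; ring
theorem C6_one_zero : C6 W 1 0 = W.c₆ := by unfold C6 fC6 WeierstrassCurve.c₆; ring

theorem P_neg : P W (-W.b₂) 4 = -3 * W.c₄ ^ 2 := by
  have h := P_eq W (-W.b₂) 4
  have : (256 : ℤ) * P W (-W.b₂) 4 = 256 * (-3 * W.c₄ ^ 2) := by
    rw [h]; unfold hD; ring
  exact mul_left_cancel₀ (by norm_num) this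

/-! ### congruences -/

theorem P_congr {X Y X' Y' M : ℤ} (hX : M ∣ X - X') (hY : M ∣ Y - Y') : M ∣ P W X Y - P W X' Y' := by
  have h1 : (X : ZMod M.natAbs) = (X' : ZMod M.natAbs) := by
    rw [← sub_eq_zero, ← Int.cast_sub, ZMod.intCast_zmod_eq_zero_iff_dvd]
    exact Int.natAbs_dvd.mpr hX
  have h2 : (Y : ZMod M.natAbs) = (Y' : ZMod M.natAbs) := by
    rw [← sub_eq_zero, ← Int.cast_sub, ZMod.intCast_zmod_eq_zero_iff_dvd]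
    exact Int.natAbs_dvd.mpr hY
  have h3 : ((P W X Y - P W X' Y' : ℤ) : ZMod M.natAbs) = 0 := by
    unfold P fP; push_cast; rw [h1, h2]; ring
  exact Int.natAbs_dvd.mp ((ZMod.intCast_zmod_eq_zero_iff_dvd _ _).mp h3)

theorem C4_congr {X Y X' Y' M : ℤ} (hX : M ∣ X - X') (hY : M ∣ Y - Y') : M ∣ C4 W X Y - C4 W X' Y' := by
  have h1 : (X : ZMod M.natAbs) = (X' : ZMod M.natAbs) := by
    rw [← sub_eq_zero, ← Int.cast_sub, ZMod.intCast_zmod_eq_zero_iff_dvd]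
    exact Int.natAbs_dvd.mpr hX
  have h2 : (Y : ZMod M.natAbs) = (Y' : ZMod M.natAbs) := by
    rw [← sub_eq_zero, ← Int.cast_sub, ZMod.intCast_zmod_eq_zero_iff_dvd]
    exact Int.natAbs_dvd.mpr hY
  have h3 : ((C4 W X Y - C4 W X' Y' : ℤ) : ZMod M.natAbs) = 0 := by
    unfold C4 fC4; push_cast; rw [h1, h2]; ring
  exact Int.natAbs_dvd.mp ((ZMod.intCast_zmod_eq_zero_iff_dvd _ _).mp h3)

theorem C6_congr {X Y X' Y' M : ℤ} (hX : M ∣ X - X') (hY : M ∣ Y - Y') : M ∣ C6 W X Y - C6 W X' Y' := by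
  have h1 : (X : ZMod M.natAbs) = (X' : ZMod M.natAbs) := by
    rw [← sub_eq_zero, ← Int.cast_sub, ZMod.intCast_zmod_eq_zero_iff_dvd]
    exact Int.natAbs_dvd.mpr hX
  have h2 : (Y : ZMod M.natAbs) = (Y' : ZMod M.natAbs) := by
    rw [← sub_eq_zero, ← Int.cast_sub, ZMod.intCast_zmod_eq_zero_iff_dvd]
    exact Int.natAbs_dvd.mpr hY
  have h3 : ((C6 W X Y - C6 W X' Y' : ℤ) : ZMod M.natAbs) = 0 := by
    unfold C6 fC6; push_cast; rw [h1, h2]; ring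
  exact Int.natAbs_dvd.mp ((ZMod.intCast_zmod_eq_zero_iff_dvd _ _).mp h3)

end Curve

/-! ### Kraus -/

section Kraus

theorem kraus16 : ∀ c4 c6 : ZMod 16, c4 ^ 3 = c6 ^ 2 → (c6 = 3 ∨ c6 = 7 ∨ c6 = 11 ∨ c6 = 15) →
    (∀ b2 : ZMod 16, (b2 = 1 ∨ b2 = 5 ∨ b2 = 13) → b2 ^ 3 - 3 * b2 * c4 - 2 * c6 = 0) := by
  decide

theorem kraus8 : ∀ c4 c6 : ZMod 8, c4 ^ 3 = c6 ^ 2 → (c6 = 3 ∨ c6 = 7) →
    (∀ b2 : ZMod 8, (b2 = 1 ∨ b2 = 5) → b2 ^ 2 - c4 = 0) := by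
  decide

set_option maxRecDepth 10000 in
theorem kraus27 : ∀ c4 c6 : ZMod 27, c4 ^ 3 = c6 ^ 2 →
    ((c6.val % 3 = 0 → c6 = 0 → (-27 - 3 * (-3) * c4 - 2 * c6 = 0 ∧ c4.val % 3 = 0)) ∧
     (c6.val % 3 = 1 → 5 ^ 3 - 3 * 5 * c4 - 2 * c6 = 0 ∧ c4.val % 3 = 1) ∧
     (c6.val % 3 = 2 → 1 - 3 * 1 * c4 - 2 * c6 = 0 ∧ c4.val % 3 = 1)) := by
  decide

theorem zmod_cast_cases (n : ℕ) (a b : ℤ) (h : (n : ℤ) ∣ a - b) : (a : ZMod n) = (b : ZMod n) := by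
  rw [← sub_eq_zero, ← Int.cast_sub, ZMod.intCast_zmod_eq_zero_iff_dvd]
  exact h

/-- the existence of `b`-invariants -/
theorem exists_b (c4 c6 Δ : ℤ) (hrel : 1728 * Δ = c4 ^ 3 - c6 ^ 2) (h2 : c6 % 4 = 3)
    (h3 : ¬ (3 : ℤ) ∣ c6 ∨ (27 : ℤ) ∣ c6) :
    ∃ b2 b4 b6 : ℤ, b2 % 4 = 1 ∧ b2 ^ 2 - 24 * b4 = c4 ∧
      -b2 ^ 3 + 36 * b2 * b4 - 216 * b6 = c6 := by
  -- relations modulo 16, 8, 27
  have r16 : (c4 : ZMod 16) ^ 3 = (c6 : ZMod 16) ^ 2 := by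
    have := zmod_cast_cases 16 (c4 ^ 3) (c6 ^ 2) ⟨108 * Δ, by rw [← hrel]; push_cast; ring⟩
    exact_mod_cast this
  have r8 : (c4 : ZMod 8) ^ 3 = (c6 : ZMod 8) ^ 2 := by
    have := zmod_cast_cases 8 (c4 ^ 3) (c6 ^ 2) ⟨216 * Δ, by rw [← hrel]; push_cast; ring⟩
    exact_mod_cast this
  have r27 : (c4 : ZMod 27) ^ 3 = (c6 : ZMod 27) ^ 2 := by
    have := zmod_cast_cases 27 (c4 ^ 3) (c6 ^ 2) ⟨64 * Δ, by rw [← hrel]; push_cast; ring⟩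
    exact_mod_cast this
  have c16 : (c6 : ZMod 16) = 3 ∨ (c6 : ZMod 16) = 7 ∨ (c6 : ZMod 16) = 11 ∨ (c6 : ZMod 16) = 15 := by
    have h : c6 % 16 = 3 ∨ c6 % 16 = 7 ∨ c6 % 16 = 11 ∨ c6 % 16 = 15 := by omega
    rcases h with h | h | h | h
    · left; have := zmod_cast_cases 16 c6 3 (by omega); exact_mod_cast this
    · right; left; have := zmod_cast_cases 16 c6 7 (by omega); exact_mod_cast this
    · right; right; left; have := zmod_cast_cases 16 c6 11 (by omega); exact_mod_cast this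
    · right; right; right; have := zmod_cast_cases 16 c6 15 (by omega); exact_mod_cast this
  have c8 : (c6 : ZMod 8) = 3 ∨ (c6 : ZMod 8) = 7 := by
    have h : c6 % 8 = 3 ∨ c6 % 8 = 7 := by omega
    rcases h with h | h
    · left; have := zmod_cast_cases 8 c6 3 (by omega); exact_mod_cast this
    · right; have := zmod_cast_cases 8 c6 7 (by omega); exact_mod_cast this
  have k27 := kraus27 (c4 : ZMod 27) (c6 : ZMod 27) r27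
  -- choose b2
  have key : ∃ b2 : ℤ, (b2 = 1 ∨ b2 = 5 ∨ b2 = -3) ∧ (27 : ℤ) ∣ b2 ^ 3 - 3 * b2 * c4 - 2 * c6 ∧
      (3 : ℤ) ∣ b2 ^ 2 - c4 := by
    have hval : ∀ c : ℤ, ((c : ZMod 27).val % 3 : ℕ) = (c % 3).toNat := by
      intro c
      have h1 : (((c : ZMod 27).val : ℕ) : ℤ) = c % 27 := by
        have := ZMod.val_intCast (n := 27) c
        exact_mod_cast this
      omega
    have h0 : c6 % 3 = 0 ∨ c6 % 3 = 1 ∨ c6 % 3 = 2 := by omega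
    rcases h0 with h0 | h0 | h0
    · have h27 : (27 : ℤ) ∣ c6 := by
        rcases h3 with h | h
        · exact absurd (Int.dvd_of_emod_eq_zero h0) h
        · exact h
      have e1 : (c6 : ZMod 27) = 0 := (ZMod.intCast_zmod_eq_zero_iff_dvd c6 27).mpr h27
      obtain ⟨h1, h2'⟩ := k27.1 (by rw [hval, h0]; rfl) e1
      refine ⟨-3, Or.inr (Or.inr rfl), ?_, ?_⟩
      · apply (ZMod.intCast_zmod_eq_zero_iff_dvd _ 27).mp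
        push_cast
        rw [← h1]; ring
      · rw [hval] at h2'
        omega
    · obtain ⟨h1, h2'⟩ := k27.2.1 (by rw [hval, h0]; rfl)
      refine ⟨5, Or.inr (Or.inl rfl), ?_, ?_⟩
      · apply (ZMod.intCast_zmod_eq_zero_iff_dvd _ 27).mp
        push_cast
        rw [← h1]; ring
      · rw [hval] at h2'
        omega
    · obtain ⟨h1, h2'⟩ := k27.2.2 (by rw [hval, h0]; rfl)
      refine ⟨1, Or.inl rfl, ?_, ?_⟩
      · apply (ZMod.intCast_zmod_eq_zero_iff_dvd _ 27).mp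
        push_cast
        rw [← h1]; ring
      · rw [hval] at h2'
        omega
  obtain ⟨b2, hb2, h27, h3'⟩ := key
  have h16 : (16 : ℤ) ∣ b2 ^ 3 - 3 * b2 * c4 - 2 * c6 := by
    apply (ZMod.intCast_zmod_eq_zero_iff_dvd _ 16).mp
    push_cast
    refine kraus16 _ _ r16 c16 _ ?_
    rcases hb2 with h | h | h <;> rw [h]
    · left; norm_num
    · right; left; norm_num
    · right; right; decide
  have h8 : (8 : ℤ) ∣ b2 ^ 2 - c4 := by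
    apply (ZMod.intCast_zmod_eq_zero_iff_dvd _ 8).mp
    push_cast
    refine kraus8 _ _ r8 c8 _ ?_
    rcases hb2 with h | h | h <;> rw [h]
    · left; norm_num
    · right; norm_num
    · right; decide
  obtain ⟨b4, hb4⟩ : (24 : ℤ) ∣ b2 ^ 2 - c4 := by omega
  obtain ⟨b6, hb6⟩ : (432 : ℤ) ∣ b2 ^ 3 - 3 * b2 * c4 - 2 * c6 := by omega
  refine ⟨b2, b4, b6, by rcases hb2 with h | h | h <;> rw [h] <;> norm_num, by linarith, ?_⟩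
  have h4 : 2 * (-b2 ^ 3 + 36 * b2 * b4 - 216 * b6) = 2 * c6 := by
    linear_combination 3 * b2 * (-hb4) + hb6
  exact mul_left_cancel₀ (by norm_num) h4

/-- Kraus' criterion in the case `c₆ ≡ 3 mod 4` -/
theorem exists_model (c4 c6 Δ : ℤ) (hrel : 1728 * Δ = c4 ^ 3 - c6 ^ 2) (h2 : c6 % 4 = 3)
    (h3 : ¬ (3 : ℤ) ∣ c6 ∨ (27 : ℤ) ∣ c6) :
    ∃ W : WeierstrassCurve ℤ, W.c₄ = c4 ∧ W.c₆ = c6 ∧ W.Δ = Δ := by
  obtain ⟨b2, b4, b6, hb2, e4, e6⟩ := exists_b c4 c6 Δ hrel h2 h3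
  -- relation for 4 Δ
  have hΔ : 4 * Δ = -b2 ^ 2 * (b2 * b6 - b4 ^ 2) - 32 * b4 ^ 3 - 108 * b6 ^ 2 + 36 * b2 * b4 * b6 := by
    have h : 1728 * (4 * Δ) = 1728 * (-b2 ^ 2 * (b2 * b6 - b4 ^ 2) - 32 * b4 ^ 3 - 108 * b6 ^ 2 +
        36 * b2 * b4 * b6) := by
      rw [← e4, ← e6] at hrel
      linear_combination 4 * hrel
    exact mul_left_cancel₀ (by norm_num) h
  obtain ⟨a2, ha2⟩ : ∃ a2, b2 = 1 + 4 * a2 := ⟨b2 / 4, by omega⟩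
  have h4 : (4 : ℤ) ∣ b6 - b4 ^ 2 := by
    have h5 : (4 : ℤ) ∣ b2 ^ 2 * (b2 * b6 - b4 ^ 2) := ⟨-Δ - 8 * b4 ^ 3 - 27 * b6 ^ 2 + 9 * b2 * b4 * b6, by
      linear_combination hΔ⟩
    obtain ⟨k, hk⟩ := h5
    refine ⟨k - 2 * a2 * (b2 * b6 - b4 ^ 2) - 4 * a2 ^ 2 * (b2 * b6 - b4 ^ 2) - a2 * b6, ?_⟩
    rw [ha2] at hk ⊢
    linear_combination hk
  obtain ⟨a3, a4, ha3, ha4⟩ : ∃ a3 a4 : ℤ, (a3 = 0 ∨ a3 = 1) ∧ b4 = a3 + 2 * a4 := by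
    rcases Int.even_or_odd b4 with ⟨k, hk⟩ | ⟨k, hk⟩
    · exact ⟨0, k, Or.inl rfl, by omega⟩
    · exact ⟨1, k, Or.inr rfl, by omega⟩
  have ha3' : a3 ^ 2 = a3 := by rcases ha3 with h | h <;> rw [h] <;> norm_num
  obtain ⟨a6, ha6⟩ : ∃ a6, b6 = a3 ^ 2 + 4 * a6 := by
    obtain ⟨k, hk⟩ := h4
    refine ⟨k + a3 * a4 + a4 ^ 2, ?_⟩
    rw [ha4] at hk
    linear_combination hk
  have hb2' : (⟨1, a2, a3, a4, a6⟩ : WeierstrassCurve ℤ).b₂ = b2 := by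
    simp only [WeierstrassCurve.b₂]; rw [ha2]; ring
  have hb4' : (⟨1, a2, a3, a4, a6⟩ : WeierstrassCurve ℤ).b₄ = b4 := by
    simp only [WeierstrassCurve.b₄]; rw [ha4]; ring
  have hb6' : (⟨1, a2, a3, a4, a6⟩ : WeierstrassCurve ℤ).b₆ = b6 := by
    simp only [WeierstrassCurve.b₆]; rw [ha6]
  have f4 : (⟨1, a2, a3, a4, a6⟩ : WeierstrassCurve ℤ).c₄ = c4 := by
    rw [WeierstrassCurve.c₄, hb2', hb4', e4]
  have f6 : (⟨1, a2, a3, a4, a6⟩ : WeierstrassCurve ℤ).c₆ = c6 := by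
    rw [WeierstrassCurve.c₆, hb2', hb4', hb6', e6]
  refine ⟨⟨1, a2, a3, a4, a6⟩, f4, f6, ?_⟩
  have h := (⟨1, a2, a3, a4, a6⟩ : WeierstrassCurve ℤ).c_relation
  rw [f4, f6, ← hrel] at h
  exact mul_left_cancel₀ (by norm_num) h

end Kraus

end Fermat.Agent.H3LT
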