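/-
H3LTLoc: local conditions for the members of the Hesse pencil (project LT, module M1).
-/
import Mathlib
import Fermat.Agent.H3LTInt

set_option autoImplicit false

namespace Fermat.Agent.H3LT

section Field

variable {F : Type*} [Field F]

theorem cusp_root (h2 : (2 : F) ≠ 0) {a b l : F} (hab : a ^ 3 = b ^ 2) (ha : a ≠ 0) (hl : a * l = 3 * b) :
    hD a b l 1 = 0 ∧ hG a b l 1 ≠ 0 := by
  have hb : b ≠ 0 := by
    rintro rfl
    exact ha (by simpa using hab)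
  have h1 : a ^ 4 * hD a b l 1 = 0 := by
    have e : a ^ 4 * hD a b l 1 = (a * l) ^ 4 - 6 * a ^ 3 * (a * l) ^ 2 - 8 * b * a ^ 3 * (a * l) - 3 * (a ^ 3) ^ 2 := by
      unfold hD; ring
    rw [e, hl, hab]; ring
  have h3 : a ^ 3 * hG a b l 1 = 16 * b ^ 3 := by
    have e : a ^ 3 * hG a b l 1 = (a * l) ^ 3 - 3 * a ^ 3 * (a * l) - 2 * b * a ^ 3 := by
      unfold hG; ring
    rw [e, hl, hab]; ring
  refine ⟨(mul_eq_zero.mp h1).resolve_left (pow_ne_zero _ ha), fun h => ?_⟩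
  rw [h, mul_zero] at h3
  have h16 : (16 : F) = 2 ^ 4 := by norm_num
  rw [h16] at h3
  exact mul_ne_zero (pow_ne_zero 4 h2) (pow_ne_zero 3 hb) h3.symm

theorem no_common (h2 : (2 : F) ≠ 0) (h3 : (3 : F) ≠ 0) {a b l m : F} (hab : a ^ 3 - b ^ 2 ≠ 0)
    (hD0 : hD a b l m = 0) (hG0 : hG a b l m = 0) : l = 0 ∧ m = 0 := by
  by_cases hm : m = 0
  · refine ⟨?_, hm⟩
    unfold hD at hD0
    rw [hm] at hD0
    have : l ^ 4 = 0 := by linear_combination hD0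
    exact (pow_eq_zero_iff (by norm_num)).mp this
  · exfalso
    have hQ : a * l ^ 2 + 2 * b * l * m + a ^ 2 * m ^ 2 = 0 := by
      have e : 3 * m ^ 2 * (a * l ^ 2 + 2 * b * l * m + a ^ 2 * m ^ 2) = 0 := by
        unfold hD at hD0; unfold hG at hG0
        linear_combination l * hG0 - hD0
      exact (mul_eq_zero.mp e).resolve_left (mul_ne_zero h3 (pow_ne_zero _ hm))
    have hR : b * l ^ 2 + 2 * a ^ 2 * l * m + a * b * m ^ 2 = 0 := by
      have e : 2 * m * (b * l ^ 2 + 2 * a ^ 2 * l * m + a * b * m ^ 2) = 0 := by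
        unfold hG at hG0
        linear_combination l * hQ - a * hG0
      exact (mul_eq_zero.mp e).resolve_left (mul_ne_zero h2 hm)
    have hl : l = 0 := by
      have e : 2 * (a ^ 3 - b ^ 2) * m * l = 0 := by
        linear_combination a * hR - b * hQ
      exact (mul_eq_zero.mp e).resolve_left (mul_ne_zero (mul_ne_zero h2 hab) hm)
    rw [hl] at hQ
    have ha : a = 0 := by
      have e : (a * m) ^ 2 = 0 := by linear_combination hQ
      exact (mul_eq_zero.mp ((pow_eq_zero_iff (by norm_num)).mp e)).resolve_right hm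
    have hb : b = 0 := by
      unfold hG at hG0
      rw [hl, ha] at hG0
      have e : 2 * m ^ 3 * b = 0 := by linear_combination -hG0
      exact (mul_eq_zero.mp e).resolve_left (mul_ne_zero h2 (pow_ne_zero _ hm))
    exact hab (by rw [ha, hb]; ring)

theorem C4_ne_zero_of_G {a b l : F} (hD0 : hD a b l 1 = 0) (hG0 : hG a b l 1 ≠ 0) : hC4 a b l 1 ≠ 0 := by
  intro h
  have := hG_sq a b l 1
  rw [hD0, h] at this
  apply hG0
  have e : hG a b l 1 ^ 2 = 0 := by rw [this]; ring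
  exact (pow_eq_zero_iff (by norm_num)).mp e

end Field

section Two

theorem two4 : ∀ b4 b8 : ZMod 4, (b8 = 0 ∨ b8 = 2) → ∃ X Y : ZMod 4, fP 1 b4 (b4 ^ 2) b8 X Y = 2 ∧
    (fC4 1 b4 (b4 ^ 2) b8 X Y = 1 ∨ fC4 1 b4 (b4 ^ 2) b8 X Y = 3) := by
  unfold fP fC4
  decide

theorem two4' : ∀ b4 b8 X Y : ZMod 4, (fC4 1 b4 (b4 ^ 2) b8 X Y = 1 ∨ fC4 1 b4 (b4 ^ 2) b8 X Y = 3) →
    fC6 1 b4 (b4 ^ 2) b8 X Y = 3 := by
  unfold fC4 fC6
  decide

end Two

section Val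

variable {p : ℕ} [hp : Fact p.Prime]

theorem val_zero {z : ℤ} (h : ¬ (p : ℤ) ∣ z) : padicValInt p z = 0 := by
  by_contra hne
  have h1 : 1 ≤ padicValInt p z := Nat.one_le_iff_ne_zero.mpr hne
  exact h (by simpa using (padicValInt_dvd_iff 1 z).mpr (Or.inr h1))

theorem val_one {z : ℤ} (h : (p : ℤ) ∣ z) (h2 : ¬ (p : ℤ) ^ 2 ∣ z) : padicValInt p z = 1 := by
  have hz : z ≠ 0 := by rintro rfl; exact h2 (dvd_zero _)
  have h1 : 1 ≤ padicValInt p z := by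
    rcases (padicValInt_dvd_iff 1 z).mp (by simpa using h) with h | h
    · exact absurd h hz
    · exact h
  by_contra hne
  exact h2 ((padicValInt_dvd_iff 2 z).mpr (Or.inr (by omega)))

theorem val_mul_pow {d z : ℤ} (hd : d ≠ 0) (hz : z ≠ 0) :
    padicValInt p (d * z ^ 3) = padicValInt p d + 3 * padicValInt p z := by
  rw [padicValInt.mul hd (pow_ne_zero _ hz), pow_succ, pow_two, padicValInt.mul (mul_ne_zero hz hz) hz,
    padicValInt.mul hz hz]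
  ring

end Val

section Local

variable (W : WeierstrassCurve ℤ)

theorem P_cast (p : ℕ) (X Y : ℤ) : (256 : ZMod p) * ((P W X Y : ℤ) : ZMod p) =
    hD (W.c₄ : ZMod p) (W.c₆ : ZMod p) (4 * X + W.b₂ * Y) Y := by
  have := congrArg (Int.cast : ℤ → ZMod p) (P_eq W X Y)
  unfold hD at this ⊢
  push_cast at this
  exact this

theorem C4_cast (p : ℕ) (X Y : ℤ) : (256 : ZMod p) * ((C4 W X Y : ℤ) : ZMod p) =
    hC4 (W.c₄ : ZMod p) (W.c₆ : ZMod p) (4 * X + W.b₂ * Y) Y := by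
  have := congrArg (Int.cast : ℤ → ZMod p) (C4_eq W X Y)
  unfold hC4 at this ⊢
  push_cast at this
  exact this

/-- a simple root of the discriminant form at an odd prime -/
theorem loc_odd {p : ℕ} (hp : p.Prime) (hp2 : p ≠ 2)
    (h : ((p : ℤ) ∣ W.Δ ∧ ¬ (p : ℤ) ∣ W.c₄) ∨ (p ≠ 3 ∧ ¬ (p : ℤ) ∣ W.Δ ∧ ∃ l : ℤ, (p : ℤ) ∣ hD W.c₄ W.c₆ l 1)) :
    ∃ x : ℤ, (p : ℤ) ∣ P W x 1 ∧ ¬ (p : ℤ) ^ 2 ∣ P W x 1 ∧ ¬ (p : ℤ) ∣ C4 W x 1 := by
  have : Fact p.Prime := ⟨hp⟩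
  have hdvd : ∀ z : ℤ, ((z : ℤ) : ZMod p) = 0 ↔ (p : ℤ) ∣ z := fun z =>
    ZMod.intCast_zmod_eq_zero_iff_dvd z p
  have h2 : (2 : ZMod p) ≠ 0 := by
    intro h
    have h' : (p : ℤ) ∣ 2 := (hdvd 2).mp (by exact_mod_cast h)
    have h'' : p ∣ 2 := by exact_mod_cast h'
    exact hp2 ((Nat.prime_dvd_prime_iff_eq hp Nat.prime_two).mp h'')
  have h4 : (4 : ZMod p) ≠ 0 := by
    have : (4 : ZMod p) = 2 * 2 := by norm_num
    rw [this]; exact mul_ne_zero h2 h2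
  have h256 : (256 : ZMod p) ≠ 0 := by
    have : (256 : ZMod p) = 2 ^ 8 := by norm_num
    rw [this]; exact pow_ne_zero _ h2
  have hrel : ((1728 * W.Δ : ℤ) : ZMod p) = (W.c₄ : ZMod p) ^ 3 - (W.c₆ : ZMod p) ^ 2 := by
    have := congrArg (Int.cast : ℤ → ZMod p) W.c_relation
    push_cast at this ⊢
    exact this
  -- the root
  obtain ⟨l, hl, hGl⟩ : ∃ l : ZMod p, hD (W.c₄ : ZMod p) (W.c₆ : ZMod p) l 1 = 0 ∧
      hG (W.c₄ : ZMod p) (W.c₆ : ZMod p) l 1 ≠ 0 := by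
    rcases h with ⟨h1, h3⟩ | ⟨h3, h1, l, hl⟩
    · have hc : (W.c₄ : ZMod p) ≠ 0 := fun h => h3 ((hdvd _).mp h)
      have hab : (W.c₄ : ZMod p) ^ 3 = (W.c₆ : ZMod p) ^ 2 := by
        rw [← sub_eq_zero, ← hrel, hdvd]
        exact h1.mul_left _
      refine ⟨3 * W.c₆ / W.c₄, cusp_root h2 hab hc ?_⟩
      field_simp
    · have h3' : (3 : ZMod p) ≠ 0 := by
        intro h
        have h' : (p : ℤ) ∣ 3 := (hdvd 3).mp (by exact_mod_cast h)
        have h'' : p ∣ 3 := by exact_mod_cast h'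
        exact h3 ((Nat.prime_dvd_prime_iff_eq hp Nat.prime_three).mp h'')
      have hab : (W.c₄ : ZMod p) ^ 3 - (W.c₆ : ZMod p) ^ 2 ≠ 0 := by
        rw [← hrel]
        push_cast
        refine mul_ne_zero ?_ (fun h => h1 ((hdvd _).mp h))
        have : (1728 : ZMod p) = 2 ^ 6 * 3 ^ 3 := by norm_num
        rw [this]; exact mul_ne_zero (pow_ne_zero _ h2) (pow_ne_zero _ h3')
      have hl' : hD (W.c₄ : ZMod p) (W.c₆ : ZMod p) (l : ZMod p) 1 = 0 := by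
        have h5 := (hdvd _).mpr hl
        rw [← h5]
        unfold hD; push_cast; ring
      exact ⟨l, hl', fun h => one_ne_zero (no_common h2 h3' hab hl' h).2⟩
  -- the coordinate
  obtain ⟨x, hx⟩ : ∃ x : ℤ, (4 * x + W.b₂ * 1 : ZMod p) = l := by
    refine ⟨(((l - W.b₂) / 4 : ZMod p)).val, ?_⟩
    rw [Int.cast_natCast, ZMod.natCast_val, ZMod.cast_id', id_eq]
    field_simp
    ring
  have hx' : ∀ x' : ℤ, (x' : ZMod p) = x → (p : ℤ) ∣ P W x' 1 ∧ ¬ (p : ℤ) ∣ C4 W x' 1 := by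
    intro x' hxx
    have e1 := P_cast W p x' 1
    have e2 := C4_cast W p x' 1
    push_cast at e1 e2
    rw [hxx, hx] at e1 e2
    rw [hl] at e1
    refine ⟨(hdvd _).mp ((mul_eq_zero.mp e1).resolve_left h256), fun h => ?_⟩
    rw [(hdvd _).mpr h, mul_zero] at e2
    exact C4_ne_zero_of_G hl hGl e2.symm
  by_cases hsq : (p : ℤ) ^ 2 ∣ P W x 1
  · have hcast : ((x + p : ℤ) : ZMod p) = x := by push_cast; simp
    refine ⟨x + p, (hx' _ hcast).1, fun hsq' => ?_, (hx' _ hcast).2⟩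
    have e : 256 * (P W (x + p) 1 - P W x 1) = 16 * p * hG W.c₄ W.c₆ (4 * x + W.b₂ * 1) 1 +
        (p : ℤ) ^ 2 * (96 * (4 * x + W.b₂ * 1) ^ 2 + 256 * p * (4 * x + W.b₂ * 1) + 256 * p ^ 2 - 96 * W.c₄) := by
      have e1 := P_eq W (x + p) 1
      have e2 := P_eq W x 1
      rw [mul_sub, e1, e2]
      unfold hD hG
      ring
    have h5 : (p : ℤ) ^ 2 ∣ 16 * p * hG W.c₄ W.c₆ (4 * x + W.b₂ * 1) 1 := by
      have e' : 16 * p * hG W.c₄ W.c₆ (4 * x + W.b₂ * 1) 1 = 256 * (P W (x + p) 1 - P W x 1) -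
        (p : ℤ) ^ 2 * (96 * (4 * x + W.b₂ * 1) ^ 2 + 256 * p * (4 * x + W.b₂ * 1) + 256 * p ^ 2 - 96 * W.c₄) := by
        rw [e]; ring
      rw [e']
      exact dvd_sub ((dvd_sub hsq' hsq).mul_left _) (Dvd.intro _ rfl)
    have hp0 : (p : ℤ) ≠ 0 := by exact_mod_cast hp.ne_zero
    have h6 : (p : ℤ) ∣ 16 * hG W.c₄ W.c₆ (4 * x + W.b₂ * 1) 1 := by
      apply (mul_dvd_mul_iff_left hp0).mp
      have : (p : ℤ) * (16 * hG W.c₄ W.c₆ (4 * x + W.b₂ * 1) 1) =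
        16 * p * hG W.c₄ W.c₆ (4 * x + W.b₂ * 1) 1 := by ring
      rw [this, ← pow_two]; exact h5
    have h7 := (hdvd _).mpr h6
    apply hGl
    rw [← hx]
    have h16 : (16 : ZMod p) ≠ 0 := by
      have : (16 : ZMod p) = 2 ^ 4 := by norm_num
      rw [this]; exact pow_ne_zero _ h2
    have h8 : (16 : ZMod p) * hG (W.c₄ : ZMod p) (W.c₆ : ZMod p) (4 * x + W.b₂ * 1) 1 = 0 := by
      rw [← h7]; unfold hG; push_cast; ring
    exact (mul_eq_zero.mp h8).resolve_left h16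
  · exact ⟨x, (hx' x rfl).1, hsq, (hx' x rfl).2⟩

/-- semistability away from `6 Δ` -/
theorem loc_gen {p : ℕ} (hp : p.Prime) (hp2 : p ≠ 2) (hp3 : p ≠ 3) (h1 : ¬ (p : ℤ) ∣ W.Δ) {X Y : ℤ}
    (hP : (p : ℤ) ∣ P W X Y) (hC : (p : ℤ) ∣ C4 W X Y) : (p : ℤ) ∣ X ∧ (p : ℤ) ∣ Y := by
  have : Fact p.Prime := ⟨hp⟩
  have hdvd : ∀ z : ℤ, ((z : ℤ) : ZMod p) = 0 ↔ (p : ℤ) ∣ z := fun z =>
    ZMod.intCast_zmod_eq_zero_iff_dvd z p
  have h2 : (2 : ZMod p) ≠ 0 := by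
    intro h
    have h' : (p : ℤ) ∣ 2 := (hdvd 2).mp (by exact_mod_cast h)
    have h'' : p ∣ 2 := by exact_mod_cast h'
    exact hp2 ((Nat.prime_dvd_prime_iff_eq hp Nat.prime_two).mp h'')
  have h3 : (3 : ZMod p) ≠ 0 := by
    intro h
    have h' : (p : ℤ) ∣ 3 := (hdvd 3).mp (by exact_mod_cast h)
    have h'' : p ∣ 3 := by exact_mod_cast h'
    exact hp3 ((Nat.prime_dvd_prime_iff_eq hp Nat.prime_three).mp h'')
  have hrel : ((1728 * W.Δ : ℤ) : ZMod p) = (W.c₄ : ZMod p) ^ 3 - (W.c₆ : ZMod p) ^ 2 := by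
    have := congrArg (Int.cast : ℤ → ZMod p) W.c_relation
    push_cast at this ⊢
    exact this
  have hab : (W.c₄ : ZMod p) ^ 3 - (W.c₆ : ZMod p) ^ 2 ≠ 0 := by
    rw [← hrel]
    push_cast
    refine mul_ne_zero ?_ (fun h => h1 ((hdvd _).mp h))
    have : (1728 : ZMod p) = 2 ^ 6 * 3 ^ 3 := by norm_num
    rw [this]; exact mul_ne_zero (pow_ne_zero _ h2) (pow_ne_zero _ h3)
  have e1 := P_cast W p X Y
  have e2 := C4_cast W p X Y
  rw [(hdvd _).mpr hP, mul_zero] at e1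
  rw [(hdvd _).mpr hC, mul_zero] at e2
  have hG0 : hG (W.c₄ : ZMod p) (W.c₆ : ZMod p) (4 * X + W.b₂ * Y) Y = 0 := by
    have h := hG_sq (W.c₄ : ZMod p) (W.c₆ : ZMod p) (4 * X + W.b₂ * Y) (Y : ZMod p)
    rw [← e1, ← e2, zero_mul, mul_zero, add_zero] at h
    exact (pow_eq_zero_iff (by norm_num)).mp h
  obtain ⟨h4, h5⟩ := no_common h2 h3 hab e1.symm hG0
  rw [h5, mul_zero, add_zero] at h4
  have h44 : (4 : ZMod p) ≠ 0 := by
    have : (4 : ZMod p) = 2 * 2 := by norm_num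
    rw [this]; exact mul_ne_zero h2 h2
  exact ⟨(hdvd _).mp ((mul_eq_zero.mp h4).resolve_left h44), (hdvd _).mp h5⟩

end Local

end Fermat.Agent.H3LT
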