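/-
H3LTLoc2: local conditions for the members of the Hesse pencil, existence (project LT, module M1).
-/
import Mathlib
import Fermat.Prelude.Def_FLTPrelim_Modularity
import Fermat.Agent.H3LTLoc

set_option autoImplicit false

namespace Fermat.Agent.H3LT

section Local

variable (W : WeierstrassCurve ℤ)

structure Loc (p : ℕ) (X Y : ℤ) : Prop where
  sq : ¬ (p : ℤ) ^ 2 ∣ P W X Y
  ss : (p : ℤ) ∣ W.Δ * P W X Y → ¬ (p : ℤ) ∣ C4 W X Y ∧ Odd (padicValInt p (W.Δ * P W X Y ^ 3))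
  three : p = 3 → ¬ (3 : ℤ) ∣ C6 W X Y ∨ (27 : ℤ) ∣ C6 W X Y

theorem c6_three : ¬ (3 : ℤ) ∣ W.c₆ ∨ (27 : ℤ) ∣ W.c₆ := by
  by_cases h : (3 : ℤ) ∣ W.c₆
  · right
    have e : W.c₆ = -W.b₂ ^ 3 + 36 * W.b₂ * W.b₄ - 216 * W.b₆ := rfl
    have h3 : (3 : ℤ) ∣ W.b₂ := by
      have h1 : (3 : ℤ) ∣ W.b₂ ^ 3 := by
        have e2 : W.b₂ ^ 3 = 3 * (12 * W.b₂ * W.b₄ - 72 * W.b₆) - W.c₆ := by rw [e]; ring
        rw [e2]
        exact dvd_sub (Dvd.intro _ rfl) h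
      exact Int.prime_three.dvd_of_dvd_pow h1
    obtain ⟨k, hk⟩ := h3
    rw [e, hk]
    exact ⟨-k ^ 3 + 4 * k * W.b₄ - 8 * W.b₆, by ring⟩
  · exact Or.inl h

theorem not_dvd_C6 {X Y : ℤ} {p : ℕ} (hp : p.Prime) (h : (p : ℤ) ∣ W.Δ * P W X Y) (h4 : ¬ (p : ℤ) ∣ C4 W X Y) :
    ¬ (p : ℤ) ∣ C6 W X Y := by
  intro h6
  have hpr : Prime (p : ℤ) := Nat.prime_iff_prime_int.mp hp
  have hrel := C_relation W X Y
  have h1 : (p : ℤ) ∣ C4 W X Y ^ 3 := by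
    have e : C4 W X Y ^ 3 = 1728 * (W.Δ * P W X Y ^ 3) + C6 W X Y ^ 2 := by rw [hrel]; ring
    rw [e]
    refine dvd_add ?_ (h6.pow (by norm_num))
    refine Dvd.dvd.mul_left ?_ _
    have : W.Δ * P W X Y ^ 3 = W.Δ * P W X Y * P W X Y ^ 2 := by ring
    rw [this]; exact h.mul_right _
  exact h4 (hpr.dvd_of_dvd_pow h1)

theorem sub_dvd_trans {p : ℕ} {k : ℕ} (hk : k ≤ 3) {X x : ℤ} (h : (p : ℤ) ^ 3 ∣ X - x) : (p : ℤ) ^ k ∣ X - x :=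
  (pow_dvd_pow _ hk).trans h

/-- local condition at `(1, 0)` -/
theorem loc_one_zero {p : ℕ} (hp : p.Prime) (hΔ : W.Δ ≠ 0)
    (h : (p : ℤ) ∣ W.Δ → ¬ (p : ℤ) ∣ W.c₄ ∧ Odd (padicValInt p W.Δ)) {X Y : ℤ}
    (hX : (p : ℤ) ^ 3 ∣ X - 1) (hY : (p : ℤ) ^ 3 ∣ Y - 0) : Loc W p X Y := by
  have : Fact p.Prime := ⟨hp⟩
  have hpr : Prime (p : ℤ) := Nat.prime_iff_prime_int.mp hp
  have hX1 : (p : ℤ) ∣ X - 1 := by simpa using sub_dvd_trans (k := 1) (by norm_num) hX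
  have hY1 : (p : ℤ) ∣ Y - 0 := by simpa using sub_dvd_trans (k := 1) (by norm_num) hY
  have hP : ¬ (p : ℤ) ∣ P W X Y := by
    intro h1
    have h2 := dvd_sub h1 (P_congr W hX1 hY1)
    rw [sub_sub_cancel, P_one_zero] at h2
    exact hpr.not_isUnit (isUnit_of_dvd_one h2)
  have hP0 : P W X Y ≠ 0 := fun h0 => hP (h0 ▸ dvd_zero _)
  refine ⟨fun h1 => hP ((dvd_pow_self _ (by norm_num)).trans h1), fun h1 => ?_, fun h3 => ?_⟩
  · have h2 := (hpr.dvd_or_dvd h1).resolve_right hP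
    obtain ⟨h4, h5⟩ := h h2
    refine ⟨fun h6 => h4 ?_, ?_⟩
    · have h7 := dvd_sub h6 (C4_congr W hX1 hY1)
      rwa [sub_sub_cancel, C4_one_zero] at h7
    · rw [val_mul_pow hΔ hP0, val_zero hP]
      simpa using h5
  · subst h3
    have h27 : (27 : ℤ) ∣ C6 W X Y - W.c₆ := by
      have := C6_congr W hX hY
      rw [C6_one_zero] at this
      norm_num at this
      exact this
    rcases c6_three W with h8 | h8
    · left
      intro h9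
      apply h8
      have h10 : (3 : ℤ) ∣ C6 W X Y - W.c₆ := (by norm_num : (3 : ℤ) ∣ 27).trans h27
      have := dvd_sub h9 h10
      rwa [sub_sub_cancel] at this
    · right
      have := dvd_add h27 h8
      rwa [sub_add_cancel] at this

/-- local condition near a simple root -/
theorem loc_root {p : ℕ} (hp : p.Prime) (hΔ : W.Δ ≠ 0) {x y : ℤ} (hP : (p : ℤ) ∣ P W x y)
    (hP2 : ¬ (p : ℤ) ^ 2 ∣ P W x y) (h4 : ¬ (p : ℤ) ∣ C4 W x y)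
    (h : Even (padicValInt p W.Δ)) {X Y : ℤ}
    (hX : (p : ℤ) ^ 3 ∣ X - x) (hY : (p : ℤ) ^ 3 ∣ Y - y) : Loc W p X Y ∧ (p : ℤ) ∣ P W X Y := by
  have : Fact p.Prime := ⟨hp⟩
  have hpr : Prime (p : ℤ) := Nat.prime_iff_prime_int.mp hp
  have hX1 : (p : ℤ) ∣ X - x := by simpa using sub_dvd_trans (k := 1) (by norm_num) hX
  have hY1 : (p : ℤ) ∣ Y - y := by simpa using sub_dvd_trans (k := 1) (by norm_num) hY
  have hX2 : (p : ℤ) ^ 2 ∣ X - x := sub_dvd_trans (by norm_num) hX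
  have hY2 : (p : ℤ) ^ 2 ∣ Y - y := sub_dvd_trans (by norm_num) hY
  have h1 : (p : ℤ) ∣ P W X Y := by
    have := dvd_add (P_congr W hX1 hY1) hP
    rwa [sub_add_cancel] at this
  have h2 : ¬ (p : ℤ) ^ 2 ∣ P W X Y := by
    intro h3
    have := dvd_sub h3 (P_congr W hX2 hY2)
    rw [sub_sub_cancel] at this
    exact hP2 this
  have h3 : ¬ (p : ℤ) ∣ C4 W X Y := by
    intro h5
    have := dvd_sub h5 (C4_congr W hX1 hY1)
    rw [sub_sub_cancel] at this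
    exact h4 this
  have hP0 : P W X Y ≠ 0 := fun h0 => h2 (h0 ▸ dvd_zero _)
  refine ⟨⟨h2, fun _ => ⟨h3, ?_⟩, fun h5 => Or.inl ?_⟩, h1⟩
  · rw [val_mul_pow hΔ hP0, val_one h1 h2]
    exact h.add_odd (by decide)
  · subst h5
    exact not_dvd_C6 W hp (h1.mul_left _) h3

section Two

variable (h2 : (2 : ℤ) ∣ W.Δ) (hc4 : ¬ (2 : ℤ) ∣ W.c₄)

include hc4 in
theorem b2_mod : W.b₂ % 4 = 1 := by
  have h1 : W.c₄ = W.b₂ ^ 2 - 24 * W.b₄ := rfl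
  have h2 : W.b₂ = W.a₁ ^ 2 + 4 * W.a₂ := rfl
  have h3 : ¬ (2 : ℤ) ∣ W.a₁ := by
    intro h
    obtain ⟨k, hk⟩ := h
    apply hc4
    rw [h1, h2, hk]
    exact ⟨8 * (k ^ 2 + W.a₂) ^ 2 - 12 * W.b₄, by ring⟩
  obtain ⟨k, hk⟩ : Odd W.a₁ := by
    rwa [← Int.not_even_iff_odd, even_iff_two_dvd]
  rw [h2, hk]
  have : (2 * k + 1) ^ 2 + 4 * W.a₂ = 1 + 4 * (k ^ 2 + k + W.a₂) := by ring
  rw [this]; omega

include hc4 in
theorem b6_mod : ((W.b₆ : ℤ) : ZMod 4) = (W.b₄ : ZMod 4) ^ 2 := by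
  have h1 := b2_mod W hc4
  have h2 := W.b_relation
  obtain ⟨k, hk⟩ : ∃ k, W.b₂ = 1 + 4 * k := ⟨W.b₂ / 4, by omega⟩
  rw [hk] at h2
  have h3 : (4 : ℤ) ∣ W.b₆ - W.b₄ ^ 2 := ⟨W.b₈ - k * W.b₆, by linear_combination (-1) * h2⟩
  have := zmod_cast_cases 4 W.b₆ (W.b₄ ^ 2) h3
  exact_mod_cast this

include hc4 in
theorem b2_cast : ((W.b₂ : ℤ) : ZMod 4) = 1 := by
  have := zmod_cast_cases 4 W.b₂ 1 (by have := b2_mod W hc4; omega)
  exact_mod_cast this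

include h2 hc4 in
theorem b8_cast : ((W.b₈ : ℤ) : ZMod 4) = 0 ∨ ((W.b₈ : ℤ) : ZMod 4) = 2 := by
  have h1 := b2_mod W hc4
  have h3 := W.b_relation
  obtain ⟨k, hk⟩ : ∃ k, W.b₂ = 1 + 4 * k := ⟨W.b₂ / 4, by omega⟩
  have h4 : W.Δ = -W.b₂ ^ 2 * W.b₈ - 8 * W.b₄ ^ 3 - 27 * W.b₆ ^ 2 + 9 * W.b₂ * W.b₄ * W.b₆ := rfl
  have h5 : (4 : ℤ) ∣ W.b₆ - W.b₄ ^ 2 := by
    rw [hk] at h3
    exact ⟨W.b₈ - k * W.b₆, by linear_combination (-1) * h3⟩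
  have h6 : Even W.b₈ := by
    have e1 : (W.b₂ : ZMod 2) = 1 := by
      have := zmod_cast_cases 2 W.b₂ 1 (by omega)
      exact_mod_cast this
    have e2 : (W.b₆ : ZMod 2) = (W.b₄ : ZMod 2) ^ 2 := by
      have := zmod_cast_cases 2 W.b₆ (W.b₄ ^ 2) ((by norm_num : ((2 : ℕ) : ℤ) ∣ 4).trans h5)
      exact_mod_cast this
    have e3 : (W.Δ : ZMod 2) = 0 := (ZMod.intCast_zmod_eq_zero_iff_dvd _ 2).mpr (by exact_mod_cast h2)
    rw [h4] at e3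
    push_cast at e3
    rw [e1, e2] at e3
    have key : ∀ u v : ZMod 2, -1 ^ 2 * u - 8 * v ^ 3 - 27 * (v ^ 2) ^ 2 + 9 * 1 * v * v ^ 2 = 0 → u = 0 := by decide
    have e4 := key _ _ e3
    rw [even_iff_two_dvd]
    have := (ZMod.intCast_zmod_eq_zero_iff_dvd _ 2).mp e4
    exact_mod_cast this
  obtain ⟨c, hc⟩ := h6
  rcases Int.even_or_odd c with ⟨d, hd⟩ | ⟨d, hd⟩
  · left
    have := zmod_cast_cases 4 W.b₈ 0 (by omega)
    exact_mod_cast this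
  · right
    have := zmod_cast_cases 4 W.b₈ 2 (by omega)
    exact_mod_cast this

include hc4 in
theorem C6_mod {X Y : ℤ} (h : ¬ (2 : ℤ) ∣ C4 W X Y) : C6 W X Y % 4 = 3 := by
  have e4 : ((C4 W X Y : ℤ) : ZMod 4) = fC4 1 (W.b₄ : ZMod 4) ((W.b₄ : ZMod 4) ^ 2) W.b₈ X Y := by
    rw [← b6_mod W hc4, ← b2_cast W hc4]
    unfold C4 fC4; push_cast; ring
  have e6 : ((C6 W X Y : ℤ) : ZMod 4) = fC6 1 (W.b₄ : ZMod 4) ((W.b₄ : ZMod 4) ^ 2) W.b₈ X Y := by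
    rw [← b6_mod W hc4, ← b2_cast W hc4]
    unfold C6 fC6; push_cast; ring
  have h1 : ((C4 W X Y : ℤ) : ZMod 4) = 1 ∨ ((C4 W X Y : ℤ) : ZMod 4) = 3 := by
    have : C4 W X Y % 4 = 1 ∨ C4 W X Y % 4 = 3 := by omega
    rcases this with h | h
    · left
      have := zmod_cast_cases 4 (C4 W X Y) 1 (by omega)
      exact_mod_cast this
    · right
      have := zmod_cast_cases 4 (C4 W X Y) 3 (by omega)
      exact_mod_cast this
  rw [e4] at h1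
  have h3 := two4' _ _ _ _ h1
  rw [← e6] at h3
  have h4 : ((C6 W X Y - 3 : ℤ) : ZMod 4) = 0 := by
    push_cast
    rw [h3]; ring
  have := (ZMod.intCast_zmod_eq_zero_iff_dvd _ _).mp h4
  push_cast at this
  omega

include h2 hc4 in
theorem loc_two : ∃ x y : ℤ, (2 : ℤ) ∣ P W x y ∧ ¬ (2 : ℤ) ^ 2 ∣ P W x y ∧ ¬ (2 : ℤ) ∣ C4 W x y := by
  obtain ⟨X, Y, h3, h4⟩ := two4 (W.b₄ : ZMod 4) (W.b₈ : ZMod 4) (b8_cast W h2 hc4)
  have hX : (((X.val : ℤ)) : ZMod 4) = X := by rw [Int.cast_natCast, ZMod.natCast_val, ZMod.cast_id', id_eq]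
  have hY : (((Y.val : ℤ)) : ZMod 4) = Y := by rw [Int.cast_natCast, ZMod.natCast_val, ZMod.cast_id', id_eq]
  have e3 : ((P W X.val Y.val : ℤ) : ZMod 4) = 2 := by
    rw [← h3, ← b6_mod W hc4, ← b2_cast W hc4]
    conv_rhs => rw [← hX, ← hY]
    unfold P fP; push_cast; ring
  have e4 : ((C4 W X.val Y.val : ℤ) : ZMod 4) = 1 ∨ ((C4 W X.val Y.val : ℤ) : ZMod 4) = 3 := by
    have : ((C4 W X.val Y.val : ℤ) : ZMod 4) = fC4 1 (W.b₄ : ZMod 4) ((W.b₄ : ZMod 4) ^ 2) W.b₈ X Y := by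
      rw [← b6_mod W hc4, ← b2_cast W hc4]
      conv_rhs => rw [← hX, ← hY]
      unfold C4 fC4; push_cast; ring
    rw [this]; exact h4
  refine ⟨X.val, Y.val, ?_, ?_, ?_⟩
  · have h5 : ((P W X.val Y.val - 2 : ℤ) : ZMod 4) = 0 := by push_cast at e3 ⊢; rw [e3]; ring
    have := (ZMod.intCast_zmod_eq_zero_iff_dvd _ _).mp h5
    push_cast at this
    omega
  · have h5 : ((P W X.val Y.val - 2 : ℤ) : ZMod 4) = 0 := by push_cast at e3 ⊢; rw [e3]; ring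
    have := (ZMod.intCast_zmod_eq_zero_iff_dvd _ _).mp h5
    push_cast at this
    intro h6
    have e : (2 : ℤ) ^ 2 = 4 := by norm_num
    rw [e] at h6
    obtain ⟨u, hu⟩ := this
    obtain ⟨v, hv⟩ := h6
    omega
  · rcases e4 with e4 | e4
    · have h5 : ((C4 W X.val Y.val - 1 : ℤ) : ZMod 4) = 0 := by push_cast at e4 ⊢; rw [e4]; ring
      have := (ZMod.intCast_zmod_eq_zero_iff_dvd _ _).mp h5
      push_cast at this
      omega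
    · have h5 : ((C4 W X.val Y.val - 3 : ℤ) : ZMod 4) = 0 := by push_cast at e4 ⊢; rw [e4]; ring
      have := (ZMod.intCast_zmod_eq_zero_iff_dvd _ _).mp h5
      push_cast at this
      intro h6
      obtain ⟨u, hu⟩ := this
      obtain ⟨v, hv⟩ := h6
      omega

end Two

/-- existence of the local condition -/
theorem exists_loc (hΔ : W.Δ ≠ 0) (hW : W.IsSemistableModel) {p : ℕ} (hp : p.Prime) :
    ∃ x y : ℤ, ∀ X Y : ℤ, (p : ℤ) ^ 3 ∣ X - x → (p : ℤ) ^ 3 ∣ Y - y → Loc W p X Y := by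
  by_cases h1 : (p : ℤ) ∣ W.Δ
  · have hc4 := hW p hp h1
    rcases Nat.even_or_odd (padicValInt p W.Δ) with h2 | h2
    · by_cases hp2 : p = 2
      · subst hp2
        obtain ⟨x, y, h3, h4, h5⟩ := loc_two W (by exact_mod_cast h1) (by exact_mod_cast hc4)
        exact ⟨x, y, fun X Y hX hY => (loc_root W hp hΔ (by exact_mod_cast h3) (by exact_mod_cast h4)
          (by exact_mod_cast h5) h2 hX hY).1⟩
      · obtain ⟨x, h3, h4, h5⟩ := loc_odd W hp hp2 (Or.inl ⟨h1, hc4⟩)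
        exact ⟨x, 1, fun X Y hX hY => (loc_root W hp hΔ h3 h4 h5 h2 hX hY).1⟩
    · exact ⟨1, 0, fun X Y hX hY => loc_one_zero W hp hΔ (fun _ => ⟨hc4, h2⟩) hX hY⟩
  · exact ⟨1, 0, fun X Y hX hY => loc_one_zero W hp hΔ (fun h => absurd h h1) hX hY⟩

theorem exists_loc_r (hΔ : W.Δ ≠ 0) {p : ℕ} (hp : p.Prime) (hp2 : p ≠ 2) (hp3 : p ≠ 3)
    (h1 : ¬ (p : ℤ) ∣ W.Δ) {l : ℤ} (hl : (p : ℤ) ∣ hD W.c₄ W.c₆ l 1) :
    ∃ x y : ℤ, ∀ X Y : ℤ, (p : ℤ) ^ 3 ∣ X - x → (p : ℤ) ^ 3 ∣ Y - y →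
      Loc W p X Y ∧ (p : ℤ) ∣ P W X Y := by
  have : Fact p.Prime := ⟨hp⟩
  obtain ⟨x, h3, h4, h5⟩ := loc_odd W hp hp2 (Or.inr ⟨hp3, h1, l, hl⟩)
  exact ⟨x, 1, fun X Y hX hY => loc_root W hp hΔ h3 h4 h5 (by rw [val_zero h1]; exact Even.zero) hX hY⟩

end Local

end Fermat.Agent.H3LT
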