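/-
H3LTCurve: the choice of the member of the Hesse pencil (project LT, module M1), from the sieve.
-/
import Mathlib
import Fermat.Prelude.Def_FLTPrelim_Modularity
import Fermat.Agent.H3LTLoc2

set_option autoImplicit false

namespace Fermat.Agent.H3LT

open Polynomial

/-- the squarefree sieve for binary quartic forms -/
def Sieve : Prop := ∀ (a0 a1 a2 a3 a4 : ℤ), a0 ≠ 0 →
  (C (a0 : ℚ) * X ^ 4 + C (a1 : ℚ) * X ^ 3 + C (a2 : ℚ) * X ^ 2 + C (a3 : ℚ) * X + C (a4 : ℚ) :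
    ℚ[X]).Separable →
  ∀ (M : ℕ), 0 < M → ∀ (l0 m0 : ℤ), (∀ p : ℕ, p.Prime → p ∣ M → ¬ ((p : ℤ) ∣ l0 ∧ (p : ℤ) ∣ m0)) →
  (∀ p : ℕ, p.Prime → ¬ p ∣ M → ∃ l m : ℤ, ¬ ((p : ℤ) ∣ l ∧ (p : ℤ) ∣ m) ∧
    ¬ (p : ℤ) ^ 2 ∣ a0 * l ^ 4 + a1 * l ^ 3 * m + a2 * l ^ 2 * m ^ 2 + a3 * l * m ^ 3 + a4 * m ^ 4) →
  ∀ (x0 x1 : ℝ), x0 < x1 → ∀ B : ℕ, ∃ l m : ℤ, (B : ℤ) < m ∧ x0 * m < l ∧ (l : ℝ) < x1 * m ∧
    l ≡ l0 [ZMOD M] ∧ m ≡ m0 [ZMOD M] ∧ IsCoprime l m ∧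
    ∀ p : ℕ, p.Prime → ¬ p ∣ M →
      ¬ (p : ℤ) ^ 2 ∣ a0 * l ^ 4 + a1 * l ^ 3 * m + a2 * l ^ 2 * m ^ 2 + a3 * l * m ^ 3 + a4 * m ^ 4

theorem crt (S : Finset ℕ) (hS : ∀ p ∈ S, p.Prime) (x : ℕ → ℤ) :
    ∃ X : ℤ, ∀ p ∈ S, (p : ℤ) ^ 3 ∣ X - x p := by
  classical
  induction S using Finset.induction_on with
  | empty => exact ⟨0, fun p hp => absurd hp (Finset.notMem_empty p)⟩
  | insert q S hq ih =>
    obtain ⟨X, hX⟩ := ih (fun p hp => hS p (Finset.mem_insert_of_mem hp))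
    have hcop : IsCoprime ((q : ℤ) ^ 3) (∏ p ∈ S, (p : ℤ) ^ 3) := by
      apply IsCoprime.prod_right
      intro p hp
      apply IsCoprime.pow
      rw [Nat.isCoprime_iff_coprime, Nat.coprime_primes (hS q (Finset.mem_insert_self q S))
        (hS p (Finset.mem_insert_of_mem hp))]
      rintro rfl
      exact hq hp
    obtain ⟨u, v, huv⟩ := hcop
    refine ⟨X + (x q - X) * (v * ∏ p ∈ S, (p : ℤ) ^ 3), fun p hp => ?_⟩
    rcases Finset.mem_insert.mp hp with rfl | hp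
    · refine ⟨(X - x p) * u, ?_⟩
      linear_combination (x p - X) * huv
    · have h1 : (p : ℤ) ^ 3 ∣ ∏ p ∈ S, (p : ℤ) ^ 3 := Finset.dvd_prod_of_mem _ hp
      have h2 : X + (x q - X) * (v * ∏ p ∈ S, (p : ℤ) ^ 3) - x p =
        (X - x p) + (x q - X) * (v * ∏ p ∈ S, (p : ℤ) ^ 3) := by ring
      rw [h2]
      exact dvd_add (hX p hp) ((h1.mul_left _).mul_left _)

variable (W : WeierstrassCurve ℤ)

set_option linter.unusedSimpArgs false in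
theorem P_sep (hΔ : W.Δ ≠ 0) :
    (C ((1 : ℤ) : ℚ) * X ^ 4 + C ((W.b₂ : ℤ) : ℚ) * X ^ 3 + C ((9 * W.b₄ : ℤ) : ℚ) * X ^ 2 +
      C ((27 * W.b₆ : ℤ) : ℚ) * X + C ((27 * W.b₈ : ℤ) : ℚ) : ℚ[X]).Separable := by
  rw [separable_def, isCoprime_iff_aeval_ne_zero_of_isAlgClosed ℚ (AlgebraicClosure ℚ)]
  intro z
  by_contra hcon
  push Not at hcon
  obtain ⟨h1, h2⟩ := hcon
  simp only [map_add, map_mul, map_pow, aeval_X, aeval_C, derivative_add, derivative_mul, derivative_C,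
    derivative_X_pow, derivative_X, zero_mul, zero_add, map_natCast, map_intCast, mul_one, add_zero] at h1 h2
  norm_num at h1 h2
  have hrel : (W.c₄ : AlgebraicClosure ℚ) ^ 3 - (W.c₆ : AlgebraicClosure ℚ) ^ 2 ≠ 0 := by
    have := congrArg (Int.cast : ℤ → AlgebraicClosure ℚ) W.c_relation
    push_cast at this
    rw [← this]
    refine mul_ne_zero (by norm_num) ?_
    exact_mod_cast hΔ
  have hb := congrArg (Int.cast : ℤ → AlgebraicClosure ℚ) W.b_relation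
  push_cast at hb
  have hD0 : hD (W.c₄ : AlgebraicClosure ℚ) (W.c₆ : AlgebraicClosure ℚ) (4 * z + W.b₂) 1 = 0 := by
    have := fP_eq hb z 1
    rw [mul_one] at this
    have e4 : (W.c₄ : AlgebraicClosure ℚ) = (W.b₂ : AlgebraicClosure ℚ) ^ 2 - 24 * W.b₄ := by
      rw [WeierstrassCurve.c₄]; push_cast; ring
    have e6 : (W.c₆ : AlgebraicClosure ℚ) = -(W.b₂ : AlgebraicClosure ℚ) ^ 3 + 36 * W.b₂ * W.b₄ - 216 * W.b₆ := by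
      rw [WeierstrassCurve.c₆]; push_cast; ring
    rw [e4, e6, ← this]
    unfold fP
    linear_combination 256 * h1
  have hG0 : hG (W.c₄ : AlgebraicClosure ℚ) (W.c₆ : AlgebraicClosure ℚ) (4 * z + W.b₂) 1 = 0 := by
    have e4 : (W.c₄ : AlgebraicClosure ℚ) = (W.b₂ : AlgebraicClosure ℚ) ^ 2 - 24 * W.b₄ := by
      rw [WeierstrassCurve.c₄]; push_cast; ring
    have e6 : (W.c₆ : AlgebraicClosure ℚ) = -(W.b₂ : AlgebraicClosure ℚ) ^ 3 + 36 * W.b₂ * W.b₄ - 216 * W.b₆ := by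
      rw [WeierstrassCurve.c₆]; push_cast; ring
    rw [e4, e6]
    unfold hG
    linear_combination 16 * h2
  have := no_common (by norm_num) (by norm_num) hrel hD0 hG0
  exact one_ne_zero this.2

/-- real version of the form -/
theorem P_real (X Y : ℤ) : ((P W X Y : ℤ) : ℝ) = fP (W.b₂ : ℝ) W.b₄ W.b₆ W.b₈ X Y := by
  unfold P fP; push_cast; ring

theorem fP_hom (b2 b4 b6 b8 x y : ℝ) (hy : y ≠ 0) :
    fP b2 b4 b6 b8 x y = y ^ 4 * fP b2 b4 b6 b8 (x / y) 1 := by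
  unfold fP; field_simp

/-- the cone in which `Δ' < 0` -/
theorem exists_cone (hΔ : W.Δ ≠ 0) (hc4 : W.c₄ ≠ 0) : ∃ x0 x1 : ℝ, x0 < x1 ∧ ∀ X Y : ℤ, 0 < Y →
    x0 * Y < X → (X : ℝ) < x1 * Y → W.Δ * P W X Y < 0 := by
  have hcont : Continuous fun x : ℝ => fP (W.b₂ : ℝ) W.b₄ W.b₆ W.b₈ x 1 := by
    unfold fP; fun_prop
  -- a point where the sign is right
  obtain ⟨t, ht⟩ : ∃ t : ℝ, (W.Δ : ℝ) * fP (W.b₂ : ℝ) W.b₄ W.b₆ W.b₈ t 1 < 0 := by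
    rcases lt_or_gt_of_ne hΔ with h | h
    · have hneg : (W.Δ : ℝ) < 0 := by exact_mod_cast h
      let T : ℝ := 1 + |(W.b₂ : ℝ)| + 9 * |(W.b₄ : ℝ)| + 27 * |(W.b₆ : ℝ)| + 27 * |(W.b₈ : ℝ)|
      refine ⟨T, mul_neg_of_neg_of_pos hneg ?_⟩
      have a2 := abs_nonneg (W.b₂ : ℝ)
      have a4 := abs_nonneg (W.b₄ : ℝ)
      have a6 := abs_nonneg (W.b₆ : ℝ)
      have a8 := abs_nonneg (W.b₈ : ℝ)
      have hT1 : 1 ≤ T := by simp only [T]; linarith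
      have e1 : T ^ 2 ≤ T ^ 3 := pow_le_pow_right₀ hT1 (by norm_num)
      have e2 : T ≤ T ^ 3 := by simpa using pow_le_pow_right₀ hT1 (show 1 ≤ 3 by norm_num)
      have e3 : 1 ≤ T ^ 3 := one_le_pow₀ hT1
      have hT0 : 0 ≤ T ^ 3 := by linarith
      have f2 : -|(W.b₂ : ℝ)| * T ^ 3 ≤ W.b₂ * T ^ 3 :=
        mul_le_mul_of_nonneg_right (neg_abs_le _) hT0
      have f4 : -|(W.b₄ : ℝ)| * T ^ 3 ≤ W.b₄ * T ^ 2 := by
        have h1 : -|(W.b₄ : ℝ)| * T ^ 2 ≤ W.b₄ * T ^ 2 := mul_le_mul_of_nonneg_right (neg_abs_le _) (by positivity)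
        have h2 := mul_le_mul_of_nonneg_left e1 a4
        linarith
      have f6 : -|(W.b₆ : ℝ)| * T ^ 3 ≤ W.b₆ * T := by
        have h1 : -|(W.b₆ : ℝ)| * T ≤ W.b₆ * T := mul_le_mul_of_nonneg_right (neg_abs_le _) (by linarith)
        have h2 := mul_le_mul_of_nonneg_left e2 a6
        linarith
      have f8 : -|(W.b₈ : ℝ)| * T ^ 3 ≤ W.b₈ := by
        have h1 := neg_abs_le (W.b₈ : ℝ)
        have h2 := mul_le_mul_of_nonneg_left e3 a8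
        linarith
      have hT4 : T ^ 4 = T ^ 3 * (1 + |(W.b₂ : ℝ)| + 9 * |(W.b₄ : ℝ)| + 27 * |(W.b₆ : ℝ)| + 27 * |(W.b₈ : ℝ)|) := by
        simp only [T]; ring
      unfold fP
      rw [hT4]
      nlinarith
    · have hpos : (0 : ℝ) < W.Δ := by exact_mod_cast h
      refine ⟨-(W.b₂ : ℝ) / 4, mul_neg_of_pos_of_neg hpos ?_⟩
      have h1 := congrArg (Int.cast : ℤ → ℝ) (P_neg W)
      rw [P_real] at h1
      push_cast at h1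
      rw [fP_hom _ _ _ _ _ _ (by norm_num)] at h1
      have h2 : (0 : ℝ) < (W.c₄ : ℝ) ^ 2 := by
        have : (W.c₄ : ℝ) ≠ 0 := by exact_mod_cast hc4
        positivity
      nlinarith
  have hopen : IsOpen {x : ℝ | (W.Δ : ℝ) * fP (W.b₂ : ℝ) W.b₄ W.b₆ W.b₈ x 1 < 0} :=
    isOpen_lt (continuous_const.mul hcont) continuous_const
  obtain ⟨ε, hε, hball⟩ := Metric.isOpen_iff.mp hopen t ht
  refine ⟨t - ε, t + ε, by linarith, fun X Y hY h1 h2 => ?_⟩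
  have hYr : (0 : ℝ) < Y := by exact_mod_cast hY
  have hmem : (X : ℝ) / Y ∈ Metric.ball t ε := by
    rw [Real.ball_eq_Ioo, Set.mem_Ioo]
    exact ⟨by rwa [lt_div_iff₀ hYr], by rwa [div_lt_iff₀ hYr]⟩
  have h3 := hball hmem
  have h4 : ((W.Δ * P W X Y : ℤ) : ℝ) < 0 := by
    push_cast
    rw [P_real, fP_hom _ _ _ _ _ _ hYr.ne']
    have h5 : (W.Δ : ℝ) * fP (W.b₂ : ℝ) W.b₄ W.b₆ W.b₈ ((X : ℝ) / Y) 1 < 0 := h3
    have h6 : (0 : ℝ) < (Y : ℝ) ^ 4 := by positivity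
    nlinarith
  exact_mod_cast h4

theorem exists_XY (sieve : Sieve) (hΔ : W.Δ ≠ 0) (hc4 : W.c₄ ≠ 0) (S : Finset ℕ) (hS : ∀ p ∈ S, p.Prime)
    (x y : ℕ → ℤ) (hxy : ∀ p ∈ S, ¬ ((p : ℤ) ∣ x p ∧ (p : ℤ) ∣ y p)) :
    ∃ X Y : ℤ, W.Δ * P W X Y < 0 ∧ IsCoprime X Y ∧
      (∀ p ∈ S, (p : ℤ) ^ 3 ∣ X - x p ∧ (p : ℤ) ^ 3 ∣ Y - y p) ∧
      ∀ p : ℕ, p.Prime → p ∉ S → ¬ (p : ℤ) ^ 2 ∣ P W X Y := by
  obtain ⟨x0, x1, hx01, hcone⟩ := exists_cone W hΔ hc4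
  obtain ⟨X0, hX0⟩ := crt S hS x
  obtain ⟨Y0, hY0⟩ := crt S hS y
  have hmem : ∀ p : ℕ, p.Prime → (p ∣ ∏ q ∈ S, q ^ 3 ↔ p ∈ S) := by
    intro p hp
    constructor
    · intro h
      obtain ⟨q, hq, hpq⟩ := (hp.prime.dvd_finsetProd_iff _).mp h
      have := hp.dvd_of_dvd_pow hpq
      rwa [(Nat.prime_dvd_prime_iff_eq hp (hS q hq)).mp this]
    · intro h
      exact (dvd_pow_self p (by norm_num)).trans (Finset.dvd_prod_of_mem (fun q => q ^ 3) h)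
  have hval : ∀ l m : ℤ, (1 : ℤ) * l ^ 4 + W.b₂ * l ^ 3 * m + (9 * W.b₄) * l ^ 2 * m ^ 2 +
      (27 * W.b₆) * l * m ^ 3 + (27 * W.b₈) * m ^ 4 = P W l m := by
    intro l m; unfold P fP; ring
  obtain ⟨X, Y, hB, h1, h2, h3, h4, h5, h6⟩ := sieve 1 W.b₂ (9 * W.b₄) (27 * W.b₆) (27 * W.b₈) one_ne_zero
    (P_sep W hΔ) (∏ q ∈ S, q ^ 3) (Finset.prod_pos fun q hq => pow_pos (hS q hq).pos _) X0 Y0
    (fun p hp hpM h => by
      have hpS := (hmem p hp).mp hpM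
      apply hxy p hpS
      have e1 := (dvd_pow_self (p : ℤ) (by norm_num : 3 ≠ 0)).trans (hX0 p hpS)
      have e2 := (dvd_pow_self (p : ℤ) (by norm_num : 3 ≠ 0)).trans (hY0 p hpS)
      constructor
      · have := dvd_sub h.1 e1
        rwa [sub_sub_cancel] at this
      · have := dvd_sub h.2 e2
        rwa [sub_sub_cancel] at this)
    (fun p hp _ => ⟨1, 0, fun h => (Nat.prime_iff_prime_int.mp hp).not_isUnit (isUnit_of_dvd_one h.1), by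
      rw [hval, P_one_zero]
      intro h
      exact (Nat.prime_iff_prime_int.mp hp).not_isUnit
        (isUnit_of_dvd_one ((dvd_pow_self (p : ℤ) (by norm_num : 2 ≠ 0)).trans h))⟩)
    x0 x1 hx01 0
  have hY : 0 < Y := by exact_mod_cast hB
  refine ⟨X, Y, hcone X Y hY h1 h2, h5, fun p hp => ?_, fun p hp hpS => ?_⟩
  · have hpM : ((p : ℤ) ^ 3) ∣ ((∏ q ∈ S, q ^ 3 : ℕ) : ℤ) := by
      push_cast
      exact Finset.dvd_prod_of_mem (fun q : ℕ => (q : ℤ) ^ 3) hp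
    have e1 : (p : ℤ) ^ 3 ∣ X - X0 := hpM.trans h3.symm.dvd
    have e2 : (p : ℤ) ^ 3 ∣ Y - Y0 := hpM.trans h4.symm.dvd
    constructor
    · have := dvd_add e1 (hX0 p hp)
      rwa [sub_add_sub_cancel] at this
    · have := dvd_add e2 (hY0 p hp)
      rwa [sub_add_sub_cancel] at this
  · rw [← hval]
    exact h6 p hp (fun h => hpS ((hmem p hp).mp h))

theorem exists_loc_good (hΔ : W.Δ ≠ 0) (hW : W.IsSemistableModel) {p : ℕ} (hp : p.Prime) :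
    ∃ x y : ℤ, ∀ X Y : ℤ, (p : ℤ) ^ 3 ∣ X - x → (p : ℤ) ^ 3 ∣ Y - y →
      Loc W p X Y ∧ (¬ (p : ℤ) ∣ W.Δ → ¬ (p : ℤ) ∣ P W X Y) := by
  by_cases h : (p : ℤ) ∣ W.Δ
  · obtain ⟨x, y, hxy⟩ := exists_loc W hΔ hW hp
    exact ⟨x, y, fun X Y hX hY => ⟨hxy X Y hX hY, fun h' => absurd h h'⟩⟩
  · refine ⟨1, 0, fun X Y hX hY => ⟨loc_one_zero W hp hΔ (fun h' => absurd h' h) hX hY, fun _ h1 => ?_⟩⟩
    have hpr : Prime (p : ℤ) := Nat.prime_iff_prime_int.mp hp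
    have hX1 : (p : ℤ) ∣ X - 1 := by simpa using sub_dvd_trans (k := 1) (by norm_num) hX
    have hY1 : (p : ℤ) ∣ Y - 0 := by simpa using sub_dvd_trans (k := 1) (by norm_num) hY
    have h2 := dvd_sub h1 (P_congr W hX1 hY1)
    rw [sub_sub_cancel, P_one_zero] at h2
    exact hpr.not_isUnit (isUnit_of_dvd_one h2)

/-- the member of the pencil; `R` = primes made bad, `T` = primes at which no new bad reduction
is allowed -/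
theorem exists_curve_gen (sieve : Sieve) (hΔ : W.Δ ≠ 0) (hW : W.IsSemistableModel) (h2 : (2 : ℤ) ∣ W.Δ)
    (R : Finset ℕ) (hR : ∀ r ∈ R, r.Prime ∧ r ≠ 2 ∧ r ≠ 3 ∧ ¬ (r : ℤ) ∣ W.Δ ∧
      ∃ l : ℤ, (r : ℤ) ∣ hD W.c₄ W.c₆ l 1) (T : Finset ℕ) (hT : ∀ p ∈ T, p.Prime) :
    ∃ (X Y : ℤ) (W' : WeierstrassCurve ℤ), W'.c₄ = C4 W X Y ∧ W'.c₆ = C6 W X Y ∧
      W'.Δ = W.Δ * P W X Y ^ 3 ∧ W'.Δ < 0 ∧ W'.IsSemistableModel ∧ (2 : ℤ) ∣ W'.Δ ∧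
      (∀ ℓ : ℕ, ℓ.Prime → (ℓ : ℤ) ∣ W'.Δ → Odd (padicValInt ℓ W'.Δ)) ∧ (∀ r ∈ R, (r : ℤ) ∣ W'.Δ) ∧
      ∀ ℓ ∈ T, ℓ ∉ R → (ℓ : ℤ) ∣ W'.Δ → (ℓ : ℤ) ∣ W.Δ := by
  classical
  have hc4' : ¬ (2 : ℤ) ∣ W.c₄ := hW 2 Nat.prime_two h2
  have hc4 : W.c₄ ≠ 0 := fun h => hc4' (h ▸ dvd_zero _)
  let S : Finset ℕ := (6 * W.Δ).natAbs.primeFactors ∪ R ∪ T
  have hS : ∀ p ∈ S, p.Prime := by
    intro p hp
    rcases Finset.mem_union.mp hp with h | h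
    · rcases Finset.mem_union.mp h with h | h
      · exact Nat.prime_of_mem_primeFactors h
      · exact (hR p h).1
    · exact hT p h
  have hmem : ∀ p : ℕ, p.Prime → (p : ℤ) ∣ 6 * W.Δ → p ∈ S := by
    intro p hp h
    apply Finset.mem_union_left
    apply Finset.mem_union_left
    rw [Nat.mem_primeFactors]
    exact ⟨hp, Int.natCast_dvd.mp h, by rw [Int.natAbs_ne_zero]; exact mul_ne_zero (by norm_num) hΔ⟩
  have hloc : ∀ p : ℕ, ∃ x y : ℤ, p ∈ S → ∀ X Y : ℤ, (p : ℤ) ^ 3 ∣ X - x → (p : ℤ) ^ 3 ∣ Y - y →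
      Loc W p X Y ∧ (p ∈ R → (p : ℤ) ∣ P W X Y) ∧
      (p ∉ R → ¬ (p : ℤ) ∣ W.Δ → ¬ (p : ℤ) ∣ P W X Y) := by
    intro p
    by_cases hp : p ∈ S
    · by_cases hpR : p ∈ R
      · obtain ⟨h1, h2, h3, h4, l, h5⟩ := hR p hpR
        obtain ⟨x, y, hxy⟩ := exists_loc_r W hΔ h1 h2 h3 h4 h5
        exact ⟨x, y, fun _ X Y hX hY => ⟨(hxy X Y hX hY).1, fun _ => (hxy X Y hX hY).2,
          fun h => absurd hpR h⟩⟩
      · obtain ⟨x, y, hxy⟩ := exists_loc_good W hΔ hW (hS p hp)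
        exact ⟨x, y, fun _ X Y hX hY => ⟨(hxy X Y hX hY).1, fun h => absurd h hpR,
          fun _ => (hxy X Y hX hY).2⟩⟩
    · exact ⟨0, 0, fun h => absurd h hp⟩
  choose x y hxy using hloc
  obtain ⟨X, Y, hneg, hcop, hcl, hsq⟩ := exists_XY W sieve hΔ hc4 S hS x y (fun p hp h => by
    have h1 := (hxy p hp (x p) (y p) (by rw [sub_self]; exact dvd_zero _) (by rw [sub_self]; exact dvd_zero _)).1.sq
    apply h1
    have e : P W (x p) (y p) = x p * x p * (x p ^ 2 + W.b₂ * x p * y p + 9 * W.b₄ * y p ^ 2) +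
      y p * y p * (27 * W.b₆ * x p * y p + 27 * W.b₈ * y p ^ 2) := by
      unfold P fP; ring
    rw [e, pow_two]
    exact dvd_add ((mul_dvd_mul h.1 h.1).mul_right _) ((mul_dvd_mul h.2 h.2).mul_right _))
  have hL : ∀ p ∈ S, Loc W p X Y ∧ (p ∈ R → (p : ℤ) ∣ P W X Y) ∧
      (p ∉ R → ¬ (p : ℤ) ∣ W.Δ → ¬ (p : ℤ) ∣ P W X Y) := fun p hp =>
    hxy p hp X Y (hcl p hp).1 (hcl p hp).2
  have h2S : 2 ∈ S := hmem 2 Nat.prime_two (Dvd.dvd.mul_left h2 _)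
  have h3S : 3 ∈ S := hmem 3 Nat.prime_three ⟨2 * W.Δ, by push_cast; ring⟩
  have hC4 : ¬ (2 : ℤ) ∣ C4 W X Y := ((hL 2 h2S).1.ss (by exact_mod_cast h2.mul_right _)).1
  obtain ⟨W', e4, e6, eΔ⟩ := exists_model (C4 W X Y) (C6 W X Y) (W.Δ * P W X Y ^ 3) (C_relation W X Y)
    (C6_mod W hc4' hC4) ((hL 3 h3S).1.three rfl)
  have hP0 : P W X Y ≠ 0 := by
    intro h
    rw [h, mul_zero] at hneg
    exact lt_irrefl _ hneg
  have hdvd : ∀ p : ℕ, p.Prime → (p : ℤ) ∣ W'.Δ → (p : ℤ) ∣ W.Δ * P W X Y := by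
    intro p hp h
    have hpr := Nat.prime_iff_prime_int.mp hp
    rw [eΔ] at h
    rcases hpr.dvd_or_dvd h with h | h
    · exact h.mul_right _
    · exact (hpr.dvd_of_dvd_pow h).mul_left _
  have hss : ∀ p : ℕ, p.Prime → (p : ℤ) ∣ W'.Δ → ¬ (p : ℤ) ∣ W'.c₄ ∧ Odd (padicValInt p W'.Δ) := by
    intro p hp h
    rw [e4, eΔ]
    by_cases hpS : p ∈ S
    · exact (hL p hpS).1.ss (hdvd p hp h)
    · have : Fact p.Prime := ⟨hp⟩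
      have hpr := Nat.prime_iff_prime_int.mp hp
      have hΔp : ¬ (p : ℤ) ∣ W.Δ := fun h => hpS (hmem p hp (h.mul_left _))
      have hpP : (p : ℤ) ∣ P W X Y := (hpr.dvd_or_dvd (hdvd p hp h)).resolve_left hΔp
      refine ⟨fun hC => ?_, ?_⟩
      · obtain ⟨h5, h6⟩ := loc_gen W hp (fun h => hpS (h ▸ h2S)) (fun h => hpS (h ▸ h3S)) hΔp hpP hC
        exact hpr.not_isUnit (hcop.isUnit_of_dvd' h5 h6)
      · rw [val_mul_pow hΔ hP0, val_zero hΔp, val_one hpP (hsq p hp hpS)]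
        decide
  refine ⟨X, Y, W', e4, e6, eΔ, ?_, fun p hp h => (hss p hp h).1, ?_, fun p hp h => (hss p hp h).2, fun r hr => ?_,
    fun p hp hpR h => ?_⟩
  · rw [eΔ]
    have : W.Δ * P W X Y ^ 3 = (W.Δ * P W X Y) * P W X Y ^ 2 := by ring
    rw [this]
    exact mul_neg_of_neg_of_pos hneg (by positivity)
  · rw [eΔ]; exact h2.mul_right _
  · rw [eΔ]
    exact Dvd.dvd.mul_left (((hL r (Finset.mem_union_left _ (Finset.mem_union_right _ hr))).2.1 hr).pow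
      (by norm_num)) _
  · have hpr := Nat.prime_iff_prime_int.mp (hT p hp)
    by_contra hcon
    exact (hL p (Finset.mem_union_right _ hp)).2.2 hpR hcon
      ((hpr.dvd_or_dvd (hdvd p (hT p hp) h)).resolve_left hcon)

theorem exists_curve (sieve : Sieve) (hΔ : W.Δ ≠ 0) (hW : W.IsSemistableModel) (h2 : (2 : ℤ) ∣ W.Δ)
    (R : Finset ℕ) (hR : ∀ r ∈ R, r.Prime ∧ r ≠ 2 ∧ r ≠ 3 ∧ ¬ (r : ℤ) ∣ W.Δ ∧
      ∃ l : ℤ, (r : ℤ) ∣ hD W.c₄ W.c₆ l 1) :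
    ∃ (X Y : ℤ) (W' : WeierstrassCurve ℤ), W'.c₄ = C4 W X Y ∧ W'.c₆ = C6 W X Y ∧
      W'.Δ = W.Δ * P W X Y ^ 3 ∧ W'.Δ < 0 ∧ W'.IsSemistableModel ∧ (2 : ℤ) ∣ W'.Δ ∧
      (∀ ℓ : ℕ, ℓ.Prime → (ℓ : ℤ) ∣ W'.Δ → Odd (padicValInt ℓ W'.Δ)) ∧ ∀ r ∈ R, (r : ℤ) ∣ W'.Δ := by
  obtain ⟨X, Y, W', h1, h3, h4, h5, h6, h7, h8, h9, -⟩ := exists_curve_gen W sieve hΔ hW h2 R hR ∅
    (fun p hp => absurd hp (Finset.notMem_empty p))
  exact ⟨X, Y, W', h1, h3, h4, h5, h6, h7, h8, h9⟩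

end Fermat.Agent.H3LT
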