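/-
H3LTPrime: auxiliary primes for the choice of `E'` (project LT, module M1): primes `r ≡ 1` and
`r ≡ -1` modulo `n` modulo which a given monic polynomial has a root.
-/
import Mathlib
import Fermat.Agent.H82FrobDensity
import Fermat.Agent.H3LTFam

set_option autoImplicit false

namespace Fermat.Agent.H3LT

open NumberField Polynomial

/-- in a field of characteristic `r`, `x ^ r = x` implies that `x` is an integer -/
theorem exists_int_of_pow_eq {A : Type*} [Field A] (r : ℕ) [hr : Fact r.Prime] [CharP A r]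
    {x : A} (hx : x ^ r = x) : ∃ l : ℤ, (l : A) = x :=
  (mem_bot_iff_intCast r A).mp ((Subfield.mem_bot_iff_pow_eq_self A r).mpr hx)

/-- **auxiliary primes.** -/
theorem exists_prime_core (f : ℤ[X]) (hf : f.Monic) (n : ℕ) (hn : 0 < n) (S : Finset ℕ)
    (c : ℂ ≃ₐ[ℚ] ℂ) (hc : c * c = 1) (x₀ : ℂ) (hx₀ : aeval x₀ f = 0) (hcx : c x₀ = x₀)
    (e : ℤ) (hζ : ∀ ζ : ℂ, ζ ^ n = 1 → c ζ = ζ ^ e) :
    ∃ r : ℕ, r.Prime ∧ r ∉ S ∧ (n : ℤ) ∣ (r : ℤ) - e ∧ ∃ l : ℤ, (r : ℤ) ∣ f.eval l := by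
  classical
  have hnz : NeZero n := ⟨hn.ne'⟩
  let g : ℚ[X] := (f.map (algebraMap ℤ ℚ)) * (X ^ n - 1)
  have hg0 : g ≠ 0 := by
    have : (X ^ n - 1 : ℚ[X]) ≠ 0 := by
      have := X_pow_sub_C_ne_zero hn (1 : ℚ)
      rwa [map_one] at this
    exact mul_ne_zero (hf.map _).ne_zero this
  let L : IntermediateField ℚ ℂ := IntermediateField.adjoin ℚ (g.rootSet ℂ)
  have hsp : IsSplittingField ℚ L g :=
    IntermediateField.adjoin_rootSet_isSplittingField (IsAlgClosed.splits _)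
  have hnorm : Normal ℚ L := Normal.of_isSplittingField g
  have hfin : FiniteDimensional ℚ L := IsSplittingField.finiteDimensional L g
  have hNF : NumberField L := ⟨⟩
  have hGal : IsGalois ℚ L := ⟨⟩
  have hroot : ∀ z : ℂ, aeval z g = 0 → z ∈ L := fun z hz =>
    IntermediateField.subset_adjoin ℚ _ ((mem_rootSet.mpr ⟨hg0, hz⟩))
  let σ : L ≃ₐ[ℚ] L := c.restrictNormal L
  have hσ : ∀ x : L, ((σ x : L) : ℂ) = c (x : ℂ) := fun x => AlgEquiv.restrictNormal_commutes c L x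
  have hσ2 : σ * σ = 1 := by
    ext x
    rw [AlgEquiv.mul_apply, hσ, hσ, ← AlgEquiv.mul_apply, hc]
    rfl
  -- the elements
  have hx₀L : x₀ ∈ L := hroot x₀ (by
    simp only [g, map_mul]
    rw [aeval_map_algebraMap, hx₀, zero_mul])
  obtain ⟨ζ, hζp⟩ : ∃ ζ : ℂ, IsPrimitiveRoot ζ n := ⟨_, Complex.isPrimitiveRoot_exp n hn.ne'⟩
  have hζL : ζ ∈ L := hroot ζ (by
    simp only [g, map_mul, map_sub, map_pow, aeval_X, map_one]
    rw [hζp.pow_eq_one, sub_self, mul_zero])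
  let xL : L := ⟨x₀, hx₀L⟩
  let zL : L := ⟨ζ, hζL⟩
  have hzp : IsPrimitiveRoot zL n :=
    IsPrimitiveRoot.of_map_of_injective (f := algebraMap L ℂ) hζp (algebraMap L ℂ).injective
  have hxf : aeval xL f = 0 := by
    apply (algebraMap L ℂ).injective
    rw [← aeval_algebraMap_apply, map_zero]
    exact hx₀
  let xO : 𝓞 L := ⟨xL, ⟨f, hf, by simpa [aeval_def] using hxf⟩⟩
  let zO : 𝓞 L := ⟨zL, (hzp.isIntegral hn)⟩
  have hxO : aeval xO f = 0 := by
    apply RingOfIntegers.coe_injective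
    rw [← aeval_algebraMap_apply, map_zero]
    exact hxf
  have hzO : IsPrimitiveRoot zO n :=
    IsPrimitiveRoot.of_map_of_injective (f := algebraMap (𝓞 L) L) hzp RingOfIntegers.coe_injective
  obtain ⟨r, hr, hrS, P, hP, hrP, hunr, φ, hφ, hφσ⟩ :=
    Fermat.Agent.H82.exists_frob_finite L σ (S ∪ n.primeFactors)
  have hrf : Fact r.Prime := ⟨hr⟩
  rw [Finset.mem_union, not_or] at hrS
  have hrn : ¬ r ∣ n := fun h => hrS.2 (Nat.mem_primeFactors.mpr ⟨hr, h, hn.ne'⟩)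
  -- `φ = σ`
  have hφeq : φ = σ := by
    obtain ⟨k, hk⟩ : φ ∈ Subgroup.zpowers σ := by rw [← hφσ]; exact Subgroup.mem_zpowers φ
    rcases Int.even_or_odd' k with ⟨m, hm | hm⟩
    · have h1 : φ = 1 := by
        rw [← hk]
        simp only [hm]
        rw [zpow_mul, zpow_ofNat, pow_two, hσ2, one_zpow]
      obtain ⟨k', hk'⟩ : σ ∈ Subgroup.zpowers φ := by rw [hφσ]; exact Subgroup.mem_zpowers σ
      rw [← hk', h1]
      simp
    · rw [← hk]
      simp only [hm]
      rw [zpow_add, zpow_mul, zpow_ofNat, pow_two, hσ2, one_zpow, one_mul, zpow_one]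
  have hPne : P ≠ ⊥ := by
    rintro rfl
    rw [Ideal.mem_bot] at hrP
    exact hr.ne_zero (by exact_mod_cast hrP)
  have hmax : P.IsMaximal := hP.isMaximal hPne
  -- the residue field
  let A := 𝓞 L ⧸ P
  let : Field A := Ideal.Quotient.field P
  have hchar : CharP A r := by
    rw [CharP.charP_iff_prime_eq_zero hr]
    have := Ideal.Quotient.eq_zero_iff_mem.mpr hrP
    rwa [map_natCast] at this
  have hfrob : ∀ x : 𝓞 L, Ideal.Quotient.mk P x ^ r = Ideal.Quotient.mk P (φ • x) := by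
    intro x
    rw [← map_pow, eq_comm, Ideal.Quotient.eq]
    exact hφ x
  have hfx : φ • xO = xO := by
    apply RingOfIntegers.coe_injective
    change φ xL = xL
    apply Subtype.ext
    rw [hφeq, hσ]
    exact hcx
  have hfz : ((φ • zO : 𝓞 L) : L) = zL ^ e := by
    change φ zL = zL ^ e
    apply (algebraMap L ℂ).injective
    rw [map_zpow₀]
    change ((φ zL : L) : ℂ) = ζ ^ e
    rw [hφeq, hσ]
    exact hζ ζ hζp.pow_eq_one
  refine ⟨r, hr, hrS.1, ?_, ?_⟩
  · -- roots of unity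
    have hnorm : (Ideal.absNorm P).Coprime n := by
      have h1 : Ideal.absNorm P ∣ r ^ Module.finrank ℚ L := by
        have h2 : Ideal.absNorm (Ideal.span {(r : 𝓞 L)}) = r ^ Module.finrank ℚ L := by
          rw [Ideal.absNorm_span_singleton]
          have h1 : (r : 𝓞 L) = algebraMap ℤ (𝓞 L) (r : ℤ) := by simp
          rw [h1, Algebra.norm_algebraMap, RingOfIntegers.rank, Int.natAbs_pow, Int.natAbs_natCast]
        rw [← h2]
        exact Ideal.absNorm_dvd_absNorm_of_le ((Ideal.span_singleton_le_iff_mem _).2 hrP)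
      exact Nat.Coprime.coprime_dvd_left h1 (((Nat.Prime.coprime_iff_not_dvd hr).mpr hrn).pow_left _)
    have hz1 : IsPrimitiveRoot (Ideal.Quotient.mk P zO) n := by
      refine hzO.idealQuotient_mk ?_ hnorm
      rw [Ne, Ideal.absNorm_eq_one_iff]
      exact hP.ne_top
    obtain ⟨k, hk⟩ : ∃ k : ℕ, (k : ℤ) = e + n * e.natAbs := by
      refine ⟨(e + n * e.natAbs).toNat, ?_⟩
      apply Int.toNat_of_nonneg
      have h1 : (1 : ℤ) ≤ n := by exact_mod_cast hn
      have h2 : -(e.natAbs : ℤ) ≤ e := by omega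
      nlinarith [Int.natCast_nonneg e.natAbs]
    have hfz' : φ • zO = zO ^ k := by
      apply RingOfIntegers.coe_injective
      rw [map_pow]
      change ((φ • zO : 𝓞 L) : L) = zL ^ k
      rw [hfz, ← zpow_natCast, hk, zpow_add₀ (hzp.ne_zero hn.ne'), zpow_mul, hzp.zpow_eq_one, one_zpow,
        mul_one]
    have h3 : (Ideal.Quotient.mk P zO) ^ r = (Ideal.Quotient.mk P zO) ^ k := by
      rw [hfrob, hfz', map_pow]
    have h4 : (Ideal.Quotient.mk P zO : A) ^ ((r : ℤ) - k) = 1 := by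
      have hne : (Ideal.Quotient.mk P zO : A) ≠ 0 := hz1.ne_zero hn.ne'
      rw [zpow_sub₀ hne, zpow_natCast, zpow_natCast, h3, div_self (pow_ne_zero _ hne)]
    rw [hz1.zpow_eq_one_iff_dvd] at h4
    have h5 : (r : ℤ) - e = (r - k) + n * e.natAbs := by rw [hk]; ring
    rw [h5]
    exact dvd_add h4 (Dvd.intro _ rfl)
  · obtain ⟨l, hl⟩ := exists_int_of_pow_eq (A := A) r (x := Ideal.Quotient.mk P xO) (by rw [hfrob, hfx])
    refine ⟨l, ?_⟩
    have h1 : aeval (Ideal.Quotient.mk P xO) f = 0 := by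
      have := aeval_algebraMap_apply A xO f
      rw [hxO, map_zero] at this
      exact this
    rw [← hl] at h1
    have h2 : ((f.eval l : ℤ) : A) = 0 := by
      rw [← h1]
      have h3 := aeval_algebraMap_apply A l f
      rw [eq_intCast] at h3
      rw [h3, eq_intCast, coe_aeval_eq_eval]
    exact (CharP.intCast_eq_zero_iff A r _).mp h2

/-- complex conjugation as a `ℚ`-automorphism of `ℂ` -/
noncomputable def conjQ : ℂ ≃ₐ[ℚ] ℂ := Complex.conjAe.restrictScalars ℚ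

theorem conjQ_apply (z : ℂ) : conjQ z = (starRingEnd ℂ) z := rfl

theorem conjQ_mul : conjQ * conjQ = 1 := by
  ext z
  rw [AlgEquiv.mul_apply, conjQ_apply, conjQ_apply, Complex.conj_conj]
  rfl

/-- the quartic -/
noncomputable def quart (a b : ℤ) : ℤ[X] := X ^ 4 - C (6 * a) * X ^ 2 - C (8 * b) * X - C (3 * a ^ 2)

theorem quart_eval (a b l : ℤ) : (quart a b).eval l = hD a b l 1 := by
  unfold quart hD
  simp only [eval_sub, eval_mul, eval_pow, eval_X, eval_C]
  ring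

theorem quart_aeval {A : Type*} [CommRing A] (a b : ℤ) (z : A) :
    aeval z (quart a b) = hD (a : A) (b : A) z 1 := by
  unfold quart hD
  simp only [map_sub, map_mul, map_pow, aeval_X, eq_intCast, map_intCast, map_ofNat]
  ring

theorem quart_monic (a b : ℤ) : (quart a b).Monic := by
  unfold quart
  monicity!

theorem quart_degree (a b : ℤ) : (quart a b).degree = 4 := by
  unfold quart
  compute_degree!

/-- a prime `r ≡ 1` modulo `n` such that the quartic has a root modulo `r` -/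
theorem exists_prime_one (a b : ℤ) (n : ℕ) (hn : 0 < n) (S : Finset ℕ) :
    ∃ r : ℕ, r.Prime ∧ r ∉ S ∧ (n : ℤ) ∣ (r : ℤ) - 1 ∧ ∃ l : ℤ, (r : ℤ) ∣ hD a b l 1 := by
  obtain ⟨x₀, hx₀⟩ := IsAlgClosed.exists_aeval_eq_zero ℂ (quart a b) (by rw [quart_degree]; decide)
  obtain ⟨r, h1, h2, h3, l, h4⟩ := exists_prime_core (quart a b) (quart_monic a b) n hn S 1 (one_mul _) x₀ hx₀ rfl 1
    (fun ζ _ => by rw [zpow_one]; rfl)
  exact ⟨r, h1, h2, h3, l, by rwa [quart_eval] at h4⟩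

/-- a prime `r ≡ -1` modulo `n` such that the quartic has a root modulo `r` -/
theorem exists_prime_neg_one (a b : ℤ) (n : ℕ) (hn : 0 < n) (S : Finset ℕ) :
    ∃ r : ℕ, r.Prime ∧ r ∉ S ∧ (n : ℤ) ∣ (r : ℤ) + 1 ∧ ∃ l : ℤ, (r : ℤ) ∣ hD a b l 1 := by
  obtain ⟨x, hx⟩ : ∃ x : ℝ, hD (a : ℝ) (b : ℝ) x 1 = 0 := by
    have hcont : Continuous fun x : ℝ => hD (a : ℝ) (b : ℝ) x 1 := by
      unfold hD; fun_prop
    let T : ℝ := 1 + 6 * |(a : ℝ)| + 8 * |(b : ℝ)| + 3 * (a : ℝ) ^ 2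
    have hT1 : 1 ≤ T := by
      have h1 := abs_nonneg (a : ℝ)
      have h2 := abs_nonneg (b : ℝ)
      have h3 := sq_nonneg (a : ℝ)
      simp only [T]; linarith
    have h0 : hD (a : ℝ) (b : ℝ) 0 1 ≤ 0 := by
      unfold hD
      have := sq_nonneg (a : ℝ)
      nlinarith
    have hT : 0 ≤ hD (a : ℝ) (b : ℝ) T 1 := by
      unfold hD
      have h1 := le_abs_self (a : ℝ)
      have h2 := le_abs_self (b : ℝ)
      have h3 := sq_nonneg (a : ℝ)
      have hT2 : T ^ 4 = T ^ 3 * (1 + 6 * |(a : ℝ)| + 8 * |(b : ℝ)| + 3 * (a : ℝ) ^ 2) := by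
        simp only [T]; ring
      have h4 : 0 ≤ |(a : ℝ)| := abs_nonneg _
      have h5 : 0 ≤ |(b : ℝ)| := abs_nonneg _
      have e1 : T ^ 2 ≤ T ^ 3 := pow_le_pow_right₀ hT1 (by norm_num)
      have e2 : T ≤ T ^ 3 := by simpa using pow_le_pow_right₀ hT1 (show 1 ≤ 3 by norm_num)
      have e3 : 1 ≤ T ^ 3 := one_le_pow₀ hT1
      have f1 : a * T ^ 2 ≤ |(a : ℝ)| * T ^ 3 := mul_le_mul h1 e1 (by positivity) h4
      have f2 : b * T ≤ |(b : ℝ)| * T ^ 3 := mul_le_mul h2 e2 (by linarith) h5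
      have f3 : (a : ℝ) ^ 2 * 1 ≤ (a : ℝ) ^ 2 * T ^ 3 := mul_le_mul_of_nonneg_left e3 h3
      rw [hT2]
      nlinarith
    have := intermediate_value_Icc (show (0 : ℝ) ≤ T by linarith) hcont.continuousOn
    obtain ⟨x, -, hx⟩ := this ⟨h0, hT⟩
    exact ⟨x, hx⟩
  have hx₀ : aeval (x : ℂ) (quart a b) = 0 := by
    rw [quart_aeval]
    have : hD (a : ℂ) (b : ℂ) (x : ℂ) 1 = ((hD (a : ℝ) (b : ℝ) x 1 : ℝ) : ℂ) := by
      unfold hD; push_cast; ring
    rw [this, hx, Complex.ofReal_zero]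
  obtain ⟨r, h1, h2, h3, l, h4⟩ := exists_prime_core (quart a b) (quart_monic a b) n hn S conjQ conjQ_mul x hx₀
    (by rw [conjQ_apply, Complex.conj_ofReal]) (-1) (fun ζ hζ => by
      rw [conjQ_apply, zpow_neg_one, Complex.inv_def, Complex.normSq_eq_norm_sq,
        Complex.norm_eq_one_of_pow_eq_one hζ hn.ne']
      simp)
  exact ⟨r, h1, h2, by simpa using h3, l, by rwa [quart_eval] at h4⟩

end Fermat.Agent.H3LT
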