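import Fermat.Agent.H74VarChange

set_option autoImplicit false

/-!
# Short Weierstrass models `y² = x³ - 27 a x - 54 b`
-/

open WeierstrassCurve

namespace Fermat.Agent.H98

/-- the curve `y² = x³ - 27 a x - 54 b` -/
def short {R : Type*} [CommRing R] (a b : R) : WeierstrassCurve R :=
  ⟨0, 0, 0, -27 * a, -54 * b⟩

theorem short_Δ {R : Type*} [CommRing R] (a b : R) :
    (short a b).Δ = 2 ^ 6 * 3 ^ 9 * (a ^ 3 - b ^ 2) := by
  simp only [short, WeierstrassCurve.Δ, WeierstrassCurve.b₂, WeierstrassCurve.b₄,
    WeierstrassCurve.b₆, WeierstrassCurve.b₈]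
  ring

theorem short_map {R S : Type*} [CommRing R] [CommRing S] (f : R →+* S) (a b : R) :
    (short a b).map f = short (f a) (f b) := by
  simp [short, WeierstrassCurve.map, map_ofNat]

section field

variable {F : Type*} [Field F]

/-- the change of variables from `W` to its short model -/
def shortVC (h6 : (6 : F) ≠ 0) (W : WeierstrassCurve F) : VariableChange F where
  u := (Units.mk0 6 h6)⁻¹
  r := -W.b₂ / 12
  s := -W.a₁ / 2
  t := W.a₁ * W.b₂ / 24 - W.a₃ / 2

theorem shortVC_smul (h6 : (6 : F) ≠ 0) (W : WeierstrassCurve F) :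
    shortVC h6 W • W = short W.c₄ W.c₆ := by
  have h2 : (2 : F) ≠ 0 := fun h => h6 (by linear_combination 3 * h)
  have h3 : (3 : F) ≠ 0 := fun h => h6 (by linear_combination 2 * h)
  have h12 : (12 : F) ≠ 0 := by
    have : (12 : F) = 6 * 2 := by norm_num
    rw [this]; exact mul_ne_zero h6 h2
  have h24 : (24 : F) ≠ 0 := by
    have : (24 : F) = 12 * 2 := by norm_num
    rw [this]; exact mul_ne_zero h12 h2
  ext <;>
  simp only [shortVC, short, variableChange_a₁, variableChange_a₂, variableChange_a₃,
    variableChange_a₄, variableChange_a₆, inv_inv, Units.val_mk0, b₂, b₄, b₆, c₄, c₆] <;>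
  field_simp <;> ring

theorem card_short (h6 : (6 : F) ≠ 0) (W : WeierstrassCurve F) :
    Nat.card (short W.c₄ W.c₆).toAffine.Point = Nat.card W.toAffine.Point := by
  classical
  rw [← shortVC_smul h6 W]
  exact Nat.card_congr (Fermat.Agent.H74.pointEquiv W (shortVC h6 W)).toEquiv

end field

end Fermat.Agent.H98
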