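/-
H3LTPartner: the choice of `E'` (project LT, module M1), from the sieve and the 3-congruence
over prime fields.
-/
import Mathlib
import Fermat.Prelude.Def_FLTPrelim_Modularity
import Fermat.Agent.H98Short
import Fermat.Agent.H3LTCurve
import Fermat.Agent.H3LTPrime

set_option autoImplicit false

namespace Fermat.Agent.H3LT

open Fermat.Agent.H98 (short card_short)

/-- The 3-congruence over prime fields for the Hesse pencil. -/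
def Congr3 : Prop :=
  ∀ (ℓ : ℕ) [Fact ℓ.Prime] (a b l m : ZMod ℓ), (6 : ZMod ℓ) ≠ 0 → a ^ 3 - b ^ 2 ≠ 0 →
    hD a b l m ≠ 0 →
    (3 : ℤ) ∣ (Nat.card (short (hC4 a b l m) (hC6 a b l m)).toAffine.Point : ℤ) -
      (Nat.card (short a b).toAffine.Point : ℤ)

/-- scaling -/
theorem card_short_scale {F : Type*} [Field F] (h6 : (6 : F) ≠ 0) (W : WeierstrassCurve F) (u : F) (hu : u ≠ 0) :
    Nat.card (short (u ^ 4 * W.c₄) (u ^ 6 * W.c₆)).toAffine.Point = Nat.card W.toAffine.Point := by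
  classical
  let C : WeierstrassCurve.VariableChange F := ⟨(Units.mk0 u hu)⁻¹, 0, 0, 0⟩
  have h4 : (C • W).c₄ = u ^ 4 * W.c₄ := by
    rw [WeierstrassCurve.variableChange_c₄]
    simp [C]
  have h6' : (C • W).c₆ = u ^ 6 * W.c₆ := by
    rw [WeierstrassCurve.variableChange_c₆]
    simp [C]
  rw [← h4, ← h6', card_short h6]
  exact Nat.card_congr (Fermat.Agent.H74.pointEquiv W C).toEquiv

theorem congr_ap (hB : Congr3) (W W' : WeierstrassCurve ℤ) (X Y : ℤ) (h4 : W'.c₄ = C4 W X Y)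
    (h6 : W'.c₆ = C6 W X Y) (hΔ : W'.Δ = W.Δ * P W X Y ^ 3) {ℓ : ℕ} (hℓ : ℓ.Prime) (h2 : ℓ ≠ 2)
    (h3 : ℓ ≠ 3) (hg : W.IsGoodPrimeFor ℓ) (hg' : W'.IsGoodPrimeFor ℓ) :
    (3 : ℤ) ∣ (W'.apOfModel ℓ - W.apOfModel ℓ) := by
  have : Fact ℓ.Prime := ⟨hℓ⟩
  have hdvd : ∀ z : ℤ, ((z : ℤ) : ZMod ℓ) = 0 ↔ (ℓ : ℤ) ∣ z := fun z =>
    ZMod.intCast_zmod_eq_zero_iff_dvd z ℓ
  have h2' : (2 : ZMod ℓ) ≠ 0 := by
    intro h
    have h' : (ℓ : ℤ) ∣ 2 := (hdvd 2).mp (by exact_mod_cast h)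
    have h'' : ℓ ∣ 2 := by exact_mod_cast h'
    exact h2 ((Nat.prime_dvd_prime_iff_eq hℓ Nat.prime_two).mp h'')
  have h3' : (3 : ZMod ℓ) ≠ 0 := by
    intro h
    have h' : (ℓ : ℤ) ∣ 3 := (hdvd 3).mp (by exact_mod_cast h)
    have h'' : ℓ ∣ 3 := by exact_mod_cast h'
    exact h3 ((Nat.prime_dvd_prime_iff_eq hℓ Nat.prime_three).mp h'')
  have h6' : (6 : ZMod ℓ) ≠ 0 := by
    have : (6 : ZMod ℓ) = 2 * 3 := by norm_num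
    rw [this]; exact mul_ne_zero h2' h3'
  have h44 : (4 : ZMod ℓ) ≠ 0 := by
    have : (4 : ZMod ℓ) = 2 * 2 := by norm_num
    rw [this]; exact mul_ne_zero h2' h2'
  have hab : (W.c₄ : ZMod ℓ) ^ 3 - (W.c₆ : ZMod ℓ) ^ 2 ≠ 0 := by
    have hrel : ((1728 * W.Δ : ℤ) : ZMod ℓ) = (W.c₄ : ZMod ℓ) ^ 3 - (W.c₆ : ZMod ℓ) ^ 2 := by
      have := congrArg (Int.cast : ℤ → ZMod ℓ) W.c_relation
      push_cast at this ⊢
      exact this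
    rw [← hrel]
    push_cast
    refine mul_ne_zero ?_ (fun h => hg ((hdvd _).mp h))
    have : (1728 : ZMod ℓ) = 2 ^ 6 * 3 ^ 3 := by norm_num
    rw [this]; exact mul_ne_zero (pow_ne_zero _ h2') (pow_ne_zero _ h3')
  have hD' : hD (W.c₄ : ZMod ℓ) (W.c₆ : ZMod ℓ) (4 * X + W.b₂ * Y) Y ≠ 0 := by
    rw [← P_cast]
    refine mul_ne_zero ?_ (fun h => hg' ?_)
    · have : (256 : ZMod ℓ) = 2 ^ 8 := by norm_num
      rw [this]; exact pow_ne_zero _ h2'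
    · rw [hΔ]
      exact Dvd.dvd.mul_left (((hdvd _).mp h).pow (by norm_num)) _
  have key := hB ℓ (W.c₄ : ZMod ℓ) (W.c₆ : ZMod ℓ) (4 * X + W.b₂ * Y) Y h6' hab hD'
  have e1 : (W.reductionMod ℓ).c₄ = (W.c₄ : ZMod ℓ) := by
    unfold WeierstrassCurve.reductionMod
    rw [WeierstrassCurve.map_c₄]; simp
  have e2 : (W.reductionMod ℓ).c₆ = (W.c₆ : ZMod ℓ) := by
    unfold WeierstrassCurve.reductionMod
    rw [WeierstrassCurve.map_c₆]; simp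
  have e3 : (W'.reductionMod ℓ).c₄ = ((C4 W X Y : ℤ) : ZMod ℓ) := by
    unfold WeierstrassCurve.reductionMod
    rw [WeierstrassCurve.map_c₄, h4]; simp
  have e4 : (W'.reductionMod ℓ).c₆ = ((C6 W X Y : ℤ) : ZMod ℓ) := by
    unfold WeierstrassCurve.reductionMod
    rw [WeierstrassCurve.map_c₆, h6]; simp
  have g4 := C4_cast W ℓ X Y
  have g6 : (4096 : ZMod ℓ) * ((C6 W X Y : ℤ) : ZMod ℓ) =
      hC6 (W.c₄ : ZMod ℓ) (W.c₆ : ZMod ℓ) (4 * X + W.b₂ * Y) Y := by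
    have := congrArg (Int.cast : ℤ → ZMod ℓ) (C6_eq W X Y)
    unfold hC6 at this ⊢
    push_cast at this
    exact this
  have f1 := card_short h6' (W.reductionMod ℓ)
  have f2 := card_short_scale h6' (W'.reductionMod ℓ) 4 h44
  rw [e1, e2] at f1
  have k4 : (4 : ZMod ℓ) ^ 4 = 256 := by norm_num
  have k6 : (4 : ZMod ℓ) ^ 6 = 4096 := by norm_num
  rw [e3, e4, k4, k6, g4, g6] at f2
  rw [f1, f2] at key
  unfold WeierstrassCurve.apOfModel WeierstrassCurve.traceOfFrobenius WeierstrassCurve.card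
  have e : ((Nat.card (ZMod ℓ) : ℤ) + 1 - (Nat.card (W'.reductionMod ℓ).toAffine.Point : ℤ)) -
      ((Nat.card (ZMod ℓ) : ℤ) + 1 - (Nat.card (W.reductionMod ℓ).toAffine.Point : ℤ)) =
      -((Nat.card (W'.reductionMod ℓ).toAffine.Point : ℤ) -
        (Nat.card (W.reductionMod ℓ).toAffine.Point : ℤ)) := by ring
  rw [e]
  exact (dvd_neg).mpr key

/-- **M1**: the choice of `E'`, without new bad reduction at the primes of `T`. -/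
theorem exists_partner_of' (sieve : Sieve) (hB : Congr3) (W : WeierstrassCurve ℤ) (hΔ : W.Δ ≠ 0)
    (hW : W.IsSemistableModel) (h2 : (2 : ℤ) ∣ W.Δ) (n : ℕ) (hn : 0 < n) (T : Finset ℕ)
    (hT : ∀ p ∈ T, p.Prime) :
    ∃ W' : WeierstrassCurve ℤ, W'.Δ < 0 ∧ W'.IsSemistableModel ∧ (2 : ℤ) ∣ W'.Δ ∧
      (∀ ℓ : ℕ, ℓ.Prime → (ℓ : ℤ) ∣ W'.Δ → Odd (padicValInt ℓ W'.Δ)) ∧
      (∃ r : ℕ, r.Prime ∧ (n : ℤ) ∣ (r : ℤ) - 1 ∧ (r : ℤ) ∣ W'.Δ) ∧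
      (∃ r : ℕ, r.Prime ∧ (n : ℤ) ∣ (r : ℤ) + 1 ∧ (r : ℤ) ∣ W'.Δ) ∧
      (∀ ℓ ∈ T, (ℓ : ℤ) ∣ W'.Δ → (ℓ : ℤ) ∣ W.Δ) ∧
      ∀ ℓ : ℕ, ℓ.Prime → W.IsGoodPrimeFor ℓ → W'.IsGoodPrimeFor ℓ → ℓ ≠ 3 →
        (3 : ℤ) ∣ (W'.apOfModel ℓ - W.apOfModel ℓ) := by
  classical
  let B : Finset ℕ := (6 * W.Δ).natAbs.primeFactors ∪ T
  have hB' : ∀ r : ℕ, r.Prime → r ∉ B → r ≠ 2 ∧ r ≠ 3 ∧ ¬ (r : ℤ) ∣ W.Δ ∧ r ∉ T := by
    intro r hr hrB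
    rw [Finset.mem_union, not_or] at hrB
    have h6 : ¬ (r : ℤ) ∣ 6 * W.Δ := by
      intro h
      exact hrB.1 (Nat.mem_primeFactors.mpr ⟨hr, Int.natCast_dvd.mp h, by
        rw [Int.natAbs_ne_zero]; exact mul_ne_zero (by norm_num) hΔ⟩)
    refine ⟨?_, ?_, fun h => h6 (h.mul_left _), hrB.2⟩
    · rintro rfl
      exact h6 ⟨3 * W.Δ, by push_cast; ring⟩
    · rintro rfl
      exact h6 ⟨2 * W.Δ, by push_cast; ring⟩
  obtain ⟨r, hr, hrB, hrn, l, hl⟩ := exists_prime_one W.c₄ W.c₆ n hn B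
  obtain ⟨r', hr', hrB', hrn', l', hl'⟩ := exists_prime_neg_one W.c₄ W.c₆ n hn B
  obtain ⟨X, Y, W', e4, e6, eΔ, hneg, hss, htwo, hodd, hR, hTT⟩ :=
    exists_curve_gen W sieve hΔ hW h2 {r, r'} (by
      intro q hq
      rcases Finset.mem_insert.mp hq with rfl | hq
      · obtain ⟨h3, h4, h5, -⟩ := hB' q hr hrB
        exact ⟨hr, h3, h4, h5, l, hl⟩
      · rw [Finset.mem_singleton] at hq
        subst hq
        obtain ⟨h3, h4, h5, -⟩ := hB' q hr' hrB'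
        exact ⟨hr', h3, h4, h5, l', hl'⟩) T hT
  refine ⟨W', hneg, hss, htwo, hodd, ⟨r, hr, hrn, hR r (Finset.mem_insert_self _ _)⟩,
    ⟨r', hr', hrn', hR r' (Finset.mem_insert_of_mem (Finset.mem_singleton_self _))⟩, ?_, ?_⟩
  · intro ℓ hℓ h
    refine hTT ℓ hℓ ?_ h
    intro hR
    rcases Finset.mem_insert.mp hR with rfl | hq
    · exact (hB' ℓ hr hrB).2.2.2 hℓ
    · rw [Finset.mem_singleton] at hq
      subst hq
      exact (hB' ℓ hr' hrB').2.2.2 hℓ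
  intro ℓ hℓ hg hg' hℓ3
  refine congr_ap hB W W' X Y e4 e6 eΔ hℓ ?_ hℓ3 hg hg'
  rintro rfl
  exact hg (by exact_mod_cast h2)

/-- **M1**: the choice of `E'`. -/
theorem exists_partner_of (sieve : Sieve) (hB : Congr3) (W : WeierstrassCurve ℤ) (hΔ : W.Δ ≠ 0)
    (hW : W.IsSemistableModel) (h2 : (2 : ℤ) ∣ W.Δ) (n : ℕ) (hn : 0 < n) :
    ∃ W' : WeierstrassCurve ℤ, W'.Δ < 0 ∧ W'.IsSemistableModel ∧ (2 : ℤ) ∣ W'.Δ ∧
      (∀ ℓ : ℕ, ℓ.Prime → (ℓ : ℤ) ∣ W'.Δ → Odd (padicValInt ℓ W'.Δ)) ∧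
      (∃ r : ℕ, r.Prime ∧ (n : ℤ) ∣ (r : ℤ) - 1 ∧ (r : ℤ) ∣ W'.Δ) ∧
      (∃ r : ℕ, r.Prime ∧ (n : ℤ) ∣ (r : ℤ) + 1 ∧ (r : ℤ) ∣ W'.Δ) ∧
      ∀ ℓ : ℕ, ℓ.Prime → W.IsGoodPrimeFor ℓ → W'.IsGoodPrimeFor ℓ → ℓ ≠ 3 →
        (3 : ℤ) ∣ (W'.apOfModel ℓ - W.apOfModel ℓ) := by
  obtain ⟨W', h1, h3, h4, h5, h6, h7, -, h8⟩ := exists_partner_of' sieve hB W hΔ hW h2 n hn ∅
    (fun p hp => absurd hp (Finset.notMem_empty p))
  exact ⟨W', h1, h3, h4, h5, h6, h7, h8⟩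

end Fermat.Agent.H3LT
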