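import Fermat.Agent.H52Par

/-!
# The explicit 5-torsion points and the icosahedral action
-/

set_option autoImplicit false

open WeierstrassCurve Fermat.Agent.H98

namespace Fermat.Agent.H52

section Ring

variable {R : Type*} [CommRing R]

theorem k4_mul (κ u v : R) (hκ : κ ^ 5 = 1) : k4 (κ * u) (κ * v) = k4 u v := by
  rw [k4_eq, k4_eq, mul_pow, mul_pow, hκ, one_mul, one_mul]

theorem k6_mul (κ u v : R) (hκ : κ ^ 5 = 1) : k6 (κ * u) (κ * v) = k6 u v := by
  rw [k6_eq, k6_eq, mul_pow, mul_pow, hκ, one_mul, one_mul]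

theorem k4_T (κ u v : R) (hκ : κ ^ 5 = 1) : k4 (κ * u) v = k4 u v := by
  rw [k4_eq, k4_eq, mul_pow, hκ, one_mul]

theorem k6_T (κ u v : R) (hκ : κ ^ 5 = 1) : k6 (κ * u) v = k6 u v := by
  rw [k6_eq, k6_eq, mul_pow, hκ, one_mul]

theorem kal_mul (κ u v : R) (hκ : κ ^ 5 = 1) : kal (κ * u) (κ * v) = kal u v := by
  have : kal (κ * u) (κ * v) = κ ^ 5 * kal u v := by unfold kal; ring
  rw [this, hκ, one_mul]

theorem kbe_mul (κ u v : R) (hκ : κ ^ 5 = 1) : kbe (κ * u) (κ * v) = kbe u v := by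
  have : kbe (κ * u) (κ * v) = κ ^ 5 * kbe u v := by unfold kbe; ring
  rw [this, hκ, one_mul]

theorem kal_neg (u v : R) : kal (-u) (-v) = -kal u v := by unfold kal; ring
theorem kbe_neg (u v : R) : kbe (-u) (-v) = -kbe u v := by unfold kbe; ring

def sU (ζ i u v : R) : R := i * xS ζ u v
def sV (ζ i u v : R) : R := i * yS ζ u v

theorem sU_mul (ζ i κ u v : R) : sU ζ i (κ * u) (κ * v) = κ * sU ζ i u v := by
  unfold sU xS; ring
theorem sV_mul (ζ i κ u v : R) : sV ζ i (κ * u) (κ * v) = κ * sV ζ i u v := by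
  unfold sV yS; ring

variable {ζ i : R} (hζ : ζ ^ 4 + ζ ^ 3 + ζ ^ 2 + ζ + 1 = 0) (hi : 5 * i = 1)

include hζ in
theorem zeta_pow : ζ ^ 5 = 1 := by linear_combination (ζ - 1) * hζ

include hζ hi in
theorem kal_S (u v : R) : kal (sU ζ i u v) (sV ζ i u v) = i * zA ζ (u ^ 5) (v ^ 5) := by
  have h := al_S ζ u v hζ
  have : kal (sU ζ i u v) (sV ζ i u v) = i ^ 5 * kal (xS ζ u v) (yS ζ u v) := by
    unfold kal sU sV; ring
  rw [this, h]
  linear_combination (zA ζ (u ^ 5) (v ^ 5) * i * (125 * i ^ 3 + 25 * i ^ 2 + 5 * i + 1)) * hi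

include hζ hi in
theorem kbe_S (u v : R) : kbe (sU ζ i u v) (sV ζ i u v) = i * zB ζ (u ^ 5) (v ^ 5) := by
  have h := be_S ζ u v hζ
  have : kbe (sU ζ i u v) (sV ζ i u v) = i ^ 5 * kbe (xS ζ u v) (yS ζ u v) := by
    unfold kbe sU sV; ring
  rw [this, h]
  linear_combination (zB ζ (u ^ 5) (v ^ 5) * i * (125 * i ^ 3 + 25 * i ^ 2 + 5 * i + 1)) * hi

include hζ hi in
theorem k4_S (u v : R) : k4 (sU ζ i u v) (sV ζ i u v) = k4 u v := by
  rw [← t4_k, kal_S hζ hi, kbe_S hζ hi]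
  have h := t4_z ζ (u ^ 5) (v ^ 5) hζ
  have : t4 (i * zA ζ (u ^ 5) (v ^ 5)) (i * zB ζ (u ^ 5) (v ^ 5))
      = i ^ 4 * t4 (zA ζ (u ^ 5) (v ^ 5)) (zB ζ (u ^ 5) (v ^ 5)) := by unfold t4; ring
  rw [this, h, k4_eq]
  linear_combination (q4 (u ^ 5) (v ^ 5) * (125 * i ^ 3 + 25 * i ^ 2 + 5 * i + 1)) * hi

include hζ hi in
theorem k6_S (u v : R) : k6 (sU ζ i u v) (sV ζ i u v) = k6 u v := by
  rw [← t6_k, kal_S hζ hi, kbe_S hζ hi]
  have h := t6_z ζ (u ^ 5) (v ^ 5) hζ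
  have : t6 (i * zA ζ (u ^ 5) (v ^ 5)) (i * zB ζ (u ^ 5) (v ^ 5))
      = i ^ 6 * t6 (zA ζ (u ^ 5) (v ^ 5)) (zB ζ (u ^ 5) (v ^ 5)) := by unfold t6; ring
  rw [this, h, k6_eq]
  linear_combination (q6 (u ^ 5) (v ^ 5) *
    (3125 * i ^ 5 + 625 * i ^ 4 + 125 * i ^ 3 + 25 * i ^ 2 + 5 * i + 1)) * hi

include hi in
theorem pow10_i : i ^ 11 * 9765625 = i := by
  have : i ^ 11 * 9765625 = i * (5 * i) ^ 10 := by ring
  rw [this, hi]; ring

include hζ hi in
theorem wu_S (u v m : R) :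
    wu (sU ζ i u v) (sV ζ i u v) m = sU ζ i (wu u v m) (wv u v m) := by
  have h := Dv_S ζ u v hζ
  have e : kDv (sU ζ i u v) (sV ζ i u v) = i ^ 11 * kDv (xS ζ u v) (yS ζ u v) := by
    unfold kDv sU sV; ring
  have h' := pow10_i hi
  unfold wu
  rw [e]
  unfold sU xS wv
  have h'' : kDv (xS ζ u v) (yS ζ u v) = -(9765625 * (-sS1 ζ * kDv u v + sS2 ζ * kDu u v)) := by
    linear_combination -h
  unfold xS at h''
  rw [h'']
  linear_combination (m * (-sS1 ζ * kDv u v + sS2 ζ * kDu u v)) * h'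

include hζ hi in
theorem wv_S (u v m : R) :
    wv (sU ζ i u v) (sV ζ i u v) m = sV ζ i (wu u v m) (wv u v m) := by
  have h := Du_S ζ u v hζ
  have e : kDu (sU ζ i u v) (sV ζ i u v) = i ^ 11 * kDu (xS ζ u v) (yS ζ u v) := by
    unfold kDu sU sV; ring
  have h' := pow10_i hi
  unfold wv
  rw [e, h]
  unfold sV yS wu
  linear_combination (m * (-sS2 ζ * kDv u v - sS1 ζ * kDu u v)) * h'

theorem wu_T (κ u v m : R) (hκ : κ ^ 5 = 1) : wu (κ * u) v m = κ * wu u v m := by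
  unfold wu
  rw [kDv_eq, kDv_eq, mul_pow, hκ]; ring_nf

theorem wv_T (κ u v m : R) (hκ : κ ^ 5 = 1) : wv (κ * u) v m = wv u v m := by
  unfold wv
  rw [kDu_eq, kDu_eq, mul_pow, hκ, one_mul]

theorem wu_mul (κ u v m : R) (hκ : κ ^ 5 = 1) : wu (κ * u) (κ * v) m = κ * wu u v m := by
  unfold wu
  rw [kDv_eq, kDv_eq, mul_pow, mul_pow, hκ]; ring_nf

theorem wv_mul (κ u v m : R) (hκ : κ ^ 5 = 1) : wv (κ * u) (κ * v) m = κ * wv u v m := by
  unfold wv
  rw [kDu_eq, kDu_eq, mul_pow, mul_pow, hκ]; ring_nf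

include hζ hi in
theorem sU_sU (u v : R) : sU ζ i (sU ζ i u v) (sV ζ i u v) = -u := by
  have h := sq_s ζ hζ
  unfold sU sV xS yS
  linear_combination (i ^ 2 * u) * h - (u * (5 * i + 1)) * hi

include hζ hi in
theorem sV_sV (u v : R) : sV ζ i (sU ζ i u v) (sV ζ i u v) = -v := by
  have h := sq_s ζ hζ
  unfold sU sV xS yS
  linear_combination (i ^ 2 * v) * h - (v * (5 * i + 1)) * hi

include hζ in
theorem kal_S_T (hi : 5 * i = 1) (u v : R) :
    kal (sU ζ i (ζ * u) v) (sV ζ i (ζ * u) v) = kal (sU ζ i u v) (sV ζ i u v) := by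
  rw [kal_S hζ hi, kal_S hζ hi, mul_pow, zeta_pow hζ, one_mul]

include hζ in
theorem kbe_S_T (hi : 5 * i = 1) (u v : R) :
    kbe (sU ζ i (ζ * u) v) (sV ζ i (ζ * u) v) = kbe (sU ζ i u v) (sV ζ i u v) := by
  rw [kbe_S hζ hi, kbe_S hζ hi, mul_pow, zeta_pow hζ, one_mul]

/-- Tate's discriminant. -/
theorem t_syzygy (x y : R) :
    t4 x y ^ 3 - t6 x y ^ 2 = 1728 * (x ^ 5 * y ^ 5 * (x ^ 2 - 11 * x * y - y ^ 2)) := by
  unfold t4 t6; ring

end Ring

section Points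

variable {K : Type*} [Field K] [DecidableEq K]

/-- the point with coordinates `x, y` (junk value `0` if not on the curve) -/
noncomputable def pt (W : WeierstrassCurve K) (x y : K) : W.toAffine.Point := by
  classical exact if h : W.toAffine.Nonsingular x y then .some x y h else 0

omit [DecidableEq K] in
theorem pt_eq {W : WeierstrassCurve K} {x y : K} (h : W.toAffine.Nonsingular x y) :
    pt W x y = .some x y h := by
  unfold pt; rw [dif_pos h]

/-- the 5-torsion point attached to Tate parameters -/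
noncomputable def tpt (W : WeierstrassCurve K) (x y : K) : W.toAffine.Point :=
  pt W (3 * (x ^ 2 - 6 * x * y + y ^ 2)) (-108 * x * y ^ 2)

theorem add_of {a b : K} {x1 y1 x2 y2 x3 y3 L : K}
    (h1 : (short a b).toAffine.Nonsingular x1 y1) (h2 : (short a b).toAffine.Nonsingular x2 y2)
    (h3 : (short a b).toAffine.Nonsingular x3 y3)
    (hL : y2 - y1 = L * (x2 - x1))
    (hT : x1 = x2 → y1 + y2 ≠ 0 ∧ 2 * y1 * L = 3 * x1 ^ 2 - 27 * a)
    (e1 : x3 = L ^ 2 - x1 - x2) (e2 : y3 = -(y1 + L * (x3 - x1))) :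
    Affine.Point.some x1 y1 h1 + Affine.Point.some x2 y2 h2 = Affine.Point.some x3 y3 h3 := by
  have ha1 : (short a b).a₁ = 0 := rfl
  have ha2 : (short a b).a₂ = 0 := rfl
  have ha3 : (short a b).a₃ = 0 := rfl
  have ha4 : (short a b).a₄ = -27 * a := rfl
  have hneg : ∀ x y : K, (short a b).toAffine.negY x y = -y := by
    intro x y; unfold Affine.negY; rw [ha1, ha3]; ring
  have hxy : ¬(x1 = x2 ∧ y1 = (short a b).toAffine.negY x2 y2) := by
    rintro ⟨hx, hy⟩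
    rw [hneg] at hy
    exact (hT hx).1 (by rw [hy]; ring)
  rw [Affine.Point.add_some hxy]
  have hslope : (short a b).toAffine.slope x1 x2 y1 y2 = L := by
    by_cases hx : x1 = x2
    · have hy : y1 ≠ (short a b).toAffine.negY x2 y2 := fun h => hxy ⟨hx, h⟩
      have hyy : y2 = y1 := by
        rw [hx, sub_self, mul_zero] at hL
        linear_combination hL
      obtain ⟨hs, ht⟩ := hT hx
      rw [Affine.slope_of_Y_ne hx hy, hneg, ha1, ha2, ha4]
      have : y1 - -y1 ≠ 0 := by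
        rw [hyy] at hs
        intro h; apply hs; linear_combination h
      rw [div_eq_iff this]
      linear_combination -ht
    · rw [Affine.slope_of_X_ne hx, div_eq_iff (sub_ne_zero.mpr hx)]
      linear_combination -hL
  rw [Affine.Point.some.injEq, hslope]
  have hX : (short a b).toAffine.addX x1 x2 L = x3 := by
    unfold Affine.addX; rw [ha1, ha2, e1]; ring
  refine ⟨hX, ?_⟩
  unfold Affine.addY
  rw [hX, hneg]
  unfold Affine.negAddY
  rw [hX, e2]; ring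

variable (h2 : (2 : K) ≠ 0) (h3 : (3 : K) ≠ 0)

omit [DecidableEq K] in
include h2 h3 in
theorem short_nonsing {a b x y : K} (hab : a ^ 3 - b ^ 2 ≠ 0)
    (h : y ^ 2 = x ^ 3 - 27 * a * x - 54 * b) : (short a b).toAffine.Nonsingular x y := by
  have hΔ : (short a b).toAffine.Δ ≠ 0 := by
    rw [show (short a b).toAffine.Δ = (short a b).Δ from rfl, short_Δ]
    exact mul_ne_zero (mul_ne_zero (pow_ne_zero _ h2) (pow_ne_zero _ h3)) hab
  rw [← Affine.equation_iff_nonsingular_of_Δ_ne_zero hΔ, Affine.equation_iff]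
  change y ^ 2 + 0 * x * y + 0 * y = x ^ 3 + 0 * x ^ 2 + (-27 * a) * x + (-54 * b)
  linear_combination h

omit [DecidableEq K] in
include h2 h3 in
theorem tpt_nonsing {a b x y : K} (hab : a ^ 3 - b ^ 2 ≠ 0) (h4 : t4 x y = a) (h6 : t6 x y = b) :
    (short a b).toAffine.Nonsingular (3 * (x ^ 2 - 6 * x * y + y ^ 2)) (-108 * x * y ^ 2) := by
  apply short_nonsing h2 h3 hab
  rw [← h4, ← h6]
  unfold t4 t6
  ring

omit [DecidableEq K] in
include h2 h3 in
theorem tate_ne_zero {a b x y : K} (hab : a ^ 3 - b ^ 2 ≠ 0) (h4 : t4 x y = a) (h6 : t6 x y = b) :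
    x ≠ 0 ∧ y ≠ 0 := by
  have h := t_syzygy x y
  rw [h4, h6] at h
  constructor
  · rintro rfl
    apply hab; rw [h]; ring
  · rintro rfl
    apply hab; rw [h]; ring

omit [DecidableEq K] in
include h2 h3 in
theorem tpt_ne_zero {a b x y : K} (hab : a ^ 3 - b ^ 2 ≠ 0) (h4 : t4 x y = a) (h6 : t6 x y = b) :
    tpt (short a b) x y ≠ 0 := by
  unfold tpt
  rw [pt_eq (tpt_nonsing h2 h3 hab h4 h6)]
  exact Affine.Point.some_ne_zero _

omit [DecidableEq K] in
theorem t4_neg (x y : K) : t4 (-x) (-y) = t4 x y := by unfold t4; ring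
omit [DecidableEq K] in
theorem t6_neg (x y : K) : t6 (-x) (-y) = t6 x y := by unfold t6; ring
omit [DecidableEq K] in
theorem t4_rot (x y : K) : t4 (-y) x = t4 x y := by unfold t4; ring
omit [DecidableEq K] in
theorem t6_rot (x y : K) : t6 (-y) x = t6 x y := by unfold t6; ring

include h2 h3 in
theorem tpt_dbl {a b x y : K} (hab : a ^ 3 - b ^ 2 ≠ 0) (h4 : t4 x y = a) (h6 : t6 x y = b) :
    tpt (short a b) x y + tpt (short a b) x y = tpt (short a b) (-y) x := by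
  have hx := tate_ne_zero h2 h3 hab h4 h6
  have n1 := tpt_nonsing h2 h3 hab h4 h6
  have n2 := tpt_nonsing h2 h3 hab ((t4_rot x y).trans h4) ((t6_rot x y).trans h6)
  unfold tpt
  rw [pt_eq n1, pt_eq n2]
  refine add_of (L := 3 * (y - x)) n1 n1 n2 (by ring) (fun _ => ⟨?_, ?_⟩) (by ring) (by ring)
  · have e : -108 * x * y ^ 2 + -108 * x * y ^ 2 = -(2 ^ 3 * 3 ^ 3) * (x * y ^ 2) := by ring
    rw [e]
    exact mul_ne_zero (neg_ne_zero.mpr (mul_ne_zero (pow_ne_zero _ h2) (pow_ne_zero _ h3)))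
      (mul_ne_zero hx.1 (pow_ne_zero _ hx.2))
  · rw [← h4]; unfold t4; ring

include h2 h3 in
theorem tpt_neg {a b x y : K} (hab : a ^ 3 - b ^ 2 ≠ 0) (h4 : t4 x y = a) (h6 : t6 x y = b) :
    tpt (short a b) (-x) (-y) = -tpt (short a b) x y := by
  have n1 := tpt_nonsing h2 h3 hab h4 h6
  have n2 := tpt_nonsing h2 h3 hab ((t4_neg x y).trans h4) ((t6_neg x y).trans h6)
  unfold tpt
  rw [pt_eq n1, pt_eq n2, Affine.Point.neg_some, Affine.Point.some.injEq]
  refine ⟨by ring, ?_⟩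
  change _ = -(-108 * x * y ^ 2) - 0 * _ - 0
  ring

include h2 h3 in
theorem tpt_five {a b x y : K} (hab : a ^ 3 - b ^ 2 ≠ 0) (h4 : t4 x y = a) (h6 : t6 x y = b) :
    (5 : ℤ) • tpt (short a b) x y = 0 := by
  have d1 := tpt_dbl h2 h3 hab h4 h6
  have d2 := tpt_dbl h2 h3 hab ((t4_rot x y).trans h4) ((t6_rot x y).trans h6)
  have d3 := tpt_neg h2 h3 hab h4 h6
  rw [d3, ← d1] at d2
  have : (5 : ℤ) • tpt (short a b) x y = (tpt (short a b) x y + tpt (short a b) x y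
      + (tpt (short a b) x y + tpt (short a b) x y)) + tpt (short a b) x y := by abel
  rw [this, d2]; abel

include h2 h3 in
theorem tpt_inj {a b x y x' y' : K} (hab : a ^ 3 - b ^ 2 ≠ 0) (h4 : t4 x y = a) (h6 : t6 x y = b)
    (h4' : t4 x' y' = a) (h6' : t6 x' y' = b) (h : tpt (short a b) x y = tpt (short a b) x' y') :
    x = x' ∧ y = y' := by
  have hd : tpt (short a b) (-y) x = tpt (short a b) (-y') x' := by
    rw [← tpt_dbl h2 h3 hab h4 h6, ← tpt_dbl h2 h3 hab h4' h6', h]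
  have n1 := tpt_nonsing h2 h3 hab h4 h6
  have n2 := tpt_nonsing h2 h3 hab ((t4_rot x y).trans h4) ((t6_rot x y).trans h6)
  have n1' := tpt_nonsing h2 h3 hab h4' h6'
  have n2' := tpt_nonsing h2 h3 hab ((t4_rot x' y').trans h4') ((t6_rot x' y').trans h6')
  unfold tpt at h hd
  rw [pt_eq n1, pt_eq n1', Affine.Point.some.injEq] at h
  rw [pt_eq n2, pt_eq n2', Affine.Point.some.injEq] at hd
  obtain ⟨hx, hy⟩ := h
  obtain ⟨hx', -⟩ := hd
  have hxy : x * y = x' * y' := by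
    have h36 : (36 : K) ≠ 0 := by
      have : (36 : K) = 2 ^ 2 * 3 ^ 2 := by norm_num
      rw [this]; exact mul_ne_zero (pow_ne_zero _ h2) (pow_ne_zero _ h3)
    apply mul_left_cancel₀ h36
    linear_combination hx' - hx
  have hxyy : x * y ^ 2 = x' * y' ^ 2 := by
    have h108 : (108 : K) ≠ 0 := by
      have : (108 : K) = 2 ^ 2 * 3 ^ 3 := by norm_num
      rw [this]; exact mul_ne_zero (pow_ne_zero _ h2) (pow_ne_zero _ h3)
    apply mul_left_cancel₀ h108
    linear_combination -hy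
  have hne := tate_ne_zero h2 h3 hab h4 h6
  have hyy : y = y' := by
    apply mul_left_cancel₀ (mul_ne_zero hne.1 hne.2)
    linear_combination hxyy - y' * hxy
  refine ⟨?_, hyy⟩
  rw [← hyy] at hxy
  exact mul_right_cancel₀ hne.2 hxy

end Points

end Fermat.Agent.H52
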