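import Mathlib

set_option autoImplicit false

open WeierstrassCurve Polynomial

namespace Fermat.Agent.H51

variable {K : Type*} [Field K] (W : WeierstrassCurve K)

/-- `4x³+b₂x²+2b₄x+b₆`. -/
def g (x : K) : K := 4 * x ^ 3 + W.b₂ * x ^ 2 + 2 * W.b₄ * x + W.b₆

/-- `x⁴-b₄x²-2b₆x-b₈`. -/
def F (x : K) : K := x ^ 4 - W.b₄ * x ^ 2 - 2 * W.b₆ * x - W.b₈

/-- `3x⁴+b₂x³+3b₄x²+3b₆x+b₈`. -/
def psi3 (x : K) : K := 3 * x ^ 4 + W.b₂ * x ^ 3 + 3 * W.b₄ * x ^ 2 + 3 * W.b₆ * x + W.b₈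

theorem x_mul_g_sub_F (x : K) : x * g W x - F W x = psi3 W x := by
  simp only [g, F, psi3]; ring

def B2 (x : K) : K := W.b₂ + 12 * x
def B4 (x : K) : K := 6 * x ^ 2 + W.b₂ * x + W.b₄

theorem rel_shift (x : K) : 4 * psi3 W x = B2 W x * g W x - B4 W x ^ 2 := by
  have := W.b_relation
  simp only [g, psi3, B2, B4]
  linear_combination this

theorem Δ_shift (x : K) : W.Δ = -B2 W x ^ 2 * psi3 W x - 8 * B4 W x ^ 3 - 27 * g W x ^ 2 +
    9 * B2 W x * B4 W x * g W x := by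
  simp only [g, psi3, B2, B4, WeierstrassCurve.Δ, WeierstrassCurve.b₂, WeierstrassCurve.b₄,
    WeierstrassCurve.b₆, WeierstrassCurve.b₈]
  ring

theorem Δ_eq_zero_of {x : K} (h1 : g W x = 0) (h2 : psi3 W x = 0) : W.Δ = 0 := by
  have h3 := rel_shift W x
  rw [h1, h2] at h3
  have h4 : B4 W x = 0 := by
    have : B4 W x ^ 2 = 0 := by linear_combination h3
    exact pow_eq_zero_iff (two_ne_zero) |>.mp this
  rw [Δ_shift W x, h1, h2, h4]; ring

theorem sq_sub_negY {x y : K} (h : W.toAffine.Equation x y) :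
    (y - W.toAffine.negY x y) ^ 2 = g W x := by
  rw [Affine.equation_iff] at h
  simp only [g, Affine.negY, WeierstrassCurve.b₂, WeierstrassCurve.b₄, WeierstrassCurve.b₆]
  linear_combination 4 * h

theorem addX_self {x y : K} [DecidableEq K] (h : W.toAffine.Equation x y)
    (hy : y ≠ W.toAffine.negY x y) :
    W.toAffine.addX x x (W.toAffine.slope x x y y) * g W x = F W x := by
  have hy' : y - W.toAffine.negY x y ≠ 0 := sub_ne_zero.mpr hy
  have h1 := sq_sub_negY W h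
  rw [Affine.equation_iff] at h
  have h2 : W.toAffine.negY x y = -y - W.a₁ * x - W.a₃ := rfl
  rw [Affine.slope_of_Y_ne rfl hy, Affine.addX, ← h1]
  set D := y - W.toAffine.negY x y with hD
  have hD' : D = 2 * y + W.a₁ * x + W.a₃ := by rw [hD, h2]; ring
  have h3 : ((( 3 * x ^ 2 + 2 * W.a₂ * x + W.a₄ - W.a₁ * y) / D) ^ 2 +
      W.a₁ * ((3 * x ^ 2 + 2 * W.a₂ * x + W.a₄ - W.a₁ * y) / D) - W.a₂ - x - x) * D ^ 2 =
      (3 * x ^ 2 + 2 * W.a₂ * x + W.a₄ - W.a₁ * y) ^ 2 +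
      W.a₁ * (3 * x ^ 2 + 2 * W.a₂ * x + W.a₄ - W.a₁ * y) * D - (W.a₂ + 2 * x) * D ^ 2 := by
    field_simp
    ring
  rw [h3, hD']
  simp only [F, WeierstrassCurve.b₄, WeierstrassCurve.b₆, WeierstrassCurve.b₈]
  linear_combination (-(W.a₁ ^ 2 + 4 * W.a₂ + 8 * x)) * h

end Fermat.Agent.H51
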