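import Mathlib
import Fermat.Agent.H51Dup

set_option autoImplicit false

open WeierstrassCurve Polynomial

namespace Fermat.Agent.H51

variable {K : Type*} [Field K] (W : WeierstrassCurve K)

theorem exists_nonsingular [IsAlgClosed K] (hΔ : W.Δ ≠ 0) (x : K) :
    ∃ y, W.toAffine.Nonsingular x y := by
  obtain ⟨y, hy⟩ := IsAlgClosed.exists_root
    (X ^ 2 + C (W.a₁ * x + W.a₃) * X - C (x ^ 3 + W.a₂ * x ^ 2 + W.a₄ * x + W.a₆) : K[X])
    (by
      have : (X ^ 2 + C (W.a₁ * x + W.a₃) * X - C (x ^ 3 + W.a₂ * x ^ 2 + W.a₄ * x + W.a₆) :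
          K[X]).degree = 2 := by compute_degree!
      rw [this]; norm_num)
  refine ⟨y, (W.toAffine.equation_iff_nonsingular_of_Δ_ne_zero hΔ).mp
    ((W.toAffine.equation_iff x y).mpr ?_)⟩
  simp only [IsRoot.def, eval_sub, eval_add, eval_pow, eval_X, eval_mul, eval_C] at hy
  linear_combination hy

def psi5 (x : K) : K := g W x ^ 2 * (B4 W x * psi3 W x - g W x ^ 2) - psi3 W x ^ 3

theorem eval_Psi3 (x : K) : (W.Ψ₃).eval x = psi3 W x := by
  simp [WeierstrassCurve.Ψ₃, psi3]

theorem eval_preΨ'_five (x : K) : (W.preΨ' 5).eval x = psi5 W x := by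
  rw [show (5 : ℕ) = 2 * (0 + 2) + 1 by rfl, WeierstrassCurve.preΨ'_odd]
  simp only [zero_add, WeierstrassCurve.preΨ'_four, WeierstrassCurve.preΨ'_two,
    WeierstrassCurve.preΨ'_one, WeierstrassCurve.preΨ'_three, if_pos Even.zero, eval_sub, eval_mul,
    eval_pow, eval_one, eval_Psi3, one_pow, mul_one, one_mul]
  have h1 : (W.Ψ₂Sq).eval x = g W x := by simp [WeierstrassCurve.Ψ₂Sq, g]
  have h2 : (W.preΨ₄).eval x = B4 W x * psi3 W x - g W x ^ 2 := by
    have := W.b_relation
    simp only [WeierstrassCurve.preΨ₄, B4, psi3, g, eval_add, eval_mul, eval_C, eval_X, eval_pow,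
      eval_sub, eval_ofNat]
    linear_combination x ^ 2 * this
  rw [h1, h2, psi5]
  ring

section points

variable [DecidableEq K]

theorem g_ne_zero_of {x y : K} (h : W.toAffine.Nonsingular x y)
    (hP : (Affine.Point.some x y h : W.toAffine.Point) + Affine.Point.some x y h ≠ 0) :
    g W x ≠ 0 := by
  intro hg
  apply hP
  apply Affine.Point.add_self_of_Y_eq
  rw [← sq_sub_negY W h.1] at hg
  exact sub_eq_zero.mp (pow_eq_zero_iff two_ne_zero |>.mp hg)

theorem Y_ne_of_g_ne_zero {x y : K} (h : W.toAffine.Nonsingular x y) (hg : g W x ≠ 0) :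
    y ≠ W.toAffine.negY x y := by
  intro e
  apply hg
  rw [← sq_sub_negY W h.1, sub_eq_zero.mpr e]
  ring

theorem add_self_some {x y : K} (h : W.toAffine.Nonsingular x y) (hg : g W x ≠ 0) :
    ∃ (x2 y2 : K) (h2 : W.toAffine.Nonsingular x2 y2),
      (Affine.Point.some x y h : W.toAffine.Point) + Affine.Point.some x y h =
        Affine.Point.some x2 y2 h2 ∧ x2 * g W x = F W x := by
  have hy := Y_ne_of_g_ne_zero W h hg
  exact ⟨_, _, _, Affine.Point.add_self_of_Y_ne hy, addX_self W h.1 hy⟩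

theorem three_torsion_root {x y : K} (h : W.toAffine.Nonsingular x y)
    (h3 : (3 : ℕ) • (Affine.Point.some x y h : W.toAffine.Point) = 0) : psi3 W x = 0 := by
  set P : W.toAffine.Point := Affine.Point.some x y h with hP
  have h0 : P ≠ 0 := Affine.Point.some_ne_zero h
  have h2 : P + P ≠ 0 := by
    intro e
    apply h0
    have : (3 : ℕ) • P = (P + P) + P := by abel
    rw [this, e, zero_add] at h3
    exact h3
  have hg := g_ne_zero_of W h h2
  obtain ⟨x2, y2, hh2, e, hx⟩ := add_self_some W h hg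
  have e2 : P + P = -P := by
    have : (3 : ℕ) • P = (P + P) + P := by abel
    rw [this] at h3
    exact eq_neg_of_add_eq_zero_left h3
  rw [e] at e2
  have : x2 = x := by
    rw [Affine.Point.X_eq_iff (h₁ := hh2) (h₂ := h)]
    right
    exact e2
  rw [← x_mul_g_sub_F, ← hx, this, sub_self]

theorem exists_three_torsion [IsAlgClosed K] [CharZero K] (hΔ : W.Δ ≠ 0) :
    ∃ (x y : K) (h : W.toAffine.Nonsingular x y),
      (3 : ℕ) • (Affine.Point.some x y h : W.toAffine.Point) = 0 := by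
  have hdeg : (W.Ψ₃).degree ≠ 0 := by
    have := W.natDegree_Ψ₃_pos (by exact_mod_cast (three_ne_zero : (3 : K) ≠ 0))
    intro e
    rw [natDegree_eq_of_degree_eq_some e] at this
    exact absurd this (lt_irrefl _)
  obtain ⟨x, hx⟩ := IsAlgClosed.exists_root W.Ψ₃ hdeg
  rw [IsRoot.def, eval_Psi3] at hx
  obtain ⟨y, h⟩ := exists_nonsingular W hΔ x
  have hg : g W x ≠ 0 := fun hg => hΔ (Δ_eq_zero_of W hg hx)
  obtain ⟨x2, y2, h2, e, hx2⟩ := add_self_some W h hg
  have hxx : x2 = x := by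
    have h1 := x_mul_g_sub_F W x
    rw [hx, ← hx2] at h1
    have : (x - x2) * g W x = 0 := by linear_combination h1
    rcases mul_eq_zero.mp this with h4 | h4
    · exact (sub_eq_zero.mp h4).symm
    · exact absurd h4 hg
  refine ⟨x, y, h, ?_⟩
  have h3 := (Affine.Point.X_eq_iff (h₁ := h2) (h₂ := h)).mp hxx
  rw [← e] at h3
  set P : W.toAffine.Point := Affine.Point.some x y h with hP
  have h0 : P ≠ 0 := Affine.Point.some_ne_zero h
  rcases h3 with h3 | h3
  · exact absurd (add_eq_left.mp h3) h0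
  · have : (3 : ℕ) • P = (P + P) + P := by abel
    rw [this, h3, neg_add_cancel]

theorem five_torsion {x y : K} (h : W.toAffine.Nonsingular x y)
    (h5 : (5 : ℕ) • (Affine.Point.some x y h : W.toAffine.Point) = 0) :
    ∃ (x2 y2 : K) (h2 : W.toAffine.Nonsingular x2 y2),
      (Affine.Point.some x y h : W.toAffine.Point) + Affine.Point.some x y h =
        Affine.Point.some x2 y2 h2 ∧ x2 * g W x = F W x ∧ x * g W x2 = F W x2 ∧ x ≠ x2 ∧
        g W x ≠ 0 ∧ g W x2 ≠ 0 := by
  set P : W.toAffine.Point := Affine.Point.some x y h with hP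
  have h0 : P ≠ 0 := Affine.Point.some_ne_zero h
  have h2 : P + P ≠ 0 := by
    intro e
    apply h0
    have : (5 : ℕ) • P = (P + P) + (P + P) + P := by abel
    rw [this, e, zero_add, zero_add] at h5
    exact h5
  have h4 : (P + P) + (P + P) = -P := by
    have : (5 : ℕ) • P = (P + P) + (P + P) + P := by abel
    rw [this] at h5
    exact eq_neg_of_add_eq_zero_left h5
  have hg := g_ne_zero_of W h h2
  obtain ⟨x2, y2, hh2, e, hx⟩ := add_self_some W h hg
  have h4' : (P + P) + (P + P) ≠ 0 := by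
    rw [h4]; exact neg_ne_zero.mpr h0
  rw [← hP] at e
  rw [e] at h4'
  have hg2 := g_ne_zero_of W hh2 h4'
  obtain ⟨x4, y4, hh4, e4, hx4⟩ := add_self_some W hh2 hg2
  rw [e, e4] at h4
  have hx41 : x4 = x := by
    rw [Affine.Point.X_eq_iff (h₁ := hh4) (h₂ := h)]
    right
    exact h4
  rw [hx41] at hx4
  refine ⟨x2, y2, hh2, e, hx, hx4, ?_, hg, hg2⟩
  intro hxx
  have h6 := (Affine.Point.X_eq_iff (h₁ := hh2) (h₂ := h)).mp hxx.symm
  rw [← e, ← hP] at h6
  rcases h6 with h6 | h6
  · exact absurd (add_eq_left.mp h6) h0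
  · apply h0
    have h7 : (5 : ℕ) • P = (P + P) + (P + P) + P := by abel
    rw [h7, h6] at h5
    have : -P + -P + P = -P := by abel
    rw [this] at h5
    exact neg_eq_zero.mp h5

theorem five_torsion_root {x y : K} (h : W.toAffine.Nonsingular x y)
    (h5 : (5 : ℕ) • (Affine.Point.some x y h : W.toAffine.Point) = 0) : psi5 W x = 0 := by
  obtain ⟨x2, y2, h2, -, e1, e2, hne, hg, hg2⟩ := five_torsion W h h5
  have hr := rel_shift W x
  -- t = x2 - x, t * g = -psi3
  have ht : (x2 - x) * g W x = - psi3 W x := by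
    have := x_mul_g_sub_F W x
    linear_combination e1 - this
  have hF : (x2 - x) ^ 4 - B4 W x * (x2 - x) ^ 2 - 2 * g W x * (x2 - x) - psi3 W x = 0 := by
    simp only [g, F] at e2
    simp only [g, psi3, B4]
    linear_combination (-1 : K) * e2
  have hps : psi3 W x ≠ 0 := by
    intro e
    rw [e, neg_zero] at ht
    rcases mul_eq_zero.mp ht with h4 | h4
    · exact hne (sub_eq_zero.mp h4).symm
    · exact hg h4
  have : psi3 W x * psi5 W x = 0 := by
    set t := x2 - x
    set G := g W x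
    set Q := psi3 W x
    set b := B4 W x
    have h8 : G ^ 4 * (t ^ 4 - b * t ^ 2 - 2 * G * t - Q) = 0 := by rw [hF, mul_zero]
    have h9 : Q * (G ^ 2 * (b * Q - G ^ 2) - Q ^ 3) + G ^ 4 * (t ^ 4 - b * t ^ 2 - 2 * G * t - Q)
      = 0 := by
      have e3 : t * G = -Q := ht
      have e4 : G ^ 4 * t ^ 4 = Q ^ 4 := by
        have : (t * G) ^ 4 = (-Q) ^ 4 := by rw [e3]
        linear_combination this
      have e5 : G ^ 2 * t ^ 2 = Q ^ 2 := by
        have : (t * G) ^ 2 = (-Q) ^ 2 := by rw [e3]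
        linear_combination this
      linear_combination e4 - b * G ^ 2 * e5 - 2 * G ^ 4 * e3
    show Q * (G ^ 2 * (b * Q - G ^ 2) - Q ^ 3) = 0
    linear_combination h9 - h8
  exact (mul_eq_zero.mp this).resolve_left hps

end points

end Fermat.Agent.H51
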