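import Mathlib
import Fermat.Agent.H51Points

set_option autoImplicit false

open WeierstrassCurve Polynomial

namespace Fermat.Agent.H51

variable {K : Type*} [Field K] (W : WeierstrassCurve K) [DecidableEq K]

theorem exists_five_torsion [IsAlgClosed K] [CharZero K] (hΔ : W.Δ ≠ 0) :
    ∃ (x y : K) (h : W.toAffine.Nonsingular x y),
      (5 : ℕ) • (Affine.Point.some x y h : W.toAffine.Point) = 0 := by
  have hdeg : (W.preΨ' 5).degree ≠ 0 := by
    have := W.natDegree_preΨ'_pos (n := 5) (by norm_num) (by exact_mod_cast (by norm_num : (5 : K) ≠ 0))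
    intro e
    rw [natDegree_eq_of_degree_eq_some e] at this
    exact absurd this (lt_irrefl _)
  obtain ⟨x, hx⟩ := IsAlgClosed.exists_root _ hdeg
  rw [IsRoot.def, eval_preΨ'_five] at hx
  obtain ⟨y, h⟩ := exists_nonsingular W hΔ x
  have hg : g W x ≠ 0 := fun hg => by
    rw [psi5, hg] at hx
    have : psi3 W x = 0 := by
      have h1 : psi3 W x ^ 3 = 0 := by linear_combination -hx
      exact pow_eq_zero_iff three_ne_zero |>.mp h1
    exact hΔ (Δ_eq_zero_of W hg this)
  have hps : psi3 W x ≠ 0 := fun hps => by
    rw [psi5, hps] at hx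
    have : g W x ^ 4 = 0 := by linear_combination -hx
    exact hg (pow_eq_zero_iff four_ne_zero |>.mp this)
  obtain ⟨x2, y2, h2, e, hx2⟩ := add_self_some W h hg
  have ht : (x2 - x) * g W x = - psi3 W x := by
    have := x_mul_g_sub_F W x
    linear_combination hx2 - this
  have hne : x2 ≠ x := by
    rintro rfl
    rw [sub_self, zero_mul] at ht
    exact hps (neg_eq_zero.mp ht.symm)
  have hF : x * g W x2 = F W x2 := by
    have h9 : g W x ^ 4 * (x * g W x2 - F W x2) = 0 := by
      have e0 : x * g W x2 - F W x2 = -((x2 - x) ^ 4 - B4 W x * (x2 - x) ^ 2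
          - 2 * g W x * (x2 - x) - psi3 W x) := by
        simp only [g, F, psi3, B4]; ring
      rw [e0]
      rw [psi5] at hx
      set t := x2 - x
      set G := g W x
      set Q := psi3 W x
      set b := B4 W x
      have e4 : G ^ 4 * t ^ 4 = Q ^ 4 := by
        have : (t * G) ^ 4 = (-Q) ^ 4 := by rw [ht]
        linear_combination this
      have e5 : G ^ 2 * t ^ 2 = Q ^ 2 := by
        have : (t * G) ^ 2 = (-Q) ^ 2 := by rw [ht]
        linear_combination this
      linear_combination -e4 + b * G ^ 2 * e5 + 2 * G ^ 4 * ht + Q * hx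
    rcases mul_eq_zero.mp h9 with h10 | h10
    · exact absurd (pow_eq_zero_iff four_ne_zero |>.mp h10) hg
    · exact sub_eq_zero.mp h10
  have hg2 : g W x2 ≠ 0 := fun hg2 => by
    rw [hg2, mul_zero] at hF
    have := x_mul_g_sub_F W x2
    rw [hg2, ← hF, mul_zero, sub_zero] at this
    exact hΔ (Δ_eq_zero_of W hg2 this.symm)
  obtain ⟨x4, y4, h4, e4, hx4⟩ := add_self_some W h2 hg2
  have hx41 : x4 = x := by
    have : (x4 - x) * g W x2 = 0 := by linear_combination hx4 - hF
    rcases mul_eq_zero.mp this with h10 | h10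
    · exact sub_eq_zero.mp h10
    · exact absurd h10 hg2
  refine ⟨x, y, h, ?_⟩
  have h3 := (Affine.Point.X_eq_iff (h₁ := h4) (h₂ := h)).mp hx41
  rw [← e4, ← e] at h3
  have hne2 := hne
  set P : W.toAffine.Point := Affine.Point.some x y h with hP
  have h0 : P ≠ 0 := Affine.Point.some_ne_zero h
  rcases h3 with h3 | h3
  · exfalso
    apply hne2
    rw [Affine.Point.X_eq_iff (h₁ := h2) (h₂ := h)]
    right
    rw [← e, ← hP]
    have : P + P + P = 0 := by
      have h5 : P + P + (P + P) - P = P - P := by rw [h3]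
      have h6 : P + P + (P + P) - P = P + P + P := by abel
      rw [← h6, h5, sub_self]
    exact eq_neg_of_add_eq_zero_left this
  · have : (5 : ℕ) • P = (P + P) + (P + P) + P := by abel
    rw [this, h3, neg_add_cancel]

open Classical in
/-- the (at most two) points with given `x`-coordinate -/
noncomputable def fib (x : K) : Finset W.toAffine.Point :=
  if h : ∃ y, W.toAffine.Nonsingular x y then
    {Affine.Point.some x h.choose h.choose_spec, -Affine.Point.some x h.choose h.choose_spec}
  else ∅

theorem card_fib_le (x : K) : (fib W x).card ≤ 2 := by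
  unfold fib
  split_ifs
  · exact Finset.card_le_two
  · simp

theorem mem_fib {x y : K} (h : W.toAffine.Nonsingular x y) :
    (Affine.Point.some x y h : W.toAffine.Point) ∈ fib W x := by
  have hex : ∃ y, W.toAffine.Nonsingular x y := ⟨y, h⟩
  unfold fib
  rw [dif_pos hex]
  have := (Affine.Point.X_eq_iff (h₁ := h) (h₂ := hex.choose_spec)).mp rfl
  rcases this with e | e
  · rw [e]; simp
  · rw [e]; simp

theorem finite_and_card_le (p : K[X]) (hp : p ≠ 0) (T : Set W.toAffine.Point)
    (hT : ∀ (x y : K) (h : W.toAffine.Nonsingular x y),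
      (Affine.Point.some x y h : W.toAffine.Point) ∈ T → p.eval x = 0) :
    T.Finite ∧ T.ncard ≤ 2 * p.natDegree + 1 := by
  classical
  set U : Finset W.toAffine.Point := insert 0 (p.roots.toFinset.biUnion (fib W)) with hU
  have hTU : T ⊆ ↑U := by
    intro P hP
    match P, hP with
    | 0, _ => simp [hU]
    | .some x y h, hP =>
      have h1 := hT x y h hP
      rw [hU, Finset.coe_insert]
      right
      rw [Finset.mem_coe, Finset.mem_biUnion]
      exact ⟨x, by rw [Multiset.mem_toFinset, mem_roots hp]; exact h1, mem_fib W h⟩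
  refine ⟨U.finite_toSet.subset hTU, ?_⟩
  calc T.ncard ≤ (↑U : Set W.toAffine.Point).ncard := Set.ncard_le_ncard hTU U.finite_toSet
    _ = U.card := Set.ncard_coe_finset U
    _ ≤ (p.roots.toFinset.biUnion (fib W)).card + 1 := Finset.card_insert_le _ _
    _ ≤ p.roots.toFinset.card * 2 + 1 := by
        gcongr
        exact Finset.card_biUnion_le_card_mul _ _ _ (fun x _ => card_fib_le W x)
    _ ≤ 2 * p.natDegree + 1 := by
        have h1 := p.roots.toFinset_card_le
        have h2 := p.card_roots'
        omega

end Fermat.Agent.H51
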