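import Mathlib
import Fermat.Agent.H51Count
import Fermat.Prelude.Def_FLTPrelim_ModularRep

set_option autoImplicit false
set_option linter.style.haveILetI false

open WeierstrassCurve Polynomial WeierstrassCurve.Affine.Point

namespace Fermat.Agent.H51

/-! ### linear algebra -/

theorem one_dim {p : ℕ} [hp : Fact p.Prime] {T : Type*} [AddCommGroup T] [Module (ZMod p) T]
    (hfin : Finite T) (hcard : Nat.card T < p ^ 3) (N : Submodule (ZMod p) T) (hN1 : N ≠ ⊤)
    {P : T} (hP : P ∈ N) (hP0 : P ≠ 0) {Q : T} (hQ : Q ∈ N) : ∃ c : ZMod p, c • P = Q := by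
  haveI : Module.Finite (ZMod p) T := Module.Finite.of_finite
  have h1 := Module.natCard_eq_pow_finrank (K := ZMod p) (V := T)
  rw [Nat.card_zmod] at h1
  have h2 : Module.finrank (ZMod p) T < 3 := by
    rw [h1] at hcard
    exact (Nat.pow_lt_pow_iff_right hp.out.one_lt).mp hcard
  have h3 : Module.finrank (ZMod p) N < Module.finrank (ZMod p) T :=
    Submodule.finrank_lt hN1
  have hP0' : (⟨P, hP⟩ : N) ≠ 0 := by
    intro e
    exact hP0 (congrArg Subtype.val e)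
  have h4 : 0 < Module.finrank (ZMod p) N := by
    haveI : Nontrivial N := ⟨⟨_, _, hP0'⟩⟩
    exact Module.finrank_pos
  have h5 : Module.finrank (ZMod p) N = 1 := by omega
  obtain ⟨c, hc⟩ := (finrank_eq_one_iff_of_nonzero' (⟨P, hP⟩ : N) hP0').mp h5 ⟨Q, hQ⟩
  exact ⟨c, congrArg Subtype.val hc⟩

/-! ### rationality -/

theorem isGalois_rat : IsGalois ℚ (AlgebraicClosure ℚ) := by
  haveI h1 : Algebra.IsAlgebraic ℚ (AlgebraicClosure ℚ) := AlgebraicClosure.isAlgebraic ℚ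
  haveI h2 : IsAlgClosure ℚ (AlgebraicClosure ℚ) := ⟨inferInstance, inferInstance⟩
  infer_instance

theorem exists_rat {x : AlgebraicClosure ℚ}
    (h : ∀ σ : AlgebraicClosure ℚ ≃ₐ[ℚ] AlgebraicClosure ℚ, σ x = x) :
    ∃ q : ℚ, algebraMap ℚ (AlgebraicClosure ℚ) q = x := by
  haveI := isGalois_rat
  have h1 : x ∈ (⊥ : IntermediateField ℚ (AlgebraicClosure ℚ)) :=
    (InfiniteGalois.mem_bot_iff_fixed x).mpr h
  exact IntermediateField.mem_bot.mp h1

/-- The base-changed curve. -/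
noncomputable abbrev EK (W : WeierstrassCurve ℤ) : WeierstrassCurve (AlgebraicClosure ℚ) :=
  (W.map (Int.castRingHom ℚ)).baseChange (AlgebraicClosure ℚ)

theorem EK_Δ_ne_zero (W : WeierstrassCurve ℤ) (hΔ : W.Δ ≠ 0) : (EK W).Δ ≠ 0 := by
  rw [EK, WeierstrassCurve.baseChange, WeierstrassCurve.map_Δ, WeierstrassCurve.map_Δ]
  simpa using hΔ

theorem psi3_EK (W : WeierstrassCurve ℤ) (r : ℚ) :
    psi3 (EK W) (algebraMap ℚ _ r) = algebraMap ℚ _ (3 * r ^ 4 + W.b₂ * r ^ 3 + 3 * W.b₄ * r ^ 2 +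
      3 * W.b₆ * r + W.b₈) := by
  simp only [psi3, EK, WeierstrassCurve.baseChange, WeierstrassCurve.map_b₂,
    WeierstrassCurve.map_b₄, WeierstrassCurve.map_b₆, WeierstrassCurve.map_b₈, map_add, map_mul,
    map_pow, eq_intCast, map_ofNat]

theorem smul_some (W : WeierstrassCurve ℤ) (σ : AlgebraicClosure ℚ ≃ₐ[ℚ] AlgebraicClosure ℚ)
    {x y : AlgebraicClosure ℚ} (h : (EK W).toAffine.Nonsingular x y) :
    ∃ h' : (EK W).toAffine.Nonsingular (σ x) (σ y),
      σ • (Affine.Point.some x y h : ((W.map (Int.castRingHom ℚ)).baseChange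
        (AlgebraicClosure ℚ)).toAffine.Point) = Affine.Point.some (σ x) (σ y) h' :=
  ⟨_, rfl⟩

/-- The `n`-torsion module of the statement. -/
noncomputable abbrev TT (W : WeierstrassCurve ℤ) (n : ℕ) :=
  Submodule.torsionBy ℤ ((W.map (Int.castRingHom ℚ)).baseChange
    (AlgebraicClosure ℚ)).toAffine.Point n

theorem mem_TT (W : WeierstrassCurve ℤ) (n : ℕ) (P : (EK W).toAffine.Point) :
    P ∈ (Submodule.torsionBy ℤ ((W.map (Int.castRingHom ℚ)).baseChange
    (AlgebraicClosure ℚ)).toAffine.Point n) ↔ n • P = 0 := by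
  rw [Submodule.mem_torsionBy_iff, natCast_zsmul]

theorem finite_card (W : WeierstrassCurve ℤ) (n : ℕ) (p : (AlgebraicClosure ℚ)[X]) (hp : p ≠ 0)
    (hT : ∀ (x y : AlgebraicClosure ℚ) (h : (EK W).toAffine.Nonsingular x y),
      n • (Affine.Point.some x y h : (EK W).toAffine.Point) = 0 → p.eval x = 0) :
    Finite (TT W n) ∧ Nat.card (TT W n) ≤ 2 * p.natDegree + 1 := by
  obtain ⟨h1, h2⟩ := finite_and_card_le (EK W) p hp
    ((TT W n : Set (EK W).toAffine.Point)) (fun x y h hP => hT x y h ((mem_TT W n _).mp hP))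
  exact ⟨h1, h2⟩

theorem finite_card_three (W : WeierstrassCurve ℤ) :
    Finite (TT W 3) ∧ Nat.card (TT W 3) ≤ 9 := by
  have h3 : ((3 : ℕ) : AlgebraicClosure ℚ) ≠ 0 := by norm_num
  have hne : (EK W).Ψ₃ ≠ 0 := (EK W).Ψ₃_ne_zero (by exact_mod_cast h3)
  have := finite_card W 3 (EK W).Ψ₃ hne (fun x y h hP => by
    rw [eval_Psi3]; exact three_torsion_root _ h hP)
  rwa [(EK W).natDegree_Ψ₃ (by exact_mod_cast h3)] at this

theorem finite_card_five (W : WeierstrassCurve ℤ) :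
    Finite (TT W 5) ∧ Nat.card (TT W 5) ≤ 25 := by
  have h5 : ((5 : ℕ) : AlgebraicClosure ℚ) ≠ 0 := by norm_num
  have hne : (EK W).preΨ' 5 ≠ 0 := (EK W).preΨ'_ne_zero h5
  have := finite_card W 5 ((EK W).preΨ' 5) hne (fun x y h hP => by
    rw [eval_preΨ'_five]; exact five_torsion_root _ h hP)
  rw [(EK W).natDegree_preΨ' h5] at this
  norm_num at this
  exact this

theorem nontrivial_three (W : WeierstrassCurve ℤ) (hΔ : W.Δ ≠ 0) : Nontrivial (TT W 3) := by
  obtain ⟨x, y, h, hP⟩ := exists_three_torsion (EK W) (EK_Δ_ne_zero W hΔ)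
  exact ⟨⟨⟨_, (mem_TT W 3 _).mpr hP⟩, 0, fun e =>
    Affine.Point.some_ne_zero h (congrArg Subtype.val e)⟩⟩

theorem nontrivial_five (W : WeierstrassCurve ℤ) (hΔ : W.Δ ≠ 0) : Nontrivial (TT W 5) := by
  obtain ⟨x, y, h, hP⟩ := exists_five_torsion (EK W) (EK_Δ_ne_zero W hΔ)
  exact ⟨⟨⟨_, (mem_TT W 5 _).mpr hP⟩, 0, fun e =>
    Affine.Point.some_ne_zero h (congrArg Subtype.val e)⟩⟩

theorem exists_stable (W : WeierstrassCurve ℤ) (n : ℕ) (hnt : Nontrivial (TT W n))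
    (h : ¬ W.ModRepIsIrreducible n) : ∃ N : Submodule (ZMod n) (TT W n),
      (∀ σ : AlgebraicClosure ℚ ≃ₐ[ℚ] AlgebraicClosure ℚ, ∀ x ∈ N, σ • x ∈ N) ∧
      N ≠ ⊥ ∧ N ≠ ⊤ := by
  unfold WeierstrassCurve.ModRepIsIrreducible GaloisRepIsIrreducible at h
  push Not at h
  obtain ⟨N, hN, h1, h2⟩ := h hnt
  exact ⟨N, hN, h1, h2⟩

theorem exists_nsmul_eq (W : WeierstrassCurve ℤ) {p : ℕ} [hp : Fact p.Prime]
    (hfin : Finite (TT W p)) (hcard : Nat.card (TT W p) < p ^ 3)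
    (N : Submodule (ZMod p) (TT W p)) (hN1 : N ≠ ⊤)
    (hst : ∀ σ : AlgebraicClosure ℚ ≃ₐ[ℚ] AlgebraicClosure ℚ, ∀ x ∈ N, σ • x ∈ N)
    (P : TT W p) (hPN : P ∈ N) (hP0 : P ≠ 0)
    (σ : AlgebraicClosure ℚ ≃ₐ[ℚ] AlgebraicClosure ℚ) :
    ∃ m : ℕ, m < p ∧ m • (P : (EK W).toAffine.Point) = σ • (P : (EK W).toAffine.Point) := by
  obtain ⟨c, hc⟩ := one_dim hfin hcard N hN1 hPN hP0 (hst σ _ hPN)
  refine ⟨c.val, c.val_lt, ?_⟩
  have h1 : c • P = c.val • P := by
    conv_lhs => rw [← ZMod.natCast_zmod_val c]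
    exact Nat.cast_smul_eq_nsmul (ZMod p) _ _
  rw [h1] at hc
  exact congrArg Subtype.val hc

theorem three (W : WeierstrassCurve ℤ) (hΔ : W.Δ ≠ 0) (h : ¬ W.ModRepIsIrreducible 3) :
    ∃ r : ℚ, 3 * r ^ 4 + W.b₂ * r ^ 3 + 3 * W.b₄ * r ^ 2 + 3 * W.b₆ * r + W.b₈ = 0 := by
  obtain ⟨N, hst, hN0, hN1⟩ := exists_stable W 3 (nontrivial_three W hΔ) h
  obtain ⟨hfin, hcard⟩ := finite_card_three W
  obtain ⟨⟨P, hPT⟩, hPN, hP0⟩ := (Submodule.ne_bot_iff N).mp hN0
  haveI : Fact (Nat.Prime 3) := ⟨Nat.prime_three⟩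
  have hPT3 := (mem_TT W 3 P).mp hPT
  match P, hPT, hPT3, hPN, hP0 with
  | 0, hPT, hPT3, hPN, hP0 => exact absurd rfl hP0
  | .some x y hns, hPT, hPT3, hPN, hP0 =>
    have hroot := three_torsion_root (EK W) hns hPT3
    have hfix : ∀ σ : AlgebraicClosure ℚ ≃ₐ[ℚ] AlgebraicClosure ℚ, σ x = x := by
      intro σ
      obtain ⟨h', e⟩ := smul_some W σ hns
      obtain ⟨m, hm, hc⟩ := exists_nsmul_eq W hfin (by omega) N hN1 hst _ hPN hP0 σ
      change m • (Affine.Point.some x y hns : (EK W).toAffine.Point) =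
        σ • (Affine.Point.some x y hns : (EK W).toAffine.Point) at hc
      rw [e] at hc
      change (3 : ℕ) • (Affine.Point.some x y hns : (EK W).toAffine.Point) = 0 at hPT3
      rw [Affine.Point.X_eq_iff (h₁ := h') (h₂ := hns), ← hc]
      interval_cases m
      · rw [zero_nsmul] at hc
        exact absurd hc.symm (Affine.Point.some_ne_zero h')
      · left; rw [one_smul]
      · right
        have h3 : (3 : ℕ) • (Affine.Point.some x y hns : (EK W).toAffine.Point) =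
          (2 : ℕ) • (Affine.Point.some x y hns : (EK W).toAffine.Point) +
            Affine.Point.some x y hns := succ_nsmul _ 2
        rw [hPT3] at h3
        exact eq_neg_of_add_eq_zero_left h3.symm
    obtain ⟨q, rfl⟩ := exists_rat hfix
    refine ⟨q, ?_⟩
    rw [psi3_EK] at hroot
    exact (algebraMap ℚ (AlgebraicClosure ℚ)).injective (by rw [hroot, _root_.map_zero])

theorem alg_five {K : Type*} [Field K] (W : WeierstrassCurve K) {x1 x2 : K} (hne : x1 ≠ x2)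
    (e1 : x2 * g W x1 = F W x1) (e2 : x1 * g W x2 = F W x2) :
    (-(x1 + x2) ^ 3 + 6 * (x1 * x2) * (x1 + x2) + W.b₂ * (x1 * x2) + W.b₄ * (x1 + x2) + W.b₆ = 0) ∧
    (-(x1 + x2) ^ 4 + 8 * (x1 * x2) * (x1 + x2) ^ 2 - 10 * (x1 * x2) ^ 2 +
      W.b₂ * (x1 * x2) * (x1 + x2) + W.b₄ * ((x1 + x2) ^ 2 + 2 * (x1 * x2)) +
      3 * W.b₆ * (x1 + x2) + 2 * W.b₈ = 0) := by
  simp only [g, F] at e1 e2
  constructor
  · apply mul_left_cancel₀ (sub_ne_zero.mpr hne)
    linear_combination e1 - e2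
  · linear_combination e1 + e2

theorem five (W : WeierstrassCurve ℤ) (hΔ : W.Δ ≠ 0) (h : ¬ W.ModRepIsIrreducible 5) :
    ∃ s m : ℚ, s ^ 2 - 4 * m ≠ 0 ∧
      -s ^ 3 + 6 * m * s + W.b₂ * m + W.b₄ * s + W.b₆ = 0 ∧
      -s ^ 4 + 8 * m * s ^ 2 - 10 * m ^ 2 + W.b₂ * m * s + W.b₄ * (s ^ 2 + 2 * m) +
        3 * W.b₆ * s + 2 * W.b₈ = 0 := by
  obtain ⟨N, hst, hN0, hN1⟩ := exists_stable W 5 (nontrivial_five W hΔ) h
  obtain ⟨hfin, hcard⟩ := finite_card_five W
  obtain ⟨⟨P, hPT⟩, hPN, hP0⟩ := (Submodule.ne_bot_iff N).mp hN0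
  haveI : Fact (Nat.Prime 5) := ⟨Nat.prime_five⟩
  have hPT5 := (mem_TT W 5 P).mp hPT
  match P, hPT, hPT5, hPN, hP0 with
  | 0, hPT, hPT5, hPN, hP0 => exact absurd rfl hP0
  | .some x1 y1 h1, hPT, hPT5, hPN, hP0 =>
    obtain ⟨x2, y2, h2, e, e1, e2, hne, -, -⟩ := five_torsion (EK W) h1 hPT5
    have hfix : ∀ σ : AlgebraicClosure ℚ ≃ₐ[ℚ] AlgebraicClosure ℚ,
        (σ x1 = x1 ∧ σ x2 = x2) ∨ (σ x1 = x2 ∧ σ x2 = x1) := by
      intro σ
      obtain ⟨h1', f1⟩ := smul_some W σ h1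
      obtain ⟨h2', f2⟩ := smul_some W σ h2
      obtain ⟨m, hm, hc⟩ := exists_nsmul_eq W hfin (by omega) N hN1 hst _ hPN hP0 σ
      change m • (Affine.Point.some x1 y1 h1 : (EK W).toAffine.Point) =
        σ • (Affine.Point.some x1 y1 h1 : (EK W).toAffine.Point) at hc
      have hc2 : m • (Affine.Point.some x2 y2 h2 : (EK W).toAffine.Point) =
          Affine.Point.some (σ x2) (σ y2) h2' := by
        have hadd : σ • ((Affine.Point.some x1 y1 h1 : (EK W).toAffine.Point) +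
            Affine.Point.some x1 y1 h1) = σ • (Affine.Point.some x1 y1 h1 :
              (EK W).toAffine.Point) + σ • (Affine.Point.some x1 y1 h1 :
              (EK W).toAffine.Point) :=
          (Affine.Point.map (W' := W.map (Int.castRingHom ℚ)) σ.toAlgHom).map_add _ _
        rw [← f2, ← e, nsmul_add, hadd, hc]
      rw [f1] at hc
      change (5 : ℕ) • (Affine.Point.some x1 y1 h1 : (EK W).toAffine.Point) = 0 at hPT5
      have k1 := Affine.Point.X_eq_iff (h₁ := h1') (h₂ := h1)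
      have k2 := Affine.Point.X_eq_iff (h₁ := h2') (h₂ := h2)
      have k3 := Affine.Point.X_eq_iff (h₁ := h1') (h₂ := h2)
      have k4 := Affine.Point.X_eq_iff (h₁ := h2') (h₂ := h1)
      rw [k1, k2, k3, k4, ← hc, ← hc2, ← e]
      set P : (EK W).toAffine.Point := Affine.Point.some x1 y1 h1 with hP
      interval_cases m
      · rw [zero_nsmul] at hc
        exact absurd hc.symm (Affine.Point.some_ne_zero h1')
      · left
        exact ⟨Or.inl (one_smul _ _), Or.inl (one_smul _ _)⟩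
      · right
        refine ⟨Or.inl (two_nsmul _), Or.inr ?_⟩
        rw [eq_neg_iff_add_eq_zero, ← hPT5]
        abel
      · right
        refine ⟨Or.inr ?_, Or.inl ?_⟩
        · rw [eq_neg_iff_add_eq_zero, ← hPT5]
          abel
        · have : (3 : ℕ) • (P + P) = (5 : ℕ) • P + P := by abel
          rw [this, hPT5, zero_add]
      · left
        refine ⟨Or.inr ?_, Or.inr ?_⟩
        · rw [eq_neg_iff_add_eq_zero, ← hPT5]
          abel
        · rw [eq_neg_iff_add_eq_zero]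
          have : (4 : ℕ) • (P + P) + (P + P) = (5 : ℕ) • P + (5 : ℕ) • P := by abel
          rw [this, hPT5, zero_add]
    obtain ⟨s, hs⟩ := exists_rat (x := x1 + x2) (fun σ => by
      rcases hfix σ with ⟨a, b⟩ | ⟨a, b⟩
      · rw [map_add, a, b]
      · rw [map_add, a, b, add_comm])
    obtain ⟨m, hm⟩ := exists_rat (x := x1 * x2) (fun σ => by
      rcases hfix σ with ⟨a, b⟩ | ⟨a, b⟩
      · rw [map_mul, a, b]
      · rw [map_mul, a, b, mul_comm])
    have hinj := (algebraMap ℚ (AlgebraicClosure ℚ)).injective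
    obtain ⟨a5, b5⟩ := alg_five (EK W) hne e1 e2
    rw [← hs, ← hm] at a5 b5
    simp only [EK, WeierstrassCurve.baseChange, WeierstrassCurve.map_b₂,
      WeierstrassCurve.map_b₄, WeierstrassCurve.map_b₆, WeierstrassCurve.map_b₈] at a5 b5
    refine ⟨s, m, ?_, ?_, ?_⟩
    · intro h0
      apply hne
      have h3 := congrArg (algebraMap ℚ (AlgebraicClosure ℚ)) h0
      rw [map_sub, map_mul, map_pow, map_ofNat, _root_.map_zero, hs, hm] at h3
      have : (x1 - x2) ^ 2 = 0 := by linear_combination h3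
      exact sub_eq_zero.mp (pow_eq_zero_iff two_ne_zero |>.mp this)
    · apply hinj
      rw [_root_.map_zero, ← a5]
      simp only [map_add, map_mul, map_pow, map_neg, map_ofNat, eq_intCast]
    · apply hinj
      rw [_root_.map_zero, ← b5]
      simp only [map_add, map_mul, map_pow, map_neg, map_ofNat, eq_intCast, map_sub]

end Fermat.Agent.H51
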