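import Fermat.Agent.H98FamilyPoly

set_option autoImplicit false

/-!
# Some member of the family has no rational 3-isogeny
-/

open Polynomial

namespace Fermat.Agent.H98

section local_analysis

/-- Behaviour of the integer roots of the quartic modulo a prime exactly dividing `D`. -/
theorem local_root {p : ℤ} (hp : Prime p) {c d Δ D z : ℤ}
    (hrel : c ^ 3 - d ^ 2 = Δ * D ^ 5) (hpD : p ∣ D) (hp2D : ¬ p ^ 2 ∣ D)
    (hpc : ¬ p ∣ c) (hp2 : ¬ p ∣ 2) (hpΔ : ¬ p ∣ Δ) (hz : quart c d z = 0) :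
    p ∣ 9 * c - z ^ 2 := by
  by_contra h9
  have hs := star c d z
  rw [hz, zero_mul, sub_eq_zero, hrel] at hs
  obtain ⟨D', rfl⟩ := hpD
  have hD' : ¬ p ∣ D' := by
    intro h
    apply hp2D
    rw [pow_two]
    exact mul_dvd_mul_left p h
  have h1 : p ∣ (z ^ 2 - c) ^ 3 := by
    have : p ∣ (9 * c - z ^ 2) * (z ^ 2 - c) ^ 3 := by
      rw [← hs]
      refine Dvd.dvd.mul_left ?_ _
      refine Dvd.dvd.mul_left ?_ _
      exact (Dvd.intro _ rfl : p ∣ p * D').pow (by norm_num)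
    exact (hp.dvd_or_dvd this).resolve_left h9
  obtain ⟨m, hm⟩ := hp.dvd_of_dvd_pow h1
  have hpz : ¬ p ∣ z := by
    intro h
    apply hpc
    have : c = z ^ 2 - p * m := by linarith
    rw [this]
    exact dvd_sub (h.pow (by norm_num)) (Dvd.intro _ rfl)
  rw [hm] at hs
  have hp0 : p ≠ 0 := hp.ne_zero
  have h2 : m ^ 3 * (9 * c - z ^ 2) = p ^ 2 * (2 ^ 6 * z ^ 2 * Δ * D' ^ 5) := by
    apply mul_left_cancel₀ (pow_ne_zero 3 hp0)
    linear_combination -hs
  have h3 : p ∣ m := by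
    have : p ∣ m ^ 3 * (9 * c - z ^ 2) := by
      rw [h2, pow_two, mul_assoc]; exact Dvd.intro _ rfl
    exact hp.dvd_of_dvd_pow ((hp.dvd_or_dvd this).resolve_right h9)
  obtain ⟨m', rfl⟩ := h3
  have h4 : p * (m' ^ 3 * (9 * c - z ^ 2)) = 2 ^ 6 * z ^ 2 * Δ * D' ^ 5 := by
    apply mul_left_cancel₀ (pow_ne_zero 2 hp0)
    linear_combination h2
  have h5 : p ∣ 2 ^ 6 * z ^ 2 * Δ * D' ^ 5 := by rw [← h4]; exact Dvd.intro _ rfl
  rcases hp.dvd_or_dvd h5 with h | h
  · rcases hp.dvd_or_dvd h with h | h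
    · rcases hp.dvd_or_dvd h with h | h
      · exact hp2 (hp.dvd_of_dvd_pow h)
      · exact hpz (hp.dvd_of_dvd_pow h)
    · exact hpΔ h
  · exact hD' (hp.dvd_of_dvd_pow h)

theorem local_root_mod {p : ℤ} (hp : Prime p) {c d Δ D z : ℤ}
    (hrel : c ^ 3 - d ^ 2 = Δ * D ^ 5) (hpD : p ∣ D)
    (hpc : ¬ p ∣ c) (hp2 : ¬ p ∣ 2) (h9 : p ∣ 9 * c - z ^ 2) (hz : quart c d z = 0) :
    p ∣ c * z - 3 * d := by
  obtain ⟨k, hk⟩ := h9
  have hz2 : z ^ 2 = 9 * c - p * k := by linarith
  have hd : p ∣ 2 ^ 3 * (3 * c ^ 2 - d * z) := by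
    have : 2 ^ 3 * (3 * c ^ 2 - d * z) = p * (18 * c * k - p * k ^ 2 - 6 * c * k) := by
      have hq := hz
      unfold quart at hq
      have hz4 : z ^ 4 = (9 * c - p * k) ^ 2 := by rw [← hz2]; ring
      rw [hz4, hz2] at hq
      linear_combination hq
    rw [this]; exact Dvd.intro _ rfl
  have h3 : p ∣ 3 * c ^ 2 - d * z := by
    rcases hp.dvd_or_dvd hd with h | h
    · exact absurd (hp.dvd_of_dvd_pow h) hp2
    · exact h
  have hcd : p ∣ c ^ 3 - d ^ 2 := by
    rw [hrel]; exact (hpD.pow (by norm_num)).mul_left _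
  have h4 : p ∣ c ^ 2 * (c * z - 3 * d) := by
    have : c ^ 2 * (c * z - 3 * d) = (c ^ 3 - d ^ 2) * z - d * (3 * c ^ 2 - d * z) := by ring
    rw [this]
    exact dvd_sub (hcd.mul_right _) (h3.mul_left _)
  rcases hp.dvd_or_dvd h4 with h | h
  · exact absurd (hp.dvd_of_dvd_pow h) hpc
  · exact h

theorem local_deriv {p : ℤ} (hp : Prime p) {c d z : ℤ}
    (hpc : ¬ p ∣ c) (hp2 : ¬ p ∣ 2) (hp3 : ¬ p ∣ 3) (h9 : p ∣ 9 * c - z ^ 2)
    (hz : quart c d z = 0) :
    ¬ p ∣ 4 * z ^ 3 - 12 * c * z - 8 * d := by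
  intro h
  obtain ⟨k, hk⟩ := h9
  have hz2 : z ^ 2 = 9 * c - p * k := by linarith
  have hq := hz
  unfold quart at hq
  have h1 : p ∣ 2 ^ 6 * (3 * c ^ 2) := by
    have h2 : p ∣ z * (4 * z ^ 3 - 12 * c * z - 8 * d) := h.mul_left _
    have h3 : z * (4 * z ^ 3 - 12 * c * z - 8 * d) =
        2 ^ 6 * (3 * c ^ 2) + p * (-54 * c * k + 3 * p * k ^ 2 + 6 * c * k) := by
      have h4 : z * (4 * z ^ 3 - 12 * c * z - 8 * d) =
          3 * (z ^ 2) ^ 2 - 6 * c * z ^ 2 + 3 * c ^ 2 := by linear_combination hq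
      rw [h4, hz2]; ring
    rw [h3] at h2
    exact (Int.dvd_add_left (Dvd.intro _ rfl)).mp h2
  rcases hp.dvd_or_dvd h1 with h | h
  · exact hp2 (hp.dvd_of_dvd_pow h)
  · rcases hp.dvd_or_dvd h with h | h
    · exact hp3 h
    · exact hpc (hp.dvd_of_dvd_pow h)

end local_analysis

section final

theorem rootMult_pow (θ : ℂ) (p : ℂ[X]) (k : ℕ) :
    rootMultiplicity θ (p ^ k) = k * rootMultiplicity θ p := by
  rw [← count_roots, roots_pow, Multiset.count_nsmul, count_roots]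

/-- The quartic has no polynomial root of degree at most `10` over `ℂ`. -/
theorem no_poly_root (a b s : ℂ) (hab : a ^ 3 - b ^ 2 ≠ 0) (n : ℂ) (hn : n ≠ 0) (P : ℂ[X])
    (hP : P.natDegree ≤ 10)
    (hroot : quart (C n ^ 2 * C20 (C a) (C b) (X + C s)) (C n ^ 3 * C30 (C a) (C b) (X + C s)) P
      = 0) : False := by
  set A : ℂ[X] := C20 (C a) (C b) (X + C s) with hA
  set B : ℂ[X] := C30 (C a) (C b) (X + C s) with hB
  set D : ℂ[X] := D12 (C a) (C b) (X + C s) with hD
  have hcomp : (D12 (C a) (C b) (X : ℂ[X])).comp (X + C s) = D := by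
    have := map_D12 (compRingHom (X + C s : ℂ[X])) (C a) (C b) X
    simpa [coe_compRingHom_apply] using this
  have hcompA : (C20 (C a) (C b) (X : ℂ[X])).comp (X + C s) = A := by
    have := map_C20 (compRingHom (X + C s : ℂ[X])) (C a) (C b) X
    simpa [coe_compRingHom_apply] using this
  have hAdeg : A.natDegree ≤ 20 := by
    rw [← hcompA, natDegree_comp, natDegree_X_add_C, mul_one]
    exact natDegree_C20_le a b
  have hDdeg : 11 ≤ D.natDegree := by
    rw [← hcomp, natDegree_comp, natDegree_X_add_C, mul_one]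
    by_cases h12 : (D12 (C a) (C b) (X : ℂ[X])).coeff 12 = 0
    · refine le_natDegree_of_ne_zero ?_
      intro h11
      rw [coeff_D12_12] at h12
      rw [coeff_D12_11] at h11
      apply hab
      have hfac : a * b * (513 * a ^ 3 - 512 * b ^ 2) = 0 := by linear_combination h11 / 120
      rcases mul_eq_zero.mp hfac with h | h
      · rcases mul_eq_zero.mp h with h | h
        · subst h
          have hb : b ^ 4 = 0 := by linear_combination h12 / 102400
          have hb0 : b = 0 := pow_eq_zero_iff (by norm_num) |>.mp hb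
          rw [hb0]; ring
        · subst h
          have ha : a ^ 6 = 0 := by linear_combination h12 / 91125
          have ha0 : a = 0 := pow_eq_zero_iff (by norm_num) |>.mp ha
          rw [ha0]; ring
      · have hb2 : b ^ 2 = 513 / 512 * a ^ 3 := by linear_combination -h / 512
        have hb4 : b ^ 4 = (513 / 512) ^ 2 * a ^ 6 := by
          have : b ^ 4 = (b ^ 2) ^ 2 := by ring
          rw [this, hb2]; ring
        have ha : a ^ 6 = 0 := by
          rw [hb4, mul_assoc, hb2] at h12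
          have h13 : (102400 * (513 / 512) ^ 2 - 193536 * (513 / 512) + 91125 : ℂ) * a ^ 6 = 0 := by
            linear_combination h12
          rcases mul_eq_zero.mp h13 with h | h
          · norm_num at h
          · exact h
        have ha0 : a = 0 := pow_eq_zero_iff (by norm_num) |>.mp ha
        rw [hb2, ha0]; ring
    · exact (by norm_num : 11 ≤ 12).trans (le_natDegree_of_ne_zero h12)
  have hD0 : D ≠ 0 := by
    intro h; rw [h, natDegree_zero] at hDdeg; omega
  -- evaluation facts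
  have hbez : ∀ θ : ℂ, D.eval θ = 0 → A.eval θ ≠ 0 := by
    intro θ h1 h2
    have hb := bezout a b (θ + s)
    have e1 : D.eval θ = D12 a b (θ + s) := by
      have := map_D12 (evalRingHom θ) (C a) (C b) (X + C s)
      simpa using this
    have e2 : A.eval θ = C20 a b (θ + s) := by
      have := map_C20 (evalRingHom θ) (C a) (C b) (X + C s)
      simpa using this
    rw [← e1, ← e2, h1, h2, mul_zero, mul_zero, add_zero] at hb
    have : (2 ^ 26 * 3 ^ 12 * 5 ^ 5 * (a ^ 3 - b ^ 2) ^ 6 : ℂ) ≠ 0 :=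
      mul_ne_zero (by norm_num) (pow_ne_zero 6 hab)
    exact this hb.symm
  have hder : ∀ θ : ℂ, D.eval θ = 0 → (derivative D).eval θ ≠ 0 := by
    intro θ h1 h2
    apply hbez θ h1
    have e3 : derivative D = D12d (C a) (C b) (X + C s) := by
      rw [← hcomp, derivative_comp, derivative_D12]
      have := map_D12d (compRingHom (X + C s : ℂ[X])) (C a) (C b) X
      simp only [coe_compRingHom_apply, C_comp, X_comp] at this
      rw [this]
      simp
    have h3 := D12d_sq (C a) (C b) (X + C s)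
    rw [← e3, ← hD, ← hA] at h3
    have h4 := congrArg (eval θ) h3
    simp only [eval_pow, eval_add, eval_mul, h1, h2, eval_ofNat] at h4
    have : (144 : ℂ) * A.eval θ = 0 := by linear_combination -h4
    exact (mul_eq_zero.mp this).resolve_left (by norm_num)
  -- the star relation
  have hrel : A ^ 3 - B ^ 2 = (C a ^ 3 - C b ^ 2) * D ^ 5 := C20_pow_sub_C30_sq _ _ _
  have hstar : (9 * (C n ^ 2 * A) - P ^ 2) * (P ^ 2 - C n ^ 2 * A) ^ 3 =
      C (64 * n ^ 6 * (a ^ 3 - b ^ 2)) * (P ^ 2 * D ^ 5) := by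
    have h1 := star (C n ^ 2 * A) (C n ^ 3 * B) P
    rw [hroot, zero_mul, sub_eq_zero] at h1
    rw [← h1]
    have h2 : (C n ^ 2 * A) ^ 3 - (C n ^ 3 * B) ^ 2 = C n ^ 6 * (A ^ 3 - B ^ 2) := by ring
    rw [h2, hrel]
    simp only [C_mul, C_sub, C_pow, map_ofNat]
    ring
  have hPne : ∀ θ : ℂ, D.eval θ = 0 → P.eval θ ≠ 0 := by
    intro θ h1 h2
    have h3 := congrArg (eval θ) hroot
    simp only [quart, eval_sub, eval_mul, eval_pow, eval_C, eval_ofNat, eval_zero, h2] at h3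
    have h4 : (n ^ 2 * A.eval θ) ^ 2 = 0 := by linear_combination -h3 / 3
    have h5 : n ^ 2 * A.eval θ = 0 := pow_eq_zero_iff (by norm_num) |>.mp h4
    exact hbez θ h1 ((mul_eq_zero.mp h5).resolve_left (pow_ne_zero 2 hn))
  -- a root exists
  obtain ⟨θ₀, hθ₀⟩ : ∃ θ, IsRoot D θ := by
    apply IsAlgClosed.exists_root
    intro h
    have := natDegree_eq_zero_iff_degree_le_zero.mpr h.le
    omega
  have hP0 : P ≠ 0 := by
    intro h; exact hPne θ₀ hθ₀ (by rw [h, eval_zero])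
  have hcst : (64 * n ^ 6 * (a ^ 3 - b ^ 2) : ℂ) ≠ 0 :=
    mul_ne_zero (mul_ne_zero (by norm_num) (pow_ne_zero 6 hn)) hab
  have hrhs : C (64 * n ^ 6 * (a ^ 3 - b ^ 2)) * (P ^ 2 * D ^ 5) ≠ 0 :=
    mul_ne_zero (C_ne_zero.mpr hcst) (mul_ne_zero (pow_ne_zero 2 hP0) (pow_ne_zero 5 hD0))
  have hlhs := hrhs
  rw [← hstar] at hlhs
  have hQ1 : (9 * (C n ^ 2 * A) - P ^ 2) ≠ 0 := left_ne_zero_of_mul hlhs
  have hQ2 : (P ^ 2 - C n ^ 2 * A) ^ 3 ≠ 0 := right_ne_zero_of_mul hlhs
  have hQ2' : (P ^ 2 - C n ^ 2 * A) ≠ 0 := fun h => hQ2 (by rw [h]; ring)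
  -- multiplicities
  have hmult : ∀ θ : ℂ, D.eval θ = 0 → 5 ≤ rootMultiplicity θ (9 * (C n ^ 2 * A) - P ^ 2) := by
    intro θ hθ
    have hm := congrArg (rootMultiplicity θ) hstar
    rw [rootMultiplicity_mul hlhs, rootMultiplicity_mul hrhs,
      rootMultiplicity_mul (mul_ne_zero (pow_ne_zero 2 hP0) (pow_ne_zero 5 hD0)),
      rootMultiplicity_C, rootMult_pow, rootMult_pow, rootMult_pow] at hm
    have hDm : rootMultiplicity θ D = 1 := by
      have h1 : 1 ≤ rootMultiplicity θ D := (rootMultiplicity_pos hD0).mpr hθ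
      have h2 : ¬ 1 < rootMultiplicity θ D := by
        rw [one_lt_rootMultiplicity_iff_isRoot hD0]
        rintro ⟨-, h⟩
        exact hder θ hθ h
      omega
    have hPm : rootMultiplicity θ P = 0 := by
      rw [rootMultiplicity_eq_zero_iff]
      intro h; exact absurd h (hPne θ hθ)
    rw [hDm, hPm] at hm
    by_cases hc : (P ^ 2 - C n ^ 2 * A).eval θ = 0
    · have h9 : (9 * (C n ^ 2 * A) - P ^ 2).eval θ ≠ 0 := by
        intro h
        simp only [eval_sub, eval_mul, eval_pow, eval_C, eval_ofNat] at h hc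
        have h8 : n ^ 2 * A.eval θ = 0 := by linear_combination (h + hc) / 8
        exact hbez θ hθ ((mul_eq_zero.mp h8).resolve_left (pow_ne_zero 2 hn))
      have h0 : rootMultiplicity θ (9 * (C n ^ 2 * A) - P ^ 2) = 0 := by
        rw [rootMultiplicity_eq_zero_iff]
        intro h; exact absurd h h9
      rw [h0] at hm
      omega
    · have h0 : rootMultiplicity θ (P ^ 2 - C n ^ 2 * A) = 0 := by
        rw [rootMultiplicity_eq_zero_iff]
        intro h; exact absurd h hc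
      rw [h0] at hm
      omega
  -- counting
  have hle : 5 • D.roots ≤ (9 * (C n ^ 2 * A) - P ^ 2).roots := by
    rw [Multiset.le_iff_count]
    intro θ
    rw [Multiset.count_nsmul, count_roots, count_roots]
    by_cases hθ : D.eval θ = 0
    · have hDm : rootMultiplicity θ D ≤ 1 := by
        by_contra h
        have := (one_lt_rootMultiplicity_iff_isRoot hD0).mp (not_le.mp h)
        exact hder θ hθ this.2
      have := hmult θ hθ
      omega
    · have : rootMultiplicity θ D = 0 := by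
        rw [rootMultiplicity_eq_zero_iff]
        intro h; exact absurd h hθ
      omega
  have hcard := Multiset.card_le_card hle
  rw [Multiset.card_nsmul] at hcard
  have h1 : Multiset.card D.roots = D.natDegree :=
    (IsAlgClosed.splits D).natDegree_eq_card_roots.symm
  have h2 := card_roots' (9 * (C n ^ 2 * A) - P ^ 2)
  have h3 : (9 * (C n ^ 2 * A) - P ^ 2).natDegree ≤ 20 := by
    refine (natDegree_sub_le _ _).trans (max_le ?_ ?_)
    · have : (9 * (C n ^ 2 * A) : ℂ[X]) = C (9 * n ^ 2) * A := by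
        simp only [C_mul, C_pow, map_ofNat]; ring
      rw [this]
      exact (natDegree_C_mul_le _ _).trans hAdeg
    · exact natDegree_pow_le.trans (by omega)
  rw [h1] at hcard
  omega

end final

section main

theorem eval_D12 (a b s τ : ℤ) :
    (D12 (C a) (C b) (X + C s) : ℤ[X]).eval τ = D12 a b (τ + s) := by
  have := map_D12 (evalRingHom τ) (C a) (C b) (X + C s)
  simpa using this

theorem eval_C20 (a b s τ : ℤ) :
    (C20 (C a) (C b) (X + C s) : ℤ[X]).eval τ = C20 a b (τ + s) := by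
  have := map_C20 (evalRingHom τ) (C a) (C b) (X + C s)
  simpa using this

theorem eval_C30 (a b s τ : ℤ) :
    (C30 (C a) (C b) (X + C s) : ℤ[X]).eval τ = C30 a b (τ + s) := by
  have := map_C30 (evalRingHom τ) (C a) (C b) (X + C s)
  simpa using this

theorem D12_zero {R : Type*} [CommRing R] (a b : R) : D12 a b 0 = 1 := by
  simp [D12, D12_0]

theorem C20_zero {R : Type*} [CommRing R] (a b : R) : C20 a b 0 = a := by
  simp [C20, C20_0, C20_1, C20_2]

theorem C30_zero {R : Type*} [CommRing R] (a b : R) : C30 a b 0 = b := by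
  simp [C30, C30_0, C30_1, C30_2, C30_3, C30_4, C30_5]

theorem sub_dvd_D12_sub (a b s t : ℤ) : s - t ∣ D12 a b s - D12 a b t := by
  have := sub_dvd_eval_sub s t (D12 (C a) (C b) (X + C 0) : ℤ[X])
  simpa only [eval_D12, add_zero] using this

theorem sub_dvd_C20_sub (a b s t : ℤ) : s - t ∣ C20 a b s - C20 a b t := by
  have := sub_dvd_eval_sub s t (C20 (C a) (C b) (X + C 0) : ℤ[X])
  simpa only [eval_C20, add_zero] using this

theorem sub_dvd_C30_sub (a b s t : ℤ) : s - t ∣ C30 a b s - C30 a b t := by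
  have := sub_dvd_eval_sub s t (C30 (C a) (C b) (X + C 0) : ℤ[X])
  simpa only [eval_C30, add_zero] using this

theorem natDegree_C20_shift_le (a b s : ℤ) :
    (C20 (C a) (C b) (X + C s) : ℤ[X]).natDegree ≤ 20 := by
  have h : (C20 (C a) (C b) (X : ℤ[X])).comp (X + C s) = C20 (C a) (C b) (X + C s) := by
    have := map_C20 (compRingHom (X + C s : ℤ[X])) (C a) (C b) X
    simpa [coe_compRingHom_apply] using this
  rw [← h, natDegree_comp, natDegree_X_add_C, mul_one]
  exact natDegree_C20_le a b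

theorem natDegree_C30_shift_le (a b s : ℤ) :
    (C30 (C a) (C b) (X + C s) : ℤ[X]).natDegree ≤ 30 := by
  have h : (C30 (C a) (C b) (X : ℤ[X])).comp (X + C s) = C30 (C a) (C b) (X + C s) := by
    have := map_C30 (compRingHom (X + C s : ℤ[X])) (C a) (C b) X
    simpa [coe_compRingHom_apply] using this
  rw [← h, natDegree_comp, natDegree_X_add_C, mul_one]
  exact natDegree_C30_le a b

/-- A prime dividing `D12 a b t` and not dividing `t` and `30 (a³-b²)` does not divide `C20`. -/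
theorem not_dvd_C20 {p : ℤ} (hp : Prime p) (a b t : ℤ) (hpD : p ∣ D12 a b t)
    (hp30 : ¬ p ∣ 30 * (a ^ 3 - b ^ 2)) : ¬ p ∣ C20 a b t := by
  intro h
  have hb := bezout a b t
  have h1 : p ∣ 2 ^ 26 * 3 ^ 12 * 5 ^ 5 * (a ^ 3 - b ^ 2) ^ 6 := by
    rw [← hb]; exact dvd_add (hpD.mul_left _) (h.mul_left _)
  have h30 : (30 : ℤ) = 2 * 3 * 5 := by norm_num
  rcases hp.dvd_or_dvd h1 with h | h
  · rcases hp.dvd_or_dvd h with h | h
    · rcases hp.dvd_or_dvd h with h | h
      · exact hp30 (((hp.dvd_of_dvd_pow h).trans ⟨15, by norm_num⟩ : p ∣ 30).mul_right _)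
      · exact hp30 (((hp.dvd_of_dvd_pow h).trans ⟨10, by norm_num⟩ : p ∣ 30).mul_right _)
    · exact hp30 (((hp.dvd_of_dvd_pow h).trans ⟨6, by norm_num⟩ : p ∣ 30).mul_right _)
  · exact hp30 ((hp.dvd_of_dvd_pow h).mul_left _)

/-- there is a parameter for which `D12` is not `0, 1, -1` -/
theorem exists_D12_large (a b M : ℤ) (hab : a ^ 3 - b ^ 2 ≠ 0) (hM : 1 ≤ M) :
    ∃ n : ℕ, (D12 a b (M * n)).natAbs ≠ 1 ∧ D12 a b (M * n) ≠ 0 := by
  by_contra hcon
  push Not at hcon
  set D : ℤ[X] := D12 (C a) (C b) (X + C 0) with hD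
  have h0 : (D - 1) * D * (D + 1) = 0 := by
    apply Polynomial.eq_zero_of_infinite_isRoot
    have hinj : Function.Injective fun n : ℕ => M * (n : ℤ) := by
      intro i j hij
      have hM0 : M ≠ 0 := by omega
      exact_mod_cast mul_left_cancel₀ hM0 hij
    refine (Set.infinite_range_of_injective hinj).mono ?_
    rintro _ ⟨n, rfl⟩
    show IsRoot _ _
    rw [IsRoot, eval_mul, eval_mul, eval_sub, eval_add, eval_one, hD, eval_D12, add_zero]
    by_cases h : (D12 a b (M * n)).natAbs = 1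
    · rcases Int.natAbs_eq_iff.mp h with h | h <;> rw [h] <;> simp
    · rw [hcon n h]; simp
  have hcst : ∃ c : ℤ, D = C c := by
    rcases mul_eq_zero.mp h0 with h | h
    · rcases mul_eq_zero.mp h with h | h
      · exact ⟨1, by rw [C_1]; linear_combination h⟩
      · exact ⟨0, by rw [C_0]; exact h⟩
    · exact ⟨-1, by rw [C_neg, C_1]; linear_combination h⟩
  obtain ⟨c, hc⟩ := hcst
  rw [hD, C_0, add_zero, D12_poly] at hc
  have h2 := congrArg (fun p => coeff p 2) hc
  have h3 := congrArg (fun p => coeff p 3) hc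
  simp only [coeff_add, coeff_C_mul, coeff_X_pow, coeff_one, coeff_C] at h2 h3
  norm_num at h2 h3
  apply hab
  rw [h2, h3]; norm_num

theorem exists_no_root (a b M : ℤ) (hab : a ^ 3 - b ^ 2 ≠ 0) (hM : 1 ≤ M)
    (h330 : 330 * (a ^ 3 - b ^ 2) ∣ M) :
    ∃ t : ℤ, M ∣ t ∧ ∀ z : ℤ, quart (C20 a b t) (C30 a b t) z ≠ 0 := by
  by_contra hcon
  push Not at hcon
  -- the prime p
  obtain ⟨n, hn1, hn0⟩ := exists_D12_large a b M hab hM
  obtain ⟨p, hp, hpd⟩ := Nat.exists_prime_and_dvd hn1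
  have hpD : (p : ℤ) ∣ D12 a b (M * n) := Int.natCast_dvd.mpr hpd
  have hpr : Prime (p : ℤ) := Nat.prime_iff_prime_int.mp hp
  have hpM : ¬ (p : ℤ) ∣ M := by
    intro h
    have h1 := sub_dvd_D12_sub a b (M * n) 0
    rw [sub_zero, D12_zero] at h1
    have h2 : (p : ℤ) ∣ D12 a b (M * n) - 1 := (h.mul_right _).trans h1
    have h3 : (p : ℤ) ∣ 1 := by
      have := dvd_sub hpD h2
      rwa [sub_sub_cancel] at this
    exact hpr.not_isUnit (isUnit_of_dvd_one h3)
  have hp330 : ¬ (p : ℤ) ∣ 330 * (a ^ 3 - b ^ 2) := fun h => hpM (h.trans h330)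
  have hp30 : ¬ (p : ℤ) ∣ 30 * (a ^ 3 - b ^ 2) := fun h => hp330 (by
    have : 330 * (a ^ 3 - b ^ 2) = 11 * (30 * (a ^ 3 - b ^ 2)) := by ring
    rw [this]; exact h.mul_left _)
  have hpΔ : ¬ (p : ℤ) ∣ a ^ 3 - b ^ 2 := fun h => hp30 (h.mul_left _)
  have hp2 : ¬ (p : ℤ) ∣ 2 := fun h => hp30 ((h.trans ⟨15, by norm_num⟩ : (p : ℤ) ∣ 30).mul_right _)
  have hp3 : ¬ (p : ℤ) ∣ 3 := fun h => hp30 ((h.trans ⟨10, by norm_num⟩ : (p : ℤ) ∣ 30).mul_right _)
  -- the base point t₁
  obtain ⟨t₁, hMt, hpt₁, hp2t₁⟩ : ∃ t₁ : ℤ, M ∣ t₁ ∧ (p : ℤ) ∣ D12 a b t₁ ∧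
      ¬ (p : ℤ) ^ 2 ∣ D12 a b t₁ := by
    by_cases h2 : (p : ℤ) ^ 2 ∣ D12 a b (M * n)
    · refine ⟨M * n + M * p, dvd_add (Dvd.intro _ rfl) (Dvd.intro _ rfl), ?_, ?_⟩
      · have h3 := sub_dvd_D12_sub a b (M * n + M * p) (M * n)
        rw [add_sub_cancel_left] at h3
        have h4 : (p : ℤ) ∣ D12 a b (M * n + M * p) - D12 a b (M * n) :=
          (Dvd.intro_left _ rfl : (p : ℤ) ∣ M * p).trans h3
        have := dvd_add h4 hpD
        rwa [sub_add_cancel] at this
      · intro h3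
        obtain ⟨k, hk⟩ := binomExpansion (D12 (C a) (C b) (X + C 0) : ℤ[X]) (M * n) (M * p)
        rw [eval_D12, eval_D12, add_zero, add_zero] at hk
        have hder : derivative (D12 (C a) (C b) (X + C 0) : ℤ[X]) = D12d (C a) (C b) X := by
          rw [C_0, add_zero, derivative_D12]
        have hev : (D12d (C a) (C b) X : ℤ[X]).eval (M * n) = D12d a b (M * n) := by
          have := map_D12d (evalRingHom (M * (n : ℤ))) (C a) (C b) X
          simpa using this
        rw [hder, hev] at hk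
        have h4 : (p : ℤ) ^ 2 ∣ D12d a b (M * n) * (M * p) := by
          have e : D12d a b (M * n) * (M * p) =
              D12 a b (M * n + M * p) - D12 a b (M * n) - (p : ℤ) ^ 2 * (k * M ^ 2) := by
            rw [hk]; ring
          rw [e]
          exact dvd_sub (dvd_sub h3 h2) (Dvd.intro _ rfl)
        have h5 : (p : ℤ) ∣ D12d a b (M * n) * M := by
          have hp0 : (p : ℤ) ≠ 0 := hpr.ne_zero
          apply (mul_dvd_mul_iff_left hp0).mp
          rw [← pow_two]
          have : (p : ℤ) * (D12d a b (M * n) * M) = D12d a b (M * n) * (M * p) := by ring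
          rw [this]; exact h4
        have h6 : (p : ℤ) ∣ D12d a b (M * n) := (hpr.dvd_or_dvd h5).resolve_right hpM
        have h7 := D12d_sq a b (M * n)
        have h8 : (p : ℤ) ∣ 144 * C20 a b (M * n) := by
          have e : 144 * C20 a b (M * n) =
              D12d a b (M * n) ^ 2 - 12 * D12 a b (M * n) * D12e a b (M * n) := by
            rw [h7]; ring
          rw [e]
          exact dvd_sub (h6.pow (by norm_num)) ((hpD.mul_left _).mul_right _)
        rcases hpr.dvd_or_dvd h8 with h | h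
        · have : (144 : ℤ) = 2 ^ 4 * 3 ^ 2 := by norm_num
          rw [this] at h
          rcases hpr.dvd_or_dvd h with h | h
          · exact hp2 (hpr.dvd_of_dvd_pow h)
          · exact hp3 (hpr.dvd_of_dvd_pow h)
        · exact not_dvd_C20 hpr a b _ hpD hp30 h
    · exact ⟨M * n, Dvd.intro _ rfl, hpD, h2⟩
  -- the base root
  obtain ⟨z₀, hz₀⟩ := hcon t₁ hMt
  have hpc₁ : ¬ (p : ℤ) ∣ C20 a b t₁ := not_dvd_C20 hpr a b _ hpt₁ hp30
  have h9₁ := local_root hpr (C20_pow_sub_C30_sq a b t₁) hpt₁ hp2t₁ hpc₁ hp2 hpΔ hz₀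
  have hmod₁ := local_root_mod hpr (C20_pow_sub_C30_sq a b t₁) hpt₁ hpc₁ hp2 h9₁ hz₀
  have hder₁ := local_deriv hpr hpc₁ hp2 hp3 h9₁ hz₀
  obtain ⟨P, m, hm, hPdeg, hP⟩ := exists_poly_root (C20 (C a) (C b) (X + C t₁))
    (C30 (C a) (C b) (X + C t₁)) (natDegree_C20_shift_le a b t₁) (natDegree_C30_shift_le a b t₁)
    z₀ M hM p hp (by rw [eval_C20, eval_C30, zero_add]; exact hz₀)
    (by rw [eval_C20, eval_C30, zero_add]; exact hder₁) (by
      intro k hk
      obtain ⟨z, hz⟩ := hcon (M * (p : ℤ) ^ k + t₁) (dvd_add (Dvd.intro _ rfl) hMt)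
      refine ⟨z, ?_, by rw [eval_C20, eval_C30]; exact hz⟩
      have hp2k : (p : ℤ) ^ 2 ∣ M * (p : ℤ) ^ k := (pow_dvd_pow _ hk).mul_left _
      have hpk : (p : ℤ) ∣ M * (p : ℤ) ^ k := (dvd_pow_self _ (by norm_num)).trans hp2k
      set t := M * (p : ℤ) ^ k + t₁ with ht
      have hdiff : t - t₁ = M * (p : ℤ) ^ k := by rw [ht]; ring
      have hDt : (p : ℤ) ^ 2 ∣ D12 a b t - D12 a b t₁ :=
        hp2k.trans (hdiff ▸ sub_dvd_D12_sub a b t t₁)
      have hCt : (p : ℤ) ∣ C20 a b t - C20 a b t₁ :=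
        hpk.trans (hdiff ▸ sub_dvd_C20_sub a b t t₁)
      have hdt : (p : ℤ) ∣ C30 a b t - C30 a b t₁ :=
        hpk.trans (hdiff ▸ sub_dvd_C30_sub a b t t₁)
      have hpt : (p : ℤ) ∣ D12 a b t := by
        have := dvd_add ((dvd_pow_self _ (by norm_num)).trans hDt) hpt₁
        rwa [sub_add_cancel] at this
      have hp2t : ¬ (p : ℤ) ^ 2 ∣ D12 a b t := by
        intro h
        apply hp2t₁
        have := dvd_sub h hDt
        rwa [sub_sub_cancel] at this
      have hpc : ¬ (p : ℤ) ∣ C20 a b t := not_dvd_C20 hpr a b _ hpt hp30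
      have h9 := local_root hpr (C20_pow_sub_C30_sq a b t) hpt hp2t hpc hp2 hpΔ hz
      have hmod := local_root_mod hpr (C20_pow_sub_C30_sq a b t) hpt hpc hp2 h9 hz
      have hfin : (p : ℤ) ∣ C20 a b t₁ * (z - z₀) := by
        have e : C20 a b t₁ * (z - z₀) = (C20 a b t * z - 3 * C30 a b t)
            - (C20 a b t₁ * z₀ - 3 * C30 a b t₁) - (C20 a b t - C20 a b t₁) * z
            + 3 * (C30 a b t - C30 a b t₁) := by ring
        rw [e]
        exact dvd_add (dvd_sub (dvd_sub hmod hmod₁) (hCt.mul_right _)) (hdt.mul_left _)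
      exact (hpr.dvd_or_dvd hfin).resolve_left hpc₁)
  -- contradiction over ℂ
  refine no_poly_root (a : ℂ) (b : ℂ) (t₁ : ℂ) ?_ (m : ℂ) (by exact_mod_cast hm)
    (P.map (Int.castRingHom ℂ)) (natDegree_map_le.trans hPdeg) ?_
  · exact_mod_cast hab
  · have h := congrArg (mapRingHom (Int.castRingHom ℂ)) hP
    rw [map_quart, map_mul, map_mul, map_pow, map_pow, map_C20, map_C30, map_zero] at h
    simpa using h

end main

end Fermat.Agent.H98
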