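import Fermat.Agent.H3LTFam
import Fermat.Agent.H52Tors
import Fermat.Agent.H98Model
import Fermat.Agent.H62FrobCharpoly

/-!
# The mod 3 congruence of point counts for the Hesse pencil

The projective linear map `(x, y, 1) ↦ (G x - 3 L, D y, l - m x / 3)` maps the 3-torsion of
`y² = x³ - 27 a x - 54 b` to the 3-torsion of the member `(l : m)` of the Hesse pencil and
preserves collinearity.
-/

set_option autoImplicit false
set_option linter.unusedSectionVars false

open WeierstrassCurve Fermat.Agent.H98 Fermat.Agent.H3LT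

namespace Fermat.Agent.H52

section Ring

variable {R : Type*} [CommRing R]

/-- transformed `D'(S, T)` -/
theorem hD_ST (a b l m z : R) :
    hD (hC4 a b l m) (hC6 a b l m) (z * hG a b l m - hL a b l m) (l - z * m) * hD a b l m =
      hD a b l m ^ 4 * hD a b z 1 := by
  have h := hD_comp a b l m (z * hG a b l m - hL a b l m) (l - z * m)
  have e := hD_eq a b l m
  have e1 : (z * hG a b l m - hL a b l m) * l + (l - z * m) * hL a b l m = hD a b l m * z := by
    linear_combination z * e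
  have e2 : (z * hG a b l m - hL a b l m) * m + (l - z * m) * hG a b l m = hD a b l m * 1 := by
    linear_combination e
  rw [e1, e2] at h
  have h3 : hD a b (hD a b l m * z) (hD a b l m * 1) = hD a b l m ^ 4 * hD a b z 1 := by
    generalize hD a b l m = d
    unfold hD; ring
  rw [← h3, ← h]; ring

/-- transformed `G'(S, T)` -/
theorem hG_ST (a b l m z : R) :
    hG (hC4 a b l m) (hC6 a b l m) (z * hG a b l m - hL a b l m) (l - z * m) =
      hD a b l m ^ 2 * ((l - z * m) * hG a b z 1 + m * hD a b z 1) := by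
  unfold hG hD hC4 hC6 hL
  ring

theorem hG_homog (a b s t c : R) : hG a b (c * s) (c * t) = c ^ 3 * hG a b s t := by
  unfold hG; ring

theorem hD_homog (a b s t c : R) : hD a b (c * s) (c * t) = c ^ 4 * hD a b s t := by
  unfold hD; ring

end Ring

section Field

variable {K : Type*} [Field K] [DecidableEq K]

/-- `(3 z, y)` is a 3-torsion point of `short a b` -/
def Is3 (a b : K) (p : K × K) : Prop := hD a b p.1 1 = 0 ∧ p.2 ^ 2 = 27 * hG a b p.1 1

/-- the point `(3 z, y)` -/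
noncomputable def P3 (a b : K) (p : K × K) : (short a b).toAffine.Point :=
  pt (short a b) (3 * p.1) p.2

/-- negation on parameters -/
def np (p : K × K) : K × K := (p.1, -p.2)

/-- the map from the 3-torsion of `short a b` to the 3-torsion of the member `(l : m)` -/
noncomputable def F3 (a b l m : K) (p : K × K) : K × K :=
  ((p.1 * hG a b l m - hL a b l m) / (l - p.1 * m), p.2 * hD a b l m / (l - p.1 * m))

omit [DecidableEq K] in
theorem t_ne_zero {a b l m z : K} (hD0 : hD a b l m ≠ 0) (hz : hD a b z 1 = 0) :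
    l - z * m ≠ 0 := by
  intro h
  apply hD0
  have hl : l = z * m := by linear_combination h
  rw [hl]
  have : hD a b (z * m) m = m ^ 4 * hD a b z 1 := by unfold hD; ring
  rw [this, hz, mul_zero]

omit [DecidableEq K] in
theorem Is3.np {a b : K} {p : K × K} (h : Is3 a b p) : Is3 a b (np p) :=
  ⟨h.1, by unfold H52.np; rw [neg_sq]; exact h.2⟩

omit [DecidableEq K] in
theorem F3_np (a b l m : K) (p : K × K) : F3 a b l m (np p) = np (F3 a b l m p) := by
  unfold F3 np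
  refine Prod.ext rfl ?_
  simp only
  rw [neg_mul, neg_div]

omit [DecidableEq K] in
theorem np_np (p : K × K) : np (np p) = p := by
  unfold np; simp

omit [DecidableEq K] in
theorem Is3.F {a b l m : K} (hD0 : hD a b l m ≠ 0) {p : K × K} (h : Is3 a b p) :
    Is3 (hC4 a b l m) (hC6 a b l m) (F3 a b l m p) := by
  obtain ⟨h1, h2⟩ := h
  have ht := t_ne_zero hD0 h1
  have hS := hD_ST a b l m p.1
  have hG' := hG_ST a b l m p.1
  rw [h1, mul_zero] at hS
  rw [h1, mul_zero, add_zero] at hG'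
  have hS' : hD (hC4 a b l m) (hC6 a b l m) (p.1 * hG a b l m - hL a b l m) (l - p.1 * m) = 0 :=
    (mul_eq_zero.mp hS).resolve_right hD0
  set S := p.1 * hG a b l m - hL a b l m with hSd
  set T := l - p.1 * m with hTd
  have eD := hD_homog (hC4 a b l m) (hC6 a b l m) (S / T) 1 T
  have eG := hG_homog (hC4 a b l m) (hC6 a b l m) (S / T) 1 T
  rw [mul_div_cancel₀ _ ht, mul_one] at eD eG
  rw [hS'] at eD
  rw [hG'] at eG
  constructor
  · have := (mul_eq_zero.mp eD.symm).resolve_left (pow_ne_zero 4 ht)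
    exact this
  · change (p.2 * hD a b l m / T) ^ 2 = 27 * hG (hC4 a b l m) (hC6 a b l m) (S / T) 1
    have e3 : hG (hC4 a b l m) (hC6 a b l m) (S / T) 1
        = hD a b l m ^ 2 * (T * hG a b p.1 1) / T ^ 3 := by
      rw [eq_div_iff (pow_ne_zero 3 ht), eG]; ring
    rw [e3, div_pow, mul_pow, h2]
    field_simp

variable (h2 : (2 : K) ≠ 0) (h3 : (3 : K) ≠ 0)

omit [DecidableEq K] in
include h2 h3 in
theorem Is3.y_ne_zero {a b : K} (hab : a ^ 3 - b ^ 2 ≠ 0) {p : K × K} (h : Is3 a b p) :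
    p.2 ≠ 0 := by
  intro hy
  obtain ⟨h1, h4⟩ := h
  rw [hy, zero_pow two_ne_zero] at h4
  have h27 : (27 : K) ≠ 0 := by
    have : (27 : K) = 3 ^ 3 := by norm_num
    rw [this]; exact pow_ne_zero _ h3
  have hG0 : hG a b p.1 1 = 0 := (mul_eq_zero.mp h4.symm).resolve_left h27
  set z := p.1
  unfold hG at hG0
  unfold hD at h1
  -- `a z² + 2 b z + a² = 0`
  have f1 : a * z ^ 2 + 2 * b * z + a ^ 2 = 0 := by
    apply mul_left_cancel₀ h3
    linear_combination z * hG0 - h1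
  have f2 : b * z ^ 2 + 2 * a ^ 2 * z + a * b = 0 := by
    apply mul_left_cancel₀ h2
    linear_combination z * f1 - a * hG0
  have f3 : z = 0 := by
    apply mul_left_cancel₀ (mul_ne_zero h2 hab)
    linear_combination a * f2 - b * f1
  rw [f3] at hG0 f1
  have hb : b = 0 := by
    apply mul_left_cancel₀ h2
    linear_combination -hG0
  have ha : a ^ 2 = 0 := by linear_combination f1
  apply hab
  rw [hb]
  linear_combination a * ha

omit [DecidableEq K] in
include h2 h3 in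
theorem Is3.nonsing {a b : K} (hab : a ^ 3 - b ^ 2 ≠ 0) {p : K × K}
    (h : p.2 ^ 2 = 27 * hG a b p.1 1) :
    (short a b).toAffine.Nonsingular (3 * p.1) p.2 := by
  apply short_nonsing h2 h3 hab
  rw [h]; unfold hG; ring

omit [DecidableEq K] in
include h2 h3 in
theorem P3_ne_zero {a b : K} (hab : a ^ 3 - b ^ 2 ≠ 0) {p : K × K}
    (h : Is3 a b p) : P3 a b p ≠ 0 := by
  unfold P3
  rw [pt_eq (Is3.nonsing h2 h3 hab h.2)]
  exact Affine.Point.some_ne_zero _

omit [DecidableEq K] in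
include h2 h3 in
theorem P3_inj {a b : K} (hab : a ^ 3 - b ^ 2 ≠ 0) {p q : K × K}
    (hp : Is3 a b p) (hq : Is3 a b q) (h : P3 a b p = P3 a b q) : p = q := by
  unfold P3 at h
  rw [pt_eq (Is3.nonsing h2 h3 hab hp.2), pt_eq (Is3.nonsing h2 h3 hab hq.2),
    Affine.Point.some.injEq] at h
  exact Prod.ext (mul_left_cancel₀ h3 h.1) h.2

omit [DecidableEq K] in
include h2 h3 in
theorem P3_np {a b : K} (hab : a ^ 3 - b ^ 2 ≠ 0) {p : K × K}
    (hp : Is3 a b p) : P3 a b (np p) = -P3 a b p := by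
  have n1 := Is3.nonsing h2 h3 hab hp.2
  have n2 := Is3.nonsing h2 h3 hab hp.np.2
  unfold P3
  rw [pt_eq n1, pt_eq n2, Affine.Point.neg_some, Affine.Point.some.injEq]
  refine ⟨rfl, ?_⟩
  change _ = -(p.2) - 0 * _ - 0
  unfold np; ring

include h2 h3 in
theorem P3_three {a b : K} (hab : a ^ 3 - b ^ 2 ≠ 0) {p : K × K}
    (hp : Is3 a b p) : P3 a b p + P3 a b p + P3 a b p = 0 := by
  have hy := hp.y_ne_zero h2 h3 hab
  have hneg := P3_np h2 h3 hab hp
  have n1 := Is3.nonsing h2 h3 hab hp.2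
  have n2 := Is3.nonsing h2 h3 hab hp.np.2
  have h2y : 2 * p.2 ≠ 0 := mul_ne_zero h2 hy
  have key : P3 a b p + P3 a b p = P3 a b (np p) := by
    unfold P3
    rw [pt_eq n1, pt_eq n2]
    have hz := hp.1
    have hG0 : hG a b p.1 1 ≠ 0 := by
      intro h0
      have := hp.2
      rw [h0, mul_zero] at this
      exact hy (pow_eq_zero_iff two_ne_zero |>.mp this)
    refine add_of (L := 27 * (p.1 ^ 2 - a) / (2 * p.2)) n1 n1 n2 (by ring)
      (fun _ => ⟨?_, ?_⟩) ?_ ?_
    · rw [← two_mul]; exact h2y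
    · rw [mul_div_cancel₀ _ h2y]; ring
    · change 3 * p.1 = _
      rw [div_pow, mul_pow 2, hp.2]
      have h4G : (2 : K) ^ 2 * (27 * hG a b p.1 1) ≠ 0 := by
        have h27 : (27 : K) ≠ 0 := by
          have : (27 : K) = 3 ^ 3 := by norm_num
          rw [this]; exact pow_ne_zero _ h3
        exact mul_ne_zero (pow_ne_zero _ h2) (mul_ne_zero h27 hG0)
      rw [eq_sub_iff_add_eq, eq_sub_iff_add_eq, eq_div_iff h4G]
      unfold hG
      unfold hD at hz
      linear_combination 243 * hz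
    · change -p.2 = -(p.2 + 27 * (p.1 ^ 2 - a) / (2 * p.2) * (3 * p.1 - 3 * p.1))
      ring
  rw [key, hneg]; abel

include h2 h3 in
/-- three distinct collinear points have sum zero -/
theorem col_sum {a b α β : K} (hab : a ^ 3 - b ^ 2 ≠ 0) {p1 p2 p3 : K × K}
    (q1 : p1.2 ^ 2 = 27 * hG a b p1.1 1) (q2 : p2.2 ^ 2 = 27 * hG a b p2.1 1)
    (q3 : p3.2 ^ 2 = 27 * hG a b p3.1 1) (h12 : p1.1 ≠ p2.1) (h13 : p1.1 ≠ p3.1)
    (h23 : p2.1 ≠ p3.1) (c1 : p1.2 = α * p1.1 + β) (c2 : p2.2 = α * p2.1 + β)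
    (c3 : p3.2 = α * p3.1 + β) : P3 a b p1 + P3 a b p2 + P3 a b p3 = 0 := by
  have n1 := Is3.nonsing h2 h3 hab q1
  have n2 := Is3.nonsing h2 h3 hab q2
  have n3 := Is3.nonsing h2 h3 hab q3
  have q3' : (np p3).2 ^ 2 = 27 * hG a b (np p3).1 1 := by
    unfold np; rw [neg_sq]; exact q3
  have n3' := Is3.nonsing h2 h3 hab q3'
  -- Vieta
  have v : 27 * (p1.1 + p2.1 + p3.1) = α ^ 2 := by
    rw [c1] at q1
    rw [c2] at q2
    rw [c3] at q3
    unfold hG at q1 q2 q3
    have d12 : 27 * (p1.1 ^ 2 + p1.1 * p2.1 + p2.1 ^ 2) - 81 * a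
        - α ^ 2 * (p1.1 + p2.1) - 2 * α * β = 0 := by
      apply mul_left_cancel₀ (sub_ne_zero.mpr h12)
      linear_combination q2 - q1
    have d13 : 27 * (p1.1 ^ 2 + p1.1 * p3.1 + p3.1 ^ 2) - 81 * a
        - α ^ 2 * (p1.1 + p3.1) - 2 * α * β = 0 := by
      apply mul_left_cancel₀ (sub_ne_zero.mpr h13)
      linear_combination q3 - q1
    apply mul_left_cancel₀ (sub_ne_zero.mpr h23)
    linear_combination d12 - d13
  have hn : P3 a b (np p3) = -P3 a b p3 := by
    unfold P3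
    rw [pt_eq n3, pt_eq n3', Affine.Point.neg_some, Affine.Point.some.injEq]
    refine ⟨rfl, ?_⟩
    change _ = -(p3.2) - 0 * _ - 0
    unfold np; ring
  have key : P3 a b p1 + P3 a b p2 = P3 a b (np p3) := by
    unfold P3
    rw [pt_eq n1, pt_eq n2, pt_eq n3']
    refine add_of (L := α / 3) n1 n2 n3' ?_ ?_ ?_ ?_
    · rw [c1, c2]; field_simp; ring
    · intro h; exact absurd (mul_left_cancel₀ h3 h) h12
    · change 3 * p3.1 = _
      rw [div_pow, ← v]; field_simp; ring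
    · change -p3.2 = _
      rw [c3, c1]; change _ = -(α * p1.1 + β + α / 3 * (3 * p3.1 - 3 * p1.1))
      field_simp; ring
  rw [key, hn]; abel

include h2 h3 in
/-- points of sum zero are collinear -/
theorem sum_col {a b : K} (hab : a ^ 3 - b ^ 2 ≠ 0) {p1 p2 p3 : K × K}
    (q1 : p1.2 ^ 2 = 27 * hG a b p1.1 1) (q2 : p2.2 ^ 2 = 27 * hG a b p2.1 1)
    (q3 : Is3 a b p3) (h12 : p1.1 ≠ p2.1)
    (hs : P3 a b p1 + P3 a b p2 + P3 a b p3 = 0) :
    ∃ α β : K, p1.2 = α * p1.1 + β ∧ p2.2 = α * p2.1 + β ∧ p3.2 = α * p3.1 + β := by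
  have n1 := Is3.nonsing h2 h3 hab q1
  have n2 := Is3.nonsing h2 h3 hab q2
  have n3' := Is3.nonsing h2 h3 hab q3.np.2
  have hne := sub_ne_zero.mpr h12
  obtain ⟨α, hαe⟩ : ∃ α : K, α * (p1.1 - p2.1) = p1.2 - p2.2 :=
    ⟨(p1.2 - p2.2) / (p1.1 - p2.1), div_mul_cancel₀ _ hne⟩
  obtain ⟨L, hL3⟩ : ∃ L : K, 3 * L = α := ⟨α / 3, mul_div_cancel₀ _ h3⟩
  obtain ⟨x3, hx3⟩ : ∃ x3 : K, x3 = L ^ 2 - 3 * p1.1 - 3 * p2.1 := ⟨_, rfl⟩
  obtain ⟨y3, hy3⟩ : ∃ y3 : K, y3 = -(p1.2 + L * (x3 - 3 * p1.1)) := ⟨_, rfl⟩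
  -- the sum as a nonsingular point
  have hns : (short a b).toAffine.Nonsingular x3 y3 := by
    apply short_nonsing h2 h3 hab
    have e1 := q1
    have e2 := q2
    unfold hG at e1 e2
    have hy2 : p2.2 = p1.2 - α * (p1.1 - p2.1) := by linear_combination hαe
    have d : 9 * (p1.1 ^ 2 + p1.1 * p2.1 + p2.1 ^ 2) - 27 * a
        = L * (2 * p1.2 - 3 * L * (p1.1 - p2.1)) := by
      apply mul_left_cancel₀ (mul_ne_zero h3 hne)
      rw [hy2, ← hL3] at e2
      linear_combination e2 - e1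
    rw [hy3, hx3]
    linear_combination e1 - (L ^ 2 - 3 * p1.1 - 3 * p2.1 - 3 * p1.1) * d
  have key : P3 a b p1 + P3 a b p2 = Affine.Point.some x3 y3 hns := by
    unfold P3
    rw [pt_eq n1, pt_eq n2]
    refine add_of (L := L) n1 n2 hns ?_ ?_ hx3 hy3
    · linear_combination hαe + (p1.1 - p2.1) * hL3
    · intro h; exact absurd (mul_left_cancel₀ h3 h) h12
  have hn := P3_np h2 h3 hab q3
  have e : P3 a b (np p3) = Affine.Point.some x3 y3 hns := by
    rw [hn, ← key]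
    exact (eq_neg_of_add_eq_zero_left hs).symm
  unfold P3 at e
  rw [pt_eq n3', Affine.Point.some.injEq] at e
  obtain ⟨f1, f2⟩ := e
  change 3 * p3.1 = x3 at f1
  change -p3.2 = y3 at f2
  refine ⟨α, p1.2 - α * p1.1, by ring, by linear_combination hαe, ?_⟩
  rw [← f1] at hy3
  rw [hy3] at f2
  linear_combination -f2 + (p3.1 - p1.1) * hL3

include h2 h3 in
/-- **transfer of three term relations** -/
theorem F3_sum {a b l m : K} (hab : a ^ 3 - b ^ 2 ≠ 0) (hD0 : hD a b l m ≠ 0)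
    (hab' : hC4 a b l m ^ 3 - hC6 a b l m ^ 2 ≠ 0) {p1 p2 p3 : K × K}
    (q1 : Is3 a b p1) (q2 : Is3 a b p2) (q3 : Is3 a b p3)
    (hs : P3 a b p1 + P3 a b p2 + P3 a b p3 = 0) :
    P3 (hC4 a b l m) (hC6 a b l m) (F3 a b l m p1) + P3 (hC4 a b l m) (hC6 a b l m) (F3 a b l m p2)
      + P3 (hC4 a b l m) (hC6 a b l m) (F3 a b l m p3) = 0 := by
  -- equal `z`-coordinates force equal points
  have aux : ∀ {r1 r2 r3 : K × K}, Is3 a b r1 → Is3 a b r2 → Is3 a b r3 →
      P3 a b r1 + P3 a b r2 + P3 a b r3 = 0 → r1.1 = r2.1 → r1 = r2 ∧ r3 = r1 := by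
    intro r1 r2 r3 s1 s2 s3 hs hz
    have hy : r1.2 ^ 2 = r2.2 ^ 2 := by rw [s1.2, s2.2, hz]
    rcases sq_eq_sq_iff_eq_or_eq_neg.mp hy with h | h
    · have e : r1 = r2 := Prod.ext hz h
      refine ⟨e, ?_⟩
      rw [← e] at hs
      have h3' := P3_three h2 h3 hab s1
      apply P3_inj h2 h3 hab s3 s1
      have := hs.trans h3'.symm
      exact add_left_cancel this
    · exfalso
      have e : r1 = np r2 := Prod.ext hz h
      rw [e, P3_np h2 h3 hab s2, neg_add_cancel, zero_add] at hs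
      exact P3_ne_zero h2 h3 hab s3 hs
  by_cases h12 : p1.1 = p2.1
  · obtain ⟨e1, e2⟩ := aux q1 q2 q3 hs h12
    rw [← e1, e2]
    exact P3_three h2 h3 hab' (q1.F hD0)
  · have h13 : p1.1 ≠ p3.1 := by
      intro h
      have hs' : P3 a b p1 + P3 a b p3 + P3 a b p2 = 0 := by rw [← hs]; abel
      obtain ⟨-, e2⟩ := aux q1 q3 q2 hs' h
      exact h12 (by rw [e2])
    have h23 : p2.1 ≠ p3.1 := by
      intro h
      have hs' : P3 a b p2 + P3 a b p3 + P3 a b p1 = 0 := by rw [← hs]; abel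
      obtain ⟨-, e2⟩ := aux q2 q3 q1 hs' h
      exact h12 (by rw [e2])
    obtain ⟨α, β, c1, c2, c3⟩ := sum_col h2 h3 hab q1.2 q2.2 q3 h12 hs
    have t1 := t_ne_zero hD0 q1.1
    have t2 := t_ne_zero hD0 q2.1
    have t3 := t_ne_zero hD0 q3.1
    have he := hD_eq a b l m
    have inj : ∀ {z w : K}, l - z * m ≠ 0 → l - w * m ≠ 0 → z ≠ w →
        (z * hG a b l m - hL a b l m) / (l - z * m) ≠
          (w * hG a b l m - hL a b l m) / (l - w * m) := by
      intro z w hz hw hzw h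
      rw [div_eq_div_iff hz hw] at h
      apply hzw
      apply mul_left_cancel₀ hD0
      linear_combination h - (z - w) * he
    have col : ∀ {r : K × K}, l - r.1 * m ≠ 0 → r.2 = α * r.1 + β →
        (F3 a b l m r).2 = (α * l + β * m) * (F3 a b l m r).1
          + (hG a b l m * β + hL a b l m * α) := by
      intro r hr hc
      unfold F3
      simp only
      rw [hc, ← mul_div_assoc, div_add' _ _ _ hr, div_left_inj' hr]
      linear_combination -(α * r.1 + β) * he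
    exact col_sum h2 h3 hab' (q1.F hD0).2 (q2.F hD0).2 (q3.F hD0).2
      (inj t1 t2 h12) (inj t1 t3 h13) (inj t2 t3 h23) (col t1 c1) (col t2 c2) (col t3 c3)

include h2 h3 in
theorem three_dvd_smul {a b : K} (hab : a ^ 3 - b ^ 2 ≠ 0) {p : K × K} (hp : Is3 a b p)
    {n k : ℤ} (h : (3 : ℤ) ∣ n - k) : n • P3 a b p = k • P3 a b p := by
  obtain ⟨c, hc⟩ := h
  have h3P : (3 : ℤ) • P3 a b p = 0 := by
    have := P3_three h2 h3 hab hp
    rw [← this]; abel
  have : n = k + c * 3 := by linarith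
  rw [this, add_smul, mul_smul, h3P]
  simp

theorem exists_mod3 (n : ℤ) : (3 : ℤ) ∣ n - 0 ∨ (3 : ℤ) ∣ n - 1 ∨ (3 : ℤ) ∣ n - (-1) := by
  omega

include h2 h3 in
/-- transfer of relations -/
theorem F3_rel {a b l m : K} (hab : a ^ 3 - b ^ 2 ≠ 0) (hD0 : hD a b l m ≠ 0)
    (hab' : hC4 a b l m ^ 3 - hC6 a b l m ^ 2 ≠ 0) {p0 p1 p2 : K × K}
    (q0 : Is3 a b p0) (q1 : Is3 a b p1) (q2 : Is3 a b p2) (s t : ℤ)
    (hs : P3 a b p2 + s • P3 a b p1 + t • P3 a b p0 = 0) :
    P3 (hC4 a b l m) (hC6 a b l m) (F3 a b l m p2)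
      + s • P3 (hC4 a b l m) (hC6 a b l m) (F3 a b l m p1)
      + t • P3 (hC4 a b l m) (hC6 a b l m) (F3 a b l m p0) = 0 := by
  have neg' : ∀ {r : K × K}, Is3 a b r → P3 (hC4 a b l m) (hC6 a b l m) (F3 a b l m (np r)) =
      -P3 (hC4 a b l m) (hC6 a b l m) (F3 a b l m r) := by
    intro r hr
    rw [F3_np, P3_np h2 h3 hab' (hr.F hD0)]
  have neg0 : ∀ {r : K × K}, Is3 a b r → P3 a b (np r) = -P3 a b r := fun hr =>
    P3_np h2 h3 hab hr
  -- two term relations
  have two : ∀ {r1 r2 : K × K}, Is3 a b r1 → Is3 a b r2 → P3 a b r1 + P3 a b r2 = 0 →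
      P3 (hC4 a b l m) (hC6 a b l m) (F3 a b l m r1)
        + P3 (hC4 a b l m) (hC6 a b l m) (F3 a b l m r2) = 0 := by
    intro r1 r2 s1 s2 h
    have : r1 = np r2 := by
      apply P3_inj h2 h3 hab s1 s2.np
      rw [neg0 s2]; exact eq_neg_of_add_eq_zero_left h
    rw [this, neg' s2]; abel
  have three : ∀ {r1 r2 r3 : K × K}, Is3 a b r1 → Is3 a b r2 → Is3 a b r3 →
      P3 a b r1 + P3 a b r2 + P3 a b r3 = 0 →
      P3 (hC4 a b l m) (hC6 a b l m) (F3 a b l m r1)
        + P3 (hC4 a b l m) (hC6 a b l m) (F3 a b l m r2)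
        + P3 (hC4 a b l m) (hC6 a b l m) (F3 a b l m r3) = 0 := by
    intro r1 r2 r3 s1 s2 s3 h
    exact F3_sum h2 h3 hab hD0 hab' s1 s2 s3 h
  have q1' := q1.F hD0
  have q0' := q0.F hD0
  rcases exists_mod3 s with hs1 | hs1 | hs1 <;> rcases exists_mod3 t with ht1 | ht1 | ht1 <;>
    rw [three_dvd_smul h2 h3 hab q1 hs1, three_dvd_smul h2 h3 hab q0 ht1] at hs <;>
    rw [three_dvd_smul h2 h3 hab' q1' hs1, three_dvd_smul h2 h3 hab' q0' ht1] <;>
    simp only [zero_smul, one_smul, neg_smul, add_zero] at hs ⊢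
  · exact absurd hs (P3_ne_zero h2 h3 hab q2)
  · exact two q2 q0 hs
  · rw [← neg' q0]; rw [← neg0 q0] at hs; exact two q2 q0.np hs
  · exact two q2 q1 hs
  · exact three q2 q1 q0 hs
  · rw [← neg' q0]; rw [← neg0 q0] at hs; exact three q2 q1 q0.np hs
  · rw [← neg' q1]; rw [← neg0 q1] at hs; exact two q2 q1.np hs
  · rw [← neg' q1]; rw [← neg0 q1] at hs; exact three q2 q1.np q0 hs
  · rw [← neg' q1, ← neg' q0]; rw [← neg0 q1, ← neg0 q0] at hs; exact three q2 q1.np q0.np hs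

include h2 h3 in
theorem map_P3 {a b : K} (hab : a ^ 3 - b ^ 2 ≠ 0) (σ : K →+* K)
    (Φ : (short a b).toAffine.Point →+ (short a b).toAffine.Point)
    (hΦ : ∀ x y (h : (short a b).toAffine.Nonsingular x y),
      ∃ h', Φ (.some x y h) = .some (σ x) (σ y) h')
    {p : K × K} (hp : Is3 a b p) (hp' : Is3 a b (σ p.1, σ p.2)) :
    Φ (P3 a b p) = P3 a b (σ p.1, σ p.2) := by
  have n1 := Is3.nonsing h2 h3 hab hp.2
  have n2 := Is3.nonsing h2 h3 hab hp'.2
  unfold P3
  rw [pt_eq n1, pt_eq n2]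
  obtain ⟨h', e⟩ := hΦ _ _ n1
  rw [e, Affine.Point.some.injEq]
  exact ⟨by simp [map_ofNat], rfl⟩

include h2 h3 in
theorem transfer3 [IsAlgClosed K] (σ : K →+* K) {a b l m : K}
    (hab : a ^ 3 - b ^ 2 ≠ 0) (hD0 : hD a b l m ≠ 0) (σa : σ a = a) (σb : σ b = b)
    (σl : σ l = l) (σm : σ m = m)
    {W W' : WeierstrassCurve K} (hW : W = short a b)
    (hW' : W' = short (hC4 a b l m) (hC6 a b l m))
    (Φ : W.toAffine.Point →+ W.toAffine.Point)
    (hΦ : ∀ x y (h : W.toAffine.Nonsingular x y),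
      ∃ h', Φ (.some x y h) = .some (σ x) (σ y) h')
    (Φ' : W'.toAffine.Point →+ W'.toAffine.Point)
    (hΦ' : ∀ x y (h : W'.toAffine.Nonsingular x y),
      ∃ h', Φ' (.some x y h) = .some (σ x) (σ y) h') :
    ∃ (P : W.toAffine.Point) (P' : W'.toAffine.Point), (∀ n : ℤ, n • Φ' P' = 0 → (3 : ℤ) ∣ n) ∧
      ∀ s t : ℤ, Φ (Φ P) - s • Φ P + t • P = 0 → Φ' (Φ' P') - s • Φ' P' + t • P' = 0 := by
  subst hW
  subst hW'
  have hab' : hC4 a b l m ^ 3 - hC6 a b l m ^ 2 ≠ 0 := by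
    rw [hC4_pow_sub_hC6_sq]
    exact mul_ne_zero hab (pow_ne_zero _ hD0)
  obtain ⟨z, hz⟩ : ∃ z : K, hD a b z 1 = 0 := by
    let P : Polynomial K := Polynomial.X ^ 4 - Polynomial.C (6 * a) * Polynomial.X ^ 2
      - Polynomial.C (8 * b) * Polynomial.X - Polynomial.C (3 * a ^ 2)
    have hdeg : P.natDegree = 4 := by
      simp only [P]; compute_degree!
    obtain ⟨z, hz⟩ := IsAlgClosed.exists_root P (by
      intro h0
      have h1 := Polynomial.natDegree_eq_zero_iff_degree_le_zero.mpr h0.le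
      rw [hdeg] at h1
      exact absurd h1 (by norm_num))
    refine ⟨z, ?_⟩
    simp only [P, Polynomial.IsRoot.def, Polynomial.eval_sub, Polynomial.eval_mul,
      Polynomial.eval_pow, Polynomial.eval_X, Polynomial.eval_C] at hz
    unfold hD
    linear_combination hz
  obtain ⟨y, hy⟩ := IsAlgClosed.exists_pow_nat_eq (27 * hG a b z 1) (n := 2) (by norm_num)
  have q0 : Is3 a b (z, y) := ⟨hz, hy⟩
  have hσ : ∀ {p : K × K}, Is3 a b p → Is3 a b (σ p.1, σ p.2) := by
    intro p hp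
    constructor
    · have := map_hD σ a b p.1 1
      rw [hp.1, map_zero, σa, σb, map_one] at this
      exact this
    · have h1 : hG (σ a) (σ b) (σ p.1) (σ 1) = σ (hG a b p.1 1) := by
        unfold hG; simp only [map_sub, map_mul, map_pow, map_ofNat]
      rw [σa, σb, map_one] at h1
      change σ p.2 ^ 2 = 27 * hG a b (σ p.1) 1
      rw [h1, ← map_pow, hp.2, map_mul, map_ofNat]
  have hF : ∀ p : K × K, F3 a b l m (σ p.1, σ p.2)
      = (σ (F3 a b l m p).1, σ (F3 a b l m p).2) := by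
    intro p
    have e1 : σ (hG a b l m) = hG a b l m := by
      unfold hG; simp only [map_sub, map_mul, map_pow, map_ofNat, σa, σb, σl, σm]
    have e2 : σ (hL a b l m) = hL a b l m := by
      unfold hL; simp only [map_add, map_mul, map_pow, map_ofNat, σa, σb, σl, σm]
    have e3 : σ (hD a b l m) = hD a b l m := by
      unfold hD; simp only [map_sub, map_mul, map_pow, map_ofNat, σa, σb, σl, σm]
    unfold F3
    simp only [map_div₀, map_sub, map_mul, e1, e2, e3, σl, σm]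
  have q1 := hσ q0
  have q2 := hσ q1
  have f1 := map_P3 h2 h3 hab σ Φ hΦ q0 q1
  have f2 := map_P3 h2 h3 hab σ Φ hΦ q1 q2
  have f1' : Φ' (P3 _ _ (F3 a b l m (z, y))) = P3 _ _ (F3 a b l m (σ z, σ y)) := by
    have hq : Is3 (hC4 a b l m) (hC6 a b l m)
        (σ (F3 a b l m (z, y)).1, σ (F3 a b l m (z, y)).2) := by
      rw [← hF]; exact q1.F hD0
    rw [map_P3 h2 h3 hab' σ Φ' hΦ' (q0.F hD0) hq, ← hF]
  have f2' : Φ' (P3 _ _ (F3 a b l m (σ z, σ y))) = P3 _ _ (F3 a b l m (σ (σ z), σ (σ y))) := by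
    have hq : Is3 (hC4 a b l m) (hC6 a b l m)
        (σ (F3 a b l m (σ z, σ y)).1, σ (F3 a b l m (σ z, σ y)).2) := by
      rw [← hF]; exact q2.F hD0
    rw [map_P3 h2 h3 hab' σ Φ' hΦ' (q1.F hD0) hq, ← hF]
  refine ⟨P3 a b (z, y), P3 _ _ (F3 a b l m (z, y)), ?_, ?_⟩
  · intro n hn
    rw [f1'] at hn
    have hne := P3_ne_zero h2 h3 hab' (q1.F hD0)
    rcases exists_mod3 n with h | h | h
    · simpa using h
    · exfalso
      rw [three_dvd_smul h2 h3 hab' (q1.F hD0) h, one_smul] at hn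
      exact hne hn
    · exfalso
      rw [three_dvd_smul h2 h3 hab' (q1.F hD0) h, neg_smul, one_smul, neg_eq_zero] at hn
      exact hne hn
  · intro s t hst
    rw [f1, f2] at hst
    rw [f1', f2']
    have := F3_rel h2 h3 hab hD0 hab' q0 q1 q2 (-s) t (by rw [neg_smul, ← sub_eq_add_neg]; exact hst)
    rw [neg_smul, ← sub_eq_add_neg] at this
    exact this

end Field

/-- **the mod 3 congruence for the Hesse pencil** -/
theorem congr3 (ℓ : ℕ) [Fact ℓ.Prime] (a b l m : ZMod ℓ) (h6 : (6 : ZMod ℓ) ≠ 0)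
    (hab : a ^ 3 - b ^ 2 ≠ 0) (hD0 : hD a b l m ≠ 0) :
    (3 : ℤ) ∣ (Nat.card (short (hC4 a b l m) (hC6 a b l m)).toAffine.Point : ℤ)
      - (Nat.card (short a b).toAffine.Point : ℤ) := by
  classical
  have h2 : (2 : ZMod ℓ) ≠ 0 := fun h => h6 (by linear_combination 3 * h)
  have h3 : (3 : ZMod ℓ) ≠ 0 := fun h => h6 (by linear_combination 2 * h)
  let K := AlgebraicClosure (ZMod ℓ)
  let _ : DecidableEq K := Classical.decEq _
  let g : ZMod ℓ →+* K := algebraMap (ZMod ℓ) K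
  have hginj : Function.Injective g := g.injective
  have h2K : (2 : K) ≠ 0 := by
    intro h; apply h2; apply hginj; rw [map_ofNat, map_zero]; exact h
  have h3K : (3 : K) ≠ 0 := by
    intro h; apply h3; apply hginj; rw [map_ofNat, map_zero]; exact h
  have hab' : hC4 a b l m ^ 3 - hC6 a b l m ^ 2 ≠ 0 := by
    rw [hC4_pow_sub_hC6_sq]
    exact mul_ne_zero hab (pow_ne_zero _ hD0)
  have hΔ : (short a b).Δ ≠ 0 := by
    rw [short_Δ]
    exact mul_ne_zero (mul_ne_zero (pow_ne_zero _ h2) (pow_ne_zero _ h3)) hab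
  have hΔ' : (short (hC4 a b l m) (hC6 a b l m)).Δ ≠ 0 := by
    rw [short_Δ]
    exact mul_ne_zero (mul_ne_zero (pow_ne_zero _ h2) (pow_ne_zero _ h3)) hab'
  let σ : K →ₐ[ZMod ℓ] K := FiniteField.frobeniusAlgHom (ZMod ℓ) K
  have σfix : ∀ x : ZMod ℓ, σ (g x) = g x := fun x => σ.commutes x
  have habK : (g a) ^ 3 - (g b) ^ 2 ≠ 0 := by
    rw [← map_pow, ← map_pow, ← map_sub]
    exact (map_ne_zero_iff g hginj).mpr hab
  have hDK : hD (g a) (g b) (g l) (g m) ≠ 0 := by
    rw [map_hD]; exact (map_ne_zero_iff g hginj).mpr hD0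
  have hW : (short a b)⁄K = short (g a) (g b) := short_map g a b
  have hW' : (short (hC4 a b l m) (hC6 a b l m))⁄K
      = short (hC4 (g a) (g b) (g l) (g m)) (hC6 (g a) (g b) (g l) (g m)) := by
    rw [map_hC4, map_hC6]
    exact short_map g _ _
  obtain ⟨P, P', hord, htr⟩ := transfer3 h2K h3K (σ : K →+* K) habK hDK
    (σfix a) (σfix b) (σfix l) (σfix m) hW hW'
    (Affine.Point.map (W' := (short a b).toAffine) σ)
    (fun x y h => ⟨_, Affine.Point.map_some (W' := (short a b).toAffine) σ h⟩)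
    (Affine.Point.map (W' := (short (hC4 a b l m) (hC6 a b l m)).toAffine) σ)
    (fun x y h => ⟨_, Affine.Point.map_some
      (W' := (short (hC4 a b l m) (hC6 a b l m)).toAffine) σ h⟩)
  have hf := H62.frob_charpoly (short a b) hΔ K P
  have hf' := H62.frob_charpoly (short (hC4 a b l m) (hC6 a b l m)) hΔ' K P'
  have hf'' := htr (short a b).traceOfFrobenius (Nat.card (ZMod ℓ) : ℤ) hf
  have hdiff : ((short (hC4 a b l m) (hC6 a b l m)).traceOfFrobenius
      - (short a b).traceOfFrobenius) •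
      (Affine.Point.map (W' := (short (hC4 a b l m) (hC6 a b l m)).toAffine) σ) P' = 0 := by
    have := sub_eq_zero.mpr (hf''.trans hf'.symm)
    rw [sub_smul, ← this]
    abel
  have hdvd := hord _ hdiff
  unfold WeierstrassCurve.traceOfFrobenius WeierstrassCurve.card at hdvd
  have e : (Nat.card (short (hC4 a b l m) (hC6 a b l m)).toAffine.Point : ℤ)
      - (Nat.card (short a b).toAffine.Point : ℤ)
      = -(((Nat.card (ZMod ℓ) : ℤ) + 1
          - (Nat.card (short (hC4 a b l m) (hC6 a b l m)).toAffine.Point : ℤ))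
        - ((Nat.card (ZMod ℓ) : ℤ) + 1 - (Nat.card (short a b).toAffine.Point : ℤ))) := by ring
  rw [e]
  exact (dvd_neg).mpr hdvd

end Fermat.Agent.H52
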