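import Fermat.Agent.H74Sv4

/-!
# Squarefree values (outside `M`) of binary quartic forms in a residue class and a cone
-/

set_option linter.style.haveILetI false

namespace Fermat.Agent.H74.Sv

open Polynomial

/-- Chinese remainder theorem for integers. -/
lemma exists_crt {n k : ℤ} (h : IsCoprime n k) (a b : ℤ) :
    ∃ x : ℤ, x ≡ a [ZMOD n] ∧ x ≡ b [ZMOD k] := by
  obtain ⟨u, v, huv⟩ := h
  refine ⟨b * (u * n) + a * (v * k), ?_, ?_⟩
  · rw [Int.modEq_iff_dvd]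
    exact ⟨u * (a - b), by linear_combination (-a) * huv⟩
  · rw [Int.modEq_iff_dvd]
    exact ⟨v * (b - a), by linear_combination (-b) * huv⟩

lemma qf_modEq {a0 a1 a2 a3 a4 l m l' m' n : ℤ} (hl : l ≡ l' [ZMOD n]) (hm : m ≡ m' [ZMOD n]) :
    qf a0 a1 a2 a3 a4 l m ≡ qf a0 a1 a2 a3 a4 l' m' [ZMOD n] := by
  unfold qf
  gcongr

/-- enlarging the modulus by finitely many primes -/
lemma exists_enlarge (a0 a1 a2 a3 a4 : ℤ) (M : ℕ) (hM : 0 < M) (l0 m0 : ℤ)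
    (hcop : ∀ p : ℕ, p.Prime → p ∣ M → ¬ ((p : ℤ) ∣ l0 ∧ (p : ℤ) ∣ m0))
    (hloc : ∀ p : ℕ, p.Prime → ¬ p ∣ M → ∃ l m : ℤ, ¬ ((p : ℤ) ∣ l ∧ (p : ℤ) ∣ m) ∧
      ¬ ((p : ℤ) ^ 2 ∣ qf a0 a1 a2 a3 a4 l m))
    (T : Finset ℕ) (hT : ∀ p ∈ T, p.Prime) :
    ∃ (M' : ℕ) (l1 m1 : ℤ), 0 < M' ∧ M ∣ M' ∧ (∀ p ∈ T, p ∣ M') ∧ l1 ≡ l0 [ZMOD M] ∧
      m1 ≡ m0 [ZMOD M] ∧
      (∀ p : ℕ, p.Prime → p ∣ M' → ¬ ((p : ℤ) ∣ l1 ∧ (p : ℤ) ∣ m1)) ∧
      (∀ p : ℕ, p.Prime → p ∣ M' → ¬ p ∣ M →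
        p ^ 2 ∣ M' ∧ ¬ ((p : ℤ) ^ 2 ∣ qf a0 a1 a2 a3 a4 l1 m1)) := by
  classical
  induction T using Finset.induction_on with
  | empty =>
    exact ⟨M, l0, m0, hM, dvd_rfl, by simp, Int.ModEq.refl _, Int.ModEq.refl _, hcop,
      fun p _ h1 h2 => absurd h1 h2⟩
  | insert q T hq ih =>
    obtain ⟨M', l1, m1, h0, h1, h2, h3, h4, h5, h6⟩ :=
      ih (fun p hp => hT p (Finset.mem_insert_of_mem hp))
    have hqp : q.Prime := hT q (Finset.mem_insert_self _ _)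
    by_cases hqM : q ∣ M'
    · refine ⟨M', l1, m1, h0, h1, ?_, h3, h4, h5, h6⟩
      intro p hp
      rcases Finset.mem_insert.1 hp with rfl | hp
      · exact hqM
      · exact h2 p hp
    · have hqM0 : ¬ q ∣ M := fun h => hqM (h.trans h1)
      obtain ⟨l, m, hlm, hD⟩ := hloc q hqp hqM0
      have hcp : IsCoprime (M' : ℤ) ((q : ℤ) ^ 2) := by
        refine IsCoprime.pow_right ?_
        refine ((Prime.coprime_iff_not_dvd (Nat.prime_iff_prime_int.1 hqp)).2 ?_).symm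
        exact_mod_cast hqM
      obtain ⟨l2, hl2, hl2'⟩ := exists_crt hcp l1 l
      obtain ⟨m2, hm2, hm2'⟩ := exists_crt hcp m1 m
      have hmod : ∀ {x y : ℤ} {p : ℕ}, p ∣ M' → x ≡ y [ZMOD M'] → ((p : ℤ) ∣ x ↔ (p : ℤ) ∣ y) := by
        intro x y p hp hxy
        have hxy' := hxy.of_dvd (Int.natCast_dvd_natCast.2 hp)
        exact ⟨fun h => (Int.ModEq.dvd_iff hxy').1 h, fun h => (Int.ModEq.dvd_iff hxy').2 h⟩
      refine ⟨M' * q ^ 2, l2, m2, Nat.mul_pos h0 (pow_pos hqp.pos 2), h1.mul_right _, ?_, ?_, ?_, ?_, ?_⟩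
      · intro p hp
        rcases Finset.mem_insert.1 hp with rfl | hp
        · exact (dvd_pow_self _ two_ne_zero).mul_left _
        · exact (h2 p hp).mul_right _
      · exact (hl2.of_dvd (Int.natCast_dvd_natCast.2 h1)).trans h3
      · exact (hm2.of_dvd (Int.natCast_dvd_natCast.2 h1)).trans h4
      · intro p hp hpM
        rcases (Nat.Prime.dvd_mul hp).1 hpM with h | h
        · rw [hmod h hl2, hmod h hm2]
          exact h5 p hp h
        · have hpq : p = q := (Nat.prime_dvd_prime_iff_eq hp hqp).1 (hp.dvd_of_dvd_pow h)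
          subst hpq
          have e1 := hl2'.of_dvd (dvd_pow_self (p : ℤ) two_ne_zero)
          have e2 := hm2'.of_dvd (dvd_pow_self (p : ℤ) two_ne_zero)
          rw [Int.ModEq.dvd_iff e1, Int.ModEq.dvd_iff e2]
          exact hlm
      · intro p hp hpM hpM0
        rcases (Nat.Prime.dvd_mul hp).1 hpM with h | h
        · obtain ⟨h7, h8⟩ := h6 p hp h hpM0
          refine ⟨h7.mul_right _, ?_⟩
          have h9 : ((p : ℤ) ^ 2) ∣ (M' : ℤ) := by exact_mod_cast h7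
          have e1 := qf_modEq (a0 := a0) (a1 := a1) (a2 := a2) (a3 := a3) (a4 := a4)
            (hl2.of_dvd h9) (hm2.of_dvd h9)
          rw [Int.ModEq.dvd_iff e1]
          exact h8
        · have hpq : p = q := (Nat.prime_dvd_prime_iff_eq hp hqp).1 (hp.dvd_of_dvd_pow h)
          subst hpq
          refine ⟨dvd_mul_left _ _, ?_⟩
          have e1 := qf_modEq (a0 := a0) (a1 := a1) (a2 := a2) (a3 := a3) (a4 := a4) hl2' hm2'
          rw [Int.ModEq.dvd_iff e1]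
          exact hD

/-- choice of a cell inside a cone -/
lemma exists_cell (x0 x1 : ℝ) (hx : x0 < x1) :
    ∃ (A : ℤ) (E : ℕ), 0 < E ∧ x0 * E < A ∧ x0 * (E + 1) < A ∧ (A + 1 : ℝ) < x1 * E ∧
      (A + 1 : ℝ) < x1 * (E + 1) := by
  obtain ⟨E, hE⟩ := exists_nat_gt ((|x0| + |x1| + 3) / (x1 - x0))
  have hd : 0 < x1 - x0 := by linarith
  rw [div_lt_iff₀ hd] at hE
  have hE0 : 0 < E := by
    rcases Nat.eq_zero_or_pos E with h | h
    · subst h
      have := abs_nonneg x0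
      have := abs_nonneg x1
      simp at hE
      linarith
    · exact h
  refine ⟨⌊x0 * E + |x0|⌋ + 1, E, hE0, ?_, ?_, ?_, ?_⟩
  all_goals
    push_cast
    have h1 := Int.lt_floor_add_one (x0 * E + |x0|)
    have h2 := Int.floor_le (x0 * E + |x0|)
    have h3 := le_abs_self x0
    have h4 := abs_nonneg x0
    have h5 := neg_abs_le x1
    have h6 := abs_nonneg x1
    nlinarith

/-- **Squarefree sieve for binary quartic forms.** -/
theorem exists_sqfree_quartic (a0 a1 a2 a3 a4 : ℤ) (ha0 : a0 ≠ 0)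
    (hsep : ((qp a0 a1 a2 a3 a4).map (Int.castRingHom ℚ)).Separable)
    (M : ℕ) (hM : 0 < M) (l0 m0 : ℤ)
    (hcop : ∀ p : ℕ, p.Prime → p ∣ M → ¬ ((p : ℤ) ∣ l0 ∧ (p : ℤ) ∣ m0))
    (hloc : ∀ p : ℕ, p.Prime → ¬ p ∣ M → ∃ l m : ℤ, ¬ ((p : ℤ) ∣ l ∧ (p : ℤ) ∣ m) ∧
      ¬ ((p : ℤ) ^ 2 ∣ qf a0 a1 a2 a3 a4 l m))
    (x0 x1 : ℝ) (hx : x0 < x1) (B : ℕ) :
    ∃ l m : ℤ, (B : ℤ) < m ∧ x0 * m < l ∧ (l : ℝ) < x1 * m ∧ l ≡ l0 [ZMOD M] ∧
      m ≡ m0 [ZMOD M] ∧ IsCoprime l m ∧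
      ∀ p : ℕ, p.Prime → ¬ p ∣ M → ¬ ((p : ℤ) ^ 2 ∣ qf a0 a1 a2 a3 a4 l m) := by
  classical
  obtain ⟨U, V, c, hc, hUV⟩ := exists_bezout hsep
  obtain ⟨M', l1, m1, h0, h1, h2, h3, h4, h5, h6⟩ := exists_enlarge a0 a1 a2 a3 a4 M hM l0 m0
    hcop hloc (((Finset.range 50).filter Nat.Prime) ∪ a0.natAbs.primeFactors ∪
      c.natAbs.primeFactors) (by
      intro p hp
      rw [Finset.mem_union, Finset.mem_union, Finset.mem_filter] at hp
      rcases hp with (hp | hp) | hp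
      · exact hp.2
      · exact Nat.prime_of_mem_primeFactors hp
      · exact Nat.prime_of_mem_primeFactors hp)
  obtain ⟨A, E, hE, k1, k2, k3, k4⟩ := exists_cell x0 x1 hx
  obtain ⟨Y₀, hY₀⟩ := exists_good_in_box hUV M' h0
    (fun p hp hp50 => h2 p (by simp [hp, hp50]))
    (fun p hp hpa => h2 p (by
      rw [Finset.mem_union, Finset.mem_union]
      exact Or.inl (Or.inr (Nat.mem_primeFactors.2 ⟨hp, Int.natCast_dvd.1 hpa,
        Int.natAbs_ne_zero.2 ha0⟩))))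
    (fun p hp hpc => h2 p (by
      rw [Finset.mem_union]
      exact Or.inr (Nat.mem_primeFactors.2 ⟨hp, Int.natCast_dvd.1 hpc,
        Int.natAbs_ne_zero.2 hc⟩)))
    l1 m1 h5 A E hE
  -- the cone condition for large `Y`
  set W : ℝ := |(l1 : ℝ)| + |x0| * |(m1 : ℝ)| + |x1| * |(m1 : ℝ)| with hW
  set δ : ℝ := min (min (A - x0 * E) (A - x0 * (E + 1)))
    (min (x1 * E - (A + 1)) (x1 * (E + 1) - (A + 1))) with hδ
  have hδ0 : 0 < δ := by
    simp only [hδ, lt_min_iff]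
    refine ⟨⟨by linarith, by linarith⟩, by linarith, by linarith⟩
  obtain ⟨Y₁, hY₁⟩ := exists_nat_gt (W / δ)
  rw [div_lt_iff₀ hδ0] at hY₁
  obtain ⟨u, v, hu1, hu2, hv1, hv2, hco, hgood⟩ :=
    hY₀ (Y₀ + Y₁ + B + m1.natAbs + 1) (by omega)
  set Y := Y₀ + Y₁ + B + m1.natAbs + 1 with hY
  have hM'1 : (1 : ℤ) ≤ M' := by exact_mod_cast h0
  have hE1 : (1 : ℤ) ≤ E := by exact_mod_cast hE
  have hv3 : (Y : ℤ) ≤ v := le_trans (le_mul_of_one_le_left (by positivity) hE1) hv1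
  have hYW : W < δ * Y := by
    have : (Y₁ : ℝ) ≤ Y := by
      have : Y₁ ≤ Y := by omega
      exact_mod_cast this
    nlinarith
  have hM'r : (1 : ℝ) ≤ M' := by exact_mod_cast h0
  have hu1' : (A : ℝ) * Y ≤ u := by exact_mod_cast hu1
  have hu2' : (u : ℝ) ≤ (A + 1) * Y := by
    have : u ≤ A * Y + Y := hu2.le
    have : (u : ℝ) ≤ A * Y + Y := by exact_mod_cast this
    linarith
  have hv1' : (E : ℝ) * Y ≤ v := by exact_mod_cast hv1
  have hv2' : (v : ℝ) ≤ (E + 1) * Y := by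
    have : v ≤ (E : ℤ) * Y + Y := hv2.le
    have : (v : ℝ) ≤ E * Y + Y := by exact_mod_cast this
    linarith
  have hYr : (0 : ℝ) ≤ Y := by positivity
  -- `u - x0 v ≥ δ Y`, `x1 v - u ≥ δ Y`
  have d1 : δ * Y ≤ u - x0 * v := by
    rcases le_or_gt 0 x0 with hx0 | hx0
    · have e1 : x0 * v ≤ x0 * ((E + 1) * Y) := by gcongr
      have e2 : δ ≤ A - x0 * (E + 1) := (min_le_left _ _).trans (min_le_right _ _)
      have e3 : δ * Y ≤ (A - x0 * (E + 1)) * Y := by gcongr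
      linarith
    · have e1 : x0 * v ≤ x0 * (E * Y) := mul_le_mul_of_nonpos_left hv1' hx0.le
      have e2 : δ ≤ A - x0 * E := (min_le_left _ _).trans (min_le_left _ _)
      have e3 : δ * Y ≤ (A - x0 * E) * Y := by gcongr
      linarith
  have d2 : δ * Y ≤ x1 * v - u := by
    rcases le_or_gt 0 x1 with hx1 | hx1
    · have e1 : x1 * (E * Y) ≤ x1 * v := by gcongr
      have e2 : δ ≤ x1 * E - (A + 1) := (min_le_right _ _).trans (min_le_left _ _)
      have e3 : δ * Y ≤ (x1 * E - (A + 1)) * Y := by gcongr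
      linarith
    · have e1 : x1 * ((E + 1) * Y) ≤ x1 * v := mul_le_mul_of_nonpos_left hv2' hx1.le
      have e2 : δ ≤ x1 * (E + 1) - (A + 1) := (min_le_right _ _).trans (min_le_right _ _)
      have e3 : δ * Y ≤ (x1 * (E + 1) - (A + 1)) * Y := by gcongr
      linarith
  have hδY : 0 ≤ δ * Y := by positivity
  refine ⟨l1 + M' * u, m1 + M' * v, ?_, ?_, ?_, ?_, ?_, hco, ?_⟩
  · have k5 := neg_abs_le m1
    rw [Int.abs_eq_natAbs] at k5
    have k6 : (v : ℤ) ≤ M' * v := le_mul_of_one_le_left (by omega) hM'1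
    omega
  · push_cast
    have e1 : x0 * m1 ≤ |x0| * |(m1 : ℝ)| := by rw [← abs_mul]; exact le_abs_self _
    have e2 : -|(l1 : ℝ)| ≤ l1 := neg_abs_le _
    have e3 : 0 ≤ |x1| * |(m1 : ℝ)| := by positivity
    have e4 : δ * Y ≤ M' * (u - x0 * v) := by nlinarith
    nlinarith
  · push_cast
    have e1 : -(|x1| * |(m1 : ℝ)|) ≤ x1 * m1 := by rw [← abs_mul]; exact neg_abs_le _
    have e2 : (l1 : ℝ) ≤ |(l1 : ℝ)| := le_abs_self _
    have e3 : 0 ≤ |x0| * |(m1 : ℝ)| := by positivity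
    have e4 : δ * Y ≤ M' * (x1 * v - u) := by nlinarith
    nlinarith
  · refine Int.ModEq.trans ?_ h3
    rw [Int.modEq_iff_dvd]
    exact ⟨-((M' / M : ℕ) * u), by
      obtain ⟨k, hk⟩ := h1
      rw [hk, Nat.mul_div_cancel_left _ hM]
      push_cast
      ring⟩
  · refine Int.ModEq.trans ?_ h4
    rw [Int.modEq_iff_dvd]
    exact ⟨-((M' / M : ℕ) * v), by
      obtain ⟨k, hk⟩ := h1
      rw [hk, Nat.mul_div_cancel_left _ hM]
      push_cast
      ring⟩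
  · intro p hp hpM
    by_cases hpM' : p ∣ M'
    · obtain ⟨h7, h8⟩ := h6 p hp hpM' hpM
      intro h9
      apply h8
      have h10 : ((p : ℤ) ^ 2) ∣ (M' : ℤ) := by exact_mod_cast h7
      have e1 : l1 + M' * u ≡ l1 [ZMOD (p : ℤ) ^ 2] := by
        rw [Int.modEq_iff_dvd]
        exact (h10.mul_right (-u)).trans ⟨1, by ring⟩
      have e2 : m1 + M' * v ≡ m1 [ZMOD (p : ℤ) ^ 2] := by
        rw [Int.modEq_iff_dvd]
        exact (h10.mul_right (-v)).trans ⟨1, by ring⟩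
      exact (Int.ModEq.dvd_iff (qf_modEq e1 e2)).1 h9
    · exact hgood p hp hpM'

end Fermat.Agent.H74.Sv
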