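/-
H3LTM1: **Module M1** (choice of `E'`) of project LT.
-/
import Mathlib
import Fermat.Agent.H3LTPartner
import Fermat.Agent.H74Sv
import Fermat.Agent.H52Congr3
import Fermat.Agent.H46LTDefs

set_option autoImplicit false

namespace Fermat.Agent.H3LT

open Polynomial

theorem sieve_proof : Sieve := by
  intro a0 a1 a2 a3 a4 ha0 hsep M hM l0 m0 hcop hloc x0 x1 hx B
  refine Fermat.Agent.H74.Sv.exists_sqfree_quartic a0 a1 a2 a3 a4 ha0 ?_ M hM l0 m0 hcop hloc x0 x1 hx B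
  convert hsep using 1
  unfold Fermat.Agent.H74.Sv.qp
  simp

theorem congr3_proof : Congr3 := by
  intro ℓ hℓ a b l m h6 hab hD
  exact Fermat.Agent.H52.congr3 ℓ a b l m h6 hab hD

/-- **M1**: the choice of `E'`. -/
theorem exists_partner (W : WeierstrassCurve ℤ) (hΔ : W.Δ ≠ 0)
    (hW : W.IsSemistableModel) (h2 : (2 : ℤ) ∣ W.Δ) (n : ℕ) (hn : 0 < n) :
    ∃ W' : WeierstrassCurve ℤ, W'.Δ < 0 ∧ W'.IsSemistableModel ∧ (2 : ℤ) ∣ W'.Δ ∧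
      (∀ ℓ : ℕ, ℓ.Prime → (ℓ : ℤ) ∣ W'.Δ → Odd (padicValInt ℓ W'.Δ)) ∧
      (∃ r : ℕ, r.Prime ∧ (n : ℤ) ∣ (r : ℤ) - 1 ∧ (r : ℤ) ∣ W'.Δ) ∧
      (∃ r : ℕ, r.Prime ∧ (n : ℤ) ∣ (r : ℤ) + 1 ∧ (r : ℤ) ∣ W'.Δ) ∧
      ∀ ℓ : ℕ, ℓ.Prime → W.IsGoodPrimeFor ℓ → W'.IsGoodPrimeFor ℓ → ℓ ≠ 3 →
        (3 : ℤ) ∣ (W'.apOfModel ℓ - W.apOfModel ℓ) :=
  exists_partner_of sieve_proof congr3_proof W hΔ hW h2 n hn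

/-- **M1**: the choice of `E'`, without new bad reduction at the (finitely many) primes of `T`. -/
theorem exists_partner' (W : WeierstrassCurve ℤ) (hΔ : W.Δ ≠ 0)
    (hW : W.IsSemistableModel) (h2 : (2 : ℤ) ∣ W.Δ) (n : ℕ) (hn : 0 < n) (T : Finset ℕ)
    (hT : ∀ p ∈ T, p.Prime) :
    ∃ W' : WeierstrassCurve ℤ, W'.Δ < 0 ∧ W'.IsSemistableModel ∧ (2 : ℤ) ∣ W'.Δ ∧
      (∀ ℓ : ℕ, ℓ.Prime → (ℓ : ℤ) ∣ W'.Δ → Odd (padicValInt ℓ W'.Δ)) ∧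
      (∃ r : ℕ, r.Prime ∧ (n : ℤ) ∣ (r : ℤ) - 1 ∧ (r : ℤ) ∣ W'.Δ) ∧
      (∃ r : ℕ, r.Prime ∧ (n : ℤ) ∣ (r : ℤ) + 1 ∧ (r : ℤ) ∣ W'.Δ) ∧
      (∀ ℓ ∈ T, (ℓ : ℤ) ∣ W'.Δ → (ℓ : ℤ) ∣ W.Δ) ∧
      ∀ ℓ : ℕ, ℓ.Prime → W.IsGoodPrimeFor ℓ → W'.IsGoodPrimeFor ℓ → ℓ ≠ 3 →
        (3 : ℤ) ∣ (W'.apOfModel ℓ - W.apOfModel ℓ) :=
  exists_partner_of' sieve_proof congr3_proof W hΔ hW h2 n hn T hT

/-- `BlockM1` with the extra conclusion `3 ∣ Δ' → 3 ∣ Δ`. -/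
theorem exists_goodCurve (W : WeierstrassCurve ℤ) (hΔ : W.Δ ≠ 0) (hW : W.IsSemistableModel)
    (h2 : (2 : ℤ) ∣ W.Δ) : ∃ W' : WeierstrassCurve ℤ, Fermat.Agent.LT.GoodCurve W' ∧
      ((3 : ℤ) ∣ W'.Δ → (3 : ℤ) ∣ W.Δ) ∧ ((5 : ℤ) ∣ W'.Δ → (5 : ℤ) ∣ W.Δ) ∧
      ∀ ℓ : ℕ, ℓ.Prime → W.IsGoodPrimeFor ℓ → W'.IsGoodPrimeFor ℓ → ℓ ≠ 3 →
        (3 : ℤ) ∣ W'.apOfModel ℓ - W.apOfModel ℓ := by
  obtain ⟨W', h1, h3, h4, h5, -, ⟨r, hr, hrn, hrd⟩, hT, h6⟩ :=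
    exists_partner' W hΔ hW h2 24 (by norm_num) {3, 5} (by
      intro p hp
      rcases Finset.mem_insert.mp hp with rfl | hp
      · exact Nat.prime_three
      · rw [Finset.mem_singleton] at hp; rw [hp]; exact Nat.prime_five)
  refine ⟨W', ⟨h3, h1, h4, h5, r, hr, ?_, hrd⟩, ?_, ?_, h6⟩
  · have := hr.two_le
    omega
  · have := hT 3 (by simp)
    exact_mod_cast this
  · have := hT 5 (by simp)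
    exact_mod_cast this

theorem blockM1 : Fermat.Agent.LT.BlockM1 := by
  intro W hΔ hW _ h2
  obtain ⟨W', h1, h3, h4, h5, -, ⟨r, hr, hrn, hrd⟩, h6⟩ := exists_partner W hΔ hW h2 24 (by norm_num)
  refine ⟨W', ⟨h3, h1, h4, h5, r, hr, ?_, hrd⟩, h6⟩
  have := hr.two_le
  omega

end Fermat.Agent.H3LT
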