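import Fermat.Agent.H3LTInt

/-!
# Kraus' criterion in the even case

LT-X, block X1: integral models with `c₄ = 16 a`, `c₆ = 8 b`, `b ≡ 1 mod 4`.
-/

set_option autoImplicit false

namespace Fermat.Agent.H52

set_option maxRecDepth 10000 in
theorem kraus27_even : ∀ a b : ZMod 27, 64 * a ^ 3 = b ^ 2 →
    ((b = 0 → a.val % 3 = 0) ∧
     (b.val % 3 = 1 → 4 - 12 * a - b = 0 ∧ a.val % 3 = 1) ∧
     (b.val % 3 = 2 → -4 + 12 * a - b = 0 ∧ a.val % 3 = 1)) := by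
  decide

/-- Kraus' criterion in the case `c₄ = 16 a`, `c₆ = 8 b`, `b ≡ 1 mod 4` -/
theorem exists_model_even (a b Δ : ℤ) (hrel : 27 * Δ = 64 * a ^ 3 - b ^ 2) (h2 : b % 4 = 1)
    (h3 : ¬ (3 : ℤ) ∣ b ∨ (27 : ℤ) ∣ b) :
    ∃ W : WeierstrassCurve ℤ, W.c₄ = 16 * a ∧ W.c₆ = 8 * b ∧ W.Δ = Δ := by
  have r27 : 64 * (a : ZMod 27) ^ 3 = (b : ZMod 27) ^ 2 := by
    have := Fermat.Agent.H3LT.zmod_cast_cases 27 (64 * a ^ 3) (b ^ 2) ⟨Δ, by rw [← hrel]; push_cast; ring⟩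
    exact_mod_cast this
  have k27 := kraus27_even (a : ZMod 27) (b : ZMod 27) r27
  have hval : ∀ c : ℤ, ((c : ZMod 27).val % 3 : ℕ) = (c % 3).toNat := by
    intro c
    have h1 : (((c : ZMod 27).val : ℕ) : ℤ) = c % 27 := by
      have := ZMod.val_intCast (n := 27) c
      exact_mod_cast this
    omega
  have key : ∃ A : ℤ, (27 : ℤ) ∣ 4 * A ^ 3 - 12 * A * a - b ∧ (3 : ℤ) ∣ A ^ 2 - a := by
    have h0 : b % 3 = 0 ∨ b % 3 = 1 ∨ b % 3 = 2 := by omega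
    rcases h0 with h0 | h0 | h0
    · have h27 : (27 : ℤ) ∣ b := by
        rcases h3 with h | h
        · exact absurd (Int.dvd_of_emod_eq_zero h0) h
        · exact h
      have e1 : (b : ZMod 27) = 0 := (ZMod.intCast_zmod_eq_zero_iff_dvd b 27).mpr h27
      have h1 := k27.1 e1
      refine ⟨0, ?_, ?_⟩
      · simpa using h27
      · rw [hval] at h1
        omega
    · obtain ⟨h1, h2'⟩ := k27.2.1 (by rw [hval, h0]; rfl)
      refine ⟨1, ?_, ?_⟩
      · apply (ZMod.intCast_zmod_eq_zero_iff_dvd _ 27).mp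
        push_cast
        linear_combination h1
      · rw [hval] at h2'
        omega
    · obtain ⟨h1, h2'⟩ := k27.2.2 (by rw [hval, h0]; rfl)
      refine ⟨-1, ?_, ?_⟩
      · apply (ZMod.intCast_zmod_eq_zero_iff_dvd _ 27).mp
        push_cast
        linear_combination h1
      · rw [hval] at h2'
        omega
  obtain ⟨A, ⟨q, hq⟩, ⟨k, hk⟩⟩ := key
  -- `4 A³ - 12 A a - b = 27 q`, `q ≡ 1 mod 4`
  have hq4 : q % 4 = 1 := by
    have : 27 * q = 4 * (A ^ 3 - 3 * (A * a)) - b := by rw [← hq]; ring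
    omega
  obtain ⟨A6, hA6⟩ : ∃ A6, q = 1 + 4 * A6 := ⟨q / 4, by omega⟩
  have f4 : (⟨0, A, 1, k, A6⟩ : WeierstrassCurve ℤ).c₄ = 16 * a := by
    simp only [WeierstrassCurve.c₄, WeierstrassCurve.b₂, WeierstrassCurve.b₄]
    linear_combination 16 * hk
  have f6 : (⟨0, A, 1, k, A6⟩ : WeierstrassCurve ℤ).c₆ = 8 * b := by
    simp only [WeierstrassCurve.c₆, WeierstrassCurve.b₂, WeierstrassCurve.b₄, WeierstrassCurve.b₆]
    rw [hA6] at hq
    linear_combination (-96) * A * hk + 8 * hq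
  refine ⟨⟨0, A, 1, k, A6⟩, f4, f6, ?_⟩
  have h := (⟨0, A, 1, k, A6⟩ : WeierstrassCurve ℤ).c_relation
  rw [f4, f6] at h
  have h' : 1728 * (⟨0, A, 1, k, A6⟩ : WeierstrassCurve ℤ).Δ = 1728 * Δ := by
    rw [h]; linear_combination (-64) * hrel
  exact mul_left_cancel₀ (by norm_num) h'

end Fermat.Agent.H52
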