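import Fermat.Agent.H52XTrace
import Fermat.Agent.H52XKraus
import Fermat.Agent.H3LTM1

/-!
# LT-X, block X1: the 3-switch at `2` for curves with good reduction at `2`
-/

set_option autoImplicit false

open WeierstrassCurve
open Fermat.Agent.H3LT (P C4 C6)

namespace Fermat.Agent.H52

/-- curves over `ℤ` with congruent `c₄`, `c₆` modulo `r ≥ 5` have the same `a_r`. -/
theorem ap_congr_c (W W' : WeierstrassCurve ℤ) (r : ℕ) (hr : r.Prime) (h2 : r ≠ 2) (h3 : r ≠ 3)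
    (h4 : (r : ℤ) ∣ W'.c₄ - W.c₄) (h6 : (r : ℤ) ∣ W'.c₆ - W.c₆) :
    W'.apOfModel r = W.apOfModel r := by
  have : Fact r.Prime := ⟨hr⟩
  have hdvd : ∀ z : ℤ, ((z : ℤ) : ZMod r) = 0 ↔ (r : ℤ) ∣ z := fun z =>
    ZMod.intCast_zmod_eq_zero_iff_dvd z r
  have h2' : (2 : ZMod r) ≠ 0 := by
    intro h
    have h' : (r : ℤ) ∣ 2 := (hdvd 2).mp (by exact_mod_cast h)
    have h'' : r ∣ 2 := by exact_mod_cast h'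
    exact h2 ((Nat.prime_dvd_prime_iff_eq hr Nat.prime_two).mp h'')
  have h3' : (3 : ZMod r) ≠ 0 := by
    intro h
    have h' : (r : ℤ) ∣ 3 := (hdvd 3).mp (by exact_mod_cast h)
    have h'' : r ∣ 3 := by exact_mod_cast h'
    exact h3 ((Nat.prime_dvd_prime_iff_eq hr Nat.prime_three).mp h'')
  have h6' : (6 : ZMod r) ≠ 0 := by
    have : (6 : ZMod r) = 2 * 3 := by norm_num
    rw [this]; exact mul_ne_zero h2' h3'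
  have e4 : (W'.c₄ : ZMod r) = (W.c₄ : ZMod r) := Fermat.Agent.H3LT.zmod_cast_cases r _ _ h4
  have e6 : (W'.c₆ : ZMod r) = (W.c₆ : ZMod r) := Fermat.Agent.H3LT.zmod_cast_cases r _ _ h6
  have e : ∀ V : WeierstrassCurve ℤ, Nat.card (V.reductionMod r).toAffine.Point =
      Nat.card (H98.short (V.c₄ : ZMod r) (V.c₆ : ZMod r)).toAffine.Point := by
    intro V
    have f := H98.card_short h6' (V.reductionMod r)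
    have e1 : (V.reductionMod r).c₄ = (V.c₄ : ZMod r) := by
      unfold WeierstrassCurve.reductionMod
      rw [WeierstrassCurve.map_c₄]; simp
    have e2 : (V.reductionMod r).c₆ = (V.c₆ : ZMod r) := by
      unfold WeierstrassCurve.reductionMod
      rw [WeierstrassCurve.map_c₆]; simp
    rw [e1, e2] at f
    exact f.symm
  unfold WeierstrassCurve.apOfModel WeierstrassCurve.traceOfFrobenius WeierstrassCurve.card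
  rw [e W', e W, e4, e6]

/-- what happens at `2` -/
inductive AtTwo (W W' : WeierstrassCurve ℤ) : Prop
  | zero (ha : W.apOfModel 2 = 0) (h : (2 : ℤ) ∣ W'.Δ)
  | one (ha : W.apOfModel 2 = 1 ∨ W.apOfModel 2 = -1) (h : ¬ (2 : ℤ) ∣ W'.Δ)
      (h' : W'.apOfModel 2 = -2 * W.apOfModel 2)
  | two (ha : W.apOfModel 2 = 2 ∨ W.apOfModel 2 = -2) (h : ¬ (2 : ℤ) ∣ W'.Δ)
      (h' : 2 * W'.apOfModel 2 = - W.apOfModel 2)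

/-- the assembly for a member of the pencil with the local conditions -/
theorem of_member (W W' : WeierstrassCurve ℤ) (hss : W.IsSemistableModel) (h2 : ¬ (2 : ℤ) ∣ W.Δ)
    (R : ℕ) (X Y M : ℤ) (hXY : X + Y = 1) (hXM : M ∣ X - 1) (hYM : M ∣ Y) (h27 : (27 : ℤ) ∣ M)
    (hΔM : W.Δ ∣ M) (hRM : ∀ r : ℕ, r.Prime → r ∣ R → r ≠ 2 → (r : ℤ) ∣ M)
    (e4 : W'.c₄ = C4 W X Y) (e6 : W'.c₆ = C6 W X Y) (eΔ : W'.Δ = W.Δ * P W X Y ^ 3)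
    (hP2 : (2 : ℤ) ∣ P W X Y → ¬ (2 : ℤ) ∣ C4 W X Y) :
    W'.IsSemistableModel ∧ W'.Δ ≠ 0 ∧
    (∀ ℓ : ℕ, ℓ.Prime → ℓ ≠ 2 → ℓ ≠ 3 → W.IsGoodPrimeFor ℓ → W'.IsGoodPrimeFor ℓ →
      (3 : ℤ) ∣ W'.apOfModel ℓ - W.apOfModel ℓ) ∧
    (∀ r : ℕ, r.Prime → r ∣ R → r ≠ 2 → r ≠ 3 →
      (¬ (r : ℤ) ∣ W.Δ → ¬ (r : ℤ) ∣ W'.Δ) ∧ W'.apOfModel r = W.apOfModel r) ∧
    (M ∣ W'.c₄ - W.c₄ ∧ M ∣ W'.c₆ - W.c₆) ∧ ((3 : ℤ) ∣ W'.Δ → (3 : ℤ) ∣ W.Δ) := by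
  have hY0 : M ∣ Y - 0 := by simpa using hYM
  have hPM : M ∣ P W X Y - 1 := by
    have := Fermat.Agent.H3LT.P_congr W hXM hY0
    rwa [Fermat.Agent.H3LT.P_one_zero] at this
  have h4M : M ∣ C4 W X Y - W.c₄ := by
    have := Fermat.Agent.H3LT.C4_congr W hXM hY0
    rwa [Fermat.Agent.H3LT.C4_one_zero] at this
  have h6M : M ∣ C6 W X Y - W.c₆ := by
    have := Fermat.Agent.H3LT.C6_congr W hXM hY0
    rwa [Fermat.Agent.H3LT.C6_one_zero] at this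
  have hΔ0 : W.Δ ≠ 0 := fun h => h2 (h ▸ dvd_zero _)
  -- primes dividing `M` do not divide `P`
  have hnP : ∀ p : ℕ, p.Prime → (p : ℤ) ∣ M → ¬ (p : ℤ) ∣ P W X Y := by
    intro p hp hpM hpP
    have h1 := dvd_sub hpP (hpM.trans hPM)
    rw [sub_sub_cancel] at h1
    exact (Nat.prime_iff_prime_int.mp hp).not_isUnit (isUnit_of_dvd_one h1)
  have h3M : ((3 : ℕ) : ℤ) ∣ M := (by norm_num : ((3 : ℕ) : ℤ) ∣ 27).trans h27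
  have hP0 : P W X Y ≠ 0 := fun h => hnP 3 Nat.prime_three h3M (h ▸ dvd_zero _)
  refine ⟨?_, ?_, ?_, ?_, by rw [e4, e6]; exact ⟨h4M, h6M⟩, ?_⟩
  rotate_right
  · intro h
    rw [eΔ] at h
    refine (Int.prime_three.dvd_or_dvd h).resolve_right (fun h' => ?_)
    exact hnP 3 Nat.prime_three h3M (by exact_mod_cast Int.prime_three.dvd_of_dvd_pow h')
  · intro p hp hpΔ
    have hpr : Prime (p : ℤ) := Nat.prime_iff_prime_int.mp hp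
    rw [eΔ] at hpΔ
    rw [e4]
    by_cases h1 : (p : ℤ) ∣ W.Δ
    · intro h
      have := dvd_sub h ((h1.trans hΔM).trans h4M)
      rw [sub_sub_cancel] at this
      exact hss p hp h1 this
    · have hpP : (p : ℤ) ∣ P W X Y := hpr.dvd_of_dvd_pow ((hpr.dvd_or_dvd hpΔ).resolve_left h1)
      by_cases hp2 : p = 2
      · subst hp2
        exact_mod_cast hP2 (by exact_mod_cast hpP)
      · have hp3 : p ≠ 3 := by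
          rintro rfl
          exact hnP 3 hp h3M hpP
        intro h
        obtain ⟨hx, hy⟩ := Fermat.Agent.H3LT.loc_gen W hp hp2 hp3 h1 hpP h
        have := dvd_add hx hy
        rw [hXY] at this
        exact hpr.not_isUnit (isUnit_of_dvd_one this)
  · rw [eΔ]; exact mul_ne_zero hΔ0 (pow_ne_zero _ hP0)
  · intro ℓ hℓ hℓ2 hℓ3 hg hg'
    exact Fermat.Agent.H3LT.congr_ap Fermat.Agent.H3LT.congr3_proof W W' X Y e4 e6 eΔ hℓ hℓ2 hℓ3 hg hg'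
  · intro r hr hrR hr2 hr3
    have hrM := hRM r hr hrR hr2
    have hpr : Prime (r : ℤ) := Nat.prime_iff_prime_int.mp hr
    refine ⟨fun h1 h => ?_, ap_congr_c W W' r hr hr2 hr3 ?_ ?_⟩
    · rw [eΔ] at h
      exact hnP r hr hrM (hpr.dvd_of_dvd_pow ((hpr.dvd_or_dvd h).resolve_left h1))
    · rw [e4]; exact hrM.trans h4M
    · rw [e6]; exact hrM.trans h6M

/-- choice of the coordinates -/
theorem exists_coords (D : ℤ) (hD : ¬ (2 : ℤ) ∣ D) (R : ℕ) (hR : 0 < R) :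
    ∃ X Y M : ℤ, X + Y = 1 ∧ (64 : ℤ) ∣ X ∧ M ∣ X - 1 ∧ M ∣ Y ∧ (27 : ℤ) ∣ M ∧ D ∣ M ∧
      (∀ r : ℕ, r.Prime → r ∣ R → r ≠ 2 → (r : ℤ) ∣ M) ∧ (Odd R → (R : ℤ) ∣ M) := by
  obtain ⟨k, R', hR', hk⟩ := Nat.exists_eq_two_pow_mul_odd hR.ne'
  let M : ℤ := 27 * D * R'
  have hodd : ¬ (2 : ℤ) ∣ M := by
    intro h
    rcases Int.prime_two.dvd_or_dvd h with h | h
    · rcases Int.prime_two.dvd_or_dvd h with h | h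
      · omega
      · exact hD h
    · have : 2 ∣ R' := by exact_mod_cast h
      exact (Nat.not_even_iff_odd.mpr hR') (even_iff_two_dvd.mpr this)
  have hc : IsCoprime (64 : ℤ) M := by
    have h1 : IsCoprime (2 : ℤ) M := (Int.prime_two.coprime_iff_not_dvd).mpr hodd
    have : (64 : ℤ) = 2 ^ 6 := by norm_num
    rw [this]; exact h1.pow_left
  obtain ⟨u, v, huv⟩ := hc
  refine ⟨u * 64, v * M, M, huv, ⟨u, by ring⟩, ⟨-v, by linear_combination huv⟩, ⟨v, by ring⟩,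
    ⟨D * R', by ring⟩, ⟨27 * R', by ring⟩, ?_, ?_⟩
  swap
  · intro hoR
    have hk0 : k = 0 := by
      by_contra hk0
      rw [hk] at hoR
      have h1 : Odd (2 ^ k) := Nat.Odd.of_mul_left hoR
      have h2 : Even (2 ^ k) := (Nat.even_pow.mpr ⟨even_two, hk0⟩)
      exact (Nat.not_even_iff_odd.mpr h1) h2
    rw [hk0, pow_zero, one_mul] at hk
    rw [hk]
    exact ⟨27 * D, by ring⟩
  intro r hr hrR hr2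
  rw [hk] at hrR
  have h1 : r ∣ R' := by
    rcases hr.dvd_mul.mp hrR with h | h
    · exact absurd ((Nat.prime_dvd_prime_iff_eq hr Nat.prime_two).mp (hr.dvd_of_dvd_pow h)) hr2
    · exact h
  exact (Int.natCast_dvd_natCast.mpr h1).mul_left _

theorem P_zero_one (W : WeierstrassCurve ℤ) : P W 0 1 = 27 * W.b₈ := by
  unfold P Fermat.Agent.H3LT.fP; ring

theorem C4_zero_one (W : WeierstrassCurve ℤ) : C4 W 0 1 = 729 * W.b₆ ^ 2 - 648 * W.b₄ * W.b₈ := by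
  unfold C4 Fermat.Agent.H3LT.fC4; ring

theorem C6_zero_one (W : WeierstrassCurve ℤ) : C6 W 0 1 =
    5832 * W.b₂ * W.b₈ ^ 2 - 26244 * W.b₄ * W.b₆ * W.b₈ + 19683 * W.b₆ ^ 3 := by
  unfold C6 Fermat.Agent.H3LT.fC6; ring

/-- ordinary case: values at `(0, 1)` -/
theorem values_ord (W : WeierstrassCurve ℤ) (h1 : W.a₁ = 1) (h3 : W.a₃ = 0)
    (hΔ : ¬ (2 : ℤ) ∣ W.Δ) :
    P W 0 1 % 2 = 1 ∧ C4 W 0 1 % 32 = 16 ∧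
      ((W.c₆ % 8 = 7 ∧ C6 W 0 1 % 64 = 8) ∨ (W.c₆ % 8 = 3 ∧ C6 W 0 1 % 64 = 40)) := by
  rw [P_zero_one, C4_zero_one, C6_zero_one]
  have ec6 : W.c₆ = -W.b₂ ^ 3 + 36 * W.b₂ * W.b₄ - 216 * W.b₆ := rfl
  rw [ec6]
  have eΔ : W.Δ = -W.b₂ ^ 2 * W.b₈ - 8 * W.b₄ ^ 3 - 27 * W.b₆ ^ 2 + 9 * W.b₂ * W.b₄ * W.b₆ := rfl
  have e2 : W.b₂ = 1 + 4 * W.a₂ := by rw [WeierstrassCurve.b₂, h1]; ring
  have e4 : W.b₄ = 2 * W.a₄ := by rw [WeierstrassCurve.b₄, h1, h3]; ring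
  have e6 : W.b₆ = 4 * W.a₆ := by rw [WeierstrassCurve.b₆, h3]; ring
  have e8 : W.b₈ = W.a₆ + 4 * W.a₂ * W.a₆ - W.a₄ ^ 2 := by rw [WeierstrassCurve.b₈, h1, h3]; ring
  -- `b₈` is odd
  have h8 : W.b₈ % 2 = 1 := by
    by_contra hc
    apply hΔ
    obtain ⟨k, hk⟩ : ∃ k, W.b₈ = 2 * k := ⟨W.b₈ / 2, by omega⟩
    rw [eΔ, hk, e4, e6]
    exact ⟨-W.b₂ ^ 2 * k - 32 * W.a₄ ^ 3 - 216 * W.a₆ ^ 2 + 36 * W.b₂ * W.a₄ * W.a₆, by ring⟩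
  have h46 : (W.a₄ + W.a₆) % 2 = 1 := by
    rw [e8] at h8
    rcases Int.even_or_odd W.a₄ with ⟨k, hk⟩ | ⟨k, hk⟩
    · rw [hk] at h8 ⊢; ring_nf at h8; omega
    · rw [hk] at h8 ⊢; ring_nf at h8; omega
  obtain ⟨c, hc⟩ : ∃ c, W.b₈ = 2 * c + 1 := ⟨W.b₈ / 2, by omega⟩
  refine ⟨by omega, ?_, ?_⟩
  · obtain ⟨j, hj⟩ : ∃ j, W.a₆ = 2 * j + 1 - W.a₄ := ⟨(W.a₄ + W.a₆) / 2, by omega⟩
    rcases Int.even_or_odd W.a₄ with ⟨k, hk⟩ | ⟨k, hk⟩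
    · rw [e6, e4, hc, hj, hk]; ring_nf; omega
    · rw [e6, e4, hc, hj, hk]; ring_nf; omega
  · -- b₈² = 1 + 8 u
    obtain ⟨u, hu⟩ : ∃ u, W.b₈ ^ 2 = 1 + 8 * u := by
      rcases Int.even_or_odd c with ⟨k, hk⟩ | ⟨k, hk⟩
      · exact ⟨2 * k ^ 2 + k, by rw [hc, hk]; ring⟩
      · exact ⟨2 * k ^ 2 + 3 * k + 1, by rw [hc, hk]; ring⟩
    obtain ⟨v, hv⟩ : ∃ v, W.a₄ * W.a₆ = 2 * v := by
      rcases Int.even_or_odd W.a₄ with ⟨k, hk⟩ | ⟨k, hk⟩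
      · exact ⟨k * W.a₆, by rw [hk]; ring⟩
      · obtain ⟨j, hj⟩ : ∃ j, W.a₆ = 2 * j := ⟨W.a₆ / 2, by omega⟩
        exact ⟨W.a₄ * j, by rw [hj]; ring⟩
    have e : 5832 * W.b₂ * W.b₈ ^ 2 - 26244 * W.b₄ * W.b₆ * W.b₈ + 19683 * W.b₆ ^ 3 =
        8 + 32 * W.a₂ + 64 * (91 * (1 + 4 * W.a₂) + 729 * W.b₂ * u - 6561 * v * W.b₈ +
          19683 * W.a₆ ^ 3) := by
      rw [hu, e4, e6]
      linear_combination (5832 + 8 * 5832 * u - 64 * 729 * u) * e2 - 26244 * 8 * W.b₈ * hv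
    rw [e]
    rcases Int.even_or_odd W.a₂ with ⟨k, hk⟩ | ⟨k, hk⟩
    · left
      refine ⟨?_, by omega⟩
      rw [e2, e4, e6, hk]; ring_nf; omega
    · right
      refine ⟨?_, by omega⟩
      rw [e2, e4, e6, hk]; ring_nf; omega

/-- supersingular case: values at `(0, 1)` -/
theorem values_ss (W : WeierstrassCurve ℤ) (h1 : W.a₁ = 0) (h3 : W.a₃ = 1) :
    C4 W 0 1 % 2 = 1 ∧ C6 W 0 1 % 4 = 3 ∧
      ((P W 0 1 % 2 = 0 ∧ W.c₄ % 32 = 0) ∨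
       (P W 0 1 % 2 = 1 ∧ W.c₄ % 32 = 16 ∧ W.c₆ % 64 = 40 ∧ C6 W 0 1 % 8 = 3) ∨
       (P W 0 1 % 2 = 1 ∧ W.c₄ % 32 = 16 ∧ W.c₆ % 64 = 8 ∧ C6 W 0 1 % 8 = 7)) := by
  rw [P_zero_one, C4_zero_one, C6_zero_one]
  have ec4 : W.c₄ = W.b₂ ^ 2 - 24 * W.b₄ := rfl
  have ec6 : W.c₆ = -W.b₂ ^ 3 + 36 * W.b₂ * W.b₄ - 216 * W.b₆ := rfl
  have e2 : W.b₂ = 4 * W.a₂ := by rw [WeierstrassCurve.b₂, h1]; ring
  have e4 : W.b₄ = 2 * W.a₄ := by rw [WeierstrassCurve.b₄, h1, h3]; ring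
  have e6 : W.b₆ = 1 + 4 * W.a₆ := by rw [WeierstrassCurve.b₆, h3]; ring
  have e8 : W.b₈ = W.a₂ + 4 * W.a₂ * W.a₆ - W.a₄ ^ 2 := by rw [WeierstrassCurve.b₈, h1, h3]; ring
  have v4 : (729 * W.b₆ ^ 2 - 648 * W.b₄ * W.b₈) % 2 = 1 := by
    rw [e6]; ring_nf; omega
  have v6 : (5832 * W.b₂ * W.b₈ ^ 2 - 26244 * W.b₄ * W.b₆ * W.b₈ + 19683 * W.b₆ ^ 3) % 8 =
      (3 + 4 * W.a₆) % 8 := by
    rw [e2, e4, e6]; ring_nf; omega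
  refine ⟨v4, by omega, ?_⟩
  rcases Int.emod_two_eq_zero_or_one (W.a₂ + W.a₄) with h | h
  · left
    obtain ⟨j, hj⟩ : ∃ j, W.a₄ = 2 * j - W.a₂ := ⟨(W.a₂ + W.a₄) / 2, by omega⟩
    rcases Int.even_or_odd W.a₂ with ⟨k, hk⟩ | ⟨k, hk⟩
    · refine ⟨?_, ?_⟩
      · rw [e8, hj, hk]; ring_nf; omega
      · rw [ec4, e2, e4, hj, hk]; ring_nf; omega
    · refine ⟨?_, ?_⟩
      · rw [e8, hj, hk]; ring_nf; omega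
      · rw [ec4, e2, e4, hj, hk]; ring_nf; omega
  · right
    obtain ⟨j, hj⟩ : ∃ j, W.a₄ = 2 * j + 1 - W.a₂ := ⟨(W.a₂ + W.a₄) / 2, by omega⟩
    have hP : (27 * W.b₈) % 2 = 1 := by
      rcases Int.even_or_odd W.a₂ with ⟨k, hk⟩ | ⟨k, hk⟩
      · rw [e8, hj, hk]; ring_nf; omega
      · rw [e8, hj, hk]; ring_nf; omega
    have h4 : W.c₄ % 32 = 16 := by
      rcases Int.even_or_odd W.a₂ with ⟨k, hk⟩ | ⟨k, hk⟩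
      · rw [ec4, e2, e4, hj, hk]; ring_nf; omega
      · rw [ec4, e2, e4, hj, hk]; ring_nf; omega
    rcases Int.emod_two_eq_zero_or_one W.a₆ with h6 | h6
    · left
      refine ⟨hP, h4, ?_, by omega⟩
      obtain ⟨i, hi⟩ : ∃ i, W.a₆ = 2 * i := ⟨W.a₆ / 2, by omega⟩
      rcases Int.even_or_odd W.a₂ with ⟨k, hk⟩ | ⟨k, hk⟩
      · rw [ec6, e2, e4, e6, hj, hk, hi]; ring_nf; omega
      · rw [ec6, e2, e4, e6, hj, hk, hi]; ring_nf; omega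
    · right
      refine ⟨hP, h4, ?_, by omega⟩
      obtain ⟨i, hi⟩ : ∃ i, W.a₆ = 2 * i + 1 := ⟨W.a₆ / 2, by omega⟩
      rcases Int.even_or_odd W.a₂ with ⟨k, hk⟩ | ⟨k, hk⟩
      · rw [ec6, e2, e4, e6, hj, hk, hi]; ring_nf; omega
      · rw [ec6, e2, e4, e6, hj, hk, hi]; ring_nf; omega

/-- block X1 for a curve in normal form -/
theorem switch_normal (W : WeierstrassCurve ℤ) (hss : W.IsSemistableModel)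
    (h2 : ¬ (2 : ℤ) ∣ W.Δ) (R : ℕ) (hR : 0 < R)
    (hn : (W.a₁ = 1 ∧ W.a₃ = 0) ∨ (W.a₁ = 0 ∧ W.a₃ = 1)) :
    ∃ W' : WeierstrassCurve ℤ, W'.IsSemistableModel ∧ W'.Δ ≠ 0 ∧ AtTwo W W' ∧
    (∀ ℓ : ℕ, ℓ.Prime → ℓ ≠ 2 → ℓ ≠ 3 → W.IsGoodPrimeFor ℓ → W'.IsGoodPrimeFor ℓ →
      (3 : ℤ) ∣ W'.apOfModel ℓ - W.apOfModel ℓ) ∧
    (∀ r : ℕ, r.Prime → r ∣ R → r ≠ 2 → r ≠ 3 →
      (¬ (r : ℤ) ∣ W.Δ → ¬ (r : ℤ) ∣ W'.Δ) ∧ W'.apOfModel r = W.apOfModel r) ∧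
    (Odd R → (R : ℤ) ∣ W'.c₄ - W.c₄ ∧ (R : ℤ) ∣ W'.c₆ - W.c₆) ∧
    ((3 : ℤ) ∣ W'.Δ → (3 : ℤ) ∣ W.Δ) := by
  obtain ⟨X, Y, M, hXY, h64, hXM, hYM, h27, hΔM, hRM, hRM'⟩ := exists_coords W.Δ h2 R hR
  have hX : (64 : ℤ) ∣ X - 0 := by simpa using h64
  have hY : (64 : ℤ) ∣ Y - 1 := by
    have : Y - 1 = -X := by linarith
    rw [this]; exact h64.neg_right
  have cP := Fermat.Agent.H3LT.P_congr W hX hY
  have c4 := Fermat.Agent.H3LT.C4_congr W hX hY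
  have c6 := Fermat.Agent.H3LT.C6_congr W hX hY
  -- the condition at `3`
  have h3 : ¬ (3 : ℤ) ∣ C6 W X Y ∨ (27 : ℤ) ∣ C6 W X Y := by
    have hY0 : M ∣ Y - 0 := by simpa using hYM
    have h6M := h27.trans (Fermat.Agent.H3LT.C6_congr W hXM hY0)
    rw [Fermat.Agent.H3LT.C6_one_zero] at h6M
    rcases Fermat.Agent.H3LT.c6_three W with h | h
    · left; omega
    · right; omega
  have hrel := Fermat.Agent.H3LT.C_relation W X Y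
  have hred := redTwo W h2
  rcases hn with ⟨h1, h3'⟩ | ⟨h1, h3'⟩
  · obtain ⟨v1, v4, v6⟩ := values_ord W h1 h3' h2
    have hPodd : ¬ (2 : ℤ) ∣ P W X Y := by omega
    have k4 : C4 W X Y % 32 = 16 := by omega
    obtain ⟨a, ha⟩ : ∃ a, C4 W X Y = 16 * a := ⟨C4 W X Y / 16, by omega⟩
    have k6 : (W.c₆ % 8 = 7 ∧ C6 W X Y % 64 = 8) ∨ (W.c₆ % 8 = 3 ∧ C6 W X Y % 64 = 40) := by omega
    obtain ⟨b, hb⟩ : ∃ b, C6 W X Y = 8 * b := ⟨C6 W X Y / 8, by omega⟩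
    obtain ⟨W', e4, e6, eΔ⟩ := exists_model_even a b (W.Δ * P W X Y ^ 3)
      (by rw [ha, hb] at hrel; linarith) (by omega) (by omega)
    rw [← ha] at e4
    rw [← hb] at e6
    obtain ⟨q1, q2, q3, q4, ⟨q5, q6⟩, q7⟩ := of_member W W' hss h2 R X Y M hXY hXM hYM h27 hΔM hRM e4 e6 eΔ
      (fun h => absurd h hPodd)
    have hΔ' : ¬ (2 : ℤ) ∣ W'.Δ := by
      rw [eΔ]
      intro h
      rcases Int.prime_two.dvd_or_dvd h with h | h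
      · exact h2 h
      · exact hPodd (Int.prime_two.dvd_of_dvd_pow h)
    refine ⟨W', q1, q2, ?_, q3, q4, fun h => ⟨(hRM' h).trans q5, (hRM' h).trans q6⟩, q7⟩
    have hred' := redTwo W' hΔ'
    rw [e4, e6] at hred'
    rcases k6 with ⟨k, k'⟩ | ⟨k, k'⟩
    · have a1 : W.apOfModel 2 = -1 := by
        rcases hred with ⟨_, _, _⟩ | ⟨_, _, _⟩ | ⟨_, _, _⟩ | ⟨_, _, _⟩ | ⟨_, _, _⟩ <;> omega
      have a2 : W'.apOfModel 2 = 2 := by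
        rcases hred' with ⟨_, _, _⟩ | ⟨_, _, _⟩ | ⟨_, _, _⟩ | ⟨_, _, _⟩ | ⟨_, _, _⟩ <;> omega
      exact .one (Or.inr a1) hΔ' (by rw [a1, a2]; norm_num)
    · have a1 : W.apOfModel 2 = 1 := by
        rcases hred with ⟨_, _, _⟩ | ⟨_, _, _⟩ | ⟨_, _, _⟩ | ⟨_, _, _⟩ | ⟨_, _, _⟩ <;> omega
      have a2 : W'.apOfModel 2 = -2 := by
        rcases hred' with ⟨_, _, _⟩ | ⟨_, _, _⟩ | ⟨_, _, _⟩ | ⟨_, _, _⟩ | ⟨_, _, _⟩ <;> omega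
      exact .one (Or.inl a1) hΔ' (by rw [a1, a2]; norm_num)
  · obtain ⟨v4, v6, v⟩ := values_ss W h1 h3'
    have k4 : ¬ (2 : ℤ) ∣ C4 W X Y := by omega
    obtain ⟨W', e4, e6, eΔ⟩ := Fermat.Agent.H3LT.exists_model (C4 W X Y) (C6 W X Y)
      (W.Δ * P W X Y ^ 3) hrel (by omega) h3
    obtain ⟨q1, q2, q3, q4, ⟨q5, q6⟩, q7⟩ := of_member W W' hss h2 R X Y M hXY hXM hYM h27 hΔM hRM e4 e6 eΔ
      (fun _ => k4)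
    refine ⟨W', q1, q2, ?_, q3, q4, fun h => ⟨(hRM' h).trans q5, (hRM' h).trans q6⟩, q7⟩
    rcases v with ⟨v1, v2⟩ | v
    · have a1 : W.apOfModel 2 = 0 := by
        rcases hred with ⟨_, _, _⟩ | ⟨_, _, _⟩ | ⟨_, _, _⟩ | ⟨_, _, _⟩ | ⟨_, _, _⟩ <;> omega
      refine .zero a1 ?_
      rw [eΔ]
      have : (2 : ℤ) ∣ P W X Y := by omega
      exact (this.pow (by norm_num)).mul_left _
    · have hPodd : ¬ (2 : ℤ) ∣ P W X Y := by omega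
      have hΔ' : ¬ (2 : ℤ) ∣ W'.Δ := by
        rw [eΔ]
        intro h
        rcases Int.prime_two.dvd_or_dvd h with h | h
        · exact h2 h
        · exact hPodd (Int.prime_two.dvd_of_dvd_pow h)
      have hred' := redTwo W' hΔ'
      rw [e4, e6] at hred'
      rcases v with ⟨v1, v2, v3, v5⟩ | ⟨v1, v2, v3, v5⟩
      · have a1 : W.apOfModel 2 = -2 := by
          rcases hred with ⟨_, _, _⟩ | ⟨_, _, _⟩ | ⟨_, _, _⟩ | ⟨_, _, _⟩ | ⟨_, _, _⟩ <;> omega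
        have a2 : W'.apOfModel 2 = 1 := by
          rcases hred' with ⟨_, _, _⟩ | ⟨_, _, _⟩ | ⟨_, _, _⟩ | ⟨_, _, _⟩ | ⟨_, _, _⟩ <;> omega
        exact .two (Or.inr a1) hΔ' (by rw [a1, a2]; norm_num)
      · have a1 : W.apOfModel 2 = 2 := by
          rcases hred with ⟨_, _, _⟩ | ⟨_, _, _⟩ | ⟨_, _, _⟩ | ⟨_, _, _⟩ | ⟨_, _, _⟩ <;> omega
        have a2 : W'.apOfModel 2 = -1 := by
          rcases hred' with ⟨_, _, _⟩ | ⟨_, _, _⟩ | ⟨_, _, _⟩ | ⟨_, _, _⟩ | ⟨_, _, _⟩ <;> omega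
        exact .two (Or.inl a1) hΔ' (by rw [a1, a2]; norm_num)

/-- **Block X1 of LT-X**: the 3-switch at `2` for a semistable curve with good reduction at `2`.
`AtTwo W W'` records: `a_2 = 0` and `W'` bad at `2`; or `a_2 = ±1`, `W'` good at `2` with
`a_2(W') = -2 a_2(W)`; or `a_2 = ±2`, `W'` good at `2` with `a_2(W') = -a_2(W)/2`. -/
theorem switch_two' (W : WeierstrassCurve ℤ) (hss : W.IsSemistableModel)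
    (h2 : ¬ (2 : ℤ) ∣ W.Δ) (R : ℕ) (hR : 0 < R) :
    ∃ W' : WeierstrassCurve ℤ, W'.IsSemistableModel ∧ W'.Δ ≠ 0 ∧ AtTwo W W' ∧
    (∀ ℓ : ℕ, ℓ.Prime → ℓ ≠ 3 → W.IsGoodPrimeFor ℓ → W'.IsGoodPrimeFor ℓ →
      (3 : ℤ) ∣ W'.apOfModel ℓ - W.apOfModel ℓ) ∧
    (∀ r : ℕ, r.Prime → r ∣ R → r ≠ 2 → r ≠ 3 →
      (¬ (r : ℤ) ∣ W.Δ → ¬ (r : ℤ) ∣ W'.Δ) ∧ W'.apOfModel r = W.apOfModel r) ∧
    (Odd R → (R : ℤ) ∣ W'.c₄ - W.c₄ ∧ (R : ℤ) ∣ W'.c₆ - W.c₆) ∧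
    ((3 : ℤ) ∣ W'.Δ → (3 : ℤ) ∣ W.Δ) := by
  obtain ⟨r, s, t, hn⟩ := exists_normal W h2
  have eΔ := vc_Δ W r s t
  have e4 := vc_c4 W r s t
  have e6 := vc_c6 W r s t
  have hap : ∀ p : ℕ, p.Prime → (vc r s t • W).apOfModel p = W.apOfModel p := by
    intro p hp
    have : Fact p.Prime := ⟨hp⟩
    exact ap_vc W r s t p
  obtain ⟨W', q1, q2, q3, q4, q5, q6, q7⟩ := switch_normal (vc r s t • W)
    (by intro p hp; rw [eΔ, e4]; exact hss p hp) (by rw [eΔ]; exact h2) R hR hn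
  have q3' : AtTwo W W' := by
    have e := hap 2 Nat.prime_two
    rcases q3 with ⟨a, b⟩ | ⟨a, b, c⟩ | ⟨a, b, c⟩
    · exact .zero (by rw [← e]; exact a) b
    · exact .one (by rw [← e]; exact a) b (by rw [← e]; exact c)
    · exact .two (by rw [← e]; exact a) b (by rw [← e]; exact c)
  rw [e4, e6] at q6
  rw [eΔ] at q7
  refine ⟨W', q1, q2, q3', ?_, ?_, q6, q7⟩
  · intro ℓ hℓ hℓ3 hg hg'
    by_cases hℓ2 : ℓ = 2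
    · subst hℓ2
      rcases q3' with ⟨a, b⟩ | ⟨a, b, c⟩ | ⟨a, b, c⟩
      · exact absurd (by exact_mod_cast b) hg'
      · omega
      · omega
    · rw [← hap ℓ hℓ]
      refine q4 ℓ hℓ hℓ2 hℓ3 ?_ hg'
      unfold WeierstrassCurve.IsGoodPrimeFor
      rw [eΔ]; exact hg
  · intro r' hr' hr'R h2' h3'
    have := q5 r' hr' hr'R h2' h3'
    rw [eΔ, hap r' hr'] at this
    exact this

/-- **Block X1 of LT-X**: the 3-switch at `2` for a semistable curve with good reduction at `2`. -/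
theorem switch_two (W : WeierstrassCurve ℤ) (hss : W.IsSemistableModel)
    (h2 : ¬ (2 : ℤ) ∣ W.Δ) (R : ℕ) (hR : 0 < R) :
    ∃ W' : WeierstrassCurve ℤ, W'.IsSemistableModel ∧ W'.Δ ≠ 0 ∧ AtTwo W W' ∧
    (∀ ℓ : ℕ, ℓ.Prime → ℓ ≠ 3 → W.IsGoodPrimeFor ℓ → W'.IsGoodPrimeFor ℓ →
      (3 : ℤ) ∣ W'.apOfModel ℓ - W.apOfModel ℓ) ∧
    (∀ r : ℕ, r.Prime → r ∣ R → r ≠ 2 → r ≠ 3 →
      (¬ (r : ℤ) ∣ W.Δ → ¬ (r : ℤ) ∣ W'.Δ) ∧ W'.apOfModel r = W.apOfModel r) := by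
  obtain ⟨W', q1, q2, q3, q4, q5, _⟩ := switch_two' W hss h2 R hR
  exact ⟨W', q1, q2, q3, q4, q5⟩

/-- block X1, case `a_2 = 0` -/
theorem x1_zero (W : WeierstrassCurve ℤ) (hss : W.IsSemistableModel)
    (h2 : ¬ (2 : ℤ) ∣ W.Δ) (ha : W.apOfModel 2 = 0) (R : ℕ) (hR : 0 < R) :
    ∃ W' : WeierstrassCurve ℤ, W'.IsSemistableModel ∧ W'.Δ ≠ 0 ∧ (2 : ℤ) ∣ W'.Δ ∧
    (∀ ℓ : ℕ, ℓ.Prime → ℓ ≠ 3 → W.IsGoodPrimeFor ℓ → W'.IsGoodPrimeFor ℓ →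
      (3 : ℤ) ∣ W'.apOfModel ℓ - W.apOfModel ℓ) ∧
    (∀ r : ℕ, r.Prime → r ∣ R → r ≠ 2 → r ≠ 3 →
      (¬ (r : ℤ) ∣ W.Δ → ¬ (r : ℤ) ∣ W'.Δ) ∧ W'.apOfModel r = W.apOfModel r) := by
  obtain ⟨W', q1, q2, q3, q4, q5⟩ := switch_two W hss h2 R hR
  rcases q3 with ⟨a, b⟩ | ⟨a, b, c⟩ | ⟨a, b, c⟩
  · exact ⟨W', q1, q2, b, q4, q5⟩
  · omega
  · omega

/-- block X1, case `a_2 = ±1` -/
theorem x1_one (W : WeierstrassCurve ℤ) (hss : W.IsSemistableModel)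
    (h2 : ¬ (2 : ℤ) ∣ W.Δ) (ha : W.apOfModel 2 = 1 ∨ W.apOfModel 2 = -1) (R : ℕ) (hR : 0 < R) :
    ∃ W' : WeierstrassCurve ℤ, W'.IsSemistableModel ∧ W'.Δ ≠ 0 ∧ ¬ (2 : ℤ) ∣ W'.Δ ∧
    W'.apOfModel 2 = -2 * W.apOfModel 2 ∧
    (∀ ℓ : ℕ, ℓ.Prime → ℓ ≠ 3 → W.IsGoodPrimeFor ℓ → W'.IsGoodPrimeFor ℓ →
      (3 : ℤ) ∣ W'.apOfModel ℓ - W.apOfModel ℓ) ∧
    (∀ r : ℕ, r.Prime → r ∣ R → r ≠ 2 → r ≠ 3 →
      (¬ (r : ℤ) ∣ W.Δ → ¬ (r : ℤ) ∣ W'.Δ) ∧ W'.apOfModel r = W.apOfModel r) := by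
  obtain ⟨W', q1, q2, q3, q4, q5⟩ := switch_two W hss h2 R hR
  rcases q3 with ⟨a, b⟩ | ⟨a, b, c⟩ | ⟨a, b, c⟩
  · omega
  · exact ⟨W', q1, q2, b, c, q4, q5⟩
  · omega

/-- block X1, case `a_2 = ±2` -/
theorem x1_two (W : WeierstrassCurve ℤ) (hss : W.IsSemistableModel)
    (h2 : ¬ (2 : ℤ) ∣ W.Δ) (ha : W.apOfModel 2 = 2 ∨ W.apOfModel 2 = -2) (R : ℕ) (hR : 0 < R) :
    ∃ W' : WeierstrassCurve ℤ, W'.IsSemistableModel ∧ W'.Δ ≠ 0 ∧ ¬ (2 : ℤ) ∣ W'.Δ ∧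
    2 * W'.apOfModel 2 = - W.apOfModel 2 ∧
    (∀ ℓ : ℕ, ℓ.Prime → ℓ ≠ 3 → W.IsGoodPrimeFor ℓ → W'.IsGoodPrimeFor ℓ →
      (3 : ℤ) ∣ W'.apOfModel ℓ - W.apOfModel ℓ) ∧
    (∀ r : ℕ, r.Prime → r ∣ R → r ≠ 2 → r ≠ 3 →
      (¬ (r : ℤ) ∣ W.Δ → ¬ (r : ℤ) ∣ W'.Δ) ∧ W'.apOfModel r = W.apOfModel r) := by
  obtain ⟨W', q1, q2, q3, q4, q5⟩ := switch_two W hss h2 R hR
  rcases q3 with ⟨a, b⟩ | ⟨a, b, c⟩ | ⟨a, b, c⟩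
  · omega
  · omega
  · exact ⟨W', q1, q2, b, c, q4, q5⟩

theorem x1_zero' (W : WeierstrassCurve ℤ) (hss : W.IsSemistableModel)
    (h2 : ¬ (2 : ℤ) ∣ W.Δ) (ha : W.apOfModel 2 = 0) (R : ℕ) (hR : 0 < R) :
    ∃ W' : WeierstrassCurve ℤ, W'.IsSemistableModel ∧ W'.Δ ≠ 0 ∧ (2 : ℤ) ∣ W'.Δ ∧
    (∀ ℓ : ℕ, ℓ.Prime → ℓ ≠ 3 → W.IsGoodPrimeFor ℓ → W'.IsGoodPrimeFor ℓ →
      (3 : ℤ) ∣ W'.apOfModel ℓ - W.apOfModel ℓ) ∧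
    (∀ r : ℕ, r.Prime → r ∣ R → r ≠ 2 → r ≠ 3 →
      (¬ (r : ℤ) ∣ W.Δ → ¬ (r : ℤ) ∣ W'.Δ) ∧ W'.apOfModel r = W.apOfModel r) ∧
    (Odd R → (R : ℤ) ∣ W'.c₄ - W.c₄ ∧ (R : ℤ) ∣ W'.c₆ - W.c₆) ∧
    ((3 : ℤ) ∣ W'.Δ → (3 : ℤ) ∣ W.Δ) := by
  obtain ⟨W', q1, q2, q3, q4, q5, q6, q7⟩ := switch_two' W hss h2 R hR
  rcases q3 with ⟨a, b⟩ | ⟨a, b, c⟩ | ⟨a, b, c⟩
  · exact ⟨W', q1, q2, b, q4, q5, q6, q7⟩
  · omega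
  · omega

theorem x1_one' (W : WeierstrassCurve ℤ) (hss : W.IsSemistableModel)
    (h2 : ¬ (2 : ℤ) ∣ W.Δ) (ha : W.apOfModel 2 = 1 ∨ W.apOfModel 2 = -1) (R : ℕ) (hR : 0 < R) :
    ∃ W' : WeierstrassCurve ℤ, W'.IsSemistableModel ∧ W'.Δ ≠ 0 ∧ ¬ (2 : ℤ) ∣ W'.Δ ∧
    W'.apOfModel 2 = -2 * W.apOfModel 2 ∧
    (∀ ℓ : ℕ, ℓ.Prime → ℓ ≠ 3 → W.IsGoodPrimeFor ℓ → W'.IsGoodPrimeFor ℓ →
      (3 : ℤ) ∣ W'.apOfModel ℓ - W.apOfModel ℓ) ∧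
    (∀ r : ℕ, r.Prime → r ∣ R → r ≠ 2 → r ≠ 3 →
      (¬ (r : ℤ) ∣ W.Δ → ¬ (r : ℤ) ∣ W'.Δ) ∧ W'.apOfModel r = W.apOfModel r) ∧
    (Odd R → (R : ℤ) ∣ W'.c₄ - W.c₄ ∧ (R : ℤ) ∣ W'.c₆ - W.c₆) ∧
    ((3 : ℤ) ∣ W'.Δ → (3 : ℤ) ∣ W.Δ) := by
  obtain ⟨W', q1, q2, q3, q4, q5, q6, q7⟩ := switch_two' W hss h2 R hR
  rcases q3 with ⟨a, b⟩ | ⟨a, b, c⟩ | ⟨a, b, c⟩
  · omega
  · exact ⟨W', q1, q2, b, c, q4, q5, q6, q7⟩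
  · omega

theorem x1_two' (W : WeierstrassCurve ℤ) (hss : W.IsSemistableModel)
    (h2 : ¬ (2 : ℤ) ∣ W.Δ) (ha : W.apOfModel 2 = 2 ∨ W.apOfModel 2 = -2) (R : ℕ) (hR : 0 < R) :
    ∃ W' : WeierstrassCurve ℤ, W'.IsSemistableModel ∧ W'.Δ ≠ 0 ∧ ¬ (2 : ℤ) ∣ W'.Δ ∧
    2 * W'.apOfModel 2 = - W.apOfModel 2 ∧
    (∀ ℓ : ℕ, ℓ.Prime → ℓ ≠ 3 → W.IsGoodPrimeFor ℓ → W'.IsGoodPrimeFor ℓ →
      (3 : ℤ) ∣ W'.apOfModel ℓ - W.apOfModel ℓ) ∧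
    (∀ r : ℕ, r.Prime → r ∣ R → r ≠ 2 → r ≠ 3 →
      (¬ (r : ℤ) ∣ W.Δ → ¬ (r : ℤ) ∣ W'.Δ) ∧ W'.apOfModel r = W.apOfModel r) ∧
    (Odd R → (R : ℤ) ∣ W'.c₄ - W.c₄ ∧ (R : ℤ) ∣ W'.c₆ - W.c₆) ∧
    ((3 : ℤ) ∣ W'.Δ → (3 : ℤ) ∣ W.Δ) := by
  obtain ⟨W', q1, q2, q3, q4, q5, q6, q7⟩ := switch_two' W hss h2 R hR
  rcases q3 with ⟨a, b⟩ | ⟨a, b, c⟩ | ⟨a, b, c⟩
  · omega
  · omega
  · exact ⟨W', q1, q2, b, c, q4, q5, q6, q7⟩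

/-- `a_2 ∈ {-2, …, 2}` at a good prime -/
theorem ap_two_cases (W : WeierstrassCurve ℤ) (h2 : ¬ (2 : ℤ) ∣ W.Δ) :
    W.apOfModel 2 = 0 ∨ (W.apOfModel 2 = 1 ∨ W.apOfModel 2 = -1) ∨
      (W.apOfModel 2 = 2 ∨ W.apOfModel 2 = -2) := by
  rcases redTwo W h2 with ⟨_, _, h⟩ | ⟨_, _, h⟩ | ⟨_, _, h⟩ | ⟨_, _, h⟩ | ⟨_, _, h⟩ <;> omega

end Fermat.Agent.H52
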