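import Mathlib
import Fermat.Prelude.Def_FLTPrelim_FreyPackage
import Fermat.Prelude.Def_FLTPrelim_GaloisRep
import Fermat.Prelude.Def_FLTPrelim_Modularity
import Fermat.Prelude.Def_FLTPrelim_ModularRep
import Fermat.Prelude.Def_FLTPrelim_Ramification
import Fermat.Prelude.Def_FLTPrelim_CofixedLine
import Fermat.Prelude.Def_WeierstrassCurve_Mlc1RowStatement

set_option autoImplicit false
open WeierstrassCurve WeierstrassCurve.Affine WeierstrassCurve.Affine.Point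
open CuspForm ModularFormClass UpperHalfPlane

namespace Fermat.Agent.H60

/-- Residual modularity at 3 with level not divisible by 9 (S50 + descent from 9 ∣ M). -/
def ResMod3 : Prop :=
  ∀ W : WeierstrassCurve ℤ, W.Δ ≠ 0 → W.IsSemistableModel → W.ModRepIsIrreducible 3 →
    ∃ M : ℕ, 0 < M ∧ W.IsResiduallyModularOfLevel 3 M ∧
      (∀ q : ℕ, q.Prime → q ≠ 3 → ¬ q ^ 3 ∣ M) ∧ ¬ 3 ^ 2 ∣ M

/-- S51 -/
def Irr35 : Prop :=
  ∀ W : WeierstrassCurve ℤ, W.Δ ≠ 0 → W.IsSemistableModel →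
    W.ModRepIsIrreducible 3 ∨ W.ModRepIsIrreducible 5

/-- S52 -/
def Switch35 : Prop :=
  ∀ W : WeierstrassCurve ℤ, W.Δ ≠ 0 → W.IsSemistableModel → W.ModRepIsIrreducible 5 →
    ∃ W' : WeierstrassCurve ℤ, W'.Δ ≠ 0 ∧ W'.IsSemistableModel ∧ W'.ModRepIsIrreducible 3 ∧
      ∀ ℓ : ℕ, ℓ.Prime → W.IsGoodPrimeFor ℓ → W'.IsGoodPrimeFor ℓ → ℓ ≠ 5 →
        (5 : ℤ) ∣ (W'.apOfModel ℓ - W.apOfModel ℓ)

/-- S59 -/
def Lifting : Prop :=
  ∀ (p : ℕ), (p = 3 ∨ p = 5) →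
    ∀ W : WeierstrassCurve ℤ, W.Δ ≠ 0 → W.IsSemistableModel → W.ModRepIsIrreducible p →
    ∀ (M₀ : ℕ) [NeZero M₀], W.IsResiduallyModularOfLevel p M₀ → ¬ p ^ 2 ∣ M₀ →
    (∀ q : ℕ, q.Prime → q ≠ p → ¬ q ^ 3 ∣ M₀) → Mlc1IsModularModelOfExactConductorLevel W

lemma isModular_of_exact {W : WeierstrassCurve ℤ}
    (h : Mlc1IsModularModelOfExactConductorLevel W) : (W.map (Int.castRingHom ℚ)).IsModular := by
  obtain ⟨N, hN, -, -, hmod⟩ := h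
  exact ⟨W, ⟨1, one_smul _ _⟩, N, hN, hmod⟩

theorem isResiduallyModularOfLevel_of_congr {W W' : WeierstrassCurve ℤ} {p : ℕ} (hp : p.Prime)
    {N : ℕ} (hsupp : ∀ q : ℕ, q.Prime → (q : ℤ) ∣ W'.Δ → q ∣ N)
    (hmod : W'.IsModularModelOfLevel N)
    (hcong : ∀ ℓ : ℕ, ℓ.Prime → W.IsGoodPrimeFor ℓ → W'.IsGoodPrimeFor ℓ → ℓ ≠ p →
        (p : ℤ) ∣ (W'.apOfModel ℓ - W.apOfModel ℓ)) :
    W.IsResiduallyModularOfLevel p N := by
  obtain ⟨f, hf, hfa⟩ := hmod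
  obtain ⟨𝔪, h𝔪, hp𝔪⟩ := FLTPrelim.exists_maximalIdeal_natCast_prime_mem hp
  refine ⟨f, 𝔪, hf, h𝔪, hp𝔪, fun ℓ hℓ hgood hℓN hℓp => ?_⟩
  have hgood' : W'.IsGoodPrimeFor ℓ := fun h => hℓN (hsupp ℓ hℓ h)
  refine ⟨((W'.apOfModel ℓ : ℤ) : integralClosure ℤ ℂ), ?_, ?_⟩
  · rw [hfa ℓ hℓ hgood' hℓN]; simp
  · obtain ⟨c, hc⟩ := hcong ℓ hℓ hgood hgood' hℓp
    rw [← Int.cast_sub, hc, Int.cast_mul]
    exact Ideal.mul_mem_right _ _ (by simpa using hp𝔪)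

theorem S60_of (h50 : ResMod3) (h51 : Irr35) (h52 : Switch35) (h59 : Lifting)
    (W : WeierstrassCurve ℤ) (hΔ : W.Δ ≠ 0) (hW : W.IsSemistableModel) :
    (W.map (Int.castRingHom ℚ)).IsModular := by
  have key : ∀ W : WeierstrassCurve ℤ, W.Δ ≠ 0 → W.IsSemistableModel →
      W.ModRepIsIrreducible 3 → Mlc1IsModularModelOfExactConductorLevel W := by
    intro W hΔ hW h3
    obtain ⟨M, hM, hres, hM3, hM9⟩ := h50 W hΔ hW h3
    have : NeZero M := ⟨hM.ne'⟩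
    exact h59 3 (Or.inl rfl) W hΔ hW h3 M hres hM9 hM3
  rcases h51 W hΔ hW with h3 | h5
  · exact isModular_of_exact (key W hΔ hW h3)
  · obtain ⟨W', hΔ', hW', h3', hcong⟩ := h52 W hΔ hW h5
    obtain ⟨N, hN, hsq, hsupp, hmod⟩ := key W' hΔ' hW' h3'
    have hres : W.IsResiduallyModularOfLevel 5 N :=
      isResiduallyModularOfLevel_of_congr Nat.prime_five
        (fun q hq h => (hsupp q hq).mpr h) hmod (by exact_mod_cast hcong)
    have : NeZero N := ⟨hN.ne'⟩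
    have hsq' : ∀ q : ℕ, q.Prime → ¬ q ^ 2 ∣ N := fun q hq h =>
      Nat.squarefree_iff_prime_squarefree.mp hsq q hq (by rwa [← pow_two])
    refine isModular_of_exact (h59 5 (Or.inr rfl) W hΔ hW h5 N hres (hsq' 5 Nat.prime_five) ?_)
    intro q hq _ h
    exact hsq' q hq (dvd_trans (pow_dvd_pow q (by norm_num)) h)

end Fermat.Agent.H60
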