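import Mathlib

set_option autoImplicit false

/-!
# The explicit family of elliptic curves 5-congruent to a given one

`a = c₄`, `b = c₆`, parameter `t`.  The three integer polynomials below satisfy
`C20 ^ 3 - C30 ^ 2 = (a ^ 3 - b ^ 2) * D12 ^ 5`.
-/

namespace Fermat.Agent.H98

section

variable {R : Type*} [CommRing R]

/-- auxiliary chunk of `D12` -/
def D12_0 (a b t : R) : R :=
    1 - 66*t^2*a + 440*t^3*b - 1485*t^4*a^2 + 3168*t^5*a*b - 10560*t^6*b^2 + 5940*t^6*a^3 +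
    4752*t^7*a^2*b + 63360*t^8*a*b^2 - 66825*t^8*a^4 - 140800*t^9*b^3 + 142560*t^9*a^3*b +
    133056*t^10*a^2*b^2 - 133650*t^10*a^5 - 61440*t^11*a*b^3 + 61560*t^11*a^4*b +
    102400*t^12*b^4 - 193536*t^12*a^3*b^2 + 91125*t^12*a^6

/-- the discriminant factor of the family -/
def D12 (a b t : R) : R :=
    D12_0 a b t

/-- auxiliary chunk of `C20` -/
def C20_0 (a b t : R) : R :=
    a - 20*t*b + 190*t^2*a^2 - 1140*t^3*a*b + 5700*t^4*b^2 - 855*t^4*a^3 - 15504*t^5*a^2*b -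
    63840*t^6*a*b^2 + 102600*t^6*a^4 + 182400*t^7*b^3 - 259920*t^7*a^3*b

/-- auxiliary chunk of `C20` -/
def C20_1 (a b t : R) : R :=
    1126320*a^2*b^2 - 1000350*a^5 - 7904000*t*a*b^3 + 7736040*t*a^4*b + 15808000*t^2*b^4 -
    5619744*t^2*a^3*b^2 - 10003500*t^2*a^6 - 54853760*t^3*a^2*b^3 + 54685800*t^3*a^5*b +
    37939200*t^4*a*b^4 + 7202520*t^4*a^4*b^2 - 45015750*t^4*a^7 - 58368000*t^5*b^5 +
    23201280*t^5*a^3*b^3 + 35089200*t^5*a^6*b + 287462400*t^6*a^2*b^4 - 495188640*t^6*a^5*b^2 +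
    207765000*t^6*a^8 - 466944000*t^7*a*b^5 + 882458496*t^7*a^4*b^3 - 415530000*t^7*a^7*b

/-- auxiliary chunk of `C20` -/
def C20_2 (a b t : R) : R :=
    583680000*b^6 - 1220474880*a^3*b^4 + 714711600*a^6*b^2 - 77911875*a^9 - 361881600*t*a^2*b^5
    + 715080960*t*a^5*b^3 - 353200500*t*a^8*b - 622592000*t^2*a*b^6 + 2026391040*t^2*a^4*b^4 -
    2182917600*t^2*a^7*b^2 + 779118750*t^2*a^10 + 655360000*t^3*b^7 - 2005401600*t^3*a^3*b^5 +
    2044414080*t^3*a^6*b^3 - 694372500*t^3*a^9*b - 180224000*t^4*a^2*b^6 + 544997376*t^4*a^5*b^4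
    - 549301500*t^4*a^8*b^2 + 184528125*t^4*a^11

/-- `c₄` of the family -/
def C20 (a b t : R) : R :=
    C20_0 a b t + t^8 * C20_1 a b t + t^16 * C20_2 a b t

/-- auxiliary chunk of `C30` -/
def C30_0 (a b t : R) : R :=
    b - 30*t*a^2 + 435*t^2*a*b - 2900*t^3*b^2 - 1160*t^3*a^3 + 27405*t^4*a^2*b - 46980*t^5*a*b^2
    - 95526*t^5*a^4

/-- auxiliary chunk of `C30` -/
def C30_1 (a b t : R) : R :=
    156600*b^3 + 437175*a^3*b - 3915000*t*a^2*b^2 + 1879200*t*a^5 + 14407200*t^2*a*b^3 -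
    8554275*t^2*a^4*b - 32016000*t^3*b^4 + 42021000*t^3*a^3*b^2 - 24312150*t^3*a^6 -
    216588240*t^4*a^2*b^3 + 246633255*t^4*a^5*b + 1459929600*t^5*a*b^4 - 1352475900*t^5*a^4*b^2
    - 162081000*t^5*a^7

/-- auxiliary chunk of `C30` -/
def C30_2 (a b t : R) : R :=
    -2433216000*b^5 - 1612005600*a^3*b^3 + 4131714825*a^6*b + 12044419200*t*a^2*b^4 -
    5235216300*t*a^5*b^2 - 6928962750*t*a^8 - 43045111800*t^2*a^4*b^3 + 43190534475*t^2*a^7*b +
    79420170240*t^3*a^3*b^4 - 79575287760*t^3*a^6*b^2 - 297825638400*t^4*a^2*b^5 +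
    474659611200*t^4*a^5*b^3 - 176688550125*t^4*a^8*b + 700766208000*t^5*a*b^6 -
    935084908800*t^5*a^4*b^4 - 77604382800*t^5*a^7*b^2 + 311803323750*t^5*a^10

/-- auxiliary chunk of `C30` -/
def C30_3 (a b t : R) : R :=
    -778629120000*b^7 - 303665356800*a^3*b^5 + 2776512362400*a^6*b^3 - 1694131392375*a^9*b +
    4290656256000*t*a^2*b^6 - 8100765158400*t*a^5*b^4 + 3481840250100*t*a^8*b^2 +
    328214025000*t*a^11 - 3442360320000*t^2*a*b^7 + 3892110842880*t^2*a^4*b^5 +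
    2424887357760*t^2*a^7*b^3 - 2874607835625*t^2*a^10*b + 3278438400000*t^3*b^8 -
    5125838438400*t^3*a^3*b^6 + 2709129888000*t^3*a^6*b^4 - 3077188825500*t^3*a^9*b^2 +
    2215444668750*t^3*a^12 - 4573421568000*t^4*a^2*b^7 + 7701051801600*t^4*a^5*b^5 -
    1724509423800*t^4*a^8*b^3 - 1403114956875*t^4*a^11*b - 6157762560000*t^5*a*b^8 +
    30337884979200*t^5*a^4*b^6 - 49888700928000*t^5*a^7*b^4 + 33414470973000*t^5*a^10*b^2 -
    7705894500000*t^5*a^13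

/-- auxiliary chunk of `C30` -/
def C30_4 (a b t : R) : R :=
    5131468800000*b^9 - 22779445248000*a^3*b^7 + 35246094796800*a^6*b^5 - 22687218914400*a^9*b^3
    + 5089101159375*a^12*b + 18216714240000*t*a^2*b^8 - 71274600677376*t*a^5*b^6 +
    105528606261120*t*a^8*b^4 - 70097953635000*t*a^11*b^2 + 17627233668750*t*a^14 -
    41051750400000*t^2*a*b^9 + 163803539865600*t^2*a^4*b^7 - 245438120632320*t^2*a^7*b^5 +
    163672057566000*t^2*a^10*b^3 - 40985726371875*t^2*a^13*b + 30408704000000*t^3*b^10 -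
    111934439424000*t^3*a^3*b^8 + 143803576074240*t^3*a^6*b^6 - 63806176396800*t^3*a^9*b^4 -
    8104032382500*t^3*a^12*b^2 + 9632368125000*t^3*a^15 - 21438136320000*t^4*a^2*b^9 +
    85731449241600*t^4*a^5*b^7 - 128580522647040*t^4*a^8*b^5 + 85719228804000*t^4*a^11*b^3 -
    21432019078125*t^4*a^14*b - 5033164800000*t^5*a*b^10 + 31344427008000*t^5*a^4*b^8 -
    75042714746880*t^5*a^7*b^6 + 87394892457600*t^5*a^10*b^4 - 49873523512500*t^5*a^13*b^2 +
    11210083593750*t^5*a^16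

/-- auxiliary chunk of `C30` -/
def C30_5 (a b t : R) : R :=
    3355443200000*b^11 - 17532190720000*a^3*b^9 + 36574189977600*a^6*b^7 -
    38083944628224*a^9*b^5 + 19796866155000*a^12*b^3 - 4110363984375*a^15*b

/-- `c₆` of the family -/
def C30 (a b t : R) : R :=
    C30_0 a b t + t^6 * C30_1 a b t + t^12 * C30_2 a b t + t^18 * C30_3 a b t + t^24 * C30_4 a b t + t^30 * C30_5 a b t


set_option maxHeartbeats 40000000 in
set_option maxRecDepth 100000 in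
theorem C20_pow_sub_C30_sq (a b t : R) :
    C20 a b t ^ 3 - C30 a b t ^ 2 = (a ^ 3 - b ^ 2) * D12 a b t ^ 5 := by
  simp only [C20, C30, D12, D12_0, C20_0, C20_1, C20_2, C30_0, C30_1, C30_2, C30_3, C30_4, C30_5]
  ring

end

end Fermat.Agent.H98
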