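import Fermat.Agent.H52Defs
import Fermat.Agent.H98Family

set_option autoImplicit false

/-!
# Comparison of the two explicit descriptions of the 5-congruent family
-/

namespace Fermat.Agent.H98

open Fermat.Agent.H52

variable {R : Type*} [CommRing R]

theorem D12_eq_dHat (a b t : R) : D12 a b t = dHat a b (-t) := by
  simp only [D12, D12_0, dHat]
  ring

set_option maxHeartbeats 4000000 in
set_option maxRecDepth 100000 in
theorem C20_eq_c4Hat (a b t : R) : C20 a b t = c4Hat a b (-t) := by
  simp only [C20, C20_0, C20_1, C20_2, c4Hat, gHat, dHat, eHat]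
  ring

set_option maxHeartbeats 4000000 in
set_option maxRecDepth 100000 in
theorem two_C30_eq_c6Hat2 (a b t : R) : 2 * C30 a b t = c6Hat2 a b (-t) := by
  simp only [C30, C30_0, C30_1, C30_2, C30_3, C30_4, C30_5, c6Hat2, gHat, dHat, eHat, kHat]
  ring

end Fermat.Agent.H98
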