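import Fermat.Agent.H52Transfer
import Fermat.Agent.H98Bridge
import Fermat.Agent.H98Model
import Fermat.Agent.H62FrobCharpoly

/-!
# The mod 5 congruence of point counts for the explicit 5-congruent family
-/

set_option autoImplicit false

open WeierstrassCurve Fermat.Agent.H98

namespace Fermat.Agent.H52

section Map

variable {R S : Type*} [CommRing R] [CommRing S] (g : R →+* S)

theorem map_dHat (x y z : R) : dHat (g x) (g y) (g z) = g (dHat x y z) := by
  unfold dHat
  simp only [map_add, map_sub, map_mul, map_pow, map_neg, map_ofNat, map_one]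

theorem map_gHat (x y z : R) : gHat (g x) (g y) (g z) = g (gHat x y z) := by
  unfold gHat
  simp only [map_add, map_sub, map_mul, map_pow, map_neg, map_ofNat, map_one]

theorem map_eHat (x y z : R) : eHat (g x) (g y) (g z) = g (eHat x y z) := by
  unfold eHat
  simp only [map_add, map_sub, map_mul, map_pow, map_neg, map_ofNat, map_one]

theorem map_kHat (x y z : R) : kHat (g x) (g y) (g z) = g (kHat x y z) := by
  unfold kHat
  simp only [map_add, map_sub, map_mul, map_pow, map_neg, map_ofNat, map_one]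

theorem map_c4Hat (x y z : R) : c4Hat (g x) (g y) (g z) = g (c4Hat x y z) := by
  unfold c4Hat
  rw [map_dHat, map_gHat, map_eHat]
  simp only [map_sub, map_mul, map_pow]

theorem map_c6Hat2 (x y z : R) : c6Hat2 (g x) (g y) (g z) = g (c6Hat2 x y z) := by
  unfold c6Hat2
  rw [map_dHat, map_gHat, map_eHat, map_kHat]
  simp only [map_sub, map_mul, map_pow, map_ofNat]

end Map

theorem congr5 : Congr5 := by
  intro ℓ hℓ a b t h30 hab hD
  classical
  have h2 : (2 : ZMod ℓ) ≠ 0 := fun h => h30 (by linear_combination 15 * h)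
  have h3 : (3 : ZMod ℓ) ≠ 0 := fun h => h30 (by linear_combination 10 * h)
  have h5 : (5 : ZMod ℓ) ≠ 0 := fun h => h30 (by linear_combination 6 * h)
  let K := AlgebraicClosure (ZMod ℓ)
  let _ : DecidableEq K := Classical.decEq _
  let g : ZMod ℓ →+* K := algebraMap (ZMod ℓ) K
  have hginj : Function.Injective g := g.injective
  have h2K : (2 : K) ≠ 0 := by
    intro h; apply h2; apply hginj; rw [map_ofNat, map_zero]; exact h
  have h3K : (3 : K) ≠ 0 := by
    intro h; apply h3; apply hginj; rw [map_ofNat, map_zero]; exact h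
  have h5K : (5 : K) ≠ 0 := by
    intro h; apply h5; apply hginj; rw [map_ofNat, map_zero]; exact h
  set a' := C20 a b t with ha'
  set b' := C30 a b t with hb'
  have hD' : dHat a b (-t) ≠ 0 := by rw [← D12_eq_dHat]; exact hD
  have ea' : a' = c4Hat a b (-t) := C20_eq_c4Hat a b t
  have eb' : 2 * b' = c6Hat2 a b (-t) := two_C30_eq_c6Hat2 a b t
  have hab' : a' ^ 3 - b' ^ 2 ≠ 0 := by
    rw [ha', hb', C20_pow_sub_C30_sq]
    exact mul_ne_zero hab (pow_ne_zero _ hD)
  have hΔ : (short a b).Δ ≠ 0 := by
    rw [short_Δ]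
    exact mul_ne_zero (mul_ne_zero (pow_ne_zero _ h2) (pow_ne_zero _ h3)) hab
  have hΔ' : (short a' b').Δ ≠ 0 := by
    rw [short_Δ]
    exact mul_ne_zero (mul_ne_zero (pow_ne_zero _ h2) (pow_ne_zero _ h3)) hab'
  let σ : K →ₐ[ZMod ℓ] K := FiniteField.frobeniusAlgHom (ZMod ℓ) K
  have σfix : ∀ x : ZMod ℓ, σ (g x) = g x := fun x => σ.commutes x
  have habK : (g a) ^ 3 - (g b) ^ 2 ≠ 0 := by
    rw [← map_pow, ← map_pow, ← map_sub]
    exact (map_ne_zero_iff g hginj).mpr hab
  have hDK : dHat (g a) (g b) (g (-t)) ≠ 0 := by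
    rw [map_dHat]; exact (map_ne_zero_iff g hginj).mpr hD'
  have hW : (short a b)⁄K = short (g a) (g b) := short_map g a b
  have hW' : (short a' b')⁄K = short (g a') (g b') := short_map g a' b'
  obtain ⟨P, P', hord, htr⟩ := transfer h2K h3K h5K (σ : K →+* K) habK hDK
    (a' := g a') (b' := g b') (by rw [map_c4Hat, ← ea']) (by rw [map_c6Hat2, ← eb', map_mul, map_ofNat])
    (σfix a) (σfix b) (σfix (-t)) hW hW'
    (Affine.Point.map (W' := (short a b).toAffine) σ)
    (fun x y h => ⟨_, Affine.Point.map_some (W' := (short a b).toAffine) σ h⟩)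
    (Affine.Point.map (W' := (short a' b').toAffine) σ)
    (fun x y h => ⟨_, Affine.Point.map_some (W' := (short a' b').toAffine) σ h⟩)
  have hf := H62.frob_charpoly (short a b) hΔ K P
  have hf' := H62.frob_charpoly (short a' b') hΔ' K P'
  have hf'' := htr (short a b).traceOfFrobenius (Nat.card (ZMod ℓ) : ℤ) hf
  have hdiff : ((short a' b').traceOfFrobenius - (short a b).traceOfFrobenius) •
      (Affine.Point.map (W' := (short a' b').toAffine) σ) P' = 0 := by
    have := sub_eq_zero.mpr (hf''.trans hf'.symm)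
    rw [sub_smul, ← this]
    abel
  have hdvd := hord _ hdiff
  unfold WeierstrassCurve.traceOfFrobenius WeierstrassCurve.card at hdvd
  have e : (Nat.card (short a' b').toAffine.Point : ℤ) - (Nat.card (short a b).toAffine.Point : ℤ)
      = -(((Nat.card (ZMod ℓ) : ℤ) + 1 - (Nat.card (short a' b').toAffine.Point : ℤ))
        - ((Nat.card (ZMod ℓ) : ℤ) + 1 - (Nat.card (short a b).toAffine.Point : ℤ))) := by ring
  rw [e]
  exact (dvd_neg).mpr hdvd

end Fermat.Agent.H52
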