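import Fermat.Agent.H3LTInt
import Fermat.Agent.H98Short
import Fermat.Agent.H98Model

set_option autoImplicit false

/-!
# Kraus' criterion with control at 3 (project LT-X, part (B))
-/

open WeierstrassCurve Fermat.Agent.H3LT

namespace Fermat.Agent.H85.X

/-- an integral model with given invariants `c₄, c₆`, `c₆ ≡ 3 mod 4`, close to `W` at `3` -/
theorem exists_model_near (W : WeierstrassCurve ℤ) (c4 c6 Δ : ℤ) (hrel : 1728 * Δ = c4 ^ 3 - c6 ^ 2)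
    (h2 : c6 % 4 = 3) (h4 : (81 : ℤ) ∣ c4 - W.c₄) (h6 : (81 : ℤ) ∣ c6 - W.c₆) :
    ∃ W' : WeierstrassCurve ℤ, W'.c₄ = c4 ∧ W'.c₆ = c6 ∧ W'.Δ = Δ ∧
      (3 : ℤ) ∣ W'.b₂ - W.b₂ ∧ (3 : ℤ) ∣ W'.b₄ - W.b₄ ∧ (3 : ℤ) ∣ W'.b₆ - W.b₆ := by
  -- relations modulo 16, 8
  have r16 : (c4 : ZMod 16) ^ 3 = (c6 : ZMod 16) ^ 2 := by
    have := zmod_cast_cases 16 (c4 ^ 3) (c6 ^ 2) ⟨108 * Δ, by rw [← hrel]; push_cast; ring⟩
    exact_mod_cast this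
  have r8 : (c4 : ZMod 8) ^ 3 = (c6 : ZMod 8) ^ 2 := by
    have := zmod_cast_cases 8 (c4 ^ 3) (c6 ^ 2) ⟨216 * Δ, by rw [← hrel]; push_cast; ring⟩
    exact_mod_cast this
  have c16 : (c6 : ZMod 16) = 3 ∨ (c6 : ZMod 16) = 7 ∨ (c6 : ZMod 16) = 11 ∨ (c6 : ZMod 16) = 15 := by
    have h : c6 % 16 = 3 ∨ c6 % 16 = 7 ∨ c6 % 16 = 11 ∨ c6 % 16 = 15 := by omega
    rcases h with h | h | h | h
    · left; have := zmod_cast_cases 16 c6 3 (by omega); exact_mod_cast this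
    · right; left; have := zmod_cast_cases 16 c6 7 (by omega); exact_mod_cast this
    · right; right; left; have := zmod_cast_cases 16 c6 11 (by omega); exact_mod_cast this
    · right; right; right; have := zmod_cast_cases 16 c6 15 (by omega); exact_mod_cast this
  have c8 : (c6 : ZMod 8) = 3 ∨ (c6 : ZMod 8) = 7 := by
    have h : c6 % 8 = 3 ∨ c6 % 8 = 7 := by omega
    rcases h with h | h
    · left; have := zmod_cast_cases 8 c6 3 (by omega); exact_mod_cast this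
    · right; have := zmod_cast_cases 8 c6 7 (by omega); exact_mod_cast this
  obtain ⟨b2, hb2⟩ : ∃ b2 : ℤ, b2 = 81 - 80 * W.b₂ := ⟨_, rfl⟩
  have hb16 : (b2 : ZMod 16) = 1 := by
    have := zmod_cast_cases 16 b2 1 (by rw [hb2]; omega)
    exact_mod_cast this
  have hb8 : (b2 : ZMod 8) = 1 := by
    have := zmod_cast_cases 8 b2 1 (by rw [hb2]; omega)
    exact_mod_cast this
  have h16 : (16 : ℤ) ∣ b2 ^ 3 - 3 * b2 * c4 - 2 * c6 := by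
    apply (ZMod.intCast_zmod_eq_zero_iff_dvd _ 16).mp
    push_cast
    exact kraus16 _ _ r16 c16 _ (Or.inl hb16)
  have h8 : (8 : ℤ) ∣ b2 ^ 2 - c4 := by
    apply (ZMod.intCast_zmod_eq_zero_iff_dvd _ 8).mp
    push_cast
    exact kraus8 _ _ r8 c8 _ (Or.inl hb8)
  -- 3-adic part
  have e4 : W.c₄ = W.b₂ ^ 2 - 24 * W.b₄ := rfl
  have e6 : W.c₆ = -W.b₂ ^ 3 + 36 * W.b₂ * W.b₄ - 216 * W.b₆ := rfl
  have hd2 : (81 : ℤ) ∣ b2 - W.b₂ := ⟨1 - W.b₂, by rw [hb2]; ring⟩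
  obtain ⟨u, hu⟩ := hd2
  obtain ⟨v, hv⟩ := h4
  obtain ⟨w, hw⟩ := h6
  have hu' : b2 = W.b₂ + 81 * u := by linarith
  have hv' : c4 = W.b₂ ^ 2 - 24 * W.b₄ + 81 * v := by rw [← e4]; linarith
  have hw' : c6 = -W.b₂ ^ 3 + 36 * W.b₂ * W.b₄ - 216 * W.b₆ + 81 * w := by rw [← e6]; linarith
  obtain ⟨k, hk⟩ : ∃ k, b2 ^ 2 - c4 - 24 * W.b₄ = 81 * k :=
    ⟨2 * W.b₂ * u + 81 * u ^ 2 - v, by rw [hu', hv']; ring⟩
  obtain ⟨j, hj⟩ : ∃ j, b2 ^ 3 - 3 * b2 * c4 - 2 * c6 - 432 * W.b₆ = 81 * j :=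
    ⟨3 * W.b₂ ^ 2 * u + 243 * W.b₂ * u ^ 2 + 6561 * u ^ 3 - 3 * W.b₂ * v - 3 * u * (W.b₂ ^ 2 - 24 * W.b₄)
      - 243 * u * v - 2 * w, by rw [hu', hv', hw']; ring⟩
  obtain ⟨b4, hb4⟩ : (24 : ℤ) ∣ b2 ^ 2 - c4 := by omega
  obtain ⟨b6, hb6⟩ : (432 : ℤ) ∣ b2 ^ 3 - 3 * b2 * c4 - 2 * c6 := by omega
  have hb24 : b2 % 4 = 1 := by rw [hb2]; omega
  have e4' : b2 ^ 2 - 24 * b4 = c4 := by linarith
  have e6' : -b2 ^ 3 + 36 * b2 * b4 - 216 * b6 = c6 := by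
    have h4 : 2 * (-b2 ^ 3 + 36 * b2 * b4 - 216 * b6) = 2 * c6 := by
      linear_combination 3 * b2 * (-hb4) + hb6
    exact mul_left_cancel₀ (by norm_num) h4
  have d2 : (3 : ℤ) ∣ b2 - W.b₂ := ⟨27 * u, by rw [hu]; ring⟩
  have d4 : (3 : ℤ) ∣ b4 - W.b₄ := by omega
  have d6 : (3 : ℤ) ∣ b6 - W.b₆ := by omega
  -- relation for 4 Δ
  have hΔ : 4 * Δ = -b2 ^ 2 * (b2 * b6 - b4 ^ 2) - 32 * b4 ^ 3 - 108 * b6 ^ 2 + 36 * b2 * b4 * b6 := by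
    have h : 1728 * (4 * Δ) = 1728 * (-b2 ^ 2 * (b2 * b6 - b4 ^ 2) - 32 * b4 ^ 3 - 108 * b6 ^ 2 +
        36 * b2 * b4 * b6) := by
      rw [← e4', ← e6'] at hrel
      linear_combination 4 * hrel
    exact mul_left_cancel₀ (by norm_num) h
  obtain ⟨a2, ha2⟩ : ∃ a2, b2 = 1 + 4 * a2 := ⟨b2 / 4, by omega⟩
  have h4 : (4 : ℤ) ∣ b6 - b4 ^ 2 := by
    have h5 : (4 : ℤ) ∣ b2 ^ 2 * (b2 * b6 - b4 ^ 2) := ⟨-Δ - 8 * b4 ^ 3 - 27 * b6 ^ 2 + 9 * b2 * b4 * b6, by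
      linear_combination hΔ⟩
    obtain ⟨k, hk⟩ := h5
    refine ⟨k - 2 * a2 * (b2 * b6 - b4 ^ 2) - 4 * a2 ^ 2 * (b2 * b6 - b4 ^ 2) - a2 * b6, ?_⟩
    rw [ha2] at hk ⊢
    linear_combination hk
  obtain ⟨a3, a4, ha3, ha4⟩ : ∃ a3 a4 : ℤ, (a3 = 0 ∨ a3 = 1) ∧ b4 = a3 + 2 * a4 := by
    rcases Int.even_or_odd b4 with ⟨k, hk⟩ | ⟨k, hk⟩
    · exact ⟨0, k, Or.inl rfl, by omega⟩
    · exact ⟨1, k, Or.inr rfl, by omega⟩
  have ha3' : a3 ^ 2 = a3 := by rcases ha3 with h | h <;> rw [h] <;> norm_num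
  obtain ⟨a6, ha6⟩ : ∃ a6, b6 = a3 ^ 2 + 4 * a6 := by
    obtain ⟨k, hk⟩ := h4
    refine ⟨k + a3 * a4 + a4 ^ 2, ?_⟩
    rw [ha4] at hk
    linear_combination hk
  have hb2' : (⟨1, a2, a3, a4, a6⟩ : WeierstrassCurve ℤ).b₂ = b2 := by
    simp only [WeierstrassCurve.b₂]; rw [ha2]; ring
  have hb4' : (⟨1, a2, a3, a4, a6⟩ : WeierstrassCurve ℤ).b₄ = b4 := by
    simp only [WeierstrassCurve.b₄]; rw [ha4]; ring
  have hb6' : (⟨1, a2, a3, a4, a6⟩ : WeierstrassCurve ℤ).b₆ = b6 := by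
    simp only [WeierstrassCurve.b₆]; rw [ha6]
  have f4 : (⟨1, a2, a3, a4, a6⟩ : WeierstrassCurve ℤ).c₄ = c4 := by
    rw [WeierstrassCurve.c₄, hb2', hb4', e4']
  have f6 : (⟨1, a2, a3, a4, a6⟩ : WeierstrassCurve ℤ).c₆ = c6 := by
    rw [WeierstrassCurve.c₆, hb2', hb4', hb6', e6']
  refine ⟨⟨1, a2, a3, a4, a6⟩, f4, f6, ?_, ?_, ?_, ?_⟩
  · have h := (⟨1, a2, a3, a4, a6⟩ : WeierstrassCurve ℤ).c_relation
    rw [f4, f6, ← hrel] at h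
    exact mul_left_cancel₀ (by norm_num) h
  · rw [hb2']; exact d2
  · rw [hb4']; exact d4
  · rw [hb6']; exact d6

section field

variable {F : Type*} [Field F]

/-- the change of variables killing `a₁, a₃` -/
def halfVC (W : WeierstrassCurve F) : VariableChange F where
  u := 1
  r := 0
  s := -W.a₁ / 2
  t := -W.a₃ / 2

theorem halfVC_smul (h2 : (2 : F) ≠ 0) (W : WeierstrassCurve F) :
    halfVC W • W = ⟨0, W.b₂ / 4, 0, W.b₄ / 2, W.b₆ / 4⟩ := by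
  have h4 : (4 : F) ≠ 0 := by
    have : (4 : F) = 2 * 2 := by norm_num
    rw [this]; exact mul_ne_zero h2 h2
  ext <;>
  simp only [halfVC, variableChange_a₁, variableChange_a₂, variableChange_a₃,
    variableChange_a₄, variableChange_a₆, inv_one, Units.val_one, b₂, b₄, b₆] <;>
  field_simp <;> ring

theorem card_eq_of_b (h2 : (2 : F) ≠ 0) (W W' : WeierstrassCurve F) (e2 : W.b₂ = W'.b₂)
    (e4 : W.b₄ = W'.b₄) (e6 : W.b₆ = W'.b₆) :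
    Nat.card W.toAffine.Point = Nat.card W'.toAffine.Point := by
  classical
  have h : halfVC W • W = halfVC W' • W' := by
    rw [halfVC_smul h2, halfVC_smul h2, e2, e4, e6]
  have k1 := Nat.card_congr (Fermat.Agent.H74.pointEquiv W (halfVC W)).toEquiv
  have k2 := Nat.card_congr (Fermat.Agent.H74.pointEquiv W' (halfVC W')).toEquiv
  rw [← k1, ← k2, h]

end field

theorem two_ne_zero_zmod_three : (2 : ZMod 3) ≠ 0 := by decide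

/-- the trace at `3` only depends on the `b`-invariants modulo 3 -/
theorem apOfModel_three_eq (W W' : WeierstrassCurve ℤ) (h2 : (3 : ℤ) ∣ W'.b₂ - W.b₂)
    (h4 : (3 : ℤ) ∣ W'.b₄ - W.b₄) (h6 : (3 : ℤ) ∣ W'.b₆ - W.b₆) : W'.apOfModel 3 = W.apOfModel 3 := by
  have : Fact (Nat.Prime 3) := ⟨Nat.prime_three⟩
  have c : ∀ x y : ℤ, (3 : ℤ) ∣ x - y → (Int.castRingHom (ZMod 3)) x = (Int.castRingHom (ZMod 3)) y := by
    intro x y h
    have := zmod_cast_cases 3 x y (by exact_mod_cast h)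
    simpa using this
  unfold WeierstrassCurve.apOfModel WeierstrassCurve.traceOfFrobenius WeierstrassCurve.card
  rw [card_eq_of_b two_ne_zero_zmod_three (W'.reductionMod 3) (W.reductionMod 3)]
  · unfold WeierstrassCurve.reductionMod
    rw [WeierstrassCurve.map_b₂, WeierstrassCurve.map_b₂]; exact c _ _ h2
  · unfold WeierstrassCurve.reductionMod
    rw [WeierstrassCurve.map_b₄, WeierstrassCurve.map_b₄]; exact c _ _ h4
  · unfold WeierstrassCurve.reductionMod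
    rw [WeierstrassCurve.map_b₆, WeierstrassCurve.map_b₆]; exact c _ _ h6

end Fermat.Agent.H85.X
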