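import Fermat.Agent.H98Model

set_option autoImplicit false

/-!
# Good supersingular reduction at 2 with `a₂ = ± 2` (project LT-X, part (B))
-/

open WeierstrassCurve

namespace Fermat.Agent.H85.X

/-- points of an elliptic curve = `O` and the solutions of the equation -/
theorem card_point {F : Type*} [Field F] [Finite F] (W : WeierstrassCurve F) (hΔ : W.Δ ≠ 0) :
    Nat.card W.toAffine.Point = Nat.card {p : F × F // W.toAffine.Equation p.1 p.2} + 1 := by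
  have hns : ∀ x y : F, W.toAffine.Equation x y → W.toAffine.Nonsingular x y := fun x y h =>
    WeierstrassCurve.Affine.equation_iff_nonsingular_of_Δ_ne_zero hΔ |>.mp h
  let e : Option {p : F × F // W.toAffine.Equation p.1 p.2} ≃ W.toAffine.Point :=
    { toFun := fun o => match o with
        | none => .zero
        | some p => .some p.1.1 p.1.2 (hns _ _ p.2)
      invFun := fun P => match P with
        | .zero => none
        | .some x y h => some ⟨(x, y), h.1⟩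
      left_inv := by rintro (_ | ⟨⟨x, y⟩, h⟩) <;> rfl
      right_inv := by rintro (_ | _) <;> rfl }
  rw [← Nat.card_congr e, Finite.card_option]

/-- number of affine solutions over `𝔽₂` -/
def cnt (a1 a2 a3 a4 a6 : ZMod 2) : ℕ :=
  ((Finset.univ : Finset (ZMod 2 × ZMod 2)).filter
    (fun p => p.2 ^ 2 + a1 * p.1 * p.2 + a3 * p.2 = p.1 ^ 3 + a2 * p.1 ^ 2 + a4 * p.1 + a6)).card

/-- discriminant over `𝔽₂` -/
def dis (a1 a2 a3 a4 a6 : ZMod 2) : ZMod 2 :=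
  (⟨a1, a2, a3, a4, a6⟩ : WeierstrassCurve (ZMod 2)).Δ

theorem cnt_cases : ∀ a1 a2 a3 a4 a6 : ZMod 2, dis a1 a2 a3 a4 a6 ≠ 0 →
    (cnt a1 a2 a3 a4 a6 = 0 ∨ cnt a1 a2 a3 a4 a6 = 4) → a1 = 0 ∧ a3 = 1 ∧ a2 + a4 = 1 := by
  unfold dis cnt WeierstrassCurve.Δ WeierstrassCurve.b₂ WeierstrassCurve.b₄ WeierstrassCurve.b₆
    WeierstrassCurve.b₈
  decide

theorem apOfModel_two (W : WeierstrassCurve ℤ) (h2 : ¬ (2 : ℤ) ∣ W.Δ) :
    W.apOfModel 2 = 2 - cnt W.a₁ W.a₂ W.a₃ W.a₄ W.a₆ ∧ dis W.a₁ W.a₂ W.a₃ W.a₄ W.a₆ ≠ 0 := by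
  have hred : W.reductionMod 2 = ⟨W.a₁, W.a₂, W.a₃, W.a₄, W.a₆⟩ := by
    unfold WeierstrassCurve.reductionMod
    ext <;> simp
  have hΔ : (W.reductionMod 2).Δ ≠ 0 := by
    unfold WeierstrassCurve.reductionMod
    rw [WeierstrassCurve.map_Δ]
    intro h
    exact h2 ((ZMod.intCast_zmod_eq_zero_iff_dvd W.Δ 2).mp h)
  refine ⟨?_, ?_⟩
  · unfold WeierstrassCurve.apOfModel WeierstrassCurve.traceOfFrobenius WeierstrassCurve.card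
    rw [card_point _ hΔ, hred]
    have e : Nat.card {p : ZMod 2 × ZMod 2 //
        (⟨W.a₁, W.a₂, W.a₃, W.a₄, W.a₆⟩ : WeierstrassCurve (ZMod 2)).toAffine.Equation p.1 p.2} =
        cnt W.a₁ W.a₂ W.a₃ W.a₄ W.a₆ := by
      refine Nat.subtype_card _ (fun p => ?_)
      simp only [Finset.mem_filter, Finset.mem_univ, true_and]
      rw [WeierstrassCurve.Affine.equation_iff]
    rw [e]
    simp only [Nat.card_eq_fintype_card, ZMod.card]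
    push_cast
    ring
  · rw [hred] at hΔ
    exact hΔ

/-- a curve with good reduction at `2` and `a₂ = ± 2` -/
theorem exists_AB (W : WeierstrassCurve ℤ) (h2 : ¬ (2 : ℤ) ∣ W.Δ)
    (ha : W.apOfModel 2 = 2 ∨ W.apOfModel 2 = -2) :
    ∃ A B : ℤ, W.c₄ = 16 * A ∧ W.c₆ = 8 * B ∧ A % 2 = 1 ∧ B % 4 = 1 := by
  obtain ⟨h, hd⟩ := apOfModel_two W h2
  obtain ⟨h1, h3, h24⟩ := cnt_cases _ _ _ _ _ hd (by rcases ha with ha | ha <;> omega)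
  have e1 : W.a₁ % 2 = 0 := by
    have := (ZMod.intCast_zmod_eq_zero_iff_dvd W.a₁ 2).mp h1
    omega
  have e3 : W.a₃ % 2 = 1 := by
    have h3' : ((1 : ℤ) : ZMod 2) = ((W.a₃ : ℤ) : ZMod 2) := by rw [h3]; norm_num
    have := (ZMod.intCast_eq_intCast_iff_dvd_sub 1 W.a₃ 2).mp h3'
    push_cast at this
    omega
  have e24 : (W.a₂ + W.a₄) % 2 = 1 := by
    have h' : ((1 : ℤ) : ZMod 2) = ((W.a₂ + W.a₄ : ℤ) : ZMod 2) := by push_cast; rw [h24]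
    have := (ZMod.intCast_eq_intCast_iff_dvd_sub 1 (W.a₂ + W.a₄) 2).mp h'
    push_cast at this
    omega
  obtain ⟨α, hα⟩ : ∃ α, W.a₁ = 2 * α := ⟨W.a₁ / 2, by omega⟩
  obtain ⟨β, hβ⟩ : ∃ β, W.a₃ = 2 * β + 1 := ⟨W.a₃ / 2, by omega⟩
  obtain ⟨γ, hγ⟩ : ∃ γ, W.a₂ + W.a₄ = 2 * γ + 1 := ⟨(W.a₂ + W.a₄) / 2, by omega⟩
  refine ⟨(α ^ 2 + W.a₂) ^ 2 - 3 * (W.a₄ + α * W.a₃),
    -8 * (α ^ 2 + W.a₂) ^ 3 + 36 * (α ^ 2 + W.a₂) * (W.a₄ + α * W.a₃) - 27 * (W.a₃ ^ 2 + 4 * W.a₆),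
    ?_, ?_, ?_, ?_⟩
  · simp only [WeierstrassCurve.c₄, WeierstrassCurve.b₂, WeierstrassCurve.b₄]
    rw [hα]; ring
  · simp only [WeierstrassCurve.c₆, WeierstrassCurve.b₂, WeierstrassCurve.b₄, WeierstrassCurve.b₆]
    rw [hα]; ring
  · have h4 : W.a₄ = 2 * γ + 1 - W.a₂ := by linarith
    rw [hβ, h4]
    have hev : ∀ x : ℤ, x * (x + 1) % 2 = 0 := fun x => by
      have := Int.even_mul_succ_self x
      exact Int.even_iff.mp this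
    have k1 := hev W.a₂
    have k2 := hev α
    have e : (α ^ 2 + W.a₂) ^ 2 - 3 * (2 * γ + 1 - W.a₂ + α * (2 * β + 1)) =
        2 * ((α ^ 2 * (α ^ 2 - 1)) / 2 * 0) + (α ^ 4 + 2 * α ^ 2 * W.a₂ + W.a₂ ^ 2 - 6 * γ - 3 + 3 * W.a₂
          - 6 * α * β - 3 * α) := by ring
    have e2 : α ^ 4 + 2 * α ^ 2 * W.a₂ + W.a₂ ^ 2 - 6 * γ - 3 + 3 * W.a₂ - 6 * α * β - 3 * α =
        W.a₂ * (W.a₂ + 1) + α * (α + 1) * (α ^ 2 - α + 1) +
          2 * (α ^ 2 * W.a₂ - 3 * γ - 2 + W.a₂ - 3 * α * β - 2 * α) + 1 := by ring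
    rw [e, e2]
    obtain ⟨u, hu⟩ : ∃ u, W.a₂ * (W.a₂ + 1) = 2 * u := ⟨W.a₂ * (W.a₂ + 1) / 2, by omega⟩
    obtain ⟨v, hv⟩ : ∃ v, α * (α + 1) = 2 * v := ⟨α * (α + 1) / 2, by omega⟩
    rw [hu, hv]
    have e3 : 2 * ((α ^ 2 * (α ^ 2 - 1)) / 2 * 0) + (2 * u + 2 * v * (α ^ 2 - α + 1) +
        2 * (α ^ 2 * W.a₂ - 3 * γ - 2 + W.a₂ - 3 * α * β - 2 * α) + 1) =
        2 * (u + v * (α ^ 2 - α + 1) + (α ^ 2 * W.a₂ - 3 * γ - 2 + W.a₂ - 3 * α * β - 2 * α)) + 1 := by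
      ring
    rw [e3]
    omega
  · rw [hβ]
    have e : -8 * (α ^ 2 + W.a₂) ^ 3 + 36 * (α ^ 2 + W.a₂) * (W.a₄ + α * (2 * β + 1)) -
        27 * ((2 * β + 1) ^ 2 + 4 * W.a₆) =
        4 * (-2 * (α ^ 2 + W.a₂) ^ 3 + 9 * (α ^ 2 + W.a₂) * (W.a₄ + α * (2 * β + 1)) -
          27 * (β ^ 2 + β + W.a₆) - 7) + 1 := by ring
    rw [e]
    omega

end Fermat.Agent.H85.X
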