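import Fermat.Agent.H85XPoly
import Fermat.Agent.H85XTwo
import Fermat.Agent.H85XKr
import Fermat.Agent.H52Congr

set_option autoImplicit false

/-!
# The 5-switch from good supersingular reduction (`a₂ = ± 2`) to multiplicative reduction at 2

(project LT-X, part (B)).
-/

open WeierstrassCurve Fermat.Agent.H98

namespace Fermat.Agent.H85.X

/-- A prime dividing `FD A B s` and not dividing `30 Δ` does not divide `F20 A B s`. -/
theorem not_dvd_F20 {p : ℕ} (hp : p.Prime) (A B s : ℤ) (hpD : (p : ℤ) ∣ FD A B s)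
    (hp30 : ¬ (p : ℤ) ∣ 30 * ((16 * A) ^ 3 - (8 * B) ^ 2)) : ¬ (p : ℤ) ∣ F20 A B s := by
  intro h
  have : Fact p.Prime := ⟨hp⟩
  have hpr : Prime (p : ℤ) := Nat.prime_iff_prime_int.mp hp
  have hp2 : p ≠ 2 := by
    rintro rfl
    exact hp30 ((show (2 : ℤ) ∣ 30 by norm_num).mul_right _)
  have h4 : (4 : ZMod p) ≠ 0 := by
    intro h4
    have h' : (p : ℤ) ∣ 4 := (ZMod.intCast_zmod_eq_zero_iff_dvd 4 p).mp (by exact_mod_cast h4)
    have h'' : (p : ℤ) ∣ 2 := hpr.dvd_of_dvd_pow (n := 2) (by norm_num; exact h')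
    have h3 : p ∣ 2 := by exact_mod_cast h''
    exact hp2 ((Nat.prime_dvd_prime_iff_eq hp Nat.prime_two).mp h3)
  obtain ⟨t, ht⟩ : ∃ t : ℤ, (4 * t : ZMod p) = s := by
    refine ⟨((s / 4 : ZMod p)).val, ?_⟩
    rw [Int.cast_natCast, ZMod.natCast_val, ZMod.cast_id', id_eq]
    field_simp
  have e1 : ((FD A B s : ℤ) : ZMod p) = ((D12 (16 * A) (8 * B) t : ℤ) : ZMod p) := by
    have k1 : FD (A : ZMod p) (B : ZMod p) (s : ZMod p) = ((FD A B s : ℤ) : ZMod p) :=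
      map_FD (Int.castRingHom (ZMod p)) A B s
    have k2 : ((D12 (16 * A) (8 * B) t : ℤ) : ZMod p) =
        D12 ((16 * A : ℤ) : ZMod p) ((8 * B : ℤ) : ZMod p) (t : ZMod p) :=
      map_D12 (Int.castRingHom (ZMod p)) (16 * A) (8 * B) t
    rw [← k1, ← ht, FD_four, k2]
    push_cast
    rfl
  have e2 : ((F20 A B s : ℤ) : ZMod p) = ((C20 (16 * A) (8 * B) t : ℤ) : ZMod p) := by
    have k1 : F20 (A : ZMod p) (B : ZMod p) (s : ZMod p) = ((F20 A B s : ℤ) : ZMod p) :=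
      map_F20 (Int.castRingHom (ZMod p)) A B s
    have k2 : ((C20 (16 * A) (8 * B) t : ℤ) : ZMod p) =
        C20 ((16 * A : ℤ) : ZMod p) ((8 * B : ℤ) : ZMod p) (t : ZMod p) :=
      map_C20 (Int.castRingHom (ZMod p)) (16 * A) (8 * B) t
    rw [← k1, ← ht, F20_four, k2]
    push_cast
    rfl
  refine not_dvd_C20 hpr (16 * A) (8 * B) t ?_ hp30 ?_
  · rw [← ZMod.intCast_zmod_eq_zero_iff_dvd, ← e1, ZMod.intCast_zmod_eq_zero_iff_dvd]; exact hpD
  · rw [← ZMod.intCast_zmod_eq_zero_iff_dvd, ← e2, ZMod.intCast_zmod_eq_zero_iff_dvd]; exact h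

/-- **The 5-switch at 2**: a semistable curve with good reduction at `2` and `a₂ = ± 2` is
5-congruent to a semistable curve with multiplicative reduction at `2`. -/
theorem switch5_even (W : WeierstrassCurve ℤ) (hW : W.IsSemistableModel) (h2 : ¬ (2 : ℤ) ∣ W.Δ)
    (ha : W.apOfModel 2 = 2 ∨ W.apOfModel 2 = -2) :
    ∃ W' : WeierstrassCurve ℤ, W'.Δ ≠ 0 ∧ W'.IsSemistableModel ∧ (2 : ℤ) ∣ W'.Δ ∧ W.Δ ∣ W'.Δ ∧
      ∀ ℓ : ℕ, ℓ.Prime → W.IsGoodPrimeFor ℓ → W'.IsGoodPrimeFor ℓ → ℓ ≠ 5 →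
        (5 : ℤ) ∣ (W'.apOfModel ℓ - W.apOfModel ℓ) := by
  obtain ⟨A, B, hA, hB, hA2, hB4⟩ := exists_AB W h2 ha
  have hΔ : W.Δ ≠ 0 := fun h => h2 (h ▸ dvd_zero 2)
  have hrel : (16 * A) ^ 3 - (8 * B) ^ 2 = 1728 * W.Δ := by
    rw [← hA, ← hB]; exact W.c_relation.symm
  -- the parameter
  set s : ℤ := 4455 * W.Δ with hs
  have hs2 : s % 2 = 1 := by omega
  have hrel' : 1728 * (W.Δ * FD A B s ^ 5) = F20 A B s ^ 3 - F30 A B s ^ 2 := by
    rw [F_relation, hrel]; ring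
  have hB2 : B % 2 = 1 := by omega
  have h81 : (81 : ℤ) ∣ s := ⟨55 * W.Δ, by rw [hs]; ring⟩
  obtain ⟨W', hc4, hc6, hΔ', hb2, hb4, hb6⟩ := exists_model_near W (F20 A B s) (F30 A B s)
    (W.Δ * FD A B s ^ 5) hrel' (F30_mod_four hA2 hB4 hs2)
    (by rw [hA]; exact F20_congr h81) (by rw [hB]; exact F30_congr h81)
  have hev : (2 : ℤ) ∣ W'.Δ := by
    rw [hΔ']
    exact ((FD_even hA2 hB2 hs2).trans (dvd_pow_self _ (by norm_num))).mul_left _
  -- primes dividing s do not divide FD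
  have hKD : ∀ q : ℤ, Prime q → q ∣ s → ¬ q ∣ FD A B s := by
    intro q hq hqK hqD
    have h7 : q ∣ FD A B s - 1 := FD_congr hqK
    have h8 : q ∣ 1 := by
      have := dvd_sub hqD h7
      rwa [sub_sub_cancel] at this
    exact hq.not_isUnit (isUnit_of_dvd_one h8)
  have hD0 : FD A B s ≠ 0 := by
    intro h0
    exact hKD 3 Int.prime_three (dvd_trans (by norm_num) h81) (h0 ▸ dvd_zero 3)
  have hΔ'0 : W'.Δ ≠ 0 := by
    rw [hΔ']; exact mul_ne_zero hΔ (pow_ne_zero 5 hD0)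
  refine ⟨W', hΔ'0, ?_, hev, ⟨_, hΔ'⟩, ?_⟩
  · -- semistable
    intro p hp hpΔ hpc
    have hpr : Prime (p : ℤ) := Nat.prime_iff_prime_int.mp hp
    rw [hΔ'] at hpΔ
    rw [hc4] at hpc
    by_cases hp2 : p = 2
    · subst hp2
      exact F20_odd hA2 hB2 hs2 hpc
    by_cases hps : (p : ℤ) ∣ s
    · have hpD := hKD p hpr hps
      have hpΔ0 : (p : ℤ) ∣ W.Δ := by
        rcases hpr.dvd_or_dvd hpΔ with h | h
        · exact h
        · exact absurd (hpr.dvd_of_dvd_pow h) hpD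
      refine hW p hp hpΔ0 ?_
      have h7 : (p : ℤ) ∣ F20 A B s - 16 * A := F20_congr hps
      have := dvd_sub hpc h7
      rw [sub_sub_cancel] at this
      rw [hA]; exact this
    · have hpΔ0 : ¬ (p : ℤ) ∣ W.Δ := fun h => hps (by rw [hs]; exact h.mul_left _)
      have hpD : (p : ℤ) ∣ FD A B s := by
        rcases hpr.dvd_or_dvd hpΔ with h | h
        · exact absurd h hpΔ0
        · exact hpr.dvd_of_dvd_pow h
      refine not_dvd_F20 hp A B s hpD ?_ hpc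
      rw [hrel]
      intro h
      have h3 : ¬ (p : ℤ) ∣ 3 := fun h3 => hps ((h3.trans (by norm_num)).trans h81)
      have h5 : ¬ (p : ℤ) ∣ 5 := fun h5 => hps (by rw [hs]; exact (h5.trans (by norm_num)).mul_right _)
      have h2' : ¬ (p : ℤ) ∣ 2 := fun h => by
        have h' : p ∣ 2 := by exact_mod_cast h
        exact hp2 ((Nat.prime_dvd_prime_iff_eq hp Nat.prime_two).mp h')
      have e : (30 : ℤ) * (1728 * W.Δ) = 2 ^ 7 * 3 ^ 4 * 5 * W.Δ := by ring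
      rw [e] at h
      rcases hpr.dvd_or_dvd h with h | h
      · rcases hpr.dvd_or_dvd h with h | h
        · rcases hpr.dvd_or_dvd h with h | h
          · exact h2' (hpr.dvd_of_dvd_pow h)
          · exact h3 (hpr.dvd_of_dvd_pow h)
        · exact h5 h
      · exact hpΔ0 h
  · -- congruence
    intro ℓ hℓ hg hg' hℓ5
    have : Fact ℓ.Prime := ⟨hℓ⟩
    have hpr : Prime (ℓ : ℤ) := Nat.prime_iff_prime_int.mp hℓ
    by_cases hℓ2 : ℓ = 2
    · subst hℓ2
      exact absurd hev hg'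
    by_cases hℓ3 : ℓ = 3
    · subst hℓ3
      rw [apOfModel_three_eq W W' hb2 hb4 hb6, sub_self]
      exact dvd_zero _
    have hnd : ∀ q : ℕ, q.Prime → ℓ ≠ q → ¬ (ℓ : ℤ) ∣ q := by
      intro q hq hne h
      have h' : ℓ ∣ q := by exact_mod_cast h
      exact hne ((Nat.prime_dvd_prime_iff_eq hℓ hq).mp h')
    have n2 : ¬ (ℓ : ℤ) ∣ 2 := hnd 2 Nat.prime_two hℓ2
    have n3 : ¬ (ℓ : ℤ) ∣ 3 := hnd 3 Nat.prime_three hℓ3
    have n5 : ¬ (ℓ : ℤ) ∣ 5 := hnd 5 Nat.prime_five hℓ5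
    have hcast : ∀ n : ℤ, ¬ (ℓ : ℤ) ∣ n → ((n : ℤ) : ZMod ℓ) ≠ 0 := by
      intro n hn h
      exact hn ((ZMod.intCast_zmod_eq_zero_iff_dvd n ℓ).mp h)
    have c2 : (2 : ZMod ℓ) ≠ 0 := by exact_mod_cast hcast 2 n2
    have c3 : (3 : ZMod ℓ) ≠ 0 := by exact_mod_cast hcast 3 n3
    have c5 : (5 : ZMod ℓ) ≠ 0 := by exact_mod_cast hcast 5 n5
    have h4 : (4 : ZMod ℓ) ≠ 0 := by
      have : (4 : ZMod ℓ) = 2 * 2 := by norm_num
      rw [this]; exact mul_ne_zero c2 c2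
    have h6' : (6 : ZMod ℓ) ≠ 0 := by
      have : (6 : ZMod ℓ) = 2 * 3 := by norm_num
      rw [this]; exact mul_ne_zero c2 c3
    have h30 : (30 : ZMod ℓ) ≠ 0 := by
      have : (30 : ZMod ℓ) = 5 * 6 := by norm_num
      rw [this]; exact mul_ne_zero c5 h6'
    set t : ZMod ℓ := (s : ZMod ℓ) / 4 with ht
    have hst : 4 * t = (s : ZMod ℓ) := by rw [ht]; field_simp
    have hab' : (16 * (A : ZMod ℓ)) ^ 3 - (8 * (B : ZMod ℓ)) ^ 2 ≠ 0 := by
      have h := hcast (1728 * W.Δ) (by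
        intro h
        have e : (1728 : ℤ) * W.Δ = 2 ^ 6 * 3 ^ 3 * W.Δ := by ring
        rw [e] at h
        rcases hpr.dvd_or_dvd h with h | h
        · rcases hpr.dvd_or_dvd h with h | h
          · exact n2 (hpr.dvd_of_dvd_pow h)
          · exact n3 (hpr.dvd_of_dvd_pow h)
        · exact hg h)
      rw [← hrel] at h
      push_cast at h
      exact h
    have eD : D12 (16 * (A : ZMod ℓ)) (8 * (B : ZMod ℓ)) t = ((FD A B s : ℤ) : ZMod ℓ) := by
      rw [← FD_four, hst]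
      exact map_FD (Int.castRingHom (ZMod ℓ)) A B s
    have e4 : C20 (16 * (A : ZMod ℓ)) (8 * (B : ZMod ℓ)) t = ((F20 A B s : ℤ) : ZMod ℓ) := by
      rw [← F20_four, hst]
      exact map_F20 (Int.castRingHom (ZMod ℓ)) A B s
    have e6 : C30 (16 * (A : ZMod ℓ)) (8 * (B : ZMod ℓ)) t = ((F30 A B s : ℤ) : ZMod ℓ) := by
      rw [← F30_four, hst]
      exact map_F30 (Int.castRingHom (ZMod ℓ)) A B s
    have hD' : D12 (16 * (A : ZMod ℓ)) (8 * (B : ZMod ℓ)) t ≠ 0 := by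
      rw [eD]
      apply hcast
      intro h
      apply hg'
      rw [hΔ']
      exact (h.pow (by norm_num)).mul_left _
    have key := Fermat.Agent.H52.congr5 ℓ _ _ t h30 hab' hD'
    rw [e4, e6] at key
    have f1 := card_short h6' (W.reductionMod ℓ)
    have f2 := card_short h6' (W'.reductionMod ℓ)
    have g1 : (W.reductionMod ℓ).c₄ = 16 * (A : ZMod ℓ) := by
      unfold WeierstrassCurve.reductionMod
      rw [WeierstrassCurve.map_c₄, hA]; simp
    have g2 : (W.reductionMod ℓ).c₆ = 8 * (B : ZMod ℓ) := by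
      unfold WeierstrassCurve.reductionMod
      rw [WeierstrassCurve.map_c₆, hB]; simp
    have g3 : (W'.reductionMod ℓ).c₄ = ((F20 A B s : ℤ) : ZMod ℓ) := by
      unfold WeierstrassCurve.reductionMod
      rw [WeierstrassCurve.map_c₄, hc4]; simp
    have g4 : (W'.reductionMod ℓ).c₆ = ((F30 A B s : ℤ) : ZMod ℓ) := by
      unfold WeierstrassCurve.reductionMod
      rw [WeierstrassCurve.map_c₆, hc6]; simp
    rw [g1, g2] at f1
    rw [g3, g4] at f2
    rw [f1, f2] at key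
    unfold WeierstrassCurve.apOfModel WeierstrassCurve.traceOfFrobenius WeierstrassCurve.card
    have e : ((Nat.card (ZMod ℓ) : ℤ) + 1 - (Nat.card (W'.reductionMod ℓ).toAffine.Point : ℤ)) -
        ((Nat.card (ZMod ℓ) : ℤ) + 1 - (Nat.card (W.reductionMod ℓ).toAffine.Point : ℤ)) =
        -((Nat.card (W'.reductionMod ℓ).toAffine.Point : ℤ) -
          (Nat.card (W.reductionMod ℓ).toAffine.Point : ℤ)) := by ring
    rw [e]
    exact (dvd_neg).mpr key

end Fermat.Agent.H85.X
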