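/-
H42XMain (project LT-X, X4): residual modularity at `3` (S50) and modularity (S60) of ALL semistable
curves from the modularity of the semistable curves with `2 ∣ Δ` and modularity lifting at `5` (and `3`)
for squarefree levels, by 3-switches (helper52) and 5-switches (helper85) controlled at `2`.
-/
import Fermat.Agent.H42XGal
import Fermat.Agent.H52X1
import Fermat.Agent.H85XSwitch
import Fermat.Agent.H60Wiring

set_option autoImplicit false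

open WeierstrassCurve WeierstrassCurve.Affine WeierstrassCurve.Affine.Point
open CuspForm ModularFormClass UpperHalfPlane

namespace Fermat.Agent.H42X

/-- every semistable curve with even discriminant is modular (exact level) -/
def EvenExact : Prop :=
  ∀ W : WeierstrassCurve ℤ, W.Δ ≠ 0 → W.IsSemistableModel → (2 : ℤ) ∣ W.Δ →
    Mlc1IsModularModelOfExactConductorLevel W

/-- modularity lifting at `p` for squarefree levels, prime to `p` if `W` is good at `p`. -/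
def LiftSq (p : ℕ) : Prop :=
  ∀ W : WeierstrassCurve ℤ, W.Δ ≠ 0 → W.IsSemistableModel → W.ModRepIsIrreducible p →
    ∀ (M₀ : ℕ) [NeZero M₀], Squarefree M₀ → W.IsResiduallyModularOfLevel p M₀ →
    (W.IsGoodPrimeFor p → ¬ p ∣ M₀) → Mlc1IsModularModelOfExactConductorLevel W

/-- the 3-switch with the extra control at `3` -/
def X1Ext : Prop :=
  ∀ (W : WeierstrassCurve ℤ), W.IsSemistableModel → ¬ (2 : ℤ) ∣ W.Δ → ∀ (R : ℕ), 0 < R →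
    ∃ W' : WeierstrassCurve ℤ, W'.IsSemistableModel ∧ W'.Δ ≠ 0 ∧ H52.AtTwo W W' ∧
    (∀ ℓ : ℕ, ℓ.Prime → ℓ ≠ 3 → W.IsGoodPrimeFor ℓ → W'.IsGoodPrimeFor ℓ →
      (3 : ℤ) ∣ W'.apOfModel ℓ - W.apOfModel ℓ) ∧
    (∀ r : ℕ, r.Prime → r ∣ R → r ≠ 2 → r ≠ 3 →
      (¬ (r : ℤ) ∣ W.Δ → ¬ (r : ℤ) ∣ W'.Δ) ∧ W'.apOfModel r = W.apOfModel r) ∧
    ((3 : ℤ) ∣ W'.Δ → (3 : ℤ) ∣ W.Δ)

/-- the 5-switch at `2` with the extra control at `5` -/
def X2Ext : Prop :=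
  ∀ (W : WeierstrassCurve ℤ), W.IsSemistableModel → ¬ (2 : ℤ) ∣ W.Δ →
    (W.apOfModel 2 = 2 ∨ W.apOfModel 2 = -2) →
    ∃ W' : WeierstrassCurve ℤ, W'.Δ ≠ 0 ∧ W'.IsSemistableModel ∧ (2 : ℤ) ∣ W'.Δ ∧ W.Δ ∣ W'.Δ ∧
      (∀ ℓ : ℕ, ℓ.Prime → W.IsGoodPrimeFor ℓ → W'.IsGoodPrimeFor ℓ → ℓ ≠ 5 →
        (5 : ℤ) ∣ (W'.apOfModel ℓ - W.apOfModel ℓ)) ∧
      ((5 : ℤ) ∣ W'.Δ → (5 : ℤ) ∣ W.Δ)

/-- the 3-5 switch with the extra control at `5` -/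
def S52Ext : Prop :=
  ∀ (W : WeierstrassCurve ℤ), W.Δ ≠ 0 → W.IsSemistableModel →
    ∃ W' : WeierstrassCurve ℤ, W.Δ ∣ W'.Δ ∧ W'.Δ ≠ 0 ∧ W'.IsSemistableModel ∧
      W'.ModRepIsIrreducible 3 ∧
      (∀ ℓ : ℕ, ℓ.Prime → W.IsGoodPrimeFor ℓ → W'.IsGoodPrimeFor ℓ → ℓ ≠ 5 →
        (5 : ℤ) ∣ (W'.apOfModel ℓ - W.apOfModel ℓ)) ∧
      ((5 : ℤ) ∣ W'.Δ → (5 : ℤ) ∣ W.Δ)

/-- exact modularity of a congruent curve gives residual modularity of squarefree level -/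
theorem residual_of_exact {W W' : WeierstrassCurve ℤ} {p : ℕ} (hp : p.Prime)
    (h : Mlc1IsModularModelOfExactConductorLevel W')
    (hcong : ∀ ℓ : ℕ, ℓ.Prime → W.IsGoodPrimeFor ℓ → W'.IsGoodPrimeFor ℓ → ℓ ≠ p →
        (p : ℤ) ∣ (W'.apOfModel ℓ - W.apOfModel ℓ))
    (hpΔ : (p : ℤ) ∣ W'.Δ → (p : ℤ) ∣ W.Δ) :
    ∃ N : ℕ, 0 < N ∧ Squarefree N ∧ W.IsResiduallyModularOfLevel p N ∧
      (W.IsGoodPrimeFor p → ¬ p ∣ N) := by
  obtain ⟨N, hN, hsq, hsupp, hmod⟩ := h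
  refine ⟨N, hN, hsq, H60.isResiduallyModularOfLevel_of_congr hp
    (fun q hq h => (hsupp q hq).mpr h) hmod hcong, fun hg hpN => hg (hpΔ ?_)⟩
  exact (hsupp p hp).mp hpN

/-- **(C)** curves with `a₂ = ±2` and irreducible `W[5]` -/
theorem exact_of_pm_two (hE : EvenExact) (h5 : LiftSq 5) (hX2 : X2Ext) (W : WeierstrassCurve ℤ)
    (hW : W.IsSemistableModel) (h2 : ¬ (2 : ℤ) ∣ W.Δ)
    (ha : W.apOfModel 2 = 2 ∨ W.apOfModel 2 = -2) (hirr : W.ModRepIsIrreducible 5) :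
    Mlc1IsModularModelOfExactConductorLevel W := by
  have hΔ : W.Δ ≠ 0 := fun h => h2 (h ▸ dvd_zero 2)
  obtain ⟨W', hΔ', hW', h2', -, hcong, h5'⟩ := hX2 W hW h2 ha
  obtain ⟨N, hN, hsq, hres, hgood⟩ := residual_of_exact Nat.prime_five (hE W' hΔ' hW' h2')
    (by exact_mod_cast hcong) (by exact_mod_cast h5')
  have : NeZero N := ⟨hN.ne'⟩
  exact h5 W hΔ hW hirr N hsq hres hgood

/-- **(B)** curves with `a₂ = ±1`: a 3-congruent modular curve -/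
theorem exists_of_pm_one (hE : EvenExact) (h5 : LiftSq 5) (hX1 : X1Ext) (hX2 : X2Ext)
    (W : WeierstrassCurve ℤ) (hW : W.IsSemistableModel) (h2 : ¬ (2 : ℤ) ∣ W.Δ)
    (ha : W.apOfModel 2 = 1 ∨ W.apOfModel 2 = -1) :
    ∃ W' : WeierstrassCurve ℤ, W'.Δ ≠ 0 ∧ Mlc1IsModularModelOfExactConductorLevel W' ∧
      (∀ ℓ : ℕ, ℓ.Prime → W.IsGoodPrimeFor ℓ → W'.IsGoodPrimeFor ℓ → ℓ ≠ 3 →
        (3 : ℤ) ∣ W'.apOfModel ℓ - W.apOfModel ℓ) ∧ ((3 : ℤ) ∣ W'.Δ → (3 : ℤ) ∣ W.Δ) := by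
  have hΔ : W.Δ ≠ 0 := fun h => h2 (h ▸ dvd_zero 2)
  have hns : ¬ IsSquare (((W.apOfModel 2 : ZMod 5)) ^ 2 - 4 * ((2 : ℕ) : ZMod 5)) := by
    have e : ((W.apOfModel 2 : ZMod 5)) ^ 2 - 4 * ((2 : ℕ) : ZMod 5) = 3 := by
      rcases ha with h | h <;> rw [h] <;> decide
    rw [e]; decide
  have : Fact (Nat.Prime 5) := ⟨Nat.prime_five⟩
  obtain ⟨r, hr, hgr, hrB, hr5, hnsr⟩ := exists_prime_nonsq (p := 5) hΔ (by norm_num) Nat.prime_two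
    (by exact_mod_cast h2) (by norm_num) hns 6 (by norm_num)
  have hr2 : r ≠ 2 := by rintro rfl; exact hrB (by norm_num)
  have hr3 : r ≠ 3 := by rintro rfl; exact hrB (by norm_num)
  obtain ⟨W', hW', hΔ', hat, hcong, hloc, h3⟩ := hX1 W hW h2 r hr.pos
  obtain ⟨hgr', har⟩ := hloc r hr dvd_rfl hr2 hr3
  have hirr : W'.ModRepIsIrreducible 5 :=
    irr_of_frob (p := 5) hΔ' hr (hgr' hgr) hr5 (by rw [har]; exact hnsr)
  refine ⟨W', hΔ', ?_, fun ℓ hℓ hg hg' hne => hcong ℓ hℓ hne hg hg', h3⟩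
  rcases hat with ⟨a, b⟩ | ⟨a, b, c⟩ | ⟨a, b, c⟩
  · omega
  · exact exact_of_pm_two hE h5 hX2 W' hW' b (by omega) hirr
  · omega

/-- **X-SWITCH**: for every semistable curve there is a 3-congruent modular curve. -/
theorem exists_modular_partner (hE : EvenExact) (h5 : LiftSq 5) (hX1 : X1Ext) (hX2 : X2Ext)
    (W : WeierstrassCurve ℤ) (hΔ : W.Δ ≠ 0) (hW : W.IsSemistableModel) :
    ∃ W' : WeierstrassCurve ℤ, W'.Δ ≠ 0 ∧ Mlc1IsModularModelOfExactConductorLevel W' ∧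
      (∀ ℓ : ℕ, ℓ.Prime → W.IsGoodPrimeFor ℓ → W'.IsGoodPrimeFor ℓ → ℓ ≠ 3 →
        (3 : ℤ) ∣ W'.apOfModel ℓ - W.apOfModel ℓ) ∧ ((3 : ℤ) ∣ W'.Δ → (3 : ℤ) ∣ W.Δ) := by
  by_cases h2 : (2 : ℤ) ∣ W.Δ
  · exact ⟨W, hΔ, hE W hΔ hW h2, fun ℓ _ _ _ _ => by rw [sub_self]; exact dvd_zero _, id⟩
  obtain ⟨W', hW', hΔ', hat, hcong, -, h3⟩ := hX1 W hW h2 1 one_pos
  rcases hat with ⟨a, b⟩ | ⟨a, b, c⟩ | ⟨a, b, c⟩
  · exact ⟨W', hΔ', hE W' hΔ' hW' b, fun ℓ hℓ hg hg' hne => hcong ℓ hℓ hne hg hg', h3⟩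
  · exact exists_of_pm_one hE h5 hX1 hX2 W hW h2 a
  · obtain ⟨W'', hΔ'', hex, hcong', h3'⟩ := exists_of_pm_one hE h5 hX1 hX2 W' hW' b (by omega)
    have : Fact (Nat.Prime 3) := ⟨Nat.prime_three⟩
    refine ⟨W'', hΔ'', hex, fun ℓ hℓ hg hg'' hne => ?_, fun h => h3 (h3' h)⟩
    refine congr_all (p := 3) hΔ hΔ'' (insert 3 W'.Δ.natAbs.primeFactors) ?_ hℓ hg hg'' hne
    intro q hq hqS hgq hgq''
    rw [Finset.mem_insert, not_or] at hqS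
    have hgq' : W'.IsGoodPrimeFor q := fun h =>
      hqS.2 (Nat.mem_primeFactors.mpr ⟨hq, Int.natCast_dvd.mp h, Int.natAbs_ne_zero.mpr hΔ'⟩)
    have e : W''.apOfModel q - W.apOfModel q =
        (W''.apOfModel q - W'.apOfModel q) + (W'.apOfModel q - W.apOfModel q) := by ring
    rw [e]
    exact dvd_add (hcong' q hq hgq' hgq'' hqS.1) (hcong q hq hqS.1 hgq hgq')

/-- residual modularity at `3` of every semistable curve, squarefree level -/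
theorem residual_three (hE : EvenExact) (h5 : LiftSq 5) (hX1 : X1Ext) (hX2 : X2Ext)
    (W : WeierstrassCurve ℤ) (hΔ : W.Δ ≠ 0) (hW : W.IsSemistableModel) :
    ∃ N : ℕ, 0 < N ∧ Squarefree N ∧ W.IsResiduallyModularOfLevel 3 N ∧
      (W.IsGoodPrimeFor 3 → ¬ 3 ∣ N) := by
  obtain ⟨W', hΔ', hex, hcong, h3⟩ := exists_modular_partner hE h5 hX1 hX2 W hΔ hW
  exact residual_of_exact Nat.prime_three hex hcong h3

/-- **S50** from the even case, lifting at `5` -/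
theorem S50_of (hE : EvenExact) (h5 : LiftSq 5) (hX1 : X1Ext) (hX2 : X2Ext)
    (W : WeierstrassCurve ℤ) (hΔ : W.Δ ≠ 0) (hW : W.IsSemistableModel)
    (_h3 : W.ModRepIsIrreducible 3) :
    ∃ M : ℕ, 0 < M ∧ W.IsResiduallyModularOfLevel 3 M ∧
      (∀ q : ℕ, q.Prime → q ≠ 3 → ¬ q ^ 3 ∣ M) ∧
      (3 ^ 2 ∣ M →
        ∀ A : ValuationSubring (AlgebraicClosure ℚ), A.LiesOverPrime 3 →
          ∀ x : Submodule.torsionBy ℤ
              ((W.map (Int.castRingHom ℚ))⁄(AlgebraicClosure ℚ)).Point (3 : ℕ),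
            (∀ σ ∈ A.inertiaSubgroupIn ℚ, σ • x = x) → x = 0) := by
  obtain ⟨N, hN, hsq, hres, -⟩ := residual_three hE h5 hX1 hX2 W hΔ hW
  have hsq' : ∀ q : ℕ, q.Prime → ¬ q ^ 2 ∣ N := fun q hq h =>
    Nat.squarefree_iff_prime_squarefree.mp hsq q hq (by rwa [← pow_two])
  exact ⟨N, hN, hres, fun q hq _ h => hsq' q hq (dvd_trans (pow_dvd_pow q (by norm_num)) h),
    fun h => absurd h (hsq' 3 Nat.prime_three)⟩

/-- exact modularity of the semistable curves with `W[3]` irreducible -/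
theorem exact_of_three (hE : EvenExact) (h5 : LiftSq 5) (h3l : LiftSq 3) (hX1 : X1Ext) (hX2 : X2Ext)
    (W : WeierstrassCurve ℤ) (hΔ : W.Δ ≠ 0) (hW : W.IsSemistableModel)
    (h3 : W.ModRepIsIrreducible 3) : Mlc1IsModularModelOfExactConductorLevel W := by
  obtain ⟨N, hN, hsq, hres, hgood⟩ := residual_three hE h5 hX1 hX2 W hΔ hW
  have : NeZero N := ⟨hN.ne'⟩
  exact h3l W hΔ hW h3 N hsq hres hgood

/-- **S60** (with exact level) -/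
theorem exact_all (hE : EvenExact) (h5 : LiftSq 5) (h3l : LiftSq 3) (hX1 : X1Ext) (hX2 : X2Ext)
    (h51 : H60.Irr35) (h52 : S52Ext)
    (W : WeierstrassCurve ℤ) (hΔ : W.Δ ≠ 0) (hW : W.IsSemistableModel) :
    Mlc1IsModularModelOfExactConductorLevel W := by
  rcases h51 W hΔ hW with h3 | h5'
  · exact exact_of_three hE h5 h3l hX1 hX2 W hΔ hW h3
  · obtain ⟨W', -, hΔ', hW', h3', hcong, h5Δ⟩ := h52 W hΔ hW
    obtain ⟨N, hN, hsq, hres, hgood⟩ := residual_of_exact Nat.prime_five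
      (exact_of_three hE h5 h3l hX1 hX2 W' hΔ' hW' h3')
      (by exact_mod_cast hcong) (by exact_mod_cast h5Δ)
    have : NeZero N := ⟨hN.ne'⟩
    exact h5 W hΔ hW h5' N hsq hres hgood

theorem S60_of (hE : EvenExact) (h5 : LiftSq 5) (h3l : LiftSq 3) (hX1 : X1Ext) (hX2 : X2Ext)
    (h51 : H60.Irr35) (h52 : S52Ext)
    (W : WeierstrassCurve ℤ) (hΔ : W.Δ ≠ 0) (hW : W.IsSemistableModel) :
    (W.map (Int.castRingHom ℚ)).IsModular :=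
  H60.isModular_of_exact (exact_all hE h5 h3l hX1 hX2 h51 h52 W hΔ hW)

end Fermat.Agent.H42X
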