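/-
H42XSwitch5 (project LT-X): helper85's 5-switch at `2` with the additional control at `5`, and
`X1Ext`, `X2Ext`, `S52Ext` of H42XMain.
-/
import Fermat.Agent.H85XSwitch
import Fermat.Agent.H52Switch
import Fermat.Agent.H42XMain

set_option autoImplicit false

open WeierstrassCurve Fermat.Agent.H98 Fermat.Agent.H52 Fermat.Agent.H85.X

namespace Fermat.Agent.H42X

theorem switch5_even' (W : WeierstrassCurve ℤ) (hW : W.IsSemistableModel) (h2 : ¬ (2 : ℤ) ∣ W.Δ)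
    (ha : W.apOfModel 2 = 2 ∨ W.apOfModel 2 = -2) :
    ∃ W' : WeierstrassCurve ℤ, W'.Δ ≠ 0 ∧ W'.IsSemistableModel ∧ (2 : ℤ) ∣ W'.Δ ∧ W.Δ ∣ W'.Δ ∧
      (∀ ℓ : ℕ, ℓ.Prime → W.IsGoodPrimeFor ℓ → W'.IsGoodPrimeFor ℓ → ℓ ≠ 5 →
        (5 : ℤ) ∣ (W'.apOfModel ℓ - W.apOfModel ℓ)) ∧
      ((5 : ℤ) ∣ W'.Δ → (5 : ℤ) ∣ W.Δ) := by
  obtain ⟨A, B, hA, hB, hA2, hB4⟩ := exists_AB W h2 ha
  have hΔ : W.Δ ≠ 0 := fun h => h2 (h ▸ dvd_zero 2)
  have hrel : (16 * A) ^ 3 - (8 * B) ^ 2 = 1728 * W.Δ := by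
    rw [← hA, ← hB]; exact W.c_relation.symm
  -- the parameter
  set s : ℤ := 4455 * W.Δ with hs
  have hs2 : s % 2 = 1 := by omega
  have hrel' : 1728 * (W.Δ * FD A B s ^ 5) = F20 A B s ^ 3 - F30 A B s ^ 2 := by
    rw [F_relation, hrel]; ring
  have hB2 : B % 2 = 1 := by omega
  have h81 : (81 : ℤ) ∣ s := ⟨55 * W.Δ, by rw [hs]; ring⟩
  obtain ⟨W', hc4, hc6, hΔ', hb2, hb4, hb6⟩ := exists_model_near W (F20 A B s) (F30 A B s)
    (W.Δ * FD A B s ^ 5) hrel' (F30_mod_four hA2 hB4 hs2)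
    (by rw [hA]; exact F20_congr h81) (by rw [hB]; exact F30_congr h81)
  have hev : (2 : ℤ) ∣ W'.Δ := by
    rw [hΔ']
    exact ((FD_even hA2 hB2 hs2).trans (dvd_pow_self _ (by norm_num))).mul_left _
  -- primes dividing s do not divide FD
  have hKD : ∀ q : ℤ, Prime q → q ∣ s → ¬ q ∣ FD A B s := by
    intro q hq hqK hqD
    have h7 : q ∣ FD A B s - 1 := FD_congr hqK
    have h8 : q ∣ 1 := by
      have := dvd_sub hqD h7
      rwa [sub_sub_cancel] at this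
    exact hq.not_isUnit (isUnit_of_dvd_one h8)
  have hD0 : FD A B s ≠ 0 := by
    intro h0
    exact hKD 3 Int.prime_three (dvd_trans (by norm_num) h81) (h0 ▸ dvd_zero 3)
  have hΔ'0 : W'.Δ ≠ 0 := by
    rw [hΔ']; exact mul_ne_zero hΔ (pow_ne_zero 5 hD0)
  refine ⟨W', hΔ'0, ?_, hev, ⟨_, hΔ'⟩, ?_, ?_⟩
  · -- semistable
    intro p hp hpΔ hpc
    have hpr : Prime (p : ℤ) := Nat.prime_iff_prime_int.mp hp
    rw [hΔ'] at hpΔ
    rw [hc4] at hpc
    by_cases hp2 : p = 2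
    · subst hp2
      exact F20_odd hA2 hB2 hs2 hpc
    by_cases hps : (p : ℤ) ∣ s
    · have hpD := hKD p hpr hps
      have hpΔ0 : (p : ℤ) ∣ W.Δ := by
        rcases hpr.dvd_or_dvd hpΔ with h | h
        · exact h
        · exact absurd (hpr.dvd_of_dvd_pow h) hpD
      refine hW p hp hpΔ0 ?_
      have h7 : (p : ℤ) ∣ F20 A B s - 16 * A := F20_congr hps
      have := dvd_sub hpc h7
      rw [sub_sub_cancel] at this
      rw [hA]; exact this
    · have hpΔ0 : ¬ (p : ℤ) ∣ W.Δ := fun h => hps (by rw [hs]; exact h.mul_left _)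
      have hpD : (p : ℤ) ∣ FD A B s := by
        rcases hpr.dvd_or_dvd hpΔ with h | h
        · exact absurd h hpΔ0
        · exact hpr.dvd_of_dvd_pow h
      refine not_dvd_F20 hp A B s hpD ?_ hpc
      rw [hrel]
      intro h
      have h3 : ¬ (p : ℤ) ∣ 3 := fun h3 => hps ((h3.trans (by norm_num)).trans h81)
      have h5 : ¬ (p : ℤ) ∣ 5 := fun h5 => hps (by rw [hs]; exact (h5.trans (by norm_num)).mul_right _)
      have h2' : ¬ (p : ℤ) ∣ 2 := fun h => by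
        have h' : p ∣ 2 := by exact_mod_cast h
        exact hp2 ((Nat.prime_dvd_prime_iff_eq hp Nat.prime_two).mp h')
      have e : (30 : ℤ) * (1728 * W.Δ) = 2 ^ 7 * 3 ^ 4 * 5 * W.Δ := by ring
      rw [e] at h
      rcases hpr.dvd_or_dvd h with h | h
      · rcases hpr.dvd_or_dvd h with h | h
        · rcases hpr.dvd_or_dvd h with h | h
          · exact h2' (hpr.dvd_of_dvd_pow h)
          · exact h3 (hpr.dvd_of_dvd_pow h)
        · exact h5 h
      · exact hpΔ0 h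
  · -- congruence
    intro ℓ hℓ hg hg' hℓ5
    have : Fact ℓ.Prime := ⟨hℓ⟩
    have hpr : Prime (ℓ : ℤ) := Nat.prime_iff_prime_int.mp hℓ
    by_cases hℓ2 : ℓ = 2
    · subst hℓ2
      exact absurd hev hg'
    by_cases hℓ3 : ℓ = 3
    · subst hℓ3
      rw [apOfModel_three_eq W W' hb2 hb4 hb6, sub_self]
      exact dvd_zero _
    have hnd : ∀ q : ℕ, q.Prime → ℓ ≠ q → ¬ (ℓ : ℤ) ∣ q := by
      intro q hq hne h
      have h' : ℓ ∣ q := by exact_mod_cast h
      exact hne ((Nat.prime_dvd_prime_iff_eq hℓ hq).mp h')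
    have n2 : ¬ (ℓ : ℤ) ∣ 2 := hnd 2 Nat.prime_two hℓ2
    have n3 : ¬ (ℓ : ℤ) ∣ 3 := hnd 3 Nat.prime_three hℓ3
    have n5 : ¬ (ℓ : ℤ) ∣ 5 := hnd 5 Nat.prime_five hℓ5
    have hcast : ∀ n : ℤ, ¬ (ℓ : ℤ) ∣ n → ((n : ℤ) : ZMod ℓ) ≠ 0 := by
      intro n hn h
      exact hn ((ZMod.intCast_zmod_eq_zero_iff_dvd n ℓ).mp h)
    have c2 : (2 : ZMod ℓ) ≠ 0 := by exact_mod_cast hcast 2 n2
    have c3 : (3 : ZMod ℓ) ≠ 0 := by exact_mod_cast hcast 3 n3
    have c5 : (5 : ZMod ℓ) ≠ 0 := by exact_mod_cast hcast 5 n5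
    have h4 : (4 : ZMod ℓ) ≠ 0 := by
      have : (4 : ZMod ℓ) = 2 * 2 := by norm_num
      rw [this]; exact mul_ne_zero c2 c2
    have h6' : (6 : ZMod ℓ) ≠ 0 := by
      have : (6 : ZMod ℓ) = 2 * 3 := by norm_num
      rw [this]; exact mul_ne_zero c2 c3
    have h30 : (30 : ZMod ℓ) ≠ 0 := by
      have : (30 : ZMod ℓ) = 5 * 6 := by norm_num
      rw [this]; exact mul_ne_zero c5 h6'
    set t : ZMod ℓ := (s : ZMod ℓ) / 4 with ht
    have hst : 4 * t = (s : ZMod ℓ) := by rw [ht]; field_simp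
    have hab' : (16 * (A : ZMod ℓ)) ^ 3 - (8 * (B : ZMod ℓ)) ^ 2 ≠ 0 := by
      have h := hcast (1728 * W.Δ) (by
        intro h
        have e : (1728 : ℤ) * W.Δ = 2 ^ 6 * 3 ^ 3 * W.Δ := by ring
        rw [e] at h
        rcases hpr.dvd_or_dvd h with h | h
        · rcases hpr.dvd_or_dvd h with h | h
          · exact n2 (hpr.dvd_of_dvd_pow h)
          · exact n3 (hpr.dvd_of_dvd_pow h)
        · exact hg h)
      rw [← hrel] at h
      push_cast at h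
      exact h
    have eD : D12 (16 * (A : ZMod ℓ)) (8 * (B : ZMod ℓ)) t = ((FD A B s : ℤ) : ZMod ℓ) := by
      rw [← FD_four, hst]
      exact map_FD (Int.castRingHom (ZMod ℓ)) A B s
    have e4 : C20 (16 * (A : ZMod ℓ)) (8 * (B : ZMod ℓ)) t = ((F20 A B s : ℤ) : ZMod ℓ) := by
      rw [← F20_four, hst]
      exact map_F20 (Int.castRingHom (ZMod ℓ)) A B s
    have e6 : C30 (16 * (A : ZMod ℓ)) (8 * (B : ZMod ℓ)) t = ((F30 A B s : ℤ) : ZMod ℓ) := by
      rw [← F30_four, hst]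
      exact map_F30 (Int.castRingHom (ZMod ℓ)) A B s
    have hD' : D12 (16 * (A : ZMod ℓ)) (8 * (B : ZMod ℓ)) t ≠ 0 := by
      rw [eD]
      apply hcast
      intro h
      apply hg'
      rw [hΔ']
      exact (h.pow (by norm_num)).mul_left _
    have key := Fermat.Agent.H52.congr5 ℓ _ _ t h30 hab' hD'
    rw [e4, e6] at key
    have f1 := card_short h6' (W.reductionMod ℓ)
    have f2 := card_short h6' (W'.reductionMod ℓ)
    have g1 : (W.reductionMod ℓ).c₄ = 16 * (A : ZMod ℓ) := by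
      unfold WeierstrassCurve.reductionMod
      rw [WeierstrassCurve.map_c₄, hA]; simp
    have g2 : (W.reductionMod ℓ).c₆ = 8 * (B : ZMod ℓ) := by
      unfold WeierstrassCurve.reductionMod
      rw [WeierstrassCurve.map_c₆, hB]; simp
    have g3 : (W'.reductionMod ℓ).c₄ = ((F20 A B s : ℤ) : ZMod ℓ) := by
      unfold WeierstrassCurve.reductionMod
      rw [WeierstrassCurve.map_c₄, hc4]; simp
    have g4 : (W'.reductionMod ℓ).c₆ = ((F30 A B s : ℤ) : ZMod ℓ) := by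
      unfold WeierstrassCurve.reductionMod
      rw [WeierstrassCurve.map_c₆, hc6]; simp
    rw [g1, g2] at f1
    rw [g3, g4] at f2
    rw [f1, f2] at key
    unfold WeierstrassCurve.apOfModel WeierstrassCurve.traceOfFrobenius WeierstrassCurve.card
    have e : ((Nat.card (ZMod ℓ) : ℤ) + 1 - (Nat.card (W'.reductionMod ℓ).toAffine.Point : ℤ)) -
        ((Nat.card (ZMod ℓ) : ℤ) + 1 - (Nat.card (W.reductionMod ℓ).toAffine.Point : ℤ)) =
        -((Nat.card (W'.reductionMod ℓ).toAffine.Point : ℤ) -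
          (Nat.card (W.reductionMod ℓ).toAffine.Point : ℤ)) := by ring
    rw [e]
    exact (dvd_neg).mpr key
  · intro h
    rw [hΔ'] at h
    have hp5 : Prime (5 : ℤ) := Nat.prime_iff_prime_int.mp Nat.prime_five
    rcases hp5.dvd_or_dvd h with h | h
    · exact h
    · exact absurd (hp5.dvd_of_dvd_pow h) (hKD 5 hp5 (by rw [hs]; exact (by norm_num : (5 : ℤ) ∣ 4455).mul_right _))


theorem x2Ext : X2Ext := fun W hW h2 ha => switch5_even' W hW h2 ha

theorem x1Ext : X1Ext := by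
  intro W hW h2 R hR
  obtain ⟨W', a, b, c, d, e, -, f⟩ := H52.switch_two' W hW h2 R hR
  exact ⟨W', a, b, c, d, e, f⟩

theorem s52Ext : S52Ext := by
  intro W hΔ hW
  obtain ⟨W', a, b, c, d, e, f⟩ := H52.s52_dvd_five W hΔ hW
  exact ⟨W', a, c, d, e, f, b⟩

end Fermat.Agent.H42X
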