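import Fermat.Agent.H75X15
import Fermat.Prelude.Def_FLTPrelim_Modularity

set_option autoImplicit false

namespace Fermat.Agent.H75

/-- The `X₀(15)` algebra over `ℚ`, in translated coordinates. -/
theorem x015_k (β e k ρ : ℚ) (he : e ≠ 0) (hβ : β ^ 2 = 16 * e * (k ^ 2 + 1))
    (h3 : 3 * ρ ^ 4 + β * ρ ^ 3 + 3 * (e * (4 * k - 2)) * ρ ^ 2 + 3 * (β * e) * ρ
      + e ^ 2 * (4 * k + 3) = 0) :
    k = -3 / 4 ∨ k = 63 / 16 ∨ k = 1 / 2 ∨ k = 11 / 2 ∨ k = -29 / 2 := by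
  set B : ℚ := ρ ^ 2 / e with hB
  have hBe : B * e = ρ ^ 2 := by rw [hB]; field_simp
  have hk1 : 0 < k ^ 2 + 1 := by positivity
  have hβ0 : β ≠ 0 := by
    rintro rfl
    have : 16 * e * (k ^ 2 + 1) = 0 := by rw [← hβ]; ring
    rcases mul_eq_zero.mp this with h | h
    · exact he (by linarith)
    · linarith
  have hepos : 0 < e := by
    have h1 : 0 < 16 * e * (k ^ 2 + 1) := by rw [← hβ]; positivity
    have h2 : 0 < 16 * e := (pos_iff_pos_of_mul_pos h1).mpr hk1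
    linarith
  have hB0 : 0 ≤ B := by rw [hB]; positivity
  set c : ℚ := β * ρ / e with hc
  have hce : c * e = β * ρ := by rw [hc]; field_simp
  have hc2 : c ^ 2 = 16 * (k ^ 2 + 1) * B := by
    have h1 : c ^ 2 * e ^ 2 = 16 * (k ^ 2 + 1) * B * e ^ 2 := by
      calc c ^ 2 * e ^ 2 = (c * e) ^ 2 := by ring
        _ = β ^ 2 * ρ ^ 2 := by rw [hce]; ring
        _ = 16 * (k ^ 2 + 1) * B * e ^ 2 := by rw [hβ, ← hBe]; ring
    exact mul_right_cancel₀ (pow_ne_zero 2 he) h1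
  have hcB : c * (B + 3) = -(3 * (B - 1) ^ 2 + 4 * k * (3 * B + 1)) := by
    have h1 : e ^ 2 * (c * (B + 3)) = e ^ 2 * (-(3 * (B - 1) ^ 2 + 4 * k * (3 * B + 1))) := by
      have h4 : ρ ^ 4 = B ^ 2 * e ^ 2 := by
        calc ρ ^ 4 = (ρ ^ 2) ^ 2 := by ring
          _ = _ := by rw [← hBe]; ring
      have h5 : β * ρ ^ 3 = c * B * e ^ 2 := by
        calc β * ρ ^ 3 = (β * ρ) * ρ ^ 2 := by ring
          _ = _ := by rw [← hBe, ← hce]; ring
      have h6 : β * e * ρ = c * e ^ 2 := by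
        calc β * e * ρ = (β * ρ) * e := by ring
          _ = _ := by rw [← hce]; ring
      have h7 : ρ ^ 2 = B * e := hBe.symm
      linear_combination h3 - 3 * h4 - h5 - 3 * h6 - 3 * (e * (4 * k - 2)) * h7
    exact mul_left_cancel₀ (pow_ne_zero 2 he) h1
  have hB3 : B + 3 ≠ 0 := by linarith
  have hquad : 16 * (1 - B) ^ 3 * k ^ 2 + 24 * (B - 1) ^ 2 * (3 * B + 1) * k + 9 * (B - 1) ^ 4
      - 16 * B * (B + 3) ^ 2 = 0 := by
    have h1 : (c * (B + 3)) ^ 2 = 16 * (k ^ 2 + 1) * B * (B + 3) ^ 2 := by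
      rw [mul_pow, hc2]
    rw [hcB] at h1
    linear_combination h1
  have hB1 : B ≠ 1 := by
    intro h
    rw [h] at hquad
    norm_num at hquad
  set y : ℚ := (-4 * (B - 1) ^ 2 * k + 3 * (B - 1) * (3 * B + 1)) / (B + 3) with hy
  have hyB : y * (B + 3) = -4 * (B - 1) ^ 2 * k + 3 * (B - 1) * (3 * B + 1) := by
    rw [hy]; field_simp
  have hy2 : y ^ 2 = B * (B - 1) * (9 * B - 25) := by
    have h1 : y ^ 2 * (B + 3) ^ 2 = B * (B - 1) * (9 * B - 25) * (B + 3) ^ 2 := by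
      have : y ^ 2 * (B + 3) ^ 2 = (y * (B + 3)) ^ 2 := by ring
      rw [this, hyB]
      linear_combination (-(B - 1)) * hquad
    exact mul_right_cancel₀ (pow_ne_zero 2 hB3) h1
  have hXY : (9 * y) ^ 2 = (9 * B) * (9 * B - 9) * (9 * B - 25) := by
    linear_combination 81 * hy2
  rcases X15_points (9 * B) (9 * y) hXY with h | h | h | h | h
  · have hB' : B = 0 := by linarith
    have hy' : y = 0 := by
      rw [hB'] at hy2
      have : y ^ 2 = 0 := by rw [hy2]; ring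
      exact pow_eq_zero_iff (two_ne_zero) |>.mp this
    rw [hB', hy'] at hyB
    left; linarith
  · exact absurd (by linarith) hB1
  · have hB' : B = 25 / 9 := by linarith
    have hy' : y = 0 := by
      rw [hB'] at hy2
      have : y ^ 2 = 0 := by rw [hy2]; ring
      exact pow_eq_zero_iff (two_ne_zero) |>.mp this
    rw [hB', hy'] at hyB
    right; left; linarith
  · have hB' : B = 5 / 9 := by linarith
    rw [hB'] at hy2 hyB
    have hy' : (y - 20 / 9) * (y + 20 / 9) = 0 := by linear_combination hy2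
    rcases mul_eq_zero.mp hy' with h | h
    · have : y = 20 / 9 := by linarith
      rw [this] at hyB
      right; right; right; right; linarith
    · have : y = -20 / 9 := by linarith
      rw [this] at hyB
      right; right; right; left; linarith
  · have hB' : B = 5 := by linarith
    rw [hB'] at hy2 hyB
    have hy' : (y - 20) * (y + 20) = 0 := by linear_combination hy2
    rcases mul_eq_zero.mp hy' with h | h
    · have : y = 20 := by linarith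
      rw [this] at hyB
      right; right; left; linarith
    · have : y = -20 := by linarith
      rw [this] at hyB
      right; right; right; left; linarith

theorem core (W : WeierstrassCurve ℤ) (hΔ : W.Δ ≠ 0) (hss : W.IsSemistableModel) (r s m : ℚ)
    (h3 : 3 * r ^ 4 + (W.b₂ : ℚ) * r ^ 3 + 3 * (W.b₄ : ℚ) * r ^ 2 + 3 * (W.b₆ : ℚ) * r
      + (W.b₈ : ℚ) = 0)
    (hsm : s ^ 2 - 4 * m ≠ 0)
    (h5a : -s ^ 3 + 6 * m * s + (W.b₂ : ℚ) * m + (W.b₄ : ℚ) * s + (W.b₆ : ℚ) = 0)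
    (h5b : -s ^ 4 + 8 * m * s ^ 2 - 10 * m ^ 2 + (W.b₂ : ℚ) * m * s
      + (W.b₄ : ℚ) * (s ^ 2 + 2 * m) + 3 * (W.b₆ : ℚ) * s + 2 * (W.b₈ : ℚ) = 0) : False := by
  set b₂ : ℚ := (W.b₂ : ℚ) with hb₂
  set b₄ : ℚ := (W.b₄ : ℚ) with hb₄
  set b₆ : ℚ := (W.b₆ : ℚ) with hb₆
  set b₈ : ℚ := (W.b₈ : ℚ) with hb₈
  have hrel : 4 * b₈ = b₂ * b₆ - b₄ ^ 2 := by
    rw [hb₂, hb₄, hb₆, hb₈]; exact_mod_cast W.b_relation
  set e : ℚ := (s ^ 2 - 4 * m) / 4 with he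
  have he0 : e ≠ 0 := div_ne_zero hsm (by norm_num)
  have hm : m = s ^ 2 / 4 - e := by rw [he]; ring
  set β : ℚ := b₂ + 6 * s with hβ
  set b₄' : ℚ := b₄ + s / 2 * b₂ + 3 / 2 * s ^ 2 with hb₄'
  set k : ℚ := (b₄' + 2 * e) / (4 * e) with hk
  have hke : b₄' = e * (4 * k - 2) := by rw [hk]; field_simp; ring
  -- express everything
  have hb₆' : b₆ + s * b₄ + s ^ 2 / 4 * b₂ + s ^ 3 / 2 = β * e := by
    rw [hβ]; rw [hm] at h5a; linear_combination h5a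
  have hb₈' : b₈ + 3 * (s / 2) * b₆ + 3 * (s / 2) ^ 2 * b₄ + (s / 2) ^ 3 * b₂ + 3 * (s / 2) ^ 4
      = e ^ 2 * (4 * k + 3) := by
    have : e ^ 2 * (4 * k + 3) = 5 * e ^ 2 + b₄' * e := by rw [hke]; ring
    rw [this, hb₄']
    rw [hm] at h5b
    linear_combination (1 / 2 : ℚ) * h5b
  have hβ2 : β ^ 2 = 16 * e * (k ^ 2 + 1) := by
    have h1 : β ^ 2 * e = b₄' ^ 2 + 4 * (e ^ 2 * (4 * k + 3)) := by
      rw [← hb₈', hb₄']
      have h2 : β ^ 2 * e = β * (β * e) := by ring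
      rw [h2, ← hb₆', hβ]
      linear_combination (-1 : ℚ) * hrel
    have h3 : e * (β ^ 2) = e * (16 * e * (k ^ 2 + 1)) := by
      rw [hke] at h1
      linear_combination h1
    exact mul_left_cancel₀ he0 h3
  have h3' : 3 * (r - s / 2) ^ 4 + β * (r - s / 2) ^ 3 + 3 * (e * (4 * k - 2)) * (r - s / 2) ^ 2
      + 3 * (β * e) * (r - s / 2) + e ^ 2 * (4 * k + 3) = 0 := by
    rw [← hb₈', ← hb₆', ← hke, hβ, hb₄']
    linear_combination h3
  have hks := x015_k β e k (r - s / 2) he0 hβ2 h3'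
  -- discriminant and c₄
  have hΔe : (W.Δ : ℚ) = 64 * e ^ 3 * (2 * k - 11) := by
    have h1 : (W.Δ : ℚ) = -b₂ ^ 2 * b₈ - 8 * b₄ ^ 3 - 27 * b₆ ^ 2 + 9 * b₂ * b₄ * b₆ := by
      rw [WeierstrassCurve.Δ, hb₂, hb₄, hb₆, hb₈]; push_cast; ring
    have h2 : -b₂ ^ 2 * b₈ - 8 * b₄ ^ 3 - 27 * b₆ ^ 2 + 9 * b₂ * b₄ * b₆ =
        -β ^ 2 * (e ^ 2 * (4 * k + 3)) - 8 * b₄' ^ 3 - 27 * (β * e) ^ 2
          + 9 * β * b₄' * (β * e) := by
      rw [← hb₈', ← hb₆', hb₄', hβ]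
      linear_combination (((b₂ + 6 * s) ^ 2 - b₂ ^ 2) / 4) * hrel
    rw [h1, h2, hke]
    linear_combination (-(e ^ 2 * (4 * k + 3)) - 27 * e ^ 2 + 9 * (e * (4 * k - 2)) * e) * hβ2
  have hc₄e : (W.c₄ : ℚ) = 16 * e * (k ^ 2 - 6 * k + 4) := by
    have h1 : (W.c₄ : ℚ) = b₂ ^ 2 - 24 * b₄ := by
      rw [WeierstrassCurve.c₄, hb₂, hb₄]; push_cast; ring
    have h2 : b₂ ^ 2 - 24 * b₄ = β ^ 2 - 24 * b₄' := by rw [hβ, hb₄']; ring
    rw [h1, h2, hke, hβ2]; ring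
  have hj : (W.c₄ : ℚ) ^ 3 * (2 * k - 11) = 64 * (k ^ 2 - 6 * k + 4) ^ 3 * (W.Δ : ℚ) := by
    rw [hΔe, hc₄e]; ring
  have hΔ0 : (W.Δ : ℚ) ≠ 0 := by exact_mod_cast hΔ
  have h5p : Nat.Prime 5 := by norm_num
  have h5P : Prime (5 : ℤ) := by norm_num
  have hfin : ∀ (A C : ℤ), ¬ (5 : ℤ) ∣ A → ¬ (25 * 5 : ℤ) ∣ C → (5 : ℤ) ∣ C →
      A * W.c₄ ^ 3 = C * W.Δ → False := by
    intro A C hA hC hC5 hAC
    have h1 : (5 : ℤ) ∣ W.c₄ := by
      have h2 : (5 : ℤ) ∣ A * W.c₄ ^ 3 := by rw [hAC]; exact Dvd.dvd.mul_right hC5 _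
      rcases h5P.dvd_or_dvd h2 with h | h
      · exact absurd h hA
      · exact h5P.dvd_of_dvd_pow h
    have h2 : (25 * 5 : ℤ) ∣ C * W.Δ := by
      rw [← hAC]
      obtain ⟨t, ht⟩ := h1
      exact ⟨A * t ^ 3, by rw [ht]; ring⟩
    have h3 : (5 : ℤ) ∣ W.Δ := by
      by_contra hnd
      have hcop : IsCoprime (25 * 5 : ℤ) W.Δ := by
        have : IsCoprime (5 : ℤ) W.Δ := (Prime.coprime_iff_not_dvd h5P).mpr hnd
        have h4 := this.pow_left (m := 3)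
        norm_num at h4 ⊢
        exact h4
      exact hC (hcop.dvd_of_dvd_mul_right h2)
    exact hss 5 h5p h3 h1
  rcases hks with h | h | h | h | h
  · -- -32 c₄³ = 5·29³ Δ
    rw [h] at hj
    have : (-32 : ℤ) * W.c₄ ^ 3 = (5 * 29 ^ 3) * W.Δ := by
      have : (-32 : ℚ) * (W.c₄ : ℚ) ^ 3 = (5 * 29 ^ 3) * (W.Δ : ℚ) := by
        linear_combination (64 / 25 : ℚ) * hj
      exact_mod_cast this
    exact hfin _ _ (by norm_num) (by norm_num) (by norm_num) this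
  · rw [h] at hj
    have : (2 ^ 15 : ℤ) * W.c₄ ^ 3 = (5 * 211 ^ 3) * W.Δ := by
      have : (2 ^ 15 : ℚ) * (W.c₄ : ℚ) ^ 3 = (5 * 211 ^ 3) * (W.Δ : ℚ) := by
        linear_combination (-2 ^ 18 / 25 : ℚ) * hj
      exact_mod_cast this
    exact hfin _ _ (by norm_num) (by norm_num) (by norm_num) this
  · rw [h] at hj
    have : (-2 : ℤ) * W.c₄ ^ 3 = (25) * W.Δ := by
      have : (-2 : ℚ) * (W.c₄ : ℚ) ^ 3 = (25) * (W.Δ : ℚ) := by
        linear_combination (1 / 5 : ℚ) * hj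
      exact_mod_cast this
    exact hfin _ _ (by norm_num) (by norm_num) (by norm_num) this
  · rw [h] at hΔe
    apply hΔ0; rw [hΔe]; ring
  · rw [h] at hj
    have : (-8 : ℤ) * W.c₄ ^ 3 = (25 * 241 ^ 3) * W.Δ := by
      have : (-8 : ℚ) * (W.c₄ : ℚ) ^ 3 = (25 * 241 ^ 3) * (W.Δ : ℚ) := by
        linear_combination (1 / 5 : ℚ) * hj
      exact_mod_cast this
    exact hfin _ _ (by norm_num) (by norm_num) (by norm_num) this

end Fermat.Agent.H75
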