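import Fermat.Statements.S51
import Fermat.Agent.H51Extract
import Fermat.Agent.H75S51Core

set_option autoImplicit false
open WeierstrassCurve WeierstrassCurve.Affine WeierstrassCurve.Affine.Point
open CuspForm ModularFormClass UpperHalfPlane
open WeierstrassCurve

namespace Fermat.Agent.S51

theorem result (W : WeierstrassCurve ℤ) (hΔ : W.Δ ≠ 0) (hW : W.IsSemistableModel) : W.ModRepIsIrreducible 3 ∨ W.ModRepIsIrreducible 5 := by
  by_contra h
  rw [not_or] at h
  obtain ⟨r, hr⟩ := Fermat.Agent.H51.three W hΔ h.1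
  obtain ⟨s, m, hsm, h5a, h5b⟩ := Fermat.Agent.H51.five W hΔ h.2
  exact Fermat.Agent.H75.core W hΔ hW r s m hr hsm h5a h5b

end Fermat.Agent.S51
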