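/-
H42XFinal (project LT-X): S50 and S60 from the output `LTA` of LT-MOD2 (curves with `2 ∣ Δ`) and
modularity lifting at `3` and `5` for squarefree levels (`LiftSq`, = helper86's `S59sq`).
-/
import Fermat.Agent.H42XSwitch5
import Fermat.Agent.S51

set_option autoImplicit false

open WeierstrassCurve WeierstrassCurve.Affine WeierstrassCurve.Affine.Point
open CuspForm ModularFormClass UpperHalfPlane

namespace Fermat.Agent.H42X

/-- the output of LT-MOD2 for the curves with `2 ∣ Δ` (weakest form needed) -/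
def LTEvenSq : Prop :=
  ∀ W : WeierstrassCurve ℤ, W.Δ ≠ 0 → W.IsSemistableModel → (2 : ℤ) ∣ W.Δ →
    W.ModRepIsIrreducible 3 →
    ∃ M : ℕ, 0 < M ∧ Squarefree M ∧ (3 ∣ M → (3 : ℤ) ∣ W.Δ) ∧ W.IsResiduallyModularOfLevel 3 M

theorem even_three (hLT : LTEvenSq) (h3 : LiftSq 3) (W : WeierstrassCurve ℤ) (hΔ : W.Δ ≠ 0)
    (hW : W.IsSemistableModel) (h2 : (2 : ℤ) ∣ W.Δ) (hirr : W.ModRepIsIrreducible 3) :
    Mlc1IsModularModelOfExactConductorLevel W := by
  obtain ⟨M, hM, hsq, hM3, hres⟩ := hLT W hΔ hW h2 hirr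
  have : NeZero M := ⟨hM.ne'⟩
  exact h3 W hΔ hW hirr M hsq hres fun hg h => hg (hM3 h)

theorem evenExact_of (hLT : LTEvenSq) (h3 : LiftSq 3) (h5 : LiftSq 5) : EvenExact := by
  intro W hΔ hW h2
  rcases Fermat.Agent.S51.result W hΔ hW with hi | hi
  · exact even_three hLT h3 W hΔ hW h2 hi
  · obtain ⟨W', hdvd, hΔ', hW', h3', hcong, h5Δ⟩ := s52Ext W hΔ hW
    obtain ⟨N, hN, hsq, hres, hgood⟩ := residual_of_exact Nat.prime_five
      (even_three hLT h3 W' hΔ' hW' (h2.trans hdvd) h3')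
      (by exact_mod_cast hcong) (by exact_mod_cast h5Δ)
    have : NeZero N := ⟨hN.ne'⟩
    exact h5 W hΔ hW hi N hsq hres hgood

/-- **S50** -/
theorem S50_final (hLT : LTEvenSq) (h3 : LiftSq 3) (h5 : LiftSq 5)
    (W : WeierstrassCurve ℤ) (hΔ : W.Δ ≠ 0) (hW : W.IsSemistableModel)
    (hi : W.ModRepIsIrreducible 3) :
    ∃ M : ℕ, 0 < M ∧ W.IsResiduallyModularOfLevel 3 M ∧
      (∀ q : ℕ, q.Prime → q ≠ 3 → ¬ q ^ 3 ∣ M) ∧
      (3 ^ 2 ∣ M →
        ∀ A : ValuationSubring (AlgebraicClosure ℚ), A.LiesOverPrime 3 →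
          ∀ x : Submodule.torsionBy ℤ
              ((W.map (Int.castRingHom ℚ))⁄(AlgebraicClosure ℚ)).Point (3 : ℕ),
            (∀ σ ∈ A.inertiaSubgroupIn ℚ, σ • x = x) → x = 0) :=
  S50_of (evenExact_of hLT h3 h5) h5 x1Ext x2Ext W hΔ hW hi

/-- every semistable curve is modular of exact (squarefree) conductor level -/
theorem exact_final (hLT : LTEvenSq) (h3 : LiftSq 3) (h5 : LiftSq 5)
    (W : WeierstrassCurve ℤ) (hΔ : W.Δ ≠ 0) (hW : W.IsSemistableModel) :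
    Mlc1IsModularModelOfExactConductorLevel W :=
  exact_all (evenExact_of hLT h3 h5) h5 h3 x1Ext x2Ext
    (fun W hΔ hW => Fermat.Agent.S51.result W hΔ hW) s52Ext W hΔ hW

/-- **S60** -/
theorem S60_final (hLT : LTEvenSq) (h3 : LiftSq 3) (h5 : LiftSq 5)
    (W : WeierstrassCurve ℤ) (hΔ : W.Δ ≠ 0) (hW : W.IsSemistableModel) :
    (W.map (Int.castRingHom ℚ)).IsModular :=
  H60.isModular_of_exact (exact_final hLT h3 h5 W hΔ hW)

end Fermat.Agent.H42X
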