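import Mathlib
import Fermat.Agent.H35Abs
import Fermat.Agent.H35Kill
import Fermat.Agent.H90Kappa

/-!
# Eigensystems from torsion points of unbounded order

`exists_eigenform_of_torsion`: let `a : ℕ → ℤ`. If for every `n` there is a `p`-power torsion point `y`
of `J_0(N)` with `p ^ n • y ≠ 0` and `T_ℓ y = a_ℓ y` for all `ℓ ∤ N`, `ℓ ∉ S`, then there is a
normalised eigenform of level `N` with these eigenvalues.
-/

set_option autoImplicit false
set_option linter.style.haveILetI false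

noncomputable section

open CuspForm ModularCurve Fermat.Agent.H31 ModularFormClass AlgebraicCurve

namespace Fermat.Agent.H35

/-- A polynomial in the Hecke operators acts on an eigenvector by its value. -/
theorem inclHecke_smul_eigen {N : ℕ} {S : Set ℕ} {J : Type*} [AddCommGroup J] [Module HeckeAlg J]
    (a : ℕ → ℤ) {y : J} (hy : ∀ r : GoodPrimes N S, heckeGen r.1 • y = a (r.1 : ℕ) • y)
    (P : MvPolynomial (GoodPrimes N S) ℤ) :
    inclHecke N S P • y =
      (MvPolynomial.eval (fun r : GoodPrimes N S => a (r.1 : ℕ)) P) • y := by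
  induction P using MvPolynomial.induction_on with
  | C z =>
    have h1 : inclHecke N S (MvPolynomial.C z) = (z : HeckeAlg) := by
      rw [show (MvPolynomial.C z : MvPolynomial (GoodPrimes N S) ℤ) =
        (z : MvPolynomial (GoodPrimes N S) ℤ) by simp, map_intCast]
    rw [h1, Int.cast_smul_eq_zsmul, MvPolynomial.eval_C]
  | add P Q hP hQ => rw [map_add, add_smul, hP, hQ, map_add, add_smul]
  | mul_X P r hP =>
    rw [map_mul, inclHecke_X, mul_smul, hy, smul_comm, hP, map_mul, MvPolynomial.eval_X, smul_smul,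
      mul_comm]

/-- **The endgame.** -/
theorem exists_eigenform_of_torsion {N : ℕ} [NeZero N] {p : ℕ} (hp : p.Prime) (S : Finset ℕ)
    (a : ℕ → ℤ)
    (h : letI := heckeModuleBar N; ∀ n : ℕ, ∃ y : JZero N, (∃ k : ℕ, p ^ k • y = 0) ∧ p ^ n • y ≠ 0 ∧
      ∀ r : GoodPrimes N (↑S : Set ℕ), heckeGen r.1 • y = a (r.1 : ℕ) • y) :
    ∃ g : CuspForm (CongruenceSubgroup.Gamma0 N) 2, g.IsNormalizedEigenform ∧
      ∀ ℓ : ℕ, ℓ.Prime → ¬ ℓ ∣ N → ℓ ∉ S → qCoeff g ℓ = a ℓ := by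
  classical
  letI := heckeModuleBar N
  letI := H90.algQbarC
  let ψ₀ : MvPolynomial (GoodPrimes N (↑S : Set ℕ)) ℤ →+* ℤ :=
    MvPolynomial.eval (fun r : GoodPrimes N (↑S : Set ℕ) => a (r.1 : ℕ))
  have hψ₀ : ∀ P, evEnd N dvd_rfl (↑S : Set ℕ) P = 0 → ψ₀ P = 0 := by
    intro P hP
    by_contra hne
    set z := ψ₀ P with hz
    have hzn : z.natAbs ≠ 0 := Int.natAbs_ne_zero.mpr hne
    obtain ⟨v, u, hu, hzu⟩ : ∃ v u : ℕ, ¬ p ∣ u ∧ z.natAbs = p ^ v * u := by
      exact Nat.exists_eq_pow_mul_and_not_dvd hzn p hp.ne_one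
    obtain ⟨y, ⟨k, hk⟩, hyn, hy⟩ := h v
    have h1 : inclHecke N (↑S : Set ℕ) P • y = 0 :=
      smul_eq_zero_of_evEnd dvd_rfl (↑S : Set ℕ) (fun n c χ hn hr => hr.isPE hn) P hP (p ^ k)
        (pow_ne_zero k hp.ne_zero) y hk
    rw [inclHecke_smul_eigen a hy] at h1
    have h2 : z.natAbs • y = 0 := by
      rcases Int.natAbs_eq z with h3 | h3
      · rw [← natCast_zsmul, ← h3]
        exact h1
      · rw [← natCast_zsmul, ← neg_eq_zero, ← neg_zsmul, ← h3]
        exact h1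
    rw [hzu, mul_comm, mul_smul] at h2
    -- `p ^ v • y` is killed by `u` and by `p ^ k`
    have h3 : p ^ k • (p ^ v • y) = 0 := by rw [smul_comm, hk, smul_zero]
    have hcop : Nat.Coprime (p ^ k) u :=
      Nat.Coprime.pow_left k ((Nat.Prime.coprime_iff_not_dvd hp).mpr hu)
    obtain ⟨s, t, hst⟩ := Nat.isCoprime_iff_coprime.mpr hcop
    apply hyn
    have h4 : (1 : ℤ) • (p ^ v • y) = 0 := by
      rw [← hst, add_zsmul, mul_zsmul, mul_zsmul, natCast_zsmul, natCast_zsmul, h2, h3,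
        zsmul_zero, zsmul_zero, add_zero]
    rwa [one_zsmul] at h4
  obtain ⟨f, hf0, hf⟩ := exists_eigenform_of_char (dvd_refl N) (↑S : Set ℕ)
    ((Int.castRingHom ℂ).comp ψ₀) (by
      intro P hP
      rw [RingHom.comp_apply, hψ₀ P hP, map_zero])
  -- a multiple of the level containing `S`
  let L : ℕ := N * ∏ r ∈ S.filter Nat.Prime, r
  have hNL : N ∣ L := dvd_mul_right _ _
  obtain ⟨g, hg, hgc⟩ := H44.exists_normalizedEigenform_of_partial (M := N) (N := L) hNL f hf0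
    (fun ℓ => (a ℓ : ℂ)) (by
      intro ℓ hℓ hℓL hℓN
      have hℓS : ℓ ∉ (↑S : Set ℕ) := by
        intro hS
        apply hℓL
        exact Dvd.dvd.mul_left (Finset.dvd_prod_of_mem _ (Finset.mem_filter.mpr ⟨by simpa using hS, hℓ⟩)) _
      have h1 := hf (MvPolynomial.X ⟨⟨ℓ, hℓ⟩, hℓN, hℓS⟩)
      rw [evEnd_X] at h1
      rw [h1]
      congr 1
      show ((ψ₀ (MvPolynomial.X _) : ℤ) : ℂ) = _
      rw [show ψ₀ (MvPolynomial.X (⟨⟨ℓ, hℓ⟩, hℓN, hℓS⟩ : GoodPrimes N (↑S : Set ℕ))) = a ℓ from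
        MvPolynomial.eval_X _])
  refine ⟨g, hg, fun ℓ hℓ hℓN hℓS => ?_⟩
  apply hgc ℓ hℓ
  intro hL
  rcases hℓ.dvd_mul.mp hL with h1 | h1
  · exact hℓN h1
  · obtain ⟨r, hr, hℓr⟩ := (Nat.Prime.prime hℓ).exists_mem_finset_dvd h1
    rw [Finset.mem_filter] at hr
    rw [(Nat.prime_dvd_prime_iff_eq hℓ hr.2).mp hℓr] at hℓS
    exact hℓS hr.1

end Fermat.Agent.H35
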