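import Mathlib
import Fermat.Agent.H35LTEnd
import Fermat.Agent.H35LTDown

/-!
# The endgame, with eigenvalues prescribed at bounded primes only
-/

set_option autoImplicit false
set_option linter.style.haveILetI false

noncomputable section

open CuspForm ModularCurve Fermat.Agent.H31 ModularFormClass AlgebraicCurve

namespace Fermat.Agent.H35

/-- A polynomial in the Hecke operators acts on a partial eigenvector by its value. -/
theorem inclHecke_smul_eigen_vars {N : ℕ} {S : Set ℕ} {J : Type*} [AddCommGroup J]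
    [Module HeckeAlg J] (a : ℕ → ℤ) {y : J} (P : MvPolynomial (GoodPrimes N S) ℤ)
    (hy : ∀ r ∈ P.vars, heckeGen r.1 • y = a (r.1 : ℕ) • y) :
    inclHecke N S P • y =
      (MvPolynomial.eval (fun r : GoodPrimes N S => a (r.1 : ℕ)) P) • y := by
  classical
  obtain ⟨Q, hQ⟩ := MvPolynomial.exists_rename_eq_of_vars_subset_range P
    (fun r : {r // r ∈ P.vars} => (r : GoodPrimes N S)) Subtype.val_injective (by
      intro r hr
      exact ⟨⟨r, hr⟩, rfl⟩)
  have key : ∀ Q : MvPolynomial {r // r ∈ P.vars} ℤ,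
      inclHecke N S (MvPolynomial.rename (fun r : {r // r ∈ P.vars} => (r : GoodPrimes N S)) Q) • y =
      (MvPolynomial.eval (fun r : GoodPrimes N S => a (r.1 : ℕ))
        (MvPolynomial.rename (fun r : {r // r ∈ P.vars} => (r : GoodPrimes N S)) Q)) • y := by
    intro Q
    induction Q using MvPolynomial.induction_on with
    | C z =>
      rw [MvPolynomial.rename_C]
      have h1 : inclHecke N S (MvPolynomial.C z) = (z : HeckeAlg) := by
        rw [show (MvPolynomial.C z : MvPolynomial (GoodPrimes N S) ℤ) =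
          (z : MvPolynomial (GoodPrimes N S) ℤ) by simp, map_intCast]
      rw [h1, Int.cast_smul_eq_zsmul, MvPolynomial.eval_C]
    | add P Q hP hQ => rw [map_add, map_add, add_smul, hP, hQ, map_add, add_smul]
    | mul_X Q r hP =>
      rw [map_mul, MvPolynomial.rename_X, map_mul, inclHecke_X, mul_smul, hy r.1 r.2, smul_comm,
        hP, map_mul, MvPolynomial.eval_X, smul_smul, mul_comm]
  have := key Q
  rwa [hQ] at this

/-- **The endgame**, bounded version. -/
theorem exists_eigenform_of_levelPoints {N : ℕ} [NeZero N] {p : ℕ} (hp : p.Prime) (a : ℕ → ℤ)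
    (h : ∀ n B : ℕ, ∃ R : ℕ, (∀ ℓ : ℕ, ℓ.Prime → ℓ < B → ℓ ∣ R → ℓ ∣ N) ∧
      LevelPoint p R a N n) :
    ∃ g : CuspForm (CongruenceSubgroup.Gamma0 N) 2, g.IsNormalizedEigenform ∧
      ∀ ℓ : ℕ, ℓ.Prime → ¬ ℓ ∣ N → qCoeff g ℓ = a ℓ := by
  classical
  letI := heckeModuleBar N
  letI := H90.algQbarC
  let ψ₀ : MvPolynomial (GoodPrimes N ∅) ℤ →+* ℤ :=
    MvPolynomial.eval (fun r : GoodPrimes N ∅ => a (r.1 : ℕ))
  have hψ₀ : ∀ P, evEnd N dvd_rfl ∅ P = 0 → ψ₀ P = 0 := by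
    intro P hP
    by_contra hne
    set z := ψ₀ P with hz
    have hzn : z.natAbs ≠ 0 := Int.natAbs_ne_zero.mpr hne
    obtain ⟨v, u, hu, hzu⟩ : ∃ v u : ℕ, ¬ p ∣ u ∧ z.natAbs = p ^ v * u := by
      exact Nat.exists_eq_pow_mul_and_not_dvd hzn p hp.ne_one
    let B : ℕ := P.vars.sup (fun r => (r.1 : ℕ)) + 1
    obtain ⟨R, hR, y, ⟨k, hk⟩, hyn, hy⟩ := h v B
    have h1 : inclHecke N ∅ P • y = 0 :=
      smul_eq_zero_of_evEnd dvd_rfl ∅ (fun n c χ hn hr => hr.isPE hn) P hP (p ^ k)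
        (pow_ne_zero k hp.ne_zero) y hk
    rw [inclHecke_smul_eigen_vars a P (fun r hr => hy r.1 (fun hrR => r.2.1
      (hR r.1 r.1.2 (Nat.lt_succ_of_le (Finset.le_sup (f := fun r => (r.1 : ℕ)) hr)) hrR)))] at h1
    have h2 : z.natAbs • y = 0 := by
      rcases Int.natAbs_eq z with h3 | h3
      · rw [← natCast_zsmul, ← h3]
        exact h1
      · rw [← natCast_zsmul, ← neg_eq_zero, ← neg_zsmul, ← h3]
        exact h1
    rw [hzu, mul_comm, mul_smul] at h2
    -- `p ^ v • y` is killed by `u` and by `p ^ k`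
    have h3 : p ^ k • (p ^ v • y) = 0 := by rw [smul_comm, hk, smul_zero]
    have hcop : Nat.Coprime (p ^ k) u :=
      Nat.Coprime.pow_left k ((Nat.Prime.coprime_iff_not_dvd hp).mpr hu)
    obtain ⟨s, t, hst⟩ := Nat.isCoprime_iff_coprime.mpr hcop
    apply hyn
    have h4 : (1 : ℤ) • (p ^ v • y) = 0 := by
      rw [← hst, add_zsmul, mul_zsmul, mul_zsmul, natCast_zsmul, natCast_zsmul, h2, h3,
        zsmul_zero, zsmul_zero, add_zero]
    rwa [one_zsmul] at h4
  obtain ⟨f, hf0, hf⟩ := exists_eigenform_of_char (dvd_refl N) ∅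
    ((Int.castRingHom ℂ).comp ψ₀) (by
      intro P hP
      rw [RingHom.comp_apply, hψ₀ P hP, map_zero])
  obtain ⟨g, hg, hgc⟩ := H44.exists_normalizedEigenform_of_partial (M := N) (N := N) dvd_rfl f hf0
    (fun ℓ => (a ℓ : ℂ)) (by
      intro ℓ hℓ hℓL hℓN
      have h1 := hf (MvPolynomial.X ⟨⟨ℓ, hℓ⟩, hℓN, Set.notMem_empty _⟩)
      rw [evEnd_X] at h1
      rw [h1]
      congr 1
      show ((ψ₀ (MvPolynomial.X _) : ℤ) : ℂ) = _
      rw [show ψ₀ (MvPolynomial.X (⟨⟨ℓ, hℓ⟩, hℓN, Set.notMem_empty _⟩ : GoodPrimes N ∅)) = a ℓ from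
        MvPolynomial.eval_X _])
  exact ⟨g, hg, fun ℓ hℓ hℓN => hgc ℓ hℓ hℓN⟩

end Fermat.Agent.H35
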