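import Mathlib
import Fermat.Agent.H46LTDefs
import Fermat.Agent.H35LTTop
import Fermat.Agent.H35LTEnd2
import Fermat.Agent.H54Frobenius

/-!
# Block M7 of LT-MOD2 from the geometric input of Mazur's principle
-/

set_option autoImplicit false
set_option linter.unusedSectionVars false
set_option linter.style.haveILetI false

noncomputable section

open CuspForm ModularCurve Fermat.Agent.H31 Fermat.Agent.H53 Fermat.Agent.H67 IsLocalRing
open ModularFormClass

namespace Fermat.Agent.H35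

/-- restriction of the set of excluded primes -/
def heckeIncl (N : ℕ) [NeZero N] {S S' : Set ℕ} (h : S' ⊆ S) :
    CuspForm.heckeAlgebra N 2 S →+* CuspForm.heckeAlgebra N 2 S' :=
  (Subalgebra.inclusion (Algebra.adjoin_mono (by
    rintro x (⟨ℓ, hℓ, hℓN, hℓS, rfl⟩ | ⟨q, hqN, hq, hqS, rfl⟩)
    · exact Or.inl ⟨ℓ, hℓ, hℓN, fun h1 => hℓS (h h1), rfl⟩
    · exact Or.inr ⟨q, hqN, hq, fun h1 => hqS (h h1), rfl⟩))).toRingHom

theorem heckeIncl_T {N : ℕ} [NeZero N] {S S' : Set ℕ} (h : S' ⊆ S) {ℓ : ℕ} (hℓ : ℓ.Prime) (hℓN : ¬ ℓ ∣ N)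
    (hℓS : ℓ ∉ S) (hℓS' : ℓ ∉ S') :
    heckeIncl N h (CuspForm.heckeAlgebra.T hℓ hℓN hℓS) = CuspForm.heckeAlgebra.T hℓ hℓN hℓS' := rfl

/-- Elements of order three in `GL₂(𝔽₂)`. -/
theorem trace_pow_of_trace_one {M : M2 (ZMod 2)} (hd : M.det = 1) (ht : M.trace = 1) (k : ℕ) :
    M ^ k = 1 ∨ (M ^ k).trace = 1 := by
  have hCH : M * M = M + 1 := by
    have h1 : M * M - M.trace • M + M.det • (1 : M2 (ZMod 2)) = 0 := by
      ext i j
      fin_cases i <;> fin_cases j <;>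
      simp [Matrix.trace_fin_two, Matrix.det_fin_two, Matrix.mul_apply, Fin.sum_univ_two] <;> ring
    rw [hd, ht, one_smul, one_smul] at h1
    have h2 : M * M = M - 1 := by rw [← sub_eq_zero, ← h1]; abel
    rw [h2, sub_eq_add_neg]
    congr 1
    ext i j
    rw [Matrix.neg_apply]
    exact ZMod.neg_eq_self_mod_two _
  have h3 : M ^ 3 = 1 := by
    have h22 : M + M = 0 := by
      ext i j
      exact CharTwo.add_self_eq_zero _
    rw [pow_succ, pow_two, hCH, add_mul, one_mul, hCH, add_right_comm, h22, zero_add]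
  have hk : M ^ k = M ^ (k % 3) := by
    conv_lhs => rw [← Nat.div_add_mod k 3, pow_add, pow_mul, h3, one_pow, one_mul]
  rw [hk]
  have h4 : k % 3 < 3 := Nat.mod_lt _ (by norm_num)
  interval_cases h5 : k % 3
  · left; rfl
  · right; rw [pow_one]; exact ht
  · right
    rw [pow_two, hCH, Matrix.trace_add, ht, Matrix.trace_fin_two]
    decide

/-- `a_ℓ` is odd for infinitely many `ℓ` if `r mod 2` is onto `GL₂(𝔽₂)`. -/
theorem exists_odd_trace {r : H53.GQ →* M2 ℤ_[2]} (hr : MCont ℤ_[2] r)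
    (hsurj : ∀ M : M2 (ZMod 2), M.det ≠ 0 → ∃ g, mapMat PadicInt.toZMod r g = M)
    (S : Finset ℕ) : ∃ ℓ : ℕ, ℓ.Prime ∧ ℓ ∉ S ∧ ∃ A : ValuationSubring (AlgebraicClosure ℚ),
      A.LiesOverPrime ℓ ∧ ∃ φ : H53.GQ, A.IsFrobeniusAt φ ℓ ∧
        (mapMat PadicInt.toZMod r φ).trace = 1 := by
  obtain ⟨g, hg⟩ := hsurj !![1, 1; 1, 0] (by decide)
  obtain ⟨L, hL, h⟩ := hr 1
  obtain ⟨ℓ, hℓ, hℓS, A, hA, φ, hφ, j, k, hj, hk⟩ := H86.frobenius_density H86.frobDensityFinite L g S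
  refine ⟨ℓ, hℓ, hℓS, A, hA, φ, hφ, ?_⟩
  have hone : ∀ σ : H53.GQ, (∀ x ∈ L, σ x = x) → mapMat PadicInt.toZMod r σ = 1 := by
    intro σ hσ
    ext i j
    have h1 := h σ hσ i j
    rw [pow_one, ← PadicInt.ker_toZMod, RingHom.mem_ker, map_sub, sub_eq_zero] at h1
    rw [mapMat_apply, h1, Matrix.one_apply, Matrix.one_apply]
    split_ifs
    · exact map_one _
    · exact map_zero _
  have hpow : ∀ (a b : H53.GQ) (n : ℕ), (∀ x ∈ L, a x = (b ^ n) x) →
      mapMat PadicInt.toZMod r a = mapMat PadicInt.toZMod r b ^ n := by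
    intro a b n hab
    have h1 : b ^ n * ((b ^ n)⁻¹ * a) = a := by group
    have h2 := hone ((b ^ n)⁻¹ * a) (fun x hx => by
      rw [AlgEquiv.mul_apply, hab x hx]
      exact (b ^ n).symm_apply_apply x)
    have h3 := congrArg (mapMat PadicInt.toZMod r) h1
    rw [map_mul, map_pow, h2, mul_one] at h3
    exact h3.symm
  have hφg := hpow φ g k hk
  have hgφ := hpow g φ j hj
  rcases trace_pow_of_trace_one (M := mapMat PadicInt.toZMod r g) (by rw [hg]; decide)
    (by rw [hg]; decide) k with h1 | h1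
  · exfalso
    rw [hφg, h1, one_pow, hg] at hgφ
    exact absurd hgφ (by decide)
  · rw [hφg]; exact h1

theorem dvd_cond {W : WeierstrassCurve ℤ} (hΔ : W.Δ ≠ 0) {q : ℕ} (hq : q.Prime)
    (h : (q : ℤ) ∣ W.Δ) : q ∣ LT.cond W :=
  Finset.dvd_prod_of_mem _ (Nat.mem_primeFactors.mpr
    ⟨hq, Int.natCast_dvd.mp h, Int.natAbs_ne_zero.mpr hΔ⟩)

theorem dvd_of_dvd_cond {W : WeierstrassCurve ℤ} {q : ℕ} (hq : q.Prime)
    (h : q ∣ LT.cond W) : (q : ℤ) ∣ W.Δ := by
  obtain ⟨v, hv, hqv⟩ := (Nat.Prime.prime hq).exists_mem_finset_dvd h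
  have hv' := Nat.mem_primeFactors.mp hv
  rw [(Nat.prime_dvd_prime_iff_eq hq hv'.1).mp hqv]
  exact Int.natCast_dvd.mpr hv'.2.1

theorem cond_ne_zero (W : WeierstrassCurve ℤ) : LT.cond W ≠ 0 :=
  Finset.prod_ne_zero_iff.mpr fun _ hv => (Nat.mem_primeFactors.mp hv).1.ne_zero

/-- **The geometric input of M7**: Mazur's principle modulo `2^m` with a bounded loss. -/
def MazurTwo : Prop :=
  ∃ r : ℕ, ∀ (q M m : ℕ) [NeZero M] [NeZero (M * q)] [NeZero q], q.Prime → q ≠ 2 → 2 ∣ M →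
    ¬ q ∣ M → MazurInput (2 ^ m) (2 ^ r) q M

/-- **Block M7.** -/
theorem blockM7 (hin : MazurTwo) : LT.BlockM7 := by
  intro W ρ s hW hE hC
  obtain ⟨e, he⟩ := hin
  obtain ⟨d, hd⟩ := hC
  have hΔ : W.Δ ≠ 0 := hW.neg.ne
  haveI : NeZero (LT.cond W) := ⟨cond_ne_zero W⟩
  have h2N : 2 ∣ LT.cond W := dvd_cond hΔ Nat.prime_two (by exact_mod_cast hW.two)
  let a : ℕ → ℤ := fun ℓ => W.apOfModel ℓ
  have hG : GalData 2 (insert 2 (LT.bad W)) a ρ := by
    have hfrob : ∀ ℓ : ℕ, ℓ.Prime → ℓ ∉ insert 2 (LT.bad W) →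
        ∀ A : ValuationSubring (AlgebraicClosure ℚ), A.LiesOverPrime ℓ → ∀ φ : H53.GQ,
          A.IsFrobeniusAt φ ℓ → (ρ φ).trace = ((a ℓ : ℤ) : ℤ_[2]) ∧ (ρ φ).det = (ℓ : ℤ_[2]) := by
      intro ℓ hℓ hℓS A hA φ hφ
      rw [Finset.mem_insert, not_or] at hℓS
      exact hE.frob ℓ hℓ (fun h => hℓS.2 (Nat.mem_primeFactors.mpr
        ⟨hℓ, Int.natCast_dvd.mp h, Int.natAbs_ne_zero.mpr hΔ⟩)) hℓS.1 A hA φ hφ
    refine ⟨Finset.mem_insert_self _ _, hE.cont, span_two_of_surj hE.surj, hfrob, ?_⟩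
    intro S'
    obtain ⟨ℓ, hℓ, hℓS, A, hA, φ, hφ, htr⟩ := exists_odd_trace hE.cont hE.surj
      (S' ∪ insert 2 (LT.bad W))
    rw [Finset.mem_union, not_or] at hℓS
    refine ⟨ℓ, hℓ, hℓS.1, ?_⟩
    have h1 := (hfrob ℓ hℓ hℓS.2 A hA φ hφ).1
    have hℓ2 : ℓ ≠ 2 := fun h => hℓS.2 (by rw [h]; exact Finset.mem_insert_self _ _)
    have h2 : ((a ℓ : ℤ) : ZMod 2) = 1 := by
      have h3 := congrArg PadicInt.toZMod h1
      rw [map_intCast] at h3
      rw [← h3, ← htr, Matrix.trace_fin_two, Matrix.trace_fin_two, map_add]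
      rfl
    intro h3
    have h4 : ((a ℓ - ((ℓ : ℤ) + 1) : ℤ) : ZMod 2) = 0 := by
      rw [ZMod.intCast_zmod_eq_zero_iff_dvd]; exact_mod_cast h3
    have h5 : ((ℓ : ℤ) : ZMod 2) = 1 := by
      obtain ⟨k, hk⟩ := hℓ.odd_of_ne_two hℓ2
      rw [hk]
      push_cast
      have : (2 : ZMod 2) = 0 := rfl
      rw [this, zero_mul, zero_add]
    rw [Int.cast_sub, Int.cast_add, h5, h2, Int.cast_one] at h4
    exact absurd h4 (by decide)
  obtain ⟨g, hg, hga⟩ := exists_eigenform_of_levelPoints (N := LT.cond W) Nat.prime_two a (by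
    intro n B
    -- the congruence modulus
    set n' := n + (e + 1) * d + B + 1 with hn'
    obtain ⟨Q, hQd, hQ, L, hL0, O, i1, i2, i3, i4, lam, hL, hcong⟩ := hd n'
    haveI := i4.char_zero
    haveI := i4.complete
    haveI := i4.finite
    have hO : ((2 : ℕ) : O) ∈ maximalIdeal O := by exact_mod_cast i4.two
    refine ⟨L, ?_, ?_⟩
    · -- small primes dividing `L` divide `cond W`
      intro ℓ hℓ hℓB hℓL
      rw [hL] at hℓL
      rcases hℓ.dvd_mul.mp hℓL with h1 | h1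
      · exact h1
      · exfalso
        obtain ⟨q, hq, hℓq⟩ := (Nat.Prime.prime hℓ).exists_mem_finset_dvd h1
        rw [(Nat.prime_dvd_prime_iff_eq hℓ (hQ q hq).prime).mp hℓq] at hℓB
        have h2 := Nat.le_of_dvd (Nat.succ_pos q) (hQ q hq).cong
        have h3 : B < 2 ^ B := Nat.lt_two_pow_self
        have h4 : 2 ^ B * 2 ≤ 2 ^ n' := by
          rw [← pow_succ]
          exact Nat.pow_le_pow_right (by norm_num) (by omega)
        omega
    · -- the point at level `L`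
      have h2L : 2 ∣ L := by rw [hL]; exact h2N.mul_right _
      have hLne : L ≠ 0 := NeZero.ne L
      have hmem : ∀ ℓ : ℕ, ℓ.Prime → (ℓ ∈ L.primeFactors ↔ ℓ ∣ L) := fun ℓ hℓ =>
        ⟨fun h => (Nat.mem_primeFactors.mp h).2.1, fun h => Nat.mem_primeFactors.mpr ⟨hℓ, h, hLne⟩⟩
      have hpt : LevelPoint 2 L a L (n + (e + 1) * d) := by
        refine levelPoint_of_congr (O := O) hO (S := L.primeFactors)
          ((hmem 2 Nat.prime_two).mpr h2L) (fun q hq h => (hmem q hq).mpr h)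
          (lam.comp (heckeIncl L (Set.empty_subset _))) a (n + (e + 1) * d) ?_
          (fun ℓ hℓ h1 h2 => h1 ((hmem ℓ hℓ).mp h2))
        intro ℓ hℓ hℓN hℓS
        rw [RingHom.comp_apply, heckeIncl_T (Set.empty_subset _) hℓ hℓN hℓS (Set.notMem_empty ℓ)]
        have h1 := hcong.T_cong ℓ hℓ hℓN
        refine Ideal.span_singleton_le_span_singleton.mpr ?_ h1
        rw [Nat.cast_pow, Nat.cast_ofNat]
        exact pow_dvd_pow _ (by omega)
      have hpt2 : LevelPoint 2 L a L (n + (e + 1) * Q.toList.length) := by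
        obtain ⟨y, h1, h2, h3⟩ := hpt
        refine ⟨y, h1, fun h4 => h2 ?_, h3⟩
        have h5 : n + (e + 1) * d = (n + (e + 1) * Q.toList.length) + (e + 1) * (d - Q.card) := by
          rw [Finset.length_toList]
          have : (e + 1) * d = (e + 1) * Q.card + (e + 1) * (d - Q.card) := by
            rw [← Nat.mul_add]; congr 1; omega
          omega
        rw [h5, pow_add, mul_comm, mul_smul, h4, smul_zero]
      refine levelPoint_list hG hLne Q.toList L n ?_ dvd_rfl ?_ Q.nodup_toList ?_ ?_ hpt2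
      · rw [hL, Finset.prod_toList]
      · intro q hq
        rw [Finset.mem_toList] at hq
        have hqQ := hQ q hq
        have hq2 : q ≠ 2 := fun h => hqQ.notdvd (by rw [h]; exact h2N)
        obtain ⟨A, hA⟩ := H54.exists_liesOverPrime hqQ.prime
        obtain ⟨φ, hφ⟩ := H54.exists_isFrobeniusAt hqQ.prime hA
        refine ⟨hqQ.prime, fun A hA σ hσ => hE.unr q hqQ.prime
          (fun h => hqQ.notdvd (dvd_cond hΔ hqQ.prime h)) hq2 A hA σ hσ, A, hA, φ, hφ, ?_⟩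
        intro c hc
        rcases (by decide : ∀ c : ZMod 2, c = 0 ∨ c = 1) c with rfl | rfl
        · have h1 : mapMat PadicInt.toZMod ρ φ * mapMat PadicInt.toZMod ρ φ⁻¹ = 1 := by
            rw [← map_mul, mul_inv_cancel, map_one]
          rw [hc] at h1
          have h2 := congrFun (congrFun h1 0) 0
          simp at h2
        · exact (hqQ.sq A hA φ hφ).2.2 (by rw [hc]; exact one_smul _ _)
      · intro q hq
        rw [Finset.mem_toList] at hq
        exact (hQ q hq).notdvd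
      · intro q hq M m _ _ _ hNM hqM
        rw [Finset.mem_toList] at hq
        exact he q M m (hQ q hq).prime (fun h => (hQ q hq).notdvd (by rw [h]; exact h2N))
          (h2N.trans hNM) hqM)
  refine ⟨g, hg, fun ℓ hℓ _ hℓN => hga ℓ hℓ hℓN⟩

end Fermat.Agent.H35
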