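/-
H19LTTypeAt: `TypeAt` of `H46LTDefs` under conjugation, base change and jointly injective families.
-/
import Fermat.Agent.H19LTType
import Fermat.Agent.H46LTDefs
import Fermat.Agent.H54Frobenius

set_option autoImplicit false
set_option linter.style.haveILetI false
set_option linter.unusedSectionVars false

noncomputable section

namespace Fermat.Agent.H19LT

open IsLocalRing Matrix
open Fermat.Agent.H53 (GQ M2 MCont mapMat)
open Fermat.Agent.LT (TypeAt Qb)

theorem mem_decomposition_of_inertia {P : ValuationSubring Qb} {g : GQ}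
    (hg : g ∈ P.inertiaSubgroupIn ℚ) : g ∈ P.decompositionSubgroup ℚ := by
  obtain ⟨x, -, rfl⟩ := hg
  exact x.2

section Chi

variable {A : Type} [CommRing A]

/-- the character `χ` exhibits the type `s` at the place `P` above `v` -/
structure ChiAt (v : ℕ) (P : ValuationSubring Qb) (s : A) (r : GQ →* M2 A) (χ : GQ → A) :
    Prop where
  sq : ∀ g ∈ P.decompositionSubgroup ℚ, χ g ^ 2 = 1
  mul : ∀ g ∈ P.decompositionSubgroup ℚ, ∀ h ∈ P.decompositionSubgroup ℚ, χ (g * h) = χ g * χ h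
  inertia : ∀ g ∈ P.inertiaSubgroupIn ℚ, χ g = 1
  frob : ∀ φ : GQ, P.IsFrobeniusAt φ v → χ φ = s
  rel : ∀ g ∈ P.decompositionSubgroup ℚ, ∀ g' ∈ P.decompositionSubgroup ℚ,
      (r g - ((r g).det * χ g) • (1 : M2 A)) * (r g' - χ g' • (1 : M2 A)) = 0

theorem typeAt_iff {v : ℕ} {s : A} {r : GQ →* M2 A} :
    TypeAt v s r ↔ ∀ P : ValuationSubring Qb, P.LiesOverPrime v → ∃ χ, ChiAt v P s r χ := by
  constructor
  · intro h P hP
    obtain ⟨χ, h1, h2, h3, h4, h5⟩ := h P hP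
    exact ⟨χ, h1, h2, h3, h4, h5⟩
  · intro h P hP
    obtain ⟨χ, hχ⟩ := h P hP
    exact ⟨χ, hχ.sq, hχ.mul, hχ.inertia, hχ.frob, hχ.rel⟩

variable {B : Type} [CommRing B]

theorem mapMat_sub_smul (f : A →+* B) (r : GQ →* M2 A) (g : GQ) (c : A) :
    (r g - c • (1 : M2 A)).map f = mapMat f r g - f c • (1 : M2 B) := by
  ext i j
  by_cases h : i = j
  · subst h; simp
  · simp [one_apply_ne h]

theorem det_mapMat (f : A →+* B) (r : GQ →* M2 A) (g : GQ) :
    (mapMat f r g).det = f (r g).det := by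
  rw [H53.mapMat_apply', RingHom.map_det, RingHom.mapMatrix_apply]

theorem trace_mapMat (f : A →+* B) (r : GQ →* M2 A) (g : GQ) :
    (mapMat f r g).trace = f (r g).trace := by
  rw [H53.mapMat_apply', trace_fin_two, trace_fin_two, map_add]
  rfl

theorem ChiAt.map {v : ℕ} {P : ValuationSubring Qb} {s : A} {r : GQ →* M2 A} {χ : GQ → A}
    (h : ChiAt v P s r χ) (f : A →+* B) : ChiAt v P (f s) (mapMat f r) (fun g => f (χ g)) where
  sq g hg := by rw [← map_pow, h.sq g hg, map_one]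
  mul g hg g' hg' := by rw [h.mul g hg g' hg', map_mul]
  inertia g hg := by rw [h.inertia g hg, map_one]
  frob φ hφ := by rw [h.frob φ hφ]
  rel g hg g' hg' := by
    rw [det_mapMat, ← map_mul, ← mapMat_sub_smul, ← mapMat_sub_smul, ← Matrix.map_mul,
      h.rel g hg g' hg']
    ext i j
    simp

theorem TypeAt.mapMat {v : ℕ} {s : A} {r : GQ →* M2 A} (h : TypeAt v s r) (f : A →+* B) :
    TypeAt v (f s) (mapMat f r) := by
  rw [typeAt_iff] at h ⊢
  intro P hP
  obtain ⟨χ, hχ⟩ := h P hP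
  exact ⟨_, hχ.map f⟩

theorem ChiAt.conj {v : ℕ} {P : ValuationSubring Qb} {s : A} {r r' : GQ →* M2 A} {χ : GQ → A}
    (h : ChiAt v P s r χ) (Q : (M2 A)ˣ)
    (hQ : ∀ g, (Q : M2 A) * r g * ((Q⁻¹ : (M2 A)ˣ) : M2 A) = r' g) : ChiAt v P s r' χ where
  sq := h.sq
  mul := h.mul
  inertia := h.inertia
  frob := h.frob
  rel g hg g' hg' := by
    have hdet : (r' g).det = (r g).det := by
      rw [← hQ g, det_mul_comm, ← mul_assoc, Units.inv_mul, one_mul]
    have key : ∀ (c : A) (k : GQ), r' k - c • (1 : M2 A) = (Q : M2 A) * (r k - c • 1) *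
        ((Q⁻¹ : (M2 A)ˣ) : M2 A) := by
      intro c k
      rw [mul_sub, sub_mul, hQ, mul_smul_comm, smul_mul_assoc, mul_one, Units.mul_inv]
    rw [hdet, key, key]
    have := h.rel g hg g' hg'
    calc _ = (Q : M2 A) * ((r g - ((r g).det * χ g) • 1) * (r g' - χ g' • 1)) *
        ((Q⁻¹ : (M2 A)ˣ) : M2 A) := by simp only [mul_assoc, Units.inv_mul_cancel_left]
      _ = 0 := by rw [this, mul_zero, zero_mul]

theorem TypeAt.conj {v : ℕ} {s : A} {r r' : GQ →* M2 A} (h : TypeAt v s r) (Q : (M2 A)ˣ)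
    (hQ : ∀ g, (Q : M2 A) * r g * ((Q⁻¹ : (M2 A)ˣ) : M2 A) = r' g) : TypeAt v s r' := by
  rw [typeAt_iff] at h ⊢
  intro P hP
  obtain ⟨χ, hχ⟩ := h P hP
  exact ⟨χ, hχ.conj Q hQ⟩

end Chi

section Family

variable {A : Type} [CommRing A] {κ : Type*} {C : κ → Type} [∀ i, CommRing (C i)]
  (φ : ∀ i, A →+* C i) (hinj : ∀ x : A, (∀ i, φ i x = 0) → x = 0)
  {r : GQ →* M2 A}

/-- the character is determined by the representation: it lifts to the joint ring. -/
theorem exists_chi {v : ℕ} {P : ValuationSubring Qb} {s : ∀ i, C i} {χ : ∀ i, GQ → C i}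
    (hχ : ∀ i, ChiAt v P (s i) (mapMat (φ i) r) (χ i)) {g0 : GQ}
    (hg0 : g0 ∈ P.decompositionSubgroup ℚ) {s0 : A} (hs0 : ∀ i, χ i g0 = φ i s0) {a b : Fin 2}
    (hu : IsUnit ((r g0 - s0 • (1 : M2 A)) a b)) :
    ∃ χ0 : GQ → A, ∀ i, ∀ g ∈ P.decompositionSubgroup ℚ, φ i (χ0 g) = χ i g := by
  obtain ⟨u, hu⟩ := hu.exists_right_inv
  set M : M2 A := r g0 - s0 • (1 : M2 A) with hM
  refine ⟨fun g => (r g * M) a b * u * (r g⁻¹).det, fun i g hg => ?_⟩
  have h1 := (hχ i).rel g hg g0 hg0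
  rw [hs0 i, ← mapMat_sub_smul, ← hM, sub_mul, smul_mul_assoc, one_mul, sub_eq_zero] at h1
  have h2 := congrFun (congrFun h1 a) b
  have h3 : φ i ((r g * M) a b) = (mapMat (φ i) r g * M.map (φ i)) a b := by
    rw [H53.mapMat_apply', ← Matrix.map_mul]; rfl
  have h4 : (mapMat (φ i) r g).det * φ i (r g⁻¹).det = 1 := by
    rw [← det_mapMat, ← det_mul, ← map_mul, mul_inv_cancel, map_one, det_one]
  have h5 : φ i (M a b) * φ i u = 1 := by rw [← map_mul, hu, map_one]
  rw [Matrix.smul_apply, smul_eq_mul, Matrix.map_apply] at h2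
  rw [map_mul, map_mul, h3, h2]
  linear_combination (χ i g * φ i (M a b) * φ i u) * h4 + χ i g * h5

include hinj in
/-- the lifted character exhibits the type -/
theorem chiAt_of_family {v : ℕ} {P : ValuationSubring Qb} {s : ∀ i, C i} {χ : ∀ i, GQ → C i}
    (hχ : ∀ i, ChiAt v P (s i) (mapMat (φ i) r) (χ i)) {s' : A} (hs : ∀ i, φ i s' = s i)
    {χ0 : GQ → A} (h0 : ∀ i, ∀ g ∈ P.decompositionSubgroup ℚ, φ i (χ0 g) = χ i g) :
    ChiAt v P s' r χ0 where
  sq g hg := by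
    rw [← sub_eq_zero]
    refine hinj _ fun i => ?_
    rw [map_sub, map_pow, h0 i g hg, (hχ i).sq g hg, map_one, sub_self]
  mul g hg g' hg' := by
    rw [← sub_eq_zero]
    refine hinj _ fun i => ?_
    rw [map_sub, map_mul, h0 i g hg, h0 i g' hg', h0 i _ (mul_mem hg hg'),
      (hχ i).mul g hg g' hg', sub_self]
  inertia g hg := by
    rw [← sub_eq_zero]
    refine hinj _ fun i => ?_
    rw [map_sub, h0 i g (mem_decomposition_of_inertia hg), (hχ i).inertia g hg, map_one, sub_self]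
  frob f hf := by
    rw [← sub_eq_zero]
    refine hinj _ fun i => ?_
    rw [map_sub, h0 i f hf.mem_decompositionSubgroup, (hχ i).frob f hf, hs, sub_self]
  rel g hg g' hg' := by
    ext a b
    rw [Matrix.zero_apply]
    refine hinj _ fun i => ?_
    have h1 := (hχ i).rel g hg g' hg'
    rw [det_mapMat, ← h0 i g hg, ← h0 i g' hg', ← map_mul, ← mapMat_sub_smul, ← mapMat_sub_smul,
      ← Matrix.map_mul] at h1
    exact congrFun (congrFun h1 a) b

include hinj in
/-- **Types glue**, version with a residually non-scalar element on which the character is known. -/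
theorem typeAt_glue {v : ℕ} {s : A} (h : ∀ i, TypeAt v (φ i s) (mapMat (φ i) r))
    (hP : ∀ P : ValuationSubring Qb, P.LiesOverPrime v →
      (∃ g0 ∈ P.inertiaSubgroupIn ℚ, ∃ a b, IsUnit ((r g0 - 1) a b)) ∨
      (∃ g0 : GQ, P.IsFrobeniusAt g0 v ∧ ∃ a b, IsUnit ((r g0 - s • (1 : M2 A)) a b))) :
    TypeAt v s r := by
  rw [typeAt_iff]
  intro P hPv
  have h1 : ∀ i, ∃ χ, ChiAt v P (φ i s) (mapMat (φ i) r) χ := fun i =>
    (typeAt_iff.mp (h i)) P hPv
  choose χ hχ using h1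
  obtain ⟨χ0, h0⟩ : ∃ χ0 : GQ → A, ∀ i, ∀ g ∈ P.decompositionSubgroup ℚ, φ i (χ0 g) = χ i g := by
    rcases hP P hPv with ⟨g0, hg0, a, b, hu⟩ | ⟨g0, hg0, a, b, hu⟩
    · refine exists_chi φ hχ (mem_decomposition_of_inertia hg0) (s0 := 1) (fun i => ?_)
        (a := a) (b := b) (by rwa [one_smul])
      rw [(hχ i).inertia g0 hg0, map_one]
    · exact exists_chi φ hχ hg0.mem_decompositionSubgroup (s0 := s)
        (fun i => (hχ i).frob g0 hg0) hu
  exact ⟨χ0, chiAt_of_family φ hinj hχ (fun _ => rfl) h0⟩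

include hinj in
/-- **Types glue**, version with a free sign: `r` is residually ramified at `v`. -/
theorem exists_typeAt_glue {v : ℕ} (hv : v.Prime) {s : ∀ i, C i}
    (h : ∀ i, TypeAt v (s i) (mapMat (φ i) r))
    (hP : ∀ P : ValuationSubring Qb, P.LiesOverPrime v →
      ∃ g0 ∈ P.inertiaSubgroupIn ℚ, ∃ a b, IsUnit ((r g0 - 1) a b)) :
    ∃ s' : A, (∀ i, φ i s' = s i) ∧ TypeAt v s' r := by
  obtain ⟨P, hPv⟩ := H54.exists_liesOverPrime hv
  have h1 : ∀ i, ∃ χ, ChiAt v P (s i) (mapMat (φ i) r) χ := fun i =>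
    (typeAt_iff.mp (h i)) P hPv
  choose χ hχ using h1
  obtain ⟨g0, hg0, a, b, hu⟩ := hP P hPv
  obtain ⟨χ0, h0⟩ := exists_chi φ hχ (mem_decomposition_of_inertia hg0) (s0 := 1) (fun i => by
    rw [(hχ i).inertia g0 hg0, map_one]) (a := a) (b := b) (by rwa [one_smul])
  obtain ⟨f, hf⟩ := H54.exists_isFrobeniusAt hv hPv
  have hs' : ∀ i, φ i (χ0 f) = s i := fun i => by
    rw [h0 i f hf.mem_decompositionSubgroup, (hχ i).frob f hf]
  refine ⟨χ0 f, hs', typeAt_glue φ hinj (fun i => ?_) fun Q hQ => Or.inl (hP Q hQ)⟩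
  rw [hs' i]
  exact h i

end Family

end Fermat.Agent.H19LT
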