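import Mathlib
import Fermat.Agent.H46LTDefs

/-!
# LT-MOD2, block M6 (Step D): exact sub-statements and assembly (helper46)
-/

set_option autoImplicit false

noncomputable section

open WeierstrassCurve IsLocalRing

namespace Fermat.Agent.LT

open Fermat.Agent.H53 (GQ M2 mapMat MCont)

/-- residual representation -/
abbrev rbar (r : GQ →* M2 ℤ_[2]) : GQ →* M2 (ZMod 2) := mapMat PadicInt.toZMod r

/-- the localisation at `q` of the cocycle `b` is nonzero (for `q` where `b` is unramified). -/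
def LocNZ (rb : GQ →* M2 (ZMod 2)) (q : ℕ) (b : GQ → Fin 2 → ZMod 2) : Prop :=
  ∀ P : ValuationSubring Qb, P.LiesOverPrime q → ∀ φ : GQ, P.IsFrobeniusAt φ q →
    ∀ x : Fin 2 → ZMod 2, b φ ≠ (rb φ).mulVec x - x

/-- **(6a) selection** (helper6). -/
def Selection (W : WeierstrassCurve ℤ) (r : GQ →* M2 ℤ_[2]) : Prop :=
  ∀ (n : ℕ) (Q : Finset ℕ) (b : GQ → Fin 2 → ZMod 2), (∀ q ∈ Q, AuxPrime r (cond W) n q) →
    IsSel (rbar r) (↑(bad W) ∪ ↑Q) b → ¬ IsCob (rbar r) b →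
    ∃ q, q ∉ Q ∧ AuxPrime r (cond W) n q ∧ LocNZ (rbar r) q b

/-- **(6b) reciprocity** (helper54). -/
def Reciprocity (W : WeierstrassCurve ℤ) (r : GQ →* M2 ℤ_[2]) : Prop :=
  ∀ (n : ℕ), 3 ≤ n → ∀ (Q : Finset ℕ), (∀ q ∈ Q, AuxPrime r (cond W) n q) →
    ∀ q, q ∉ Q → AuxPrime r (cond W) n q →
    ∀ b b' : GQ → Fin 2 → ZMod 2, IsSel (rbar r) (↑(bad W) ∪ ↑Q) b →
      IsSel (rbar r) (insert q (↑(bad W) ∪ ↑Q)) b' → LocNZ (rbar r) q b →
      ∀ P : ValuationSubring Qb, P.LiesOverPrime q → ∀ σ ∈ P.inertiaSubgroupIn ℚ, b' σ = 0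

/-- **(6c) finiteness** of the space of Selmer cocycles (helper6): `Z¹` unramified outside a finite
set of primes (containing `2` and the primes where `rb` ramifies) is finite. -/
def SelFinite (W : WeierstrassCurve ℤ) (r : GQ →* M2 ℤ_[2]) : Prop :=
  {b : GQ → Fin 2 → ZMod 2 | IsSel (rbar r) (↑(bad W)) b}.Finite

end Fermat.Agent.LT
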