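import Mathlib
import Fermat.Agent.H46LTM6
import Fermat.Agent.H54Place

/-!
# LT-MOD2, block M6 (Step D): assembly (helper46)
-/

set_option autoImplicit false

noncomputable section

open WeierstrassCurve IsLocalRing

namespace Fermat.Agent.LT

open Fermat.Agent.H53 (GQ M2 mapMat MCont)

/-- over `𝔽₂`: the invariants of a nontrivial involution `M` are `(M - 1) V`. -/
theorem exists_of_involution : ∀ M : Matrix (Fin 2) (Fin 2) (ZMod 2), M * M = 1 → M ≠ 1 →
    ∀ w : Fin 2 → ZMod 2, M.mulVec w = w → ∃ y, w = M.mulVec y - y := by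
  decide

theorem padicInt_hom_ext {R : Type*} [CommRing R] (hR : (2 : R) = 0) (f g : ℤ_[2] →+* R) :
    f = g := by
  ext x
  have h1 := PadicInt.toZMod_spec x
  rw [PadicInt.maximalIdeal_eq_span_p, Ideal.mem_span_singleton] at h1
  obtain ⟨y, hy⟩ := h1
  have h2 : x = ((PadicInt.toZMod x).val : ℤ_[2]) + 2 * y := by
    rw [ZMod.natCast_val, ← sub_eq_iff_eq_add']
    exact_mod_cast hy
  rw [h2, map_add, map_add, map_natCast, map_natCast, map_mul, map_mul, map_ofNat, map_ofNat, hR,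
    zero_mul, zero_mul]

theorem toZMod_eq_castHom {n : ℕ} (hn : n ≠ 0) :
    (PadicInt.toZMod : ℤ_[2] →+* ZMod 2) =
      (ZMod.castHom (dvd_pow_self 2 hn) (ZMod 2)).comp (PadicInt.toZModPow n) :=
  padicInt_hom_ext (by decide) _ _

theorem toZModPow_eq_castHom {m n : ℕ} (h : m ≤ n) :
    (PadicInt.toZModPow m : ℤ_[2] →+* ZMod (2 ^ m)) =
      (ZMod.castHom (pow_dvd_pow 2 h) (ZMod (2 ^ m))).comp (PadicInt.toZModPow n) :=
  (PadicInt.zmod_cast_comp_toZModPow m n h).symm

theorem AuxPrime.mono {r : GQ →* M2 ℤ_[2]} {N m n q : ℕ} (h : AuxPrime r N n q) (hmn : m ≤ n) :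
    AuxPrime r N m q where
  prime := h.prime
  notdvd := h.notdvd
  cong := (pow_dvd_pow 2 hmn).trans h.cong
  sq := by
    intro P hP φ hφ
    obtain ⟨h1, h2, h3⟩ := h.sq P hP φ hφ
    refine ⟨?_, ?_, h3⟩
    · rw [toZModPow_eq_castHom hmn, H53.mapMat_comp]
      ext i j
      rw [H53.mapMat_apply, h1, Matrix.one_apply, Matrix.one_apply]
      split_ifs
      · exact map_one _
      · exact map_zero _
    · rw [toZModPow_eq_castHom hmn, H53.mapMat_comp]
      have : (mapMat (ZMod.castHom (pow_dvd_pow 2 hmn) (ZMod (2 ^ m)))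
        (mapMat (PadicInt.toZModPow n) r) φ).trace = ZMod.castHom (pow_dvd_pow 2 hmn) (ZMod (2 ^ m))
          ((mapMat (PadicInt.toZModPow n) r φ).trace) := by
        rw [Matrix.trace_fin_two, Matrix.trace_fin_two, map_add]
        rfl
      rw [this, h2, map_zero]

theorem AuxPrime.rbar_sq {r : GQ →* M2 ℤ_[2]} {N n q : ℕ} (h : AuxPrime r N n q) (hn : n ≠ 0)
    {P : ValuationSubring Qb} (hP : P.LiesOverPrime q) {φ : GQ} (hφ : P.IsFrobeniusAt φ q) :
    rbar r φ * rbar r φ = 1 := by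
  obtain ⟨h1, -, -⟩ := h.sq P hP φ hφ
  rw [← map_mul]
  rw [rbar, toZMod_eq_castHom hn, H53.mapMat_comp]
  ext i j
  rw [H53.mapMat_apply, h1, Matrix.one_apply, Matrix.one_apply]
  split_ifs
  · exact map_one _
  · exact map_zero _

variable {W : WeierstrassCurve ℤ} {r : GQ →* M2 ℤ_[2]}

theorem exists_place {q : ℕ} (hq : q.Prime) : ∃ P : ValuationSubring Qb, P.LiesOverPrime q := by
  have : Fact q.Prime := ⟨hq⟩
  exact ⟨_, H54.liesOverPrime_padicPlace q⟩

/-- adding `q` does not enlarge `Sel`. -/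
theorem isSel_of_insert {rb : GQ →* M2 (ZMod 2)} {S : Set ℕ} {q : ℕ} {b : GQ → Fin 2 → ZMod 2}
    (h : IsSel rb (insert q S) b)
    (hu : ∀ P : ValuationSubring Qb, P.LiesOverPrime q → ∀ σ ∈ P.inertiaSubgroupIn ℚ, b σ = 0) :
    IsSel rb S b where
  cocycle := h.cocycle
  fin := h.fin
  unr := by
    intro ℓ hℓ hℓS P hP σ hσ
    by_cases hq : ℓ = q
    · subst hq
      exact hu P hP σ hσ
    · exact h.unr ℓ hℓ (fun h' => h'.elim hq hℓS) P hP σ hσ
  line := fun v hv hvS => h.line v hv (Set.mem_insert_of_mem q hvS)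

/-- a class with nonzero localisation at `q` is not in the new Selmer group. -/
theorem not_isSel_insert {n q : ℕ} (hn : n ≠ 0) (hq : AuxPrime r (cond W) n q) {S : Set ℕ}
    {b : GQ → Fin 2 → ZMod 2} (hnz : LocNZ (rbar r) q b) : ¬ IsSel (rbar r) (insert q S) b := by
  intro h
  obtain ⟨P, hP⟩ := exists_place hq.prime
  obtain ⟨φ, hφ⟩ := H54.exists_isFrobeniusAt hq.prime hP
  obtain ⟨x, hx⟩ := h.line q hq.prime (Set.mem_insert q S) P hP
  have hD := hφ.mem_decompositionSubgroup
  have h1 := hx φ hD φ hD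
  obtain ⟨-, -, h3⟩ := hq.sq P hP φ hφ
  obtain ⟨y, hy⟩ := exists_of_involution _ (hq.rbar_sq hn hP hφ) h3 _ h1
  refine hnz P hP φ hφ (x + y) ?_
  rw [Matrix.mulVec_add]
  have h4 : b φ = (b φ - ((rbar r φ).mulVec x - x)) + ((rbar r φ).mulVec x - x) := by abel
  rw [h4, hy]
  abel

/-- **Assembly of M6.** -/
theorem statementM6_of (hsel : Selection W r) (hrec : Reciprocity W r) (hfin : SelFinite W r) :
    StatementM6 W r := by
  classical
  -- the set of Selmer cocycles
  set Z : Finset ℕ → Set (GQ → Fin 2 → ZMod 2) :=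
    fun Q => {b | IsSel (rbar r) (↑(bad W) ∪ ↑Q) b} with hZ
  have key : ∀ (n : ℕ), 3 ≤ n → ∀ (m : ℕ) (Q : Finset ℕ), (∀ q ∈ Q, AuxPrime r (cond W) n q) →
      (Z Q).Finite → (Z Q).ncard ≤ m → ∃ Q' : Finset ℕ, Q'.card ≤ Q.card + m ∧
        (∀ q ∈ Q', AuxPrime r (cond W) n q) ∧ SelZero (rbar r) (↑(bad W) ∪ ↑Q') := by
    intro n hn m
    induction m with
    | zero =>
      intro Q hQ hf hc
      refine ⟨Q, le_rfl, hQ, fun b hb => ?_⟩
      exfalso
      have h1 := (Set.ncard_eq_zero hf).mp (Nat.le_zero.mp hc)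
      have : b ∈ Z Q := hb
      rw [h1] at this
      exact this
    | succ m ih =>
      intro Q hQ hf hc
      by_cases h0 : SelZero (rbar r) (↑(bad W) ∪ ↑Q)
      · exact ⟨Q, by omega, hQ, h0⟩
      · rw [SelZero] at h0
        push Not at h0
        obtain ⟨b, hb, hbc⟩ := h0
        obtain ⟨q, hqQ, hq, hnz⟩ := hsel n Q b hQ hb hbc
        have hset : (↑(bad W) ∪ ↑(insert q Q) : Set ℕ) = insert q (↑(bad W) ∪ ↑Q) := by
          rw [Finset.coe_insert, Set.union_insert]
        have hsub : Z (insert q Q) ⊆ Z Q := by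
          intro b' hb'
          have hb'' : IsSel (rbar r) (insert q (↑(bad W) ∪ ↑Q)) b' := by
            rw [← hset]; exact hb'
          exact isSel_of_insert hb'' (hrec n hn Q hQ q hqQ hq b b' hb hb'' hnz)
        have hne : Z (insert q Q) ≠ Z Q := by
          intro h
          have h1 : b ∈ Z (insert q Q) := by rw [h]; exact hb
          have h2 : IsSel (rbar r) (insert q (↑(bad W) ∪ ↑Q)) b := by
            rw [← hset]; exact h1
          exact not_isSel_insert (by omega) hq hnz h2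
        have hlt : (Z (insert q Q)).ncard < (Z Q).ncard :=
          Set.ncard_lt_ncard (hsub.ssubset_of_ne hne) hf
        obtain ⟨Q', h1, h2, h3⟩ := ih (insert q Q) (by
          intro q' hq'
          rcases Finset.mem_insert.mp hq' with rfl | h
          · exact hq
          · exact hQ q' h) (hf.subset hsub) (by omega)
        refine ⟨Q', ?_, h2, h3⟩
        rw [Finset.card_insert_of_notMem hqQ] at h1
        omega
  refine ⟨(Z ∅).ncard, fun n => ?_⟩
  have hfin' : (Z ∅).Finite := by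
    have : Z ∅ = {b | IsSel (rbar r) (↑(bad W)) b} := by
      simp [hZ]
    rw [this]
    exact hfin
  obtain ⟨Q, h1, h2, h3⟩ := key (max n 3) (le_max_right _ _) _ ∅ (by simp) hfin' le_rfl
  refine ⟨Q, by simpa using h1, fun q hq => (h2 q hq).mono (le_max_left _ _), h3⟩

end Fermat.Agent.LT
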