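import Mathlib
import Fermat.Agent.H46LTDefsTA

/-!
# LT-MOD2: the coefficient ring `O = W(𝔽₄)`
-/

set_option autoImplicit false

noncomputable section

open IsLocalRing

namespace Fermat.Agent.H49.LTC

/-- the field with four elements -/
abbrev F4 : Type := GaloisField 2 2

/-- the coefficient ring `W(𝔽₄)` -/
abbrev O4 : Type := WittVector 2 F4

theorem maximalIdeal_O4 : maximalIdeal O4 = Ideal.span {(2 : O4)} := by
  have h := WittVector.irreducible 2 (k := F4)
  have h2 := (IsDiscreteValuationRing.irreducible_iff_uniformizer ((2 : ℕ) : O4)).mp h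
  rw [h2]
  norm_num

theorem card_F4 : Nat.card F4 = 4 := by
  rw [GaloisField.card 2 2 (by norm_num)]
  norm_num

/-- the residue field of `W(𝔽₄)` -/
def residueEquiv : ResidueField O4 ≃+* F4 :=
  (Ideal.quotEquivOfEq (by rw [maximalIdeal_O4]; norm_num)).trans (WittVector.quotientPEquiv (p := 2))

instance charZero_O4 : CharZero O4 := by
  rcases CharP.exists' O4 with h | ⟨q, hq, hc⟩
  · exact h
  · exfalso
    have h1 : ((q : ℕ) : O4) = 0 := CharP.cast_eq_zero O4 q
    have h2 : ((q : ℕ) : F4) = 0 := by
      have := congrArg (WittVector.constantCoeff (p := 2) (R := F4)) h1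
      rwa [map_natCast, map_zero] at this
    have h3 : 2 ∣ q := (CharP.cast_eq_zero_iff F4 2 q).mp h2
    have h4 : q = 2 := ((Nat.prime_dvd_prime_iff_eq Nat.prime_two hq.out).mp h3).symm
    subst h4
    exact (WittVector.irreducible 2 (k := F4)).ne_zero h1

instance : Fermat.Agent.LT.CoefRing O4 where
  char_zero := inferInstance
  complete := by
    have h := WittVector.isAdicCompleteIdealSpanP (p := 2) (k := F4)
    rw [maximalIdeal_O4]
    have h2 : ((2 : ℕ) : O4) = 2 := by norm_num
    rwa [h2] at h
  two := maximalIdeal_O4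
  card := by
    rw [Nat.card_congr residueEquiv.toEquiv, card_F4]

/-- `ℤ₂ → W(𝔽₄)` -/
def ofZ2 : ℤ_[2] →+* O4 :=
  (WittVector.map (algebraMap (ZMod 2) F4)).comp (WittVector.fromPadicInt 2)

end Fermat.Agent.H49.LTC
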