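import Mathlib
import Fermat.Agent.H49LTCoef
import Fermat.Agent.H46LTM6Asm
import Fermat.Agent.H19LTTypeAt
import Fermat.Agent.H63Dict

/-!
# LT-MOD2, block C: the representation of `W` modulo `2^m` over `O / 2^m` (helper49)
-/

set_option autoImplicit false

noncomputable section

open IsLocalRing WeierstrassCurve

namespace Fermat.Agent.H49.LTC

open Fermat.Agent.H53 (GQ M2 mapMat MCont)
open Fermat.Agent.LT

section Ring

variable {O : Type} [CommRing O] [IsDomain O] [IsDiscreteValuationRing O] [CoefRing O]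

theorem two_mem : (2 : O) ∈ maximalIdeal O := by
  rw [CoefRing.two (O := O)]
  exact Ideal.mem_span_singleton_self _

theorem span_le {m : ℕ} (hm : m ≠ 0) : Ideal.span {((2 : O) ^ m)} ≤ maximalIdeal O := by
  rw [Ideal.span_le, Set.singleton_subset_iff]
  exact Ideal.pow_mem_of_mem _ two_mem m (Nat.pos_of_ne_zero hm)

theorem nontrivial_quot {m : ℕ} (hm : m ≠ 0) : Nontrivial (O ⧸ Ideal.span {((2 : O) ^ m)}) :=
  Ideal.Quotient.nontrivial_iff.mpr fun h =>
    (maximalIdeal.isMaximal O).ne_top (top_le_iff.mp (h ▸ span_le hm))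

theorem isLocalRing_quot {m : ℕ} (hm : m ≠ 0) : IsLocalRing (O ⧸ Ideal.span {((2 : O) ^ m)}) :=
  haveI := nontrivial_quot (O := O) hm
  IsLocalRing.of_surjective' (Ideal.Quotient.mk (Ideal.span {((2 : O) ^ m)}))
    Ideal.Quotient.mk_surjective

/-- the residue map `O / 2^m → k` -/
def resB {m : ℕ} (hm : m ≠ 0) : (O ⧸ Ideal.span {((2 : O) ^ m)}) →ₐ[O] ResidueField O :=
  Ideal.Quotient.liftₐ _ (Algebra.ofId O (ResidueField O)) fun a ha => by
    show residue O a = 0
    rw [residue_eq_zero_iff]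
    exact span_le hm ha

omit [IsDomain O] [IsDiscreteValuationRing O] [CoefRing O] in
theorem two_nilpotent {m : ℕ} : IsNilpotent (2 : O ⧸ Ideal.span {((2 : O) ^ m)}) := by
  refine ⟨m, ?_⟩
  have h : (Ideal.Quotient.mk (Ideal.span {((2 : O) ^ m)}) ((2 : O) ^ m)) = 0 :=
    Ideal.Quotient.eq_zero_iff_mem.mpr (Ideal.mem_span_singleton_self _)
  rwa [map_pow, map_ofNat] at h

instance : CharP (ResidueField O) 2 := by
  have h : (2 : ResidueField O) = 0 := by
    have h1 : residue O 2 = 0 := (residue_eq_zero_iff _).mpr two_mem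
    rwa [map_ofNat] at h1
  exact CharTwo.of_one_ne_zero_of_two_eq_zero one_ne_zero h

theorem finite_residue : Finite (ResidueField O) :=
  Nat.finite_of_card_ne_zero (by rw [CoefRing.card (O := O)]; norm_num)

end Ring

/-- a ring homomorphism from `ℤ₂` to a nontrivial ring in which `2` is nilpotent is local -/
theorem isLocalHom_of_nilpotent {B : Type} [CommRing B] [Nontrivial B] (h2 : IsNilpotent (2 : B))
    (f : ℤ_[2] →+* B) : IsLocalHom f where
  map_nonunit a ha := by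
    by_contra hcon
    have h1 : a ∈ maximalIdeal ℤ_[2] := (mem_maximalIdeal _).mpr hcon
    rw [PadicInt.maximalIdeal_eq_span_p, Ideal.mem_span_singleton] at h1
    obtain ⟨y, rfl⟩ := h1
    rw [map_mul, map_natCast] at ha
    have h3 : IsUnit ((2 : ℕ) : B) := isUnit_of_mul_isUnit_left ha
    obtain ⟨n, hn⟩ := h2
    have h4 : IsUnit ((2 : B) ^ n) := by
      have := h3.pow n
      exact_mod_cast this
    rw [hn] at h4
    exact not_isUnit_zero h4

theorem mcont_mapMat {B : Type} [CommRing B] [IsLocalRing B] (h2 : IsNilpotent (2 : B))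
    (f : ℤ_[2] →+* B) {r : GQ →* M2 ℤ_[2]} (hr : MCont ℤ_[2] r) : MCont B (mapMat f r) :=
  hr.map f (isLocalHom_of_nilpotent h2 f)

/-- the residual representation -/
theorem residual_eq {B k : Type} [CommRing B] [Field k] [CharP k 2] [Algebra (ZMod 2) k]
    (f : ℤ_[2] →+* B) (π : B →+* k) (r : GQ →* M2 ℤ_[2]) (g : GQ) :
    (mapMat f r g).map π = (mapMat PadicInt.toZMod r g).map (algebraMap (ZMod 2) k) := by
  have h2 : (2 : k) = 0 := CharTwo.two_eq_zero
  have h : π.comp f = (algebraMap (ZMod 2) k).comp PadicInt.toZMod := padicInt_hom_ext h2 _ _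
  ext i j
  have h3 := RingHom.congr_fun h (r g i j)
  rw [Matrix.map_apply, Matrix.map_apply, H53.mapMat_apply, H53.mapMat_apply]
  exact h3

section Curve

variable {W : WeierstrassCurve ℤ}

theorem disc_ne_zero (hW : GoodCurve W) : W.Δ ≠ 0 := hW.neg.ne

theorem mem_bad (hW : GoodCurve W) {ℓ : ℕ} : ℓ ∈ bad W ↔ ℓ.Prime ∧ (ℓ : ℤ) ∣ W.Δ := by
  rw [bad, Nat.mem_primeFactors, Int.natCast_dvd]
  constructor
  · rintro ⟨h1, h2, -⟩
    exact ⟨h1, h2⟩
  · rintro ⟨h1, h2⟩
    exact ⟨h1, h2, Int.natAbs_ne_zero.mpr (disc_ne_zero hW)⟩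

theorem dvd_cond_iff (hW : GoodCurve W) {ℓ : ℕ} (hℓ : ℓ.Prime) :
    ℓ ∣ cond W ↔ (ℓ : ℤ) ∣ W.Δ := by
  constructor
  · intro h
    obtain ⟨q, hq, hd⟩ := (Prime.dvd_finsetProd_iff hℓ.prime _).mp h
    have hq' := (mem_bad hW).mp hq
    have : ℓ = q := (Nat.prime_dvd_prime_iff_eq hℓ hq'.1).mp hd
    subst this
    exact hq'.2
  · intro h
    exact Finset.dvd_prod_of_mem (fun ℓ => ℓ) ((mem_bad hW).mpr ⟨hℓ, h⟩)

theorem squarefree_cond (W : WeierstrassCurve ℤ) : Squarefree (cond W) := by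
  rw [LT.cond]
  refine Finset.squarefree_prod_of_pairwise_isCoprime ?_ ?_
  · intro p hp q hq hne
    exact (Nat.coprime_iff_isRelPrime).mp ((Nat.coprime_primes (Nat.prime_of_mem_primeFactors hp)
      (Nat.prime_of_mem_primeFactors hq)).mpr hne)
  · intro p hp
    exact (Nat.prime_of_mem_primeFactors hp).squarefree

theorem two_dvd_cond (hW : GoodCurve W) : 2 ∣ cond W :=
  (dvd_cond_iff hW Nat.prime_two).mpr (by exact_mod_cast hW.two)

theorem cond_ne_zero (W : WeierstrassCurve ℤ) : cond W ≠ 0 :=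
  (squarefree_cond W).ne_zero

theorem two_lt_cond (hW : GoodCurve W) : 2 < cond W := by
  obtain ⟨p, hp, h24, hd⟩ := hW.r2
  have h1 := (dvd_cond_iff hW hp).mpr hd
  have h2 := Nat.le_of_dvd (Nat.pos_of_ne_zero (cond_ne_zero W)) h1
  have h3 : 2 < p := by
    have := Nat.mod_le p 24
    omega
  omega

theorem ne_two_of_not_dvd (hW : GoodCurve W) {ℓ : ℕ} (h : ¬ ℓ ∣ cond W) : ℓ ≠ 2 := by
  rintro rfl
  exact h (two_dvd_cond hW)

variable {r : GQ →* M2 ℤ_[2]} {s : ℕ → ℤ} {B : Type} [CommRing B] (f : ℤ_[2] →+* B)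

theorem frobAt_mapMat (hW : GoodCurve W) (hE : EData W r s) {ℓ : ℕ} (hℓ : ℓ.Prime)
    (h : ¬ ℓ ∣ cond W) : FrobAt ℓ ((W.apOfModel ℓ : ℤ) : B) (mapMat f r) := by
  intro P hP φ hφ
  obtain ⟨h1, h2⟩ := hE.frob ℓ hℓ (fun h' => h ((dvd_cond_iff hW hℓ).mpr h'))
    (ne_two_of_not_dvd hW h) P hP φ hφ
  rw [H19LT.trace_mapMat, H19LT.det_mapMat, h1, h2, map_intCast, map_natCast]
  exact ⟨rfl, rfl⟩

theorem unrAt_mapMat (hW : GoodCurve W) (hE : EData W r s) {ℓ : ℕ} (hℓ : ℓ.Prime)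
    (h : ¬ ℓ ∣ cond W) : UnrAt ℓ (mapMat f r) := by
  intro P hP σ hσ
  have h1 := hE.unr ℓ hℓ (fun h' => h ((dvd_cond_iff hW hℓ).mpr h'))
    (ne_two_of_not_dvd hW h) P hP σ hσ
  rw [H53.mapMat_apply', h1]
  simp

theorem typeAt_mapMat (hW : GoodCurve W) (hE : EData W r s) {v : ℕ} (hv : v.Prime)
    (h : v ∣ cond W) : TypeAt v ((s v : ℤ) : B) (mapMat f r) := by
  have h1 := H19LT.TypeAt.mapMat (hE.type v hv ((dvd_cond_iff hW hv).mp h)) f
  rwa [map_intCast] at h1

/-! ### auxiliary primes -/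

theorem aux_mod_eight {N n q : ℕ} (h : AuxPrime r N n q) (hn : 3 ≤ n) : q % 8 = 7 := by
  have h1 : 8 ∣ q + 1 := (pow_dvd_pow 2 hn).trans h.cong
  omega

/-- Frobenius fixes square roots of squares mod `q`. -/
theorem frob_mem_GK {N q : ℕ} (hq : q.Prime) (hq2 : q ≠ 2) (hqN : ¬ q ∣ N)
    (hsq : IsSquare ((-(N : ℤ) : ℤ) : ZMod q)) {P : ValuationSubring Qb} (hP : P.LiesOverPrime q)
    {φ : GQ} (hφ : P.IsFrobeniusAt φ q) : φ ∈ GK N := by
  intro x hx
  haveI := Fact.mk hq
  obtain ⟨-, hfr⟩ := (H63.isFrobeniusAt_iff P φ q).mp hφ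
  obtain ⟨c, hc⟩ := hsq
  obtain ⟨a, rfl⟩ := ZMod.intCast_surjective c
  have hdiv : (q : ℤ) ∣ -(N : ℤ) - a * a := by
    rw [← ZMod.intCast_zmod_eq_zero_iff_dvd]
    push_cast
    push_cast at hc
    rw [hc]
    ring
  -- `(x - a) (x + a)` is in the maximal ideal
  have h1 : ((-(N : ℤ) - a * a : ℤ) : Qb) ∈ P.nonunits :=
    (H54.intCast_mem_nonunits_iff hq hP _).mpr hdiv
  have h2 : ((-(N : ℤ) - a * a : ℤ) : Qb) = (x - a) * (x + a) := by
    push_cast
    have : x ^ 2 = -(N : Qb) := hx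
    linear_combination -this
  rw [h2] at h1
  have hxP : x ∈ P := by
    have h3 : P.valuation x ^ 2 ≤ 1 := by
      rw [← map_pow, hx, Valuation.map_neg]
      exact (P.valuation_le_one_iff _).mpr (natCast_mem P.toSubring N)
    exact (P.valuation_le_one_iff _).mp ((pow_le_one_iff_of_nonneg zero_le (by norm_num)).mp h3)
  have haP : (a : Qb) ∈ P := intCast_mem P.toSubring a
  have hmem : ∀ y : Qb, y ∈ P → P.valuation y ≤ 1 := fun y hy => (P.valuation_le_one_iff _).mpr hy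
  -- `x` is congruent to an integer
  have key : ∃ b : ℤ, x - b ∈ P.nonunits := by
    rw [ValuationSubring.mem_nonunits_iff, map_mul] at h1
    by_contra hcon
    push Not at hcon
    have h3 := hcon a
    have h4 := hcon (-a)
    rw [ValuationSubring.mem_nonunits_iff, not_lt] at h3 h4
    have h5 : x - ((-a : ℤ) : Qb) = x + a := by push_cast; ring
    rw [h5] at h4
    exact absurd h1 (not_lt.mpr (one_le_mul h3 h4))
  obtain ⟨b, hb⟩ := key
  -- `x^q ≡ x`
  have h6 : φ x - x ∈ P.nonunits := by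
    have h7 := hfr (x - b) (sub_mem hxP (intCast_mem P.toSubring b))
    have h8 := hfr x hxP
    have hdvd : (q : ℤ) ∣ b ^ q - b := by
      rw [← ZMod.intCast_zmod_eq_zero_iff_dvd]
      push_cast
      rw [ZMod.pow_card, sub_self]
    have h9 : ((b ^ q - b : ℤ) : Qb) ∈ P.nonunits := (H54.intCast_mem_nonunits_iff hq hP _).mpr hdvd
    have h10 := hfr (b : Qb) (intCast_mem P.toSubring b)
    -- φ x - x = (φ (x - b)) + b - x, φ(x-b) nonunit
    have h11 : P.valuation (φ (x - b)) < 1 := by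
      have h12 : φ (x - b) = (φ (x - b) - (x - b) ^ q) + (x - b) ^ q := by ring
      rw [h12]
      refine Valuation.map_add_lt _ h7 ?_
      rw [map_pow]
      exact pow_lt_one' hb hq.ne_zero
    have h13 : φ x - x = φ (x - b) - (x - b) := by
      rw [map_sub, map_intCast]
      ring
    rw [h13, ValuationSubring.mem_nonunits_iff]
    exact Valuation.map_sub_lt _ h11 hb
  have h14 : (φ x - x) * (φ x + x) = 0 := by
    have h15 : φ x ^ 2 = x ^ 2 := by
      rw [← map_pow, hx, map_neg, map_natCast]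
    linear_combination h15
  rcases mul_eq_zero.mp h14 with h15 | h15
  · exact sub_eq_zero.mp h15
  · exfalso
    have h16 : φ x = -x := eq_neg_of_add_eq_zero_left h15
    rw [h16] at h6
    have h17 : P.valuation (2 : Qb) * P.valuation x < 1 := by
      rw [← map_mul]
      have : (2 : Qb) * x = -(-x - x) := by ring
      rw [this, Valuation.map_neg]
      exact h6
    have h18 : P.valuation (2 : Qb) = 1 := by
      have h19 : ((2 : ℤ) : Qb) ∉ P.nonunits := by
        rw [H54.intCast_mem_nonunits_iff hq hP]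
        intro h
        have h20 : q ∣ 2 := by exact_mod_cast h
        exact hq2 ((Nat.prime_dvd_prime_iff_eq hq Nat.prime_two).mp h20)
      rw [ValuationSubring.mem_nonunits_iff, not_lt] at h19
      refine le_antisymm (hmem 2 (by exact_mod_cast natCast_mem P.toSubring 2)) ?_
      exact_mod_cast h19
    rw [h18, one_mul] at h17
    have h21 : ((-(N : ℤ) : ℤ) : Qb) ∈ P.nonunits := by
      rw [ValuationSubring.mem_nonunits_iff]
      have : ((-(N : ℤ) : ℤ) : Qb) = x ^ 2 := by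
        rw [hx]; push_cast; ring
      rw [this, map_pow]
      exact pow_lt_one' h17 (by norm_num)
    rw [H54.intCast_mem_nonunits_iff hq hP, dvd_neg] at h21
    exact hqN (by exact_mod_cast h21)

theorem trace_rbar_eq_zero {N n q : ℕ} (h : AuxPrime r N n q) (hn : n ≠ 0)
    {P : ValuationSubring Qb} (hP : P.LiesOverPrime q) {φ : GQ} (hφ : P.IsFrobeniusAt φ q) :
    (mapMat PadicInt.toZMod r φ).trace = 0 := by
  obtain ⟨-, h2, -⟩ := h.sq P hP φ hφ
  rw [toZMod_eq_castHom hn, H53.mapMat_comp, H19LT.trace_mapMat, h2, map_zero]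

/-- a Frobenius at an auxiliary prime is not in `G_K` -/
theorem frob_notMem_GK (hE : EData W r s) {n q : ℕ} (h : AuxPrime r (cond W) n q) (hn : n ≠ 0)
    {P : ValuationSubring Qb} (hP : P.LiesOverPrime q) {φ : GQ} (hφ : P.IsFrobeniusAt φ q) :
    φ ∉ GK (cond W) := by
  rw [hE.mem_GK]
  have h1 := trace_rbar_eq_zero h hn hP hφ
  obtain ⟨-, -, h3⟩ := h.sq P hP φ hφ
  rintro (h4 | h4)
  · exact h3 h4
  · rw [h1] at h4
    exact zero_ne_one h4

theorem aux_not_isSquare (hE : EData W r s) {n q : ℕ} (h : AuxPrime r (cond W) n q)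
    (hn : 3 ≤ n) : ¬ IsSquare ((-(cond W : ℤ) : ℤ) : ZMod q) := by
  intro hsq
  obtain ⟨P, hP⟩ := exists_place h.prime
  obtain ⟨φ, hφ⟩ := H54.exists_isFrobeniusAt h.prime hP
  refine frob_notMem_GK hE h (by omega) hP hφ (frob_mem_GK h.prime ?_ h.notdvd hsq hP hφ)
  rintro rfl
  have := aux_mod_eight h hn
  omega

/-- the hypotheses of `StatementT'` for the auxiliary primes -/
theorem aux_cond (hE : EData W r s) {n q : ℕ} (h : AuxPrime r (cond W) n q) (hn : 3 ≤ n) :
    q.Prime ∧ ¬ q ∣ cond W ∧ q % 8 = 7 ∧ ¬ IsSquare ((-(cond W : ℤ) : ℤ) : ZMod q) :=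
  ⟨h.prime, h.notdvd, aux_mod_eight h hn, aux_not_isSquare hE h hn⟩

end Curve

end Fermat.Agent.H49.LTC
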