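import Fermat.Agent.H91Unram
import Fermat.Agent.H54RootsUnity
import Fermat.Agent.H47C1

/-!
# Classes of level `S` are locally trivial outside `S`
-/

set_option autoImplicit false
set_option maxSynthPendingDepth 3

namespace Fermat.Agent.H47

open Fermat.Agent.H55 Fermat.Agent.H91 Fermat.Agent.H54 groupCohomology ExtCitation NumberField

section cyclic

variable {G : Type*} [Group G]

theorem pow_mem_iff_index_dvd {H₁ N : Subgroup G} [hN : N.Normal] (hle : H₁ ≤ N) {σ : G}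
    (hgen : ∀ s : G, ∃ k : ℕ, ∃ v ∈ H₁, s = σ ^ k * v) (k : ℕ) : σ ^ k ∈ N ↔ N.index ∣ k := by
  have h1 : ∀ x : G ⧸ N, x ∈ Subgroup.zpowers (QuotientGroup.mk σ : G ⧸ N) := by
    intro x
    obtain ⟨s, rfl⟩ := QuotientGroup.mk_surjective x
    obtain ⟨k, v, hv, rfl⟩ := hgen s
    refine ⟨k, ?_⟩
    simp only [zpow_natCast]
    rw [← QuotientGroup.mk_pow, QuotientGroup.eq]
    have : (σ ^ k)⁻¹ * (σ ^ k * v) = v := by group
    rw [this]
    exact hle hv
  have h2 := orderOf_eq_card_of_forall_mem_zpowers h1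
  have h3 : N.index = orderOf (QuotientGroup.mk σ : G ⧸ N) := h2.symm
  rw [h3, orderOf_dvd_iff_pow_eq_one, ← QuotientGroup.mk_pow, QuotientGroup.eq_one_iff]

theorem sum_range_mul_of_periodic {A : Type*} [AddCommGroup A] (φ : ℕ → A) (n t : ℕ)
    (h : ∀ k, φ (n + k) = φ k) :
    ∑ k ∈ Finset.range (t * n), φ k = t • ∑ k ∈ Finset.range n, φ k := by
  have h' : ∀ t k, φ (t * n + k) = φ k := by
    intro t
    induction t with
    | zero => intro k; simp
    | succ t ih => intro k; rw [Nat.succ_mul, add_assoc, ih, h]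
  induction t with
  | zero => simp
  | succ t ih =>
    rw [Nat.succ_mul, Finset.sum_range_add, ih, succ_nsmul]
    congr 1
    exact Finset.sum_congr rfl fun k _ => h' t k

/-- Vanishing of inflated classes in cyclic towers, trivial `p`-torsion coefficients. -/
theorem triv₂_of_cyclic {𝓥 : LevelFam G} {A : Type*} [AddCommGroup A]
    [DistribMulAction G A] {p : ℕ} (hpA : ∀ a : A, p • a = 0)
    {H H₁ : Subgroup G} [hn : H.Normal] [hn₁ : H₁.Normal] (hle : H₁ ≤ H)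
    (hopen : 𝓥.IsOpenSubgroup H₁) {σ : G} (hgen : ∀ s : G, ∃ k : ℕ, ∃ v ∈ H₁, s = σ ^ k * v)
    (hdvd : p ∣ H₁.relIndex H) {F : G × G → A} (hF : LevelFam.Inflated H F) : 𝓥.Triv₂ F := by
  have hF₁ : LevelFam.Inflated H₁ F :=
    ⟨hF.coc, fun h hh g => hF.left h (hle hh) g, fun g h hh => hF.right g h (hle hh)⟩
  refine LevelFam.triv₂_of_tinv_eq_nrm hopen hF₁ (n := H₁.index)
    (fun k => pow_mem_iff_index_dvd le_rfl hgen k) hgen (a := 0) (fun _ _ => smul_zero _) ?_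
  obtain ⟨t, ht⟩ := hdvd
  have h1 : H₁.index = H₁.relIndex H * H.index := (Subgroup.relIndex_mul_index hle).symm
  have h2 : σ ^ H.index ∈ H := (pow_mem_iff_index_dvd hle hgen _).2 dvd_rfl
  rw [LevelFam.tinv, LevelFam.nrm, h1,
    sum_range_mul_of_periodic (fun k => F (σ ^ k, σ)) H.index (H₁.relIndex H), ht, mul_comm,
    mul_smul, hpA]
  · simp
  · intro k
    have e1 : σ ^ (H.index + k) = σ ^ k * σ ^ H.index := by rw [← pow_add, add_comm]
    rw [e1, hF.mul_left _ _ h2]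

theorem dvd_relIndex_of_pow_mem {H H₁ : Subgroup G} [hn₁ : H₁.Normal] {p : ℕ} (hp : p.Prime)
    {s : G} (hs : s ∈ H) (hs₁ : s ∉ H₁) {M : ℕ} (hsM : s ^ p ^ M ∈ H₁) : p ∣ H₁.relIndex H := by
  have hn : (H₁.subgroupOf H).Normal := hn₁.comap H.subtype
  let x : H ⧸ H₁.subgroupOf H := QuotientGroup.mk ⟨s, hs⟩
  have h1 : orderOf x ∣ p ^ M := by
    apply orderOf_dvd_of_pow_eq_one
    rw [← QuotientGroup.mk_pow, QuotientGroup.eq_one_iff]
    exact hsM
  have h2 : orderOf x ≠ 1 := by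
    rw [Ne, orderOf_eq_one_iff, QuotientGroup.eq_one_iff]
    exact hs₁
  obtain ⟨k, -, hk⟩ := (Nat.dvd_prime_pow hp).1 h1
  have hk0 : k ≠ 0 := by
    rintro rfl
    exact h2 (by rw [hk, pow_zero])
  have h3 : p ∣ orderOf x := by
    rw [hk]
    exact dvd_pow_self p hk0
  exact h3.trans (orderOf_dvd_natCard x)

end cyclic

section concrete

local notation "Ω" => AlgebraicClosure ℚ
local notation "Γ" => (AlgebraicClosure ℚ ≃ₐ[ℚ] AlgebraicClosure ℚ)

local instance factNatPrimes'' (q : Nat.Primes) : Fact (q : ℕ).Prime := ⟨q.2⟩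

/-- trivial coefficients -/
def TM (p : ℕ) : Type := ZMod p

instance instTMGroup (p : ℕ) : AddCommGroup (TM p) := inferInstanceAs (AddCommGroup (ZMod p))

instance instTMAct (G : Type*) [Group G] (p : ℕ) : DistribMulAction G (TM p) where
  smul _ a := a
  one_smul _ := rfl
  mul_smul _ _ _ := rfl
  smul_zero _ := rfl
  smul_add _ _ _ := rfl

theorem TM_smul {G : Type*} [Group G] {p : ℕ} (g : G) (a : TM p) : g • a = a := rfl

theorem TM_nsmul {p : ℕ} (a : TM p) : p • a = 0 := by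
  have : ∀ b : ZMod p, p • b = 0 := fun b => by simp
  exact this a

variable {p : ℕ} {S : Finset Nat.Primes} {K : IntermediateField ℚ Ω} {ζ : Ω}

theorem root_pow_eq_iff {n : ℕ} (hn : n ≠ 0) {ξ : Ω} (hξ : IsPrimitiveRoot ξ n) (a b : ℕ) :
    ξ ^ a = ξ ^ b ↔ a ≡ b [MOD n] := by
  have h0 : ξ ≠ 0 := hξ.ne_zero hn
  rw [Nat.modEq_iff_dvd, ← hξ.zpow_eq_one_iff_dvd, zpow_sub₀ h0, zpow_natCast, zpow_natCast,
    div_eq_one_iff_eq (pow_ne_zero _ h0), eq_comm]

/-- adjoining a root of unity of order a power of `p` -/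
theorem pow_pow_fixes (hp : p.Prime) {M : ℕ} {ξ : Ω} (hξ : IsPrimitiveRoot ξ (p ^ (M + 1)))
    {τ : Γ} (hζ : IsPrimitiveRoot ζ p) (hτ : τ ζ = ζ) : (τ ^ p ^ (M + 1)) ξ = ξ := by
  have : NeZero (p ^ (M + 1)) := ⟨pow_ne_zero _ hp.ne_zero⟩
  have : NeZero p := ⟨hp.ne_zero⟩
  obtain ⟨a, -, ha⟩ := hξ.eq_pow_of_pow_eq_one (ξ := τ ξ) (by
    rw [← map_pow, hξ.pow_eq_one, map_one])
  have hpow : ∀ k : ℕ, (τ ^ k) ξ = ξ ^ a ^ k := by
    intro k
    induction k with
    | zero => simp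
    | succ k ih =>
      rw [pow_succ', AlgEquiv.mul_apply, ih, map_pow, ← ha, ← pow_mul, pow_succ']
  -- `a ≡ 1 mod p`
  have hη : IsPrimitiveRoot (ξ ^ p ^ M) p := by
    refine hξ.pow (pow_pos hp.pos _) ?_
    rw [pow_succ]
  have hτη : τ (ξ ^ p ^ M) = ξ ^ p ^ M := by
    obtain ⟨i, -, hi⟩ := hζ.eq_pow_of_pow_eq_one hη.pow_eq_one
    rw [← hi, map_pow, hτ]
  have ha1 : a ≡ 1 [MOD p] := by
    rw [map_pow, ← ha, ← pow_mul, mul_comm, pow_mul] at hτη
    have h1 : (ξ ^ p ^ M) ^ a = (ξ ^ p ^ M) ^ 1 := by rw [hτη, pow_one]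
    exact (root_pow_eq_iff hp.ne_zero hη _ _).1 h1
  have h2 : ((p : ℤ) ^ (M + 1 + 1)) ∣ (a : ℤ) ^ p ^ (M + 1) - 1 ^ p ^ (M + 1) := by
    apply dvd_sub_pow_of_dvd_sub
    have := (Nat.modEq_iff_dvd.1 ha1.symm)
    simpa using this
  have h3 : a ^ p ^ (M + 1) ≡ 1 [MOD p ^ (M + 1)] := by
    apply Nat.ModEq.symm
    rw [Nat.modEq_iff_dvd]
    have h4 : ((p ^ (M + 1) : ℕ) : ℤ) ∣ (p : ℤ) ^ (M + 1 + 1) := by
      push_cast
      exact pow_dvd_pow _ (Nat.le_succ _)
    have := h4.trans h2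
    rw [one_pow] at this
    push_cast at this ⊢
    exact this
  rw [hpow]
  conv_rhs => rw [← pow_one ξ]
  exact (root_pow_eq_iff (pow_ne_zero _ hp.ne_zero) hξ _ _).2 h3

/-- a Galois level adapted to a cochain -/
theorem exists_normal_level_const (hK : K.IsUnramifiedOutside S)
    {f : K.fixingSubgroup × K.fixingSubgroup → ZMod p}
    (hf : LC2 ((ramLevels S).onSub K.fixingSubgroup) f) :
    ∃ E : IntermediateField ℚ Ω, E.IsUnramifiedOutside S ∧ K ≤ E ∧ E.fixingSubgroup.Normal ∧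
      ∀ g g' s s' : K.fixingSubgroup, (s : Γ) ∈ E.fixingSubgroup → (s' : Γ) ∈ E.fixingSubgroup →
        f (g * s, g' * s') = f (g, g') := by
  obtain ⟨V, hV, h⟩ := hf
  obtain ⟨F, hF, hKF, hFV⟩ := exists_eq_fixingSubgroup_sup K hK hV
  obtain ⟨E, hE, hle, hn, -⟩ := H91.exists_normal_levelS hF
  refine ⟨E, hE, hKF.trans hle, hn, fun g g' s s' hs hs' => ?_⟩
  exact h g g' s (hFV s (IntermediateField.fixingSubgroup_antitone hle hs)) s'
    (hFV s' (IntermediateField.fixingSubgroup_antitone hle hs'))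

/-- adjoining a `p`-power root of unity to a level -/
theorem exists_level_adjoin_root [Fact p.Prime] (hpS : ∀ q : Nat.Primes, (q : ℕ) = p → q ∈ S)
    {E : IntermediateField ℚ Ω} (hE : E.IsUnramifiedOutside S) (hn : E.fixingSubgroup.Normal)
    {M : ℕ} {ξ : Ω} (hξ : IsPrimitiveRoot ξ (p ^ M)) :
    ∃ E₁ : IntermediateField ℚ Ω, E₁.IsUnramifiedOutside S ∧ E₁.fixingSubgroup.Normal ∧
      ∀ τ : Γ, τ ∈ E₁.fixingSubgroup ↔ τ ∈ E.fixingSubgroup ∧ τ ξ = ξ := by
  have hp : p.Prime := Fact.out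
  have hpM : p ^ M ≠ 0 := pow_ne_zero _ hp.ne_zero
  have : NeZero (p ^ M) := ⟨hpM⟩
  have : FiniteDimensional ℚ E := hE.1
  have : NumberField E := H64.numberField_of_finiteDimensional E
  have hE₁ : (E ⊔ IntermediateField.adjoin ℚ {ξ}).IsUnramifiedOutside S := by
    refine H64.adjoin_unramified hE ?_
    have h1 : umk ξ (hξ.ne_zero hpM) ∈ unrW S := by
      apply mem_unrW_of_pow_eq hpS M
      apply uval_injective
      rw [uval_nsmul, uval_umk, hξ.pow_eq_one, uval_zero]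
    exact h1
  have hiff : ∀ τ : Γ, τ ∈ (E ⊔ IntermediateField.adjoin ℚ {ξ}).fixingSubgroup ↔
      τ ∈ E.fixingSubgroup ∧ τ ξ = ξ := by
    intro τ
    rw [IntermediateField.fixingSubgroup_sup]
    refine and_congr_right fun _ => ?_
    constructor
    · intro h
      change τ ∈ (IntermediateField.adjoin ℚ {ξ}).fixingSubgroup at h
      rw [IntermediateField.mem_fixingSubgroup_iff] at h
      exact h ξ (IntermediateField.mem_adjoin_simple_self ℚ ξ)
    · intro h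
      change τ ∈ (IntermediateField.adjoin ℚ {ξ}).fixingSubgroup
      rw [← Subgroup.zpowers_le, ← IntermediateField.le_iff_le,
        IntermediateField.adjoin_simple_le_iff, IntermediateField.mem_fixedField_iff]
      intro σ hσ
      have h2 : Subgroup.zpowers τ ≤ MulAction.stabilizer Γ ξ := by
        rw [Subgroup.zpowers_le]
        exact h
      exact h2 hσ
  refine ⟨_, hE₁, ⟨fun τ hτ g => ?_⟩, hiff⟩
  rw [hiff] at hτ ⊢
  refine ⟨hn.conj_mem τ hτ.1 g, ?_⟩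
  obtain ⟨a, -, ha⟩ := hξ.eq_pow_of_pow_eq_one (ξ := g⁻¹ ξ) (by
    rw [← map_pow, hξ.pow_eq_one, map_one])
  have h1 : (g * τ * g⁻¹) ξ = g (τ (g⁻¹ ξ)) := rfl
  rw [h1, ← ha, map_pow, hτ.2, ha]
  exact AlgEquiv.apply_symm_apply g ξ

theorem locTriv [Fact p.Prime] (hζ : IsPrimitiveRoot ζ p) (hζK : ζ ∈ K)
    (hpS : ∀ q : Nat.Primes, (q : ℕ) = p → q ∈ S) (hK : K.IsUnramifiedOutside S)
    {q : Nat.Primes} (hq : q ∉ S) (g : Γ)
    {f : K.fixingSubgroup × K.fixingSubgroup → ZMod p}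
    (hf : f ∈ Z2 ((ramLevels S).onSub K.fixingSubgroup)
      (Representation.trivial (ZMod p) K.fixingSubgroup (ZMod p))) :
    ∃ y : dec (primeLocalToGlobal q) K.fixingSubgroup g → ZMod p,
      LC1 ((krullLevels.comap (primeLocalToGlobal q)).onSub
        (dec (primeLocalToGlobal q) K.fixingSubgroup g)) y ∧
      ∀ s t, y t - y (s * t) + y s =
        f (decHom (primeLocalToGlobal q) K.fixingSubgroup g s,
          decHom (primeLocalToGlobal q) K.fixingSubgroup g t) := by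
  have hp : p.Prime := Fact.out
  obtain ⟨hfc, hfcoc⟩ := hf
  obtain ⟨E, hE, hKE, hEn, hfE⟩ := exists_normal_level_const hK hfc
  have : FiniteDimensional ℚ E := hE.1
  have hEnf : NumberField E := H64.numberField_of_finiteDimensional E
  -- a root of unity moved by the local group
  obtain ⟨M, hM⟩ := exists_fixing_move (embField (embAt (q : ℕ) E g)) hp
  have hpM : p ^ (M + 1) ≠ 0 := pow_ne_zero _ hp.ne_zero
  have : NeZero (p ^ (M + 1)) := ⟨hpM⟩
  obtain ⟨ξ, hξ⟩ := HasEnoughRootsOfUnity.exists_primitiveRoot Ω (p ^ (M + 1))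
  obtain ⟨s₀, hs₀E, hs₀ξ⟩ : ∃ s₀ : primeLocalGaloisGroup q,
      s₀ ∈ (embField (embAt (q : ℕ) E g)).fixingSubgroup ∧
        s₀ • (embComp (q : ℕ) g ξ) ≠ embComp (q : ℕ) g ξ := hM (M + 1) (Nat.le_succ M) (embComp (q : ℕ) g ξ)
    (hξ.map_of_injective (embComp (q : ℕ) g).injective)
  have hs₀V : rloc q g s₀ ∈ E.fixingSubgroup := by
    rw [fixing_embField] at hs₀E
    exact hs₀E
  have hs₀ξ' : rloc q g s₀ ξ ≠ ξ := by
    intro h
    apply hs₀ξ
    have h1 := embComp_rloc q g s₀ ξ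
    rw [h] at h1
    exact h1.symm
  obtain ⟨E₁, hE₁, hE₁n, hE₁iff⟩ := exists_level_adjoin_root hpS hE hEn hξ
  -- the groups
  let D := dec (primeLocalToGlobal q) K.fixingSubgroup g
  have hVD : E.fixingSubgroup.comap (rloc q g) ≤ D := by
    intro s hs
    exact IntermediateField.fixingSubgroup_antitone hKE hs
  let H : Subgroup D := (E.fixingSubgroup.comap (rloc q g)).subgroupOf D
  let H₁ : Subgroup D := (E₁.fixingSubgroup.comap (rloc q g)).subgroupOf D
  have hHn : H.Normal := (hEn.comap (rloc q g)).comap D.subtype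
  have hH₁n : H₁.Normal := (hE₁n.comap (rloc q g)).comap D.subtype
  have hle' : E₁.fixingSubgroup.comap (rloc q g) ≤ E.fixingSubgroup.comap (rloc q g) := by
    intro s hs
    exact ((hE₁iff _).1 hs).1
  have hle : H₁ ≤ H := Subgroup.comap_mono hle'
  obtain ⟨σ, hσD, hσ⟩ := exists_gen_unram hq g (V := E₁.fixingSubgroup) ⟨E₁, hE₁, rfl⟩ hE₁n D
  have hgen : ∀ s : D, ∃ k : ℕ, ∃ v ∈ H₁, s = (⟨σ, hσD⟩ : D) ^ k * v := by
    intro s
    obtain ⟨k, v, hv, hs⟩ := hσ s s.2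
    exact ⟨k, ⟨v, hVD (hle' hv)⟩, hv, Subtype.ext hs⟩
  have hτζ : rloc q g s₀ ζ = ζ :=
    (IntermediateField.mem_fixingSubgroup_iff E _).1 hs₀V ζ (hKE hζK)
  have hdvd : p ∣ H₁.relIndex H := by
    refine dvd_relIndex_of_pow_mem (s := (⟨s₀, hVD hs₀V⟩ : D)) hp hs₀V ?_ (M := M + 1) ?_
    · intro h
      exact hs₀ξ' ((hE₁iff _).1 h).2
    · show rloc q g (s₀ ^ p ^ (M + 1)) ∈ E₁.fixingSubgroup
      have e1 : rloc q g (s₀ ^ p ^ (M + 1)) = (rloc q g s₀) ^ p ^ (M + 1) :=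
        map_pow (rloc q g) s₀ _
      rw [e1, hE₁iff]
      exact ⟨E.fixingSubgroup.pow_mem hs₀V _, pow_pow_fixes hp hξ hζ hτζ⟩
  -- the level family on `D`
  let 𝓥 : LevelFam D := (krullFam.comap (primeLocalToGlobal q)).restrict D
  have hopen : 𝓥.IsOpenSubgroup H₁ := by
    refine ⟨_, ⟨_, ⟨E₁.fixingSubgroup, ⟨E₁, hE₁.1, rfl⟩, rfl⟩, rfl⟩, ?_⟩
    intro s hs
    have h1 : primeLocalToGlobal q (s : primeLocalGaloisGroup q) ∈ E₁.fixingSubgroup := hs
    show rloc q g s ∈ E₁.fixingSubgroup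
    have h2 := hE₁n.conj_mem _ h1 g⁻¹
    rw [inv_inv] at h2
    exact h2
  -- the cocycle
  let ρ : D →* K.fixingSubgroup := decHom (primeLocalToGlobal q) K.fixingSubgroup g
  have hcoc : ∀ a b c : K.fixingSubgroup, f (a * b, c) + f (a, b) = f (b, c) + f (a, b * c) := by
    intro a b c
    have := hfcoc a b c
    rwa [Representation.trivial_apply] at this
  have hf1l : ∀ b, f (1, b) = f (1, 1) := by
    intro b
    have := hcoc 1 1 b
    rw [one_mul, one_mul] at this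
    exact (add_left_cancel this).symm
  have hf1r : ∀ b, f (b, 1) = f (1, 1) := by
    intro b
    have := hcoc b 1 1
    rw [mul_one, mul_one] at this
    exact add_right_cancel this
  let F : D × D → TM p := fun x => (f (ρ x.1, ρ x.2) - f (1, 1) : ZMod p)
  have hF : LevelFam.Inflated H F := by
    refine ⟨fun a b c => ?_, fun h hh b => ?_, fun b h hh => ?_⟩
    · show (f (ρ (a * b), ρ c) - f (1, 1) : ZMod p) + (f (ρ a, ρ b) - f (1, 1)) =
        (f (ρ b, ρ c) - f (1, 1)) + (f (ρ a, ρ (b * c)) - f (1, 1))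
      rw [map_mul, map_mul]
      linear_combination hcoc (ρ a) (ρ b) (ρ c)
    · show (f (ρ h, ρ b) - f (1, 1) : ZMod p) = 0
      have h1 := hfE 1 (ρ b) (ρ h) 1 hh (Subgroup.one_mem _)
      rw [one_mul, mul_one] at h1
      rw [h1, hf1l, sub_self]
    · show (f (ρ b, ρ h) - f (1, 1) : ZMod p) = 0
      have h1 := hfE (ρ b) 1 1 (ρ h) (Subgroup.one_mem _) hh
      rw [one_mul, mul_one] at h1
      rw [h1, hf1r, sub_self]
  obtain ⟨y, hy, hyF⟩ := triv₂_of_cyclic (𝓥 := 𝓥) (p := p) TM_nsmul hle hopen hgen hdvd hF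
  refine ⟨fun s => (show ZMod p from y s) + f (1, 1), ?_, fun s t => ?_⟩
  · have h1 : LC1 (ofFam 𝓥) y := (lc1_ofFam_iff 𝓥 y).2 hy
    have h2 : ofFam 𝓥 = (krullLevels.comap (primeLocalToGlobal q)).onSub D := by
      show ofFam ((krullFam.comap (primeLocalToGlobal q)).comap D.subtype) = _
      rw [ofFam_comap, ofFam_comap]
      rfl
    rw [h2] at h1
    exact h1.comp' (fun a : TM p => (show ZMod p from a) + f (1, 1))
  · have h1 : (show ZMod p from y t) - (show ZMod p from y (s * t)) + (show ZMod p from y s) =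
      f (ρ s, ρ t) - f (1, 1) := hyF s t
    show (show ZMod p from y t) + f (1, 1) - ((show ZMod p from y (s * t)) + f (1, 1)) +
      ((show ZMod p from y s) + f (1, 1)) = f (ρ s, ρ t)
    linear_combination h1

end concrete

end Fermat.Agent.H47
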