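import Mathlib

/-!
# Product formula for binary forms `x² + q y²`, `q ≡ 7 mod 8`
-/

set_option autoImplicit false

namespace Fermat.Agent.H54T

/-- the square criterion in `ℤ_[q]` -/
theorem isSquare_padicInt {q : ℕ} [hq : Fact q.Prime] (hq2 : q ≠ 2) (u : ℤ_[q]) (hu : ‖u‖ = 1)
    (h : IsSquare (PadicInt.toZMod u)) : IsSquare u := by
  obtain ⟨y, hy⟩ := h
  obtain ⟨a, rfl⟩ := ZMod.ringHom_surjective (PadicInt.toZMod (p := q)) y
  have h1 : ‖a * a - u‖ < 1 := by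
    rw [← PadicInt.mem_nonunits, ← IsLocalRing.mem_maximalIdeal, ← PadicInt.ker_toZMod,
      RingHom.mem_ker, map_sub, map_mul, hy, sub_self]
  have h2 : ‖(2 : ℤ_[q])‖ = 1 := by
    have h3 : ((2 : ℕ) : ℤ_[q]) = (2 : ℤ_[q]) := by norm_num
    rw [← h3, PadicInt.norm_natCast_eq_one_iff]
    exact (Nat.coprime_primes hq.out Nat.prime_two).2 hq2
  have ha : ‖a‖ = 1 := by
    by_contra hne
    have ha1 : ‖a‖ < 1 := lt_of_le_of_ne (PadicInt.norm_le_one a) hne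
    have ha2 : ‖a * a‖ < 1 := by
      rw [norm_mul]
      nlinarith [norm_nonneg a]
    have h3 : u = a * a + -(a * a - u) := by ring
    have h4 : ‖u‖ < 1 := by
      calc ‖u‖ = ‖a * a + -(a * a - u)‖ := by rw [← h3]
        _ ≤ max ‖a * a‖ ‖-(a * a - u)‖ := PadicInt.nonarchimedean _ _
        _ < 1 := max_lt ha2 (by rw [norm_neg]; exact h1)
    exact h4.ne hu
  have hF : (Polynomial.X ^ 2 - Polynomial.C u : Polynomial ℤ_[q]).aeval a = a * a - u := by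
    simp [pow_two]
  have hF' : (Polynomial.X ^ 2 - Polynomial.C u : Polynomial ℤ_[q]).derivative.aeval a
      = 2 * a := by
    simp [one_add_one_eq_two]
  obtain ⟨z, hz, -⟩ := hensels_lemma
    (F := (Polynomial.X ^ 2 - Polynomial.C u : Polynomial ℤ_[q])) (a := a) (by
      rw [hF, hF', norm_mul, h2, ha]
      simpa using h1)
  refine ⟨z, ?_⟩
  have h5 : z ^ 2 - u = 0 := by simpa using hz
  linear_combination -h5

/-- norms from an inert quadratic extension have even valuation -/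
theorem norm_form_eq {ℓ : ℕ} [hℓ : Fact ℓ.Prime] {q : ℕ} (hqℓ : ‖(q : ℚ_[ℓ])‖ = 1)
    (hns : ¬ IsSquare (-(q : ZMod ℓ))) (x y : ℚ_[ℓ]) :
    ‖x ^ 2 + q * y ^ 2‖ = (max ‖x‖ ‖y‖) ^ 2 := by
  have hqy : ‖(q : ℚ_[ℓ]) * y ^ 2‖ = ‖y‖ ^ 2 := by rw [norm_mul, hqℓ, one_mul, norm_pow]
  rcases lt_trichotomy ‖x‖ ‖y‖ with h | h | h
  · have h1 : ‖x ^ 2‖ < ‖(q : ℚ_[ℓ]) * y ^ 2‖ := by
      rw [hqy, norm_pow]
      exact pow_lt_pow_left₀ h (norm_nonneg _) two_ne_zero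
    rw [Padic.add_eq_max_of_ne h1.ne, max_eq_right h1.le, hqy, max_eq_right h.le]
  · rw [h, max_self]
    by_cases hy : y = 0
    · subst hy
      have hx : x = 0 := by rwa [norm_zero, norm_eq_zero] at h
      subst hx
      simp
    have hy0 : ‖y‖ ≠ 0 := by rwa [norm_ne_zero_iff]
    have hz : ‖x / y‖ = 1 := by rw [norm_div, h, div_self hy0]
    let z : ℤ_[ℓ] := ⟨x / y, hz.le⟩
    have h1 : ‖z ^ 2 + (q : ℤ_[ℓ])‖ = 1 := by
      by_contra hne
      have h2 : ‖z ^ 2 + (q : ℤ_[ℓ])‖ < 1 := lt_of_le_of_ne (PadicInt.norm_le_one _) hne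
      rw [← PadicInt.mem_nonunits, ← IsLocalRing.mem_maximalIdeal, ← PadicInt.ker_toZMod,
        RingHom.mem_ker, map_add, map_pow, map_natCast] at h2
      apply hns
      refine ⟨PadicInt.toZMod z, ?_⟩
      linear_combination -h2
    have h3 : x ^ 2 + (q : ℚ_[ℓ]) * y ^ 2 = y ^ 2 * ((z ^ 2 + (q : ℤ_[ℓ]) : ℤ_[ℓ]) : ℚ_[ℓ]) := by
      push_cast
      show _ = y ^ 2 * ((x / y) ^ 2 + (q : ℚ_[ℓ]))
      field_simp
    rw [h3, norm_mul, norm_pow]
    have h4 : ‖((z ^ 2 + (q : ℤ_[ℓ]) : ℤ_[ℓ]) : ℚ_[ℓ])‖ = 1 := h1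
    rw [h4, mul_one]
  · have h1 : ‖(q : ℚ_[ℓ]) * y ^ 2‖ < ‖x ^ 2‖ := by
      rw [hqy, norm_pow]
      exact pow_lt_pow_left₀ h (norm_nonneg _) two_ne_zero
    rw [Padic.add_eq_max_of_ne h1.ne', max_eq_left h1.le, norm_pow, max_eq_left h.le]

/-- valuations of values of an anisotropic form are even -/
theorem even_padicValNat {ℓ : ℕ} [hℓ : Fact ℓ.Prime] {q : ℕ} (hqℓ : ‖(q : ℚ_[ℓ])‖ = 1)
    (hns : ¬ IsSquare (-(q : ZMod ℓ))) {n : ℕ} (hn : n ≠ 0) {x y : ℚ_[ℓ]}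
    (h : (n : ℚ_[ℓ]) = x ^ 2 + q * y ^ 2) : Even (padicValNat ℓ n) := by
  have h1 := norm_form_eq hqℓ hns x y
  rw [← h] at h1
  obtain ⟨z, hz⟩ : ∃ z : ℚ_[ℓ], ‖z‖ = max ‖x‖ ‖y‖ := by
    rcases max_choice ‖x‖ ‖y‖ with h | h
    · exact ⟨x, h.symm⟩
    · exact ⟨y, h.symm⟩
  rw [← hz] at h1
  have hn0 : (n : ℚ_[ℓ]) ≠ 0 := by exact_mod_cast hn
  have hz0 : z ≠ 0 := by
    rintro rfl
    rw [norm_zero] at h1
    simp at h1
    exact hn h1
  rw [← norm_pow] at h1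
  have h2 : ‖(n : ℚ_[ℓ])‖ = (ℓ : ℝ) ^ (-((n : ℚ_[ℓ]).valuation)) := Padic.norm_eq_zpow_neg_valuation hn0
  have h3 : ‖z ^ 2‖ = (ℓ : ℝ) ^ (-((z ^ 2).valuation)) :=
    Padic.norm_eq_zpow_neg_valuation (pow_ne_zero 2 hz0)
  rw [h2, h3] at h1
  have h4 := zpow_right_injective₀ (by exact_mod_cast hℓ.out.pos) (by exact_mod_cast hℓ.out.one_lt.ne') h1
  have h5 : (n : ℚ_[ℓ]).valuation = (z ^ 2).valuation := by simpa using h4
  rw [Padic.valuation_natCast, Padic.valuation_pow] at h5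
  have h6 : (padicValNat ℓ n : ℤ) = 2 * z.valuation := by simpa using h5
  have h7 : Even ((padicValNat ℓ n : ℕ) : ℤ) := ⟨z.valuation, by rw [h6]; ring⟩
  exact (Int.even_coe_nat _).1 h7

/-- quadratic reciprocity for `-q`, `q ≡ 3 mod 4` -/
theorem isSquare_of_neg {q ℓ : ℕ} [hq : Fact q.Prime] [hℓ : Fact ℓ.Prime] (hq4 : q % 4 = 3)
    (hℓ2 : ℓ ≠ 2) (hne : q ≠ ℓ) (h : IsSquare (-(q : ZMod ℓ))) : IsSquare (ℓ : ZMod q) := by
  have hq2 : q ≠ 2 := by rintro rfl; norm_num at hq4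
  rcases hℓ.out.eq_two_or_odd with h2 | h2
  · exact absurd h2 hℓ2
  have h4 : ℓ % 4 = 1 ∨ ℓ % 4 = 3 := by omega
  rcases h4 with h4 | h4
  · have h5 : IsSquare (-1 : ZMod ℓ) := by
      rw [ZMod.exists_sq_eq_neg_one_iff]; omega
    have h6 : IsSquare (q : ZMod ℓ) := by
      have := h5.mul h
      rwa [neg_one_mul, neg_neg] at this
    exact (ZMod.exists_sq_eq_prime_iff_of_mod_four_eq_one h4 hq2).1 h6
  · have h5 : ¬ IsSquare (-1 : ZMod ℓ) := by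
      rw [ZMod.exists_sq_eq_neg_one_iff]; omega
    have h6 : ¬ IsSquare (q : ZMod ℓ) := by
      intro h6
      apply h5
      have hq0 : (q : ZMod ℓ) ≠ 0 := by
        intro h0
        rw [ZMod.natCast_eq_zero_iff] at h0
        exact hne ((Nat.prime_dvd_prime_iff_eq hℓ.out hq.out).1 h0).symm
      have : (-1 : ZMod ℓ) = -(q : ZMod ℓ) / (q : ZMod ℓ) := by
        rw [neg_div, div_self hq0]
      rw [this]
      exact h.div h6
    have h7 := (ZMod.exists_sq_eq_prime_iff_of_mod_four_eq_three (p := q) (q := ℓ) hq4 h4 hne)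
    rw [h7]
    exact h6

/-- the product formula for natural numbers -/
theorem isSquare_of_local {q : ℕ} [hq : Fact q.Prime] (hq8 : q % 8 = 7) {n : ℕ} (hn : n ≠ 0)
    (h : ∀ (ℓ : ℕ) [Fact ℓ.Prime], ℓ ≠ q → ℓ ≠ 2 →
      ∃ x y : ℚ_[ℓ], (n : ℚ_[ℓ]) = x ^ 2 + q * y ^ 2) :
    IsSquare ((n / q ^ (padicValNat q n) : ℕ) : ZMod q) := by
  classical
  have hq2 : q ≠ 2 := by rintro rfl; norm_num at hq8
  set m := n / q ^ (padicValNat q n) with hm
  have hnm : n = q ^ (padicValNat q n) * m :=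
    (Nat.mul_div_cancel' pow_padicValNat_dvd).symm
  have hm0 : m ≠ 0 := by
    intro h0
    rw [h0, mul_zero] at hnm
    exact hn hnm
  rw [← Nat.prod_factorization_pow_eq_self hm0, Finsupp.prod, Nat.cast_prod]
  refine Finset.prod_induction _ (fun a => IsSquare a) (fun a b ha hb => ha.mul hb)
    IsSquare.one ?_
  intro ℓ hℓ
  have hℓp : ℓ.Prime := Nat.prime_of_mem_primeFactors hℓ
  have hℓf : Fact ℓ.Prime := ⟨hℓp⟩
  have hℓq : ℓ ≠ q := by
    rintro rfl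
    have h1 : ℓ ∣ m := Nat.dvd_of_mem_primeFactors hℓ
    have h2 := padicValNat.mul (p := ℓ) (pow_ne_zero (padicValNat ℓ n) hℓp.ne_zero) hm0
    rw [← hnm, padicValNat.prime_pow] at h2
    have h3 : padicValNat ℓ m ≠ 0 := by
      have := one_le_padicValNat_of_dvd hm0 h1
      omega
    omega
  push_cast
  by_cases hsq : IsSquare (ℓ : ZMod q)
  · exact hsq.pow _
  · have hval : m.factorization ℓ = padicValNat ℓ n := by
      rw [Nat.factorization_def m hℓp, hnm,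
        padicValNat.mul (p := ℓ) (pow_ne_zero (padicValNat q n) hq.out.ne_zero) hm0,
        padicValNat.pow]
      have : padicValNat ℓ q = 0 := by
        rw [padicValNat.eq_zero_iff]
        right; right
        intro h
        exact hℓq ((Nat.prime_dvd_prime_iff_eq hℓp hq.out).1 h)
      rw [this, mul_zero, zero_add]
    have hℓ2 : ℓ ≠ 2 := by
      rintro rfl
      apply hsq
      have := (ZMod.exists_sq_eq_two_iff hq2).2 (Or.inr hq8)
      exact_mod_cast this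
    obtain ⟨x, y, hxy⟩ := h ℓ hℓq hℓ2
    have hev : Even (padicValNat ℓ n) := by
      refine even_padicValNat ?_ (fun h' => hsq ?_) hn hxy
      · have : ‖((q : ℤ) : ℚ_[ℓ])‖ = 1 := by
          rw [Padic.norm_intCast_eq_one_iff]
          rw [Int.isCoprime_iff_gcd_eq_one, Int.gcd_natCast_natCast]
          exact (Nat.coprime_primes hq.out hℓp).2 hℓq.symm
        simpa using this
      · exact isSquare_of_neg (by omega) hℓ2 hℓq.symm h'
    rw [hval]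
    obtain ⟨k, hk⟩ := hev
    rw [hk]
    exact ⟨_, pow_add _ _ _⟩

/-- **Product formula**: if `t > 0` is of the form `x² + q y²` locally at all odd primes `≠ q`
then it is at `q`. -/
theorem exists_norm_form {q : ℕ} [hq : Fact q.Prime] (hq8 : q % 8 = 7) {t : ℚ} (ht : 0 < t)
    (h : ∀ (ℓ : ℕ) [Fact ℓ.Prime], ℓ ≠ q → ℓ ≠ 2 →
      ∃ x y : ℚ_[ℓ], (t : ℚ_[ℓ]) = x ^ 2 + q * y ^ 2) :
    ∃ x y : ℚ_[q], (t : ℚ_[q]) = x ^ 2 + q * y ^ 2 := by
  have hq2 : q ≠ 2 := by rintro rfl; norm_num at hq8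
  set n : ℕ := t.num.natAbs * t.den with hn
  have hd0 : (t.den : ℚ) ≠ 0 := by exact_mod_cast t.den_ne_zero
  have hnum : ((t.num.natAbs : ℕ) : ℚ) = (t.num : ℚ) := by
    have h0 : ((t.num.natAbs : ℕ) : ℤ) = t.num := Int.natAbs_of_nonneg (Rat.num_nonneg.2 ht.le)
    have h1 : (((t.num.natAbs : ℕ) : ℤ) : ℚ) = (t.num : ℚ) := congrArg (fun z : ℤ => (z : ℚ)) h0
    rw [← h1, Int.cast_natCast]
  have hnt : (n : ℚ) = t * (t.den : ℚ) ^ 2 := by
    rw [hn, Nat.cast_mul, hnum, ← Rat.mul_den_eq_num]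
    ring
  have hn0 : n ≠ 0 := by
    intro h0
    rw [h0] at hnt
    have : t * (t.den : ℚ) ^ 2 = 0 := by rw [← hnt]; simp
    rcases mul_eq_zero.1 this with h1 | h1
    · exact ht.ne' h1
    · exact hd0 (pow_eq_zero_iff (two_ne_zero) |>.1 h1)
  have hsq := isSquare_of_local hq8 hn0 (fun ℓ _ hℓq hℓ2 => by
    obtain ⟨x, y, hxy⟩ := h ℓ hℓq hℓ2
    refine ⟨x * t.den, y * t.den, ?_⟩
    have h1 : ((n : ℚ) : ℚ_[ℓ]) = ((t * (t.den : ℚ) ^ 2 : ℚ) : ℚ_[ℓ]) := by rw [hnt]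
    push_cast at h1
    rw [h1, hxy]
    ring)
  set k := padicValNat q n with hk
  set m := n / q ^ k with hm
  have hnm : n = q ^ k * m := (Nat.mul_div_cancel' pow_padicValNat_dvd).symm
  have hm0 : m ≠ 0 := by
    intro h0
    rw [h0, mul_zero] at hnm
    exact hn0 hnm
  have hmq : ¬ q ∣ m := by
    intro h1
    have h2 := padicValNat.mul (p := q) (pow_ne_zero k hq.out.ne_zero) hm0
    rw [← hnm, padicValNat.prime_pow] at h2
    have h3 : padicValNat q m ≠ 0 := by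
      have := one_le_padicValNat_of_dvd hm0 h1
      omega
    omega
  have hmu : ‖(m : ℤ_[q])‖ = 1 := by
    rw [PadicInt.norm_natCast_eq_one_iff]
    exact (Nat.Prime.coprime_iff_not_dvd hq.out).2 hmq
  obtain ⟨w, hw⟩ := isSquare_padicInt hq2 (m : ℤ_[q]) hmu (by rw [map_natCast]; exact hsq)
  have hw' : (m : ℚ_[q]) = (w : ℚ_[q]) * (w : ℚ_[q]) := by
    have := congrArg (fun z : ℤ_[q] => (z : ℚ_[q])) hw
    simpa using this
  have hd0' : (t.den : ℚ_[q]) ≠ 0 := by exact_mod_cast t.den_ne_zero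
  have ht' : (t : ℚ_[q]) = (q : ℚ_[q]) ^ k * ((w : ℚ_[q]) / t.den) ^ 2 := by
    have h1 : ((n : ℚ) : ℚ_[q]) = ((t * (t.den : ℚ) ^ 2 : ℚ) : ℚ_[q]) := by rw [hnt]
    push_cast at h1
    have h2 : (n : ℚ_[q]) = (q : ℚ_[q]) ^ k * m := by
      have := congrArg (fun z : ℕ => (z : ℚ_[q])) hnm
      simpa using this
    rw [h2, hw'] at h1
    rw [div_pow, mul_div_assoc', eq_div_iff (pow_ne_zero 2 hd0')]
    rw [← h1]
    ring
  rcases Nat.even_or_odd' k with ⟨j, hj | hj⟩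
  · refine ⟨(q : ℚ_[q]) ^ j * ((w : ℚ_[q]) / t.den), 0, ?_⟩
    rw [ht', hj]
    ring
  · refine ⟨0, (q : ℚ_[q]) ^ j * ((w : ℚ_[q]) / t.den), ?_⟩
    rw [ht', hj]
    ring

end Fermat.Agent.H54T
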