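import Mathlib
import Fermat.Agent.H54THasse
import Fermat.Agent.H91Arith
import Fermat.Agent.H91IsoB

/-!
# The Hasse principle for two-power torsion classes over totally complex fields
-/

set_option autoImplicit false
set_option maxSynthPendingDepth 3

namespace Fermat.Agent.H54T

open ExtCitation Fermat.Agent.H54 Fermat.Agent.H55 Fermat.Agent.H91 Fermat.Agent.H7
open IsDedekindDomain NumberField Module IntermediateField LevelFam
open groupCohomology (IsCocycle₁ IsCocycle₂)

attribute [local instance] factNatPrimes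

/-- A number field containing a square root of a negative rational number is totally complex. -/
theorem isTotallyComplex_of_sq_neg (K : Type*) [Field K] [NumberField K] {s : K} {n : ℕ}
    (hn : 0 < n) (hs : s ^ 2 = -(n : K)) : IsTotallyComplex K := by
  refine ⟨fun v => ?_⟩
  rw [← InfinitePlace.not_isReal_iff_isComplex]
  intro hv
  have hr : ComplexEmbedding.IsReal v.embedding := by
    rwa [InfinitePlace.isReal_iff] at hv
  have h1 : (starRingEnd ℂ) (v.embedding s) = v.embedding s := by
    have := RingHom.congr_fun hr s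
    simpa using this
  obtain ⟨r, hr'⟩ := Complex.conj_eq_iff_real.1 h1
  have h2 : (v.embedding s) ^ 2 = -(n : ℂ) := by
    rw [← map_pow, hs, map_neg, map_natCast]
  rw [hr'] at h2
  have h3 : r ^ 2 = -(n : ℝ) := by exact_mod_cast h2
  have h4 : (0 : ℝ) < n := by exact_mod_cast hn
  nlinarith [sq_nonneg r]

/-- **The Hasse norm theorem in group form** (`p` arbitrary, totally complex fields). -/
theorem hasseNorm_arith {p : ℕ} (hp : p.Prime) {U₀ : Subgroup GQ}
    {ζ : Qb} (hζ : IsPrimitiveRoot ζ p) (hU₀ : ∀ u ∈ U₀, u ζ = ζ)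
    {s : Qb} {n : ℕ} (hn0 : 0 < n) (hs : s ^ 2 = -(n : Qb)) (hU₀s : ∀ u ∈ U₀, u s = s) :
    arithLoc.HasseNorm p U₀ := by
  have hpf : Fact p.Prime := ⟨hp⟩
  intro U H hU hUo hHo hle hn hi x hx hloc σ hσU hσH
  obtain ⟨K, hKfin, rfl⟩ := (op_krullLevels_iff U).1 hUo
  obtain ⟨L, hLfin, rfl⟩ := (op_krullLevels_iff H).1 hHo
  have hKL : K ≤ L := le_of_fixingSubgroup_le hle
  have hζK : ζ ∈ K := mem_of_fixed fun s hs => hU₀ s (hU hs)
  have hsK : s ∈ K := mem_of_fixed fun u hu => hU₀s u (hU hu)
  have hxK : uval x ∈ K := mem_of_fixed fun s hs => by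
    have := congrArg uval (hx s hs)
    rwa [uval_smul] at this
  have hNK : NumberField K := numberField_of_finite K
  have hNL : NumberField (extendScalars hKL) := numberField_of_finite L
  have hGal : IsGalois K (extendScalars hKL) := isGalois_ext hKL hn
  have hfr : finrank K (extendScalars hKL) = p := by rw [finrank_ext, hi]
  have hζ' : IsPrimitiveRoot (⟨ζ, hζK⟩ : K) p :=
    IsPrimitiveRoot.of_map_of_injective (f := algebraMap K Qb) hζ (algebraMap K Qb).injective
  have htc : IsTotallyComplex K := isTotallyComplex_of_sq_neg K (s := ⟨s, hsK⟩) hn0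
    (Subtype.ext hs)
  let x' : Kˣ := Units.mk0 ⟨uval x, hxK⟩ (fun h => uval_ne_zero x (congrArg Subtype.val h))
  have key : ∀ v : HeightOneSpectrum (𝓞 K), H82.NonSplit (extendScalars hKL) v →
      ∀ m, x' ∈ H82.locNorm (extendScalars hKL) v m := by
    intro v hv
    obtain ⟨q, hq⟩ := exists_prime_mem v
    obtain ⟨g, hg⟩ := exists_placeOf_embAt_eq (q : ℕ) K v hq
    subst hg
    have hns := exists_of_nonSplit q g hp hKL hfr hv
    obtain ⟨s, hsK, hsL, b, hb, hbx⟩ := hloc (q, g) hns
    rw [mem_locNorm_iff_group q g hp hKL hζ hζK hn hi hsK hsL]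
    exact ⟨b, hb, congrArg uval hbx⟩
  obtain ⟨y, hy⟩ := hasse_norm hζ' hfr x' key
  have hy0 : ((y : extendScalars hKL) : Qb) ≠ 0 := fun h => y.ne_zero (Subtype.ext h)
  refine ⟨umk _ hy0, fun h hh => ?_, ?_⟩
  · apply uval_injective
    rw [uval_smul, uval_umk]
    rw [IntermediateField.mem_fixingSubgroup_iff] at hh
    exact hh _ (y : extendScalars hKL).2
  · apply uval_injective
    rw [nrm_uval, uval_umk]
    have h1 := norm_ext_eq_prod hKL hp hn hi hσU hσH (y : extendScalars hKL)
    have h2 : Algebra.norm K (y : extendScalars hKL) = ⟨uval x, hxK⟩ := congrArg Units.val hy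
    rw [h2] at h1
    exact h1

end Fermat.Agent.H54T
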