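import Mathlib
import Fermat.Agent.H54TPrinc
import Fermat.Agent.H54TNum

/-!
# Reciprocity for two-torsion classes of `H²(G_ℚ, ℚ̄ˣ)`
-/

set_option autoImplicit false
set_option maxSynthPendingDepth 3

namespace Fermat.Agent.H54T

open ExtCitation Fermat.Agent.H54 Fermat.Agent.H55 Fermat.Agent.H91 Fermat.Agent.H7
open IsDedekindDomain NumberField Module IntermediateField LevelFam
open groupCohomology (IsCocycle₁ IsCocycle₂)

attribute [local instance] factNatPrimes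

section quad

variable {q : Nat.Primes} {s : Qb} (hs : s ^ 2 = -((q : ℕ) : Qb))

include hs

lemma s_ne_zero : s ≠ 0 := by
  rintro rfl
  rw [zero_pow two_ne_zero, eq_comm, neg_eq_zero, Nat.cast_eq_zero] at hs
  exact q.2.ne_zero hs

lemma apply_s (u : GQ) : u s = s ∨ u s = -s := by
  have h1 : (u s) ^ 2 = s ^ 2 := by
    rw [← map_pow, hs, map_neg, map_natCast]
  exact sq_eq_sq_iff_eq_or_eq_neg.1 h1

lemma apply_s_of_notMem {u : GQ} (hu : u ∉ kumSub ⊤ s) : u s = -s :=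
  (apply_s hs u).resolve_left (fun h => hu ⟨trivial, h⟩)

lemma neg_s_ne : -s ≠ s := by
  intro h
  have h0 := s_ne_zero hs
  have : (2 : Qb) * s = 0 := by linear_combination -h
  rcases mul_eq_zero.1 this with h1 | h1
  · exact two_ne_zero h1
  · exact h0 h1

lemma kumSub_s_normal : ((kumSub (⊤ : Subgroup GQ) s).subgroupOf ⊤).Normal :=
  kumSub_normal (p := 2) (IsPrimitiveRoot.neg_one 0 (by norm_num)) (by intro u _; simp)
    (s_ne_zero hs) (by intro u _; rw [hs, map_neg, map_natCast])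

lemma kumSub_s_relIndex (hne : ∃ u : GQ, u s ≠ s) :
    (kumSub (⊤ : Subgroup GQ) s).relIndex ⊤ = 2 :=
  kumSub_relIndex (p := 2) (IsPrimitiveRoot.neg_one 0 (by norm_num)) (by intro u _; simp)
    (s_ne_zero hs) (by intro u _; rw [hs, map_neg, map_natCast])
    (by obtain ⟨u, hu⟩ := hne; exact ⟨u, trivial, hu⟩)

end quad

section localfix

variable (ℓ : Nat.Primes)

/-- elements fixed by the whole local group are `ℓ`-adic numbers -/
lemma exists_padic_of_fixed {x : PadicAlgCl (ℓ : ℕ)}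
    (h : ∀ d : primeLocalGaloisGroup ℓ, d • x = x) :
    ∃ a : ℚ_[(ℓ : ℕ)], algebraMap ℚ_[(ℓ : ℕ)] (PadicAlgCl (ℓ : ℕ)) a = x := by
  have : IsGalois ℚ_[(ℓ : ℕ)] (PadicAlgCl (ℓ : ℕ)) := ⟨⟩
  have h1 : x ∈ (⊥ : IntermediateField ℚ_[(ℓ : ℕ)] (PadicAlgCl (ℓ : ℕ))) :=
    mem_of_fixed fun d _ => h d
  exact IntermediateField.mem_bot.1 h1

lemma smul_algebraMap_padic (d : primeLocalGaloisGroup ℓ) (a : ℚ_[(ℓ : ℕ)]) :
    d • algebraMap ℚ_[(ℓ : ℕ)] (PadicAlgCl (ℓ : ℕ)) a = algebraMap _ _ a :=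
  AlgEquiv.commutes d a

/-- a nonzero rational number as an element of `ℚ̄` seen locally -/
lemma embComp_rat (g : GQ) (t : ℚ) :
    embComp (ℓ : ℕ) g (algebraMap ℚ Qb t) =
      algebraMap ℚ_[(ℓ : ℕ)] (PadicAlgCl (ℓ : ℕ)) (t : ℚ_[(ℓ : ℕ)]) := by
  have h1 : ((embComp (ℓ : ℕ) g : Qb →+* PadicAlgCl (ℓ : ℕ)).comp (algebraMap ℚ Qb)) =
      (algebraMap ℚ_[(ℓ : ℕ)] (PadicAlgCl (ℓ : ℕ))).comp (algebraMap ℚ ℚ_[(ℓ : ℕ)]) :=
    Subsingleton.elim _ _
  exact RingHom.congr_fun h1 t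

end localfix

section main

variable {q : Nat.Primes} {s : Qb} (hs : s ^ 2 = -((q : ℕ) : Qb))

include hs

lemma embComp_s_sq (ℓ : Nat.Primes) (g : GQ) :
    (embComp (ℓ : ℕ) g s) ^ 2 = -((q : ℕ) : PadicAlgCl (ℓ : ℕ)) := by
  rw [← map_pow, hs, map_neg, map_natCast]

lemma embComp_s_ne_zero (ℓ : Nat.Primes) (g : GQ) : embComp (ℓ : ℕ) g s ≠ 0 := by
  rw [map_ne_zero]
  exact s_ne_zero hs

lemma smul_embComp_s (ℓ : Nat.Primes) (g : GQ) {d : primeLocalGaloisGroup ℓ}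
    (hd : rloc ℓ g d ∉ kumSub ⊤ s) : d • embComp (ℓ : ℕ) g s = -embComp (ℓ : ℕ) g s := by
  rw [← embComp_rloc, apply_s_of_notMem hs hd, map_neg]

omit hs in
lemma smul_embComp_s' (ℓ : Nat.Primes) (g : GQ) {d : primeLocalGaloisGroup ℓ}
    (hd : rloc ℓ g d ∈ kumSub ⊤ s) : d • embComp (ℓ : ℕ) g s = embComp (ℓ : ℕ) g s := by
  rw [← embComp_rloc]
  exact congrArg _ hd.2

omit hs in
lemma uval_nrm_two (ℓ : Nat.Primes) (d : primeLocalGaloisGroup ℓ)
    (b : Additive (PadicAlgCl (ℓ : ℕ))ˣ) : uval (nrm d 2 b) = uval b * d • uval b := by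
  rw [nrm_uval, Finset.prod_range_succ, Finset.prod_range_succ, Finset.prod_range_zero,
        one_mul, pow_zero, one_smul, pow_one]

/-- products of two local elements of `kumSub` complement -/
lemma mul_mem_kumSub {u v : GQ} (hu : u ∉ kumSub ⊤ s) (hv : v ∉ kumSub ⊤ s) :
    u * v ∈ kumSub ⊤ s := by
  refine ⟨trivial, ?_⟩
  show u (v s) = s
  rw [apply_s_of_notMem hs hv, map_neg, apply_s_of_notMem hs hu, neg_neg]

/-- local norms from `ℚ_ℓ(√-q)` are values of the form `x² + q y²` -/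
theorem exists_form_of_norm (ℓ : Nat.Primes) (g : GQ) {t : ℚ} {d : primeLocalGaloisGroup ℓ}
    (hd : rloc ℓ g d ∉ kumSub ⊤ s) {B : PadicAlgCl (ℓ : ℕ)}
    (hB : ∀ h : primeLocalGaloisGroup ℓ, rloc ℓ g h ∈ kumSub ⊤ s → h • B = B)
    (ht : embComp (ℓ : ℕ) g (algebraMap ℚ Qb t) = B * d • B) :
    ∃ x y : ℚ_[(ℓ : ℕ)], (t : ℚ_[(ℓ : ℕ)]) = x ^ 2 + (q : ℕ) * y ^ 2 := by
  set S := embComp (ℓ : ℕ) g s with hS
  have hS0 : S ≠ 0 := embComp_s_ne_zero hs ℓ g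
  have hSsq : S ^ 2 = -((q : ℕ) : PadicAlgCl (ℓ : ℕ)) := embComp_s_sq hs ℓ g
  have h20 : (2 : PadicAlgCl (ℓ : ℕ)) ≠ 0 := two_ne_zero
  have hdinv : rloc ℓ g d⁻¹ ∉ kumSub ⊤ s := by
    intro h
    apply hd
    rw [map_inv] at h
    exact (Subgroup.inv_mem_iff _).1 h
  -- the action on `B` and `d • B`
  have hin : ∀ h : primeLocalGaloisGroup ℓ, rloc ℓ g h ∈ kumSub ⊤ s →
      h • (d • B) = d • B := by
    intro h hh
    have h1 : rloc ℓ g (h * d) ∉ kumSub ⊤ s := by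
      intro h2
      apply hd
      rw [map_mul] at h2
      exact (Subgroup.mul_mem_cancel_left _ hh).1 h2
    have h3 : rloc ℓ g (d⁻¹ * (h * d)) ∈ kumSub ⊤ s := by
      rw [map_mul]
      exact mul_mem_kumSub hs hdinv h1
    have h4 := hB _ h3
    rw [smul_smul]
    have h5 : h * d = d * (d⁻¹ * (h * d)) := by group
    rw [h5, mul_smul, h4]
  have hout : ∀ h : primeLocalGaloisGroup ℓ, rloc ℓ g h ∉ kumSub ⊤ s →
      h • B = d • B ∧ h • (d • B) = B := by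
    intro h hh
    constructor
    · have h3 : rloc ℓ g (d⁻¹ * h) ∈ kumSub ⊤ s := by
        rw [map_mul]
        exact mul_mem_kumSub hs hdinv hh
      have h4 := hB _ h3
      have h5 : h = d * (d⁻¹ * h) := by group
      rw [h5, mul_smul, h4]
    · rw [smul_smul]
      refine hB _ ?_
      rw [map_mul]
      exact mul_mem_kumSub hs hh hd
  have h2fix : ∀ h : primeLocalGaloisGroup ℓ, h • (2 : PadicAlgCl (ℓ : ℕ)) = 2 := by
    intro h
    have := smul_algebraMap_padic ℓ h 2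
    rwa [map_ofNat] at this
  obtain ⟨x, hx⟩ := exists_padic_of_fixed ℓ (x := (B + d • B) / 2) (fun h => by
    by_cases hh : rloc ℓ g h ∈ kumSub ⊤ s
    · rw [smul_div₀', smul_add, hB h hh, hin h hh, h2fix]
    · rw [smul_div₀', smul_add, (hout h hh).1, (hout h hh).2, h2fix, add_comm])
  obtain ⟨y, hy⟩ := exists_padic_of_fixed ℓ (x := (B - d • B) / (2 * S)) (fun h => by
    by_cases hh : rloc ℓ g h ∈ kumSub ⊤ s
    · rw [smul_div₀', smul_sub, smul_mul', hB h hh, hin h hh, h2fix, hS, smul_embComp_s' ℓ g hh]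
    · rw [smul_div₀', smul_sub, smul_mul', (hout h hh).1, (hout h hh).2, h2fix, hS,
        smul_embComp_s hs ℓ g hh, ← hS, mul_neg, div_neg, ← neg_div, neg_sub])
  refine ⟨x, y, ?_⟩
  apply (algebraMap ℚ_[(ℓ : ℕ)] (PadicAlgCl (ℓ : ℕ))).injective
  rw [← embComp_rat ℓ g t, ht, map_add, map_mul, map_pow, map_pow, hx, hy, map_natCast]
  have hq' : ((q : ℕ) : PadicAlgCl (ℓ : ℕ)) = -S ^ 2 := by rw [hSsq, neg_neg]
  rw [hq']
  field_simp
  ring

/-- the split case -/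
theorem exists_form_of_fixed (ℓ : Nat.Primes) (g : GQ) (t : ℚ)
    (h : ∀ d : primeLocalGaloisGroup ℓ, rloc ℓ g d ∈ kumSub ⊤ s) :
    ∃ x y : ℚ_[(ℓ : ℕ)], (t : ℚ_[(ℓ : ℕ)]) = x ^ 2 + (q : ℕ) * y ^ 2 := by
  obtain ⟨z, hz⟩ := exists_padic_of_fixed ℓ (x := embComp (ℓ : ℕ) g s)
    (fun d => smul_embComp_s' ℓ g (h d))
  have hz2 : z ^ 2 = -((q : ℕ) : ℚ_[(ℓ : ℕ)]) := by
    apply (algebraMap ℚ_[(ℓ : ℕ)] (PadicAlgCl (ℓ : ℕ))).injective
    rw [map_pow, hz, embComp_s_sq hs ℓ g, map_neg, map_natCast]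
  have hz0 : z ≠ 0 := by
    rintro rfl
    rw [map_zero] at hz
    exact embComp_s_ne_zero hs ℓ g hz.symm
  refine ⟨((t : ℚ_[(ℓ : ℕ)]) + 1) / 2, ((t : ℚ_[(ℓ : ℕ)]) - 1) / (2 * z), ?_⟩
  have hq' : ((q : ℕ) : ℚ_[(ℓ : ℕ)]) = -z ^ 2 := by rw [hz2, neg_neg]
  rw [hq']
  field_simp
  ring

/-- conversely, values of the form are local norms -/
theorem exists_nrm_of_form (ℓ : Nat.Primes) (g : GQ) {t : ℚ} {T : Additive Qbˣ}
    (ht : algebraMap ℚ Qb t = uval T) (ht0 : t ≠ 0) {a b : ℚ_[(ℓ : ℕ)]}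
    (hab : (t : ℚ_[(ℓ : ℕ)]) = a ^ 2 + (q : ℕ) * b ^ 2) {d : primeLocalGaloisGroup ℓ}
    (hd : rloc ℓ g d ∉ kumSub ⊤ s) :
    ∃ b : Additive (PadicAlgCl (ℓ : ℕ))ˣ,
      (∀ h : primeLocalGaloisGroup ℓ, rloc ℓ g h ∈ kumSub ⊤ s → h • b = b) ∧
        jloc ℓ g T = nrm d 2 b := by
  set S := embComp (ℓ : ℕ) g s with hS
  set aa := algebraMap ℚ_[(ℓ : ℕ)] (PadicAlgCl (ℓ : ℕ)) a with haa
  set bb := algebraMap ℚ_[(ℓ : ℕ)] (PadicAlgCl (ℓ : ℕ)) b with hbb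
  have hSsq : S ^ 2 = -((q : ℕ) : PadicAlgCl (ℓ : ℕ)) := embComp_s_sq hs ℓ g
  have hab' : (algebraMap ℚ_[(ℓ : ℕ)] (PadicAlgCl (ℓ : ℕ)) (t : ℚ_[(ℓ : ℕ)])) =
      (aa + bb * S) * (aa - bb * S) := by
    rw [hab, map_add, map_mul, map_pow, map_pow, map_natCast]
    have hq' : ((q : ℕ) : PadicAlgCl (ℓ : ℕ)) = -S ^ 2 := by rw [hSsq, neg_neg]
    rw [hq']
    ring
  have ht0 : (algebraMap ℚ_[(ℓ : ℕ)] (PadicAlgCl (ℓ : ℕ)) (t : ℚ_[(ℓ : ℕ)])) ≠ 0 := by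
    rw [map_ne_zero]
    exact_mod_cast ht0
  have hne : aa + bb * S ≠ 0 := by
    intro h0
    rw [hab', h0, zero_mul] at ht0
    exact ht0 rfl
  refine ⟨umk (aa + bb * S) hne, fun h hh => ?_, ?_⟩
  · apply uval_injective
    rw [uval_smul, uval_umk, smul_add, smul_mul', haa, hbb, smul_algebraMap_padic,
      smul_algebraMap_padic, hS, smul_embComp_s' ℓ g hh]
  · apply uval_injective
    have h1 : uval (jloc ℓ g T) = embComp (ℓ : ℕ) g (algebraMap ℚ Qb t) := by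
      rw [ht]
      rfl
    rw [h1, embComp_rat, hab', uval_nrm_two, uval_umk]
    have h2 : d • (aa + bb * S) = aa - bb * S := by
      rw [smul_add, smul_mul', haa, hbb, smul_algebraMap_padic,
        smul_algebraMap_padic, hS, smul_embComp_s hs ℓ g hd]
      ring
    rw [h2]

end main

/-- transfer of local triviality along an equality of local groups -/
lemma trivAt_of_comap_le {i : arithLoc.ι} {U H : Subgroup GQ}
    (hle : U.comap (arithLoc.r i) ≤ H.comap (arithLoc.r i)) {f : GQ × GQ → Additive Qbˣ}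
    (h : arithLoc.TrivAt i H f) : arithLoc.TrivAt i U f := by
  have := h.pull (Subgroup.inclusion hle) (AddMonoidHom.id _) (fun _ _ => rfl)
  rw [LevelFam.comap_comap] at this
  exact this

/-- **Reciprocity**: a two-torsion class which is trivial at infinity and at all primes `≠ q`, and
over `ℚ_q(√-q)`, is trivial at `q`. -/
theorem trivAt_of_rec (q : Nat.Primes) (hq8 : (q : ℕ) % 8 = 7) {s : Qb}
    (hs : s ^ 2 = -((q : ℕ) : Qb)) {F : GQ × GQ → Additive Qbˣ}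
    (hF : IsCocycle₂ F) (hc : krullFam.IsConst₂ F) (h2 : ∀ x, (2 : ℕ) • F x = 0)
    (hloc : ∀ (ℓ : Nat.Primes) (g : GQ), ℓ ≠ q → arithLoc.TrivAt (ℓ, g) ⊤ F)
    (hlocq : ∀ g, arithLoc.TrivAt (q, g) (kumSub ⊤ s) F)
    {c : GQ} {ι : Qb →+* ℂ} (hcι : ∀ x, ι (c x) = starRingEnd ℂ (ι x))
    (hinf : F (c, c) = F (1, 1)) (g : GQ) : arithLoc.TrivAt (q, g) ⊤ F := by
  classical
  have hcc : c * c = 1 := by
    ext x
    apply ι.injective
    show ι (c (c x)) = ι x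
    rw [hcι, hcι, Complex.conj_conj]
  -- `c` moves `s`
  have hcs : c s ≠ s := by
    intro h
    have h1 := hcι s
    rw [h] at h1
    obtain ⟨r, hr⟩ := Complex.conj_eq_iff_real.1 h1.symm
    have h3 : (ι s) ^ 2 = -((q : ℕ) : ℂ) := by rw [← map_pow, hs, map_neg, map_natCast]
    rw [hr] at h3
    have h4 : r ^ 2 = -((q : ℕ) : ℝ) := by exact_mod_cast h3
    have h5 : (0 : ℝ) < ((q : ℕ) : ℝ) := by exact_mod_cast q.2.pos
    nlinarith [sq_nonneg r]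
  have hcH : c ∉ kumSub ⊤ s := fun h => hcs h.2
  have hn := kumSub_s_normal hs
  have hi := kumSub_s_relIndex hs ⟨c, hcs⟩
  have htop : krullFam.IsOpenSubgroup (⊤ : Subgroup GQ) := isOpenSubgroup_top
  have hHo : krullFam.IsOpenSubgroup (kumSub ⊤ s) := kumSub_open htop s
  have hle : kumSub ⊤ s ≤ ⊤ := le_top
  have hHH : ∀ H : Subgroup GQ, krullFam.IsOpenSubgroup H → (krullFam.restrict H).H90
      (Additive Qbˣ) := fun H _ => (faithfulOn_krullFam.restrict H).h90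
  have hζ : IsPrimitiveRoot (-1 : Qb) 2 := IsPrimitiveRoot.neg_one 0 (by norm_num)
  have hHN : arithLoc.HasseNorm 2 (kumSub ⊤ s) :=
    hasseNorm_arith Nat.prime_two hζ (by intro u _; simp) q.2.pos hs (fun u hu => hu.2)
  have hF1 : IsCocycle₂ (res₂ (⊤ : Subgroup GQ) F) := fun a b c => hF a b c
  have hc1 : (krullFam.restrict ⊤).IsConst₂ (res₂ (⊤ : Subgroup GQ) F) :=
    hc.comap (⊤ : Subgroup GQ).subtype
  have hpF : (2 : ℕ) • res₂ (kumSub ⊤ s) F = 0 := by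
    funext x
    exact h2 _
  have hFH : (krullFam.restrict (kumSub ⊤ s)).Triv₂ (res₂ (kumSub ⊤ s) F) := by
    refine LocData.triv₂_of_forall_trivAt arithLoc smooth_krullFam hHH hHN le_rfl hHo
      (isCocycle₂_res_of_le hle hF1) (isConst₂_res_of_le hle hc1) ?_ ?_
    · rw [hpF]
      exact ⟨0, isConst₁_const 0, fun a b => by simp [dd_apply]⟩
    · rintro ⟨ℓ, g⟩
      by_cases hℓ : ℓ = q
      · subst hℓ
        exact hlocq g
      · exact (hloc ℓ g hℓ).mono arithLoc hle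
  obtain ⟨x, hx, hInf⟩ := LocData.exists_inflated_sub smooth_krullFam hHo hle hn (hHH _ hHo)
    hF1 hc1 hFH
  obtain ⟨T, hT⟩ : ∃ T, T = tinv (res₂ ⊤ F - dd x) (⟨c, trivial⟩ : (⊤ : Subgroup GQ)) 2 :=
    ⟨_, rfl⟩
  have hcH' : (⟨c, trivial⟩ : (⊤ : Subgroup GQ)) ∉ (kumSub ⊤ s).subgroupOf ⊤ := hcH
  have hTfix : ∀ u : (⊤ : Subgroup GQ), u • T = T := by
    intro u
    rw [hT]
    exact Inflated.tinv_fixed hInf ((pow_mem_iff_of_index hi hcH' 2).2 dvd_rfl)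
      (gen_of_index hi hcH') u
  have hTQ : uval T ∈ (⊥ : IntermediateField ℚ Qb) := mem_of_fixed fun u _ => by
    have := congrArg uval (hTfix ⟨u, trivial⟩)
    exact this
  obtain ⟨t, ht⟩ := IntermediateField.mem_bot.1 hTQ
  -- positivity
  have hTval : T = -(c • x ⟨c, trivial⟩ + x ⟨c, trivial⟩) := by
    have e1 : (res₂ (⊤ : Subgroup GQ) F - dd x) (1, ⟨c, trivial⟩) = 0 :=
      hInf.left 1 (one_mem _) _
    have e2 : (res₂ (⊤ : Subgroup GQ) F - dd x) (1, 1) = 0 := hInf.left 1 (one_mem _) _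
    have e3 : F (1, 1) - ((1 : (⊤ : Subgroup GQ)) • x 1 - x (1 * 1) + x 1) = 0 := e2
    rw [one_smul, one_mul, sub_self, zero_add] at e3
    have e4 : T = (res₂ (⊤ : Subgroup GQ) F - dd x) (1, ⟨c, trivial⟩) +
        (res₂ (⊤ : Subgroup GQ) F - dd x) (⟨c, trivial⟩, ⟨c, trivial⟩) := by
      rw [hT, tinv, Finset.sum_range_succ, Finset.sum_range_succ, Finset.sum_range_zero, zero_add,
        pow_zero, pow_one]
    have e5 : (res₂ (⊤ : Subgroup GQ) F - dd x) (⟨c, trivial⟩, ⟨c, trivial⟩) =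
        F (c, c) - (c • x ⟨c, trivial⟩ - x 1 + x ⟨c, trivial⟩) := by
      have : ((⟨c, trivial⟩ : (⊤ : Subgroup GQ)) * ⟨c, trivial⟩) = 1 := Subtype.ext hcc
      show F (c, c) - ((⟨c, trivial⟩ : (⊤ : Subgroup GQ)) • x ⟨c, trivial⟩ -
        x (⟨c, trivial⟩ * ⟨c, trivial⟩) + x ⟨c, trivial⟩) = _
      rw [this]
      rfl
    have e6 := h2 (1, 1)
    rw [two_nsmul] at e6
    rw [e4, e1, e5, hinf]
    linear_combination (norm := abel) e6 - e3
  have htpos : 0 < t := by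
    set z := uval (x ⟨c, trivial⟩) with hz
    have h1 : uval T = (c z * z)⁻¹ := by
      rw [hTval, uval_neg, uval_add, uval_smul]
      rfl
    have h3 : ι (algebraMap ℚ Qb t) = (t : ℂ) := by
      have : (ι.comp (algebraMap ℚ Qb)) = algebraMap ℚ ℂ := Subsingleton.elim _ _
      exact RingHom.congr_fun this t
    rw [ht, h1, map_inv₀, map_mul, hcι, mul_comm, Complex.mul_conj] at h3
    have h4 : ((Complex.normSq (ι z))⁻¹ : ℝ) = (t : ℝ) := by exact_mod_cast h3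
    have h5 : 0 < Complex.normSq (ι z) := by
      rw [Complex.normSq_pos, map_ne_zero]
      exact uval_ne_zero _
    have h6 : (0 : ℝ) < t := by rw [← h4]; positivity
    exact_mod_cast h6
  -- local conditions
  have hform : ∀ (ℓ : ℕ) [Fact ℓ.Prime], ℓ ≠ (q : ℕ) → ℓ ≠ 2 →
      ∃ x y : ℚ_[ℓ], (t : ℚ_[ℓ]) = x ^ 2 + (q : ℕ) * y ^ 2 := by
    intro ℓ' hℓf hℓq _
    obtain ⟨ℓ, rfl⟩ : ∃ ℓ : Nat.Primes, (ℓ : ℕ) = ℓ' := ⟨⟨ℓ', hℓf.out⟩, rfl⟩
    have hne : ℓ ≠ q := fun h => hℓq (by rw [h])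
    by_cases hns : ∃ d : primeLocalGaloisGroup ℓ, rloc ℓ 1 d ∉ kumSub ⊤ s
    · obtain ⟨s₀, hs₀⟩ := hns
      obtain ⟨d, -, hd, b, hb, hbT⟩ := arithLoc.local_norm hle hn hi hx hInf
        (σ := (⟨c, trivial⟩ : (⊤ : Subgroup GQ))) hcH (ℓ, 1) (hloc ℓ 1 hne)
        (s₀ := s₀) trivial hs₀
      refine exists_form_of_norm hs ℓ 1 (t := t) (d := d) hd (B := uval b)
        (fun h hh => congrArg uval (hb h hh)) ?_
      rw [← hT] at hbT
      have h1 : uval (jloc ℓ 1 T) = uval (nrm (G := primeLocalGaloisGroup ℓ)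
        (A := Additive (PadicAlgCl (ℓ : ℕ))ˣ) d 2 b) := congrArg uval hbT
      rw [uval_nrm_two] at h1
      rw [ht]
      exact h1
    · push Not at hns
      exact exists_form_of_fixed hs ℓ 1 t hns
  obtain ⟨a, b, hab⟩ := exists_norm_form (q := (q : ℕ)) hq8 htpos hform
  -- conclusion at `q`
  by_cases hns : ∃ d : primeLocalGaloisGroup q, rloc q g d ∉ kumSub ⊤ s
  · obtain ⟨s₀, hs₀⟩ := hns
    refine trivAt_of_norm arithLoc hHo hn hi hx hInf (σ := (⟨c, trivial⟩ : (⊤ : Subgroup GQ))) hcH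
      (q, g) (s₀ := s₀) trivial hs₀ fun d _ hd => ?_
    rw [← hT]
    exact exists_nrm_of_form hs q g (t := t) ht htpos.ne' hab hd
  · push Not at hns
    exact trivAt_of_comap_le (i := (q, g)) (U := ⊤) (H := kumSub ⊤ s) (fun d _ => hns d) (hlocq g)

end Fermat.Agent.H54T
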