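import Mathlib
import Fermat.Agent.H54TRec

/-!
# Local computations at `q` for two-torsion classes
-/

set_option autoImplicit false
set_option maxSynthPendingDepth 3

namespace Fermat.Agent.H54T

open ExtCitation Fermat.Agent.H54 Fermat.Agent.H55 Fermat.Agent.H91 Fermat.Agent.H7
open IsDedekindDomain NumberField Module IntermediateField LevelFam
open groupCohomology (IsCocycle₁ IsCocycle₂)

attribute [local instance] factNatPrimes

section local_

variable (q : Nat.Primes)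

local notation "Ωq" => PadicAlgCl (q : ℕ)
local notation "Dq" => primeLocalGaloisGroup q

/-- the inertia subgroup (as a set) of the local group -/
def inert : Set (primeLocalGaloisGroup q) :=
  {x | ∀ z : PadicAlgCl (q : ℕ), ‖z‖ ≤ 1 → ‖x • z - z‖ < 1}

variable {q}

/-- elements of a quadratic extension of `ℚ_q`, generated by `S` with `S² = -m`. -/
theorem exists_form_gen {m : ℕ} {S : Ωq} (hS0 : S ≠ 0) (hS : S ^ 2 = -(m : Ωq)) {d : Dq}
    (hd : d • S ≠ S) {B : Ωq} (hB : ∀ h : Dq, h • S = S → h • B = B) :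
    ∃ x y : ℚ_[(q : ℕ)], B * d • B = algebraMap ℚ_[(q : ℕ)] Ωq (x ^ 2 + m * y ^ 2) := by
  have h20 : (2 : Ωq) ≠ 0 := two_ne_zero
  have h2fix : ∀ h : Dq, h • (2 : Ωq) = 2 := by
    intro h
    have := smul_algebraMap_padic q h 2
    rwa [map_ofNat] at this
  have hmfix : ∀ h : Dq, h • (m : Ωq) = m := by
    intro h
    have := smul_algebraMap_padic q h m
    rwa [map_natCast] at this
  have hor : ∀ h : Dq, h • S = S ∨ h • S = -S := by
    intro h
    have h1 : (h • S) ^ 2 = S ^ 2 := by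
      rw [← smul_pow', hS, smul_neg, hmfix]
    exact sq_eq_sq_iff_eq_or_eq_neg.1 h1
  have hdS : d • S = -S := (hor d).resolve_left hd
  have hdinv : d⁻¹ • S = -S := by
    rw [inv_smul_eq_iff, smul_neg, hdS, neg_neg]
  have hin : ∀ h : Dq, h • S = S → h • (d • B) = d • B := by
    intro h hh
    have h3 : (d⁻¹ * (h * d)) • S = S := by
      rw [mul_smul, mul_smul, hdS, smul_neg, hh, smul_neg, hdinv, neg_neg]
    have h4 := hB _ h3
    rw [smul_smul]
    have h5 : h * d = d * (d⁻¹ * (h * d)) := by group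
    rw [h5, mul_smul, h4]
  have hout : ∀ h : Dq, h • S = -S → h • B = d • B ∧ h • (d • B) = B := by
    intro h hh
    constructor
    · have h3 : (d⁻¹ * h) • S = S := by
        rw [mul_smul, hh, smul_neg, hdinv, neg_neg]
      have h4 := hB _ h3
      have h5 : h = d * (d⁻¹ * h) := by group
      rw [h5, mul_smul, h4]
    · rw [smul_smul]
      refine hB _ ?_
      rw [mul_smul, hdS, smul_neg, hh, neg_neg]
  obtain ⟨x, hx⟩ := exists_padic_of_fixed q (x := (B + d • B) / 2) (fun h => by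
    rcases hor h with hh | hh
    · rw [smul_div₀', smul_add, hB h hh, hin h hh, h2fix]
    · rw [smul_div₀', smul_add, (hout h hh).1, (hout h hh).2, h2fix, add_comm])
  obtain ⟨y, hy⟩ := exists_padic_of_fixed q (x := (B - d • B) / (2 * S)) (fun h => by
    rcases hor h with hh | hh
    · rw [smul_div₀', smul_sub, smul_mul', hB h hh, hin h hh, h2fix, hh]
    · rw [smul_div₀', smul_sub, smul_mul', (hout h hh).1, (hout h hh).2, h2fix,
        hh, mul_neg, div_neg, ← neg_div, neg_sub])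
  refine ⟨x, y, ?_⟩
  rw [map_add, map_mul, map_pow, map_pow, hx, hy, map_natCast]
  have hq' : (m : Ωq) = -S ^ 2 := by rw [hS, neg_neg]
  rw [hq']
  field_simp
  ring

/-- the norm of an element of the unramified quadratic extension, `q ≡ 3 mod 4` -/
theorem norm_form_one (hq4 : (q : ℕ) % 4 = 3) (x y : ℚ_[(q : ℕ)]) :
    ∃ z : ℚ_[(q : ℕ)], ‖x ^ 2 + ((1 : ℕ) : ℚ_[(q : ℕ)]) * y ^ 2‖ = ‖z‖ ^ 2 := by
  have h := norm_form_eq (ℓ := (q : ℕ)) (q := 1) (by simp) (by
    rw [Nat.cast_one]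
    intro h
    rw [ZMod.exists_sq_eq_neg_one_iff] at h
    exact h hq4) x y
  rcases max_choice ‖x‖ ‖y‖ with h1 | h1
  · exact ⟨x, by rw [h, h1]⟩
  · exact ⟨y, by rw [h, h1]⟩

/-- `‖z‖² ≠ q ‖w‖²` in `ℚ_q` -/
theorem norm_parity {z w : ℚ_[(q : ℕ)]} (hw : w ≠ 0) (h : ‖z‖ ^ 2 = (q : ℝ) * ‖w‖ ^ 2) :
    False := by
  have hq1 : (1 : ℝ) < (q : ℕ) := by exact_mod_cast q.2.one_lt
  have hz : z ≠ 0 := by
    rintro rfl
    rw [norm_zero, zero_pow two_ne_zero] at h
    have : 0 < (q : ℝ) * ‖w‖ ^ 2 := by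
      have := norm_pos_iff.2 hw
      positivity
    exact this.ne h
  rw [Padic.norm_eq_zpow_neg_valuation hz, Padic.norm_eq_zpow_neg_valuation hw] at h
  have hq0 : ((q : ℕ) : ℝ) ≠ 0 := by positivity
  rw [← zpow_natCast, ← zpow_natCast, ← zpow_mul, ← zpow_mul] at h
  have h1 : ((q : ℕ) : ℝ) ^ (-z.valuation * ((2 : ℕ) : ℤ)) =
      ((q : ℕ) : ℝ) ^ (1 + -w.valuation * ((2 : ℕ) : ℤ)) := by
    rw [zpow_add₀ hq0, zpow_one]
    exact h
  have h2 := zpow_right_injective₀ (by positivity) hq1.ne' h1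
  omega

/-- Kummer theory: a quadratic character of the local group -/
theorem exists_beta {E : ZMod 2 →+ Additive Ωqˣ} (hE1 : uval (E 1) = -1) {n : Dq → ZMod 2}
    (hn : ∀ x y, n (x * y) = n x + n y)
    (hnc : (krullFam.comap (rloc q 1)).IsConst₁ n) :
    ∃ β : Additive Ωqˣ, ∀ x, E (n x) = x • β - β := by
  have h90 : (krullFam.comap (rloc q 1)).H90 (Additive Ωqˣ) := (faithfulOn_loc q 1).h90
  have hfix : ∀ (x : Dq) (z : ZMod 2), x • E z = E z := by
    intro x z
    apply uval_injective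
    rw [uval_smul]
    have h1 : uval (E z) = 1 ∨ uval (E z) = -1 := by
      fin_cases z
      · left
        show uval (E 0) = 1
        rw [map_zero, uval_zero]
      · right
        exact hE1
    rcases h1 with h1 | h1
    · rw [h1, smul_one]
    · rw [h1, smul_neg, smul_one]
  obtain ⟨β, hβ⟩ := h90 (fun x => E (n x)) (fun x y => by
    beta_reduce
    rw [hfix, hn, map_add, add_comm]) (hnc.comp E)
  exact ⟨β, hβ⟩

/-- shape of the Kummer generator of a ramified quadratic character, `q ≡ 3 mod 4`. -/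
theorem exists_sq_of_ramified (hq4 : (q : ℕ) % 4 = 3)
    {E : ZMod 2 →+ Additive Ωqˣ} (hE1 : uval (E 1) = -1) {n : Dq → ZMod 2}
    {β : Additive Ωqˣ} (hβ : ∀ x, E (n x) = x • β - β)
    (hram : ∃ x ∈ inert q, n x ≠ 0) :
    ∃ w : ℚ_[(q : ℕ)], w ≠ 0 ∧ (uval β ^ 2 = -((q : ℕ) : Ωq) * algebraMap _ Ωq w ^ 2 ∨
      uval β ^ 2 = ((q : ℕ) : Ωq) * algebraMap _ Ωq w ^ 2) := by
  have hq2 : (q : ℕ) ≠ 2 := by intro h; rw [h] at hq4; norm_num at hq4
  set b := uval β with hb
  have hb0 : b ≠ 0 := uval_ne_zero β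
  have hact : ∀ x : Dq, x • b = uval (E (n x)) * b := by
    intro x
    have h1 : x • β = E (n x) + β := by rw [hβ]; abel
    have h2 := congrArg uval h1
    rwa [uval_smul, uval_add] at h2
  have hval : ∀ z : ZMod 2, z = 0 ∨ z = 1 := by decide
  have hEv : ∀ z : ZMod 2, uval (E z) ^ 2 = 1 := by
    intro z
    rcases hval z with rfl | rfl
    · rw [map_zero, uval_zero, one_pow]
    · rw [hE1]; ring
  obtain ⟨B, hB⟩ := exists_padic_of_fixed q (x := b ^ 2) (fun x => by
    rw [smul_pow', hact, mul_pow, hEv, one_mul])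
  have hB0 : B ≠ 0 := by
    rintro rfl
    rw [map_zero] at hB
    exact pow_ne_zero 2 hb0 hB.symm
  have hq0 : ((q : ℕ) : ℚ_[(q : ℕ)]) ≠ 0 := by exact_mod_cast q.2.ne_zero
  set k := B.valuation with hk
  set u := B * ((q : ℕ) : ℚ_[(q : ℕ)]) ^ (-k) with hu
  have hunorm : ‖u‖ = 1 := by
    rw [hu, norm_mul, Padic.norm_eq_zpow_neg_valuation hB0, norm_zpow, Padic.norm_p,
      inv_zpow, ← zpow_neg, neg_neg, ← zpow_add₀ (by exact_mod_cast q.2.ne_zero)]
    simp [hk]
  have hBu : B = ((q : ℕ) : ℚ_[(q : ℕ)]) ^ k * u := by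
    rw [hu, mul_comm B, ← mul_assoc, ← zpow_add₀ hq0, add_neg_cancel, zpow_zero, one_mul]
  obtain ⟨x, hx, hnx⟩ := hram
  have hnx1 : n x = 1 := (hval (n x)).resolve_left hnx
  rcases Int.even_or_odd' k with ⟨j, hj | hj⟩
  · -- even valuation: unramified
    exfalso
    set c := b * algebraMap _ Ωq (((q : ℕ) : ℚ_[(q : ℕ)]) ^ (-j)) with hc
    have hc2 : c ^ 2 = algebraMap _ Ωq u := by
      rw [hc, mul_pow, ← hB, ← map_pow, ← map_mul, hBu]
      congr 1
      rw [hj, ← zpow_natCast, ← zpow_mul, mul_comm (_ ^ (2 * j)) u, mul_assoc, ← zpow_add₀ hq0]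
      have : 2 * j + -j * ((2 : ℕ) : ℤ) = 0 := by push_cast; ring
      rw [this, zpow_zero, mul_one]
    have hcn : ‖c‖ = 1 := by
      have h1 : ‖c‖ ^ 2 = 1 := by
        rw [← norm_pow, hc2]
        have : ‖(u : Ωq)‖ = ‖u‖ := PadicAlgCl.norm_extends _ u
        exact this.trans hunorm
      exact (pow_eq_one_iff_of_nonneg (norm_nonneg _) two_ne_zero).1 h1
    have hxc : x • c = -c := by
      rw [hc, smul_mul', smul_algebraMap_padic, hact, hnx1, hE1]
      ring
    have h1 := hx c hcn.le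
    rw [hxc] at h1
    have h2 : -c - c = -(2 * c) := by ring
    have h3 : ‖(2 : Ωq)‖ = 1 := by
      have h4 : ‖((2 : ℚ_[(q : ℕ)]) : Ωq)‖ = ‖(2 : ℚ_[(q : ℕ)])‖ := PadicAlgCl.norm_extends _ _
      have h5 : ‖(2 : ℚ_[(q : ℕ)])‖ = 1 := by
        have h6 : ‖((2 : ℤ) : ℚ_[(q : ℕ)])‖ = 1 := by
          rw [Padic.norm_intCast_eq_one_iff]
          have h7 : Nat.Coprime 2 (q : ℕ) := (Nat.coprime_primes Nat.prime_two q.2).2 hq2.symm
          exact Int.isCoprime_iff_gcd_eq_one.2 h7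
        simpa using h6
      rw [h5] at h4
      have h8 : ((2 : ℚ_[(q : ℕ)]) : Ωq) = (2 : Ωq) :=
        map_ofNat (algebraMap ℚ_[(q : ℕ)] Ωq) 2
      rwa [h8] at h4
    rw [h2, norm_neg, norm_mul, hcn, h3] at h1
    norm_num at h1
  · -- odd valuation
    have hmod : IsSquare (PadicInt.toZMod (⟨u, hunorm.le⟩ : ℤ_[(q : ℕ)])) ∨
        IsSquare (PadicInt.toZMod (-⟨u, hunorm.le⟩ : ℤ_[(q : ℕ)])) := by
      rw [map_neg]
      by_contra hcon
      push Not at hcon
      obtain ⟨h1, h2⟩ := hcon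
      have h3 : ¬ IsSquare (-1 : ZMod (q : ℕ)) := by
        rw [ZMod.exists_sq_eq_neg_one_iff]
        exact fun h => h hq4
      -- the product of two non squares is a square
      have hd : ringChar (ZMod (q : ℕ)) ≠ 2 := by rw [ZMod.ringChar_zmod_n]; exact hq2
      set v := PadicInt.toZMod (⟨u, hunorm.le⟩ : ℤ_[(q : ℕ)]) with hv
      have hv0 : v ≠ 0 := by
        intro h0
        exact h1 (by rw [h0]; exact IsSquare.zero)
      have e1 : quadraticChar (ZMod (q : ℕ)) v = -1 := quadraticChar_neg_one_iff_not_isSquare.2 h1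
      have e2 : quadraticChar (ZMod (q : ℕ)) (-1) = -1 :=
        quadraticChar_neg_one_iff_not_isSquare.2 h3
      have e3 : quadraticChar (ZMod (q : ℕ)) (-v) = 1 := by
        rw [← neg_one_mul, map_mul, e1, e2]; norm_num
      exact h2 ((quadraticChar_one_iff_isSquare (neg_ne_zero.2 hv0)).1 e3)
    rcases hmod with hmod | hmod
    · obtain ⟨w, hw⟩ := isSquare_padicInt hq2 _ hunorm hmod
      have hw' : u = (w : ℚ_[(q : ℕ)]) * w := congrArg (fun z : ℤ_[(q : ℕ)] => (z : ℚ_[(q : ℕ)])) hw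
      refine ⟨((q : ℕ) : ℚ_[(q : ℕ)]) ^ j * w, ?_, Or.inr ?_⟩
      · intro h0
        apply hB0
        rw [hBu, hw', hj]
        have h1 : (w : ℚ_[(q : ℕ)]) = 0 := by
          rcases mul_eq_zero.1 h0 with h1 | h1
          · exact absurd h1 (zpow_ne_zero _ hq0)
          · exact h1
        rw [h1, mul_zero, mul_zero]
      · rw [← hB, ← map_natCast (algebraMap ℚ_[(q : ℕ)] Ωq), ← map_pow, ← map_mul, hBu, hw', hj]
        congr 1
        rw [zpow_add₀ hq0, zpow_one, two_mul, zpow_add₀ hq0]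
        ring
    · obtain ⟨w, hw⟩ := isSquare_padicInt hq2 _ (by rw [norm_neg]; exact hunorm) hmod
      have hw' : -u = (w : ℚ_[(q : ℕ)]) * w :=
        congrArg (fun z : ℤ_[(q : ℕ)] => (z : ℚ_[(q : ℕ)])) hw
      have hw'' : u = -((w : ℚ_[(q : ℕ)]) * w) := by rw [← hw', neg_neg]
      refine ⟨((q : ℕ) : ℚ_[(q : ℕ)]) ^ j * w, ?_, Or.inl ?_⟩
      · intro h0
        apply hB0
        rw [hBu, hw'', hj]
        have h1 : (w : ℚ_[(q : ℕ)]) = 0 := by
          rcases mul_eq_zero.1 h0 with h1 | h1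
          · exact absurd h1 (zpow_ne_zero _ hq0)
          · exact h1
        rw [h1, mul_zero, neg_zero, mul_zero]
      · rw [← hB, ← map_natCast (algebraMap ℚ_[(q : ℕ)] Ωq), ← map_neg, ← map_pow, ← map_mul, hBu,
          hw'', hj]
        congr 1
        rw [zpow_add₀ hq0, zpow_one, two_mul, zpow_add₀ hq0]
        ring

end local_

end Fermat.Agent.H54T
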