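import Mathlib
import Fermat.Agent.H54TLoc

/-!
# Local computations at `q` for two-torsion classes (II)
-/

set_option autoImplicit false
set_option maxSynthPendingDepth 3

namespace Fermat.Agent.H54T

open ExtCitation Fermat.Agent.H54 Fermat.Agent.H55 Fermat.Agent.H91 Fermat.Agent.H7
open IsDedekindDomain NumberField Module IntermediateField LevelFam
open groupCohomology (IsCocycle₁ IsCocycle₂)

attribute [local instance] factNatPrimes

section local_

variable {q : Nat.Primes}

local notation "Ωq" => PadicAlgCl (q : ℕ)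
local notation "Dq" => primeLocalGaloisGroup q

lemma zmod2_cases (z : ZMod 2) : z = 0 ∨ z = 1 := by revert z; decide

lemma smul_E {E : ZMod 2 →+ Additive Ωqˣ} (hE1 : uval (E 1) = -1) (x : Dq) (z : ZMod 2) :
    x • E z = E z := by
  apply uval_injective
  rw [uval_smul]
  rcases zmod2_cases z with rfl | rfl
  · rw [map_zero, uval_zero, smul_one]
  · rw [hE1, smul_neg, smul_one]

lemma E_add_self {E : ZMod 2 →+ Additive Ωqˣ} (z : ZMod 2) : E z + E z = 0 := by
  rw [← map_add]
  have : z + z = 0 := by revert z; decide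
  rw [this, map_zero]

/-- **(b)** local nonvanishing: if the cup product of the unramified quadratic character and of
`n` is trivial, the Kummer generator of `n` is a norm form. -/
theorem exists_norm_of_triv {i : Ωq} (hi : i ^ 2 = -1)
    {E : ZMod 2 →+ Additive Ωqˣ} (hE1 : uval (E 1) = -1) {lam n : Dq → ZMod 2}
    (hlam : ∀ x y, lam (x * y) = lam x + lam y) (hlami : ∀ x, lam x = 0 ↔ x • i = i)
    (hne : ∃ x, lam x ≠ 0)
    (hn : ∀ x y, n (x * y) = n x + n y)
    {β : Additive Ωqˣ} (hβ : ∀ x, E (n x) = x • β - β)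
    {Y : Dq → Additive Ωqˣ} (hYc : (krullFam.comap (rloc q 1)).IsConst₁ Y)
    (hY : ∀ x y, x • Y y - Y (x * y) + Y x = E (lam x * n y)) :
    ∃ x y : ℚ_[(q : ℕ)], (uval β ^ 2)⁻¹ = algebraMap ℚ_[(q : ℕ)] Ωq (x ^ 2 + (1 : ℕ) * y ^ 2) := by
  have hi0 : i ≠ 0 := by
    rintro rfl
    rw [zero_pow two_ne_zero] at hi
    exact one_ne_zero (neg_eq_zero.1 hi.symm)
  let V : Subgroup Dq :=
    { carrier := {x | lam x = 0}
      mul_mem' := fun {a b} ha hb => by
        show lam (a * b) = 0
        rw [hlam, show lam a = 0 from ha, show lam b = 0 from hb, add_zero]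
      one_mem' := by
        have := hlam 1 1
        rw [mul_one] at this
        show lam 1 = 0
        exact left_eq_add.1 this
      inv_mem' := fun {a} ha => by
        have h1 := hlam a a⁻¹
        have h2 := hlam 1 1
        rw [mul_one] at h2
        have h3 : lam 1 = 0 := left_eq_add.1 h2
        rw [mul_inv_cancel, h3, show lam a = 0 from ha, zero_add] at h1
        exact h1.symm }
  have hV : ∀ x, x ∈ V ↔ lam x = 0 := fun x => Iff.rfl
  have h90 : ((krullFam.comap (rloc q 1)).restrict V).H90 (Additive Ωqˣ) :=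
    ((faithfulOn_loc q 1).restrict V).h90
  obtain ⟨b, hb⟩ := h90 (fun x : V => Y x) (fun x y => by
    have := hY x y
    rw [show lam (x : Dq) = 0 from x.2, zero_mul, map_zero] at this
    show Y ((x : Dq) * (y : Dq)) = (x : Dq) • Y y + Y x
    linear_combination (norm := abel) -this) (hYc.comap V.subtype)
  obtain ⟨Z, hZ⟩ : ∃ Z : Dq → Additive Ωqˣ, ∀ x, Z x = Y x - (x • b - b) := ⟨_, fun _ => rfl⟩
  have hZV : ∀ x, lam x = 0 → Z x = 0 := by
    intro x hx
    have := hb ⟨x, hx⟩
    have h1 : Y x = x • b - b := this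
    rw [hZ, h1, sub_self]
  have hZd : ∀ x y, x • Z y - Z (x * y) + Z x = E (lam x * n y) := by
    intro x y
    rw [← hY x y, hZ, hZ, hZ, smul_sub, smul_sub, mul_smul]
    abel
  obtain ⟨σ, hσ⟩ := hne
  have hσ1 : lam σ = 1 := (zmod2_cases _).resolve_left hσ
  have key : ∀ x, lam x = 0 → x • (Z σ - β) = Z σ - β := by
    intro x hx
    have e1 := hZd x σ
    rw [hx, zero_mul, map_zero, hZV x hx, add_zero] at e1
    have hl : lam σ⁻¹ = 1 := by
      have h1 := hlam σ σ⁻¹
      have h2 := hlam 1 1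
      rw [mul_one] at h2
      have h3 : lam 1 = 0 := left_eq_add.1 h2
      rw [mul_inv_cancel, h3, hσ1] at h1
      have : lam σ⁻¹ = -1 := by linear_combination -h1
      rw [this]; decide
    have hx' : lam (σ⁻¹ * (x * σ)) = 0 := by
      rw [hlam, hlam, hl, hx, hσ1]; decide
    have e2 := hZd σ (σ⁻¹ * (x * σ))
    rw [hZV _ hx', smul_zero, mul_inv_cancel_left, hσ1, one_mul] at e2
    have hnx : n (σ⁻¹ * (x * σ)) = n x := by
      have h1 := hn σ σ⁻¹
      have h2 := hn 1 1
      rw [mul_one] at h2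
      have h3 : n 1 = 0 := left_eq_add.1 h2
      rw [mul_inv_cancel, h3] at h1
      rw [hn, hn]
      linear_combination -h1
    rw [hnx] at e2
    have e3 := hβ x
    have e4 := E_add_self (E := E) (n x)
    rw [smul_sub]
    linear_combination (norm := abel) e1 - e2 + e3 - e4
  have hγ : ∀ h : Dq, h • i = i → h • uval (Z σ - β) = uval (Z σ - β) := by
    intro h hh
    rw [← uval_smul, key h ((hlami h).2 hh)]
  have hσi : σ • i ≠ i := fun h => hσ ((hlami σ).2 h)
  obtain ⟨x, y, hxy⟩ := exists_form_gen (q := q) (m := 1) hi0 (by rw [hi, Nat.cast_one]) hσi hγ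
  refine ⟨x, y, ?_⟩
  rw [← hxy]
  have e1 := hZd σ σ
  have hσσ : lam (σ * σ) = 0 := by rw [hlam, hσ1]; decide
  rw [hZV _ hσσ, sub_zero, hσ1, one_mul, hβ] at e1
  have e2 : (Z σ - β) + σ • (Z σ - β) = -(β + β) := by
    rw [smul_sub]
    linear_combination (norm := abel) e1
  have e3 := congrArg uval e2
  rw [uval_add, uval_smul, uval_neg, uval_add] at e3
  rw [e3, pow_two]

/-- **(a)**: over `ℚ_q(√-q)` the cup product is trivial. -/
theorem exists_cochain_of_sq (hq4 : (q : ℕ) % 4 = 3) {i S : Ωq} (hi : i ^ 2 = -1)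
    (hS : S ^ 2 = -((q : ℕ) : Ωq))
    {E : ZMod 2 →+ Additive Ωqˣ} (hE1 : uval (E 1) = -1) {lam n : Dq → ZMod 2}
    (hlamc : (krullFam.comap (rloc q 1)).IsConst₁ lam)
    (hlam : ∀ x y, lam (x * y) = lam x + lam y) (hlami : ∀ x, lam x = 0 ↔ x • i = i)
    {β : Additive Ωqˣ} (hβ : ∀ x, E (n x) = x • β - β)
    (hram : ∃ x ∈ inert q, n x ≠ 0) :
    ∃ Y : Dq → Additive Ωqˣ, (krullFam.comap (rloc q 1)).IsConst₁ Y ∧
      ∀ x y, x • S = S → y • S = S → x • Y y - Y (x * y) + Y x = E (lam x * n y) := by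
  have hi0 : i ≠ 0 := by
    rintro rfl
    rw [zero_pow two_ne_zero] at hi
    exact one_ne_zero (neg_eq_zero.1 hi.symm)
  have hior : ∀ x : Dq, x • i = i ∨ x • i = -i := by
    intro x
    have h1 : (x • i) ^ 2 = i ^ 2 := by
      rw [← smul_pow', hi, smul_neg, smul_one]
    exact sq_eq_sq_iff_eq_or_eq_neg.1 h1
  obtain ⟨w, hw0, hw⟩ := exists_sq_of_ramified hq4 hE1 hβ hram
  have hb0 : uval β ≠ 0 := uval_ne_zero β
  have hact : ∀ x : Dq, x • uval β = uval (E (n x)) * uval β := by
    intro x
    have h1 : x • β = E (n x) + β := by rw [hβ]; abel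
    have h2 := congrArg uval h1
    rwa [uval_smul, uval_add] at h2
  set ww := algebraMap ℚ_[(q : ℕ)] Ωq w with hww
  have hwwfix : ∀ x : Dq, x • ww = ww := fun x => smul_algebraMap_padic q x w
  have hEinj : ∀ z : ZMod 2, uval (E z) = 1 → z = 0 := by
    intro z hz
    rcases zmod2_cases z with rfl | rfl
    · rfl
    · rw [hE1] at hz
      have : (2 : Ωq) = 0 := by linear_combination -hz
      exact absurd this two_ne_zero
  rcases hw with hw | hw
  · -- `β = ± S w`: `n = 0` on the stabiliser of `S`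
    have h1 : uval β = S * ww ∨ uval β = -(S * ww) := by
      apply sq_eq_sq_iff_eq_or_eq_neg.1
      rw [hw, mul_pow, hS]
    have hn0 : ∀ x : Dq, x • S = S → n x = 0 := by
      intro x hx
      apply hEinj
      have h2 := hact x
      have h3 : x • uval β = uval β := by
        rcases h1 with h1 | h1
        · rw [h1, smul_mul', hx, hwwfix]
        · rw [h1, smul_neg, smul_mul', hx, hwwfix]
      rw [h3] at h2
      exact (mul_eq_right₀ hb0).1 h2.symm
    refine ⟨0, isConst₁_const 0, fun x y _ hy => ?_⟩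
    rw [hn0 y hy, mul_zero, map_zero]
    simp
  · -- `β = ± i S w`: `n = λ` on the stabiliser of `S`
    have h1 : uval β = i * (S * ww) ∨ uval β = -(i * (S * ww)) := by
      apply sq_eq_sq_iff_eq_or_eq_neg.1
      rw [hw, mul_pow, mul_pow, hS, hi]
      ring
    have hnl : ∀ x : Dq, x • S = S → n x = lam x := by
      intro x hx
      have h2 := hact x
      have h3 : x • uval β = (x • i / i) * uval β := by
        rcases h1 with h1 | h1
        · rw [h1, smul_mul', smul_mul', hx, hwwfix]; field_simp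
        · rw [h1, smul_neg, smul_mul', smul_mul', hx, hwwfix]; field_simp
      rw [h3] at h2
      have h4 : x • i / i = uval (E (n x)) := mul_right_cancel₀ hb0 h2
      rcases zmod2_cases (lam x) with h5 | h5
      · rw [h5]
        apply hEinj
        rw [← h4, (hlami x).1 h5, div_self hi0]
      · rw [h5]
        refine (zmod2_cases _).resolve_left fun h6 => ?_
        rw [h6, map_zero, uval_zero, div_eq_one_iff_eq hi0] at h4
        rw [(hlami x).2 h4] at h5
        exact zero_ne_one h5
    -- `-1` is a sum of two squares in `ℤ_q`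
    obtain ⟨a, c, hac⟩ : ∃ a c : ℚ_[(q : ℕ)], a ^ 2 + c ^ 2 = -1 := by
      have hq2 : (q : ℕ) ≠ 2 := by intro h; rw [h] at hq4; norm_num at hq4
      obtain ⟨a, c, hac⟩ := ZMod.sq_add_sq (q : ℕ) (-1)
      obtain ⟨a', rfl⟩ := ZMod.ringHom_surjective (PadicInt.toZMod (p := (q : ℕ))) a
      obtain ⟨c', rfl⟩ := ZMod.ringHom_surjective (PadicInt.toZMod (p := (q : ℕ))) c
      -- one of the two is a unit; solve for the other one with `-1 - c²`
      have h5 : PadicInt.toZMod (-1 - c' ^ 2) = PadicInt.toZMod a' ^ 2 := by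
        rw [map_sub, map_neg, map_one, map_pow]
        linear_combination -hac
      have h6 : ‖(-1 - c' ^ 2 : ℤ_[(q : ℕ)])‖ = 1 := by
        by_contra hne
        have h7 : ‖(-1 - c' ^ 2 : ℤ_[(q : ℕ)])‖ < 1 := lt_of_le_of_ne (PadicInt.norm_le_one _) hne
        rw [← PadicInt.mem_nonunits, ← IsLocalRing.mem_maximalIdeal, ← PadicInt.ker_toZMod,
          RingHom.mem_ker, map_sub, map_neg, map_one, map_pow] at h7
        have h8 : IsSquare (-1 : ZMod (q : ℕ)) :=
          ⟨PadicInt.toZMod c', by linear_combination h7⟩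
        rw [ZMod.exists_sq_eq_neg_one_iff] at h8
        exact h8 hq4
      obtain ⟨z, hz⟩ := isSquare_padicInt hq2 _ h6 ⟨PadicInt.toZMod a', by rw [h5, pow_two]⟩
      refine ⟨z, c', ?_⟩
      have h9 : ((-1 - c' ^ 2 : ℤ_[(q : ℕ)]) : ℚ_[(q : ℕ)]) = ((z * z : ℤ_[(q : ℕ)]) : ℚ_[(q : ℕ)]) := by
        rw [hz]
      push_cast at h9
      linear_combination -h9
    set aa := algebraMap ℚ_[(q : ℕ)] Ωq a with haa
    set cc := algebraMap ℚ_[(q : ℕ)] Ωq c with hcc
    have hprod : (aa + cc * i) * (aa - cc * i) = -1 := by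
      have h2 := congrArg (algebraMap ℚ_[(q : ℕ)] Ωq) hac
      rw [map_add, map_pow, map_pow, map_neg, map_one] at h2
      linear_combination h2 - cc ^ 2 * hi
    have hne : aa + cc * i ≠ 0 := by
      intro h0
      rw [h0, zero_mul] at hprod
      exact one_ne_zero (neg_eq_zero.1 hprod.symm)
    have hfix0 : ∀ x : Dq, lam x = 0 → x • (aa + cc * i) = aa + cc * i := by
      intro x hx
      rw [smul_add, smul_mul', haa, hcc, smul_algebraMap_padic, smul_algebraMap_padic,
        (hlami x).1 hx]
    have hfix1 : ∀ x : Dq, lam x = 1 → x • (aa + cc * i) = aa - cc * i := by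
      intro x hx
      have h2 : x • i = -i := (hior x).resolve_left (fun h => by
        rw [(hlami x).2 h] at hx
        exact zero_ne_one hx)
      rw [smul_add, smul_mul', haa, hcc, smul_algebraMap_padic, smul_algebraMap_padic, h2]
      ring
    let α : Additive Ωqˣ := umk (aa + cc * i) hne
    refine ⟨fun x => if lam x = 0 then 0 else α, hlamc.comp (fun z => if z = 0 then 0 else α),
      fun x y hx hy => ?_⟩
    beta_reduce
    rw [hnl y hy, hlam]
    rcases zmod2_cases (lam x) with h5 | h5 <;> rcases zmod2_cases (lam y) with h6 | h6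
    · rw [h5, h6]; simp
    · rw [h5, h6, zero_add, zero_mul, map_zero, if_neg one_ne_zero, if_pos rfl, add_zero,
        sub_eq_zero]
      apply uval_injective
      rw [uval_smul]
      exact hfix0 x h5
    · rw [h5, h6]; simp
    · have h7 : (1 : ZMod 2) + 1 = 0 := by decide
      rw [h5, h6, h7, if_pos rfl, if_neg one_ne_zero, mul_one, sub_zero]
      apply uval_injective
      rw [uval_add, uval_smul, hE1]
      show x • (aa + cc * i) * (aa + cc * i) = -1
      rw [hfix1 x h5, mul_comm]
      exact hprod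

end local_

end Fermat.Agent.H54T
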