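import Mathlib
import Fermat.Agent.H54TLocB

/-!
# Reciprocity at `q` for `ZMod 2`-valued classes
-/

set_option autoImplicit false
set_option maxSynthPendingDepth 3

namespace Fermat.Agent.H54T

open ExtCitation Fermat.Agent.H54 Fermat.Agent.H55 Fermat.Agent.H91 Fermat.Agent.H7
open IsDedekindDomain NumberField Module IntermediateField LevelFam
open groupCohomology (IsCocycle₁ IsCocycle₂)

attribute [local instance] factNatPrimes

section conj

/-- the cochain comparing a cocycle with its conjugate -/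
def conjCochain {G A : Type*} [Group G] [AddCommGroup A] (F : G × G → A) (g : G) (a : G) : A :=
  F (g, g⁻¹ * a * g) - F (a, g)

lemma conj_cocycle {G A : Type*} [Group G] [AddCommGroup A] [DistribMulAction G A]
    {F : G × G → A} (hF : IsCocycle₂ F) (g a b : G) :
    g • F (g⁻¹ * a * g, g⁻¹ * b * g) = F (a, b) + (a • conjCochain F g b -
      conjCochain F g (a * b) + conjCochain F g a) := by
  have h1 := hF g (g⁻¹ * a * g) (g⁻¹ * b * g)
  have h2 := hF a g (g⁻¹ * b * g)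
  have h3 := hF a b g
  have e1 : g * (g⁻¹ * a * g) = a * g := by group
  have e2 : g * (g⁻¹ * b * g) = b * g := by group
  have e3 : (g⁻¹ * a * g) * (g⁻¹ * b * g) = g⁻¹ * (a * b) * g := by group
  rw [e1, e3] at h1
  rw [e2] at h2
  simp only [conjCochain, smul_sub]
  linear_combination (norm := abel) -h1 + h2 - h3

lemma jloc_eq (ℓ : Nat.Primes) (g : GQ) (a : Additive Qbˣ) : jloc ℓ g a = jloc ℓ 1 (g • a) := by
  apply uval_injective
  rw [uval_jloc, uval_jloc, uval_smul]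
  rfl

lemma rloc_eq (ℓ : Nat.Primes) (g : GQ) (x : primeLocalGaloisGroup ℓ) :
    rloc ℓ g x = g⁻¹ * rloc ℓ 1 x * g := by
  rw [rloc_apply, rloc_apply]; group

lemma jloc_smul (ℓ : Nat.Primes) (g : GQ) (d : primeLocalGaloisGroup ℓ) (a : Additive Qbˣ) :
    jloc ℓ g ((rloc ℓ g d) • a) = d • jloc ℓ g a :=
  uval_injective (embComp_rloc ℓ g d (uval a))

/-- local triviality at one place above `ℓ` gives local triviality at all places above `ℓ` -/
theorem trivAt_of_one {ℓ : Nat.Primes} {U : Subgroup GQ} (hU : U.Normal)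
    {F : GQ × GQ → Additive Qbˣ} (hF : IsCocycle₂ F) (hc : krullFam.IsConst₂ F)
    (h : arithLoc.TrivAt (ℓ, 1) U F) (g : GQ) : arithLoc.TrivAt (ℓ, g) U F := by
  have hmem : ∀ x : primeLocalGaloisGroup ℓ, rloc ℓ g x ∈ U ↔ rloc ℓ 1 x ∈ U := by
    intro x
    rw [rloc_eq ℓ g x]
    constructor
    · intro h
      have := hU.conj_mem _ h g
      have e : g * (g⁻¹ * rloc ℓ 1 x * g) * g⁻¹ = rloc ℓ 1 x := by group
      rwa [e] at this
    · intro h
      have := hU.conj_mem _ h g⁻¹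
      rwa [inv_inv] at this
  obtain ⟨y, hy, hyd⟩ := (trivAt_iff ℓ 1 U F).1 h
  rw [trivAt_iff]
  have hkc : krullFam.IsConst₁ (conjCochain F g) := by
    obtain ⟨V, hV, hVn, -, hVF⟩ := hc.exists_normal
    refine ⟨V, hV, fun a s hs => ?_⟩
    rw [conjCochain, conjCochain]
    have e1 : g⁻¹ * (a * s) * g = (g⁻¹ * a * g) * (g⁻¹ * s * g) := by group
    have e2 : g⁻¹ * s * g ∈ V := by
      have := hVn.conj_mem s hs g⁻¹
      rwa [inv_inv] at this
    have e3 := hVF g (g⁻¹ * a * g) 1 (one_mem _) _ e2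
    have e4 := hVF a g s hs 1 (one_mem _)
    rw [mul_one] at e3 e4
    rw [e1, e3, e4]
  refine ⟨fun x => y ⟨x, (hmem x).1 x.2⟩ + jloc ℓ 1 (conjCochain F g (rloc ℓ 1 x)), ?_, ?_⟩
  · rw [isConst₁_comap_iff] at hy ⊢
    obtain ⟨V, hV, hVy⟩ := hy
    obtain ⟨V', hV', hVk⟩ := hkc
    rw [comap_rloc_eq ℓ 1, ← comap_rloc_eq ℓ g] at hV
    have hV2 : V'.comap (rloc ℓ 1) ∈ (krullFam.comap (rloc ℓ g)).carrier := by
      rw [comap_rloc_eq ℓ g, ← comap_rloc_eq ℓ 1]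
      exact ⟨V', hV', rfl⟩
    obtain ⟨X, hX, hle⟩ := (krullFam.comap (rloc ℓ g)).inf_mem' V hV _ hV2
    refine ⟨X, hX, fun a s hs => ?_⟩
    have hs' : (s : primeLocalGaloisGroup ℓ) ∈ X := hs
    have h1 := hVy ⟨a, (hmem a).1 a.2⟩ ⟨s, (hmem s).1 s.2⟩ (hle hs').1
    have h2 : conjCochain F g (rloc ℓ 1 (a * s)) = conjCochain F g (rloc ℓ 1 a) := by
      rw [map_mul]
      exact hVk _ _ (hle hs').2
    show y ⟨(a : primeLocalGaloisGroup ℓ) * s, _⟩ +
      jloc ℓ 1 (conjCochain F g (rloc ℓ 1 (a * s))) = _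
    rw [h2]
    congr 1
  · intro a b
    have h1 := hyd ⟨a, (hmem a).1 a.2⟩ ⟨b, (hmem b).1 b.2⟩
    have h2 := conj_cocycle hF g (rloc ℓ 1 a) (rloc ℓ 1 b)
    rw [← rloc_eq, ← rloc_eq] at h2
    have h3 := congrArg (jloc ℓ 1) h2
    rw [← jloc_eq, map_add, map_add, map_sub] at h3
    have h5 : (a : primeLocalGaloisGroup ℓ) • y ⟨b, (hmem b).1 b.2⟩ -
        y ⟨(a : primeLocalGaloisGroup ℓ) * b, (hmem (a * b)).1 (a * b).2⟩ +
        y ⟨a, (hmem a).1 a.2⟩ = jloc ℓ 1 (F (rloc ℓ 1 a, rloc ℓ 1 b)) := h1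
    rw [jloc_smul] at h3
    rw [dd_apply]
    show (a : primeLocalGaloisGroup ℓ) • (y ⟨b, (hmem b).1 b.2⟩ +
      jloc ℓ 1 (conjCochain F g (rloc ℓ 1 b))) -
      (y ⟨(a : primeLocalGaloisGroup ℓ) * b, _⟩ +
        jloc ℓ 1 (conjCochain F g (rloc ℓ 1 ((a : primeLocalGaloisGroup ℓ) * b)))) +
      (y ⟨a, _⟩ + jloc ℓ 1 (conjCochain F g (rloc ℓ 1 a))) = jloc ℓ g (F (rloc ℓ g a, rloc ℓ g b))
    rw [h3, smul_add, map_mul, ← h5]
    abel

end conj

/-- `ZMod 2`-valued classes as `ℚ̄ˣ`-valued classes -/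
noncomputable def sgnc (f : GQ × GQ → ZMod 2) : GQ × GQ → Additive Qbˣ :=
  fun x => zi (zeta_umk (IsPrimitiveRoot.neg_one (R := Qb) 0 (by norm_num)) (by norm_num)) (f x)

lemma sgnc_apply (f : GQ × GQ → ZMod 2) (x : GQ × GQ) : sgnc f x =
  zi (zeta_umk (IsPrimitiveRoot.neg_one (R := Qb) 0 (by norm_num)) (by norm_num)) (f x) := rfl

lemma smul_neg_one_zi (g : GQ) (z : ZMod 2) :
    g • zi (zeta_umk (IsPrimitiveRoot.neg_one (R := Qb) 0 (by norm_num)) (by norm_num)) z =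
      zi (zeta_umk (IsPrimitiveRoot.neg_one (R := Qb) 0 (by norm_num)) (by norm_num)) z := by
  refine smul_zi _ (uval_injective ?_) z
  rw [uval_smul, uval_umk]
  show g (-1) = -1
  rw [map_neg, map_one]

/-- the sign homomorphism at the place `ℓ` -/
noncomputable def locSgn (ℓ : Nat.Primes) (g : GQ) : ZMod 2 →+ Additive (PadicAlgCl (ℓ : ℕ))ˣ :=
  zi (zeta_jloc (IsPrimitiveRoot.neg_one (R := Qb) 0 (by norm_num)) (by norm_num) ℓ g)

lemma uval_locSgn_one (ℓ : Nat.Primes) (g : GQ) : uval (locSgn ℓ g 1) = -1 := by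
  rw [locSgn, zi_one, uval_jloc, uval_umk, map_neg, map_one, map_neg, map_one]

lemma jloc_sgnc (ℓ : Nat.Primes) (g : GQ) (f : GQ × GQ → ZMod 2) (x : GQ × GQ) :
    jloc ℓ g (sgnc f x) = locSgn ℓ g (f x) :=
  jloc_zi (IsPrimitiveRoot.neg_one (R := Qb) 0 (by norm_num)) (by norm_num) ℓ g (f x)

/-- local triviality of a `ZMod 2`-valued cocycle from a `ZMod 2`-valued cochain -/
theorem trivAt_sgnc {ℓ : Nat.Primes} {g : GQ} {f : GQ × GQ → ZMod 2}
    {Y : primeLocalGaloisGroup ℓ → ZMod 2} (hYc : (krullFam.comap (rloc ℓ g)).IsConst₁ Y)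
    (hY : ∀ x y, Y y - Y (x * y) + Y x = f (rloc ℓ g x, rloc ℓ g y)) :
    arithLoc.TrivAt (ℓ, g) ⊤ (sgnc f) := by
  rw [trivAt_iff]
  refine ⟨fun x => locSgn ℓ g (Y x), (hYc.comp (locSgn ℓ g)).comap _, fun a b => ?_⟩
  beta_reduce
  rw [jloc_sgnc, ← hY, map_add, map_sub, dd_apply]
  have : a • locSgn ℓ g (Y b) = locSgn ℓ g (Y b) :=
    smul_E (q := ℓ) (uval_locSgn_one ℓ g) (a : primeLocalGaloisGroup ℓ) _
  rw [this]
  rfl

/-- **Reciprocity at `q`.** -/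
theorem unramified_of_rec (q : Nat.Primes) (hq8 : (q : ℕ) % 8 = 7) {f : GQ × GQ → ZMod 2}
    (hf : ∀ a b c, f (a * b, c) + f (a, b) = f (b, c) + f (a, b * c))
    (hfc : krullFam.IsConst₂ f)
    (hloc : ∀ (ℓ : Nat.Primes) (g : GQ), ℓ ≠ q → arithLoc.TrivAt (ℓ, g) ⊤ (sgnc f))
    {c : GQ} {ι : Qb →+* ℂ} (hcι : ∀ x, ι (c x) = starRingEnd ℂ (ι x))
    (hinf : f (c, c) = f (1, 1)) {i : Qb} (hi : i ^ 2 = -1)
    {lam n Y : primeLocalGaloisGroup q → ZMod 2}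
    (hlamc : (krullFam.comap (rloc q 1)).IsConst₁ lam)
    (hlam : ∀ x y, lam (x * y) = lam x + lam y)
    (hlami : ∀ x, lam x = 0 ↔ rloc q 1 x i = i) (hne : ∃ x, lam x ≠ 0)
    (hnc : (krullFam.comap (rloc q 1)).IsConst₁ n)
    (hn : ∀ x y, n (x * y) = n x + n y)
    (hYc : (krullFam.comap (rloc q 1)).IsConst₁ Y)
    (hfq : ∀ x y, f (rloc q 1 x, rloc q 1 y) = lam x * n y + (Y y - Y (x * y) + Y x)) :
    ∀ x ∈ inert q, n x = 0 := by
  classical
  by_contra hcon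
  push Not at hcon
  have hq4 : (q : ℕ) % 4 = 3 := by omega
  obtain ⟨s, hs⟩ := IsAlgClosed.exists_pow_nat_eq (-((q : ℕ) : Qb)) two_pos
  have hE1 := uval_locSgn_one q 1
  have hF : IsCocycle₂ (sgnc f) := by
    intro a b c
    rw [sgnc_apply, sgnc_apply, sgnc_apply, sgnc_apply, smul_neg_one_zi, ← map_add, ← map_add]
    congr 1
    exact hf a b c
  have hFc : krullFam.IsConst₂ (sgnc f) := hfc.comp _
  have hi' : (embComp (q : ℕ) 1 i) ^ 2 = -1 := by rw [← map_pow, hi, map_neg, map_one]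
  have hS' : (embComp (q : ℕ) 1 s) ^ 2 = -((q : ℕ) : PadicAlgCl (q : ℕ)) := embComp_s_sq hs q 1
  have hlami' : ∀ x, lam x = 0 ↔ x • embComp (q : ℕ) 1 i = embComp (q : ℕ) 1 i := by
    intro x
    rw [hlami, ← embComp_rloc]
    exact (embComp (q : ℕ) 1).injective.eq_iff.symm
  obtain ⟨β, hβ⟩ := exists_beta hE1 hn hnc
  -- triviality over `ℚ_q(√-q)`
  have hlocq : ∀ g, arithLoc.TrivAt (q, g) (kumSub ⊤ s) (sgnc f) := by
    have hU : (kumSub (⊤ : Subgroup GQ) s).Normal := by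
      refine ⟨fun u hu v => ⟨trivial, ?_⟩⟩
      show v (u (v⁻¹ s)) = s
      have h1 : v⁻¹ s = s ∨ v⁻¹ s = -s := apply_s hs v⁻¹
      have h2 : v (v⁻¹ s) = s := by
        rw [← AlgEquiv.mul_apply, mul_inv_cancel]; rfl
      rcases h1 with h1 | h1
      · rw [h1] at h2 ⊢
        have h3 : u s = s := hu.2
        rw [h3, h2]
      · rw [h1] at h2 ⊢
        have h3 : u s = s := hu.2
        rw [map_neg, h3, h2]
    refine trivAt_of_one hU hF hFc ?_
    obtain ⟨Z, hZc, hZ⟩ := exists_cochain_of_sq hq4 hi' hS' hE1 hlamc hlam hlami' hβ hcon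
    rw [trivAt_iff]
    refine ⟨fun x => Z x + locSgn q 1 (Y x), ?_, fun a b => ?_⟩
    · exact (hZc.add (hYc.comp (locSgn q 1))).comap _
    · have ha : (a : primeLocalGaloisGroup q) • embComp (q : ℕ) 1 s = embComp (q : ℕ) 1 s :=
        smul_embComp_s' q 1 a.2
      have hb : (b : primeLocalGaloisGroup q) • embComp (q : ℕ) 1 s = embComp (q : ℕ) 1 s :=
        smul_embComp_s' q 1 b.2
      have h1 := hZ a b ha hb
      beta_reduce
      rw [jloc_sgnc, hfq, dd_apply, map_add, ← h1, map_add, map_sub]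
      have h2 := smul_E (q := q) hE1 (a : primeLocalGaloisGroup q) (Y b)
      show (a : primeLocalGaloisGroup q) • (Z b + locSgn q 1 (Y b)) -
        (Z ((a : primeLocalGaloisGroup q) * b) + locSgn q 1 (Y ((a : primeLocalGaloisGroup q) * b))) +
        (Z a + locSgn q 1 (Y a)) = _
      rw [smul_add, h2]
      abel
  have hF2 : ∀ x, (2 : ℕ) • sgnc f x = 0 := fun x => p_smul_zi _ _
  have htriv := trivAt_of_rec q hq8 hs hF hFc hF2 hloc hlocq hcι
    (by rw [sgnc_apply, sgnc_apply, hinf]) 1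
  obtain ⟨Z, hZc, hZ⟩ := (trivAt_iff q 1 ⊤ _).1 htriv
  obtain ⟨X1, X2, hX⟩ := exists_norm_of_triv (q := q) hi' hE1 hlam hlami' hne hn hβ
    (Y := fun x => Z ⟨x, trivial⟩ - locSgn q 1 (Y x)) (by
      rw [isConst₁_comap_iff] at hZc
      obtain ⟨V, hV, hVZ⟩ := hZc
      have h1 : (krullFam.comap (rloc q 1)).IsConst₁
          (fun x => Z (⟨x, trivial⟩ : (⊤ : Subgroup GQ).comap (rloc q 1))) :=
        ⟨V, hV, fun g s hs => hVZ ⟨g, trivial⟩ ⟨s, trivial⟩ hs⟩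
      exact h1.sub (hYc.comp (locSgn q 1))) (fun x y => by
      have h1 := hZ ⟨x, trivial⟩ ⟨y, trivial⟩
      beta_reduce at h1
      rw [jloc_sgnc, hfq, dd_apply, map_add, map_add, map_sub] at h1
      have h3 : x • Z ⟨y, trivial⟩ - Z ⟨x * y, trivial⟩ + Z ⟨x, trivial⟩ =
        locSgn q 1 (lam x * n y) +
          (locSgn q 1 (Y y) - locSgn q 1 (Y (x * y)) + locSgn q 1 (Y x)) := h1
      have h2 := smul_E (q := q) hE1 x (Y y)
      rw [smul_sub, h2]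
      linear_combination (norm := abel) h3)
  -- valuations
  obtain ⟨w, hw0, hw⟩ := exists_sq_of_ramified hq4 hE1 hβ hcon
  obtain ⟨z, hz⟩ := norm_form_one hq4 X1 X2
  have hqn : ‖((q : ℕ) : PadicAlgCl (q : ℕ))‖ = ((q : ℕ) : ℝ)⁻¹ := norm_prime_padicAlgCl (q : ℕ)
  have hwn : ‖(algebraMap ℚ_[(q : ℕ)] (PadicAlgCl (q : ℕ)) w)‖ = ‖w‖ := PadicAlgCl.norm_extends _ w
  have hbn : ‖uval β ^ 2‖ = ((q : ℕ) : ℝ)⁻¹ * ‖w‖ ^ 2 := by
    rcases hw with hw | hw
    · rw [hw, norm_mul, norm_neg, hqn, norm_pow, hwn]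
    · rw [hw, norm_mul, hqn, norm_pow, hwn]
  have hXn : ‖(uval β ^ 2)⁻¹‖ = ‖z‖ ^ 2 := by
    rw [hX, ← hz]
    exact PadicAlgCl.norm_extends _ _
  refine norm_parity (q := q) (z := z) (w := w⁻¹) (inv_ne_zero hw0) ?_
  rw [← hXn, norm_inv, hbn, norm_inv, mul_inv, inv_inv, inv_pow]

end Fermat.Agent.H54T
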