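import Mathlib
import Fermat.Agent.H54TGlob
import Fermat.Agent.H6MDDefs
import Fermat.Agent.H47LocTriv
import Fermat.Agent.H28FrobGen

/-!
# The cup product of two Selmer cocycles with values in `E[2]`
-/

set_option autoImplicit false
set_option maxSynthPendingDepth 3

namespace Fermat.Agent.H54T

open ExtCitation Fermat.Agent.H54 Fermat.Agent.H55 Fermat.Agent.H91 Fermat.Agent.H7
open IsDedekindDomain NumberField Module IntermediateField LevelFam
open groupCohomology (IsCocycle₁ IsCocycle₂)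
open Fermat.Agent.H6.MD
open scoped Pointwise

attribute [local instance] factNatPrimes

section form

/-- the alternating form on `V` -/
def e2 (u v : V2) : ZMod 2 := u 0 * v 1 + u 1 * v 0

lemma e2_add_left (u u' v : V2) : e2 (u + u') v = e2 u v + e2 u' v := by
  simp only [e2, Pi.add_apply]; ring

lemma e2_add_right (u v v' : V2) : e2 u (v + v') = e2 u v + e2 u v' := by
  simp only [e2, Pi.add_apply]; ring

lemma e2_sub_left (u u' v : V2) : e2 (u - u') v = e2 u v - e2 u' v := by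
  simp only [e2, Pi.sub_apply]; ring

lemma e2_sub_right (u v v' : V2) : e2 u (v - v') = e2 u v - e2 u v' := by
  simp only [e2, Pi.sub_apply]; ring

lemma e2_smul_right (u v : V2) (z : ZMod 2) : e2 u (z • v) = e2 u v * z := by
  simp only [e2, Pi.smul_apply, smul_eq_mul]; ring

@[simp] lemma e2_zero_left (v : V2) : e2 0 v = 0 := by simp [e2]

@[simp] lemma e2_zero_right (v : V2) : e2 v 0 = 0 := by simp [e2]

lemma mv0 (A : Matrix (Fin 2) (Fin 2) (ZMod 2)) (u : V2) : mv A u 0 = A 0 0 * u 0 + A 0 1 * u 1 := by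
  simp [mv, Fin.sum_univ_two]

lemma mv1 (A : Matrix (Fin 2) (Fin 2) (ZMod 2)) (u : V2) : mv A u 1 = A 1 0 * u 0 + A 1 1 * u 1 := by
  simp [mv, Fin.sum_univ_two]

/-- the form is invariant -/
lemma e2_mv (A : GL (Fin 2) (ZMod 2)) (u v : V2) : e2 (mv A.val u) (mv A.val v) = e2 u v := by
  have h0 : A.val.det ≠ 0 := ((Matrix.isUnit_iff_isUnit_det _).1 A.isUnit).ne_zero
  have h1 : A.val.det = 1 := (zmod2_cases _).resolve_left h0
  rw [Matrix.det_fin_two] at h1
  have h2 : (2 : ZMod 2) = 0 := by decide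
  simp only [e2, mv0, mv1]
  linear_combination (u 0 * v 1 + u 1 * v 0) * h1 +
    (A.val 0 0 * A.val 1 0 * u 0 * v 0 + A.val 0 1 * A.val 1 1 * u 1 * v 1 +
      A.val 0 1 * A.val 1 0 * (u 0 * v 1 + u 1 * v 0)) * h2

lemma e2_fixed_aux : ∀ a b c d u0 u1 v0 v1 : ZMod 2, a * u0 + b * u1 = u0 → c * u0 + d * u1 = u1 →
    a * v0 + b * v1 = v0 → c * v0 + d * v1 = v1 →
    u0 * v1 + u1 * v0 = 0 ∨ (a = 1 ∧ b = 0 ∧ c = 0 ∧ d = 1) := by
  decide

/-- two vectors fixed by `A ≠ 1` are orthogonal -/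
lemma e2_eq_zero_of_fixed {A : GL (Fin 2) (ZMod 2)} (hA : A ≠ 1) {u v : V2}
    (hu : mv A.val u = u) (hv : mv A.val v = v) : e2 u v = 0 := by
  have h0 := congrFun hu 0
  have h1 := congrFun hu 1
  have h2 := congrFun hv 0
  have h3 := congrFun hv 1
  rw [mv0] at h0 h2
  rw [mv1] at h1 h3
  rcases e2_fixed_aux _ _ _ _ _ _ _ _ h0 h1 h2 h3 with h | ⟨ha, hb, hc, hd⟩
  · exact h
  · exfalso
    apply hA
    apply Units.ext
    ext i j
    fin_cases i <;> fin_cases j
    · exact ha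
    · exact hb
    · exact hc
    · exact hd

lemma mem_line_aux : ∀ u0 u1 t0 t1 : ZMod 2, u0 * t1 + u1 * t0 = 0 → (t0 = 0 ∧ t1 = 0) ∨
    (u0 = 0 ∧ u1 = 0) ∨ (u0 = t0 ∧ u1 = t1) := by
  decide

lemma mem_line {u t : V2} (ht : t ≠ 0) (h : e2 u t = 0) : u = 0 ∨ u = t := by
  rcases mem_line_aux _ _ _ _ h with ⟨h1, h2⟩ | ⟨h1, h2⟩ | ⟨h1, h2⟩
  · exfalso
    apply ht
    funext i
    fin_cases i
    · exact h1
    · exact h2
  · left
    funext i
    fin_cases i
    · exact h1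
    · exact h2
  · right
    funext i
    fin_cases i
    · exact h1
    · exact h2

/-- the fixed line of a transposition -/
lemma exists_fixed_line {A : GL (Fin 2) (ZMod 2)} (hA : A ≠ 1) (hA2 : A * A = 1) :
    ∃ t : V2, t ≠ 0 ∧ mv A.val t = t ∧ ∀ u : V2, (∀ w : V2, u ≠ mv A.val w - w) → e2 u t ≠ 0 := by
  obtain ⟨w, hw⟩ : ∃ w : V2, mv A.val w ≠ w := by
    by_contra hcon
    push Not at hcon
    apply hA
    apply Units.ext
    ext i j
    have h := congrFun (hcon (Pi.single j 1)) i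
    rw [mv_eq_mulVec, Matrix.mulVec_single_one] at h
    have h' : A.val i j = (Pi.single j 1 : V2) i := h
    rw [h', Pi.single_apply, Units.val_one, Matrix.one_apply]
  have hA2' : A.val * A.val = 1 := congrArg Units.val hA2
  refine ⟨mv A.val w - w, sub_ne_zero.2 hw, ?_, fun u hu h0 => ?_⟩
  · rw [mv_sub, ← mv_mul, hA2', mv_one]
    have h1 := two_eq_zero w
    have h2 := two_eq_zero (mv A.val w)
    have e1 : w = -w := by rw [eq_neg_iff_add_eq_zero]; exact h1
    have e2' : -mv A.val w = mv A.val w := by rw [eq_comm, eq_neg_iff_add_eq_zero]; exact h2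
    rw [sub_eq_add_neg, e2', sub_eq_add_neg, ← e1, add_comm]
  · rcases mem_line (sub_ne_zero.2 hw) h0 with h | h
    · exact hu 0 (by rw [h, mv_zero, sub_zero])
    · exact hu w h

end form

section cup

variable {Γ : Type*} [Group Γ] {rb : Γ →* GL (Fin 2) (ZMod 2)}

lemma Coc.map_one {b : Γ → V2} (hb : Coc rb b) : b 1 = 0 := by
  have := hb 1 1
  rw [mul_one, MonoidHom.map_one] at this
  have h2 : mv (1 : GL (Fin 2) (ZMod 2)).val (b 1) = b 1 := mv_one _
  rw [h2] at this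
  exact left_eq_add.1 this

/-- the cup product -/
def cup (rb : Γ →* GL (Fin 2) (ZMod 2)) (b b' : Γ → V2) : Γ × Γ → ZMod 2 :=
  fun x => e2 (b x.1) (mv (rb x.1).val (b' x.2))

lemma mv_rb_mul (g h : Γ) (v : V2) : mv (rb (g * h)).val v = mv (rb g).val (mv (rb h).val v) := by
  rw [map_mul, Units.val_mul, mv_mul]

lemma cup_cocycle {b b' : Γ → V2} (hb : Coc rb b) (hb' : Coc rb b') (g h j : Γ) :
    cup rb b b' (g * h, j) + cup rb b b' (g, h) = cup rb b b' (h, j) + cup rb b b' (g, h * j) := by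
  simp only [cup]
  rw [hb g h, hb' h j, mv_add, e2_add_left, e2_add_right, mv_rb_mul, e2_mv]
  ring

lemma cup_dw_right {b : Γ → V2} (hb : Coc rb b) (w : V2) (g h : Γ) :
    e2 (b g) (mv (rb g).val (mv (rb h).val w - w)) =
      e2 (b h) (mv (rb h).val w) - e2 (b (g * h)) (mv (rb (g * h)).val w) +
        e2 (b g) (mv (rb g).val w) := by
  have h2 : ∀ z : ZMod 2, z + z = 0 := by decide
  rw [hb g h, mv_sub, e2_sub_right, e2_add_left, mv_rb_mul, e2_mv]
  linear_combination h2 (e2 (b g) (mv (rb g).val (mv (rb h).val w))) -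
    h2 (e2 (b g) (mv (rb g).val w))

lemma cup_dw_left {b' : Γ → V2} (hb' : Coc rb b') (w : V2) (g h : Γ) :
    e2 (mv (rb g).val w - w) (mv (rb g).val (b' h)) =
      e2 w (b' h) - e2 w (b' (g * h)) + e2 w (b' g) := by
  rw [hb' g h, e2_sub_left, e2_mv, e2_add_right]
  ring

/-- subtracting a coboundary -/
lemma Coc.sub_cob {b : Γ → V2} (hb : Coc rb b) (w : V2) :
    Coc rb (fun g => b g - (mv (rb g).val w - w)) := by
  intro g h
  show b (g * h) - (mv (rb (g * h)).val w - w) = _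
  rw [hb g h, mv_rb_mul]
  simp only [mv_sub]
  abel

/-- the cup product of two classes in the local condition is a coboundary -/
theorem cup_inL {D : Subgroup Γ} (hD : ∃ g ∈ D, rb g ≠ 1) {b b' : Γ → V2} (hb : Coc rb b)
    (hb' : Coc rb b') {w w' : V2}
    (h : ∀ g ∈ D, ∀ h ∈ D, mv (rb h).val (b g - (mv (rb g).val w - w)) =
      b g - (mv (rb g).val w - w))
    (h' : ∀ g ∈ D, ∀ h ∈ D, mv (rb h).val (b' g - (mv (rb g).val w' - w')) =
      b' g - (mv (rb g).val w' - w')) {g₁ g₂ : Γ} (hg₁ : g₁ ∈ D) (hg₂ : g₂ ∈ D) :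
    cup rb b b' (g₁, g₂) =
      (e2 (b g₂) (mv (rb g₂).val w') + e2 w (b' g₂ - (mv (rb g₂).val w' - w'))) -
      (e2 (b (g₁ * g₂)) (mv (rb (g₁ * g₂)).val w') +
        e2 w (b' (g₁ * g₂) - (mv (rb (g₁ * g₂)).val w' - w'))) +
      (e2 (b g₁) (mv (rb g₁).val w') + e2 w (b' g₁ - (mv (rb g₁).val w' - w'))) := by
  obtain ⟨g₀, hg₀, hne⟩ := hD
  have e1 := cup_dw_right hb w' g₁ g₂
  have e3 := cup_dw_left (Coc.sub_cob hb' w') w g₁ g₂
  beta_reduce at e3
  have e4 : e2 (b g₁ - (mv (rb g₁).val w - w)) (mv (rb g₁).val (b' g₂ - (mv (rb g₂).val w' - w')))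
      = 0 := by
    rw [h' g₂ hg₂ g₁ hg₁]
    exact e2_eq_zero_of_fixed hne (h g₁ hg₁ g₀ hg₀) (h' g₂ hg₂ g₀ hg₀)
  rw [e2_sub_left] at e4
  have e5 : cup rb b b' (g₁, g₂) = e2 (b g₁) (mv (rb g₁).val (mv (rb g₂).val w' - w')) +
      e2 (b g₁) (mv (rb g₁).val (b' g₂ - (mv (rb g₂).val w' - w'))) := by
    rw [cup, ← e2_add_right, ← mv_add]
    congr 2
    abel
  rw [e5, e1]
  linear_combination e4 + e3

end cup

end Fermat.Agent.H54T
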