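import Mathlib
import Fermat.Agent.H54TCup
import Fermat.Agent.H47ShaU2

/-!
# Reciprocity for Selmer cocycles with values in `E[2]` (Step D of LT-MOD2)
-/

set_option autoImplicit false
set_option maxSynthPendingDepth 3

namespace Fermat.Agent.H54T

open ExtCitation Fermat.Agent.H54 Fermat.Agent.H55 Fermat.Agent.H91 Fermat.Agent.H7
open IsDedekindDomain NumberField Module IntermediateField LevelFam
open groupCohomology (IsCocycle₁ IsCocycle₂)
open Fermat.Agent.H6.MD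
open scoped Pointwise

attribute [local instance] factNatPrimes

section const

lemma isConst_of_levC {X : Type*} {f : GQ → X} (hf : LevC f) : krullFam.IsConst₁ f := by
  obtain ⟨F, hF, h⟩ := hf
  refine ⟨F.fixingSubgroup, ⟨F, hF, rfl⟩, fun g s hs => h g s fun x hx => ?_⟩
  exact (IntermediateField.mem_fixingSubgroup_iff F s).1 hs x hx

variable {rb : GQ →* GL (Fin 2) (ZMod 2)} {b b' : GQ → V2}

/-- the subgroup on which everything is trivial -/
def trivSub (hb : Coc rb b) (hb' : Coc rb b') : Subgroup GQ where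
  carrier := {τ | b τ = 0 ∧ b' τ = 0 ∧ ∀ h, mv (rb τ).val (b' h) = b' h}
  mul_mem' := by
    rintro σ τ ⟨h1, h2, h3⟩ ⟨h4, h5, h6⟩
    refine ⟨?_, ?_, fun h => ?_⟩
    · rw [hb, h1, h4, mv_zero, add_zero]
    · rw [hb', h2, h5, mv_zero, add_zero]
    · rw [mv_rb_mul, h6, h3]
  one_mem' := by
    refine ⟨Coc.map_one hb, Coc.map_one hb', fun h => ?_⟩
    rw [map_one]
    exact mv_one _
  inv_mem' := by
    rintro τ ⟨h1, h2, h3⟩
    refine ⟨?_, ?_, fun h => ?_⟩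
    · have := hb τ⁻¹ τ
      rw [inv_mul_cancel, Coc.map_one hb, h1, mv_zero, add_zero] at this
      exact this.symm
    · have := hb' τ⁻¹ τ
      rw [inv_mul_cancel, Coc.map_one hb', h2, mv_zero, add_zero] at this
      exact this.symm
    · have h4 : mv (rb (τ⁻¹ * τ)).val (b' h) = b' h := by
        rw [inv_mul_cancel, map_one]; exact mv_one _
      rw [mv_rb_mul, h3] at h4
      exact h4

lemma trivSub_open (hb : Coc rb b) (hb' : Coc rb b') (hl : LevC b) (hl' : LevC b') :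
    krullFam.IsOpenSubgroup (trivSub hb hb') := by
  obtain ⟨V, hV, hVn, -, h⟩ := ((isConst_of_levC hl).prodMk (isConst_of_levC hl')).exists_normal
  have h1 : ∀ g, ∀ s ∈ V, b (g * s) = b g := fun g s hs => congrArg Prod.fst (h g s hs)
  have h2 : ∀ g, ∀ s ∈ V, b' (g * s) = b' g := fun g s hs => congrArg Prod.snd (h g s hs)
  refine ⟨V, hV, fun s hs => ⟨?_, ?_, fun h => ?_⟩⟩
  · have := h1 1 s hs
    rwa [one_mul, Coc.map_one hb] at this
  · have := h2 1 s hs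
    rwa [one_mul, Coc.map_one hb'] at this
  · have h3 : b' s = 0 := by
      have := h2 1 s hs
      rwa [one_mul, Coc.map_one hb'] at this
    have h4 := hb' s h
    rw [h3, zero_add] at h4
    have h5 : s * h = h * (h⁻¹ * s * h) := by group
    have h6 : h⁻¹ * s * h ∈ V := by
      have := hVn.conj_mem s hs h⁻¹
      rwa [inv_inv] at this
    rw [← h4, h5, h2 _ _ h6]

lemma cup_trivSub (hb : Coc rb b) (hb' : Coc rb b') (g h : GQ) {s s' : GQ}
    (hs : s ∈ trivSub hb hb') (hs' : s' ∈ trivSub hb hb') :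
    cup rb b b' (g * s, h * s') = cup rb b b' (g, h) := by
  obtain ⟨h1, h2, h3⟩ := hs
  obtain ⟨h4, h5, h6⟩ := hs'
  simp only [cup]
  rw [hb g s, h1, mv_zero, add_zero, hb' h s', h5, mv_zero, add_zero, mv_rb_mul, h3]

lemma cup_const (hb : Coc rb b) (hb' : Coc rb b') (hl : LevC b) (hl' : LevC b') :
    krullFam.IsConst₂ (cup rb b b') := by
  obtain ⟨V, hV, hle⟩ := trivSub_open hb hb' hl hl'
  exact ⟨V, hV, fun g h s hs s' hs' => cup_trivSub hb hb' g h (hle hs) (hle hs')⟩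

end const

section places

lemma rloc_mem_dec (ℓ : Nat.Primes) (g : GQ) (x : primeLocalGaloisGroup ℓ) :
    rloc ℓ g x ∈ (g⁻¹ • padicPlace (ℓ : ℕ)).decompositionSubgroup ℚ :=
  rloc_smul_place ℓ g x

lemma liesOver_place (ℓ : Nat.Primes) (g : GQ) :
    (g⁻¹ • padicPlace (ℓ : ℕ)).LiesOverPrime (ℓ : ℕ) :=
  liesOverPrime_smul' (liesOverPrime_padicPlace (q := (ℓ : ℕ))) g⁻¹

lemma rloc_one (ℓ : Nat.Primes) (x : primeLocalGaloisGroup ℓ) :
    rloc ℓ 1 x = primeLocalToGlobal ℓ x := by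
  rw [rloc_apply]; group

lemma norm_sub_lt' {ℓ : Nat.Primes} {x y : PadicAlgCl (ℓ : ℕ)} {r : ℝ} (hx : ‖x‖ < r)
    (hy : ‖y‖ < r) : ‖x - y‖ < r := by
  rw [sub_eq_add_neg]
  exact (IsUltrametricDist.norm_add_le_max _ _).trans_lt (max_lt hx (by rwa [norm_neg]))

/-- local inertia acts trivially modulo the maximal ideal -/
lemma mem_inert {ℓ : Nat.Primes} {x : primeLocalGaloisGroup ℓ}
    (hx : rloc ℓ 1 x ∈ (padicPlace (ℓ : ℕ)).inertiaSubgroupIn ℚ) : x ∈ inert ℓ := by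
  intro z hz
  rw [mem_inertiaSubgroupIn_iff] at hx
  obtain ⟨z₀, hz₀', -⟩ := exists_padicEmbedding_near (ℓ : ℕ) z one_pos
  have h1 : ‖padicEmbedding (ℓ : ℕ) z₀‖ ≤ 1 := by
    have h2 : padicEmbedding (ℓ : ℕ) z₀ = z + -(z - padicEmbedding (ℓ : ℕ) z₀) := by ring
    rw [h2]
    refine (IsUltrametricDist.norm_add_le_max _ _).trans (max_le hz ?_)
    rw [norm_neg]
    exact hz₀'.le
  have h3 := hx.2 z₀ h1
  rw [mem_nonunits_padicPlace_iff, map_sub] at h3
  have h4 : padicEmbedding (ℓ : ℕ) (rloc ℓ 1 x z₀) = x • padicEmbedding (ℓ : ℕ) z₀ := by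
    rw [rloc_one]
    exact padicEmbedding_localGaloisToGlobal (ℓ : ℕ) x z₀
  rw [h4] at h3
  have h5 : x • z - z = (x • (z - padicEmbedding (ℓ : ℕ) z₀)) +
      ((x • padicEmbedding (ℓ : ℕ) z₀ - padicEmbedding (ℓ : ℕ) z₀) -
        (z - padicEmbedding (ℓ : ℕ) z₀)) := by
    rw [smul_sub]; ring
  have h6 : ‖x • (z - padicEmbedding (ℓ : ℕ) z₀)‖ < 1 := by
    have : ‖x • (z - padicEmbedding (ℓ : ℕ) z₀)‖ = ‖z - padicEmbedding (ℓ : ℕ) z₀‖ :=
      norm_padicAlgCl_algEquiv x _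
    rw [this]
    exact hz₀'
  rw [h5]
  refine (IsUltrametricDist.norm_add_le_max _ _).trans_lt (max_lt h6 ?_)
  exact norm_sub_lt' h3 hz₀'

end places

section unram

variable {rb : GQ →* GL (Fin 2) (ZMod 2)} {b b' : GQ → V2}

/-- local triviality at unramified primes -/
theorem trivAt_unram (hb : Coc rb b) (hb' : Coc rb b') (hl : LevC b) (hl' : LevC b')
    {S : Finset Nat.Primes} (h2S : ∀ ℓ : Nat.Primes, (ℓ : ℕ) = 2 → ℓ ∈ S)
    (hunr : ∀ ℓ : Nat.Primes, ℓ ∉ S → ∀ P : ValuationSubring Qb, P.LiesOverPrime (ℓ : ℕ) →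
      ∀ τ ∈ P.inertiaSubgroupIn ℚ, τ ∈ trivSub hb hb')
    {ℓ : Nat.Primes} (hℓ : ℓ ∉ S) (g : GQ) :
    arithLoc.TrivAt (ℓ, g) ⊤ (sgnc (cup rb b b')) := by
  have hW : (ramLevels S).op (trivSub hb hb') := by
    obtain ⟨F, hF, hFW⟩ := (op_krullLevels_iff _).1 (show krullLevels.op (trivSub hb hb') from
      trivSub_open hb hb' hl hl')
    refine (op_ramLevels_iff S _).2 ⟨F, ⟨hF, fun ℓ hℓ P hP τ hτ => ?_⟩, hFW⟩
    rw [hFW]
    exact hunr ℓ hℓ P hP τ hτ
  set K : IntermediateField ℚ Qb := ⊥ with hK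
  have hKt : ∀ x : GQ, x ∈ K.fixingSubgroup := by
    intro x
    rw [hK, IntermediateField.fixingSubgroup_bot]
    trivial
  let f : K.fixingSubgroup × K.fixingSubgroup → ZMod 2 := fun x => cup rb b b' (x.1, x.2)
  have hf : f ∈ Z2 ((ramLevels S).onSub K.fixingSubgroup)
      (Representation.trivial (ZMod 2) K.fixingSubgroup (ZMod 2)) := by
    refine ⟨⟨(trivSub hb hb').subgroupOf K.fixingSubgroup, ⟨_, hW, le_rfl⟩,
      fun x y s hs s' hs' => cup_trivSub hb hb' x y hs hs'⟩, fun x y z => ?_⟩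
    exact cup_cocycle hb hb' x y z
  obtain ⟨y, hy, hyd⟩ := H47.locTriv (p := 2) (K := K) (ζ := (-1 : Qb))
    (IsPrimitiveRoot.neg_one 0 (by norm_num)) (by rw [hK]; exact neg_mem (one_mem _)) h2S
    (isUnramifiedOutside_bot S) hℓ g hf
  have hmem : ∀ x : primeLocalGaloisGroup ℓ, x ∈ dec (primeLocalToGlobal ℓ) K.fixingSubgroup g :=
    fun x => hKt _
  have hyc := H47.isConst₁_rloc g hy
  refine trivAt_sgnc (Y := fun x => y ⟨x, hmem x⟩) ?_ (fun s t => ?_)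
  · rw [isConst₁_comap_iff] at hyc
    obtain ⟨V, hV, hVy⟩ := hyc
    exact ⟨V, hV, fun a s hs => hVy ⟨a, hmem a⟩ ⟨s, hmem s⟩ hs⟩
  · have := hyd ⟨s, hmem s⟩ ⟨t, hmem t⟩
    exact this

/-- local triviality at the bad primes -/
theorem trivAt_bad (hb : Coc rb b) (hb' : Coc rb b') (hl : LevC b) (hl' : LevC b')
    (hrb : LevC (fun g => rb g)) {ℓ : Nat.Primes} (g : GQ)
    (hbad : ∃ x ∈ (g⁻¹ • padicPlace (ℓ : ℕ)).decompositionSubgroup ℚ, rb x ≠ 1)
    (h : InL rb (g⁻¹ • padicPlace (ℓ : ℕ)) b) (h' : InL rb (g⁻¹ • padicPlace (ℓ : ℕ)) b') :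
    arithLoc.TrivAt (ℓ, g) ⊤ (sgnc (cup rb b b')) := by
  obtain ⟨w, hw⟩ := h
  obtain ⟨w', hw'⟩ := h'
  have hc1 := isConst_of_levC hl
  have hc2 := isConst_of_levC hl'
  have hc3 := isConst_of_levC hrb
  have hYc : krullFam.IsConst₁ (fun x => e2 (b x) (mv (rb x).val w') +
      e2 w (b' x - (mv (rb x).val w' - w'))) := by
    have h1 := (hc1.prodMk (hc2.prodMk hc3)).comp
      (fun p : V2 × V2 × GL (Fin 2) (ZMod 2) => e2 p.1 (mv p.2.2.val w') +
        e2 w (p.2.1 - (mv p.2.2.val w' - w')))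
    exact h1
  refine trivAt_sgnc (hYc.comap (rloc ℓ g)) (fun x y => ?_)
  rw [map_mul]
  exact (cup_inL hbad hb hb' hw hw' (rloc_mem_dec ℓ g x) (rloc_mem_dec ℓ g y)).symm

end unram

end Fermat.Agent.H54T
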