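import Mathlib
import Fermat.Agent.H54TRecip

/-!
# Reciprocity for Selmer cocycles with values in `E[2]` (II)
-/

set_option autoImplicit false
set_option maxSynthPendingDepth 3

namespace Fermat.Agent.H54T

open ExtCitation Fermat.Agent.H54 Fermat.Agent.H55 Fermat.Agent.H91 Fermat.Agent.H7
open IsDedekindDomain NumberField Module IntermediateField LevelFam
open groupCohomology (IsCocycle₁ IsCocycle₂)
open Fermat.Agent.H6.MD
open scoped Pointwise

attribute [local instance] factNatPrimes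

section frob

variable {i : Qb} (hi : i ^ 2 = -1)

include hi

lemma apply_i (σ : GQ) : σ i = i ∨ σ i = -i := by
  have h1 : (σ i) ^ 2 = i ^ 2 := by rw [← map_pow, hi, map_neg, map_one]
  exact sq_eq_sq_iff_eq_or_eq_neg.1 h1

lemma norm_emb_i (q : Nat.Primes) : ‖padicEmbedding (q : ℕ) i‖ = 1 := by
  have h1 : ‖padicEmbedding (q : ℕ) i‖ ^ 2 = 1 := by
    rw [← norm_pow, ← map_pow, hi, map_neg, map_one, norm_neg, norm_one]
  exact (pow_eq_one_iff_of_nonneg (norm_nonneg _) two_ne_zero).1 h1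

lemma norm_two_i {q : Nat.Primes} (hq2 : (q : ℕ) ≠ 2) : ‖padicEmbedding (q : ℕ) (i + i)‖ = 1 := by
  have h3 : ‖(2 : PadicAlgCl (q : ℕ))‖ = 1 := by
    have h4 : ‖((2 : ℚ_[(q : ℕ)]) : PadicAlgCl (q : ℕ))‖ = ‖(2 : ℚ_[(q : ℕ)])‖ :=
      PadicAlgCl.norm_extends _ _
    have h5 : ‖(2 : ℚ_[(q : ℕ)])‖ = 1 := by
      have h6 : ‖((2 : ℤ) : ℚ_[(q : ℕ)])‖ = 1 := by
        rw [Padic.norm_intCast_eq_one_iff]
        have h7 : Nat.Coprime 2 (q : ℕ) := (Nat.coprime_primes Nat.prime_two q.2).2 hq2.symm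
        exact Int.isCoprime_iff_gcd_eq_one.2 h7
      simpa using h6
    rw [h5] at h4
    have h8 : ((2 : ℚ_[(q : ℕ)]) : PadicAlgCl (q : ℕ)) = (2 : PadicAlgCl (q : ℕ)) :=
      map_ofNat (algebraMap ℚ_[(q : ℕ)] (PadicAlgCl (q : ℕ))) 2
    rwa [h8] at h4
  rw [map_add, ← two_mul, norm_mul, h3, norm_emb_i hi, mul_one]

/-- inertia at odd primes fixes `i` -/
lemma inertia_i {q : Nat.Primes} (hq2 : (q : ℕ) ≠ 2) {τ : GQ}
    (hτ : τ ∈ (padicPlace (q : ℕ)).inertiaSubgroupIn ℚ) : τ i = i := by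
  rw [mem_inertiaSubgroupIn_iff] at hτ
  refine (apply_i hi τ).resolve_right fun h => ?_
  have h1 := hτ.2 i (show ‖padicEmbedding (q : ℕ) i‖ ≤ 1 from (norm_emb_i hi q).le)
  rw [mem_nonunits_padicPlace_iff, h] at h1
  have h2 : -i - i = -(i + i) := by ring
  rw [h2, map_neg, norm_neg, norm_two_i hi hq2] at h1
  exact lt_irrefl _ h1

/-- Frobenius at `q ≡ 3 mod 4` moves `i` -/
lemma frobenius_i {q : Nat.Primes} (hq4 : (q : ℕ) % 4 = 3) {φ : GQ}
    (hφ : (padicPlace (q : ℕ)).IsFrobeniusAt φ (q : ℕ)) : φ i = -i := by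
  have hq2 : (q : ℕ) ≠ 2 := by intro h; rw [h] at hq4; norm_num at hq4
  rw [H6.isFrobeniusAt_iff] at hφ
  refine (apply_i hi φ).resolve_left fun h => ?_
  have h1 := hφ.2 i (show ‖padicEmbedding (q : ℕ) i‖ ≤ 1 from (norm_emb_i hi q).le)
  have h4 : i ^ (q : ℕ) = -i := by
    have h5 : (q : ℕ) = 4 * ((q : ℕ) / 4) + 3 := by omega
    rw [h5, pow_add, pow_mul]
    have h6 : i ^ 4 = 1 := by
      have : i ^ 4 = (i ^ 2) ^ 2 := by ring
      rw [this, hi]; ring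
    have h7 : i ^ 3 = -i := by
      have : i ^ 3 = i ^ 2 * i := by ring
      rw [this, hi]; ring
    rw [h6, one_pow, one_mul, h7]
  rw [mem_nonunits_padicPlace_iff, h, h4, sub_neg_eq_add, norm_two_i hi hq2] at h1
  exact lt_irrefl _ h1

omit hi in
lemma pow_frobenius_i {φ : GQ} (h : φ i = -i) (n : ℕ) : (φ ^ n) i = (-1) ^ n * i := by
  induction n with
  | zero => simp
  | succ n ih =>
    rw [pow_succ', AlgEquiv.mul_apply, ih, map_mul, h, map_pow, map_neg, map_one, pow_succ]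
    ring

end frob

lemma zsmul_aux (n : ℕ) : ((n : ZMod 2) = 0) ↔ Even n := by
  rw [ZMod.natCast_eq_zero_iff, even_iff_two_dvd]

/-- **Reciprocity** (Step D of LT-MOD2). -/
theorem recip {rb : GQ →* GL (Fin 2) (ZMod 2)} {S : Finset ℕ} {q : ℕ} (hq : q.Prime)
    (hq8 : q % 8 = 7) (hqS : q ∉ S) (h2S : 2 ∈ S) (hrb : LevC (fun g => rb g))
    (hunr : ∀ ℓ : ℕ, ℓ.Prime → ℓ ∉ S → ∀ P : ValuationSubring Qb, P.LiesOverPrime ℓ →
      ∀ τ ∈ P.inertiaSubgroupIn ℚ, rb τ = 1)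
    (hbad : ∀ ℓ ∈ S, ℓ.Prime → ∀ P : ValuationSubring Qb, P.LiesOverPrime ℓ →
      ∃ g ∈ P.decompositionSubgroup ℚ, rb g ≠ 1)
    {c : GQ} {ι : Qb →+* ℂ} (hcι : ∀ x, ι (c x) = starRingEnd ℂ (ι x)) (hc : rb c ≠ 1)
    (hfrob : ∀ P : ValuationSubring Qb, P.LiesOverPrime q → ∀ φ : GQ, P.IsFrobeniusAt φ q →
      rb φ ≠ 1 ∧ rb φ * rb φ = 1) : Recip rb S q := by
  classical
  intro b b' hb hb' hl hl' h1 h2 h3 h4
  obtain ⟨Q, hQ⟩ : ∃ Q : Nat.Primes, (Q : ℕ) = q := ⟨⟨q, hq⟩, rfl⟩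
  subst hQ
  have hq4 : (Q : ℕ) % 4 = 3 := by omega
  have hq2 : (Q : ℕ) ≠ 2 := by intro h; rw [h] at hq8; norm_num at hq8
  have hcc : c * c = 1 := by
    ext x
    apply ι.injective
    show ι (c (c x)) = ι x
    rw [hcι, hcι, Complex.conj_conj]
  -- local triviality away from `q`
  have hloc : ∀ (ℓ : Nat.Primes) (g : GQ), ℓ ≠ Q →
      arithLoc.TrivAt (ℓ, g) ⊤ (sgnc (cup rb b b')) := by
    intro ℓ g hne
    by_cases hℓS : (ℓ : ℕ) ∈ S
    · have hP := liesOver_place ℓ g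
      obtain ⟨h5, h6⟩ := h2 ℓ hℓS _ hP
      exact trivAt_bad hb hb' hl hl' hrb g (hbad ℓ hℓS ℓ.2 _ hP) h5 h6
    · let S' : Finset Nat.Primes := Finset.subtype Nat.Prime (insert (Q : ℕ) S)
      have hS' : ∀ ℓ : Nat.Primes, ℓ ∈ S' ↔ (ℓ : ℕ) = Q ∨ (ℓ : ℕ) ∈ S := by
        intro ℓ
        have : ℓ ∈ S' ↔ (ℓ : ℕ) ∈ insert (Q : ℕ) S := Finset.mem_subtype
        rw [this, Finset.mem_insert]
      refine trivAt_unram hb hb' hl hl' (S := S') (fun ℓ hℓ => (hS' ℓ).2 (Or.inr (by rw [hℓ]; exact h2S)))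
        (fun ℓ hℓ P hP τ hτ => ?_) (fun h => ?_) g
      · rw [hS', not_or] at hℓ
        obtain ⟨h5, h6⟩ := h1 ℓ ℓ.2 hℓ.2 hℓ.1 P hP
        refine ⟨h5 τ hτ, h6 τ hτ, fun h => ?_⟩
        rw [hunr ℓ ℓ.2 hℓ.2 P hP τ hτ]
        exact mv_one _
      · rw [hS'] at h
        rcases h with h | h
        · exact hne (Subtype.ext h)
        · exact hℓS h
  -- infinity
  have hinf : cup rb b b' (c, c) = cup rb b b' (1, 1) := by
    have hfix : ∀ {a : GQ → V2}, Coc rb a → mv (rb c).val (a c) = a c := by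
      intro a ha
      have h5 := ha c c
      rw [hcc, Coc.map_one ha] at h5
      have h6 := two_eq_zero (a c)
      have : mv (rb c).val (a c) = -a c := by
        rw [eq_neg_iff_add_eq_zero, add_comm]; exact h5.symm
      rw [this, neg_eq_iff_add_eq_zero]; exact h6
    have h7 : cup rb b b' (1, 1) = 0 := by
      simp only [cup]
      rw [Coc.map_one hb, e2_zero_left]
    rw [h7]
    simp only [cup]
    rw [hfix hb']
    exact e2_eq_zero_of_fixed hc (hfix hb) (hfix hb')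
  -- the place `q`
  obtain ⟨i, hi⟩ := IsAlgClosed.exists_pow_nat_eq (-1 : Qb) two_pos
  set P₁ := padicPlace (Q : ℕ) with hP₁
  have hP : P₁.LiesOverPrime (Q : ℕ) := liesOverPrime_padicPlace (q := (Q : ℕ))
  obtain ⟨φ, hφ⟩ := exists_isFrobeniusAt Q.2 hP
  obtain ⟨hA, hA2⟩ := hfrob P₁ hP φ hφ
  obtain ⟨t, ht0, htf, ht⟩ := exists_fixed_line hA hA2
  have hbφ : e2 (b φ) t ≠ 0 := ht _ (h4 P₁ hP φ hφ)
  obtain ⟨hbI, w', hw'⟩ := h3 P₁ hP
  have hφD : φ ∈ P₁.decompositionSubgroup ℚ := hφ.mem_decompositionSubgroup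
  have hr : ∀ x : primeLocalGaloisGroup Q, rloc Q 1 x ∈ P₁.decompositionSubgroup ℚ := by
    intro x
    have := rloc_mem_dec Q 1 x
    rwa [inv_one, one_smul] at this
  have hrsurj : ∀ σ ∈ P₁.decompositionSubgroup ℚ, ∃ x : primeLocalGaloisGroup Q,
      rloc Q 1 x = σ := by
    intro σ hσ
    rw [hP₁, ← range_localGaloisToGlobal] at hσ
    obtain ⟨x, hx⟩ := hσ
    exact ⟨x, by rw [rloc_one]; exact hx⟩
  obtain ⟨b₁, hb₁⟩ : ∃ b₁ : GQ → V2, ∀ g, b₁ g = b' g - (mv (rb g).val w' - w') := ⟨_, fun _ => rfl⟩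
  have hb₁fix : ∀ g ∈ P₁.decompositionSubgroup ℚ, ∀ h ∈ P₁.decompositionSubgroup ℚ,
      mv (rb h).val (b₁ g) = b₁ g := by
    intro g hg h hh
    rw [hb₁]
    exact hw' g hg h hh
  have hb₁line : ∀ g ∈ P₁.decompositionSubgroup ℚ, b₁ g = 0 ∨ b₁ g = t := fun g hg =>
    mem_line ht0 (e2_eq_zero_of_fixed hA (hb₁fix g hg φ hφD) htf)
  have hb₁coc : ∀ g h, b₁ (g * h) = b₁ g + mv (rb g).val (b₁ h) := by
    have h5 := Coc.sub_cob hb' w'
    intro g h
    rw [hb₁, hb₁, hb₁]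
    exact h5 g h
  -- topological generation
  have hgen : ∀ σ ∈ P₁.decompositionSubgroup ℚ, ∃ n : ℕ, rb σ = rb φ ^ n ∧ b σ = b (φ ^ n) ∧
      σ i = (φ ^ n) i := by
    intro σ hσ
    have hU : krullLevels.op (rb.ker ⊓ trivSub hb hb' ⊓ MulAction.stabilizer GQ i) := by
      refine krullLevels.op_inf (krullLevels.op_inf ?_ (trivSub_open hb hb' hl hl')) ?_
      · obtain ⟨V, hV, h⟩ := isConst_of_levC hrb
        refine ⟨V, hV, fun s hs => ?_⟩
        have h5 : rb (1 * s) = rb 1 := h 1 s hs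
        rw [one_mul, map_one] at h5
        exact h5
      · obtain ⟨V, hV, h⟩ := exists_krull_fix i
        exact ⟨V, hV, fun s hs => h s hs⟩
    obtain ⟨n, τ, hτ, u, ⟨⟨hu1, hu2⟩, hu3⟩, rfl⟩ := H28.exists_frobenius_mul Q.2 hP hφ
      (show σ • P₁ = P₁ from hσ) hU
    have hτ1 : rb τ = 1 := hunr Q Q.2 hqS P₁ hP τ hτ
    have hu1' : rb u = 1 := hu1
    refine ⟨n, ?_, ?_, ?_⟩
    · rw [map_mul, map_mul, hτ1, hu1', mul_one, mul_one, map_pow]
    · rw [hb, hb, hbI τ hτ, hu2.1, mv_zero, mv_zero, add_zero, add_zero]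
    · rw [AlgEquiv.mul_apply, AlgEquiv.mul_apply]
      have hu3' : u i = i := hu3
      rw [hu3', inertia_i hi hq2 hτ]
  have htn : ∀ n : ℕ, mv (rb φ ^ n).val t = t := by
    intro n
    induction n with
    | zero => rw [pow_zero]; exact mv_one _
    | succ n ih => rw [pow_succ, Units.val_mul, mv_mul, htf, ih]
  have htfix : ∀ σ ∈ P₁.decompositionSubgroup ℚ, mv (rb σ).val t = t := by
    intro σ hσ
    obtain ⟨n, hn, -, -⟩ := hgen σ hσ
    rw [hn, htn]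
  have hLadd : ∀ σ ∈ P₁.decompositionSubgroup ℚ, ∀ τ, e2 (b (σ * τ)) t = e2 (b σ) t + e2 (b τ) t := by
    intro σ hσ τ
    rw [hb, e2_add_left]
    congr 1
    conv_lhs => rw [← htfix σ hσ]
    exact e2_mv _ _ _
  have hLφ : e2 (b φ) t = 1 := (zmod2_cases _).resolve_left hbφ
  have hLn : ∀ n : ℕ, e2 (b (φ ^ n)) t = n := by
    intro n
    induction n with
    | zero => rw [pow_zero, Coc.map_one hb, e2_zero_left, Nat.cast_zero]
    | succ n ih => rw [pow_succ', hLadd φ hφD, ih, hLφ]; push_cast; ring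
  have hφi := frobenius_i hi hq4 hφ
  have hi0 : i ≠ 0 := by
    rintro rfl
    rw [zero_pow two_ne_zero] at hi
    exact one_ne_zero (neg_eq_zero.1 hi.symm)
  obtain ⟨i₀, hi₀⟩ : ∃ i₀, t i₀ ≠ 0 := by
    by_contra hcon
    push Not at hcon
    exact ht0 (funext hcon)
  have hi₀' : t i₀ = 1 := (zmod2_cases _).resolve_left hi₀
  have hb₁n : ∀ g ∈ P₁.decompositionSubgroup ℚ, b₁ g = (b₁ g i₀) • t := by
    intro g hg
    rcases hb₁line g hg with h | h
    · rw [h, Pi.zero_apply, zero_smul]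
    · rw [h, hi₀', one_smul]
  -- constancy
  have hc1 := isConst_of_levC hl
  have hc2 := isConst_of_levC hl'
  have hc3 := isConst_of_levC hrb
  have hc4 : krullFam.IsConst₁ (fun x => e2 (b x) t) := hc1.comp (fun v => e2 v t)
  have hc5 : krullFam.IsConst₁ (fun x => b₁ x i₀) := by
    have h5 := (hc2.prodMk hc3).comp
      (fun p : V2 × GL (Fin 2) (ZMod 2) => (p.1 - (mv p.2.val w' - w')) i₀)
    have h6 : (fun x => b₁ x i₀) = fun g => (b' g - (mv (rb g).val w' - w')) i₀ := by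
      funext g; rw [hb₁]
    rw [h6]
    exact h5
  have hc6 : krullFam.IsConst₁ (fun x => e2 (b x) (mv (rb x).val w')) :=
    (hc1.prodMk hc3).comp (fun p : V2 × GL (Fin 2) (ZMod 2) => e2 p.1 (mv p.2.val w'))
  have hmain := unramified_of_rec Q hq8 (f := cup rb b b') (cup_cocycle hb hb')
    (cup_const hb hb' hl hl') hloc hcι hinf hi
    (lam := fun x => e2 (b (rloc Q 1 x)) t) (n := fun x => b₁ (rloc Q 1 x) i₀)
    (Y := fun x => e2 (b (rloc Q 1 x)) (mv (rb (rloc Q 1 x)).val w'))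
    (hc4.comap _)
    (fun x y => by
      beta_reduce
      rw [map_mul, hLadd _ (hr x)])
    (fun x => by
      beta_reduce
      obtain ⟨n, -, hn2, hn3⟩ := hgen _ (hr x)
      rw [hn2, hn3, hLn, zsmul_aux, pow_frobenius_i hφi]
      constructor
      · intro h
        rw [h.neg_one_pow, one_mul]
      · intro h
        by_contra hodd
        rw [Nat.not_even_iff_odd] at hodd
        rw [hodd.neg_one_pow, neg_one_mul] at h
        have : (2 : Qb) * i = 0 := by linear_combination -h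
        rcases mul_eq_zero.1 this with h5 | h5
        · exact two_ne_zero h5
        · exact hi0 h5)
    (by
      obtain ⟨x, hx⟩ := hrsurj φ hφD
      refine ⟨x, ?_⟩
      rw [hx]
      exact hbφ)
    (hc5.comap _)
    (fun x y => by
      beta_reduce
      rw [map_mul, hb₁coc, hb₁fix _ (hr y) _ (hr x), Pi.add_apply])
    (hc6.comap _)
    (fun x y => by
      have e1 := cup_dw_right hb w' (rloc Q 1 x) (rloc Q 1 y)
      have e2' : cup rb b b' (rloc Q 1 x, rloc Q 1 y) =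
          e2 (b (rloc Q 1 x)) (mv (rb (rloc Q 1 x)).val (b₁ (rloc Q 1 y))) +
          e2 (b (rloc Q 1 x)) (mv (rb (rloc Q 1 x)).val
            (mv (rb (rloc Q 1 y)).val w' - w')) := by
        rw [cup, ← e2_add_right, ← mv_add, hb₁]
        congr 2
        abel
      have e3 : e2 (b (rloc Q 1 x)) (mv (rb (rloc Q 1 x)).val (b₁ (rloc Q 1 y))) =
          e2 (b (rloc Q 1 x)) t * b₁ (rloc Q 1 y) i₀ := by
        rw [hb₁fix _ (hr y) _ (hr x)]
        conv_lhs => rw [hb₁n _ (hr y)]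
        rw [e2_smul_right]
      rw [e2', e3, e1, map_mul (rloc Q 1) x y])
  -- conclusion at `P₁`
  have hP₁res : ∀ σ ∈ P₁.inertiaSubgroupIn ℚ, b' σ = 0 := by
    intro σ hσ
    have hσD : σ ∈ P₁.decompositionSubgroup ℚ := ((mem_inertiaSubgroupIn_iff _ _).1 hσ).1
    obtain ⟨x, hx⟩ := hrsurj σ hσD
    have h5 := hmain x (mem_inert (by rw [hx]; exact hσ))
    beta_reduce at h5
    rw [hx] at h5
    have h6 := hb₁n σ hσD
    rw [h5, zero_smul, hb₁, hunr Q Q.2 hqS P₁ hP σ hσ] at h6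
    have h7 : mv (1 : GL (Fin 2) (ZMod 2)).val w' = w' := mv_one _
    rw [h7, sub_self, sub_zero] at h6
    exact h6
  intro P hPq τ hτ
  obtain ⟨g, rfl⟩ := exists_smul_eq Q.2 hP hPq
  have h5 := conj_mem_inertia hτ g⁻¹
  rw [inv_smul_smul, inv_inv] at h5
  have h6 := hP₁res _ h5
  have h7 : rb (g⁻¹ * τ * g) = 1 := hunr Q Q.2 hqS P₁ hP _ h5
  have h8 : τ = g * ((g⁻¹ * τ * g) * g⁻¹) := by group
  have h9 := hb' g ((g⁻¹ * τ * g) * g⁻¹)
  have h10 := hb' (g⁻¹ * τ * g) g⁻¹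
  rw [h6, h7, zero_add] at h10
  have h11 : mv (1 : GL (Fin 2) (ZMod 2)).val (b' g⁻¹) = b' g⁻¹ := mv_one _
  rw [h11] at h10
  rw [h8, h9, h10, ← hb', mul_inv_cancel]
  exact Coc.map_one hb'

end Fermat.Agent.H54T
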