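import Fermat.Agent.H53Cond7
import Fermat.Agent.H72Inertia

set_option autoImplicit false
set_option linter.style.haveILetI false
set_option linter.unusedSectionVars false

noncomputable section

open IsLocalRing Polynomial
open scoped Pointwise

namespace Fermat.Agent.H53

local notation "Qb" => AlgebraicClosure ℚ

/-- two monomials of a polynomial relation have the same valuation -/
theorem exists_pow_val_eq_of_algebraic {K L Γ : Type*} [Field K] [Field L] [Algebra K L]
    [LinearOrderedCommGroupWithZero Γ] (v : Valuation L Γ) (y : L) (hy : y ≠ 0)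
    (halg : IsAlgebraic K y) :
    ∃ n : ℕ, n ≠ 0 ∧ ∃ c : K, c ≠ 0 ∧ v (y ^ n) = v (algebraMap K L c) := by
  classical
  obtain ⟨f, hf0, hf⟩ := halg
  have hsum : ∑ i ∈ f.support, algebraMap K L (f.coeff i) * y ^ i = 0 := by
    rw [← hf, Polynomial.aeval_eq_sum_range' (Nat.lt_succ_self _)]
    simp only [Algebra.smul_def]
    refine Finset.sum_subset ?_ ?_
    · intro i hi
      rw [Finset.mem_range, Nat.lt_succ_iff]
      exact Polynomial.le_natDegree_of_mem_supp i hi
    · intro i _ hi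
      rw [Polynomial.notMem_support_iff.mp hi, map_zero, zero_mul]
  have hne : f.support.Nonempty := Polynomial.support_nonempty.mpr hf0
  obtain ⟨j, hj, hmax⟩ := Finset.exists_max_image f.support
    (fun i => v (algebraMap K L (f.coeff i) * y ^ i)) hne
  have hcoeff : ∀ i ∈ f.support, algebraMap K L (f.coeff i) * y ^ i ≠ 0 := by
    intro i hi
    refine mul_ne_zero ?_ (pow_ne_zero _ hy)
    rw [Ne, map_eq_zero]
    exact Polynomial.mem_support_iff.mp hi
  have hex : ∃ i ∈ f.support, i ≠ j ∧ v (algebraMap K L (f.coeff i) * y ^ i) =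
      v (algebraMap K L (f.coeff j) * y ^ j) := by
    by_contra hcon
    push Not at hcon
    have h1 := v.map_sum_eq_of_lt (s := f.support)
      (f := fun i => algebraMap K L (f.coeff i) * y ^ i) hj (fun i hi => by
        rw [Finset.mem_sdiff, Finset.mem_singleton] at hi
        exact lt_of_le_of_ne (hmax i hi.1) (hcon i hi.1 hi.2))
    rw [hsum, map_zero] at h1
    exact (Valuation.ne_zero_iff v).mpr (hcoeff j hj) h1.symm
  obtain ⟨i, hi, hij, hv⟩ := hex
  have key : ∀ a b : ℕ, a ∈ f.support → b ∈ f.support → a < b →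
      v (algebraMap K L (f.coeff a) * y ^ a) = v (algebraMap K L (f.coeff b) * y ^ b) →
      ∃ n : ℕ, n ≠ 0 ∧ ∃ c : K, c ≠ 0 ∧ v (y ^ n) = v (algebraMap K L c) := by
    intro a b ha hb hab h
    have ha0 : f.coeff a ≠ 0 := Polynomial.mem_support_iff.mp ha
    have hb0 : f.coeff b ≠ 0 := Polynomial.mem_support_iff.mp hb
    refine ⟨b - a, by omega, f.coeff a / f.coeff b, div_ne_zero ha0 hb0, ?_⟩
    have hvb : v (algebraMap K L (f.coeff b)) ≠ 0 := (Valuation.ne_zero_iff v).mpr (by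
      rw [Ne, map_eq_zero]; exact hb0)
    have hvy : v (y ^ a) ≠ 0 := (Valuation.ne_zero_iff v).mpr (pow_ne_zero _ hy)
    rw [map_div₀, map_div₀, eq_div_iff hvb]
    have h2 : y ^ b = y ^ (b - a) * y ^ a := by rw [← pow_add]; congr 1; omega
    rw [map_mul, map_mul, h2, map_mul] at h
    have h3 : v (algebraMap K L (f.coeff a)) * v (y ^ a) =
        (v (y ^ (b - a)) * v (algebraMap K L (f.coeff b))) * v (y ^ a) := by
      rw [h, ← mul_assoc, mul_comm (v (algebraMap K L (f.coeff b)))]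
    exact (mul_right_cancel₀ hvy h3).symm
  rcases lt_or_gt_of_ne hij with h | h
  · exact key i j hi hj h hv
  · exact key j i hj hi h hv.symm

/-- the valuation of an algebraic number above `q` is commensurable with that of `q` -/
theorem exists_pow_val_eq (P : ValuationSubring Qb) {q : ℕ} (hq : q.Prime)
    (hP : P.LiesOverPrime q) (y : Qb) (hy : y ≠ 0) :
    ∃ b : ℕ, b ≠ 0 ∧ ∃ a : ℤ, P.valuation y ^ b = P.valuation (q : Qb) ^ a := by
  obtain ⟨b, hb, c, hc, h⟩ := exists_pow_val_eq_of_algebraic (K := ℚ) P.valuation y hy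
    (Algebra.IsAlgebraic.isAlgebraic y)
  refine ⟨b, hb, ?_⟩
  have hnum : c.num ≠ 0 := Rat.num_ne_zero.mpr hc
  have hden : (c.den : ℤ) ≠ 0 := by exact_mod_cast c.den_ne_zero
  obtain ⟨m, hm, -⟩ := H72.val_intCast_eq_pow hq hP hnum
  obtain ⟨n, hn, -⟩ := H72.val_intCast_eq_pow hq hP hden
  refine ⟨(m : ℤ) - n, ?_⟩
  have hq0 : P.valuation (q : Qb) ≠ 0 := (Valuation.ne_zero_iff _).mpr (by
    exact_mod_cast hq.ne_zero)
  have h1 : algebraMap ℚ Qb c = (c.num : Qb) / ((c.den : ℤ) : Qb) := by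
    conv_lhs => rw [← Rat.num_div_den c]
    rw [map_div₀]
    simp
  rw [← map_pow, h, h1, map_div₀, hm, hn, map_pow, map_pow, zpow_sub₀ hq0, zpow_natCast,
    zpow_natCast]

/-- a compatible system of `p`-power roots of `q` -/
def piSys (p : ℕ) [Fact p.Prime] (q : ℕ) : ℕ → Qb
  | 0 => q
  | (m + 1) => (IsAlgClosed.exists_pow_nat_eq (piSys p q m) (Fact.out : p.Prime).pos).choose

lemma piSys_succ_pow (p : ℕ) [Fact p.Prime] (q m : ℕ) :
    piSys p q (m + 1) ^ p = piSys p q m :=
  (IsAlgClosed.exists_pow_nat_eq (piSys p q m) (Fact.out : p.Prime).pos).choose_spec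

lemma piSys_pow (p : ℕ) [Fact p.Prime] (q m k : ℕ) :
    piSys p q (m + k) ^ p ^ k = piSys p q m := by
  induction k with
  | zero => simp
  | succ k ih =>
    rw [← add_assoc, pow_succ', pow_mul, piSys_succ_pow, ih]

lemma piSys_pow' (p : ℕ) [Fact p.Prime] (q m : ℕ) : piSys p q m ^ p ^ m = q := by
  have := piSys_pow p q 0 m
  rwa [zero_add] at this

lemma piSys_ne_zero (p : ℕ) [Fact p.Prime] {q : ℕ} (hq : q ≠ 0) (m : ℕ) : piSys p q m ≠ 0 := by
  intro h
  have h1 := piSys_pow' p q m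
  rw [h, zero_pow (pow_ne_zero _ (Fact.out : p.Prime).ne_zero)] at h1
  exact hq (by exact_mod_cast h1.symm)

section Inertia

variable {P : ValuationSubring Qb}

lemma mem_decomp_apply {σ : GQ} (hσ : σ ∈ P.decompositionSubgroup ℚ) {y : Qb} (hy : y ∈ P) :
    σ y ∈ P := by
  have h1 : σ • P = P := hσ
  have h2 : σ • y ∈ σ • P := ValuationSubring.smul_mem_pointwise_smul σ y P hy
  rw [h1] at h2
  exact h2

lemma val_unit_decomp {σ : GQ} (hσ : σ ∈ P.decompositionSubgroup ℚ) {u : Qb}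
    (hu : P.valuation u = 1) : P.valuation (σ u) = 1 := by
  have hu0 : u ≠ 0 := fun h => by rw [h, map_zero] at hu; exact zero_ne_one hu
  have h1 : P.valuation (σ u) ≤ 1 :=
    (P.valuation_le_one_iff _).mpr (mem_decomp_apply hσ ((P.valuation_le_one_iff _).mp hu.le))
  have h2 : P.valuation (σ u⁻¹) ≤ 1 :=
    (P.valuation_le_one_iff _).mpr (mem_decomp_apply hσ ((P.valuation_le_one_iff _).mp (by
      rw [map_inv₀, hu, inv_one])))
  refine le_antisymm h1 ?_
  have h3 : P.valuation (σ u) * P.valuation (σ u⁻¹) = 1 := by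
    rw [← map_mul, ← map_mul, mul_inv_cancel₀ hu0, map_one, map_one]
  rw [← h3]
  calc P.valuation (σ u) * P.valuation (σ u⁻¹) ≤ P.valuation (σ u) * 1 :=
        mul_le_mul_right h2 _
    _ = P.valuation (σ u) := mul_one _

/-- elements of the decomposition group preserve the valuation -/
lemma val_decomp {q : ℕ} (hq : q.Prime) (hP : P.LiesOverPrime q) {σ : GQ}
    (hσ : σ ∈ P.decompositionSubgroup ℚ) (x : Qb) : P.valuation (σ x) = P.valuation x := by
  by_cases hx : x = 0
  · rw [hx, map_zero]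
  obtain ⟨b, hb, a, h⟩ := exists_pow_val_eq P hq hP x hx
  have hq0 : (q : Qb) ≠ 0 := by exact_mod_cast hq.ne_zero
  have h1 : P.valuation (x ^ b * ((q : Qb) ^ a)⁻¹) = 1 := by
    rw [map_mul, map_inv₀, map_pow, map_zpow₀, h, mul_inv_cancel₀]
    exact zpow_ne_zero _ ((Valuation.ne_zero_iff _).mpr hq0)
  have h2 := val_unit_decomp hσ h1
  rw [map_mul, map_inv₀, map_pow, map_zpow₀, map_natCast, map_mul, map_inv₀, map_pow, map_zpow₀,
    ← h] at h2
  have hvx : P.valuation x ^ b ≠ 0 := pow_ne_zero _ ((Valuation.ne_zero_iff _).mpr hx)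
  have h3 : P.valuation (σ x) ^ b = P.valuation x ^ b := by
    rwa [mul_inv_eq_one₀ hvx] at h2
  exact (pow_left_inj₀ zero_le zero_le hb).mp h3

lemma inertia_le_decomp {σ : GQ} (hσ : σ ∈ P.inertiaSubgroupIn ℚ) :
    σ ∈ P.decompositionSubgroup ℚ := by
  obtain ⟨τ, -, rfl⟩ := hσ
  exact τ.2

/-- inertia moves units by principal units -/
lemma val_inertia_div {σ : GQ} (hσ : σ ∈ P.inertiaSubgroupIn ℚ) {u : Qb}
    (hu : P.valuation u = 1) : P.valuation (σ u / u - 1) < 1 := by
  have hu0 : u ≠ 0 := fun h => by rw [h, map_zero] at hu; exact zero_ne_one hu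
  have h1 := H72.val_inertia_sub_lt hσ hu.le
  have h2 : σ u / u - 1 = (σ u - u) / u := by field_simp
  rw [h2, map_div₀, hu, div_one]
  exact h1

/-- a nontrivial root of unity of order prime to the residue characteristic is not a
principal unit -/
lemma not_val_sub_one_lt {q : ℕ} (hq : q.Prime) (hP : P.LiesOverPrime q) {p : ℕ} (hp : p.Prime)
    (hpq : p ≠ q) {ζ : Qb} (hζ : IsPrimitiveRoot ζ p) : ¬ P.valuation (ζ - 1) < 1 := by
  intro h
  have hvζ : P.valuation ζ = 1 := by
    have h1 : P.valuation ζ ^ p = 1 := by rw [← map_pow, hζ.pow_eq_one, map_one]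
    exact (pow_eq_one_iff_of_nonneg zero_le hp.ne_zero).mp h1
  have hp1 : P.valuation (p : Qb) = 1 :=
    H72.val_natCast_eq_one hq hP (fun hdvd => hpq ((Nat.prime_dvd_prime_iff_eq hq hp).mp hdvd).symm)
  have hsum : ∑ i ∈ Finset.range p, ζ ^ i = 0 := hζ.geom_sum_eq_zero hp.one_lt
  have h2 : (p : Qb) = - ∑ i ∈ Finset.range p, (ζ ^ i - 1) := by
    rw [Finset.sum_sub_distrib, hsum]
    simp
  have h3 : P.valuation (p : Qb) < 1 := by
    rw [h2, Valuation.map_neg]
    refine Valuation.map_sum_lt' _ one_pos fun i _ => ?_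
    obtain ⟨c, hc⟩ : ζ - 1 ∣ ζ ^ i - 1 := by simpa using sub_dvd_pow_sub_pow ζ 1 i
    have h4 : ζ ^ i - 1 = (ζ - 1) * ∑ j ∈ Finset.range i, ζ ^ j := by
      rw [mul_comm]
      exact (geom_sum_mul ζ i).symm
    rw [h4, map_mul]
    have h5 : P.valuation (∑ j ∈ Finset.range i, ζ ^ j) ≤ 1 :=
      Valuation.map_sum_le _ fun j _ => by rw [map_pow, hvζ, one_pow]
    calc P.valuation (ζ - 1) * P.valuation (∑ j ∈ Finset.range i, ζ ^ j)
        ≤ P.valuation (ζ - 1) * 1 := mul_le_mul_right h5 _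
      _ < 1 := by rw [mul_one]; exact h
  rw [hp1] at h3
  exact lt_irrefl _ h3

/-- inertia acts trivially on roots of unity of `p`-power order, `p ≠ q` -/
lemma inertia_root_of_unity {q : ℕ} (hq : q.Prime) (hP : P.LiesOverPrime q) {p : ℕ}
    (hp : p.Prime) (hpq : p ≠ q) {σ : GQ} (hσ : σ ∈ P.inertiaSubgroupIn ℚ) (m : ℕ) {ζ : Qb}
    (hζ : ζ ^ p ^ m = 1) : σ ζ = ζ := by
  induction m generalizing ζ with
  | zero => rw [pow_zero, pow_one] at hζ; rw [hζ, map_one]
  | succ m ih =>
    have hζ0 : ζ ≠ 0 := fun h => by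
      rw [h, zero_pow (pow_ne_zero _ hp.ne_zero)] at hζ; exact zero_ne_one hζ
    have h1 : σ (ζ ^ p) = ζ ^ p := ih (by rw [← pow_mul, ← pow_succ', hζ])
    -- `σ ζ / ζ` is a `p`-th root of unity and a principal unit
    by_contra hne
    have h2 : (σ ζ / ζ) ^ p = 1 := by
      rw [div_pow, ← map_pow, h1, div_self (pow_ne_zero _ hζ0)]
    have h3 : σ ζ / ζ ≠ 1 := fun h => hne ((div_eq_one_iff_eq hζ0).mp h)
    have h4 : IsPrimitiveRoot (σ ζ / ζ) p := IsPrimitiveRoot.of_map_of_injective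
      (f := RingHom.id Qb) (by
        have := IsPrimitiveRoot.iff_def (σ ζ / ζ) p
        rw [RingHom.id_apply, this]
        refine ⟨h2, fun l hl => ?_⟩
        by_contra hdvd
        have hcop : Nat.Coprime p l := (Nat.Prime.coprime_iff_not_dvd hp).mpr hdvd
        apply h3
        have h5 := orderOf_dvd_of_pow_eq_one h2
        have h6 := orderOf_dvd_of_pow_eq_one hl
        have h7 := Nat.dvd_gcd h5 h6
        rw [hcop] at h7
        exact orderOf_eq_one_iff.mp (Nat.dvd_one.mp h7)) Function.injective_id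
    refine not_val_sub_one_lt hq hP hp hpq h4 (val_inertia_div hσ ?_)
    have h5 : P.valuation ζ ^ p ^ (m + 1) = 1 := by rw [← map_pow, hζ, map_one]
    exact (pow_eq_one_iff_of_nonneg zero_le (pow_ne_zero _ hp.ne_zero)).mp h5

end Inertia

end Fermat.Agent.H53
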