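import Mathlib
import Fermat.Agent.H14Lift
import Fermat.Agent.H55Fam

set_option autoImplicit false

/-!
# The decomposition group is generated by a Frobenius and inertia (at every finite level)
-/

noncomputable section

open scoped Pointwise NumberField
open Fermat.Agent.H54

namespace Fermat.Agent.H61.GenFrob

local notation "Qb" => AlgebraicClosure ℚ
local notation "Zb" => integralClosure ℤ (AlgebraicClosure ℚ)
local notation "Gq" => AlgebraicClosure ℚ ≃ₐ[ℚ] AlgebraicClosure ℚ

attribute [local instance] isAlgebraicQb isAlgClosureQb normalQb isGaloisQb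

/-- a ring endomorphism of a finite field of characteristic `q` is `x ↦ x ^ q ^ n` -/
theorem exists_pow_of_ringHom {q : ℕ} [Fact q.Prime] {k : Type*} [Field k] [Finite k] [CharP k q]
    (f : k →+* k) : ∃ n : ℕ, ∀ x, f x = x ^ q ^ n := by
  let _ : Algebra (ZMod q) k := ZMod.algebra k q
  let f' : k →ₐ[ZMod q] k := { f with
    commutes' := fun r => by
      have : f.comp (algebraMap (ZMod q) k) = algebraMap (ZMod q) k := RingHom.ext_zmod _ _
      exact congrArg (fun g : ZMod q →+* k => g r) this }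
  obtain ⟨n, hn⟩ := (FiniteField.bijective_frobeniusAlgHom_pow (ZMod q) k).2 f'
  refine ⟨n, fun x => ?_⟩
  have h1 := congrArg (fun g : k →ₐ[ZMod q] k => g x) hn
  simp only [AlgHom.coe_pow, FiniteField.coe_frobeniusAlgHom, pow_iterate, ZMod.card] at h1
  exact h1.symm

section

variable {q : ℕ} (hq : q.Prime) {A : ValuationSubring Qb} (hA : A.LiesOverPrime q)

theorem apply_mem {g : Gq} (hg : g • A = A) {x : Qb} (hx : x ∈ A) : g x ∈ A := by
  rw [← hg]
  exact ValuationSubring.smul_mem_pointwise_smul g x A hx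

theorem apply_mem_nonunits_iff {g : Gq} (hg : g • A = A) (x : Qb) :
    g x ∈ A.nonunits ↔ x ∈ A.nonunits := by
  have h := mem_nonunits_smul_iff g A (g x)
  rw [hg] at h
  have h2 : g⁻¹ (g x) = x := g.symm_apply_apply x
  rwa [h2] at h

/-- the ring of integers of a subfield inside a place -/
def intoPlace (A : ValuationSubring Qb) (E : IntermediateField ℚ Qb) : 𝓞 E →+* A where
  toFun x := ⟨((x : E) : Qb), integral_mem A ⟨((x : E) : Qb), x.2.map (algebraMap E Qb).toIntAlgHom⟩⟩
  map_one' := by ext; simp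
  map_mul' x y := by ext; simp
  map_zero' := by ext; simp
  map_add' x y := by ext; simp

@[simp] theorem coe_intoPlace (A : ValuationSubring Qb) (E : IntermediateField ℚ Qb) (x : 𝓞 E) :
    (intoPlace A E x : Qb) = ((x : E) : Qb) := rfl

include hq hA in
/-- an element of the decomposition group acts on the residues of a number field through a power of
the Frobenius -/
theorem exists_pow_sub_mem (E : IntermediateField ℚ Qb) [FiniteDimensional ℚ E] [Normal ℚ E] {g : Gq}
    (hg : g • A = A) :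
    ∃ n : ℕ, ∀ b : Zb, (b : Qb) ∈ E → g b - (b : Qb) ^ q ^ n ∈ A.nonunits := by
  have _ : Fact q.Prime := ⟨hq⟩
  have : NumberField E := { to_charZero := inferInstance, to_finiteDimensional := inferInstance }
  let P : Ideal (𝓞 E) := (IsLocalRing.maximalIdeal A).comap (intoPlace A E)
  have hmem : ∀ x : 𝓞 E, x ∈ P ↔ ((x : E) : Qb) ∈ A.nonunits := fun x => by
    rw [Ideal.mem_comap, ValuationSubring.mem_nonunits_iff_exists_mem_maximalIdeal]
    exact ⟨fun h => ⟨_, h⟩, fun ⟨_, h⟩ => h⟩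
  have hqP : (q : 𝓞 E) ∈ P := by
    rw [hmem]
    have : (((q : 𝓞 E) : E) : Qb) = (q : Qb) := by simp
    rw [this]
    exact hA
  have hne : P ≠ ⊥ := by
    intro h
    rw [h, Ideal.mem_bot] at hqP
    exact hq.ne_zero (by exact_mod_cast hqP)
  have hPp : P.IsPrime := Ideal.comap_isPrime _ _
  have hPm : P.IsMaximal := hPp.isMaximal hne
  let _ : Field (𝓞 E ⧸ P) := Ideal.Quotient.field P
  have : Finite (𝓞 E ⧸ P) := Ideal.finiteQuotientOfFreeOfNeBot P hne
  have : CharP (𝓞 E ⧸ P) q := by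
    have h0 : ((q : ℕ) : 𝓞 E ⧸ P) = 0 := by
      rw [← map_natCast (Ideal.Quotient.mk P)]
      exact Ideal.Quotient.eq_zero_iff_mem.mpr hqP
    obtain ⟨p, hp⟩ := CharP.exists (𝓞 E ⧸ P)
    have h1 : p ∣ q := (CharP.cast_eq_zero_iff (𝓞 E ⧸ P) p q).mp h0
    rcases (Nat.dvd_prime hq).mp h1 with h2 | h2
    · rw [h2] at hp
      exact absurd hp (fun h => (CharP.char_ne_one (𝓞 E ⧸ P) 1) rfl)
    · rwa [h2] at hp
  let gE : E ≃ₐ[ℚ] E := g.restrictNormal E
  have hgE : ∀ x : E, ((gE x : E) : Qb) = g (x : Qb) := fun x => g.restrictNormal_commutes E x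
  let gO : 𝓞 E →+* 𝓞 E := NumberField.RingOfIntegers.mapRingHom (gE : E →+* E)
  have hgO : ∀ x : 𝓞 E, (((gO x : 𝓞 E) : E) : Qb) = g ((x : E) : Qb) := fun x => hgE x
  have hle : P ≤ P.comap gO := fun x hx => by
    rw [Ideal.mem_comap, hmem, hgO, apply_mem_nonunits_iff hg]
    exact (hmem x).mp hx
  let f : 𝓞 E ⧸ P →+* 𝓞 E ⧸ P := Ideal.quotientMap P gO hle
  obtain ⟨n, hn⟩ := exists_pow_of_ringHom (q := q) f
  refine ⟨n, fun b hb => ?_⟩
  let x : 𝓞 E := ⟨⟨(b : Qb), hb⟩, (isIntegral_algHom_iff ((algebraMap E Qb).toIntAlgHom)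
    (algebraMap E Qb).injective).mp b.2⟩
  have hx : ((x : E) : Qb) = b := rfl
  have h1 := hn (Ideal.Quotient.mk P x)
  rw [Ideal.quotientMap_mk, ← map_pow, Ideal.Quotient.eq, hmem] at h1
  have h2 : (((gO x - x ^ q ^ n : 𝓞 E) : E) : Qb) = g b - (b : Qb) ^ q ^ n := by
    have h3 : (((gO x - x ^ q ^ n : 𝓞 E) : E) : Qb)
        = (((gO x : 𝓞 E) : E) : Qb) - ((x : E) : Qb) ^ q ^ n := by simp
    rw [h3, hgO, hx]
  rwa [h2] at h1

/-- powers of Frobenius -/
theorem frobenius_pow_sub_mem {φ : Gq} (hφ : A.IsFrobeniusAt φ q) (n : ℕ) {x : Qb} (hx : x ∈ A) :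
    (φ ^ n) x - x ^ q ^ n ∈ A.nonunits := by
  have hdec : φ • A = A := hφ.mem_decompositionSubgroup
  have h1 : ∀ y ∈ A, φ y - y ^ q ∈ A.nonunits := by
    intro y hy
    have h2 := hφ.smul_residue_eq (IsLocalRing.residue A ⟨y, hy⟩)
    have h3 : (⟨φ, hφ.mem_decompositionSubgroup⟩ : A.decompositionSubgroup ℚ) •
        IsLocalRing.residue A ⟨y, hy⟩ = IsLocalRing.residue A ⟨φ y, apply_mem hdec hy⟩ := rfl
    rw [h3, ← map_pow, ← sub_eq_zero, ← map_sub, IsLocalRing.residue_eq_zero_iff] at h2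
    exact ValuationSubring.mem_nonunits_iff_exists_mem_maximalIdeal.mpr ⟨_, h2⟩
  induction n with
  | zero => simp
  | succ n ih =>
    have hn : (φ ^ n) x ∈ A := apply_mem (by
      have : φ ^ n ∈ A.decompositionSubgroup ℚ := Subgroup.pow_mem _ hφ.mem_decompositionSubgroup n
      exact this) hx
    have e1 : (φ ^ (n + 1)) x - x ^ q ^ (n + 1)
        = φ ((φ ^ n) x - x ^ q ^ n) + (φ (x ^ q ^ n) - (x ^ q ^ n) ^ q) := by
      rw [pow_succ' φ, AlgEquiv.mul_apply, map_sub, pow_succ, pow_mul]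
      ring
    rw [e1]
    have h4 : φ ((φ ^ n) x - x ^ q ^ n) ∈ A.nonunits := (apply_mem_nonunits_iff hdec _).mpr ih
    have h5 := h1 _ (pow_mem hx (q ^ n))
    rw [ValuationSubring.mem_nonunits_iff] at h4 h5 ⊢
    exact (Valuation.map_add _ _ _).trans_lt (max_lt h4 h5)

include hq hA in
/-- every element of the decomposition group is the product of a power of Frobenius, an element of
inertia and an element of a given open subgroup -/
theorem exists_eq_pow_mul {φ : Gq} (hφ : A.IsFrobeniusAt φ q) {U : Subgroup Gq}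
    (hU : H55.krullLevels.op U) {g : Gq} (hg : g ∈ A.decompositionSubgroup ℚ) :
    ∃ n : ℕ, ∃ i ∈ A.inertiaSubgroupIn ℚ, ∃ u ∈ U, g = φ ^ n * i * u := by
  obtain ⟨F, hF, hFU⟩ := (H55.krullLevels_op_iff U).mp hU
  let E : IntermediateField ℚ Qb := IntermediateField.normalClosure ℚ F Qb
  have hFE : F ≤ E := IntermediateField.le_normalClosure F
  have _ : FiniteDimensional ℚ E := inferInstance
  have _ : Normal ℚ E := normalClosure.normal ℚ F Qb
  have hEU : E.fixingSubgroup ≤ U := (IntermediateField.fixingSubgroup_antitone hFE).trans hFU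
  have hnorm : E.fixingSubgroup.Normal := inferInstance
  obtain ⟨n, hn⟩ := exists_pow_sub_mem hq hA E hg
  have hgφ : ∀ b : Zb, (b : Qb) ∈ E → ((φ ^ n)⁻¹ * g) b - b ∈ A.nonunits := by
    intro b hb
    have h1 := hn b hb
    have h2 := frobenius_pow_sub_mem hφ n (integral_mem A b)
    have hdec : (φ ^ n)⁻¹ • A = A :=
      Subgroup.inv_mem _ (Subgroup.pow_mem _ hφ.mem_decompositionSubgroup n)
    have e1 : ((φ ^ n)⁻¹ * g) b - (b : Qb) = (φ ^ n)⁻¹ (g b - (φ ^ n) b) := by
      rw [map_sub, AlgEquiv.mul_apply]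
      congr 1
      exact ((φ ^ n).symm_apply_apply _).symm
    rw [e1, apply_mem_nonunits_iff hdec]
    have e2 : g b - (φ ^ n) b = (g b - (b : Qb) ^ q ^ n) - ((φ ^ n) b - (b : Qb) ^ q ^ n) := by ring
    rw [e2]
    rw [ValuationSubring.mem_nonunits_iff] at h1 h2 ⊢
    exact (Valuation.map_sub _ _ _).trans_lt (max_lt h1 h2)
  have hclosed : IsClosed (E.fixingSubgroup : Set Gq) :=
    Subgroup.isClosed_of_isOpen _ (IntermediateField.fixingSubgroup_isOpen E)
  obtain ⟨h, hh, hi⟩ := H14.exists_lift_inertia (H := E.fixingSubgroup) hclosed hq hA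
    ((φ ^ n)⁻¹ * g) (fun b hb => by
      rw [mem_primeBelow]
      refine hgφ b ?_
      have h1 : (b : Qb) ∈ IntermediateField.fixedField E.fixingSubgroup := by
        rw [IntermediateField.mem_fixedField_iff]
        intro f hf
        exact congrArg Subtype.val (hb f hf)
      rwa [InfiniteGalois.fixedField_fixingSubgroup] at h1)
  refine ⟨n, _, hi, _, hEU (hnorm.conj_mem _ (inv_mem hh) (h * ((φ ^ n)⁻¹ * g))⁻¹), ?_⟩
  group

end

end Fermat.Agent.H61.GenFrob
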