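import Mathlib
import Fermat.Agent.H6MDDefs

/-!
# LT-MOD2, M6: the classes are not inflated from `GL₂(ℤ/2ⁿ)`
-/

set_option autoImplicit false

open scoped Pointwise
open Matrix

namespace Fermat.Agent.H6.MD

section coc

variable {Γ : Type*} [Group Γ] {rb : Γ →* GL (Fin 2) (ZMod 2)} {J : Type*} [AddCommGroup J]
  [Module (ZMod 2) J] {b : Γ → Fin 2 → J}

theorem mv_inv_cancel (g : GL (Fin 2) (ZMod 2)) (w : Fin 2 → J) :
    mv (g⁻¹).val (mv g.val w) = w := by
  rw [← mv_mul, ← Units.val_mul, inv_mul_cancel, Units.val_one, mv_one]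

theorem mv_cancel_inv (g : GL (Fin 2) (ZMod 2)) (w : Fin 2 → J) :
    mv g.val (mv (g⁻¹).val w) = w := by
  rw [← mv_mul, ← Units.val_mul, mul_inv_cancel, Units.val_one, mv_one]

theorem mv_hom_mul (g h : Γ) (w : Fin 2 → J) :
    mv (rb (g * h)).val w = mv (rb g).val (mv (rb h).val w) := by
  rw [map_mul, Units.val_mul, mv_mul]

theorem Coc.one (hb : Coc rb b) : b 1 = 0 := by
  have := hb 1 1
  rw [map_one, mul_one, Units.val_one, mv_one] at this
  simpa using this

theorem Coc.inv (hb : Coc rb b) (g : Γ) : b g⁻¹ = - mv (rb g)⁻¹.val (b g) := by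
  have := hb g⁻¹ g
  rw [inv_mul_cancel, hb.one, map_inv] at this
  rw [eq_neg_iff_add_eq_zero]; exact this.symm

/-- conjugating an element of the kernel -/
theorem Coc.conj (hb : Coc rb b) (g : Γ) {x : Γ} (hx : rb x = 1) :
    b (g * x * g⁻¹) = mv (rb g).val (b x) := by
  rw [hb, hb, hb.inv, map_mul, hx, mul_one, mv_neg, mv_cancel_inv]
  abel

theorem Coc.mul_of_ker (hb : Coc rb b) {x : Γ} (hx : rb x = 1) (y : Γ) :
    b (x * y) = b x + b y := by
  rw [hb, hx, Units.val_one, mv_one]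

theorem Coc.mul_of_zero (hb : Coc rb b) (g : Γ) {x : Γ} (hx : b x = 0) :
    b (g * x) = b g := by
  rw [hb, hx, mv_zero, add_zero]

/-- the subgroup of the kernel of `rb` where the cocycle vanishes -/
def Coc.ker (hb : Coc rb b) : Subgroup Γ where
  carrier := {x | rb x = 1 ∧ b x = 0}
  mul_mem' := by
    rintro x y ⟨h1, h2⟩ ⟨h3, h4⟩
    exact ⟨by rw [map_mul, h1, h3, one_mul], by rw [hb.mul_of_zero x h4, h2]⟩
  one_mem' := ⟨map_one _, hb.one⟩
  inv_mem' := by
    rintro x ⟨h1, h2⟩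
    exact ⟨by rw [map_inv, h1, inv_one], by rw [hb.inv, h2, mv_zero, neg_zero]⟩

theorem Coc.mem_ker (hb : Coc rb b) {x : Γ} : x ∈ hb.ker ↔ rb x = 1 ∧ b x = 0 := Iff.rfl

theorem Coc.ker_conj (hb : Coc rb b) (g : Γ) {x : Γ} (hx : x ∈ hb.ker) :
    g * x * g⁻¹ ∈ hb.ker := by
  refine ⟨?_, ?_⟩
  · rw [map_mul, map_mul, hx.1, mul_one, map_inv, mul_inv_cancel]
  · rw [hb.conj g hx.1, hx.2, mv_zero]

theorem Coc.sub_cob (hb : Coc rb b) (w : Fin 2 → J) :
    Coc rb (fun g => b g - (mv (rb g).val w - w)) := by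
  intro g h
  show b (g * h) - (mv (rb (g * h)).val w - w) = _
  rw [hb, mv_hom_mul]
  simp only [mv_sub]
  abel

end coc

section mats

variable {R : Type*} [CommRing R]

/-- upper unipotent -/
def Up (a : R) : GL (Fin 2) R where
  val := !![1, a; 0, 1]
  inv := !![1, -a; 0, 1]
  val_inv := by
    ext i j; fin_cases i <;> fin_cases j <;> simp [Matrix.mul_apply, Fin.sum_univ_two]
  inv_val := by
    ext i j; fin_cases i <;> fin_cases j <;> simp [Matrix.mul_apply, Fin.sum_univ_two]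

/-- lower unipotent -/
def Lo (a : R) : GL (Fin 2) R where
  val := !![1, 0; a, 1]
  inv := !![1, 0; -a, 1]
  val_inv := by
    ext i j; fin_cases i <;> fin_cases j <;> simp [Matrix.mul_apply, Fin.sum_univ_two]
  inv_val := by
    ext i j; fin_cases i <;> fin_cases j <;> simp [Matrix.mul_apply, Fin.sum_univ_two]

@[simp] theorem Up_val (a : R) : (Up a).val = !![1, a; 0, 1] := rfl
@[simp] theorem Lo_val (a : R) : (Lo a).val = !![1, 0; a, 1] := rfl

theorem Up_mul (a c : R) : Up a * Up c = Up (a + c) := by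
  apply Units.ext
  ext i j; fin_cases i <;> fin_cases j <;> simp [Matrix.mul_apply, Fin.sum_univ_two, add_comm]

theorem Lo_mul (a c : R) : Lo a * Lo c = Lo (a + c) := by
  apply Units.ext
  ext i j; fin_cases i <;> fin_cases j <;> simp [Matrix.mul_apply, Fin.sum_univ_two]

theorem Up_zero : Up (0 : R) = 1 := by
  apply Units.ext
  ext i j; fin_cases i <;> fin_cases j <;> simp

theorem Lo_zero : Lo (0 : R) = 1 := by
  apply Units.ext
  ext i j; fin_cases i <;> fin_cases j <;> simp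

theorem Up_pow (a : R) (k : ℕ) : (Up a) ^ k = Up (k * a) := by
  induction k with
  | zero => simp [Up_zero]
  | succ k ih => rw [pow_succ, ih, Up_mul]; congr 1; push_cast; ring

theorem Lo_pow (a : R) (k : ℕ) : (Lo a) ^ k = Lo (k * a) := by
  induction k with
  | zero => simp [Lo_zero]
  | succ k ih => rw [pow_succ, ih, Lo_mul]; congr 1; push_cast; ring

theorem Up_inv (a : R) : (Up a)⁻¹ = Up (-a) := by
  rw [inv_eq_iff_mul_eq_one, Up_mul, add_neg_cancel, Up_zero]

theorem Lo_inv (a : R) : (Lo a)⁻¹ = Lo (-a) := by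
  rw [inv_eq_iff_mul_eq_one, Lo_mul, add_neg_cancel, Lo_zero]

/-- the factorisation of an element of `SL₂` with invertible upper left entry -/
theorem factor {m : GL (Fin 2) R} {α' : R} (hα : m.val 0 0 * α' = 1)
    (hdet : m.val 0 0 * m.val 1 1 - m.val 0 1 * m.val 1 0 = 1) :
    m = Lo (m.val 1 0 * α') * Lo (-((m.val 0 0 - 1) * α')) *
      (Lo 1 * Up (1 - m.val 0 0) * (Lo 1)⁻¹) *
      Up (-((1 - m.val 0 0) * α')) * Up (m.val 0 1 * α') := by
  rw [Lo_inv]
  apply Units.ext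
  simp only [Units.val_mul, Up_val, Lo_val]
  set α := m.val 0 0 with hα0
  set β := m.val 0 1 with hβ0
  set γ := m.val 1 0 with hγ0
  set δ := m.val 1 1 with hδ0
  have hm : m.val = !![α, β; γ, δ] := by
    ext i j; fin_cases i <;> fin_cases j <;> rfl
  rw [hm]
  ext i j
  fin_cases i <;> fin_cases j <;>
    simp only [Matrix.mul_apply, Fin.sum_univ_two, Fin.zero_eta, Fin.mk_one, Fin.isValue,
      Matrix.of_apply, Matrix.cons_val_zero, Matrix.cons_val_one, Matrix.cons_val', Matrix.cons_val_fin_one]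
  · ring
  · linear_combination (-α+1-β) * hα
  · linear_combination (α-1-γ) * hα
  · linear_combination α' * hdet - (δ + (α-2) + (γ-α+1)*α'*(β-1+α)) * hα

end mats

section normal

variable {n : ℕ} {Γ : Type*} [Group Γ] {ρ : Γ →* GL (Fin 2) (ZMod (2 ^ n))}
  {rb : Γ →* GL (Fin 2) (ZMod 2)} {J : Type*} [AddCommGroup J] [Module (ZMod 2) J]
  {b : Γ → Fin 2 → J}

/-- reduction modulo 2 -/
noncomputable def red2 (hn : n ≠ 0) : ZMod (2 ^ n) →+* ZMod 2 :=
  ZMod.castHom (dvd_pow_self 2 hn) (ZMod 2)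

theorem red2_eq_zero (hn : n ≠ 0) {a : ZMod (2 ^ n)} (h : red2 hn a = 0) : ∃ y, a = 2 * y := by
  have h1 : ((a.val : ℕ) : ZMod 2) = 0 := by
    rw [← h, red2, ZMod.castHom_apply, ZMod.natCast_val]
  rw [ZMod.natCast_eq_zero_iff] at h1
  obtain ⟨k, hk⟩ := h1
  refine ⟨(k : ZMod (2 ^ n)), ?_⟩
  have h2 : a = ((a.val : ℕ) : ZMod (2 ^ n)) := (ZMod.natCast_zmod_val a).symm
  rw [h2, hk]; push_cast; rfl

theorem red2_eq_one (hn : n ≠ 0) {a : ZMod (2 ^ n)} (h : red2 hn a = 1) : IsUnit a := by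
  have h2 : a = ((a.val : ℕ) : ZMod (2 ^ n)) := (ZMod.natCast_zmod_val a).symm
  rw [h2, ZMod.isUnit_iff_coprime]
  apply Nat.Coprime.pow_right
  rw [Nat.coprime_two_right]
  have h1 : ((a.val : ℕ) : ZMod 2) = 1 := by
    rw [← h, red2, ZMod.castHom_apply, ZMod.natCast_val]
  rw [Nat.odd_iff]
  by_contra hcon
  have h3 : a.val % 2 = 0 := by omega
  rw [← Nat.dvd_iff_mod_eq_zero, ← ZMod.natCast_eq_zero_iff, h1] at h3
  exact one_ne_zero h3

theorem exists_natCast_mul {c : ZMod (2 ^ n)} (hc : IsUnit c) (t : ZMod (2 ^ n)) :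
    ∃ k : ℕ, (k : ZMod (2 ^ n)) * c = t := by
  obtain ⟨c', hc'⟩ := hc.exists_right_inv
  refine ⟨(t * c').val, ?_⟩
  rw [ZMod.natCast_zmod_val]
  linear_combination t * hc'

/-- A cocycle killing `ker ρ` and the squares of two "opposite" transvections (and all their
conjugates) kills `Γ(2) ∩ SL₂`. -/
theorem Coc.zero_of_det_one (hb : Coc rb b) (hn : n ≠ 0)
    (hred : ∀ g i j, (rb g).val i j = red2 hn ((ρ g).val i j))
    (hker : ∀ g, ρ g = 1 → b g = 0) {u u' : Γ} {a c : ZMod (2 ^ n)} (ha : IsUnit a)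
    (hc : IsUnit c) (hu : ρ u = Up a) (hu' : ρ u' = Lo c) (hbu : b (u ^ 2) = 0)
    (hbu' : b (u' ^ 2) = 0) {x : Γ} (hx : rb x = 1) (hdet : (ρ x).val.det = 1) : b x = 0 := by
  have hrb1 : ∀ g : Γ, ρ g = 1 → rb g = 1 := by
    intro g hg
    apply Units.ext
    ext i j
    rw [hred, hg, Units.val_one, Units.val_one, Matrix.one_apply, Matrix.one_apply]
    split_ifs <;> simp
  have hrb : ∀ g : Γ, rb g = 1 ↔ (∀ i j, red2 hn ((ρ g).val i j) = (1 : Matrix (Fin 2) (Fin 2) (ZMod 2)) i j) := by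
    intro g
    constructor
    · intro h i j
      rw [← hred, h, Units.val_one]
    · intro h
      apply Units.ext
      ext i j
      rw [hred, h, Units.val_one]
  have h2 : red2 hn 2 = 0 := by
    rw [map_ofNat]; decide
  -- the image of the kernel subgroup
  set X : Subgroup (GL (Fin 2) (ZMod (2 ^ n))) := hb.ker.map ρ with hX
  have hXx : ∀ y : Γ, ρ y ∈ X → rb y = 1 ∧ b y = 0 := by
    intro y hy
    obtain ⟨z, hz, hzy⟩ := hy
    have h3 : ρ (z⁻¹ * y) = 1 := by rw [map_mul, map_inv, hzy, inv_mul_cancel]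
    have h4 : z⁻¹ * y ∈ hb.ker := ⟨hrb1 _ h3, hker _ h3⟩
    have h5 := hb.ker.mul_mem hz h4
    rwa [mul_inv_cancel_left] at h5
  have hup2 : ∀ y : ZMod (2 ^ n), Up (2 * y) ∈ X := by
    intro y
    obtain ⟨k, hk⟩ := exists_natCast_mul ha y
    refine ⟨(u ^ 2) ^ k, hb.ker.pow_mem ⟨?_, hbu⟩ k, ?_⟩
    · rw [hrb]
      intro i j
      rw [map_pow, hu, Up_pow]
      fin_cases i <;> fin_cases j <;> simp [h2]
    · rw [map_pow, map_pow, hu, Up_pow, Up_pow, ← hk]
      congr 1; push_cast; ring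
  have hlo2 : ∀ y : ZMod (2 ^ n), Lo (2 * y) ∈ X := by
    intro y
    obtain ⟨k, hk⟩ := exists_natCast_mul hc y
    refine ⟨(u' ^ 2) ^ k, hb.ker.pow_mem ⟨?_, hbu'⟩ k, ?_⟩
    · rw [hrb]
      intro i j
      rw [map_pow, hu', Lo_pow]
      fin_cases i <;> fin_cases j <;> simp [h2]
    · rw [map_pow, map_pow, hu', Lo_pow, Lo_pow, ← hk]
      congr 1; push_cast; ring
  have hconj : ∀ y : ZMod (2 ^ n), Lo 1 * Up (2 * y) * (Lo 1)⁻¹ ∈ X := by
    intro y
    obtain ⟨k, hk⟩ := exists_natCast_mul hc 1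
    obtain ⟨z, hz, hzy⟩ := hup2 y
    refine ⟨u' ^ k * z * (u' ^ k)⁻¹, hb.ker_conj _ hz, ?_⟩
    rw [map_mul, map_mul, map_inv, map_pow, hu', Lo_pow, hk, hzy]
  -- now the factorisation
  have hxx := (hrb x).mp hx
  have h00 : red2 hn ((ρ x).val 0 0) = 1 := by rw [hxx]; rfl
  have h01 : red2 hn ((ρ x).val 0 1) = 0 := by rw [hxx]; rfl
  have h10 : red2 hn ((ρ x).val 1 0) = 0 := by rw [hxx]; rfl
  obtain ⟨α', hα'⟩ := (red2_eq_one hn h00).exists_right_inv
  obtain ⟨y, hy⟩ : ∃ y, (ρ x).val 0 0 - 1 = 2 * y := red2_eq_zero hn (by rw [map_sub, h00, map_one, sub_self])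
  obtain ⟨β, hβ⟩ := red2_eq_zero hn h01
  obtain ⟨γ, hγ⟩ := red2_eq_zero hn h10
  rw [Matrix.det_fin_two] at hdet
  have hfac := factor hα' hdet
  have hmem : ρ x ∈ X := by
    rw [hfac]
    refine X.mul_mem (X.mul_mem (X.mul_mem (X.mul_mem ?_ ?_) ?_) ?_) ?_
    · rw [hγ, mul_assoc]; exact hlo2 _
    · rw [hy, mul_assoc, ← mul_neg]; exact hlo2 _
    · have : 1 - (ρ x).val 0 0 = 2 * (-y) := by linear_combination -hy
      rw [this]; exact hconj _
    · have : -((1 - (ρ x).val 0 0) * α') = 2 * (y * α') := by linear_combination α' * hy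
      rw [this]; exact hup2 _
    · rw [hβ, mul_assoc]; exact hup2 _
  exact (hXx x hmem).2

/-- changing the basis in `zero_of_det_one` -/
theorem Coc.zero_of_det_one' (hb : Coc rb b) (hn : n ≠ 0)
    (hred : ∀ g i j, (rb g).val i j = red2 hn ((ρ g).val i j))
    (hker : ∀ g, ρ g = 1 → b g = 0) {u u' : Γ} {a c : ZMod (2 ^ n)} (ha : IsUnit a)
    (hc : IsUnit c) (A : GL (Fin 2) (ZMod (2 ^ n))) (hu : ρ u = A * Up a * A⁻¹)
    (hu' : ρ u' = A * Lo c * A⁻¹) (hbu : b (u ^ 2) = 0)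
    (hbu' : b (u' ^ 2) = 0) {x : Γ} (hx : rb x = 1) (hdet : (ρ x).val.det = 1) : b x = 0 := by
  set A2 : GL (Fin 2) (ZMod 2) := Matrix.GeneralLinearGroup.map (red2 hn) A with hA2
  have hA2v : ∀ i j, A2.val i j = red2 hn (A.val i j) := fun i j => rfl
  have hrbm : ∀ g, rb g = Matrix.GeneralLinearGroup.map (red2 hn) (ρ g) := by
    intro g
    apply Units.ext
    ext i j
    rw [hred]; rfl
  let ρ' : Γ →* GL (Fin 2) (ZMod (2 ^ n)) := (MulAut.conj A⁻¹).toMonoidHom.comp ρ
  let rb' : Γ →* GL (Fin 2) (ZMod 2) := (MulAut.conj A2⁻¹).toMonoidHom.comp rb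
  let b' : Γ → Fin 2 → J := fun g => mv (A2⁻¹).val (b g)
  have hρ' : ∀ g, ρ' g = A⁻¹ * ρ g * A := by
    intro g; show A⁻¹ * ρ g * A⁻¹⁻¹ = _; rw [inv_inv]
  have hrb' : ∀ g, rb' g = A2⁻¹ * rb g * A2 := by
    intro g; show A2⁻¹ * rb g * A2⁻¹⁻¹ = _; rw [inv_inv]
  have hb' : Coc rb' b' := by
    intro g h
    show mv (A2⁻¹).val (b (g * h)) = mv (A2⁻¹).val (b g) + mv (rb' g).val (mv (A2⁻¹).val (b h))
    rw [hb, mv_add, hrb', ← mv_mul, ← mv_mul]
    congr 2
    rw [← Units.val_mul, ← Units.val_mul]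
    congr 1
    group
  have hred' : ∀ g i j, (rb' g).val i j = red2 hn ((ρ' g).val i j) := by
    intro g i j
    have h1 : rb' g = Matrix.GeneralLinearGroup.map (red2 hn) (ρ' g) := by
      rw [hrb', hρ', map_mul, map_mul, map_inv, hrbm]
    rw [h1]; rfl
  have h3 : b' x = 0 := by
    refine hb'.zero_of_det_one hn hred' (ρ := ρ') ?_ ha hc (u := u) (u' := u') ?_ ?_ ?_ ?_ ?_ ?_
    · intro g hg
      have h4 : ρ g = 1 := by
        rw [hρ'] at hg
        have : ρ g = A * (A⁻¹ * ρ g * A) * A⁻¹ := by group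
        rw [this, hg]; group
      show mv _ (b g) = 0
      rw [hker g h4, mv_zero]
    · rw [hρ', hu]; group
    · rw [hρ', hu']; group
    · show mv _ (b (u ^ 2)) = 0
      rw [hbu, mv_zero]
    · show mv _ (b (u' ^ 2)) = 0
      rw [hbu', mv_zero]
    · rw [hrb', hx]; group
    · rw [hρ', Units.val_mul, Units.val_mul, Matrix.det_mul, Matrix.det_mul, hdet, mul_one,
        ← Matrix.det_mul, ← Units.val_mul, inv_mul_cancel, Units.val_one, Matrix.det_one]
  have h4 : b x = mv A2.val (b' x) := (mv_cancel_inv A2 (b x)).symm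
  rw [h4, h3, mv_zero]

/-- An opposite transvection among the conjugates. -/
theorem exists_opposite (hn : n ≠ 0)
    (hred : ∀ g i j, (rb g).val i j = red2 hn ((ρ g).val i j)) (hsurj : Function.Surjective rb)
    {u : Γ} {a : ZMod (2 ^ n)} (ha : IsUnit a) (A : GL (Fin 2) (ZMod (2 ^ n)))
    (hu : ρ u = A * Up a * A⁻¹) :
    ∃ (g : Γ) (B : GL (Fin 2) (ZMod (2 ^ n))) (a' c : ZMod (2 ^ n)), IsUnit a' ∧ IsUnit c ∧
      ρ u = B * Up a' * B⁻¹ ∧ ρ (g * u * g⁻¹) = B * Lo c * B⁻¹ := by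
  set A2 : GL (Fin 2) (ZMod 2) := Matrix.GeneralLinearGroup.map (red2 hn) A with hA2
  have hrbm : ∀ g, rb g = Matrix.GeneralLinearGroup.map (red2 hn) (ρ g) := by
    intro g
    apply Units.ext
    ext i j
    rw [hred]; rfl
  let sw : GL (Fin 2) (ZMod 2) := ⟨!![0, 1; 1, 0], !![0, 1; 1, 0], by decide, by decide⟩
  obtain ⟨g, hg⟩ := hsurj (A2 * sw * A2⁻¹)
  set M : GL (Fin 2) (ZMod (2 ^ n)) := A⁻¹ * ρ g * A with hM
  have hM2 : Matrix.GeneralLinearGroup.map (red2 hn) M = sw := by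
    rw [hM, map_mul, map_mul, map_inv, ← hrbm, hg, ← hA2]; group
  have hr : red2 hn (M.val 1 0) = 1 := by
    have : (Matrix.GeneralLinearGroup.map (red2 hn) M).val 1 0 = red2 hn (M.val 1 0) := rfl
    rw [← this, hM2]; rfl
  have hru := red2_eq_one hn hr
  obtain ⟨r', hr'⟩ := hru.exists_right_inv
  set p := M.val 0 0 with hp
  set q := M.val 0 1 with hq
  set r := M.val 1 0 with hrd
  set s := M.val 1 1 with hs
  have hMv : M.val = !![p, q; r, s] := by
    ext i j; fin_cases i <;> fin_cases j <;> rfl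
  let B0 : GL (Fin 2) (ZMod (2 ^ n)) :=
    ⟨!![1, p; 0, r], !![1, -p * r'; 0, r'], by
      ext i j
      fin_cases i <;> fin_cases j <;>
        simp [Matrix.mul_apply, Fin.sum_univ_two, hr'], by
      ext i j
      fin_cases i <;> fin_cases j <;>
        simp [Matrix.mul_apply, Fin.sum_univ_two]
      · linear_combination (-p) * hr'
      · linear_combination hr'⟩
  have hdu : IsUnit (M.val.det) := (Matrix.isUnit_iff_isUnit_det _).mp M.isUnit
  obtain ⟨d', hd'⟩ := hdu.exists_right_inv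
  rw [Matrix.det_fin_two] at hd'
  change (p * s - q * r) * d' = 1 at hd'
  refine ⟨g, A * B0, a * r, -(a * r) * d', ha.mul hru, ?_, ?_, ?_⟩
  · have h1 : IsUnit d' := IsUnit.of_mul_eq_one _ (by rw [mul_comm] at hd'; exact hd')
    exact ((ha.mul hru).neg).mul h1
  · have h1 : Up a * B0 = B0 * Up (a * r) := by
      apply Units.ext
      simp only [Units.val_mul, Up_val]
      show !![1, a; 0, 1] * !![1, p; 0, r] = !![1, p; 0, r] * !![1, a * r; 0, 1]
      ext i j
      fin_cases i <;> fin_cases j <;>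
        simp [Matrix.mul_apply, Fin.sum_univ_two, add_comm]
    rw [hu, _root_.mul_inv_rev A B0]
    have h2 : A * B0 * Up (a * r) * (B0⁻¹ * A⁻¹) = A * (B0 * Up (a * r)) * B0⁻¹ * A⁻¹ := by group
    rw [h2, ← h1]; group
  · have h1 : M * Up a * M⁻¹ * B0 = B0 * Lo (-(a * r) * d') := by
      have h3 : M * Up a * M⁻¹ = ⟨!![1 - a * d' * p * r, a * d' * p * p; - a * d' * r * r,
          1 + a * d' * p * r], !![1 + a * d' * p * r, - a * d' * p * p; a * d' * r * r,
          1 - a * d' * p * r], by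
            ext i j
            fin_cases i <;> fin_cases j <;>
              simp [Matrix.mul_apply, Fin.sum_univ_two] <;> ring, by
            ext i j
            fin_cases i <;> fin_cases j <;>
              simp [Matrix.mul_apply, Fin.sum_univ_two] <;> ring⟩ := by
        rw [mul_inv_eq_iff_eq_mul]
        apply Units.ext
        simp only [Units.val_mul, Up_val, hMv]
        ext i j
        fin_cases i <;> fin_cases j <;>
          simp [Matrix.mul_apply, Fin.sum_univ_two]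
        · ring
        · linear_combination (-(a * p)) * hd'
        · ring
        · linear_combination (-(a * r)) * hd'
      rw [h3]
      apply Units.ext
      simp only [Units.val_mul, Lo_val]
      show _ * !![1, p; 0, r] = !![1, p; 0, r] * !![1, 0; -(a * r) * d', 1]
      ext i j
      fin_cases i <;> fin_cases j <;>
        simp [Matrix.mul_apply, Fin.sum_univ_two] <;> ring
    have h4 : ρ (g * u * g⁻¹) = A * (M * Up a * M⁻¹) * A⁻¹ := by
      rw [map_mul, map_mul, map_inv, hu, hM]; group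
    rw [h4, _root_.mul_inv_rev A B0]
    have h5 : A * B0 * Lo (-(a * r) * d') * (B0⁻¹ * A⁻¹) =
        A * (B0 * Lo (-(a * r) * d')) * B0⁻¹ * A⁻¹ := by group
    rw [h5, ← h1]; group

end normal

section S3

variable {Γ : Type*} [Group Γ] {rb : Γ →* GL (Fin 2) (ZMod 2)} {J : Type*} [AddCommGroup J]
  [Module (ZMod 2) J] {b : Γ → Fin 2 → J}

/-- an element of order 3 of `GL₂(𝔽₂)` -/
def T3 : GL (Fin 2) (ZMod 2) := ⟨!![0, 1; 1, 1], !![1, 1; 1, 0], by decide, by decide⟩

/-- `T3 - 1` is invertible -/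
theorem eq_zero_of_T3 {w : Fin 2 → J} (h : mv T3.val w = w) : w = 0 := by
  have h0 := congrFun h 0
  have h1 := congrFun h 1
  simp only [T3, mv_apply, Fin.sum_univ_two, Matrix.of_apply, Matrix.cons_val', Matrix.cons_val_zero,
    Matrix.cons_val_one, Matrix.cons_val_fin_one, zero_smul, one_smul, zero_add] at h0 h1
  have h2 : w 0 = 0 := by
    have := h1
    rw [add_eq_right] at this
    exact this
  funext i
  fin_cases i
  · exact h2
  · show w 1 = 0
    rw [h0, h2]

theorem exists_T3_sub (v : Fin 2 → J) : ∃ w : Fin 2 → J, mv T3.val w - w = v := by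
  refine ⟨mv T3.val v, ?_⟩
  have h : (T3 * T3).val = T3.val + 1 := by decide
  rw [← mv_mul, ← Units.val_mul]
  funext i
  rw [h]
  simp only [Pi.sub_apply, mv_apply, Fin.sum_univ_two, Matrix.add_apply, add_smul]
  fin_cases i <;> simp [Matrix.one_apply]

/-- vectors fixed by everything vanish -/
theorem eq_zero_of_fixed (hsurj : Function.Surjective rb) {w : Fin 2 → J}
    (h : ∀ g, mv (rb g).val w = w) : w = 0 := by
  obtain ⟨g, hg⟩ := hsurj T3
  apply eq_zero_of_T3
  rw [← hg]; exact h g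

theorem T3_conj (g : GL (Fin 2) (ZMod 2)) : g⁻¹ * T3 * g = T3 ∨ g⁻¹ * T3 * g = T3 ^ 2 := by
  revert g; decide

/-- `H¹(GL₂(𝔽₂), V ⊗ J) = 0`. -/
theorem Coc.cob_of_ker (hb : Coc rb b) (hsurj : Function.Surjective rb)
    (hker : ∀ g, rb g = 1 → b g = 0) : Cob rb b := by
  obtain ⟨h, hh⟩ := hsurj T3
  obtain ⟨w, hw⟩ := exists_T3_sub (b h)
  refine ⟨w, fun g => ?_⟩
  set b' : Γ → Fin 2 → J := fun g => b g - (mv (rb g).val w - w) with hb'def
  have hb' : Coc rb b' := hb.sub_cob w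
  have h0 : b' h = 0 := by
    show b h - (mv (rb h).val w - w) = 0
    rw [hh, hw, sub_self]
  have hker' : ∀ g, rb g = 1 → b' g = 0 := by
    intro g hg
    show b g - (mv (rb g).val w - w) = 0
    rw [hker g hg, hg, Units.val_one, mv_one, sub_self, sub_self]
  have h00 : b' (h * h) = 0 := by rw [hb', h0, mv_zero, add_zero]
  have h1 : ∀ y, (rb y = T3 ∨ rb y = T3 ^ 2) → b' y = 0 := by
    intro y hy
    rcases hy with hy | hy
    · have h2 : rb (h⁻¹ * y) = 1 := by rw [map_mul, map_inv, hh, hy, inv_mul_cancel]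
      have h3 : y = h * (h⁻¹ * y) := by group
      rw [h3, hb', h0, hker' _ h2, mv_zero, add_zero]
    · have h2 : rb ((h * h)⁻¹ * y) = 1 := by
        rw [map_mul, map_inv, map_mul, hh, hy, pow_two, inv_mul_cancel]
      have h3 : y = (h * h) * ((h * h)⁻¹ * y) := by group
      rw [h3, hb', h00, hker' _ h2, mv_zero, add_zero]
  have h4 : b' g = 0 := by
    apply eq_zero_of_T3
    have h5 : h * g = g * (g⁻¹ * h * g) := by group
    have h6 : b' (g⁻¹ * h * g) = 0 := by
      apply h1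
      rw [map_mul, map_mul, map_inv, hh]
      exact T3_conj _
    have h7 : b' (h * g) = b' g := by rw [h5, hb', h6, mv_zero, add_zero]
    have h8 : b' (h * g) = mv T3.val (b' g) := by rw [hb', h0, zero_add, hh]
    rw [← h8, h7]
  exact sub_eq_zero.mp h4

end S3

section inflation

variable {n : ℕ} {Γ : Type*} [Group Γ] {ρ : Γ →* GL (Fin 2) (ZMod (2 ^ n))}
  {rb : Γ →* GL (Fin 2) (ZMod 2)} {J : Type*} [AddCommGroup J] [Module (ZMod 2) J]
  {b : Γ → Fin 2 → J}

/-- **(D1)** A cocycle killing `ker ρ` and the square of one transvection is a coboundary. -/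
theorem Coc.cob_of_inflated (hb : Coc rb b) (hn : n ≠ 0)
    (hred : ∀ g i j, (rb g).val i j = red2 hn ((ρ g).val i j)) (hsurj : Function.Surjective rb)
    (hker : ∀ g, ρ g = 1 → b g = 0) {u : Γ} {a : ZMod (2 ^ n)} (ha : IsUnit a)
    (A : GL (Fin 2) (ZMod (2 ^ n))) (hu : ρ u = A * Up a * A⁻¹) (hbu : b (u ^ 2) = 0) :
    Cob rb b := by
  obtain ⟨g₀, B, a', c, ha', hc, hu1, hu2⟩ := exists_opposite hn hred hsurj ha A hu
  have hrbu : rb (u ^ 2) = 1 := by
    have h2 : red2 hn 2 = 0 := by rw [map_ofNat]; decide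
    have h1 : rb (u ^ 2) = Matrix.GeneralLinearGroup.map (red2 hn) (ρ (u ^ 2)) := by
      apply Units.ext
      ext i j
      rw [hred]; rfl
    have h3 : ρ (u ^ 2) = A * Up (2 * a) * A⁻¹ := by
      rw [map_pow, hu, pow_two]
      have : A * Up a * A⁻¹ * (A * Up a * A⁻¹) = A * (Up a * Up a) * A⁻¹ := by group
      rw [this, Up_mul, two_mul]
    have h4 : Matrix.GeneralLinearGroup.map (red2 hn) (Up (2 * a)) = 1 := by
      apply Units.ext
      ext i j
      show red2 hn ((Up (2 * a)).val i j) = _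
      fin_cases i <;> fin_cases j <;> simp [h2]
    rw [h1, h3, map_mul, map_mul, h4, mul_one, map_inv, mul_inv_cancel]
  have hbu' : b ((g₀ * u * g₀⁻¹) ^ 2) = 0 := by
    have h1 : (g₀ * u * g₀⁻¹) ^ 2 = g₀ * u ^ 2 * g₀⁻¹ := by rw [pow_two, pow_two]; group
    rw [h1, hb.conj _ hrbu, hbu, mv_zero]
  apply hb.cob_of_ker hsurj
  intro x hx
  apply eq_zero_of_fixed hsurj
  intro g
  have h1 : rb (g * x * g⁻¹) = 1 := by
    rw [map_mul, map_mul, hx, map_inv, mul_one, mul_inv_cancel]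
  have h2 : rb (g * x * g⁻¹ * x⁻¹) = 1 := by rw [map_mul, h1, map_inv, hx, one_mul, inv_one]
  have h3 : ((ρ (g * x * g⁻¹ * x⁻¹)).val).det = 1 := by
    have h4 : ∀ y z : Γ, (ρ (y * z)).val.det = (ρ y).val.det * (ρ z).val.det := by
      intro y z
      rw [map_mul, Units.val_mul, Matrix.det_mul]
    have h5 : ∀ y : Γ, (ρ y).val.det * (ρ y⁻¹).val.det = 1 := by
      intro y
      rw [← h4, mul_inv_cancel, map_one, Units.val_one, Matrix.det_one]
    rw [h4, h4, h4]
    linear_combination (ρ x).val.det * (ρ x⁻¹).val.det * h5 g + h5 x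
  have h4 := hb.zero_of_det_one' hn hred hker ha' hc B hu1 hu2 hbu hbu' h2 h3
  rw [hb.mul_of_ker h1, hb.conj g hx, hb.inv, hx, inv_one, Units.val_one, mv_one] at h4
  exact sub_eq_zero.mp (by rw [sub_eq_add_neg]; exact h4)

end inflation

end Fermat.Agent.H6.MD
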