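import Mathlib
import Fermat.Agent.H6TWFrob

/-!
# The subgroup fixing the `m`-th roots of unity; the determinant
-/

set_option autoImplicit false

open scoped Pointwise
open NumberField

namespace Fermat.Agent.H6

local notation "Qb" => AlgebraicClosure ℚ
local notation "Gq" => (AlgebraicClosure ℚ ≃ₐ[ℚ] AlgebraicClosure ℚ)

local instance isAlgebraicQb7 : Algebra.IsAlgebraic ℚ Qb := AlgebraicClosure.isAlgebraic ℚ
local instance isAlgClosureQb7 : IsAlgClosure ℚ Qb := ⟨inferInstance, inferInstance⟩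
local instance normalQb7 : Normal ℚ Qb := IsAlgClosure.normal ℚ Qb
local instance isGaloisQb7 : IsGalois ℚ Qb := ⟨⟩

/-- Automorphisms fixing all `m`-th roots of unity. -/
def muFix (m : ℕ) : Subgroup Gq where
  carrier := {σ | ∀ μ : Qb, μ ^ m = 1 → σ μ = μ}
  mul_mem' := by
    intro a b ha hb μ hμ
    rw [AlgEquiv.mul_apply, hb μ hμ, ha μ hμ]
  one_mem' := fun μ _ => rfl
  inv_mem' := by
    intro a ha μ hμ
    have := ha μ hμ
    calc a⁻¹ μ = a⁻¹ (a μ) := by rw [this]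
      _ = μ := a.symm_apply_apply μ

theorem mem_muFix {m : ℕ} {σ : Gq} : σ ∈ muFix m ↔ ∀ μ : Qb, μ ^ m = 1 → σ μ = μ := Iff.rfl

theorem exists_pow_of_gq {m : ℕ} (hm : 0 < m) (σ : Gq) :
    ∃ a : ℕ, ∀ μ : Qb, μ ^ m = 1 → σ μ = μ ^ a := by
  have : NeZero m := ⟨hm.ne'⟩
  obtain ⟨ζ, hζ⟩ := HasEnoughRootsOfUnity.exists_primitiveRoot Qb m
  obtain ⟨a, -, ha⟩ := hζ.eq_pow_of_pow_eq_one (ξ := σ ζ) (by rw [← map_pow, hζ.pow_eq_one, map_one])
  refine ⟨a, fun μ hμ => ?_⟩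
  obtain ⟨i, -, rfl⟩ := hζ.eq_pow_of_pow_eq_one hμ
  rw [map_pow, ← ha, ← pow_mul, ← pow_mul, mul_comm]

instance muFix_normal (m : ℕ) : (muFix m).Normal where
  conj_mem := by
    intro n hn g μ hμ
    have h1 : (g⁻¹ μ) ^ m = 1 := by rw [← map_pow, hμ, map_one]
    rw [AlgEquiv.mul_apply, AlgEquiv.mul_apply, hn _ h1]
    exact g.apply_symm_apply μ

theorem commutator_mem_muFix {m : ℕ} (hm : 0 < m) (x y : Gq) : x * y * x⁻¹ * y⁻¹ ∈ muFix m := by
  intro μ hμ
  obtain ⟨a, ha⟩ := exists_pow_of_gq hm x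
  obtain ⟨b, hb⟩ := exists_pow_of_gq hm y
  -- let `ν = (y x)⁻¹ μ`
  set ν := (x⁻¹ * y⁻¹) μ with hν
  have hνm : ν ^ m = 1 := by rw [hν, ← map_pow, hμ, map_one]
  have h1 : (x * y * x⁻¹ * y⁻¹) μ = x (y ν) := by
    rw [hν, ← AlgEquiv.mul_apply, ← AlgEquiv.mul_apply]; congr 1
  have h2 : μ = y (x ν) := by
    have h3 : y * (x * (x⁻¹ * y⁻¹)) = 1 := by group
    calc μ = (1 : Gq) μ := rfl
      _ = (y * (x * (x⁻¹ * y⁻¹))) μ := by rw [h3]
      _ = y (x ν) := rfl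
  rw [h1, hb ν hνm, map_pow, ha ν hνm]
  rw [h2, ha ν hνm, map_pow, hb ν hνm, ← pow_mul, ← pow_mul, mul_comm]

/-- Surjectivity of the cyclotomic character modulo `p`. -/
theorem exists_gq_of_coprime {m : ℕ} (hm : 0 < m) {a : ℕ} (ha : a.Coprime m) :
    ∃ σ : Gq, ∀ μ : Qb, μ ^ m = 1 → σ μ = μ ^ a := by
  have : NeZero m := ⟨hm.ne'⟩
  obtain ⟨ζ, hζ⟩ := HasEnoughRootsOfUnity.exists_primitiveRoot Qb m
  have hζa : IsPrimitiveRoot (ζ ^ a) m := hζ.pow_of_coprime a ha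
  have h1 : minpoly ℚ ζ = Polynomial.cyclotomic m ℚ :=
    (Polynomial.cyclotomic_eq_minpoly_rat hζ hm).symm
  have h2 : Polynomial.aeval (ζ ^ a) (minpoly ℚ ζ) = 0 := by
    rw [h1]
    have h3 := hζa.isRoot_cyclotomic hm
    rw [Polynomial.IsRoot.def, ← Polynomial.map_cyclotomic m (algebraMap ℚ Qb),
      Polynomial.eval_map_algebraMap] at h3
    exact h3
  obtain ⟨σ, hσ⟩ := minpoly.exists_algEquiv_of_root' (Algebra.IsAlgebraic.isAlgebraic ζ) h2
  refine ⟨σ, fun μ hμ => ?_⟩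
  obtain ⟨i, -, rfl⟩ := hζ.eq_pow_of_pow_eq_one hμ
  rw [map_pow, hσ, ← pow_mul, ← pow_mul, mul_comm]

section det

variable {k : Type*} [Field k] (p : ℕ) [Fact p.Prime] [CharP k p] {δ : Gq →* kˣ}

/-- The image of the mod `p` cyclotomic character has order `p - 1`. -/
theorem card_range_cyc (hδ : ∀ (σ : Gq) (a : ℕ), (∀ μ : Qb, μ ^ p = 1 → σ μ = μ ^ a) →
    ((δ σ : kˣ) : k) = a) : Nat.card δ.range = p - 1 := by
  have hp : p.Prime := Fact.out
  -- the map `(ZMod p)ˣ → kˣ`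
  let f : ZMod p →+* k := ZMod.castHom (dvd_refl p) k
  let F : (ZMod p)ˣ →* kˣ := Units.map (f : ZMod p →* k)
  have hFinj : Function.Injective F := Units.map_injective f.injective
  have hrange : δ.range = F.range := by
    ext x
    constructor
    · rintro ⟨σ, rfl⟩
      obtain ⟨a, ha⟩ := exists_pow_of_gq hp.pos σ
      have h1 := hδ σ a ha
      have hane : (a : ZMod p) ≠ 0 := by
        intro h0
        have h2 : f (a : ZMod p) = 0 := by rw [h0, map_zero]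
        rw [map_natCast, ← h1] at h2
        exact (δ σ).ne_zero h2
      refine ⟨Units.mk0 (a : ZMod p) hane, ?_⟩
      apply Units.ext
      rw [h1]
      show f (a : ZMod p) = a
      rw [map_natCast]
    · rintro ⟨u, rfl⟩
      have hcop : (u : ZMod p).val.Coprime p := ZMod.val_coe_unit_coprime u
      obtain ⟨σ, hσ⟩ := exists_gq_of_coprime hp.pos hcop
      refine ⟨σ, ?_⟩
      apply Units.ext
      rw [hδ σ _ hσ]
      show (((u : ZMod p).val : ℕ) : k) = f (u : ZMod p)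
      have : (u : ZMod p) = (((u : ZMod p).val : ℕ) : ZMod p) := (ZMod.natCast_zmod_val _).symm
      rw [this, map_natCast, ← this]
  rw [hrange, ← Nat.card_congr (MonoidHom.ofInjective hFinj).toEquiv, Nat.card_eq_fintype_card,
    ZMod.card_units]

end det

end Fermat.Agent.H6
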