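import Mathlib

/-!
# Elementary facts on 1-cocycles (functions) with values in a representation
-/

set_option autoImplicit false

namespace Fermat.Agent.H6

section coh

variable {k H M : Type*} [Field k] [Group H] [AddCommGroup M] [Module k M]

/-- `ψ` is a (nonhomogeneous) 1-cocycle for the representation `r`. -/
def IsCocyc (r : H →* Module.End k M) (ψ : H → M) : Prop :=
  ∀ g h, ψ (g * h) = ψ g + r g (ψ h)

/-- `ψ` is a 1-coboundary for the representation `r`. -/
def IsCobound (r : H →* Module.End k M) (ψ : H → M) : Prop :=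
  ∃ m : M, ∀ g, ψ g = r g m - m

variable {r : H →* Module.End k M} {ψ : H → M}

theorem IsCocyc.one (hψ : IsCocyc r ψ) : ψ 1 = 0 := by
  have := hψ 1 1
  rw [map_one, one_mul, Module.End.one_apply] at this
  simpa using this

theorem IsCocyc.inv (hψ : IsCocyc r ψ) (g : H) : ψ g⁻¹ = - r g⁻¹ (ψ g) := by
  have := hψ g⁻¹ g
  rw [inv_mul_cancel, hψ.one] at this
  rw [eq_neg_iff_add_eq_zero]; exact this.symm

theorem isCocyc_of_isCobound (h : IsCobound r ψ) : IsCocyc r ψ := by
  obtain ⟨m, hm⟩ := h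
  intro g h
  rw [hm, hm, hm, map_mul, Module.End.mul_apply, map_sub]
  abel

theorem IsCocyc.sub_cob (hψ : IsCocyc r ψ) (m : M) :
    IsCocyc r (fun g => ψ g - (r g m - m)) := by
  intro g h
  simp only [hψ g h, map_mul, Module.End.mul_apply, map_sub]
  abel

theorem IsCobound.of_sub_cob {m : M} (h : IsCobound r (fun g => ψ g - (r g m - m))) :
    IsCobound r ψ := by
  obtain ⟨m', hm'⟩ := h
  refine ⟨m + m', fun g => ?_⟩
  have this : ψ g - (r g m - m) = r g m' - m' := hm' g
  have h2 : ψ g = (r g m' - m') + (r g m - m) := by rw [← this]; abel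
  rw [map_add, h2]; abel

theorem IsCocyc.add (hψ : IsCocyc r ψ) {φ : H → M} (hφ : IsCocyc r φ) :
    IsCocyc r (fun g => ψ g + φ g) := by
  intro g h
  simp only [hψ g h, hφ g h, map_add]
  abel

theorem IsCocyc.smul (hψ : IsCocyc r ψ) (c : k) : IsCocyc r (fun g => c • ψ g) := by
  intro g h
  simp only [hψ g h, smul_add, map_smul]

theorem IsCocyc.mul_right_mem (hψ : IsCocyc r ψ) {K : Subgroup H} (hK : ∀ h ∈ K, ψ h = 0)
    (g : H) {h : H} (hh : h ∈ K) : ψ (g * h) = ψ g := by
  rw [hψ, hK h hh, map_zero, add_zero]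

theorem IsCocyc.conj_eq (hψ : IsCocyc r ψ) {t : H} (ht : ψ t = 0) (g : H) :
    ψ (t * g * t⁻¹) = r t (ψ g) := by
  rw [hψ, hψ t g, ht, zero_add, hψ.inv t, ht]
  simp

/-- Averaging over the cosets of a subgroup of index invertible in `k`. -/
theorem IsCocyc.isCobound_of_index (hψ : IsCocyc r ψ) (K : Subgroup H) [K.FiniteIndex]
    (hidx : (K.index : k) ≠ 0) (hK : ∀ h ∈ K, ψ h = 0) : IsCobound r ψ := by
  classical
  have : Fintype (H ⧸ K) := Fintype.ofFinite _
  -- the function on cosets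
  let F : H ⧸ K → M := Quotient.lift ψ (by
    intro a b hab
    have h1 : a⁻¹ * b ∈ K := QuotientGroup.leftRel_apply.mp hab
    have h2 : b = a * (a⁻¹ * b) := by group
    rw [h2, hψ.mul_right_mem hK a h1])
  have hF : ∀ g : H, F (g : H ⧸ K) = ψ g := fun g => rfl
  have hact : ∀ (g : H) (x : H ⧸ K), F (g • x) = ψ g + r g (F x) := by
    intro g x
    induction x using QuotientGroup.induction_on with
    | H h => exact hψ g h
  set S : M := ∑ x : H ⧸ K, F x with hS
  have hkey : ∀ g : H, S = (K.index : k) • ψ g + r g S := by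
    intro g
    have h1 : ∑ x : H ⧸ K, F (g • x) = S :=
      Fintype.sum_equiv (MulAction.toPerm g) _ _ (fun x => rfl)
    rw [← h1]
    calc ∑ x : H ⧸ K, F (g • x) = ∑ x : H ⧸ K, (ψ g + r g (F x)) :=
          Finset.sum_congr rfl fun x _ => hact g x
      _ = (K.index : k) • ψ g + r g (∑ x : H ⧸ K, F x) := by
          rw [Finset.sum_add_distrib, Finset.sum_const, Finset.card_univ, map_sum,
            ← Nat.cast_smul_eq_nsmul k, Subgroup.index, Nat.card_eq_fintype_card]
      _ = (K.index : k) • ψ g + r g (∑ x : H ⧸ K, F (g • x)) := by rw [h1, hS]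
  refine ⟨-((K.index : k)⁻¹ • S), fun g => ?_⟩
  have h1 := hkey g
  have h2 : ψ g = (K.index : k)⁻¹ • (S - r g S) := by
    rw [eq_inv_smul_iff₀ hidx, eq_sub_iff_add_eq]
    exact h1.symm
  rw [h2, map_neg, map_smul, smul_sub]
  abel

/-- **Sah's lemma**: a central element acting by a scalar `c ≠ 1` kills `H¹`. -/
theorem IsCocyc.isCobound_of_central (hψ : IsCocyc r ψ) {z : H} (hz : ∀ g, g * z = z * g) {c : k}
    (hc : c ≠ 1) (hr : ∀ m, r z m = c • m) : IsCobound r ψ := by
  refine ⟨(c - 1)⁻¹ • ψ z, fun g => ?_⟩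
  have h1 : ψ (g * z) = ψ (z * g) := by rw [hz g]
  rw [hψ, hψ, hr] at h1
  have hc' : c - 1 ≠ 0 := sub_ne_zero.mpr hc
  have h2 : (c - 1) • ψ g = r g (ψ z) - ψ z := by
    rw [sub_smul, one_smul, sub_eq_sub_iff_add_eq_add, add_comm (r g (ψ z)), h1, add_comm]
  rw [map_smul, ← smul_sub, ← h2, smul_smul, inv_mul_cancel₀ hc', one_smul]

end coh

end Fermat.Agent.H6
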