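import Mathlib.GroupTheory.GroupAction.Quotient
import Mathlib.GroupTheory.Sylow
import Mathlib.Combinatorics.Enumerative.DoubleCounting
import Mathlib.Tactic

/-!
# An abstract counting lemma for finite groups acting on a projective line

Dickson-type count used for the vanishing of `H¹(G, ad⁰(1))`.
-/

set_option autoImplicit false

namespace Fermat.Agent.H6

/-- Arithmetic input of the count. -/
theorem arith_count {q e f c w : ℕ} (hq : 3 ≤ q) (he : 1 ≤ e) (hf : 1 ≤ f) (hw : w = 1 + q * f)
    (h : c * (2 + w * (q - 2)) = w * q * e) : q - 1 ≤ 2 * e := by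
  obtain ⟨m, rfl⟩ : ∃ m, q = m + 2 := ⟨q - 2, by omega⟩
  have hm : 1 ≤ m := by omega
  simp only [Nat.add_sub_cancel] at h
  -- `2 + w * m = (m+2) * (1 + f m)`
  have h1 : 2 + w * m = (m + 2) * (1 + f * m) := by subst hw; ring
  have h2 : c * (1 + f * m) = w * e := by
    have : (m + 2) * (c * (1 + f * m)) = (m + 2) * (w * e) := by
      calc (m + 2) * (c * (1 + f * m)) = c * (2 + w * m) := by rw [h1]; ring
        _ = (m + 2) * (w * e) := by rw [h]; ring
    exact Nat.eq_of_mul_eq_mul_left (by omega) this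
  have h3 : (1 + f * m) ∣ f * (2 * e) := by
    have h4 : w * e = (1 + f * m) * e + f * (2 * e) := by subst hw; ring
    have h5 : (1 + f * m) ∣ (1 + f * m) * e + f * (2 * e) := by
      rw [← h4, ← h2]; exact Dvd.intro_left _ rfl
    exact (Nat.dvd_add_right (Dvd.intro _ rfl)).mp h5
  have hcop : Nat.Coprime (1 + f * m) f := by
    rw [Nat.coprime_add_mul_left_left]
    exact Nat.coprime_one_left f
  have h6 : (1 + f * m) ∣ 2 * e := hcop.dvd_of_dvd_mul_left h3
  have h7 : 1 + f * m ≤ 2 * e := Nat.le_of_dvd (by omega) h6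
  have h8 : 1 * m ≤ f * m := Nat.mul_le_mul_right m hf
  omega

section abs

variable {G X : Type*} [Group G] [Fintype G] [Fintype X] [MulAction G X]

open scoped Classical in
/-- Number of elements outside `Z` fixing `x`. -/
noncomputable def dfun (Z : Subgroup G) (x : X) : ℕ :=
  (Finset.univ.filter (fun g : G => g ∉ Z ∧ g • x = x)).card

open scoped Classical in
theorem dfun_add (Z : Subgroup G) (hZ : ∀ z ∈ Z, ∀ x : X, z • x = x) (x : X) :
    dfun Z x + Nat.card Z = Nat.card (MulAction.stabilizer G x) := by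
  have h1 : Nat.card Z = (Finset.univ.filter (fun g : G => g ∈ Z)).card := by
    rw [Nat.card_eq_fintype_card, Fintype.card_subtype]
  have h2 : Nat.card (MulAction.stabilizer G x) =
      (Finset.univ.filter (fun g : G => g • x = x)).card := by
    rw [Nat.card_eq_fintype_card, Fintype.card_subtype]
    simp [MulAction.mem_stabilizer_iff]
  rw [h1, h2, dfun, ← Finset.card_union_of_disjoint]
  · congr 1
    ext g
    simp only [Finset.mem_union, Finset.mem_filter, Finset.mem_univ, true_and]
    constructor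
    · rintro (⟨_, h⟩ | h)
      · exact h
      · exact hZ g h x
    · intro h
      by_cases hg : g ∈ Z
      · exact Or.inr hg
      · exact Or.inl ⟨hg, h⟩
  · rw [Finset.disjoint_filter]
    rintro g _ ⟨h, _⟩ h'
    exact h h'

open scoped Classical in
theorem sum_dfun_orbit (Z : Subgroup G) (hZ : ∀ z ∈ Z, ∀ x : X, z • x = x) (x : X) :
    ∑ y ∈ (MulAction.orbit G x).toFinset, dfun Z y + Nat.card Z * (MulAction.orbit G x).ncard =
      Nat.card G := by
  have hconst : ∀ y ∈ (MulAction.orbit G x).toFinset, dfun Z y = dfun Z x := by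
    intro y hy
    rw [Set.mem_toFinset] at hy
    have h1 := dfun_add Z hZ y
    have h2 := dfun_add Z hZ x
    have h3 : Nat.card (MulAction.stabilizer G y) = Nat.card (MulAction.stabilizer G x) := by
      obtain ⟨g, rfl⟩ := hy
      exact Nat.card_congr (MulAction.stabilizerEquivStabilizer (g := g) rfl).symm.toEquiv
    omega
  rw [Finset.sum_congr rfl hconst, Finset.sum_const, smul_eq_mul, ← Set.ncard_eq_toFinset_card',
    mul_comm (Nat.card Z), ← mul_add, dfun_add Z hZ x]
  have := MulAction.card_orbit_mul_card_stabilizer_eq_card_group G x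
  rw [← Nat.card_eq_fintype_card, ← Nat.card_eq_fintype_card, ← Nat.card_eq_fintype_card] at this
  rw [← this, ← Nat.card_coe_set_eq]

open scoped Classical in
theorem sum_dfun (Z : Subgroup G) (Q : Finset G) (hQZ : ∀ g ∈ Q, g ∉ Z)
    (hQ : ∀ g ∈ Q, (Finset.univ.filter (fun x : X => g • x = x)).card = 1)
    (hnQ : ∀ g, g ∉ Z → g ∉ Q → (Finset.univ.filter (fun x : X => g • x = x)).card = 2) :
    ∑ x : X, dfun Z x + 2 * Nat.card Z + Q.card = 2 * Nat.card G := by
  have h1 : ∑ x : X, dfun Z x =
      ∑ g ∈ Finset.univ.filter (fun g : G => g ∉ Z),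
        (Finset.univ.filter (fun x : X => g • x = x)).card := by
    have := Finset.sum_card_bipartiteAbove_eq_sum_card_bipartiteBelow
      (s := (Finset.univ : Finset X)) (t := Finset.univ.filter (fun g : G => g ∉ Z))
      (fun x g => g • x = x)
    simp only [Finset.bipartiteAbove, Finset.bipartiteBelow, Finset.filter_filter] at this
    rw [← this]
    rfl
  have h2 : Finset.univ.filter (fun g : G => g ∉ Z) =
      Q ∪ Finset.univ.filter (fun g : G => g ∉ Z ∧ g ∉ Q) := by
    ext g
    simp only [Finset.mem_filter, Finset.mem_univ, true_and, Finset.mem_union]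
    constructor
    · intro h
      by_cases hg : g ∈ Q
      · exact Or.inl hg
      · exact Or.inr ⟨h, hg⟩
    · rintro (h | h)
      · exact hQZ g h
      · exact h.1
  have hdisj : Disjoint Q (Finset.univ.filter (fun g : G => g ∉ Z ∧ g ∉ Q)) := by
    rw [Finset.disjoint_left]
    intro g hg h
    simp only [Finset.mem_filter, Finset.mem_univ, true_and] at h
    exact h.2 hg
  have h3 : (Finset.univ.filter (fun g : G => g ∉ Z)).card + Nat.card Z = Nat.card G := by
    have h1 : Nat.card Z = (Finset.univ.filter (fun g : G => g ∈ Z)).card := by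
      rw [Nat.card_eq_fintype_card, Fintype.card_subtype]
    rw [h1, add_comm, Finset.card_filter_add_card_filter_not, Finset.card_univ,
      Nat.card_eq_fintype_card]
  have h4 : (Finset.univ.filter (fun g : G => g ∉ Z)).card =
      Q.card + (Finset.univ.filter (fun g : G => g ∉ Z ∧ g ∉ Q)).card := by
    rw [h2, Finset.card_union_of_disjoint hdisj]
  rw [h1, h2, Finset.sum_union hdisj, Finset.sum_congr rfl (fun g hg => hQ g hg),
    Finset.sum_congr rfl (fun g hg => hnQ g (Finset.mem_filter.mp hg).2.1
      (Finset.mem_filter.mp hg).2.2), Finset.sum_const, Finset.sum_const, smul_eq_mul, smul_eq_mul]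
  omega

open scoped Classical in
/-- **The counting theorem** -/
theorem count_abs (Z : Subgroup G) (hZ : ∀ z ∈ Z, ∀ x : X, z • x = x)
    (Q : Finset G) (hQZ : ∀ g ∈ Q, g ∉ Z)
    (hQ : ∀ g ∈ Q, (Finset.univ.filter (fun x : X => g • x = x)).card = 1)
    (hnQ : ∀ g, g ∉ Z → g ∉ Q → (Finset.univ.filter (fun x : X => g • x = x)).card = 2)
    (x₀ : X) {q e f : ℕ} (hq : 3 ≤ q) (hf : 1 ≤ f)
    (hw : (MulAction.orbit G x₀).ncard = 1 + q * f)
    (hQcard : Q.card = (MulAction.orbit G x₀).ncard * (Nat.card Z * (q - 1)))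
    (hstab : Nat.card (MulAction.stabilizer G x₀) = Nat.card Z * q * e) :
    q - 1 ≤ 2 * e := by
  set w := (MulAction.orbit G x₀).ncard with hwdef
  set z := Nat.card Z with hzdef
  set N := Nat.card G with hNdef
  have hzpos : 0 < z := Nat.card_pos
  have horbN : ∀ x : X, (MulAction.orbit G x).ncard * Nat.card (MulAction.stabilizer G x) = N := by
    intro x
    have := MulAction.card_orbit_mul_card_stabilizer_eq_card_group G x
    rw [← Nat.card_eq_fintype_card, ← Nat.card_eq_fintype_card, ← Nat.card_eq_fintype_card] at this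
    rw [hNdef, ← this]
    congr 1
  have hN : N = w * (z * q * e) := by rw [← horbN x₀, hstab]
  have hNpos : 0 < N := Nat.card_pos
  have he : 1 ≤ e := by
    rcases Nat.eq_zero_or_pos e with h | h
    · subst h; simp at hN; omega
    · exact h
  have hwpos : 1 < w := by
    rw [hw]
    have : 1 ≤ q * f := Nat.one_le_iff_ne_zero.mpr (by positivity)
    omega
  -- total sum
  have htot := sum_dfun (X := X) Z Q hQZ hQ hnQ
  have horb := fun x : X => sum_dfun_orbit Z hZ x
  set Ω := (MulAction.orbit G x₀).toFinset with hΩ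
  have hsplit : ∑ x : X, dfun Z x = ∑ x ∈ Ω, dfun Z x + ∑ x ∈ Ωᶜ, dfun Z x :=
    (Finset.sum_add_sum_compl Ω _).symm
  -- `T + 2z + w z (q-2) = N`
  have hT : ∑ x ∈ Ωᶜ, dfun Z x + 2 * z + w * z * (q - 2) = N := by
    have h1 := horb x₀
    rw [← hΩ, ← hwdef] at h1
    rw [hsplit] at htot
    have h2 : w * (z * (q - 1)) = w * z * (q - 2) + z * w := by
      obtain ⟨m, rfl⟩ : ∃ m, q = m + 2 := ⟨q - 2, by omega⟩
      simp only [Nat.add_sub_cancel]
      have : m + 2 - 1 = m + 1 := by omega
      rw [this]; ring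
    rw [hQcard, h2] at htot
    rw [← hzdef] at h1 htot
    omega
  have hcz : ∀ x : X, ∃ c : ℕ, Nat.card (MulAction.stabilizer G x) = c * z := by
    intro x
    have hle : Z ≤ MulAction.stabilizer G x := fun g hg => hZ g hg x
    obtain ⟨c, hc⟩ := Subgroup.card_dvd_of_le hle
    exact ⟨c, by rw [hc, mul_comm]⟩
  -- big stabiliser
  have hbig : ∀ x : X, dfun Z x ≠ 0 → 2 * (z * (MulAction.orbit G x).ncard) ≤ N := by
    intro x hx
    obtain ⟨c, hc⟩ := hcz x
    have h1 := dfun_add Z hZ x
    rw [hc, ← hzdef] at h1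
    have hc2 : 2 ≤ c := by
      by_contra hlt
      have : c ≤ 1 := by omega
      have : c * z ≤ 1 * z := Nat.mul_le_mul_right z this
      omega
    rw [← horbN x, hc]
    calc 2 * (z * (MulAction.orbit G x).ncard) = (MulAction.orbit G x).ncard * (2 * z) := by ring
      _ ≤ (MulAction.orbit G x).ncard * (c * z) := by gcongr
  by_cases hall : ∀ x ∈ Ωᶜ, dfun Z x = 0
  · -- impossible case
    exfalso
    rw [Finset.sum_eq_zero hall, zero_add, hN] at hT
    have h2 : 2 * z + w * z * (q - 2) = z * (2 + w * (q - 2)) := by ring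
    have h3 : w * (z * q * e) = z * (w * q * e) := by ring
    rw [h2, h3] at hT
    have h4 := Nat.eq_of_mul_eq_mul_left hzpos hT
    have h5 : w * q * 1 ≤ w * q * e := Nat.mul_le_mul_left _ he
    obtain ⟨m, rfl⟩ : ∃ m, q = m + 2 := ⟨q - 2, by omega⟩
    simp only [Nat.add_sub_cancel] at h4
    nlinarith
  · push Not at hall
    obtain ⟨x, hx, hdx⟩ := hall
    set O := (MulAction.orbit G x).toFinset with hO
    have hxΩ : x ∉ MulAction.orbit G x₀ := by
      intro h
      exact (Finset.mem_compl.mp hx) (by rw [hΩ, Set.mem_toFinset]; exact h)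
    have hOsub : O ⊆ Ωᶜ := by
      intro y hy
      rw [Finset.mem_compl, hΩ, Set.mem_toFinset]
      rw [hO, Set.mem_toFinset] at hy
      intro hy'
      apply hxΩ
      rw [← MulAction.orbit_eq_iff] at hy hy' ⊢
      rw [← hy, hy']
    have hTsplit : ∑ y ∈ Ωᶜ, dfun Z y = ∑ y ∈ Ωᶜ \ O, dfun Z y + ∑ y ∈ O, dfun Z y :=
      (Finset.sum_sdiff hOsub).symm
    have hrest : ∑ y ∈ Ωᶜ \ O, dfun Z y = 0 := by
      by_contra hne
      obtain ⟨y, hy, hdy⟩ := Finset.exists_ne_zero_of_sum_ne_zero hne
      rw [Finset.mem_sdiff] at hy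
      set O' := (MulAction.orbit G y).toFinset with hO'
      have hyΩ : y ∉ MulAction.orbit G x₀ := by
        intro h
        exact (Finset.mem_compl.mp hy.1) (by rw [hΩ, Set.mem_toFinset]; exact h)
      have hyO : y ∉ MulAction.orbit G x := by
        intro h
        exact hy.2 (by rw [hO, Set.mem_toFinset]; exact h)
      have hO'sub : O' ⊆ Ωᶜ \ O := by
        intro t ht
        rw [hO', Set.mem_toFinset] at ht
        rw [Finset.mem_sdiff, Finset.mem_compl, hΩ, hO, Set.mem_toFinset, Set.mem_toFinset]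
        constructor
        · intro ht'
          apply hyΩ
          rw [← MulAction.orbit_eq_iff] at ht ht' ⊢
          rw [← ht, ht']
        · intro ht'
          apply hyO
          rw [← MulAction.orbit_eq_iff] at ht ht' ⊢
          rw [← ht, ht']
      have h1 : ∑ t ∈ O', dfun Z t ≤ ∑ t ∈ Ωᶜ \ O, dfun Z t :=
        Finset.sum_le_sum_of_subset hO'sub
      have h2 := horb y
      have h3 := horb x
      have h4 := hbig x hdx
      have h5 := hbig y hdy
      rw [← hO', ← hzdef] at h2
      rw [← hO, ← hzdef] at h3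
      have h6 : 0 < w * z * (q - 2) + 2 * z := by positivity
      omega
    rw [hTsplit, hrest, zero_add] at hT
    have h3 := horb x
    rw [← hO, ← hzdef] at h3
    obtain ⟨c, hc⟩ := hcz x
    have h4 : z * (MulAction.orbit G x).ncard = z * (2 + w * (q - 2)) := by
      have : z * (2 + w * (q - 2)) = 2 * z + w * z * (q - 2) := by ring
      omega
    have h5 := Nat.eq_of_mul_eq_mul_left hzpos h4
    have h6 := horbN x
    rw [h5, hc, hN] at h6
    have h7 : z * (c * (2 + w * (q - 2))) = z * (w * q * e) := by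
      calc z * (c * (2 + w * (q - 2))) = (2 + w * (q - 2)) * (c * z) := by ring
        _ = w * (z * q * e) := h6
        _ = z * (w * q * e) := by ring
    exact arith_count hq he hf hw (Nat.eq_of_mul_eq_mul_left hzpos h7)

end abs

end Fermat.Agent.H6
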