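import Mathlib
import Fermat.Agent.H6TWCount

/-!
# Finite subgroups of `GL₂(k)`: elements, fixed points, Borel subgroup
-/

set_option autoImplicit false

namespace Fermat.Agent.H6

open Matrix OnePoint

section elements

variable {k : Type*} [Field k]

theorem gl_ext {g h : GL (Fin 2) k} (h00 : g 0 0 = h 0 0) (h01 : g 0 1 = h 0 1)
    (h10 : g 1 0 = h 1 0) (h11 : g 1 1 = h 1 1) : g = h := by
  apply Units.ext
  ext i j
  fin_cases i <;> fin_cases j
  exacts [h00, h01, h10, h11]

theorem gl_mul_apply (g h : GL (Fin 2) k) (i j : Fin 2) :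
    (g * h) i j = g i 0 * h 0 j + g i 1 * h 1 j := by
  simp [Matrix.mul_apply, Fin.sum_univ_two]

theorem gl_det (g : GL (Fin 2) k) : g 0 0 * g 1 1 - g 0 1 * g 1 0 ≠ 0 := by
  have := g.det_ne_zero
  rwa [Matrix.det_fin_two] at this

/-- Being a scalar matrix. -/
def IsScal (g : GL (Fin 2) k) : Prop := g 0 1 = 0 ∧ g 1 0 = 0 ∧ g 0 0 = g 1 1

theorem isScal_one : IsScal (1 : GL (Fin 2) k) := by
  refine ⟨?_, ?_, ?_⟩ <;> simp

theorem IsScal.mul {g h : GL (Fin 2) k} (hg : IsScal g) (hh : IsScal h) : IsScal (g * h) := by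
  obtain ⟨h1, h2, h3⟩ := hg
  obtain ⟨h4, h5, h6⟩ := hh
  refine ⟨?_, ?_, ?_⟩ <;> simp only [gl_mul_apply, h1, h2, h4, h5] <;> simp [h3, h6]

theorem IsScal.comm {g : GL (Fin 2) k} (hg : IsScal g) (h : GL (Fin 2) k) : g * h = h * g := by
  obtain ⟨h1, h2, h3⟩ := hg
  apply gl_ext <;> simp only [gl_mul_apply, h1, h2, h3] <;> ring

theorem IsScal.inv {g : GL (Fin 2) k} (hg : IsScal g) : IsScal g⁻¹ := by
  have key : ∀ i j, (g * g⁻¹) i j = (1 : GL (Fin 2) k) i j := fun i j => by rw [mul_inv_cancel]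
  obtain ⟨h1, h2, h3⟩ := hg
  have h0 : g 1 1 ≠ 0 := by
    intro h; have := gl_det g; rw [h1, h] at this; simp at this
  have e00 := key 0 0
  have e01 := key 0 1
  have e10 := key 1 0
  have e11 := key 1 1
  simp only [gl_mul_apply, h1, h2, h3, zero_mul, add_zero, zero_add] at e00 e01 e10 e11
  simp only [Units.val_one, Matrix.one_apply_eq, ne_eq, zero_ne_one, one_ne_zero,
    not_false_eq_true, Matrix.one_apply_ne] at e00 e01 e10 e11
  refine ⟨?_, ?_, ?_⟩
  · rcases mul_eq_zero.mp e01 with h | h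
    · exact absurd h h0
    · exact h
  · rcases mul_eq_zero.mp e10 with h | h
    · exact absurd h h0
    · exact h
  · exact mul_left_cancel₀ h0 (e00.trans e11.symm)

/-- The scalar matrices. -/
def scalSub (k : Type*) [Field k] : Subgroup (GL (Fin 2) k) where
  carrier := {g | IsScal g}
  mul_mem' := fun hg hh => IsScal.mul hg hh
  one_mem' := isScal_one
  inv_mem' := fun hg => IsScal.inv hg

theorem mem_scalSub {g : GL (Fin 2) k} : g ∈ scalSub k ↔ IsScal g := Iff.rfl

variable [DecidableEq k]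

theorem smul_some_iff (g : GL (Fin 2) k) (x : k) :
    g • (x : OnePoint k) = x ↔ g 1 0 * x ^ 2 + (g 1 1 - g 0 0) * x - g 0 1 = 0 := by
  rw [← Matrix.GeneralLinearGroup.fixpointPolynomial_aeval_eq_zero_iff,
    Matrix.GeneralLinearGroup.fixpointPolynomial]
  simp

theorem smul_infty_iff (g : GL (Fin 2) k) : g • (∞ : OnePoint k) = ∞ ↔ g 1 0 = 0 :=
  OnePoint.smul_infty_eq_self_iff

theorem IsScal.smul {g : GL (Fin 2) k} (hg : IsScal g) (x : OnePoint k) : g • x = x := by
  obtain ⟨h1, h2, h3⟩ := hg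
  induction x using OnePoint.rec with
  | infty => exact (smul_infty_iff g).mpr h2
  | coe x => rw [smul_some_iff, h1, h2, h3]; ring

open scoped Classical in
/-- The fixed points of a nonscalar element with eigenvalues in `k`. -/
theorem card_fix [Fintype k] (g : GL (Fin 2) k) (hg : ¬ IsScal g) {α β : k}
    (htr : g 0 0 + g 1 1 = α + β) (hdet : g 0 0 * g 1 1 - g 0 1 * g 1 0 = α * β) :
    (Finset.univ.filter (fun x : OnePoint k => g • x = x)).card = if α = β then 1 else 2 := by
  by_cases hc : g 1 0 = 0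
  · -- upper triangular
    rw [hc] at hdet
    have hab : (g 0 0 = α ∧ g 1 1 = β) ∨ (g 0 0 = β ∧ g 1 1 = α) := by
      have h1 : (g 0 0 - α) * (g 0 0 - β) = 0 := by
        have : g 1 1 = α + β - g 0 0 := by rw [← htr]; ring
        rw [this] at hdet
        linear_combination -hdet
      rcases mul_eq_zero.mp h1 with h | h
      · left
        have h2 : g 0 0 = α := sub_eq_zero.mp h
        exact ⟨h2, by rw [h2] at htr; exact add_left_cancel htr⟩
      · right
        have h2 : g 0 0 = β := sub_eq_zero.mp h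
        refine ⟨h2, by rw [h2, add_comm α β] at htr; exact add_left_cancel htr⟩
    by_cases had : g 0 0 = g 1 1
    · have hαβ : α = β := by
        rcases hab with ⟨h1, h2⟩ | ⟨h1, h2⟩
        · rw [← h1, ← h2, had]
        · rw [← h1, ← h2, had]
      have hb : g 0 1 ≠ 0 := fun h => hg ⟨h, hc, had⟩
      rw [if_pos hαβ, Finset.card_eq_one]
      refine ⟨∞, ?_⟩
      ext x
      simp only [Finset.mem_filter, Finset.mem_univ, true_and, Finset.mem_singleton]
      induction x using OnePoint.rec with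
      | infty => simp [smul_infty_iff, hc]
      | coe x =>
        rw [smul_some_iff, hc, had]
        simp [hb]
    · have hαβ : α ≠ β := by
        rintro rfl
        rcases hab with ⟨h1, h2⟩ | ⟨h1, h2⟩ <;> exact had (h1.trans h2.symm)
      rw [if_neg hαβ, Finset.card_eq_two]
      have hda : g 1 1 - g 0 0 ≠ 0 := sub_ne_zero.mpr (Ne.symm had)
      refine ⟨∞, ((g 0 1 / (g 1 1 - g 0 0) : k) : OnePoint k), OnePoint.infty_ne_coe _, ?_⟩
      ext x
      simp only [Finset.mem_filter, Finset.mem_univ, true_and, Finset.mem_singleton,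
        Finset.mem_insert]
      induction x using OnePoint.rec with
      | infty => simp [smul_infty_iff, hc]
      | coe x =>
        rw [smul_some_iff, hc]
        simp only [OnePoint.coe_ne_infty, false_or, OnePoint.coe_eq_coe]
        rw [eq_div_iff hda]
        constructor
        · intro h; linear_combination h
        · intro h; linear_combination h
  · -- finite fixed points only
    have hfix : ∀ x : k, g • (x : OnePoint k) = x ↔
        (x = (α - g 1 1) / g 1 0 ∨ x = (β - g 1 1) / g 1 0) := by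
      intro x
      rw [smul_some_iff, eq_div_iff hc, eq_div_iff hc, ← sub_eq_zero (a := x * g 1 0),
        ← sub_eq_zero (a := x * g 1 0) (b := β - g 1 1), ← mul_eq_zero]
      constructor
      · intro h
        linear_combination g 1 0 * h + (x * g 1 0 + g 1 1) * htr - hdet
      · intro h
        apply mul_left_cancel₀ hc
        rw [mul_zero]
        linear_combination h - (x * g 1 0 + g 1 1) * htr + hdet
    by_cases hαβ : α = β
    · rw [if_pos hαβ, Finset.card_eq_one]
      refine ⟨(((α - g 1 1) / g 1 0 : k) : OnePoint k), ?_⟩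
      ext x
      simp only [Finset.mem_filter, Finset.mem_univ, true_and, Finset.mem_singleton]
      induction x using OnePoint.rec with
      | infty => simp [smul_infty_iff, hc]
      | coe x => rw [hfix, ← hαβ]; simp
    · rw [if_neg hαβ, Finset.card_eq_two]
      refine ⟨(((α - g 1 1) / g 1 0 : k) : OnePoint k), (((β - g 1 1) / g 1 0 : k) : OnePoint k),
        ?_, ?_⟩
      · rw [Ne, OnePoint.coe_eq_coe, div_left_inj' hc]
        intro h
        exact hαβ (by linear_combination h)
      ext x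
      simp only [Finset.mem_filter, Finset.mem_univ, true_and, Finset.mem_singleton,
        Finset.mem_insert]
      induction x using OnePoint.rec with
      | infty => simp [smul_infty_iff, hc]
      | coe x => rw [hfix]; simp

end elements

section upper

variable {k : Type*} [Field k]

/-- The upper unipotent matrix `[1 b; 0 1]`. -/
def ur (b : k) : GL (Fin 2) k where
  val := !![1, b; 0, 1]
  inv := !![1, -b; 0, 1]
  val_inv := by simp [Matrix.one_fin_two]
  inv_val := by simp [Matrix.one_fin_two]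

@[simp] theorem ur_00 (b : k) : (ur b) 0 0 = 1 := rfl
@[simp] theorem ur_01 (b : k) : (ur b) 0 1 = b := rfl
@[simp] theorem ur_10 (b : k) : (ur b) 1 0 = 0 := rfl
@[simp] theorem ur_11 (b : k) : (ur b) 1 1 = 1 := rfl

theorem ur_zero : ur (0 : k) = 1 := by
  apply gl_ext <;> simp

theorem ur_add (a b : k) : ur (a + b) = ur a * ur b := by
  apply gl_ext <;> simp [gl_mul_apply, add_comm]

theorem ur_neg (a : k) : ur (-a) = (ur a)⁻¹ := by
  rw [eq_inv_iff_mul_eq_one, ← ur_add, neg_add_cancel, ur_zero]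

theorem ur_injective : Function.Injective (ur : k → GL (Fin 2) k) := by
  intro a b h
  have : (ur a) 0 1 = (ur b) 0 1 := by rw [h]
  simpa using this

/-- The translations contained in `G`. -/
def trans (G : Subgroup (GL (Fin 2) k)) : AddSubgroup k where
  carrier := {b | ur b ∈ G}
  add_mem' := by
    intro a b ha hb
    show ur (a + b) ∈ G
    rw [ur_add]; exact G.mul_mem ha hb
  zero_mem' := by
    show ur (0 : k) ∈ G
    rw [ur_zero]; exact G.one_mem
  neg_mem' := by
    intro a ha
    show ur (-a) ∈ G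
    rw [ur_neg]; exact G.inv_mem ha

theorem mem_trans {G : Subgroup (GL (Fin 2) k)} {b : k} : b ∈ trans G ↔ ur b ∈ G := Iff.rfl

/-- The Borel subgroup of upper triangular matrices. -/
theorem upper_mul {g h : GL (Fin 2) k} (hg : g 1 0 = 0) (hh : h 1 0 = 0) :
    (g * h) 1 0 = 0 ∧ (g * h) 0 0 = g 0 0 * h 0 0 ∧ (g * h) 1 1 = g 1 1 * h 1 1 ∧
      (g * h) 0 1 = g 0 0 * h 0 1 + g 0 1 * h 1 1 := by
  refine ⟨?_, ?_, ?_, ?_⟩ <;> simp only [gl_mul_apply, hg, hh] <;> ring

theorem upper_ne_zero {g : GL (Fin 2) k} (hg : g 1 0 = 0) : g 0 0 ≠ 0 ∧ g 1 1 ≠ 0 := by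
  have := gl_det g
  rw [hg, mul_zero, sub_zero] at this
  exact ⟨left_ne_zero_of_mul this, right_ne_zero_of_mul this⟩

theorem upper_pow {g : GL (Fin 2) k} (hg : g 1 0 = 0) (n : ℕ) :
    (g ^ n) 1 0 = 0 ∧ (g ^ n) 0 0 = (g 0 0) ^ n ∧ (g ^ n) 1 1 = (g 1 1) ^ n := by
  induction n with
  | zero => simp
  | succ n ih =>
    obtain ⟨h1, h2, h3⟩ := ih
    rw [pow_succ]
    obtain ⟨h4, h5, h6, -⟩ := upper_mul h1 hg
    exact ⟨h4, by rw [h5, h2, pow_succ], by rw [h6, h3, pow_succ]⟩

theorem upper_pow_eq {g : GL (Fin 2) k} (hg : g 1 0 = 0) (hd : g 0 0 = g 1 1) (n : ℕ) :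
    (g ^ (n + 1)) 0 1 = (n + 1) * (g 0 0) ^ n * g 0 1 := by
  induction n with
  | zero => simp
  | succ n ih =>
    rw [pow_succ]
    obtain ⟨h1, h2, h3⟩ := upper_pow hg (n + 1)
    obtain ⟨-, -, -, h4⟩ := upper_mul h1 hg
    rw [h4, h2, ih, ← hd]
    push_cast
    ring

variable [Fintype k]

/-- The `|k|`-th power of a matrix `[a b; 0 a]` is the scalar `a`. -/
theorem upper_pow_card {g : GL (Fin 2) k} (hg : g 1 0 = 0) (hd : g 0 0 = g 1 1) :
    IsScal (g ^ Fintype.card k) ∧ (g ^ Fintype.card k) 0 0 = g 0 0 := by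
  obtain ⟨h1, h2, h3⟩ := upper_pow hg (Fintype.card k)
  have h4 : (g ^ Fintype.card k) 0 1 = 0 := by
    obtain ⟨n, hn⟩ : ∃ n, Fintype.card k = n + 1 := ⟨Fintype.card k - 1, by
      have := Fintype.card_pos (α := k); omega⟩
    have h5 : ((n : k) + 1) = 0 := by
      have := FiniteField.cast_card_eq_zero k
      rw [hn] at this
      exact_mod_cast this
    rw [hn, upper_pow_eq hg hd, h5]
    ring
  refine ⟨⟨h4, h1, by rw [h2, h3, hd]⟩, by rw [h2, FiniteField.pow_card]⟩

end upper

end Fermat.Agent.H6
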