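import Mathlib
import Fermat.Agent.H6TWGL2

/-!
# Finite subgroups of `GL₂(k)` containing a transvection: the order of the Borel subgroup
-/

set_option autoImplicit false

namespace Fermat.Agent.H6

open Matrix OnePoint

section topt

variable {k : Type*} [Field k]

/-- A matrix moving `∞` to `x`. -/
def toPt (x : k) : GL (Fin 2) k where
  val := !![x, -1; 1, 0]
  inv := !![0, 1; -1, x]
  val_inv := by
    ext i j; fin_cases i <;> fin_cases j <;> simp [Matrix.mul_apply, Fin.sum_univ_two]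
  inv_val := by
    ext i j; fin_cases i <;> fin_cases j <;> simp [Matrix.mul_apply, Fin.sum_univ_two]

theorem toPt_smul [DecidableEq k] (x : k) : toPt x • (∞ : OnePoint k) = (x : OnePoint k) := by
  rw [OnePoint.smul_infty_eq_ite]
  simp [toPt]

theorem exists_smul_infty [DecidableEq k] (y : OnePoint k) :
    ∃ h : GL (Fin 2) k, h • (∞ : OnePoint k) = y := by
  induction y using OnePoint.rec with
  | infty => exact ⟨1, one_smul _ _⟩
  | coe x => exact ⟨toPt x, toPt_smul x⟩

end topt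

section unip

variable {k : Type*} [Field k] [DecidableEq k]

/-- If `g` is nonscalar and has a unique fixed point on the line, it is conjugate to
`[a b; 0 a]`. -/
theorem upper_of_unique {g : GL (Fin 2) k} (h10 : g 1 0 = 0)
    (huniq : ∀ x : OnePoint k, g • x = x → x = ∞) : g 0 0 = g 1 1 := by
  by_contra hne
  have hda : g 1 1 - g 0 0 ≠ 0 := sub_ne_zero.mpr (Ne.symm hne)
  have := huniq ((g 0 1 / (g 1 1 - g 0 0) : k) : OnePoint k) (by
    rw [smul_some_iff, h10]
    field_simp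
    ring)
  exact OnePoint.coe_ne_infty _ this

theorem fix_conj (g h : GL (Fin 2) k) (x : OnePoint k) :
    (h⁻¹ * g * h) • x = x ↔ g • (h • x) = h • x := by
  rw [mul_smul, mul_smul, inv_smul_eq_iff]

/-- Unipotent part: if `g ∉` scalars has the unique fixed point `x`, then
`u = g * (g ^ |k|)⁻¹` satisfies `u ^ p = 1` and has the same fixed points. -/
theorem unip_part [Fintype k] (p : ℕ) [Fact p.Prime] [CharP k p] {g : GL (Fin 2) k}
    {x : OnePoint k} (hx : ∀ y : OnePoint k, g • y = y ↔ y = x) :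
    (g * (g ^ Fintype.card k)⁻¹) ^ p = 1 ∧
      ∀ y : OnePoint k, (g * (g ^ Fintype.card k)⁻¹) • y = y ↔ y = x := by
  obtain ⟨h, hh⟩ := exists_smul_infty x
  set g' := h⁻¹ * g * h with hg'
  have hfix : ∀ y : OnePoint k, g' • y = y ↔ y = ∞ := by
    intro y
    rw [hg', fix_conj, hx, ← hh]
    exact ⟨fun e => MulAction.injective h e, fun e => by rw [e]⟩
  have h10 : g' 1 0 = 0 := (smul_infty_iff g').mp ((hfix ∞).mpr rfl)
  have hd : g' 0 0 = g' 1 1 := upper_of_unique h10 fun y hy => (hfix y).mp hy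
  obtain ⟨hs, hs'⟩ := upper_pow_card h10 hd
  have hg'pow : ∀ n : ℕ, g' ^ n = h⁻¹ * g ^ n * h := by
    intro n
    have := conj_pow (i := n) (a := h⁻¹) (b := g)
    rw [inv_inv] at this
    exact this
  have hconj : g ^ Fintype.card k = h * g' ^ Fintype.card k * h⁻¹ := by
    rw [hg'pow]; group
  have hg'scal : g ^ Fintype.card k = g' ^ Fintype.card k := by
    rw [hconj, ← hs.comm h]; group
  have hscal : IsScal (g ^ Fintype.card k) := by rw [hg'scal]; exact hs
  refine ⟨?_, ?_⟩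
  · -- `g ^ p` is the scalar `a ^ p`
    obtain ⟨h1, h2, h3⟩ := upper_pow h10 p
    have h4 : (g' ^ p) 0 1 = 0 := by
      obtain ⟨n, hn⟩ : ∃ n, p = n + 1 := ⟨p - 1, by
        have := (Fact.out : p.Prime).pos; omega⟩
      have h5 : ((n : k) + 1) = 0 := by
        have := CharP.cast_eq_zero k p
        rw [hn] at this
        exact_mod_cast this
      rw [hn, upper_pow_eq h10 hd, h5]
      ring
    have hps : IsScal (g' ^ p) := ⟨h4, h1, by rw [h2, h3, hd]⟩
    have e1 : g' ^ p = (g' ^ Fintype.card k) ^ p := by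
      obtain ⟨h9, h10', h11⟩ := upper_pow hs.2.1 p
      have hps' : IsScal ((g' ^ Fintype.card k) ^ p) := by
        have : (g' ^ Fintype.card k) ^ p ∈ scalSub k := Subgroup.pow_mem _ hs p
        exact this
      apply gl_ext
      · rw [h2, h10', hs']
      · rw [hps.1, hps'.1]
      · rw [hps.2.1, hps'.2.1]
      · rw [← hps.2.2, ← hps'.2.2, h2, h10', hs']
    have e2 : g ^ p = (g ^ Fintype.card k) ^ p := by
      have e3 : h⁻¹ * g ^ p * h = g' ^ p := (hg'pow p).symm
      have e4 : g ^ p = h * g' ^ p * h⁻¹ := by rw [← e3]; group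
      rw [e4, ← hps.comm h, hg'scal, ← e1]; group
    have hcomm : Commute g (g ^ Fintype.card k)⁻¹ := (Commute.self_pow g _).inv_right
    rw [hcomm.mul_pow, inv_pow, ← e2, mul_inv_cancel]
  · intro y
    rw [mul_smul, (IsScal.inv hscal).smul, hx]

end unip

section sylow

variable {k : Type*} [Field k] [DecidableEq k] [Fintype k] (p : ℕ) [Fact p.Prime] [CharP k p]

omit [DecidableEq k] in
/-- A `p`-subgroup of `GL₂(k)` fixes a point of the projective line. -/
theorem pgroup_fix {H : Type*} [Group H] [Finite H] [MulAction H (OnePoint k)]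
    (hH : IsPGroup p H) : ∃ x : OnePoint k, ∀ g : H, g • x = x := by
  have hcard : Nat.card (OnePoint k) = Fintype.card k + 1 := by
    rw [Nat.card_eq_fintype_card]
    exact Fintype.card_option
  have hp : ¬ p ∣ Nat.card (OnePoint k) := by
    rw [hcard]
    intro h
    have h1 : p ∣ Fintype.card k := by
      rw [← CharP.cast_eq_zero_iff k p]
      exact FiniteField.cast_card_eq_zero k
    have h2 := (Nat.dvd_add_right h1).mp h
    exact (Fact.out : p.Prime).one_lt.ne' (Nat.dvd_one.mp h2)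
  obtain ⟨x, hx⟩ := hH.nonempty_fixed_point_of_prime_not_dvd_card (OnePoint k) hp
  exact ⟨x, hx⟩

variable (G : Subgroup (GL (Fin 2) k))

/-- The subgroup of upper unipotent elements of `G`. -/
def upG : Subgroup G where
  carrier := {g | (g : GL (Fin 2) k) 1 0 = 0 ∧ (g : GL (Fin 2) k) 0 0 = 1 ∧
    (g : GL (Fin 2) k) 1 1 = 1}
  mul_mem' := by
    rintro a b ⟨h1, h2, h3⟩ ⟨h4, h5, h6⟩
    obtain ⟨h7, h8, h9, -⟩ := upper_mul h1 h4
    refine ⟨h7, ?_, ?_⟩
    · show ((a : GL (Fin 2) k) * (b : GL (Fin 2) k)) 0 0 = 1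
      rw [h8, h2, h5, one_mul]
    · show ((a : GL (Fin 2) k) * (b : GL (Fin 2) k)) 1 1 = 1
      rw [h9, h3, h6, one_mul]
  one_mem' := by simp
  inv_mem' := by
    rintro a ⟨h1, h2, h3⟩
    have : (a : GL (Fin 2) k) = ur ((a : GL (Fin 2) k) 0 1) := by
      apply gl_ext <;> simp [h1, h2, h3]
    have h4 : ((a⁻¹ : G) : GL (Fin 2) k) = ur (-((a : GL (Fin 2) k) 0 1)) := by
      rw [ur_neg, ← this]; rfl
    refine ⟨?_, ?_, ?_⟩ <;> rw [h4] <;> simp

omit [DecidableEq k] [Fintype k] in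
theorem mem_upG_iff {g : G} : g ∈ upG G ↔ (g : GL (Fin 2) k) = ur ((g : GL (Fin 2) k) 0 1) := by
  constructor
  · rintro ⟨h1, h2, h3⟩
    apply gl_ext <;> simp [h1, h2, h3]
  · intro h
    refine ⟨?_, ?_, ?_⟩ <;> rw [h] <;> simp

omit [DecidableEq k] [Fintype k] [Fact p.Prime] in
theorem isPGroup_upG : IsPGroup p (upG G) := by
  rintro ⟨g, hg⟩
  refine ⟨1, ?_⟩
  rw [pow_one]
  apply Subtype.ext
  apply Subtype.ext
  rw [mem_upG_iff] at hg
  show (g : GL (Fin 2) k) ^ p = 1
  have hn : ∀ (n : ℕ) (b : k), (ur b) ^ n = ur (n * b) := by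
    intro n b
    induction n with
    | zero => simp [ur_zero]
    | succ n ih => rw [pow_succ, ih, ← ur_add]; congr 1; push_cast; ring
  rw [hg, hn, CharP.cast_eq_zero, zero_mul, ur_zero]

omit [Fintype k] in
/-- A nontrivial translation only fixes `∞`. -/
theorem ur_fix {b : k} (hb : b ≠ 0) (x : OnePoint k) : ur b • x = x ↔ x = ∞ := by
  induction x using OnePoint.rec with
  | infty => simp [smul_infty_iff]
  | coe x => rw [smul_some_iff]; simp [hb]

/-- Any `p`-subgroup of `G` containing `upG G` is equal to it. -/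
theorem upG_maximal (hU : ∃ b : k, b ≠ 0 ∧ ur b ∈ G) (S : Subgroup G) (hS : IsPGroup p S)
    (hle : upG G ≤ S) : S = upG G := by
  have : Finite G := inferInstance
  obtain ⟨b, hb, hbG⟩ := hU
  obtain ⟨y, hy⟩ := pgroup_fix (k := k) p hS
  have hbU : (⟨ur b, hbG⟩ : G) ∈ upG G := by rw [mem_upG_iff]; simp
  have hyinf : y = ∞ := (ur_fix hb y).mp (hy ⟨⟨ur b, hbG⟩, hle hbU⟩)
  refine le_antisymm ?_ hle
  intro g hg
  have h1 : (g : GL (Fin 2) k) • (∞ : OnePoint k) = ∞ := by
    have := hy ⟨g, hg⟩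
    rw [hyinf] at this
    exact this
  have h10 := (smul_infty_iff _).mp h1
  obtain ⟨r, hr⟩ := hS ⟨g, hg⟩
  have hr' : (g : GL (Fin 2) k) ^ (p ^ r) = 1 := by
    have := congrArg (fun t : S => ((t : G) : GL (Fin 2) k)) hr
    simpa using this
  obtain ⟨h2, h3, h4⟩ := upper_pow h10 (p ^ r)
  have hone : ∀ a : k, a ^ (p ^ r) = 1 → a = 1 := by
    intro a ha
    have h5 : (a - 1) ^ (p ^ r) = 0 := by
      rw [sub_pow_char_pow, ha, one_pow, sub_self]
    exact sub_eq_zero.mp (pow_eq_zero_iff (pow_ne_zero _ (Fact.out : p.Prime).ne_zero) |>.mp h5)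
  refine ⟨h10, hone _ ?_, hone _ ?_⟩
  · rw [← h3, hr']; simp
  · rw [← h4, hr']; simp

/-- The upper unipotent subgroup is a Sylow subgroup of `G`. -/
theorem exists_sylow (hU : ∃ b : k, b ≠ 0 ∧ ur b ∈ G) :
    ∃ S : Sylow p G, (S : Subgroup G) = upG G := by
  obtain ⟨S, hS⟩ := (isPGroup_upG p G).exists_le_sylow
  exact ⟨S, upG_maximal p G hU S S.isPGroup' hS⟩

include p in
/-- Every point fixed by some non-scalar element with a unique fixed point is in the orbit of
`∞`. -/
theorem mem_orbit_of_unique (hU : ∃ b : k, b ≠ 0 ∧ ur b ∈ G) {g : G} {x : OnePoint k}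
    (hx : ∀ y : OnePoint k, g • y = y ↔ y = x) : x ∈ MulAction.orbit G (∞ : OnePoint k) := by
  have : Finite G := inferInstance
  obtain ⟨S, hS⟩ := exists_sylow p G hU
  have hx' : ∀ y : OnePoint k, (g : GL (Fin 2) k) • y = y ↔ y = x := hx
  obtain ⟨hu1, hu2⟩ := unip_part p hx'
  set u : G := g * (g ^ Fintype.card k)⁻¹ with hu
  have hup : u ^ p = 1 := by
    apply Subtype.ext
    simpa [hu] using hu1
  have hpu : IsPGroup p (Subgroup.zpowers u) := by
    rintro ⟨v, hv⟩
    obtain ⟨n, rfl⟩ := Subgroup.mem_zpowers_iff.mp hv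
    refine ⟨1, ?_⟩
    apply Subtype.ext
    show (u ^ n) ^ (p ^ 1) = 1
    rw [pow_one, ← zpow_natCast, ← _root_.zpow_mul, mul_comm, _root_.zpow_mul, zpow_natCast, hup, _root_.one_zpow]
  obtain ⟨S', hS'⟩ := hpu.exists_le_sylow
  obtain ⟨h, hh⟩ := MulAction.exists_smul_eq G S S'
  -- `h • ∞` is fixed by `S'`
  have huS' : u ∈ (S' : Subgroup G) := hS' (Subgroup.mem_zpowers u)
  rw [← hh, Sylow.coe_subgroup_smul] at huS'
  obtain ⟨s, hs, hsu⟩ := huS'
  have hs' : s ∈ upG G := by rw [← hS]; exact hs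
  have hsinf : s • (∞ : OnePoint k) = ∞ := (smul_infty_iff _).mpr hs'.1
  have hsu' : h * s * h⁻¹ = u := hsu
  have h1 : u • (h • (∞ : OnePoint k)) = h • ∞ := by
    rw [← hsu', mul_smul, mul_smul, inv_smul_smul, hsinf]
  have h2 : h • (∞ : OnePoint k) = x := (hu2 _).mp h1
  exact ⟨h, h2⟩

end sylow

section borel

variable {k : Type*} [Field k] (G : Subgroup (GL (Fin 2) k))

/-- The ratio of the diagonal entries, on the elements of `G` fixing `∞`. -/
def nuHom [DecidableEq k] : MulAction.stabilizer G (∞ : OnePoint k) →* kˣ where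
  toFun g := Units.mk0 (((g : G) : GL (Fin 2) k) 0 0 / ((g : G) : GL (Fin 2) k) 1 1) (by
    have h10 := (smul_infty_iff _).mp (MulAction.mem_stabilizer_iff.mp g.2)
    obtain ⟨h1, h2⟩ := upper_ne_zero h10
    exact div_ne_zero h1 h2)
  map_one' := by
    apply Units.ext; simp
  map_mul' := by
    intro g h
    have h10 := (smul_infty_iff _).mp (MulAction.mem_stabilizer_iff.mp g.2)
    have h10' := (smul_infty_iff _).mp (MulAction.mem_stabilizer_iff.mp h.2)
    obtain ⟨-, h3, h4, -⟩ := upper_mul h10 h10'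
    apply Units.ext
    simp only [Units.val_mk0, Units.val_mul]
    rw [div_mul_div_comm]
    congr 1

theorem nuHom_apply [DecidableEq k] (g : MulAction.stabilizer G (∞ : OnePoint k)) :
    ((nuHom G g : kˣ) : k) = ((g : G) : GL (Fin 2) k) 0 0 / ((g : G) : GL (Fin 2) k) 1 1 := rfl

theorem mem_ker_nuHom [DecidableEq k] (g : MulAction.stabilizer G (∞ : OnePoint k)) :
    g ∈ (nuHom G).ker ↔ ((g : G) : GL (Fin 2) k) 0 0 = ((g : G) : GL (Fin 2) k) 1 1 := by
  have h10 := (smul_infty_iff _).mp (MulAction.mem_stabilizer_iff.mp g.2)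
  obtain ⟨h1, h2⟩ := upper_ne_zero h10
  rw [MonoidHom.mem_ker, Units.ext_iff, nuHom_apply, Units.val_one]
  exact div_eq_one_iff_eq h2

/-- The scalar matrices in `G`. -/
def scalG : Subgroup G := (scalSub k).subgroupOf G

theorem mem_scalG {g : G} : g ∈ scalG G ↔ IsScal (g : GL (Fin 2) k) := by
  rw [scalG, Subgroup.mem_subgroupOf, mem_scalSub]

variable [Fintype k]

/-- For `g = [a b; 0 a] ∈ G` the scalar `a` and the translation by `a⁻¹ b` are in `G`. -/
theorem ker_nu_decomp {g : G} (h10 : (g : GL (Fin 2) k) 1 0 = 0)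
    (hd : (g : GL (Fin 2) k) 0 0 = (g : GL (Fin 2) k) 1 1) :
    ∃ s : G, ∃ b : k, IsScal (s : GL (Fin 2) k) ∧ (s : GL (Fin 2) k) 0 0 = (g : GL (Fin 2) k) 0 0 ∧
      ur b ∈ G ∧ (g : GL (Fin 2) k) = (s : GL (Fin 2) k) * ur b := by
  obtain ⟨h1, h2⟩ := upper_pow_card h10 hd
  obtain ⟨h3, h4⟩ := upper_ne_zero h10
  have hs : IsScal ((g ^ Fintype.card k : G) : GL (Fin 2) k) := by
    rw [Subgroup.coe_pow]; exact h1
  have hs2 : ((g ^ Fintype.card k : G) : GL (Fin 2) k) 0 0 = (g : GL (Fin 2) k) 0 0 := by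
    rw [Subgroup.coe_pow]; exact h2
  have hfac : (g : GL (Fin 2) k) = ((g ^ Fintype.card k : G) : GL (Fin 2) k) *
      ur ((g : GL (Fin 2) k) 0 1 / (g : GL (Fin 2) k) 0 0) := by
    obtain ⟨h5, h6, h7⟩ := hs
    apply gl_ext
    · rw [gl_mul_apply, h5, hs2]; simp
    · rw [gl_mul_apply, h5, hs2]; simp; field_simp
    · rw [gl_mul_apply, h6, ← h7, hs2, h10]; simp
    · rw [gl_mul_apply, h6, ← h7, hs2, ← hd]; simp
  refine ⟨g ^ Fintype.card k, (g : GL (Fin 2) k) 0 1 / (g : GL (Fin 2) k) 0 0, hs, hs2, ?_, hfac⟩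
  have : ur ((g : GL (Fin 2) k) 0 1 / (g : GL (Fin 2) k) 0 0) =
      ((g ^ Fintype.card k : G) : GL (Fin 2) k)⁻¹ * (g : GL (Fin 2) k) := by
    rw [eq_inv_mul_iff_mul_eq]; exact hfac.symm
  rw [this]
  exact G.mul_mem (G.inv_mem (g ^ Fintype.card k).2) g.2

/-- `Z × P₀` parametrises the elements of `G` of the form `[a b; 0 a]`. -/
noncomputable def kerEquiv : (scalG G) × (trans G) ≃
    {g : G // (g : GL (Fin 2) k) 1 0 = 0 ∧ (g : GL (Fin 2) k) 0 0 = (g : GL (Fin 2) k) 1 1} :=
  Equiv.ofBijective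
    (fun x => ⟨(x.1 : G) * ⟨ur (x.2 : k), x.2.2⟩, by
      obtain ⟨h1, h2, h3⟩ := (mem_scalG G).mp x.1.2
      constructor
      · show ((x.1 : G) * ur (x.2 : k) : GL (Fin 2) k) 1 0 = 0
        rw [gl_mul_apply, h2]; simp
      · show ((x.1 : G) * ur (x.2 : k) : GL (Fin 2) k) 0 0 =
          ((x.1 : G) * ur (x.2 : k) : GL (Fin 2) k) 1 1
        rw [gl_mul_apply, gl_mul_apply, h1, h2, h3]; simp⟩)
    (by
      constructor
      · rintro ⟨s, b⟩ ⟨s', b'⟩ h
        have h0 : ((s : G) : GL (Fin 2) k) * ur (b : k) = ((s' : G) : GL (Fin 2) k) * ur (b' : k) :=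
          congrArg (fun t => ((t.1 : G) : GL (Fin 2) k)) h
        obtain ⟨h1, h2, h3⟩ := (mem_scalG G).mp s.2
        obtain ⟨h1', h2', h3'⟩ := (mem_scalG G).mp s'.2
        have e00 : (((s : G) : GL (Fin 2) k) * ur (b : k)) 0 0 =
          (((s' : G) : GL (Fin 2) k) * ur (b' : k)) 0 0 := by rw [h0]
        have e01 : (((s : G) : GL (Fin 2) k) * ur (b : k)) 0 1 =
          (((s' : G) : GL (Fin 2) k) * ur (b' : k)) 0 1 := by rw [h0]
        rw [gl_mul_apply, gl_mul_apply, h1, h1'] at e00 e01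
        simp only [ur_00, ur_10, ur_01, ur_11, mul_one, mul_zero, add_zero] at e00 e01
        have hs : s = s' := by
          apply Subtype.ext; apply Subtype.ext
          apply gl_ext
          · exact e00
          · rw [h1, h1']
          · rw [h2, h2']
          · rw [← h3, ← h3', e00]
        have hne : ((s' : G) : GL (Fin 2) k) 0 0 ≠ 0 := (upper_ne_zero h2').1
        have hb : b = b' := by
          apply Subtype.ext
          rw [e00] at e01
          exact mul_left_cancel₀ hne e01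
        rw [hs, hb]
      · rintro ⟨g, h10, hd⟩
        obtain ⟨s, b, hs, -, hb, hg⟩ := ker_nu_decomp G h10 hd
        refine ⟨(⟨s, (mem_scalG G).mpr hs⟩, ⟨b, hb⟩), ?_⟩
        apply Subtype.ext; apply Subtype.ext
        exact hg.symm)

variable [DecidableEq k]

theorem card_ker_nu : Nat.card (nuHom G).ker = Nat.card (scalG G) * Nat.card (trans G) := by
  rw [← Nat.card_prod]
  refine Nat.card_congr (Equiv.trans ?_ (kerEquiv G).symm)
  exact
    { toFun := fun g => ⟨((g : MulAction.stabilizer G (∞ : OnePoint k)) : G),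
        (smul_infty_iff _).mp (MulAction.mem_stabilizer_iff.mp g.1.2),
        (mem_ker_nuHom G g.1).mp g.2⟩
      invFun := fun g => ⟨⟨g.1, MulAction.mem_stabilizer_iff.mpr ((smul_infty_iff _).mpr g.2.1)⟩,
        (mem_ker_nuHom G _).mpr g.2.2⟩
      left_inv := fun g => rfl
      right_inv := fun g => rfl }

theorem card_stab : Nat.card (MulAction.stabilizer G (∞ : OnePoint k)) =
    Nat.card (scalG G) * Nat.card (trans G) * Nat.card (nuHom G).range := by
  rw [← card_ker_nu, ← Subgroup.index_ker, Subgroup.card_mul_index]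

end borel

end Fermat.Agent.H6
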