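import Mathlib
import Fermat.Agent.H6TWBorel

/-!
# The counting theorem for finite subgroups of `GL₂(k)` containing a transvection
-/

set_option autoImplicit false

namespace Fermat.Agent.H6

open Matrix OnePoint

section orbit

variable {k : Type*} [Field k] [DecidableEq k] [Fintype k] (G : Subgroup (GL (Fin 2) k))

omit [Fintype k] in
theorem ur_smul_coe (b x : k) : ur b • (x : OnePoint k) = ((x + b : k) : OnePoint k) := by
  rw [OnePoint.smul_some_eq_ite]
  simp

open scoped Classical in
/-- The size of the orbit of `∞`. -/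
theorem card_orbit (hne : ∃ g ∈ G, (g : GL (Fin 2) k) 1 0 ≠ 0) :
    ∃ f : ℕ, 1 ≤ f ∧ (MulAction.orbit G (∞ : OnePoint k)).ncard =
      1 + Nat.card (trans G) * f := by
  set S : Set k := {x | (x : OnePoint k) ∈ MulAction.orbit G (∞ : OnePoint k)} with hS
  have hΩ : MulAction.orbit G (∞ : OnePoint k) = insert ∞ ((fun x : k => (x : OnePoint k)) '' S) := by
    ext y
    induction y using OnePoint.rec with
    | infty => simp [MulAction.mem_orbit_self]
    | coe x =>
      simp only [Set.mem_insert_iff, OnePoint.coe_ne_infty, false_or, Set.mem_image,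
        OnePoint.coe_eq_coe, exists_eq_right]
      rfl
  have hinj : Function.Injective (fun x : k => (x : OnePoint k)) := OnePoint.coe_injective
  have h1 : (MulAction.orbit G (∞ : OnePoint k)).ncard = S.ncard + 1 := by
    rw [hΩ, Set.ncard_insert_of_notMem, Set.ncard_image_of_injective _ hinj]
    rintro ⟨x, -, hx⟩
    exact OnePoint.coe_ne_infty _ hx
  -- `S` is a union of cosets of `trans G`
  have hSadd : ∀ x ∈ S, ∀ b ∈ trans G, x + b ∈ S := by
    rintro x ⟨g, hg⟩ b hb
    refine ⟨⟨ur b, hb⟩ * g, ?_⟩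
    show ((⟨ur b, hb⟩ : G) * g) • (∞ : OnePoint k) = _
    rw [mul_smul]
    have : g • (∞ : OnePoint k) = (x : OnePoint k) := hg
    rw [this]
    exact ur_smul_coe b x
  have hpre : S = (QuotientAddGroup.mk : k → k ⧸ trans G) ⁻¹'
      ((QuotientAddGroup.mk : k → k ⧸ trans G) '' S) := by
    apply Set.Subset.antisymm (Set.subset_preimage_image _ _)
    rintro y ⟨x, hx, hxy⟩
    rw [QuotientAddGroup.eq] at hxy
    have := hSadd x hx _ hxy
    rwa [add_neg_cancel_left] at this
  have h2 : S.ncard = Nat.card (trans G) *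
      Nat.card ((QuotientAddGroup.mk : k → k ⧸ trans G) '' S : Set (k ⧸ trans G)) := by
    rw [← Nat.card_coe_set_eq, ← Nat.card_prod,
      ← Nat.card_congr (QuotientAddGroup.preimageMkEquivAddSubgroupProdSet (trans G) _), ← hpre]
  refine ⟨_, ?_, by rw [h1, h2, add_comm]⟩
  obtain ⟨g, hg, hg10⟩ := hne
  have hmem : (g 0 0 / g 1 0) ∈ S := by
    refine ⟨⟨g, hg⟩, ?_⟩
    show g • (∞ : OnePoint k) = _
    rw [OnePoint.smul_infty_eq_ite, if_neg hg10]
  have hne' : ((QuotientAddGroup.mk : k → k ⧸ trans G) '' S : Set (k ⧸ trans G)).Nonempty :=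
    ⟨_, _, hmem, rfl⟩
  have : Finite (k ⧸ trans G) := inferInstance
  rw [Nat.one_le_iff_ne_zero]
  intro h0
  rw [Nat.card_coe_set_eq, Set.ncard_eq_zero] at h0
  exact hne'.ne_empty h0

end orbit

section Q

variable {k : Type*} [Field k] [DecidableEq k] [Fintype k] (G : Subgroup (GL (Fin 2) k))

open scoped Classical in
/-- The elements of `G` with a unique fixed point. -/
noncomputable def Qset : Finset G :=
  Finset.univ.filter (fun g : G =>
    g ∉ scalG G ∧ (Finset.univ.filter (fun x : OnePoint k => g • x = x)).card = 1)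

open scoped Classical in
theorem mem_Qset {g : G} : g ∈ Qset G ↔
    g ∉ scalG G ∧ ∃ x : OnePoint k, ∀ y : OnePoint k, g • y = y ↔ y = x := by
  rw [Qset, Finset.mem_filter]
  simp only [Finset.mem_univ, true_and, Finset.card_eq_one, Finset.ext_iff, Finset.mem_filter,
    Finset.mem_singleton]

open scoped Classical in
theorem card_Q_infty : (Finset.univ.filter
    (fun g : G => g ∈ Qset G ∧ g • (∞ : OnePoint k) = ∞)).card =
      Nat.card (scalG G) * (Nat.card (trans G) - 1) := by
  -- elements `[a b; 0 a]` which are not scalar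
  have h1 : Finset.univ.filter (fun g : G => (g : GL (Fin 2) k) 1 0 = 0 ∧
      (g : GL (Fin 2) k) 0 0 = (g : GL (Fin 2) k) 1 1) =
      Finset.univ.filter (fun g : G => g ∈ Qset G ∧ g • (∞ : OnePoint k) = ∞) ∪
        Finset.univ.filter (fun g : G => g ∈ scalG G) := by
    ext g
    simp only [Finset.mem_filter, Finset.mem_univ, true_and, Finset.mem_union]
    constructor
    · rintro ⟨h10, hd⟩
      by_cases hs : g ∈ scalG G
      · exact Or.inr hs
      · left
        refine ⟨?_, (smul_infty_iff _).mpr h10⟩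
        rw [Qset, Finset.mem_filter]
        refine ⟨Finset.mem_univ _, hs, ?_⟩
        have := card_fix (g : GL (Fin 2) k) (fun h => hs ((mem_scalG G).mpr h))
          (α := (g : GL (Fin 2) k) 0 0) (β := (g : GL (Fin 2) k) 1 1) rfl (by rw [h10]; ring)
        rw [if_pos hd] at this
        exact this
    · rintro (⟨hQ, hinf⟩ | hs)
      · have h10 := (smul_infty_iff (g : GL (Fin 2) k)).mp hinf
        obtain ⟨-, x, hx⟩ := (mem_Qset G).mp hQ
        have hxinf : (∞ : OnePoint k) = x := (hx ∞).mp hinf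
        refine ⟨h10, upper_of_unique h10 fun y hy => ?_⟩
        rw [hxinf]
        exact (hx y).mp hy
      · obtain ⟨h2, h3, h4⟩ := (mem_scalG G).mp hs
        exact ⟨h3, h4⟩
  have hdisj : Disjoint (Finset.univ.filter
      (fun g : G => g ∈ Qset G ∧ g • (∞ : OnePoint k) = ∞))
        (Finset.univ.filter (fun g : G => g ∈ scalG G)) := by
    rw [Finset.disjoint_filter]
    rintro g - ⟨hQ, -⟩ hs
    exact ((mem_Qset G).mp hQ).1 hs
  have h2 : (Finset.univ.filter (fun g : G => (g : GL (Fin 2) k) 1 0 = 0 ∧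
      (g : GL (Fin 2) k) 0 0 = (g : GL (Fin 2) k) 1 1)).card =
        Nat.card (scalG G) * Nat.card (trans G) := by
    rw [← Nat.card_prod, Nat.card_congr (kerEquiv G), Nat.card_eq_fintype_card,
      Fintype.card_subtype]
  have h3 : (Finset.univ.filter (fun g : G => g ∈ scalG G)).card = Nat.card (scalG G) := by
    rw [Nat.card_eq_fintype_card, ← Fintype.card_subtype]
  rw [h1, Finset.card_union_of_disjoint hdisj, h3] at h2
  rw [Nat.mul_sub, mul_one]
  omega

theorem Qset_conj {g : G} (h : G) (hg : g ∈ Qset G) : h * g * h⁻¹ ∈ Qset G := by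
  obtain ⟨hs, x, hx⟩ := (mem_Qset G).mp hg
  refine (mem_Qset G).mpr ⟨?_, h • x, ?_⟩
  · intro hs'
    apply hs
    have h1 : (h * g * h⁻¹) * h = h * (h * g * h⁻¹) :=
      Subtype.ext (IsScal.comm ((mem_scalG G).mp hs') h)
    have h2 : g = h * g * h⁻¹ := by
      apply mul_left_cancel (a := h)
      rw [← h1]; group
    rw [h2]; exact hs'
  · intro y
    rw [mul_smul, mul_smul, ← eq_inv_smul_iff, hx, inv_smul_eq_iff]

open scoped Classical in
theorem card_Q_fiber (h : G) : (Finset.univ.filter
    (fun g : G => g ∈ Qset G ∧ g • (h • (∞ : OnePoint k)) = h • (∞ : OnePoint k))).card =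
      Nat.card (scalG G) * (Nat.card (trans G) - 1) := by
  rw [← card_Q_infty]
  refine Finset.card_bij' (fun g _ => h⁻¹ * g * h) (fun g _ => h * g * h⁻¹) ?_ ?_ ?_ ?_
  · intro g hg
    simp only [Finset.mem_filter, Finset.mem_univ, true_and] at hg ⊢
    refine ⟨?_, ?_⟩
    · have := Qset_conj G h⁻¹ hg.1
      rwa [inv_inv] at this
    · rw [mul_smul, mul_smul, hg.2, inv_smul_smul]
  · intro g hg
    simp only [Finset.mem_filter, Finset.mem_univ, true_and] at hg ⊢
    refine ⟨Qset_conj G h hg.1, ?_⟩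
    rw [mul_smul, mul_smul, inv_smul_smul, hg.2]
  · intro g _; group
  · intro g _; group

open scoped Classical in
theorem card_Q (p : ℕ) [Fact p.Prime] [CharP k p] (hU : ∃ b : k, b ≠ 0 ∧ ur b ∈ G) :
    (Qset G).card = (MulAction.orbit G (∞ : OnePoint k)).ncard *
      (Nat.card (scalG G) * (Nat.card (trans G) - 1)) := by
  set Ω := (MulAction.orbit G (∞ : OnePoint k)).toFinset with hΩ
  have h1 : ∑ x ∈ Ω, (Finset.univ.filter (fun g : G => g ∈ Qset G ∧ g • x = x)).card =
      ∑ g ∈ Qset G, (Ω.filter (fun x => g • x = x)).card := by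
    have := Finset.sum_card_bipartiteAbove_eq_sum_card_bipartiteBelow
      (s := Ω) (t := Qset G) (fun x g => g • x = x)
    simp only [Finset.bipartiteAbove, Finset.bipartiteBelow] at this
    rw [← this]
    apply Finset.sum_congr rfl
    intro x _
    congr 1
    ext g
    simp
  have h2 : ∀ g ∈ Qset G, (Ω.filter (fun x => g • x = x)).card = 1 := by
    intro g hg
    obtain ⟨-, x, hx⟩ := (mem_Qset G).mp hg
    rw [Finset.card_eq_one]
    refine ⟨x, ?_⟩
    ext y
    simp only [Finset.mem_filter, Finset.mem_singleton]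
    rw [hx]
    refine ⟨fun h => h.2, fun h => ⟨?_, h⟩⟩
    rw [hΩ, Set.mem_toFinset, h]
    exact mem_orbit_of_unique p G hU hx
  have h3 : ∀ x ∈ Ω, (Finset.univ.filter (fun g : G => g ∈ Qset G ∧ g • x = x)).card =
      Nat.card (scalG G) * (Nat.card (trans G) - 1) := by
    intro x hx
    rw [hΩ, Set.mem_toFinset] at hx
    obtain ⟨h, rfl⟩ := hx
    exact card_Q_fiber G h
  rw [Finset.sum_congr rfl h3, Finset.sum_congr rfl h2, Finset.sum_const, Finset.sum_const,
    smul_eq_mul, smul_eq_mul, mul_one] at h1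
  rw [← h1, hΩ, ← Set.ncard_eq_toFinset_card']

omit [DecidableEq k] in
/-- If `trans G ≠ 0` and `p ≥ 3`, then `trans G` has at least three elements. -/
theorem three_le_card_trans (p : ℕ) [Fact p.Prime] [CharP k p] (hp2 : p ≠ 2)
    (hU : ∃ b : k, b ≠ 0 ∧ ur b ∈ G) : 3 ≤ Nat.card (trans G) := by
  obtain ⟨b, hb, hbG⟩ := hU
  have h2 : (2 : k) ≠ 0 := by
    intro h
    have : ((2 : ℕ) : k) = 0 := by exact_mod_cast h
    rw [CharP.cast_eq_zero_iff k p] at this
    rcases (Nat.dvd_prime Nat.prime_two).mp this with h | h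
    · exact (Fact.out : p.Prime).one_lt.ne' h
    · exact hp2 h
  have hbt : b ∈ trans G := hbG
  have hinj : Function.Injective (![⟨0, (trans G).zero_mem⟩, ⟨b, hbt⟩, ⟨-b, (trans G).neg_mem hbt⟩] :
      Fin 3 → trans G) := by
    intro i j hij
    have h0 : ∀ i : Fin 3, ((![⟨0, (trans G).zero_mem⟩, ⟨b, hbt⟩, ⟨-b, (trans G).neg_mem hbt⟩] :
      Fin 3 → trans G) i : k) = ![0, b, -b] i := by
      intro i; fin_cases i <;> rfl
    have h1 := congrArg (fun t : trans G => (t : k)) hij
    simp only [h0] at h1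
    have hbb : b ≠ -b := by
      intro h
      have : (2 : k) * b = 0 := by linear_combination h
      rcases mul_eq_zero.mp this with h | h
      · exact h2 h
      · exact hb h
    fin_cases i <;> fin_cases j <;> simp_all
  have := Nat.card_le_card_of_injective _ hinj
  simpa using this

open scoped Classical in
/-- **The counting theorem** for a finite subgroup `G` of `GL₂(k)` all whose elements have their
eigenvalues in `k`, containing a nontrivial upper unipotent matrix and not fixing `∞`. -/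
theorem count_GL2 (p : ℕ) [Fact p.Prime] [CharP k p] (hp2 : p ≠ 2)
    (hsplit : ∀ g ∈ G, ∃ α β : k, (g : GL (Fin 2) k) 0 0 + g 1 1 = α + β ∧
      (g : GL (Fin 2) k) 0 0 * g 1 1 - g 0 1 * g 1 0 = α * β)
    (hU : ∃ b : k, b ≠ 0 ∧ ur b ∈ G) (hne : ∃ g ∈ G, (g : GL (Fin 2) k) 1 0 ≠ 0) :
    Nat.card (trans G) - 1 ≤ 2 * Nat.card (nuHom G).range := by
  obtain ⟨f, hf, horb⟩ := card_orbit G hne
  refine count_abs (G := G) (X := OnePoint k) (scalG G) ?_ (Qset G) ?_ ?_ ?_ (∞ : OnePoint k)
    (three_le_card_trans G p hp2 hU) hf horb (card_Q G p hU) (card_stab G)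
  · intro z hz x
    exact IsScal.smul ((mem_scalG G).mp hz) x
  · intro g hg
    exact ((mem_Qset G).mp hg).1
  · intro g hg
    rw [Qset, Finset.mem_filter] at hg
    exact hg.2.2
  · intro g hg hgQ
    obtain ⟨α, β, h1, h2⟩ := hsplit g g.2
    have h3 := card_fix (g : GL (Fin 2) k) (fun h => hg ((mem_scalG G).mpr h)) h1 h2
    have h4 : (Finset.univ.filter (fun x : OnePoint k => g • x = x)).card = if α = β then 1 else 2 :=
      h3
    by_cases hαβ : α = β
    · exfalso
      apply hgQ
      rw [Qset, Finset.mem_filter]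
      exact ⟨Finset.mem_univ _, hg, by rw [h4, if_pos hαβ]⟩
    · rw [h4, if_neg hαβ]

end Q

end Fermat.Agent.H6
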