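import Mathlib
import Fermat.Agent.H6TWCountGL

/-!
# Numerical consequences of the counting theorem

If `G ≤ GL₂(k)` contains a transvection, does not fix `∞`, all eigenvalues are in `k`,
`det G` has order `p - 1` and all scalars in `G` have determinant one then `p = 3` and the Borel
subgroup of `G` acts transitively on the nontrivial translations in `G`.
-/

set_option autoImplicit false

namespace Fermat.Agent.H6

open Matrix OnePoint

section num

variable {k : Type*} [Field k] [DecidableEq k] [Fintype k] (G : Subgroup (GL (Fin 2) k))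

/-- The determinant-one part of `G`. -/
def G1 : Subgroup (GL (Fin 2) k) := G ⊓ (Matrix.GeneralLinearGroup.det (n := Fin 2) (R := k)).ker

omit [DecidableEq k] [Fintype k] in
theorem mem_G1 {g : GL (Fin 2) k} :
    g ∈ G1 G ↔ g ∈ G ∧ g 0 0 * g 1 1 - g 0 1 * g 1 0 = 1 := by
  rw [G1, Subgroup.mem_inf, MonoidHom.mem_ker, Units.ext_iff,
    Matrix.GeneralLinearGroup.val_det_apply, Matrix.det_fin_two, Units.val_one]

omit [DecidableEq k] [Fintype k] in
theorem ur_mem_G1 {b : k} (hb : ur b ∈ G) : ur b ∈ G1 G := by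
  rw [mem_G1]; exact ⟨hb, by simp⟩

omit [DecidableEq k] [Fintype k] in
theorem trans_G1 : trans (G1 G) = trans G := by
  ext b
  rw [mem_trans, mem_trans]
  exact ⟨fun h => ((mem_G1 G).mp h).1, ur_mem_G1 G⟩

/-- Frattini argument -/
theorem frattini (p : ℕ) [Fact p.Prime] [CharP k p] (hU : ∃ b : k, b ≠ 0 ∧ ur b ∈ G)
    {g : GL (Fin 2) k} (hg : g ∈ G) :
    ∃ n ∈ G1 G, n • (∞ : OnePoint k) = g • ∞ := by
  obtain ⟨b, hb, hbG⟩ := hU
  have hmem : g * ur b * g⁻¹ ∈ G1 G := by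
    have h1 := ur_mem_G1 G hbG
    refine Subgroup.mem_inf.mpr ⟨G.mul_mem (G.mul_mem hg hbG) (G.inv_mem hg), ?_⟩
    have h2 : (Matrix.GeneralLinearGroup.det (n := Fin 2) (R := k)) (ur b) = 1 :=
      (Subgroup.mem_inf.mp h1).2
    rw [MonoidHom.mem_ker, map_mul, map_mul, h2, mul_one, map_inv, mul_inv_cancel]
  have hfix : ∀ y : OnePoint k, (⟨g * ur b * g⁻¹, hmem⟩ : G1 G) • y = y ↔ y = g • ∞ := by
    intro y
    show (g * ur b * g⁻¹) • y = y ↔ y = g • ∞
    rw [mul_smul, mul_smul, ← eq_inv_smul_iff, ur_fix hb, inv_smul_eq_iff]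
  obtain ⟨n, hn⟩ := mem_orbit_of_unique p (G1 G) ⟨b, hb, ur_mem_G1 G hbG⟩ hfix
  exact ⟨n, n.2, hn⟩

theorem exists_G1_ne (p : ℕ) [Fact p.Prime] [CharP k p] (hU : ∃ b : k, b ≠ 0 ∧ ur b ∈ G)
    (hne : ∃ g ∈ G, (g : GL (Fin 2) k) 1 0 ≠ 0) : ∃ g ∈ G1 G, (g : GL (Fin 2) k) 1 0 ≠ 0 := by
  obtain ⟨g, hg, h10⟩ := hne
  obtain ⟨n, hn, h⟩ := frattini G p hU hg
  refine ⟨n, hn, fun h0 => h10 ?_⟩
  rw [(smul_infty_iff n).mpr h0] at h
  exact (smul_infty_iff g).mp h.symm

/-- `det` on the stabiliser of `∞`. -/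
def detB : MulAction.stabilizer G (∞ : OnePoint k) →* kˣ :=
  (Matrix.GeneralLinearGroup.det (n := Fin 2) (R := k)).comp
    (G.subtype.comp (MulAction.stabilizer G (∞ : OnePoint k)).subtype)

omit [Fintype k] in
theorem detB_apply (g : MulAction.stabilizer G (∞ : OnePoint k)) :
    detB G g = (Matrix.GeneralLinearGroup.det (n := Fin 2) (R := k)) ((g : G) : GL (Fin 2) k) := rfl

theorem range_detB (p : ℕ) [Fact p.Prime] [CharP k p] (hU : ∃ b : k, b ≠ 0 ∧ ur b ∈ G) :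
    (detB G).range = G.map (Matrix.GeneralLinearGroup.det (n := Fin 2) (R := k)) := by
  ext a
  constructor
  · rintro ⟨g, rfl⟩
    exact ⟨_, (g : G).2, rfl⟩
  · rintro ⟨g, hg, rfl⟩
    obtain ⟨n, hn, h⟩ := frattini G p hU hg
    have hnG : n ∈ G := (Subgroup.mem_inf.mp hn).1
    have hnd : (Matrix.GeneralLinearGroup.det (n := Fin 2) (R := k)) n = 1 :=
      (Subgroup.mem_inf.mp hn).2
    refine ⟨⟨⟨n⁻¹ * g, G.mul_mem (G.inv_mem hnG) hg⟩, ?_⟩, ?_⟩
    · rw [MulAction.mem_stabilizer_iff]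
      show (n⁻¹ * g) • (∞ : OnePoint k) = ∞
      rw [mul_smul, ← h, inv_smul_smul]
    · rw [detB_apply]
      show (Matrix.GeneralLinearGroup.det (n := Fin 2) (R := k)) (n⁻¹ * g) = _
      rw [map_mul, map_inv, hnd, inv_one, one_mul]

omit [Fintype k] in
theorem card_ker_detB :
    Nat.card (detB G).ker = Nat.card (MulAction.stabilizer (G1 G) (∞ : OnePoint k)) := by
  refine Nat.card_congr
    { toFun := fun g => ⟨⟨((g.1 : G) : GL (Fin 2) k), Subgroup.mem_inf.mpr ⟨(g.1 : G).2, g.2⟩⟩,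
        g.1.2⟩
      invFun := fun g => ⟨⟨⟨((g : G1 G) : GL (Fin 2) k), (Subgroup.mem_inf.mp (g : G1 G).2).1⟩,
        g.2⟩, (Subgroup.mem_inf.mp (g : G1 G).2).2⟩
      left_inv := fun g => rfl
      right_inv := fun g => rfl }

theorem card_stab_eq (p : ℕ) [Fact p.Prime] [CharP k p] (hU : ∃ b : k, b ≠ 0 ∧ ur b ∈ G) :
    Nat.card (MulAction.stabilizer G (∞ : OnePoint k)) =
      Nat.card (MulAction.stabilizer (G1 G) (∞ : OnePoint k)) *
        Nat.card (G.map (Matrix.GeneralLinearGroup.det (n := Fin 2) (R := k))) := by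
  rw [← range_detB G p hU, ← card_ker_detB, ← Subgroup.index_ker, Subgroup.card_mul_index]

omit [DecidableEq k] [Fintype k] in
theorem card_scalG1 (hsc : ∀ g ∈ G, IsScal g → g 0 0 * g 1 1 - g 0 1 * g 1 0 = 1) :
    Nat.card (scalG (G1 G)) = Nat.card (scalG G) := by
  refine Nat.card_congr
    { toFun := fun g => ⟨⟨((g.1 : G1 G) : GL (Fin 2) k), (Subgroup.mem_inf.mp g.1.2).1⟩, g.2⟩
      invFun := fun g => ⟨⟨((g.1 : G) : GL (Fin 2) k),
        (mem_G1 G).mpr ⟨g.1.2, hsc _ g.1.2 ((mem_scalG G).mp g.2)⟩⟩, g.2⟩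
      left_inv := fun g => rfl
      right_inv := fun g => rfl }

omit [DecidableEq k] [Fintype k] in
/-- The conjugation action on translations. -/
theorem conj_ur {g : GL (Fin 2) k} (h10 : g 1 0 = 0) (b : k) :
    g * ur b * g⁻¹ = ur (g 0 0 / g 1 1 * b) := by
  rw [mul_inv_eq_iff_eq_mul]
  obtain ⟨h1, h2⟩ := upper_ne_zero h10
  apply gl_ext <;> simp only [gl_mul_apply, h10, ur_00, ur_01, ur_10, ur_11]
  · ring
  · field_simp
    ring
  · ring
  · ring

omit [DecidableEq k] [Fintype k] in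
theorem nu_mul_mem_trans {g : GL (Fin 2) k} (hg : g ∈ G) (h10 : g 1 0 = 0) {b : k}
    (hb : b ∈ trans G) : g 0 0 / g 1 1 * b ∈ trans G := by
  rw [mem_trans, ← conj_ur h10]
  exact G.mul_mem (G.mul_mem hg hb) (G.inv_mem hg)

/-- The orbit map `ν ↦ ν b₀` into the nonzero translations. -/
theorem card_range_nu_le {b₀ : k} (hb₀ : b₀ ≠ 0) (hb₀G : b₀ ∈ trans G) :
    Nat.card (nuHom G).range ≤ Nat.card (trans G) - 1 ∧
      (Nat.card (nuHom G).range = Nat.card (trans G) - 1 →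
        ∀ b ∈ trans G, b ≠ 0 → ∃ g ∈ G, (g : GL (Fin 2) k) 1 0 = 0 ∧ b = g 0 0 / g 1 1 * b₀) := by
  classical
  set S : Finset k := Finset.univ.filter (fun b => b ∈ trans G) with hS
  have hScard : S.card = Nat.card (trans G) := by
    rw [hS, Nat.card_eq_fintype_card]
    exact (Fintype.card_subtype _).symm
  set R : Finset kˣ := Finset.univ.filter (fun t => t ∈ (nuHom G).range) with hR
  have hRcard : R.card = Nat.card (nuHom G).range := by
    rw [hR, Nat.card_eq_fintype_card]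
    exact (Fintype.card_subtype _).symm
  have hmem : ∀ t ∈ R, (t : k) * b₀ ∈ S.erase 0 := by
    intro t ht
    rw [hR, Finset.mem_filter] at ht
    obtain ⟨g, hg⟩ := ht.2
    rw [Finset.mem_erase]
    refine ⟨mul_ne_zero t.ne_zero hb₀, ?_⟩
    rw [hS, Finset.mem_filter]
    refine ⟨Finset.mem_univ _, ?_⟩
    rw [← hg, nuHom_apply]
    exact nu_mul_mem_trans G (g : G).2
      ((smul_infty_iff _).mp (MulAction.mem_stabilizer_iff.mp g.2)) hb₀G
  have hinj : Set.InjOn (fun t : kˣ => (t : k) * b₀) (R : Set kˣ) := by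
    intro t _ t' _ h
    exact Units.ext (mul_right_cancel₀ hb₀ h)
  have hSe : (S.erase 0).card = Nat.card (trans G) - 1 := by
    rw [Finset.card_erase_of_mem, hScard]
    rw [hS, Finset.mem_filter]
    exact ⟨Finset.mem_univ _, (trans G).zero_mem⟩
  refine ⟨?_, ?_⟩
  · rw [← hRcard, ← hSe]
    exact Finset.card_le_card_of_injOn _ hmem hinj
  · intro heq b hb hb0
    rw [← hRcard, ← hSe] at heq
    have hsurj := Finset.surjOn_of_injOn_of_card_le (s := R) (t := S.erase 0)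
      (fun t : kˣ => (t : k) * b₀) hmem hinj heq.ge
    have hbS : b ∈ S.erase 0 := by
      rw [Finset.mem_erase, hS, Finset.mem_filter]
      exact ⟨hb0, Finset.mem_univ _, hb⟩
    obtain ⟨t, ht, htb⟩ := hsurj hbS
    have ht' : t ∈ (nuHom G).range := (Finset.mem_filter.mp ht).2
    obtain ⟨g, hg⟩ := ht'
    refine ⟨((g : G) : GL (Fin 2) k), (g : G).2,
      (smul_infty_iff _).mp (MulAction.mem_stabilizer_iff.mp g.2), ?_⟩
    rw [← nuHom_apply, hg]
    exact htb.symm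

/-- **Main numerical consequence.** -/
theorem num_main (p : ℕ) [Fact p.Prime] [CharP k p] (hp2 : p ≠ 2)
    (hsplit : ∀ g ∈ G, ∃ α β : k, (g : GL (Fin 2) k) 0 0 + g 1 1 = α + β ∧
      (g : GL (Fin 2) k) 0 0 * g 1 1 - g 0 1 * g 1 0 = α * β)
    (hU : ∃ b : k, b ≠ 0 ∧ ur b ∈ G) (hne : ∃ g ∈ G, (g : GL (Fin 2) k) 1 0 ≠ 0)
    (hdet : Nat.card (G.map (Matrix.GeneralLinearGroup.det (n := Fin 2) (R := k))) = p - 1)
    (hsc : ∀ g ∈ G, IsScal g → g 0 0 * g 1 1 - g 0 1 * g 1 0 = 1) :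
    p = 3 ∧ Nat.card (nuHom G).range = Nat.card (trans G) - 1 := by
  have h1 := count_GL2 (G1 G) p hp2 (fun g hg => hsplit g ((mem_G1 G).mp hg).1)
    (by obtain ⟨b, hb, hbG⟩ := hU; exact ⟨b, hb, ur_mem_G1 G hbG⟩) (exists_G1_ne G p hU hne)
  rw [trans_G1] at h1
  have h2 := card_stab_eq G p hU
  rw [card_stab, card_stab, trans_G1, card_scalG1 G hsc, hdet, mul_assoc, mul_assoc, mul_assoc]
    at h2
  have hzpos : 0 < Nat.card (scalG G) := Nat.card_pos
  have hqpos : 0 < Nat.card (trans G) := Nat.card_pos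
  have h3 := Nat.eq_of_mul_eq_mul_left hqpos (Nat.eq_of_mul_eq_mul_left hzpos h2)
  have h4 := three_le_card_trans G p hp2 hU
  obtain ⟨b₀, hb₀, hb₀G⟩ := hU
  have h5 := (card_range_nu_le G hb₀ hb₀G).1
  have hp3 : 3 ≤ p := by
    have := (Fact.out : p.Prime).two_le
    omega
  set e := Nat.card (nuHom G).range
  set e1 := Nat.card (nuHom (G1 G)).range
  set q := Nat.card (trans G)
  -- `e = e1 * (p-1)`, `q - 1 ≤ 2 e1`, `e ≤ q - 1`
  obtain ⟨m, hm⟩ : ∃ m, p = m + 3 := ⟨p - 3, by omega⟩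
  have h6 : e = e1 * (m + 2) := by rw [h3, hm]; rfl
  have h7 : e1 * (m + 2) = e1 * m + 2 * e1 := by ring
  have he1 : 0 < e1 := by omega
  have h8 : e1 * m = 0 := by omega
  have h9 : m = 0 := by
    rcases Nat.mul_eq_zero.mp h8 with h | h
    · omega
    · exact h
  refine ⟨by omega, ?_⟩
  rw [h9] at h6
  omega

end num

end Fermat.Agent.H6
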