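import Mathlib
import Fermat.Agent.H6TWNum
import Fermat.Agent.H6TWCoh

/-!
# Vanishing of `H¹(G, ad⁰(1))`
-/

set_option autoImplicit false

namespace Fermat.Agent.H6

open Matrix OnePoint

section ad1

variable {k : Type*} [Field k]

/-- The representation `g ↦ (X ↦ det g • g X g⁻¹)` of `GL₂(k)` on `2 × 2` matrices. -/
noncomputable def ad1 : GL (Fin 2) k →* Module.End k (Matrix (Fin 2) (Fin 2) k) where
  toFun g :=
    { toFun := fun X => g.val.det • (g.val * X * (g⁻¹).val)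
      map_add' := fun X Y => by rw [mul_add, add_mul, smul_add]
      map_smul' := fun c X => by
        rw [Matrix.mul_smul, Matrix.smul_mul, smul_comm, RingHom.id_apply] }
  map_one' := by
    ext1 X
    simp
  map_mul' g h := by
    apply LinearMap.ext
    intro X
    simp only [LinearMap.coe_mk, AddHom.coe_mk, Module.End.mul_apply]
    rw [_root_.mul_inv_rev, Units.val_mul, Units.val_mul, Matrix.det_mul, Matrix.mul_smul,
      Matrix.smul_mul, smul_smul]
    simp only [mul_assoc]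

theorem ad1_apply (g : GL (Fin 2) k) (X : Matrix (Fin 2) (Fin 2) k) :
    ad1 g X = g.val.det • (g.val * X * (g⁻¹).val) := rfl

theorem trace_ad1 (g : GL (Fin 2) k) (X : Matrix (Fin 2) (Fin 2) k) :
    (ad1 g X).trace = g.val.det * X.trace := by
  rw [ad1_apply, Matrix.trace_smul, smul_eq_mul, Matrix.trace_mul_comm, ← mul_assoc]
  congr 2
  have : (g⁻¹).val * g.val = 1 := by rw [← Units.val_mul, inv_mul_cancel, Units.val_one]
  rw [this, one_mul]

theorem ad1_of_mul {g : GL (Fin 2) k} {X Y : Matrix (Fin 2) (Fin 2) k}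
    (h : g.val * X = Y * g.val) : ad1 g X = g.val.det • Y := by
  rw [ad1_apply, h, mul_assoc]
  have : g.val * (g⁻¹).val = 1 := by rw [← Units.val_mul, mul_inv_cancel, Units.val_one]
  rw [this, mul_one]

theorem ad1_scal {g : GL (Fin 2) k} (hg : IsScal g) (X : Matrix (Fin 2) (Fin 2) k) :
    ad1 g X = g.val.det • X := by
  apply ad1_of_mul
  obtain ⟨h1, h2, h3⟩ := hg
  ext i j
  fin_cases i <;> fin_cases j <;>
    simp [Matrix.mul_apply, Fin.sum_univ_two, h1, h2, h3, mul_comm]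

theorem ad1_ur (b : k) (X : Matrix (Fin 2) (Fin 2) k) (hX : X 1 1 = - X 0 0) :
    ad1 (ur b) X = !![X 0 0 + b * X 1 0, X 0 1 - 2 * b * X 0 0 - b ^ 2 * X 1 0;
      X 1 0, - X 0 0 - b * X 1 0] := by
  have hdet : (ur b).val.det = 1 := by
    rw [Matrix.det_fin_two]; simp
  have := ad1_of_mul (g := ur b) (X := X)
    (Y := !![X 0 0 + b * X 1 0, X 0 1 - 2 * b * X 0 0 - b ^ 2 * X 1 0;
      X 1 0, - X 0 0 - b * X 1 0]) (by
    ext i j
    fin_cases i <;> fin_cases j <;>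
      simp [Matrix.mul_apply, Fin.sum_univ_two, hX] <;> ring)
  rw [this, hdet, one_smul]

theorem ad1_diag {g : GL (Fin 2) k} (h01 : g 0 1 = 0) (h10 : g 1 0 = 0)
    (X : Matrix (Fin 2) (Fin 2) k) :
    ad1 g X = g.val.det • !![X 0 0, g 0 0 / g 1 1 * X 0 1; g 1 1 / g 0 0 * X 1 0, X 1 1] := by
  obtain ⟨h1, h2⟩ := upper_ne_zero h10
  apply ad1_of_mul
  ext i j
  fin_cases i <;> fin_cases j
  · simp [Matrix.mul_apply, Fin.sum_univ_two, h01, h10, mul_comm]
  · simp [Matrix.mul_apply, Fin.sum_univ_two, h01]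
    field_simp
  · simp [Matrix.mul_apply, Fin.sum_univ_two, h10]
    field_simp
  · simp [Matrix.mul_apply, Fin.sum_univ_two, h01, h10, mul_comm]

end ad1

section general

variable {k H M : Type*} [Field k] [Group H] [AddCommGroup M] [Module k M]
  {r : H →* Module.End k M} {ψ : H → M}

/-- Restriction to a finite subgroup of order invertible in `k`. -/
theorem IsCocyc.exists_of_card (hψ : IsCocyc r ψ) (K : Subgroup H) [Finite K]
    (hK : ((Nat.card K : ℕ) : k) ≠ 0) : ∃ m : M, ∀ t ∈ K, ψ t = r t m - m := by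
  have hc : IsCocyc (r.comp K.subtype) (fun t : K => ψ t) := fun g h => hψ g h
  have hidx : (((⊥ : Subgroup K).index : ℕ) : k) ≠ 0 := by rwa [Subgroup.index_bot]
  obtain ⟨m, hm⟩ := hc.isCobound_of_index ⊥ hidx (by
    intro h hh
    rw [Subgroup.mem_bot] at hh
    rw [hh]; exact hψ.one)
  exact ⟨m, fun t ht => hm ⟨t, ht⟩⟩

end general

section conj

variable {k H : Type*} [Field k] [Group H]

theorem conj_cocyc {ρ : H →* GL (Fin 2) k} {ψ : H → Matrix (Fin 2) (Fin 2) k}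
    (hψ : IsCocyc (ad1.comp ρ) ψ) (c : GL (Fin 2) k) :
    IsCocyc (ad1.comp ((MulAut.conj c).toMonoidHom.comp ρ)) (fun h => ad1 c (ψ h)) := by
  intro g h
  have h1 : (ad1.comp ((MulAut.conj c).toMonoidHom.comp ρ)) g (ad1 c (ψ h)) =
      ad1 c (ad1 (ρ g) (ψ h)) := by
    show ad1 (c * ρ g * c⁻¹) (ad1 c (ψ h)) = _
    rw [← Module.End.mul_apply, ← map_mul, inv_mul_cancel_right, map_mul, Module.End.mul_apply]
  show ad1 c (ψ (g * h)) = ad1 c (ψ g) +
    (ad1.comp ((MulAut.conj c).toMonoidHom.comp ρ)) g (ad1 c (ψ h))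
  rw [h1, hψ g h, map_add]
  rfl

theorem conj_cobound {ρ : H →* GL (Fin 2) k} {ψ : H → Matrix (Fin 2) (Fin 2) k}
    (c : GL (Fin 2) k)
    (h : IsCobound (ad1.comp ((MulAut.conj c).toMonoidHom.comp ρ)) (fun h => ad1 c (ψ h))) :
    IsCobound (ad1.comp ρ) ψ := by
  obtain ⟨m, hm⟩ := h
  refine ⟨ad1 c⁻¹ m, fun g => ?_⟩
  have h1 : ad1 c⁻¹ (ad1 c (ψ g)) = ψ g := by
    rw [← Module.End.mul_apply, ← map_mul, inv_mul_cancel, map_one, Module.End.one_apply]
  have h2 : ad1 c (ψ g) = (ad1.comp ((MulAut.conj c).toMonoidHom.comp ρ)) g m - m := hm g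
  rw [← h1, h2, map_sub]
  congr 1
  show ad1 c⁻¹ (ad1 (c * ρ g * c⁻¹) m) = ad1 (ρ g) (ad1 c⁻¹ m)
  rw [← Module.End.mul_apply, ← Module.End.mul_apply, ← map_mul, ← map_mul]
  congr 2
  group

end conj

section borelcoh

variable {k H : Type*} [Field k] [Group H]

/-- Vanishing on the unipotent subgroup implies coboundary. -/
theorem cobound_of_upG [Fintype k] (p : ℕ) [Fact p.Prime] [CharP k p]
    {ρ : H →* GL (Fin 2) k} (hU : ∃ b : k, b ≠ 0 ∧ ur b ∈ ρ.range)
    {ψ : H → Matrix (Fin 2) (Fin 2) k} (hψ : IsCocyc (ad1.comp ρ) ψ)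
    (h0 : ∀ h : H, ρ h = ur ((ρ h) 0 1) → ψ h = 0) : IsCobound (ad1.comp ρ) ψ := by
  classical
  obtain ⟨S, hS⟩ := exists_sylow p ρ.range hU
  have hfin : Finite ρ.range := inferInstance
  have hidx : ¬ p ∣ (upG ρ.range).index := by
    rw [← hS]; exact S.not_dvd_index
  have hsurj : Function.Surjective ρ.rangeRestrict := ρ.rangeRestrict_surjective
  have hidx2 : ((upG ρ.range).comap ρ.rangeRestrict).index = (upG ρ.range).index :=
    Subgroup.index_comap_of_surjective _ hsurj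
  have hfi : ((upG ρ.range).comap ρ.rangeRestrict).FiniteIndex :=
    ⟨by rw [hidx2]; exact Subgroup.FiniteIndex.index_ne_zero⟩
  refine hψ.isCobound_of_index ((upG ρ.range).comap ρ.rangeRestrict) ?_ ?_
  · rw [hidx2, Ne, CharP.cast_eq_zero_iff k p]
    exact hidx
  · intro h hh
    exact h0 h ((mem_upG_iff ρ.range).mp hh)

/-- The cocycle restricted to unipotent elements. -/
theorem cocyc_ur_10 [CharP k 3] {ρ : H →* GL (Fin 2) k} (hinj : Function.Injective ρ)
    {ψ : H → Matrix (Fin 2) (Fin 2) k} (hψ : IsCocyc (ad1.comp ρ) ψ)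
    (htr : ∀ h, (ψ h) 1 1 = - (ψ h) 0 0) {u : H} {b : k} (hb : b ≠ 0) (hu : ρ u = ur b) :
    (ψ u) 1 0 = 0 := by
  have h3 : (3 : k) = 0 := by
    have := CharP.cast_eq_zero k 3
    exact_mod_cast this
  have hu3 : u * u * u = 1 := by
    apply hinj
    rw [map_mul, map_mul, hu, ← ur_add, ← ur_add, map_one, ← ur_zero]
    congr 1
    linear_combination b * h3
  have h1 : ψ (u * u * u) = 0 := by rw [hu3]; exact hψ.one
  have hr : ∀ X, (ad1.comp ρ) u X = ad1 (ur b) X := fun X => by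
    rw [MonoidHom.comp_apply, hu]
  rw [mul_assoc, hψ, hψ, map_add, hr, hr, ← hr (ψ u)] at h1
  have e1 := ad1_ur b (ψ u) (htr u)
  have e2 := ad1_ur b ((ad1.comp ρ) u (ψ u)) (by
    rw [hr, e1]; simp; ring)
  rw [e2] at h1
  rw [hr, e1] at h1
  have h01 := congrArg (fun X : Matrix (Fin 2) (Fin 2) k => X 0 1) h1
  simp at h01
  have h4 : b ^ 2 * (ψ u) 1 0 = 0 := by
    linear_combination h01 - (ψ u 0 1 - 2 * b * ψ u 0 0 - 2 * b ^ 2 * ψ u 1 0) * h3
  exact (mul_eq_zero.mp h4).resolve_left (pow_ne_zero 2 hb)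

end borelcoh

end Fermat.Agent.H6
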