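import Mathlib
import Fermat.Agent.H6TWH1

/-!
# Vanishing of `H¹(G, ad⁰(1))`: the Borel analysis in characteristic three and the main theorem
-/

set_option autoImplicit false

namespace Fermat.Agent.H6

open Matrix OnePoint

section core

variable {k H : Type*} [Field k] [Group H]

theorem entry_add {ρ : H →* GL (Fin 2) k} {ψ : H → Matrix (Fin 2) (Fin 2) k}
    (hψ : IsCocyc (ad1.comp ρ) ψ) (htr : ∀ h, (ψ h) 1 1 = - (ψ h) 0 0)
    {u v : H} {b : k} (hu : ρ u = ur b) (h10 : (ψ v) 1 0 = 0) :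
    (ψ (u * v)) 0 0 = (ψ u) 0 0 + (ψ v) 0 0 ∧
      (ψ (u * v)) 0 1 = (ψ u) 0 1 + (ψ v) 0 1 - 2 * b * (ψ v) 0 0 := by
  have h1 := hψ u v
  rw [MonoidHom.comp_apply, hu, ad1_ur b (ψ v) (htr v)] at h1
  constructor
  · rw [h1, Matrix.add_apply]
    simp [h10]
  · rw [h1, Matrix.add_apply]
    simp [h10]
    ring

theorem det_diag_of {g : GL (Fin 2) k} (h10 : g 1 0 = 0) : g.val.det = g 0 0 * g 1 1 := by
  rw [Matrix.det_fin_two, h10, mul_zero, sub_zero]

theorem conj_entry {ρ : H →* GL (Fin 2) k} {ψ : H → Matrix (Fin 2) (Fin 2) k}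
    (hψ : IsCocyc (ad1.comp ρ) ψ) {t : H} (ht : ψ t = 0) (h01 : (ρ t) 0 1 = 0)
    (h10 : (ρ t) 1 0 = 0) (u : H) :
    (ψ (t * u * t⁻¹)) 0 0 = (ρ t).val.det * (ψ u) 0 0 ∧
      (ψ (t * u * t⁻¹)) 0 1 = (ρ t).val.det * ((ρ t) 0 0 / (ρ t) 1 1 * (ψ u) 0 1) := by
  have h1 := hψ.conj_eq ht u
  rw [MonoidHom.comp_apply, ad1_diag h01 h10] at h1
  rw [h1]
  constructor <;> simp

theorem rho_conj {ρ : H →* GL (Fin 2) k} {t u : H} {b : k} (h10 : (ρ t) 1 0 = 0)
    (hu : ρ u = ur b) : ρ (t * u * t⁻¹) = ur ((ρ t) 0 0 / (ρ t) 1 1 * b) := by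
  rw [map_mul, map_mul, map_inv, hu, conj_ur h10]

/-- The heart of the argument: `ψ` vanishes on a diagonal group which is big enough. -/
theorem core_vanish [Fintype k] [CharP k 3] {ρ : H →* GL (Fin 2) k}
    (hinj : Function.Injective ρ) {ψ : H → Matrix (Fin 2) (Fin 2) k}
    (hψ : IsCocyc (ad1.comp ρ) ψ) (htr : ∀ h, (ψ h) 1 1 = - (ψ h) 0 0)
    (hT : ∀ t : H, (ρ t) 0 1 = 0 → (ρ t) 1 0 = 0 → ψ t = 0)
    (hdet1 : ∀ t : H, (ρ t).val.det = 1 ∨ (ρ t).val.det = -1)
    {t : H} (ht01 : (ρ t) 0 1 = 0) (ht10 : (ρ t) 1 0 = 0) (htd : (ρ t).val.det = -1)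
    (htν : (ρ t) 0 0 / (ρ t) 1 1 ≠ -1)
    (htrans : ∀ b b' : k, b ≠ 0 → b' ≠ 0 → b ∈ trans ρ.range → b' ∈ trans ρ.range →
      ∃ τ : H, (ρ τ) 0 1 = 0 ∧ (ρ τ) 1 0 = 0 ∧ b' = (ρ τ) 0 0 / (ρ τ) 1 1 * b) :
    ∀ h : H, ρ h = ur ((ρ h) 0 1) → ψ h = 0 := by
  classical
  have h3 : (3 : k) = 0 := by
    have := CharP.cast_eq_zero k 3
    exact_mod_cast this
  have h2 : (2 : k) ≠ 0 := by
    intro h
    have : (1 : k) = 0 := by linear_combination h3 - h
    exact one_ne_zero this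
  set ν := (ρ t) 0 0 / (ρ t) 1 1 with hν
  have hν0 : ν ≠ 0 := by
    obtain ⟨h1, h2⟩ := upper_ne_zero ht10
    exact div_ne_zero h1 h2
  have hν1 : 1 + ν ≠ 0 := by
    intro h; apply htν; linear_combination h
  have hP10 : ∀ (u : H) (b : k), ρ u = ur b → (ψ u) 1 0 = 0 := by
    intro u b hu
    by_cases hb : b = 0
    · have : u = 1 := by
        apply hinj; rw [hu, hb, ur_zero, map_one]
      rw [this, hψ.one]; simp
    · exact cocyc_ur_10 hinj hψ htr hb hu
  -- the map `c ↦ ν c + c` is onto on translations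
  have hmemtrans : ∀ (u : H) (b : k), ρ u = ur b → b ∈ trans ρ.range := by
    intro u b hu
    exact ⟨u, hu⟩
  have hνtrans : ∀ c ∈ trans ρ.range, ν * c ∈ trans ρ.range := by
    intro c hc
    exact nu_mul_mem_trans ρ.range ⟨t, rfl⟩ ht10 hc
  have honto : ∀ b ∈ trans ρ.range, ∃ c ∈ trans ρ.range, ν * c + c = b := by
    intro b hb
    let F : trans ρ.range → trans ρ.range := fun c =>
      ⟨ν * (c : k) + c, (trans ρ.range).add_mem (hνtrans c c.2) c.2⟩
    have hFinj : Function.Injective F := by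
      intro c c' h
      have h4 : ν * (c : k) + c = ν * (c' : k) + c' := congrArg Subtype.val h
      apply Subtype.ext
      apply mul_left_cancel₀ hν1
      linear_combination h4
    have hfin : Finite (trans ρ.range) := inferInstance
    obtain ⟨c, hc⟩ := Finite.surjective_of_injective hFinj ⟨b, hb⟩
    exact ⟨c, c.2, congrArg Subtype.val hc⟩
  -- β = 0
  have hβ : ∀ (u : H) (b : k), ρ u = ur b → (ψ u) 0 0 = 0 := by
    intro u b hu
    obtain ⟨c, ⟨w, hw⟩, hc⟩ := honto b (hmemtrans u b hu)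
    have h4 : ρ (t * w * t⁻¹) = ur (ν * c) := rho_conj ht10 hw
    have h5 : u = (t * w * t⁻¹) * w := by
      apply hinj
      rw [map_mul, h4, hw, ← ur_add, hc, hu]
    rw [h5, (entry_add hψ htr h4 (hP10 w c hw)).1, (conj_entry hψ (hT t ht01 ht10) ht01 ht10 w).1,
      htd]
    ring
  -- α = 0
  have hα : ∀ (u : H) (b : k), ρ u = ur b → (ψ u) 0 1 = 0 := by
    intro u b hu
    by_cases hb : b = 0
    · have : u = 1 := by
        apply hinj; rw [hu, hb, ur_zero, map_one]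
      rw [this, hψ.one]; simp
    have hbt := hmemtrans u b hu
    have hb' : (1 + ν) * b ∈ trans ρ.range := by
      rw [add_mul, one_mul]; exact (trans ρ.range).add_mem hbt (hνtrans b hbt)
    obtain ⟨τ, hτ01, hτ10, hτ⟩ := htrans b ((1 + ν) * b) hb (mul_ne_zero hν1 hb) hbt hb'
    have hτν : 1 + ν = (ρ τ) 0 0 / (ρ τ) 1 1 := mul_right_cancel₀ hb hτ
    have h4 : ρ (t * u * t⁻¹) = ur (ν * b) := rho_conj ht10 hu
    have h5 : ρ (τ * u * τ⁻¹) = ur ((1 + ν) * b) := by
      rw [rho_conj hτ10 hu, ← hτν]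
    have h6 : τ * u * τ⁻¹ = u * (t * u * t⁻¹) := by
      apply hinj
      rw [h5, map_mul, hu, h4, ← ur_add]; congr 1; ring
    have h7 := (conj_entry hψ (hT τ hτ01 hτ10) hτ01 hτ10 u).2
    have h8 := (entry_add hψ htr hu (hP10 _ _ h4)).2
    rw [h6, h8, (conj_entry hψ (hT t ht01 ht10) ht01 ht10 u).2, htd, hβ _ _ h4, ← hτν, ← hν] at h7
    rcases hdet1 τ with h9 | h9
    · rw [h9] at h7
      have : (2 * ν) * (ψ u) 0 1 = 0 := by linear_combination -h7
      exact (mul_eq_zero.mp this).resolve_left (mul_ne_zero h2 hν0)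
    · rw [h9] at h7
      have : 2 * (ψ u) 0 1 = 0 := by linear_combination h7
      exact (mul_eq_zero.mp this).resolve_left h2
  intro h hh
  have e00 := hβ h _ hh
  have e01 := hα h _ hh
  have e10 := hP10 h _ hh
  have e11 := htr h
  rw [e00, neg_zero] at e11
  ext i j
  fin_cases i <;> fin_cases j
  exacts [e00, e01, e10, e11]

/-- The case of a Sylow subgroup of order three. -/
theorem small_case [Fintype k] [CharP k 3] {ρ : H →* GL (Fin 2) k}
    (hinj : Function.Injective ρ) {ψ : H → Matrix (Fin 2) (Fin 2) k}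
    (hψ : IsCocyc (ad1.comp ρ) ψ) (htr : ∀ h, (ψ h) 1 1 = - (ψ h) 0 0)
    {u₀ : H} {b₀ : k} (hb₀ : b₀ ≠ 0) (hu₀ : ρ u₀ = ur b₀)
    (hcard : Nat.card (trans ρ.range) = 3) : IsCobound (ad1.comp ρ) ψ := by
  classical
  have h3 : (3 : k) = 0 := by
    have := CharP.cast_eq_zero k 3
    exact_mod_cast this
  have h2 : (2 : k) ≠ 0 := by
    intro h
    have : (1 : k) = 0 := by linear_combination h3 - h
    exact one_ne_zero this
  have h10 := cocyc_ur_10 hinj hψ htr hb₀ hu₀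
  set α := (ψ u₀) 0 1 with hα
  set β := (ψ u₀) 0 0 with hβ
  set m : Matrix (Fin 2) (Fin 2) k :=
    !![-(α + b₀ * β) / (2 * b₀), 0; β / b₀, (α + b₀ * β) / (2 * b₀)] with hm
  have hm11 : m 1 1 = - m 0 0 := by simp [hm]; ring
  have hψ' := hψ.sub_cob m
  have hz : ψ u₀ - ((ad1.comp ρ) u₀ m - m) = 0 := by
    rw [MonoidHom.comp_apply, hu₀, ad1_ur b₀ m hm11]
    ext i j
    fin_cases i <;> fin_cases j
    · simp [hm, ← hβ]
      field_simp
      ring
    · simp [hm, ← hα]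
      field_simp
      ring
    · simp [hm, h10]
    · simp [hm, htr, ← hβ]
      field_simp
      ring
  apply IsCobound.of_sub_cob (m := m)
  refine cobound_of_upG 3 ⟨b₀, hb₀, ⟨u₀, hu₀⟩⟩ hψ' ?_
  intro h hh
  -- translations are `0, b₀, -b₀`
  have hbt : b₀ ∈ trans ρ.range := ⟨u₀, hu₀⟩
  have hc : (ρ h) 0 1 ∈ trans ρ.range := ⟨h, hh⟩
  have hcases : (ρ h) 0 1 = 0 ∨ (ρ h) 0 1 = b₀ ∨ (ρ h) 0 1 = -b₀ := by
    have hbb : b₀ ≠ -b₀ := by
      intro h
      have : (2 : k) * b₀ = 0 := by linear_combination h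
      exact (mul_ne_zero h2 hb₀) this
    set S : Finset k := Finset.univ.filter (fun b => b ∈ trans ρ.range) with hS
    have hScard : S.card = 3 := by
      rw [← hcard, hS, Nat.card_eq_fintype_card]
      exact (Fintype.card_subtype _).symm
    have hsub : ({0, b₀, -b₀} : Finset k) ⊆ S := by
      intro x hx
      rw [hS, Finset.mem_filter]
      refine ⟨Finset.mem_univ _, ?_⟩
      rw [Finset.mem_insert, Finset.mem_insert, Finset.mem_singleton] at hx
      rcases hx with rfl | rfl | rfl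
      · exact (trans ρ.range).zero_mem
      · exact hbt
      · exact (trans ρ.range).neg_mem hbt
    have hcard3 : ({0, b₀, -b₀} : Finset k).card = 3 := by
      rw [Finset.card_eq_three]
      exact ⟨0, b₀, -b₀, hb₀.symm, (neg_ne_zero.mpr hb₀).symm, hbb, rfl⟩
    have heq := Finset.eq_of_subset_of_card_le hsub (by rw [hScard, hcard3])
    have hmem : (ρ h) 0 1 ∈ S := by
      rw [hS, Finset.mem_filter]
      exact ⟨Finset.mem_univ _, hc⟩
    rw [← heq, Finset.mem_insert, Finset.mem_insert, Finset.mem_singleton] at hmem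
    exact hmem
  rcases hcases with h0 | h0 | h0
  · have : h = 1 := by
      apply hinj; rw [hh, h0, ur_zero, map_one]
    rw [this]; exact hψ'.one
  · have : h = u₀ := by
      apply hinj; rw [hh, h0, hu₀]
    rw [this]; exact hz
  · have : h = u₀⁻¹ := by
      apply hinj; rw [hh, h0, map_inv, hu₀, ur_neg]
    rw [this]
    have h5 : ψ u₀⁻¹ - ((ad1.comp ρ) u₀⁻¹ m - m) =
      -((ad1.comp ρ) u₀⁻¹) (ψ u₀ - ((ad1.comp ρ) u₀ m - m)) := hψ'.inv u₀
    rw [hz, map_zero, neg_zero] at h5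
    exact h5

end core

section assembly

variable {k H : Type*} [Field k] [Group H]

/-- Diagonal matrices. -/
def diagSub (k : Type*) [Field k] : Subgroup (GL (Fin 2) k) where
  carrier := {g | g 0 1 = 0 ∧ g 1 0 = 0}
  mul_mem' := by
    rintro a b ⟨h1, h2⟩ ⟨h3, h4⟩
    constructor <;> simp only [gl_mul_apply, h1, h2, h3, h4] <;> ring
  one_mem' := by simp
  inv_mem' := by
    rintro a ⟨h1, h2⟩
    have h5 : ∀ i j, (a * a⁻¹) i j = (1 : GL (Fin 2) k) i j := fun i j => by rw [mul_inv_cancel]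
    obtain ⟨h3, h4⟩ := upper_ne_zero h2
    have e01 := h5 0 1
    have e10 := h5 1 0
    rw [gl_mul_apply, h1, zero_mul, add_zero] at e01
    rw [gl_mul_apply, h2, zero_mul, zero_add] at e10
    constructor
    · have : a 0 0 * (a⁻¹) 0 1 = 0 := by rw [e01]; simp
      exact (mul_eq_zero.mp this).resolve_left h3
    · have : a 1 1 * (a⁻¹) 1 0 = 0 := by rw [e10]; simp
      exact (mul_eq_zero.mp this).resolve_left h4

theorem mem_diagSub {g : GL (Fin 2) k} : g ∈ diagSub k ↔ g 0 1 = 0 ∧ g 1 0 = 0 := Iff.rfl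

/-- The diagonal entries of a diagonal matrix. -/
def diagHom : diagSub k →* kˣ × kˣ where
  toFun g := (Units.mk0 ((g : GL (Fin 2) k) 0 0) (upper_ne_zero g.2.2).1,
    Units.mk0 ((g : GL (Fin 2) k) 1 1) (upper_ne_zero g.2.2).2)
  map_one' := by ext <;> simp
  map_mul' := by
    intro g h
    obtain ⟨-, h1, h2, -⟩ := upper_mul g.2.2 h.2.2
    ext
    · exact h1
    · exact h2

theorem diagHom_injective : Function.Injective (diagHom (k := k)) := by
  intro g h hgh
  have h1 : (g : GL (Fin 2) k) 0 0 = (h : GL (Fin 2) k) 0 0 :=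
    congrArg (fun t : kˣ × kˣ => (t.1 : k)) hgh
  have h2 : (g : GL (Fin 2) k) 1 1 = (h : GL (Fin 2) k) 1 1 :=
    congrArg (fun t : kˣ × kˣ => (t.2 : k)) hgh
  apply Subtype.ext
  apply gl_ext h1 _ _ h2
  · rw [g.2.1, h.2.1]
  · rw [g.2.2, h.2.2]

theorem card_diag_prime [Fintype k] (p : ℕ) [Fact p.Prime] [CharP k p] {ρ : H →* GL (Fin 2) k}
    (hinj : Function.Injective ρ) :
    ((Nat.card ((diagSub k).comap ρ) : ℕ) : k) ≠ 0 := by
  classical
  have h1 : Nat.card ((diagSub k).comap ρ) ∣ Nat.card (kˣ × kˣ) := by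
    let F : (diagSub k).comap ρ →* kˣ × kˣ := diagHom.comp
      ((ρ.comp ((diagSub k).comap ρ).subtype).codRestrict (diagSub k) (fun x => x.2))
    apply Subgroup.card_dvd_of_injective F
    intro x y hxy
    have := diagHom_injective hxy
    have h2 : ρ x = ρ y := congrArg Subtype.val this
    exact Subtype.ext (hinj h2)
  rw [Ne, CharP.cast_eq_zero_iff k p]
  intro h2
  have h3 : p ∣ Nat.card (kˣ × kˣ) := h2.trans h1
  rw [Nat.card_prod, (Fact.out : p.Prime).dvd_mul, or_self, Nat.card_eq_fintype_card,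
    Fintype.card_units] at h3
  have h4 : p ∣ Fintype.card k := by
    rw [← CharP.cast_eq_zero_iff k p]; exact FiniteField.cast_card_eq_zero k
  have h5 : 1 ≤ Fintype.card k := Fintype.card_pos
  have h6 := (Nat.dvd_sub h4 h3)
  rw [Nat.sub_sub_self h5] at h6
  exact (Fact.out : p.Prime).one_lt.ne' (Nat.dvd_one.mp h6)

/-- A trace zero witness. -/
theorem trace_fix (h2 : (2 : k) ≠ 0) {ρ : H →* GL (Fin 2) k} {K : Set H}
    {ψ : H → Matrix (Fin 2) (Fin 2) k} (htr : ∀ h, (ψ h).trace = 0)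
    (hm : ∃ m, ∀ t ∈ K, ψ t = (ad1.comp ρ) t m - m) :
    ∃ m : Matrix (Fin 2) (Fin 2) k, m.trace = 0 ∧ ∀ t ∈ K, ψ t = (ad1.comp ρ) t m - m := by
  obtain ⟨m, hm⟩ := hm
  have hone : ∀ g : GL (Fin 2) k, ad1 g (1 : Matrix (Fin 2) (Fin 2) k) = g.val.det • 1 := by
    intro g
    apply ad1_of_mul
    rw [mul_one, one_mul]
  refine ⟨m - (m.trace / 2) • 1, ?_, ?_⟩
  · rw [Matrix.trace_sub, Matrix.trace_smul, Matrix.trace_one, Fintype.card_fin, smul_eq_mul]
    push_cast
    field_simp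
    ring
  · intro t ht
    have h1 := hm t ht
    have h3 : ((ρ t).val.det - 1) * m.trace = 0 := by
      have h4 := congrArg Matrix.trace h1
      rw [htr, Matrix.trace_sub, MonoidHom.comp_apply, trace_ad1] at h4
      linear_combination -h4
    rw [map_sub, _root_.map_smul, MonoidHom.comp_apply, hone, h1, MonoidHom.comp_apply, smul_smul]
    have h5 : m.trace / 2 * (ρ t).val.det = m.trace / 2 := by
      have : (m.trace / 2 * (ρ t).val.det - m.trace / 2) = 0 := by
        have h6 : m.trace / 2 * (ρ t).val.det - m.trace / 2 =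
          (((ρ t).val.det - 1) * m.trace) / 2 := by ring
        rw [h6, h3, zero_div]
      exact sub_eq_zero.mp this
    rw [h5]
    abel

end assembly

end Fermat.Agent.H6
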