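import Mathlib
import Fermat.Agent.H6TWH1b

/-!
# Vanishing of `H¹(G, ad⁰(1))`: assembly
-/

set_option autoImplicit false

namespace Fermat.Agent.H6

open Matrix OnePoint

section assembly

variable {k H : Type*} [Field k] [Group H]

theorem trace_eq_zero_iff_11 (X : Matrix (Fin 2) (Fin 2) k) : X.trace = 0 ↔ X 1 1 = - X 0 0 := by
  rw [Matrix.trace_fin_two]
  constructor
  · intro h; linear_combination h
  · intro h; rw [h]; ring

/-- Diagonal parts of upper triangular elements of the group. -/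
theorem exists_diag_part [Fintype k] {ρ : H →* GL (Fin 2) k}
    {t₀ : H} (ht01 : (ρ t₀) 0 1 = 0) (ht10 : (ρ t₀) 1 0 = 0)
    (hgen : ∀ h : H, (ρ h) 1 0 = 0 → ∃ n : ℤ,
      (ρ h) 0 0 / (ρ h) 1 1 = ((ρ t₀) 0 0 / (ρ t₀) 1 1) ^ n) {h : H} (h10 : (ρ h) 1 0 = 0) :
    ∃ τ : H, (ρ τ) 0 1 = 0 ∧ (ρ τ) 1 0 = 0 ∧ (ρ τ) 0 0 = (ρ h) 0 0 ∧ (ρ τ) 1 1 = (ρ h) 1 1 := by
  obtain ⟨n, hn⟩ := hgen h h10
  have hD : ∀ n : ℤ, (ρ (t₀ ^ n)) 0 1 = 0 ∧ (ρ (t₀ ^ n)) 1 0 = 0 := by
    intro n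
    have h1 : ρ (t₀ ^ n) ∈ diagSub k := by
      rw [map_zpow]; exact (diagSub k).zpow_mem ⟨ht01, ht10⟩ n
    exact h1
  -- ratios of powers
  have hratio : ∀ n : ℤ, (ρ (t₀ ^ n)) 0 0 / (ρ (t₀ ^ n)) 1 1 =
      ((ρ t₀) 0 0 / (ρ t₀) 1 1) ^ n := by
    intro n
    have h1 : diagHom ((⟨ρ t₀, ht01, ht10⟩ : diagSub k) ^ n) =
      (diagHom (⟨ρ t₀, ht01, ht10⟩ : diagSub k)) ^ n := map_zpow _ _ _
    have h2 : ((⟨ρ t₀, ht01, ht10⟩ : diagSub k) ^ n) = ⟨ρ (t₀ ^ n), hD n⟩ :=
      Subtype.ext (map_zpow ρ t₀ n).symm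
    rw [h2] at h1
    have h3 : (ρ (t₀ ^ n)) 0 0 = ((ρ t₀) 0 0) ^ n := by
      have := congrArg (fun t : kˣ × kˣ => (t.1 : k)) h1
      simp only [Prod.pow_fst, Units.val_zpow_eq_zpow_val] at this
      exact this
    have h4 : (ρ (t₀ ^ n)) 1 1 = ((ρ t₀) 1 1) ^ n := by
      have := congrArg (fun t : kˣ × kˣ => (t.2 : k)) h1
      simp only [Prod.pow_snd, Units.val_zpow_eq_zpow_val] at this
      exact this
    rw [h3, h4, div_zpow]
  obtain ⟨h1, h2⟩ := hD n
  obtain ⟨hp0, hp1⟩ := upper_ne_zero h2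
  obtain ⟨h00, h11⟩ := upper_ne_zero h10
  -- `h' = h t₀⁻ⁿ`
  have h3 : (ρ (h * t₀ ^ (-n))) 1 0 = 0 := by
    rw [map_mul]; exact (upper_mul h10 (hD (-n)).2).1
  obtain ⟨q0, q1⟩ := upper_ne_zero (hD (-n)).2
  have hr := hratio (-n)
  have hr' := hratio n
  have h4 : (ρ (h * t₀ ^ (-n))) 0 0 = (ρ (h * t₀ ^ (-n))) 1 1 := by
    rw [map_mul]
    obtain ⟨-, e1, e2, -⟩ := upper_mul h10 (hD (-n)).2
    rw [e1, e2]
    have hr2 : ((ρ t₀) 0 0 / (ρ t₀) 1 1) ^ (-n) = (((ρ t₀) 0 0 / (ρ t₀) 1 1) ^ n)⁻¹ :=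
      _root_.zpow_neg _ _
    rw [hr2, ← hn, inv_div, div_eq_div_iff q1 h00] at hr
    linear_combination hr
  obtain ⟨s, b, hs, hs00, hb, hfac⟩ :=
    ker_nu_decomp ρ.range (g := ⟨ρ (h * t₀ ^ (-n)), ⟨_, rfl⟩⟩) h3 h4
  obtain ⟨σ, hσ⟩ := s.2
  have hsσ : IsScal (ρ σ) := by rw [hσ]; exact hs
  have hfac' : ρ (h * t₀ ^ (-n)) = ρ σ * ur b := by rw [hσ]; exact hfac
  have h5 : ρ h = ρ σ * ur b * ρ (t₀ ^ n) := by
    rw [← hfac', ← map_mul, mul_assoc, ← _root_.zpow_add, neg_add_cancel, zpow_zero, mul_one]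
  obtain ⟨s01, s10, s00⟩ := hsσ
  refine ⟨σ * t₀ ^ n, ?_, ?_, ?_, ?_⟩
  · rw [map_mul, gl_mul_apply, s01, h1]; ring
  · rw [map_mul, gl_mul_apply, s10, h2]; ring
  · rw [h5, map_mul, gl_mul_apply, gl_mul_apply, gl_mul_apply, gl_mul_apply, s01, h2]; simp
  · rw [h5, map_mul, gl_mul_apply, gl_mul_apply, gl_mul_apply, gl_mul_apply, s10, h1]; simp

variable [DecidableEq k]

/-- Main case: diagonal generator, Sylow subgroup of order at least nine. -/
theorem h1_diag [Fintype k] [CharP k 3] {ρ : H →* GL (Fin 2) k}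
    (hinj : Function.Injective ρ)
    (hsplit : ∀ h, ∃ α β : k, (ρ h).val.trace = α + β ∧ (ρ h).val.det = α * β)
    (hdet : Nat.card ((Matrix.GeneralLinearGroup.det (n := Fin 2) (R := k)).comp ρ).range = 2)
    (hne : ∃ h, (ρ h) 1 0 ≠ 0) (hU : ∃ b : k, b ≠ 0 ∧ ur b ∈ ρ.range)
    (hsc : ∀ z, IsScal (ρ z) → (ρ z).val.det = 1)
    {t₀ : H} (ht01 : (ρ t₀) 0 1 = 0) (ht10 : (ρ t₀) 1 0 = 0)
    (hgen : ∀ h : H, (ρ h) 1 0 = 0 → ∃ n : ℤ,
      (ρ h) 0 0 / (ρ h) 1 1 = ((ρ t₀) 0 0 / (ρ t₀) 1 1) ^ n)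
    (hq : Nat.card (trans ρ.range) ≠ 3)
    {ψ : H → Matrix (Fin 2) (Fin 2) k} (hψ : IsCocyc (ad1.comp ρ) ψ)
    (htr : ∀ h, (ψ h).trace = 0) : IsCobound (ad1.comp ρ) ψ := by
  have h3 : (3 : k) = 0 := by
    have := CharP.cast_eq_zero k 3
    exact_mod_cast this
  have h2 : (2 : k) ≠ 0 := by
    intro h
    have : (1 : k) = 0 := by linear_combination h3 - h
    exact one_ne_zero this
  set G := ρ.range with hG
  have hneG : ∃ g ∈ G, (g : GL (Fin 2) k) 1 0 ≠ 0 := by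
    obtain ⟨h, hh⟩ := hne
    exact ⟨ρ h, ⟨h, rfl⟩, hh⟩
  have hdetG : Nat.card (G.map (Matrix.GeneralLinearGroup.det (n := Fin 2) (R := k))) = 3 - 1 := by
    rw [hG, MonoidHom.map_range, hdet]
  have hsplitG : ∀ g ∈ G, ∃ α β : k, (g : GL (Fin 2) k) 0 0 + g 1 1 = α + β ∧
      (g : GL (Fin 2) k) 0 0 * g 1 1 - g 0 1 * g 1 0 = α * β := by
    rintro _ ⟨h, rfl⟩
    obtain ⟨α, β, h4, h5⟩ := hsplit h
    rw [Matrix.trace_fin_two] at h4
    rw [Matrix.det_fin_two] at h5
    exact ⟨α, β, h4, h5⟩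
  have hscG : ∀ g ∈ G, IsScal g → g 0 0 * g 1 1 - g 0 1 * g 1 0 = 1 := by
    rintro _ ⟨h, rfl⟩ hs
    have := hsc h hs
    rwa [Matrix.det_fin_two] at this
  have hcard := (num_main G 3 (by norm_num) hsplitG hU hneG hdetG hscG).2
  obtain ⟨b₀, hb₀, hb₀G⟩ := id hU
  -- determinants are `±1`
  have hdet1 : ∀ t : H, (ρ t).val.det = 1 ∨ (ρ t).val.det = -1 := by
    intro t
    have h4 := pow_card_eq_one' (x := (⟨Matrix.GeneralLinearGroup.det (ρ t), ⟨t, rfl⟩⟩ :
      ((Matrix.GeneralLinearGroup.det (n := Fin 2) (R := k)).comp ρ).range))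
    rw [hdet] at h4
    have h5 : (ρ t).val.det ^ 2 = 1 := by
      have h6 : (Matrix.GeneralLinearGroup.det (ρ t)) ^ 2 = 1 := congrArg Subtype.val h4
      have h7 := congrArg (fun x : kˣ => (x : k)) h6
      simpa using h7
    exact sq_eq_one_iff.mp h5
  have hdiag : ∀ h : H, (ρ h) 1 0 = 0 → ∃ τ : H, (ρ τ) 0 1 = 0 ∧ (ρ τ) 1 0 = 0 ∧
      (ρ τ) 0 0 = (ρ h) 0 0 ∧ (ρ τ) 1 1 = (ρ h) 1 1 :=
    fun h h10 => exists_diag_part ht01 ht10 hgen h10
  -- the element `t`
  obtain ⟨t, ht01', ht10', htd, htν⟩ : ∃ t : H, (ρ t) 0 1 = 0 ∧ (ρ t) 1 0 = 0 ∧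
      (ρ t).val.det = -1 ∧ (ρ t) 0 0 / (ρ t) 1 1 ≠ -1 := by
    by_contra hcon
    push Not at hcon
    have hcon' : ∀ h : H, (ρ h) 1 0 = 0 → (ρ h).val.det = -1 → (ρ h) 0 0 / (ρ h) 1 1 = -1 := by
      intro h h10 hd
      obtain ⟨τ, e01, e10, e00, e11⟩ := hdiag h h10
      have h4 := hcon τ e01 e10 (by
        rw [det_diag_of e10, e00, e11, ← det_diag_of h10, hd])
      rwa [e00, e11] at h4
    -- some element of the Borel subgroup has determinant `-1`
    obtain ⟨g, hg⟩ : ∃ g : H, (ρ g) 1 0 = 0 ∧ (ρ g).val.det = -1 := by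
      have h4 := range_detB G 3 hU
      have h5 : Nat.card (detB G).range = 2 := by rw [h4, hdetG]
      obtain ⟨x, hx⟩ : ∃ x : (detB G).range, x ≠ 1 := by
        by_contra hall
        push Not at hall
        have : Subsingleton (detB G).range := ⟨fun a b => by rw [hall a, hall b]⟩
        have := Nat.card_of_subsingleton (1 : (detB G).range)
        omega
      obtain ⟨y, hy⟩ := x.2
      obtain ⟨h, hh⟩ := (y : G).2
      refine ⟨h, ?_, ?_⟩
      · have := (smul_infty_iff _).mp (MulAction.mem_stabilizer_iff.mp y.2)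
        rw [hh]; exact this
      · rcases hdet1 h with h6 | h6
        · exfalso
          apply hx
          apply Subtype.ext
          rw [← hy, detB_apply, ← hh]
          apply Units.ext
          exact h6
        · exact h6
    have hνg := hcon' g hg.1 hg.2
    have hν : ∀ h : H, (ρ h) 1 0 = 0 →
        ((ρ h) 0 0 / (ρ h) 1 1 = 1 ∨ (ρ h) 0 0 / (ρ h) 1 1 = -1) := by
      intro h h10
      rcases hdet1 h with hd | hd
      · left
        have h5 : (ρ (g * h)) 1 0 = 0 := by rw [map_mul]; exact (upper_mul hg.1 h10).1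
        have h6 := hcon' (g * h) h5 (by
          rw [map_mul, Units.val_mul, Matrix.det_mul, hg.2, hd, mul_one])
        rw [map_mul] at h6
        obtain ⟨-, e1, e2, -⟩ := upper_mul hg.1 h10
        rw [e1, e2, mul_div_mul_comm, hνg] at h6
        linear_combination -h6
      · right; exact hcon' h h10 hd
    -- then `ν` takes at most two values
    have hle : Nat.card (nuHom G).range ≤ 2 := by
      have hsub : ∀ x ∈ (nuHom G).range, x = 1 ∨ x = -1 := by
        rintro _ ⟨y, rfl⟩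
        obtain ⟨h, hh⟩ := (y : G).2
        have h10 : (ρ h) 1 0 = 0 := by
          rw [hh]; exact (smul_infty_iff _).mp (MulAction.mem_stabilizer_iff.mp y.2)
        rcases hν h h10 with h6 | h6
        · left; apply Units.ext; rw [nuHom_apply, ← hh, h6]; simp
        · right; apply Units.ext; rw [nuHom_apply, ← hh, h6]; simp
      let F : (nuHom G).range → Bool := fun x => decide (x = 1)
      have hF : Function.Injective F := by
        intro x y hxy
        have hxy' : (x = 1 ↔ y = 1) := by simpa [F] using hxy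
        rcases hsub x x.2 with h6 | h6 <;> rcases hsub y y.2 with h7 | h7
        · exact Subtype.ext (h6.trans h7.symm)
        · have : x = 1 := Subtype.ext h6
          have h8 := hxy'.mp this
          rw [this, h8]
        · have : y = 1 := Subtype.ext h7
          have h8 := hxy'.mpr this
          rw [this, h8]
        · exact Subtype.ext (h6.trans h7.symm)
      have := Nat.card_le_card_of_injective F hF
      simpa using this
    have h4 := three_le_card_trans G 3 (by norm_num) hU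
    omega
  -- transitivity
  have htrans : ∀ b b' : k, b ≠ 0 → b' ≠ 0 → b ∈ trans ρ.range → b' ∈ trans ρ.range →
      ∃ τ : H, (ρ τ) 0 1 = 0 ∧ (ρ τ) 1 0 = 0 ∧ b' = (ρ τ) 0 0 / (ρ τ) 1 1 * b := by
    intro b b' hb hb' hbG hb'G
    obtain ⟨g, ⟨h, rfl⟩, h10, hbb⟩ := (card_range_nu_le G hb hbG).2 hcard b' hb'G hb'
    obtain ⟨τ, e01, e10, e00, e11⟩ := hdiag h h10
    exact ⟨τ, e01, e10, by rw [e00, e11]; exact hbb⟩
  -- normalise on the diagonal subgroup
  have hfin : Finite H := Finite.of_injective ρ hinj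
  obtain ⟨m, hm0, hm⟩ := trace_fix h2 (ρ := ρ) (K := ((diagSub k).comap ρ : Set H)) htr
    (hψ.exists_of_card ((diagSub k).comap ρ) (card_diag_prime 3 hinj))
  apply IsCobound.of_sub_cob (m := m)
  have hψ' := hψ.sub_cob m
  have htr' : ∀ h, (ψ h - ((ad1.comp ρ) h m - m)) 1 1 =
      - (ψ h - ((ad1.comp ρ) h m - m)) 0 0 := by
    intro h
    rw [← trace_eq_zero_iff_11, Matrix.trace_sub, Matrix.trace_sub, htr, MonoidHom.comp_apply,
      trace_ad1, hm0]
    ring
  refine cobound_of_upG 3 hU hψ' ?_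
  refine core_vanish hinj hψ' htr' ?_ hdet1 ht01' ht10' htd htν htrans
  intro t e01 e10
  rw [← hm t ⟨e01, e10⟩, sub_self]

omit [DecidableEq k] in
theorem conj_ur_entries (x : k) (g : GL (Fin 2) k) :
    (ur x * g * (ur x)⁻¹) 1 0 = g 1 0 ∧ (ur x * g * (ur x)⁻¹) 0 0 = g 0 0 + x * g 1 0 ∧
      (ur x * g * (ur x)⁻¹) 1 1 = g 1 1 - x * g 1 0 ∧
      (ur x * g * (ur x)⁻¹) 0 1 = g 0 1 + x * g 1 1 - x * (g 0 0 + x * g 1 0) := by
  rw [← ur_neg]
  refine ⟨?_, ?_, ?_, ?_⟩ <;> simp only [gl_mul_apply, ur_00, ur_01, ur_10, ur_11] <;> ring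

omit [DecidableEq k] in
theorem trace_conj' (c g : GL (Fin 2) k) : (c * g * c⁻¹).val.trace = g.val.trace := by
  rw [Units.val_mul, Units.val_mul, Matrix.trace_mul_comm, ← mul_assoc, ← Units.val_mul,
    inv_mul_cancel, Units.val_one, one_mul]

omit [DecidableEq k] in
theorem det_conj' (c g : GL (Fin 2) k) : (c * g * c⁻¹).val.det = g.val.det := by
  have h1 : Matrix.GeneralLinearGroup.det (c * g * c⁻¹) = Matrix.GeneralLinearGroup.det g := by
    rw [map_mul, map_mul, map_inv, mul_inv_cancel_comm]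
  exact congrArg (fun x : kˣ => (x : k)) h1

/-- Normalised version: the group contains a translation. -/
theorem h1_normal [Fintype k] (p : ℕ) [Fact p.Prime] [CharP k p] (hp2 : p ≠ 2)
    {ρ : H →* GL (Fin 2) k} (hinj : Function.Injective ρ)
    (hsplit : ∀ h, ∃ α β : k, (ρ h).val.trace = α + β ∧ (ρ h).val.det = α * β)
    (hdet : Nat.card ((Matrix.GeneralLinearGroup.det (n := Fin 2) (R := k)).comp ρ).range = p - 1)
    (hne : ∃ h, (ρ h) 1 0 ≠ 0) (hU : ∃ b : k, b ≠ 0 ∧ ur b ∈ ρ.range)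
    {ψ : H → Matrix (Fin 2) (Fin 2) k} (hψ : IsCocyc (ad1.comp ρ) ψ)
    (htr : ∀ h, (ψ h).trace = 0) : IsCobound (ad1.comp ρ) ψ := by
  by_cases hsc : ∀ z, IsScal (ρ z) → (ρ z).val.det = 1
  · set G := ρ.range with hG
    have hneG : ∃ g ∈ G, (g : GL (Fin 2) k) 1 0 ≠ 0 := by
      obtain ⟨h, hh⟩ := hne
      exact ⟨ρ h, ⟨h, rfl⟩, hh⟩
    have hdetG : Nat.card (G.map (Matrix.GeneralLinearGroup.det (n := Fin 2) (R := k))) =
        p - 1 := by
      rw [hG, MonoidHom.map_range, hdet]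
    have hsplitG : ∀ g ∈ G, ∃ α β : k, (g : GL (Fin 2) k) 0 0 + g 1 1 = α + β ∧
        (g : GL (Fin 2) k) 0 0 * g 1 1 - g 0 1 * g 1 0 = α * β := by
      rintro _ ⟨h, rfl⟩
      obtain ⟨α, β, h4, h5⟩ := hsplit h
      rw [Matrix.trace_fin_two] at h4
      rw [Matrix.det_fin_two] at h5
      exact ⟨α, β, h4, h5⟩
    have hscG : ∀ g ∈ G, IsScal g → g 0 0 * g 1 1 - g 0 1 * g 1 0 = 1 := by
      rintro _ ⟨h, rfl⟩ hs
      have := hsc h hs
      rwa [Matrix.det_fin_two] at this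
    obtain ⟨hp3, hcard⟩ := num_main G p hp2 hsplitG hU hneG hdetG hscG
    subst hp3
    by_cases hq : Nat.card (trans G) = 3
    · obtain ⟨b₀, hb₀, ⟨u₀, hu₀⟩⟩ := hU
      exact small_case hinj hψ (fun h => (trace_eq_zero_iff_11 _).mp (htr h)) hb₀ hu₀ hq
    · -- a generator of the torus
      have h3le := three_le_card_trans G 3 hp2 hU
      have hcyc : IsCyclic (nuHom G).range := inferInstance
      obtain ⟨x₀, hx₀⟩ := hcyc.exists_generator
      obtain ⟨g₀, hg₀⟩ := x₀.2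
      obtain ⟨t₀, ht₀⟩ := (g₀ : G).2
      have ht10 : (ρ t₀) 1 0 = 0 := by
        rw [ht₀]; exact (smul_infty_iff _).mp (MulAction.mem_stabilizer_iff.mp g₀.2)
      have hne1 : (ρ t₀) 0 0 ≠ (ρ t₀) 1 1 := by
        intro heq
        have h1 : nuHom G g₀ = 1 := by
          rw [← MonoidHom.mem_ker, mem_ker_nuHom, ← ht₀]; exact heq
        have h2 : x₀ = 1 := Subtype.ext (by rw [← hg₀, h1]; rfl)
        have h3 : Subsingleton (nuHom G).range := by
          refine ⟨fun a b => ?_⟩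
          have ha := hx₀ a
          have hb := hx₀ b
          rw [h2, Subgroup.zpowers_one_eq_bot, Subgroup.mem_bot] at ha hb
          rw [ha, hb]
        have h4 := Nat.card_of_subsingleton (1 : (nuHom G).range)
        omega
      set x : k := (ρ t₀) 0 1 / ((ρ t₀) 0 0 - (ρ t₀) 1 1) with hx
      set c : GL (Fin 2) k := ur x with hc
      set ρ' : H →* GL (Fin 2) k := (MulAut.conj c).toMonoidHom.comp ρ with hρ'
      have hρ'a : ∀ h, ρ' h = c * ρ h * c⁻¹ := fun h => rfl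
      have hsub : (ρ t₀) 0 0 - (ρ t₀) 1 1 ≠ 0 := sub_ne_zero.mpr hne1
      have h10 : ∀ h, (ρ' h) 1 0 = (ρ h) 1 0 := fun h => by
        rw [hρ'a]; exact (conj_ur_entries x (ρ h)).1
      have hdetρ' : (Matrix.GeneralLinearGroup.det (n := Fin 2) (R := k)).comp ρ' =
          (Matrix.GeneralLinearGroup.det (n := Fin 2) (R := k)).comp ρ := by
        ext h
        show (c * ρ h * c⁻¹).val.det = (ρ h).val.det
        exact det_conj' c (ρ h)
      have hurmem : ∀ b : k, ur b ∈ ρ'.range ↔ ur b ∈ ρ.range := by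
        intro b
        constructor
        · rintro ⟨h, hh⟩
          refine ⟨h, ?_⟩
          rw [hρ'a, mul_inv_eq_iff_eq_mul] at hh
          have : c * ρ h = c * ur b := by rw [hh, hc, ← ur_add, ← ur_add, add_comm]
          exact mul_left_cancel this
        · rintro ⟨h, hh⟩
          refine ⟨h, ?_⟩
          rw [hρ'a, hh, mul_inv_eq_iff_eq_mul, hc, ← ur_add, ← ur_add, add_comm]
      have htrans : trans ρ'.range = trans ρ.range := by
        ext b; exact hurmem b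
      have key : IsCobound (ad1.comp ρ') (fun h => ad1 c (ψ h)) := by
        refine h1_diag (ρ := ρ') ?_ ?_ ?_ ?_ ?_ ?_ (t₀ := t₀) ?_ ?_ ?_ ?_
          (conj_cocyc hψ c) ?_
        · intro a b hab
          apply hinj
          rw [hρ'a, hρ'a] at hab
          exact mul_left_cancel (mul_right_cancel hab)
        · intro h
          obtain ⟨α, β, h4, h5⟩ := hsplit h
          exact ⟨α, β, by rw [hρ'a, trace_conj', h4], by rw [hρ'a, det_conj', h5]⟩
        · rw [hdetρ', hdet]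
        · obtain ⟨h, hh⟩ := hne
          exact ⟨h, by rw [h10]; exact hh⟩
        · obtain ⟨b, hb, hbG⟩ := hU
          exact ⟨b, hb, (hurmem b).mpr hbG⟩
        · intro z hz
          rw [hρ'a, det_conj']
          apply hsc
          have h4 : ρ z = ρ' z := by
            have h5 := hz.comm c
            rw [hρ'a] at h5
            have h6 : c * ρ z * c⁻¹ * c = c * (c * ρ z * c⁻¹) := h5
            rw [inv_mul_cancel_right] at h6
            have h7 := mul_left_cancel h6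
            rw [hρ'a]; exact h7
          rw [h4]; exact hz
        · rw [hρ'a, (conj_ur_entries x (ρ t₀)).2.2.2, ht10, hx]
          field_simp
          ring
        · rw [h10]; exact ht10
        · intro h hh
          rw [h10] at hh
          obtain ⟨-, e00, e11, -⟩ := conj_ur_entries x (ρ h)
          obtain ⟨-, f00, f11, -⟩ := conj_ur_entries x (ρ t₀)
          rw [hh, mul_zero, add_zero] at e00
          rw [hh, mul_zero, sub_zero] at e11
          rw [ht10, mul_zero, add_zero] at f00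
          rw [ht10, mul_zero, sub_zero] at f11
          rw [hρ'a, hρ'a, hc, e00, e11, f00, f11]
          have hstab : (⟨ρ h, ⟨h, rfl⟩⟩ : G) ∈ MulAction.stabilizer G (∞ : OnePoint k) := by
            rw [MulAction.mem_stabilizer_iff]
            exact (smul_infty_iff _).mpr hh
          obtain ⟨n, hn⟩ := Subgroup.mem_zpowers_iff.mp
            (hx₀ ⟨nuHom G ⟨⟨ρ h, ⟨h, rfl⟩⟩, hstab⟩, ⟨_, rfl⟩⟩)
          refine ⟨n, ?_⟩
          have h5 := congrArg (fun y : (nuHom G).range => ((y : kˣ) : k)) hn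
          simp only [Subgroup.coe_zpow, Units.val_zpow_eq_zpow_val] at h5
          rw [← hg₀, nuHom_apply, nuHom_apply, ← ht₀] at h5
          exact h5.symm
        · rw [htrans]; exact hq
        · intro h
          rw [trace_ad1, htr, mul_zero]
      exact conj_cobound c key
  · push Not at hsc
    obtain ⟨z, hz, hzd⟩ := hsc
    refine hψ.isCobound_of_central (z := z) ?_ hzd ?_
    · intro g
      apply hinj
      rw [map_mul, map_mul, hz.comm]
    · intro X
      rw [MonoidHom.comp_apply, ad1_scal hz]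

/-- **Vanishing of `H¹(G, ad⁰(1))`** for a finite group `G ⊆ GL₂(k)` fixing no line, with
eigenvalues in `k` and determinant onto `𝔽_pˣ`. -/
theorem h1_vanish [Fintype k] (p : ℕ) [Fact p.Prime] [CharP k p] (hp2 : p ≠ 2)
    {ρ : H →* GL (Fin 2) k} (hinj : Function.Injective ρ)
    (hsplit : ∀ h, ∃ α β : k, (ρ h).val.trace = α + β ∧ (ρ h).val.det = α * β)
    (hdet : Nat.card ((Matrix.GeneralLinearGroup.det (n := Fin 2) (R := k)).comp ρ).range = p - 1)
    (hirr : ∀ x : OnePoint k, ∃ h, ρ h • x ≠ x)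
    {ψ : H → Matrix (Fin 2) (Fin 2) k} (hψ : IsCocyc (ad1.comp ρ) ψ)
    (htr : ∀ h, (ψ h).trace = 0) : IsCobound (ad1.comp ρ) ψ := by
  have hfin : Finite H := Finite.of_injective ρ hinj
  by_cases hpd : p ∣ Nat.card H
  · have : Fintype H := Fintype.ofFinite H
    obtain ⟨x, hx⟩ := exists_prime_orderOf_dvd_card' p hpd
    have hxp : (ρ x) ^ p = 1 := by
      rw [← map_pow, ← hx, pow_orderOf_eq_one, map_one]
    have hx1 : ρ x ≠ 1 := by
      intro h
      have : x = 1 := hinj (by rw [h, map_one])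
      rw [this, orderOf_one] at hx
      exact (Fact.out : p.Prime).one_lt.ne hx
    have hpg : IsPGroup p (Subgroup.zpowers (ρ x)) := by
      rintro ⟨v, hv⟩
      obtain ⟨n, rfl⟩ := Subgroup.mem_zpowers_iff.mp hv
      refine ⟨1, ?_⟩
      apply Subtype.ext
      show ((ρ x) ^ n) ^ (p ^ 1) = 1
      rw [pow_one, ← zpow_natCast, ← _root_.zpow_mul, mul_comm, _root_.zpow_mul, zpow_natCast,
        hxp, _root_.one_zpow]
    obtain ⟨y, hy⟩ := pgroup_fix (k := k) p hpg
    obtain ⟨c, hc⟩ := exists_smul_infty y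
    have hyx : ρ x • y = y := hy ⟨ρ x, Subgroup.mem_zpowers _⟩
    set ρ' : H →* GL (Fin 2) k := (MulAut.conj c⁻¹).toMonoidHom.comp ρ with hρ'
    have hρ'a : ∀ h, ρ' h = c⁻¹ * ρ h * c := fun h => by
      show c⁻¹ * ρ h * (c⁻¹)⁻¹ = _
      rw [inv_inv]
    have hρ'b : ∀ h, ρ' h = c⁻¹ * ρ h * (c⁻¹)⁻¹ := fun h => rfl
    have h10 : (ρ' x) 1 0 = 0 := by
      rw [← smul_infty_iff, hρ'a, fix_conj, hc, hyx]
    have hdetρ' : (Matrix.GeneralLinearGroup.det (n := Fin 2) (R := k)).comp ρ' =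
        (Matrix.GeneralLinearGroup.det (n := Fin 2) (R := k)).comp ρ := by
      ext h
      show (c⁻¹ * ρ h * (c⁻¹)⁻¹).val.det = (ρ h).val.det
      exact det_conj' c⁻¹ (ρ h)
    have hxp' : (ρ' x) ^ p = 1 := by
      rw [← map_pow, ← hx, pow_orderOf_eq_one, map_one]
    obtain ⟨h2, h3, h4⟩ := upper_pow h10 p
    have hone : ∀ a : k, a ^ p = 1 → a = 1 := by
      intro a ha
      have h5 : (a - 1) ^ p = 0 := by
        rw [sub_pow_char, ha, one_pow, sub_self]
      exact sub_eq_zero.mp ((pow_eq_zero_iff (Fact.out : p.Prime).ne_zero).mp h5)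
    have h00 : (ρ' x) 0 0 = 1 := hone _ (by rw [← h3, hxp']; simp)
    have h11 : (ρ' x) 1 1 = 1 := hone _ (by rw [← h4, hxp']; simp)
    have hur : ρ' x = ur ((ρ' x) 0 1) := by
      apply gl_ext <;> simp [h10, h00, h11]
    have hb : (ρ' x) 0 1 ≠ 0 := by
      intro h0
      rw [h0, ur_zero] at hur
      apply hx1
      have h5 : c⁻¹ * ρ x * c = 1 := by rw [← hρ'a]; exact hur
      have h6 : ρ x = c * (c⁻¹ * ρ x * c) * c⁻¹ := by group
      rw [h6, h5]; group
    have hinj' : Function.Injective ρ' := by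
      intro a b hab
      apply hinj
      rw [hρ'b, hρ'b] at hab
      exact mul_left_cancel (mul_right_cancel hab)
    apply conj_cobound c⁻¹
    refine h1_normal p hp2 (ρ := ρ') hinj' ?_ (by rw [hdetρ', hdet]) ?_ ⟨_, hb, ⟨x, hur⟩⟩
      (conj_cocyc hψ c⁻¹) ?_
    · intro h
      obtain ⟨α, β, h4, h5⟩ := hsplit h
      exact ⟨α, β, by rw [hρ'b, trace_conj', h4], by rw [hρ'b, det_conj', h5]⟩
    · obtain ⟨h, hh⟩ := hirr y
      refine ⟨h, fun h0 => hh ?_⟩
      rw [← smul_infty_iff, hρ'a, fix_conj, hc] at h0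
      exact h0
    · intro h
      rw [trace_ad1, htr, mul_zero]
  · refine hψ.isCobound_of_index ⊥ ?_ ?_
    · rw [Subgroup.index_bot, Ne, CharP.cast_eq_zero_iff k p]
      exact hpd
    · intro h hh
      rw [Subgroup.mem_bot] at hh
      rw [hh]; exact hψ.one

end assembly

end Fermat.Agent.H6
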