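import Mathlib
import Fermat.Agent.H6TWH1c

/-!
# Irreducibility of `ad⁰(1)` and elements with distinct eigenvalues

`Γ` is a group, `ρ : Γ →* GL₂(k)`, and `K` is an algebraically closed extension of `k`.
The hypothesis `StrongIrr` says that no subgroup of index `1` or `2` has a common eigenvector
in `K²`.
-/

set_option autoImplicit false

namespace Fermat.Agent.H6

open Matrix OnePoint

section lines

variable {K : Type*} [Field K]

/-- A nonscalar `2 × 2` matrix has one-dimensional eigenspaces. -/
theorem eigen_unique {A : Matrix (Fin 2) (Fin 2) K} (hA : ∀ c : K, A ≠ c • 1) {μ : K}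
    {v w : Fin 2 → K} (hv : v ≠ 0) (hAv : A.mulVec v = μ • v) (hAw : A.mulVec w = μ • w) :
    ∃ c : K, w = c • v := by
  by_cases hd : v 0 * w 1 - v 1 * w 0 = 0
  · by_cases h0 : v 0 = 0
    · have h1 : v 1 ≠ 0 := by
        intro h1; apply hv; ext i; fin_cases i <;> simp [h0, h1]
      refine ⟨w 1 / v 1, ?_⟩
      have hw0 : w 0 = 0 := by
        rw [h0, zero_mul, zero_sub, neg_eq_zero] at hd
        exact (mul_eq_zero.mp hd).resolve_left h1
      ext i
      fin_cases i
      · simp [h0, hw0]
      · simp [h1]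
    · refine ⟨w 0 / v 0, ?_⟩
      ext i
      fin_cases i
      · simp [h0]
      · simp only [Pi.smul_apply, smul_eq_mul]
        show w 1 = w 0 / v 0 * v 1
        field_simp
        linear_combination hd
  · exfalso
    apply hA μ
    have e0 := congrFun hAv 0
    have e1 := congrFun hAv 1
    have f0 := congrFun hAw 0
    have f1 := congrFun hAw 1
    simp only [Matrix.mulVec, dotProduct, Fin.sum_univ_two, Pi.smul_apply, smul_eq_mul] at e0 e1 f0 f1
    have a00 : A 0 0 = μ := by
      apply mul_left_cancel₀ hd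
      linear_combination w 1 * e0 - v 1 * f0
    have a01 : A 0 1 = 0 := by
      apply mul_left_cancel₀ hd
      linear_combination v 0 * f0 - w 0 * e0
    have a10 : A 1 0 = 0 := by
      apply mul_left_cancel₀ hd
      linear_combination w 1 * e1 - v 1 * f1
    have a11 : A 1 1 = μ := by
      apply mul_left_cancel₀ hd
      linear_combination v 0 * f1 - w 0 * e1
    ext i j
    fin_cases i <;> fin_cases j <;> simp [a00, a01, a10, a11]

/-- Existence of an eigenvector over an algebraically closed field. -/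
theorem exists_eigen [IsAlgClosed K] (A : Matrix (Fin 2) (Fin 2) K) :
    ∃ (μ : K) (v : Fin 2 → K), v ≠ 0 ∧ A.mulVec v = μ • v := by
  obtain ⟨μ, hμ⟩ := Module.End.exists_eigenvalue (Matrix.toLin' A)
  obtain ⟨v, hv⟩ := hμ.exists_hasEigenvector
  exact ⟨μ, v, hv.2, by simpa using hv.apply_eq_smul⟩

end lines

section irr

variable {k Γ : Type*} [Field k] [Group Γ]

/-- No subgroup of index at most two has a common eigenvector over `K`. -/
def StrongIrr (K : Type*) [Field K] [Algebra k K] (ρ : Γ →* GL (Fin 2) k) : Prop :=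
  ∀ G2 : Subgroup Γ, (G2.index = 1 ∨ G2.index = 2) → ∀ v : Fin 2 → K, v ≠ 0 →
    ¬ ∀ σ ∈ G2, ∃ c : K, ((ρ σ).val.map (algebraMap k K)).mulVec v = c • v

variable {K : Type*} [Field K] [Algebra k K] {ρ : Γ →* GL (Fin 2) k}

theorem StrongIrr.no_eigen_k (h : StrongIrr K ρ) {G2 : Subgroup Γ}
    (hG2 : G2.index = 1 ∨ G2.index = 2) {v : Fin 2 → k} (hv : v ≠ 0)
    (hc : ∀ σ ∈ G2, ∃ c : k, (ρ σ).val.mulVec v = c • v) : False := by
  refine h G2 hG2 (fun i => algebraMap k K (v i)) ?_ ?_
  · intro h0
    apply hv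
    ext i
    exact (algebraMap k K).injective (by simpa using congrFun h0 i)
  · intro σ hσ
    obtain ⟨c, hc⟩ := hc σ hσ
    refine ⟨algebraMap k K c, ?_⟩
    ext i
    have h1 := congrArg (algebraMap k K) (congrFun hc i)
    simp only [Matrix.mulVec, dotProduct, Pi.smul_apply, smul_eq_mul, map_sum, map_mul] at h1 ⊢
    simpa using h1

/-- A nonscalar matrix commuting up to sign with `ρ(Γ)` cannot exist. -/
theorem StrongIrr.no_sign [IsAlgClosed K] (h : StrongIrr K ρ)
    {A : Matrix (Fin 2) (Fin 2) k} (hA : ∀ c : k, A ≠ c • 1)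
    (hsign : ∀ σ, (ρ σ).val * A = A * (ρ σ).val ∨ (ρ σ).val * A = -(A * (ρ σ).val)) : False := by
  -- the centraliser of `A`
  let G2 : Subgroup Γ :=
    { carrier := {σ | (ρ σ).val * A = A * (ρ σ).val}
      mul_mem' := by
        intro a b ha hb
        simp only [Set.mem_ofPred_eq] at ha hb ⊢
        rw [map_mul, Units.val_mul, mul_assoc, hb, ← mul_assoc, ha, mul_assoc]
      one_mem' := by simp
      inv_mem' := by
        intro a ha
        simp only [Set.mem_ofPred_eq] at ha ⊢
        have h1 : ((ρ a)⁻¹).val * (ρ a).val = 1 := by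
          rw [← Units.val_mul, inv_mul_cancel, Units.val_one]
        have h2 : (ρ a).val * ((ρ a)⁻¹).val = 1 := by
          rw [← Units.val_mul, mul_inv_cancel, Units.val_one]
        rw [map_inv]
        calc ((ρ a)⁻¹).val * A = ((ρ a)⁻¹).val * A * ((ρ a).val * ((ρ a)⁻¹).val) := by
              rw [h2, mul_one]
          _ = ((ρ a)⁻¹).val * (A * (ρ a).val) * ((ρ a)⁻¹).val := by simp only [mul_assoc]
          _ = ((ρ a)⁻¹).val * ((ρ a).val * A) * ((ρ a)⁻¹).val := by rw [ha]
          _ = A * ((ρ a)⁻¹).val := by rw [← mul_assoc ((ρ a)⁻¹).val, h1, one_mul] }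
  have hmem : ∀ σ, σ ∈ G2 ↔ (ρ σ).val * A = A * (ρ σ).val := fun σ => Iff.rfl
  have hA0 : A ≠ 0 := by
    intro h0; apply hA 0; rw [h0, zero_smul]
  have hrinv : ∀ σ, ((ρ σ)⁻¹).val * (ρ σ).val = 1 := fun σ => by
    rw [← Units.val_mul, inv_mul_cancel, Units.val_one]
  have hidx : G2.index = 1 ∨ G2.index = 2 := by
    by_cases htop : ∀ σ, σ ∈ G2
    · left
      rw [Subgroup.index_eq_one]
      exact (Subgroup.eq_top_iff' G2).mpr htop
    · right
      push Not at htop
      obtain ⟨a, ha⟩ := htop
      rw [Subgroup.index_eq_two_iff]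
      refine ⟨a, fun b => ?_⟩
      have ha' : (ρ a).val * A = -(A * (ρ a).val) := (hsign a).resolve_left ha
      by_cases hb : b ∈ G2
      · right
        refine ⟨hb, fun hba => ha ?_⟩
        have := G2.mul_mem (G2.inv_mem hb) hba
        rwa [inv_mul_cancel_left] at this
      · left
        have hb' : (ρ b).val * A = -(A * (ρ b).val) := (hsign b).resolve_left hb
        refine ⟨?_, hb⟩
        rw [hmem, map_mul, Units.val_mul, mul_assoc, ha', mul_neg, ← mul_assoc, hb', neg_mul,
          neg_neg, mul_assoc]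
  obtain ⟨μ, v, hv, hAv⟩ := exists_eigen (A.map (algebraMap k K))
  refine h G2 hidx v hv fun σ hσ => ?_
  have hAK : ∀ c : K, A.map (algebraMap k K) ≠ c • 1 := by
    intro c hc
    have e01 := congrFun (congrFun hc 0) 1
    have e10 := congrFun (congrFun hc 1) 0
    have e00 := congrFun (congrFun hc 0) 0
    have e11 := congrFun (congrFun hc 1) 1
    simp at e01 e10 e00 e11
    apply hA (A 0 0)
    have e : A 0 0 = A 1 1 := (algebraMap k K).injective (by rw [e00, e11])
    ext i j
    fin_cases i <;> fin_cases j <;> simp [e01, e10, e]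
  refine eigen_unique hAK hv hAv ?_
  have hσ' := (hmem σ).mp hσ
  have hσK : (ρ σ).val.map (algebraMap k K) * A.map (algebraMap k K) =
      A.map (algebraMap k K) * (ρ σ).val.map (algebraMap k K) := by
    rw [← Matrix.map_mul, ← Matrix.map_mul, hσ']
  rw [Matrix.mulVec_mulVec, ← hσK, ← Matrix.mulVec_mulVec, hAv, Matrix.mulVec_smul]

/-- No stable line over `k`. -/
theorem StrongIrr.no_line [DecidableEq k] (h : StrongIrr K ρ) (x : OnePoint k) :
    ∃ σ, ρ σ • x ≠ x := by
  by_contra hcon
  push Not at hcon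
  induction x using OnePoint.rec with
  | infty =>
    refine h.no_eigen_k (G2 := ⊤) (Or.inl Subgroup.index_top) (v := ![1, 0]) ?_ ?_
    · intro h0; simpa using congrFun h0 0
    · intro σ _
      refine ⟨(ρ σ) 0 0, ?_⟩
      have h10 := (smul_infty_iff _).mp (hcon σ)
      ext i
      fin_cases i
      · simp
      · simp [h10]
  | coe x =>
    refine h.no_eigen_k (G2 := ⊤) (Or.inl Subgroup.index_top) (v := ![x, 1]) ?_ ?_
    · intro h0; simpa using congrFun h0 1
    · intro σ _
      refine ⟨(ρ σ) 1 0 * x + (ρ σ) 1 1, ?_⟩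
      have h1 := (smul_some_iff _ _).mp (hcon σ)
      ext i
      fin_cases i
      · simp
        linear_combination -h1
      · simp

end irr

end Fermat.Agent.H6
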