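import Mathlib
import Fermat.Agent.H6TWIrr

/-!
# Irreducibility of `ad⁰(1)`
-/

set_option autoImplicit false

namespace Fermat.Agent.H6

open Matrix OnePoint

section sl

variable {k : Type*} [Field k]

/-- Trace zero matrices. -/
noncomputable def slSub (k : Type*) [Field k] : Submodule k (Matrix (Fin 2) (Fin 2) k) :=
  LinearMap.ker (Matrix.traceLinearMap (Fin 2) k k)

theorem mem_slSub {X : Matrix (Fin 2) (Fin 2) k} : X ∈ slSub k ↔ X.trace = 0 := by
  rw [slSub, LinearMap.mem_ker, Matrix.traceLinearMap_apply]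

theorem finrank_slSub : Module.finrank k (slSub k) = 3 := by
  have h1 := LinearMap.finrank_range_add_finrank_ker (Matrix.traceLinearMap (Fin 2) k k)
  have h2 : LinearMap.range (Matrix.traceLinearMap (Fin 2) k k) = ⊤ := by
    rw [LinearMap.range_eq_top]
    intro c
    refine ⟨!![c, 0; 0, 0], ?_⟩
    simp [Matrix.trace_fin_two]
  rw [h2, finrank_top, Module.finrank_self, Module.finrank_matrix] at h1
  simp only [Fintype.card_fin, Module.finrank_self] at h1
  have : Module.finrank k (LinearMap.ker (Matrix.traceLinearMap (Fin 2) k k)) = 3 := by omega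
  exact this

theorem ad1_mem_slSub (g : GL (Fin 2) k) {X : Matrix (Fin 2) (Fin 2) k} (hX : X ∈ slSub k) :
    ad1 g X ∈ slSub k := by
  rw [mem_slSub] at hX ⊢
  rw [trace_ad1, hX, mul_zero]

theorem ad1_eq_iff (g : GL (Fin 2) k) (X Y : Matrix (Fin 2) (Fin 2) k) :
    ad1 g X = Y ↔ g.val.det • (g.val * X) = Y * g.val := by
  have h1 : g.val * (g⁻¹).val = 1 := by rw [← Units.val_mul, mul_inv_cancel, Units.val_one]
  have h2 : (g⁻¹).val * g.val = 1 := by rw [← Units.val_mul, inv_mul_cancel, Units.val_one]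
  rw [ad1_apply]
  constructor
  · intro h
    rw [← h, Matrix.smul_mul, mul_assoc, h2, mul_one]
  · intro h
    rw [← Matrix.smul_mul, h, mul_assoc, h1, mul_one]

theorem not_scalar_of_sl (h2 : (2 : k) ≠ 0) {X : Matrix (Fin 2) (Fin 2) k} (hX : X ∈ slSub k)
    (hX0 : X ≠ 0) (c : k) : X ≠ c • 1 := by
  intro h
  rw [mem_slSub, h, Matrix.trace_smul, Matrix.trace_one, Fintype.card_fin, smul_eq_mul] at hX
  have hc : c = 0 := by
    rcases mul_eq_zero.mp hX with h | h
    · exact h
    · exact absurd h (by exact_mod_cast h2)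
  apply hX0
  rw [h, hc, zero_smul]

end sl

section irr

variable {k Γ : Type*} [Field k] [Group Γ] {K : Type*} [Field K] [Algebra k K]
  {ρ : Γ →* GL (Fin 2) k}

/-- No stable line in `ad⁰(1)`. -/
theorem StrongIrr.no_line_sl [IsAlgClosed K] (h : StrongIrr K ρ) (h2 : (2 : k) ≠ 0)
    {X : Matrix (Fin 2) (Fin 2) k} (hX : X ∈ slSub k) (hX0 : X ≠ 0)
    (hc : ∀ σ, ∃ c : k, ad1 (ρ σ) X = c • X) : False := by
  have hXs := not_scalar_of_sl h2 hX hX0
  have hinj : ∀ σ, ad1 (ρ σ) X ≠ 0 := by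
    intro σ h0
    apply hX0
    have h1 : ad1 (ρ σ)⁻¹ (ad1 (ρ σ) X) = X := by
      rw [← Module.End.mul_apply, ← map_mul, inv_mul_cancel, map_one, Module.End.one_apply]
    rw [← h1, h0, map_zero]
  have hc0 : ∀ σ (c : k), ad1 (ρ σ) X = c • X → c ≠ 0 := by
    rintro σ c hc rfl
    rw [zero_smul] at hc
    exact hinj σ hc
  by_cases hdet : X.det = 0
  · obtain ⟨v, hv, hXv⟩ := Matrix.exists_mulVec_eq_zero_iff.mpr hdet
    refine h.no_eigen_k (G2 := ⊤) (Or.inl Subgroup.index_top) hv ?_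
    intro σ _
    obtain ⟨c, hcσ⟩ := hc σ
    refine eigen_unique hXs (μ := 0) hv (by rw [hXv, zero_smul]) ?_
    have hcσ' := hcσ
    rw [ad1_eq_iff] at hcσ
    have h3 : c • (X.mulVec ((ρ σ).val.mulVec v)) = 0 := by
      rw [Matrix.mulVec_mulVec, ← Matrix.smul_mulVec, ← Matrix.smul_mul, ← hcσ,
        Matrix.smul_mulVec, ← Matrix.mulVec_mulVec, hXv, Matrix.mulVec_zero, smul_zero]
    rw [zero_smul]
    exact (smul_eq_zero.mp h3).resolve_left (hc0 σ c hcσ')
  · refine h.no_sign hXs ?_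
    intro σ
    obtain ⟨c, hcσ⟩ := hc σ
    rw [ad1_eq_iff] at hcσ
    have hd : (ρ σ).val.det ≠ 0 := (ρ σ).det_ne_zero
    have h4 : ((ρ σ).val.det) ^ 2 = c ^ 2 := by
      have h5 := congrArg Matrix.det hcσ
      rw [Matrix.det_smul, Matrix.smul_mul, Matrix.det_smul, Matrix.det_mul, Matrix.det_mul,
        Fintype.card_fin] at h5
      apply mul_right_cancel₀ (mul_ne_zero hd hdet)
      linear_combination h5
    rcases sq_eq_sq_iff_eq_or_eq_neg.mp h4 with h5 | h5
    · left
      rw [h5, Matrix.smul_mul] at hcσ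
      exact smul_right_injective _ (h5 ▸ hd) hcσ
    · right
      rw [Matrix.smul_mul] at hcσ
      have hc' : c ≠ 0 := by
        intro h0; rw [h0, neg_zero] at h5; exact hd h5
      rw [h5, neg_smul, ← smul_neg] at hcσ
      have h6 := smul_right_injective _ hc' hcσ
      rw [← h6, neg_neg]

theorem comm_mem_sl (A B : Matrix (Fin 2) (Fin 2) k) : A * B - B * A ∈ slSub k := by
  rw [mem_slSub, Matrix.trace_sub, Matrix.trace_mul_comm, sub_self]

/-- In `sl₂`, the commutator of linearly independent elements is nonzero. -/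
theorem comm_ne_zero (h2 : (2 : k) ≠ 0) {A B : Matrix (Fin 2) (Fin 2) k} (hA : A ∈ slSub k)
    (hB : B ∈ slSub k) (hlin : LinearIndependent k ![A, B]) : A * B - B * A ≠ 0 := by
  intro h
  rw [mem_slSub, trace_eq_zero_iff_11] at hA hB
  have e00 := congrFun (congrFun h 0) 0
  have e01 := congrFun (congrFun h 0) 1
  have e10 := congrFun (congrFun h 1) 0
  simp only [Matrix.sub_apply, Matrix.mul_apply, Fin.sum_univ_two, Matrix.zero_apply, hA, hB]
    at e00 e01 e10
  have c1 : A 0 1 * B 1 0 - B 0 1 * A 1 0 = 0 := by linear_combination e00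
  have c2 : A 0 0 * B 0 1 - B 0 0 * A 0 1 = 0 := by
    apply mul_left_cancel₀ h2; linear_combination e01
  have c3 : A 0 0 * B 1 0 - B 0 0 * A 1 0 = 0 := by
    apply mul_left_cancel₀ h2; linear_combination -e10
  rw [LinearIndependent.pair_iff] at hlin
  -- `(B i j) A - (A i j) B = 0`
  have key : ∀ i j : Fin 2, (B i j) • A + (-(A i j)) • B = 0 := by
    intro i j
    ext i' j'
    fin_cases i <;> fin_cases j <;> fin_cases i' <;> fin_cases j' <;>
      simp [hA, hB] <;> first | linear_combination c1 | linear_combination -c1 |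
        linear_combination c2 | linear_combination -c2 | linear_combination c3 |
        linear_combination -c3 | ring
  have hA0 : A = 0 := by
    ext i j
    have := (hlin _ _ (key i j)).2
    simpa using this
  have := hlin 1 0 (by rw [hA0]; simp)
  exact one_ne_zero this.1

/-- **Irreducibility of `ad⁰(1)`.** -/
theorem StrongIrr.irr_sl [IsAlgClosed K] (h : StrongIrr K ρ) (h2 : (2 : k) ≠ 0)
    (W : Submodule k (Matrix (Fin 2) (Fin 2) k)) (hW : W ≤ slSub k)
    (hst : ∀ σ, ∀ X ∈ W, ad1 (ρ σ) X ∈ W) : W = ⊥ ∨ W = slSub k := by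
  by_contra hcon
  push Not at hcon
  obtain ⟨hbot, hne⟩ := hcon
  have hlt : Module.finrank k W < Module.finrank k (slSub k) :=
    Submodule.finrank_lt_finrank_of_lt (lt_of_le_of_ne hW hne)
  rw [finrank_slSub] at hlt
  have hpos : 0 < Module.finrank k W := by
    rw [Module.finrank_pos_iff, Submodule.nontrivial_iff_ne_bot]
    exact hbot
  have hcases : Module.finrank k W = 1 ∨ Module.finrank k W = 2 := by omega
  rcases hcases with h1 | h1
  · obtain ⟨v, hv, hall⟩ := finrank_eq_one_iff'.mp h1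
    refine h.no_line_sl h2 (hW v.2) (fun h0 => hv (Subtype.ext h0)) ?_
    intro σ
    obtain ⟨c, hc⟩ := hall ⟨ad1 (ρ σ) v, hst σ v v.2⟩
    exact ⟨c, (congrArg Subtype.val hc).symm⟩
  · let b := Module.finBasisOfFinrankEq k W h1
    set A : Matrix (Fin 2) (Fin 2) k := (b 0 : Matrix (Fin 2) (Fin 2) k) with hA
    set B : Matrix (Fin 2) (Fin 2) k := (b 1 : Matrix (Fin 2) (Fin 2) k) with hB
    have hlin : LinearIndependent k ![A, B] := by
      have h3 := b.linearIndependent.map' W.subtype (Submodule.ker_subtype W)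
      have h4 : ![A, B] = W.subtype ∘ b := by
        funext i
        fin_cases i <;> rfl
      rw [h4]; exact h3
    have hAs : A ∈ slSub k := hW (b 0).2
    have hBs : B ∈ slSub k := hW (b 1).2
    have hexp : ∀ X ∈ W, ∃ x y : k, X = x • A + y • B := by
      intro X hX
      refine ⟨b.repr ⟨X, hX⟩ 0, b.repr ⟨X, hX⟩ 1, ?_⟩
      have h4 := b.sum_repr ⟨X, hX⟩
      rw [Fin.sum_univ_two] at h4
      exact (congrArg Subtype.val h4).symm
    refine h.no_line_sl h2 (comm_mem_sl A B) (comm_ne_zero h2 hAs hBs hlin) ?_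
    intro σ
    obtain ⟨a, a', ha⟩ := hexp _ (hst σ A (b 0).2)
    obtain ⟨c, c', hc⟩ := hexp _ (hst σ B (b 1).2)
    set g := ρ σ with hg
    have hd : g.val.det ≠ 0 := g.det_ne_zero
    refine ⟨(g.val.det)⁻¹ * (a * c' - a' * c), ?_⟩
    -- `ad1 g (AB - BA) = det⁻¹ [ad1 g A, ad1 g B]`
    have hcomm : ad1 g (A * B - B * A) = (g.val.det)⁻¹ •
        (ad1 g A * ad1 g B - ad1 g B * ad1 g A) := by
      have h5 : (g⁻¹).val * g.val = 1 := by rw [← Units.val_mul, inv_mul_cancel, Units.val_one]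
      have h6 : ∀ X Y : Matrix (Fin 2) (Fin 2) k,
          ad1 g X * ad1 g Y = (g.val.det * g.val.det) • (g.val * (X * Y) * (g⁻¹).val) := by
        intro X Y
        rw [ad1_apply, ad1_apply, Matrix.smul_mul, Matrix.mul_smul, smul_smul]
        congr 1
        calc g.val * X * (g⁻¹).val * (g.val * Y * (g⁻¹).val)
            = g.val * X * ((g⁻¹).val * g.val) * Y * (g⁻¹).val := by simp only [mul_assoc]
          _ = g.val * (X * Y) * (g⁻¹).val := by rw [h5, mul_one]; simp only [mul_assoc]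
      rw [h6, h6, ← smul_sub, smul_smul, ad1_apply]
      congr 1
      · field_simp
      · rw [mul_sub, sub_mul]
    rw [hcomm, ha, hc, mul_smul]
    congr 1
    simp only [add_mul, mul_add, Matrix.smul_mul, Matrix.mul_smul, smul_smul, smul_sub, sub_smul]
    have e1 : a * c = c * a := mul_comm _ _
    have e2 : a' * c' = c' * a' := mul_comm _ _
    have e3 : a * c' = c' * a := mul_comm _ _
    have e4 : a' * c = c * a' := mul_comm _ _
    rw [e1, e2, e3, e4]
    abel

/-- `ad⁰(1)` has no invariants. -/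
theorem StrongIrr.inv_sl [IsAlgClosed K] (h : StrongIrr K ρ) (h2 : (2 : k) ≠ 0)
    {X : Matrix (Fin 2) (Fin 2) k} (hX : X ∈ slSub k) (hinv : ∀ σ, ad1 (ρ σ) X = X) : X = 0 := by
  by_contra hX0
  exact h.no_line_sl h2 hX hX0 fun σ => ⟨1, by rw [hinv, one_smul]⟩

end irr

end Fermat.Agent.H6
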