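import Mathlib
import Fermat.Agent.H6TWIrr2

/-!
# Elements with distinct eigenvalues, and the key local-to-global statement for `ad⁰(1)`
-/

set_option autoImplicit false

namespace Fermat.Agent.H6

open Matrix OnePoint

section dist

variable {k Γ : Type*} [Field k] [Group Γ] {K : Type*} [Field K] [Algebra k K]
  {ρ : Γ →* GL (Fin 2) k}

theorem isScal_of_smul_one {g : GL (Fin 2) k} {c : k} (h : g.val = c • 1) : IsScal g := by
  refine ⟨?_, ?_, ?_⟩
  · have := congrFun (congrFun h 0) 1; simpa using this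
  · have := congrFun (congrFun h 1) 0; simpa using this
  · have h0 := congrFun (congrFun h 0) 0
    have h1 := congrFun (congrFun h 1) 1
    simp at h0 h1
    rw [h0, h1]

/-- The `|k|`-th power of an element with a unique fixed point is scalar. -/
theorem pow_card_scal [DecidableEq k] [Fintype k] {g : GL (Fin 2) k}
    {x : OnePoint k} (hx : ∀ y : OnePoint k, g • y = y ↔ y = x) :
    IsScal (g ^ Fintype.card k) := by
  obtain ⟨h, hh⟩ := exists_smul_infty x
  set g' := h⁻¹ * g * h with hg'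
  have hfix : ∀ y : OnePoint k, g' • y = y ↔ y = ∞ := by
    intro y
    rw [hg', fix_conj, hx, ← hh]
    exact ⟨fun e => MulAction.injective h e, fun e => by rw [e]⟩
  have h10 : g' 1 0 = 0 := (smul_infty_iff g').mp ((hfix ∞).mpr rfl)
  have hd : g' 0 0 = g' 1 1 := upper_of_unique h10 fun y hy => (hfix y).mp hy
  obtain ⟨hs, hs'⟩ := upper_pow_card h10 hd
  have hg'pow : g' ^ Fintype.card k = h⁻¹ * g ^ Fintype.card k * h := by
    have := conj_pow (i := Fintype.card k) (a := h⁻¹) (b := g)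
    rw [inv_inv] at this
    exact this
  have hconj : g ^ Fintype.card k = h * g' ^ Fintype.card k * h⁻¹ := by
    rw [hg'pow]; group
  have : g ^ Fintype.card k = g' ^ Fintype.card k := by
    rw [hconj, ← hs.comm h]; group
  rw [this]; exact hs

theorem unique_fix_of_eq [DecidableEq k] [Fintype k] {g : GL (Fin 2) k} (hg : ¬ IsScal g) {α : k}
    (htr : g.val.trace = α + α) (hdet : g.val.det = α * α) :
    ∃ x : OnePoint k, ∀ y : OnePoint k, g • y = y ↔ y = x := by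
  classical
  rw [Matrix.trace_fin_two] at htr
  rw [Matrix.det_fin_two] at hdet
  have h1 := card_fix g hg htr hdet
  rw [if_pos rfl, Finset.card_eq_one] at h1
  obtain ⟨x, hx⟩ := h1
  refine ⟨x, fun y => ?_⟩
  have := Finset.ext_iff.mp hx y
  simpa using this

/-- In a normal subgroup with abelian quotient on which the determinant is trivial there is an
element with distinct eigenvalues. -/
theorem StrongIrr.exists_distinct [IsAlgClosed K] [DecidableEq k] [Fintype k]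
    (h : StrongIrr K ρ) (p : ℕ) [Fact p.Prime] [CharP k p]
    (hsplit : ∀ σ, ∃ α β : k, (ρ σ).val.trace = α + β ∧ (ρ σ).val.det = α * β)
    (N : Subgroup Γ) [hN : N.Normal] (hab : ∀ x y : Γ, x * y * x⁻¹ * y⁻¹ ∈ N)
    (hdet : ∀ σ ∈ N, (ρ σ).val.det = 1) :
    ∃ σ ∈ N, ∃ α β : k, α ≠ β ∧ (ρ σ).val.trace = α + β ∧ (ρ σ).val.det = α * β := by
  by_contra hcon
  push Not at hcon
  have heq : ∀ σ ∈ N, ∃ α : k, (ρ σ).val.trace = α + α ∧ (ρ σ).val.det = α * α := by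
    intro σ hσ
    obtain ⟨α, β, h1, h2⟩ := hsplit σ
    by_cases hαβ : α = β
    · exact ⟨β, by rw [h1, hαβ], by rw [h2, hαβ]⟩
    · exact absurd h2 (hcon σ hσ α β hαβ h1)
  by_cases hA : ∃ σ ∈ N, ¬ IsScal (ρ σ)
  · obtain ⟨σ, hσN, hσ⟩ := hA
    -- every element of `N` has scalar `|k|`-th power
    have hpow : ∀ τ ∈ N, IsScal (ρ τ ^ Fintype.card k) := by
      intro τ hτ
      by_cases hs : IsScal (ρ τ)
      · exact (scalSub k).pow_mem hs _
      · obtain ⟨α, h1, h2⟩ := heq τ hτ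
        obtain ⟨x, hx⟩ := unique_fix_of_eq hs h1 h2
        exact pow_card_scal hx
    obtain ⟨n, -, hn⟩ := FiniteField.card k p
    let φ : N →* Equiv.Perm (OnePoint k) :=
      (MulAction.toPermHom (GL (Fin 2) k) (OnePoint k)).comp (ρ.comp N.subtype)
    have hφ : ∀ (τ : N) (x : OnePoint k), φ τ x = ρ τ • x := fun τ x => rfl
    have hpg : IsPGroup p φ.range := by
      rintro ⟨_, τ, rfl⟩
      refine ⟨n, ?_⟩
      apply Subtype.ext
      show (φ τ) ^ (p ^ (n : ℕ)) = 1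
      rw [← map_pow]
      apply Equiv.ext
      intro x
      rw [hφ, Subgroup.coe_pow, map_pow, ← hn, Equiv.Perm.one_apply]
      exact (hpow τ τ.2).smul x
    obtain ⟨y, hy⟩ := pgroup_fix (k := k) p hpg
    have hy' : ∀ τ ∈ N, ρ τ • y = y := fun τ hτ => hy ⟨φ ⟨τ, hτ⟩, ⟨⟨τ, hτ⟩, rfl⟩⟩
    obtain ⟨α, h1, h2⟩ := heq σ hσN
    obtain ⟨x, hx⟩ := unique_fix_of_eq hσ h1 h2
    have hyx : y = x := (hx y).mp (hy' σ hσN)
    obtain ⟨g, hg⟩ := h.no_line y
    apply hg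
    have h3 : g⁻¹ * σ * g ∈ N := by
      have := hN.conj_mem σ hσN g⁻¹
      rwa [inv_inv] at this
    have h4 := hy' _ h3
    rw [map_mul, map_mul, map_inv, fix_conj, hx] at h4
    rw [h4, hyx]
  · push Not at hA
    -- all of `N` is scalar: a nonscalar element
    obtain ⟨g, hg⟩ := h.no_line (∞ : OnePoint k)
    have hgs : ¬ IsScal (ρ g) := fun hs => hg (hs.smul _)
    refine h.no_sign (A := (ρ g).val) (fun c hc => hgs (isScal_of_smul_one hc)) ?_
    intro σ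
    have hc := hA _ (hab σ g)
    have hcd := hdet _ (hab σ g)
    set c := σ * g * σ⁻¹ * g⁻¹ with hcdef
    have h1 : ρ σ * ρ g = ρ c * (ρ g * ρ σ) := by
      rw [← map_mul, ← map_mul, ← map_mul]
      congr 1
      rw [hcdef]; group
    have h2 : (ρ σ).val * (ρ g).val = (ρ c).val * ((ρ g).val * (ρ σ).val) := by
      rw [← Units.val_mul, ← Units.val_mul, ← Units.val_mul, h1]
    obtain ⟨c01, c10, c00⟩ := hc
    have h3 : (ρ c).val = ((ρ c) 0 0) • 1 := by
      ext i j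
      fin_cases i <;> fin_cases j <;> simp [c01, c10, c00]
    have h4 : ((ρ c) 0 0) ^ 2 = 1 := by
      rw [Matrix.det_fin_two, c01, c10, ← c00] at hcd
      linear_combination hcd
    rcases sq_eq_one_iff.mp h4 with h5 | h5
    · left
      rw [h2, h3, h5, one_smul, one_mul]
    · right
      rw [h2, h3, h5, neg_smul, one_smul, neg_mul, one_mul]

end dist

section key

variable {k Γ : Type*} [Field k] [Group Γ] {K : Type*} [Field K] [Algebra k K]
  {ρ : Γ →* GL (Fin 2) k}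

theorem IsCocyc.conj_of_trivial {M : Type*} [AddCommGroup M] [Module k M]
    {r : Γ →* Module.End k M} {ψ : Γ → M} (hψ : IsCocyc r ψ) (g : Γ) {τ : Γ} (hτ : r τ = 1) :
    ψ (g * τ * g⁻¹) = r g (ψ τ) := by
  rw [hψ, hψ g τ, hψ.inv g, map_mul, hτ, mul_one, map_neg, ← Module.End.mul_apply, ← map_mul,
    mul_inv_cancel, map_one, Module.End.one_apply]
  abel

/-- For `g` with distinct eigenvalues, `(g - 1) ad⁰(1)` is a proper subspace of `ad⁰(1)`. -/
theorem ad1_sub_one_ne_top (g : GL (Fin 2) k) (hd : g.val.det = 1) (hns : ¬ IsScal g)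
    (h2 : (2 : k) ≠ 0) :
    ∃ Y ∈ slSub k, ∀ X ∈ slSub k, ad1 g X - X ≠ Y := by
  by_contra hcon
  push Not at hcon
  -- `X ↦ ad1 g X - X` would be surjective on `sl`, hence injective
  let f : slSub k →ₗ[k] slSub k :=
    ((ad1 g).restrict (fun X hX => ad1_mem_slSub g hX)) - LinearMap.id
  have hf : Function.Surjective f := by
    rintro ⟨Y, hY⟩
    obtain ⟨X, hX, hXY⟩ := hcon Y hY
    refine ⟨⟨X, hX⟩, Subtype.ext ?_⟩
    exact hXY
  have hinj : Function.Injective f := LinearMap.injective_iff_surjective.mpr hf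
  -- but `g - tr(g)/2` is in the kernel
  set X₀ : Matrix (Fin 2) (Fin 2) k := g.val - (g.val.trace / 2) • 1 with hX₀
  have hX₀s : X₀ ∈ slSub k := by
    rw [mem_slSub, hX₀, Matrix.trace_sub, Matrix.trace_smul, Matrix.trace_one, Fintype.card_fin,
      smul_eq_mul]
    push_cast
    field_simp
    ring
  have hfix : ad1 g X₀ = X₀ := by
    rw [ad1_eq_iff, hd, one_smul, hX₀, mul_sub, sub_mul, Matrix.mul_smul, Matrix.smul_mul,
      mul_one, one_mul]
  have h0 : f ⟨X₀, hX₀s⟩ = 0 := by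
    apply Subtype.ext
    show ad1 g X₀ - X₀ = 0
    rw [hfix, sub_self]
  have h1 : X₀ = 0 := congrArg Subtype.val (hinj (h0.trans (map_zero f).symm))
  apply hns
  exact isScal_of_smul_one (sub_eq_zero.mp h1)

theorem not_scal_of_distinct {g : GL (Fin 2) k} {α β : k} (hαβ : α ≠ β)
    (htr : g.val.trace = α + β) (hdet : g.val.det = α * β) : ¬ IsScal g := by
  rintro ⟨h01, h10, h00⟩
  rw [Matrix.trace_fin_two, ← h00] at htr
  rw [Matrix.det_fin_two, h01, h10, ← h00] at hdet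
  apply hαβ
  have : (α - β) ^ 2 = 0 := by
    linear_combination -(g 0 0 + g 0 0 + α + β) * htr + 4 * hdet
  exact sub_eq_zero.mp (pow_eq_zero_iff (two_ne_zero) |>.mp this)

/-- **Key statement** (step (c)): if a cocycle for `ad⁰(1)` is locally trivial at all elements of
`N` with distinct eigenvalues, then it is a coboundary. -/
theorem StrongIrr.cobound_of_local [IsAlgClosed K] [DecidableEq k] [Fintype k]
    (h : StrongIrr K ρ) (p : ℕ) [Fact p.Prime] [CharP k p] (hp2 : p ≠ 2)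
    (hsplit : ∀ σ, ∃ α β : k, (ρ σ).val.trace = α + β ∧ (ρ σ).val.det = α * β)
    (hdetr : Nat.card ((Matrix.GeneralLinearGroup.det (n := Fin 2) (R := k)).comp ρ).range = p - 1)
    (N : Subgroup Γ) [hN : N.Normal] (hab : ∀ x y : Γ, x * y * x⁻¹ * y⁻¹ ∈ N)
    (hdet : ∀ σ ∈ N, (ρ σ).val.det = 1)
    {ψ : Γ → Matrix (Fin 2) (Fin 2) k} (hψ : IsCocyc (ad1.comp ρ) ψ)
    (htr : ∀ σ, (ψ σ).trace = 0)
    (hloc : ∀ σ ∈ N, (∃ α β : k, α ≠ β ∧ (ρ σ).val.trace = α + β ∧ (ρ σ).val.det = α * β) →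
      ∃ X ∈ slSub k, ψ σ = ad1 (ρ σ) X - X) : IsCobound (ad1.comp ρ) ψ := by
  have h2 : (2 : k) ≠ 0 := by
    intro h
    have : ((2 : ℕ) : k) = 0 := by exact_mod_cast h
    rw [CharP.cast_eq_zero_iff k p] at this
    rcases (Nat.dvd_prime Nat.prime_two).mp this with h | h
    · exact (Fact.out : p.Prime).one_lt.ne' h
    · exact hp2 h
  obtain ⟨σ₀, hσ₀N, α, β, hαβ, hσtr, hσdet⟩ := h.exists_distinct p hsplit N hab hdet
  have hd0 := hdet σ₀ hσ₀N
  have hns := not_scal_of_distinct hαβ hσtr hσdet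
  -- `ψ` vanishes on `N ∩ ker ρ`
  have htriv : ∀ τ, ρ τ = 1 → (ad1.comp ρ) τ = 1 := fun τ hτ => by
    rw [MonoidHom.comp_apply, hτ, map_one]
  have hW : ∀ τ ∈ N, ρ τ = 1 → ψ τ = 0 := by
    -- span of the values
    let W : Submodule k (Matrix (Fin 2) (Fin 2) k) := Submodule.span k {X | ∃ τ ∈ N, ρ τ = 1 ∧ X = ψ τ}
    have hWsl : W ≤ slSub k := by
      rw [Submodule.span_le]
      rintro _ ⟨τ, -, -, rfl⟩
      exact mem_slSub.mpr (htr τ)
    have hWst : ∀ σ, ∀ X ∈ W, ad1 (ρ σ) X ∈ W := by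
      intro σ X hX
      refine Submodule.span_induction (p := fun X _ => ad1 (ρ σ) X ∈ W) ?_ ?_ ?_ ?_ hX
      · rintro _ ⟨τ, hτN, hτ, rfl⟩
        apply Submodule.subset_span
        refine ⟨σ * τ * σ⁻¹, hN.conj_mem τ hτN σ, ?_, ?_⟩
        · rw [map_mul, map_mul, hτ, mul_one, map_inv, mul_inv_cancel]
        · exact (hψ.conj_of_trivial σ (htriv τ hτ)).symm
      · rw [map_zero]; exact W.zero_mem
      · intro X Y _ _ hX hY
        rw [map_add]; exact W.add_mem hX hY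
      · intro c X _ hX
        rw [_root_.map_smul]; exact W.smul_mem c hX
    have hWrange : ∀ X ∈ W, ∃ Y ∈ slSub k, X = ad1 (ρ σ₀) Y - Y := by
      intro X hX
      refine Submodule.span_induction (p := fun X _ => ∃ Y ∈ slSub k, X = ad1 (ρ σ₀) Y - Y)
        ?_ ?_ ?_ ?_ hX
      · rintro _ ⟨τ, hτN, hτ, rfl⟩
        have h3 : ρ (τ * σ₀) = ρ σ₀ := by rw [map_mul, hτ, one_mul]
        obtain ⟨Y, hY, hYe⟩ := hloc (τ * σ₀) (N.mul_mem hτN hσ₀N)
          ⟨α, β, hαβ, by rw [h3, hσtr], by rw [h3, hσdet]⟩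
        obtain ⟨Y', hY', hYe'⟩ := hloc σ₀ hσ₀N ⟨α, β, hαβ, hσtr, hσdet⟩
        refine ⟨Y - Y', Submodule.sub_mem _ hY hY', ?_⟩
        have h4 : ψ (τ * σ₀) = ψ τ + ψ σ₀ := by
          rw [hψ, htriv τ hτ, Module.End.one_apply]
        rw [h3, h4, hYe'] at hYe
        rw [map_sub]
        have h5 : ψ τ = (ad1 (ρ σ₀) Y - Y) - (ad1 (ρ σ₀) Y' - Y') := by
          rw [← hYe]; abel
        rw [h5]; abel
      · exact ⟨0, Submodule.zero_mem _, by rw [map_zero, sub_zero]⟩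
      · rintro X X' _ _ ⟨Y, hY, rfl⟩ ⟨Y', hY', rfl⟩
        exact ⟨Y + Y', Submodule.add_mem _ hY hY', by rw [map_add]; abel⟩
      · rintro c X _ ⟨Y, hY, rfl⟩
        exact ⟨c • Y, Submodule.smul_mem _ c hY, by rw [_root_.map_smul, smul_sub]⟩
    rcases h.irr_sl h2 W hWsl hWst with h3 | h3
    · intro τ hτN hτ
      have h4 : ψ τ ∈ W := Submodule.subset_span ⟨τ, hτN, hτ, rfl⟩
      rw [h3, Submodule.mem_bot] at h4
      exact h4
    · exfalso
      obtain ⟨Y, hY, hYn⟩ := ad1_sub_one_ne_top (ρ σ₀) hd0 hns h2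
      obtain ⟨X, hX, hXe⟩ := hWrange Y (by rw [h3]; exact hY)
      exact hYn X hX hXe.symm
  -- `ψ` vanishes on `ker ρ`
  have hker : ∀ τ, ρ τ = 1 → ψ τ = 0 := by
    intro τ hτ
    refine h.inv_sl h2 (mem_slSub.mpr (htr τ)) ?_
    intro g
    have h3 : ψ (g * τ * g⁻¹) = ad1 (ρ g) (ψ τ) := hψ.conj_of_trivial g (htriv τ hτ)
    have h4 : ρ (g * τ * g⁻¹) = 1 := by
      rw [map_mul, map_mul, hτ, mul_one, map_inv, mul_inv_cancel]
    have h5 : ρ (g * τ * g⁻¹ * τ⁻¹) = 1 := by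
      rw [map_mul, h4, map_inv, hτ, inv_one, one_mul]
    have h6 : ψ (g * τ * g⁻¹ * τ⁻¹) = 0 := hW _ (hab g τ) h5
    have h7 : ψ (g * τ * g⁻¹) = ψ (g * τ * g⁻¹ * τ⁻¹ * τ) := by
      rw [inv_mul_cancel_right]
    rw [← h3, h7, hψ, h6, zero_add, htriv _ h5, Module.End.one_apply]
  -- descend to the image
  let H := ρ.range
  let ψ' : H → Matrix (Fin 2) (Fin 2) k := fun x => ψ (Classical.choose x.2)
  have hψ' : ∀ g, ψ' ⟨ρ g, ⟨g, rfl⟩⟩ = ψ g := by
    intro g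
    have h3 : ρ (Classical.choose (⟨g, rfl⟩ : ∃ y, ρ y = ρ g)) = ρ g :=
      Classical.choose_spec (⟨g, rfl⟩ : ∃ y, ρ y = ρ g)
    set g' := Classical.choose (⟨g, rfl⟩ : ∃ y, ρ y = ρ g) with hg'
    show ψ g' = ψ g
    have h4 : ψ (g' * (g'⁻¹ * g)) = ψ g' + (ad1.comp ρ) g' (ψ (g'⁻¹ * g)) := hψ _ _
    rw [mul_inv_cancel_left, hker (g'⁻¹ * g) (by rw [map_mul, map_inv, h3, inv_mul_cancel]),
      map_zero, add_zero] at h4
    exact h4.symm
  have hcoc : IsCocyc (ad1.comp H.subtype) ψ' := by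
    rintro ⟨_, g, rfl⟩ ⟨_, g', rfl⟩
    have h3 : (⟨ρ g, ⟨g, rfl⟩⟩ * ⟨ρ g', ⟨g', rfl⟩⟩ : H) = ⟨ρ (g * g'), ⟨g * g', rfl⟩⟩ :=
      Subtype.ext (map_mul ρ g g').symm
    rw [h3, hψ', hψ', hψ', hψ]
    rfl
  have hrange : ((Matrix.GeneralLinearGroup.det (n := Fin 2) (R := k)).comp H.subtype).range =
      ((Matrix.GeneralLinearGroup.det (n := Fin 2) (R := k)).comp ρ).range := by
    ext a
    constructor
    · rintro ⟨⟨_, g, rfl⟩, rfl⟩; exact ⟨g, rfl⟩
    · rintro ⟨g, rfl⟩; exact ⟨⟨ρ g, ⟨g, rfl⟩⟩, rfl⟩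
  obtain ⟨X, hX⟩ := h1_vanish (ρ := H.subtype) (ψ := ψ') p hp2 Subtype.val_injective
    (by rintro ⟨_, g, rfl⟩; exact hsplit g) (by rw [hrange, hdetr])
    (by
      intro x
      obtain ⟨g, hg⟩ := h.no_line x
      exact ⟨⟨ρ g, ⟨g, rfl⟩⟩, hg⟩) hcoc
    (fun x => htr _)
  refine ⟨X, fun g => ?_⟩
  have := hX ⟨ρ g, ⟨g, rfl⟩⟩
  rw [hψ'] at this
  exact this

end key

end Fermat.Agent.H6
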