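import Mathlib
import Fermat.Agent.H6TWDist

/-!
# The local functional at an element with distinct eigenvalues
-/

set_option autoImplicit false

namespace Fermat.Agent.H6

open Matrix OnePoint

section single

variable {k : Type*} [Field k]

/-- The trace zero part of `g`. -/
def tz (g : GL (Fin 2) k) : Matrix (Fin 2) (Fin 2) k := g.val - (g.val.trace / 2) • 1

theorem tz_mem (h2 : (2 : k) ≠ 0) (g : GL (Fin 2) k) : tz g ∈ slSub k := by
  rw [mem_slSub, tz, Matrix.trace_sub, Matrix.trace_smul, Matrix.trace_one, Fintype.card_fin,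
    smul_eq_mul]
  push_cast
  field_simp
  ring

theorem tz_ne_zero {g : GL (Fin 2) k} (hns : ¬ IsScal g) : tz g ≠ 0 := by
  intro h
  exact hns (isScal_of_smul_one (sub_eq_zero.mp h))

theorem tz_comm (g : GL (Fin 2) k) : g.val * tz g = tz g * g.val := by
  rw [tz, mul_sub, sub_mul, Matrix.mul_smul, Matrix.smul_mul, mul_one, one_mul]

/-- The functional `X ↦ tr (X (g - tr g / 2))`. -/
noncomputable def lam (g : GL (Fin 2) k) : Matrix (Fin 2) (Fin 2) k →ₗ[k] k where
  toFun X := (X * tz g).trace
  map_add' X Y := by rw [add_mul, Matrix.trace_add]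
  map_smul' c X := by rw [Matrix.smul_mul, Matrix.trace_smul, RingHom.id_apply]

theorem lam_apply (g : GL (Fin 2) k) (X : Matrix (Fin 2) (Fin 2) k) :
    lam g X = (X * tz g).trace := rfl

theorem lam_ad1_sub (g : GL (Fin 2) k) (hd : g.val.det = 1) (X : Matrix (Fin 2) (Fin 2) k) :
    lam g (ad1 g X - X) = 0 := by
  have h1 : (g⁻¹).val * g.val = 1 := by rw [← Units.val_mul, inv_mul_cancel, Units.val_one]
  have h2 : (g⁻¹).val * tz g * g.val = tz g := by
    rw [mul_assoc, ← tz_comm, ← mul_assoc, h1, one_mul]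
  rw [lam_apply, sub_mul, Matrix.trace_sub, ad1_apply, hd, one_smul]
  have h3 : (g.val * X * (g⁻¹).val * tz g).trace = (X * tz g).trace := by
    have e1 : g.val * X * (g⁻¹).val * tz g = g.val * (X * ((g⁻¹).val * tz g)) := by
      simp only [mul_assoc]
    rw [e1, Matrix.trace_mul_comm, mul_assoc, h2]
  rw [h3, sub_self]

/-- On trace-zero matrices, `lam g` vanishes exactly on the image of `g - 1`. -/
theorem exists_of_lam_eq_zero (h2 : (2 : k) ≠ 0) {g : GL (Fin 2) k} (hd : g.val.det = 1)
    (hns : ¬ IsScal g) {Y : Matrix (Fin 2) (Fin 2) k} (hY : Y ∈ slSub k) (hlam : lam g Y = 0) :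
    ∃ X ∈ slSub k, Y = ad1 g X - X := by
  let f : slSub k →ₗ[k] slSub k :=
    ((ad1 g).restrict (fun X hX => ad1_mem_slSub g hX)) - LinearMap.id
  have hf : ∀ X : slSub k, ((f X : slSub k) : Matrix (Fin 2) (Fin 2) k) = ad1 g X - X := fun X => rfl
  have h0 := tz_ne_zero hns
  have hs := tz_mem h2 g
  -- kernel is at most one-dimensional
  have hker : Module.finrank k (LinearMap.ker f) ≤ 1 := by
    have hle : LinearMap.ker f ≤ Submodule.span k {(⟨tz g, hs⟩ : slSub k)} := by
      intro X hX
      rw [LinearMap.mem_ker] at hX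
      have h3 : ad1 g (X : Matrix (Fin 2) (Fin 2) k) = X := by
        have := congrArg Subtype.val hX
        rw [hf] at this
        exact sub_eq_zero.mp this
      rw [ad1_eq_iff, hd, one_smul] at h3
      have h4 : tz g * X - X * tz g = 0 := by
        rw [tz, sub_mul, mul_sub, h3, Matrix.smul_mul, Matrix.mul_smul, one_mul, mul_one]
        abel
      have h5 : ¬ LinearIndependent k ![tz g, (X : Matrix (Fin 2) (Fin 2) k)] :=
        fun hl => comm_ne_zero h2 hs X.2 hl h4
      rw [LinearIndependent.pair_iff' h0] at h5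
      push Not at h5
      obtain ⟨a, ha⟩ := h5
      rw [Submodule.mem_span_singleton]
      exact ⟨a, Subtype.ext ha⟩
    calc Module.finrank k (LinearMap.ker f)
        ≤ Module.finrank k (Submodule.span k {(⟨tz g, hs⟩ : slSub k)}) :=
          Submodule.finrank_mono hle
      _ ≤ 1 := by
          have := finrank_span_le_card (R := k) ({(⟨tz g, hs⟩ : slSub k)} : Set (slSub k))
          simpa using this
  have hrank := LinearMap.finrank_range_add_finrank_ker f
  rw [finrank_slSub] at hrank
  -- the kernel of `lam g` on `sl`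
  let l : slSub k →ₗ[k] k := (lam g).domRestrict (slSub k)
  have hl : ∀ X : slSub k, l X = lam g X := fun X => rfl
  have hlne : l ≠ 0 := by
    intro hl0
    have hall : ∀ X ∈ slSub k, (X * tz g).trace = 0 := fun X hX => by
      have := LinearMap.congr_fun hl0 ⟨X, hX⟩
      exact this
    have htz := (trace_eq_zero_iff_11 _).mp (mem_slSub.mp hs)
    have a1 := hall !![0, 1; 0, 0] (by rw [mem_slSub]; simp [Matrix.trace_fin_two])
    have a2 := hall !![0, 0; 1, 0] (by rw [mem_slSub]; simp [Matrix.trace_fin_two])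
    have a3 := hall !![1, 0; 0, -1] (by rw [mem_slSub]; simp [Matrix.trace_fin_two])
    simp only [Matrix.trace_fin_two, Matrix.mul_apply, Fin.sum_univ_two, Matrix.of_apply,
      Matrix.cons_val', Matrix.cons_val_zero, Matrix.cons_val_one, Matrix.cons_val_fin_one,
      zero_mul, one_mul, zero_add, add_zero, neg_mul] at a1 a2 a3
    rw [htz, neg_neg] at a3
    have e00 : tz g 0 0 = 0 := by
      have : (2 : k) * tz g 0 0 = 0 := by linear_combination a3
      exact (mul_eq_zero.mp this).resolve_left h2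
    apply h0
    ext i j
    fin_cases i <;> fin_cases j
    · exact e00
    · exact a2
    · exact a1
    · show tz g 1 1 = 0
      rw [htz, e00, neg_zero]
  have hlker : Module.finrank k (LinearMap.ker l) ≤ 2 := by
    have h3 := LinearMap.finrank_range_add_finrank_ker l
    rw [finrank_slSub] at h3
    have h4 : 0 < Module.finrank k (LinearMap.range l) := by
      rw [Module.finrank_pos_iff, Submodule.nontrivial_iff_ne_bot]
      intro hbot
      exact hlne (LinearMap.range_eq_bot.mp hbot)
    omega
  have hle : LinearMap.range f ≤ LinearMap.ker l := by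
    rintro _ ⟨X, rfl⟩
    rw [LinearMap.mem_ker, hl, hf]
    exact lam_ad1_sub g hd X
  have heq : LinearMap.range f = LinearMap.ker l :=
    Submodule.eq_of_le_of_finrank_le hle (by omega)
  have hmem : (⟨Y, hY⟩ : slSub k) ∈ LinearMap.range f := by
    rw [heq, LinearMap.mem_ker, hl]
    exact hlam
  obtain ⟨X, hX⟩ := hmem
  exact ⟨X, X.2, by rw [← hf, hX]⟩

/-- Powers of a matrix with a double eigenvalue. -/
theorem pow_double {g : Matrix (Fin 2) (Fin 2) k} {α : k} (htr : g.trace = α + α)
    (hdet : g.det = α * α) (j : ℕ) :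
    (g ^ j).trace = α ^ j + α ^ j ∧ (g ^ j).det = α ^ j * α ^ j := by
  rw [Matrix.trace_fin_two] at htr
  have hdet' := hdet
  rw [Matrix.det_fin_two] at hdet'
  set N : Matrix (Fin 2) (Fin 2) k := g - α • 1 with hN
  have hNtr : N.trace = 0 := by
    rw [hN, Matrix.trace_sub, Matrix.trace_smul, Matrix.trace_one, Matrix.trace_fin_two,
      Fintype.card_fin, smul_eq_mul]
    push_cast
    linear_combination htr
  have hNN : N * N = 0 := by
    have h11 : g 1 1 = α + α - g 0 0 := by linear_combination htr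
    ext i j
    fin_cases i <;> fin_cases j <;>
      simp [hN, Matrix.mul_apply, Fin.sum_univ_two, Matrix.one_apply, h11] <;>
      rw [h11] at hdet' <;> first | linear_combination -hdet' | ring
  have hg : g = α • 1 + N := by rw [hN]; abel
  have hpow : ∀ j : ℕ, g ^ j = α ^ j • (1 : Matrix (Fin 2) (Fin 2) k) + (j * α ^ (j - 1)) • N := by
    intro j
    induction j with
    | zero => simp
    | succ j ih =>
      rw [pow_succ, ih]
      nth_rewrite 1 [hg]
      rw [mul_add, add_mul, add_mul]
      simp only [Matrix.smul_mul, Matrix.mul_smul, one_mul, mul_one, hNN, smul_zero, add_zero,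
        smul_smul]
      rw [pow_succ, mul_comm (α ^ j) α]
      rcases j with _ | j
      · simp
      · simp only [Nat.add_sub_cancel]
        rw [add_assoc, ← add_smul, mul_comm α (α ^ (j + 1))]
        congr 2
        push_cast
        ring
  refine ⟨?_, by rw [Matrix.det_pow, hdet, mul_pow]⟩
  rw [hpow, Matrix.trace_add, Matrix.trace_smul, Matrix.trace_smul, hNtr, smul_zero, add_zero,
    Matrix.trace_one, Fintype.card_fin, smul_eq_mul]
  push_cast
  ring

/-- If a power of `g` has distinct eigenvalues, so does `g`. -/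
theorem distinct_of_pow {g : GL (Fin 2) k}
    (hsplit : ∃ α β : k, g.val.trace = α + β ∧ g.val.det = α * β) {j : ℕ}
    (hpow : ∃ α β : k, α ≠ β ∧ (g ^ j).val.trace = α + β ∧ (g ^ j).val.det = α * β) :
    ∃ α β : k, α ≠ β ∧ g.val.trace = α + β ∧ g.val.det = α * β := by
  obtain ⟨α, β, h1, h2⟩ := hsplit
  by_cases hαβ : α = β
  · exfalso
    obtain ⟨a, b, hab, h3, h4⟩ := hpow
    rw [← hαβ] at h1 h2
    obtain ⟨h5, h6⟩ := pow_double h1 h2 j
    rw [Units.val_pow_eq_pow_val] at h3 h4
    rw [h5] at h3
    rw [h6] at h4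
    apply hab
    have : (a - b) ^ 2 = 0 := by
      linear_combination -(α ^ j + α ^ j + a + b) * h3 + 4 * h4
    exact sub_eq_zero.mp (pow_eq_zero_iff (two_ne_zero) |>.mp this)
  · exact ⟨α, β, hαβ, h1, h2⟩

end single

section cyc

variable {k Γ M : Type*} [Field k] [Group Γ] [AddCommGroup M] [Module k M]
  {r : Γ →* Module.End k M} {ψ : Γ → M}

theorem IsCocyc.pow_of (hψ : IsCocyc r ψ) {τ : Γ} {X : M} (hX : ψ τ = r τ X - X) (j : ℕ) :
    ψ (τ ^ j) = r (τ ^ j) X - X := by
  induction j with
  | zero => simp [hψ.one]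
  | succ j ih =>
    rw [pow_succ, hψ, ih, hX, map_mul, Module.End.mul_apply, map_sub]
    abel

theorem IsCocyc.conj_of (hψ : IsCocyc r ψ) {τ : Γ} {X : M} (hX : ψ τ = r τ X - X) (g : Γ) :
    ψ (g * τ * g⁻¹) = r (g * τ * g⁻¹) (r g X - ψ g) - (r g X - ψ g) := by
  rw [hψ, hψ g τ, hX, hψ.inv g]
  have h1 : r (g * τ * g⁻¹) (r g X - ψ g) = r g (r τ X) - r g (r τ (r g⁻¹ (ψ g))) := by
    rw [map_sub, ← Module.End.mul_apply, ← map_mul, inv_mul_cancel_right, map_mul,
      Module.End.mul_apply, map_mul, map_mul, Module.End.mul_apply, Module.End.mul_apply]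
  rw [h1, map_sub, map_neg, map_mul, Module.End.mul_apply]
  abel

end cyc

end Fermat.Agent.H6
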