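import Mathlib
import Fermat.Agent.H6TWCyc
import Fermat.Agent.H6TWLoc

/-!
# Selection of Taylor–Wiles primes (matrix form)
-/

set_option autoImplicit false

open scoped Pointwise
open NumberField Matrix

namespace Fermat.Agent.H6

local notation "Qb" => AlgebraicClosure ℚ
local notation "Gq" => (AlgebraicClosure ℚ ≃ₐ[ℚ] AlgebraicClosure ℚ)

local instance isAlgebraicQb8 : Algebra.IsAlgebraic ℚ Qb := AlgebraicClosure.isAlgebraic ℚ
local instance isAlgClosureQb8 : IsAlgClosure ℚ Qb := ⟨inferInstance, inferInstance⟩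
local instance normalQb8 : Normal ℚ Qb := IsAlgClosure.normal ℚ Qb
local instance isGaloisQb8 : IsGalois ℚ Qb := ⟨⟩

variable {k : Type*} [Field k]

/-- `f` is locally trivial at some (equivalently every) place over `q`. -/
def LocTriv (ρ : Gq →* GL (Fin 2) k) (f : Gq → Matrix (Fin 2) (Fin 2) k) (q : ℕ) : Prop :=
  ∃ (P : ValuationSubring Qb) (φ : Gq), P.LiesOverPrime q ∧ P.IsFrobeniusAt φ q ∧
    ∃ X ∈ slSub k, f φ = ad1 (ρ φ) X - X

/-- `q` is a Taylor–Wiles prime of level `m` for `ρ`. -/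
def TWPrime (ρ : Gq →* GL (Fin 2) k) (m : ℕ) (q : ℕ) : Prop :=
  q.Prime ∧ m ∣ q - 1 ∧
    (∀ P : ValuationSubring Qb, P.LiesOverPrime q → ∀ τ ∈ P.inertiaSubgroupIn ℚ, ρ τ = 1) ∧
    ∀ P : ValuationSubring Qb, P.LiesOverPrime q → ∀ φ : Gq, P.IsFrobeniusAt φ q →
      (ρ φ).val.det = 1 ∧ ∃ α β : k, α ≠ β ∧ (ρ φ).val.trace = α + β ∧ (ρ φ).val.det = α * β

/-- The linear combination of cocycles. -/
def comb {s : ℕ} (ψ : Fin s → Gq → Matrix (Fin 2) (Fin 2) k) (c : Fin s → k) (σ : Gq) :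
    Matrix (Fin 2) (Fin 2) k := ∑ j, c j • ψ j σ

theorem comb_cocyc {s : ℕ} {ρ : Gq →* GL (Fin 2) k} {ψ : Fin s → Gq → Matrix (Fin 2) (Fin 2) k}
    (hψ : ∀ j, IsCocyc (ad1.comp ρ) (ψ j)) (c : Fin s → k) :
    IsCocyc (ad1.comp ρ) (comb ψ c) := by
  intro g h
  simp only [comb, map_sum, _root_.map_smul]
  rw [← Finset.sum_add_distrib]
  refine Finset.sum_congr rfl fun j _ => ?_
  rw [hψ j g h, smul_add]

theorem comb_trace {s : ℕ} {ψ : Fin s → Gq → Matrix (Fin 2) (Fin 2) k}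
    (htr : ∀ j σ, (ψ j σ).trace = 0) (c : Fin s → k) (σ : Gq) : (comb ψ c σ).trace = 0 := by
  rw [comb, Matrix.trace_sum]
  refine Finset.sum_eq_zero fun j _ => ?_
  rw [Matrix.trace_smul, htr, smul_zero]

section one

variable [Fintype k] [DecidableEq k] (p : ℕ) [Fact p.Prime] [CharP k p]

omit [Fintype k] [DecidableEq k] in
theorem two_ne_zero_of (hp2 : p ≠ 2) : (2 : k) ≠ 0 := by
  intro h
  have : ((2 : ℕ) : k) = 0 := by exact_mod_cast h
  rw [CharP.cast_eq_zero_iff k p] at this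
  rcases (Nat.dvd_prime Nat.prime_two).mp this with h | h
  · exact (Fact.out : p.Prime).one_lt.ne' h
  · exact hp2 h

omit [Fintype k] [DecidableEq k] in
/-- Choice of one prime. -/
theorem select_one (hp2 : p ≠ 2) {ρ : Gq →* GL (Fin 2) k}
    (hsplit : ∀ σ, ∃ α β : k, (ρ σ).val.trace = α + β ∧ (ρ σ).val.det = α * β)
    (hdet : ∀ (σ : Gq) (a : ℕ), (∀ μ : Qb, μ ^ p = 1 → σ μ = μ ^ a) → (ρ σ).val.det = (a : k))
    (M : IntermediateField ℚ Qb) [FiniteDimensional ℚ M] [Normal ℚ M]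
    (hρM : ∀ σ : Gq, (∀ x ∈ M, σ x = x) → ρ σ = 1)
    {s : ℕ} {ψ : Fin s → Gq → Matrix (Fin 2) (Fin 2) k}
    (hψ : ∀ j, IsCocyc (ad1.comp ρ) (ψ j)) (htr : ∀ j σ, (ψ j σ).trace = 0)
    (hψM : ∀ j (g τ : Gq), (∀ x ∈ M, τ x = x) → ψ j (g * τ) = ψ j g)
    (n : ℕ) (hζ : ∀ ζ : Qb, ζ ^ p ^ (n + 1) = 1 → ζ ∈ M)
    {σ : Gq} (hσ : σ ∈ muFix (p ^ (n + 1)))
    (hσd : ∃ α β : k, α ≠ β ∧ (ρ σ).val.trace = α + β ∧ (ρ σ).val.det = α * β)
    (S : Finset ℕ) :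
    ∃ q : ℕ, q ∉ S ∧ TWPrime ρ (p ^ (n + 1)) q ∧
      (∀ P : ValuationSubring Qb, P.LiesOverPrime q → ∀ τ ∈ P.inertiaSubgroupIn ℚ,
        ∀ j, ψ j τ = 0) ∧
      ∃ Λ : (Fin s → k) →ₗ[k] k,
        (∀ c, LocTriv ρ (comb ψ c) q → Λ c = 0) ∧
        (∀ c, Λ c = 0 → ∃ X ∈ slSub k, comb ψ c σ = ad1 (ρ σ) X - X) := by
  have hp : p.Prime := Fact.out
  have h2 := two_ne_zero_of (k := k) p hp2
  obtain ⟨q, hq, hqS, hin, A, φ, hA, hφ, ⟨j, hj⟩, ⟨i, hi⟩, hall⟩ := good_prime M σ (S ∪ {p})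
  rw [Finset.mem_union, Finset.mem_singleton, not_or] at hqS
  obtain ⟨hqS, hqp⟩ := hqS
  -- level principles
  have hρe : ∀ σ τ : Gq, (∀ x ∈ M, σ x = τ x) → ρ σ = ρ τ := fun σ τ h =>
    H86.map_eq_of_forall_mem hρM h
  have hψe : ∀ j (σ τ : Gq), (∀ x ∈ M, σ x = τ x) → ψ j σ = ψ j τ := by
    intro j σ τ h
    have h1 : σ = τ * (τ⁻¹ * σ) := by group
    rw [h1]
    apply hψM
    intro x hx
    rw [AlgEquiv.mul_apply, h x hx]
    exact τ.symm_apply_apply x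
  have hce : ∀ c (σ τ : Gq), (∀ x ∈ M, σ x = τ x) → comb ψ c σ = comb ψ c τ := by
    intro c σ τ h
    exact Finset.sum_congr rfl fun j _ => by rw [hψe j σ τ h]
  -- congruence
  have hndvd : ∀ m : ℕ, ¬ q ∣ p ^ m := fun m h =>
    hqp ((Nat.prime_dvd_prime_iff_eq hq hp).mp (hq.dvd_of_dvd_pow h))
  have hφμ : ∀ μ : Qb, μ ^ p ^ (n + 1) = 1 → φ μ = μ := by
    intro μ hμ
    rw [hi μ (hζ μ hμ)]
    exact (muFix (p ^ (n + 1))).pow_mem hσ i μ hμ
  have hdvd : p ^ (n + 1) ∣ q - 1 := by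
    have : NeZero (p ^ (n + 1)) := ⟨pow_ne_zero _ hp.ne_zero⟩
    obtain ⟨ζ, hζp⟩ := HasEnoughRootsOfUnity.exists_primitiveRoot Qb (p ^ (n + 1))
    have h3 := H86.frobenius_apply_rootsOfUnity hq hA hφ (hndvd (n + 1)) hζp.pow_eq_one
    rw [hφμ ζ hζp.pow_eq_one] at h3
    apply hζp.dvd_of_pow_eq_one
    have h4 : ζ ≠ 0 := hζp.ne_zero (pow_ne_zero _ hp.ne_zero)
    apply mul_right_cancel₀ h4
    rw [one_mul, ← pow_succ, Nat.sub_add_cancel hq.one_lt.le]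
    exact h3.symm
  have hq1 : ((q : ℕ) : k) = 1 := by
    have h5 : ((q - 1 : ℕ) : k) = 0 := by
      rw [CharP.cast_eq_zero_iff k p]
      exact (dvd_pow_self p (Nat.succ_ne_zero n)).trans hdvd
    rw [Nat.cast_sub hq.one_lt.le, Nat.cast_one] at h5
    exact sub_eq_zero.mp h5
  have hdet1 : ∀ (P : ValuationSubring Qb), P.LiesOverPrime q → ∀ φ' : Gq, P.IsFrobeniusAt φ' q →
      (ρ φ').val.det = 1 := by
    intro P hP φ' hφ'
    rw [hdet φ' q, hq1]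
    intro μ hμ
    have h3 : μ ^ (p ^ 1) = 1 := by rwa [pow_one]
    exact H86.frobenius_apply_rootsOfUnity hq hP hφ' (hndvd 1) h3
  -- `σ = φ ^ j`
  have hρσ : ρ σ = ρ φ ^ j := by rw [hρe σ (φ ^ j) hj, map_pow]
  have hφd : ∃ α β : k, α ≠ β ∧ (ρ φ).val.trace = α + β ∧ (ρ φ).val.det = α * β := by
    apply distinct_of_pow (hsplit φ) (j := j)
    rw [← hρσ]; exact hσd
  have hconj : ∀ (P : ValuationSubring Qb), P.LiesOverPrime q → ∀ φ' : Gq, P.IsFrobeniusAt φ' q →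
      ∃ g : Gq, ρ φ' = ρ (g * φ * g⁻¹) ∧ ∀ c, comb ψ c φ' = comb ψ c (g * φ * g⁻¹) := by
    intro P hP φ' hφ'
    obtain ⟨g, hg⟩ := hall P hP φ' hφ'
    exact ⟨g, hρe _ _ hg, fun c => hce c _ _ hg⟩
  refine ⟨q, hqS, ⟨hq, hdvd, ?_, ?_⟩, ?_, ?_⟩
  · intro P hP τ hτ
    exact hρM τ (hin P hP τ hτ)
  · intro P hP φ' hφ'
    refine ⟨hdet1 P hP φ' hφ', ?_⟩
    obtain ⟨g, hg, -⟩ := hconj P hP φ' hφ'
    obtain ⟨α, β, hαβ, h3, h4⟩ := hφd
    refine ⟨α, β, hαβ, ?_, ?_⟩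
    · rw [hg, map_mul, map_mul, map_inv, trace_conj', h3]
    · rw [hg, map_mul, map_mul, map_inv, det_conj', h4]
  · intro P hP τ hτ j
    have h3 := hψe j τ 1 (hin P hP τ hτ)
    rw [h3, (hψ j).one]
  · -- the functional
    let Λ : (Fin s → k) →ₗ[k] k :=
      { toFun := fun c => lam (ρ φ) (comb ψ c φ)
        map_add' := fun c c' => by
          rw [← map_add]
          congr 1
          simp only [comb, Pi.add_apply, add_smul, Finset.sum_add_distrib]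
        map_smul' := fun a c => by
          rw [RingHom.id_apply, ← _root_.map_smul]
          congr 1
          simp only [comb, Pi.smul_apply, smul_assoc, Finset.smul_sum] }
    have hΛ : ∀ c, Λ c = lam (ρ φ) (comb ψ c φ) := fun c => rfl
    obtain ⟨α, β, hαβ, hφtr, hφdet⟩ := hφd
    have hns := not_scal_of_distinct hαβ hφtr hφdet
    have hd1 := hdet1 A hA φ hφ
    refine ⟨Λ, ?_, ?_⟩
    · rintro c ⟨P, φ', hP, hφ', X, hX, hXe⟩
      obtain ⟨g, hg, hgc⟩ := hconj P hP φ' hφ'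
      have hc := comb_cocyc hψ c
      rw [hgc, hg] at hXe
      have h5 := hc.conj_of (r := ad1.comp ρ) (τ := g * φ * g⁻¹) (X := X) hXe g⁻¹
      have h6 : g⁻¹ * (g * φ * g⁻¹) * g⁻¹⁻¹ = φ := by group
      rw [h6] at h5
      rw [hΛ, h5]
      exact lam_ad1_sub (ρ φ) hd1 _
    · intro c hc0
      rw [hΛ] at hc0
      obtain ⟨X, hX, hXe⟩ := exists_of_lam_eq_zero h2 hd1 hns
        (mem_slSub.mpr (comb_trace htr c φ)) hc0
      refine ⟨X, hX, ?_⟩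
      have hc := comb_cocyc hψ c
      have h5 := hc.pow_of (r := ad1.comp ρ) (τ := φ) (X := X) hXe j
      rw [hce c σ (φ ^ j) hj, h5, MonoidHom.comp_apply, map_pow, ← hρσ]

/-- Selection with a fixed level field. -/
theorem select_all (hp2 : p ≠ 2) {K : Type*} [Field K] [Algebra k K] [IsAlgClosed K]
    {ρ : Gq →* GL (Fin 2) k} (hirr : StrongIrr K ρ)
    (hsplit : ∀ σ, ∃ α β : k, (ρ σ).val.trace = α + β ∧ (ρ σ).val.det = α * β)
    (hdet : ∀ (σ : Gq) (a : ℕ), (∀ μ : Qb, μ ^ p = 1 → σ μ = μ ^ a) → (ρ σ).val.det = (a : k))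
    (M : IntermediateField ℚ Qb) [FiniteDimensional ℚ M] [Normal ℚ M]
    (hρM : ∀ σ : Gq, (∀ x ∈ M, σ x = x) → ρ σ = 1)
    {s : ℕ} {ψ : Fin s → Gq → Matrix (Fin 2) (Fin 2) k}
    (hψ : ∀ j, IsCocyc (ad1.comp ρ) (ψ j)) (htr : ∀ j σ, (ψ j σ).trace = 0)
    (hψM : ∀ j (g τ : Gq), (∀ x ∈ M, τ x = x) → ψ j (g * τ) = ψ j g)
    (hind : ∀ c : Fin s → k, IsCobound (ad1.comp ρ) (comb ψ c) → c = 0)
    (n : ℕ) (hζ : ∀ ζ : Qb, ζ ^ p ^ (n + 1) = 1 → ζ ∈ M) (d : ℕ) :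
    ∀ (C : Submodule k (Fin s → k)) (_ : Module.finrank k C ≤ d) (S : Finset ℕ),
    ∃ qv : Fin d → ℕ, Function.Injective qv ∧ (∀ i, qv i ∉ S) ∧
      (∀ i, TWPrime ρ (p ^ (n + 1)) (qv i)) ∧
      (∀ i, ∀ P : ValuationSubring Qb, P.LiesOverPrime (qv i) → ∀ τ ∈ P.inertiaSubgroupIn ℚ,
        ∀ j, ψ j τ = 0) ∧
      ∀ c ∈ C, (∀ i, LocTriv ρ (comb ψ c) (qv i)) → c = 0 := by
  have hp : p.Prime := Fact.out
  have h2 := two_ne_zero_of (k := k) p hp2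
  have hab : ∀ x y : Gq, x * y * x⁻¹ * y⁻¹ ∈ muFix (p ^ (n + 1)) :=
    commutator_mem_muFix (pow_pos hp.pos _)
  have hdetN : ∀ σ ∈ muFix (p ^ (n + 1)), (ρ σ).val.det = 1 := by
    intro σ hσ
    have := hdet σ 1 (fun μ hμ => by
      rw [pow_one]
      apply hσ
      rw [pow_succ', pow_mul, hμ, one_pow])
    rw [this, Nat.cast_one]
  have hdetr : Nat.card ((Matrix.GeneralLinearGroup.det (n := Fin 2) (R := k)).comp ρ).range =
      p - 1 := by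
    apply card_range_cyc p
    intro σ a ha
    exact hdet σ a ha
  induction d with
  | zero =>
    intro C hC S
    refine ⟨Fin.elim0, fun i => i.elim0, fun i => i.elim0, fun i => i.elim0, fun i => i.elim0, ?_⟩
    intro c hc _
    have h3 : C = ⊥ := Submodule.finrank_eq_zero.mp (Nat.le_zero.mp hC)
    rw [h3, Submodule.mem_bot] at hc
    exact hc
  | succ d ih =>
    intro C hC S
    -- find `σ`
    obtain ⟨σ, hσN, hσd, hσC⟩ : ∃ σ ∈ muFix (p ^ (n + 1)),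
        (∃ α β : k, α ≠ β ∧ (ρ σ).val.trace = α + β ∧ (ρ σ).val.det = α * β) ∧
        (C ≠ ⊥ → ∃ c ∈ C, ¬ ∃ X ∈ slSub k, comb ψ c σ = ad1 (ρ σ) X - X) := by
      by_cases hCb : C = ⊥
      · obtain ⟨σ, hσ, hσd⟩ := hirr.exists_distinct p hsplit (muFix (p ^ (n + 1))) hab hdetN
        exact ⟨σ, hσ, hσd, fun h => absurd hCb h⟩
      · obtain ⟨c, hc, hc0⟩ := Submodule.exists_mem_ne_zero_of_ne_bot hCb
        have hnot : ¬ IsCobound (ad1.comp ρ) (comb ψ c) := fun h => hc0 (hind c h)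
        by_contra hcon
        push Not at hcon
        apply hnot
        refine hirr.cobound_of_local p hp2 hsplit hdetr (muFix (p ^ (n + 1))) hab hdetN
          (comb_cocyc hψ c) (comb_trace htr c) ?_
        intro σ hσ hσd
        obtain ⟨-, h4⟩ := hcon σ hσ hσd
        exact h4 c hc
    obtain ⟨q, hqS, hqTW, hqin, Λ, hΛ1, hΛ2⟩ :=
      select_one p hp2 hsplit hdet M hρM hψ htr hψM n hζ hσN hσd S
    have hC' : Module.finrank k (C ⊓ LinearMap.ker Λ : Submodule k (Fin s → k)) ≤ d := by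
      by_cases hCb : C = ⊥
      · rw [hCb, bot_inf_eq, finrank_bot]; exact Nat.zero_le _
      · obtain ⟨c, hc, hcX⟩ := hσC hCb
        have hlt : (C ⊓ LinearMap.ker Λ : Submodule k (Fin s → k)) < C := by
          refine lt_of_le_of_ne inf_le_left fun heq => ?_
          have h5 : c ∈ (C ⊓ LinearMap.ker Λ : Submodule k (Fin s → k)) := by rw [heq]; exact hc
          exact hcX (hΛ2 c (LinearMap.mem_ker.mp h5.2))
        have := Submodule.finrank_lt_finrank_of_lt hlt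
        omega
    obtain ⟨qv, hinj, hS, hTW, hin, hkill⟩ := ih _ hC' (insert q S)
    refine ⟨Fin.cons q qv, ?_, ?_, ?_, ?_, ?_⟩
    · rw [Fin.cons_injective_iff]
      refine ⟨?_, hinj⟩
      rintro ⟨i, hi⟩
      exact hS i (by rw [hi]; exact Finset.mem_insert_self q S)
    · intro i
      refine Fin.cases ?_ (fun i => ?_) i
      · exact hqS
      · exact fun h => hS i (Finset.mem_insert_of_mem h)
    · intro i
      refine Fin.cases ?_ (fun i => ?_) i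
      · exact hqTW
      · exact hTW i
    · intro i
      refine Fin.cases ?_ (fun i => ?_) i
      · exact hqin
      · exact hin i
    · intro c hc hloc
      apply hkill c
      · refine ⟨hc, LinearMap.mem_ker.mpr (hΛ1 c ?_)⟩
        exact hloc 0
      · intro i
        exact hloc i.succ

/-- **Taylor–Wiles primes**, matrix form. -/
theorem tw_selection (hp2 : p ≠ 2) {K : Type*} [Field K] [Algebra k K] [IsAlgClosed K]
    {ρ : Gq →* GL (Fin 2) k} (hirr : StrongIrr K ρ)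
    (hρL : ∃ L : IntermediateField ℚ Qb, FiniteDimensional ℚ L ∧
      ∀ σ : Gq, (∀ x ∈ L, σ x = x) → ρ σ = 1)
    (hsplit : ∀ σ, ∃ α β : k, (ρ σ).val.trace = α + β ∧ (ρ σ).val.det = α * β)
    (hdet : ∀ (σ : Gq) (a : ℕ), (∀ μ : Qb, μ ^ p = 1 → σ μ = μ ^ a) → (ρ σ).val.det = (a : k))
    {s : ℕ} {ψ : Fin s → Gq → Matrix (Fin 2) (Fin 2) k}
    (hψ : ∀ j, IsCocyc (ad1.comp ρ) (ψ j)) (htr : ∀ j σ, (ψ j σ).trace = 0)
    (hψL : ∀ j, ∃ F : IntermediateField ℚ Qb, FiniteDimensional ℚ F ∧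
      ∀ g τ : Gq, (∀ x ∈ F, τ x = x) → ψ j (g * τ) = ψ j g)
    (hind : ∀ c : Fin s → k, IsCobound (ad1.comp ρ) (comb ψ c) → c = 0)
    (n : ℕ) (d : ℕ) (hd : s ≤ d) (S : Finset ℕ) :
    ∃ qv : Fin d → ℕ, Function.Injective qv ∧ (∀ i, qv i ∉ S) ∧
      (∀ i, TWPrime ρ (p ^ (n + 1)) (qv i)) ∧
      (∀ i, ∀ P : ValuationSubring Qb, P.LiesOverPrime (qv i) → ∀ τ ∈ P.inertiaSubgroupIn ℚ,
        ∀ j, ψ j τ = 0) ∧
      ∀ c : Fin s → k, (∀ i, LocTriv ρ (comb ψ c) (qv i)) → c = 0 := by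
  have hp : p.Prime := Fact.out
  obtain ⟨L, hLfin, hL⟩ := hρL
  choose F hFfin hF using hψL
  have hne : NeZero (p ^ (n + 1)) := ⟨pow_ne_zero _ hp.ne_zero⟩
  obtain ⟨ζ, hζp⟩ := HasEnoughRootsOfUnity.exists_primitiveRoot Qb (p ^ (n + 1))
  let Fs : IntermediateField ℚ Qb := ⨆ j, F j
  have hFs : FiniteDimensional ℚ Fs := IntermediateField.finiteDimensional_iSup_of_finite
  let Z : IntermediateField ℚ Qb := IntermediateField.adjoin ℚ {ζ}
  have hZ : FiniteDimensional ℚ Z :=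
    IntermediateField.adjoin.finiteDimensional (Algebra.IsIntegral.isIntegral ζ)
  let M₀ : IntermediateField ℚ Qb := L ⊔ (Fs ⊔ Z)
  have hM₀ : FiniteDimensional ℚ M₀ := inferInstance
  let M : IntermediateField ℚ Qb := IntermediateField.normalClosure ℚ M₀ Qb
  have hMfd : FiniteDimensional ℚ M := inferInstance
  have hMno : Normal ℚ M := normalClosure.normal ℚ M₀ Qb
  have hM₀M : M₀ ≤ M := M₀.le_normalClosure
  have hLM : L ≤ M := le_sup_left.trans hM₀M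
  have hFM : ∀ j, F j ≤ M := fun j =>
    ((le_iSup F j).trans (le_sup_left.trans le_sup_right)).trans hM₀M
  have hZM : ζ ∈ M := hM₀M ((le_sup_right.trans le_sup_right : Z ≤ M₀)
    (IntermediateField.mem_adjoin_simple_self ℚ ζ))
  obtain ⟨qv, h1, h2, h3, h4, h5⟩ := select_all p hp2 hirr hsplit hdet M
    (fun σ hσ => hL σ fun x hx => hσ x (hLM hx)) hψ htr
    (fun j g τ hτ => hF j g τ fun x hx => hτ x (hFM j hx)) hind n
    (fun μ hμ => by
      obtain ⟨i, -, rfl⟩ := hζp.eq_pow_of_pow_eq_one hμ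
      exact pow_mem hZM i) d ⊤ (by rw [finrank_top, Module.finrank_fin_fun]; exact hd) S
  exact ⟨qv, h1, h2, h3, h4, fun c hc => h5 c trivial hc⟩

end one

end Fermat.Agent.H6
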