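import Mathlib
import Fermat.Agent.H6MDGroup
import Fermat.Agent.H6TWSelect

/-!
# LT-MOD2, M6: selection of the auxiliary prime
-/

set_option autoImplicit false

open scoped Pointwise
open Matrix

namespace Fermat.Agent.H6.MD

local notation "Qb" => AlgebraicClosure ℚ
local notation "Gq" => (AlgebraicClosure ℚ ≃ₐ[ℚ] AlgebraicClosure ℚ)

local instance isAlgebraicQbMD : Algebra.IsAlgebraic ℚ Qb := AlgebraicClosure.isAlgebraic ℚ
local instance isAlgClosureQbMD : IsAlgClosure ℚ Qb := ⟨inferInstance, inferInstance⟩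
local instance normalQbMD : Normal ℚ Qb := IsAlgClosure.normal ℚ Qb
local instance isGaloisQbMD : IsGalois ℚ Qb := ⟨⟩

section lev

theorem LevC.comp {X Y : Type*} {f : Gq → X} (hf : LevC f) (φ : X → Y) :
    LevC (fun g => φ (f g)) := by
  obtain ⟨F, hF, h⟩ := hf
  exact ⟨F, hF, fun g τ hτ => congrArg φ (h g τ hτ)⟩

theorem LevC.prod {X Y : Type*} {f : Gq → X} (hf : LevC f) {f' : Gq → Y} (hf' : LevC f') :
    LevC (fun g => (f g, f' g)) := by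
  obtain ⟨F, hF, h⟩ := hf
  obtain ⟨F', hF', h'⟩ := hf'
  refine ⟨F ⊔ F', inferInstance, fun g τ hτ => ?_⟩
  show (f (g * τ), f' (g * τ)) = _
  rw [h g τ fun x hx => hτ x ((le_sup_left : F ≤ F ⊔ F') hx),
    h' g τ fun x hx => hτ x ((le_sup_right : F' ≤ F ⊔ F') hx)]

/-- a common normal level -/
theorem LevC.exists_normal {X : Type*} {f : Gq → X} (hf : LevC f) :
    ∃ M : IntermediateField ℚ Qb, FiniteDimensional ℚ M ∧ Normal ℚ M ∧
      ∀ σ τ : Gq, (∀ x ∈ M, σ x = τ x) → f σ = f τ := by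
  obtain ⟨F, hF, h⟩ := hf
  refine ⟨IntermediateField.normalClosure ℚ F Qb, inferInstance, normalClosure.normal ℚ F Qb,
    fun σ τ hστ => ?_⟩
  have h1 : σ = τ * (τ⁻¹ * σ) := by group
  rw [h1]
  apply h
  intro x hx
  rw [AlgEquiv.mul_apply, hστ x (IntermediateField.le_normalClosure F hx)]
  exact τ.symm_apply_apply x

end lev

section select

variable {n : ℕ} {ρ : Gq →* GL (Fin 2) (ZMod (2 ^ n))} {rb : Gq →* GL (Fin 2) (ZMod 2)}

/-- a cocycle which is a coboundary at `x` is one at powers -/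
theorem Coc.cobAt_pow {Γ : Type*} [Group Γ] {rb : Γ →* GL (Fin 2) (ZMod 2)} {J : Type*}
    [AddCommGroup J] [Module (ZMod 2) J] {b : Γ → Fin 2 → J} (hb : Coc rb b) {x : Γ}
    {w : Fin 2 → J} (hx : b x = mv (rb x).val w - w) (k : ℕ) :
    b (x ^ k) = mv (rb (x ^ k)).val w - w := by
  induction k with
  | zero => rw [pow_zero, hb.one, map_one, Units.val_one, mv_one, sub_self]
  | succ k ih =>
    rw [pow_succ, hb, ih, hx, mv_hom_mul]
    simp only [mv_sub]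
    abel

theorem Coc.cobAt_conj {Γ : Type*} [Group Γ] {rb : Γ →* GL (Fin 2) (ZMod 2)} {J : Type*}
    [AddCommGroup J] [Module (ZMod 2) J] {b : Γ → Fin 2 → J} (hb : Coc rb b) {x g : Γ}
    {w : Fin 2 → J} (hx : b (g * x * g⁻¹) = mv (rb (g * x * g⁻¹)).val w - w) :
    ∃ w', b x = mv (rb x).val w' - w' := by
  refine ⟨mv (rb g⁻¹).val (w + b g), ?_⟩
  have h1 : x = g⁻¹ * (g * x * g⁻¹) * g := by group
  have h2 : b x = b g⁻¹ + mv (rb g⁻¹).val (b (g * x * g⁻¹)) +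
      mv (rb (g⁻¹ * (g * x * g⁻¹))).val (b g) := by
    conv_lhs => rw [h1]
    rw [hb, hb g⁻¹]
  have h3 : b g⁻¹ = - mv (rb g⁻¹).val (b g) := by rw [hb.inv, map_inv]
  rw [h2, h3, hx, mv_sub, ← mv_hom_mul, ← mv_hom_mul]
  have h4 : g⁻¹ * (g * x * g⁻¹) = x * g⁻¹ := by group
  rw [h4]
  simp only [mv_add, mv_hom_mul]
  abel

theorem exists_not_range (g : GL (Fin 2) (ZMod 2)) (h1 : g ≠ 1) (h2 : g * g = 1) :
    ∃ t : V2, ∀ w : V2, mv g.val w - w ≠ t := by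
  revert g
  simp only [mv_eq_mulVec]
  decide

theorem exists_map_eq {v v' : V2} (hv : v ≠ 0) (hv' : v' ≠ 0) :
    ∃ g : GL (Fin 2) (ZMod 2), mv g.val v = v' := by
  revert v v'
  simp only [mv_eq_mulVec]
  decide

/-- the values of a cocycle on `ker ρ` -/
theorem Coc.surj_on_ker {b : Gq → V2} (hb : Coc rb b) (hsurj : Function.Surjective rb)
    (hρr : ∀ g, ρ g = 1 → rb g = 1) {x₀ : Gq} (hx₀ : ρ x₀ = 1) (hbx₀ : b x₀ ≠ 0) (v : V2) :
    ∃ x, ρ x = 1 ∧ b x = v := by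
  by_cases hv : v = 0
  · exact ⟨1, map_one _, by rw [hb.one, hv]⟩
  · obtain ⟨γ, hγ⟩ := exists_map_eq hbx₀ hv
    obtain ⟨g, rfl⟩ := hsurj γ
    refine ⟨g * x₀ * g⁻¹, ?_, ?_⟩
    · rw [map_mul, map_mul, hx₀, mul_one, map_inv, mul_inv_cancel]
    · rw [hb.conj g (hρr _ hx₀), hγ]

/-- **(D2)** selection of the auxiliary prime -/
theorem exists_aux_prime (hn : n ≠ 0)
    (hred : ∀ g i j, (rb g).val i j = red2 hn ((ρ g).val i j)) (hsurj : Function.Surjective rb)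
    (hρ : LevC ρ)
    (hdet : ∀ (σ : Gq) (a : ℕ), (∀ μ : Qb, μ ^ 2 ^ n = 1 → σ μ = μ ^ a) →
      (ρ σ).val.det = (a : ZMod (2 ^ n)))
    {c : Gq} (hc2 : c * c = 1) (hc1 : rb c ≠ 1) (hcdet : (ρ c).val.det = -1)
    {b : Gq → V2} (hb : Coc rb b) (hbl : LevC b) {x₀ : Gq} (hx₀ : ρ x₀ = 1) (hbx₀ : b x₀ ≠ 0)
    (S : Finset ℕ) :
    ∃ q : ℕ, q.Prime ∧ q ∉ S ∧ 2 ^ n ∣ q + 1 ∧
      (∀ P : ValuationSubring Qb, P.LiesOverPrime q → ∀ τ ∈ P.inertiaSubgroupIn ℚ,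
        ρ τ = 1 ∧ b τ = 0) ∧
      (∀ P : ValuationSubring Qb, P.LiesOverPrime q → ∀ φ : Gq, P.IsFrobeniusAt φ q →
        (∃ g, ρ φ = ρ (g * c * g⁻¹)) ∧ ∀ w, b φ ≠ mv (rb φ).val w - w) := by
  have hρr : ∀ g, ρ g = 1 → rb g = 1 := by
    intro g hg
    apply Units.ext
    ext i j
    rw [hred, hg, Units.val_one, Units.val_one, Matrix.one_apply, Matrix.one_apply]
    split_ifs <;> simp
  obtain ⟨t, ht⟩ := exists_not_range (rb c) hc1 (by rw [← map_mul, hc2, map_one])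
  obtain ⟨x, hx1, hx2⟩ := hb.surj_on_ker hsurj hρr hx₀ hbx₀ (t - b c)
  set σ := x * c with hσ
  have hρσ : ρ σ = ρ c := by rw [hσ, map_mul, hx1, one_mul]
  have hbσ : ∀ w, b σ ≠ mv (rb σ).val w - w := by
    intro w
    have h1 : rb σ = rb c := by rw [hσ, map_mul, hρr x hx1, one_mul]
    rw [h1, hσ, hb.mul_of_ker (hρr x hx1), hx2, sub_add_cancel]
    exact fun h => ht w h.symm
  obtain ⟨M, hMf, hMn, hM⟩ := (hρ.prod hbl).exists_normal
  have hMρ : ∀ σ τ : Gq, (∀ x ∈ M, σ x = τ x) → ρ σ = ρ τ := fun σ τ h =>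
    congrArg Prod.fst (hM σ τ h)
  have hMb : ∀ σ τ : Gq, (∀ x ∈ M, σ x = τ x) → b σ = b τ := fun σ τ h =>
    congrArg Prod.snd (hM σ τ h)
  obtain ⟨q, hq, hqS, hin, A, φ, hA, hφ, ⟨j, hj⟩, ⟨i, hi⟩, hall⟩ := good_prime M σ (S ∪ {2})
  rw [Finset.mem_union, Finset.mem_singleton, not_or] at hqS
  obtain ⟨hqS, hq2⟩ := hqS
  -- `ρ φ = ρ c`
  have hφc : ρ φ = ρ c := by
    have h1 : ρ φ = ρ c ^ i := by rw [hMρ _ _ hi, map_pow, hρσ]
    have h2 : ρ c = ρ φ ^ j := by rw [← hρσ, hMρ _ _ hj, map_pow]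
    have hcc : ρ c * ρ c = 1 := by rw [← map_mul, hc2, map_one]
    rcases Nat.even_or_odd' i with ⟨k, hk | hk⟩
    · exfalso
      have h3 : ρ φ = 1 := by rw [h1, hk, pow_mul, pow_two, hcc, one_pow]
      rw [h3, one_pow] at h2
      exact hc1 (hρr c h2)
    · rw [h1, hk, pow_succ, pow_mul, pow_two, hcc, one_pow, one_mul]
  have hbφ : ∀ w, b φ ≠ mv (rb φ).val w - w := by
    intro w hw
    have h1 := hb.cobAt_pow hw j
    have h2 : b σ = b (φ ^ j) := hMb _ _ hj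
    have h3 : rb σ = rb (φ ^ j) := by
      apply Units.ext
      ext k l
      rw [hred, hred, hMρ _ _ hj]
    rw [← h2, ← h3] at h1
    exact hbσ w h1
  refine ⟨q, hq, hqS, ?_, fun P hP τ hτ => ⟨?_, ?_⟩, fun P hP φ' hφ' => ?_⟩
  · have hnd : ¬ q ∣ 2 ^ n := fun h =>
      hq2 ((Nat.prime_dvd_prime_iff_eq hq Nat.prime_two).mp (hq.dvd_of_dvd_pow h))
    have h1 := hdet φ q (fun μ hμ => H86.frobenius_apply_rootsOfUnity hq hA hφ hnd hμ)
    rw [hφc, hcdet] at h1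
    rw [← ZMod.natCast_eq_zero_iff]
    push_cast at h1 ⊢
    rw [← h1]; ring
  · have := hMρ τ 1 (fun x hx => by rw [hin P hP τ hτ x hx]; rfl)
    rw [this, map_one]
  · have := hMb τ 1 (fun x hx => by rw [hin P hP τ hτ x hx]; rfl)
    rw [this, hb.one]
  · obtain ⟨g, hg⟩ := hall P hP φ' hφ'
    refine ⟨⟨g, ?_⟩, fun w hw => ?_⟩
    · rw [hMρ _ _ hg, map_mul, map_mul, hφc, ← map_mul, ← map_mul]
    · have h3 : rb φ' = rb (g * φ * g⁻¹) := by
        apply Units.ext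
        ext k l
        rw [hred, hred, hMρ _ _ hg]
      rw [hMb _ _ hg, h3] at hw
      obtain ⟨w', hw'⟩ := hb.cobAt_conj hw
      exact hbφ w' hw'

end select

end Fermat.Agent.H6.MD
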