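import Mathlib
import Fermat.Agent.H6MDSelect
import Fermat.Agent.H63Hermite

/-!
# LT-MOD2, M6: killing the Selmer group by auxiliary primes
-/

set_option autoImplicit false

open scoped Pointwise
open Matrix

namespace Fermat.Agent.H6.MD

local notation "Qb" => AlgebraicClosure ℚ
local notation "Gq" => (AlgebraicClosure ℚ ≃ₐ[ℚ] AlgebraicClosure ℚ)

local instance isAlgebraicQbMD2 : Algebra.IsAlgebraic ℚ Qb := AlgebraicClosure.isAlgebraic ℚ
local instance isAlgClosureQbMD2 : IsAlgClosure ℚ Qb := ⟨inferInstance, inferInstance⟩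
local instance normalQbMD2 : Normal ℚ Qb := IsAlgClosure.normal ℚ Qb
local instance isGaloisQbMD2 : IsGalois ℚ Qb := ⟨⟩

section finite

variable {rb : Gq →* GL (Fin 2) (ZMod 2)}

theorem isOpen_of_levC (U : Subgroup Gq) {F : IntermediateField ℚ Qb} [FiniteDimensional ℚ F]
    (h : ∀ τ : Gq, (∀ x ∈ F, τ x = x) → τ ∈ U) : IsOpen (U : Set Gq) := by
  apply Subgroup.isOpen_mono (H₁ := F.fixingSubgroup)
  · intro τ hτ
    rw [IntermediateField.mem_fixingSubgroup_iff] at hτ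
    exact h τ hτ
  · exact IntermediateField.fixingSubgroup_isOpen F

theorem finite_quot (F : IntermediateField ℚ Qb) [FiniteDimensional ℚ F] :
    Finite (Gq ⧸ F.fixingSubgroup) :=
  Subgroup.quotient_finite_of_isOpen _ (IntermediateField.fixingSubgroup_isOpen F)

/-- **Finiteness of the Selmer set.** -/
theorem finite_sel {S : Finset ℕ} (hS : ∀ ℓ ∈ S, ℓ.Prime) (hrb : LevC rb)
    (hunr : ∀ ℓ : ℕ, ℓ.Prime → ℓ ∉ S → ∀ P : ValuationSubring Qb, P.LiesOverPrime ℓ →
      ∀ τ ∈ P.inertiaSubgroupIn ℚ, rb τ = 1) :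
    {b : Gq → V2 | Sel rb S b}.Finite := by
  classical
  obtain ⟨W, hWo, hWn, hWI, hW⟩ := H63.exists_open_normal_le (L := Qb) S hS
    (Nat.card (GL (Fin 2) (ZMod 2) × V2))
  -- a finite level inside `W`
  obtain ⟨F, hF, hFW⟩ : ∃ F : IntermediateField ℚ Qb, FiniteDimensional ℚ F ∧
      F.fixingSubgroup ≤ W := by
    have h1 : (W : Set Gq) ∈ nhds (1 : Gq) := hWo.mem_nhds W.one_mem
    obtain ⟨F, hF, h2⟩ := (krullTopology_mem_nhds_one_iff ℚ Qb (W : Set Gq)).mp h1
    exact ⟨F, hF, h2⟩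
  have hkey : ∀ b : Gq → V2, Sel rb S b → ∀ τ ∈ F.fixingSubgroup, b τ = 0 := by
    intro b hb τ hτ
    have hUo : IsOpen ((hb.coc.ker : Subgroup Gq) : Set Gq) := by
      obtain ⟨M, hMf, hMn, hM⟩ := (hrb.prod hb.lev).exists_normal
      refine isOpen_of_levC _ (F := M) fun σ hσ => ?_
      have h1 := hM σ 1 (fun x hx => by rw [hσ x hx]; rfl)
      have h2 : rb σ = rb 1 := congrArg Prod.fst h1
      have h3 : b σ = b 1 := congrArg Prod.snd h1
      exact ⟨by rw [h2, map_one], by rw [h3, hb.coc.one]⟩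
    have hidx : (hb.coc.ker : Subgroup Gq).index ≤ Nat.card (GL (Fin 2) (ZMod 2) × V2) := by
      let Φ : Gq ⧸ (hb.coc.ker : Subgroup Gq) → GL (Fin 2) (ZMod 2) × V2 :=
        Quotient.lift (fun g => (rb g, b g)) (by
          intro x y hxy
          have h1 : x⁻¹ * y ∈ (hb.coc.ker : Subgroup Gq) := QuotientGroup.leftRel_apply.mp hxy
          have h2 : y = x * (x⁻¹ * y) := by group
          show (rb x, b x) = (rb y, b y)
          rw [h2, map_mul, h1.1, mul_one, hb.coc.mul_of_zero _ h1.2])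
      have hΦ : Function.Injective Φ := by
        intro x y
        induction x using QuotientGroup.induction_on with
        | H x =>
          induction y using QuotientGroup.induction_on with
          | H y =>
            intro h
            have h1 : (rb x, b x) = (rb y, b y) := h
            have h2 : rb x = rb y := congrArg Prod.fst h1
            have h3 : b x = b y := congrArg Prod.snd h1
            rw [QuotientGroup.eq]
            refine ⟨by rw [map_mul, map_inv, h2, inv_mul_cancel], ?_⟩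
            rw [hb.coc, hb.coc.inv, map_inv, ← h3]
            exact neg_add_cancel _
      exact Nat.card_le_card_of_injective Φ hΦ
    refine ((hW _ hUo hidx ?_) (hFW hτ)).2
    intro q hq hqS A hA σ hσ
    exact ⟨hunr q hq hqS A hA σ hσ, hb.unr q hq hqS A hA σ hσ⟩
  have hfq := finite_quot F
  have hfin : Finite ((Gq ⧸ F.fixingSubgroup) → V2) := inferInstance
  let Ψ : {b : Gq → V2 | Sel rb S b} → ((Gq ⧸ F.fixingSubgroup) → V2) := fun b x =>
    b.1 (Quotient.out x)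
  have hΨ : Function.Injective Ψ := by
    rintro ⟨b, hb⟩ ⟨b', hb'⟩ h
    apply Subtype.ext
    funext g
    have h1 : ∀ (b : Gq → V2), Sel rb S b → b (Quotient.out (g : Gq ⧸ F.fixingSubgroup)) = b g := by
      intro b hb
      obtain ⟨τ, hτ⟩ := QuotientGroup.mk_out_eq_mul F.fixingSubgroup g
      rw [hτ, hb.coc.mul_of_zero g (hkey b hb τ τ.2)]
    have h2 := congrFun h (g : Gq ⧸ F.fixingSubgroup)
    change b _ = b' _ at h2
    rw [h1 b hb, h1 b' hb'] at h2
    exact h2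
  have : Finite {b : Gq → V2 | Sel rb S b} := Finite.of_injective Ψ hΨ
  exact Set.toFinite _

end finite

section decrease

variable {rb : Gq →* GL (Fin 2) (ZMod 2)}

theorem exists_sub_of_fixed (g : GL (Fin 2) (ZMod 2)) (h1 : g ≠ 1) (h2 : g * g = 1) {v : V2}
    (hv : mv g.val v = v) : ∃ w : V2, mv g.val w - w = v := by
  have key : ∀ (g : GL (Fin 2) (ZMod 2)), g ≠ 1 → g * g = 1 → ∀ v : V2, (g.val *ᵥ v ≠ v ∨
      ∃ w : V2, g.val *ᵥ w - w = v) := by decide
  simp only [mv_eq_mulVec] at hv ⊢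
  exact (key g h1 h2 v).resolve_left (fun h => h hv)

/-- **(D3)** the Selmer set decreases. -/
theorem sel_ssubset {S : Finset ℕ} {q : ℕ} (hq : q.Prime) (hqS : q ∉ S) (hR : Recip rb S q)
    (hrbq : ∀ P : ValuationSubring Qb, P.LiesOverPrime q → ∀ φ : Gq, P.IsFrobeniusAt φ q →
      rb φ ≠ 1 ∧ rb φ * rb φ = 1)
    {b : Gq → V2} (hb : Sel rb S b)
    (hbq : ∀ P : ValuationSubring Qb, P.LiesOverPrime q → ∀ φ : Gq, P.IsFrobeniusAt φ q →
      ∀ w, b φ ≠ mv (rb φ).val w - w) :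
    {b : Gq → V2 | Sel rb (insert q S) b} ⊂ {b : Gq → V2 | Sel rb S b} := by
  classical
  rw [Set.ssubset_iff_of_subset]
  · refine ⟨b, hb, fun hb' => ?_⟩
    obtain ⟨P, hP⟩ := H54.exists_liesOverPrime hq
    obtain ⟨φ, hφ⟩ := H54.exists_isFrobeniusAt hq hP
    obtain ⟨h1, h2⟩ := hrbq P hP φ hφ
    obtain ⟨w, hw⟩ := Sel.inL hb' q (Finset.mem_insert_self q S) P hP
    have h3 := hw φ hφ.mem_decompositionSubgroup φ hφ.mem_decompositionSubgroup
    obtain ⟨w', hw'⟩ := exists_sub_of_fixed (rb φ) h1 h2 h3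
    apply hbq P hP φ hφ (w + w')
    rw [mv_add]
    have h4 : b φ = (mv (rb φ).val w' - w') + (mv (rb φ).val w - w) := by rw [hw']; abel
    rw [h4]; abel
  · intro b' hb'
    have h1 : ∀ P : ValuationSubring Qb, P.LiesOverPrime q → UnrAt P b' := by
      refine hR b b' hb.coc (Sel.coc hb') hb.lev (Sel.lev hb') ?_ ?_ ?_ hbq
      · intro ℓ hℓ hℓS hℓq P hP
        refine ⟨hb.unr ℓ hℓ hℓS P hP, Sel.unr hb' ℓ hℓ ?_ P hP⟩
        rw [Finset.mem_insert, not_or]
        exact ⟨hℓq, hℓS⟩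
      · intro ℓ hℓ P hP
        exact ⟨hb.inL ℓ hℓ P hP, Sel.inL hb' ℓ (Finset.mem_insert_of_mem hℓ) P hP⟩
      · intro P hP
        exact ⟨hb.unr q hq hqS P hP, Sel.inL hb' q (Finset.mem_insert_self q S) P hP⟩
    refine ⟨Sel.coc hb', Sel.lev hb', fun ℓ hℓ hℓS P hP => ?_, fun ℓ hℓ P hP =>
      Sel.inL hb' ℓ (Finset.mem_insert_of_mem hℓ) P hP⟩
    by_cases h : ℓ = q
    · subst h; exact h1 P hP
    · exact Sel.unr hb' ℓ hℓ (by rw [Finset.mem_insert, not_or]; exact ⟨h, hℓS⟩) P hP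

/-- The squares of elements of decomposition groups acting by transvections are killed. -/
theorem Sel.sq_eq_zero {S : Finset ℕ} {b : Gq → V2} (hb : Sel rb S b) {ℓ : ℕ} (hℓ : ℓ ∈ S)
    {P : ValuationSubring Qb} (hP : P.LiesOverPrime ℓ) {u : Gq}
    (hu : u ∈ P.decompositionSubgroup ℚ) (hu2 : rb u * rb u = 1) : b (u ^ 2) = 0 := by
  obtain ⟨w, hw⟩ := hb.inL ℓ hℓ P hP
  have h1 := hw u hu u hu
  have h2 : b u = (b u - (mv (rb u).val w - w)) + (mv (rb u).val w - w) := by abel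
  have h3 : mv (rb u).val (mv (rb u).val w) = w := by
    rw [← mv_mul, ← Units.val_mul, hu2, Units.val_one, mv_one]
  rw [pow_two, hb.coc]
  have h4 : mv (rb u).val (b u) = (b u - (mv (rb u).val w - w)) + (w - mv (rb u).val w) := by
    conv_lhs => rw [h2]
    rw [mv_add, h1, mv_sub, h3]
  rw [h4]
  funext i
  simp only [Pi.add_apply, Pi.sub_apply, Pi.zero_apply]
  have h5 : ∀ x y z : ZMod 2, x + (x - (y - z) + (z - y)) = 0 := by decide
  exact h5 _ _ _

end decrease

section main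

variable {n : ℕ} (ρ : Gq →* GL (Fin 2) (ZMod (2 ^ n))) (c : Gq)

/-- The auxiliary primes: `q ≡ -1 mod 2ⁿ`, unramified, Frobenius acting as complex
conjugation. -/
structure GoodPrime (q : ℕ) : Prop where
  prime : q.Prime
  dvd : 2 ^ n ∣ q + 1
  unr : ∀ P : ValuationSubring Qb, P.LiesOverPrime q → ∀ τ ∈ P.inertiaSubgroupIn ℚ, ρ τ = 1
  frob : ∀ P : ValuationSubring Qb, P.LiesOverPrime q → ∀ φ : Gq, P.IsFrobeniusAt φ q →
    ∃ g, ρ φ = ρ (g * c * g⁻¹)

variable {ρ c}

/-- **Step D**: there is a finite set `Q` of auxiliary primes killing the Selmer group. -/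
theorem exists_killing_set {rb : Gq →* GL (Fin 2) (ZMod 2)} (hn : n ≠ 0)
    (hred : ∀ g i j, (rb g).val i j = red2 hn ((ρ g).val i j)) (hsurj : Function.Surjective rb)
    (hρ : LevC ρ)
    (hdet : ∀ (σ : Gq) (a : ℕ), (∀ μ : Qb, μ ^ 2 ^ n = 1 → σ μ = μ ^ a) →
      (ρ σ).val.det = (a : ZMod (2 ^ n)))
    (hc2 : c * c = 1) (hc1 : rb c ≠ 1) (hcdet : (ρ c).val.det = -1)
    {S : Finset ℕ} (hS : ∀ ℓ ∈ S, ℓ.Prime)
    (hunr : ∀ ℓ : ℕ, ℓ.Prime → ℓ ∉ S → ∀ P : ValuationSubring Qb, P.LiesOverPrime ℓ →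
      ∀ τ ∈ P.inertiaSubgroupIn ℚ, rb τ = 1)
    {v : ℕ} (hv : v ∈ S) {P₀ : ValuationSubring Qb} (hP₀ : P₀.LiesOverPrime v) {u : Gq}
    (huP : u ∈ P₀.decompositionSubgroup ℚ) {a : ZMod (2 ^ n)} (ha : IsUnit a)
    (A : GL (Fin 2) (ZMod (2 ^ n))) (hu : ρ u = A * Up a * A⁻¹)
    (hR : ∀ Q : Finset ℕ, Disjoint Q S → (∀ q ∈ Q, GoodPrime ρ c q) → ∀ q : ℕ,
      GoodPrime ρ c q → q ∉ S ∪ Q → Recip rb (S ∪ Q) q) (S₀ : Finset ℕ) :
    ∃ Q : Finset ℕ, Disjoint Q (S ∪ S₀) ∧ (∀ q ∈ Q, GoodPrime ρ c q) ∧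
      Q.card ≤ {b : Gq → V2 | Sel rb S b}.ncard ∧ SelZero rb (S ∪ Q) := by
  classical
  have hrbm : ∀ g, rb g = Matrix.GeneralLinearGroup.map (red2 hn) (ρ g) := by
    intro g
    apply Units.ext
    ext i j
    rw [hred]; rfl
  have hρr : ∀ g, ρ g = 1 → rb g = 1 := by
    intro g hg
    rw [hrbm, hg, map_one]
  have hrbl : LevC rb := by
    have h1 := hρ.comp (fun x => Matrix.GeneralLinearGroup.map (red2 hn) x)
    have h2 : (rb : Gq → _) = fun g => Matrix.GeneralLinearGroup.map (red2 hn) (ρ g) :=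
      funext hrbm
    rw [h2]; exact h1
  have hu2 : rb u * rb u = 1 := by
    have h2 : red2 hn 2 = 0 := by rw [map_ofNat]; decide
    have h3 : ρ (u * u) = A * Up (2 * a) * A⁻¹ := by
      rw [map_mul, hu]
      have : A * Up a * A⁻¹ * (A * Up a * A⁻¹) = A * (Up a * Up a) * A⁻¹ := by group
      rw [this, Up_mul, two_mul]
    have h4 : Matrix.GeneralLinearGroup.map (red2 hn) (Up (2 * a)) = 1 := by
      apply Units.ext
      ext i j
      show red2 hn ((Up (2 * a)).val i j) = _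
      fin_cases i <;> fin_cases j <;> simp [h2]
    rw [← map_mul, hrbm, h3, map_mul, map_mul, h4, mul_one, map_inv, mul_inv_cancel]
  have hgood : ∀ q, GoodPrime ρ c q → ∀ P : ValuationSubring Qb, P.LiesOverPrime q →
      ∀ φ : Gq, P.IsFrobeniusAt φ q → rb φ ≠ 1 ∧ rb φ * rb φ = 1 := by
    intro q hq P hP φ hφ
    obtain ⟨g, hg⟩ := hq.frob P hP φ hφ
    have h1 : rb φ = rb (g * c * g⁻¹) := by rw [hrbm, hg, ← hrbm]
    have h2 : rb c * rb c = 1 := by rw [← map_mul, hc2, map_one]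
    rw [h1, map_mul, map_mul, map_inv]
    constructor
    · intro h
      apply hc1
      rw [mul_inv_eq_one, mul_eq_left] at h
      exact h
    · have : rb g * rb c * (rb g)⁻¹ * (rb g * rb c * (rb g)⁻¹) =
          rb g * (rb c * rb c) * (rb g)⁻¹ := by group
      rw [this, h2, mul_one, mul_inv_cancel]
  -- the induction
  suffices H : ∀ (N : ℕ) (Q₁ : Finset ℕ), Disjoint Q₁ (S ∪ S₀) → (∀ q ∈ Q₁, GoodPrime ρ c q) →
      {b : Gq → V2 | Sel rb (S ∪ Q₁) b}.ncard ≤ N →
      ∃ Q : Finset ℕ, Disjoint Q (S ∪ S₀) ∧ (∀ q ∈ Q, GoodPrime ρ c q) ∧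
        Q.card ≤ Q₁.card + N ∧ SelZero rb (S ∪ Q) by
    obtain ⟨Q, h1, h2, h3, h4⟩ := H _ ∅ (Finset.disjoint_empty_left _) (by simp) le_rfl
    refine ⟨Q, h1, h2, ?_, h4⟩
    rwa [Finset.card_empty, zero_add, Finset.union_empty] at h3
  intro N
  induction N with
  | zero =>
    intro Q₁ hd hg hN
    exfalso
    have hunr' : ∀ ℓ : ℕ, ℓ.Prime → ℓ ∉ S ∪ Q₁ → ∀ P : ValuationSubring Qb, P.LiesOverPrime ℓ →
        ∀ τ ∈ P.inertiaSubgroupIn ℚ, rb τ = 1 := fun ℓ hℓ hℓS =>
      hunr ℓ hℓ (fun h => hℓS (Finset.mem_union_left _ h))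
    have hfin := finite_sel (rb := rb) (S := S ∪ Q₁) (by
      intro ℓ hℓ
      rcases Finset.mem_union.mp hℓ with h | h
      · exact hS ℓ h
      · exact (hg ℓ h).prime) hrbl hunr'
    have h0 : Sel rb (S ∪ Q₁) (0 : Gq → V2) := by
      refine ⟨fun g h => by simp, ⟨⊥, inferInstance, fun g τ _ => rfl⟩, fun _ _ _ _ _ _ _ => rfl,
        fun _ _ _ _ => ⟨0, fun g _ h _ => by simp⟩⟩
    have h1 := (Set.ncard_eq_zero hfin).mp (Nat.le_zero.mp hN)
    have h2 : (0 : Gq → V2) ∈ {b : Gq → V2 | Sel rb (S ∪ Q₁) b} := h0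
    rw [h1] at h2
    exact h2
  | succ N ih =>
    intro Q₁ hd hg hN
    by_cases hz : SelZero rb (S ∪ Q₁)
    · exact ⟨Q₁, hd, hg, by omega, hz⟩
    · unfold SelZero at hz
      push Not at hz
      obtain ⟨b, hb, hbc⟩ := hz
      have hunr' : ∀ ℓ : ℕ, ℓ.Prime → ℓ ∉ S ∪ Q₁ → ∀ P : ValuationSubring Qb,
          P.LiesOverPrime ℓ → ∀ τ ∈ P.inertiaSubgroupIn ℚ, rb τ = 1 := fun ℓ hℓ hℓS =>
        hunr ℓ hℓ (fun h => hℓS (Finset.mem_union_left _ h))
      have hfin := finite_sel (rb := rb) (S := S ∪ Q₁) (by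
        intro ℓ hℓ
        rcases Finset.mem_union.mp hℓ with h | h
        · exact hS ℓ h
        · exact (hg ℓ h).prime) hrbl hunr'
      -- `b` is ramified over the level of `ρ`
      obtain ⟨x₀, hx₀, hbx₀⟩ : ∃ x₀, ρ x₀ = 1 ∧ b x₀ ≠ 0 := by
        by_contra hcon
        push Not at hcon
        apply hbc
        exact hb.coc.cob_of_inflated hn hred hsurj hcon ha A hu
          (hb.sq_eq_zero (Finset.mem_union_left _ hv) hP₀ huP hu2)
      obtain ⟨q, hq, hqS, hqd, hqI, hqF⟩ := exists_aux_prime hn hred hsurj hρ hdet hc2 hc1 hcdet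
        hb.coc hb.lev hx₀ hbx₀ ((S ∪ S₀) ∪ Q₁)
      have hqgood : GoodPrime ρ c q :=
        ⟨hq, hqd, fun P hP τ hτ => (hqI P hP τ hτ).1, fun P hP φ hφ => (hqF P hP φ hφ).1⟩
      rw [Finset.mem_union, not_or] at hqS
      obtain ⟨hqS, hqQ⟩ := hqS
      have hqSQ : q ∉ S ∪ Q₁ := by
        rw [Finset.mem_union, not_or]
        exact ⟨fun h => hqS (Finset.mem_union_left _ h), hqQ⟩
      have hdS : Disjoint Q₁ S := hd.mono_right (Finset.subset_union_left)
      have hlt := sel_ssubset hq hqSQ (hR Q₁ hdS hg q hqgood hqSQ) (hgood q hqgood) hb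
        (fun P hP φ hφ => (hqF P hP φ hφ).2)
      have hcard := Set.ncard_lt_ncard hlt hfin
      have hins : insert q (S ∪ Q₁) = S ∪ insert q Q₁ := by
        rw [Finset.union_insert]
      rw [hins] at hcard
      obtain ⟨Q, h1, h2, h3, h4⟩ := ih (insert q Q₁) (by
        rw [Finset.disjoint_insert_left]; exact ⟨hqS, hd⟩) (by
        intro q' hq'
        rcases Finset.mem_insert.mp hq' with rfl | h
        · exact hqgood
        · exact hg q' h) (by omega)
      refine ⟨Q, h1, h2, ?_, h4⟩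
      rw [Finset.card_insert_of_notMem hqQ] at h3
      omega

end main

section coeff

variable {rb : Gq →* GL (Fin 2) (ZMod 2)}

/-- Vanishing of the Selmer group with arbitrary coefficients `V ⊗ J`. -/
theorem SelZero.cob {S : Finset ℕ} (h : SelZero rb S) (hsurj : Function.Surjective rb)
    {J : Type*} [AddCommGroup J] [Module (ZMod 2) J] {b : Gq → Fin 2 → J} (hb : Sel rb S b) :
    Cob rb b := by
  obtain ⟨g₀, hg₀⟩ := hsurj T3
  obtain ⟨w, hw⟩ := exists_T3_sub (b g₀)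
  refine ⟨w, fun g => ?_⟩
  have hlin : ∀ (lam : J →ₗ[ZMod 2] ZMod 2) (A : Matrix (Fin 2) (Fin 2) (ZMod 2))
      (v : Fin 2 → J), (fun i => lam (mv A v i)) = mv A (fun i => lam (v i)) := by
    intro lam A v
    funext i
    simp only [mv_apply, map_sum, map_smul]
  have key : ∀ lam : J →ₗ[ZMod 2] ZMod 2, ∀ i, lam (b g i) = lam ((mv (rb g).val w - w) i) := by
    intro lam
    have hs : Sel rb S (fun g i => lam (b g i)) := by
      refine ⟨fun g h => ?_, hb.lev.comp (fun v i => lam (v i)), fun ℓ hℓ hℓS P hP τ hτ => ?_,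
        fun ℓ hℓ P hP => ?_⟩
      · funext i
        show lam (b (g * h) i) = _
        rw [hb.coc, Pi.add_apply, map_add, Pi.add_apply]
        congr 1
        exact congrFun (hlin lam _ _) i
      · funext i
        show lam (b τ i) = 0
        rw [hb.unr ℓ hℓ hℓS P hP τ hτ, Pi.zero_apply, map_zero]
      · obtain ⟨w', hw'⟩ := hb.inL ℓ hℓ P hP
        refine ⟨fun i => lam (w' i), fun x hx y hy => ?_⟩
        have h1 := hw' x hx y hy
        have h2 : ((fun i => lam (b x i)) - (mv (rb x).val (fun i => lam (w' i)) -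
            fun i => lam (w' i))) = fun i => lam ((b x - (mv (rb x).val w' - w')) i) := by
          funext i
          rw [← hlin]
          simp only [Pi.sub_apply, map_sub]
        rw [h2, ← hlin, h1]
    obtain ⟨w', hw'⟩ := h _ hs
    have h1 : (fun i => lam (w i)) = w' := by
      have h2 := hw' g₀
      rw [hg₀] at h2
      have h3 : (fun i => lam (b g₀ i)) = mv T3.val (fun i => lam (w i)) - fun i => lam (w i) := by
        rw [← hw]
        funext i
        rw [← hlin]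
        simp only [Pi.sub_apply, map_sub]
      have h2' : (fun i => lam (b g₀ i)) = mv T3.val w' - w' := h2
      rw [h3] at h2'
      have h4 : mv T3.val ((fun i => lam (w i)) - w') = (fun i => lam (w i)) - w' := by
        rw [mv_sub]
        rw [sub_eq_sub_iff_add_eq_add] at h2' ⊢
        rw [h2']; abel
      exact sub_eq_zero.mp (eq_zero_of_T3 h4)
    intro i
    have h5 := congrFun (hw' g) i
    rw [← h1] at h5
    have h6 : lam (b g i) = (mv (rb g).val (fun i => lam (w i)) - fun i => lam (w i)) i := h5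
    rw [h6, ← hlin]
    simp only [Pi.sub_apply, map_sub]
  funext i
  by_contra hne
  have h1 : b g i - (mv (rb g).val w - w) i ≠ 0 := sub_ne_zero.mpr hne
  obtain ⟨lam, hlam⟩ := Module.Projective.exists_dual_ne_zero (ZMod 2) h1
  exact hlam (by rw [map_sub, key lam i, sub_self])

end coeff

end Fermat.Agent.H6.MD
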