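import Mathlib
import Fermat.Prelude.Def_GaloisRep_ComplexConjugation
import Fermat.Agent.H6MDDefs

/-!
# LT-MOD2, M6: the exact reciprocity statement (to be proved by helper54)
-/

set_option autoImplicit false

namespace Fermat.Agent.H6.MD

local notation "Qb" => AlgebraicClosure ℚ
local notation "Gq" => (AlgebraicClosure ℚ ≃ₐ[ℚ] AlgebraicClosure ℚ)

/-- Everything which is known when reciprocity is used. -/
structure RecHyp (rb : Gq →* GL (Fin 2) (ZMod 2)) (S : Finset ℕ) (q : ℕ) : Prop where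
  surj : Function.Surjective rb
  lev : LevC rb
  conj : rb complexConjugation ≠ 1
  primes : ∀ ℓ ∈ S, ℓ.Prime
  two : 2 ∈ S
  unr : ∀ ℓ : ℕ, ℓ.Prime → ℓ ∉ S → ∀ P : ValuationSubring Qb, P.LiesOverPrime ℓ →
    ∀ τ ∈ P.inertiaSubgroupIn ℚ, rb τ = 1
  line : ∀ ℓ ∈ S, ∀ P : ValuationSubring Qb, P.LiesOverPrime ℓ →
    ∃ v : V2, v ≠ 0 ∧ ∀ g ∈ P.decompositionSubgroup ℚ, mv (rb g).val v = v
  ntriv : ∀ ℓ ∈ S, ∀ P : ValuationSubring Qb, P.LiesOverPrime ℓ →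
    ∃ τ ∈ P.decompositionSubgroup ℚ, rb τ ≠ 1
  prime : q.Prime
  notMem : q ∉ S
  eight : 8 ∣ q + 1
  frob : ∀ P : ValuationSubring Qb, P.LiesOverPrime q → ∀ φ : Gq, P.IsFrobeniusAt φ q →
    rb φ ≠ 1 ∧ rb φ * rb φ = 1

/-- The reciprocity statement needed for `BlockM6`. -/
def RecipStatement : Prop :=
  ∀ (rb : Gq →* GL (Fin 2) (ZMod 2)) (S : Finset ℕ) (q : ℕ), RecHyp rb S q → Recip rb S q

end Fermat.Agent.H6.MD
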