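import Mathlib
import Fermat.Agent.H6MDFinal
import Fermat.Agent.H6MDRec
import Fermat.Agent.H46LTDefs
import Fermat.Agent.H61GenFrob
import Fermat.Agent.H87Res
import Fermat.Agent.H53Tame1

/-!
# LT-MOD2, M6: the block statement `BlockM6`
-/

set_option autoImplicit false

open scoped Pointwise
open Matrix
open Fermat.Agent.H53 (GQ M2 mapMat MCont)

namespace Fermat.Agent.H6.MD

local notation "Qb" => AlgebraicClosure ℚ

section padic

variable (r : GQ →* M2 ℤ_[2])

/-- reduction mod `2ⁿ`, in `GL₂` -/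
noncomputable def rho (n : ℕ) : GQ →* GL (Fin 2) (ZMod (2 ^ n)) :=
  (mapMat (PadicInt.toZModPow n) r).toHomUnits

/-- the residual representation, in `GL₂(𝔽₂)` -/
noncomputable def rbar : GQ →* GL (Fin 2) (ZMod 2) := (mapMat PadicInt.toZMod r).toHomUnits

@[simp] theorem rho_val (n : ℕ) (g : GQ) : (rho r n g).val = mapMat (PadicInt.toZModPow n) r g := rfl

@[simp] theorem rbar_val (g : GQ) : (rbar r g).val = mapMat PadicInt.toZMod r g := rfl

theorem toZMod_eq (n : ℕ) (hn : n ≠ 0) (x : ℤ_[2]) :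
    PadicInt.toZMod x = red2 hn (PadicInt.toZModPow n x) := by
  have h1 : RingHom.ker (PadicInt.toZMod : ℤ_[2] →+* ZMod 2) =
      RingHom.ker ((red2 hn).comp (PadicInt.toZModPow n : ℤ_[2] →+* ZMod (2 ^ n))) := by
    have hs : Function.Surjective ((red2 hn).comp (PadicInt.toZModPow n : ℤ_[2] →+* ZMod (2 ^ n))) :=
      ZMod.ringHom_surjective _
    have hmax := RingHom.ker_isMaximal_of_surjective _ hs
    rw [PadicInt.ker_toZMod, IsLocalRing.eq_maximalIdeal hmax]
  have h2 := ZMod.ringHom_eq_of_ker_eq _ _ h1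
  exact congrArg (fun f : ℤ_[2] →+* ZMod 2 => f x) h2

theorem rbar_red (n : ℕ) (hn : n ≠ 0) (g : GQ) (i j : Fin 2) :
    (rbar r g).val i j = red2 hn ((rho r n g).val i j) := by
  rw [rbar_val, rho_val, Fermat.Agent.H53.mapMat_apply, Fermat.Agent.H53.mapMat_apply]
  exact toZMod_eq n hn _

variable {r}

theorem rho_lev (hr : MCont ℤ_[2] r) (n : ℕ) : LevC (rho r n) := by
  obtain ⟨L, hL, h⟩ := hr n
  refine ⟨L, hL, fun g τ hτ => ?_⟩
  have h1 : rho r n τ = 1 := by
    apply Units.ext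
    rw [rho_val, Units.val_one]
    ext i j
    rw [Fermat.Agent.H53.mapMat_apply]
    have h2 := h τ hτ i j
    have h3 : PadicInt.toZModPow n (r τ i j - (1 : M2 ℤ_[2]) i j) = 0 := by
      rw [← RingHom.mem_ker, PadicInt.ker_toZModPow]
      rwa [PadicInt.maximalIdeal_eq_span_p, Ideal.span_singleton_pow] at h2
    rw [map_sub, sub_eq_zero] at h3
    rw [h3, Matrix.one_apply, Matrix.one_apply]
    split_ifs <;> simp
  rw [map_mul, h1, mul_one]

theorem rho_det (h : LT.DetCyc 2 r) (n : ℕ) (σ : GQ) (a : ℕ)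
    (ha : ∀ μ : Qb, μ ^ 2 ^ n = 1 → σ μ = μ ^ a) : (rho r n σ).val.det = (a : ZMod (2 ^ n)) := by
  have h1 := h n σ a ha
  have h2 : PadicInt.toZModPow n ((r σ).det - (a : ℤ_[2])) = 0 := by
    rw [← RingHom.mem_ker, PadicInt.ker_toZModPow]
    have h3 : ((2 ^ n : ℕ) : ℤ_[2]) = (2 : ℤ_[2]) ^ n := by push_cast; rfl
    rw [h3] at h1
    exact h1
  rw [map_sub, sub_eq_zero, map_natCast] at h2
  rw [rho_val, ← h2]
  exact ((PadicInt.toZModPow n).map_det (r σ)).symm

end padic

section transv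

theorem isUnit_of_toZMod {x : ℤ_[2]} (h : PadicInt.toZMod x ≠ 0) : IsUnit x := by
  by_contra hx
  apply h
  rw [← RingHom.mem_ker, PadicInt.ker_toZMod]
  exact (IsLocalRing.mem_maximalIdeal x).mpr hx

/-- a matrix `1 + N` with `N² = 0`, `N ≢ 0 mod 2`, is a transvection -/
theorem exists_conj_up {N : M2 ℤ_[2]} (hN : N * N = 0)
    (hne : ∃ i j, PadicInt.toZMod (N i j) ≠ 0) :
    ∃ A : GL (Fin 2) ℤ_[2], 1 + N = A.val * (Up (1 : ℤ_[2])).val * A⁻¹.val := by
  obtain ⟨x, hx⟩ : ∃ x, x = N 0 0 := ⟨_, rfl⟩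
  obtain ⟨y, hy⟩ : ∃ y, y = N 0 1 := ⟨_, rfl⟩
  obtain ⟨z, hz⟩ : ∃ z, z = N 1 0 := ⟨_, rfl⟩
  obtain ⟨t, ht⟩ : ∃ t, t = N 1 1 := ⟨_, rfl⟩
  have hNv : N = !![x, y; z, t] := by
    ext i j; fin_cases i <;> fin_cases j
    · exact hx.symm
    · exact hy.symm
    · exact hz.symm
    · exact ht.symm
  rw [hNv] at hN hne ⊢
  have e00 := congrFun (congrFun hN 0) 0
  have e01 := congrFun (congrFun hN 0) 1
  have e10 := congrFun (congrFun hN 1) 0
  have e11 := congrFun (congrFun hN 1) 1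
  simp only [Matrix.mul_apply, Fin.sum_univ_two, Matrix.of_apply, Matrix.cons_val', Matrix.cons_val_zero,
    Matrix.cons_val_one, Matrix.cons_val_fin_one, Matrix.zero_apply] at e00 e01 e10 e11
  have hxt : t = -x := by
    by_contra hcon
    have h1 : x + t ≠ 0 := fun h => hcon (by linear_combination h)
    have hy0 : y = 0 := by
      have : y * (x + t) = 0 := by linear_combination e01
      exact (mul_eq_zero.mp this).resolve_right h1
    have hz0 : z = 0 := by
      have : z * (x + t) = 0 := by linear_combination e10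
      exact (mul_eq_zero.mp this).resolve_right h1
    have hx0 : x = 0 := by
      rw [hy0, zero_mul, add_zero] at e00
      exact mul_self_eq_zero.mp e00
    have ht0 : t = 0 := by
      rw [hz0, zero_mul, zero_add] at e11
      exact mul_self_eq_zero.mp e11
    apply h1; rw [hx0, ht0, add_zero]
  subst hxt
  have key : ∀ A : GL (Fin 2) ℤ_[2], (1 + !![x, y; z, -x]) * A.val = A.val * (Up (1 : ℤ_[2])).val →
      1 + !![x, y; z, -x] = A.val * (Up (1 : ℤ_[2])).val * A⁻¹.val := by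
    intro A h
    rw [← h, mul_assoc, ← Units.val_mul, mul_inv_cancel, Units.val_one, mul_one]
  by_cases hyu : PadicInt.toZMod y = 0
  · by_cases hzu : PadicInt.toZMod z = 0
    · exfalso
      have hx0 : PadicInt.toZMod x = 0 := by
        have h1 := congrArg PadicInt.toZMod e00
        rw [map_add, map_mul, map_mul, hyu, zero_mul, add_zero, map_zero] at h1
        exact mul_self_eq_zero.mp h1
      obtain ⟨i, j, hij⟩ := hne
      apply hij
      fin_cases i <;> fin_cases j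
      · exact hx0
      · exact hyu
      · exact hzu
      · show PadicInt.toZMod (-x) = 0
        rw [map_neg, hx0, neg_zero]
    · have hzU := isUnit_of_toZMod hzu
      have hdet : IsUnit (!![x, 1; z, 0] : M2 ℤ_[2]).det := by
        rw [Matrix.det_fin_two_of]
        have : x * 0 - 1 * z = -z := by ring
        rw [this]; exact hzU.neg
      refine ⟨Matrix.nonsingInvUnit _ hdet, key _ ?_⟩
      show (1 + !![x, y; z, -x]) * !![x, 1; z, 0] = !![x, 1; z, 0] * (Up (1 : ℤ_[2])).val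
      rw [Up_val]
      ext i j
      fin_cases i <;> fin_cases j <;>
        simp [Matrix.mul_apply, Fin.sum_univ_two, Matrix.one_apply]
      · linear_combination e00
      · ring
      · ring
  · have hyU := isUnit_of_toZMod hyu
    have hdet : IsUnit (!![y, 0; -x, 1] : M2 ℤ_[2]).det := by
      rw [Matrix.det_fin_two_of]
      have : y * 1 - 0 * -x = y := by ring
      rw [this]; exact hyU
    refine ⟨Matrix.nonsingInvUnit _ hdet, key _ ?_⟩
    show (1 + !![x, y; z, -x]) * !![y, 0; -x, 1] = !![y, 0; -x, 1] * (Up (1 : ℤ_[2])).val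
    rw [Up_val]
    ext i j
    fin_cases i <;> fin_cases j <;>
      simp [Matrix.mul_apply, Fin.sum_univ_two, Matrix.one_apply]
    · ring
    · linear_combination e00
    · ring

end transv

section gen

theorem inertia_le_decomp {P : ValuationSubring Qb} {τ : GQ}
    (h : τ ∈ P.inertiaSubgroupIn ℚ) : τ ∈ P.decompositionSubgroup ℚ := by
  rw [H91.mem_inertiaSubgroupIn_iff] at h
  exact h.1

theorem det_gl2_zmod2 (g : GL (Fin 2) (ZMod 2)) : g.val.det = 1 := by
  have h1 : IsUnit g.val.det := (Matrix.isUnit_iff_isUnit_det _).mp g.isUnit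
  have h2 : ∀ x : ZMod 2, x ≠ 0 → x = 1 := by decide
  exact h2 _ h1.ne_zero

/-- the line at a prime of Steinberg type -/
theorem line_of_sq {rb : GQ →* GL (Fin 2) (ZMod 2)} (D : Subgroup GQ)
    (h : ∀ g ∈ D, ∀ g' ∈ D, ((rb g).val - 1) * ((rb g').val - 1) = 0)
    (hτ : ∃ τ ∈ D, rb τ ≠ 1) : ∃ v : V2, v ≠ 0 ∧ ∀ g ∈ D, mv (rb g).val v = v := by
  obtain ⟨τ, hτD, hτ⟩ := hτ
  have h1 : (rb τ).val - 1 ≠ 0 := by
    intro h0
    apply hτ
    apply Units.ext
    rw [Units.val_one]; exact sub_eq_zero.mp h0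
  obtain ⟨j, hj⟩ : ∃ j, ((rb τ).val - 1) *ᵥ (Pi.single j 1) ≠ 0 := by
    by_contra hcon
    push Not at hcon
    apply h1
    ext i j
    have h2 := congrFun (hcon j) i
    rw [Matrix.mulVec_single_one] at h2
    exact h2
  refine ⟨_, hj, fun g hg => ?_⟩
  rw [mv_eq_mulVec]
  have h2 : ((rb g).val - 1) *ᵥ (((rb τ).val - 1) *ᵥ (Pi.single j 1)) = 0 := by
    rw [Matrix.mulVec_mulVec, h g hg τ hτD, Matrix.zero_mulVec]
  rw [Matrix.sub_mulVec, Matrix.one_mulVec, sub_eq_zero] at h2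
  exact h2

/-- the decomposition group at a good auxiliary prime -/
theorem rb_decomp {rb : GQ →* GL (Fin 2) (ZMod 2)} (hlev : LevC rb) {q : ℕ} (hq : q.Prime)
    {P : ValuationSubring Qb} (hP : P.LiesOverPrime q)
    (hI : ∀ τ ∈ P.inertiaSubgroupIn ℚ, rb τ = 1) {φ : GQ} (hφ : P.IsFrobeniusAt φ q) {g : GQ}
    (hg : g ∈ P.decompositionSubgroup ℚ) : ∃ k : ℕ, rb g = rb φ ^ k := by
  obtain ⟨F, hF, h⟩ := hlev
  have : Fact q.Prime := ⟨hq⟩
  obtain ⟨k, i, hi, u, hu, rfl⟩ := H61.GenFrob.exists_eq_pow_mul hq hP hφ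
    (U := F.fixingSubgroup) ((H55.krullLevels_op_iff _).mpr ⟨F, hF, le_rfl⟩) hg
  refine ⟨k, ?_⟩
  rw [IntermediateField.mem_fixingSubgroup_iff] at hu
  rw [h _ u hu, map_mul, map_pow, hI i hi, mul_one]

theorem trace_eq_zero_of_sq {R : Type*} [CommRing R] {M : Matrix (Fin 2) (Fin 2) R}
    (h1 : M * M = 1) (h2 : M.det = -1) : M.trace = 0 := by
  have e : M * M = M.trace • M - M.det • (1 : Matrix (Fin 2) (Fin 2) R) := by
    ext i j
    rw [Matrix.det_fin_two, Matrix.trace_fin_two]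
    fin_cases i <;> fin_cases j <;>
      simp [Matrix.mul_apply, Fin.sum_univ_two] <;> ring
  rw [h1, h2, neg_smul, one_smul, sub_neg_eq_add, eq_comm, add_eq_right] at e
  have e2 : M.trace • (M * M) = 0 := by
    rw [← smul_mul_assoc, e, zero_mul]
  rw [h1] at e2
  have e3 := congrFun (congrFun e2 0) 0
  simpa using e3

end gen

open _root_.Fermat.Agent.LT in
/-- **Block M6** from reciprocity. -/
theorem blockM6 (hRec : RecipStatement) : LT.BlockM6 := by
  classical
  intro W r s hW hE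
  have hΔ : W.Δ ≠ 0 := hW.neg.ne
  obtain ⟨rb, hrb⟩ : ∃ rb, rb = rbar r := ⟨_, rfl⟩
  have hrbv : ∀ g, (rb g).val = mapMat PadicInt.toZMod r g := fun g => by rw [hrb]; rfl
  have hmem : ∀ ℓ : ℕ, ℓ ∈ LT.bad W ↔ ℓ.Prime ∧ (ℓ : ℤ) ∣ W.Δ := by
    intro ℓ
    rw [LT.bad, Nat.mem_primeFactors, ← Int.natCast_dvd]
    constructor
    · rintro ⟨h1, h2, -⟩; exact ⟨h1, h2⟩
    · rintro ⟨h1, h2⟩; exact ⟨h1, h2, Int.natAbs_ne_zero.mpr hΔ⟩
  have hS : ∀ ℓ ∈ LT.bad W, ℓ.Prime := fun ℓ hℓ => ((hmem ℓ).mp hℓ).1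
  have h2S : 2 ∈ LT.bad W := (hmem 2).mpr ⟨Nat.prime_two, hW.two⟩
  have hsurj : Function.Surjective rb := by
    intro γ
    obtain ⟨g, hg⟩ := hE.surj γ.val (by rw [det_gl2_zmod2]; exact one_ne_zero)
    exact ⟨g, Units.ext (by rw [hrbv, hg])⟩
  have hlev : LevC rb := by
    have h1 := (rho_lev hE.cont 1).comp
      (fun x => Matrix.GeneralLinearGroup.map (red2 one_ne_zero) x)
    have h2 : (rb : GQ → _) =
        fun g => Matrix.GeneralLinearGroup.map (red2 one_ne_zero) (rho r 1 g) := by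
      funext g
      apply Units.ext
      ext i j
      rw [hrb, rbar_red r 1 one_ne_zero]
      rfl
    rw [h2]; exact h1
  have hcc : (complexConjugation : GQ) * complexConjugation = 1 := complexConjugation_mul_self
  have hc1 : (complexConjugation : GQ) ≠ 1 := Fermat.Agent.H87.Res.complexConjugation_ne_one
  have hrbc : rb complexConjugation ≠ 1 := by
    intro h
    apply hE.conj complexConjugation hcc hc1
    rw [← hrbv, h, Units.val_one]
  have hunr1 : ∀ ℓ : ℕ, ℓ.Prime → ℓ ∉ LT.bad W → ∀ P : ValuationSubring Qb, P.LiesOverPrime ℓ →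
      ∀ τ ∈ P.inertiaSubgroupIn ℚ, r τ = 1 := by
    intro ℓ hℓ hℓS P hP τ hτ
    exact hE.unr ℓ hℓ (fun h => hℓS ((hmem ℓ).mpr ⟨hℓ, h⟩)) (by rintro rfl; exact hℓS h2S)
      P hP τ hτ
  have hunr : ∀ ℓ : ℕ, ℓ.Prime → ℓ ∉ LT.bad W → ∀ P : ValuationSubring Qb,
      P.LiesOverPrime ℓ → ∀ τ ∈ P.inertiaSubgroupIn ℚ, rb τ = 1 := by
    intro ℓ hℓ hℓS P hP τ hτ
    apply Units.ext
    rw [hrbv, Units.val_one]
    ext i j
    rw [Fermat.Agent.H53.mapMat_apply, hunr1 ℓ hℓ hℓS P hP τ hτ, Matrix.one_apply,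
      Matrix.one_apply]
    split_ifs <;> simp
  have hram : ∀ ℓ ∈ LT.bad W, ∀ P : ValuationSubring Qb, P.LiesOverPrime ℓ →
      ∃ τ ∈ P.inertiaSubgroupIn ℚ, rb τ ≠ 1 := by
    intro ℓ hℓ P hP
    obtain ⟨σ, hσ, h1⟩ := hE.ram ℓ ((hmem ℓ).mp hℓ).1 ((hmem ℓ).mp hℓ).2 P hP
    refine ⟨σ, hσ, fun h => h1 ?_⟩
    rw [← hrbv, h, Units.val_one]
  have hsq : ∀ ℓ ∈ LT.bad W, ∀ P : ValuationSubring Qb, P.LiesOverPrime ℓ →
      ∀ g ∈ P.decompositionSubgroup ℚ, ∀ g' ∈ P.decompositionSubgroup ℚ,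
        ((rb g).val - 1) * ((rb g').val - 1) = 0 := by
    intro ℓ hℓ P hP g hg g' hg'
    obtain ⟨χ, h1, -, -, -, h5⟩ := hE.type ℓ ((hmem ℓ).mp hℓ).1 ((hmem ℓ).mp hℓ).2 P hP
    have h6 := h5 g hg g' hg'
    have hone : ∀ x ∈ P.decompositionSubgroup ℚ, PadicInt.toZMod (χ x) = 1 := by
      intro x hx
      have h7 := congrArg PadicInt.toZMod (h1 x hx)
      rw [map_pow, map_one] at h7
      have h8 : ∀ y : ZMod 2, y ^ 2 = 1 → y = 1 := by decide
      exact h8 _ h7
    have hdet : PadicInt.toZMod (r g).det = 1 := by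
      have h7 : PadicInt.toZMod (r g).det = (rb g).val.det := by
        rw [hrbv]
        exact (PadicInt.toZMod : ℤ_[2] →+* ZMod 2).map_det (r g)
      rw [h7, det_gl2_zmod2]
    have h9 := congrArg (PadicInt.toZMod : ℤ_[2] →+* ZMod 2).mapMatrix h6
    rw [map_mul, map_sub, map_sub, map_zero] at h9
    have hs1 : ∀ (a : ℤ_[2]), (PadicInt.toZMod : ℤ_[2] →+* ZMod 2).mapMatrix (a • (1 : M2 ℤ_[2])) =
        (PadicInt.toZMod a) • (1 : M2 (ZMod 2)) := by
      intro a
      ext i j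
      simp only [RingHom.mapMatrix_apply, Matrix.map_apply, Matrix.smul_apply, smul_eq_mul,
        map_mul, Matrix.one_apply]
      split_ifs <;> simp
    rw [hs1, hs1, map_mul, hone g hg, hone g' hg', hdet, mul_one, one_smul] at h9
    rw [hrbv, hrbv]
    exact h9
  refine ⟨{b : GQ → V2 | Sel rb (LT.bad W) b}.ncard, fun n => ?_⟩
  have hn : n + 3 ≠ 0 := by omega
  have hred : ∀ g i j, (rb g).val i j = red2 hn ((rho r (n + 3) g).val i j) := fun g i j => by
    rw [hrb]; exact rbar_red r (n + 3) hn g i j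
  have hdet := rho_det (n := n + 3) hE.det_cyc
  have hcdet : (rho r (n + 3) complexConjugation).val.det = -1 := by
    rw [rho_det hE.det_cyc (n + 3) complexConjugation (2 ^ (n + 3) - 1)]
    · rw [Nat.cast_sub Nat.one_le_two_pow, ZMod.natCast_self, zero_sub, Nat.cast_one]
    · intro μ hμ
      rw [Fermat.Agent.H87.Res.involution_rootOfUnity hcc hc1 (pow_ne_zero _ two_ne_zero) hμ]
      have hμ0 : μ ≠ 0 := by
        rintro rfl
        rw [zero_pow (pow_ne_zero _ two_ne_zero)] at hμ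
        exact zero_ne_one hμ
      apply inv_eq_of_mul_eq_one_right
      rw [← pow_succ', Nat.sub_add_cancel Nat.one_le_two_pow, hμ]
  -- the transvection
  obtain ⟨v, hv, hv24, hvΔ⟩ := hW.r2
  have hvS : v ∈ LT.bad W := (hmem v).mpr ⟨hv, hvΔ⟩
  obtain ⟨P₀, hP₀⟩ := H54.exists_liesOverPrime hv
  obtain ⟨u, huI, hu1⟩ := hE.ram v hv hvΔ P₀ hP₀
  have hudet : (r u).det = 1 := by
    rw [← PadicInt.ext_of_toZModPow]
    intro m
    have h1 := rho_det hE.det_cyc m u 1 (fun μ hμ => by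
      rw [pow_one]
      exact H53.inertia_root_of_unity hv hP₀ Nat.prime_two (by rintro rfl; omega) huI m hμ)
    rw [rho_val, Nat.cast_one] at h1
    rw [map_one, ← h1]
    exact (PadicInt.toZModPow m : ℤ_[2] →+* _).map_det (r u)
  have hNN : (r u - 1) * (r u - 1) = 0 := by
    obtain ⟨χ, -, -, h3, -, h5⟩ := hE.type v hv hvΔ P₀ hP₀
    have h6 := h5 u (inertia_le_decomp huI) u (inertia_le_decomp huI)
    rw [h3 u huI, hudet, mul_one, one_smul] at h6
    exact h6
  have hNne : ∃ i j, PadicInt.toZMod ((r u - 1) i j) ≠ 0 := by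
    by_contra hcon
    push Not at hcon
    apply hu1
    ext i j
    have h1 := hcon i j
    rw [Matrix.sub_apply, map_sub, sub_eq_zero] at h1
    rw [Fermat.Agent.H53.mapMat_apply, h1, Matrix.one_apply, Matrix.one_apply]
    split_ifs <;> simp
  obtain ⟨A, hA⟩ := exists_conj_up hNN hNne
  have hρu : rho r (n + 3) u = Matrix.GeneralLinearGroup.map (PadicInt.toZModPow (n + 3)) A *
      Up 1 * (Matrix.GeneralLinearGroup.map (PadicInt.toZModPow (n + 3)) A)⁻¹ := by
    have h1 : r u = A.val * (Up (1 : ℤ_[2])).val * A⁻¹.val := by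
      rw [← hA]; abel
    rw [← map_inv]
    apply Units.ext
    rw [rho_val, Units.val_mul, Units.val_mul]
    have h2 : mapMat (PadicInt.toZModPow (n + 3)) r u =
        (PadicInt.toZModPow (n + 3) : ℤ_[2] →+* _).mapMatrix (r u) := rfl
    have h3 : (Up (1 : ZMod (2 ^ (n + 3)))).val =
        (PadicInt.toZModPow (n + 3) : ℤ_[2] →+* _).mapMatrix (Up (1 : ℤ_[2])).val := by
      ext i j
      fin_cases i <;> fin_cases j <;> simp
    rw [h2, h1, map_mul, map_mul, h3]
    rfl
  -- good primes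
  have hgoodI : ∀ q, GoodPrime (rho r (n + 3)) complexConjugation q → ∀ P : ValuationSubring Qb,
      P.LiesOverPrime q → ∀ τ ∈ P.inertiaSubgroupIn ℚ, rb τ = 1 := by
    intro q hq P hP τ hτ
    apply Units.ext
    ext i j
    rw [hred, hq.unr P hP τ hτ, Units.val_one, Units.val_one, Matrix.one_apply, Matrix.one_apply]
    split_ifs <;> simp
  have hgoodF : ∀ q, GoodPrime (rho r (n + 3)) complexConjugation q → ∀ P : ValuationSubring Qb,
      P.LiesOverPrime q → ∀ φ : GQ, P.IsFrobeniusAt φ q → rb φ ≠ 1 ∧ rb φ * rb φ = 1 := by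
    intro q hq P hP φ hφ
    obtain ⟨g, hg⟩ := hq.frob P hP φ hφ
    have h1 : rb φ = rb (g * complexConjugation * g⁻¹) := by
      apply Units.ext
      ext i j
      rw [hred, hred, hg]
    have h2 : rb complexConjugation * rb complexConjugation = 1 := by
      rw [← map_mul, hcc, map_one]
    rw [h1, map_mul, map_mul, map_inv]
    constructor
    · intro h
      apply hrbc
      rw [mul_inv_eq_one, mul_eq_left] at h
      exact h
    · have : rb g * rb complexConjugation * (rb g)⁻¹ * (rb g * rb complexConjugation * (rb g)⁻¹) =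
          rb g * (rb complexConjugation * rb complexConjugation) * (rb g)⁻¹ := by group
      rw [this, h2, mul_one, mul_inv_cancel]
  have hR : ∀ Q : Finset ℕ, Disjoint Q (LT.bad W) →
      (∀ q ∈ Q, GoodPrime (rho r (n + 3)) complexConjugation q) → ∀ q : ℕ,
      GoodPrime (rho r (n + 3)) complexConjugation q → q ∉ LT.bad W ∪ Q →
        Recip rb (LT.bad W ∪ Q) q := by
    intro Q hQd hQ q hq hqS
    refine hRec rb _ q ⟨hsurj, hlev, hrbc, ?_, Finset.mem_union_left _ h2S, ?_, ?_, ?_, hq.prime,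
      hqS, ?_, hgoodF q hq⟩
    · intro ℓ hℓ
      rcases Finset.mem_union.mp hℓ with h | h
      · exact hS ℓ h
      · exact (hQ ℓ h).prime
    · exact fun ℓ hℓ hℓS => hunr ℓ hℓ (fun h => hℓS (Finset.mem_union_left _ h))
    · intro ℓ hℓ P hP
      rcases Finset.mem_union.mp hℓ with h | h
      · obtain ⟨τ, hτ, hτ1⟩ := hram ℓ h P hP
        exact line_of_sq _ (hsq ℓ h P hP) ⟨τ, inertia_le_decomp hτ, hτ1⟩
      · obtain ⟨φ, hφ⟩ := H54.exists_isFrobeniusAt (hQ ℓ h).prime hP
        obtain ⟨h1, h2⟩ := hgoodF ℓ (hQ ℓ h) P hP φ hφ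
        have key : ∀ γ : GL (Fin 2) (ZMod 2), γ * γ = 1 → (γ.val - 1) * (γ.val - 1) = 0 := by
          decide
        have hpow : ∀ g ∈ P.decompositionSubgroup ℚ, rb g = 1 ∨ rb g = rb φ := by
          intro g hg
          obtain ⟨k, hk⟩ := rb_decomp hlev (hQ ℓ h).prime hP (hgoodI ℓ (hQ ℓ h) P hP) hφ hg
          rcases Nat.even_or_odd' k with ⟨m, rfl | rfl⟩
          · left; rw [hk, pow_mul, pow_two, h2, one_pow]
          · right; rw [hk, pow_succ, pow_mul, pow_two, h2, one_pow, one_mul]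
        refine line_of_sq _ ?_ ⟨φ, hφ.mem_decompositionSubgroup, h1⟩
        intro g hg g' hg'
        rcases hpow g hg with h3 | h3 <;> rcases hpow g' hg' with h4 | h4
        · rw [h3, Units.val_one, sub_self, zero_mul]
        · rw [h3, Units.val_one, sub_self, zero_mul]
        · rw [h4, Units.val_one, sub_self, mul_zero]
        · rw [h3, h4]; exact key _ h2
    · intro ℓ hℓ P hP
      rcases Finset.mem_union.mp hℓ with h | h
      · obtain ⟨τ, hτ, hτ1⟩ := hram ℓ h P hP
        exact ⟨τ, inertia_le_decomp hτ, hτ1⟩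
      · obtain ⟨φ, hφ⟩ := H54.exists_isFrobeniusAt (hQ ℓ h).prime hP
        exact ⟨φ, hφ.mem_decompositionSubgroup, (hgoodF ℓ (hQ ℓ h) P hP φ hφ).1⟩
    · have : (8 : ℕ) ∣ 2 ^ (n + 3) := ⟨2 ^ n, by rw [pow_add]; ring⟩
      exact this.trans hq.dvd
  obtain ⟨Q, hQd, hQg, hQc, hQz⟩ := exists_killing_set hn hred hsurj (rho_lev hE.cont (n + 3))
    hdet hcc hrbc hcdet hS hunr hvS hP₀ (inertia_le_decomp huI) isUnit_one _ hρu hR ∅
  rw [Finset.union_empty] at hQd
  refine ⟨Q, hQc, fun q hq => ?_, ?_⟩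
  · have hg := hQg q hq
    have hqS : q ∉ LT.bad W := fun h => (Finset.disjoint_left.mp hQd) hq h
    have hcomp : ∀ x : ℤ_[2], PadicInt.toZModPow n x =
        ZMod.castHom (pow_dvd_pow 2 (Nat.le_add_right n 3)) (ZMod (2 ^ n))
          (PadicInt.toZModPow (n + 3) x) := by
      intro x
      have h1 := PadicInt.zmod_cast_comp_toZModPow (p := 2) n (n + 3) (Nat.le_add_right n 3)
      exact (congrArg (fun f : ℤ_[2] →+* ZMod (2 ^ n) => f x) h1).symm
    have hmm : ∀ g, mapMat (PadicInt.toZModPow n) r g =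
        (ZMod.castHom (pow_dvd_pow 2 (Nat.le_add_right n 3)) (ZMod (2 ^ n))).mapMatrix
          (rho r (n + 3) g).val := by
      intro g
      ext i j
      rw [Fermat.Agent.H53.mapMat_apply, hcomp]
      rfl
    refine ⟨hg.prime, ?_, (pow_dvd_pow 2 (Nat.le_add_right n 3)).trans hg.dvd, ?_⟩
    · intro h
      rw [LT.cond, Prime.dvd_finsetProd_iff hg.prime.prime] at h
      obtain ⟨ℓ, hℓ, hqℓ⟩ := h
      rw [Nat.prime_dvd_prime_iff_eq hg.prime (hS ℓ hℓ)] at hqℓ
      exact hqS (hqℓ ▸ hℓ)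
    · intro P hP φ hφ
      obtain ⟨g, hgφ⟩ := hg.frob P hP φ hφ
      have hρcc : rho r (n + 3) complexConjugation * rho r (n + 3) complexConjugation = 1 := by
        rw [← map_mul, hcc, map_one]
      refine ⟨?_, ?_, ?_⟩
      · rw [hmm, map_mul, hgφ, map_mul, map_mul, map_inv]
        have : rho r (n + 3) g * rho r (n + 3) complexConjugation * (rho r (n + 3) g)⁻¹ *
            (rho r (n + 3) g * rho r (n + 3) complexConjugation * (rho r (n + 3) g)⁻¹) =
          rho r (n + 3) g * (rho r (n + 3) complexConjugation *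
            rho r (n + 3) complexConjugation) * (rho r (n + 3) g)⁻¹ := by group
        rw [this, hρcc, mul_one, mul_inv_cancel, Units.val_one, map_one]
      · have ht : (rho r (n + 3) φ).val.trace = 0 := by
          have h1 : (rho r (n + 3) complexConjugation).val.trace = 0 :=
            trace_eq_zero_of_sq (by rw [← Units.val_mul, hρcc, Units.val_one]) hcdet
          rw [hgφ, map_mul, map_mul, map_inv, Units.val_mul, Units.val_mul]
          rw [← h1]
          exact Matrix.trace_units_conj _ _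
        rw [hmm]
        rw [Matrix.trace_fin_two] at ht ⊢
        rw [RingHom.mapMatrix_apply, Matrix.map_apply, Matrix.map_apply, ← map_add, ht, map_zero]
      · intro h
        apply (hgoodF q hg P hP φ hφ).1
        apply Units.ext
        rw [hrbv, h, Units.val_one]
  · intro b hb
    have hb' : Sel rb (LT.bad W ∪ Q) b := by
      refine ⟨fun g h => ?_, hb.fin, fun ℓ hℓ hℓS P hP τ hτ => ?_, fun ℓ hℓ P hP => ?_⟩
      · rw [mv_eq_mulVec, hrbv]; exact hb.cocycle g h
      · refine hb.unr ℓ hℓ ?_ P hP τ hτ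
        rintro (h | h)
        · exact hℓS (Finset.mem_union_left _ h)
        · exact hℓS (Finset.mem_union_right _ h)
      · have hℓp : ℓ.Prime := by
          rcases Finset.mem_union.mp hℓ with h | h
          · exact hS ℓ h
          · exact (hQg ℓ h).prime
        have hℓm : ℓ ∈ ((LT.bad W : Set ℕ) ∪ (Q : Set ℕ)) := by
          rcases Finset.mem_union.mp hℓ with h | h
          · exact Or.inl h
          · exact Or.inr h
        obtain ⟨x, hx⟩ := hb.line ℓ hℓp hℓm P hP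
        refine ⟨x, fun g hg h hh => ?_⟩
        simp only [mv_eq_mulVec, hrbv]
        exact hx g hg h hh
    obtain ⟨w, hw⟩ := hQz b hb'
    refine ⟨w, fun g => ?_⟩
    rw [hw g, mv_eq_mulVec, hrbv]

end Fermat.Agent.H6.MD
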