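import Mathlib
import Fermat.Agent.H6MDBlock
import Fermat.Agent.H54TRecipB

/-!
# LT-MOD2: `BlockM6` unconditionally
-/

set_option autoImplicit false

namespace Fermat.Agent.H6.MD

/-- helper54's reciprocity in the form used by `blockM6`. -/
theorem recipStatement : RecipStatement := by
  intro rb S q h
  refine Fermat.Agent.H54T.recip h.prime ?_ h.notMem h.two h.lev h.unr
    (fun ℓ hℓ _ P hP => h.ntriv ℓ hℓ P hP)
    (ι := complexEmbedding.toRingHom) (c := complexConjugation)
    (fun x => complexEmbedding_complexConjugation x) h.conj h.frob
  have := h.eight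
  omega

/-- **Block M6** of LT-MOD2 (Step D), unconditional. -/
theorem blockM6_holds : Fermat.Agent.LT.BlockM6 := blockM6 recipStatement

end Fermat.Agent.H6.MD
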