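import Mathlib
import Fermat.Agent.H63Minkowski
import Fermat.Agent.H63Hermite
import Fermat.Agent.H54Frobenius

/-!
# Inertia at `q` moves `√d` when `v_q(d)` is odd (`q = 2` allowed)

(helper73, module M8(a), (E2), of LT-MOD2.)
-/

set_option autoImplicit false

namespace Fermat.Agent.H73LT

open NumberField Polynomial
open scoped Pointwise

local notation "Qb" => AlgebraicClosure ℚ

/-- It is impossible that all inertia groups above `q` fix the square roots of `q m`, `q ∤ m`. -/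
theorem not_forall_inertia_fix_sqrt {q : ℕ} (hq : q.Prime) {m : ℤ} (hm : ¬ (q : ℤ) ∣ m)
    (h : ∀ A : ValuationSubring (AlgebraicClosure ℚ), A.LiesOverPrime q →
      ∀ σ ∈ A.inertiaSubgroupIn ℚ, ∀ π : AlgebraicClosure ℚ, π ^ 2 = (q * m : ℤ) → σ π = π) :
    False := by
  have hgalL : IsGalois ℚ (AlgebraicClosure ℚ) := by
    have : Algebra.IsAlgebraic ℚ (AlgebraicClosure ℚ) := AlgebraicClosure.isAlgebraic ℚ
    have : IsAlgClosure ℚ (AlgebraicClosure ℚ) := ⟨inferInstance, inferInstance⟩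
    have : Normal ℚ (AlgebraicClosure ℚ) := IsAlgClosure.normal ℚ (AlgebraicClosure ℚ)
    exact ⟨⟩
  set f : ℚ[X] := X ^ 2 - C ((q * m : ℤ) : ℚ) with hf
  have hf0 : f ≠ 0 := X_pow_sub_C_ne_zero (by omega) _
  set F : IntermediateField ℚ (AlgebraicClosure ℚ) :=
    IntermediateField.adjoin ℚ (f.rootSet (AlgebraicClosure ℚ)) with hF
  have hsplit : f.IsSplittingField ℚ F :=
    IntermediateField.adjoin_rootSet_isSplittingField (IsAlgClosed.splits _)
  have hfin : FiniteDimensional ℚ F := hsplit.finiteDimensional F f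
  have hnormal : Normal ℚ F := Normal.of_isSplittingField f
  have hnf : NumberField F := ⟨⟩
  have hgal : IsGalois ℚ F := ⟨⟩
  -- inertia acts trivially on `F`
  have hI : ∀ A : ValuationSubring (AlgebraicClosure ℚ), A.LiesOverPrime q →
      ∀ σ ∈ A.inertiaSubgroupIn ℚ, ∀ x : F, σ (algebraMap F (AlgebraicClosure ℚ) x) =
        algebraMap F (AlgebraicClosure ℚ) x := by
    intro A hA σ hσ x
    have hle : F ≤ IntermediateField.fixedField (Subgroup.zpowers σ) := by
      rw [hF, IntermediateField.adjoin_le_iff]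
      intro y hy
      have hy' : y ^ 2 = (q * m : ℤ) := by
        rw [mem_rootSet] at hy
        have := hy.2
        rw [hf] at this
        simp only [map_sub, map_pow, aeval_X, aeval_C] at this
        rw [sub_eq_zero] at this
        rw [this]; simp
      have hfix := h A hA σ hσ y hy'
      rw [SetLike.mem_coe, IntermediateField.mem_fixedField_iff]
      intro g hg
      have : Subgroup.zpowers σ ≤ MulAction.stabilizer (AlgebraicClosure ℚ ≃ₐ[ℚ] AlgebraicClosure ℚ) y := by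
        rw [Subgroup.zpowers_le]
        exact hfix
      exact this hg
    have := hle x.2
    rw [IntermediateField.mem_fixedField_iff] at this
    exact this σ (Subgroup.mem_zpowers σ)
  -- a prime of `F` above `q`
  have hqi : Prime (q : ℤ) := Nat.prime_iff_prime_int.mp hq
  have hspan : (Ideal.span {(q : ℤ)}).IsPrime := (Ideal.span_singleton_prime hqi.ne_zero).mpr hqi
  obtain ⟨P, -, hP, hPq⟩ := Ideal.exists_ideal_over_prime_of_isIntegral (S := 𝓞 F)
    (Ideal.span {(q : ℤ)}) ⊥ (by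
      rw [← RingHom.ker_eq_comap_bot,
        (RingHom.injective_iff_ker_eq_bot _).mp (FaithfulSMul.algebraMap_injective ℤ (𝓞 F))]
      exact bot_le)
  have hqP : (q : 𝓞 F) ∈ P := by
    have : (q : ℤ) ∈ P.comap (algebraMap ℤ (𝓞 F)) := by
      rw [hPq]; exact Ideal.mem_span_singleton_self _
    rw [Ideal.mem_comap] at this
    simpa using this
  have hun : Algebra.IsUnramifiedAt ℤ P :=
    H63.isUnramifiedAt_of_inertia (L := AlgebraicClosure ℚ) F q hI P hP hqP
  have hover : P.LiesOver (Ideal.span {(q : ℤ)}) := ⟨hPq.symm⟩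
  have hmap : (Ideal.span {(q : ℤ)}).map (algebraMap ℤ (𝓞 F)) = Ideal.span {(q : 𝓞 F)} := by
    rw [Ideal.map_span, Set.image_singleton]
    simp
  have hne : (Ideal.span {(q : ℤ)}).map (algebraMap ℤ (𝓞 F)) ≠ ⊥ := by
    rw [hmap, Ne, Ideal.span_singleton_eq_bot]
    exact_mod_cast hq.ne_zero
  have he : P.ramificationIdx ℤ = 1 := Ideal.ramificationIdx_eq_one P ℤ
  rw [Ideal.IsDedekindDomain.ramificationIdx_eq_multiplicity (Ideal.span {(q : ℤ)}) P hne] at he
  -- a square root in `F`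
  obtain ⟨π, hπ⟩ : ∃ π : F, π ^ 2 = ((q * m : ℤ) : F) := by
    have hdeg : (f.map (algebraMap ℚ F)).degree ≠ 0 := by
      rw [degree_map, hf, degree_X_pow_sub_C (by omega)]
      exact_mod_cast (by omega : (2 : ℕ) ≠ 0)
    obtain ⟨x, hx⟩ := (hsplit.splits).exists_eval_eq_zero hdeg
    refine ⟨x, ?_⟩
    rw [hf] at hx
    simp only [Polynomial.map_sub, Polynomial.map_pow, map_X, map_C, eval_sub, eval_pow, eval_X,
      eval_C] at hx
    rw [sub_eq_zero] at hx
    rw [hx]; simp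
  have hint : IsIntegral ℤ π := by
    refine ⟨X ^ 2 - C (q * m : ℤ), monic_X_pow_sub_C _ (by omega), ?_⟩
    rw [← aeval_def]
    simp only [map_sub, map_pow, aeval_X, aeval_C]
    rw [hπ]; simp
  set π' : 𝓞 F := ⟨π, hint⟩ with hπ'
  have hπq : π' ^ 2 = ((q * m : ℤ) : 𝓞 F) := by
    apply RingOfIntegers.ext
    have e1 : ((π' ^ 2 : 𝓞 F) : F) = (π' : F) ^ 2 := map_pow (algebraMap (𝓞 F) F) π' 2
    have e2 : ((((q * m : ℤ) : 𝓞 F)) : F) = ((q * m : ℤ) : F) :=
      map_intCast (algebraMap (𝓞 F) F) _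
    rw [e1, e2]
    exact hπ
  have hqm : ((q * m : ℤ) : 𝓞 F) ∈ P := by
    push_cast
    exact P.mul_mem_right _ hqP
  have hπP : π' ∈ P := hP.mem_of_pow_mem 2 (hπq ▸ hqm)
  have hqmP2 : ((q * m : ℤ) : 𝓞 F) ∈ P ^ 2 := by
    rw [← hπq]; exact Ideal.pow_mem_pow hπP 2
  have hqP2 : (q : 𝓞 F) ∈ P ^ 2 := by
    obtain ⟨a, b, hab⟩ := (Prime.coprime_iff_not_dvd hqi).mpr hm
    have e : (q : 𝓞 F) = (a : 𝓞 F) * ((q : 𝓞 F) ^ 2) + (b : 𝓞 F) * ((q * m : ℤ) : 𝓞 F) := by
      have := congrArg (fun z : ℤ => ((q : 𝓞 F)) * (z : 𝓞 F)) hab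
      push_cast at this ⊢
      linear_combination -this
    rw [e]
    exact (P ^ 2).add_mem (Ideal.mul_mem_left _ _ (Ideal.pow_mem_pow hqP 2))
      (Ideal.mul_mem_left _ _ hqmP2)
  have hdvd : P ^ 2 ∣ (Ideal.span {(q : ℤ)}).map (algebraMap ℤ (𝓞 F)) := by
    rw [hmap, Ideal.dvd_iff_le, Ideal.span_le, Set.singleton_subset_iff, SetLike.mem_coe]
    exact hqP2
  have hfm : FiniteMultiplicity P ((Ideal.span {(q : ℤ)}).map (algebraMap ℤ (𝓞 F))) := by
    apply FiniteMultiplicity.of_not_isUnit _ hne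
    rw [Ideal.isUnit_iff]
    exact hP.ne_top
  have := hfm.pow_dvd_iff_le_multiplicity.mp hdvd
  omega

theorem isGalois_Qbar : IsGalois ℚ (AlgebraicClosure ℚ) := by
  have : Algebra.IsAlgebraic ℚ (AlgebraicClosure ℚ) := AlgebraicClosure.isAlgebraic ℚ
  have : IsAlgClosure ℚ (AlgebraicClosure ℚ) := ⟨inferInstance, inferInstance⟩
  have : Normal ℚ (AlgebraicClosure ℚ) := IsAlgClosure.normal ℚ (AlgebraicClosure ℚ)
  exact ⟨⟩

/-- a square root of a rational number is moved at most by a sign -/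
lemma map_sqrt {d : ℤ} {δ : Qb} (hδ : δ ^ 2 = d) (σ : Qb ≃ₐ[ℚ] Qb) : σ δ = δ ∨ σ δ = -δ := by
  have h : (σ δ) ^ 2 = δ ^ 2 := by rw [← map_pow, hδ, map_intCast]
  exact sq_eq_sq_iff_eq_or_eq_neg.mp h

/-- **Inertia at `q` moves `√d` when `v_q(d)` is odd.** -/
theorem exists_inertia_neg_sqrt {q : ℕ} (hq : q.Prime) {d : ℤ} (hd : d ≠ 0)
    (hodd : Odd (padicValInt q d)) {δ : Qb} (hδ : δ ^ 2 = d) {P : ValuationSubring Qb}
    (hP : P.LiesOverPrime q) : ∃ g ∈ P.inertiaSubgroupIn ℚ, g δ = -δ := by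
  have := Fact.mk hq
  have := isGalois_Qbar
  by_contra hcon
  push Not at hcon
  have hfix : ∀ g ∈ P.inertiaSubgroupIn ℚ, g δ = δ := fun g hg =>
    (map_sqrt hδ g).resolve_right (hcon g hg)
  obtain ⟨k, hk⟩ := hodd
  obtain ⟨m, hm⟩ := (padicValInt_dvd (p := q) d)
  have hm' : ¬ (q : ℤ) ∣ m := by
    intro h
    obtain ⟨l, rfl⟩ := h
    have h1 : (q : ℤ) ^ (padicValInt q d + 1) ∣ d := ⟨l, by rw [pow_succ]; linear_combination hm⟩
    rw [padicValInt_dvd_iff] at h1
    rcases h1 with h1 | h1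
    · exact hd h1
    · omega
  have hq0 : (q : Qb) ≠ 0 := by exact_mod_cast hq.ne_zero
  refine not_forall_inertia_fix_sqrt hq hm' fun A hA σ hσ π hπ => ?_
  obtain ⟨τ, hτ⟩ := H54.exists_smul_eq hq hP hA
  have hσ' : τ⁻¹ * σ * τ ∈ P.inertiaSubgroupIn ℚ := by
    have h1 := H63.conj_mem_inertiaSubgroupIn τ⁻¹ σ hσ
    have h0 : τ⁻¹ • A = P := by
      rw [← hτ, smul_smul, inv_mul_cancel, one_smul]
    rw [inv_inv, h0] at h1
    exact h1
  have h2 := hfix _ hσ'
  have h3 : σ (τ δ) = τ δ := by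
    rw [AlgEquiv.mul_apply, AlgEquiv.mul_apply] at h2
    have h4 := congrArg τ h2
    rwa [← AlgEquiv.mul_apply τ τ⁻¹, mul_inv_cancel, AlgEquiv.one_apply] at h4
  have h5 : (π * (q : Qb) ^ k) ^ 2 = (τ δ) ^ 2 := by
    rw [← map_pow, hδ, map_intCast, mul_pow, hπ, hm, hk]
    push_cast
    ring
  have h6 : σ (π * (q : Qb) ^ k) = π * (q : Qb) ^ k := by
    rcases sq_eq_sq_iff_eq_or_eq_neg.mp h5 with h | h
    · rw [h, h3]
    · rw [h, map_neg, h3]
  rw [map_mul, map_pow, map_natCast] at h6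
  exact mul_right_cancel₀ (pow_ne_zero k hq0) h6

end Fermat.Agent.H73LT
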