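import Fermat.Agent.H46LTDefs
import Fermat.Agent.H73LTSqrt

/-!
# Arithmetic of a good curve: no rational 2-torsion, `Δ = -N m²`, involutions of `ℚ̄`

(helper73, module M8(a) = Block E of LT-MOD2.)
-/

set_option autoImplicit false

open WeierstrassCurve
open Fermat.Agent.H53 (GQ M2)

namespace Fermat.Agent.H73LT

open Fermat.Agent.LT

/-! ### no rational 2-torsion -/

/-- the integer version -/
theorem no_int_root {W : WeierstrassCurve ℤ} (hW : GoodCurve W) (r : ℤ) :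
    r ^ 3 + W.b₂ * r ^ 2 + 8 * W.b₄ * r + 16 * W.b₆ ≠ 0 := by
  intro h
  set A : ℤ := 3 * r + W.b₂ with hA
  set B : ℤ := 3 * r ^ 2 + 2 * W.b₂ * r + 8 * W.b₄ with hB
  have hc4 : A ^ 2 - 3 * B = W.c₄ := by
    rw [WeierstrassCurve.c₄, hA, hB]; ring
  have hdisc : B ^ 2 * (A ^ 2 - 4 * B) = 16 ^ 2 * W.Δ := by
    have hb8 := W.b_relation
    have e : 4 * W.Δ = -W.b₂ ^ 2 * (W.b₂ * W.b₆ - W.b₄ ^ 2) - 32 * W.b₄ ^ 3 - 108 * W.b₆ ^ 2
        + 36 * W.b₂ * W.b₄ * W.b₆ := by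
      rw [WeierstrassCurve.Δ, ← hb8]; ring
    have h16 : 16 * W.b₆ = -(r ^ 3 + W.b₂ * r ^ 2 + 8 * W.b₄ * r) := by linear_combination h
    have e2 : 16 ^ 2 * (4 * W.Δ) = 4 * (B ^ 2 * (A ^ 2 - 4 * B)) := by
      rw [e]
      have h6 : 16 ^ 2 * (-W.b₂ ^ 2 * (W.b₂ * W.b₆ - W.b₄ ^ 2) - 32 * W.b₄ ^ 3
          - 108 * W.b₆ ^ 2 + 36 * W.b₂ * W.b₄ * W.b₆) =
          -16 * W.b₂ ^ 3 * (16 * W.b₆) + 256 * W.b₂ ^ 2 * W.b₄ ^ 2 - 8192 * W.b₄ ^ 3
          - 108 * (16 * W.b₆) ^ 2 + 576 * W.b₂ * W.b₄ * (16 * W.b₆) := by ring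
      rw [h6, h16, hA, hB]
      ring
    linarith
  have hΔ : W.Δ ≠ 0 := hW.neg.ne
  have hB0 : B ≠ 0 := by
    rintro h0
    rw [h0] at hdisc
    apply hΔ
    linarith
  -- no prime divides `B`
  have hprime : ∀ ℓ : ℕ, ℓ.Prime → ¬ (ℓ : ℤ) ∣ B := by
    intro ℓ hℓ hdvd
    have := Fact.mk hℓ
    have hpr : Prime (ℓ : ℤ) := Nat.prime_iff_prime_int.mp hℓ
    have hℓΔ : (ℓ : ℤ) ∣ W.Δ := by
      have h1 : (ℓ : ℤ) ∣ 16 ^ 2 * W.Δ := by
        rw [← hdisc]; exact (hdvd.mul_left B |>.trans (by rw [← sq])).mul_right _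
      rcases hpr.dvd_or_dvd h1 with h2 | h2
      · have h3 : (ℓ : ℤ) ∣ 2 := by
          have : (16 : ℤ) ^ 2 = 2 ^ 8 := by norm_num
          rw [this] at h2
          exact hpr.dvd_of_dvd_pow h2
        have h4 : ℓ = 2 := by
          have h5 : ℓ ∣ 2 := by exact_mod_cast h3
          exact (Nat.prime_dvd_prime_iff_eq hℓ Nat.prime_two).mp h5
        rw [h4]
        exact_mod_cast hW.two
      · exact h2
    have hc : ¬ (ℓ : ℤ) ∣ W.c₄ := hW.ss ℓ hℓ hℓΔ
    have hAB : ¬ (ℓ : ℤ) ∣ A ^ 2 - 4 * B := by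
      intro h1
      apply hc
      rw [← hc4]
      have : A ^ 2 - 3 * B = (A ^ 2 - 4 * B) + B := by ring
      rw [this]
      exact dvd_add h1 hdvd
    have hC0 : A ^ 2 - 4 * B ≠ 0 := fun h0 => hAB (h0 ▸ dvd_zero _)
    have hv := congrArg (padicValInt ℓ) hdisc
    rw [padicValInt.mul (pow_ne_zero 2 hB0) hC0, padicValInt.mul (by norm_num) hΔ,
      padicValInt.eq_zero_of_not_dvd hAB, sq B, padicValInt.mul hB0 hB0, sq (16 : ℤ),
      padicValInt.mul (by norm_num : (16 : ℤ) ≠ 0) (by norm_num : (16 : ℤ) ≠ 0)] at hv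
    obtain ⟨k, hk⟩ := hW.odd_val ℓ hℓ hℓΔ
    omega
  have hunit : B.natAbs = 1 := by
    by_contra hne
    obtain ⟨ℓ, hℓ, hd⟩ := Nat.exists_prime_and_dvd hne
    exact hprime ℓ hℓ (Int.natCast_dvd.mpr hd)
  have hneg : A ^ 2 - 4 * B < 0 := by
    by_contra hcon
    push Not at hcon
    have h1 : 0 ≤ B ^ 2 * (A ^ 2 - 4 * B) := mul_nonneg (sq_nonneg B) hcon
    rw [hdisc] at h1
    have := hW.neg
    linarith
  have hB1 : B = 1 := by
    rcases Int.natAbs_eq_iff.mp hunit with h1 | h1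
    · exact h1
    · rw [h1] at hneg
      nlinarith [sq_nonneg A]
  rw [hB1] at hneg hc4 hdisc
  have hAle : A ≤ 1 := by nlinarith
  have hAge : -1 ≤ A := by nlinarith
  have hc := hW.ss 2 Nat.prime_two (by exact_mod_cast hW.two)
  rw [← hc4] at hc
  interval_cases A
  · exact hc (by norm_num)
  · norm_num at hdisc
    omega
  · exact hc (by norm_num)

/-- **No rational 2-torsion** for a good curve. -/
theorem no_rat_root {W : WeierstrassCurve ℤ} (hW : GoodCurve W) (x : ℚ) :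
    4 * x ^ 3 + W.b₂ * x ^ 2 + 2 * W.b₄ * x + W.b₆ ≠ 0 := by
  intro h
  let P : Polynomial ℤ := Polynomial.X ^ 3 + Polynomial.C W.b₂ * Polynomial.X ^ 2 +
    Polynomial.C (8 * W.b₄) * Polynomial.X + Polynomial.C (16 * W.b₆)
  have hmonic : P.Monic := by
    unfold P
    monicity!
  have haeval : Polynomial.aeval (4 * x) P = 0 := by
    simp only [P, map_add, map_mul, map_pow, Polynomial.aeval_X, Polynomial.aeval_C]
    simp only [algebraMap_int_eq, eq_intCast]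
    push_cast
    linear_combination 16 * h
  obtain ⟨z, hz⟩ := isInteger_of_is_root_of_monic hmonic haeval
  have hz' : (z : ℚ) = 4 * x := by simpa using hz
  refine no_int_root hW z ?_
  have h1 : ((z : ℚ)) ^ 3 + W.b₂ * (z : ℚ) ^ 2 + 8 * W.b₄ * (z : ℚ) + 16 * W.b₆ = 0 := by
    rw [hz']
    linear_combination 16 * h
  exact_mod_cast h1

/-! ### `Δ = -N m²` -/

theorem exists_disc_eq {W : WeierstrassCurve ℤ} (hW : GoodCurve W) :
    ∃ m : ℕ, m ≠ 0 ∧ W.Δ = -(cond W : ℤ) * (m : ℤ) ^ 2 := by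
  have hΔ : W.Δ ≠ 0 := hW.neg.ne
  have hn : W.Δ.natAbs ≠ 0 := Int.natAbs_ne_zero.mpr hΔ
  have h1 := Nat.prod_factorization_pow_eq_self hn
  have h2 : (W.Δ.natAbs.factorization.prod fun p k => p ^ k) =
      ∏ p ∈ W.Δ.natAbs.primeFactors, p ^ W.Δ.natAbs.factorization p := rfl
  rw [h2] at h1
  have h3 : ∏ p ∈ W.Δ.natAbs.primeFactors, p ^ W.Δ.natAbs.factorization p =
      cond W * (∏ p ∈ W.Δ.natAbs.primeFactors, p ^ (W.Δ.natAbs.factorization p / 2)) ^ 2 := by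
    unfold LT.cond bad
    rw [← Finset.prod_pow, ← Finset.prod_mul_distrib]
    refine Finset.prod_congr rfl fun p hp => ?_
    have hpp := Nat.prime_of_mem_primeFactors hp
    have hpd : (p : ℤ) ∣ W.Δ := Int.natCast_dvd.mpr (Nat.dvd_of_mem_primeFactors hp)
    obtain ⟨k, hk⟩ := hW.odd_val p hpp hpd
    have hk' : W.Δ.natAbs.factorization p = 2 * k + 1 := by
      rw [← hk, Nat.factorization_def _ hpp]
      rfl
    rw [hk', show (2 * k + 1) / 2 = k by omega, pow_succ, pow_mul, ← pow_mul p k 2, mul_comm k 2,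
      pow_mul]
    ring
  rw [h1] at h3
  refine ⟨∏ p ∈ W.Δ.natAbs.primeFactors, p ^ (W.Δ.natAbs.factorization p / 2), ?_, ?_⟩
  · intro h0
    rw [h0] at h3
    exact hn (by rw [h3]; ring)
  · have h4 : W.Δ = -(W.Δ.natAbs : ℤ) := by
      rw [Int.ofNat_natAbs_of_nonpos hW.neg.le]; ring
    have h5 := congrArg (fun n : ℕ => -(n : ℤ)) h3
    rw [← h4] at h5
    rw [Nat.cast_mul, Nat.cast_pow, ← neg_mul] at h5
    exact h5

/-- `G_K` is the stabiliser of any square root of `Δ`. -/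
theorem mem_GK_iff {W : WeierstrassCurve ℤ} (hW : GoodCurve W) {δ : Qb}
    (hδ : δ ^ 2 = ((W.Δ : ℤ) : Qb)) (g : GQ) : g ∈ GK (cond W) ↔ g δ = δ := by
  obtain ⟨m, hm0, hm⟩ := exists_disc_eq hW
  have hm0' : (m : Qb) ≠ 0 := by exact_mod_cast hm0
  constructor
  · intro hg
    have h1 : (δ / m) ^ 2 = -(cond W : Qb) := by
      rw [div_pow, hδ, hm]
      push_cast
      field_simp
    have h2 := hg (δ / m) h1
    rw [map_div₀, map_natCast] at h2
    exact (div_left_inj' hm0').mp h2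
  · intro hg x hx
    have h1 : (m * x) ^ 2 = δ ^ 2 := by
      rw [hδ, hm, mul_pow, hx]
      push_cast
      ring
    have h2 : g (m * x) = m * x := by
      rcases sq_eq_sq_iff_eq_or_eq_neg.mp h1 with h | h
      · rw [h, hg]
      · rw [h, map_neg, hg]
    rw [map_mul, map_natCast] at h2
    exact mul_left_cancel₀ hm0' h2

/-! ### involutions of `ℚ̄` -/

section involution

variable {c : GQ}

/-- an involution of `ℚ̄` moves `i` -/
theorem involution_I (hc : c * c = 1) (hc1 : c ≠ 1) {i : Qb} (hi : i ^ 2 = -1) : c i = -i := by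
  have hcc : ∀ x : Qb, c (c x) = x := fun x => by
    rw [← AlgEquiv.mul_apply, hc, AlgEquiv.one_apply]
  by_contra hne
  have hci : c i = i := by
    have h : (c i) ^ 2 = i ^ 2 := by rw [← map_pow, hi, map_neg, map_one]
    exact (sq_eq_sq_iff_eq_or_eq_neg.mp h).resolve_right hne
  obtain ⟨x, hx⟩ : ∃ x : Qb, c x ≠ x := by
    by_contra hcon
    push Not at hcon
    exact hc1 (AlgEquiv.ext hcon)
  set α : Qb := x - c x with hα
  have hα0 : α ≠ 0 := sub_ne_zero.mpr (Ne.symm hx)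
  have hcα : c α = -α := by rw [hα, map_sub, hcc]; ring
  obtain ⟨β, hβ⟩ := IsAlgClosed.exists_pow_nat_eq α (n := 2) (by norm_num)
  have h1 : (β * c β) ^ 2 = (i * α) ^ 2 := by
    rw [mul_pow, ← map_pow, hβ, hcα, mul_pow, hi]; ring
  have h2 : c (β * c β) = β * c β := by rw [map_mul, hcc, mul_comm]
  have h3 : c (i * α) = -(i * α) := by rw [map_mul, hci, hcα]; ring
  have h4 : i * α = 0 := by
    rcases sq_eq_sq_iff_eq_or_eq_neg.mp h1 with h | h
    · rw [h, h3] at h2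
      exact self_eq_neg.mp h2.symm
    · rw [h, map_neg, h3, neg_neg] at h2
      exact self_eq_neg.mp h2
  have hi0 : i ≠ 0 := by rintro rfl; norm_num at hi
  exact (mul_ne_zero hi0 hα0) h4

/-- in the fixed field of an involution a sum of two squares is a square -/
theorem involution_sum_sq (hc : c * c = 1) (hc1 : c ≠ 1) {a b : Qb} (ha : c a = a) (hb : c b = b) :
    ∃ u : Qb, c u = u ∧ u ^ 2 = a ^ 2 + b ^ 2 := by
  obtain ⟨i, hi⟩ := IsAlgClosed.exists_pow_nat_eq (-1 : Qb) (n := 2) (by norm_num)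
  have hci := involution_I hc hc1 hi
  have hcc : ∀ x : Qb, c (c x) = x := fun x => by
    rw [← AlgEquiv.mul_apply, hc, AlgEquiv.one_apply]
  obtain ⟨z, hz⟩ := IsAlgClosed.exists_pow_nat_eq (a + b * i) (n := 2) (by norm_num)
  refine ⟨z * c z, by rw [map_mul, hcc, mul_comm], ?_⟩
  rw [mul_pow, ← map_pow, hz, map_add, map_mul, ha, hb, hci]
  linear_combination (-b ^ 2) * hi

/-- an involution of `ℚ̄` moves the square roots of negative integers -/
theorem involution_sqrt (hc : c * c = 1) (hc1 : c ≠ 1) {n : ℕ} (hn : n ≠ 0) {δ : Qb}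
    (hδ : δ ^ 2 = -(n : Qb)) : c δ = -δ := by
  have h : (c δ) ^ 2 = δ ^ 2 := by rw [← map_pow, hδ, map_neg, map_natCast]
  rcases sq_eq_sq_iff_eq_or_eq_neg.mp h with h1 | h1
  swap
  · exact h1
  exfalso
  obtain ⟨a, b, a', b', hab⟩ := Nat.sum_four_squares n
  obtain ⟨u, hu, hu2⟩ := involution_sum_sq hc hc1 (map_natCast c a) (map_natCast c b)
  obtain ⟨u', hu', hu2'⟩ := involution_sum_sq hc hc1 (map_natCast c a') (map_natCast c b')
  obtain ⟨w, hw, hw2⟩ := involution_sum_sq hc hc1 hu hu'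
  have hwn : w ^ 2 = (n : Qb) := by
    rw [hw2, hu2, hu2', ← hab]; push_cast; ring
  have hw0 : w ≠ 0 := by
    rintro rfl
    rw [zero_pow two_ne_zero] at hwn
    exact hn (by exact_mod_cast hwn.symm)
  have hi : (δ / w) ^ 2 = -1 := by
    rw [div_pow, hδ, hwn]
    have : (n : Qb) ≠ 0 := by exact_mod_cast hn
    field_simp
  have h2 := involution_I hc hc1 hi
  rw [map_div₀, h1, hw] at h2
  have h3 : δ / w = 0 := self_eq_neg.mp h2
  rw [h3, zero_pow two_ne_zero] at hi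
  norm_num at hi

end involution

/-- elements of `ℚ̄` fixed by the Galois group are rational -/
theorem exists_rat_of_fixed {x : Qb} (h : ∀ g : GQ, g x = x) : ∃ q : ℚ, algebraMap ℚ Qb q = x := by
  have := isGalois_Qbar
  have h1 := (InfiniteGalois.mem_bot_iff_fixed (k := ℚ) (K := Qb) x).mpr h
  exact IntermediateField.mem_bot.mp h1

end Fermat.Agent.H73LT
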