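import Fermat.Agent.H87Glue
import Fermat.Agent.H73LTSqrt

/-!
# The 2-torsion and `√Δ`

(helper73, module M8(a), (E3), of LT-MOD2.)
-/

set_option autoImplicit false

open WeierstrassCurve WeierstrassCurve.Affine WeierstrassCurve.Affine.Point
open scoped WeierstrassCurve.Affine
open Fermat.Agent.H53 (GQ M2)

namespace Fermat.Agent.H73LT

open Fermat.Agent.H87 Fermat.Agent.H87.Tate

local notation "Qb" => AlgebraicClosure ℚ

section point

variable {W : WeierstrassCurve ℚ}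

/-- the `x`-coordinate, with value `0` at infinity -/
noncomputable def xc : (W⁄Qb).Point → Qb
  | .zero => 0
  | .some x _ _ => x

lemma xc_smul (σ : GQ) (P : (W⁄Qb).Point) : xc (σ • P) = σ (xc P) := by
  rcases P with _ | ⟨x, y, h⟩
  · exact (map_zero σ).symm
  · rfl

/-- two torsion: same `x` implies equal -/
lemma eq_of_xc_eq {P Q : (W⁄Qb).Point} (hP : P ≠ 0) (hQ : Q ≠ 0) (h2 : 2 • P = 0)
    (h : xc P = xc Q) : P = Q := by
  rcases P with _ | ⟨x, y, hx⟩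
  · exact absurd rfl hP
  rcases Q with _ | ⟨x', y', hx'⟩
  · exact absurd rfl hQ
  have hxx : x = x' := h
  subst hxx
  rw [two_nsmul, add_eq_zero_iff_eq_neg] at h2
  rcases Y_eq_of_X_eq hx.1 hx'.1 rfl with hy | hy
  · subst hy; rfl
  · rw [h2, neg_some, some.injEq]
    refine ⟨rfl, ?_⟩
    rw [hy, negY_negY]

/-- the cubic equation of the 2-torsion -/
lemma two_torsion_eq {P : (W⁄Qb).Point} (hP : P ≠ 0) (h2 : 2 • P = 0) :
    4 * (xc P) ^ 3 + (W⁄Qb).b₂ * (xc P) ^ 2 + 2 * (W⁄Qb).b₄ * (xc P) + (W⁄Qb).b₆ = 0 := by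
  rcases P with _ | ⟨x, y, hx⟩
  · exact absurd rfl hP
  rw [two_nsmul, add_eq_zero_iff_eq_neg, neg_some, some.injEq] at h2
  have h3 := h2.2
  rw [negY] at h3
  have h4 := (equation_iff _ _).mp hx.1
  change 4 * x ^ 3 + (W⁄Qb).b₂ * x ^ 2 + 2 * (W⁄Qb).b₄ * x + (W⁄Qb).b₆ = 0
  simp only [WeierstrassCurve.b₂, WeierstrassCurve.b₄, WeierstrassCurve.b₆]
  linear_combination (-4) * h4 + (2 * y + (W⁄Qb).a₁ * x + (W⁄Qb).a₃) * h3

/-- the discriminant from three distinct roots -/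
lemma disc_of_roots {F : Type*} [Field F] (V : WeierstrassCurve F) (h4 : (4 : F) ≠ 0)
    {e₀ e₁ e₂ : F} (h₀ : 4 * e₀ ^ 3 + V.b₂ * e₀ ^ 2 + 2 * V.b₄ * e₀ + V.b₆ = 0)
    (h₁ : 4 * e₁ ^ 3 + V.b₂ * e₁ ^ 2 + 2 * V.b₄ * e₁ + V.b₆ = 0)
    (h₂ : 4 * e₂ ^ 3 + V.b₂ * e₂ ^ 2 + 2 * V.b₄ * e₂ + V.b₆ = 0)
    (h01 : e₀ ≠ e₁) (h02 : e₀ ≠ e₂) (h12 : e₁ ≠ e₂) :
    (4 * (e₀ - e₁) * (e₀ - e₂) * (e₁ - e₂)) ^ 2 = V.Δ := by
  have k01 : 4 * (e₀ ^ 2 + e₀ * e₁ + e₁ ^ 2) + V.b₂ * (e₀ + e₁) + 2 * V.b₄ = 0 := by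
    have : (e₀ - e₁) * (4 * (e₀ ^ 2 + e₀ * e₁ + e₁ ^ 2) + V.b₂ * (e₀ + e₁) + 2 * V.b₄) = 0 := by
      linear_combination h₀ - h₁
    exact (mul_eq_zero.mp this).resolve_left (sub_ne_zero.mpr h01)
  have k02 : 4 * (e₀ ^ 2 + e₀ * e₂ + e₂ ^ 2) + V.b₂ * (e₀ + e₂) + 2 * V.b₄ = 0 := by
    have : (e₀ - e₂) * (4 * (e₀ ^ 2 + e₀ * e₂ + e₂ ^ 2) + V.b₂ * (e₀ + e₂) + 2 * V.b₄) = 0 := by
      linear_combination h₀ - h₂
    exact (mul_eq_zero.mp this).resolve_left (sub_ne_zero.mpr h02)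
  have hb2 : V.b₂ = -4 * (e₀ + e₁ + e₂) := by
    have : (e₁ - e₂) * (4 * (e₀ + e₁ + e₂) + V.b₂) = 0 := by linear_combination k01 - k02
    linear_combination (mul_eq_zero.mp this).resolve_left (sub_ne_zero.mpr h12)
  have h2 : (2 : F) ≠ 0 := fun h => h4 (by linear_combination 2 * h)
  have hb4 : V.b₄ = 2 * (e₀ * e₁ + e₀ * e₂ + e₁ * e₂) := by
    apply mul_left_cancel₀ h2
    rw [hb2] at k01
    linear_combination k01
  have hb6 : V.b₆ = -4 * (e₀ * e₁ * e₂) := by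
    rw [hb2, hb4] at h₀
    linear_combination h₀
  apply mul_left_cancel₀ h4
  have hb8 := V.b_relation
  rw [WeierstrassCurve.Δ]
  have e : 4 * (-V.b₂ ^ 2 * V.b₈ - 8 * V.b₄ ^ 3 - 27 * V.b₆ ^ 2 + 9 * V.b₂ * V.b₄ * V.b₆) =
      -V.b₂ ^ 2 * (V.b₂ * V.b₆ - V.b₄ ^ 2) - 32 * V.b₄ ^ 3 - 108 * V.b₆ ^ 2
        + 36 * V.b₂ * V.b₄ * V.b₆ := by rw [← hb8]; ring
  rw [e, hb2, hb4, hb6]
  ring

end point

/-! ### the parity of an invertible matrix over `𝔽₂` -/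

/-- `GL₂(𝔽₂) ≅ S₃`: `1` on the even elements, `-1` on the odd ones (transpositions) -/
def sgn2 (M : Matrix (Fin 2) (Fin 2) (ZMod 2)) : ℤ :=
  if M = 1 ∨ M.trace = 1 then 1 else -1

lemma sgn2_eq (M : Matrix (Fin 2) (Fin 2) (ZMod 2)) : sgn2 M = 1 ∨ sgn2 M = -1 := by
  unfold sgn2; split_ifs
  · exact Or.inl rfl
  · exact Or.inr rfl

@[simp] lemma sgn2_one : sgn2 1 = 1 := if_pos (Or.inl rfl)

lemma sgn2_eq_one_iff {M : Matrix (Fin 2) (Fin 2) (ZMod 2)} :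
    sgn2 M = 1 ↔ M = 1 ∨ M.trace = 1 := by
  unfold sgn2
  split_ifs with h
  · exact ⟨fun _ => h, fun _ => rfl⟩
  · exact ⟨fun h' => absurd h' (by norm_num), fun h' => absurd h' h⟩

lemma zmod2_cases (a : ZMod 2) : a = 0 ∨ a = 1 := by revert a; decide

lemma gl2_cases : ∀ M : Matrix (Fin 2) (Fin 2) (ZMod 2), M.det = 1 →
    M = !![1, 0; 0, 1] ∨ M = !![0, 1; 1, 0] ∨ M = !![1, 1; 0, 1] ∨ M = !![1, 0; 1, 1] ∨
      M = !![0, 1; 1, 1] ∨ M = !![1, 1; 1, 0] := by decide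

/-- the action of a matrix on the three roots -/
lemma sqrt_of_perm {F : Type*} [Field F] (σ : F →+* F) {e₀ e₁ e₂ : F}
    (f : ZMod 2 → ZMod 2 → F) (h10 : f 1 0 = e₀) (h01 : f 0 1 = e₁) (h11 : f 1 1 = e₂)
    (M : Matrix (Fin 2) (Fin 2) (ZMod 2)) (hM : M.det = 1)
    (h₀ : σ e₀ = f (M 0 0) (M 1 0)) (h₁ : σ e₁ = f (M 0 1) (M 1 1))
    (h₂ : σ e₂ = f (M 0 0 + M 0 1) (M 1 0 + M 1 1)) :
    σ (4 * (e₀ - e₁) * (e₀ - e₂) * (e₁ - e₂)) =
      (sgn2 M : F) * (4 * (e₀ - e₁) * (e₀ - e₂) * (e₁ - e₂)) := by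
  have e11 : (1 : ZMod 2) + 1 = 0 := by decide
  simp only [map_mul, map_sub, map_ofNat]
  rcases gl2_cases M hM with rfl | rfl | rfl | rfl | rfl | rfl
  · change σ e₀ = f 1 0 at h₀
    change σ e₁ = f 0 1 at h₁
    change σ e₂ = f (1 + 0) (0 + 1) at h₂
    simp only [zero_add, add_zero, e11, h10, h01, h11] at h₀ h₁ h₂
    rw [show sgn2 !![1, 0; 0, 1] = 1 by decide, h₀, h₁, h₂]
    push_cast
    ring
  · change σ e₀ = f 0 1 at h₀
    change σ e₁ = f 1 0 at h₁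
    change σ e₂ = f (0 + 1) (1 + 0) at h₂
    simp only [zero_add, add_zero, e11, h10, h01, h11] at h₀ h₁ h₂
    rw [show sgn2 !![0, 1; 1, 0] = -1 by decide, h₀, h₁, h₂]
    push_cast
    ring
  · change σ e₀ = f 1 0 at h₀
    change σ e₁ = f 1 1 at h₁
    change σ e₂ = f (1 + 1) (0 + 1) at h₂
    simp only [zero_add, add_zero, e11, h10, h01, h11] at h₀ h₁ h₂
    rw [show sgn2 !![1, 1; 0, 1] = -1 by decide, h₀, h₁, h₂]
    push_cast
    ring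
  · change σ e₀ = f 1 1 at h₀
    change σ e₁ = f 0 1 at h₁
    change σ e₂ = f (1 + 0) (1 + 1) at h₂
    simp only [zero_add, add_zero, e11, h10, h01, h11] at h₀ h₁ h₂
    rw [show sgn2 !![1, 0; 1, 1] = -1 by decide, h₀, h₁, h₂]
    push_cast
    ring
  · change σ e₀ = f 0 1 at h₀
    change σ e₁ = f 1 1 at h₁
    change σ e₂ = f (0 + 1) (1 + 1) at h₂
    simp only [zero_add, add_zero, e11, h10, h01, h11] at h₀ h₁ h₂
    rw [show sgn2 !![0, 1; 1, 1] = 1 by decide, h₀, h₁, h₂]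
    push_cast
    ring
  · change σ e₀ = f 1 1 at h₀
    change σ e₁ = f 1 0 at h₁
    change σ e₂ = f (1 + 1) (1 + 0) at h₂
    simp only [zero_add, add_zero, e11, h10, h01, h11] at h₀ h₁ h₂
    rw [show sgn2 !![1, 1; 1, 0] = 1 by decide, h₀, h₁, h₂]
    push_cast
    ring

/-! ### the residual representation at `2` -/

section rbar

variable (W : WeierstrassCurve ℚ) (hΔ : W.Δ ≠ 0)

/-- The residual representation in matrix form: the reduction of the Tate module matrix. -/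
noncomputable def rbar : GQ →* M2 (ZMod 2) :=
  ((PadicInt.toZMod (p := 2)).mapMatrix : M2 ℤ_[2] →+* M2 (ZMod 2)).toMonoidHom.comp
    (tateMat W hΔ 2)

lemma rbar_apply (σ : GQ) : rbar W hΔ σ = (tateMat W hΔ 2 σ).map (PadicInt.toZMod (p := 2)) := rfl

/-- reduction along any ring homomorphism to a ring of characteristic 2 -/
lemma map_eq_rbar_map {R : Type*} [CommRing R] (f : ℤ_[2] →+* R) (φ : ZMod 2 →+* R) (σ : GQ) :
    (tateMat W hΔ 2 σ).map f = (rbar W hΔ σ).map φ := by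
  have h0 : ((2 : ℕ) : R) = 0 := by
    rw [← map_natCast φ, ZMod.natCast_self, _root_.map_zero]
  have h := padic_ringHom_ext 2 h0 f (φ.comp (PadicInt.toZMod (p := 2)))
  rw [h, rbar_apply, Matrix.map_map]
  rfl

lemma exists_basis_rbar : ∃ b : Module.Basis (Fin 2) (ZMod 2) (Tor W 2), ∀ σ,
    rbar W hΔ σ = LinearMap.toMatrix b b (rep W 2 σ) := by
  obtain ⟨b, hb⟩ := exists_level_one W hΔ 2 2 (pow_one 2)
  refine ⟨b, fun σ => ?_⟩
  rw [← hb σ, rbar_apply]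
  congr 2
  exact padic_ringHom_ext 2 (ZMod.natCast_self 2) _ _

lemma rbar_mul_inv (σ : GQ) : rbar W hΔ σ * rbar W hΔ σ⁻¹ = 1 := by
  rw [← map_mul, mul_inv_cancel, map_one]

lemma rbar_det (σ : GQ) : (rbar W hΔ σ).det = 1 := by
  have h := congrArg Matrix.det (rbar_mul_inv W hΔ σ)
  rw [Matrix.det_mul, Matrix.det_one] at h
  rcases zmod2_cases (rbar W hΔ σ).det with h1 | h1
  · rw [h1, zero_mul] at h; exact absurd h (by decide)
  · exact h1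

/-- **(E3)**  The parity of the action on the 2-torsion is the action on `√Δ`. -/
theorem map_sqrt_disc {δ : Qb} (hδ : δ ^ 2 = algebraMap ℚ Qb W.Δ) (σ : GQ) :
    σ δ = (sgn2 (rbar W hΔ σ) : Qb) * δ := by
  obtain ⟨b, hb⟩ := exists_basis_rbar W hΔ
  have htor : ∀ x : Tor W 2, 2 • (x : (W⁄Qb).Point) = 0 := by
    intro x
    have h := (Submodule.mem_torsionBy_iff _ _).mp x.2
    rw [← natCast_zsmul]
    exact h
  have hne0 : (b 0) ≠ 0 := b.ne_zero 0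
  have hne1 : (b 1) ≠ 0 := b.ne_zero 1
  have h01 : b 0 ≠ b 1 := fun h => absurd (b.injective h) (by decide)
  have hself : ∀ x : Tor W 2, x + x = 0 := fun x => by
    apply Subtype.ext
    have := htor x
    rw [two_nsmul] at this
    exact this
  have hne2 : b 0 + b 1 ≠ 0 := by
    intro h
    apply h01
    have := hself (b 1)
    exact add_right_cancel (h.trans this.symm)
  have hxne : ∀ {x y : Tor W 2}, x ≠ 0 → y ≠ 0 → x ≠ y → xc (x : (W⁄Qb).Point) ≠ xc (y : (W⁄Qb).Point) := by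
    intro x y hx hy hxy h
    apply hxy
    apply Subtype.ext
    exact eq_of_xc_eq (fun h => hx (Subtype.ext h)) (fun h => hy (Subtype.ext h)) (htor x) h
  have heq : ∀ {x : Tor W 2}, x ≠ 0 → 4 * (xc (x : (W⁄Qb).Point)) ^ 3 +
      (W⁄Qb).b₂ * (xc (x : (W⁄Qb).Point)) ^ 2 + 2 * (W⁄Qb).b₄ * (xc (x : (W⁄Qb).Point)) +
        (W⁄Qb).b₆ = 0 := fun {x} hx =>
    two_torsion_eq (fun h => hx (Subtype.ext h)) (htor x)
  set e₀ := xc (b 0 : (W⁄Qb).Point) with he0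
  set e₁ := xc (b 1 : (W⁄Qb).Point) with he1
  set e₂ := xc ((b 0 + b 1 : Tor W 2) : (W⁄Qb).Point) with he2
  have k01 : e₀ ≠ e₁ := hxne hne0 hne1 h01
  have k02 : e₀ ≠ e₂ := hxne hne0 hne2 (by
    intro h; apply hne1
    have : b 0 + 0 = b 0 + b 1 := by rw [add_zero]; exact h
    exact (add_left_cancel this).symm)
  have k12 : e₁ ≠ e₂ := hxne hne1 hne2 (by
    intro h; apply hne0
    have : 0 + b 1 = b 0 + b 1 := by rw [zero_add]; exact h
    exact (add_right_cancel this).symm)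
  have hdisc := disc_of_roots (W⁄Qb) (by norm_num) (heq hne0) (heq hne1) (heq hne2) k01 k02 k12
  have hΔQ : (W⁄Qb).Δ = algebraMap ℚ Qb W.Δ := WeierstrassCurve.map_Δ _ _
  -- the action on the roots
  let f : ZMod 2 → ZMod 2 → Qb := fun i j => xc ((i • b 0 + j • b 1 : Tor W 2) : (W⁄Qb).Point)
  have hrep : ∀ j, rep W 2 σ (b j) = rbar W hΔ σ 0 j • b 0 + rbar W hΔ σ 1 j • b 1 := by
    intro j
    have h := b.sum_repr (rep W 2 σ (b j))
    rw [Fin.sum_univ_two] at h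
    rw [← h, hb σ, LinearMap.toMatrix_apply, LinearMap.toMatrix_apply]
  have hσ : ∀ x : Tor W 2, σ (xc (x : (W⁄Qb).Point)) = xc ((rep W 2 σ x : Tor W 2) : (W⁄Qb).Point) := by
    intro x
    rw [← xc_smul]
    rfl
  have key := sqrt_of_perm (σ : Qb →+* Qb) (e₀ := e₀) (e₁ := e₁) (e₂ := e₂) f
    (by simp [f, he0]) (by simp [f, he1]) (by simp [f, he2]) (rbar W hΔ σ) (rbar_det W hΔ σ)
    (by
      change σ e₀ = _
      rw [he0, hσ, hrep 0]) (by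
      change σ e₁ = _
      rw [he1, hσ, hrep 1]) (by
      change σ e₂ = _
      rw [he2, hσ, map_add, hrep 0, hrep 1]
      congr 2
      rw [add_smul, add_smul]
      abel)
  have hsq : δ ^ 2 = (4 * (e₀ - e₁) * (e₀ - e₂) * (e₁ - e₂)) ^ 2 := by
    rw [hδ, hdisc, hΔQ]
  rcases sq_eq_sq_iff_eq_or_eq_neg.mp hsq with h | h
  · rw [h]; exact key
  · rw [h, map_neg, mul_neg]
    exact congrArg Neg.neg key

end rbar

end Fermat.Agent.H73LT
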