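import Fermat.Agent.H73LTType
import Fermat.Agent.H73LTTwo
import Fermat.Agent.H73LTArith

/-!
# Block E of LT-MOD2: the 2-adic representation of a good curve

(helper73, module M8(a).)  Main result: `blockE : LT.BlockE`.
-/

set_option autoImplicit false

open WeierstrassCurve WeierstrassCurve.Affine WeierstrassCurve.Affine.Point
open scoped WeierstrassCurve.Affine
open Fermat.Agent.H53 (GQ M2 mapMat)

namespace Fermat.Agent.H73LT

open Fermat.Agent.H87 Fermat.Agent.H87.Tate Fermat.Agent.H87.Glue Fermat.Agent.LT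

/-! ### `GL₂(𝔽₂)` -/

theorem gl2_fixed : ∀ t : Matrix (Fin 2) (Fin 2) (ZMod 2), t.det = 1 → sgn2 t = -1 →
    ∃ w : Fin 2 → ZMod 2, w ≠ 0 ∧ t.mulVec w = w := by decide

theorem gl2_three : ∀ t h : Matrix (Fin 2) (Fin 2) (ZMod 2), t.det = 1 → h.det = 1 →
    sgn2 t = -1 → (∀ w : Fin 2 → ZMod 2, w ≠ 0 → t.mulVec w = w → h.mulVec w ≠ w) →
      h.trace = 1 ∨ (t * h).trace = 1 := by
  intro t h ht hh
  rcases gl2_cases t ht with rfl | rfl | rfl | rfl | rfl | rfl <;>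
  rcases gl2_cases h hh with rfl | rfl | rfl | rfl | rfl | rfl <;> decide

theorem gl2_gen : ∀ t u : Matrix (Fin 2) (Fin 2) (ZMod 2), t.det = 1 → u.det = 1 →
    sgn2 t = -1 → u.trace = 1 → ∀ M : Matrix (Fin 2) (Fin 2) (ZMod 2), M.det = 1 →
      M = 1 ∨ M = u ∨ M = u * u ∨ M = t ∨ M = t * u ∨ M = t * (u * u) := by
  intro t u ht hu
  rcases gl2_cases t ht with rfl | rfl | rfl | rfl | rfl | rfl <;>
  rcases gl2_cases u hu with rfl | rfl | rfl | rfl | rfl | rfl <;> decide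

theorem gl2_fixed_unique : ∀ t : Matrix (Fin 2) (Fin 2) (ZMod 2), t.det = 1 → sgn2 t = -1 →
    ∀ w w' : Fin 2 → ZMod 2, w ≠ 0 → t.mulVec w = w → w' ≠ 0 → t.mulVec w' = w' → w' = w := by
  intro t ht
  rcases gl2_cases t ht with rfl | rfl | rfl | rfl | rfl | rfl <;> decide

/-- A subgroup of `GL₂(𝔽₂)` containing an odd element and without common fixed vector is
everything. -/
theorem surj_of_no_fixed {G : Type*} [Group G] (r : G →* Matrix (Fin 2) (Fin 2) (ZMod 2))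
    (hdet : ∀ g, (r g).det = 1) {t : G} (ht : sgn2 (r t) = -1)
    (hfix : ∀ w : Fin 2 → ZMod 2, w ≠ 0 → ∃ g, (r g).mulVec w ≠ w)
    (M : Matrix (Fin 2) (Fin 2) (ZMod 2)) (hM : M.det = 1) : ∃ g, r g = M := by
  obtain ⟨w, hw0, hw⟩ := gl2_fixed (r t) (hdet t) ht
  obtain ⟨h, hh⟩ := hfix w hw0
  obtain ⟨u, hu⟩ : ∃ u, (r u).trace = 1 := by
    rcases gl2_three (r t) (r h) (hdet t) (hdet h) ht (fun w' hw'0 hw' => by
      rw [gl2_fixed_unique (r t) (hdet t) ht w w' hw0 hw hw'0 hw']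
      exact hh) with h1 | h1
    · exact ⟨h, h1⟩
    · exact ⟨t * h, by rw [map_mul]; exact h1⟩
  rcases gl2_gen (r t) (r u) (hdet t) (hdet u) ht hu M hM with h1 | h1 | h1 | h1 | h1 | h1
  · exact ⟨1, by rw [map_one, h1]⟩
  · exact ⟨u, h1.symm⟩
  · exact ⟨u * u, by rw [map_mul, h1]⟩
  · exact ⟨t, h1.symm⟩
  · exact ⟨t * u, by rw [map_mul, h1]⟩
  · exact ⟨t * (u * u), by rw [map_mul, map_mul, h1]⟩

/-! ### the curve -/

section curve

variable {W : WeierstrassCurve ℤ} (hW : GoodCurve W)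

/-- the 2-adic matrix representation -/
noncomputable def rE (hW : GoodCurve W) : GQ →* M2 ℤ_[2] :=
  tateMat (EQ W) (EC.map_int_Δ_ne_zero hW.neg.ne) 2

lemma mapMat_rE (g : GQ) : mapMat PadicInt.toZMod (rE hW) g =
    rbar (EQ W) (EC.map_int_Δ_ne_zero hW.neg.ne) g := rfl

/-- a square root of the discriminant -/
theorem exists_sqrt_disc (W : WeierstrassCurve ℤ) : ∃ δ : Qb, δ ^ 2 = ((W.Δ : ℤ) : Qb) :=
  IsAlgClosed.exists_pow_nat_eq _ (by norm_num)

theorem map_sqrt_disc_int {δ : Qb} (hδ : δ ^ 2 = ((W.Δ : ℤ) : Qb)) (g : GQ) :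
    g δ = (sgn2 (mapMat PadicInt.toZMod (rE hW) g) : Qb) * δ := by
  refine map_sqrt_disc (EQ W) (EC.map_int_Δ_ne_zero hW.neg.ne) ?_ g
  rw [hδ, WeierstrassCurve.map_Δ]
  simp

theorem sgn2_eq_one_iff_fix {δ : Qb} (hδ : δ ^ 2 = ((W.Δ : ℤ) : Qb)) (g : GQ) :
    sgn2 (mapMat PadicInt.toZMod (rE hW) g) = 1 ↔ g δ = δ := by
  have hδ0 : δ ≠ 0 := by
    rintro rfl
    rw [zero_pow two_ne_zero] at hδ
    exact hW.neg.ne (by exact_mod_cast hδ.symm)
  rw [map_sqrt_disc_int hW hδ g]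
  rcases sgn2_eq (mapMat PadicInt.toZMod (rE hW) g) with h | h
  · rw [h]; simp
  · rw [h]
    constructor
    · intro h1; norm_num at h1
    · intro h1
      push_cast at h1
      rw [neg_one_mul] at h1
      exact absurd (self_eq_neg.mp h1.symm) hδ0

/-- membership in `G_K` in terms of the residual representation -/
theorem mem_GK_iff_sgn2 (g : GQ) :
    g ∈ GK (LT.cond W) ↔ sgn2 (mapMat PadicInt.toZMod (rE hW) g) = 1 := by
  obtain ⟨δ, hδ⟩ := exists_sqrt_disc W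
  rw [mem_GK_iff hW hδ, sgn2_eq_one_iff_fix hW hδ]

/-- inertia at a bad prime contains an element acting as a transposition on the 2-torsion -/
theorem exists_inertia_odd {v : ℕ} (hv : v.Prime) (hvΔ : (v : ℤ) ∣ W.Δ)
    {P : ValuationSubring Qb} (hP : P.LiesOverPrime v) :
    ∃ g ∈ P.inertiaSubgroupIn ℚ, sgn2 (mapMat PadicInt.toZMod (rE hW) g) = -1 := by
  obtain ⟨δ, hδ⟩ := exists_sqrt_disc W
  obtain ⟨g, hg, hgδ⟩ := exists_inertia_neg_sqrt hv hW.neg.ne (hW.odd_val v hv hvΔ) hδ hP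
  refine ⟨g, hg, (sgn2_eq _).resolve_left fun h => ?_⟩
  have h1 := (sgn2_eq_one_iff_fix hW hδ g).mp h
  rw [hgδ] at h1
  have hδ0 : δ ≠ 0 := by
    rintro rfl
    rw [zero_pow two_ne_zero] at hδ
    exact hW.neg.ne (by exact_mod_cast hδ.symm)
  exact hδ0 (self_eq_neg.mp h1.symm)

lemma det_mapMat (g : GQ) : (mapMat PadicInt.toZMod (rE hW) g).det = 1 :=
  rbar_det (EQ W) (EC.map_int_Δ_ne_zero hW.neg.ne) g

/-- no common fixed vector on the 2-torsion -/
theorem no_fixed_vector (w : Fin 2 → ZMod 2) (hw : w ≠ 0) :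
    ∃ g, (mapMat PadicInt.toZMod (rE hW) g).mulVec w ≠ w := by
  by_contra hcon
  push Not at hcon
  obtain ⟨b, hb⟩ := exists_basis_rbar (EQ W) (EC.map_int_Δ_ne_zero hW.neg.ne)
  set x : Tor (EQ W) 2 := b.equivFun.symm w with hx
  have hx0 : x ≠ 0 := by
    intro h
    apply hw
    have h1 := congrArg b.equivFun h
    rwa [hx, LinearEquiv.apply_symm_apply, _root_.map_zero] at h1
  have hfix : ∀ g : GQ, rep (EQ W) 2 g x = x := by
    intro g
    apply b.equivFun.injective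
    have h1 := LinearMap.toMatrix_mulVec_repr b b (rep (EQ W) 2 g) x
    rw [← hb g] at h1
    have h2 : (b.repr x : Fin 2 → ZMod 2) = w := by
      have : b.equivFun x = w := by rw [hx, LinearEquiv.apply_symm_apply]
      exact this
    rw [h2] at h1
    have h3 : b.equivFun x = w := h2
    rw [h3]
    have h4 : b.equivFun (rep (EQ W) 2 g x) = (b.repr (rep (EQ W) 2 g x) : Fin 2 → ZMod 2) := rfl
    rw [h4, ← h1]
    exact hcon g
  have hx0' : (x : ((EQ W)⁄Qb).Point) ≠ 0 := fun h => hx0 (Subtype.ext h)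
  have h2x : 2 • (x : ((EQ W)⁄Qb).Point) = 0 := by
    have h := (Submodule.mem_torsionBy_iff _ _).mp x.2
    rw [← natCast_zsmul]
    exact h
  obtain ⟨q, hq⟩ := exists_rat_of_fixed (x := xc (x : ((EQ W)⁄Qb).Point)) (fun g => by
    rw [← xc_smul]
    exact congrArg (fun y : Tor (EQ W) 2 => xc (y : ((EQ W)⁄Qb).Point)) (hfix g))
  have heq := two_torsion_eq hx0' h2x
  rw [← hq] at heq
  apply no_rat_root hW q
  have hinj : Function.Injective (algebraMap ℚ Qb) := (algebraMap ℚ Qb).injective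
  apply hinj
  have e2 : ((EQ W)⁄Qb).b₂ = algebraMap ℚ Qb ((W.b₂ : ℤ) : ℚ) := by
    change ((W.map (Int.castRingHom ℚ)).map (algebraMap ℚ Qb)).b₂ = _
    rw [WeierstrassCurve.map_b₂, WeierstrassCurve.map_b₂]; rfl
  have e4 : ((EQ W)⁄Qb).b₄ = algebraMap ℚ Qb ((W.b₄ : ℤ) : ℚ) := by
    change ((W.map (Int.castRingHom ℚ)).map (algebraMap ℚ Qb)).b₄ = _
    rw [WeierstrassCurve.map_b₄, WeierstrassCurve.map_b₄]; rfl
  have e6 : ((EQ W)⁄Qb).b₆ = algebraMap ℚ Qb ((W.b₆ : ℤ) : ℚ) := by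
    change ((W.map (Int.castRingHom ℚ)).map (algebraMap ℚ Qb)).b₆ = _
    rw [WeierstrassCurve.map_b₆, WeierstrassCurve.map_b₆]; rfl
  rw [e2, e4, e6] at heq
  simp only [_root_.map_add, _root_.map_mul, map_pow, map_ofNat, _root_.map_zero]
  exact heq

/-- residual surjectivity -/
theorem surj_rE (M : M2 (ZMod 2)) (hM : M.det ≠ 0) :
    ∃ g, mapMat PadicInt.toZMod (rE hW) g = M := by
  have hM1 : M.det = 1 := (zmod2_cases M.det).resolve_left hM
  obtain ⟨P, hP⟩ := H54.exists_liesOverPrime Nat.prime_two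
  obtain ⟨t, -, ht⟩ := exists_inertia_odd hW Nat.prime_two (by exact_mod_cast hW.two) hP
  exact surj_of_no_fixed (mapMat PadicInt.toZMod (rE hW)) (det_mapMat hW) ht
    (no_fixed_vector hW) M hM1

/-- the sign at `v` -/
noncomputable def sE (W : WeierstrassCurve ℤ) (v : ℕ) : ℤ := nodeSign W v

/-- **EData** for a good curve. -/
theorem eData : EData W (rE hW) (sE W) where
  cont := mcont_tateMat _ _ 2
  det_cyc := by
    intro n σ a ha
    have h := (detIsCyclotomic W hW.neg.ne 2).2 n σ a ha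
    rw [det_tate] at h
    exact h
  unr := by
    intro ℓ hℓ hgood hℓ2 P hP σ hσ
    have h := isUnramifiedAt_of_good W hW.neg.ne 2 hℓ hℓ2 hgood P hP σ hσ
    rw [tate_ρ] at h
    have h1 := congrArg LinearMap.toMatrix' h
    rw [LinearMap.toMatrix'_toLin'] at h1
    rw [show rE hW σ = tateMat (EQ W) (EC.map_int_Δ_ne_zero hW.neg.ne) 2 σ from rfl, h1]
    exact LinearMap.toMatrix'_one
  frob := by
    intro ℓ hℓ hgood hℓ2 P hP φ hφ
    have h := charpoly_frob W hW.neg.ne 2 hℓ hℓ2 hgood hP hφ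
    rw [charpoly_tate, Matrix.charpoly_fin_two] at h
    have h0 := congrArg (fun p : Polynomial ℤ_[2] => p.coeff 0) h
    have h1 := congrArg (fun p : Polynomial ℤ_[2] => p.coeff 1) h
    simp only [Polynomial.coeff_add, Polynomial.coeff_sub, Polynomial.coeff_X_pow,
      Polynomial.coeff_C_mul, Polynomial.coeff_X_zero, Polynomial.coeff_X_one,
      Polynomial.coeff_C_zero, Polynomial.coeff_C_succ, mul_zero, mul_one, sub_zero, zero_sub,
      add_zero, zero_add, neg_inj] at h0 h1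
    norm_num at h0 h1
    exact ⟨h1, h0⟩
  sign := fun v => nodeSign_eq W v
  type := by
    intro v hv hvΔ P hP
    obtain ⟨s, hs, hfr⟩ := exists_locType (p := 2) hW.neg.ne hv hvΔ (hW.ss v hv hvΔ) P hP
    refine ⟨fun g => ((s g : ℤ) : ℤ_[2]), ?_, ?_, ?_, ?_, ?_⟩
    · intro g hg
      have := hs.sq hg
      rw [← Int.cast_pow, sq, this, Int.cast_one]
    · intro g hg h hh
      change ((s (g * h) : ℤ) : ℤ_[2]) = (s g : ℤ_[2]) * (s h : ℤ_[2])
      rw [hs.mul g hg h hh, Int.cast_mul]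
    · intro g hg
      change ((s g : ℤ) : ℤ_[2]) = 1
      rw [hs.inertia g hg, Int.cast_one]
    · intro φ hφ
      change ((s φ : ℤ) : ℤ_[2]) = _
      rw [hfr φ hφ]
      rfl
    · intro g hg g' hg'
      exact hs.rel g hg g' hg'
  surj := surj_rE hW
  mem_GK := by
    intro g
    rw [mem_GK_iff_sgn2 hW g, sgn2_eq_one_iff]
  ram := by
    intro v hv hvΔ P hP
    obtain ⟨g, hg, hs⟩ := exists_inertia_odd hW hv hvΔ hP
    refine ⟨g, hg, fun h => ?_⟩
    rw [h, sgn2_one] at hs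
    norm_num at hs
  conj := by
    intro c hc hc1 h
    obtain ⟨δ, hδ⟩ := exists_sqrt_disc W
    have h1 := (sgn2_eq_one_iff_fix hW hδ c).mp (by rw [h, sgn2_one])
    obtain ⟨n, hn⟩ : ∃ n : ℕ, W.Δ = -(n : ℤ) := ⟨W.Δ.natAbs, by
      rw [Int.ofNat_natAbs_of_nonpos hW.neg.le]; ring⟩
    have hn0 : n ≠ 0 := by
      rintro rfl
      apply hW.neg.ne
      rw [hn]; simp
    have h2 := involution_sqrt hc hc1 hn0 (δ := δ) (by rw [hδ, hn]; push_cast; ring)
    rw [h1] at h2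
    have hδ0 : δ = 0 := self_eq_neg.mp h2
    rw [hδ0, zero_pow two_ne_zero] at hδ
    exact hW.neg.ne (by exact_mod_cast hδ.symm)

end curve

/-- **Block E.** -/
theorem blockE : BlockE := fun W hW => ⟨rE hW, sE W, eData hW⟩

end Fermat.Agent.H73LT
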