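import Fermat.Agent.H60Wiring
import Fermat.Agent.H88LTWSwitch
import Fermat.Agent.H4FreySemistable

set_option autoImplicit false

/-!
# Wiring for curves with even discriminant (the `LT-MOD2` route)

`ResMod3Two` : residual modularity at `3` for the semistable curves `W` with `2 ∣ Δ(W)` and `W[3]`
irreducible.  Together with `S51` and `S59` it gives the modularity of all semistable curves with
`2 ∣ Δ(W)`, in particular of the Frey curves (`S04`).
-/

open WeierstrassCurve WeierstrassCurve.Affine WeierstrassCurve.Affine.Point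
open CuspForm ModularFormClass UpperHalfPlane
open Fermat.Agent.H60

namespace Fermat.Agent.H88.LTW

/-- Residual modularity at `3` of the curves with even discriminant. -/
def ResMod3Two : Prop :=
  ∀ W : WeierstrassCurve ℤ, W.Δ ≠ 0 → W.IsSemistableModel → (2 : ℤ) ∣ W.Δ →
    W.ModRepIsIrreducible 3 →
    ∃ M : ℕ, 0 < M ∧ W.IsResiduallyModularOfLevel 3 M ∧
      (∀ q : ℕ, q.Prime → q ≠ 3 → ¬ q ^ 3 ∣ M) ∧ ¬ 3 ^ 2 ∣ M

/-- Modularity (with the exact level) of the semistable curves with even discriminant and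
irreducible `W[3]`. -/
theorem exact_of_irreducible_three (h50 : ResMod3Two) (h59 : Lifting)
    (W : WeierstrassCurve ℤ) (hΔ : W.Δ ≠ 0) (hW : W.IsSemistableModel) (h2 : (2 : ℤ) ∣ W.Δ)
    (h3 : W.ModRepIsIrreducible 3) : Mlc1IsModularModelOfExactConductorLevel W := by
  obtain ⟨M, hM, hres, hM3, hM9⟩ := h50 W hΔ hW h2 h3
  have : NeZero M := ⟨hM.ne'⟩
  exact h59 3 (Or.inl rfl) W hΔ hW h3 M hres hM9 hM3

/-- Modularity (with the exact level) of the semistable curves with even discriminant. -/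
theorem exact_of_two_dvd (h50 : ResMod3Two) (h51 : Irr35) (h59 : Lifting)
    (W : WeierstrassCurve ℤ) (hΔ : W.Δ ≠ 0) (hW : W.IsSemistableModel) (h2 : (2 : ℤ) ∣ W.Δ) :
    Mlc1IsModularModelOfExactConductorLevel W := by
  rcases h51 W hΔ hW with h3 | h5
  · exact exact_of_irreducible_three h50 h59 W hΔ hW h2 h3
  · obtain ⟨W', hΔ', hW', h3', hdvd, hcong⟩ := switch35 W hΔ hW
    obtain ⟨N, hN, hsq, hsupp, hmod⟩ :=
      exact_of_irreducible_three h50 h59 W' hΔ' hW' (h2.trans hdvd) h3'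
    have hres : W.IsResiduallyModularOfLevel 5 N :=
      isResiduallyModularOfLevel_of_congr Nat.prime_five
        (fun q hq h => (hsupp q hq).mpr h) hmod (by exact_mod_cast hcong)
    have : NeZero N := ⟨hN.ne'⟩
    have hsq' : ∀ q : ℕ, q.Prime → ¬ q ^ 2 ∣ N := fun q hq h =>
      Nat.squarefree_iff_prime_squarefree.mp hsq q hq (by rwa [← pow_two])
    refine h59 5 (Or.inr rfl) W hΔ hW h5 N hres (hsq' 5 Nat.prime_five) ?_
    intro q hq _ h
    exact hsq' q hq (dvd_trans (pow_dvd_pow q (by norm_num)) h)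

/-- Modularity of the semistable curves with even discriminant. -/
theorem isModular_of_two_dvd (h50 : ResMod3Two) (h51 : Irr35) (h59 : Lifting)
    (W : WeierstrassCurve ℤ) (hΔ : W.Δ ≠ 0) (hW : W.IsSemistableModel) (h2 : (2 : ℤ) ∣ W.Δ) :
    (W.map (Int.castRingHom ℚ)).IsModular :=
  isModular_of_exact (exact_of_two_dvd h50 h51 h59 W hΔ hW h2)

/-- The discriminant of the integral Frey model is even. -/
theorem two_dvd_freyCurveInt_Δ (P : FreyPackage) : (2 : ℤ) ∣ P.freyCurveInt.Δ := by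
  have h := Fermat.Agent.H4.freyCurveInt_Δ P
  have hb : (2 : ℤ) ∣ P.b := (ZMod.intCast_zmod_eq_zero_iff_dvd P.b 2).mp (by exact_mod_cast P.hb2)
  have h10 : (2 : ℤ) ^ (2 * P.p) ∣ 256 * P.freyCurveInt.Δ := by
    rw [h]
    have : (2 : ℤ) ^ P.p ∣ P.a ^ P.p * P.b ^ P.p * P.c ^ P.p :=
      ((pow_dvd_pow_of_dvd hb P.p).mul_left _).mul_right _
    calc (2 : ℤ) ^ (2 * P.p) = (2 ^ P.p) ^ 2 := by rw [← pow_mul, mul_comm]
      _ ∣ _ := pow_dvd_pow_of_dvd this 2
  have h9 : (2 : ℤ) ^ 9 ∣ 256 * P.freyCurveInt.Δ :=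
    (pow_dvd_pow 2 (by have := P.hp5; omega)).trans h10
  have : (256 : ℤ) * 2 ∣ 256 * P.freyCurveInt.Δ := by
    have e : (256 : ℤ) * 2 = 2 ^ 9 := by norm_num
    rw [e]; exact h9
  exact (mul_dvd_mul_iff_left (by norm_num)).mp this

/-- `S04` from residual modularity at `3` for curves with even discriminant, `S51` and `S59`. -/
theorem S04_of (h50 : ResMod3Two) (h51 : Irr35) (h59 : Lifting) (P : FreyPackage) :
    P.freyCurve.IsModular := by
  rw [← Fermat.Agent.H4.freyCurveInt_map]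
  exact isModular_of_two_dvd h50 h51 h59 _ (Fermat.Agent.H4.freyCurveInt_Δ_ne_zero P)
    (Fermat.Agent.H4.freyCurveInt_isSemistableModel P) (two_dvd_freyCurveInt_Δ P)

/-- The reduction of `ResMod3Two` to the two parts of `LT-MOD2`:
* `h1` (module M1): the choice of a curve `E'` in a class `P` with `E'[3] ≅ W[3]`;
* `h2` (Theorems A, B, C, Steps D, E): every curve of the class `P` is modular of level the
  radical of its discriminant. -/
theorem resMod3Two_of (P : WeierstrassCurve ℤ → Prop)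
    (h1 : ∀ W : WeierstrassCurve ℤ, W.Δ ≠ 0 → W.IsSemistableModel → (2 : ℤ) ∣ W.Δ →
      W.ModRepIsIrreducible 3 → ∃ E : WeierstrassCurve ℤ, P E ∧
        ∀ ℓ : ℕ, ℓ.Prime → W.IsGoodPrimeFor ℓ → E.IsGoodPrimeFor ℓ → ℓ ≠ 3 →
          (3 : ℤ) ∣ (E.apOfModel ℓ - W.apOfModel ℓ))
    (h2 : ∀ E : WeierstrassCurve ℤ, P E → Mlc1IsModularModelOfExactConductorLevel E) :
    ResMod3Two := by
  intro W hΔ hW h2Δ h3
  obtain ⟨E, hE, hcong⟩ := h1 W hΔ hW h2Δ h3
  obtain ⟨N, hN, hsq, hsupp, hmod⟩ := h2 E hE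
  have hsq' : ∀ q : ℕ, q.Prime → ¬ q ^ 2 ∣ N := fun q hq h =>
    Nat.squarefree_iff_prime_squarefree.mp hsq q hq (by rwa [← pow_two])
  refine ⟨N, hN, isResiduallyModularOfLevel_of_congr Nat.prime_three
    (fun q hq h => (hsupp q hq).mpr h) hmod (by exact_mod_cast hcong), ?_, hsq' 3 Nat.prime_three⟩
  intro q hq _ h
  exact hsq' q hq (dvd_trans (pow_dvd_pow q (by norm_num)) h)

end Fermat.Agent.H88.LTW
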