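import Mathlib
import Fermat.Agent.H88LTWire
import Fermat.Agent.H3LTM1
import Fermat.Agent.H73LTEData
import Fermat.Agent.H6MDM6
import Fermat.Agent.H35LTMain
import Fermat.Agent.H49LTC1

/-!
# LT-MOD2: final assembly (helper49)

Residual modularity at `3`, with a squarefree level, of the semistable curves with even
discriminant, from the blocks C and M7.
-/

set_option autoImplicit false

open WeierstrassCurve

namespace Fermat.Agent.H49.LTF

open Fermat.Agent.LT (GoodCurve BlockC BlockM7)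

/-- **(LT-A)**: squarefree level; a prime `3` or `5` of the level is bad for `W`. -/
def LTA : Prop :=
  ∀ W : WeierstrassCurve ℤ, W.Δ ≠ 0 → W.IsSemistableModel → (2 : ℤ) ∣ W.Δ →
    ∃ M : ℕ, 0 < M ∧ Squarefree M ∧ (3 ∣ M → (3 : ℤ) ∣ W.Δ) ∧ (5 ∣ M → (5 : ℤ) ∣ W.Δ) ∧
      W.IsResiduallyModularOfLevel 3 M

/-- the curves of the class `GoodCurve` are modular of the right level -/
theorem exact_of_goodCurve (hC : BlockC) (h7 : BlockM7) (W : WeierstrassCurve ℤ)
    (hW : GoodCurve W) : Mlc1IsModularModelOfExactConductorLevel W :=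
  ⟨LT.cond W, Nat.pos_of_ne_zero (LTC.cond_ne_zero W), LTC.squarefree_cond W,
    fun _ hq => LTC.dvd_cond_iff hW hq,
    LT.ltC H73LT.blockE H6.MD.blockM6_holds hC h7 W hW⟩

/-- **(LT-A)** from the blocks C and M7. -/
theorem ltA_of (hC : BlockC) (h7 : BlockM7) : LTA := by
  intro W hΔ hW h2
  obtain ⟨E, hE, h3, h5, hcong⟩ := H3LT.exists_goodCurve W hΔ hW h2
  obtain ⟨N, hN, hsq, hsupp, hmod⟩ := exact_of_goodCurve hC h7 E hE
  refine ⟨N, hN, hsq, fun h => h3 ?_, fun h => h5 ?_,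
    H60.isResiduallyModularOfLevel_of_congr Nat.prime_three
      (fun q hq h => (hsupp q hq).mpr h) hmod (by exact_mod_cast hcong)⟩
  · exact_mod_cast (hsupp 3 Nat.prime_three).mp h
  · exact_mod_cast (hsupp 5 Nat.prime_five).mp h

/-- the goal of LT-MOD2 in the form of `H88LTWire` -/
theorem resMod3Two_of_ltA (h : LTA) : H88.LTW.ResMod3Two := by
  intro W hΔ hW h2 _
  obtain ⟨M, hM, hsq, -, -, hres⟩ := h W hΔ hW h2
  have hsq' : ∀ q : ℕ, q.Prime → ¬ q ^ 2 ∣ M := fun q hq h =>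
    Nat.squarefree_iff_prime_squarefree.mp hsq q hq (by rwa [← pow_two])
  refine ⟨M, hM, hres, fun q hq _ h => hsq' q hq (dvd_trans (pow_dvd_pow q (by norm_num)) h),
    hsq' 3 Nat.prime_three⟩

/-- **Final form**: block C and Mazur's principle at `2`. -/
theorem ltA_of_mazurTwo (hC : BlockC) (hM : H35.MazurTwo) : LTA :=
  ltA_of hC (H35.blockM7 hM)

end Fermat.Agent.H49.LTF
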