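/-
H19LTPair: gluing over a ring with a prescribed residue map; gluing over the pair algebra.
-/
import Fermat.Agent.H19LTHecke
import Fermat.Agent.H55LTC

set_option autoImplicit false
set_option linter.style.haveILetI false
set_option linter.unusedSectionVars false

noncomputable section

namespace Fermat.Agent.H19LT

open IsLocalRing Matrix
open Fermat.Agent.H53 (GQ M2 MCont)
open Fermat.Agent.H30 (FrobData MIrr conjRep)

section Transport

variable {k k' : Type} [Field k] [Field k']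

theorem mirr_mapRep (e : k ≃+* k') {r : GQ →* M2 k} (h : MIrr r) :
    MIrr (mapRep (e : k →+* k') r) := by
  intro P
  set Q : (M2 k)ˣ := Units.map (RingHom.mapMatrix (m := Fin 2) (e.symm : k' →+* k)).toMonoidHom P
    with hQ
  have hval : (Q : M2 k) = (P : M2 k').map e.symm := rfl
  have hinv : ((Q⁻¹ : (M2 k)ˣ) : M2 k) = ((P⁻¹ : (M2 k')ˣ) : M2 k').map e.symm := rfl
  have key : ∀ g i j, ((P : M2 k') * (mapRep (e : k →+* k') r g) *
      ((P⁻¹ : (M2 k')ˣ) : M2 k')) i j =
      e (((Q : M2 k) * r g * ((Q⁻¹ : (M2 k)ˣ) : M2 k)) i j) := by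
    intro g i j
    rw [hval, hinv, mapRep_apply]
    simp [mul_apply, Fin.sum_univ_two]
  obtain ⟨⟨g, hg⟩, ⟨g', hg'⟩⟩ := h Q
  refine ⟨⟨g, ?_⟩, ⟨g', ?_⟩⟩
  · rw [key]
    exact fun h0 => hg (by simpa using h0)
  · rw [key]
    exact fun h0 => hg' (by simpa using h0)

theorem mcont_mapRep {A B : Type} [CommRing A] [IsLocalRing A] [CommRing B] [IsLocalRing B]
    (f : A →+* B) (hf : IsLocalHom f) {r : GQ →* M2 A} (h : MCont A r) :
    MCont B (mapRep f r) := by
  intro n
  obtain ⟨L, hL, h1⟩ := h n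
  refine ⟨L, hL, fun σ hσ i j => ?_⟩
  have h2 := H30.map_mem_pow f hf n (h1 σ hσ i j)
  rw [map_sub] at h2
  rw [mapRep_apply, Matrix.map_apply]
  have h3 : f ((1 : M2 A) i j) = (1 : M2 B) i j := by
    by_cases hij : i = j
    · subst hij; simp
    · simp [one_apply_ne hij]
  rwa [h3] at h2

theorem frobData_mapRep {A B : Type} [CommRing A] [IsLocalRing A] [CommRing B] [IsLocalRing B]
    (f : A →+* B) {S : Finset ℕ} {a : ∀ ℓ : ℕ, ℓ.Prime → ℓ ∉ S → A} {r : GQ →* M2 A}
    (h : FrobData S a r) : FrobData S (fun ℓ h h' => f (a ℓ h h')) (mapRep f r) := by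
  intro ℓ hℓ hℓS P hP σ hσ
  obtain ⟨h1, h2⟩ := h ℓ hℓ hℓS P hP σ hσ
  rw [trace_mapRep, det_mapRep, h1, h2, map_natCast]
  exact ⟨rfl, rfl⟩

end Transport

section GlueK

variable {T : Type} [CommRing T] [IsLocalRing T] [IsAdicComplete (maximalIdeal T) T]
  {ι : Type} [Finite ι] (B : ι → Type) [∀ i, CommRing (B i)] [∀ i, IsLocalRing (B i)]
  [∀ i, IsHausdorff (maximalIdeal (B i)) (B i)]
  (φ : ∀ i, T →+* B i) (hφ : ∀ i, IsLocalHom (φ i))
  (hT0 : ∀ n : ℕ, ∃ N : ℕ, ∀ x : T, (∀ i, φ i x ∈ maximalIdeal (B i) ^ N) →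
    x ∈ maximalIdeal T ^ n)
  {S : Finset ℕ} {a : ∀ ℓ : ℕ, ℓ.Prime → ℓ ∉ S → T}
  {r : ∀ i, GQ →* M2 (B i)} (hr : ∀ i, MCont (B i) (r i))
  (hfr : ∀ i, FrobData S (fun ℓ h h' => φ i (a ℓ h h')) (r i))

include hφ hT0 hr hfr in
/-- **Gluing** with a prescribed residue map `res : T → k`. -/
theorem exists_glued_k (hinj : ∀ x : T, (∀ i, φ i x = 0) → x = 0)
    {k : Type} [Field k] (res : T →+* k) (hres : Function.Surjective res)
    (hker : RingHom.ker res = maximalIdeal T)
    {rbar : GQ →* M2 k} (hrbar : MCont k rbar)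
    (hfrbar : FrobData S (fun ℓ h h' => res (a ℓ h h')) rbar) (hirr : MIrr rbar)
    {c : GQ} {αb βb : k} (hne : αb ≠ βb) (hctr : (rbar c).trace = αb + βb)
    (hcdet : (rbar c).det = αb * βb) :
    ∃ ρ : GQ →* M2 T, MCont T ρ ∧ FrobData S a ρ ∧
      (∀ i, ∃ P : (M2 (B i))ˣ, ∀ g, (P : M2 (B i)) * r i g *
        ((P⁻¹ : (M2 (B i))ˣ) : M2 (B i)) = (ρ g).map (φ i)) ∧
      ∃ P : (M2 k)ˣ, ∀ g, (P : M2 k) * rbar g * ((P⁻¹ : (M2 k)ˣ) : M2 k) = (ρ g).map res := by
  classical
  -- the isomorphism of residue fields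
  let e₀ : ResidueField T →+* k := Ideal.Quotient.lift (maximalIdeal T) res (fun x hx => by
    rw [← hker] at hx; exact hx)
  have he₀ : ∀ x, e₀ (residue T x) = res x := fun x => rfl
  have hbij : Function.Bijective e₀ := by
    refine ⟨e₀.injective, fun y => ?_⟩
    obtain ⟨x, rfl⟩ := hres y
    exact ⟨residue T x, rfl⟩
  let e : ResidueField T ≃+* k := RingEquiv.ofBijective e₀ hbij
  have he : ∀ x, e (residue T x) = res x := fun x => rfl
  have hes : ∀ x, e.symm (res x) = residue T x := fun x => by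
    rw [← he, RingEquiv.symm_apply_apply]
  have hloc : IsLocalHom (e.symm : k →+* ResidueField T) := inferInstance
  obtain ⟨ρ, h1, h2, h3, P, hP⟩ := exists_glued B φ hφ hT0 hr hfr hinj
    (rbar := mapRep (e.symm : k →+* ResidueField T) rbar)
    (mcont_mapRep _ hloc hrbar)
    (by
      have := frobData_mapRep (e.symm : k →+* ResidueField T) hfrbar
      intro ℓ hℓ hℓS P hP σ hσ
      obtain ⟨h1, h2⟩ := this ℓ hℓ hℓS P hP σ hσ
      exact ⟨h1.trans (hes _), h2⟩)
    (mirr_mapRep e.symm hirr) (c := c) (αb := e.symm αb) (βb := e.symm βb)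
    (fun h => hne (e.symm.injective h))
    (by rw [trace_mapRep, hctr]; simp)
    (by rw [det_mapRep, hcdet]; simp)
  refine ⟨ρ, h1, h2, h3, Units.map (RingHom.mapMatrix (m := Fin 2) (e : _ →+* k)).toMonoidHom P,
    fun g => ?_⟩
  have h4 := congrArg (fun M : M2 (ResidueField T) => M.map e) (hP g)
  have h5 : ((ρ g).map (residue T)).map e = (ρ g).map res := by
    ext i j
    exact he _
  have h6 : ∀ M : M2 k, (M.map e.symm).map e = M := by
    intro M
    ext i j
    simp
  simp only [Matrix.map_mul, mapRep_apply, RingEquiv.coe_toRingHom, h6] at h4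
  rw [← h5, ← h4]
  rfl

end GlueK

section Pair

open Fermat.Agent.H55.LT (pairAlg pairFst pairSnd mem_pairAlg ResData)

/-- the two factors as a family -/
def PB (T B : Type) : Bool → Type
  | true => T
  | false => B

variable {O : Type} [CommRing O] [IsDomain O] [IsDiscreteValuationRing O]
  [IsAdicComplete (maximalIdeal O) O]
  {T B : Type} [CommRing T] [IsLocalRing T] [Algebra O T] [Module.Finite O T]
  [CommRing B] [IsLocalRing B] [Algebra O B] [Module.Finite O B]

instance PB.instCommRing : ∀ i, CommRing (PB T B i)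
  | true => inferInstanceAs (CommRing T)
  | false => inferInstanceAs (CommRing B)

instance PB.instIsLocalRing : ∀ i, IsLocalRing (PB T B i)
  | true => inferInstanceAs (IsLocalRing T)
  | false => inferInstanceAs (IsLocalRing B)

instance PB.instAlgebra : ∀ i, Algebra O (PB T B i)
  | true => inferInstanceAs (Algebra O T)
  | false => inferInstanceAs (Algebra O B)

instance PB.instFinite : ∀ i, Module.Finite O (PB T B i)
  | true => inferInstanceAs (Module.Finite O T)
  | false => inferInstanceAs (Module.Finite O B)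

/-- the projections of the pair algebra -/
def pbProj {ι : Type*} (t : ι → T) (a : ι → B) : ∀ i, pairAlg O t a →ₐ[O] PB T B i
  | true => pairFst O t a
  | false => pairSnd O t a

theorem isLocalHom_algebraMap_of_res {A k : Type} [CommRing A] [IsLocalRing A] [Algebra O A]
    [Field k] [Algebra O k] (hk : Function.Surjective (algebraMap O k)) (f : A →ₐ[O] k) :
    IsLocalHom (algebraMap O A) := by
  constructor
  intro x hx
  by_contra hnx
  have h1 : IsUnit (f (algebraMap O A x)) := hx.map f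
  rw [AlgHom.commutes] at h1
  have h2 : RingHom.ker (algebraMap O k) = maximalIdeal O :=
    IsLocalRing.eq_maximalIdeal (RingHom.ker_isMaximal_of_surjective _ hk)
  have h3 : algebraMap O k x = 0 := by
    rw [← RingHom.mem_ker, h2]
    exact hnx
  rw [h3] at h1
  exact not_isUnit_zero h1

variable {ι : Type*} {k : Type} [Field k] [Algebra O k] {t : ι → T} {a : ι → B}

/-- **Gluing over the pair algebra**: from representations over `T` and over `B` with the traces
`t_ℓ`, `a_ℓ` one gets a representation over the algebra generated by the pairs. -/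
theorem exists_pairRep (hk : Function.Surjective (algebraMap O k)) (D : ResData (O := O) k t a)
    {S : Finset ℕ} (idx : ∀ ℓ : ℕ, ℓ.Prime → ℓ ∉ S → ι)
    {rT : GQ →* M2 T} (hrT : MCont T rT) (hfT : FrobData S (fun ℓ h h' => t (idx ℓ h h')) rT)
    {rB : GQ →* M2 B} (hrB : MCont B rB) (hfB : FrobData S (fun ℓ h h' => a (idx ℓ h h')) rB)
    {rbar : GQ →* M2 k} (hrbar : MCont k rbar)
    (hfrbar : FrobData S (fun ℓ h h' => D.rB (a (idx ℓ h h'))) rbar) (hirr : MIrr rbar)
    {c : GQ} {αb βb : k} (hne : αb ≠ βb) (hctr : (rbar c).trace = αb + βb)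
    (hcdet : (rbar c).det = αb * βb) :
    haveI := D.isLocalRing
    ∃ ρ : GQ →* M2 (pairAlg O t a), MCont _ ρ ∧
      FrobData S (fun ℓ h h' => (⟨_, mem_pairAlg t a (idx ℓ h h')⟩ : pairAlg O t a)) ρ ∧
      (∃ P : (M2 T)ˣ, ∀ g, (P : M2 T) * rT g * ((P⁻¹ : (M2 T)ˣ) : M2 T) =
        (ρ g).map (pairFst O t a)) ∧
      (∃ P : (M2 B)ˣ, ∀ g, (P : M2 B) * rB g * ((P⁻¹ : (M2 B)ˣ) : M2 B) =
        (ρ g).map (pairSnd O t a)) ∧
      ∃ P : (M2 k)ˣ, ∀ g, (P : M2 k) * rbar g * ((P⁻¹ : (M2 k)ˣ) : M2 k) =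
        (ρ g).map D.res := by
  haveI hloc := D.isLocalRing
  haveI h1 : IsLocalHom (algebraMap O (pairAlg O t a)) := isLocalHom_algebraMap_of_res hk D.res
  haveI h2 : IsLocalHom (algebraMap O T) := isLocalHom_algebraMap_of_res hk D.rT
  haveI h3 : IsLocalHom (algebraMap O B) := isLocalHom_algebraMap_of_res hk D.rB
  haveI h4 : IsAdicComplete (maximalIdeal (pairAlg O t a)) (pairAlg O t a) :=
    IsLocalRing.isAdicComplete_of_module_finite (𝒪 := O)
  haveI h5 : IsAdicComplete (maximalIdeal T) T :=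
    IsLocalRing.isAdicComplete_of_module_finite (𝒪 := O)
  haveI h6 : IsAdicComplete (maximalIdeal B) B :=
    IsLocalRing.isAdicComplete_of_module_finite (𝒪 := O)
  haveI h7 : ∀ i, IsHausdorff (maximalIdeal (PB T B i)) (PB T B i) := by
    rintro (_ | _)
    · exact h6.toIsHausdorff
    · exact h5.toIsHausdorff
  have hinj : ∀ x : pairAlg O t a, (∀ i, pbProj (O := O) t a i x = 0) → x = 0 := by
    intro x hx
    have e1 : (x : T × B).1 = 0 := hx true
    have e2 : (x : T × B).2 = 0 := hx false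
    exact Subtype.ext (Prod.ext e1 e2)
  have hT0 := H30.exists_forall_mem_pow (O := O) (T := pairAlg O t a) (PB T B)
    (pbProj (O := O) t a) hinj
  have hres : Function.Surjective D.res := by
    intro y
    obtain ⟨x, rfl⟩ := hk y
    exact ⟨algebraMap O _ x, D.res.commutes x⟩
  have hφ : ∀ i, IsLocalHom ((pbProj (O := O) t a i : pairAlg O t a →ₐ[O] PB T B i) :
      pairAlg O t a →+* PB T B i) := by
    rintro (_ | _)
    · constructor
      intro x hx
      apply D.isUnit_of_res_ne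
      rw [D.res_eq]
      have : IsUnit (pairSnd O t a x) := hx
      exact (this.map D.rB).ne_zero
    · constructor
      intro x hx
      apply D.isUnit_of_res_ne
      have : IsUnit (pairFst O t a x) := hx
      exact (this.map D.rT).ne_zero
  let r : ∀ i, GQ →* M2 (PB T B i)
    | true => rT
    | false => rB
  have hr : ∀ i, MCont (PB T B i) (r i) := by
    rintro (_ | _)
    · exact hrB
    · exact hrT
  have hfr : ∀ i, FrobData S (fun ℓ h h' => ((pbProj (O := O) t a i :
      pairAlg O t a →ₐ[O] PB T B i) : pairAlg O t a →+* PB T B i)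
      (⟨_, mem_pairAlg t a (idx ℓ h h')⟩ : pairAlg O t a)) (r i) := by
    rintro (_ | _)
    · exact hfB
    · exact hfT
  obtain ⟨ρ, g1, g2, g3, g4⟩ := exists_glued_k (PB T B)
    (fun i => ((pbProj (O := O) t a i : pairAlg O t a →ₐ[O] PB T B i) :
      pairAlg O t a →+* PB T B i)) hφ hT0 (S := S)
    (a := fun ℓ h h' => (⟨_, mem_pairAlg t a (idx ℓ h h')⟩ : pairAlg O t a)) hr hfr hinj
    (D.res : pairAlg O t a →+* k) hres D.ker_res hrbar
    (by
      have e : ∀ i, D.rB (a i) = D.res ⟨_, mem_pairAlg t a i⟩ := fun i => by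
        rw [D.res_eq]; rfl
      intro ℓ hℓ hℓS P hP σ hσ
      obtain ⟨e1, e2⟩ := hfrbar ℓ hℓ hℓS P hP σ hσ
      exact ⟨e1.trans (e _), e2⟩) hirr hne hctr hcdet
  exact ⟨ρ, g1, g2, g3 true, g3 false, g4⟩

end Pair

end Fermat.Agent.H19LT
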