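/-
H19LTSide: the two-adic Galois representation over the Hecke ring `T` of `TSide'` and its local
types (block TA8).
-/
import Fermat.Agent.H19LTPair
import Fermat.Agent.H19LTTypeAt
import Fermat.Agent.H19LTM8
import Fermat.Agent.H46LTDefsTA

set_option autoImplicit false
set_option linter.style.haveILetI false
set_option linter.unusedSectionVars false

noncomputable section

namespace Fermat.Agent.H19LT

open IsLocalRing Matrix CuspForm ModularFormClass
open Fermat.Agent.H53 (GQ M2 MCont mapMat)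
open Fermat.Agent.H30 (FrobData MIrr PointRep frobElt exists_pointRep)
open Fermat.Agent.LT (TypeAt Qb TwoRing CoefRing TSide' FrobAt UnrAt)

section HeckeK

/-- **The Galois representation over a local Hecke ring**, any residue characteristic, with a
prescribed residue map. -/
theorem exists_heckeRep_k {p : ℕ} [Fact p.Prime]
    {N : ℕ} [NeZero N] {S : Finset ℕ} (hpS : p ∈ S) (hNS : ∀ q : ℕ, q.Prime → q ∣ N → q ∈ S)
    (O : Type) [CommRing O] [IsDomain O] [IsDiscreteValuationRing O]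
    [IsAdicComplete (maximalIdeal O) O] [Finite (ResidueField O)] [CharZero O]
    (hpO : (p : O) ∈ maximalIdeal O)
    {T : Type} [CommRing T] [IsLocalRing T] [IsNoetherianRing T]
    [IsAdicComplete (maximalIdeal T) T] [Algebra O T] [IsLocalHom (algebraMap O T)]
    [Module.Finite O T] [Module.Free O T] [IsReduced T]
    (π : CuspForm.heckeAlgebra N 2 (↑S : Set ℕ) →+* T)
    {k : Type} [Field k] (res : T →+* k) (hres : Function.Surjective res)
    (hker : RingHom.ker res = maximalIdeal T)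
    {rbar : GQ →* M2 k} (hrbar : MCont _ rbar)
    (hfrbar : FrobData S (fun ℓ h h' => res (frobElt hNS π ℓ h h')) rbar)
    (hirr : MIrr rbar)
    {c : GQ} {αb βb : k} (hne : αb ≠ βb) (hctr : (rbar c).trace = αb + βb)
    (hcdet : (rbar c).det = αb * βb) :
    ∃ ρ : GQ →* M2 T, MCont T ρ ∧ FrobData S (frobElt hNS π) ρ ∧
      (∀ q : ℕ, q.Prime → ¬ q ∣ N → q ≠ p → UnrAt q ρ) ∧
      ∃ P : (M2 k)ˣ, ∀ g, (P : M2 k) * rbar g * ((P⁻¹ : (M2 k)ˣ) : M2 k) = (ρ g).map res := by
  classical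
  haveI : Finite (minimalPrimes T) := (minimalPrimes.finite_of_isNoetherianRing T).to_subtype
  have hpts : ∀ I : minimalPrimes T, Nonempty (PointRep O T N p S (frobElt hNS π) I.1) :=
    fun I => exists_pointRep statementS30 hpS hNS O hpO π I.2
  let D : ∀ I : minimalPrimes T, PointRep O T N p S (frobElt hNS π) I.1 := fun I => (hpts I).some
  have hinj : ∀ x : T, (∀ I, (D I).φ x = 0) → x = 0 := by
    intro x hx
    have h1 : x ∈ sInf (minimalPrimes T) := by
      rw [Submodule.mem_sInf]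
      intro I hI
      exact (D ⟨I, hI⟩).ker_le ((RingHom.mem_ker).mpr (hx ⟨I, hI⟩))
    have h2 : sInf (minimalPrimes T) = (⊥ : Ideal T) := by
      rw [minimalPrimes, Ideal.sInf_minimalPrimes, Ideal.radical_bot_of_isReduced]
    rw [h2] at h1
    exact h1
  have hT0 := H30.exists_forall_mem_pow (O := O) (T := T) (fun I => (D I).B) (fun I => (D I).φ)
    hinj
  obtain ⟨ρ, hρc, hρf, hρP, hρbar⟩ := exists_glued_k (fun I => (D I).B)
    (fun I => ((D I).φ : T →+* (D I).B)) (fun I => (D I).isLocalHom) hT0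
    (S := S) (a := frobElt hNS π) (r := fun I => (D I).r) (fun I => (D I).cont)
    (fun I => (D I).frob) hinj res hres hker hrbar hfrbar hirr hne hctr hcdet
  refine ⟨ρ, hρc, hρf, ?_, hρbar⟩
  intro q hq hqN hqp A hA σ hσ
  ext i j
  rw [← sub_eq_zero]
  apply hinj
  intro I
  obtain ⟨P, hP⟩ := hρP I
  have h2 := hP σ
  rw [(D I).unram q hq hqN hqp A hA σ hσ, mul_one, Units.mul_inv] at h2
  have h3 := congrFun (congrFun h2 i) j
  rw [map_sub, sub_eq_zero]
  have h4 : (ρ σ).map ((D I).φ : T →+* (D I).B) i j = (D I).φ (ρ σ i j) := rfl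
  rw [← h4, ← h3]
  by_cases hij : i = j
  · subst hij; simp
  · simp [one_apply_ne hij]

end HeckeK

section Irr

variable {k : Type} [Field k]

/-- the commutator -/
def comm2 (A B : M2 k) : M2 k := A * B - B * A

theorem comm2_conj (P : (M2 k)ˣ) (A B : M2 k) :
    comm2 ((P : M2 k) * A * ((P⁻¹ : (M2 k)ˣ) : M2 k)) ((P : M2 k) * B * ((P⁻¹ : (M2 k)ˣ) : M2 k)) =
      (P : M2 k) * comm2 A B * ((P⁻¹ : (M2 k)ˣ) : M2 k) := by
  rw [comm2, comm2, mul_sub, sub_mul]
  simp only [mul_assoc, Units.inv_mul_cancel_left]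

theorem det_conj_units (P : (M2 k)ˣ) (A : M2 k) :
    ((P : M2 k) * A * ((P⁻¹ : (M2 k)ˣ) : M2 k)).det = A.det := by
  rw [det_mul_comm, ← mul_assoc, Units.inv_mul, one_mul]

/-- A pair of elements whose commutator is invertible forces irreducibility. -/
theorem mirr_of_comm {r : GQ →* M2 k} {c h : GQ} (hch : (comm2 (r c) (r h)).det ≠ 0) : MIrr r := by
  intro P
  have key : (comm2 ((P : M2 k) * r c * ((P⁻¹ : (M2 k)ˣ) : M2 k))
      ((P : M2 k) * r h * ((P⁻¹ : (M2 k)ˣ) : M2 k))).det ≠ 0 := by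
    rw [comm2_conj, det_conj_units]
    exact hch
  constructor
  · by_contra hcon
    push Not at hcon
    apply key
    rw [comm2, det_fin_two]
    simp only [Matrix.sub_apply, Matrix.mul_apply (M := (P : M2 k) * r c * _),
      Matrix.mul_apply (M := (P : M2 k) * r h * _), Fin.sum_univ_two, hcon c, hcon h]
    ring
  · by_contra hcon
    push Not at hcon
    apply key
    rw [comm2, det_fin_two]
    simp only [Matrix.sub_apply, Matrix.mul_apply (M := (P : M2 k) * r c * _),
      Matrix.mul_apply (M := (P : M2 k) * r h * _), Fin.sum_univ_two, hcon c, hcon h]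
    ring

theorem no_eigenvector_of_comm {A B : M2 k} (h : (comm2 A B).det ≠ 0) {x : Fin 2 → k} (hx : x ≠ 0)
    {a b : k} (hA : A.mulVec x = a • x) (hB : B.mulVec x = b • x) : False := by
  have h1 : (comm2 A B).mulVec x = 0 := by
    rw [comm2, sub_mulVec, ← mulVec_mulVec, ← mulVec_mulVec, hA, hB, mulVec_smul, mulVec_smul, hA,
      hB, smul_smul, smul_smul, mul_comm a b, sub_self]
  exact hx (eq_zero_of_mulVec_eq_zero h h1)

end Irr

section Det

/-- If `2 = 0`, the determinant is trivial. -/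
theorem det_eq_one_of_two {A : Type} [CommRing A] [IsLocalRing A]
    [IsHausdorff (maximalIdeal A) A] (h2 : (2 : A) = 0) {S : Finset ℕ} (h2S : 2 ∈ S)
    {a : ∀ ℓ : ℕ, ℓ.Prime → ℓ ∉ S → A} {r : GQ →* M2 A} (hr : MCont A r) (hfr : FrobData S a r)
    (g : GQ) : (r g).det = 1 := by
  rw [← sub_eq_zero]
  refine IsHausdorff.haus (I := maximalIdeal A) inferInstance _ fun n => ?_
  rw [SModEq.zero, smul_eq_mul, Ideal.mul_top]
  obtain ⟨L, hL, hLr⟩ := hr n
  obtain ⟨ℓ, hℓ, hℓS, P, hP, f, hf, j, hj⟩ := H31.weakFrobeniusDensity L hL S g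
  have h1 := H30.det_sub_mem (H30.sub_entry_mem hLr g (f ^ j) fun x hx => hj x hx)
  have h3 : (ℓ : A) = 1 := by
    have hodd : Odd ℓ := hℓ.odd_of_ne_two fun h => hℓS (h ▸ h2S)
    obtain ⟨m, rfl⟩ := hodd
    push_cast
    rw [h2]; ring
  rw [map_pow, det_pow, (hfr ℓ hℓ hℓS P hP f hf).2, h3, one_pow] at h1
  exact h1

end Det

section Main

variable {O : Type} [CommRing O] [IsDomain O] [IsDiscreteValuationRing O] [CoefRing O]
  {K : Type} [Field K] [NumberField K] {η : ClassGroup (NumberField.RingOfIntegers K) →*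
    (ResidueField O)ˣ} {N : ℕ} {Q : Finset ℕ} {L : ℕ} [NeZero L]

/-- the residue map of `T` -/
def resT (X : TSide' O K η N Q L) : letI := X.commRing; X.T →+* ResidueField O :=
  letI := X.commRing
  ((MonoidAlgebra.lift (ResidueField O) (ResidueField O) (LT.C2Q K Q) 1 :
    MonoidAlgebra (ResidueField O) (LT.C2Q K Q) →ₐ[ResidueField O] ResidueField O) :
      MonoidAlgebra (ResidueField O) (LT.C2Q K Q) →+* ResidueField O).comp X.π

theorem resT_algebraMap (X : TSide' O K η N Q L) :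
    letI := X.commRing; letI := X.algebra
    ∀ a : O, resT X (algebraMap O X.T a) = residue O a := by
  letI := X.commRing; letI := X.algebra
  intro a
  show MonoidAlgebra.lift (ResidueField O) (ResidueField O) (LT.C2Q K Q) 1
    (X.π (algebraMap O X.T a)) = _
  rw [X.π_alg, AlgHom.commutes]
  rfl

theorem resT_surjective (X : TSide' O K η N Q L) :
    letI := X.commRing; Function.Surjective (resT X) := by
  letI := X.commRing; letI := X.algebra
  intro y
  obtain ⟨a, rfl⟩ := residue_surjective y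
  exact ⟨algebraMap O X.T a, resT_algebraMap X a⟩

theorem ker_resT (X : TSide' O K η N Q L) :
    letI := X.commRing; letI := X.isLocal; RingHom.ker (resT X) = maximalIdeal X.T := by
  letI := X.commRing; letI := X.isLocal
  exact IsLocalRing.eq_maximalIdeal (RingHom.ker_isMaximal_of_surjective _ (resT_surjective X))

/-- the restriction of `pi` to the anemic Hecke algebra -/
def piS (X : TSide' O K η N Q L) (S : Finset ℕ) (hS : ∀ q : ℕ, q.Prime → q ∣ L → q ∈ S)
    (hNL : N ∣ L) : letI := X.commRing; CuspForm.heckeAlgebra L 2 (↑S : Set ℕ) →+* X.T :=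
  letI := X.commRing
  X.pi.comp (Subalgebra.inclusion (Algebra.adjoin_le (by
    rintro T (⟨ℓ, hℓ, hℓN, hℓS, rfl⟩ | ⟨q, hqN, hq, hqS, rfl⟩)
    · exact heckeTLin_mem_heckeAlgebra hℓ hℓN fun h => hℓN (dvd_trans h hNL)
    · exact absurd (hS q hq hqN) (by simpa using hqS)) :
      CuspForm.heckeAlgebra L 2 (↑S : Set ℕ) ≤ CuspForm.heckeAlgebra L 2 {v : ℕ | v ∣ N})).toRingHom

theorem piS_T (X : TSide' O K η N Q L) (S : Finset ℕ) (hS : ∀ q : ℕ, q.Prime → q ∣ L → q ∈ S)
    (hNL : N ∣ L) (ℓ : ℕ) (hℓ : ℓ.Prime) (hℓS : ℓ ∉ S) :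
    letI := X.commRing; frobElt hS (piS X S hS hNL) ℓ hℓ hℓS = X.t ℓ := by
  letI := X.commRing
  have hℓL : ¬ ℓ ∣ L := fun h => hℓS (hS ℓ hℓ h)
  exact X.pi_T ℓ hℓ hℓL (fun h => hℓL (dvd_trans h hNL))

/-- A point of `T` with values in a complete discrete valuation ring. -/
structure Pt (O : Type) [CommRing O] (T : Type) [CommRing T] [Algebra O T] where
  B : Type
  [cr : CommRing B]
  [dom : IsDomain B]
  [dvr : IsDiscreteValuationRing B]
  [complete : IsAdicComplete (maximalIdeal B) B]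
  [fin : Finite (ResidueField B)]
  [cz : CharZero B]
  [alg : Algebra O B]
  [mf : Module.Finite O B]
  φ : T →ₐ[O] B
  loc : IsLocalHom (φ : T →+* B)

attribute [instance] Pt.cr Pt.dom Pt.dvr Pt.complete Pt.fin Pt.cz Pt.alg Pt.mf

theorem two_residue : (2 : ResidueField O) = 0 := by
  rw [← map_ofNat (residue O) 2, residue_eq_zero_iff, CoefRing.two]
  exact Ideal.mem_span_singleton_self _

/-- the eigenform attached to a point -/
theorem exists_attached (X : TSide' O K η N Q L) :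
    letI := X.commRing; letI := X.algebra; letI := X.isLocal
    ∀ {ρ : GQ →* M2 X.T} (_ : MCont X.T ρ)
      (_ : ∀ ℓ : ℕ, ℓ.Prime → ¬ ℓ ∣ L → FrobAt ℓ (X.t ℓ) ρ) (i : Pt O X.T),
    ∃ (F : Type) (_ : Field F) (_ : IsAlgClosed F) (_ : CharZero F) (j : i.B →+* F)
      (f : CuspForm (CongruenceSubgroup.Gamma0 L) 2) (ι : integralClosure ℤ ℂ →+* F),
      f.IsNormalizedEigenform ∧
      Attached f L.primeFactors j ι (mapMat (i.φ : X.T →+* i.B) ρ) ∧
      (∀ q ∈ Q, ∃ s : ℤ, (s = 1 ∨ s = -1) ∧ qCoeff f q = (s : ℂ) ∧ i.φ (X.u q) = (s : i.B)) ∧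
      (qCoeff f 2 = 1 ∨ qCoeff f 2 = -1) := by
  letI := X.commRing; letI := X.algebra; letI := X.isLocal
  intro ρ hρ hfr i
  haveI := i.loc
  let F := AlgebraicClosure (FractionRing i.B)
  let j : i.B →+* F := algebraMap i.B F
  have hj : Function.Injective j := by
    have h1 : j = (algebraMap (FractionRing i.B) F).comp (algebraMap i.B (FractionRing i.B)) := rfl
    rw [h1]
    exact (algebraMap (FractionRing i.B) F).injective.comp (IsFractionRing.injective i.B _)
  haveI : CharZero F := charZero_of_injective_ringHom hj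
  obtain ⟨f, hf, hq, h2, ι, hι, hιq⟩ := X.point F (j.comp (i.φ : X.T →+* i.B))
  refine ⟨F, inferInstance, inferInstance, inferInstance, j, f, ι, hf, ⟨hj, ?_, ?_⟩, ?_, h2⟩
  · exact hρ.map _ i.loc
  · intro ℓ hℓ hℓS a ha P hP φ hφ
    have hℓL : ¬ ℓ ∣ L := fun h => hℓS (Nat.mem_primeFactors.mpr ⟨hℓ, h, NeZero.ne L⟩)
    obtain ⟨a', ha', hιa'⟩ := hι ℓ hℓ hℓL
    have haa : a = a' := Subtype.ext (ha.trans ha'.symm)
    obtain ⟨h3, h4⟩ := hfr ℓ hℓ hℓL P hP φ hφ
    rw [trace_mapMat, det_mapMat, h3, h4, haa, hιa', map_natCast]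
    exact ⟨rfl, rfl⟩
  · intro q hqQ
    obtain ⟨a, ha, hιa⟩ := hιq q hqQ
    rcases hq q hqQ with h | h
    · refine ⟨1, Or.inl rfl, by rw [h]; simp, ?_⟩
      have ha1 : a = 1 := Subtype.ext (ha.trans h)
      rw [ha1, map_one] at hιa
      apply hj
      rw [Int.cast_one, map_one]
      exact hιa.symm
    · refine ⟨-1, Or.inr rfl, by rw [h]; simp, ?_⟩
      have ha1 : a = -1 := Subtype.ext (ha.trans (by rw [h]; simp))
      rw [ha1, map_neg, map_one] at hιa
      apply hj
      rw [Int.cast_neg, Int.cast_one, map_neg, map_one]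
      exact hιa.symm

/-- residual irreducibility at a point -/
theorem resIrr_point (X : TSide' O K η N Q L) :
    letI := X.commRing; letI := X.algebra; letI := X.isLocal
    ∀ {ρ : GQ →* M2 X.T} {rbar : GQ →* M2 (ResidueField O)} (_ : ∃ P : (M2 (ResidueField O))ˣ,
      ∀ g, (P : M2 (ResidueField O)) * rbar g * ((P⁻¹ : (M2 (ResidueField O))ˣ) :
        M2 (ResidueField O)) = (ρ g).map (resT X)) (i : Pt O X.T),
    ∃ (e : ResidueField O →+* ResidueField i.B) (P : (M2 (ResidueField i.B))ˣ),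
      ∀ g, mapMat (residue i.B) (mapMat (i.φ : X.T →+* i.B) ρ) g =
        (P : M2 (ResidueField i.B)) * mapMat e rbar g *
          ((P⁻¹ : (M2 (ResidueField i.B))ˣ) : M2 (ResidueField i.B)) := by
  letI := X.commRing; letI := X.algebra; letI := X.isLocal
  rintro ρ rbar ⟨P, hP⟩ i
  haveI := i.loc
  -- the embedding of residue fields
  let f : X.T →+* ResidueField i.B := (residue i.B).comp (i.φ : X.T →+* i.B)
  have hf : ∀ x, resT X x = 0 → f x = 0 := by
    intro x hx
    have h1 : x ∈ maximalIdeal X.T := by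
      rw [← ker_resT X]; exact hx
    show residue i.B (i.φ x) = 0
    rw [residue_eq_zero_iff]
    exact map_nonunit (i.φ : X.T →+* i.B) x h1
  let e : ResidueField O →+* ResidueField i.B :=
    (Ideal.Quotient.lift (RingHom.ker (resT X)) f (fun x hx => hf x hx)).comp
      (RingHom.quotientKerEquivOfSurjective (resT_surjective X)).symm.toRingHom
  have he : ∀ x, e (resT X x) = f x := by
    intro x
    have h1 : (RingHom.quotientKerEquivOfSurjective (resT_surjective X)).symm (resT X x) =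
        Ideal.Quotient.mk _ x := by
      rw [RingEquiv.symm_apply_eq]
      rfl
    show Ideal.Quotient.lift (RingHom.ker (resT X)) f (fun x hx => hf x hx)
      ((RingHom.quotientKerEquivOfSurjective (resT_surjective X)).symm (resT X x)) = _
    rw [h1]
    exact Ideal.Quotient.lift_mk _ _ _
  refine ⟨e, Units.map (RingHom.mapMatrix (m := Fin 2) e).toMonoidHom P, fun g => ?_⟩
  have h2 := congrArg (fun M : M2 (ResidueField O) => M.map e) (hP g)
  simp only [Matrix.map_mul] at h2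
  have h3 : ((ρ g).map (resT X)).map e =
      mapMat (residue i.B) (mapMat (i.φ : X.T →+* i.B) ρ) g := by
    ext a b
    exact he _
  rw [← h3, ← h2]
  rfl

/-- **Block TA8**: the Galois representation over the Hecke ring and its local types. -/
theorem exists_sideRep (X : TSide' O K η N Q L) (hN2 : 2 ∣ N) (hL : L = N * ∏ q ∈ Q, q)
    (hsq : Squarefree N) (hQ : ∀ q ∈ Q, q.Prime ∧ ¬ q ∣ N)
    (hM8r : ∀ v, v.Prime → v ∣ N → M8Ram v) (hM8s : ∀ q ∈ Q, M8Sign q)
    {rbar : GQ →* M2 (ResidueField O)} (hrbar : MCont _ rbar)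
    (hfrbar : ∀ ℓ : ℕ, ℓ.Prime → ¬ ℓ ∣ L → FrobAt ℓ (resT X (X.t ℓ)) rbar)
    {c h : GQ} (hctr : (rbar c).trace = 1) (hcdet : (rbar c).det = 1)
    (hcomm : (comm2 (rbar c) (rbar h)).det ≠ 0)
    {ω : ResidueField O} (hω : ω ^ 2 + ω + 1 = 0)
    (hram : ∀ v : ℕ, v.Prime → v ∣ N → ∀ P : ValuationSubring Qb, P.LiesOverPrime v →
      ∃ σ ∈ P.inertiaSubgroupIn ℚ, rbar σ ≠ 1)
    (hfrobQ : ∀ q ∈ Q, ∀ P : ValuationSubring Qb, P.LiesOverPrime q → ∀ φ : GQ,
      P.IsFrobeniusAt φ q → rbar φ ≠ 1) :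
    letI := X.commRing; letI := X.algebra; letI := X.isLocal
    ∃ ρ : GQ →* M2 X.T, MCont X.T ρ ∧
      (∀ ℓ : ℕ, ℓ.Prime → ¬ ℓ ∣ L → FrobAt ℓ (X.t ℓ) ρ) ∧
      (∀ ℓ : ℕ, ℓ.Prime → ¬ ℓ ∣ L → UnrAt ℓ ρ) ∧
      (∃ P : (M2 (ResidueField O))ˣ, ∀ g, (P : M2 (ResidueField O)) * rbar g *
        ((P⁻¹ : (M2 (ResidueField O))ˣ) : M2 (ResidueField O)) = (ρ g).map (resT X)) ∧
      (∀ v : ℕ, v.Prime → v ∣ N → ∃ s : X.T, s ^ 2 = 1 ∧ TypeAt v s ρ) ∧
      (∀ q ∈ Q, TypeAt q (X.u q) ρ) := by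
  classical
  letI := X.commRing; letI := X.algebra; letI := X.isLocal
  haveI := X.finite; haveI := X.free; haveI := X.reduced
  haveI : CharZero O := CoefRing.char_zero
  haveI : IsAdicComplete (maximalIdeal O) O := CoefRing.complete
  haveI : Finite (ResidueField O) := Nat.finite_of_card_ne_zero (by
    rw [CoefRing.card]; norm_num)
  have hNL : N ∣ L := hL ▸ Dvd.intro _ rfl
  have hL0 : L ≠ 0 := NeZero.ne L
  have h2O : (2 : O) ∈ maximalIdeal O := by
    rw [CoefRing.two]; exact Ideal.mem_span_singleton_self _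
  haveI : Fact (Nat.Prime 2) := ⟨Nat.prime_two⟩
  let fk : X.T →ₐ[O] ResidueField O :=
    { toRingHom := resT X, commutes' := fun a => resT_algebraMap X a }
  haveI hloc : IsLocalHom (algebraMap O X.T) :=
    isLocalHom_algebraMap_of_res residue_surjective fk
  haveI : IsNoetherianRing X.T := IsNoetherianRing.of_finite O X.T
  haveI : IsAdicComplete (maximalIdeal X.T) X.T :=
    IsLocalRing.isAdicComplete_of_module_finite (𝒪 := O)
  have hS : ∀ q : ℕ, q.Prime → q ∣ L → q ∈ L.primeFactors := fun q hq hqL =>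
    Nat.mem_primeFactors.mpr ⟨hq, hqL, hL0⟩
  have hS' : ∀ {ℓ : ℕ}, ℓ ∉ L.primeFactors → ℓ.Prime → ¬ ℓ ∣ L := fun h1 h2 h3 =>
    h1 (hS _ h2 h3)
  have h2k : (2 : ResidueField O) = 0 := two_residue
  have hne : ω ≠ ω + 1 := fun h0 => one_ne_zero (left_eq_add.mp h0)
  obtain ⟨ρ, hρc, hρf, hρu, hρP⟩ := exists_heckeRep_k (p := 2) (N := L) (S := L.primeFactors)
    (hS 2 Nat.prime_two (dvd_trans hN2 hNL)) hS O h2O (piS X L.primeFactors hS hNL)
    (resT X) (resT_surjective X) (ker_resT X) hrbar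
    (by
      intro ℓ hℓ hℓS P hP φ hφ
      obtain ⟨h1, h2⟩ := hfrbar ℓ hℓ (hS' hℓS hℓ) P hP φ hφ
      refine ⟨?_, h2⟩
      rw [h1]
      congr 1
      exact (piS_T X L.primeFactors hS hNL ℓ hℓ hℓS).symm)
    (mirr_of_comm hcomm) (c := c) (αb := ω) (βb := ω + 1) hne
    (by rw [hctr]; linear_combination (-ω) * h2k)
    (by rw [hcdet]; linear_combination hω * (-1) + h2k)
  have hfr : ∀ ℓ : ℕ, ℓ.Prime → ¬ ℓ ∣ L → FrobAt ℓ (X.t ℓ) ρ := by
    intro ℓ hℓ hℓL P hP φ hφ
    have hℓS : ℓ ∉ L.primeFactors := fun h => hℓL (Nat.dvd_of_mem_primeFactors h)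
    obtain ⟨h1, h2⟩ := hρf ℓ hℓ hℓS P hP φ hφ
    refine ⟨?_, h2⟩
    rw [h1]
    exact piS_T X L.primeFactors hS hNL ℓ hℓ hℓS
  -- squarefreeness of the level
  have hvL : ∀ v : ℕ, v.Prime → v ∣ N → ¬ v ^ 2 ∣ L := by
    intro v hv hvN hv2
    have hvQ : Nat.Coprime (v ^ 2) (∏ q ∈ Q, q) := by
      rw [Nat.coprime_pow_left_iff (by norm_num)]
      refine Nat.Coprime.prod_right fun q hq => ?_
      rw [Nat.coprime_primes hv (hQ q hq).1]
      rintro rfl
      exact (hQ v hq).2 hvN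
    rw [hL] at hv2
    have h3 := hvQ.dvd_of_dvd_mul_right hv2
    rw [pow_two] at h3
    exact hv.one_lt.ne' (Nat.isUnit_iff.mp (hsq v h3))
  have hqL : ∀ q ∈ Q, q ∣ L := fun q hq => hL ▸ Dvd.dvd.mul_left (Finset.dvd_prod_of_mem _ hq) N
  have hqL2 : ∀ q ∈ Q, ¬ q ^ 2 ∣ L := by
    intro q hq h2
    obtain ⟨hqp, hqN⟩ := hQ q hq
    have hc : Nat.Coprime (q ^ 2) N := by
      rw [Nat.coprime_pow_left_iff (by norm_num)]
      exact (Nat.Prime.coprime_iff_not_dvd hqp).mpr hqN
    rw [hL] at h2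
    have h3 := hc.dvd_of_dvd_mul_left h2
    rw [← Finset.mul_prod_erase Q _ hq, pow_two] at h3
    have h4 : q ∣ ∏ x ∈ Q.erase q, x := Nat.dvd_of_mul_dvd_mul_left hqp.pos h3
    obtain ⟨x, hx, hqx⟩ := (Prime.dvd_finsetProd_iff hqp.prime _).mp h4
    obtain ⟨hxq, hxQ⟩ := Finset.mem_erase.mp hx
    exact hxq ((Nat.prime_dvd_prime_iff_eq hqp (hQ x hxQ).1).mp hqx).symm
  -- the family of points
  have hinj : ∀ x : X.T, (∀ i : Pt O X.T, (i.φ : X.T →+* i.B) x = 0) → x = 0 := by
    intro x hx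
    by_contra hx0
    obtain ⟨B, i1, i2, i3, i4, i5, i6, i7, i8, φ, hφ, hφx⟩ := exists_point_ne_zero O hx0
    exact hφx (hx { B := B, φ := φ, loc := hφ })
  have hirr : ∀ i : Pt O X.T, ResIrr (mapMat (i.φ : X.T →+* i.B) ρ) := by
    intro i
    obtain ⟨e, P, hP⟩ := resIrr_point X hρP i
    refine ⟨⟨e ω, ?_⟩, ⟨c, ?_, ?_⟩, ?_⟩
    · rw [← map_pow, ← map_add, ← map_one e, ← map_add, hω, map_zero]
    · rw [hP, trace_mul_comm, ← mul_assoc, Units.inv_mul, one_mul, trace_mapMat, hctr, map_one]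
    · rw [hP, det_conj_units, det_mapMat, hcdet, map_one]
    · intro x hx
      by_contra hcon
      push Not at hcon
      obtain ⟨a, ha⟩ := hcon c
      obtain ⟨b, hb⟩ := hcon h
      refine no_eigenvector_of_comm ?_ hx ha hb
      rw [hP, hP, comm2_conj, det_conj_units]
      have h4 : comm2 (mapMat e rbar c) (mapMat e rbar h) = (comm2 (rbar c) (rbar h)).map e := by
        rw [comm2, comm2, H53.mapMat_apply', H53.mapMat_apply']
        ext i j
        simp [Matrix.mul_apply, Fin.sum_univ_two, map_sub, map_add, map_mul]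
      rw [h4]
      have h5 : ((comm2 (rbar c) (rbar h)).map e).det = e (comm2 (rbar c) (rbar h)).det := by
        rw [RingHom.map_det, RingHom.mapMatrix_apply]
      rw [h5]
      exact fun h0 => hcomm (e.injective (by rw [h0, map_zero]))
  have htwo : ∀ i : Pt O X.T, TwoRing i.B := by
    intro i
    refine ⟨inferInstance, inferInstance, ?_, inferInstance⟩
    haveI := i.loc
    have h1 : (2 : X.T) ∈ maximalIdeal X.T := by
      have := map_nonunit (algebraMap O X.T) _ h2O
      rwa [map_ofNat] at this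
    have h2 := map_nonunit (i.φ : X.T →+* i.B) _ h1
    rwa [map_ofNat] at h2
  -- unit entries
  have hunit : ∀ {g : GQ} {s : X.T}, resT X s = 1 → rbar g ≠ 1 →
      ∃ a b, IsUnit ((ρ g - s • (1 : M2 X.T)) a b) := by
    intro g s hs hg
    by_contra hcon
    push Not at hcon
    apply hg
    obtain ⟨P, hP⟩ := hρP
    have h1 : (ρ g).map (resT X) = 1 := by
      ext a b
      have h2 : (ρ g - s • (1 : M2 X.T)) a b ∈ maximalIdeal X.T := hcon a b
      rw [← ker_resT X, RingHom.mem_ker] at h2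
      by_cases hab : a = b
      · subst hab
        rw [Matrix.sub_apply, Matrix.smul_apply, one_apply_eq, smul_eq_mul, mul_one, map_sub, hs,
          sub_eq_zero] at h2
        rw [Matrix.map_apply, h2, one_apply_eq]
      · rw [Matrix.sub_apply, Matrix.smul_apply, one_apply_ne hab, smul_zero, sub_zero] at h2
        rw [Matrix.map_apply, h2, one_apply_ne hab]
    rw [← hP g] at h1
    have h2 : rbar g = ((P⁻¹ : (M2 (ResidueField O))ˣ) : M2 (ResidueField O)) *
        ((P : M2 (ResidueField O)) * rbar g *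
          ((P⁻¹ : (M2 (ResidueField O))ˣ) : M2 (ResidueField O))) * (P : M2 (ResidueField O)) := by
      simp only [mul_assoc, Units.inv_mul, mul_one, Units.inv_mul_cancel_left]
    rw [h2, h1, mul_one, Units.inv_mul]
  refine ⟨ρ, hρc, hfr, ?_, hρP, ?_, ?_⟩
  · intro ℓ hℓ hℓL
    exact hρu ℓ hℓ hℓL (by rintro rfl; exact hℓL (dvd_trans hN2 hNL))
  · intro v hv hvN
    have hramρ : ∀ P : ValuationSubring Qb, P.LiesOverPrime v →
        ∃ g0 ∈ P.inertiaSubgroupIn ℚ, ∃ a b, IsUnit ((ρ g0 - 1) a b) := by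
      intro P hP
      obtain ⟨σ, hσ, hσ1⟩ := hram v hv hvN P hP
      obtain ⟨a, b, hab⟩ := hunit (s := 1) (map_one _) hσ1
      exact ⟨σ, hσ, a, b, by rwa [one_smul] at hab⟩
    have htype : ∀ i : Pt O X.T, ∃ s : i.B, s ^ 2 = 1 ∧
        TypeAt v s (mapMat (i.φ : X.T →+* i.B) ρ) := by
      intro i
      haveI := htwo i
      obtain ⟨F, j1, j2, j3, j, f, ι, hf, hatt, hfq, hf2⟩ := exists_attached X hρc hfr i
      have h5 := hM8r v hv hvN L f hf hv (dvd_trans hvN hNL) (hvL v hv hvN)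
        (fun h => by rw [h]; exact hf2) i.B F j ι L.primeFactors
        (mapMat (i.φ : X.T →+* i.B) ρ) hatt (hirr i) (by
          intro P hP
          obtain ⟨σ, hσ, hσ1⟩ := hram v hv hvN P hP
          refine ⟨σ, hσ, fun h6 => hσ1 ?_⟩
          obtain ⟨e, P', hP'⟩ := resIrr_point X hρP i
          rw [hP'] at h6
          have h7 : mapMat e rbar σ = 1 := by
            have h8 : mapMat e rbar σ = ((P'⁻¹ : (M2 (ResidueField i.B))ˣ) :
                M2 (ResidueField i.B)) * ((P' : M2 (ResidueField i.B)) * mapMat e rbar σ *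
                ((P'⁻¹ : (M2 (ResidueField i.B))ˣ) : M2 (ResidueField i.B))) *
                (P' : M2 (ResidueField i.B)) := by
              simp only [mul_assoc, Units.inv_mul, mul_one, Units.inv_mul_cancel_left]
            rw [h8, h6, mul_one, Units.inv_mul]
          ext a b
          apply e.injective
          have h9 := congrFun (congrFun h7 a) b
          rw [H53.mapMat_apply] at h9
          rw [h9]
          by_cases hab : a = b
          · subst hab; simp
          · simp [one_apply_ne hab])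
      rcases h5 with h5 | h5
      · exact ⟨1, one_pow 2, h5⟩
      · exact ⟨-1, by ring, h5⟩
    choose s hs hst using htype
    obtain ⟨s', hs', ht'⟩ := exists_typeAt_glue (fun i : Pt O X.T => (i.φ : X.T →+* i.B)) hinj hv
      hst hramρ
    refine ⟨s', ?_, ht'⟩
    rw [← sub_eq_zero]
    refine hinj _ fun i => ?_
    rw [map_sub, map_pow, hs' i, hs i, map_one, sub_self]
  · intro q hq
    obtain ⟨hqp, hqN⟩ := hQ q hq
    have hu1 : resT X (X.u q) = 1 := by
      have h1 : resT X (X.u q) ^ 2 = 1 := by rw [← map_pow, X.u_sq q hq, map_one]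
      have h2 : (resT X (X.u q) - 1) ^ 2 = 0 := by
        linear_combination h1 + (1 - resT X (X.u q)) * h2k
      rw [← sub_eq_zero]
      exact pow_eq_zero_iff (two_ne_zero) |>.mp h2
    refine typeAt_glue (fun i : Pt O X.T => (i.φ : X.T →+* i.B)) hinj (fun i => ?_) ?_
    · haveI := htwo i
      obtain ⟨F, j1, j2, j3, j, f, ι, hf, hatt, hfq, hf2⟩ := exists_attached X hρc hfr i
      obtain ⟨s, hs, hfs, hus⟩ := hfq q hq
      have h5 := hM8s q hq L f hf hqp (by rintro rfl; exact hqN hN2) (hqL q hq) (hqL2 q hq) s hs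
        hfs i.B F j ι L.primeFactors (mapMat (i.φ : X.T →+* i.B) ρ) hatt (hirr i)
      have h6 : (i.φ : X.T →+* i.B) (X.u q) = ((s : ℤ) : i.B) := hus
      rw [h6]
      exact h5
    · intro P hP
      obtain ⟨φ, hφ⟩ := H54.exists_isFrobeniusAt hqp hP
      obtain ⟨a, b, hab⟩ := hunit hu1 (hfrobQ q hq P hP φ hφ)
      exact Or.inr ⟨φ, hφ, a, b, hab⟩

end Main

end Fermat.Agent.H19LT
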