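import Mathlib
import Fermat.Agent.H55LTE

/-!
# LT-MOD2, module M4: Theorem C with the rank bound
-/

set_option autoImplicit false

open IsLocalRing Module Matrix
open Fermat.Agent.H69.Dih
open Fermat.Agent.H53 (GQ M2 MCont)

namespace Fermat.Agent.H55.LT

section Rank

variable {O : Type} [CommRing O] [IsLocalRing O] {k : Type} [Field k] [Finite k] [Algebra O k]

/-- a finite free algebra of rank `n` over `O` has `|k|^n` elements modulo `2` -/
theorem natCard_quot_two (hOk : Function.Surjective (algebraMap O k))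
    (hker : RingHom.ker (algebraMap O k) = Ideal.span {(2 : O)})
    (T : Type) [CommRing T] [Algebra O T] [Module.Finite O T] [Module.Free O T] :
    Nat.card (T ⧸ Ideal.span {(2 : T)}) = Nat.card k ^ Module.finrank O T := by
  classical
  haveI : Nontrivial O := inferInstance
  let b := Module.finBasis O T
  let n := Module.finrank O T
  -- the map `T → k^n`
  let f : T →+ (Fin n → k) :=
    { toFun := fun x i => algebraMap O k (b.repr x i)
      map_zero' := by ext i; simp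
      map_add' := fun x y => by ext i; simp }
  have hf : Function.Surjective f := by
    intro y
    choose g hg using fun i => hOk (y i)
    refine ⟨b.equivFun.symm g, ?_⟩
    ext i
    show algebraMap O k (b.repr (b.equivFun.symm g) i) = y i
    have : b.repr (b.equivFun.symm g) i = g i := by
      have h1 := b.equivFun.apply_symm_apply g
      have h2 := congrFun h1 i
      exact h2
    rw [this, hg]
  have hkerf : f.ker = (Ideal.span {(2 : T)}).toAddSubgroup := by
    ext x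
    rw [AddMonoidHom.mem_ker]
    show f x = 0 ↔ x ∈ Ideal.span {(2 : T)}
    constructor
    · intro hx
      have h1 : ∀ i, ∃ c, b.repr x i = 2 * c := by
        intro i
        have h2 : b.repr x i ∈ RingHom.ker (algebraMap O k) := congrFun hx i
        rw [hker] at h2
        obtain ⟨c, hc⟩ := Ideal.mem_span_singleton.1 h2
        exact ⟨c, hc⟩
      choose c hc using h1
      rw [Ideal.mem_span_singleton]
      refine ⟨∑ i, c i • b i, ?_⟩
      conv_lhs => rw [← b.sum_repr x]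
      rw [Finset.mul_sum]
      refine Finset.sum_congr rfl fun i _ => ?_
      rw [hc i, mul_smul, Algebra.smul_def 2 (c i • b i), map_ofNat]
    · intro hx
      obtain ⟨y, rfl⟩ := Ideal.mem_span_singleton.1 hx
      ext i
      show algebraMap O k (b.repr (2 * y) i) = 0
      have h1 : (2 : T) * y = (2 : O) • y := by rw [Algebra.smul_def, map_ofNat]
      rw [h1, map_smul, Finsupp.smul_apply, smul_eq_mul, map_mul]
      have h2 : algebraMap O k 2 = 0 := by
        have : (2 : O) ∈ RingHom.ker (algebraMap O k) := by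
          rw [hker]; exact Ideal.mem_span_singleton_self _
        exact this
      rw [h2, zero_mul]
  have e1 : (T ⧸ (Ideal.span {(2 : T)}).toAddSubgroup) ≃ (Fin n → k) :=
    (QuotientAddGroup.quotientAddEquivOfEq hkerf.symm).toEquiv.trans
      (QuotientAddGroup.quotientKerEquivOfSurjective f hf).toEquiv
  have e2 : (T ⧸ Ideal.span {(2 : T)}) ≃ (Fin n → k) := e1
  rw [Nat.card_congr e2, Nat.card_fun, Nat.card_eq_fintype_card (α := Fin n), Fintype.card_fin]

end Rank

section Main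

variable {O : Type} [CommRing O] [IsLocalRing O] [IsNoetherianRing O]
  {T B : Type} [CommRing T] [IsLocalRing T] [Algebra O T] [Module.Finite O T]
  [CommRing B] [IsLocalRing B] [Algebra O B] [Module.Finite O B] {ι : Type}
  {k : Type} [Field k] [Finite k] [Algebra O k] {t : ι → T} {a : ι → B}

/-- The bound for the pair algebra. -/
theorem pair_card_le (D : ResData (O := O) k t a)
    (hOk : Function.Surjective (algebraMap O k))
    (hker : RingHom.ker (algebraMap O k) = Ideal.span {(2 : O)}) (hk4 : Nat.card k = 4)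
    [Algebra (ZMod 2) k]
    (rb : GQ →* M2 (ZMod 2)) (hrb : ∀ g, (rb g).det ≠ 0) (H : Subgroup GQ)
    (hH : ∀ g, g ∈ H ↔ Ev (rb g))
    (ρ : GQ →* M2 (pairAlg O t a))
    (hcont : ∃ L : IntermediateField ℚ (AlgebraicClosure ℚ), FiniteDimensional ℚ L ∧
      ∀ σ : GQ, (∀ x ∈ L, σ x = x) → ∀ i j, ρ σ i j - (1 : M2 (pairAlg O t a)) i j ∈
        Ideal.span {(2 : pairAlg O t a)})
    (hdet : ∀ g, (ρ g).det - 1 ∈ Ideal.span {(2 : pairAlg O t a)})
    (Q : (Matrix (Fin 2) (Fin 2) k)ˣ)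
    (hQ : ∀ g, (D.res : pairAlg O t a →+* k).mapMatrix (ρ g) =
      Q.val * (rb g).map (algebraMap (ZMod 2) k) * Q⁻¹.val)
    (S : Set ℕ)
    (hunr : ∀ ℓ : ℕ, ℓ.Prime → ℓ ∉ S → ∀ P : ValuationSubring (AlgebraicClosure ℚ),
      P.LiesOverPrime ℓ → ∀ σ ∈ P.inertiaSubgroupIn ℚ, ρ σ = 1)
    (htype : ∀ v : ℕ, v.Prime → v ∈ S → ∀ P : ValuationSubring (AlgebraicClosure ℚ),
      P.LiesOverPrime v → ∃ χ : GQ → pairAlg O t a,
        (∀ g ∈ P.decompositionSubgroup ℚ, χ g ^ 2 = 1) ∧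
        (∀ g ∈ P.inertiaSubgroupIn ℚ, χ g = 1) ∧
        ∀ g ∈ P.decompositionSubgroup ℚ, ∀ g' ∈ P.decompositionSubgroup ℚ,
          (ρ g - ((ρ g).det * χ g) • (1 : M2 (pairAlg O t a))) *
            (ρ g' - χ g' • (1 : M2 (pairAlg O t a))) = 0)
    (hnsp : ∀ v : ℕ, v.Prime → v ∈ S → ∀ P : ValuationSubring (AlgebraicClosure ℚ),
      P.LiesOverPrime v → ∃ g ∈ P.decompositionSubgroup ℚ, g ∉ H)
    (hSel : Sel0 rb S)
    (U : Finset ι) (hU : ∀ i ∈ U, t i ^ 2 = 1 ∧ a i ^ 2 = 1)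
    (hgen : ∀ i, i ∉ U → ∃ g, (((ρ g).trace : pairAlg O t a) : T × B) = (t i, a i))
    (h : ℕ) (hM5 : UnrBound H h) :
    Finite (pairAlg O t a ⧸ Ideal.span {(2 : pairAlg O t a)}) ∧
      Nat.card (pairAlg O t a ⧸ Ideal.span {(2 : pairAlg O t a)}) ≤
        Nat.card k ^ (h * 2 ^ U.card) := by
  classical
  haveI hloc := D.isLocalRing
  let gen : ι → pairAlg O t a := fun i => ⟨(t i, a i), mem_pairAlg t a i⟩
  let U' : Finset (pairAlg O t a) := U.image gen
  have hUcard : U'.card ≤ U.card := Finset.card_image_le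
  have hgen' : Algebra.adjoin O (Set.range (fun g => (ρ g).trace) ∪
      (U' : Set (pairAlg O t a))) = ⊤ := by
    have h2 : Algebra.adjoin O (Set.range gen) = ⊤ := by
      have h3 := Algebra.adjoin_adjoin_coe_preimage (R := O)
        (s := Set.range fun i => ((t i, a i) : T × B))
      rw [eq_top_iff]
      refine (le_of_eq h3.symm).trans (Algebra.adjoin_mono ?_)
      rintro ⟨x, hx⟩ ⟨i, hi⟩
      exact ⟨i, Subtype.ext hi⟩
    rw [eq_top_iff, ← h2]
    apply Algebra.adjoin_mono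
    rintro _ ⟨i, rfl⟩
    by_cases hi : i ∈ U
    · right
      exact Finset.mem_coe.2 (Finset.mem_image_of_mem _ hi)
    · left
      obtain ⟨g, hg⟩ := hgen i hi
      exact ⟨g, Subtype.ext hg⟩
  obtain ⟨h1, h2⟩ := card_quot_le hOk hker hk4 D.res rb hrb H hH ρ hcont hdet Q hQ S hunr htype
    hnsp hSel U' (by
      intro u hu
      obtain ⟨i, hi, rfl⟩ := Finset.mem_image.1 hu
      apply Subtype.ext
      show (t i, a i) ^ 2 = 1
      rw [Prod.pow_mk, (hU i hi).1, (hU i hi).2]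
      rfl) hgen' h hM5
  exact ⟨h1, h2.trans (Nat.pow_le_pow_right Nat.card_pos (Nat.mul_le_mul_left _
    (Nat.pow_le_pow_right (by norm_num) hUcard)))⟩

/-- **Theorem C with the rank bound.** -/
theorem theoremC_full [Module.Free O T] (D : ResData (O := O) k t a)
    (h2O : (2 : O) ∈ maximalIdeal O)
    (hOk : Function.Surjective (algebraMap O k))
    (hker : RingHom.ker (algebraMap O k) = Ideal.span {(2 : O)}) (hk4 : Nat.card k = 4)
    [Algebra (ZMod 2) k]
    (ht : Algebra.adjoin O (Set.range t) = ⊤) (htf : ∀ x : T, (2 : O) • x = 0 → x = 0)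
    (rb : GQ →* M2 (ZMod 2)) (hrb : ∀ g, (rb g).det ≠ 0) (H : Subgroup GQ)
    (hH : ∀ g, g ∈ H ↔ Ev (rb g))
    (ρ : GQ →* M2 (pairAlg O t a))
    (hcont : ∃ L : IntermediateField ℚ (AlgebraicClosure ℚ), FiniteDimensional ℚ L ∧
      ∀ σ : GQ, (∀ x ∈ L, σ x = x) → ∀ i j, ρ σ i j - (1 : M2 (pairAlg O t a)) i j ∈
        Ideal.span {(2 : pairAlg O t a)})
    (hdet : ∀ g, (ρ g).det - 1 ∈ Ideal.span {(2 : pairAlg O t a)})
    (Q : (Matrix (Fin 2) (Fin 2) k)ˣ)
    (hQ : ∀ g, (D.res : pairAlg O t a →+* k).mapMatrix (ρ g) =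
      Q.val * (rb g).map (algebraMap (ZMod 2) k) * Q⁻¹.val)
    (S : Set ℕ)
    (hunr : ∀ ℓ : ℕ, ℓ.Prime → ℓ ∉ S → ∀ P : ValuationSubring (AlgebraicClosure ℚ),
      P.LiesOverPrime ℓ → ∀ σ ∈ P.inertiaSubgroupIn ℚ, ρ σ = 1)
    (htype : ∀ v : ℕ, v.Prime → v ∈ S → ∀ P : ValuationSubring (AlgebraicClosure ℚ),
      P.LiesOverPrime v → ∃ χ : GQ → pairAlg O t a,
        (∀ g ∈ P.decompositionSubgroup ℚ, χ g ^ 2 = 1) ∧
        (∀ g ∈ P.inertiaSubgroupIn ℚ, χ g = 1) ∧
        ∀ g ∈ P.decompositionSubgroup ℚ, ∀ g' ∈ P.decompositionSubgroup ℚ,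
          (ρ g - ((ρ g).det * χ g) • (1 : M2 (pairAlg O t a))) *
            (ρ g' - χ g' • (1 : M2 (pairAlg O t a))) = 0)
    (hnsp : ∀ v : ℕ, v.Prime → v ∈ S → ∀ P : ValuationSubring (AlgebraicClosure ℚ),
      P.LiesOverPrime v → ∃ g ∈ P.decompositionSubgroup ℚ, g ∉ H)
    (hSel : Sel0 rb S)
    (U : Finset ι) (hU : ∀ i ∈ U, t i ^ 2 = 1 ∧ a i ^ 2 = 1)
    (hgen : ∀ i, i ∉ U → ∃ g, (((ρ g).trace : pairAlg O t a) : T × B) = (t i, a i))
    (h : ℕ) (hM5 : UnrBound H h)
    (hT : Nat.card k ^ (h * 2 ^ U.card) ≤ Nat.card (T ⧸ Ideal.span {(2 : T)})) :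
    (∃ θ : T →ₐ[O] B, ∀ i, θ (t i) = a i) ∧ Module.finrank O T ≤ h * 2 ^ U.card := by
  obtain ⟨h1, h2⟩ := pair_card_le D hOk hker hk4 rb hrb H hH ρ hcont hdet Q hQ S hunr htype
    hnsp hSel U hU hgen h hM5
  refine ⟨theoremC D h2O hOk hker hk4 ht htf rb hrb H hH ρ hcont hdet Q hQ S hunr htype
    hnsp hSel U hU hgen h hM5 hT, ?_⟩
  -- `A0 / 2 → T / 2` is surjective
  let π := pairFst O t a
  have hπ : Function.Surjective π := pairFst_surjective a ht
  let I : Ideal (pairAlg O t a) := Ideal.span {(2 : pairAlg O t a)}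
  let J : Ideal T := Ideal.span {(2 : T)}
  have hIJ : I ≤ J.comap (π : pairAlg O t a →+* T) := by
    rw [Ideal.span_le, Set.singleton_subset_iff]
    show π 2 ∈ J
    rw [map_ofNat]
    exact Ideal.mem_span_singleton_self _
  let f : pairAlg O t a ⧸ I →+* T ⧸ J := Ideal.quotientMap J (π : pairAlg O t a →+* T) hIJ
  have hf : Function.Surjective f := by
    intro y
    obtain ⟨y, rfl⟩ := Ideal.Quotient.mk_surjective y
    obtain ⟨x, rfl⟩ := hπ y
    exact ⟨Ideal.Quotient.mk I x, rfl⟩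
  haveI := h1
  have h3 : Nat.card (T ⧸ J) ≤ Nat.card k ^ (h * 2 ^ U.card) :=
    (Nat.card_le_card_of_surjective f hf).trans h2
  rw [natCard_quot_two hOk hker T, hk4] at h3
  exact (Nat.pow_le_pow_iff_right (by norm_num)).1 h3

end Main

end Fermat.Agent.H55.LT
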