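/-
H19LTCore: Theorem C (block BlockC) for one Hecke ring `T` of `TSide'`: the map `θ : T → B` onto the
representation of the curve modulo `2 ^ n`.
-/
import Fermat.Agent.H19LTSide
import Fermat.Agent.H55LTE2

set_option autoImplicit false
set_option linter.style.haveILetI false
set_option linter.unusedSectionVars false

noncomputable section

namespace Fermat.Agent.H19LT

open IsLocalRing Matrix CuspForm ModularFormClass
open Fermat.Agent.H53 (GQ M2 MCont mapMat)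
open Fermat.Agent.H30 (FrobData MIrr)
open Fermat.Agent.LT (TypeAt Qb TwoRing CoefRing TSide' FrobAt UnrAt)
open Fermat.Agent.H55.LT (pairAlg pairFst pairSnd mem_pairAlg ResData UnrBound Sel0 theoremC_full)
open Fermat.Agent.H55.LT (Ev)

section PairTypes

variable {O : Type} [CommRing O] [IsDomain O] [IsDiscreteValuationRing O]
  [IsAdicComplete (maximalIdeal O) O]
  {T B : Type} [CommRing T] [IsLocalRing T] [Algebra O T] [Module.Finite O T]
  [CommRing B] [IsLocalRing B] [Algebra O B] [Module.Finite O B]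
  {ι : Type} {t : ι → T} {a : ι → B}

theorem pbProj_injective (x : pairAlg O t a) (hx : ∀ i, pbProj (O := O) t a i x = 0) : x = 0 := by
  have e1 : (x : T × B).1 = 0 := hx true
  have e2 : (x : T × B).2 = 0 := hx false
  exact Subtype.ext (Prod.ext e1 e2)

/-- the types of the two components -/
theorem typeAt_pbProj {ρ : GQ →* M2 (pairAlg O t a)} {rT : GQ →* M2 T} {rB : GQ →* M2 B}
    (hT : ∃ P : (M2 T)ˣ, ∀ g, (P : M2 T) * rT g * ((P⁻¹ : (M2 T)ˣ) : M2 T) =
        (ρ g).map (pairFst O t a))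
    (hB : ∃ P : (M2 B)ˣ, ∀ g, (P : M2 B) * rB g * ((P⁻¹ : (M2 B)ˣ) : M2 B) =
        (ρ g).map (pairSnd O t a))
    {v : ℕ} {s : ∀ i, PB T B i} (h1 : TypeAt v (s true : T) rT) (h2 : TypeAt v (s false : B) rB) :
    ∀ i, TypeAt v (s i) (mapMat ((pbProj (O := O) t a i : pairAlg O t a →ₐ[O] PB T B i) :
      pairAlg O t a →+* PB T B i) ρ)
  | true => by
      obtain ⟨P, hP⟩ := hT
      exact TypeAt.conj (A := T) h1 P (r' := mapMat (pairFst O t a : pairAlg O t a →+* T) ρ) hP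
  | false => by
      obtain ⟨P, hP⟩ := hB
      exact TypeAt.conj (A := B) h2 P (r' := mapMat (pairSnd O t a : pairAlg O t a →+* B) ρ) hP

theorem pair_typeAt_free {ρ : GQ →* M2 (pairAlg O t a)} {rT : GQ →* M2 T} {rB : GQ →* M2 B}
    (hT : ∃ P : (M2 T)ˣ, ∀ g, (P : M2 T) * rT g * ((P⁻¹ : (M2 T)ˣ) : M2 T) =
        (ρ g).map (pairFst O t a))
    (hB : ∃ P : (M2 B)ˣ, ∀ g, (P : M2 B) * rB g * ((P⁻¹ : (M2 B)ˣ) : M2 B) =
        (ρ g).map (pairSnd O t a))
    {v : ℕ} (hv : v.Prime) {sT : T} {sB : B} (h1 : TypeAt v sT rT) (h2 : TypeAt v sB rB)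
    (hP : ∀ P : ValuationSubring Qb, P.LiesOverPrime v →
      ∃ g0 ∈ P.inertiaSubgroupIn ℚ, ∃ i j, IsUnit ((ρ g0 - 1) i j)) :
    ∃ s' : pairAlg O t a, TypeAt v s' ρ := by
  let s : ∀ i, PB T B i := fun i => match i with
    | true => sT
    | false => sB
  obtain ⟨s', -, h⟩ := exists_typeAt_glue
    (fun i => ((pbProj (O := O) t a i : pairAlg O t a →ₐ[O] PB T B i) :
      pairAlg O t a →+* PB T B i)) pbProj_injective hv (s := s)
      (typeAt_pbProj hT hB (s := s) h1 h2) hP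
  exact ⟨s', h⟩

theorem pair_typeAt {ρ : GQ →* M2 (pairAlg O t a)} {rT : GQ →* M2 T} {rB : GQ →* M2 B}
    (hT : ∃ P : (M2 T)ˣ, ∀ g, (P : M2 T) * rT g * ((P⁻¹ : (M2 T)ˣ) : M2 T) =
        (ρ g).map (pairFst O t a))
    (hB : ∃ P : (M2 B)ˣ, ∀ g, (P : M2 B) * rB g * ((P⁻¹ : (M2 B)ˣ) : M2 B) =
        (ρ g).map (pairSnd O t a))
    {v : ℕ} {s : pairAlg O t a} (h1 : TypeAt v (pairFst O t a s) rT)
    (h2 : TypeAt v (pairSnd O t a s) rB)
    (hP : ∀ P : ValuationSubring Qb, P.LiesOverPrime v →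
      (∃ g0 : GQ, P.IsFrobeniusAt g0 v ∧
        ∃ i j, IsUnit ((ρ g0 - s • (1 : M2 (pairAlg O t a))) i j))) :
    TypeAt v s ρ := by
  refine typeAt_glue
    (fun i => ((pbProj (O := O) t a i : pairAlg O t a →ₐ[O] PB T B i) :
      pairAlg O t a →+* PB T B i)) pbProj_injective
      (typeAt_pbProj hT hB (s := fun i => pbProj (O := O) t a i s) h1 h2)
      (fun P hPv => Or.inr (hP P hPv))

theorem pair_unrAt {ρ : GQ →* M2 (pairAlg O t a)} {rT : GQ →* M2 T} {rB : GQ →* M2 B}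
    (hT : ∃ P : (M2 T)ˣ, ∀ g, (P : M2 T) * rT g * ((P⁻¹ : (M2 T)ˣ) : M2 T) =
        (ρ g).map (pairFst O t a))
    (hB : ∃ P : (M2 B)ˣ, ∀ g, (P : M2 B) * rB g * ((P⁻¹ : (M2 B)ˣ) : M2 B) =
        (ρ g).map (pairSnd O t a))
    {v : ℕ} (h1 : UnrAt v rT) (h2 : UnrAt v rB) : UnrAt v ρ := by
  intro P hP σ hσ
  obtain ⟨M, hM⟩ := hT
  obtain ⟨M', hM'⟩ := hB
  have e1 := hM σ
  have e2 := hM' σ
  rw [h1 P hP σ hσ, mul_one, Units.mul_inv] at e1
  rw [h2 P hP σ hσ, mul_one, Units.mul_inv] at e2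
  ext i j
  · have h3 := congrFun (congrFun e1 i) j
    rw [Matrix.map_apply] at h3
    refine (show ((ρ σ i j : pairAlg O t a) : T × B).1 = _ from h3.symm).trans ?_
    by_cases hij : i = j
    · subst hij; rw [one_apply_eq, one_apply_eq]; rfl
    · rw [one_apply_ne hij, one_apply_ne hij]; rfl
  · have h3 := congrFun (congrFun e2 i) j
    rw [Matrix.map_apply] at h3
    refine (show ((ρ σ i j : pairAlg O t a) : T × B).2 = _ from h3.symm).trans ?_
    by_cases hij : i = j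
    · subst hij; rw [one_apply_eq, one_apply_eq]; rfl
    · rw [one_apply_ne hij, one_apply_ne hij]; rfl

end PairTypes

section Two

/-- The powers of the maximal ideal are eventually divisible by `2`. -/
theorem exists_pow_le_two {O : Type} [CommRing O] [IsDomain O] [IsDiscreteValuationRing O]
    (h2 : maximalIdeal O = Ideal.span {(2 : O)})
    (A : Type) [CommRing A] [IsLocalRing A] [Algebra O A] [Module.Finite O A] :
    ∃ n : ℕ, maximalIdeal A ^ n ≤ Ideal.span {(2 : A)} := by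
  letI : Algebra (O ⧸ maximalIdeal O) (A ⧸ Ideal.span {(2 : A)}) :=
    (Ideal.Quotient.lift (maximalIdeal O)
      ((Ideal.Quotient.mk (Ideal.span {(2 : A)})).comp (algebraMap O A)) (by
        intro x hx
        rw [h2] at hx
        obtain ⟨y, rfl⟩ := Ideal.mem_span_singleton.1 hx
        rw [RingHom.comp_apply, map_mul, map_ofNat]
        exact Ideal.Quotient.eq_zero_iff_mem.2 (Ideal.mem_span_singleton.2 ⟨_, rfl⟩))).toAlgebra
  haveI : IsScalarTower O (O ⧸ maximalIdeal O) (A ⧸ Ideal.span {(2 : A)}) :=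
    IsScalarTower.of_algebraMap_eq fun x => rfl
  haveI : Module.Finite O (A ⧸ Ideal.span {(2 : A)}) := Module.Finite.of_surjective
    (Ideal.Quotient.mkₐ O (Ideal.span {(2 : A)})).toLinearMap Ideal.Quotient.mk_surjective
  haveI : Module.Finite (O ⧸ maximalIdeal O) (A ⧸ Ideal.span {(2 : A)}) :=
    Module.Finite.of_restrictScalars_finite O _ _
  letI : Field (O ⧸ maximalIdeal O) := Ideal.Quotient.field _
  haveI : IsArtinianRing (A ⧸ Ideal.span {(2 : A)}) :=
    IsArtinianRing.of_finite (O ⧸ maximalIdeal O) _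
  exact IsLocalRing.exists_maximalIdeal_pow_le_of_isArtinianRing_quotient _

/-- the determinant is congruent to `1` modulo `2` -/
theorem det_sub_one_mem_two {A : Type} [CommRing A] [IsLocalRing A] {n : ℕ}
    (hn : maximalIdeal A ^ n ≤ Ideal.span {(2 : A)}) {S : Finset ℕ} (h2S : 2 ∈ S)
    {a : ∀ ℓ : ℕ, ℓ.Prime → ℓ ∉ S → A} {r : GQ →* M2 A} (hr : MCont A r) (hfr : FrobData S a r)
    (g : GQ) : (r g).det - 1 ∈ Ideal.span {(2 : A)} := by
  obtain ⟨L, hL, hLr⟩ := hr n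
  obtain ⟨ℓ, hℓ, hℓS, P, hP, f, hf, j, hj⟩ := H31.weakFrobeniusDensity L hL S g
  have h1 := H30.det_sub_mem (H30.sub_entry_mem hLr g (f ^ j) fun x hx => hj x hx)
  rw [map_pow, det_pow, (hfr ℓ hℓ hℓS P hP f hf).2] at h1
  have hodd : Odd ℓ := hℓ.odd_of_ne_two fun h => hℓS (h ▸ h2S)
  have h3 : (ℓ : A) ^ j - 1 ∈ Ideal.span {(2 : A)} := by
    obtain ⟨m, hm⟩ := hodd.pow (n := j)
    rw [← Nat.cast_pow, hm]
    push_cast
    rw [add_sub_cancel_right]
    exact Ideal.mem_span_singleton.2 ⟨_, rfl⟩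
  have h4 := Ideal.add_mem _ (hn h1) h3
  rwa [sub_add_sub_cancel] at h4

end Two

section Core

theorem zmod2_eq_one : ∀ x : ZMod 2, x ≠ 0 → x = 1 := by decide

theorem det_c_ne : (!![0, 1; 1, 1] : M2 (ZMod 2)).det ≠ 0 := by
  rw [det_fin_two]; decide

theorem det_w_ne : (!![0, 1; 1, 0] : M2 (ZMod 2)).det ≠ 0 := by
  rw [det_fin_two]; decide

variable {O : Type} [CommRing O] [IsDomain O] [IsDiscreteValuationRing O] [CoefRing O]
  {K : Type} [Field K] [NumberField K] {η : ClassGroup (NumberField.RingOfIntegers K) →*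
    (ResidueField O)ˣ} {N : ℕ} {Q : Finset ℕ} {L : ℕ} [NeZero L]

/-- the index set of the generators -/
abbrev Idx (L : ℕ) (Q : Finset ℕ) : Type := {ℓ : ℕ // ℓ.Prime ∧ ¬ ℓ ∣ L} ⊕ {q : ℕ // q ∈ Q}

/-- `X.t`, `X.u` as one family -/
def famT (X : TSide' O K η N Q L) : Idx L Q → X.T := Sum.elim (fun ℓ => X.t ℓ) (fun q => X.u q)

/-- `a`, `1` as one family -/
def famB {B : Type} [CommRing B] (L : ℕ) (Q : Finset ℕ) (a : ℕ → B) : Idx L Q → B :=
  Sum.elim (fun ℓ => a ℓ) (fun _ => 1)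

theorem adjoin_famT (X : TSide' O K η N Q L) :
    letI := X.commRing; letI := X.algebra
    Algebra.adjoin O (Set.range (famT X)) = ⊤ := by
  letI := X.commRing; letI := X.algebra
  rw [← X.gen]
  congr 1
  ext x
  constructor
  · rintro ⟨i | i, rfl⟩
    · exact Or.inl ⟨i, i.2, rfl⟩
    · exact Or.inr ⟨i, i.2, rfl⟩
  · rintro (⟨ℓ, hℓ, rfl⟩ | ⟨q, hq, rfl⟩)
    · exact ⟨Sum.inl ⟨ℓ, hℓ⟩, rfl⟩
    · exact ⟨Sum.inr ⟨q, hq⟩, rfl⟩

theorem resT_u (X : TSide' O K η N Q L) {q : ℕ} (hq : q ∈ Q) :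
    letI := X.commRing; resT X (X.u q) = 1 := by
  letI := X.commRing
  have h2k : (2 : ResidueField O) = 0 := two_residue
  have h1 : resT X (X.u q) ^ 2 = 1 := by rw [← map_pow, X.u_sq q hq, map_one]
  have h2 : (resT X (X.u q) - 1) ^ 2 = 0 := by
    linear_combination h1 + (1 - resT X (X.u q)) * h2k
  rw [← sub_eq_zero]
  exact pow_eq_zero_iff (two_ne_zero) |>.mp h2

/-- **Theorem C for one Hecke ring**, with the bound for the rank. -/
theorem exists_theta_side_full (X : TSide' O K η N Q L) (hN2 : 2 ∣ N) (hL : L = N * ∏ q ∈ Q, q)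
    (hsq : Squarefree N) (hQ : ∀ q ∈ Q, q.Prime ∧ ¬ q ∣ N)
    (hM8r : ∀ v, v.Prime → v ∣ N → M8Ram v) (hM8s : ∀ q ∈ Q, M8Sign q)
    [Algebra (ZMod 2) (ResidueField O)]
    -- the residual representation
    (rb : GQ →* M2 (ZMod 2))
    (hcont : ∃ F : IntermediateField ℚ (AlgebraicClosure ℚ), FiniteDimensional ℚ F ∧
      ∀ σ : GQ, (∀ x ∈ F, σ x = x) → rb σ = 1)
    (hsurj : ∀ M : M2 (ZMod 2), M.det ≠ 0 → ∃ g, rb g = M)
    (hram : ∀ v : ℕ, v.Prime → v ∣ N → ∀ P : ValuationSubring Qb, P.LiesOverPrime v →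
      ∃ σ ∈ P.inertiaSubgroupIn ℚ, rb σ ≠ 1)
    (hfrobQ : ∀ q ∈ Q, ∀ P : ValuationSubring Qb, P.LiesOverPrime q → ∀ φ : GQ,
      P.IsFrobeniusAt φ q → rb φ ≠ 1)
    (hmatch : ∀ ℓ : ℕ, ℓ.Prime → ¬ ℓ ∣ L → ∀ P : ValuationSubring Qb, P.LiesOverPrime ℓ →
      ∀ φ : GQ, P.IsFrobeniusAt φ ℓ → algebraMap (ZMod 2) (ResidueField O) (rb φ).trace =
        resT X (X.t ℓ))
    (H : Subgroup GQ) (hH : ∀ g, g ∈ H ↔ Ev (rb g))
    (hnsp : ∀ v : ℕ, v.Prime → v ∣ L → ∀ P : ValuationSubring Qb, P.LiesOverPrime v →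
      ∃ g ∈ P.decompositionSubgroup ℚ, g ∉ H)
    -- the representation of the curve
    {B : Type} [CommRing B] [IsLocalRing B] [Algebra O B] [Module.Finite O B]
    (resB : B →ₐ[O] ResidueField O)
    {rB : GQ →* M2 B} (hrB : MCont B rB) {a : ℕ → B}
    (hfB : ∀ ℓ : ℕ, ℓ.Prime → ¬ ℓ ∣ L → FrobAt ℓ (a ℓ) rB)
    (huB : ∀ ℓ : ℕ, ℓ.Prime → ¬ ℓ ∣ L → UnrAt ℓ rB)
    (hresB : ∀ g, (rB g).map resB = (rb g).map (algebraMap (ZMod 2) (ResidueField O)))
    (htB : ∀ v : ℕ, v.Prime → v ∣ N → ∃ s : B, TypeAt v s rB)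
    (htQ : ∀ q ∈ Q, TypeAt q (1 : B) rB)
    -- Selmer group and unramified extensions
    (hSel : Sel0 rb {v | v ∣ L}) (h : ℕ) (hM5 : UnrBound H h)
    (hT : letI := X.commRing; 4 ^ (h * 2 ^ Q.card) ≤ Nat.card (X.T ⧸ Ideal.span {(2 : X.T)})) :
    letI := X.commRing; letI := X.algebra
    (∃ θ : X.T →ₐ[O] B, (∀ ℓ : ℕ, ℓ.Prime → ¬ ℓ ∣ L → θ (X.t ℓ) = a ℓ) ∧
      ∀ q ∈ Q, θ (X.u q) = 1) ∧ Module.finrank O X.T ≤ h * 2 ^ Q.card := by
  classical
  letI := X.commRing; letI := X.algebra; letI := X.isLocal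
  haveI := X.finite; haveI := X.free; haveI := X.reduced
  haveI : CharZero O := CoefRing.char_zero
  haveI : IsAdicComplete (maximalIdeal O) O := CoefRing.complete
  haveI : Finite (ResidueField O) := Nat.finite_of_card_ne_zero (by
    rw [CoefRing.card]; norm_num)
  have hNL : N ∣ L := hL ▸ Dvd.intro _ rfl
  have hL0 : L ≠ 0 := NeZero.ne L
  have h2L : 2 ∣ L := dvd_trans hN2 hNL
  have h2O : (2 : O) ∈ maximalIdeal O := by
    rw [CoefRing.two]; exact Ideal.mem_span_singleton_self _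
  haveI : Fact (Nat.Prime 2) := ⟨Nat.prime_two⟩
  have h2k : (2 : ResidueField O) = 0 := two_residue
  have hqL : ∀ q ∈ Q, q ∣ L := fun q hq => hL ▸ Dvd.dvd.mul_left (Finset.dvd_prod_of_mem _ hq) N
  -- the field with four elements
  obtain ⟨ω, hω⟩ : ∃ ω : ResidueField O, ω ^ 2 + ω + 1 = 0 := by
    letI := Fintype.ofFinite (ResidueField O)
    have hcard : Fintype.card (ResidueField O) = 4 := by
      rw [← Nat.card_eq_fintype_card, CoefRing.card]
    obtain ⟨x, hx⟩ : ∃ x : ResidueField O, x ∉ ({0, 1} : Finset (ResidueField O)) := by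
      by_contra hcon
      push Not at hcon
      have h1 : (Finset.univ : Finset (ResidueField O)).card ≤ 2 :=
        (Finset.card_le_card (fun x _ => hcon x)).trans Finset.card_le_two
      rw [Finset.card_univ, hcard] at h1
      omega
    rw [Finset.mem_insert, Finset.mem_singleton, not_or] at hx
    refine ⟨x, ?_⟩
    have h1 : x ^ 3 = 1 := by
      have := FiniteField.pow_card_sub_one_eq_one x hx.1
      rwa [hcard] at this
    have h2 : (x - 1) * (x ^ 2 + x + 1) = 0 := by linear_combination h1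
    rcases mul_eq_zero.mp h2 with h3 | h3
    · exact absurd (sub_eq_zero.mp h3) hx.2
    · exact h3
  -- the residual representation
  set e : ZMod 2 →+* ResidueField O := algebraMap (ZMod 2) (ResidueField O) with he
  let rbar : GQ →* M2 (ResidueField O) := mapMat e rb
  have hrbar_apply : ∀ g, rbar g = (rb g).map e := fun g => rfl
  have hrbar : MCont _ rbar := by
    obtain ⟨F, hF, h1⟩ := hcont
    intro n
    refine ⟨F, hF, fun σ hσ i j => ?_⟩
    rw [hrbar_apply, h1 σ hσ]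
    by_cases hij : i = j
    · subst hij; simp
    · simp [one_apply_ne hij]
  have hdet0 : ∀ g, (rb g).det ≠ 0 := by
    intro g h0
    have h1 : (rb g).det * (rb g⁻¹).det = 1 := by
      rw [← det_mul, ← map_mul, mul_inv_cancel, map_one, det_one]
    rw [h0, zero_mul] at h1
    exact zero_ne_one h1
  have hdet1 : ∀ g, (rb g).det = 1 := by
    intro g
    exact zmod2_eq_one _ (hdet0 g)
  have hrdet : ∀ g, (rbar g).det = 1 := by
    intro g
    rw [hrbar_apply]
    have h1 : ((rb g).map e).det = e (rb g).det := by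
      rw [RingHom.map_det, RingHom.mapMatrix_apply]
    rw [h1, hdet1, map_one]
  have hodd : ∀ ℓ : ℕ, ℓ.Prime → ¬ ℓ ∣ L → (ℓ : ResidueField O) = 1 := by
    intro ℓ hℓ hℓL
    obtain ⟨m, rfl⟩ : Odd ℓ := hℓ.odd_of_ne_two fun h => hℓL (h ▸ h2L)
    push_cast
    rw [h2k]; ring
  have hfrbar : ∀ ℓ : ℕ, ℓ.Prime → ¬ ℓ ∣ L → FrobAt ℓ (resT X (X.t ℓ)) rbar := by
    intro ℓ hℓ hℓL P hP φ hφ
    refine ⟨?_, by rw [hrdet, hodd ℓ hℓ hℓL]⟩
    rw [← hmatch ℓ hℓ hℓL P hP φ hφ]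
    exact trace_mapMat e rb φ
  obtain ⟨c, hc⟩ := hsurj !![0, 1; 1, 1] det_c_ne
  obtain ⟨w, hw⟩ := hsurj !![0, 1; 1, 0] det_w_ne
  have hctr : (rbar c).trace = 1 := by
    rw [hrbar_apply, hc, trace_fin_two]
    simp
  have hcomm : (comm2 (rbar c) (rbar w)).det ≠ 0 := by
    have h1 : comm2 (rbar c) (rbar w) = !![0, -1; 1, 0] := by
      rw [comm2, hrbar_apply, hrbar_apply, hc, hw]
      ext i j
      fin_cases i <;> fin_cases j <;> simp [Matrix.mul_apply, Fin.sum_univ_two]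
    rw [h1, det_fin_two]
    simp
  have hne1 : ∀ g, rb g ≠ 1 → rbar g ≠ 1 := by
    intro g hg h0
    apply hg
    ext i j
    apply e.injective
    have h1 := congrFun (congrFun h0 i) j
    rw [hrbar_apply, Matrix.map_apply] at h1
    rw [h1]
    by_cases hij : i = j
    · subst hij; simp
    · simp [one_apply_ne hij]
  -- the representation over `T`
  obtain ⟨rT, hrT, hfT, huT, hPT, htT, htTQ⟩ := exists_sideRep X hN2 hL hsq hQ hM8r hM8s hrbar
    hfrbar hctr (hrdet c) hcomm hω (fun v hv hvN P hP => by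
      obtain ⟨σ, hσ, h1⟩ := hram v hv hvN P hP
      exact ⟨σ, hσ, hne1 σ h1⟩)
    (fun q hq P hP φ hφ => hne1 φ (hfrobQ q hq P hP φ hφ))
  -- residue data
  let fk : X.T →ₐ[O] ResidueField O :=
    { toRingHom := resT X, commutes' := fun x => resT_algebraMap X x }
  have hkerB : RingHom.ker resB = maximalIdeal B := by
    refine IsLocalRing.eq_maximalIdeal (RingHom.ker_isMaximal_of_surjective _ ?_)
    intro y
    obtain ⟨x, rfl⟩ := residue_surjective y
    exact ⟨algebraMap O B x, resB.commutes x⟩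
  have haB : ∀ ℓ : ℕ, ℓ.Prime → ¬ ℓ ∣ L → resB (a ℓ) = resT X (X.t ℓ) := by
    intro ℓ hℓ hℓL
    obtain ⟨P, hP⟩ := H54.exists_liesOverPrime hℓ
    obtain ⟨φ, hφ⟩ := H54.exists_isFrobeniusAt hℓ hP
    rw [← (hfB ℓ hℓ hℓL P hP φ hφ).1, ← hmatch ℓ hℓ hℓL P hP φ hφ]
    have h1 : ((rB φ).map resB).trace = resB (rB φ).trace := by
      rw [trace_fin_two, trace_fin_two, map_add]; rfl
    rw [← h1, hresB φ, trace_fin_two, trace_fin_two, map_add]
    rfl
  let D : ResData (O := O) (ResidueField O) (famT X) (famB L Q a) :=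
    { rT := fk
      rB := resB
      ker_T := ker_resT X
      ker_B := hkerB
      compat := by
        rintro (i | i)
        · exact (haB i i.2.1 i.2.2).symm
        · exact (resT_u X i.2).trans (map_one resB).symm }
  haveI hlocA := D.isLocalRing
  have hS : ∀ {ℓ : ℕ}, ℓ.Prime → ℓ ∉ L.primeFactors → ¬ ℓ ∣ L := fun h1 h2 h3 =>
    h2 (Nat.mem_primeFactors.mpr ⟨h1, h3, hL0⟩)
  obtain ⟨ρ, hρ, hfρ, hρT, hρB, Pk, hPk⟩ := exists_pairRep (O := O) residue_surjective D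
    (S := L.primeFactors) (fun ℓ h1 h2 => Sum.inl ⟨ℓ, h1, hS h1 h2⟩) hrT
    (fun ℓ h1 h2 P hP φ hφ => hfT ℓ h1 (hS h1 h2) P hP φ hφ) hrB
    (fun ℓ h1 h2 P hP φ hφ => hfB ℓ h1 (hS h1 h2) P hP φ hφ) hrbar
    (fun ℓ h1 h2 P hP φ hφ => by
      have h3 := hfrbar ℓ h1 (hS h1 h2) P hP φ hφ
      rw [← haB ℓ h1 (hS h1 h2)] at h3
      exact h3)
    (mirr_of_comm hcomm) (c := c) (αb := ω) (βb := ω + 1)
    (fun h0 => one_ne_zero (left_eq_add.mp h0))
    (by rw [hctr]; linear_combination (-ω) * h2k)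
    (by rw [hrdet]; linear_combination hω * (-1) + h2k)
  -- units
  have hunit : ∀ {g : GQ} {s : pairAlg O (famT X) (famB L Q a)}, D.res s = 1 → rb g ≠ 1 →
      ∃ i j, IsUnit ((ρ g - s • (1 : M2 (pairAlg O (famT X) (famB L Q a)))) i j) := by
    intro g s hs hg
    by_contra hcon
    push Not at hcon
    apply hne1 g hg
    have h1 : (ρ g).map D.res = 1 := by
      ext i j
      have h2 : (ρ g - s • (1 : M2 (pairAlg O (famT X) (famB L Q a)))) i j ∈
          maximalIdeal (pairAlg O (famT X) (famB L Q a)) := hcon i j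
      rw [← D.ker_res, RingHom.mem_ker] at h2
      by_cases hij : i = j
      · subst hij
        rw [Matrix.sub_apply, Matrix.smul_apply, one_apply_eq, smul_eq_mul, mul_one, map_sub] at h2
        rw [Matrix.map_apply, one_apply_eq]
        rw [sub_eq_zero] at h2
        exact h2.trans hs
      · rw [Matrix.sub_apply, Matrix.smul_apply, one_apply_ne hij, smul_zero, sub_zero] at h2
        rw [Matrix.map_apply, one_apply_ne hij]
        exact h2
    rw [← hPk g] at h1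
    have h2 : rbar g = ((Pk⁻¹ : (M2 (ResidueField O))ˣ) : M2 (ResidueField O)) *
        ((Pk : M2 (ResidueField O)) * rbar g *
          ((Pk⁻¹ : (M2 (ResidueField O))ˣ) : M2 (ResidueField O))) *
          (Pk : M2 (ResidueField O)) := by
      simp only [mul_assoc, Units.inv_mul, mul_one, Units.inv_mul_cancel_left]
    rw [h2, h1, mul_one, Units.inv_mul]
  obtain ⟨n2, hn2⟩ := exists_pow_le_two (O := O) CoefRing.two
    (pairAlg O (famT X) (famB L Q a))
  have h2S : 2 ∈ L.primeFactors := Nat.mem_primeFactors.mpr ⟨Nat.prime_two, h2L, hL0⟩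
  let U : Finset (Idx L Q) := Finset.univ.map ⟨Sum.inr, Sum.inr_injective⟩
  have hUcard : U.card = Q.card := by
    rw [Finset.card_map, Finset.card_univ, Fintype.card_coe]
  obtain ⟨⟨θ, hθ⟩, hrk⟩ := theoremC_full D h2O residue_surjective
    (by
      have h1 : RingHom.ker (algebraMap O (ResidueField O)) = maximalIdeal O :=
        IsLocalRing.ker_residue
      rw [h1, CoefRing.two])
    CoefRing.card (adjoin_famT X)
    (fun x hx => (smul_eq_zero.mp hx).resolve_left two_ne_zero)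
    rb hdet0 H hH ρ
    (by
      obtain ⟨F, hF, h1⟩ := hρ n2
      exact ⟨F, hF, fun σ hσ i j => hn2 (h1 σ hσ i j)⟩)
    (det_sub_one_mem_two hn2 h2S hρ hfρ)
    Pk (fun g => (hPk g).symm) {v | v ∣ L}
    (fun ℓ hℓ hℓL => pair_unrAt hρT hρB (huT ℓ hℓ hℓL) (huB ℓ hℓ hℓL))
    (by
      have key : ∀ v : ℕ, v.Prime → v ∣ L → ∃ s, TypeAt v s ρ := by
        intro v hv hvL
        rw [hL] at hvL
        rcases hv.dvd_mul.mp hvL with hvN | hvQ
        · obtain ⟨s1, -, h1⟩ := htT v hv hvN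
          obtain ⟨s2, h2⟩ := htB v hv hvN
          refine pair_typeAt_free hρT hρB hv h1 h2 fun P hP => ?_
          obtain ⟨σ, hσ, h3⟩ := hram v hv hvN P hP
          obtain ⟨i, j, hij⟩ := hunit (s := 1) (map_one _) h3
          exact ⟨σ, hσ, i, j, by rwa [one_smul] at hij⟩
        · obtain ⟨q, hq, hvq⟩ := (Prime.dvd_finsetProd_iff hv.prime _).mp hvQ
          obtain rfl := (Nat.prime_dvd_prime_iff_eq hv (hQ q hq).1).mp hvq
          refine ⟨⟨_, mem_pairAlg (famT X) (famB L Q a) (Sum.inr ⟨v, hq⟩)⟩, ?_⟩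
          refine pair_typeAt hρT hρB (htTQ v hq) (htQ v hq) fun P hP => ?_
          obtain ⟨φ, hφ⟩ := H54.exists_isFrobeniusAt hv hP
          exact ⟨φ, hφ, hunit (resT_u X hq) (hfrobQ v hq P hP φ hφ)⟩
      intro v hv hvL P hP
      obtain ⟨s, hs⟩ := key v hv hvL
      obtain ⟨χ, h1, h2, h3, h4, h5⟩ := hs P hP
      exact ⟨χ, h1, h3, h5⟩)
    (fun v hv hvL P hP => hnsp v hv hvL P hP) hSel U
    (by
      intro i hi
      obtain ⟨q, -, rfl⟩ := Finset.mem_map.mp hi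
      exact ⟨X.u_sq q q.2, one_pow 2⟩)
    (by
      rintro (i | i) hi
      · obtain ⟨P, hP⟩ := H54.exists_liesOverPrime i.2.1
        obtain ⟨φ, hφ⟩ := H54.exists_isFrobeniusAt i.2.1 hP
        refine ⟨φ, ?_⟩
        have h1 := (hfρ i i.2.1 (fun h2 => i.2.2 (Nat.dvd_of_mem_primeFactors h2)) P hP φ hφ).1
        rw [h1]
      · exact absurd (Finset.mem_map.mpr ⟨i, Finset.mem_univ _, rfl⟩) hi)
    h hM5 (by rw [CoefRing.card, hUcard]; exact hT)
  refine ⟨⟨θ, fun ℓ hℓ hℓL => hθ (Sum.inl ⟨ℓ, hℓ, hℓL⟩), fun q hq => hθ (Sum.inr ⟨q, hq⟩)⟩, ?_⟩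
  rwa [hUcard] at hrk

end Core

end Fermat.Agent.H19LT
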