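import Mathlib
import Fermat.Agent.H55LTD

/-!
# LT: Theorem B in characteristic two, conjugation form (helper51, from helper55's `card_le_char2`)
-/

set_option autoImplicit false

open IsLocalRing Module Matrix
open Fermat.Agent.H69.Dih
open Fermat.Agent.H53 (GQ M2 MCont)

namespace Fermat.Agent.H55.LT

section Bound51

variable {k : Type} [Field k] [Finite k]

/-- **Theorem B, char 2 form**: the representation is conjugate to a dihedral one. -/
theorem exists_shape_char2 (hk4 : Nat.card k = 4) [Algebra (ZMod 2) k]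
    (A : Type) [CommRing A] [IsLocalRing A] [Finite A]
    (h2 : (2 : A) = 0) (π : A →+* k) (hπ : Function.Surjective π)
    -- residual representation
    (rb : GQ →* M2 (ZMod 2)) (hrb : ∀ g, (rb g).det ≠ 0) (H : Subgroup GQ)
    (hH : ∀ g, g ∈ H ↔ Ev (rb g))
    -- the representation
    (r : GQ →* M2 A)
    (hcont : ∃ L : IntermediateField ℚ (AlgebraicClosure ℚ), FiniteDimensional ℚ L ∧
      ∀ σ : GQ, (∀ x ∈ L, σ x = x) → r σ = 1)
    (hdet : ∀ g, (r g).det = 1)
    (Q : (M2 k)ˣ)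
    (hQ : ∀ g, π.mapMatrix (r g) = Q.val * (rb g).map (algebraMap (ZMod 2) k) * Q⁻¹.val)
    (S : Set ℕ)
    (hunr : ∀ ℓ : ℕ, ℓ.Prime → ℓ ∉ S → ∀ P : ValuationSubring (AlgebraicClosure ℚ),
      P.LiesOverPrime ℓ → ∀ σ ∈ P.inertiaSubgroupIn ℚ, r σ = 1)
    (htype : ∀ v : ℕ, v.Prime → v ∈ S → ∀ P : ValuationSubring (AlgebraicClosure ℚ),
      P.LiesOverPrime v → ∃ χ : GQ → A,
        (∀ g ∈ P.decompositionSubgroup ℚ, χ g ^ 2 = 1) ∧
        (∀ g ∈ P.inertiaSubgroupIn ℚ, χ g = 1) ∧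
        ∀ g ∈ P.decompositionSubgroup ℚ, ∀ g' ∈ P.decompositionSubgroup ℚ,
          (r g - χ g • (1 : M2 A)) * (r g' - χ g' • (1 : M2 A)) = 0)
    (hnsp : ∀ v : ℕ, v.Prime → v ∈ S → ∀ P : ValuationSubring (AlgebraicClosure ℚ),
      P.LiesOverPrime v → ∃ g ∈ P.decompositionSubgroup ℚ, g ∉ H)
    (hSel : Sel0 rb S) :
    ∃ P : (M2 A)ˣ, Shape H (conj P r) := by
  classical
  -- diagonalise
  obtain ⟨ω, hω⟩ := exists_omega (k := k) hk4
  obtain ⟨P, hP⟩ : ∃ P : (M2 A)ˣ, π.mapMatrix P.val = (diagU ω hω * Q⁻¹).val := by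
    choose f hf using id hπ
    let M : M2 A := fun i j => f ((diagU ω hω * Q⁻¹).val i j)
    have hM : π.mapMatrix M = (diagU ω hω * Q⁻¹).val := by
      ext i j
      exact hf _
    have hdet : IsUnit M.det := by
      by_contra hcon
      have h1 : π M.det = (π.mapMatrix M).det := RingHom.map_det π M
      rw [hM] at h1
      have h3 : (diagU ω hω * Q⁻¹).val.det ≠ 0 :=
        ((Matrix.isUnit_iff_isUnit_det _).1 (diagU ω hω * Q⁻¹).isUnit).ne_zero
      rw [← h1] at h3
      apply h3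
      have hnil : IsNilpotent M.det := by
        obtain ⟨n, hn⟩ := IsArtinianRing.isNilpotent_jacobson_bot (R := A)
        rw [IsLocalRing.jacobson_eq_maximalIdeal ⊥ bot_ne_top] at hn
        refine ⟨n, ?_⟩
        have h5 : M.det ^ n ∈ maximalIdeal A ^ n :=
          Ideal.pow_mem_pow ((mem_maximalIdeal _).2 hcon) n
        rw [hn] at h5
        exact h5
      exact (hnil.map π).eq_zero
    exact ⟨((Matrix.isUnit_iff_isUnit_det _).2 hdet).unit, hM⟩
  have hPinv : π.mapMatrix P⁻¹.val = Q.val * (diagU ω hω)⁻¹.val := by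
    have h2 : π.mapMatrix P⁻¹.val * π.mapMatrix P.val = 1 := by
      rw [← map_mul, Units.inv_mul, map_one]
    rw [hP, Units.val_mul] at h2
    calc π.mapMatrix P⁻¹.val
        = π.mapMatrix P⁻¹.val * ((diagU ω hω).val * (Q⁻¹.val * Q.val) *
          (diagU ω hω)⁻¹.val) := by
          rw [Units.inv_mul, mul_one, Units.mul_inv, mul_one]
      _ = (π.mapMatrix P⁻¹.val * ((diagU ω hω).val * Q⁻¹.val)) * Q.val *
          (diagU ω hω)⁻¹.val := by simp only [mul_assoc]
      _ = _ := by rw [h2, one_mul]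
  have hπr : ∀ g, π.mapMatrix (conj P r g) =
      (diagU ω hω).val * (rb g).map (algebraMap (ZMod 2) k) * (diagU ω hω)⁻¹.val := by
    intro g
    rw [conj_apply, map_mul, map_mul, hQ, hP, hPinv, Units.val_mul]
    calc (diagU ω hω).val * Q⁻¹.val * (Q.val * (rb g).map (algebraMap (ZMod 2) k) * Q⁻¹.val) *
          (Q.val * (diagU ω hω)⁻¹.val)
        = (diagU ω hω).val * (Q⁻¹.val * Q.val) * (rb g).map (algebraMap (ZMod 2) k) *
          (Q⁻¹.val * Q.val) * (diagU ω hω)⁻¹.val := by simp only [mul_assoc]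
      _ = _ := by rw [Units.inv_mul, mul_one, mul_one]
  -- the index sets
  let ιD : Type := {P : ValuationSubring (AlgebraicClosure ℚ) // ∃ v : ℕ, v.Prime ∧ v ∈ S ∧
    P.LiesOverPrime v}
  let ιI : Type := {P : ValuationSubring (AlgebraicClosure ℚ) // ∃ v : ℕ, v.Prime ∧ v ∉ S ∧
    P.LiesOverPrime v}
  have hχ : ∀ P : ιD, ∃ χ : GQ → A,
        (∀ g ∈ P.1.decompositionSubgroup ℚ, χ g ^ 2 = 1) ∧
        (∀ g ∈ P.1.inertiaSubgroupIn ℚ, χ g = 1) ∧
        ∀ g ∈ P.1.decompositionSubgroup ℚ, ∀ g' ∈ P.1.decompositionSubgroup ℚ,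
          (r g - χ g • (1 : M2 A)) * (r g' - χ g' • (1 : M2 A)) = 0 := by
    rintro ⟨P, v, hv, hvS, hP⟩
    exact htype v hv hvS P hP
  choose χ hχ1 hχ2 hχ3 using hχ
  obtain ⟨L, hL, hLr⟩ := hcont
  have hone : ∀ g, r g = 1 → conj P r g = 1 := by
    intro g hg
    rw [conj_apply, hg, mul_one, Units.mul_inv]
  have key : ∃ P' : (M2 A)ˣ, π.mapMatrix P'.val = 1 ∧ Shape H (conj P' (conj P r)) := by
    refine exists_conj_shape (G := GQ) (H := H) (k := k) ?_ ?_
      (fun P : ιD => P.1.decompositionSubgroup ℚ) ?_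
      (fun P : ιI => {g | g ∈ P.1.inertiaSubgroupIn ℚ})
      {σ | ∀ x ∈ L, σ x = x} (Nat.card A) A rfl h2 π hπ (conj P r) ?_ ?_ χ hχ1 ?_ ?_ ?_ ?_
    · intro a b
      rw [hH, hH, hH, map_mul]
      exact ev_mul _ _ (hrb a) (hrb b)
    · intro y hy
      haveI : Fintype k := Fintype.ofFinite k
      have h3 := FiniteField.pow_card_sub_one_eq_one y hy
      rwa [← Nat.card_eq_fintype_card, hk4] at h3
    · rintro ⟨P, v, hv, hvS, hP⟩
      exact hnsp v hv hvS P hP
    · intro g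
      rw [conj_apply, Matrix.det_mul, Matrix.det_mul, hdet, mul_one, ← Matrix.det_mul,
        Units.mul_inv, Matrix.det_one]
    · constructor
      · intro g hg
        show (π.mapMatrix (conj P r g)) 0 1 = 0 ∧ (π.mapMatrix (conj P r g)) 1 0 = 0
        rw [hπr]
        exact (shape_diagU hω (rb g) (hrb g)).1 ((hH g).1 hg)
      · intro g hg
        show (π.mapMatrix (conj P r g)) 0 0 = 0 ∧ (π.mapMatrix (conj P r g)) 1 1 = 0
        rw [hπr]
        exact (shape_diagU hω (rb g) (hrb g)).2 (fun h3 => hg ((hH g).2 h3))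
    · intro v g hg g' hg'
      have h3 : ∀ g, conj P r g - χ v g • (1 : M2 A) =
          P.val * (r g - χ v g • (1 : M2 A)) * P⁻¹.val := by
        intro g
        rw [conj_apply, mul_sub, sub_mul, mul_smul_comm, smul_mul_assoc, mul_one, Units.mul_inv]
      rw [h3, h3]
      calc P.val * (r g - χ v g • (1 : M2 A)) * P⁻¹.val *
            (P.val * (r g' - χ v g' • (1 : M2 A)) * P⁻¹.val)
          = P.val * ((r g - χ v g • (1 : M2 A)) * (P⁻¹.val *
            P.val) * (r g' - χ v g' • (1 : M2 A))) * P⁻¹.val := by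
            simp only [mul_assoc]
        _ = 0 := by
            rw [Units.inv_mul, mul_one, hχ3 v g hg g' hg', mul_zero, zero_mul]
    · rintro ⟨P', v, hv, hvS, hP'⟩ g hg
      exact hone g (hunr v hv hvS P' hP' g hg)
    · intro n hn
      exact hone n (hLr n hn)
    · intro b h1 h3 h4 h5
      refine hSel.conj (diagU ω hω) (fun g => π.mapMatrix (conj P r g)) hπr b h1 ⟨L, hL, ?_⟩ ?_ ?_
      · intro g σ hσ
        exact h3 g σ hσ
      · intro ℓ hℓ hℓS P' hP' σ hσ
        exact h4 ⟨P', ℓ, hℓ, hℓS, hP'⟩ σ hσ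
      · intro v hv hvS P' hP' g hg h' hh'
        exact h5 ⟨P', v, hv, hvS, hP'⟩ g hg h' hh'
  obtain ⟨P', -, hsh⟩ := key
  refine ⟨P' * P, ?_⟩
  have h3 : (conj (P' * P) r : GQ → M2 A) = conj P' (conj P r) := by
    funext g
    rw [conj_apply, conj_apply, conj_apply, Units.val_mul, _root_.mul_inv_rev, Units.val_mul]
    simp only [mul_assoc]
  rw [h3]
  exact hsh

end Bound51

end Fermat.Agent.H55.LT
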