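import Mathlib
import Fermat.Prelude
import Fermat.Agent.H51Shape
import Fermat.Agent.H51SurT
import Fermat.Agent.H19LTCore
import Fermat.Agent.H63UnrBound2

/-!
# LT: surjectivity of `π : T → F₄[C₂ × μ₂^Q]` for `TSide'`, and the bound for unramified
extensions
-/

set_option autoImplicit false
set_option linter.style.haveILetI false

noncomputable section

open IsLocalRing Matrix NumberField
open scoped NumberField nonZeroDivisors
open Fermat.Agent.H53 (GQ M2 MCont mapMat)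
open Fermat.Agent.H30 (FrobData MIrr)
open Fermat.Agent.LT (TypeAt Qb TwoRing CoefRing TSide' FrobAt UnrAt C2' C2Q GK primesOver cls
  deltaQ)
open Fermat.Agent.H55.LT (Sel0 Ev)
open Fermat.Agent.H69.Dih (Shape conj conj_apply chr)
open Fermat.Agent.H19LT (M8Ram M8Sign resT)

namespace Fermat.Agent.H51S

variable {O : Type} [CommRing O] [IsDomain O] [IsDiscreteValuationRing O] [CoefRing O]
  {K : Type} [Field K] [NumberField K] {η : ClassGroup (𝓞 K) →* (ResidueField O)ˣ} {N : ℕ}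
  {Q : Finset ℕ} {L : ℕ} [NeZero L]

/-- The representation over `X.T` from the hypotheses of `H19LT.exists_theta_side`. -/
theorem exists_rT (X : TSide' O K η N Q L) (hN2 : 2 ∣ N) (hL : L = N * ∏ q ∈ Q, q)
    (hsq : Squarefree N) (hQ : ∀ q ∈ Q, q.Prime ∧ ¬ q ∣ N)
    (hM8r : ∀ v, v.Prime → v ∣ N → M8Ram v) (hM8s : ∀ q ∈ Q, M8Sign q)
    [Algebra (ZMod 2) (ResidueField O)]
    (rb : GQ →* M2 (ZMod 2))
    (hcont : ∃ F : IntermediateField ℚ (AlgebraicClosure ℚ), FiniteDimensional ℚ F ∧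
      ∀ σ : GQ, (∀ x ∈ F, σ x = x) → rb σ = 1)
    (hsurj : ∀ M : M2 (ZMod 2), M.det ≠ 0 → ∃ g, rb g = M)
    (hram : ∀ v : ℕ, v.Prime → v ∣ N → ∀ P : ValuationSubring Qb, P.LiesOverPrime v →
      ∃ σ ∈ P.inertiaSubgroupIn ℚ, rb σ ≠ 1)
    (hfrobQ : ∀ q ∈ Q, ∀ P : ValuationSubring Qb, P.LiesOverPrime q → ∀ φ : GQ,
      P.IsFrobeniusAt φ q → rb φ ≠ 1)
    (hmatch : ∀ ℓ : ℕ, ℓ.Prime → ¬ ℓ ∣ L → ∀ P : ValuationSubring Qb, P.LiesOverPrime ℓ →
      ∀ φ : GQ, P.IsFrobeniusAt φ ℓ → algebraMap (ZMod 2) (ResidueField O) (rb φ).trace =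
        resT X (X.t ℓ)) :
    letI := X.commRing; letI := X.algebra; letI := X.isLocal
    ∃ ρ : GQ →* M2 X.T, MCont X.T ρ ∧
      (∀ ℓ : ℕ, ℓ.Prime → ¬ ℓ ∣ L → FrobAt ℓ (X.t ℓ) ρ) ∧
      (∀ ℓ : ℕ, ℓ.Prime → ¬ ℓ ∣ L → UnrAt ℓ ρ) ∧
      (∃ P : (M2 (ResidueField O))ˣ, ∀ g, (P : M2 (ResidueField O)) *
        (rb g).map (algebraMap (ZMod 2) (ResidueField O)) *
        ((P⁻¹ : (M2 (ResidueField O))ˣ) : M2 (ResidueField O)) = (ρ g).map (resT X)) ∧
      (∀ v : ℕ, v.Prime → v ∣ N → ∃ s : X.T, s ^ 2 = 1 ∧ TypeAt v s ρ) ∧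
      (∀ q ∈ Q, TypeAt q (X.u q) ρ) := by
  classical
  letI := X.commRing; letI := X.algebra; letI := X.isLocal
  haveI := X.finite; haveI := X.free; haveI := X.reduced
  haveI : CharZero O := CoefRing.char_zero
  haveI : IsAdicComplete (maximalIdeal O) O := CoefRing.complete
  haveI : Finite (ResidueField O) := Nat.finite_of_card_ne_zero (by
    rw [CoefRing.card]; norm_num)
  have hNL : N ∣ L := hL ▸ Dvd.intro _ rfl
  have hL0 : L ≠ 0 := NeZero.ne L
  have h2L : 2 ∣ L := dvd_trans hN2 hNL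
  have h2k : (2 : ResidueField O) = 0 := H19LT.two_residue
  -- the field with four elements
  obtain ⟨ω, hω⟩ : ∃ ω : ResidueField O, ω ^ 2 + ω + 1 = 0 := by
    letI := Fintype.ofFinite (ResidueField O)
    have hcard : Fintype.card (ResidueField O) = 4 := by
      rw [← Nat.card_eq_fintype_card, CoefRing.card]
    obtain ⟨x, hx⟩ : ∃ x : ResidueField O, x ∉ ({0, 1} : Finset (ResidueField O)) := by
      by_contra hcon
      push Not at hcon
      have h1 : (Finset.univ : Finset (ResidueField O)).card ≤ 2 :=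
        (Finset.card_le_card (fun x _ => hcon x)).trans Finset.card_le_two
      rw [Finset.card_univ, hcard] at h1
      omega
    rw [Finset.mem_insert, Finset.mem_singleton, not_or] at hx
    refine ⟨x, ?_⟩
    have h1 : x ^ 3 = 1 := by
      have := FiniteField.pow_card_sub_one_eq_one x hx.1
      rwa [hcard] at this
    have h2 : (x - 1) * (x ^ 2 + x + 1) = 0 := by linear_combination h1
    rcases mul_eq_zero.mp h2 with h3 | h3
    · exact absurd (sub_eq_zero.mp h3) hx.2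
    · exact h3
  -- the residual representation
  set e : ZMod 2 →+* ResidueField O := algebraMap (ZMod 2) (ResidueField O) with he
  let rbar : GQ →* M2 (ResidueField O) := mapMat e rb
  have hrbar_apply : ∀ g, rbar g = (rb g).map e := fun g => rfl
  have hrbar : MCont _ rbar := by
    obtain ⟨F, hF, h1⟩ := hcont
    intro n
    refine ⟨F, hF, fun σ hσ i j => ?_⟩
    rw [hrbar_apply, h1 σ hσ]
    by_cases hij : i = j
    · subst hij; simp
    · simp [one_apply_ne hij]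
  have hdet0 : ∀ g, (rb g).det ≠ 0 := by
    intro g h0
    have h1 : (rb g).det * (rb g⁻¹).det = 1 := by
      rw [← det_mul, ← map_mul, mul_inv_cancel, map_one, det_one]
    rw [h0, zero_mul] at h1
    exact zero_ne_one h1
  have hdet1 : ∀ g, (rb g).det = 1 := by
    intro g
    exact H19LT.zmod2_eq_one _ (hdet0 g)
  have hrdet : ∀ g, (rbar g).det = 1 := by
    intro g
    rw [hrbar_apply]
    have h1 : ((rb g).map e).det = e (rb g).det := by
      rw [RingHom.map_det, RingHom.mapMatrix_apply]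
    rw [h1, hdet1, map_one]
  have hodd : ∀ ℓ : ℕ, ℓ.Prime → ¬ ℓ ∣ L → (ℓ : ResidueField O) = 1 := by
    intro ℓ hℓ hℓL
    obtain ⟨m, rfl⟩ : Odd ℓ := hℓ.odd_of_ne_two fun h => hℓL (h ▸ h2L)
    push_cast
    rw [h2k]; ring
  have hfrbar : ∀ ℓ : ℕ, ℓ.Prime → ¬ ℓ ∣ L → FrobAt ℓ (resT X (X.t ℓ)) rbar := by
    intro ℓ hℓ hℓL P hP φ hφ
    refine ⟨?_, by rw [hrdet, hodd ℓ hℓ hℓL]⟩
    rw [← hmatch ℓ hℓ hℓL P hP φ hφ]
    rw [hrbar_apply, trace_fin_two, trace_fin_two, map_add]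
    rfl
  obtain ⟨c, hc⟩ := hsurj !![0, 1; 1, 1] H19LT.det_c_ne
  obtain ⟨w, hw⟩ := hsurj !![0, 1; 1, 0] H19LT.det_w_ne
  have hctr : (rbar c).trace = 1 := by
    rw [hrbar_apply, hc, trace_fin_two]
    simp
  have hcomm : (H19LT.comm2 (rbar c) (rbar w)).det ≠ 0 := by
    have h1 : H19LT.comm2 (rbar c) (rbar w) = !![0, -1; 1, 0] := by
      rw [H19LT.comm2, hrbar_apply, hrbar_apply, hc, hw]
      ext i j
      fin_cases i <;> fin_cases j <;> simp [Matrix.mul_apply, Fin.sum_univ_two]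
    rw [h1, det_fin_two]
    simp
  have hne1 : ∀ g, rb g ≠ 1 → rbar g ≠ 1 := by
    intro g hg h0
    apply hg
    ext i j
    apply e.injective
    have h1 := congrFun (congrFun h0 i) j
    rw [hrbar_apply, Matrix.map_apply] at h1
    rw [h1]
    by_cases hij : i = j
    · subst hij; simp
    · simp [one_apply_ne hij]
  obtain ⟨rT, hrT, hfT, huT, ⟨PT, hPT⟩, htT, htTQ⟩ := H19LT.exists_sideRep X hN2 hL hsq hQ hM8r
    hM8s hrbar hfrbar hctr (hrdet c) hcomm hω (fun v hv hvN P hP => by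
      obtain ⟨σ, hσ, h1⟩ := hram v hv hvN P hP
      exact ⟨σ, hσ, hne1 σ h1⟩)
    (fun q hq P hP φ hφ => hne1 φ (hfrobQ q hq P hP φ hφ))
  refine ⟨rT, hrT, hfT, huT, ⟨PT, fun g => ?_⟩, htT, htTQ⟩
  rw [← hPT g, hrbar_apply]

/-- **The dihedral representation over `F₄[C₂ × μ₂^Q]`.** -/
theorem exists_rep_shape (X : TSide' O K η N Q L) (hN2 : 2 ∣ N) (hL : L = N * ∏ q ∈ Q, q)
    (hsq : Squarefree N) (hQ : ∀ q ∈ Q, q.Prime ∧ ¬ q ∣ N)
    (hM8r : ∀ v, v.Prime → v ∣ N → M8Ram v) (hM8s : ∀ q ∈ Q, M8Sign q)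
    [Algebra (ZMod 2) (ResidueField O)]
    (rb : GQ →* M2 (ZMod 2))
    (hcont : ∃ F : IntermediateField ℚ (AlgebraicClosure ℚ), FiniteDimensional ℚ F ∧
      ∀ σ : GQ, (∀ x ∈ F, σ x = x) → rb σ = 1)
    (hsurj : ∀ M : M2 (ZMod 2), M.det ≠ 0 → ∃ g, rb g = M)
    (hram : ∀ v : ℕ, v.Prime → v ∣ N → ∀ P : ValuationSubring Qb, P.LiesOverPrime v →
      ∃ σ ∈ P.inertiaSubgroupIn ℚ, rb σ ≠ 1)
    (hfrobQ : ∀ q ∈ Q, ∀ P : ValuationSubring Qb, P.LiesOverPrime q → ∀ φ : GQ,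
      P.IsFrobeniusAt φ q → rb φ ≠ 1)
    (hmatch : ∀ ℓ : ℕ, ℓ.Prime → ¬ ℓ ∣ L → ∀ P : ValuationSubring Qb, P.LiesOverPrime ℓ →
      ∀ φ : GQ, P.IsFrobeniusAt φ ℓ → algebraMap (ZMod 2) (ResidueField O) (rb φ).trace =
        resT X (X.t ℓ))
    (H : Subgroup GQ) (hH : ∀ g, g ∈ H ↔ Ev (rb g))
    (hnsp : ∀ v : ℕ, v.Prime → v ∣ L → ∀ P : ValuationSubring Qb, P.LiesOverPrime v →
      ∃ g ∈ P.decompositionSubgroup ℚ, g ∉ H)
    (hSel : Sel0 rb {v | v ∣ L}) :
    ∃ r : GQ →* M2 (MonoidAlgebra (ResidueField O) (C2Q K Q)),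
      GaloisFactorsThroughFiniteLevel r ∧ Shape H r ∧ (∀ g, (r g).det = 1) ∧
      ∀ (ℓ : ℕ) (φ : GQ), IsFrob L φ ℓ → (r φ).trace = ∑ P ∈ primesOver K ℓ,
        MonoidAlgebra.single ((QuotientGroup.mk (cls K P) : C2' K),
          (1 : {q // q ∈ Q} → Multiplicative (ZMod 2)))
          ((η (cls K P) : (ResidueField O)ˣ) : ResidueField O) := by
  classical
  letI := X.commRing; letI := X.algebra; letI := X.isLocal
  haveI : Finite (ResidueField O) := Nat.finite_of_card_ne_zero (by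
    rw [CoefRing.card]; norm_num)
  have h2k : (2 : ResidueField O) = 0 := H19LT.two_residue
  haveI : CharP (ResidueField O) 2 := CharTwo.of_one_ne_zero_of_two_eq_zero one_ne_zero h2k
  haveI hlocB : IsLocalRing (MonoidAlgebra (ResidueField O) (C2Q K Q)) :=
    H61.TE.isLocalRing_C2Q K Q
  haveI : Finite (MonoidAlgebra (ResidueField O) (C2Q K Q)) :=
    Module.finite_of_finite (ResidueField O)
  have h2B : (2 : MonoidAlgebra (ResidueField O) (C2Q K Q)) = 0 := by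
    rw [← map_ofNat (algebraMap (ResidueField O) (MonoidAlgebra (ResidueField O) (C2Q K Q))) 2, h2k,
      map_zero]
  have hNL : N ∣ L := hL ▸ Dvd.intro _ rfl
  have hL0 : L ≠ 0 := NeZero.ne L
  have h2L : 2 ∣ L := dvd_trans hN2 hNL
  obtain ⟨ρ, hρc, hρf, hρu, ⟨P, hP⟩, hρN, hρQ⟩ := exists_rT X hN2 hL hsq hQ hM8r hM8s rb hcont
    hsurj hram hfrobQ hmatch
  have hπ : IsLocalHom X.π := ⟨fun x hx => by
    by_contra hcon
    have h1 : x ∈ maximalIdeal X.T := (mem_maximalIdeal _).2 hcon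
    rw [← H19LT.ker_resT X, RingHom.mem_ker] at h1
    have h2 : IsUnit (H61.TE.aug (ResidueField O) (C2Q K Q) (X.π x)) := hx.map _
    have h3 : H61.TE.aug (ResidueField O) (C2Q K Q) (X.π x) = resT X x := rfl
    rw [h3, h1] at h2
    exact not_isUnit_zero h2⟩
  let r0 : GQ →* M2 (MonoidAlgebra (ResidueField O) (C2Q K Q)) := mapMat X.π ρ
  have hr0 : MCont _ r0 := hρc.map X.π hπ
  have hfr0 : ∀ ℓ : ℕ, ℓ.Prime → ¬ ℓ ∣ L → FrobAt ℓ (X.π (X.t ℓ)) r0 := by
    intro ℓ hℓ hℓL A hA φ hφ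
    obtain ⟨h1, h2⟩ := hρf ℓ hℓ hℓL A hA φ hφ
    refine ⟨?_, ?_⟩
    · rw [H19LT.trace_mapMat, h1]
    · rw [H19LT.det_mapMat, h2, map_natCast]
  obtain ⟨n, hn⟩ := IsArtinianRing.isNilpotent_jacobson_bot
    (R := MonoidAlgebra (ResidueField O) (C2Q K Q))
  rw [IsLocalRing.jacobson_eq_maximalIdeal ⊥ bot_ne_top] at hn
  have hfin0 : GaloisFactorsThroughFiniteLevel r0 := by
    obtain ⟨F, hF, h1⟩ := hr0 n
    refine ⟨F, hF, fun σ hσ => ?_⟩
    refine Matrix.ext fun i j => ?_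
    have h2 := h1 σ hσ i j
    rw [hn] at h2
    exact sub_eq_zero.mp h2
  have hdet0 : ∀ g, (r0 g).det = 1 := by
    intro g
    haveI : IsHausdorff (maximalIdeal (MonoidAlgebra (ResidueField O) (C2Q K Q)))
        (MonoidAlgebra (ResidueField O) (C2Q K Q)) := by
      refine ⟨fun x hx => ?_⟩
      have h1 := hx n
      rw [SModEq.zero, smul_eq_mul, Ideal.mul_top, hn] at h1
      exact h1
    refine H19LT.det_eq_one_of_two h2B (S := L.primeFactors)
      (Nat.mem_primeFactors.mpr ⟨Nat.prime_two, h2L, hL0⟩) hr0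
      (a := fun ℓ _ _ => X.π (X.t ℓ)) (fun ℓ hℓ hℓS => ?_) g
    exact hfr0 ℓ hℓ fun h => hℓS (Nat.mem_primeFactors.mpr ⟨hℓ, h, hL0⟩)
  have hone : ∀ g, ρ g = 1 → r0 g = 1 := by
    intro g hg
    ext i j
    rw [H53.mapMat_apply, hg]
    by_cases hij : i = j
    · subst hij; simp
    · simp [one_apply_ne hij]
  obtain ⟨P', hsh⟩ := H55.LT.exists_shape_char2 (k := ResidueField O) CoefRing.card
    (MonoidAlgebra (ResidueField O) (C2Q K Q)) h2B
    (H61.TE.aug (ResidueField O) (C2Q K Q) : MonoidAlgebra (ResidueField O) (C2Q K Q) →+*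
      ResidueField O) (fun y => ⟨algebraMap _ _ y,
        (H61.TE.aug (ResidueField O) (C2Q K Q)).commutes y⟩) rb
    (fun g h0 => by
      have h1 : (rb g).det * (rb g⁻¹).det = 1 := by
        rw [← det_mul, ← map_mul, mul_inv_cancel, map_one, det_one]
      rw [h0, zero_mul] at h1
      exact zero_ne_one h1) H hH r0 hfin0 hdet0 P (fun g => by
        rw [hP g]
        rfl) {v | v ∣ L}
    (fun ℓ hℓ hℓL A hA σ hσ => hone σ (hρu ℓ hℓ hℓL A hA σ hσ))
    (fun v hv hvL A hA => by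
      have h1 : ∃ s : X.T, TypeAt v s ρ := by
        have h2 : v ∣ N ∨ v ∈ Q := by
          have h3 : v ∣ N * ∏ q ∈ Q, q := by rw [← hL]; exact hvL
          rcases (Nat.Prime.dvd_mul hv).1 h3 with h4 | h4
          · exact Or.inl h4
          · obtain ⟨q, hq, h5⟩ := (hv.prime.dvd_finsetProd_iff _).1 h4
            rw [(Nat.prime_dvd_prime_iff_eq hv (hQ q hq).1).1 h5]
            exact Or.inr hq
        rcases h2 with h2 | h2
        · obtain ⟨s, -, h3⟩ := hρN v hv h2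
          exact ⟨s, h3⟩
        · exact ⟨_, hρQ v h2⟩
      obtain ⟨s, h1⟩ := h1
      obtain ⟨χ, hχ1, -, hχ2, -, hχ3⟩ := (H19LT.TypeAt.mapMat h1 X.π) A hA
      refine ⟨χ, hχ1, hχ2, fun g hg g' hg' => ?_⟩
      have h4 := hχ3 g hg g' hg'
      have h5 : (mapMat X.π ρ g).det = 1 := hdet0 g
      rw [h5, one_mul] at h4
      exact h4)
    hnsp hSel
  refine ⟨conj P' r0, ?_, hsh, ?_, ?_⟩
  · obtain ⟨F, hF, h1⟩ := hfin0
    refine ⟨F, hF, fun σ hσ => ?_⟩
    rw [conj_apply, h1 σ hσ, mul_one, Units.mul_inv]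
  · intro g
    rw [conj_apply, Matrix.det_mul, Matrix.det_mul, hdet0, mul_one, ← Matrix.det_mul,
      Units.mul_inv, Matrix.det_one]
  · rintro ℓ φ ⟨hℓ, hℓL, A, hA, hφ⟩
    rw [conj_apply, Matrix.trace_mul_comm, ← mul_assoc, Units.inv_mul, one_mul,
      (hfr0 ℓ hℓ hℓL A hA φ hφ).1, X.π_t ℓ hℓ hℓL]

/-- **Surjectivity of `π`** and the bound for the unramified extensions of 2-power degree. -/
theorem side_surj {w : 𝓞 K} (h : H63.LT.QuadData K N w) (hη : η ≠ 1)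
    (X : TSide' O K η N Q L) (hN2 : 2 ∣ N) (hL : L = N * ∏ q ∈ Q, q)
    (hsq : Squarefree N) (hQ : ∀ q ∈ Q, q.Prime ∧ ¬ q ∣ N)
    (hM8r : ∀ v, v.Prime → v ∣ N → M8Ram v) (hM8s : ∀ q ∈ Q, M8Sign q)
    [Algebra (ZMod 2) (ResidueField O)]
    (rb : GQ →* M2 (ZMod 2))
    (hcont : ∃ F : IntermediateField ℚ (AlgebraicClosure ℚ), FiniteDimensional ℚ F ∧
      ∀ σ : GQ, (∀ x ∈ F, σ x = x) → rb σ = 1)
    (hsurj : ∀ M : M2 (ZMod 2), M.det ≠ 0 → ∃ g, rb g = M)
    (hram : ∀ v : ℕ, v.Prime → v ∣ N → ∀ P : ValuationSubring Qb, P.LiesOverPrime v →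
      ∃ σ ∈ P.inertiaSubgroupIn ℚ, rb σ ≠ 1)
    (hfrobQ : ∀ q ∈ Q, ∀ P : ValuationSubring Qb, P.LiesOverPrime q → ∀ φ : GQ,
      P.IsFrobeniusAt φ q → rb φ ≠ 1)
    (hmatch : ∀ ℓ : ℕ, ℓ.Prime → ¬ ℓ ∣ L → ∀ P : ValuationSubring Qb, P.LiesOverPrime ℓ →
      ∀ φ : GQ, P.IsFrobeniusAt φ ℓ → algebraMap (ZMod 2) (ResidueField O) (rb φ).trace =
        resT X (X.t ℓ))
    (hH : ∀ g, g ∈ GK N ↔ Ev (rb g))
    (hnsp : ∀ v : ℕ, v.Prime → v ∣ L → ∀ P : ValuationSubring Qb, P.LiesOverPrime v →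
      ∃ g ∈ P.decompositionSubgroup ℚ, g ∉ GK N)
    (hSel : Sel0 rb {v | v ∣ L}) :
    H55.LT.UnrBound (GK N) (Nat.card (C2' K)) ∧
      letI := X.commRing; Function.Surjective X.π := by
  classical
  letI := X.commRing; letI := X.algebra; letI := X.isLocal
  haveI : Finite (ResidueField O) := Nat.finite_of_card_ne_zero (by
    rw [CoefRing.card]; norm_num)
  have h2k : (2 : ResidueField O) = 0 := H19LT.two_residue
  haveI : CharP (ResidueField O) 2 := CharTwo.of_one_ne_zero_of_two_eq_zero one_ne_zero h2k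
  haveI hlocB : IsLocalRing (MonoidAlgebra (ResidueField O) (C2Q K Q)) :=
    H61.TE.isLocalRing_C2Q K Q
  have hNL : N ∣ L := hL ▸ Dvd.intro _ rfl
  have hL0 : L ≠ 0 := NeZero.ne L
  have hk : ∀ y : ResidueField O, y ≠ 0 → y ^ 3 = 1 := by
    intro y hy
    haveI : Fintype (ResidueField O) := Fintype.ofFinite _
    have h3 := FiniteField.pow_card_sub_one_eq_one y hy
    rwa [← Nat.card_eq_fintype_card, CoefRing.card] at h3
  obtain ⟨r, hfin, hsh, hdet, htr⟩ := exists_rep_shape X hN2 hL hsq hQ hM8r hM8s rb hcont hsurj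
    hram hfrobQ hmatch (GK N) hH hnsp hSel
  refine ⟨H63.LT.unrBound_of_rep h hk Q hL0 hNL η hη r hfin hsh hdet htr, ?_⟩
  have D := data h hk Q hL0 hNL η hη r hfin hsh hdet htr
  -- the range of `π` as a subalgebra
  let R : Subalgebra (ResidueField O) (MonoidAlgebra (ResidueField O) (C2Q K Q)) :=
    { X.π.range with
      algebraMap_mem' := fun a => by
        obtain ⟨x, rfl⟩ := residue_surjective a
        exact ⟨algebraMap O X.T x, X.π_alg x⟩ }
  have hR : ∀ y, y ∈ R ↔ ∃ x, X.π x = y := fun y => Iff.rfl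
  have hι : ∀ c, iotaQ (ResidueField O) K Q c ∈ R := by
    refine D.ι_mem R ?_
    rintro φ c ⟨ℓ, hφ, -⟩
    rw [htr ℓ φ hφ, ← X.π_t ℓ hφ.1 hφ.2.1]
    exact (hR _).2 ⟨_, rfl⟩
  have hδ : ∀ q : {q // q ∈ Q}, MonoidAlgebra.single (deltaQ K Q q) (1 : ResidueField O) ∈ R :=
    fun q => (hR _).2 ⟨_, X.π_u q⟩
  -- the group elements in `R`
  let S : Submonoid (C2Q K Q) := R.toSubmonoid.comap (MonoidAlgebra.of (ResidueField O) (C2Q K Q))
  have hS1 : ∀ c : C2' K, ((c, 1) : C2Q K Q) ∈ S := fun c => hι c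
  have hS2 : ∀ v : {q // q ∈ Q} → Multiplicative (ZMod 2), ((1, v) : C2Q K Q) ∈ S := by
    intro v
    have h1 : v = ∏ q, Pi.mulSingle q (v q) := (Finset.univ_prod_mulSingle v).symm
    have h2 : ((1, v) : C2Q K Q) = ∏ q, ((1, Pi.mulSingle q (v q)) : C2Q K Q) := by
      conv_lhs => rw [h1]
      exact map_prod (MonoidHom.inr (C2' K) ({q // q ∈ Q} → Multiplicative (ZMod 2))) _ _
    rw [h2]
    refine Submonoid.prod_mem _ fun q _ => ?_
    have h3 : v q = 1 ∨ v q = Multiplicative.ofAdd 1 := by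
      have : ∀ x : Multiplicative (ZMod 2), x = 1 ∨ x = Multiplicative.ofAdd 1 := by decide
      exact this _
    rcases h3 with h3 | h3
    · rw [h3, Pi.mulSingle_one]
      exact S.one_mem
    · rw [h3]
      have h4 : ((1, Pi.mulSingle q (Multiplicative.ofAdd 1)) : C2Q K Q) = deltaQ K Q q := by
        rw [deltaQ]
      rw [h4]
      exact hδ q
  intro y
  rw [← hR]
  induction y using MonoidAlgebra.induction_linear with
  | zero => exact R.zero_mem
  | add f g hf hg => exact R.add_mem hf hg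
  | single g a =>
    have h1 : g ∈ S := by
      have h2 : g = (g.1, 1) * (1, g.2) := by simp
      rw [h2]
      exact S.mul_mem (hS1 _) (hS2 _)
    have h3 : MonoidAlgebra.single g a = algebraMap (ResidueField O) _ a *
        (MonoidAlgebra.of (ResidueField O) (C2Q K Q) g) := by
      rw [← Algebra.smul_def, MonoidAlgebra.of_apply, MonoidAlgebra.smul_single, smul_eq_mul,
        mul_one]
    rw [h3]
    exact R.mul_mem (R.algebraMap_mem a) h1

end Fermat.Agent.H51S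

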