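import Mathlib
import Fermat.Agent.H46LTDefs
import Fermat.Agent.H86DensityFinal

/-!
# LT-MOD2, M5b: matching the cubic characters, abstract part

A two-dimensional representation of `G_ℚ` in characteristic 2 whose traces at Frobenius elements
vanish outside `G_K` and on an open normal subgroup `B ≤ G_K` has trace invariant under `B`.
-/

set_option autoImplicit false

noncomputable section

namespace Fermat.Agent.H82.LT

open Fermat.Agent.H53 (GQ M2 mapMat)
open Fermat.Agent.LT (Qb GK FinLevel)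

section matrices

variable {F : Type} [CommRing F]

theorem trace_conj_id (h2 : (2 : F) = 0) {U X : M2 F} (hU : U.trace = 0) (hUd : U.det = 1)
    (hX : X.det = 1) :
    (U * X * U * X.adjugate).trace = (X.trace - (U * X).trace) ^ 2 := by
  rw [Matrix.trace_fin_two] at hU
  have hd : U 1 1 = - U 0 0 := by linear_combination hU
  rw [Matrix.det_fin_two, hd] at hUd
  rw [Matrix.det_fin_two] at hX
  rw [Matrix.adjugate_fin_two]
  simp only [Matrix.trace_fin_two, Matrix.mul_apply, Fin.sum_univ_two, hd, Matrix.of_apply,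
    Matrix.cons_val', Matrix.cons_val_zero, Matrix.cons_val_one, Matrix.cons_val_fin_one]
  set a := U 0 0
  set b := U 0 1
  set c := U 1 0
  set p := X 0 0
  set q := X 0 1
  set r := X 1 0
  set s := X 1 1
  linear_combination (2 * (p * s - q * r) - (p + s) ^ 2) * hUd + 2 * hX +
    (1 - (p + s) ^ 2 - (a * p + b * r + (c * q - a * s)) ^ 2
      + (p + s) * (a * p + b * r + (c * q - a * s))) * h2

/-- in characteristic 2, trace 0 and determinant 1 imply square 1 -/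
theorem sq_eq_one (h2 : (2 : F) = 0) {U : M2 F} (hU : U.trace = 0) (hUd : U.det = 1) :
    U * U = 1 := by
  rw [Matrix.trace_fin_two] at hU
  rw [Matrix.det_fin_two] at hUd
  ext i j
  fin_cases i <;> fin_cases j <;>
    simp only [Matrix.mul_apply, Fin.sum_univ_two, Matrix.one_apply, Fin.zero_eta, Fin.mk_one,
      Fin.isValue, one_ne_zero, zero_ne_one, if_true, if_false]
  · linear_combination U 0 0 * hU - hUd - h2
  · linear_combination U 0 1 * hU
  · linear_combination U 1 0 * hU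
  · linear_combination U 1 1 * hU - hUd - h2

theorem trace_pow_eq_zero (h2 : (2 : F) = 0) {U : M2 F} (hU : U.trace = 0) (hUd : U.det = 1)
    (n : ℕ) : (U ^ n).trace = 0 := by
  have hsq : U ^ 2 = 1 := by rw [pow_two]; exact sq_eq_one h2 hU hUd
  obtain ⟨k, rfl | rfl⟩ := Nat.even_or_odd' n
  · rw [pow_mul, hsq, one_pow, Matrix.trace_fin_two]
    simp only [Matrix.one_apply_eq]
    linear_combination h2
  · rw [pow_succ, pow_mul, hsq, one_pow, one_mul]
    exact hU

theorem trace_inv (g : GQ) (ρ : GQ →* M2 F) (hdet : (ρ g).det = 1) :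
    ρ g⁻¹ = (ρ g).adjugate := by
  have h1 : ρ g * ρ g⁻¹ = 1 := by rw [← map_mul, mul_inv_cancel, map_one]
  have h2 : (ρ g).adjugate * ρ g = 1 := by rw [Matrix.adjugate_mul, hdet, one_smul]
  calc ρ g⁻¹ = ((ρ g).adjugate * ρ g) * ρ g⁻¹ := by rw [h2, one_mul]
    _ = (ρ g).adjugate := by rw [mul_assoc, h1, mul_one]

theorem trace_adj (X : M2 F) : X.adjugate.trace = X.trace := by
  rw [Matrix.adjugate_fin_two, Matrix.trace_fin_two, Matrix.trace_fin_two]
  simp [add_comm]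

end matrices

section field

variable {F : Type} [Field F]

/-- The trace is invariant under a normal subgroup on which it vanishes. -/
theorem trace_mul_eq (h2 : (2 : F) = 0) (ρ : GQ →* M2 F) (hdet : ∀ g, (ρ g).det = 1)
    (B : Subgroup GQ) [B.Normal] (hB : ∀ g ∈ B, (ρ g).trace = 0) {u : GQ} (hu : u ∈ B) (g : GQ) :
    (ρ (u * g)).trace = (ρ g).trace := by
  have h1 := hB _ (B.mul_mem hu (‹B.Normal›.conj_mem u hu g))
  have h3 : ρ (u * (g * u * g⁻¹)) = ρ u * ρ g * ρ u * (ρ g).adjugate := by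
    rw [map_mul, map_mul, map_mul, trace_inv g ρ (hdet g)]
    simp only [mul_assoc]
  rw [h3, trace_conj_id h2 (hB u hu) (hdet u) (hdet g)] at h1
  have h4 := pow_eq_zero_iff (two_ne_zero) |>.1 h1
  rw [map_mul]
  exact (sub_eq_zero.1 h4).symm

end field

/-- Frobenius density: a class function of finite level. -/
theorem exists_frob (L : IntermediateField ℚ Qb) (hL : FiniteDimensional ℚ L) (σ : GQ)
    (S : Finset ℕ) :
    ∃ ℓ : ℕ, ℓ.Prime ∧ ℓ ∉ S ∧ ∃ A : ValuationSubring Qb, A.LiesOverPrime ℓ ∧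
      ∃ φ : GQ, A.IsFrobeniusAt φ ℓ ∧ ∃ j k : ℕ,
        (∀ x ∈ L, σ x = (φ ^ j) x) ∧ (∀ x ∈ L, φ x = (σ ^ k) x) :=
  H86.frobenius_density H86.frobDensityFinite L σ S

theorem FinLevel.congr_of_eq {X : Type*} {f : GQ → X} {L : IntermediateField ℚ Qb}
    (hf : ∀ g σ : GQ, (∀ x ∈ L, σ x = x) → f (g * σ) = f g) {g h : GQ}
    (hgh : ∀ x ∈ L, g x = h x) : f g = f h := by
  have h1 : f (h * (h⁻¹ * g)) = f h := by
    refine hf h _ fun x hx => ?_
    change h.symm (g x) = x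
    rw [hgh x hx]
    exact h.symm_apply_apply x
  rw [← h1, mul_inv_cancel_left]

section main

variable {F : Type} [Field F]

/-- Two finite-level functions have a common level. -/
theorem exists_level {X Y Z : Type*} {f : GQ → X} {g : GQ → Y} {h : GQ → Z} (hf : FinLevel f)
    (hg : FinLevel g) (hh : FinLevel h) : ∃ L : IntermediateField ℚ Qb, FiniteDimensional ℚ L ∧
      (∀ a σ : GQ, (∀ x ∈ L, σ x = x) → f (a * σ) = f a) ∧
      (∀ a σ : GQ, (∀ x ∈ L, σ x = x) → g (a * σ) = g a) ∧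
      (∀ a σ : GQ, (∀ x ∈ L, σ x = x) → h (a * σ) = h a) := by
  obtain ⟨L1, hL1, h1⟩ := hf
  obtain ⟨L2, hL2, h2⟩ := hg
  obtain ⟨L3, hL3, h3⟩ := hh
  refine ⟨L1 ⊔ L2 ⊔ L3, inferInstance, fun a σ hσ => h1 a σ fun x hx => hσ x ?_,
    fun a σ hσ => h2 a σ fun x hx => hσ x ?_, fun a σ hσ => h3 a σ fun x hx => hσ x ?_⟩
  · exact (le_sup_left.trans le_sup_left : L1 ≤ L1 ⊔ L2 ⊔ L3) hx
  · exact (le_sup_right.trans le_sup_left : L2 ≤ L1 ⊔ L2 ⊔ L3) hx
  · exact (le_sup_right : L3 ≤ L1 ⊔ L2 ⊔ L3) hx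

theorem m2_eq_or (x y : M2 (ZMod 2)) (hx : x.det = 1) (hy : y.det = 1) (hx' : x.trace = 1)
    (hy' : y.trace = 1) : x = y ∨ x * y = 1 := by
  have key : ∀ a b c d a' b' c' d' : ZMod 2, a * d - b * c = 1 → a' * d' - b' * c' = 1 →
      a + d = 1 → a' + d' = 1 →
      (a = a' ∧ b = b' ∧ c = c' ∧ d = d') ∨ (a * a' + b * c' = 1 ∧ a * b' + b * d' = 0 ∧
        c * a' + d * c' = 0 ∧ c * b' + d * d' = 1) := by decide
  rw [Matrix.det_fin_two] at hx hy
  rw [Matrix.trace_fin_two] at hx' hy'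
  rcases key _ _ _ _ _ _ _ _ hx hy hx' hy' with ⟨h1, h2, h3, h4⟩ | ⟨h1, h2, h3, h4⟩
  · left
    ext i j
    fin_cases i <;> fin_cases j
    exacts [h1, h2, h3, h4]
  · right
    ext i j
    fin_cases i <;> fin_cases j <;>
      simp only [Matrix.mul_apply, Fin.sum_univ_two, Matrix.one_apply, Fin.zero_eta, Fin.mk_one,
        Fin.isValue, one_ne_zero, zero_ne_one, if_true, if_false]
    exacts [h1, h2, h3, h4]

theorem det_eq_one (rb : GQ →* M2 (ZMod 2)) (g : GQ) : (rb g).det = 1 := by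
  have h1 : (rb g).det * (rb g⁻¹).det = 1 := by
    rw [← Matrix.det_mul, ← map_mul, mul_inv_cancel, map_one, Matrix.det_one]
  generalize (rb g).det = a at h1 ⊢
  generalize (rb g⁻¹).det = b at h1
  revert a b
  decide

/-- **Density matching**, abstract form. `G` plays the role of `G_K`, `rb` of `E'[2]`. -/
theorem trace_matching (h2 : (2 : F) = 0) (ρ : GQ →* M2 F) (hρ : FinLevel ρ)
    (rb : GQ →* M2 (ZMod 2)) (hrb : FinLevel rb) (G : Subgroup GQ)
    (hmem : ∀ g, g ∈ G ↔ rb g = 1 ∨ (rb g).trace = 1)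
    (S : Finset ℕ)
    (hdet : ∀ ℓ : ℕ, ℓ.Prime → ℓ ∉ S → ∀ A : ValuationSubring Qb, A.LiesOverPrime ℓ →
      ∀ φ : GQ, A.IsFrobeniusAt φ ℓ → (ρ φ).det = 1)
    (hout : ∀ ℓ : ℕ, ℓ.Prime → ℓ ∉ S → ∀ A : ValuationSubring Qb, A.LiesOverPrime ℓ →
      ∀ φ : GQ, A.IsFrobeniusAt φ ℓ → φ ∉ G → (ρ φ).trace = 0)
    (hker : ∀ ℓ : ℕ, ℓ.Prime → ℓ ∉ S → ∀ A : ValuationSubring Qb, A.LiesOverPrime ℓ →
      ∀ φ : GQ, A.IsFrobeniusAt φ ℓ → rb φ = 1 → (ρ φ).trace = 0)
    (φ₀ : GQ) (hφ₀G : φ₀ ∈ G) (hφ₀ : (ρ φ₀).trace = 1) :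
    (∀ g, (ρ g).det = 1) ∧ ∀ (c : ZMod 2 →+* F) (g : GQ), (ρ g).trace = c (rb g).trace := by
  obtain ⟨L, hL, hρL, hrbL, -⟩ := exists_level hρ hrb hrb
  -- determinants
  have hdet' : ∀ g, (ρ g).det = 1 := by
    intro g
    obtain ⟨ℓ, hℓ, hℓS, A, hA, φ, hφ, j, k, hj, hk⟩ := exists_frob L hL g S
    rw [FinLevel.congr_of_eq hρL hj, map_pow, Matrix.det_pow, hdet ℓ hℓ hℓS A hA φ hφ, one_pow]
  -- trace zero outside `G` and on the kernel of `rb`
  have hzero : ∀ g, (∀ k : ℕ, rb (g ^ k) = 1 ∨ g ^ k ∉ G) → (ρ g).trace = 0 := by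
    intro g hg
    obtain ⟨ℓ, hℓ, hℓS, A, hA, φ, hφ, j, k, hj, hk⟩ := exists_frob L hL g S
    have h1 : (ρ φ).trace = 0 := by
      rcases hg k with h | h
      · refine hker ℓ hℓ hℓS A hA φ hφ ?_
        rw [FinLevel.congr_of_eq hrbL hk, h]
      · refine hout ℓ hℓ hℓS A hA φ hφ ?_
        rw [hmem, FinLevel.congr_of_eq hrbL hk, ← hmem]
        exact h
    rw [FinLevel.congr_of_eq hρL hj, map_pow]
    exact trace_pow_eq_zero h2 h1 (hdet ℓ hℓ hℓS A hA φ hφ) j
  have hzker : ∀ g, rb g = 1 → (ρ g).trace = 0 := fun g hg =>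
    hzero g fun k => Or.inl (by rw [map_pow, hg, one_pow])
  have hzout : ∀ g, g ∉ G → (ρ g).trace = 0 := by
    intro g hg
    refine hzero g fun k => ?_
    have h1 : (rb g).trace = 0 := by
      rw [hmem, not_or] at hg
      have := hg.2
      generalize (rb g).trace = a at this ⊢
      revert a
      decide
    have h3 : (rb (g * g)) = 1 := by
      rw [map_mul]
      exact sq_eq_one (by decide) h1 (det_eq_one rb g)
    obtain ⟨m, rfl | rfl⟩ := Nat.even_or_odd' k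
    · left
      rw [pow_mul, map_pow, pow_two, h3, one_pow]
    · right
      rw [hmem, pow_succ, pow_mul, map_mul, map_pow, pow_two, h3, one_pow, one_mul, ← hmem]
      exact hg
  have hone : ∀ g, g ∈ G → rb g ≠ 1 → (ρ g).trace = 1 := by
    intro g hg hg1
    have hB : ∀ u ∈ rb.ker, (ρ u).trace = 0 := fun u hu => hzker u hu
    have hφ1 : rb φ₀ ≠ 1 := by
      intro h
      rw [hzker φ₀ h] at hφ₀
      exact zero_ne_one hφ₀
    have ht1 := (((hmem g).1 hg).resolve_left hg1)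
    have ht2 := (((hmem φ₀).1 hφ₀G).resolve_left hφ1)
    rcases m2_eq_or _ _ (det_eq_one rb g) (det_eq_one rb φ₀) ht1 ht2 with h | h
    · have h3 : g * φ₀⁻¹ ∈ rb.ker := by
        rw [MonoidHom.mem_ker, map_mul, h, ← map_mul, mul_inv_cancel, map_one]
      have h4 := trace_mul_eq h2 ρ hdet' rb.ker hB h3 φ₀
      rw [inv_mul_cancel_right] at h4
      rw [h4, hφ₀]
    · have h3 : g * φ₀ ∈ rb.ker := by
        rw [MonoidHom.mem_ker, map_mul, h]
      have h4 := trace_mul_eq h2 ρ hdet' rb.ker hB h3 φ₀⁻¹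
      rw [mul_inv_cancel_right] at h4
      rw [h4, trace_inv φ₀ ρ (hdet' φ₀), trace_adj, hφ₀]
  refine ⟨hdet', fun c g => ?_⟩
  by_cases hg : g ∈ G
  · by_cases hg1 : rb g = 1
    · rw [hzker g hg1, hg1, Matrix.trace_fin_two]
      have : ((1 : M2 (ZMod 2)) 0 0 + (1 : M2 (ZMod 2)) 1 1) = 0 := by decide
      rw [this, map_zero]
    · rw [hone g hg hg1, ((hmem g).1 hg).resolve_left hg1, map_one]
  · rw [hzout g hg]
    have h1 : (rb g).trace = 0 := by
      rw [hmem, not_or] at hg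
      have := hg.2
      generalize (rb g).trace = a at this ⊢
      revert a
      decide
    rw [h1, map_zero]

end main

end Fermat.Agent.H82.LT
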