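import Mathlib
import Fermat.Agent.H82J8

/-!
# The first inequality for unramified extensions of prime degree, class group form

`K` totally complex, `L/K` Galois of prime degree `p`, unramified at all finite places.
There is a nontrivial character of the class group of `K` of order `p` which kills all places
split in `L`.
-/

set_option autoImplicit false

noncomputable section

open IsDedekindDomain NumberField WithZero
open scoped Pointwise
open Fermat.Agent.H47 (ordHom classOf divHom smulPlace)

namespace Fermat.Agent.H82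

section general

theorem exists_functional_aux {V : Type*} [AddCommGroup V] {p : ℕ} [hp : Fact p.Prime]
    [Module (ZMod p) V] {v : V} (hv : v ≠ 0) : ∃ φ : V →+ ZMod p, φ v ≠ 0 := by
  obtain ⟨f, hf⟩ := Module.Projective.exists_dual_ne_zero (V := V) (ZMod p) hv
  exact ⟨f.toAddMonoidHom, hf⟩

/-- Functionals separate points of elementary abelian `p`-groups. -/
theorem exists_functional {V : Type*} [AddCommGroup V] {p : ℕ} [hp : Fact p.Prime]
    (hV : ∀ x : V, p • x = 0) {v : V} (hv : v ≠ 0) : ∃ φ : V →+ ZMod p, φ v ≠ 0 :=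
  @exists_functional_aux V _ p _ (AddCommGroup.zmodModule hV) v hv

/-- An element outside a subgroup containing all `p`-th powers is detected by a
character of order `p`. -/
theorem exists_char_of_notMem {G : Type*} [CommGroup G] {p : ℕ} [hp : Fact p.Prime]
    {H : Subgroup G} {g : G} (hg : g ∉ H) (hpow : ∀ x : G, x ^ p ∈ H) :
    ∃ χ : Additive G →+ ZMod p, χ (Additive.ofMul g) ≠ 0 ∧ ∀ x ∈ H, χ (Additive.ofMul x) = 0 := by
  classical
  have hQ : ∀ x : Additive (G ⧸ H), p • x = 0 := by
    intro x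
    obtain ⟨y, hy⟩ := QuotientGroup.mk_surjective (s := H) x.toMul
    have h1 : (x.toMul) ^ p = 1 := by
      rw [← hy, ← QuotientGroup.mk_pow, QuotientGroup.eq_one_iff]
      exact hpow y
    exact congrArg Additive.ofMul h1
  have h0 : (Additive.ofMul (QuotientGroup.mk g : G ⧸ H)) ≠ 0 := by
    intro h
    exact hg ((QuotientGroup.eq_one_iff g).1 (Additive.ofMul.injective h))
  obtain ⟨φ, hφ⟩ := exists_functional hQ h0
  refine ⟨φ.comp (MonoidHom.toAdditive (QuotientGroup.mk' H)), hφ, fun x hx => ?_⟩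
  show φ (Additive.ofMul (QuotientGroup.mk x : G ⧸ H)) = 0
  rw [(QuotientGroup.eq_one_iff x).2 hx]
  exact map_zero φ

end general

section classes

variable {K : Type*} [Field K] [NumberField K]

/-- The ideal class of a finite place. -/
def placeClass (v : HeightOneSpectrum (𝓞 K)) : ClassGroup (𝓞 K) :=
  ClassGroup.mk0 ⟨v.asIdeal, mem_nonZeroDivisors_of_ne_zero v.ne_bot⟩

theorem classOf_single (v : HeightOneSpectrum (𝓞 K)) :
    classOf K (Finsupp.single v (1 : ℤ)) = Additive.ofMul (placeClass v) := by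
  have h1 : classOf K (Finsupp.single v (1 : ℤ)) =
    Additive.ofMul (ClassGroup.mk K (H47.idealOf K
      (Multiplicative.ofAdd (Finsupp.single v (1 : ℤ))))) := rfl
  rw [h1, placeClass, ← ClassGroup.mk_mk0 K]
  congr 2
  apply Units.ext
  rw [H47.coe_idealOf, toAdd_ofAdd, Finsupp.prod_single_index (zpow_zero _), zpow_one]
  rfl

/-- The lift to the class group of a function on the finite places which kills principal
divisors. -/
theorem exists_hom_of_principal {A : Type*} [AddCommGroup A]
    (f : HeightOneSpectrum (𝓞 K) → A)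
    (hf : ∀ x : Kˣ, Finsupp.liftAddHom (fun v => zmultiplesHom A (f v))
      (divHom (𝓞 K) K (Additive.ofMul x)) = 0) :
    ∃ η : Additive (ClassGroup (𝓞 K)) →+ A, ∀ v, η (Additive.ofMul (placeClass v)) = f v := by
  have hsurj := H47.classOf_surjective (R := 𝓞 K) K
  refine ⟨AddMonoidHom.liftOfSurjective (classOf K) hsurj
    ⟨Finsupp.liftAddHom (fun v => zmultiplesHom A (f v)), ?_⟩, fun v => ?_⟩
  · rw [H47.ker_classOf]
    rintro _ ⟨x, rfl⟩
    exact hf x.toMul
  · rw [← classOf_single]
    rw [AddMonoidHom.liftOfRightInverse_comp_apply]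
    simp

end classes

section norm

variable {K : Type*} [Field K] [NumberField K] {L : Type*} [Field L] [NumberField L] [Algebra K L]
  [IsGalois K L]

/-- The order of a norm at an unramified place. -/
theorem ordHom_norm {v : HeightOneSpectrum (𝓞 K)} {w : HeightOneSpectrum (𝓞 L)}
    (hw : w ∈ above L v) (hunr : v.asIdeal.ramificationIdx' w.asIdeal = 1) (z : Lˣ) :
    ordHom v (Additive.ofMul (Units.map (Algebra.norm K : L →* K) z))
      = ∑ σ : L ≃ₐ[K] L, ordHom (smulPlace σ w) (Additive.ofMul z) := by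
  classical
  have h1 := H47.ordHom_algebraMap hw (Units.map (Algebra.norm K : L →* K) z)
  rw [hunr, Nat.cast_one, one_mul] at h1
  have h6 : Units.map (algebraMap K L : K →* L) (Units.map (Algebra.norm K : L →* K) z)
      = ∏ σ : L ≃ₐ[K] L, Units.map (σ : L →* L) z := by
    ext
    rw [Units.coe_prod]
    exact Algebra.norm_eq_prod_automorphisms K (z : L)
  rw [← h1, h6, ofMul_prod, map_sum, ← Equiv.sum_comp (Equiv.inv (L ≃ₐ[K] L))]
  refine Finset.sum_congr rfl fun σ _ => ?_
  have h2 := H47.ordHom_smulPlace (σ⁻¹) (smulPlace σ w) z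
  rw [← h2]
  congr 2
  apply HeightOneSpectrum.ext
  rw [H47.smulPlace_asIdeal, H47.smulPlace_asIdeal]
  show w.asIdeal = σ⁻¹ • (σ • w.asIdeal)
  rw [inv_smul_smul]

theorem ordHom_norm_of_nonSplit {p : ℕ} (hdeg : Module.finrank K L = p)
    {v : HeightOneSpectrum (𝓞 K)} (hns : NonSplit L v)
    (hunr : ∀ w ∈ above L v, v.asIdeal.ramificationIdx' w.asIdeal = 1) (z : Lˣ) :
    (p : ℤ) ∣ ordHom v (Additive.ofMul (Units.map (Algebra.norm K : L →* K) z)) := by
  classical
  obtain ⟨w, hw0⟩ := Set.ncard_eq_one.1 hns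
  have hw : w ∈ above L v := by rw [hw0]; rfl
  have hfix : ∀ σ : L ≃ₐ[K] L, smulPlace σ w = w := fun σ => by
    have := H47.smulPlace_mem_above σ hw
    rw [hw0] at this
    exact this
  have : FiniteDimensional K L := Module.Finite.of_restrictScalars_finite ℚ K L
  rw [ordHom_norm hw (hunr w hw)]
  simp only [hfix, Finset.sum_const, Finset.card_univ, nsmul_eq_mul]
  rw [← Nat.card_eq_fintype_card, IsGalois.card_aut_eq_finrank, hdeg]
  exact dvd_mul_right _ _

theorem ordHom_norm_of_split {p : ℕ} [hp : Fact p.Prime] (hdeg : Module.finrank K L = p)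
    {v : HeightOneSpectrum (𝓞 K)} (hns : ¬ NonSplit L v) {w : HeightOneSpectrum (𝓞 L)}
    (hw : w ∈ above L v) (hunr : v.asIdeal.ramificationIdx' w.asIdeal = 1) (z : Lˣ)
    (hz : ∀ w' ∈ above L v, w' ≠ w → ordHom w' (Additive.ofMul z) = 0) :
    ordHom v (Additive.ofMul (Units.map (Algebra.norm K : L →* K) z))
      = ordHom w (Additive.ofMul z) := by
  classical
  rw [ordHom_norm hw hunr]
  rw [Finset.sum_eq_single (1 : L ≃ₐ[K] L)]
  · congr 2
    apply HeightOneSpectrum.ext
    rw [H47.smulPlace_asIdeal]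
    exact one_smul _ _
  · intro σ _ hσ
    exact hz _ (H47.smulPlace_mem_above σ hw) (fun h => hσ (eq_one_of_split hdeg hns hw σ h))
  · intro h
    exact absurd (Finset.mem_univ _) h

end norm

theorem mem_pow_sup_units_iff {K : Type*} [Field K] [NumberField K] {p : ℕ}
    {v : HeightOneSpectrum (𝓞 K)} {x : Kˣ} :
    x ∈ (powMonoidHom p : Kˣ →* Kˣ).range ⊔ congr v 0 ↔ (p : ℤ) ∣ ordHom v (Additive.ofMul x) := by
  rw [Subgroup.mem_sup]
  constructor
  · rintro ⟨_, ⟨y, rfl⟩, c, hc, rfl⟩
    rw [mem_congr_zero, ← H47.ordHom_eq_zero_iff] at hc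
    rw [ofMul_mul, map_add, hc, add_zero, powMonoidHom_apply, ofMul_pow, map_nsmul, nsmul_eq_mul]
    exact dvd_mul_right _ _
  · rintro ⟨k, hk⟩
    obtain ⟨π, hπ⟩ := exists_uniformizer v
    have hπ' : ordHom v (Additive.ofMul π) = 1 := by
      rw [H47.valuation_eq_exp_ordHom, exp_inj, neg_inj] at hπ
      exact hπ
    refine ⟨(π ^ k) ^ p, ⟨π ^ k, rfl⟩, x / (π ^ k) ^ p, ?_, by simp⟩
    rw [mem_congr_zero, ← H47.ordHom_eq_zero_iff, ofMul_div, map_sub, ofMul_pow, map_nsmul,
      ofMul_zpow, map_zsmul, hπ', hk]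
    simp

section main

variable {K L : Type} [Field K] [NumberField K] [Field L] [NumberField L] [Algebra K L]
  [IsGalois K L] [IsTotallyComplex K] {p : ℕ} [hp : Fact p.Prime]

open Classical in
/-- **First inequality** for an everywhere unramified extension of prime degree of a totally
complex field: some nontrivial character of order `p` of the class group of `K` kills all places
split in `L`. -/
theorem exists_class_char (hdeg : Module.finrank K L = p)
    (hunr : ∀ v : HeightOneSpectrum (𝓞 K), ∀ w ∈ above L v,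
      v.asIdeal.ramificationIdx' w.asIdeal = 1) :
    ∃ η : Additive (ClassGroup (𝓞 K)) →+ ZMod p, (∃ v, η (Additive.ofMul (placeClass v)) ≠ 0) ∧
      ∀ v : HeightOneSpectrum (𝓞 K), ¬ NonSplit L v → η (Additive.ofMul (placeClass v)) = 0 := by
  classical
  obtain ⟨TK, -, hTKfin, hTK⟩ := H47.exists_clTrivial K (T₁ := ∅) Set.finite_empty
  obtain ⟨TL, -, hTLfin, hTL⟩ := H47.exists_clTrivial L (T₁ := ∅) Set.finite_empty
  set T : Set (HeightOneSpectrum (𝓞 K)) := TK ∪ H47.below K '' TL with hT
  have hTfin : T.Finite := hTKfin.union (hTLfin.image _)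
  have hclK : ClTrivial T := hTK.mono Set.subset_union_left
  have hclL : ClTrivial (aboveSet L T) := hTL.mono
    (fun w hw => ⟨H47.below K w, Or.inr ⟨w, hw, rfl⟩, H47.mem_above_below w⟩)
  have hFI := H65.relIndex_norm_mul hp.out hdeg hTfin hclK (fun v _ => hunr v)
  set E := T.unit K with hE
  set NS : Finset (HeightOneSpectrum (𝓞 K)) := hTfin.toFinset.filter (fun v => NonSplit L v)
    with hNS
  have hmemNS : ∀ v, v ∈ NS ↔ v ∈ T ∧ NonSplit L v := by
    intro v
    rw [hNS, Finset.mem_filter, Set.Finite.mem_toFinset]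
  have hns : {v | v ∈ T ∧ NonSplit L v} = (NS : Set (HeightOneSpectrum (𝓞 K))) := by
    ext v
    rw [Finset.mem_coe, hmemNS]
    rfl
  rw [hns, Set.ncard_coe_finset] at hFI
  set NE := ((aboveSet L T).unit L).map (Units.map (Algebra.norm K : L →* K)) with hNE
  set Q : Subgroup Kˣ := ⨅ v ∈ NS, ((powMonoidHom p : Kˣ →* Kˣ).range ⊔ congr v 0) with hQ
  have hmemQ : ∀ x, x ∈ Q ↔ ∀ v ∈ NS, (p : ℤ) ∣ ordHom v (Additive.ofMul x) := by
    intro x
    rw [hQ]
    simp only [Subgroup.mem_iInf, mem_pow_sup_units_iff]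
  have hQidx : Q.index = p ^ NS.card := by
    rw [hQ, index_iInf NS (fun _ => 0)
      (fun v => (powMonoidHom p : Kˣ →* Kˣ).range ⊔ congr v 0) (fun v _ => le_sup_right),
      ← Finset.prod_const]
    exact Finset.prod_congr rfl fun v _ => index_pow_sup_units v p
  have hNEQ : NE ≤ Q := by
    rintro _ ⟨z, -, rfl⟩
    rw [hmemQ]
    intro v hv
    exact ordHom_norm_of_nonSplit hdeg ((hmemNS v).1 hv).2 (hunr v) z
  have hNE0 : NE.relIndex E ≠ 0 := by
    intro h0
    rw [h0, zero_mul] at hFI
    exact (pow_pos hp.out.pos NS.card).ne hFI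
  -- `E ⊔ Q` is a proper subgroup
  have hne : E ⊔ Q ≠ ⊤ := by
    intro htop
    have h1 : Q.relIndex E ≤ NE.relIndex E := Subgroup.relIndex_le_of_le_left hNEQ hNE0
    have h2 := Subgroup.relIndex_mul_index (le_sup_right : Q ≤ E ⊔ Q)
    rw [Subgroup.relIndex_sup_right, hQidx, ← hFI, htop, Subgroup.index_top, mul_one] at h2
    have h3 : 0 < NE.relIndex E := Nat.pos_of_ne_zero hNE0
    have h5 : NE.relIndex E * 1 < NE.relIndex E * p := Nat.mul_lt_mul_of_pos_left hp.out.one_lt h3
    omega
  obtain ⟨g, hg⟩ : ∃ g, g ∉ E ⊔ Q := by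
    by_contra hcon
    push Not at hcon
    exact hne ((Subgroup.eq_top_iff' _).2 hcon)
  have hpow : ∀ x : Kˣ, x ^ p ∈ E ⊔ Q := by
    intro x
    refine Subgroup.mem_sup_right ((hmemQ _).2 fun v _ => ?_)
    rw [ofMul_pow, map_nsmul, nsmul_eq_mul]
    exact dvd_mul_right _ _
  obtain ⟨X, hXg, hX⟩ := exists_char_of_notMem hg hpow
  have hXE : ∀ x ∈ E, X (Additive.ofMul x) = 0 := fun x hx => hX x (Subgroup.mem_sup_left hx)
  have hXQ : ∀ x ∈ Q, X (Additive.ofMul x) = 0 := fun x hx => hX x (Subgroup.mem_sup_right hx)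
  -- local uniformisers
  choose π hπ using fun v : HeightOneSpectrum (𝓞 K) => exists_uniformizer v
  have hπ' : ∀ v, ordHom v (Additive.ofMul (π v)) = 1 := by
    intro v
    have h := hπ v
    rw [H47.valuation_eq_exp_ordHom, exp_inj, neg_inj] at h
    exact h
  have ht0 : ∀ v, ∃ t : Kˣ, ∀ u ∈ NS, ordHom u (Additive.ofMul t) = if u = v then 1 else 0 := by
    intro v
    obtain ⟨t, ht⟩ := exists_approx NS (fun _ => 0) (fun u => if u = v then π v else 1)
    refine ⟨t, fun u hu => ?_⟩
    have h := ht u hu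
    rw [mem_congr_zero, ← H47.ordHom_eq_zero_iff, ofMul_div, map_sub, sub_eq_zero] at h
    rw [h]
    split_ifs with huv
    · subst huv
      exact hπ' u
    · exact map_zero _
  choose t ht using ht0
  have hXsum : ∀ x : Additive Kˣ, X x = ∑ v ∈ NS, ordHom v x • X (Additive.ofMul (t v)) := by
    intro x
    have h1 : (x - ∑ v ∈ NS, ordHom v x • Additive.ofMul (t v)).toMul ∈ Q := by
      rw [hmemQ]
      intro u hu
      rw [ofMul_toMul, map_sub, map_sum, Finset.sum_eq_single u]
      · rw [map_zsmul, ht u u hu, if_pos rfl]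
        simp
      · intro v _ hvu
        rw [map_zsmul, ht v u hu, if_neg (Ne.symm hvu), smul_zero]
      · intro h
        exact absurd hu h
    have h2 := hXQ _ h1
    rw [ofMul_toMul, map_sub, map_sum, sub_eq_zero] at h2
    rw [h2]
    exact Finset.sum_congr rfl fun v _ => map_zsmul _ _ _
  have hxx0 : ∀ v, ∃ x : Kˣ, v ∉ T → ordHom v (Additive.ofMul x) = 1 ∧
      ∀ v', v' ∉ T → v' ≠ v → ordHom v' (Additive.ofMul x) = 0 := by
    intro v
    by_cases hv : v ∈ T
    · exact ⟨1, fun h => absurd hv h⟩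
    · obtain ⟨x, hx1, hx2⟩ := hclK v hv
      refine ⟨x, fun _ => ⟨?_, fun v' hv' hne => (H47.ordHom_eq_zero_iff v' x).2 (hx2 v' hv' hne)⟩⟩
      rw [H47.valuation_eq_exp_ordHom, exp_inj, neg_inj] at hx1
      exact hx1
  choose xx hxx using hxx0
  set f : HeightOneSpectrum (𝓞 K) → ZMod p := fun v =>
    if v ∈ NS then X (Additive.ofMul (t v)) else if v ∈ T then 0 else - X (Additive.ofMul (xx v))
    with hf
  have hprin : ∀ x : Kˣ, Finsupp.liftAddHom (fun v => zmultiplesHom (ZMod p) (f v))
      (divHom (𝓞 K) K (Additive.ofMul x)) = 0 := by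
    intro x
    set y : Additive Kˣ := Additive.ofMul x with hy
    set S := (divHom (𝓞 K) K y).support with hS
    have hmemS : ∀ v, v ∉ S → ordHom v y = 0 := by
      intro v hv
      rw [hS, Finsupp.notMem_support_iff] at hv
      exact hv
    have h1 : (y - ∑ v ∈ S.filter (fun v => v ∉ T), ordHom v y • Additive.ofMul (xx v)).toMul
        ∈ E := by
      rw [hE, H47.mem_unit_iff]
      intro u hu
      rw [ofMul_toMul, map_sub, map_sum]
      by_cases huS : u ∈ S
      · rw [Finset.sum_eq_single u]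
        · rw [map_zsmul, (hxx u hu).1]
          simp
        · intro v hv hvu
          rw [map_zsmul, (hxx v (Finset.mem_filter.1 hv).2).2 u hu (Ne.symm hvu), smul_zero]
        · intro h
          exact absurd (Finset.mem_filter.2 ⟨huS, hu⟩) h
      · rw [hmemS u huS, zero_sub, neg_eq_zero]
        refine Finset.sum_eq_zero fun v hv => ?_
        rw [map_zsmul, (hxx v (Finset.mem_filter.1 hv).2).2 u hu ?_, smul_zero]
        rintro rfl
        exact huS (Finset.mem_filter.1 hv).1
    have h2 := hXE _ h1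
    rw [ofMul_toMul, map_sub, map_sum, sub_eq_zero, hXsum y] at h2
    have h3 : Finsupp.liftAddHom (fun v => zmultiplesHom (ZMod p) (f v)) (divHom (𝓞 K) K y)
        = ∑ v ∈ S, ordHom v y • f v := by
      rw [Finsupp.liftAddHom_apply, Finsupp.sum]
      rfl
    rw [h3]
    have h4 : ∀ v ∈ S, ordHom v y • f v
        = (if v ∈ NS then ordHom v y • X (Additive.ofMul (t v)) else 0)
          - (if v ∉ T then X (ordHom v y • Additive.ofMul (xx v)) else 0) := by
      intro v _
      rw [hf]
      by_cases hvNS : v ∈ NS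
      · have hvT := ((hmemNS v).1 hvNS).1
        simp [hvNS, hvT]
      · by_cases hvT : v ∈ T
        · simp [hvNS, hvT]
        · simp only [hvNS, hvT, if_false, not_false_iff, if_true, zero_sub, smul_neg, map_zsmul]
    rw [Finset.sum_congr rfl h4, Finset.sum_sub_distrib, ← Finset.sum_filter,
      ← Finset.sum_filter, ← h2, sub_eq_zero]
    have h5 : NS.filter (fun v => v ∈ S) = S.filter (fun v => v ∈ NS) := by
      ext v
      simp only [Finset.mem_filter]
      exact and_comm
    rw [← h5, Finset.sum_filter]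
    refine Finset.sum_congr rfl fun v _ => ?_
    split_ifs with hvS
    · rfl
    · rw [hmemS v hvS, zero_smul]
  obtain ⟨η, hη⟩ := exists_hom_of_principal f hprin
  refine ⟨η, ?_, fun v hv => ?_⟩
  · by_contra hcon
    push Not at hcon
    apply hXg
    rw [hXsum]
    refine Finset.sum_eq_zero fun v hv => ?_
    have h1 := hcon v
    rw [hη, hf] at h1
    simp only [hv, if_true] at h1
    rw [h1, smul_zero]
  · rw [hη, hf]
    have hvNS : v ∉ NS := fun h => hv ((hmemNS v).1 h).2
    by_cases hvT : v ∈ T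
    · simp [hvNS, hvT]
    · simp only [hvNS, hvT, if_false, neg_eq_zero]
      obtain ⟨w, hw⟩ := H47.above_nonempty (L := L) v
      have hwT : w ∉ aboveSet L T := by
        rintro ⟨v', hv', hw'⟩
        apply hvT
        rwa [H47.eq_below_of_mem_above hw, ← H47.eq_below_of_mem_above hw']
      obtain ⟨z, hz1, hz2⟩ := hclL w hwT
      have hz1' : ordHom w (Additive.ofMul z) = 1 := by
        rw [H47.valuation_eq_exp_ordHom, exp_inj, neg_inj] at hz1
        exact hz1
      have hz2' : ∀ w', w' ∉ aboveSet L T → w' ≠ w → ordHom w' (Additive.ofMul z) = 0 :=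
        fun w' h1 h2 => (H47.ordHom_eq_zero_iff w' z).2 (hz2 w' h1 h2)
      set k : Kˣ := Units.map (Algebra.norm K : L →* K) z with hk
      have hnotT : ∀ {v' : HeightOneSpectrum (𝓞 K)} {w' : HeightOneSpectrum (𝓞 L)},
          v' ∉ T → w' ∈ above L v' → w' ∉ aboveSet L T := by
        rintro v' w' hv' hw' ⟨v'', hv'', hw''⟩
        apply hv'
        rwa [H47.eq_below_of_mem_above hw', ← H47.eq_below_of_mem_above hw'']
      have hkE : k / xx v ∈ E := by
        rw [hE, H47.mem_unit_iff]
        intro u hu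
        rw [ofMul_div, map_sub, sub_eq_zero]
        by_cases huv : u = v
        · subst huv
          rw [(hxx u hu).1, hk, ordHom_norm_of_split hdeg hv hw (hunr u w hw) z
            (fun w' hw' hne => hz2' w' (hnotT hu hw') hne), hz1']
        · rw [(hxx v hvT).2 u hu huv]
          obtain ⟨w', hw'⟩ := H47.above_nonempty (L := L) u
          rw [hk, ordHom_norm hw' (hunr u w' hw')]
          refine Finset.sum_eq_zero fun σ _ => ?_
          have h1 := H47.smulPlace_mem_above σ hw'
          refine hz2' _ (hnotT hu h1) ?_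
          rintro h2
          rw [h2] at h1
          exact huv (by rw [H47.eq_below_of_mem_above h1, ← H47.eq_below_of_mem_above hw])
      have h1 := hXE _ hkE
      rw [ofMul_div, map_sub, sub_eq_zero] at h1
      rw [← h1, hXsum]
      refine Finset.sum_eq_zero fun u hu => ?_
      obtain ⟨c, hc⟩ := ordHom_norm_of_nonSplit hdeg ((hmemNS u).1 hu).2 (hunr u) z
      rw [← hk] at hc
      rw [hc, mul_comm, mul_zsmul]
      simp

end main

end Fermat.Agent.H82
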