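import Mathlib
import Fermat.Agent.H46LTDefsTA
import Fermat.Agent.H63LTQuad
import Fermat.Agent.H91FIh
import Fermat.Agent.H82LTFI
import Fermat.Agent.H54Frobenius

/-!
# LT-MOD2, M5b: primes of `ℚ(√-N)` and Frobenius elements
-/

set_option autoImplicit false

noncomputable section

open NumberField IsDedekindDomain
open scoped nonZeroDivisors

namespace Fermat.Agent.H82.LT

open Fermat.Agent.H53 (GQ M2 mapMat)
open Fermat.Agent.LT (Qb GK primesOver cls)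
open Fermat.Agent.H63.LT (QuadData)
open Fermat.Agent.H63 (center liesOverPrime_iff isFrobeniusAt_iff_center)
open Fermat.Agent.H64 (placeBelow placeBelow_asIdeal)
open Fermat.Agent.H91.FI (clv)

section ideals

variable {K : Type} [Field K] [NumberField K]

theorem mem_primesOver {ℓ : ℕ} {P : Ideal (𝓞 K)} :
    P ∈ primesOver K ℓ ↔ P.IsPrime ∧ Ideal.absNorm P = ℓ := by
  rw [primesOver, Set.Finite.mem_toFinset]
  rfl

/-- A proper ideal containing `ℓ` such that every element is congruent to an integer has norm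
`ℓ`. -/
theorem absNorm_eq_of_int {ℓ : ℕ} (hℓ : ℓ.Prime) {P : Ideal (𝓞 K)} (hP : P ≠ ⊤)
    (hℓP : (ℓ : 𝓞 K) ∈ P) (h : ∀ x : 𝓞 K, ∃ n : ℤ, x - (n : 𝓞 K) ∈ P) :
    Ideal.absNorm P = ℓ := by
  have hfact : Fact ℓ.Prime := ⟨hℓ⟩
  have hnt : Nontrivial (𝓞 K ⧸ P) := Ideal.Quotient.nontrivial_iff.2 hP
  have hchar : CharP (𝓞 K ⧸ P) ℓ := by
    refine ringChar.of_eq (CharP.ringChar_of_prime_eq_zero hℓ ?_)
    rw [← map_natCast (Ideal.Quotient.mk P)]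
    exact Ideal.Quotient.eq_zero_iff_mem.2 hℓP
  have hinj : Function.Injective (ZMod.castHom (dvd_refl ℓ) (𝓞 K ⧸ P)) :=
    (ZMod.castHom (dvd_refl ℓ) (𝓞 K ⧸ P)).injective
  have hsurj : Function.Surjective (ZMod.castHom (dvd_refl ℓ) (𝓞 K ⧸ P)) := by
    intro y
    obtain ⟨x, rfl⟩ := Ideal.Quotient.mk_surjective y
    obtain ⟨n, hn⟩ := h x
    refine ⟨(n : ZMod ℓ), ?_⟩
    rw [map_intCast, ← map_intCast (Ideal.Quotient.mk P), eq_comm, ← sub_eq_zero, ← map_sub]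
    exact Ideal.Quotient.eq_zero_iff_mem.2 hn
  rw [Ideal.absNorm_apply, Submodule.cardQuot_apply,
    ← Nat.card_congr (Equiv.ofBijective _ ⟨hinj, hsurj⟩), Nat.card_zmod]

/-- In a prime of norm `ℓ` every element is congruent to an integer. -/
theorem exists_int_of_absNorm {ℓ : ℕ} (hℓ : ℓ.Prime) {P : Ideal (𝓞 K)}
    (hP : Ideal.absNorm P = ℓ) (x : 𝓞 K) : ∃ n : ℤ, x - (n : 𝓞 K) ∈ P := by
  have hfact : Fact ℓ.Prime := ⟨hℓ⟩
  have hℓP : (ℓ : 𝓞 K) ∈ P := by rw [← hP]; exact Ideal.absNorm_mem P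
  have hne : P ≠ ⊤ := by
    rintro rfl
    rw [Ideal.absNorm_top] at hP
    exact hℓ.one_lt.ne hP
  have hnt : Nontrivial (𝓞 K ⧸ P) := Ideal.Quotient.nontrivial_iff.2 hne
  have hchar : CharP (𝓞 K ⧸ P) ℓ := by
    refine ringChar.of_eq (CharP.ringChar_of_prime_eq_zero hℓ ?_)
    rw [← map_natCast (Ideal.Quotient.mk P)]
    exact Ideal.Quotient.eq_zero_iff_mem.2 hℓP
  have hinj : Function.Injective (ZMod.castHom (dvd_refl ℓ) (𝓞 K ⧸ P)) :=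
    (ZMod.castHom (dvd_refl ℓ) (𝓞 K ⧸ P)).injective
  have hcard : Nat.card (𝓞 K ⧸ P) = ℓ := by
    rw [← hP, Ideal.absNorm_apply, Submodule.cardQuot_apply]
  have hfin : Finite (𝓞 K ⧸ P) := Nat.finite_of_card_ne_zero (by rw [hcard]; exact hℓ.ne_zero)
  have hbij : Function.Bijective (ZMod.castHom (dvd_refl ℓ) (𝓞 K ⧸ P)) := by
    rw [Nat.bijective_iff_injective_and_card]
    exact ⟨hinj, by rw [hcard, Nat.card_zmod]⟩
  obtain ⟨a, ha⟩ := hbij.2 (Ideal.Quotient.mk P x)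
  obtain ⟨n, rfl⟩ := ZMod.intCast_surjective a
  refine ⟨n, ?_⟩
  rw [← Ideal.Quotient.eq_zero_iff_mem, map_sub, ← ha, map_intCast, map_intCast, sub_self]

/-- integers in a prime over `ℓ` are divisible by `ℓ` -/
theorem dvd_of_intCast_mem {ℓ : ℕ} (hℓ : ℓ.Prime) {P : Ideal (𝓞 K)} (hP : P ≠ ⊤)
    (hℓP : (ℓ : 𝓞 K) ∈ P) {n : ℤ} (hn : (n : 𝓞 K) ∈ P) : (ℓ : ℤ) ∣ n := by
  by_contra hcon
  have h1 : IsCoprime (ℓ : ℤ) n := (Nat.prime_iff_prime_int.1 hℓ).coprime_iff_not_dvd.2 hcon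
  obtain ⟨a, b, hab⟩ := h1
  apply hP
  rw [Ideal.eq_top_iff_one]
  have h2 : (a : 𝓞 K) * (ℓ : 𝓞 K) + (b : 𝓞 K) * (n : 𝓞 K) = 1 := by
    exact_mod_cast congrArg (Int.cast : ℤ → 𝓞 K) hab
  rw [← h2]
  exact P.add_mem (P.mul_mem_left _ hℓP) (P.mul_mem_left _ hn)

variable {N : ℕ} {w : 𝓞 K} (h : QuadData K N w)
include h

/-- A prime of norm `ℓ` is generated by `ℓ` and `w - n`. -/
theorem eq_span_of_absNorm {ℓ : ℕ} (hℓ : ℓ.Prime) {P : Ideal (𝓞 K)} (hP : P ≠ ⊤)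
    (hℓP : (ℓ : 𝓞 K) ∈ P) {n : ℤ} (hn : w - (n : 𝓞 K) ∈ P) :
    P = Ideal.span {(ℓ : 𝓞 K), w - (n : 𝓞 K)} := by
  apply le_antisymm
  · intro x hx
    obtain ⟨a, b, rfl⟩ := h.exists_int x
    have h1 : ((a + b * n : ℤ) : 𝓞 K) ∈ P := by
      have h2 : ((a + b * n : ℤ) : 𝓞 K) = ((a : 𝓞 K) + (b : 𝓞 K) * w)
        - (b : 𝓞 K) * (w - (n : 𝓞 K)) := by push_cast; ring
      rw [h2]
      exact P.sub_mem hx (P.mul_mem_left _ hn)
    obtain ⟨c, hc⟩ := dvd_of_intCast_mem hℓ hP hℓP h1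
    have h3 : (a : 𝓞 K) + (b : 𝓞 K) * w = (c : 𝓞 K) * (ℓ : 𝓞 K) +
        (b : 𝓞 K) * (w - (n : 𝓞 K)) := by
      have h4 : (a : 𝓞 K) + (b : 𝓞 K) * (n : 𝓞 K) = (ℓ : 𝓞 K) * (c : 𝓞 K) := by
        exact_mod_cast congrArg (Int.cast : ℤ → 𝓞 K) hc
      linear_combination h4
    rw [h3]
    exact Ideal.add_mem _ (Ideal.mul_mem_left _ _ (Ideal.subset_span (by simp)))
      (Ideal.mul_mem_left _ _ (Ideal.subset_span (by simp)))
  · rw [Ideal.span_le]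
    rintro x (rfl | rfl)
    · exact hℓP
    · exact hn

theorem sq_add_mem {P : Ideal (𝓞 K)} {n : ℤ} (hn : w - (n : 𝓞 K) ∈ P) :
    ((n ^ 2 + N : ℤ) : 𝓞 K) ∈ P := by
  have h1 : ((n ^ 2 + N : ℤ) : 𝓞 K) = -((w + (n : 𝓞 K)) * (w - (n : 𝓞 K))) := by
    have := h.sq
    push_cast
    linear_combination this
  rw [h1]
  exact P.neg_mem (P.mul_mem_left _ hn)

/-- The product of the two conjugate primes. -/
theorem span_mul_span {ℓ : ℕ} (hℓ : ℓ.Prime) (hℓN : ¬ ℓ ∣ 2 * N) {n : ℤ}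
    (hn : (ℓ : ℤ) ∣ n ^ 2 + N) :
    Ideal.span {(ℓ : 𝓞 K), w - (n : 𝓞 K)} * Ideal.span {(ℓ : 𝓞 K), w + (n : 𝓞 K)}
      = Ideal.span {(ℓ : 𝓞 K)} := by
  obtain ⟨k, hk⟩ := hn
  have hk' : (n : 𝓞 K) ^ 2 + (N : 𝓞 K) = (ℓ : 𝓞 K) * (k : 𝓞 K) := by
    exact_mod_cast congrArg (Int.cast : ℤ → 𝓞 K) hk
  apply le_antisymm
  · rw [Ideal.span_mul_span', Ideal.span_le]
    rintro _ ⟨x, (rfl | rfl), y, (rfl | rfl), rfl⟩
    · exact Ideal.mem_span_singleton.2 (dvd_mul_right _ _)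
    · exact Ideal.mem_span_singleton.2 (dvd_mul_right _ _)
    · exact Ideal.mem_span_singleton.2 (dvd_mul_left _ _)
    · refine Ideal.mem_span_singleton.2 ⟨-(k : 𝓞 K), ?_⟩
      have := h.sq
      simp only
      linear_combination this - hk'
  · rw [Ideal.span_singleton_le_iff_mem]
    -- `gcd (ℓ, 2 n) = 1`
    have hcop : IsCoprime (ℓ : ℤ) (2 * n) := by
      refine (Nat.prime_iff_prime_int.1 hℓ).coprime_iff_not_dvd.2 fun hcon => hℓN ?_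
      rcases (Nat.prime_iff_prime_int.1 hℓ).dvd_or_dvd hcon with h2 | h2
      · exact dvd_mul_of_dvd_left (by exact_mod_cast h2) _
      · have h3 : (ℓ : ℤ) ∣ N := by
          have h4 : (N : ℤ) = (n ^ 2 + N) - n * n := by ring
          rw [h4, hk]
          exact dvd_sub (dvd_mul_right _ _) (dvd_mul_of_dvd_left h2 _)
        exact dvd_mul_of_dvd_right (by exact_mod_cast h3) _
    obtain ⟨a, b, hab⟩ := hcop
    have hab' : (a : 𝓞 K) * (ℓ : 𝓞 K) + (b : 𝓞 K) * (2 * (n : 𝓞 K)) = 1 := by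
      exact_mod_cast congrArg (Int.cast : ℤ → 𝓞 K) hab
    set I := Ideal.span {(ℓ : 𝓞 K), w - (n : 𝓞 K)} with hI
    set J := Ideal.span {(ℓ : 𝓞 K), w + (n : 𝓞 K)} with hJ
    have h1 : (ℓ : 𝓞 K) ∈ I := Ideal.subset_span (by simp)
    have h2 : w - (n : 𝓞 K) ∈ I := Ideal.subset_span (by simp)
    have h3 : (ℓ : 𝓞 K) ∈ J := Ideal.subset_span (by simp)
    have h4 : w + (n : 𝓞 K) ∈ J := Ideal.subset_span (by simp)
    have h5 : (ℓ : 𝓞 K) = (a : 𝓞 K) * ((ℓ : 𝓞 K) * (ℓ : 𝓞 K)) +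
        (b : 𝓞 K) * ((ℓ : 𝓞 K) * (w + (n : 𝓞 K)) - (w - (n : 𝓞 K)) * (ℓ : 𝓞 K)) := by
      linear_combination (-(ℓ : 𝓞 K)) * hab'
    rw [h5]
    exact Ideal.add_mem _ (Ideal.mul_mem_left _ _ (Ideal.mul_mem_mul h1 h3))
      (Ideal.mul_mem_left _ _ (Ideal.sub_mem _ (Ideal.mul_mem_mul h1 h4)
        (Ideal.mul_mem_mul h2 h3)))

omit h in
theorem natCast_ne_zero' {ℓ : ℕ} (hℓ : ℓ.Prime) : (ℓ : 𝓞 K) ≠ 0 :=
  Nat.cast_ne_zero.2 hℓ.ne_zero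

theorem absNorm_natCast' (ℓ : ℕ) : Ideal.absNorm (Ideal.span {(ℓ : 𝓞 K)}) = ℓ ^ 2 := by
  rw [absNorm_natCast, h.finrank]

/-- Both primes have norm `ℓ`. -/
theorem absNorm_span {ℓ : ℕ} (hℓ : ℓ.Prime) (hℓN : ¬ ℓ ∣ 2 * N) {n : ℤ}
    (hn : (ℓ : ℤ) ∣ n ^ 2 + N) : Ideal.absNorm (Ideal.span {(ℓ : 𝓞 K), w - (n : 𝓞 K)}) = ℓ ∧
      Ideal.absNorm (Ideal.span {(ℓ : 𝓞 K), w + (n : 𝓞 K)}) = ℓ := by
  have hmul := congrArg Ideal.absNorm (span_mul_span h hℓ hℓN hn)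
  rw [map_mul, absNorm_natCast' h] at hmul
  have key : ∀ m : ℤ, Ideal.absNorm (Ideal.span {(ℓ : 𝓞 K), w - (m : 𝓞 K)}) = 1 ∨
      Ideal.absNorm (Ideal.span {(ℓ : 𝓞 K), w - (m : 𝓞 K)}) = ℓ := by
    intro m
    by_cases htop : Ideal.span {(ℓ : 𝓞 K), w - (m : 𝓞 K)} = ⊤
    · left
      rw [htop, Ideal.absNorm_top]
    · right
      refine absNorm_eq_of_int hℓ htop (Ideal.subset_span (by simp)) fun x => ?_
      obtain ⟨a, b, rfl⟩ := h.exists_int x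
      refine ⟨a + b * m, ?_⟩
      have h2 : (a : 𝓞 K) + (b : 𝓞 K) * w - ((a + b * m : ℤ) : 𝓞 K) =
        (b : 𝓞 K) * (w - (m : 𝓞 K)) := by push_cast; ring
      rw [h2]
      exact Ideal.mul_mem_left _ _ (Ideal.subset_span (by simp))
  have h2 := key n
  have h3 := key (-n)
  have h4 : w - (((-n : ℤ)) : 𝓞 K) = w + (n : 𝓞 K) := by push_cast; ring
  rw [h4] at h3
  have hℓ1 := hℓ.one_lt
  rcases h2 with h2 | h2 <;> rcases h3 with h3 | h3 <;> rw [h2, h3] at hmul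
  · nlinarith
  · nlinarith
  · nlinarith
  · exact ⟨h2, h3⟩

theorem primesOver_eq {ℓ : ℕ} (hℓ : ℓ.Prime) (hℓN : ¬ ℓ ∣ 2 * N) {n : ℤ}
    (hn : (ℓ : ℤ) ∣ n ^ 2 + N) {Q : Ideal (𝓞 K)} :
    Q ∈ primesOver K ℓ ↔ Q = Ideal.span {(ℓ : 𝓞 K), w - (n : 𝓞 K)} ∨
      Q = Ideal.span {(ℓ : 𝓞 K), w + (n : 𝓞 K)} := by
  rw [mem_primesOver]
  constructor
  · rintro ⟨hQ, hQn⟩
    have hℓQ : (ℓ : 𝓞 K) ∈ Q := by rw [← hQn]; exact Ideal.absNorm_mem Q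
    obtain ⟨m, hm⟩ := exists_int_of_absNorm hℓ hQn w
    have h1 := dvd_of_intCast_mem hℓ hQ.ne_top hℓQ (sq_add_mem h hm)
    have h2 : (ℓ : ℤ) ∣ (m - n) * (m + n) := by
      have h3 : (m - n) * (m + n) = (m ^ 2 + N) - (n ^ 2 + N) := by ring
      rw [h3]
      exact dvd_sub h1 hn
    rcases (Nat.prime_iff_prime_int.1 hℓ).dvd_or_dvd h2 with ⟨k, hk⟩ | ⟨k, hk⟩
    · left
      refine eq_span_of_absNorm h hℓ hQ.ne_top hℓQ ?_
      have h4 : w - (n : 𝓞 K) = (w - (m : 𝓞 K)) + (k : 𝓞 K) * (ℓ : 𝓞 K) := by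
        have h5 : (m : 𝓞 K) - (n : 𝓞 K) = (ℓ : 𝓞 K) * (k : 𝓞 K) := by
          exact_mod_cast congrArg (Int.cast : ℤ → 𝓞 K) hk
        linear_combination h5
      rw [h4]
      exact Q.add_mem hm (Q.mul_mem_left _ hℓQ)
    · right
      have h4 : w - ((-n : ℤ) : 𝓞 K) = (w - (m : 𝓞 K)) + (k : 𝓞 K) * (ℓ : 𝓞 K) := by
        have h5 : (m : 𝓞 K) + (n : 𝓞 K) = (ℓ : 𝓞 K) * (k : 𝓞 K) := by
          exact_mod_cast congrArg (Int.cast : ℤ → 𝓞 K) hk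
        push_cast
        linear_combination h5
      have h6 := eq_span_of_absNorm h hℓ hQ.ne_top hℓQ (n := -n) (by
        rw [h4]
        exact Q.add_mem hm (Q.mul_mem_left _ hℓQ))
      have h7 : w - (((-n : ℤ)) : 𝓞 K) = w + (n : 𝓞 K) := by push_cast; ring
      rwa [h7] at h6
  · have h0 := absNorm_span h hℓ hℓN hn
    rintro (rfl | rfl)
    · exact ⟨Ideal.isPrime_of_irreducible_absNorm (by rw [h0.1]; exact hℓ), h0.1⟩
    · exact ⟨Ideal.isPrime_of_irreducible_absNorm (by rw [h0.2]; exact hℓ), h0.2⟩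

theorem span_ne_span {ℓ : ℕ} (hℓ : ℓ.Prime) (hℓN : ¬ ℓ ∣ 2 * N) {n : ℤ}
    (hn : (ℓ : ℤ) ∣ n ^ 2 + N) : Ideal.span {(ℓ : 𝓞 K), w - (n : 𝓞 K)} ≠
      Ideal.span {(ℓ : 𝓞 K), w + (n : 𝓞 K)} := by
  intro heq
  have h0 := absNorm_span h hℓ hℓN hn
  set I := Ideal.span {(ℓ : 𝓞 K), w - (n : 𝓞 K)} with hI
  have hne : I ≠ ⊤ := by
    intro htop
    rw [htop, Ideal.absNorm_top] at h0
    exact hℓ.one_lt.ne h0.1
  have h1 : (ℓ : 𝓞 K) ∈ I := Ideal.subset_span (by simp)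
  have h2 : w - (n : 𝓞 K) ∈ I := Ideal.subset_span (by simp)
  have h3 : w + (n : 𝓞 K) ∈ I := by rw [heq]; exact Ideal.subset_span (by simp)
  have h4 : ((2 * n : ℤ) : 𝓞 K) ∈ I := by
    have h5 : ((2 * n : ℤ) : 𝓞 K) = (w + (n : 𝓞 K)) - (w - (n : 𝓞 K)) := by push_cast; ring
    rw [h5]
    exact I.sub_mem h3 h2
  have h5 := dvd_of_intCast_mem hℓ hne h1 h4
  apply hℓN
  rcases (Nat.prime_iff_prime_int.1 hℓ).dvd_or_dvd h5 with h2 | h2
  · exact dvd_mul_of_dvd_left (by exact_mod_cast h2) _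
  · have h3 : (ℓ : ℤ) ∣ N := by
      have h4 : (N : ℤ) = (n ^ 2 + N) - n * n := by ring
      rw [h4]
      exact dvd_sub hn (dvd_mul_of_dvd_left h2 _)
    exact dvd_mul_of_dvd_right (by exact_mod_cast h3) _

omit h in
theorem cls_eq (v : HeightOneSpectrum (𝓞 K)) : cls K v.asIdeal = clv v := by
  rw [cls, dif_pos (mem_nonZeroDivisors_of_ne_zero v.ne_bot)]
  rfl

omit h in
theorem cls_eq_mk0 {P : Ideal (𝓞 K)} (hP : P ≠ ⊥) :
    cls K P = ClassGroup.mk0 ⟨P, mem_nonZeroDivisors_of_ne_zero hP⟩ := by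
  rw [cls, dif_pos (mem_nonZeroDivisors_of_ne_zero hP)]

/-- The classes of the two conjugate primes are inverse to each other. -/
theorem cls_mul_cls {ℓ : ℕ} (hℓ : ℓ.Prime) (hℓN : ¬ ℓ ∣ 2 * N) {n : ℤ}
    (hn : (ℓ : ℤ) ∣ n ^ 2 + N) : cls K (Ideal.span {(ℓ : 𝓞 K), w - (n : 𝓞 K)}) *
      cls K (Ideal.span {(ℓ : 𝓞 K), w + (n : 𝓞 K)}) = 1 := by
  have h0 := absNorm_span h hℓ hℓN hn
  have hb : ∀ {I : Ideal (𝓞 K)}, Ideal.absNorm I = ℓ → I ≠ ⊥ := by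
    rintro I hI rfl
    rw [Ideal.absNorm_bot] at hI
    exact hℓ.ne_zero hI.symm
  rw [cls_eq_mk0 (hb h0.1), cls_eq_mk0 (hb h0.2), ← map_mul, ClassGroup.mk0_eq_one_iff]
  refine ⟨(ℓ : 𝓞 K), ?_⟩
  exact span_mul_span h hℓ hℓN hn

/-- The sum over the primes above a split prime. -/
theorem sum_primesOver {ℓ : ℕ} (hℓ : ℓ.Prime) (hℓN : ¬ ℓ ∣ 2 * N) {F : Type} [Field F]
    (η : ClassGroup (𝓞 K) →* Fˣ) {P : Ideal (𝓞 K)} (hP : P ∈ primesOver K ℓ) :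
    ∑ Q ∈ primesOver K ℓ, ((η (cls K Q) : Fˣ) : F)
      = ((η (cls K P) : Fˣ) : F) + ((η (cls K P) : Fˣ) : F)⁻¹ := by
  classical
  obtain ⟨hP1, hP2⟩ := mem_primesOver.1 hP
  have hℓP : (ℓ : 𝓞 K) ∈ P := by rw [← hP2]; exact Ideal.absNorm_mem P
  obtain ⟨n, hn⟩ := exists_int_of_absNorm hℓ hP2 w
  have hn' := dvd_of_intCast_mem hℓ hP1.ne_top hℓP (sq_add_mem h hn)
  have hPe := eq_span_of_absNorm h hℓ hP1.ne_top hℓP hn
  have hset : primesOver K ℓ = {Ideal.span {(ℓ : 𝓞 K), w - (n : 𝓞 K)},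
      Ideal.span {(ℓ : 𝓞 K), w + (n : 𝓞 K)}} := by
    ext Q
    rw [primesOver_eq h hℓ hℓN hn', Finset.mem_insert, Finset.mem_singleton]
  rw [hset, Finset.sum_pair (span_ne_span h hℓ hℓN hn'), ← hPe]
  have h1 := cls_mul_cls h hℓ hℓN hn'
  rw [← hPe] at h1
  have h2 : cls K (Ideal.span {(ℓ : 𝓞 K), w + (n : 𝓞 K)}) = (cls K P)⁻¹ :=
    (inv_eq_of_mul_eq_one_right h1).symm
  rw [h2, map_inv, Units.val_inv_eq_inv_val]

/-- A non-principal prime over `ℓ ∤ 2N` has norm `ℓ`. -/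
theorem mem_primesOver_of_clv_ne_one {ℓ : ℕ} (hℓ : ℓ.Prime) {v : HeightOneSpectrum (𝓞 K)}
    (hℓv : (ℓ : 𝓞 K) ∈ v.asIdeal) (hv : clv v ≠ 1) : v.asIdeal ∈ primesOver K ℓ := by
  rw [mem_primesOver]
  refine ⟨v.isPrime, ?_⟩
  have h1 : v.asIdeal ∣ Ideal.span {(ℓ : 𝓞 K)} := by
    rw [Ideal.dvd_iff_le, Ideal.span_singleton_le_iff_mem]
    exact hℓv
  obtain ⟨J, hJ⟩ := h1
  have h2 := congrArg Ideal.absNorm hJ
  rw [map_mul, absNorm_natCast' h] at h2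
  have h3 : Ideal.absNorm v.asIdeal ∣ ℓ ^ 2 := Dvd.intro _ h2.symm
  rw [Nat.dvd_prime_pow hℓ] at h3
  obtain ⟨k, hk, hk'⟩ := h3
  have hk3 : k = 0 ∨ k = 1 ∨ k = 2 := by omega
  rcases hk3 with rfl | rfl | rfl
  · exfalso
    rw [pow_zero, Ideal.absNorm_eq_one_iff] at hk'
    exact v.isPrime.ne_top hk'
  · rw [hk', pow_one]
  · exfalso
    apply hv
    rw [hk'] at h2
    have h4 : Ideal.absNorm J = 1 := by
      have h5 : 0 < ℓ ^ 2 := pow_pos hℓ.pos 2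
      exact Nat.eq_of_mul_eq_mul_left h5 (by rw [mul_one]; exact h2.symm)
    rw [Ideal.absNorm_eq_one_iff] at h4
    rw [h4, Ideal.mul_top] at hJ
    rw [clv, ClassGroup.mk0_eq_one_iff]
    exact ⟨(ℓ : 𝓞 K), hJ.symm⟩

end ideals

section galois

variable {K : Type} [Field K] [NumberField K] [Algebra K Qb] {N : ℕ} {w : 𝓞 K}
  (h : QuadData K N w)
include h

/-- `GK N` is the group of automorphisms over `K`. -/
theorem mem_GK_iff (φ : GQ) : φ ∈ GK N ↔ ∀ x : K, φ (algebraMap K Qb x) = algebraMap K Qb x := by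
  have hw : (algebraMap K Qb w) ^ 2 = -(N : Qb) := by
    rw [← map_pow, h.sqK]; simp
  constructor
  · intro hφ x
    obtain ⟨r, s, rfl⟩ := h.exists_coord x
    have h1 : φ (algebraMap K Qb w) = algebraMap K Qb w := hφ _ hw
    have h2 : ∀ r : ℚ, φ (algebraMap K Qb (algebraMap ℚ K r)) =
        algebraMap K Qb (algebraMap ℚ K r) := by
      intro r
      rw [← IsScalarTower.algebraMap_apply ℚ K Qb]
      exact φ.commutes r
    rw [map_add, map_mul, map_add, map_mul, h1, h2, h2]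
  · intro hφ y hy
    rw [← hw] at hy
    rcases sq_eq_sq_iff_eq_or_eq_neg.1 hy with rfl | rfl
    · exact hφ _
    · rw [map_neg, hφ]

theorem apply_w_eq_neg {φ : GQ} (hφ : φ ∉ GK N) :
    φ (algebraMap K Qb w) = - algebraMap K Qb w := by
  have hw : (algebraMap K Qb w) ^ 2 = -(N : Qb) := by
    rw [← map_pow, h.sqK]; simp
  have h1 : (φ (algebraMap K Qb w)) ^ 2 = (algebraMap K Qb w) ^ 2 := by
    rw [← map_pow, hw]; simp
  rcases sq_eq_sq_iff_eq_or_eq_neg.1 h1 with h2 | h2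
  · exfalso
    apply hφ
    intro y hy
    rw [← hw] at hy
    rcases sq_eq_sq_iff_eq_or_eq_neg.1 hy with rfl | rfl
    · exact h2
    · rw [map_neg, h2]
  · exact h2

omit h in
theorem smul_sub_pow_mem {ℓ : ℕ} (hℓ : ℓ.Prime) {A : ValuationSubring Qb}
    (hA : A.LiesOverPrime ℓ) {φ : GQ} (hφ : A.IsFrobeniusAt φ ℓ) (x y : 𝓞 K)
    (hxy : φ (algebraMap K Qb x) = algebraMap K Qb y) :
    y - x ^ ℓ ∈ (placeBelow K hℓ hA).asIdeal := by
  have h1 := (isFrobeniusAt_iff_center A φ hℓ.ne_zero).1 hφ (algebraMap (𝓞 K) (𝓞 Qb) x)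
  rw [placeBelow_asIdeal, Ideal.mem_comap, map_sub, map_pow]
  have h2 : φ • algebraMap (𝓞 K) (𝓞 Qb) x = algebraMap (𝓞 K) (𝓞 Qb) y := by
    apply RingOfIntegers.ext
    exact hxy
  rwa [← h2]

omit h in
theorem natCast_mem_placeBelow {ℓ : ℕ} (hℓ : ℓ.Prime) {A : ValuationSubring Qb}
    (hA : A.LiesOverPrime ℓ) : (ℓ : 𝓞 K) ∈ (placeBelow K hℓ hA).asIdeal := by
  rw [placeBelow_asIdeal, Ideal.mem_comap, map_natCast]
  exact (liesOverPrime_iff A ℓ).1 hA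

/-- A Frobenius element in `G_K`: the place of `K` has degree one. -/
theorem placeBelow_mem_primesOver {ℓ : ℕ} (hℓ : ℓ.Prime) {A : ValuationSubring Qb}
    (hA : A.LiesOverPrime ℓ) {φ : GQ} (hφ : A.IsFrobeniusAt φ ℓ) (hφK : φ ∈ GK N) :
    (placeBelow K hℓ hA).asIdeal ∈ primesOver K ℓ := by
  set v := placeBelow K hℓ hA with hv
  have hvp : v.asIdeal.IsPrime := v.isPrime
  have hvm : v.asIdeal.IsMaximal := v.isMaximal
  rw [mem_primesOver]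
  refine ⟨v.isPrime, absNorm_eq_of_int hℓ v.isPrime.ne_top (natCast_mem_placeBelow hℓ hA)
    fun x => ?_⟩
  have h1 : x - x ^ ℓ ∈ v.asIdeal :=
    smul_sub_pow_mem hℓ hA hφ x x ((mem_GK_iff h φ).1 hφK _)
  let _ : Field (𝓞 K ⧸ v.asIdeal) := Ideal.Quotient.field v.asIdeal
  have hprime : Fact ℓ.Prime := ⟨hℓ⟩
  have hchar : CharP (𝓞 K ⧸ v.asIdeal) ℓ := by
    refine ringChar.of_eq (CharP.ringChar_of_prime_eq_zero hℓ ?_)
    rw [← map_natCast (Ideal.Quotient.mk v.asIdeal)]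
    exact Ideal.Quotient.eq_zero_iff_mem.2 (natCast_mem_placeBelow hℓ hA)
  have h4 : (Ideal.Quotient.mk v.asIdeal x) ^ ℓ = Ideal.Quotient.mk v.asIdeal x := by
    rw [← map_pow, eq_comm, ← sub_eq_zero, ← map_sub]
    exact Ideal.Quotient.eq_zero_iff_mem.2 h1
  have h5 := (Subfield.mem_bot_iff_pow_eq_self (𝓞 K ⧸ v.asIdeal) ℓ).2 h4
  rw [_root_.mem_bot_iff_intCast ℓ] at h5
  obtain ⟨n, hn⟩ := h5
  refine ⟨n, ?_⟩
  rw [← Ideal.Quotient.eq_zero_iff_mem, map_sub, map_intCast, hn, sub_self]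

/-- A Frobenius element outside `G_K`: there are no primes of degree one. -/
theorem primesOver_eq_empty {ℓ : ℕ} (hℓ : ℓ.Prime) (hℓN : ¬ ℓ ∣ 2 * N)
    {A : ValuationSubring Qb} (hA : A.LiesOverPrime ℓ) {φ : GQ} (hφ : A.IsFrobeniusAt φ ℓ)
    (hφK : φ ∉ GK N) : primesOver K ℓ = ∅ := by
  rw [Finset.eq_empty_iff_forall_notMem]
  intro Q hQ
  obtain ⟨hQ1, hQ2⟩ := mem_primesOver.1 hQ
  have hℓQ : (ℓ : 𝓞 K) ∈ Q := by rw [← hQ2]; exact Ideal.absNorm_mem Q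
  obtain ⟨n, hn⟩ := exists_int_of_absNorm hℓ hQ2 w
  obtain ⟨k, hk⟩ := dvd_of_intCast_mem hℓ hQ1.ne_top hℓQ (sq_add_mem h hn)
  have hk' : (n : 𝓞 K) ^ 2 + (N : 𝓞 K) = (ℓ : 𝓞 K) * (k : 𝓞 K) := by
    exact_mod_cast congrArg (Int.cast : ℤ → 𝓞 K) hk
  set v := placeBelow K hℓ hA with hv
  have hvp : v.asIdeal.IsPrime := v.isPrime
  have hℓv : (ℓ : 𝓞 K) ∈ v.asIdeal := natCast_mem_placeBelow hℓ hA
  -- `w ≡ ± n`
  have h1 : (w - (n : 𝓞 K)) * (w + (n : 𝓞 K)) ∈ v.asIdeal := by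
    have h2 : (w - (n : 𝓞 K)) * (w + (n : 𝓞 K)) = (-(k : 𝓞 K)) * (ℓ : 𝓞 K) := by
      have := h.sq
      linear_combination this - hk'
    rw [h2]
    exact v.asIdeal.mul_mem_left _ hℓv
  have h2 : ∃ m : ℤ, w - (m : 𝓞 K) ∈ v.asIdeal := by
    rcases hvp.mem_or_mem h1 with h2 | h2
    · exact ⟨n, h2⟩
    · refine ⟨-n, ?_⟩
      push_cast
      rwa [sub_neg_eq_add]
  obtain ⟨m, hm⟩ := h2
  -- `m ^ ℓ ≡ m mod ℓ`
  have h3 : ((m ^ ℓ - m : ℤ) : 𝓞 K) ∈ v.asIdeal := by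
    have h4 : (ℓ : ℤ) ∣ m ^ ℓ - m := by
      have hprime : Fact ℓ.Prime := ⟨hℓ⟩
      rw [← ZMod.intCast_zmod_eq_zero_iff_dvd]
      push_cast
      rw [ZMod.pow_card, sub_self]
    obtain ⟨c, hc⟩ := h4
    rw [hc]
    push_cast
    exact Ideal.mul_mem_right _ _ hℓv
  have h4 : w ^ ℓ - (m : 𝓞 K) ^ ℓ ∈ v.asIdeal :=
    Ideal.mem_of_dvd _ (sub_dvd_pow_sub_pow _ _ _) hm
  have h5 : -w - w ^ ℓ ∈ v.asIdeal := by
    refine smul_sub_pow_mem hℓ hA hφ w (-w) ?_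
    rw [apply_w_eq_neg h hφK]
    simp
  have h6 : ((2 * m : ℤ) : 𝓞 K) ∈ v.asIdeal := by
    have h7 : ((2 * m : ℤ) : 𝓞 K) = -((-w - w ^ ℓ) + (w ^ ℓ - (m : 𝓞 K) ^ ℓ)
      + ((m ^ ℓ - m : ℤ) : 𝓞 K) + (w - (m : 𝓞 K))) := by
      push_cast
      ring
    rw [h7]
    exact v.asIdeal.neg_mem (v.asIdeal.add_mem (v.asIdeal.add_mem (v.asIdeal.add_mem h5 h4) h3) hm)
  have h7 := dvd_of_intCast_mem hℓ hvp.ne_top hℓv h6
  have h8 := dvd_of_intCast_mem hℓ hvp.ne_top hℓv (sq_add_mem h hm)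
  apply hℓN
  rcases (Nat.prime_iff_prime_int.1 hℓ).dvd_or_dvd h7 with h9 | h9
  · exact dvd_mul_of_dvd_left (by exact_mod_cast h9) _
  · have h3 : (ℓ : ℤ) ∣ N := by
      have h4 : (N : ℤ) = (m ^ 2 + N) - m * m := by ring
      rw [h4]
      exact dvd_sub h8 (dvd_mul_of_dvd_left h9 _)
    exact dvd_mul_of_dvd_right (by exact_mod_cast h3) _

end galois

section generate

variable {K : Type} [Field K] [NumberField K]

theorem finite_places_of_prime (n : ℕ) (hn : n ≠ 0) :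
    {v : HeightOneSpectrum (𝓞 K) | (n : 𝓞 K) ∈ v.asIdeal}.Finite := by
  have hn' : (n : K) ≠ 0 := Nat.cast_ne_zero.2 hn
  refine (H47.finite_ordHom_ne_zero (R := 𝓞 K) (Additive.ofMul (Units.mk0 (n : K) hn'))).subset ?_
  intro v hv
  rw [Set.mem_ofPred_eq, Ne, H47.ordHom_eq_zero_iff]
  intro h1
  rw [Units.val_mk0] at h1
  have h2 : (n : K) = algebraMap (𝓞 K) K (n : 𝓞 K) := by simp
  rw [h2, HeightOneSpectrum.valuation_of_algebraMap] at h1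
  have h3 := (v.intValuation_lt_one_iff_mem (n : 𝓞 K)).2 hv
  exact h3.ne h1

/-- A nontrivial character of the class group is nontrivial on the class of some place prime to
a given integer. -/
theorem exists_place_of_ne_one {A : Type*} [CommGroup A] (η : ClassGroup (𝓞 K) →* A) (hη : η ≠ 1)
    (n : ℕ) (hn : n ≠ 0) :
    ∃ v : HeightOneSpectrum (𝓞 K), (n : 𝓞 K) ∉ v.asIdeal ∧ η (clv v) ≠ 1 := by
  classical
  obtain ⟨c, hc⟩ : ∃ c, η c ≠ 1 := by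
    by_contra hcon
    push Not at hcon
    exact hη (MonoidHom.ext hcon)
  obtain ⟨D, hD⟩ := H47.classOf_surjective (R := 𝓞 K) K (Additive.ofMul c)
  have hfin := finite_places_of_prime (K := K) n hn
  choose π hπ using fun v : HeightOneSpectrum (𝓞 K) => exists_uniformizer v
  obtain ⟨t, ht⟩ := exists_approx hfin.toFinset (fun _ => 0) (fun v => π v ^ (D v))
  have ht' : ∀ v, (n : 𝓞 K) ∈ v.asIdeal → H47.ordHom v (Additive.ofMul t) = D v := by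
    intro v hv
    have h1 := ht v (by rw [Set.Finite.mem_toFinset]; exact hv)
    rw [mem_congr_zero, ← H47.ordHom_eq_zero_iff, ofMul_div, map_sub, sub_eq_zero] at h1
    have h2 := hπ v
    rw [H47.valuation_eq_exp_ordHom, WithZero.exp_inj, neg_inj] at h2
    rw [h1, ofMul_zpow, map_zsmul, h2]
    simp
  set D' := D - H47.divHom (𝓞 K) K (Additive.ofMul t) with hD'
  have h1 : H47.classOf K D' = Additive.ofMul c := by
    have h2 : H47.classOf K (H47.divHom (𝓞 K) K (Additive.ofMul t)) = 0 := by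
      rw [← AddMonoidHom.mem_ker, H47.ker_classOf]
      exact ⟨_, rfl⟩
    rw [hD', map_sub, h2, sub_zero, hD]
  by_contra hcon
  push Not at hcon
  apply hc
  let ηa : Additive (ClassGroup (𝓞 K)) →+ Additive A := MonoidHom.toAdditive η
  have h3 : ηa (H47.classOf K D') = 0 := by
    rw [← Finsupp.sum_single D', Finsupp.sum, map_sum, map_sum]
    refine Finset.sum_eq_zero fun v hv => ?_
    have hv0 : (n : 𝓞 K) ∉ v.asIdeal := by
      intro hvn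
      apply Finsupp.mem_support_iff.1 hv
      rw [hD', Finsupp.sub_apply, H47.divHom_apply, ht' v hvn, sub_self]
    have h4 : Finsupp.single v (D' v) = D' v • Finsupp.single v (1 : ℤ) := by
      rw [Finsupp.smul_single, smul_eq_mul, mul_one]
    rw [h4, map_zsmul, map_zsmul, H91.FI.classOf_single]
    have h5 : ηa (Additive.ofMul (clv v)) = 0 := congrArg Additive.ofMul (hcon v hv0)
    rw [h5, smul_zero]
  rw [h1] at h3
  exact Additive.ofMul.injective h3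

/-- the rational prime below a place -/
theorem exists_prime_mem (v : HeightOneSpectrum (𝓞 K)) :
    ∃ ℓ : ℕ, ℓ.Prime ∧ (ℓ : 𝓞 K) ∈ v.asIdeal := by
  have hv : v.asIdeal.IsPrime := v.isPrime
  obtain ⟨ℓ, hℓ, hover⟩ := H64.exists_prime_liesOver v.asIdeal v.ne_bot
  exact ⟨ℓ, hℓ, (H64.natCast_mem_iff_of_liesOver v.asIdeal ℓ ℓ).2 dvd_rfl⟩

end generate

end Fermat.Agent.H82.LT
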