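import Mathlib
import Fermat.Agent.H82LTPsiA
import Fermat.Agent.H82LTPsiB

/-!
# LT-MOD2, M5b: matching the Galois character `ψ` of `E'[2]` with a class group character `η`
-/

set_option autoImplicit false

noncomputable section

open NumberField IsDedekindDomain IsLocalRing
open scoped nonZeroDivisors

namespace Fermat.Agent.H82.LT

open Fermat.Agent.H53 (GQ M2 mapMat MCont)
open Fermat.Agent.LT (Qb GK FinLevel primesOver cls GoodCurve EData cond bad TypeAt)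
open Fermat.Agent.H63.LT (QuadData)
open Fermat.Agent.H63 (center liesOverPrime_iff isFrobeniusAt_iff_center
  mem_inertiaSubgroupIn_iff_center)
open Fermat.Agent.H64 (placeBelow placeBelow_asIdeal)
open Fermat.Agent.H91.FI (clv)

section gal

variable {K Ω : Type} [Field K] [NumberField K] [Field Ω] [CharZero Ω] [Algebra.IsAlgebraic ℚ Ω]
  [Algebra K Ω] [IsGalois K Ω]

/-- **The first inequality for prime degree, Galois form.** -/
theorem exists_class_char_gal [IsTotallyComplex K] {p : ℕ} [hp : Fact p.Prime]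
    (H : Subgroup (Ω ≃ₐ[K] Ω)) [H.Normal] (hopen : IsOpen (H : Set (Ω ≃ₐ[K] Ω)))
    (hidx : H.index = p)
    (hunr : ∀ (ℓ : ℕ), ℓ.Prime → ∀ A : ValuationSubring Ω, A.LiesOverPrime ℓ →
      A.inertiaSubgroupIn K ≤ H) :
    ∃ η : Additive (ClassGroup (𝓞 K)) →+ ZMod p, (∃ v, η (Additive.ofMul (clv v)) ≠ 0) ∧
      ∀ (ℓ : ℕ) (hℓ : ℓ.Prime) (A : ValuationSubring Ω) (hA : A.LiesOverPrime ℓ)
        (φ : Ω ≃ₐ[K] Ω), φ ∈ H → A.IsFrobeniusAt φ ℓ →
          η (Additive.ofMul (clv (placeBelow K hℓ hA))) = 0 := by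
  obtain ⟨L, hNF, hgal, hfix, -, hdeg, hunr', hfrob⟩ := H91.FI.exists_layer H hopen hunr
  obtain ⟨η, hη1, hη2⟩ := exists_class_char (K := K) (L := L) (hdeg.trans hidx) (fun v w hw => by
    have h1 := hunr' w
    rwa [← H47.eq_below_of_mem_above hw] at h1)
  refine ⟨η, hη1, fun ℓ hℓ A hA φ hφH hφ => hη2 _ fun hns => ?_⟩
  obtain ⟨h1, h2⟩ := hfrob ℓ hℓ A hA
  have h3 := H91.FI.ncard_above_of_stabCard_eq_one (h2 φ hφH hφ)
  rw [h1, hdeg, hidx] at h3
  rw [NonSplit, h3] at hns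
  exact hp.out.one_lt.ne' hns

end gal

/-- What is needed about `E'[2]`. -/
structure RbData (N : ℕ) (rb : GQ →* M2 (ZMod 2)) : Prop where
  fin : FinLevel rb
  surj : ∀ M : M2 (ZMod 2), M.det ≠ 0 → ∃ g, rb g = M
  mem_GK : ∀ g : GQ, g ∈ GK N ↔ rb g = 1 ∨ (rb g).trace = 1
  inert : ∀ ℓ : ℕ, ℓ.Prime → ∀ P : ValuationSubring Qb, P.LiesOverPrime ℓ →
    ∀ σ ∈ P.inertiaSubgroupIn ℚ, (rb σ).trace = 0

theorem finLevel_of_MCont {r : GQ →* M2 ℤ_[2]} (hr : MCont ℤ_[2] r) :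
    FinLevel (mapMat PadicInt.toZMod r) := by
  obtain ⟨L, hL, h⟩ := hr 1
  refine ⟨L, hL, fun g σ hσ => ?_⟩
  have h1 : mapMat PadicInt.toZMod r σ = 1 := by
    ext i j
    have h2 := h σ hσ i j
    rw [pow_one, ← PadicInt.ker_toZMod, RingHom.mem_ker, map_sub, sub_eq_zero] at h2
    rw [H53.mapMat_apply, h2, Matrix.one_apply, Matrix.one_apply]
    split_ifs <;> simp
  rw [map_mul, h1, mul_one]

theorem rbData_of_eData {W : WeierstrassCurve ℤ} {r : GQ →* M2 ℤ_[2]} {s : ℕ → ℤ}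
    (hW : GoodCurve W) (hE : EData W r s) : RbData (cond W) (mapMat PadicInt.toZMod r) where
  fin := finLevel_of_MCont hE.cont
  surj := hE.surj
  mem_GK := hE.mem_GK
  inert := by
    intro ℓ hℓ P hP σ hσ
    set rb := mapMat PadicInt.toZMod r with hrb
    have hone : ((1 : M2 (ZMod 2))).trace = 0 := by
      rw [Matrix.trace_fin_two]
      decide
    by_cases hdiv : (ℓ : ℤ) ∣ W.Δ
    · obtain ⟨χ, -, -, hχ, -, htype⟩ := hE.type ℓ hℓ hdiv P hP
      have hdec : σ ∈ P.decompositionSubgroup ℚ := by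
        obtain ⟨τ, -, rfl⟩ := hσ
        exact τ.2
      have h1 := htype σ hdec σ hdec
      rw [hχ σ hσ, mul_one, one_smul] at h1
      have h2 := congrArg (fun M : M2 ℤ_[2] => M.map PadicInt.toZMod) h1
      have h3 : ((rb σ) - ((rb σ).det) • (1 : M2 (ZMod 2))) * (rb σ - 1) = 0 := by
        have hd : (rb σ).det = PadicInt.toZMod (r σ).det := by
          rw [hrb, H53.mapMat_apply']
          exact (RingHom.map_det _ _).symm
        have e1 : (rb σ) - ((rb σ).det) • (1 : M2 (ZMod 2)) =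
            (r σ - (r σ).det • (1 : M2 ℤ_[2])).map PadicInt.toZMod := by
          rw [hd]
          ext i j
          simp only [Matrix.sub_apply, Matrix.smul_apply, Matrix.map_apply, map_sub, smul_eq_mul,
            map_mul, Matrix.one_apply]
          rw [hrb, H53.mapMat_apply]
          split_ifs <;> simp
        have e2 : rb σ - 1 = (r σ - (1 : M2 ℤ_[2])).map PadicInt.toZMod := by
          ext i j
          simp only [Matrix.sub_apply, Matrix.map_apply, map_sub, Matrix.one_apply]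
          rw [hrb, H53.mapMat_apply]
          split_ifs <;> simp
        rw [e1, e2, ← Matrix.map_mul]
        simp only [Matrix.map_zero _ (map_zero PadicInt.toZMod)] at h2
        exact h2
      rw [det_eq_one, one_smul] at h3
      have hdet := det_eq_one rb σ
      rw [Matrix.det_fin_two] at hdet
      have e00 := congrFun (congrFun h3 0) 0
      have e01 := congrFun (congrFun h3 0) 1
      have e10 := congrFun (congrFun h3 1) 0
      have e11 := congrFun (congrFun h3 1) 1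
      simp only [Matrix.mul_apply, Fin.sum_univ_two, Matrix.sub_apply, Matrix.one_apply,
        Matrix.zero_apply, Fin.isValue, one_ne_zero, zero_ne_one, if_true, if_false, sub_zero]
        at e00 e01 e10 e11
      rw [Matrix.trace_fin_two]
      generalize rb σ 0 0 = a at *
      generalize rb σ 0 1 = b at *
      generalize rb σ 1 0 = c at *
      generalize rb σ 1 1 = d at *
      revert a b c d
      decide
    · by_cases hℓ2 : ℓ = 2
      · subst hℓ2
        exact absurd (by exact_mod_cast hW.two) hdiv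
      · have h1 := hE.unr ℓ hℓ hdiv hℓ2 P hP σ hσ
        have h2 : rb σ = 1 := by
          rw [hrb, H53.mapMat_apply', h1]
          exact Matrix.map_one _ (map_zero _) (map_one _)
        rw [h2, hone]

section quad

variable {K : Type} [Field K] [NumberField K] {N : ℕ} {w : 𝓞 K}

theorem isTotallyComplex (h : QuadData K N w) : IsTotallyComplex K := by
  refine ⟨fun v => ?_⟩
  rw [← InfinitePlace.not_isReal_iff_isComplex]
  intro hv
  have h1 := congrArg (InfinitePlace.embedding_of_isReal hv) h.sqK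
  rw [map_pow, map_neg, map_natCast] at h1
  have h2 : (0 : ℝ) < N := by exact_mod_cast h.N_pos
  nlinarith [sq_nonneg (InfinitePlace.embedding_of_isReal hv (w : K))]

variable [Algebra K Qb]

/-- restriction of scalars `G_K → G_ℚ` -/
def resK (K : Type) [Field K] [NumberField K] [Algebra K Qb] : (Qb ≃ₐ[K] Qb) →* GQ :=
  AlgEquiv.restrictScalarsHom ℚ

@[simp] theorem resK_apply (σ : Qb ≃ₐ[K] Qb) (x : Qb) : resK K σ x = σ x := rfl

theorem resK_mem_GK (h : QuadData K N w) (σ : Qb ≃ₐ[K] Qb) : resK K σ ∈ GK N := by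
  rw [mem_GK_iff h]
  exact fun x => σ.commutes x

theorem exists_resK_eq (h : QuadData K N w) {g : GQ} (hg : g ∈ GK N) :
    ∃ σ : Qb ≃ₐ[K] Qb, resK K σ = g := by
  rw [mem_GK_iff h] at hg
  refine ⟨AlgEquiv.ofRingEquiv (f := (g : Qb ≃+* Qb)) hg, ?_⟩
  ext x
  rfl

theorem resK_mem_inertia {A : ValuationSubring Qb} {σ : Qb ≃ₐ[K] Qb}
    (hσ : σ ∈ A.inertiaSubgroupIn K) : resK K σ ∈ A.inertiaSubgroupIn ℚ := by
  rw [mem_inertiaSubgroupIn_iff_center] at hσ ⊢
  exact hσ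

theorem isFrobeniusAt_resK {A : ValuationSubring Qb} {σ : Qb ≃ₐ[K] Qb} {ℓ : ℕ} (hℓ : ℓ.Prime) :
    A.IsFrobeniusAt (resK K σ) ℓ ↔ A.IsFrobeniusAt σ ℓ := by
  rw [isFrobeniusAt_iff_center _ _ hℓ.ne_zero, isFrobeniusAt_iff_center _ _ hℓ.ne_zero]
  exact Iff.rfl

/-- The kernel of a finite-level homomorphism is open in `G_K`. -/
theorem isOpen_ker_comp {M : Type*} [Monoid M] {f : GQ →* M} (hf : FinLevel f) :
    IsOpen (((f.comp (resK K)).ker : Subgroup (Qb ≃ₐ[K] Qb)) : Set (Qb ≃ₐ[K] Qb)) := by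
  obtain ⟨L, hL, h⟩ := hf
  let b := Module.finBasis ℚ L
  let S : Set Qb := Set.range fun i => ((b i : L) : Qb)
  have hSfin : Finite S := Set.finite_range _
  have hint : ∀ x ∈ S, IsIntegral K x := fun x _ =>
    (Algebra.IsIntegral.isIntegral (R := ℚ) x).tower_top
  have hfd : FiniteDimensional K (IntermediateField.adjoin K S) :=
    IntermediateField.finiteDimensional_adjoin hint
  refine Subgroup.isOpen_mono (H₁ := (IntermediateField.adjoin K S).fixingSubgroup) ?_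
    (IntermediateField.fixingSubgroup_isOpen _)
  intro σ hσ
  rw [MonoidHom.mem_ker]
  have h1 : ∀ x ∈ L, resK K σ x = x := by
    intro x hx
    have h2 := b.sum_repr ⟨x, hx⟩
    have h3 : x = ∑ i, (b.repr ⟨x, hx⟩ i) • ((b i : L) : Qb) := by
      conv_lhs => rw [← show ((⟨x, hx⟩ : L) : Qb) = x from rfl, ← h2]
      push_cast
      rfl
    rw [h3, map_sum]
    refine Finset.sum_congr rfl fun i _ => ?_
    rw [IntermediateField.mem_fixingSubgroup_iff] at hσ
    have h4 : resK K σ ((b i : L) : Qb) = ((b i : L) : Qb) :=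
      hσ _ (IntermediateField.subset_adjoin K S ⟨i, rfl⟩)
    rw [Algebra.smul_def, map_mul, AlgEquiv.commutes, h4]
  have h2 := h 1 (resK K σ) h1
  rw [one_mul] at h2
  show f (resK K σ) = 1
  rw [h2, map_one]

/-- `ker (rbar|G_K)` has index 3 in `G_K`. -/
theorem index_ker (h : QuadData K N w) {rb : GQ →* M2 (ZMod 2)} (hrb : RbData N rb) :
    ((rb.comp (resK K)).ker).index = 3 := by
  obtain ⟨g₁, hg₁⟩ := hrb.surj !![0, 1; 1, 1] (by
    rw [Matrix.det_fin_two_of]; decide)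
  have htr : (rb g₁).trace = 1 := by
    rw [hg₁, Matrix.trace_fin_two_of]; decide
  obtain ⟨σ₁, hσ₁⟩ := exists_resK_eq (K := K) h ((hrb.mem_GK g₁).2 (Or.inr htr))
  set H := (rb.comp (resK K)).ker with hH
  set q : (Qb ≃ₐ[K] Qb) ⧸ H := QuotientGroup.mk σ₁ with hq
  have hall : ∀ x : (Qb ≃ₐ[K] Qb) ⧸ H, x ∈ Subgroup.zpowers q := by
    intro x
    obtain ⟨σ, rfl⟩ := QuotientGroup.mk_surjective x
    have hσG := resK_mem_GK (K := K) h σ
    rcases (hrb.mem_GK _).1 hσG with h1 | h1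
    · have : (QuotientGroup.mk σ : (Qb ≃ₐ[K] Qb) ⧸ H) = 1 := by
        rw [QuotientGroup.eq_one_iff]
        exact h1
      rw [this]
      exact one_mem _
    · rcases m2_eq_or (rb (resK K σ)) (rb g₁) (det_eq_one rb _) (det_eq_one rb _) h1 htr with
        h2 | h2
      · have h3 : (QuotientGroup.mk σ : (Qb ≃ₐ[K] Qb) ⧸ H) = q := by
          rw [hq, QuotientGroup.eq]
          show rb (resK K (σ⁻¹ * σ₁)) = 1
          rw [map_mul, hσ₁, map_mul, ← h2, ← map_mul, map_inv, inv_mul_cancel, map_one]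
        rw [h3]
        exact Subgroup.mem_zpowers _
      · have h3 : (QuotientGroup.mk σ : (Qb ≃ₐ[K] Qb) ⧸ H) * q = 1 := by
          rw [hq, ← QuotientGroup.mk_mul, QuotientGroup.eq_one_iff]
          show rb (resK K (σ * σ₁)) = 1
          rw [map_mul, hσ₁, map_mul, h2]
        rw [eq_inv_of_mul_eq_one_left h3]
        exact inv_mem (Subgroup.mem_zpowers _)
  rw [Subgroup.index, ← orderOf_eq_card_of_forall_mem_zpowers hall]
  refine orderOf_eq_prime ?_ ?_
  · rw [hq, ← QuotientGroup.mk_pow, QuotientGroup.eq_one_iff]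
    show rb (resK K (σ₁ ^ 3)) = 1
    rw [map_pow, hσ₁, map_pow, hg₁]
    decide
  · intro h1
    rw [hq, QuotientGroup.eq_one_iff] at h1
    have h2 : rb (resK K σ₁) = 1 := h1
    rw [hσ₁] at h2
    rw [h2, Matrix.trace_fin_two] at htr
    revert htr
    decide

theorem inertia_le_ker (h : QuadData K N w) {rb : GQ →* M2 (ZMod 2)} (hrb : RbData N rb)
    {ℓ : ℕ} (hℓ : ℓ.Prime) {A : ValuationSubring Qb} (hA : A.LiesOverPrime ℓ) :
    A.inertiaSubgroupIn K ≤ (rb.comp (resK K)).ker := by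
  intro σ hσ
  show rb (resK K σ) = 1
  have h1 := hrb.inert ℓ hℓ A hA _ (resK_mem_inertia hσ)
  refine ((hrb.mem_GK _).1 (resK_mem_GK (K := K) h σ)).resolve_right fun h2 => ?_
  rw [h1] at h2
  exact zero_ne_one h2

/-- **(P1)** There is a nontrivial cubic character of the class group which kills the places
below Frobenius elements acting trivially on `E'[2]`. -/
theorem exists_cubic_char (h : QuadData K N w) {rb : GQ →* M2 (ZMod 2)} (hrb : RbData N rb)
    {F : Type} [Field F] (hF : Nat.card F = 4) :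
    ∃ η : ClassGroup (𝓞 K) →* Fˣ, η ≠ 1 ∧ (∀ c, η c ^ 3 = 1) ∧
      ∀ (ℓ : ℕ) (hℓ : ℓ.Prime) (A : ValuationSubring Qb) (hA : A.LiesOverPrime ℓ) (φ : GQ),
        A.IsFrobeniusAt φ ℓ → rb φ = 1 → η (clv (placeBelow K hℓ hA)) = 1 := by
  have hTC := isTotallyComplex h
  have hp3 : Fact (Nat.Prime 3) := ⟨Nat.prime_three⟩
  have halg : Algebra.IsAlgebraic K Qb := Algebra.IsAlgebraic.tower_top (K := ℚ) K
  have hclosure : IsAlgClosure K Qb := ⟨inferInstance, halg⟩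
  have hnormal : Normal K Qb := IsAlgClosure.normal K Qb
  have hgal : IsGalois K Qb := ⟨⟩
  obtain ⟨η₀, ⟨v₀, hv₀⟩, hη₀⟩ := exists_class_char_gal (K := K) (Ω := Qb) (p := 3)
    (rb.comp (resK K)).ker (isOpen_ker_comp hrb.fin) (index_ker h hrb)
    (fun ℓ hℓ A hA => inertia_le_ker h hrb hℓ hA)
  -- a generator of `F₄ˣ`
  have hfinF : Finite F := Nat.finite_of_card_ne_zero (by rw [hF]; norm_num)
  have hcardU : Nat.card Fˣ = 3 := by
    rw [Nat.card_units, hF]
  obtain ⟨g, hg⟩ := IsCyclic.exists_generator (α := Fˣ)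
  have hord : orderOf g = 3 := by rw [orderOf_eq_card_of_forall_mem_zpowers hg, hcardU]
  have hg3 : (3 : ℕ) • Additive.ofMul g = 0 := by
    rw [← ofMul_pow, ← hord, pow_orderOf_eq_one]
    rfl
  let z : ZMod 3 →+ Additive Fˣ := ZMod.lift 3 ⟨zmultiplesHom (Additive Fˣ) (Additive.ofMul g), by
    rw [zmultiplesHom_apply]
    exact_mod_cast hg3⟩
  have hz : ∀ a : ZMod 3, z a = 0 → a = 0 := by
    intro a ha
    obtain ⟨n, rfl⟩ := ZMod.intCast_surjective a
    have h1 : z (n : ZMod 3) = n • Additive.ofMul g := by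
      show ZMod.lift 3 _ (n : ZMod 3) = _
      rw [ZMod.lift_coe]
      rfl
    rw [h1, ← ofMul_zpow] at ha
    have h2 : g ^ n = 1 := Additive.ofMul.injective ha
    rw [← orderOf_dvd_iff_zpow_eq_one, hord] at h2
    exact (ZMod.intCast_zmod_eq_zero_iff_dvd _ _).2 h2
  let η : ClassGroup (𝓞 K) →* Fˣ := MonoidHom.toAdditive.symm (z.comp η₀)
  have hη : ∀ c, η c = (z (η₀ (Additive.ofMul c))).toMul := fun c => rfl
  refine ⟨η, ?_, ?_, ?_⟩
  · intro h1
    apply hv₀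
    apply hz
    have h2 := DFunLike.congr_fun h1 (clv v₀)
    rw [hη] at h2
    exact Additive.toMul.injective h2
  · intro c
    rw [← hcardU]
    exact pow_card_eq_one'
  · intro ℓ hℓ A hA φ hφ hφ1
    obtain ⟨σ, hσ⟩ := exists_resK_eq (K := K) h ((hrb.mem_GK φ).2 (Or.inl hφ1))
    have h1 : σ ∈ (rb.comp (resK K)).ker := by
      show rb (resK K σ) = 1
      rw [hσ, hφ1]
    rw [← hσ, isFrobeniusAt_resK hℓ] at hφ
    rw [hη, hη₀ ℓ hℓ A hA σ h1 hφ, map_zero]
    rfl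

/-- `x + x⁻¹ = 1` for a nontrivial cube root of unity in characteristic 2. -/
theorem add_inv_eq_one {F : Type} [Field F] (h2 : (2 : F) = 0) {x : Fˣ} (hx : x ≠ 1)
    (hx3 : x ^ 3 = 1) : (x : F) + (x : F)⁻¹ = 1 := by
  have h3 : (x : F) ^ 3 = 1 := by rw [← Units.val_pow_eq_pow_val, hx3, Units.val_one]
  have h0 : (x : F) ≠ 0 := x.ne_zero
  have h1 : (x : F) - 1 ≠ 0 := by
    rw [sub_ne_zero]
    exact fun h => hx (Units.ext h)
  have h4 : (x : F) ^ 2 + x + 1 = 0 := by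
    have h5 : ((x : F) - 1) * ((x : F) ^ 2 + x + 1) = 0 := by linear_combination h3
    exact (mul_eq_zero.1 h5).resolve_left h1
  field_simp
  linear_combination h4 - (x : F) * h2

/-- **(P2)** Density matching: if the traces of Frobenius of `ρ` are given by the class group
character `η`, then `tr ρ = tr rb`. -/
theorem trace_eq_of_class_char (h : QuadData K N w) {rb : GQ →* M2 (ZMod 2)} (hrb : RbData N rb)
    {F : Type} [Field F] (h2 : (2 : F) = 0) (η : ClassGroup (𝓞 K) →* Fˣ) (hη : η ≠ 1)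
    (hη3 : ∀ c, η c ^ 3 = 1)
    (hηk : ∀ (ℓ : ℕ) (hℓ : ℓ.Prime) (A : ValuationSubring Qb) (hA : A.LiesOverPrime ℓ) (φ : GQ),
        A.IsFrobeniusAt φ ℓ → rb φ = 1 → η (clv (placeBelow K hℓ hA)) = 1)
    (ρ : GQ →* M2 F) (hρ : FinLevel ρ) (S : Finset ℕ)
    (hdet : ∀ ℓ : ℕ, ℓ.Prime → ℓ ∉ S → ∀ A : ValuationSubring Qb, A.LiesOverPrime ℓ →
      ∀ φ : GQ, A.IsFrobeniusAt φ ℓ → (ρ φ).det = 1)
    (htr : ∀ ℓ : ℕ, ℓ.Prime → ℓ ∉ S → ∀ A : ValuationSubring Qb, A.LiesOverPrime ℓ →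
      ∀ φ : GQ, A.IsFrobeniusAt φ ℓ →
        (ρ φ).trace = ∑ P ∈ primesOver K ℓ, ((η (cls K P) : Fˣ) : F)) :
    (∀ g, (ρ g).det = 1) ∧ ∀ (c : ZMod 2 →+* F) (g : GQ), (ρ g).trace = c (rb g).trace := by
  classical
  have hN0 : 2 * N ≠ 0 := mul_ne_zero two_ne_zero h.N_pos.ne'
  set S' : Finset ℕ := S ∪ (2 * N).primeFactors with hS'
  have hS1 : ∀ {ℓ}, ℓ ∉ S' → ℓ ∉ S := fun hℓ h1 => hℓ (Finset.mem_union_left _ h1)
  have hS2 : ∀ {ℓ}, ℓ.Prime → ℓ ∉ S' → ¬ ℓ ∣ 2 * N := fun hp hℓ h1 =>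
    hℓ (Finset.mem_union_right _ (Nat.mem_primeFactors.2 ⟨hp, h1, hN0⟩))
  have hin : ∀ (ℓ : ℕ) (hℓ : ℓ.Prime), ℓ ∉ S' → ∀ (A : ValuationSubring Qb)
      (hA : A.LiesOverPrime ℓ) (φ : GQ), A.IsFrobeniusAt φ ℓ → φ ∈ GK N →
      (ρ φ).trace = ((η (clv (placeBelow K hℓ hA)) : Fˣ) : F) +
        ((η (clv (placeBelow K hℓ hA)) : Fˣ) : F)⁻¹ := by
    intro ℓ hℓ hℓS A hA φ hφ hφK
    rw [htr ℓ hℓ (hS1 hℓS) A hA φ hφ,
      sum_primesOver h hℓ (hS2 hℓ hℓS) η (placeBelow_mem_primesOver h hℓ hA hφ hφK), cls_eq]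
  -- a Frobenius element with trace one
  obtain ⟨v, hvn, hv⟩ := exists_place_of_ne_one η hη (∏ q ∈ S'.filter Nat.Prime, q)
    (Finset.prod_ne_zero_iff.2 fun q hq => (Finset.mem_filter.1 hq).2.ne_zero)
  obtain ⟨ℓ₀, hℓ₀, hℓ₀v⟩ := exists_prime_mem v
  have hℓ₀S : ℓ₀ ∉ S' := by
    intro hmem
    apply hvn
    have hdvd : ℓ₀ ∣ ∏ q ∈ S'.filter Nat.Prime, q :=
      Finset.dvd_prod_of_mem _ (Finset.mem_filter.2 ⟨hmem, hℓ₀⟩)
    obtain ⟨k, hk⟩ := hdvd
    rw [hk]
    push_cast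
    exact v.asIdeal.mul_mem_right _ hℓ₀v
  have hvP := mem_primesOver_of_clv_ne_one h hℓ₀ hℓ₀v (fun h1 => hv (by rw [h1, map_one]))
  obtain ⟨A₀, hA₀⟩ := H54.exists_liesOverPrime hℓ₀
  obtain ⟨φ₀, hφ₀⟩ := H54.exists_isFrobeniusAt hℓ₀ hA₀
  have hφ₀G : φ₀ ∈ GK N := by
    by_contra hcon
    rw [primesOver_eq_empty h hℓ₀ (hS2 hℓ₀ hℓ₀S) hA₀ hφ₀ hcon] at hvP
    exact absurd hvP (Finset.notMem_empty _)
  have htr₀ : (ρ φ₀).trace = 1 := by
    rw [htr ℓ₀ hℓ₀ (hS1 hℓ₀S) A₀ hA₀ φ₀ hφ₀, sum_primesOver h hℓ₀ (hS2 hℓ₀ hℓ₀S) η hvP, cls_eq]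
    exact add_inv_eq_one h2 hv (hη3 _)
  refine trace_matching h2 ρ hρ rb hrb.fin (GK N) hrb.mem_GK S'
    (fun ℓ hℓ hℓS => hdet ℓ hℓ (hS1 hℓS)) ?_ ?_ φ₀ hφ₀G htr₀
  · intro ℓ hℓ hℓS A hA φ hφ hφK
    rw [htr ℓ hℓ (hS1 hℓS) A hA φ hφ, primesOver_eq_empty h hℓ (hS2 hℓ hℓS) hA hφ hφK,
      Finset.sum_empty]
  · intro ℓ hℓ hℓS A hA φ hφ hφ1
    rw [hin ℓ hℓ hℓS A hA φ hφ ((hrb.mem_GK φ).2 (Or.inl hφ1)), hηk ℓ hℓ A hA φ hφ hφ1]
    simp only [Units.val_one, inv_one]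
    linear_combination h2

/-- If `ρ` as in `trace_eq_of_class_char` exists then the character `η` computes the Frobenius
traces of `rb` : `η(v) = 1` iff Frobenius acts trivially. -/
theorem clv_eq_one_iff (h : QuadData K N w) {rb : GQ →* M2 (ZMod 2)} (hrb : RbData N rb)
    {F : Type} [Field F] (h2 : (2 : F) = 0) (η : ClassGroup (𝓞 K) →* Fˣ)
    (hη3 : ∀ c, η c ^ 3 = 1) (ρ : GQ →* M2 F)
    (hρ : ∀ (c : ZMod 2 →+* F) (g : GQ), (ρ g).trace = c (rb g).trace)
    {ℓ : ℕ} (hℓ : ℓ.Prime) (hℓN : ¬ ℓ ∣ 2 * N) {A : ValuationSubring Qb}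
    (hA : A.LiesOverPrime ℓ) {φ : GQ} (hφ : A.IsFrobeniusAt φ ℓ) (hφK : φ ∈ GK N)
    (htr : (ρ φ).trace = ∑ P ∈ primesOver K ℓ, ((η (cls K P) : Fˣ) : F)) :
    η (clv (placeBelow K hℓ hA)) = 1 ↔ rb φ = 1 := by
  have hchar : CharP F 2 := by
    refine ringChar.of_eq (CharP.ringChar_of_prime_eq_zero Nat.prime_two ?_)
    exact_mod_cast h2
  rw [sum_primesOver h hℓ hℓN η (placeBelow_mem_primesOver h hℓ hA hφ hφK), cls_eq,
    hρ (ZMod.castHom (dvd_refl 2) F)] at htr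
  constructor
  · intro h1
    refine ((hrb.mem_GK φ).1 hφK).resolve_right fun h3 => ?_
    rw [h3, h1, map_one, Units.val_one, inv_one] at htr
    have h4 : (1 : F) + 1 = 0 := by linear_combination h2
    rw [h4] at htr
    exact one_ne_zero htr
  · intro h1
    by_contra hcon
    rw [add_inv_eq_one h2 hcon (hη3 _), h1, Matrix.trace_fin_two] at htr
    have h3 : ((1 : M2 (ZMod 2)) 0 0 + (1 : M2 (ZMod 2)) 1 1) = 0 := by decide
    rw [h3, map_zero] at htr
    exact zero_ne_one htr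

end quad

section final

theorem exists_quadData {K : Type} [Field K] [NumberField K] {N : ℕ} (hN : Squarefree N)
    (h2 : 2 ∣ N) (hK : Module.finrank ℚ K = 2) (hx : ∃ x : K, x ^ 2 = -(N : K)) :
    ∃ w : 𝓞 K, QuadData K N w := by
  obtain ⟨x, hx⟩ := hx
  have hint : IsIntegral ℤ x := by
    refine IsIntegral.of_pow (n := 2) (by norm_num) ?_
    have h1 : IsIntegral ℤ (algebraMap ℤ K (N : ℤ)) := isIntegral_algebraMap
    have h2 : algebraMap ℤ K (N : ℤ) = (N : K) := by simp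
    rw [hx, ← h2]
    exact h1.neg
  obtain ⟨y, rfl⟩ : ∃ y : 𝓞 K, algebraMap (𝓞 K) K y = x := ⟨⟨x, hint⟩, rfl⟩
  refine ⟨y, hK, ?_, hN, h2⟩
  apply RingOfIntegers.ext
  show algebraMap (𝓞 K) K (y ^ 2) = algebraMap (𝓞 K) K (-(N : 𝓞 K))
  rw [map_pow, map_neg, map_natCast]
  exact hx

theorem squarefree_cond (W : WeierstrassCurve ℤ) : Squarefree (cond W) := by
  rw [Fermat.Agent.LT.cond, bad]
  exact (Nat.squarefree_iff_prime_squarefree.2 fun q hq hdvd => by
    have h1 : (∏ ℓ ∈ W.Δ.natAbs.primeFactors, ℓ).factorization q ≤ 1 := by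
      rw [Nat.factorization_prod (fun ℓ hℓ => (Nat.prime_of_mem_primeFactors hℓ).ne_zero),
        Finsupp.finsetSum_apply]
      have h2 : ∀ ℓ ∈ W.Δ.natAbs.primeFactors, ℓ.factorization q = if ℓ = q then 1 else 0 := by
        intro ℓ hℓ
        rw [(Nat.prime_of_mem_primeFactors hℓ).factorization, Finsupp.single_apply]
      rw [Finset.sum_congr rfl h2, Finset.sum_ite_eq']
      split_ifs <;> norm_num
    have h0 : (∏ ℓ ∈ W.Δ.natAbs.primeFactors, ℓ) ≠ 0 :=
      Finset.prod_ne_zero_iff.2 fun ℓ hℓ => (Nat.prime_of_mem_primeFactors hℓ).ne_zero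
    have h3 : 2 ≤ (∏ ℓ ∈ W.Δ.natAbs.primeFactors, ℓ).factorization q :=
      (hq.pow_dvd_iff_le_factorization h0).1 (by rwa [pow_two])
    omega)

theorem two_dvd_cond {W : WeierstrassCurve ℤ} (hW : GoodCurve W) : 2 ∣ cond W := by
  rw [Fermat.Agent.LT.cond, bad]
  refine Finset.dvd_prod_of_mem _ (Nat.mem_primeFactors.2 ⟨Nat.prime_two, ?_, ?_⟩)
  · have := hW.two
    omega
  · have := hW.neg
    omega

/-- **M5b, final form.** For `K = ℚ(√-N)`, `N = cond W`, there is a nontrivial cubic character `η`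
of the class group of `K` such that any residual representation (in characteristic 2) whose
Frobenius traces are given by `η` has the same trace as `E'[2]`. -/
theorem exists_eta {W : WeierstrassCurve ℤ} {r : GQ →* M2 ℤ_[2]} {s : ℕ → ℤ}
    (hW : GoodCurve W) (hE : EData W r s) (K : Type) [Field K] [NumberField K]
    (hK : Module.finrank ℚ K = 2) (hx : ∃ x : K, x ^ 2 = -((cond W : ℕ) : K))
    (F : Type) [Field F] (hF : Nat.card F = 4) :
    ∃ η : ClassGroup (𝓞 K) →* Fˣ, η ≠ 1 ∧ (∀ c, η c ^ 3 = 1) ∧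
      ∀ (k : Type) [Field k] (ι : F →+* k) (ρ : GQ →* M2 k) (S : Finset ℕ), FinLevel ρ →
        (∀ ℓ : ℕ, ℓ.Prime → ℓ ∉ S → ∀ A : ValuationSubring Qb, A.LiesOverPrime ℓ →
          ∀ φ : GQ, A.IsFrobeniusAt φ ℓ → (ρ φ).det = 1) →
        (∀ ℓ : ℕ, ℓ.Prime → ℓ ∉ S → ∀ A : ValuationSubring Qb, A.LiesOverPrime ℓ →
          ∀ φ : GQ, A.IsFrobeniusAt φ ℓ →
            (ρ φ).trace = ι (∑ P ∈ primesOver K ℓ, ((η (cls K P) : Fˣ) : F))) →
        (∀ g, (ρ g).det = 1) ∧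
          ∀ (c : ZMod 2 →+* k) (g : GQ), (ρ g).trace = c (mapMat PadicInt.toZMod r g).trace := by
  obtain ⟨w, h⟩ := exists_quadData (squarefree_cond W) (two_dvd_cond hW) hK hx
  have hrb := rbData_of_eData hW hE
  let _ : Algebra K Qb := (IsAlgClosed.lift (R := ℚ) (S := K) (M := Qb)).toRingHom.toAlgebra
  obtain ⟨η, hη1, hη3, hηk⟩ := exists_cubic_char (K := K) h hrb hF
  refine ⟨η, hη1, hη3, fun k _ ι ρ S hρ hdet htr => ?_⟩
  have h2F : (2 : F) = 0 := by
    have h1 : ((Nat.card F : ℕ) : F) = 0 := by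
      have hfin : Finite F := Nat.finite_of_card_ne_zero (by rw [hF]; norm_num)
      have := Fintype.ofFinite F
      rw [Nat.card_eq_fintype_card]
      exact Nat.cast_card_eq_zero F
    rw [hF] at h1
    have h3 : (2 : F) * 2 = 0 := by
      push_cast at h1
      linear_combination h1
    simpa using h3
  have h2 : (2 : k) = 0 := by
    have := congrArg ι h2F
    rwa [map_zero, map_ofNat] at this
  refine trace_eq_of_class_char h hrb h2 ((Units.map (ι : F →* k)).comp η) ?_ ?_ ?_ ρ hρ S hdet ?_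
  · intro h1
    apply hη1
    ext c
    have h3 := congrArg (fun u : kˣ => (u : k)) (DFunLike.congr_fun h1 c)
    exact ι.injective (by simpa using h3)
  · intro c
    rw [MonoidHom.comp_apply, ← map_pow, hη3, map_one]
  · intro ℓ hℓ A hA φ hφ hφ1
    rw [MonoidHom.comp_apply, hηk ℓ hℓ A hA φ hφ hφ1, map_one]
  · intro ℓ hℓ hℓS A hA φ hφ
    rw [htr ℓ hℓ hℓS A hA φ hφ, map_sum]
    rfl

end final

end Fermat.Agent.H82.LT
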