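/-
H19LTMatch: the Frobenius traces `resT (t ℓ)` of `TSide'` are those of `E'[2]`, from helper82's
character `η`.
-/
import Fermat.Agent.H19LTSide
import Fermat.Agent.H82LTPsi

set_option autoImplicit false
set_option linter.style.haveILetI false
set_option linter.unusedSectionVars false

noncomputable section

namespace Fermat.Agent.H19LT

open IsLocalRing Matrix CuspForm ModularFormClass
open scoped NumberField
open Fermat.Agent.H53 (GQ M2 MCont mapMat)
open Fermat.Agent.H30 (FrobData MIrr PointRep frobElt exists_pointRep)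
open Fermat.Agent.LT (TypeAt Qb TwoRing CoefRing TSide' FrobAt UnrAt FinLevel primesOver cls)

variable {O : Type} [CommRing O] [IsDomain O] [IsDiscreteValuationRing O] [CoefRing O]
  {K : Type} [Field K] [NumberField K] {η : ClassGroup (NumberField.RingOfIntegers K) →*
    (ResidueField O)ˣ} {N : ℕ} {Q : Finset ℕ} {L : ℕ} [NeZero L]

theorem resT_t (X : TSide' O K η N Q L) (ℓ : ℕ) (hℓ : ℓ.Prime) (hℓL : ¬ ℓ ∣ L) :
    letI := X.commRing
    resT X (X.t ℓ) = ∑ P ∈ primesOver K ℓ, ((η (cls K P) : (ResidueField O)ˣ) : ResidueField O) := by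
  letI := X.commRing
  show MonoidAlgebra.lift (ResidueField O) (ResidueField O) (LT.C2Q K Q) 1 (X.π (X.t ℓ)) = _
  rw [X.π_t ℓ hℓ hℓL, map_sum]
  refine Finset.sum_congr rfl fun P _ => ?_
  rw [MonoidAlgebra.lift_single, MonoidHom.one_apply, smul_eq_mul, mul_one]

/-- **Matching.** -/
theorem hmatch_of_eta (X : TSide' O K η N Q L) (hN2 : 2 ∣ N) (hL : L = N * ∏ q ∈ Q, q)
    [Algebra (ZMod 2) (ResidueField O)] {rb : GQ →* M2 (ZMod 2)}
    (hη : ∀ (k : Type) [Field k] (ι : ResidueField O →+* k) (ρ : GQ →* M2 k) (S : Finset ℕ),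
      FinLevel ρ →
        (∀ ℓ : ℕ, ℓ.Prime → ℓ ∉ S → ∀ A : ValuationSubring Qb, A.LiesOverPrime ℓ →
          ∀ φ : GQ, A.IsFrobeniusAt φ ℓ → (ρ φ).det = 1) →
        (∀ ℓ : ℕ, ℓ.Prime → ℓ ∉ S → ∀ A : ValuationSubring Qb, A.LiesOverPrime ℓ →
          ∀ φ : GQ, A.IsFrobeniusAt φ ℓ →
            (ρ φ).trace = ι (∑ P ∈ primesOver K ℓ,
              ((η (cls K P) : (ResidueField O)ˣ) : ResidueField O))) →
        (∀ g, (ρ g).det = 1) ∧
          ∀ (c : ZMod 2 →+* k) (g : GQ), (ρ g).trace = c (rb g).trace) :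
    ∀ ℓ : ℕ, ℓ.Prime → ¬ ℓ ∣ L → ∀ P : ValuationSubring Qb, P.LiesOverPrime ℓ →
      ∀ φ : GQ, P.IsFrobeniusAt φ ℓ → algebraMap (ZMod 2) (ResidueField O) (rb φ).trace =
        resT X (X.t ℓ) := by
  classical
  letI := X.commRing; letI := X.algebra; letI := X.isLocal
  haveI := X.finite; haveI := X.free; haveI := X.reduced
  haveI : CharZero O := CoefRing.char_zero
  haveI : IsAdicComplete (maximalIdeal O) O := CoefRing.complete
  haveI : Finite (ResidueField O) := Nat.finite_of_card_ne_zero (by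
    rw [CoefRing.card]; norm_num)
  have hNL : N ∣ L := hL ▸ Dvd.intro _ rfl
  have hL0 : L ≠ 0 := NeZero.ne L
  have h2L : 2 ∣ L := dvd_trans hN2 hNL
  have h2O : (2 : O) ∈ maximalIdeal O := by
    rw [CoefRing.two]; exact Ideal.mem_span_singleton_self _
  haveI : Fact (Nat.Prime 2) := ⟨Nat.prime_two⟩
  let fk : X.T →ₐ[O] ResidueField O :=
    { toRingHom := resT X, commutes' := fun a => resT_algebraMap X a }
  haveI hloc : IsLocalHom (algebraMap O X.T) :=
    isLocalHom_algebraMap_of_res residue_surjective fk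
  haveI : IsNoetherianRing X.T := IsNoetherianRing.of_finite O X.T
  have hS : ∀ q : ℕ, q.Prime → q ∣ L → q ∈ L.primeFactors := fun q hq hqL =>
    Nat.mem_primeFactors.mpr ⟨hq, hqL, hL0⟩
  -- a point
  obtain ⟨I, hI⟩ : (minimalPrimes X.T).Nonempty := by
    haveI : Nontrivial X.T := inferInstance
    obtain ⟨I, hI, -⟩ := Ideal.exists_minimalPrimes_le (bot_le : (⊥ : Ideal X.T) ≤ maximalIdeal X.T)
    exact ⟨I, hI⟩
  obtain ⟨D⟩ := exists_pointRep (p := 2) (N := L) (S := L.primeFactors) statementS30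
    (hS 2 Nat.prime_two h2L) hS O h2O (piS X L.primeFactors hS hNL) hI
  haveI := D.isLocalHom
  -- the embedding of residue fields
  let f : X.T →+* ResidueField D.B := (residue D.B).comp (D.φ : X.T →+* D.B)
  have hf : ∀ x, resT X x = 0 → f x = 0 := by
    intro x hx
    have h1 : x ∈ maximalIdeal X.T := by
      rw [← ker_resT X]; exact hx
    show residue D.B (D.φ x) = 0
    rw [residue_eq_zero_iff]
    exact map_nonunit (D.φ : X.T →+* D.B) x h1
  let e : ResidueField O →+* ResidueField D.B :=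
    (Ideal.Quotient.lift (RingHom.ker (resT X)) f (fun x hx => hf x hx)).comp
      (RingHom.quotientKerEquivOfSurjective (resT_surjective X)).symm.toRingHom
  have he : ∀ x, e (resT X x) = f x := by
    intro x
    have h1 : (RingHom.quotientKerEquivOfSurjective (resT_surjective X)).symm (resT X x) =
        Ideal.Quotient.mk _ x := by
      rw [RingEquiv.symm_apply_eq]
      rfl
    show Ideal.Quotient.lift (RingHom.ker (resT X)) f (fun x hx => hf x hx)
      ((RingHom.quotientKerEquivOfSurjective (resT_surjective X)).symm (resT X x)) = _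
    rw [h1]
    exact Ideal.Quotient.lift_mk _ _ _
  let ρ : GQ →* M2 (ResidueField D.B) := mapMat (residue D.B) D.r
  have h2k : (2 : ResidueField D.B) = 0 := by
    have h1 : e 2 = 2 := map_ofNat e 2
    rw [← h1, two_residue, map_zero]
  have hfin : FinLevel ρ := by
    obtain ⟨F, hF, h1⟩ := D.cont 1
    refine ⟨F, hF, fun g σ hσ => ?_⟩
    have h3 : ρ σ = 1 := by
      ext i j
      have h4 := h1 σ hσ i j
      rw [pow_one, ← residue_eq_zero_iff, map_sub, sub_eq_zero] at h4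
      show residue D.B (D.r σ i j) = _
      rw [h4]
      by_cases hij : i = j
      · subst hij; simp
      · simp [one_apply_ne hij]
    rw [map_mul, h3, mul_one]
  have hfr : ∀ ℓ : ℕ, (hℓ : ℓ.Prime) → (hℓS : ℓ ∉ L.primeFactors) → ∀ A : ValuationSubring Qb,
      A.LiesOverPrime ℓ → ∀ φ : GQ, A.IsFrobeniusAt φ ℓ →
      (ρ φ).trace = e (resT X (X.t ℓ)) ∧ (ρ φ).det = 1 := by
    intro ℓ hℓ hℓS A hA φ hφ
    obtain ⟨h1, h2⟩ := D.frob ℓ hℓ hℓS A hA φ hφ
    have h1' : (D.r φ).trace = D.φ (X.t ℓ) :=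
      h1.trans (congrArg D.φ (piS_T X L.primeFactors hS hNL ℓ hℓ hℓS))
    constructor
    · rw [he]
      exact (trace_mapMat (residue D.B) D.r φ).trans (by rw [h1']; rfl)
    · rw [det_mapMat (residue D.B) D.r φ, h2, map_natCast]
      obtain ⟨m, rfl⟩ : Odd ℓ := hℓ.odd_of_ne_two fun h => hℓS (h ▸ hS 2 Nat.prime_two h2L)
      push_cast
      rw [h2k]; ring
  obtain ⟨-, h5⟩ := hη (ResidueField D.B) e ρ L.primeFactors hfin
    (fun ℓ hℓ hℓS A hA φ hφ => (hfr ℓ hℓ hℓS A hA φ hφ).2)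
    (fun ℓ hℓ hℓS A hA φ hφ => by
      rw [(hfr ℓ hℓ hℓS A hA φ hφ).1, resT_t X ℓ hℓ
        (fun h => hℓS (Nat.mem_primeFactors.mpr ⟨hℓ, h, hL0⟩))])
  intro ℓ hℓ hℓL A hA φ hφ
  apply e.injective
  have hℓS : ℓ ∉ L.primeFactors := fun h => hℓL (Nat.dvd_of_mem_primeFactors h)
  rw [← (hfr ℓ hℓ hℓS A hA φ hφ).1, h5 (e.comp (algebraMap (ZMod 2) (ResidueField O))) φ]
  rfl

end Fermat.Agent.H19LT
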