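import Mathlib
import Fermat.Agent.H46LTDefsTA
import Fermat.Agent.H46LTM6Asm
import Fermat.Agent.H62Th
import Fermat.Agent.S22

/-!
# LT-MOD2: end of Theorem C (`C3-END`)

From the maps `θ : T_Q → O / 2^m` (output of Theorem C, for all levels `m`) and Step D
(`StatementM6`) to `StatementC`.
-/

set_option autoImplicit false
set_option linter.style.haveILetI false

noncomputable section

open WeierstrassCurve CuspForm ModularFormClass IsLocalRing
open scoped NumberField

namespace Fermat.Agent.LT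

open Fermat.Agent.H53 (GQ M2 mapMat MCont)

section card

open TensorProduct

theorem card_quot_two (O : Type) [CommRing O] [IsDomain O]
    [IsDiscreteValuationRing O] [CoefRing O] (T : Type) [CommRing T] [Algebra O T]
    [Module.Finite O T] [Module.Free O T] :
    Nat.card (T ⧸ Ideal.span {(2 : T)}) = 4 ^ Module.finrank O T := by
  have hfin : Finite (ResidueField O) := Nat.finite_of_card_ne_zero (by
    rw [CoefRing.card (O := O)]; norm_num)
  have hmax : (maximalIdeal O) = Ideal.span {(2 : O)} := CoefRing.two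
  have e1 : ResidueField O ⊗[O] T ≃ₗ[O] T ⧸ (maximalIdeal O • (⊤ : Submodule O T)) :=
    TensorProduct.quotTensorEquivQuotSMul T (maximalIdeal O)
  have hsub : (maximalIdeal O • (⊤ : Submodule O T)) =
      (Ideal.span {(2 : T)}).restrictScalars O := by
    rw [hmax, Submodule.ideal_span_singleton_smul]
    ext x
    constructor
    · rintro ⟨y, -, rfl⟩
      show (2 : O) • y ∈ Ideal.span {(2 : T)}
      rw [Ideal.mem_span_singleton]
      exact ⟨y, by rw [Algebra.smul_def, map_ofNat]⟩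
    · intro hx
      have hx' : x ∈ Ideal.span {(2 : T)} := hx
      rw [Ideal.mem_span_singleton] at hx'
      obtain ⟨y, rfl⟩ := hx'
      exact ⟨y, trivial, by show (2 : O) • y = 2 * y; rw [Algebra.smul_def, map_ofNat]⟩
  have e2 : Nat.card (ResidueField O ⊗[O] T) = Nat.card (T ⧸ Ideal.span {(2 : T)}) := by
    rw [Nat.card_congr e1.toEquiv]
    rw [hsub]
    rfl
  rw [← e2, Module.natCard_eq_pow_finrank (K := ResidueField O), Module.finrank_baseChange,
    CoefRing.card (O := O)]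

theorem finrank_le_of_card_quot_two {O : Type} [CommRing O] [IsDomain O]
    [IsDiscreteValuationRing O] [CoefRing O] {T : Type} [CommRing T] [Algebra O T]
    [Module.Finite O T] [Module.Free O T] {C : ℕ}
    (h : Nat.card (T ⧸ Ideal.span {(2 : T)}) ≤ 4 ^ C) : Module.finrank O T ≤ C := by
  rw [card_quot_two O T] at h
  exact (Nat.pow_le_pow_iff_right (by norm_num)).1 h

end card

section extend

/-- Extension of a ring homomorphism to an algebraically closed field along an injective integral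
homomorphism. -/
theorem exists_ringHom_extension {A B Kb : Type*} [CommRing A] [CommRing B] [Field Kb]
    [IsAlgClosed Kb] (i : A →+* B) (hi : Function.Injective i) (hint : i.IsIntegral)
    (φ : A →+* Kb) : ∃ ψ : B →+* Kb, ∀ a, ψ (i a) = φ a := by
  let _ : Algebra A B := i.toAlgebra
  have hAB : Algebra.IsIntegral A B := ⟨fun b => hint b⟩
  let P : Ideal A := RingHom.ker φ
  have hP : P.IsPrime := RingHom.ker_isPrime φ
  obtain ⟨Q, -, hQ, hQc⟩ := Ideal.exists_ideal_over_prime_of_isIntegral (S := B) P ⊥ (by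
    intro x hx
    have h1 : i x = 0 := hx
    rw [map_eq_zero_iff i hi] at h1
    rw [h1]
    exact zero_mem _)
  have hQc' : Q.comap i = P := hQc
  let j : A ⧸ P →+* B ⧸ Q := Ideal.quotientMap Q i hQc'.ge
  have hj : Function.Injective j := Ideal.quotientMap_injective' hQc'.le
  let _ : Algebra (A ⧸ P) (B ⧸ Q) := j.toAlgebra
  let φ' : A ⧸ P →+* Kb := Ideal.Quotient.lift P φ (fun a ha => ha)
  have hφ' : Function.Injective φ' := RingHom.kerLift_injective φ
  let _ : Algebra (A ⧸ P) Kb := φ'.toAlgebra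
  have hdA : IsDomain (A ⧸ P) := Ideal.Quotient.isDomain P
  have hdB : IsDomain (B ⧸ Q) := Ideal.Quotient.isDomain Q
  have hintQ : Algebra.IsIntegral (A ⧸ P) (B ⧸ Q) := ⟨fun x => by
    obtain ⟨b, rfl⟩ := Ideal.Quotient.mk_surjective x
    obtain ⟨f, hf, hf0⟩ := hint b
    refine ⟨f.map (Ideal.Quotient.mk P), hf.map _, ?_⟩
    rw [Polynomial.eval₂_map]
    have h1 : (algebraMap (A ⧸ P) (B ⧸ Q)).comp (Ideal.Quotient.mk P) =
        (Ideal.Quotient.mk Q).comp i := rfl
    rw [h1, ← Polynomial.hom_eval₂, hf0, map_zero]⟩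
  have t1 : Module.IsTorsionFree (A ⧸ P) (B ⧸ Q) := by
    rw [Module.isTorsionFree_iff_algebraMap_injective]
    exact hj
  have t2 : Module.IsTorsionFree (A ⧸ P) Kb := by
    rw [Module.isTorsionFree_iff_algebraMap_injective]
    exact hφ'
  let g : B ⧸ Q →ₐ[A ⧸ P] Kb := IsAlgClosed.lift
  refine ⟨(g : B ⧸ Q →+* Kb).comp (Ideal.Quotient.mk Q), fun a => ?_⟩
  have h1 : (g : B ⧸ Q →+* Kb).comp (Ideal.Quotient.mk Q) (i a) =
    g (algebraMap (A ⧸ P) (B ⧸ Q) (Ideal.Quotient.mk P a)) := rfl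
  rw [h1, g.commutes]
  rfl

/-- Extension of a point with values in a complete discrete valuation ring along an injective
homomorphism `A → B` with `B` finite over `ℤ`. -/
theorem exists_point_extension {O' : Type} [CommRing O'] [IsDomain O']
    [IsDiscreteValuationRing O'] [IsAdicComplete (maximalIdeal O') O'] [Finite (ResidueField O')]
    [CharZero O'] {A B : Type*} [CommRing A] [CommRing B] [Module.Finite ℤ B] (i : A →+* B)
    (hi : Function.Injective i) (φ : A →+* O') :
    ∃ (O'' : Type) (_ : CommRing O'') (_ : IsDomain O'') (_ : IsDiscreteValuationRing O'')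
      (_ : IsAdicComplete (maximalIdeal O'') O'') (_ : Finite (ResidueField O''))
      (_ : CharZero O'') (_ : Algebra O' O'') (_ : IsLocalHom (algebraMap O' O'')),
      ∃ ψ : B →+* O'', ∀ a, ψ (i a) = algebraMap O' O'' (φ a) := by
  classical
  let Kb := AlgebraicClosure (FractionRing O')
  have : FaithfulSMul O' Kb := by
    rw [faithfulSMul_iff_algebraMap_injective, IsScalarTower.algebraMap_eq O' (FractionRing O') Kb]
    exact (algebraMap (FractionRing O') Kb).injective.comp (IsFractionRing.injective O' _)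
  have : Algebra.IsAlgebraic O' Kb :=
    (IsFractionRing.comap_isAlgebraic_iff (A := O') (K := FractionRing O') (C := Kb)).mpr
      inferInstance
  have hint : i.IsIntegral := by
    intro b
    obtain ⟨f, hf, hf0⟩ := Algebra.IsIntegral.isIntegral (R := ℤ) b
    refine ⟨f.map (Int.castRingHom A), hf.map _, ?_⟩
    rw [Polynomial.eval₂_map]
    have h1 : i.comp (Int.castRingHom A) = algebraMap ℤ B := RingHom.ext_int _ _
    rw [h1, hf0]
  obtain ⟨ψ₀, hψ₀⟩ := exists_ringHom_extension i hi hint ((algebraMap O' Kb).comp φ)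
  obtain ⟨G, hG⟩ := (inferInstance : Module.Finite ℤ B).fg_top
  obtain ⟨O'', i1, i2, i3, i4, i5, i6, i7, i8, i9, hinj, ι, L, hι, hιO, hyL, -, hintL, -⟩ :=
    Fermat.Agent.H62.exists_dvr_of_finite O' Kb (fun x : G => ψ₀ x.1)
  refine ⟨O'', i1, i2, i3, i4, i5, i6, i7, i9, ?_⟩
  have hG' : ∀ x ∈ G, ∃ w, ι w = ψ₀ x := by
    intro x hx
    refine hintL _ (hyL ⟨x, hx⟩) ?_
    obtain ⟨f, hf, hf0⟩ := Algebra.IsIntegral.isIntegral (R := ℤ) x
    refine ⟨f.map (Int.castRingHom O'), hf.map _, ?_⟩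
    rw [Polynomial.eval₂_map]
    have h1 : (algebraMap O' Kb).comp (Int.castRingHom O') = ψ₀.comp (algebraMap ℤ B) :=
      RingHom.ext_int _ _
    rw [h1, ← Polynomial.hom_eval₂, hf0, map_zero]
  have hall : ∀ x : B, ∃ w, ι w = ψ₀ x := by
    intro x
    have hx : x ∈ Submodule.span ℤ (G : Set B) := by
      rw [hG]; exact Submodule.mem_top
    induction hx using Submodule.span_induction with
    | mem x hx => exact hG' x hx
    | zero => exact ⟨0, by rw [map_zero, map_zero]⟩
    | add x y _ _ hx hy =>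
      obtain ⟨a, ha⟩ := hx
      obtain ⟨b, hb⟩ := hy
      exact ⟨a + b, by rw [map_add, map_add, ha, hb]⟩
    | smul a x _ hx =>
      obtain ⟨b, hb⟩ := hx
      exact ⟨a • b, by rw [map_zsmul, map_zsmul, hb]⟩
  obtain ⟨ψ, hψ⟩ := Fermat.Agent.H62.exists_ringHom_lift ψ₀ ι hι hall
  refine ⟨ψ, fun a => hι ?_⟩
  rw [hψ, hιO, hψ₀]
  rfl

end extend

/-- **Output of Theorem C for one set `Q`**: a map `θ : T_Q → O / 2^m`, and the bound for the rank
of `T_Q`. -/
def ThetaOut (W : WeierstrassCurve ℤ) (O : Type) [CommRing O] [IsDomain O]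
    [IsDiscreteValuationRing O] (K : Type) [Field K] [NumberField K]
    (η : ClassGroup (𝓞 K) →* (ResidueField O)ˣ) (C m : ℕ) (Q : Finset ℕ) : Prop :=
  ∀ (L : ℕ) [NeZero L], L = cond W * ∏ q ∈ Q, q →
    ∃ X : TSide' O K η (cond W) Q L,
      letI := X.commRing
      letI := X.algebra
      Module.finrank O X.T ≤ C ∧ ∃ θ : X.T →ₐ[O] O ⧸ Ideal.span {(2 : O) ^ m},
        (∀ ℓ : ℕ, ℓ.Prime → ¬ ℓ ∣ L →
          θ (X.t ℓ) = ((W.apOfModel ℓ : ℤ) : O ⧸ Ideal.span {(2 : O) ^ m})) ∧
        ∀ q ∈ Q, θ (X.u q) = 1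

/-- **End of Theorem C.** -/
theorem statementC_of {W : WeierstrassCurve ℤ} {r : GQ →* M2 ℤ_[2]} (hW : cond W ≠ 0)
    (h6 : StatementM6 W r) (O : Type) [CommRing O] [IsDomain O] [IsDiscreteValuationRing O]
    [CoefRing O] (K : Type) [Field K] [NumberField K]
    (η : ClassGroup (𝓞 K) →* (ResidueField O)ˣ) (h : ℕ)
    (hθ : ∀ (m : ℕ) (Q : Finset ℕ), 3 ≤ m → (∀ q ∈ Q, AuxPrime r (cond W) m q) →
      SelZero (mapMat PadicInt.toZMod r) (↑(bad W) ∪ ↑Q) →
      ThetaOut W O K η (h * 2 ^ Q.card) m Q) : StatementC W r := by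
  obtain ⟨d, hd⟩ := h6
  refine ⟨d, fun n => ?_⟩
  set C : ℕ := h * 2 ^ d + 1 with hC
  have hCpos : 1 ≤ C := by omega
  have hm : n + 3 ≤ (n + 3) * C := Nat.le_mul_of_pos_right _ hCpos
  obtain ⟨Q, hQd, hQ, hSel⟩ := hd ((n + 3) * C)
  refine ⟨Q, hQd, fun q hq => (hQ q hq).mono (by omega), ?_⟩
  have hprod : (∏ q ∈ Q, q) ≠ 0 := Finset.prod_ne_zero_iff.2 fun q hq => (hQ q hq).prime.ne_zero
  haveI : NeZero (cond W * ∏ q ∈ Q, q) := ⟨mul_ne_zero hW hprod⟩
  obtain ⟨X, hrank, θ, hθt, hθu⟩ := hθ ((n + 3) * C) Q (by omega) hQ hSel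
    (cond W * ∏ q ∈ Q, q) rfl
  letI := X.commRing
  letI := X.algebra
  haveI := X.finite
  haveI := X.free
  haveI := X.isLocal
  haveI : CharZero O := CoefRing.char_zero
  haveI : IsAdicComplete (maximalIdeal O) O := CoefRing.complete
  haveI : Finite (ResidueField O) := Nat.finite_of_card_ne_zero (by
    rw [CoefRing.card (O := O)]; norm_num)
  have hrank' : Module.finrank O X.T ≤ C := by
    refine hrank.trans ?_
    have : h * 2 ^ Q.card ≤ h * 2 ^ d := Nat.mul_le_mul_left _ (Nat.pow_le_pow_right (by norm_num) hQd)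
    omega
  have h20 : (2 : O) ≠ 0 := by norm_num
  obtain ⟨O', i1, i2, i3, i4, i5, i6, i7, i8, i9, hinj, f, hf⟩ :=
    Fermat.Agent.H62.exists_point (T := X.T) h20 (n + 3) C hrank' θ
  -- extension to the full Hecke algebra
  let S : Set ℕ := {v : ℕ | v ∣ cond W}
  let incl : heckeAlgebra (cond W * ∏ q ∈ Q, q) 2 S →+*
      heckeAlgebra (cond W * ∏ q ∈ Q, q) 2 (∅ : Set ℕ) :=
    (Subalgebra.inclusion (heckeAlgebra_mono (Set.empty_subset S))).toRingHom
  have hincl : Function.Injective incl := Subalgebra.inclusion_injective _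
  haveI : Module.Finite ℤ (heckeAlgebra (cond W * ∏ q ∈ Q, q) 2 (∅ : Set ℕ)) :=
    Fermat.Agent.S22.result _ 2 _
  obtain ⟨O'', j1, j2, j3, j4, j5, j6, j7, j8, ψ, hψ⟩ := exists_point_extension incl hincl
    ((f : X.T →+* O').comp X.pi)
  have h2O : (2 : O) ∈ maximalIdeal O := by
    rw [CoefRing.two (O := O)]
    exact Ideal.mem_span_singleton_self _
  have h2O'' : (2 : O'') ∈ maximalIdeal O'' := by
    rw [mem_maximalIdeal, mem_nonunits_iff] at h2O ⊢
    intro hu
    have e1 : algebraMap O' O'' (2 : O') = 2 := map_ofNat _ 2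
    have e2 : algebraMap O O' (2 : O) = 2 := map_ofNat _ 2
    rw [← e1] at hu
    have h1 : IsUnit (2 : O') := isUnit_of_map_unit _ _ hu
    rw [← e2] at h1
    exact h2O (isUnit_of_map_unit _ _ h1)
  refine ⟨cond W * ∏ q ∈ Q, q, inferInstance, O'', j1, j2, j3, ⟨j6, j4, h2O'', j5⟩, ψ, rfl, ?_⟩
  constructor
  · intro ℓ hℓ hℓL
    have hℓS : ℓ ∉ S := fun h => hℓL (Dvd.dvd.mul_right h _)
    have e1 : heckeAlgebra.T hℓ hℓL (Set.notMem_empty ℓ) =
        incl (heckeAlgebra.T hℓ hℓL hℓS) := rfl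
    have e2 : (((f : X.T →+* O').comp X.pi) (heckeAlgebra.T hℓ hℓL hℓS)) = f (X.t ℓ) :=
      congrArg f (X.pi_T ℓ hℓ hℓL hℓS)
    rw [e1, hψ, e2]
    have h3 := hf (X.t ℓ) ((W.apOfModel ℓ : ℤ) : O) (by
      rw [hθt ℓ hℓ hℓL, map_intCast])
    rw [map_intCast, map_ofNat] at h3
    obtain ⟨c, hc⟩ := h3
    rw [Ideal.mem_span_singleton]
    refine ⟨2 ^ 3 * algebraMap O' O'' c, ?_⟩
    have h4 := congrArg (algebraMap O' O'') hc
    rw [map_sub, map_intCast, map_mul, map_pow, map_ofNat] at h4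
    rw [h4, pow_add]
    push_cast
    ring
  · intro q hqQ hq hqL
    have hqS : q ∉ S := (hQ q hqQ).notdvd
    have e1 : heckeAlgebra.U hq hqL (Set.notMem_empty q) =
        incl (heckeAlgebra.U hq hqL hqS) := rfl
    have e2 : (((f : X.T →+* O').comp X.pi) (heckeAlgebra.U hq hqL hqS)) = f (X.u q) :=
      congrArg f (X.pi_U q hqQ hq hqL hqS)
    rw [e1, hψ, e2]
    have h3 : (algebraMap O' O'' (f (X.u q))) ^ 2 = 1 := by
      rw [← map_pow, ← map_pow, X.u_sq q hqQ, map_one, map_one]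
    exact sq_eq_one_iff.1 h3

end Fermat.Agent.LT
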