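import Mathlib
import Fermat.Agent.H46LTDefsTA

/-!
# LT-MOD2: the lower bound for `T / 2` from the theta eigenform modulo 2
-/

set_option autoImplicit false

open IsLocalRing Module

namespace Fermat.Agent.H55.LT

open Fermat.Agent.LT

/-- `MonoidAlgebra k G` has `|k|^|G|` elements -/
theorem natCard_monoidAlgebra (k G : Type) [Semiring k] [Finite k] [Finite G] :
    Nat.card (MonoidAlgebra k G) = Nat.card k ^ Nat.card G := by
  have e : MonoidAlgebra k G ≃ (G → k) :=
    (MonoidAlgebra.coeffEquiv).trans Finsupp.equivFunOnFinite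
  rw [Nat.card_congr e, Nat.card_fun]

theorem natCard_C2Q (K : Type) [Field K] [NumberField K] (Q : Finset ℕ) :
    Nat.card (C2Q K Q) = Nat.card (C2' K) * 2 ^ Q.card := by
  rw [Nat.card_prod, Nat.card_fun]
  congr 2
  · rw [Nat.card_eq_fintype_card, Fintype.card_multiplicative, ZMod.card]
  · rw [Nat.card_eq_fintype_card, Fintype.card_coe]

variable {O : Type} [CommRing O] [IsDomain O] [IsDiscreteValuationRing O] [hO : CoefRing O]
  {K : Type} [Field K] [NumberField K] {η : ClassGroup (NumberField.RingOfIntegers K) →* (ResidueField O)ˣ}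
  {N : ℕ} {Q : Finset ℕ} {L : ℕ} [NeZero L]

include hO in
theorem finite_residueField : Finite (ResidueField O) :=
  Nat.finite_of_card_ne_zero (by rw [hO.card]; norm_num)

include hO in
theorem two_residueField : (2 : ResidueField O) = 0 := by
  have h : residue O (2 : O) = 0 := by
    rw [residue_eq_zero_iff, hO.two]
    exact Ideal.mem_span_singleton_self _
  rwa [map_ofNat] at h

include hO in
/-- **the lower bound** -/
theorem card_le_of_surjective (X : TSide' O K η N Q L)
    (hsurj : letI := X.commRing; Function.Surjective X.π) :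
    letI := X.commRing
    Finite (X.T ⧸ Ideal.span {(2 : X.T)}) ∧
    Nat.card (ResidueField O) ^ (Nat.card (C2' K) * 2 ^ Q.card) ≤
      Nat.card (X.T ⧸ Ideal.span {(2 : X.T)}) := by
  letI := X.commRing
  letI := X.algebra
  haveI := X.finite
  haveI := finite_residueField (O := O)
  let k := ResidueField O
  let I : Ideal X.T := Ideal.span {(2 : X.T)}
  -- finiteness
  have hfin : Finite (X.T ⧸ I) := by
    haveI : Module.Finite O (X.T ⧸ I) := Module.Finite.of_surjective
      (Ideal.Quotient.mkₐ O I).toLinearMap Ideal.Quotient.mk_surjective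
    have hann : ∀ c ∈ maximalIdeal O, ∀ x : X.T ⧸ I, c • x = 0 := by
      intro c hc x
      obtain ⟨x, rfl⟩ := Ideal.Quotient.mk_surjective x
      rw [hO.two] at hc
      obtain ⟨d, rfl⟩ := Ideal.mem_span_singleton.1 hc
      have h1 : (2 * d) • (Ideal.Quotient.mk I x) = Ideal.Quotient.mk I ((2 * d) • x) := rfl
      rw [h1, Ideal.Quotient.eq_zero_iff_mem, Algebra.smul_def, map_mul, map_ofNat, mul_assoc]
      exact I.mul_mem_right _ (Ideal.mem_span_singleton_self _)
    let j : O ⧸ maximalIdeal O →+* X.T ⧸ I := Ideal.Quotient.lift _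
      ((Ideal.Quotient.mk I).comp (algebraMap O X.T)) (fun c hc => by
        have h1 := hann c hc 1
        rw [Algebra.smul_def, mul_one] at h1
        exact h1)
    letI : Algebra (O ⧸ maximalIdeal O) (X.T ⧸ I) := j.toAlgebra
    haveI : IsScalarTower O (O ⧸ maximalIdeal O) (X.T ⧸ I) :=
      IsScalarTower.of_algebraMap_eq fun x => rfl
    haveI : Module.Finite (O ⧸ maximalIdeal O) (X.T ⧸ I) :=
      Module.Finite.of_restrictScalars_finite O _ _
    haveI : Finite (O ⧸ maximalIdeal O) := finite_residueField (O := O)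
    exact Module.finite_of_finite (O ⧸ maximalIdeal O)
  refine ⟨hfin, ?_⟩
  -- the induced map
  have h2 : X.π (2 : X.T) = 0 := by
    have h3 := X.π_alg 2
    rw [map_ofNat] at h3
    rw [h3, show residue O (2 : O) = 0 by rw [map_ofNat]; exact two_residueField, map_zero]
  let f : X.T ⧸ I →+* MonoidAlgebra k (C2Q K Q) := Ideal.Quotient.lift I X.π (by
    intro x hx
    obtain ⟨y, rfl⟩ := Ideal.mem_span_singleton.1 hx
    rw [map_mul, h2, zero_mul])
  have hf : Function.Surjective f := by
    intro y
    obtain ⟨x, rfl⟩ := hsurj y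
    exact ⟨Ideal.Quotient.mk I x, rfl⟩
  have h4 := Nat.card_le_card_of_surjective f hf
  haveI : Finite (C2Q K Q) := inferInstance
  rwa [natCard_monoidAlgebra, natCard_C2Q] at h4

end Fermat.Agent.H55.LT
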