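import Mathlib
import Fermat.Agent.H46LTDefs
import Fermat.Agent.H61GenFrob
import Fermat.Agent.H54Frobenius
import Fermat.Agent.H6MDBlock

/-!
# LT-MOD2: local behaviour of the curve side at auxiliary primes and at bad primes (helper73)

`typeAt_aux`: at an auxiliary prime `q` of level `n` the representation of `W` modulo `2ⁿ` is of
Steinberg type with ANY sign `e`, `e² = 1`.
-/

set_option autoImplicit false

noncomputable section

open Matrix

namespace Fermat.Agent.H73LT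

open Fermat.Agent.H53 (GQ M2 mapMat MCont)
open Fermat.Agent.LT (GoodCurve EData AuxPrime TypeAt UnrAt FrobAt DetCyc bad GK)

local notation "cond" => Fermat.Agent.LT.cond

theorem prime_dvd_cond_iff {W : WeierstrassCurve ℤ} (hΔ : W.Δ ≠ 0) {ℓ : ℕ} (hℓ : ℓ.Prime) :
    ℓ ∣ cond W ↔ (ℓ : ℤ) ∣ W.Δ := by
  have hmem : ∀ v : ℕ, v ∈ bad W ↔ v.Prime ∧ (v : ℤ) ∣ W.Δ := by
    intro v
    rw [bad, Nat.mem_primeFactors, ← Int.natCast_dvd]
    constructor
    · rintro ⟨h1, h2, -⟩; exact ⟨h1, h2⟩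
    · rintro ⟨h1, h2⟩; exact ⟨h1, h2, Int.natAbs_ne_zero.mpr hΔ⟩
  rw [Fermat.Agent.LT.cond, Prime.dvd_finsetProd_iff hℓ.prime]
  constructor
  · rintro ⟨v, hv, hd⟩
    rw [Nat.prime_dvd_prime_iff_eq hℓ ((hmem v).mp hv).1] at hd
    subst hd
    exact ((hmem ℓ).mp hv).2
  · intro h
    exact ⟨ℓ, (hmem ℓ).mpr ⟨hℓ, h⟩, dvd_rfl⟩

section

variable {W : WeierstrassCurve ℤ} {r : GQ →* M2 ℤ_[2]} {s : ℕ → ℤ}

theorem not_dvd_disc_of_not_dvd_cond (hΔ : W.Δ ≠ 0) {q : ℕ} (hq : q.Prime) (h : ¬ q ∣ cond W) :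
    ¬ (q : ℤ) ∣ W.Δ := fun h' => h ((prime_dvd_cond_iff hΔ hq).mpr h')

theorem ne_two_of_not_dvd_cond (hW : GoodCurve W) {q : ℕ} (h : ¬ q ∣ cond W) : q ≠ 2 := by
  rintro rfl
  exact h ((prime_dvd_cond_iff hW.neg.ne Nat.prime_two).mpr hW.two)

/-- `W` is unramified outside the conductor. -/
theorem unrAt_of_not_dvd (hW : GoodCurve W) (hE : EData W r s) {q : ℕ} (hq : q.Prime)
    (h : ¬ q ∣ cond W) : UnrAt q r :=
  hE.unr q hq (not_dvd_disc_of_not_dvd_cond hW.neg.ne hq h) (ne_two_of_not_dvd_cond hW h)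

theorem frobAt_of_not_dvd (hW : GoodCurve W) (hE : EData W r s) {q : ℕ} (hq : q.Prime)
    (h : ¬ q ∣ cond W) : FrobAt q ((W.apOfModel q : ℤ) : ℤ_[2]) r :=
  hE.frob q hq (not_dvd_disc_of_not_dvd_cond hW.neg.ne hq h) (ne_two_of_not_dvd_cond hW h)

/-- the image of the decomposition group at an unramified prime, at finite level. -/
theorem exists_pow_frob {A : Type} [CommRing A] {ρ : GQ →* M2 A}
    (hlev : ∃ L : IntermediateField ℚ (AlgebraicClosure ℚ), FiniteDimensional ℚ L ∧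
      ∀ τ : GQ, (∀ x ∈ L, τ x = x) → ρ τ = 1)
    {q : ℕ} (hq : q.Prime) {P : ValuationSubring (AlgebraicClosure ℚ)} (hP : P.LiesOverPrime q)
    (hI : ∀ τ ∈ P.inertiaSubgroupIn ℚ, ρ τ = 1) {φ : GQ} (hφ : P.IsFrobeniusAt φ q) {g : GQ}
    (hg : g ∈ P.decompositionSubgroup ℚ) : ∃ k : ℕ, ρ g = ρ φ ^ k := by
  obtain ⟨F, hF, h⟩ := hlev
  have : Fact q.Prime := ⟨hq⟩
  obtain ⟨k, i, hi, u, hu, rfl⟩ := H61.GenFrob.exists_eq_pow_mul hq hP hφ
    (U := F.fixingSubgroup) ((H55.krullLevels_op_iff _).mpr ⟨F, hF, le_rfl⟩) hg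
  refine ⟨k, ?_⟩
  rw [IntermediateField.mem_fixingSubgroup_iff] at hu
  rw [map_mul, h u hu, map_mul, map_pow, hI i hi, mul_one, mul_one]

/-- `r` modulo `2ⁿ` is of finite level. -/
theorem exists_level (hr : MCont ℤ_[2] r) (n : ℕ) :
    ∃ L : IntermediateField ℚ (AlgebraicClosure ℚ), FiniteDimensional ℚ L ∧
      ∀ τ : GQ, (∀ x ∈ L, τ x = x) → mapMat (PadicInt.toZModPow n) r τ = 1 := by
  obtain ⟨L, hL, h⟩ := hr n
  refine ⟨L, hL, fun τ hτ => ?_⟩
  ext i j
  rw [Fermat.Agent.H53.mapMat_apply]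
  have h2 := h τ hτ i j
  have h3 : PadicInt.toZModPow n (r τ i j - (1 : M2 ℤ_[2]) i j) = 0 := by
    rw [← RingHom.mem_ker, PadicInt.ker_toZModPow]
    rwa [PadicInt.maximalIdeal_eq_span_p, Ideal.span_singleton_pow] at h2
  rw [map_sub, sub_eq_zero] at h3
  rw [h3, Matrix.one_apply, Matrix.one_apply]
  split_ifs <;> simp

theorem det_eq_neg_one {R : Type*} [CommRing R] {M : Matrix (Fin 2) (Fin 2) R}
    (h1 : M * M = 1) (h2 : M.trace = 0) : M.det = -1 := by
  have e : M * M = M.trace • M - M.det • (1 : Matrix (Fin 2) (Fin 2) R) := by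
    ext i j
    rw [Matrix.det_fin_two, Matrix.trace_fin_two]
    fin_cases i <;> fin_cases j <;>
      simp [Matrix.mul_apply, Fin.sum_univ_two] <;> ring
  rw [h1, h2, zero_smul, zero_sub] at e
  have e3 := congrFun (congrFun e 0) 0
  simp only [Matrix.one_apply_eq, Matrix.neg_apply, Matrix.smul_apply, smul_eq_mul, mul_one] at e3
  rw [e3, neg_neg]

theorem mapMat_eq_mapMatrix {A B : Type} [CommRing A] [CommRing B] (f : A →+* B) (ρ : GQ →* M2 A)
    (g : GQ) : mapMat f ρ g = f.mapMatrix (ρ g) := by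
  ext i j
  rw [Fermat.Agent.H53.mapMat_apply]
  rfl

theorem toZMod_eq_of_toZModPow_eq_one {n : ℕ} (hn : n ≠ 0) {g : GQ}
    (h : mapMat (PadicInt.toZModPow n) r g = 1) : mapMat PadicInt.toZMod r g = 1 := by
  have h1 := H6.MD.rbar_red r n hn g
  ext i j
  have h2 : mapMat PadicInt.toZMod r g i j = H6.MD.red2 hn (mapMat (PadicInt.toZModPow n) r g i j) :=
    h1 i j
  rw [h2, h, Matrix.one_apply, Matrix.one_apply]
  split_ifs <;> simp

variable {n q : ℕ}

/-- **Local structure at an auxiliary prime**: on `D_P` the representation mod `2ⁿ` takes the values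
`1` and `M` with `M² = 1`, `tr M = 0`, `det M = -1`. -/
theorem aux_cases (hW : GoodCurve W) (hE : EData W r s) (hq : AuxPrime r (cond W) n q)
    {P : ValuationSubring (AlgebraicClosure ℚ)} (hP : P.LiesOverPrime q) {φ : GQ}
    (hφ : P.IsFrobeniusAt φ q) {g : GQ} (hg : g ∈ P.decompositionSubgroup ℚ) :
    mapMat (PadicInt.toZModPow n) r g = 1 ∨
      mapMat (PadicInt.toZModPow n) r g = mapMat (PadicInt.toZModPow n) r φ := by
  have hI : ∀ τ ∈ P.inertiaSubgroupIn ℚ, mapMat (PadicInt.toZModPow n) r τ = 1 := by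
    intro τ hτ
    rw [mapMat_eq_mapMatrix, unrAt_of_not_dvd hW hE hq.prime hq.notdvd P hP τ hτ, map_one]
  obtain ⟨k, hk⟩ := exists_pow_frob (exists_level hE.cont n) hq.prime hP hI hφ hg
  have h2 : mapMat (PadicInt.toZModPow n) r φ * mapMat (PadicInt.toZModPow n) r φ = 1 := by
    rw [← map_mul]; exact (hq.sq P hP φ hφ).1
  rcases Nat.even_or_odd' k with ⟨m, rfl | rfl⟩
  · left; rw [hk, pow_mul, pow_two, h2, one_pow]
  · right; rw [hk, pow_succ, pow_mul, pow_two, h2, one_pow, one_mul]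

/-- **At an auxiliary prime of level `n` the representation modulo `2ⁿ` has Steinberg type with
any sign** (general coefficients). -/
theorem typeAt_aux' (hW : GoodCurve W) (hE : EData W r s) (hq : AuxPrime r (cond W) n q)
    {A : Type} [CommRing A] (f : ZMod (2 ^ n) →+* A) (e : A) (he : e ^ 2 = 1) :
    TypeAt q e (mapMat f (mapMat (PadicInt.toZModPow n) r)) := by
  classical
  rcases eq_or_ne n 0 with hn | hn
  · subst hn
    have h1 : (1 : A) = 0 := by
      have h2 : (1 : ZMod (2 ^ 0)) = 0 := by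
        rw [pow_zero]; exact Subsingleton.elim _ _
      rw [← map_one f, h2, map_zero]
    have : Subsingleton A := subsingleton_of_zero_eq_one h1.symm
    intro P hP
    exact ⟨fun _ => 1, fun _ _ => Subsingleton.elim _ _, fun _ _ _ _ => Subsingleton.elim _ _,
      fun _ _ => Subsingleton.elim _ _, fun _ _ => Subsingleton.elim _ _,
      fun _ _ _ _ => Subsingleton.elim _ _⟩
  intro P hP
  obtain ⟨φ, hφ⟩ := H54.exists_isFrobeniusAt hq.prime hP
  set ρ := mapMat (PadicInt.toZModPow n) r with hρ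
  have hcase : ∀ g ∈ P.decompositionSubgroup ℚ, ρ g = 1 ∨ ρ g = ρ φ := fun g hg =>
    aux_cases hW hE hq hP hφ hg
  have hne : ∀ ψ : GQ, P.IsFrobeniusAt ψ q → ρ ψ ≠ 1 := fun ψ hψ h =>
    (hq.sq P hP ψ hψ).2.2 (toZMod_eq_of_toZModPow_eq_one hn h)
  have h2 : ρ φ * ρ φ = 1 := by
    rw [← map_mul]; exact (hq.sq P hP φ hφ).1
  have hdet : (ρ φ).det = -1 := det_eq_neg_one h2 (hq.sq P hP φ hφ).2.1
  refine ⟨fun g => if ρ g = 1 then 1 else e, ?_, ?_, ?_, ?_, ?_⟩
  · intro g _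
    dsimp only
    split_ifs
    · exact one_pow 2
    · exact he
  · intro g hg h hh
    dsimp only
    rcases hcase g hg with h1 | h1 <;> rcases hcase h hh with h3 | h3
    · rw [map_mul, h1, h3]; simp
    · rw [map_mul, h1, h3, one_mul]; simp
    · rw [map_mul, h1, h3, mul_one]; simp
    · rw [map_mul, h1, h3, h2, if_pos rfl, if_neg (hne φ hφ), ← pow_two, he]
  · intro g hg
    dsimp only
    rw [if_pos]
    rw [hρ, mapMat_eq_mapMatrix, unrAt_of_not_dvd hW hE hq.prime hq.notdvd P hP g hg, map_one]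
  · intro ψ hψ
    dsimp only
    rw [if_neg (hne ψ hψ)]
  · intro g hg g' hg'
    dsimp only
    rw [mapMat_eq_mapMatrix f ρ g, mapMat_eq_mapMatrix f ρ g']
    rcases hcase g' hg' with h3 | h3
    · rw [h3, if_pos rfl, map_one, one_smul, sub_self, mul_zero]
    · rcases hcase g hg with h1 | h1
      · rw [h1, if_pos rfl, map_one, Matrix.det_one, one_mul, one_smul, sub_self, zero_mul]
      · rw [h1, h3, if_neg (hne φ hφ)]
        have hd : (f.mapMatrix (ρ φ)).det = -1 := by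
          rw [← RingHom.map_det, hdet, map_neg, map_one]
        have hs : f.mapMatrix (ρ φ) * f.mapMatrix (ρ φ) = 1 := by
          rw [← map_mul, h2, map_one]
        rw [hd, neg_one_mul, neg_smul, sub_neg_eq_add, add_mul, mul_sub, mul_sub, hs,
          Matrix.smul_mul, one_mul, Matrix.smul_mul, one_mul, Matrix.mul_smul, mul_one, smul_smul,
          ← pow_two, he, one_smul]
        abel

/-- **At an auxiliary prime of level `n` the representation modulo `2ⁿ` has Steinberg type with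
any sign.** -/
theorem typeAt_aux (hW : GoodCurve W) (hE : EData W r s) (hq : AuxPrime r (cond W) n q)
    (e : ZMod (2 ^ n)) (he : e ^ 2 = 1) : TypeAt q e (mapMat (PadicInt.toZModPow n) r) := by
  have h := typeAt_aux' hW hE hq (RingHom.id (ZMod (2 ^ n))) e he
  have h1 : mapMat (RingHom.id (ZMod (2 ^ n))) (mapMat (PadicInt.toZModPow n) r) =
      mapMat (PadicInt.toZModPow n) r := by
    ext g i j
    rw [Fermat.Agent.H53.mapMat_apply]
    rfl
  rwa [h1] at h

/-- version with coefficients in a ring `A` receiving `ℤ₂` in which `2ⁿ = 0`. -/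
theorem typeAt_aux_of_map (hW : GoodCurve W) (hE : EData W r s) (hq : AuxPrime r (cond W) n q)
    {A : Type} [CommRing A] (f : ℤ_[2] →+* A) (hf : (2 : A) ^ n = 0) (e : A) (he : e ^ 2 = 1) :
    TypeAt q e (mapMat f r) := by
  have hker : RingHom.ker (PadicInt.toZModPow n : ℤ_[2] →+* ZMod (2 ^ n)) ≤ RingHom.ker f := by
    rw [PadicInt.ker_toZModPow, Ideal.span_singleton_le_iff_mem, RingHom.mem_ker, map_pow]
    have : f ((2 : ℕ) : ℤ_[2]) = 2 := by rw [map_natCast]; norm_num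
    rw [this, hf]
  have hsurj : Function.Surjective (PadicInt.toZModPow n : ℤ_[2] →+* ZMod (2 ^ n)) :=
    ZMod.ringHom_surjective _
  let f' : ZMod (2 ^ n) →+* A := RingHom.liftOfSurjective _ hsurj ⟨f, hker⟩
  have hf' : f'.comp (PadicInt.toZModPow n) = f :=
    RingHom.liftOfRightInverse_comp _ _ _ ⟨f, hker⟩
  have h := typeAt_aux' hW hE hq f' e he
  have h1 : mapMat f' (mapMat (PadicInt.toZModPow n) r) = mapMat f r := by
    ext g i j
    rw [Fermat.Agent.H53.mapMat_apply, Fermat.Agent.H53.mapMat_apply,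
      Fermat.Agent.H53.mapMat_apply, ← hf']
    rfl
  rwa [h1] at h

/-- the decomposition group at an auxiliary prime is not contained in `G_K`. -/
theorem exists_not_mem_GK_aux (hE : EData W r s) (hn : n ≠ 0) (hq : AuxPrime r (cond W) n q)
    {P : ValuationSubring (AlgebraicClosure ℚ)} (hP : P.LiesOverPrime q) {φ : GQ}
    (hφ : P.IsFrobeniusAt φ q) : φ ∉ GK (cond W) := by
  rw [hE.mem_GK]
  obtain ⟨-, h2, h3⟩ := hq.sq P hP φ hφ
  rintro (h | h)
  · exact h3 h
  · have h4 : (mapMat PadicInt.toZMod r φ).trace =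
        H6.MD.red2 hn (mapMat (PadicInt.toZModPow n) r φ).trace := by
      rw [Matrix.trace_fin_two, Matrix.trace_fin_two, map_add]
      exact congrArg₂ (· + ·) (H6.MD.rbar_red r n hn φ 0 0) (H6.MD.rbar_red r n hn φ 1 1)
    rw [h4, h2, map_zero] at h
    exact zero_ne_one h

/-- `r̄` is unipotent on decomposition groups at bad primes. -/
theorem unipotent_of_bad (hE : EData W r s) {v : ℕ} (hv : v.Prime) (hvΔ : (v : ℤ) ∣ W.Δ)
    {P : ValuationSubring (AlgebraicClosure ℚ)} (hP : P.LiesOverPrime v) {g g' : GQ}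
    (hg : g ∈ P.decompositionSubgroup ℚ) (hg' : g' ∈ P.decompositionSubgroup ℚ) :
    (mapMat PadicInt.toZMod r g - 1) * (mapMat PadicInt.toZMod r g' - 1) = 0 := by
  obtain ⟨χ, h1, -, -, -, h5⟩ := hE.type v hv hvΔ P hP
  have h6 := h5 g hg g' hg'
  have hone : ∀ x ∈ P.decompositionSubgroup ℚ, PadicInt.toZMod (χ x) = 1 := by
    intro x hx
    have h7 := congrArg PadicInt.toZMod (h1 x hx)
    rw [map_pow, map_one] at h7
    have h8 : ∀ y : ZMod 2, y ^ 2 = 1 → y = 1 := by decide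
    exact h8 _ h7
  have hdet : PadicInt.toZMod (r g).det = 1 := by
    have h7 : PadicInt.toZMod (r g).det = (mapMat PadicInt.toZMod r g).det := by
      rw [mapMat_eq_mapMatrix]
      exact (PadicInt.toZMod : ℤ_[2] →+* ZMod 2).map_det (r g)
    have h8 : IsUnit (mapMat PadicInt.toZMod r g).det := by
      have h9 : mapMat PadicInt.toZMod r g * mapMat PadicInt.toZMod r g⁻¹ = 1 := by
        rw [← map_mul, mul_inv_cancel, map_one]
      have h10 := congrArg Matrix.det h9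
      rw [Matrix.det_mul, Matrix.det_one] at h10
      exact IsUnit.of_mul_eq_one _ h10
    have h11 : ∀ x : ZMod 2, x ≠ 0 → x = 1 := by decide
    rw [h7]; exact h11 _ h8.ne_zero
  have h9 := congrArg (PadicInt.toZMod : ℤ_[2] →+* ZMod 2).mapMatrix h6
  rw [map_mul, map_sub, map_sub, map_zero] at h9
  have hs1 : ∀ (a : ℤ_[2]), (PadicInt.toZMod : ℤ_[2] →+* ZMod 2).mapMatrix (a • (1 : M2 ℤ_[2])) =
      (PadicInt.toZMod a) • (1 : M2 (ZMod 2)) := by
    intro a
    ext i j
    simp only [RingHom.mapMatrix_apply, Matrix.map_apply, Matrix.smul_apply, smul_eq_mul,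
      map_mul, Matrix.one_apply]
    split_ifs <;> simp
  rw [hs1, hs1, map_mul, hone g hg, hone g' hg', hdet, mul_one, one_smul] at h9
  rw [mapMat_eq_mapMatrix, mapMat_eq_mapMatrix]
  exact h9

/-- the inertia group at a bad prime is not contained in `G_K`. -/
theorem exists_not_mem_GK_bad (hE : EData W r s) {v : ℕ} (hv : v.Prime) (hvΔ : (v : ℤ) ∣ W.Δ)
    {P : ValuationSubring (AlgebraicClosure ℚ)} (hP : P.LiesOverPrime v) :
    ∃ σ ∈ P.inertiaSubgroupIn ℚ, σ ∉ GK (cond W) := by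
  obtain ⟨σ, hσ, h1⟩ := hE.ram v hv hvΔ P hP
  refine ⟨σ, hσ, fun h => ?_⟩
  rw [hE.mem_GK] at h
  rcases h with h | h
  · exact h1 h
  · have h2 := unipotent_of_bad hE hv hvΔ hP (H6.MD.inertia_le_decomp hσ)
      (H6.MD.inertia_le_decomp hσ)
    have key : ∀ M : Matrix (Fin 2) (Fin 2) (ZMod 2), (M - 1) * (M - 1) = 0 → M.trace ≠ 1 := by
      decide
    exact key _ h2 h

end

end Fermat.Agent.H73LT
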