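import Mathlib
import Fermat.Agent.H46LTEnd
import Fermat.Agent.H49LTC1
import Fermat.Agent.H19LTMatch
import Fermat.Agent.H73LTAux
import Fermat.Agent.H19LTCore
import Fermat.Agent.H82LTPsi
import Fermat.Agent.H55LTF

/-!
# LT-MOD2, block C: application of Theorem C (C2b)
-/

set_option autoImplicit false
set_option linter.style.haveILetI false

noncomputable section

open IsLocalRing WeierstrassCurve
open scoped NumberField

namespace Fermat.Agent.H55.LTH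

open Fermat.Agent.H53 (GQ M2 mapMat MCont)
open Fermat.Agent.LT
open Fermat.Agent.H19LT (M8Ram M8Sign resT)
open Fermat.Agent.H55.LT (UnrBound Sel0 Ev)

/-- only the primes in the set matter -/
theorem sel0_congr {rb : GQ →* M2 (ZMod 2)} {S S' : Set ℕ}
    (hSS : ∀ v : ℕ, v.Prime → (v ∈ S ↔ v ∈ S')) (h : Sel0 rb S) : Sel0 rb S' := by
  intro b h1 h2 h3 h4
  refine h b h1 h2 ?_ ?_
  · intro ℓ hℓ hℓS P hP σ hσ
    exact h3 ℓ hℓ (fun h5 => hℓS ((hSS ℓ hℓ).2 h5)) P hP σ hσ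
  · intro v hv hvS P hP g hg h' hh'
    exact h4 v hv ((hSS v hv).1 hvS) P hP g hg h' hh'

/-- `rb` is of finite level -/
theorem exists_level_rb {r : GQ →* M2 ℤ_[2]} (hr : MCont ℤ_[2] r) :
    ∃ F : IntermediateField ℚ (AlgebraicClosure ℚ), FiniteDimensional ℚ F ∧
      ∀ σ : GQ, (∀ x ∈ F, σ x = x) → mapMat PadicInt.toZMod r σ = 1 := by
  obtain ⟨L, hL, h⟩ := hr 1
  refine ⟨L, hL, fun σ hσ => ?_⟩
  ext i j
  rw [Fermat.Agent.H53.mapMat_apply]
  have h2 := h σ hσ i j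
  rw [pow_one] at h2
  have h3 : PadicInt.toZMod (r σ i j - (1 : M2 ℤ_[2]) i j) = 0 := by
    rw [← RingHom.mem_ker, PadicInt.ker_toZMod]
    exact h2
  rw [map_sub, sub_eq_zero] at h3
  rw [h3, Matrix.one_apply, Matrix.one_apply]
  split_ifs <;> simp

/-- the primes of the level -/
theorem prime_dvd_level {W : WeierstrassCurve ℤ} (hW : GoodCurve W) {Q : Finset ℕ}
    (hQ : ∀ q ∈ Q, q.Prime) {L : ℕ} (hL : L = cond W * ∏ q ∈ Q, q) {v : ℕ} (hv : v.Prime) :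
    v ∣ L ↔ v ∣ cond W ∨ v ∈ Q := by
  subst hL
  rw [hv.dvd_mul]
  constructor
  · rintro (h | h)
    · exact Or.inl h
    · obtain ⟨q, hq, hd⟩ := (Prime.dvd_finsetProd_iff hv.prime _).mp h
      have : v = q := (Nat.prime_dvd_prime_iff_eq hv (hQ q hq)).mp hd
      subst this
      exact Or.inr hq
  · rintro (h | h)
    · exact Or.inl h
    · exact Or.inr (Finset.dvd_prod_of_mem (fun q => q) h)

/-- the decomposition groups at the primes of the level are not contained in `G_K` -/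
theorem exists_notMem_GK {W : WeierstrassCurve ℤ} {r : GQ →* M2 ℤ_[2]} {s : ℕ → ℤ}
    (hW : GoodCurve W) (hE : EData W r s) {Q : Finset ℕ} {m : ℕ} (hm : m ≠ 0)
    (hQ : ∀ q ∈ Q, AuxPrime r (cond W) m q) {L : ℕ} (hL : L = cond W * ∏ q ∈ Q, q) :
    ∀ v : ℕ, v.Prime → v ∣ L → ∀ P : ValuationSubring Qb, P.LiesOverPrime v →
      ∃ g ∈ P.decompositionSubgroup ℚ, g ∉ GK (cond W) := by
  intro v hv hvL P hP
  rcases (prime_dvd_level hW (fun q hq => (hQ q hq).prime) hL hv).1 hvL with h | h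
  · obtain ⟨σ, hσ, h1⟩ := Fermat.Agent.H73LT.exists_not_mem_GK_bad hE hv
      ((Fermat.Agent.H49.LTC.dvd_cond_iff hW hv).1 h) hP
    exact ⟨σ, Fermat.Agent.H55.LT.inertia_le_dec P hσ, h1⟩
  · obtain ⟨φ, hφ⟩ := Fermat.Agent.H54.exists_isFrobeniusAt hv hP
    exact ⟨φ, ((Fermat.Agent.H63.isFrobeniusAt_iff P φ v).mp hφ).1,
      Fermat.Agent.H49.LTC.frob_notMem_GK hE (hQ v h) hm hP hφ⟩

/-- the local and global hypotheses of the side theorems (M5 and surjectivity of `π`) -/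
def SideOut (W : WeierstrassCurve ℤ) (r : GQ →* M2 ℤ_[2]) (O : Type) [CommRing O] [IsDomain O]
    [IsDiscreteValuationRing O] (K : Type) [Field K] [NumberField K]
    (η : ClassGroup (𝓞 K) →* (ResidueField O)ˣ) : Prop :=
  ∀ (m : ℕ) (Q : Finset ℕ), 3 ≤ m → (∀ q ∈ Q, AuxPrime r (cond W) m q) →
    SelZero (mapMat PadicInt.toZMod r) (↑(bad W) ∪ ↑Q) →
    ∀ (L : ℕ) [NeZero L], L = cond W * ∏ q ∈ Q, q → ∀ X : TSide' O K η (cond W) Q L,
      UnrBound (GK (cond W)) (Nat.card (C2' K)) ∧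
        letI := X.commRing
        Function.Surjective X.π

/-- **C2b.** -/
theorem thetaOut_of {W : WeierstrassCurve ℤ} {r : GQ →* M2 ℤ_[2]} {s : ℕ → ℤ}
    (hW : GoodCurve W) (hE : EData W r s) (hT' : StatementT')
    (hM8r : ∀ v : ℕ, v.Prime → M8Ram v) (hM8s : ∀ q : ℕ, q.Prime → q ≠ 2 → M8Sign q)
    (O : Type) [CommRing O] [IsDomain O] [IsDiscreteValuationRing O] [CoefRing O]
    (f0 : ℤ_[2] →+* O)
    (K : Type) [Field K] [NumberField K] (hK : Module.finrank ℚ K = 2)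
    (hx : ∃ x : K, x ^ 2 = -((cond W : ℕ) : K))
    (η : ClassGroup (𝓞 K) →* (ResidueField O)ˣ) (hη1 : η ≠ 1) (hη3 : ∀ c, η c ^ 3 = 1)
    (hηk : ∀ (k : Type) [Field k] (ι : ResidueField O →+* k) (ρ : GQ →* M2 k) (S : Finset ℕ),
      FinLevel ρ →
        (∀ ℓ : ℕ, ℓ.Prime → ℓ ∉ S → ∀ A : ValuationSubring Qb, A.LiesOverPrime ℓ →
          ∀ φ : GQ, A.IsFrobeniusAt φ ℓ → (ρ φ).det = 1) →
        (∀ ℓ : ℕ, ℓ.Prime → ℓ ∉ S → ∀ A : ValuationSubring Qb, A.LiesOverPrime ℓ →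
          ∀ φ : GQ, A.IsFrobeniusAt φ ℓ →
            (ρ φ).trace = ι (∑ P ∈ primesOver K ℓ,
              ((η (cls K P) : (ResidueField O)ˣ) : ResidueField O))) →
        (∀ g, (ρ g).det = 1) ∧
          ∀ (c : ZMod 2 →+* k) (g : GQ),
            (ρ g).trace = c (mapMat PadicInt.toZMod r g).trace)
    (hside : SideOut W r O K η) :
    ∀ (m : ℕ) (Q : Finset ℕ), 3 ≤ m → (∀ q ∈ Q, AuxPrime r (cond W) m q) →
      SelZero (mapMat PadicInt.toZMod r) (↑(bad W) ∪ ↑Q) →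
      ThetaOut W O K η (Nat.card (C2' K) * 2 ^ Q.card) m Q := by
  intro m Q hm hQ hSel L _ hL
  have hm0 : m ≠ 0 := by omega
  obtain ⟨X⟩ := hT' O K (cond W) (Fermat.Agent.H49.LTC.squarefree_cond W)
    (Fermat.Agent.H49.LTC.two_dvd_cond hW) (Fermat.Agent.H49.LTC.two_lt_cond hW) hK hx Q
    (fun q hq => Fermat.Agent.H49.LTC.aux_cond hE (hQ q hq) hm) L hL η hη1 hη3
  refine ⟨X, ?_⟩
  letI := X.commRing
  letI := X.algebra
  letI : Algebra (ZMod 2) (ResidueField O) := ZMod.algebra _ 2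
  haveI : IsLocalRing (O ⧸ Ideal.span {((2 : O) ^ m)}) :=
    Fermat.Agent.H49.LTC.isLocalRing_quot hm0
  let f : ℤ_[2] →+* O ⧸ Ideal.span {((2 : O) ^ m)} := (Ideal.Quotient.mk _).comp f0
  obtain ⟨hM5, hsurj⟩ := hside m Q hm hQ hSel L hL X
  have hcard := (Fermat.Agent.H55.LT.card_le_of_surjective X hsurj).2
  rw [CoefRing.card (O := O)] at hcard
  have h2m : (2 : O ⧸ Ideal.span {((2 : O) ^ m)}) ^ m = 0 := by
    have h : (Ideal.Quotient.mk (Ideal.span {((2 : O) ^ m)}) ((2 : O) ^ m)) = 0 :=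
      Ideal.Quotient.eq_zero_iff_mem.mpr (Ideal.mem_span_singleton_self _)
    rwa [map_pow, map_ofNat] at h
  have hcond : ∀ {ℓ : ℕ}, ¬ ℓ ∣ L → ¬ ℓ ∣ cond W := fun h h' => h (hL ▸ h'.mul_right _)
  obtain ⟨hθ, hrank⟩ := Fermat.Agent.H19LT.exists_theta_side_full X
    (Fermat.Agent.H49.LTC.two_dvd_cond hW) hL (Fermat.Agent.H49.LTC.squarefree_cond W)
    (fun q hq => ⟨(hQ q hq).prime, (hQ q hq).notdvd⟩) (fun v hv _ => hM8r v hv)
    (fun q hq => hM8s q (hQ q hq).prime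
      (Fermat.Agent.H49.LTC.ne_two_of_not_dvd hW (hQ q hq).notdvd))
    (mapMat PadicInt.toZMod r) (exists_level_rb hE.cont) hE.surj
    (fun v hv hvN P hP => hE.ram v hv ((Fermat.Agent.H49.LTC.dvd_cond_iff hW hv).1 hvN) P hP)
    (fun q hq P hP φ hφ => ((hQ q hq).sq P hP φ hφ).2.2)
    (Fermat.Agent.H19LT.hmatch_of_eta X (Fermat.Agent.H49.LTC.two_dvd_cond hW) hL hηk)
    (GK (cond W)) hE.mem_GK (exists_notMem_GK hW hE hm0 hQ hL)
    (Fermat.Agent.H49.LTC.resB (O := O) hm0)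
    (Fermat.Agent.H49.LTC.mcont_mapMat Fermat.Agent.H49.LTC.two_nilpotent f hE.cont)
    (a := fun ℓ => ((W.apOfModel ℓ : ℤ) : O ⧸ Ideal.span {((2 : O) ^ m)}))
    (fun ℓ hℓ h => Fermat.Agent.H49.LTC.frobAt_mapMat f hW hE hℓ (hcond h))
    (fun ℓ hℓ h => Fermat.Agent.H49.LTC.unrAt_mapMat f hW hE hℓ (hcond h))
    (fun g => Fermat.Agent.H49.LTC.residual_eq f
      (Fermat.Agent.H49.LTC.resB (O := O) hm0 : _ →+* ResidueField O) r g)
    (fun v hv hvN => ⟨_, Fermat.Agent.H49.LTC.typeAt_mapMat f hW hE hv hvN⟩)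
    (fun q hq => Fermat.Agent.H73LT.typeAt_aux_of_map hW hE (hQ q hq) f h2m 1 (one_pow 2))
    (sel0_congr (S := ↑(bad W) ∪ ↑Q) (fun v hv => by
      rw [Set.mem_setOf_eq, prime_dvd_level hW (fun q hq => (hQ q hq).prime) hL hv, Set.mem_union,
        Finset.mem_coe, Finset.mem_coe, Fermat.Agent.H49.LTC.mem_bad hW,
        Fermat.Agent.H49.LTC.dvd_cond_iff hW hv]
      constructor
      · rintro (⟨-, h⟩ | h)
        · exact Or.inl h
        · exact Or.inr h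
      · rintro (h | h)
        · exact Or.inl ⟨hv, h⟩
        · exact Or.inr h) (Fermat.Agent.H55.LT.Sel0.of_selZero hSel))
    (Nat.card (C2' K)) hM5 hcard
  exact ⟨hrank, hθ⟩

end Fermat.Agent.H55.LTH
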