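import Mathlib
import Fermat.Agent.H55LTH

/-!
# LT-MOD2, block C: assembly of `BlockC`
-/

set_option autoImplicit false
set_option linter.style.haveILetI false

noncomputable section

open IsLocalRing WeierstrassCurve Polynomial
open scoped NumberField

namespace Fermat.Agent.H55.LTH

open Fermat.Agent.H53 (GQ M2 mapMat MCont)
open Fermat.Agent.LT
open Fermat.Agent.H19LT (M8Ram M8Sign)
open Fermat.Agent.H55.LT (UnrBound)

/-- the imaginary quadratic field `ℚ(√-N)` as a type -/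
theorem exists_quadField (N : ℕ) (hN : 0 < N) :
    ∃ (K : Type) (_ : Field K) (_ : NumberField K), Module.finrank ℚ K = 2 ∧
      ∃ x : K, x ^ 2 = -((N : ℕ) : K) := by
  let f : ℚ[X] := X ^ 2 + C (N : ℚ)
  have hdeg : f.natDegree = 2 := natDegree_X_pow_add_C
  have hmonic : f.Monic := monic_X_pow_add_C _ (by norm_num)
  have hirr : Irreducible f := by
    rw [Polynomial.irreducible_iff_roots_eq_zero_of_degree_le_three (by rw [hdeg])
      (by rw [hdeg]; norm_num)]
    rw [Multiset.eq_zero_iff_forall_notMem]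
    intro a ha
    rw [mem_roots hmonic.ne_zero, IsRoot.def, eval_add, eval_pow, eval_X, eval_C] at ha
    have h1 : (0 : ℚ) < N := by exact_mod_cast hN
    have h2 : 0 ≤ a ^ 2 := sq_nonneg a
    linarith
  haveI : Fact (Irreducible f) := ⟨hirr⟩
  haveI : FiniteDimensional ℚ (AdjoinRoot f) :=
    (AdjoinRoot.powerBasis hirr.ne_zero).finite
  haveI : CharZero (AdjoinRoot f) := charZero_of_injective_algebraMap
    (algebraMap ℚ (AdjoinRoot f)).injective
  haveI : NumberField (AdjoinRoot f) := { }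
  refine ⟨AdjoinRoot f, inferInstance, inferInstance, ?_, AdjoinRoot.root f, ?_⟩
  · rw [(AdjoinRoot.powerBasis hirr.ne_zero).finrank, AdjoinRoot.powerBasis_dim, hdeg]
  · have h1 := AdjoinRoot.eval₂_root f
    rw [eval₂_add, eval₂_pow, eval₂_X, eval₂_C, map_natCast] at h1
    exact eq_neg_of_add_eq_zero_left h1

/-- **BlockC** from `StatementT'`, M8 and the side theorems. -/
theorem blockC_of (hT' : StatementT') (hM8r : ∀ v : ℕ, v.Prime → M8Ram v)
    (hM8s : ∀ q : ℕ, q.Prime → q ≠ 2 → M8Sign q)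
    (hside : ∀ (W : WeierstrassCurve ℤ) (r : GQ →* M2 ℤ_[2]) (s : ℕ → ℤ), GoodCurve W →
      EData W r s → ∀ (K : Type) [Field K] [NumberField K], Module.finrank ℚ K = 2 →
      (∃ x : K, x ^ 2 = -((cond W : ℕ) : K)) →
      ∀ (η : ClassGroup (𝓞 K) →* (ResidueField H49.LTC.O4)ˣ), η ≠ 1 → (∀ c, η c ^ 3 = 1) →
      (∀ (k : Type) [Field k] (ι : ResidueField H49.LTC.O4 →+* k) (ρ : GQ →* M2 k)
          (S : Finset ℕ), FinLevel ρ →
        (∀ ℓ : ℕ, ℓ.Prime → ℓ ∉ S → ∀ A : ValuationSubring Qb, A.LiesOverPrime ℓ →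
          ∀ φ : GQ, A.IsFrobeniusAt φ ℓ → (ρ φ).det = 1) →
        (∀ ℓ : ℕ, ℓ.Prime → ℓ ∉ S → ∀ A : ValuationSubring Qb, A.LiesOverPrime ℓ →
          ∀ φ : GQ, A.IsFrobeniusAt φ ℓ →
            (ρ φ).trace = ι (∑ P ∈ primesOver K ℓ,
              ((η (cls K P) : (ResidueField H49.LTC.O4)ˣ) : ResidueField H49.LTC.O4))) →
        (∀ g, (ρ g).det = 1) ∧
          ∀ (c : ZMod 2 →+* k) (g : GQ),
            (ρ g).trace = c (mapMat PadicInt.toZMod r g).trace) →
      SideOut W r H49.LTC.O4 K η) : BlockC := by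
  intro W r s hW hE h6
  have hN : 0 < cond W := Nat.pos_of_ne_zero (H49.LTC.cond_ne_zero W)
  obtain ⟨K, _, _, hK, hx⟩ := exists_quadField (cond W) hN
  have hcard : Nat.card (ResidueField H49.LTC.O4) = 4 := CoefRing.card
  obtain ⟨η, hη1, hη3, hηk⟩ := H82.LT.exists_eta hW hE K hK hx (ResidueField H49.LTC.O4) hcard
  refine statementC_of (H49.LTC.cond_ne_zero W) h6 H49.LTC.O4 K η (Nat.card (C2' K)) ?_
  exact thetaOut_of hW hE hT' hM8r hM8s H49.LTC.O4 H49.LTC.ofZ2 K hK hx η hη1 hη3 hηk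
    (hside W r s hW hE K hK hx η hη1 hη3 hηk)

end Fermat.Agent.H55.LTH
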