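import Mathlib
import Fermat.Agent.H55LTI
import Fermat.Agent.H51Surj

/-!
# LT-MOD2, block C: the side theorems for the curve
-/

set_option autoImplicit false
set_option linter.style.haveILetI false

noncomputable section

open IsLocalRing WeierstrassCurve Polynomial
open scoped NumberField

namespace Fermat.Agent.H55.LTH

open Fermat.Agent.H53 (GQ M2 mapMat MCont)
open Fermat.Agent.LT
open Fermat.Agent.H19LT (M8Ram M8Sign)
open Fermat.Agent.H55.LT (UnrBound Sel0)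

/-- quadratic data from an element with `x ^ 2 = -N` -/
theorem exists_quadData {K : Type} [Field K] [NumberField K] (hK : Module.finrank ℚ K = 2)
    {N : ℕ} (hx : ∃ x : K, x ^ 2 = -((N : ℕ) : K)) (hsq : Squarefree N) (h2 : 2 ∣ N) :
    ∃ w : 𝓞 K, H63.LT.QuadData K N w := by
  obtain ⟨x, hx⟩ := hx
  have hint : IsIntegral ℤ x := by
    refine ⟨X ^ 2 + C (N : ℤ), monic_X_pow_add_C _ (by norm_num), ?_⟩
    rw [eval₂_add, eval₂_pow, eval₂_X, eval₂_C, hx]
    simp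
  refine ⟨⟨x, hint⟩, ⟨hK, ?_, hsq, h2⟩⟩
  apply NumberField.RingOfIntegers.coe_injective
  simp only [map_pow, map_neg, map_natCast]
  exact hx

/-- **The side theorems** (M5 and surjectivity of `π`). -/
theorem sideOut {W : WeierstrassCurve ℤ} {r : GQ →* M2 ℤ_[2]} {s : ℕ → ℤ}
    (hW : GoodCurve W) (hE : EData W r s)
    (hM8r : ∀ v : ℕ, v.Prime → M8Ram v) (hM8s : ∀ q : ℕ, q.Prime → q ≠ 2 → M8Sign q)
    (O : Type) [CommRing O] [IsDomain O] [IsDiscreteValuationRing O] [CoefRing O]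
    (K : Type) [Field K] [NumberField K] (hK : Module.finrank ℚ K = 2)
    (hx : ∃ x : K, x ^ 2 = -((cond W : ℕ) : K))
    (η : ClassGroup (𝓞 K) →* (ResidueField O)ˣ) (hη1 : η ≠ 1)
    (hηk : ∀ (k : Type) [Field k] (ι : ResidueField O →+* k) (ρ : GQ →* M2 k) (S : Finset ℕ),
      FinLevel ρ →
        (∀ ℓ : ℕ, ℓ.Prime → ℓ ∉ S → ∀ A : ValuationSubring Qb, A.LiesOverPrime ℓ →
          ∀ φ : GQ, A.IsFrobeniusAt φ ℓ → (ρ φ).det = 1) →
        (∀ ℓ : ℕ, ℓ.Prime → ℓ ∉ S → ∀ A : ValuationSubring Qb, A.LiesOverPrime ℓ →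
          ∀ φ : GQ, A.IsFrobeniusAt φ ℓ →
            (ρ φ).trace = ι (∑ P ∈ primesOver K ℓ,
              ((η (cls K P) : (ResidueField O)ˣ) : ResidueField O))) →
        (∀ g, (ρ g).det = 1) ∧
          ∀ (c : ZMod 2 →+* k) (g : GQ),
            (ρ g).trace = c (mapMat PadicInt.toZMod r g).trace) :
    SideOut W r O K η := by
  intro m Q hm hQ hSel L _ hL X
  have hm0 : m ≠ 0 := by omega
  letI : Algebra (ZMod 2) (ResidueField O) := ZMod.algebra _ 2
  obtain ⟨w, hw⟩ := exists_quadData hK hx (Fermat.Agent.H49.LTC.squarefree_cond W)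
    (Fermat.Agent.H49.LTC.two_dvd_cond hW)
  exact Fermat.Agent.H51S.side_surj hw hη1 X
    (Fermat.Agent.H49.LTC.two_dvd_cond hW) hL (Fermat.Agent.H49.LTC.squarefree_cond W)
    (fun q hq => ⟨(hQ q hq).prime, (hQ q hq).notdvd⟩) (fun v hv _ => hM8r v hv)
    (fun q hq => hM8s q (hQ q hq).prime
      (Fermat.Agent.H49.LTC.ne_two_of_not_dvd hW (hQ q hq).notdvd))
    (mapMat PadicInt.toZMod r) (exists_level_rb hE.cont) hE.surj
    (fun v hv hvN P hP => hE.ram v hv ((Fermat.Agent.H49.LTC.dvd_cond_iff hW hv).1 hvN) P hP)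
    (fun q hq P hP φ hφ => ((hQ q hq).sq P hP φ hφ).2.2)
    (Fermat.Agent.H19LT.hmatch_of_eta X (Fermat.Agent.H49.LTC.two_dvd_cond hW) hL hηk)
    hE.mem_GK (exists_notMem_GK hW hE hm0 hQ hL)
    (sel0_congr (S := ↑(bad W) ∪ ↑Q) (fun v hv => by
      rw [Set.mem_setOf_eq, prime_dvd_level hW (fun q hq => (hQ q hq).prime) hL hv, Set.mem_union,
        Finset.mem_coe, Finset.mem_coe, Fermat.Agent.H49.LTC.mem_bad hW,
        Fermat.Agent.H49.LTC.dvd_cond_iff hW hv]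
      constructor
      · rintro (⟨-, h⟩ | h)
        · exact Or.inl h
        · exact Or.inr h
      · rintro (h | h)
        · exact Or.inl ⟨hv, h⟩
        · exact Or.inr h) (Fermat.Agent.H55.LT.Sel0.of_selZero hSel))

/-- **BlockC** from `StatementT'` and M8. -/
theorem blockC_of_M8 (hT' : StatementT') (hM8r : ∀ v : ℕ, v.Prime → M8Ram v)
    (hM8s : ∀ q : ℕ, q.Prime → q ≠ 2 → M8Sign q) : BlockC :=
  blockC_of hT' hM8r hM8s fun _ _ _ hW hE K _ _ hK hx η hη1 _ hηk =>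
    sideOut hW hE hM8r hM8s H49.LTC.O4 K hK hx η hη1 hηk

end Fermat.Agent.H55.LTH
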