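import Fermat.Agent.H81TSide2
import Fermat.Agent.H96TAQuad

/-!
# Block TA: `StatementT'` from the theta homomorphism
-/

set_option autoImplicit false

noncomputable section

open WeierstrassCurve CuspForm ModularFormClass IsLocalRing
open scoped NumberField

namespace Fermat.Agent.H96

open Fermat.Agent.LT Fermat.Agent.H61.TA Fermat.Agent.H63.LT

/-- The theta homomorphism (helper79). -/
def ThetaHom : Prop :=
  ∀ (k : Type) [Field k] [CharP k 2] (K : Type) [Field K] [NumberField K] (N : ℕ) (w : 𝓞 K),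
    QuadData K N w → 2 < N →
    ∀ Q : Finset ℕ, (∀ q ∈ Q, q.Prime ∧ ¬ q ∣ N ∧ q % 8 = 7 ∧
      ¬ IsSquare ((-(N : ℤ) : ℤ) : ZMod q)) →
    ∀ (L : ℕ) [NeZero L], L = N * ∏ q ∈ Q, q →
    ∀ η : ClassGroup (𝓞 K) →* kˣ, η ≠ 1 → (∀ c, η c ^ 3 = 1) →
    ∀ V : Set ℕ, (∀ v, v ∈ V ↔ v = 2 ∨ v ∈ Q) →
      ∃ Ψ : heckeAlgebra L 2 {v : ℕ | v ∣ N} →+* MonoidAlgebra k (C2Q K Q),
        (∀ t ∈ ann L {v : ℕ | v ∣ N} (X2 L V), Ψ t = 0) ∧
        (∀ (ℓ : ℕ) (hℓ : ℓ.Prime) (hℓL : ¬ ℓ ∣ L) (hS : ℓ ∉ {v : ℕ | v ∣ N}),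
          Ψ (heckeAlgebra.T hℓ hℓL hS) = ∑ P ∈ primesOver K ℓ,
            MonoidAlgebra.single ((QuotientGroup.mk (cls K P) : C2' K),
              (1 : {q // q ∈ Q} → Multiplicative (ZMod 2))) ((η (cls K P) : kˣ) : k)) ∧
        (∀ (q : {q // q ∈ Q}) (hq : (q : ℕ).Prime) (hqL : (q : ℕ) ∣ L)
          (hS : (q : ℕ) ∉ {v : ℕ | v ∣ N}), Ψ (heckeAlgebra.U hq hqL hS) =
            MonoidAlgebra.single (deltaQ K Q q) 1)

theorem charP_residueField {O : Type} [CommRing O] [IsDomain O] [IsDiscreteValuationRing O]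
    [CoefRing O] : CharP (ResidueField O) 2 := by
  have h2 : (2 : ResidueField O) = 0 := by
    have h : residue O 2 = 0 := by
      rw [residue_eq_zero_iff, CoefRing.two (O := O)]
      exact Ideal.mem_span_singleton_self 2
    rwa [map_ofNat] at h
  exact CharTwo.of_one_ne_zero_of_two_eq_zero one_ne_zero h2

theorem statementT'_of (hθ : ThetaHom) : StatementT' := by
  intro O _ _ _ _ K _ _ N hN h2 hN2 hfin hx Q hQ L _ hL η hη hη3
  obtain ⟨w, hw⟩ := exists_quadData hfin hx hN h2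
  have : CharP (ResidueField O) 2 := charP_residueField
  obtain ⟨Ψ, hΨ, hT, hU⟩ := hθ (ResidueField O) K N w hw hN2 Q hQ L hL η hη hη3
    {v | v = 2 ∨ v ∈ Q} (fun v => Iff.rfl)
  exact H81.nonempty_TSide'_of_heckeAlgebra K η N h2 Q (fun q hq => ⟨(hQ q hq).1, (hQ q hq).2.1⟩) L hL
    {v | v = 2 ∨ v ∈ Q} (fun v => Iff.rfl) Ψ hΨ hT hU

end Fermat.Agent.H96
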