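import Fermat.Agent.H79TA6
import Fermat.Agent.H96TAFinal

/-!
# Block TA of LT-MOD2: `StatementT'` holds
-/

set_option autoImplicit false

noncomputable section

namespace Fermat.Agent.H79.TA

open NumberField Fermat.Agent.LT Fermat.Agent.H61.TA

theorem thetaHom : H96.ThetaHom := by
  intro k _ _ K _ _ N w h hN2 Q hQ L _ hL η hη hη3 V hV
  obtain ⟨Ψ, hT, hU, hann⟩ := exists_theta_hom k h hN2 Q
    (fun q hq => ⟨(hQ q hq).1, (hQ q hq).2.1, (hQ q hq).2.2.2⟩) L hL η hη hη3
  have hV' : V = insert 2 (↑Q : Set ℕ) := by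
    ext v
    rw [hV v]
    rfl
  subst hV'
  exact ⟨Ψ, hann, hT, fun q hq hqL hS => hU q q.2 hq hqL hS⟩

/-- **Theorem A'** of LT-MOD2. -/
theorem statementT' : StatementT' := H96.statementT'_of thetaHom

end Fermat.Agent.H79.TA
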