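import Mathlib
import Fermat.Agent.H46LTStein

/-!
# Steinberg type at `v` from an inertia-invariant functional (matrix end of M8c, helper73)

`A` a Hausdorff local domain, `r : GQ →* M2 A` continuous, `v` ANY prime (the residue characteristic
allowed). If for each place `P ∣ v` there is a nonzero row vector `w` with `w · r σ = w` on the inertia
group and `w · r φ = s w` for one Frobenius, `s² = 1`, then `r` has Steinberg type `s` at `v`.
-/

set_option autoImplicit false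
set_option linter.unusedSectionVars false

noncomputable section

open IsLocalRing Matrix
open scoped Pointwise

namespace Fermat.Agent.H73.M8c

open Fermat.Agent.H53 (GQ M2 mapMat MCont)
open Fermat.Agent.LT (TypeAt Qb inv_mul_mem_inertia)

section algebra

variable {A : Type} [CommRing A]

theorem vecMul_eq_iff {w : Fin 2 → A} {M : M2 A} {c : A} :
    w ᵥ* M = c • w ↔ w 0 * M 0 0 + w 1 * M 1 0 = c * w 0 ∧ w 0 * M 0 1 + w 1 * M 1 1 = c * w 1 := by
  constructor
  · intro h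
    have h0 := congrFun h 0
    have h1 := congrFun h 1
    simp only [Matrix.vecMul, dotProduct, Fin.sum_univ_two, Pi.smul_apply, smul_eq_mul] at h0 h1
    exact ⟨h0, h1⟩
  · rintro ⟨h0, h1⟩
    funext i
    fin_cases i
    · simpa [Matrix.vecMul, dotProduct, Fin.sum_univ_two] using h0
    · simpa [Matrix.vecMul, dotProduct, Fin.sum_univ_two] using h1

theorem vecMul_sub_smul {w : Fin 2 → A} {M : M2 A} {c : A} (h : w ᵥ* M = c • w) :
    w ᵥ* (M - c • (1 : M2 A)) = 0 := by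
  rw [Matrix.vecMul_sub, h, Matrix.vecMul_smul, Matrix.vecMul_one, sub_self]

variable [IsDomain A]

theorem eq_of_smul_eq {w : Fin 2 → A} (hw : w ≠ 0) {c d : A} (h : c • w = d • w) : c = d := by
  have h1 : (c - d) • w = 0 := by rw [sub_smul, h, sub_self]
  exact sub_eq_zero.mp ((smul_eq_zero.mp h1).resolve_right hw)

/-- the product relation -/
theorem mul_eq_zero_of_vecMul {w : Fin 2 → A} (hw : w ≠ 0) {M Z : M2 A} {c : A}
    (hM : w ᵥ* M = c • w) (hc : c ^ 2 = 1) (hZ : w ᵥ* Z = 0) :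
    (M - (M.det * c) • (1 : M2 A)) * Z = 0 := by
  obtain ⟨e0, e1⟩ := vecMul_eq_iff.mp hM
  have hZ' : w ᵥ* Z = (0 : A) • w := by rw [hZ, zero_smul]
  obtain ⟨z0, z1⟩ := vecMul_eq_iff.mp hZ'
  rw [zero_mul] at z0 z1
  rw [Matrix.det_fin_two]
  -- `M w^⊥ = det M c w^⊥`
  have k0 : -(M 0 0 * w 1) + M 0 1 * w 0 = -((M 0 0 * M 1 1 - M 0 1 * M 1 0) * c * w 1) := by
    have h1 : c * (-(M 0 0 * w 1) + M 0 1 * w 0) = -((M 0 0 * M 1 1 - M 0 1 * M 1 0) * w 1) := by
      linear_combination (M 0 0) * e1 - (M 0 1) * e0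
    linear_combination c * h1 - (-(M 0 0 * w 1) + M 0 1 * w 0) * hc
  have k1 : -(M 1 0 * w 1) + M 1 1 * w 0 = (M 0 0 * M 1 1 - M 0 1 * M 1 0) * c * w 0 := by
    have h1 : c * (-(M 1 0 * w 1) + M 1 1 * w 0) = (M 0 0 * M 1 1 - M 0 1 * M 1 0) * w 0 := by
      linear_combination (M 1 0) * e1 - (M 1 1) * e0
    linear_combination c * h1 - (-(M 1 0 * w 1) + M 1 1 * w 0) * hc
  have hcol : ∀ j, w 0 * Z 0 j + w 1 * Z 1 j = 0 := by
    intro j
    fin_cases j
    · exact z0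
    · exact z1
  have key : ∀ j, (M 0 0 * Z 0 j + M 0 1 * Z 1 j = (M 0 0 * M 1 1 - M 0 1 * M 1 0) * c * Z 0 j) ∧
      (M 1 0 * Z 0 j + M 1 1 * Z 1 j = (M 0 0 * M 1 1 - M 0 1 * M 1 0) * c * Z 1 j) := by
    intro j
    have hj := hcol j
    by_cases hw0 : w 0 = 0
    · have hw1 : w 1 ≠ 0 := by
        intro h
        apply hw
        funext i
        fin_cases i
        · exact hw0
        · exact h
      constructor
      · apply mul_left_cancel₀ hw1
        linear_combination (-Z 0 j) * k0 + (M 0 1) * hj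
      · apply mul_left_cancel₀ hw1
        linear_combination (-Z 0 j) * k1 + (M 1 1 - (M 0 0 * M 1 1 - M 0 1 * M 1 0) * c) * hj
    · constructor
      · apply mul_left_cancel₀ hw0
        linear_combination (Z 1 j) * k0 + (M 0 0 - (M 0 0 * M 1 1 - M 0 1 * M 1 0) * c) * hj
      · apply mul_left_cancel₀ hw0
        linear_combination (Z 1 j) * k1 + (M 1 0) * hj
  ext i j
  rw [sub_mul, Matrix.sub_apply, Matrix.smul_mul, one_mul, Matrix.smul_apply, smul_eq_mul,
    Matrix.mul_apply, Fin.sum_univ_two, Matrix.zero_apply, sub_eq_zero]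
  fin_cases i
  · exact (key j).1
  · exact (key j).2

end algebra

section galois

variable {v : ℕ} {A : Type} [CommRing A] [IsDomain A] [IsLocalRing A]
  {r : GQ →* M2 A} {P : ValuationSubring Qb}

/-- the action of the decomposition group on an inertia-invariant functional which is a Frobenius
eigenvector -/
theorem exists_eig (hv : v.Prime) (hP : P.LiesOverPrime v) (hr : MCont A r)
    (hA : ∀ x : A, (∀ n, x ∈ maximalIdeal A ^ n) → x = 0) {s : A} (hs : s ^ 2 = 1)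
    {w : Fin 2 → A} (hI : ∀ σ ∈ P.inertiaSubgroupIn ℚ, w ᵥ* r σ = w) {φ : GQ}
    (hφ : P.IsFrobeniusAt φ v) (hw : w ᵥ* r φ = s • w) {g : GQ}
    (hg : g ∈ P.decompositionSubgroup ℚ) : ∃ c : A, (c = 1 ∨ c = s) ∧ w ᵥ* r g = c • w := by
  have hpow : ∀ k : ℕ, s ^ k = 1 ∨ s ^ k = s := by
    intro k
    rcases Nat.even_or_odd' k with ⟨m, rfl | rfl⟩
    · left; rw [pow_mul, hs, one_pow]
    · right; rw [pow_succ, pow_mul, hs, one_pow, one_mul]
  have hwpow : ∀ k : ℕ, w ᵥ* r (φ ^ k) = s ^ k • w := by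
    intro k
    induction k with
    | zero => rw [pow_zero, pow_zero, map_one, Matrix.vecMul_one, one_smul]
    | succ k ih =>
      rw [pow_succ, map_mul, ← Matrix.vecMul_vecMul, ih, Matrix.smul_vecMul, hw, smul_smul,
        pow_succ]
  have happ : ∀ n : ℕ, ∃ c : A, (c = 1 ∨ c = s) ∧ ∀ i, (w ᵥ* r g) i - (c • w) i ∈
      maximalIdeal A ^ n := by
    intro n
    obtain ⟨L, hL, hLr⟩ := hr n
    have hop : H55.krullLevels.op L.fixingSubgroup :=
      (H55.krullLevels_op_iff _).mpr ⟨L, hL, le_rfl⟩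
    obtain ⟨k, τ, hτ, u, hu, hgu⟩ := H28.exists_frobenius_mul hv hP hφ hg hop
    refine ⟨s ^ k, hpow k, fun i => ?_⟩
    have h1 : w ᵥ* r g = (s ^ k • w) ᵥ* r u := by
      rw [hgu, map_mul, map_mul, ← Matrix.vecMul_vecMul, ← Matrix.vecMul_vecMul, hwpow,
        Matrix.smul_vecMul, hI τ hτ]
    have h2 : (w ᵥ* r g) i - (s ^ k • w) i =
        ∑ j, (s ^ k • w) j * (r u j i - (1 : M2 A) j i) := by
      have h3 : (s ^ k • w) i = ((s ^ k • w) ᵥ* (1 : M2 A)) i := by rw [Matrix.vecMul_one]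
      rw [h1]
      conv_lhs => rw [h3]
      simp only [Matrix.vecMul, dotProduct]
      rw [← Finset.sum_sub_distrib]
      exact Finset.sum_congr rfl fun j _ => by ring
    rw [h2]
    refine Ideal.sum_mem _ fun j _ => Ideal.mul_mem_left _ _ (hLr u (fun x hx => ?_) j i)
    exact (IntermediateField.mem_fixingSubgroup_iff L u).mp hu x hx
  choose c hc hmem using happ
  have hinf : (∀ n, ∃ m, n ≤ m ∧ c m = 1) ∨ (∀ n, ∃ m, n ≤ m ∧ c m = s) := by
    by_contra hcon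
    push Not at hcon
    obtain ⟨⟨n₁, h₁⟩, ⟨n₂, h₂⟩⟩ := hcon
    rcases hc (max n₁ n₂) with h | h
    · exact h₁ _ (le_max_left _ _) h
    · exact h₂ _ (le_max_right _ _) h
  have fin : ∀ e : A, (∀ n, ∃ m, n ≤ m ∧ c m = e) → w ᵥ* r g = e • w := by
    intro e he
    funext i
    refine sub_eq_zero.mp (hA _ fun n => ?_)
    obtain ⟨m, hm, hme⟩ := he n
    have := hmem m i
    rw [hme] at this
    exact Ideal.pow_le_pow_right hm this
  rcases hinf with h | h
  · exact ⟨1, Or.inl rfl, fin 1 h⟩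
  · exact ⟨s, Or.inr rfl, fin s h⟩

/-- **One place.** -/
theorem exists_char (hv : v.Prime) (hP : P.LiesOverPrime v) (hr : MCont A r)
    (hA : ∀ x : A, (∀ n, x ∈ maximalIdeal A ^ n) → x = 0) {s : A} (hs : s ^ 2 = 1)
    {w : Fin 2 → A} (hw0 : w ≠ 0) (hI : ∀ σ ∈ P.inertiaSubgroupIn ℚ, w ᵥ* r σ = w) {φ : GQ}
    (hφ : P.IsFrobeniusAt φ v) (hw : w ᵥ* r φ = s • w) : ∃ χ : GQ → A,
    (∀ g ∈ P.decompositionSubgroup ℚ, χ g ^ 2 = 1) ∧
    (∀ g ∈ P.decompositionSubgroup ℚ, ∀ h ∈ P.decompositionSubgroup ℚ, χ (g * h) = χ g * χ h) ∧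
    (∀ g ∈ P.inertiaSubgroupIn ℚ, χ g = 1) ∧
    (∀ φ' : GQ, P.IsFrobeniusAt φ' v → χ φ' = s) ∧
    ∀ g ∈ P.decompositionSubgroup ℚ, ∀ g' ∈ P.decompositionSubgroup ℚ,
      (r g - ((r g).det * χ g) • (1 : M2 A)) * (r g' - χ g' • (1 : M2 A)) = 0 := by
  classical
  have hex : ∀ g : GQ, ∃ c : A, g ∈ P.decompositionSubgroup ℚ →
      ((c = 1 ∨ c = s) ∧ w ᵥ* r g = c • w) := by
    intro g
    by_cases hg : g ∈ P.decompositionSubgroup ℚ
    · obtain ⟨c, hc⟩ := exists_eig hv hP hr hA hs hI hφ hw hg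
      exact ⟨c, fun _ => hc⟩
    · exact ⟨0, fun h => absurd h hg⟩
  choose χ hχ using hex
  have hdec : ∀ g ∈ P.inertiaSubgroupIn ℚ, g ∈ P.decompositionSubgroup ℚ := by
    rintro g ⟨x, -, rfl⟩
    exact x.2
  have hsq : ∀ g ∈ P.decompositionSubgroup ℚ, χ g ^ 2 = 1 := by
    intro g hg
    rcases (hχ g hg).1 with h | h
    · rw [h, one_pow]
    · rw [h, hs]
  refine ⟨χ, hsq, fun g hg h hh => ?_, fun g hg => ?_, fun φ' hφ' => ?_, fun g hg g' hg' => ?_⟩
  · apply eq_of_smul_eq hw0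
    rw [← (hχ _ (Subgroup.mul_mem _ hg hh)).2, map_mul, ← Matrix.vecMul_vecMul, (hχ g hg).2,
      Matrix.smul_vecMul, (hχ h hh).2, smul_smul]
  · apply eq_of_smul_eq hw0
    rw [← (hχ g (hdec g hg)).2, hI g hg, one_smul]
  · apply eq_of_smul_eq hw0
    rw [← (hχ φ' hφ'.mem_decompositionSubgroup).2]
    have h1 : φ' = φ * (φ⁻¹ * φ') := by group
    rw [h1, map_mul, ← Matrix.vecMul_vecMul, hw, Matrix.smul_vecMul,
      hI _ (inv_mul_mem_inertia hφ hφ')]
  · exact mul_eq_zero_of_vecMul hw0 (hχ g hg).2 (hsq g hg) (vecMul_sub_smul (hχ g' hg').2)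

/-- **Steinberg type from inertia-invariant row vectors.** -/
theorem typeAt_of_vecMul (hv : v.Prime) (hr : MCont A r)
    (hA : ∀ x : A, (∀ n, x ∈ maximalIdeal A ^ n) → x = 0) {s : A} (hs : s ^ 2 = 1)
    (h : ∀ P : ValuationSubring Qb, P.LiesOverPrime v → ∃ w : Fin 2 → A, w ≠ 0 ∧
      (∀ σ ∈ P.inertiaSubgroupIn ℚ, w ᵥ* r σ = w) ∧
      ∃ φ : GQ, P.IsFrobeniusAt φ v ∧ w ᵥ* r φ = s • w) : TypeAt v s r := by
  intro P hP
  obtain ⟨w, hw0, hI, φ, hφ, hw⟩ := h P hP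
  exact exists_char hv hP hr hA hs hw0 hI hφ hw

theorem vecMul_of_functional (l : (Fin 2 → A) →ₗ[A] A) (M : M2 A) (i : Fin 2) :
    ((fun i => l (Pi.single i 1)) ᵥ* M) i = l (M *ᵥ Pi.single i 1) := by
  rw [Matrix.mulVec_single_one]
  have h1 : M.col i = ∑ j, M j i • (Pi.single j (1 : A) : Fin 2 → A) := by
    funext k
    rw [Finset.sum_apply]
    simp [Matrix.col, Pi.single_apply]
  rw [h1, map_sum]
  simp only [Matrix.vecMul, dotProduct, map_smul, smul_eq_mul]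
  exact Finset.sum_congr rfl fun j _ => mul_comm _ _

/-- **Steinberg type from inertia-invariant functionals.** -/
theorem typeAt_of_functional (hv : v.Prime) (hr : MCont A r)
    (hA : ∀ x : A, (∀ n, x ∈ maximalIdeal A ^ n) → x = 0) {s : A} (hs : s ^ 2 = 1)
    (h : ∀ P : ValuationSubring Qb, P.LiesOverPrime v → ∃ l : (Fin 2 → A) →ₗ[A] A, l ≠ 0 ∧
      (∀ σ ∈ P.inertiaSubgroupIn ℚ, ∀ x, l (r σ *ᵥ x) = l x) ∧
      ∃ φ : GQ, P.IsFrobeniusAt φ v ∧ ∀ x, l (r φ *ᵥ x) = s * l x) : TypeAt v s r := by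
  refine typeAt_of_vecMul hv hr hA hs fun P hP => ?_
  obtain ⟨l, hl0, hI, φ, hφ, hl⟩ := h P hP
  refine ⟨fun i => l (Pi.single i 1), fun h0 => hl0 ?_, fun σ hσ => ?_, φ, hφ, ?_⟩
  · refine LinearMap.pi_ext' fun i => LinearMap.ext_ring ?_
    have := congrFun h0 i
    simpa using this
  · funext i
    rw [vecMul_of_functional, hI σ hσ]
  · funext i
    rw [vecMul_of_functional, hl]
    rfl

theorem eq_zero_of_forall_mem_pow [IsNoetherianRing A] (x : A)
    (hx : ∀ n, x ∈ maximalIdeal A ^ n) : x = 0 := by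
  have h1 : x ∈ (⨅ n, maximalIdeal A ^ n : Ideal A) := by
    rw [Ideal.mem_iInf]; exact hx
  rwa [Ideal.iInf_pow_eq_bot_of_isLocalRing _ (IsLocalRing.maximalIdeal.isMaximal A).ne_top,
    Ideal.mem_bot] at h1

/-- version over a noetherian local domain (in particular over a discrete valuation ring) -/
theorem typeAt_of_functional' [IsNoetherianRing A] (hv : v.Prime) (hr : MCont A r)
    {s : A} (hs : s ^ 2 = 1)
    (h : ∀ P : ValuationSubring Qb, P.LiesOverPrime v → ∃ l : (Fin 2 → A) →ₗ[A] A, l ≠ 0 ∧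
      (∀ σ ∈ P.inertiaSubgroupIn ℚ, ∀ x, l (r σ *ᵥ x) = l x) ∧
      ∃ φ : GQ, P.IsFrobeniusAt φ v ∧ ∀ x, l (r φ *ᵥ x) = s * l x) : TypeAt v s r :=
  typeAt_of_functional hv hr eq_zero_of_forall_mem_pow hs h

end galois

/-! ### The case of a residually ramified representation -/

section line

variable {v : ℕ} {A : Type} [CommRing A] [IsDomain A] [IsLocalRing A]
  {r : GQ →* M2 A} {P : ValuationSubring Qb}

/-- If two inertia-invariant row vectors are linearly independent, inertia acts trivially. -/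
theorem eq_one_of_two_invariant {w w' : Fin 2 → A} {M : M2 A} (h : w ᵥ* M = w) (h' : w' ᵥ* M = w')
    (hdet : w 0 * w' 1 - w 1 * w' 0 ≠ 0) : M = 1 := by
  have e := vecMul_eq_iff.mp (show w ᵥ* M = (1 : A) • w by rw [one_smul, h])
  have e' := vecMul_eq_iff.mp (show w' ᵥ* M = (1 : A) • w' by rw [one_smul, h'])
  obtain ⟨e0, e1⟩ := e
  obtain ⟨f0, f1⟩ := e'
  rw [one_mul] at e0 e1 f0 f1
  ext i j
  fin_cases i <;> fin_cases j
  · show M 0 0 = 1
    apply mul_left_cancel₀ hdet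
    linear_combination w' 1 * e0 - w 1 * f0
  · show M 0 1 = 0
    apply mul_left_cancel₀ hdet
    linear_combination w' 1 * e1 - w 1 * f1
  · show M 1 0 = 0
    apply mul_left_cancel₀ hdet
    linear_combination w 0 * f0 - w' 0 * e0
  · show M 1 1 = 1
    apply mul_left_cancel₀ hdet
    linear_combination w 0 * f1 - w' 0 * e1

end line

end Fermat.Agent.H73.M8c
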