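import Fermat.Agent.H79V2
import Fermat.Agent.H73M8c
import Fermat.Agent.H88RealD
import Fermat.Agent.H84SSp
import Fermat.Agent.H89Point
import Fermat.Agent.H35S30

/-!
# M8Ram 2: the type at `2 ∥ L` of a two-adic representation attached to an eigenform (helper79)

Inputs: the realisation `real_plus` (helper88), helper33's `case_N` with helper84's `ss2p`, helper73's
matrix end.
-/

set_option autoImplicit false
set_option linter.unusedSectionVars false
set_option linter.style.haveILetI false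

noncomputable section

open TensorProduct IsLocalRing Matrix ModularCurve AlgebraicCurve
open Fermat.Agent.H30 Fermat.Agent.H35 Fermat.Agent.H31 Fermat.Agent.H67 Fermat.Agent.H33

namespace Fermat.Agent.H79.V2

open Fermat.Agent.H53 (GQ M2 MCont mapMat)
open Fermat.Agent.LT (TypeAt TwoRing)
open Fermat.Agent.H19LT (Attached ResIrr M8Ram)

theorem m8Ram_two : M8Ram 2 := by
  intro L _ f hf _ hvL hvL2 ha O' _ _ _ _ F _ _ _ j ι S r hr hirr hram
  obtain ⟨M, rfl⟩ : ∃ M, L = M * 2 := ⟨L / 2, (Nat.div_mul_cancel hvL).symm⟩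
  have hM0 : M ≠ 0 := fun h => NeZero.ne (M * 2) (by rw [h, zero_mul])
  haveI : NeZero M := ⟨hM0⟩
  haveI : Fact (Nat.Prime 2) := ⟨Nat.prime_two⟩
  haveI := TwoRing.char_zero (O' := O')
  haveI := TwoRing.complete (O' := O')
  haveI := TwoRing.finite (O' := O')
  have h2M : ¬ 2 ∣ M := fun ⟨k, hk⟩ => hvL2 ⟨k, by rw [hk]; ring⟩
  have hc : M.Coprime 2 := ((Nat.Prime.coprime_iff_not_dvd Nat.prime_two).2 h2M).symm
  have h2' : (2 : O') ∈ maximalIdeal O' := TwoRing.two
  have h2 : ((2 : ℕ) : O') ∈ maximalIdeal O' := by rw [Nat.cast_ofNat]; exact h2'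
  letI : Algebra ℤ_[2] O' := (H35.padicToAdic O' h2).toAlgebra
  haveI : Module.Finite ℤ_[2] O' := H89Point.finite_padic O' h2
  haveI : Module.IsTorsionFree ℤ_[2] O' :=
    Module.isTorsionFree_iff_algebraMap_injective.mpr (H35.padicToAdic_injective O' h2)
  haveI : Module.Free ℤ_[2] O' := Module.free_of_finite_type_torsion_free'
  have hspan := H88.RealP.span_of_resIrr h2' hirr
  obtain ⟨s, hs, hfs⟩ : ∃ s : ℤ, (s = 1 ∨ s = -1) ∧ ModularFormClass.qCoeff f 2 = (s : ℂ) := by
    rcases ha rfl with h | h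
    · exact ⟨1, Or.inl rfl, by simpa using h⟩
    · exact ⟨-1, Or.inr rfl, by simpa using h⟩
  obtain ⟨Φ, -, hsat, hgal, hp1, -, hw⟩ :=
    H88.RealP.real_plus (p := 2) Nat.prime_two h2M hc hf hs hfs h2 hr hspan
  have hfin : {x : JZero (M * 2) | 2 • x = 0}.Finite := by
    simpa using (jzeroInputs (M * 2)).finite 2 1 Nat.prime_two
  have key : TypeAt 2 ((s : ℤ) : O') r := by
    refine H73.M8c.typeAt_of_functional' Nat.prime_two hr.cont
      (by rcases hs with rfl | rfl <;> simp) fun P hP => ?_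
    exact exists_l hP h2M (deltaFacts hP h2M hc) (H84.ss2p Nat.prime_two h2M hP (alOf hc)) hfin h2'
      Φ hsat hgal hp1 hs hw (hram P hP)
  rcases hs with rfl | rfl
  · left; simpa using key
  · right; simpa using key

end Fermat.Agent.H79.V2
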