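import Mathlib
import Fermat.Agent.H49LTFinal
import Fermat.Agent.H55LTJ
import Fermat.Agent.H79TAFin
import Fermat.Agent.H79V2End
import Fermat.Agent.H34M8
import Fermat.Agent.H13MzTwo
import Fermat.Agent.H42XFinal

/-!
# LT-MOD2: the final theorem (helper49)

`ltA`: every semistable curve with even discriminant is residually modular at `3`, of a squarefree
level.
-/

set_option autoImplicit false

open WeierstrassCurve

namespace Fermat.Agent.H49.LTF

/-- **M8** at all primes. -/
theorem m8Ram (v : ℕ) : H19LT.M8Ram v := by
  by_cases hv : v = 2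
  · subst hv
    exact H79.V2.m8Ram_two
  · exact H34.M8.m8Ram hv

/-- **Block C**, unconditional. -/
theorem blockC : LT.BlockC :=
  H55.LTH.blockC_of_M8 H79.TA.statementT' (fun v _ => m8Ram v) (fun q _ _ => H34.M8.m8Sign q)

/-- **Block M7**, unconditional. -/
theorem blockM7 : LT.BlockM7 := H35.blockM7 H13.Mz.mazurTwo

/-- **(LT-A)**, unconditional. -/
theorem ltA : LTA := ltA_of blockC blockM7

/-- The curves of the class `GoodCurve` are modular of the right level. -/
theorem exact_goodCurve (W : WeierstrassCurve ℤ) (hW : LT.GoodCurve W) :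
    Mlc1IsModularModelOfExactConductorLevel W := exact_of_goodCurve blockC blockM7 W hW

/-- Residual modularity at `3` for even discriminant (form of `H88LTWire`). -/
theorem resMod3Two : H88.LTW.ResMod3Two := resMod3Two_of_ltA ltA

/-- Residual modularity at `3` for even discriminant, squarefree level (form of `H42XFinal`). -/
theorem ltEvenSq : H42X.LTEvenSq := by
  intro W hΔ hW h2 _
  obtain ⟨M, hM, hsq, h3, -, hres⟩ := ltA W hΔ hW h2
  exact ⟨M, hM, hsq, h3, hres⟩

end Fermat.Agent.H49.LTF
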