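import Fermat.Agent.H19LTMatch
import Fermat.Agent.H49LTA

/-!
# Reader's guide: gluing Galois representations over a local ring, any residue characteristic

Block LT (S01, S03, S04, S06, S45 and, through block LT-X, S38, S46, S50, S59, S60), companion of
`GuideResidual`, sections 6 to 8. Notes: section 3.6 and Appendix A.8, [163] NOTES-LT. This file is
imported only by `Guide`; every proof is the citation of theorems of the library.

**What the block does.** Theorem C of `GuideResidual` (`c_theorem`) compares a Hecke ring `T` over a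
2-adic ring `O` (the theta side of block TA) with the representation of a curve over `B = O/2^m`. For
this one needs

1. a representation `GQ → GL₂(T)` with the Hecke operators as traces of Frobenius elements, known only
   at the points of `T` (homomorphisms to discrete valuation rings), by S30;
2. its local types at the primes of the level, known only at the points, by block M8;
3. the same over the ring `A₀ ⊆ T × B` generated by the pairs `(T_ℓ, a_ℓ)` and `(U_q, 1)`, `q ∈ Q`.

All three are gluing problems: a ring `R` with a jointly injective family `R → B i`, and data over the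
`B i` whose traces come from `R`. In odd residue characteristic this is `GuideHeckeRings`, section 3: one
uses complex conjugation, which is `diag(1, -1)`, and divides by `2`. Here `2 = 0` in the residue field,
and complex conjugation is not diagonalisable modulo `2`. Instead an element `c` whose two eigenvalues in
the residue field are distinct is used (in the application: of order three modulo 2, eigenvalues the
primitive cube roots of unity in `𝔽₄`). By Hensel's lemma the characteristic polynomial of `c` factors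
over the ring, `(X - α) (X - β)`, `α - β` a unit with inverse `e`, so `c` is conjugate to `diag(α, β)`
at every point, and if `t` is the trace then

* `a(g) = e (t(c g) - β t(g))` is the upper left entry and `d(g) = e (α t(g) - t(c g))` the lower right
  entry of `g` at every point;
* `x(g, h) = a(g h) - a(g) a(h)` is the product of the upper right entry of `g` and the lower left entry
  of `h`; by residual irreducibility `x(g₀, h₀)` is a unit for some `g₀`, `h₀`, with inverse `u`;
* `g ↦ (a(g), x(g, h₀) u; x(g₀, g), d(g))` is the representation over `R`.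

No theorem on pseudo-representations is used. Reading order: section 1 (the formulas), sections 2 and 3
(Galois representations over complete local rings), 4 (Hecke rings), 5 (local types), 6 (residual
irreducibility, determinants), 7 (the theta side), 8 (the ring of the pairs). After this `c_theorem` in
`GuideResidual` can be read.

**Notation.** `GQ`, `Qb`, `M2`, `mapMat`, `MCont`, `UnrAt`, `FrobAt`, `TypeAt`, `FinLevel`, `TSide'`,
`primesOver`, `cls` as in `GuideResidual`; places of `Qb`, inertia groups and Frobenius elements are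
unfolded in `GuideAbsGal`. All theorems cited in this file are in the closure of S01.

Files: `H19LTGlue`, `H19LTAsm`, `H19LTType` (representations and ring homomorphisms), `H19LTPair`,
`H19LTHecke`, `H19LTTypeAt`, `H19LTM8` (the statement of block M8), `H19LTSide`, `H19LTMatch`,
`H19LTCore` (helper19, also the text); auxiliary files `H30Assemble`, `H30Points` (helper30), `H55LTC`
(helper55), `H54Frobenius` (helper54). Read by helper49, 54, 55, 70, 73.
-/

set_option autoImplicit false

noncomputable section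

open IsLocalRing Matrix CuspForm ModularFormClass
open scoped NumberField

namespace Fermat.Agent.Guide.Gluing

open Fermat.Agent.H53 (GQ M2 mapMat MCont)
open Fermat.Agent.H30 (FrobData MIrr frobElt)
open Fermat.Agent.LT (Qb TypeAt CoefRing TSide' FrobAt UnrAt FinLevel primesOver cls)

/-! ## 1. The formulas -/

/-- **Diagonalisation.** Over a local ring a matrix `C = (a, b; c, d)` with trace `α + β` and
determinant `α β`, where `α - β` is a unit with inverse `e`, is conjugate to `diag(α, β)`.
Proof: `(a - β) e + (d - β) e = 1`, so `a - β` or `d - β` is a unit; in the first case the columns of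
`(a - β, b; c, d - α)` are a basis of eigenvectors, in the second case those of
`(b, a - α; d - β, c)`. File `H19LTGlue`. -/
theorem diagonalisation {B : Type*} [CommRing B] [IsLocalRing B] {α β e : B} (he : (α - β) * e = 1)
    (C : Matrix (Fin 2) (Fin 2) B) (htr : C.trace = α + β) (hdet : C.det = α * β) :
    ∃ P : (Matrix (Fin 2) (Fin 2) B)ˣ, (P : Matrix (Fin 2) (Fin 2) B) * C *
      ((P⁻¹ : (Matrix (Fin 2) (Fin 2) B)ˣ) : Matrix (Fin 2) (Fin 2) B) = !![α, 0; 0, β] :=
  H19LT.exists_diag he C htr hdet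

/-- **The functions `a`, `d`, `x`** of the header, called `entA`, `entD`, `entX` in the library. They
are defined by the values of one function `t : G → R`, the trace. -/
theorem entry_formulas {G : Type*} [Group G] {R : Type*} [CommRing R] (α β e : R) (t : G → R)
    (c g h : G) :
    H19LT.entA β e t c g = e * (t (c * g) - β * t g) ∧
      H19LT.entD α e t c g = e * (α * t g - t (c * g)) ∧
      H19LT.entX β e t c g h =
        H19LT.entA β e t c (g * h) - H19LT.entA β e t c g * H19LT.entA β e t c h :=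
  ⟨rfl, rfl, rfl⟩

/-- **Their meaning.** If `r` is a representation with traces `φ(t(g))` and `r(c) = diag(α, β)`, then
`a(g)` and `d(g)` are the diagonal entries of `r(g)`, and `x(g, h)` is the product of the upper right
entry of `r(g)` and the lower left entry of `r(h)`. Two line computations. File `H19LTGlue`. -/
theorem entry_values {G : Type*} [Group G] {R B : Type*} [CommRing R] [CommRing B] {φ : R →+* B}
    {α β e : R} (he : (α - β) * e = 1) {r : G →* Matrix (Fin 2) (Fin 2) B} {t : G → R}
    (ht : ∀ g, φ (t g) = (r g).trace) {c : G} (hc : r c = !![φ α, 0; 0, φ β]) (g h : G) :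
    φ (H19LT.entA β e t c g) = r g 0 0 ∧ φ (H19LT.entD α e t c g) = r g 1 1 ∧
      φ (H19LT.entX β e t c g h) = r g 0 1 * r h 1 0 :=
  ⟨H19LT.entA_eq he ht hc g, H19LT.entD_eq he ht hc g, H19LT.entX_eq he ht hc g h⟩

/-- **The glued representation**: given representations `r i` over the members `B i` of a jointly
injective family `φ i : R → B i`, with traces `t : G → R`, in which `c` acts as `diag(α, β)` (`α`, `β`
in `R`), and `g₀`, `h₀` with `x(g₀, h₀) u = 1`, the formula of the header defines a homomorphism over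
`R`, and it is conjugate to `r i` over `B i` by `diag(1, b)`, `b` the upper right entry of `r i g₀`
(a unit, as `x(g₀, h₀)` is one). That the formula is multiplicative is checked in every `B i`. File
`H19LTGlue`. -/
theorem glued_representation {G : Type*} [Group G] {R : Type*} [CommRing R] {ι : Type*}
    (B : ι → Type*) [∀ i, CommRing (B i)] (φ : ∀ i, R →+* B i)
    (hinj : ∀ x : R, (∀ i, φ i x = 0) → x = 0) {α β e : R} (he : (α - β) * e = 1)
    (r : ∀ i, G →* Matrix (Fin 2) (Fin 2) (B i)) {t : G → R}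
    (ht : ∀ i g, φ i (t g) = (r i g).trace) {c : G} (hc : ∀ i, r i c = !![φ i α, 0; 0, φ i β])
    {g₀ h₀ : G} {u : R} (hu : H19LT.entX β e t c g₀ h₀ * u = 1) :
    ∃ ρ : G →* Matrix (Fin 2) (Fin 2) R,
      (∀ g, ρ g = !![H19LT.entA β e t c g, H19LT.entX β e t c g h₀ * u;
        H19LT.entX β e t c g₀ g, H19LT.entD α e t c g]) ∧
      ∀ i, ∃ P : (Matrix (Fin 2) (Fin 2) (B i))ˣ, ∀ g,
        (P : Matrix (Fin 2) (Fin 2) (B i)) * r i g *
          ((P⁻¹ : (Matrix (Fin 2) (Fin 2) (B i))ˣ) : Matrix (Fin 2) (Fin 2) (B i)) =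
            (ρ g).map (φ i) :=
  ⟨H19LT.glueHom B φ hinj he r ht hc hu, fun _ => rfl, H19LT.exists_conj_glueMat B φ he r ht hc hu⟩

/-- **Continuity of the formula.** If `t(g σ) ≡ t(g)` modulo an ideal `J` for all `g`, then the glued
matrix of `σ` is the identity modulo `J`. (One uses `t(1) = 2` and `t(c) = α + β` and, for the upper
right entry, `t(g h) = t(h g)`; these equations hold because they hold in every `B i`.) File
`H19LTGlue`. -/
theorem glued_continuity {G : Type*} [Group G] {R : Type*} [CommRing R] {ι : Type*}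
    (B : ι → Type*) [∀ i, CommRing (B i)] (φ : ∀ i, R →+* B i)
    (hinj : ∀ x : R, (∀ i, φ i x = 0) → x = 0) {α β e : R} (he : (α - β) * e = 1)
    (r : ∀ i, G →* Matrix (Fin 2) (Fin 2) (B i)) {t : G → R}
    (ht : ∀ i g, φ i (t g) = (r i g).trace) {c : G} (hc : ∀ i, r i c = !![φ i α, 0; 0, φ i β])
    (g₀ h₀ : G) (u : R) (J : Ideal R) (σ : G) (hσ : ∀ g, t (g * σ) - t g ∈ J) (k l : Fin 2) :
    (!![H19LT.entA β e t c σ, H19LT.entX β e t c σ h₀ * u;
        H19LT.entX β e t c g₀ σ, H19LT.entD α e t c σ] : Matrix (Fin 2) (Fin 2) R) k l -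
      (1 : Matrix (Fin 2) (Fin 2) R) k l ∈ J :=
  H19LT.glueMat_sub_one_mem B φ hinj he r ht hc (g₀ := g₀) (h₀ := h₀) (u := u) J σ hσ k l

/-! ## 2. The conditions on Galois representations -/

/-- `MCont A r`: the representation `r` over the local ring `A` is continuous, i.e. for every `n` it is
trivial modulo `𝔪ⁿ` on the Galois group of some number field. `FrobData S a r`: for every prime
`ℓ ∉ S` the Frobenius elements above `ℓ` have trace `a ℓ` and determinant `ℓ`. -/
theorem mcont_and_frobData_iff {A : Type} [CommRing A] [IsLocalRing A] (S : Finset ℕ)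
    (a : ∀ ℓ : ℕ, ℓ.Prime → ℓ ∉ S → A) (r : GQ →* M2 A) :
    (MCont A r ↔ ∀ n : ℕ, ∃ L : IntermediateField ℚ Qb, FiniteDimensional ℚ L ∧
      ∀ σ : GQ, (∀ x ∈ L, σ x = x) → ∀ i j, r σ i j - (1 : M2 A) i j ∈ maximalIdeal A ^ n) ∧
    (FrobData S a r ↔ ∀ (ℓ : ℕ) (hℓ : ℓ.Prime) (hℓS : ℓ ∉ S) (P : ValuationSubring Qb),
      P.LiesOverPrime ℓ → ∀ σ : GQ, P.IsFrobeniusAt σ ℓ →
        (r σ).trace = a ℓ hℓ hℓS ∧ (r σ).det = (ℓ : A)) :=
  ⟨Iff.rfl, Iff.rfl⟩

/-- `MIrr r`, irreducibility over a field, in the form used: no conjugate of `r` is lower triangular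
or upper triangular, i.e. there is no stable line. -/
theorem mirr_iff {k : Type} [Field k] (r : GQ →* M2 k) : MIrr r ↔ ∀ P : (M2 k)ˣ,
    (∃ g, ((P : M2 k) * r g * ((P⁻¹ : (M2 k)ˣ) : M2 k)) 0 1 ≠ 0) ∧
      ∃ g, ((P : M2 k) * r g * ((P⁻¹ : (M2 k)ˣ) : M2 k)) 1 0 ≠ 0 :=
  Iff.rfl

/-! ## 3. Gluing over a complete local ring -/

/-- **Traces and determinants lie in `T`.** Let `T` be a complete local ring with a finite family of
local homomorphisms `φ i : T → B i` which induces the topology of `T` (`hT0`), let `r i` be continuous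
representations over `B i` with Frobenius traces `φ i (a ℓ)`, `a ℓ ∈ T`, and `rbar` one over the
residue field with Frobenius traces the residues of the `a ℓ`. Then for every `σ` there are `t`, `d`
in `T` which are the trace and the determinant of `r i σ` at every `i` and of `rbar σ` modulo `𝔪`.
Proof: modulo `𝔪ⁿ`, `σ` is a power of a Frobenius element (density in the sense of Frobenius,
`H31.weakFrobeniusDensity`), whose trace and determinant are polynomials in `a ℓ` and `ℓ`; pass to
the limit. Files `H30Assemble`, `H19LTAsm`. -/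
theorem traces_and_determinants {T : Type} [CommRing T] [IsLocalRing T]
    [IsAdicComplete (maximalIdeal T) T] {ι : Type} [Finite ι] (B : ι → Type)
    [∀ i, CommRing (B i)] [∀ i, IsLocalRing (B i)] [∀ i, IsHausdorff (maximalIdeal (B i)) (B i)]
    (φ : ∀ i, T →+* B i) (hφ : ∀ i, IsLocalHom (φ i))
    (hT0 : ∀ n : ℕ, ∃ N : ℕ, ∀ x : T, (∀ i, φ i x ∈ maximalIdeal (B i) ^ N) →
      x ∈ maximalIdeal T ^ n)
    {S : Finset ℕ} {a : ∀ ℓ : ℕ, ℓ.Prime → ℓ ∉ S → T}
    {r : ∀ i, GQ →* M2 (B i)} (hr : ∀ i, MCont (B i) (r i))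
    (hfr : ∀ i, FrobData S (fun ℓ h h' => φ i (a ℓ h h')) (r i))
    {rbar : GQ →* M2 (ResidueField T)} (hrbar : MCont _ rbar)
    (hfrbar : FrobData S (fun ℓ h h' => residue T (a ℓ h h')) rbar) (σ : GQ) :
    (∃ t : T, (∀ i, φ i t = (r i σ).trace) ∧ residue T t = (rbar σ).trace) ∧
      ∃ d : T, (∀ i, φ i d = (r i σ).det) ∧ residue T d = (rbar σ).det :=
  let ⟨t, ht⟩ := H30.exists_trace B φ hφ hT0 hr hfr σ
  let ⟨d, hd⟩ := H19LT.exists_det B φ hφ hT0 hr hfr σ
  ⟨⟨t, ht, H30.residue_trace B φ hT0 hr hfr hrbar hfrbar σ t ht⟩,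
    ⟨d, hd, H19LT.residue_det B φ hT0 hr hfr hrbar hfrbar σ d hd⟩⟩

/-- **Hensel's lemma for the characteristic polynomial**: over a complete local ring a polynomial
`X² - x X + d` whose residual polynomial has two distinct roots `αb`, `βb` in the residue field has
roots `α`, `β` lifting them, and `α - β` is a unit. File `H19LTAsm`. -/
theorem hensel_quadratic {T : Type} [CommRing T] [IsLocalRing T] [IsAdicComplete (maximalIdeal T) T]
    {x d : T} {αb βb : ResidueField T} (hne : αb ≠ βb) (hx : residue T x = αb + βb)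
    (hd : residue T d = αb * βb) :
    ∃ α β e : T, (α - β) * e = 1 ∧ x = α + β ∧ d = α * β ∧ residue T α = αb ∧ residue T β = βb :=
  H19LT.exists_roots hne hx hd

/-- **Gluing, any residue characteristic.** In the situation of `traces_and_determinants` let the
family `φ i` be jointly injective, `rbar` irreducible and `c` an element for which `rbar c` has two
distinct eigenvalues `αb`, `βb` in the residue field. Then there is a continuous representation `ρ`
over `T` with Frobenius traces `a ℓ` and determinants `ℓ`, conjugate over `B i` to `r i` for every `i`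
and conjugate to `rbar` modulo `𝔪`. Proof: sections 1 and 3; `x(g₀, h₀)` is a unit for suitable `g₀`,
`h₀`, because `rbar`, in a basis in which `rbar c` is diagonal, has a nonzero upper right entry at some
`g₀` and a nonzero lower left entry at some `h₀`. File `H19LTAsm`. -/
theorem gluing {T : Type} [CommRing T] [IsLocalRing T]
    [IsAdicComplete (maximalIdeal T) T] {ι : Type} [Finite ι] (B : ι → Type)
    [∀ i, CommRing (B i)] [∀ i, IsLocalRing (B i)] [∀ i, IsHausdorff (maximalIdeal (B i)) (B i)]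
    (φ : ∀ i, T →+* B i) (hφ : ∀ i, IsLocalHom (φ i))
    (hT0 : ∀ n : ℕ, ∃ N : ℕ, ∀ x : T, (∀ i, φ i x ∈ maximalIdeal (B i) ^ N) →
      x ∈ maximalIdeal T ^ n)
    {S : Finset ℕ} {a : ∀ ℓ : ℕ, ℓ.Prime → ℓ ∉ S → T}
    {r : ∀ i, GQ →* M2 (B i)} (hr : ∀ i, MCont (B i) (r i))
    (hfr : ∀ i, FrobData S (fun ℓ h h' => φ i (a ℓ h h')) (r i))
    (hinj : ∀ x : T, (∀ i, φ i x = 0) → x = 0)
    {rbar : GQ →* M2 (ResidueField T)} (hrbar : MCont _ rbar)
    (hfrbar : FrobData S (fun ℓ h h' => residue T (a ℓ h h')) rbar) (hirr : MIrr rbar)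
    {c : GQ} {αb βb : ResidueField T} (hne : αb ≠ βb) (hctr : (rbar c).trace = αb + βb)
    (hcdet : (rbar c).det = αb * βb) :
    ∃ ρ : GQ →* M2 T, MCont T ρ ∧ FrobData S a ρ ∧
      (∀ i, ∃ P : (M2 (B i))ˣ, ∀ g, (P : M2 (B i)) * r i g *
        ((P⁻¹ : (M2 (B i))ˣ) : M2 (B i)) = (ρ g).map (φ i)) ∧
      ∃ P : (M2 (ResidueField T))ˣ, ∀ g, (P : M2 (ResidueField T)) * rbar g *
        ((P⁻¹ : (M2 (ResidueField T))ˣ) : M2 (ResidueField T)) = (ρ g).map (residue T) :=
  H19LT.exists_glued B φ hφ hT0 hr hfr hinj hrbar hfrbar hirr hne hctr hcdet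

/-- The same with a given surjection `res` of `T` to a field `k` with kernel `𝔪` in the place of the
residue field. This is the form needed below: `T` and `B` have the common residue field of `O`. File
`H19LTPair`. -/
theorem gluing_over_field {T : Type} [CommRing T] [IsLocalRing T]
    [IsAdicComplete (maximalIdeal T) T] {ι : Type} [Finite ι] (B : ι → Type)
    [∀ i, CommRing (B i)] [∀ i, IsLocalRing (B i)] [∀ i, IsHausdorff (maximalIdeal (B i)) (B i)]
    (φ : ∀ i, T →+* B i) (hφ : ∀ i, IsLocalHom (φ i))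
    (hT0 : ∀ n : ℕ, ∃ N : ℕ, ∀ x : T, (∀ i, φ i x ∈ maximalIdeal (B i) ^ N) →
      x ∈ maximalIdeal T ^ n)
    {S : Finset ℕ} {a : ∀ ℓ : ℕ, ℓ.Prime → ℓ ∉ S → T}
    {r : ∀ i, GQ →* M2 (B i)} (hr : ∀ i, MCont (B i) (r i))
    (hfr : ∀ i, FrobData S (fun ℓ h h' => φ i (a ℓ h h')) (r i))
    (hinj : ∀ x : T, (∀ i, φ i x = 0) → x = 0)
    {k : Type} [Field k] (res : T →+* k) (hres : Function.Surjective res)
    (hker : RingHom.ker res = maximalIdeal T) {rbar : GQ →* M2 k} (hrbar : MCont k rbar)
    (hfrbar : FrobData S (fun ℓ h h' => res (a ℓ h h')) rbar) (hirr : MIrr rbar)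
    {c : GQ} {αb βb : k} (hne : αb ≠ βb) (hctr : (rbar c).trace = αb + βb)
    (hcdet : (rbar c).det = αb * βb) :
    ∃ ρ : GQ →* M2 T, MCont T ρ ∧ FrobData S a ρ ∧
      (∀ i, ∃ P : (M2 (B i))ˣ, ∀ g, (P : M2 (B i)) * r i g *
        ((P⁻¹ : (M2 (B i))ˣ) : M2 (B i)) = (ρ g).map (φ i)) ∧
      ∃ P : (M2 k)ˣ, ∀ g, (P : M2 k) * rbar g * ((P⁻¹ : (M2 k)ˣ) : M2 k) = (ρ g).map res :=
  H19LT.exists_glued_k B φ hφ hT0 hr hfr hinj res hres hker hrbar hfrbar hirr hne hctr hcdet

/-! ## 4. The representation over a Hecke ring -/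

/-- **Points detect elements.** Let `O` be a complete discrete valuation ring of characteristic zero
with finite residue field. A nonzero element of a reduced local ring `T`, finite and free over `O`, is
nonzero at some point: a local homomorphism to a discrete valuation ring `B` of the same kind, finite
over `O` (the normalisation of `T` modulo a minimal prime). File `H19LTHecke`. -/
theorem point_detects (O : Type) [CommRing O] [IsDomain O] [IsDiscreteValuationRing O]
    [IsAdicComplete (maximalIdeal O) O] [Finite (ResidueField O)] [CharZero O]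
    {T : Type} [CommRing T] [IsLocalRing T] [Algebra O T] [Module.Finite O T] [Module.Free O T]
    [IsReduced T] {x : T} (hx : x ≠ 0) :
    ∃ (B : Type) (_ : CommRing B) (_ : IsDomain B) (_ : IsDiscreteValuationRing B)
      (_ : IsAdicComplete (maximalIdeal B) B) (_ : Finite (ResidueField B)) (_ : CharZero B)
      (_ : Algebra O B) (_ : Module.Finite O B) (φ : T →ₐ[O] B),
      IsLocalHom (φ : T →+* B) ∧ φ x ≠ 0 :=
  H19LT.exists_point_ne_zero O hx

/-- **The Galois representation over a Hecke ring, any residue characteristic `p`.** `T` is a complete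
local ring, reduced, finite and free over `O`, with a homomorphism `π` from the Hecke algebra of level
`N` generated by the operators outside `S` (`p ∈ S`, all primes dividing `N` in `S`), `res : T → k` the
map to the residue field; `frobElt hNS π ℓ` is `π(T_ℓ)`. Let `rbar` over `k` be irreducible with
Frobenius traces `res (π(T_ℓ))`, and `c` with two distinct eigenvalues of `rbar c` in `k`. Then there is
`ρ` over `T` with Frobenius traces `π(T_ℓ)`, unramified outside `N p`, with reduction conjugate to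
`rbar`. Proof: at the minimal primes of `T` the representations are given by S30
(`GuideHeckeRings.exists_point`); glue them. Files `H19LTHecke`, `H19LTSide`. -/
theorem hecke_representation {p : ℕ} [Fact p.Prime] {N : ℕ} [NeZero N] {S : Finset ℕ}
    (hpS : p ∈ S) (hNS : ∀ q : ℕ, q.Prime → q ∣ N → q ∈ S)
    (O : Type) [CommRing O] [IsDomain O] [IsDiscreteValuationRing O]
    [IsAdicComplete (maximalIdeal O) O] [Finite (ResidueField O)] [CharZero O]
    (hpO : (p : O) ∈ maximalIdeal O)
    {T : Type} [CommRing T] [IsLocalRing T] [IsNoetherianRing T]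
    [IsAdicComplete (maximalIdeal T) T] [Algebra O T] [IsLocalHom (algebraMap O T)]
    [Module.Finite O T] [Module.Free O T] [IsReduced T]
    (π : CuspForm.heckeAlgebra N 2 (↑S : Set ℕ) →+* T)
    {k : Type} [Field k] (res : T →+* k) (hres : Function.Surjective res)
    (hker : RingHom.ker res = maximalIdeal T)
    {rbar : GQ →* M2 k} (hrbar : MCont _ rbar)
    (hfrbar : FrobData S (fun ℓ h h' => res (frobElt hNS π ℓ h h')) rbar) (hirr : MIrr rbar)
    {c : GQ} {αb βb : k} (hne : αb ≠ βb) (hctr : (rbar c).trace = αb + βb)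
    (hcdet : (rbar c).det = αb * βb) :
    ∃ ρ : GQ →* M2 T, MCont T ρ ∧ FrobData S (frobElt hNS π) ρ ∧
      (∀ q : ℕ, q.Prime → ¬ q ∣ N → q ≠ p → UnrAt q ρ) ∧
      ∃ P : (M2 k)ˣ, ∀ g, (P : M2 k) * rbar g * ((P⁻¹ : (M2 k)ˣ) : M2 k) = (ρ g).map res :=
  H19LT.exists_heckeRep_k hpS hNS O hpO π res hres hker hrbar hfrbar hirr hne hctr hcdet

/-! ## 5. Local types -/

/-- `ChiAt v P s r χ`: the function `χ` exhibits the type `s` of `r` at the place `P` above `v`: it is a
quadratic character of the decomposition group, trivial on inertia, with value `s` at the Frobenius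
elements, and `(r(g) - det r(g) χ(g)) (r(g') - χ(g')) = 0` for all `g`, `g'` in the decomposition
group. Over a field this says that `r` is an extension of `χ` by `det(r) χ`. -/
theorem chiAt_iff {A : Type} [CommRing A] (v : ℕ) (P : ValuationSubring Qb) (s : A)
    (r : GQ →* M2 A) (χ : GQ → A) : H19LT.ChiAt v P s r χ ↔
    (∀ g ∈ P.decompositionSubgroup ℚ, χ g ^ 2 = 1) ∧
    (∀ g ∈ P.decompositionSubgroup ℚ, ∀ h ∈ P.decompositionSubgroup ℚ, χ (g * h) = χ g * χ h) ∧
    (∀ g ∈ P.inertiaSubgroupIn ℚ, χ g = 1) ∧ (∀ φ : GQ, P.IsFrobeniusAt φ v → χ φ = s) ∧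
    ∀ g ∈ P.decompositionSubgroup ℚ, ∀ g' ∈ P.decompositionSubgroup ℚ,
      (r g - ((r g).det * χ g) • (1 : M2 A)) * (r g' - χ g' • (1 : M2 A)) = 0 :=
  ⟨fun h => ⟨h.sq, h.mul, h.inertia, h.frob, h.rel⟩,
    fun h => ⟨h.1, h.2.1, h.2.2.1, h.2.2.2.1, h.2.2.2.2⟩⟩

/-- `TypeAt v s r`, the condition of block LT: there is such a `χ` at every place above `v`. File
`H19LTTypeAt`. -/
theorem typeAt_iff_exists_chiAt {A : Type} [CommRing A] {v : ℕ} {s : A} {r : GQ →* M2 A} :
    TypeAt v s r ↔ ∀ P : ValuationSubring Qb, P.LiesOverPrime v → ∃ χ, H19LT.ChiAt v P s r χ :=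
  H19LT.typeAt_iff

/-- **Types and change of coefficients**: the type is preserved by ring homomorphisms and by
conjugation. File `H19LTTypeAt`. -/
theorem type_functorial {A B : Type} [CommRing A] [CommRing B] {v : ℕ} {s : A} {r r' : GQ →* M2 A}
    (h : TypeAt v s r) (f : A →+* B) (Q : (M2 A)ˣ)
    (hQ : ∀ g, (Q : M2 A) * r g * ((Q⁻¹ : (M2 A)ˣ) : M2 A) = r' g) :
    TypeAt v (f s) (mapMat f r) ∧ TypeAt v s r' :=
  ⟨H19LT.TypeAt.mapMat h f, H19LT.TypeAt.conj h Q hQ⟩

/-- **The character is determined by `r`**, hence descends. Let `r` over `A` have types `s i` over the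
members of a family `φ i : A → C i`, by characters `χ i`. If at one element `g₀` of the decomposition
group the values `χ i g₀` come from `s₀ ∈ A` and `r g₀ - s₀` has an entry which is a unit, then all
values of the `χ i` on the decomposition group come from `A`: with `M = r g₀ - s₀`, the relation
`r(g) M = det r(g) χ(g) M` can be solved for `χ(g)`. File `H19LTTypeAt`. -/
theorem character_descends {A : Type} [CommRing A] {κ : Type*} {C : κ → Type}
    [∀ i, CommRing (C i)] (φ : ∀ i, A →+* C i) {r : GQ →* M2 A} {v : ℕ} {P : ValuationSubring Qb}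
    {s : ∀ i, C i} {χ : ∀ i, GQ → C i} (hχ : ∀ i, H19LT.ChiAt v P (s i) (mapMat (φ i) r) (χ i))
    {g₀ : GQ} (hg₀ : g₀ ∈ P.decompositionSubgroup ℚ) {s₀ : A} (hs₀ : ∀ i, χ i g₀ = φ i s₀)
    {a b : Fin 2} (hu : IsUnit ((r g₀ - s₀ • (1 : M2 A)) a b)) :
    ∃ χ₀ : GQ → A, ∀ i, ∀ g ∈ P.decompositionSubgroup ℚ, φ i (χ₀ g) = χ i g :=
  H19LT.exists_chi φ hχ hg₀ hs₀ hu

/-- **Types glue (given sign)**: if the family `φ i` is jointly injective, `r` has type `φ i s` over
every `C i`, and at every place above `v` either some inertia element is not congruent to `1` (one entry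
of `r g₀ - 1` is a unit) or some Frobenius element is not congruent to the scalar `s`, then `r` has
type `s`. File `H19LTTypeAt`. -/
theorem type_glue {A : Type} [CommRing A] {κ : Type*} {C : κ → Type} [∀ i, CommRing (C i)]
    (φ : ∀ i, A →+* C i) (hinj : ∀ x : A, (∀ i, φ i x = 0) → x = 0) {r : GQ →* M2 A} {v : ℕ} {s : A}
    (h : ∀ i, TypeAt v (φ i s) (mapMat (φ i) r))
    (hP : ∀ P : ValuationSubring Qb, P.LiesOverPrime v →
      (∃ g₀ ∈ P.inertiaSubgroupIn ℚ, ∃ a b, IsUnit ((r g₀ - 1) a b)) ∨
      (∃ g₀ : GQ, P.IsFrobeniusAt g₀ v ∧ ∃ a b, IsUnit ((r g₀ - s • (1 : M2 A)) a b))) :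
    TypeAt v s r :=
  H19LT.typeAt_glue φ hinj h hP

/-- **Types glue (free sign)**: if `r` is residually ramified above `v`, then the signs `s i` need not
be given in `A`: they come from some `s' ∈ A`, and `r` has type `s'`. Used at the primes dividing
`N`, where block M8 gives only the type `1` or `-1` at each point. File `H19LTTypeAt`. -/
theorem type_glue_free_sign {A : Type} [CommRing A] {κ : Type*} {C : κ → Type}
    [∀ i, CommRing (C i)] (φ : ∀ i, A →+* C i) (hinj : ∀ x : A, (∀ i, φ i x = 0) → x = 0)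
    {r : GQ →* M2 A} {v : ℕ} (hv : v.Prime) {s : ∀ i, C i}
    (h : ∀ i, TypeAt v (s i) (mapMat (φ i) r))
    (hP : ∀ P : ValuationSubring Qb, P.LiesOverPrime v →
      ∃ g₀ ∈ P.inertiaSubgroupIn ℚ, ∃ a b, IsUnit ((r g₀ - 1) a b)) :
    ∃ s' : A, (∀ i, φ i s' = s i) ∧ TypeAt v s' r :=
  H19LT.exists_typeAt_glue φ hinj hv h hP

/-! ## 6. Irreducibility and determinant modulo 2 -/

/-- **Irreducibility from one commutator.** If the commutator `r(c) r(h) - r(h) r(c)` is invertible,
then `r` is irreducible, and `r(c)`, `r(h)` have no common eigenvector (and the hypothesis is preserved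
by extensions of the field). For the representation on `E'[2]`, with values in `GL₂(𝔽₂) = S₃`, it is
applied to `c` of order three and `h` of order two. File `H19LTSide`. -/
theorem commutator_criterion {k : Type} [Field k] {r : GQ →* M2 k} {c h : GQ}
    (hch : (r c * r h - r h * r c).det ≠ 0) :
    MIrr r ∧ ∀ {x : Fin 2 → k}, x ≠ 0 → ∀ {a b : k}, (r c).mulVec x = a • x →
      (r h).mulVec x = b • x → False :=
  ⟨H19LT.mirr_of_comm hch, fun hx _ _ hA hB => H19LT.no_eigenvector_of_comm hch hx hA hB⟩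

/-- **The determinant modulo 2.** Let `A` be a local ring, finite over a discrete valuation ring `O` with
uniformizer `2`, and `r` a continuous representation over `A` with determinant `ℓ` at the Frobenius
elements at all `ℓ ∉ S`, `2 ∈ S`. Then `det r ≡ 1` modulo `2`: modulo `𝔪ⁿ ⊆ 2 A` every element is a
power of a Frobenius element at an odd prime. Needed for Theorem B (`GuideResidual.m4_dihedral`) over
`A₀/2`. File `H19LTCore`. -/
theorem det_one_mod_two {O : Type} [CommRing O] [IsDomain O] [IsDiscreteValuationRing O]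
    (h2 : maximalIdeal O = Ideal.span {(2 : O)}) {A : Type} [CommRing A] [IsLocalRing A]
    [Algebra O A] [Module.Finite O A] {S : Finset ℕ} (h2S : 2 ∈ S)
    {a : ∀ ℓ : ℕ, ℓ.Prime → ℓ ∉ S → A} {r : GQ →* M2 A} (hr : MCont A r) (hfr : FrobData S a r)
    (g : GQ) : (r g).det - 1 ∈ Ideal.span {(2 : A)} :=
  let ⟨_, hn⟩ := H19LT.exists_pow_le_two h2 A
  H19LT.det_sub_one_mem_two hn h2S hr hfr g

/-! ## 7. The theta side

`X : TSide' O K η N Q L` is the Hecke ring of block TA (`GuideResidual.ta_hecke_ring`): `X.T` is local,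
reduced, finite and free over `O`, generated by the `X.t ℓ` (`ℓ ∤ L`) and the `X.u q` (`q ∈ Q`), the
images of the Hecke operators of level `L = N ∏ Q`, and `X.π` is the explicit theta eigenform
modulo 2, a homomorphism to the group algebra `k[C₂ × μ₂^Q]`, `k` the residue field of `O`. -/

/-- **The residue map of the Hecke ring**: `X.π` followed by the augmentation of the group algebra is a
surjection `resT X` to the residue field `k` of `O`. It sends `T_ℓ` to the sum of the `η(P)` over the
prime ideals `P` of norm `ℓ`, the trace of the representation induced from `η`, and `U_q` to `1`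
(`u² = 1`, `2 = 0`). Files `H19LTSide`, `H19LTMatch`, `H19LTCore`. -/
theorem side_residue_map {O : Type} [CommRing O] [IsDomain O] [IsDiscreteValuationRing O]
    [CoefRing O] {K : Type} [Field K] [NumberField K] {η : ClassGroup (𝓞 K) →* (ResidueField O)ˣ}
    {N : ℕ} {Q : Finset ℕ} {L : ℕ} [NeZero L] (X : TSide' O K η N Q L) :
    letI := X.commRing; letI := X.algebra; letI := X.isLocal
    Function.Surjective (H19LT.resT X) ∧ RingHom.ker (H19LT.resT X) = maximalIdeal X.T ∧
      (∀ x : O, H19LT.resT X (algebraMap O X.T x) = residue O x) ∧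
      (∀ ℓ : ℕ, ℓ.Prime → ¬ ℓ ∣ L → H19LT.resT X (X.t ℓ) =
        ∑ P ∈ primesOver K ℓ, ((η (cls K P) : (ResidueField O)ˣ) : ResidueField O)) ∧
      ∀ q ∈ Q, H19LT.resT X (X.u q) = 1 :=
  ⟨H19LT.resT_surjective X, H19LT.ker_resT X, H19LT.resT_algebraMap X, H19LT.resT_t X,
    fun _ hq => H19LT.resT_u X hq⟩

/-- **Matching.** Suppose `η` belongs to `rb` in the sense of block M5
(`GuideResidual.m5_cubic_character`): every representation of finite level over an extension of `k`
with determinant `1` and traces `∑ η(P)` at the Frobenius elements outside a finite set has the traces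
of `rb` everywhere. Then for all primes `ℓ ∤ L` the Frobenius traces of `rb` at `ℓ` are
`resT X (T_ℓ)`. Proof: the hypothesis, with `S` the primes dividing `L`, applies to the reduction of the
representation at one point of `T`. File `H19LTMatch`. -/
theorem matching {O : Type} [CommRing O] [IsDomain O] [IsDiscreteValuationRing O] [CoefRing O]
    {K : Type} [Field K] [NumberField K] {η : ClassGroup (𝓞 K) →* (ResidueField O)ˣ}
    {N : ℕ} {Q : Finset ℕ} {L : ℕ} [NeZero L] (X : TSide' O K η N Q L) (hN2 : 2 ∣ N)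
    (hL : L = N * ∏ q ∈ Q, q) [Algebra (ZMod 2) (ResidueField O)] {rb : GQ →* M2 (ZMod 2)}
    (hη : ∀ (k : Type) [Field k] (ι : ResidueField O →+* k) (ρ : GQ →* M2 k) (S : Finset ℕ),
      FinLevel ρ →
        (∀ ℓ : ℕ, ℓ.Prime → ℓ ∉ S → ∀ A : ValuationSubring Qb, A.LiesOverPrime ℓ →
          ∀ φ : GQ, A.IsFrobeniusAt φ ℓ → (ρ φ).det = 1) →
        (∀ ℓ : ℕ, ℓ.Prime → ℓ ∉ S → ∀ A : ValuationSubring Qb, A.LiesOverPrime ℓ →
          ∀ φ : GQ, A.IsFrobeniusAt φ ℓ → (ρ φ).trace = ι (∑ P ∈ primesOver K ℓ,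
            ((η (cls K P) : (ResidueField O)ˣ) : ResidueField O))) →
        (∀ g, (ρ g).det = 1) ∧ ∀ (c : ZMod 2 →+* k) (g : GQ), (ρ g).trace = c (rb g).trace) :
    ∀ ℓ : ℕ, ℓ.Prime → ¬ ℓ ∣ L → ∀ P : ValuationSubring Qb, P.LiesOverPrime ℓ →
      ∀ φ : GQ, P.IsFrobeniusAt φ ℓ →
        algebraMap (ZMod 2) (ResidueField O) (rb φ).trace = H19LT.resT X (X.t ℓ) :=
  H19LT.hmatch_of_eta X hN2 hL hη

/-- **The eigenform at a point.** Let `ρ` over `X.T` be continuous with Frobenius traces `T_ℓ`. At every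
point `φ : T → B` there are an embedding `j` of `B` in an algebraically closed field `F` and a
normalised eigenform `f` of level `L` to which `φ ∘ ρ` is attached (`GuideResidual.attached_iff`) through
`j` and an embedding of the algebraic integers; its `q`-th coefficient is `± 1`, the value of `U_q`,
for `q ∈ Q`, and its second coefficient is `± 1`. (`Pt O T` is the type of the points of `T` as in
`point_detects`, with fields `B` and `φ`.) File `H19LTSide`. -/
theorem attached_eigenform {O : Type} [CommRing O] [IsDomain O] [IsDiscreteValuationRing O]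
    [CoefRing O] {K : Type} [Field K] [NumberField K] {η : ClassGroup (𝓞 K) →* (ResidueField O)ˣ}
    {N : ℕ} {Q : Finset ℕ} {L : ℕ} [NeZero L] (X : TSide' O K η N Q L) :
    letI := X.commRing; letI := X.algebra; letI := X.isLocal
    ∀ {ρ : GQ →* M2 X.T} (_ : MCont X.T ρ)
      (_ : ∀ ℓ : ℕ, ℓ.Prime → ¬ ℓ ∣ L → FrobAt ℓ (X.t ℓ) ρ) (i : H19LT.Pt O X.T),
    ∃ (F : Type) (_ : Field F) (_ : IsAlgClosed F) (_ : CharZero F) (j : i.B →+* F)
      (f : CuspForm (CongruenceSubgroup.Gamma0 L) 2) (ι : integralClosure ℤ ℂ →+* F),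
      f.IsNormalizedEigenform ∧
      H19LT.Attached f L.primeFactors j ι (mapMat (i.φ : X.T →+* i.B) ρ) ∧
      (∀ q ∈ Q, ∃ s : ℤ, (s = 1 ∨ s = -1) ∧ qCoeff f q = (s : ℂ) ∧ i.φ (X.u q) = (s : i.B)) ∧
      (qCoeff f 2 = 1 ∨ qCoeff f 2 = -1) :=
  H19LT.exists_attached X

/-- **The representation over the theta side and its types.** Let `k` contain a primitive cube root of
unity `ω` (`hω`), and let `rbar` over `k` have the Frobenius traces `resT X (T_ℓ)`, an element of trace
and determinant `1` (eigenvalues `ω`, `ω²`) and an invertible commutator, let it be ramified at the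
primes dividing `N` and nontrivial at the Frobenius elements at `q ∈ Q`. Then there is a representation
over `X.T` with reduction `rbar`, Frobenius traces `T_ℓ`, unramified outside `L`, of type `s` with
`s² = 1` at the primes dividing `N` and of type `U_q` at `q ∈ Q`. Proof: `hecke_representation` for
`p = 2`; the points of `T` are eigenforms (`attached_eigenform`) and block M8
(`GuideResidual.m8_ramified`, `m8_sign`) gives their types; these are glued by section 5. File
`H19LTSide`. -/
theorem theta_representation {O : Type} [CommRing O] [IsDomain O] [IsDiscreteValuationRing O]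
    [CoefRing O] {K : Type} [Field K] [NumberField K] {η : ClassGroup (𝓞 K) →* (ResidueField O)ˣ}
    {N : ℕ} {Q : Finset ℕ} {L : ℕ} [NeZero L] (X : TSide' O K η N Q L) (hN2 : 2 ∣ N)
    (hL : L = N * ∏ q ∈ Q, q) (hsq : Squarefree N) (hQ : ∀ q ∈ Q, q.Prime ∧ ¬ q ∣ N)
    {rbar : GQ →* M2 (ResidueField O)} (hrbar : MCont _ rbar)
    (hfrbar : ∀ ℓ : ℕ, ℓ.Prime → ¬ ℓ ∣ L → FrobAt ℓ (H19LT.resT X (X.t ℓ)) rbar)
    {c h : GQ} (hctr : (rbar c).trace = 1) (hcdet : (rbar c).det = 1)
    (hcomm : (rbar c * rbar h - rbar h * rbar c).det ≠ 0)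
    {ω : ResidueField O} (hω : ω ^ 2 + ω + 1 = 0)
    (hram : ∀ v : ℕ, v.Prime → v ∣ N → ∀ P : ValuationSubring Qb, P.LiesOverPrime v →
      ∃ σ ∈ P.inertiaSubgroupIn ℚ, rbar σ ≠ 1)
    (hfrobQ : ∀ q ∈ Q, ∀ P : ValuationSubring Qb, P.LiesOverPrime q → ∀ φ : GQ,
      P.IsFrobeniusAt φ q → rbar φ ≠ 1) :
    letI := X.commRing; letI := X.algebra; letI := X.isLocal
    ∃ ρ : GQ →* M2 X.T, MCont X.T ρ ∧
      (∀ ℓ : ℕ, ℓ.Prime → ¬ ℓ ∣ L → FrobAt ℓ (X.t ℓ) ρ) ∧
      (∀ ℓ : ℕ, ℓ.Prime → ¬ ℓ ∣ L → UnrAt ℓ ρ) ∧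
      (∃ P : (M2 (ResidueField O))ˣ, ∀ g, (P : M2 (ResidueField O)) * rbar g *
        ((P⁻¹ : (M2 (ResidueField O))ˣ) : M2 (ResidueField O)) = (ρ g).map (H19LT.resT X)) ∧
      (∀ v : ℕ, v.Prime → v ∣ N → ∃ s : X.T, s ^ 2 = 1 ∧ TypeAt v s ρ) ∧
      (∀ q ∈ Q, TypeAt q (X.u q) ρ) :=
  H19LT.exists_sideRep X hN2 hL hsq hQ (fun v _ _ => H49.LTF.m8Ram v) (fun q _ => H34.M8.m8Sign q)
    hrbar hfrbar hctr hcdet hcomm hω hram hfrobQ

/-! ## 8. The ring of the pairs -/

/-- **The ring `A₀`** of Theorem C (`pairAlg` in the library): the `O`-subalgebra of `T × B` generated by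
the pairs `(t i, a i)`; `pairFst` and `pairSnd` are its projections to `T` and `B`. -/
theorem pairAlg_eq (O : Type) [CommRing O] {T B : Type} [CommRing T] [Algebra O T] [CommRing B]
    [Algebra O B] {ι : Type} (t : ι → T) (a : ι → B) :
    H55.LT.pairAlg O t a = Algebra.adjoin O (Set.range fun i => (t i, a i)) ∧
      (∀ x : H55.LT.pairAlg O t a, H55.LT.pairFst O t a x = (x : T × B).1) ∧
      ∀ x : H55.LT.pairAlg O t a, H55.LT.pairSnd O t a x = (x : T × B).2 :=
  ⟨rfl, fun _ => rfl, fun _ => rfl⟩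

/-- **Gluing over the ring of the pairs.** Let `T`, `B` be local rings finite over the complete discrete
valuation ring `O`, with the same residue field `k` (`hk`: the residue field of `O`), and `t i ∈ T`,
`a i ∈ B` with equal images in `k`. From representations over `T` and over `B` with Frobenius traces
`t (idx ℓ)`, `a (idx ℓ)`, and an irreducible `rbar` over `k` with the common residual Frobenius traces
and an element `c` as before, one gets a representation over `A₀` with Frobenius traces the pairs,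
conjugate to the given ones over `T` and `B` and to `rbar` over `k`. (`B` may be of finite length, such
as `O/2^m`; it is not assumed that `A₀` is reduced or free.) Files `H19LTPair`, `H55LTC`. -/
theorem pair_gluing {O : Type} [CommRing O] [IsDomain O] [IsDiscreteValuationRing O]
    [IsAdicComplete (maximalIdeal O) O] {T B : Type} [CommRing T] [IsLocalRing T] [Algebra O T]
    [Module.Finite O T] [CommRing B] [IsLocalRing B] [Algebra O B] [Module.Finite O B]
    {ι : Type} {k : Type} [Field k] [Algebra O k] (hk : Function.Surjective (algebraMap O k))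
    {t : ι → T} {a : ι → B} (resT : T →ₐ[O] k) (resB : B →ₐ[O] k)
    (hT : RingHom.ker resT = maximalIdeal T) (hB : RingHom.ker resB = maximalIdeal B)
    (hta : ∀ i, resT (t i) = resB (a i))
    {S : Finset ℕ} (idx : ∀ ℓ : ℕ, ℓ.Prime → ℓ ∉ S → ι)
    {rT : GQ →* M2 T} (hrT : MCont T rT) (hfT : FrobData S (fun ℓ h h' => t (idx ℓ h h')) rT)
    {rB : GQ →* M2 B} (hrB : MCont B rB) (hfB : FrobData S (fun ℓ h h' => a (idx ℓ h h')) rB)
    {rbar : GQ →* M2 k} (hrbar : MCont k rbar)
    (hfrbar : FrobData S (fun ℓ h h' => resB (a (idx ℓ h h'))) rbar) (hirr : MIrr rbar)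
    {c : GQ} {αb βb : k} (hne : αb ≠ βb) (hctr : (rbar c).trace = αb + βb)
    (hcdet : (rbar c).det = αb * βb) :
    ∃ (_ : IsLocalRing (H55.LT.pairAlg O t a)) (ρ : GQ →* M2 (H55.LT.pairAlg O t a)), MCont _ ρ ∧
      FrobData S (fun ℓ h h' =>
        (⟨_, H55.LT.mem_pairAlg t a (idx ℓ h h')⟩ : H55.LT.pairAlg O t a)) ρ ∧
      (∃ P : (M2 T)ˣ, ∀ g, (P : M2 T) * rT g * ((P⁻¹ : (M2 T)ˣ) : M2 T) =
        (ρ g).map (H55.LT.pairFst O t a)) ∧
      (∃ P : (M2 B)ˣ, ∀ g, (P : M2 B) * rB g * ((P⁻¹ : (M2 B)ˣ) : M2 B) =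
        (ρ g).map (H55.LT.pairSnd O t a)) ∧
      ∃ P : (M2 k)ˣ, ∀ g, (P : M2 k) * rbar g * ((P⁻¹ : (M2 k)ˣ) : M2 k) =
        (ρ g).map (resT.comp (H55.LT.pairFst O t a)) :=
  ⟨_, H19LT.exists_pairRep hk ⟨resT, resB, hT, hB, hta⟩ idx hrT hfT hrB hfB hrbar hfrbar hirr hne
    hctr hcdet⟩

/-- **Types over the ring of the pairs** (given sign): if the representations over `T` and `B` have the
types given by the two components of `s ∈ A₀` at `v`, and at every place above `v` some Frobenius
element is not congruent to the scalar `s` (one entry of the difference is a unit), then the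
representation over `A₀` has type `s` at `v`. Used at `q ∈ Q`, with `s = (U_q, 1)`. Similarly for
unramifiedness (`pair_unramified`) and for a free sign (`pair_type_free_sign`). File `H19LTCore`. -/
theorem pair_type {O : Type} [CommRing O] [IsDomain O] [IsDiscreteValuationRing O]
    [IsAdicComplete (maximalIdeal O) O] {T B : Type} [CommRing T] [IsLocalRing T] [Algebra O T]
    [Module.Finite O T] [CommRing B] [IsLocalRing B] [Algebra O B] [Module.Finite O B]
    {ι : Type} {t : ι → T} {a : ι → B}
    {ρ : GQ →* M2 (H55.LT.pairAlg O t a)} {rT : GQ →* M2 T} {rB : GQ →* M2 B}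
    (hT : ∃ P : (M2 T)ˣ, ∀ g, (P : M2 T) * rT g * ((P⁻¹ : (M2 T)ˣ) : M2 T) =
        (ρ g).map (H55.LT.pairFst O t a))
    (hB : ∃ P : (M2 B)ˣ, ∀ g, (P : M2 B) * rB g * ((P⁻¹ : (M2 B)ˣ) : M2 B) =
        (ρ g).map (H55.LT.pairSnd O t a))
    {v : ℕ} {s : H55.LT.pairAlg O t a} (h1 : TypeAt v (H55.LT.pairFst O t a s) rT)
    (h2 : TypeAt v (H55.LT.pairSnd O t a s) rB)
    (hP : ∀ P : ValuationSubring Qb, P.LiesOverPrime v → ∃ g₀ : GQ, P.IsFrobeniusAt g₀ v ∧
        ∃ i j, IsUnit ((ρ g₀ - s • (1 : M2 (H55.LT.pairAlg O t a))) i j)) :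
    TypeAt v s ρ :=
  H19LT.pair_typeAt hT hB h1 h2 hP

/-- The same with a free sign, at the primes dividing `N`, where `ρ` is residually ramified. File
`H19LTCore`. -/
theorem pair_type_free_sign {O : Type} [CommRing O] [IsDomain O] [IsDiscreteValuationRing O]
    [IsAdicComplete (maximalIdeal O) O] {T B : Type} [CommRing T] [IsLocalRing T] [Algebra O T]
    [Module.Finite O T] [CommRing B] [IsLocalRing B] [Algebra O B] [Module.Finite O B]
    {ι : Type} {t : ι → T} {a : ι → B}
    {ρ : GQ →* M2 (H55.LT.pairAlg O t a)} {rT : GQ →* M2 T} {rB : GQ →* M2 B}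
    (hT : ∃ P : (M2 T)ˣ, ∀ g, (P : M2 T) * rT g * ((P⁻¹ : (M2 T)ˣ) : M2 T) =
        (ρ g).map (H55.LT.pairFst O t a))
    (hB : ∃ P : (M2 B)ˣ, ∀ g, (P : M2 B) * rB g * ((P⁻¹ : (M2 B)ˣ) : M2 B) =
        (ρ g).map (H55.LT.pairSnd O t a))
    {v : ℕ} (hv : v.Prime) {sT : T} {sB : B} (h1 : TypeAt v sT rT) (h2 : TypeAt v sB rB)
    (hP : ∀ P : ValuationSubring Qb, P.LiesOverPrime v →
      ∃ g₀ ∈ P.inertiaSubgroupIn ℚ, ∃ i j, IsUnit ((ρ g₀ - 1) i j)) :
    ∃ s' : H55.LT.pairAlg O t a, TypeAt v s' ρ :=
  H19LT.pair_typeAt_free hT hB hv h1 h2 hP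

/-- **Unramifiedness over the ring of the pairs.** File `H19LTCore`. -/
theorem pair_unramified {O : Type} [CommRing O] [IsDomain O] [IsDiscreteValuationRing O]
    [IsAdicComplete (maximalIdeal O) O] {T B : Type} [CommRing T] [IsLocalRing T] [Algebra O T]
    [Module.Finite O T] [CommRing B] [IsLocalRing B] [Algebra O B] [Module.Finite O B]
    {ι : Type} {t : ι → T} {a : ι → B}
    {ρ : GQ →* M2 (H55.LT.pairAlg O t a)} {rT : GQ →* M2 T} {rB : GQ →* M2 B}
    (hT : ∃ P : (M2 T)ˣ, ∀ g, (P : M2 T) * rT g * ((P⁻¹ : (M2 T)ˣ) : M2 T) =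
        (ρ g).map (H55.LT.pairFst O t a))
    (hB : ∃ P : (M2 B)ˣ, ∀ g, (P : M2 B) * rB g * ((P⁻¹ : (M2 B)ˣ) : M2 B) =
        (ρ g).map (H55.LT.pairSnd O t a))
    {v : ℕ} (h1 : UnrAt v rT) (h2 : UnrAt v rB) : UnrAt v ρ :=
  H19LT.pair_unrAt hT hB h1 h2

end Fermat.Agent.Guide.Gluing
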