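import Fermat.Agent.H3LTM1

/-!
# Reader's guide: the choice of the good curve (block LT, step M1)

Every theorem of this file is proved by citing a theorem of the library; nothing here is used by any other
file. Companion of `GuideResidual` (theorem `m1_partner`), `GuideResidualSteps` (theorems `hesse_pencil`,
`hesse_pencil_congruence`, `squarefree_quartic_values`, `auxiliary_curve`) and `GuideSwitch` (the same
construction modulo 5). The 2-adic representation of a good curve is in `GuideTwoAdicCurve`.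

## What is proved

Let `W` be a semistable curve over `ℚ` with even discriminant. Step M1 of block LT finds a second curve `W'`
with the same coefficients `a_ℓ` modulo 3 which is "good": semistable, with negative even discriminant, of
odd order at every bad prime, and with a bad prime `r ≡ -1` modulo 24; moreover 3 and 5 are bad for `W'` only
if they are bad for `W`. The proof has four parts.

* **The pencil** (sections 1-3). The curves `E_(l:m)` of the Hesse pencil of `W` have the invariants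
  `c₄ = C₄(l, m)`, `c₆ = C₆(l, m)`, explicit binary forms of degree 4 and 6, and their discriminant is
  `Δ(W) D(l, m)³` with a quartic form `D`. An explicit projective linear map carries the points of order 3 of
  `W` to those of `E_(l:m)`; it respects collinearity, that is addition, and it commutes with Frobenius.
  Hence the numbers of points are congruent modulo 3: no modular curve and no representation is needed. In
  the coordinates `l = 4 X + b₂ Y`, `m = Y` everything can be divided by powers of 2, and one gets forms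
  `P, C4, C6` in `ℤ[X, Y]`; by the criterion of Kraus `(C4, C6)` belongs to an integral model under
  conditions at 2 and 3 only.
* **Local conditions** (section 4). At every prime `p` there is a pair `(x, y)` such that all `(X, Y)`
  congruent to it modulo `p³` give a curve which is semistable at `p` and has discriminant of odd order at
  `p` if `p` is bad: if the order of `Δ(W)` is odd or zero, one takes `(1, 0)`, that is `W` itself; if it is
  even and positive, a simple zero of `P` modulo `p` (the order of `Δ P³` is then even + 3). At a prime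
  `p ≠ 2, 3` of good reduction modulo which `D` has a zero one can also make `p` bad.
* **The sieve** (sections 5 and 6). Outside a finite set of primes the only condition is that `P(X, Y)` is
  not divisible by `p²`, for coprime `X, Y`. A binary quartic form without multiple factors takes such values
  in every residue class and in every cone of the real plane; a cone is used to make the discriminant
  negative. Only `π(x) = o(x)` is needed.
* **Auxiliary primes** (section 7). Frobenius' density theorem, applied to complex conjugation, gives a prime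
  `r ≡ -1` modulo 24 modulo which `D` has a zero (because `D` has a real zero); `r` is made bad.

## Notation

`hD, hC4, hC6, hG, hL` are the forms of section 1 with coefficients in any ring, `P W, C4 W, C6 W` the
integral forms of section 3; `H98.short a b` is the curve `y² = x³ - 27 a x - 54 b`, which has `c₄ = 6⁴ a`,
`c₆ = 6⁶ b`. `H74.Sv.qf a0 … a4 l m` is the binary quartic form with coefficients `a0, …, a4` and `H74.Sv.qp`
the polynomial `qf(x, 1)`.

Closure: S01, S03, S04, S06, S38, S45, S46, S50, S59, S60, through `H3LT.exists_goodCurve`. NOTES.md, notes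
[93], [267], [311]. Authors of the theorems: helper3 (`H3LTFam`, `H3LTInt`, `H3LTLoc`, `H3LTLoc2`,
`H3LTCurve`, `H3LTPrime`, `H3LTPartner`, `H3LTM1`), helper74 (`H74Sv*`), helper52 (`H52Congr3`), helper98
(`H98Short`), helper82 (`H82FrobDensity`). Guide: helper82.
-/

set_option autoImplicit false

open Polynomial
open Fermat.Agent.H3LT (hD hC4 hC6 hG hL Loc)
open Fermat.Agent.H98 (short)
open Fermat.Agent.H52 (Is3 P3 F3 np)
open Fermat.Agent.H74.Sv (qf qp)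

namespace Fermat.Agent.Guide.GoodCurve

/-!
## 1. The forms of the Hesse pencil

`a` and `b` are the invariants `c₄`, `c₆` of the given curve, and `(l : m)` is the parameter of the pencil;
`(1 : 0)` gives the curve itself.
-/

section Pencil

variable {R : Type*} [CommRing R] (a b l m : R)

/-- **The forms.** `D = l⁴ - 6 a l² m² - 8 b l m³ - 3 a² m⁴` (the 3-division polynomial, made homogeneous:
the points of order 3 of `y² = x³ - 27 a x - 54 b` have `x = 3 z`, `D(z, 1) = 0`), the two partial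
derivatives of `D` up to the factors `4` and `-4`, and the invariants `C₄`, `C₆` of the member `(l : m)`. At
`(1 : 0)` they are `1`, `a` and `b`. (`H3LTFam`) -/
theorem forms :
    hD a b l m = l ^ 4 - 6 * a * l ^ 2 * m ^ 2 - 8 * b * l * m ^ 3 - 3 * a ^ 2 * m ^ 4 ∧
      hG a b l m = l ^ 3 - 3 * a * l * m ^ 2 - 2 * b * m ^ 3 ∧
      hL a b l m = 3 * a * l ^ 2 * m + 6 * b * l * m ^ 2 + 3 * a ^ 2 * m ^ 3 ∧
      hC4 a b l m = a * l ^ 4 + 4 * b * l ^ 3 * m + 6 * a ^ 2 * l ^ 2 * m ^ 2 + 4 * a * b * l * m ^ 3 -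
        (3 * a ^ 3 - 4 * b ^ 2) * m ^ 4 ∧
      hC6 a b l m = b * l ^ 6 + 6 * a ^ 2 * l ^ 5 * m + 15 * a * b * l ^ 4 * m ^ 2 +
        20 * b ^ 2 * l ^ 3 * m ^ 3 + 15 * a ^ 2 * b * l ^ 2 * m ^ 4 +
        6 * (3 * a ^ 4 - 2 * a * b ^ 2) * l * m ^ 5 + (9 * a ^ 3 * b - 8 * b ^ 3) * m ^ 6 ∧
      hC4 a b l m ^ 3 - hC6 a b l m ^ 2 = (a ^ 3 - b ^ 2) * hD a b l m ^ 3 :=
  ⟨rfl, rfl, rfl, rfl, rfl, H3LT.hC4_pow_sub_hC6_sq a b l m⟩

/-- **Two relations.** `G² = D (l² - a m²) + m² C₄`, and Euler's relation `l G - m L = D`. The first one is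
used to see that `C₄` does not vanish at a simple zero of `D` (so the reduction is multiplicative there).
(`H3LTFam`) -/
theorem relations :
    hG a b l m ^ 2 = hD a b l m * (l ^ 2 - a * m ^ 2) + m ^ 2 * hC4 a b l m ∧
      l * hG a b l m - m * hL a b l m = hD a b l m :=
  ⟨H3LT.hG_sq a b l m, H3LT.hD_eq a b l m⟩

/-- **The pencil of a member is the same pencil**: the form `D` of the curve with invariants
`C₄(l, m), C₆(l, m)`, multiplied by `D(l, m)`, is the form `D` of the given curve after the linear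
substitution with the matrix of columns `(l, m)`, `(L, G)`, whose determinant is `D(l, m)`. (`H3LTFam`) -/
theorem composition (s t : R) :
    hD a b l m * hD (hC4 a b l m) (hC6 a b l m) s t =
      hD a b (s * l + t * hL a b l m) (s * m + t * hG a b l m) :=
  H3LT.hD_comp a b l m s t

end Pencil

section Field

variable {F : Type*} [Field F]

/-- **`D` has no multiple zero** if `a³ ≠ b²` and the characteristic is not 2 or 3: `D(l, m) = G(l, m) = 0`
implies `l = m = 0`. (Otherwise `m ≠ 0`. From `l G - D = 3 m² (a l² + 2 b l m + a² m²)` the bracket is zero;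
from it and `a G` one gets `b l² + 2 a² l m + a b m² = 0`, and a combination of the two is
`2 (a³ - b²) l m = 0`; so `l = 0`, `a = b = 0`.) (`H3LTLoc`) -/
theorem no_multiple_zero (h2 : (2 : F) ≠ 0) (h3 : (3 : F) ≠ 0) {a b l m : F} (hab : a ^ 3 - b ^ 2 ≠ 0)
    (hD0 : hD a b l m = 0) (hG0 : hG a b l m = 0) : l = 0 ∧ m = 0 :=
  H3LT.no_common h2 h3 hab hD0 hG0

/-- **Multiplicative reduction**: if `a³ = b²`, `a ≠ 0` and the characteristic is not 2, then `D` still has a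
simple zero, at `l = 3 b / a`. (For `a = u²`, `b = u³` it is `D(l, 1) = (l - 3 u) (l + u)³`.) (`H3LTLoc`) -/
theorem zero_in_nodal_case (h2 : (2 : F) ≠ 0) {a b l : F} (hab : a ^ 3 = b ^ 2) (ha : a ≠ 0)
    (hl : a * l = 3 * b) : hD a b l 1 = 0 ∧ hG a b l 1 ≠ 0 :=
  H3LT.cusp_root h2 hab ha hl

/-- **At a simple zero of `D` the invariant `C₄` is not zero.** From `relations`: `G² = m² C₄` there.
(`H3LTLoc`) -/
theorem c4_at_simple_zero {a b l : F} (hD0 : hD a b l 1 = 0) (hG0 : hG a b l 1 ≠ 0) : hC4 a b l 1 ≠ 0 :=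
  H3LT.C4_ne_zero_of_G hD0 hG0

end Field

/-!
## 2. The congruence modulo three

The points of order three of `short a b`, that is `y² = x³ - 27 a x - 54 b`, are the points `(3 z, y)` with
`D(z, 1) = 0` and `y² = 27 G(z, 1)`. The pair `(z, y)` is the parameter of the point `P3 a b (z, y)`; the
condition is called `Is3 a b (z, y)`.
-/

section Congruence

/-- **The notions**: the condition `Is3`, the map `F3` of parameters, which is
`(z, y) ↦ ((z G - L) / (l - z m), y D / (l - z m))`, and `np (z, y) = (z, -y)`. (`H52Congr3`) -/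
theorem notions_of_three_torsion {K : Type*} [Field K] (a b l m : K) (p : K × K) :
    (Is3 a b p ↔ hD a b p.1 1 = 0 ∧ p.2 ^ 2 = 27 * hG a b p.1 1) ∧
      F3 a b l m p = ((p.1 * hG a b l m - hL a b l m) / (l - p.1 * m),
        p.2 * hD a b l m / (l - p.1 * m)) ∧
      np p = (p.1, -p.2) :=
  ⟨Iff.rfl, rfl, rfl⟩

/-- **The forms at the image.** For `S = z G(l, m) - L(l, m)` and `T = l - z m`,
`D'(S, T) D(l, m) = D(l, m)⁴ D(z, 1)` and `G'(S, T) = D(l, m)² (T G(z, 1) + m D(z, 1))`, where `D'`, `G'` are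
the forms of the member `(l : m)`. The first is `composition` (`S (l, m) + T (L, G) = D(l, m) (z, 1)` by
Euler's relation), the second is computed. (`H52Congr3`) -/
theorem forms_at_image {R : Type*} [CommRing R] (a b l m z : R) :
    hD (hC4 a b l m) (hC6 a b l m) (z * hG a b l m - hL a b l m) (l - z * m) * hD a b l m =
        hD a b l m ^ 4 * hD a b z 1 ∧
      hG (hC4 a b l m) (hC6 a b l m) (z * hG a b l m - hL a b l m) (l - z * m) =
        hD a b l m ^ 2 * ((l - z * m) * hG a b z 1 + m * hD a b z 1) :=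
  ⟨H52.hD_ST a b l m z, H52.hG_ST a b l m z⟩

variable {K : Type*} [Field K] [DecidableEq K]

omit [DecidableEq K] in
/-- **The map of parameters is defined** at the points of order three (`l - z m ≠ 0`, because
`D(z m, m) = m⁴ D(z, 1)`), and it gives parameters of points of order three of the member `(l : m)`. It
respects `(z, y) ↦ (z, -y)`. (`H52Congr3`) -/
theorem map_of_parameters {a b l m : K} (hD0 : hD a b l m ≠ 0) {p : K × K} (h : Is3 a b p) :
    l - p.1 * m ≠ 0 ∧ Is3 (hC4 a b l m) (hC6 a b l m) (F3 a b l m p) ∧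
      F3 a b l m (np p) = np (F3 a b l m p) :=
  ⟨H52.t_ne_zero hD0 h.1, h.F hD0, H52.F3_np a b l m p⟩

/-- **The points of order three.** If `a³ ≠ b²` and the characteristic is not 2 or 3, then the points of the
parameters with `Is3` are different from zero, they are killed by 3, different parameters give different
points, and `(z, -y)` gives the negative of the point. (`H52Congr3`) -/
theorem points_of_order_three (h2 : (2 : K) ≠ 0) (h3 : (3 : K) ≠ 0) {a b : K} (hab : a ^ 3 - b ^ 2 ≠ 0)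
    {p q : K × K} (hp : Is3 a b p) (hq : Is3 a b q) :
    P3 a b p ≠ 0 ∧ P3 a b p + P3 a b p + P3 a b p = 0 ∧ (P3 a b p = P3 a b q → p = q) ∧
      P3 a b (np p) = -P3 a b p :=
  ⟨H52.P3_ne_zero h2 h3 hab hp, H52.P3_three h2 h3 hab hp, H52.P3_inj h2 h3 hab hp hq,
    H52.P3_np h2 h3 hab hp⟩

/-- **Collinear points have the sum zero** (three points with different `z`-coordinates). (`H52Congr3`) -/
theorem collinear_sum (h2 : (2 : K) ≠ 0) (h3 : (3 : K) ≠ 0) {a b α β : K} (hab : a ^ 3 - b ^ 2 ≠ 0)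
    {p1 p2 p3 : K × K} (q1 : p1.2 ^ 2 = 27 * hG a b p1.1 1) (q2 : p2.2 ^ 2 = 27 * hG a b p2.1 1)
    (q3 : p3.2 ^ 2 = 27 * hG a b p3.1 1) (h12 : p1.1 ≠ p2.1) (h13 : p1.1 ≠ p3.1) (h23 : p2.1 ≠ p3.1)
    (c1 : p1.2 = α * p1.1 + β) (c2 : p2.2 = α * p2.1 + β) (c3 : p3.2 = α * p3.1 + β) :
    P3 a b p1 + P3 a b p2 + P3 a b p3 = 0 :=
  H52.col_sum h2 h3 hab q1 q2 q3 h12 h13 h23 c1 c2 c3

/-- **Points of sum zero are collinear**: the converse of `collinear_sum`. (`H52Congr3`) -/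
theorem sum_collinear (h2 : (2 : K) ≠ 0) (h3 : (3 : K) ≠ 0) {a b : K} (hab : a ^ 3 - b ^ 2 ≠ 0)
    {p1 p2 p3 : K × K} (q1 : p1.2 ^ 2 = 27 * hG a b p1.1 1) (q2 : p2.2 ^ 2 = 27 * hG a b p2.1 1)
    (q3 : Is3 a b p3) (h12 : p1.1 ≠ p2.1) (hs : P3 a b p1 + P3 a b p2 + P3 a b p3 = 0) :
    ∃ α β : K, p1.2 = α * p1.1 + β ∧ p2.2 = α * p2.1 + β ∧ p3.2 = α * p3.1 + β :=
  H52.sum_col h2 h3 hab q1 q2 q3 h12 hs

/-- **Relations are carried over.** A relation `P₂ + s P₁ + t P₀ = 0`, `s, t ∈ ℤ`, between points of order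
three of the given curve holds for their images on the member `(l : m)`. (Modulo 3 the integers `s, t` are
`0, 1, -1`, which leaves relations between two points, that is `(z, y) ↦ (z, -y)`, and sums of three points.
In such a sum either all three are equal or the `z`-coordinates are different, the points are collinear by
`sum_collinear`, and `F3` is a projective linear map of the plane of `(z, y)`, so the images are collinear.)
(`H52Congr3`) -/
theorem relations_carried_over (h2 : (2 : K) ≠ 0) (h3 : (3 : K) ≠ 0) {a b l m : K}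
    (hab : a ^ 3 - b ^ 2 ≠ 0) (hD0 : hD a b l m ≠ 0) (hab' : hC4 a b l m ^ 3 - hC6 a b l m ^ 2 ≠ 0)
    {p0 p1 p2 : K × K} (q0 : Is3 a b p0) (q1 : Is3 a b p1) (q2 : Is3 a b p2) (s t : ℤ)
    (hs : P3 a b p2 + s • P3 a b p1 + t • P3 a b p0 = 0) :
    P3 (hC4 a b l m) (hC6 a b l m) (F3 a b l m p2) +
        s • P3 (hC4 a b l m) (hC6 a b l m) (F3 a b l m p1) +
        t • P3 (hC4 a b l m) (hC6 a b l m) (F3 a b l m p0) = 0 :=
  H52.F3_rel h2 h3 hab hD0 hab' q0 q1 q2 s t hs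

/-- **Transfer.** Let `K` be algebraically closed, `σ` an endomorphism of `K` which fixes `a, b, l, m`, and
`Φ`, `Φ'` the homomorphisms `(x, y) ↦ (σ x, σ y)` on the points of the given curve and of the member
`(l : m)`. There are points `P` and `P'` (of order three in the proof) such that `n Φ' P' = 0` only for
`3 ∣ n`, and such that every relation `Φ² P - s Φ P + t P = 0` implies `Φ'² P' - s Φ' P' + t P' = 0`. With
`σ` the Frobenius over `𝔽_ℓ` and its characteristic equation (`GuideCurves`) on both curves,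
`(a'_ℓ - a_ℓ) Φ' P' = 0`, so the traces are congruent modulo 3; this is
`GuideResidualSteps.hesse_pencil_congruence`. (`H52Congr3`) -/
theorem transfer [IsAlgClosed K] (h2 : (2 : K) ≠ 0) (h3 : (3 : K) ≠ 0) (σ : K →+* K) {a b l m : K}
    (hab : a ^ 3 - b ^ 2 ≠ 0) (hD0 : hD a b l m ≠ 0) (σa : σ a = a) (σb : σ b = b)
    (σl : σ l = l) (σm : σ m = m)
    (Φ : (short a b).toAffine.Point →+ (short a b).toAffine.Point)
    (hΦ : ∀ x y (h : (short a b).toAffine.Nonsingular x y), ∃ h', Φ (.some x y h) = .some (σ x) (σ y) h')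
    (Φ' : (short (hC4 a b l m) (hC6 a b l m)).toAffine.Point →+
      (short (hC4 a b l m) (hC6 a b l m)).toAffine.Point)
    (hΦ' : ∀ x y (h : (short (hC4 a b l m) (hC6 a b l m)).toAffine.Nonsingular x y),
      ∃ h', Φ' (.some x y h) = .some (σ x) (σ y) h') :
    ∃ (P : (short a b).toAffine.Point) (P' : (short (hC4 a b l m) (hC6 a b l m)).toAffine.Point),
      (∀ n : ℤ, n • Φ' P' = 0 → (3 : ℤ) ∣ n) ∧
      ∀ s t : ℤ, Φ (Φ P) - s • Φ P + t • P = 0 → Φ' (Φ' P') - s • Φ' P' + t • P' = 0 :=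
  H52.transfer3 h2 h3 σ hab hD0 σa σb σl σm rfl rfl Φ hΦ Φ' hΦ'

end Congruence

/-!
## 3. Integral models

For an integral curve `W` the forms `P`, `C4`, `C6` in `X, Y` have integral coefficients.
-/

section Integral

variable (W : WeierstrassCurve ℤ)

/-- **The integral forms.** With `l = 4 X + b₂ Y`, `m = Y` one has `D = 256 P`, `C₄ = 256 C4`,
`C₆ = 4096 C6`; `P = X⁴ + b₂ X³ Y + 9 b₄ X² Y² + 27 b₆ X Y³ + 27 b₈ Y⁴` (so `P(3 x, 1)` is 27 times the
3-division polynomial), and `C4`, `C6` have integral coefficients too. (`H3LTInt`) -/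
theorem integral_forms (X Y : ℤ) :
    256 * H3LT.P W X Y = hD W.c₄ W.c₆ (4 * X + W.b₂ * Y) Y ∧
      256 * H3LT.C4 W X Y = hC4 W.c₄ W.c₆ (4 * X + W.b₂ * Y) Y ∧
      4096 * H3LT.C6 W X Y = hC6 W.c₄ W.c₆ (4 * X + W.b₂ * Y) Y ∧
      H3LT.P W X Y = X ^ 4 + W.b₂ * X ^ 3 * Y + 9 * W.b₄ * X ^ 2 * Y ^ 2 + 27 * W.b₆ * X * Y ^ 3 +
        27 * W.b₈ * Y ^ 4 :=
  ⟨H3LT.P_eq W X Y, H3LT.C4_eq W X Y, H3LT.C6_eq W X Y, rfl⟩

/-- **The discriminant**: `1728 Δ(W) P³ = C4³ - C6²`. So a curve with the invariants `C4`, `C6` has the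
discriminant `Δ(W) P³`. (`H3LTInt`) -/
theorem integral_discriminant (X Y : ℤ) :
    1728 * (W.Δ * H3LT.P W X Y ^ 3) = H3LT.C4 W X Y ^ 3 - H3LT.C6 W X Y ^ 2 :=
  H3LT.C_relation W X Y

/-- **Values.** At `(1, 0)` the forms are `1`, `c₄`, `c₆` (the curve `W` itself), and `P(-b₂, 4) = -3 c₄²`
(used for the sign of the discriminant). (`H3LTInt`) -/
theorem values :
    H3LT.P W 1 0 = 1 ∧ H3LT.C4 W 1 0 = W.c₄ ∧ H3LT.C6 W 1 0 = W.c₆ ∧
      H3LT.P W (-W.b₂) 4 = -3 * W.c₄ ^ 2 :=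
  ⟨H3LT.P_one_zero W, H3LT.C4_one_zero W, H3LT.C6_one_zero W, H3LT.P_neg W⟩

/-- **Congruences**: the values of the forms modulo `M` depend only on `X` and `Y` modulo `M`. (`H3LTInt`) -/
theorem congruences {X Y X' Y' M : ℤ} (hX : M ∣ X - X') (hY : M ∣ Y - Y') :
    M ∣ H3LT.P W X Y - H3LT.P W X' Y' ∧ M ∣ H3LT.C4 W X Y - H3LT.C4 W X' Y' ∧
      M ∣ H3LT.C6 W X Y - H3LT.C6 W X' Y' :=
  ⟨H3LT.P_congr W hX hY, H3LT.C4_congr W hX hY, H3LT.C6_congr W hX hY⟩

/-- **The `b`-invariants** (Kraus). Let `1728 Δ = c₄³ - c₆²` with `c₆ ≡ 3` modulo 4, and `3 ∤ c₆` or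
`27 ∣ c₆`. Then there are integers `b₂ ≡ 1` modulo 4, `b₄`, `b₆` with `c₄ = b₂² - 24 b₄` and
`c₆ = -b₂³ + 36 b₂ b₄ - 216 b₆`. (`b₂` is `1`, `5` or `-3`, according to `c₆` modulo 3; the other two are
then determined, and their integrality is a finite check modulo 16, 8 and 27, `H3LT.kraus16`, `kraus8`,
`kraus27`.) (`H3LTInt`) -/
theorem kraus_b (c4 c6 Δ : ℤ) (hrel : 1728 * Δ = c4 ^ 3 - c6 ^ 2) (h2 : c6 % 4 = 3)
    (h3 : ¬ (3 : ℤ) ∣ c6 ∨ (27 : ℤ) ∣ c6) :
    ∃ b2 b4 b6 : ℤ, b2 % 4 = 1 ∧ b2 ^ 2 - 24 * b4 = c4 ∧ -b2 ^ 3 + 36 * b2 * b4 - 216 * b6 = c6 :=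
  H3LT.exists_b c4 c6 Δ hrel h2 h3

/-- **Kraus' criterion**, case `c₆ ≡ 3` modulo 4: under the conditions of `kraus_b` there is an integral
Weierstrass curve with these `c₄`, `c₆` and `Δ`. (`a₁ = 1`, `b₂ = 1 + 4 a₂`, `b₄ = a₃ + 2 a₄` with `a₃ = 0`
or `1`, and `b₆ ≡ b₄²` modulo 4 from the formula for `4 Δ`.) (`H3LTInt`) -/
theorem kraus (c4 c6 Δ : ℤ) (hrel : 1728 * Δ = c4 ^ 3 - c6 ^ 2) (h2 : c6 % 4 = 3)
    (h3 : ¬ (3 : ℤ) ∣ c6 ∨ (27 : ℤ) ∣ c6) :
    ∃ W : WeierstrassCurve ℤ, W.c₄ = c4 ∧ W.c₆ = c6 ∧ W.Δ = Δ :=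
  H3LT.exists_model c4 c6 Δ hrel h2 h3

end Integral

/-!
## 4. Local conditions

`Loc W p X Y` is the condition at the prime `p` for the member `(X, Y)`.
-/

section Local

variable (W : WeierstrassCurve ℤ)

/-- **The local condition** `Loc W p X Y`: `p²` does not divide `P`; if `p` divides `Δ(W) P`, then `p` does
not divide `C4` and the order of `Δ(W) P³` at `p` is odd; and, for `p = 3`, the condition of Kraus'
criterion. (`H3LTLoc2`) -/
theorem local_condition_iff (p : ℕ) (X Y : ℤ) : Loc W p X Y ↔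
    ¬ (p : ℤ) ^ 2 ∣ H3LT.P W X Y ∧
      ((p : ℤ) ∣ W.Δ * H3LT.P W X Y →
        ¬ (p : ℤ) ∣ H3LT.C4 W X Y ∧ Odd (padicValInt p (W.Δ * H3LT.P W X Y ^ 3))) ∧
      (p = 3 → ¬ (3 : ℤ) ∣ H3LT.C6 W X Y ∨ (27 : ℤ) ∣ H3LT.C6 W X Y) :=
  ⟨fun h => ⟨h.sq, h.ss, h.three⟩, fun h => ⟨h.1, h.2.1, h.2.2⟩⟩

/-- **A simple zero at an odd prime.** Let `p` be odd. If `p` divides `Δ(W)` but not `c₄` (multiplicative
reduction), or if `p ≠ 3` is a prime of good reduction modulo which `D(·, 1)` has a zero, then there is an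
`x` with `p ∣ P(x, 1)`, `p² ∤ P(x, 1)` and `p ∤ C4(x, 1)`. (A simple zero of `D` modulo `p` by
`zero_in_nodal_case` or `no_multiple_zero`; if `p²` divides `P(x, 1)`, replace `x` by `x + p`.) (`H3LTLoc`)
-/
theorem simple_zero_odd {p : ℕ} (hp : p.Prime) (hp2 : p ≠ 2)
    (h : ((p : ℤ) ∣ W.Δ ∧ ¬ (p : ℤ) ∣ W.c₄) ∨
      (p ≠ 3 ∧ ¬ (p : ℤ) ∣ W.Δ ∧ ∃ l : ℤ, (p : ℤ) ∣ hD W.c₄ W.c₆ l 1)) :
    ∃ x : ℤ, (p : ℤ) ∣ H3LT.P W x 1 ∧ ¬ (p : ℤ) ^ 2 ∣ H3LT.P W x 1 ∧ ¬ (p : ℤ) ∣ H3LT.C4 W x 1 :=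
  H3LT.loc_odd W hp hp2 h

/-- **A simple zero at 2**, if `W` has multiplicative reduction there. In this case `b₂ ≡ 1` and `b₆ ≡ b₄²`
modulo 4, and `b₈` is even; what remains is a finite check modulo 4 (`H3LT.two4`). (`H3LTLoc2`) -/
theorem simple_zero_two (h2 : (2 : ℤ) ∣ W.Δ) (hc4 : ¬ (2 : ℤ) ∣ W.c₄) :
    W.b₂ % 4 = 1 ∧ ((W.b₆ : ℤ) : ZMod 4) = (W.b₄ : ZMod 4) ^ 2 ∧
      (((W.b₈ : ℤ) : ZMod 4) = 0 ∨ ((W.b₈ : ℤ) : ZMod 4) = 2) ∧
      ∃ x y : ℤ, (2 : ℤ) ∣ H3LT.P W x y ∧ ¬ (2 : ℤ) ^ 2 ∣ H3LT.P W x y ∧ ¬ (2 : ℤ) ∣ H3LT.C4 W x y :=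
  ⟨H3LT.b2_mod W hc4, H3LT.b6_mod W hc4, H3LT.b8_cast W h2 hc4, H3LT.loc_two W h2 hc4⟩

/-- **Kraus' condition at 2**: if `c₄` and `C4(X, Y)` are odd, then `C6(X, Y) ≡ 3` modulo 4 (finite check
modulo 4, `H3LT.two4'`). **At 3**: `3 ∤ c₆` or `27 ∣ c₆` for every integral curve. And if a prime `p` divides
`Δ(W) P` but not `C4`, then it does not divide `C6` (by `integral_discriminant`). (`H3LTLoc2`) -/
theorem kraus_conditions :
    (¬ (2 : ℤ) ∣ W.c₄ → ∀ X Y : ℤ, ¬ (2 : ℤ) ∣ H3LT.C4 W X Y → H3LT.C6 W X Y % 4 = 3) ∧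
      (¬ (3 : ℤ) ∣ W.c₆ ∨ (27 : ℤ) ∣ W.c₆) ∧
      ∀ (X Y : ℤ) (p : ℕ), p.Prime → (p : ℤ) ∣ W.Δ * H3LT.P W X Y → ¬ (p : ℤ) ∣ H3LT.C4 W X Y →
        ¬ (p : ℤ) ∣ H3LT.C6 W X Y :=
  ⟨fun h _ _ h' => H3LT.C6_mod W h h', H3LT.c6_three W, fun _ _ _ hp h h' => H3LT.not_dvd_C6 W hp h h'⟩

/-- **Near `(1, 0)`.** Let `W` be semistable at `p`, with discriminant of order zero or of odd order at `p`.
Then all `(X, Y) ≡ (1, 0)` modulo `p³` satisfy the local condition at `p`. (`H3LTLoc2`) -/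
theorem near_one_zero {p : ℕ} (hp : p.Prime) (hΔ : W.Δ ≠ 0)
    (h : (p : ℤ) ∣ W.Δ → ¬ (p : ℤ) ∣ W.c₄ ∧ Odd (padicValInt p W.Δ)) {X Y : ℤ}
    (hX : (p : ℤ) ^ 3 ∣ X - 1) (hY : (p : ℤ) ^ 3 ∣ Y - 0) : Loc W p X Y :=
  H3LT.loc_one_zero W hp hΔ h hX hY

/-- **Near a simple zero.** Let the order of `Δ(W)` at `p` be even (for instance zero), and let `(x, y)` be
as in `simple_zero_odd`. Then all `(X, Y) ≡ (x, y)` modulo `p³` satisfy the local condition at `p`, and `p`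
divides `P(X, Y)`: the order of `Δ(W) P³` is even + 3. (`H3LTLoc2`) -/
theorem near_simple_zero {p : ℕ} (hp : p.Prime) (hΔ : W.Δ ≠ 0) {x y : ℤ} (hP : (p : ℤ) ∣ H3LT.P W x y)
    (hP2 : ¬ (p : ℤ) ^ 2 ∣ H3LT.P W x y) (h4 : ¬ (p : ℤ) ∣ H3LT.C4 W x y)
    (h : Even (padicValInt p W.Δ)) {X Y : ℤ} (hX : (p : ℤ) ^ 3 ∣ X - x) (hY : (p : ℤ) ^ 3 ∣ Y - y) :
    Loc W p X Y ∧ (p : ℤ) ∣ H3LT.P W X Y :=
  H3LT.loc_root W hp hΔ hP hP2 h4 h hX hY

/-- **Existence of the local conditions**: for `W` semistable there is at every prime `p` a residue class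
modulo `p³` in which the local condition holds, without new bad reduction at `p`; and at a prime `p ≠ 2, 3`
of good reduction modulo which `D(·, 1)` has a zero there is one in which `p` divides `P`. (`H3LTLoc2`,
`H3LTCurve`) -/
theorem local_classes (hΔ : W.Δ ≠ 0) {p : ℕ} (hp : p.Prime) :
    (W.IsSemistableModel → ∃ x y : ℤ, ∀ X Y : ℤ, (p : ℤ) ^ 3 ∣ X - x → (p : ℤ) ^ 3 ∣ Y - y →
        Loc W p X Y ∧ (¬ (p : ℤ) ∣ W.Δ → ¬ (p : ℤ) ∣ H3LT.P W X Y)) ∧
      (p ≠ 2 → p ≠ 3 → ¬ (p : ℤ) ∣ W.Δ → ∀ l : ℤ, (p : ℤ) ∣ hD W.c₄ W.c₆ l 1 →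
        ∃ x y : ℤ, ∀ X Y : ℤ, (p : ℤ) ^ 3 ∣ X - x → (p : ℤ) ^ 3 ∣ Y - y →
          Loc W p X Y ∧ (p : ℤ) ∣ H3LT.P W X Y) :=
  ⟨fun hW => H3LT.exists_loc_good W hΔ hW hp, fun h2 h3 h _ hl => H3LT.exists_loc_r W hΔ hp h2 h3 h hl⟩

/-- **Away from `6 Δ(W)`**: at such a prime `p`, if `p` divides `P(X, Y)` and `C4(X, Y)`, then it divides `X`
and `Y` (by `relations` `p` divides `G`, and `no_multiple_zero`). So coprime `X, Y` give a curve which is
semistable there without any condition. (`H3LTLoc`) -/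
theorem semistable_away {p : ℕ} (hp : p.Prime) (hp2 : p ≠ 2) (hp3 : p ≠ 3) (h1 : ¬ (p : ℤ) ∣ W.Δ)
    {X Y : ℤ} (hP : (p : ℤ) ∣ H3LT.P W X Y) (hC : (p : ℤ) ∣ H3LT.C4 W X Y) :
    (p : ℤ) ∣ X ∧ (p : ℤ) ∣ Y :=
  H3LT.loc_gen W hp hp2 hp3 h1 hP hC

end Local

/-!
## 5. The squarefree sieve

`F(l, m) = a0 l⁴ + a1 l³ m + a2 l² m² + a3 l m³ + a4 m⁴` is a quartic form over `ℤ` with `a0 ≠ 0` such that
`f(x) = F(x, 1)` has no multiple root. The result is `GuideResidualSteps.squarefree_quartic_values` (note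
[311]). It is essential that the degree is four: among `Y²` pairs `(l, m)` of size `O(Y)` one has to avoid
`p² ∣ F(l, m)` only for the primes `p ≤ C Y²`, because `F(l, m) = O(Y⁴)`, and `π(C Y²)` is small compared to
`Y²`. (Squarefree values of more general forms are treated by Hooley and by Greaves; nothing of this is
used.) All steps with the counting lemmas: `GuideSieve`.
-/

section Sieve

/-- The quartic form and the polynomial. (`H74Sv1`) -/
theorem notions_of_sieve (a0 a1 a2 a3 a4 l m : ℤ) :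
    qf a0 a1 a2 a3 a4 l m =
        a0 * l ^ 4 + a1 * l ^ 3 * m + a2 * l ^ 2 * m ^ 2 + a3 * l * m ^ 3 + a4 * m ^ 4 ∧
      qp a0 a1 a2 a3 a4 = C a0 * X ^ 4 + C a1 * X ^ 3 + C a2 * X ^ 2 + C a3 * X + C a4 :=
  ⟨rfl, rfl⟩

/-- **Bezout's identity over `ℤ`**: if `f` has no multiple root, there are `U, V ∈ ℤ[x]` and an integer
`c ≠ 0` with `U f + V f' = c`. So `f` and `f'` have no common root modulo a prime which does not divide `c`.
(`H74Sv1`) -/
theorem bezout {f : Polynomial ℤ} (hf : (f.map (Int.castRingHom ℚ)).Separable) :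
    ∃ (U V : Polynomial ℤ) (c : ℤ), c ≠ 0 ∧ U * f + V * derivative f = C c :=
  H74.Sv.exists_bezout hf

/-- **At most four roots modulo `p²`**, if `p` does not divide `a0 c`. (Two roots modulo `p²` which are
congruent modulo `p` are equal, because `f'` is a unit there; and modulo `p` there are at most four.)
(`H74Sv1`) -/
theorem roots_modulo_square {a0 a1 a2 a3 a4 : ℤ} {U V : Polynomial ℤ} {c : ℤ}
    (hUV : U * qp a0 a1 a2 a3 a4 + V * derivative (qp a0 a1 a2 a3 a4) = C c)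
    {p : ℕ} (hp : p.Prime) (h0 : ¬ (p : ℤ) ∣ a0) (hc : ¬ (p : ℤ) ∣ c) :
    ∃ S : Finset (ZMod (p ^ 2)), S.card ≤ 4 ∧ ∀ x : ZMod (p ^ 2),
      ((qp a0 a1 a2 a3 a4).map (Int.castRingHom (ZMod (p ^ 2)))).eval x = 0 → x ∈ S :=
  H74.Sv.card_roots_sq_le hUV hp h0 hc

/-- **One row, a prime `p ∤ a0 c M`**: for fixed `m` prime to `p`, among `Y` consecutive integers `u` there
are at most `4 (Y / p² + 1)` for which `p²` divides `F(l0 + M u, m)`. (`(l0 + M u) / m` is one of the roots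
modulo `p²`, each of them is a residue class of `u`.) (`H74Sv2`, `H74Sv3`) -/
theorem bad_points_in_row {a0 a1 a2 a3 a4 : ℤ} {U V : Polynomial ℤ} {c : ℤ}
    (hUV : U * qp a0 a1 a2 a3 a4 + V * derivative (qp a0 a1 a2 a3 a4) = C c)
    {p : ℕ} (hp : p.Prime) (h0 : ¬ (p : ℤ) ∣ a0) (hc : ¬ (p : ℤ) ∣ c)
    (M l0 : ℤ) (hM : ¬ (p : ℤ) ∣ M) (m : ℤ) (hm : ¬ (p : ℤ) ∣ m) (a : ℤ) (Y : ℕ) :
    ((Finset.Ico a (a + Y)).filter (fun u => ((p : ℤ) ^ 2) ∣ qf a0 a1 a2 a3 a4 (l0 + M * u) m)).card ≤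
      4 * (Y / p ^ 2 + 1) :=
  H74.Sv.card_bad_row_le hUV hp h0 hc M l0 hM m hm a Y

/-- **A large prime**: let `p² > 2 L²`, `p ∤ a0 c`. In a set of coprime pairs `(l, m)` of the given residue
class with `|l|, m ≤ L`, `m > 0`, for which `p²` divides `F(l, m)`, there are at most four elements. (Two
pairs with the same root `l / m` modulo `p²` satisfy `l m' ≡ l' m`, hence `l m' = l' m`, hence they are
equal.) (`H74Sv3`) -/
theorem bad_points_large_prime {a0 a1 a2 a3 a4 : ℤ} {U V : Polynomial ℤ} {c : ℤ}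
    (hUV : U * qp a0 a1 a2 a3 a4 + V * derivative (qp a0 a1 a2 a3 a4) = C c)
    {p : ℕ} (hp : p.Prime) (h0 : ¬ (p : ℤ) ∣ a0) (hc : ¬ (p : ℤ) ∣ c)
    (M l0 m0 : ℤ) (hM0 : M ≠ 0) (T : Finset (ℤ × ℤ)) (L : ℤ) (hL : 2 * L ^ 2 < (p : ℤ) ^ 2)
    (hT : ∀ w ∈ T, ((p : ℤ) ^ 2) ∣ qf a0 a1 a2 a3 a4 (l0 + M * w.1) (m0 + M * w.2) ∧
      IsCoprime (l0 + M * w.1) (m0 + M * w.2) ∧ |l0 + M * w.1| ≤ L ∧ 0 < m0 + M * w.2 ∧
      m0 + M * w.2 ≤ L) : T.card ≤ 4 :=
  H74.Sv.card_large_le hUV hp h0 hc M l0 m0 hM0 T L hL hT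

/-- **Two estimates**: `π(x) ≤ ε x` for large `x` (from Chebyshev's bound), and the sum of `1 / p²` over
integers `p ≥ z` is at most `1 / (z - 1)`; it is used with `z = 50`. (`H74Sv2`) -/
theorem estimates :
    (∀ ε : ℝ, 0 < ε → ∃ x₀ : ℕ, ∀ x : ℕ, x₀ ≤ x → (Nat.primeCounting x : ℝ) ≤ ε * x) ∧
      ∀ (z Y : ℕ), 2 ≤ z → ∀ S : Finset ℕ, (∀ p ∈ S, z ≤ p ∧ p ≤ Y) →
        ∑ p ∈ S, 1 / (p : ℝ) ^ 2 ≤ 1 / (z - 1 : ℝ) :=
  ⟨fun _ h => H74.Sv.primeCounting_small h, fun z Y hz S hS => H74.Sv.sum_inv_sq_le z Y hz S hS⟩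

/-- **The box lemma.** Let all primes less than 50 and all primes dividing `a0 c` divide `M`, and let
`(l0, m0)` be coprime at the primes of `M`. For large `Y` the square `[A Y, A Y + Y) × [E Y, E Y + Y)`
contains a point `(u, v)` such that `l = l0 + M u`, `m = m0 + M v` are coprime and no `p²` with `p ∤ M`
divides `F(l, m)`. (In the square `|l|, |m| ≤ Λ Y` with `Λ = |l0| + |m0| + M (|A| + E + 2)`. Of its `Y²`
points at most `∑ (Y / p + 1)² ≤ 4 Y² / 49 + Λ Y` have a common divisor `p ≤ Λ Y`; at most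
`Y ∑ 4 (Y / p² + 1) ≤ 4 Y² / 49 + 4 Y π(2 Λ Y)` are bad for a `p ≤ 2 Λ Y`, by `bad_points_in_row`; and at
most `4 π(C Y²)` are bad for a larger `p`, by `bad_points_large_prime`, because `p² ≤ |F(l, m)| ≤ C² Y⁴` if
`F(l, m) ≠ 0`; the value `0` is excluded, since it would be divisible by the square of a small prime `p ∤ M`.
Together this is less than `Y²`.) (`H74Sv4`) -/
theorem box_lemma {a0 a1 a2 a3 a4 : ℤ} {U V : Polynomial ℤ} {c : ℤ}
    (hUV : U * qp a0 a1 a2 a3 a4 + V * derivative (qp a0 a1 a2 a3 a4) = C c)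
    (M : ℕ) (hM : 0 < M) (h50 : ∀ p : ℕ, p.Prime → p < 50 → p ∣ M)
    (ha0 : ∀ p : ℕ, p.Prime → (p : ℤ) ∣ a0 → p ∣ M)
    (hc : ∀ p : ℕ, p.Prime → (p : ℤ) ∣ c → p ∣ M)
    (l0 m0 : ℤ) (hcop : ∀ p : ℕ, p.Prime → p ∣ M → ¬ ((p : ℤ) ∣ l0 ∧ (p : ℤ) ∣ m0))
    (A : ℤ) (E : ℕ) (hE : 0 < E) :
    ∃ Y₀ : ℕ, ∀ Y : ℕ, Y₀ ≤ Y → ∃ u v : ℤ, A * Y ≤ u ∧ u < A * Y + Y ∧ (E : ℤ) * Y ≤ v ∧
      v < (E : ℤ) * Y + Y ∧ IsCoprime (l0 + M * u) (m0 + M * v) ∧
      ∀ p : ℕ, p.Prime → ¬ p ∣ M → ¬ ((p : ℤ) ^ 2 ∣ qf a0 a1 a2 a3 a4 (l0 + M * u) (m0 + M * v)) :=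
  H74.Sv.exists_good_in_box hUV M hM h50 ha0 hc l0 m0 hcop A E hE

/-- **Enlarging the modulus.** If for every prime `p ∤ M` the form has a value not divisible by `p²` (at a
pair not divisible by `p`), then finitely many primes can be put into the modulus, with a residue class above
the given one in which the values are not divisible by `p²` for the new primes `p`. (`H74Sv`) -/
theorem enlarge_modulus (a0 a1 a2 a3 a4 : ℤ) (M : ℕ) (hM : 0 < M) (l0 m0 : ℤ)
    (hcop : ∀ p : ℕ, p.Prime → p ∣ M → ¬ ((p : ℤ) ∣ l0 ∧ (p : ℤ) ∣ m0))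
    (hloc : ∀ p : ℕ, p.Prime → ¬ p ∣ M → ∃ l m : ℤ, ¬ ((p : ℤ) ∣ l ∧ (p : ℤ) ∣ m) ∧
      ¬ ((p : ℤ) ^ 2 ∣ qf a0 a1 a2 a3 a4 l m))
    (T : Finset ℕ) (hT : ∀ p ∈ T, p.Prime) :
    ∃ (M' : ℕ) (l1 m1 : ℤ), 0 < M' ∧ M ∣ M' ∧ (∀ p ∈ T, p ∣ M') ∧ l1 ≡ l0 [ZMOD M] ∧
      m1 ≡ m0 [ZMOD M] ∧ (∀ p : ℕ, p.Prime → p ∣ M' → ¬ ((p : ℤ) ∣ l1 ∧ (p : ℤ) ∣ m1)) ∧
      (∀ p : ℕ, p.Prime → p ∣ M' → ¬ p ∣ M →
        p ^ 2 ∣ M' ∧ ¬ ((p : ℤ) ^ 2 ∣ qf a0 a1 a2 a3 a4 l1 m1)) :=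
  H74.Sv.exists_enlarge a0 a1 a2 a3 a4 M hM l0 m0 hcop hloc T hT

/-- **A square in the cone**: for `x0 < x1` there are integers `A` and `E > 0` such that the square
`[A, A + 1] × [E, E + 1]` lies in the cone `x0 m < l < x1 m` (the four corners are enough). Its multiples by
large `Y` are the boxes to which `box_lemma` is applied. (`H74Sv`) -/
theorem square_in_cone (x0 x1 : ℝ) (hx : x0 < x1) :
    ∃ (A : ℤ) (E : ℕ), 0 < E ∧ x0 * E < A ∧ x0 * (E + 1) < A ∧ (A + 1 : ℝ) < x1 * E ∧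
      (A + 1 : ℝ) < x1 * (E + 1) :=
  H74.Sv.exists_cell x0 x1 hx

end Sieve

/-!
## 6. The choice of the member
-/

section Choice

variable (W : WeierstrassCurve ℤ)

/-- **`P` has no multiple factor**: the polynomial `P(x, 1)` is separable over `ℚ` (by `no_multiple_zero`
over the algebraic closure). (`H3LTCurve`) -/
theorem separable (hΔ : W.Δ ≠ 0) :
    (C ((1 : ℤ) : ℚ) * X ^ 4 + C ((W.b₂ : ℤ) : ℚ) * X ^ 3 + C ((9 * W.b₄ : ℤ) : ℚ) * X ^ 2 +
      C ((27 * W.b₆ : ℤ) : ℚ) * X + C ((27 * W.b₈ : ℤ) : ℚ) : ℚ[X]).Separable :=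
  H3LT.P_sep W hΔ

/-- **Negative discriminant**: there is a cone in which `Δ(W) P(X, Y) < 0`. (`P(T, 1) > 0` for large `T`, and
`P(-b₂, 4) = -3 c₄² < 0`; so `P` takes both signs, and one takes a neighbourhood of a suitable direction.)
(`H3LTCurve`) -/
theorem cone (hΔ : W.Δ ≠ 0) (hc4 : W.c₄ ≠ 0) : ∃ x0 x1 : ℝ, x0 < x1 ∧ ∀ X Y : ℤ, 0 < Y →
    x0 * Y < X → (X : ℝ) < x1 * Y → W.Δ * H3LT.P W X Y < 0 :=
  H3LT.exists_cone W hΔ hc4

/-- **The pair `(X, Y)`.** Let `c₄ ≠ 0` and let `S` be a finite set of primes with pairs `(x_p, y_p)`, not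
both divisible by `p`. There are coprime `X, Y` with `Δ(W) P(X, Y) < 0`, congruent to `(x_p, y_p)` modulo
`p³` for `p ∈ S`, such that `p²` does not divide `P(X, Y)` for `p ∉ S`. (The sieve, with the Chinese
remainder theorem and `cone`; the local hypothesis of the sieve holds because `P(1, 0) = 1`.) (`H3LTCurve`,
`H3LTM1`) -/
theorem choice_of_pair (hΔ : W.Δ ≠ 0) (hc4 : W.c₄ ≠ 0) (S : Finset ℕ) (hS : ∀ p ∈ S, p.Prime)
    (x y : ℕ → ℤ) (hxy : ∀ p ∈ S, ¬ ((p : ℤ) ∣ x p ∧ (p : ℤ) ∣ y p)) :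
    ∃ X Y : ℤ, W.Δ * H3LT.P W X Y < 0 ∧ IsCoprime X Y ∧
      (∀ p ∈ S, (p : ℤ) ^ 3 ∣ X - x p ∧ (p : ℤ) ^ 3 ∣ Y - y p) ∧
      ∀ p : ℕ, p.Prime → p ∉ S → ¬ (p : ℤ) ^ 2 ∣ H3LT.P W X Y :=
  H3LT.exists_XY W H3LT.sieve_proof hΔ hc4 S hS x y hxy

/-- **The member of the pencil.** Let `W` be semistable with even discriminant, `R` a finite set of primes
`≠ 2, 3` of good reduction modulo which `D(·, 1)` has a zero, and `T` a finite set of primes. There is a
member `W'` of the pencil which is an integral semistable model, with negative even discriminant of odd order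
at all bad primes, such that the primes of `R` are bad for `W'`, and a prime of `T` outside `R` only if it is
bad for `W`. (`S` is the set of the primes dividing `6 Δ(W)` or in `R` or `T`; local conditions from
`local_classes`, the pair from `choice_of_pair`, the model from `kraus`; at the primes outside `S`:
`semistable_away`, and the order of `P` is at most one, so that of `Δ P³` is 0 or 3.) (`H3LTCurve`) -/
theorem member (hΔ : W.Δ ≠ 0) (hW : W.IsSemistableModel) (h2 : (2 : ℤ) ∣ W.Δ)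
    (R : Finset ℕ) (hR : ∀ r ∈ R, r.Prime ∧ r ≠ 2 ∧ r ≠ 3 ∧ ¬ (r : ℤ) ∣ W.Δ ∧
      ∃ l : ℤ, (r : ℤ) ∣ hD W.c₄ W.c₆ l 1) (T : Finset ℕ) (hT : ∀ p ∈ T, p.Prime) :
    ∃ (X Y : ℤ) (W' : WeierstrassCurve ℤ), W'.c₄ = H3LT.C4 W X Y ∧ W'.c₆ = H3LT.C6 W X Y ∧
      W'.Δ = W.Δ * H3LT.P W X Y ^ 3 ∧ W'.Δ < 0 ∧ W'.IsSemistableModel ∧ (2 : ℤ) ∣ W'.Δ ∧
      (∀ ℓ : ℕ, ℓ.Prime → (ℓ : ℤ) ∣ W'.Δ → Odd (padicValInt ℓ W'.Δ)) ∧ (∀ r ∈ R, (r : ℤ) ∣ W'.Δ) ∧
      ∀ ℓ ∈ T, ℓ ∉ R → (ℓ : ℤ) ∣ W'.Δ → (ℓ : ℤ) ∣ W.Δ :=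
  H3LT.exists_curve_gen W H3LT.sieve_proof hΔ hW h2 R hR T hT

end Choice

/-!
## 7. The auxiliary primes
-/

section Primes

/-- **Auxiliary primes from Frobenius' density theorem.** Let `f` be a monic polynomial over `ℤ`, `n ≥ 1`,
and `c` an automorphism of `ℂ` with `c² = 1` which fixes a root of `f` and raises the `n`-th roots of unity
to the `e`-th power. Outside every finite set `S` there is a prime `r ≡ e` modulo `n` modulo which `f` has a
root. (Let `L` be the splitting field of `f (Xⁿ - 1)` and `σ` the restriction of `c`. There are a prime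
`r ∉ S`, `r ∤ n`, and a Frobenius element `φ` at a place above `r` which generates the same group as `σ`, so
`φ = σ`. The fixed root reduces to a root in `𝔽_r`, and `ζ^r = ζ^e` for the reduction of a primitive `n`-th
root of unity.) (`H3LTPrime`, from `GuideQuadRec.frobenius_density`) -/
theorem auxiliary_primes (f : ℤ[X]) (hf : f.Monic) (n : ℕ) (hn : 0 < n) (S : Finset ℕ)
    (c : ℂ ≃ₐ[ℚ] ℂ) (hc : c * c = 1) (x₀ : ℂ) (hx₀ : aeval x₀ f = 0) (hcx : c x₀ = x₀)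
    (e : ℤ) (hζ : ∀ ζ : ℂ, ζ ^ n = 1 → c ζ = ζ ^ e) :
    ∃ r : ℕ, r.Prime ∧ r ∉ S ∧ (n : ℤ) ∣ (r : ℤ) - e ∧ ∃ l : ℤ, (r : ℤ) ∣ f.eval l :=
  H3LT.exists_prime_core f hf n hn S c hc x₀ hx₀ hcx e hζ

/-- **Primes `r ≡ 1` and `r ≡ -1` modulo `n` modulo which `D(·, 1)` has a zero**, outside every finite set.
The first with `c = 1`; the second with complex conjugation, because `D(·, 1)` has a real zero:
`D(0, 1) = -3 a² ≤ 0` and `D(T, 1) ≥ 0` for large `T`. (`H3LTPrime`) -/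
theorem primes_for_pencil (a b : ℤ) (n : ℕ) (hn : 0 < n) (S : Finset ℕ) :
    (∃ r : ℕ, r.Prime ∧ r ∉ S ∧ (n : ℤ) ∣ (r : ℤ) - 1 ∧ ∃ l : ℤ, (r : ℤ) ∣ hD a b l 1) ∧
      ∃ r : ℕ, r.Prime ∧ r ∉ S ∧ (n : ℤ) ∣ (r : ℤ) + 1 ∧ ∃ l : ℤ, (r : ℤ) ∣ hD a b l 1 :=
  ⟨H3LT.exists_prime_one a b n hn S, H3LT.exists_prime_neg_one a b n hn S⟩

end Primes

/-!
## 8. The coefficients modulo three
-/

section Coefficients

/-- **Scaling**: over a field of characteristic not 2 or 3, `short (u⁴ c₄) (u⁶ c₆)` has as many points as the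
curve `W` (for every `u ≠ 0`; the case `u = 1` is `GuideSwitch`, `H98.card_short`). (`H3LTPartner`) -/
theorem scaling {F : Type*} [Field F] (h6 : (6 : F) ≠ 0) (W : WeierstrassCurve F) (u : F) (hu : u ≠ 0) :
    Nat.card (short (u ^ 4 * W.c₄) (u ^ 6 * W.c₆)).toAffine.Point = Nat.card W.toAffine.Point :=
  H3LT.card_short_scale h6 W u hu

/-- **The coefficients of a member**: let `W'` have the invariants `C4(X, Y)`, `C6(X, Y)`, `Δ(W) P(X, Y)³`.
At every prime `ℓ ≠ 2, 3` of good reduction for both curves `a_ℓ(W') ≡ a_ℓ(W)` modulo 3. (The congruence of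
section 2 over `𝔽_ℓ` for `(l, m) = (4 X + b₂ Y, Y)`, with `scaling` for `u = 4`, because `C₄ = 4⁴ C4`,
`C₆ = 4⁶ C6`.) (`H3LTPartner`) -/
theorem coefficients (W W' : WeierstrassCurve ℤ) (X Y : ℤ) (h4 : W'.c₄ = H3LT.C4 W X Y)
    (h6 : W'.c₆ = H3LT.C6 W X Y) (hΔ : W'.Δ = W.Δ * H3LT.P W X Y ^ 3) {ℓ : ℕ} (hℓ : ℓ.Prime) (h2 : ℓ ≠ 2)
    (h3 : ℓ ≠ 3) (hg : W.IsGoodPrimeFor ℓ) (hg' : W'.IsGoodPrimeFor ℓ) :
    (3 : ℤ) ∣ (W'.apOfModel ℓ - W.apOfModel ℓ) :=
  H3LT.congr_ap H3LT.congr3_proof W W' X Y h4 h6 hΔ hℓ h2 h3 hg hg'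

end Coefficients

end Fermat.Agent.Guide.GoodCurve
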