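import Fermat.Agent.H91CodLoc

/-!
# Guide to the proof: class field theory in terms of 2-cocycles (for S55)

This file is a machine-checked table of contents. Every theorem below is a citation of a theorem of
the library, with its statement written out. Nothing imports this file.

**What the block does.** The numerical Poitou-Tate theorem S55 (`GuidePoitouTate`) needs three
consequences of class field theory, for `p` odd: (a) for a finite extension `E` of `ℚ_q` containing
`μ_p` the group `H^2(E, μ_p)` has dimension one, `H^1(E, μ_p)` the dimension of `Eˣ/p`; (b) a class of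
order `p` in the Brauer group of a number field containing `μ_p` which is trivial at all finite places
is trivial; (c) no element of `H^2(G_{K,S}, μ_p)` has exactly one nonzero local component. They are
proved here without Brauer groups, invariants or a reciprocity map, in terms of 2-cocycles with values
in the multiplicative group of an algebraic closure.

**The steps.**
 1. Locally constant cochains on a group with a family of subgroups ("levels"), Hilbert 90.
 2. Degree two: inflation and restriction; `H^2(G/H, A^H) = A^G / N A^H` for a cyclic quotient; so a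
   class which dies on `H` is given by one fixed element, and is trivial iff this element is a norm.
 3. Class field axioms: Hilbert 90 and "the norm index of a cyclic layer is its degree". They imply
   that the classes of order `p` which die on an open subgroup of index `p` form a line, the same
   for all such subgroups; with a tower of cyclic `p`-power layers: every class of order `p` does.
 4. Local fields satisfy the axioms (the norm index is computed with Herbrand quotients, theorem
   `local_norm_index` of `GuidePoitouTate`); the tower is the cyclotomic one.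
 5. Number fields: the Hasse norm theorem for cyclic extensions of degree `p` (theorem `hasse_norm` of
   `GuideEulerChar`), translated to subgroups of the Galois group, implies (b) by descent along
   subgroups of index `p` of a Sylow subgroup. For (c) adjoin the `p`-th root of an element which is
   nonsplit at the exceptional place and for which "a local norm at all places but one is a local
   norm at the last one" holds. Over the extension the class is locally trivial everywhere, by 3 and
   4, so it is trivial there by (b) and given by one element of the ground field, by 2; this element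
   is a local norm at all other places, hence also at the exceptional one.

Cochains are additive: `Additive Qbˣ`, `Qb` the algebraic closure of `ℚ`, `GQ` its Galois group.

**See also** `GuideLevelSequences` (locally constant cochains; the proof of `inflation` step by step),
`GuideLocalGlobal` for the steps from the norm theorems to `hasse_principle` and `one_component`,
`GuideLocalNorms` and `GuideClassField` for the proofs of the norm theorems.
Modules without a theorem here: `H91GalPair` (the norm of a cyclic layer as a product over the powers of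
one automorphism of the algebraic closure), `H91Unram` (at a prime outside `S` the decomposition group
acts on an `S`-ramified field through a group with one generator; used in `H47LocTriv` for `hL0`),
`H91CodLoc` (if the cup product of the class of `a` with a character is locally trivial at `v`, then `a`
is a local norm at `v`; used in `H54Input`).

**Where.** NOTES.md, Appendix A.10: [206], [263], [169], [209]. In the closures of S55, S56, S43, S59 and
through them S01, S03, S04, S06, S38, S45, S46, S50, S60 (`hilbert90` also in those of S09, S12, S15).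
Authors: helpers 91, 7, 82, 55.
-/

set_option autoImplicit false
set_option maxSynthPendingDepth 3

namespace Fermat.Agent.Guide.HasseH2

open groupCohomology (IsCocycle₁ IsCocycle₂)
open Fermat.Agent Fermat.Agent.H54 Fermat.Agent.H55 Fermat.Agent.H7 Fermat.Agent.H91
open ExtCitation IsDedekindDomain NumberField Module IntermediateField LevelFam

attribute [local instance] factNatPrimes

/-! ## 1. Locally constant cochains

A level family `𝓥 : LevelFam G` is a nonempty family of subgroups of `G`, directed downwards, in which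
every member contains a normal member of finite index. `𝓥.IsOpenSubgroup H`: `H` contains a member;
`𝓥.restrict H`: the family induced on `H`; `𝓥.Smooth A`: every element of `A` is fixed by a member;
`𝓥.IsConst₁`, `𝓥.IsConst₂`: cochains constant on the cosets of a member; `dd x`: the coboundary of a
1-cochain `x`; `𝓥.H90 A` (Hilbert 90): every locally constant 1-cocycle with values in `A` is `g ↦ g a - a`
for some `a`; `res₂ H f`: the restriction of the 2-cochain `f` to `H`. -/

/-- **Locally constant 2-cochains** on the absolute Galois group of `ℚ` (`H91Level`): `krullFam.IsConst₂ f`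
means that `f` is invariant under right translation by `Gal(ℚ̄/F)` in both variables, for some number
field `F`. (`krullFam` is the family of the subgroups `Gal(ℚ̄/F)`.) -/
theorem const_iff {X : Type*} (f : GQ × GQ → X) :
    krullFam.IsConst₂ f ↔ ∃ F : IntermediateField ℚ (AlgebraicClosure ℚ), FiniteDimensional ℚ F ∧
      ∀ g g', ∀ s ∈ F.fixingSubgroup, ∀ s' ∈ F.fixingSubgroup, f (g * s, g' * s') = f (g, g') :=
  ⟨by rintro ⟨_, ⟨F, hF, rfl⟩, h⟩; exact ⟨F, hF, h⟩, fun ⟨F, hF, h⟩ => ⟨_, ⟨F, hF, rfl⟩, h⟩⟩

/-- **Coboundaries** (`H91InfRes`): `𝓥.Triv₂ f` means that `f` is the coboundary of a locally constant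
1-cochain, for an arbitrary level family `𝓥` on a group `G`. -/
theorem triv_iff {G A : Type*} [Group G] [AddCommGroup A] [DistribMulAction G A]
    (𝓥 : LevelFam G) (f : G × G → A) :
    𝓥.Triv₂ f ↔ ∃ x : G → A, 𝓥.IsConst₁ x ∧ ∀ g h, g • x h - x (g * h) + x g = f (g, h) :=
  Iff.rfl

/-- **Hilbert 90** for locally constant cocycles on an arbitrary subgroup `U` of the absolute Galois
group, with values in `ℚ̄ˣ` (`H91Units`). (No closedness of `U` is needed: such a cocycle factors through
the finite group `U/(U ∩ Gal(ℚ̄/F))`, `F` normal, a group of automorphisms of a field.) -/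
theorem hilbert90 (U : Subgroup GQ) (f : U → Additive Qbˣ) (hf : IsCocycle₁ f)
    (hc : (krullFam.restrict U).IsConst₁ f) : ∃ a : Additive Qbˣ, ∀ g : U, f g = g • a - a :=
  (faithfulOn_krullFam.restrict U).h90 f hf hc

/-! ## 2. Inflation, restriction, cyclic quotients -/

/-- **Inflation and restriction in degree two** (`H91InfRes`). `H` open and normal, with Hilbert 90 on
`H`. A locally constant 2-cocycle `f` whose restriction to `H` is a coboundary can be changed by the
coboundary of a locally constant 1-cochain `x` into a cocycle which vanishes as soon as one of its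
two arguments is in `H`. -/
theorem inflation {G A : Type*} [Group G] [AddCommGroup A] [DistribMulAction G A]
    {𝓥 : LevelFam G} (hA : ∀ a : A, ∃ V ∈ 𝓥.carrier, ∀ s ∈ V, s • a = a) {H : Subgroup G}
    [H.Normal] (hH : ∃ V ∈ 𝓥.carrier, V ≤ H) (h90 : (𝓥.restrict H).H90 A) {f : G × G → A}
    (hf : IsCocycle₂ f) (hc : 𝓥.IsConst₂ f)
    (ht : (𝓥.restrict H).Triv₂ (fun p : H × H => f (p.1, p.2))) :
    ∃ x : G → A, 𝓥.IsConst₁ x ∧ IsCocycle₂ (f - dd x) ∧
      (∀ h ∈ H, ∀ g, (f - dd x) (h, g) = 0) ∧ (∀ g, ∀ h ∈ H, (f - dd x) (g, h) = 0) :=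
  let ⟨x, hx, h⟩ := exists_inflated hA hH h90 hf hc ht
  ⟨x, hx, h.coc, h.left, h.right⟩

/-- **Cyclic quotients** (`H91InfRes`): `H^2(G/H, A^H) = A^G / N A^H`. Let `H` be open and normal, with
Hilbert 90 on `H`, and let the image of `σ` generate `G / H`, of order `n`. A cocycle `f` which vanishes
as soon as one argument is in `H` (`Inflated H f`) is a coboundary if and only if the element
`∑ f(σ^k, σ)` (`k < n`) is the norm `∑ σ^k a` of an element `a` fixed by `H`. -/
theorem cyclic_quotient {G A : Type*} [Group G] [AddCommGroup A] [DistribMulAction G A]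
    {𝓥 : LevelFam G} {H : Subgroup G} [H.Normal] (hH : 𝓥.IsOpenSubgroup H)
    (h90 : (𝓥.restrict H).H90 A) {f : G × G → A} (hf : Inflated H f) {σ : G} {n : ℕ}
    (hσ : ∀ k : ℕ, σ ^ k ∈ H ↔ n ∣ k) (hgen : ∀ g : G, ∃ k : ℕ, ∃ h ∈ H, g = σ ^ k * h) :
    𝓥.Triv₂ f ↔ ∃ a : A, (∀ h ∈ H, h • a = a) ∧
      ∑ k ∈ Finset.range n, f (σ ^ k, σ) = ∑ k ∈ Finset.range n, σ ^ k • a :=
  ⟨exists_nrm_eq_tinv h90 hf ((hσ n).2 dvd_rfl),
    fun ⟨_, ha, h⟩ => triv₂_of_tinv_eq_nrm hH hf hσ hgen ha h⟩

/-- **Transfer** (`H91InfRes`): a class which dies on an open subgroup `H` is killed by the index of `H`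
(corestriction of its restriction). -/
theorem killed_by_index {G A : Type*} [Group G] [AddCommGroup A] [DistribMulAction G A]
    {𝓥 : LevelFam G} {H : Subgroup G} (hH : 𝓥.IsOpenSubgroup H) {f : G × G → A}
    (hf : IsCocycle₂ f) (hc : 𝓥.IsConst₂ f)
    (ht : (𝓥.restrict H).Triv₂ (fun p : H × H => f (p.1, p.2))) : 𝓥.Triv₂ (H.index • f) :=
  triv₂_index_smul hH hf hc ht

/-- **Restriction to a subgroup of index prime to `p`** is injective on classes killed by `p`
(`H91InfRes`): the class is killed by `p` and by the index. -/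
theorem coprime_index {G A : Type*} [Group G] [AddCommGroup A] [DistribMulAction G A]
    {𝓥 : LevelFam G} {H : Subgroup G} (hH : 𝓥.IsOpenSubgroup H) {f : G × G → A}
    (hf : IsCocycle₂ f) (hc : 𝓥.IsConst₂ f)
    (ht : (𝓥.restrict H).Triv₂ (fun p : H × H => f (p.1, p.2))) {p : ℕ} (hp : 𝓥.Triv₂ (p • f))
    (hcop : Nat.Coprime p H.index) : 𝓥.Triv₂ f :=
  triv₂_of_coprime_index hH hf hc ht hp hcop

/-! ## 3. Class field axioms

`fix A U` are the elements of `A` fixed by `U`, `nrmHom A σ n` is the map `a ↦ ∑ σ^k a` (`k < n`). For a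
character `χ : G → ℤ/n` and a fixed element `a` the *carry cocycle* `cc χ a` sends `(g, h)` to
`((χ(g) + χ(h)) / n) • a`, where the values of `χ` are in `{0, ..., n-1}`. `Zeta p ζ`: `ζ` generates the
`p`-torsion of `A` and is nonzero. `Coh 𝓥 f f'`: `f - f'` is a coboundary. -/

/-- **The class field axioms** `CF p 𝓥 A` for a group with levels `𝓥` and a module `A` (`H7BrSymb`): the
action is smooth, `A` is `p`-divisible, Hilbert 90 holds on all open subgroups, and for open `H ≤ U`, `H`
normal in `U` with cyclic quotient of order `n` generated by `σ`, the norm index is `n`. -/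
theorem classFieldAxioms_iff {G A : Type*} [Group G] [AddCommGroup A] [DistribMulAction G A] (p : ℕ)
    (𝓥 : LevelFam G) :
    CF p 𝓥 A ↔ 𝓥.Smooth A ∧ (∀ a : A, ∃ b : A, p • b = a) ∧
      (∀ H : Subgroup G, 𝓥.IsOpenSubgroup H → (𝓥.restrict H).H90 A) ∧
      ∀ U H : Subgroup G, 𝓥.IsOpenSubgroup H → H ≤ U →
        (∀ g ∈ U, ∀ h ∈ H, g * h * g⁻¹ ∈ H) → ∀ σ ∈ U, ∀ n : ℕ, n ≠ 0 →
        (∀ k : ℕ, σ ^ k ∈ H ↔ n ∣ k) → (∀ g ∈ U, ∃ k : ℕ, ∃ h ∈ H, g = σ ^ k * h) →
        ((fix A H).map (nrmHom A σ n)).relIndex (fix A U) = n :=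
  ⟨fun h => ⟨h.smooth, h.div, h.h90, h.idx⟩, fun ⟨h1, h2, h3, h4⟩ => ⟨h1, h2, h3, h4⟩⟩

/-- **Carry cocycles are trivial iff the element is a norm** from the kernel of `χ` (`H7BrCarry`). -/
theorem carry_trivial_iff {G A : Type*} [Group G] [AddCommGroup A] [DistribMulAction G A]
    {𝓥 : LevelFam G} {n : ℕ} [NeZero n] (hn : 1 < n) {χ : G →* Multiplicative (ZMod n)}
    (hχ : 𝓥.IsOpenSubgroup χ.ker) (h90 : (𝓥.restrict χ.ker).H90 A) {σ : G}
    (hσ : χ σ = Multiplicative.ofAdd 1) {a : A} (ha : a ∈ fix A (⊤ : Subgroup G)) :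
    𝓥.Triv₂ (cc χ a) ↔ a ∈ (fix A χ.ker).map (nrmHom A σ n) :=
  triv₂_cc_iff hn hχ h90 hσ ha

/-- **Every class which dies on `ker χ` is the class of a carry cocycle** (`H7BrCarry`). -/
theorem exists_carry {G A : Type*} [Group G] [AddCommGroup A] [DistribMulAction G A]
    {𝓥 : LevelFam G} {n : ℕ} [NeZero n] (hn : 1 < n) {χ : G →* Multiplicative (ZMod n)}
    (hA : 𝓥.Smooth A) (hχ : 𝓥.IsOpenSubgroup χ.ker) (h90 : (𝓥.restrict χ.ker).H90 A) {σ : G}
    (hσ : χ σ = Multiplicative.ofAdd 1) {f : G × G → A} (hf : IsCocycle₂ f) (hc : 𝓥.IsConst₂ f)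
    (ht : (𝓥.restrict χ.ker).Triv₂ (res₂ χ.ker f)) :
    ∃ a ∈ fix A (⊤ : Subgroup G), Coh 𝓥 f (cc χ a) :=
  exists_coh_cc hn hA hχ h90 hσ hf hc ht

/-- **Skew symmetry of the symbol** (`H7BrKummer`). Let `χ`, `ψ` be the Kummer characters of `β` and `α`
(`IsKum`: `g β - β = χ(g) ζ`). Then the classes of `cc χ (p α)` and `cc ψ (p β)` add up to zero. Both
are cup products of the two characters, up to sign. -/
theorem symbol_skew {G A : Type*} [Group G] [AddCommGroup A] [DistribMulAction G A] {p : ℕ}
    [hp : Fact p.Prime] {ζ : A} (hζ : Zeta p ζ) (hfix : ∀ g : G, g • ζ = ζ) {𝓥 : LevelFam G}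
    (hA : 𝓥.Smooth A) {χ ψ : G →* Multiplicative (ZMod p)} {α β : A}
    (hα : IsKum hζ ψ α) (hβ : IsKum hζ χ β) : 𝓥.Triv₂ (cc χ (p • α) + cc ψ (p • β)) :=
  symb_skew hζ hfix hA hα hβ

/-- **Symbols form a line** (`H7BrSymb`). Under the class field axioms a class which dies on one open
normal subgroup of index `p` dies on all of them. Proof: the norm groups `N`, `N'` of the two
subgroups have index `p`; choose an element outside both; write the class with this element and use
the skew symmetry of the symbol twice. -/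
theorem symbols_form_a_line {G A : Type*} [Group G] [AddCommGroup A] [DistribMulAction G A] {p : ℕ}
    [hp : Fact p.Prime] {ζ : A} (hζ : Zeta p ζ) (hfix : ∀ g : G, g • ζ = ζ) {𝓥 : LevelFam G}
    (hCF : CF p 𝓥 A) {χ χ' : G →* Multiplicative (ZMod p)}
    (hs : Function.Surjective χ) (hs' : Function.Surjective χ')
    (hχ : 𝓥.IsOpenSubgroup χ.ker) (hχ' : 𝓥.IsOpenSubgroup χ'.ker) {f : G × G → A}
    (hf : IsCocycle₂ f) (hc : 𝓥.IsConst₂ f) (ht : (𝓥.restrict χ.ker).Triv₂ (res₂ χ.ker f)) :
    (𝓥.restrict χ'.ker).Triv₂ (res₂ χ'.ker f) :=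
  symb_indep hζ hfix hCF hs hs' hχ hχ' hf hc ht

/-- **Towers** (`H7BrRestrict`): a decreasing family of open normal subgroups with cyclic quotients of
unbounded `p`-power order. -/
theorem tower_iff {G : Type*} [Group G] (p : ℕ) (𝓥 : LevelFam G) (τ : ℕ → Subgroup G) :
    Tower p 𝓥 τ ↔ Antitone τ ∧ (∀ m, 𝓥.IsOpenSubgroup (τ m)) ∧
      (∀ m, ∃ (k : ℕ) (χ : G →* Multiplicative (ZMod (p ^ k))),
        Function.Surjective χ ∧ χ.ker = τ m) ∧ ∀ K : ℕ, ∃ m, K < (τ m).index :=
  ⟨fun h => ⟨h.anti, h.opn, h.cyc, h.big⟩, fun ⟨h1, h2, h3, h4⟩ => ⟨h1, h2, h3, h4⟩⟩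

/-- **Classes of order `p` are symbols** (`H7BrMain`). With a tower: a class killed by `p` which dies on
an open normal subgroup of `p`-power index dies on every open normal subgroup of index `p` (`TrivOn 𝓥 N f`:
on `N` the cocycle `f` is the coboundary of a locally constant cochain). Proof by
induction along a chain of subgroups of index `p`, with `symbols_form_a_line`: the class dies on a
cyclic layer of the tower, and in a cyclic layer the classes of order `p` die on the subgroup of
index `p` (`H7BrCyc`). -/
theorem classes_are_symbols {G A : Type*} [Group G] [AddCommGroup A] [DistribMulAction G A] {p : ℕ}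
    [hp : Fact p.Prime] {ζ : A} (hζ : Zeta p ζ) (hfix : ∀ g : G, g • ζ = ζ) {𝓥 : LevelFam G}
    (hCF : CF p 𝓥 A) {τ : ℕ → Subgroup G} (hτ : Tower p 𝓥 τ) {r : ℕ}
    {N : Subgroup G} (hN : 𝓥.IsOpenSubgroup N) [N.Normal] (hNi : N.index = p ^ r)
    {f : G × G → A} (hf : IsCocycle₂ f) (hc : 𝓥.IsConst₂ f) (hpf : 𝓥.Triv₂ ((p : ℤ) • f))
    (ht : TrivOn 𝓥 N f) {χ : G →* Multiplicative (ZMod p)} (hs : Function.Surjective χ)
    (hχ : 𝓥.IsOpenSubgroup χ.ker) : TrivOn 𝓥 χ.ker f :=
  kill_p hζ hfix hCF hτ hN hNi hf hc hpf ht hs hχ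

/-- **Dimension of `H^2`** (`H7BrDim`): under the class field axioms, with a tower and with `μ_p` fixed by
`G`, `H^2(G, F_p)` (coefficients `F_p = μ_p`) has dimension one. (`ofFam 𝓥` are the levels given by `𝓥`, in
the language of `GuidePoitouTate`.) -/
theorem dim_H2 {G A : Type*} [Group G] [AddCommGroup A] [DistribMulAction G A] {p : ℕ}
    [hp : Fact p.Prime] {ζ : A} (hζ : Zeta p ζ) (hfix : ∀ g : G, g • ζ = ζ) {𝓥 : LevelFam G}
    (hCF : CF p 𝓥 A) {τ : ℕ → Subgroup G} (hτ : Tower p 𝓥 τ) :
    Module.finrank (ZMod p) (H2 (ofFam 𝓥) (Representation.trivial (ZMod p) G (ZMod p))) = 1 :=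
  finrank_H2 hζ hfix hCF hτ

/-- **Dimension of `H^1`** (`H7BrDim`, Kummer theory): `H^1(G, F_p)` has dimension `d` if the group
`A^G / p A^G` has `p^d` elements. -/
theorem dim_H1 {G A : Type*} [Group G] [AddCommGroup A] [DistribMulAction G A] {p : ℕ}
    [hp : Fact p.Prime] {ζ : A} (hζ : Zeta p ζ) (hfix : ∀ g : G, g • ζ = ζ) {𝓥 : LevelFam G}
    (hCF : CF p 𝓥 A) {d : ℕ}
    (hd : ((fix A (⊤ : Subgroup G)).map (nsmulAddMonoidHom p)).relIndex (fix A (⊤ : Subgroup G))
      = p ^ d) :
    Module.Finite (ZMod p) (H1 (ofFam 𝓥) (Representation.trivial (ZMod p) G (ZMod p))) ∧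
    Module.finrank (ZMod p) (H1 (ofFam 𝓥) (Representation.trivial (ZMod p) G (ZMod p))) = d :=
  finrank_H1 hζ hfix hCF hd

/-! ## 4. Local fields

`PadicAlgCl q` is the algebraic closure of `ℚ_q`, `locFam q` the pull-back of `krullFam`, whose open
subgroups are the Galois groups over the finite extensions of `ℚ_q` (`H7BrLocal`),
`Tcy ℚ_[q] (PadicAlgCl q) p m` the subgroup fixing the `p^m`-th roots of unity. -/

/-- **Local fields satisfy the class field axioms** (`H7BrLocal`, `H7BrIdx`; norm index: `H7LocIndex`,
see `GuideLocalNorms`, section 2). -/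
theorem local_class_field_axioms (q : ℕ) [hq : Fact q.Prime] {p : ℕ} (hp : p.Prime) :
    CF p (locFam q) (Additive (PadicAlgCl q)ˣ) :=
  locCF q hp

/-- **The cyclotomic tower** (`H7BrTower`) over every finite extension of `ℚ_q` containing `μ_p`; it is
unbounded because a local field contains only finitely many roots of unity of `p`-power order (see also
`H54RootsUnity`). -/
theorem cyclotomic_tower (q : ℕ) [hq : Fact q.Prime] {p : ℕ} [hp : Fact p.Prime] (hp2 : p ≠ 2)
    {V : Subgroup (PadicAlgCl q ≃ₐ[ℚ_[q]] PadicAlgCl q)} (hVo : (locFam q).IsOpenSubgroup V)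
    (hV : V ≤ Tcy ℚ_[q] (PadicAlgCl q) p 1) :
    Tower p ((locFam q).restrict V) (fun m => (Tcy ℚ_[q] (PadicAlgCl q) p (m + 1)).subgroupOf V) :=
  locTower q hp2 hVo hV

/-- **Local cohomology** (`H7BrTower`). For a finite extension `E` of `ℚ_q` containing `μ_p`, `p` odd:
`dim H^2(E, F_p) = 1`, and `dim H^1(E, F_p) = 2 + [E : ℚ_p]` if `q = p`, `2` otherwise. -/
theorem local_cohomology (q : ℕ) [hq : Fact q.Prime] {p : ℕ} [hp : Fact p.Prime] (hp2 : p ≠ 2)
    {V : Subgroup (PadicAlgCl q ≃ₐ[ℚ_[q]] PadicAlgCl q)} (hVo : (locFam q).IsOpenSubgroup V)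
    (hV : V ≤ Tcy ℚ_[q] (PadicAlgCl q) p 1) :
    Module.finrank (ZMod p) (H2 (ofFam ((locFam q).restrict V))
      (Representation.trivial (ZMod p) V (ZMod p))) = 1 ∧
    Module.finrank (ZMod p) (H1 (ofFam ((locFam q).restrict V))
      (Representation.trivial (ZMod p) V (ZMod p))) = 2 + (if q = p then 1 else 0) * V.index :=
  ⟨(loc_finrank_H2 q hp2 hVo hV).2, (loc_finrank_H1 q hVo hV).2⟩

/-- **Over a local field a class of order `p` dies on every subgroup of index `p`** (`H91IsoA`). `W`
is an open subgroup of the absolute Galois group of `ℚ_q` contained in the subgroup fixing the `p`-th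
roots of unity (`p` odd), `ζ` a generator of the `p`-torsion, fixed by `W`, `f` a locally constant
cocycle on `W` with `p f` trivial, `H` an open normal subgroup of `W` of index `p`. -/
theorem local_index_p {p : ℕ} [hp : Fact p.Prime] (hp2 : p ≠ 2) (q : ℕ) [Fact q.Prime]
    {W : Subgroup (PadicAlgCl q ≃ₐ[ℚ_[q]] PadicAlgCl q)} (hWo : (locFam q).IsOpenSubgroup W)
    (hW : W ≤ Tcy ℚ_[q] (PadicAlgCl q) p 1) {ζ : Additive (PadicAlgCl q)ˣ} (hζ : Zeta p ζ)
    (hfix : ∀ g : W, g • ζ = ζ) {f : W × W → Additive (PadicAlgCl q)ˣ} (hf : IsCocycle₂ f)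
    (hc : ((locFam q).restrict W).IsConst₂ f)
    (hpf : ((locFam q).restrict W).Triv₂ ((p : ℤ) • f)) {H : Subgroup W}
    (hH : ((locFam q).restrict W).IsOpenSubgroup H) (hn : H.Normal) (hi : H.index = p) :
    (((locFam q).restrict W).restrict H).Triv₂ (res₂ H f) :=
  kill_index hζ hfix ((locCF q hp.out).restrict hWo) (locTower q hp2 hWo hW) hf hc hpf hH hn hi

/-! ## 5. Number fields -/

/-- **The local groups** (`H91Arith`). `rloc q g` embeds the absolute Galois group of `ℚ_q` into that of `ℚ`,
by the fixed embedding `primeLocalToGlobal q` followed by conjugation with `g⁻¹`; the pairs `(q, g)`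
take the place of the places of `ℚ̄`, and `jloc q g` is the corresponding embedding of `ℚ̄ˣ`. -/
theorem local_groups (q : Nat.Primes) (g : GQ) (s : primeLocalGaloisGroup q) (a : Additive Qbˣ) :
    rloc q g s = g⁻¹ * primeLocalToGlobal q s * g ∧
      uval (jloc q g a) = padicEmbedding (q : ℕ) (g (uval a)) :=
  ⟨rfl, rfl⟩

/-- **Local triviality** (`H91Hasse`, `H91Arith`). `arithLoc.TrivAt (q, g) U f` says that the restriction
of the cocycle `f` on `U` to the local group at `(q, g)`, with values in the units of the algebraic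
closure of `ℚ_q`, is the coboundary of a locally constant cochain. -/
theorem trivAt_iff (q : Nat.Primes) (g : GQ) (U : Subgroup GQ) (f : GQ × GQ → Additive Qbˣ) :
    arithLoc.TrivAt (q, g) U f ↔ ∃ y : U.comap (rloc q g) → Additive (PadicAlgCl (q : ℕ))ˣ,
      ((krullFam.comap (rloc q g)).restrict (U.comap (rloc q g))).IsConst₁ y ∧
      ∀ s t, s • y t - y (s * t) + y s = jloc q g (f (rloc q g s, rloc q g t)) :=
  Iff.rfl

/-- **The Hasse norm theorem for subgroups of the Galois group** (`H91Arith`, `H91Iso`). `H ≤ U` are open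
subgroups of `Gal(ℚ̄/ℚ)`, `H` normal of index `p` in `U`, `U` contained in a group `U₀` which fixes the
`p`-th roots of unity. Let `x ∈ ℚ̄ˣ` be fixed by `U`; suppose that at all `(q, g)` where the local group
of `U` is larger than the local group of `H` the image of `x` is a norm `∑ s^k b` (`k < p`), `b` fixed by
the local group of `H`, for some local element `s` in `U` and not in `H`. Then `x = ∑ σ^k a` with `a`
fixed by `H`, for every `σ` in `U` and not in `H`. -/
theorem hasse_norm_group {p : ℕ} [hp : Fact p.Prime] (hp2 : p ≠ 2) {ζ : Qb}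
    (hζ : IsPrimitiveRoot ζ p) {U₀ : Subgroup GQ} (hU₀ : ∀ u ∈ U₀, u ζ = ζ) (U H : Subgroup GQ)
    (hU : U ≤ U₀) (hUo : krullFam.IsOpenSubgroup U) (hHo : krullFam.IsOpenSubgroup H) (hle : H ≤ U)
    (hn : (H.subgroupOf U).Normal) (hi : H.relIndex U = p) (x : Additive Qbˣ)
    (hx : ∀ u ∈ U, u • x = x)
    (hloc : ∀ (q : Nat.Primes) (g : GQ), (∃ s, rloc q g s ∈ U ∧ rloc q g s ∉ H) →
      ∃ s, rloc q g s ∈ U ∧ rloc q g s ∉ H ∧ ∃ b : Additive (PadicAlgCl (q : ℕ))ˣ,
        (∀ h, rloc q g h ∈ H → h • b = b) ∧ jloc q g x = ∑ k ∈ Finset.range p, s ^ k • b)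
    (σ : GQ) (hσU : σ ∈ U) (hσH : σ ∉ H) :
    ∃ a : Additive Qbˣ, (∀ h ∈ H, h • a = a) ∧ x = ∑ k ∈ Finset.range p, σ ^ k • a :=
  hasseNorm_arith hp.out (hasseNormStatement p hp2) hζ hU₀ U H hU hUo hHo hle hn hi x hx
    (fun i => hloc i.1 i.2) σ hσU hσH

/-- **The Hasse principle for 2-cocycles killed by `p`** (`H91Hasse`, `p` odd). Let `U` be an open subgroup
of `Gal(ℚ̄/ℚ)` fixing the `p`-th roots of unity, `f` a locally constant 2-cocycle on `U` with values in
`ℚ̄ˣ` such that `p f` is a coboundary. If `f` is locally trivial everywhere, then it is trivial: the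
`p`-torsion of the Brauer group of the field fixed by `U` injects into the product of the local Brauer
groups. The infinite places play no role, because `p` is odd. (Abstract form, for arbitrary local data
with a norm theorem: `LocData.triv₂_of_forall_trivAt`.) -/
theorem hasse_principle {p : ℕ} [hp : Fact p.Prime] (hp2 : p ≠ 2) {ζ : Qb}
    (hζ : IsPrimitiveRoot ζ p) {U : Subgroup GQ} (hUζ : ∀ u ∈ U, u ζ = ζ)
    (hUo : krullFam.IsOpenSubgroup U) {f : GQ × GQ → Additive Qbˣ} (hf : IsCocycle₂ (res₂ U f))
    (hc : (krullFam.restrict U).IsConst₂ (res₂ U f))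
    (hpf : (krullFam.restrict U).Triv₂ (p • res₂ U f))
    (hloc : ∀ (q : Nat.Primes) (g : GQ), arithLoc.TrivAt (q, g) U f) :
    (krullFam.restrict U).Triv₂ (res₂ U f) :=
  arithLoc.triv₂_of_forall_trivAt smooth_krullFam (fun H _ => (faithfulOn_krullFam.restrict H).h90)
    (hasseNorm_arith hp.out (hasseNormStatement p hp2) hζ hUζ) le_rfl hUo hf hc hpf
    fun i => hloc i.1 i.2

/-- **No class has exactly one nonzero local component** (`H91Iso`; dictionary: `H91IsoB`). `U` is a
subgroup of `Gal(ℚ̄/ℚ)` which is open in the topology of the extensions unramified outside `S` and fixes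
the `p`-th roots of unity (`p` odd), `z` a class in `H^2` of `U` with coefficients `F_p` (that is `μ_p`).
The pairs `(v, g)`, `v ∈ S`, stand for the places above `S` of the field fixed by `U`; `place` is the
double coset of `g`: it tells when two pairs give the same place. `dec`, `decHom`: the local group of `U`
at `(v, g)` and its map to `U`; `locU2`: the component of a class. Hypothesis `hL0` (`H47LocTriv`, the
cocycles are unramified there): 2-cocycles are locally trivial outside `S`. If all components of `z` at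
the places different from the one of `(v₀, g₀)` vanish, then so does the component at `(v₀, g₀)`. -/
theorem one_component {p : ℕ} [hp : Fact p.Prime] (hp2 : p ≠ 2) (S : Finset Nat.Primes)
    {U : Subgroup GQ} (hUo : (ramLevels S).op U) (hUχ : U ≤ (cycloChar p).ker)
    (hL0 : ∀ f ∈ Z2 ((ramLevels S).onSub U) (Representation.trivial (ZMod p) U (ZMod p)),
      ∀ q : Nat.Primes, q ∉ S → ∀ g : GQ,
        (fun x : dec (primeLocalToGlobal q) U g × dec (primeLocalToGlobal q) U g =>
          f (decHom (primeLocalToGlobal q) U g x.1, decHom (primeLocalToGlobal q) U g x.2)) ∈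
        B2 ((krullLevels.comap (primeLocalToGlobal q)).onSub (dec (primeLocalToGlobal q) U g))
          (Representation.trivial (ZMod p) (dec (primeLocalToGlobal q) U g) (ZMod p)))
    (z : H2 ((ramLevels S).onSub U) (Representation.trivial (ZMod p) U (ZMod p)))
    (v₀ : S) (g₀ : GQ)
    (hz : ∀ (v : S) (g : GQ), (v = v₀ →
      place (primeLocalToGlobal v.1) U g ≠ place (primeLocalToGlobal v.1) U g₀) →
      (DS S).locU2 (ZMod p) U v g z = 0) :
    (DS S).locU2 (ZMod p) U v₀ g₀ z = 0 :=
  iso_of hp2 S hUo hUχ hL0 z v₀ g₀ hz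

end Fermat.Agent.Guide.HasseH2
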