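import Fermat.Agent.H18HkTop

/-!
# Guide: why the Hecke operators preserve the kernel of reduction of `J₀(N)`

Companion of `GuideMazurJacobian` (`kernel_hecke_stable`) and of `GuideKernel` (divisibility of the
kernel). Every theorem of this file is proved by citing a theorem of the library; no other file imports
this file. Used in S01, S03, S09, S12, S15, S39, S40. Author: helper12; files `H12GNorm`, `H12GKer`
(helper12), `H12FRed` (helper12), `H88Compat` (helper88), `H17DivRed` (helper17), `H18HkGen0`,
`H18HkGen`, `H18HkTop` (helper18). Notes: [119], [82].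

**The statement.** `A` is a place of `ℚ̄` (a valuation ring) above a prime `ℓ` which does not divide `N`,
`k` its residue field. The kernel `K` of the reduction map from `J₀(N)(ℚ̄)` to the divisor classes of
degree zero of the function field of `X₀(N)` over `k` is stable under all Hecke operators `T_q`, also
for `q ∣ N` (`U_q`) and for `q = ℓ`. The Jacobian in characteristic `ℓ` and its endomorphisms are not
used, and nothing is said about the reduction of the curve `X₀(N q)` or of its places.

**The proof for `q ≠ ℓ`.** `ρ` is the reduction of places, and the reduction of a divisor is its image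
under `ρ`. `T_q` acts on divisors by `α_* β^*`, with the inclusion `α` and the map `β : f(τ) ↦ f(q τ)` from
the function field of `X₀(N)` to the one of `X₀(N q)`; it maps the divisor of `u` to the divisor of the
norm along `α` of `β(u)`.

1. *Principal divisors with trivial reduction* (sections 2, 3). If the divisor of `u` has reduction
   zero, then a reduction `s` of `u` has no zeros and poles, so it is a constant `c`. Then `β(u)` has
   the constant `c` as a reduction, and the norm of `β(u)` has the constant `c^n`, `n` the degree of
   `α`: norms are compatible with reduction, because the degrees of `α` in characteristic `0` and `ℓ`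
   agree. So `T_q` of the divisor of `u` has reduction zero.
2. *Divisible groups* (sections 1, 4). A class `x` in `K` is the class of a divisor `D` which itself
   has reduction zero. By 1 the reduction of the divisor `T_q D` depends only on `x`; this defines a
   homomorphism from `K` to the free abelian group of the divisors over `k`. As `K` is divisible, it is
   zero. In particular `T_q x` is in `K`.

For `q = ℓ` the relation of Eichler and Shimura gives the claim (section 5). A finer statement, that the
reduction of divisors commutes with the correspondences, is proved in another way in `GuideKernel`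
(`reduction_degMap`, `hecke_reduction`).
-/

set_option autoImplicit false

noncomputable section

open ModularCurve AlgebraicCurve IntermediateField
open Fermat.Agent.H40 (ReductionData)

namespace Fermat.Agent.Guide.HeckeReduction

local notation "Qb" => AlgebraicClosure ℚ
local notation "FF" N => laurentBaseChange (AlgebraicClosure ℚ) (modularFunctionFieldFull N)

/-! ## 1. The principle -/

/-- **A homomorphism from a divisible group to a free abelian group is zero**, in the form used. `Z` is
the group of divisors of degree zero, `r` the reduction, with values in the free abelian group on the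
places over `k`, `P` the property to be principal, `T` an operator. (`h1`) If `D` is principal and
`r D = 0`, then `r (T D) = 0`. (`hdiv`) If `r D = 0` and `n > 0`, there is `E` with `r E = 0` and
`D - n E` principal. Then `r D = 0` implies `r (T D) = 0`. Proof: all coefficients of
`r (T D) = n r (T E)` are divisible by `n`, for every `n`. File `H12GKer`. -/
theorem vanish_of_divisible {Z S : Type*} [AddCommGroup Z] (T : Z →+ Z) (r : Z →+ (S →₀ ℤ))
    (P : Z → Prop) (h1 : ∀ D, P D → r D = 0 → r (T D) = 0)
    (hdiv : ∀ D, r D = 0 → ∀ n : ℕ, 0 < n → ∃ E, r E = 0 ∧ P (D - n • E)) {D : Z}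
    (hD : r D = 0) : r (T D) = 0 :=
  H12G.abs_kernel T r P h1 hdiv hD

/-! ## 2. Reductions of functions

`A` is a valuation ring of `ℚ̄` with a homomorphism `π` to a field `k`. The function field of `X₀(N)`
over `ℚ̄` is a field of Laurent series with coefficients in `ℚ̄`, the one over `k` (`N ≠ 0` in `k`) a
field of Laurent series over `k`. `IsInt π N y` says that the series `y` with coefficients in `A` and its
image under `π` belong to these fields. -/

section Functions

variable {A : ValuationSubring Qb} {k : Type*} [Field k] {π : A →+* k} {N : ℕ}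
  {ρ : Place Qb (FF N) → Place k (modularFunctionFieldFullC k N)}

/-- **`s` is a reduction of `u`** (`H12F.RedOf`; also `GuideLogForm.redOf_iff`): up to a constant
`c ≠ 0` the function `u` is a quotient of two integral series with nonzero reductions, and `s` is the
quotient of their reductions. -/
theorem redOf_iff (u : FF N) (s : modularFunctionFieldFullC k N) : H12F.RedOf π N u s ↔
    ∃ (c : Qb) (g h : LaurentSeries A), c ≠ 0 ∧ H18.IsInt π N g ∧ H18.IsInt π N h ∧
      coeffMap π g ≠ 0 ∧ coeffMap π h ≠ 0 ∧
      (u : LaurentSeries Qb) * coeffMap A.subtype h = H33.cst c * coeffMap A.subtype g ∧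
      (s : LaurentSeries k) * coeffMap π h = coeffMap π g :=
  Iff.rfl

/-- **Reductions exist**: a function `u ≠ 0` has a reduction. The hypothesis `hgen` says that the
principal divisors are generated by those of the integral series with nonzero reduction. File
`H12FRed`. -/
theorem exists_reduction [H94.FunField Qb (FF N)] [HasPrincipalDivisors Qb (FF N)]
    (hgen : PrincipalGeneratedByIntegral A π N) {u : FF N} (hu : u ≠ 0) :
    ∃ s, H12F.RedOf π N u s :=
  H12F.exists_redOf hgen hu

/-- **The divisor of the reduction** is the reduction of the divisor: if `D` is the divisor of `u` and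
`s` a reduction of `u`, the order of `s` at a place `Q` over `k` is the coefficient at `Q` of the image
of `D` under the reduction of places `ρ`. File `H12FRed`. -/
theorem divisor_of_reduction [HasPrincipalDivisors Qb (FF N)] (hr : IsPlaceReductionAlong A π N ρ)
    {u : FF N} {s : modularFunctionFieldFullC k N} (h : H12F.RedOf π N u s) {D : Divisor Qb (FF N)}
    (hD : ∀ v, D v = v.ord u) (Q : Place k (modularFunctionFieldFullC k N)) :
    Finsupp.mapDomain ρ D Q = Q.ord s :=
  h.ord_eq hr hD Q

/-- Multiplying `u` by a constant `a ≠ 0` does not change its reductions. File `H12GNorm`. -/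
theorem reduction_of_multiple {u : FF N} {s : modularFunctionFieldFullC k N}
    (h : H12F.RedOf π N u s) {a : Qb} (ha : a ≠ 0) :
    H12F.RedOf π N (algebraMap Qb (FF N) a * u) s :=
  H12G.redOf_smul h ha

/-- **Reductions in the local ring.** `H42.modReductionData` is the local ring of the special fibre,
with its homomorphism to the function field over `k` (`GuideFunctionField`; `hd` says that the degree of the
function field over the `j`-line does not drop). If the image of an element is not zero, it is a
reduction of this element. File `H12GNorm`. -/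
theorem reduction_in_local_ring (hπ : Function.Surjective π) [IsLocalHom π]
    (hd : H42.DegLE Qb k N) (f : (H42.modReductionData A π N hπ hd).B)
    (hf : (H42.modReductionData A π N hπ hd).ρ f ≠ 0) :
    H12F.RedOf π N (f : FF N) ((H42.modReductionData A π N hπ hd).ρ f) :=
  H12G.redOf_of_mem hπ hd f hf

end Functions

/-! ## 3. Norms -/

/-- **The degree of `α`** from level `N` to level `N q` is the same over `ℚ̄` and over an algebraically
closed field `k` in which `N q ≠ 0` (here `q` need not be prime): by multiplicativity from the degrees
over the `j`-line, which are `ψ(N)` and `ψ(N q)` in both cases. File `H12GNorm`. -/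
theorem degree_of_alpha {k : Type*} [Field k] [IsAlgClosed k] {N q : ℕ} [NeZero N] [NeZero q]
    (hMk : ((N * q : ℕ) : k) ≠ 0)
    (hEle : modularFunctionFieldFullC k N ≤ modularFunctionFieldFullC k (N * q))
    (hFle : (FF N) ≤ FF (N * q)) :
    @Module.finrank (FF N) (FF (N * q)) _ _ (inclusion hFle).toAlgebra.toModule =
      @Module.finrank (modularFunctionFieldFullC k N) (modularFunctionFieldFullC k (N * q)) _ _
        (inclusion hEle).toAlgebra.toModule ∧
      @Module.finrank (modularFunctionFieldFullC k N) (modularFunctionFieldFullC k (N * q)) _ _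
        (inclusion hEle).toAlgebra.toModule ≠ 0 :=
  H12G.finrank_eq hMk hEle hFle

/-- **Norms commute with reduction** (also `GuideIgusa.norm_trace_reduction`): in an extension of
function fields with compatible reductions and equal degrees, the norm of an integral function is
integral and its reduction is the norm of the reduction. File `H88Compat`. -/
theorem norm_reduction {K F F' k E E' : Type*} [Field K] [Field F] [Field F'] [Algebra K F]
    [Algebra K F'] [Algebra F F'] [Field k] [Field E] [Field E'] [Algebra k E] [Algebra k E']
    [Algebra E E'] [IsScalarTower K F F'] [Module.Finite F F'] [Module.Finite E E']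
    {R : ReductionData K F k E} {R' : ReductionData K F' k E'}
    (hB : ∀ f ∈ R.B, algebraMap F F' f ∈ R'.B)
    (hρ : ∀ (f : R.B) (h : algebraMap F F' f ∈ R'.B),
      R'.ρ ⟨algebraMap F F' f, h⟩ = algebraMap E E' (R.ρ f))
    (hd : Module.finrank F F' = Module.finrank E E') (h : R'.B) :
    ∃ b : R.B, (b : F) = Algebra.norm F (h : F') ∧ R.ρ b = Algebra.norm E (R'.ρ h) :=
  (H88.RedCompat.norm_trace ⟨hB, hρ⟩ hd h).1

/-- **Step 1 of the header.** If the function `u` of level `N` has a constant `c` as a reduction, then the
norm along `α` of `β(u)` has a constant `c'` as a reduction (namely `c' = c^n`, `n` the degree of `α`):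
`β` replaces the variable of the Laurent series by its `q`-th power, which does not change constants, and
the norm of the constant `c` is `c^n`. File `H12GNorm`. -/
theorem norm_of_constant_reduction {A : ValuationSubring Qb} {k : Type*} [Field k] [IsAlgClosed k]
    {π : A →+* k} {N q : ℕ} [NeZero N] [NeZero q] (hπ : Function.Surjective π) [IsLocalHom π]
    (hMk : ((N * q : ℕ) : k) ≠ 0) {u : FF N} {c : k}
    (h : H12F.RedOf π N u (algebraMap k (modularFunctionFieldFullC k N) c)) :
    ∃ c' : k, H12F.RedOf π N (H60.normAlong (heckeAlphaBar Qb N q) (heckeBetaBar Qb N q u))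
      (algebraMap k (modularFunctionFieldFullC k N) c') :=
  H12G.norm_const hπ hMk h

/-! ## 4. Classes in the kernel of reduction -/

section Kernel

variable {A : ValuationSubring Qb} {k : Type*} [Field k] {π : A →+* k} {N : ℕ}
  {ρ : Place Qb (FF N) → Place k (modularFunctionFieldFullC k N)}

/-- **Representatives with trivial reduction**: a class in the kernel of reduction is the class of a
divisor the reduction of which is zero as a divisor. Proof: the reduction of any representative is the
divisor of a function `s` over `k`; `s` is the reduction of a function, whose divisor is subtracted.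
File `H12GKer`. -/
theorem exists_representative [HasPrincipalDivisors Qb (FF N)] (hπ : Function.Surjective π)
    (hr : IsPlaceReductionAlong A π N ρ) (hgen : PrincipalGeneratedByIntegral A π N)
    {x : Pic0 Qb (FF N)} (hx : reductionPic0Along ρ hr hgen x = 0) :
    ∃ D : Divisor.degZero (K := Qb) (F := FF N), Pic0.mk D = x ∧
      Finsupp.mapDomain ρ (D : Divisor Qb (FF N)) = 0 :=
  H12G.exists_rep hπ hr hgen hx

/-- **Step 2 of the header.** Let `T` be an operator on divisors of degree zero which induces `TP` on
classes. Suppose that it preserves the set of the principal divisors with reduction zero (`hprin`; that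
the image is principal is part of the existence of `TP`) and that the kernel of reduction is divisible
(`hdiv`). Then `TP` preserves the kernel of reduction. From `vanish_of_divisible` and
`exists_representative`. File `H12GKer`. -/
theorem kernel_stable [HasPrincipalDivisors Qb (FF N)] (hπ : Function.Surjective π)
    (hr : IsPlaceReductionAlong A π N ρ) (hgen : PrincipalGeneratedByIntegral A π N)
    (T : Divisor.degZero (K := Qb) (F := FF N) →+ Divisor.degZero (K := Qb) (F := FF N))
    (TP : Pic0 Qb (FF N) →+ Pic0 Qb (FF N)) (hTP : ∀ D, TP (Pic0.mk D) = Pic0.mk (T D))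
    (hprin : ∀ (u : FF N) (D : Divisor.degZero (K := Qb) (F := FF N)), u ≠ 0 →
      (∀ v, (D : Divisor Qb (FF N)) v = v.ord u) →
      Finsupp.mapDomain ρ (D : Divisor Qb (FF N)) = 0 →
      Finsupp.mapDomain ρ (T D : Divisor Qb (FF N)) = 0)
    (hdiv : ∀ x, reductionPic0Along ρ hr hgen x = 0 → ∀ n : ℕ, 0 < n →
      ∃ y, reductionPic0Along ρ hr hgen y = 0 ∧ n • y = x)
    {x : Pic0 Qb (FF N)} (hx : reductionPic0Along ρ hr hgen x = 0) :
    reductionPic0Along ρ hr hgen (TP x) = 0 :=
  H12G.kernel_stable hπ hr hgen T TP hTP hprin hdiv hx

end Kernel

/-- **The Hecke operator of a number `q` prime to `ℓ`** (`N q ≠ 0` in `k`) preserves the kernel of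
reduction, if this kernel is divisible. `heckePic0Bar` is the operator `α_* β^*` on classes; the
hypotheses `hα`, `hβ` (the extensions are algebraic), `hFI` (fundamental identity `∑ e f = degree` for
`β`), `hfin` (`α` is finite) and `hNF` (the push-forward of a principal divisor is the divisor of the
norm) belong to its definition and hold. From `kernel_stable` and `norm_of_constant_reduction`. File
`H12GKer`. -/
theorem hecke_stable {A : ValuationSubring Qb} {k : Type*} [Field k] [IsAlgClosed k] {π : A →+* k}
    {N q : ℕ} [NeZero N] [NeZero q] {ρ : Place Qb (FF N) → Place k (modularFunctionFieldFullC k N)}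
    [HasPrincipalDivisors Qb (FF N)] [HasPrincipalDivisors Qb (FF (N * q))]
    [H94.FunField Qb (FF N)] [H94.FunField k (modularFunctionFieldFullC k N)]
    (hπ : Function.Surjective π) [IsLocalHom π] (hMk : ((N * q : ℕ) : k) ≠ 0)
    (hr : IsPlaceReductionAlong A π N ρ) (hgen : PrincipalGeneratedByIntegral A π N)
    (hα : HeckeAlphaBarIntegral Qb N q) (hβ : HeckeBetaBarIntegral Qb N q)
    (hFI : FundamentalIdentityAlong Qb (heckeBetaBar Qb N q) hβ)
    (hfin : FiniteAlong Qb (heckeAlphaBar Qb N q))
    (hNF : NormFormulaAlong Qb (heckeAlphaBar Qb N q) hfin)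
    (hdiv : ∀ x, reductionPic0Along ρ hr hgen x = 0 → ∀ n : ℕ, 0 < n →
      ∃ y, reductionPic0Along ρ hr hgen y = 0 ∧ n • y = x)
    {x : Pic0 Qb (FF N)} (hx : reductionPic0Along ρ hr hgen x = 0) :
    reductionPic0Along ρ hr hgen (heckePic0Bar hα hβ hFI hfin hNF x) = 0 :=
  H12G.hecke_stable hπ hMk hr hgen hα hβ hFI hfin hNF hdiv hx

/-! ## 5. All Hecke operators on `J₀(N)`

`H15.KJ N A` is the kernel of reduction at the place `A` (`GuideMazurJacobian.mem_kernel_iff`). -/

attribute [local instance] heckeModuleBar

/-- **Divisibility by primes implies divisibility** by all positive integers. That the kernels of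
reduction are divisible by all primes (`H15.DivRed`), also by `ℓ`, is `GuideKernel.kernel_divisible`.
File `H18HkTop`. -/
theorem divisible_by_all {N : ℕ} {J : Type} [AddCommGroup J]
    {K : ValuationSubring Qb → AddSubgroup J} (h : ∀ ℓ : ℕ, ℓ.Prime → ¬ ℓ ∣ N →
      ∀ A : ValuationSubring Qb, A.LiesOverPrime ℓ → ∀ p : ℕ, p.Prime → ∀ x ∈ K A,
        ∃ y ∈ K A, p • y = x) {ℓ : ℕ} (hℓ : ℓ.Prime) (hℓN : ¬ ℓ ∣ N) {A : ValuationSubring Qb}
    (hA : A.LiesOverPrime ℓ) {n : ℕ} (hn : 0 < n) : ∀ x ∈ K A, ∃ y ∈ K A, n • y = x :=
  H18.exists_nsmul_of_divRed h hℓ hℓN hA hn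

/-- **The operator `T_ℓ` at a place above `ℓ`**: it preserves the kernel of reduction by the relation of
Eichler and Shimura, `σ y - T_ℓ y + ℓ σ⁻¹ y ∈ K A` for a Frobenius element `σ` at `A`, as the kernel is
stable under the decomposition group. `H15.BasicInputs` is the list of the general properties
(`GuideMazurJacobian`, section 2). File `H18HkGen0`. -/
theorem hecke_at_l {N : ℕ} {J : Type} [AddCommGroup J] [Module HeckeAlg J]
    [DistribMulAction H15.GQ J] {K : ValuationSubring Qb → AddSubgroup J}
    (hb : H15.BasicInputs N J K) {ℓ : ℕ} (hℓ : ℓ.Prime) (hℓN : ¬ ℓ ∣ N) {A : ValuationSubring Qb}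
    (hA : A.LiesOverPrime ℓ) {x : J} (hx : x ∈ K A) : heckeGen ⟨ℓ, hℓ⟩ • x ∈ K A :=
  H18.heckeGen_smul_mem_of_basic hb hℓ hℓN hA hx

/-- **Reduction to the generators** `T_q`, `q ≠ ℓ`. File `H18HkGen`. -/
theorem hecke_from_generators (N : ℕ) [NeZero N]
    (h : ∀ ℓ : ℕ, ℓ.Prime → ¬ ℓ ∣ N → ∀ A : ValuationSubring Qb, A.LiesOverPrime ℓ →
      ∀ q : Nat.Primes, (q : ℕ) ≠ ℓ → ∀ x ∈ H15.KJ N A, heckeGen q • x ∈ H15.KJ N A) {ℓ : ℕ}
    (hℓ : ℓ.Prime) (hℓN : ¬ ℓ ∣ N) (A : ValuationSubring Qb) (hA : A.LiesOverPrime ℓ)
    (t : HeckeAlg) : ∀ x ∈ H15.KJ N A, t • x ∈ H15.KJ N A :=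
  H18.heckeRed_of_gens N h ℓ hℓ hℓN A hA t

/-- **The result**: the kernels of reduction of `J₀(N)` at the places above the primes `ℓ ∤ N` are stable
under the Hecke algebra (`GuideMazurJacobian.kernel_hecke_stable`). Proof: `hecke_from_generators`, and
`hecke_stable` with `GuideKernel.kernel_divisible`. File `H18HkTop`. -/
theorem kernel_hecke_stable (N : ℕ) [NeZero N] {ℓ : ℕ} (hℓ : ℓ.Prime) (hℓN : ¬ ℓ ∣ N)
    (A : ValuationSubring Qb) (hA : A.LiesOverPrime ℓ) (t : HeckeAlg) :
    ∀ x ∈ H15.KJ N A, t • x ∈ H15.KJ N A :=
  H18.heckeRed N ℓ hℓ hℓN A hA t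

end Fermat.Agent.Guide.HeckeReduction
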