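import Fermat.Agent.H73LTNode
import Fermat.Agent.H87Glue

/-!
# The local type of the Tate module at a prime of multiplicative reduction

(helper73, module M8(a), (E1), of LT-MOD2.)
-/

set_option autoImplicit false

open WeierstrassCurve WeierstrassCurve.Affine IsLocalRing
open scoped WeierstrassCurve.Affine Pointwise
open Fermat.Agent.H53 (GQ M2)
open Fermat.Agent.H13

namespace Fermat.Agent.H73LT

/-! ### the closed form of the type -/

/-- **Type** of a matrix valued representation at the place `P`, with quotient character the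
unramified sign `s` : `(r g - det (r g) s(g)) (r h - s(h)) = 0` on the decomposition group. -/
structure LocType {R : Type*} [CommRing R] (r : GQ →* Matrix (Fin 2) (Fin 2) R)
    (P : ValuationSubring (AlgebraicClosure ℚ)) (s : GQ → ℤ) : Prop where
  sign : ∀ g ∈ P.decompositionSubgroup ℚ, s g = 1 ∨ s g = -1
  mul : ∀ g ∈ P.decompositionSubgroup ℚ, ∀ h ∈ P.decompositionSubgroup ℚ, s (g * h) = s g * s h
  inertia : ∀ g ∈ P.inertiaSubgroupIn ℚ, s g = 1
  rel : ∀ g ∈ P.decompositionSubgroup ℚ, ∀ h ∈ P.decompositionSubgroup ℚ,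
    (r g - ((r g).det * (s g : R)) • (1 : Matrix (Fin 2) (Fin 2) R)) *
      (r h - (s h : R) • (1 : Matrix (Fin 2) (Fin 2) R)) = 0

section LocType

variable {R S : Type*} [CommRing R] [CommRing S] {r : GQ →* Matrix (Fin 2) (Fin 2) R}
  {P : ValuationSubring (AlgebraicClosure ℚ)} {s : GQ → ℤ}

lemma LocType.sq (h : LocType r P s) {g : GQ} (hg : g ∈ P.decompositionSubgroup ℚ) :
    s g * s g = 1 := by
  rcases h.sign g hg with h | h <;> rw [h] <;> rfl

/-- push-forward along a ring homomorphism -/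
lemma LocType.map (h : LocType r P s) (f : R →+* S) :
    LocType ((f.mapMatrix : Matrix (Fin 2) (Fin 2) R →+*
      Matrix (Fin 2) (Fin 2) S).toMonoidHom.comp r) P s where
  sign := h.sign
  mul := h.mul
  inertia := h.inertia
  rel := by
    intro g hg g' hg'
    have h1 := congrArg (f.mapMatrix : Matrix (Fin 2) (Fin 2) R →+* Matrix (Fin 2) (Fin 2) S)
      (h.rel g hg g' hg')
    rw [map_mul, map_sub, map_sub, map_zero] at h1
    have e : ∀ c : R, f.mapMatrix (c • (1 : Matrix (Fin 2) (Fin 2) R)) =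
        f c • (1 : Matrix (Fin 2) (Fin 2) S) := by
      intro c
      ext i j
      simp only [RingHom.mapMatrix_apply, Matrix.map_apply, Matrix.smul_apply, Matrix.one_apply,
        smul_eq_mul]
      split_ifs <;> simp
    rw [e, e, map_mul, map_intCast, map_intCast, RingHom.map_det] at h1
    exact h1

/-- conjugation -/
lemma LocType.conj (h : LocType r P s) (U : (Matrix (Fin 2) (Fin 2) R)ˣ)
    {r' : GQ →* Matrix (Fin 2) (Fin 2) R}
    (hr' : ∀ g, r' g = U * r g * ((U⁻¹ : (Matrix (Fin 2) (Fin 2) R)ˣ) : Matrix (Fin 2) (Fin 2) R)) :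
    LocType r' P s where
  sign := h.sign
  mul := h.mul
  inertia := h.inertia
  rel := by
    intro g hg g' hg'
    have hdet : (r' g).det = (r g).det := by
      rw [hr' g]
      exact Matrix.det_units_conj U (r g)
    have e : ∀ (g : GQ) (c : R), r' g - c • (1 : Matrix (Fin 2) (Fin 2) R) =
        U * (r g - c • (1 : Matrix (Fin 2) (Fin 2) R)) *
          ((U⁻¹ : (Matrix (Fin 2) (Fin 2) R)ˣ) : Matrix (Fin 2) (Fin 2) R) := by
      intro g c
      rw [hr' g, mul_sub, sub_mul, Matrix.mul_smul, Matrix.smul_mul, mul_one, Units.mul_inv]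
    rw [hdet, e, e]
    calc _ = (U : Matrix (Fin 2) (Fin 2) R) * (r g - ((r g).det * (s g : R)) • 1) *
          (((U⁻¹ : (Matrix (Fin 2) (Fin 2) R)ˣ) : Matrix (Fin 2) (Fin 2) R) * U) *
          (r g' - (s g' : R) • 1) * ((U⁻¹ : (Matrix (Fin 2) (Fin 2) R)ˣ) :
            Matrix (Fin 2) (Fin 2) R) := by simp only [mul_assoc]
      _ = (U : Matrix (Fin 2) (Fin 2) R) * ((r g - ((r g).det * (s g : R)) • 1) *
          (r g' - (s g' : R) • 1)) * ((U⁻¹ : (Matrix (Fin 2) (Fin 2) R)ˣ) :
            Matrix (Fin 2) (Fin 2) R) := by rw [Units.inv_mul, mul_one]; simp only [mul_assoc]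
      _ = 0 := by rw [h.rel g hg g' hg', mul_zero, zero_mul]

/-- upper triangular form gives the relation -/
lemma rel_of_triangular {m m' : Matrix (Fin 2) (Fin 2) R} {c c' : R} (h : m 1 0 = 0)
    (h' : m' 1 0 = 0) (hc : m 1 1 = c) (hc' : m' 1 1 = c') (hcc : c * c = 1) :
    (m - (m.det * c) • (1 : Matrix (Fin 2) (Fin 2) R)) *
      (m' - c' • (1 : Matrix (Fin 2) (Fin 2) R)) = 0 := by
  have hd : m.det * c = m 0 0 := by
    rw [Matrix.det_fin_two, h, hc]
    linear_combination (m 0 0) * hcc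
  rw [hd]
  ext i j
  fin_cases i <;> fin_cases j <;>
    simp [Matrix.mul_apply, Fin.sum_univ_two, h, h', hc, hc']

/-- criterion: upper triangular form on the decomposition group -/
lemma locType_of_triangular (U : (Matrix (Fin 2) (Fin 2) R)ˣ)
    (hs : ∀ g ∈ P.decompositionSubgroup ℚ, s g = 1 ∨ s g = -1)
    (hmul : ∀ g ∈ P.decompositionSubgroup ℚ, ∀ h ∈ P.decompositionSubgroup ℚ,
      s (g * h) = s g * s h)
    (hin : ∀ g ∈ P.inertiaSubgroupIn ℚ, s g = 1)
    (hU : ∀ g ∈ P.decompositionSubgroup ℚ,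
      ((U : Matrix (Fin 2) (Fin 2) R) * r g *
        ((U⁻¹ : (Matrix (Fin 2) (Fin 2) R)ˣ) : Matrix (Fin 2) (Fin 2) R)) 1 0 = 0 ∧
      ((U : Matrix (Fin 2) (Fin 2) R) * r g *
        ((U⁻¹ : (Matrix (Fin 2) (Fin 2) R)ˣ) : Matrix (Fin 2) (Fin 2) R)) 1 1 = s g) :
    LocType r P s := by
  let r' : GQ →* Matrix (Fin 2) (Fin 2) R :=
    { toFun := fun g => U * r g * ((U⁻¹ : (Matrix (Fin 2) (Fin 2) R)ˣ) : Matrix (Fin 2) (Fin 2) R)
      map_one' := by rw [map_one, mul_one, Units.mul_inv]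
      map_mul' := fun g h => by
        rw [map_mul]
        calc _ = (U : Matrix (Fin 2) (Fin 2) R) * r g * 1 * r h *
              ((U⁻¹ : (Matrix (Fin 2) (Fin 2) R)ˣ) : Matrix (Fin 2) (Fin 2) R) := by
                simp only [mul_assoc, mul_one, one_mul]
          _ = _ := by rw [← Units.inv_mul U]; simp only [mul_assoc] }
  have h' : LocType r' P s := by
    refine ⟨hs, hmul, hin, fun g hg g' hg' => ?_⟩
    obtain ⟨h1, h2⟩ := hU g hg
    obtain ⟨h3, h4⟩ := hU g' hg'
    refine rel_of_triangular h1 h3 h2 h4 ?_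
    rcases hs g hg with h | h <;> rw [h] <;> simp
  refine h'.conj U⁻¹ fun g => ?_
  change r g = ((U⁻¹ : (Matrix (Fin 2) (Fin 2) R)ˣ) : Matrix (Fin 2) (Fin 2) R) *
    (U * r g * ((U⁻¹ : (Matrix (Fin 2) (Fin 2) R)ˣ) : Matrix (Fin 2) (Fin 2) R)) * _
  rw [inv_inv]
  calc r g = 1 * r g * 1 := by rw [one_mul, mul_one]
    _ = _ := by rw [← Units.inv_mul U]; simp only [mul_assoc]

end LocType

/-! ### multiplicative reduction -/

section Sign

variable {K : Type*} [Field K] [DecidableEq K] {A : ValuationSubring K}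

/-- The node sign is computed by a Frobenius. -/
theorem frobenius_fix_iff {S : Type*} [Field S] [Algebra S K] [Algebra.IsAlgebraic S K]
    {W : WeierstrassCurve ℤ} {x₀ y₀ α β g : A}
    (hN : GoodNode (W.map (Int.castRingHom A)) x₀ y₀ α β g) {q : ℕ} (hq : q.Prime)
    (hA : A.LiesOverPrime q) {σ : K ≃ₐ[S] K} (hσ : A.IsFrobeniusAt σ q) :
    (σ (α : K) = α ↔ nodeSign W q = 1) := by
  classical
  have := Fact.mk hq
  have hchar := H59.charP_residue hq hA
  let ι : ZMod q →+* ResidueField A := ZMod.castHom dvd_rfl (ResidueField A)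
  have hι : Function.Injective ι := ι.injective
  have hk : (W.map (Int.castRingHom A)).map (residue A) =
      (W.map (Int.castRingHom (ZMod q))).map ι := by
    rw [WeierstrassCurve.map_map, WeierstrassCurve.map_map]
    congr 1
    exact RingHom.ext_int _ _
  have hnd : NodeData ((W.map (Int.castRingHom (ZMod q))).map ι) (residue A x₀) (residue A y₀)
      (residue A α) (residue A β) 0 := hN.ndk hk
  have hαβ := hN.αβk
  obtain ⟨-, hfr⟩ := H59.residue_of_isFrobeniusAt hσ
  obtain ⟨h1, h2, -, h3⟩ := hN.decomp hσ.mem_decompositionSubgroup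
  have hpow : ∀ z : A, σ (z : K) = z → (residue A z) ^ q = residue A z := by
    intro z hz
    obtain ⟨hm, h⟩ := hfr z
    rw [← h]
    congr 1
    exact Subtype.ext hz
  have hrat : ∀ z : ResidueField A, z ^ q = z → ∃ w : ZMod q, ι w = z := by
    intro z hz
    have h4 : z ∈ (⊥ : Subfield (ResidueField A)) :=
      (Subfield.mem_bot_iff_pow_eq_self (ResidueField A) q).mpr hz
    have h5 : (⊥ : Subfield (ResidueField A)) ≤ ι.fieldRange := bot_le
    exact RingHom.mem_fieldRange.mp (h5 h4)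
  unfold nodeSign
  constructor
  · intro hα
    have hβ : σ (β : K) = β := by
      rcases h3 with h | h
      · exact h.2
      · have h5 : (α : K) = β := by rw [← hα, h.1]
        exact absurd (congrArg (residue A) (Subtype.ext h5 : α = β)) hαβ
    rw [if_pos]
    obtain ⟨x, hx⟩ := hrat _ (hpow x₀ h1)
    obtain ⟨y, hy⟩ := hrat _ (hpow y₀ h2)
    obtain ⟨a, ha⟩ := hrat _ (hpow α hα)
    obtain ⟨b, hb⟩ := hrat _ (hpow β hβ)
    refine ⟨x, y, a, b, ?_⟩
    rw [← hx, ← hy, ← ha, ← hb, ← map_zero ι] at hnd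
    refine ⟨?_, ?_, ?_, ?_, ?_⟩
    · apply hι
      have := hnd.dy
      simpa only [map_add, map_mul, map_pow, map_sub, map_ofNat, map_zero, map_a₁, map_a₃] using this
    · apply hι
      have := hnd.dx
      simpa only [map_add, map_mul, map_pow, map_sub, map_ofNat, map_zero, map_a₁, map_a₂, map_a₄]
        using this
    · apply hι
      have := hnd.eq
      simpa only [map_add, map_mul, map_pow, map_sub, map_ofNat, map_zero, map_a₁, map_a₂, map_a₃,
        map_a₄, map_a₆] using this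
    · apply hι
      have := hnd.sum
      simpa only [map_add, map_neg, map_a₁] using this
    · apply hι
      have := hnd.prod
      simpa only [map_add, map_mul, map_ofNat, map_neg, map_a₂] using this
  · intro h
    by_cases hex : ∃ x y α β : ZMod q, NodeData (W.map (Int.castRingHom (ZMod q))) x y α β 0
    · obtain ⟨x, y, a, b, h6⟩ := hex
      have h7 := h6.map ι
      rw [map_zero] at h7
      obtain ⟨hx, hy⟩ := node_unique hnd h7 hαβ
      rw [hx, hy] at h7
      have h8 := slope_mem h7 hnd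
      have h9 : (residue A α) ^ q = residue A α := by
        rcases h8 with h8 | h8 <;> rw [h8, ← map_pow, ZMod.pow_card]
      rcases h3 with h3 | h3
      · exact h3.1
      · exfalso
        obtain ⟨hm, h10⟩ := hfr α
        rw [h9] at h10
        apply hαβ
        rw [← h10]
        congr 1
        exact Subtype.ext h3.1
    · rw [if_neg hex] at h
      norm_num at h

end Sign

open Fermat.Agent.H87 Fermat.Agent.H87.Tate Fermat.Agent.H87.Glue in
/-- **(E1)** The type of the `p`-adic Tate module of `W` at a prime `q` (possibly `q = p`) of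
multiplicative reduction. -/
theorem exists_triangular {W : WeierstrassCurve ℤ} (hΔ : W.Δ ≠ 0) {q p : ℕ} [hp : Fact p.Prime]
    (hq : q.Prime) (hbad : (q : ℤ) ∣ W.Δ) (hc : ¬ (q : ℤ) ∣ W.c₄)
    (P : ValuationSubring (AlgebraicClosure ℚ)) (hP : P.LiesOverPrime q) :
    ∃ s : GQ → ℤ, (∀ g, s g = 1 ∨ s g = -1) ∧
      (∀ g ∈ P.decompositionSubgroup ℚ, ∀ h ∈ P.decompositionSubgroup ℚ, s (g * h) = s g * s h) ∧
      (∀ g ∈ P.inertiaSubgroupIn ℚ, s g = 1) ∧
      (∀ g, P.IsFrobeniusAt g q → s g = nodeSign W q) ∧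
      ∃ U : (M2 ℤ_[p])ˣ, ∀ g ∈ P.decompositionSubgroup ℚ,
        ((U : M2 ℤ_[p]) * tateMat (EQ W) (EC.map_int_Δ_ne_zero hΔ) p g *
          ((U⁻¹ : (M2 ℤ_[p])ˣ) : M2 ℤ_[p])) 1 0 = 0 ∧
        ((U : M2 ℤ_[p]) * tateMat (EQ W) (EC.map_int_Δ_ne_zero hΔ) p g *
          ((U⁻¹ : (M2 ℤ_[p])ˣ) : M2 ℤ_[p])) 1 1 = s g := by
  classical
  have := H73.isAlgebraic_Qbar
  obtain ⟨x₀, y₀, α, β, g₀, hN⟩ := exists_goodNode hq hbad hΔ hc hP
  have hL := H59.model_map (A := P) (K := AlgebraicClosure ℚ)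
    (rfl : W.map (Int.castRingHom ℚ) = W.map (Int.castRingHom ℚ))
  have hαβ : (α : AlgebraicClosure ℚ) ≠ β := fun h => hN.αβk (congrArg (residue P) (Subtype.ext h))
  have hΔ' := EC.map_int_Δ_ne_zero hΔ
  have hcard := EC.natCard_torsionBy_rat _ hΔ' hp.out.ne_zero
  -- a `p`-torsion point near the node
  have hnear : ∃ T : ((EQ W)⁄(AlgebraicClosure ℚ)).Point, p • T = 0 ∧ Near P x₀ T := by
    by_cases hqp : q = p
    · subst hqp
      exact exists_near_of_char hN hL hq (H59.natCast_residue_eq_zero hP)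
    · exact exists_near (E := W.map (Int.castRingHom ℚ)) hN rfl hp.out.two_le
        (H59.natCast_residue_ne_zero hq hP
          fun h => hqp ((Nat.prime_dvd_prime_iff_eq hq hp.out).mp h)) hcard
  obtain ⟨U, hU⟩ := exists_adapted (EQ W) hΔ' p (awayFromNode hN hL) (by
      intro x hx
      obtain ⟨y, hy, hyx⟩ := exists_nsmul_eq_of_not_near hN hL hp.out hnear
        (H87.EC.exists_nsmul_eq _ (H87.EC.algebraMap_Δ_ne_zero hΔ') hp.out.ne_zero) hx
      exact ⟨y, hy, hyx⟩) (by
      obtain ⟨x, hx, hx0, hpx⟩ := exists_ne_zero_not_near (E := W.map (Int.castRingHom ℚ)) hN rfl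
        hp.out hcard
      exact ⟨x, hx, hx0, hpx⟩) (by
      obtain ⟨T, hT, hTn⟩ := hnear
      exact ⟨T, hT, fun h => h hTn⟩)
  refine ⟨fun g => if g (α : AlgebraicClosure ℚ) = α then 1 else -1, fun g => ?_, ?_, ?_, ?_, U, ?_⟩
  · dsimp only
    split_ifs
    · exact Or.inl rfl
    · exact Or.inr rfl
  · intro g hg h hh
    obtain ⟨-, -, -, hg'⟩ := hN.decomp hg
    obtain ⟨-, -, -, hh'⟩ := hN.decomp hh
    dsimp only
    rw [AlgEquiv.mul_apply]
    rcases hh' with ⟨ha, hb⟩ | ⟨ha, hb⟩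
    · rw [ha, if_pos (c := (α : AlgebraicClosure ℚ) = α) rfl, mul_one]
    · rw [ha, if_neg (c := (β : AlgebraicClosure ℚ) = α) hαβ.symm]
      rcases hg' with ⟨ha', hb'⟩ | ⟨ha', hb'⟩
      · rw [ha', hb', if_pos (c := (α : AlgebraicClosure ℚ) = α) rfl,
          if_neg (c := (β : AlgebraicClosure ℚ) = α) hαβ.symm]
        norm_num
      · rw [ha', hb', if_pos (c := (α : AlgebraicClosure ℚ) = α) rfl,
          if_neg (c := (β : AlgebraicClosure ℚ) = α) hαβ.symm]
        norm_num
  · intro g hg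
    obtain ⟨-, -, -, h3, -⟩ := hN.inertia hg
    exact if_pos h3
  · intro g hg
    have h := frobenius_fix_iff hN hq hP hg
    dsimp only
    by_cases h1 : g (α : AlgebraicClosure ℚ) = α
    · rw [if_pos h1, h.mp h1]
    · rw [if_neg h1]
      rcases nodeSign_eq W q with h2 | h2
      · exact absurd (h.mpr h2) h1
      · exact h2.symm
  · intro g hg
    obtain ⟨h1, h2, -, h3⟩ := hN.decomp hg
    obtain ⟨hU1, hU2⟩ := hU g (by
      intro x hx
      rcases x with _ | ⟨x, y, h⟩
      · exact hx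
      · intro hnear
        apply hx
        change P.valuation (g x - x₀) < 1 at hnear
        change P.valuation (x - x₀) < 1
        rw [← valuation_decomp hg (x - x₀), map_sub, h1]
        exact hnear)
    refine ⟨hU1, hU2 _ fun n x hx => ?_⟩
    obtain ⟨c, hc⟩ := exists_comp x₀ y₀ α β x
    dsimp only
    rcases h3 with ⟨h3, h4⟩ | ⟨h3, h4⟩
    · rw [if_pos h3, one_smul]
      exact sub_not_near hN hL (hc.smul_of_fix hg h1 h2 h3 h4) hc ⟨0, by simp⟩
    · rw [if_neg (by rw [h3]; exact hαβ.symm), neg_smul, one_smul]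
      exact sub_not_near hN hL (hc.smul_of_swap hg h1 h2 h3 h4) (hc.neg hN hL) ⟨0, by simp⟩

open Fermat.Agent.H87 Fermat.Agent.H87.Tate Fermat.Agent.H87.Glue in
/-- **(E1)** closed form. -/
theorem exists_locType {W : WeierstrassCurve ℤ} (hΔ : W.Δ ≠ 0) {q p : ℕ} [hp : Fact p.Prime]
    (hq : q.Prime) (hbad : (q : ℤ) ∣ W.Δ) (hc : ¬ (q : ℤ) ∣ W.c₄)
    (P : ValuationSubring (AlgebraicClosure ℚ)) (hP : P.LiesOverPrime q) :
    ∃ s : GQ → ℤ, LocType (tateMat (EQ W) (EC.map_int_Δ_ne_zero hΔ) p) P s ∧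
      ∀ g, P.IsFrobeniusAt g q → s g = nodeSign W q := by
  obtain ⟨s, hs, hmul, hin, hfr, U, hU⟩ := exists_triangular (p := p) hΔ hq hbad hc P hP
  exact ⟨s, locType_of_triangular U (fun g _ => hs g) hmul hin hU, hfr⟩

end Fermat.Agent.H73LT
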