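import Fermat.Agent.H87Glue2
import Fermat.Agent.H87BC
import Fermat.Agent.H96S29
import Fermat.Agent.H58Newform
import Fermat.Agent.H30Datum
import Fermat.Agent.H35Cyclo
import Fermat.Agent.H86DensityRep
import Fermat.Agent.H86DensityFinal
import Fermat.Agent.H62FrobCharpoly
import Fermat.Prelude.Def_WeierstrassCurve_ConductorLevel
import Fermat.Prelude.Def_FLTPrelim_ModularRep
import Fermat.Prelude.Def_GaloisRep_LocalConditions

/-!
# S58 from S35 and S36 (conductor-level matching)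
-/

set_option autoImplicit false

noncomputable section

open Polynomial IsLocalRing NumberField ModularFormClass CuspForm

namespace Fermat.Agent.H87.S58

open Fermat.Agent.H53 (GQ M2 MCont)
open Fermat.Agent.H87.Glue

/-- The statement of S35. -/
def StatementS35 : Prop :=
    ∀ {M : ℕ} [NeZero M] {g : CuspForm (CongruenceSubgroup.Gamma0 M) 2} (_hg : g.IsNewform)
    (lam : ℕ) [Fact lam.Prime]
    (S : Finset ℕ)
    (O' : Type) [CommRing O'] [IsDomain O'] [IsDiscreteValuationRing O']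
    [IsAdicComplete (IsLocalRing.maximalIdeal O') O'] [Finite (IsLocalRing.ResidueField O')]
    [CharZero O'] (_hlamO' : (lam : O') ∈ IsLocalRing.maximalIdeal O')
    (chig : CuspForm.heckeAlgebra M 2 (↑S : Set ℕ) →+* ℂ)
    (_hchig : ∀ (ℓ : ℕ) (hℓ : ℓ.Prime) (hℓM : ¬ ℓ ∣ M) (hℓS : ℓ ∉ (↑S : Set ℕ)),
      chig (CuspForm.heckeAlgebra.T hℓ hℓM hℓS) = ModularFormClass.qCoeff g ℓ)
    (iota : chig.range →+* O')
    (_hlamS : lam ∈ S) (_hMS : ∀ q : ℕ, q.Prime → q ∣ M → q ∈ S)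
    ,
    ∃ (O'' : Type) (_ : CommRing O'') (_ : IsDomain O'') (_ : IsDiscreteValuationRing O'')
      (_ : IsAdicComplete (IsLocalRing.maximalIdeal O'') O'') (_ : Finite (IsLocalRing.ResidueField O''))
      (_ : CharZero O'') (_ : Algebra O' O'') (_ : Module.Finite O' O'') (_ : IsLocalHom (algebraMap O' O'')),
      Function.Injective (algebraMap O' O'') ∧
      ∃ ρ : GaloisRepAdic O'',
        (∀ (ℓ : ℕ) (hℓ : ℓ.Prime) (hℓM : ¬ ℓ ∣ M) (hℓS : ℓ ∉ (↑S : Set ℕ)),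
          ∀ A : ValuationSubring (AlgebraicClosure ℚ), A.LiesOverPrime ℓ →
            ∀ σ : AlgebraicClosure ℚ ≃ₐ[ℚ] AlgebraicClosure ℚ, A.IsFrobeniusAt σ ℓ →
              LinearMap.charpoly (ρ.ρ σ) =
                X ^ 2 - C (algebraMap O' O'' ((iota.comp chig.rangeRestrict) (CuspForm.heckeAlgebra.T hℓ hℓM hℓS))) * X
                  + C ((ℓ : O''))) ∧
        (∀ q : ℕ, q.Prime → q ≠ lam → q ∣ M → ¬ q ^ 2 ∣ M →
          ∀ A : ValuationSubring (AlgebraicClosure ℚ), A.LiesOverPrime q →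
            ∀ σ : AlgebraicClosure ℚ ≃ₐ[ℚ] AlgebraicClosure ℚ, A.IsFrobeniusAt σ q →
              LinearMap.charpoly (ρ.ρ σ) = X ^ 2 - C ((q : O'') + 1) * X + C ((q : O'')) ∨
              LinearMap.charpoly (ρ.ρ σ) = X ^ 2 + C ((q : O'') + 1) * X + C ((q : O'')))

/-- The statement of S36. -/
def StatementS36 : Prop :=
    ∀ {M : ℕ} [NeZero M] {g : CuspForm (CongruenceSubgroup.Gamma0 M) 2} (_hg : g.IsNewform)
    (lam : ℕ) [Fact lam.Prime]
    (S : Finset ℕ)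
    (O' : Type) [CommRing O'] [IsDomain O'] [IsDiscreteValuationRing O']
    [IsAdicComplete (IsLocalRing.maximalIdeal O') O'] [Finite (IsLocalRing.ResidueField O')]
    [CharZero O'] (_hlamO' : (lam : O') ∈ IsLocalRing.maximalIdeal O')
    (_hlam2 : lam ≠ 2)
    (chig : CuspForm.heckeAlgebra M 2 (↑S : Set ℕ) →+* ℂ)
    (_hchig : ∀ (ℓ : ℕ) (hℓ : ℓ.Prime) (hℓM : ¬ ℓ ∣ M) (hℓS : ℓ ∉ (↑S : Set ℕ)),
      chig (CuspForm.heckeAlgebra.T hℓ hℓM hℓS) = ModularFormClass.qCoeff g ℓ)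
    (iota : chig.range →+* O')
    (_hlamS : lam ∈ S) (_hMS : ∀ q : ℕ, q.Prime → q ∣ M → q ∈ S)
    (_hres : ∀ (O'' : Type) [CommRing O''] [IsDomain O''] [IsDiscreteValuationRing O'']
      [IsAdicComplete (IsLocalRing.maximalIdeal O'') O''] [Finite (IsLocalRing.ResidueField O'')] [CharZero O'']
      [Algebra O' O''] [Module.Finite O' O''] [IsLocalHom (algebraMap O' O'')],
      Function.Injective (algebraMap O' O'') → ∀ (ρ : GaloisRepAdic O''),
      (∀ (ℓ : ℕ) (hℓ : ℓ.Prime) (_ : ℓ ≠ lam) (hℓM : ¬ ℓ ∣ M) (hℓS : ℓ ∉ (↑S : Set ℕ)),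
        ∀ A : ValuationSubring (AlgebraicClosure ℚ), A.LiesOverPrime ℓ →
          ∀ σ : AlgebraicClosure ℚ ≃ₐ[ℚ] AlgebraicClosure ℚ, A.IsFrobeniusAt σ ℓ →
            LinearMap.charpoly (ρ.ρ σ) =
              X ^ 2 - C (algebraMap O' O'' ((iota.comp chig.rangeRestrict) (CuspForm.heckeAlgebra.T hℓ hℓM hℓS))) * X
                + C ((ℓ : O'')))
      → ρ.residual.IsAbsolutelyIrreducible ∧ ρ.residual.IsOdd)
    ,
    ∃ (O'' : Type) (_ : CommRing O'') (_ : IsDomain O'') (_ : IsDiscreteValuationRing O'')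
      (_ : IsAdicComplete (IsLocalRing.maximalIdeal O'') O'') (_ : Finite (IsLocalRing.ResidueField O''))
      (_ : CharZero O'') (_ : Algebra O' O'') (_ : Module.Finite O' O'') (_ : IsLocalHom (algebraMap O' O'')),
      Function.Injective (algebraMap O' O'') ∧
      ∃ ρ : GaloisRepAdic O'',
        (∀ (ℓ : ℕ) (hℓ : ℓ.Prime) (hℓM : ¬ ℓ ∣ M) (hℓS : ℓ ∉ (↑S : Set ℕ)),
          ∀ A : ValuationSubring (AlgebraicClosure ℚ), A.LiesOverPrime ℓ →
            ∀ σ : AlgebraicClosure ℚ ≃ₐ[ℚ] AlgebraicClosure ℚ, A.IsFrobeniusAt σ ℓ →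
              LinearMap.charpoly (ρ.ρ σ) =
                X ^ 2 - C (algebraMap O' O'' ((iota.comp chig.rangeRestrict) (CuspForm.heckeAlgebra.T hℓ hℓM hℓS))) * X
                  + C ((ℓ : O''))) ∧
        (∀ q : ℕ, q.Prime → q ≠ lam → M.factorization q = 2 → ¬ ρ.IsUnipotentOnInertiaAt q)

/-- The statement of S58. -/
def StatementS58 : Prop :=
    ∀ (W : WeierstrassCurve ℤ) (_hss : W.IsSemistableModel) (N : ℕ)
    (p : ℕ) [Fact p.Prime] (_hp2 : p ≠ 2) (_hirr : W.ModRepIsIrreducible p)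
    (_hp2N : ¬ p ^ 2 ∣ N)
    (_hN : W.IsModularModelOfLevel N) (_hbad : ∀ ℓ : ℕ, ℓ.Prime → (ℓ : ℤ) ∣ W.Δ → ℓ ∣ N)
    (_hN3 : ∀ q : ℕ, q.Prime → ¬ q ^ 3 ∣ N),
    W.IsModularModelOfLevel W.conductorLevel

/-! ### coefficients -/

/-- A complex character of the Hecke algebra embeds in a complete discrete valuation ring. -/
theorem exists_iota {M : ℕ} [NeZero M] {S : Set ℕ} (chi : CuspForm.heckeAlgebra M 2 S →+* ℂ)
    {lam : ℕ} (hlam : lam.Prime) :
    ∃ (O : Type) (_ : CommRing O) (_ : IsDomain O) (_ : IsDiscreteValuationRing O)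
      (_ : IsAdicComplete (maximalIdeal O) O) (_ : Finite (ResidueField O)) (_ : CharZero O)
      (iota : chi.range →+* O), (lam : O) ∈ maximalIdeal O ∧ Function.Injective iota := by
  have hfin : Module.Finite ℤ (CuspForm.heckeAlgebra M 2 S) := Fermat.Agent.S22.result M 2 S
  obtain ⟨K, hK, χ, hχ⟩ := H96.exists_numberField_of_finite chi
  obtain ⟨𝔪, hmax, hlm⟩ := FLTPrelim.exists_maximalIdeal_natCast_prime_mem hlam
  let k := integralClosure ℤ ℂ ⧸ 𝔪
  let _ : Field k := Ideal.Quotient.field 𝔪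
  have hk0 : ((lam : ℕ) : k) = 0 := by
    have h := Ideal.Quotient.eq_zero_iff_mem.mpr hlm
    rwa [map_natCast] at h
  have hchar : CharP k lam := by
    obtain ⟨q, hq⟩ := CharP.exists k
    have h1 : q ∣ lam := (CharP.cast_eq_zero_iff k q lam).mp hk0
    rcases (Nat.dvd_prime hlam).mp h1 with rfl | rfl
    · exact absurd rfl (CharP.char_ne_one k 1)
    · exact hq
  let j : 𝓞 K →+* integralClosure ℤ ℂ :=
    ((algebraMap K ℂ).comp (algebraMap (𝓞 K) K)).codRestrict (integralClosure ℤ ℂ)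
      (fun x => (RingOfIntegers.isIntegral_coe x).map (algebraMap K ℂ).toIntAlgHom)
  obtain ⟨O, i1, i2, i3, i4, i5, i6, ι, e, hpO, hinj, -⟩ :=
    H96.exists_completeDVR hlam ((Ideal.Quotient.mk 𝔪).comp j)
  have hmem : ∀ c : chi.range, ((c : ℂ)) ∈ K := by
    rintro ⟨c, t, rfl⟩
    have h : ((χ t : 𝓞 K) : K).1 ∈ K := ((χ t : 𝓞 K) : K).2
    rwa [show ((χ t : 𝓞 K) : K).1 = chi t from hχ t] at h
  let f₀ : chi.range →+* K := chi.range.subtype.codRestrict K.toSubfield hmem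
  have hint : ∀ c : chi.range, IsIntegral ℤ (f₀ c) := by
    rintro ⟨c, t, rfl⟩
    have : f₀ ⟨chi t, t, rfl⟩ = ((χ t : 𝓞 K) : K) := Subtype.ext (hχ t).symm
    rw [this]
    exact RingOfIntegers.isIntegral_coe _
  let f₁ : chi.range →+* integralClosure ℤ K := f₀.codRestrict (integralClosure ℤ K) hint
  have hf₁ : Function.Injective f₁ := by
    intro x y hxy
    have h := congrArg (fun z : integralClosure ℤ K => ((z : K) : ℂ)) hxy
    exact Subtype.ext h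
  exact ⟨O, i1, i2, i3, i4, i5, i6, ι.comp f₁, hpO, hinj.comp hf₁⟩

/-! ### comparison with the Tate module -/

section Compare

theorem isLocalHom_padicToAdic {lam : ℕ} [hl : Fact lam.Prime] (O : Type) [CommRing O]
    [IsLocalRing O] (f : ℤ_[lam] →+* O) (hlO : (lam : O) ∈ maximalIdeal O) : IsLocalHom f := by
  refine ⟨fun a ha => ?_⟩
  by_contra h
  have h1 : a ∈ maximalIdeal ℤ_[lam] := (mem_maximalIdeal _).mpr h
  rw [PadicInt.maximalIdeal_eq_span_p, Ideal.mem_span_singleton] at h1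
  obtain ⟨b, rfl⟩ := h1
  rw [map_mul, map_natCast] at ha
  exact (mem_maximalIdeal _).mp (Ideal.mul_mem_right (f b) _ hlO) ha

variable (W : WeierstrassCurve ℤ) (hΔ : W.Δ ≠ 0) {lam : ℕ} [hl : Fact lam.Prime]
  {O : Type} [CommRing O] [IsLocalRing O] [IsAdicComplete (maximalIdeal O) O]
  (hlO : (lam : O) ∈ maximalIdeal O)

/-- the Tate module over `O` -/
def tO : GaloisRepAdic O :=
  (tateZ W hΔ lam).baseChangeAlong (H35.padicToAdic O hlO)
    (isLocalHom_padicToAdic O (H35.padicToAdic O hlO) hlO)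

theorem charpoly_tO_frob {ℓ : ℕ} (hℓ : ℓ.Prime) (hℓp : ℓ ≠ lam) (hW : W.IsGoodPrimeFor ℓ)
    {P : ValuationSubring (AlgebraicClosure ℚ)} (hP : P.LiesOverPrime ℓ) {σ : GQ}
    (hσ : P.IsFrobeniusAt σ ℓ) :
    LinearMap.charpoly ((tO W hΔ hlO).ρ σ) =
      X ^ 2 - C (W.apOfModel ℓ : O) * X + C (ℓ : O) := by
  rw [tO, BC.charpoly_baseChangeAlong, charpoly_frob W hΔ lam hℓ hℓp hW hP hσ]
  simp

/-- `ρ` has the Frobenius characteristic polynomials of `W` outside `S` -/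
def FrobAt (S : Finset ℕ) (ρ : GaloisRepAdic O) : Prop :=
  ∀ ℓ : ℕ, ℓ.Prime → ℓ ∉ S → ℓ ≠ lam → W.IsGoodPrimeFor ℓ →
    ∀ P : ValuationSubring (AlgebraicClosure ℚ), P.LiesOverPrime ℓ →
      ∀ σ : GQ, P.IsFrobeniusAt σ ℓ →
        LinearMap.charpoly (ρ.ρ σ) = X ^ 2 - C (W.apOfModel ℓ : O) * X + C (ℓ : O)

variable {W}

theorem charpoly_eq_tO {S : Finset ℕ} {ρ : GaloisRepAdic O} (h : FrobAt (lam := lam) W S ρ)
    (σ : GQ) : (ρ.ρ σ).charpoly = ((tO W hΔ hlO).ρ σ).charpoly := by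
  classical
  refine H86.charpoly_eq_of_frobenius H86.frobDensityFinite ρ (tO W hΔ hlO)
    (S ∪ {lam} ∪ W.Δ.natAbs.primeFactors) (fun ℓ hℓ hℓS P hP φ hφ => ?_) σ
  simp only [Finset.mem_union, Finset.mem_singleton, not_or, Nat.mem_primeFactors] at hℓS
  have hgood : W.IsGoodPrimeFor ℓ := fun hd =>
    hℓS.2 ⟨hℓ, Int.natCast_dvd.mp hd, Int.natAbs_ne_zero.mpr hΔ⟩
  rw [h ℓ hℓ hℓS.1.1 hℓS.1.2 hgood P hP φ hφ,
    charpoly_tO_frob W hΔ hlO hℓ hℓS.1.2 hgood hP hφ]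

include hΔ hlO in
theorem residual_of_frobAt (hp2 : lam ≠ 2) (hirr : W.ModRepIsIrreducible lam) {S : Finset ℕ}
    {ρ : GaloisRepAdic O} (h : FrobAt (lam := lam) W S ρ) :
    ρ.residual.IsAbsolutelyIrreducible ∧ ρ.residual.IsOdd := by
  classical
  have hlk : ((lam : ℕ) : ResidueField O) = 0 := by
    have := (residue_eq_zero_iff _).mpr hlO
    rwa [map_natCast] at this
  have hchar : CharP (ResidueField O) lam := by
    obtain ⟨q, hq⟩ := CharP.exists (ResidueField O)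
    have h1 : q ∣ lam := (CharP.cast_eq_zero_iff _ q lam).mp hlk
    rcases (Nat.dvd_prime hl.out).mp h1 with rfl | rfl
    · exact absurd rfl (CharP.char_ne_one (ResidueField O) 1)
    · exact hq
  let φ : ZMod lam →+* ResidueField O := ZMod.castHom dvd_rfl _
  have h2 : (2 : ResidueField O) ≠ 0 := by
    intro h2
    have h3 : lam ∣ 2 := (CharP.cast_eq_zero_iff (ResidueField O) lam 2).mp (by exact_mod_cast h2)
    exact hp2 ((Nat.prime_dvd_prime_iff_eq hl.out Nat.prime_two).mp h3)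
  have h2' : (2 : ZMod lam) ≠ 0 := fun h0 => h2 (by
    have := congrArg φ h0
    rwa [map_ofNat, map_zero] at this)
  let ρ₁ : ResidualGaloisRep (ResidueField O) := (resZ W hΔ lam).baseChangeAlong φ
  have hirr₁ : ρ₁.IsIrreducible := by
    let _ : Algebra (ZMod lam) (ResidueField O) := φ.toAlgebra
    exact AbsIrr.isIrreducible_baseChange_of_involution h2' (resZ W hΔ lam)
      (resZ_isIrreducible W hΔ lam hirr) complexConjugation complexConjugation_mul_self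
      (resZ_isOdd W hΔ lam _ complexConjugation_mul_self Res.complexConjugation_ne_one)
  let S' : Finset ℕ := S ∪ {lam} ∪ W.Δ.natAbs.primeFactors
  have hS' : ∀ ℓ : ℕ, ℓ.Prime → ℓ ∉ S' → ℓ ∉ S ∧ ℓ ≠ lam ∧ W.IsGoodPrimeFor ℓ := by
    intro ℓ hℓ hℓS
    simp only [S', Finset.mem_union, Finset.mem_singleton, not_or, Nat.mem_primeFactors] at hℓS
    exact ⟨hℓS.1.1, hℓS.1.2, fun hd =>
      hℓS.2 ⟨hℓ, Int.natCast_dvd.mp hd, Int.natAbs_ne_zero.mpr hΔ⟩⟩
  let a : ∀ ℓ : ℕ, ℓ.Prime → ℓ ∉ S' → ResidueField O := fun ℓ _ _ => (W.apOfModel ℓ : ResidueField O)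
  let b₁ := Module.finBasisOfFinrankEq (ResidueField O) ρ₁.V ρ₁.finrank_eq
  let b₂ := Module.finBasisOfFinrankEq (ResidueField O) ρ.residual.V ρ.residual.finrank_eq
  have hf₁ : H30.FrobData S' a (H53.toMat ρ₁.ρ b₁) :=
    H30.frobData_toMat_residual ρ₁ b₁ fun ℓ hℓ hℓS A hA σ hσ => by
      obtain ⟨-, hlp, hg⟩ := hS' ℓ hℓ hℓS
      rw [H96.charpoly_residual_baseChangeAlong, resZ_charpoly_frob W hΔ lam hℓ hlp hg hA hσ]
      simp [a]
  have hf₂ : H30.FrobData S' a (H53.toMat ρ.residual.ρ b₂) :=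
    H30.frobData_toMat_residual ρ.residual b₂ fun ℓ hℓ hℓS A hA σ hσ => by
      obtain ⟨hs, hlp, hg⟩ := hS' ℓ hℓ hℓS
      rw [H96.charpoly_residual, h ℓ hℓ hs hlp hg A hA σ hσ]
      simp [a]
  have hlS' : lam ∈ S' := by simp [S']
  refine ⟨(H30.residual_equiv_of_frobData hl.out hlS' hlk h2 ρ₁ ρ.residual hirr₁ b₁ b₂ hf₁ hf₂).2,
    fun c hc hc1 => ?_⟩
  have : IsHausdorff (maximalIdeal (ResidueField O)) (ResidueField O) := H30.isHausdorff_field
  have hd := H30.det_involution hl.out hlS' (by rw [hlk]; exact zero_mem _)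
    (H30.mcont_residual ρ.residual b₂) hf₂ hc hc1
  rwa [H53.toMat_apply, LinearMap.det_toMatrix] at hd

end Compare

/-! ### the newform -/

theorem ap_ne_add_one {W : WeierstrassCurve ℤ} {q : ℕ} (hq : q.Prime) (hW : W.IsGoodPrimeFor q) :
    W.apOfModel q ^ 2 ≠ ((q : ℤ) + 1) ^ 2 := by
  have : Fact q.Prime := ⟨hq⟩
  intro h
  have hΔ' : (W.reductionMod q).Δ ≠ 0 := by
    rw [WeierstrassCurve.reductionMod, WeierstrassCurve.map_Δ, eq_intCast, Ne,
      ZMod.intCast_zmod_eq_zero_iff_dvd]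
    exact hW
  have h1 := H62.hasse_bound (W.reductionMod q) hΔ'
  rw [Nat.card_zmod] at h1
  change W.apOfModel q ^ 2 ≤ 4 * (q : ℤ) at h1
  rw [h] at h1
  have h2 : (2 : ℤ) ≤ q := by exact_mod_cast hq.two_le
  nlinarith

/-- coefficient comparison for quadratic polynomials -/
theorem coeff_one_eq {R : Type*} [CommRing R] {a b c d : R}
    (h : (X ^ 2 - C a * X + C b : R[X]) = X ^ 2 - C c * X + C d) : a = c := by
  have := congrArg (fun p => p.coeff 1) h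
  simpa [coeff_X_pow, coeff_X, coeff_C] using this

section Newform

variable {W : WeierstrassCurve ℤ} (hss : W.IsSemistableModel) (hΔ : W.Δ ≠ 0)
  {N : ℕ} (hN0 : N ≠ 0) (hbad : ∀ ℓ : ℕ, ℓ.Prime → (ℓ : ℤ) ∣ W.Δ → ℓ ∣ N)
  {M : ℕ} [NeZero M] (hMN : M ∣ N) {g : CuspForm (CongruenceSubgroup.Gamma0 M) 2}
  (hg : g.IsNewform)
  (hga : ∀ ℓ : ℕ, ℓ.Prime → ¬ ℓ ∣ N → qCoeff ⇑g ℓ = (W.apOfModel ℓ : ℂ))

include hga hN0 in
/-- Frobenius characteristic polynomials of the attached representation -/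
theorem frobAt_of {S : Finset ℕ} {O O'' : Type} [CommRing O] [CommRing O''] [IsLocalRing O'']
    [Algebra O O''] {lam : ℕ} (hSN : ∀ q : ℕ, q.Prime → q ∈ S → q ∣ N ∨ q = lam)
    {chig : CuspForm.heckeAlgebra M 2 (↑S : Set ℕ) →+* ℂ}
    (hchig : ∀ (ℓ : ℕ) (hℓ : ℓ.Prime) (hℓM : ¬ ℓ ∣ M) (hℓS : ℓ ∉ (↑S : Set ℕ)),
      chig (CuspForm.heckeAlgebra.T hℓ hℓM hℓS) = ModularFormClass.qCoeff g ℓ)
    (iota : chig.range →+* O) {ρ : GaloisRepAdic O''}
    (hρ : ∀ (ℓ : ℕ) (hℓ : ℓ.Prime) (_ : ℓ ≠ lam) (hℓM : ¬ ℓ ∣ M) (hℓS : ℓ ∉ (↑S : Set ℕ)),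
          ∀ A : ValuationSubring (AlgebraicClosure ℚ), A.LiesOverPrime ℓ →
            ∀ σ : AlgebraicClosure ℚ ≃ₐ[ℚ] AlgebraicClosure ℚ, A.IsFrobeniusAt σ ℓ →
              LinearMap.charpoly (ρ.ρ σ) =
                X ^ 2 - C (algebraMap O O'' ((iota.comp chig.rangeRestrict) (CuspForm.heckeAlgebra.T hℓ hℓM hℓS))) * X
                  + C ((ℓ : O''))) (hMN : M ∣ N) :
    FrobAt (lam := lam) W N.primeFactors ρ := by
  intro ℓ hℓ hℓN hℓlam hgood P hP σ hσ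
  have hℓN' : ¬ ℓ ∣ N := fun h => hℓN (Nat.mem_primeFactors.mpr ⟨hℓ, h, hN0⟩)
  have hℓM : ¬ ℓ ∣ M := fun h => hℓN' (h.trans hMN)
  have hℓS : ℓ ∉ (↑S : Set ℕ) := fun h => by
    rcases hSN ℓ hℓ (Finset.mem_coe.mp h) with h | h
    · exact hℓN' h
    · exact hℓlam h
  rw [hρ ℓ hℓ hℓlam hℓM hℓS P hP σ hσ]
  have h1 : chig.rangeRestrict (CuspForm.heckeAlgebra.T hℓ hℓM hℓS) =
      ((W.apOfModel ℓ : ℤ) : chig.range) := by
    apply Subtype.ext
    rw [RingHom.coe_rangeRestrict, hchig ℓ hℓ hℓM hℓS, hga ℓ hℓ hℓN']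
    rfl
  rw [RingHom.comp_apply, h1, map_intCast, map_intCast]

include hΔ hN0 hga hMN hg in
/-- **the attached representation at a good prime of `W`**: such a prime does not divide exactly
the level, and if it does not divide the level, then the coefficient is `a_ℓ(W)`. -/
theorem good_prime (h35 : StatementS35) {ℓ : ℕ} (hℓ : ℓ.Prime) (hgood : W.IsGoodPrimeFor ℓ) :
    ¬ (ℓ ∣ M ∧ ¬ ℓ ^ 2 ∣ M) ∧ (¬ ℓ ∣ M → qCoeff ⇑g ℓ = (W.apOfModel ℓ : ℂ)) := by
  classical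
  obtain ⟨lam, hlge, hlam⟩ := Nat.exists_infinite_primes (ℓ + 1)
  have hlam' : Fact lam.Prime := ⟨hlam⟩
  have hne : ℓ ≠ lam := by omega
  let S : Finset ℕ := {lam} ∪ M.primeFactors ∪ (N.primeFactors.erase ℓ)
  have hlS : lam ∈ S := by simp [S]
  have hMS : ∀ q : ℕ, q.Prime → q ∣ M → q ∈ S := fun q hq hqM => by
    simp only [S, Finset.mem_union, Finset.mem_singleton, Nat.mem_primeFactors]
    exact Or.inl (Or.inr ⟨hq, hqM, NeZero.ne M⟩)
  have hSN : ∀ q : ℕ, q.Prime → q ∈ S → q ∣ N ∨ q = lam := fun q hq hqS => by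
    simp only [S, Finset.mem_union, Finset.mem_singleton, Nat.mem_primeFactors,
      Finset.mem_erase] at hqS
    rcases hqS with (h | h) | h
    · exact Or.inr h
    · exact Or.inl (h.2.1.trans hMN)
    · exact Or.inl h.2.2.1
  let chig := H96.eigenChar hg.1 (↑S : Set ℕ)
  have hchig : ∀ (ℓ : ℕ) (hℓ : ℓ.Prime) (hℓM : ¬ ℓ ∣ M) (hℓS : ℓ ∉ (↑S : Set ℕ)),
      chig (CuspForm.heckeAlgebra.T hℓ hℓM hℓS) = ModularFormClass.qCoeff g ℓ :=
    fun ℓ hℓ hℓM hℓS => H96.eigenChar_T hg.1 hℓ hℓM hℓS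
  obtain ⟨O, _, _, _, _, _, _, iota, hlO, hinj⟩ := exists_iota chig hlam
  obtain ⟨O'', _, _, _, _, _, _, _, _, _, hinj', ρ, hρ, hq⟩ :=
    h35 hg lam S O hlO chig hchig iota hlS hMS
  have hlO'' : (lam : O'') ∈ maximalIdeal O'' := by
    have := map_nonunit (algebraMap O O'') _ hlO
    rwa [map_natCast] at this
  have hfr : FrobAt (lam := lam) W N.primeFactors ρ :=
    frobAt_of hN0 hga hSN hchig iota (fun ℓ hℓ _ hℓM hℓS => hρ ℓ hℓ hℓM hℓS) hMN
  obtain ⟨A, hA⟩ := H54.exists_liesOverPrime hℓ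
  obtain ⟨σ, hσ⟩ := H54.exists_isFrobeniusAt hℓ hA
  have hcp := charpoly_eq_tO hΔ hlO'' hfr σ
  rw [charpoly_tO_frob W hΔ hlO'' hℓ hne hgood hA hσ] at hcp
  constructor
  · rintro ⟨h1, h2⟩
    rcases hq ℓ hℓ hne h1 h2 A hA σ hσ with h3 | h3
    · rw [h3] at hcp
      have h4 := coeff_one_eq hcp
      refine ap_ne_add_one hℓ hgood ?_
      have h5 : ((W.apOfModel ℓ : ℤ) : O'') = (((ℓ : ℤ) + 1 : ℤ) : O'') := by
        rw [← h4]; push_cast; rfl
      rw [Int.cast_injective h5]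
    · rw [h3, show (X ^ 2 + C ((ℓ : O'') + 1) * X + C ((ℓ : O'')) : O''[X]) =
        X ^ 2 - C (-((ℓ : O'') + 1)) * X + C ((ℓ : O'')) by rw [C_neg]; ring] at hcp
      have h4 := coeff_one_eq hcp
      refine ap_ne_add_one hℓ hgood ?_
      have h5 : ((W.apOfModel ℓ : ℤ) : O'') = ((-((ℓ : ℤ) + 1) : ℤ) : O'') := by
        rw [← h4]; push_cast; rfl
      rw [Int.cast_injective h5]
      ring
  · intro hℓM
    have hℓS : ℓ ∉ (↑S : Set ℕ) := by
      intro h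
      simp only [S, Finset.coe_union, Finset.coe_singleton, Set.mem_union, Set.mem_singleton_iff,
        Finset.mem_coe, Nat.mem_primeFactors, Finset.mem_erase] at h
      rcases h with (h | h) | h
      · exact hne h
      · exact hℓM h.2.1
      · exact h.1 rfl
    rw [hρ ℓ hℓ hℓM hℓS A hA σ hσ] at hcp
    have h4 := coeff_one_eq hcp
    have h5 : iota (chig.rangeRestrict (CuspForm.heckeAlgebra.T hℓ hℓM hℓS)) =
        iota ((W.apOfModel ℓ : ℤ) : chig.range) := by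
      apply hinj'
      rw [map_intCast, map_intCast]
      exact h4
    have h6 := congrArg Subtype.val (hinj h5)
    rw [RingHom.coe_rangeRestrict, hchig ℓ hℓ hℓM hℓS] at h6
    exact h6

include hss hΔ hN0 hga hMN hg in
/-- no prime `q ≠ p` divides the level exactly twice -/
theorem factorization_ne_two (h36 : StatementS36) {p : ℕ} [hp : Fact p.Prime] (hp2 : p ≠ 2)
    (hirr : W.ModRepIsIrreducible p) {q : ℕ} (hq : q.Prime) (hqp : q ≠ p) :
    M.factorization q ≠ 2 := by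
  classical
  intro hq2
  let S : Finset ℕ := {p} ∪ N.primeFactors
  have hlS : p ∈ S := by simp [S]
  have hMS : ∀ q : ℕ, q.Prime → q ∣ M → q ∈ S := fun q hq hqM => by
    simp only [S, Finset.mem_union, Finset.mem_singleton, Nat.mem_primeFactors]
    exact Or.inr ⟨hq, hqM.trans hMN, hN0⟩
  have hSN : ∀ q : ℕ, q.Prime → q ∈ S → q ∣ N ∨ q = p := fun q hq hqS => by
    simp only [S, Finset.mem_union, Finset.mem_singleton, Nat.mem_primeFactors] at hqS
    rcases hqS with h | h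
    · exact Or.inr h
    · exact Or.inl h.2.1
  let chig := H96.eigenChar hg.1 (↑S : Set ℕ)
  have hchig : ∀ (ℓ : ℕ) (hℓ : ℓ.Prime) (hℓM : ¬ ℓ ∣ M) (hℓS : ℓ ∉ (↑S : Set ℕ)),
      chig (CuspForm.heckeAlgebra.T hℓ hℓM hℓS) = ModularFormClass.qCoeff g ℓ :=
    fun ℓ hℓ hℓM hℓS => H96.eigenChar_T hg.1 hℓ hℓM hℓS
  obtain ⟨O, _, _, _, _, _, _, iota, hlO, hinj⟩ := exists_iota chig hp.out
  have hmem : ∀ (O'' : Type) [CommRing O''] [IsDomain O''] [IsDiscreteValuationRing O'']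
      [Algebra O O''] [IsLocalHom (algebraMap O O'')], (p : O'') ∈ maximalIdeal O'' := by
    intro O'' _ _ _ _ _
    have := map_nonunit (algebraMap O O'') _ hlO
    rwa [map_natCast] at this
  obtain ⟨O'', _, _, _, _, _, _, _, _, _, hinj', ρ, hρ, hnot⟩ :=
    h36 hg p S O hlO hp2 chig hchig iota hlS hMS (by
      intro O'' _ _ _ _ _ _ _ _ _ hinj' ρ hρ
      exact residual_of_frobAt hΔ (hmem O'') hp2 hirr
        (frobAt_of hN0 hga hSN hchig iota hρ hMN))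
  have hlO'' := hmem O''
  have hfr : FrobAt (lam := p) W N.primeFactors ρ :=
    frobAt_of hN0 hga hSN hchig iota (fun ℓ hℓ _ hℓM hℓS => hρ ℓ hℓ hℓM hℓS) hMN
  refine hnot q hq hqp hq2 fun P hP σ hσ => ?_
  rw [charpoly_eq_tO hΔ hlO'' hfr σ]
  exact BC.isUnipotentOnInertiaAt_baseChangeAlong _ _
    (isUnipotentOnInertiaAt_of_semistable W hΔ p hss hq hqp) P hP σ hσ

end Newform

/-- **S58 from S35 and S36.** -/
theorem statementS58_of (h35 : StatementS35) (h36 : StatementS36) : StatementS58 := by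
  intro W hss N p hp hp2 hirr hp2N hN hbad hN3
  have hN0 : N ≠ 0 := by
    rintro rfl
    exact hp2N (dvd_zero _)
  have hΔ : W.Δ ≠ 0 := by
    intro h
    obtain ⟨q, hqN, hq⟩ := Nat.exists_infinite_primes (N + 1)
    have := Nat.le_of_dvd (Nat.pos_of_ne_zero hN0) (hbad q hq (by rw [h]; exact dvd_zero _))
    omega
  obtain ⟨f, hf, hfa⟩ := hN
  obtain ⟨M, hMN, g, hg, hgf⟩ := H58.exists_isNewform hN0 hf
  have hM0 : M ≠ 0 := by
    rintro rfl
    exact hN0 (zero_dvd_iff.mp hMN)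
  have : NeZero M := ⟨hM0⟩
  have hga : ∀ ℓ : ℕ, ℓ.Prime → ¬ ℓ ∣ N → qCoeff ⇑g ℓ = (W.apOfModel ℓ : ℂ) := by
    intro ℓ hℓ hℓN
    rw [hgf ℓ hℓ hℓN]
    exact hfa ℓ hℓ (fun hd => hℓN (hbad ℓ hℓ hd)) hℓN
  -- the level is squarefree
  have hsq : ∀ q : ℕ, q.Prime → ¬ q ^ 2 ∣ M := by
    intro q hq hq2
    by_cases hqp : q = p
    · subst hqp
      exact hp2N (hq2.trans hMN)
    · refine factorization_ne_two hss hΔ hN0 hMN hg hga h36 hp2 hirr hq hqp ?_
      have h1 : 2 ≤ M.factorization q := (hq.pow_dvd_iff_le_factorization hM0).mp hq2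
      have h2 : ¬ 3 ≤ M.factorization q := fun h3 =>
        hN3 q hq (((hq.pow_dvd_iff_le_factorization hM0).mpr h3).trans hMN)
      omega
  have hdvd : ∀ q : ℕ, q.Prime → q ∣ M → (q : ℤ) ∣ W.Δ := by
    intro q hq hqM
    by_contra hgood
    exact (good_prime hΔ hN0 hMN hg hga h35 hq hgood).1 ⟨hqM, hsq q hq⟩
  have hMc : M ∣ W.conductorLevel := by
    have hsqM : Squarefree M := by
      rw [Nat.squarefree_iff_prime_squarefree]
      intro q hq h
      exact hsq q hq (by rwa [pow_two])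
    have h1 : M ∣ ∏ q ∈ M.primeFactors, q := by
      rw [Nat.prod_primeFactors_of_squarefree hsqM]
    refine h1.trans ?_
    refine Finset.prod_primes_dvd _ (fun q hq => (Nat.prime_of_mem_primeFactors hq).prime)
      fun q hq => ?_
    have hq' := Nat.prime_of_mem_primeFactors hq
    exact (W.prime_dvd_conductorLevel_iff hΔ hq').mpr
      (hdvd q hq' (Nat.dvd_of_mem_primeFactors hq))
  have hc0 : W.conductorLevel ≠ 0 := W.conductorLevel_pos.ne'
  obtain ⟨f', hf', hf'a⟩ := H58.exists_isNormalizedEigenform_of_dvd' hc0 hMc hg.1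
  refine ⟨f', hf', fun ℓ hℓ hgood hℓc => ?_⟩
  rw [hf'a ℓ hℓ hℓc]
  refine (good_prime hΔ hN0 hMN hg hga h35 hℓ hgood).2 fun h => ?_
  exact hgood (hdvd ℓ hℓ h)

end Fermat.Agent.H87.S58
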