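/-
H30PT: the Tate module of a semistable curve as a point of a universal deformation ring
([PT] of the S59SQ plan).
-/
import Fermat.Agent.H87S58
import Fermat.Agent.H53Rings
import Fermat.Agent.H73LTType

set_option autoImplicit false
set_option linter.style.haveILetI false
set_option linter.unusedSectionVars false

noncomputable section

namespace Fermat.Agent.H30.PT

open IsLocalRing GaloisRep
open Fermat.Agent.H53 (GQ M2 MCont toMat mapMat FlatType OrdType)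
open Fermat.Agent.H87.Glue (resZ tateZ EQ)
open Fermat.Agent.H87.S58 (tO)
open Fermat.Agent.H73LT (LocType nodeSign)

variable (W : WeierstrassCurve ℤ) (hΔ : W.Δ ≠ 0) {p : ℕ} [Fact p.Prime]
  {𝒪 : Type} [CommRing 𝒪] [IsDomain 𝒪] [IsDiscreteValuationRing 𝒪]
  [IsAdicComplete (maximalIdeal 𝒪) 𝒪] [Finite (ResidueField 𝒪)] [CharZero 𝒪]
  (hp𝒪 : (p : 𝒪) ∈ maximalIdeal 𝒪)

/-- the matrices of the Tate module over `𝒪` -/
def tMat : GQ →* M2 𝒪 :=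
  mapMat (H35.padicToAdic 𝒪 hp𝒪) (H87.Tate.tateMat (EQ W) (H87.EC.map_int_Δ_ne_zero hΔ) p)

/-- the standard basis of `tO` -/
def tBasis : Module.Basis (Fin 2) 𝒪 (tO W hΔ hp𝒪).V :=
  H53.bcBasis _ _ _ (H87.Tate.tateStd (EQ W) (H87.EC.map_int_Δ_ne_zero hΔ) p)

theorem toMat_tBasis : toMat (tO W hΔ hp𝒪).ρ (tBasis W hΔ hp𝒪) = tMat W hΔ hp𝒪 := by
  rw [tBasis, tMat, ← H87.Tate.toMat_tateStd]
  exact H53.toMat_bcBasis _ _ _ _

theorem tMat_charpoly (σ : GQ) :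
    (tMat W hΔ hp𝒪 σ).charpoly = LinearMap.charpoly ((tO W hΔ hp𝒪).ρ σ) := by
  rw [← toMat_tBasis, H53.toMat_apply, LinearMap.charpoly_toMatrix]

/-! ### local types -/

/-- a relation of type `LocType` determines the trace -/
theorem LocType.trace_eq {R : Type*} [CommRing R] {r : GQ →* Matrix (Fin 2) (Fin 2) R}
    {P : ValuationSubring (AlgebraicClosure ℚ)} {s : GQ → ℤ} (h : LocType r P s) {g : GQ}
    (hg : g ∈ P.decompositionSubgroup ℚ) :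
    (r g).trace = (s g : R) * ((r g).det + 1) := by
  have hrel := h.rel g hg g hg
  have hsq : (s g : R) * (s g : R) = 1 := by
    rw [← Int.cast_mul, h.sq hg, Int.cast_one]
  have hu : IsUnit (r g) := by
    have h1 : r g * r g⁻¹ = 1 := by rw [← map_mul, mul_inv_cancel, map_one]
    have h2 : r g⁻¹ * r g = 1 := by rw [← map_mul, inv_mul_cancel, map_one]
    exact ⟨⟨r g, r g⁻¹, h1, h2⟩, rfl⟩
  have hq : r g * r g - ((s g : R) * ((r g).det + 1)) • r g + (r g).det • 1 = 0 := by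
    rw [← hrel]
    rw [sub_mul, mul_sub, smul_mul_assoc, one_mul, mul_smul_comm, mul_one, smul_sub, smul_smul]
    have e1 : (r g).det * (s g : R) * (s g : R) = (r g).det := by
      rw [mul_assoc, hsq, mul_one]
    rw [e1, mul_add, mul_one, add_smul, mul_comm (s g : R)]
    abel
  exact H87.Tate.trace_eq_of_quadratic hu hq rfl

variable {W}

/-- The local type of the Tate module at a multiplicative prime. -/
theorem tMat_locType {q : ℕ} (hq : q.Prime) (hbad : (q : ℤ) ∣ W.Δ) (hc : ¬ (q : ℤ) ∣ W.c₄)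
    (P : ValuationSubring (AlgebraicClosure ℚ)) (hP : P.LiesOverPrime q) :
    ∃ s : GQ → ℤ, LocType (tMat W hΔ hp𝒪) P s ∧
      ∀ g, P.IsFrobeniusAt g q → s g = nodeSign W q := by
  obtain ⟨s, hs, hfr⟩ := H73LT.exists_locType (p := p) hΔ hq hbad hc P hP
  exact ⟨s, hs.map (H35.padicToAdic 𝒪 hp𝒪), hfr⟩

theorem tO_detIsCyclotomic : (tO W hΔ hp𝒪).DetIsCyclotomic p :=
  H87.BC.detIsCyclotomic_baseChangeAlong _ _ (Fact.out : p.Prime).ne_zero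
    (H87.Glue.detIsCyclotomic W hΔ p)

theorem tMat_det (σ : GQ) : (tMat W hΔ hp𝒪 σ).det = LinearMap.det ((tO W hΔ hp𝒪).ρ σ) := by
  rw [← toMat_tBasis, H53.toMat_apply, LinearMap.det_toMatrix]

theorem tMat_det_eq (σ : GQ) (a : ℕ)
    (h : ∀ (n : ℕ) (ζ : AlgebraicClosure ℚ), ζ ^ p ^ n = 1 → σ ζ = ζ ^ a) :
    (tMat W hΔ hp𝒪 σ).det = (a : 𝒪) := by
  rw [← sub_eq_zero]
  refine IsHausdorff.haus (I := maximalIdeal 𝒪) inferInstance _ fun n => ?_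
  rw [SModEq.zero, smul_eq_mul, Ideal.mul_top, tMat_det]
  have h1 := (tO_detIsCyclotomic hΔ hp𝒪).2 n σ a (h n)
  obtain ⟨c, hc⟩ := Ideal.mem_span_singleton.mp h1
  rw [hc, Nat.cast_pow]
  exact Ideal.mul_mem_right _ _ (Ideal.pow_mem_pow hp𝒪 n)

theorem tMat_det_frob {q : ℕ} (hq : q.Prime) (hqp : q ≠ p)
    {P : ValuationSubring (AlgebraicClosure ℚ)} (hP : P.LiesOverPrime q) {σ : GQ}
    (hσ : P.IsFrobeniusAt σ q) : (tMat W hΔ hp𝒪 σ).det = q :=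
  tMat_det_eq hΔ hp𝒪 σ q fun n _ hζ => H31.frobenius_apply_rootOfUnity P hP
    (Nat.Coprime.pow_right n ((Nat.coprime_primes hq Fact.out).mpr hqp))
    (pow_pos (Fact.out : p.Prime).pos n) hσ hζ

theorem tMat_det_inertia {q : ℕ} (hq : q.Prime) (hqp : q ≠ p)
    {P : ValuationSubring (AlgebraicClosure ℚ)} (hP : P.LiesOverPrime q) {σ : GQ}
    (hσ : σ ∈ P.inertiaSubgroupIn ℚ) : (tMat W hΔ hp𝒪 σ).det = 1 := by
  have := tMat_det_eq hΔ hp𝒪 σ 1 fun n _ hζ => by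
    rw [pow_one]
    exact H31.inertia_apply_rootOfUnity P hP
      (Nat.Coprime.pow_right n ((Nat.coprime_primes hq Fact.out).mpr hqp))
      (pow_pos (Fact.out : p.Prime).pos n) hσ hζ
  rwa [Nat.cast_one] at this

/-- Frobenius at good primes -/
theorem tMat_frob_good {ℓ : ℕ} (hℓ : ℓ.Prime) (hℓp : ℓ ≠ p) (hW : W.IsGoodPrimeFor ℓ)
    {P : ValuationSubring (AlgebraicClosure ℚ)} (hP : P.LiesOverPrime ℓ) {σ : GQ}
    (hσ : P.IsFrobeniusAt σ ℓ) :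
    (tMat W hΔ hp𝒪 σ).trace = (W.apOfModel ℓ : 𝒪) ∧ (tMat W hΔ hp𝒪 σ).det = ℓ := by
  refine ⟨?_, tMat_det_frob hΔ hp𝒪 hℓ hℓp hP hσ⟩
  have h1 := H87.S58.charpoly_tO_frob W hΔ hp𝒪 hℓ hℓp hW hP hσ
  have h2 := H31.trace_eq_of_charpoly (tO W hΔ hp𝒪).finrank_eq _ _ _ h1
  rw [LinearMap.trace_eq_matrix_trace _ (tBasis W hΔ hp𝒪), ← H53.toMat_apply, toMat_tBasis] at h2
  exact h2

/-- Frobenius at multiplicative primes `q ≠ p` -/
theorem tMat_frob_mult {q : ℕ} (hq : q.Prime) (hqp : q ≠ p) (hbad : (q : ℤ) ∣ W.Δ)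
    (hc : ¬ (q : ℤ) ∣ W.c₄) {P : ValuationSubring (AlgebraicClosure ℚ)}
    (hP : P.LiesOverPrime q) {σ : GQ} (hσ : P.IsFrobeniusAt σ q) :
    (tMat W hΔ hp𝒪 σ).trace = (nodeSign W q : 𝒪) * (q + 1) ∧
      (tMat W hΔ hp𝒪 σ).det = q := by
  obtain ⟨s, hs, hfr⟩ := tMat_locType hΔ hp𝒪 hq hbad hc P hP
  have hD : σ ∈ P.decompositionSubgroup ℚ := hσ.1
  have h1 := LocType.trace_eq hs hD
  have h2 := tMat_det_frob hΔ hp𝒪 hq hqp hP hσ
  rw [hfr σ hσ, h2] at h1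
  exact ⟨h1, h2⟩

/-- unipotent inertia at all primes `q ≠ p` -/
theorem tMat_inertia (hss : W.IsSemistableModel) {q : ℕ} (hq : q.Prime) (hqp : q ≠ p)
    {P : ValuationSubring (AlgebraicClosure ℚ)} (hP : P.LiesOverPrime q) {σ : GQ}
    (hσ : σ ∈ P.inertiaSubgroupIn ℚ) :
    (tMat W hΔ hp𝒪 σ).trace = 2 ∧ (tMat W hΔ hp𝒪 σ).det = 1 := by
  refine ⟨?_, tMat_det_inertia hΔ hp𝒪 hq hqp hP hσ⟩
  have h1 := H87.BC.isUnipotentOnInertiaAt_baseChangeAlong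
    (H35.padicToAdic 𝒪 hp𝒪) (H87.S58.isLocalHom_padicToAdic 𝒪 (H35.padicToAdic 𝒪 hp𝒪) hp𝒪)
    (H87.Glue.isUnipotentOnInertiaAt_of_semistable W hΔ p hss hq hqp) P hP σ hσ
  have h2 : LinearMap.charpoly ((tO W hΔ hp𝒪).ρ σ) =
      Polynomial.X ^ 2 - Polynomial.C (2 : 𝒪) * Polynomial.X + Polynomial.C 1 := by
    rw [show LinearMap.charpoly ((tO W hΔ hp𝒪).ρ σ) = (Polynomial.X - 1) ^ 2 from h1]
    rw [map_ofNat, map_one]
    ring
  have h3 := H31.trace_eq_of_charpoly (tO W hΔ hp𝒪).finrank_eq _ _ _ h2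
  rw [LinearMap.trace_eq_matrix_trace _ (tBasis W hΔ hp𝒪), ← H53.toMat_apply, toMat_tBasis] at h3
  exact h3

/-- inertia at good primes `q ≠ p` -/
theorem tMat_unramified {q : ℕ} (hq : q.Prime) (hqp : q ≠ p) (hW : W.IsGoodPrimeFor q)
    {P : ValuationSubring (AlgebraicClosure ℚ)} (hP : P.LiesOverPrime q) {σ : GQ}
    (hσ : σ ∈ P.inertiaSubgroupIn ℚ) : tMat W hΔ hp𝒪 σ = 1 := by
  have h1 := H87.BC.isUnramifiedAt_baseChangeAlong
    (H35.padicToAdic 𝒪 hp𝒪) (H87.S58.isLocalHom_padicToAdic 𝒪 (H35.padicToAdic 𝒪 hp𝒪) hp𝒪)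
    (H87.Glue.isUnramifiedAt_of_good W hΔ p hq hqp hW) P hP σ hσ
  rw [← toMat_tBasis, H53.toMat_apply]
  have h2 : (tO W hΔ hp𝒪).ρ σ = 1 := h1
  rw [h2, LinearMap.toMatrix_one]

/-! ### deformation types -/

/-- `T_p W` has flat type, if `W` has good reduction at `p` -/
theorem tO_flatType (hss : W.IsSemistableModel) (hp2 : p ≠ 2) (hgood : W.IsGoodPrimeFor p)
    (S A : Finset ℕ) (hS : ∀ q : ℕ, q.Prime → q ∉ S → q ≠ p ∧ W.IsGoodPrimeFor q) :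
    FlatType 𝒪 p S A (tO W hΔ hp𝒪) :=
  ⟨⟨tO_detIsCyclotomic hΔ hp𝒪, H87.BC.isFlatAt_baseChangeAlong _ _ inferInstance
      (H87.Glue.isFlatAt_of_good W hΔ p hp2 hgood),
    fun q hq hqS => H87.BC.isUnramifiedAt_baseChangeAlong _ _
      (H87.Glue.isUnramifiedAt_of_good W hΔ p hq (hS q hq hqS).1 (hS q hq hqS).2)⟩,
    fun q _ hq hqp => H87.BC.isUnipotentOnInertiaAt_baseChangeAlong _ _
      (H87.Glue.isUnipotentOnInertiaAt_of_semistable W hΔ p hss hq hqp)⟩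

/-- `T_p W` has strictly ordinary type, if `W` has multiplicative reduction at `p` -/
theorem tO_ordType (hss : W.IsSemistableModel) (hbad : (p : ℤ) ∣ W.Δ)
    (S A : Finset ℕ) (hS : ∀ q : ℕ, q.Prime → q ∉ S → q ≠ p ∧ W.IsGoodPrimeFor q) :
    OrdType 𝒪 p S A (tO W hΔ hp𝒪) :=
  ⟨⟨tO_detIsCyclotomic hΔ hp𝒪, H87.Ord.isStrictOrdinaryAt_baseChangeAlong _ _
      (H87.Glue.isStrictOrdinaryAt_of_mult W hΔ p hbad (hss p Fact.out hbad)),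
    fun q hq hqS => H87.BC.isUnramifiedAt_baseChangeAlong _ _
      (H87.Glue.isUnramifiedAt_of_good W hΔ p hq (hS q hq hqS).1 (hS q hq hqS).2)⟩,
    fun q _ hq hqp => H87.BC.isUnipotentOnInertiaAt_baseChangeAlong _ _
      (H87.Glue.isUnipotentOnInertiaAt_of_semistable W hΔ p hss hq hqp)⟩

/-! ### the point of the deformation ring -/

/-- base change along `ResidueField.map (algebraMap 𝒪 𝒪)` does nothing -/
theorem isEquiv_baseChange_self [IsLocalHom (algebraMap 𝒪 𝒪)]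
    (ρ₁ ρbar : ResidualGaloisRep (ResidueField 𝒪)) (h : ρ₁.IsEquiv ρbar) :
    ρ₁.IsEquiv (ρbar.baseChangeAlong (ResidueField.map (algebraMap 𝒪 𝒪))) := by
  let b₁ := Module.finBasisOfFinrankEq (ResidueField 𝒪) ρ₁.V ρ₁.finrank_eq
  let b₂ := Module.finBasisOfFinrankEq (ResidueField 𝒪) ρbar.V ρbar.finrank_eq
  have hid : ResidueField.map (algebraMap 𝒪 𝒪) = RingHom.id (ResidueField 𝒪) := by
    refine RingHom.ext fun x => ?_
    obtain ⟨y, rfl⟩ := residue_surjective x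
    rw [ResidueField.map_residue]
    rfl
  rw [H53.residual_isEquiv_iff_conj _ _ b₁ b₂] at h
  rw [H53.residual_isEquiv_iff_conj _ _ b₁ (H53.rbcBasis _ ρbar b₂), H53.toMat_rbcBasis, hid,
    H53.mapMat_id]
  exact h

variable {ρbar : ResidualGaloisRep (ResidueField 𝒪)}
  {𝒟 : ∀ ⦃A : Type⦄ [CommRing A] [IsLocalRing A] [Algebra 𝒪 A], GaloisRepAdic A → Prop}

/-- **The Tate module of `W` is a point of the deformation ring.** -/
theorem exists_point (D : DeformationRingData 𝒪 ρbar 𝒟)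
    (hres : (tO W hΔ hp𝒪).residual.IsEquiv ρbar) (h𝒟 : 𝒟 (tO W hΔ hp𝒪))
    (b₁ : Module.Basis (Fin 2) D.R D.ρ.V) :
    ∃ (ψ : D.R →ₐ[𝒪] 𝒪) (U : (M2 𝒪)ˣ), IsLocalHom (ψ : D.R →+* 𝒪) ∧
      ∀ σ, mapMat (ψ : D.R →+* 𝒪) (toMat D.ρ.ρ b₁) σ =
        (U : M2 𝒪) * tMat W hΔ hp𝒪 σ * ((U⁻¹ : (M2 𝒪)ˣ) : M2 𝒪) := by
  haveI : IsLocalHom (algebraMap 𝒪 𝒪) := ⟨fun a ha => ha⟩
  obtain ⟨ψ, ⟨hψ, heq⟩, -⟩ := D.universal 𝒪 (fun x => by
      obtain ⟨y, hy⟩ := residue_surjective x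
      exact ⟨y, hy⟩) (tO W hΔ hp𝒪) h𝒟 (isEquiv_baseChange_self _ _ hres)
  rw [H53.isEquiv_iff_conj _ _ (H53.bcBasis (ψ : D.R →+* 𝒪) hψ D.ρ b₁) (tBasis W hΔ hp𝒪),
    H53.toMat_bcBasis, toMat_tBasis] at heq
  obtain ⟨u, ⟨U, rfl⟩, hU⟩ := heq
  refine ⟨ψ, U⁻¹, hψ, fun σ => ?_⟩
  rw [inv_inv, mul_assoc, ← hU σ, ← mul_assoc, Units.inv_mul, one_mul]

theorem trace_conj {R : Type*} [CommRing R] (U : (Matrix (Fin 2) (Fin 2) R)ˣ)
    (M : Matrix (Fin 2) (Fin 2) R) :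
    ((U : Matrix (Fin 2) (Fin 2) R) * M *
      ((U⁻¹ : (Matrix (Fin 2) (Fin 2) R)ˣ) : Matrix (Fin 2) (Fin 2) R)).trace = M.trace := by
  rw [Matrix.trace_mul_comm, ← mul_assoc, Units.inv_mul, one_mul]

theorem det_conj {R : Type*} [CommRing R] (U : (Matrix (Fin 2) (Fin 2) R)ˣ)
    (M : Matrix (Fin 2) (Fin 2) R) :
    ((U : Matrix (Fin 2) (Fin 2) R) * M *
      ((U⁻¹ : (Matrix (Fin 2) (Fin 2) R)ˣ) : Matrix (Fin 2) (Fin 2) R)).det = M.det := by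
  rw [Matrix.det_mul_comm, ← mul_assoc, Units.inv_mul, one_mul]

/-- **The point of `T_p W` and all its local properties.** -/
theorem exists_point_full (hss : W.IsSemistableModel) (D : DeformationRingData 𝒪 ρbar 𝒟)
    (hres : (tO W hΔ hp𝒪).residual.IsEquiv ρbar) (h𝒟 : 𝒟 (tO W hΔ hp𝒪))
    (b₁ : Module.Basis (Fin 2) D.R D.ρ.V) :
    ∃ (ψ : D.R →ₐ[𝒪] 𝒪), IsLocalHom (ψ : D.R →+* 𝒪) ∧
      -- conjugate to the Tate module
      (∃ U : (M2 𝒪)ˣ, ∀ σ, mapMat (ψ : D.R →+* 𝒪) (toMat D.ρ.ρ b₁) σ =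
        (U : M2 𝒪) * tMat W hΔ hp𝒪 σ * ((U⁻¹ : (M2 𝒪)ˣ) : M2 𝒪)) ∧
      -- good primes
      (∀ ℓ : ℕ, ℓ.Prime → ℓ ≠ p → W.IsGoodPrimeFor ℓ →
        ∀ P : ValuationSubring (AlgebraicClosure ℚ), P.LiesOverPrime ℓ →
        (∀ σ ∈ P.inertiaSubgroupIn ℚ, mapMat (ψ : D.R →+* 𝒪) (toMat D.ρ.ρ b₁) σ = 1) ∧
        ∀ σ : GQ, P.IsFrobeniusAt σ ℓ →
          (mapMat (ψ : D.R →+* 𝒪) (toMat D.ρ.ρ b₁) σ).trace = (W.apOfModel ℓ : 𝒪) ∧
          (mapMat (ψ : D.R →+* 𝒪) (toMat D.ρ.ρ b₁) σ).det = ℓ) ∧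
      -- unipotent inertia
      (∀ q : ℕ, q.Prime → q ≠ p → ∀ P : ValuationSubring (AlgebraicClosure ℚ), P.LiesOverPrime q →
        ∀ σ ∈ P.inertiaSubgroupIn ℚ,
          (mapMat (ψ : D.R →+* 𝒪) (toMat D.ρ.ρ b₁) σ).trace = 2 ∧
          (mapMat (ψ : D.R →+* 𝒪) (toMat D.ρ.ρ b₁) σ).det = 1) ∧
      -- Frobenius at multiplicative primes
      (∀ q : ℕ, q.Prime → q ≠ p → (q : ℤ) ∣ W.Δ → ∀ P : ValuationSubring (AlgebraicClosure ℚ),
        P.LiesOverPrime q → ∀ σ : GQ, P.IsFrobeniusAt σ q →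
          (mapMat (ψ : D.R →+* 𝒪) (toMat D.ρ.ρ b₁) σ).trace = (nodeSign W q : 𝒪) * (q + 1) ∧
          (mapMat (ψ : D.R →+* 𝒪) (toMat D.ρ.ρ b₁) σ).det = q) ∧
      -- the local type at multiplicative primes (including `p`)
      (∀ q : ℕ, q.Prime → (q : ℤ) ∣ W.Δ → ∀ P : ValuationSubring (AlgebraicClosure ℚ),
        P.LiesOverPrime q → ∃ s : GQ → ℤ,
          LocType (mapMat (ψ : D.R →+* 𝒪) (toMat D.ρ.ρ b₁)) P s ∧
          ∀ g, P.IsFrobeniusAt g q → s g = nodeSign W q) := by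
  obtain ⟨ψ, U, hψ, hU⟩ := exists_point hΔ hp𝒪 D hres h𝒟 b₁
  refine ⟨ψ, hψ, ⟨U, hU⟩, ?_, ?_, ?_, ?_⟩
  · intro ℓ hℓ hℓp hW P hP
    constructor
    · intro σ hσ
      rw [hU, tMat_unramified hΔ hp𝒪 hℓ hℓp hW hP hσ, mul_one, Units.mul_inv]
    · intro σ hσ
      rw [hU, trace_conj, det_conj]
      exact tMat_frob_good hΔ hp𝒪 hℓ hℓp hW hP hσ
  · intro q hq hqp P hP σ hσ
    rw [hU, trace_conj, det_conj]
    exact tMat_inertia hΔ hp𝒪 hss hq hqp hP hσ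
  · intro q hq hqp hbad P hP σ hσ
    rw [hU, trace_conj, det_conj]
    exact tMat_frob_mult hΔ hp𝒪 hq hqp hbad (hss q hq hbad) hP hσ
  · intro q hq hbad P hP
    obtain ⟨s, hs, hfr⟩ := tMat_locType hΔ hp𝒪 hq hbad (hss q hq hbad) P hP
    exact ⟨s, hs.conj U hU, hfr⟩

/-- the residual representation of `tO` in terms of the `p`-torsion -/
theorem tO_residual (φ : ZMod p →+* ResidueField 𝒪) :
    (tO W hΔ hp𝒪).residual.IsEquiv ((resZ W hΔ p).baseChangeAlong φ) :=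
  (H87.Glue.residual_isEquiv W hΔ p _ _ φ).map ResidualGaloisRep.Equiv.symm

end Fermat.Agent.H30.PT
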