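import Fermat.Agent.H53TWB2

set_option autoImplicit false
set_option maxSynthPendingDepth 3
set_option linter.style.haveILetI false
set_option linter.unusedSectionVars false

/-!
# Points of universal deformation rings
-/

noncomputable section

open IsLocalRing Module ExtCitation Polynomial GaloisRep
open Fermat.Agent.H55 Fermat.Agent.H56

namespace Fermat.Agent.H53

section Point

variable {𝒪 : Type} [CommRing 𝒪] [IsDomain 𝒪] [IsDiscreteValuationRing 𝒪]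
    [IsAdicComplete (maximalIdeal 𝒪) 𝒪] {ρbar : ResidualGaloisRep (ResidueField 𝒪)}
    {𝒟 : ∀ ⦃A : Type⦄ [CommRing A] [IsLocalRing A] [Algebra 𝒪 A], GaloisRepAdic A → Prop}

/-- an equivalence onto the representation carries a basis to a basis with the same matrices -/
lemma exists_basis_of_equiv {A : Type} [CommRing A] [IsLocalRing A] {ρ ρ' : GaloisRepAdic A}
    (h : ρ.IsEquiv ρ') (b : Module.Basis (Fin 2) A ρ.V) :
    ∃ b' : Module.Basis (Fin 2) A ρ'.V, toMat ρ'.ρ b' = toMat ρ.ρ b := by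
  obtain ⟨e⟩ := h
  refine ⟨b.map e.toLinearEquiv, ?_⟩
  ext1 σ
  refine Matrix.ext fun i j => ?_
  rw [toMat_apply, toMat_apply, LinearMap.toMatrix_apply, LinearMap.toMatrix_apply,
    Module.Basis.map_apply, ← e.map_apply, Module.Basis.map_repr, LinearEquiv.trans_apply,
    LinearEquiv.symm_apply_apply]

/-- **Points of the universal deformation ring**, in matrix form -/
theorem exists_point (D : DeformationRingData 𝒪 ρbar 𝒟) (b₁ : Module.Basis (Fin 2) D.R D.ρ.V)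
    {A : Type} [CommRing A] [IsLocalRing A] [IsNoetherianRing A]
    [IsAdicComplete (maximalIdeal A) A] [Algebra 𝒪 A] [IsLocalHom (algebraMap 𝒪 A)]
    (hsurj : Function.Surjective (residue A ∘ algebraMap 𝒪 A)) (ρA : GaloisRepAdic A)
    (hA : 𝒟 ρA) (hres : ρA.residual.IsEquiv
      (ρbar.baseChangeAlong (ResidueField.map (algebraMap 𝒪 A)))) :
    ∃ f : D.R →ₐ[𝒪] A, IsLocalHom (f : D.R →+* A) ∧
      ∃ bA : Module.Basis (Fin 2) A ρA.V,
        toMat ρA.ρ bA = mapMat (f : D.R →+* A) (toMat D.ρ.ρ b₁) := by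
  obtain ⟨f, ⟨hf, he⟩, -⟩ := D.universal A hsurj ρA hA hres
  obtain ⟨bA, hbA⟩ := exists_basis_of_equiv he (bcBasis (f : D.R →+* A) hf D.ρ b₁)
  refine ⟨f, hf, bA, ?_⟩
  rw [hbA, toMat_bcBasis]

lemma residue_surjective_self : Function.Surjective (residue 𝒪 ∘ algebraMap 𝒪 𝒪) := by
  intro x
  obtain ⟨y, rfl⟩ := residue_surjective x
  exact ⟨y, rfl⟩

lemma isLocalHom_self : IsLocalHom (algebraMap 𝒪 𝒪) := ⟨fun _ h => h⟩

lemma residual_self {ρ : GaloisRepAdic 𝒪} [IsLocalHom (algebraMap 𝒪 𝒪)]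
    (h : ρ.residual.IsEquiv ρbar) :
    ρ.residual.IsEquiv (ρbar.baseChangeAlong (ResidueField.map (algebraMap 𝒪 𝒪))) := by
  obtain ⟨b⟩ := exists_basis ρ
  let b' := resBasis ρ b
  have hb : Nonempty (Module.Basis (Fin 2) (ResidueField 𝒪) ρbar.V) :=
    ⟨Module.finBasisOfFinrankEq _ _ ρbar.finrank_eq⟩
  obtain ⟨c⟩ := hb
  rw [residual_isEquiv_iff_conj _ _ b' c] at h
  rw [residual_isEquiv_iff_conj _ _ b' (rbcBasis _ ρbar c), toMat_rbcBasis]
  obtain ⟨u, hu, h⟩ := h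
  refine ⟨u, hu, fun σ => ?_⟩
  rw [h σ]
  congr 1
  refine Matrix.ext fun i j => ?_
  rw [mapMat_apply]
  obtain ⟨x, hx⟩ := residue_surjective (toMat ρbar.ρ c σ i j)
  rw [← hx, ResidueField.map_residue]
  rfl

/-- **Points of the universal deformation ring with values in the coefficient ring** -/
theorem exists_point_self (D : DeformationRingData 𝒪 ρbar 𝒟)
    (b₁ : Module.Basis (Fin 2) D.R D.ρ.V) (ρ : GaloisRepAdic 𝒪)
    (hA : 𝒟 ρ) (hres : ρ.residual.IsEquiv ρbar) :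
    ∃ f : D.R →ₐ[𝒪] 𝒪, IsLocalHom (f : D.R →+* 𝒪) ∧
      ∃ b' : Module.Basis (Fin 2) 𝒪 ρ.V,
        toMat ρ.ρ b' = mapMat (f : D.R →+* 𝒪) (toMat D.ρ.ρ b₁) :=
  haveI : IsLocalHom (algebraMap 𝒪 𝒪) := isLocalHom_self
  exists_point D b₁ residue_surjective_self ρ hA (residual_self hres)

lemma trace_of_point {D : DeformationRingData 𝒪 ρbar 𝒟}
    {b₁ : Module.Basis (Fin 2) D.R D.ρ.V} {A : Type} [CommRing A] [IsLocalRing A]
    {ρA : GaloisRepAdic A} {f : D.R →+* A} {bA : Module.Basis (Fin 2) A ρA.V}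
    (h : toMat ρA.ρ bA = mapMat f (toMat D.ρ.ρ b₁)) (σ : GQ) :
    f (toMat D.ρ.ρ b₁ σ).trace = LinearMap.trace A ρA.V (ρA.ρ σ) := by
  have h1 : LinearMap.trace A ρA.V (ρA.ρ σ) = (toMat ρA.ρ bA σ).trace := by
    rw [toMat_apply, LinearMap.trace_eq_matrix_trace A bA]
  rw [h1, h, Matrix.trace_fin_two, Matrix.trace_fin_two, map_add]
  rfl

end Point

section Unipotent

/-- the trace of a unipotent matrix is two -/
lemma trace_eq_two_of_charpoly {R : Type} [CommRing R] [Nontrivial R] {M : M2 R}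
    (h : M.charpoly = (X - 1) ^ 2) : M.trace = 2 := by
  have h1 := Matrix.trace_eq_neg_charpoly_coeff M
  rw [h1, h]
  have h2 : ((X : R[X]) - 1) ^ 2 = X ^ 2 - C 2 * X + 1 := by
    rw [map_ofNat]; ring
  rw [h2]
  simp only [Fintype.card_fin, coeff_add, coeff_sub, coeff_X_pow, coeff_C_mul, coeff_X,
    coeff_one]
  norm_num

lemma sub_one_sq_of_charpoly {R : Type} [CommRing R] {M : M2 R}
    (h : M.charpoly = (X - 1) ^ 2) : (M - 1) ^ 2 = 0 := by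
  have h1 := Matrix.aeval_self_charpoly M
  rw [h] at h1
  simpa using h1

lemma trace_two_of_unipotent {R : Type} [CommRing R] [IsLocalRing R] {ρ : GaloisRepAdic R} {q : ℕ}
    (h : ρ.IsUnipotentOnInertiaAt q) {P : ValuationSubring (AlgebraicClosure ℚ)}
    (hP : P.LiesOverPrime q) {σ : GQ} (hσ : σ ∈ P.inertiaSubgroupIn ℚ)
    (b : Module.Basis (Fin 2) R ρ.V) :
    (toMat ρ.ρ b σ).trace = 2 ∧ (toMat ρ.ρ b σ - 1) ^ 2 = 0 := by
  have h1 := h P hP σ hσ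
  rw [toMat_charpoly _ b] at h1
  exact ⟨trace_eq_two_of_charpoly h1, sub_one_sq_of_charpoly h1⟩

end Unipotent

section GalLevelB

variable {𝒪 : Type} [CommRing 𝒪] [IsDomain 𝒪] [IsDiscreteValuationRing 𝒪]
    [IsAdicComplete (maximalIdeal 𝒪) 𝒪] [Finite (ResidueField 𝒪)]
  {p : ℕ} [Fact p.Prime] {ρbar : ResidualGaloisRep (ResidueField 𝒪)}
  {b : Module.Basis (Fin 2) (ResidueField 𝒪) ρbar.V} {pd : PData p ρbar b} {A : Finset ℕ}
  {τ ι : Type} [Fintype τ] [Fintype ι] {qT : τ → ℕ} {pl : ∀ t, PlaceData p (qT t)} {u : τ → 𝒪}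
  {qB : ι → ℕ} {plB : ∀ i, PlaceData p (qB i)} {uB : ι → 𝒪} {k n : ℕ} {S : Finset ℕ}

/-- **The point of the level defined by a representation over the coefficient ring.** -/
theorem GalLevelB.exists_pt [CharZero 𝒪] (L : GalLevelB p ρbar b pd A qT pl u qB plB uB k n S)
    (hqBpos : ∀ i, uB i ≠ 0)
    (ρ : GaloisRepAdic 𝒪) (hres : ρ.residual.IsEquiv ρbar) (hdet : ρ.DetIsCyclotomic p)
    (h𝒟 : pd.𝒟p ρ)
    (hunr : ∀ q, q.Prime → q ≠ p → q ∉ A → (∀ t, qT t ≠ q) → (∀ i, qB i ≠ q) →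
      ρ.IsUnramifiedAt q)
    (hA : ∀ q ∈ A, q.Prime → q ≠ p → ρ.IsUnipotentOnInertiaAt q)
    (hT : ∀ t, ρ.IsUnipotentOnInertiaAt (qT t))
    (hB : ∀ i, ρ.IsUnipotentOnInertiaAt (qB i))
    (hBtr : ∀ i, LinearMap.trace 𝒪 ρ.V (ρ.ρ (plB i).φ) = uB i * ((qB i : 𝒪) + 1)) :
    ∃ (pt : L.D.R →ₐ[𝒪] 𝒪), IsLocalHom (pt : L.D.R →+* 𝒪) ∧
      (∃ b' : Module.Basis (Fin 2) 𝒪 ρ.V, toMat ρ.ρ b' = mapMat (pt : L.D.R →+* 𝒪) L.r) ∧
      (∀ σ, pt (L.r σ).trace = LinearMap.trace 𝒪 ρ.V (ρ.ρ σ)) ∧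
      (∀ i, pt (L.c i) = 0) ∧
      (∀ t, pt (L.r (pl t).σ).trace = 2) ∧
      (∀ i, pt (L.mB (Sum.inl i) 0) = 0) ∧
      (∀ i, pt (L.mB (Sum.inl i) 2) = 0) := by
  have htype : typeB 𝒪 p pd.𝒟p A qT qB L.qv ρ := by
    refine ⟨⟨hdet, h𝒟, fun q hq hqS => ?_⟩, fun q hqU hq hqp => ?_⟩
    · rw [mem_levelSetB] at hqS
      push Not at hqS
      exact hunr q hq hqS.1 hqS.2.1 hqS.2.2.1 hqS.2.2.2.1
    · rcases mem_uniSet.mp hqU with h | ⟨i, rfl⟩
      · exact hA q h hq hqp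
      · exact hB i
  obtain ⟨pt, hloc, b', hb'⟩ := exists_point_self L.D L.b₁ ρ htype hres
  have htr : ∀ σ, pt (L.r σ).trace = LinearMap.trace 𝒪 ρ.V (ρ.ρ σ) := fun σ =>
    trace_of_point (f := (pt : L.D.R →+* 𝒪)) hb' σ
  have ht0 : ∀ i, pt (L.mB (Sum.inl i) 0) = 0 := by
    intro i
    refine (L.isBMarks i).pt (pt : L.D.R →+* 𝒪) ?_
    have h1 : ((toMat L.D.ρ.ρ L.b₁ (plB i).φ).map (pt : L.D.R →+* 𝒪)).trace =
        pt (L.r (plB i).φ).trace := by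
      rw [Matrix.trace_fin_two, Matrix.trace_fin_two, map_add]
      rfl
    rw [h1, htr, hBtr]
    congr 1
    exact (pt.commutes _).symm
  refine ⟨pt, hloc, ⟨b', hb'⟩, htr, fun i => ?_, fun t => ?_, ht0, fun i => ?_⟩
  · refine (L.unram_iff (pt : L.D.R →+* 𝒪) i).mp fun P hP σ hσ => ?_
    have h1 := hunr (L.qv i) (L.prime i) (L.ne_p i) (L.not_mem_A i)
      (fun t h => L.ne_qT i t h.symm) (fun t h => L.ne_qB i t h.symm) P hP σ hσ
    show mapMat (pt : L.D.R →+* 𝒪) (toMat L.D.ρ.ρ L.b₁) σ = 1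
    rw [← hb']
    exact (toMat_eq_one_iff ρ b' σ).mp h1
  · rw [htr]
    have h1 := (trace_two_of_unipotent (hT t) (pl t).lies (pl t).inert b').1
    rwa [toMat_apply, ← LinearMap.trace_eq_matrix_trace 𝒪 b'] at h1
  · have h1 := (trace_two_of_unipotent (hB i) (plB i).lies (plB i).inert b').2
    rw [hb'] at h1
    obtain ⟨-, h2, -⟩ := (L.isBMarks i).uni (pt : L.D.R →+* 𝒪) h1
    have h3 : (pt : L.D.R →+* 𝒪) (L.mB (Sum.inl i) 0) = 0 := ht0 i
    rw [h3, zero_add] at h2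
    refine (mul_eq_zero.mp h2).resolve_right ?_
    refine mul_ne_zero ?_ ?_
    · have h4 : (pt : L.D.R →+* 𝒪) (algebraMap 𝒪 L.D.R (uB i)) = uB i := pt.commutes _
      rw [h4]
      exact hqBpos i
    · exact_mod_cast Nat.succ_ne_zero (qB i)

end GalLevelB

end Fermat.Agent.H53
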