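/-
H30PT2: the Tate module of a semistable curve feeds `GalLevelB.exists_pt` of helper53.
-/
import Fermat.Agent.H30PT
import Fermat.Agent.H53Pt

set_option autoImplicit false
set_option linter.style.haveILetI false
set_option linter.unusedSectionVars false

noncomputable section

namespace Fermat.Agent.H30.PT

open IsLocalRing GaloisRep
open Fermat.Agent.H53 (GQ M2 MCont toMat mapMat FlatType OrdType PlaceData PData GalLevelB)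
open Fermat.Agent.H87.Glue (resZ tateZ EQ)
open Fermat.Agent.H87.S58 (tO)
open Fermat.Agent.H73LT (LocType nodeSign)

variable {W : WeierstrassCurve ℤ} (hΔ : W.Δ ≠ 0) {p : ℕ} [Fact p.Prime]
  {𝒪 : Type} [CommRing 𝒪] [IsDomain 𝒪] [IsDiscreteValuationRing 𝒪]
  [IsAdicComplete (maximalIdeal 𝒪) 𝒪] [Finite (ResidueField 𝒪)] [CharZero 𝒪]
  (hp𝒪 : (p : 𝒪) ∈ maximalIdeal 𝒪)

/-- the trace on `tO` is the trace of the matrix -/
theorem trace_tO (σ : GQ) :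
    LinearMap.trace 𝒪 (tO W hΔ hp𝒪).V ((tO W hΔ hp𝒪).ρ σ) = (tMat W hΔ hp𝒪 σ).trace := by
  rw [LinearMap.trace_eq_matrix_trace 𝒪 (tBasis W hΔ hp𝒪), ← H53.toMat_apply, toMat_tBasis]

theorem tO_isUnramifiedAt {q : ℕ} (hq : q.Prime) (hqp : q ≠ p) (hW : W.IsGoodPrimeFor q) :
    (tO W hΔ hp𝒪).IsUnramifiedAt q :=
  H87.BC.isUnramifiedAt_baseChangeAlong _ _
      (H87.Glue.isUnramifiedAt_of_good W hΔ p hq hqp hW)

theorem tO_isUnipotentOnInertiaAt (hss : W.IsSemistableModel) {q : ℕ} (hq : q.Prime)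
    (hqp : q ≠ p) : (tO W hΔ hp𝒪).IsUnipotentOnInertiaAt q :=
  H87.BC.isUnipotentOnInertiaAt_baseChangeAlong _ _
      (H87.Glue.isUnipotentOnInertiaAt_of_semistable W hΔ p hss hq hqp)

theorem tO_isFlatAt (hp2 : p ≠ 2) (hgood : W.IsGoodPrimeFor p) : (tO W hΔ hp𝒪).IsFlatAt p :=
  H87.BC.isFlatAt_baseChangeAlong _ _ inferInstance
      (H87.Glue.isFlatAt_of_good W hΔ p hp2 hgood)

theorem tO_isStrictOrdinaryAt (hss : W.IsSemistableModel) (hbad : (p : ℤ) ∣ W.Δ) :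
    (tO W hΔ hp𝒪).IsStrictOrdinaryAt p :=
  H87.Ord.isStrictOrdinaryAt_baseChangeAlong _ _
      (H87.Glue.isStrictOrdinaryAt_of_mult W hΔ p hbad (hss p Fact.out hbad))

theorem tO_isOrdinaryAt (hss : W.IsSemistableModel) (hbad : (p : ℤ) ∣ W.Δ) :
    (tO W hΔ hp𝒪).IsOrdinaryAt p :=
  (tO_isStrictOrdinaryAt hΔ hp𝒪 hss hbad).isOrdinaryAt

/-- trace of Frobenius at a multiplicative prime `q ≠ p` -/
theorem trace_tO_frob_mult {q : ℕ} (hq : q.Prime) (hqp : q ≠ p) (hbad : (q : ℤ) ∣ W.Δ)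
    (hc : ¬ (q : ℤ) ∣ W.c₄) {P : ValuationSubring (AlgebraicClosure ℚ)}
    (hP : P.LiesOverPrime q) {σ : GQ} (hσ : P.IsFrobeniusAt σ q) :
    LinearMap.trace 𝒪 (tO W hΔ hp𝒪).V ((tO W hΔ hp𝒪).ρ σ) =
      (nodeSign W q : 𝒪) * ((q : 𝒪) + 1) := by
  rw [trace_tO]
  exact (tMat_frob_mult hΔ hp𝒪 hq hqp hbad hc hP hσ).1

/-- trace of Frobenius at a good prime `ℓ ≠ p` -/
theorem trace_tO_frob_good {ℓ : ℕ} (hℓ : ℓ.Prime) (hℓp : ℓ ≠ p) (hW : W.IsGoodPrimeFor ℓ)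
    {P : ValuationSubring (AlgebraicClosure ℚ)} (hP : P.LiesOverPrime ℓ) {σ : GQ}
    (hσ : P.IsFrobeniusAt σ ℓ) :
    LinearMap.trace 𝒪 (tO W hΔ hp𝒪).V ((tO W hΔ hp𝒪).ρ σ) = (W.apOfModel ℓ : 𝒪) := by
  rw [trace_tO]
  exact (tMat_frob_good hΔ hp𝒪 hℓ hℓp hW hP hσ).1

variable {ρbar : ResidualGaloisRep (ResidueField 𝒪)}
  {b : Module.Basis (Fin 2) (ResidueField 𝒪) ρbar.V} {pd : PData p ρbar b} {A : Finset ℕ}
  {τ ι : Type} [Fintype τ] [Fintype ι] {qT : τ → ℕ} {pl : ∀ t, PlaceData p (qT t)} {u : τ → 𝒪}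
  {qB : ι → ℕ} {plB : ∀ i, PlaceData p (qB i)} {uB : ι → 𝒪} {k n : ℕ} {S : Finset ℕ}

/-- **The point of the level defined by the Tate module of a semistable curve**
(`pt`, `pt_φ`, `pt_uni`, `pt_t`, `pt_z` of the full level). -/
theorem exists_pt_tate (hss : W.IsSemistableModel)
    (L : GalLevelB p ρbar b pd A qT pl u qB plB uB k n S)
    (hres : (tO W hΔ hp𝒪).residual.IsEquiv ρbar) (h𝒟 : pd.𝒟p (tO W hΔ hp𝒪))
    (hgood : ∀ q : ℕ, q.Prime → q ≠ p → (q : ℤ) ∣ W.Δ → q ∈ A ∨ (∃ t, qT t = q) ∨ ∃ i, qB i = q)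
    (hTpr : ∀ t, (qT t).Prime ∧ qT t ≠ p) (hBpr : ∀ i, (qB i).Prime ∧ qB i ≠ p)
    (hBbad : ∀ i, ((qB i : ℕ) : ℤ) ∣ W.Δ) (huB : ∀ i, uB i = (nodeSign W (qB i) : 𝒪)) :
    ∃ (pt : L.D.R →ₐ[𝒪] 𝒪), IsLocalHom (pt : L.D.R →+* 𝒪) ∧
      (∃ b' : Module.Basis (Fin 2) 𝒪 (tO W hΔ hp𝒪).V,
        toMat (tO W hΔ hp𝒪).ρ b' = mapMat (pt : L.D.R →+* 𝒪) L.r) ∧
      (∀ σ, pt (L.r σ).trace = (tMat W hΔ hp𝒪 σ).trace) ∧
      (∀ i, pt (L.c i) = 0) ∧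
      (∀ t, pt (L.r (pl t).σ).trace = 2) ∧
      (∀ i, pt (L.mB (Sum.inl i) 0) = 0) ∧
      (∀ i, pt (L.mB (Sum.inl i) 2) = 0) := by
  have hns : ∀ i, uB i ≠ 0 := by
    intro i h0
    have h1 : (nodeSign W (qB i) : 𝒪) * (nodeSign W (qB i) : 𝒪) = 1 := by
      rw [← Int.cast_mul]
      have h2 : nodeSign W (qB i) * nodeSign W (qB i) = 1 := by
        rcases H73LT.nodeSign_eq W (qB i) with h | h <;> rw [h] <;> norm_num
      rw [h2, Int.cast_one]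
    rw [← huB i, h0, zero_mul] at h1
    exact zero_ne_one h1
  obtain ⟨pt, h1, h2, h3, h4, h5, h6, h7⟩ := L.exists_pt hns (tO W hΔ hp𝒪) hres
    (tO_detIsCyclotomic hΔ hp𝒪) h𝒟
    (fun q hq hqp hA hT hB => by
      refine tO_isUnramifiedAt hΔ hp𝒪 hq hqp fun hbad => ?_
      rcases hgood q hq hqp hbad with h | ⟨t, h⟩ | ⟨i, h⟩
      · exact hA h
      · exact hT t h
      · exact hB i h)
    (fun q _ hq hqp => tO_isUnipotentOnInertiaAt hΔ hp𝒪 hss hq hqp)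
    (fun t => tO_isUnipotentOnInertiaAt hΔ hp𝒪 hss (hTpr t).1 (hTpr t).2)
    (fun i => tO_isUnipotentOnInertiaAt hΔ hp𝒪 hss (hBpr i).1 (hBpr i).2)
    (fun i => by
      rw [huB i]
      exact trace_tO_frob_mult hΔ hp𝒪 (hBpr i).1 (hBpr i).2 (hBbad i)
        (hss _ (hBpr i).1 (hBbad i)) (plB i).lies (plB i).frob)
  exact ⟨pt, h1, h2, fun σ => by rw [h3, trace_tO], h4, h5, h6, h7⟩

end Fermat.Agent.H30.PT
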