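/-
H30Type2: the surjection from a deformation ring of arbitrary type onto `heckeLocal`, in matrix form;
the ordinary type from S33.
-/
import Fermat.Agent.H30Type

set_option autoImplicit false
set_option linter.style.haveILetI false
set_option linter.unusedSectionVars false

noncomputable section

namespace Fermat.Agent.H30

open IsLocalRing CuspForm GaloisRep
open Fermat.Agent.H53 (GQ M2 MCont toMat mapMat)

variable {p : ℕ} [Fact p.Prime] {N : ℕ} [NeZero N] {S : Finset ℕ}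
  {𝒪 : Type} [CommRing 𝒪] [IsDomain 𝒪] [IsDiscreteValuationRing 𝒪]
  [IsAdicComplete (maximalIdeal 𝒪) 𝒪] [Finite (ResidueField 𝒪)] [CharZero 𝒪]

/-- **The surjection from the deformation ring of any type onto the Hecke ring**, in matrix form. -/
theorem exists_surjection_of_type (hp2 : p ≠ 2)
    (hp𝒪 : (p : 𝒪) ∈ maximalIdeal 𝒪) (hpS : p ∈ S) (hNS : ∀ q : ℕ, q.Prime → q ∣ N → q ∈ S)
    (θ : heckeAlgebra N 2 (↑S : Set ℕ) →+* ResidueField 𝒪)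
    (ρbar : ResidualGaloisRep (ResidueField 𝒪)) (hirr : ρbar.IsIrreducible)
    (hfrob : ∀ (ℓ : ℕ) (hℓ : ℓ.Prime) (hℓN : ¬ ℓ ∣ N) (hℓS : ℓ ∉ (↑S : Set ℕ)),
      ∀ A : ValuationSubring (AlgebraicClosure ℚ), A.LiesOverPrime ℓ →
        ∀ σ : AlgebraicClosure ℚ ≃ₐ[ℚ] AlgebraicClosure ℚ, A.IsFrobeniusAt σ ℓ →
          LinearMap.charpoly (ρbar.ρ σ) = Polynomial.X ^ 2 -
            Polynomial.C (θ (heckeAlgebra.T hℓ hℓN hℓS)) * Polynomial.X +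
              Polynomial.C ((ℓ : ResidueField 𝒪)))
    {𝒟 : ∀ ⦃A : Type⦄ [CommRing A] [IsLocalRing A] [Algebra 𝒪 A], GaloisRepAdic A → Prop}
    (h𝒟 : ∀ H : HeckeGaloisRepDatum N (↑S : Set ℕ) 𝒪 θ (heckeLocal N (↑S : Set ℕ) 𝒪 θ),
      H.π = heckeLocal.π N (↑S : Set ℕ) 𝒪 θ →
      H.ρ.residual.IsEquiv (ρbar.baseChangeAlong
        (ResidueField.map (algebraMap 𝒪 (heckeLocal N (↑S : Set ℕ) 𝒪 θ)))) →
      (∀ q : ℕ, q.Prime → ¬ q ∣ N → q ≠ p → H.ρ.IsUnramifiedAt q) → 𝒟 H.ρ)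
    (D : DeformationRingData 𝒪 ρbar 𝒟) (b₁ : Module.Basis (Fin 2) D.R D.ρ.V) :
    ∃ (H : HeckeGaloisRepDatum N (↑S : Set ℕ) 𝒪 θ (heckeLocal N (↑S : Set ℕ) 𝒪 θ))
      (π : D.R →ₐ[𝒪] heckeLocal N (↑S : Set ℕ) 𝒪 θ)
      (b₂ : Module.Basis (Fin 2) (heckeLocal N (↑S : Set ℕ) 𝒪 θ) H.ρ.V),
      H.π = heckeLocal.π N (↑S : Set ℕ) 𝒪 θ ∧ Function.Surjective π ∧
      toMat H.ρ.ρ b₂ = mapMat (π : D.R →+* heckeLocal N (↑S : Set ℕ) 𝒪 θ) (toMat D.ρ.ρ b₁) ∧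
      (∀ q : ℕ, q.Prime → ¬ q ∣ N → q ≠ p → H.ρ.IsUnramifiedAt q) := by
  obtain ⟨H, hπ, hres, hunr⟩ := exists_heckeDatum hp2 N S hpS hNS 𝒪 hp𝒪 θ ρbar hirr hfrob
  obtain ⟨π, hsurj, hφ, heq⟩ := S54.result D H (fun q hq hqN => by simpa using hNS q hq hqN)
    (h𝒟 H hπ hres hunr) hres
  obtain ⟨b₂, hb₂⟩ := exists_basis_of_isEquiv (π : D.R →+* heckeLocal N (↑S : Set ℕ) 𝒪 θ) hφ
    D.ρ H.ρ heq b₁
  exact ⟨H, π, b₂, hπ, hsurj, hb₂, hunr⟩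

end Fermat.Agent.H30
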