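import Fermat.Agent.H53TWB1

set_option autoImplicit false
set_option maxSynthPendingDepth 3
set_option linter.style.haveILetI false
set_option linter.unusedSectionVars false

/-!
# The Galois side of the levels with raising primes: existence
-/

noncomputable section

open IsLocalRing Module ExtCitation Polynomial GaloisRep
open Fermat.Agent.H55 Fermat.Agent.H56

namespace Fermat.Agent.H53

variable {𝒪 : Type} [CommRing 𝒪] [IsDomain 𝒪] [IsDiscreteValuationRing 𝒪]
    [IsAdicComplete (maximalIdeal 𝒪) 𝒪] [Finite (ResidueField 𝒪)]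

/-- the tangent form of `entries_mem`: a residually scalar matrix is constant if its traceless
coordinates and the defect of the determinant are killed -/
lemma sndM_eq_zero_of_coords {R : Type} [CommRing R] [IsLocalRing R] {k : Type} [Field k]
    (f : R →+* DualNumber k) (h2 : IsUnit (2 : R)) (M : M2 R) {d u : R}
    (hd : M 0 0 * M 1 1 - M 0 1 * M 1 0 = d) (hdu : f (d - u ^ 2) = 0) (hu : IsUnit u)
    (htr : M 0 0 + M 1 1 - 2 * u ∈ maximalIdeal R) {n : R} (hn : 2 * n = M 0 0 - M 1 1)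
    (hnJ : f n = 0) (h01 : f (M 0 1) = 0) (h10 : f (M 1 0) = 0)
    (hfu : TrivSqZeroExt.snd (f u) = 0) : sndM (M.map f) = 0 := by
  refine Matrix.ext fun a c => ?_
  have h1 := entries_mem (RingHom.ker f) h2 M hd hdu hu htr hn hnJ h01 h10 a c
  rw [RingHom.mem_ker, map_sub, map_mul, sub_eq_zero] at h1
  rw [sndM_apply, Matrix.map_apply, h1, TrivSqZeroExt.snd_mul, hfu, Matrix.one_apply]
  split_ifs <;> simp

variable {p : ℕ} [Fact p.Prime]

/-- the residual representation has the type of the level -/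
lemma typeB_residual (ρbar : ResidualGaloisRep (ResidueField 𝒪))
    (b : Module.Basis (Fin 2) (ResidueField 𝒪) ρbar.V) (pd : PData p ρbar b)
    (hdet : (GaloisRepAdic.ofResidualGaloisRep ρbar).DetIsCyclotomic p) (A : Finset ℕ)
    (hAu : ∀ q ∈ A, (GaloisRepAdic.ofResidualGaloisRep ρbar).IsUnipotentOnInertiaAt q)
    (hunr : ∀ q, q.Prime → q ≠ p → q ∉ A →
      (GaloisRepAdic.ofResidualGaloisRep ρbar).IsUnramifiedAt q)
    {τ ι : Type} [Fintype τ] [Fintype ι] (qT : τ → ℕ) (qB : ι → ℕ) {r : ℕ} (qv : Fin r → ℕ) :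
    typeB 𝒪 p pd.𝒟p A qT qB qv (GaloisRepAdic.ofResidualGaloisRep ρbar) := by
  refine ⟨⟨hdet, pd.residual, fun q hq hqS => ?_⟩, fun q hq hqp hqne => ?_⟩
  · rw [mem_levelSetB] at hqS
    push Not at hqS
    exact hunr q hq hqS.1 hqS.2.1
  · by_cases hqA : q ∈ A
    · exact hAu q hqA
    · intro P hP σ hσ
      have h1 := hunr q hqp hqne hqA P hP σ hσ
      rw [h1]
      rw [LinearMap.charpoly_one, (GaloisRepAdic.ofResidualGaloisRep ρbar).finrank_eq]

/-- the six tame coordinates of a pair of matrices -/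
def tameCoord {R : Type} [CommRing R] (v : R) (Sg Ph : M2 R) : Fin 6 → R :=
  ![v * (Sg 0 0 - Sg 1 1), Sg 0 1, Sg 1 0, v * (Ph 0 0 - Ph 1 1), Ph 0 1, Ph 1 0]

/-- **Existence of the Galois side of the levels with raising primes.** -/
theorem exists_galLevelB (hp2 : p ≠ 2) (hp𝒪 : (p : 𝒪) ∈ maximalIdeal 𝒪) (GW : GWIneq p)
    (ρbar : ResidualGaloisRep (ResidueField 𝒪)) (habs : ρbar.IsAbsolutelyIrreducible)
    (hdet : (GaloisRepAdic.ofResidualGaloisRep ρbar).DetIsCyclotomic p)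
    (hsplit : ∀ σ : AlgebraicClosure ℚ ≃ₐ[ℚ] AlgebraicClosure ℚ,
      ∃ α β : ResidueField 𝒪, LinearMap.charpoly (ρbar.ρ σ) = (X - C α) * (X - C β))
    (hTW : ∀ (K : Type) [Field K] [Algebra (ResidueField 𝒪) K]
      (G : Subgroup (AlgebraicClosure ℚ ≃ₐ[ℚ] AlgebraicClosure ℚ)), G.index = 2 →
      ∀ V : Submodule K (ρbar.baseChange K).V,
        (∀ σ ∈ G, ∀ x ∈ V, (ρbar.baseChange K).ρ σ x ∈ V) → V = ⊥ ∨ V = ⊤)
    (b : Module.Basis (Fin 2) (ResidueField 𝒪) ρbar.V) (pd : PData p ρbar b) (A : Finset ℕ)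
    (hAp : ∀ q ∈ A, q.Prime ∧ q ≠ p)
    (hAram : ∀ q ∈ A, ¬ (GaloisRepAdic.ofResidualGaloisRep ρbar).IsUnramifiedAt q)
    (hAu : ∀ q ∈ A, (GaloisRepAdic.ofResidualGaloisRep ρbar).IsUnipotentOnInertiaAt q)
    (hunr : ∀ q, q.Prime → q ≠ p → q ∉ A →
      (GaloisRepAdic.ofResidualGaloisRep ρbar).IsUnramifiedAt q)
    {τ : Type} [Fintype τ] (qT : τ → ℕ) (hqT : ∀ t, (qT t).Prime) (hqinj : Function.Injective qT)
    (hqp : ∀ t, p ∣ qT t - 1) (hqA : ∀ t, qT t ∉ A)
    (u : τ → 𝒪) (hu : ∀ t, u t ^ 2 = 1) (pl : ∀ t, PlaceData p (qT t))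
    (hpl : ∀ t, (pl t).P = primeLocalPlace ⟨qT t, hqT t⟩)
    (hφ : ∀ t, toMat ρbar.ρ b (pl t).φ = residue 𝒪 (u t) • (1 : M2 (ResidueField 𝒪)))
    {ι : Type} [Fintype ι] (qB : ι → ℕ) (hqB : ∀ i, (qB i).Prime)
    (hqBinj : Function.Injective qB) (hqBp : ∀ i, p ≠ qB i) (hqBA : ∀ i, qB i ∉ A)
    (uB : ι → 𝒪) (huB : ∀ i, uB i ^ 2 = 1) (plB : ∀ i, PlaceData p (qB i))
    (hplB : ∀ i, (plB i).P = primeLocalPlace ⟨qB i, hqB i⟩)
    (hφB : ∀ i, NonScalar (toMat ρbar.ρ b (plB i).φ))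
    (htrB : ∀ i, (toMat ρbar.ρ b (plB i).φ).trace = residue 𝒪 (uB i) * ((qB i : ℕ) + 1)) :
    ∃ k₀ : ℕ, ∀ k, k₀ ≤ k → ∀ (n : ℕ) (S : Finset ℕ),
      Nonempty (GalLevelB p ρbar b pd A qT pl u qB plB uB k n S) := by
  classical
  have hpk : ((p : ℕ) : ResidueField 𝒪) = 0 := by
    rw [← map_natCast (residue 𝒪), residue_eq_zero_iff]
    exact hp𝒪
  haveI hchar : CharP (ResidueField 𝒪) p :=
    (CharP.charP_iff_prime_eq_zero Fact.out).mpr hpk
  letI : Algebra (ZMod p) (ResidueField 𝒪) := ZMod.algebra _ p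
  have hqne : ∀ t, p ≠ qT t := fun t => ne_of_dvd_sub_one Fact.out (hqT t) (hqp t)
  set r := toMat ρbar.ρ b with hr
  have hrdet : DetCyc p r := detCyc_toMat ρbar b hdet
  have hfl : FinLev r := finLev_toMat ρbar b
  -- finsets of primes
  let A' : Finset Nat.Primes := A.subtype Nat.Prime
  let T' : Finset Nat.Primes := Finset.univ.image fun t => (⟨qT t, hqT t⟩ : Nat.Primes)
  let B' : Finset Nat.Primes := Finset.univ.image fun t => (⟨qB t, hqB t⟩ : Nat.Primes)
  have hA' : ∀ q : Nat.Primes, q ∈ A' ↔ (q : ℕ) ∈ A := fun q => Finset.mem_subtype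
  have hT' : ∀ q : Nat.Primes, q ∈ T' ↔ ∃ t, qT t = (q : ℕ) := by
    intro q
    simp only [T', Finset.mem_image, Finset.mem_univ, true_and]
    exact ⟨fun ⟨t, ht⟩ => ⟨t, congrArg Subtype.val ht⟩, fun ⟨t, ht⟩ => ⟨t, Subtype.ext ht⟩⟩
  have hB' : ∀ q : Nat.Primes, q ∈ B' ↔ ∃ t, qB t = (q : ℕ) := by
    intro q
    simp only [B', Finset.mem_image, Finset.mem_univ, true_and]
    exact ⟨fun ⟨t, ht⟩ => ⟨t, congrArg Subtype.val ht⟩, fun ⟨t, ht⟩ => ⟨t, Subtype.ext ht⟩⟩
  have hT'card : T'.card = Nat.card τ := by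
    have hinj' : Function.Injective fun t => (⟨qT t, hqT t⟩ : Nat.Primes) := fun t t' h =>
      hqinj (congrArg (fun q : Nat.Primes => (q : ℕ)) h)
    have h2 : T'.card = (Finset.univ : Finset τ).card := Finset.card_image_of_injective _ hinj'
    rw [h2, Finset.card_univ, Nat.card_eq_fintype_card]
  have hB'card : B'.card = Nat.card ι := by
    have hinj' : Function.Injective fun t => (⟨qB t, hqB t⟩ : Nat.Primes) := fun t t' h =>
      hqBinj (congrArg (fun q : Nat.Primes => (q : ℕ)) h)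
    have h2 : B'.card = (Finset.univ : Finset ι).card := Finset.card_image_of_injective _ hinj'
    rw [h2, Finset.card_univ, Nat.card_eq_fintype_card]
  have hrI : ∀ q : ℕ, q.Prime → q ≠ p → q ∉ A → ∀ P : ValuationSubring (AlgebraicClosure ℚ),
      P.LiesOverPrime q → ∀ σ ∈ P.inertiaSubgroupIn ℚ, r σ = 1 := by
    intro q hq hqp' hqA' P hP σ hσ
    have h1 := hunr q hq hqp' hqA' P hP σ hσ
    exact (toMat_eq_one_iff (GaloisRepAdic.ofResidualGaloisRep ρbar) b σ).mp h1
  have hpTB : pPrime p ∉ T' ∪ B' := by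
    rw [Finset.mem_union, hT', hB']
    rintro (⟨t, ht⟩ | ⟨t, ht⟩)
    · exact hqne t ht.symm
    · exact hqBp t ht.symm
  have hAram' : ∀ q ∈ A', ∃ σ ∈ Iq q, r σ ≠ 1 := by
    intro q hq
    by_contra hcon
    push Not at hcon
    refine hAram q ((hA' q).mp hq) fun P hP σ hσ => ?_
    exact (toMat_eq_one_iff (GaloisRepAdic.ofResidualGaloisRep ρbar) b σ).mpr
      (inertia_trivial_all q.2 (H28.primeLocalPlace_liesOver q) hcon P hP σ hσ)
  have hAu' : ∀ q ∈ A', ∀ σ ∈ Iq q, (r σ).charpoly = (X - 1) ^ 2 := by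
    intro q hq σ hσ
    have h1 := hAu q ((hA' q).mp hq) _ (H28.primeLocalPlace_liesOver q) σ hσ
    rw [toMat_charpoly (GaloisRepAdic.ofResidualGaloisRep ρbar) b] at h1
    exact h1
  have hur' : ∀ q, q ∉ A' → q ≠ pPrime p → ∀ σ ∈ Iq q, r σ = 1 := fun q hq hqp' =>
    hrI q q.2 (fun h => hqp' (Subtype.ext h)) (fun h => hq ((hA' q).mpr h)) _
      (H28.primeLocalPlace_liesOver q)
  have hIT : ∀ t, ∀ σ ∈ Iq ⟨qT t, hqT t⟩, r σ = 1 := fun t =>
    hrI _ (hqT t) (Ne.symm (hqne t)) (hqA t) _ (H28.primeLocalPlace_liesOver ⟨qT t, hqT t⟩)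
  have hIB : ∀ t, ∀ σ ∈ Iq ⟨qB t, hqB t⟩, r σ = 1 := fun t =>
    hrI _ (hqB t) (Ne.symm (hqBp t)) (hqBA t) _ (H28.primeLocalPlace_liesOver ⟨qB t, hqB t⟩)
  -- the primes of `T` and `B` are different
  have hTB : ∀ t i, qT t ≠ qB i := by
    intro t i hti
    have h1 : ∀ σ ∈ Dq ⟨qT t, hqT t⟩, ∃ u : ResidueField 𝒪, r σ = u • (1 : M2 (ResidueField 𝒪)) :=
      scalar_D hfl (hIT t) (φ := (pl t).φ) (by rw [← hpl t]; exact (pl t).frob) (hφ t)
    refine hφB i (h1 _ ?_)
    have h2 : (⟨qT t, hqT t⟩ : Nat.Primes) = ⟨qB i, hqB i⟩ := Subtype.ext hti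
    have h3 := (plB i).frob.mem_decompositionSubgroup
    rw [hplB i] at h3
    rw [h2]
    exact h3
  -- weights
  let w : Nat.Primes → ℕ := fun q => if q ∈ T' then 3 else 1
  have hwsum : ∑ q ∈ T' ∪ B', w q = 3 * Nat.card τ + Nat.card ι := by
    have hdisj : Disjoint T' B' := by
      rw [Finset.disjoint_left]
      intro q hq hq'
      obtain ⟨t, ht⟩ := (hT' q).mp hq
      obtain ⟨i, hi⟩ := (hB' q).mp hq'
      exact hTB t i (ht.trans hi.symm)
    rw [Finset.sum_union hdisj]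
    have e1 : ∑ q ∈ T', w q = 3 * Nat.card τ := by
      rw [Finset.sum_congr rfl (g := fun _ => 3) (fun q hq => by simp only [w, hq, if_true]),
        Finset.sum_const, smul_eq_mul, hT'card, mul_comm]
    have e2 : ∑ q ∈ B', w q = Nat.card ι := by
      rw [Finset.sum_congr rfl (g := fun _ => 1) (fun q hq => by
        have : q ∉ T' := fun h => Finset.disjoint_left.mp hdisj h hq
        simp only [w, this, if_false]), Finset.sum_const, smul_eq_mul, hB'card, mul_one]
    rw [e1, e2]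
  have hwT : ∀ q ∈ T' ∪ B', finrank (ZMod p) (B1 (rhoD (ad p r) q)) +
      w q * finrank (ZMod p) (ResidueField 𝒪) ≤ 3 * finrank (ZMod p) (ResidueField 𝒪) := by
    intro q hq
    by_cases hqT' : q ∈ T'
    · have hw : w q = 3 := by simp only [w, hqT', if_true]
      obtain ⟨t, ht⟩ := (hT' q).mp hqT'
      obtain rfl : q = ⟨qT t, hqT t⟩ := Subtype.ext ht.symm
      have h1 : B1 (rhoD (ad p r) ⟨qT t, hqT t⟩) = ⊥ := le_bot_iff.mp (B1_le_bot_of_scalar
        (scalar_D hfl (hIT t) (φ := (pl t).φ) (by rw [← hpl t]; exact (pl t).frob) (hφ t)))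
      rw [hw, h1, finrank_bot, zero_add]
    · have hw : w q = 1 := by simp only [w, hqT', if_false]
      obtain ⟨i, hi⟩ := (hB' q).mp ((Finset.mem_union.mp hq).resolve_left hqT')
      obtain rfl : q = ⟨qB i, hqB i⟩ := Subtype.ext hi.symm
      rw [hw]
      exact finrank_B1_nonScalar hfl (hIB i) (φ := (plB i).φ)
        (by rw [← hplB i]; exact (plB i).frob) hp2 (hφB i)
  have hε := pd.card_le
  obtain ⟨s, hs⟩ := selmer_bound_gen hp2 GW ρbar habs hdet hsplit hTW b (r := r) (fun _ => rfl)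
    hrdet hfl A' (T' ∪ B') hpTB hAram' hAu' hur' w hwT _ (4 - Nat.card pd.ε) (by omega) pd.bound
  refine ⟨s, fun k hk n S => ?_⟩
  obtain ⟨qv, hinj, hqS, hqA', hqur, hqF, Z, hZfin, hZcard, hZcob, hZmem⟩ :=
    hs (numB τ ι pd.ε k)
      (show s ≤ 3 * Nat.card τ + Nat.card (ι ⊕ pd.ε) + k by omega) n S
  have hcard : Z.ncard ≤ Nat.card (ResidueField 𝒪) ^ (k + 3) := by
    rw [hwsum] at hZcard
    have h1 : numB τ ι pd.ε k + (4 - Nat.card pd.ε - 1) - (3 * Nat.card τ + Nat.card ι) =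
        k + 3 := by
      have h2 : Nat.card (ι ⊕ pd.ε) = Nat.card ι + Nat.card pd.ε := Nat.card_sum
      show 3 * Nat.card τ + Nat.card (ι ⊕ pd.ε) + k + (4 - Nat.card pd.ε - 1) -
        (3 * Nat.card τ + Nat.card ι) = k + 3
      omega
    rwa [h1] at hZcard
  let qn : Fin (numB τ ι pd.ε k) → ℕ := fun i => (qv i : ℕ)
  have hqnp : ∀ i, (qn i).Prime := fun i => (qv i).2
  have hqnp' : ∀ i, qn i ≠ p := fun i h => (hqA' i).2.2 (Subtype.ext h)
  have hqnA : ∀ i, qn i ∉ A := fun i h => (hqA' i).1 ((hA' _).mpr h)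
  have hdvd : ∀ i, p ∣ qn i - 1 := fun i =>
    dvd_trans (dvd_pow_self p (Nat.succ_ne_zero n)) (hqS i).2
  have hbar := typeB_residual ρbar b pd hdet A hAu hunr qT qB qn
  obtain ⟨D⟩ : Nonempty (DeformationRingData 𝒪 ρbar (typeB 𝒪 p pd.𝒟p A qT qB qn)) :=
    S53.result 𝒪 ρbar _ habs (pd.isDef _ _) hbar
      (tangentFinite_of_unramified ρbar _ ((levelSetB p A qT qB qn).filter Nat.Prime)
        (fun q hq => (Finset.mem_filter.mp hq).2) (fun _ _ _ _ ρ hρ q hq hqS =>
          hρ.1.2.2 q hq fun h => hqS (Finset.mem_filter.mpr ⟨h, hq⟩)))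
  have hDdet : D.ρ.DetIsCyclotomic p := D.isOfType.1.1
  have hpD : (p : D.R) ∈ maximalIdeal D.R := hDdet.1
  obtain ⟨b₁, hb₁⟩ := exists_basis_lift ρbar b D.ρ D.residual_isEquiv
  choose plQ hplQ using fun i => exists_stdPlace (p := p) (qv i) (fun h => hqnp' i h.symm)
  have hIQ : ∀ i, ∀ σ ∈ (plQ i).P.inertiaSubgroupIn ℚ,
      Cong (maximalIdeal D.R) (toMat D.ρ.ρ b₁ σ) := fun i σ hσ =>
    cong_of_residual D b b₁ hb₁ (hrI _ (hqnp i) (hqnp' i) (hqnA i) _ (plQ i).lies σ hσ)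
  -- the splittings
  have hs : ∀ i, ∃ s : TWSplit (plQ i).P (toMat D.ρ.ρ b₁),
      residue D.R (s.χ₁ (plQ i).φD) ≠ residue D.R (s.χ₂ (plQ i).φD) := by
    intro i
    obtain ⟨-, α, β, hαβ, hch⟩ := hqF i _ (plQ i).lies (plQ i).φ (plQ i).frob
    set g := ResidueField.map (algebraMap 𝒪 D.R) with hg
    obtain ⟨s, h1, h2⟩ := exists_twSplit (hqnp i) (plQ i).lies (hdvd i) hpD
      (mcont_toMat D.ρ b₁) (hIQ i) (plQ i).frob (a := g α) (b := g β)
      (fun h => hαβ (g.injective h)) (by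
        have h3 : (toMat D.ρ.ρ b₁ (plQ i).φ).map (residue D.R) =
            (toMat ρbar.ρ b (plQ i).φ).map g := DFunLike.congr_fun hb₁ (plQ i).φ
        rw [h3, Matrix.charpoly_map, toMat_apply, LinearMap.charpoly_toMatrix, hch,
          Polynomial.map_mul, Polynomial.map_sub, Polynomial.map_sub, map_X, map_C, map_C])
    refine ⟨s, ?_⟩
    intro h
    apply hαβ
    apply g.injective
    rw [← h1, ← h2]
    exact h
  choose s hsne using hs
  have hcent : ∀ X : M2 (ResidueField 𝒪), X.trace = 0 →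
      (∀ σ, toMat ρbar.ρ b σ * X = X * toMat ρbar.ρ b σ) → X = 0 := by
    intro X hX hcomm
    refine H51Dual.eq_zero_of_cob_eq_zero (H51Dual.two_ne_zero' p _ hp2) r
      (H69.burnside ρbar habs b) hX fun σ => ?_
    show r σ * X * r σ⁻¹ - X = 0
    rw [hr, hcomm σ, mul_assoc, ← map_mul, mul_inv_cancel, map_one, mul_one, sub_self]
  -- the tame primes
  have hσ1 : ∀ t, toMat ρbar.ρ b (pl t).σ = 1 := fun t =>
    hrI _ (hqT t) (Ne.symm (hqne t)) (hqA t) _ (pl t).lies _ (pl t).inert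
  have hrel := fun t => scalar_relations D b₁ hDdet (hqT t) (hqne t) (pl t) fun σ hσ =>
    cong_of_residual D b b₁ hb₁ (hrI _ (hqT t) (Ne.symm (hqne t)) (hqA t) _ (pl t).lies σ hσ)
  have hσc := fun t => cong_of_residual D b b₁ hb₁ (hσ1 t)
  have hφc := fun t => residual_scalar D b b₁ hb₁ (hφ t)
  have h2u : IsUnit (2 : D.R) := isUnit_two_of_odd hp2 hDdet.1
  obtain ⟨v, hv⟩ := h2u
  have hvi : 2 * (↑v⁻¹ : D.R) = 1 := by rw [← hv, Units.mul_inv]
  have htrSg : ∀ t, toMat D.ρ.ρ b₁ (pl t).σ 0 0 + toMat D.ρ.ρ b₁ (pl t).σ 1 1 - 2 ∈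
      maximalIdeal D.R := fun t => by
    have h1 := hσc t 0 0
    have h2 := hσc t 1 1
    rw [Matrix.one_apply_eq] at h1 h2
    have h3 := Ideal.add_mem _ h1 h2
    convert h3 using 1
    ring
  have htrPh : ∀ t, toMat D.ρ.ρ b₁ (pl t).φ 0 0 + toMat D.ρ.ρ b₁ (pl t).φ 1 1 -
      2 * algebraMap 𝒪 D.R (u t) ∈ maximalIdeal D.R := fun t => by
    have h1 := hφc t 0 0
    have h2 := hφc t 1 1
    rw [Matrix.one_apply_eq, mul_one] at h1 h2
    have h3 := Ideal.add_mem _ h1 h2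
    convert h3 using 1
    ring
  let yT : τ → Fin 6 → D.R := fun t =>
    tameCoord (↑v⁻¹ : D.R) (toMat D.ρ.ρ b₁ (pl t).σ) (toMat D.ρ.ρ b₁ (pl t).φ)
  have hentry : ∀ (M : M2 D.R) (w : D.R),
      (∀ a c, M a c - w * (1 : M2 D.R) a c ∈ maximalIdeal D.R) →
      (↑v⁻¹ : D.R) * (M 0 0 - M 1 1) ∈ maximalIdeal D.R ∧ M 0 1 ∈ maximalIdeal D.R ∧
        M 1 0 ∈ maximalIdeal D.R := by
    intro M w hM
    have h00 := hM 0 0
    have h11 := hM 1 1
    have h01 := hM 0 1
    have h10 := hM 1 0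
    rw [Matrix.one_apply_eq, mul_one] at h00 h11
    rw [Matrix.one_apply_ne (by decide), mul_zero, sub_zero] at h01 h10
    refine ⟨Ideal.mul_mem_left _ _ ?_, h01, h10⟩
    have := Ideal.sub_mem _ h00 h11
    rwa [sub_sub_sub_cancel_right] at this
  have hyT : ∀ t j, yT t j ∈ maximalIdeal D.R := by
    intro t j
    have hσe := hentry (toMat D.ρ.ρ b₁ (pl t).σ) 1 (fun a c => by rw [one_mul]; exact hσc t a c)
    have hφe := hentry (toMat D.ρ.ρ b₁ (pl t).φ) _ (hφc t)
    fin_cases j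
    · exact hσe.1
    · exact hσe.2.1
    · exact hσe.2.2
    · exact hφe.1
    · exact hφe.2.1
    · exact hφe.2.2
  -- the raising primes
  have hrelB := fun t => scalar_relations D b₁ hDdet (hqB t) (hqBp t) (plB t) fun σ hσ =>
    cong_of_residual D b b₁ hb₁ (hrI _ (hqB t) (Ne.symm (hqBp t)) (hqBA t) _ (plB t).lies σ hσ)
  have hσB1 : ∀ t, toMat ρbar.ρ b (plB t).σ = 1 := fun t =>
    hrI _ (hqB t) (Ne.symm (hqBp t)) (hqBA t) _ (plB t).lies _ (plB t).inert
  have hmarks : ∀ i : ι, ∃ t y z, IsBMarks (qB i) (algebraMap 𝒪 D.R (uB i))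
      (toMat D.ρ.ρ b₁ (plB i).φ) (toMat D.ρ.ρ b₁ (plB i).σ) t y z := by
    intro i
    have hφres : (toMat D.ρ.ρ b₁ (plB i).φ).map (residue D.R) =
        (toMat ρbar.ρ b (plB i).φ).map (ResidueField.map (algebraMap 𝒪 D.R)) :=
      DFunLike.congr_fun hb₁ (plB i).φ
    refine exists_bMarks (by rw [← map_pow, huB, map_one]) ⟨v, hv⟩ (hrelB i).1 (hrelB i).2.2
      (hrelB i).2.1 (cong_of_residual D b b₁ hb₁ (hσB1 i)) ?_ (hqB i).one_lt ?_ ?_
    · rw [← residue_eq_zero_iff, map_sub, sub_eq_zero]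
      have h1 : residue D.R (toMat D.ρ.ρ b₁ (plB i).φ).trace =
          ((toMat D.ρ.ρ b₁ (plB i).φ).map (residue D.R)).trace := by
        rw [Matrix.trace_fin_two, Matrix.trace_fin_two, Matrix.map_apply, Matrix.map_apply, map_add]
      have h2 : ((toMat ρbar.ρ b (plB i).φ).map (ResidueField.map (algebraMap 𝒪 D.R))).trace =
          ResidueField.map (algebraMap 𝒪 D.R) (toMat ρbar.ρ b (plB i).φ).trace := by
        rw [Matrix.trace_fin_two, Matrix.trace_fin_two, Matrix.map_apply, Matrix.map_apply, map_add]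
      rw [h1, hφres, h2, htrB i, map_mul, ResidueField.map_residue, map_mul, map_add, map_add,
        map_natCast, map_natCast, map_one, map_one]
    · have h1 := isUnit_natCast_of_not_dvd (Fact.out : p.Prime) hpD (a := (qB i : ℤ)) (by
        intro h
        have h1 : p ∣ qB i := by exact_mod_cast h
        exact hqBp i ((Nat.prime_dvd_prime_iff_eq Fact.out (hqB i)).mp h1))
      exact_mod_cast h1
    · rw [hφres]
      rintro ⟨c, hc⟩
      obtain ⟨c', rfl⟩ := (bijective_map_residue D.R D.residue_surjective).2 c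
      refine hφB i ⟨c', ?_⟩
      refine Matrix.ext fun a d => ?_
      apply (ResidueField.map (algebraMap 𝒪 D.R)).injective
      have h2 := congrFun (congrFun hc a) d
      rw [Matrix.map_apply, Matrix.smul_apply, smul_eq_mul] at h2
      rw [h2, Matrix.smul_apply, smul_eq_mul, map_mul]
      congr 1
      rw [Matrix.one_apply, Matrix.one_apply]
      split_ifs <;> simp
  choose mt my mz hm using hmarks
  -- the marks at `p`
  obtain ⟨mp, hmp1, hmp2, hmp3⟩ := pd.mark D.R D.ρ b₁ hDdet D.isOfType.1.2.1 hb₁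
  let mB : ι ⊕ pd.ε → Fin 3 → D.R :=
    Sum.elim (fun i => ![mt i, my i, mz i]) mp
  have hmB : ∀ x j, mB x j ∈ maximalIdeal D.R := by
    rintro (i | e) j
    · fin_cases j
      · exact (hm i).t_mem
      · exact (hm i).y_mem
      · exact (hm i).z_mem
    · exact hmp1 e j
  -- the presentation
  obtain ⟨β, hβs, hβ⟩ := exists_beta_gen ρbar _ (pd.isDef _ _) b hcent D b₁ hb₁ k Z hZfin hcard
    hZcob (ι := (τ × Fin 6) ⊕ ((ι ⊕ pd.ε) × Fin 3))
    (Sum.elim (fun x => yT x.1 x.2) (fun x => mB x.1 x.2)) (by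
      rintro (x | x)
      · exact hyT x.1 x.2
      · exact hmB x.1 x.2) (by
      intro f hf hf𝒪 hfy h hred htype
      have hfT : ∀ t j, f (yT t j) = 0 := fun t j => hfy (Sum.inl (t, j))
      have hfB : ∀ x j, f (mB x j) = 0 := fun x j => hfy (Sum.inr (x, j))
      have hgood : GoodLift r (mapMat f (toMat D.ρ.ρ b₁)) :=
        goodLift_of_det b hdet h hred htype.1.1
      have hsndO : ∀ c, TrivSqZeroExt.snd (f (algebraMap 𝒪 D.R c)) = 0 := fun c => by
        rw [hf𝒪, TrivSqZeroExt.snd_inl]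
      have hfq : ∀ q : ℕ, p ∣ q - 1 → 1 ≤ q → f ((q : D.R) - 1) = 0 := by
        intro q hq hq1
        obtain ⟨m, hm⟩ := hq
        have h1 : q = p * m + 1 := by omega
        have h3 : (q : D.R) - 1 = algebraMap 𝒪 D.R ((p : 𝒪) * m) := by
          rw [h1]; push_cast; simp
        rw [h3, hf𝒪, (residue_eq_zero_iff _).mpr (Ideal.mul_mem_right _ _ hp𝒪),
          TrivSqZeroExt.inl_zero]
      refine hZmem _ hgood (hmp3 f hf hf𝒪 (fun e j => hfB (Sum.inr e) j) h htype.1.2.1) ?_ ?_ ?_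
      · intro q hq σ hσ
        exact charpoly_of_unip h (htype.2 q (mem_uniSet.mpr (Or.inl ((hA' q).mp hq))) q.2
          (hAp q ((hA' q).mp hq)).2) (H28.primeLocalPlace_liesOver q) hσ
      · intro q hqA1 hqTB1 hqp1 hqv1 σ hσ
        refine eq_one_of_unram h (htype.1.2.2 q q.2 ?_) (H28.primeLocalPlace_liesOver q) hσ
        rw [mem_levelSetB]
        push Not
        refine ⟨fun h => hqp1 (Subtype.ext h), fun h => hqA1 ((hA' q).mpr h), fun t h =>
          hqTB1 (Finset.mem_union_left _ ((hT' q).mpr ⟨t, h⟩)), fun t h =>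
          hqTB1 (Finset.mem_union_right _ ((hB' q).mpr ⟨t, h⟩)),
          fun i h => hqv1 i (Subtype.ext h.symm)⟩
      · intro q hq
        by_cases hqT1 : q ∈ T'
        · obtain ⟨t, ht⟩ := (hT' q).mp hqT1
          obtain rfl : q = ⟨qT t, hqT t⟩ := Subtype.ext ht.symm
          have hzero : ∀ {g : GQ}, sndM ((toMat D.ρ.ρ b₁ g).map f) = 0 →
              coc (mapMat f (toMat D.ρ.ρ b₁)) g = 0 := by
            intro g hg
            show sndM ((toMat D.ρ.ρ b₁ g).map f) * _ = 0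
            rw [hg, zero_mul]
          have hcσ : coc (mapMat f (toMat D.ρ.ρ b₁)) (pl t).σ = 0 := by
            refine hzero (sndM_eq_zero_of_coords f ⟨v, hv⟩ (toMat D.ρ.ρ b₁ (pl t).σ)
              (d := 1) (u := 1) ?_ (by simp) isUnit_one (by rw [mul_one]; exact htrSg t)
              (n := (↑v⁻¹ : D.R) * (toMat D.ρ.ρ b₁ (pl t).σ 0 0 - toMat D.ρ.ρ b₁ (pl t).σ 1 1))
              ?_ (hfT t 0) (hfT t 1) (hfT t 2) (by rw [map_one, TrivSqZeroExt.snd_one]))
            · rw [← Matrix.det_fin_two]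
              exact (hrel t).2.1
            · rw [← mul_assoc, hvi, one_mul]
          have hcφ : coc (mapMat f (toMat D.ρ.ρ b₁)) (pl t).φ = 0 := by
            have hu1 : algebraMap 𝒪 D.R (u t) ^ 2 = 1 := by rw [← map_pow, hu, map_one]
            refine hzero (sndM_eq_zero_of_coords f ⟨v, hv⟩ (toMat D.ρ.ρ b₁ (pl t).φ)
              (d := (qT t : D.R)) (u := algebraMap 𝒪 D.R (u t)) ?_ ?_ ?_ (htrPh t)
              (n := (↑v⁻¹ : D.R) * (toMat D.ρ.ρ b₁ (pl t).φ 0 0 - toMat D.ρ.ρ b₁ (pl t).φ 1 1))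
              ?_ (hfT t 3) (hfT t 4) (hfT t 5) (hsndO _))
            · rw [← Matrix.det_fin_two]
              exact (hrel t).2.2
            · rw [hu1]
              exact hfq _ (hqp t) (hqT t).one_lt.le
            · exact IsUnit.of_pow_eq_one hu1 two_ne_zero
            · rw [← mul_assoc, hvi, one_mul]
          have h1 := coc_eq_zero_D (t := ⟨qT t, hqT t⟩) hgood (hqne t) (pl t) (hpl t) (hIT t)
            hcφ hcσ
          refine ⟨0, Matrix.trace_zero _ _, fun σ hσ => ?_⟩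
          rw [h1 σ hσ]
          show (0 : M2 (ResidueField 𝒪)) = r σ * 0 * r σ⁻¹ - 0
          rw [mul_zero, zero_mul, sub_zero]
        · obtain ⟨i, hi⟩ := (hB' q).mp ((Finset.mem_union.mp hq).resolve_left hqT1)
          obtain rfl : q = ⟨qB i, hqB i⟩ := Subtype.ext hi.symm
          obtain ⟨h1, h2⟩ := (hm i).tangent f hf (hsndO _) (hfB (Sum.inl i) 0)
            (hfB (Sum.inl i) 1) (hfB (Sum.inl i) 2)
          refine coc_eq_cob_D (t := ⟨qB i, hqB i⟩) hfl hp2 hgood (hqBp i) (plB i) (hplB i)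
            (hIB i) (hφB i) h2 ?_
          show sndM ((toMat D.ρ.ρ b₁ (plB i).σ).map f) * _ = 0
          rw [h1, sndM_one, zero_mul])
  -- the diamond operators
  obtain ⟨φ, hφX⟩ := exists_psEval (O := 𝒪) (maximalIdeal D.R)
    (fun i => ((s i).χ₁ (plQ i).σD : D.R) - 1)
    (fun i => ((s i).chi_sub_one_mem _ (hIQ i _ (plQ i).inert)).1)
  -- the exponents
  have he : ∀ i, ∃ e m, ¬ p ∣ m ∧ qn i - 1 = p ^ e * m := fun i =>
    Nat.exists_eq_pow_mul_and_not_dvd (by have := (hqnp i).one_lt; omega) p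
      (Fact.out : p.Prime).ne_one
  choose e m hm' hem using he
  refine ⟨{ qv := qn
            prime := hqnp
            inj := fun i j h => hinj (Subtype.ext h)
            not_mem_S := fun i => (hqS i).1
            not_mem_A := hqnA
            ne_qT := fun i t h =>
              (hqA' i).2.1 (Finset.mem_union_left _ ((hT' _).mpr ⟨t, h.symm⟩))
            ne_qB := fun i t h =>
              (hqA' i).2.1 (Finset.mem_union_right _ ((hB' _).mpr ⟨t, h.symm⟩))
            ne_p := hqnp'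
            dvd := fun i => (hqS i).2
            e := e
            le_e := fun i => ?_
            e_spec := fun i => ⟨m i, hem i, hm' i⟩
            unram := hqur
            frob := hqF
            D := D
            b₁ := b₁
            hb₁ := hb₁
            plQ := plQ
            plQ_eq := hplQ
            s := s
            s_ne := hsne
            β := β
            β_surj := hβs
            hX0 := fun t => by
              rw [hβ]
              show 2 * ((↑v⁻¹ : D.R) * _) = _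
              rw [← mul_assoc, hvi, one_mul]
            hX1 := fun t => by rw [hβ]; rfl
            hX2 := fun t => by rw [hβ]; rfl
            hX3 := fun t => by
              rw [hβ]
              show 2 * ((↑v⁻¹ : D.R) * _) = _
              rw [← mul_assoc, hvi, one_mul]
            hX4 := fun t => by rw [hβ]; rfl
            hX5 := fun t => by rw [hβ]; rfl
            det_Sg := fun t => by
              rw [← Matrix.det_fin_two]
              exact (hrel t).2.1
            det_Ph := fun t => by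
              rw [← Matrix.det_fin_two]
              exact (hrel t).2.2
            tame := fun t => (hrel t).1
            tr_Sg := htrSg
            tr_Ph := htrPh
            mB := mB
            β_mB := fun x j => by rw [hβ]; rfl
            isBMarks := hm
            isPMark := hmp2
            mB_mem := hmB
            φ := φ
            φ_X := hφX }⟩
  have h1 : p ^ n ∣ p ^ e i * m i := by
    rw [← hem i]
    exact dvd_trans (pow_dvd_pow p (Nat.le_succ n)) (hqS i).2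
  by_contra hlt
  push Not at hlt
  have h2 : p ^ (e i + 1) ∣ p ^ e i * m i := dvd_trans (pow_dvd_pow p hlt) h1
  rw [pow_succ] at h2
  exact hm' i (Nat.dvd_of_mul_dvd_mul_left (pow_pos (Fact.out : p.Prime).pos _) h2)

namespace GalLevelB

variable {ρbar : ResidualGaloisRep (ResidueField 𝒪)}
  {b : Module.Basis (Fin 2) (ResidueField 𝒪) ρbar.V} {pd : PData p ρbar b} {A : Finset ℕ}
  {τ ι : Type} [Fintype τ] [Fintype ι] {qT : τ → ℕ} {pl : ∀ t, PlaceData p (qT t)} {u : τ → 𝒪}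
  {qB : ι → ℕ} {plB : ∀ i, PlaceData p (qB i)} {uB : ι → 𝒪} {k n : ℕ} {S : Finset ℕ}
  (L : GalLevelB p ρbar b pd A qT pl u qB plB uB k n S)

/-- the universal representation in matrix form -/
def r : GQ →* M2 L.D.R := toMat L.D.ρ.ρ L.b₁

/-- the diamond parameter `χ₁(σ_i) - 1` -/
def c (i : Fin (numB τ ι pd.ε k)) : L.D.R := ((L.s i).χ₁ (L.plQ i).σD : L.D.R) - 1

lemma one_add_c (i : Fin (numB τ ι pd.ε k)) :
    1 + L.c i = ((L.s i).χ₁ (L.plQ i).σD : L.D.R) := by
  rw [c]; ring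

lemma φ_X' (i : Fin (numB τ ι pd.ε k)) : L.φ (MvPowerSeries.X i) = L.c i := L.φ_X i

lemma detCyc : L.D.ρ.DetIsCyclotomic p := L.D.isOfType.1.1

lemma p_mem : (p : L.D.R) ∈ maximalIdeal L.D.R := L.detCyc.1

lemma p_dvd (i : Fin (numB τ ι pd.ε k)) : p ∣ L.qv i - 1 :=
  dvd_trans (dvd_pow_self p (Nat.succ_ne_zero n)) (L.dvd i)

lemma mcont : MCont L.D.R L.r := mcont_toMat _ _

/-- the inertia groups at the Taylor-Wiles primes are residually trivial -/
lemma inertia_cong (i : Fin (numB τ ι pd.ε k)) {P : ValuationSubring (AlgebraicClosure ℚ)}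
    (hP : P.LiesOverPrime (L.qv i)) :
    ∀ σ ∈ P.inertiaSubgroupIn ℚ, Cong (maximalIdeal L.D.R) (L.r σ) := fun σ hσ =>
  cong_of_residual L.D b L.b₁ L.hb₁ (by
    have h1 := L.unram i P hP σ hσ
    exact (toMat_eq_one_iff (GaloisRepAdic.ofResidualGaloisRep ρbar) b σ).mp h1)

lemma c_mem (i : Fin (numB τ ι pd.ε k)) : L.c i ∈ maximalIdeal L.D.R :=
  ((L.s i).chi_sub_one_mem _ (L.inertia_cong i (L.plQ i).lies _ (L.plQ i).inert)).1

lemma φ_mem (i : Fin (numB τ ι pd.ε k)) :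
    L.φ (MvPowerSeries.X i) ∈ maximalIdeal L.D.R := by
  rw [φ_X']
  exact L.c_mem i

/-- the diamond parameters have the right order -/
lemma one_add_c_pow (i : Fin (numB τ ι pd.ε k)) : (1 + L.c i) ^ p ^ L.e i = 1 := by
  obtain ⟨m, hm1, hm2⟩ := L.e_spec i
  have h := ((L.s i).chi_pow (L.prime i) (L.plQ i).lies (L.p_dvd i) L.p_mem L.mcont
    (L.inertia_cong i (L.plQ i).lies) (L.plQ i).frob (τ := (L.plQ i).σD) (L.plQ i).inert
    hm1 hm2).1
  rw [one_add_c, ← Units.val_pow_eq_pow_val, h, Units.val_one]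

lemma det_inertia_TW (i : Fin (numB τ ι pd.ε k)) {P : ValuationSubring (AlgebraicClosure ℚ)}
    (hP : P.LiesOverPrime (L.qv i)) {σ : GQ} (hσ : σ ∈ P.inertiaSubgroupIn ℚ) :
    (L.r σ).det = 1 :=
  det_inertia hausdorff_of_complete L.detCyc L.b₁ (L.prime i) hP (Ne.symm (L.ne_p i)) hσ

/-- **Specialisations of the universal representation**: the specialisation at `f` is unramified
at the Taylor-Wiles prime `qv i` if and only if `f (c i) = 0`. -/
theorem unram_iff {B : Type} [CommRing B] (f : L.D.R →+* B) (i : Fin (numB τ ι pd.ε k)) :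
    (∀ P : ValuationSubring (AlgebraicClosure ℚ), P.LiesOverPrime (L.qv i) →
      ∀ σ ∈ P.inertiaSubgroupIn ℚ, mapMat f L.r σ = 1) ↔ f (L.c i) = 0 := by
  have h := (L.s i).map_inertia_iff (L.prime i) (L.plQ i).lies (L.p_dvd i) L.p_mem L.mcont
    (L.inertia_cong i (L.plQ i).lies) (L.plQ i).frob (σ₀ := (L.plQ i).σD) (L.plQ i).inert
    (L.plQ i).tame (L.det_inertia_TW i (L.plQ i).lies (L.plQ i).inert) f
  have h2 : f (L.c i) = 0 ↔ f ((L.s i).χ₁ (L.plQ i).σD) = 1 := by
    rw [c, map_sub, map_one, sub_eq_zero]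
  rw [h2, ← h]
  exact ⟨fun h3 => h3 _ (L.plQ i).lies, fun h3 => inertia_trivial_all (L.prime i)
    (L.plQ i).lies h3⟩

/-- the same for one place -/
theorem unram_iff' {B : Type} [CommRing B] (f : L.D.R →+* B) (i : Fin (numB τ ι pd.ε k))
    {P : ValuationSubring (AlgebraicClosure ℚ)} (hP : P.LiesOverPrime (L.qv i)) :
    (∀ σ ∈ P.inertiaSubgroupIn ℚ, mapMat f L.r σ = 1) ↔ f (L.c i) = 0 := by
  rw [← L.unram_iff]
  exact ⟨fun h => inertia_trivial_all (L.prime i) hP h, fun h => h P hP⟩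

/-- **Unipotent specialisations are unramified at Taylor-Wiles primes** -/
theorem c_eq_zero_of_unipotent {B : Type} [CommRing B] [IsReduced B] (f : L.D.R →+* B)
    (i : Fin (numB τ ι pd.ε k))
    (h : (mapMat f L.r (L.plQ i).σ).charpoly = (X - 1) ^ 2) : f (L.c i) = 0 := by
  have h1 := ((L.s i).map f).chi_eq_one_of_unipotent (g := (L.plQ i).σD) h
  rw [c, map_sub, map_one, sub_eq_zero]
  exact congrArg Units.val h1

/-- the same for the universal representation pushed forward along a local homomorphism -/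
theorem isUnramifiedAt_iff {B : Type} [CommRing B] [IsLocalRing B] (f : L.D.R →+* B)
    (hf : IsLocalHom f) (i : Fin (numB τ ι pd.ε k)) :
    (L.D.ρ.baseChangeAlong f hf).IsUnramifiedAt (L.qv i) ↔ f (L.c i) = 0 := by
  rw [← L.unram_iff f i]
  refine forall₂_congr fun P _ => forall₂_congr fun σ _ => ?_
  rw [toMat_eq_one_iff _ (bcBasis f hf L.D.ρ L.b₁), toMat_bcBasis]
  rfl

theorem c_eq_zero_of_isUnipotent {B : Type} [CommRing B] [IsLocalRing B] [IsReduced B]
    (f : L.D.R →+* B) (hf : IsLocalHom f) (i : Fin (numB τ ι pd.ε k))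
    (h : (L.D.ρ.baseChangeAlong f hf).IsUnipotentOnInertiaAt (L.qv i)) : f (L.c i) = 0 := by
  refine L.c_eq_zero_of_unipotent f i ?_
  have h1 := h _ (L.plQ i).lies _ (L.plQ i).inert
  rw [toMat_charpoly _ (bcBasis f hf L.D.ρ L.b₁), toMat_bcBasis] at h1
  exact h1

end GalLevelB

end Fermat.Agent.H53
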