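import Fermat.Agent.H75PLocal
import Fermat.Agent.H64FK2
import Fermat.Agent.H53Flat2

/-!
# Flat representations at `p`: the extension class at `σ₀` vanishes
-/

set_option autoImplicit false
set_option linter.unusedSectionVars false

open scoped Pointwise
open IsLocalRing Fermat.Agent.H64
open Fermat.Agent.H53 (M2 MCont ofMatrix toMat mapMat OrdB FlatM)

noncomputable section

namespace Fermat.Agent.H75P

variable {p : ℕ} [hp : Fact p.Prime]

/-- **The unit lemma** (helper64's K2), for characters of arbitrary order. -/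
theorem exists_unit' {W : Type*} [AddCommGroup W] {act : FGQ → W → W} {n : ℕ}
    {e : Fin n → W → FQb} {a : Fin n → Fin n → Fin n → ℚ} (h : FData p act n e a)
    (G' : Subgroup FGQ) (W1 : AddSubgroup W) (x : W)
    (hx : ∀ σ ∈ G', act σ x - x ∈ W1) (hW1 : ∀ σ ∈ G', ∀ w ∈ W1, act σ w ∈ W1)
    (ψ : AddChar W FQb) (hψ1 : ∀ w, nm p (ψ w) = 1) (hψ : ∀ σ ∈ G', ∀ w ∈ W1, ψ (act σ w) = σ (ψ w)) :
    ∃ b : Fin n → FQb, (∀ i, ∀ σ ∈ G', σ (b i) = b i) ∧ (∀ i, nm p (b i) ≤ 1) ∧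
      nm p (∑ i, b i * e i x) = 1 ∧
      ∀ σ ∈ G', σ (∑ i, b i * e i x) = ψ (act σ x - x) * ∑ i, b i * e i x := by
  classical
  obtain ⟨c, hc, hc1⟩ := h.exists_coeff_addChar ψ
  let X : Type _ := {y : W // y - x ∈ W1}
  let x₀ : X := ⟨x, by rw [sub_self]; exact W1.zero_mem⟩
  let f : Fin n → X → FQb := fun i y => e i y.1
  have hactsub : ∀ σ y, act σ (y - x) = act σ y - act σ x := by
    intro σ y
    rw [eq_sub_iff_add_eq, ← h.act_add, sub_add_cancel]
  have hXstab : ∀ σ ∈ G', ∀ y : X, act σ y.1 - x ∈ W1 := by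
    intro σ hσ y
    have h1 : act σ y.1 - x = act σ (y.1 - x) + (act σ x - x) := by rw [hactsub]; abel
    rw [h1]
    exact W1.add_mem (hW1 σ hσ _ y.2) (hx σ hσ)
  have hactact : ∀ σ τ y, act σ (act τ y) = act (σ * τ) y := by
    intro σ τ y
    apply h.ext
    intro i
    rw [h.equiv, h.equiv, h.equiv]
    rfl
  have hactone : ∀ y, act 1 y = y := by
    intro y
    apply h.ext
    intro i
    rw [h.equiv]
    rfl
  have hsurj : ∀ σ ∈ G', ∀ y : X, ∃ y' : X, act σ y'.1 = y.1 := by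
    intro σ hσ y
    refine ⟨⟨act σ⁻¹ y.1, hXstab σ⁻¹ (G'.inv_mem hσ) y⟩, ?_⟩
    show act σ (act σ⁻¹ y.1) = y.1
    rw [hactact, mul_inv_cancel, hactone]
  have heq : ∀ σ ∈ G', ∀ y : X, ∃ y' : X, ∀ i, f i y = σ (f i y') := by
    intro σ hσ y
    obtain ⟨y', hy'⟩ := hsurj σ hσ y
    refine ⟨y', fun i => ?_⟩
    show e i y.1 = σ (e i y'.1)
    rw [← hy', h.equiv]
  obtain ⟨r, b, hspan, hindep⟩ := exists_lattice_basis (p := p) G' f heq
  -- coordinates of the functions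
  have hfb : ∀ i, ∃ m : Fin r → OG p G', f i = ∑ j, m j • b j := by
    intro i
    have h1 : f i ∈ Submodule.span (OG p G') (Set.range b) := by
      rw [hspan]; exact Submodule.subset_span ⟨i, rfl⟩
    obtain ⟨m, hm⟩ := (Submodule.mem_span_range_iff_exists_fun (OG p G')).mp h1
    exact ⟨m, hm.symm⟩
  have hbf : ∀ j, ∃ m : Fin n → OG p G', b j = ∑ i, m i • f i := by
    intro j
    have h1 : b j ∈ Submodule.span (OG p G') (Set.range f) := by
      rw [← hspan]; exact Submodule.subset_span ⟨j, rfl⟩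
    obtain ⟨m, hm⟩ := (Submodule.mem_span_range_iff_exists_fun (OG p G')).mp h1
    exact ⟨m, hm.symm⟩
  choose mf hmf using hfb
  choose mb hmb using hbf
  have hmf' : ∀ i (y : X), e i y.1 = ∑ j, (mf i j : FQb) * b j y := by
    intro i y
    have := congrFun (hmf i) y
    rw [Finset.sum_apply] at this
    exact this
  have hmb' : ∀ j (y : X), b j y = ∑ i, (mb j i : FQb) * e i y.1 := by
    intro i y
    have := congrFun (hmb i) y
    rw [Finset.sum_apply] at this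
    exact this
  -- equivariance of the basis
  have hbeq : ∀ σ ∈ G', ∀ (y y' : X), act σ y'.1 = y.1 → ∀ j, b j y = σ (b j y') := by
    intro σ hσ y y' hy j
    rw [hmb', hmb', map_sum]
    refine Finset.sum_congr rfl fun i _ => ?_
    rw [map_mul, (mb j i).2.1 σ hσ, ← hy, h.equiv]
  -- coordinates of `ψ`
  let l : Fin r → FQb := fun j => ∑ i, c i * (mf i j : FQb)
  have hl : ∀ y : X, ψ y.1 = ∑ j, l j * b j y := by
    intro y
    rw [hc]
    simp only [hmf', l, Finset.mul_sum, Finset.sum_mul]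
    rw [Finset.sum_comm]
    refine Finset.sum_congr rfl fun i _ => Finset.sum_congr rfl fun j _ => ?_
    ring
  have hl1 : ∀ j, nm p (l j) ≤ 1 := fun j =>
    nm_sum_le _ _ zero_le_one fun i _ => nm_mul_le_one (hc1 i) (mf i j).2.2
  have hψ0 : ∀ y, ψ y ≠ 0 := by
    intro y h0
    have := hψ1 y
    rw [h0, nm_zero] at this
    exact zero_ne_one this
  -- transformation of the coordinates
  have hlσ : ∀ σ ∈ G', ∀ j, σ (l j) = σ (ψ x) / ψ (act σ x) * l j := by
    intro σ hσ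
    have h1 : (fun j => l j - ψ (act σ x) / σ (ψ x) * σ (l j)) = 0 := by
      apply hindep
      intro y
      obtain ⟨y', hy'⟩ := hsurj σ hσ y
      have h2 : ψ y.1 = ψ (act σ x) / σ (ψ x) * σ (ψ y'.1) := by
        have e1 : y'.1 = x + (y'.1 - x) := by abel
        have e2 : y.1 = act σ x + act σ (y'.1 - x) := by rw [hactsub, hy']; abel
        rw [e2, ψ.map_add_eq_mul, hψ σ hσ _ y'.2]
        conv_rhs => rw [e1, ψ.map_add_eq_mul, map_mul]
        field_simp [(map_ne_zero σ).mpr (hψ0 x)]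
      rw [hl y, hl y', map_sum, Finset.mul_sum] at h2
      simp only [sub_mul, Finset.sum_sub_distrib]
      rw [h2, sub_eq_zero]
      refine Finset.sum_congr rfl fun j _ => ?_
      rw [map_mul, ← hbeq σ hσ y y' hy' j]
      ring
    intro j
    have h2 := congrFun h1 j
    simp only [Pi.zero_apply, sub_eq_zero] at h2
    have hne := hψ0 (act σ x)
    have hne' : σ (ψ x) ≠ 0 := (map_ne_zero σ).mpr (hψ0 x)
    conv_rhs => rw [h2]
    field_simp
  -- the maximal coordinate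
  have hne : ∃ j, l j ≠ 0 := by
    by_contra hcon
    push Not at hcon
    have h1 := hl x₀
    simp only [hcon, zero_mul, Finset.sum_const_zero] at h1
    exact hψ0 x h1
  obtain ⟨j₁, hj₁⟩ := hne
  obtain ⟨j₀, -, hj₀⟩ := Finset.exists_max_image Finset.univ (fun j => nm p (l j))
    ⟨j₁, Finset.mem_univ j₁⟩
  have hlj : l j₀ ≠ 0 := by
    intro h0
    have h1 := hj₀ j₁ (Finset.mem_univ j₁)
    rw [h0, nm_zero] at h1
    exact hj₁ (nm_eq_zero.mp (le_antisymm h1 (nm_nonneg _)))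
  have hljpos : 0 < nm p (l j₀) := nm_pos.mpr hlj
  -- the normalised coordinates
  have hfix : ∀ j, ∀ σ ∈ G', σ (l j / l j₀) = l j / l j₀ := by
    intro j σ hσ
    have hne := hψ0 (act σ x)
    have hne' : σ (ψ x) ≠ 0 := (map_ne_zero σ).mpr (hψ0 x)
    rw [map_div₀, hlσ σ hσ, hlσ σ hσ, mul_div_mul_left]
    exact div_ne_zero hne' hne
  have hle : ∀ j, nm p (l j / l j₀) ≤ 1 := by
    intro j
    rw [nm_div]
    exact div_le_one_of_le₀ (hj₀ j (Finset.mem_univ j)) (nm_nonneg _)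
  have hsum : ∑ i, (∑ j, l j / l j₀ * (mb j i : FQb)) * e i x = ψ x / l j₀ := by
    have h1 := hl x₀
    rw [show (x₀ : X).1 = x from rfl] at h1
    rw [h1, Finset.sum_div]
    simp only [hmb', Finset.mul_sum, Finset.sum_mul, Finset.sum_div]
    rw [Finset.sum_comm]
    refine Finset.sum_congr rfl fun j _ => Finset.sum_congr rfl fun i _ => ?_
    show _ = l j * ((mb j i : FQb) * e i x) / l j₀
    ring
  refine ⟨fun i => ∑ j, l j / l j₀ * (mb j i : FQb), ?_, ?_, ?_, ?_⟩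
  · intro i σ hσ
    rw [map_sum]
    refine Finset.sum_congr rfl fun j _ => ?_
    rw [map_mul, hfix j σ hσ, (mb j i).2.1 σ hσ]
  · intro i
    exact nm_sum_le _ _ zero_le_one fun j _ => nm_mul_le_one (hle j) (mb j i).2.2
  · apply le_antisymm
    · refine nm_sum_le _ _ zero_le_one fun i _ => nm_mul_le_one ?_ (h.nm_le i x)
      exact nm_sum_le _ _ zero_le_one fun j _ => nm_mul_le_one (hle j) (mb j i).2.2
    · rw [hsum, nm_div, hψ1 x]
      exact (one_le_div hljpos).mpr (hl1 j₀)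
  · intro σ hσ
    rw [hsum, map_div₀, hlσ σ hσ]
    have hne := hψ0 (act σ x)
    have hne' : σ (ψ x) ≠ 0 := (map_ne_zero σ).mpr (hψ0 x)
    have e1 : ψ (act σ x) = ψ (act σ x - x) * ψ x := by
      rw [← ψ.map_add_eq_mul, sub_add_cancel]
    have hne2 := hψ0 (act σ x - x)
    have hne3 := hψ0 x
    rw [e1]
    field_simp


/-- **Flat representations in ordinary form are trivial at `σ₀`.** -/
theorem flatM_sigma {B : Type} [CommRing B] {N : ℕ} (hN : (p : B) ^ N = 0) {r : FGQ →* M2 B}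
    (hflat : FlatM p r) (hdet : DetC p r) (hr : OrdI p r) {σ₀ : FGQ} (h1 : σ₀ ∈ Ip p)
    (h2 : ∀ α ∈ UU p, σ₀ α = α) : r σ₀ 0 1 = 0 := by
  have hBfin : Finite B := hflat.finite
  obtain ⟨hW, H, hH⟩ := hflat
  obtain ⟨n, e, a, hF, -, -⟩ := exists_FData hH
  have hB : ∀ x : B, p ^ N • x = 0 := fun x => by
    rw [nsmul_eq_mul]
    push_cast
    rw [hN, zero_mul]
  have hdet' : ∀ σ : FGQ, ∀ a : ℕ, (∀ μ : FQb, μ ^ p ^ N = 1 → σ μ = μ ^ a) →
      (r σ).det = a := by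
    intro σ a ha
    have h3 := hdet N σ a ha
    rw [Nat.cast_pow, hN, Ideal.span_singleton_eq_bot.mpr rfl, Ideal.mem_bot, sub_eq_zero] at h3
    exact h3
  have hI2 : ∀ σ ∈ Ip p, ∀ v : Fin 2 → B,
      (r σ).mulVec v = ![(r σ).det * v 0 + r σ 0 1 * v 1, v 1] := by
    intro σ hσ v
    have h10 := hr.1 σ (Ip_le_Dp hσ)
    have h11 := hr.2 σ hσ
    have h00 : (r σ).det = r σ 0 0 := by rw [Matrix.det_fin_two, h10, h11]; ring
    ext i
    fin_cases i
    · show (r σ).mulVec v 0 = (r σ).det * v 0 + r σ 0 1 * v 1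
      rw [Matrix.mulVec, dotProduct, Fin.sum_univ_two, h00]
    · show (r σ).mulVec v 1 = v 1
      rw [Matrix.mulVec, dotProduct, Fin.sum_univ_two, h10, h11]
      ring
  by_contra hne
  obtain ⟨χ, hχ⟩ := exists_addChar hne
  apply hχ
  -- the character of `W`
  let ψ : AddChar (Fin 2 → B) FQb :=
    { toFun := fun v => χ (v 0)
      map_zero_eq_one' := χ.map_zero_eq_one
      map_add_eq_mul' := fun v w => χ.map_add_eq_mul (v 0) (w 0) }
  have hψ : ∀ v, ψ v = χ (v 0) := fun _ => rfl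
  have hψN : ∀ v, ψ v ^ p ^ N = 1 := fun v => addChar_pow_eq_one hB χ _
  let x : Fin 2 → B := ![0, 1]
  let W1 : AddSubgroup (Fin 2 → B) :=
    { carrier := {v | v 1 = 0}
      add_mem' := fun {v w} hv hw => by
        show v 1 + w 1 = 0
        rw [show v 1 = 0 from hv, show w 1 = 0 from hw, add_zero]
      zero_mem' := rfl
      neg_mem' := fun {v} hv => by
        show -(v 1) = 0
        rw [show v 1 = 0 from hv, neg_zero] }
  have hW1 : ∀ v : Fin 2 → B, v ∈ W1 ↔ v 1 = 0 := fun _ => Iff.rfl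
  have hact : ∀ σ ∈ Ip p, (r σ).mulVec x - x = ![r σ 0 1, 0] := by
    intro σ hσ
    rw [hI2 σ hσ]
    ext i
    fin_cases i
    · show (r σ).det * 0 + r σ 0 1 * 1 - 0 = r σ 0 1
      ring
    · show (1 : B) - 1 = 0
      ring
  obtain ⟨s, hs, -, hs1, hsσ⟩ := exists_unit' (p := p) hF (Ip p) W1 x
    (fun σ hσ => by
      rw [hW1]
      show ((r σ).mulVec x - x) 1 = 0
      rw [hact σ hσ]; rfl)
    (fun σ hσ w hw => by
      rw [hW1] at hw ⊢
      show (r σ).mulVec w 1 = 0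
      rw [hI2 σ hσ]
      exact hw)
    ψ (fun w => by
      have h3 := congrArg (nm p) (hψN w)
      rw [nm_pow, nm_one] at h3
      exact (pow_eq_one_iff_of_nonneg (nm_nonneg _) (pow_ne_zero _ hp.out.ne_zero)).mp h3)
    (fun σ hσ w hw => by
      rw [hW1] at hw
      show χ ((r σ).mulVec w 0) = σ (χ (w 0))
      rw [hI2 σ hσ]
      show χ ((r σ).det * w 0 + r σ 0 1 * w 1) = σ (χ (w 0))
      obtain ⟨b, hb⟩ := exists_exponent (p := p) σ N
      rw [hw, mul_zero, add_zero, hdet' σ b hb, hb _ (addChar_pow_eq_one hB χ _),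
        ← AddChar.map_nsmul_eq_pow, nsmul_eq_mul])
  set α := ∑ i, s i * e i x with hα
  have hα0 : α ≠ 0 := by
    intro h0
    rw [h0, nm_zero] at hs1
    exact zero_ne_one hs1
  have hαU : α ∈ UU p := by
    refine ⟨hs1, N, fun σ hσ => ?_⟩
    rw [map_pow, hsσ σ hσ, mul_pow, hψN, one_mul]
  have h3 := hsσ σ₀ h1
  rw [h2 α hαU] at h3
  have h4 : ψ ((r σ₀).mulVec x - x) = 1 := by
    have h5 : (1 : FQb) * α = ψ ((r σ₀).mulVec x - x) * α := by rw [one_mul]; exact h3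
    exact (mul_right_cancel₀ hα0 h5).symm
  rw [hact σ₀ h1] at h4
  exact h4

theorem flatM_sigma_eq_one {B : Type} [CommRing B] {N : ℕ} (hN : (p : B) ^ N = 0)
    {r : FGQ →* M2 B} (hflat : FlatM p r) (hdet : DetC p r) {g : (M2 B)ˣ}
    (hr : OrdI p (cj g r)) {σ₀ : FGQ} (h1 : σ₀ ∈ Ip p)
    (h2 : ∀ α ∈ UU p, σ₀ α = α) : r σ₀ = 1 := by
  have hflat' : FlatM p (cj g r) := by
    refine hflat.conj (u := (↑g⁻¹ : M2 B)) (Units.isUnit _) fun σ => ?_
    rw [cj_apply, mul_assoc, Units.mul_inv, mul_one]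
  have h3 := flatM_sigma hN hflat' (hdet.cj g) hr h1 h2
  have h10 := hr.1 σ₀ (Ip_le_Dp h1)
  have h11 := hr.2 σ₀ h1
  have hd : (cj g r σ₀).det = 1 := by
    have h4 := (hdet.cj g) N σ₀ 1 (fun μ hμ => by
      rw [h2 μ (rootOfUnity_mem_UU hμ), pow_one])
    rw [Nat.cast_pow, hN, Ideal.span_singleton_eq_bot.mpr rfl, Ideal.mem_bot, sub_eq_zero,
      Nat.cast_one] at h4
    exact h4
  have h00 : cj g r σ₀ 0 0 = 1 := by
    rw [Matrix.det_fin_two, h10, h11] at hd
    linear_combination hd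
  have h4 : cj g r σ₀ = 1 := by
    ext i j
    fin_cases i <;> fin_cases j
    · exact h00
    · exact h3
    · exact h10
    · exact h11
  have h5 := mul_cj g r σ₀
  rw [h4, mul_one] at h5
  have h6 : r σ₀ = r σ₀ * ((g : M2 B) * (↑g⁻¹ : M2 B)) := by rw [Units.mul_inv, mul_one]
  rw [h6, ← mul_assoc, ← h5, Units.mul_inv]

section Adic

variable {A : Type} [CommRing A] [IsLocalRing A]

/-- **(S3)** A flat representation over a complete local ring which is ordinary is trivial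
at `σ₀`. -/
theorem isFlatAt_sigma (hfin : ∀ n, Finite (A ⧸ maximalIdeal A ^ n))
    (hsep : IsHausdorff (maximalIdeal A) A) {ρ : GaloisRepAdic A} (hflat : ρ.IsFlatAt p)
    (hdet : ρ.DetIsCyclotomic p) (b₁ : Module.Basis (Fin 2) A ρ.V) {g : (M2 A)ˣ}
    (hr : OrdI p (cj g (toMat ρ.ρ b₁))) {σ₀ : FGQ} (h1 : σ₀ ∈ Ip p)
    (h2 : ∀ α ∈ UU p, σ₀ α = α) : toMat ρ.ρ b₁ σ₀ = 1 := by
  have hflat' := ((H53.isFlatAt_iff_flatM p ρ b₁).mp hflat).2
  ext i j
  rw [← sub_eq_zero]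
  apply hsep.haus
  intro n
  rw [SModEq.zero, smul_eq_mul, Ideal.mul_top]
  set q := Ideal.Quotient.mk (maximalIdeal A ^ n) with hq
  have hfn := hfin n
  have hpn : ((p : A ⧸ maximalIdeal A ^ n)) ^ n = 0 := by
    rw [← map_natCast q, ← map_pow, hq, Ideal.Quotient.eq_zero_iff_mem]
    exact Ideal.pow_mem_pow hdet.1 n
  have h3 := flatM_sigma_eq_one (p := p) hpn (hflat' (maximalIdeal A ^ n) hfn)
    ((detC_toMat hdet b₁).map q)
    (g := Units.map (q.mapMatrix : M2 A →+* M2 _).toMonoidHom g)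
    (by rw [← cj_map]; exact hr.map q) h1 h2
  have h4 := congrFun (congrFun h3 i) j
  have h5 : q (toMat ρ.ρ b₁ σ₀ i j) = (1 : M2 (A ⧸ maximalIdeal A ^ n)) i j := h4
  rw [← Ideal.Quotient.eq_zero_iff_mem, ← hq, map_sub, h5, Matrix.one_apply, Matrix.one_apply]
  split_ifs <;> simp

theorem OrdMark.y_eq_zero_of_sigma {r : FGQ →* M2 A} {u t y : A} {φ σ₀ : FGQ} (h : r σ₀ = 1)
    (hm : OrdMark p r u φ σ₀ t y) : y = 0 := by
  obtain ⟨g, -, -, rfl⟩ := hm
  rw [cj_apply, h, mul_one, Units.inv_mul, Matrix.one_apply_ne (by decide)]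

/-- **(S3)** flat points: `y = 0`. -/
theorem OrdMark.y_eq_zero_of_flat (hfin : ∀ n, Finite (A ⧸ maximalIdeal A ^ n))
    (hsep : IsHausdorff (maximalIdeal A) A) {ρ : GaloisRepAdic A} (hflat : ρ.IsFlatAt p)
    (hdet : ρ.DetIsCyclotomic p) (b₁ : Module.Basis (Fin 2) A ρ.V) {u t y : A} {φ σ₀ : FGQ}
    (h1 : σ₀ ∈ Ip p) (h2 : ∀ α ∈ UU p, σ₀ α = α)
    (hm : OrdMark p (toMat ρ.ρ b₁) u φ σ₀ t y) : y = 0 := by
  obtain ⟨g, hg, ht, hy⟩ := hm
  exact OrdMark.y_eq_zero_of_sigma (isFlatAt_sigma hfin hsep hflat hdet b₁ hg h1 h2)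
    ⟨g, hg, ht, hy⟩

end Adic

/-- residually: flat and ordinary representations are trivial at `σ₀` -/
theorem residual_sigma {k : Type} [Field k] [Finite k] {ρbar : ResidualGaloisRep k}
    (hflat : (GaloisRepAdic.ofResidualGaloisRep ρbar).IsFlatAt p)
    (hdet : (GaloisRepAdic.ofResidualGaloisRep ρbar).DetIsCyclotomic p)
    (b : Module.Basis (Fin 2) k ρbar.V) {g : (M2 k)ˣ} (hr : OrdI p (cj g (toMat ρbar.ρ b)))
    {σ₀ : FGQ} (h1 : σ₀ ∈ Ip p) (h2 : ∀ α ∈ UU p, σ₀ α = α) : toMat ρbar.ρ b σ₀ = 1 := by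
  have h3 := (H53.isFlatAt_iff_flatM_of_finite p (GaloisRepAdic.ofResidualGaloisRep ρbar) b).mp
    hflat
  have hp0 : (p : k) ^ 1 = 0 := by
    rw [pow_one]
    have h4 := (mem_maximalIdeal _).mp hdet.1
    rw [mem_nonunits_iff, isUnit_iff_ne_zero, not_not] at h4
    exact h4
  exact flatM_sigma_eq_one hp0 h3 (detC_toMat hdet b) hr h1 h2

end Fermat.Agent.H75P
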