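/-
H30Type3: ordinary and strictly ordinary types for Hecke data of level exactly divisible by `p`
(S33); general types.
-/
import Fermat.Agent.H30Type2
import Fermat.Agent.H75PFlat
import Fermat.Agent.H53TWB2
import Fermat.Agent.H53CondOrd
import Fermat.Agent.H87Ord

set_option autoImplicit false
set_option linter.style.haveILetI false
set_option linter.unusedSectionVars false

noncomputable section

namespace Fermat.Agent.H30

open IsLocalRing CuspForm GaloisRep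
open Fermat.Agent.H53 (GQ M2 MCont toMat mapMat GType levelSetB uniSet)
open scoped Pointwise

/-- The statement of S33 (verbatim). -/
def StatementS33 : Prop :=
  ∀ {p : ℕ} {N : ℕ} [NeZero N] {S : Finset ℕ}
  {𝒪 : Type} [CommRing 𝒪] [IsDomain 𝒪] [IsDiscreteValuationRing 𝒪]
  [IsAdicComplete (IsLocalRing.maximalIdeal 𝒪) 𝒪]
  {θ : CuspForm.heckeAlgebra N 2 (↑S : Set ℕ) →+* IsLocalRing.ResidueField 𝒪}
  {T : Type} [CommRing T] [IsLocalRing T] [IsNoetherianRing T]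
  [IsAdicComplete (IsLocalRing.maximalIdeal T) T] [Algebra 𝒪 T] [IsLocalHom (algebraMap 𝒪 T)]
  [Module.Finite 𝒪 T] [Module.Free 𝒪 T]
    [Finite (IsLocalRing.ResidueField 𝒪)] [CharZero 𝒪]
    (_hp : p.Prime) (_hp2 : p ≠ 2) (_hp𝒪 : (p : 𝒪) ∈ IsLocalRing.maximalIdeal 𝒪)
    (_hN : p ∣ N ∧ ¬ p ^ 2 ∣ N)
    (_hNS : ∀ q : ℕ, q.Prime → q ∣ N → q ∈ S)
    (H : CuspForm.HeckeGaloisRepDatum N (↑S : Set ℕ) 𝒪 θ T)
    (_hres : (GaloisRepAdic.ofResidualGaloisRep H.ρ.residual).IsOrdinaryAt p),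
    H.ρ.IsOrdinaryAt p

section Local

variable {A : Type} [CommRing A] [IsLocalRing A]

/-- Strict ordinarity can be checked at one place above `p`. -/
theorem isStrictOrdinaryAt_of_place {p : ℕ} (hp : p.Prime) (ρ : GaloisRepAdic A)
    (hpA : (p : A) ∈ maximalIdeal A) {P₀ : ValuationSubring (AlgebraicClosure ℚ)}
    (hP₀ : P₀.LiesOverPrime p) (b : Module.Basis (Fin 2) A ρ.V)
    (h : ∀ σ ∈ P₀.decompositionSubgroup ℚ, toMat ρ.ρ b σ 1 0 = 0 ∧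
      (σ ∈ P₀.inertiaSubgroupIn ℚ → toMat ρ.ρ b σ 1 1 = 1) ∧
      ∀ (n a : ℕ), (∀ μ : AlgebraicClosure ℚ, μ ^ p ^ n = 1 → σ μ = μ ^ a) →
        toMat ρ.ρ b σ 0 0 - (a : A) * toMat ρ.ρ b σ 1 1 ∈ Ideal.span {((p ^ n : ℕ) : A)}) :
    ρ.IsStrictOrdinaryAt p := by
  refine H87.Ord.isStrictOrdinaryAt_of_basis ρ hpA fun P hP => ?_
  obtain ⟨τ, hτ⟩ := H53.exists_smul_eq_place hp hP₀ hP
  subst hτ
  let e : ρ.V ≃ₗ[A] ρ.V := LinearEquiv.ofLinearMap (ρ.ρ τ) (ρ.ρ τ⁻¹)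
    (by rw [← Module.End.mul_eq_comp, ← map_mul, mul_inv_cancel, map_one]; rfl)
    (by rw [← Module.End.mul_eq_comp, ← map_mul, inv_mul_cancel, map_one]; rfl)
  refine ⟨b.map e, fun σ hσ => ?_⟩
  have hconj : τ⁻¹ * σ * τ ∈ P₀.decompositionSubgroup ℚ := by
    rw [ValuationSubring.decompositionSubgroup, MulAction.mem_stabilizer_iff] at hσ ⊢
    rw [mul_smul, mul_smul, hσ, inv_smul_smul]
  obtain ⟨h0, h1, h2⟩ := h _ hconj
  have key : ∀ v : ρ.V, ρ.ρ σ (ρ.ρ τ v) = ρ.ρ τ (ρ.ρ (τ⁻¹ * σ * τ) v) := by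
    intro v
    rw [← Module.End.mul_apply, ← Module.End.mul_apply, ← map_mul, ← map_mul]
    congr 2
    group
  have hcol : ∀ j, ρ.ρ (τ⁻¹ * σ * τ) (b j) =
      toMat ρ.ρ b (τ⁻¹ * σ * τ) 0 j • b 0 + toMat ρ.ρ b (τ⁻¹ * σ * τ) 1 j • b 1 := by
    intro j
    have h3 := b.sum_repr (ρ.ρ (τ⁻¹ * σ * τ) (b j))
    rw [Fin.sum_univ_two] at h3
    rw [← h3, H53.toMat_apply, LinearMap.toMatrix_apply, LinearMap.toMatrix_apply]
  refine ⟨toMat ρ.ρ b (τ⁻¹ * σ * τ) 0 0, toMat ρ.ρ b (τ⁻¹ * σ * τ) 0 1,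
    toMat ρ.ρ b (τ⁻¹ * σ * τ) 1 1, ?_, ?_, ?_, ?_⟩
  · rw [Module.Basis.map_apply]
    show ρ.ρ σ (ρ.ρ τ (b 0)) = _ • ρ.ρ τ (b 0)
    rw [key, hcol, h0, zero_smul, add_zero, map_smul]
  · rw [Module.Basis.map_apply, Module.Basis.map_apply]
    show ρ.ρ σ (ρ.ρ τ (b 1)) = _ • ρ.ρ τ (b 0) + _ • ρ.ρ τ (b 1)
    rw [key, hcol, map_add, map_smul, map_smul]
  · intro hI
    refine h1 ?_
    have h6 := H63.conj_mem_inertiaSubgroupIn (τ⁻¹) σ hI
    rwa [inv_smul_smul, inv_inv] at h6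
  · intro n a ha
    refine h2 n a fun μ hμ => ?_
    have h4 : (τ μ) ^ p ^ n = 1 := by rw [← map_pow, hμ, map_one]
    have h5 := ha _ h4
    rw [AlgEquiv.mul_apply, AlgEquiv.mul_apply, h5, map_pow]
    congr 1
    exact τ.symm_apply_apply μ

variable {p : ℕ} [Fact p.Prime]

open Fermat.Agent.H75P (MarkElts)

/-- ordinary representations: an adapted basis at the distinguished place -/
theorem exists_basis_ordI {ρ : GaloisRepAdic A} (h : ρ.IsOrdinaryAt p) :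
    ∃ b' : Module.Basis (Fin 2) A ρ.V, H75P.OrdI p (toMat ρ.ρ b') := by
  obtain ⟨L, ⟨b', rfl⟩, hD, hI⟩ := h (padicPlace p) (H54.liesOverPrime_padicPlace p)
  refine ⟨b', fun σ hσ => ?_, fun σ hσ => ?_⟩
  · have h1 := hD σ hσ (b' 0) (Submodule.mem_span_singleton_self _)
    rw [H53.mem_span_basis_zero_iff, H53.repr_apply_eq] at h1
    simpa using h1
  · have h2 := hI σ hσ (b' 1)
    rw [H53.mem_span_basis_zero_iff, map_sub, Finsupp.sub_apply, H53.repr_apply_eq] at h2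
    simpa [sub_eq_zero] using h2

/-- **Non-flat ordinary representations are strictly ordinary** (over any noetherian local ring). -/
theorem isStrictOrdinaryAt_of_sigma [IsNoetherianRing A] [Finite (ResidueField A)]
    [IsHausdorff (maximalIdeal A) A] {ρ : GaloisRepAdic A} (hdet : ρ.DetIsCyclotomic p)
    (hord : ρ.IsOrdinaryAt p) (b : Module.Basis (Fin 2) A ρ.V) {φ σ₀ : GQ}
    (hm : MarkElts p φ σ₀) (hne : mapMat (residue A) (toMat ρ.ρ b) σ₀ ≠ 1) :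
    ρ.IsStrictOrdinaryAt p := by
  obtain ⟨b', hb'⟩ := exists_basis_ordI hord
  have hdetC := H75P.detC_toMat hdet b'
  have hpA := hdet.1
  have hfin : ∀ n, Finite (A ⧸ maximalIdeal A ^ n) := fun n => by
    haveI : Finite (A ⧸ maximalIdeal A) := inferInstanceAs (Finite (ResidueField A))
    exact Ideal.finite_quotient_pow (IsNoetherian.noetherian _) n
  have h10 := hb'.1 σ₀ (H64.Ip_le_Dp hm.inert)
  have h11 := hb'.2 σ₀ hm.inert
  have hdσ : (toMat ρ.ρ b' σ₀).det - 1 ∈ maximalIdeal A := by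
    have h1 := hdetC 1 σ₀ 1 (fun μ hμ => by rw [hm.fixζ 1 μ hμ, pow_one])
    rw [Nat.cast_one] at h1
    refine (Ideal.span_singleton_le_iff_mem _).mpr ?_ h1
    rw [pow_one]
    exact hpA
  have hy : IsUnit (toMat ρ.ρ b' σ₀ 0 1) := by
    by_contra hcon
    have hy0 : toMat ρ.ρ b' σ₀ 0 1 ∈ maximalIdeal A := (mem_maximalIdeal _).mpr hcon
    have h00 : toMat ρ.ρ b' σ₀ 0 0 - 1 ∈ maximalIdeal A := by
      rw [Matrix.det_fin_two, h10, h11, mul_zero, sub_zero, mul_one] at hdσ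
      exact hdσ
    have h1 : mapMat (residue A) (toMat ρ.ρ b') σ₀ = 1 := by
      ext i j
      rw [H53.mapMat_apply]
      fin_cases i <;> fin_cases j
      · show residue A (toMat ρ.ρ b' σ₀ 0 0) = 1
        rw [← sub_eq_zero, ← map_one (residue A), ← map_sub, residue_eq_zero_iff]
        exact h00
      · show residue A (toMat ρ.ρ b' σ₀ 0 1) = 0
        rw [residue_eq_zero_iff]
        exact hy0
      · show residue A (toMat ρ.ρ b' σ₀ 1 0) = 0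
        rw [h10, map_zero]
      · show residue A (toMat ρ.ρ b' σ₀ 1 1) = 1
        rw [h11, map_one]
    obtain ⟨g, hg⟩ := H75P.exists_cj ρ b' b
    apply hne
    rw [hg, H75P.cj_map, H75P.cj_apply, h1, mul_one, Units.inv_mul]
  have hz : ∀ σ ∈ H64.Dp p, toMat ρ.ρ b' σ 1 1 ^ 2 = 1 := by
    intro σ hσ
    have h1 := hb'.rel hfin inferInstance hpA (H53.mcont_toMat ρ b') hdetC hm.inert hm.fix hσ
    rw [← sub_eq_zero]
    exact hy.mul_left_eq_zero.mp h1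
  refine isStrictOrdinaryAt_of_place (Fact.out : p.Prime) ρ hpA
    (H54.liesOverPrime_padicPlace p) b' fun σ hσ => ⟨hb'.1 σ hσ, fun hI => hb'.2 σ hI, ?_⟩
  intro n a ha
  have h1 := hdetC n σ a ha
  rw [Matrix.det_fin_two, hb'.1 σ hσ, mul_zero, sub_zero] at h1
  have h2 : toMat ρ.ρ b' σ 0 0 - (a : A) * toMat ρ.ρ b' σ 1 1 =
      (toMat ρ.ρ b' σ 0 0 * toMat ρ.ρ b' σ 1 1 - (a : A)) * toMat ρ.ρ b' σ 1 1 := by
    have := hz σ hσ
    linear_combination (-toMat ρ.ρ b' σ 0 0) * this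
  rw [h2]
  exact Ideal.mul_mem_right _ _ h1

end Local

section Residual

/-- transport of ordinarity along an equivalence of residual representations and an extension of
the residue field -/
theorem residual_isOrdinaryAt {k k' : Type} [Field k] [Field k'] (f : k →+* k') {p : ℕ}
    {ρ₁ : ResidualGaloisRep k'} {ρbar : ResidualGaloisRep k}
    (h : ρ₁.IsEquiv (ρbar.baseChangeAlong f))
    (hord : (GaloisRepAdic.ofResidualGaloisRep ρbar).IsOrdinaryAt p) :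
    (GaloisRepAdic.ofResidualGaloisRep ρ₁).IsOrdinaryAt p := by
  intro P hP
  rw [H53.ord_iff_exists_ordBp]
  obtain ⟨b, hD, hI⟩ : ∃ b : Module.Basis (Fin 2) k ρbar.V, H53.OrdBp P (toMat ρbar.ρ b) :=
    (H53.ord_iff_exists_ordBp _ P).mp (hord P hP)
  obtain ⟨e⟩ := h
  let b₂ : Module.Basis (Fin 2) k' (ρbar.baseChangeAlong f).V := H53.rbcBasis f ρbar b
  let b₁ : Module.Basis (Fin 2) k' ρ₁.V := b₂.map e.toLinearEquiv.symm
  have key : toMat ρ₁.ρ b₁ = mapMat f (toMat ρbar.ρ b) := by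
    rw [← H53.toMat_rbcBasis]
    ext σ i j
    rw [H53.toMat_apply, H53.toMat_apply, LinearMap.toMatrix_apply, LinearMap.toMatrix_apply]
    have h1 : b₁.repr (ρ₁.ρ σ (b₁ j)) = b₂.repr (e.toLinearEquiv (ρ₁.ρ σ (b₁ j))) := rfl
    have h2 : e.toLinearEquiv (ρ₁.ρ σ (b₁ j)) =
        (ρbar.baseChangeAlong f).ρ σ (e.toLinearEquiv (b₁ j)) := e.map_apply σ (b₁ j)
    have h3 : e.toLinearEquiv (b₁ j) = b₂ j := by
      show e.toLinearEquiv (b₂.map e.toLinearEquiv.symm j) = b₂ j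
      rw [Module.Basis.map_apply, LinearEquiv.apply_symm_apply]
    rw [h1, h2, h3]
  refine ⟨b₁, fun σ hσ => ?_, fun σ hσ => ?_⟩
  · show toMat ρ₁.ρ b₁ σ 1 0 = 0
    rw [key, H53.mapMat_apply]
    have h4 : toMat ρbar.ρ b σ 1 0 = 0 := hD σ hσ
    rw [h4, map_zero]
  · show toMat ρ₁.ρ b₁ σ 1 0 = 0 ∧ toMat ρ₁.ρ b₁ σ 1 1 = 1
    rw [key, H53.mapMat_apply, H53.mapMat_apply]
    have h4 : toMat ρbar.ρ b σ 1 0 = 0 ∧ toMat ρbar.ρ b σ 1 1 = 1 := hI σ hσ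
    rw [h4.1, h4.2, map_zero, map_one]
    exact ⟨rfl, rfl⟩

/-- a residual representation is trivial at `σ` iff its extension of scalars is -/
theorem residual_ne_one {k k' : Type} [Field k] [Field k'] (f : k →+* k')
    {ρ₁ : ResidualGaloisRep k'} {ρbar : ResidualGaloisRep k}
    (h : ρ₁.IsEquiv (ρbar.baseChangeAlong f)) (b : Module.Basis (Fin 2) k ρbar.V)
    (b₁ : Module.Basis (Fin 2) k' ρ₁.V) {σ : GQ} (hne : toMat ρbar.ρ b σ ≠ 1) :
    toMat ρ₁.ρ b₁ σ ≠ 1 := by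
  intro h1
  apply hne
  rw [H53.residual_isEquiv_iff_conj _ _ b₁ (H53.rbcBasis f ρbar b), H53.toMat_rbcBasis] at h
  obtain ⟨u, hu, hσ⟩ := h
  have h2 := hσ σ
  rw [h1, mul_one] at h2
  have h3 : mapMat f (toMat ρbar.ρ b) σ = 1 := by
    refine hu.mul_right_cancel ?_
    rw [one_mul]
    exact h2.symm
  ext i j
  apply f.injective
  have h4 := congrFun (congrFun h3 i) j
  rw [H53.mapMat_apply] at h4
  rw [h4]
  rcases eq_or_ne i j with h | h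
  · rw [h, Matrix.one_apply_eq, Matrix.one_apply_eq, map_one]
  · rw [Matrix.one_apply_ne h, Matrix.one_apply_ne h, map_zero]

end Residual

section Datum

variable {p : ℕ} [Fact p.Prime] {N : ℕ} [NeZero N] {S : Finset ℕ}
  {𝒪 : Type} [CommRing 𝒪] [IsDomain 𝒪] [IsDiscreteValuationRing 𝒪]
  [IsAdicComplete (maximalIdeal 𝒪) 𝒪] [Finite (ResidueField 𝒪)] [CharZero 𝒪]
  {θ : heckeAlgebra N 2 (↑S : Set ℕ) →+* ResidueField 𝒪}
  {T : Type} [CommRing T] [IsLocalRing T] [IsNoetherianRing T]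
  [IsAdicComplete (maximalIdeal T) T] [Algebra 𝒪 T] [IsLocalHom (algebraMap 𝒪 T)]
  [Module.Finite 𝒪 T] [Module.Free 𝒪 T]

/-- unramified implies unipotent inertia -/
theorem isUnipotentOnInertiaAt_of_isUnramifiedAt {A : Type} [CommRing A] [IsLocalRing A]
    {ρ : GaloisRepAdic A} {q : ℕ} (h : ρ.IsUnramifiedAt q) : ρ.IsUnipotentOnInertiaAt q := by
  intro P hP σ hσ
  have h1 : ρ.ρ σ = 1 := h P hP σ hσ
  obtain ⟨b⟩ := H53.exists_basis ρ
  rw [H53.toMat_charpoly _ b, H53.toMat_apply, h1, LinearMap.toMatrix_one, Matrix.charpoly_one]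
  rfl

/-- **S33 for data with given residual representation** -/
theorem ordinary_datum (h33 : StatementS33) (hp2 : p ≠ 2)
    (hp𝒪 : (p : 𝒪) ∈ maximalIdeal 𝒪) (hpN : p ∣ N) (hpN2 : ¬ p ^ 2 ∣ N)
    (hNS : ∀ q : ℕ, q.Prime → q ∣ N → q ∈ S)
    (H : HeckeGaloisRepDatum N (↑S : Set ℕ) 𝒪 θ T)
    {k : Type} [Field k] {ρbar : ResidualGaloisRep k} (g : k →+* ResidueField T)
    (hres : H.ρ.residual.IsEquiv (ρbar.baseChangeAlong g))
    (hord : (GaloisRepAdic.ofResidualGaloisRep ρbar).IsOrdinaryAt p) :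
    H.ρ.IsOrdinaryAt p :=
  h33 Fact.out hp2 hp𝒪 ⟨hpN, hpN2⟩ hNS H (residual_isOrdinaryAt g hres hord)

/-- **strict ordinarity** when the residual representation is "très ramifiée" -/
theorem strictOrdinary_datum (h33 : StatementS33) (hp2 : p ≠ 2)
    (hp𝒪 : (p : 𝒪) ∈ maximalIdeal 𝒪) (hpN : p ∣ N) (hpN2 : ¬ p ^ 2 ∣ N)
    (hNS : ∀ q : ℕ, q.Prime → q ∣ N → q ∈ S)
    (H : HeckeGaloisRepDatum N (↑S : Set ℕ) 𝒪 θ T) [Finite (ResidueField T)]
    {k : Type} [Field k] {ρbar : ResidualGaloisRep k} (g : k →+* ResidueField T)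
    (hres : H.ρ.residual.IsEquiv (ρbar.baseChangeAlong g))
    (hord : (GaloisRepAdic.ofResidualGaloisRep ρbar).IsOrdinaryAt p)
    (b : Module.Basis (Fin 2) k ρbar.V) {φ σ₀ : GQ} (hm : H75P.MarkElts p φ σ₀)
    (hne : toMat ρbar.ρ b σ₀ ≠ 1) :
    H.ρ.IsStrictOrdinaryAt p := by
  obtain ⟨b₁⟩ := H53.exists_basis H.ρ
  refine isStrictOrdinaryAt_of_sigma (H33.datum_detIsCyclotomic Fact.out hp𝒪 hNS H)
    (ordinary_datum h33 hp2 hp𝒪 hpN hpN2 hNS H g hres hord) b₁ hm ?_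
  rw [← H53.toMat_resBasis]
  exact residual_ne_one g hres b _ hne

/-- **A Hecke datum has the type `GType`.** -/
theorem gtype_datum (h34 : StatementS34)
    (hp𝒪 : (p : 𝒪) ∈ maximalIdeal 𝒪) (hpS : p ∈ S) (hNS : ∀ q : ℕ, q.Prime → q ∣ N → q ∈ S)
    (H : HeckeGaloisRepDatum N (↑S : Set ℕ) 𝒪 θ T)
    {𝒟p : ∀ ⦃A : Type⦄ [CommRing A] [IsLocalRing A], GaloisRepAdic A → Prop}
    (h𝒟p : 𝒟p H.ρ) (S' U : Finset ℕ)
    (hS' : ∀ q : ℕ, q.Prime → q ∉ S' → H.ρ.IsUnramifiedAt q)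
    (hU : ∀ q ∈ U, q.Prime → q ≠ p → (q ∣ N ∧ ¬ q ^ 2 ∣ N) ∨ H.ρ.IsUnramifiedAt q) :
    GType 𝒪 p 𝒟p S' U H.ρ := by
  refine ⟨⟨H33.datum_detIsCyclotomic Fact.out hp𝒪 hNS H, h𝒟p, hS'⟩, fun q hqU hq hqp => ?_⟩
  rcases hU q hqU hq hqp with ⟨h1, h2⟩ | h1
  · exact h34 Fact.out hp𝒪 hpS hNS H q hq hqp h1 h2
  · exact isUnipotentOnInertiaAt_of_isUnramifiedAt h1

/-- **A Hecke datum has the type of the level with raising primes.** -/
theorem typeB_datum (h34 : StatementS34)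
    (hp𝒪 : (p : 𝒪) ∈ maximalIdeal 𝒪) (hpS : p ∈ S) (hNS : ∀ q : ℕ, q.Prime → q ∣ N → q ∈ S)
    (H : HeckeGaloisRepDatum N (↑S : Set ℕ) 𝒪 θ T)
    (hunr : ∀ q : ℕ, q.Prime → ¬ q ∣ N → q ≠ p → H.ρ.IsUnramifiedAt q)
    {𝒟p : ∀ ⦃A : Type⦄ [CommRing A] [IsLocalRing A], GaloisRepAdic A → Prop}
    (h𝒟p : 𝒟p H.ρ) (A : Finset ℕ) {τ ι : Type} [Fintype τ] [Fintype ι] (qT : τ → ℕ)
    (qB : ι → ℕ) {r : ℕ} (qv : Fin r → ℕ)
    (hN : ∀ q : ℕ, q.Prime → q ∣ N → q ≠ p → q ∈ A ∨ (∃ t, qT t = q) ∨ (∃ i, qB i = q) ∨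
      (∃ i, qv i = q) ∨ H.ρ.IsUnramifiedAt q)
    (hA : ∀ q ∈ A, q.Prime → q ≠ p → ¬ q ^ 2 ∣ N)
    (hB : ∀ i, ¬ (qB i) ^ 2 ∣ N) :
    H53.typeB 𝒪 p 𝒟p A qT qB qv H.ρ := by
  refine gtype_datum h34 hp𝒪 hpS hNS H h𝒟p _ _ (fun q hq hqS => ?_) (fun q hqU hq hqp => ?_)
  · rw [H53.mem_levelSetB] at hqS
    push Not at hqS
    by_cases hqN : q ∣ N
    · rcases hN q hq hqN hqS.1 with h | ⟨t, h⟩ | ⟨i, h⟩ | ⟨i, h⟩ | h
      · exact absurd h hqS.2.1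
      · exact absurd h (hqS.2.2.1 t)
      · exact absurd h (hqS.2.2.2.1 i)
      · exact absurd h (hqS.2.2.2.2 i)
      · exact h
    · exact hunr q hq hqN hqS.1
  · by_cases hqN : q ∣ N
    · refine Or.inl ⟨hqN, ?_⟩
      rcases H53.mem_uniSet.mp hqU with h | ⟨i, rfl⟩
      · exact hA q h hq hqp
      · exact hB i
    · exact Or.inr (hunr q hq hqN hqp)

end Datum

end Fermat.Agent.H30
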