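import Fermat.Agent.H53Pt
import Fermat.Agent.H53CondOrd
import Fermat.Agent.H75PFlat

set_option autoImplicit false
set_option maxSynthPendingDepth 3
set_option linter.style.haveILetI false
set_option linter.unusedSectionVars false

/-!
# The ordinary condition at `p` with marks
-/

noncomputable section

open IsLocalRing Module ExtCitation Polynomial GaloisRep
open Fermat.Agent.H55 Fermat.Agent.H56 Fermat.Agent.H64
open Fermat.Agent.H75P (OrdMark MarkElts OrdI cj DetC UU)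

namespace Fermat.Agent.H53

variable {𝒪 : Type} [CommRing 𝒪] [IsDomain 𝒪] [IsDiscreteValuationRing 𝒪]
    [IsAdicComplete (maximalIdeal 𝒪) 𝒪] [Finite (ResidueField 𝒪)]

/-- the ordinary condition, with the marks `t`, `y` (and `z = 0`) at `p` -/
def PData.ord {p : ℕ} [Fact p.Prime] (hp2 : p ≠ 2)
    (ρbar : ResidualGaloisRep (ResidueField 𝒪))
    (b : Module.Basis (Fin 2) (ResidueField 𝒪) ρbar.V)
    (hdet : (GaloisRepAdic.ofResidualGaloisRep ρbar).DetIsCyclotomic p)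
    (hord : (GaloisRepAdic.ofResidualGaloisRep ρbar).IsOrdinaryAt p)
    {φ σ₀ : GQ} (hm : MarkElts p φ σ₀) (hr0 : toMat ρbar.ρ b σ₀ = 1) (w : ℤ) (hw : w ^ 2 = 1)
    {g₀ : (M2 (ResidueField 𝒪))ˣ} (hg₀ : OrdI p (cj g₀ (toMat ρbar.ρ b)))
    (hu : cj g₀ (toMat ρbar.ρ b) φ 1 1 = (w : ResidueField 𝒪)) : PData p ρbar b where
  𝒟p := fun _A _ _ ρ => ρ.IsOrdinaryAt p
  isDef S U := isDeformationCondition_ordinary 𝒪 p hp2 S U
  residual := hord
  ε := Unit
  card_le := by simp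
  Mark := fun A _ _ ρ b₁ m =>
    OrdMark p (toMat ρ.ρ b₁) (w : A) φ σ₀ (m () 0) (m () 1) ∧ m () 2 = 0
  Condp := fun R => OrdMark p R (TrivSqZeroExt.inl (w : ResidueField 𝒪)) φ σ₀ 0 0
  bound := by
    intro _
    rw [show 4 - Nat.card Unit = 3 by simp]
    have hw' : ((w : ResidueField 𝒪)) ^ 2 = 1 := by
      have := congrArg (Int.cast : ℤ → ResidueField 𝒪) hw
      push_cast at this
      exact this
    exact H75P.localBound_ordMark hp2 (finLev_toMat ρbar b) (detCyc_toMat ρbar b hdet) hm hr0 hw'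
  mark := fun A _ _ _ _ _ _ ρ b₁ hdetA hordA hres => by
    obtain ⟨t, y, ht, hy, h⟩ := H75P.exists_ordMark hp2 hm hr0 hg₀ hu (u := (w : A))
      (j := ResidueField.map (algebraMap 𝒪 A)) (by rw [map_intCast, map_intCast]) hdetA hordA b₁
      hres
    refine ⟨fun _ => ![t, y, 0], fun _ j => ?_, ⟨h, rfl⟩, fun f _ hf𝒪 hf h' hord' => ?_⟩
    · fin_cases j
      · exact ht
      · exact hy
      · exact Ideal.zero_mem _
    · have h1 := h.map f
      have h2 : f t = 0 := hf () 0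
      have h3 : f y = 0 := hf () 1
      rw [h2, h3, map_intCast] at h1
      rw [TrivSqZeroExt.inl_intCast]
      exact h1

/-- the data needed for `PData.ord`, from a flat and strictly ordinary residual representation -/
theorem exists_ordData {p : ℕ} [Fact p.Prime] (hp2 : p ≠ 2) {k : Type} [Field k] [Finite k]
    (ρbar : ResidualGaloisRep k) (b : Module.Basis (Fin 2) k ρbar.V)
    (hdet : (GaloisRepAdic.ofResidualGaloisRep ρbar).DetIsCyclotomic p)
    (hstr : (GaloisRepAdic.ofResidualGaloisRep ρbar).IsStrictOrdinaryAt p)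
    (hflat : (GaloisRepAdic.ofResidualGaloisRep ρbar).IsFlatAt p) :
    ∃ φ σ₀ : GQ, MarkElts p φ σ₀ ∧ toMat ρbar.ρ b σ₀ = 1 ∧ ∃ w : ℤ, w ^ 2 = 1 ∧
      ∃ g₀ : (M2 k)ˣ, OrdI p (cj g₀ (toMat ρbar.ρ b)) ∧
        cj g₀ (toMat ρbar.ρ b) φ 1 1 = (w : k) := by
  obtain ⟨φ, σ₀, hm⟩ := H75P.exists_markElts (p := p) hp2
  obtain ⟨g₀, hg⟩ := H75P.exists_ordB hstr b
  have hI : OrdI p (cj g₀ (toMat ρbar.ρ b)) := H75P.ordI_of_ordB hg
  have hsep : IsHausdorff (maximalIdeal k) k := by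
    rw [maximalIdeal_eq_bot]
    infer_instance
  have hsq := H75P.psi_sq_of_ordB hsep hdet.1 ((H75P.detC_toMat hdet b).cj g₀) hg hm.dec
  refine ⟨φ, σ₀, hm, H75P.residual_sigma hflat hdet b hI hm.inert hm.fix, ?_⟩
  rcases sq_eq_one_iff.mp hsq with h | h
  · exact ⟨1, by norm_num, g₀, hI, by rw [Int.cast_one]; exact h⟩
  · exact ⟨-1, by norm_num, g₀, hI, by rw [Int.cast_neg, Int.cast_one]; exact h⟩

section Points

variable {p : ℕ} [Fact p.Prime] {R A : Type} [CommRing R] [CommRing A] [IsLocalRing A]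
  {r : GQ →* M2 R} {w : ℤ} {φ σ₀ : GQ} {t y : R}

lemma finite_quot_pow (A : Type) [CommRing A] [IsLocalRing A] [IsNoetherianRing A]
    [Finite (ResidueField A)] (n : ℕ) : Finite (A ⧸ maximalIdeal A ^ n) := by
  haveI : Finite (A ⧸ maximalIdeal A) := ‹Finite (ResidueField A)›
  exact Ideal.finite_quotient_pow (IsNoetherian.noetherian _) n

/-- **flat points**: `y = 0` -/
theorem ordMark_point_flat [IsNoetherianRing A] [Finite (ResidueField A)]
    (hsep : IsHausdorff (maximalIdeal A) A) (hm : MarkElts p φ σ₀)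
    (h : OrdMark p r (w : R) φ σ₀ t y) (f : R →+* A) (ρ : GaloisRepAdic A)
    (b : Module.Basis (Fin 2) A ρ.V) (hb : toMat ρ.ρ b = mapMat f r) (hflat : ρ.IsFlatAt p)
    (hdet : ρ.DetIsCyclotomic p) : f y = 0 := by
  have h1 := h.map f
  rw [← hb] at h1
  exact h1.y_eq_zero_of_flat (finite_quot_pow A) hsep hflat hdet b hm.inert hm.fix

/-- **strictly ordinary points**: `t = 0` -/
theorem ordMark_point_strict (hp2 : p ≠ 2) (hsep : IsHausdorff (maximalIdeal A) A)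
    (hm : MarkElts p φ σ₀) (hw : w ^ 2 = 1) (h : OrdMark p r (w : R) φ σ₀ t y) (f : R →+* A)
    (hft : f t ∈ maximalIdeal A)
    (ρ : GaloisRepAdic A) (b : Module.Basis (Fin 2) A ρ.V) (hb : toMat ρ.ρ b = mapMat f r)
    (hstr : ρ.IsStrictOrdinaryAt p) (hdet : ρ.DetIsCyclotomic p) : f t = 0 := by
  have h1 := h.map f
  rw [← hb, map_intCast] at h1
  obtain ⟨g, hg⟩ := H75P.exists_ordB hstr b
  exact h1.t_eq_zero_of_ordB hp2 hsep hdet.1 (H75P.detC_toMat hdet b) hg hm.dec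
    (by rw [← Int.cast_pow, hw, Int.cast_one]) hft

/-- **ordinary representations**: `t * y = 0` -/
theorem ordMark_mul [IsNoetherianRing A] [Finite (ResidueField A)]
    (hp2 : p ≠ 2) (hsep : IsHausdorff (maximalIdeal A) A)
    (hm : MarkElts p φ σ₀) (hw : w ^ 2 = 1) (ρ : GaloisRepAdic A)
    (b : Module.Basis (Fin 2) A ρ.V) {t y : A} (h : OrdMark p (toMat ρ.ρ b) (w : A) φ σ₀ t y)
    (ht : t ∈ maximalIdeal A) (hdet : ρ.DetIsCyclotomic p) : t * y = 0 :=
  h.mul_eq_zero hp2 (finite_quot_pow A) hsep hdet.1 (mcont_toMat ρ b) (H75P.detC_toMat hdet b)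
    hm.inert hm.fix hm.dec (by rw [← Int.cast_pow, hw, Int.cast_one]) ht

end Points

section Level

variable {p : ℕ} [Fact p.Prime] (hp2 : p ≠ 2) {ρbar : ResidualGaloisRep (ResidueField 𝒪)}
  {b : Module.Basis (Fin 2) (ResidueField 𝒪) ρbar.V}
  (hdet : (GaloisRepAdic.ofResidualGaloisRep ρbar).DetIsCyclotomic p)
  (hord : (GaloisRepAdic.ofResidualGaloisRep ρbar).IsOrdinaryAt p)
  {φ σ₀ : GQ} (hm : MarkElts p φ σ₀) (hr0 : toMat ρbar.ρ b σ₀ = 1) (w : ℤ) (hw : w ^ 2 = 1)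
  {g₀ : (M2 (ResidueField 𝒪))ˣ} (hg₀ : OrdI p (cj g₀ (toMat ρbar.ρ b)))
  (hu : cj g₀ (toMat ρbar.ρ b) φ 1 1 = (w : ResidueField 𝒪))
  {A : Finset ℕ}
  {τ ι : Type} [Fintype τ] [Fintype ι] {qT : τ → ℕ} {pl : ∀ t, PlaceData p (qT t)} {u : τ → 𝒪}
  {qB : ι → ℕ} {plB : ∀ i, PlaceData p (qB i)} {uB : ι → 𝒪} {k n : ℕ} {S : Finset ℕ}
  (L : GalLevelB p ρbar b (PData.ord hp2 ρbar b hdet hord hm hr0 w hw hg₀ hu) A qT pl u qB plB uB
    k n S)

include L

lemma finite_residueField_D : Finite (ResidueField L.D.R) :=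
  Finite.of_surjective _ (bijective_map_residue L.D.R L.D.residue_surjective).2

/-- the marks at `p` -/
theorem GalLevelB.ordMark_p : OrdMark p (toMat L.D.ρ.ρ L.b₁) (w : L.D.R) φ σ₀
    (L.mB (Sum.inr ()) 0) (L.mB (Sum.inr ()) 1) := L.isPMark.1

theorem GalLevelB.ord_z : L.mB (Sum.inr ()) 2 = 0 := L.isPMark.2

theorem GalLevelB.ord_mul : L.mB (Sum.inr ()) 0 * L.mB (Sum.inr ()) 1 = 0 := by
  haveI := finite_residueField_D hp2 hdet hord hm hr0 w hw hg₀ hu L
  exact ordMark_mul hp2 (inferInstance : IsHausdorff (maximalIdeal L.D.R) L.D.R) hm hw L.D.ρ L.b₁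
    L.isPMark.1 (L.mB_mem _ _) L.detCyc

/-- the marks at `p` at a point whose representation is strictly ordinary -/
theorem GalLevelB.ord_pt {B : Type} [CommRing B] [IsLocalRing B]
    (hsep : IsHausdorff (maximalIdeal B) B) (f : L.D.R →+* B) (hf : IsLocalHom f)
    (ρ : GaloisRepAdic B) (b' : Module.Basis (Fin 2) B ρ.V) (hb' : toMat ρ.ρ b' = mapMat f L.r)
    (hstr : ρ.IsStrictOrdinaryAt p) (hdetρ : ρ.DetIsCyclotomic p) :
    f (L.mB (Sum.inr ()) 0) = 0 :=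
  ordMark_point_strict hp2 hsep hm hw L.isPMark.1 f
    (map_nonunit f _ (L.mB_mem _ _)) ρ b' hb' hstr hdetρ

/-- the marks at `p` at a point whose representation is flat -/
theorem GalLevelB.ord_flat {B : Type} [CommRing B] [IsLocalRing B] [IsNoetherianRing B]
    [Finite (ResidueField B)]
    (hsep : IsHausdorff (maximalIdeal B) B) (f : L.D.R →+* B)
    (ρ : GaloisRepAdic B) (b' : Module.Basis (Fin 2) B ρ.V) (hb' : toMat ρ.ρ b' = mapMat f L.r)
    (hflat : ρ.IsFlatAt p) (hdetρ : ρ.DetIsCyclotomic p) :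
    f (L.mB (Sum.inr ()) 1) = 0 :=
  ordMark_point_flat hsep hm L.isPMark.1 f ρ b' hb' hflat hdetρ

end Level

end Fermat.Agent.H53
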