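/-
H30CaseP: the case distinction at `p` (multiplicative reduction) for the S59 levels: by the value
of the residual representation at the element `σ₀` of inertia.
-/
import Fermat.Agent.H53POrd
import Fermat.Agent.H30PT2
import Fermat.Agent.H30Type3

set_option autoImplicit false
set_option linter.style.haveILetI false
set_option linter.unusedSectionVars false

noncomputable section

namespace Fermat.Agent.H30.CaseP

open IsLocalRing GaloisRep
open Fermat.Agent.H53 (GQ M2 MCont toMat mapMat)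
open Fermat.Agent.H75P (MarkElts OrdI cj)
open Fermat.Agent.H87.S58 (tO)

section Residual

variable {p : ℕ} [Fact p.Prime] {k : Type} [Field k] [Finite k]

/-- the data needed for `PData.ord`, from a strictly ordinary residual representation which is
trivial at `σ₀` -/
theorem exists_ordData_of_sigma (ρbar : ResidualGaloisRep k)
    (b : Module.Basis (Fin 2) k ρbar.V)
    (hdet : (GaloisRepAdic.ofResidualGaloisRep ρbar).DetIsCyclotomic p)
    (hstr : (GaloisRepAdic.ofResidualGaloisRep ρbar).IsStrictOrdinaryAt p)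
    {φ σ₀ : GQ} (hm : MarkElts p φ σ₀) :
    ∃ w : ℤ, w ^ 2 = 1 ∧ ∃ g₀ : (M2 k)ˣ, OrdI p (cj g₀ (toMat ρbar.ρ b)) ∧
        cj g₀ (toMat ρbar.ρ b) φ 1 1 = (w : k) := by
  obtain ⟨g₀, hg⟩ := H75P.exists_ordB hstr b
  have hI : OrdI p (cj g₀ (toMat ρbar.ρ b)) := H75P.ordI_of_ordB hg
  have hsep : IsHausdorff (maximalIdeal k) k := by
    rw [maximalIdeal_eq_bot]
    infer_instance
  have hsq := H75P.psi_sq_of_ordB hsep hdet.1 ((H75P.detC_toMat hdet b).cj g₀) hg hm.dec
  rcases sq_eq_one_iff.mp hsq with h | h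
  · exact ⟨1, by norm_num, g₀, hI, by rw [Int.cast_one]; exact h⟩
  · exact ⟨-1, by norm_num, g₀, hI, by rw [Int.cast_neg, Int.cast_one]; exact h⟩

/-- flat and ordinary residual representations are trivial at `σ₀` -/
theorem sigma_eq_one_of_flat (ρbar : ResidualGaloisRep k)
    (b : Module.Basis (Fin 2) k ρbar.V)
    (hdet : (GaloisRepAdic.ofResidualGaloisRep ρbar).DetIsCyclotomic p)
    (hord : (GaloisRepAdic.ofResidualGaloisRep ρbar).IsOrdinaryAt p)
    (hflat : (GaloisRepAdic.ofResidualGaloisRep ρbar).IsFlatAt p)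
    {φ σ₀ : GQ} (hm : MarkElts p φ σ₀) : toMat ρbar.ρ b σ₀ = 1 := by
  obtain ⟨g₀, hg⟩ := H75P.exists_ordI hord b
  exact H75P.residual_sigma hflat hdet b hg hm.inert hm.fix

/-- **The case distinction at `p`.** -/
theorem exists_case (hp2 : p ≠ 2) (ρbar : ResidualGaloisRep k)
    (b : Module.Basis (Fin 2) k ρbar.V)
    (hdet : (GaloisRepAdic.ofResidualGaloisRep ρbar).DetIsCyclotomic p)
    (hstr : (GaloisRepAdic.ofResidualGaloisRep ρbar).IsStrictOrdinaryAt p) :
    ∃ φ σ₀ : GQ, MarkElts p φ σ₀ ∧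
      ((toMat ρbar.ρ b σ₀ = 1 ∧ ∃ w : ℤ, w ^ 2 = 1 ∧
        ∃ g₀ : (M2 k)ˣ, OrdI p (cj g₀ (toMat ρbar.ρ b)) ∧
          cj g₀ (toMat ρbar.ρ b) φ 1 1 = (w : k)) ∨ toMat ρbar.ρ b σ₀ ≠ 1) := by
  obtain ⟨φ, σ₀, hm⟩ := H75P.exists_markElts (p := p) hp2
  refine ⟨φ, σ₀, hm, ?_⟩
  by_cases h : toMat ρbar.ρ b σ₀ = 1
  · exact Or.inl ⟨h, exists_ordData_of_sigma ρbar b hdet hstr hm⟩
  · exact Or.inr h

end Residual

end Fermat.Agent.H30.CaseP
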