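/-
H30Type4: the surjection `D.R → heckeLocal` for the levels with raising primes (all types at `p`).
-/
import Fermat.Agent.H30Type3
import Fermat.Agent.H23FlatOrd

set_option autoImplicit false
set_option linter.style.haveILetI false
set_option linter.unusedSectionVars false

noncomputable section

namespace Fermat.Agent.H30

open IsLocalRing CuspForm GaloisRep
open Fermat.Agent.H53 (GQ M2 MCont toMat mapMat PData PlaceData GalLevelB)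

section Datum

variable {p : ℕ} [Fact p.Prime] {N : ℕ} [NeZero N] {S : Finset ℕ}
  {𝒪 : Type} [CommRing 𝒪] [IsDomain 𝒪] [IsDiscreteValuationRing 𝒪]
  [IsAdicComplete (maximalIdeal 𝒪) 𝒪] [Finite (ResidueField 𝒪)] [CharZero 𝒪]
  {θ : heckeAlgebra N 2 (↑S : Set ℕ) →+* ResidueField 𝒪}
  {T : Type} [CommRing T] [IsLocalRing T] [IsNoetherianRing T]
  [IsAdicComplete (maximalIdeal T) T] [Algebra 𝒪 T] [IsLocalHom (algebraMap 𝒪 T)]
  [Module.Finite 𝒪 T] [Module.Free 𝒪 T]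

/-- **Data of level not divisible by `p ^ 2` are ordinary at `p`** if the residual representation
is: S33 if `p ∣ N`, and S32 and "flat + residually ordinary implies ordinary" if not. -/
theorem ordinary_datum_all (h32 : StatementS32) (h33 : StatementS33) (hp2 : p ≠ 2)
    (hp𝒪 : (p : 𝒪) ∈ maximalIdeal 𝒪) (hpN2 : ¬ p ^ 2 ∣ N)
    (hpS : p ∈ S) (hNS : ∀ q : ℕ, q.Prime → q ∣ N → q ∈ S)
    (H : HeckeGaloisRepDatum N (↑S : Set ℕ) 𝒪 θ T)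
    {k : Type} [Field k] {ρbar : ResidualGaloisRep k} (g : k →+* ResidueField T)
    (hres : H.ρ.residual.IsEquiv (ρbar.baseChangeAlong g))
    (hord : (GaloisRepAdic.ofResidualGaloisRep ρbar).IsOrdinaryAt p) :
    H.ρ.IsOrdinaryAt p := by
  by_cases hpN : p ∣ N
  · exact ordinary_datum h33 hp2 hp𝒪 hpN hpN2 hNS H g hres hord
  · exact H23.isOrdinaryAt_of_isFlatAt hp2 H.ρ
      (H33.datum_detIsCyclotomic Fact.out hp𝒪 hNS H)
      (h32 Fact.out hp2 hp𝒪 hpN hpS hNS H) (residual_isOrdinaryAt g hres hord)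

end Datum

section Surjection

variable {p : ℕ} [Fact p.Prime] {N : ℕ} [NeZero N] {S : Finset ℕ}
  {𝒪 : Type} [CommRing 𝒪] [IsDomain 𝒪] [IsDiscreteValuationRing 𝒪]
  [IsAdicComplete (maximalIdeal 𝒪) 𝒪] [Finite (ResidueField 𝒪)] [CharZero 𝒪]
  {ρbar : ResidualGaloisRep (ResidueField 𝒪)}
  {b : Module.Basis (Fin 2) (ResidueField 𝒪) ρbar.V} {pd : PData p ρbar b} {A : Finset ℕ}
  {τ ι : Type} [Fintype τ] [Fintype ι] {qT : τ → ℕ} {pl : ∀ t, PlaceData p (qT t)} {u : τ → 𝒪}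
  {qB : ι → ℕ} {plB : ∀ i, PlaceData p (qB i)} {uB : ι → 𝒪} {k n : ℕ} {S₀ : Finset ℕ}

/-- **The surjection `D.R → heckeLocal` at the levels with raising primes.** -/
theorem exists_surjection_galLevelB (h34 : StatementS34) (hp2 : p ≠ 2)
    (hp𝒪 : (p : 𝒪) ∈ maximalIdeal 𝒪) (hpS : p ∈ S) (hNS : ∀ q : ℕ, q.Prime → q ∣ N → q ∈ S)
    (θ : heckeAlgebra N 2 (↑S : Set ℕ) →+* ResidueField 𝒪)
    (hirr : ρbar.IsIrreducible)
    (hfrob : ∀ (ℓ : ℕ) (hℓ : ℓ.Prime) (hℓN : ¬ ℓ ∣ N) (hℓS : ℓ ∉ (↑S : Set ℕ)),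
      ∀ A : ValuationSubring (AlgebraicClosure ℚ), A.LiesOverPrime ℓ →
        ∀ σ : AlgebraicClosure ℚ ≃ₐ[ℚ] AlgebraicClosure ℚ, A.IsFrobeniusAt σ ℓ →
          LinearMap.charpoly (ρbar.ρ σ) = Polynomial.X ^ 2 -
            Polynomial.C (θ (heckeAlgebra.T hℓ hℓN hℓS)) * Polynomial.X +
              Polynomial.C ((ℓ : ResidueField 𝒪)))
    (L : GalLevelB p ρbar b pd A qT pl u qB plB uB k n S₀)
    (h𝒟p : ∀ H : HeckeGaloisRepDatum N (↑S : Set ℕ) 𝒪 θ (heckeLocal N (↑S : Set ℕ) 𝒪 θ),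
      H.ρ.residual.IsEquiv (ρbar.baseChangeAlong
        (ResidueField.map (algebraMap 𝒪 (heckeLocal N (↑S : Set ℕ) 𝒪 θ)))) → pd.𝒟p H.ρ)
    (hN : ∀ q : ℕ, q.Prime → q ∣ N → q ≠ p → q ∈ A ∨ (∃ t, qT t = q) ∨ (∃ i, qB i = q) ∨
      (∃ i, L.qv i = q) ∨
      ∀ H : HeckeGaloisRepDatum N (↑S : Set ℕ) 𝒪 θ (heckeLocal N (↑S : Set ℕ) 𝒪 θ),
      H.ρ.residual.IsEquiv (ρbar.baseChangeAlong
        (ResidueField.map (algebraMap 𝒪 (heckeLocal N (↑S : Set ℕ) 𝒪 θ)))) →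
      H.ρ.IsUnramifiedAt q)
    (hA : ∀ q ∈ A, q.Prime → q ≠ p → ¬ q ^ 2 ∣ N)
    (hB : ∀ i, ¬ (qB i) ^ 2 ∣ N) :
    ∃ (H : HeckeGaloisRepDatum N (↑S : Set ℕ) 𝒪 θ (heckeLocal N (↑S : Set ℕ) 𝒪 θ))
      (π : L.D.R →ₐ[𝒪] heckeLocal N (↑S : Set ℕ) 𝒪 θ)
      (b₂ : Module.Basis (Fin 2) (heckeLocal N (↑S : Set ℕ) 𝒪 θ) H.ρ.V),
      H.π = heckeLocal.π N (↑S : Set ℕ) 𝒪 θ ∧ Function.Surjective π ∧
      toMat H.ρ.ρ b₂ = mapMat (π : L.D.R →+* heckeLocal N (↑S : Set ℕ) 𝒪 θ)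
        (toMat L.D.ρ.ρ L.b₁) ∧
      (∀ q : ℕ, q.Prime → ¬ q ∣ N → q ≠ p → H.ρ.IsUnramifiedAt q) :=
  exists_surjection_of_type hp2 hp𝒪 hpS hNS θ ρbar hirr hfrob
    (fun H _ hres hunr => typeB_datum h34 hp𝒪 hpS hNS H hunr (h𝒟p H hres) A qT qB L.qv
      (fun q hq hqN hqp => by
        rcases hN q hq hqN hqp with h | h | h | h | h
        · exact Or.inl h
        · exact Or.inr (Or.inl h)
        · exact Or.inr (Or.inr (Or.inl h))
        · exact Or.inr (Or.inr (Or.inr (Or.inl h)))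
        · exact Or.inr (Or.inr (Or.inr (Or.inr (h H hres)))))
      hA hB) L.D L.b₁

end Surjection

end Fermat.Agent.H30
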