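import Fermat.Agent.H59LL2
import Fermat.Agent.H30Type

/-!
# The Hecke side of a level: characters and the map from the deformation ring
-/

set_option autoImplicit false
set_option linter.style.haveILetI false
set_option linter.unusedSectionVars false

noncomputable section

open Polynomial IsLocalRing GaloisRep CuspForm
open Fermat.Agent.H87.Glue Fermat.Agent.H37.Rank
open Fermat.Agent.H53 (GQ M2 MCont toMat mapMat FlatType)

namespace Fermat.Agent.H59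

local notation "Qb" => AlgebraicClosure ℚ
local notation "Gq" => (AlgebraicClosure ℚ ≃ₐ[ℚ] AlgebraicClosure ℚ)

/-- the residual eigensystem of `W` over `k` -/
def thetaW (W : WeierstrassCurve ℤ) (S : Set ℕ) (O : Type) [CommRing O] [IsLocalRing O] :
    MvPolynomial (Pr S) O →+* ResidueField O :=
  MvPolynomial.eval₂Hom (residue O) (fun i => ((W.apOfModel i.1 : ℤ) : ResidueField O))

@[simp] lemma thetaW_X (W : WeierstrassCurve ℤ) (S : Set ℕ) {O : Type} [CommRing O]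
    [IsLocalRing O] (i : Pr S) : thetaW W S O (MvPolynomial.X i) =
    ((W.apOfModel i.1 : ℤ) : ResidueField O) := MvPolynomial.eval₂Hom_X' _ _ _

@[simp] lemma thetaW_C (W : WeierstrassCurve ℤ) (S : Set ℕ) {O : Type} [CommRing O]
    [IsLocalRing O] (a : O) : thetaW W S O (MvPolynomial.C a) = residue O a :=
  MvPolynomial.eval₂Hom_C _ _ _

section

variable {W : WeierstrassCurve ℤ} (hΔ : W.Δ ≠ 0) {p : ℕ} [hp : Fact p.Prime]
  {O : Type} [CommRing O] [IsDomain O] [IsDiscreteValuationRing O]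
  [IsAdicComplete (maximalIdeal O) O] [Finite (ResidueField O)] [CharZero O]
  [Algebra (ZMod p) (ResidueField O)]

/-- characters with values in `k` -/
theorem exists_kchar {M : ℕ} [NeZero M] (h : W.IsResiduallyModularOfLevel p M)
    {L : ℕ} [NeZero L] (hL : M ∣ L) {S : Set ℕ} (hS : Adm S L)
    (hSW : ∀ ℓ : ℕ, ℓ.Prime → ℓ ∉ S → W.IsGoodPrimeFor ℓ ∧ ℓ ≠ p) :
    ∃ χ : heckeAlgebra L 2 S →+* ResidueField O,
      ∀ i : Pr S, χ (evHA hS (MvPolynomial.X i)) = ((W.apOfModel i.1 : ℤ) : ResidueField O) := by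
  obtain ⟨θ', hθ'⟩ := exists_char_of_modular h hL hS hSW
  refine ⟨(algebraMap (ZMod p) (ResidueField O)).comp θ', fun i => ?_⟩
  rw [RingHom.comp_apply, hθ', map_intCast]

include hΔ in
/-- the characteristic polynomials of Frobenius elements -/
theorem charpoly_frob_k {L : ℕ} [NeZero L] {S : Set ℕ} (hS : Adm S L)
    (hSW : ∀ ℓ : ℕ, ℓ.Prime → ℓ ∉ S → W.IsGoodPrimeFor ℓ ∧ ℓ ≠ p)
    (χ : heckeAlgebra L 2 S →+* ResidueField O)
    (hχ : ∀ i : Pr S, χ (evHA hS (MvPolynomial.X i)) =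
      ((W.apOfModel i.1 : ℤ) : ResidueField O))
    (ℓ : ℕ) (hℓ : ℓ.Prime) (hℓN : ¬ ℓ ∣ L) (hℓS : ℓ ∉ S) :
      ∀ A : ValuationSubring Qb, A.LiesOverPrime ℓ → ∀ σ : Gq, A.IsFrobeniusAt σ ℓ →
          LinearMap.charpoly (((resZ W hΔ p).baseChange (ResidueField O)).ρ σ) = X ^ 2 -
            C (χ (heckeAlgebra.T hℓ hℓN hℓS)) * X + C ((ℓ : ResidueField O)) := by
  intro A hA σ hσ
  obtain ⟨h1, h2⟩ := hSW ℓ hℓ hℓS
  obtain ⟨h3, h4⟩ := trace_det_baseChange W hΔ p (k := ResidueField O) hℓ h2 h1 hA hσ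
  rw [H86.charpoly_eq_of_finrank_two ((resZ W hΔ p).baseChange (ResidueField O)).finrank_eq,
    h3, h4]
  have h5 := hχ ⟨ℓ, hℓ, hℓS⟩
  rw [evHA_X] at h5
  rw [← h5]

/-- **The map from the deformation ring to the Hecke ring.** -/
theorem exists_hecke (h32 : H30.StatementS32) (h34 : H30.StatementS34) (hp2 : p ≠ 2)
    (hpO : (p : O) ∈ maximalIdeal O) {L : ℕ} [NeZero L] (S : Finset ℕ) (hpS : p ∈ S)
    (hLS : Adm (↑S : Set ℕ) L) (hSW : ∀ ℓ : ℕ, ℓ.Prime → ℓ ∉ S → W.IsGoodPrimeFor ℓ)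
    (hpL : ¬ p ∣ L)
    (hirr : ((resZ W hΔ p).baseChange (ResidueField O)).IsIrreducible)
    (χ : heckeAlgebra L 2 (↑S : Set ℕ) →+* ResidueField O)
    (hχ : ∀ i : Pr (↑S : Set ℕ), χ (evHA hLS (MvPolynomial.X i)) =
      ((W.apOfModel i.1 : ℤ) : ResidueField O))
    (S' A : Finset ℕ) (hS' : ∀ q : ℕ, q.Prime → q ∉ S' → ¬ q ∣ L ∧ q ≠ p)
    (hA : ∀ q ∈ A, q.Prime → q ≠ p → q ∣ L ∧ ¬ q ^ 2 ∣ L)
    (D : DeformationRingData O ((resZ W hΔ p).baseChange (ResidueField O)) (FlatType O p S' A))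
    (b₁ : Module.Basis (Fin 2) D.R D.ρ.V) :
    ∃ (H : HeckeGaloisRepDatum L (↑S : Set ℕ) O χ (heckeLocal L (↑S : Set ℕ) O χ))
      (π : D.R →ₐ[O] heckeLocal L (↑S : Set ℕ) O χ)
      (b₂ : Module.Basis (Fin 2) (heckeLocal L (↑S : Set ℕ) O χ) H.ρ.V),
      H.π = heckeLocal.π L (↑S : Set ℕ) O χ ∧ Function.Surjective π ∧
      toMat H.ρ.ρ b₂ = mapMat (π : D.R →+* heckeLocal L (↑S : Set ℕ) O χ) (toMat D.ρ.ρ b₁) ∧
      (∀ q : ℕ, q.Prime → ¬ q ∣ L → q ≠ p → H.ρ.IsUnramifiedAt q) := by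
  refine H30.exists_surjection_heckeLocal h32 h34 hp2 hpO hpS
    (fun q hq hqL => by exact_mod_cast hLS q hq hqL) hpL χ _ hirr ?_ S' A hS' hA D b₁
  intro ℓ hℓ hℓN hℓS
  exact charpoly_frob_k hΔ hLS (fun ℓ hℓ hℓS => ⟨hSW ℓ hℓ (by exact_mod_cast hℓS),
    fun h => hℓS (by rw [h]; exact_mod_cast hpS)⟩) χ hχ ℓ hℓ hℓN hℓS

end

end Fermat.Agent.H59
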