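import Fermat.Agent.H80AuxUnr
import Fermat.Agent.H30Type
import Fermat.Agent.H45FreyImage

set_option autoImplicit false
set_option linter.style.haveILetI false
set_option linter.unusedSectionVars false

/-!
# The Hecke representations are unramified at the auxiliary prime

`isUnramifiedAt_datum`: a Hecke datum of level `N`, `s ∥ N`, `p ∤ s - 1` and
`tr ρbar(Frob_s) ^ 2 ≠ (s + 1) ^ 2` is unramified at `s`.
-/

noncomputable section

open IsLocalRing GaloisRep Polynomial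

namespace Fermat.Agent.H80.Aux

open Fermat.Agent.H53

local notation "GQ" => (AlgebraicClosure ℚ ≃ₐ[ℚ] AlgebraicClosure ℚ)

/-! ### Traces and equivalences -/

theorem trace_of_isEquiv {k : Type} [Field k] {ρ₁ ρ₂ : ResidualGaloisRep k}
    (h : ρ₁.IsEquiv ρ₂) (σ : GQ) :
    LinearMap.trace k ρ₁.V (ρ₁.ρ σ) = LinearMap.trace k ρ₂.V (ρ₂.ρ σ) := by
  obtain ⟨e⟩ := h
  have h1 : ρ₂.ρ σ = e.toLinearEquiv.conj (ρ₁.ρ σ) := by
    refine LinearMap.ext fun x => ?_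
    rw [LinearEquiv.conj_apply_apply, e.map_apply, LinearEquiv.apply_symm_apply]
  rw [h1, LinearMap.trace_conj']

theorem trace_baseChangeAlong {k k' : Type} [Field k] [Field k'] (f : k →+* k')
    (ρ : ResidualGaloisRep k) (σ : GQ) :
    LinearMap.trace k' (ρ.baseChangeAlong f).V ((ρ.baseChangeAlong f).ρ σ) =
      f (LinearMap.trace k ρ.V (ρ.ρ σ)) := by
  letI := f.toAlgebra
  exact LinearMap.trace_baseChange (ρ.ρ σ) k'

theorem trace_residual {A : Type} [CommRing A] [IsLocalRing A] (ρ : GaloisRepAdic A) (σ : GQ) :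
    LinearMap.trace (ResidueField A) ρ.residual.V (ρ.residual.ρ σ) =
      residue A (LinearMap.trace A ρ.V (ρ.ρ σ)) :=
  LinearMap.trace_baseChange (ρ.ρ σ) (ResidueField A)

/-! ### Units -/

theorem isUnit_intCast {A : Type} [CommRing A] [IsLocalRing A] {p : ℕ} (hp : p.Prime)
    (hpA : (p : A) ∈ maximalIdeal A) {a : ℤ} (ha : ¬ (p : ℤ) ∣ a) : IsUnit (a : A) := by
  by_contra hcon
  have h1 : (a : A) ∈ maximalIdeal A := hcon
  have h3 : IsCoprime (p : ℤ) a := (Nat.prime_iff_prime_int.mp hp).coprime_iff_not_dvd.mpr ha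
  obtain ⟨x, y, hxy⟩ := h3
  have h4 : ((x * p + y * a : ℤ) : A) = 1 := by rw [hxy, Int.cast_one]
  push_cast at h4
  have h5 : (1 : A) ∈ maximalIdeal A := by
    rw [← h4]
    exact Ideal.add_mem _ (Ideal.mul_mem_left _ _ hpA) (Ideal.mul_mem_left _ _ h1)
  exact (Ideal.ne_top_iff_one _).mp (maximalIdeal.isMaximal A).ne_top h5

/-! ### The adic form -/

variable {A : Type} [CommRing A] [IsLocalRing A] {p : ℕ} [Fact p.Prime]

/-- **Unipotent implies unramified**, with the condition on the residual representation. -/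
theorem isUnramifiedAt_of_residual (hH : ∀ x : A, (∀ n, x ∈ maximalIdeal A ^ n) → x = 0)
    {q : ℕ} (hq : q.Prime) (hpq : p ≠ q) (ρ : GaloisRepAdic A) (hdet : ρ.DetIsCyclotomic p)
    (huni : ρ.IsUnipotentOnInertiaAt q) (hq1 : ¬ p ∣ q - 1)
    {k : Type} [Field k] (f : k →+* ResidueField A) (ρbar : ResidualGaloisRep k)
    (hres : ρ.residual.IsEquiv (ρbar.baseChangeAlong f))
    {P : ValuationSubring (AlgebraicClosure ℚ)} (hP : P.LiesOverPrime q) {φ : GQ}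
    (hφ : P.IsFrobeniusAt φ q)
    (htr : (LinearMap.trace k ρbar.V (ρbar.ρ φ)) ^ 2 ≠ ((q : k) + 1) ^ 2) :
    ρ.IsUnramifiedAt q := by
  refine isUnramifiedAt_of_unipotent hH hq hpq ρ hdet huni ?_ hP hφ ?_
  · have h1 := isUnit_intCast (A := A) (Fact.out : p.Prime) hdet.1 (a := ((q : ℤ) - 1)) (by
      intro h
      apply hq1
      have h2 : ((q - 1 : ℕ) : ℤ) = (q : ℤ) - 1 := by
        rw [Nat.cast_sub hq.one_lt.le, Nat.cast_one]
      rw [← h2] at h
      exact_mod_cast h)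
    push_cast at h1
    exact h1
  · by_contra hcon
    have h1 : ((q : A) + 1) ^ 2 - (LinearMap.trace A ρ.V (ρ.ρ φ)) ^ 2 ∈ maximalIdeal A := hcon
    rw [← residue_eq_zero_iff, map_sub, map_pow, map_pow, map_add, map_one, map_natCast,
      ← trace_residual, trace_of_isEquiv hres, trace_baseChangeAlong, sub_eq_zero] at h1
    apply htr
    apply f.injective
    rw [map_pow, map_pow, map_add, map_one, map_natCast]
    exact h1.symm

section Datum

open CuspForm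

variable {N : ℕ} [NeZero N] {S : Finset ℕ}
  {𝒪 : Type} [CommRing 𝒪] [IsDomain 𝒪] [IsDiscreteValuationRing 𝒪]
  [IsAdicComplete (maximalIdeal 𝒪) 𝒪] [Finite (ResidueField 𝒪)] [CharZero 𝒪]
  {θ : heckeAlgebra N 2 (↑S : Set ℕ) →+* ResidueField 𝒪}
  {T : Type} [CommRing T] [IsLocalRing T] [IsNoetherianRing T]
  [IsAdicComplete (maximalIdeal T) T] [Algebra 𝒪 T] [IsLocalHom (algebraMap 𝒪 T)]
  [Module.Finite 𝒪 T] [Module.Free 𝒪 T]

/-- **A Hecke datum is unramified at a prime `s ∥ N` with `p ∤ s - 1` and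
`tr ρbar(Frob_s) ^ 2 ≠ (s + 1) ^ 2`.** -/
theorem isUnramifiedAt_datum (h34 : H30.StatementS34) (hp𝒪 : (p : 𝒪) ∈ maximalIdeal 𝒪)
    (hpS : p ∈ S) (hNS : ∀ q : ℕ, q.Prime → q ∣ N → q ∈ S)
    (H : HeckeGaloisRepDatum N (↑S : Set ℕ) 𝒪 θ T) {s : ℕ} (hs : s.Prime) (hsp : s ≠ p)
    (hsN : s ∣ N) (hs2 : ¬ s ^ 2 ∣ N) (hs1 : ¬ p ∣ s - 1)
    {k : Type} [Field k] (f : k →+* ResidueField T) (ρbar : ResidualGaloisRep k)
    (hres : H.ρ.residual.IsEquiv (ρbar.baseChangeAlong f))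
    {P : ValuationSubring (AlgebraicClosure ℚ)} (hP : P.LiesOverPrime s) {φ : GQ}
    (hφ : P.IsFrobeniusAt φ s)
    (htr : (LinearMap.trace k ρbar.V (ρbar.ρ φ)) ^ 2 ≠ ((s : k) + 1) ^ 2) :
    H.ρ.IsUnramifiedAt s :=
  isUnramifiedAt_of_residual hausdorff_of_complete hs hsp.symm H.ρ
    (H33.datum_detIsCyclotomic Fact.out hp𝒪 hNS H)
    (h34 Fact.out hp𝒪 hpS hNS H s hs hsp hsN hs2) hs1 f ρbar hres hP hφ htr

end Datum

/-! ### The curve -/

section Curve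

variable (W : WeierstrassCurve ℤ) (hΔ : W.Δ ≠ 0)

open Fermat.Agent.H87.Glue

/-- the trace condition for the base change of `W[3]` to a field of characteristic `3` -/
theorem trace_sq_ne {s : ℕ} (hs : s.Prime) (hs3 : s % 3 = 2) (hgood : W.IsGoodPrimeFor s)
    (ha : ¬ (3 : ℤ) ∣ W.apOfModel s) {k : Type} [Field k] (f : ZMod 3 →+* k)
    (ρbar : ResidualGaloisRep k) (hρ : ((resZ W hΔ 3).baseChangeAlong f).IsEquiv ρbar)
    {P : ValuationSubring (AlgebraicClosure ℚ)} (hP : P.LiesOverPrime s) {φ : GQ}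
    (hφ : P.IsFrobeniusAt φ s) :
    (LinearMap.trace k ρbar.V (ρbar.ρ φ)) ^ 2 ≠ ((s : k) + 1) ^ 2 := by
  rw [← trace_of_isEquiv hρ, trace_baseChangeAlong,
    H45.trace_resZ_frob W hΔ 3 hs (by rintro rfl; norm_num at hs3) hgood hP hφ]
  have h1 : ((s : k) + 1) = f ((s : ZMod 3) + 1) := by rw [map_add, map_one, map_natCast]
  have h2 : ((s : ZMod 3) + 1) = 0 := by
    have h3 : ((s + 1 : ℕ) : ZMod 3) = 0 := (ZMod.natCast_eq_zero_iff _ _).mpr (by omega)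
    push_cast at h3
    exact h3
  rw [h1, h2, map_zero, zero_pow two_ne_zero]
  refine pow_ne_zero 2 fun h => ha ?_
  have h3 : ((W.apOfModel s : ℤ) : ZMod 3) = 0 := f.injective (by rw [h, map_zero])
  exact_mod_cast (ZMod.intCast_zmod_eq_zero_iff_dvd _ 3).mp h3

/-- **The Hecke data of `W[3]` are unramified at the auxiliary prime.** -/
theorem isUnramifiedAt_aux {N : ℕ} [NeZero N] {S : Finset ℕ}
    {𝒪 : Type} [CommRing 𝒪] [IsDomain 𝒪] [IsDiscreteValuationRing 𝒪]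
    [IsAdicComplete (maximalIdeal 𝒪) 𝒪] [Finite (ResidueField 𝒪)] [CharZero 𝒪]
    {θ : CuspForm.heckeAlgebra N 2 (↑S : Set ℕ) →+* ResidueField 𝒪}
    {T : Type} [CommRing T] [IsLocalRing T] [IsNoetherianRing T]
    [IsAdicComplete (maximalIdeal T) T] [Algebra 𝒪 T] [IsLocalHom (algebraMap 𝒪 T)]
    [Module.Finite 𝒪 T] [Module.Free 𝒪 T]
    (h34 : H30.StatementS34) (hp𝒪 : ((3 : ℕ) : 𝒪) ∈ maximalIdeal 𝒪)
    (hpS : 3 ∈ S) (hNS : ∀ q : ℕ, q.Prime → q ∣ N → q ∈ S)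
    (H : CuspForm.HeckeGaloisRepDatum N (↑S : Set ℕ) 𝒪 θ T)
    {s : ℕ} (hs : s.Prime) (hs3 : s % 3 = 2) (hgood : W.IsGoodPrimeFor s)
    (ha : ¬ (3 : ℤ) ∣ W.apOfModel s) (hsN : s ∣ N) (hs2 : ¬ s ^ 2 ∣ N)
    {k : Type} [Field k] (f : ZMod 3 →+* k) (ρbar : ResidualGaloisRep k)
    (hρ : ((resZ W hΔ 3).baseChangeAlong f).IsEquiv ρbar) (g : k →+* ResidueField T)
    (hres : H.ρ.residual.IsEquiv (ρbar.baseChangeAlong g)) : H.ρ.IsUnramifiedAt s := by
  obtain ⟨P, hP⟩ := H54.exists_liesOverPrime hs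
  obtain ⟨φ, hφ⟩ := H54.exists_isFrobeniusAt hs hP
  exact isUnramifiedAt_datum (p := 3) h34 hp𝒪 hpS hNS H hs (by rintro rfl; norm_num at hs3) hsN hs2
    (by omega) g ρbar hres hP hφ (trace_sq_ne W hΔ hs hs3 hgood ha f ρbar hρ hP hφ)

end Curve

end Fermat.Agent.H80.Aux
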