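/-
H30S59a: the Hecke side of the levels with raising primes (S59sq), analogue of H59LL3.
-/
import Fermat.Agent.H30Type4
import Fermat.Agent.H30PT2
import Fermat.Agent.H59LL3
import Fermat.Agent.H80AuxDatum

set_option autoImplicit false
set_option linter.style.haveILetI false
set_option linter.unusedSectionVars false

noncomputable section

namespace Fermat.Agent.H30.S59

open IsLocalRing GaloisRep CuspForm Polynomial
open Fermat.Agent.H53 (GQ M2 MCont toMat mapMat PlaceData PData GalLevelB)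
open Fermat.Agent.H87.Glue (resZ tateZ EQ)
open Fermat.Agent.H87.S58 (tO)
open Fermat.Agent.H37.Rank
open Fermat.Agent.H59 (thetaW evHA evHA_X)

/-- Equivalent residual representations have the same characteristic polynomials. -/
theorem charpoly_of_isEquiv {k : Type} [Field k] {ρ₁ ρ₂ : ResidualGaloisRep k}
    (e : ρ₁.IsEquiv ρ₂) (σ : GQ) :
    LinearMap.charpoly (ρ₂.ρ σ) = LinearMap.charpoly (ρ₁.ρ σ) := by
  obtain ⟨e⟩ := e
  rw [← LinearEquiv.charpoly_conj e.toLinearEquiv (ρ₁.ρ σ)]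
  congr 1
  refine LinearMap.ext fun x => ?_
  rw [LinearEquiv.conj_apply_apply, e.map_apply, LinearEquiv.apply_symm_apply]

theorem charpoly_residual {A : Type} [CommRing A] [IsLocalRing A] (ρ : GaloisRepAdic A) (σ : GQ) :
    LinearMap.charpoly (ρ.residual.ρ σ) = (LinearMap.charpoly (ρ.ρ σ)).map (residue A) :=
  LinearMap.charpoly_baseChange (ρ.ρ σ) (ResidueField A)

variable {W : WeierstrassCurve ℤ} (hΔ : W.Δ ≠ 0) {p : ℕ} [hp : Fact p.Prime]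
  {O : Type} [CommRing O] [IsDomain O] [IsDiscreteValuationRing O]
  [IsAdicComplete (maximalIdeal O) O] [Finite (ResidueField O)] [CharZero O]
  (hpO : (p : O) ∈ maximalIdeal O)
  {ρbar : ResidualGaloisRep (ResidueField O)}

/-- the characteristic polynomials of Frobenius elements -/
theorem charpoly_frob (hρ : (tO W hΔ hpO).residual.IsEquiv ρbar) {ℓ : ℕ} (hℓ : ℓ.Prime)
    (hℓp : ℓ ≠ p) (hW : W.IsGoodPrimeFor ℓ) {P : ValuationSubring (AlgebraicClosure ℚ)}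
    (hP : P.LiesOverPrime ℓ) {σ : GQ} (hσ : P.IsFrobeniusAt σ ℓ) :
    LinearMap.charpoly (ρbar.ρ σ) =
      X ^ 2 - C ((W.apOfModel ℓ : ℤ) : ResidueField O) * X + C ((ℓ : ResidueField O)) := by
  rw [charpoly_of_isEquiv hρ, charpoly_residual,
    H87.S58.charpoly_tO_frob W hΔ hpO hℓ hℓp hW hP hσ]
  simp

/-- the characteristic polynomials of Frobenius elements, in the form needed for data -/
theorem charpoly_frob_datum (hρ : (tO W hΔ hpO).residual.IsEquiv ρbar) {L : ℕ} [NeZero L]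
    {S : Set ℕ} (hS : Adm S L)
    (hSW : ∀ ℓ : ℕ, ℓ.Prime → ℓ ∉ S → W.IsGoodPrimeFor ℓ ∧ ℓ ≠ p)
    (χ : heckeAlgebra L 2 S →+* ResidueField O)
    (hχ : ∀ i : Pr S, χ (evHA hS (MvPolynomial.X i)) =
      ((W.apOfModel i.1 : ℤ) : ResidueField O))
    (ℓ : ℕ) (hℓ : ℓ.Prime) (hℓN : ¬ ℓ ∣ L) (hℓS : ℓ ∉ S)
    (A : ValuationSubring (AlgebraicClosure ℚ)) (hA : A.LiesOverPrime ℓ) (σ : GQ)
    (hσ : A.IsFrobeniusAt σ ℓ) :
    LinearMap.charpoly (ρbar.ρ σ) = X ^ 2 -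
      C (χ (heckeAlgebra.T hℓ hℓN hℓS)) * X + C ((ℓ : ResidueField O)) := by
  obtain ⟨h1, h2⟩ := hSW ℓ hℓ hℓS
  rw [charpoly_frob hΔ hpO hρ hℓ h2 h1 hA hσ]
  have h5 := hχ ⟨ℓ, hℓ, hℓS⟩
  rw [evHA_X] at h5
  rw [← h5]

/-- `ρbar` is attached to `thetaW`. -/
theorem isAtt_thetaW (hρ : (tO W hΔ hpO).residual.IsEquiv ρbar) (S : Finset ℕ)
    (hSW : ∀ ℓ : ℕ, ℓ.Prime → ℓ ∉ (↑S : Set ℕ) → W.IsGoodPrimeFor ℓ ∧ ℓ ≠ p)
    (ℓ : ℕ) (hℓ : ℓ.Prime) (hℓS : ℓ ∉ (↑S : Set ℕ)) (A : ValuationSubring (AlgebraicClosure ℚ))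
    (hA : A.LiesOverPrime ℓ) (φ : GQ) (hφ : A.IsFrobeniusAt φ ℓ) :
    LinearMap.charpoly (ρbar.ρ φ) = X ^ 2 -
      C (thetaW W (↑S : Set ℕ) O (MvPolynomial.X ⟨ℓ, hℓ, hℓS⟩)) * X +
        C ((ℓ : ResidueField O)) := by
  obtain ⟨h1, h2⟩ := hSW ℓ hℓ hℓS
  rw [charpoly_frob hΔ hpO hρ hℓ h2 h1 hA hφ, H59.thetaW_X]

section Level

variable {b : Module.Basis (Fin 2) (ResidueField O) ρbar.V} {pd : PData p ρbar b} {A : Finset ℕ}
  {τ ι : Type} [Fintype τ] [Fintype ι] {qT : τ → ℕ} {pl : ∀ t, PlaceData p (qT t)} {u : τ → O}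
  {qB : ι → ℕ} {plB : ∀ i, PlaceData p (qB i)} {uB : ι → O} {k n : ℕ} {S₀ : Finset ℕ}

/-- **The map from the deformation ring to the Hecke ring** of a level `L`, for a level with
raising primes and an arbitrary type at `p`. -/
theorem exists_hecke (h34 : StatementS34) (hp2 : p ≠ 2)
    (hρ : (tO W hΔ hpO).residual.IsEquiv ρbar) (hirr : ρbar.IsIrreducible)
    {L : ℕ} [NeZero L] (S : Finset ℕ) (hpS : p ∈ S) (hLS : Adm (↑S : Set ℕ) L)
    (hSW : ∀ ℓ : ℕ, ℓ.Prime → ℓ ∉ S → W.IsGoodPrimeFor ℓ)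
    (χ : heckeAlgebra L 2 (↑S : Set ℕ) →+* ResidueField O)
    (hχ : ∀ i : Pr (↑S : Set ℕ), χ (evHA hLS (MvPolynomial.X i)) =
      ((W.apOfModel i.1 : ℤ) : ResidueField O))
    (G : GalLevelB p ρbar b pd A qT pl u qB plB uB k n S₀)
    (h𝒟p : ∀ H : HeckeGaloisRepDatum L (↑S : Set ℕ) O χ (heckeLocal L (↑S : Set ℕ) O χ),
      H.ρ.residual.IsEquiv (ρbar.baseChangeAlong
        (ResidueField.map (algebraMap O (heckeLocal L (↑S : Set ℕ) O χ)))) → pd.𝒟p H.ρ)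
    (hN : ∀ q : ℕ, q.Prime → q ∣ L → q ≠ p → q ∈ A ∨ (∃ t, qT t = q) ∨ (∃ i, qB i = q) ∨
      (∃ i, G.qv i = q) ∨
      ∀ H : HeckeGaloisRepDatum L (↑S : Set ℕ) O χ (heckeLocal L (↑S : Set ℕ) O χ),
      H.ρ.residual.IsEquiv (ρbar.baseChangeAlong
        (ResidueField.map (algebraMap O (heckeLocal L (↑S : Set ℕ) O χ)))) →
      H.ρ.IsUnramifiedAt q)
    (hA : ∀ q ∈ A, q.Prime → q ≠ p → ¬ q ^ 2 ∣ L)
    (hB : ∀ i, ¬ (qB i) ^ 2 ∣ L) :
    ∃ (H : HeckeGaloisRepDatum L (↑S : Set ℕ) O χ (heckeLocal L (↑S : Set ℕ) O χ))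
      (π : G.D.R →ₐ[O] heckeLocal L (↑S : Set ℕ) O χ)
      (b₂ : Module.Basis (Fin 2) (heckeLocal L (↑S : Set ℕ) O χ) H.ρ.V),
      H.π = heckeLocal.π L (↑S : Set ℕ) O χ ∧ Function.Surjective π ∧
      toMat H.ρ.ρ b₂ = mapMat (π : G.D.R →+* heckeLocal L (↑S : Set ℕ) O χ)
        (toMat G.D.ρ.ρ G.b₁) ∧
      (∀ q : ℕ, q.Prime → ¬ q ∣ L → q ≠ p → H.ρ.IsUnramifiedAt q) := by
  refine exists_surjection_galLevelB h34 hp2 hpO hpS
    (fun q hq hqL => by exact_mod_cast hLS q hq hqL) χ hirr ?_ G h𝒟p hN hA hB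
  intro ℓ hℓ hℓN hℓS
  exact charpoly_frob_datum hΔ hpO hρ hLS (fun ℓ hℓ hℓS => ⟨hSW ℓ hℓ (by exact_mod_cast hℓS),
    fun h => hℓS (by rw [h]; exact_mod_cast hpS)⟩) χ hχ ℓ hℓ hℓN hℓS

/-- the auxiliary prime: data are unramified there -/
theorem unramified_aux (h34 : StatementS34)
    (hρ : (tO W hΔ hpO).residual.IsEquiv ρbar) [CharP (ResidueField O) p]
    {L : ℕ} [NeZero L] (S : Finset ℕ) (hpS : p ∈ S) (hLS : Adm (↑S : Set ℕ) L)
    (χ : heckeAlgebra L 2 (↑S : Set ℕ) →+* ResidueField O)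
    {s : ℕ} (hp3 : p = 3) (hs : s.Prime) (hs3 : s % 3 = 2) (hgood : W.IsGoodPrimeFor s)
    (ha : ¬ (3 : ℤ) ∣ W.apOfModel s) (hsL : s ∣ L) (hs2 : ¬ s ^ 2 ∣ L)
    (H : HeckeGaloisRepDatum L (↑S : Set ℕ) O χ (heckeLocal L (↑S : Set ℕ) O χ))
    (hres : H.ρ.residual.IsEquiv (ρbar.baseChangeAlong
        (ResidueField.map (algebraMap O (heckeLocal L (↑S : Set ℕ) O χ))))) :
    H.ρ.IsUnramifiedAt s := by
  subst hp3
  letI : Algebra (ZMod 3) (ResidueField O) := ZMod.algebra _ 3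
  have h1 := PT.tO_residual hΔ hpO (algebraMap (ZMod 3) (ResidueField O))
  have h2 : ((resZ W hΔ 3).baseChangeAlong (algebraMap (ZMod 3) (ResidueField O))).IsEquiv
      ρbar := (h1.map ResidualGaloisRep.Equiv.symm).elim fun e => hρ.map fun e' => e.trans e'
  exact H80.Aux.isUnramifiedAt_aux W hΔ h34 (by exact_mod_cast hpO) hpS
    (fun q hq hqL => by exact_mod_cast hLS q hq hqL) H hs hs3 hgood ha hsL hs2
    (algebraMap (ZMod 3) (ResidueField O)) ρbar h2 _ hres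

end Level

end Fermat.Agent.H30.S59
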