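import Fermat.Agent.H59ES
import Fermat.Agent.H39ConvA
import Fermat.Agent.H45FreyImage
import Fermat.Agent.H96S29
import Fermat.Agent.H86DensityFinal
import Fermat.Agent.H49Lifting
import Fermat.Agent.H23Main
import Fermat.Agent.H35Abs
import Fermat.Agent.H31Lucas
import Fermat.Prelude.Def_FLTPrelim_ModularRep
import Fermat.Prelude.Def_CuspForm_HeckeLocal

/-!
# The dictionary between residual modularity and characters of Hecke algebras
-/

set_option autoImplicit false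
set_option linter.style.haveILetI false
set_option linter.unusedSectionVars false

noncomputable section

open Polynomial CongruenceSubgroup CuspForm ModularFormClass
open Fermat.Agent.H70.Coh Fermat.Agent.H37.Rank Fermat.Agent.H87.Glue

namespace Fermat.Agent.H59

local notation "Qb" => AlgebraicClosure ℚ
local notation "Gq" => (AlgebraicClosure ℚ ≃ₐ[ℚ] AlgebraicClosure ℚ)
local notation "Zb" => integralClosure ℤ ℂ

section Curve

variable (W : WeierstrassCurve ℤ) (hΔ : W.Δ ≠ 0) (p : ℕ) [hp : Fact p.Prime]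

theorem frob_root_of_unity {ℓ : ℕ} (hℓ : ℓ.Prime) (hℓp : ℓ ≠ p) {A : ValuationSubring Qb}
    (hA : A.LiesOverPrime ℓ) {φ : Gq} (hφ : A.IsFrobeniusAt φ ℓ) {μ : Qb} (hμ : μ ^ p = 1) :
    φ μ = μ ^ ℓ :=
  H86.frobenius_apply_rootsOfUnity hℓ hA hφ
    (fun h => hℓp ((Nat.prime_dvd_prime_iff_eq hℓ hp.out).mp h)) hμ

/-- trace and determinant of the residual representation over `k ⊇ 𝔽_p` at a Frobenius -/
theorem trace_det_baseChange {k : Type} [Field k] [Algebra (ZMod p) k] {ℓ : ℕ} (hℓ : ℓ.Prime)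
    (hℓp : ℓ ≠ p) (hW : W.IsGoodPrimeFor ℓ) {A : ValuationSubring Qb} (hA : A.LiesOverPrime ℓ)
    {φ : Gq} (hφ : A.IsFrobeniusAt φ ℓ) :
    LinearMap.trace k _ (((resZ W hΔ p).baseChange k).ρ φ) = (W.apOfModel ℓ : k) ∧
      LinearMap.det (((resZ W hΔ p).baseChange k).ρ φ) = (ℓ : k) := by
  have h1 : LinearMap.trace k _ (((resZ W hΔ p).baseChange k).ρ φ) =
      algebraMap (ZMod p) k (LinearMap.trace (ZMod p) _ ((resZ W hΔ p).ρ φ)) :=
    LinearMap.trace_baseChange _ _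
  have h2 : LinearMap.det (((resZ W hΔ p).baseChange k).ρ φ) =
      algebraMap (ZMod p) k (LinearMap.det ((resZ W hΔ p).ρ φ)) :=
    LinearMap.det_baseChange _
  rw [h1, h2, H45.trace_resZ_frob W hΔ p hℓ hℓp hW hA hφ,
    H45.det_resZ W hΔ p φ ℓ (fun μ hμ => frob_root_of_unity p hℓ hℓp hA hφ hμ), map_intCast,
    map_natCast]
  exact ⟨rfl, rfl⟩

include hΔ in
/-- **Almost all primes suffice**: if the Hecke eigenvalues of `g` are congruent to those of `W`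
for almost all primes, then they are for all good primes. -/
theorem cong_all_of_almost_all (h29 : H96.StatementS29) {N : ℕ} [NeZero N]
    {g : CuspForm (Gamma0 N) 2} (hg : g.IsNormalizedEigenform) {𝔪 : Ideal Zb}
    (h𝔪 : 𝔪.IsMaximal) (hp𝔪 : (p : Zb) ∈ 𝔪) (S : Finset ℕ)
    (h : ∀ ℓ : ℕ, ℓ.Prime → ℓ ∉ S → ∃ a : Zb, (a : ℂ) = qCoeff g ℓ ∧
      a - ((W.apOfModel ℓ : ℤ) : Zb) ∈ 𝔪) :
    ∀ ℓ : ℕ, ℓ.Prime → W.IsGoodPrimeFor ℓ → ¬ ℓ ∣ N → ℓ ≠ p →
      ∃ a : Zb, (a : ℂ) = qCoeff g ℓ ∧ a - ((W.apOfModel ℓ : ℤ) : Zb) ∈ 𝔪 := by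
  classical
  letI : Field (Zb ⧸ 𝔪) := Ideal.Quotient.field 𝔪
  haveI : CharP (Zb ⧸ 𝔪) p := by
    rw [CharP.charP_iff_prime_eq_zero hp.out, ← map_natCast (Ideal.Quotient.mk 𝔪),
      Ideal.Quotient.eq_zero_iff_mem]
    exact hp𝔪
  letI : Algebra (ZMod p) (Zb ⧸ 𝔪) := ZMod.algebra _ p
  obtain ⟨ρ, hρ, -⟩ := h29 hg hp.out (Ideal.Quotient.mk 𝔪)
  have hcast : ∀ ℓ : ℕ, ℓ.Prime → ℓ ≠ p → (ℓ : Zb ⧸ 𝔪) ≠ 0 := by
    intro ℓ hℓ hℓp h0
    rw [CharP.cast_eq_zero_iff (Zb ⧸ 𝔪) p] at h0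
    exact hℓp ((Nat.prime_dvd_prime_iff_eq hp.out hℓ).mp h0).symm
  -- trace and determinant of `ρ`
  have htd : ∀ ℓ : ℕ, ℓ.Prime → ¬ ℓ ∣ N → ℓ ≠ p → ∀ A : ValuationSubring Qb,
      A.LiesOverPrime ℓ → ∀ φ : Gq, A.IsFrobeniusAt φ ℓ → ∃ a : Zb, (a : ℂ) = qCoeff g ℓ ∧
        LinearMap.trace _ _ (ρ.ρ φ) = Ideal.Quotient.mk 𝔪 a ∧
        LinearMap.det (ρ.ρ φ) = (ℓ : Zb ⧸ 𝔪) := by
    intro ℓ hℓ hℓN hℓp A hA φ hφ
    obtain ⟨a, ha, hch⟩ := hρ ℓ hℓ hℓN (hcast ℓ hℓ hℓp) A hA φ hφ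
    refine ⟨a, ha, ?_, H31.det_eq_of_charpoly ρ.finrank_eq _ _ _ hch⟩
    have h1 := H31.trace_pow_of_charpoly ρ.finrank_eq _ _ _ hch 1
    rwa [pow_one, H31.luc_one] at h1
  let S' : Finset ℕ := S ∪ N.primeFactors ∪ {p} ∪ W.Δ.natAbs.primeFactors
  have hS' : ∀ ℓ : ℕ, ℓ.Prime → ℓ ∉ S' → ℓ ∉ S ∧ ¬ ℓ ∣ N ∧ ℓ ≠ p ∧ W.IsGoodPrimeFor ℓ := by
    intro ℓ hℓ hℓS
    simp only [S', Finset.mem_union, Finset.mem_singleton, not_or] at hℓS
    refine ⟨hℓS.1.1.1, fun h => hℓS.1.1.2 (Nat.mem_primeFactors.mpr ⟨hℓ, h, NeZero.ne N⟩),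
      hℓS.1.2, fun hd => hℓS.2 (Nat.mem_primeFactors.mpr
        ⟨hℓ, Int.natCast_dvd.mp hd, Int.natAbs_ne_zero.mpr hΔ⟩)⟩
  have key := H86.charpoly_eq_of_frobenius_residual H86.frobDensityFinite ρ
    ((resZ W hΔ p).baseChange (Zb ⧸ 𝔪)) S' (by
      intro ℓ hℓ hℓS A hA φ hφ
      obtain ⟨h1, h2, h3, h4⟩ := hS' ℓ hℓ hℓS
      rw [H86.charpoly_eq_iff_of_finrank_two ρ.finrank_eq
        ((resZ W hΔ p).baseChange (Zb ⧸ 𝔪)).finrank_eq]
      obtain ⟨a, ha, htr, hdet⟩ := htd ℓ hℓ h2 h3 A hA φ hφ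
      obtain ⟨htr', hdet'⟩ := trace_det_baseChange W hΔ p (k := Zb ⧸ 𝔪) hℓ h3 h4 hA hφ
      obtain ⟨a', ha', ham⟩ := h ℓ hℓ h1
      have : a = a' := Subtype.ext (ha.trans ha'.symm)
      subst this
      rw [htr, htr', hdet, hdet']
      refine ⟨?_, rfl⟩
      rw [← map_intCast (Ideal.Quotient.mk 𝔪), ← sub_eq_zero, ← map_sub,
        Ideal.Quotient.eq_zero_iff_mem]
      exact ham)
  intro ℓ hℓ hgood hℓN hℓp
  obtain ⟨A, hA⟩ := H54.exists_liesOverPrime hℓ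
  obtain ⟨φ, hφ⟩ := H54.exists_isFrobeniusAt hℓ hA
  have h1 := key φ
  rw [H86.charpoly_eq_iff_of_finrank_two ρ.finrank_eq
    ((resZ W hΔ p).baseChange (Zb ⧸ 𝔪)).finrank_eq] at h1
  obtain ⟨a, ha, htr, -⟩ := htd ℓ hℓ hℓN hℓp A hA φ hφ
  obtain ⟨htr', -⟩ := trace_det_baseChange W hΔ p (k := Zb ⧸ 𝔪) hℓ hℓp hgood hA hφ
  refine ⟨a, ha, ?_⟩
  rw [← Ideal.Quotient.eq_zero_iff_mem, map_sub, map_intCast, ← htr, h1.1, htr', sub_self]

end Curve

section FromChar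

variable {W : WeierstrassCurve ℤ} (hΔ : W.Δ ≠ 0) {p : ℕ} [hp : Fact p.Prime]

theorem exists_int_coeff {N : ℕ} (f : ↥(intLattice N 2)) :
    ∀ n : ℕ, ∃ m : ℤ, qCoeff (f : CuspForm (Gamma0 N) 2) n = (m : ℂ) := by
  obtain ⟨f, hf⟩ := f
  refine Submodule.span_induction
    (p := fun f _ => ∀ n : ℕ, ∃ m : ℤ, qCoeff (f : CuspForm (Gamma0 N) 2) n = (m : ℂ))
    (fun x hx => hx) ?_ ?_ ?_ hf
  · intro n
    exact ⟨0, by rw [H49.qCoeff_zero, Int.cast_zero]⟩
  · intro x y _ _ hx hy n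
    obtain ⟨a, ha⟩ := hx n
    obtain ⟨b, hb⟩ := hy n
    exact ⟨a + b, by rw [H49.qCoeff_add, ha, hb, Int.cast_add]⟩
  · intro a x _ hx n
    obtain ⟨b, hb⟩ := hx n
    refine ⟨a * b, ?_⟩
    have : a • x = (a : ℂ) • x := by rw [Int.cast_smul_eq_zsmul]
    rw [this, H49.qCoeff_smul, hb, Int.cast_mul]

include hΔ in
/-- **(C2)** A character of the Hecke algebra with the eigenvalues of `W` gives residual modularity. -/
theorem isResiduallyModularOfLevel_of_char (h29 : H96.StatementS29) {N : ℕ} [NeZero N]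
    {S : Finset ℕ} (hS : Adm (↑S : Set ℕ) N)
    (θ' : heckeAlgebra N 2 (↑S : Set ℕ) →+* ZMod p)
    (hθ' : ∀ i : Pr (↑S : Set ℕ), θ' (evHA hS (MvPolynomial.X i)) = (W.apOfModel i.1 : ZMod p)) :
    W.IsResiduallyModularOfLevel p N := by
  letI : Module (heckeAlgebra N 2 (↑S : Set ℕ)) ↥(intLattice N 2) :=
    Module.compHom _ (latticeActionHom N (↑S : Set ℕ))
  haveI := intLattice.moduleFinite N
  obtain ⟨v, hv, hvT⟩ := H39.exists_eigen_mod (L := ↥(intLattice N 2)) θ' (by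
    intro s hs
    have h1 : s = 0 := by
      apply latticeActionHom_injective N (↑S : Set ℕ) (H23.hasIntegralStructure N 2)
      rw [map_zero]
      exact LinearMap.ext hs
    rw [h1, map_zero])
  choose c hc using exists_int_coeff v
  have hne : ∃ n, ¬ (p : ℤ) ∣ c n := by
    by_contra hcon
    push Not at hcon
    apply hv
    have hp0 : (p : ℂ) ≠ 0 := by exact_mod_cast hp.out.ne_zero
    have hmem : ((p : ℂ)⁻¹ • (v : CuspForm (Gamma0 N) 2)) ∈ intLattice N 2 := by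
      apply Submodule.subset_span
      intro n
      obtain ⟨d, hd⟩ := hcon n
      refine ⟨d, ?_⟩
      rw [H49.qCoeff_smul, hc n, hd]
      push_cast
      field_simp
    refine ⟨⟨_, hmem⟩, Subtype.ext ?_⟩
    show (v : CuspForm (Gamma0 N) 2) = p • ((p : ℂ)⁻¹ • (v : CuspForm (Gamma0 N) 2))
    rw [← Nat.cast_smul_eq_nsmul ℂ, smul_smul, mul_inv_cancel₀ hp0, one_smul]
  -- the eigenform
  obtain ⟨𝔪, h𝔪, hp𝔪⟩ := FLTPrelim.exists_maximalIdeal_natCast_prime_mem hp.out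
  have hcomap : ∀ m : ℤ, ((m : Zb) ∈ 𝔪 ↔ (p : ℤ) ∣ m) := by
    intro m
    constructor
    · intro hm
      by_contra hnd
      have hcop : IsCoprime (p : ℤ) m :=
        (Nat.prime_iff_prime_int.mp hp.out).coprime_iff_not_dvd.mpr hnd
      obtain ⟨a, b, hab⟩ := hcop
      apply h𝔪.ne_top
      rw [Ideal.eq_top_iff_one]
      have h1 : ((a * p + b * m : ℤ) : Zb) ∈ 𝔪 := by
        push_cast
        exact 𝔪.add_mem (𝔪.mul_mem_left _ hp𝔪) (𝔪.mul_mem_left _ hm)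
      rwa [hab, Int.cast_one] at h1
    · rintro ⟨d, rfl⟩
      push_cast
      exact 𝔪.mul_mem_right _ hp𝔪
  haveI := h𝔪.isPrime
  obtain ⟨g, hg, hgc⟩ := H49.exists_normalizedEigenform_congruent
    (H23.hasIntegralStructure N 2) 𝔪 (v : CuspForm (Gamma0 N) 2) (by
      obtain ⟨n, hn⟩ := hne
      exact ⟨n, (c n : Zb), fun h => hn ((hcomap _).mp h), by
        rw [hc n]; norm_cast⟩)
  refine ⟨g, 𝔪, hg, h𝔪, hp𝔪, cong_all_of_almost_all W hΔ p h29 hg h𝔪 hp𝔪 S ?_⟩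
  intro ℓ hℓ hℓS
  obtain ⟨a, ha, ham⟩ := hgc ℓ hℓ
  refine ⟨a, ha, ham _ fun n => ?_⟩
  have hℓN : ¬ ℓ ∣ N := fun h => hℓS (by exact_mod_cast hS ℓ hℓ h)
  have hℓS' : ℓ ∉ (↑S : Set ℕ) := by exact_mod_cast hℓS
  obtain ⟨w, hw⟩ := hvT (heckeAlgebra.T hℓ hℓN hℓS') (W.apOfModel ℓ) (by
    have h1 := hθ' ⟨ℓ, hℓ, hℓS'⟩
    rw [evHA_X] at h1
    exact h1.symm)
  obtain ⟨d, hd⟩ := exists_int_coeff w n
  refine ⟨((p * d : ℤ) : Zb), (hcomap _).mpr ⟨d, rfl⟩, ?_⟩
  have h1 := congrArg (fun x : ↥(intLattice N 2) => qCoeff (x : CuspForm (Gamma0 N) 2) n) hw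
  have h2 : (((heckeAlgebra.T hℓ hℓN hℓS' : heckeAlgebra N 2 (↑S : Set ℕ)) • v :
      ↥(intLattice N 2)) : CuspForm (Gamma0 N) 2) = CuspForm.heckeTLin 2 hℓ hℓN v := rfl
  have h3 : ((((heckeAlgebra.T hℓ hℓN hℓS' : heckeAlgebra N 2 (↑S : Set ℕ)) • v -
      W.apOfModel ℓ • v : ↥(intLattice N 2)) : CuspForm (Gamma0 N) 2)) =
      CuspForm.heckeTLin 2 hℓ hℓN v - (W.apOfModel ℓ : ℂ) • (v : CuspForm _ 2) := by
    rw [← h2, Int.cast_smul_eq_zsmul]
    rfl
  have h4 : ((p • w : ↥(intLattice N 2)) : CuspForm (Gamma0 N) 2) =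
      (p : ℂ) • (w : CuspForm (Gamma0 N) 2) := by
    rw [Nat.cast_smul_eq_nsmul]
    rfl
  simp only [h3, h4] at h1
  rw [H49.qCoeff_sub, H49.qCoeff_T_two, H49.qCoeff_smul, H49.qCoeff_smul, hd] at h1
  rw [show ((((W.apOfModel ℓ : ℤ) : Zb) : Zb) : ℂ) = (W.apOfModel ℓ : ℂ) by norm_cast]
  rw [h1]
  push_cast
  rfl

end FromChar

section Surj

variable {L : ℕ} [NeZero L] {S : Set ℕ} (hS : Adm S L)

lemma evHA_surjective : Function.Surjective (evHA hS) := by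
  rintro ⟨t, ht⟩
  induction ht using Algebra.adjoin_induction with
  | mem t ht =>
    rcases ht with ⟨ℓ, hℓ, hℓN, hℓS, rfl⟩ | ⟨q, hqN, hq, hqS, rfl⟩
    · exact ⟨MvPolynomial.X ⟨ℓ, hℓ, hℓS⟩, evHA_X hS _⟩
    · exact absurd (hS q hq hqN) hqS
  | algebraMap n =>
    refine ⟨MvPolynomial.C n, ?_⟩
    rw [evHA_C]
    exact (map_intCast (algebraMap ℤ (heckeAlgebra L 2 S)) n).symm
  | add t t' ht ht' h1 h2 =>
    obtain ⟨P, hP⟩ := h1
    obtain ⟨Q, hQ⟩ := h2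
    exact ⟨P + Q, by rw [map_add, hP, hQ]; rfl⟩
  | mul t t' ht ht' h1 h2 =>
    obtain ⟨P, hP⟩ := h1
    obtain ⟨Q, hQ⟩ := h2
    exact ⟨P * Q, by rw [map_mul, hP, hQ]; rfl⟩

/-- a character with integral values on the generators takes values in the prime field -/
theorem exists_zmod_char {p : ℕ} [hp : Fact p.Prime] {κ : Type} [Field κ] [CharP κ p]
    (χ : heckeAlgebra L 2 S →+* κ) (a : Pr S → ℤ)
    (hχ : ∀ i, χ (evHA hS (MvPolynomial.X i)) = (a i : κ)) :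
    ∃ θ' : heckeAlgebra L 2 S →+* ZMod p,
      (∀ i, θ' (evHA hS (MvPolynomial.X i)) = (a i : ZMod p)) ∧
      ∀ t, ZMod.castHom dvd_rfl κ (θ' t) = χ t := by
  have hinj : Function.Injective (ZMod.castHom (dvd_refl p) κ) := RingHom.injective _
  let ev : MvPolynomial (Pr S) ℤ →+* ZMod p :=
    MvPolynomial.eval₂Hom (Int.castRingHom _) (fun i => (a i : ZMod p))
  have hev : ∀ P, ZMod.castHom (dvd_refl p) κ (ev P) = χ (evHA hS P) := by
    have h1 : (ZMod.castHom (dvd_refl p) κ).comp ev = χ.comp (evHA hS) := by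
      refine MvPolynomial.ringHom_ext (fun z => ?_) fun i => ?_
      · rw [RingHom.comp_apply, RingHom.comp_apply, evHA_C, map_intCast]
        change ZMod.castHom (dvd_refl p) κ (ev (MvPolynomial.C z)) = _
        rw [show ev (MvPolynomial.C z) = (z : ZMod p) from MvPolynomial.eval₂_C _ _ _, map_intCast]
      · rw [RingHom.comp_apply, RingHom.comp_apply, hχ,
          show ev (MvPolynomial.X i) = (a i : ZMod p) from MvPolynomial.eval₂_X _ _ _, map_intCast]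
    exact fun P => RingHom.congr_fun h1 P
  have hker : RingHom.ker (evHA hS) ≤ RingHom.ker ev := by
    intro P hP
    rw [RingHom.mem_ker] at hP ⊢
    apply hinj
    rw [hev, hP, map_zero, map_zero]
  have hlift : ∀ P, (evHA hS).liftOfSurjective (evHA_surjective hS) ⟨ev, hker⟩ (evHA hS P) =
      ev P := fun P => RingHom.liftOfRightInverse_comp_apply _ _ _ _ P
  refine ⟨(evHA hS).liftOfSurjective (evHA_surjective hS) ⟨ev, hker⟩, fun i => ?_, fun t => ?_⟩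
  · rw [hlift]
    exact MvPolynomial.eval₂_X _ _ _
  · obtain ⟨P, rfl⟩ := evHA_surjective hS t
    rw [hlift, hev]

end Surj

section ToChar

variable {W : WeierstrassCurve ℤ} {p : ℕ} [hp : Fact p.Prime]

/-- **(C1)** Residual modularity of level `N₀` gives characters of the Hecke algebras of all levels
divisible by `N₀`. -/
theorem exists_char_of_modular {N₀ : ℕ} [NeZero N₀] (h : W.IsResiduallyModularOfLevel p N₀)
    {L : ℕ} [NeZero L] (hL : N₀ ∣ L) {S : Set ℕ} (hS : Adm S L)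
    (hSW : ∀ ℓ : ℕ, ℓ.Prime → ℓ ∉ S → W.IsGoodPrimeFor ℓ ∧ ℓ ≠ p) :
    ∃ θ' : heckeAlgebra L 2 S →+* ZMod p,
      ∀ i : Pr S, θ' (evHA hS (MvPolynomial.X i)) = (W.apOfModel i.1 : ZMod p) := by
  obtain ⟨f, 𝔪, hf, h𝔪, hp𝔪, hcong⟩ := h
  letI : Field (Zb ⧸ 𝔪) := Ideal.Quotient.field 𝔪
  haveI : CharP (Zb ⧸ 𝔪) p := by
    rw [CharP.charP_iff_prime_eq_zero hp.out, ← map_natCast (Ideal.Quotient.mk 𝔪),
      Ideal.Quotient.eq_zero_iff_mem]
    exact hp𝔪
  set F := H58.levelIncl 2 hL f with hF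
  have hF0 : F ≠ 0 := by
    intro h0
    apply hf.ne_zero
    exact DFunLike.coe_injective (congrArg
      (fun F : CuspForm (Gamma0 L) 2 => (⇑F : UpperHalfPlane → ℂ)) h0)
  have hTF : ∀ i : Pr S, ∃ a : Zb, (evHA hS (MvPolynomial.X i)).1 F = (a : ℂ) • F ∧
      a - ((W.apOfModel i.1 : ℤ) : Zb) ∈ 𝔪 := by
    intro i
    obtain ⟨hgood, hip⟩ := hSW i.1 i.2.1 i.2.2
    have hiL : ¬ i.1 ∣ L := fun h => i.2.2 (hS i.1 i.2.1 h)
    have hiN : ¬ i.1 ∣ N₀ := fun h => hiL (h.trans hL)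
    obtain ⟨a, ha, ham⟩ := hcong i.1 i.2.1 hgood hiN hip
    refine ⟨a, ?_, ham⟩
    rw [evHA_X]
    have h1 := (H35.levelIncl_heckeTLin hL i.2.1 hiL f).symm
    refine h1.trans ?_
    rw [hf.isHeckeEigenvector_H49.T i.1 i.2.1 hiN, map_smul, ha]
  have hall : ∀ t : heckeAlgebra L 2 S, ∃ c : Zb, t.1 F = (c : ℂ) • F := by
    intro t
    obtain ⟨P, rfl⟩ := evHA_surjective hS t
    induction P using MvPolynomial.induction_on with
    | C a =>
      refine ⟨(a : Zb), ?_⟩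
      rw [evHA_C]
      push_cast
      rw [Int.cast_smul_eq_zsmul]
      have h1 : ((a : heckeAlgebra L 2 S) : Module.End ℂ (CuspForm (Gamma0 L) 2)) =
          (a : Module.End ℂ (CuspForm (Gamma0 L) 2)) := map_intCast (heckeAlgebra L 2 S).val a
      change ((a : heckeAlgebra L 2 S) : Module.End ℂ (CuspForm (Gamma0 L) 2)) F = _
      rw [h1, Module.End.intCast_apply]
    | add P Q hP hQ =>
      obtain ⟨a, ha⟩ := hP
      obtain ⟨b, hb⟩ := hQ
      refine ⟨a + b, ?_⟩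
      rw [map_add]
      push_cast
      rw [add_smul, ← ha, ← hb]
      rfl
    | mul_X P i hP =>
      obtain ⟨a, ha⟩ := hP
      obtain ⟨b, hb, -⟩ := hTF i
      refine ⟨a * b, ?_⟩
      rw [map_mul]
      push_cast
      change (evHA hS P).1 ((evHA hS (MvPolynomial.X i)).1 F) = _
      rw [hb, map_smul, ha, smul_smul, mul_comm]
  choose c hc using hall
  have huniq : ∀ {a b : Zb}, (a : ℂ) • F = (b : ℂ) • F → a = b := fun {a b} hab =>
    Subtype.ext (smul_left_injective ℂ hF0 hab)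
  let χ₀ : heckeAlgebra L 2 S →+* Zb :=
    { toFun := c
      map_one' := huniq (by
        rw [← hc]
        change F = _
        push_cast
        rw [one_smul])
      map_mul' := fun s t => huniq (by
        rw [← hc]
        change s.1 (t.1 F) = _
        rw [hc t, map_smul, hc s, smul_smul, mul_comm]
        push_cast
        rfl)
      map_zero' := huniq (by
        rw [← hc]
        change 0 = _
        push_cast
        rw [zero_smul])
      map_add' := fun s t => huniq (by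
        rw [← hc]
        change s.1 F + t.1 F = _
        rw [hc s, hc t, ← add_smul]
        push_cast
        rfl) }
  have hχ₀ : ∀ t, t.1 F = ((χ₀ t : Zb) : ℂ) • F := hc
  obtain ⟨θ', hθ', -⟩ := exists_zmod_char hS (p := p) ((Ideal.Quotient.mk 𝔪).comp χ₀)
    (fun i => W.apOfModel i.1) (fun i => by
      obtain ⟨a, ha, ham⟩ := hTF i
      have h1 : χ₀ (evHA hS (MvPolynomial.X i)) = a := huniq ((hχ₀ _).symm.trans ha)
      rw [RingHom.comp_apply, h1, ← map_intCast (Ideal.Quotient.mk 𝔪), ← sub_eq_zero, ← map_sub,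
        Ideal.Quotient.eq_zero_iff_mem]
      exact ham)
  exact ⟨θ', hθ'⟩

/-- **(C2a)** If the summand of the cohomology is nonzero, the eigensystem comes from a character of
the Hecke algebra. -/
theorem exists_char_of_loc {L : ℕ} [NeZero L] {S : Set ℕ} (hS : Adm S L) {K : Type} [Field K]
    [CharZero K] {O : Type} [CommRing O] [Algebra O K] {κ : Type} [Field κ]
    {θ : MvPolynomial (Pr S) O →+* κ}
    {e : MvPolynomial (Pr S) O} (he : IsLocIdem (TT K hS) (TT_comm hS) θ e)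
    (i₀ : Pr S) (hi₀1 : (L : ℤ) ∣ (i₀.1 : ℤ) - 1) (hi₀ : θ (MvPolynomial.X i₀) ≠ 1 + (i₀.1 : κ))
    (hne : Loc (TT K hS) (TT_comm hS) e ≠ ⊥) :
    ∃ χ : heckeAlgebra L 2 S →+* κ,
      ∀ i, χ (evHA hS (MvPolynomial.X i)) = θ (MvPolynomial.X i) := by
  have hker : RingHom.ker (evHA hS) ≤
      RingHom.ker (θ.comp (MvPolynomial.map (Int.castRingHom O))) := by
    intro P hP
    rw [RingHom.mem_ker] at hP ⊢
    by_contra hθP
    apply hne
    rw [eq_bot_iff]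
    intro x hx
    obtain ⟨s', hs'⟩ := he.inv _ hθP
    have h1 := LinearMap.congr_fun hs' x
    rw [(mem_loc he.idem).mp hx, mul_assoc, map_mul, Module.End.mul_apply,
      act_loc_eq_zero hS he i₀ hi₀1 hi₀ hP] at h1
    · exact (Submodule.mem_bot _).mpr h1.symm
    · rw [map_mul, Module.End.mul_apply]
      exact act_mem_loc _ ⟨x, rfl⟩
  refine ⟨(evHA hS).liftOfSurjective (evHA_surjective hS) ⟨_, hker⟩, fun i => ?_⟩
  refine (RingHom.liftOfRightInverse_comp_apply _ _ _ _ (MvPolynomial.X i)).trans ?_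
  change θ ((MvPolynomial.X i).map (Int.castRingHom O)) = _
  rw [MvPolynomial.map_X]

end ToChar

section NonVanish

open IsLocalRing

/-- eigenvectors for the generators are eigenvectors for all polynomials -/
lemma act_eq_smul {O Λ ι H : Type} [CommRing O] [CommRing Λ] [Algebra O Λ] [AddCommGroup H]
    [Module Λ H] [Module O H] [IsScalarTower O Λ H] {T : ι → Module.End Λ H}
    {hT : ∀ i j, T i * T j = T j * T i} (θ : MvPolynomial ι O →+* Λ)
    (hθC : ∀ a, θ (MvPolynomial.C a) = algebraMap O Λ a) {x : H}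
    (hx : ∀ i, T i x = θ (MvPolynomial.X i) • x) (P : MvPolynomial ι O) :
    act T hT P x = θ P • x := by
  induction P using MvPolynomial.induction_on with
  | C a =>
    rw [act_C, hθC, algebraMap_smul]
    rfl
  | add P Q hP hQ => rw [map_add, map_add, add_smul, LinearMap.add_apply, hP, hQ]
  | mul_X P i hP =>
    rw [map_mul, map_mul, act_X, Module.End.mul_apply, hx, map_smul, hP, smul_smul, mul_comm]

/-- **Non-vanishing.** A character of the Hecke algebra with values in the residue field gives a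
nonzero element in the corresponding summand of the cohomology over the residue field. -/
theorem loc_residue_ne_bot {M : ℕ} [NeZero M] {S : Set ℕ} (hS : Adm S M) {O : Type} [CommRing O]
    [IsLocalRing O] {θ : MvPolynomial (Pr S) O →+* ResidueField O}
    (hθC : ∀ a, θ (MvPolynomial.C a) = residue O a) {e : MvPolynomial (Pr S) O} (he : θ e = 1)
    (χ : heckeAlgebra M 2 S →+* ResidueField O)
    (hχ : ∀ i, χ (evHA hS (MvPolynomial.X i)) = θ (MvPolynomial.X i)) :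
    Loc (TT (ResidueField O) hS) (TT_comm hS) e ≠ ⊥ := by
  obtain ⟨ψ, hψ0, -, hψ⟩ := H4.exists_eigenclass hS χ
  set x := homH1 (one_dvd M) (ResidueField O) (ResidueField O) ψ with hx
  have hx0 : x ≠ 0 := by
    intro h0
    exact hψ0 ((homH1 (one_dvd M) (ResidueField O) (ResidueField O)).injective
      (h0.trans (map_zero _).symm))
  have hTx : ∀ i, TT (ResidueField O) hS i x = θ (MvPolynomial.X i) • x := by
    intro i
    haveI : Fact i.1.Prime := ⟨i.2.1⟩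
    have hi : ¬ i.1 ∣ M := fun h => i.2.2 (hS i.1 i.2.1 h)
    have h2 : TT (ResidueField O) hS i x =
        homH1 (one_dvd M) (ResidueField O) (ResidueField O) (H4.heckeHom hi ψ) :=
      homH1_heckeHom (one_dvd M) (ResidueField O) hi ψ
    rw [h2, hψ i.1 hi i.2.2, ← hχ, evHA_X, ← map_smul]
  have hact : ∀ P : MvPolynomial (Pr S) O,
      act (TT (ResidueField O) hS) (TT_comm hS) P x = θ P • x :=
    act_eq_smul θ hθC hTx
  intro h0
  apply hx0
  have h1 : x ∈ Loc (TT (ResidueField O) hS) (TT_comm hS) e :=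
    ⟨x, by rw [hact, he, one_smul]⟩
  rw [h0] at h1
  exact (Submodule.mem_bot _).mp h1

end NonVanish

end Fermat.Agent.H59

end
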