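import Fermat.Agent.H73TW
import Fermat.Agent.H86DensityFinal
import Fermat.Agent.H45FreyImage

set_option autoImplicit false
set_option linter.style.haveILetI false

/-!
# The auxiliary prime `s ≡ 2 mod 3`

For a semistable `W` with `W[3]` irreducible and a finite set `F` there is a prime `s ∉ F` of good
reduction with `s ≡ 2 mod 3` and `3 ∤ a_s(W)`.
-/

noncomputable section

open Polynomial WeierstrassCurve WeierstrassCurve.Affine
open scoped TensorProduct WeierstrassCurve.Affine

namespace Fermat.Agent.H80.Aux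

open Fermat.Agent.H87.Glue

local notation "Qb" => AlgebraicClosure ℚ
local notation "GQ" => (AlgebraicClosure ℚ ≃ₐ[ℚ] AlgebraicClosure ℚ)

/-- an endomorphism of a plane with trace `0` and determinant `-1` is an involution -/
theorem sq_eq_one {k V : Type*} [Field k] [AddCommGroup V] [Module k V]
    (hV : Module.finrank k V = 2) (f : Module.End k V) (ht : LinearMap.trace k V f = 0)
    (hd : LinearMap.det f = -1) : f * f = 1 := by
  haveI : Module.Finite k V := Module.finite_of_finrank_eq_succ hV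
  let b := Module.finBasisOfFinrankEq k V hV
  have h1 : LinearMap.toMatrixAlgEquiv b f * LinearMap.toMatrixAlgEquiv b f = 1 := by
    set M := LinearMap.toMatrixAlgEquiv b f with hM
    have hMt : M.trace = 0 := by
      rw [← ht, LinearMap.trace_eq_matrix_trace k b]; rfl
    have hMd : M.det = -1 := by
      rw [← hd, ← LinearMap.det_toMatrix b]; rfl
    rw [Matrix.trace_fin_two] at hMt
    rw [Matrix.det_fin_two] at hMd
    ext i j
    fin_cases i <;> fin_cases j <;>
      simp only [Matrix.mul_apply, Fin.sum_univ_two, Matrix.one_apply, Fin.zero_eta, Fin.mk_one,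
        Fin.isValue, if_true, if_false, one_ne_zero, zero_ne_one]
    · linear_combination M 0 0 * hMt - hMd
    · linear_combination M 0 1 * hMt
    · linear_combination M 1 0 * hMt
    · linear_combination M 1 1 * hMt - hMd
  rw [← map_mul, ← map_one (LinearMap.toMatrixAlgEquiv b)] at h1
  exact (LinearMap.toMatrixAlgEquiv b).injective h1

/-- In a representation which is absolutely irreducible on the kernel of the determinant there is
an element of determinant `-1` and nonzero trace. -/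
theorem exists_trace_ne_zero {Γ : Type*} [Group Γ] {k V : Type*} [Field k] [AddCommGroup V]
    [Module k V] (hV : Module.finrank k V = 2) (ρ : Γ →* Module.End k V) (c : Γ)
    (hc : ρ c * ρ c = 1) (hdc : LinearMap.det (ρ c) = -1) (H : Subgroup Γ)
    (hH : ∀ h, h ∈ H → LinearMap.det (ρ h) = 1) (K : Type*) [Field K] [Algebra k K]
    [IsAlgClosed K]
    (hTW : ∀ L : Submodule K (K ⊗[k] V), (∀ σ ∈ H, ∀ x ∈ L, (ρ σ).baseChange K x ∈ L) →
      L = ⊥ ∨ L = ⊤) :
    ∃ σ, LinearMap.det (ρ σ) = -1 ∧ LinearMap.trace k V (ρ σ) ≠ 0 := by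
  by_contra hcon
  push Not at hcon
  haveI : Module.Finite k V := Module.finite_of_finrank_eq_succ hV
  -- the elements of `H` are inverted by `c`
  have hinv : ∀ h ∈ H, ρ c * ρ h * ρ c = ρ h⁻¹ := by
    intro h hh
    have h1 : LinearMap.det (ρ (c * h)) = -1 := by
      rw [map_mul, LinearMap.det.map_mul, hdc, hH h hh, mul_one]
    have h2 := sq_eq_one hV (ρ (c * h)) (hcon _ h1) h1
    rw [map_mul] at h2
    have h3 : ρ h * ρ h⁻¹ = 1 := by rw [← map_mul, mul_inv_cancel, map_one]
    calc ρ c * ρ h * ρ c = ρ c * ρ h * ρ c * (ρ h * ρ h⁻¹) := by rw [h3, mul_one]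
      _ = (ρ c * ρ h * (ρ c * ρ h)) * ρ h⁻¹ := by simp only [mul_assoc]
      _ = ρ h⁻¹ := by rw [h2, one_mul]
  have hcomm : ∀ h ∈ H, ∀ h' ∈ H, ρ h * ρ h' = ρ h' * ρ h := by
    intro h hh h' hh'
    have h1 := hinv h⁻¹ (H.inv_mem hh)
    have h2 := hinv h'⁻¹ (H.inv_mem hh')
    have h3 := hinv (h⁻¹ * h'⁻¹) (H.mul_mem (H.inv_mem hh) (H.inv_mem hh'))
    rw [inv_inv] at h1 h2
    have h4 : (h⁻¹ * h'⁻¹)⁻¹ = h' * h := by group
    rw [h4, map_mul ρ h' h, map_mul ρ h⁻¹] at h3
    rw [← h3, ← h1, ← h2]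
    calc ρ c * ρ h⁻¹ * ρ c * (ρ c * ρ h'⁻¹ * ρ c)
        = ρ c * ρ h⁻¹ * (ρ c * ρ c) * ρ h'⁻¹ * ρ c := by simp only [mul_assoc]
      _ = ρ c * (ρ h⁻¹ * ρ h'⁻¹) * ρ c := by rw [hc, mul_one]; simp only [mul_assoc]
  -- all elements of `H` are scalar
  have hfr : Module.finrank K (K ⊗[k] V) = 2 := by rw [Module.finrank_baseChange, hV]
  haveI : Module.Finite K (K ⊗[k] V) := Module.finite_of_finrank_eq_succ hfr
  haveI : Nontrivial (K ⊗[k] V) := Module.nontrivial_of_finrank_pos (R := K) (by rw [hfr]; norm_num)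
  have hscal : ∀ h ∈ H, ∃ μ : K, ∀ x : K ⊗[k] V, (ρ h).baseChange K x = μ • x := by
    intro h hh
    obtain ⟨μ, hμ⟩ := Module.End.exists_eigenvalue ((ρ h).baseChange K : Module.End K (K ⊗[k] V))
    refine ⟨μ, ?_⟩
    have hst : ∀ σ ∈ H, ∀ x ∈ Module.End.eigenspace ((ρ h).baseChange K) μ,
        (ρ σ).baseChange K x ∈ Module.End.eigenspace ((ρ h).baseChange K) μ := by
      intro σ hσ x hx
      rw [Module.End.mem_eigenspace_iff] at hx ⊢
      have h1 : ((ρ h).baseChange K) (((ρ σ).baseChange K) x) =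
          ((ρ σ).baseChange K) (((ρ h).baseChange K) x) := by
        rw [← Module.End.mul_apply, ← Module.End.mul_apply, ← LinearMap.baseChange_mul,
          ← LinearMap.baseChange_mul, hcomm h hh σ hσ]
      rw [h1, hx, map_smul]
    rcases hTW _ hst with h' | h'
    · exact absurd h' hμ
    · intro x
      have hx : x ∈ Module.End.eigenspace ((ρ h).baseChange K) μ := by
        rw [h']; exact Submodule.mem_top
      exact Module.End.mem_eigenspace_iff.mp hx
  obtain ⟨v, hv⟩ := exists_ne (0 : K ⊗[k] V)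
  have hst : ∀ σ ∈ H, ∀ x ∈ Submodule.span K {v}, (ρ σ).baseChange K x ∈ Submodule.span K {v} := by
    intro σ hσ x hx
    obtain ⟨μ, hμ⟩ := hscal σ hσ
    rw [hμ]
    exact Submodule.smul_mem _ _ hx
  rcases hTW _ hst with h | h
  · exact hv (Submodule.span_singleton_eq_bot.mp h)
  · have h1 : Module.finrank K (Submodule.span K {v}) ≤ 1 := by
      have := finrank_span_le_card (R := K) ({v} : Set (K ⊗[k] V))
      simpa using this
    rw [h, finrank_top, hfr] at h1
    omega

theorem quadChar_three : ∀ x : ZMod 3, quadraticChar (ZMod 3) x = 1 → x = 1 := by decide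

section

variable (W : WeierstrassCurve ℤ) (hΔ : W.Δ ≠ 0)

/-- there is an element of `G_ℚ` whose image in `GL₂(𝔽₃)` has determinant `-1` and nonzero
trace -/
theorem exists_elt (hW : W.IsSemistableModel)
    (hirr : W.ModRepIsIrreducible 3) :
    ∃ σ : GQ, LinearMap.det ((resZ W hΔ 3).ρ σ) = -1 ∧
      LinearMap.trace (ZMod 3) _ ((resZ W hΔ 3).ρ σ) ≠ 0 := by
  have hcc : complexConjugation * complexConjugation = 1 := complexConjugation_mul_self
  have hdc : LinearMap.det ((resZ W hΔ 3).ρ complexConjugation) = -1 :=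
    resZ_isOdd W hΔ 3 _ hcc H87.Res.complexConjugation_ne_one
  refine exists_trace_ne_zero (resZ W hΔ 3).finrank_eq (resZ W hΔ 3).ρ complexConjugation
    (by rw [← map_mul, hcc, map_one]) hdc (H73.TW.qdet (p := 3) (resZ W hΔ 3).ρ).ker ?_
    (AlgebraicClosure (ZMod 3)) ?_
  · intro h hh
    apply quadChar_three
    rw [MonoidHom.mem_ker] at hh
    have h1 := H73.TW.qdet_apply (p := 3) (resZ W hΔ 3).ρ h
    rw [hh] at h1
    exact h1.symm
  · refine H73.TW.hTW_resZ W hΔ (Or.inl rfl) hW hirr _ (H73.TW.index_ker_qdet (p := 3) _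
      (τ := complexConjugation) ?_)
    intro h
    have h1 := H73.TW.qdet_apply (p := 3) (resZ W hΔ 3).ρ complexConjugation
    rw [h, hdc] at h1
    revert h1
    decide

/-- **The auxiliary prime.** -/
theorem exists_aux_prime (hΔ : W.Δ ≠ 0) (hW : W.IsSemistableModel)
    (hirr : W.ModRepIsIrreducible 3) (F : Finset ℕ) :
    ∃ s : ℕ, s.Prime ∧ s ∉ F ∧ s % 3 = 2 ∧ W.IsGoodPrimeFor s ∧ ¬ (3 : ℤ) ∣ W.apOfModel s := by
  obtain ⟨σ, hd, ht⟩ := exists_elt W hΔ hW hirr
  obtain ⟨s, hs, hsF, A, hA, φ, hφ, j, k, hj, hk⟩ := H86.density_hom H86.frobDensityFinite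
    (resZ W hΔ 3).factorsThroughFiniteLevel σ (F ∪ {3} ∪ W.Δ.natAbs.primeFactors)
  rw [Finset.mem_union, Finset.mem_union, Finset.mem_singleton, Nat.mem_primeFactors] at hsF
  push Not at hsF
  obtain ⟨⟨hsF, hs3⟩, hsΔ⟩ := hsF
  have hgood : W.IsGoodPrimeFor s := by
    intro h
    exact (Int.natAbs_ne_zero.mpr hΔ) (hsΔ hs (Int.natCast_dvd.mp h))
  have htr := H45.trace_resZ_frob W hΔ 3 hs hs3 hgood hA hφ
  have hdet : LinearMap.det ((resZ W hΔ 3).ρ φ) = (s : ZMod 3) :=
    H45.det_resZ W hΔ 3 φ s fun μ hμ => by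
      exact H86.frobenius_apply_rootsOfUnity hs hA hφ (fun h => hs3 ((Nat.prime_dvd_prime_iff_eq hs Nat.prime_three).mp h)) hμ
  -- the determinant of `φ`
  have hdφ : LinearMap.det ((resZ W hΔ 3).ρ φ) = -1 := by
    have h1 : LinearMap.det ((resZ W hΔ 3).ρ φ) ^ j = -1 := by
      rw [← hd, hj, map_pow]
    have h2 : ∀ x : ZMod 3, x = 0 ∨ x = 1 ∨ x = -1 := by decide
    rcases h2 (LinearMap.det ((resZ W hΔ 3).ρ φ)) with h | h | h
    · exfalso
      have h3 := hd
      rw [hj, map_pow, h] at h3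
      rcases Nat.eq_zero_or_pos j with rfl | hj0
      · rw [pow_zero] at h3; revert h3; decide
      · rw [zero_pow hj0.ne'] at h3; revert h3; decide
    · exfalso
      rw [h, one_pow] at h1
      revert h1; decide
    · exact h
  refine ⟨s, hs, hsF, ?_, hgood, ?_⟩
  · rw [hdet] at hdφ
    have h1 : ((s : ℕ) : ZMod 3) = ((2 : ℕ) : ZMod 3) := by rw [hdφ]; decide
    rw [ZMod.natCast_eq_natCast_iff'] at h1
    exact h1
  · intro h3
    have h4 : LinearMap.trace (ZMod 3) _ ((resZ W hΔ 3).ρ φ) = 0 := by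
      rw [htr]
      exact (ZMod.intCast_zmod_eq_zero_iff_dvd _ 3).mpr (by exact_mod_cast h3)
    have h5 := sq_eq_one (resZ W hΔ 3).finrank_eq _ h4 hdφ
    apply ht
    rcases Nat.even_or_odd' j with ⟨i, rfl | rfl⟩
    · exfalso
      rw [pow_mul, sq, h5, one_pow] at hj
      rw [hj, map_one] at hd
      revert hd; decide
    · rw [pow_succ, pow_mul, sq, h5, one_pow, one_mul] at hj
      rw [hj, h4]

end

end Fermat.Agent.H80.Aux
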