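/-
The initial reduction for modularity lifting at `3` and `5` with squarefree level: choice of the
primes `A` (ramified), `T` (scalar), `B` (to be raised), of the auxiliary prime and removal of the
superfluous primes by Mazur's principle.
-/
import Fermat.Agent.H59Occ
import Fermat.Agent.H80AuxPrime
import Fermat.Agent.H87Glue2

set_option autoImplicit false
set_option linter.style.haveILetI false
set_option linter.unusedSectionVars false

noncomputable section

open WeierstrassCurve Fermat.Agent.H87.Glue Fermat.Agent.H37.Rank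

namespace Fermat.Agent.H69.Red

local notation "Qb" => AlgebraicClosure ℚ
local notation "Gq" => (AlgebraicClosure ℚ ≃ₐ[ℚ] AlgebraicClosure ℚ)

/-- **Trivial raising of the level** -/
theorem res_of_dvd (h29 : H96.StatementS29) {W : WeierstrassCurve ℤ} (hΔ : W.Δ ≠ 0) {p : ℕ}
    (hp : p.Prime) {N L : ℕ} (hL : L ≠ 0) (hdvd : N ∣ L)
    (h : W.IsResiduallyModularOfLevel p N) : W.IsResiduallyModularOfLevel p L := by
  classical
  haveI : Fact p.Prime := ⟨hp⟩
  haveI : NeZero L := ⟨hL⟩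
  haveI : NeZero N := ⟨fun h0 => hL (by rw [h0, zero_dvd_iff] at hdvd; exact hdvd)⟩
  let S : Finset ℕ := L.primeFactors ∪ W.Δ.natAbs.primeFactors ∪ {p}
  have hS : Adm (↑S : Set ℕ) L := by
    intro ℓ hℓ hd
    simp only [S, Finset.coe_union, Set.mem_union, Finset.mem_coe]
    exact Or.inl (Or.inl (Nat.mem_primeFactors.mpr ⟨hℓ, hd, hL⟩))
  obtain ⟨θ, hθ⟩ := H59.exists_char_of_modular (p := p) h hdvd hS (by
    intro ℓ hℓ hℓS
    simp only [S, Finset.coe_union, Set.mem_union, Finset.mem_coe, not_or,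
      Finset.coe_singleton, Set.mem_singleton_iff] at hℓS
    refine ⟨fun hd => hℓS.1.2 (Nat.mem_primeFactors.mpr
        ⟨hℓ, Int.natCast_dvd.mp hd, Int.natAbs_ne_zero.mpr hΔ⟩), hℓS.2⟩)
  exact H59.isResiduallyModularOfLevel_of_char hΔ h29 hS θ hθ

section Defs

variable (W : WeierstrassCurve ℤ) (hΔ : W.Δ ≠ 0) (p : ℕ) [Fact p.Prime]

/-- `q ≡ 1` modulo `p` and the Frobenius elements at `q` act by one and the same scalar `±1` -/
def ScalarAt (q : ℕ) : Prop :=
  p ∣ q - 1 ∧ ∃ u : ℤ, u ^ 2 = 1 ∧ ∀ P : ValuationSubring Qb, P.LiesOverPrime q →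
    ∀ φ : Gq, P.IsFrobeniusAt φ q → (resZ W hΔ p).ρ φ = (u : ZMod p) • 1

/-- **Mazur's principle** for `W[p]` (with an auxiliary prime in the level if `p = 3`) -/
def MazurW : Prop :=
  ∀ q M : ℕ, q.Prime → q ≠ p → 0 < M → ¬ q ∣ M → (p = 3 → ∃ s, s.Prime ∧ s ∣ M ∧ s % 3 = 2) →
    (resZ W hΔ p).IsUnramifiedAt q → W.IsResiduallyModularOfLevel p (M * q) →
    W.IsResiduallyModularOfLevel p M ∨ ScalarAt W hΔ p q

/-- **The partition of the primes**: `A` = ramified primes, `T` = primes in the level with scalar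
Frobenius, `B` = the remaining bad primes, `s` = auxiliary prime (`s = 1` unless `p = 3`). -/
structure Partition (A T B : Finset ℕ) (s : ℕ) : Prop where
  A_prime : ∀ q ∈ A, q.Prime
  A_ne : ∀ q ∈ A, q ≠ p
  A_bad : ∀ q ∈ A, (q : ℤ) ∣ W.Δ
  A_ram : ∀ q ∈ A, ¬ (resZ W hΔ p).IsUnramifiedAt q
  T_prime : ∀ q ∈ T, q.Prime
  T_ne : ∀ q ∈ T, q ≠ p
  T_dvd : ∀ q ∈ T, p ∣ q - 1
  T_unr : ∀ q ∈ T, (resZ W hΔ p).IsUnramifiedAt q
  T_scalar : ∀ q ∈ T, ScalarAt W hΔ p q
  B_prime : ∀ q ∈ B, q.Prime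
  B_ne : ∀ q ∈ B, q ≠ p
  B_bad : ∀ q ∈ B, (q : ℤ) ∣ W.Δ
  B_unr : ∀ q ∈ B, (resZ W hΔ p).IsUnramifiedAt q
  B_not : ∀ q ∈ B, ¬ ScalarAt W hΔ p q
  disj_AT : Disjoint A T
  disj_AB : Disjoint A B
  disj_TB : Disjoint T B
  cover : ∀ q : ℕ, q.Prime → q ≠ p → (q : ℤ) ∣ W.Δ → q ∈ A ∨ q ∈ T ∨ q ∈ B
  aux_three : p = 3 → s.Prime ∧ s % 3 = 2 ∧ W.IsGoodPrimeFor s ∧ ¬ (3 : ℤ) ∣ W.apOfModel s
  aux_other : p ≠ 3 → s = 1
  s_ne : s ≠ p
  s_notMem_A : s ∉ A
  s_notMem_T : s ∉ T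
  s_notMem_B : s ∉ B

end Defs

/-- the base level -/
def baseLevel (A T : Finset ℕ) (s : ℕ) : ℕ := (∏ q ∈ A ∪ T, q) * s

section Lemmas

variable {W : WeierstrassCurve ℤ} {hΔ : W.Δ ≠ 0} {p : ℕ} [hp : Fact p.Prime]

/-- removal of primes from the level -/
theorem remove (mz : MazurW W hΔ p) {N : ℕ} (hN : 0 < N)
    (h3 : p = 3 → ∃ s, s.Prime ∧ s ∣ N ∧ s % 3 = 2) (E : Finset ℕ)
    (hE : ∀ q ∈ E, q.Prime ∧ q ≠ p ∧ ¬ q ∣ N ∧ (resZ W hΔ p).IsUnramifiedAt q ∧
      ¬ ScalarAt W hΔ p q)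
    (h : W.IsResiduallyModularOfLevel p (N * ∏ q ∈ E, q)) :
    W.IsResiduallyModularOfLevel p N := by
  classical
  induction E using Finset.induction_on with
  | empty => simpa using h
  | insert q E hqE ih =>
    have hE' := fun r (hr : r ∈ E) => hE r (Finset.mem_insert_of_mem hr)
    obtain ⟨hq, hqp, hqN, hqu, hqs⟩ := hE q (Finset.mem_insert_self _ _)
    refine ih hE' ?_
    have h1 : W.IsResiduallyModularOfLevel p ((N * ∏ r ∈ E, r) * q) := by
      rw [Finset.prod_insert hqE] at h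
      rwa [mul_assoc, mul_comm _ q]
    have hpos : 0 < ∏ r ∈ E, r := Finset.prod_pos fun r hr => (hE' r hr).1.pos
    have hqn : ¬ q ∣ N * ∏ r ∈ E, r := by
      intro hd
      rcases (Nat.Prime.dvd_mul hq).mp hd with hd | hd
      · exact hqN hd
      · obtain ⟨r, hr, hd⟩ := (Prime.dvd_finsetProd_iff hq.prime _).mp hd
        exact hqE (by rwa [(Nat.prime_dvd_prime_iff_eq hq (hE' r hr).1).mp hd])
    rcases mz q _ hq hqp (Nat.mul_pos hN hpos) hqn (fun hp3 => by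
      obtain ⟨s, hs, hsN, hs3⟩ := h3 hp3
      exact ⟨s, hs, hsN.mul_right _, hs3⟩) hqu h1 with h2 | h2
    · exact h2
    · exact absurd h2 hqs

variable {A T B : Finset ℕ} {s : ℕ}

lemma Partition.s_pos (P : Partition W hΔ p A T B s) : 0 < s := by
  by_cases h : p = 3
  · exact (P.aux_three h).1.pos
  · rw [P.aux_other h]; exact one_pos

lemma Partition.AT_prime (P : Partition W hΔ p A T B s) {q : ℕ} (hq : q ∈ A ∪ T) : q.Prime := by
  rcases Finset.mem_union.mp hq with h | h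
  · exact P.A_prime q h
  · exact P.T_prime q h

lemma Partition.baseLevel_pos (P : Partition W hΔ p A T B s) : 0 < baseLevel A T s :=
  Nat.mul_pos (Finset.prod_pos fun _ hq => (P.AT_prime hq).pos) P.s_pos

/-- the primes dividing the base level -/
lemma Partition.dvd_baseLevel_iff (P : Partition W hΔ p A T B s) {q : ℕ} (hq : q.Prime) :
    q ∣ baseLevel A T s ↔ q ∈ A ∨ q ∈ T ∨ q = s := by
  rw [baseLevel, hq.dvd_mul, Prime.dvd_finsetProd_iff hq.prime]
  constructor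
  · rintro (⟨r, hr, hd⟩ | hd)
    · rw [(Nat.prime_dvd_prime_iff_eq hq (P.AT_prime hr)).mp hd]
      rcases Finset.mem_union.mp hr with h | h
      · exact Or.inl h
      · exact Or.inr (Or.inl h)
    · by_cases h : p = 3
      · exact Or.inr (Or.inr ((Nat.prime_dvd_prime_iff_eq hq (P.aux_three h).1).mp hd))
      · rw [P.aux_other h] at hd
        exact absurd (Nat.dvd_one.mp hd) hq.ne_one
  · rintro (h | h | h)
    · exact Or.inl ⟨q, Finset.mem_union_left _ h, dvd_rfl⟩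
    · exact Or.inl ⟨q, Finset.mem_union_right _ h, dvd_rfl⟩
    · exact Or.inr h.dvd

lemma Partition.not_p_dvd (P : Partition W hΔ p A T B s) : ¬ p ∣ baseLevel A T s := by
  rw [P.dvd_baseLevel_iff hp.out]
  rintro (h | h | h)
  · exact P.A_ne _ h rfl
  · exact P.T_ne _ h rfl
  · exact P.s_ne h.symm

lemma Partition.not_B_dvd (P : Partition W hΔ p A T B s) {q : ℕ} (hq : q ∈ B) :
    ¬ q ∣ baseLevel A T s := by
  rw [P.dvd_baseLevel_iff (P.B_prime q hq)]
  rintro (h | h | h)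
  · exact Finset.disjoint_left.mp P.disj_AB h hq
  · exact Finset.disjoint_left.mp P.disj_TB h hq
  · exact P.s_notMem_B (h ▸ hq)

/-- the residual representation is unramified outside `A` and `p` -/
lemma Partition.unr (P : Partition W hΔ p A T B s) {q : ℕ} (hq : q.Prime) (hqp : q ≠ p)
    (hqA : q ∉ A) : (resZ W hΔ p).IsUnramifiedAt q := by
  by_cases h : (q : ℤ) ∣ W.Δ
  · rcases P.cover q hq hqp h with h1 | h1 | h1
    · exact absurd h1 hqA
    · exact P.T_unr q h1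
    · exact P.B_unr q h1
  · exact resZ_isUnramifiedAt W hΔ p hq hqp h

/-- the curve has good reduction outside `A ∪ T ∪ B ∪ {p}` -/
lemma Partition.good (P : Partition W hΔ p A T B s) {q : ℕ} (hq : q.Prime) (hqp : q ≠ p)
    (hqA : q ∉ A) (hqT : q ∉ T) (hqB : q ∉ B) : W.IsGoodPrimeFor q := by
  intro h
  rcases P.cover q hq hqp h with h1 | h1 | h1
  · exact hqA h1
  · exact hqT h1
  · exact hqB h1

/-- the auxiliary prime in the base level -/
lemma Partition.exists_aux (P : Partition W hΔ p A T B s) (h3 : p = 3) :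
    ∃ s', s'.Prime ∧ s' ∣ baseLevel A T s ∧ s' % 3 = 2 :=
  ⟨s, (P.aux_three h3).1, Dvd.intro_left _ rfl, (P.aux_three h3).2.1⟩

/-- the base level is squarefree -/
lemma Partition.squarefree (P : Partition W hΔ p A T B s) : Squarefree (baseLevel A T s) := by
  classical
  rw [baseLevel]
  have h1 : Squarefree (∏ q ∈ A ∪ T, q) := by
    rw [Nat.squarefree_iff_prime_squarefree]
    intro r hr hd
    have hrd : r ∣ ∏ q ∈ A ∪ T, q := (Dvd.intro _ rfl : r ∣ r * r).trans hd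
    obtain ⟨q, hq, hd'⟩ := (Prime.dvd_finsetProd_iff hr.prime _).mp hrd
    obtain rfl := (Nat.prime_dvd_prime_iff_eq hr (P.AT_prime hq)).mp hd'
    rw [← Finset.mul_prod_erase _ _ hq] at hd
    have h2 : r ∣ ∏ x ∈ (A ∪ T).erase r, x := Nat.dvd_of_mul_dvd_mul_left hr.pos hd
    obtain ⟨q', hq', hd''⟩ := (Prime.dvd_finsetProd_iff hr.prime _).mp h2
    have h3 := Finset.mem_erase.mp hq'
    exact h3.1 ((Nat.prime_dvd_prime_iff_eq hr (P.AT_prime h3.2)).mp hd'').symm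
  by_cases h : p = 3
  · have hs := (P.aux_three h).1
    rw [Nat.squarefree_mul]
    · exact ⟨h1, hs.squarefree⟩
    · rw [Nat.coprime_comm, Nat.Prime.coprime_iff_not_dvd hs]
      intro hd
      obtain ⟨q, hq, hd'⟩ := (Prime.dvd_finsetProd_iff hs.prime _).mp hd
      obtain rfl := (Nat.prime_dvd_prime_iff_eq hs (P.AT_prime hq)).mp hd'
      rcases Finset.mem_union.mp hq with h' | h'
      · exact P.s_notMem_A h'
      · exact P.s_notMem_T h'
  · rw [P.aux_other h, mul_one]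
    exact h1

end Lemmas

/-- **The initial reduction.** -/
theorem exists_partition (h29 : H96.StatementS29) {W : WeierstrassCurve ℤ} (hΔ : W.Δ ≠ 0)
    (hW : W.IsSemistableModel) {p : ℕ} [hp : Fact p.Prime] (hirr : W.ModRepIsIrreducible p)
    (mz : MazurW W hΔ p) {M₀ : ℕ} (hsq : Squarefree M₀)
    (hgood : W.IsGoodPrimeFor p → ¬ p ∣ M₀) (hres : W.IsResiduallyModularOfLevel p M₀) :
    ∃ (A T B : Finset ℕ) (s : ℕ), Partition W hΔ p A T B s ∧
      (W.IsResiduallyModularOfLevel p (baseLevel A T s) ∨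
        (¬ W.IsGoodPrimeFor p ∧ W.IsResiduallyModularOfLevel p (baseLevel A T s * p) ∧
          ∀ B' ⊆ B, ¬ W.IsResiduallyModularOfLevel p (baseLevel A T s * ∏ q ∈ B', q))) := by
  classical
  have hM0 : M₀ ≠ 0 := hsq.ne_zero
  let bad : Finset ℕ := W.Δ.natAbs.primeFactors
  have hbad : ∀ q, q ∈ bad ↔ q.Prime ∧ (q : ℤ) ∣ W.Δ := by
    intro q
    rw [Nat.mem_primeFactors, ← Int.natCast_dvd]
    exact ⟨fun h => ⟨h.1, h.2.1⟩, fun h => ⟨h.1, h.2, Int.natAbs_ne_zero.mpr hΔ⟩⟩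
  let P0 : Finset ℕ := (M₀.primeFactors ∪ bad).erase p
  have hP0 : ∀ q ∈ P0, q.Prime ∧ q ≠ p := by
    intro q hq
    rw [Finset.mem_erase, Finset.mem_union, hbad, Nat.mem_primeFactors] at hq
    rcases hq.2 with h | h
    · exact ⟨h.1, hq.1⟩
    · exact ⟨h.1, hq.1⟩
  -- the auxiliary prime
  obtain ⟨s, hs3, hs1, hsF⟩ : ∃ s : ℕ,
      (p = 3 → s.Prime ∧ s % 3 = 2 ∧ W.IsGoodPrimeFor s ∧ ¬ (3 : ℤ) ∣ W.apOfModel s) ∧
      (p ≠ 3 → s = 1) ∧ s ∉ insert p P0 := by
    by_cases h : p = 3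
    · subst h
      obtain ⟨s, h1, h2, h3, h4, h5⟩ := H80.Aux.exists_aux_prime W hΔ hW hirr (insert 3 P0)
      exact ⟨s, fun _ => ⟨h1, h3, h4, h5⟩, fun h => absurd rfl h, h2⟩
    · refine ⟨1, fun h' => absurd h' h, fun _ => rfl, ?_⟩
      rw [Finset.mem_insert]
      rintro (h1 | h1)
      · exact hp.out.ne_one h1.symm
      · exact (hP0 1 h1).1.ne_one rfl
  rw [Finset.mem_insert, not_or] at hsF
  let A : Finset ℕ := P0.filter fun q => ¬ (resZ W hΔ p).IsUnramifiedAt q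
  let T : Finset ℕ := P0.filter fun q => (resZ W hΔ p).IsUnramifiedAt q ∧ ScalarAt W hΔ p q
  let B : Finset ℕ := (bad.erase p).filter fun q =>
    (resZ W hΔ p).IsUnramifiedAt q ∧ ¬ ScalarAt W hΔ p q
  have hA : ∀ q, q ∈ A ↔ q ∈ P0 ∧ ¬ (resZ W hΔ p).IsUnramifiedAt q := fun q => Finset.mem_filter
  have hT : ∀ q, q ∈ T ↔ q ∈ P0 ∧ (resZ W hΔ p).IsUnramifiedAt q ∧ ScalarAt W hΔ p q :=
    fun q => Finset.mem_filter
  have hB : ∀ q, q ∈ B ↔ (q ≠ p ∧ q.Prime ∧ (q : ℤ) ∣ W.Δ) ∧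
      (resZ W hΔ p).IsUnramifiedAt q ∧ ¬ ScalarAt W hΔ p q := by
    intro q
    rw [Finset.mem_filter, Finset.mem_erase, hbad]
  have hBP0 : B ⊆ P0 := by
    intro q hq
    rw [hB] at hq
    rw [Finset.mem_erase, Finset.mem_union, hbad]
    exact ⟨hq.1.1, Or.inr hq.1.2⟩
  have hP : Partition W hΔ p A T B s :=
    { A_prime := fun q hq => (hP0 q ((hA q).mp hq).1).1
      A_ne := fun q hq => (hP0 q ((hA q).mp hq).1).2
      A_bad := fun q hq => by
        have h1 := (hA q).mp hq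
        by_contra hg
        exact h1.2 (resZ_isUnramifiedAt W hΔ p (hP0 q h1.1).1 (hP0 q h1.1).2 hg)
      A_ram := fun q hq => ((hA q).mp hq).2
      T_prime := fun q hq => (hP0 q ((hT q).mp hq).1).1
      T_ne := fun q hq => (hP0 q ((hT q).mp hq).1).2
      T_dvd := fun q hq => ((hT q).mp hq).2.2.1
      T_unr := fun q hq => ((hT q).mp hq).2.1
      T_scalar := fun q hq => ((hT q).mp hq).2.2
      B_prime := fun q hq => ((hB q).mp hq).1.2.1
      B_ne := fun q hq => ((hB q).mp hq).1.1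
      B_bad := fun q hq => ((hB q).mp hq).1.2.2
      B_unr := fun q hq => ((hB q).mp hq).2.1
      B_not := fun q hq => ((hB q).mp hq).2.2
      disj_AT := Finset.disjoint_left.mpr fun q h1 h2 => ((hA q).mp h1).2 ((hT q).mp h2).2.1
      disj_AB := Finset.disjoint_left.mpr fun q h1 h2 => ((hA q).mp h1).2 ((hB q).mp h2).2.1
      disj_TB := Finset.disjoint_left.mpr fun q h1 h2 => ((hB q).mp h2).2.2 ((hT q).mp h1).2.2
      cover := fun q hq hqp hqd => by
        have h0 : q ∈ P0 := by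
          rw [Finset.mem_erase, Finset.mem_union, hbad]
          exact ⟨hqp, Or.inr ⟨hq, hqd⟩⟩
        by_cases h1 : (resZ W hΔ p).IsUnramifiedAt q
        · by_cases h2 : ScalarAt W hΔ p q
          · exact Or.inr (Or.inl ((hT q).mpr ⟨h0, h1, h2⟩))
          · exact Or.inr (Or.inr ((hB q).mpr ⟨⟨hqp, hq, hqd⟩, h1, h2⟩))
        · exact Or.inl ((hA q).mpr ⟨h0, h1⟩)
      aux_three := hs3
      aux_other := hs1
      s_ne := hsF.1
      s_notMem_A := fun h => hsF.2 ((hA s).mp h).1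
      s_notMem_T := fun h => hsF.2 ((hT s).mp h).1
      s_notMem_B := fun h => hsF.2 (hBP0 h) }
  refine ⟨A, T, B, s, hP, ?_⟩
  have hNpos := hP.baseLevel_pos
  -- the superfluous primes
  let E : Finset ℕ := P0 \ (A ∪ T)
  have hE : ∀ q ∈ E, q ∈ P0 ∧ (resZ W hΔ p).IsUnramifiedAt q ∧ ¬ ScalarAt W hΔ p q := by
    intro q hq
    rw [Finset.mem_sdiff, Finset.mem_union, not_or] at hq
    have h1 : (resZ W hΔ p).IsUnramifiedAt q := by
      by_contra h
      exact hq.2.1 ((hA q).mpr ⟨hq.1, h⟩)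
    exact ⟨hq.1, h1, fun h => hq.2.2 ((hT q).mpr ⟨hq.1, h1, h⟩)⟩
  have hAT : A ∪ T ⊆ P0 :=
    Finset.union_subset (Finset.filter_subset _ _) (Finset.filter_subset _ _)
  have hprod : (∏ q ∈ P0, q) = (∏ q ∈ A ∪ T, q) * ∏ q ∈ E, q := by
    rw [mul_comm, Finset.prod_sdiff hAT]
  have hEpos : 0 < ∏ q ∈ E, q := Finset.prod_pos fun q hq => (hP0 q (hE q hq).1).1.pos
  -- `M₀` divides the big level
  have hMdvd : M₀ ∣ (∏ q ∈ P0, q) * p := by
    rw [← Nat.prod_primeFactors_of_squarefree hsq]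
    have h1 : (∏ q ∈ M₀.primeFactors, q) ∣ ∏ q ∈ insert p P0, q := by
      refine Finset.prod_dvd_prod_of_subset _ _ _ ?_
      intro q hq
      by_cases hqp : q = p
      · rw [hqp]; exact Finset.mem_insert_self _ _
      · refine Finset.mem_insert_of_mem (Finset.mem_erase.mpr ⟨hqp, ?_⟩)
        exact Finset.mem_union_left _ hq
    rwa [Finset.prod_insert (Finset.notMem_erase p _), mul_comm] at h1
  have hMdvd' : ¬ p ∣ M₀ → M₀ ∣ ∏ q ∈ P0, q := by
    intro hpM
    exact (Nat.Coprime.dvd_of_dvd_mul_right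
      ((Nat.Prime.coprime_iff_not_dvd hp.out).mpr hpM).symm hMdvd)
  have hlev : ∀ c : ℕ, (baseLevel A T s * c) * ∏ q ∈ E, q = ((∏ q ∈ P0, q) * c) * s := by
    intro c
    rw [hprod, baseLevel]
    ring
  have hEN : ∀ q ∈ E, ¬ q ∣ baseLevel A T s := by
    intro q hq
    have h1 := hE q hq
    rw [hP.dvd_baseLevel_iff (hP0 q h1.1).1]
    rintro (h | h | h)
    · exact ((hA q).mp h).2 h1.2.1
    · exact h1.2.2 ((hT q).mp h).2.2
    · exact hsF.2 (h ▸ h1.1)
  by_cases hg : W.IsGoodPrimeFor p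
  · -- good reduction at `p`
    left
    refine remove mz hNpos hP.exists_aux E
      (fun q hq => ⟨(hP0 q (hE q hq).1).1, (hP0 q (hE q hq).1).2, hEN q hq, (hE q hq).2⟩) ?_
    refine res_of_dvd h29 hΔ hp.out (Nat.mul_pos hNpos hEpos).ne' ?_ hres
    have h1 := hlev 1
    rw [mul_one, mul_one] at h1
    rw [h1]
    exact (hMdvd' (hgood hg)).mul_right _
  · by_cases h0 : W.IsResiduallyModularOfLevel p (baseLevel A T s)
    · exact Or.inl h0
    · right
      refine ⟨hg, ?_, ?_⟩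
      · refine remove mz (Nat.mul_pos hNpos hp.out.pos) (fun h3 => ?_) E
          (fun q hq => ⟨(hP0 q (hE q hq).1).1, (hP0 q (hE q hq).1).2, ?_, (hE q hq).2⟩) ?_
        · obtain ⟨s', h1, h2, h4⟩ := hP.exists_aux h3
          exact ⟨s', h1, h2.mul_right _, h4⟩
        · intro hd
          rcases ((hP0 q (hE q hq).1).1.dvd_mul).mp hd with hd | hd
          · exact hEN q hq hd
          · exact (hP0 q (hE q hq).1).2
              ((Nat.prime_dvd_prime_iff_eq (hP0 q (hE q hq).1).1 hp.out).mp hd)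
        · refine res_of_dvd h29 hΔ hp.out
            (Nat.mul_pos (Nat.mul_pos hNpos hp.out.pos) hEpos).ne' ?_ hres
          rw [hlev]
          exact hMdvd.mul_right _
      · intro B' hB' hr
        refine h0 (remove mz hNpos hP.exists_aux B' (fun q hq => ?_) hr)
        have h1 := hB' hq
        exact ⟨hP.B_prime q h1, hP.B_ne q h1, hP.not_B_dvd h1, hP.B_unr q h1, hP.B_not q h1⟩

end Fermat.Agent.H69.Red
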