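/-
H30S59b: the Hecke side of the levels with raising primes, for the three types at `p`.
-/
import Fermat.Agent.H30S59a
import Fermat.Agent.H30CaseP
import Fermat.Agent.H69Red

set_option autoImplicit false
set_option linter.style.haveILetI false
set_option linter.unusedSectionVars false

noncomputable section

namespace Fermat.Agent.H30.S59

open IsLocalRing GaloisRep CuspForm Polynomial
open Fermat.Agent.H53 (GQ M2 MCont toMat mapMat PlaceData PData GalLevelB)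
open Fermat.Agent.H87.Glue (resZ tateZ EQ)
open Fermat.Agent.H87.S58 (tO)
open Fermat.Agent.H37.Rank
open Fermat.Agent.H59 (thetaW evHA evHA_X)
open Fermat.Agent.H75P (MarkElts OrdI cj)

variable {W : WeierstrassCurve ℤ} (hΔ : W.Δ ≠ 0) {p : ℕ} [hp : Fact p.Prime]
  {O : Type} [CommRing O] [IsDomain O] [IsDiscreteValuationRing O]
  [IsAdicComplete (maximalIdeal O) O] [Finite (ResidueField O)] [CharZero O]
  [CharP (ResidueField O) p]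
  (hpO : (p : O) ∈ maximalIdeal O)
  {ρbar : ResidualGaloisRep (ResidueField O)}
  {b : Module.Basis (Fin 2) (ResidueField O) ρbar.V} {pd : PData p ρbar b} {A : Finset ℕ}
  {τ ι : Type} [Fintype τ] [Fintype ι] {qT : τ → ℕ} {pl : ∀ t, PlaceData p (qT t)} {u : τ → O}
  {qB : ι → ℕ} {plB : ∀ i, PlaceData p (qB i)} {uB : ι → O} {k n : ℕ} {S₀ : Finset ℕ}

/-- `baseChangeAlong` along the structure map is `baseChange` -/
theorem baseChangeAlong_algebraMap {k k' : Type} [Field k] [Field k'] [Algebra k k']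
    (ρ : ResidualGaloisRep k) : ρ.baseChangeAlong (algebraMap k k') = ρ.baseChange k' := by
  have h : (algebraMap k k').toAlgebra = (inferInstance : Algebra k k') :=
    Algebra.algebra_ext _ _ fun _ => rfl
  show @ResidualGaloisRep.baseChange k _ k' _ ((algebraMap k k').toAlgebra) ρ = _
  rw [h]

/-- the residual representation of `tO` is the base change of `W[p]` -/
theorem tO_residual_baseChange [Algebra (ZMod p) (ResidueField O)] :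
    (tO W hΔ hpO).residual.IsEquiv ((resZ W hΔ p).baseChange (ResidueField O)) := by
  rw [← baseChangeAlong_algebraMap]
  exact PT.tO_residual hΔ hpO (algebraMap (ZMod p) (ResidueField O))

/-- the facts on the auxiliary prime -/
def Aux (W : WeierstrassCurve ℤ) (p s : ℕ) : Prop :=
  (p = 3 → s.Prime ∧ s % 3 = 2 ∧ W.IsGoodPrimeFor s ∧ ¬ (3 : ℤ) ∣ W.apOfModel s) ∧
    (p ≠ 3 → s = 1)

/-- **The Hecke side of a level**, general type at `p`. -/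
theorem exists_hecke_all (h34 : StatementS34) (hp2 : p ≠ 2)
    (hρ : (tO W hΔ hpO).residual.IsEquiv ρbar) (hirr : ρbar.IsIrreducible)
    {M L : ℕ} [NeZero M] [NeZero L] (hM : W.IsResiduallyModularOfLevel p M) (hML : M ∣ L)
    (S : Finset ℕ) (hpS : p ∈ S) (hLS : Adm (↑S : Set ℕ) L)
    (hSW : ∀ ℓ : ℕ, ℓ.Prime → ℓ ∉ S → W.IsGoodPrimeFor ℓ)
    (G : GalLevelB p ρbar b pd A qT pl u qB plB uB k n S₀)
    (h𝒟p : ∀ χ : heckeAlgebra L 2 (↑S : Set ℕ) →+* ResidueField O,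
      ∀ H : HeckeGaloisRepDatum L (↑S : Set ℕ) O χ (heckeLocal L (↑S : Set ℕ) O χ),
      H.ρ.residual.IsEquiv (ρbar.baseChangeAlong
        (ResidueField.map (algebraMap O (heckeLocal L (↑S : Set ℕ) O χ)))) → pd.𝒟p H.ρ)
    {s : ℕ} (haux : Aux W p s)
    (hN : ∀ q : ℕ, q.Prime → q ∣ L → q = p ∨ q ∈ A ∨ (∃ t, qT t = q) ∨ (∃ i, qB i = q) ∨
      (∃ i, G.qv i = q) ∨ q = s)
    (hA : ∀ q ∈ A, ¬ q ^ 2 ∣ L) (hB : ∀ i, ¬ (qB i) ^ 2 ∣ L) (hs : p = 3 → ¬ s ^ 2 ∣ L) :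
    ∃ χ : heckeAlgebra L 2 (↑S : Set ℕ) →+* ResidueField O,
      (∀ i : Pr (↑S : Set ℕ), χ (evHA hLS (MvPolynomial.X i)) =
        ((W.apOfModel i.1 : ℤ) : ResidueField O)) ∧
    ∃ (H : HeckeGaloisRepDatum L (↑S : Set ℕ) O χ (heckeLocal L (↑S : Set ℕ) O χ))
      (π : G.D.R →ₐ[O] heckeLocal L (↑S : Set ℕ) O χ)
      (b₂ : Module.Basis (Fin 2) (heckeLocal L (↑S : Set ℕ) O χ) H.ρ.V),
      H.π = heckeLocal.π L (↑S : Set ℕ) O χ ∧ Function.Surjective π ∧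
      toMat H.ρ.ρ b₂ = mapMat (π : G.D.R →+* heckeLocal L (↑S : Set ℕ) O χ)
        (toMat G.D.ρ.ρ G.b₁) ∧
      (∀ q : ℕ, q.Prime → ¬ q ∣ L → q ≠ p → H.ρ.IsUnramifiedAt q) := by
  letI : Algebra (ZMod p) (ResidueField O) := ZMod.algebra _ p
  have hSW' : ∀ ℓ : ℕ, ℓ.Prime → ℓ ∉ (↑S : Set ℕ) → W.IsGoodPrimeFor ℓ ∧ ℓ ≠ p :=
    fun ℓ hℓ hℓS => ⟨hSW ℓ hℓ (by exact_mod_cast hℓS),
      fun h => hℓS (by rw [h]; exact_mod_cast hpS)⟩
  obtain ⟨χ, hχ⟩ := H59.exists_kchar (O := O) hM hML hLS hSW'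
  refine ⟨χ, hχ, exists_hecke hΔ hpO h34 hp2 hρ hirr S hpS hLS hSW χ hχ G (h𝒟p χ) ?_
    (fun q hq _ _ => hA q hq) hB⟩
  intro q hq hqL hqp
  rcases hN q hq hqL with h | h | h | h | h | h
  · exact absurd h hqp
  · exact Or.inl h
  · exact Or.inr (Or.inl h)
  · exact Or.inr (Or.inr (Or.inl h))
  · exact Or.inr (Or.inr (Or.inr (Or.inl h)))
  · refine Or.inr (Or.inr (Or.inr (Or.inr fun H hres => ?_)))
    subst h
    by_cases hp3 : p = 3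
    · obtain ⟨h1, h2, h3, h4⟩ := haux.1 hp3
      exact unramified_aux hΔ hpO h34 hρ S hpS hLS χ hp3 h1 h2 h3 h4 hqL (hs hp3) H hres
    · exact absurd hq (by rw [haux.2 hp3]; exact Nat.not_prime_one)

/-- **type F**: flat at `p` -/
theorem exists_hecke_flat (h32 : StatementS32) (h34 : StatementS34) (hp2 : p ≠ 2)
    (hρ : (tO W hΔ hpO).residual.IsEquiv ρbar) (hirr : ρbar.IsIrreducible)
    {M L : ℕ} [NeZero M] [NeZero L] (hM : W.IsResiduallyModularOfLevel p M) (hML : M ∣ L)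
    (S : Finset ℕ) (hpS : p ∈ S) (hLS : Adm (↑S : Set ℕ) L)
    (hSW : ∀ ℓ : ℕ, ℓ.Prime → ℓ ∉ S → W.IsGoodPrimeFor ℓ)
    (hpL : ¬ p ∣ L)
    {F : ∀ [Algebra (ZMod p) (ResidueField O)], H56.StatementF (k := ResidueField O) p}
    {hdet : (GaloisRepAdic.ofResidualGaloisRep ρbar).DetIsCyclotomic p}
    {hsplit : ∀ σ : AlgebraicClosure ℚ ≃ₐ[ℚ] AlgebraicClosure ℚ,
      ∃ α β : ResidueField O, LinearMap.charpoly (ρbar.ρ σ) = (X - C α) * (X - C β)}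
    {hflat : (GaloisRepAdic.ofResidualGaloisRep ρbar).IsFlatAt p}
    (G : GalLevelB p ρbar b (PData.flat ρbar b F hdet hsplit hflat) A qT pl u qB plB uB k n S₀)
    {s : ℕ} (haux : Aux W p s)
    (hN : ∀ q : ℕ, q.Prime → q ∣ L → q = p ∨ q ∈ A ∨ (∃ t, qT t = q) ∨ (∃ i, qB i = q) ∨
      (∃ i, G.qv i = q) ∨ q = s)
    (hA : ∀ q ∈ A, ¬ q ^ 2 ∣ L) (hB : ∀ i, ¬ (qB i) ^ 2 ∣ L) (hs : p = 3 → ¬ s ^ 2 ∣ L) :
    ∃ χ : heckeAlgebra L 2 (↑S : Set ℕ) →+* ResidueField O,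
      (∀ i : Pr (↑S : Set ℕ), χ (evHA hLS (MvPolynomial.X i)) =
        ((W.apOfModel i.1 : ℤ) : ResidueField O)) ∧
    ∃ (H : HeckeGaloisRepDatum L (↑S : Set ℕ) O χ (heckeLocal L (↑S : Set ℕ) O χ))
      (π : G.D.R →ₐ[O] heckeLocal L (↑S : Set ℕ) O χ)
      (b₂ : Module.Basis (Fin 2) (heckeLocal L (↑S : Set ℕ) O χ) H.ρ.V),
      H.π = heckeLocal.π L (↑S : Set ℕ) O χ ∧ Function.Surjective π ∧
      toMat H.ρ.ρ b₂ = mapMat (π : G.D.R →+* heckeLocal L (↑S : Set ℕ) O χ)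
        (toMat G.D.ρ.ρ G.b₁) ∧
      (∀ q : ℕ, q.Prime → ¬ q ∣ L → q ≠ p → H.ρ.IsUnramifiedAt q) :=
  exists_hecke_all hΔ hpO h34 hp2 hρ hirr hM hML S hpS hLS hSW G
    (fun χ H _ => h32 Fact.out hp2 hpO hpL hpS (fun q hq hqL => by exact_mod_cast hLS q hq hqL) H)
    haux hN hA hB hs

/-- **types Pα, Pβ**: ordinary at `p` -/
theorem exists_hecke_ord (h32 : StatementS32) (h33 : StatementS33) (h34 : StatementS34)
    (hp2 : p ≠ 2)
    (hρ : (tO W hΔ hpO).residual.IsEquiv ρbar) (hirr : ρbar.IsIrreducible)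
    {M L : ℕ} [NeZero M] [NeZero L] (hM : W.IsResiduallyModularOfLevel p M) (hML : M ∣ L)
    (S : Finset ℕ) (hpS : p ∈ S) (hLS : Adm (↑S : Set ℕ) L)
    (hSW : ∀ ℓ : ℕ, ℓ.Prime → ℓ ∉ S → W.IsGoodPrimeFor ℓ)
    (hpL : ¬ p ^ 2 ∣ L)
    {hp2' : p ≠ 2} {hdet : (GaloisRepAdic.ofResidualGaloisRep ρbar).DetIsCyclotomic p}
    {hord : (GaloisRepAdic.ofResidualGaloisRep ρbar).IsOrdinaryAt p}
    {φ σ₀ : GQ} {hm : MarkElts p φ σ₀} {hr0 : toMat ρbar.ρ b σ₀ = 1} {w : ℤ} {hw : w ^ 2 = 1}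
    {g₀ : (M2 (ResidueField O))ˣ} {hg₀ : OrdI p (cj g₀ (toMat ρbar.ρ b))}
    {hu : cj g₀ (toMat ρbar.ρ b) φ 1 1 = (w : ResidueField O)}
    (G : GalLevelB p ρbar b (PData.ord hp2' ρbar b hdet hord hm hr0 w hw hg₀ hu) A qT pl u qB plB
      uB k n S₀)
    {s : ℕ} (haux : Aux W p s)
    (hN : ∀ q : ℕ, q.Prime → q ∣ L → q = p ∨ q ∈ A ∨ (∃ t, qT t = q) ∨ (∃ i, qB i = q) ∨
      (∃ i, G.qv i = q) ∨ q = s)
    (hA : ∀ q ∈ A, ¬ q ^ 2 ∣ L) (hB : ∀ i, ¬ (qB i) ^ 2 ∣ L) (hs : p = 3 → ¬ s ^ 2 ∣ L) :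
    ∃ χ : heckeAlgebra L 2 (↑S : Set ℕ) →+* ResidueField O,
      (∀ i : Pr (↑S : Set ℕ), χ (evHA hLS (MvPolynomial.X i)) =
        ((W.apOfModel i.1 : ℤ) : ResidueField O)) ∧
    ∃ (H : HeckeGaloisRepDatum L (↑S : Set ℕ) O χ (heckeLocal L (↑S : Set ℕ) O χ))
      (π : G.D.R →ₐ[O] heckeLocal L (↑S : Set ℕ) O χ)
      (b₂ : Module.Basis (Fin 2) (heckeLocal L (↑S : Set ℕ) O χ) H.ρ.V),
      H.π = heckeLocal.π L (↑S : Set ℕ) O χ ∧ Function.Surjective π ∧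
      toMat H.ρ.ρ b₂ = mapMat (π : G.D.R →+* heckeLocal L (↑S : Set ℕ) O χ)
        (toMat G.D.ρ.ρ G.b₁) ∧
      (∀ q : ℕ, q.Prime → ¬ q ∣ L → q ≠ p → H.ρ.IsUnramifiedAt q) :=
  exists_hecke_all hΔ hpO h34 hp2 hρ hirr hM hML S hpS hLS hSW G
    (fun χ H hres => ordinary_datum_all h32 h33 hp2 hpO hpL hpS
      (fun q hq hqL => by exact_mod_cast hLS q hq hqL) H _ hres hord)
    haux hN hA hB hs

/-- **type O**: strictly ordinary at `p`, the residual representation is not trivial at `σ₀` -/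
theorem exists_hecke_strict (h33 : StatementS33) (h34 : StatementS34)
    (hp2 : p ≠ 2)
    (hρ : (tO W hΔ hpO).residual.IsEquiv ρbar) (hirr : ρbar.IsIrreducible)
    {M L : ℕ} [NeZero M] [NeZero L] (hM : W.IsResiduallyModularOfLevel p M) (hML : M ∣ L)
    (S : Finset ℕ) (hpS : p ∈ S) (hLS : Adm (↑S : Set ℕ) L)
    (hSW : ∀ ℓ : ℕ, ℓ.Prime → ℓ ∉ S → W.IsGoodPrimeFor ℓ)
    (hpL1 : p ∣ L) (hpL : ¬ p ^ 2 ∣ L)
    {hp2' : p ≠ 2}
    {O' : ∀ [Algebra (ZMod p) (ResidueField O)], H56.StatementO (k := ResidueField O) p}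
    {hdet : (GaloisRepAdic.ofResidualGaloisRep ρbar).DetIsCyclotomic p}
    {hord : (GaloisRepAdic.ofResidualGaloisRep ρbar).IsStrictOrdinaryAt p}
    {φ σ₀ : GQ} (hm : MarkElts p φ σ₀) (hne : toMat ρbar.ρ b σ₀ ≠ 1)
    (G : GalLevelB p ρbar b (PData.strict hp2' ρbar b O' hdet hord) A qT pl u qB plB
      uB k n S₀)
    {s : ℕ} (haux : Aux W p s)
    (hN : ∀ q : ℕ, q.Prime → q ∣ L → q = p ∨ q ∈ A ∨ (∃ t, qT t = q) ∨ (∃ i, qB i = q) ∨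
      (∃ i, G.qv i = q) ∨ q = s)
    (hA : ∀ q ∈ A, ¬ q ^ 2 ∣ L) (hB : ∀ i, ¬ (qB i) ^ 2 ∣ L) (hs : p = 3 → ¬ s ^ 2 ∣ L) :
    ∃ χ : heckeAlgebra L 2 (↑S : Set ℕ) →+* ResidueField O,
      (∀ i : Pr (↑S : Set ℕ), χ (evHA hLS (MvPolynomial.X i)) =
        ((W.apOfModel i.1 : ℤ) : ResidueField O)) ∧
    ∃ (H : HeckeGaloisRepDatum L (↑S : Set ℕ) O χ (heckeLocal L (↑S : Set ℕ) O χ))
      (π : G.D.R →ₐ[O] heckeLocal L (↑S : Set ℕ) O χ)
      (b₂ : Module.Basis (Fin 2) (heckeLocal L (↑S : Set ℕ) O χ) H.ρ.V),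
      H.π = heckeLocal.π L (↑S : Set ℕ) O χ ∧ Function.Surjective π ∧
      toMat H.ρ.ρ b₂ = mapMat (π : G.D.R →+* heckeLocal L (↑S : Set ℕ) O χ)
        (toMat G.D.ρ.ρ G.b₁) ∧
      (∀ q : ℕ, q.Prime → ¬ q ∣ L → q ≠ p → H.ρ.IsUnramifiedAt q) :=
  exists_hecke_all hΔ hpO h34 hp2 hρ hirr hM hML S hpS hLS hSW G
    (fun χ H hres => by
      haveI : Finite (ResidueField (heckeLocal L (↑S : Set ℕ) O χ)) :=
        Finite.of_surjective (ResidueField.map (algebraMap O (heckeLocal L (↑S : Set ℕ) O χ)))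
          (fun x => by
            obtain ⟨y, hy⟩ := H.residue_surjective x
            exact ⟨residue O y, by rw [ResidueField.map_residue]; exact hy⟩)
      exact strictOrdinary_datum h33 hp2 hpO hpL1 hpL
        (fun q hq hqL => by exact_mod_cast hLS q hq hqL) H _ hres hord.isOrdinaryAt b hm hne)
    haux hN hA hB hs

end Fermat.Agent.H30.S59
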