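import Fermat.Agent.H33Main
import Fermat.Agent.H33Reduce
import Fermat.Agent.H33Facts

/-!
# Assembly of S33 (helper33)
-/

set_option autoImplicit false
set_option linter.unusedSectionVars false

open scoped TensorProduct
open ModularCurve AlgebraicCurve Fermat.Agent.H30

namespace Fermat.Agent.H33

local notation "Qb" => AlgebraicClosure ℚ
local notation "Gq" => AlgebraicClosure ℚ ≃ₐ[ℚ] AlgebraicClosure ℚ

section Fin

variable {p : ℕ} {𝒪 : Type} [CommRing 𝒪] [IsDomain 𝒪] [IsDiscreteValuationRing 𝒪]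
  [Finite (IsLocalRing.ResidueField 𝒪)] [CharZero 𝒪]

variable (𝒪) in
theorem finite_quotient_p (hp : p.Prime) :
    Finite (𝒪 ⧸ Ideal.span {(p : 𝒪)}) := by
  rw [IsLocalRing.finite_quotient_iff]
  obtain ⟨ϖ, hϖ⟩ := IsDiscreteValuationRing.exists_irreducible 𝒪
  have hp0 : (p : 𝒪) ≠ 0 := by exact_mod_cast hp.ne_zero
  obtain ⟨n, u, hu⟩ := IsDiscreteValuationRing.eq_unit_mul_pow_irreducible hp0 hϖ
  refine ⟨n, ?_⟩
  rw [hϖ.maximalIdeal_eq, Ideal.span_singleton_pow, Ideal.span_singleton_le_span_singleton, hu]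
  exact Units.mul_left_dvd.mpr dvd_rfl

theorem finite_quotient_T (𝒪 : Type) [CommRing 𝒪] [IsDomain 𝒪] [IsDiscreteValuationRing 𝒪]
    [Finite (IsLocalRing.ResidueField 𝒪)] [CharZero 𝒪] {T : Type} [CommRing T] [Algebra 𝒪 T]
    [Module.Finite 𝒪 T] (hp : p.Prime) :
    Finite (T ⧸ Ideal.span {(p : T)}) := by
  have h1 : Finite (𝒪 ⧸ Ideal.span {(p : 𝒪)}) := finite_quotient_p 𝒪 hp
  have h2 : Finite (T ⧸ (⊤ : Submodule 𝒪 T)) := inferInstance
  have h3 : Finite (T ⧸ (Ideal.span {(p : 𝒪)} • (⊤ : Submodule 𝒪 T))) :=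
    Submodule.finite_quotient_smul _ Module.Finite.fg_top
  have hle : (Ideal.span {(p : 𝒪)} • (⊤ : Submodule 𝒪 T)) ≤
      (Ideal.span {(p : T)}).restrictScalars 𝒪 := by
    rw [Submodule.ideal_span_singleton_smul]
    intro x hx
    obtain ⟨y, -, rfl⟩ := (Submodule.mem_smul_pointwise_iff_exists _ _ _).mp hx
    rw [Submodule.restrictScalars_mem, Ideal.mem_span_singleton]
    exact ⟨y, by rw [Nat.cast_smul_eq_nsmul, nsmul_eq_mul]⟩
  exact Finite.of_surjective (Submodule.mapQ _ ((Ideal.span {(p : T)}).restrictScalars 𝒪)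
    LinearMap.id hle) (by
      intro y
      obtain ⟨x, rfl⟩ := Submodule.Quotient.mk_surjective _ y
      exact ⟨Submodule.Quotient.mk x, rfl⟩)

end Fin

section Combine

variable {T : Type} [CommRing T] [IsLocalRing T] {ρ : GaloisRepAdic T} {I : Ideal T}
  {p : ℕ} [Fact p.Prime] [NeZero p] {M : ℕ} [NeZero M] {A : ValuationSubring Qb}

theorem false_of_hom (hp2 : 2 < p) (hA : A.LiesOverPrime p) (F : InertiaFacts p A)
    (hpM : ¬ p ∣ M) (hCL : CLp p M A) (hSS : ∀ w, SS2p p M A w)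
    (hirr : ρ.residual.IsAbsolutelyIrreducible)
    (hdet : ρ.DetIsCyclotomic p)
    (hres : (GaloisRepAdic.ofResidualGaloisRep ρ.residual).IsOrdinaryAt p)
    (hnil : ∃ n : ℕ, IsLocalRing.maximalIdeal T ^ n ≤ Ideal.span {(p : T)})
    (hQ : Finite (ρ.V ⧸ (Ideal.span {(p : T)} • (⊤ : Submodule T ρ.V))))
    {m : ℕ} {c : T} (hc : c - (p : T) ^ m ∈ I)
    (hD : ∀ v, c • v ∈ diffSub ρ A) {h : ρ.V →+ TateMod p (JZero (M * p))}
    (hh : IsRealHom ρ I h) (h0 : h ≠ 0) : False := by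
  have hαG : ∀ (σ : Gq) (x : JZero (M * p)), H67.pushP (heckeAlphaBar Qb M p) (σ • x) =
      σ • H67.pushP (heckeAlphaBar Qb M p) x := by
    rw [H67.alpha_eq_dg]
    exact H67.pushP_dg_smul 1 _
  by_cases hall : ∀ h : ρ.V →+ TateMod p (JZero (M * p)), IsRealHom ρ I h →
      ∀ v, H67.pushP (heckeAlphaBar Qb M p) (bar h v) = 0
  · exact false_of_new (by omega) hA hpM hSS hirr hdet hc hD hh h0 hall
  · push Not at hall
    obtain ⟨g, hg, v, hv⟩ := hall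
    refine false_of_old hp2 hA F hpM hCL hirr hdet hres hnil hQ hc hD
      (hg.comp (H67.pushP (heckeAlphaBar Qb M p)) hαG) ?_
    intro h1
    apply hv
    have h2 := DFunLike.congr_fun h1 v
    have h3 : H35.tateMap (p := p) (H67.pushP (heckeAlphaBar Qb M p)) (g v) = 0 := h2
    have h4 := congrArg (TateMod.proj 1) h3
    rw [H35.proj_tateMap, map_zero] at h4
    exact h4

end Combine

section Final

variable {p : ℕ} {N : ℕ} [NeZero N] {S : Finset ℕ}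
  {𝒪 : Type} [CommRing 𝒪] [IsDomain 𝒪] [IsDiscreteValuationRing 𝒪]
  [IsAdicComplete (IsLocalRing.maximalIdeal 𝒪) 𝒪]
  {θ : CuspForm.heckeAlgebra N 2 (↑S : Set ℕ) →+* IsLocalRing.ResidueField 𝒪}
  {T : Type} [CommRing T] [IsLocalRing T] [IsNoetherianRing T]
  [IsAdicComplete (IsLocalRing.maximalIdeal T) T] [Algebra 𝒪 T] [IsLocalHom (algebraMap 𝒪 T)]
  [Module.Finite 𝒪 T] [Module.Free 𝒪 T]

theorem finite_residueField_datum [Finite (IsLocalRing.ResidueField 𝒪)]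
    (H : CuspForm.HeckeGaloisRepDatum N (↑S : Set ℕ) 𝒪 θ T) :
    Finite (IsLocalRing.ResidueField T) := by
  refine Finite.of_surjective (IsLocalRing.ResidueField.map (algebraMap 𝒪 T)) ?_
  intro y
  obtain ⟨x, hx⟩ := H.residue_surjective y
  exact ⟨IsLocalRing.residue 𝒪 x, by rw [← hx]; rfl⟩

theorem S33_of [Fact p.Prime] [Finite (IsLocalRing.ResidueField 𝒪)] [CharZero 𝒪]
    (hp : p.Prime) (hp2 : p ≠ 2) (hp𝒪 : (p : 𝒪) ∈ IsLocalRing.maximalIdeal 𝒪)
    (hN : p ∣ N ∧ ¬ p ^ 2 ∣ N) (hNS : ∀ q : ℕ, q.Prime → q ∣ N → q ∈ S)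
    (H : CuspForm.HeckeGaloisRepDatum N (↑S : Set ℕ) 𝒪 θ T)
    (hres : (GaloisRepAdic.ofResidualGaloisRep H.ρ.residual).IsOrdinaryAt p)
    (hCL : ∀ (M : ℕ) [NeZero M], ¬ p ∣ M → ∀ A : ValuationSubring Qb, A.LiesOverPrime p →
      CLp p M A)
    (hSS : ∀ (M : ℕ) [NeZero M] [NeZero p], ¬ p ∣ M → ∀ A : ValuationSubring Qb,
      A.LiesOverPrime p → ∀ w : H99.AL Qb M p, SS2p p M A w)
    (hPt : ∀ {K : Type} [Field K] [Algebra 𝒪 K] [FaithfulSMul 𝒪 K] (ψ : T →ₐ[𝒪] K),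
      ∃ h : H.ρ.V →+ TateMod p (JZero N), h ≠ 0 ∧
        (∀ σ v, h (H.ρ.ρ σ v) = galTate p (JZero N) σ (h v)) ∧
        (∀ t : T, ψ t = 0 → ∀ v, h (t • v) = 0)) :
    H.ρ.IsOrdinaryAt p := by
  have : NeZero p := ⟨hp.ne_zero⟩
  obtain ⟨M, rfl⟩ : ∃ M, N = M * p := by
    obtain ⟨M, hM⟩ := hN.1
    exact ⟨M, by rw [hM, mul_comm]⟩
  have hpM : ¬ p ∣ M := fun h => hN.2 (by rw [pow_two]; exact mul_dvd_mul_right h p)
  have : NeZero M := ⟨left_ne_zero_of_mul (NeZero.ne (M * p))⟩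
  have hfinT : Finite (T ⧸ Ideal.span {(p : T)}) := finite_quotient_T 𝒪 hp
  have hκ : Finite (IsLocalRing.ResidueField T) := finite_residueField_datum H
  have hnil : ∃ n : ℕ, IsLocalRing.maximalIdeal T ^ n ≤ Ideal.span {(p : T)} :=
    IsLocalRing.finite_quotient_iff.mp hfinT
  have hQ : Finite (H.ρ.V ⧸ (Ideal.span {(p : T)} • (⊤ : Submodule T H.ρ.V))) :=
    Submodule.finite_quotient_smul _ Module.Finite.fg_top
  have hdet := datum_detIsCyclotomic hp hp𝒪 hNS H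
  have hfs : FaithfulSMul 𝒪 (AlgebraicClosure (FractionRing 𝒪)) := by
    rw [faithfulSMul_iff_algebraMap_injective,
      IsScalarTower.algebraMap_eq 𝒪 (FractionRing 𝒪) (AlgebraicClosure (FractionRing 𝒪))]
    exact (algebraMap (FractionRing 𝒪) (AlgebraicClosure (FractionRing 𝒪))).injective.comp
      (IsFractionRing.injective 𝒪 (FractionRing 𝒪))
  refine S33_of_functional hp hp2 hp𝒪 hNS H (K := AlgebraicClosure (FractionRing 𝒪)) ?_
  intro A hA ψ
  letI : Algebra T (AlgebraicClosure (FractionRing 𝒪)) := ψ.toRingHom.toAlgebra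
  by_contra hno
  obtain ⟨t, ht, htD⟩ := exists_smul_mem_diffSub H.ρ A hno
  obtain ⟨m, c, hc⟩ := exists_mul_sub_pow hp𝒪 ψ (t := t) ht
  obtain ⟨h, h0, hG, hker⟩ := hPt ψ
  have hh : IsRealHom H.ρ (RingHom.ker ψ) h := ⟨hG, fun t ht v => hker t ht v⟩
  refine false_of_hom (c := c * t) (m := m) (lt_of_le_of_ne hp.two_le (Ne.symm hp2)) hA
    (inertiaFacts hA) hpM (hCL M hpM A hA) (hSS M hpM A hA) H.residual_absIrr hdet hres hnil hQ
    hc (fun v => ?_) hh h0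
  rw [mul_smul]
  exact (diffSub H.ρ A).smul_mem c (htD v)

end Final

end Fermat.Agent.H33
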