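import Fermat.Agent.H30Act
import Fermat.Agent.H30S59b
import Fermat.Agent.H30PT2
import Fermat.Agent.S32
import Fermat.Agent.S33
import Fermat.Agent.S34

/-!
# Guide: Galois representations over Hecke rings and the map `R → T`

Statements served: S59, S60, S50 and through them S46, S45, S38, S06, S04, S03, S01; sections 1 to 3,
`residual_unique`, `exists_datum` and `datum_det` also S43; `datum_flatType` S43 and through it S45,
S03, S01.  (`det_involution`, `residual_unique`, `tate_frobenius` also S58, `datum_det` also S33.)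
The theorems of this file are the "Hecke side" of the modularity lifting theorem.
Companion files: GuideGalois (S30, S32: representations over discrete
valuation rings), GuideTateJacobian (S30 from the Tate module of `J_0(N)`), GuideUnramified (S31),
GuideOrdinary (S33), GuideNewforms, GuideBadRed and GuideLatticeReps (S34), GuideDeformations (S53,
S54: the deformation rings `R`), GuidePetersson (reducedness), GuideTWModules and GuideLiftingHecke
(the Hecke modules), GuideLifting and GuideLiftingComposition (patching and the levels of S59).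
NOTES.md: [80] NOTES-GALREP-S30, sections B, C, D.

**What the block does.**  `T` is the completion of the Hecke algebra of `S_2(Γ_0(N))` at a residual
eigensystem `θ` whose residual representation is irreducible.

1. (Section 1) `T = heckeLocal N S 𝒪 θ`: it is generated by the Hecke operators, it is reduced, and
   every relation between Hecke operators in `T` comes from relations with integral coefficients;
   hence `T` acts on every localised Hecke module, as soon as the integral relations hold there.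
2. (Section 2) Every minimal prime of `T` gives, by S30, a representation over a discrete valuation
   ring finite over `𝒪` (a "point" of `T`).
3. (Section 3) Gluing.  The traces of the representations at the points lie in `T`, because `T` is
   closed in the product of the points and the traces of Frobenius elements lie in `T`.  The
   representation over `T` is then written down with the help of a complex conjugation `c`, which is
   conjugate to `diag(1, -1)` at every point (Wiles 1988): if `t` is the trace,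
   `a(g) = (t(g) + t(cg)) / 2`, `d(g) = (t(g) - t(cg)) / 2`, `x(g, h) = a(gh) - a(g) a(h)`, and
   `x(g₀, h₀)` is a unit, then `g ↦ (a(g), x(g, h₀) / x(g₀, h₀); x(g₀, g), d(g))` is the
   representation.  No theorem of Carayol, Nyssen or Rouquier on pseudo-representations is needed.
4. (Section 4) The datum `(T, π, ρ)` and the surjection `R → T` for deformation rings of a given type.
5. (Section 5) The types: determinant, conditions at the primes of the level, flat, ordinary and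
   strictly ordinary at `p`.
6. (Section 6) The Tate module of a semistable elliptic curve as a point of the deformation ring, and
   the summary used at every level of the lifting theorem.
-/

set_option autoImplicit false

open IsLocalRing

namespace Fermat.Agent.Guide.HeckeRings

/-- An algebraic closure of `ℚ`. -/
local notation "Qb" => AlgebraicClosure ℚ

/-- The absolute Galois group of `ℚ`. -/
local notation "Gℚ" => AlgebraicClosure ℚ ≃ₐ[ℚ] AlgebraicClosure ℚ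

/-! ## 1. The local component of the Hecke algebra -/

/-- **The local component.**  `heckeBaseAlgebra N S 𝒪` is `𝒪 ⊗ 𝕋`, where `𝕋` is the ring generated by
the Hecke operators on the lattice `intLattice N 2` of the cusp forms with integral `q`-expansion,
and `heckeLocal N S 𝒪 θ` is its localisation at the kernel of `𝒪 ⊗ 𝕋 → 𝒪 / 𝔪`, `a ⊗ t ↦ a θ(t)`
(precisely: at the image of the complement of the kernel of `𝒪 ⊗ heckeAlgebra N 2 S → 𝒪 / 𝔪`).
It is noetherian, finite and free over `𝒪`, and, by S23 (cusp forms have a basis with integral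
`q`-expansions), it is a complete local ring.  In the notes it is called `T`. -/
theorem heckeLocal_eq (N : ℕ) [NeZero N] (S : Set ℕ)
    (𝒪 : Type) [CommRing 𝒪] [IsDomain 𝒪] [IsDiscreteValuationRing 𝒪]
    [IsAdicComplete (maximalIdeal 𝒪) 𝒪]
    (θ : CuspForm.heckeAlgebra N 2 S →+* ResidueField 𝒪) :
    CuspForm.heckeLocal N S 𝒪 θ = Localization (CuspForm.heckeLocalSubmonoid N S 𝒪 θ) ∧
      IsNoetherianRing (CuspForm.heckeLocal N S 𝒪 θ) ∧
      Module.Finite 𝒪 (CuspForm.heckeLocal N S 𝒪 θ) ∧ Module.Free 𝒪 (CuspForm.heckeLocal N S 𝒪 θ) ∧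
      IsLocalRing (CuspForm.heckeLocal N S 𝒪 θ) ∧
      IsAdicComplete (maximalIdeal (CuspForm.heckeLocal N S 𝒪 θ)) (CuspForm.heckeLocal N S 𝒪 θ) :=
  ⟨rfl, inferInstance, inferInstance, inferInstance, inferInstance, inferInstance⟩

/-- **`T` is generated as an `𝒪`-algebra by the Hecke operators**: `heckeLocal.π` is the map from
the Hecke algebra `heckeAlgebra N 2 S` (generated over `ℤ` by the `T_ℓ`, `ℓ ∤ N`, `ℓ ∉ S`, and the
`U_q`, `q ∣ N`, `q ∉ S`, acting on `S_2(Γ_0(N))`) to `T`.  Proved in `H30Local`. -/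
theorem generated_by_hecke (N : ℕ) [NeZero N] (S : Set ℕ)
    (𝒪 : Type) [CommRing 𝒪] [IsDomain 𝒪] [IsDiscreteValuationRing 𝒪]
    [IsAdicComplete (maximalIdeal 𝒪) 𝒪]
    (θ : CuspForm.heckeAlgebra N 2 S →+* ResidueField 𝒪) :
    Algebra.adjoin 𝒪 (Set.range (CuspForm.heckeLocal.π N S 𝒪 θ)) = ⊤ :=
  H30.adjoin_range_π N S 𝒪 θ

/-- **`T` is reduced** if `S` contains the prime divisors of `N`: the `T_ℓ`, `ℓ ∤ N`, are self-adjoint
for the Petersson scalar product (`H70PetSpace`), hence simultaneously diagonalisable; so the Hecke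
algebra is reduced, its elements are roots of integral polynomials which are separable over `ℚ`, and
`T` is generated by such elements over a domain of characteristic zero.  Proved by helper70 in
`H70Reduced`; see GuidePetersson. -/
theorem heckeLocal_isReduced {N : ℕ} [NeZero N] {S : Set ℕ}
    (hNS : ∀ q : ℕ, q.Prime → q ∣ N → q ∈ S)
    {𝒪 : Type} [CommRing 𝒪] [IsDomain 𝒪] [IsDiscreteValuationRing 𝒪]
    [IsAdicComplete (maximalIdeal 𝒪) 𝒪] [CharZero 𝒪]
    (θ : CuspForm.heckeAlgebra N 2 S →+* ResidueField 𝒪) :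
    IsReduced (CuspForm.heckeLocal N S 𝒪 θ) :=
  H70.isReduced_of_adjoin_heckeAlgebra hNS (CuspForm.heckeLocal.π N S 𝒪 θ)
    (H30.adjoin_range_π N S 𝒪 θ)

/-- **Polynomials in the Hecke operators.**  `S` contains the prime divisors of `N`; variables `X i`
for the primes `i ∉ S`.  `TIdx i` is the Hecke operator `T_i`, `evZ P₀` the value at the `T_i` of a
polynomial with integral coefficients in the Hecke algebra, `toLocal P` the value of a polynomial
with coefficients in `𝒪` in `T`, `thetaPoly P` its value at the `θ(T_i)` in the residue field of `𝒪`.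
Definitions in `H30Act`. -/
theorem polynomials (N : ℕ) [NeZero N] (S : Set ℕ)
    (hNS : ∀ q : ℕ, q.Prime → q ∣ N → q ∈ S)
    (𝒪 : Type) [CommRing 𝒪] [IsDomain 𝒪] [IsDiscreteValuationRing 𝒪]
    [IsAdicComplete (maximalIdeal 𝒪) 𝒪]
    (θ : CuspForm.heckeAlgebra N 2 S →+* ResidueField 𝒪) (i : {ℓ : ℕ // ℓ.Prime ∧ ℓ ∉ S}) (a : 𝒪) :
    H30.TIdx N S hNS i =
      CuspForm.heckeAlgebra.T i.2.1 (fun h => i.2.2 (hNS i.1 i.2.1 h)) i.2.2 ∧
    H30.evZ N S hNS (MvPolynomial.X i) = H30.TIdx N S hNS i ∧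
    H30.toLocal N S hNS 𝒪 θ (MvPolynomial.X i) =
      CuspForm.heckeLocal.π N S 𝒪 θ (H30.TIdx N S hNS i) ∧
    H30.thetaPoly N S hNS 𝒪 θ (MvPolynomial.X i) = θ (H30.TIdx N S hNS i) ∧
    H30.thetaPoly N S hNS 𝒪 θ (MvPolynomial.C a) = residue 𝒪 a :=
  ⟨rfl, H30.evZ_X N S hNS i, H30.toLocal_X N S hNS 𝒪 θ i, H30.thetaPoly_X N S hNS 𝒪 θ i,
    H30.thetaPoly_C N S hNS 𝒪 θ a⟩

/-- **Relations in `T` come from integral relations.**  If `P(T_i) = 0` in `T` for a polynomial `P`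
with coefficients in `𝒪`, then there is a polynomial `s` with `s(θ(T_i)) ≠ 0` such that `s P` lies in
the ideal generated by the polynomials `P₀` with integral coefficients such that `P₀(T_i) = 0` in the
Hecke algebra.  (The tensor product is right exact, so the kernel of `𝒪[X] → 𝒪 ⊗ heckeAlgebra N 2 S`
is generated by that of `ℤ[X] → heckeAlgebra N 2 S`; and by S23 the Hecke algebra acts faithfully on
the lattice of integral forms, by which `T` is defined.)  Proved in `H30Act`. -/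
theorem relations_are_integral (N : ℕ) [NeZero N] (S : Set ℕ)
    (hNS : ∀ q : ℕ, q.Prime → q ∣ N → q ∈ S)
    (𝒪 : Type) [CommRing 𝒪] [IsDomain 𝒪] [IsDiscreteValuationRing 𝒪]
    [IsAdicComplete (maximalIdeal 𝒪) 𝒪]
    (θ : CuspForm.heckeAlgebra N 2 S →+* ResidueField 𝒪)
    (P : MvPolynomial {ℓ : ℕ // ℓ.Prime ∧ ℓ ∉ S} 𝒪) (hP : H30.toLocal N S hNS 𝒪 θ P = 0) :
    ∃ s, H30.thetaPoly N S hNS 𝒪 θ s ≠ 0 ∧
      s * P ∈ (RingHom.ker (H30.evZ N S hNS)).map (MvPolynomial.map (algebraMap ℤ 𝒪)) :=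
  H30.exists_mul_mem_of_toLocal_eq_zero N S hNS 𝒪 θ P hP

/-- **Localised Hecke modules are `T`-modules.**  `H` is a module over an `𝒪`-algebra `Λ` with
commuting `Λ`-linear operators `T_ℓ`, `ℓ ∉ S`; for a polynomial `P` let `act P = P(T_ℓ)`.  Let `e` be
a polynomial such that `act e` is the idempotent of `θ`: `e ↦ 1` under `θ`, `act e` is idempotent,
and every `s` with `θ(s) ≠ 0` is invertible on `Loc = act e (H)`.  If every polynomial with integral
coefficients which vanishes in the Hecke algebra kills `Loc`, then `T` acts on `Loc`, with the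
Hecke operators acting as `T_ℓ`.  Used with `H = H¹(Γ_0(M), 𝒪[Δ])`, for the levels of theorem LL
(`H70Lev3`, GuideTWModules) and for the chains of levels of S59 and S60 (`H21MDesc`,
GuideLiftingHecke).  Proved in `H30Act`. -/
theorem localised_module (N : ℕ) [NeZero N] (S : Set ℕ)
    (hNS : ∀ q : ℕ, q.Prime → q ∣ N → q ∈ S)
    (𝒪 : Type) [CommRing 𝒪] [IsDomain 𝒪] [IsDiscreteValuationRing 𝒪]
    [IsAdicComplete (maximalIdeal 𝒪) 𝒪]
    (θ : CuspForm.heckeAlgebra N 2 S →+* ResidueField 𝒪)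
    {Λ H : Type} [CommRing Λ] [Algebra 𝒪 Λ] [AddCommGroup H]
    [Module Λ H] [Module 𝒪 H] [IsScalarTower 𝒪 Λ H]
    {T : {ℓ : ℕ // ℓ.Prime ∧ ℓ ∉ S} → Module.End Λ H} {hT : ∀ i j, T i * T j = T j * T i}
    {e : MvPolynomial {ℓ : ℕ // ℓ.Prime ∧ ℓ ∉ S} 𝒪}
    (he₁ : H30.thetaPoly N S hNS 𝒪 θ e = 1)
    (he₂ : H59.act T hT e * H59.act T hT e = H59.act T hT e)
    (he₃ : ∀ s, H30.thetaPoly N S hNS 𝒪 θ s ≠ 0 →
      ∃ s', H59.act T hT (s * s' * e) = H59.act T hT e)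
    (hrel : ∀ P₀ : MvPolynomial {ℓ : ℕ // ℓ.Prime ∧ ℓ ∉ S} ℤ, H30.evZ N S hNS P₀ = 0 →
      ∀ x ∈ LinearMap.range (H59.act T hT e),
        H59.act T hT (MvPolynomial.map (algebraMap ℤ 𝒪) P₀) x = 0) :
    ∃ Φ : CuspForm.heckeLocal N S 𝒪 θ →ₐ[𝒪] Module.End Λ (H59.Loc T hT e),
      ∀ P, Φ (H30.toLocal N S hNS 𝒪 θ P) = H59.act (H59.locT T hT e) H59.locT_comm P :=
  H30.exists_loc_heckeLocal N S hNS 𝒪 θ ⟨he₁, he₂, he₃⟩ hrel

/-! ## 2. The points of `T` -/

/-- **Normalisation.**  A domain `D` which is finite over a complete discrete valuation ring `𝒪` of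
characteristic zero with finite residue field embeds in a discrete valuation ring of the same kind,
finite over `𝒪` (its normalisation).  Proved in `H30Points`, `H35DVR` (helper35). -/
theorem exists_normalisation (𝒪 : Type) [CommRing 𝒪] [IsDomain 𝒪] [IsDiscreteValuationRing 𝒪]
    [IsAdicComplete (maximalIdeal 𝒪) 𝒪] [Finite (ResidueField 𝒪)] [CharZero 𝒪]
    (D : Type) [CommRing D] [IsDomain D] [Algebra 𝒪 D] [Module.Finite 𝒪 D] [FaithfulSMul 𝒪 D] :
    ∃ (𝒪' : Type) (_ : CommRing 𝒪') (_ : IsDomain 𝒪') (_ : IsDiscreteValuationRing 𝒪')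
      (_ : IsAdicComplete (maximalIdeal 𝒪') 𝒪') (_ : Finite (ResidueField 𝒪')) (_ : CharZero 𝒪')
      (_ : Algebra 𝒪 𝒪') (_ : Module.Finite 𝒪 𝒪') (_ : IsLocalHom (algebraMap 𝒪 𝒪'))
      (ψ : D →ₐ[𝒪] 𝒪'), Function.Injective ψ :=
  H30.exists_normalization 𝒪 D

/-- **The representation at a point.**  `T` is a local ring, finite and free over `𝒪`, with a map
`π` from the Hecke algebra.  For every minimal prime `I` of `T` there are a complete discrete
valuation ring `B`, finite over `𝒪`, a local map `φ : T → B` whose kernel is contained in `I` (so it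
is `I`), and a continuous two-dimensional representation `r` over `B`, unramified outside `N p`, with
`tr r(σ) = φ(π(T_ℓ))`, `det r(σ) = ℓ` for all Frobenius elements at `ℓ ∉ S`.  By S30.  Proved in
`H30Points`. -/
theorem exists_point {p : ℕ} [Fact p.Prime] {N : ℕ} [NeZero N]
    {S : Finset ℕ} (hpS : p ∈ S) (hNS : ∀ q : ℕ, q.Prime → q ∣ N → q ∈ S)
    (𝒪 : Type) [CommRing 𝒪] [IsDomain 𝒪] [IsDiscreteValuationRing 𝒪]
    [IsAdicComplete (maximalIdeal 𝒪) 𝒪] [Finite (ResidueField 𝒪)] [CharZero 𝒪]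
    (hp𝒪 : (p : 𝒪) ∈ maximalIdeal 𝒪)
    {T : Type} [CommRing T] [IsLocalRing T] [Algebra 𝒪 T] [Module.Finite 𝒪 T] [Module.Free 𝒪 T]
    (π : CuspForm.heckeAlgebra N 2 (↑S : Set ℕ) →+* T) {I : Ideal T} (hI : I ∈ minimalPrimes T) :
    ∃ (B : Type) (_ : CommRing B) (_ : IsDomain B) (_ : IsDiscreteValuationRing B)
      (_ : IsAdicComplete (maximalIdeal B) B) (_ : Finite (ResidueField B)) (_ : CharZero B)
      (_ : Algebra 𝒪 B) (_ : Module.Finite 𝒪 B) (φ : T →ₐ[𝒪] B)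
      (r : Gℚ →* Matrix (Fin 2) (Fin 2) B),
      RingHom.ker φ ≤ I ∧ IsLocalHom (φ : T →+* B) ∧
      (∀ n : ℕ, ∃ L : IntermediateField ℚ Qb, FiniteDimensional ℚ L ∧
        ∀ σ : Gℚ, (∀ x ∈ L, σ x = x) →
          ∀ i j, r σ i j - (1 : Matrix (Fin 2) (Fin 2) B) i j ∈ maximalIdeal B ^ n) ∧
      (∀ (ℓ : ℕ) (hℓ : ℓ.Prime) (hℓS : ℓ ∉ S) (A : ValuationSubring Qb), A.LiesOverPrime ℓ →
        ∀ σ : Gℚ, A.IsFrobeniusAt σ ℓ →
          (r σ).trace = φ (π (CuspForm.heckeAlgebra.T hℓ (fun h => hℓS (hNS ℓ hℓ h))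
            (by simpa using hℓS))) ∧ (r σ).det = (ℓ : B)) ∧
      ∀ q : ℕ, q.Prime → ¬ q ∣ N → q ≠ p → ∀ A : ValuationSubring Qb, A.LiesOverPrime q →
        ∀ σ ∈ A.inertiaSubgroupIn ℚ, r σ = 1 := by
  obtain ⟨@⟨B, i1, i2, i3, i4, i5, i6, i7, i8, φ, h1, h2, r, h3, h4, h5⟩⟩ :=
    H30.exists_pointRep H30.statementS30 hpS hNS 𝒪 hp𝒪 π hI
  exact ⟨B, i1, i2, i3, i4, i5, i6, i7, i8, φ, r, h1, h2, h3, h4, h5⟩

/-! ## 3. Gluing -/

/-- **Complex conjugation has determinant `-1`.**  `A` is a separated local ring whose maximal ideal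
contains `p`, `r` a continuous representation with `det r(σ) = ℓ` for the Frobenius elements at
`ℓ ∉ S`, `S ∋ p`.  Then `det r(c) = -1` for every involution `c ≠ 1` of the Galois group.  Proof: `c`
inverts all roots of unity, as every involution `≠ 1` of an algebraically closed field of
characteristic `≠ 2` does (`H87Invol`).  Approximate `c` modulo `𝔪^n`, and on the `p^n`-th roots of
unity, by a power `φ^j` of a Frobenius element at some `ℓ ∉ S`: then `ℓ^j ≡ -1` modulo `p^n`, and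
`det r(φ^j) = ℓ^j`.  Proved in `H30Assemble`. -/
theorem det_involution {A : Type} [CommRing A] [IsLocalRing A]
    [IsHausdorff (maximalIdeal A) A] {S : Finset ℕ} {p : ℕ} (hp : p.Prime)
    (hpS : p ∈ S) (hpA : (p : A) ∈ maximalIdeal A)
    {a : ∀ ℓ : ℕ, ℓ.Prime → ℓ ∉ S → A} {r : Gℚ →* Matrix (Fin 2) (Fin 2) A}
    (hr : ∀ n : ℕ, ∃ L : IntermediateField ℚ Qb, FiniteDimensional ℚ L ∧
      ∀ σ : Gℚ, (∀ x ∈ L, σ x = x) →
        ∀ i j, r σ i j - (1 : Matrix (Fin 2) (Fin 2) A) i j ∈ maximalIdeal A ^ n)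
    (hfr : ∀ (ℓ : ℕ) (hℓ : ℓ.Prime) (hℓS : ℓ ∉ S) (P : ValuationSubring Qb),
      P.LiesOverPrime ℓ → ∀ σ : Gℚ, P.IsFrobeniusAt σ ℓ →
        (r σ).trace = a ℓ hℓ hℓS ∧ (r σ).det = (ℓ : A))
    {c : Gℚ} (hc : c * c = 1) (hc1 : c ≠ 1) : (r c).det = -1 :=
  H30.det_involution hp hpS hpA hr hfr hc hc1

/-- **`T` is closed in the product of its points.**  `T` is a local algebra over the discrete
valuation ring `𝒪`, the `B i` are finitely many local `𝒪`-algebras, finite as `𝒪`-modules, and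
`T → ∏ B i` is injective.  For every `n` there is `m` such that every element of `T` whose images
lie in `𝔪^m` lies in `𝔪^n` (Artin-Rees).  This is the hypothesis `hT0` of the next two theorems.
Proved in `H30Closure`. -/
theorem closed_in_points {𝒪 : Type*} [CommRing 𝒪] [IsDomain 𝒪] [IsDiscreteValuationRing 𝒪]
    {T : Type*} [CommRing T] [IsLocalRing T] [Algebra 𝒪 T] [IsLocalHom (algebraMap 𝒪 T)]
    {ι : Type*} [Finite ι] (B : ι → Type*) [∀ i, CommRing (B i)] [∀ i, IsLocalRing (B i)]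
    [∀ i, Algebra 𝒪 (B i)] [∀ i, Module.Finite 𝒪 (B i)]
    (φ : ∀ i, T →ₐ[𝒪] B i) (hinj : ∀ x : T, (∀ i, φ i x = 0) → x = 0) (n : ℕ) :
    ∃ m : ℕ, ∀ x : T, (∀ i, φ i x ∈ maximalIdeal (B i) ^ m) → x ∈ maximalIdeal T ^ n :=
  H30.exists_forall_mem_pow B φ hinj n

/-- **The traces lie in `T`.**  `T` is a complete local ring, closed in the product of the separated
local rings `B i` (finitely many), `r i` a continuous representation over `B i` such that
`tr r_i(σ)` is the image of `a_ℓ ∈ T`, the same for all `i`, for the Frobenius elements at `ℓ ∉ S`.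
Then for EVERY `σ` the traces `tr r_i(σ)` come from one element of `T`: approximate `σ` by a power of
a Frobenius element; the trace of a power of a `2 × 2` matrix is a polynomial in its trace and
determinant.  Proved in `H30Assemble`. -/
theorem exists_trace {T : Type} [CommRing T] [IsLocalRing T] [IsAdicComplete (maximalIdeal T) T]
    {ι : Type} [Finite ι] (B : ι → Type) [∀ i, CommRing (B i)] [∀ i, IsLocalRing (B i)]
    [∀ i, IsHausdorff (maximalIdeal (B i)) (B i)]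
    (φ : ∀ i, T →+* B i) (hφ : ∀ i, IsLocalHom (φ i))
    (hT0 : ∀ n : ℕ, ∃ m : ℕ, ∀ x : T, (∀ i, φ i x ∈ maximalIdeal (B i) ^ m) →
      x ∈ maximalIdeal T ^ n)
    {S : Finset ℕ} {a : ∀ ℓ : ℕ, ℓ.Prime → ℓ ∉ S → T}
    {r : ∀ i, Gℚ →* Matrix (Fin 2) (Fin 2) (B i)}
    (hr : ∀ i, ∀ n : ℕ, ∃ L : IntermediateField ℚ Qb, FiniteDimensional ℚ L ∧
      ∀ σ : Gℚ, (∀ x ∈ L, σ x = x) →
        ∀ j k, r i σ j k - (1 : Matrix (Fin 2) (Fin 2) (B i)) j k ∈ maximalIdeal (B i) ^ n)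
    (hfr : ∀ i, ∀ (ℓ : ℕ) (hℓ : ℓ.Prime) (hℓS : ℓ ∉ S) (P : ValuationSubring Qb),
      P.LiesOverPrime ℓ → ∀ σ : Gℚ, P.IsFrobeniusAt σ ℓ →
        (r i σ).trace = φ i (a ℓ hℓ hℓS) ∧ (r i σ).det = (ℓ : B i))
    (σ : Gℚ) : ∃ x : T, ∀ i, φ i x = (r i σ).trace :=
  H30.exists_trace B φ hφ hT0 hr hfr σ

/-- **Gluing.**  In the situation of `exists_trace` let moreover `T → ∏ B i` be injective, `2`
invertible in `T`, `p ∈ 𝔪` and `p ∈ S`, and let `rbar` be a representation over the residue field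
with the traces `a_ℓ` modulo `𝔪` and without stable line (over the residue field: every conjugate of
`rbar` has a nonzero upper right and a nonzero lower left entry).  Then there is a continuous
representation `ρ` over `T` with `tr ρ(σ) = a_ℓ`, `det ρ(σ) = ℓ` at the Frobenius elements at `ℓ ∉ S`,
conjugate to `r i` at every point, with the trace of `rbar` modulo `𝔪`.  (Explicit formula: see the
header.)  Proved in `H30Glue`, `H30Assemble`.  For residue characteristic two, where complex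
conjugation is not diagonalisable and another element is used, see GuideGluing (`H19LTAsm`). -/
theorem exists_glued {T : Type} [CommRing T] [IsLocalRing T] [IsAdicComplete (maximalIdeal T) T]
    {ι : Type} [Finite ι] (B : ι → Type) [∀ i, CommRing (B i)] [∀ i, IsLocalRing (B i)]
    [∀ i, IsHausdorff (maximalIdeal (B i)) (B i)]
    (φ : ∀ i, T →+* B i) (hφ : ∀ i, IsLocalHom (φ i))
    (hT0 : ∀ n : ℕ, ∃ m : ℕ, ∀ x : T, (∀ i, φ i x ∈ maximalIdeal (B i) ^ m) →
      x ∈ maximalIdeal T ^ n)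
    {S : Finset ℕ} {a : ∀ ℓ : ℕ, ℓ.Prime → ℓ ∉ S → T}
    {r : ∀ i, Gℚ →* Matrix (Fin 2) (Fin 2) (B i)}
    (hr : ∀ i, ∀ n : ℕ, ∃ L : IntermediateField ℚ Qb, FiniteDimensional ℚ L ∧
      ∀ σ : Gℚ, (∀ x ∈ L, σ x = x) →
        ∀ j k, r i σ j k - (1 : Matrix (Fin 2) (Fin 2) (B i)) j k ∈ maximalIdeal (B i) ^ n)
    (hfr : ∀ i, ∀ (ℓ : ℕ) (hℓ : ℓ.Prime) (hℓS : ℓ ∉ S) (P : ValuationSubring Qb),
      P.LiesOverPrime ℓ → ∀ σ : Gℚ, P.IsFrobeniusAt σ ℓ →
        (r i σ).trace = φ i (a ℓ hℓ hℓS) ∧ (r i σ).det = (ℓ : B i))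
    (hinj : ∀ x : T, (∀ i, φ i x = 0) → x = 0)
    {p : ℕ} (hp : p.Prime) (hpS : p ∈ S) (hpT : (p : T) ∈ maximalIdeal T)
    {i2 : T} (h2 : 2 * i2 = 1)
    {rbar : Gℚ →* Matrix (Fin 2) (Fin 2) (ResidueField T)}
    (hrbar : ∀ n : ℕ, ∃ L : IntermediateField ℚ Qb, FiniteDimensional ℚ L ∧
      ∀ σ : Gℚ, (∀ x ∈ L, σ x = x) → ∀ j k,
        rbar σ j k - (1 : Matrix (Fin 2) (Fin 2) (ResidueField T)) j k ∈
          maximalIdeal (ResidueField T) ^ n)
    (hfrbar : ∀ (ℓ : ℕ) (hℓ : ℓ.Prime) (hℓS : ℓ ∉ S) (P : ValuationSubring Qb),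
      P.LiesOverPrime ℓ → ∀ σ : Gℚ, P.IsFrobeniusAt σ ℓ →
        (rbar σ).trace = residue T (a ℓ hℓ hℓS) ∧ (rbar σ).det = (ℓ : ResidueField T))
    (hirr : ∀ P : (Matrix (Fin 2) (Fin 2) (ResidueField T))ˣ,
      (∃ g, ((P : Matrix (Fin 2) (Fin 2) (ResidueField T)) * rbar g *
        ((P⁻¹ : (Matrix (Fin 2) (Fin 2) (ResidueField T))ˣ) :
          Matrix (Fin 2) (Fin 2) (ResidueField T))) 0 1 ≠ 0) ∧
      (∃ g, ((P : Matrix (Fin 2) (Fin 2) (ResidueField T)) * rbar g *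
        ((P⁻¹ : (Matrix (Fin 2) (Fin 2) (ResidueField T))ˣ) :
          Matrix (Fin 2) (Fin 2) (ResidueField T))) 1 0 ≠ 0)) :
    ∃ ρ : Gℚ →* Matrix (Fin 2) (Fin 2) T,
      (∀ n : ℕ, ∃ L : IntermediateField ℚ Qb, FiniteDimensional ℚ L ∧
        ∀ σ : Gℚ, (∀ x ∈ L, σ x = x) →
          ∀ j k, ρ σ j k - (1 : Matrix (Fin 2) (Fin 2) T) j k ∈ maximalIdeal T ^ n) ∧
      (∀ (ℓ : ℕ) (hℓ : ℓ.Prime) (hℓS : ℓ ∉ S) (P : ValuationSubring Qb),
        P.LiesOverPrime ℓ → ∀ σ : Gℚ, P.IsFrobeniusAt σ ℓ →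
          (ρ σ).trace = a ℓ hℓ hℓS ∧ (ρ σ).det = (ℓ : T)) ∧
      (∀ i, ∃ P : (Matrix (Fin 2) (Fin 2) (B i))ˣ, ∀ g,
        (P : Matrix (Fin 2) (Fin 2) (B i)) * r i g *
          ((P⁻¹ : (Matrix (Fin 2) (Fin 2) (B i))ˣ) : Matrix (Fin 2) (Fin 2) (B i)) =
            (ρ g).map (φ i)) ∧
      ∀ g, residue T (ρ g).trace = (rbar g).trace :=
  H30.exists_glued B φ hφ hT0 hr hfr hinj hp hpS hpT h2 hrbar hfrbar hirr

/-! ## 4. The datum over the Hecke ring and the map `R → T` -/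

/-- **The residual representation is determined by its Frobenius traces.**  `κ` is a field of
characteristic `p > 2`.  Two representations over `κ` with the same traces, and determinant `ℓ`, at the
Frobenius elements at all `ℓ ∉ S`, one of them irreducible, are isomorphic and absolutely
irreducible.  Proof: they are odd (`det_involution`), and an odd irreducible two-dimensional
representation is absolutely irreducible (`H87AbsIrr`); traces and determinants agree everywhere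
(approximation by powers of Frobenius elements); then Carayol's lemma (`GuideRealisation.carayol`).
Proved in `H30Datum`. -/
theorem residual_unique {κ : Type} [Field κ] {S : Finset ℕ} {p : ℕ} (hp : p.Prime) (hpS : p ∈ S)
    (hpκ : (p : κ) = 0) (h2 : (2 : κ) ≠ 0) {a : ∀ ℓ : ℕ, ℓ.Prime → ℓ ∉ S → κ}
    (ρ₁ ρ₂ : ResidualGaloisRep κ) (h₁ : ρ₁.IsIrreducible) (b₁ : Module.Basis (Fin 2) κ ρ₁.V)
    (b₂ : Module.Basis (Fin 2) κ ρ₂.V)
    (hf₁ : ∀ (ℓ : ℕ) (hℓ : ℓ.Prime) (hℓS : ℓ ∉ S) (P : ValuationSubring Qb),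
      P.LiesOverPrime ℓ → ∀ σ : Gℚ, P.IsFrobeniusAt σ ℓ →
        (LinearMap.toMatrix b₁ b₁ (ρ₁.ρ σ)).trace = a ℓ hℓ hℓS ∧
          (LinearMap.toMatrix b₁ b₁ (ρ₁.ρ σ)).det = (ℓ : κ))
    (hf₂ : ∀ (ℓ : ℕ) (hℓ : ℓ.Prime) (hℓS : ℓ ∉ S) (P : ValuationSubring Qb),
      P.LiesOverPrime ℓ → ∀ σ : Gℚ, P.IsFrobeniusAt σ ℓ →
        (LinearMap.toMatrix b₂ b₂ (ρ₂.ρ σ)).trace = a ℓ hℓ hℓS ∧
          (LinearMap.toMatrix b₂ b₂ (ρ₂.ρ σ)).det = (ℓ : κ)) :
    ρ₁.IsEquiv ρ₂ ∧ ρ₂.IsAbsolutelyIrreducible :=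
  H30.residual_equiv_of_frobData hp hpS hpκ h2 ρ₁ ρ₂ h₁ b₁ b₂ hf₁ hf₂

/-- **The representation over `T`.**  `p` is odd, `S` contains `p` and the prime divisors of `N`, and
`ρbar` is irreducible with `X² - θ(T_ℓ) X + ℓ` as characteristic polynomial of the Frobenius elements
at `ℓ ∤ N`, `ℓ ∉ S`.  Then there is a Hecke-Galois datum (`HeckeGaloisRepDatum`, see GuideGalois) over
`T = heckeLocal N S 𝒪 θ` with the canonical map `π`; its representation `H.ρ` lifts `ρbar` and is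
unramified outside `N p`.  From the sections 2 and 3.  Proved in `H30Local`, `H30Main`. -/
theorem exists_datum {p : ℕ} [Fact p.Prime] (hp2 : p ≠ 2)
    (N : ℕ) [NeZero N] (S : Finset ℕ) (hpS : p ∈ S)
    (hNS : ∀ q : ℕ, q.Prime → q ∣ N → q ∈ S)
    (𝒪 : Type) [CommRing 𝒪] [IsDomain 𝒪] [IsDiscreteValuationRing 𝒪]
    [IsAdicComplete (maximalIdeal 𝒪) 𝒪] [Finite (ResidueField 𝒪)] [CharZero 𝒪]
    (hp𝒪 : (p : 𝒪) ∈ maximalIdeal 𝒪)
    (θ : CuspForm.heckeAlgebra N 2 (↑S : Set ℕ) →+* ResidueField 𝒪)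
    (ρbar : ResidualGaloisRep (ResidueField 𝒪)) (hirr : ρbar.IsIrreducible)
    (hfrob : ∀ (ℓ : ℕ) (hℓ : ℓ.Prime) (hℓN : ¬ ℓ ∣ N) (hℓS : ℓ ∉ (↑S : Set ℕ)),
      ∀ A : ValuationSubring Qb, A.LiesOverPrime ℓ → ∀ σ : Gℚ, A.IsFrobeniusAt σ ℓ →
        LinearMap.charpoly (ρbar.ρ σ) = Polynomial.X ^ 2 -
          Polynomial.C (θ (CuspForm.heckeAlgebra.T hℓ hℓN hℓS)) * Polynomial.X +
            Polynomial.C ((ℓ : ResidueField 𝒪))) :
    ∃ H : CuspForm.HeckeGaloisRepDatum N (↑S : Set ℕ) 𝒪 θ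
        (CuspForm.heckeLocal N (↑S : Set ℕ) 𝒪 θ),
      H.π = CuspForm.heckeLocal.π N (↑S : Set ℕ) 𝒪 θ ∧
      H.ρ.residual.IsEquiv (ρbar.baseChangeAlong
        (ResidueField.map (algebraMap 𝒪 (CuspForm.heckeLocal N (↑S : Set ℕ) 𝒪 θ)))) ∧
      (∀ q : ℕ, q.Prime → ¬ q ∣ N → q ≠ p → H.ρ.IsUnramifiedAt q) :=
  H30.exists_heckeDatum hp2 N S hpS hNS 𝒪 hp𝒪 θ ρbar hirr hfrob

/-- **The surjection `R → T`.**  Let `𝒟` be a type of deformations (any condition on adic
representations over local `𝒪`-algebras) which holds for the representation over `T` of every datum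
as in `exists_datum`, and let `D.R` be the universal deformation ring of `ρbar` of type `𝒟`
(`DeformationRingData`, existence: S53), `b₁` a basis of the universal representation.  Then there
are a datum `H` over `T`, a surjection `D.R → T` and a basis `b₂` of `H.ρ` in which the matrices of
`H.ρ` are the images of the universal matrices.  It is surjective because `T` is generated by
traces of Frobenius elements.  Proved in `H30Type2` with S54 (GuideDeformations). -/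
theorem exists_surjection {p : ℕ} [Fact p.Prime] {N : ℕ} [NeZero N] {S : Finset ℕ}
    {𝒪 : Type} [CommRing 𝒪] [IsDomain 𝒪] [IsDiscreteValuationRing 𝒪]
    [IsAdicComplete (maximalIdeal 𝒪) 𝒪] [Finite (ResidueField 𝒪)] [CharZero 𝒪] (hp2 : p ≠ 2)
    (hp𝒪 : (p : 𝒪) ∈ maximalIdeal 𝒪) (hpS : p ∈ S) (hNS : ∀ q : ℕ, q.Prime → q ∣ N → q ∈ S)
    (θ : CuspForm.heckeAlgebra N 2 (↑S : Set ℕ) →+* ResidueField 𝒪)
    (ρbar : ResidualGaloisRep (ResidueField 𝒪)) (hirr : ρbar.IsIrreducible)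
    (hfrob : ∀ (ℓ : ℕ) (hℓ : ℓ.Prime) (hℓN : ¬ ℓ ∣ N) (hℓS : ℓ ∉ (↑S : Set ℕ)),
      ∀ A : ValuationSubring Qb, A.LiesOverPrime ℓ → ∀ σ : Gℚ, A.IsFrobeniusAt σ ℓ →
        LinearMap.charpoly (ρbar.ρ σ) = Polynomial.X ^ 2 -
          Polynomial.C (θ (CuspForm.heckeAlgebra.T hℓ hℓN hℓS)) * Polynomial.X +
            Polynomial.C ((ℓ : ResidueField 𝒪)))
    {𝒟 : ∀ ⦃A : Type⦄ [CommRing A] [IsLocalRing A] [Algebra 𝒪 A], GaloisRepAdic A → Prop}
    (h𝒟 : ∀ H : CuspForm.HeckeGaloisRepDatum N (↑S : Set ℕ) 𝒪 θ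
        (CuspForm.heckeLocal N (↑S : Set ℕ) 𝒪 θ),
      H.π = CuspForm.heckeLocal.π N (↑S : Set ℕ) 𝒪 θ →
      H.ρ.residual.IsEquiv (ρbar.baseChangeAlong
        (ResidueField.map (algebraMap 𝒪 (CuspForm.heckeLocal N (↑S : Set ℕ) 𝒪 θ)))) →
      (∀ q : ℕ, q.Prime → ¬ q ∣ N → q ≠ p → H.ρ.IsUnramifiedAt q) → 𝒟 H.ρ)
    (D : GaloisRep.DeformationRingData 𝒪 ρbar 𝒟) (b₁ : Module.Basis (Fin 2) D.R D.ρ.V) :
    ∃ (H : CuspForm.HeckeGaloisRepDatum N (↑S : Set ℕ) 𝒪 θ
        (CuspForm.heckeLocal N (↑S : Set ℕ) 𝒪 θ))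
      (π : D.R →ₐ[𝒪] CuspForm.heckeLocal N (↑S : Set ℕ) 𝒪 θ)
      (b₂ : Module.Basis (Fin 2) (CuspForm.heckeLocal N (↑S : Set ℕ) 𝒪 θ) H.ρ.V),
      H.π = CuspForm.heckeLocal.π N (↑S : Set ℕ) 𝒪 θ ∧ Function.Surjective π ∧
      (∀ σ : Gℚ, LinearMap.toMatrix b₂ b₂ (H.ρ.ρ σ) =
        (LinearMap.toMatrix b₁ b₁ (D.ρ.ρ σ)).map π) ∧
      (∀ q : ℕ, q.Prime → ¬ q ∣ N → q ≠ p → H.ρ.IsUnramifiedAt q) := by
  obtain ⟨H, π, b₂, h1, h2, h3, h4⟩ :=
    H30.exists_surjection_of_type hp2 hp𝒪 hpS hNS θ ρbar hirr hfrob h𝒟 D b₁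
  exact ⟨H, π, b₂, h1, h2, DFunLike.congr_fun h3, h4⟩

/-! ## 5. The type of the representation over `T` -/

/-- **The determinant is cyclotomic** for every datum: `det H.ρ(σ) ≡ a` modulo `p^n` if `σ` raises
the `p^n`-th roots of unity to the power `a` (`DetIsCyclotomic`; it also contains `p ∈ 𝔪`).  Proved in
`H33Reduce` (helper33) from `det ρ(φ) = ℓ` at Frobenius elements and the density of the Frobenius
elements in finite extensions (`H86DensityRep`, `H86DensityFinal`). -/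
theorem datum_det {p : ℕ} (hp : p.Prime) {N : ℕ} [NeZero N] {S : Finset ℕ}
    {𝒪 : Type} [CommRing 𝒪] [IsDomain 𝒪] [IsDiscreteValuationRing 𝒪]
    [IsAdicComplete (maximalIdeal 𝒪) 𝒪]
    {θ : CuspForm.heckeAlgebra N 2 (↑S : Set ℕ) →+* ResidueField 𝒪}
    {T : Type} [CommRing T] [IsLocalRing T] [IsNoetherianRing T]
    [IsAdicComplete (maximalIdeal T) T] [Algebra 𝒪 T] [IsLocalHom (algebraMap 𝒪 T)]
    [Module.Finite 𝒪 T] [Module.Free 𝒪 T]
    (hp𝒪 : (p : 𝒪) ∈ maximalIdeal 𝒪) (hNS : ∀ q : ℕ, q.Prime → q ∣ N → q ∈ S)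
    (H : CuspForm.HeckeGaloisRepDatum N (↑S : Set ℕ) 𝒪 θ T) : H.ρ.DetIsCyclotomic p :=
  H33.datum_detIsCyclotomic hp hp𝒪 hNS H

/-- **Level prime to `p`: the flat type** (used in S43).  If `p ∤ N`, a datum which is unramified
outside `N p` has the type of the flat deformation rings: cyclotomic determinant, flat at `p` (S32),
unramified outside `S'`, a set which contains `p` and the prime divisors of `N`, and unipotent on
inertia at the primes of `A`, which divide `N` exactly once (S34).  Proved in `H30Type`; the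
surjection from the flat deformation ring is `H30.exists_surjection_heckeLocal`. -/
theorem datum_flatType {p : ℕ} [Fact p.Prime] {N : ℕ} [NeZero N] {S : Finset ℕ}
    {𝒪 : Type} [CommRing 𝒪] [IsDomain 𝒪] [IsDiscreteValuationRing 𝒪]
    [IsAdicComplete (maximalIdeal 𝒪) 𝒪] [Finite (ResidueField 𝒪)] [CharZero 𝒪]
    {θ : CuspForm.heckeAlgebra N 2 (↑S : Set ℕ) →+* ResidueField 𝒪}
    {T : Type} [CommRing T] [IsLocalRing T] [IsNoetherianRing T]
    [IsAdicComplete (maximalIdeal T) T] [Algebra 𝒪 T] [IsLocalHom (algebraMap 𝒪 T)]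
    [Module.Finite 𝒪 T] [Module.Free 𝒪 T] (hp2 : p ≠ 2)
    (hp𝒪 : (p : 𝒪) ∈ maximalIdeal 𝒪) (hpS : p ∈ S) (hNS : ∀ q : ℕ, q.Prime → q ∣ N → q ∈ S)
    (hpN : ¬ p ∣ N) (H : CuspForm.HeckeGaloisRepDatum N (↑S : Set ℕ) 𝒪 θ T)
    (hunr : ∀ q : ℕ, q.Prime → ¬ q ∣ N → q ≠ p → H.ρ.IsUnramifiedAt q)
    (S' A : Finset ℕ) (hS' : ∀ q : ℕ, q.Prime → q ∉ S' → ¬ q ∣ N ∧ q ≠ p)
    (hA : ∀ q ∈ A, q.Prime → q ≠ p → q ∣ N ∧ ¬ q ^ 2 ∣ N) :
    (H.ρ.DetIsCyclotomic p ∧ H.ρ.IsFlatAt p ∧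
      ∀ q : ℕ, q.Prime → q ∉ S' → H.ρ.IsUnramifiedAt q) ∧
    ∀ q ∈ A, q.Prime → q ≠ p → H.ρ.IsUnipotentOnInertiaAt q :=
  H30.flatType_datum (@S32.result) (@S34.result) hp2 hp𝒪 hpS hNS hpN H hunr S' A hS' hA

/-- **Ordinary at `p`.**  If `p² ∤ N` and the residual representation is ordinary at `p` then `H.ρ` is
ordinary at `p`: by S33 if `p ∣ N`; if `p ∤ N` it is flat (S32), and a flat representation with
cyclotomic determinant and ordinary reduction is ordinary (`p` odd; `H23FlatOrd`, helper23).  Proved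
in `H30Type4`. -/
theorem datum_ordinary {p : ℕ} [Fact p.Prime] {N : ℕ} [NeZero N] {S : Finset ℕ}
    {𝒪 : Type} [CommRing 𝒪] [IsDomain 𝒪] [IsDiscreteValuationRing 𝒪]
    [IsAdicComplete (maximalIdeal 𝒪) 𝒪] [Finite (ResidueField 𝒪)] [CharZero 𝒪]
    {θ : CuspForm.heckeAlgebra N 2 (↑S : Set ℕ) →+* ResidueField 𝒪}
    {T : Type} [CommRing T] [IsLocalRing T] [IsNoetherianRing T]
    [IsAdicComplete (maximalIdeal T) T] [Algebra 𝒪 T] [IsLocalHom (algebraMap 𝒪 T)]
    [Module.Finite 𝒪 T] [Module.Free 𝒪 T] (hp2 : p ≠ 2)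
    (hp𝒪 : (p : 𝒪) ∈ maximalIdeal 𝒪) (hpN2 : ¬ p ^ 2 ∣ N)
    (hpS : p ∈ S) (hNS : ∀ q : ℕ, q.Prime → q ∣ N → q ∈ S)
    (H : CuspForm.HeckeGaloisRepDatum N (↑S : Set ℕ) 𝒪 θ T)
    {k : Type} [Field k] {ρbar : ResidualGaloisRep k} (g : k →+* ResidueField T)
    (hres : H.ρ.residual.IsEquiv (ρbar.baseChangeAlong g))
    (hord : (GaloisRepAdic.ofResidualGaloisRep ρbar).IsOrdinaryAt p) :
    H.ρ.IsOrdinaryAt p :=
  H30.ordinary_datum_all (@S32.result) (@S33.result) hp2 hp𝒪 hpN2 hpS hNS H g hres hord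

/-- **Ordinary and "très ramifiée" implies strictly ordinary.**  `A` is a noetherian separated local
ring with finite residue field.  Let `φ` be a Frobenius element and `σ₀` an element of inertia at a
place over `p`, such that `σ₀` fixes all `p`-power roots of units of the maximal unramified extension
and moves a `p`-th root of `p` (`MarkElts`).  If `ρ` is ordinary at `p` with cyclotomic determinant
and `σ₀` acts nontrivially modulo `𝔪`, then `ρ` is strictly ordinary: the quotient of the two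
diagonal characters is exactly the cyclotomic character.  Proof: the diagonal characters are
`χ_cyc ψ⁻¹` and `ψ`, with `ψ` unramified.  The diagonal entries of `ρ(σ₀)` are `1`, because `σ₀`
fixes the `p`-power roots of unity, so its upper right entry `y` is a unit.  On inertia the upper
right entry is a cocycle with cyclotomic coefficients; by Kummer theory it is given by `p`-power
roots of elements of the maximal unramified extension, and as `σ₀` fixes the `p`-power roots of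
the units, its value at `σ σ₀ σ⁻¹` is `χ_cyc(σ) y` for every `σ` in the decomposition group
(`H75PKum`, `H75PMark`).  The matrices give `χ_cyc(σ) ψ(σ)⁻² y`, so `y (ψ(σ)² - 1) = 0` and
`ψ² = 1`.  (`φ` plays no role here; it belongs to the marks at `p`.)  Proved in `H30Type3`. -/
theorem strictOrdinary_of_sigma {A : Type} [CommRing A] [IsLocalRing A]
    {p : ℕ} [Fact p.Prime] [IsNoetherianRing A] [Finite (ResidueField A)]
    [IsHausdorff (maximalIdeal A) A] {ρ : GaloisRepAdic A} (hdet : ρ.DetIsCyclotomic p)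
    (hord : ρ.IsOrdinaryAt p) (b : Module.Basis (Fin 2) A ρ.V) {φ σ₀ : Gℚ}
    (hm : H75P.MarkElts p φ σ₀)
    (hne : (LinearMap.toMatrix b b (ρ.ρ σ₀)).map (residue A) ≠ 1) :
    ρ.IsStrictOrdinaryAt p :=
  H30.isStrictOrdinaryAt_of_sigma hdet hord b hm hne

/-- **The elements `φ` and `σ₀`** of the last theorem, written out.  `padicPlace p` is a fixed place
over `p`, given by an embedding of `ℚ̄` in an algebraic closure of `ℚ_p`.  Definition in
`H75PLocal`. -/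
theorem markElts_iff (p : ℕ) [Fact p.Prime] (φ σ₀ : Gℚ) :
    H75P.MarkElts p φ σ₀ ↔ (padicPlace p).IsFrobeniusAt φ p ∧
      σ₀ ∈ (padicPlace p).inertiaSubgroupIn ℚ ∧
      (∀ α : Qb, ‖padicEmbedding p α‖ = 1 ∧
        (∃ n : ℕ, ∀ σ ∈ (padicPlace p).inertiaSubgroupIn ℚ,
          σ (α ^ p ^ n) = α ^ p ^ n) → σ₀ α = α) ∧
      ∃ π₁ : Qb, π₁ ^ p = p ∧ σ₀ π₁ ≠ π₁ :=
  ⟨fun h => ⟨h.frob, h.inert, h.fix, h.move⟩, fun h => ⟨h.1, h.2.1, h.2.2.1, h.2.2.2⟩⟩

/-- They exist for odd `p`.  Proved in `H75PLocal` (helper75). -/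
theorem exists_markElts (p : ℕ) [Fact p.Prime] (hp2 : p ≠ 2) : ∃ φ σ₀ : Gℚ, H75P.MarkElts p φ σ₀ :=
  H75P.exists_markElts p hp2

/-- **Strictly ordinary at `p`**, for a datum of level `N` with `p` dividing `N` exactly once, if the
residual representation `ρbar` is ordinary at `p` and "très ramifiée", i.e. `ρbar(σ₀) ≠ 1`: by S33
and `strictOrdinary_of_sigma`.  (If `ρbar(σ₀) = 1`, the condition at `p` of the levels divisible by
`p` is "ordinary", see `datum_ordinary`, with marks at `φ` and `σ₀`.)  Proved in `H30Type3`. -/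
theorem datum_strictOrdinary {p : ℕ} [Fact p.Prime] {N : ℕ} [NeZero N] {S : Finset ℕ}
    {𝒪 : Type} [CommRing 𝒪] [IsDomain 𝒪] [IsDiscreteValuationRing 𝒪]
    [IsAdicComplete (maximalIdeal 𝒪) 𝒪] [Finite (ResidueField 𝒪)] [CharZero 𝒪]
    {θ : CuspForm.heckeAlgebra N 2 (↑S : Set ℕ) →+* ResidueField 𝒪}
    {T : Type} [CommRing T] [IsLocalRing T] [IsNoetherianRing T]
    [IsAdicComplete (maximalIdeal T) T] [Algebra 𝒪 T] [IsLocalHom (algebraMap 𝒪 T)]
    [Module.Finite 𝒪 T] [Module.Free 𝒪 T] (hp2 : p ≠ 2)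
    (hp𝒪 : (p : 𝒪) ∈ maximalIdeal 𝒪) (hpN : p ∣ N) (hpN2 : ¬ p ^ 2 ∣ N)
    (hNS : ∀ q : ℕ, q.Prime → q ∣ N → q ∈ S)
    (H : CuspForm.HeckeGaloisRepDatum N (↑S : Set ℕ) 𝒪 θ T) [Finite (ResidueField T)]
    {k : Type} [Field k] {ρbar : ResidualGaloisRep k} (g : k →+* ResidueField T)
    (hres : H.ρ.residual.IsEquiv (ρbar.baseChangeAlong g))
    (hord : (GaloisRepAdic.ofResidualGaloisRep ρbar).IsOrdinaryAt p)
    (b : Module.Basis (Fin 2) k ρbar.V) {φ σ₀ : Gℚ} (hm : H75P.MarkElts p φ σ₀)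
    (hne : LinearMap.toMatrix b b (ρbar.ρ σ₀) ≠ 1) : H.ρ.IsStrictOrdinaryAt p :=
  H30.strictOrdinary_datum (@S33.result) hp2 hp𝒪 hpN hpN2 hNS H g hres hord b hm hne

/-- **The case `ρbar(σ₀) = 1`.**  Let `ρbar` be strictly ordinary at `p` with cyclotomic determinant,
for example the `p`-torsion of a curve with multiplicative reduction at `p`.  In a suitable basis it
is upper triangular on the decomposition group, with lower right entry `1` on inertia and `w = ± 1`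
at `φ`: the quotient of the diagonal characters is the cyclotomic character, and so is their product,
hence the unramified one has square `1`.  If `ρbar(σ₀) = 1`, this basis and `w` define the condition
at `p` ("ordinary") and the marks at `φ` and `σ₀` (`H53.PData.ord`, GuideLiftingGalois) of the levels
of type `Pα` and `Pβ` (GuideLifting; in type `Pα` the base level is prime to `p`).  Proved in
`H30CaseP`. -/
theorem residual_ordinary_basis {p : ℕ} [Fact p.Prime] {k : Type} [Field k] [Finite k]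
    (ρbar : ResidualGaloisRep k) (b : Module.Basis (Fin 2) k ρbar.V)
    (hdet : (GaloisRepAdic.ofResidualGaloisRep ρbar).DetIsCyclotomic p)
    (hstr : (GaloisRepAdic.ofResidualGaloisRep ρbar).IsStrictOrdinaryAt p)
    {φ σ₀ : Gℚ} (hm : H75P.MarkElts p φ σ₀) :
    ∃ w : ℤ, w ^ 2 = 1 ∧ ∃ g : (Matrix (Fin 2) (Fin 2) k)ˣ,
      (∀ σ ∈ (padicPlace p).decompositionSubgroup ℚ,
        ((g⁻¹).val * LinearMap.toMatrix b b (ρbar.ρ σ) * g.val) 1 0 = 0) ∧
      (∀ σ ∈ (padicPlace p).inertiaSubgroupIn ℚ,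
        ((g⁻¹).val * LinearMap.toMatrix b b (ρbar.ρ σ) * g.val) 1 1 = 1) ∧
      ((g⁻¹).val * LinearMap.toMatrix b b (ρbar.ρ φ) * g.val) 1 1 = (w : k) := by
  obtain ⟨w, hw, g, ⟨h1, h2⟩, h3⟩ := H30.CaseP.exists_ordData_of_sigma ρbar b hdet hstr hm
  exact ⟨w, hw, g, h1, h2, h3⟩

/-- **The primes of the level.**  The types used at the levels of the lifting theorem
(`H53.typeB`): cyclotomic determinant, a condition `𝒟p` at `p`, unramified outside `p`, the finite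
set `A` and the primes `qT t`, `qB i`, `qv i`, and unipotent on inertia at the primes of `A` and at
the `qB i`.  A datum has this type if it has `𝒟p`, if every prime `q ≠ p` of the level is in the
list or `H.ρ` is unramified at `q`, and if the primes of `A` and the `qB i` divide the level at
most once; the last condition gives unipotent inertia by S34.  Proved in `H30Type3`. -/
theorem datum_type {p : ℕ} [Fact p.Prime] {N : ℕ} [NeZero N] {S : Finset ℕ}
    {𝒪 : Type} [CommRing 𝒪] [IsDomain 𝒪] [IsDiscreteValuationRing 𝒪]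
    [IsAdicComplete (maximalIdeal 𝒪) 𝒪] [Finite (ResidueField 𝒪)] [CharZero 𝒪]
    {θ : CuspForm.heckeAlgebra N 2 (↑S : Set ℕ) →+* ResidueField 𝒪}
    {T : Type} [CommRing T] [IsLocalRing T] [IsNoetherianRing T]
    [IsAdicComplete (maximalIdeal T) T] [Algebra 𝒪 T] [IsLocalHom (algebraMap 𝒪 T)]
    [Module.Finite 𝒪 T] [Module.Free 𝒪 T]
    (hp𝒪 : (p : 𝒪) ∈ maximalIdeal 𝒪) (hpS : p ∈ S) (hNS : ∀ q : ℕ, q.Prime → q ∣ N → q ∈ S)
    (H : CuspForm.HeckeGaloisRepDatum N (↑S : Set ℕ) 𝒪 θ T)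
    (hunr : ∀ q : ℕ, q.Prime → ¬ q ∣ N → q ≠ p → H.ρ.IsUnramifiedAt q)
    {𝒟p : ∀ ⦃A : Type⦄ [CommRing A] [IsLocalRing A], GaloisRepAdic A → Prop}
    (h𝒟p : 𝒟p H.ρ) (A : Finset ℕ) {τ ι : Type} [Fintype τ] [Fintype ι] (qT : τ → ℕ)
    (qB : ι → ℕ) {r : ℕ} (qv : Fin r → ℕ)
    (hN : ∀ q : ℕ, q.Prime → q ∣ N → q ≠ p → q ∈ A ∨ (∃ t, qT t = q) ∨ (∃ i, qB i = q) ∨
      (∃ i, qv i = q) ∨ H.ρ.IsUnramifiedAt q)
    (hA : ∀ q ∈ A, q.Prime → q ≠ p → ¬ q ^ 2 ∣ N)
    (hB : ∀ i, ¬ (qB i) ^ 2 ∣ N) :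
    (H.ρ.DetIsCyclotomic p ∧ 𝒟p H.ρ ∧
      ∀ q : ℕ, q.Prime → q ∉ {p} ∪ A ∪ Finset.univ.image qT ∪ Finset.univ.image qB ∪
        Finset.univ.image qv → H.ρ.IsUnramifiedAt q) ∧
    ∀ q ∈ A ∪ Finset.univ.image qB, q.Prime → q ≠ p → H.ρ.IsUnipotentOnInertiaAt q :=
  H30.typeB_datum (@S34.result) hp𝒪 hpS hNS H hunr h𝒟p A qT qB qv hN hA hB

/-! ## 6. The Hecke side of one level of the lifting theorem

`W` is an elliptic curve over `ℤ` (Weierstrass equation with discriminant `Δ ≠ 0`), and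
`a_ℓ(W) = W.apOfModel ℓ`.  `H87.S58.tO W hΔ hp𝒪` is the representation `𝒪 ⊗ T_p W`: the base change
of the Tate module (GuideCurvesTate) along the homomorphism `ℤ_p → 𝒪` (`H35.padicToAdic`), which
exists because `𝒪` is complete and `p` lies in its maximal ideal. -/

/-- **The Tate module** has `X² - a_ℓ(W) X + ℓ` as characteristic polynomial of the Frobenius
elements at the primes `ℓ ≠ p` of good reduction.  Proved in `H87S58` (helper87); see
GuideCurvesTate. -/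
theorem tate_frobenius (W : WeierstrassCurve ℤ) (hΔ : W.Δ ≠ 0) {p : ℕ} [Fact p.Prime]
    {𝒪 : Type} [CommRing 𝒪] [IsLocalRing 𝒪] [IsAdicComplete (maximalIdeal 𝒪) 𝒪]
    (hp𝒪 : (p : 𝒪) ∈ maximalIdeal 𝒪) {ℓ : ℕ} (hℓ : ℓ.Prime) (hℓp : ℓ ≠ p)
    (hW : W.IsGoodPrimeFor ℓ) {P : ValuationSubring Qb} (hP : P.LiesOverPrime ℓ) {σ : Gℚ}
    (hσ : P.IsFrobeniusAt σ ℓ) :
    LinearMap.charpoly ((H87.S58.tO W hΔ hp𝒪).ρ σ) =
      Polynomial.X ^ 2 - Polynomial.C (W.apOfModel ℓ : 𝒪) * Polynomial.X + Polynomial.C (ℓ : 𝒪) :=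
  H87.S58.charpoly_tO_frob W hΔ hp𝒪 hℓ hℓp hW hP hσ

/-- **The auxiliary prime is harmless** (`p = 3`).  For `p = 3` the levels contain an auxiliary
prime `s ≡ 2 mod 3` of good reduction with `3 ∤ a_s(W)`, exactly once: there are no elements of order
three in `Γ₀(L)` (`x² + x + 1` has no root modulo `s`).  The representation over the Hecke ring of
such a level is nevertheless unramified at `s`.  Proof: let `1 + n` be the image of an element of
inertia at `s`, which is unipotent by S34, and `Φ` that of a Frobenius element.  From `Φ n = s n Φ`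
and `tr n = 0` one gets `(s - 1) tr (n Φ) = 0`, so `tr (n Φ) = 0` as `s - 1` is a unit, and then
`n ((s + 1) Φ - tr Φ) = 0` (Cayley-Hamilton); the determinant `s ((s + 1)² - (tr Φ)²)` of the second
factor is a unit, because `s + 1 ≡ 0` and `tr Φ ≡ a_s(W)` modulo `𝔪`.  So `n = 0`.  Proved in
`H80AuxUnr`, `H80AuxDatum` (helper80), `H30S59a`. -/
theorem unramified_at_auxiliary_prime {W : WeierstrassCurve ℤ} (hΔ : W.Δ ≠ 0) {p : ℕ}
    [Fact p.Prime] {𝒪 : Type} [CommRing 𝒪] [IsDomain 𝒪] [IsDiscreteValuationRing 𝒪]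
    [IsAdicComplete (maximalIdeal 𝒪) 𝒪] [Finite (ResidueField 𝒪)] [CharZero 𝒪]
    (hp𝒪 : (p : 𝒪) ∈ maximalIdeal 𝒪)
    {ρbar : ResidualGaloisRep (ResidueField 𝒪)}
    (hρ : (H87.S58.tO W hΔ hp𝒪).residual.IsEquiv ρbar) [CharP (ResidueField 𝒪) p]
    {L : ℕ} [NeZero L] (S : Finset ℕ) (hpS : p ∈ S)
    (hLS : ∀ ℓ : ℕ, ℓ.Prime → ℓ ∣ L → ℓ ∈ (↑S : Set ℕ))
    (χ : CuspForm.heckeAlgebra L 2 (↑S : Set ℕ) →+* ResidueField 𝒪)
    {s : ℕ} (hp3 : p = 3) (hs : s.Prime) (hs3 : s % 3 = 2) (hgood : W.IsGoodPrimeFor s)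
    (ha : ¬ (3 : ℤ) ∣ W.apOfModel s) (hsL : s ∣ L) (hs2 : ¬ s ^ 2 ∣ L)
    (H : CuspForm.HeckeGaloisRepDatum L (↑S : Set ℕ) 𝒪 χ
      (CuspForm.heckeLocal L (↑S : Set ℕ) 𝒪 χ))
    (hres : H.ρ.residual.IsEquiv (ρbar.baseChangeAlong
        (ResidueField.map (algebraMap 𝒪 (CuspForm.heckeLocal L (↑S : Set ℕ) 𝒪 χ))))) :
    H.ρ.IsUnramifiedAt s :=
  H30.S59.unramified_aux hΔ hp𝒪 (@S34.result) hρ S hpS hLS χ hp3 hs hs3 hgood ha hsL hs2 H hres

/-- **The point of the curve.**  `L` is the Galois side of a level of the patching argument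
(`H53.GalLevelB`, see GuideLifting): the universal deformation ring `L.D.R` of `ρbar` of type
`typeB` with the universal matrices `L.r` in a fixed basis, Taylor-Wiles primes `qv i`, where the
universal representation splits into two characters `χ₁`, `χ₂`, the elements `L.c i = χ₁(σ_i) - 1`
for a tame generator `σ_i` at `qv i` (a point kills them if and only if it is unramified at the
`qv i`), and three marks `t, y, z` (`mB (Sum.inl i) 0, 1, 2`) at each prime `q = qB i`, such that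
`(tr φ)² - (q + 1)²` is a unit times `t (t + u (q + 1))` for a Frobenius element `φ`.
Let `W` be semistable with residual representation `ρbar`, of the right type at `p`, and such that
all primes of bad reduction other than `p` occur in the level, the `qB i` being primes of bad
reduction.  Then `𝒪 ⊗ T_p W` is a point `pt : L.D.R → 𝒪`: the matrices in a suitable basis are the
images of the universal ones, the `c i` go to `0`, the trace of the tame generators at the `qT t`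
goes to `2`, and the marks `t` and `z` at the `qB i` go to `0` (there `tr φ = u (q + 1)`, `u = ± 1`
by the two kinds of multiplicative reduction).  Proved in `H30PT`, `H30PT2` with the local analysis
of semistable curves without Tate parametrisation (GuideCurvesLocal, GuideCurvesTate,
GuideNode). -/
theorem exists_point_of_curve {W : WeierstrassCurve ℤ} (hΔ : W.Δ ≠ 0) {p : ℕ} [Fact p.Prime]
    {𝒪 : Type} [CommRing 𝒪] [IsDomain 𝒪] [IsDiscreteValuationRing 𝒪]
    [IsAdicComplete (maximalIdeal 𝒪) 𝒪] [Finite (ResidueField 𝒪)] [CharZero 𝒪]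
    (hp𝒪 : (p : 𝒪) ∈ maximalIdeal 𝒪) {ρbar : ResidualGaloisRep (ResidueField 𝒪)}
    {b : Module.Basis (Fin 2) (ResidueField 𝒪) ρbar.V} {pd : H53.PData p ρbar b} {A : Finset ℕ}
    {τ ι : Type} [Fintype τ] [Fintype ι] {qT : τ → ℕ} {pl : ∀ t, H53.PlaceData p (qT t)}
    {u : τ → 𝒪} {qB : ι → ℕ} {plB : ∀ i, H53.PlaceData p (qB i)} {uB : ι → 𝒪} {k n : ℕ}
    {S : Finset ℕ} (hss : W.IsSemistableModel)
    (L : H53.GalLevelB p ρbar b pd A qT pl u qB plB uB k n S)
    (hres : (H87.S58.tO W hΔ hp𝒪).residual.IsEquiv ρbar) (h𝒟 : pd.𝒟p (H87.S58.tO W hΔ hp𝒪))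
    (hgood : ∀ q : ℕ, q.Prime → q ≠ p → (q : ℤ) ∣ W.Δ →
      q ∈ A ∨ (∃ t, qT t = q) ∨ ∃ i, qB i = q)
    (hTpr : ∀ t, (qT t).Prime ∧ qT t ≠ p) (hBpr : ∀ i, (qB i).Prime ∧ qB i ≠ p)
    (hBbad : ∀ i, ((qB i : ℕ) : ℤ) ∣ W.Δ) (huB : ∀ i, uB i = (H73LT.nodeSign W (qB i) : 𝒪)) :
    ∃ (pt : L.D.R →ₐ[𝒪] 𝒪), IsLocalHom (pt : L.D.R →+* 𝒪) ∧
      (∃ b' : Module.Basis (Fin 2) 𝒪 (H87.S58.tO W hΔ hp𝒪).V,
        H53.toMat (H87.S58.tO W hΔ hp𝒪).ρ b' = H53.mapMat (pt : L.D.R →+* 𝒪) L.r) ∧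
      (∀ σ, pt (L.r σ).trace = (H30.PT.tMat W hΔ hp𝒪 σ).trace) ∧
      (∀ i, pt (L.c i) = 0) ∧
      (∀ t, pt (L.r (pl t).σ).trace = 2) ∧
      (∀ i, pt (L.mB (Sum.inl i) 0) = 0) ∧
      (∀ i, pt (L.mB (Sum.inl i) 2) = 0) :=
  H30.PT.exists_pt_tate hΔ hp𝒪 hss L hres h𝒟 hgood hTpr hBpr hBbad huB

/-- **The Hecke side of a level.**  In the situation of the last theorem let `ρbar` be irreducible
and `W` residually modular of a level `M` dividing `L`.  Then there is an eigensystem `χ` of level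
`L` with values in the residue field with `χ(T_ℓ) = a_ℓ(W)`, a Hecke-Galois datum over
`T = heckeLocal L S 𝒪 χ`, and a surjection `G.D.R → T` from the universal deformation ring of the
level under which the universal matrices go to those of `H.ρ`.  Hypotheses on the level: its primes
are `p`, primes of `A`, the `qT t`, `qB i`, `qv i` and the auxiliary prime `s` (`s = 1` for
`p ≠ 3`), those of `A`, the `qB i` and `s` dividing it only once; `h𝒟p`: the condition at `p`.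
Proved in `H30S59b`; used for every level of the patching argument by `H86In3`, `H85C1` (which
primes divide the levels, and how often: `H30Lev`). -/
theorem hecke_side {W : WeierstrassCurve ℤ} (hΔ : W.Δ ≠ 0) {p : ℕ} [Fact p.Prime]
    {𝒪 : Type} [CommRing 𝒪] [IsDomain 𝒪] [IsDiscreteValuationRing 𝒪]
    [IsAdicComplete (maximalIdeal 𝒪) 𝒪] [Finite (ResidueField 𝒪)] [CharZero 𝒪]
    [CharP (ResidueField 𝒪) p] (hp𝒪 : (p : 𝒪) ∈ maximalIdeal 𝒪)
    {ρbar : ResidualGaloisRep (ResidueField 𝒪)}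
    {b : Module.Basis (Fin 2) (ResidueField 𝒪) ρbar.V} {pd : H53.PData p ρbar b} {A : Finset ℕ}
    {τ ι : Type} [Fintype τ] [Fintype ι] {qT : τ → ℕ} {pl : ∀ t, H53.PlaceData p (qT t)}
    {u : τ → 𝒪} {qB : ι → ℕ} {plB : ∀ i, H53.PlaceData p (qB i)} {uB : ι → 𝒪} {k n : ℕ}
    {S₀ : Finset ℕ} (hp2 : p ≠ 2)
    (hρ : (H87.S58.tO W hΔ hp𝒪).residual.IsEquiv ρbar) (hirr : ρbar.IsIrreducible)
    {M L : ℕ} [NeZero M] [NeZero L] (hM : W.IsResiduallyModularOfLevel p M) (hML : M ∣ L)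
    (S : Finset ℕ) (hpS : p ∈ S) (hLS : ∀ ℓ : ℕ, ℓ.Prime → ℓ ∣ L → ℓ ∈ (↑S : Set ℕ))
    (hSW : ∀ ℓ : ℕ, ℓ.Prime → ℓ ∉ S → W.IsGoodPrimeFor ℓ)
    (G : H53.GalLevelB p ρbar b pd A qT pl u qB plB uB k n S₀)
    (h𝒟p : ∀ χ : CuspForm.heckeAlgebra L 2 (↑S : Set ℕ) →+* ResidueField 𝒪,
      ∀ H : CuspForm.HeckeGaloisRepDatum L (↑S : Set ℕ) 𝒪 χ
        (CuspForm.heckeLocal L (↑S : Set ℕ) 𝒪 χ),
      H.ρ.residual.IsEquiv (ρbar.baseChangeAlong (ResidueField.map
        (algebraMap 𝒪 (CuspForm.heckeLocal L (↑S : Set ℕ) 𝒪 χ)))) → pd.𝒟p H.ρ)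
    {s : ℕ} (haux : (p = 3 → s.Prime ∧ s % 3 = 2 ∧ W.IsGoodPrimeFor s ∧
      ¬ (3 : ℤ) ∣ W.apOfModel s) ∧ (p ≠ 3 → s = 1))
    (hN : ∀ q : ℕ, q.Prime → q ∣ L → q = p ∨ q ∈ A ∨ (∃ t, qT t = q) ∨ (∃ i, qB i = q) ∨
      (∃ i, G.qv i = q) ∨ q = s)
    (hA : ∀ q ∈ A, ¬ q ^ 2 ∣ L) (hB : ∀ i, ¬ (qB i) ^ 2 ∣ L) (hs : p = 3 → ¬ s ^ 2 ∣ L) :
    ∃ χ : CuspForm.heckeAlgebra L 2 (↑S : Set ℕ) →+* ResidueField 𝒪,
      (∀ i : {ℓ : ℕ // ℓ.Prime ∧ ℓ ∉ (↑S : Set ℕ)},
        χ (CuspForm.heckeAlgebra.T i.2.1 (fun h => i.2.2 (hLS i.1 i.2.1 h)) i.2.2) =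
          ((W.apOfModel i.1 : ℤ) : ResidueField 𝒪)) ∧
    ∃ (H : CuspForm.HeckeGaloisRepDatum L (↑S : Set ℕ) 𝒪 χ
        (CuspForm.heckeLocal L (↑S : Set ℕ) 𝒪 χ))
      (π : G.D.R →ₐ[𝒪] CuspForm.heckeLocal L (↑S : Set ℕ) 𝒪 χ)
      (b₂ : Module.Basis (Fin 2) (CuspForm.heckeLocal L (↑S : Set ℕ) 𝒪 χ) H.ρ.V),
      H.π = CuspForm.heckeLocal.π L (↑S : Set ℕ) 𝒪 χ ∧ Function.Surjective π ∧
      (∀ σ : Gℚ, LinearMap.toMatrix b₂ b₂ (H.ρ.ρ σ) =
        (LinearMap.toMatrix G.b₁ G.b₁ (G.D.ρ.ρ σ)).map π) ∧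
      (∀ q : ℕ, q.Prime → ¬ q ∣ L → q ≠ p → H.ρ.IsUnramifiedAt q) := by
  obtain ⟨χ, h1, H, π, b₂, h2, h3, h4, h5⟩ := H30.S59.exists_hecke_all hΔ hp𝒪 (@S34.result) hp2 hρ
    hirr hM hML S hpS hLS hSW G h𝒟p haux hN hA hB hs
  exact ⟨χ, fun i => H59.evHA_X hLS i ▸ h1 i, H, π, b₂, h2, h3, DFunLike.congr_fun h4, h5⟩

end Fermat.Agent.Guide.HeckeRings
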