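import Fermat.Agent.H17Final

/-!
# Reader's guide: heights on a curve over `ℚ̄` (S17, details)

Every theorem of this file is proved by citing a theorem of the library; nothing here is used by any
other file. Editor: helper17. This file is a companion of `GuideMordellWeil` (helper10), whose
sections 3 and 4 contain the main statements (section formula, Vandermonde estimate, theorem of
Northcott, height pairing, positivity, height); here are the steps between them.

**What is proved.** Let `F` be a function field in one variable over `ℚ̄` with a semilinear action of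
`Gal(ℚ̄/ℚ)` and a fixed place. There is a function `h ≥ 0` on the group of fixed classes of `Pic⁰(F)`
with `h(a + b) + h(a - b) = 2 h(a) + 2 h(b) + O(1)` and with only finitely many elements of bounded
height. No projective embedding of a Jacobian, no theta function, no Weil height machine is used:
only places, spaces `L(N D)`, determinants, and all absolute values at the same time.

**Order of ideas.**
1. Absolute values: one extension to `ℚ̄` of each absolute value of `ℚ`; product formula for numbers
   which are rational up to sign.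
2. Sections of `N D` and their zeros.
3. Inequalities which hold at all absolute values up to "constants": Gauss' lemma, the norm of a
   section, bounds from the Nullstellensatz, Lipschitz bounds, the estimate by the fibre of `x`.
   They give the section formula and the Vandermonde estimate of `GuideMordellWeil`.
4. Rational set-ups: Galois descent for spaces of functions and for divisor classes.
5. The height of a section and the pairing with its divisor of zeros; quasi-bilinear form.
6. Positivity: the height of a system of linear equations is the height of its space of solutions;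
   Siegel's lemma; small rational sections; the evaluation height.

All theorems are used in the proof of S17. Details: `GuideHeightsSteps` (steps of sections 2 and 3)
and `GuideHeightsGlobal` (steps of sections 1, 4, 5, 6); NOTES.md, Appendix A.3, notes [152], [149],
[123], [196], [155].
-/

set_option autoImplicit false

namespace Fermat.Agent.Guide.Heights

open AlgebraicCurve ModularCurve Polynomial
open Fermat.Agent.H3RR (IsFF poleDiv)
open Fermat.Agent.H17 (Qb V0 AbsFam stdAbs HSetup GSetup GalF IsZer)

/-! ## 1. Absolute values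

`Qb` is `AlgebraicClosure ℚ` and `V0 = Option Nat.Primes` the set of places of `ℚ` (`none` is the real
one). A *constant* is a function `C` on the set of absolute values with `C v ≥ 1` for all `v` and
`C v = 1` for almost all `v`; it is written out in every statement below. -/

/-- **Absolute values.** There is a family of absolute values of `ℚ̄` which consists of one extension
of the real and of each `p`-adic absolute value of `ℚ` (`AbsFam`: at almost all of them the absolute
value is nonarchimedean, a given nonzero element has absolute value `1` at almost all of them, and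
none of them is trivial). `stdAbs` is one such family. Files `H87AbsQ`, `H17Abs`. -/
theorem exists_absolute_values : ∃ 𝔸 : AbsFam (AlgebraicClosure ℚ) (Option Nat.Primes),
    (∀ q : ℚ, 𝔸.abv none (algebraMap ℚ (AlgebraicClosure ℚ) q) = |(q : ℝ)|) ∧
      (∀ (p : Nat.Primes) (q : ℚ),
        𝔸.abv (some p) (algebraMap ℚ (AlgebraicClosure ℚ) q) = (padicNorm p q : ℝ)) ∧
      ∀ p : Nat.Primes, (some p : Option Nat.Primes) ∉ 𝔸.arch :=
  H17.exists_stdAbs

/-- **Product formula** for the algebraic numbers which are rational up to sign: each conjugate is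
`a` or `-a`. Only one extension of each absolute value of `ℚ` is used; this suffices because all
numbers to which the product formula is applied are of this form (products of the values of a
rational section over all points of a rational divisor, determinants). File `H17Abs`. -/
theorem product_formula {a : Qb} (ha : a ≠ 0) (h : ∀ σ : Qb ≃ₐ[ℚ] Qb, σ a = a ∨ σ a = -a) :
    ∑ᶠ v : V0, Real.log (stdAbs.abv v a) = 0 :=
  H17.sum_log_abv_eq_zero_of_sq ha h

/-- **Northcott for `ℚ`**: there are finitely many rational numbers of bounded height. File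
`H17Abs`. -/
theorem northcott_rational (B : ℝ) :
    {a : ℚ | ∑ᶠ v : V0, Real.log (max 1 (stdAbs.abv v (algebraMap ℚ Qb a))) ≤ B}.Finite :=
  H17.northcott_rat B

/-- **From local to global.** An inequality `f v ≤ log C_v + g v` at all places, with a constant `C`,
becomes an inequality up to the number `∑ log C_v` for the sums. File `H17Abs`. -/
theorem local_to_global {C f g : V0 → ℝ} (hC : (∀ v, 1 ≤ C v) ∧ {v | C v ≠ 1}.Finite)
    (hf : (Function.support f).Finite) (hg : (Function.support g).Finite)
    (h : ∀ v, f v ≤ Real.log (C v) + g v) :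
    ∑ᶠ v, f v ≤ (∑ᶠ v, Real.log (C v)) + ∑ᶠ v, g v :=
  H17.IsMC.finsum_le hC hf hg h

/-! ## 2. Sections and their zeros

`F/K` is a function field, `K` algebraically closed, `x ∈ F` transcendental with pole divisor `D`.
`W K x N` is the space of sections of `N D`. (Definitions: `H17Defs`; values of functions at places:
`H17Val`.) -/

/-- **Sections**: `W K x N` is the Riemann-Roch space `L(N D)`, and the multiset `A` is the divisor of
zeros of the section `s` (`IsZer x N s A`) if the multiplicity of each place `v` in `A` is the order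
at `v` of `s` times the `N`-th power of the local equation `nf x v` of `D` (`1` where `x` is regular,
`x⁻¹` at the poles of `x`). File `H17Zer`. -/
theorem sections {K F : Type*} [Field K] [Field F] [Algebra K F] [IsAlgClosed K] [CharZero K]
    [IsFF K F] {x : F} (hx : Transcendental K x) (N : ℕ) (s : F) :
    (s ∈ H17.W K x N ↔ s ∈ riemannRochSpace (N • (poleDiv x : Divisor K F))) ∧
      ∀ A : Multiset (Place K F), IsZer x N s A ↔
        ∀ v : Place K F, ((@Multiset.count _ (Classical.decEq _) v A : ℕ) : ℤ) =
          v.ord (s * H17.nf x v ^ N) :=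
  ⟨H17.mem_W_iff_mem_L hx N s, fun _ => Iff.rfl⟩

/-- **Zeros**: a section `s ≠ 0` of `N D` has a divisor of zeros, of degree `N deg D`
(`deg D = [F : K(x)]`), and sections with the same zeros are proportional. File `H17Zer`. -/
theorem zeros {K F : Type*} [Field K] [Field F] [Algebra K F] [IsAlgClosed K] [CharZero K]
    [IsFF K F] {x : F} (hx : Transcendental K x) {N : ℕ} {s : F} (hs : s ∈ H17.W K x N)
    (hs0 : s ≠ 0) :
    ∃ A : Multiset (Place K F), IsZer x N s A ∧
      A.card = N * Module.finrank (IntermediateField.adjoin K {x}) F ∧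
      ∀ t : F, t ≠ 0 → IsZer x N t A → ∃ c : K, c ≠ 0 ∧ t = c • s := by
  obtain ⟨A, hA⟩ := H17.exists_isZer hx hs hs0
  exact ⟨A, hA, hA.card_eq hx hs0, fun t ht h => hA.eq_smul hx hs0 ht h⟩

/-! ## 3. Inequalities at all absolute values

`S : HSetup K F V` is a set-up as in `GuideMordellWeil`: a function `S.x` with pole divisor `D`,
bases `S.b N` of the spaces `L(N D)`, a family `S.𝔸` of absolute values indexed by `V`. Notation:
`S.nrm N v s` is the size of the coordinates of the section `s`, `S.w v P` the size of the vector
`S.e P` of the values at `P` of the basis of `L(D)`, `S.dist v P Q` the chordal distance,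
`S.d = deg D`, `H17.ev x N P s` the normalised value of the section `s` at `P`, `H17.val P f` the value
at `P` of a function `f` (`0` if `f` has a pole). Statements near the poles of `x` are reduced to
statements near the zeros by the set-up for `x⁻¹`, `H17Inv`. -/

section Local

/-- **Distances**: they are positive between distinct places, for two given distinct places equal to
`1` at almost all absolute values, and satisfy the ultrametric inequality up to a constant. Files
`H17Nrm`, `H17Int`. -/
theorem distances {K F V : Type*} [Field K] [Field F] [Algebra K F] [IsAlgClosed K] [CharZero K]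
    [IsFF K F] (S : HSetup K F V) :
    (∀ (v : V) (P Q : Place K F), P ≠ Q → 0 < S.dist v P Q) ∧
      (∀ P Q : Place K F, P ≠ Q → {v | S.dist v P Q ≠ 1}.Finite) ∧
      ∃ C : V → ℝ, ((∀ v, 1 ≤ C v) ∧ {v | C v ≠ 1}.Finite) ∧
        ∀ v (P Q R : Place K F), S.dist v P R ≤ C v * max (S.dist v P Q) (S.dist v Q R) :=
  ⟨fun v _ _ h => S.dist_pos v h, fun _ _ h => S.finite_dist_ne_one h, S.exists_dist_triangle⟩

/-- **Gauss' lemma for sections.** The size of a product of sections of `N D` and `M D` is the product
of the sizes up to a constant. (The upper bound is clear; the lower bound is deduced from the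
inequalities of Gauss and Gelfond for polynomials with the norm from `F` to `K(x)`.) Files `H17Nrm`,
`H17Norm`, `H17Poly`. -/
theorem gauss_lemma {K F V : Type*} [Field K] [Field F] [Algebra K F] [IsAlgClosed K] [CharZero K]
    [IsFF K F] (S : HSetup K F V) (N M : ℕ) :
    ∃ C C' : V → ℝ, ((∀ v, 1 ≤ C v) ∧ {v | C v ≠ 1}.Finite) ∧
      ((∀ v, 1 ≤ C' v) ∧ {v | C' v ≠ 1}.Finite) ∧
      ∀ v, ∀ s ∈ H17.W K S.x N, ∀ t ∈ H17.W K S.x M,
        S.nrm N v s * S.nrm M v t ≤ C v * S.nrm (N + M) v (s * t) ∧
        S.nrm (N + M) v (s * t) ≤ C' v * (S.nrm N v s * S.nrm M v t) := by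
  obtain ⟨C, hC, h⟩ := S.exists_gauss N M
  obtain ⟨C', hC', h'⟩ := S.exists_nrm_mul_le N M
  exact ⟨C, C', hC, hC', fun v s hs t ht => ⟨h v s hs t ht, h' v s hs t ht⟩⟩

/-- **The norm of a section.** For a section `s ≠ 0` of `N D` with zeros `A` the norm from `F` to
`K(x)` is `c ∏_{P ∈ A} (x - x(P))` in homogeneous form: `fsec x P` is the section of `D` whose zeros
are the fibre of `x` through `P`. Moreover `|c|_v ∏ w_v(P) = ‖s‖_v^d` up to a constant. File
`H17Norm`. -/
theorem norm_of_section {K F V : Type*} [Field K] [Field F] [Algebra K F] [IsAlgClosed K]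
    [CharZero K] [IsFF K F] (S : HSetup K F V) (N : ℕ) :
    ∃ C : V → ℝ, ((∀ v, 1 ≤ C v) ∧ {v | C v ≠ 1}.Finite) ∧
      ∀ (s : F) (A : Multiset (Place K F)), s ∈ H17.W K S.x N → s ≠ 0 → IsZer S.x N s A →
        ∃ c : K, c ≠ 0 ∧
          ((Algebra.norm (IntermediateField.adjoin K {S.x}) s :
            IntermediateField.adjoin K {S.x}) : F) = c • (A.map (H17.fsec S.x)).prod ∧
          ∀ v, S.nrm N v s ^ S.d ≤ C v * (S.𝔸.abv v c * (A.map (S.w v)).prod) ∧
            S.𝔸.abv v c * (A.map (S.w v)).prod ≤ C v * S.nrm N v s ^ S.d := by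
  obtain ⟨C, hC, h⟩ := S.exists_nrm_pow_le N
  refine ⟨C, hC, fun s A hs hs0 hA => ?_⟩
  obtain ⟨c, hc, hn⟩ := S.exists_norm_eq hs hs0 hA
  exact ⟨c, hc, hn, h s A c hs hs0 hA hn⟩

/-- **Bounds from the Nullstellensatz** (helper77). If the homogeneous polynomials `f_i` of degree `d`
have no common zero except `0`, then `max_j |s_j|^d ≤ C_v max_i |f_i(s)|` for all vectors `s` and all
absolute values. File `H17Null`. -/
theorem nullstellensatz_bound {K V : Type*} [Field K] [IsAlgClosed K] (𝔸 : AbsFam K V)
    {σ ι : Type*} [Finite σ] [Nonempty σ] [Finite ι] [Nonempty ι] (f : ι → MvPolynomial σ K) {d : ℕ}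
    (hd : 0 < d) (hf : ∀ i, (f i).IsHomogeneous d)
    (h0 : ∀ s : σ → K, (∀ i, MvPolynomial.eval s (f i) = 0) → s = 0) :
    ∃ C : V → ℝ, ((∀ v, 1 ≤ C v) ∧ {v | C v ≠ 1}.Finite) ∧ ∀ v (s : σ → K),
      (⨆ j, 𝔸.abv v (s j)) ^ d ≤ C v * ⨆ i, 𝔸.abv v (MvPolynomial.eval s (f i)) :=
  H17.exists_null_bound 𝔸 f hd hf h0

/-- **Lipschitz bound** (helper62). A function which is regular wherever `x` is regular is Lipschitz
for the distance on the set of places where `|x|_v` is bounded by a given constant. File
`H17Int`. -/
theorem lipschitz_bound {K F V : Type*} [Field K] [Field F] [Algebra K F] [IsAlgClosed K]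
    [CharZero K] [IsFF K F] (S : HSetup K F V) {R : V → ℝ}
    (hR : (∀ v, 1 ≤ R v) ∧ {v | R v ≠ 1}.Finite) (f : F)
    (hf : ∀ P : Place K F, S.x ∈ P.toValuationSubring → f ∈ P.toValuationSubring) :
    ∃ C : V → ℝ, ((∀ v, 1 ≤ C v) ∧ {v | C v ≠ 1}.Finite) ∧
      ∀ v (P Q : Place K F), S.x ∈ P.toValuationSubring → S.x ∈ Q.toValuationSubring →
        S.𝔸.abv v (H17.val P S.x) ≤ R v → S.𝔸.abv v (H17.val Q S.x) ≤ R v →
          S.𝔸.abv v (H17.val P f - H17.val Q f) ≤ C v * S.dist v P Q :=
  S.exists_lipschitz hR f hf

/-- **Estimate by the fibre** (helper23). The value at `Q` of the section `x - x(P)` of `D` is at most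
the product of the distances of `Q` to the points of the fibre of `x` through `P`, up to weights and
a constant. (In homogeneous form; if `P` is a pole of `x`, then `fsec` is the constant section `-1` and
the fibre is the pole divisor.) Consequence of the fibre identity of `GuideMordellWeil`. File
`H17Fibre`. -/
theorem fibre_bound {K F V : Type*} [Field K] [Field F] [Algebra K F] [IsAlgClosed K]
    [CharZero K] [IsFF K F] (S : HSetup K F V) :
    ∃ C : V → ℝ, ((∀ v, 1 ≤ C v) ∧ {v | C v ≠ 1}.Finite) ∧
      ∀ (P : Place K F) (A : Multiset (Place K F)), IsZer S.x 1 (H17.fsec S.x P) A →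
        ∀ v (Q : Place K F), S.𝔸.abv v (H17.ev S.x 1 Q (H17.fsec S.x P)) ≤
          C v * (S.w v P * S.w v Q * (A.map fun P' => S.dist v P' Q).prod) :=
  S.exists_fibre_upper

/-- **Generic sections** (helper61). For at most `n` pairs of vectors `(p₁, p₂)` and at most `n`
vectors `q` there is an integer `t ≤ T` such that the linear forms `y_t = ∑ t^i p_i` and
`z_t = ∑ t^(r i) p_i` are simultaneously large: the values of `z_t` at the vectors `q` and the
`2`-minors of `(y_t, z_t)` at the pairs are as large as the sizes of the vectors and of their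
`2`-minors, up to a constant. File `H17Poly`. -/
theorem generic_sections {K V : Type*} [Field K] [IsAlgClosed K] [CharZero K] (𝔸 : AbsFam K V)
    (r n : ℕ) [NeZero r] :
    ∃ (T : ℕ) (C : V → ℝ), ((∀ v, 1 ≤ C v) ∧ {v | C v ≠ 1}.Finite) ∧
      ∀ v (A : Multiset ((Fin r → K) × (Fin r → K))) (B : Multiset (Fin r → K)),
        A.card ≤ n → B.card ≤ n → ∃ t : ℕ, t ≤ T ∧
          (A.map fun p => ⨆ ij : Fin r × Fin r,
              𝔸.abv v (p.1 ij.1 * p.2 ij.2 - p.1 ij.2 * p.2 ij.1)).prod *
            (B.map fun q => ⨆ i, 𝔸.abv v (q i)).prod ≤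
          C v * ((A.map fun p => 𝔸.abv v
              ((∑ i : Fin r, (t : K) ^ (r * (i : ℕ)) * p.1 i) *
                  (∑ i : Fin r, (t : K) ^ (i : ℕ) * p.2 i) -
                (∑ i : Fin r, (t : K) ^ (i : ℕ) * p.1 i) *
                  ∑ i : Fin r, (t : K) ^ (r * (i : ℕ)) * p.2 i)).prod *
            (B.map fun q => 𝔸.abv v (∑ i : Fin r, (t : K) ^ (r * (i : ℕ)) * q i)).prod) := by
  obtain ⟨T, C, hC, h⟩ := H17.exists_generic 𝔸 r n
  exact ⟨T, C, hC, h⟩

end Local

/-! ## 4. Rational set-ups -/

section Descent

/-- **Galois descent for Laurent series** (helper4). A finite dimensional space `U` of Laurent series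
over `ℚ̄` in the field generated by `F₀ ⊂ ℚ((q))`, stable by the action of `Gal(ℚ̄/ℚ)` on the
coefficients, is spanned by fixed elements. With `F₀` the field of modular functions of level `N`
this is the descent property required in `GalF`. File `H17Laurent`. -/
theorem descent_laurent (F₀ : IntermediateField ℚ (LaurentSeries ℚ))
    (U : Submodule Qb (laurentBaseChange Qb F₀)) (hU : Module.Finite Qb U)
    (h : ∀ σ : Qb ≃ₐ[ℚ] Qb, ∀ u ∈ U, arithmeticGalois F₀ σ • u ∈ U) :
    U ≤ Submodule.span Qb
      {u : laurentBaseChange Qb F₀ | u ∈ U ∧ ∀ σ : Qb ≃ₐ[ℚ] Qb, arithmeticGalois F₀ σ • u = u} :=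
  H17.laurent_descent F₀ U hU h

/-- **Rational bases**: a finite dimensional space of functions stable by the Galois group has a basis
of rational functions. (`Φ.φ σ` is the automorphism of `F` which belongs to `σ`.) File `H17Setup`. -/
theorem rational_basis {F : Type*} [Field F] [Algebra Qb F] [IsFF Qb F] (Φ : GalF F)
    (U : Submodule Qb F) [Module.Finite Qb U] (hU : ∀ σ, ∀ u ∈ U, Φ.φ σ • u ∈ U) :
    ∃ b : Module.Basis (Fin (Module.finrank Qb U)) Qb U,
      ∀ i σ, Φ.φ σ • ((b i : U) : F) = ((b i : U) : F) :=
  Φ.exists_basis U hU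

/-- **A rational function with one pole**: there is a rational function whose pole divisor is a
multiple of the rational place `Φ.pt`; a power of it is the function `x` of the set-up. File
`H17Setup`. -/
theorem function_with_one_pole {F : Type*} [Field F] [Algebra Qb F] [IsFF Qb F] (Φ : GalF F) :
    ∃ f : F, Transcendental Qb f ∧ (∀ σ, Φ.φ σ • f = f) ∧
      ∃ m : ℕ, (poleDiv f : Divisor Qb F) = m • (Finsupp.single Φ.pt 1 : Divisor Qb F) :=
  Φ.exists_ratF

/-- **Generation in degree one.** If `f` has pole divisor `m P`, then for large `n` every element of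
`L((n + m) P)` is `a + f b` with `a`, `b ∈ L(n P)`. Hence the spaces of sections of a large multiple
of `P` generate the affine coordinate rings, as a set-up requires. File `H17Ram`. -/
theorem generation {K F : Type*} [Field K] [Field F] [Algebra K F] [IsAlgClosed K] [IsFF K F]
    (pt : Place K F) {f : F} (hf : Transcendental K f) {m : ℕ}
    (hm : (poleDiv f : Divisor K F) = m • (Finsupp.single pt 1 : Divisor K F)) :
    ∃ n₀ : ℕ, ∀ n, n₀ ≤ n →
      ∀ h ∈ riemannRochSpace ((n + m) • (Finsupp.single pt 1 : Divisor K F)),
        ∃ a ∈ riemannRochSpace (n • (Finsupp.single pt 1 : Divisor K F)),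
          ∃ b ∈ riemannRochSpace (n • (Finsupp.single pt 1 : Divisor K F)), h = a + f * b :=
  H17.exists_pencil pt hf hm

/-- **Divisors with a unique section.** For a place `P` there is a bound `g` such that for every
divisor `D` of degree zero `dim L(D + n P) = 1` for some `n ≤ g`. If `P` and the class of `D` are
rational, then the divisor of zeros of this section is rational: so a rational class contains a
rational divisor (`exists_rational_divisor` and `exists_good_representative` in
`GuideMordellWeil`). The same argument descends division points from `ℂ` to `ℚ̄`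
(`division_points_descend` in `GuideMordellWeil`). File `H17Ram`. -/
theorem unique_section {K F : Type*} [Field K] [Field F] [Algebra K F] [IsAlgClosed K] [IsFF K F]
    (pt : Place K F) : ∃ g : ℕ, ∀ D : Divisor K F, Divisor.degree D = 0 →
      ∃ n : ℕ, n ≤ g ∧ Module.finrank K
        (riemannRochSpace (D + n • (Finsupp.single pt 1 : Divisor K F))) = 1 :=
  H17.exists_ell_eq_one pt

end Descent

/-! ## 5. The height of a section and the pairing with its zeros

`Γ : GSetup F` is a rational set-up with the absolute values `stdAbs`. For disjoint divisors `A`, `B`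
the number `Γ.pair A B` is minus the sum over all places of `ℚ` of the logarithms of the distances
between the points of `A` and the points of `B` (`global_notions` in `GuideMordellWeil`;
finiteness of the sums and additivity: `H17Fin`). `Γ.RatM A` means that the divisor `A` is rational,
that is, fixed by the Galois group; it is mostly written out. -/

section Global

/-- **Heights of sections and divisors** written out: `Γ.hs N s` is the sum over all places of `ℚ` of
the logarithms of the sizes of `s`; `Γ.hgt A` is the sum of the logarithms of the weights. File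
`H17GDefs`. -/
theorem heights {F : Type*} [Field F] [Algebra Qb F] (Γ : GSetup F) (N : ℕ) (s : F)
    (A : Multiset (Place Qb F)) :
    Γ.hs N s = ∑ᶠ v : V0, Real.log (Γ.nrm N v s) ∧
      Γ.hgt A = ∑ᶠ v : V0, (A.map fun P => Real.log (Γ.w v P)).sum :=
  ⟨rfl, rfl⟩

/-- **Zeros of rational sections**: the divisor of zeros of a rational section is rational, and a
rational divisor which is the divisor of zeros of a section is that of a rational section. File
`H17Equiv`. -/
theorem rational_zeros {F : Type*} [Field F] [Algebra Qb F] [IsFF Qb F] (Γ : GSetup F) {N : ℕ}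
    {s : F} (hs : s ∈ H17.W Qb Γ.x N) (hs0 : s ≠ 0) {A : Multiset (Place Qb F)}
    (hA : IsZer Γ.x N s A) :
    ((∀ σ, Γ.φ σ • s = s) → ∀ σ, A.map (fun P => Γ.φ σ • P) = A) ∧
      ((∀ σ, A.map (fun P => Γ.φ σ • P) = A) →
        ∃ t ∈ H17.W Qb Γ.x N, t ≠ 0 ∧ (∀ σ, Γ.φ σ • t = t) ∧ IsZer Γ.x N t A) :=
  ⟨fun h => Γ.ratM_of_ratF h hA, fun h => Γ.exists_ratF_of_ratM hs hs0 hA h⟩

/-- **Product formula for the values of a rational section** at the points of a rational divisor, if
the section has no zero there. File `H17Equiv`. -/
theorem product_formula_values {F : Type*} [Field F] [Algebra Qb F] [IsFF Qb F] (Γ : GSetup F)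
    {N : ℕ} {s : F} (hs : s ∈ H17.W Qb Γ.x N) (h : ∀ σ, Γ.φ σ • s = s) {A : Multiset (Place Qb F)}
    (hA : ∀ σ, A.map (fun P => Γ.φ σ • P) = A) (h0 : ∀ P ∈ A, H17.ev Γ.x N P s ≠ 0) :
    ∑ᶠ v : V0, (A.map fun P => Real.log (stdAbs.abv v (H17.ev Γ.x N P s))).sum = 0 :=
  Γ.sum_log_ev_eq_zero hs h hA h0

/-- **The height of a section is the height of its zeros**: `d · hs(s) = hgt(A) + O(1)` for a rational
section `s ≠ 0` of `N D` with zeros `A`, with a bound which depends only on `N`. (Norm of a section
and product formula.) File `H17GLE`. -/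
theorem height_of_section {F : Type*} [Field F] [Algebra Qb F] [IsFF Qb F] (Γ : GSetup F)
    (N : ℕ) : ∃ C : ℝ, ∀ s ∈ H17.W Qb Γ.x N, s ≠ 0 → (∀ σ, Γ.φ σ • s = s) →
      ∀ A : Multiset (Place Qb F), IsZer Γ.x N s A → |Γ.d * Γ.hs N s - Γ.hgt A| ≤ C :=
  Γ.exists_hs_hgt N

/-- **Pairing with the zeros of a section**: `pair(A, B) = deg(B) hs(s) + N hgt(B) + O(1)` for the
zeros `A` of a rational section `s` of `N D` and a rational divisor `B` of bounded degree disjoint
from `A`. (Section formula at the points of `B` and product formula.) File `H17GLE`. -/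
theorem pairing_with_section {F : Type*} [Field F] [Algebra Qb F] [IsFF Qb F] (Γ : GSetup F)
    (N n : ℕ) : ∃ C : ℝ, ∀ s ∈ H17.W Qb Γ.x N, s ≠ 0 → (∀ σ, Γ.φ σ • s = s) →
      ∀ A B : Multiset (Place Qb F), IsZer Γ.x N s A → (∀ σ, B.map (fun P => Γ.φ σ • P) = B) →
        B.card ≤ n → Disjoint A B → |Γ.pair A B - (B.card * Γ.hs N s + N * Γ.hgt B)| ≤ C :=
  Γ.exists_gle N n

/-- **The parallelogram law** for a function `β` of two variables on an abelian group which is
symmetric and additive up to bounded errors; also `β(x, -x) = -β(x, x) + O(1)`. Applied to the height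
pairing; the second part is a hypothesis of `height_lower_bound` in `GuideMordellWeil`. File
`H17Bil`. -/
theorem parallelogram {G : Type*} [AddCommGroup G] (β : G → G → ℝ) {C : ℝ}
    (hs : ∀ c c', |β c c' - β c' c| ≤ C)
    (ha : ∀ c c' c'', |β (c + c') c'' - (β c c'' + β c' c'')| ≤ C) :
    (∃ C' : ℝ, ∀ x y, |β (x + y) (x + y) + β (x - y) (x - y) - 2 * (β x x + β y y)| ≤ C') ∧
      ∃ C' : ℝ, ∀ x, |β x (-x) + β x x| ≤ C' :=
  H17.GSetup.exists_parallelogram β hs ha

end Global

/-! ## 6. Positivity -/

section Positivity

/-- **The height of a system of equations is the height of its space of solutions.** `E` is a `k × R`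
matrix over `ℚ̄` whose rows are independent and permuted by the Galois group, the rows of the
rational matrix `S` are a basis of the space of solutions of `E`. The sizes of `E` and `S` (largest
absolute value of a maximal minor) have the same height. (Jacobi's theorem on complementary minors
and the product formula; files `H65Siegel*`, `H17Siegel`.) -/
theorem height_of_equations {k r R : ℕ} (hR : r + k = R) (E : Matrix (Fin k) (Fin R) Qb)
    (hE : LinearIndependent Qb E.row)
    (hG : ∀ σ : Qb ≃ₐ[ℚ] Qb, ∃ π : Equiv.Perm (Fin k), ∀ i j, σ (E i j) = E (π i) j)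
    (S : Matrix (Fin r) (Fin R) ℚ) (hS : LinearIndependent ℚ S.row)
    (hSE : E * (S.map (algebraMap ℚ Qb)).transpose = 0) :
    ∑ᶠ v : V0, Real.log (⨆ f : Fin k → Fin R, stdAbs.abv v (E.submatrix id f).det) =
      ∑ᶠ v : V0, Real.log (⨆ f : Fin r → Fin R,
        stdAbs.abv v ((S.map (algebraMap ℚ Qb)).submatrix id f).det) :=
  H17.sum_log_mm_eq hR E hE hG S hS hSE

/-- **Siegel's lemma** for equations with algebraic coefficients permuted by the Galois group, with
the optimal exponent: there is a rational solution `t ≠ 0` with `r · height(t)` at most the height of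
the system of equations up to a bounded error, `r` the dimension of the space of solutions. File
`H17Siegel`. -/
theorem siegel_lemma_galois (k r R : ℕ) (hR : r + k = R) (hr : 0 < r) :
    ∃ C : ℝ, ∀ E : Matrix (Fin k) (Fin R) Qb, LinearIndependent Qb E.row →
      (∀ σ : Qb ≃ₐ[ℚ] Qb, ∃ π : Equiv.Perm (Fin k), ∀ i j, σ (E i j) = E (π i) j) →
        ∃ t : Fin R → ℚ, t ≠ 0 ∧ E.mulVec (fun j => algebraMap ℚ Qb (t j)) = 0 ∧
          r * ∑ᶠ v : V0, Real.log (⨆ j, stdAbs.abv v (algebraMap ℚ Qb (t j))) ≤
            (∑ᶠ v : V0, Real.log
              (⨆ f : Fin k → Fin R, stdAbs.abv v (E.submatrix id f).det)) + C :=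
  H17.exists_siegel k r R hR hr

/-- **The evaluation height** of places `P_1, ..., P_k` is the height of the system of equations
"`s` vanishes at `P_1, ..., P_k`" for sections `s` of `N D`: the sum of the logarithms of
`Γ.wedge N v P`, the largest maximal minor of the matrix of the values of the basis of `L(N D)` at
the places. File `H17Lower`. -/
theorem evaluation_height {F : Type*} [Field F] [Algebra Qb F] (Γ : GSetup F) (N k : ℕ)
    (P : Fin k → Place Qb F) : Γ.hev N P = ∑ᶠ v : V0, Real.log (⨆ f : Fin k → Fin (Γ.r N),
      Γ.𝔸.abv v (Matrix.of fun i j =>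
        H17.ev Γ.x N (P j) ((Γ.b N (f i) : H17.W Qb Γ.x N) : F)).det) :=
  rfl

/-- **Small rational sections** (Siegel's lemma). Through `k < dim L(N D)` distinct points which form
a rational divisor there is a rational section `t ≠ 0` of `N D` with
`(dim L(N D) - k) · hs(t) ≤ evaluation height + O(1)`. (The conditions at the points are independent
because `k ≤ N`.) File `H17Lower`. -/
theorem small_section {F : Type*} [Field F] [Algebra Qb F] [IsFF Qb F] (Γ : GSetup F) (N k : ℕ)
    (hk : k < Γ.r N) (hN : k ≤ N) : ∃ C : ℝ, ∀ P : Fin k → Place Qb F, Function.Injective P →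
      Γ.RatM (Finset.univ.val.map P) →
        ∃ t ∈ H17.W Qb Γ.x N, t ≠ 0 ∧ (∀ σ, Γ.φ σ • t = t) ∧ (∀ i, H17.ev Γ.x N (P i) t = 0) ∧
          ((Γ.r N : ℝ) - k) * Γ.hs N t ≤ Γ.hev N P + C :=
  Γ.exists_small_section N k hk hN

/-- **Superadditivity of the evaluation height** (Vandermonde estimate): for distinct places
`P_1, ..., P_k, Q_1, ..., Q_l`, `k + l ≤ N`, the evaluation height of all of them is at least
`hev(P) + hev(Q) - pair(P, Q) - O(1)`. File `H17Lower`. -/
theorem superadditivity {F : Type*} [Field F] [Algebra Qb F] [IsFF Qb F] (Γ : GSetup F)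
    (N k l : ℕ) (hN : k + l ≤ N) :
    ∃ C : ℝ, ∀ (P : Fin k → Place Qb F) (Q : Fin l → Place Qb F),
      Function.Injective (Fin.append P Q) →
        Γ.hev N P + Γ.hev N Q - Γ.pair (Finset.univ.val.map P) (Finset.univ.val.map Q) ≤
          Γ.hev N (Fin.append P Q) + C :=
  Γ.exists_hev_add N k l hN

/-- **Upper bound for the evaluation height** at the zeros of a rational section `s` of `N D`: the
sections of `(M + N) D` which vanish there are the products of `s` with the sections of `M D`, so the
height of their space is at most `dim L(M D) · hs(s) + O(1)`. The hypotheses hold for large `M`; the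
first one is Riemann-Roch. File `H17Lower`. -/
theorem evaluation_height_le {F : Type*} [Field F] [Algebra Qb F] [IsFF Qb F] (Γ : GSetup F)
    (N M : ℕ) (hr : Γ.r (M + N) = Γ.r M + N * Γ.d) (hN : N * Γ.d ≤ M + N) :
    ∃ C : ℝ, ∀ s ∈ H17.W Qb Γ.x N, s ≠ 0 → (∀ σ, Γ.φ σ • s = s) →
      ∀ P : Fin (N * Γ.d) → Place Qb F, Function.Injective P →
        IsZer Γ.x N s (Finset.univ.val.map P) → Γ.hev (M + N) P ≤ Γ.r M * Γ.hs N s + C :=
  Γ.exists_hev_le N M hr hN

end Positivity

end Fermat.Agent.Guide.Heights
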