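import Fermat.Agent.H17Final

/-!
# Reader's guide: global heights on a curve, step by step (S17)

Every theorem of this file is proved by citing a theorem of the library; nothing here is used by any
other file. Editor: helper17. The file is a companion of `GuideMordellWeil` (helper10) and
`GuideHeights` (helper17): it contains the steps of the proofs of the theorems in section 4 of
`GuideMordellWeil` and in sections 1, 4, 5, 6 of `GuideHeights`. The steps of the local theory are
in `GuideHeightsSteps`.

**What is proved.** `F` is a function field over `ℚ̄` with a semilinear action of `Gal(ℚ̄/ℚ)` and a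
fixed place. The group of fixed divisor classes of degree zero has a height, and it is finitely
generated if its quotient by `2` is finite.

**Order of ideas.**
1. Absolute values of `ℚ̄`: one extension of each absolute value of `ℚ` is enough, because the
   product formula is only applied to numbers which are rational up to sign.
2. Rational set-ups: descent of spaces of functions; generation of the coordinate rings.
3. The Galois action on values, zeros and norms of sections.
4. The heights: finiteness of the sums, additivity, lower bound.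
5. Northcott's theorem: the coordinates of the points of a rational divisor are the roots of
   polynomials with rational coefficients of bounded height.
6. The pairing: rational representatives of a class, independence of the choice.
7. Linear equations: complementary minors, saturated bases, pigeonhole principle; application to the
   sections which vanish at given places.
8. The end of the proof.

All theorems are used in the proof of S17. Details: NOTES.md, Appendix A.3, notes [152], [155],
[196].
-/

set_option autoImplicit false

namespace Fermat.Agent.Guide.HeightsGlobal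

open AlgebraicCurve
open Fermat.Agent.H3RR (IsFF poleDiv)
open Fermat.Agent.H17 (Qb V0 stdAbs GSetup GalF IsZer IsMC)

/-! ## 1. Absolute values of `ℚ̄`

`Qb` is `AlgebraicClosure ℚ`, `V0 = Option Nat.Primes`. The family `stdAbs` of `GuideHeights` is
any family as in its theorem `exists_absolute_values`; such a family is constructed here. -/

/-- **The absolute values.** `absInf` is obtained from an embedding `toC` of `ℚ̄` into `ℂ`, and
`absP p` from an embedding of `ℚ̄` into an algebraic closure of `ℚ_p`. They extend the absolute values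
of `ℚ`, and `absP p` is nonarchimedean. File `H87AbsQ`. -/
theorem one_extension (a : Qb) (q : ℚ) (p : Nat.Primes) :
    H87AbsQ.absInf a = ‖H87AbsQ.toC a‖ ∧ H87AbsQ.absInf (algebraMap ℚ Qb q) = |(q : ℝ)| ∧
      H87AbsQ.absP p (algebraMap ℚ Qb q) = (padicNorm p q : ℝ) ∧
      IsNonarchimedean (H87AbsQ.absP p) :=
  ⟨rfl, H87AbsQ.absInf_rat q, H87AbsQ.absP_rat p q, H87AbsQ.absP_nonarch p⟩

/-- **Almost all absolute values of a nonzero number are `1`.** An algebraic number `a` has an
integral multiple `m a`, `m ∈ ℤ`, `m ≠ 0`; an integral element has `p`-adic absolute value at most `1`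
for all `p`; so `|a|_p ≤ 1` for almost all `p`, and the same holds for `a⁻¹`. File `H87AbsQ`. -/
theorem almost_all_primes (a : Qb) :
    (∃ m : ℤ, m ≠ 0 ∧ IsIntegral ℤ ((m : Qb) * a)) ∧
      (IsIntegral ℤ a → ∀ p : Nat.Primes, H87AbsQ.absP p a ≤ 1) ∧
      (a ≠ 0 → {p : Nat.Primes | H87AbsQ.absP p a ≠ 1}.Finite) :=
  ⟨H87AbsQ.exists_int_mul_integral a, fun h p => H87AbsQ.absP_le_one_of_isIntegral p h,
    H87AbsQ.finite_absP_ne_one⟩

/-- **Product formula**: for a prime number it is a computation; it follows for rational numbers, and
the elements of `ℚ̄` fixed by the Galois group are the rational numbers. If every conjugate of `a` is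
`a` or `-a`, then `a²` is rational (`product_formula` in `GuideHeights`). File `H17Abs`. -/
theorem product_formula_steps :
    (∀ p : Nat.Primes,
        ∑ᶠ v : V0, Real.log (stdAbs.abv v (algebraMap ℚ Qb ((p : ℕ) : ℚ))) = 0) ∧
      (∀ a : ℚ, a ≠ 0 → ∑ᶠ v : V0, Real.log (stdAbs.abv v (algebraMap ℚ Qb a)) = 0) ∧
      ∀ a : Qb, (∀ σ : Qb ≃ₐ[ℚ] Qb, σ a = a) → ∃ q : ℚ, algebraMap ℚ Qb q = a :=
  ⟨H17.sum_log_abv_primes, fun _ h => H17.sum_log_abv_eq_zero h,
    fun _ h => H17.exists_rat_of_fixed h⟩

/-- **Height of a rational number**: the logarithms of the denominator and of the absolute value are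
at most the height. This gives the finiteness theorem `northcott_rational` of `GuideHeights`.
File `H17Abs`. -/
theorem rational_height (a : ℚ) :
    Real.log (a.den : ℝ) ≤ ∑ᶠ v : V0, Real.log (max 1 (stdAbs.abv v (algebraMap ℚ Qb a))) ∧
      Real.log |(a : ℝ)| ≤ ∑ᶠ v : V0, Real.log (max 1 (stdAbs.abv v (algebraMap ℚ Qb a))) :=
  ⟨H17.log_den_le_finsum a, H17.log_num_le_finsum a⟩

/-! ## 2. Rational set-ups

`Φ : GalF F` consists of a semilinear action `Φ.φ` of `Gal(ℚ̄/ℚ)` on `F` with descent for finite
dimensional spaces and of a fixed place `Φ.pt`; `Γ : GSetup F` is such an action with a set-up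
`Γ.x`, `Γ.b N` (a function with pole divisor `D`, and bases of the spaces `L(N D)`) fixed by the Galois
group. -/

section SetUps

/-- **Abstract descent** (helper4). Let `U` be a finite dimensional space over a field `L` with linear
functionals `c_i` which separate its elements, and operators `S_g` on `U` with
`c_i(S_g u) = s_g(c_i(u))` for maps `s_g : L → L` with `s_g(0) = 0`, `s_g(1) = 1`. Then `U` is spanned
by vectors fixed by all `S_g`. (Some of the `c_i` form a basis of the dual space of `U`; the dual basis
is fixed.) With the coefficients of Laurent series as functionals it gives `descent_laurent` in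
`GuideHeights`. File `H17Laurent`. -/
theorem abstract_descent {L U ι G : Type*} [Field L] [AddCommGroup U] [Module L U]
    [Module.Finite L U] (c : ι → U →ₗ[L] L) (hc : ∀ u, (∀ i, c i u = 0) → u = 0) (s : G → L → L)
    (hs0 : ∀ g, s g 0 = 0) (hs1 : ∀ g, s g 1 = 1) (S : G → U → U)
    (hS : ∀ g i u, c i (S g u) = s g (c i u)) (u : U) :
    u ∈ Submodule.span L {u : U | ∀ g, S g u = u} :=
  H17.descent_aux c hc s hs0 hs1 S hS u

/-- **Generation in degree one.** Let `f` have its only pole at the place `pt`. For a power `x = f^M`
the sections of `N D` are generated by the products of `N` sections of `D`, for all `N > 0`. (Iterate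
`generation` of `GuideHeights`.) File `H17Setup`. -/
theorem generation_in_degree_one {K F : Type*} [Field K] [Field F] [Algebra K F] [IsAlgClosed K]
    [IsFF K F] (pt : Place K F) {f : F} (hf : Transcendental K f) {m : ℕ}
    (hm : (poleDiv f : Divisor K F) = m • (Finsupp.single pt 1 : Divisor K F)) :
    ∃ M : ℕ, 0 < M ∧ ∀ N : ℕ, 0 < N → H17.W K (f ^ M) N ≤ H17.W K (f ^ M) 1 ^ N :=
  H17.exists_gen pt hf hm

/-- **The coordinate rings**: in this situation the functions which are regular wherever `x` is
regular are polynomials in sections of `D`, and those which are regular wherever `x⁻¹` is regular are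
polynomials in the functions `s x⁻¹`, `s` a section of `D`. File `H17Setup`. -/
theorem coordinate_rings {K F : Type*} [Field K] [Field F] [Algebra K F] [IsAlgClosed K] [IsFF K F]
    {pt : Place K F} {x : F} (hx : Transcendental K x) {m : ℕ}
    (hm : (poleDiv x : Divisor K F) = m • (Finsupp.single pt 1 : Divisor K F))
    (h : ∀ N : ℕ, 0 < N → H17.W K x N ≤ H17.W K x 1 ^ N) (f : F) :
    ((∀ v : Place K F, x ∈ v.toValuationSubring → f ∈ v.toValuationSubring) →
        f ∈ Algebra.adjoin K (H17.W K x 1 : Set F)) ∧
      ((∀ v : Place K F, x⁻¹ ∈ v.toValuationSubring → f ∈ v.toValuationSubring) →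
        f ∈ Algebra.adjoin K ((fun s => s * x⁻¹) '' (H17.W K x 1 : Set F))) :=
  ⟨H17.gen0_of_pow hx hm h f, H17.gen1_of_pow hx hm h f⟩

end SetUps

/-! ## 3. The Galois action on sections -/

section Galois

/-- **Values and zeros of conjugate sections**: the value of `σ s` at `σ P` is `σ` of the value of `s`
at `P`, and the zeros of `σ s` are the conjugates of the zeros of `s`. File `H17Equiv`. -/
theorem conjugate_sections {F : Type*} [Field F] [Algebra Qb F] [IsFF Qb F] (Γ : GSetup F)
    (σ : Qb ≃ₐ[ℚ] Qb) (N : ℕ) (s : F) :
    (s ∈ H17.W Qb Γ.x N → ∀ P : Place Qb F,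
        H17.ev Γ.x N (Γ.φ σ • P) (Γ.φ σ • s) = σ (H17.ev Γ.x N P s)) ∧
      ∀ A : Multiset (Place Qb F), IsZer Γ.x N s A →
        IsZer Γ.x N (Γ.φ σ • s) (A.map fun P => Γ.φ σ • P) :=
  ⟨fun hs P => Γ.ev_smul_smul σ P hs, fun _ hA => Γ.IsZer_smul σ hA⟩

/-- **Rational sections** have rational coordinates, and the section with given rational coordinates
is rational and has the height of the vector of its coordinates. Files `H17Equiv`, `H17Lower`. -/
theorem rational_sections {F : Type*} [Field F] [Algebra Qb F] [IsFF Qb F] (Γ : GSetup F) (N : ℕ) :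
    (∀ (s : F) (hs : s ∈ H17.W Qb Γ.x N), (∀ σ, Γ.φ σ • s = s) → ∀ i : Fin (Γ.r N),
        ∃ q : ℚ, (Γ.b N).repr ⟨s, hs⟩ i = algebraMap ℚ Qb q) ∧
      ∀ t : Fin (Γ.r N) → ℚ, (∀ σ, Γ.φ σ • Γ.secOf N t = Γ.secOf N t) ∧
        Γ.hs N (Γ.secOf N t) = ∑ᶠ v : V0, Real.log (⨆ j, stdAbs.abv v (algebraMap ℚ Qb (t j))) :=
  ⟨fun _ hs h i => Γ.repr_rat hs h i, fun t => ⟨Γ.ratF_secOf N t, Γ.hs_secOf N t⟩⟩

/-- **Conjugation and norm**: the norm to `ℚ̄(x)` commutes with the action, and so does the
construction of the section `fsec x P` whose zeros are the fibre of `x` through `P`. File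
`H17Equiv`. -/
theorem conjugate_norm {F : Type*} [Field F] [Algebra Qb F] [IsFF Qb F] (Γ : GSetup F)
    (σ : Qb ≃ₐ[ℚ] Qb) (f : F) (P : Place Qb F) :
    ((Algebra.norm (IntermediateField.adjoin Qb {Γ.x}) (Γ.φ σ • f) :
        IntermediateField.adjoin Qb {Γ.x}) : F) = Γ.φ σ •
          ((Algebra.norm (IntermediateField.adjoin Qb {Γ.x}) f :
            IntermediateField.adjoin Qb {Γ.x}) : F) ∧
      H17.fsec Γ.x (Γ.φ σ • P) = Γ.φ σ • H17.fsec Γ.x P :=
  ⟨Γ.norm_smul σ f, Γ.fsec_smul σ P⟩

/-- **The constant of the norm is rational.** In the formula `N(s) = c ∏_{P ∈ A} fsec x P`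
(`norm_of_section` in `GuideHeights`) for a rational section `s` the constant `c` is fixed by the
Galois group, so the product formula holds for it. File `H17Equiv`. -/
theorem constant_of_norm {F : Type*} [Field F] [Algebra Qb F] [IsFF Qb F] (Γ : GSetup F) {N : ℕ}
    {s : F} (hs : s ∈ H17.W Qb Γ.x N) (hs0 : s ≠ 0) (h : ∀ σ, Γ.φ σ • s = s)
    {A : Multiset (Place Qb F)} (hA : IsZer Γ.x N s A) {c : Qb} (hc : c ≠ 0)
    (hn : ((Algebra.norm (IntermediateField.adjoin Qb {Γ.x}) s :
      IntermediateField.adjoin Qb {Γ.x}) : F) = c • (A.map (H17.fsec Γ.x)).prod) :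
    ∑ᶠ v : V0, Real.log (stdAbs.abv v c) = 0 :=
  Γ.sum_log_norm_const_eq_zero hs hs0 h hA hc hn

end Galois

/-! ## 4. Heights -/

section Heights

/-- **The sums are finite**: the heights `Γ.hgt A` and `Γ.hs N s`, `s ≠ 0`, and, if `A` and `B` have no
common point, the pairing `Γ.pair A B` are sums over all places of `ℚ` of which almost all terms
vanish. (`Γ.w v P` is the weight of the place `P`, `Γ.nrm N v s` the size of the coordinates of the
section `s`, `Γ.dist v P Q` the distance of `P` and `Q`, see `GuideHeights`.) File `H17Fin`. -/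
theorem finite_sums {F : Type*} [Field F] [Algebra Qb F] [IsFF Qb F] (Γ : GSetup F)
    (A B : Multiset (Place Qb F)) {N : ℕ} {s : F} (hs : s ∈ H17.W Qb Γ.x N) (hs0 : s ≠ 0) :
    (Function.support fun v : V0 => (A.map fun P => Real.log (Γ.w v P)).sum).Finite ∧
      (Function.support fun v : V0 => Real.log (Γ.nrm N v s)).Finite ∧
      (Disjoint A B → (Function.support fun v : V0 =>
        (A.map fun P => (B.map fun Q => - Real.log (Γ.dist v P Q)).sum).sum).Finite) :=
  ⟨Γ.finite_support_hgt A, Γ.finite_support_hs hs hs0, fun h => Γ.finite_support_pair h⟩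

/-- **Additivity** of the height and of the form
`Γ.bil A B = (#A · hgt B + #B · hgt A)/d - pair A B`, and symmetry of the form. File `H17Fin`. -/
theorem additivity {F : Type*} [Field F] [Algebra Qb F] [IsFF Qb F] (Γ : GSetup F)
    (A A' B : Multiset (Place Qb F)) :
    Γ.hgt (A + A') = Γ.hgt A + Γ.hgt A' ∧ Γ.bil A B = Γ.bil B A ∧
      (Disjoint A B → Disjoint A' B → Γ.bil (A + A') B = Γ.bil A B + Γ.bil A' B) :=
  ⟨Γ.hgt_add A A', Γ.bil_comm A B, fun h h' => Γ.bil_add_left h h'⟩

/-- **Lower bound**: the height of an effective divisor is at least `-C` times its degree. (The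
weights are bounded below by a constant.) File `H17Fin`. -/
theorem lower_bound {F : Type*} [Field F] [Algebra Qb F] [IsFF Qb F] (Γ : GSetup F) :
    ∃ C : ℝ, 0 ≤ C ∧ ∀ A : Multiset (Place Qb F), - (C * A.card) ≤ Γ.hgt A :=
  Γ.exists_hgt_ge

end Heights

/-! ## 5. Northcott's theorem

The vector `Γ.e P` of the values at `P` of the basis of `L(D)` represents the place `P`. The `i`-th
coordinates of the points of a divisor `A` are the roots of the polynomial `H28.gpol Γ A i`. -/

section Northcott

/-- **Coordinates**: the coordinates of `σ P` are the conjugates of those of `P`; the vector of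
coordinates determines the place; the function `x` has only finitely many poles. File
`H17Northcott`. -/
theorem coordinates {F : Type*} [Field F] [Algebra Qb F] [IsFF Qb F] (Γ : GSetup F) :
    (∀ (σ : Qb ≃ₐ[ℚ] Qb) (P : Place Qb F) (i : Fin (Γ.r 1)), Γ.e (Γ.φ σ • P) i = σ (Γ.e P i)) ∧
      (∀ P Q : Place Qb F, Γ.e P = Γ.e Q → P = Q) ∧
      {v : Place Qb F | Γ.x ∉ v.toValuationSubring}.Finite :=
  ⟨H28.e_smul Γ, fun _ _ h => H28.e_injective Γ h, H28.finite_notMem Γ.hx⟩

/-- **Coordinate polynomials** of a rational divisor `A`: their roots are the coordinates of the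
points of `A`, and their coefficients are rational. File `H17Northcott`. -/
theorem coordinate_polynomials {F : Type*} [Field F] [Algebra Qb F] [IsFF Qb F] (Γ : GSetup F)
    (A : Multiset (Place Qb F)) (i : Fin (Γ.r 1)) :
    (∀ P ∈ A, Γ.e P i ∈ (H28.gpol Γ A i).roots) ∧
      ((∀ σ, A.map (fun P => Γ.φ σ • P) = A) → ∀ k : ℕ,
        ∃ q : ℚ, algebraMap ℚ Qb q = (H28.gpol Γ A i).coeff k) :=
  ⟨fun _ hP => H28.mem_roots_gpol Γ hP i, fun hA k => H28.exists_rat_coeff Γ hA i k⟩

/-- **Bound for the coefficients**: for a divisor `A` of degree at most `n` which does not contain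
poles of `x`, the coefficients are bounded by the product of the weights of the points of `A`, up to
a constant. (At the points where `x` is regular the weight is at least `1` up to a constant, as `1`
is a section of `D`.) File `H17Northcott`. -/
theorem coefficient_bound {F : Type*} [Field F] [Algebra Qb F] [IsFF Qb F] (Γ : GSetup F) (n : ℕ) :
    ∃ D : V0 → ℝ, IsMC D ∧ ∀ (v : V0) (A : Multiset (Place Qb F)), A.card ≤ n →
      (∀ P ∈ A, Γ.x ∈ P.toValuationSubring) → ∀ (i : Fin (Γ.r 1)) (k : ℕ),
        max 1 (stdAbs.abv v ((H28.gpol Γ A i).coeff k)) ≤ D v * (A.map (Γ.w v)).prod :=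
  H28.exists_coeff_bound Γ n

/-- **Finitely many coefficients**: for rational divisors of bounded degree and bounded height
without poles of `x` the coefficients are rational numbers of bounded height, so they lie in a finite
set; then the coordinates of the points lie in a finite set. File `H17Northcott`. -/
theorem finitely_many_coefficients {F : Type*} [Field F] [Algebra Qb F] [IsFF Qb F] (Γ : GSetup F)
    (n : ℕ) (B : ℝ) : ∃ T : Set Qb, T.Finite ∧ ∀ A : Multiset (Place Qb F),
      (∀ σ, A.map (fun P => Γ.φ σ • P) = A) → A.card ≤ n → Γ.hgt A ≤ B →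
        (∀ P ∈ A, Γ.x ∈ P.toValuationSubring) → ∀ (i : Fin (Γ.r 1)) (k : ℕ),
          (H28.gpol Γ A i).coeff k ∈ T :=
  H28.exists_finite_coeff Γ n B

end Northcott

/-! ## 6. Representatives and the pairing

`Γ.Rep N c A` means that the class of `A - N D` is `c`, and `Γ.RatM A` that the divisor `A` is rational,
that is, fixed by the Galois group; `Γ.ratPic` is the group of the fixed classes. -/

section Pairing

/-- **Representatives**: they can be added; a divisor represents only one class for given `N`; if `A`
represents `c` and `A + B` represents `c'`, then `B` represents `c' - c`; and the trivial class is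
represented by the divisors of zeros of sections. File `H17Rep`. -/
theorem representatives {F : Type*} [Field F] [Algebra Qb F] [IsFF Qb F] (Γ : GSetup F) {N M : ℕ}
    {c c' : Pic0 Qb F} {A B : Multiset (Place Qb F)} :
    (Γ.Rep N c A → Γ.Rep M c' B → Γ.Rep (N + M) (c + c') (A + B)) ∧
      (Γ.Rep N c A → Γ.Rep N c' A → c = c') ∧
      (Γ.Rep N c A → Γ.Rep (N + M) c' (A + B) → Γ.Rep M (c' - c) B) ∧
      (Γ.Rep N 0 A ↔ ∃ s ∈ H17.W Qb Γ.x N, s ≠ 0 ∧ IsZer Γ.x N s A) :=
  ⟨fun h h' => h.add Γ h', fun h h' => h.unique Γ h', fun h h' => h.of_add Γ h', Γ.rep_zero_iff⟩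

/-- **Avoiding subspaces**: if for each of finitely many subspaces `L_i` the space `U` has a rational
element outside `L_i`, then it has a rational element outside all of them. It gives rational sections
which do not vanish at given places. File `H17Rep`. -/
theorem avoiding_subspaces {F : Type*} [Field F] [Algebra Qb F] [IsFF Qb F] (Γ : GSetup F)
    {ι : Type*} (S : Finset ι) (U : Submodule Qb F) (L : ι → Submodule Qb F)
    (h : ∀ i ∈ S, ∃ u ∈ U, (∀ σ, Γ.φ σ • u = u) ∧ u ∉ L i) :
    ∃ u ∈ U, (∀ σ, Γ.φ σ • u = u) ∧ ∀ i ∈ S, u ∉ L i :=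
  Γ.exists_avoid S U L h

/-- **Ramification**: a nonconstant function `y` has only finitely many ramification points (outside
its poles; `H17.val P y` is the value of `y` at `P`). Applied to the quotient of two rational sections
`f₁`, `f₂` without common zeros: for almost all `q ∈ ℚ` the section `f₂ - q f₁` has only simple zeros;
so a rational class has representatives without multiple points (`exists_good_representative` in
`GuideMordellWeil`). File `H17Ram`. -/
theorem ramification {K F : Type*} [Field K] [Field F] [Algebra K F] [IsAlgClosed K] [IsFF K F]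
    [CharZero K] {y : F} (hy : Transcendental K y) :
    {P : Place K F | y ∈ P.toValuationSubring ∧
      2 ≤ P.ord (y - algebraMap K F (H17.val P y))}.Finite :=
  H17.finite_ramified hy

/-- **The form vanishes for the trivial class**: `Γ.bil A B` is bounded if `A` is the divisor of zeros
of a section of `N D` and `B` has bounded degree, both rational and without common points. (Combine
`height_of_section` and `pairing_with_section` of `GuideHeights`.) File `H17GLE`. -/
theorem form_of_trivial_class {F : Type*} [Field F] [Algebra Qb F] [IsFF Qb F] (Γ : GSetup F)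
    (N n : ℕ) : ∃ C : ℝ, ∀ A B : Multiset (Place Qb F), Γ.Rep N 0 A → Γ.RatM A → Γ.RatM B →
      B.card ≤ n → Disjoint A B → |Γ.bil A B| ≤ C :=
  Γ.exists_bil_le N n

/-- **Independence of the representative**: `Γ.bil A B` depends only on the class of `A` up to a
bounded error. (Add to `A` and `A'` a representative of `-c` without common points with `B` and apply
the preceding theorem.) As the form is symmetric, the same holds for `B`; this gives the pairing of
classes (`exists_pairing` in `GuideMordellWeil`). File `H17Bil`. -/
theorem independence {F : Type*} [Field F] [Algebra Qb F] [IsFF Qb F] (Γ : GSetup F) (N M L : ℕ) :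
    ∃ C : ℝ, ∀ c ∈ Γ.ratPic, ∀ A A' B : Multiset (Place Qb F), Γ.Rep N c A → Γ.Rep M c A' →
      Γ.RatM A → Γ.RatM A' → Γ.RatM B → B.card ≤ L → Disjoint A B → Disjoint A' B →
        |Γ.bil A B - Γ.bil A' B| ≤ C :=
  Γ.exists_bil_sub_le N M L

end Pairing

/-! ## 7. Linear equations -/

section Equations

/-- **Complementary minors** (Jacobi; helper65). If the rows of `S` (an `r × R` matrix) and of `E`
(`k × R`, `r + k = R`) are independent and orthogonal to each other, then the maximal minors of `S`
and the complementary minors of `E` are proportional up to signs. File `H65Siegel`. -/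
theorem complementary_minors {K : Type*} [Field K] {r k R : ℕ} (hR : r + k = R)
    (S : Matrix (Fin r) (Fin R) K) (E : Matrix (Fin k) (Fin R) K)
    (hS : LinearIndependent K S.row) (hE : LinearIndependent K E.row)
    (hSE : E * S.transpose = 0) :
    ∃ c : K, c ≠ 0 ∧ ∀ e : Fin r ⊕ Fin k ≃ Fin R,
      (S.submatrix id (fun i => e (Sum.inl i))).det =
          c * (E.submatrix id (fun i => e (Sum.inr i))).det ∨
      (S.submatrix id (fun i => e (Sum.inl i))).det =
          - (c * (E.submatrix id (fun i => e (Sum.inr i))).det) :=
  H65Siegel.complementary hR S E hS hE hSE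

/-- **Minors of Galois stable systems**: if an automorphism `σ` of `ℚ̄` permutes the rows of `E`, then
each maximal minor of `E` is fixed by `σ` up to sign. Hence for a system `E` as in
`height_of_equations` (`GuideHeights`) and rational `S` every conjugate of the factor `c` of the
preceding theorem is `c` or `-c`, and the product formula holds for it. File `H65SiegelB`. -/
theorem minors_galois {k R : ℕ} (E : Matrix (Fin k) (Fin R) Qb) (σ : Qb ≃ₐ[ℚ] Qb)
    (π : Equiv.Perm (Fin k)) (h : ∀ i j, σ (E i j) = E (π i) j) (f : Fin k → Fin R) :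
    σ (E.submatrix id f).det = (E.submatrix id f).det ∨
      σ (E.submatrix id f).det = - (E.submatrix id f).det :=
  H65Siegel.det_gal E σ π h f

/-- **Saturated bases**: a subspace of `ℚ^R` of dimension `r` has a basis of integral vectors whose
maximal minors have no common prime factor. So the nonarchimedean absolute values do not contribute
to the height of the space, which is the logarithm of the largest minor. File `H65Siegel`. -/
theorem saturated_basis {r R : ℕ} (U : Submodule ℚ (Fin R → ℚ)) (hU : Module.finrank ℚ U = r) :
    ∃ S : Matrix (Fin r) (Fin R) ℤ, LinearIndependent ℤ S.row ∧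
      (∀ i, (fun j => (S i j : ℚ)) ∈ U) ∧
      ∀ p : ℕ, p.Prime → ∃ f : Fin r → Fin R, ¬ (p : ℤ) ∣ (S.submatrix id f).det :=
  H65Siegel.exists_saturated U hU

/-- **Pigeonhole principle for the lattice generated by the rows of a square matrix `A`**: if
`|det A| < (m + 1)^r`, then some nonzero vector of the lattice has entries of absolute value at most
`m`. Applied to a largest maximal minor; the other entries of the vector are then bounded by Cramer's
rule. File `H65Siegel`. -/
theorem pigeonhole {r : ℕ} (A : Matrix (Fin r) (Fin r) ℤ) (hA : A.det ≠ 0) (m : ℕ)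
    (hm : A.det.natAbs < (m + 1) ^ r) :
    ∃ c : Fin r → ℤ, c ≠ 0 ∧ ∀ i, |Matrix.vecMul c A i| ≤ m :=
  H65Siegel.exists_small_vec A hA m hm

/-- **The matrix of values** `Γ.evMat N P` of the basis of `L(N D)` at `k ≤ N` distinct places: its
rows are independent, and they are permuted by the Galois group if the divisor of the places is
rational. File `H17Lower`. -/
theorem matrix_of_values {F : Type*} [Field F] [Algebra Qb F] [IsFF Qb F] (Γ : GSetup F) {N k : ℕ}
    (hk : k ≤ N) {P : Fin k → Place Qb F} (hP : Function.Injective P) :
    Γ.evMat N P = Matrix.of (fun i j => H17.ev Γ.x N (P i) ((Γ.b N j : H17.W Qb Γ.x N) : F)) ∧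
      LinearIndependent Qb (Γ.evMat N P).row ∧
      (Γ.RatM (Finset.univ.val.map P) → ∀ σ : Qb ≃ₐ[ℚ] Qb, ∃ π : Equiv.Perm (Fin k),
        ∀ i j, σ (Γ.evMat N P i j) = Γ.evMat N P (π i) j) :=
  ⟨rfl, Γ.evMat_row_li hk hP, fun hR => Γ.galRows_evMat N hP hR⟩

end Equations

/-! ## 8. The end -/

section End

/-- **The height** of a function field with an action of the Galois group: the quadratic form of the
pairing plus a constant is nonnegative by `height_lower_bound` (`GuideMordellWeil`) and `lower_bound`
above, and the finiteness follows from Northcott's theorem for the same representatives. The group of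
fixed classes is finitely generated if its quotient by `2` is finite (Mathlib's descent theorem with
this height). File `H17Height`. -/
theorem height {F : Type*} [Field F] [Algebra Qb F] [IsFF Qb F] (Φ : GalF F) :
    (∃ (h : Φ.ratPic → ℝ) (C : ℝ), (∀ c, 0 ≤ h c) ∧
      (∀ c c', |h (c + c') + h (c - c') - 2 * (h c + h c')| ≤ C) ∧
      ∀ B : ℝ, {c | h c ≤ B}.Finite) ∧
      ((nsmulAddMonoidHom (α := Φ.ratPic) 2).range.FiniteIndex → AddGroup.FG Φ.ratPic) :=
  ⟨Φ.exists_height, Φ.fg_of_finiteIndex⟩

end End

end Fermat.Agent.Guide.HeightsGlobal
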