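import Fermat.Agent.H17Final

/-!
# Reader's guide: local heights on a curve, step by step (S17)

Every theorem of this file is proved by citing a theorem of the library; nothing here is used by any
other file. Editor: helper17. The file is a companion of `GuideMordellWeil` (helper10) and
`GuideHeights` (helper17): it contains the steps of the proofs of the theorems in section 3 of
`GuideMordellWeil` and in sections 2 and 3 of `GuideHeights`. The steps for global heights are in
`GuideHeightsGlobal`.

**What is proved.** `F/K` is a function field, `K` algebraically closed of characteristic zero with a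
family of absolute values, `x ∈ F` has pole divisor `D`. Goal: the section formula
`|s(Q)|_v = ‖s‖_v w_v(Q)^N ∏_{P ∈ A} dist_v(P, Q)` up to constants, for all sections `s` of `N D` with
zeros `A`, all places `Q` and all absolute values `v`, and its consequence for determinants.

**Order of ideas.**
1. Constants, sums.
2. Polynomials in one variable: coefficients and roots (lemmas of Gauss and Gelfond); interpolation.
3. Sections: values, divisibility, exchange of the zeros and the poles of `x`.
4. The norm of a section from `F` to `K(x)`.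
5. The places as points of a projective space: weights and distances.
6. The section formula. Lower bound: multiply `s` by a cofactor `u` such that `s u` is a product of
   sections of `D` through the zeros of `s`. Upper bound: the same with the fibres of `x` through the
   zeros of `s`, first for `Q` outside the zeros of `u`, then for all `Q` by a limit.
7. Determinants.

All theorems are used in the proof of S17. Details: NOTES.md, Appendix A.3, notes [152], [149],
[123], [196].
-/

set_option autoImplicit false

namespace Fermat.Agent.Guide.HeightsSteps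

open AlgebraicCurve Polynomial IntermediateField
open Fermat.Agent.H3RR (IsFF)
open Fermat.Agent.H17 (AbsFam HSetup IsZer IsMC)

/-! ## 1. Constants

`𝔸 : AbsFam K V` is a family `𝔸.abv v` of absolute values of `K` (see `exists_absolute_values` in
`GuideHeights`). A *constant* is a function `C` on the set `V` of absolute values with `C v ≥ 1` for all
`v` and `C v = 1` for almost all `v`; in the library this is `IsMC C`. -/

/-- **Constants**: the definition; products and powers of constants are constants, and finitely many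
constants are bounded by a single constant. File `H17Defs`. -/
theorem constants {V ι : Type*} [Finite ι] (C : ι → V → ℝ) :
    (∀ i, IsMC (C i) ↔ (∀ v, 1 ≤ C i v) ∧ {v | C i v ≠ 1}.Finite) ∧
      ((∀ i, IsMC (C i)) → (∀ i j, IsMC fun v => C i v * C j v) ∧
        (∀ i n, IsMC fun v => C i v ^ n) ∧ ∃ D : V → ℝ, IsMC D ∧ ∀ i v, C i v ≤ D v) :=
  ⟨fun _ => Iff.rfl, fun h => ⟨fun i j => (h i).mul (h j), fun i n => (h i).pow n,
    H17.exists_isMC_forall h⟩⟩

/-- **Sums**: a given element is bounded by a constant, and a sum of `n` terms bounded by `B` is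
bounded by `c_n B`, where `c_n` is the constant `𝔸.card n` (`max(1, n)` at the archimedean absolute
values, `1` at the others). This is how the triangle inequality is used in all proofs. File
`H17Defs`. -/
theorem sums {K V ι : Type*} [Field K] (𝔸 : AbsFam K V) :
    (∀ a : K, ∃ C : V → ℝ, IsMC C ∧ ∀ v, 𝔸.abv v a ≤ C v) ∧ (∀ n : ℕ, IsMC (𝔸.card n)) ∧
      ∀ (S : Finset ι) (f : ι → K) (v : V) (B : ℝ), 0 ≤ B → (∀ i ∈ S, 𝔸.abv v (f i) ≤ B) →
        𝔸.abv v (∑ i ∈ S, f i) ≤ 𝔸.card S.card v * B :=
  ⟨𝔸.exists_isMC_abv_le, 𝔸.isMC_card, fun S f v _ hB h => 𝔸.abv_sum_le S f v hB h⟩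

/-! ## 2. Polynomials in one variable

`𝔸.pnrm v p` is the largest absolute value of a coefficient of `p`. -/

section Polynomials

/-- **One linear factor**: the size of `(X - a) q` is `max(1, |a|)` times the size of `q` up to
constants which depend only on the degree. File `H17Poly`. -/
theorem linear_factor {K V : Type*} [Field K] (𝔸 : AbsFam K V) (v : V) (a : K) {q : K[X]} {D : ℕ}
    (hq : q.natDegree ≤ D) :
    max 1 (𝔸.abv v a) * 𝔸.pnrm v q ≤ 𝔸.card (D + 1) v * 𝔸.pnrm v ((X - C a) * q) ∧
      𝔸.pnrm v ((X - C a) * q) ≤ 𝔸.card 2 v * (max 1 (𝔸.abv v a) * 𝔸.pnrm v q) :=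
  ⟨𝔸.pnrm_mul_max_le v a hq, 𝔸.pnrm_linear_mul_le v a q⟩

/-- **Coefficients and roots**: for polynomials of bounded degree the size of `p` is, up to
constants, the measure `𝔸.mah v p`, the absolute value of the leading coefficient times the product
of the numbers `max(1, |a|)` for the roots `a`. File `H17Poly`. -/
theorem coefficients_and_roots {K V : Type*} [Field K] [IsAlgClosed K] (𝔸 : AbsFam K V) (v : V)
    {p : K[X]} {D : ℕ} (hp : p.natDegree ≤ D) :
    𝔸.mah v p = 𝔸.abv v p.leadingCoeff * (p.roots.map fun a => max 1 (𝔸.abv v a)).prod ∧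
      𝔸.mah v p ≤ 𝔸.card (D + 1) v ^ D * 𝔸.pnrm v p ∧
      𝔸.pnrm v p ≤ 𝔸.card 2 v ^ D * 𝔸.mah v p :=
  ⟨rfl, 𝔸.mah_le v hp, 𝔸.le_mah v hp⟩

/-- **Gauss and Gelfond**: for a product of at most `n` polynomials of degree at most `D` the product
of the sizes and the size of the product agree up to constants, as the measure is multiplicative.
File `H17Poly`. -/
theorem gauss_gelfond {K V : Type*} [Field K] [IsAlgClosed K] (𝔸 : AbsFam K V) (n D : ℕ) :
    (∀ (v : V) (p q : K[X]), p ≠ 0 → q ≠ 0 → 𝔸.mah v (p * q) = 𝔸.mah v p * 𝔸.mah v q) ∧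
      (∃ C : V → ℝ, IsMC C ∧ ∀ v (A : Multiset K[X]), A.card ≤ n → (∀ p ∈ A, p.natDegree ≤ D) →
        (A.map (𝔸.pnrm v)).prod ≤ C v * 𝔸.pnrm v A.prod) ∧
      ∃ C : V → ℝ, IsMC C ∧ ∀ v (A : Multiset K[X]), A.card ≤ n → (∀ p ∈ A, p.natDegree ≤ D) →
        𝔸.pnrm v A.prod ≤ C v * (A.map (𝔸.pnrm v)).prod :=
  ⟨fun v _ _ hp hq => 𝔸.mah_mul v hp hq, H17.exists_prod_pnrm_le 𝔸 n D,
    H17.exists_pnrm_prod_le 𝔸 n D⟩

/-- **Interpolation** (Lagrange): a polynomial of degree at most `D` has a large value at one of the
integers `0, 1, ..., D`. File `H17Poly`. -/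
theorem interpolation {K V : Type*} [Field K] [CharZero K] (𝔸 : AbsFam K V) (D : ℕ) :
    ∃ C : V → ℝ, IsMC C ∧ ∀ v (p : K[X]), p.natDegree ≤ D →
      ∃ t : ℕ, t ≤ D ∧ 𝔸.pnrm v p ≤ C v * 𝔸.abv v (p.eval (t : K)) :=
  H17.exists_pnrm_le_eval 𝔸 D

/-- **Generic linear forms.** For vectors `p₁`, `p₂` of length `r` let `y_t(p) = ∑ t^i p_i` and
`z_t(p) = ∑ t^(r i) p_i` (`ylin`, `zlin`). The value of `z_t` at `p₁` and the minor
`z_t(p₁) y_t(p₂) - y_t(p₁) z_t(p₂)` are polynomials in `t` whose coefficients contain all coordinates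
of `p₁` and all `2`-minors of `(p₁, p₂)`. With Gauss' lemma and interpolation this proves
`generic_sections` of `GuideHeights`. File `H17Poly`. -/
theorem generic_polynomials {K : Type*} [Field K] {r : ℕ} [NeZero r]
    (p : (Fin r → K) × (Fin r → K)) (i j : Fin r) (t : ℕ) :
    (H17.zpol p.1).eval (t : K) = H17.zlin t p.1 ∧ (H17.zpol p.1).coeff (r * (i : ℕ)) = p.1 i ∧
      (H17.mpol p).eval (t : K) =
        H17.zlin t p.1 * H17.ylin t p.2 - H17.ylin t p.1 * H17.zlin t p.2 ∧
      (H17.mpol p).coeff ((j : ℕ) + r * (i : ℕ)) = p.1 i * p.2 j - p.1 j * p.2 i :=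
  ⟨H17.eval_zpol p.1 t, H17.coeff_zpol p.1 i, H17.eval_mpol p t, H17.coeff_mpol p i j⟩

end Polynomials

/-! ## 3. Sections

`H17.W K x N` is `L(N D)`; for a section `s` of `N D` and a place `P` the number `H17.ev x N P s` is
the value at `P` of `s` times the `N`-th power of the local equation of `D` (`1` where `x` is regular,
`x⁻¹` at the poles of `x`). -/

section Sections

/-- **Values of sections**: they are multiplicative and linear, and for sections `y`, `z` of `D` the
section `tsec x y z P = z(P) y - y(P) z` of `D` vanishes at `P`. For `y = x`, `z = 1` it is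
`fsec x P`, whose zeros are the fibre of `x` through `P`. Files `H17Defs`, `H17Zer`. -/
theorem values_of_sections {K F : Type*} [Field K] [Field F] [Algebra K F] [IsAlgClosed K]
    [IsFF K F] {x : F} (P Q : Place K F) :
    (∀ (N M : ℕ), ∀ s ∈ H17.W K x N, ∀ t ∈ H17.W K x M,
        s * t ∈ H17.W K x (N + M) ∧
          H17.ev x (N + M) P (s * t) = H17.ev x N P s * H17.ev x M P t) ∧
      (∀ (N : ℕ), ∀ s ∈ H17.W K x N, ∀ t ∈ H17.W K x N, ∀ c : K,
        H17.ev x N P (s - t) = H17.ev x N P s - H17.ev x N P t ∧
          H17.ev x N P (c • s) = c * H17.ev x N P s) ∧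
      ∀ y ∈ H17.W K x 1, ∀ z ∈ H17.W K x 1, H17.tsec x y z P ∈ H17.W K x 1 ∧
        H17.ev x 1 Q (H17.tsec x y z P) =
          H17.ev x 1 P z * H17.ev x 1 Q y - H17.ev x 1 P y * H17.ev x 1 Q z :=
  ⟨fun _ _ _ hs _ ht => ⟨H17.mul_mem_W hs ht, H17.ev_mul hs ht P⟩,
    fun _ _ hs _ ht c => ⟨H17.ev_sub hs ht P, H17.ev_smul hs c P⟩,
    fun _ hy _ hz => ⟨H17.tsec_mem hy hz P, H17.ev_tsec hy hz P Q⟩⟩

/-- **Division of sections**: if the divisor of zeros of a section `t` of `(N + M) D` contains that of
a section `s` of `N D`, then `t = s u` for a section `u` of `M D`. File `H17Zer`. -/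
theorem division_of_sections {K F : Type*} [Field K] [Field F] [Algebra K F] [IsAlgClosed K]
    [IsFF K F] {x : F} (hx : Transcendental K x) {N M : ℕ} {s t : F} (hs : s ≠ 0) (ht : t ≠ 0)
    {A B : Multiset (Place K F)} (hA : IsZer x N s A) (hB : IsZer x (N + M) t B) (hAB : A ≤ B) :
    ∃ u ∈ H17.W K x M, u ≠ 0 ∧ t = s * u ∧ ∃ A', B = A + A' ∧ IsZer x M u A' :=
  H17.exists_eq_mul_of_le hx hs ht hA hB hAB

/-- **Zeros and poles of `x` play the same role**: there is a set-up `S'` for `x⁻¹` with the same
absolute values, the sections `s x⁻ᴺ`, the same sizes, distances and divisors of zeros; the ratio of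
the value of a section of `N D` to the `N`-th power of the weight is the same for `S` and `S'`. So
estimates at places where `|x|` is large follow from estimates where it is bounded. (Proof:
multiplication by `x⁻ᴺ` is an isomorphism of the spaces of sections, and it multiplies the normalised
value at `P` by `u^N`, where `u = 1` if `P` is a zero or a pole of `x` and `u = x(P)⁻¹` otherwise.) File
`H17Inv`. -/
theorem inverse_setup {K F V : Type*} [Field K] [Field F] [Algebra K F] [IsAlgClosed K] [CharZero K]
    [IsFF K F] (S : HSetup K F V) : ∃ S' : HSetup K F V, S'.x = S.x⁻¹ ∧ S'.𝔸 = S.𝔸 ∧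
      (∀ N s, s ∈ H17.W K S.x N ↔ s * S.x⁻¹ ^ N ∈ H17.W K S'.x N) ∧
      (∀ N v s, S'.nrm N v (s * S.x⁻¹ ^ N) = S.nrm N v s) ∧
      (∀ v P Q, S'.dist v P Q = S.dist v P Q) ∧
      (∀ N s (A : Multiset (Place K F)), IsZer S'.x N (s * S.x⁻¹ ^ N) A ↔ IsZer S.x N s A) ∧
      (∀ N v P s, s ∈ H17.W K S.x N → S.𝔸.abv v (H17.ev S'.x N P (s * S.x⁻¹ ^ N)) * S.w v P ^ N =
        S.𝔸.abv v (H17.ev S.x N P s) * S'.w v P ^ N) :=
  S.exists_inv

end Sections

/-! ## 4. The norm of a section -/

section Norm

/-- **The norm as a form** (helper79). For given `b_1, ..., b_r ∈ F` there are a polynomial `q ≠ 0` and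
homogeneous forms `f_0, ..., f_J` of degree `d = [F : K(x)]` with
`q(x) Norm(∑ s_i b_i) = ∑_j f_j(s) x^j` for all vectors `s` of constants, `Norm` the norm to `K(x)`.
(The norm is the determinant of `∑ s_i M_i`, `M_i` the matrix of the multiplication by `b_i`; `q` is a
common denominator.) If the `b_i` are a basis of the sections of `N D`, then the `f_j` have no common
zero `s ≠ 0`, so the bound from the Nullstellensatz (`nullstellensatz_bound` in `GuideHeights`)
compares the size of the norm with `‖s‖^d`. File `H79NormForm`. -/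
theorem norm_form {K F : Type*} [Field K] [Field F] [Algebra K F] {x : F}
    [FiniteDimensional K⟮x⟯ F] {r : ℕ} (b : Fin r → F) :
    ∃ (J : ℕ) (q : K[X]) (f : Fin (J + 1) → MvPolynomial (Fin r) K), q ≠ 0 ∧
      (∀ j, (f j).IsHomogeneous (Module.finrank K⟮x⟯ F)) ∧
      ∀ s : Fin r → K, aeval x q * ((Algebra.norm K⟮x⟯ (∑ i, s i • b i) : K⟮x⟯) : F) =
        aeval x (∑ j : Fin (J + 1), C (MvPolynomial.eval s (f j)) * X ^ (j : ℕ)) :=
  H79.exists_norm_form b

/-- **A function on the line is determined by its zeros and poles at the finite places** (helper79).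
If `E = K(z)` and `h ∈ E`, `h ≠ 0`, has order `0` at every place where `z` is regular, then `h` is
constant. (There is only one other place, so `h` or `h⁻¹` has no pole at all.) File `H79SecNorm`. -/
theorem constant_of_orders {K E : Type*} [Field K] [IsAlgClosed K] [Field E] [Algebra K E]
    [IsFF K E] {z : E} (hz : Transcendental K z) (htop : K⟮z⟯ = ⊤) {h : E} (h0 : h ≠ 0)
    (hh : ∀ v : Place K E, z ∈ v.toValuationSubring → v.ord h = 0) :
    ∃ c : K, algebraMap K E c = h :=
  H79.exists_const_of_ord_eq_zero hz htop h0 hh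

/-- **Zeros on the line** (helper79). `fE K x P` is the section `fsec x P` as an element of `K(x)`:
`x - x(P)`, or `-1` if `P` is a pole of `x`. At a place `v` of `K(x)` where `x` is regular its order is
`1` if `v` is the place below `P` and `0` otherwise. The order of a norm at `v` is the sum of the orders
at the places above `v`; so for a section of `N D` with zeros `A` the norm and the product of the
`fsec x P`, `P ∈ A`, have the same orders at these places, and `constant_of_orders` gives the formula
`norm_of_section` of `GuideHeights`. File `H79SecNorm`. -/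
theorem zeros_on_line {K F : Type*} [Field K] [Field F] [Algebra K F] [IsAlgClosed K] [IsFF K F]
    {x : F} (hx : Transcendental K x) [FiniteDimensional K⟮x⟯ F] (P : Place K F) :
    (H79.fE K x P : F) = H17.fsec x P ∧ ∀ v : Place K K⟮x⟯,
      AdjoinSimple.gen K x ∈ v.toValuationSubring →
        (P.restrict K⟮x⟯ = v → v.ord (H79.fE K x P) = 1) ∧
          (P.restrict K⟮x⟯ ≠ v → v.ord (H79.fE K x P) = 0) :=
  ⟨H79.coe_fE x P, fun v hv => ⟨fun h => (H79.ord_fE hx P v hv).trans (if_pos h),
    fun h => (H79.ord_fE hx P v hv).trans (if_neg h)⟩⟩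

/-- **The linear polynomial of a fibre**: `fsec x P = f(x)` with `f = ev_P(1) X - ev_P(x)`, and the
size of `f` is the maximum of the absolute values of the values at `P` of the sections `1` and `x`.
File `H17Norm`. -/
theorem fibre_polynomial {K F V : Type*} [Field K] [Field F] [Algebra K F] (𝔸 : AbsFam K V) (x : F)
    (v : V) (P : Place K F) :
    aeval x (H79.fpol x P) = H17.fsec x P ∧
      𝔸.pnrm v (H79.fpol x P) = max (𝔸.abv v (H17.ev x 1 P 1)) (𝔸.abv v (H17.ev x 1 P x)) :=
  ⟨H79.aeval_fpol x P, le_antisymm (H79.pnrm_fpol_le 𝔸 x v P) (H79.le_pnrm_fpol 𝔸 x v P)⟩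

end Norm

/-! ## 5. Weights and distances

`S : HSetup K F V` is a set-up as in `GuideMordellWeil`; the vector `S.e P` of the values at `P`
of the basis of `L(D)` is the image of `P` in a projective space. `S.w v P` is its size and
`S.dist v P Q` the distance; `S.nrm N v s` is the size of the coordinates of `s`, and `H17.val P f` the
value at `P` of a function `f` (`0` if `f` has a pole). -/

section Points

/-- **The weight** is comparable to the maximum of the absolute values of the values of the sections
`1` and `x`: where `x` is regular, to `max(1, |x(P)|)`. File `H17Int`. -/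
theorem weights {K F V : Type*} [Field K] [Field F] [Algebra K F] [IsAlgClosed K] [CharZero K]
    [IsFF K F] (S : HSetup K F V) :
    (∃ C : V → ℝ, IsMC C ∧ ∀ v (P : Place K F), S.w v P ≤
        C v * max (S.𝔸.abv v (H17.ev S.x 1 P 1)) (S.𝔸.abv v (H17.ev S.x 1 P S.x))) ∧
      ∃ C : V → ℝ, IsMC C ∧ ∀ v (P : Place K F),
        max (S.𝔸.abv v (H17.ev S.x 1 P 1)) (S.𝔸.abv v (H17.ev S.x 1 P S.x)) ≤ C v * S.w v P :=
  ⟨S.exists_w_le, S.exists_le_w⟩

/-- **Integral equations.** A function `f` which is regular wherever `x` is regular satisfies a monic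
equation with coefficients in `K[x]`; so `|f(P)|_v` is bounded where `|x(P)|_v` is bounded by a given
constant. Files `H62Int` (helper62), `H17Int`. -/
theorem integral_equations {K F V : Type*} [Field K] [Field F] [Algebra K F] [IsAlgClosed K]
    [CharZero K] [IsFF K F] (S : HSetup K F V) (f : F)
    (hf : ∀ P : Place K F, S.x ∈ P.toValuationSubring → f ∈ P.toValuationSubring) :
    (∃ (n : ℕ) (c : ℕ → K[X]), f ^ n = ∑ i ∈ Finset.range n, aeval S.x (c i) * f ^ i) ∧
      ∀ R : V → ℝ, IsMC R → ∃ C : V → ℝ, IsMC C ∧ ∀ v (P : Place K F),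
        S.x ∈ P.toValuationSubring → S.𝔸.abv v (H17.val P S.x) ≤ R v →
          S.𝔸.abv v (H17.val P f) ≤ C v :=
  ⟨H62.exists_monic_rel S.x f hf, fun _ hR => S.exists_val_le hR f hf⟩

/-- **Trivial upper bound** for the value of a section: `|s(P)| ≤ C ‖s‖ w(P)^N`. (For the elements of
the basis, in the two charts, this follows from the two preceding theorems.) File `H17Int`. -/
theorem trivial_bound {K F V : Type*} [Field K] [Field F] [Algebra K F] [IsAlgClosed K] [CharZero K]
    [IsFF K F] (S : HSetup K F V) (N : ℕ) :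
    ∃ C : V → ℝ, IsMC C ∧ ∀ v (P : Place K F), ∀ s ∈ H17.W K S.x N,
      S.𝔸.abv v (H17.ev S.x N P s) ≤ C v * (S.nrm N v s * S.w v P ^ N) :=
  S.exists_ev_le N

/-- **The places are points of the projective space**: if all `2`-minors of the vectors `e P`, `e Q`
vanish, then `P = Q`. (The sections of `D` generate the coordinate rings of the two charts, and the
functions in these rings separate the places.) Files `H17Int`, `H62Int`. -/
theorem separation {K F V : Type*} [Field K] [Field F] [Algebra K F] [IsAlgClosed K] [CharZero K]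
    [IsFF K F] (S : HSetup K F V) {P Q : Place K F}
    (h : ∀ i j, S.e P i * S.e Q j - S.e P j * S.e Q i = 0) : P = Q :=
  S.eq_of_minors h

/-- **Minors of sections**: for sections `y`, `z` of `D` the number `z(P) y(Q) - y(P) z(Q)`, the value
at `Q` of `tsec x y z P`, is bounded by the product of the sizes of `y` and `z`, the weights and the
distance of `P` and `Q`. The size of `tsec x y z P` is bounded as well. File `H17Nrm`. -/
theorem minors_of_sections {K F V : Type*} [Field K] [Field F] [Algebra K F] [IsAlgClosed K]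
    [CharZero K] [IsFF K F] (S : HSetup K F V) :
    (∃ C : V → ℝ, IsMC C ∧ ∀ v (P Q : Place K F), ∀ y ∈ H17.W K S.x 1, ∀ z ∈ H17.W K S.x 1,
        S.𝔸.abv v (H17.ev S.x 1 P z * H17.ev S.x 1 Q y - H17.ev S.x 1 P y * H17.ev S.x 1 Q z) ≤
          C v * (S.nrm 1 v y * S.nrm 1 v z * (S.w v P * S.w v Q * S.dist v P Q))) ∧
      ∃ C : V → ℝ, IsMC C ∧ ∀ v (P : Place K F), ∀ y ∈ H17.W K S.x 1, ∀ z ∈ H17.W K S.x 1,
        S.nrm 1 v (H17.tsec S.x y z P) ≤ C v * (S.nrm 1 v y * S.nrm 1 v z * S.w v P) :=
  ⟨S.exists_minor_le, S.exists_nrm_tsec_le⟩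

end Points

/-! ## 6. The section formula -/

section Formula

/-- **Two charts.** Where `|x|` is bounded by a given constant, `|x(Q) - x(P)|` is at most the product
of the distances of `Q` to the points of the fibre of `x` through `P`, up to a constant (fibre
identity and Lipschitz bound). And if `P` is not in the chart `|x| ≤ 2` and `Q` not in the chart
`|x⁻¹| ≤ 2` (`2` replaced by `1` at nonarchimedean absolute values), then the distance of `P` and `Q`
is bounded below. With `inverse_setup` this gives `fibre_bound` in `GuideHeights`. File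
`H17Fibre`. -/
theorem two_charts {K F V : Type*} [Field K] [Field F] [Algebra K F] [IsAlgClosed K] [CharZero K]
    [IsFF K F] (S : HSetup K F V) :
    (∀ R : V → ℝ, IsMC R → ∃ C : V → ℝ, IsMC C ∧ ∀ v (P Q : Place K F)
        (A : Multiset (Place K F)), S.x ∈ P.toValuationSubring → S.x ∈ Q.toValuationSubring →
        S.𝔸.abv v (H17.val P S.x) ≤ R v → S.𝔸.abv v (H17.val Q S.x) ≤ R v →
        IsZer S.x 1 (H17.fsec S.x P) A →
          S.𝔸.abv v (H17.val Q S.x - H17.val P S.x) ≤
            C v * (A.map fun P' => S.dist v P' Q).prod) ∧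
      ∃ C : V → ℝ, IsMC C ∧ ∀ v (P Q : Place K F),
        ¬ (S.x ∈ P.toValuationSubring ∧ S.𝔸.abv v (H17.val P S.x) ≤ S.𝔸.card 2 v) →
        ¬ (S.x⁻¹ ∈ Q.toValuationSubring ∧ S.𝔸.abv v (H17.val Q S.x⁻¹) ≤ S.𝔸.card 2 v) →
          1 ≤ C v * S.dist v P Q :=
  ⟨fun _ hR => S.exists_fibre_chart hR, S.exists_far⟩

/-- **Lower bound: the auxiliary product.** Let `s` be a section of `N D` with zeros `A`, and for
`P ∈ A` let `t P ≠ 0` be a section of `D` vanishing at `P`. Then the product of the `t P` is `s u` for
a section `u` of `M D`, `#A = N + M`. Take `t P = z(P) y - y(P) z` for generic `y`, `z`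
(`generic_sections` in `GuideHeights`): the product of the values of the `t P` at `Q` is at
least the product of the distances of `Q` to the points of `A` times weights, up to a constant; the
trivial bound for `u(Q)` and Gauss' lemma for the size of `u` give the lower bound for `s(Q)`. File
`H17Zer`; the estimates: `H17Low`. -/
theorem auxiliary_product {K F : Type*} [Field K] [Field F] [Algebra K F] [IsAlgClosed K]
    [IsFF K F] {x : F} (hx : Transcendental K x) {N M : ℕ} {s : F} (hs : s ≠ 0)
    {A : Multiset (Place K F)} (hA : IsZer x N s A) (t : Place K F → F)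
    (ht : ∀ P ∈ A, t P ∈ H17.W K x 1) (ht' : ∀ P ∈ A, H17.ev x 1 P (t P) = 0)
    (hc : A.card = N + M) (h0 : ∀ P ∈ A, t P ≠ 0) :
    ∃ u ∈ H17.W K x M, u ≠ 0 ∧ (A.map t).prod = s * u :=
  H17.exists_eq_mul_prod hx hs hA t ht ht' hc h0

/-- **Upper bound outside finitely many places.** Take `t P = fsec x P` in the preceding theorem, with
cofactor `u`. The value of `fsec x P` at `Q` is bounded above by the distances of `Q` to the fibre
through `P` (`fibre_bound` in `GuideHeights`), and `u(Q)` is bounded below by the lower bound just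
proved; this gives the upper bound for `s(Q)` if `u(Q) ≠ 0`. File `H17Up`. -/
theorem upper_bound_outside {K F V : Type*} [Field K] [Field F] [Algebra K F] [IsAlgClosed K]
    [CharZero K] [IsFF K F] (S : HSetup K F V) (N : ℕ) :
    ∃ C : V → ℝ, IsMC C ∧ ∀ (s : F) (A : Multiset (Place K F)), s ∈ H17.W K S.x N → s ≠ 0 →
      IsZer S.x N s A → ∃ u : F, u ≠ 0 ∧ u ∈ H17.W K S.x (N * S.d - N) ∧
        ∀ v (Q : Place K F), H17.ev S.x (N * S.d - N) Q u ≠ 0 →
          S.𝔸.abv v (H17.ev S.x N Q s) ≤
            C v * (S.nrm N v s * S.w v Q ^ N * (A.map fun P => S.dist v P Q).prod) :=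
  S.exists_upper_of_ne N

/-- **Nearby places**: arbitrarily close to a place `Q` where `x` is regular there are places outside
a given finite set. (The section `x - x(Q) - c^n`, `|c|_v < 1`, has the small value `-c^n` at `Q`; by the
lower bound one of its zeros is close to `Q`.) File `H17Up`. -/
theorem nearby_places {K F V : Type*} [Field K] [Field F] [Algebra K F] [IsAlgClosed K] [CharZero K]
    [IsFF K F] (S : HSetup K F V) (v : V) {Q : Place K F} (hQ : S.x ∈ Q.toValuationSubring)
    {T : Set (Place K F)} (hT : T.Finite) {ε : ℝ} (hε : 0 < ε) :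
    ∃ Q' : Place K F, Q' ∉ T ∧ S.x ∈ Q'.toValuationSubring ∧
      S.𝔸.abv v (H17.val Q' S.x) ≤ S.𝔸.abv v (H17.val Q S.x) + 1 ∧ S.dist v Q' Q < ε :=
  S.exists_near_up v hQ hT hε

/-- **Passage to the limit**: an upper bound as in the section formula which holds for all places
outside a finite set `T` holds for all places where `x` is regular, up to a constant which does not
depend on `T`. File `H17Up`. -/
theorem limit {K F V : Type*} [Field K] [Field F] [Algebra K F] [IsAlgClosed K] [CharZero K]
    [IsFF K F] (S : HSetup K F V) (N : ℕ) :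
    ∃ C : V → ℝ, IsMC C ∧ ∀ (s : F) (A : Multiset (Place K F)), s ∈ H17.W K S.x N → s ≠ 0 →
      IsZer S.x N s A → ∀ (v : V) (c : ℝ), 0 ≤ c → ∀ T : Set (Place K F), T.Finite →
        (∀ Q, Q ∉ T → S.𝔸.abv v (H17.ev S.x N Q s) ≤
          c * (S.w v Q ^ N * (A.map fun P => S.dist v P Q).prod)) →
        ∀ Q : Place K F, S.x ∈ Q.toValuationSubring → S.𝔸.abv v (H17.ev S.x N Q s) ≤
          c * (C v * (S.w v Q ^ N * (A.map fun P => S.dist v P Q).prod)) :=
  S.exists_limit_up N

end Formula

/-! ## 7. Determinants

`S.wedge N v P` is the largest absolute value of a maximal minor of the matrix of the values of the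
basis of `L(N D)` at the places `P_0, ..., P_(k-1)`. -/

section Determinants

/-- **Determinants of values of sections**: for `k` sections `g_i` of `N D` the determinant of the
matrix `(g_i(P_j))` is at most the product of the sizes of the `g_i` times `S.wedge N v P`, up to a
constant. (Expand the `g_i` in the basis.) File `H17Vdm`. -/
theorem determinants_of_sections {K F V : Type*} [Field K] [Field F] [Algebra K F] [IsAlgClosed K]
    [CharZero K] [IsFF K F] (S : HSetup K F V) (N : ℕ) (v : V) {k : ℕ} (P : Fin k → Place K F)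
    (g : Fin k → F) (hg : ∀ i, g i ∈ H17.W K S.x N) :
    S.𝔸.abv v (Matrix.of fun i j => H17.ev S.x N (P j) (g i)).det ≤
      S.𝔸.card (Fintype.card (Fin k → Fin (S.r N))) v *
        ((∏ i, S.nrm N v (g i)) * S.wedge N v P) :=
  S.abv_det_ev_le N v P g hg

/-- **Generic pairs**: for vectors `u_0, ..., u_(k-1)` there is an integer `t ≤ T` such that `z_t` is
large at all `u_i` and the minors of `(z_t, y_t)` are large at all pairs. Let `y`, `z` be the
corresponding sections of `D`, `u_i = e P_i` (indices from 0). The section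
`g_j = z^(N - j) ∏_{i < j} tsec x y z P_i` of `N D` vanishes at `P_i` for `i < j`; so the determinant
of the `g_j(P_i)` is the product of the diagonal terms, which are large: this is the lower bound of the
Vandermonde estimate (`GuideMordellWeil`). File `H17Vdm`. -/
theorem generic_pairs {K V : Type*} [Field K] [IsAlgClosed K] [CharZero K] (𝔸 : AbsFam K V)
    (r N k : ℕ) [NeZero r] : ∃ (T : ℕ) (C : V → ℝ), IsMC C ∧
      ∀ (v : V) (u : Fin k → Fin r → K), ∃ t : ℕ, t ≤ T ∧
        (∏ i, ∏ j ∈ Finset.Ioi i, ⨆ ij : Fin r × Fin r,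
            𝔸.abv v (u i ij.1 * u j ij.2 - u i ij.2 * u j ij.1)) *
          ∏ i, (⨆ a, 𝔸.abv v (u i a)) ^ (N - (i : ℕ)) ≤
        C v * ((∏ i, ∏ j ∈ Finset.Ioi i, 𝔸.abv v
            (H17.zlin t (u i) * H17.ylin t (u j) - H17.ylin t (u i) * H17.zlin t (u j))) *
          ∏ i, 𝔸.abv v (H17.zlin t (u i)) ^ (N - (i : ℕ))) :=
  H17.exists_generic_pairs 𝔸 r N k

/-- **Two families of places**: the largest minor for all places `P_i` and `Q_j` is at least the
product of those for `P` and for `Q` times the product of the distances of the `P_i` to the `Q_j`, up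
to a constant. (Vandermonde estimate for `P`, `Q` and both together.) File `H17Lower`. -/
theorem two_families {K F V : Type*} [Field K] [Field F] [Algebra K F] [IsAlgClosed K] [CharZero K]
    [IsFF K F] (S : HSetup K F V) (N k l : ℕ) (hN : k + l ≤ N) :
    ∃ C : V → ℝ, IsMC C ∧ ∀ v (P : Fin k → Place K F) (Q : Fin l → Place K F),
      S.wedge N v P * S.wedge N v Q * ∏ i, ∏ j, S.dist v (P i) (Q j) ≤
        C v * S.wedge N v (Fin.append P Q) :=
  S.exists_wedge_append N k l hN

end Determinants

end Fermat.Agent.Guide.HeightsSteps
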