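import Fermat.Agent.H93TFin

/-!
# Reader's guide: why the theta lift is holomorphic (block (T) of S47, companion of `GuideOctT`)

Every theorem of this file is proved by citing a theorem of the library; no other file imports this
file. Author: helper93. All theorems are used in the proof of S47 (and of nothing else).

WHAT IS SHOWN. `GuideOctT` constructs the theta lift `g(τ) = ∫ F Θ(τ, ·)` of a form `F` on hyperbolic
three-space, puts it into a finite family `g_i` on which `SL₂(ℤ)` acts by unitary matrices in weight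
one (`theta_unitary_family`), and shows that the complex conjugate of `v ∂g_i/∂τ̄` is holomorphic and
that `g_i`, `∂g_i/∂τ̄` decay exponentially for `v → ∞` (`lift_laplace`). Here are the steps from there to
`lift_holomorphic`: `g` is holomorphic and `√v |g|` is bounded; hence it is a cusp form.

THE ARGUMENT. Let `φ_i = v ∂̄ g_i` (`∂̄ = 2 ∂/∂τ̄`) and `H = ∑ g_i conj(φ_i)`. As `conj(φ_i)` is
holomorphic, `∂̄ H = ∑ ∂̄ g_i conj(φ_i) = v ∑ |∂̄ g_i|² ≥ 0`; and `H` has weight two for `SL₂(ℤ)`, that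
is, `H dτ` is invariant. So the integral of `v ∑ |∂̄ g_i|²` over the fundamental domain is, by Green's
formula, a boundary integral, in which everything cancels but the part near the cusp, and this part
tends to zero, because `H` decays exponentially. Hence `∂̄ g_i = 0`. (The Laplace eigenvalue of `F`
enters only in `GuideOctT.lift_laplace`: it makes `conj(φ_i)` holomorphic.) Only `SL₂(ℤ)` and its
standard fundamental domain are needed, since the family is vector valued; only the divergence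
theorem for rectangles is used (Mathlib).

READING ORDER. 1 the operator `∂̄`; 2 Green's formula; 3 vector valued functions of weight one; 4 the
family of theta lifts; 5 cusp forms. Companions of block (T): `GuideOctT`, `GuideThetaClasses`,
`GuideThetaLaplace`, `GuideOctT2`. NOTES: [466] (this part), [419] (overview of block (T)), [415]
(overview of S47).
-/

set_option autoImplicit false

noncomputable section

open MeasureTheory Set Filter Topology CongruenceSubgroup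
open scoped ComplexConjugate Real UpperHalfPlane MatrixGroups

namespace Fermat.Agent.Guide.Holomorphy

open Fermat.Agent.S47T Fermat.Agent.H47.Red
open Fermat.Agent.H93.THol (dbar)

/-! ### 1. The operator `∂̄` -/

/-- The operator `∂̄ = ∂/∂x + i ∂/∂y = 2 ∂/∂z̄` (`dbar`) in terms of the real derivative. (Definition
in `H93TGreen`.) -/
theorem dbar_eq (f : ℂ → ℂ) (z : ℂ) :
    dbar f z = fderiv ℝ f z 1 + Complex.I * fderiv ℝ f z Complex.I := rfl

/-- **Cauchy-Riemann**: a real differentiable function is complex differentiable at `z` if and only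
if `∂̄ f (z) = 0`. (`H93THol`.) -/
theorem dbar_eq_zero_iff {f : ℂ → ℂ} {z : ℂ} (hf : DifferentiableAt ℝ f z) :
    dbar f z = 0 ↔ DifferentiableAt ℂ f z :=
  ⟨H93.THol.holo_of_dbar hf, H93.THol.dbar_of_holo⟩

/-- **Product rule.** (`H93THol`.) -/
theorem dbar_mul {f g : ℂ → ℂ} {z : ℂ} (hf : DifferentiableAt ℝ f z)
    (hg : DifferentiableAt ℝ g z) :
    dbar (fun w => f w * g w) z = dbar f z * g z + f z * dbar g z :=
  H93.THol.dbar_mul hf hg

/-- **Chain rule** for a holomorphic substitution `S`: the conjugate of `S'` appears. (`H93THol`.) -/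
theorem dbar_comp {f S : ℂ → ℂ} {z S' : ℂ} (hS : HasDerivAt S S' z)
    (hf : DifferentiableAt ℝ f (S z)) :
    dbar (fun w => f (S w)) z = conj S' * dbar f (S z) :=
  H93.THol.dbar_comp hS hf

/-- If `df = a dz + k dv`, `v = im z`, then `∂̄ f = i k`. In this form the derivative of the theta
lift is given: there `k = (2/i) ξ/v`, so `∂̄ g = 2 ξ/v`, that is `ξ = v ∂g/∂τ̄`. (`H93THol2`.) -/
theorem dbar_of_derivative {f : ℂ → ℂ} {z a k : ℂ}
    (h : HasFDerivAt f (a • ContinuousLinearMap.id ℝ ℂ +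
      k • Complex.ofRealCLM.comp Complex.imCLM) z) : dbar f z = Complex.I * k :=
  H93.THol.dbar_of_hasFDerivAt h

/-! ### 2. Green's formula on the fundamental domain of `SL₂(ℤ)`

The fundamental domain `|Re z| ≤ 1/2`, `|z| ≥ 1` has the coordinates `(u, t)`, `|u| ≤ 1/2`, `t ≥ 0`,
with `z = u + i (√(1 - u²) + t)`; the truncated domain `t ≤ T` becomes a rectangle. -/

/-- The derivative of the coordinates: `∂z/∂u = 1 + i s'(u)`, `∂z/∂t = i`, where `s(u) = √(1 - u²)` and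
`s'(u) = -u/√(1 - u²)`. (`H93TGreen`.) -/
theorem coordinates_derivative {x : ℝ × ℝ} (hx : |x.1| < 1) :
    HasFDerivAt (fun x : ℝ × ℝ => (⟨x.1, √(1 - x.1 ^ 2) + x.2⟩ : ℂ))
      ((ContinuousLinearMap.fst ℝ ℝ ℝ).smulRight
          ((1 : ℂ) + ((-x.1 / √(1 - x.1 ^ 2) : ℝ) : ℂ) * Complex.I) +
        (ContinuousLinearMap.snd ℝ ℝ ℝ).smulRight Complex.I) x :=
  H93.THol.hasFDerivAt_Zc hx

/-- **`∂̄ H` as a divergence.** In the coordinates `(u, t)` the vector field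
`(H, (i - s'(u)) H)` has the divergence `∂̄ H`: here `L` and `M` are the derivatives of its two
components. (`H93TGreen`.) -/
theorem divergence {H : ℂ → ℂ} {P : ℂ → ℝ}
    (hd : ∀ z : ℂ, 0 < z.im → DifferentiableAt ℝ H z)
    (hP : ∀ z : ℂ, 0 < z.im → dbar H z = (P z : ℂ)) {x : ℝ × ℝ} (hx : |x.1| < 1)
    (h2 : 0 ≤ x.2) : ∃ L M : ℝ × ℝ →L[ℝ] ℂ,
      HasFDerivAt (fun x : ℝ × ℝ => H ⟨x.1, √(1 - x.1 ^ 2) + x.2⟩) L x ∧
      HasFDerivAt (fun x : ℝ × ℝ => (Complex.I - ((-x.1 / √(1 - x.1 ^ 2) : ℝ) : ℂ)) *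
        H ⟨x.1, √(1 - x.1 ^ 2) + x.2⟩) M x ∧
      L (1, 0) + M (0, 1) = (P ⟨x.1, √(1 - x.1 ^ 2) + x.2⟩ : ℂ) :=
  ⟨_, _, H93.THol.hasFDerivAt_fF hd hx h2, H93.THol.hasFDerivAt_gF hd hx h2,
    H93.THol.div_eq hP hx h2⟩

/-- **The vertical sides** `u = 1/2` and `u = -1/2`: the values of `H` are the same, by invariance under
`z ↦ z + 1`, and the orientations are opposite, so the two contributions cancel. (`H93TGreen`.) -/
theorem vertical_sides {H : ℂ → ℂ} (hT : ∀ z : ℂ, 0 < z.im → H (z + 1) = H z) {y : ℝ}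
    (hy : 0 ≤ y) :
    H ⟨1 / 2, √(1 - (1 / 2) ^ 2) + y⟩ = H ⟨-1 / 2, √(1 - (-1 / 2) ^ 2) + y⟩ :=
  H93.THol.Zc_side H hT hy

/-- **The arc** `|z| = 1`: the flux density `Φ(u) = (i - s'(u)) H(u + i s(u))` is an odd function of
`u`, since `z ↦ -1/z` exchanges `u + i s(u)` and `-u + i s(u)` and `H` has weight two. So its
integral over `[-1/2, 1/2]` is zero. (`H93TGreen`.) -/
theorem arc_odd {H : ℂ → ℂ} (hS : ∀ z : ℂ, 0 < z.im → H (-z⁻¹) = z ^ 2 * H z) {Φ : ℝ → ℂ}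
    (hΦ : ∀ u : ℝ, Φ u =
      (Complex.I - ((-u / √(1 - u ^ 2) : ℝ) : ℂ)) * H ⟨u, √(1 - u ^ 2) + 0⟩) {u : ℝ}
    (hu : |u| < 1) : Φ (-u) = -Φ u := by
  rw [hΦ, hΦ]; exact H93.THol.gF_neg hS hu

/-- **Green's formula.** If `∂̄ H = P` is real and continuous and `H` has weight two for
`z ↦ z + 1` and `z ↦ -1/z`, then the integral of `P` over the truncated fundamental domain `t ≤ T` is
the integral of `(i - s'(u)) H` over the upper boundary `t = T`. (Divergence theorem of Mathlib,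
`vertical_sides`, `arc_odd`. File `H93TGreen`.) For `T → ∞` this gives `GuideOctT.green_vanishing`:
if moreover `P ≥ 0` and `H` decays exponentially, then `P = 0` on the fundamental domain. -/
theorem green_formula {H : ℂ → ℂ} {P : ℂ → ℝ}
    (hd : ∀ z : ℂ, 0 < z.im → DifferentiableAt ℝ H z)
    (hP : ∀ z : ℂ, 0 < z.im → dbar H z = (P z : ℂ)) (hPc : ContinuousOn P {z | 0 < z.im})
    (hT : ∀ z : ℂ, 0 < z.im → H (z + 1) = H z)
    (hS : ∀ z : ℂ, 0 < z.im → H (-z⁻¹) = z ^ 2 * H z) {T : ℝ} (h0 : 0 ≤ T) :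
    ((∫ x in Icc ((-1 / 2 : ℝ), (0 : ℝ)) (1 / 2, T), P ⟨x.1, √(1 - x.1 ^ 2) + x.2⟩ : ℝ) : ℂ) =
      ∫ u in (-1 / 2 : ℝ)..(1 / 2), (Complex.I - ((-u / √(1 - u ^ 2) : ℝ) : ℂ)) *
        H ⟨u, √(1 - u ^ 2) + T⟩ :=
  H93.THol.green hd hP hPc hT hS h0

/-! ### 3. Vector valued functions of weight one

`g = (g_i)` is a finite family with `g(z + 1) = A g(z)` and `g(-1/z) = z B g(z)`, `A` and `B` unitary;
`φ_i = v ∂̄ g_i`, `v = im z`. -/

section VectorValued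

variable {ι : Type*} [Fintype ι] [DecidableEq ι] {A B : Matrix ι ι ℂ} {g : ι → ℂ → ℂ}

/-- **Transformation of `φ`**: `φ(z + 1) = A φ(z)` and `φ(-1/z) = z̄ B φ(z)`, so the conjugate of `φ`
has weight one for the conjugate representation. (`H93THol`.) -/
theorem transformation_phi (hd : ∀ i, ∀ z : ℂ, 0 < z.im → DifferentiableAt ℝ (g i) z)
    (hT : ∀ i, ∀ z : ℂ, 0 < z.im → g i (z + 1) = ∑ j, A i j * g j z)
    (hS : ∀ i, ∀ z : ℂ, 0 < z.im → g i (-z⁻¹) = z * ∑ j, B i j * g j z)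
    {φ : ι → ℂ → ℂ} (hφ : ∀ i z, φ i z = (z.im : ℂ) * dbar (g i) z) (i : ι) {z : ℂ}
    (hz : 0 < z.im) :
    φ i (z + 1) = ∑ j, A i j * φ j z ∧ φ i (-z⁻¹) = conj z * ∑ j, B i j * φ j z := by
  obtain rfl : φ = H93.THol.phi g := funext fun i => funext fun z => hφ i z
  exact ⟨H93.THol.phi_T hd hT i hz, H93.THol.phi_S hd hS i hz⟩

/-- **Unitary matrices** preserve the Hermitian form `∑ x_j conj(y_j)`. (`H93THol`.) -/
theorem unitary_form (hA : A.conjTranspose * A = 1) (x y : ι → ℂ) :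
    ∑ i, (∑ j, A i j * x j) * conj (∑ j, A i j * y j) = ∑ j, x j * conj (y j) :=
  H93.THol.unitary_sum hA x y

/-- **The function of weight two** `H = ∑ g_i conj(φ_i)`. (`H93THol`.) -/
theorem weight_two (hA : A.conjTranspose * A = 1) (hB : B.conjTranspose * B = 1)
    (hd : ∀ i, ∀ z : ℂ, 0 < z.im → DifferentiableAt ℝ (g i) z)
    (hT : ∀ i, ∀ z : ℂ, 0 < z.im → g i (z + 1) = ∑ j, A i j * g j z)
    (hS : ∀ i, ∀ z : ℂ, 0 < z.im → g i (-z⁻¹) = z * ∑ j, B i j * g j z)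
    {H : ℂ → ℂ} (hH : ∀ z, H z = ∑ i, g i z * conj ((z.im : ℂ) * dbar (g i) z)) {z : ℂ}
    (hz : 0 < z.im) : H (z + 1) = H z ∧ H (-z⁻¹) = z ^ 2 * H z := by
  obtain rfl : H = H93.THol.HH g := funext hH
  exact ⟨H93.THol.HH_T hA hd hT hz, H93.THol.HH_S hB hd hS hz⟩

/-- **Its derivative**: if the functions `conj(φ_i)` are holomorphic, then
`∂̄ H = v ∑ |∂̄ g_i|²`. (`H93THol`.) -/
theorem dbar_weight_two (hd : ∀ i, ∀ z : ℂ, 0 < z.im → DifferentiableAt ℝ (g i) z)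
    (hφ : ∀ i, ∀ z : ℂ, 0 < z.im →
      DifferentiableAt ℂ (fun w => conj ((w.im : ℂ) * dbar (g i) w)) z)
    {z : ℂ} (hz : 0 < z.im) :
    dbar (fun z => ∑ i, g i z * conj ((z.im : ℂ) * dbar (g i) z)) z =
      ((z.im * ∑ i, ‖dbar (g i) z‖ ^ 2 : ℝ) : ℂ) :=
  H93.THol.dbar_HH hd hφ hz

/-- **Its decay.** (`H93THol`.) -/
theorem decay_weight_two {C c : ℝ} (hc : 0 < c)
    (hdec : ∀ i, ∀ z : ℂ, 0 < z.im → 1 / 2 ≤ z.im → ‖g i z‖ ≤ C * Real.exp (-c * z.im) ∧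
      ‖dbar (g i) z‖ ≤ C * Real.exp (-c * z.im)) (z : ℂ) (hz : 0 < z.im) (h2 : 1 / 2 ≤ z.im) :
    ‖∑ i, g i z * conj ((z.im : ℂ) * dbar (g i) z)‖ ≤
      (Fintype.card ι * (C * (C * c⁻¹))) * Real.exp (-c * z.im) :=
  H93.THol.HH_decay hc hdec z hz h2

/-- **`∂̄ g_i = 0` on the fundamental domain**, by `GuideOctT.green_vanishing` for `H`. (`H93THol`.) -/
theorem dbar_zero_on_domain (hA : A.conjTranspose * A = 1) (hB : B.conjTranspose * B = 1)
    (hd : ∀ i, ∀ z : ℂ, 0 < z.im → DifferentiableAt ℝ (g i) z)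
    (hT : ∀ i, ∀ z : ℂ, 0 < z.im → g i (z + 1) = ∑ j, A i j * g j z)
    (hS : ∀ i, ∀ z : ℂ, 0 < z.im → g i (-z⁻¹) = z * ∑ j, B i j * g j z)
    (hφ : ∀ i, ∀ z : ℂ, 0 < z.im →
      DifferentiableAt ℂ (fun w => conj ((w.im : ℂ) * dbar (g i) w)) z)
    {C c : ℝ} (hc : 0 < c)
    (hdec : ∀ i, ∀ z : ℂ, 0 < z.im → 1 / 2 ≤ z.im → ‖g i z‖ ≤ C * Real.exp (-c * z.im) ∧
      ‖dbar (g i) z‖ ≤ C * Real.exp (-c * z.im))
    {z : ℂ} (hz : 0 < z.im) (h1 : |z.re| ≤ 1 / 2) (h2 : 1 ≤ Complex.normSq z) (i : ι) :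
    dbar (g i) z = 0 :=
  H93.THol.dbar_zero_fd hA hB hd hT hS hφ hc hdec hz h1 h2 i

/-- **Everywhere**: the set of common zeros of the `∂̄ g_i` is stable under `SL₂(ℤ)` (it is so under
the generators `S`, `T`), and every orbit meets the fundamental domain. (`H93THol`.) -/
theorem zeros_invariant (hA : A.conjTranspose * A = 1) (hB : B.conjTranspose * B = 1)
    (hd : ∀ i, ∀ z : ℂ, 0 < z.im → DifferentiableAt ℝ (g i) z)
    (hT : ∀ i, ∀ z : ℂ, 0 < z.im → g i (z + 1) = ∑ j, A i j * g j z)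
    (hS : ∀ i, ∀ z : ℂ, 0 < z.im → g i (-z⁻¹) = z * ∑ j, B i j * g j z) (γ : SL(2, ℤ)) (τ : ℍ) :
    (∀ i, dbar (g i) ((γ • τ : ℍ) : ℂ) = 0) ↔ ∀ i, dbar (g i) (τ : ℂ) = 0 :=
  H93.THol.ZZ_SL hA hB hd hT hS γ τ

/-- **Conclusion for the family**: the `g_i` are holomorphic. (`H93THol`.) -/
theorem family_holomorphic (hA : A.conjTranspose * A = 1) (hB : B.conjTranspose * B = 1)
    (hd : ∀ i, ∀ z : ℂ, 0 < z.im → DifferentiableAt ℝ (g i) z)
    (hT : ∀ i, ∀ z : ℂ, 0 < z.im → g i (z + 1) = ∑ j, A i j * g j z)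
    (hS : ∀ i, ∀ z : ℂ, 0 < z.im → g i (-z⁻¹) = z * ∑ j, B i j * g j z)
    (hφ : ∀ i, ∀ z : ℂ, 0 < z.im →
      DifferentiableAt ℂ (fun w => conj ((w.im : ℂ) * dbar (g i) w)) z)
    {C c : ℝ} (hc : 0 < c)
    (hdec : ∀ i, ∀ z : ℂ, 0 < z.im → 1 / 2 ≤ z.im → ‖g i z‖ ≤ C * Real.exp (-c * z.im) ∧
      ‖dbar (g i) z‖ ≤ C * Real.exp (-c * z.im)) (i : ι) {z : ℂ} (hz : 0 < z.im) :
    DifferentiableAt ℂ (g i) z :=
  H93.THol.differentiableAt_complex hA hB hd hT hS hφ hc hdec i hz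

/-- **The invariant function** `v ∑ |g_i|²` (weight one, unitary). (`H93THol`.) -/
theorem norm_invariant (hA : A.conjTranspose * A = 1) (hB : B.conjTranspose * B = 1)
    (hT : ∀ i, ∀ z : ℂ, 0 < z.im → g i (z + 1) = ∑ j, A i j * g j z)
    (hS : ∀ i, ∀ z : ℂ, 0 < z.im → g i (-z⁻¹) = z * ∑ j, B i j * g j z) (γ : SL(2, ℤ)) (τ : ℍ) :
    ((γ • τ : ℍ) : ℂ).im * ∑ i, ‖g i ((γ • τ : ℍ) : ℂ)‖ ^ 2 =
      (τ : ℂ).im * ∑ i, ‖g i (τ : ℂ)‖ ^ 2 :=
  H93.THol.EE_SL hA hB hT hS γ τ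

/-- **`√v |g_i|` is bounded** on the whole half plane: by `norm_invariant` it is enough to look at the
fundamental domain, where `g_i` decays. (`H93THol`.) -/
theorem family_bounded (hA : A.conjTranspose * A = 1) (hB : B.conjTranspose * B = 1)
    (hT : ∀ i, ∀ z : ℂ, 0 < z.im → g i (z + 1) = ∑ j, A i j * g j z)
    (hS : ∀ i, ∀ z : ℂ, 0 < z.im → g i (-z⁻¹) = z * ∑ j, B i j * g j z) {C c : ℝ} (hc : 0 < c)
    (hdec : ∀ i, ∀ z : ℂ, 0 < z.im → 1 / 2 ≤ z.im → ‖g i z‖ ≤ C * Real.exp (-c * z.im)) :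
    ∃ K : ℝ, ∀ i, ∀ z : ℂ, 0 < z.im → ‖g i z‖ ≤ K / √z.im :=
  H93.THol.sqrt_bound hA hB hT hS hc hdec

end VectorValued

/-! ### 4. The family of theta lifts

`IsCut Γ χ`: `χ ≥ 0` is measurable and `∑_{γ ∈ Γ} χ(γ w) = 1` (a cut-off function, `GuideOctT`). -/

/-- **A subgroup of finite index**: a cut-off function for `Γ'`, divided by the index, is one for
`Γ`. (`H93TAsm`.) -/
theorem cut_of_subgroup {Γ Γ' : Subgroup (GL (Fin 2) ℂ)} {χ' : H3 → ℝ} (hle : Γ' ≤ Γ)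
    [Finite (Γ ⧸ Γ'.subgroupOf Γ)] (h : IsCut Γ' χ') :
    IsCut Γ (fun w => χ' w / Nat.card (Γ ⧸ Γ'.subgroupOf Γ)) :=
  H93.TAsm.isCut_of_subgroup hle h

/-- **Comparison of integrals**: the integral of a `Γ`-invariant function over `Γ \ H3` is the one over
`Γ' \ H3` divided by the index. (`H93TAsm`; it uses that the integral does not depend on the cut-off
function, `GuideOctT.integral_independent`.) -/
theorem integral_subgroup {Γ Γ' : Subgroup (GL (Fin 2) ℂ)} {χ χ' : H3 → ℝ} [Countable Γ]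
    (hle : Γ' ≤ Γ) [Finite (Γ ⧸ Γ'.subgroupOf Γ)] (h : IsCut Γ χ) (h' : IsCut Γ' χ')
    {f : H3 → ℂ} (hf : AEStronglyMeasurable f volume) (hinv : ∀ g ∈ Γ, ∀ w, f (g • w) = f w)
    (hi : Integrable (fun w => (χ' w : ℂ) * f w)) :
    ∫ w, (χ w : ℂ) * f w =
      (Nat.card (Γ ⧸ Γ'.subgroupOf Γ) : ℂ)⁻¹ * ∫ w, (χ' w : ℂ) * f w :=
  H93.TAsm.qint_subgroup hle h h' hf hinv hi

/-- **The growth of the theta kernel**: for a bounded test function `|Θ(τ, w)| ≤ K ht(w)^8`, where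
`ht(w) = ht Eis w` is the largest height of a point of the orbit of `w` under `SL₂(ℤ[ω])` (and the
series converges absolutely). (`H93TAsm`, from the majorant of `H23TD`-`H23TH`.) -/
theorem theta_growth {n : ℕ} {φ : ℤ × Eis × ℤ → ℂ} {τ : ℂ} (hn : 0 < n) {M : ℝ}
    (hφ : ∀ x, ‖φ x‖ ≤ M) (hτ : 0 < τ.im) :
    ∃ K : ℝ, 0 ≤ K ∧ ∀ w : H3, ‖Theta n φ τ w‖ ≤ K * ht Eis w ^ 8 := by
  obtain ⟨K, hK, h⟩ := H93.TAsm.Theta_bound hn hφ hτ
  exact ⟨K, hK, fun w => (h w).2⟩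

/-- **Measurability of the theta kernel** in `w`. (`H93TAsm`.) -/
theorem theta_measurable {n : ℕ} {φ : ℤ × Eis × ℤ → ℂ} {τ : ℂ} (hn : 0 < n) {M : ℝ}
    (hφ : ∀ x, ‖φ x‖ ≤ M) (hτ : 0 < τ.im) : Measurable (fun w : H3 => Theta n φ τ w) :=
  H93.TAsm.measurable_Theta hn hφ hτ

/-- **The lift exists**: if `F` is continuous and decays exponentially at all cusps, then `χ F Θ` is
integrable. `FinIdx Eis Γ`: the group `Γ` is contained in `SL₂(ℤ[ω])`, with finite index. (`H93TAsm`;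
it uses that cut-off functions integrate `ht^8 exp(-c ht)`.) -/
theorem lift_integrable {Γ : Subgroup (GL (Fin 2) ℂ)} {χ : H3 → ℝ} (hΓ : FinIdx Eis Γ)
    (hχ : IsCut Γ χ) {F : H3 → ℂ} (hF : Continuous F) {C c : ℝ} (hC : 0 < C) (hc : 0 < c)
    (hdec : ∀ w, ‖F w‖ ≤ C * Real.exp (-(c * ht Eis w))) {n : ℕ} (hn : 0 < n)
    {φ : ℤ × Eis × ℤ → ℂ} {M : ℝ} (hφ : ∀ x, ‖φ x‖ ≤ M) {τ : ℂ} (hτ : 0 < τ.im) :
    Integrable (fun w => (χ w : ℂ) * (F w * Theta n φ τ w)) :=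
  H93.TAsm.lift_integrable hΓ hχ hF hC hc hdec hn hφ hτ

/-- **Assembly.** Suppose that for every test function `φ` with `|φ| ≤ 1`, invariant under the
principal congruence subgroup `GamP m`, `3 ∣ m`, `N ∣ m`, the lift `g` has a derivative
`dg = a dτ + (2/i) (ξ/v) dv` with `conj(ξ)` holomorphic and `g`, `ξ` decay exponentially (that is
`GuideOctT.lift_laplace`). Then the lift of the test function `phiN N`, for `Γ₀(N)`, is holomorphic and
`√v` times it is bounded. Proof: it is a linear combination of the lifts of the family of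
`GuideOctT.theta_unitary_family`, by `integral_subgroup`; section 3 applies to the family.
(`H93TAsm`.) -/
theorem lift_holomorphic_of_input {N : ℕ} {c : Eis → ℝ} {F : H3 → ℂ} (hI : ICT N c F)
    (hok : ∀ (m : ℕ) (φ : ℤ × Eis × ℤ → ℂ) (χ : H3 → ℝ), 3 ∣ m → N ∣ m → 0 < m →
      (∀ x, ‖φ x‖ ≤ 1) →
      (∀ g ∈ GamP m, ∀ (hE : ∀ i j, (g : Matrix (Fin 2) (Fin 2) ℂ) i j ∈ Eis) x,
        φ (gL (g : Matrix (Fin 2) (Fin 2) ℂ) hE x) = φ x) → IsCut (GamP m) χ →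
      ∃ (ξ : ℂ → ℂ) (C c' : ℝ), 0 < c' ∧
        (∀ τ : ℂ, 0 < τ.im → ∃ a : ℂ, HasFDerivAt (lift χ F N φ)
          (a • ContinuousLinearMap.id ℝ ℂ +
            (2 / Complex.I * (ξ τ / τ.im)) • Complex.ofRealCLM.comp Complex.imCLM) τ) ∧
        DifferentiableOn ℂ (fun τ => conj (ξ τ)) {τ | 0 < τ.im} ∧
        ∀ τ : ℂ, 1 / 2 ≤ τ.im → ‖lift χ F N φ τ‖ ≤ C * (√τ.im * Real.exp (-(c' * τ.im))) ∧
          ‖ξ τ‖ ≤ C * (√τ.im * Real.exp (-(c' * τ.im)))) {χ : H3 → ℝ} (hχ : IsCut (Gam N) χ) :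
    DifferentiableOn ℂ (lift χ F 1 (phiN N)) {τ | 0 < τ.im} ∧
      ∃ C : ℝ, ∀ τ : ℂ, 0 < τ.im → ‖lift χ F 1 (phiN N) τ‖ ≤ C / √τ.im :=
  H93.TAsm.thol_of_liftOK hI hok χ hχ

/-! ### 5. Cusp forms -/

/-- **From bounded invariant functions to cusp forms.** A holomorphic function `f` on the upper half
plane with `√v |f|` bounded and `f((aτ + b)/(cτ + d)) = (cτ + d) f(τ)` for the matrices of `Γ₁(M)` is a
cusp form of weight one. Proof: for `γ ∈ SL₂(ℤ)` one has `√v |(f|γ)(τ)| = √(Im γτ) |f(γτ)|`, so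
`f|γ = O(1/√v)` tends to zero at `i∞`; no Fourier expansion is needed. (`H93THol2`; the version for
`Γ(m)` and `f(m τ)` is `GuideOctT2.exists_cuspForm`.) -/
theorem cuspForm_of_bounded (M : ℕ) [NeZero M] (f : ℂ → ℂ)
    (hf : DifferentiableOn ℂ f {τ | 0 < τ.im})
    (hb : ∃ K : ℝ, ∀ τ : ℂ, 0 < τ.im → ‖f τ‖ ≤ K / √τ.im)
    (hinv : ∀ γ ∈ Gamma1 M, ∀ τ : ℍ, f ((γ • τ : ℍ) : ℂ) =
      ((γ 1 0 : ℤ) * (τ : ℂ) + (γ 1 1 : ℤ)) * f τ) :
    ∃ F : CuspForm (Gamma1 M) 1, ∀ τ : ℍ, F τ = f τ :=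
  H93.THol.exists_cuspForm M f hf hb hinv

end Fermat.Agent.Guide.Holomorphy
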