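import Fermat.Agent.H56ZRad3

/-!
# Inverse Abel transform of the test functions of `aleph` (helper80, S47 C5-INV)

`Seed ℓ A`: `A : ℝ → ℝ` smooth, even, nonnegative, of compact support, zero near every `k ℓ` (`k : ℤ`).
`iter ℓ A n`: `A (n+1) u = A n (u + ℓ) + A n (u - ℓ)`.
`invA A`: the kernel with `2 π ∫_{cosh u}^∞ invA A = A u`, smooth, zero for `t ≤ 1` and for large `t`.
`invJ ℓ A n`: the tensor version on `J → ℝ`.
-/

set_option autoImplicit false

noncomputable section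

open MeasureTheory Set Filter Topology
open scoped Real ContDiff

namespace Fermat.Agent.H80Inv

/-- Seed functions. -/
structure Seed (ℓ : ℝ) (A : ℝ → ℝ) : Prop where
  smooth : ContDiff ℝ ∞ A
  even : ∀ u, A (-u) = A u
  nonneg : ∀ u, 0 ≤ A u
  supp : ∃ R : ℝ, 0 ≤ R ∧ ∀ u, R < |u| → A u = 0
  gap : ∃ δ : ℝ, 0 < δ ∧ ∀ (k : ℤ) (u : ℝ), |u - k * ℓ| < δ → A u = 0

/-- `A (u + ℓ) + A (u - ℓ)`. -/
def shift (ℓ : ℝ) (A : ℝ → ℝ) : ℝ → ℝ := fun u => A (u + ℓ) + A (u - ℓ)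

theorem Seed.shift {ℓ : ℝ} {A : ℝ → ℝ} (h : Seed ℓ A) : Seed ℓ (shift ℓ A) where
  smooth := (h.smooth.comp (contDiff_id.add contDiff_const)).add
    (h.smooth.comp (contDiff_id.sub contDiff_const))
  even u := by
    have h1 : -u + ℓ = -(u - ℓ) := by ring
    have h2 : -u - ℓ = -(u + ℓ) := by ring
    simp only [H80Inv.shift]
    rw [h1, h2, h.even, h.even, add_comm]
  nonneg u := add_nonneg (h.nonneg _) (h.nonneg _)
  supp := by
    obtain ⟨R, hR, hA⟩ := h.supp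
    refine ⟨R + |ℓ|, by positivity, fun u hu => ?_⟩
    have h1 : R < |u + ℓ| := by
      have := abs_sub_abs_le_abs_sub u (-ℓ)
      rw [sub_neg_eq_add, abs_neg] at this
      linarith
    have h2 : R < |u - ℓ| := by
      have := abs_sub_abs_le_abs_sub u ℓ
      linarith
    simp only [H80Inv.shift, hA _ h1, hA _ h2, add_zero]
  gap := by
    obtain ⟨δ, hδ, hA⟩ := h.gap
    refine ⟨δ, hδ, fun k u hu => ?_⟩
    have h1 : A (u + ℓ) = 0 := hA (k + 1) _ (by push_cast; convert hu using 2; ring)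
    have h2 : A (u - ℓ) = 0 := hA (k - 1) _ (by push_cast; convert hu using 2; ring)
    simp only [H80Inv.shift, h1, h2, add_zero]

/-- The iterates. -/
def iter (ℓ : ℝ) (A : ℝ → ℝ) : ℕ → ℝ → ℝ
  | 0 => A
  | n + 1 => shift ℓ (iter ℓ A n)

@[simp] theorem iter_zero (ℓ : ℝ) (A : ℝ → ℝ) : iter ℓ A 0 = A := rfl

theorem iter_succ (ℓ : ℝ) (A : ℝ → ℝ) (n : ℕ) (u : ℝ) :
    iter ℓ A (n + 1) u = iter ℓ A n (u + ℓ) + iter ℓ A n (u - ℓ) := rfl

theorem Seed.iter {ℓ : ℝ} {A : ℝ → ℝ} (h : Seed ℓ A) (n : ℕ) : Seed ℓ (iter ℓ A n) := by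
  induction n with
  | zero => exact h
  | succ n ih => exact ih.shift

theorem Seed.hasCompactSupport {ℓ : ℝ} {A : ℝ → ℝ} (h : Seed ℓ A) : HasCompactSupport A := by
  obtain ⟨R, -, hA⟩ := h.supp
  refine HasCompactSupport.of_support_subset_isCompact (isCompact_Icc (a := -R) (b := R)) ?_
  intro u hu
  by_contra hcon
  apply hu
  apply hA
  rw [mem_Icc, not_and_or, not_le, not_le] at hcon
  rcases hcon with h1 | h1
  · rw [lt_abs]; right; linarith
  · rw [lt_abs]; left; exact h1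

theorem Seed.integrable {ℓ : ℝ} {A : ℝ → ℝ} (h : Seed ℓ A) : Integrable A :=
  h.smooth.continuous.integrable_of_hasCompactSupport h.hasCompactSupport

theorem Seed.integral_shift {ℓ : ℝ} {A : ℝ → ℝ} (h : Seed ℓ A) :
    ∫ u, H80Inv.shift ℓ A u = 2 * ∫ u, A u := by
  simp only [H80Inv.shift]
  rw [integral_add (h.integrable.comp_add_right ℓ) (h.integrable.comp_sub_right ℓ),
    integral_add_right_eq_self A ℓ, integral_sub_right_eq_self A ℓ]
  ring

theorem Seed.integral_iter {ℓ : ℝ} {A : ℝ → ℝ} (h : Seed ℓ A) (n : ℕ) :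
    ∫ u, H80Inv.iter ℓ A n u = 2 ^ n * ∫ u, A u := by
  induction n with
  | zero => simp
  | succ n ih =>
    have := (h.iter n).integral_shift
    rw [show H80Inv.iter ℓ A (n + 1) = H80Inv.shift ℓ (H80Inv.iter ℓ A n) from rfl, this, ih]
    ring

/-- Existence of seeds. -/
theorem exists_seed {ℓ : ℝ} (hℓ : 0 < ℓ) : ∃ A : ℝ → ℝ, Seed ℓ A ∧ 0 < ∫ u, A u := by
  let f : ContDiffBump (ℓ / 2) := ⟨ℓ / 16, ℓ / 8, by positivity, by linarith⟩
  have hf0 : ∀ u : ℝ, ℓ / 8 ≤ |u - ℓ / 2| → f u = 0 := by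
    intro u hu
    apply f.zero_of_le_dist
    rw [Real.dist_eq]
    exact hu
  have hsm : ContDiff ℝ ∞ (f : ℝ → ℝ) := f.contDiff
  have hseed : Seed ℓ (fun u => f u + f (-u)) := by
    refine ⟨hsm.add (hsm.comp contDiff_neg), fun u => ?_, fun u => add_nonneg f.nonneg f.nonneg,
      ⟨ℓ, hℓ.le, fun u hu => ?_⟩, ⟨ℓ / 8, by positivity, fun k u hu => ?_⟩⟩
    · simp only [neg_neg]
      rw [add_comm]
    · have h1 : f u = 0 := by
        apply hf0
        have := abs_sub_abs_le_abs_sub u (ℓ / 2)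
        rw [abs_of_pos (by positivity : 0 < ℓ / 2)] at this
        linarith
      have h2 : f (-u) = 0 := by
        apply hf0
        have := abs_sub_abs_le_abs_sub (-u) (ℓ / 2)
        rw [abs_of_pos (by positivity : 0 < ℓ / 2), abs_neg] at this
        linarith
      simp only [h1, h2, add_zero]
    · -- `|k ℓ - ℓ / 2| ≥ ℓ / 2` for integers `k`
      have hk : ∀ k : ℤ, ℓ / 2 ≤ |(k : ℝ) * ℓ - ℓ / 2| := by
        intro k
        have h1 : (k : ℝ) * ℓ - ℓ / 2 = (2 * k - 1 : ℤ) * (ℓ / 2) := by push_cast; ring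
        rw [h1, abs_mul, abs_of_pos (by positivity : 0 < ℓ / 2)]
        have h2 : (1 : ℝ) ≤ |((2 * k - 1 : ℤ) : ℝ)| := by
          have h3 : (1 : ℤ) ≤ |2 * k - 1| := Int.one_le_abs (by omega)
          have h4 : ((1 : ℤ) : ℝ) ≤ ((|2 * k - 1| : ℤ) : ℝ) := Int.cast_le.2 h3
          rwa [Int.cast_abs, Int.cast_one] at h4
        nlinarith
      have h1 : f u = 0 := by
        apply hf0
        have h2 := hk k
        have h3 := abs_sub_abs_le_abs_sub ((k : ℝ) * ℓ - ℓ / 2) ((k : ℝ) * ℓ - u)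
        have h4 : (k : ℝ) * ℓ - ℓ / 2 - ((k : ℝ) * ℓ - u) = u - ℓ / 2 := by ring
        rw [h4, abs_sub_comm ((k : ℝ) * ℓ) u] at h3
        linarith
      have h1' : f (-u) = 0 := by
        apply hf0
        have h2 := hk (-k)
        have h3 := abs_sub_abs_le_abs_sub (((-k : ℤ) : ℝ) * ℓ - ℓ / 2) (((-k : ℤ) : ℝ) * ℓ - (-u))
        have h4 : ((-k : ℤ) : ℝ) * ℓ - ℓ / 2 - (((-k : ℤ) : ℝ) * ℓ - (-u)) = -u - ℓ / 2 := by ring
        have h5 : ((-k : ℤ) : ℝ) * ℓ - (-u) = u - k * ℓ := by push_cast; ring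
        rw [h4, h5] at h3
        linarith
      simp only [h1, h1', add_zero]
  refine ⟨_, hseed, ?_⟩
  have hint : Integrable (fun u => f u + f (-u)) := hseed.integrable
  rw [integral_pos_iff_support_of_nonneg (fun u => hseed.nonneg u) hint]
  have hsub : Metric.ball (ℓ / 2) (ℓ / 8) ⊆ Function.support (fun u => f u + f (-u)) := by
    intro u hu
    have h1 : 0 < f u := f.pos_of_mem_ball hu
    have h2 : 0 ≤ f (-u) := f.nonneg
    exact (add_pos_of_pos_of_nonneg h1 h2).ne'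
  refine lt_of_lt_of_le ?_ (measure_mono hsub)
  exact Metric.measure_ball_pos _ _ (by positivity)

/-! ## The inverse Abel transform -/

/-- `A (arcosh t)` for `t > 1`, `0` otherwise. -/
def pull (A : ℝ → ℝ) : ℝ → ℝ := fun t => if 1 < t then A (Real.arcosh t) else 0

/-- The inverse Abel transform. -/
def invA (A : ℝ → ℝ) : ℝ → ℝ := fun t => -(2 * π)⁻¹ * deriv (pull A) t

theorem Seed.pull_eq_zero_near {ℓ : ℝ} {A : ℝ → ℝ} (h : Seed ℓ A) :
    ∃ c : ℝ, 1 < c ∧ ∀ t, t < c → pull A t = 0 := by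
  obtain ⟨δ, hδ, hA⟩ := h.gap
  refine ⟨Real.cosh δ, Real.one_lt_cosh.2 hδ.ne', fun t ht => ?_⟩
  unfold pull
  split_ifs with h1
  · apply hA 0
    simp only [Int.cast_zero, zero_mul, sub_zero]
    rw [abs_of_nonneg (Real.arcosh_nonneg h1.le)]
    have h2 : Real.arcosh t < Real.arcosh (Real.cosh δ) :=
      (Real.arcosh_lt_arcosh (by linarith) (by positivity)).2 ht
    rwa [Real.arcosh_cosh hδ.le] at h2
  · rfl

theorem Seed.pull_eq_zero_far {ℓ : ℝ} {A : ℝ → ℝ} (h : Seed ℓ A) :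
    ∃ R : ℝ, 1 ≤ R ∧ ∀ t, R < t → pull A t = 0 := by
  obtain ⟨R, hR, hA⟩ := h.supp
  refine ⟨Real.cosh R, Real.one_le_cosh R, fun t ht => ?_⟩
  unfold pull
  split_ifs with h1
  · apply hA
    rw [abs_of_nonneg (Real.arcosh_nonneg h1.le)]
    have h2 : Real.arcosh (Real.cosh R) < Real.arcosh t :=
      (Real.arcosh_lt_arcosh (by positivity) (by linarith)).2 ht
    rwa [Real.arcosh_cosh hR] at h2
  · rfl

theorem Seed.contDiff_pull {ℓ : ℝ} {A : ℝ → ℝ} (h : Seed ℓ A) : ContDiff ℝ ∞ (pull A) := by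
  obtain ⟨c, hc, hz⟩ := h.pull_eq_zero_near
  rw [contDiff_iff_contDiffAt]
  intro t
  by_cases ht : 1 < t
  · have h1 : pull A =ᶠ[𝓝 t] fun t => A (Real.arcosh t) := by
      filter_upwards [Ioi_mem_nhds ht] with x hx
      exact if_pos hx
    refine ContDiffAt.congr_of_eventuallyEq ?_ h1
    exact h.smooth.contDiffAt.comp t (Real.contDiffAt_arcosh ht)
  · have h1 : pull A =ᶠ[𝓝 t] fun _ => 0 := by
      filter_upwards [Iio_mem_nhds (lt_of_le_of_lt (not_lt.1 ht) hc)] with x hx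
      exact hz x hx
    exact (contDiffAt_const).congr_of_eventuallyEq h1

theorem Seed.hasCompactSupport_pull {ℓ : ℝ} {A : ℝ → ℝ} (h : Seed ℓ A) :
    HasCompactSupport (pull A) := by
  obtain ⟨c, hc, hz⟩ := h.pull_eq_zero_near
  obtain ⟨R, hR, hz'⟩ := h.pull_eq_zero_far
  refine HasCompactSupport.of_support_subset_isCompact (isCompact_Icc (a := c) (b := R)) ?_
  intro u hu
  refine ⟨?_, ?_⟩
  · by_contra hcon
    exact hu (hz u (not_le.1 hcon))
  · by_contra hcon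
    exact hu (hz' u (not_le.1 hcon))

theorem Seed.contDiff_invA {ℓ : ℝ} {A : ℝ → ℝ} (h : Seed ℓ A) : ContDiff ℝ ∞ (invA A) := by
  refine contDiff_const.mul ?_
  have h1 : ContDiff ℝ (∞ + 1) (pull A) := by simpa using h.contDiff_pull
  exact (contDiff_succ_iff_deriv.1 h1).2.2

theorem Seed.invA_eq_zero_near {ℓ : ℝ} {A : ℝ → ℝ} (h : Seed ℓ A) :
    ∃ c : ℝ, 1 < c ∧ ∀ t, t < c → invA A t = 0 := by
  obtain ⟨c, hc, hz⟩ := h.pull_eq_zero_near
  refine ⟨c, hc, fun t ht => ?_⟩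
  have h1 : pull A =ᶠ[𝓝 t] fun _ => 0 := by
    filter_upwards [Iio_mem_nhds ht] with x hx
    exact hz x hx
  simp only [invA]
  rw [h1.deriv_eq, deriv_const, mul_zero]

theorem Seed.invA_eq_zero_of_le {ℓ : ℝ} {A : ℝ → ℝ} (h : Seed ℓ A) {t : ℝ} (ht : t ≤ 1) :
    invA A t = 0 := by
  obtain ⟨c, hc, hz⟩ := h.invA_eq_zero_near
  exact hz t (by linarith)

theorem Seed.invA_eq_zero_far {ℓ : ℝ} {A : ℝ → ℝ} (h : Seed ℓ A) :
    ∃ R : ℝ, 1 ≤ R ∧ ∀ t, R < t → invA A t = 0 := by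
  obtain ⟨R, hR, hz⟩ := h.pull_eq_zero_far
  refine ⟨R, hR, fun t ht => ?_⟩
  have h1 : pull A =ᶠ[𝓝 t] fun _ => 0 := by
    filter_upwards [Ioi_mem_nhds ht] with x hx
    exact hz x hx
  simp only [invA]
  rw [h1.deriv_eq, deriv_const, mul_zero]

theorem Seed.hasCompactSupport_invA {ℓ : ℝ} {A : ℝ → ℝ} (h : Seed ℓ A) :
    HasCompactSupport (invA A) := by
  obtain ⟨c, hc, hz⟩ := h.invA_eq_zero_near
  obtain ⟨R, hR, hz'⟩ := h.invA_eq_zero_far
  refine HasCompactSupport.of_support_subset_isCompact (isCompact_Icc (a := c) (b := R)) ?_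
  intro u hu
  refine ⟨?_, ?_⟩
  · by_contra hcon
    exact hu (hz u (not_le.1 hcon))
  · by_contra hcon
    exact hu (hz' u (not_le.1 hcon))

theorem Seed.integrable_invA {ℓ : ℝ} {A : ℝ → ℝ} (h : Seed ℓ A) : Integrable (invA A) :=
  h.contDiff_invA.continuous.integrable_of_hasCompactSupport h.hasCompactSupport_invA

theorem Seed.exists_bound_invA {ℓ : ℝ} {A : ℝ → ℝ} (h : Seed ℓ A) :
    ∃ M : ℝ, 0 ≤ M ∧ ∀ t, |invA A t| ≤ M := by
  obtain ⟨M, hM⟩ := h.contDiff_invA.continuous.bounded_above_of_compact_support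
    h.hasCompactSupport_invA
  exact ⟨M, (norm_nonneg _).trans (hM 0), fun t => hM t⟩

/-- Lipschitz bound. -/
theorem Seed.exists_lipschitz_invA {ℓ : ℝ} {A : ℝ → ℝ} (h : Seed ℓ A) :
    ∃ C : NNReal, LipschitzWith C (invA A) :=
  ContDiff.lipschitzWith_of_hasCompactSupport h.hasCompactSupport_invA h.contDiff_invA
    (by simp)

/-- **The Abel transform of `invA A` is `A`.** -/
theorem Seed.abel_invA {ℓ : ℝ} {A : ℝ → ℝ} (h : Seed ℓ A) (u : ℝ) :
    2 * π * ∫ t in Ioi (Real.cosh u), invA A t = A u := by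
  have h1 : ∫ t in Ioi (Real.cosh u), invA A t =
      -(2 * π)⁻¹ * ∫ t in Ioi (Real.cosh u), deriv (pull A) t := by
    rw [← integral_const_mul]
    rfl
  rw [h1, HasCompactSupport.integral_Ioi_deriv_eq (h.contDiff_pull.of_le (by simp))
    h.hasCompactSupport_pull]
  have h2 : pull A (Real.cosh u) = A u := by
    unfold pull
    by_cases hu : u = 0
    · subst hu
      rw [Real.cosh_zero, if_neg (lt_irrefl _)]
      obtain ⟨δ, hδ, hA⟩ := h.gap
      exact (hA 0 0 (by simpa using hδ)).symm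
    · rw [if_pos (Real.one_lt_cosh.2 hu), ← Real.cosh_abs, Real.arcosh_cosh (abs_nonneg u)]
      rcases abs_cases u with ⟨h3, -⟩ | ⟨h3, -⟩
      · rw [h3]
      · rw [h3, h.even]
  rw [h2]
  have hpi : (2 * π) ≠ 0 := by positivity
  field_simp

end Fermat.Agent.H80Inv
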