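import Fermat.Agent.H31Hyp3
import Fermat.Agent.H34T3
import Fermat.Agent.H56ZChar
import Fermat.Agent.H80Inv

/-!
# Reader's guide: hyperbolic 3-space and radial kernels

(editor helper26; texts by helper26, helper31, helper34, helper56, helper80)

Every theorem of this file is a citation of theorems of the library, with the statement written out, or the
unfolding of a definition. The file is imported by no other file. Everything cited is used in the proof of
S47 (the octahedral case of the theorem of Langlands and Tunnell), not in the proof of S01. The modules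
behind it depend only on Mathlib and on each other.

**What the block does.** The trace comparison in block (C) of S47 works on the space
`X = (J → H3) × X_f`, where `J` is the set of the complex places of a totally complex number field, `H3` is
hyperbolic 3-space and `X_f` a discrete set with an action of `PGL₂(K)`. The operators at the infinite places
are the operators of radial kernels `κ((cosh d(x_j, w_j))_j)`, `κ` continuous of compact support. Everything
that is usually done with Harish-Chandra's theory (spherical functions, formula of Plancherel, theorem of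
Paley and Wiener) is replaced by the elementary statements of this file: radial kernels form a commutative
algebra, the Abel transform is a homomorphism from this algebra to the convolution algebra of `ℝ^J`, and it
describes the action on functions of the heights, that is on constant terms.

**Contents.**
1. Hyperbolic 3-space: points, action of `GL₂(ℂ)`, distance, invariant measure (`H31Hyp1`, `H31Hyp2`).
2. Radial kernels and their operators (`H5ZH3`, `H56ZRad1` - `H56ZRad4`, `H34T3`).
3. The Abel transform and the spherical transform (`H56ZAbel`, `H56ZAbel2`, `H56ZChar`).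
4. Kernels with a prescribed Abel transform (`H80Inv`).

**Used for** S47. The continuation is `GuideEigenfunctions` (eigenfunctions with parameter zero, the Bessel
function `K₀`, Fourier expansions), `GuideSiegel` (reduction theory) and `GuideTrace` (trace identity). The
steps of the proofs of sections 2 and 3 are in `GuideRadial`.
References in NOTES.md: [394], [420], [433], [436], [481].
-/

set_option autoImplicit false

open MeasureTheory Matrix
open scoped ENNReal Real ContDiff ComplexConjugate
open Fermat.Agent.H56Z Fermat.Agent.H5Z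

namespace Fermat.Agent.Guide.Hyperbolic

/-! ## 1. Hyperbolic 3-space

`H3` is the upper half space: a point `w` has a complex coordinate `w.z` and a height `w.y`, with a proof
`w.pos` of `0 < w.y`. -/

/-- Points of `H3` are pairs `(z, y)` with `z` complex and `y > 0`: every such pair is a point, and a point is
determined by its coordinates. (`H31Hyp1`) -/
theorem points (z : ℂ) (y : ℝ) (hy : 0 < y) : ∃! w : H3, w.z = z ∧ w.y = y :=
  ⟨⟨z, y, hy⟩, ⟨rfl, rfl⟩, fun _ h => H3.ext h.1 h.2⟩

/-- **The action of `GL₂(ℂ)`, complex coordinate.** For `g = (a b; c d)` and `w = (z, y)` the complex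
coordinate of `g w` is `((a z + b) conj(c z + d) + a conj(c) y²) / (|c z + d|² + |c|² y²)`.
(`H31Hyp1.smul_z`) -/
theorem action_z (g : GL (Fin 2) ℂ) (w : H3) :
    (g • w).z = ((g 0 0 * w.z + g 0 1) * conj (g 1 0 * w.z + g 1 1) +
      g 0 0 * conj (g 1 0) * (w.y : ℂ) ^ 2) /
      ((Complex.normSq (g 1 0 * w.z + g 1 1) + Complex.normSq (g 1 0) * w.y ^ 2 : ℝ) : ℂ) :=
  H3.smul_z g w

/-- **The action of `GL₂(ℂ)`, height.** The height of `g w` is `|det g| y / (|c z + d|² + |c|² y²)`.
In particular scalar matrices act trivially, `(1 b; 0 1)` is the translation `z ↦ z + b`, and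
`(a 0; 0 1)` is `(z, y) ↦ (a z, |a| y)`. (`H31Hyp1.smul_y`) -/
theorem action_y (g : GL (Fin 2) ℂ) (w : H3) :
    (g • w).y = ‖(g : Matrix (Fin 2) (Fin 2) ℂ).det‖ * w.y /
      (Complex.normSq (g 1 0 * w.z + g 1 1) + Complex.normSq (g 1 0) * w.y ^ 2) :=
  H3.smul_y g w

/-- **Points as hermitian matrices.** To `w = (z, y)` one attaches the positive hermitian matrix
`herm w = ((|z|² + y²) / y, z / y; conj(z) / y, 1 / y)` of determinant one; then
`herm (g w) = |det g|⁻¹ g (herm w) gᴴ`. This is how the axioms of an action and the invariance of the distance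
are proved. (`H31Hyp1.herm_smul`) -/
theorem herm_action (g : GL (Fin 2) ℂ) (w : H3) :
    H3.herm (g • w) = ((‖(g : Matrix (Fin 2) (Fin 2) ℂ).det‖ : ℝ) : ℂ)⁻¹ •
      ((g : Matrix (Fin 2) (Fin 2) ℂ) * H3.herm w * (g : Matrix (Fin 2) (Fin 2) ℂ)ᴴ) :=
  H3.herm_smul g w

/-- The invariant distance of `H3`, given by its hyperbolic cosine:
`ch w w' = cosh d(w, w') = (|z - z'|² + y² + y'²) / (2 y y')`. (`H31Hyp1`) -/
theorem ch_formula (w w' : H3) :
    H3.ch w w' = (Complex.normSq (w.z - w'.z) + w.y ^ 2 + w'.y ^ 2) / (2 * w.y * w'.y) := rfl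

/-- `ch` is invariant under `GL₂(ℂ)`, symmetric, at least `1`, and equal to `1` only for equal points. Proof:
`2 ch w w'` is the trace of `herm w` times the adjugate of `herm w'`.
(`H31Hyp1`: `ch_smul`, `ch_comm`, `one_le_ch`, `ch_eq_one_iff`) -/
theorem ch_properties (g : GL (Fin 2) ℂ) (w w' : H3) :
    H3.ch (g • w) (g • w') = H3.ch w w' ∧ H3.ch w w' = H3.ch w' w ∧ 1 ≤ H3.ch w w' ∧
      (H3.ch w w' = 1 ↔ w = w') :=
  ⟨H3.ch_smul g w w', H3.ch_comm w w', H3.one_le_ch w w', H3.ch_eq_one_iff⟩

/-- A substitute for the triangle inequality: `ch w w' ≤ 2 ch w v · ch v w'`. Direct computation; it is the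
inequality `cosh (s + t) ≤ 2 cosh s cosh t`. (`H56ZRad3.ch_triangle`) -/
theorem ch_triangle (w v w' : H3) : H3.ch w w' ≤ 2 * H3.ch w v * H3.ch v w' :=
  H56Z.ch_triangle w v w'

/-- **Two point homogeneity.** Of two pairs of points at the same distance the first is mapped to the second
by an element of `GL₂(ℂ)`. Hence an invariant kernel is a function of `ch`. From the diagonalisation of
hermitian matrices. (`H31Hyp2.exists_smul_eq₂`) -/
theorem two_point_homogeneous {w w' v v' : H3} (h : H3.ch w w' = H3.ch v v') :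
    ∃ g : GL (Fin 2) ℂ, g • w = v ∧ g • w' = v' :=
  H3.exists_smul_eq₂ h

/-- **The measure** `dz dy / y³` on `H3` (`dz` = Lebesgue measure of the plane), as an integral formula for
nonnegative measurable functions. (`H31Hyp2.lintegral_eq`) -/
theorem volume_formula (f : ℂ → ℝ → ℝ≥0∞) (hf : Measurable (Function.uncurry f)) :
    ∫⁻ w : H3, f w.z w.y =
      ∫⁻ y in Set.Ioi (0 : ℝ), (∫⁻ z : ℂ, f z y) * ENNReal.ofReal ((y ^ 3)⁻¹) :=
  H3.lintegral_eq f hf

/-- The measure is invariant under `GL₂(ℂ)`. Proof: Bruhat decomposition; in the coordinates `(z / y, log y)`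
the measure is Lebesgue measure on `ℂ × ℝ`, and translations, dilations and the inversion act by skew
products, so that no Jacobian is needed. (`H31Hyp2.measurePreserving_smul`) -/
theorem volume_invariant (g : GL (Fin 2) ℂ) :
    MeasurePreserving (fun w : H3 => g • w) volume volume :=
  H3.measurePreserving_smul g

/-! ## 2. Radial kernels and their operators

`J` is a finite set (the complex places of the number field), `J → H3` the product of copies of `H3` with the
product measure. A radial kernel is given by a function `κ : (J → ℝ) → ℂ`; its value at a pair of points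
`w, w'` of `J → H3` is `κ ((ch w_j w'_j)_j)`. -/

/-- The class `IsRC` of **radial kernels**: functions `κ` of the vector `(t_j)`, continuous, bounded, and
zero as soon as one `t_j` is large. The kernel itself is `κ (ch w_j w'_j)_j`, so that only the values for
`t_j ≥ 1` matter. No smoothness is asked for. (`H56ZRad3`) -/
theorem isRC_iff {J : Type*} (κ : (J → ℝ) → ℂ) :
    IsRC κ ↔ Continuous κ ∧ (∃ M : ℝ, ∀ t, ‖κ t‖ ≤ M) ∧
      ∃ R : ℝ, ∀ t, (∃ j, R < t j) → κ t = 0 :=
  ⟨fun h => ⟨h.cont, h.bdd, h.supp⟩, fun h => ⟨h.1, h.2.1, h.2.2⟩⟩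

/-- The **operator of a radial kernel**: `(R(κ) g)(x) = ∫ κ((ch x_j w_j)_j) g(w) dw`. (`H5ZH3`) -/
theorem radial_operator {J : Type*} [Fintype J] (κ : (J → ℝ) → ℂ) (g : (J → H3) → ℂ) (x : J → H3) :
    Rk κ g x = ∫ w : J → H3, κ (fun j => H3.ch (x j) (w j)) * g w := rfl

/-- The operators `R(κ)` commute with the isometries given by the elements of `∏_j GL_2(ℂ)`.
No hypothesis on `κ` or `g` is needed. (`H56ZRad4.Rk_smul`) -/
theorem radial_operator_invariant {J : Type*} [Fintype J] (κ : (J → ℝ) → ℂ) (g : (J → H3) → ℂ)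
    (γ : J → Matrix.GeneralLinearGroup (Fin 2) ℂ) (x : J → H3) :
    Rk κ (fun w => g fun j => γ j • w j) x = Rk κ g fun j => γ j • x j :=
  Rk_smul κ g γ x

/-- **Horospherical coordinates.** For fixed `w`, the image of the invariant measure of `J → H3` under
`w' ↦ ((ch w_j w'_j)_j, (log y'_j - log y_j)_j) = (t, u)` is the measure
`(2π)^#J e^{-∑ u_j} dt du` on the region `t_j > cosh u_j`. This one computation (the area of a ring in the
plane) replaces polar coordinates and the Plancherel formula in the theory of radial kernels.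
(`H56ZRad2.measurePreserving_chJ`; `lh w = (log y_j)_j`) -/
theorem horospherical_coordinates {J : Type*} [Fintype J] (w : J → H3) :
    MeasurePreserving
      (fun w' : J → H3 => ((fun j => H3.ch (w j) (w' j)), (lh w' - lh w)))
      volume
      (((volume : Measure ((J → ℝ) × (J → ℝ))).restrict {p | ∀ j, Real.cosh (p.2 j) < p.1 j}).withDensity
        fun p => ENNReal.ofReal ((2 * π) ^ Fintype.card J * Real.exp (-∑ j, p.2 j))) :=
  measurePreserving_chJ w

/-- **Integration of radial functions** (one factor): for every point `w` of `H3`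
`∫ κ(ch w v) dv = ∫_1^∞ 4π √(t² - 1) κ(t) dt`. This is the area `4π sinh² r` of the sphere of radius `r`
with `t = cosh r`. (`H34T3.integral_ch_sqrt`, used in `H34T4` for the mass of a kernel; the estimates of
block (T) use the same formula for functions with values in `[0, ∞]`) -/
theorem radial_integral {E : Type*} [NormedAddCommGroup E] [NormedSpace ℝ E] (w : H3) {κ : ℝ → E}
    (hκ : StronglyMeasurable κ) :
    ∫ v : H3, κ (H3.ch w v) = ∫ t in Set.Ioi (1 : ℝ), (4 * π * √(t ^ 2 - 1)) • κ t :=
  H34T.integral_ch_sqrt w hκ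

/-- **Convolution** of radial kernels: `(κ * κ')(ch w w') = ∫ κ(ch w v) κ'(ch v w') dv`. The right side
depends only on the distances because `GL_2(ℂ)` acts transitively on the pairs of points at a given
distance. (`H56ZRad3.conv_apply`) -/
theorem convolution_formula {J : Type*} [Fintype J] (κ κ' : (J → ℝ) → ℂ) (w w' : J → H3) :
    conv κ κ' (fun j => H3.ch (w j) (w' j)) =
      ∫ v : J → H3, κ (fun j => H3.ch (w j) (v j)) * κ' (fun j => H3.ch (v j) (w' j)) :=
  conv_apply κ κ' w w'

/-- The class of radial kernels is stable under convolution. (`H56ZRad3`) -/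
theorem convolution_isRC {J : Type*} [Fintype J] {κ κ' : (J → ℝ) → ℂ} (hκ : IsRC κ) (hκ' : IsRC κ') :
    IsRC (conv κ κ') :=
  hκ.conv hκ'

/-- The convolution of radial kernels is **commutative** (exchange of the two points by an isometry:
Gelfand's trick). (`H56ZRad3.conv_comm`) -/
theorem convolution_comm {J : Type*} [Fintype J] (κ κ' : (J → ℝ) → ℂ) : conv κ κ' = conv κ' κ :=
  conv_comm κ κ'

/-- `R(κ * κ') g = R(κ) (R(κ') g)` for every function `g` which is measurable and bounded on products of
balls (`IsLB g`), in particular for automorphic forms. (`H56ZRad4.Rk_conv`) -/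
theorem radial_operator_convolution {J : Type*} [Fintype J] {κ κ' : (J → ℝ) → ℂ} (hκ : IsRC κ)
    (hκ' : IsRC κ') {g : (J → H3) → ℂ} (hm : AEStronglyMeasurable g volume)
    (hb : ∀ (R : ℝ) (x : J → H3),
      ∃ G : ℝ, 0 ≤ G ∧ ∀ w, (∀ j, H3.ch (x j) (w j) ≤ R) → ‖g w‖ ≤ G) :
    Rk (conv κ κ') g = Rk κ (Rk κ' g) :=
  Rk_conv hκ hκ' ⟨hm, hb⟩

/-- `R(κ) g` is continuous, for every locally bounded `g`: the operators of radial kernels make automorphic
forms continuous. (`H56ZRad4.continuous_Rk`) -/
theorem radial_operator_continuous {J : Type*} [Fintype J] {κ : (J → ℝ) → ℂ} (hκ : IsRC κ)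
    {g : (J → H3) → ℂ} (hm : AEStronglyMeasurable g volume)
    (hb : ∀ (R : ℝ) (x : J → H3),
      ∃ G : ℝ, 0 ≤ G ∧ ∀ w, (∀ j, H3.ch (x j) (w j) ≤ R) → ‖g w‖ ≤ G) :
    Continuous (Rk κ g) :=
  continuous_Rk hκ ⟨hm, hb⟩

/-! ## 3. The Abel transform and the spherical transform

`lh w` is the vector of the logarithms of the heights: `lh w = (log y_j)_j`. -/

/-- The vector `lh w` of the logarithms of the heights. (`H56ZRad2`) -/
theorem log_heights {J : Type*} (w : J → H3) (j : J) : lh w j = Real.log (w j).y := rfl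

/-- The **Abel transform** of a radial kernel: `abel κ (u) = (2π)^#J ∫_{t_j > cosh u_j} κ(t) dt`.
(`H56ZAbel`) -/
theorem abel_formula {J : Type*} [Fintype J] (κ : (J → ℝ) → ℂ) (u : J → ℝ) :
    abel κ u = (2 * π) ^ Fintype.card J * ∫ t in {t : J → ℝ | ∀ j, Real.cosh (u j) < t j}, κ t :=
  rfl

/-- The operator `R(κ)` on functions of the heights `y_j` (for instance on constant terms) is the
convolution with the Abel transform: `R(κ)(f(log y)) = ∫ f(log y + u) e^{-∑ u_j} abel κ (u) du`.
(`H56ZAbel.Rk_height`) -/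
theorem radial_operator_on_heights {J : Type*} [Fintype J] {κ : (J → ℝ) → ℂ} (hκ : IsRC κ)
    {f : (J → ℝ) → ℂ} (hf : LocallyIntegrable f volume) (w : J → H3) :
    Rk κ (fun w' => f (lh w')) w =
      ∫ u, f (lh w + u) * (Real.exp (-∑ j, u j) : ℂ) * abel κ u :=
  Rk_height hκ hf w

/-- The Abel transform is continuous with compact support (and even in every variable, by its definition).
(`H56ZAbel`: `continuous_abel`, `hasCompactSupport_abel`) -/
theorem abel_regular {J : Type*} [Fintype J] {κ : (J → ℝ) → ℂ} (hκ : IsRC κ) :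
    Continuous (abel κ) ∧ HasCompactSupport (abel κ) :=
  ⟨continuous_abel hκ, hasCompactSupport_abel hκ⟩

/-- The Abel transform of a convolution is the ordinary convolution on `ℝ^J` of the Abel transforms.
(`H56ZAbel2.abel_conv`) -/
theorem abel_convolution {J : Type*} [Fintype J] {κ κ' : (J → ℝ) → ℂ} (hκ : IsRC κ) (hκ' : IsRC κ')
    (v : J → ℝ) : abel (conv κ κ') v = ∫ u, abel κ u * abel κ' (v - u) :=
  abel_conv hκ hκ' v

/-- The **spherical transform** `khat κ s = ∫ abel κ (u) e^{∑ s_j u_j} du` is the eigenvalue of `R(κ)` on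
the function `∏ y_j^{1 + s_j} = exp(∑ (1 + s_j) log y_j)`. (`H56ZChar.Rk_yexp`) -/
theorem spherical_transform {J : Type*} [Fintype J] {κ : (J → ℝ) → ℂ} (hκ : IsRC κ) (s : J → ℂ)
    (w : J → H3) :
    Rk κ (fun w' => Complex.exp (∑ j, (1 + s j) * (lh w' j : ℂ))) w =
      (∫ u : J → ℝ, abel κ u * Complex.exp (∑ j, s j * (u j : ℂ))) *
        Complex.exp (∑ j, (1 + s j) * (lh w j : ℂ)) :=
  Rk_yexp hκ s w

/-- The spherical transform is a character of the convolution algebra. (`H56ZChar.khat_conv`) -/
theorem spherical_transform_mul {J : Type*} [Fintype J] {κ κ' : (J → ℝ) → ℂ} (hκ : IsRC κ)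
    (hκ' : IsRC κ') (s : J → ℂ) : khat (conv κ κ') s = khat κ s * khat κ' s :=
  khat_conv hκ hκ' s

/-- The value at `s = 0` (Laplace eigenvalue `-1` at every place: the parameter of the dihedral form over
the sextic field and of the form found over the quadratic field):
`khat0 κ = ∫ κ((ch(base, w_j))_j) ∏ y(w_j) dw`, `base = (0, 1)` at every place. (`H56ZChar.khat0_eq`) -/
theorem value_at_zero {J : Type*} [Fintype J] {κ : (J → ℝ) → ℂ} (hκ : IsRC κ) :
    khat0 κ = ∫ w : J → H3, κ (fun j => H3.ch H3.base (w j)) * ((∏ j, (w j).y : ℝ) : ℂ) :=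
  khat0_eq hκ

/-! ## 4. Kernels with a prescribed Abel transform (one variable) -/

/-- **Test functions.** For every `ℓ > 0` there is a smooth, even, nonnegative function of compact support and
positive integral which vanishes near every integral multiple of `ℓ` (two bumps at `±ℓ/2`). The sums
`A (u + ℓ) + A (u - ℓ)` and their iterates have the same properties: this is why all multiples of `ℓ` occur
(they are shifted to `0`). File `H80Inv`. -/
theorem exists_test_function {ℓ : ℝ} (hℓ : 0 < ℓ) : ∃ A : ℝ → ℝ, ContDiff ℝ ∞ A ∧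
    (∀ u, A (-u) = A u) ∧ (∀ u, 0 ≤ A u) ∧ (∃ R : ℝ, 0 ≤ R ∧ ∀ u, R < |u| → A u = 0) ∧
    (∃ δ : ℝ, 0 < δ ∧ ∀ (k : ℤ) (u : ℝ), |u - k * ℓ| < δ → A u = 0) ∧ 0 < ∫ u, A u := by
  obtain ⟨A, h, hI⟩ := H80Inv.exists_seed hℓ
  exact ⟨A, h.smooth, h.even, h.nonneg, h.supp, h.gap, hI⟩

/-- **Inverse Abel transform.** If `A` is smooth, even, nonnegative, of compact support and zero near all
multiples of `ℓ` (in particular near `0`), then `κ = -(1/2π) d/dt A(arcosh t)`, extended by zero to `t ≤ 1`,
is smooth, Lipschitz, zero for large `t`, and `2π ∫_{cosh u}^∞ κ = A u`. (`H80Inv`) -/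
theorem exists_inverse_abel {ℓ : ℝ} {A : ℝ → ℝ} (h1 : ContDiff ℝ ∞ A) (h2 : ∀ u, A (-u) = A u)
    (h3 : ∀ u, 0 ≤ A u) (h4 : ∃ R : ℝ, 0 ≤ R ∧ ∀ u, R < |u| → A u = 0)
    (h5 : ∃ δ : ℝ, 0 < δ ∧ ∀ (k : ℤ) (u : ℝ), |u - k * ℓ| < δ → A u = 0) :
    ∃ κ : ℝ → ℝ, ContDiff ℝ ∞ κ ∧ (∃ C : NNReal, LipschitzWith C κ) ∧
      (∃ R : ℝ, 1 ≤ R ∧ ∀ t, R < t → κ t = 0) ∧
      ∀ u, 2 * π * ∫ t in Set.Ioi (Real.cosh u), κ t = A u := by
  have h : H80Inv.Seed ℓ A := ⟨h1, h2, h3, h4, h5⟩
  exact ⟨H80Inv.invA A, h.contDiff_invA, h.exists_lipschitz_invA, h.invA_eq_zero_far, h.abel_invA⟩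

end Fermat.Agent.Guide.Hyperbolic
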