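import Fermat.Agent.H52Congr

/-!
# Reader's guide: Klein's icosahedral forms and the points of order five

Companion of `GuideSwitch`, section 3 (congruence modulo 5 in the 3-5 switch).  Editor and author of the
texts and of the library files `H52*`: helper52.  As in the other guides there is no new mathematics: the
statements are written out and proved by citing the library, and no proof depends on this file.  Everything
is in the proof terms of S01, S03, S04, S06, S38, S45, S46, S50, S52, S59, S60 (`frobenius_equation` also in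
those of S39, S40, S41, S43, S44, S58).  `NOTES.md`: Appendix A, note [274] (NOTES-S52-CONGRUENCE).

**What is proved here.**  Let `E : y² = x³ - 27 a x - 54 b` be an elliptic curve over a field of
characteristic `≠ 2, 3, 5` and `E_m` the member of its 5-congruent family which belongs to `m`
(`GuideSwitch.family_covariants`).  In the literature `E_m[5] ≅ E[5]` is proved with the modular curve
`X(5)`, which has genus 0: `E_m` runs through the fibres of a twist of the universal curve over `X(5)`.  Here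
the same fact is proved by polynomial identities, and only in the form which is needed, for the action of one
endomorphism of the field (Frobenius).

**The argument.**

1. *Parameters.*  Let `D`, `k₄`, `k₆` be Klein's forms in `(u, v)` of degree 12, 20, 30 (`GuideSwitch.klein`).
   A pair `w = (u, v)` is a *parameter* of `E` if `k₄(w) = a`, `k₆(w) = b`; over an algebraically closed field
   there is one (`GuideSwitch.klein_parameters`).  To a parameter belongs a point `P(w)` of order 5 on `E`,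
   with coordinates which are polynomials in `(u, v)` (section 2).
2. *Symmetries.*  With a primitive fifth root of unity `ζ` let `T(u, v) = (ζ u, v)`, and let `S` be the
   icosahedral matrix with `S² = -1` (section 3).  `k₄` and `k₆` are invariant under `S`, `T` and the
   multiplication by fifth roots of unity: these transformations permute the parameters of `E`.
3. *Addition.*  `P(Tw) = P(w) - P(Sw)`, `P(STw) = P(Sw)` and `P(SSw) = -P(w)` (section 4).  So on the pairs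
   `(P(w), P(Sw))` the transformations `T` and `S` act by the integral matrices `(1, -1; 0, 1)` and
   `(0, 1; -1, 0)`, which generate `SL₂(ℤ/5)`.
4. *The orbit is everything* (section 5).  Hence every combination `p P(w) + q P(Sw)` with `p`, `q` not both
   divisible by 5 is some `P(w₁)`, `w₁` in the orbit of `w`, hence not zero; so `P(w)`, `P(Sw)` is a basis of
   `E[5]`, and all parameters of `E` are in one orbit.
5. *The family* (section 6).  The map `F_m(w) = w + m (-∂D/∂v, ∂D/∂u)` maps the parameters of `E` to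
   parameters of `E_m` (`GuideSwitch.klein_map`) and commutes with `S`, `T` and the scalars.  So if `w₁` is in
   the orbit of `w`, the coordinates of `P(w₁)` with respect to `P(w)`, `P(Sw)` are those of `P(F_m w₁)` with
   respect to `P(F_m w)`, `P(S F_m w)`.
6. *Frobenius.*  A field endomorphism `σ` fixing `a`, `b`, `m` maps `w` to parameters `σ(w)`, `σ²(w)` of `E`,
   which by 4 are in the orbit of `w`.  So, for the endomorphism `φ` of the points given by `σ`, the points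
   `φ P(w)`, `φ² P(w)` of `E` have the same coordinates as `φ P(F_m w)`, `φ² P(F_m w)` on `E_m`
   (`GuideSwitch.transfer`), and the characteristic equation of Frobenius on `E` is satisfied by `P(F_m w)`;
   comparison with the equation on `E_m` gives `a_ℓ(E_m) ≡ a_ℓ(E)` modulo 5 (`GuideSwitch.congruence_five`).

The identities of sections 3 and 4 are identities in `ℤ[ζ][u, v]`; in `H52Ident` the difference of the two
sides is written as an explicit multiple of `ζ⁴ + ζ³ + ζ² + ζ + 1`, so that they hold in every ring.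

**References.**  F. Klein, *Vorlesungen über das Ikosaeder*, I.2, II.4; K. Rubin, A. Silverberg, *Families of
elliptic curves with constant mod p representations*; T. Fisher, *The Hessian of a genus one curve*.
-/

set_option autoImplicit false

namespace Fermat.Agent.Guide.Icosahedral

open WeierstrassCurve WeierstrassCurve.Affine
open Fermat.Agent.H52 (kD k4 k6 kDu kDv polG polE polK dHat gHat eHat kHat kal kbe t4 t6 sU sV wu wv)
open Fermat.Agent.H98 (short)

/-! ## 1. Polar forms and the line in the direction of the gradient -/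

section Forms

variable {R : Type*} [CommRing R]

/-- **The derivatives of Klein's form** `D = u v (u¹⁰ - 11 u⁵ v⁵ - v¹⁰)`: `kDu = ∂D/∂u`, `kDv = ∂D/∂v`, and
the polar forms in the direction `(p, r)`: the first derivative `G`, `1/11` of the second derivative `E`,
`1/110` of the third derivative `K`.  File `H52Klein`. -/
theorem polar_forms (x y p r : R) :
    kDu x y = y * (11 * x ^ 10 - 66 * x ^ 5 * y ^ 5 - y ^ 10) ∧
    kDv x y = x * (x ^ 10 - 66 * x ^ 5 * y ^ 5 - 11 * y ^ 10) ∧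
    polG x y p r = p * kDu x y + r * kDv x y ∧
    polE x y p r = p ^ 2 * (10 * (x ^ 9 * y - 3 * x ^ 4 * y ^ 6)) +
      2 * p * r * (x ^ 10 - 36 * x ^ 5 * y ^ 5 - y ^ 10) +
      r ^ 2 * (-10 * (3 * x ^ 6 * y ^ 4 + x * y ^ 9)) ∧
    polK x y p r = p ^ 3 * (9 * x ^ 8 * y - 12 * x ^ 3 * y ^ 6) +
      3 * p ^ 2 * r * (x ^ 9 - 18 * x ^ 4 * y ^ 5) + 3 * p * r ^ 2 * (-18 * x ^ 5 * y ^ 4 - y ^ 9) +
      r ^ 3 * (-12 * x ^ 6 * y ^ 3 - 9 * x * y ^ 8) :=
  ⟨rfl, rfl, rfl, rfl, rfl⟩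

/-- **`k₄` and `k₆` are covariants of `D`**: for every direction `(p, r)`, with `δ = x r - y p`,
`k₄ δ² = G² - 12 D E` and `2 k₆ δ³ = 36 D G E - 144 D² K - 2 G³`.  (Up to factors, `k₄` is the Hessian of
`D` and `k₆` the Jacobian of `D` and `k₄`.)  File `H52Klein`. -/
theorem covariants_by_polars (x y p r : R) :
    k4 x y * (x * r - y * p) ^ 2 = polG x y p r ^ 2 - 12 * kD x y * polE x y p r ∧
    2 * k6 x y * (x * r - y * p) ^ 3 = 36 * kD x y * polG x y p r * polE x y p r -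
      144 * kD x y ^ 2 * polK x y p r - 2 * polG x y p r ^ 3 :=
  ⟨H52.k4_polar x y p r, H52.k6_polar x y p r⟩

/-- **The family by Fisher's polynomial** `D̂ = dHat a b m`, of degree 12 in `m`, and its normalised
derivatives `ĝ = D̂'/12`, `ê = D̂''/132`, `k̂ = D̂'''/1320`: the member of the family has `c₄ = ĝ² - D̂ ê`,
`2 c₆ = 3 D̂ ĝ ê - D̂² k̂ - 2 ĝ³`, and `4 c₄³ - (2 c₆)² = 4 (a³ - b²) D̂⁵`.  File `H52Defs`. -/
theorem family_by_derivatives (a b m : R) :
    H52.c4Hat a b m = gHat a b m ^ 2 - dHat a b m * eHat a b m ∧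
    H52.c6Hat2 a b m = 3 * dHat a b m * gHat a b m * eHat a b m - dHat a b m ^ 2 * kHat a b m -
      2 * gHat a b m ^ 3 ∧
    4 * H52.c4Hat a b m ^ 3 - H52.c6Hat2 a b m ^ 2 = 4 * (a ^ 3 - b ^ 2) * dHat a b m ^ 5 :=
  ⟨rfl, rfl, H52.syzygy a b m⟩

/-- **Why the family has the discriminant of `E` up to a fifth power.**  The left side, times `27`, is the
discriminant of the cubic form `D̂ x³ + 3 ĝ x² y + 3 ê x y² + k̂ y³`, and times `D̂²` it is
`4 c₄³ - (2 c₆)²` (syzygy of the covariants of a cubic form); the right side is `4 (a³ - b²) D̂³`.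
File `H52Defs`. -/
theorem discriminant_of_polar (a b m : R) :
    3 * gHat a b m ^ 2 * eHat a b m ^ 2 + 6 * dHat a b m * gHat a b m * eHat a b m * kHat a b m -
      4 * dHat a b m * eHat a b m ^ 3 - 4 * gHat a b m ^ 3 * kHat a b m -
      dHat a b m ^ 2 * kHat a b m ^ 2 = 4 * (a ^ 3 - b ^ 2) * dHat a b m ^ 3 :=
  H52.disc_identity a b m

/-- **Klein's form on the line** `w + m (-∂D/∂v, ∂D/∂u)`: `D = D(w) D̂(m)`, `D̂` for `a = k₄(w)`,
`b = k₆(w)`.  File `H52Klein`. -/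
theorem form_on_the_line (u v m : R) :
    wu u v m = u - m * kDv u v ∧ wv u v m = v + m * kDu u v ∧
    kD (wu u v m) (wv u v m) = kD u v * dHat (k4 u v) (k6 u v) m :=
  ⟨rfl, rfl, H52.kD_w u v m⟩

/-- **Its derivatives on the line**: the polar forms at the point `w + m (-∂D/∂v, ∂D/∂u)` in the direction
of the line are `12 D(w)` times the normalised derivatives of `D̂`; and `δ = 12 D(w)` (Euler's formula).
Together with `covariants_by_polars` this proves `GuideSwitch.klein_map`.  Files `H52Klein`, `H52Par`. -/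
theorem polars_on_the_line (u v m : R) :
    polG (wu u v m) (wv u v m) (-kDv u v) (kDu u v) = 12 * kD u v * gHat (k4 u v) (k6 u v) m ∧
    polE (wu u v m) (wv u v m) (-kDv u v) (kDu u v) = 12 * kD u v * eHat (k4 u v) (k6 u v) m ∧
    polK (wu u v m) (wv u v m) (-kDv u v) (kDu u v) = 12 * kD u v * kHat (k4 u v) (k6 u v) m ∧
    wu u v m * kDu u v - wv u v m * (-kDv u v) = 12 * kD u v :=
  ⟨H52.polG_w u v m, H52.polE_w u v m, H52.polK_w u v m, H52.det_w u v m⟩

/-! ## 2. The point of order five -/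

/-- **Tate's normal form.**  The curves with a point of order 5 are `y² = x³ - 27 t₄ x - 54 t₆` with the
forms `t₄`, `t₆` in `(α, β)`, the parameters of `X₁(5)`; their discriminant is `2⁶ 3⁹ (t₄³ - t₆²)`.  The
passage from `X(5)` to `X₁(5)` is the substitution of two quintic forms:
`kal u v = u (u⁴ + 3 u³ v + 4 u² v² + 2 u v³ + v⁴)`, `kbe u v = v (u⁴ - 2 u³ v + 4 u² v² - 3 u v³ + v⁴)`.
Files `H52Ident`, `H52Tors`. -/
theorem tate_parameters (u v α β : R) :
    t4 α β = α ^ 4 - 12 * α ^ 3 * β + 14 * α ^ 2 * β ^ 2 + 12 * α * β ^ 3 + β ^ 4 ∧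
    t4 α β ^ 3 - t6 α β ^ 2 = 1728 * (α ^ 5 * β ^ 5 * (α ^ 2 - 11 * α * β - β ^ 2)) ∧
    kal u v = u * (u ^ 4 + 3 * u ^ 3 * v + 4 * u ^ 2 * v ^ 2 + 2 * u * v ^ 3 + v ^ 4) ∧
    kbe u v = v * (u ^ 4 - 2 * u ^ 3 * v + 4 * u ^ 2 * v ^ 2 - 3 * u * v ^ 3 + v ^ 4) ∧
    t4 (kal u v) (kbe u v) = k4 u v ∧ t6 (kal u v) (kbe u v) = k6 u v :=
  ⟨rfl, H52.t_syzygy α β, rfl, rfl, H52.t4_k u v, H52.t6_k u v⟩

end Forms

section Points

variable {K : Type*} [Field K] [DecidableEq K]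

/-- **The point `P(w)`** of the curve `short a b : y² = x³ - 27 a x - 54 b` which belongs to the parameter
`w = (u, v)`: with `α = kal u v`, `β = kbe u v` it is `(3 (α² - 6 α β + β²), -108 α β²)`.  (Without the
hypothesis that `w` is a parameter, `H52.Pw` is defined to be zero if these are not the coordinates of a
nonsingular point.)  File `H52Orb`. -/
theorem point_eq (h2 : (2 : K) ≠ 0) (h3 : (3 : K) ≠ 0) {a b : K} (hab : a ^ 3 - b ^ 2 ≠ 0)
    {w : K × K} (hw : k4 w.1 w.2 = a ∧ k6 w.1 w.2 = b) :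
    ∃ h : (short a b).toAffine.Nonsingular
        (3 * (kal w.1 w.2 ^ 2 - 6 * kal w.1 w.2 * kbe w.1 w.2 + kbe w.1 w.2 ^ 2))
        (-108 * kal w.1 w.2 * kbe w.1 w.2 ^ 2), H52.Pw (short a b) w = Point.some _ _ h :=
  ⟨H52.tpt_nonsing h2 h3 hab (H52.tk4 hw) (H52.tk6 hw), H52.pt_eq _⟩

/-- **Doubling.**  Let `(α, β)` be Tate parameters of the curve, `P` the point with the coordinates
`(3 (α² - 6 α β + β²), -108 α β²)`.  Then `2 P` is the point which belongs to `(-β, α)`, and `-P` the point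
which belongs to `(-α, -β)`.  Since `(α, β) ↦ (-β, α)` has the square `-1`, one has `4 P = -P`, so
`5 P = 0`.  File `H52Tors`. -/
theorem doubling (h2 : (2 : K) ≠ 0) (h3 : (3 : K) ≠ 0) {a b α β : K} (hab : a ^ 3 - b ^ 2 ≠ 0)
    (h4 : t4 α β = a) (h6 : t6 α β = b) :
    H52.tpt (short a b) α β + H52.tpt (short a b) α β = H52.tpt (short a b) (-β) α ∧
    H52.tpt (short a b) (-α) (-β) = -H52.tpt (short a b) α β ∧
    (5 : ℤ) • H52.tpt (short a b) α β = 0 ∧ H52.tpt (short a b) α β ≠ 0 :=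
  ⟨H52.tpt_dbl h2 h3 hab h4 h6, H52.tpt_neg h2 h3 hab h4 h6, H52.tpt_five h2 h3 hab h4 h6,
    H52.tpt_ne_zero h2 h3 hab h4 h6⟩

/-- **The point determines its Tate parameters**: `P` and `2 P` determine `α β ≠ 0`, `α β²` and `α² β`.
File `H52Tors`. -/
theorem tate_parameters_determined (h2 : (2 : K) ≠ 0) (h3 : (3 : K) ≠ 0) {a b α β α' β' : K}
    (hab : a ^ 3 - b ^ 2 ≠ 0) (h4 : t4 α β = a) (h6 : t6 α β = b) (h4' : t4 α' β' = a)
    (h6' : t6 α' β' = b) (h : H52.tpt (short a b) α β = H52.tpt (short a b) α' β') :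
    α = α' ∧ β = β' :=
  H52.tpt_inj h2 h3 hab h4 h6 h4' h6' h

/-- **The points `P(w)` are not zero and are killed by 5.**  File `H52Orb`. -/
theorem point_order_five (h2 : (2 : K) ≠ 0) (h3 : (3 : K) ≠ 0) {a b : K} (hab : a ^ 3 - b ^ 2 ≠ 0)
    {w : K × K} (hw : k4 w.1 w.2 = a ∧ k6 w.1 w.2 = b) :
    H52.Pw (short a b) w ≠ 0 ∧ (5 : ℤ) • H52.Pw (short a b) w = 0 :=
  ⟨H52.Pw_ne_zero h2 h3 hab hw, H52.Pw_five h2 h3 hab hw⟩

end Points

/-! ## 3. The icosahedral group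

`ζ` is a root of the fifth cyclotomic polynomial and `i` the inverse of 5, in any commutative ring. -/

section Group

variable {R : Type*} [CommRing R] {ζ i : R}

/-- **The matrix `S`**: `S(u, v) = i (s₁ u + s₂ v, s₂ u - s₁ v)` with the elements `s₁`, `s₂` of `ℤ[ζ]`
below, `s₁² + s₂² = -25`; hence `S² = -1`.  Files `H52Ident`, `H52Tors`. -/
theorem matrix_S (hζ : ζ ^ 4 + ζ ^ 3 + ζ ^ 2 + ζ + 1 = 0) (hi : 5 * i = 1) (u v : R) :
    sU ζ i u v = i * ((1 + 2 * ζ + 3 * ζ ^ 2 - ζ ^ 3) * u + (2 + 4 * ζ + ζ ^ 2 + 3 * ζ ^ 3) * v) ∧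
    sV ζ i u v = i * ((2 + 4 * ζ + ζ ^ 2 + 3 * ζ ^ 3) * u - (1 + 2 * ζ + 3 * ζ ^ 2 - ζ ^ 3) * v) ∧
    (1 + 2 * ζ + 3 * ζ ^ 2 - ζ ^ 3) ^ 2 + (2 + 4 * ζ + ζ ^ 2 + 3 * ζ ^ 3) ^ 2 = -25 ∧
    sU ζ i (sU ζ i u v) (sV ζ i u v) = -u ∧ sV ζ i (sU ζ i u v) (sV ζ i u v) = -v :=
  ⟨rfl, rfl, H52.sq_s ζ hζ, H52.sU_sU hζ hi u v, H52.sV_sV hζ hi u v⟩

/-- **Invariance under fifth roots of unity** `κ`: of `k₄`, `k₆` under `(u, v) ↦ (κ u, v)` and under
`(u, v) ↦ (κ u, κ v)`, because they are forms in `u⁵`, `v⁵`.  File `H52Tors`. -/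
theorem invariance_under_T {κ : R} (hκ : κ ^ 5 = 1) (u v : R) :
    k4 (κ * u) v = k4 u v ∧ k6 (κ * u) v = k6 u v ∧
      k4 (κ * u) (κ * v) = k4 u v ∧ k6 (κ * u) (κ * v) = k6 u v :=
  ⟨H52.k4_T κ u v hκ, H52.k6_T κ u v hκ, H52.k4_mul κ u v hκ, H52.k6_mul κ u v hκ⟩

/-- **Invariance under `S`.**  The Tate parameters of `S(u, v)` are *linear* in `u⁵`, `v⁵`:
`kal(S w) = i (c₁ u⁵ + c₂ v⁵)`, `kbe(S w) = i (c₂ u⁵ - c₁ v⁵)` with the elements `c₁`, `c₂` of `ℤ[ζ]` below;
so `k₄(S w)` is `t₄` of these linear forms, and this is `k₄(w)`.  Files `H52Ident`, `H52Tors`. -/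
theorem invariance_under_S (hζ : ζ ^ 4 + ζ ^ 3 + ζ ^ 2 + ζ + 1 = 0) (hi : 5 * i = 1) (u v : R) :
    kal (sU ζ i u v) (sV ζ i u v) =
      i * ((4 + 8 * ζ + 7 * ζ ^ 2 + ζ ^ 3) * u ^ 5 + (3 + 6 * ζ - ζ ^ 2 + 7 * ζ ^ 3) * v ^ 5) ∧
    kbe (sU ζ i u v) (sV ζ i u v) =
      i * ((3 + 6 * ζ - ζ ^ 2 + 7 * ζ ^ 3) * u ^ 5 - (4 + 8 * ζ + 7 * ζ ^ 2 + ζ ^ 3) * v ^ 5) ∧
    k4 (sU ζ i u v) (sV ζ i u v) = k4 u v ∧ k6 (sU ζ i u v) (sV ζ i u v) = k6 u v :=
  ⟨H52.kal_S hζ hi u v, H52.kbe_S hζ hi u v, H52.k4_S hζ hi u v, H52.k6_S hζ hi u v⟩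

/-- **The map `F_m` commutes with `S`**: the vector `(-∂D/∂v, ∂D/∂u)` transforms like `w`, because `D` is
invariant and `det S = 1`.  File `H52Tors`. -/
theorem family_commutes_S (hζ : ζ ^ 4 + ζ ^ 3 + ζ ^ 2 + ζ + 1 = 0) (hi : 5 * i = 1) (u v m : R) :
    wu (sU ζ i u v) (sV ζ i u v) m = sU ζ i (wu u v m) (wv u v m) ∧
      wv (sU ζ i u v) (sV ζ i u v) m = sV ζ i (wu u v m) (wv u v m) :=
  ⟨H52.wu_S hζ hi u v m, H52.wv_S hζ hi u v m⟩

/-- **The map `F_m` commutes with `T` and with the scalars.**  File `H52Tors`. -/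
theorem family_commutes_T {κ : R} (hκ : κ ^ 5 = 1) (u v m : R) :
    (wu (κ * u) v m = κ * wu u v m ∧ wv (κ * u) v m = wv u v m) ∧
      wu (κ * u) (κ * v) m = κ * wu u v m ∧ wv (κ * u) (κ * v) m = κ * wv u v m :=
  ⟨⟨H52.wu_T κ u v m hκ, H52.wv_T κ u v m hκ⟩, H52.wu_mul κ u v m hκ, H52.wv_mul κ u v m hκ⟩

end Group

/-! ## 4. Addition of the points of order five

From here on `w` is a pair, `Tm ζ w = (ζ w₁, w₂)`, `Sm ζ i w` is `S` applied to `w`,
`Zm κ w = (κ w₁, κ w₂)` and `Fm m w` is `F_m(w)`. -/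

section Addition

variable {K : Type*} [Field K] [DecidableEq K] {ζ i : K}

omit [DecidableEq K] in
/-- **The transformations of pairs**, unfolded.  File `H52Orb`. -/
theorem transformations (κ m : K) (w : K × K) :
    H52.Tm ζ w = (ζ * w.1, w.2) ∧ H52.Sm ζ i w = (sU ζ i w.1 w.2, sV ζ i w.1 w.2) ∧
      H52.Zm κ w = (κ * w.1, κ * w.2) ∧ H52.Fm m w = (wu w.1 w.2 m, wv w.1 w.2 m) :=
  ⟨rfl, rfl, rfl, rfl⟩

/-- **A criterion for the sum of two points** of `y² = x³ - 27 a x - 54 b` with a given slope `L` of the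
line through them; in the case `x₁ = x₂` (tangent) there are two more conditions.  With it additions are
proved by polynomial identities, without divisions.  File `H52Tors`. -/
theorem sum_of_points {a b x₁ y₁ x₂ y₂ x₃ y₃ L : K}
    (h₁ : (short a b).toAffine.Nonsingular x₁ y₁) (h₂ : (short a b).toAffine.Nonsingular x₂ y₂)
    (h₃ : (short a b).toAffine.Nonsingular x₃ y₃) (hL : y₂ - y₁ = L * (x₂ - x₁))
    (hT : x₁ = x₂ → y₁ + y₂ ≠ 0 ∧ 2 * y₁ * L = 3 * x₁ ^ 2 - 27 * a)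
    (e₁ : x₃ = L ^ 2 - x₁ - x₂) (e₂ : y₃ = -(y₁ + L * (x₃ - x₁))) :
    Point.some x₁ y₁ h₁ + Point.some x₂ y₂ h₂ = Point.some x₃ y₃ h₃ :=
  H52.add_of h₁ h₂ h₃ hL hT e₁ e₂

/-- **The addition formula** `P(Tw) + P(Sw) = P(w)`.  The slope of the line through `P(Tw)`, `P(Sw)` and
`-P(w)` is a quintic form in `(u, v)` with coefficients in `ℤ[ζ]` (`H52.zL`), divided by 5; the formula is
then a consequence of four identities in `ℤ[ζ][u, v]`.  Files `H52Ident`, `H52Orb`. -/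
theorem addition (h2 : (2 : K) ≠ 0) (h3 : (3 : K) ≠ 0) (hζ : ζ ^ 4 + ζ ^ 3 + ζ ^ 2 + ζ + 1 = 0)
    (hi : 5 * i = 1) {a b : K} (hab : a ^ 3 - b ^ 2 ≠ 0) {w : K × K}
    (hw : k4 w.1 w.2 = a ∧ k6 w.1 w.2 = b) :
    H52.Pw (short a b) (H52.Tm ζ w) + H52.Pw (short a b) (H52.Sm ζ i w) = H52.Pw (short a b) w :=
  H52.Pw_T h2 h3 hζ hi hab hw

/-- **The other relations**: `P(κ w) = P(w)` for `κ⁵ = 1`, `P(STw) = P(Sw)` and `P(SSw) = -P(w)`.
File `H52Orb`. -/
theorem relations (h2 : (2 : K) ≠ 0) (h3 : (3 : K) ≠ 0) (hζ : ζ ^ 4 + ζ ^ 3 + ζ ^ 2 + ζ + 1 = 0)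
    (hi : 5 * i = 1) {a b : K} (hab : a ^ 3 - b ^ 2 ≠ 0) {w : K × K}
    (hw : k4 w.1 w.2 = a ∧ k6 w.1 w.2 = b) {κ : K} (hκ : κ ^ 5 = 1) :
    H52.Pw (short a b) (H52.Zm κ w) = H52.Pw (short a b) w ∧
    H52.Pw (short a b) (H52.Sm ζ i (H52.Tm ζ w)) = H52.Pw (short a b) (H52.Sm ζ i w) ∧
    H52.Pw (short a b) (H52.Sm ζ i (H52.Sm ζ i w)) = -H52.Pw (short a b) w :=
  ⟨H52.Pw_Z _ hκ w, H52.Pw_S_T hζ hi _ w, H52.Pw_S_S h2 h3 hζ hi hab hw⟩

/-! ## 5. Orbits -/

omit [DecidableEq K] in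
/-- **The orbit of `w`** (`H52.Orb ζ i w w'`: `w'` is in the orbit of `w`) under the monoid generated by
`T`, `S` and the scalars `κ`, `κ⁵ = 1`: it contains `w`, is stable under these transformations and is
contained in every set with these two properties.  File `H52Orb`. -/
theorem orbit_spec (w : K × K) :
    H52.Orb ζ i w w ∧ (∀ w', H52.Orb ζ i w w' → H52.Orb ζ i w (H52.Tm ζ w')) ∧
    (∀ w', H52.Orb ζ i w w' → H52.Orb ζ i w (H52.Sm ζ i w')) ∧
    (∀ w' κ, κ ^ 5 = 1 → H52.Orb ζ i w w' → H52.Orb ζ i w (H52.Zm κ w')) ∧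
    ∀ C : K × K → Prop, C w → (∀ w', C w' → C (H52.Tm ζ w')) → (∀ w', C w' → C (H52.Sm ζ i w')) →
      (∀ w' κ, κ ^ 5 = 1 → C w' → C (H52.Zm κ w')) → ∀ w', H52.Orb ζ i w w' → C w' :=
  ⟨.refl, fun _ h => h.T, fun _ h => h.S, fun _ κ hκ h => h.Z κ hκ, fun C h0 hT hS hZ w' h => by
    induction h with
    | refl => exact h0
    | T _ ih => exact hT _ ih
    | S _ ih => exact hS _ ih
    | Z κ hκ _ ih => exact hZ _ κ hκ ih⟩

omit [DecidableEq K] in
/-- **The orbit of a parameter consists of parameters of the same curve.**  File `H52Orb`. -/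
theorem orbit_of_parameter (hζ : ζ ^ 4 + ζ ^ 3 + ζ ^ 2 + ζ + 1 = 0) (hi : 5 * i = 1) {a b : K}
    {w w' : K × K} (hw : k4 w.1 w.2 = a ∧ k6 w.1 w.2 = b) (h : H52.Orb ζ i w w') :
    k4 w'.1 w'.2 = a ∧ k6 w'.1 w'.2 = b :=
  H52.IsPar.orb hζ hi hw h

/-- **All nonzero combinations occur.**  If `p`, `q` are not both divisible by 5, there is a `w₁` in the
orbit of `w` with `P(w₁) = p P(w) + q P(Sw)`.  Proof: `P(Tⁿ w) = P(w) - n P(Sw)`, and the words `Tᵐ S Tⁿ`
(if 5 does not divide `p`) and `Tᵏ S Tᵐ S` suffice (transitivity of `SL₂(𝔽₅)` on the nonzero vectors).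
File `H52Transfer`. -/
theorem combinations (h2 : (2 : K) ≠ 0) (h3 : (3 : K) ≠ 0)
    (hζ : ζ ^ 4 + ζ ^ 3 + ζ ^ 2 + ζ + 1 = 0) (hi : 5 * i = 1) {a b : K} (hab : a ^ 3 - b ^ 2 ≠ 0)
    {w : K × K} (hw : k4 w.1 w.2 = a ∧ k6 w.1 w.2 = b) (p q : ℤ)
    (hpq : ¬ ((5 : ℤ) ∣ p ∧ (5 : ℤ) ∣ q)) :
    ∃ w₁, H52.Orb ζ i w w₁ ∧ H52.Pw (short a b) w₁ =
      p • H52.Pw (short a b) w + q • H52.Pw (short a b) (H52.Sm ζ i w) :=
  H52.reach h2 h3 hζ hi hab hw p q hpq

/-- **Independence**: `p P(w) + q P(Sw) = 0` only if 5 divides `p` and `q`, because the points `P(w₁)` are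
not zero.  File `H52Transfer`. -/
theorem independence (h2 : (2 : K) ≠ 0) (h3 : (3 : K) ≠ 0)
    (hζ : ζ ^ 4 + ζ ^ 3 + ζ ^ 2 + ζ + 1 = 0) (hi : 5 * i = 1) {a b : K} (hab : a ^ 3 - b ^ 2 ≠ 0)
    {w : K × K} (hw : k4 w.1 w.2 = a ∧ k6 w.1 w.2 = b) (p q : ℤ)
    (h : p • H52.Pw (short a b) w + q • H52.Pw (short a b) (H52.Sm ζ i w) = 0) :
    (5 : ℤ) ∣ p ∧ (5 : ℤ) ∣ q :=
  H52.indep h2 h3 hζ hi hab hw p q h

/-- **Parameters with the same Tate parameters are in one orbit.**  The Tate parameters of `-w = SSw` are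
linear in the fifth powers of the coordinates of `Sw` (`invariance_under_S`), with an invertible matrix; so
the coordinates of `Sw` and `Sw₁` differ by fifth roots of unity.  File `H52Transfer`. -/
theorem same_tate_parameters (h2 : (2 : K) ≠ 0) (h3 : (3 : K) ≠ 0)
    (hζ : ζ ^ 4 + ζ ^ 3 + ζ ^ 2 + ζ + 1 = 0) (hi : 5 * i = 1) {w w₁ : K × K}
    (hα : kal w.1 w.2 = kal w₁.1 w₁.2) (hβ : kbe w.1 w.2 = kbe w₁.1 w₁.2) : H52.Orb ζ i w w₁ :=
  H52.orb_of_eq h2 h3 hζ hi hα hβ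

/-- **Any two parameters of the same curve are in one orbit** (`K` algebraically closed).  Proof: `E[5]` has
25 elements, hence `P(w)`, `P(Sw)` generate it; so `P(w₁) = P(w₂)` with `w₂` in the orbit of `w`
(`combinations`), and `w₁`, `w₂` have the same Tate parameters (`tate_parameters_determined`).
File `H52Transfer`. -/
theorem one_orbit [IsAlgClosed K] (h2 : (2 : K) ≠ 0) (h3 : (3 : K) ≠ 0)
    (hζ : ζ ^ 4 + ζ ^ 3 + ζ ^ 2 + ζ + 1 = 0) (hi : 5 * i = 1) {a b : K} (hab : a ^ 3 - b ^ 2 ≠ 0)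
    {w w₁ : K × K} (hw : k4 w.1 w.2 = a ∧ k6 w.1 w.2 = b)
    (hw₁ : k4 w₁.1 w₁.2 = a ∧ k6 w₁.1 w₁.2 = b) : H52.Orb ζ i w w₁ :=
  H52.complete h2 h3 hζ hi hab hw hw₁

/-! ## 6. The same matrix on both curves -/

omit [DecidableEq K] in
/-- **The map `F_m` respects orbits.**  File `H52Orb`. -/
theorem family_maps_orbits (hζ : ζ ^ 4 + ζ ^ 3 + ζ ^ 2 + ζ + 1 = 0) (hi : 5 * i = 1) (m : K)
    {w w' : K × K} (h : H52.Orb ζ i w w') : H52.Orb ζ i (H52.Fm m w) (H52.Fm m w') :=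
  H52.orb_F hζ hi m h

/-- **The same matrix.**  Let `w` be a parameter of `(a, b)`, `F_m(w)` a parameter of `(a', b')` and `w₁` in
the orbit of `w`.  There are integers `p, q, r, s` with `P(w₁) = p P(w) + q P(Sw)`,
`P(Sw₁) = r P(w) + s P(Sw)` on the first curve, and with the same coefficients
`P(F_m w₁) = p P(F_m w) + q P(S F_m w)`, `P(S F_m w₁) = r P(F_m w) + s P(S F_m w)` on the second one.
Proof: induction on the word which leads from `w` to `w₁`; `T` changes `(p, q; r, s)` to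
`(p - r, q - s; r, s)` and `S` to `(r, s; -p, -q)`.  File `H52Transfer`. -/
theorem same_matrix (h2 : (2 : K) ≠ 0) (h3 : (3 : K) ≠ 0)
    (hζ : ζ ^ 4 + ζ ^ 3 + ζ ^ 2 + ζ + 1 = 0) (hi : 5 * i = 1) {a b a' b' m : K}
    (hab : a ^ 3 - b ^ 2 ≠ 0) (hab' : a' ^ 3 - b' ^ 2 ≠ 0) {w w₁ : K × K}
    (hw : k4 w.1 w.2 = a ∧ k6 w.1 w.2 = b)
    (hw' : k4 (H52.Fm m w).1 (H52.Fm m w).2 = a' ∧ k6 (H52.Fm m w).1 (H52.Fm m w).2 = b')
    (h : H52.Orb ζ i w w₁) :
    ∃ p q r s : ℤ,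
      H52.Pw (short a b) w₁ =
        p • H52.Pw (short a b) w + q • H52.Pw (short a b) (H52.Sm ζ i w) ∧
      H52.Pw (short a b) (H52.Sm ζ i w₁) =
        r • H52.Pw (short a b) w + s • H52.Pw (short a b) (H52.Sm ζ i w) ∧
      H52.Pw (short a' b') (H52.Fm m w₁) = p • H52.Pw (short a' b') (H52.Fm m w) +
        q • H52.Pw (short a' b') (H52.Sm ζ i (H52.Fm m w)) ∧
      H52.Pw (short a' b') (H52.Sm ζ i (H52.Fm m w₁)) = r • H52.Pw (short a' b') (H52.Fm m w) +
        s • H52.Pw (short a' b') (H52.Sm ζ i (H52.Fm m w)) :=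
  H52.orb_pair h2 h3 hζ hi hab hab' hw hw' h

/-- **Field endomorphisms act on the points through the parameters**: if the endomorphism `Φ` of the group
of points acts on the coordinates by `σ : K → K`, then `Φ P(w) = P(σ w)`.  File `H52Transfer`. -/
theorem frobenius_on_points (h2 : (2 : K) ≠ 0) (h3 : (3 : K) ≠ 0) {a b : K}
    (hab : a ^ 3 - b ^ 2 ≠ 0) (σ : K →+* K)
    (Φ : (short a b).toAffine.Point →+ (short a b).toAffine.Point)
    (hΦ : ∀ x y (h : (short a b).toAffine.Nonsingular x y),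
      ∃ h', Φ (.some x y h) = .some (σ x) (σ y) h')
    {w : K × K} (hw : k4 w.1 w.2 = a ∧ k6 w.1 w.2 = b)
    (hw' : k4 (σ w.1) (σ w.2) = a ∧ k6 (σ w.1) (σ w.2) = b) :
    Φ (H52.Pw (short a b) w) = H52.Pw (short a b) (σ w.1, σ w.2) :=
  H52.map_Pw h2 h3 hab σ Φ hΦ hw hw'

end Addition

section Frobenius

open scoped WeierstrassCurve.Affine

/-- **The characteristic equation of Frobenius** `φ` on an elliptic curve over a finite field `k` with `q`
elements, on the points over an extension `L` of `k`: `φ² P - a φ P + q P = 0`, `a` the trace of Frobenius.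
It is applied to `P(w)` on `E`, which by `GuideSwitch.transfer` gives the same equation (with the same `a`)
for `P(F_m w)`, and to `P(F_m w)` on `E_m`; the difference is `(a(E_m) - a(E)) φ P(F_m w) = 0`, and the
order of `φ P(F_m w)` is 5.  File `H62FrobCharpoly`. -/
theorem frobenius_equation {k : Type*} [Field k] [Fintype k] (W : WeierstrassCurve k) (hΔ : W.Δ ≠ 0)
    (L : Type*) [Field L] [DecidableEq L] [Algebra k L] (P : (W⁄L).Point) :
    Point.map (W' := W) (FiniteField.frobeniusAlgHom k L)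
        (Point.map (W' := W) (FiniteField.frobeniusAlgHom k L) P) -
      W.traceOfFrobenius • Point.map (W' := W) (FiniteField.frobeniusAlgHom k L) P +
      (Nat.card k : ℤ) • P = 0 :=
  H62.frob_charpoly W hΔ L P

end Frobenius

end Fermat.Agent.Guide.Icosahedral
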