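import Fermat.Agent.H88GenusEq

/-!
# Reader's guide: the theorem of Igusa on the genus of `X₀(N)` modulo `ℓ` (library)

Every theorem of this file is proved by citing a theorem of the library; nothing here is used by any
other file. Editor: helper10; the library files are those of helper88 (`H88*`), helper18 (`H18*`),
helper23 (`H23HauptL`) and helper66 (`H66*`: the degree of `F_N` over the `j`-line in characteristic
`ℓ`, see the guide ModularEquation).

The result is theorem `genus_eq_genus_of_reduction` of the guide FunctionField: for a place `A` of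
`ℚ̄` above a prime `ℓ ∤ N` the field `F_N` of modular functions has the same genus over `ℚ̄` and over
the residue field `k` of `A`. It is the only form in which the good reduction of `X₀(N)` is used (31
of the 60 statements depend on it; see also `genus_eq` and `degree_eq_psi` of the guide Reduction). No
model of `X₀(N)` over a ring, no moduli of elliptic curves and no scheme is needed.

**Idea.** Reduction never increases the genus, and the genus is preserved when the ramification over
a line is visible after reduction:
1. Tools in characteristic `p`: separable generators, traces and norms, the inequality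
   `deg R ≤ 2g - 2 + 2 [F : K(y)]` (half of the formula of Riemann and Hurwitz).
2. `R` a reduction of `F/K` to `E/k`, `x` an integral function of the same degree `n` as its
   reduction: the genus does not increase, and the number of places above given points increases at
   most by the decrease of the genus. With Riemann-Hurwitz: if `x` is ramified only over `r` points
   with different reductions, then it has `(r - 2) n + 2 - 2 g(F)` places above them, and after
   reduction at least `(r - 2) n + 2 - 2 g(E)`; so `2 g(F) - 2 g(E) ≤ g(F) - g(E)`, and therefore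
   `g(F) = g(E)`.
3. For even `N` the function `t₂ = Δ(q)/Δ(q²)` is ramified only over `0, ∞, -64`, and this is seen by
   comparing with `j`; so 2 applies if `ℓ ≠ 2`. In the same way `t₃`, with `0, ∞, -27`, for `3 ∣ N`.
4. Every `N` prime to `ℓ` divides a level as in 3 prime to `ℓ`. The genus equality descends: norms and
   traces commute with reduction, and a ring of functions which contains all norms and traces from
   above contains everything.

Details: NOTES.md, Appendix A.3, notes [291], [117]. References: J. Igusa, *Kroneckerian model of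
fields of elliptic modular functions*, Amer. J. Math. 81 (1959); M. Deuring, Math. Z. 47 (1942).
-/

set_option autoImplicit false

namespace Fermat.Agent.Guide.Igusa

open AlgebraicCurve ModularCurve IntermediateField WithZero
open Fermat.Agent.H3RR (IsFF poleDiv)
open Fermat.Agent.H40 (ReductionData)

-- instance priorities (they only make the file faster)
attribute [-instance] IsLocalRing.ResidueField.algebra
attribute [local instance 5000] SubalgebraClass.toAlgebra

/-! ## 1. Function fields of any characteristic

`v.adicValuation f ≤ 1`: `f` is regular at the place `v`; `v.adicValuation f < 1`: `f` has a zero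
at `v`. -/

section Tools

/-- **Inseparable elements are `p`-th powers.** `K` perfect of characteristic `p`, `F/K` a function
field in one variable: if `F` is not separable over `K(x)`, then `x = g^p` (because `[F : F^p] = p`).
File `H18Insep`. -/
theorem exists_root_of_not_separable {K F : Type*} [Field K] [Field F] [Algebra K F] (p : ℕ)
    [Fact p.Prime] [CharP F p] [CharP K p] [PerfectField K] {x : F} (hx : Transcendental K x)
    [FiniteDimensional K⟮x⟯ F] (hsep : ¬ Algebra.IsSeparable K⟮x⟯ F) : ∃ g : F, g ^ p = x :=
  H18.exists_pow_eq_of_not_isSeparable p hx hsep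

/-- **Traces.** If `h` vanishes at all places of `F` above the place `v` of `E`, then its trace
vanishes at `v`. (Valuation rings of an algebraic closure.) File `H88Trace`. -/
theorem trace_vanishes {K E F : Type*} [Field K] [Field E] [Field F] [Algebra K E] [Algebra K F]
    [Algebra E F] [IsScalarTower K E F] [FiniteDimensional E F] [Algebra.IsSeparable E F]
    [IsFF K F] (v : Place K E) {h : F}
    (hh : ∀ w : Place K F, (∀ e : E, e ∈ v.toValuationSubring ↔
      algebraMap E F e ∈ w.toValuationSubring) → w.adicValuation h < 1) :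
    v.adicValuation (Algebra.trace E F h) < 1 :=
  H88.trace_lt_one v hh

/-- **Norms.** If `h` is regular at all places above `v`, then its norm is regular at `v`, and it
vanishes at `v` if `h` vanishes at one place above `v`. If `t` has a simple zero at one place above
`v` and neither zero nor pole at the others, then its norm has a simple zero at `v`.
File `H88Norm`. -/
theorem norms {K F F' : Type*} [Field K] [Field F] [Field F'] [Algebra K F] [Algebra K F']
    [Algebra F F'] [IsScalarTower K F F'] [Module.Finite F F'] [IsFF K F'] [IsFF K F]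
    [IsAlgClosed K] [Algebra.IsSeparable F F'] (v : Place K F) (w₁ : Place K F')
    (hw₁ : w₁.restrict F = v) :
    (∀ h : F', (∀ w : Place K F', w.restrict F = v → w.adicValuation h ≤ 1) →
      v.adicValuation (Algebra.norm F h) ≤ 1 ∧
        (w₁.adicValuation h < 1 → v.adicValuation (Algebra.norm F h) < 1)) ∧
    ∀ t : F', t ≠ 0 → w₁.ord t = 1 →
      (∀ w : Place K F', w.restrict F = v → w ≠ w₁ → w.ord t = 0) →
        v.ord (Algebra.norm F t) = 1 :=
  ⟨fun _ hh => H88.norm_aux v w₁ hw₁ hh, fun _ h0 h1 h => H88.ord_norm_eq_one v w₁ hw₁ h0 h1 h⟩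

/-- **Inequality of Riemann and Hurwitz**, any characteristic. `F` separable over `K(y)`, `R` a divisor
with `R w ≤ e_w - 1`, `e_w` the ramification index of `w` over the `y`-line (the order of `y - c` or
of `y⁻¹`). Then `deg R ≤ 2g - 2 + 2 [F : K(y)]`. Proof: functions in `L(R - Z)`, `Z = (y)_0`, have
trace zero. Take `D` of degree `g - 1` with `L(D) = 0`; then `L(D + Z)` contains a basis of `F` over
`K(y)`. As the trace is nondegenerate, `L(R - 2 Z - D) = 0`, and the inequality of Riemann for this
divisor is the assertion. File `H88RH`. -/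
theorem riemann_hurwitz_inequality {K F : Type*} [Field K] [Field F] [Algebra K F] [IsAlgClosed K]
    [IsFF K F] {y : F} (hy : Transcendental K y) [Algebra.IsSeparable K⟮y⟯ F] (R : Divisor K F)
    (h0 : ∀ (w : Place K F) (c : K), 0 < w.ord (y - algebraMap K F c) →
      R w ≤ w.ord (y - algebraMap K F c) - 1)
    (h1 : ∀ w : Place K F, w.ord y < 0 → R w ≤ - w.ord y - 1) :
    Divisor.degree R ≤ 2 * (genusFF K F : ℤ) - 2 + 2 * Module.finrank K⟮y⟯ F :=
  H88.rh_le (H88.riemann_genusFF K F) hy R h0 h1

end Tools

/-! ## 2. Genus and reduction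

`R : ReductionData K F k E` is a reduction of `F/K` to `E/k` (guide FunctionField, section 2): `R.A`
with residue map `R.π`, the ring `R.B` of integral functions and its homomorphism `R.ρ` to `E`. `x` is
an integral function with transcendental reduction and `[F : K(x)] = [E : k(x̄)]`. `poleDiv x` is the
divisor of poles of `x`. -/

section Genus

variable {K F k E : Type*} [Field K] [Field F] [Algebra K F] [Field k] [Field E] [Algebra k E]
  [IsAlgClosed K] [IsAlgClosed k] [IsFF K F] [IsFF k E] [CharZero K] (R : ReductionData K F k E)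

/-- **Poles under reduction**: integral functions in `L(m (x)_∞)` have reduction in `L(m (x̄)_∞)`, for
all `m`. File `H88Count`. -/
theorem reduction_poles {x : R.B} (hx : Transcendental k (R.ρ x))
    (hdeg : Module.finrank K⟮(x : F)⟯ F = Module.finrank k⟮R.ρ x⟯ E) (m : ℕ) (b : R.B)
    (hb : (b : F) ∈ riemannRochSpace (m • (poleDiv (x : F) : Divisor K F))) :
    R.ρ b ∈ riemannRochSpace (m • (poleDiv (R.ρ x) : Divisor k E)) :=
  H88.red_le R hx hdeg m ⟨b, hb, rfl⟩

/-- **Values of integral functions are integral**: if `f` is integral with poles only at the poles of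
`x`, and `P` is a place where `x` has an integral value `b`, then the value `c` of `f` at `P` is
integral. File `H88Count`. -/
theorem value_integral {x : R.B} (hx : Transcendental k (R.ρ x))
    (hdeg : Module.finrank K⟮(x : F)⟯ F = Module.finrank k⟮R.ρ x⟯ E) {m : ℕ} (hm : 0 < m)
    {f : R.B} (hf : (f : F) ∈ riemannRochSpace (m • (poleDiv (x : F) : Divisor K F)))
    {P : Place K F} {b : R.A} (hP : P.adicValuation ((x : F) - algebraMap K F b) < 1)
    {c : K} (hc : P.adicValuation ((f : F) - algebraMap K F c) < 1) : c ∈ R.A :=
  H88.value_mem R hx hdeg hm hf hP hc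

/-- **Functions with small values**: `f` as in `value_integral`. If its values at all places above
`x = b` reduce to zero, then the reduction of `f` vanishes at all places above `x̄ = b̄`.
File `H88Genus`. -/
theorem reduction_vanishes {x : R.B} (hx : Transcendental k (R.ρ x))
    (hdeg : Module.finrank K⟮(x : F)⟯ F = Module.finrank k⟮R.ρ x⟯ E) {m : ℕ} {f : R.B}
    (hf : (f : F) ∈ riemannRochSpace (m • (poleDiv (x : F) : Divisor K F))) {b : R.A}
    (hv : ∀ P : Place K F, P.adicValuation ((x : F) - algebraMap K F b) < 1 →
      ∃ a : R.A, R.π a = 0 ∧ P.adicValuation ((f : F) - algebraMap K F a) < 1)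
    (Q : Place k E) (hQ : Q.adicValuation (R.ρ x - algebraMap k E (R.π b)) < 1) :
    Q.adicValuation (R.ρ f) < 1 :=
  H88.vanish R hx hdeg hf hv Q hQ

/-- **Counting places.** `S` contains all places of `F` above the points `b ∈ br`, `T` consists of
places of `E` above their reductions. Then `#T + g(E) ≤ #S + g(F)`. Proof: the functions in
`L(m (x)_∞)` which vanish at `S` reduce to functions which vanish at `T`; compare dimensions for
large `m`. File `H88Genus`. -/
theorem count_places {x : R.B} (hx : Transcendental k (R.ρ x))
    (hdeg : Module.finrank K⟮(x : F)⟯ F = Module.finrank k⟮R.ρ x⟯ E) (br : Finset R.A)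
    (S : Finset (Place K F))
    (hS : ∀ P : Place K F, ∀ b ∈ br, P.adicValuation ((x : F) - algebraMap K F (b : K)) < 1 → P ∈ S)
    (T : Finset (Place k E))
    (hT : ∀ Q ∈ T, ∃ b ∈ br, Q.adicValuation (R.ρ x - algebraMap k E (R.π b)) < 1) :
    T.card + genusFF k E ≤ S.card + genusFF K F :=
  H88.card_le R hx hdeg br S hS T hT

/-- **Reduction does not increase the genus.** File `H88Genus`. -/
theorem genus_reduction_le {x : R.B} (hx : Transcendental k (R.ρ x))
    (hdeg : Module.finrank K⟮(x : F)⟯ F = Module.finrank k⟮R.ρ x⟯ E) :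
    genusFF k E ≤ genusFF K F :=
  H88.genus_ge R hx hdeg

/-- **Criterion for equality of genera.** `n = [F : K(x)]`, `br` a finite set of integral points with
different reductions, `S` a set which contains the places above them, `E` separable over `k(x̄)`. If
`2 g(F) - 2 ≤ (#br - 2) n - #S` (the extension is ramified only above `br`), then `g(F) = g(E)`.
Proof: `count_places` for `br` and `riemann_hurwitz_inequality` for `E`. File `H88Genus`. -/
theorem genus_eq_of_ramification {x : R.B} (hx : Transcendental k (R.ρ x))
    (hsep : Algebra.IsSeparable k⟮R.ρ x⟯ E)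
    (hdeg : Module.finrank K⟮(x : F)⟯ F = Module.finrank k⟮R.ρ x⟯ E) (br : Finset R.A)
    (hbr : Set.InjOn R.π br) (S : Finset (Place K F))
    (hS : ∀ P : Place K F, ∀ b ∈ br, P.adicValuation ((x : F) - algebraMap K F (b : K)) < 1 → P ∈ S)
    (hRH : 2 * (genusFF K F : ℤ) - 2 ≤
      (br.card - 2) * Module.finrank K⟮(x : F)⟯ F - S.card) :
    genusFF K F = genusFF k E :=
  H88.genus_eq_of_ramification R hx hsep hdeg br hbr S hS hRH

/-- **The same for a function with the branch points `0, ∞, e`**, `e` a unit: `S` contains the zeros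
and poles of `t` and the zeros of `t - e`, and `2 g(F) - 2 ≤ [F : K(t)] - #S`. (Move `∞` to an integral
point by a linear fractional transformation.) File `H18Haupt`. -/
theorem genus_eq_of_three_points (t : R.B) (ht : Transcendental k (R.ρ t))
    (hsep : Algebra.IsSeparable k⟮R.ρ t⟯ E)
    (hdeg : Module.finrank K⟮(t : F)⟯ F = Module.finrank k⟮R.ρ t⟯ E)
    (e : R.A) (he : R.π e ≠ 0) (S : Finset (Place K F))
    (hS : ∀ v : Place K F, v.ord (t : F) ≠ 0 ∨ 0 < v.ord ((t : F) - algebraMap K F (e : K)) → v ∈ S)
    (hRH : 2 * (genusFF K F : ℤ) - 2 ≤ Module.finrank K⟮(t : F)⟯ F - S.card) :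
    genusFF K F = genusFF k E :=
  H18.genus_eq_of_hauptmodul R t ht hsep hdeg e he S hS hRH

end Genus

/-! ## 3. Levels divisible by 2 or 3 -/

section Hauptmodul

/-- **Hauptmoduln of level 2 and 3** over any ring, as series in `q`: `t₂ = Δ(q)/Δ(q²)` and
`t₃ = (η(q)/η(q³))¹²` satisfy `(t₂ + 256)³ = j t₂²` and `(t₃ + 27)(t₃ + 243)³ = j t₃³`.
File `H23HauptL`. -/
theorem hauptmodul_relations (K : Type*) [CommRing K] :
    (H23.Haupt.t2 K + 256) ^ 3 = jqModC K * H23.Haupt.t2 K ^ 2 ∧
      (H23.Haupt.t3 K + 27) * (H23.Haupt.t3 K + 243) ^ 3 = jqModC K * H23.Haupt.t3 K ^ 3 :=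
  ⟨H23.Haupt.t2_E1 K, H23.Haupt.t3_E3 K⟩

/-- **They are modular functions**: `t₂ ∈ F_N` if `2 ∣ N` and `2 ≠ 0` in `K`, `t₃ ∈ F_N` if `3 ∣ N` and
`3 ≠ 0` in `K`. File `H18Inst`. -/
theorem hauptmodul_mem (K : Type*) [Field K] [IsAlgClosed K] {N : ℕ} (hN : N ≠ 0) :
    (2 ∣ N → (2 : K) ≠ 0 → H23.Haupt.t2 K ∈ modularFunctionFieldFullC K N) ∧
      (3 ∣ N → (3 : K) ≠ 0 → H23.Haupt.t3 K ∈ modularFunctionFieldFullC K N) :=
  ⟨fun h h2 => H18.t2_mem_full K hN h h2, fun h h3 => H18.t3_mem_full K hN h h3⟩

/-- **Degrees**: a function field with elements `t`, `j` as in `hauptmodul_relations` has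
`[F : K(j)] = 3 [F : K(t)]` for level 2 and `[F : K(j)] = 4 [F : K(t)]` for level 3.
File `H18Haupt`. -/
theorem hauptmodul_degrees {K F : Type*} [Field K] [Field F] [Algebra K F] [IsAlgClosed K]
    [IsFF K F] {t j : F} (ht : Transcendental K t) (hj : Transcendental K j) :
    ((2 : K) ≠ 0 → (t + 256) ^ 3 = j * t ^ 2 →
      Module.finrank K⟮j⟯ F = 3 * Module.finrank K⟮t⟯ F) ∧
    ((3 : K) ≠ 0 → (t + 27) * (t + 243) ^ 3 = j * t ^ 3 →
      Module.finrank K⟮j⟯ F = 4 * Module.finrank K⟮t⟯ F) :=
  ⟨fun h => H18.finrank_two ht hj h, fun h => H18.finrank_three ht hj h⟩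

/-- **Separability.** A field `E` of `q`-expansions over `K` which contains a series `y = q⁻¹ + ...`
(`HasLead y (-1) 1`) is separable over `K(y)`: `y` is not a `p`-th power. File `H18Inst`. -/
theorem separable_of_simple_pole {K : Type*} [Field K] [PerfectField K]
    (E : IntermediateField K (LaurentSeries K)) [IsFF K E] (y : E)
    (hy : H66.HasLead (y : LaurentSeries K) (-1) 1) : Algebra.IsSeparable K⟮y⟯ E :=
  H18.isSeparable_of_hasLead E y hy

/-- **Ramification of `j`** on `X₀(N)` over `ℚ̄`: the ramification indices are at most `3` above `0`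
(where `v.ord j ≤ 3`; this also holds at the poles), at most `2` above `1728`, and `1` above all
other finite points. File `H18Inst` (from `H94Export`, with the places which give the genus formula
S24, guide ModularCurves). -/
theorem ramification_of_j (N : ℕ) [NeZero N]
    (hj : jqModC (AlgebraicClosure ℚ) ∈ modularFunctionFieldBar N)
    (v : Place (AlgebraicClosure ℚ) (modularFunctionFieldBar N)) :
    v.ord (⟨jqModC (AlgebraicClosure ℚ), hj⟩ : modularFunctionFieldBar N) ≤ 3 ∧
      v.ord ((⟨jqModC (AlgebraicClosure ℚ), hj⟩ : modularFunctionFieldBar N) -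
        algebraMap (AlgebraicClosure ℚ) (modularFunctionFieldBar N) 1728) ≤ 2 ∧
      ∀ a : AlgebraicClosure ℚ, a ≠ 0 → a ≠ 1728 →
        0 < v.ord ((⟨jqModC (AlgebraicClosure ℚ), hj⟩ : modularFunctionFieldBar N) -
          algebraMap (AlgebraicClosure ℚ) (modularFunctionFieldBar N) a) →
        v.ord ((⟨jqModC (AlgebraicClosure ℚ), hj⟩ : modularFunctionFieldBar N) -
          algebraMap (AlgebraicClosure ℚ) (modularFunctionFieldBar N) a) = 1 :=
  H18.jRam_bar N hj v

/-- **Riemann-Hurwitz for the Hauptmodul of level 2** (characteristic zero): if `j` is ramified as in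
`ramification_of_j`, `S₀`, `S₁`, `S₂` are the places with `j = 0`, `1728`, `∞`, and the formula of
Riemann and Hurwitz holds for `j`, then `t` is ramified only above `0, ∞, -64`: there is a set `S` as
required in `genus_eq_of_three_points`. For level 3 (`rh_three`): the same with `-27`.
File `H18Haupt`. -/
theorem ramification_of_hauptmodul {K F : Type*} [Field K] [Field F] [Algebra K F] [IsAlgClosed K]
    [IsFF K F] [CharZero K] {t j : F} (ht : Transcendental K t) (hj : Transcendental K j)
    (hrel : (t + 256) ^ 3 = j * t ^ 2) (hj3 : ∀ v : Place K F, v.ord j ≤ 3)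
    (hj2 : ∀ v : Place K F, v.ord (j - algebraMap K F 1728) ≤ 2)
    (S₀ S₁ S₂ : Finset (Place K F)) (hS₀ : ∀ v : Place K F, v ∈ S₀ ↔ 0 < v.ord j)
    (hS₁ : ∀ v : Place K F, v ∈ S₁ ↔ 0 < v.ord (j - algebraMap K F 1728))
    (hS₂ : ∀ v : Place K F, v ∈ S₂ ↔ v.ord j < 0)
    (hg : 2 * (genusFF K F : ℤ) - 2 = Module.finrank K⟮j⟯ F - S₀.card - S₁.card - S₂.card) :
    ∃ S : Finset (Place K F),
      (∀ v : Place K F, v.ord t ≠ 0 ∨ 0 < v.ord (t - algebraMap K F (-64)) → v ∈ S) ∧
      2 * (genusFF K F : ℤ) - 2 ≤ Module.finrank K⟮t⟯ F - S.card :=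
  H18.rh_two ht hj hrel hj3 hj2 S₀ S₁ S₂ hS₀ hS₁ hS₂ hg

end Hauptmodul

/-! ## 4. Descent of the equality of genera

`H88.aff K x` is the ring of the functions which are regular wherever `x` is regular. -/

section Descent

/-- **Spaces `L(m (x)_∞)` for large `m`**: dimension `m [F : K(x)] + 1 - g`, and
`L((m + 1) (x)_∞) = L(m (x)_∞) + x L(m (x)_∞)`. File `H88Descent`. -/
theorem affine_filtration {K F : Type*} [Field K] [Field F] [Algebra K F] [IsAlgClosed K]
    [IsFF K F] {x : F} (hx : Transcendental K x) {m : ℕ} (hm : 2 * genusFF K F + 1 ≤ m) :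
    (Module.finrank K (riemannRochSpace (m • (poleDiv x : Divisor K F))) : ℤ) =
        m * Module.finrank K⟮x⟯ F + 1 - genusFF K F ∧
      ∀ f ∈ riemannRochSpace ((m + 1) • (poleDiv x : Divisor K F)),
        ∃ a ∈ riemannRochSpace (m • (poleDiv x : Divisor K F)),
          ∃ b ∈ riemannRochSpace (m • (poleDiv x : Divisor K F)), f = a + x * b :=
  ⟨H88.ell_pole hx (Nat.le_of_succ_le hm), fun _ hf => H88.L_pole_succ hx hm hf⟩

/-- **Equality of genera means lifting of functions.** If `g(F) = g(E)`, then every function of `E`
regular where `x̄` is regular is the reduction of an integral function regular where `x` is regular.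
Conversely, if this holds for `x` and for `y = 1/x`, then `g(F) = g(E)` (two charts).
File `H88Descent`. -/
theorem genus_eq_iff_lift {K F k E : Type*} [Field K] [Field F] [Algebra K F] [Field k] [Field E]
    [Algebra k E] [IsAlgClosed K] [IsAlgClosed k] [IsFF K F] [IsFF k E] [CharZero K]
    (R : ReductionData K F k E) {x y : R.B} (hx : Transcendental k (R.ρ x)) (hxy : x * y = 1)
    (hdeg : Module.finrank K⟮(x : F)⟯ F = Module.finrank k⟮R.ρ x⟯ E) :
    (genusFF K F = genusFF k E → ∀ e ∈ H88.aff k (R.ρ x),
      ∃ b : R.B, R.ρ b = e ∧ (b : F) ∈ H88.aff K (x : F)) ∧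
    ((∀ e ∈ H88.aff k (R.ρ x), ∃ b : R.B, R.ρ b = e ∧ (b : F) ∈ H88.aff K (x : F)) →
      (∀ e ∈ H88.aff k (R.ρ y), ∃ b : R.B, R.ρ b = e ∧ (b : F) ∈ H88.aff K (y : F)) →
        genusFF K F = genusFF k E) :=
  ⟨fun hg _ he => H88.exists_lift R hx hdeg hg he,
    fun h1 h2 => H88.genus_eq_of_charts hx hxy hdeg h1 h2⟩

/-- **Norms and traces from above generate.** `F'/F` finite separable, `S` a ring of functions of `F`
regular where `x` is regular, which contains the constants and the norms and traces of all functions
of `F'` regular where `x` is regular. Then `S` contains all functions of `F` regular where `x` is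
regular. Proof: functions with simple zeros at chosen places have norms with simple zeros; then weak
approximation modulo high powers, with traces. File `H88NT`. -/
theorem norms_and_traces_generate {K F F' : Type*} [Field K] [Field F] [Field F'] [Algebra K F]
    [Algebra K F'] [Algebra F F'] [IsScalarTower K F F'] [Module.Finite F F'] [IsFF K F']
    [IsFF K F] [IsAlgClosed K] [Algebra.IsSeparable F F'] {x : F} (hx : Transcendental K x)
    (S : Subring F) (hS : ∀ f ∈ S, f ∈ H88.aff K x) (hconst : ∀ c : K, algebraMap K F c ∈ S)
    (hN : ∀ h : F', h ∈ H88.aff K (algebraMap F F' x) → Algebra.norm F h ∈ S)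
    (hT : ∀ h : F', h ∈ H88.aff K (algebraMap F F' x) → Algebra.trace F F' h ∈ S)
    (f : F) (hf : f ∈ H88.aff K x) : f ∈ S :=
  H88.nt hx S hS hconst hN hT f hf

/-- **Norm and trace commute with reduction**: `R`, `R'` compatible reductions of `F ⊂ F'` to `E ⊂ E'`
with `[F' : F] = [E' : E]`, `h` an integral function of `F'`. Its norm and trace are integral, with
the norm and trace of its reduction as reductions. (There is a basis of `F'` over `F` of integral
functions whose reductions are a basis of `E'` over `E`.) File `H88Compat`. -/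
theorem norm_trace_reduction {K F F' k E E' : Type*} [Field K] [Field F] [Field F'] [Algebra K F]
    [Algebra K F'] [Algebra F F'] [Field k] [Field E] [Field E'] [Algebra k E] [Algebra k E']
    [Algebra E E'] [IsScalarTower K F F'] [Module.Finite F F'] [Module.Finite E E']
    {R : ReductionData K F k E} {R' : ReductionData K F' k E'}
    (hB : ∀ f ∈ R.B, algebraMap F F' f ∈ R'.B)
    (hρ : ∀ (f : R.B) (h : algebraMap F F' f ∈ R'.B),
      R'.ρ ⟨algebraMap F F' f, h⟩ = algebraMap E E' (R.ρ f))
    (hd : Module.finrank F F' = Module.finrank E E') (h : R'.B) :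
    (∃ b : R.B, (b : F) = Algebra.norm F (h : F') ∧ R.ρ b = Algebra.norm E (R'.ρ h)) ∧
      ∃ b : R.B, (b : F) = Algebra.trace F F' (h : F') ∧ R.ρ b = Algebra.trace E E' (R'.ρ h) :=
  H88.RedCompat.norm_trace ⟨hB, hρ⟩ hd h

/-- **Descent of the equality of genera.** If `g(F') = g(E')` in the situation of
`norm_trace_reduction` (with `E'/E` separable), then `g(F) = g(E)`. Proof: the functions of `E` which
lift in the sense of `genus_eq_iff_lift` form a ring; it contains norms and traces, as these can be
lifted upstairs; so it contains everything, for `x` and for `1/x`. File `H88Descent`. -/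
theorem genus_descent {K F F' k E E' : Type*} [Field K] [Field F] [Field F'] [Algebra K F]
    [Algebra K F'] [Algebra F F'] [Field k] [Field E] [Field E'] [Algebra k E] [Algebra k E']
    [Algebra E E'] [IsScalarTower K F F'] [IsScalarTower k E E'] [CharZero K] [IsAlgClosed K]
    [IsAlgClosed k] [IsFF K F] [IsFF k E] [IsFF K F'] [IsFF k E'] [Module.Finite F F']
    [Module.Finite E E'] [Algebra.IsSeparable E E']
    {R : ReductionData K F k E} {R' : ReductionData K F' k E'}
    (hB : ∀ f ∈ R.B, algebraMap F F' f ∈ R'.B)
    (hρ : ∀ (f : R.B) (h : algebraMap F F' f ∈ R'.B),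
      R'.ρ ⟨algebraMap F F' f, h⟩ = algebraMap E E' (R.ρ f))
    {x : R.B} (hx : Transcendental k (R.ρ x))
    (hdeg : Module.finrank K⟮(x : F)⟯ F = Module.finrank k⟮R.ρ x⟯ E)
    (hd : Module.finrank F F' = Module.finrank E E') (hg' : genusFF K F' = genusFF k E') :
    genusFF K F = genusFF k E :=
  H88.genus_descent ⟨hB, hρ⟩ hx hdeg hd hg'

end Descent

/-! ## 5. Modular curves -/

section Modular

/-- **Upstairs**: the genus of level `N` is the same over `L` (characteristic zero) and over `k`, if
`N` is even and `2 ≠ 0` in `k`, provided that `j` is ramified over `L` as in `ramification_of_j`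
(`JRam`). `A` is a valuation ring of `L` with residue map `π` onto `k`. `H42.DegLE L k N`: the degree
of `F_N` over the `j`-line is not `0` over `L` and at most the degree over `k` (both are `ψ(N)`, guide
FunctionField, `degree_over_j`). File `H18Inst` (`genusFF_eq_two`; `genusFF_eq_three` for `3 ∣ N`). -/
theorem genus_eq_even {L : Type*} [Field L] [Algebra ℚ L] (A : ValuationSubring L) {k : Type*}
    [Field k] (π : A →+* k) (N : ℕ) (hπ : Function.Surjective π) [IsLocalHom π]
    (hdeg : H42.DegLE L k N) [CharZero L] [IsAlgClosed L] [IsAlgClosed k] (hN : N ≠ 0)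
    (hdvd : 2 ∣ N) (h2 : (2 : k) ≠ 0)
    (hram : H18.JRam L (laurentBaseChange L (modularFunctionFieldFull N))) :
    genusFF L (laurentBaseChange L (modularFunctionFieldFull N)) =
      genusFF k (modularFunctionFieldFullC k N) :=
  H18.genusFF_eq_two A π N hπ hdeg hN hdvd h2 hram

/-- **Descent of levels**: if the genera of level `M` agree over `L` and `k`, `M ≠ 0` in `k`, then the
genera of all levels `N ∣ M` agree. File `H88Mod`. -/
theorem genus_descent_levels {L : Type*} [Field L] [Algebra ℚ L] (A : ValuationSubring L)
    {k : Type*} [Field k] (π : A →+* k) (hπ : Function.Surjective π) [IsLocalHom π]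
    [IsAlgClosed L] [IsAlgClosed k] {N M : ℕ} (hNM : N ∣ M) (hM : (M : k) ≠ 0)
    (hg : genusFF L (laurentBaseChange L (modularFunctionFieldFull M)) =
      genusFF k (modularFunctionFieldFullC k M)) :
    genusFF L (laurentBaseChange L (modularFunctionFieldFull N)) =
      genusFF k (modularFunctionFieldFullC k N) :=
  H88.genusFF_descent A π hπ hNM hM hg

/-- **Theorem of Igusa, genus form**: `A` a place of `ℚ̄` above a prime `ℓ ∤ N`; the field of modular
functions of level `N` has the same genus over `ℚ̄` and over the residue field of `A` (level `2N` for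
`ℓ ≠ 2`, level `3N` for `ℓ = 2`, and `genus_descent_levels`). File `H88GenusEq`. -/
theorem igusa (N : ℕ) [NeZero N] {ℓ : ℕ} [Fact ℓ.Prime] (hℓN : ¬ ℓ ∣ N)
    (A : ValuationSubring (AlgebraicClosure ℚ)) (hA : A.LiesOverPrime ℓ) :
    genusFF (AlgebraicClosure ℚ) (modularFunctionFieldBar N) =
      genusFF (IsLocalRing.ResidueField A)
        (modularFunctionFieldFullC (IsLocalRing.ResidueField A) N) :=
  H88.genusFFEq N hℓN A hA

end Modular

end Fermat.Agent.Guide.Igusa
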