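import Fermat.Agent.H61Formal

/-!
# Derivations on algebraic extensions of `K(X)`

* `der_mem` : a derivation of a field `E` of characteristic zero killing `K` and with
  `D X ∈ M` preserves every intermediate field `M` which is algebraic over `K(X)`;
* `der_eq_of_eq` : two derivations agreeing on `K` and at `X` agree.
-/

set_option autoImplicit false

open Polynomial IntermediateField

namespace Fermat.Agent.H68

section General

theorem der_pow {E : Type*} [CommRing E] (D : E →+ E) (hD : ∀ x y, D (x * y) = D x * y + x * D y)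
    (f : E) (n : ℕ) : D (f ^ n) = n * f ^ (n - 1) * D f := by
  induction n with
  | zero =>
    have h1 : D 1 = 0 := by
      have := hD 1 1
      rw [mul_one, mul_one, one_mul] at this
      exact (add_eq_left.mp this.symm)
    simp [h1]
  | succ n ih =>
    rw [pow_succ, hD, ih]
    rcases n with _ | n
    · simp
    · rw [Nat.add_sub_cancel, Nat.add_sub_cancel]
      push_cast
      ring

theorem der_aeval {R E : Type*} [CommRing R] [CommRing E] [Algebra R E] (D : E →+ E)
    (hD : ∀ x y, D (x * y) = D x * y + x * D y) (P : R[X]) (f : E) :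
    D (aeval f P) = ∑ i ∈ Finset.range (P.natDegree + 1), D (algebraMap R E (P.coeff i)) * f ^ i +
      aeval f (derivative P) * D f := by
  rw [aeval_eq_sum_range, map_sum]
  have h2 : aeval f (derivative P) =
      ∑ i ∈ Finset.range (P.natDegree + 1), algebraMap R E (P.coeff i) * (i * f ^ (i - 1)) := by
    conv_lhs => rw [P.as_sum_range_C_mul_X_pow]
    rw [derivative_sum, map_sum]
    refine Finset.sum_congr rfl fun i _ => ?_
    rw [derivative_C_mul_X_pow, map_mul, map_pow, aeval_X, aeval_C, map_mul, map_natCast, mul_assoc]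
  rw [h2, Finset.sum_mul, ← Finset.sum_add_distrib]
  refine Finset.sum_congr rfl fun i _ => ?_
  rw [Algebra.smul_def, hD, der_pow D hD]
  ring

variable {K E : Type*} [Field K] [Field E] [CharZero E] [Algebra K E]

/-- A derivation preserves intermediate fields algebraic over `K(X)`. -/
theorem der_mem (D : E →+ E) (hD : ∀ x y, D (x * y) = D x * y + x * D y)
    (hK : ∀ c : K, D (algebraMap K E c) = 0) (M : IntermediateField K E) {X : E} (hX : X ∈ M)
    (hDX : D X ∈ M) (halg : ∀ f ∈ M, IsAlgebraic K⟮X⟯ f) {f : E} (hf : f ∈ M) : D f ∈ M := by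
  have h1 : D 1 = 0 := by
    have := hD 1 1
    rw [mul_one, mul_one, one_mul] at this
    exact (add_eq_left.mp this.symm)
  have hinv : ∀ x, D x⁻¹ = -(D x * x⁻¹ * x⁻¹) := by
    intro x
    by_cases hx : x = 0
    · rw [hx]; simp
    have h2 := hD x x⁻¹
    rw [mul_inv_cancel₀ hx, h1] at h2
    apply mul_left_cancel₀ hx
    have h3 : x * D x⁻¹ = -(D x * x⁻¹) := by
      rw [eq_neg_iff_add_eq_zero, h2, add_comm]
    rw [h3]
    field_simp
  have hle : K⟮X⟯ ≤ M := by
    rw [adjoin_le_iff, Set.singleton_subset_iff]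
    exact hX
  have hKX : ∀ x ∈ K⟮X⟯, D x ∈ M := by
    intro x hx
    induction hx using IntermediateField.adjoin_induction with
    | mem x hx =>
      rw [Set.mem_singleton_iff.mp hx]
      exact hDX
    | algebraMap c =>
      rw [hK]
      exact M.zero_mem
    | add x y _ _ hx hy =>
      rw [map_add]
      exact M.add_mem hx hy
    | inv x hx' hx =>
      rw [hinv]
      exact M.neg_mem (M.mul_mem (M.mul_mem hx (M.inv_mem (hle hx'))) (M.inv_mem (hle hx')))
    | mul x y hx' hy' hx hy =>
      rw [hD]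
      exact M.add_mem (M.mul_mem hx (hle hy')) (M.mul_mem (hle hx') hy)
  have hint : IsIntegral K⟮X⟯ f := (halg f hf).isIntegral
  set P := minpoly K⟮X⟯ f with hP
  have h2 := der_aeval D hD P f
  rw [minpoly.aeval, map_zero] at h2
  have hmem : ∀ (Q : K⟮X⟯[X]), aeval f Q ∈ M := by
    intro Q
    rw [aeval_eq_sum_range]
    refine M.sum_mem fun i _ => ?_
    rw [Algebra.smul_def]
    exact M.mul_mem (hle (Q.coeff i).2) (pow_mem hf i)
  have hne : aeval f (derivative P) ≠ 0 := by
    have : CharZero K⟮X⟯ := (algebraMap K⟮X⟯ E).charZero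
    exact (minpoly.irreducible hint).separable.aeval_derivative_ne_zero (minpoly.aeval _ _)
  have h3 : D f = -(∑ i ∈ Finset.range (P.natDegree + 1),
      D (algebraMap K⟮X⟯ E (P.coeff i)) * f ^ i) / aeval f (derivative P) := by
    rw [eq_div_iff hne, eq_neg_iff_add_eq_zero, add_comm, mul_comm (D f)]
    exact h2.symm
  rw [h3]
  refine M.div_mem (M.neg_mem (M.sum_mem fun i _ => ?_)) (hmem _)
  exact M.mul_mem (hKX _ (P.coeff i).2) (pow_mem hf i)

/-- A derivation killing `K` and `X` is zero on everything algebraic over `K(X)`. -/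
theorem der_eq_zero (D : E →+ E) (hD : ∀ x y, D (x * y) = D x * y + x * D y)
    (hK : ∀ c : K, D (algebraMap K E c) = 0) {X : E} (hDX : D X = 0) {f : E}
    (hf : IsAlgebraic K⟮X⟯ f) : D f = 0 := by
  have hint : IsIntegral K⟮X⟯ f := hf.isIntegral
  have h1 : D 1 = 0 := by
    have := hD 1 1
    rw [mul_one, mul_one, one_mul] at this
    exact (add_eq_left.mp this.symm)
  have hKX : ∀ x ∈ K⟮X⟯, D x = 0 := by
    intro x hx
    induction hx using IntermediateField.adjoin_induction with
    | mem x hx =>
      rw [Set.mem_singleton_iff.mp hx]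
      exact hDX
    | algebraMap c => exact hK c
    | add x y _ _ hx hy => rw [map_add, hx, hy, add_zero]
    | inv x _ hx =>
      by_cases hx0 : x = 0
      · rw [hx0]; simp
      have h2 := hD x x⁻¹
      rw [mul_inv_cancel₀ hx0, h1, hx, zero_mul, zero_add] at h2
      exact (mul_eq_zero.mp h2.symm).resolve_left hx0
    | mul x y _ _ hx hy => rw [hD, hx, hy, zero_mul, mul_zero, add_zero]
  set P := minpoly K⟮X⟯ f with hP
  have h2 := der_aeval D hD P f
  rw [minpoly.aeval, map_zero, Finset.sum_eq_zero (fun i _ => by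
    rw [show D (algebraMap K⟮X⟯ E (P.coeff i)) = 0 from hKX _ (P.coeff i).2, zero_mul]),
    zero_add] at h2
  have hne : aeval f (derivative P) ≠ 0 := by
    have : CharZero K⟮X⟯ := (algebraMap K⟮X⟯ E).charZero
    exact (minpoly.irreducible hint).separable.aeval_derivative_ne_zero (minpoly.aeval _ _)
  exact (mul_eq_zero.mp h2.symm).resolve_left hne

/-- Two derivations agreeing on `K` and at `X` agree. -/
theorem der_eq_of_eq (D₁ D₂ : E →+ E) (h₁ : ∀ x y, D₁ (x * y) = D₁ x * y + x * D₁ y)
    (h₂ : ∀ x y, D₂ (x * y) = D₂ x * y + x * D₂ y)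
    (hK₁ : ∀ c : K, D₁ (algebraMap K E c) = 0) (hK₂ : ∀ c : K, D₂ (algebraMap K E c) = 0)
    {X : E} (hX : D₁ X = D₂ X) {f : E} (hf : IsAlgebraic K⟮X⟯ f) : D₁ f = D₂ f := by
  have := der_eq_zero (K := K) (D₁ - D₂) (fun x y => by
    rw [AddMonoidHom.sub_apply, AddMonoidHom.sub_apply, AddMonoidHom.sub_apply, h₁, h₂]
    ring) (fun c => by rw [AddMonoidHom.sub_apply, hK₁, hK₂, sub_zero]) (X := X)
    (by rw [AddMonoidHom.sub_apply, hX, sub_self]) hf
  rw [AddMonoidHom.sub_apply] at this
  exact sub_eq_zero.mp this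

end General

end Fermat.Agent.H68
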