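import Fermat.Agent.H66Tower

/-!
# Generators of the fields `K(j(d τ) : d ∣ N)`
-/

set_option autoImplicit false
set_option linter.unusedSectionVars false

noncomputable section

open ModularCurve Polynomial IntermediateField

namespace Fermat.Agent.H66

variable {K : Type*} [Field K]

/-- A field has all primitive roots of unity of prime order different from the characteristic. -/
def HasRoots (K : Type*) [Field K] : Prop :=
  ∀ p : ℕ, p.Prime → (p : K) ≠ 0 → ∃ u : Kˣ, IsPrimitiveRoot u p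

theorem hasRoots_of_isAlgClosed (K : Type*) [Field K] [IsAlgClosed K] : HasRoots K := by
  intro p hp hp0
  have : NeZero (p : K) := ⟨hp0⟩
  have : NeZero p := ⟨hp.ne_zero⟩
  obtain ⟨z, hz⟩ := HasEnoughRootsOfUnity.exists_primitiveRoot K p
  exact ⟨(hz.isUnit hp.ne_zero).unit, by
    rw [← IsPrimitiveRoot.coe_units_iff]; exact hz⟩

/-- existence of the modular polynomial over `K` -/
theorem HasRoots.exists_phi (hK : HasRoots K) (p : ℕ) [Fact p.Prime] (hp0 : (p : K) ≠ 0) :
    ∃ (u : Kˣ) (Φ : K[X][X]), IsPrimitiveRoot u p ∧ Φ.Monic ∧ Φ.natDegree = p + 1 ∧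
      phiAt K Φ (J K p) = ∏ a, (X - C (jf K p u a)) := by
  obtain ⟨u, hu⟩ := hK p Fact.out hp0
  obtain ⟨Φ, h1, h2, h3⟩ := exists_poly _ (modEq_field K p u hu).phi
  exact ⟨u, Φ, hu, h1, h2, h3⟩

theorem J_mem {N d : ℕ} (hN : N ≠ 0) (h : d ∣ N) : J K d ∈ modularFunctionFieldFullC K N := by
  have : NeZero d := ⟨fun h0 => hN (by rw [h0] at h; exact Nat.eq_zero_of_zero_dvd h)⟩
  rw [J_eq]
  exact jqModCd_mem_full K N h

theorem full_le_iff {N : ℕ} (hN : N ≠ 0) (F : IntermediateField K (LaurentSeries K)) :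
    modularFunctionFieldFullC K N ≤ F ↔ ∀ d, d ∣ N → J K d ∈ F := by
  constructor
  · exact fun h d hd => h (J_mem hN hd)
  · intro h
    rw [modularFunctionFieldFullC, adjoin_le_iff]
    rintro x ⟨d, hne, hdvd, rfl⟩
    have := hne
    have := h d hdvd
    rwa [J_eq] at this

theorem J_mem_step (hK : HasRoots K) (F : IntermediateField K (LaurentSeries K))
    {p r e : ℕ} [Fact p.Prime] [Fact r.Prime] (hpr : p ≠ r) (hp0 : (p : K) ≠ 0)
    (hr0 : (r : K) ≠ 0) [NeZero e] (h1 : J K (r * e) ∈ F) (h2 : J K (p * e) ∈ F) :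
    J K (p * (r * e)) ∈ F := by
  have hp : p.Prime := Fact.out
  have hr : r.Prime := Fact.out
  obtain ⟨u, Φ, _, hm, _, hΦ⟩ := hK.exists_phi p hp0
  obtain ⟨v, Ψ, _, hm', _, hΨ⟩ := hK.exists_phi r hr0
  have : NeZero (r * e) := ⟨mul_ne_zero hr.ne_zero (NeZero.ne e)⟩
  have : NeZero (p * e) := ⟨mul_ne_zero hp.ne_zero (NeZero.ne e)⟩
  have hcomm : p * (r * e) = r * (p * e) := by ring
  have root1 := eval_root1 hΦ (r * e)
  have root2 := eval_root1 hΨ (p * e)
  rw [← hcomm] at root2
  have hint := isIntegral_of_root hm F h1 root1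
  have hdvd1 := minpoly_dvd_phiAt hm F h1 root1
  have hdvd2 := minpoly_dvd_phiAt hm' F h2 root2
  have hV : (qExpand K p).comp (qExpand K r) = (qExpand K r).comp (qExpand K p) := by
    have : NeZero (p * r) := ⟨mul_ne_zero hp.ne_zero hr.ne_zero⟩
    have : NeZero (r * p) := ⟨mul_ne_zero hr.ne_zero hp.ne_zero⟩
    refine RingHom.ext fun x => ?_
    rw [RingHom.comp_apply, RingHom.comp_apply, qExpand_qExpand, qExpand_qExpand]
    exact qExpand_congr (mul_comm p r) x
  refine mem_of_common_root F hint ((qExpand K r).comp (qExpand K p))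
    (fun a => qExpand K r (qExpand K (r * e) (jf K p u a)))
    (fun a => qExpand K p (qExpand K (p * e) (jf K r v a))) ?_ ?_ ?_
  · rw [← Polynomial.map_map]
    have h3 := Polynomial.map_dvd (qExpand K r) (Polynomial.map_dvd (qExpand K p) hdvd1)
    rw [phiAt_map_p hΦ (r * e), Polynomial.map_prod] at h3
    simpa only [Polynomial.map_sub, Polynomial.map_X, Polynomial.map_C] using h3
  · rw [← hV, ← Polynomial.map_map]
    have h3 := Polynomial.map_dvd (qExpand K p) (Polynomial.map_dvd (qExpand K r) hdvd2)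
    rw [phiAt_map_p hΨ (p * e), Polynomial.map_prod] at h3
    simpa only [Polynomial.map_sub, Polynomial.map_X, Polynomial.map_C] using h3
  · intro i j
    have he : (0 : ℤ) < e := by exact_mod_cast Nat.pos_of_ne_zero (NeZero.ne e)
    have hp2 : (2 : ℤ) ≤ p := by exact_mod_cast hp.two_le
    have hr2 : (2 : ℤ) ≤ r := by exact_mod_cast hr.two_le
    have h3 := ((hasLead_jf_some p u i).qExpand (r * e)).qExpand r
    have h4 := ((hasLead_jf r v j).qExpand (p * e)).qExpand p
    refine h3.ne h4 (Units.ne_zero _) (lcJ_ne_zero r v j) ?_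
    cases j with
    | none =>
      show (r : ℤ) * (((r * e : ℕ) : ℤ) * -1) ≠ p * (((p * e : ℕ) : ℤ) * (-(r * r)))
      push_cast
      intro h
      have h5 : (e : ℤ) * (r * r) * (p * p - 1) = 0 := by linear_combination h
      have h6 : (0 : ℤ) < (e : ℤ) * (r * r) * (p * p - 1) := by
        have : (0 : ℤ) < r * r := by nlinarith
        have h7 : (0 : ℤ) < p * p - 1 := by nlinarith
        positivity
      omega
    | some j =>
      show (r : ℤ) * (((r * e : ℕ) : ℤ) * -1) ≠ p * (((p * e : ℕ) : ℤ) * (-1))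
      push_cast
      intro h
      have h5 : (e : ℤ) * ((p - r) * (p + r)) = 0 := by linear_combination h
      rcases mul_eq_zero.1 h5 with h6 | h6
      · omega
      · rcases mul_eq_zero.1 h6 with h7 | h7
        · exact hpr (by exact_mod_cast sub_eq_zero.1 h7)
        · omega

/-- `K(j(d τ) : d ∣ p N)` is generated over `K(j(d τ) : d ∣ N)` by one element. -/
theorem J_mem_of (hK : HasRoots K) (F : IntermediateField K (LaurentSeries K))
    {p a m : ℕ} [Fact p.Prime] (hm : ¬ p ∣ m) (hm0 : (m : K) ≠ 0) (hp0 : (p : K) ≠ 0)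
    (hF : modularFunctionFieldFullC K (p ^ a * m) ≤ F) (hJ : J K (p ^ (a + 1)) ∈ F) :
    modularFunctionFieldFullC K (p ^ (a + 1) * m) ≤ F := by
  have hp : p.Prime := Fact.out
  have hm1 : m ≠ 0 := by rintro rfl; exact hm (dvd_zero p)
  have hN : p ^ a * m ≠ 0 := mul_ne_zero (pow_ne_zero _ hp.ne_zero) hm1
  have hN' : p ^ (a + 1) * m ≠ 0 := mul_ne_zero (pow_ne_zero _ hp.ne_zero) hm1
  rw [full_le_iff hN] at hF
  rw [full_le_iff hN']
  have key : ∀ c, c ∣ m → J K (p ^ (a + 1) * c) ∈ F := by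
    intro c
    induction c using Nat.strong_induction_on with
    | _ c ih =>
      intro hc
      have hc0 : c ≠ 0 := by rintro rfl; exact hm1 (Nat.eq_zero_of_zero_dvd hc)
      by_cases hc1 : c = 1
      · subst hc1; rwa [mul_one]
      · obtain ⟨r, hr, hrc⟩ := Nat.exists_prime_and_dvd hc1
        obtain ⟨c', rfl⟩ := hrc
        have hc' : c' ≠ 0 := by rintro rfl; exact hc0 (mul_zero r)
        have : Fact r.Prime := ⟨hr⟩
        have : NeZero (p ^ a * c') := ⟨mul_ne_zero (pow_ne_zero _ hp.ne_zero) hc'⟩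
        have hpr : p ≠ r := by
          rintro rfl
          exact hm ((dvd_mul_right _ _).trans hc)
        have hr0 : (r : K) ≠ 0 := by
          intro h0
          obtain ⟨t, ht⟩ := (dvd_mul_right r c').trans hc
          rw [ht, Nat.cast_mul, h0, zero_mul] at hm0
          exact hm0 rfl
        have h1 : J K (r * (p ^ a * c')) ∈ F := by
          refine hF _ ?_
          rw [show r * (p ^ a * c') = p ^ a * (r * c') by ring]
          exact mul_dvd_mul_left _ hc
        have h2 : J K (p * (p ^ a * c')) ∈ F := by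
          have := ih c' (lt_mul_of_one_lt_left (Nat.pos_of_ne_zero hc') hr.one_lt)
            ((dvd_mul_left _ _).trans hc)
          rwa [show p * (p ^ a * c') = p ^ (a + 1) * c' by ring]
        have h3 := J_mem_step hK F hpr hp0 hr0 h1 h2
        rwa [show p ^ (a + 1) * (r * c') = p * (r * (p ^ a * c')) by ring]
  intro d hd
  obtain ⟨d1, d2, hd1, hd2, rfl⟩ := (Nat.dvd_mul).1 hd
  obtain ⟨b, hb, rfl⟩ := (Nat.dvd_prime_pow hp).1 hd1
  rcases hb.lt_or_eq with h | h
  · exact hF _ (mul_dvd_mul (pow_dvd_pow p (by omega)) hd2)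
  · rw [h]
    exact key d2 hd2

end Fermat.Agent.H66
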