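import Fermat.Agent.H66Field

/-!
# Minimal polynomials of `j(p d τ)`
-/

set_option autoImplicit false
set_option linter.unusedSectionVars false

noncomputable section

open ModularCurve Polynomial IntermediateField

namespace Fermat.Agent.H66

variable {K : Type*} [Field K]

section Common

/-- An element with only one possible conjugate lies in the base field. -/
theorem mem_of_common_root (F : IntermediateField K (LaurentSeries K)) {x : LaurentSeries K}
    (hx : IsIntegral F x) (V : LaurentSeries K →+* LaurentSeries K) {σ τ : Type*} [Fintype σ]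
    [Fintype τ] (a : Option σ → LaurentSeries K) (b : Option τ → LaurentSeries K)
    (h1 : ((minpoly F x).map (algebraMap F (LaurentSeries K))).map V ∣ ∏ i, (X - C (a i)))
    (h2 : ((minpoly F x).map (algebraMap F (LaurentSeries K))).map V ∣ ∏ i, (X - C (b i)))
    (hne : ∀ (i : σ) (j : Option τ), a (some i) ≠ b j) : x ∈ F := by
  classical
  have hm : ((((minpoly F x).map (algebraMap F (LaurentSeries K))).map V)).Monic :=
    ((minpoly.monic hx).map _).map _
  obtain ⟨T, hT⟩ := exists_finset_of_dvd_prod a hm h1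
  obtain ⟨S, hS⟩ := exists_finset_of_dvd_prod b hm h2
  have hcard : T.card ≤ 1 := by
    rw [Finset.card_le_one_iff_subset_singleton]
    refine ⟨none, fun i hi => ?_⟩
    cases i with
    | none => simp
    | some i =>
      exfalso
      have h3 : ((((minpoly F x).map (algebraMap F (LaurentSeries K))).map V)).eval (a (some i)) = 0 := by
        rw [hT, eval_prod]
        exact Finset.prod_eq_zero hi (by simp)
      rw [hS, eval_prod, Finset.prod_eq_zero_iff] at h3
      obtain ⟨j, _, hj⟩ := h3
      rw [eval_sub, eval_X, eval_C, sub_eq_zero] at hj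
      exact hne i j hj
  have hdeg : (minpoly F x).natDegree ≤ 1 := by
    have h4 : ((((minpoly F x).map (algebraMap F (LaurentSeries K))).map V)).natDegree =
        (minpoly F x).natDegree := by
      rw [natDegree_map, natDegree_map]
    rw [← h4, hT, natDegree_prod_X_sub_C']
    exact hcard
  have h5 : (minpoly F x).natDegree = 1 := le_antisymm hdeg (minpoly.natDegree_pos hx)
  rw [minpoly.natDegree_eq_one_iff] at h5
  obtain ⟨y, rfl⟩ := h5
  exact y.2

end Common

section Phi

variable {p : ℕ} [Fact p.Prime] {u : Kˣ} {Φ : K[X][X]} (hmon : Φ.Monic)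
  (hdeg : Φ.natDegree = p + 1) (hΦ : phiAt K Φ (J K p) = ∏ a, (X - C (jf K p u a)))

include hΦ in
theorem phiAt_mul (e : ℕ) [NeZero e] :
    phiAt K Φ (J K (p * e)) = ∏ a, (X - C (qExpand K e (jf K p u a))) := by
  have h := congrArg (Polynomial.map (qExpand K e)) hΦ
  rw [phiAt_map, qExpand_J, Polynomial.map_prod] at h
  rw [mul_comm, h]
  simp only [Polynomial.map_sub, Polynomial.map_X, Polynomial.map_C]

include hΦ in
theorem phiAt_map_p (d : ℕ) [NeZero d] :
    (phiAt K Φ (J K d)).map (qExpand K p) = ∏ a, (X - C (qExpand K d (jf K p u a))) := by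
  rw [phiAt_map, qExpand_J, phiAt_mul hΦ]

theorem qExpand_jf_none (d : ℕ) [NeZero d] :
    qExpand K d (jf K p u none) = J K (p * (p * d)) := by
  rw [jf_none, ← J_one, qExpand_J, qExpand_J, qExpand_J]
  congr 1
  ring

theorem qExpand_jf_zero (d : ℕ) [NeZero d] :
    qExpand K d (jf K p u (some 0)) = J K d := by
  rw [jf_some_zero, J_eq]

include hΦ in
theorem eval_root1 (d : ℕ) [NeZero d] : (phiAt K Φ (J K d)).eval (J K (p * d)) = 0 := by
  apply qExpand_injective (R := K) p
  rw [map_zero, ← Polynomial.eval_map_apply, phiAt_map_p hΦ, eval_prod, qExpand_J]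
  refine Finset.prod_eq_zero (Finset.mem_univ none) ?_
  rw [qExpand_jf_none, eval_sub, eval_X, eval_C, sub_self]

include hΦ in
theorem eval_root2 (e : ℕ) [NeZero e] : (phiAt K Φ (J K (p * e))).eval (J K e) = 0 := by
  rw [phiAt_mul hΦ, eval_prod]
  refine Finset.prod_eq_zero (Finset.mem_univ (some 0)) ?_
  rw [qExpand_jf_zero, eval_sub, eval_X, eval_C, sub_self]

end Phi

section Gen

variable {Φ : K[X][X]} (hmon : Φ.Monic) (F : IntermediateField K (LaurentSeries K))
  {x y : LaurentSeries K} (hy : y ∈ F) (hx : (phiAt K Φ y).eval x = 0)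

include hmon hy hx

theorem isIntegral_of_root : IsIntegral F x := by
  obtain ⟨G, hG, hG2⟩ := exists_phiAt_field F hy Φ
  refine ⟨G, hG2 hmon, ?_⟩
  rw [← Polynomial.eval_map, hG, hx]

theorem minpoly_dvd_phiAt :
    (minpoly F x).map (algebraMap F (LaurentSeries K)) ∣ phiAt K Φ y := by
  obtain ⟨G, hG, hG2⟩ := exists_phiAt_field F hy Φ
  rw [← hG]
  refine Polynomial.map_dvd _ (minpoly.dvd F x ?_)
  rw [Polynomial.aeval_def, ← Polynomial.eval_map, hG, hx]

theorem natDegree_minpoly_le : (minpoly F x).natDegree ≤ Φ.natDegree := by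
  have h := minpoly_dvd_phiAt hmon F hy hx
  have h2 := natDegree_le_of_dvd h (phiAt_monic hmon y).ne_zero
  rw [natDegree_map] at h2
  refine h2.trans ?_
  rw [phiAt]
  exact natDegree_map_le

end Gen

end Fermat.Agent.H66
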