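import Fermat.Agent.H66Descend
import Fermat.Agent.H66Min
import Fermat.Agent.H66Gen

/-!
# Integrality over `K[j]` : elementary form, descent of the constant field, `j(d z)`
-/

set_option autoImplicit false

open Polynomial ModularCurve

namespace Fermat.Agent.H68

section Elem

theorem isIntegral_adjoin_iff_exists {K E : Type*} [Field K] [CommRing E] [Algebra K E]
    (j f : E) : IsIntegral (Algebra.adjoin K {j}) f ↔
      ∃ (d : ℕ) (P : ℕ → K[X]), f ^ d + ∑ i ∈ Finset.range d, aeval j (P i) * f ^ i = 0 := by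
  constructor
  · rintro ⟨p, hp, h⟩
    have hlift : ∀ a : Algebra.adjoin K {j}, ∃ P : K[X], aeval j P = (a : E) := by
      rintro ⟨a, ha⟩
      rw [Algebra.adjoin_singleton_eq_range_aeval] at ha
      exact ha
    choose P hP using hlift
    refine ⟨p.natDegree, fun i => P (p.coeff i), ?_⟩
    rw [eval₂_eq_sum_range, Finset.sum_range_succ, hp.coeff_natDegree, map_one, one_mul,
      add_comm] at h
    rw [← h]
    congr 1
    exact Finset.sum_congr rfl fun i _ => by rw [hP]; rfl
  · rintro ⟨d, P, h⟩
    let R := Algebra.adjoin K {j}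
    have hR : ∀ p : K[X], aeval j p ∈ R := fun p => Polynomial.aeval_mem_adjoin_singleton K _
    nontriviality E
    refine ⟨X ^ d + ∑ i ∈ Finset.range d, C (⟨aeval j (P i), hR _⟩ : R) * X ^ i, ?_, ?_⟩
    · apply Polynomial.monic_X_pow_add
      refine lt_of_le_of_lt (Polynomial.degree_sum_le _ _) ?_
      rw [Finset.sup_lt_iff (by exact WithBot.bot_lt_coe d)]
      intro m hm
      exact lt_of_le_of_lt (Polynomial.degree_C_mul_X_pow_le _ _)
        (by exact_mod_cast Finset.mem_range.mp hm)
    · rw [← h, eval₂_add, eval₂_X_pow, eval₂_finsetSum]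
      congr 1
      exact Finset.sum_congr rfl fun i _ => by rw [eval₂_mul, eval₂_C, eval₂_X_pow]; rfl

/-- Integrality over `K[j]` is preserved by homomorphisms over a homomorphism of the base
fields. -/
theorem isIntegral_adjoin_map {K L E E' : Type*} [Field K] [Field L] [CommRing E] [CommRing E']
    [Algebra K E] [Algebra L E'] (i : K →+* L) (φ : E →+* E')
    (hφ : ∀ c, φ (algebraMap K E c) = algebraMap L E' (i c)) {j f : E}
    (h : IsIntegral (Algebra.adjoin K {j}) f) : IsIntegral (Algebra.adjoin L {φ j}) (φ f) := by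
  rw [isIntegral_adjoin_iff_exists] at h ⊢
  obtain ⟨d, P, h⟩ := h
  refine ⟨d, fun n => (P n).map i, ?_⟩
  rw [← map_zero φ, ← h, map_add, map_pow, map_sum]
  congr 1
  refine Finset.sum_congr rfl fun n _ => ?_
  rw [map_mul, map_pow]
  congr 1
  have h1 : φ.comp (aeval j : K[X] →ₐ[K] E).toRingHom =
      ((aeval (φ j) : L[X] →ₐ[L] E').toRingHom).comp (mapRingHom i) := by
    apply Polynomial.ringHom_ext
    · intro a
      simp [hφ]
    · simp
  exact (RingHom.congr_fun h1 (P n)).symm

/-- Transitivity for integrality over `K[j]`. -/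
theorem isIntegral_adjoin_trans {K E : Type*} [Field K] [CommRing E] [Algebra K E] {j j' f : E}
    (h : IsIntegral (Algebra.adjoin K {j'}) f) (h' : IsIntegral (Algebra.adjoin K {j}) j') :
    IsIntegral (Algebra.adjoin K {j}) f := by
  rw [isIntegral_adjoin_iff_exists] at h
  obtain ⟨d, P, h⟩ := h
  have hmem : ∀ p : K[X], aeval j' p ∈ integralClosure (Algebra.adjoin K {j}) E := by
    intro p
    have h1 : aeval j' p ∈ Algebra.adjoin K {j'} := Polynomial.aeval_mem_adjoin_singleton K _
    have h2 : Algebra.adjoin K {j'} ≤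
        (integralClosure (Algebra.adjoin K {j}) E).restrictScalars K := by
      rw [Algebra.adjoin_le_iff, Set.singleton_subset_iff]
      exact h'
    exact h2 h1
  nontriviality E
  refine isIntegral_trans (A := integralClosure (Algebra.adjoin K {j}) E) f ?_
  refine ⟨X ^ d + ∑ i ∈ Finset.range d,
    C (⟨aeval j' (P i), hmem _⟩ : integralClosure (Algebra.adjoin K {j}) E) * X ^ i, ?_, ?_⟩
  · apply Polynomial.monic_X_pow_add
    refine lt_of_le_of_lt (Polynomial.degree_sum_le _ _) ?_
    rw [Finset.sup_lt_iff (by exact WithBot.bot_lt_coe d)]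
    intro m hm
    exact lt_of_le_of_lt (Polynomial.degree_C_mul_X_pow_le _ _)
      (by exact_mod_cast Finset.mem_range.mp hm)
  · rw [← h, eval₂_add, eval₂_X_pow, eval₂_finsetSum]
    congr 1
    exact Finset.sum_congr rfl fun i _ => by rw [eval₂_mul, eval₂_C, eval₂_X_pow]; rfl

end Elem

section Descent

variable {K L : Type*} [Field K] [Field L]

/-- Coefficientwise application of an additive map. -/
def addMap (lam : L →+ K) : LaurentSeries L →+ LaurentSeries K where
  toFun x :=
    { coeff := fun n => lam (x.coeff n)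
      isPWO_support' := x.isPWO_support.mono (by
        intro n hn h
        exact hn (by simp only [h, map_zero])) }
  map_zero' := by ext n; simp
  map_add' x y := by ext n; simp

theorem addMap_coeff (lam : L →+ K) (x : LaurentSeries L) (n : ℤ) :
    (addMap lam x).coeff n = lam (x.coeff n) := rfl

variable [Algebra K L]

theorem addMap_mul_coeffMap (lam : L →ₗ[K] K) (c : L) (g : LaurentSeries K) :
    addMap lam.toAddMonoidHom
      (algebraMap L (LaurentSeries L) c * coeffMap (algebraMap K L) g) =
      algebraMap K (LaurentSeries K) (lam c) * g := by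
  ext n
  rw [addMap_coeff, algebraMap_laurentSeries_eq_single, algebraMap_laurentSeries_eq_single,
    HahnSeries.coeff_single_mul, HahnSeries.coeff_single_mul, sub_zero, coeffMap_coeff,
    mul_comm c, ← Algebra.smul_def]
  show lam _ = _
  rw [map_smul, smul_eq_mul, mul_comm]

/-- **Descent of integrality**: if `f` is integral over `L[j]` then it is integral over `K[j]`. -/
theorem isIntegral_descend {j f : LaurentSeries K}
    (h : IsIntegral (Algebra.adjoin L {coeffMap (algebraMap K L) j})
      (coeffMap (algebraMap K L) f)) : IsIntegral (Algebra.adjoin K {j}) f := by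
  rw [isIntegral_adjoin_iff_exists] at h ⊢
  obtain ⟨d, P, h⟩ := h
  obtain ⟨lam, hlam⟩ : ∃ lam : L →ₗ[K] K, lam 1 = 1 := by
    obtain ⟨g, hg⟩ := LinearMap.exists_leftInverse_of_injective (Algebra.linearMap K L)
      (LinearMap.ker_eq_bot.mpr (algebraMap K L).injective)
    refine ⟨g, ?_⟩
    have := LinearMap.congr_fun hg 1
    simpa using this
  let Λ := addMap lam.toAddMonoidHom
  have hΛ : ∀ g : LaurentSeries K, Λ (coeffMap (algebraMap K L) g) = g := by
    intro g
    have := addMap_mul_coeffMap lam 1 g
    rw [map_one, one_mul, hlam, map_one, one_mul] at this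
    exact this
  -- coefficientwise image of a polynomial
  let Q : ℕ → K[X] := fun i => ∑ s ∈ (P i).support, monomial s (lam ((P i).coeff s))
  refine ⟨d, Q, ?_⟩
  have h1 := congrArg Λ h
  rw [map_add, map_zero, map_sum, ← map_pow, hΛ] at h1
  rw [← h1]
  congr 1
  refine Finset.sum_congr rfl fun i _ => ?_
  have h2 : aeval (coeffMap (algebraMap K L) j) (P i) * coeffMap (algebraMap K L) f ^ i =
      ∑ s ∈ (P i).support, algebraMap L (LaurentSeries L) ((P i).coeff s) *
        coeffMap (algebraMap K L) (j ^ s * f ^ i) := by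
    conv_lhs => rw [(P i).as_sum_support]
    rw [map_sum, Finset.sum_mul]
    refine Finset.sum_congr rfl fun s _ => ?_
    rw [aeval_monomial, map_mul, map_pow, map_pow, mul_assoc]
  rw [h2, map_sum]
  simp only [map_sum, Finset.sum_mul]
  refine Finset.sum_congr rfl fun s _ => ?_
  rw [aeval_monomial, mul_assoc]
  exact (addMap_mul_coeffMap lam _ _).symm

theorem isIntegral_ascend {j f : LaurentSeries K} (h : IsIntegral (Algebra.adjoin K {j}) f) :
    IsIntegral (Algebra.adjoin L {coeffMap (algebraMap K L) j})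
      (coeffMap (algebraMap K L) f) :=
  isIntegral_adjoin_map (algebraMap K L) (coeffMap (algebraMap K L)) (fun c => by
    rw [algebraMap_laurentSeries_eq_single, algebraMap_laurentSeries_eq_single, coeffMap_single]) h

theorem isIntegral_iff_coeffMap {j f : LaurentSeries K} :
    IsIntegral (Algebra.adjoin L {coeffMap (algebraMap K L) j})
      (coeffMap (algebraMap K L) f) ↔ IsIntegral (Algebra.adjoin K {j}) f :=
  ⟨isIntegral_descend, isIntegral_ascend⟩

end Descent

section J

open H66

theorem coeffMap_J {K L : Type*} [Field K] [Field L] (i : K →+* L) (d : ℕ) :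
    coeffMap i (J K d) = J L d := by
  by_cases hd : d = 0
  · subst hd
    simp [J]
  · have : NeZero d := ⟨hd⟩
    rw [J_eq, J_eq, coeffMap_qExpand, coeffMap_jqModC]

theorem isIntegral_of_phiAt {K : Type*} [Field K] {Φ : K[X][X]} (hmon : Φ.Monic)
    {x y : LaurentSeries K} (h : (phiAt K Φ y).eval x = 0) :
    IsIntegral (Algebra.adjoin K {y}) x := by
  rw [isIntegral_adjoin_iff_exists]
  refine ⟨Φ.natDegree, fun i => Φ.coeff i, ?_⟩
  rw [phiAt, eval_map, eval₂_eq_sum_range, Finset.sum_range_succ, hmon.coeff_natDegree, map_one,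
    one_mul, add_comm] at h
  exact h

theorem isIntegral_J_prime_aux {K : Type*} [Field K] (p : ℕ) [Fact p.Prime] {u : Kˣ}
    (hu : IsPrimitiveRoot u p) (d : ℕ) [NeZero d] :
    IsIntegral (Algebra.adjoin K {J K d}) (J K (p * d)) ∧
    IsIntegral (Algebra.adjoin K {J K (p * d)}) (J K d) := by
  obtain ⟨Φ, hmon, -, hΦ⟩ := exists_poly _ (modEq_field K p u hu).phi
  exact ⟨isIntegral_of_phiAt hmon (eval_root1 hΦ d), isIntegral_of_phiAt hmon (eval_root2 hΦ d)⟩

variable (K : Type*) [Field K] [CharZero K]

theorem isIntegral_J_prime (p : ℕ) [hp : Fact p.Prime] (d : ℕ) [NeZero d] :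
    IsIntegral (Algebra.adjoin K {J K d}) (J K (p * d)) ∧
    IsIntegral (Algebra.adjoin K {J K (p * d)}) (J K d) := by
  let L := AlgebraicClosure K
  have : CharZero L := charZero_of_injective_algebraMap (algebraMap K L).injective
  have hp0 : (p : L) ≠ 0 := Nat.cast_ne_zero.mpr hp.out.ne_zero
  have : NeZero (p : L) := ⟨hp0⟩
  obtain ⟨ζ, hζ⟩ := HasEnoughRootsOfUnity.exists_primitiveRoot L p
  have hu : IsPrimitiveRoot (hζ.isUnit hp.out.ne_zero).unit p :=
    IsPrimitiveRoot.coe_units_iff.mp (by simpa using hζ)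
  have h := isIntegral_J_prime_aux p hu d
  rw [← coeffMap_J (algebraMap K L) d, ← coeffMap_J (algebraMap K L) (p * d)] at h
  exact ⟨isIntegral_descend h.1, isIntegral_descend h.2⟩

/-- `j(d z)` is integral over `K[j]`. -/
theorem isIntegral_J (d : ℕ) (hd : d ≠ 0) :
    IsIntegral (Algebra.adjoin K {jqModC K}) (J K d) ∧
    IsIntegral (Algebra.adjoin K {J K d}) (jqModC K) := by
  induction d using Nat.recOnMul with
  | zero => exact absurd rfl hd
  | one =>
    rw [J_one]
    have h : IsIntegral (Algebra.adjoin K {jqModC K}) (jqModC K) :=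
      isIntegral_algebraMap (x := (⟨jqModC K, Algebra.self_mem_adjoin_singleton K _⟩ :
        Algebra.adjoin K {jqModC K}))
    exact ⟨h, h⟩
  | prime p hp =>
    have : Fact p.Prime := ⟨hp⟩
    have h := isIntegral_J_prime K p 1
    rw [mul_one, J_one] at h
    exact h
  | mul a b iha ihb =>
    have ha : a ≠ 0 := left_ne_zero_of_mul hd
    have hb : b ≠ 0 := right_ne_zero_of_mul hd
    have : NeZero a := ⟨ha⟩
    obtain ⟨ha1, ha2⟩ := iha ha
    obtain ⟨hb1, hb2⟩ := ihb hb
    -- apply `t ↦ t^a` to the statement for `b`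
    have hq : ∀ c, qExpand K a (algebraMap K (LaurentSeries K) c) =
        algebraMap K (LaurentSeries K) (RingHom.id K c) := fun c => by
      rw [RingHom.id_apply, algebraMap_laurentSeries_eq_single, qExpand_single, mul_zero]
    have e1 : qExpand K a (jqModC K) = J K a := (J_eq K a).symm
    have h1 := isIntegral_adjoin_map (RingHom.id K) (qExpand K a) hq hb1
    have h2 := isIntegral_adjoin_map (RingHom.id K) (qExpand K a) hq hb2
    rw [qExpand_J, e1] at h1 h2
    exact ⟨isIntegral_adjoin_trans h1 ha1, isIntegral_adjoin_trans ha2 h2⟩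

/-- `j(a d z)` is integral over `K[j(d z)]`. -/
theorem isIntegral_J_dvd {a b : ℕ} (ha : a ≠ 0) (hb : b ≠ 0) :
    IsIntegral (Algebra.adjoin K {J K a}) (J K b) :=
  isIntegral_adjoin_trans (isIntegral_J K b hb).1 (isIntegral_J K a ha).2

end J

end Fermat.Agent.H68
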