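import Fermat.Agent.H28Final
import Fermat.Agent.H68Int
import Fermat.Agent.H68Deriv

/-!
# Guide: the Igusa model of `X₀(N)` over `ℤ_(ℓ)` (S28), integral functions and derivations

(helper68; library files `H28*` by helper28, `H68*` by helper68, `H66*` by helper66)

Companion of `GuideModularCurves`, section 3, where statement S28 is deduced from four theorems.
This file shows the steps of their proofs, except those of the theorem `saturation`, which are in
`GuideSaturation`. Sections 3 to 6 are in the proof term of S28; `almost_integral`,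
`coeffSubring_iff`, `exists_denominator` and `series_completely_closed` are also in those of S01,
S03, S09, S12 and S15 (order of the cuspidal class, `H9Order`). Sections 1 and 2 (integrality over
`K[j]`, derivations) are tools of `GuideCarayolModel`; they are in the proof terms of S01, S03, S04,
S06, S36, S38, S43, S45, S46, S50, S58, S59, S60, and section 1 also in those of S39, S40, S44.

**The model.** `N ≥ 1`, `ℓ` is a prime not dividing `N` and `Z = ℤ_(ℓ) ⊂ ℚ` (in Lean
`GaloisRep.ratLocalizedAt ℓ`). `F = F_N = ℚ(j(q^d) : d ∣ N)` is a subfield of `ℚ((q))`. The Igusa model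
is glued from the spectra of `A₀` and `A_∞`, the integral closures of `Z[j]` and `Z[1/j]` in `F`,
along the spectrum of the integral closure of `Z[j, 1/j]` (definitions of the Prelude:
`chartAlgFin`, `chartAlgInf`, `chartAlgMid`; they are unfolded in `GuideNotionsSchemes`, section 3).
S28 says that for a field `K` of characteristic `ℓ` over `Z` the base change of the model to `K` is an
integral scheme.

**The proof.** Let `A` be one of the chart rings. (a) All functions in `A` have coefficients in `Z`
(section 4). (b) If all coefficients of `f ∈ A` are divisible by `ℓ`, then `f / ℓ` is in `A`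
(`GuideSaturation`). (c) By (a) and (b) `A ⊗ K` is a subring of `K((q))`, so an integral domain
(section 5). (d) A scheme covered by two integral open subschemes which meet is integral
(section 6). The input for (b) is that `[F_N : K(j)]` is the same number `ψ(N)` in characteristic `0`
and `ℓ` (theorem `degree_of_j_full` of `GuideModularCurves`). Nothing is used about elliptic curves
or their moduli.
-/

set_option autoImplicit false

open Polynomial ModularCurve ModularCurve.IgusaScheme IntermediateField
open CategoryTheory CategoryTheory.Limits AlgebraicGeometry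
open scoped TensorProduct
open Fermat.Agent

noncomputable section

namespace Fermat.Agent.Guide.IgusaModel

/-! ## 1. Integrality over `K[j]` -/

/-- **Elementary form.** `f` is integral over `K[j]` if and only if it is a root of a monic equation
whose coefficients are polynomials in `j` over `K`. This form can be transported along ring
homomorphisms. File: `H68Int`. -/
theorem integral_iff {K E : Type*} [Field K] [CommRing E] [Algebra K E] (j f : E) :
    IsIntegral (Algebra.adjoin K {j}) f ↔
      ∃ (d : ℕ) (P : ℕ → K[X]), f ^ d + ∑ i ∈ Finset.range d, aeval j (P i) * f ^ i = 0 :=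
  H68.isIntegral_adjoin_iff_exists j f

/-- **Change of rings**: if `i : K → L` is a homomorphism of fields and `φ : E → E'` is a ring
homomorphism over `i`, then `φ` maps elements integral over `K[j]` to elements integral over
`L[φ j]`. And integrality is transitive: `f` over `K[j']` and `j'` over `K[j]` give `f` over `K[j]`.
File: `H68Int`. -/
theorem integral_map {K L E E' : Type*} [Field K] [Field L] [CommRing E] [CommRing E']
    [Algebra K E] [Algebra L E'] :
    (∀ (i : K →+* L) (φ : E →+* E'), (∀ c, φ (algebraMap K E c) = algebraMap L E' (i c)) →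
      ∀ {j f : E}, IsIntegral (Algebra.adjoin K {j}) f →
        IsIntegral (Algebra.adjoin L {φ j}) (φ f)) ∧
    ∀ {j j' f : E}, IsIntegral (Algebra.adjoin K {j'}) f → IsIntegral (Algebra.adjoin K {j}) j' →
      IsIntegral (Algebra.adjoin K {j}) f :=
  ⟨fun i φ hφ _ _ h => H68.isIntegral_adjoin_map i φ hφ h,
    fun h₁ h₂ => H68.isIntegral_adjoin_trans h₁ h₂⟩

/-- **Descent of the constants.** Let `L` be an extension field of `K`. If a Laurent series `f` over
`K` is integral over `L[j]`, it is integral over `K[j]`. Proof: apply to all coefficients of a monic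
equation over `L` a `K`-linear map `L → K` which maps `1` to `1`. File: `H68Int`. -/
theorem integral_descent {K L : Type*} [Field K] [Field L] [Algebra K L] {j f : LaurentSeries K}
    (h : IsIntegral (Algebra.adjoin L {coeffMap (algebraMap K L) j})
      (coeffMap (algebraMap K L) f)) : IsIntegral (Algebra.adjoin K {j}) f :=
  H68.isIntegral_descend h

/-- **`j(q^d)` and `j(q^(pd))` are integral over each other** for a prime `p`, in characteristic zero
(`H66.J K d` is the series `j(q^d)`). If `K` contains the `p`-th roots of unity, each of the two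
series is a root of the monic equation `Φ_p(y, X) = 0`, `y` the other one (`two_roots` of
`GuideModularEquation`); in general use `integral_descent`. By induction and transitivity `j(q^d)` is
integral over `K[j]` and conversely (`regular_functions` of `GuideCarayolModel`). File: `H68Int`. -/
theorem j_integral (K : Type*) [Field K] [CharZero K] (p : ℕ) [Fact p.Prime] (d : ℕ) [NeZero d] :
    IsIntegral (Algebra.adjoin K {H66.J K d}) (H66.J K (p * d)) ∧
      IsIntegral (Algebra.adjoin K {H66.J K (p * d)}) (H66.J K d) :=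
  H68.isIntegral_J_prime K p d

/-! ## 2. Derivations

`D : E → E` is a derivation of a field `E` of characteristic zero which is zero on the subfield
`K`, written as an additive map with the product rule `hD`. -/

/-- **A derivation preserves algebraic extensions.** `M` is a field between `K` and `E`, algebraic
over `K(X)` for an element `X ∈ M` with `D X ∈ M`. Then `D M ⊂ M`: differentiate the minimal
equation `P(f) = 0` of `f ∈ M` over `K(X)` and divide by `P'(f) ≠ 0`. Used in `H68TwoDer`: `E = K((q))`,
`M` is the field of functions of level `N`, `X` a function of level `4` or `9` with `K(X) ∋ j`, and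
`D = d/dX`, that is, `D f = θ f / θ X` with `θ = q d/dq`. File: `H68Deriv`. -/
theorem derivation_mem {K E : Type*} [Field K] [Field E] [CharZero E] [Algebra K E]
    (D : E →+ E) (hD : ∀ x y, D (x * y) = D x * y + x * D y)
    (hK : ∀ c : K, D (algebraMap K E c) = 0) (M : IntermediateField K E) {X : E} (hX : X ∈ M)
    (hDX : D X ∈ M) (halg : ∀ f ∈ M, IsAlgebraic K⟮X⟯ f) {f : E} (hf : f ∈ M) : D f ∈ M :=
  H68.der_mem D hD hK M hX hDX halg hf

/-- **A derivation is determined by its value at `X`**: two derivations which are zero on `K` and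
agree at `X` agree at all elements which are algebraic over `K(X)`. It gives the chain rule for an
involution `w` of the field (`W_der` in `H68TwoDer`): `w D w` and `(w D w X) D` agree at `X`, so they
are equal. File: `H68Deriv`. -/
theorem derivation_unique {K E : Type*} [Field K] [Field E] [CharZero E] [Algebra K E]
    (D₁ D₂ : E →+ E) (h₁ : ∀ x y, D₁ (x * y) = D₁ x * y + x * D₁ y)
    (h₂ : ∀ x y, D₂ (x * y) = D₂ x * y + x * D₂ y)
    (hK₁ : ∀ c : K, D₁ (algebraMap K E c) = 0) (hK₂ : ∀ c : K, D₂ (algebraMap K E c) = 0)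
    {X : E} (hX : D₁ X = D₂ X) {f : E} (hf : IsAlgebraic K⟮X⟯ f) : D₁ f = D₂ f :=
  H68.der_eq_of_eq D₁ D₂ h₁ h₂ hK₁ hK₂ hX hf

/-! ## 3. The ring `ℤ_(ℓ)`

More facts on this ring are in `GuideSaturation`, section 1. -/

/-- **Integers modulo `ℓ`.** Every element of `ℤ_(ℓ)` is an integer plus a multiple of `ℓ`. (Write
`z = n/d` and `u d + v ℓ = 1`; then `z - n u = ℓ n v / d`.) File: `H68IgusaCoeff`. -/
theorem integer_plus_multiple (ℓ : ℕ) (z : GaloisRep.ratLocalizedAt ℓ) :
    ∃ (m : ℤ) (w : GaloisRep.ratLocalizedAt ℓ), z = m + (ℓ : GaloisRep.ratLocalizedAt ℓ) * w :=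
  H68.exists_int_add_mul ℓ z

/-- **`ℤ_(ℓ)` is completely integrally closed**: if `c ≠ 0` and `c u^m ∈ ℤ_(ℓ)` for all `m`, then
`u ∈ ℤ_(ℓ)` (compare valuations). File: `H68IgusaHint`. -/
theorem almost_integral (ℓ : ℕ) [Fact ℓ.Prime] {u c : ℚ} (hc0 : c ≠ 0)
    (h : ∀ m : ℕ, c * u ^ m ∈ GaloisRep.ratLocalizedAt ℓ) : u ∈ GaloisRep.ratLocalizedAt ℓ :=
  H68.mem_ratLocalizedAt_of_almost ℓ hc0 h

/-! ## 4. The coefficients of functions on the charts

`H68.coeffSubring Z` is the ring of the Laurent series over `ℚ` with coefficients in the subring `Z`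
of `ℚ`. -/

/-- Definition of `coeffSubring`. File: `H68IgusaCoeff`. -/
theorem coeffSubring_iff (Z : Subring ℚ) (x : LaurentSeries ℚ) :
    x ∈ H68.coeffSubring Z ↔ ∀ n : ℤ, x.coeff n ∈ Z :=
  H68.mem_coeffSubring_iff Z x

/-- The series `j(q^d)` and `1/j` have integral coefficients (the first coefficient of `j` is `1`), so
they are in `coeffSubring Z` for every `Z`. Files: `H68IgusaCoeff`, `H68IgusaHint`. -/
theorem j_mem_coeffSubring (Z : Subring ℚ) :
    (∀ (d : ℕ) [NeZero d], qExpand ℚ d jq ∈ H68.coeffSubring Z) ∧ jq⁻¹ ∈ H68.coeffSubring Z :=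
  ⟨fun d _ => H68.qExpand_jq_mem_coeffSubring Z d, H68.jq_inv_mem_coeffSubring Z⟩

/-- **Functions are quotients of integral series**: every `f ∈ F_N` has a multiple `b f` with
coefficients in `Z`, where `b ≠ 0` also has coefficients in `Z`. (True for the generators and for
the rational numbers, and preserved by sums, products and inverses.) File: `H68IgusaHint`. -/
theorem exists_denominator (Z : Subring ℚ) (N : ℕ) {f : LaurentSeries ℚ}
    (hf : f ∈ modularFunctionFieldFull N) :
    ∃ b ∈ H68.coeffSubring Z, b ≠ 0 ∧ b * f ∈ H68.coeffSubring Z :=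
  H68.exists_mul_mem_coeffSubring Z N hf

/-- **The ring of series with coefficients in `Z` is completely integrally closed** if `Z` is.
Proof: if `f` is almost integral and `n₀` is the first index with a coefficient not in `Z`, subtract
the part of `f` before `n₀`; the leading coefficient `u` of the rest satisfies `c u^m ∈ Z` for all
`m`, so it is in `Z`. File: `H68IgusaHint`. -/
theorem series_completely_closed (Z : Subring ℚ)
    (hZ : ∀ u c : ℚ, c ≠ 0 → (∀ m : ℕ, c * u ^ m ∈ Z) → u ∈ Z)
    {f : LaurentSeries ℚ} (hf : IsAlmostIntegral ↥(H68.coeffSubring Z) f) :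
    f ∈ H68.coeffSubring Z :=
  H68.mem_coeffSubring_of_almostIntegral Z hZ hf

/-- **Step (a).** If the functions of the set `S` have coefficients in `ℤ_(ℓ)`, all functions integral
over `ℤ_(ℓ)[S]` have coefficients in `ℤ_(ℓ)`. By `exists_denominator` they are almost integral over
the ring of such series, and the previous theorem applies. File: `H68IgusaHint`. -/
theorem coefficients_integral (N : ℕ) [NeZero N] (ℓ : ℕ) [Fact ℓ.Prime]
    (S : Set ↥(modularFunctionFieldFull N))
    (hS : ∀ s ∈ S, (s : LaurentSeries ℚ) ∈ H68.coeffSubring (GaloisRep.ratLocalizedAt ℓ)) :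
    ∀ f ∈ chartAlg N ℓ S, ∀ n : ℤ,
      (f : LaurentSeries ℚ).coeff n ∈ GaloisRep.ratLocalizedAt ℓ :=
  H68.hint_of_subset N ℓ S hS

/-! ## 5. The chart rings modulo `ℓ`

`Z` is a ring, `A` a `Z`-algebra with an expansion map `c : A → Z((q))` over `Z`, and `K` a field over
`Z`. -/

/-- **The map from `A ⊗ K` to `K((q))`** defined by an expansion map `c : A → Z((q))`: the `n`-th
coefficient of the image of `a ⊗ x` is `x` times the `n`-th coefficient of `a`.
File: `H68TensorLaurent`. -/
theorem coeff_theta {Z : Type} [CommRing Z] {A : Type} [CommRing A] [Algebra Z A]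
    {K : Type} [Field K] [Algebra Z K] (c : A →+* LaurentSeries Z)
    (hc : ∀ z : Z, c (algebraMap Z A z) = HahnSeries.single 0 z) (a : A) (x : K) (n : ℤ) :
    (H68.theta c hc (a ⊗ₜ[Z] x)).coeff n = algebraMap Z K ((c a).coeff n) * x :=
  H68.coeff_theta_tmul c hc a x n

/-- **Tensors.** Every element of `A ⊗ K` is of the form `∑ a_i ⊗ e_i`, where the `e_i` are a given
basis of `K` over `ℤ/ℓ` (the coefficients in `ℤ/ℓ` are integers modulo `ℓ`, so they can be moved to
the side of `A`). File: `H68TensorLaurent`. -/
theorem tensor_by_basis {Z : Type} [CommRing Z] {A : Type} [CommRing A] [Algebra Z A]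
    {K : Type} [Field K] [Algebra Z K] (ℓ : ℕ) [NeZero ℓ] [Algebra (ZMod ℓ) K] {ι : Type}
    (e : Module.Basis ι (ZMod ℓ) K) (t : A ⊗[Z] K) :
    ∃ f : ι →₀ A, t = f.sum fun i a => a ⊗ₜ[Z] e i :=
  H68.exists_finsupp_tensor ℓ e t

/-- **It is injective** if `K` has characteristic `ℓ`, every element of `Z` is an integer plus a
multiple of `ℓ`, and divisibility by `ℓ` in `A` can be seen from the coefficients (`hdiv`). Proof:
write an element of the kernel as `∑ a_i ⊗ e_i` with a basis `e_i` of `K` over `ℤ/ℓ`. For every `n`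
the `n`-th coefficients of the `a_i` are zero modulo `ℓ`, so `a_i = ℓ b_i` and `a_i ⊗ e_i = 0`.
File: `H68TensorLaurent`. -/
theorem theta_injective {Z : Type} [CommRing Z] {A : Type} [CommRing A] [Algebra Z A]
    {K : Type} [Field K] [Algebra Z K] (ℓ : ℕ) [Fact ℓ.Prime] [CharP K ℓ]
    (hZ : ∀ z : Z, ∃ (m : ℤ) (w : Z), z = m + (ℓ : Z) * w) (c : A →+* LaurentSeries Z)
    (hc : ∀ z : Z, c (algebraMap Z A z) = HahnSeries.single 0 z)
    (hdiv : ∀ a : A, (∀ n : ℤ, ∃ w : Z, (c a).coeff n = (ℓ : Z) * w) →
      ∃ b : A, a = (ℓ : A) * b) :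
    Function.Injective (H68.theta (K := K) c hc) :=
  H68.theta_injective ℓ hZ c hc hdiv

/-- **Step (c).** If the functions of a chart ring have coefficients in `ℤ_(ℓ)` (step (a)) and
divisibility by `ℓ` can be seen from the coefficients (step (b)), its tensor product with a field
`K` of characteristic `ℓ` is an integral domain. File: `H68IgusaCoeff`. -/
theorem chart_tensor_isDomain {N : ℕ} [NeZero N] {ℓ : ℕ} [Fact ℓ.Prime]
    (S : Set ↥(modularFunctionFieldFull N))
    (ha : ∀ f ∈ chartAlg N ℓ S, ∀ n : ℤ,
      (f : LaurentSeries ℚ).coeff n ∈ GaloisRep.ratLocalizedAt ℓ)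
    (hb : ∀ f ∈ chartAlg N ℓ S,
      (∀ n : ℤ, ∃ w ∈ GaloisRep.ratLocalizedAt ℓ, (f : LaurentSeries ℚ).coeff n = (ℓ : ℚ) * w) →
        ∃ g ∈ chartAlg N ℓ S, f = (ℓ : ↥(modularFunctionFieldFull N)) * g)
    (K : Type) [Field K] [CharP K ℓ] [Algebra ↥(GaloisRep.ratLocalizedAt ℓ) K] :
    IsDomain (↥(chartAlg N ℓ S) ⊗[↥(GaloisRep.ratLocalizedAt ℓ)] K) :=
  H68.isDomain_chart_tensor S ha hb K

/-- **The common piece.** The functions on it have coefficients in `ℤ_(ℓ)`, because a power of `j` maps
them to the first chart and `1/j` has integral coefficients; so its ring maps to `K((q))` and the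
tensor product with `K` is not zero. Files: `H68IgusaCoeff`, `H68TensorLaurent`. -/
theorem common_piece {N : ℕ} [NeZero N] {ℓ : ℕ} [Fact ℓ.Prime]
    (ha : ∀ f ∈ chartAlgFin N ℓ, ∀ n : ℤ,
      (f : LaurentSeries ℚ).coeff n ∈ GaloisRep.ratLocalizedAt ℓ) :
    (∀ f ∈ chartAlgMid N ℓ, ∀ n : ℤ,
      (f : LaurentSeries ℚ).coeff n ∈ GaloisRep.ratLocalizedAt ℓ) ∧
    ∀ (K : Type) [Field K] [Algebra ↥(GaloisRep.ratLocalizedAt ℓ) K],
      Nontrivial (↥(chartAlgMid N ℓ) ⊗[↥(GaloisRep.ratLocalizedAt ℓ)] K) :=
  ⟨H68.hint_mid ha, fun _ _ _ => H68.nontrivial_tensor (H68.chartExp _ (H68.hint_mid ha))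
    (H68.chartExp_algebraMap _ (H68.hint_mid ha))⟩

/-! ## 6. Schemes -/

/-- **Affine charts.** The base change of `Spec S → Spec R` along `Spec T → Spec R` is the spectrum of
`S ⊗ T`, so it is integral if `S ⊗ T` is an integral domain, and not empty if `S ⊗ T ≠ 0`.
File: `H68IgusaIntegral`. -/
theorem affine_base_change (R S T : Type) [CommRing R] [CommRing S] [CommRing T] [Algebra R S]
    [Algebra R T] :
    (IsDomain (S ⊗[R] T) →
      AlgebraicGeometry.IsIntegral ↑(pullback (Spec.map (CommRingCat.ofHom (algebraMap R S)))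
        (Spec.map (CommRingCat.ofHom (algebraMap R T))))) ∧
    (Nontrivial (S ⊗[R] T) →
      Nonempty ↑(pullback (Spec.map (CommRingCat.ofHom (algebraMap R S)))
        (Spec.map (CommRingCat.ofHom (algebraMap R T))))) :=
  ⟨fun _ => H68.isIntegral_pullback_spec R S T, fun _ => H68.nonempty_pullback_spec R S T⟩

/-- **Base change of a scheme with two charts.** `X → S` has open charts `U` and `V` covering `X` with a
common piece `W`. If the base changes of `U` and `V` along `T → S` are integral and the one of `W`
is not empty, the base change of `X` is integral (theorem `isIntegral_of_two_charts` of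
`GuideModularCurves`, applied to the base changes of the charts). File: `H68IgusaIntegral`. -/
theorem base_change_of_two_charts {X U V W S T : Scheme.{0}} (p : X ⟶ S) (s : T ⟶ S)
    (f : U ⟶ X) (g : V ⟶ X) [IsOpenImmersion f] [IsOpenImmersion g]
    (m₁ : W ⟶ U) (m₂ : W ⟶ V) (hm : m₁ ≫ f = m₂ ≫ g)
    (hcov : ∀ x : X, x ∈ Set.range f ∨ x ∈ Set.range g)
    [IsIntegral ↑(pullback (f ≫ p) s)] [IsIntegral ↑(pullback (g ≫ p) s)]
    [Nonempty ↑(pullback (m₁ ≫ f ≫ p) s)] : IsIntegral ↑(pullback p s) :=
  H68.isIntegral_pullback_of_two_charts p s f g m₁ m₂ hm hcov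

/-- **Step (d).** The base change of the Igusa model to `K` is integral if `A₀ ⊗ K` and `A_∞ ⊗ K` are
integral domains and the tensor product of the ring of the common piece with `K` is not zero.
File: `H68IgusaIntegral`. -/
theorem model_integral (N : ℕ) [NeZero N] (ℓ : ℕ) [Fact ℓ.Prime] (K : Type) [Field K]
    [Algebra ↥(GaloisRep.ratLocalizedAt ℓ) K]
    (h₀ : IsDomain (↥(chartAlgFin N ℓ) ⊗[↥(GaloisRep.ratLocalizedAt ℓ)] K))
    (h₁ : IsDomain (↥(chartAlgInf N ℓ) ⊗[↥(GaloisRep.ratLocalizedAt ℓ)] K))
    (h₂ : Nontrivial (↥(chartAlgMid N ℓ) ⊗[↥(GaloisRep.ratLocalizedAt ℓ)] K)) :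
    AlgebraicGeometry.IsIntegral ↑(pullback (igusaTo N ℓ)
      (Spec.map (CommRingCat.ofHom (algebraMap ↥(GaloisRep.ratLocalizedAt ℓ) K)))) :=
  H68.isIntegral_pullback_igusaTo N ℓ K h₀ h₁ h₂

/-- **S28 from the degree theorem** (`H28.DegreeTheorem N`: `[F_N : K(j)] = ψ(N)` for all algebraically
closed fields `K` in which `N ≠ 0`), for `ℓ` not dividing `N`. It is applied to `K = ℂ` and to an
algebraic closure of `ℤ/ℓ`. File: `H28Final`. -/
theorem model_integral_of_degree (N : ℕ) [NeZero N] (ℓ : ℕ) [Fact ℓ.Prime] (hℓN : ¬ ℓ ∣ N)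
    (h : H28.DegreeTheorem N) (K : Type) [Field K] [CharP K ℓ]
    [Algebra ↥(GaloisRep.ratLocalizedAt ℓ) K] :
    AlgebraicGeometry.IsIntegral ↑(pullback (igusaTo N ℓ)
      (Spec.map (CommRingCat.ofHom (algebraMap ↥(GaloisRep.ratLocalizedAt ℓ) K)))) :=
  H28.isIntegral_pullback_of_degreeTheorem N ℓ hℓN h K

end Fermat.Agent.Guide.IgusaModel
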