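import Mathlib.RingTheory.MvPowerSeries.Inverse
import Mathlib.RingTheory.MvPowerSeries.Equiv
import Mathlib.RingTheory.Regular.RegularSequence
import Mathlib.RingTheory.DiscreteValuationRing.Basic

set_option autoImplicit false

namespace Fermat.Agent.H68

open MvPowerSeries RingTheory.Sequence

variable {σ R : Type*} [CommRing R]

theorem mem_span_X_image_iff (T : Finset σ) (f : MvPowerSeries σ R) :
    f ∈ Ideal.span ((fun s => (X s : MvPowerSeries σ R)) '' (T : Set σ)) ↔
      ∀ m : σ →₀ ℕ, (∀ s ∈ T, m s = 0) → coeff m f = 0 := by
  classical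
  constructor
  · intro hf
    induction hf using Submodule.span_induction with
    | mem x hx =>
      obtain ⟨s, hs, rfl⟩ := hx
      intro m hm
      change coeff m (X s) = 0
      rw [coeff_X, if_neg]
      rintro rfl
      have := hm s hs
      simp at this
    | zero => intro m _; simp
    | add x y _ _ hx hy => intro m hm; rw [map_add, hx m hm, hy m hm, add_zero]
    | smul a x _ hx =>
      intro m hm
      rw [smul_eq_mul, coeff_mul]
      refine Finset.sum_eq_zero fun p hp => ?_
      rw [hx p.2, mul_zero]
      intro s hs
      have h1 := Finset.mem_antidiagonal.mp hp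
      have h2 := hm s hs
      rw [← h1, Finsupp.add_apply] at h2
      omega
  · induction T using Finset.induction_on generalizing f with
    | empty =>
      intro h
      have : f = 0 := by
        ext m
        rw [h m (by simp), map_zero]
      rw [this]; exact Ideal.zero_mem _
    | insert s T hs ih =>
      intro h
      let f₁ : MvPowerSeries σ R := fun m => if m s = 0 then 0 else coeff m f
      let f₂ : MvPowerSeries σ R := fun m => if m s = 0 then coeff m f else 0
      have h1 : ∀ m, coeff m f₁ = if m s = 0 then 0 else coeff m f := fun m => rfl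
      have h2 : ∀ m, coeff m f₂ = if m s = 0 then coeff m f else 0 := fun m => rfl
      have hf : f = f₁ + f₂ := by
        ext m
        rw [map_add, h1, h2]
        split_ifs <;> simp
      rw [hf]
      refine Ideal.add_mem _ ?_ ?_
      · have hdvd : (X s : MvPowerSeries σ R) ∣ f₁ := by
          rw [X_dvd_iff]
          intro m hm
          rw [h1, if_pos hm]
        obtain ⟨g, hg⟩ := hdvd
        rw [hg]
        exact Ideal.mul_mem_right _ _ (Ideal.subset_span ⟨s, by simp, rfl⟩)
      · have h3 := ih f₂ (by
          intro m hm
          rw [h2]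
          split_ifs with hms
          · apply h
            intro t ht
            rcases Finset.mem_insert.mp ht with rfl | ht
            · exact hms
            · exact hm t ht
          · rfl)
        refine Ideal.span_mono ?_ h3
        apply Set.image_mono
        simp

theorem ofList_map_X (l : List σ) [DecidableEq σ] :
    Ideal.ofList (l.map fun s => (X s : MvPowerSeries σ R)) =
      Ideal.span ((fun s => (X s : MvPowerSeries σ R)) '' (l.toFinset : Set σ)) := by
  rw [Ideal.ofList]
  congr 1
  ext x
  simp

theorem isWeaklyRegular_map_X (l : List σ) (hl : l.Nodup) :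
    IsWeaklyRegular (MvPowerSeries σ R) (l.map fun s => (X s : MvPowerSeries σ R)) := by
  classical
  induction l using List.reverseRecOn with
  | nil => simp
  | append_singleton l s ih =>
    rw [List.nodup_append] at hl
    rw [List.map_append, isWeaklyRegular_append_iff]
    refine ⟨ih hl.1, ?_⟩
    rw [List.map_singleton, isWeaklyRegular_singleton_iff, isSMulRegular_quotient_iff_mem_of_smul_mem]
    intro f hf
    have htop : Ideal.ofList (l.map fun s => (X s : MvPowerSeries σ R)) •
        (⊤ : Submodule (MvPowerSeries σ R) (MvPowerSeries σ R)) =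
        Ideal.ofList (l.map fun s => (X s : MvPowerSeries σ R)) := by
      rw [smul_eq_mul, Ideal.mul_top]
    rw [htop, ofList_map_X, mem_span_X_image_iff] at hf ⊢
    intro m hm
    have hs : s ∉ l := fun h => (hl.2.2 s h s (by simp)) rfl
    have h1 := hf (m + Finsupp.single s 1) (by
      intro t ht
      have hts : t ≠ s := by
        rintro rfl
        exact hs (by simpa using ht)
      rw [Finsupp.add_apply, hm t ht, Finsupp.single_eq_of_ne hts, add_zero])
    rw [smul_eq_mul, mul_comm] at h1
    rwa [X, coeff_add_mul_monomial, mul_one] at h1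


/-- `f ∈ (X_s)_{s}` iff the constant coefficient vanishes. -/
theorem mem_span_range_X_iff [Fintype σ] (f : MvPowerSeries σ R) :
    f ∈ Ideal.span (Set.range fun s => (X s : MvPowerSeries σ R)) ↔
      constantCoeff f = 0 := by
  classical
  have h := mem_span_X_image_iff (R := R) (Finset.univ : Finset σ) f
  rw [Finset.coe_univ, Set.image_univ] at h
  rw [h]
  constructor
  · intro h
    have := h 0 (by simp)
    rwa [← coeff_zero_eq_constantCoeff_apply]
  · intro h m hm
    have : m = 0 := by
      ext s
      exact hm s (Finset.mem_univ s)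
    rw [this, coeff_zero_eq_constantCoeff_apply, h]

/-- The system of parameters `X_1, …, X_r, C ϖ`. -/
noncomputable def sopList (r : ℕ) (ϖ : R) : List (MvPowerSeries (Fin r) R) :=
  (List.finRange r).map (fun s => (X s : MvPowerSeries (Fin r) R)) ++ [C ϖ]

theorem sopList_length (r : ℕ) (ϖ : R) : (sopList r ϖ).length = r + 1 := by
  simp [sopList]

theorem ofList_finRange_X (r : ℕ) :
    Ideal.ofList ((List.finRange r).map (fun s => (X s : MvPowerSeries (Fin r) R))) =
      Ideal.span (Set.range fun s => (X s : MvPowerSeries (Fin r) R)) := by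
  rw [ofList_map_X]
  congr 1
  ext x
  simp

theorem isWeaklyRegular_sopList (r : ℕ) (ϖ : R) (hϖ : IsSMulRegular R ϖ) :
    IsWeaklyRegular (MvPowerSeries (Fin r) R) (sopList r ϖ) := by
  rw [sopList, isWeaklyRegular_append_iff]
  refine ⟨isWeaklyRegular_map_X _ (List.nodup_finRange r), ?_⟩
  rw [isWeaklyRegular_singleton_iff, isSMulRegular_quotient_iff_mem_of_smul_mem]
  have htop : Ideal.ofList ((List.finRange r).map fun s => (X s : MvPowerSeries (Fin r) R)) •
      (⊤ : Submodule (MvPowerSeries (Fin r) R) (MvPowerSeries (Fin r) R)) =
      Ideal.ofList ((List.finRange r).map fun s => (X s : MvPowerSeries (Fin r) R)) := by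
    rw [smul_eq_mul, Ideal.mul_top]
  intro f hf
  rw [htop, ofList_finRange_X, mem_span_range_X_iff] at hf ⊢
  rw [smul_eq_mul, map_mul, constantCoeff_C] at hf
  exact hϖ (by simpa using hf)

theorem ofList_sopList [IsLocalRing R] (r : ℕ) (ϖ : R)
    (hϖ : IsLocalRing.maximalIdeal R = Ideal.span {ϖ}) :
    Ideal.ofList (sopList r ϖ) = IsLocalRing.maximalIdeal (MvPowerSeries (Fin r) R) := by
  rw [sopList, Ideal.ofList_append, ofList_finRange_X, Ideal.ofList_singleton]
  apply le_antisymm
  · rw [sup_le_iff]
    constructor
    · intro f hf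
      rw [mem_span_range_X_iff] at hf
      rw [IsLocalRing.mem_maximalIdeal, mem_nonunits_iff, isUnit_iff_constantCoeff, hf]
      exact not_isUnit_zero
    · rw [Ideal.span_singleton_le_iff_mem, IsLocalRing.mem_maximalIdeal, mem_nonunits_iff,
        isUnit_iff_constantCoeff, constantCoeff_C, ← mem_nonunits_iff,
        ← IsLocalRing.mem_maximalIdeal, hϖ]
      exact Ideal.mem_span_singleton_self ϖ
  · intro f hf
    rw [IsLocalRing.mem_maximalIdeal, mem_nonunits_iff, isUnit_iff_constantCoeff,
      ← mem_nonunits_iff, ← IsLocalRing.mem_maximalIdeal, hϖ, Ideal.mem_span_singleton] at hf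
    obtain ⟨a, ha⟩ := hf
    have : f = (f - C (constantCoeff f)) + C (constantCoeff f) := by ring
    rw [this]
    refine Ideal.add_mem _ (Ideal.mem_sup_left ?_) (Ideal.mem_sup_right ?_)
    · rw [mem_span_range_X_iff]; simp
    · rw [ha, map_mul]
      exact Ideal.mul_mem_right _ _ (Ideal.mem_span_singleton_self _)

end Fermat.Agent.H68
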