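/-
Patching limit step: an ultrafilter construction producing, from a patching datum, a patching
level with trivial relation ideal.
-/
import Fermat.Prelude.Def_Algebra_PatchingDatum
import Fermat.Prelude.Thm_IsAdicComplete_of_module_finite
import Fermat.Agent.H68Regular
import Mathlib.RingTheory.MvPowerSeries.Equiv
import Mathlib.RingTheory.PowerSeries.Ideal
import Mathlib.RingTheory.PowerSeries.Inverse
import Mathlib.RingTheory.DiscreteValuationRing.Basic
import Mathlib.RingTheory.AdicCompletion.Noetherian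
import Mathlib.RingTheory.AdicCompletion.Topology
import Mathlib.RingTheory.Ideal.Quotient.Index
import Mathlib.RingTheory.LocalRing.Module
import Mathlib.Order.Filter.Ultrafilter.Basic
import Mathlib.LinearAlgebra.Matrix.ToLin
import Mathlib.RingTheory.Nakayama

set_option autoImplicit false

namespace Fermat.Agent.H57

open IsLocalRing

section PSComplete

variable {B : Type*} [CommRing B]

/-- the ideal of power series with `i`-th coefficient in `I ^ (k - i)` -/
def psFil (I : Ideal B) (k : ℕ) : Ideal (PowerSeries B) where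
  carrier := {f | ∀ i, PowerSeries.coeff i f ∈ I ^ (k - i)}
  add_mem' := fun {f g} hf hg i => by
    rw [map_add]; exact add_mem (hf i) (hg i)
  zero_mem' := fun i => by simp
  smul_mem' := fun a f hf i => by
    rw [smul_eq_mul, PowerSeries.coeff_mul]
    refine Ideal.sum_mem _ fun x hx => ?_
    rw [Finset.mem_antidiagonal] at hx
    exact Ideal.mul_mem_left _ _ (Ideal.pow_le_pow_right (by omega) (hf x.2))

lemma mem_psFil {I : Ideal B} {k : ℕ} {f : PowerSeries B} :
    f ∈ psFil I k ↔ ∀ i, PowerSeries.coeff i f ∈ I ^ (k - i) := Iff.rfl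

lemma psFil_mul_le (I : Ideal B) (k l : ℕ) : psFil I k * psFil I l ≤ psFil I (k + l) := by
  rw [Ideal.mul_le]
  intro f hf g hg i
  rw [PowerSeries.coeff_mul]
  refine Ideal.sum_mem _ fun x hx => ?_
  rw [Finset.mem_antidiagonal] at hx
  have h := Ideal.mul_mem_mul (hf x.1) (hg x.2)
  rw [← pow_add] at h
  exact Ideal.pow_le_pow_right (by omega) h

/-- the ideal `(I, X)` of `B⟦X⟧` -/
lemma psFil_pow (I : Ideal B) (k : ℕ) : (psFil I 1) ^ k = psFil I k := by
  apply le_antisymm
  · induction k with
    | zero =>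
      intro f _ i
      simp
    | succ k ih =>
      rw [pow_succ]
      exact (Ideal.mul_mono_left ih).trans (psFil_mul_le I k 1)
  · intro f hf
    have hX : (PowerSeries.X : PowerSeries B) ∈ psFil I 1 := by
      intro i
      rw [PowerSeries.coeff_X]
      rcases i with _ | i
      · simp
      · simp
    have hC : ∀ j, ∀ b ∈ I ^ j, PowerSeries.C b ∈ (psFil I 1) ^ j := by
      intro j b hb
      have h1 : (I ^ j).map (PowerSeries.C (R := B)) ≤ (psFil I 1) ^ j := by
        rw [Ideal.map_pow]
        refine Ideal.pow_right_mono ?_ j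
        rw [Ideal.map_le_iff_le_comap]
        intro c hc
        rw [Ideal.mem_comap]
        intro i
        rw [PowerSeries.coeff_C]
        rcases i with _ | i
        · simpa using hc
        · simp
      exact h1 (Ideal.mem_map_of_mem _ hb)
    have key : PowerSeries.X ^ k ∣ f - ∑ i ∈ Finset.range k,
        PowerSeries.C (PowerSeries.coeff i f) * PowerSeries.X ^ i := by
      rw [PowerSeries.X_pow_dvd_iff]
      intro m hm
      rw [map_sub, map_sum, Finset.sum_eq_single m]
      · rw [PowerSeries.coeff_C_mul, PowerSeries.coeff_X_pow_self, mul_one, sub_self]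
      · intro j _ hj
        rw [PowerSeries.coeff_C_mul, PowerSeries.coeff_X_pow, if_neg (Ne.symm hj), mul_zero]
      · intro h
        exact absurd (Finset.mem_range.mpr hm) h
    obtain ⟨g, hg⟩ := key
    rw [sub_eq_iff_eq_add] at hg
    rw [hg]
    refine add_mem (Ideal.mul_mem_right _ _ (Ideal.pow_mem_pow hX k)) (Ideal.sum_mem _ ?_)
    intro i hi
    rw [Finset.mem_range] at hi
    have h1 := Ideal.mul_mem_mul (hC (k - i) _ (hf i)) (Ideal.pow_mem_pow hX i)
    rwa [← pow_add, Nat.sub_add_cancel hi.le] at h1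

lemma psFil_isPrecomplete (I : Ideal B) [IsPrecomplete I B] :
    IsPrecomplete (psFil I 1) (PowerSeries B) := by
  constructor
  intro f hf
  have hf' : ∀ {m n}, m ≤ n → ∀ i, PowerSeries.coeff i (f m) - PowerSeries.coeff i (f n) ∈
      I ^ (m - i) := by
    intro m n hmn i
    have := hf hmn
    rw [SModEq.sub_mem, smul_eq_mul, Ideal.mul_top, psFil_pow] at this
    have := this i
    rwa [map_sub] at this
  have h1 : ∀ i, ∃ c : B, ∀ k, PowerSeries.coeff i (f (k + i)) ≡ c
      [SMOD (I ^ k • ⊤ : Submodule B B)] := by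
    intro i
    apply IsPrecomplete.prec' (I := I) (M := B)
    intro m n hmn
    rw [SModEq.sub_mem, smul_eq_mul, Ideal.mul_top]
    have := hf' (Nat.add_le_add_right hmn i) i
    rwa [Nat.add_sub_cancel] at this
  choose c hc using h1
  refine ⟨PowerSeries.mk c, fun k => ?_⟩
  rw [SModEq.sub_mem, smul_eq_mul, Ideal.mul_top, psFil_pow]
  intro i
  rw [map_sub, PowerSeries.coeff_mk]
  by_cases hik : i ≤ k
  · have := hc i (k - i)
    rw [SModEq.sub_mem, smul_eq_mul, Ideal.mul_top, Nat.sub_add_cancel hik] at this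
    exact this
  · rw [Nat.sub_eq_zero_of_le (by omega)]
    simp

lemma maximalIdeal_powerSeries [IsLocalRing B] :
    maximalIdeal (PowerSeries B) = psFil (maximalIdeal B) 1 := by
  ext f
  rw [mem_maximalIdeal, mem_nonunits_iff, PowerSeries.isUnit_iff_constantCoeff, mem_psFil]
  constructor
  · intro h i
    rcases i with _ | i
    · simpa using h
    · simp
  · intro h
    simpa using h 0

instance isAdicComplete_powerSeries [IsLocalRing B] [IsNoetherianRing B]
    [IsAdicComplete (maximalIdeal B) B] :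
    IsAdicComplete (maximalIdeal (PowerSeries B)) (PowerSeries B) := by
  have h2 : IsPrecomplete (maximalIdeal (PowerSeries B)) (PowerSeries B) := by
    rw [maximalIdeal_powerSeries]
    exact psFil_isPrecomplete _
  exact { toIsHausdorff := inferInstance, toIsPrecomplete := h2 }

lemma isAdicComplete_of_ringEquiv {A C : Type*} [CommRing A] [CommRing C] [IsLocalRing A]
    [IsLocalRing C] (e : A ≃+* C) [IsAdicComplete (maximalIdeal A) A] :
    IsAdicComplete (maximalIdeal C) C := by
  rw [← map_ringEquiv_maximalIdeal e]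
  exact (IsAdicComplete.congr_ringEquiv (maximalIdeal A) e).mpr inferInstance

theorem isAdicComplete_mvPowerSeries_fin (𝒪 : Type*) [CommRing 𝒪] [IsLocalRing 𝒪]
    [IsNoetherianRing 𝒪] [IsAdicComplete (maximalIdeal 𝒪) 𝒪] (r : ℕ) :
    IsAdicComplete (maximalIdeal (MvPowerSeries (Fin r) 𝒪)) (MvPowerSeries (Fin r) 𝒪) := by
  induction r with
  | zero =>
    exact isAdicComplete_of_ringEquiv (MvPowerSeries.isEmptyEquiv (Fin 0) 𝒪).toRingEquiv.symm
  | succ n ih =>
    exact isAdicComplete_of_ringEquiv (MvPowerSeries.finSuccEquiv 𝒪 n).toRingEquiv.symm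

lemma finite_residueField_mvPowerSeries (𝒪 : Type*) [CommRing 𝒪] [IsLocalRing 𝒪]
    [Finite (ResidueField 𝒪)] (σ : Type*) :
    Finite (ResidueField (MvPowerSeries σ 𝒪)) := by
  have hloc : IsLocalHom (MvPowerSeries.C (σ := σ) (R := 𝒪)) := ⟨fun a ha => by
    have := ha.map (MvPowerSeries.constantCoeff (σ := σ) (R := 𝒪))
    simpa using this⟩
  have : Function.Surjective (ResidueField.map (MvPowerSeries.C (σ := σ) (R := 𝒪))) := by
    intro x
    obtain ⟨f, rfl⟩ := IsLocalRing.residue_surjective x
    refine ⟨residue 𝒪 (MvPowerSeries.constantCoeff f), ?_⟩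
    rw [ResidueField.map_residue, ← sub_eq_zero, ← map_sub, residue_eq_zero_iff,
      mem_maximalIdeal, mem_nonunits_iff, MvPowerSeries.isUnit_iff_constantCoeff]
    simp
  exact Finite.of_surjective _ this

end PSComplete

section ULim

variable {B : Type*} [CommRing B] {I : Ideal B} {Z : Type*} [AddCommGroup Z] [Module B Z]
  {U : Ultrafilter ℕ}

/-- `z` is the limit of `x` along the ultrafilter `U` in the `I`-adic topology -/
def IsULim (I : Ideal B) (U : Ultrafilter ℕ) (x : ℕ → Z) (z : Z) : Prop :=
  ∀ k, ∀ᶠ n in (U : Filter ℕ), x n - z ∈ (I ^ k • ⊤ : Submodule B Z)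

lemma exists_isULim [IsPrecomplete I Z] (U : Ultrafilter ℕ)
    (hfin : ∀ k, Finite (Z ⧸ (I ^ k • ⊤ : Submodule B Z))) (x : ℕ → Z) :
    ∃ z, IsULim I U x z := by
  have h1 : ∀ k, ∃ c : Z, ∀ᶠ n in (U : Filter ℕ), x n - c ∈ (I ^ k • ⊤ : Submodule B Z) := by
    intro k
    have := hfin k
    obtain ⟨c, hc⟩ := Ultrafilter.eq_pure_of_finite
      (U.map (fun n => (Submodule.Quotient.mk (x n) : Z ⧸ (I ^ k • ⊤ : Submodule B Z))))
    obtain ⟨c', rfl⟩ := Submodule.Quotient.mk_surjective _ c
    refine ⟨c', ?_⟩
    have h2 : ({Submodule.Quotient.mk c'} : Set (Z ⧸ (I ^ k • ⊤ : Submodule B Z))) ∈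
        U.map (fun n => (Submodule.Quotient.mk (x n) : Z ⧸ (I ^ k • ⊤ : Submodule B Z))) := by
      rw [hc]
      exact Set.mem_singleton _
    rw [Ultrafilter.mem_map] at h2
    filter_upwards [h2] with n hn
    exact (Submodule.Quotient.eq _).mp hn
  choose c hc using h1
  obtain ⟨L, hL⟩ := IsPrecomplete.prec' (I := I) (M := Z) c (by
    intro m n hmn
    rw [SModEq.sub_mem]
    obtain ⟨l, hl1, hl2⟩ := ((hc m).and (hc n)).exists
    have h3 : x l - c n ∈ (I ^ m • ⊤ : Submodule B Z) :=
      Submodule.smul_mono_left (Ideal.pow_le_pow_right hmn) hl2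
    have := sub_mem h3 hl1
    simpa using this)
  refine ⟨L, fun k => ?_⟩
  filter_upwards [hc k] with n hn
  have := hL k
  rw [SModEq.sub_mem] at this
  simpa using add_mem hn this

lemma IsULim.unique [IsHausdorff I Z] {x : ℕ → Z} {z w : Z} (hz : IsULim I U x z)
    (hw : IsULim I U x w) : z = w := by
  rw [← sub_eq_zero]
  apply IsHausdorff.haus' (I := I) (M := Z)
  intro k
  rw [SModEq.sub_mem, sub_zero]
  obtain ⟨l, hl1, hl2⟩ := ((hz k).and (hw k)).exists
  simpa using sub_mem hl2 hl1

lemma IsULim.add {x y : ℕ → Z} {z w : Z} (hz : IsULim I U x z) (hw : IsULim I U y w) :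
    IsULim I U (fun n => x n + y n) (z + w) := by
  intro k
  filter_upwards [hz k, hw k] with n h1 h2
  have := add_mem h1 h2
  rwa [sub_add_sub_comm] at this

lemma IsULim.const (z : Z) : IsULim I U (fun _ => z) z := by
  intro k
  simp

lemma IsULim.sum {ι : Type*} (s : Finset ι) {x : ι → ℕ → Z} {z : ι → Z}
    (h : ∀ i ∈ s, IsULim I U (x i) (z i)) :
    IsULim I U (fun n => ∑ i ∈ s, x i n) (∑ i ∈ s, z i) := by
  classical
  induction s using Finset.induction_on with
  | empty => simpa using IsULim.const (0 : Z)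
  | insert a s ha ih =>
    simp only [Finset.sum_insert ha]
    exact (h a (Finset.mem_insert_self _ _)).add
      (ih fun i hi => h i (Finset.mem_insert_of_mem hi))

lemma IsULim.smul {a : ℕ → B} {b : B} {x : ℕ → Z} {z : Z} (ha : IsULim I U a b)
    (hx : IsULim I U x z) : IsULim I U (fun n => a n • x n) (b • z) := by
  intro k
  filter_upwards [ha k, hx k] with n h1 h2
  rw [smul_eq_mul, Ideal.mul_top] at h1
  have h3 : a n • x n - b • z = (a n - b) • x n + b • (x n - z) := by
    rw [sub_smul, smul_sub]; abel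
  rw [h3]
  exact add_mem (Submodule.smul_mem_smul h1 trivial) (Submodule.smul_mem _ _ h2)

lemma IsULim.mul {a a' : ℕ → B} {b b' : B} (ha : IsULim I U a b)
    (hx : IsULim I U a' b') : IsULim I U (fun n => a n * a' n) (b * b') :=
  ha.smul hx

/-- the limit only depends on the sequence up to sequences tending to zero -/
lemma IsULim.congr {x y : ℕ → Z} {z : Z} (hx : IsULim I U x z)
    (h : ∀ k, ∀ᶠ n in (U : Filter ℕ), y n - x n ∈ (I ^ k • ⊤ : Submodule B Z)) :
    IsULim I U y z := by
  intro k
  filter_upwards [hx k, h k] with n h1 h2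
  simpa using add_mem h2 h1

lemma IsULim.mem_of_eventually {x : ℕ → Z} {z : Z} (hx : IsULim I U x z) {k : ℕ}
    (h : ∀ᶠ n in (U : Filter ℕ), x n ∈ (I ^ k • ⊤ : Submodule B Z)) :
    z ∈ (I ^ k • ⊤ : Submodule B Z) := by
  obtain ⟨n, h1, h2⟩ := ((hx k).and h).exists
  simpa using sub_mem h2 h1

/-- transfer of limits along a local homomorphism -/
lemma IsULim.map {C : Type*} [CommRing C] {J : Ideal C} (f : B →+* C) (hf : I ≤ J.comap f)
    {a : ℕ → B} {b : B} (ha : IsULim I U a b) : IsULim J U (fun n => f (a n)) (f b) := by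
  intro k
  filter_upwards [ha k] with n h1
  rw [smul_eq_mul, Ideal.mul_top] at h1 ⊢
  rw [← map_sub]
  have h2 : I ^ k ≤ (J ^ k).comap f := by
    rw [← Ideal.map_le_iff_le_comap, Ideal.map_pow]
    exact Ideal.pow_right_mono (Ideal.map_le_iff_le_comap.mpr hf) k
  exact h2 h1

end ULim

section FL

lemma pow_smul_top_eq_bot_of_card_le {B : Type*} [CommRing B] [IsLocalRing B] (K : ℕ) :
    ∀ {Z : Type*} [AddCommGroup Z] [Module B Z] [Finite Z], Nat.card Z ≤ K →
      (maximalIdeal B ^ K • ⊤ : Submodule B Z) = ⊥ := by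
  induction K with
  | zero =>
    intro Z _ _ _ h
    exact absurd (Nat.card_pos (α := Z)) (by omega)
  | succ K ih =>
    intro Z _ _ _ h
    rcases subsingleton_or_nontrivial Z with hZ | hZ
    · exact Subsingleton.elim _ _
    · have hne : (maximalIdeal B • ⊤ : Submodule B Z) ≠ ⊤ := by
        intro h1
        have h2 : (⊤ : Submodule B Z) ≤ ⊥ :=
          Submodule.le_of_le_smul_of_le_jacobson_bot (Module.Finite.fg_top (R := B) (M := Z))
            (maximalIdeal_le_jacobson _) (by rw [h1, bot_sup_eq])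
        exact bot_ne_top (le_antisymm bot_le h2)
      have hlt : Nat.card (maximalIdeal B • ⊤ : Submodule B Z) < Nat.card Z := by
        have h3 : ((maximalIdeal B • ⊤ : Submodule B Z) : Set Z) ⊂ Set.univ := by
          rw [Set.ssubset_univ_iff]
          intro h4
          exact hne (SetLike.coe_injective h4)
        have := Set.ncard_lt_ncard h3 (Set.finite_univ)
        rwa [Set.ncard_univ] at this
      have h5 := ih (Z := (maximalIdeal B • ⊤ : Submodule B Z)) (by omega)
      have h6 := congrArg (Submodule.map (Submodule.subtype _)) h5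
      rw [Submodule.map_smul'', Submodule.map_top, Submodule.range_subtype,
        Submodule.map_bot, ← Submodule.mul_smul, ← pow_succ] at h6
      exact h6

end FL

end Fermat.Agent.H57
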