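/-
Evaluation of one-variable power series over an arbitrary ring in adically complete rings,
uniqueness of evaluation homs, generalities on iterated power series rings.
-/
import Mathlib
import Fermat.Agent.H57AdicLimit

set_option autoImplicit false

namespace Fermat.Agent.H57.Tame

open PowerSeries IsLocalRing

/-- evaluation of power series. -/
theorem exists_eval {B W : Type*} [CommRing B] [CommRing W] (ε : B →+* W) (I : Ideal W)
    [hI : IsAdicComplete I W] (w : W) (hw : w ∈ I) :
    ∃ E : B⟦X⟧ →+* W, (∀ b, E (C b) = ε b) ∧ E X = w := by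
  letI : WithIdeal W := ⟨I⟩
  letI : UniformSpace B := ⊥
  have : DiscreteTopology B := ⟨rfl⟩
  have : IsUniformAddGroup B := by infer_instance
  have : IsTopologicalRing B := by infer_instance
  have hadic : IsAdic I := rfl
  have hc := (IsAdic.isAdicComplete_iff (I := I) (R := W) hadic).1 hI
  have : CompleteSpace W := hc.1
  have : T2Space W := hc.2
  have : IsLinearTopology W W := by infer_instance
  have hε : Continuous ε := continuous_of_discreteTopology
  have ha : PowerSeries.HasEval w := by
    rw [PowerSeries.hasEval_def, IsTopologicallyNilpotent, hadic.hasBasis_nhds_zero.tendsto_right_iff]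
    intro n _
    filter_upwards [Filter.eventually_ge_atTop n] with m hm
    exact Ideal.pow_le_pow_right hm (Ideal.pow_mem_pow hw m)
  refine ⟨PowerSeries.eval₂Hom hε ha, fun b => ?_, ?_⟩
  · rw [PowerSeries.coe_eval₂Hom, PowerSeries.eval₂_C]
  · rw [PowerSeries.coe_eval₂Hom, PowerSeries.eval₂_X]

/-- uniqueness of evaluation -/
theorem eval_unique {B W : Type*} [CommRing B] [CommRing W] {f g : B⟦X⟧ →+* W} (I : Ideal W)
    [hI : IsHausdorff I W] (hC : ∀ b, f (C b) = g (C b)) (hX : f X = g X) (hXI : f X ∈ I) :
    f = g := by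
  ext p
  rw [← sub_eq_zero]
  refine IsHausdorff.haus hI _ fun n => ?_
  rw [SModEq.zero, smul_eq_mul, Ideal.mul_top]
  obtain ⟨q, hq⟩ : ∃ q : B⟦X⟧, p = (trunc n p : B⟦X⟧) + X ^ n * q := by
    refine ⟨PowerSeries.mk fun i => coeff (i + n) p, ?_⟩
    rw [add_comm]
    exact PowerSeries.eq_X_pow_mul_shift_add_trunc n p
  have h1 : ∀ r : Polynomial B, f (r : B⟦X⟧) = g (r : B⟦X⟧) := by
    intro r
    induction r using Polynomial.induction_on' with
    | add a b ha hb => rw [Polynomial.coe_add, map_add, map_add, ha, hb]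
    | monomial k b =>
      rw [Polynomial.coe_monomial, PowerSeries.monomial_eq_C_mul_X_pow, map_mul, map_mul, map_pow,
        map_pow, hC, hX]
  rw [hq, map_add, map_add, h1, map_mul, map_mul, map_pow, map_pow, hX, add_sub_add_left_eq_sub,
    ← mul_sub, ← hX]
  exact Ideal.mul_mem_right _ _ (Ideal.pow_mem_pow hXI n)

/-- decomposition `f = C f₀ + X g` -/
theorem exists_eq_C_add_X_mul {B : Type*} [CommRing B] (f : B⟦X⟧) :
    ∃ g : B⟦X⟧, f = C (constantCoeff f) + X * g := by
  refine ⟨PowerSeries.mk fun i => coeff (i + 1) f, ?_⟩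
  rw [add_comm]
  exact PowerSeries.eq_X_mul_shift_add_const f

end Fermat.Agent.H57.Tame
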