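/-
The quadric cone `β γ = α (ε - α)` over a complete noetherian local domain is a domain.
-/
import Fermat.Agent.H57PSEval

set_option autoImplicit false

namespace Fermat.Agent.H57.Tame

open PowerSeries IsLocalRing

section

variable {A : Type*} [CommRing A]

/-- `β γ - α (ε - α)` in `A⟦γ⟧⟦α⟧⟦β⟧` -/
noncomputable def coneRel (ε : A) : A⟦X⟧⟦X⟧⟦X⟧ := X * C (C X) - C (X * (C (C ε) - X))

lemma cone_key [IsDomain A] {ε : A} (hε : ε ≠ 0) {f G : A⟦X⟧⟦X⟧}
    (h : rescale (X : A⟦X⟧) f = X * (C (C ε) - X * C X) * G) :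
    ∃ g : A⟦X⟧⟦X⟧, f = X * (C (C ε) - X) * g := by
  have h0 : coeff 0 f = 0 := by
    have := congrArg (coeff 0) h
    rw [coeff_rescale, pow_zero, one_mul, mul_assoc, coeff_zero_X_mul] at this
    exact this
  have h1 : ∀ n, X ^ (n + 1) * coeff (n + 1) f =
      C ε * coeff n G - X * (if n = 0 then 0 else coeff (n - 1) G) := by
    intro n
    have := congrArg (coeff (n + 1)) h
    rw [coeff_rescale, mul_assoc, coeff_succ_X_mul, sub_mul, map_sub, coeff_C_mul, mul_assoc] at this
    rw [this]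
    congr 1
    cases n with
    | zero => rw [coeff_zero_X_mul]; simp
    | succ n =>
      rw [coeff_succ_X_mul, coeff_C_mul]
      simp
  have h2 : ∀ n, (X : A⟦X⟧) ^ (n + 1) ∣ coeff n G := by
    intro n
    induction n with
    | zero =>
      have := h1 0
      simp only [if_true, mul_zero, sub_zero] at this
      have h3 : (X : A⟦X⟧) ^ (0 + 1) ∣ C ε * coeff 0 G := ⟨_, this.symm⟩
      rw [X_pow_dvd_iff] at h3 ⊢
      intro m hm
      have := h3 m hm
      rw [coeff_C_mul] at this
      exact (mul_eq_zero.mp this).resolve_left hε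
    | succ n ih =>
      have := h1 (n + 1)
      simp only [Nat.add_eq_zero_iff, one_ne_zero, and_false, if_false, Nat.add_sub_cancel] at this
      have h3 : (X : A⟦X⟧) ^ (n + 1 + 1) ∣ C ε * coeff (n + 1) G := by
        have h4 : C ε * coeff (n + 1) G = X ^ (n + 1 + 1) * coeff (n + 1 + 1) f + X * coeff n G := by
          rw [this]; ring
        rw [h4]
        apply dvd_add (Dvd.intro _ rfl)
        rw [pow_succ' X (n + 1)]
        exact mul_dvd_mul_left _ ih
      rw [X_pow_dvd_iff] at h3 ⊢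
      intro m hm
      have := h3 m hm
      rw [coeff_C_mul] at this
      exact (mul_eq_zero.mp this).resolve_left hε
  choose g hg using h2
  refine ⟨PowerSeries.mk g, ?_⟩
  ext1 n
  cases n with
  | zero => rw [h0, mul_assoc, coeff_zero_X_mul]
  | succ n =>
    rw [mul_assoc, coeff_succ_X_mul, sub_mul, map_sub, coeff_C_mul, coeff_mk]
    have h3 := h1 n
    have hX : (X : A⟦X⟧) ^ (n + 1) ≠ 0 := pow_ne_zero _ X_ne_zero
    apply mul_left_cancel₀ hX
    rw [h3, hg n]
    cases n with
    | zero => rw [coeff_zero_X_mul]; simp; ring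
    | succ n =>
      rw [coeff_succ_X_mul, coeff_mk]
      simp only [Nat.add_eq_zero_iff, one_ne_zero, and_false, if_false, Nat.add_sub_cancel]
      rw [hg n]
      ring

/-- Nakayama in the form: `K ≤ J + t K` implies `K ≤ J`. -/
lemma le_of_forall_exists {R : Type*} [CommRing R] [IsLocalRing R] [IsNoetherianRing R]
    {K J : Ideal R} {t : R} (ht : t ∈ maximalIdeal R)
    (h : ∀ f ∈ K, ∃ j ∈ J, ∃ g ∈ K, f = j + t * g) : K ≤ J := by
  refine Submodule.le_of_le_smul_of_le_jacobson_bot (I := Ideal.span {t})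
    (IsNoetherian.noetherian K) ?_ ?_
  · rw [Ideal.span_singleton_le_iff_mem]
    exact IsLocalRing.maximalIdeal_le_jacobson ⊥ ht
  · intro f hf
    obtain ⟨j, hj, g, hg, rfl⟩ := h f hf
    exact Submodule.add_mem_sup hj (Submodule.smul_mem_smul (Ideal.mem_span_singleton_self t) hg)

lemma X_mem_maximalIdeal {B : Type*} [CommRing B] [IsLocalRing B] :
    (X : B⟦X⟧) ∈ maximalIdeal B⟦X⟧ := by
  rw [mem_maximalIdeal, mem_nonunits_iff, PowerSeries.isUnit_iff_constantCoeff, constantCoeff_X]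
  exact not_isUnit_zero

lemma C_mem_maximalIdeal {B : Type*} [CommRing B] [IsLocalRing B] {b : B}
    (hb : b ∈ maximalIdeal B) : (C b : B⟦X⟧) ∈ maximalIdeal B⟦X⟧ := by
  rw [mem_maximalIdeal, mem_nonunits_iff, PowerSeries.isUnit_iff_constantCoeff, constantCoeff_C]
  exact hb

variable [IsLocalRing A] [IsNoetherianRing A] [IsAdicComplete (maximalIdeal A) A]

/-- the chart `A⟦γ⟧⟦α⟧⟦β⟧ → A⟦γ⟧⟦v⟧`. -/
lemma exists_coneChart (ε : A) : ∃ E : A⟦X⟧⟦X⟧⟦X⟧ →+* A⟦X⟧⟦X⟧,
    (∀ b, E (C b) = rescale (X : A⟦X⟧) b) ∧ E X = X * (C (C ε) - X * C X) :=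
  exists_eval (rescale (X : A⟦X⟧)) (maximalIdeal (A⟦X⟧⟦X⟧)) _
    (Ideal.mul_mem_right _ _ X_mem_maximalIdeal)

/-- the chart -/
noncomputable def coneChart (ε : A) : A⟦X⟧⟦X⟧⟦X⟧ →+* A⟦X⟧⟦X⟧ := (exists_coneChart ε).choose

lemma coneChart_C (ε : A) (b : A⟦X⟧⟦X⟧) : coneChart ε (C b) = rescale (X : A⟦X⟧) b :=
  (exists_coneChart ε).choose_spec.1 b

lemma coneChart_X (ε : A) : coneChart ε X = X * (C (C ε) - X * C X) :=
  (exists_coneChart ε).choose_spec.2

lemma rescale_C {B : Type*} [CommRing B] (a b : B) : rescale a (C b) = C b := by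
  ext n
  rw [coeff_rescale, coeff_C]
  split_ifs with h
  · rw [h, pow_zero, one_mul]
  · rw [mul_zero]

lemma rescale_X' {B : Type*} [CommRing B] (a : B) : rescale a X = X * C a := by
  rw [rescale_X, mul_comm]

lemma coneChart_rel (ε : A) : coneChart ε (coneRel ε) = 0 := by
  rw [coneRel, map_sub, map_mul, coneChart_X, coneChart_C, coneChart_C, rescale_C, map_mul, map_sub,
    rescale_C, rescale_X']
  ring

variable [IsDomain A]

theorem ker_coneChart {ε : A} (hε : ε ≠ 0) :
    RingHom.ker (coneChart ε) = Ideal.span {coneRel ε} := by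
  apply le_antisymm
  · apply le_of_forall_exists (t := X) X_mem_maximalIdeal
    intro f hf
    obtain ⟨g, hg⟩ := exists_eq_C_add_X_mul f
    rw [RingHom.mem_ker, hg, map_add, map_mul, coneChart_C, coneChart_X] at hf
    have h1 : rescale (X : A⟦X⟧) (constantCoeff f) = X * (C (C ε) - X * C X) * (- coneChart ε g) := by
      linear_combination hf
    obtain ⟨h, hh⟩ := cone_key hε h1
    refine ⟨coneRel ε * (- C h), Ideal.mul_mem_right _ _ (Ideal.mem_span_singleton_self _),
      g + C (C X) * C h, ?_, ?_⟩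
    · rw [RingHom.mem_ker]
      have hne : (X * (C (C ε) - X * C X) : A⟦X⟧⟦X⟧) ≠ 0 := by
        apply mul_ne_zero X_ne_zero
        intro h0
        have := congrArg (fun p => constantCoeff (constantCoeff p)) h0
        simp at this
        exact hε this
      apply mul_left_cancel₀ hne
      rw [mul_zero, map_add, map_mul, coneChart_C, coneChart_C, rescale_C]
      have h2 := congrArg (rescale (X : A⟦X⟧)) hh
      rw [map_mul, map_mul, map_sub, rescale_C, rescale_X'] at h2
      linear_combination hf - h2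
    · rw [hg, hh, coneRel, map_mul]
      ring
  · rw [Ideal.span_singleton_le_iff_mem, RingHom.mem_ker, coneChart_rel]

/-- the quadric cone -/
abbrev Cone (ε : A) : Type _ := A⟦X⟧⟦X⟧⟦X⟧ ⧸ Ideal.span {coneRel ε}

end

end Fermat.Agent.H57.Tame
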