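/-
Power series Rees algebras of regular sequences of length `2` and `3`.
-/
import Fermat.Agent.H57TameCone
import Fermat.Prelude.Thm_IsLocalRing_isAdicComplete_of_module_finite

set_option autoImplicit false
set_option linter.unusedSectionVars false

namespace Fermat.Agent.H57.Tame

open PowerSeries IsLocalRing

universe u

section Quot

variable {C : Type u} [CommRing C] [IsLocalRing C] [IsNoetherianRing C]
  [IsAdicComplete (maximalIdeal C) C]

lemma isLocalRing_quot {J : Ideal C} (hJ : J ≤ maximalIdeal C) : IsLocalRing (C ⧸ J) := by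
  have : Nontrivial (C ⧸ J) := Ideal.Quotient.nontrivial_iff.mpr fun h =>
    (maximalIdeal.isMaximal C).ne_top (top_le_iff.mp (h ▸ hJ))
  exact IsLocalRing.of_surjective' (Ideal.Quotient.mk J) Ideal.Quotient.mk_surjective

lemma isAdicComplete_quot {J : Ideal C} [IsLocalRing (C ⧸ J)] :
    IsAdicComplete (maximalIdeal (C ⧸ J)) (C ⧸ J) := by
  have : IsLocalHom (algebraMap C (C ⧸ J)) :=
    IsLocalHom.of_surjective (algebraMap C (C ⧸ J)) Ideal.Quotient.mk_surjective
  exact IsLocalRing.isAdicComplete_of_module_finite (𝒪 := C)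

end Quot

section Ext

variable {C : Type u} [CommRing C] [IsLocalRing C] [IsNoetherianRing C]
  [IsAdicComplete (maximalIdeal C) C] {B : Type u} [CommRing B]

lemma exists_ext (ε : B →+* C⟦X⟧) (x : C) : ∃ E : B⟦X⟧ →+* C⟦X⟧,
    (∀ b, E (PowerSeries.C b) = ε b) ∧ E X = X * PowerSeries.C x :=
  exists_eval ε (maximalIdeal C⟦X⟧) _ (Ideal.mul_mem_right _ _ X_mem_maximalIdeal)

/-- extend `ε : B → C⟦λ⟧` to `B⟦X⟧` by `X ↦ λ x`. -/
noncomputable def ext (ε : B →+* C⟦X⟧) (x : C) : B⟦X⟧ →+* C⟦X⟧ := (exists_ext ε x).choose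

lemma ext_C (ε : B →+* C⟦X⟧) (x : C) (b : B) : ext ε x (PowerSeries.C b) = ε b :=
  (exists_ext ε x).choose_spec.1 b

lemma ext_X (ε : B →+* C⟦X⟧) (x : C) : ext ε x X = X * PowerSeries.C x :=
  (exists_ext ε x).choose_spec.2

variable {C' : Type u} [CommRing C'] [IsLocalRing C'] [IsNoetherianRing C']
  [IsAdicComplete (maximalIdeal C') C'] {B' : Type u} [CommRing B']

lemma ext_naturality (ε : B →+* C⟦X⟧) (ε' : B' →+* C'⟦X⟧) (φ : C →+* C') (ψ : B →+* B')
    (h : ∀ b, PowerSeries.map φ (ε b) = ε' (ψ b)) (x : C) (f : B⟦X⟧) :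
    PowerSeries.map φ (ext ε x f) = ext ε' (φ x) (PowerSeries.map ψ f) := by
  have := eval_unique (f := (PowerSeries.map φ).comp (ext ε x))
    (g := (ext ε' (φ x)).comp (PowerSeries.map ψ)) (maximalIdeal C'⟦X⟧) ?_ ?_ ?_
  · exact congrArg (fun F : B⟦X⟧ →+* C'⟦X⟧ => F f) this
  · intro b
    rw [RingHom.comp_apply, RingHom.comp_apply, ext_C, map_C, ext_C, h]
  · rw [RingHom.comp_apply, RingHom.comp_apply, ext_X, map_X, ext_X, map_mul, map_X, map_C]
  · rw [RingHom.comp_apply, ext_X, map_mul, map_X]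
    exact Ideal.mul_mem_right _ _ X_mem_maximalIdeal

end Ext

section Two

variable {C : Type u} [CommRing C] [IsLocalRing C] [IsNoetherianRing C]
  [IsAdicComplete (maximalIdeal C) C]

/-- `C⟦X₃⟧⟦X₂⟧ → C⟦λ⟧` -/
noncomputable def rees2 (x₂ x₃ : C) : C⟦X⟧⟦X⟧ →+* C⟦X⟧ := ext (rescale x₃) x₂

/-- `x₂ X₃ - x₃ X₂` -/
noncomputable def rel23 (x₂ x₃ : C) : C⟦X⟧⟦X⟧ :=
  PowerSeries.C (PowerSeries.C x₂ * X) - X * PowerSeries.C (PowerSeries.C x₃)

lemma rees2_rel (x₂ x₃ : C) : rees2 x₂ x₃ (rel23 x₂ x₃) = 0 := by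
  rw [rel23, map_sub, map_mul (rees2 x₂ x₃) X, rees2, ext_C, ext_C, ext_X, map_mul, rescale_C,
    rescale_C, rescale_X']
  ring

lemma dvd_of_dvd_pow_mul {x₂ x₃ : C} (hx₃ : ∀ c, x₂ ∣ x₃ * c → x₂ ∣ c) (n : ℕ) (c : C)
    (h : x₂ ∣ x₃ ^ n * c) : x₂ ∣ c := by
  induction n with
  | zero => simpa using h
  | succ n ih => exact ih (hx₃ _ (by rwa [← mul_assoc, ← pow_succ']))

theorem ker_rees2 {x₂ x₃ : C} (hx₂ : ∀ c, x₂ * c = 0 → c = 0)
    (hx₃ : ∀ c, x₂ ∣ x₃ * c → x₂ ∣ c) :
    RingHom.ker (rees2 x₂ x₃) ≤ Ideal.span {rel23 x₂ x₃} := by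
  apply le_of_forall_exists (t := X) X_mem_maximalIdeal
  intro f hf
  obtain ⟨g, hg⟩ := exists_eq_C_add_X_mul f
  set f₀ := constantCoeff f with hf₀
  rw [RingHom.mem_ker, hg, map_add, map_mul, rees2, ext_C, ext_X] at hf
  -- coefficients of `f₀`
  have h0 : coeff 0 f₀ = 0 := by
    have := congrArg (coeff 0) hf
    rw [map_add, coeff_rescale, pow_zero, one_mul, mul_assoc, coeff_zero_X_mul, add_zero,
      map_zero] at this
    exact this
  have h1 : ∀ n, x₂ ∣ coeff (n + 1) f₀ := by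
    intro n
    apply dvd_of_dvd_pow_mul hx₃ (n + 1)
    have := congrArg (coeff (n + 1)) hf
    rw [map_add, coeff_rescale, mul_assoc, coeff_succ_X_mul, coeff_C_mul, map_zero] at this
    exact ⟨-coeff n (ext (rescale x₃) x₂ g), by linear_combination this⟩
  choose h hh using h1
  have h2 : f₀ = PowerSeries.C x₂ * X * PowerSeries.mk h := by
    ext n
    cases n with
    | zero => rw [h0, mul_assoc, coeff_C_mul, coeff_zero_X_mul, mul_zero]
    | succ n => rw [mul_assoc, coeff_C_mul, coeff_succ_X_mul, coeff_mk, hh]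
  refine ⟨rel23 x₂ x₃ * PowerSeries.C (PowerSeries.mk h),
    Ideal.mul_mem_right _ _ (Ideal.mem_span_singleton_self _),
    g + PowerSeries.C (PowerSeries.C x₃ * PowerSeries.mk h), ?_, ?_⟩
  · rw [RingHom.mem_ker]
    have hreg : ∀ p : C⟦X⟧, X * PowerSeries.C x₂ * p = 0 → p = 0 := by
      intro p hp
      ext n
      have := congrArg (coeff (n + 1)) hp
      rw [mul_assoc, coeff_succ_X_mul, coeff_C_mul, map_zero] at this
      rw [hx₂ _ this, map_zero]
    apply hreg
    rw [rees2, map_add, ext_C, map_mul, rescale_C]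
    rw [h2, map_mul, map_mul, rescale_C, rescale_X'] at hf
    linear_combination hf
  · conv_lhs => rw [hg, h2]
    rw [rel23, map_mul, map_mul, map_mul]
    ring

end Two

section Three

variable {C : Type u} [CommRing C] [IsLocalRing C] [IsNoetherianRing C]
  [IsAdicComplete (maximalIdeal C) C]

/-- `C⟦X₃⟧⟦X₂⟧⟦X₁⟧ → C⟦λ⟧` -/
noncomputable def rees3 (x₁ x₂ x₃ : C) : C⟦X⟧⟦X⟧⟦X⟧ →+* C⟦X⟧ := ext (rees2 x₂ x₃) x₁

/-- the ideal of `2 × 2` minors -/
noncomputable def minors3 (x₁ x₂ x₃ : C) : Ideal C⟦X⟧⟦X⟧⟦X⟧ :=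
  Ideal.span {PowerSeries.C (rel23 x₂ x₃),
    PowerSeries.C (PowerSeries.C (PowerSeries.C x₁) * X) -
      X * PowerSeries.C (PowerSeries.C (PowerSeries.C x₂)),
    PowerSeries.C (PowerSeries.C (PowerSeries.C x₁ * X)) -
      X * PowerSeries.C (PowerSeries.C (PowerSeries.C x₃))}

lemma minors3_le (x₁ x₂ x₃ : C) : minors3 x₁ x₂ x₃ ≤ RingHom.ker (rees3 x₁ x₂ x₃) := by
  rw [minors3, Ideal.span_le]
  rintro _ (rfl | rfl | rfl)
  · rw [SetLike.mem_coe, RingHom.mem_ker, rees3, ext_C, rees2_rel]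
  · rw [SetLike.mem_coe, RingHom.mem_ker, map_sub, map_mul (rees3 x₁ x₂ x₃) X, rees3, ext_C, ext_C,
      ext_X, map_mul, rees2, ext_C, ext_C, ext_X, rescale_C, rescale_C]
    ring
  · rw [SetLike.mem_coe, RingHom.mem_ker, map_sub, map_mul (rees3 x₁ x₂ x₃) X, rees3, ext_C, ext_C,
      ext_X, rees2, ext_C, ext_C, map_mul, rescale_C, rescale_C, rescale_X']
    ring

/-- kernel of `map (map (mk (x)))` -/
lemma exists_of_map_map_eq_zero {x : C} {f : C⟦X⟧⟦X⟧}
    (h : PowerSeries.map (PowerSeries.map (Ideal.Quotient.mk (Ideal.span {x}))) f = 0) :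
    ∃ g : C⟦X⟧⟦X⟧, f = PowerSeries.C (PowerSeries.C x) * g := by
  have h1 : ∀ i j, ∃ c, coeff j (coeff i f) = x * c := by
    intro i j
    have := congrArg (fun p => coeff j (coeff i p)) h
    simp only [coeff_map, map_zero] at this
    rw [Ideal.Quotient.eq_zero_iff_mem, Ideal.mem_span_singleton] at this
    exact this
  choose c hc using h1
  refine ⟨PowerSeries.mk fun i => PowerSeries.mk fun j => c i j, ?_⟩
  ext i j
  rw [coeff_C_mul, coeff_mk, coeff_C_mul, coeff_mk, hc]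

lemma map_surjective' {B B' : Type*} [CommRing B] [CommRing B'] {φ : B →+* B'}
    (h : Function.Surjective φ) : Function.Surjective (PowerSeries.map φ) := by
  intro f
  choose g hg using fun n => h (coeff n f)
  refine ⟨PowerSeries.mk g, ?_⟩
  ext n
  rw [coeff_map, coeff_mk, hg]

set_option maxHeartbeats 2000000 in
theorem ker_rees3 {x₁ x₂ x₃ : C} (hx₁m : x₁ ∈ maximalIdeal C) (hx₁ : ∀ c, x₁ * c = 0 → c = 0)
    (hx₂ : ∀ c, x₁ ∣ x₂ * c → x₁ ∣ c)
    (hx₃ : ∀ c, x₃ * c ∈ Ideal.span {x₁, x₂} → c ∈ Ideal.span {x₁, x₂}) :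
    RingHom.ker (rees3 x₁ x₂ x₃) = minors3 x₁ x₂ x₃ := by
  refine le_antisymm ?_ (minors3_le _ _ _)
  let J : Ideal C := Ideal.span {x₁}
  have hJ : J ≤ maximalIdeal C := by rwa [Ideal.span_singleton_le_iff_mem]
  have : IsLocalRing (C ⧸ J) := isLocalRing_quot hJ
  have : IsAdicComplete (maximalIdeal (C ⧸ J)) (C ⧸ J) := isAdicComplete_quot
  let π := Ideal.Quotient.mk J
  have hker2 : RingHom.ker (rees2 (π x₂) (π x₃)) ≤ Ideal.span {rel23 (π x₂) (π x₃)} := by
    apply ker_rees2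
    · intro c hc
      obtain ⟨c, rfl⟩ := Ideal.Quotient.mk_surjective c
      rw [← map_mul, Ideal.Quotient.eq_zero_iff_mem, Ideal.mem_span_singleton] at hc
      rw [Ideal.Quotient.eq_zero_iff_mem, Ideal.mem_span_singleton]
      exact hx₂ c hc
    · intro c hc
      obtain ⟨c, rfl⟩ := Ideal.Quotient.mk_surjective c
      obtain ⟨d, hd⟩ := hc
      obtain ⟨d, rfl⟩ := Ideal.Quotient.mk_surjective d
      rw [← map_mul, ← map_mul, Ideal.Quotient.eq, Ideal.mem_span_singleton] at hd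
      obtain ⟨e, he⟩ := hd
      have h1 : x₃ * c ∈ Ideal.span {x₁, x₂} := by
        rw [Ideal.mem_span_pair]
        exact ⟨e, d, by linear_combination -he⟩
      obtain ⟨e', d', h2⟩ := Ideal.mem_span_pair.mp (hx₃ c h1)
      refine ⟨π d', ?_⟩
      rw [← map_mul, Ideal.Quotient.eq, Ideal.mem_span_singleton]
      exact ⟨e', by linear_combination -h2⟩
  have hnat : ∀ f : C⟦X⟧⟦X⟧, PowerSeries.map π (rees2 x₂ x₃ f) =
      rees2 (π x₂) (π x₃) (PowerSeries.map (PowerSeries.map π) f) := by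
    intro f
    rw [rees2, rees2]
    apply ext_naturality
    intro b
    rw [rescale_map]
  have hcc : ∀ h : C⟦X⟧⟦X⟧, constantCoeff (rees2 x₂ x₃ h) = constantCoeff (constantCoeff h) := by
    intro h
    obtain ⟨g, hg⟩ := exists_eq_C_add_X_mul h
    conv_lhs => rw [hg]
    rw [rees2, map_add, map_mul, ext_C, ext_X, map_add, mul_assoc, map_mul, constantCoeff_X,
      zero_mul, add_zero]
    rw [← coeff_zero_eq_constantCoeff_apply, coeff_rescale, pow_zero, one_mul,
      coeff_zero_eq_constantCoeff_apply]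
  apply le_of_forall_exists (t := X) X_mem_maximalIdeal
  intro f hf
  obtain ⟨g, hg⟩ := exists_eq_C_add_X_mul f
  set h := constantCoeff f with hh
  have hf' := hf
  rw [RingHom.mem_ker, hg, map_add, map_mul, rees3, ext_C, ext_X] at hf
  -- `h mod x₁` is in the kernel
  have h1 : PowerSeries.map (PowerSeries.map π) h ∈ RingHom.ker (rees2 (π x₂) (π x₃)) := by
    rw [RingHom.mem_ker, ← hnat]
    have h2 : rees2 x₂ x₃ h = - (X * PowerSeries.C x₁ * ext (rees2 x₂ x₃) x₁ g) := by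
      linear_combination hf
    rw [h2, map_neg, map_mul, map_mul, map_C]
    have h3 : π x₁ = 0 := by
      rw [Ideal.Quotient.eq_zero_iff_mem]; exact Ideal.mem_span_singleton_self _
    rw [h3, map_zero, mul_zero, zero_mul, neg_zero]
  obtain ⟨k, hk⟩ := Ideal.mem_span_singleton.mp (hker2 h1)
  obtain ⟨k, rfl⟩ := map_surjective' (map_surjective' Ideal.Quotient.mk_surjective) k
  have h2 : PowerSeries.map (PowerSeries.map π) (h - rel23 x₂ x₃ * k) = 0 := by
    rw [map_sub, hk, map_mul, sub_eq_zero]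
    congr 1
    rw [rel23, rel23]
    simp only [map_sub, map_mul, map_C, map_X]
  obtain ⟨h'', hh''⟩ := exists_of_map_map_eq_zero h2
  -- the constant coefficient of `h''` vanishes
  have h3 : constantCoeff (constantCoeff h'') = 0 := by
    apply hx₁
    have h4 := congrArg (fun p => constantCoeff (constantCoeff p)) hh''
    simp only [map_sub, map_mul, constantCoeff_C] at h4
    have h5 : constantCoeff (constantCoeff h) = 0 := by
      rw [← hcc]
      have h2 : rees2 x₂ x₃ h = - (X * (PowerSeries.C x₁ * ext (rees2 x₂ x₃) x₁ g)) := by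
        linear_combination hf
      rw [h2, map_neg, map_mul, constantCoeff_X, zero_mul, neg_zero]
    have h6 : constantCoeff (constantCoeff (rel23 x₂ x₃)) = 0 := by
      rw [rel23]
      simp
    rw [h5, h6, zero_mul, sub_zero] at h4
    exact h4.symm
  obtain ⟨h₂, hh₂⟩ := exists_eq_C_add_X_mul h''
  obtain ⟨h₃, hh₃⟩ := X_dvd_iff.mpr h3
  have hfin : h = rel23 x₂ x₃ * k + PowerSeries.C (PowerSeries.C x₁) *
      (PowerSeries.C (X * h₃) + X * h₂) := by
    rw [← hh₃, ← hh₂]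
    linear_combination hh''
  refine ⟨PowerSeries.C (rel23 x₂ x₃) * PowerSeries.C k +
    (PowerSeries.C (PowerSeries.C (PowerSeries.C x₁ * X)) -
      X * PowerSeries.C (PowerSeries.C (PowerSeries.C x₃))) * PowerSeries.C (PowerSeries.C h₃) +
    (PowerSeries.C (PowerSeries.C (PowerSeries.C x₁) * X) -
      X * PowerSeries.C (PowerSeries.C (PowerSeries.C x₂))) * PowerSeries.C h₂, ?_,
    g + PowerSeries.C (PowerSeries.C (PowerSeries.C x₃ * h₃)) +
      PowerSeries.C (PowerSeries.C (PowerSeries.C x₂) * h₂), ?_, ?_⟩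
  · rw [minors3]
    refine Ideal.add_mem _ (Ideal.add_mem _ ?_ ?_) ?_
    · exact Ideal.mul_mem_right _ _ (Ideal.subset_span (by simp))
    · exact Ideal.mul_mem_right _ _ (Ideal.subset_span (by simp))
    · exact Ideal.mul_mem_right _ _ (Ideal.subset_span (by simp))
  · -- membership in the kernel
    have hreg : ∀ p : C⟦X⟧, X * PowerSeries.C x₁ * p = 0 → p = 0 := by
      intro p hp
      ext n
      have := congrArg (coeff (n + 1)) hp
      rw [mul_assoc, coeff_succ_X_mul, coeff_C_mul, map_zero] at this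
      rw [hx₁ _ this, map_zero]
    rw [RingHom.mem_ker]
    apply hreg
    have hr := rees2_rel x₂ x₃
    rw [hfin, map_add, map_mul, hr, zero_mul, zero_add] at hf
    rw [rees3, map_add, map_add, ext_C, ext_C]
    rw [rees2] at hf ⊢
    simp only [map_add, map_mul, ext_C, ext_X, rescale_C, rescale_X'] at hf ⊢
    linear_combination hf
  · conv_lhs => rw [hg, hfin]
    simp only [map_add, map_mul]
    ring

end Three

end Fermat.Agent.H57.Tame
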