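/-
Further properties of the quadric cone `C = A⟦γ⟧⟦α⟧⟦β⟧/(β γ - α (ε - α))`.
-/
import Fermat.Agent.H57TameRees

set_option autoImplicit false
set_option linter.unusedSectionVars false

namespace Fermat.Agent.H57.Tame

open PowerSeries IsLocalRing

universe u

variable {A : Type u} [CommRing A] [IsLocalRing A] [IsNoetherianRing A]
  [IsAdicComplete (maximalIdeal A) A]

instance instLocalCone (ε : A) : IsLocalRing (Cone ε) := by
  apply isLocalRing_quot
  rw [Ideal.span_singleton_le_iff_mem, coneRel]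
  refine Ideal.sub_mem _ (Ideal.mul_mem_right _ _ X_mem_maximalIdeal) ?_
  exact C_mem_maximalIdeal (Ideal.mul_mem_right _ _ X_mem_maximalIdeal)

instance instCompleteCone (ε : A) : IsAdicComplete (maximalIdeal (Cone ε)) (Cone ε) :=
  isAdicComplete_quot

/-- the structure map `A → Cone` -/
noncomputable def coneC (ε : A) : A →+* Cone ε :=
  (Ideal.Quotient.mk _).comp ((PowerSeries.C).comp ((PowerSeries.C).comp PowerSeries.C))

/-- `α` -/
noncomputable def cα (ε : A) : Cone ε := Ideal.Quotient.mk _ (C X)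

/-- `β` -/
noncomputable def cβ (ε : A) : Cone ε := Ideal.Quotient.mk _ X

/-- `γ` -/
noncomputable def cγ (ε : A) : Cone ε := Ideal.Quotient.mk _ (C (C X))

lemma cone_rel (ε : A) : cβ ε * cγ ε = cα ε * (coneC ε ε - cα ε) := by
  rw [← sub_eq_zero, cβ, cγ, cα, coneC]
  simp only [RingHom.comp_apply]
  rw [← map_mul, ← map_sub, ← map_mul, ← map_sub, Ideal.Quotient.eq_zero_iff_mem]
  convert Ideal.mem_span_singleton_self _ using 1
  rw [coneRel, map_mul, map_sub]

section Domain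

variable [IsDomain A]

/-- the chart of the cone -/
noncomputable def coneE {ε : A} : Cone ε →+* A⟦X⟧⟦X⟧ :=
  Ideal.Quotient.lift _ (coneChart ε) (by
    intro a ha
    obtain ⟨b, rfl⟩ := Ideal.mem_span_singleton.mp ha
    rw [map_mul, coneChart_rel, zero_mul])

lemma coneE_mk {ε : A} (f : A⟦X⟧⟦X⟧⟦X⟧) :
    coneE (Ideal.Quotient.mk (Ideal.span {coneRel ε}) f) = coneChart ε f := rfl

lemma coneE_injective {ε : A} (hε : ε ≠ 0) : Function.Injective (coneE (ε := ε)) := by
  rw [injective_iff_map_eq_zero]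
  intro a ha
  obtain ⟨f, rfl⟩ := Ideal.Quotient.mk_surjective a
  rw [coneE_mk] at ha
  rw [Ideal.Quotient.eq_zero_iff_mem, ← ker_coneChart hε]
  exact ha

lemma isDomain_cone {ε : A} (hε : ε ≠ 0) : IsDomain (Cone ε) :=
  (coneE_injective hε).isDomain

lemma coneE_α {ε : A} : coneE (cα ε) = X * C X := by
  rw [cα, coneE_mk, coneChart_C, rescale_X']

lemma coneE_β {ε : A} : coneE (cβ ε) = X * (C (C ε) - X * C X) := by
  rw [cβ, coneE_mk, coneChart_X]

lemma coneE_γ {ε : A} : coneE (cγ ε) = C X := by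
  rw [cγ, coneE_mk, coneChart_C, rescale_C]

lemma coneE_C {ε : A} (a : A) : coneE (coneC ε a) = C (C a) := by
  rw [coneC]
  simp only [RingHom.comp_apply]
  rw [coneE_mk, coneChart_C, rescale_C]

lemma constantCoeff_coneChart (ε : A) (f : A⟦X⟧⟦X⟧⟦X⟧) :
    constantCoeff (coneChart ε f) = constantCoeff (constantCoeff f) := by
  obtain ⟨g, hg⟩ := exists_eq_C_add_X_mul f
  conv_lhs => rw [hg]
  rw [map_add, map_mul, coneChart_C, coneChart_X, map_add, mul_assoc, map_mul, constantCoeff_X,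
    zero_mul, add_zero]
  rw [← coeff_zero_eq_constantCoeff_apply, coeff_rescale, pow_zero, one_mul,
    coeff_zero_eq_constantCoeff_apply]

/-- Lemma V -/
lemma mem_of_coneE {ε : A} {c : Cone ε} (h : constantCoeff (coneE c) = 0) :
    ∃ s t, c = cα ε * s + cβ ε * t := by
  obtain ⟨f, rfl⟩ := Ideal.Quotient.mk_surjective c
  rw [coneE_mk, constantCoeff_coneChart] at h
  obtain ⟨g, hg⟩ := exists_eq_C_add_X_mul f
  obtain ⟨g', hg'⟩ := X_dvd_iff.mpr h
  refine ⟨Ideal.Quotient.mk _ (C g'), Ideal.Quotient.mk _ g, ?_⟩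
  rw [cα, cβ, ← map_mul (Ideal.Quotient.mk (Ideal.span {coneRel ε})),
    ← map_mul (Ideal.Quotient.mk (Ideal.span {coneRel ε})), ← map_add]
  congr 1
  conv_lhs => rw [hg, hg']
  rw [map_mul]

end Domain

section Regular

variable [IsDomain A]

/-- kernel of `γ ↦ 0` -/
lemma exists_of_map_map_constantCoeff {f : A⟦X⟧⟦X⟧⟦X⟧}
    (h : PowerSeries.map (PowerSeries.map constantCoeff) f = 0) :
    ∃ g : A⟦X⟧⟦X⟧⟦X⟧, f = C (C X) * g := by
  have h1 : ∀ i j, ∃ c, coeff j (coeff i f) = X * c := by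
    intro i j
    have := congrArg (fun p => coeff j (coeff i p)) h
    simp only [coeff_map, map_zero] at this
    exact X_dvd_iff.mpr this
  choose c hc using h1
  refine ⟨PowerSeries.mk fun i => PowerSeries.mk fun j => c i j, ?_⟩
  ext1 i
  ext1 j
  rw [coeff_C_mul, coeff_mk, coeff_C_mul, coeff_mk, hc]

lemma cone_R1 {ε : A} (hε : ε ≠ 0) (c : Cone ε) (h : cγ ε * c = 0) : c = 0 := by
  have := isDomain_cone hε
  rcases mul_eq_zero.mp h with h | h
  · exfalso
    have h1 := congrArg coneE h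
    rw [coneE_γ, map_zero] at h1
    have h2 := congrArg (fun p => coeff 1 (constantCoeff p)) h1
    simp at h2
  · exact h

lemma cone_R2 {ε : A} (hε : ε ≠ 0) (c : Cone ε) (h : cγ ε ∣ cβ ε * c) : cγ ε ∣ c := by
  obtain ⟨f, rfl⟩ := Ideal.Quotient.mk_surjective c
  obtain ⟨d, hd⟩ := h
  obtain ⟨d, rfl⟩ := Ideal.Quotient.mk_surjective d
  rw [cβ, cγ, ← map_mul, ← map_mul, Ideal.Quotient.eq, Ideal.mem_span_singleton] at hd
  obtain ⟨e, he⟩ := hd
  let φ := PowerSeries.map (PowerSeries.map (constantCoeff (R := A)))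
  have hφ : φ (coneRel ε) = - C (X * (C ε - X)) := by
    rw [coneRel]
    simp only [φ, map_sub, map_mul, map_C, map_X, constantCoeff_X, map_zero, mul_zero, zero_sub,
      constantCoeff_C]
  have h1 := congrArg φ he
  rw [map_sub, map_mul, map_mul, map_mul, hφ] at h1
  have h2 : φ X = X := by simp [φ]
  have h3 : φ (C (C X)) = 0 := by simp [φ]
  rw [h2, h3, zero_mul, sub_zero] at h1
  -- `X * φ f = - C u * φ e`
  have h4 : constantCoeff (φ e) = 0 := by
    have := congrArg constantCoeff h1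
    rw [map_mul, constantCoeff_X, zero_mul, map_mul, map_neg, constantCoeff_C] at this
    have hu : (X * (C ε - X) : A⟦X⟧) ≠ 0 := by
      apply mul_ne_zero X_ne_zero
      intro h0
      have := congrArg constantCoeff h0
      simp at this
      exact hε this
    rcases mul_eq_zero.mp this.symm with h | h
    · exact absurd (neg_eq_zero.mp h) hu
    · exact h
  obtain ⟨e', he'⟩ := X_dvd_iff.mpr h4
  have h5 : φ f = - C (X * (C ε - X)) * e' := by
    apply mul_left_cancel₀ (X_ne_zero (R := A⟦X⟧))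
    rw [h1, he']; ring
  -- lift `e'`
  let ψ := PowerSeries.map (PowerSeries.map (PowerSeries.C (R := A)))
  have hψ : φ (ψ e') = e' := by
    ext i j
    simp [φ, ψ]
  have h6 : φ (f - coneRel ε * ψ e') = 0 := by
    rw [map_sub, map_mul, hφ, hψ, h5, sub_self]
  obtain ⟨g, hg⟩ := exists_of_map_map_constantCoeff h6
  refine ⟨Ideal.Quotient.mk _ g, ?_⟩
  rw [cγ, ← map_mul, ← hg, Ideal.Quotient.eq, Ideal.mem_span_singleton]
  exact ⟨ψ e', by ring⟩

lemma dvd_of_dvd_X_mul {κ : A} (hκ : κ ≠ 0) {s : A⟦X⟧} (h : (C κ - X) ∣ X * s) : (C κ - X) ∣ s := by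
  obtain ⟨w, hw⟩ := h
  have h0 : constantCoeff w = 0 := by
    have := congrArg constantCoeff hw
    simp at this
    exact this.resolve_left hκ
  obtain ⟨w', rfl⟩ := X_dvd_iff.mpr h0
  refine ⟨w', ?_⟩
  apply mul_left_cancel₀ (X_ne_zero (R := A))
  rw [hw]; ring

lemma dvd_of_dvd_sq_mul {κ : A} (hκ : κ ≠ 0) {s : A⟦X⟧} (h : (C κ - X) ∣ C κ ^ 2 * s) :
    (C κ - X) ∣ s := by
  have h1 : (C κ - X) ∣ X * (X * s) := by
    have : X * (X * s) = C κ ^ 2 * s - (C κ - X) * ((C κ + X) * s) := by ring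
    rw [this]
    exact dvd_sub h (Dvd.intro _ rfl)
  exact dvd_of_dvd_X_mul hκ (dvd_of_dvd_X_mul hκ h1)

lemma cone_R3 {ε κ : A} (hκ : κ ≠ 0) (hεκ : ε = κ + κ) (c : Cone ε)
    (h : (coneC ε κ - cα ε) * c ∈ Ideal.span {cγ ε, cβ ε}) : c ∈ Ideal.span {cγ ε, cβ ε} := by
  obtain ⟨f, rfl⟩ := Ideal.Quotient.mk_surjective c
  rw [Ideal.mem_span_pair] at h ⊢
  obtain ⟨a, b, hab⟩ := h
  obtain ⟨a, rfl⟩ := Ideal.Quotient.mk_surjective a
  obtain ⟨b, rfl⟩ := Ideal.Quotient.mk_surjective b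
  rw [coneC] at hab
  simp only [RingHom.comp_apply] at hab
  rw [cβ, cγ, cα, ← map_sub, ← map_mul, ← map_mul, ← map_mul, ← map_add, Ideal.Quotient.eq,
    Ideal.mem_span_singleton] at hab
  obtain ⟨s, hs⟩ := hab
  let φ : A⟦X⟧⟦X⟧⟦X⟧ →+* A⟦X⟧ := (PowerSeries.map (constantCoeff (R := A))).comp constantCoeff
  have hφ : φ (coneRel ε) = - (X * (C ε - X)) := by
    rw [coneRel]
    simp [φ]
  have h1 := congrArg φ hs
  have h2 : φ X = 0 := by simp [φ]
  have h3 : φ (C (C X)) = 0 := by simp [φ]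
  have h4 : φ (C X) = X := by simp [φ]
  have h5 : φ (C (C (C κ))) = C κ := by simp [φ]
  rw [map_sub, map_add, map_mul, map_mul, map_mul, map_mul, map_sub, hφ, h2, h3, h4, h5, mul_zero,
    mul_zero, add_zero, zero_sub] at h1
  -- `(κ - X) φ f = u φ s`
  have h6 : (C κ - X) ∣ C κ ^ 2 * φ s := by
    refine ⟨φ f + (C κ - X) * φ s, ?_⟩
    have : C ε = C κ + C κ := by rw [hεκ, map_add]
    rw [this] at h1
    linear_combination h1
  obtain ⟨s', hs'⟩ := dvd_of_dvd_sq_mul hκ h6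
  have hne : (C κ - X : A⟦X⟧) ≠ 0 := by
    intro h0
    have := congrArg constantCoeff h0
    simp at this
    exact hκ this
  have h7 : φ f = X * (C ε - X) * s' := by
    apply mul_left_cancel₀ hne
    rw [hs'] at h1
    linear_combination -h1
  let ψ : A⟦X⟧ →+* A⟦X⟧⟦X⟧⟦X⟧ := (PowerSeries.C).comp (PowerSeries.map (PowerSeries.C (R := A)))
  have hψ : ∀ p, φ (ψ p) = p := by
    intro p
    ext i
    simp [φ, ψ]
  have h8 : φ (f + coneRel ε * ψ s') = 0 := by
    rw [map_add, map_mul, hφ, hψ, h7]; ring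
  -- so it is in `(β, γ)`
  obtain ⟨g, hg⟩ := exists_eq_C_add_X_mul (f + coneRel ε * ψ s')
  have h9 : ∃ g', constantCoeff (f + coneRel ε * ψ s') = C X * g' := by
    have h10 : ∀ i, ∃ c, coeff i (constantCoeff (f + coneRel ε * ψ s')) = X * c := by
      intro i
      have := congrArg (fun p => coeff i p) h8
      simp only [φ, RingHom.comp_apply, coeff_map, map_zero] at this
      exact X_dvd_iff.mpr this
    choose c hc using h10
    refine ⟨PowerSeries.mk c, ?_⟩
    ext1 i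
    rw [coeff_C_mul, coeff_mk, hc]
  obtain ⟨g', hg'⟩ := h9
  refine ⟨Ideal.Quotient.mk _ (C g'), Ideal.Quotient.mk _ g, ?_⟩
  rw [cγ, cβ, ← map_mul (Ideal.Quotient.mk (Ideal.span {coneRel ε})),
    ← map_mul (Ideal.Quotient.mk (Ideal.span {coneRel ε})), ← map_add, Ideal.Quotient.eq,
    Ideal.mem_span_singleton]
  refine ⟨ψ s', ?_⟩
  rw [hg', map_mul] at hg
  linear_combination -hg

end Regular

end Fermat.Agent.H57.Tame
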