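/-
The quadric cone, packaged abstractly.
-/
import Fermat.Agent.H57TameConeB

set_option autoImplicit false
set_option linter.unusedSectionVars false

namespace Fermat.Agent.H57.Tame

open PowerSeries IsLocalRing

universe u

/-- evaluate three nested power series variables. -/
lemma exists_eval3 {B D : Type*} [CommRing B] [CommRing D] (I : Ideal D) [IsAdicComplete I D]
    (f : B →+* D) {d₁ d₂ d₃ : D} (h₁ : d₁ ∈ I) (h₂ : d₂ ∈ I) (h₃ : d₃ ∈ I) :
    ∃ F : B⟦X⟧⟦X⟧⟦X⟧ →+* D, (∀ b, F (C (C (C b))) = f b) ∧ F (C (C X)) = d₁ ∧ F (C X) = d₂ ∧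
      F X = d₃ := by
  obtain ⟨F₁, h1, h1'⟩ := exists_eval f I d₁ h₁
  obtain ⟨F₂, h2, h2'⟩ := exists_eval F₁ I d₂ h₂
  obtain ⟨F₃, h3, h3'⟩ := exists_eval F₂ I d₃ h₃
  refine ⟨F₃, fun b => ?_, ?_, ?_, h3'⟩
  · rw [h3, h2, h1]
  · rw [h3, h2, h1']
  · rw [h3, h2']

lemma mk_mem_maximalIdeal {C : Type u} [CommRing C] [IsLocalRing C] {J : Ideal C}
    [IsLocalRing (C ⧸ J)] {c : C} (hc : c ∈ maximalIdeal C) :
    Ideal.Quotient.mk J c ∈ maximalIdeal (C ⧸ J) := by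
  have : IsLocalHom (Ideal.Quotient.mk J) :=
    IsLocalHom.of_surjective _ Ideal.Quotient.mk_surjective
  rw [mem_maximalIdeal, mem_nonunits_iff] at hc ⊢
  exact fun h => hc (isUnit_of_map_unit _ _ h)

/-- the quadric cone, abstractly. -/
structure ConeRing (A : Type u) [CommRing A] [IsLocalRing A] (ε : A) where
  R : Type u
  [cr : CommRing R]
  [dom : IsDomain R]
  [loc : IsLocalRing R]
  [noeth : IsNoetherianRing R]
  [compl : IsAdicComplete (maximalIdeal R) R]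
  i : A →+* R
  α : R
  β : R
  γ : R
  i_mem : ∀ a ∈ maximalIdeal A, i a ∈ maximalIdeal R
  α_mem : α ∈ maximalIdeal R
  β_mem : β ∈ maximalIdeal R
  γ_mem : γ ∈ maximalIdeal R
  rel : β * γ = α * (i ε - α)
  E : R →+* A⟦X⟧⟦X⟧
  E_injective : Function.Injective E
  E_i : ∀ a, E (i a) = C (C a)
  E_α : E α = X * C X
  E_β : E β = X * (C (C ε) - X * C X)
  E_γ : E γ = C X
  V : ∀ c, constantCoeff (E c) = 0 → ∃ s t, c = α * s + β * t
  R1 : ∀ c, γ * c = 0 → c = 0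
  R2 : ∀ c, γ ∣ β * c → γ ∣ c
  R3 : ∀ κ, κ ≠ 0 → ε = κ + κ → ∀ c, (i κ - α) * c ∈ Ideal.span {γ, β} → c ∈ Ideal.span {γ, β}
  univ : ∀ (D : Type u) [CommRing D] (I : Ideal D) [IsAdicComplete I D] (f : A →+* D)
    (α' β' γ' : D), α' ∈ I → β' ∈ I → γ' ∈ I → β' * γ' = α' * (f ε - α') →
    ∃ F : R →+* D, (∀ a, F (i a) = f a) ∧ F α = α' ∧ F β = β' ∧ F γ = γ'

attribute [instance] ConeRing.cr ConeRing.dom ConeRing.loc ConeRing.noeth ConeRing.compl

variable {A : Type u} [CommRing A] [IsLocalRing A] [IsNoetherianRing A]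
  [IsAdicComplete (maximalIdeal A) A] [IsDomain A]

lemma exists_cone_lift {D : Type*} [CommRing D] (I : Ideal D) [IsAdicComplete I D] (ε : A)
    (f : A →+* D) {α β γ : D} (hα : α ∈ I) (hβ : β ∈ I) (hγ : γ ∈ I)
    (h : β * γ = α * (f ε - α)) :
    ∃ F : Cone ε →+* D, (∀ a, F (coneC ε a) = f a) ∧ F (cα ε) = α ∧ F (cβ ε) = β ∧
      F (cγ ε) = γ := by
  obtain ⟨F, h1, h2, h3, h4⟩ := exists_eval3 I f hγ hα hβ
  refine ⟨Ideal.Quotient.lift _ F ?_, fun a => ?_, ?_, ?_, ?_⟩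
  · intro a ha
    obtain ⟨b, rfl⟩ := Ideal.mem_span_singleton.mp ha
    rw [map_mul]
    have : F (coneRel ε) = 0 := by
      rw [coneRel]
      simp only [map_sub, map_mul]
      rw [h1, h2, h3, h4, h, sub_self]
    rw [this, zero_mul]
  · rw [coneC]
    simp only [RingHom.comp_apply]
    rw [Ideal.Quotient.lift_mk, h1]
  · rw [cα, Ideal.Quotient.lift_mk, h3]
  · rw [cβ, Ideal.Quotient.lift_mk, h4]
  · rw [cγ, Ideal.Quotient.lift_mk, h2]

theorem exists_coneRing {ε : A} (hε : ε ≠ 0) : Nonempty (ConeRing A ε) := by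
  have hdom := isDomain_cone hε
  exact ⟨{
    R := Cone ε
    i := coneC ε
    α := cα ε
    β := cβ ε
    γ := cγ ε
    i_mem := fun a ha => mk_mem_maximalIdeal (C_mem_maximalIdeal (C_mem_maximalIdeal
      (C_mem_maximalIdeal ha)))
    α_mem := mk_mem_maximalIdeal (C_mem_maximalIdeal X_mem_maximalIdeal)
    β_mem := mk_mem_maximalIdeal X_mem_maximalIdeal
    γ_mem := mk_mem_maximalIdeal (C_mem_maximalIdeal (C_mem_maximalIdeal X_mem_maximalIdeal))
    rel := cone_rel ε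
    E := coneE
    E_injective := coneE_injective hε
    E_i := coneE_C
    E_α := coneE_α
    E_β := coneE_β
    E_γ := coneE_γ
    V := fun c hc => mem_of_coneE hc
    R1 := cone_R1 hε
    R2 := cone_R2 hε
    R3 := fun κ hκ h c hc => cone_R3 hκ h c hc
    univ := fun D _ I _ f α' β' γ' h1 h2 h3 h4 => exists_cone_lift I ε f h1 h2 h3 h4 }⟩

end Fermat.Agent.H57.Tame
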