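/-
Local rings of tame pairs over a complete noetherian local domain `A`:
types `nr`, `st` (Steinberg), `chi` (principal series with characters of `p`-power order).
-/
import Fermat.Agent.H57TameConeC

set_option autoImplicit false
set_option linter.unusedSectionVars false

namespace Fermat.Agent.H57.Tame

open PowerSeries IsLocalRing

universe u

/-- The three types. -/
inductive Typ
  | nr
  | st
  | chi
  deriving DecidableEq

/-- The relations defining the local rings. The six variables are `x, y, z, a, b, c`, for the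
matrices `N = (x, y; z, -x)` and `F = (a, b; c, -a)`; the pair is `Σ = s + N`, `Φ = t + F`.
`κ = (χ - χ⁻¹)/2`, `η = (q - 1)/2`. -/
def TRel {D : Type*} [CommRing D] (κ η : D) (d : Fin 6 → D) : Typ → Prop
  | .nr => d 0 = 0 ∧ d 1 = 0 ∧ d 2 = 0
  | .st => (η + d 3) * (η - d 3) = d 4 * d 5 ∧ (η + d 3) * d 2 = d 5 * d 0 ∧
      (η + d 3) * d 0 + d 5 * d 1 = 0 ∧ d 4 * d 2 = (η - d 3) * d 0 ∧
      d 4 * d 0 + (η - d 3) * d 1 = 0 ∧ d 0 ^ 2 + d 1 * d 2 = 0
  | .chi => d 0 ^ 2 + d 1 * d 2 = κ ^ 2 ∧ d 0 * d 4 = d 1 * d 3 ∧ d 0 * d 5 = d 2 * d 3 ∧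
      d 1 * d 5 = d 2 * d 4

lemma TRel.map {D D' : Type*} [CommRing D] [CommRing D'] {κ η : D} {d : Fin 6 → D} {τ : Typ}
    (h : TRel κ η d τ) (f : D →+* D') : TRel (f κ) (f η) (fun j => f (d j)) τ := by
  cases τ with
  | nr =>
    obtain ⟨h1, h2, h3⟩ := h
    exact ⟨by simp [h1], by simp [h2], by simp [h3]⟩
  | st =>
    obtain ⟨h1, h2, h3, h4, h5, h6⟩ := h
    refine ⟨?_, ?_, ?_, ?_, ?_, ?_⟩
    · simpa using congrArg f h1
    · simpa using congrArg f h2
    · simpa using congrArg f h3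
    · simpa using congrArg f h4
    · simpa using congrArg f h5
    · simpa using congrArg f h6
  | chi =>
    obtain ⟨h1, h2, h3, h4⟩ := h
    refine ⟨?_, ?_, ?_, ?_⟩
    · simpa using congrArg f h1
    · simpa using congrArg f h2
    · simpa using congrArg f h3
    · simpa using congrArg f h4

/-- The local ring of type `τ` over `A`: a complete noetherian local domain with the universal
property. -/
structure StepRing (A : Type u) [CommRing A] [IsLocalRing A] (κ η : A) (τ : Typ) where
  R : Type u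
  [cr : CommRing R]
  [dom : IsDomain R]
  [loc : IsLocalRing R]
  [noeth : IsNoetherianRing R]
  [compl : IsAdicComplete (maximalIdeal R) R]
  i : A →+* R
  e : Fin 6 → R
  i_injective : Function.Injective i
  i_mem : ∀ a ∈ maximalIdeal A, i a ∈ maximalIdeal R
  e_mem : ∀ j, e j ∈ maximalIdeal R
  rel : TRel (i κ) (i η) e τ
  univ : ∀ (D : Type u) [CommRing D] (I : Ideal D) [IsAdicComplete I D] (f : A →+* D)
    (d : Fin 6 → D), (∀ j, d j ∈ I) → f κ ∈ I → f η ∈ I →
    TRel (f κ) (f η) d τ → ∃ F : R →+* D, (∀ a, F (i a) = f a) ∧ ∀ j, F (e j) = d j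

attribute [instance] StepRing.cr StepRing.dom StepRing.loc StepRing.noeth StepRing.compl

section OfQuot

/-- `d` satisfies the relations in `B ⧸ J`. -/
lemma exists_stepRing_ofKer {A : Type u} [CommRing A] [IsLocalRing A] (κ η : A) (τ : Typ)
    {B W : Type u} [CommRing B] [IsLocalRing B] [IsNoetherianRing B]
    [IsAdicComplete (maximalIdeal B) B] [CommRing W] [IsDomain W] (G : B →+* W)
    (i : A →+* B) (e : Fin 6 → B) (hi : Function.Injective (G.comp i))
    (hker : RingHom.ker G ≤ maximalIdeal B)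
    (hi_mem : ∀ a ∈ maximalIdeal A, i a ∈ maximalIdeal B) (he_mem : ∀ j, e j ∈ maximalIdeal B)
    (hrel : TRel (G (i κ)) (G (i η)) (fun j => G (e j)) τ)
    (huniv : ∀ (D : Type u) [CommRing D] (I : Ideal D) [IsAdicComplete I D] (f : A →+* D)
      (d : Fin 6 → D), (∀ j, d j ∈ I) → f κ ∈ I → f η ∈ I →
      TRel (f κ) (f η) d τ → ∃ F : B →+* D, (∀ a, F (i a) = f a) ∧ (∀ j, F (e j) = d j) ∧
        RingHom.ker G ≤ RingHom.ker F) :
    Nonempty (StepRing A κ η τ) := by
  let J := RingHom.ker G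
  have h1 : IsLocalRing (B ⧸ J) := isLocalRing_quot hker
  have h2 : IsAdicComplete (maximalIdeal (B ⧸ J)) (B ⧸ J) := isAdicComplete_quot
  have h3 : IsDomain (B ⧸ J) := (Ideal.Quotient.isDomain_iff_prime _).mpr (RingHom.ker_isPrime G)
  let π : B →+* B ⧸ J := Ideal.Quotient.mk J
  let L : B ⧸ J →+* W := RingHom.kerLift G
  have hL : Function.Injective L := RingHom.kerLift_injective G
  have hLπ : ∀ b, L (π b) = G b := fun b => RingHom.kerLift_mk G b
  refine ⟨{
    R := B ⧸ J
    i := π.comp i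
    e := fun j => π (e j)
    i_injective := ?_
    i_mem := fun a ha => mk_mem_maximalIdeal (hi_mem a ha)
    e_mem := fun j => mk_mem_maximalIdeal (he_mem j)
    rel := ?_
    univ := ?_ }⟩
  · intro a b hab
    apply hi
    have := congrArg L hab
    rw [RingHom.comp_apply, RingHom.comp_apply, hLπ, hLπ] at this
    exact this
  · have key : ∀ {p q : B ⧸ J}, L p = L q → p = q := fun h => hL h
    cases τ with
    | nr =>
      obtain ⟨h1, h2, h3⟩ := hrel
      refine ⟨key ?_, key ?_, key ?_⟩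
      · rw [hLπ, map_zero]; exact h1
      · rw [hLπ, map_zero]; exact h2
      · rw [hLπ, map_zero]; exact h3
    | st =>
      obtain ⟨h1, h2, h3, h4, h5, h6⟩ := hrel
      refine ⟨key ?_, key ?_, key ?_, key ?_, key ?_, key ?_⟩ <;>
      simp only [RingHom.comp_apply, map_mul, map_add, map_sub, map_pow, map_zero, hLπ] <;>
      assumption
    | chi =>
      obtain ⟨h1, h2, h3, h4⟩ := hrel
      refine ⟨key ?_, key ?_, key ?_, key ?_⟩ <;>
      simp only [RingHom.comp_apply, map_mul, map_add, map_pow, hLπ] <;>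
      assumption
  · intro D _ I _ f d hd hκ hη hrel'
    obtain ⟨F, hF1, hF2, hF3⟩ := huniv D I f d hd hκ hη hrel'
    exact ⟨Ideal.Quotient.lift J F (fun a ha => hF3 ha), hF1, hF2⟩

end OfQuot

section Nr

variable (A : Type u) [CommRing A] [IsLocalRing A] [IsNoetherianRing A]
  [IsAdicComplete (maximalIdeal A) A] [IsDomain A]

/-- the unramified local ring `A⟦a, b, c⟧`. -/
theorem exists_nrStep (κ η : A) : Nonempty (StepRing A κ η .nr) := ⟨{
  R := A⟦X⟧⟦X⟧⟦X⟧
  i := (PowerSeries.C).comp ((PowerSeries.C).comp PowerSeries.C)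
  e := ![0, 0, 0, C (C X), C X, X]
  i_injective := by
    simp only [RingHom.coe_comp]
    exact (PowerSeries.C_injective).comp ((PowerSeries.C_injective).comp PowerSeries.C_injective)
  i_mem := fun a ha => C_mem_maximalIdeal (C_mem_maximalIdeal (C_mem_maximalIdeal ha))
  e_mem := by
    intro j
    fin_cases j
    · exact Ideal.zero_mem _
    · exact Ideal.zero_mem _
    · exact Ideal.zero_mem _
    · exact C_mem_maximalIdeal (C_mem_maximalIdeal X_mem_maximalIdeal)
    · exact C_mem_maximalIdeal X_mem_maximalIdeal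
    · exact X_mem_maximalIdeal
  rel := ⟨rfl, rfl, rfl⟩
  univ := by
    intro D _ I _ f d hd _ _ ⟨h0, h1, h2⟩
    obtain ⟨F, hF, hF1, hF2, hF3⟩ := exists_eval3 I f (hd 3) (hd 4) (hd 5)
    refine ⟨F, hF, ?_⟩
    intro j
    fin_cases j
    · exact (map_zero F).trans h0.symm
    · exact (map_zero F).trans h1.symm
    · exact (map_zero F).trans h2.symm
    · exact hF1
    · exact hF2
    · exact hF3 }⟩

end Nr

section Chi

lemma minors3_le_maximalIdeal {C : Type u} [CommRing C] [IsLocalRing C] (x₁ x₂ x₃ : C) :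
    minors3 x₁ x₂ x₃ ≤ maximalIdeal C⟦X⟧⟦X⟧⟦X⟧ := by
  rw [minors3, Ideal.span_le]
  rintro _ (rfl | rfl | rfl)
  · refine C_mem_maximalIdeal ?_
    rw [rel23]
    exact Ideal.sub_mem _ (C_mem_maximalIdeal (Ideal.mul_mem_left _ _ X_mem_maximalIdeal))
      (Ideal.mul_mem_right _ _ X_mem_maximalIdeal)
  · exact Ideal.sub_mem _ (C_mem_maximalIdeal (Ideal.mul_mem_left _ _ X_mem_maximalIdeal))
      (Ideal.mul_mem_right _ _ X_mem_maximalIdeal)
  · exact Ideal.sub_mem _ (C_mem_maximalIdeal (C_mem_maximalIdeal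
      (Ideal.mul_mem_left _ _ X_mem_maximalIdeal))) (Ideal.mul_mem_right _ _ X_mem_maximalIdeal)

variable {A : Type u} [CommRing A] [IsLocalRing A] [IsNoetherianRing A]
  [IsAdicComplete (maximalIdeal A) A] [IsDomain A]

lemma rees3_C {C : Type u} [CommRing C] [IsLocalRing C] [IsNoetherianRing C]
    [IsAdicComplete (maximalIdeal C) C] (x₁ x₂ x₃ c : C) :
    rees3 x₁ x₂ x₃ (PowerSeries.C (PowerSeries.C (PowerSeries.C c))) = PowerSeries.C c := by
  rw [rees3, ext_C, rees2, ext_C, rescale_C]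

lemma rees3_X₁ {C : Type u} [CommRing C] [IsLocalRing C] [IsNoetherianRing C]
    [IsAdicComplete (maximalIdeal C) C] (x₁ x₂ x₃ : C) :
    rees3 x₁ x₂ x₃ X = X * PowerSeries.C x₁ := by
  rw [rees3, ext_X]

lemma rees3_X₂ {C : Type u} [CommRing C] [IsLocalRing C] [IsNoetherianRing C]
    [IsAdicComplete (maximalIdeal C) C] (x₁ x₂ x₃ : C) :
    rees3 x₁ x₂ x₃ (PowerSeries.C X) = X * PowerSeries.C x₂ := by
  rw [rees3, ext_C, rees2, ext_X]

lemma rees3_X₃ {C : Type u} [CommRing C] [IsLocalRing C] [IsNoetherianRing C]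
    [IsAdicComplete (maximalIdeal C) C] (x₁ x₂ x₃ : C) :
    rees3 x₁ x₂ x₃ (PowerSeries.C (PowerSeries.C X)) = X * PowerSeries.C x₃ := by
  rw [rees3, ext_C, rees2, ext_C, rescale_X']

theorem exists_chiStep {κ : A} (η : A) (hκ : κ ≠ 0) (h2 : κ + κ ≠ 0)
    (hκm : κ ∈ maximalIdeal A) : Nonempty (StepRing A κ η .chi) := by
  obtain ⟨K⟩ := exists_coneRing (A := A) h2
  let x := K.i κ - K.α
  have hker : RingHom.ker (rees3 K.γ K.β x) = minors3 K.γ K.β x :=
    ker_rees3 K.γ_mem K.R1 K.R2 (K.R3 κ hκ rfl)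
  refine exists_stepRing_ofKer (W := (K.R)⟦X⟧) κ η .chi (rees3 K.γ K.β x)
    ((PowerSeries.C).comp ((PowerSeries.C).comp ((PowerSeries.C).comp K.i)))
    ![C (C (C x)), C (C (C K.β)), C (C (C K.γ)), C (C X), C X, X] ?_ ?_ ?_ ?_ ?_ ?_
  · intro a b hab
    simp only [RingHom.comp_apply, rees3_C] at hab
    have := congrArg K.E (PowerSeries.C_injective hab)
    rw [K.E_i, K.E_i] at this
    exact PowerSeries.C_injective (PowerSeries.C_injective this)
  · rw [hker]
    exact minors3_le_maximalIdeal _ _ _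
  · exact fun a ha => C_mem_maximalIdeal (C_mem_maximalIdeal (C_mem_maximalIdeal (K.i_mem a ha)))
  · intro j
    fin_cases j
    · exact C_mem_maximalIdeal (C_mem_maximalIdeal (C_mem_maximalIdeal
        (Ideal.sub_mem _ (K.i_mem κ hκm) K.α_mem)))
    · exact C_mem_maximalIdeal (C_mem_maximalIdeal (C_mem_maximalIdeal K.β_mem))
    · exact C_mem_maximalIdeal (C_mem_maximalIdeal (C_mem_maximalIdeal K.γ_mem))
    · exact C_mem_maximalIdeal (C_mem_maximalIdeal X_mem_maximalIdeal)
    · exact C_mem_maximalIdeal X_mem_maximalIdeal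
    · exact X_mem_maximalIdeal
  · have e0 : rees3 K.γ K.β x (C (C (C x))) = C x := rees3_C _ _ _ _
    have e1 : rees3 K.γ K.β x (C (C (C K.β))) = C K.β := rees3_C _ _ _ _
    have e2 : rees3 K.γ K.β x (C (C (C K.γ))) = C K.γ := rees3_C _ _ _ _
    have e3 : rees3 K.γ K.β x (C (C X)) = X * C x := rees3_X₃ _ _ _
    have e4 : rees3 K.γ K.β x (C X) = X * C K.β := rees3_X₂ _ _ _
    have e5 : rees3 K.γ K.β x X = X * C K.γ := rees3_X₁ _ _ _
    have e6 : rees3 K.γ K.β x (C (C (C (K.i κ)))) = C (K.i κ) := rees3_C _ _ _ _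
    refine ⟨?_, ?_, ?_, ?_⟩
    · refine (congrArg₂ (· + ·) (congrArg (· ^ 2) e0) (congrArg₂ (· * ·) e1 e2)).trans ?_
      refine Eq.trans ?_ (congrArg (· ^ 2) e6).symm
      show C x ^ 2 + C K.β * C K.γ = C (K.i κ) ^ 2
      have hx : x ^ 2 + K.β * K.γ = K.i κ ^ 2 := by
        rw [K.rel, map_add]
        simp only [x]
        ring
      rw [← map_pow, ← map_mul, ← map_add, ← map_pow, hx]
    · refine (congrArg₂ (· * ·) e0 e4).trans (Eq.trans ?_ (congrArg₂ (· * ·) e1 e3).symm)
      show C x * (X * C K.β) = C K.β * (X * C x)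
      ring
    · refine (congrArg₂ (· * ·) e0 e5).trans (Eq.trans ?_ (congrArg₂ (· * ·) e2 e3).symm)
      show C x * (X * C K.γ) = C K.γ * (X * C x)
      ring
    · refine (congrArg₂ (· * ·) e1 e5).trans (Eq.trans ?_ (congrArg₂ (· * ·) e2 e4).symm)
      show C K.β * (X * C K.γ) = C K.γ * (X * C K.β)
      ring
  · intro D _ I _ f d hd hκ' hη' ⟨h1, h2, h3, h4⟩
    obtain ⟨G, hG, hGα, hGβ, hGγ⟩ := K.univ D I f (f κ - d 0) (d 1) (d 2)
      (Ideal.sub_mem _ hκ' (hd 0)) (hd 1) (hd 2) (by
        rw [map_add]; linear_combination h1)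
    obtain ⟨F, hF, hF3, hF2, hF1⟩ := exists_eval3 I G (hd 3) (hd 4) (hd 5)
    have hGx : G x = d 0 := by
      simp only [x]
      rw [map_sub, hG, hGα, sub_sub_cancel]
    refine ⟨F, ?_, ?_, ?_⟩
    · intro a
      simp only [RingHom.comp_apply]
      rw [hF, hG]
    · intro j
      fin_cases j
      · exact (hF _).trans hGx
      · exact (hF _).trans hGβ
      · exact (hF _).trans hGγ
      · exact hF3
      · exact hF2
      · exact hF1
    · rw [hker, minors3, Ideal.span_le]
      rintro _ (rfl | rfl | rfl)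
      · rw [SetLike.mem_coe, RingHom.mem_ker, rel23]
        simp only [map_sub, map_mul, hF, hF3, hF2, hGx, hGβ]
        linear_combination -h2
      · rw [SetLike.mem_coe, RingHom.mem_ker]
        simp only [map_sub, map_mul, hF, hF2, hF1, hGβ, hGγ]
        linear_combination -h4
      · rw [SetLike.mem_coe, RingHom.mem_ker]
        simp only [map_sub, map_mul, hF, hF3, hF1, hGx, hGγ]
        linear_combination -h3

end Chi

section St

variable {A : Type u} [CommRing A] [IsLocalRing A] [IsNoetherianRing A]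
  [IsAdicComplete (maximalIdeal A) A] [IsDomain A] {ε : A}

/-- the Steinberg ideal in `C⟦z⟧⟦x⟧⟦y⟧` -/
noncomputable def stIdeal (K : ConeRing A ε) : Ideal (K.R)⟦X⟧⟦X⟧⟦X⟧ :=
  Ideal.span {C (C (C K.α)) * C (C X) - C (C (C K.γ)) * C X,
    C (C (C K.α)) * C X + C (C (C K.γ)) * X,
    C (C (C K.β)) * C (C X) - C (C (C (K.i ε - K.α))) * C X,
    C (C (C K.β)) * C X + C (C (C (K.i ε - K.α))) * X,
    C X ^ 2 + X * C (C X)}

lemma exists_stChart (K : ConeRing A ε) : ∃ G : (K.R)⟦X⟧⟦X⟧⟦X⟧ →+* A⟦X⟧⟦X⟧⟦X⟧,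
    (∀ f, G (C (C f)) = PowerSeries.map K.E f) ∧ G (C X) = X * C X ∧ G X = - (X * C (X ^ 2)) := by
  obtain ⟨G₁, h1, h1'⟩ := exists_eval (PowerSeries.map K.E) (maximalIdeal A⟦X⟧⟦X⟧⟦X⟧)
    (X * C X) (Ideal.mul_mem_right _ _ X_mem_maximalIdeal)
  obtain ⟨G₂, h2, h2'⟩ := exists_eval G₁ (maximalIdeal A⟦X⟧⟦X⟧⟦X⟧)
    (- (X * C (X ^ 2))) (Ideal.neg_mem_iff _ |>.mpr (Ideal.mul_mem_right _ _ X_mem_maximalIdeal))
  exact ⟨G₂, fun f => by rw [h2, h1], by rw [h2, h1'], h2'⟩

/-- the chart -/
noncomputable def stChart (K : ConeRing A ε) : (K.R)⟦X⟧⟦X⟧⟦X⟧ →+* A⟦X⟧⟦X⟧⟦X⟧ :=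
  (exists_stChart K).choose

lemma stChart_CC (K : ConeRing A ε) (f : (K.R)⟦X⟧) : stChart K (C (C f)) = PowerSeries.map K.E f :=
  (exists_stChart K).choose_spec.1 f

lemma stChart_CX (K : ConeRing A ε) : stChart K (C X) = X * C X :=
  (exists_stChart K).choose_spec.2.1

lemma stChart_X (K : ConeRing A ε) : stChart K X = - (X * C (X ^ 2)) :=
  (exists_stChart K).choose_spec.2.2

lemma stChart_CCX (K : ConeRing A ε) : stChart K (C (C X)) = X := by
  rw [stChart_CC, map_X]

lemma stChart_CCC (K : ConeRing A ε) (c : K.R) : stChart K (C (C (C c))) = C (K.E c) := by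
  rw [stChart_CC, map_C]

lemma stIdeal_le (K : ConeRing A ε) : stIdeal K ≤ RingHom.ker (stChart K) := by
  rw [stIdeal, Ideal.span_le]
  rintro _ (rfl | rfl | rfl | rfl | rfl)
  · rw [SetLike.mem_coe, RingHom.mem_ker]
    simp only [map_sub, map_mul, stChart_CCC, stChart_CCX, stChart_CX, K.E_α, K.E_γ]
    ring
  · rw [SetLike.mem_coe, RingHom.mem_ker]
    simp only [map_add, map_mul, stChart_CCC, stChart_X, stChart_CX, K.E_α, K.E_γ, map_pow]
    ring
  · rw [SetLike.mem_coe, RingHom.mem_ker]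
    simp only [map_sub, map_mul, stChart_CCC, stChart_CCX, stChart_CX, K.E_α, K.E_β, K.E_i]
    ring
  · rw [SetLike.mem_coe, RingHom.mem_ker]
    simp only [map_add, map_sub, map_mul, stChart_CCC, stChart_X, stChart_CX, K.E_α, K.E_β, K.E_i,
      map_pow]
    ring
  · rw [SetLike.mem_coe, RingHom.mem_ker]
    simp only [map_add, map_mul, map_pow, stChart_CCX, stChart_X, stChart_CX]
    ring

lemma exists_of_coeff_mem (K : ConeRing A ε) {f : (K.R)⟦X⟧}
    (h : ∀ n, constantCoeff (K.E (coeff n f)) = 0) :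
    ∃ s t : (K.R)⟦X⟧, f = C K.α * s + C K.β * t := by
  choose s t hst using fun n => K.V _ (h n)
  refine ⟨PowerSeries.mk s, PowerSeries.mk t, ?_⟩
  ext1 n
  rw [map_add, coeff_C_mul, coeff_C_mul, coeff_mk, coeff_mk, hst]

set_option maxHeartbeats 1000000 in
theorem ker_stChart (K : ConeRing A ε) : RingHom.ker (stChart K) = stIdeal K := by
  refine le_antisymm ?_ (stIdeal_le K)
  apply le_of_forall_exists (t := X) X_mem_maximalIdeal
  intro f hf
  obtain ⟨g, hg⟩ := exists_eq_C_add_X_mul f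
  obtain ⟨h₁, hh₁⟩ := exists_eq_C_add_X_mul (constantCoeff f)
  obtain ⟨h₁₁, hh₁₁⟩ := exists_eq_C_add_X_mul h₁
  set h₀ := constantCoeff (constantCoeff f) with hh₀
  set h₁₀ := constantCoeff h₁ with hh₁₀
  -- first reduction
  have e1 : f = (C X ^ 2 + X * C (C X)) * C h₁₁ + C (C h₀) + C X * C (C h₁₀) +
      X * (g - C (C X) * C h₁₁) := by
    conv_lhs => rw [hg, hh₁, hh₁₁]
    simp only [map_add, map_mul]
    ring
  have e2 : PowerSeries.map K.E h₀ + X * C X * PowerSeries.map K.E h₁₀ -
      X * C (X ^ 2) * stChart K (g - C (C X) * C h₁₁) = 0 := by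
    have h1 : stChart K f = 0 := hf
    rw [e1] at h1
    have h2 : stChart K (C X ^ 2 + X * C (C X)) = 0 := by
      apply stIdeal_le K
      exact Ideal.subset_span (by simp)
    simp only [map_add, map_mul (stChart K)] at h1 h2
    rw [h2, zero_mul, zero_add, stChart_CC, stChart_CC, stChart_CX, stChart_X] at h1
    linear_combination h1
  have e3 : ∀ n, constantCoeff (K.E (coeff n h₀)) = 0 := by
    intro n
    have := congrArg (fun p => constantCoeff (coeff n p)) e2
    simp only [map_sub, map_add, map_zero, coeff_map] at this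
    cases n with
    | zero =>
      rw [mul_assoc, coeff_zero_X_mul, mul_assoc, coeff_zero_X_mul, map_zero, add_zero,
        sub_zero] at this
      exact this
    | succ n =>
      rw [mul_assoc, coeff_succ_X_mul, mul_assoc, coeff_succ_X_mul, coeff_C_mul, coeff_C_mul,
        map_mul, map_mul, map_pow, constantCoeff_X] at this
      simpa using this
  have e4 : coeff 0 h₀ = 0 := by
    have := congrArg (fun p => coeff 0 p) e2
    simp only [map_sub, map_add, map_zero, coeff_map] at this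
    rw [mul_assoc, coeff_zero_X_mul, mul_assoc, coeff_zero_X_mul, add_zero, sub_zero] at this
    exact K.E_injective (this.trans (map_zero _).symm)
  obtain ⟨h₀', hh₀'⟩ := X_dvd_iff.mpr (show constantCoeff h₀ = 0 by
    rw [← coeff_zero_eq_constantCoeff_apply]; exact e4)
  obtain ⟨s, t, hst⟩ := exists_of_coeff_mem K (f := h₀') (by
    intro n
    have := e3 (n + 1)
    rwa [hh₀', coeff_succ_X_mul] at this)
  -- second reduction
  set k₀ := h₁₀ + C K.γ * s + C (K.i ε - K.α) * t with hk₀
  set g' := g - C (C X) * C h₁₁ with hg'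
  have e5 : f = (C X ^ 2 + X * C (C X)) * C h₁₁ +
      (C (C (C K.α)) * C (C X) - C (C (C K.γ)) * C X) * C (C s) +
      (C (C (C K.β)) * C (C X) - C (C (C (K.i ε - K.α))) * C X) * C (C t) +
      C X * C (C k₀) + X * g' := by
    rw [e1, hh₀', hst, hk₀]
    simp only [map_add, map_mul]
    ring
  have e6 : C X * PowerSeries.map K.E k₀ = C X * (C X * stChart K g') := by
    have h1 : stChart K f = 0 := hf
    rw [e5] at h1
    have h2 : stChart K (C X ^ 2 + X * C (C X)) = 0 := by
      apply stIdeal_le K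
      exact Ideal.subset_span (by simp)
    have h3 : stChart K (C (C (C K.α)) * C (C X) - C (C (C K.γ)) * C X) = 0 := by
      apply stIdeal_le K
      exact Ideal.subset_span (by simp)
    have h4 : stChart K (C (C (C K.β)) * C (C X) - C (C (C (K.i ε - K.α))) * C X) = 0 := by
      apply stIdeal_le K
      exact Ideal.subset_span (by simp)
    rw [map_add, map_add, map_add, map_add, map_mul _ _ (C h₁₁), map_mul _ _ (C (C s)),
      map_mul _ _ (C (C t)), h2, h3, h4, map_mul _ _ (C (C k₀)), map_mul _ _ g', stChart_CC K k₀,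
      stChart_CX, stChart_X] at h1
    apply mul_left_cancel₀ (X_ne_zero (R := A⟦X⟧⟦X⟧))
    rw [map_pow] at h1
    linear_combination h1
  have e7 : PowerSeries.map K.E k₀ = C X * stChart K g' := by
    have : (C X : A⟦X⟧⟦X⟧⟦X⟧) ≠ 0 := by
      intro h
      exact X_ne_zero (PowerSeries.C_injective (h.trans (map_zero _).symm))
    exact mul_left_cancel₀ this e6
  obtain ⟨s', t', hst'⟩ := exists_of_coeff_mem K (f := k₀) (by
    intro n
    have := congrArg (fun p => constantCoeff (coeff n p)) e7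
    simp only [coeff_map, coeff_C_mul, map_mul, constantCoeff_X, zero_mul] at this
    exact this)
  have e8 : f = (C X ^ 2 + X * C (C X)) * C h₁₁ +
      (C (C (C K.α)) * C (C X) - C (C (C K.γ)) * C X) * C (C s) +
      (C (C (C K.β)) * C (C X) - C (C (C (K.i ε - K.α))) * C X) * C (C t) +
      (C (C (C K.α)) * C X + C (C (C K.γ)) * X) * C (C s') +
      (C (C (C K.β)) * C X + C (C (C (K.i ε - K.α))) * X) * C (C t') +
      X * (g' - C (C (C K.γ)) * C (C s') - C (C (C (K.i ε - K.α))) * C (C t')) := by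
    rw [e5, hst']
    simp only [map_add, map_mul]
    ring
  refine ⟨_, ?_, _, ?_, e8⟩
  · rw [stIdeal]
    refine Ideal.add_mem _ (Ideal.add_mem _ (Ideal.add_mem _ (Ideal.add_mem _ ?_ ?_) ?_) ?_) ?_
    all_goals exact Ideal.mul_mem_right _ _ (Ideal.subset_span (by simp))
  · have h1 : stChart K f = 0 := hf
    have hJ : ∀ p ∈ stIdeal K, stChart K p = 0 := fun p hp => stIdeal_le K hp
    rw [e8, map_add, hJ, zero_add, map_mul, stChart_X] at h1
    · rw [RingHom.mem_ker]
      have hne : (-(X * C (X ^ 2)) : A⟦X⟧⟦X⟧⟦X⟧) ≠ 0 := by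
        rw [neg_ne_zero]
        apply mul_ne_zero X_ne_zero
        intro h
        exact pow_ne_zero 2 X_ne_zero (PowerSeries.C_injective (h.trans (map_zero _).symm))
      exact (mul_eq_zero.mp h1).resolve_left hne
    · rw [stIdeal]
      refine Ideal.add_mem _ (Ideal.add_mem _ (Ideal.add_mem _ (Ideal.add_mem _ ?_ ?_) ?_) ?_) ?_
      all_goals exact Ideal.mul_mem_right _ _ (Ideal.subset_span (by simp))

theorem exists_stStep (κ : A) {η : A} (h2 : η + η ≠ 0)
    (hηm : η ∈ maximalIdeal A) : Nonempty (StepRing A κ η .st) := by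
  obtain ⟨K⟩ := exists_coneRing (A := A) h2
  have hker : RingHom.ker (stChart K) = stIdeal K := ker_stChart K
  refine exists_stepRing_ofKer (W := A⟦X⟧⟦X⟧⟦X⟧) κ η .st (stChart K)
    ((PowerSeries.C).comp ((PowerSeries.C).comp ((PowerSeries.C).comp K.i)))
    ![C X, X, C (C X), C (C (C (K.α - K.i η))), C (C (C K.β)), C (C (C K.γ))] ?_ ?_ ?_ ?_ ?_ ?_
  · intro a b hab
    simp only [RingHom.comp_apply, stChart_CCC, K.E_i] at hab
    exact PowerSeries.C_injective (PowerSeries.C_injective (PowerSeries.C_injective hab))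
  · exact IsLocalRing.le_maximalIdeal (RingHom.ker_ne_top _)
  · exact fun a ha => C_mem_maximalIdeal (C_mem_maximalIdeal (C_mem_maximalIdeal (K.i_mem a ha)))
  · intro j
    fin_cases j
    · exact C_mem_maximalIdeal X_mem_maximalIdeal
    · exact X_mem_maximalIdeal
    · exact C_mem_maximalIdeal (C_mem_maximalIdeal X_mem_maximalIdeal)
    · exact C_mem_maximalIdeal (C_mem_maximalIdeal (C_mem_maximalIdeal
        (Ideal.sub_mem _ K.α_mem (K.i_mem η hηm))))
    · exact C_mem_maximalIdeal (C_mem_maximalIdeal (C_mem_maximalIdeal K.β_mem))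
    · exact C_mem_maximalIdeal (C_mem_maximalIdeal (C_mem_maximalIdeal K.γ_mem))
  · have e0 : stChart K (C X) = X * C X := stChart_CX K
    have e1 : stChart K X = -(X * C (X ^ 2)) := stChart_X K
    have e2 : stChart K (C (C X)) = X := stChart_CCX K
    have e3 : stChart K (C (C (C (K.α - K.i η)))) = C (X * C X - C (C η)) := by
      rw [stChart_CCC, map_sub, K.E_α, K.E_i]
    have e4 : stChart K (C (C (C K.β))) = C (X * (C (C (η + η)) - X * C X)) := by
      rw [stChart_CCC, K.E_β]
    have e5 : stChart K (C (C (C K.γ))) = C (C X) := by rw [stChart_CCC, K.E_γ]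
    have e6 : stChart K (C (C (C (K.i η)))) = C (C (C η)) := by rw [stChart_CCC, K.E_i]
    have key : TRel (C (C (C κ))) (C (C (C η)) : A⟦X⟧⟦X⟧⟦X⟧)
        ![X * C X, -(X * C (X ^ 2)), X, C (X * C X - C (C η)),
          C (X * (C (C (η + η)) - X * C X)), C (C X)] .st := by
      refine ⟨?_, ?_, ?_, ?_, ?_, ?_⟩
      · show (C (C (C η)) + C (X * C X - C (C η))) * (C (C (C η)) - C (X * C X - C (C η))) =
          C (X * (C (C (η + η)) - X * C X)) * C (C X)
        simp only [map_add, map_sub, map_mul]; ring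
      · show (C (C (C η)) + C (X * C X - C (C η))) * X = C (C X) * (X * C X)
        simp only [map_sub, map_mul]; ring
      · show (C (C (C η)) + C (X * C X - C (C η))) * (X * C X) + C (C X) * -(X * C (X ^ 2)) = 0
        simp only [map_sub, map_mul, map_pow]; ring
      · show C (X * (C (C (η + η)) - X * C X)) * X =
          (C (C (C η)) - C (X * C X - C (C η))) * (X * C X)
        simp only [map_add, map_sub, map_mul]; ring
      · show C (X * (C (C (η + η)) - X * C X)) * (X * C X) +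
          (C (C (C η)) - C (X * C X - C (C η))) * -(X * C (X ^ 2)) = 0
        simp only [map_add, map_sub, map_mul, map_pow]; ring
      · show (X * C X) ^ 2 + -(X * C (X ^ 2)) * X = 0
        simp only [map_pow]; ring
    have hfun : (fun j => stChart K ((![C X, X, C (C X), C (C (C (K.α - K.i η))), C (C (C K.β)),
        C (C (C K.γ))] : Fin 6 → (K.R)⟦X⟧⟦X⟧⟦X⟧) j)) =
        ![X * C X, -(X * C (X ^ 2)), X, C (X * C X - C (C η)),
          C (X * (C (C (η + η)) - X * C X)), C (C X)] := by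
      funext j
      fin_cases j
      · exact e0
      · exact e1
      · exact e2
      · exact e3
      · exact e4
      · exact e5
    rw [hfun]
    show TRel (stChart K (C (C (C (K.i κ))))) (stChart K (C (C (C (K.i η))))) _ _
    rw [e6, stChart_CCC, K.E_i]
    exact key
  · intro D _ I _ f d hd hκ' hη' ⟨h1, h2, h3, h4, h5, h6⟩
    obtain ⟨G, hG, hGα, hGβ, hGγ⟩ := K.univ D I f (f η + d 3) (d 4) (d 5)
      (Ideal.add_mem _ hη' (hd 3)) (hd 4) (hd 5) (by
        rw [map_add]; linear_combination -h1)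
    obtain ⟨F, hF, hF3, hF2, hF1⟩ := exists_eval3 I G (hd 2) (hd 0) (hd 1)
    refine ⟨F, ?_, ?_, ?_⟩
    · intro a
      simp only [RingHom.comp_apply]
      rw [hF, hG]
    · intro j
      fin_cases j
      · exact hF2
      · exact hF1
      · exact hF3
      · refine (hF _).trans ?_
        rw [map_sub, hGα, hG]
        exact add_sub_cancel_left _ _
      · exact (hF _).trans hGβ
      · exact (hF _).trans hGγ
    · rw [hker, stIdeal, Ideal.span_le]
      rintro _ (rfl | rfl | rfl | rfl | rfl)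
      · rw [SetLike.mem_coe, RingHom.mem_ker]
        simp only [map_sub, map_mul, hF, hF3, hF2, hGα, hGγ]
        linear_combination h2
      · rw [SetLike.mem_coe, RingHom.mem_ker]
        simp only [map_add, map_mul, hF, hF2, hF1, hGα, hGγ]
        linear_combination h3
      · rw [SetLike.mem_coe, RingHom.mem_ker]
        simp only [map_sub, map_add, map_mul, hF, hF3, hF2, hGα, hGβ, hG]
        linear_combination h4
      · rw [SetLike.mem_coe, RingHom.mem_ker]
        simp only [map_sub, map_add, map_mul, hF, hF2, hF1, hGα, hGβ, hG]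
        linear_combination h5
      · rw [SetLike.mem_coe, RingHom.mem_ker]
        simp only [map_add, map_mul, map_pow, hF3, hF2, hF1]
        linear_combination h6

end St

/-- **Existence of the local rings of all types** -/
theorem exists_step {A : Type u} [CommRing A] [IsLocalRing A] [IsNoetherianRing A]
    [IsAdicComplete (maximalIdeal A) A] [IsDomain A] {κ η : A} (hκ : κ + κ ≠ 0) (hη : η + η ≠ 0)
    (hκm : κ ∈ maximalIdeal A) (hηm : η ∈ maximalIdeal A) (τ : Typ) :
    Nonempty (StepRing A κ η τ) := by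
  cases τ with
  | nr => exact exists_nrStep A κ η
  | st => exact exists_stStep κ hη hηm
  | chi => exact exists_chiStep η (by rintro rfl; simp at hκ) hκ hκm

end Fermat.Agent.H57.Tame
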