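/-
Iterating the local rings over a finite set of primes.
-/
import Fermat.Agent.H57TameStep

set_option autoImplicit false
set_option linter.unusedSectionVars false

namespace Fermat.Agent.H57.Tame

open PowerSeries IsLocalRing

universe u

/-- The ring `⊗̂_t R^{τ t}(κ t, η t) ⟦z_1, …, z_k⟧` over `O`. -/
structure MultiRing (O : Type u) [CommRing O] [IsLocalRing O] (T : Type) (k : ℕ) (κ η : T → O)
    (τ : T → Typ) where
  R : Type u
  [cr : CommRing R]
  [dom : IsDomain R]
  [loc : IsLocalRing R]
  [noeth : IsNoetherianRing R]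
  [compl : IsAdicComplete (maximalIdeal R) R]
  i : O →+* R
  e : T → Fin 6 → R
  z : Fin k → R
  i_injective : Function.Injective i
  i_mem : ∀ a ∈ maximalIdeal O, i a ∈ maximalIdeal R
  e_mem : ∀ t j, e t j ∈ maximalIdeal R
  z_mem : ∀ j, z j ∈ maximalIdeal R
  rel : ∀ t, TRel (i (κ t)) (i (η t)) (e t) (τ t)
  univ : ∀ (D : Type u) [CommRing D] (I : Ideal D) [IsAdicComplete I D] (f : O →+* D)
    (d : T → Fin 6 → D) (w : Fin k → D), (∀ t j, d t j ∈ I) → (∀ j, w j ∈ I) →
    (∀ t, f (κ t) ∈ I) → (∀ t, f (η t) ∈ I) →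
    (∀ t, TRel (f (κ t)) (f (η t)) (d t) (τ t)) →
    ∃ F : R →+* D, (∀ a, F (i a) = f a) ∧ (∀ t j, F (e t j) = d t j) ∧ (∀ j, F (z j) = w j)

attribute [instance] MultiRing.cr MultiRing.dom MultiRing.loc MultiRing.noeth MultiRing.compl

variable {O : Type u} [CommRing O] [IsLocalRing O] [IsNoetherianRing O]
  [IsAdicComplete (maximalIdeal O) O] [IsDomain O]

/-- base case: no primes -/
theorem exists_multi_empty (T : Type) [IsEmpty T] (k : ℕ) (κ η : T → O) (τ : T → Typ) :
    Nonempty (MultiRing O T k κ η τ) := by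
  induction k with
  | zero =>
    exact ⟨{
      R := O
      i := RingHom.id O
      e := fun t => isEmptyElim t
      z := fun j => j.elim0
      i_injective := fun _ _ h => h
      i_mem := fun a ha => ha
      e_mem := fun t => isEmptyElim t
      z_mem := fun j => j.elim0
      rel := fun t => isEmptyElim t
      univ := fun D _ I _ f d w _ _ _ _ _ => ⟨f, fun _ => rfl, fun t => isEmptyElim t,
        fun j => j.elim0⟩ }⟩
  | succ k ih =>
    obtain ⟨M⟩ := ih
    exact ⟨{
      R := (M.R)⟦X⟧
      i := (PowerSeries.C).comp M.i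
      e := fun t => isEmptyElim t
      z := Fin.cases X (fun j => C (M.z j))
      i_injective := PowerSeries.C_injective.comp M.i_injective
      i_mem := fun a ha => C_mem_maximalIdeal (M.i_mem a ha)
      e_mem := fun t => isEmptyElim t
      z_mem := fun j => by
        refine Fin.cases ?_ (fun j => ?_) j
        · exact X_mem_maximalIdeal
        · exact C_mem_maximalIdeal (M.z_mem j)
      rel := fun t => isEmptyElim t
      univ := fun D _ I _ f d w hd hw hκ hη hrel => by
        obtain ⟨F₁, h1, h2, h3⟩ := M.univ D I f d (fun j => w j.succ) hd (fun j => hw _) hκ hη hrel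
        obtain ⟨F, h4, h5⟩ := exists_eval F₁ I (w 0) (hw 0)
        refine ⟨F, fun a => ?_, fun t => isEmptyElim t, fun j => ?_⟩
        · rw [RingHom.comp_apply, h4, h1]
        · refine Fin.cases ?_ (fun j => ?_) j
          · exact h5
          · show F (C (M.z j)) = _
            rw [h4, h3] }⟩

theorem exists_multi_option {T : Type} (k : ℕ)
    (ih : ∀ (κ η : T → O) (_ : ∀ t, κ t + κ t ≠ 0) (_ : ∀ t, η t + η t ≠ 0)
      (_ : ∀ t, κ t ∈ maximalIdeal O) (_ : ∀ t, η t ∈ maximalIdeal O) (τ : T → Typ),
      Nonempty (MultiRing O T k κ η τ))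
    (κ η : Option T → O) (hκ : ∀ t, κ t + κ t ≠ 0) (hη : ∀ t, η t + η t ≠ 0)
    (hκm : ∀ t, κ t ∈ maximalIdeal O) (hηm : ∀ t, η t ∈ maximalIdeal O) (τ : Option T → Typ) :
    Nonempty (MultiRing O (Option T) k κ η τ) := by
  obtain ⟨M⟩ := ih (fun t => κ (some t)) (fun t => η (some t)) (fun t => hκ _) (fun t => hη _)
    (fun t => hκm _) (fun t => hηm _) (fun t => τ (some t))
  have h1 : M.i (κ none) + M.i (κ none) ≠ 0 := by
    rw [← map_add]
    exact fun h => hκ none (M.i_injective (h.trans (map_zero _).symm))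
  have h2 : M.i (η none) + M.i (η none) ≠ 0 := by
    rw [← map_add]
    exact fun h => hη none (M.i_injective (h.trans (map_zero _).symm))
  obtain ⟨S⟩ := exists_step h1 h2 (M.i_mem _ (hκm none)) (M.i_mem _ (hηm none)) (τ none)
  exact ⟨{
    R := S.R
    i := S.i.comp M.i
    e := fun t => t.elim S.e (fun t j => S.i (M.e t j))
    z := fun j => S.i (M.z j)
    i_injective := S.i_injective.comp M.i_injective
    i_mem := fun a ha => S.i_mem _ (M.i_mem _ ha)
    e_mem := fun t j => by
      cases t with
      | none => exact S.e_mem j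
      | some t => exact S.i_mem _ (M.e_mem t j)
    z_mem := fun j => S.i_mem _ (M.z_mem j)
    rel := fun t => by
      cases t with
      | none => exact S.rel
      | some t => exact (M.rel t).map S.i
    univ := fun D _ I _ f d w hd hw hκ' hη' hrel => by
      obtain ⟨F₁, h3, h4, h5⟩ := M.univ D I f (fun t => d (some t)) w (fun t => hd _) hw
        (fun t => hκ' _) (fun t => hη' _) (fun t => hrel _)
      obtain ⟨F, h6, h7⟩ := S.univ D I F₁ (d none) (hd none) (by rw [h3]; exact hκ' _)
        (by rw [h3]; exact hη' _) (by rw [h3, h3]; exact hrel none)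
      refine ⟨F, fun a => ?_, fun t j => ?_, fun j => ?_⟩
      · rw [RingHom.comp_apply, h6, h3]
      · cases t with
        | none => exact h7 j
        | some t =>
          show F (S.i (M.e t j)) = _
          rw [h6, h4]
      · rw [h6, h5] }⟩

theorem exists_multi_equiv {T T' : Type} (E : T ≃ T') (k : ℕ) (κ η : T' → O) (τ : T' → Typ)
    (h : Nonempty (MultiRing O T k (κ ∘ E) (η ∘ E) (τ ∘ E))) :
    Nonempty (MultiRing O T' k κ η τ) := by
  obtain ⟨M⟩ := h
  refine ⟨{
    R := M.R
    i := M.i
    e := fun t => M.e (E.symm t)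
    z := M.z
    i_injective := M.i_injective
    i_mem := M.i_mem
    e_mem := fun t => M.e_mem _
    z_mem := M.z_mem
    rel := fun t => by
      have := M.rel (E.symm t)
      simpa using this
    univ := fun D _ I _ f d w hd hw hκ hη hrel => by
      obtain ⟨F, h1, h2, h3⟩ := M.univ D I f (fun t => d (E t)) w (fun t => hd _) hw
        (fun t => hκ _) (fun t => hη _) (fun t => hrel _)
      refine ⟨F, h1, fun t j => ?_, h3⟩
      rw [h2, E.apply_symm_apply] }⟩

theorem exists_multi (T : Type) [Finite T] (k : ℕ) :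
    ∀ (κ η : T → O) (_ : ∀ t, κ t + κ t ≠ 0) (_ : ∀ t, η t + η t ≠ 0)
      (_ : ∀ t, κ t ∈ maximalIdeal O) (_ : ∀ t, η t ∈ maximalIdeal O) (τ : T → Typ),
      Nonempty (MultiRing O T k κ η τ) := by
  induction T using Finite.induction_empty_option with
  | of_equiv E ih =>
    intro κ η h1 h2 h3 h4 τ
    exact exists_multi_equiv E k κ η τ (ih _ _ (fun t => h1 _) (fun t => h2 _) (fun t => h3 _)
      (fun t => h4 _) _)
  | h_empty =>
    intro κ η _ _ _ _ τ
    exact exists_multi_empty _ k κ η τ
  | h_option ih =>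
    intro κ η h1 h2 h3 h4 τ
    exact exists_multi_option k ih κ η h1 h2 h3 h4 τ

end Fermat.Agent.H57.Tame
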