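/-
Presentation: `B = O⟦(T × Fin 6) ⊕ Fin k⟧` modulo the relations is a domain.
-/
import Fermat.Agent.H57TameMulti
import Fermat.Agent.H68Regular

set_option autoImplicit false
set_option linter.unusedSectionVars false

namespace Fermat.Agent.H57.Tame

open IsLocalRing

universe u

section General

/-- evaluation of multivariate power series. -/
theorem exists_mv_eval {B W σ : Type*} [Finite σ] [CommRing B] [CommRing W] (ε : B →+* W)
    (I : Ideal W) [hI : IsAdicComplete I W] (w : σ → W) (hw : ∀ i, w i ∈ I) :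
    ∃ E : MvPowerSeries σ B →+* W, (∀ b, E (MvPowerSeries.C b) = ε b) ∧
      ∀ i, E (MvPowerSeries.X i) = w i := by
  let _ : WithIdeal W := ⟨I⟩
  let _ : UniformSpace B := ⊥
  have : DiscreteTopology B := ⟨rfl⟩
  have : IsUniformAddGroup B := by infer_instance
  have : IsTopologicalRing B := by infer_instance
  have hadic : IsAdic I := rfl
  have hc := (IsAdic.isAdicComplete_iff (I := I) (R := W) hadic).1 hI
  have : CompleteSpace W := hc.1
  have : T2Space W := hc.2
  have : IsLinearTopology W W := by infer_instance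
  have hε : Continuous ε := continuous_of_discreteTopology
  have ha : MvPowerSeries.HasEval w := by
    refine ⟨fun i => ?_, ?_⟩
    · rw [IsTopologicallyNilpotent, hadic.hasBasis_nhds_zero.tendsto_right_iff]
      intro n _
      filter_upwards [Filter.eventually_ge_atTop n] with m hm
      exact Ideal.pow_le_pow_right hm (Ideal.pow_mem_pow (hw i) m)
    · rw [Filter.cofinite_eq_bot]
      exact Filter.tendsto_bot
  refine ⟨MvPowerSeries.eval₂Hom hε ha, fun b => ?_, fun i => ?_⟩
  · rw [MvPowerSeries.coe_eval₂Hom, MvPowerSeries.eval₂_C]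
  · rw [MvPowerSeries.coe_eval₂Hom, MvPowerSeries.eval₂_X]

/-- uniqueness of evaluation -/
theorem mv_eval_unique {B W σ : Type*} [Finite σ] [CommRing B] [CommRing W]
    {f g : MvPowerSeries σ B →+* W} (I : Ideal W) [hI : IsHausdorff I W]
    (hC : ∀ b, f (MvPowerSeries.C b) = g (MvPowerSeries.C b))
    (hX : ∀ i, f (MvPowerSeries.X i) = g (MvPowerSeries.X i))
    (hXI : ∀ i, f (MvPowerSeries.X i) ∈ I) : f = g := by
  cases nonempty_fintype σ
  classical
  have key : ∀ n (p : MvPowerSeries σ B), f p - g p ∈ I ^ n := by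
    intro n
    induction n with
    | zero => intro p; simp
    | succ n ih =>
      intro p
      have h1 : p - MvPowerSeries.C (MvPowerSeries.constantCoeff p) ∈
          Ideal.span (Set.range (MvPowerSeries.X : σ → MvPowerSeries σ B)) := by
        rw [Fermat.Agent.H68.mem_span_range_X_iff, map_sub, MvPowerSeries.constantCoeff_C, sub_self]
      have h2 : ∀ q ∈ Ideal.span (Set.range (MvPowerSeries.X : σ → MvPowerSeries σ B)),
          f q - g q ∈ I ^ (n + 1) := by
        intro q hq
        refine Submodule.span_induction ?_ ?_ ?_ ?_ hq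
        · rintro _ ⟨i, rfl⟩
          rw [hX, sub_self]; exact Ideal.zero_mem _
        · simp
        · intro x y _ _ hx hy
          rw [map_add, map_add, add_sub_add_comm]
          exact Ideal.add_mem _ hx hy
        · intro a x hx' hx
          have h3 : f x ∈ I := by
            have : Ideal.span (Set.range (MvPowerSeries.X : σ → MvPowerSeries σ B)) ≤ I.comap f := by
              rw [Ideal.span_le]
              rintro _ ⟨i, rfl⟩
              exact hXI i
            exact this hx'
          have h4 : f (a • x) - g (a • x) = (f a - g a) * f x + g a * (f x - g x) := by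
            rw [smul_eq_mul, map_mul, map_mul]; ring
          rw [h4]
          refine Ideal.add_mem _ ?_ (Ideal.mul_mem_left _ _ hx)
          rw [pow_succ]
          exact Ideal.mul_mem_mul (ih a) h3
      have h5 := h2 _ h1
      rwa [map_sub, map_sub, hC, sub_sub_sub_cancel_right] at h5
  ext p
  rw [← sub_eq_zero]
  refine IsHausdorff.haus hI _ fun n => ?_
  rw [SModEq.zero, smul_eq_mul, Ideal.mul_top]
  exact key n p

theorem isAdicComplete_mv (σ : Type*) [Finite σ] (O : Type*) [CommRing O] [IsLocalRing O]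
    [IsNoetherianRing O] [IsAdicComplete (maximalIdeal O) O] :
    IsAdicComplete (maximalIdeal (MvPowerSeries σ O)) (MvPowerSeries σ O) := by
  cases nonempty_fintype σ
  have := isAdicComplete_mvPowerSeries_fin O (Fintype.card σ)
  exact isAdicComplete_of_ringEquiv
    (MvPowerSeries.renameEquiv O (Fintype.equivFin σ).symm).toRingEquiv

lemma mv_X_mem {σ O : Type*} [CommRing O] [IsLocalRing O] (i : σ) :
    (MvPowerSeries.X i : MvPowerSeries σ O) ∈ maximalIdeal (MvPowerSeries σ O) := by
  rw [mem_maximalIdeal, mem_nonunits_iff, MvPowerSeries.isUnit_iff_constantCoeff,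
    MvPowerSeries.constantCoeff_X]
  exact not_isUnit_zero

lemma mv_C_mem {σ O : Type*} [CommRing O] [IsLocalRing O] {a : O} (ha : a ∈ maximalIdeal O) :
    (MvPowerSeries.C a : MvPowerSeries σ O) ∈ maximalIdeal (MvPowerSeries σ O) := by
  rw [mem_maximalIdeal, mem_nonunits_iff, MvPowerSeries.isUnit_iff_constantCoeff,
    MvPowerSeries.constantCoeff_C]
  exact ha

end General

/-- the defining relations as a set of elements -/
def relSet {D : Type*} [CommRing D] (κ η : D) (d : Fin 6 → D) : Typ → Set D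
  | .nr => {d 0, d 1, d 2}
  | .st => {(η + d 3) * (η - d 3) - d 4 * d 5, (η + d 3) * d 2 - d 5 * d 0,
      (η + d 3) * d 0 + d 5 * d 1, d 4 * d 2 - (η - d 3) * d 0,
      d 4 * d 0 + (η - d 3) * d 1, d 0 ^ 2 + d 1 * d 2}
  | .chi => {d 0 ^ 2 + d 1 * d 2 - κ ^ 2, d 0 * d 4 - d 1 * d 3, d 0 * d 5 - d 2 * d 3,
      d 1 * d 5 - d 2 * d 4}

lemma trel_iff {D : Type*} [CommRing D] (κ η : D) (d : Fin 6 → D) (τ : Typ) :
    TRel κ η d τ ↔ ∀ r ∈ relSet κ η d τ, r = 0 := by
  cases τ with
  | nr => simp [TRel, relSet]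
  | st => simp [TRel, relSet, sub_eq_zero]
  | chi => simp [TRel, relSet, sub_eq_zero]

lemma relSet_map {D D' : Type*} [CommRing D] [CommRing D'] (κ η : D) (d : Fin 6 → D) (τ : Typ)
    (f : D →+* D') : f '' relSet κ η d τ = relSet (f κ) (f η) (fun j => f (d j)) τ := by
  cases τ with
  | nr => simp [relSet, Set.image_insert_eq]
  | st => simp [relSet, Set.image_insert_eq]
  | chi => simp [relSet, Set.image_insert_eq]

section

variable {O : Type u} [CommRing O] {T : Type} {k : ℕ}

/-- The ambient power series ring. -/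
abbrev BRing (O : Type u) [CommRing O] (T : Type) (k : ℕ) : Type u :=
  MvPowerSeries ((T × Fin 6) ⊕ Fin k) O

/-- the six variables at `t`. -/
noncomputable def bVar (O : Type u) [CommRing O] {T : Type} (k : ℕ) (t : T) (j : Fin 6) :
    BRing O T k :=
  MvPowerSeries.X (Sum.inl (t, j))

/-- The ideal of the relations. -/
noncomputable def relIdeal (k : ℕ) (κ η : T → O) (τ : T → Typ) : Ideal (BRing O T k) :=
  Ideal.span (⋃ t, relSet (MvPowerSeries.C (κ t)) (MvPowerSeries.C (η t)) (bVar O k t) (τ t))

lemma relIdeal_le_ker_iff {D : Type*} [CommRing D] (κ η : T → O) (τ : T → Typ)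
    (f : BRing O T k →+* D) : relIdeal k κ η τ ≤ RingHom.ker f ↔
      ∀ t, TRel (f (MvPowerSeries.C (κ t))) (f (MvPowerSeries.C (η t)))
        (fun j => f (bVar O k t j)) (τ t) := by
  rw [relIdeal, Ideal.span_le, Set.iUnion_subset_iff]
  refine forall_congr' fun t => ?_
  rw [trel_iff, ← relSet_map]
  constructor
  · rintro h _ ⟨r, hr, rfl⟩
    exact h hr
  · intro h r hr
    exact h _ ⟨r, hr, rfl⟩

end

section Main

variable {O : Type u} [CommRing O] [IsLocalRing O] [IsNoetherianRing O]
  [IsAdicComplete (maximalIdeal O) O] [IsDomain O] {T : Type} [Finite T]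

/-- **The ring of mixed type `τ` is a domain.** -/
theorem relIdeal_isPrime (k : ℕ) {κ η : T → O} (hκ : ∀ t, κ t + κ t ≠ 0)
    (hη : ∀ t, η t + η t ≠ 0) (hκm : ∀ t, κ t ∈ maximalIdeal O) (hηm : ∀ t, η t ∈ maximalIdeal O)
    (τ : T → Typ) : (relIdeal k κ η τ).IsPrime := by
  obtain ⟨M⟩ := exists_multi T k κ η hκ hη hκm hηm τ
  have hB : IsAdicComplete (maximalIdeal (BRing O T k)) (BRing O T k) := isAdicComplete_mv _ _
  -- map from `B`
  obtain ⟨Φ, hΦC, hΦX⟩ := exists_mv_eval (σ := (T × Fin 6) ⊕ Fin k) M.i (maximalIdeal M.R)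
    (Sum.elim (fun p => M.e p.1 p.2) M.z) (by
      rintro (p | j)
      · exact M.e_mem _ _
      · exact M.z_mem _)
  have h1 : relIdeal k κ η τ ≤ RingHom.ker Φ := by
    rw [relIdeal_le_ker_iff]
    intro t
    have h2 : (fun j => Φ (bVar O k t j)) = M.e t := by
      funext j
      exact hΦX (Sum.inl (t, j))
    rw [hΦC, hΦC, h2]
    exact M.rel t
  have h2 : relIdeal k κ η τ ≤ maximalIdeal (BRing O T k) :=
    h1.trans (IsLocalRing.le_maximalIdeal (RingHom.ker_ne_top _))
  have hloc : IsLocalRing (BRing O T k ⧸ relIdeal k κ η τ) := isLocalRing_quot h2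
  have hcomp : IsAdicComplete (maximalIdeal (BRing O T k ⧸ relIdeal k κ η τ))
      (BRing O T k ⧸ relIdeal k κ η τ) := isAdicComplete_quot
  let π := Ideal.Quotient.mk (relIdeal k κ η τ)
  -- the inverse
  obtain ⟨Ψ, hΨ1, hΨ2, hΨ3⟩ := M.univ (BRing O T k ⧸ relIdeal k κ η τ)
    (maximalIdeal (BRing O T k ⧸ relIdeal k κ η τ)) (π.comp MvPowerSeries.C)
    (fun t j => π (bVar O k t j)) (fun j => π (MvPowerSeries.X (Sum.inr j)))
    (fun t j => mk_mem_maximalIdeal (mv_X_mem _)) (fun j => mk_mem_maximalIdeal (mv_X_mem _))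
    (fun t => mk_mem_maximalIdeal (mv_C_mem (hκm t)))
    (fun t => mk_mem_maximalIdeal (mv_C_mem (hηm t))) (by
      have := (relIdeal_le_ker_iff (k := k) κ η τ π).mp (by rw [Ideal.mk_ker])
      exact this)
  have h3 : Ψ.comp Φ = π := by
    apply mv_eval_unique (maximalIdeal (BRing O T k ⧸ relIdeal k κ η τ))
    · intro b
      rw [RingHom.comp_apply, hΦC, hΨ1, RingHom.comp_apply]
    · rintro (p | j)
      · rw [RingHom.comp_apply, hΦX]
        exact hΨ2 p.1 p.2
      · rw [RingHom.comp_apply, hΦX]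
        exact hΨ3 j
    · rintro (p | j)
      · rw [RingHom.comp_apply, hΦX]
        show Ψ (M.e p.1 p.2) ∈ _
        rw [hΨ2]
        exact mk_mem_maximalIdeal (mv_X_mem _)
      · rw [RingHom.comp_apply, hΦX]
        show Ψ (M.z j) ∈ _
        rw [hΨ3]
        exact mk_mem_maximalIdeal (mv_X_mem _)
  have h4 : relIdeal k κ η τ = RingHom.ker Φ := by
    refine le_antisymm h1 fun p hp => ?_
    rw [RingHom.mem_ker] at hp
    have := congrArg (fun F : BRing O T k →+* _ => F p) h3
    simp only [RingHom.comp_apply, hp, map_zero] at this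
    exact Ideal.Quotient.eq_zero_iff_mem.mp this.symm
  rw [h4]
  exact RingHom.ker_isPrime Φ

end Main

end Fermat.Agent.H57.Tame
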