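/-
Dimension bound, test homomorphisms and the "uni" relations.
-/
import Fermat.Agent.H57TameAll

set_option autoImplicit false
set_option linter.unusedSectionVars false

namespace Fermat.Agent.H57.Tame

open IsLocalRing

universe u

/-- parameters -/
def parSet {D : Type*} [CommRing D] (d : Fin 6 → D) : Typ → Fin 3 → D
  | .nr => ![d 3, d 4, d 5]
  | .st => ![d 1, d 5, d 2 - d 4]
  | .chi => ![d 3, d 4 + d 2, d 5 + d 1]

lemma eq_zero_of_par {D : Type*} [CommRing D] [IsDomain D] {d : Fin 6 → D} {τ : Typ}
    (h : TRel 0 0 d τ) (hp : ∀ j, parSet d τ j = 0) : ∀ j, d j = 0 := by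
  have h0 := hp 0
  have h1 := hp 1
  have h2 := hp 2
  have key : d 0 = 0 → d 1 = 0 → d 2 = 0 → d 3 = 0 → d 4 = 0 → d 5 = 0 → ∀ j, d j = 0 := by
    intro e0 e1 e2 e3 e4 e5 j
    fin_cases j <;> assumption
  cases τ with
  | nr =>
    obtain ⟨e0, e1, e2⟩ := h
    exact key e0 e1 e2 h0 h1 h2
  | st =>
    obtain ⟨r1, r2, r3, r4, r5, r6⟩ := h
    replace h0 : d 1 = 0 := h0
    replace h1 : d 5 = 0 := h1
    replace h2 : d 2 - d 4 = 0 := h2
    have e0 : d 0 = 0 := by
      have : d 0 ^ 2 = 0 := by rw [h0, zero_mul, add_zero] at r6; exact r6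
      exact pow_eq_zero_iff (two_ne_zero) |>.mp this
    have e3 : d 3 = 0 := by
      have : d 3 ^ 2 = 0 := by rw [h1] at r1; linear_combination -r1
      exact pow_eq_zero_iff (two_ne_zero) |>.mp this
    have e4 : d 4 = 0 := by
      have : d 4 ^ 2 = 0 := by rw [e0] at r4; linear_combination r4 - d 4 * h2
      exact pow_eq_zero_iff (two_ne_zero) |>.mp this
    have e2 : d 2 = 0 := by rw [e4, sub_zero] at h2; exact h2
    exact key e0 h0 e2 e3 e4 h1
  | chi =>
    obtain ⟨r1, r2, r3, r4⟩ := h
    replace h0 : d 3 = 0 := h0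
    replace h1 : d 4 + d 2 = 0 := h1
    replace h2 : d 5 + d 1 = 0 := h2
    have e4 : d 4 = - d 2 := by linear_combination h1
    have e5 : d 5 = - d 1 := by linear_combination h2
    rw [e4, e5] at r4
    rw [e4, h0] at r2
    rw [e5, h0] at r3
    have e0 : d 0 = 0 := by
      have : d 0 ^ 3 = 0 := by linear_combination d 0 * r1 + d 2 * r3
      exact pow_eq_zero_iff (three_ne_zero) |>.mp this
    have e1 : d 1 = 0 := by
      have h3 : d 1 * d 2 = 0 := by rw [e0] at r1; linear_combination r1
      have : d 1 ^ 3 = 0 := by linear_combination - d 1 * r4 + d 2 * h3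
      exact pow_eq_zero_iff (three_ne_zero) |>.mp this
    have e2 : d 2 = 0 := by
      have : d 2 ^ 2 = 0 := by rw [e1] at r4; linear_combination r4
      exact pow_eq_zero_iff (two_ne_zero) |>.mp this
    exact key e0 e1 e2 h0 (by rw [e4, e2, neg_zero]) (by rw [e5, e1, neg_zero])

section Dim

variable {O : Type u} [CommRing O] [IsLocalRing O] [IsNoetherianRing O]
  {T : Type} [Finite T]

/-- **Dimension bound.** -/
theorem ringKrullDim_quot_relIdeal_le (k : ℕ) {ϖ : O} (hϖ : maximalIdeal O = Ideal.span {ϖ})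
    {κ η : T → O} (hκm : ∀ t, κ t ∈ maximalIdeal O) (hηm : ∀ t, η t ∈ maximalIdeal O)
    (τ : T → Typ) :
    ringKrullDim (BRing O T k ⧸ relIdeal k κ η τ) ≤ ((1 + 3 * Nat.card T + k : ℕ) : WithBot ℕ∞) := by
  classical
  cases nonempty_fintype T
  set J := relIdeal k κ η τ with hJ
  let π := Ideal.Quotient.mk J
  let par : Unit ⊕ (T × Fin 3) ⊕ Fin k → BRing O T k :=
    Sum.elim (fun _ => MvPowerSeries.C ϖ) (Sum.elim (fun p => parSet (bVar O k p.1) (τ p.1) p.2)
      (fun j => MvPowerSeries.X (Sum.inr j)))
  by_cases hle : J ≤ maximalIdeal (BRing O T k)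
  swap
  · -- then the quotient is trivial
    have h1 : J = ⊤ := by
      by_contra h
      exact hle (IsLocalRing.le_maximalIdeal h)
    have : Subsingleton (BRing O T k ⧸ J) := Ideal.Quotient.subsingleton_iff.mpr h1
    rw [ringKrullDim_eq_bot_of_subsingleton]
    exact bot_le
  have hloc : IsLocalRing (BRing O T k ⧸ J) := by
    have : Nontrivial (BRing O T k ⧸ J) := Ideal.Quotient.nontrivial_iff.mpr fun h =>
      (maximalIdeal.isMaximal _).ne_top (top_le_iff.mp (h ▸ hle))
    exact IsLocalRing.of_surjective' (Ideal.Quotient.mk J) Ideal.Quotient.mk_surjective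
  let s : Finset (BRing O T k ⧸ J) := Finset.univ.image fun i => π (par i)
  have hcard : s.card ≤ 1 + 3 * Nat.card T + k := by
    refine Finset.card_image_le.trans ?_
    rw [Finset.card_univ]
    simp only [Fintype.card_sum, Fintype.card_unit, Fintype.card_prod, Fintype.card_fin,
      Nat.card_eq_fintype_card]
    omega
  have hmin : maximalIdeal (BRing O T k ⧸ J) ∈ (Ideal.span (s : Set (BRing O T k ⧸ J))).minimalPrimes := by
    refine ⟨⟨inferInstance, ?_⟩, ?_⟩
    · rw [Ideal.span_le]
      intro x hx
      simp only [s, Finset.coe_image, Finset.coe_univ, Set.image_univ, Set.mem_range] at hx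
      obtain ⟨i, rfl⟩ := hx
      apply mk_mem_maximalIdeal
      rcases i with _ | p | j
      · refine mv_C_mem ?_
        rw [hϖ]; exact Ideal.mem_span_singleton_self ϖ
      · show parSet (bVar O k p.1) (τ p.1) p.2 ∈ _
        have hX : ∀ j, bVar O k p.1 j ∈ maximalIdeal (BRing O T k) := fun j => mv_X_mem _
        obtain ⟨t, j⟩ := p
        cases τ t <;> fin_cases j <;>
          simp only [parSet] <;>
          first
            | exact hX _
            | exact Ideal.sub_mem _ (hX _) (hX _)
            | exact Ideal.add_mem _ (hX _) (hX _)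
      · exact mv_X_mem _
    · rintro P ⟨hP, hsP⟩ hPm
      -- all variables are in `P`
      let F : BRing O T k →+* BRing O T k ⧸ P.comap π := Ideal.Quotient.mk (P.comap π)
      have hF0 : ∀ b, F b = 0 ↔ π b ∈ P := by
        intro b
        rw [Ideal.Quotient.eq_zero_iff_mem, Ideal.mem_comap]
      have hP' : (P.comap π).IsPrime := Ideal.comap_isPrime π P
      have hdom : IsDomain (BRing O T k ⧸ P.comap π) := Ideal.Quotient.isDomain _
      have hpar : ∀ i, F (par i) = 0 := by
        intro i
        rw [hF0]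
        apply hsP
        apply Ideal.subset_span
        simp only [s, Finset.coe_image, Finset.coe_univ, Set.image_univ, Set.mem_range]
        exact ⟨i, rfl⟩
      have hFC : ∀ a ∈ maximalIdeal O, F (MvPowerSeries.C a) = 0 := by
        intro a ha
        rw [hϖ, Ideal.mem_span_singleton] at ha
        obtain ⟨b, rfl⟩ := ha
        rw [map_mul, map_mul]
        have := hpar (Sum.inl ())
        simp only [par, Sum.elim_inl] at this
        rw [this, zero_mul]
      have hrel : ∀ t, TRel (F (MvPowerSeries.C (κ t))) (F (MvPowerSeries.C (η t)))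
          (fun j => F (bVar O k t j)) (τ t) := by
        rw [← relIdeal_le_ker_iff (k := k) κ η τ F]
        intro x hx
        rw [RingHom.mem_ker, hF0]
        have : π x = 0 := Ideal.Quotient.eq_zero_iff_mem.mpr hx
        rw [this]
        exact P.zero_mem
      have hparF : ∀ t j, parSet (fun j => F (bVar O k t j)) (τ t) j = 0 := by
        intro t j
        have h1 := hpar (Sum.inr (Sum.inl (t, j)))
        simp only [par, Sum.elim_inl, Sum.elim_inr] at h1
        have h2 : parSet (fun j => F (bVar O k t j)) (τ t) j =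
            F (parSet (bVar O k t) (τ t) j) := by
          cases τ t <;> fin_cases j <;> simp [parSet]
        rw [h2, h1]
      have hXF : ∀ i, F (MvPowerSeries.X i) = 0 := by
        rintro (⟨t, j⟩ | j)
        · have := hrel t
          rw [hFC _ (hκm t), hFC _ (hηm t)] at this
          exact eq_zero_of_par this (hparF t) j
        · exact hpar (Sum.inr (Sum.inr j))
      intro x hx
      obtain ⟨f, rfl⟩ := Ideal.Quotient.mk_surjective x
      have hf : f ∈ maximalIdeal (BRing O T k) := by
        rw [mem_maximalIdeal, mem_nonunits_iff] at hx ⊢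
        exact fun h => hx (h.map _)
      have h0 : F f = 0 := by
        have h1 : f - MvPowerSeries.C (MvPowerSeries.constantCoeff f) ∈
            Ideal.span (Set.range (MvPowerSeries.X : (T × Fin 6) ⊕ Fin k → BRing O T k)) := by
          rw [Fermat.Agent.H68.mem_span_range_X_iff, map_sub, MvPowerSeries.constantCoeff_C, sub_self]
        have h2 : Ideal.span (Set.range (MvPowerSeries.X : (T × Fin 6) ⊕ Fin k → BRing O T k)) ≤
            RingHom.ker F := by
          rw [Ideal.span_le]
          rintro _ ⟨i, rfl⟩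
          exact hXF i
        have h3 := h2 h1
        rw [RingHom.mem_ker, map_sub, sub_eq_zero] at h3
        rw [h3]
        apply hFC
        rw [mem_maximalIdeal, mem_nonunits_iff, MvPowerSeries.isUnit_iff_constantCoeff] at hf
        exact hf
      exact (hF0 f).mp h0
  rw [← IsLocalRing.maximalIdeal_height_eq_ringKrullDim]
  have h1 := Ideal.height_le_card_of_mem_minimalPrimes_span_finset hmin
  have h2 : (maximalIdeal (BRing O T k ⧸ J)).height ≤ ((1 + 3 * Nat.card T + k : ℕ) : ℕ∞) :=
    h1.trans (by exact_mod_cast hcard)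
  exact WithBot.coe_le_coe.mpr h2

/-- a prime containing `J` with large quotient is `J`. -/
theorem eq_of_le_of_ringKrullDim {B : Type u} [CommRing B] {J P : Ideal B} [J.IsPrime]
    (hJP : J ≤ P) {n : ℕ} (h1 : ringKrullDim (B ⧸ J) ≤ (n : WithBot ℕ∞))
    (h2 : (n : WithBot ℕ∞) ≤ ringKrullDim (B ⧸ P)) : P = J := by
  refine le_antisymm (fun r hr => ?_) hJP
  by_contra hrJ
  have h3 : Ideal.Quotient.mk J r ∈ nonZeroDivisors (B ⧸ J) := by
    apply mem_nonZeroDivisors_of_ne_zero
    intro h
    exact hrJ (Ideal.Quotient.eq_zero_iff_mem.mp h)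
  have h4 := ringKrullDim_succ_le_of_surjective (Ideal.Quotient.factor hJP)
    (Ideal.Quotient.factor_surjective hJP) h3 (by
      rw [Ideal.Quotient.factor_mk]
      exact Ideal.Quotient.eq_zero_iff_mem.mpr hr)
  have h5 : (n : WithBot ℕ∞) + 1 ≤ n := (add_le_add_left h2 1).trans (h4.trans h1)
  have h6 : ((n + 1 : ℕ) : WithBot ℕ∞) ≤ (n : ℕ) := by exact_mod_cast h5
  have h7 : n + 1 ≤ n := by exact_mod_cast h6
  omega

end Dim

end Fermat.Agent.H57.Tame
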