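/-
The "uni" relations `N² = 0`, `Φ N = q N Φ` in a domain, and the test homomorphisms.
-/
import Fermat.Agent.H57TameDim

set_option autoImplicit false
set_option linter.unusedSectionVars false

namespace Fermat.Agent.H57.Tame

open IsLocalRing

universe u

/-- the relations `N² = 0`, `Φ N = q N Φ`, `det Φ = q` where `Φ = s + F`. -/
def URel {D : Type*} [CommRing D] (q s : D) (d : Fin 6 → D) : Prop :=
  s ^ 2 = q + (d 3 ^ 2 + d 4 * d 5) ∧ d 0 ^ 2 + d 1 * d 2 = 0 ∧
  (s + d 3) * d 0 + d 4 * d 2 = q * (d 0 * (s + d 3) + d 1 * d 5) ∧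
  (s + d 3) * d 1 - d 4 * d 0 = q * (d 0 * d 4 + d 1 * (s - d 3)) ∧
  d 5 * d 0 + (s - d 3) * d 2 = q * (d 2 * (s + d 3) - d 0 * d 5) ∧
  d 5 * d 1 - (s - d 3) * d 0 = q * (d 2 * d 4 - d 0 * (s - d 3))

lemma URel.of_matrix {D : Type*} [CommRing D] {q s : D} {d : Fin 6 → D}
    (h1 : s ^ 2 = q + (d 3 ^ 2 + d 4 * d 5)) (h2 : d 0 ^ 2 + d 1 * d 2 = 0)
    (h3 : !![s + d 3, d 4; d 5, s - d 3] * !![d 0, d 1; d 2, -d 0] =
      q • (!![d 0, d 1; d 2, -d 0] * !![s + d 3, d 4; d 5, s - d 3])) : URel q s d := by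
  refine ⟨h1, h2, ?_, ?_, ?_, ?_⟩
  · have := congrFun (congrFun h3 0) 0
    simpa [Matrix.mul_apply, Fin.sum_univ_two] using this
  · have := congrFun (congrFun h3 0) 1
    simp [Matrix.mul_apply, Fin.sum_univ_two] at this
    linear_combination this
  · have := congrFun (congrFun h3 1) 0
    simp [Matrix.mul_apply, Fin.sum_univ_two] at this
    linear_combination this
  · have := congrFun (congrFun h3 1) 1
    simp [Matrix.mul_apply, Fin.sum_univ_two] at this
    linear_combination this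

lemma URel.map {D D' : Type*} [CommRing D] [CommRing D'] {q s : D} {d : Fin 6 → D}
    (h : URel q s d) (f : D →+* D') : URel (f q) (f s) (fun j => f (d j)) := by
  obtain ⟨h1, h2, h3, h4, h5, h6⟩ := h
  refine ⟨?_, ?_, ?_, ?_, ?_, ?_⟩
  · simpa using congrArg f h1
  · simpa using congrArg f h2
  · simpa using congrArg f h3
  · simpa using congrArg f h4
  · simpa using congrArg f h5
  · simpa using congrArg f h6

section Domain

variable {D : Type*} [CommRing D] [IsDomain D] {q s η : D} {d : Fin 6 → D}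

lemma uni_trace (h : URel q s d) (hq1 : q - 1 ≠ 0) : 2 * d 3 * d 0 + d 4 * d 2 + d 5 * d 1 = 0 := by
  obtain ⟨h1, h2, h3, h4, h5, h6⟩ := h
  have : (q - 1) * (2 * d 3 * d 0 + d 4 * d 2 + d 5 * d 1) = 0 := by
    linear_combination -h3 - h6
  exact (mul_eq_zero.mp this).resolve_left hq1

/-- if `y ≠ 0` then `4 s² = (1 + q)²`. -/
lemma uni_sq (h : URel q s d) (hq1 : q - 1 ≠ 0) (hq : q ≠ 0) (hy : d 1 ≠ 0 ∨ d 2 ≠ 0) :
    (2 * s) ^ 2 = (1 + q) ^ 2 := by
  have ht := uni_trace h hq1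
  obtain ⟨h1, h2, h3, h4, h5, h6⟩ := h
  rcases hy with hy | hy
  · have e1 : (1 - q) * s * d 1 = (1 + q) * (d 4 * d 0 - d 3 * d 1) := by linear_combination h4
    have e2 : (d 4 * d 0 - d 3 * d 1) ^ 2 = d 1 ^ 2 * (d 3 ^ 2 + d 4 * d 5) := by
      linear_combination d 4 ^ 2 * h2 - d 4 * d 1 * ht
    have e3 : d 1 ^ 2 * (q * ((2 * s) ^ 2 - (1 + q) ^ 2)) = 0 := by
      have e4 : ((1 - q) * s * d 1) ^ 2 = ((1 + q) * (d 4 * d 0 - d 3 * d 1)) ^ 2 := by rw [e1]
      rw [mul_pow (1 + q), e2] at e4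
      linear_combination -e4 + (1 + q) ^ 2 * d 1 ^ 2 * h1
    have e5 := (mul_eq_zero.mp ((mul_eq_zero.mp e3).resolve_left (pow_ne_zero 2 hy))).resolve_left hq
    linear_combination e5
  · have e1 : (1 - q) * s * d 2 = (1 + q) * (d 3 * d 2 - d 5 * d 0) := by linear_combination h5
    have e2 : (d 3 * d 2 - d 5 * d 0) ^ 2 = d 2 ^ 2 * (d 3 ^ 2 + d 4 * d 5) := by
      linear_combination d 5 ^ 2 * h2 - d 5 * d 2 * ht
    have e3 : d 2 ^ 2 * (q * ((2 * s) ^ 2 - (1 + q) ^ 2)) = 0 := by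
      have e4 : ((1 - q) * s * d 2) ^ 2 = ((1 + q) * (d 3 * d 2 - d 5 * d 0)) ^ 2 := by rw [e1]
      rw [mul_pow (1 + q), e2] at e4
      linear_combination -e4 + (1 + q) ^ 2 * d 2 ^ 2 * h1
    have e5 := (mul_eq_zero.mp ((mul_eq_zero.mp e3).resolve_left (pow_ne_zero 2 hy))).resolve_left hq
    linear_combination e5

/-- in a domain, `uni` and `y ≠ 0` imply Steinberg. -/
theorem URel.st (h : URel q s d) (hη : q = 1 + 2 * η) (h2 : (2 : D) ≠ 0) (hη0 : η ≠ 0) (hq : q ≠ 0)
    (hq1 : 1 + q ≠ 0) (hs : 2 * s + (1 + q) ≠ 0) (hy : d 1 ≠ 0) (κ : D) : TRel κ η d .st := by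
  have hq1' : q - 1 ≠ 0 := by
    rw [hη, add_sub_cancel_left]
    exact mul_ne_zero h2 hη0
  have ht := uni_trace h hq1'
  have hs1 := uni_sq h hq1' hq (Or.inl hy)
  have hs2 : s = 1 + η := by
    have e1 : (2 * s + (1 + q)) * (2 * s - (1 + q)) = 0 := by linear_combination hs1
    have e2 := (mul_eq_zero.mp e1).resolve_left hs
    apply mul_left_cancel₀ h2
    linear_combination e2 + hη
  obtain ⟨h1, h2', h3, h4, h5, h6⟩ := h
  have c1 : ∀ {p : D}, (1 + q) * p = 0 → p = 0 := fun hp => (mul_eq_zero.mp hp).resolve_left hq1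
  have c2 : ∀ {p : D}, 2 * p = 0 → p = 0 := fun hp => (mul_eq_zero.mp hp).resolve_left h2
  have e3 : d 4 * d 2 - d 5 * d 1 = 2 * η * d 0 := by
    rw [← sub_eq_zero]
    apply c1
    rw [hs2, hη] at h3 h6
    rw [hη]
    linear_combination h3 - h6
  have e4 : d 4 * d 2 = (η - d 3) * d 0 := by
    rw [← sub_eq_zero]
    apply c2
    linear_combination e3 + ht
  have e5 : (η + d 3) * d 0 + d 5 * d 1 = 0 := by
    apply c2
    linear_combination ht - e3
  have e6 : d 4 * d 0 + (η - d 3) * d 1 = 0 := by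
    apply c1
    rw [hs2, hη] at h4
    rw [hη]
    linear_combination -h4
  have e7 : (η + d 3) * d 2 = d 5 * d 0 := by
    rw [← sub_eq_zero]
    apply c1
    rw [hs2, hη] at h5
    rw [hη]
    linear_combination -h5
  have e8 : (η + d 3) * (η - d 3) = d 4 * d 5 := by
    rw [hs2, hη] at h1
    linear_combination h1
  exact ⟨e8, e7, e5, e4, e6, h2'⟩

/-- in a domain, `uni` and `h ≠ 0` imply unramified. -/
theorem URel.nr (h : URel q s d) (hη : q = 1 + 2 * η) (h2 : (2 : D) ≠ 0) (hη0 : η ≠ 0) (hq : q ≠ 0)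
    (hh : d 3 ^ 2 + d 4 * d 5 - η ^ 2 ≠ 0) (κ : D) : TRel κ η d .nr := by
  have hq1' : q - 1 ≠ 0 := by
    rw [hη, add_sub_cancel_left]
    exact mul_ne_zero h2 hη0
  have key : d 1 = 0 ∧ d 2 = 0 := by
    by_contra hne
    have hy : d 1 ≠ 0 ∨ d 2 ≠ 0 := by tauto
    have hs1 := uni_sq h hq1' hq hy
    apply hh
    obtain ⟨h1, -⟩ := h
    have e : (2 * 2) * (d 3 ^ 2 + d 4 * d 5 - η ^ 2) = 0 := by
      rw [hη] at hs1 h1
      linear_combination hs1 - 4 * h1
    exact (mul_eq_zero.mp e).resolve_left (mul_ne_zero h2 h2)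
  obtain ⟨-, h2', -⟩ := h
  refine ⟨?_, key.1, key.2⟩
  rw [key.1, zero_mul, add_zero] at h2'
  exact pow_eq_zero_iff (two_ne_zero) |>.mp h2'

end Domain

/-- the test elements: `h = a² + bc - η²` for `nr`, `y` for `st`. -/
def gElt {D : Type*} [CommRing D] (η : D) (d : Fin 6 → D) : Typ → D
  | .nr => d 3 ^ 2 + d 4 * d 5 - η ^ 2
  | .st => d 1
  | .chi => 1

section Test

variable {O : Type u} [CommRing O] [IsLocalRing O] {T : Type} [Finite T]

/-- test homomorphism into a domain -/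
theorem exists_test (k : ℕ) {κ η : T → O} (hκm : ∀ t, κ t ∈ maximalIdeal O)
    (hηm : ∀ t, η t ∈ maximalIdeal O) (σ : T → Typ) :
    ∃ θ : BRing O T k →+* MvPowerSeries T (ResidueField O),
      relIdeal k κ η (fun _ => Typ.chi) ≤ RingHom.ker θ ∧
      (∀ a ∈ maximalIdeal O, θ (MvPowerSeries.C a) = 0) ∧
      ∀ t, θ (gElt (MvPowerSeries.C (η t)) (bVar O k t) (σ t)) ≠ 0 := by
  have hfield : IsAdicComplete (maximalIdeal (ResidueField O)) (ResidueField O) := by
    rw [IsLocalRing.maximalIdeal_eq_bot]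
    infer_instance
  have hW : IsAdicComplete (maximalIdeal (MvPowerSeries T (ResidueField O)))
      (MvPowerSeries T (ResidueField O)) := isAdicComplete_mv _ _
  let w : (T × Fin 6) ⊕ Fin k → MvPowerSeries T (ResidueField O) :=
    Sum.elim (fun p => match σ p.1 with
      | .nr => if p.2 = 3 then MvPowerSeries.X p.1 else 0
      | .st => if p.2 = 1 then MvPowerSeries.X p.1 else 0
      | .chi => 0) (fun _ => 0)
  have hw : ∀ i, w i ∈ maximalIdeal (MvPowerSeries T (ResidueField O)) := by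
    rintro (⟨t, j⟩ | j)
    · show (match σ t with
        | .nr => if j = 3 then MvPowerSeries.X t else 0
        | .st => if j = 1 then MvPowerSeries.X t else 0
        | .chi => 0) ∈ _
      cases σ t
      · dsimp only
        split_ifs
        · exact mv_X_mem _
        · exact Ideal.zero_mem _
      · dsimp only
        split_ifs
        · exact mv_X_mem _
        · exact Ideal.zero_mem _
      · exact Ideal.zero_mem _
    · exact Ideal.zero_mem _
  obtain ⟨θ, hC, hX⟩ := exists_mv_eval (σ := (T × Fin 6) ⊕ Fin k)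
    ((MvPowerSeries.C).comp (residue O)) (maximalIdeal (MvPowerSeries T (ResidueField O))) w hw
  have hC0 : ∀ a ∈ maximalIdeal O, θ (MvPowerSeries.C a) = 0 := by
    intro a ha
    rw [hC, RingHom.comp_apply, (residue_eq_zero_iff a).mpr ha, map_zero]
  have hb : ∀ t j, θ (bVar O k t j) = match σ t with
      | .nr => if j = 3 then MvPowerSeries.X t else 0
      | .st => if j = 1 then MvPowerSeries.X t else 0
      | .chi => 0 := fun t j => hX (Sum.inl (t, j))
  refine ⟨θ, ?_, hC0, ?_⟩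
  · rw [relIdeal_le_ker_iff]
    intro t
    rw [hC0 _ (hκm t), hC0 _ (hηm t)]
    refine ⟨?_, ?_, ?_, ?_⟩ <;>
    · simp only [hb]
      cases σ t <;> simp
  · intro t
    have hXne : (MvPowerSeries.X t : MvPowerSeries T (ResidueField O)) ≠ 0 := by
      intro h
      have := congrArg (MvPowerSeries.coeff (Finsupp.single t 1)) h
      rw [MvPowerSeries.coeff_index_single_self_X, map_zero] at this
      exact one_ne_zero this
    have hbt := hb t
    cases hσ : σ t
    · simp only [hσ] at hbt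
      simp only [gElt, map_sub, map_add, map_mul, map_pow, hbt, hC0 _ (hηm t)]
      simp
      exact hXne
    · simp only [hσ] at hbt
      simp only [gElt, hbt]
      simpa using hXne
    · simp [gElt]

end Test

end Fermat.Agent.H57.Tame
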