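/-
Abstract patching (Kisin style): the coefficient ring `S`, the patched local ring `B` and the
global ring `R` are arbitrary complete noetherian local rings with finite residue fields, and
several "types" of modules are patched simultaneously.
-/
import Fermat.Agent.H57AdicLimit

set_option autoImplicit false
set_option linter.style.haveILetI false

namespace Fermat.Agent.H69.KP

open IsLocalRing Fermat.Agent.H57

/-- A patching level. `S` is the ring of diamond operators and framing variables, `B` is the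
patched local deformation ring, `R` the global ring and `M τ` the modules for the types `τ`. -/
structure KLevel (S B R : Type) [CommRing S] [CommRing B] [CommRing R] [Algebra S R]
    {ι : Type} (M : ι → Type) [∀ τ, AddCommGroup (M τ)] [∀ τ, Module S (M τ)]
    [∀ τ, Module R (M τ)] (d : ι → ℕ) (I J : Ideal S) : Type 1 where
  /-- the modules at this level -/
  N : ι → Type
  [instAddCommGroup : ∀ τ, AddCommGroup (N τ)]
  [instModule : ∀ τ, Module B (N τ)]
  /-- the structure map of the coefficient ring -/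
  φ : S →+* B
  /-- the map to the global ring -/
  ψ : B →+* R
  ψ_surjective : Function.Surjective ψ
  ψ_φ : ∀ s, ψ (φ s) = algebraMap S R s
  /-- the projections -/
  π : ∀ τ, N τ →+ M τ
  π_smul : ∀ τ (f : B) (x : N τ), π τ (f • x) = ψ f • π τ x
  π_surjective : ∀ τ, Function.Surjective (π τ)
  ker_π : ∀ τ (x : N τ), π τ x = 0 → x ∈ (J.map φ) • (⊤ : Submodule B (N τ))
  /-- the bases -/
  b : ∀ τ, Fin (d τ) → N τ
  b_span : ∀ τ (x : N τ), ∃ c : Fin (d τ) → S, x = ∑ i, φ (c i) • b τ i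
  b_rel : ∀ τ (c : Fin (d τ) → S), ∑ i, φ (c i) • b τ i = 0 ↔ ∀ i, c i ∈ I

attribute [instance] KLevel.instAddCommGroup KLevel.instModule

variable {S B R : Type} [CommRing S] [CommRing B] [CommRing R] [Algebra S R]
  {ι : Type} {M : ι → Type} [∀ τ, AddCommGroup (M τ)] [∀ τ, Module S (M τ)]
  [∀ τ, Module R (M τ)] {d : ι → ℕ} {I J : Ideal S}

section Level

variable (L : KLevel S B R M d I J)

lemma sub_mem_of_eq {τ : ι} {c c' : Fin (d τ) → S}
    (h : ∑ i, L.φ (c i) • L.b τ i = ∑ i, L.φ (c' i) • L.b τ i) (i : Fin (d τ)) :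
    c i - c' i ∈ I := by
  refine (L.b_rel τ fun i => c i - c' i).mp ?_ i
  simp only [map_sub, sub_smul, Finset.sum_sub_distrib, h, sub_self]

lemma π_sum [∀ τ, IsScalarTower S R (M τ)] {τ : ι} (c : Fin (d τ) → S) :
    L.π τ (∑ i, L.φ (c i) • L.b τ i) = ∑ i, c i • L.π τ (L.b τ i) := by
  rw [map_sum]
  refine Finset.sum_congr rfl fun i _ => ?_
  rw [L.π_smul, L.ψ_φ, algebraMap_smul]

/-- elements of `(φ K) N` have coordinates in `K` -/
lemma exists_coord_mem {τ : ι} {K : Ideal S} {x : L.N τ}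
    (hx : x ∈ (K.map L.φ) • (⊤ : Submodule B (L.N τ))) :
    ∃ c : Fin (d τ) → S, (∀ i, c i ∈ K) ∧ x = ∑ i, L.φ (c i) • L.b τ i := by
  have hstep : ∀ a ∈ K, ∀ y : L.N τ, ∃ c : Fin (d τ) → S, (∀ i, c i ∈ K) ∧
      L.φ a • y = ∑ i, L.φ (c i) • L.b τ i := by
    intro a ha y
    obtain ⟨c, rfl⟩ := L.b_span τ y
    refine ⟨fun i => a * c i, fun i => Ideal.mul_mem_right _ _ ha, ?_⟩
    rw [Finset.smul_sum]
    exact Finset.sum_congr rfl fun i _ => by rw [map_mul, mul_smul]
  have hadd : ∀ x y : L.N τ, (∃ c : Fin (d τ) → S, (∀ i, c i ∈ K) ∧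
      x = ∑ i, L.φ (c i) • L.b τ i) → (∃ c : Fin (d τ) → S, (∀ i, c i ∈ K) ∧
      y = ∑ i, L.φ (c i) • L.b τ i) → (∃ c : Fin (d τ) → S, (∀ i, c i ∈ K) ∧
      x + y = ∑ i, L.φ (c i) • L.b τ i) := by
    rintro x y ⟨c, hc, rfl⟩ ⟨c', hc', rfl⟩
    refine ⟨fun i => c i + c' i, fun i => add_mem (hc i) (hc' i), ?_⟩
    rw [← Finset.sum_add_distrib]
    exact Finset.sum_congr rfl fun i _ => by rw [map_add, add_smul]
  have key : ∀ a ∈ K.map L.φ, ∀ y : L.N τ, ∃ c : Fin (d τ) → S, (∀ i, c i ∈ K) ∧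
      a • y = ∑ i, L.φ (c i) • L.b τ i := by
    intro a ha
    induction ha using Submodule.span_induction with
    | mem a ha =>
      obtain ⟨a, ha, rfl⟩ := ha
      exact hstep a ha
    | zero => exact fun y => ⟨0, fun i => K.zero_mem, by simp⟩
    | add a a' _ _ h1 h2 =>
      intro y
      rw [add_smul]
      exact hadd _ _ (h1 y) (h2 y)
    | smul t a _ h =>
      intro y
      have := h (t • y)
      rwa [← mul_smul, mul_comm, ← smul_eq_mul] at this
  exact Submodule.smul_induction_on hx (fun a ha y _ => key a ha y) hadd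

lemma sum_mem_iff {τ : ι} {K : Ideal S} {c : Fin (d τ) → S} :
    ∑ i, L.φ (c i) • L.b τ i ∈ (K.map L.φ) • (⊤ : Submodule B (L.N τ)) ↔
      ∀ i, c i ∈ K ⊔ I := by
  constructor
  · intro h i
    obtain ⟨c', hc', h1⟩ := exists_coord_mem L h
    have h2 := sub_mem_of_eq L h1 i
    have h3 : c i = c' i + (c i - c' i) := by ring
    rw [h3]
    exact Submodule.add_mem_sup (hc' i) h2
  · intro h
    choose k hk t ht hkt using fun i => Submodule.mem_sup.mp (h i)
    have h1 : ∑ i, L.φ (c i) • L.b τ i = ∑ i, L.φ (k i) • L.b τ i := by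
      have h2 := (L.b_rel τ t).mpr ht
      have h3 : ∑ i, L.φ (c i) • L.b τ i = ∑ i, L.φ (k i) • L.b τ i +
          ∑ i, L.φ (t i) • L.b τ i := by
        rw [← Finset.sum_add_distrib]
        exact Finset.sum_congr rfl fun i _ => by rw [← hkt i, map_add, add_smul]
      rw [h3, h2, add_zero]
    rw [h1]
    exact Submodule.sum_mem _ fun i _ =>
      Submodule.smul_mem_smul (Ideal.mem_map_of_mem _ (hk i)) trivial

/-- matrix entries of the action of `f` on the basis `b` -/
noncomputable def Θ (τ : ι) (f : B) (i j : Fin (d τ)) : S :=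
  (L.b_span τ (f • L.b τ j)).choose i

lemma Θ_spec (τ : ι) (f : B) (j : Fin (d τ)) :
    f • L.b τ j = ∑ i, L.φ (Θ L τ f i j) • L.b τ i :=
  (L.b_span τ (f • L.b τ j)).choose_spec

/-- the action on a general vector -/
lemma smul_sum (τ : ι) (f : B) (c : Fin (d τ) → S) :
    f • ∑ j, L.φ (c j) • L.b τ j = ∑ i, L.φ (∑ j, Θ L τ f i j * c j) • L.b τ i := by
  rw [Finset.smul_sum]
  simp only [map_sum, Finset.sum_smul]
  rw [Finset.sum_comm]
  refine Finset.sum_congr rfl fun j _ => ?_
  rw [smul_comm, Θ_spec, Finset.smul_sum]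
  exact Finset.sum_congr rfl fun i _ => by rw [map_mul, mul_comm, mul_smul]

lemma Θ_add (τ : ι) (f g : B) (i j : Fin (d τ)) :
    Θ L τ (f + g) i j - (Θ L τ f i j + Θ L τ g i j) ∈ I := by
  refine sub_mem_of_eq L (c := fun i => Θ L τ (f + g) i j)
    (c' := fun i => Θ L τ f i j + Θ L τ g i j) ?_ i
  rw [← Θ_spec, add_smul, Θ_spec, Θ_spec, ← Finset.sum_add_distrib]
  exact Finset.sum_congr rfl fun i _ => by rw [map_add, add_smul]

lemma Θ_φ (τ : ι) (s : S) (i j : Fin (d τ)) :
    Θ L τ (L.φ s) i j - (if i = j then s else 0) ∈ I := by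
  refine sub_mem_of_eq L (c := fun i => Θ L τ (L.φ s) i j)
    (c' := fun i => if i = j then s else 0) ?_ i
  rw [← Θ_spec, Finset.sum_eq_single j]
  · simp
  · intro l _ hl
    simp [hl]
  · simp

lemma Θ_one (τ : ι) (i j : Fin (d τ)) :
    Θ L τ 1 i j - (if i = j then 1 else 0) ∈ I := by
  have := Θ_φ L τ 1 i j
  rwa [map_one] at this

lemma Θ_mul (τ : ι) (f g : B) (i j : Fin (d τ)) :
    Θ L τ (f * g) i j - ∑ l, Θ L τ f i l * Θ L τ g l j ∈ I := by
  refine sub_mem_of_eq L (c := fun i => Θ L τ (f * g) i j)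
    (c' := fun i => ∑ l, Θ L τ f i l * Θ L τ g l j) ?_ i
  rw [← Θ_spec, mul_smul, Θ_spec L τ g j, smul_sum]

/-- uniform continuity of the matrix entries -/
lemma Θ_mem [IsLocalRing S] [IsLocalRing B] (k : ℕ) [Finite (S ⧸ maximalIdeal S ^ k)]
    (τ : ι) (f : B)
    (hf : f ∈ maximalIdeal B ^ (Nat.card (S ⧸ maximalIdeal S ^ k)) ^ d τ)
    (i j : Fin (d τ)) : Θ L τ f i j ∈ maximalIdeal S ^ k ⊔ I := by
  set K := maximalIdeal S ^ k with hK
  let F : Submodule B (L.N τ) := (K.map L.φ) • ⊤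
  let q : (Fin (d τ) → S ⧸ K) → L.N τ ⧸ F := fun c =>
    Submodule.Quotient.mk (∑ i, L.φ ((c i).out) • L.b τ i)
  have hq : Function.Surjective q := by
    intro z
    obtain ⟨x, rfl⟩ := Submodule.Quotient.mk_surjective _ z
    obtain ⟨c, rfl⟩ := L.b_span τ x
    refine ⟨fun i => Ideal.Quotient.mk K (c i), ?_⟩
    refine (Submodule.Quotient.eq _).mpr ?_
    rw [← Finset.sum_sub_distrib]
    refine Submodule.sum_mem _ fun i _ => ?_
    rw [← sub_smul, ← map_sub]
    refine Submodule.smul_mem_smul (Ideal.mem_map_of_mem _ ?_) trivial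
    rw [← Ideal.Quotient.eq]
    exact Quotient.out_eq _
  have hfin : Finite (L.N τ ⧸ F) := Finite.of_surjective q hq
  have hcard : Nat.card (L.N τ ⧸ F) ≤ (Nat.card (S ⧸ K)) ^ d τ := by
    refine (Nat.card_le_card_of_surjective q hq).trans ?_
    rw [Nat.card_fun, Nat.card_fin]
  have h1 := pow_smul_top_eq_bot_of_card_le (B := B) _ hcard
  have h2 : f • (Submodule.Quotient.mk (L.b τ j) : L.N τ ⧸ F) = 0 := by
    rw [← Submodule.mem_bot B, ← h1]
    exact Submodule.smul_mem_smul hf trivial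
  rw [← Submodule.Quotient.mk_smul, Submodule.Quotient.mk_eq_zero, Θ_spec, sum_mem_iff] at h2
  exact h2 i

/-- matrix entries of `f` when `f N ⊆ K N` -/
lemma Θ_mem_of_smul_mem (τ : ι) (f : B) {K : Ideal S}
    (h : ∀ x : L.N τ, f • x ∈ (K.map L.φ) • (⊤ : Submodule B (L.N τ))) (i j : Fin (d τ)) :
    Θ L τ f i j ∈ K ⊔ I := by
  have h1 := h (L.b τ j)
  rw [Θ_spec, sum_mem_iff] at h1
  exact h1 i

end Level

section ToLevel

/-- underlying group of the limit module -/
def LimMod (S : Type) (d : ℕ) : Type := Fin d → S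

noncomputable instance (d : ℕ) : AddCommGroup (LimMod S d) :=
  inferInstanceAs (AddCommGroup (Fin d → S))

/-- vector with given coordinates -/
def LimMod.mk {d : ℕ} (v : Fin d → S) : LimMod S d := v

/-- coordinates -/
def LimMod.coord {d : ℕ} (v : LimMod S d) (i : Fin d) : S := v i

omit [CommRing S] in
lemma LimMod.coord_mk {d : ℕ} (v : Fin d → S) (i : Fin d) : (LimMod.mk v).coord i = v i := rfl

omit [CommRing S] in
lemma LimMod.ext {d : ℕ} {v w : LimMod S d} (h : ∀ i, v.coord i = w.coord i) : v = w := funext h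

lemma LimMod.coord_add {d : ℕ} (v w : LimMod S d) (i : Fin d) :
    (v + w).coord i = v.coord i + w.coord i := rfl

lemma LimMod.coord_sub {d : ℕ} (v w : LimMod S d) (i : Fin d) :
    (v - w).coord i = v.coord i - w.coord i := rfl

lemma LimMod.coord_zero {d : ℕ} (i : Fin d) : (0 : LimMod S d).coord i = 0 := rfl

lemma LimMod.coord_sum {d : ℕ} {κ : Type*} (s : Finset κ) (v : κ → LimMod S d) (i : Fin d) :
    (∑ j ∈ s, v j).coord i = ∑ j ∈ s, (v j).coord i :=
  Finset.sum_apply (M := fun _ => S) _ _ _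

/-- module structure on the limit module given by a ring homomorphism to matrices -/
@[instance_reducible]
noncomputable def LimMod.instMod {d : ℕ} (Θ : B →+* Matrix (Fin d) (Fin d) S) :
    Module B (LimMod S d) :=
  Module.compHom (Fin d → S)
    ((Matrix.toLinAlgEquiv' (R := S) (n := Fin d)).toRingEquiv.toRingHom.comp Θ)

lemma LimMod.coord_smul {d : ℕ} (Θ : B →+* Matrix (Fin d) (Fin d) S) (f : B) (v : LimMod S d)
    (i : Fin d) :
    letI := LimMod.instMod Θ
    (f • v).coord i = ∑ j, Θ f i j * v.coord j := rfl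

/-- data of a limit level in matrix form -/
structure MatLim (S B R : Type) [CommRing S] [CommRing B] [CommRing R] [Algebra S R]
    {ι : Type} (M : ι → Type) [∀ τ, AddCommGroup (M τ)] [∀ τ, Module S (M τ)]
    [∀ τ, Module R (M τ)] (d : ι → ℕ) (J : Ideal S) where
  /-- structure map -/
  φ : S →+* B
  /-- global ring map -/
  ψ : B →+* R
  ψ_surjective : Function.Surjective ψ
  ψ_φ : ∀ s, ψ (φ s) = algebraMap S R s
  /-- matrices -/
  Θ : ∀ τ, B →+* Matrix (Fin (d τ)) (Fin (d τ)) S
  Θ_φ : ∀ τ s i j, Θ τ (φ s) i j = if i = j then s else 0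
  /-- images of the basis -/
  e : ∀ τ, Fin (d τ) → M τ
  e_compat : ∀ τ f j, ∑ i, Θ τ f i j • e τ i = ψ f • e τ j
  e_span : ∀ τ (m : M τ), ∃ c : Fin (d τ) → S, m = ∑ i, c i • e τ i
  e_indep : ∀ τ (c : Fin (d τ) → S), ∑ i, c i • e τ i = 0 → ∀ i, c i ∈ J

variable (D : MatLim S B R M d J)

/-- module structures -/
@[instance_reducible]
noncomputable def MatLim.instMod (τ : ι) : Module B (LimMod S (d τ)) :=
  LimMod.instMod (D.Θ τ)

lemma MatLim.coord_smul (τ : ι) (f : B) (v : LimMod S (d τ)) (i : Fin (d τ)) :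
    letI := D.instMod τ
    (f • v).coord i = ∑ j, D.Θ τ f i j * v.coord j := rfl

lemma MatLim.coord_φ_smul (τ : ι) (c : S) (v : LimMod S (d τ)) (i : Fin (d τ)) :
    letI := D.instMod τ
    (D.φ c • v).coord i = c * v.coord i := by
  letI := D.instMod τ
  rw [MatLim.coord_smul]
  simp only [D.Θ_φ, ite_mul, zero_mul, Finset.sum_ite_eq, Finset.mem_univ, if_true]

lemma MatLim.sum_φ_smul_single (τ : ι) (v : Fin (d τ) → S) :
    letI := D.instMod τ
    ∑ i, D.φ (v i) • (LimMod.mk (Pi.single i 1) : LimMod S (d τ)) = LimMod.mk v := by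
  letI := D.instMod τ
  refine LimMod.ext fun k => ?_
  rw [LimMod.coord_sum, Finset.sum_eq_single k]
  · rw [D.coord_φ_smul, LimMod.coord_mk, LimMod.coord_mk, Pi.single_eq_same, mul_one]
  · intro j _ hj
    rw [D.coord_φ_smul, LimMod.coord_mk, Pi.single_eq_of_ne (Ne.symm hj), mul_zero]
  · simp

/-- the projection -/
noncomputable def MatLim.πhom (τ : ι) : LimMod S (d τ) →+ M τ where
  toFun v := ∑ i, v.coord i • D.e τ i
  map_zero' := Finset.sum_eq_zero fun i _ => by rw [LimMod.coord_zero, zero_smul]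
  map_add' v w := by
    rw [← Finset.sum_add_distrib]
    exact Finset.sum_congr rfl fun i _ => by rw [LimMod.coord_add, add_smul]

lemma MatLim.πhom_apply (τ : ι) (v : LimMod S (d τ)) :
    D.πhom τ v = ∑ i, v.coord i • D.e τ i := rfl

lemma MatLim.πhom_smul [∀ τ, IsScalarTower S R (M τ)] (τ : ι) (f : B) (v : LimMod S (d τ)) :
    letI := D.instMod τ
    D.πhom τ (f • v) = D.ψ f • D.πhom τ v := by
  letI := D.instMod τ
  rw [D.πhom_apply, D.πhom_apply, Finset.smul_sum]
  have h1 : ∀ j, D.ψ f • v.coord j • D.e τ j = ∑ i, (D.Θ τ f i j * v.coord j) • D.e τ i := by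
    intro j
    rw [← algebraMap_smul R (v.coord j) (D.e τ j), smul_comm, ← D.e_compat, Finset.smul_sum]
    refine Finset.sum_congr rfl fun i _ => ?_
    rw [algebraMap_smul, ← mul_smul, mul_comm]
  rw [Finset.sum_congr rfl fun j _ => h1 j, Finset.sum_comm]
  refine Finset.sum_congr rfl fun i _ => ?_
  rw [← Finset.sum_smul, D.coord_smul]

/-- the patching level attached to matrix data -/
noncomputable def MatLim.toLevel [∀ τ, IsScalarTower S R (M τ)] : KLevel S B R M d ⊥ J :=
  letI := D.instMod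
  { N := fun τ => LimMod S (d τ)
    φ := D.φ
    ψ := D.ψ
    ψ_surjective := D.ψ_surjective
    ψ_φ := D.ψ_φ
    π := D.πhom
    π_smul := D.πhom_smul
    π_surjective := by
      intro τ m
      obtain ⟨c, rfl⟩ := D.e_span τ m
      exact ⟨LimMod.mk c, by rw [D.πhom_apply]; rfl⟩
    ker_π := by
      intro τ v hv
      have h1 := D.e_indep τ _ hv
      have h3 : v = LimMod.mk (fun i => v.coord i) := rfl
      rw [h3, ← D.sum_φ_smul_single]
      exact Submodule.sum_mem _ fun i _ =>
        Submodule.smul_mem_smul (Ideal.mem_map_of_mem _ (h1 i)) trivial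
    b := fun τ i => LimMod.mk (Pi.single i 1)
    b_span := by
      intro τ v
      exact ⟨fun i => v.coord i, (D.sum_φ_smul_single τ fun i => v.coord i).symm⟩
    b_rel := by
      intro τ c
      rw [D.sum_φ_smul_single]
      constructor
      · intro h i
        rw [Submodule.mem_bot, ← LimMod.coord_mk c i, h, LimMod.coord_zero]
      · intro h
        refine LimMod.ext fun i => ?_
        rw [LimMod.coord_mk, LimMod.coord_zero]
        exact (Submodule.mem_bot _).mp (h i) }

end ToLevel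

end Fermat.Agent.H69.KP
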