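/-
Abstract patching (Kisin style): the limit step.
-/
import Fermat.Agent.H69KPatch

set_option autoImplicit false
set_option linter.style.haveILetI false

namespace Fermat.Agent.H69.KP

open IsLocalRing Fermat.Agent.H57

section Aux

lemma finite_quot_pow (A : Type*) [CommRing A] [IsLocalRing A] [IsNoetherianRing A]
    [Finite (ResidueField A)] (k : ℕ) : Finite (A ⧸ maximalIdeal A ^ k) := by
  have : Finite (A ⧸ maximalIdeal A) := inferInstanceAs (Finite (ResidueField A))
  exact Ideal.finite_quotient_pow (IsNoetherian.noetherian _) k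

lemma le_comap_of_surjective {A B : Type*} [CommRing A] [CommRing B] [IsLocalRing A]
    [IsLocalRing B] (f : A →+* B) (hf : Function.Surjective f) :
    maximalIdeal A ≤ (maximalIdeal B).comap f := by
  have : IsLocalHom f := IsLocalHom.of_surjective f hf
  intro x hx
  rw [Ideal.mem_comap]
  exact map_nonunit f x hx

lemma pow_le_comap_pow {A B : Type*} [CommRing A] [CommRing B] {I : Ideal A} {J : Ideal B}
    (f : A →+* B) (h : I ≤ J.comap f) (k : ℕ) : I ^ k ≤ (J ^ k).comap f := by
  rw [← Ideal.map_le_iff_le_comap, Ideal.map_pow]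
  exact Ideal.pow_right_mono (Ideal.map_le_iff_le_comap.mpr h) k

/-- ideals of a noetherian local ring are closed -/
lemma mem_of_forall_mem_sup_pow {A : Type*} [CommRing A] [IsLocalRing A] [IsNoetherianRing A]
    {K : Ideal A} {x : A} (h : ∀ k, x ∈ K ⊔ maximalIdeal A ^ k) : x ∈ K := by
  rw [← Ideal.Quotient.eq_zero_iff_mem]
  have h1 : (Ideal.Quotient.mk K x : A ⧸ K) ∈
      (⨅ i : ℕ, (maximalIdeal A ^ i • ⊤ : Submodule A (A ⧸ K))) := by
    rw [Submodule.mem_iInf]
    intro i
    obtain ⟨y, hy, z, hz, rfl⟩ := Submodule.mem_sup.mp (h i)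
    have h2 : (Ideal.Quotient.mk K (y + z) : A ⧸ K) = z • (1 : A ⧸ K) := by
      rw [map_add, Ideal.Quotient.eq_zero_iff_mem.mpr hy, zero_add, Algebra.smul_def, mul_one]
      rfl
    rw [h2]
    exact Submodule.smul_mem_smul hz trivial
  rw [Ideal.iInf_pow_smul_eq_bot_of_isLocalRing _ (maximalIdeal.isMaximal A).ne_top] at h1
  exact (Submodule.mem_bot A).mp h1

/-- completeness passes to quotients -/
lemma isAdicComplete_of_surjective {A B : Type*} [CommRing A] [CommRing B] [IsLocalRing A]
    [IsNoetherianRing A] [IsLocalRing B] [IsAdicComplete (maximalIdeal A) A]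
    (f : A →+* B) (hf : Function.Surjective f) :
    IsAdicComplete (maximalIdeal B) B := by
  have hmap : (maximalIdeal A).map f = maximalIdeal B := by
    apply le_antisymm (Ideal.map_le_iff_le_comap.mpr (le_comap_of_surjective f hf))
    intro y hy
    obtain ⟨x, rfl⟩ := hf y
    refine Ideal.mem_map_of_mem f ?_
    rw [mem_maximalIdeal, mem_nonunits_iff]
    intro hx
    exact hy (hx.map f)
  let _ : Algebra A B := f.toAlgebra
  have : Module.Finite A B := Module.Finite.of_surjective (Algebra.linearMap A B) hf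
  have h1 : IsAdicComplete (maximalIdeal A) B :=
    IsAdicComplete.of_module_finite (maximalIdeal A) B
  rw [← hmap]
  exact (IsAdicComplete.map_algebraMap_iff (maximalIdeal A) B).mpr h1

lemma finite_residueField_of_surjective {A B : Type*} [CommRing A] [CommRing B] [IsLocalRing A]
    [IsLocalRing B] [Finite (ResidueField A)] (f : A →+* B) (hf : Function.Surjective f) :
    Finite (ResidueField B) := by
  have : IsLocalHom f := IsLocalHom.of_surjective f hf
  refine Finite.of_surjective (ResidueField.map f) ?_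
  intro y
  obtain ⟨y, rfl⟩ := IsLocalRing.residue_surjective y
  obtain ⟨x, rfl⟩ := hf y
  exact ⟨residue A x, ResidueField.map_residue f x⟩

end Aux

variable {S B R : Type} [CommRing S] [CommRing B] [CommRing R] [Algebra S R]
  {ι : Type} {M : ι → Type} [∀ τ, AddCommGroup (M τ)] [∀ τ, Module S (M τ)]
  [∀ τ, Module R (M τ)] [∀ τ, IsScalarTower S R (M τ)] {d : ι → ℕ}

section Span

variable {I J : Ideal S} (L : KLevel S B R M d I J)

lemma level_span (τ : ι) (m : M τ) :
    ∃ c : Fin (d τ) → S, m = ∑ i, c i • L.π τ (L.b τ i) := by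
  obtain ⟨x, rfl⟩ := L.π_surjective τ m
  obtain ⟨c, rfl⟩ := L.b_span τ x
  exact ⟨c, π_sum L c⟩

lemma level_indep (hIJ : I ≤ J) (τ : ι) (c : Fin (d τ) → S)
    (h : ∑ i, c i • L.π τ (L.b τ i) = 0) (i : Fin (d τ)) : c i ∈ J := by
  rw [← π_sum] at h
  have h1 := (sum_mem_iff L).mp (L.ker_π τ _ h) i
  rwa [sup_eq_left.mpr hIJ] at h1

lemma level_compat (τ : ι) (f : B) (j : Fin (d τ)) :
    ∑ i, Θ L τ f i j • L.π τ (L.b τ i) = L.ψ f • L.π τ (L.b τ j) := by
  rw [← π_sum L (fun i => Θ L τ f i j), ← Θ_spec, L.π_smul]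

end Span

section Basis

variable [IsLocalRing S] [IsLocalRing R]

/-- A family close to a "basis" of a module over `S/J` is again a basis. -/
lemma basis_of_close {M : Type} [AddCommGroup M] [Module S M] [Module R M]
    [IsScalarTower S R M] [Finite (ResidueField S)] {d : ℕ} {J : Ideal S}
    (hJ : ∀ s ∈ J, algebraMap S R s = 0) (e₀ : Fin d → M)
    (hspan₀ : ∀ m : M, ∃ c : Fin d → S, m = ∑ i, c i • e₀ i) :
    ∃ k : ℕ, ∀ e : Fin d → M, (∀ m : M, ∃ c : Fin d → S, m = ∑ i, c i • e i) →
      (∀ c : Fin d → S, ∑ i, c i • e i = 0 → ∀ i, c i ∈ J) →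
      ∀ e' : Fin d → M, (∀ i, e i - e' i ∈ (maximalIdeal R ^ k • ⊤ : Submodule R M)) →
      (∀ m : M, ∃ c : Fin d → S, m = ∑ i, c i • e' i) ∧
      (∀ c : Fin d → S, ∑ i, c i • e' i = 0 → ∀ i, c i ∈ J) := by
  let I : Ideal R := (maximalIdeal S).map (algebraMap S R)
  have hI : ∀ x ∈ (I • ⊤ : Submodule R M), x ∈ (maximalIdeal S • ⊤ : Submodule S M) := by
    intro x hx
    refine Submodule.smul_induction_on hx ?_ fun x y => Submodule.add_mem _
    intro a ha y _
    have key' : ∀ a ∈ I, ∀ y : M, a • y ∈ (maximalIdeal S • ⊤ : Submodule S M) := by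
      intro a ha
      induction ha using Submodule.span_induction with
      | mem a ha =>
        obtain ⟨a, ha, rfl⟩ := ha
        intro y
        rw [algebraMap_smul]
        exact Submodule.smul_mem_smul ha trivial
      | zero => intro y; rw [zero_smul]; exact Submodule.zero_mem _
      | add a a' _ _ h1 h2 => intro y; rw [add_smul]; exact Submodule.add_mem _ (h1 y) (h2 y)
      | smul t a _ h => intro y; rw [smul_eq_mul, mul_comm, mul_smul]; exact h (t • y)
    exact key' a ha y
  have hfin : Finite (M ⧸ (I • ⊤ : Submodule R M)) := by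
    let q : (Fin d → S ⧸ maximalIdeal S) → M ⧸ (I • ⊤ : Submodule R M) := fun c =>
      Submodule.Quotient.mk (∑ i, ((c i).out) • e₀ i)
    have hq : Function.Surjective q := by
      intro z
      obtain ⟨x, rfl⟩ := Submodule.Quotient.mk_surjective _ z
      obtain ⟨c, rfl⟩ := hspan₀ x
      refine ⟨fun i => Ideal.Quotient.mk _ (c i), ?_⟩
      refine (Submodule.Quotient.eq _).mpr ?_
      rw [← Finset.sum_sub_distrib]
      refine Submodule.sum_mem _ fun i _ => ?_
      have h0 : ((Ideal.Quotient.mk (maximalIdeal S) (c i)).out) - c i ∈ maximalIdeal S := by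
        rw [← Ideal.Quotient.eq]
        exact Quotient.out_eq _
      rw [← sub_smul, ← algebraMap_smul R (_ - _) (e₀ i)]
      exact Submodule.smul_mem_smul (Ideal.mem_map_of_mem _ h0) trivial
    have : Finite (S ⧸ maximalIdeal S) := inferInstanceAs (Finite (ResidueField S))
    exact Finite.of_surjective q hq
  have hK0 := pow_smul_top_eq_bot_of_card_le (B := R) _
    (le_refl (Nat.card (M ⧸ (I • ⊤ : Submodule R M))))
  have hK0' : ∀ x ∈ (maximalIdeal R ^ (Nat.card (M ⧸ (I • ⊤ : Submodule R M))) • ⊤ :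
      Submodule R M), x ∈ (I • ⊤ : Submodule R M) := by
    intro x hx
    have h1 := Submodule.mem_map_of_mem (f := (I • ⊤ : Submodule R M).mkQ) hx
    rw [Submodule.map_smul'', Submodule.map_top, Submodule.range_mkQ, hK0, Submodule.mem_bot,
      Submodule.mkQ_apply, Submodule.Quotient.mk_eq_zero] at h1
    exact h1
  refine ⟨Nat.card (M ⧸ (I • ⊤ : Submodule R M)), fun e hspan hind e' he' => ?_⟩
  let f : (Fin d → S) →ₗ[S] M := Fintype.linearCombination S e'
  have hf : ∀ c, f c = ∑ i, c i • e' i := fun c => Fintype.linearCombination_apply S e' c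
  let g : (Fin d → S) →ₗ[S] M := Fintype.linearCombination S e
  have hg : ∀ c, g c = ∑ i, c i • e i := fun c => Fintype.linearCombination_apply S e c
  have hgs : Function.Surjective g := by
    intro m
    obtain ⟨c, hc⟩ := hspan m
    exact ⟨c, by rw [hg, hc]⟩
  have hMfin : Module.Finite S M := Module.Finite.of_surjective g hgs
  have hfs : Function.Surjective f := by
    rw [← LinearMap.range_eq_top, eq_top_iff]
    refine Submodule.le_of_le_smul_of_le_jacobson_bot (I := maximalIdeal S)
      Module.Finite.fg_top (maximalIdeal_le_jacobson _) ?_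
    rintro m -
    obtain ⟨c, rfl⟩ := hspan m
    have h1 : ∑ i, c i • e i = f c + ∑ i, (c i) • (e i - e' i) := by
      rw [hf, ← Finset.sum_add_distrib]
      refine Finset.sum_congr rfl fun i _ => ?_
      rw [smul_sub]
      abel
    rw [h1]
    exact Submodule.add_mem_sup ⟨c, rfl⟩ (Submodule.sum_mem _ fun i _ =>
      Submodule.smul_mem _ _ (hI _ (hK0' _ (he' i))))
  have hJM : ∀ s ∈ J, ∀ m : M, s • m = 0 := by
    intro s hs m
    rw [← algebraMap_smul R s m, hJ s hs, zero_smul]
  have hker : LinearMap.ker g ≤ LinearMap.ker f := by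
    intro c hc
    rw [LinearMap.mem_ker, hg] at hc
    rw [LinearMap.mem_ker, hf]
    exact Finset.sum_eq_zero fun i _ => hJM _ (hind c hc i) _
  let h : M →ₗ[S] M := ((LinearMap.ker g).liftQ f hker).comp
    (g.quotKerEquivOfSurjective hgs).symm.toLinearMap
  have hh : ∀ c, h (g c) = f c := by
    intro c
    have : (g.quotKerEquivOfSurjective hgs).symm (g c) = Submodule.Quotient.mk c := by
      rw [LinearEquiv.symm_apply_eq]
      rfl
    simp only [h, LinearMap.comp_apply, LinearEquiv.coe_coe, this]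
    rfl
  have hhs : Function.Surjective h := by
    intro m
    obtain ⟨c, rfl⟩ := hfs m
    exact ⟨g c, hh c⟩
  have hhi := OrzechProperty.injective_of_surjective_endomorphism h hhs
  constructor
  · intro m
    obtain ⟨c, hc⟩ := hfs m
    exact ⟨c, by rw [← hf, hc]⟩
  · intro c hc i
    refine hind c ?_ i
    rw [← hg]
    apply hhi
    rw [hh, map_zero, hf, hc]

end Basis

section Transfer

variable {I J : Ideal S} (L : KLevel S B R M d I J)

omit [∀ τ, IsScalarTower S R (M τ)] in
lemma smul_mem_of_Θ_mem (τ : ι) (f : B) {K : Ideal S}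
    (h : ∀ i j, Θ L τ f i j ∈ K ⊔ I) (x : L.N τ) :
    f • x ∈ (K.map L.φ) • (⊤ : Submodule B (L.N τ)) := by
  obtain ⟨c, rfl⟩ := L.b_span τ x
  rw [smul_sum, sum_mem_iff]
  exact fun i => Ideal.sum_mem _ fun j _ => Ideal.mul_mem_right _ _ (h i j)

/-- matrices describing an isomorphism modulo `K` -/
structure Intertwining (τ τ' : ι) (K : Ideal S) (A : Fin (d τ') → Fin (d τ) → S)
    (C : Fin (d τ) → Fin (d τ') → S) : Prop where
  comm : ∀ f i j, ∑ l, A i l * Θ L τ f l j - ∑ l, Θ L τ' f i l * A l j ∈ K ⊔ I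
  comm' : ∀ f i j, ∑ l, C i l * Θ L τ' f l j - ∑ l, Θ L τ f i l * C l j ∈ K ⊔ I
  left : ∀ i j, ∑ l, C i l * A l j - (if i = j then 1 else 0) ∈ K ⊔ I
  right : ∀ i j, ∑ l, A i l * C l j - (if i = j then 1 else 0) ∈ K ⊔ I

omit [∀ τ, IsScalarTower S R (M τ)] in
lemma exists_matrix {τ τ' : ι} {K : Ideal S}
    (e : (L.N τ ⧸ (K.map L.φ • ⊤ : Submodule B (L.N τ))) →ₗ[B]
      (L.N τ' ⧸ (K.map L.φ • ⊤ : Submodule B (L.N τ')))) :
    ∃ A : Fin (d τ') → Fin (d τ) → S, ∀ c : Fin (d τ) → S,
      e (Submodule.Quotient.mk (∑ j, L.φ (c j) • L.b τ j)) =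
        Submodule.Quotient.mk (∑ i, L.φ (∑ j, A i j * c j) • L.b τ' i) := by
  choose y hy using fun j => Submodule.Quotient.mk_surjective _
    (e (Submodule.Quotient.mk (L.b τ j)))
  choose A hA using fun j => L.b_span τ' (y j)
  refine ⟨fun i j => A j i, fun c => ?_⟩
  have h1 : (Submodule.Quotient.mk (∑ j, L.φ (c j) • L.b τ j) :
      L.N τ ⧸ (K.map L.φ • ⊤ : Submodule B (L.N τ))) =
        ∑ j, L.φ (c j) • Submodule.Quotient.mk (L.b τ j) := by
    rw [← Submodule.mkQ_apply, map_sum]
    exact Finset.sum_congr rfl fun j _ => by rw [map_smul, Submodule.mkQ_apply]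
  rw [h1, map_sum]
  have h2 : ∀ j, e (L.φ (c j) • Submodule.Quotient.mk (L.b τ j)) =
      Submodule.Quotient.mk (∑ i, L.φ (A j i * c j) • L.b τ' i) := by
    intro j
    rw [map_smul, ← hy, ← Submodule.Quotient.mk_smul, hA j, Finset.smul_sum]
    congr 1
    exact Finset.sum_congr rfl fun i _ => by rw [map_mul, mul_comm, mul_smul]
  rw [Finset.sum_congr rfl fun j _ => h2 j]
  simp only [← Submodule.mkQ_apply]
  rw [← map_sum, Finset.sum_comm]
  congr 1
  refine Finset.sum_congr rfl fun i _ => ?_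
  rw [map_sum, Finset.sum_smul]

omit [∀ τ, IsScalarTower S R (M τ)] in
lemma mk_eq_iff {τ : ι} {K : Ideal S} {c c' : Fin (d τ) → S} :
    (Submodule.Quotient.mk (∑ j, L.φ (c j) • L.b τ j) :
      L.N τ ⧸ (K.map L.φ • ⊤ : Submodule B (L.N τ))) =
      Submodule.Quotient.mk (∑ j, L.φ (c' j) • L.b τ j) ↔ ∀ i, c i - c' i ∈ K ⊔ I := by
  rw [Submodule.Quotient.eq, ← Finset.sum_sub_distrib]
  simp only [← sub_smul, ← map_sub]
  exact sum_mem_iff L

omit [∀ τ, IsScalarTower S R (M τ)] in
lemma comm_of_matrix {τ τ' : ι} {K : Ideal S}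
    (e : (L.N τ ⧸ (K.map L.φ • ⊤ : Submodule B (L.N τ))) →ₗ[B]
      (L.N τ' ⧸ (K.map L.φ • ⊤ : Submodule B (L.N τ'))))
    {A : Fin (d τ') → Fin (d τ) → S} (hA : ∀ c : Fin (d τ) → S,
      e (Submodule.Quotient.mk (∑ j, L.φ (c j) • L.b τ j)) =
        Submodule.Quotient.mk (∑ i, L.φ (∑ j, A i j * c j) • L.b τ' i)) (f : B)
    (i : Fin (d τ')) (j : Fin (d τ)) :
    ∑ l, A i l * Θ L τ f l j - ∑ l, Θ L τ' f i l * A l j ∈ K ⊔ I := by
  have h1 := hA (fun l => Θ L τ f l j)
  rw [← Θ_spec, Submodule.Quotient.mk_smul, map_smul] at h1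
  have h2 : L.b τ j = ∑ l, L.φ ((if l = j then 1 else 0 : S)) • L.b τ l := by
    rw [Finset.sum_eq_single j]
    · simp
    · intro l _ hl
      simp [hl]
    · simp
  rw [h2, hA, ← Submodule.Quotient.mk_smul, smul_sum] at h1
  have h3 := (mk_eq_iff L).mp h1.symm i
  simpa using h3

omit [∀ τ, IsScalarTower S R (M τ)] in
lemma inv_of_matrix {τ τ' : ι} {K : Ideal S}
    (e : (L.N τ ⧸ (K.map L.φ • ⊤ : Submodule B (L.N τ))) →ₗ[B]
      (L.N τ' ⧸ (K.map L.φ • ⊤ : Submodule B (L.N τ'))))
    (g : (L.N τ' ⧸ (K.map L.φ • ⊤ : Submodule B (L.N τ'))) →ₗ[B]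
      (L.N τ ⧸ (K.map L.φ • ⊤ : Submodule B (L.N τ)))) (hge : ∀ x, g (e x) = x)
    {A : Fin (d τ') → Fin (d τ) → S} (hA : ∀ c : Fin (d τ) → S,
      e (Submodule.Quotient.mk (∑ j, L.φ (c j) • L.b τ j)) =
        Submodule.Quotient.mk (∑ i, L.φ (∑ j, A i j * c j) • L.b τ' i))
    {C : Fin (d τ) → Fin (d τ') → S} (hC : ∀ c : Fin (d τ') → S,
      g (Submodule.Quotient.mk (∑ j, L.φ (c j) • L.b τ' j)) =
        Submodule.Quotient.mk (∑ i, L.φ (∑ j, C i j * c j) • L.b τ i))
    (i j : Fin (d τ)) :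
    ∑ l, C i l * A l j - (if i = j then 1 else 0) ∈ K ⊔ I := by
  have h1 := hge (Submodule.Quotient.mk (∑ l, L.φ ((if l = j then 1 else 0 : S)) • L.b τ l))
  rw [hA, hC] at h1
  have h3 := (mk_eq_iff L).mp h1 i
  simpa using h3

omit [∀ τ, IsScalarTower S R (M τ)] in
theorem exists_intertwining {τ τ' : ι} {K : Ideal S}
    (e : (L.N τ ⧸ (K.map L.φ • ⊤ : Submodule B (L.N τ))) ≃ₗ[B]
      (L.N τ' ⧸ (K.map L.φ • ⊤ : Submodule B (L.N τ')))) :
    ∃ A C, Intertwining L τ τ' K A C := by
  obtain ⟨A, hA⟩ := exists_matrix L e.toLinearMap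
  obtain ⟨C, hC⟩ := exists_matrix L e.symm.toLinearMap
  exact ⟨A, C, comm_of_matrix L _ hA, comm_of_matrix L _ hC,
    inv_of_matrix L _ _ (fun x => e.symm_apply_apply x) hA hC,
    inv_of_matrix L _ _ (fun x => e.apply_symm_apply x) hC hA⟩

omit [∀ τ, IsScalarTower S R (M τ)] in
/-- a matrix commuting with the action modulo `K` induces a linear map modulo `K` -/
lemma exists_linearMap {τ τ' : ι} {K : Ideal S} (A : Fin (d τ') → Fin (d τ) → S)
    (hA : ∀ f i j, ∑ l, A i l * Θ L τ f l j - ∑ l, Θ L τ' f i l * A l j ∈ K ⊔ I) :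
    ∃ e : (L.N τ ⧸ (K.map L.φ • ⊤ : Submodule B (L.N τ))) →ₗ[B]
      (L.N τ' ⧸ (K.map L.φ • ⊤ : Submodule B (L.N τ'))), ∀ c : Fin (d τ) → S,
      e (Submodule.Quotient.mk (∑ j, L.φ (c j) • L.b τ j)) =
        Submodule.Quotient.mk (∑ i, L.φ (∑ j, A i j * c j) • L.b τ' i) := by
  classical
  let F : L.N τ → (L.N τ' ⧸ (K.map L.φ • ⊤ : Submodule B (L.N τ'))) := fun x =>
    Submodule.Quotient.mk (∑ i, L.φ (∑ j, A i j * (L.b_span τ x).choose j) • L.b τ' i)
  have hF : ∀ c : Fin (d τ) → S, F (∑ j, L.φ (c j) • L.b τ j) =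
      Submodule.Quotient.mk (∑ i, L.φ (∑ j, A i j * c j) • L.b τ' i) := by
    intro c
    refine (mk_eq_iff L).mpr fun i => ?_
    rw [← Finset.sum_sub_distrib]
    refine Ideal.sum_mem _ fun j _ => ?_
    rw [← mul_sub]
    refine Ideal.mul_mem_left _ _ (Ideal.mem_sup_right ?_)
    exact sub_mem_of_eq L (L.b_span τ (∑ j, L.φ (c j) • L.b τ j)).choose_spec.symm j
  let F' : L.N τ →ₗ[B] (L.N τ' ⧸ (K.map L.φ • ⊤ : Submodule B (L.N τ'))) :=
    { toFun := F
      map_add' := by
        intro x y
        obtain ⟨c, rfl⟩ := L.b_span τ x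
        obtain ⟨c', rfl⟩ := L.b_span τ y
        have h1 : ∑ i, L.φ (c i) • L.b τ i + ∑ i, L.φ (c' i) • L.b τ i =
            ∑ i, L.φ (c i + c' i) • L.b τ i := by
          rw [← Finset.sum_add_distrib]
          exact Finset.sum_congr rfl fun i _ => by rw [map_add, add_smul]
        rw [h1, hF, hF, hF, ← Submodule.Quotient.mk_add, ← Finset.sum_add_distrib]
        congr 1
        refine Finset.sum_congr rfl fun i _ => ?_
        rw [← add_smul, ← map_add, ← Finset.sum_add_distrib]
        congr 2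
        exact Finset.sum_congr rfl fun j _ => by rw [mul_add]
      map_smul' := by
        intro f x
        obtain ⟨c, rfl⟩ := L.b_span τ x
        rw [smul_sum, hF, hF, RingHom.id_apply, ← Submodule.Quotient.mk_smul, smul_sum]
        refine (mk_eq_iff L).mpr fun i => ?_
        have h1 : ∑ j, A i j * ∑ j_1, Θ L τ f j j_1 * c j_1 -
            ∑ j, Θ L τ' f i j * ∑ j_1, A j j_1 * c j_1 =
            ∑ j, (∑ l, A i l * Θ L τ f l j - ∑ l, Θ L τ' f i l * A l j) * c j := by
          simp only [sub_mul, Finset.sum_mul, Finset.mul_sum, Finset.sum_sub_distrib]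
          rw [Finset.sum_comm]
          congr 1
          · exact Finset.sum_congr rfl fun a _ => Finset.sum_congr rfl fun b _ => by ring
          · rw [Finset.sum_comm]
            exact Finset.sum_congr rfl fun a _ => Finset.sum_congr rfl fun b _ => by ring
        rw [h1]
        exact Ideal.sum_mem _ fun j _ => Ideal.mul_mem_right _ _ (hA f i j) }
  refine ⟨Submodule.liftQ _ F' ?_, fun c => hF c⟩
  intro x hx
  obtain ⟨c, hc, rfl⟩ := exists_coord_mem L hx
  rw [LinearMap.mem_ker]
  refine (hF c).trans ?_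
  rw [Submodule.Quotient.mk_eq_zero, sum_mem_iff]
  exact fun i => Ideal.sum_mem _ fun j _ =>
    Ideal.mul_mem_left _ _ (Ideal.mem_sup_left (hc j))

omit [∀ τ, IsScalarTower S R (M τ)] in
theorem nonempty_equiv_of_intertwining {τ τ' : ι} {K : Ideal S}
    {A : Fin (d τ') → Fin (d τ) → S} {C : Fin (d τ) → Fin (d τ') → S}
    (h : Intertwining L τ τ' K A C) :
    Nonempty ((L.N τ ⧸ (K.map L.φ • ⊤ : Submodule B (L.N τ))) ≃ₗ[B]
      (L.N τ' ⧸ (K.map L.φ • ⊤ : Submodule B (L.N τ')))) := by
  obtain ⟨e, he⟩ := exists_linearMap L A h.comm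
  obtain ⟨g, hg⟩ := exists_linearMap L C h.comm'
  have key : ∀ {τ τ' : ι} {A : Fin (d τ') → Fin (d τ) → S} {C : Fin (d τ) → Fin (d τ') → S}
      (_ : ∀ i j, ∑ l, C i l * A l j - (if i = j then 1 else 0) ∈ K ⊔ I)
      (e : (L.N τ ⧸ (K.map L.φ • ⊤ : Submodule B (L.N τ))) →ₗ[B]
        (L.N τ' ⧸ (K.map L.φ • ⊤ : Submodule B (L.N τ'))))
      (g : (L.N τ' ⧸ (K.map L.φ • ⊤ : Submodule B (L.N τ'))) →ₗ[B]
        (L.N τ ⧸ (K.map L.φ • ⊤ : Submodule B (L.N τ))))
      (_ : ∀ c : Fin (d τ) → S,
        e (Submodule.Quotient.mk (∑ j, L.φ (c j) • L.b τ j)) =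
          Submodule.Quotient.mk (∑ i, L.φ (∑ j, A i j * c j) • L.b τ' i))
      (_ : ∀ c : Fin (d τ') → S,
        g (Submodule.Quotient.mk (∑ j, L.φ (c j) • L.b τ' j)) =
          Submodule.Quotient.mk (∑ i, L.φ (∑ j, C i j * c j) • L.b τ i)),
      ∀ x, g (e x) = x := by
    intro τ τ' A C hCA e g he hg x
    obtain ⟨x, rfl⟩ := Submodule.Quotient.mk_surjective _ x
    obtain ⟨c, rfl⟩ := L.b_span τ x
    rw [he, hg]
    refine (mk_eq_iff L).mpr fun i => ?_
    have h1 : ∑ j, C i j * ∑ j_1, A j j_1 * c j_1 - c i =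
        ∑ j, (∑ l, C i l * A l j - (if i = j then 1 else 0)) * c j := by
      simp only [sub_mul, Finset.sum_mul, Finset.mul_sum, Finset.sum_sub_distrib, ite_mul,
        one_mul, zero_mul, Finset.sum_ite_eq, Finset.mem_univ, if_true]
      rw [Finset.sum_comm]
      congr 1
      exact Finset.sum_congr rfl fun a _ => Finset.sum_congr rfl fun b _ => by ring
    rw [h1]
    exact Ideal.sum_mem _ fun j _ => Ideal.mul_mem_right _ _ (hCA i j)
  exact ⟨LinearEquiv.ofLinearMap e g (LinearMap.ext (key h.right g e hg he))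
    (LinearMap.ext (key h.left e g he hg))⟩

end Transfer

section Main

variable [IsLocalRing S] [IsNoetherianRing S] [IsAdicComplete (maximalIdeal S) S]
  [Finite (ResidueField S)]
  [IsLocalRing B] [IsNoetherianRing B] [IsAdicComplete (maximalIdeal B) B]
  [Finite (ResidueField B)] [IsLocalRing R] [IsLocalHom (algebraMap S R)]

/-- **Patching limit.** -/
theorem exists_limit {I : ℕ → Ideal S} {J : Ideal S} (hI : ∀ n, I n ≤ maximalIdeal S ^ n)
    (hIJ : ∀ n, I n ≤ J) (hJ : ∀ s ∈ J, algebraMap S R s = 0)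
    (L : ∀ n, KLevel S B R M d (I n) J) :
    ∃ L' : KLevel S B R M d ⊥ J,
      (∀ s f, (∀ n, (L n).φ s = f) → L'.φ s = f) ∧
      (∀ f r, (∀ n, (L n).ψ f = r) → L'.ψ f = r) ∧
      (∀ τ (K : Ideal S) (f : B),
        (∀ n (x : (L n).N τ), f • x ∈ (K.map (L n).φ • ⊤ : Submodule B ((L n).N τ))) →
        ∀ x : L'.N τ, f • x ∈ (K.map L'.φ • ⊤ : Submodule B (L'.N τ))) ∧
      (∀ τ τ' (K : Ideal S),
        (∀ n, Nonempty (((L n).N τ ⧸ (K.map (L n).φ • ⊤ : Submodule B ((L n).N τ))) ≃ₗ[B]
          ((L n).N τ' ⧸ (K.map (L n).φ • ⊤ : Submodule B ((L n).N τ'))))) →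
        Nonempty ((L'.N τ ⧸ (K.map L'.φ • ⊤ : Submodule B (L'.N τ))) ≃ₗ[B]
          (L'.N τ' ⧸ (K.map L'.φ • ⊤ : Submodule B (L'.N τ'))))) := by
  classical
  -- finiteness and completeness
  have hSfin' : ∀ k, Finite (S ⧸ (maximalIdeal S ^ k • ⊤ : Submodule S S)) := fun k => by
    rw [smul_eq_mul, Ideal.mul_top]; exact finite_quot_pow S k
  have hBfin' : ∀ k, Finite (B ⧸ (maximalIdeal B ^ k • ⊤ : Submodule B B)) := fun k => by
    rw [smul_eq_mul, Ideal.mul_top]; exact finite_quot_pow B k
  have hRn : IsNoetherianRing R :=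
    isNoetherianRing_of_surjective B R (L 0).ψ (L 0).ψ_surjective
  have hRc : IsAdicComplete (maximalIdeal R) R :=
    isAdicComplete_of_surjective (L 0).ψ (L 0).ψ_surjective
  have hRr : Finite (ResidueField R) :=
    finite_residueField_of_surjective (L 0).ψ (L 0).ψ_surjective
  have hRfin : ∀ k, Finite (R ⧸ maximalIdeal R ^ k) := finite_quot_pow R
  have hRfin' : ∀ k, Finite (R ⧸ (maximalIdeal R ^ k • ⊤ : Submodule R R)) := fun k => by
    rw [smul_eq_mul, Ideal.mul_top]; exact hRfin k
  have hMf : ∀ τ, Module.Finite R (M τ) := by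
    intro τ
    refine Module.Finite.of_surjective
      (Fintype.linearCombination R (fun i => (L 0).π τ ((L 0).b τ i))) ?_
    intro m
    obtain ⟨c, hc⟩ := level_span (L 0) τ m
    refine ⟨fun i => algebraMap S R (c i), ?_⟩
    rw [Fintype.linearCombination_apply, hc]
    exact Finset.sum_congr rfl fun i _ => algebraMap_smul R _ _
  have hMc : ∀ τ, IsAdicComplete (maximalIdeal R) (M τ) := fun τ =>
    IsAdicComplete.of_module_finite _ (M τ)
  have hMfin : ∀ τ k, Finite (M τ ⧸ (maximalIdeal R ^ k • ⊤ : Submodule R (M τ))) := by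
    intro τ k
    have := hRfin k
    have h1 : Module.Finite (R ⧸ maximalIdeal R ^ k)
      (M τ ⧸ (maximalIdeal R ^ k • ⊤ : Submodule R (M τ))) :=
      Module.Finite.of_restrictScalars_finite R _ _
    exact Module.finite_of_finite (R ⧸ maximalIdeal R ^ k)
  have hψm : ∀ n, maximalIdeal B ≤ (maximalIdeal R).comap (L n).ψ :=
    fun n => le_comap_of_surjective _ (L n).ψ_surjective
  have hψm' : ∀ n k, ∀ x ∈ maximalIdeal B ^ k, (L n).ψ x ∈ maximalIdeal R ^ k :=
    fun n k => pow_le_comap_pow _ (hψm n) k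
  have hSR : maximalIdeal S ≤ (maximalIdeal R).comap (algebraMap S R) := by
    intro x hx
    exact map_nonunit (algebraMap S R) x hx
  -- the ultrafilter
  let U : Ultrafilter ℕ := Filter.hyperfilter ℕ
  have hU : ∀ k, ∀ᶠ n in (U : Filter ℕ), k ≤ n := fun k =>
    (Filter.eventually_ge_atTop k).filter_mono Nat.hyperfilter_le_atTop
  -- the limits
  have exS : ∀ x : ℕ → S, ∃ z, IsULim (maximalIdeal S) U x z := exists_isULim U hSfin'
  have exB : ∀ x : ℕ → B, ∃ z, IsULim (maximalIdeal B) U x z := exists_isULim U hBfin'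
  have exR : ∀ x : ℕ → R, ∃ z, IsULim (maximalIdeal R) U x z := exists_isULim U hRfin'
  have exM : ∀ τ (x : ℕ → M τ), ∃ z, IsULim (maximalIdeal R) U x z := fun τ =>
    exists_isULim U (hMfin τ)
  choose φl hφl using fun s : S => exB fun n => (L n).φ s
  choose ψl hψl using fun f : B => exR fun n => (L n).ψ f
  choose Θl hΘl using fun (τ : ι) (f : B) (i j : Fin (d τ)) => exS fun n => Θ (L n) τ f i j
  choose el hel using fun (τ : ι) (i : Fin (d τ)) => exM τ fun n => (L n).π τ ((L n).b τ i)
  -- membership conversions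
  have memS : ∀ k (x : S), x ∈ (maximalIdeal S ^ k • ⊤ : Submodule S S) ↔
      x ∈ maximalIdeal S ^ k := fun k x => by rw [smul_eq_mul, Ideal.mul_top]
  have memB : ∀ k (x : B), x ∈ (maximalIdeal B ^ k • ⊤ : Submodule B B) ↔
      x ∈ maximalIdeal B ^ k := fun k x => by rw [smul_eq_mul, Ideal.mul_top]
  have memR : ∀ k (x : R), x ∈ (maximalIdeal R ^ k • ⊤ : Submodule R R) ↔
      x ∈ maximalIdeal R ^ k := fun k x => by rw [smul_eq_mul, Ideal.mul_top]
  -- closedness: membership in `K ⊔ I n` passes to the limit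
  have closed : ∀ {K : Ideal S} {x : ℕ → S} {z : S}, IsULim (maximalIdeal S) U x z →
      (∀ n, x n ∈ K ⊔ I n) → z ∈ K := by
    intro K x z hx h
    refine mem_of_forall_mem_sup_pow fun k => ?_
    obtain ⟨n, h1, h2⟩ := ((hx k).and (hU k)).exists
    rw [memS] at h1
    have h3 : x n ∈ K ⊔ maximalIdeal S ^ k :=
      sup_le_sup_left ((hI n).trans (Ideal.pow_le_pow_right h2)) K (h n)
    have h4 := Ideal.sub_mem _ h3 (Ideal.mem_sup_right h1)
    simpa using h4
  have key : ∀ {x y : ℕ → S} {z w : S}, IsULim (maximalIdeal S) U x z →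
      IsULim (maximalIdeal S) U y w → (∀ n, x n - y n ∈ I n) → z = w := by
    intro x y z w hx hy h
    refine IsULim.unique hx (hy.congr fun k => ?_)
    filter_upwards [hU k] with n hn
    rw [memS]
    exact Ideal.pow_le_pow_right hn (hI n (h n))
  have limconst : ∀ x : S, IsULim (maximalIdeal S) U (fun _ => x) x := fun x => IsULim.const x
  -- ring homomorphisms
  let φL : S →+* B :=
    { toFun := φl
      map_one' := IsULim.unique (hφl 1) (by simpa using IsULim.const (1 : B))
      map_mul' := fun f g => IsULim.unique (hφl (f * g))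
        (by simpa using (hφl f).mul (hφl g))
      map_zero' := IsULim.unique (hφl 0) (by simpa using IsULim.const (0 : B))
      map_add' := fun f g => IsULim.unique (hφl (f + g))
        (by simpa using (hφl f).add (hφl g)) }
  let ψL : B →+* R :=
    { toFun := ψl
      map_one' := IsULim.unique (hψl 1) (by simpa using IsULim.const (1 : R))
      map_mul' := fun f g => IsULim.unique (hψl (f * g))
        (by simpa using (hψl f).mul (hψl g))
      map_zero' := IsULim.unique (hψl 0) (by simpa using IsULim.const (0 : R))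
      map_add' := fun f g => IsULim.unique (hψl (f + g))
        (by simpa using (hψl f).add (hψl g)) }
  have hψL : ∀ f, ψL f = ψl f := fun _ => rfl
  have hφL : ∀ f, φL f = φl f := fun _ => rfl
  have hcomp : ∀ (x : ℕ → B) (z : B), IsULim (maximalIdeal B) U x z →
      IsULim (maximalIdeal R) U (fun n => (L n).ψ (x n)) (ψl z) := by
    intro x z hx
    refine (hψl z).congr fun k => ?_
    filter_upwards [hx k] with n hn
    rw [memB] at hn
    rw [memR, ← map_sub]
    exact hψm' n k _ hn
  have hsurj : Function.Surjective ψL := by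
    intro y
    choose x hx using fun n => (L n).ψ_surjective y
    obtain ⟨z, hz⟩ := exB x
    refine ⟨z, ?_⟩
    have h1 := hcomp x z hz
    simp only [hx] at h1
    exact IsULim.unique h1 (IsULim.const y)
  have hψφ : ∀ s, ψL (φL s) = algebraMap S R s := by
    intro s
    have h1 := hcomp _ _ (hφl s)
    simp only [(L _).ψ_φ] at h1
    exact IsULim.unique h1 (IsULim.const _)
  have hccl : ∀ {x : ℕ → S} {z : S}, IsULim (maximalIdeal S) U x z →
      IsULim (maximalIdeal R) U (fun n => algebraMap S R (x n)) (algebraMap S R z) :=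
    fun hx => hx.map (algebraMap S R) hSR
  let ΘL : ∀ τ, B →+* Matrix (Fin (d τ)) (Fin (d τ)) S := fun τ =>
    { toFun := fun f => Matrix.of fun i j => Θl τ f i j
      map_one' := by
        apply Matrix.ext
        intro i j
        rw [Matrix.of_apply, Matrix.one_apply]
        exact key (hΘl τ 1 i j) (limconst _) fun n => Θ_one (L n) τ i j
      map_mul' := by
        intro f g
        apply Matrix.ext
        intro i j
        rw [Matrix.of_apply, Matrix.mul_apply]
        exact key (hΘl τ (f * g) i j)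
          (IsULim.sum Finset.univ fun l _ => (hΘl τ f i l).mul (hΘl τ g l j))
          fun n => Θ_mul (L n) τ f g i j
      map_zero' := by
        apply Matrix.ext
        intro i j
        rw [Matrix.of_apply, Matrix.zero_apply]
        refine key (hΘl τ 0 i j) (limconst _) fun n => ?_
        have h1 := Θ_φ (L n) τ 0 i j
        simpa using h1
      map_add' := by
        intro f g
        apply Matrix.ext
        intro i j
        rw [Matrix.of_apply, Matrix.add_apply]
        exact key (hΘl τ (f + g) i j) ((hΘl τ f i j).add (hΘl τ g i j))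
          fun n => Θ_add (L n) τ f g i j }
  have hΘL : ∀ τ f i j, ΘL τ f i j = Θl τ f i j := fun _ _ _ _ => rfl
  -- basis
  have hbasis : ∀ τ, (∀ m : M τ, ∃ c : Fin (d τ) → S, m = ∑ i, c i • el τ i) ∧
      (∀ c : Fin (d τ) → S, ∑ i, c i • el τ i = 0 → ∀ i, c i ∈ J) := by
    intro τ
    obtain ⟨K, hK⟩ := basis_of_close (S := S) (R := R) hJ
      (fun i => (L 0).π τ ((L 0).b τ i)) (level_span (L 0) τ)
    have hev : ∀ᶠ n in (U : Filter ℕ), ∀ i, (L n).π τ ((L n).b τ i) - el τ i ∈
        (maximalIdeal R ^ K • ⊤ : Submodule R (M τ)) :=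
      Filter.eventually_all.mpr fun i => hel τ i K
    obtain ⟨n, hn⟩ := hev.exists
    exact hK _ (level_span (L n) τ) (level_indep (L n) (hIJ n) τ) _ hn
  let D : MatLim S B R M d J :=
    { φ := φL
      ψ := ψL
      ψ_surjective := hsurj
      ψ_φ := hψφ
      Θ := ΘL
      Θ_φ := by
        intro τ s i j
        refine IsULim.unique (hΘl τ (φL s) i j) ((limconst _).congr fun k => ?_)
        have := finite_quot_pow S k
        filter_upwards [hφl s ((Nat.card (S ⧸ maximalIdeal S ^ k)) ^ d τ), hU k] with n hn1 hn2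
        rw [memB] at hn1
        rw [memS]
        have h1 := Θ_mem (L n) k τ _ hn1 i j
        have h2 : maximalIdeal S ^ k ⊔ I n ≤ maximalIdeal S ^ k :=
          sup_le le_rfl ((hI n).trans (Ideal.pow_le_pow_right hn2))
        have h3 := (I n).sub_mem (Θ_φ (L n) τ s i j)
          (Θ_add (L n) τ ((L n).φ s - φl s) (φl s) i j)
        rw [sub_add_cancel] at h3
        have h4 := Ideal.sub_mem _ (h2 (Ideal.mem_sup_right h3)) (h2 h1)
        have h5 : Θ (L n) τ (φL s) i j - (if i = j then s else 0) =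
            Θ (L n) τ ((L n).φ s) i j - (if i = j then s else 0) -
              (Θ (L n) τ ((L n).φ s) i j -
                (Θ (L n) τ ((L n).φ s - φl s) i j + Θ (L n) τ (φL s) i j)) -
              Θ (L n) τ ((L n).φ s - φl s) i j := by
          rw [hφL]; ring
        rw [h5]
        exact h4
      e := el
      e_compat := by
        intro τ f j
        refine IsULim.unique (I := maximalIdeal R) (U := U)
          (x := fun n => ∑ i, Θ (L n) τ f i j • (L n).π τ ((L n).b τ i)) ?_ ?_
        · refine IsULim.sum Finset.univ fun i _ => ?_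
          have h1 := (hccl (hΘl τ f i j)).smul (hel τ i)
          simp only [algebraMap_smul] at h1
          exact h1
        · have h1 := (hψl f).smul (hel τ j)
          simp only [← level_compat] at h1
          exact h1
      e_span := fun τ => (hbasis τ).1
      e_indep := fun τ => (hbasis τ).2 }
  -- matrices of the limit level
  have hΘD : ∀ τ f i j, Θ D.toLevel τ f i j = Θl τ f i j := by
    intro τ f i j
    have h1 := Θ_spec D.toLevel τ f j
    have h2 : f • D.toLevel.b τ j = ∑ i, D.toLevel.φ (Θl τ f i j) • D.toLevel.b τ i := by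
      refine Eq.trans ?_ (D.sum_φ_smul_single τ fun i => Θl τ f i j).symm
      letI := D.instMod τ
      refine LimMod.ext fun i => ?_
      refine (D.coord_smul τ f (LimMod.mk (Pi.single j 1)) i).trans ?_
      rw [Finset.sum_eq_single j]
      · rw [LimMod.coord_mk, Pi.single_eq_same, mul_one, LimMod.coord_mk]
        rfl
      · intro l _ hl
        rw [LimMod.coord_mk, Pi.single_eq_of_ne hl, mul_zero]
      · simp
    have h3 := sub_mem_of_eq D.toLevel (h1.symm.trans h2) i
    rwa [Submodule.mem_bot, sub_eq_zero] at h3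
  refine ⟨D.toLevel, ?_, ?_, ?_, ?_⟩
  · intro s f h
    refine IsULim.unique (hφl s) ?_
    simp only [h]
    exact IsULim.const f
  · intro f r h
    refine IsULim.unique (hψl f) ?_
    simp only [h]
    exact IsULim.const r
  · intro τ K f h
    refine smul_mem_of_Θ_mem D.toLevel τ f fun i j => ?_
    rw [hΘD]
    exact Ideal.mem_sup_left (closed (hΘl τ f i j) fun n =>
      Θ_mem_of_smul_mem (L n) τ f (h n) i j)
  · intro τ τ' K h
    choose A C hAC using fun n => exists_intertwining (L n) (h n).some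
    choose Al hAl using fun i j => exS fun n => A n i j
    choose Cl hCl using fun i j => exS fun n => C n i j
    refine nonempty_equiv_of_intertwining D.toLevel (A := Al) (C := Cl) ⟨?_, ?_, ?_, ?_⟩
    · intro f i j
      simp only [hΘD]
      refine Ideal.mem_sup_left (closed (K := K) ?_ fun n => (hAC n).comm f i j)
      have h1 := IsULim.sum Finset.univ fun l _ => (hAl i l).mul (hΘl τ f l j)
      have h2 := IsULim.sum Finset.univ fun l _ => (hΘl τ' f i l).mul (hAl l j)
      have h3 := h1.add ((IsULim.const (I := maximalIdeal S) (U := U) (-1 : S)).mul h2)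
      simpa [sub_eq_add_neg] using h3
    · intro f i j
      simp only [hΘD]
      refine Ideal.mem_sup_left (closed (K := K) ?_ fun n => (hAC n).comm' f i j)
      have h1 := IsULim.sum Finset.univ fun l _ => (hCl i l).mul (hΘl τ' f l j)
      have h2 := IsULim.sum Finset.univ fun l _ => (hΘl τ f i l).mul (hCl l j)
      have h3 := h1.add ((IsULim.const (I := maximalIdeal S) (U := U) (-1 : S)).mul h2)
      simpa [sub_eq_add_neg] using h3
    · intro i j
      refine Ideal.mem_sup_left (closed (K := K) ?_ fun n => (hAC n).left i j)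
      have h1 := IsULim.sum Finset.univ fun l _ => (hCl i l).mul (hAl l j)
      have h3 := h1.add (IsULim.const (I := maximalIdeal S) (U := U)
        (-(if i = j then 1 else 0) : S))
      simpa [sub_eq_add_neg] using h3
    · intro i j
      refine Ideal.mem_sup_left (closed (K := K) ?_ fun n => (hAC n).right i j)
      have h1 := IsULim.sum Finset.univ fun l _ => (hAl i l).mul (hCl l j)
      have h3 := h1.add (IsULim.const (I := maximalIdeal S) (U := U)
        (-(if i = j then 1 else 0) : S))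
      simpa [sub_eq_add_neg] using h3

end Main

end Fermat.Agent.H69.KP
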