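/-
The endgame of the level lowering / modularity argument: commutative algebra of a module `N` over
`B` which is free over a power series ring `S`.
-/
import Fermat.Agent.H69KFree
import Mathlib.RingTheory.Ideal.HasGoingUp
import Mathlib.RingTheory.Ideal.AssociatedPrime.Basic
import Mathlib.RingTheory.KrullDimension.Basic
import Mathlib.RingTheory.KrullDimension.NonZeroDivisors
import Mathlib.LinearAlgebra.Charpoly.Basic
import Mathlib.LinearAlgebra.Matrix.Charpoly.LinearMap

set_option autoImplicit false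
set_option linter.style.haveILetI false

namespace Fermat.Agent.H69.EG

open IsLocalRing

/-- dimension does not drop under an injective integral extension -/
theorem ringKrullDim_le_of_isIntegral {A C : Type*} [CommRing A] [CommRing C] [Algebra A C]
    [Algebra.IsIntegral A C] (h : Function.Injective (algebraMap A C)) :
    ringKrullDim A ≤ ringKrullDim C := by
  rw [ringKrullDim, Order.krullDim]
  refine iSup_le fun l => ?_
  haveI : FaithfulSMul A C := (faithfulSMul_iff_algebraMap_injective A C).mpr h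
  have h1 : (l.head.asIdeal).IsPrime := l.head.isPrime
  obtain ⟨⟨P, hP1, hP2⟩⟩ := Ideal.nonempty_primesOver (S := C) l.head.asIdeal
  haveI := hP1
  haveI : P.LiesOver (RelSeries.head l).asIdeal := hP2
  obtain ⟨L, hL, -, -⟩ := Ideal.exists_ltSeries_of_hasGoingUp (S := C) l P
  rw [← hL]
  exact Order.LTSeries.length_le_krullDim L

variable {S B : Type} [CommRing S] [CommRing B]

/-- An associated prime of a module free over a domain `S`: it meets `S` trivially and the
quotient has dimension at least that of `S`. -/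
theorem exists_prime [IsDomain S] [IsNoetherianRing S] [IsNoetherianRing B] (φ : S →+* B)
    {N : Type} [AddCommGroup N] [Module B N] {d : ℕ} (hd : 0 < d) (b : Fin d → N)
    (hspan : ∀ x : N, ∃ c : Fin d → S, x = ∑ i, φ (c i) • b i)
    (hrel : ∀ c : Fin d → S, ∑ i, φ (c i) • b i = 0 → ∀ i, c i = 0) :
    ∃ P : Ideal B, P.IsPrime ∧ (∀ f : B, (∀ x : N, f • x = 0) → f ∈ P) ∧
      (∀ s : S, φ s ∈ P → s = 0) ∧ ringKrullDim S ≤ ringKrullDim (B ⧸ P) := by
  have hne : b ⟨0, hd⟩ ≠ 0 := by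
    intro h
    have h1 := hrel (Pi.single ⟨0, hd⟩ 1) (by
      rw [Finset.sum_eq_single ⟨0, hd⟩]
      · rw [h, smul_zero]
      · intro j _ hj
        rw [Pi.single_eq_of_ne hj, map_zero, zero_smul]
      · simp) ⟨0, hd⟩
    rw [Pi.single_eq_same] at h1
    exact one_ne_zero h1
  haveI : Nontrivial N := ⟨⟨_, _, hne⟩⟩
  obtain ⟨P, hP⟩ := associatedPrimes.nonempty B N
  rw [AssociatedPrimes.mem_iff, isAssociatedPrime_iff] at hP
  obtain ⟨hP, x, hx⟩ := hP
  have hmem : ∀ f : B, f ∈ P ↔ f • x = 0 := by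
    intro f
    rw [hx, Submodule.mem_colon_singleton, Submodule.mem_bot]
  have hx0 : x ≠ 0 := by
    rintro rfl
    exact hP.ne_top ((Ideal.eq_top_iff_one P).mpr ((hmem 1).mpr (smul_zero _)))
  have hS : ∀ s : S, φ s ∈ P → s = 0 := by
    intro s hs
    rw [hmem] at hs
    obtain ⟨c, hc⟩ := hspan x
    have h1 : ∑ i, φ (s * c i) • b i = 0 := by
      rw [← hs, hc, Finset.smul_sum]
      exact Finset.sum_congr rfl fun i _ => by rw [map_mul, mul_smul]
    have h2 := hrel _ h1
    by_contra hs0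
    apply hx0
    rw [hc]
    refine Finset.sum_eq_zero fun i _ => ?_
    rw [(mul_eq_zero.mp (h2 i)).resolve_left hs0, map_zero, zero_smul]
  refine ⟨P, hP, fun f hf => (hmem f).mpr (hf x), hS, ?_⟩
  letI : Algebra S (B ⧸ P) := ((Ideal.Quotient.mk P).comp φ).toAlgebra
  have halg : ∀ s : S, algebraMap S (B ⧸ P) s = Ideal.Quotient.mk P (φ s) := fun _ => rfl
  letI : Module S N := Module.compHom N φ
  have hsm : ∀ (s : S) (y : N), s • y = φ s • y := fun _ _ => rfl
  haveI : Module.Finite S N := by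
    refine Module.Finite.of_surjective (Fintype.linearCombination S b) ?_
    intro y
    obtain ⟨c, hc⟩ := hspan y
    refine ⟨c, ?_⟩
    rw [Fintype.linearCombination_apply, hc]
    rfl
  haveI : IsNoetherian S N := inferInstance
  let g : (B ⧸ P) →ₗ[S] N :=
    { toFun := Quotient.lift (s := Submodule.quotientRel P) (fun f : B => f • x) (by
        intro f f' hff'
        have h1 : f - f' ∈ P := (Submodule.quotientRel_def P).mp hff'
        rw [hmem, sub_smul, sub_eq_zero] at h1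
        exact h1)
      map_add' := by
        intro u v
        obtain ⟨u, rfl⟩ := Ideal.Quotient.mk_surjective u
        obtain ⟨v, rfl⟩ := Ideal.Quotient.mk_surjective v
        exact add_smul u v x
      map_smul' := by
        intro s u
        obtain ⟨u, rfl⟩ := Ideal.Quotient.mk_surjective u
        exact mul_smul (φ s) u x }
  have hg : ∀ f : B, g (Ideal.Quotient.mk P f) = f • x := fun _ => rfl
  have hginj : Function.Injective g := by
    rw [injective_iff_map_eq_zero]
    intro u hu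
    obtain ⟨u, rfl⟩ := Ideal.Quotient.mk_surjective u
    rw [hg, ← hmem] at hu
    exact Ideal.Quotient.eq_zero_iff_mem.mpr hu
  haveI : Module.Finite S (B ⧸ P) := Module.Finite.of_injective g hginj
  haveI : Algebra.IsIntegral S (B ⧸ P) := inferInstance
  refine ringKrullDim_le_of_isIntegral (A := S) (C := B ⧸ P) ?_
  rw [injective_iff_map_eq_zero]
  intro s hs
  rw [halg, Ideal.Quotient.eq_zero_iff_mem] at hs
  exact hS s hs

/-- a proper quotient domain of a domain of finite dimension has smaller dimension -/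
theorem eq_of_dim_le {J P : Ideal B} (hJ : J.IsPrime) (hJP : J ≤ P) {n : ℕ}
    (h1 : ringKrullDim (B ⧸ J) ≤ n) (h2 : (n : WithBot ℕ∞) ≤ ringKrullDim (B ⧸ P)) : J = P := by
  by_contra hne
  obtain ⟨f, hfP, hfJ⟩ := SetLike.exists_of_lt (lt_of_le_of_ne hJP hne)
  haveI := hJ
  have h3 := ringKrullDim_succ_le_of_surjective (Ideal.Quotient.factor hJP)
    (Ideal.Quotient.factor_surjective hJP) (r := Ideal.Quotient.mk J f)
    (mem_nonZeroDivisors_of_ne_zero fun h => hfJ (Ideal.Quotient.eq_zero_iff_mem.mp h))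
    (by rw [Ideal.Quotient.factor_mk]; exact Ideal.Quotient.eq_zero_iff_mem.mpr hfP)
  have h4 : (n : WithBot ℕ∞) + 1 ≤ n := by
    refine le_trans ?_ (h3.trans h1)
    gcongr
  have h5 : ((n + 1 : ℕ) : WithBot ℕ∞) ≤ (n : ℕ) := by
    push_cast
    exact h4
  rw [Nat.cast_le] at h5
  omega

/-- **Endgame**, form with a single module. -/
theorem endgame' [IsDomain S] [IsNoetherianRing S] [IsNoetherianRing B] (φ : S →+* B)
    {N₁ : Type} [AddCommGroup N₁] [Module B N₁]
    {d : ℕ} (hd : 0 < d) (b : Fin d → N₁)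
    (hspan : ∀ x : N₁, ∃ c : Fin d → S, x = ∑ i, φ (c i) • b i)
    (hrel : ∀ c : Fin d → S, ∑ i, φ (c i) • b i = 0 → ∀ i, c i = 0)
    {n : ℕ} (hn : (n : WithBot ℕ∞) ≤ ringKrullDim S)
    (K : Ideal B) (h : B) (hh1 : ∀ x : N₁, h • x ∈ (K • ⊤ : Submodule B N₁))
    (q : Ideal B) (hq : q.IsPrime) (hKq : K ≤ q) (hhq : h ∉ q)
    (hJ : ∀ P : Ideal B, P.IsPrime → (∀ f : B, (∀ x : N₁, f • x = 0) → f ∈ P) →
      (∀ s : S, φ s ∈ P → s = 0) →
      ∃ J : Ideal B, J.IsPrime ∧ J ≤ P ∧ J ≤ q ∧ ringKrullDim (B ⧸ J) ≤ n) : False := by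
  obtain ⟨P, hP, hann, hS, hdim⟩ := exists_prime φ hd b hspan hrel
  obtain ⟨J, hJp, hJP, hJq, hJdim⟩ := hJ P hP hann hS
  have hJPeq : J = P := eq_of_dim_le hJp hJP hJdim (hn.trans hdim)
  have hPq : P ≤ q := hJPeq ▸ hJq
  haveI : Module.Finite B N₁ := by
    refine Module.Finite.of_surjective (Fintype.linearCombination B b) ?_
    intro y
    obtain ⟨c, hc⟩ := hspan y
    exact ⟨fun i => φ (c i), by rw [Fintype.linearCombination_apply, hc]⟩
  obtain ⟨p, hpm, -, hpc, hp0⟩ :=
    LinearMap.exists_monic_and_natDegree_eq_and_coeff_mem_pow_and_aeval_eq_zero B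
      (LinearMap.lsmul B N₁ h) K (by
        rintro _ ⟨x, rfl⟩
        exact hh1 x)
  have h2 : ∀ x : N₁, (p.eval h) • x = 0 := by
    intro x
    have h3 : Polynomial.aeval (LinearMap.lsmul B N₁ h) p = LinearMap.lsmul B N₁ (p.eval h) := by
      have h4 : (LinearMap.lsmul B N₁ : B →ₗ[B] N₁ →ₗ[B] N₁) h =
        (Algebra.lsmul B B N₁ : B →ₐ[B] Module.End B N₁) h := rfl
      have h5 : (LinearMap.lsmul B N₁ : B →ₗ[B] N₁ →ₗ[B] N₁) (p.eval h) =
        (Algebra.lsmul B B N₁ : B →ₐ[B] Module.End B N₁) (p.eval h) := rfl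
      rw [h4, h5, Polynomial.aeval_algHom_apply, Polynomial.coe_aeval_eq_eval]
    have h6 := LinearMap.congr_fun (h3.symm.trans hp0) x
    simpa using h6
  have h7 : p.eval h ∈ q := hPq (hann _ h2)
  apply hhq
  have h8 : h ^ p.natDegree ∈ q := by
    rw [Polynomial.eval_eq_sum_range, Finset.sum_range_succ, hpm.coeff_natDegree, one_mul] at h7
    refine (Submodule.add_mem_iff_right q ?_).mp h7
    refine Ideal.sum_mem _ fun i hi => Ideal.mul_mem_right _ _ ?_
    rw [Finset.mem_range] at hi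
    have h9 := hpc i
    have h10 : K ^ (p.natDegree - i) ≤ K := Ideal.pow_le_self (by omega)
    exact hKq (h10 h9)
  exact hq.mem_of_pow_mem _ h8

/-- **Endgame.** -/
theorem endgame [IsDomain S] [IsNoetherianRing S] [IsNoetherianRing B] (φ : S →+* B)
    {N₀ N₁ : Type} [AddCommGroup N₀] [Module B N₀] [AddCommGroup N₁] [Module B N₁]
    {d : ℕ} (hd : 0 < d) (b : Fin d → N₁)
    (hspan : ∀ x : N₁, ∃ c : Fin d → S, x = ∑ i, φ (c i) • b i)
    (hrel : ∀ c : Fin d → S, ∑ i, φ (c i) • b i = 0 → ∀ i, c i = 0)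
    {n : ℕ} (hn : (n : WithBot ℕ∞) ≤ ringKrullDim S)
    (K : Ideal B)
    (e : (N₀ ⧸ (K • ⊤ : Submodule B N₀)) ≃ₗ[B] (N₁ ⧸ (K • ⊤ : Submodule B N₁)))
    (h : B) (hh : ∀ x : N₀, h • x ∈ (K • ⊤ : Submodule B N₀))
    (q : Ideal B) (hq : q.IsPrime) (hKq : K ≤ q) (hhq : h ∉ q)
    (hJ : ∀ P : Ideal B, P.IsPrime → (∀ f : B, (∀ x : N₁, f • x = 0) → f ∈ P) →
      (∀ s : S, φ s ∈ P → s = 0) →
      ∃ J : Ideal B, J.IsPrime ∧ J ≤ P ∧ J ≤ q ∧ ringKrullDim (B ⧸ J) ≤ n) : False := by
  refine endgame' φ hd b hspan hrel hn K h ?_ q hq hKq hhq hJ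
  intro x
  obtain ⟨y, hy⟩ := Submodule.Quotient.mk_surjective _ (e.symm (Submodule.Quotient.mk x))
  have h1 : h • (e.symm (Submodule.Quotient.mk x)) = 0 := by
    rw [← hy, ← Submodule.Quotient.mk_smul, Submodule.Quotient.mk_eq_zero]
    exact hh y
  rw [← map_smul, LinearEquiv.map_eq_zero_iff, ← Submodule.Quotient.mk_smul,
    Submodule.Quotient.mk_eq_zero] at h1
  exact h1

end Fermat.Agent.H69.EG
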