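/-
The endgame for the non-minimal modularity lifting theorem: the support of the unipotent patched
module contains every component of the local deformation ring.
-/
import Fermat.Agent.H57TameUni
import Fermat.Agent.H69Endgame
import Mathlib.RingTheory.MvPowerSeries.NoZeroDivisors

set_option autoImplicit false
set_option linter.style.haveILetI false
set_option linter.unusedSectionVars false

namespace Fermat.Agent.H57.Tame

open IsLocalRing

section Gen

variable {S B : Type} [CommRing S] [CommRing B]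

/-- Dimension of the quotient by an associated prime of a module free over `S`. -/
theorem dim_of_ann [IsDomain S] [IsNoetherianRing S] [IsNoetherianRing B] (φ : S →+* B)
    {N : Type} [AddCommGroup N] [Module B N] {d : ℕ} (b : Fin d → N)
    (hspan : ∀ x : N, ∃ c : Fin d → S, x = ∑ i, φ (c i) • b i)
    (hrel : ∀ c : Fin d → S, ∑ i, φ (c i) • b i = 0 → ∀ i, c i = 0)
    (P : Ideal B) (hP : P ≠ ⊤) (x : N) (hmem : ∀ f : B, f ∈ P ↔ f • x = 0) :
    (∀ s : S, φ s ∈ P → s = 0) ∧ ringKrullDim S ≤ ringKrullDim (B ⧸ P) := by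
  have hx0 : x ≠ 0 := by
    rintro rfl
    exact hP ((Ideal.eq_top_iff_one P).mpr ((hmem 1).mpr (smul_zero _)))
  have hS : ∀ s : S, φ s ∈ P → s = 0 := by
    intro s hs
    rw [hmem] at hs
    obtain ⟨c, hc⟩ := hspan x
    have h1 : ∑ i, φ (s * c i) • b i = 0 := by
      rw [← hs, hc, Finset.smul_sum]
      exact Finset.sum_congr rfl fun i _ => by rw [map_mul, mul_smul]
    have h2 := hrel _ h1
    by_contra hs0
    apply hx0
    rw [hc]
    refine Finset.sum_eq_zero fun i _ => ?_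
    rw [(mul_eq_zero.mp (h2 i)).resolve_left hs0, map_zero, zero_smul]
  refine ⟨hS, ?_⟩
  letI : Algebra S (B ⧸ P) := ((Ideal.Quotient.mk P).comp φ).toAlgebra
  have halg : ∀ s : S, algebraMap S (B ⧸ P) s = Ideal.Quotient.mk P (φ s) := fun _ => rfl
  letI : Module S N := Module.compHom N φ
  haveI : Module.Finite S N := by
    refine Module.Finite.of_surjective (Fintype.linearCombination S b) ?_
    intro y
    obtain ⟨c, hc⟩ := hspan y
    refine ⟨c, ?_⟩
    rw [Fintype.linearCombination_apply, hc]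
    rfl
  haveI : IsNoetherian S N := inferInstance
  let g : (B ⧸ P) →ₗ[S] N :=
    { toFun := Quotient.lift (s := Submodule.quotientRel P) (fun f : B => f • x) (by
        intro f f' hff'
        have h1 : f - f' ∈ P := (Submodule.quotientRel_def P).mp hff'
        rw [hmem, sub_smul, sub_eq_zero] at h1
        exact h1)
      map_add' := by
        intro u v
        obtain ⟨u, rfl⟩ := Ideal.Quotient.mk_surjective u
        obtain ⟨v, rfl⟩ := Ideal.Quotient.mk_surjective v
        exact add_smul u v x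
      map_smul' := by
        intro s u
        obtain ⟨u, rfl⟩ := Ideal.Quotient.mk_surjective u
        exact mul_smul (φ s) u x }
  have hg : ∀ f : B, g (Ideal.Quotient.mk P f) = f • x := fun _ => rfl
  have hginj : Function.Injective g := by
    rw [injective_iff_map_eq_zero]
    intro u hu
    obtain ⟨u, rfl⟩ := Ideal.Quotient.mk_surjective u
    rw [hg, ← hmem] at hu
    exact Ideal.Quotient.eq_zero_iff_mem.mpr hu
  haveI : Module.Finite S (B ⧸ P) := Module.Finite.of_injective g hginj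
  haveI : Algebra.IsIntegral S (B ⧸ P) := inferInstance
  refine Fermat.Agent.H69.EG.ringKrullDim_le_of_isIntegral (A := S) (C := B ⧸ P) ?_
  rw [injective_iff_map_eq_zero]
  intro s hs
  rw [halg, Ideal.Quotient.eq_zero_iff_mem] at hs
  exact hS s hs

/-- Cayley–Hamilton: if `f N ⊆ K N` and `Ann N ⊆ q`, `K ⊆ q` with `q` prime, then `f ∈ q`. -/
theorem mem_of_smul_mem {N : Type} [AddCommGroup N] [Module B N] [Module.Finite B N]
    {K q : Ideal B} (hq : q.IsPrime) (hKq : K ≤ q) (hann : ∀ f : B, (∀ x : N, f • x = 0) → f ∈ q)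
    {h : B} (hh : ∀ x : N, h • x ∈ (K • ⊤ : Submodule B N)) : h ∈ q := by
  obtain ⟨p, hpm, -, hpc, hp0⟩ :=
    LinearMap.exists_monic_and_natDegree_eq_and_coeff_mem_pow_and_aeval_eq_zero B
      (LinearMap.lsmul B N h) K (by
        rintro _ ⟨x, rfl⟩
        exact hh x)
  have h2 : ∀ x : N, (p.eval h) • x = 0 := by
    intro x
    have h3 : Polynomial.aeval (LinearMap.lsmul B N h) p = LinearMap.lsmul B N (p.eval h) := by
      have h4 : (LinearMap.lsmul B N : B →ₗ[B] N →ₗ[B] N) h =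
        (Algebra.lsmul B B N : B →ₐ[B] Module.End B N) h := rfl
      have h5 : (LinearMap.lsmul B N : B →ₗ[B] N →ₗ[B] N) (p.eval h) =
        (Algebra.lsmul B B N : B →ₐ[B] Module.End B N) (p.eval h) := rfl
      rw [h4, h5, Polynomial.aeval_algHom_apply, Polynomial.coe_aeval_eq_eval]
    have h6 := LinearMap.congr_fun (h3.symm.trans hp0) x
    simpa using h6
  have h7 : p.eval h ∈ q := hann _ h2
  have h8 : h ^ p.natDegree ∈ q := by
    rw [Polynomial.eval_eq_sum_range, Finset.sum_range_succ, hpm.coeff_natDegree, one_mul] at h7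
    refine (Submodule.add_mem_iff_right q ?_).mp h7
    refine Ideal.sum_mem _ fun i hi => Ideal.mul_mem_right _ _ ?_
    rw [Finset.mem_range] at hi
    have h9 := hpc i
    have h10 : K ^ (p.natDegree - i) ≤ K := Ideal.pow_le_self (by omega)
    exact hKq (h10 h9)
  exact hq.mem_of_pow_mem _ h8

/-- If no power of `g` kills `N` then some associated prime avoids `g`. -/
theorem exists_ass_avoid [IsNoetherianRing B] {N : Type} [AddCommGroup N] [Module B N]
    [Module.Finite B N] (g : B) (hg : ∀ m : ℕ, ∃ x : N, g ^ m • x ≠ 0) :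
    ∃ (Q : Ideal B) (x : N), Q.IsPrime ∧ (∀ f : B, f ∈ Q ↔ f • x = 0) ∧ g ∉ Q := by
  -- the `g`-power torsion
  have hst : ∃ M : ℕ, ∀ x : N, ∀ m, g ^ m • x = 0 → g ^ M • x = 0 := by
    have hN : IsNoetherian B N := isNoetherian_of_isNoetherianRing_of_finite B N
    let F : ℕ →o Submodule B N :=
      { toFun := fun m => LinearMap.ker (LinearMap.lsmul B N (g ^ m))
        monotone' := by
          intro m m' hm x hx
          rw [LinearMap.mem_ker, LinearMap.lsmul_apply] at hx ⊢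
          obtain ⟨e, rfl⟩ := Nat.exists_eq_add_of_le hm
          rw [pow_add, mul_comm, mul_smul, hx, smul_zero] }
    obtain ⟨M, hM⟩ := monotone_stabilizes_iff_noetherian.mpr hN F
    refine ⟨M, fun x m hx => ?_⟩
    have h1 : x ∈ F (max m M) := by
      refine F.monotone (le_max_left m M) ?_
      change x ∈ LinearMap.ker (LinearMap.lsmul B N (g ^ m))
      rwa [LinearMap.mem_ker, LinearMap.lsmul_apply]
    rw [← hM _ (le_max_right m M)] at h1
    exact LinearMap.mem_ker.mp h1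
  obtain ⟨M, hM⟩ := hst
  obtain ⟨x₀, hx₀⟩ := hg M
  -- the quotient of `N` by the torsion, realised as the image of `g ^ M`
  let N' : Submodule B N := LinearMap.range (LinearMap.lsmul B N (g ^ M))
  have hinj : ∀ y ∈ N', ∀ m, g ^ m • y = 0 → y = 0 := by
    rintro _ ⟨z, rfl⟩ m hm
    rw [LinearMap.lsmul_apply] at hm ⊢
    rw [smul_smul, ← pow_add] at hm
    exact hM z _ hm
  haveI : Nontrivial N' := ⟨⟨⟨g ^ M • x₀, x₀, rfl⟩, 0, fun h => hx₀ (congrArg Subtype.val h)⟩⟩
  obtain ⟨Q, hQ⟩ := associatedPrimes.nonempty B N'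
  rw [AssociatedPrimes.mem_iff, isAssociatedPrime_iff] at hQ
  obtain ⟨hQ, x, hx⟩ := hQ
  have hmem : ∀ f : B, f ∈ Q ↔ f • (x : N) = 0 := by
    intro f
    rw [hx, Submodule.mem_colon_singleton, Submodule.mem_bot, ← Submodule.coe_smul,
      Submodule.coe_eq_zero]
  refine ⟨Q, x, hQ, hmem, fun hgQ => ?_⟩
  rw [hmem, ← pow_one g] at hgQ
  have h1 := hinj x x.2 1 hgQ
  exact hQ.ne_top ((Ideal.eq_top_iff_one Q).mpr ((hmem 1).mpr (by rw [h1, smul_zero])))

end Gen

section Main

variable {O : Type} [CommRing O] [IsDomain O] [IsLocalRing O] [IsNoetherianRing O]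
  [IsAdicComplete (maximalIdeal O) O] {T : Type} [Finite T]
  {S : Type} [CommRing S] [IsDomain S] [IsNoetherianRing S]

/-- **The support of the unipotent module.** `N₀` is the module with ramified characters at `T`,
`N₁` the unipotent one. -/
theorem ann_le_relIdeal (k : ℕ) {ϖ : O} (hϖ : maximalIdeal O = Ideal.span {ϖ}) {η q : T → O}
    (h2 : (2 : O) ≠ 0) (hqη : ∀ t, q t = 1 + 2 * η t) (hη0 : ∀ t, η t ≠ 0) (hq0 : ∀ t, q t ≠ 0)
    (hq1 : ∀ t, 1 + q t ≠ 0) (hηm : ∀ t, η t ∈ maximalIdeal O)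
    (φ : S →+* BRing O T k) (i : O →+* S) (hi : Function.Injective i)
    (hφi : ∀ a, φ (i a) = MvPowerSeries.C a)
    {N₀ N₁ : Type} [AddCommGroup N₀] [Module (BRing O T k) N₀]
    [AddCommGroup N₁] [Module (BRing O T k) N₁] {d₀ d₁ : ℕ} (hd₀ : 0 < d₀)
    (b₀ : Fin d₀ → N₀) (hspan₀ : ∀ x : N₀, ∃ c : Fin d₀ → S, x = ∑ i, φ (c i) • b₀ i)
    (hrel₀ : ∀ c : Fin d₀ → S, ∑ i, φ (c i) • b₀ i = 0 → ∀ i, c i = 0)
    (b₁ : Fin d₁ → N₁) (hspan₁ : ∀ x : N₁, ∃ c : Fin d₁ → S, x = ∑ i, φ (c i) • b₁ i)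
    (hrel₁ : ∀ c : Fin d₁ → S, ∑ i, φ (c i) • b₁ i = 0 → ∀ i, c i = 0)
    (hn : ((1 + 3 * Nat.card T + k : ℕ) : WithBot ℕ∞) ≤ ringKrullDim S)
    (K : Ideal (BRing O T k)) (hK : K ≤ Ideal.span {MvPowerSeries.C ϖ})
    (e : (N₀ ⧸ (K • ⊤ : Submodule (BRing O T k) N₀)) ≃ₗ[BRing O T k]
      (N₁ ⧸ (K • ⊤ : Submodule (BRing O T k) N₁)))
    (hchi : ∀ P : Ideal (BRing O T k), P.IsPrime →
      (∀ f : BRing O T k, (∀ x : N₀, f • x = 0) → f ∈ P) → (∀ s : S, φ s ∈ P → s = 0) →
      ∃ κ : T → O, (∀ t, κ t ≠ 0) ∧ (∀ t, κ t ∈ maximalIdeal O) ∧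
        relIdeal k κ η (fun _ => Typ.chi) ≤ P)
    (huni : ∀ P : Ideal (BRing O T k), P.IsPrime →
      (∀ f : BRing O T k, (∀ x : N₁, f • x = 0) → f ∈ P) → (∀ s : S, φ s ∈ P → s = 0) →
      ∀ t, ∃ s : BRing O T k ⧸ P,
        URel (Ideal.Quotient.mk P (MvPowerSeries.C (q t))) s
          (fun j => Ideal.Quotient.mk P (bVar O k t j)) ∧
        2 * s + (1 + Ideal.Quotient.mk P (MvPowerSeries.C (q t))) ≠ 0)
    (σ : T → Typ) (hσ : ∀ t, σ t ≠ Typ.chi) (f : BRing O T k) (hf : ∀ x : N₁, f • x = 0) :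
    f ∈ relIdeal k η η σ := by
  classical
  cases nonempty_fintype T
  haveI hBn : IsNoetherianRing (BRing O T k) := inferInstance
  have hη2 : ∀ t, η t + η t ≠ 0 := fun t => by
    rw [← two_mul]; exact mul_ne_zero h2 (hη0 t)
  -- the component met by `N₀`
  obtain ⟨P, hP, hannP, hSP, hdimP⟩ :=
    Fermat.Agent.H69.EG.exists_prime φ hd₀ b₀ hspan₀ hrel₀
  obtain ⟨κ, hκ0, hκm, hκP⟩ := hchi P hP hannP hSP
  have hκ2 : ∀ t, κ t + κ t ≠ 0 := fun t => by
    rw [← two_mul]; exact mul_ne_zero h2 (hκ0 t)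
  haveI := relIdeal_isPrime k hκ2 hη2 hκm hηm (fun _ : T => Typ.chi)
  have hPeq : P = relIdeal k κ η (fun _ => Typ.chi) :=
    eq_of_le_of_ringKrullDim hκP (ringKrullDim_quot_relIdeal_le k hϖ hκm hηm _)
      (hn.trans hdimP)
  obtain ⟨θ, hθ, hθϖ, hθg⟩ := exists_test (T := T) k hκm hηm σ
  let g : BRing O T k := ∏ t, gElt (MvPowerSeries.C (η t)) (bVar O k t) (σ t)
  have hθg' : θ g ≠ 0 := by
    rw [map_prod]
    exact Finset.prod_ne_zero_iff.mpr fun t _ => hθg t
  haveI : IsDomain (MvPowerSeries T (ResidueField O)) := NoZeroDivisors.to_isDomain _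
  have hker : (RingHom.ker θ).IsPrime := RingHom.ker_isPrime θ
  haveI hfin₀ : Module.Finite (BRing O T k) N₀ := by
    refine Module.Finite.of_surjective (Fintype.linearCombination (BRing O T k) b₀) ?_
    intro y
    obtain ⟨c, hc⟩ := hspan₀ y
    exact ⟨fun i => φ (c i), by rw [Fintype.linearCombination_apply, hc]⟩
  haveI hfin₁ : Module.Finite (BRing O T k) N₁ := by
    refine Module.Finite.of_surjective (Fintype.linearCombination (BRing O T k) b₁) ?_
    intro y
    obtain ⟨c, hc⟩ := hspan₁ y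
    exact ⟨fun i => φ (c i), by rw [Fintype.linearCombination_apply, hc]⟩
  -- `g` is not nilpotent on `N₁`
  have hnil : ∀ m : ℕ, ∃ x : N₁, g ^ m • x ≠ 0 := by
    intro m
    by_contra hcon
    push Not at hcon
    have h1 : ∀ x : N₀, g ^ m • x ∈ (K • ⊤ : Submodule (BRing O T k) N₀) := by
      intro x
      obtain ⟨y, hy⟩ := Submodule.Quotient.mk_surjective _ (e (Submodule.Quotient.mk x))
      have h3 : g ^ m • (e (Submodule.Quotient.mk x)) = 0 := by
        rw [← hy, ← Submodule.Quotient.mk_smul, hcon y, Submodule.Quotient.mk_zero]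
      rwa [← map_smul, LinearEquiv.map_eq_zero_iff, ← Submodule.Quotient.mk_smul,
        Submodule.Quotient.mk_eq_zero] at h3
    have h2 : g ^ m ∈ RingHom.ker θ := by
      refine mem_of_smul_mem (N := N₀) hker ?_ ?_ h1
      · refine hK.trans ?_
        rw [Ideal.span_singleton_le_iff_mem, RingHom.mem_ker]
        exact hθϖ ϖ (by rw [hϖ]; exact Ideal.mem_span_singleton_self ϖ)
      · intro f hf
        exact hθ (hPeq ▸ hannP f hf)
    rw [RingHom.mem_ker, map_pow] at h2
    exact pow_ne_zero m hθg' h2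
  obtain ⟨Q, x, hQ, hmem, hgQ⟩ := exists_ass_avoid (N := N₁) g hnil
  obtain ⟨hSQ, hdimQ⟩ := dim_of_ann φ b₁ hspan₁ hrel₁ Q hQ.ne_top x hmem
  have hannQ : ∀ f : BRing O T k, (∀ x : N₁, f • x = 0) → f ∈ Q := fun f hf =>
    (hmem f).mpr (hf x)
  -- constants in `B ⧸ Q`
  have hC : ∀ a : O, a ≠ 0 → Ideal.Quotient.mk Q (MvPowerSeries.C a) ≠ 0 := by
    intro a ha h
    rw [Ideal.Quotient.eq_zero_iff_mem, ← hφi] at h
    exact ha ((injective_iff_map_eq_zero i).mp hi a (hSQ _ h))
  have hgt : ∀ t, Ideal.Quotient.mk Q (gElt (MvPowerSeries.C (η t)) (bVar O k t) (σ t)) ≠ 0 := by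
    intro t h
    rw [Ideal.Quotient.eq_zero_iff_mem] at h
    exact hgQ (Ideal.mem_of_dvd Q (Finset.dvd_prod_of_mem _ (Finset.mem_univ t)) h)
  have hrelQ : relIdeal k η η σ ≤ Q := by
    have h0 : relIdeal k η η σ ≤ RingHom.ker (Ideal.Quotient.mk Q) := by
      rw [relIdeal_le_ker_iff]
      intro t
      obtain ⟨s, hs, hs'⟩ := huni Q hQ hannQ hSQ t
      have e0 : Ideal.Quotient.mk Q (MvPowerSeries.C 2) = 2 := by
        rw [map_ofNat, map_ofNat]
      have e1 : Ideal.Quotient.mk Q (MvPowerSeries.C (q t)) =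
          1 + 2 * Ideal.Quotient.mk Q (MvPowerSeries.C (η t)) := by
        rw [hqη t, map_add, map_one, map_mul, map_add, map_one, map_mul, e0]
      have e2 : (2 : BRing O T k ⧸ Q) ≠ 0 := by
        rw [← e0]
        exact hC 2 h2
      have e3 := hC _ (hη0 t)
      have e4 := hC _ (hq0 t)
      have e5 : 1 + Ideal.Quotient.mk Q (MvPowerSeries.C (q t)) ≠ 0 := by
        have := hC _ (hq1 t)
        simpa using this
      have e6 := hgt t
      cases hσt : σ t with
      | nr =>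
        rw [hσt] at e6
        refine hs.nr e1 e2 e3 e4 ?_ _
        simpa [gElt] using e6
      | st =>
        rw [hσt] at e6
        exact hs.st e1 e2 e3 e4 e5 hs' e6 _
      | chi => exact absurd hσt (hσ t)
    rwa [Ideal.mk_ker] at h0
  haveI := relIdeal_isPrime k hη2 hη2 hηm hηm σ
  have hQeq : Q = relIdeal k η η σ :=
    eq_of_le_of_ringKrullDim hrelQ (ringKrullDim_quot_relIdeal_le k hϖ hηm hηm _)
      (hn.trans hdimQ)
  rw [← hQeq]
  exact hannQ f hf

end Main

end Fermat.Agent.H57.Tame
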