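/-
Framing step: from an unframed patching level (over `S₀`, `Rₙ`) to a level over
`S₀⟦z₁,…,z_t⟧` and a ring `B` surjecting onto `Rₙ⟦z₁,…,z_t⟧`.
-/
import Fermat.Agent.H69KPatch

set_option autoImplicit false
set_option linter.style.haveILetI false

namespace Fermat.Agent.H69.KP

open IsLocalRing

section PSMod

/-- The module `M⟦z⟧` of power series with coefficients in a module. -/
def PSMod (σ : Type) (M : Type) : Type := (σ →₀ ℕ) → M

variable {σ : Type} {M : Type} [AddCommGroup M]

noncomputable instance : AddCommGroup (PSMod σ M) :=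
  inferInstanceAs (AddCommGroup ((σ →₀ ℕ) → M))

/-- coefficients -/
def PSMod.coeff (x : PSMod σ M) (n : σ →₀ ℕ) : M := x n

/-- power series with given coefficients -/
def PSMod.mk (x : (σ →₀ ℕ) → M) : PSMod σ M := x

omit [AddCommGroup M] in
@[simp] lemma PSMod.coeff_mk (x : (σ →₀ ℕ) → M) (n : σ →₀ ℕ) : (PSMod.mk x).coeff n = x n := rfl

omit [AddCommGroup M] in
@[ext] lemma PSMod.ext {x y : PSMod σ M} (h : ∀ n, x.coeff n = y.coeff n) : x = y := funext h

@[simp] lemma PSMod.coeff_add (x y : PSMod σ M) (n : σ →₀ ℕ) :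
    (x + y).coeff n = x.coeff n + y.coeff n := rfl

@[simp] lemma PSMod.coeff_zero (n : σ →₀ ℕ) : (0 : PSMod σ M).coeff n = 0 := rfl

@[simp] lemma PSMod.coeff_sum {κ : Type*} (s : Finset κ) (v : κ → PSMod σ M) (n : σ →₀ ℕ) :
    (∑ j ∈ s, v j).coeff n = ∑ j ∈ s, (v j).coeff n :=
  Finset.sum_apply (M := fun _ => M) _ _ _

variable {R : Type} [CommRing R] [Module R M]

open Classical in
noncomputable instance : SMul (MvPowerSeries σ R) (PSMod σ M) where
  smul f x := PSMod.mk fun n => ∑ p ∈ Finset.antidiagonal n, MvPowerSeries.coeff p.1 f • x.coeff p.2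

open Classical in
lemma PSMod.coeff_smul (f : MvPowerSeries σ R) (x : PSMod σ M) (n : σ →₀ ℕ) :
    (f • x).coeff n = ∑ p ∈ Finset.antidiagonal n, MvPowerSeries.coeff p.1 f • x.coeff p.2 := rfl

noncomputable instance : Module (MvPowerSeries σ R) (PSMod σ M) where
  one_smul x := by
    classical
    ext n
    rw [PSMod.coeff_smul, Finset.sum_eq_single (0, n)]
    · simp
    · rintro ⟨a, b⟩ hab hne
      rw [Finset.mem_antidiagonal] at hab
      have : a ≠ 0 := by
        rintro rfl
        exact hne (by simpa using hab)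
      rw [MvPowerSeries.coeff_one, if_neg this, zero_smul]
    · simp
  mul_smul f g x := by
    classical
    ext n
    simp only [PSMod.coeff_smul, MvPowerSeries.coeff_mul, Finset.sum_smul, Finset.smul_sum,
      Finset.sum_sigma']
    apply Finset.sum_nbij' (fun ⟨⟨_i, j⟩, ⟨k, l⟩⟩ ↦ ⟨(k, l + j), (l, j)⟩)
      (fun ⟨⟨i, _j⟩, ⟨k, l⟩⟩ ↦ ⟨(i + k, l), (i, k)⟩) <;>
      aesop (add simp [add_assoc, mul_smul])
  smul_zero f := by
    ext n
    simp [PSMod.coeff_smul]
  smul_add f x y := by
    ext n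
    simp [PSMod.coeff_smul, Finset.sum_add_distrib]
  add_smul f g x := by
    ext n
    simp [PSMod.coeff_smul, Finset.sum_add_distrib, add_smul]
  zero_smul x := by
    ext n
    simp [PSMod.coeff_smul]

/-- constants -/
noncomputable def PSMod.C (σ : Type) (m : M) : PSMod σ M :=
  open Classical in PSMod.mk fun n => if n = 0 then m else 0

lemma PSMod.coeff_smul_C (f : MvPowerSeries σ R) (m : M) (n : σ →₀ ℕ) :
    (f • PSMod.C σ m).coeff n = MvPowerSeries.coeff n f • m := by
  classical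
  rw [PSMod.coeff_smul, Finset.sum_eq_single (n, 0)]
  · simp [PSMod.C]
  · rintro ⟨a, b⟩ hab hne
    rw [Finset.mem_antidiagonal] at hab
    have : b ≠ 0 := by
      rintro rfl
      exact hne (by simpa using hab)
    simp [PSMod.C, this]
  · simp

lemma PSMod.coeff_zero_smul (f : MvPowerSeries σ R) (x : PSMod σ M) :
    (f • x).coeff 0 = MvPowerSeries.constantCoeff f • x.coeff 0 := by
  classical
  rw [PSMod.coeff_smul]
  simp

end PSMod

section Frame

/-- power series with given coefficients -/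
def mkPS {σ A : Type} (c : (σ →₀ ℕ) → A) : MvPowerSeries σ A := c

lemma coeff_mkPS {σ A : Type} [CommRing A] (c : (σ →₀ ℕ) → A) (n : σ →₀ ℕ) :
    MvPowerSeries.coeff n (mkPS c) = c n := rfl

/-- the ideal of power series with coefficients in `I₀` -/
def psIdeal {S₀ : Type} [CommRing S₀] (σ : Type) (I₀ : Ideal S₀) : Ideal (MvPowerSeries σ S₀) where
  carrier := {f | ∀ n, MvPowerSeries.coeff n f ∈ I₀}
  add_mem' := fun {f g} hf hg n => by rw [map_add]; exact add_mem (hf n) (hg n)
  zero_mem' := fun n => by simp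
  smul_mem' := fun a f hf n => by
    classical
    rw [smul_eq_mul, MvPowerSeries.coeff_mul]
    exact Ideal.sum_mem _ fun p _ => Ideal.mul_mem_left _ _ (hf _)

lemma mem_psIdeal {S₀ : Type} [CommRing S₀] {σ : Type} {I₀ : Ideal S₀} {f : MvPowerSeries σ S₀} :
    f ∈ psIdeal σ I₀ ↔ ∀ n, MvPowerSeries.coeff n f ∈ I₀ := Iff.rfl

/-- for a finitely generated ideal, `psIdeal` is the extended ideal -/
lemma psIdeal_eq_map {S₀ : Type} [CommRing S₀] (σ : Type) {I₀ : Ideal S₀} (h : I₀.FG) :
    psIdeal σ I₀ = I₀.map (MvPowerSeries.C (σ := σ) (R := S₀)) := by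
  classical
  apply le_antisymm
  · intro f hf
    obtain ⟨s, hs⟩ := h
    have h1 : ∀ n, ∃ c : s → S₀, MvPowerSeries.coeff n f = ∑ i : s, c i * (i : S₀) := by
      intro n
      have h2 := hf n
      rw [← hs, Ideal.span, Submodule.mem_span_finset'] at h2
      obtain ⟨c, hc⟩ := h2
      exact ⟨c, by rw [← hc]; rfl⟩
    choose c hc using h1
    have h3 : f = ∑ i : s, mkPS (fun n => c n i) * MvPowerSeries.C (i : S₀) := by
      ext n
      rw [map_sum, hc n]
      refine Finset.sum_congr rfl fun i _ => ?_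
      rw [MvPowerSeries.coeff_mul_C, coeff_mkPS]
    rw [h3]
    refine Ideal.sum_mem _ fun i _ => Ideal.mul_mem_left _ _ (Ideal.mem_map_of_mem _ ?_)
    rw [← hs]
    exact Ideal.subset_span i.2
  · rw [Ideal.map_le_iff_le_comap]
    intro a ha
    rw [Ideal.mem_comap, mem_psIdeal]
    intro n
    rw [MvPowerSeries.coeff_C]
    split_ifs
    · exact ha
    · exact I₀.zero_mem

lemma psIdeal_le_pow {S₀ : Type} [CommRing S₀] [IsLocalRing S₀] [IsNoetherianRing S₀] (σ : Type)
    {I₀ : Ideal S₀} {n : ℕ} (h : I₀ ≤ maximalIdeal S₀ ^ n) :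
    psIdeal σ I₀ ≤ maximalIdeal (MvPowerSeries σ S₀) ^ n := by
  rw [psIdeal_eq_map σ (IsNoetherian.noetherian I₀)]
  refine (Ideal.map_mono h).trans ?_
  rw [Ideal.map_pow]
  refine Ideal.pow_right_mono ?_ n
  rw [Ideal.map_le_iff_le_comap]
  intro a ha
  rw [Ideal.mem_comap, mem_maximalIdeal, mem_nonunits_iff, MvPowerSeries.isUnit_iff_constantCoeff,
    MvPowerSeries.constantCoeff_C]
  exact ha

variable {S₀ Rn B R : Type} [CommRing S₀] [CommRing Rn] [CommRing B] [CommRing R]
  [Algebra S₀ R] {σ : Type} [Algebra (MvPowerSeries σ S₀) R]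
  {ι : Type} {M : ι → Type} [∀ τ, AddCommGroup (M τ)] [∀ τ, Module S₀ (M τ)]
  [∀ τ, Module (MvPowerSeries σ S₀) (M τ)]
  [∀ τ, Module R (M τ)] [∀ τ, IsScalarTower S₀ R (M τ)] {d : ι → ℕ} {I₀ J₀ : Ideal S₀}

/-- The ideal of power series with constant coefficient in `J₀`. -/
noncomputable def ccIdeal (σ : Type) (J₀ : Ideal S₀) : Ideal (MvPowerSeries σ S₀) :=
  J₀.comap (MvPowerSeries.constantCoeff (σ := σ) (R := S₀))

/-- **Framing step.** -/
noncomputable def KLevel.frame (L : KLevel S₀ Rn R M d I₀ J₀) (hIJ : I₀ ≤ J₀)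
    (hSR : ∀ s : MvPowerSeries σ S₀, algebraMap (MvPowerSeries σ S₀) R s =
      algebraMap S₀ R (MvPowerSeries.constantCoeff s))
    (γ : B →+* MvPowerSeries σ Rn) (hγ : Function.Surjective γ)
    (φ : MvPowerSeries σ S₀ →+* B)
    (hφ : ∀ s, γ (φ s) = MvPowerSeries.map L.φ s) :
    KLevel (MvPowerSeries σ S₀) B R M d (psIdeal σ I₀) (ccIdeal σ J₀) :=
  letI : ∀ τ, Module B (PSMod σ (L.N τ)) := fun τ => Module.compHom _ γ
  have hact : ∀ (τ : ι) (s : MvPowerSeries σ S₀) (m : L.N τ) (n : σ →₀ ℕ),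
      (φ s • PSMod.C σ m : PSMod σ (L.N τ)).coeff n = L.φ (MvPowerSeries.coeff n s) • m := by
    intro τ s m n
    have h1 : (φ s • PSMod.C σ m : PSMod σ (L.N τ)) = γ (φ s) • PSMod.C σ m := rfl
    rw [h1, hφ, PSMod.coeff_smul_C, MvPowerSeries.coeff_map]
  { N := fun τ => PSMod σ (L.N τ)
    φ := φ
    ψ := L.ψ.comp ((MvPowerSeries.constantCoeff (σ := σ) (R := Rn)).comp γ)
    ψ_surjective := by
      intro y
      obtain ⟨x, rfl⟩ := L.ψ_surjective y
      obtain ⟨b, hb⟩ := hγ (MvPowerSeries.C x)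
      refine ⟨b, ?_⟩
      rw [RingHom.comp_apply, RingHom.comp_apply, hb, MvPowerSeries.constantCoeff_C]
    ψ_φ := by
      intro s
      rw [RingHom.comp_apply, RingHom.comp_apply, hφ, hSR, ← L.ψ_φ,
        MvPowerSeries.constantCoeff_map]
    π := fun τ =>
      { toFun := fun x => L.π τ (x.coeff 0)
        map_zero' := by rw [PSMod.coeff_zero, map_zero]
        map_add' := fun x y => by rw [PSMod.coeff_add, map_add] }
    π_smul := by
      intro τ f x
      have h1 : (f • x : PSMod σ (L.N τ)) = γ f • x := rfl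
      show L.π τ ((f • x).coeff 0) = _
      rw [h1, PSMod.coeff_zero_smul, L.π_smul]
      rfl
    π_surjective := by
      intro τ m
      obtain ⟨x, rfl⟩ := L.π_surjective τ m
      refine ⟨PSMod.C σ x, ?_⟩
      show L.π τ ((PSMod.C σ x).coeff 0) = _
      simp [PSMod.C]
    ker_π := by
      intro τ x hx
      choose c hc using fun n => L.b_span τ (x.coeff n)
      have h1 : x = ∑ i, φ (mkPS fun n => c n i) • PSMod.C σ (L.b τ i) := by
        refine PSMod.ext fun n => ?_
        rw [PSMod.coeff_sum, hc n]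
        exact Finset.sum_congr rfl fun i _ => by rw [hact, coeff_mkPS]
      have h2 : L.π τ (x.coeff 0) = 0 := hx
      have h3 := L.ker_π τ _ h2
      rw [hc 0, sum_mem_iff, sup_eq_left.mpr hIJ] at h3
      rw [h1]
      refine Submodule.sum_mem _ fun i _ =>
        Submodule.smul_mem_smul (Ideal.mem_map_of_mem _ ?_) trivial
      exact h3 i
    b := fun τ i => PSMod.C σ (L.b τ i)
    b_span := by
      intro τ x
      choose c hc using fun n => L.b_span τ (x.coeff n)
      refine ⟨fun i => mkPS fun n => c n i, ?_⟩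
      refine PSMod.ext fun n => ?_
      rw [PSMod.coeff_sum, hc n]
      exact Finset.sum_congr rfl fun i _ => by rw [hact, coeff_mkPS]
    b_rel := by
      intro τ c
      have h1 : ∀ n, (∑ i, φ (c i) • PSMod.C σ (L.b τ i) : PSMod σ (L.N τ)).coeff n =
          ∑ i, L.φ (MvPowerSeries.coeff n (c i)) • L.b τ i := by
        intro n
        rw [PSMod.coeff_sum]
        exact Finset.sum_congr rfl fun i _ => hact τ _ _ n
      constructor
      · intro h i n
        have h2 := h1 n
        rw [h, PSMod.coeff_zero] at h2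
        exact (L.b_rel τ _).mp h2.symm i
      · intro h
        refine PSMod.ext fun n => ?_
        rw [h1, PSMod.coeff_zero]
        exact (L.b_rel τ _).mpr fun i => h i n }

end Frame

end Fermat.Agent.H69.KP
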