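/-
Lifting of homomorphisms out of power series rings through surjections of complete local rings,
and the framing step of patching in existence form.
-/
import Fermat.Agent.H69KFrame
import Fermat.Agent.H69KLimit
import Fermat.Agent.H56PowerSeries

set_option autoImplicit false
set_option linter.style.haveILetI false

namespace Fermat.Agent.H69.KP

open IsLocalRing

section Ext

variable {O C : Type*} [CommRing O] [CommRing C] {r : ℕ}

/-- every power series is a polynomial modulo `(X)ⁿ` -/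
lemma exists_poly_sub_mem (n : ℕ) (h : MvPowerSeries (Fin r) O) :
    ∃ p : MvPolynomial (Fin r) O, h - (p : MvPowerSeries (Fin r) O) ∈
      (Ideal.span (Set.range fun s : Fin r => (MvPowerSeries.X s : MvPowerSeries (Fin r) O))) ^ n := by
  induction n generalizing h with
  | zero => exact ⟨0, by simp⟩
  | succ n ih =>
    have h1 : h - MvPowerSeries.C (MvPowerSeries.constantCoeff h) ∈
        Ideal.span (Set.range fun s : Fin r =>
          (MvPowerSeries.X s : MvPowerSeries (Fin r) O)) := by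
      rw [Fermat.Agent.H68.mem_span_range_X_iff]
      simp
    obtain ⟨c, hc⟩ := (Ideal.mem_span_range_iff_exists_fun).mp h1
    choose p hp using fun i => ih (c i)
    refine ⟨MvPolynomial.C (MvPowerSeries.constantCoeff h) +
      ∑ i, p i * MvPolynomial.X i, ?_⟩
    have h2 : h - ((MvPolynomial.C (MvPowerSeries.constantCoeff h) +
        ∑ i, p i * MvPolynomial.X i : MvPolynomial (Fin r) O) : MvPowerSeries (Fin r) O) =
        ∑ i, (c i - (p i : MvPowerSeries (Fin r) O)) * MvPowerSeries.X i := by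
      have h3 : ((MvPolynomial.C (MvPowerSeries.constantCoeff h) +
        ∑ i, p i * MvPolynomial.X i : MvPolynomial (Fin r) O) : MvPowerSeries (Fin r) O) =
        MvPowerSeries.C (MvPowerSeries.constantCoeff h) +
          ∑ i, (p i : MvPowerSeries (Fin r) O) * MvPowerSeries.X i := by
        rw [MvPolynomial.coe_add, MvPolynomial.coe_C]
        congr 1
        have h4 : ∀ q : MvPolynomial (Fin r) O, (q : MvPowerSeries (Fin r) O) =
            MvPolynomial.coeToMvPowerSeries.ringHom q := fun q => rfl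
        rw [h4, map_sum]
        exact Finset.sum_congr rfl fun i _ => by
          rw [map_mul, MvPolynomial.coeToMvPowerSeries.ringHom_apply,
            MvPolynomial.coeToMvPowerSeries.ringHom_apply, MvPolynomial.coe_X]
      rw [h3, ← sub_sub, ← hc]
      simp only [sub_mul, Finset.sum_sub_distrib]
    rw [h2, pow_succ]
    exact Ideal.sum_mem _ fun i _ =>
      Ideal.mul_mem_mul (hp i) (Ideal.subset_span ⟨i, rfl⟩)

/-- Ring homomorphisms out of a power series ring into a separated ring are determined by their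
values on constants and variables. -/
lemma ringHom_ext_of_X (I : Ideal C) [IsHausdorff I C] {f g : MvPowerSeries (Fin r) O →+* C}
    (hC : ∀ a, f (MvPowerSeries.C a) = g (MvPowerSeries.C a))
    (hX : ∀ i, f (MvPowerSeries.X i) = g (MvPowerSeries.X i))
    (hI : ∀ i, f (MvPowerSeries.X i) ∈ I) : f = g := by
  have hpoly : ∀ p : MvPolynomial (Fin r) O, f (p : MvPowerSeries (Fin r) O) =
      g (p : MvPowerSeries (Fin r) O) := by
    intro p
    have h1 : f.comp MvPolynomial.coeToMvPowerSeries.ringHom =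
        g.comp MvPolynomial.coeToMvPowerSeries.ringHom := by
      refine MvPolynomial.ringHom_ext ?_ ?_
      · intro a
        simpa using hC a
      · intro i
        simpa using hX i
    exact RingHom.congr_fun h1 p
  have hmem : ∀ (F : MvPowerSeries (Fin r) O →+* C) (_ : ∀ i, F (MvPowerSeries.X i) ∈ I) (n : ℕ),
      ∀ x ∈ (Ideal.span (Set.range fun s : Fin r =>
        (MvPowerSeries.X s : MvPowerSeries (Fin r) O))) ^ n, F x ∈ I ^ n := by
    intro F hF n
    refine pow_le_comap_pow F ?_ n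
    rw [Ideal.span_le]
    rintro _ ⟨i, rfl⟩
    exact hF i
  ext x
  rw [← sub_eq_zero]
  refine IsHausdorff.haus (I := I) inferInstance _ fun n => ?_
  rw [SModEq.sub_mem, sub_zero, smul_eq_mul, Ideal.mul_top]
  obtain ⟨p, hp⟩ := exists_poly_sub_mem n x
  have h1 := hmem f hI n _ hp
  have h2 := hmem g (fun i => by rw [← hX]; exact hI i) n _ hp
  rw [map_sub] at h1 h2
  have h3 := Ideal.sub_mem _ h1 h2
  rw [hpoly] at h3
  simpa using h3

end Ext

section Lift

variable {O B C : Type*} [CommRing O] [CommRing B] [CommRing C] [IsLocalRing B]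
  [IsLocalRing C] [IsAdicComplete (maximalIdeal B) B] [IsAdicComplete (maximalIdeal C) C]
  {r : ℕ}

/-- lifting through a surjection, one block of variables -/
lemma exists_lift_one (γ : B →+* C) (hγ : Function.Surjective γ)
    (θ : MvPowerSeries (Fin r) O →+* C) (hθ : ∀ i, θ (MvPowerSeries.X i) ∈ maximalIdeal C)
    (a : O →+* B) (ha : ∀ x, γ (a x) = θ (MvPowerSeries.C x)) :
    ∃ φ : MvPowerSeries (Fin r) O →+* B, (∀ s, γ (φ s) = θ s) ∧
      (∀ x, φ (MvPowerSeries.C x) = a x) := by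
  choose b hb using fun i => hγ (θ (MvPowerSeries.X i))
  have hbm : ∀ i, b i ∈ maximalIdeal B := by
    intro i
    rw [mem_maximalIdeal, mem_nonunits_iff]
    intro hu
    have h1 := hθ i
    rw [← hb i, mem_maximalIdeal, mem_nonunits_iff] at h1
    exact h1 (hu.map γ)
  letI : Algebra O B := a.toAlgebra
  obtain ⟨φ, hφ⟩ := Fermat.Agent.H56.exists_mvPowerSeries_eval (O := O) (maximalIdeal B) b hbm
  have hC : ∀ x, φ (MvPowerSeries.C x) = a x := fun x => φ.commutes x
  have h1 : γ.comp (φ : MvPowerSeries (Fin r) O →+* B) = θ := by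
    refine ringHom_ext_of_X (maximalIdeal C) ?_ ?_ ?_
    · intro x
      rw [RingHom.comp_apply, RingHom.coe_coe, hC, ha]
    · intro i
      rw [RingHom.comp_apply, RingHom.coe_coe, hφ, hb]
    · intro i
      rw [RingHom.comp_apply, RingHom.coe_coe, hφ, hb]
      exact hθ i
  exact ⟨φ, fun s => RingHom.congr_fun h1 s, hC⟩

/-- lifting through a surjection, two blocks of variables -/
lemma exists_lift_two {t : ℕ} (γ : B →+* C) (hγ : Function.Surjective γ)
    (θ : MvPowerSeries (Fin t) (MvPowerSeries (Fin r) O) →+* C)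
    (hθz : ∀ i, θ (MvPowerSeries.X i) ∈ maximalIdeal C)
    (hθy : ∀ j, θ (MvPowerSeries.C (MvPowerSeries.X j)) ∈ maximalIdeal C)
    (a : O →+* B) (ha : ∀ x, γ (a x) = θ (MvPowerSeries.C (MvPowerSeries.C x))) :
    ∃ φ : MvPowerSeries (Fin t) (MvPowerSeries (Fin r) O) →+* B, (∀ s, γ (φ s) = θ s) ∧
      (∀ x, φ (MvPowerSeries.C (MvPowerSeries.C x)) = a x) := by
  obtain ⟨φ₀, h1, h2⟩ := exists_lift_one γ hγ (θ.comp MvPowerSeries.C) hθy a ha
  obtain ⟨φ, h3, h4⟩ := exists_lift_one γ hγ θ hθz φ₀ h1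
  exact ⟨φ, h3, fun x => by rw [h4, h2]⟩

end Lift

section FrameTransfer

variable {S₀ Rn B R : Type} [CommRing S₀] [CommRing Rn] [CommRing B] [CommRing R]
  [Algebra S₀ R] {σ : Type} [Algebra (MvPowerSeries σ S₀) R]
  {ι : Type} {M : ι → Type} [∀ τ, AddCommGroup (M τ)] [∀ τ, Module S₀ (M τ)]
  [∀ τ, Module (MvPowerSeries σ S₀) (M τ)]
  [∀ τ, Module R (M τ)] {d : ι → ℕ} {I₀ J₀ : Ideal S₀}

lemma mem_map_C_sup_iff [IsNoetherianRing S₀] (σ : Type) {K₀ I₀ : Ideal S₀}
    {x : MvPowerSeries σ S₀} :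
    x ∈ K₀.map (MvPowerSeries.C (σ := σ) (R := S₀)) ⊔ psIdeal σ I₀ ↔
      ∀ n, MvPowerSeries.coeff n x ∈ K₀ ⊔ I₀ := by
  rw [psIdeal_eq_map σ (IsNoetherian.noetherian I₀), ← Ideal.map_sup,
    ← psIdeal_eq_map σ (IsNoetherian.noetherian (K₀ ⊔ I₀)), mem_psIdeal]

variable (L : KLevel S₀ Rn R M d I₀ J₀) (hIJ : I₀ ≤ J₀)
    (hSR : ∀ s : MvPowerSeries σ S₀, algebraMap (MvPowerSeries σ S₀) R s =
      algebraMap S₀ R (MvPowerSeries.constantCoeff s))
    (γ : B →+* MvPowerSeries σ Rn) (hγ : Function.Surjective γ)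
    (φ : MvPowerSeries σ S₀ →+* B)
    (hφ : ∀ s, γ (φ s) = MvPowerSeries.map L.φ s)

lemma Θ_frame (τ : ι) (f : B) (i j : Fin (d τ)) :
    Θ (L.frame hIJ hSR γ hγ φ hφ) τ f i j -
      mkPS (fun n => Θ L τ (MvPowerSeries.coeff n (γ f)) i j) ∈ psIdeal σ I₀ := by
  have h1 := Θ_spec (L.frame hIJ hSR γ hγ φ hφ) τ f j
  refine sub_mem_of_eq (L.frame hIJ hSR γ hγ φ hφ) (τ := τ)
    (c := fun i => Θ (L.frame hIJ hSR γ hγ φ hφ) τ f i j)
    (c' := fun i => mkPS (fun n => Θ L τ (MvPowerSeries.coeff n (γ f)) i j)) (h1.symm.trans ?_) i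
  letI : ∀ τ, Module B (PSMod σ (L.N τ)) := fun τ => Module.compHom _ γ
  have hact : ∀ (f : B) (m : L.N τ) (n : σ →₀ ℕ),
      (f • PSMod.C σ m : PSMod σ (L.N τ)).coeff n = MvPowerSeries.coeff n (γ f) • m := by
    intro f m n
    have h1 : (f • PSMod.C σ m : PSMod σ (L.N τ)) = γ f • PSMod.C σ m := rfl
    rw [h1, PSMod.coeff_smul_C]
  show (f • PSMod.C σ (L.b τ j) : PSMod σ (L.N τ)) =
    ∑ i, φ (mkPS (fun n => Θ L τ (MvPowerSeries.coeff n (γ f)) i j)) • PSMod.C σ (L.b τ i)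
  refine PSMod.ext fun n => ?_
  rw [hact, Θ_spec, PSMod.coeff_sum]
  refine Finset.sum_congr rfl fun i _ => ?_
  rw [hact, hφ, MvPowerSeries.coeff_map, coeff_mkPS]

lemma frame_smul_mem [IsNoetherianRing S₀] (τ : ι) (K₀ : Ideal S₀) (f : B)
    (h : ∀ n (x : L.N τ), MvPowerSeries.coeff n (γ f) • x ∈
      (K₀.map L.φ • ⊤ : Submodule Rn (L.N τ)))
    (x : (L.frame hIJ hSR γ hγ φ hφ).N τ) :
    f • x ∈ ((K₀.map (MvPowerSeries.C (σ := σ) (R := S₀))).map
      (L.frame hIJ hSR γ hγ φ hφ).φ • ⊤ :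
        Submodule B ((L.frame hIJ hSR γ hγ φ hφ).N τ)) := by
  refine smul_mem_of_Θ_mem (L.frame hIJ hSR γ hγ φ hφ) τ f (fun i j => ?_) x
  rw [mem_map_C_sup_iff]
  intro n
  have h1 := Θ_frame L hIJ hSR γ hγ φ hφ τ f i j n
  rw [map_sub, coeff_mkPS] at h1
  have h2 := Θ_mem_of_smul_mem L τ _ (h n) i j
  have h3 := Ideal.add_mem _ (Ideal.mem_sup_right (S := K₀) h1) h2
  simpa using h3

lemma frame_nonempty_equiv [IsNoetherianRing S₀] (τ τ' : ι) (K₀ : Ideal S₀)
    (h : Nonempty ((L.N τ ⧸ (K₀.map L.φ • ⊤ : Submodule Rn (L.N τ))) ≃ₗ[Rn]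
      (L.N τ' ⧸ (K₀.map L.φ • ⊤ : Submodule Rn (L.N τ'))))) :
    Nonempty (((L.frame hIJ hSR γ hγ φ hφ).N τ ⧸
        ((K₀.map (MvPowerSeries.C (σ := σ) (R := S₀))).map
          (L.frame hIJ hSR γ hγ φ hφ).φ • ⊤ :
            Submodule B ((L.frame hIJ hSR γ hγ φ hφ).N τ))) ≃ₗ[B]
      ((L.frame hIJ hSR γ hγ φ hφ).N τ' ⧸
        ((K₀.map (MvPowerSeries.C (σ := σ) (R := S₀))).map
          (L.frame hIJ hSR γ hγ φ hφ).φ • ⊤ :
            Submodule B ((L.frame hIJ hSR γ hγ φ hφ).N τ')))) := by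
  classical
  obtain ⟨e⟩ := h
  obtain ⟨A, C, hAC⟩ := exists_intertwining L e
  have key : ∀ {τ τ' : ι} (A : Fin (d τ') → Fin (d τ) → S₀)
      (_ : ∀ f i j, ∑ l, A i l * Θ L τ f l j - ∑ l, Θ L τ' f i l * A l j ∈ K₀ ⊔ I₀) (f : B)
      (i : Fin (d τ')) (j : Fin (d τ)),
      ∑ l, MvPowerSeries.C (A i l) * Θ (L.frame hIJ hSR γ hγ φ hφ) τ f l j -
        ∑ l, Θ (L.frame hIJ hSR γ hγ φ hφ) τ' f i l * MvPowerSeries.C (A l j) ∈
      K₀.map (MvPowerSeries.C (σ := σ) (R := S₀)) ⊔ psIdeal σ I₀ := by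
    intro τ τ' A hA f i j
    rw [mem_map_C_sup_iff]
    intro n
    have h1 : ∀ (τ : ι) (l j : Fin (d τ)), ∃ w ∈ I₀,
        MvPowerSeries.coeff n (Θ (L.frame hIJ hSR γ hγ φ hφ) τ f l j) =
          Θ L τ (MvPowerSeries.coeff n (γ f)) l j + w := by
      intro τ l j
      have h1 := Θ_frame L hIJ hSR γ hγ φ hφ τ f l j n
      rw [map_sub, coeff_mkPS] at h1
      exact ⟨_, h1, by ring⟩
    choose w hw hw' using h1
    simp only [map_sub, map_sum, MvPowerSeries.coeff_C_mul, MvPowerSeries.coeff_mul_C, hw',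
      mul_add, add_mul, Finset.sum_add_distrib]
    have h2 := hA (MvPowerSeries.coeff n (γ f)) i j
    have h3 : ∑ l, A i l * w τ l j ∈ I₀ :=
      Ideal.sum_mem _ fun l _ => Ideal.mul_mem_left _ _ (hw _ _ _)
    have h4 : ∑ l, w τ' i l * A l j ∈ I₀ :=
      Ideal.sum_mem _ fun l _ => Ideal.mul_mem_right _ _ (hw _ _ _)
    have h5 := Ideal.add_mem _ h2 (Ideal.mem_sup_right (S := K₀) (Ideal.sub_mem _ h3 h4))
    convert h5 using 1
    ring
  have key2 : ∀ {τ τ' : ι} (A : Fin (d τ') → Fin (d τ) → S₀) (C : Fin (d τ) → Fin (d τ') → S₀)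
      (_ : ∀ i j, ∑ l, C i l * A l j - (if i = j then 1 else 0) ∈ K₀ ⊔ I₀)
      (i : Fin (d τ)) (j : Fin (d τ)),
      ∑ l, MvPowerSeries.C (C i l) * MvPowerSeries.C (A l j) - (if i = j then 1 else 0) ∈
        K₀.map (MvPowerSeries.C (σ := σ) (R := S₀)) ⊔ psIdeal σ I₀ := by
    intro τ τ' A C hAC i j
    have h1 : ∑ l, MvPowerSeries.C (C i l) * MvPowerSeries.C (A l j) -
        (if i = j then 1 else 0) = MvPowerSeries.C (σ := σ) (R := S₀)
          (∑ l, C i l * A l j - (if i = j then 1 else 0)) := by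
      rw [map_sub, map_sum]
      congr 1
      · exact Finset.sum_congr rfl fun l _ => by rw [map_mul]
      · split_ifs <;> simp
    rw [h1, mem_map_C_sup_iff]
    intro n
    rw [MvPowerSeries.coeff_C]
    by_cases hn : n = 0
    · rw [if_pos hn]
      exact hAC i j
    · rw [if_neg hn]
      exact Ideal.zero_mem _
  exact nonempty_equiv_of_intertwining (L.frame hIJ hSR γ hγ φ hφ)
    (A := fun i j => MvPowerSeries.C (A i j)) (C := fun i j => MvPowerSeries.C (C i j))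
    ⟨fun f i j => key A hAC.comm f i j, fun f i j => key C hAC.comm' f i j,
      fun i j => key2 A C hAC.left i j, fun i j => key2 C A hAC.right i j⟩

end FrameTransfer

section Patched

variable {O : Type} [CommRing O] [IsLocalRing O] [IsNoetherianRing O]
  [IsAdicComplete (maximalIdeal O) O] [Finite (ResidueField O)] {r t : ℕ}
  {B : Type} [CommRing B] [IsLocalRing B] [IsNoetherianRing B]
  [IsAdicComplete (maximalIdeal B) B] [Finite (ResidueField B)]
  {R : Type} [CommRing R] [IsLocalRing R] [Algebra (MvPowerSeries (Fin r) O) R]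
  [IsLocalHom (algebraMap (MvPowerSeries (Fin r) O) R)]
  [Algebra (MvPowerSeries (Fin t) (MvPowerSeries (Fin r) O)) R]
  {ι : Type} {M : ι → Type} [∀ τ, AddCommGroup (M τ)]
  [∀ τ, Module (MvPowerSeries (Fin r) O) (M τ)]
  [∀ τ, Module (MvPowerSeries (Fin t) (MvPowerSeries (Fin r) O)) (M τ)]
  [∀ τ, Module R (M τ)]
  [∀ τ, IsScalarTower (MvPowerSeries (Fin t) (MvPowerSeries (Fin r) O)) R (M τ)]
  {d : ι → ℕ} {I₀ : ℕ → Ideal (MvPowerSeries (Fin r) O)} {J₀ : Ideal (MvPowerSeries (Fin r) O)}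
  {Rn : ℕ → Type} [∀ n, CommRing (Rn n)] [∀ n, IsLocalRing (Rn n)]
  [∀ n, IsNoetherianRing (Rn n)] [∀ n, IsAdicComplete (maximalIdeal (Rn n)) (Rn n)]

open MvPowerSeries in
/-- **Patching with framing.** From unframed levels over `Rₙ` (modules free over
`O⟦y₁,…,y_r⟧/I₀ n`) and surjections `B ↠ Rₙ⟦z₁,…,z_t⟧`, produce a patched level with trivial
relation ideal over `O⟦y⟧⟦z⟧`. -/
theorem exists_patched
    (hSR : ∀ s : MvPowerSeries (Fin t) (MvPowerSeries (Fin r) O),
      algebraMap (MvPowerSeries (Fin t) (MvPowerSeries (Fin r) O)) R s =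
        algebraMap (MvPowerSeries (Fin r) O) R (constantCoeff s))
    (hI : ∀ n, I₀ n ≤ maximalIdeal (MvPowerSeries (Fin r) O) ^ n) (hIJ : ∀ n, I₀ n ≤ J₀)
    (hJ : ∀ s ∈ J₀, algebraMap (MvPowerSeries (Fin r) O) R s = 0)
    (L : ∀ n, KLevel (MvPowerSeries (Fin r) O) (Rn n) R M d (I₀ n) J₀)
    (γ : ∀ n, B →+* MvPowerSeries (Fin t) (Rn n)) (hγ : ∀ n, Function.Surjective (γ n))
    (a : O →+* B) (ha : ∀ n x, γ n (a x) = C ((L n).φ (C x)))
    (hy : ∀ n j, (L n).φ (X j) ∈ maximalIdeal (Rn n)) :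
    ∃ L' : KLevel (MvPowerSeries (Fin t) (MvPowerSeries (Fin r) O)) B R M d ⊥
        (ccIdeal (Fin t) J₀),
      (∀ x, L'.φ (C (C x)) = a x) ∧
      (∀ (f : B) (y : R), (∀ n, (L n).ψ (constantCoeff (γ n f)) = y) → L'.ψ f = y) ∧
      (∀ τ (K₀ : Ideal (MvPowerSeries (Fin r) O)) (f : B),
        (∀ n m (x : (L n).N τ), coeff m (γ n f) • x ∈
          (K₀.map (L n).φ • ⊤ : Submodule (Rn n) ((L n).N τ))) →
        ∀ x : L'.N τ, f • x ∈ ((K₀.map (C (σ := Fin t))).map L'.φ • ⊤ :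
          Submodule B (L'.N τ))) ∧
      (∀ τ τ' (K₀ : Ideal (MvPowerSeries (Fin r) O)),
        (∀ n, Nonempty (((L n).N τ ⧸ (K₀.map (L n).φ • ⊤ : Submodule (Rn n) ((L n).N τ)))
          ≃ₗ[Rn n] ((L n).N τ' ⧸ (K₀.map (L n).φ • ⊤ : Submodule (Rn n) ((L n).N τ'))))) →
        Nonempty ((L'.N τ ⧸ ((K₀.map (C (σ := Fin t))).map L'.φ • ⊤ : Submodule B (L'.N τ)))
          ≃ₗ[B]
          (L'.N τ' ⧸ ((K₀.map (C (σ := Fin t))).map L'.φ • ⊤ : Submodule B (L'.N τ'))))) := by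
  have i1 : IsAdicComplete (maximalIdeal (MvPowerSeries (Fin r) O)) (MvPowerSeries (Fin r) O) :=
    Fermat.Agent.H57.isAdicComplete_mvPowerSeries_fin O r
  have i2 : Finite (ResidueField (MvPowerSeries (Fin r) O)) :=
    Fermat.Agent.H57.finite_residueField_mvPowerSeries O (Fin r)
  have i3 : IsAdicComplete (maximalIdeal (MvPowerSeries (Fin t) (MvPowerSeries (Fin r) O)))
      (MvPowerSeries (Fin t) (MvPowerSeries (Fin r) O)) :=
    Fermat.Agent.H57.isAdicComplete_mvPowerSeries_fin _ t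
  have i4 : Finite (ResidueField (MvPowerSeries (Fin t) (MvPowerSeries (Fin r) O))) :=
    Fermat.Agent.H57.finite_residueField_mvPowerSeries _ (Fin t)
  have i5 : ∀ n, IsAdicComplete (maximalIdeal (MvPowerSeries (Fin t) (Rn n)))
      (MvPowerSeries (Fin t) (Rn n)) := fun n =>
    Fermat.Agent.H57.isAdicComplete_mvPowerSeries_fin _ t
  have i6 : IsLocalHom (algebraMap (MvPowerSeries (Fin t) (MvPowerSeries (Fin r) O)) R) := by
    constructor
    intro s hs
    rw [hSR] at hs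
    exact MvPowerSeries.isUnit_iff_constantCoeff.mpr (isUnit_of_map_unit _ _ hs)
  -- lifts of the structure map
  have hlift : ∀ n, ∃ φ : MvPowerSeries (Fin t) (MvPowerSeries (Fin r) O) →+* B,
      (∀ s, γ n (φ s) = MvPowerSeries.map (L n).φ s) ∧ (∀ x, φ (C (C x)) = a x) := by
    intro n
    refine exists_lift_two (γ n) (hγ n) (MvPowerSeries.map (L n).φ) ?_ ?_ a ?_
    · intro i
      rw [MvPowerSeries.map_X, mem_maximalIdeal, mem_nonunits_iff,
        MvPowerSeries.isUnit_iff_constantCoeff, constantCoeff_X]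
      exact not_isUnit_zero
    · intro j
      rw [MvPowerSeries.map_C, mem_maximalIdeal, mem_nonunits_iff,
        MvPowerSeries.isUnit_iff_constantCoeff, constantCoeff_C]
      exact hy n j
    · intro x
      rw [ha, MvPowerSeries.map_C]
  choose φ hφ hφa using hlift
  let F : ∀ n, KLevel (MvPowerSeries (Fin t) (MvPowerSeries (Fin r) O)) B R M d
      (psIdeal (Fin t) (I₀ n)) (ccIdeal (Fin t) J₀) := fun n =>
    (L n).frame (hIJ n) hSR (γ n) (hγ n) (φ n) (hφ n)
  obtain ⟨L', h1, h2, h3, h4⟩ := exists_limit (fun n => psIdeal_le_pow (Fin t) (hI n)) (by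
    intro n s hs
    exact hIJ n (hs 0)) (by
    intro s hs
    rw [hSR]
    exact hJ _ hs) F
  refine ⟨L', ?_, ?_, ?_, ?_⟩
  · intro x
    exact h1 _ _ fun n => hφa n x
  · intro f y hf
    exact h2 _ _ hf
  · intro τ K₀ f hf
    refine h3 τ _ f fun n x => ?_
    exact frame_smul_mem (L n) (hIJ n) hSR (γ n) (hγ n) (φ n) (hφ n) τ K₀ f (hf n) x
  · intro τ τ' K₀ hK
    refine h4 τ τ' _ fun n => ?_
    exact frame_nonempty_equiv (L n) (hIJ n) hSR (γ n) (hγ n) (φ n) (hφ n) τ τ' K₀ (hK n)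

end Patched

end Fermat.Agent.H69.KP
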