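/-
Construction of unframed patching levels from a rank count.
-/
import Fermat.Agent.H69KLift
import Mathlib.Algebra.CharP.Lemmas

set_option autoImplicit false
set_option linter.style.haveILetI false

namespace Fermat.Agent.H69.KP

open IsLocalRing MvPowerSeries

section Reduce

variable {O : Type} [CommRing O] {r : ℕ}

/-- decomposition of a power series into small exponents and multiples of `X_j ^ e_j` -/
lemma exists_decomp (e : Fin r → ℕ) (g : MvPowerSeries (Fin r) O) :
    ∃ g' : Fin r → MvPowerSeries (Fin r) O,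
      g = ∑ α : (∀ j, Fin (e j)), C (coeff (Finsupp.equivFunOnFinite.symm fun j => (α j : ℕ)) g) *
          monomial (Finsupp.equivFunOnFinite.symm fun j => (α j : ℕ)) 1 +
        ∑ j, X j ^ e j * g' j := by
  classical
  -- the least index with large exponent
  let P : (Fin r →₀ ℕ) → Fin r → Prop := fun m j => e j ≤ m j ∧ ∀ i < j, m i < e i
  refine ⟨fun j => mkPS fun m => if P (m + Finsupp.single j (e j)) j then
    coeff (m + Finsupp.single j (e j)) g else 0, ?_⟩
  ext m
  rw [map_add, map_sum, map_sum]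
  have h2 : ∀ j, coeff m (X j ^ e j * mkPS (fun m => if P (m + Finsupp.single j (e j)) j then
      coeff (m + Finsupp.single j (e j)) g else 0)) = if P m j then coeff m g else 0 := by
    intro j
    rw [X_pow_eq, coeff_monomial_mul, one_mul]
    by_cases h : Finsupp.single j (e j) ≤ m
    · rw [if_pos h, coeff_mkPS, tsub_add_cancel_of_le h]
    · rw [if_neg h, if_neg]
      rintro ⟨h3, -⟩
      exact h (Finsupp.single_le_iff.mpr h3)
  rw [Finset.sum_congr rfl fun j _ => h2 j]
  have h1 : ∀ α : (∀ j, Fin (e j)), coeff m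
      (C (coeff (Finsupp.equivFunOnFinite.symm fun j => (α j : ℕ)) g) *
        monomial (Finsupp.equivFunOnFinite.symm fun j => (α j : ℕ)) 1) =
      if m = Finsupp.equivFunOnFinite.symm (fun j => (α j : ℕ)) then coeff m g else 0 := by
    intro α
    rw [coeff_C_mul, coeff_monomial]
    split_ifs with h
    · rw [mul_one, h]
    · rw [mul_zero]
  rw [Finset.sum_congr rfl fun α _ => h1 α]
  by_cases hm : ∀ j, m j < e j
  · have h3 : m = Finsupp.equivFunOnFinite.symm
        (fun j => ((⟨m j, hm j⟩ : Fin (e j)) : ℕ)) := by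
      ext j
      simp
    rw [Finset.sum_eq_single (fun j => ⟨m j, hm j⟩), if_pos h3, Finset.sum_eq_zero, add_zero]
    · intro j _
      rw [if_neg]
      rintro ⟨h4, -⟩
      exact absurd (hm j) (not_lt.mpr h4)
    · intro α _ hα
      rw [if_neg]
      intro h4
      apply hα
      funext j
      apply Fin.ext
      have := DFunLike.congr_fun h4 j
      simpa using this.symm
    · intro h
      exact absurd (Finset.mem_univ _) h
  · rw [Finset.sum_eq_zero, zero_add]
    · push Not at hm
      have hex : ∃ j, e j ≤ m j := hm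
      obtain ⟨j, hj, hmin⟩ : ∃ j, e j ≤ m j ∧ ∀ i < j, m i < e i := by
        let s : Finset (Fin r) := Finset.univ.filter fun j => e j ≤ m j
        have hs : s.Nonempty := by
          obtain ⟨j, hj⟩ := hex
          exact ⟨j, Finset.mem_filter.mpr ⟨Finset.mem_univ _, hj⟩⟩
        refine ⟨s.min' hs, (Finset.mem_filter.mp (s.min'_mem hs)).2, fun i hi => ?_⟩
        by_contra h
        push Not at h
        exact absurd (s.min'_le i (Finset.mem_filter.mpr ⟨Finset.mem_univ _, h⟩))
          (not_le.mpr hi)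
      rw [Finset.sum_eq_single j]
      · rw [if_pos ⟨hj, hmin⟩]
      · intro i _ hij
        rw [if_neg]
        rintro ⟨h4, h5⟩
        rcases lt_or_gt_of_ne hij with h | h
        · exact absurd (hmin i h) (not_lt.mpr h4)
        · exact absurd (h5 j h) (not_lt.mpr hj)
      · intro h
        exact absurd (Finset.mem_univ _) h
    · intro α _
      rw [if_neg]
      rintro h4
      apply hm
      intro j
      rw [h4]
      simp

end Reduce

section Generate

variable {O : Type} [CommRing O] [IsLocalRing O] [IsNoetherianRing O]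
  [IsAdicComplete (maximalIdeal O) O] {r p : ℕ}

/-- the relation ideal of a patching level -/
noncomputable def twIdeal (O : Type) [CommRing O] {r : ℕ} (e : Fin r → ℕ) :
    Ideal (MvPowerSeries (Fin r) O) :=
  Ideal.span (Set.range fun j : Fin r => ((1 + X j) ^ e j - 1 : MvPowerSeries (Fin r) O))

omit [IsLocalRing O] [IsNoetherianRing O] [IsAdicComplete (maximalIdeal O) O] in
lemma smul_mk (I : Ideal (MvPowerSeries (Fin r) O)) (a : O) (x : MvPowerSeries (Fin r) O) :
    a • Ideal.Quotient.mk I x = Ideal.Quotient.mk I (C a * x) := by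
  rw [← MvPowerSeries.smul_eq_C_mul]
  rfl

/-- `O⟦X⟧` is generated over `O` by the monomials with small exponents, modulo the relations. -/
lemma exists_reduced (hp : p.Prime) (hpO : (p : O) ∈ maximalIdeal O) (n : Fin r → ℕ)
    (g : MvPowerSeries (Fin r) O) :
    ∃ c : (∀ j, Fin (p ^ n j)) → O,
      g - ∑ α, C (c α) * monomial (Finsupp.equivFunOnFinite.symm fun j => (α j : ℕ)) 1 ∈
        twIdeal O (fun j => p ^ n j) := by
  classical
  set I := twIdeal O (r := r) (fun j => p ^ n j) with hI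
  let f : ((∀ j, Fin (p ^ n j)) → O) →ₗ[O] (MvPowerSeries (Fin r) O ⧸ I) :=
    Fintype.linearCombination O (fun α => Ideal.Quotient.mk I
      (monomial (Finsupp.equivFunOnFinite.symm fun j => (α j : ℕ)) 1))
  have hf : ∀ c, f c = Ideal.Quotient.mk I
      (∑ α, C (c α) * monomial (Finsupp.equivFunOnFinite.symm fun j => (α j : ℕ)) 1) := by
    intro c
    rw [Fintype.linearCombination_apply, map_sum]
    exact Finset.sum_congr rfl fun α _ => smul_mk I _ _
  have h1 : IsPrecomplete (maximalIdeal O) ((∀ j, Fin (p ^ n j)) → O) :=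
    (IsAdicComplete.of_module_finite (maximalIdeal O) _).toIsPrecomplete
  have h2 : IsHausdorff (maximalIdeal O) (MvPowerSeries (Fin r) O ⧸ I) := by
    constructor
    intro x hx
    have h3 : IsHausdorff (maximalIdeal (MvPowerSeries (Fin r) O))
        (MvPowerSeries (Fin r) O ⧸ I) := inferInstance
    refine h3.haus' x fun k => ?_
    have h4 := hx k
    rw [SModEq.sub_mem, sub_zero] at h4 ⊢
    have h5 : ∀ a ∈ maximalIdeal O ^ k, C (σ := Fin r) a ∈
        maximalIdeal (MvPowerSeries (Fin r) O) ^ k := by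
      refine pow_le_comap_pow (A := O) (B := MvPowerSeries (Fin r) O) (C (σ := Fin r)) ?_ k
      intro a ha
      rw [Ideal.mem_comap, mem_maximalIdeal, mem_nonunits_iff, isUnit_iff_constantCoeff,
        constantCoeff_C]
      exact ha
    refine Submodule.smul_induction_on h4 ?_ fun x y => Submodule.add_mem _
    intro a ha y _
    have h6 : a • y = C (σ := Fin r) a • y := by
      obtain ⟨y, rfl⟩ := Ideal.Quotient.mk_surjective y
      rw [smul_mk]
      rfl
    rw [h6]
    exact Submodule.smul_mem_smul (h5 a ha) trivial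
  have h7 : Function.Surjective
      (Submodule.mkQ (maximalIdeal O • ⊤ : Submodule O (MvPowerSeries (Fin r) O ⧸ I)) ∘ₗ f) := by
    intro y
    obtain ⟨y, rfl⟩ := Submodule.Quotient.mk_surjective _ y
    obtain ⟨g, rfl⟩ := Ideal.Quotient.mk_surjective y
    obtain ⟨g', hg'⟩ := exists_decomp (fun j => p ^ n j) g
    refine ⟨fun α => coeff (Finsupp.equivFunOnFinite.symm fun j => (α j : ℕ)) g, ?_⟩
    rw [LinearMap.comp_apply, Submodule.mkQ_apply, hf]
    refine ((Submodule.Quotient.eq _).mpr ?_).symm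
    rw [← map_sub]
    have h8 : g - ∑ α : (∀ j, Fin (p ^ n j)),
        C (coeff (Finsupp.equivFunOnFinite.symm fun j => (α j : ℕ)) g) *
        monomial (Finsupp.equivFunOnFinite.symm fun j => (α j : ℕ)) 1 =
        ∑ j, X j ^ (p ^ n j) * g' j := by
      rw [sub_eq_iff_eq_add, add_comm]
      exact hg'
    rw [h8, map_sum]
    refine Submodule.sum_mem _ fun j _ => ?_
    obtain ⟨q, hq⟩ := exists_add_pow_prime_pow_eq hp (1 : MvPowerSeries (Fin r) O) (X j) (n j)
    have h9 : X j ^ (p ^ n j) * g' j = ((1 + X j) ^ (p ^ n j) - 1) * g' j +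
        C (p : O) * (-(X j * q * g' j)) := by
      rw [hq, one_pow, map_natCast]
      ring
    have h10 : Ideal.Quotient.mk I (((1 + X j) ^ (p ^ n j) - 1) * g' j) = 0 :=
      Ideal.Quotient.eq_zero_iff_mem.mpr
        (Ideal.mul_mem_right _ _ (Ideal.subset_span ⟨j, rfl⟩))
    rw [h9, map_add, h10, zero_add, ← smul_mk]
    exact Submodule.smul_mem_smul hpO trivial
  have h12 := surjective_of_mkQ_comp_surjective (I := maximalIdeal O) h7
  obtain ⟨c, hc⟩ := h12 (Ideal.Quotient.mk I g)
  refine ⟨c, ?_⟩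
  rw [← Ideal.Quotient.eq_zero_iff_mem, map_sub, ← hf, hc, sub_self]

end Generate

section Level

variable {O : Type} [CommRing O] [IsLocalRing O] [IsNoetherianRing O]
  [IsAdicComplete (maximalIdeal O) O] {r p : ℕ}
  {RQ R : Type} [CommRing RQ] [CommRing R] [Algebra O RQ] [Algebra O R]

omit [IsNoetherianRing O] [IsAdicComplete (maximalIdeal O) O] in
/-- generators modulo the variables generate -/
lemma span_of_span_mod (φ : MvPowerSeries (Fin r) O →ₐ[O] RQ) {N : Type} [AddCommGroup N]
    [Module RQ N] [Module O N] [IsScalarTower O RQ N] [Module.Finite O N] {d : ℕ}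
    (b : Fin d → N)
    (hb : ∀ x : N, ∃ c : Fin d → O, x - ∑ i, c i • b i ∈
      (Ideal.span (Set.range fun j => φ (X j))) • (⊤ : Submodule RQ N)) (x : N) :
    ∃ c : Fin d → MvPowerSeries (Fin r) O, x = ∑ i, φ (c i) • b i := by
  letI : Module (MvPowerSeries (Fin r) O) N := Module.compHom N (φ : _ →+* RQ)
  have hsm : ∀ (s : MvPowerSeries (Fin r) O) (x : N), s • x = φ s • x := fun _ _ => rfl
  haveI : IsScalarTower O (MvPowerSeries (Fin r) O) N := ⟨fun a s x => by
    rw [hsm, hsm, map_smul, smul_assoc]⟩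
  haveI : Module.Finite (MvPowerSeries (Fin r) O) N :=
    Module.Finite.of_restrictScalars_finite O _ N
  set J : Ideal (MvPowerSeries (Fin r) O) :=
    Ideal.span (Set.range fun s : Fin r => (X s : MvPowerSeries (Fin r) O)) with hJ
  have hJm : J ≤ maximalIdeal (MvPowerSeries (Fin r) O) := by
    rw [hJ, Ideal.span_le]
    rintro _ ⟨j, rfl⟩
    rw [SetLike.mem_coe, mem_maximalIdeal, mem_nonunits_iff, isUnit_iff_constantCoeff,
      constantCoeff_X]
    exact not_isUnit_zero
  have hmem : ∀ y ∈ (Ideal.span (Set.range fun j => φ (X j))) • (⊤ : Submodule RQ N),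
      y ∈ (J • ⊤ : Submodule (MvPowerSeries (Fin r) O) N) := by
    intro y hy
    refine Submodule.smul_induction_on hy ?_ fun x y => Submodule.add_mem _
    intro a ha z _
    induction ha using Submodule.span_induction generalizing z with
    | mem a ha =>
      obtain ⟨j, rfl⟩ := ha
      exact Submodule.smul_mem_smul (Ideal.subset_span ⟨j, rfl⟩) trivial
    | zero => rw [zero_smul]; exact Submodule.zero_mem _
    | add a a' _ _ h1 h2 => rw [add_smul]; exact Submodule.add_mem _ (h1 z trivial) (h2 z trivial)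
    | smul t a _ h => rw [smul_eq_mul, mul_comm, mul_smul]; exact h (t • z) trivial
  have htop : (⊤ : Submodule (MvPowerSeries (Fin r) O) N) ≤
      Submodule.span (MvPowerSeries (Fin r) O) (Set.range b) := by
    refine Submodule.le_of_le_smul_of_le_jacobson_bot (I := J) Module.Finite.fg_top
      (hJm.trans (maximalIdeal_le_jacobson _)) ?_
    rintro y -
    obtain ⟨c, hc⟩ := hb y
    have h1 : y = ∑ i, c i • b i + (y - ∑ i, c i • b i) := by abel
    rw [h1]
    refine Submodule.add_mem_sup (Submodule.sum_mem _ fun i _ => ?_) (hmem _ hc)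
    rw [← one_smul (MvPowerSeries (Fin r) O) (b i), ← smul_assoc]
    exact Submodule.smul_mem _ _ (Submodule.subset_span ⟨i, rfl⟩)
  have h2 : x ∈ Submodule.span (MvPowerSeries (Fin r) O) (Set.range b) := htop trivial
  obtain ⟨c, hc⟩ := (Submodule.mem_span_range_iff_exists_fun _).mp h2
  exact ⟨c, hc.symm⟩

/-- **Freeness by rank count.** -/
lemma rel_of_rank (hp : p.Prime) (hpO : (p : O) ∈ maximalIdeal O) (n : Fin r → ℕ)
    (φ : MvPowerSeries (Fin r) O →ₐ[O] RQ) {N : Type} [AddCommGroup N]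
    [Module RQ N] [Module O N] [IsScalarTower O RQ N] [Module.Finite O N] [Module.Free O N]
    {d : ℕ} (hrank : Module.finrank O N = d * ∏ j, p ^ n j) (b : Fin d → N)
    (hspan : ∀ x : N, ∃ c : Fin d → MvPowerSeries (Fin r) O, x = ∑ i, φ (c i) • b i)
    (hrel : ∀ j, (φ (X j) + 1) ^ (p ^ n j) = 1) (c : Fin d → MvPowerSeries (Fin r) O) :
    ∑ i, φ (c i) • b i = 0 ↔ ∀ i, c i ∈ twIdeal O (fun j => p ^ n j) := by
  classical
  have hker : twIdeal O (fun j => p ^ n j) ≤ RingHom.ker (φ : _ →+* RQ) := by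
    rw [twIdeal, Ideal.span_le]
    rintro _ ⟨j, rfl⟩
    rw [SetLike.mem_coe, RingHom.mem_ker, RingHom.coe_coe, map_sub, map_pow, map_add, map_one,
      add_comm, hrel, sub_self]
  have hker' : ∀ s ∈ twIdeal O (fun j => p ^ n j), φ s = 0 := fun s hs => hker hs
  constructor
  swap
  · intro h
    exact Finset.sum_eq_zero fun i _ => by rw [hker' _ (h i), zero_smul]
  intro h
  let mon : (∀ j, Fin (p ^ n j)) → MvPowerSeries (Fin r) O := fun α =>
    monomial (Finsupp.equivFunOnFinite.symm fun j => (α j : ℕ)) 1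
  let F : (Fin d × (∀ j, Fin (p ^ n j)) → O) →ₗ[O] N :=
    Fintype.linearCombination O (fun q => φ (mon q.2) • b q.1)
  have hF : ∀ c, F c = ∑ i, φ (∑ α, C (c (i, α)) * mon α) • b i := by
    intro c
    rw [Fintype.linearCombination_apply, Fintype.sum_prod_type]
    refine Finset.sum_congr rfl fun i _ => ?_
    rw [map_sum, Finset.sum_smul]
    refine Finset.sum_congr rfl fun α _ => ?_
    rw [← MvPowerSeries.smul_eq_C_mul, map_smul, smul_assoc]
  have hFs : Function.Surjective F := by
    intro x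
    obtain ⟨c, rfl⟩ := hspan x
    choose c' hc' using fun i => exists_reduced hp hpO n (c i)
    refine ⟨fun q => c' q.1 q.2, ?_⟩
    rw [hF]
    refine Finset.sum_congr rfl fun i _ => ?_
    congr 1
    have h1 := hker' _ (hc' i)
    rw [map_sub, sub_eq_zero] at h1
    exact h1.symm
  have hrank' : Module.finrank O N = Module.finrank O (Fin d × (∀ j, Fin (p ^ n j)) → O) := by
    rw [hrank, Module.finrank_fintype_fun_eq_card, Fintype.card_prod, Fintype.card_fin,
      Fintype.card_pi]
    simp only [Fintype.card_fin]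
  let e := LinearEquiv.ofFinrankEq N (Fin d × (∀ j, Fin (p ^ n j)) → O) hrank'
  have hinj : Function.Injective F := by
    have h1 : Function.Surjective (e.toLinearMap.comp F) := e.surjective.comp hFs
    have h2 := OrzechProperty.injective_of_surjective_endomorphism _ h1
    exact Function.Injective.of_comp (f := e) h2
  choose c' hc' using fun i => exists_reduced hp hpO n (c i)
  have h3 : F (fun q => c' q.1 q.2) = 0 := by
    rw [hF, ← h]
    refine Finset.sum_congr rfl fun i _ => ?_
    congr 1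
    have h1 := hker' _ (hc' i)
    rw [map_sub, sub_eq_zero] at h1
    exact h1.symm
  have h4 := hinj (h3.trans (map_zero F).symm)
  intro i
  have h5 := hc' i
  have h6 : ∀ α, c' i α = 0 := fun α => congrFun h4 (i, α)
  simpa [h6] using h5

omit [IsLocalRing O] [IsNoetherianRing O] [IsAdicComplete (maximalIdeal O) O] in
lemma comp_eq_constantCoeff (φ : MvPowerSeries (Fin r) O →ₐ[O] RQ) (ψ : RQ →ₐ[O] R)
    (hψφ : ∀ j, ψ (φ (X j)) = 0) (s : MvPowerSeries (Fin r) O) :
    ψ (φ s) = algebraMap O R (constantCoeff s) := by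
  have h1 : s - C (constantCoeff s) ∈
      Ideal.span (Set.range fun j : Fin r => (X j : MvPowerSeries (Fin r) O)) := by
    rw [Fermat.Agent.H68.mem_span_range_X_iff]
    simp
  have h2 : ∀ x ∈ Ideal.span (Set.range fun j : Fin r => (X j : MvPowerSeries (Fin r) O)),
      ψ (φ x) = 0 := by
    intro x hx
    induction hx using Submodule.span_induction with
    | mem x hx =>
      obtain ⟨j, rfl⟩ := hx
      exact hψφ j
    | zero => rw [map_zero, map_zero]
    | add x y _ _ h1 h2 => rw [map_add, map_add, h1, h2, add_zero]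
    | smul a x _ h => rw [smul_eq_mul, map_mul, map_mul, h, mul_zero]
  have h3 := h2 _ h1
  rw [map_sub, map_sub, sub_eq_zero] at h3
  rw [h3]
  have h4 : φ (C (constantCoeff s)) = algebraMap O RQ (constantCoeff s) :=
    φ.commutes (constantCoeff s)
  rw [h4, ψ.commutes]

/-- the ideal generated by the variables -/
noncomputable def varIdeal (O : Type) [CommRing O] (r : ℕ) : Ideal (MvPowerSeries (Fin r) O) :=
  RingHom.ker (constantCoeff (σ := Fin r) (R := O))

omit [IsLocalRing O] [IsNoetherianRing O] [IsAdicComplete (maximalIdeal O) O] in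
lemma span_le_map_varIdeal (φ : MvPowerSeries (Fin r) O →ₐ[O] RQ) :
    Ideal.span (Set.range fun j => φ (X j)) ≤
      (varIdeal O r).map (φ : MvPowerSeries (Fin r) O →+* RQ) := by
  have h : ∀ j : Fin r, (X j : MvPowerSeries (Fin r) O) ∈ varIdeal O r := by
    intro j
    rw [varIdeal, RingHom.mem_ker, constantCoeff_X]
  have h2 : ∀ j : Fin r, φ (X j) ∈ (varIdeal O r).map (φ : MvPowerSeries (Fin r) O →+* RQ) :=
    fun j => Ideal.mem_map_of_mem (φ : MvPowerSeries (Fin r) O →+* RQ) (h j)
  rw [Ideal.span_le]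
  intro y hy
  obtain ⟨j, hj⟩ := hy
  have h3 := h2 j
  simp only at hj
  rw [hj] at h3
  exact h3

/-- **Constructor of an unframed patching level.** -/
noncomputable def mkLevel {ι : Type} {M : ι → Type} [∀ τ, AddCommGroup (M τ)]
    [Algebra (MvPowerSeries (Fin r) O) R]
    [∀ τ, Module (MvPowerSeries (Fin r) O) (M τ)] [∀ τ, Module R (M τ)]
    [∀ τ, Module O (M τ)] [∀ τ, IsScalarTower O R (M τ)] [IsLocalRing R]
    (hSR : ∀ s : MvPowerSeries (Fin r) O, algebraMap (MvPowerSeries (Fin r) O) R s =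
      algebraMap O R (constantCoeff s))
    (hp : p.Prime) (hpO : (p : O) ∈ maximalIdeal O) (n : Fin r → ℕ)
    {d : ι → ℕ} (B₀ : ∀ τ, Module.Basis (Fin (d τ)) O (M τ))
    (φ : MvPowerSeries (Fin r) O →ₐ[O] RQ) (hrel : ∀ j, (φ (X j) + 1) ^ (p ^ n j) = 1)
    (ψ : RQ →ₐ[O] R) (hψ : Function.Surjective ψ) (hψφ : ∀ j, ψ (φ (X j)) = 0)
    (MQ : ι → Type) [∀ τ, AddCommGroup (MQ τ)] [∀ τ, Module RQ (MQ τ)] [∀ τ, Module O (MQ τ)]
    [∀ τ, IsScalarTower O RQ (MQ τ)] [∀ τ, Module.Free O (MQ τ)] [∀ τ, Module.Finite O (MQ τ)]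
    (hrank : ∀ τ, Module.finrank O (MQ τ) = d τ * ∏ j, p ^ n j)
    (π : ∀ τ, MQ τ →+ M τ) (hπs : ∀ τ, Function.Surjective (π τ))
    (hπ : ∀ τ f x, π τ (f • x) = ψ f • π τ x)
    (hker : ∀ τ x, π τ x = 0 →
      x ∈ (Ideal.span (Set.range fun j => φ (X j))) • (⊤ : Submodule RQ (MQ τ))) :
    KLevel (MvPowerSeries (Fin r) O) RQ R M d (twIdeal O (fun j => p ^ n j)) (varIdeal O r) :=
  have hb : ∀ τ (x : MQ τ), ∃ c : Fin (d τ) → O,
      x - ∑ i, c i • (hπs τ (B₀ τ i)).choose ∈
        (Ideal.span (Set.range fun j => φ (X j))) • (⊤ : Submodule RQ (MQ τ)) := by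
    intro τ x
    refine ⟨fun i => (B₀ τ).repr (π τ x) i, hker τ _ ?_⟩
    have h1 : ∀ (a : O) (y : MQ τ), π τ (a • y) = a • π τ y := by
      intro a y
      rw [← algebraMap_smul RQ a y, hπ, ψ.commutes, algebraMap_smul]
    rw [map_sub, map_sum]
    simp only [h1, (hπs τ (B₀ τ _)).choose_spec]
    rw [(B₀ τ).sum_repr, sub_self]
  have hspan := fun τ => span_of_span_mod φ (fun i => (hπs τ (B₀ τ i)).choose) (hb τ)
  { N := MQ
    φ := (φ : MvPowerSeries (Fin r) O →+* RQ)
    ψ := (ψ : RQ →+* R)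
    ψ_surjective := hψ
    ψ_φ := fun s => (comp_eq_constantCoeff φ ψ hψφ s).trans (hSR s).symm
    π := π
    π_smul := hπ
    π_surjective := hπs
    ker_π := by
      intro τ x hx
      exact (Submodule.smul_mono_left (span_le_map_varIdeal φ)) (hker τ x hx)
    b := fun τ i => (hπs τ (B₀ τ i)).choose
    b_span := hspan
    b_rel := fun τ => rel_of_rank hp hpO n φ (hrank τ) _ (hspan τ) hrel }

end Level

section Pow

variable {O : Type} [CommRing O] [IsLocalRing O] {r p : ℕ}

lemma one_add_pow_sub_one_mem {A : Type*} [CommRing A] [IsLocalRing A] {ℓ : ℕ}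
    (hℓ : (ℓ : A) ∈ maximalIdeal A) {x : A} (hx : x ∈ maximalIdeal A) (n : ℕ) :
    (1 + x) ^ (ℓ ^ n) - 1 ∈ maximalIdeal A ^ (n + 1) := by
  induction n with
  | zero => simpa using hx
  | succ n ih =>
    have h1 : (1 + x) ^ (ℓ ^ (n + 1)) - 1 =
        ((1 + x) ^ (ℓ ^ n) - 1) * ∑ i ∈ Finset.range ℓ, ((1 + x) ^ (ℓ ^ n)) ^ i := by
      rw [mul_comm, geom_sum_mul, ← pow_mul, pow_succ]
    rw [h1, pow_succ]
    refine Ideal.mul_mem_mul ih ?_
    have h2 : ∑ i ∈ Finset.range ℓ, ((1 + x) ^ (ℓ ^ n)) ^ i =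
        ∑ i ∈ Finset.range ℓ, (((1 + x) ^ (ℓ ^ n)) ^ i - 1) + (ℓ : A) := by
      rw [Finset.sum_sub_distrib]
      simp
    rw [h2]
    refine Ideal.add_mem _ (Ideal.sum_mem _ fun i _ => ?_) hℓ
    have h3 : (1 + x) ^ (ℓ ^ n) - 1 ∈ maximalIdeal A := Ideal.pow_le_self (by omega) ih
    have h4 : ((1 + x) ^ (ℓ ^ n) - 1) ∣ ((1 + x) ^ (ℓ ^ n)) ^ i - 1 := by
      simpa using sub_dvd_pow_sub_pow ((1 + x) ^ (ℓ ^ n)) 1 i
    exact Ideal.mem_of_dvd _ h4 h3

lemma twIdeal_le_pow (hpO : (p : O) ∈ maximalIdeal O) (n : Fin r → ℕ) {N : ℕ}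
    (hn : ∀ j, N ≤ n j) :
    twIdeal O (fun j => p ^ n j) ≤ maximalIdeal (MvPowerSeries (Fin r) O) ^ N := by
  have hp' : (p : MvPowerSeries (Fin r) O) ∈ maximalIdeal (MvPowerSeries (Fin r) O) := by
    rw [mem_maximalIdeal, mem_nonunits_iff, MvPowerSeries.isUnit_iff_constantCoeff, map_natCast]
    exact hpO
  have hXm : ∀ j : Fin r, (X j : MvPowerSeries (Fin r) O) ∈
      maximalIdeal (MvPowerSeries (Fin r) O) := by
    intro j
    rw [mem_maximalIdeal, mem_nonunits_iff, MvPowerSeries.isUnit_iff_constantCoeff,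
      constantCoeff_X]
    exact not_isUnit_zero
  rw [twIdeal, Ideal.span_le]
  rintro _ ⟨j, rfl⟩
  exact Ideal.pow_le_pow_right ((hn j).trans (Nat.le_succ _))
    (one_add_pow_sub_one_mem hp' (hXm j) (n j))

omit [IsLocalRing O] in
lemma twIdeal_le_varIdeal (e : Fin r → ℕ) : twIdeal O e ≤ varIdeal O r := by
  rw [twIdeal, Ideal.span_le]
  rintro _ ⟨j, rfl⟩
  rw [SetLike.mem_coe, varIdeal, RingHom.mem_ker]
  simp

end Pow

end Fermat.Agent.H69.KP
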