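/-
Elementary algebra of the tame relation `Φ Σ = Σ^q Φ`.
-/
import Mathlib.LinearAlgebra.Matrix.Notation
import Mathlib.LinearAlgebra.Matrix.Trace
import Mathlib.LinearAlgebra.Matrix.Determinant.Basic
import Mathlib.RingTheory.Henselian
import Mathlib.Tactic.LinearCombination
import Mathlib.Tactic.NoncommRing

set_option autoImplicit false

namespace Fermat.Agent.H69.EG

open IsLocalRing

section Sqrt

variable {A : Type*} [CommRing A] [IsLocalRing A]

/-- square roots with given reduction in a complete local ring with residue characteristic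
different from 2 -/
lemma exists_sqrt [IsAdicComplete (maximalIdeal A) A] (h2 : IsUnit (2 : A)) {a v : A}
    (hv : IsUnit v) (h : v ^ 2 - a ∈ maximalIdeal A) :
    ∃ s : A, s ^ 2 = a ∧ s - v ∈ maximalIdeal A := by
  obtain ⟨s, hs, hsv⟩ := HenselianRing.is_henselian (R := A) (I := maximalIdeal A)
    (Polynomial.X ^ 2 - Polynomial.C a) (Polynomial.monic_X_pow_sub_C a two_ne_zero) v
    (by simpa using h) (by
      rw [Polynomial.derivative_sub, Polynomial.derivative_X_pow, Polynomial.derivative_C,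
        sub_zero, Polynomial.eval_mul, Polynomial.eval_pow, Polynomial.eval_X]
      have h3 : IsUnit (Polynomial.eval v (((2 : ℕ) : Polynomial A)) * v ^ (2 - 1)) := by
        simpa using h2.mul hv
      exact h3.map (Ideal.Quotient.mk (maximalIdeal A)))
  refine ⟨s, ?_, hsv⟩
  rw [Polynomial.IsRoot.def, Polynomial.eval_sub, Polynomial.eval_pow, Polynomial.eval_X,
    Polynomial.eval_C, sub_eq_zero] at hs
  exact hs

/-- uniqueness of square roots with given reduction -/
lemma sqrt_unique (h2 : IsUnit (2 : A)) {s s' v : A} (hv : IsUnit v) (h : s ^ 2 = s' ^ 2)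
    (hs : s - v ∈ maximalIdeal A) (hs' : s' - v ∈ maximalIdeal A) : s = s' := by
  have h1 : IsUnit (s + s') := by
    by_contra hu
    have h3 : s + s' ∈ maximalIdeal A := hu
    have h4 : 2 * v ∈ maximalIdeal A := by
      have h5 : 2 * v = (s + s') - (s - v) - (s' - v) := by ring
      rw [h5]
      exact sub_mem (sub_mem h3 hs) hs'
    exact h4 (h2.mul hv)
  have h6 : (s + s') * (s - s') = 0 := by linear_combination h
  have h7 := (h1.mul_right_eq_zero).mp h6
  exact sub_eq_zero.mp h7

end Sqrt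

section Commute

variable {A : Type*} [CommRing A]

/-- Lagrange interpolation for powers of a matrix annihilated by `(X - ζ)(X - ζ')`. -/
lemma pow_eq_of_quadratic (S : Matrix (Fin 2) (Fin 2) A) {ζ ζ' : A} (h1 : ζ * ζ' = 1)
    (hS : S * S = (ζ + ζ') • S - 1) (m : ℕ) :
    (ζ - ζ') • S ^ m = ζ ^ m • (S - ζ' • (1 : Matrix (Fin 2) (Fin 2) A)) -
      ζ' ^ m • (S - ζ • (1 : Matrix (Fin 2) (Fin 2) A)) := by
  have e1 : (S - ζ' • (1 : Matrix (Fin 2) (Fin 2) A)) * S =
      ζ • (S - ζ' • (1 : Matrix (Fin 2) (Fin 2) A)) := by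
    rw [sub_mul, hS, smul_mul_assoc, one_mul, smul_sub, smul_smul, h1, one_smul, add_smul]
    abel
  have e2 : (S - ζ • (1 : Matrix (Fin 2) (Fin 2) A)) * S =
      ζ' • (S - ζ • (1 : Matrix (Fin 2) (Fin 2) A)) := by
    rw [sub_mul, hS, smul_mul_assoc, one_mul, smul_sub, smul_smul, mul_comm ζ' ζ, h1, one_smul,
      add_smul]
    abel
  induction m with
  | zero =>
    rw [pow_zero, pow_zero, pow_zero, one_smul, one_smul, sub_smul]
    abel
  | succ m ih =>
    rw [pow_succ S, ← smul_mul_assoc, ih, sub_mul, smul_mul_assoc, smul_mul_assoc, e1, e2,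
      smul_smul, smul_smul, ← pow_succ, ← pow_succ]

/-- the commutation relations in a domain -/
theorem comm_of_tame [IsDomain A] (h2 : (2 : A) ≠ 0) {x y z a b c s u ζ ζ' : A} {q : ℕ}
    (hq : 1 ≤ q) (h1 : ζ * ζ' = 1) (hne : ζ ≠ ζ') (hpow : ζ ^ (q - 1) = 1)
    (hs : s ^ 2 = 1 + (x ^ 2 + y * z)) (hs2 : 2 * s = ζ + ζ')
    (htame : (!![u + a, b; c, u - a] : Matrix (Fin 2) (Fin 2) A) * !![s + x, y; z, s - x] =
      !![s + x, y; z, s - x] ^ q * !![u + a, b; c, u - a]) :
    x * b = y * a ∧ x * c = z * a ∧ y * c = z * b := by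
  set S : Matrix (Fin 2) (Fin 2) A := !![s + x, y; z, s - x] with hSdef
  have hS : S * S = (ζ + ζ') • S - 1 := by
    rw [← hs2, hSdef]
    ext i j
    fin_cases i <;> fin_cases j
    · simp only [Matrix.mul_fin_two, Fin.zero_eta, Fin.isValue, Matrix.of_apply, Matrix.cons_val',
        Matrix.cons_val_zero, Matrix.cons_val_fin_one, Matrix.sub_apply, Matrix.smul_apply,
        smul_eq_mul, Matrix.one_apply_eq]
      linear_combination -hs
    · simp
      ring
    · simp
      ring
    · simp
      linear_combination -hs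
  have hpow' : ζ' ^ (q - 1) = 1 := by
    have h3 : (ζ * ζ') ^ (q - 1) = 1 := by rw [h1, one_pow]
    rwa [mul_pow, hpow, one_mul] at h3
  have h4 := pow_eq_of_quadratic S h1 hS (q - 1)
  rw [hpow, hpow', one_smul, one_smul] at h4
  have h5 : (ζ - ζ') • S ^ (q - 1) = (ζ - ζ') • (1 : Matrix (Fin 2) (Fin 2) A) := by
    rw [h4, sub_smul]
    abel
  have h6 : S ^ (q - 1) = 1 := by
    ext i j
    have h7 := congrFun (congrFun h5 i) j
    rw [Matrix.smul_apply, Matrix.smul_apply, smul_eq_mul, smul_eq_mul] at h7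
    exact mul_left_cancel₀ (sub_ne_zero.mpr hne) h7
  have h8 : S ^ q = S := by
    have h9 : q = (q - 1) + 1 := by omega
    rw [h9, pow_succ, h6, one_mul]
  rw [h8] at htame
  have e00 := congrFun (congrFun htame 0) 0
  have e01 := congrFun (congrFun htame 0) 1
  have e10 := congrFun (congrFun htame 1) 0
  simp [hSdef] at e00 e01 e10
  refine ⟨?_, ?_, ?_⟩
  · refine mul_left_cancel₀ h2 ?_
    linear_combination -e01
  · refine mul_left_cancel₀ h2 ?_
    linear_combination e10
  · linear_combination -e00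

end Commute

end Fermat.Agent.H69.EG
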