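/-
`no_patching`: the level lowering endgame in concrete form.
-/
import Fermat.Agent.H69Endgame
import Fermat.Agent.H69Tame
import Fermat.Agent.H69KRank
import Fermat.Agent.H69KLift
import Mathlib.RingTheory.DiscreteValuationRing.Basic
import Mathlib.Data.Set.Finite.Basic
import Mathlib.RingTheory.MvPowerSeries.NoZeroDivisors
import Mathlib.Order.Filter.AtTopBot.Finite

set_option autoImplicit false
set_option linter.style.haveILetI false

namespace Fermat.Agent.H69.EG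

open IsLocalRing Fermat.Agent.H69.KP

/-- One level of a Taylor--Wiles system for the level lowering argument. `B` is the ring of the
tame local deformation rings with `X t 0, …, X t 5` the entries `N₀₀, N₀₁, N₁₀, F₀₀, F₀₁, F₁₀` of
the traceless parts of `Σ_t` and `Φ_t`; `p` the residue characteristic, `r` the number of diamond
variables, `n` the depth of the level and `D` a bound for the rank. -/
structure TWLevel (O : Type) [CommRing O] [IsLocalRing O] (ϖ : O) (p r n D : ℕ) {T : Type}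
    (B : Type) [CommRing B] [Algebra O B] (X : T → Fin 6 → B) (q : T → ℕ) (v : T → O)
    (Z : T → Finset Oˣ) (t₀ : T) : Type 1 where
  /-- the deformation ring -/
  R : Type
  [instCommRing : CommRing R]
  [instLocal : IsLocalRing R]
  [instAlgebra : Algebra O R]
  /-- presentation of the deformation ring -/
  β : B →ₐ[O] R
  β_surj : Function.Surjective β
  /-- generators of tame inertia -/
  Sg : T → Matrix (Fin 2) (Fin 2) R
  /-- Frobenius elements -/
  Ph : T → Matrix (Fin 2) (Fin 2) R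
  det_Sg : ∀ t, Sg t 0 0 * Sg t 1 1 - Sg t 0 1 * Sg t 1 0 = 1
  det_Ph : ∀ t, Ph t 0 0 * Ph t 1 1 - Ph t 0 1 * Ph t 1 0 = q t
  tame : ∀ t, Ph t * Sg t = Sg t ^ q t * Ph t
  tr_Sg : ∀ t, Sg t 0 0 + Sg t 1 1 - 2 ∈ maximalIdeal R
  tr_Ph : ∀ t, Ph t 0 0 + Ph t 1 1 - 2 * algebraMap O R (v t) ∈ maximalIdeal R
  hX0 : ∀ t, 2 * β (X t 0) = Sg t 0 0 - Sg t 1 1
  hX1 : ∀ t, β (X t 1) = Sg t 0 1
  hX2 : ∀ t, β (X t 2) = Sg t 1 0
  hX3 : ∀ t, 2 * β (X t 3) = Ph t 0 0 - Ph t 1 1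
  hX4 : ∀ t, β (X t 4) = Ph t 0 1
  hX5 : ∀ t, β (X t 5) = Ph t 1 0
  /-- the module with non-trivial character -/
  M : Type
  [instAddCommGroup : AddCommGroup M]
  [instModule : Module R M]
  /-- its rank -/
  d : ℕ
  d_pos : 0 < d
  d_le : d ≤ D
  /-- the exponents of the diamond group -/
  e : Fin r → ℕ
  le_e : ∀ j, n ≤ e j
  /-- the diamond operators (through the Galois side) -/
  φ : MvPowerSeries (Fin r) O →ₐ[O] R
  φ_mem : ∀ j, φ (MvPowerSeries.X j) ∈ maximalIdeal R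
  /-- the basis -/
  b : Fin d → M
  b_span : ∀ x : M, ∃ c : Fin d → MvPowerSeries (Fin r) O, x = ∑ i, φ (c i) • b i
  b_rel : ∀ c : Fin d → MvPowerSeries (Fin r) O, ∑ i, φ (c i) • b i = 0 ↔
    ∀ i, c i ∈ twIdeal O (fun j => p ^ e j)
  prod_smul : ∀ t (x : M),
    (∏ ζ ∈ Z t, (Sg t 0 0 + Sg t 1 1 - algebraMap O R ((ζ : O) + (ζ⁻¹ : Oˣ)))) • x = 0
  h_smul : ∀ x : M, ∃ y : M,
    ((Ph t₀ 0 0 + Ph t₀ 1 1) ^ 2 - ((q t₀ : R) + 1) ^ 2) • x = algebraMap O R ϖ • y

/-- geometric input: the scheme of commuting pairs `(N_t, F_t)` with `N_t² = κ_t²` is integral of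
dimension at most `m`. -/
def DomHyp (O B : Type) [CommRing O] [IsLocalRing O] [CommRing B] [Algebra O B] {T : Type}
    (X : T → Fin 6 → B) (m : ℕ) : Prop :=
  ∀ κ : T → O, (∀ t, κ t ≠ 0) → (∀ t, κ t ∈ maximalIdeal O) →
    ∃ J : Ideal B, J.IsPrime ∧ ringKrullDim (B ⧸ J) ≤ m ∧
      ∀ P : Ideal B, (∀ t, X t 0 ^ 2 + X t 1 * X t 2 - algebraMap O B (κ t) ^ 2 ∈ P) →
        (∀ t, X t 0 * X t 4 - X t 1 * X t 3 ∈ P) → (∀ t, X t 0 * X t 5 - X t 2 * X t 3 ∈ P) →
        (∀ t, X t 1 * X t 5 - X t 2 * X t 4 ∈ P) → J ≤ P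

section Dim

/-- lower bound for the dimension of power series rings -/
lemma le_ringKrullDim_mvPowerSeries (O : Type) [CommRing O] [IsDomain O]
    [IsDiscreteValuationRing O] (r : ℕ) :
    ((r + 1 : ℕ) : WithBot ℕ∞) ≤ ringKrullDim (MvPowerSeries (Fin r) O) := by
  induction r with
  | zero =>
    rw [ringKrullDim_eq_of_ringEquiv (MvPowerSeries.isEmptyEquiv (Fin 0) O).toRingEquiv,
      IsPrincipalIdealRing.ringKrullDim_eq_one O (IsDiscreteValuationRing.not_isField O)]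
    simp
  | succ r ih =>
    rw [ringKrullDim_eq_of_ringEquiv (MvPowerSeries.finSuccEquiv O r).toRingEquiv]
    refine le_trans ?_ ringKrullDim_succ_le_ringKrullDim_powerseries
    push_cast at ih ⊢
    gcongr

end Dim

section Pred

variable {S B : Type} [CommRing S] [CommRing B] {ι : Type} {d : ι → ℕ} {I : Ideal S}

/-- `f` multiplies the module into `K` times the module -/
def MulLe (F : FLevel S B d I) (τ : ι) (K : Ideal S) (f : B) : Prop :=
  ∀ x : F.N τ, f • x ∈ (K.map F.φ • ⊤ : Submodule B (F.N τ))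

/-- the endgame for a limit level -/
theorem endgame_level [IsDomain S] [IsNoetherianRing S] [IsNoetherianRing B]
    (F : FLevel S B d (⊥ : Ideal S)) (τ : ι) (hd : 0 < d τ)
    {n : ℕ} (hn : (n : WithBot ℕ∞) ≤ ringKrullDim S)
    (K : Ideal S) (h : B) (hh : MulLe F τ K h)
    (q : Ideal B) (hq : q.IsPrime) (hKq : K.map F.φ ≤ q) (hhq : h ∉ q)
    (hJ : ∀ P : Ideal B, P.IsPrime → (∀ f : B, MulLe F τ ⊥ f → f ∈ P) →
      (∀ s : S, F.φ s ∈ P → s = 0) →
      ∃ J : Ideal B, J.IsPrime ∧ J ≤ P ∧ J ≤ q ∧ ringKrullDim (B ⧸ J) ≤ n) : False := by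
  refine endgame' F.φ hd (F.b τ) (F.b_span τ) ?_ hn (K.map F.φ) h hh q hq hKq hhq ?_
  · intro c hc i
    exact (Submodule.mem_bot _).mp ((F.b_rel τ c).mp hc i)
  · intro P hP hann hPS
    refine hJ P hP (fun f hf => hann f fun x => ?_) hPS
    have h3 := hf x
    rwa [Ideal.map_bot, Submodule.bot_smul, Submodule.mem_bot] at h3

end Pred

section Level

variable {O : Type} [CommRing O] [IsLocalRing O] {ϖ : O} {p r n D : ℕ} {T : Type}
  {B : Type} [CommRing B] [Algebra O B] {X : T → Fin 6 → B} {q : T → ℕ} {v : T → O}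
  {Z : T → Finset Oˣ} {t₀ : T} (L : TWLevel O ϖ p r n D B X q v Z t₀)

attribute [local instance] TWLevel.instCommRing TWLevel.instLocal TWLevel.instAlgebra
  TWLevel.instAddCommGroup TWLevel.instModule

/-- `f` kills the module of the level -/
def TWLevel.Kills (f : B) : Prop := ∀ x : L.M, L.β f • x = 0

/-- `f` multiplies the module of the level into `ϖ` times itself -/
def TWLevel.MulPi (f : B) : Prop := ∀ x : L.M, ∃ y : L.M, L.β f • x = algebraMap O L.R ϖ • y

lemma β_mem [IsLocalRing B] {x : B} (hx : x ∈ maximalIdeal B) : L.β x ∈ maximalIdeal L.R :=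
  le_comap_of_surjective (L.β : B →+* L.R) L.β_surj hx

/-- half the trace of `Σ_t` -/
lemma two_mul_β_s [IsLocalRing B] (h2 : IsUnit (2 : B)) {s : B} {t : T}
    (hs : s ^ 2 = 1 + (X t 0 ^ 2 + X t 1 * X t 2)) (hs1 : s - 1 ∈ maximalIdeal B) :
    2 * L.β s = L.Sg t 0 0 + L.Sg t 1 1 := by
  have h2R : IsUnit (2 : L.R) := by
    have := h2.map L.β
    rwa [map_ofNat] at this
  refine sqrt_unique h2R (v := 2) h2R ?_ ?_ (L.tr_Sg t)
  · have h1 := congrArg L.β hs
    simp only [map_pow, map_add, map_one, map_mul] at h1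
    have h3 := L.det_Sg t
    have h4 := L.hX0 t
    rw [L.hX1 t, L.hX2 t] at h1
    linear_combination 4 * h1 + (2 * L.β (X t 0) + (L.Sg t 0 0 - L.Sg t 1 1)) * h4 - 4 * h3
  · have h5 := β_mem L hs1
    rw [map_sub, map_one] at h5
    have h6 : 2 * L.β s - 2 = 2 * (L.β s - 1) := by ring
    rw [h6]
    exact Ideal.mul_mem_left _ _ h5

/-- half the trace of `Φ_t` -/
lemma two_mul_β_c [IsLocalRing B] (h2 : IsUnit (2 : B)) {c : B} {t : T} (hv : IsUnit (v t))
    (hc : c ^ 2 = q t + (X t 3 ^ 2 + X t 4 * X t 5))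
    (hc1 : c - algebraMap O B (v t) ∈ maximalIdeal B) :
    2 * L.β c = L.Ph t 0 0 + L.Ph t 1 1 := by
  have h2R : IsUnit (2 : L.R) := by
    have := h2.map L.β
    rwa [map_ofNat] at this
  refine sqrt_unique h2R (v := 2 * algebraMap O L.R (v t)) (h2R.mul (hv.map _)) ?_ ?_ (L.tr_Ph t)
  · have h1 := congrArg L.β hc
    simp only [map_pow, map_add, map_natCast, map_mul] at h1
    have h3 := L.det_Ph t
    have h4 := L.hX3 t
    rw [L.hX4 t, L.hX5 t] at h1
    linear_combination 4 * h1 + (2 * L.β (X t 3) + (L.Ph t 0 0 - L.Ph t 1 1)) * h4 - 4 * h3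
  · have h5 := β_mem L hc1
    rw [map_sub, AlgHom.commutes] at h5
    have h6 : 2 * L.β c - 2 * algebraMap O L.R (v t) =
      2 * (L.β c - algebraMap O L.R (v t)) := by ring
    rw [h6]
    exact Ideal.mul_mem_left _ _ h5

lemma two_cancel [IsLocalRing B] (h2 : IsUnit (2 : B)) {x y : L.R} (h : 2 * x = 2 * y) :
    x = y := by
  have h2R : IsUnit (2 : L.R) := by
    have := h2.map L.β
    rwa [map_ofNat] at this
  exact h2R.mul_left_cancel h

/-- the matrix of `Σ_t` over `B` -/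
def sgB (X : T → Fin 6 → B) (s : B) (t : T) : Matrix (Fin 2) (Fin 2) B :=
  !![s + X t 0, X t 1; X t 2, s - X t 0]

/-- the matrix of `Φ_t` over `B` -/
def phB (X : T → Fin 6 → B) (c : B) (t : T) : Matrix (Fin 2) (Fin 2) B :=
  !![c + X t 3, X t 4; X t 5, c - X t 3]

lemma map_sgB [IsLocalRing B] (h2 : IsUnit (2 : B)) {s : B} {t : T}
    (hs : s ^ 2 = 1 + (X t 0 ^ 2 + X t 1 * X t 2)) (hs1 : s - 1 ∈ maximalIdeal B) :
    (L.β : B →+* L.R).mapMatrix (sgB X s t) = L.Sg t := by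
  have h3 := two_mul_β_s L h2 hs hs1
  have h4 := L.hX0 t
  ext i j
  fin_cases i <;> fin_cases j
  · simp only [sgB, RingHom.mapMatrix_apply, Fin.zero_eta, Fin.isValue, Matrix.map_apply,
      Matrix.of_apply, Matrix.cons_val', Matrix.cons_val_zero, Matrix.cons_val_fin_one, map_add,
      RingHom.coe_coe]
    exact two_cancel L h2 (by linear_combination h3 + h4)
  · simpa [sgB] using L.hX1 t
  · simpa [sgB] using L.hX2 t
  · simp only [sgB, RingHom.mapMatrix_apply, Fin.mk_one, Fin.isValue, Matrix.map_apply,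
      Matrix.of_apply, Matrix.cons_val', Matrix.cons_val_one, Matrix.cons_val_fin_one, map_sub,
      RingHom.coe_coe]
    exact two_cancel L h2 (by linear_combination h3 - h4)

lemma map_phB [IsLocalRing B] (h2 : IsUnit (2 : B)) {c : B} {t : T} (hv : IsUnit (v t))
    (hc : c ^ 2 = q t + (X t 3 ^ 2 + X t 4 * X t 5))
    (hc1 : c - algebraMap O B (v t) ∈ maximalIdeal B) :
    (L.β : B →+* L.R).mapMatrix (phB X c t) = L.Ph t := by
  have h3 := two_mul_β_c L h2 hv hc hc1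
  have h4 := L.hX3 t
  ext i j
  fin_cases i <;> fin_cases j
  · simp only [phB, RingHom.mapMatrix_apply, Fin.zero_eta, Fin.isValue, Matrix.map_apply,
      Matrix.of_apply, Matrix.cons_val', Matrix.cons_val_zero, Matrix.cons_val_fin_one, map_add,
      RingHom.coe_coe]
    exact two_cancel L h2 (by linear_combination h3 + h4)
  · simpa [phB] using L.hX4 t
  · simpa [phB] using L.hX5 t
  · simp only [phB, RingHom.mapMatrix_apply, Fin.mk_one, Fin.isValue, Matrix.map_apply,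
      Matrix.of_apply, Matrix.cons_val', Matrix.cons_val_one, Matrix.cons_val_fin_one, map_sub,
      RingHom.coe_coe]
    exact two_cancel L h2 (by linear_combination h3 - h4)

/-- the tame relation matrix over `B` -/
def gB (X : T → Fin 6 → B) (q : T → ℕ) (s c : B) (t : T) : Matrix (Fin 2) (Fin 2) B :=
  phB X c t * sgB X s t - sgB X s t ^ q t * phB X c t

lemma β_gB [IsLocalRing B] (h2 : IsUnit (2 : B)) {s c : B} {t : T} (hv : IsUnit (v t))
    (hs : s ^ 2 = 1 + (X t 0 ^ 2 + X t 1 * X t 2)) (hs1 : s - 1 ∈ maximalIdeal B)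
    (hc : c ^ 2 = q t + (X t 3 ^ 2 + X t 4 * X t 5))
    (hc1 : c - algebraMap O B (v t) ∈ maximalIdeal B) (i j : Fin 2) :
    L.β (gB X q s c t i j) = 0 := by
  have h1 : (L.β : B →+* L.R).mapMatrix (gB X q s c t) = 0 := by
    rw [gB, map_sub, map_mul, map_mul, map_pow, map_sgB L h2 hs hs1, map_phB L h2 hv hc hc1,
      L.tame t, sub_self]
  exact congrFun (congrFun h1 i) j

lemma gB_kills [IsLocalRing B] (h2 : IsUnit (2 : B)) {s c : B} {t : T} (hv : IsUnit (v t))
    (hs : s ^ 2 = 1 + (X t 0 ^ 2 + X t 1 * X t 2)) (hs1 : s - 1 ∈ maximalIdeal B)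
    (hc : c ^ 2 = q t + (X t 3 ^ 2 + X t 4 * X t 5))
    (hc1 : c - algebraMap O B (v t) ∈ maximalIdeal B) (i j : Fin 2) :
    L.Kills (gB X q s c t i j) := by
  intro x
  rw [β_gB L h2 hv hs hs1 hc hc1, zero_smul]

/-- the product relation over `B` -/
lemma prod_smul_B (κ : Oˣ → O) (hκ : ∀ ζ : Oˣ, 2 * κ ζ = (ζ : O) - (ζ⁻¹ : Oˣ)) (t : T) :
    L.Kills (∏ ζ ∈ Z t, (4 * (X t 0 ^ 2 + X t 1 * X t 2 - algebraMap O B (κ ζ) ^ 2))) := by
  intro x
  have h1 : L.β (∏ ζ ∈ Z t, (4 * (X t 0 ^ 2 + X t 1 * X t 2 - algebraMap O B (κ ζ) ^ 2))) =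
      (∏ ζ ∈ Z t, (L.Sg t 0 0 + L.Sg t 1 1 + algebraMap O L.R ((ζ : O) + (ζ⁻¹ : Oˣ)))) *
      ∏ ζ ∈ Z t, (L.Sg t 0 0 + L.Sg t 1 1 - algebraMap O L.R ((ζ : O) + (ζ⁻¹ : Oˣ))) := by
    rw [map_prod, ← Finset.prod_mul_distrib]
    refine Finset.prod_congr rfl fun ζ _ => ?_
    have h3 := L.det_Sg t
    have h4 := L.hX0 t
    simp only [map_mul, map_ofNat, map_sub, map_add, map_pow, AlgHom.commutes, L.hX1 t, L.hX2 t]
    have h5 : algebraMap O L.R (2 * κ ζ) = algebraMap O L.R ((ζ : O) - (ζ⁻¹ : Oˣ)) := by rw [hκ]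
    have h6 : algebraMap O L.R (ζ : O) * algebraMap O L.R (ζ⁻¹ : Oˣ) = 1 := by
      rw [← map_mul, Units.mul_inv, map_one]
    simp only [map_mul, map_sub, map_ofNat] at h5
    linear_combination (2 * L.β (X t 0) + (L.Sg t 0 0 - L.Sg t 1 1)) * h4 - 4 * h3 -
      (2 * algebraMap O L.R (κ ζ) + (algebraMap O L.R (ζ : O) - algebraMap O L.R (ζ⁻¹ : Oˣ))) * h5
      + 4 * h6
  rw [h1, mul_smul, L.prod_smul, smul_zero]

/-- the unramified relation over `B` -/
lemma h_smul_B : L.MulPi (4 * (X t₀ 3 ^ 2 + X t₀ 4 * X t₀ 5) - ((q t₀ : B) - 1) ^ 2) := by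
  intro x
  have h1 : L.β (4 * (X t₀ 3 ^ 2 + X t₀ 4 * X t₀ 5) - ((q t₀ : B) - 1) ^ 2) =
      (L.Ph t₀ 0 0 + L.Ph t₀ 1 1) ^ 2 - ((q t₀ : L.R) + 1) ^ 2 := by
    have h3 := L.det_Ph t₀
    have h4 := L.hX3 t₀
    simp only [map_mul, map_ofNat, map_sub, map_add, map_pow, map_natCast, map_one, L.hX4 t₀,
      L.hX5 t₀]
    linear_combination (2 * L.β (X t₀ 3) + (L.Ph t₀ 0 0 - L.Ph t₀ 1 1)) * h4 - 4 * h3
  rw [h1]
  exact L.h_smul x

/-- the level as a target-free patching level -/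
theorem exists_flevel [IsLocalRing B] [IsAdicComplete (maximalIdeal B) B] [IsNoetherianRing B]
    {d : ℕ} (hd : L.d = d) :
    ∃ F : FLevel (MvPowerSeries (Fin r) O) B (fun _ : Unit => d)
        (twIdeal O (fun j => p ^ L.e j)),
      (∀ x, F.φ (MvPowerSeries.C x) = algebraMap O B x) ∧
      (∀ f : B, L.Kills f → MulLe F () ⊥ f) ∧
      (∀ f : B, L.MulPi f → MulLe F () (Ideal.span {MvPowerSeries.C ϖ}) f) := by
  subst hd
  haveI : IsAdicComplete (maximalIdeal L.R) L.R :=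
    isAdicComplete_of_surjective (L.β : B →+* L.R) L.β_surj
  obtain ⟨φB, h1, h2⟩ := exists_lift_one (L.β : B →+* L.R) L.β_surj
    (L.φ : MvPowerSeries (Fin r) O →+* L.R) L.φ_mem (algebraMap O B) (fun x => by
      rw [RingHom.coe_coe, RingHom.coe_coe, AlgHom.commutes]
      exact (L.φ.commutes x).symm)
  letI : Module B L.M := Module.compHom L.M (L.β : B →+* L.R)
  have hsm : ∀ (f : B) (x : L.M), f • x = L.β f • x := fun _ _ => rfl
  have h1' : ∀ s, L.β (φB s) = L.φ s := h1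
  refine ⟨{ N := fun _ => L.M
            φ := φB
            b := fun _ => L.b
            b_span := ?_
            b_rel := ?_ }, ?_, ?_, ?_⟩
  · intro _ x
    obtain ⟨c, hc⟩ := L.b_span x
    refine ⟨c, ?_⟩
    rw [hc]
    exact Finset.sum_congr rfl fun i _ => by rw [hsm, h1']
  · intro _ c
    rw [← L.b_rel c]
    have h3 : ∑ i, φB (c i) • L.b i = ∑ i, L.φ (c i) • L.b i :=
      Finset.sum_congr rfl fun i _ => by rw [hsm, h1']
    rw [h3]
  · exact h2
  · intro f hf x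
    have h5 : f • x = 0 := hf x
    rw [h5]
    exact Submodule.zero_mem _
  · intro f hf x
    obtain ⟨y, hy⟩ := hf x
    have h4 : f • x = φB (MvPowerSeries.C ϖ) • y := by
      rw [hsm, hsm, h2, AlgHom.commutes]
      exact hy
    rw [h4]
    exact Submodule.smul_mem_smul (Ideal.mem_map_of_mem _ (Ideal.mem_span_singleton_self _))
      Submodule.mem_top

end Level

section Main

/-- infinite pigeonhole -/
lemma exists_const (f : ℕ → ℕ) {D : ℕ} (hf : ∀ n, f n ≤ D) : ∃ d, ∀ N, ∃ n, N ≤ n ∧ f n = d := by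
  by_contra h
  push Not at h
  choose N hN using h
  have h1 := hN (f ((Finset.range (D + 1)).sup N)) ((Finset.range (D + 1)).sup N)
    (Finset.le_sup (f := N) (Finset.mem_range.mpr (Nat.lt_succ_of_le (hf _))))
  exact h1 rfl

variable {O : Type} [CommRing O] [IsDomain O] [IsDiscreteValuationRing O]
  [IsAdicComplete (maximalIdeal O) O] [Finite (ResidueField O)]
  {B : Type} [CommRing B] [Algebra O B] [IsLocalRing B] [IsNoetherianRing B]
  [IsAdicComplete (maximalIdeal B) B] [Finite (ResidueField B)]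

/-- **No patching.** There is no Taylor--Wiles system with the module `M_n(χ)` whose reduction is
killed by `(tr Φ)² - (q+1)²`. -/
theorem no_patching {ϖ : O} (hϖ : maximalIdeal O = Ideal.span {ϖ}) {p r D : ℕ}
    (hpO : (p : O) ∈ maximalIdeal O) (h2 : IsUnit (2 : O))
    (hOB : ∀ x ∈ maximalIdeal O, algebraMap O B x ∈ maximalIdeal B)
    {T : Type} {X : T → Fin 6 → B} (hX : ∀ t i, X t i ∈ maximalIdeal B)
    {q : T → ℕ} (hq0 : ∀ t, 1 ≤ q t) (hq : ∀ t, (q t : O) - 1 ∈ maximalIdeal O)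
    {v : T → O} (hv : ∀ t, v t ^ 2 - 1 ∈ maximalIdeal O)
    {Z : T → Finset Oˣ} (hZ1 : ∀ t, ∀ ζ ∈ Z t, ζ ≠ 1) (hZ2 : ∀ t, ∀ ζ ∈ Z t, ζ ^ (q t - 1) = 1)
    (hZ3 : ∀ t, ∀ ζ ∈ Z t, (ζ : O) - 1 ∈ maximalIdeal O)
    {t₀ : T} {Q : Ideal B} (hQ : Q.IsPrime) (hQϖ : algebraMap O B ϖ ∈ Q)
    (hQ0 : ∀ t, X t 0 ∈ Q) (hQ1 : ∀ t, X t 1 ∈ Q) (hQ2 : ∀ t, X t 2 ∈ Q)
    (hQt : X t₀ 3 ^ 2 + X t₀ 4 * X t₀ 5 ∉ Q)
    (hdom : DomHyp O B X (r + 1))
    (L : ∀ n, Nonempty (TWLevel O ϖ p r n D B X q v Z t₀)) : False := by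
  classical
  have h2B : IsUnit (2 : B) := by
    have := h2.map (algebraMap O B)
    rwa [map_ofNat] at this
  have h4B : IsUnit (4 : B) := by
    have := h2B.mul h2B
    norm_num at this
    exact this
  have hQm : ∀ x ∈ maximalIdeal O, algebraMap O B x ∈ Q := by
    intro x hx
    rw [hϖ, Ideal.mem_span_singleton] at hx
    obtain ⟨y, rfl⟩ := hx
    rw [map_mul]
    exact Ideal.mul_mem_right _ _ hQϖ
  -- the choice of `κ`
  obtain ⟨h2i, hh2i⟩ := h2.exists_right_inv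
  let κ : Oˣ → O := fun ζ => h2i * ((ζ : O) - (ζ⁻¹ : Oˣ))
  have hκ : ∀ ζ : Oˣ, 2 * κ ζ = (ζ : O) - (ζ⁻¹ : Oˣ) := fun ζ => by
    change 2 * (h2i * ((ζ : O) - (ζ⁻¹ : Oˣ))) = _
    rw [← mul_assoc, hh2i, one_mul]
  have hκ0 : ∀ t, ∀ ζ ∈ Z t, (ζ : O) ≠ (ζ⁻¹ : Oˣ) := by
    intro t ζ hζ h
    have h3 : (ζ : O) * ζ = 1 := by
      nth_rewrite 2 [h]
      exact ζ.mul_inv
    have h4 : ((ζ : O) - 1) * ((ζ : O) + 1) = 0 := by linear_combination h3
    have h5 : IsUnit ((ζ : O) + 1) := by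
      by_contra hu
      have h6 : (ζ : O) + 1 ∈ maximalIdeal O := hu
      have h7 : (2 : O) ∈ maximalIdeal O := by
        have h8 : (2 : O) = ((ζ : O) + 1) - ((ζ : O) - 1) := by ring
        rw [h8]
        exact sub_mem h6 (hZ3 t ζ hζ)
      exact h7 h2
    have h9 := (h5.mul_left_eq_zero).mp h4
    exact hZ1 t ζ hζ (Units.ext (sub_eq_zero.mp h9))
  have hκm : ∀ t, ∀ ζ ∈ Z t, κ ζ ∈ maximalIdeal O := by
    intro t ζ hζ
    refine Ideal.mul_mem_left _ _ ?_
    have h3 : (ζ : O) - (ζ⁻¹ : Oˣ) = ((ζ : O) - 1) + (ζ⁻¹ : Oˣ) * ((ζ : O) - 1) := by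
      have h4 : ((ζ⁻¹ : Oˣ) : O) * ζ = 1 := ζ.inv_mul
      linear_combination -h4
    rw [h3]
    exact add_mem (hZ3 t ζ hζ) (Ideal.mul_mem_left _ _ (hZ3 t ζ hζ))
  have hvu : ∀ t, IsUnit (v t) := by
    intro t
    by_contra hu
    have h3 : v t ∈ maximalIdeal O := hu
    have h4 : (1 : O) ∈ maximalIdeal O := by
      have h5 : (1 : O) = v t * v t - (v t ^ 2 - 1) := by ring
      rw [h5]
      exact sub_mem (Ideal.mul_mem_left _ _ h3) (hv t)
    exact (Ideal.ne_top_iff_one _).mp (maximalIdeal.isMaximal O).ne_top h4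
  -- the square roots
  have hs : ∀ t, ∃ s : B, s ^ 2 = 1 + (X t 0 ^ 2 + X t 1 * X t 2) ∧ s - 1 ∈ maximalIdeal B := by
    intro t
    refine exists_sqrt h2B isUnit_one ?_
    have h3 : (1 : B) ^ 2 - (1 + (X t 0 ^ 2 + X t 1 * X t 2)) =
      -(X t 0 * X t 0 + X t 1 * X t 2) := by ring
    rw [h3]
    exact neg_mem (add_mem (Ideal.mul_mem_left _ _ (hX t 0)) (Ideal.mul_mem_left _ _ (hX t 2)))
  have hc : ∀ t, ∃ c : B, c ^ 2 = q t + (X t 3 ^ 2 + X t 4 * X t 5) ∧
      c - algebraMap O B (v t) ∈ maximalIdeal B := by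
    intro t
    refine exists_sqrt h2B ((hvu t).map _) ?_
    have h3 : (algebraMap O B (v t)) ^ 2 - ((q t : B) + (X t 3 ^ 2 + X t 4 * X t 5)) =
      algebraMap O B (v t ^ 2 - 1) - algebraMap O B ((q t : O) - 1) -
        (X t 3 * X t 3 + X t 4 * X t 5) := by
      simp only [map_sub, map_pow, map_natCast, map_one]
      ring
    rw [h3]
    exact sub_mem (sub_mem (hOB _ (hv t)) (hOB _ (hq t)))
      (add_mem (Ideal.mul_mem_left _ _ (hX t 3)) (Ideal.mul_mem_left _ _ (hX t 5)))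
  choose s hs1 hs2 using hs
  choose c hc1 hc2 using hc
  -- constant rank
  choose L' hL' using fun n => (⟨(L n).some, trivial⟩ :
    ∃ _ : TWLevel O ϖ p r n D B X q v Z t₀, True)
  obtain ⟨d, hd⟩ := exists_const (fun n => (L' n).d) (fun n => (L' n).d_le)
  choose N hN1 hN2 using hd
  have hd0 : 0 < d := by
    rw [← hN2 0]
    exact (L' (N 0)).d_pos
  choose F hF1 hF2 hF3 using fun n => exists_flevel (L' (N n)) (hN2 n)
  -- the limit
  haveI : IsAdicComplete (maximalIdeal (MvPowerSeries (Fin r) O)) (MvPowerSeries (Fin r) O) :=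
    Fermat.Agent.H57.isAdicComplete_mvPowerSeries_fin O r
  haveI : Finite (ResidueField (MvPowerSeries (Fin r) O)) :=
    Fermat.Agent.H57.finite_residueField_mvPowerSeries O (Fin r)
  haveI : IsDomain (MvPowerSeries (Fin r) O) := NoZeroDivisors.to_isDomain _
  obtain ⟨F', hF'1, hF'2, -⟩ := exists_free_limit
    (I := fun n => twIdeal O (fun j => p ^ (L' (N n)).e j))
    (fun n => (twIdeal_le_pow hpO (L' (N n)).e (N := n) fun j =>
      (hN1 n).trans ((L' (N n)).le_e j))) F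
  have hφC : ∀ x, F'.φ (MvPowerSeries.C x) = algebraMap O B x := fun x =>
    hF'1 _ _ fun n => hF1 n x
  have hkill : ∀ f : B, (∀ n, (L' (N n)).Kills f) → MulLe F' () ⊥ f :=
    fun f hf => hF'2 () ⊥ f (fun n => hF2 n f (hf n))
  have hh : MulLe F' () (Ideal.span {MvPowerSeries.C ϖ})
      (4 * (X t₀ 3 ^ 2 + X t₀ 4 * X t₀ 5) - ((q t₀ : B) - 1) ^ 2) :=
    hF'2 () (Ideal.span {MvPowerSeries.C ϖ}) _ (fun n => hF3 n _ (h_smul_B (L' (N n))))
  refine endgame_level F' () hd0 (le_ringKrullDim_mvPowerSeries O r)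
    (Ideal.span {MvPowerSeries.C ϖ}) _ hh Q hQ ?_ ?_ ?_
  · rw [Ideal.map_span, Set.image_singleton, hφC, Ideal.span_le]
    simpa using hQϖ
  · intro h
    have h3 : 4 * (X t₀ 3 ^ 2 + X t₀ 4 * X t₀ 5) ∈ Q := by
      have h4 : 4 * (X t₀ 3 ^ 2 + X t₀ 4 * X t₀ 5) =
        (4 * (X t₀ 3 ^ 2 + X t₀ 4 * X t₀ 5) - ((q t₀ : B) - 1) ^ 2) +
          algebraMap O B ((q t₀ : O) - 1) * algebraMap O B ((q t₀ : O) - 1) := by
        simp only [map_sub, map_natCast, map_one]
        ring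
      rw [h4]
      exact add_mem h (Ideal.mul_mem_left _ _ (hQm _ (hq t₀)))
    exact hQt ((Ideal.unit_mul_mem_iff_mem Q h4B).mp h3)
  · intro P hP hann hPS
    have hPO : ∀ x : O, algebraMap O B x ∈ P → x = 0 := by
      intro x hx
      rw [← hφC] at hx
      have h3 := congrArg MvPowerSeries.constantCoeff (hPS _ hx)
      simpa using h3
    -- choice of the component
    have hζ : ∀ t, ∃ ζ ∈ Z t, X t 0 ^ 2 + X t 1 * X t 2 - algebraMap O B (κ ζ) ^ 2 ∈ P := by
      intro t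
      have h3 := hann _ (hkill _ fun n => prod_smul_B (L' (N n)) κ hκ t)
      obtain ⟨ζ, hζ, h4⟩ := (Ideal.IsPrime.prod_mem_iff (hp := hP)).mp h3
      exact ⟨ζ, hζ, (Ideal.unit_mul_mem_iff_mem P h4B).mp h4⟩
    choose ζ hζZ hζP using hζ
    obtain ⟨J, hJ1, hJ2, hJ3⟩ := hdom (fun t => κ (ζ t))
      (fun t h => hκ0 t _ (hζZ t) (sub_eq_zero.mp (by rw [← hκ, h, mul_zero])))
      (fun t => hκm t _ (hζZ t))
    -- the commutation relations modulo `P`
    have hcomm : ∀ t, X t 0 * X t 4 - X t 1 * X t 3 ∈ P ∧ X t 0 * X t 5 - X t 2 * X t 3 ∈ P ∧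
        X t 1 * X t 5 - X t 2 * X t 4 ∈ P := by
      intro t
      let π := Ideal.Quotient.mk P
      haveI : IsDomain (B ⧸ P) := Ideal.Quotient.isDomain P
      haveI : IsLocalRing (B ⧸ P) :=
        IsLocalRing.of_surjective' π Ideal.Quotient.mk_surjective
      have hπm : ∀ x ∈ maximalIdeal B, π x ∈ maximalIdeal (B ⧸ P) := fun x hx =>
        le_comap_of_surjective π Ideal.Quotient.mk_surjective hx
      have h2P : IsUnit (2 : B ⧸ P) := by
        have := h2B.map π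
        rwa [map_ofNat] at this
      let z : B ⧸ P := π (algebraMap O B (ζ t : O))
      let z' : B ⧸ P := π (algebraMap O B ((ζ t)⁻¹ : Oˣ))
      have hzz : z * z' = 1 := by
        change π (algebraMap O B (ζ t : O)) * π (algebraMap O B ((ζ t)⁻¹ : Oˣ)) = 1
        rw [← map_mul, ← map_mul, Units.mul_inv, map_one, map_one]
      have hzne : z ≠ z' := by
        intro h
        have h3 : algebraMap O B ((ζ t : O) - ((ζ t)⁻¹ : Oˣ)) ∈ P := by
          rw [map_sub, ← Ideal.Quotient.eq_zero_iff_mem, map_sub, sub_eq_zero]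
          exact h
        exact hκ0 t _ (hζZ t) (sub_eq_zero.mp (hPO _ h3))
      have hzpow : z ^ (q t - 1) = 1 := by
        change (π (algebraMap O B (ζ t : O))) ^ (q t - 1) = 1
        rw [← map_pow, ← map_pow]
        have h3 : ((ζ t : O)) ^ (q t - 1) = 1 := by
          rw [← Units.val_pow_eq_pow_val, hZ2 t _ (hζZ t), Units.val_one]
        rw [h3, map_one, map_one]
      have hsP : (π (s t)) ^ 2 = 1 + (π (X t 0) ^ 2 + π (X t 1) * π (X t 2)) := by
        rw [← map_pow, hs1 t]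
        simp only [map_add, map_one, map_pow, map_mul]
      have hκP : π (X t 0) ^ 2 + π (X t 1) * π (X t 2) = (π (algebraMap O B (κ (ζ t)))) ^ 2 := by
        have h3 := Ideal.Quotient.eq_zero_iff_mem.mpr (hζP t)
        simp only [map_sub, map_add, map_mul, map_pow] at h3
        exact sub_eq_zero.mp h3
      have h2κ : 2 * π (algebraMap O B (κ (ζ t))) = z - z' := by
        have h3 := congrArg (fun x => π (algebraMap O B x)) (hκ (ζ t))
        simp only [map_mul, map_sub, map_ofNat] at h3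
        exact h3
      have h2s : 2 * π (s t) = z + z' := by
        refine sqrt_unique h2P (v := 2) h2P ?_ ?_ ?_
        · linear_combination 4 * hsP + 4 * hκP +
            (2 * π (algebraMap O B (κ (ζ t))) + (z - z')) * h2κ - 4 * hzz
        · have h3 := hπm _ (hs2 t)
          rw [map_sub, map_one] at h3
          have h4 : 2 * π (s t) - 2 = 2 * (π (s t) - 1) := by ring
          rw [h4]
          exact Ideal.mul_mem_left _ _ h3
        · have h3 : ∀ w ∈ maximalIdeal O, π (algebraMap O B w) ∈ maximalIdeal (B ⧸ P) :=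
            fun w hw => hπm _ (hOB _ hw)
          have h4 := h3 _ (hZ3 t _ (hζZ t))
          have h5 := h3 _ (Ideal.mul_mem_left _ (-((ζ t)⁻¹ : Oˣ) : O) (hZ3 t _ (hζZ t)))
          have h6 : z + z' - 2 = π (algebraMap O B ((ζ t : O) - 1)) +
              π (algebraMap O B (-((ζ t)⁻¹ : Oˣ) * ((ζ t : O) - 1))) := by
            have h7 : (-((ζ t)⁻¹ : Oˣ) * ((ζ t : O) - 1) : O) = ((ζ t)⁻¹ : Oˣ) - 1 := by
              have h8 : (((ζ t)⁻¹ : Oˣ) : O) * ζ t = 1 := (ζ t).inv_mul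
              linear_combination -h8
            rw [h7]
            simp only [map_sub, map_one]
            change z + z' - 2 = (z - 1) + (z' - 1)
            ring
          rw [h6]
          exact add_mem h4 h5
      have hG : ∀ i j, gB X q (s t) (c t) t i j ∈ P := by
        intro i j
        exact hann _ (hkill _ fun n =>
          gB_kills (L' (N n)) h2B (hvu t) (hs1 t) (hs2 t) (hc1 t) (hc2 t) i j)
      have hG' : π.mapMatrix (gB X q (s t) (c t) t) = 0 := by
        ext i j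
        exact Ideal.Quotient.eq_zero_iff_mem.mpr (hG i j)
      have htame : (!![π (c t) + π (X t 3), π (X t 4); π (X t 5), π (c t) - π (X t 3)] :
          Matrix (Fin 2) (Fin 2) (B ⧸ P)) *
          !![π (s t) + π (X t 0), π (X t 1); π (X t 2), π (s t) - π (X t 0)] =
          !![π (s t) + π (X t 0), π (X t 1); π (X t 2), π (s t) - π (X t 0)] ^ q t *
          !![π (c t) + π (X t 3), π (X t 4); π (X t 5), π (c t) - π (X t 3)] := by
        have e1 : π.mapMatrix (phB X (c t) t) =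
            !![π (c t) + π (X t 3), π (X t 4); π (X t 5), π (c t) - π (X t 3)] := by
          ext i j
          fin_cases i <;> fin_cases j <;> simp [phB]
        have e2 : π.mapMatrix (sgB X (s t) t) =
            !![π (s t) + π (X t 0), π (X t 1); π (X t 2), π (s t) - π (X t 0)] := by
          ext i j
          fin_cases i <;> fin_cases j <;> simp [sgB]
        rw [gB, map_sub, map_mul, map_mul, map_pow, e1, e2, sub_eq_zero] at hG'
        exact hG'
      obtain ⟨r1, r2, r3⟩ := comm_of_tame h2P.ne_zero (hq0 t) hzz hzne hzpow hsP h2s htame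
      refine ⟨?_, ?_, ?_⟩
      · rw [← Ideal.Quotient.eq_zero_iff_mem, map_sub, map_mul, map_mul, sub_eq_zero]
        exact r1
      · rw [← Ideal.Quotient.eq_zero_iff_mem, map_sub, map_mul, map_mul, sub_eq_zero]
        exact r2
      · rw [← Ideal.Quotient.eq_zero_iff_mem, map_sub, map_mul, map_mul, sub_eq_zero]
        exact r3
    refine ⟨J, hJ1, ?_, ?_, hJ2⟩
    · exact hJ3 P hζP (fun t => (hcomm t).1) (fun t => (hcomm t).2.1) fun t => (hcomm t).2.2
    · refine hJ3 Q ?_ ?_ ?_ ?_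
      · intro t
        refine sub_mem (add_mem ?_ (Ideal.mul_mem_right _ _ (hQ1 t))) ?_
        · rw [pow_two]
          exact Ideal.mul_mem_right _ _ (hQ0 t)
        · rw [pow_two]
          exact Ideal.mul_mem_right _ _ (hQm _ (hκm t _ (hζZ t)))
      · intro t
        exact sub_mem (Ideal.mul_mem_right _ _ (hQ0 t)) (Ideal.mul_mem_right _ _ (hQ1 t))
      · intro t
        exact sub_mem (Ideal.mul_mem_right _ _ (hQ0 t)) (Ideal.mul_mem_right _ _ (hQ2 t))
      · intro t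
        exact sub_mem (Ideal.mul_mem_right _ _ (hQ1 t)) (Ideal.mul_mem_right _ _ (hQ2 t))

end Main

end Fermat.Agent.H69.EG
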