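/-
Patching without target, with the ultrafilter exposed: varying elements and varying points pass to
the limit as well.
-/
import Fermat.Agent.H69KFree
import Fermat.Agent.H69NoPatch

set_option autoImplicit false
set_option linter.style.haveILetI false

namespace Fermat.Agent.H57.NM

open IsLocalRing Fermat.Agent.H57 Fermat.Agent.H69.KP Fermat.Agent.H69.EG

variable {S B : Type} [CommRing S] [CommRing B] {ι : Type} {d : ι → ℕ}

section Main

variable [IsLocalRing S] [IsNoetherianRing S] [IsAdicComplete (maximalIdeal S) S]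
  [Finite (ResidueField S)]
  [IsLocalRing B] [IsNoetherianRing B] [IsAdicComplete (maximalIdeal B) B]
  [Finite (ResidueField B)]

/-- **Patching limit without target.** -/
theorem exists_free_ulimit {I : ℕ → Ideal S} (hI : ∀ n, I n ≤ maximalIdeal S ^ n)
    (L : ∀ n, FLevel S B d (I n)) (U : Ultrafilter ℕ) (hU : ∀ k, ∀ᶠ n in (U : Filter ℕ), k ≤ n) :
    ∃ L' : FLevel S B d (⊥ : Ideal S),
      (∀ s, IsULim (maximalIdeal B) U (fun n => (L n).φ s) (L'.φ s)) ∧
      (∀ τ f i j, IsULim (maximalIdeal S) U (fun n => Θ (L n).toK τ f i j)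
        (Θ L'.toK τ f i j)) := by
  classical
  -- finiteness and completeness
  have hSfin' : ∀ k, Finite (S ⧸ (maximalIdeal S ^ k • ⊤ : Submodule S S)) := fun k => by
    rw [smul_eq_mul, Ideal.mul_top]; exact finite_quot_pow S k
  have hBfin' : ∀ k, Finite (B ⧸ (maximalIdeal B ^ k • ⊤ : Submodule B B)) := fun k => by
    rw [smul_eq_mul, Ideal.mul_top]; exact finite_quot_pow B k
  -- the limits
  have exS : ∀ x : ℕ → S, ∃ z, IsULim (maximalIdeal S) U x z := exists_isULim U hSfin'
  have exB : ∀ x : ℕ → B, ∃ z, IsULim (maximalIdeal B) U x z := exists_isULim U hBfin'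
  choose φl hφl using fun s : S => exB fun n => (L n).φ s
  choose Θl hΘl using fun (τ : ι) (f : B) (i j : Fin (d τ)) =>
    exS fun n => Θ (L n).toK τ f i j
  -- membership conversions
  have memS : ∀ k (x : S), x ∈ (maximalIdeal S ^ k • ⊤ : Submodule S S) ↔
      x ∈ maximalIdeal S ^ k := fun k x => by rw [smul_eq_mul, Ideal.mul_top]
  have memB : ∀ k (x : B), x ∈ (maximalIdeal B ^ k • ⊤ : Submodule B B) ↔
      x ∈ maximalIdeal B ^ k := fun k x => by rw [smul_eq_mul, Ideal.mul_top]
  -- closedness: membership in `K ⊔ I n` passes to the limit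
  have closed : ∀ {K : Ideal S} {x : ℕ → S} {z : S}, IsULim (maximalIdeal S) U x z →
      (∀ n, x n ∈ K ⊔ I n) → z ∈ K := by
    intro K x z hx h
    refine mem_of_forall_mem_sup_pow fun k => ?_
    obtain ⟨n, h1, h2⟩ := ((hx k).and (hU k)).exists
    rw [memS] at h1
    have h3 : x n ∈ K ⊔ maximalIdeal S ^ k :=
      sup_le_sup_left ((hI n).trans (Ideal.pow_le_pow_right h2)) K (h n)
    have h4 := Ideal.sub_mem _ h3 (Ideal.mem_sup_right h1)
    simpa using h4
  have key : ∀ {x y : ℕ → S} {z w : S}, IsULim (maximalIdeal S) U x z →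
      IsULim (maximalIdeal S) U y w → (∀ n, x n - y n ∈ I n) → z = w := by
    intro x y z w hx hy h
    refine IsULim.unique hx (hy.congr fun k => ?_)
    filter_upwards [hU k] with n hn
    rw [memS]
    exact Ideal.pow_le_pow_right hn (hI n (h n))
  have limconst : ∀ x : S, IsULim (maximalIdeal S) U (fun _ => x) x := fun x => IsULim.const x
  -- ring homomorphisms
  let φL : S →+* B :=
    { toFun := φl
      map_one' := IsULim.unique (hφl 1) (by simpa using IsULim.const (1 : B))
      map_mul' := fun f g => IsULim.unique (hφl (f * g))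
        (by simpa using (hφl f).mul (hφl g))
      map_zero' := IsULim.unique (hφl 0) (by simpa using IsULim.const (0 : B))
      map_add' := fun f g => IsULim.unique (hφl (f + g))
        (by simpa using (hφl f).add (hφl g)) }
  have hφL : ∀ f, φL f = φl f := fun _ => rfl
  let ΘL : ∀ τ, B →+* Matrix (Fin (d τ)) (Fin (d τ)) S := fun τ =>
    { toFun := fun f => Matrix.of fun i j => Θl τ f i j
      map_one' := by
        apply Matrix.ext
        intro i j
        rw [Matrix.of_apply, Matrix.one_apply]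
        exact key (hΘl τ 1 i j) (limconst _) fun n => Θ_one (L n).toK τ i j
      map_mul' := by
        intro f g
        apply Matrix.ext
        intro i j
        rw [Matrix.of_apply, Matrix.mul_apply]
        exact key (hΘl τ (f * g) i j)
          (IsULim.sum Finset.univ fun l _ => (hΘl τ f i l).mul (hΘl τ g l j))
          fun n => Θ_mul (L n).toK τ f g i j
      map_zero' := by
        apply Matrix.ext
        intro i j
        rw [Matrix.of_apply, Matrix.zero_apply]
        refine key (hΘl τ 0 i j) (limconst _) fun n => ?_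
        have h1 := Θ_φ (L n).toK τ 0 i j
        simpa using h1
      map_add' := by
        intro f g
        apply Matrix.ext
        intro i j
        rw [Matrix.of_apply, Matrix.add_apply]
        exact key (hΘl τ (f + g) i j) ((hΘl τ f i j).add (hΘl τ g i j))
          fun n => Θ_add (L n).toK τ f g i j }
  have hΘL : ∀ τ f i j, ΘL τ f i j = Θl τ f i j := fun _ _ _ _ => rfl
  let D : MatLim S B PUnit.{1} (fun _ : ι => PUnit.{1}) d ⊤ :=
    { φ := φL
      ψ := (L 0).toK.ψ
      ψ_surjective := (L 0).toK.ψ_surjective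
      ψ_φ := fun _ => rfl
      Θ := ΘL
      Θ_φ := by
        intro τ s i j
        refine IsULim.unique (hΘl τ (φL s) i j) ((limconst _).congr fun k => ?_)
        have := finite_quot_pow S k
        filter_upwards [hφl s ((Nat.card (S ⧸ maximalIdeal S ^ k)) ^ d τ), hU k] with n hn1 hn2
        rw [memB] at hn1
        rw [memS]
        have h1 := Θ_mem (L n).toK k τ _ hn1 i j
        have h2 : maximalIdeal S ^ k ⊔ I n ≤ maximalIdeal S ^ k :=
          sup_le le_rfl ((hI n).trans (Ideal.pow_le_pow_right hn2))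
        have h3 := (I n).sub_mem (Θ_φ (L n).toK τ s i j)
          (Θ_add (L n).toK τ ((L n).φ s - φl s) (φl s) i j)
        have h6 : (L n).toK.φ s = (L n).φ s := rfl
        rw [sub_add_cancel, h6] at h3
        have h4 := Ideal.sub_mem _ (h2 (Ideal.mem_sup_right h3)) (h2 h1)
        have h5 : Θ (L n).toK τ (φL s) i j - (if i = j then s else 0) =
            Θ (L n).toK τ ((L n).φ s) i j - (if i = j then s else 0) -
              (Θ (L n).toK τ ((L n).φ s) i j -
                (Θ (L n).toK τ ((L n).φ s - φl s) i j + Θ (L n).toK τ (φL s) i j)) -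
              Θ (L n).toK τ ((L n).φ s - φl s) i j := by
          rw [hφL]; ring
        rw [h5]
        exact h4
      e := fun _ _ => PUnit.unit
      e_compat := fun _ _ _ => rfl
      e_span := fun _ _ => ⟨0, rfl⟩
      e_indep := fun _ _ _ _ => trivial }
  -- matrices of the limit level
  have hΘD : ∀ τ f i j, Θ D.toLevel τ f i j = Θl τ f i j := by
    intro τ f i j
    have h1 := Θ_spec D.toLevel τ f j
    have h2 : f • D.toLevel.b τ j = ∑ i, D.toLevel.φ (Θl τ f i j) • D.toLevel.b τ i := by
      refine Eq.trans ?_ (D.sum_φ_smul_single τ fun i => Θl τ f i j).symm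
      letI := D.instMod τ
      refine LimMod.ext fun i => ?_
      refine (D.coord_smul τ f (LimMod.mk (Pi.single j 1)) i).trans ?_
      rw [Finset.sum_eq_single j]
      · rw [LimMod.coord_mk, Pi.single_eq_same, mul_one, LimMod.coord_mk]
        rfl
      · intro l _ hl
        rw [LimMod.coord_mk, Pi.single_eq_of_ne hl, mul_zero]
      · simp
    have h3 := sub_mem_of_eq D.toLevel (h1.symm.trans h2) i
    rwa [Submodule.mem_bot, sub_eq_zero] at h3
  refine ⟨FLevel.ofK D.toLevel, hφl, fun τ f i j => ?_⟩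
  have h1 : Θ (FLevel.ofK D.toLevel).toK τ f i j = Θl τ f i j := hΘD τ f i j
  rw [h1]
  exact hΘl τ f i j

/-- **Transfer** of the relation `f_n N_n ⊆ K N_n` for a converging sequence `f_n`. -/
theorem mulLe_of_ulimit {I : ℕ → Ideal S} (hI : ∀ n, I n ≤ maximalIdeal S ^ n)
    (L : ∀ n, FLevel S B d (I n)) (U : Ultrafilter ℕ) (hU : ∀ k, ∀ᶠ n in (U : Filter ℕ), k ≤ n)
    (L' : FLevel S B d (⊥ : Ideal S))
    (hΘ : ∀ τ f i j, IsULim (maximalIdeal S) U (fun n => Θ (L n).toK τ f i j)
        (Θ L'.toK τ f i j))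
    (τ : ι) (K : Ideal S) {f : ℕ → B} {f' : B} (hf : IsULim (maximalIdeal B) U f f')
    (h : ∀ n, MulLe (L n) τ K (f n)) : MulLe L' τ K f' := by
  refine smul_mem_of_Θ_mem L'.toK τ f' fun i j => Ideal.mem_sup_left ?_
  refine mem_of_forall_mem_sup_pow fun k => ?_
  have := finite_quot_pow S k
  obtain ⟨n, h1, h2, h3⟩ := ((hΘ τ f' i j k).and ((hU k).and
    (hf ((Nat.card (S ⧸ maximalIdeal S ^ k)) ^ d τ)))).exists
  rw [smul_eq_mul, Ideal.mul_top] at h1 h3
  have h4 := Θ_mem_of_smul_mem (L n).toK τ (f n) (h n) i j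
  have h5 := Θ_mem (L n).toK k τ _ h3 i j
  have h6 := Θ_add (L n).toK τ (f n - f') f' i j
  rw [sub_add_cancel] at h6
  have hIk : I n ≤ maximalIdeal S ^ k := (hI n).trans (Ideal.pow_le_pow_right h2)
  have h7 : Θ (L n).toK τ (f n) i j ∈ K ⊔ maximalIdeal S ^ k :=
    sup_le_sup_left hIk K h4
  have h8 : Θ (L n).toK τ (f n - f') i j ∈ K ⊔ maximalIdeal S ^ k :=
    Ideal.mem_sup_right (sup_le le_rfl hIk h5)
  have h9 : Θ (L n).toK τ (f n) i j - (Θ (L n).toK τ (f n - f') i j + Θ (L n).toK τ f' i j) ∈
      K ⊔ maximalIdeal S ^ k := Ideal.mem_sup_right (hIk h6)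
  have h10 : Θ L'.toK τ f' i j = Θ (L n).toK τ (f n) i j - Θ (L n).toK τ (f n - f') i j -
      (Θ (L n).toK τ (f n) i j - (Θ (L n).toK τ (f n - f') i j + Θ (L n).toK τ f' i j)) -
      (Θ (L n).toK τ f' i j - Θ L'.toK τ f' i j) := by ring
  rw [h10]
  exact sub_mem (sub_mem (sub_mem h7 h8) h9) (Ideal.mem_sup_right h1)

/-- **Transfer** of isomorphisms modulo `K`. -/
theorem nonempty_equiv_of_ulimit {I : ℕ → Ideal S} (hI : ∀ n, I n ≤ maximalIdeal S ^ n)
    (L : ∀ n, FLevel S B d (I n)) (U : Ultrafilter ℕ) (hU : ∀ k, ∀ᶠ n in (U : Filter ℕ), k ≤ n)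
    (L' : FLevel S B d (⊥ : Ideal S))
    (hΘ : ∀ τ f i j, IsULim (maximalIdeal S) U (fun n => Θ (L n).toK τ f i j)
        (Θ L'.toK τ f i j)) (τ τ' : ι) (K : Ideal S)
    (h : ∀ n, Nonempty (((L n).N τ ⧸ (K.map (L n).φ • ⊤ : Submodule B ((L n).N τ))) ≃ₗ[B]
          ((L n).N τ' ⧸ (K.map (L n).φ • ⊤ : Submodule B ((L n).N τ'))))) :
    Nonempty ((L'.N τ ⧸ (K.map L'.φ • ⊤ : Submodule B (L'.N τ))) ≃ₗ[B]
          (L'.N τ' ⧸ (K.map L'.φ • ⊤ : Submodule B (L'.N τ')))) := by
  classical
  have hSfin' : ∀ k, Finite (S ⧸ (maximalIdeal S ^ k • ⊤ : Submodule S S)) := fun k => by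
    rw [smul_eq_mul, Ideal.mul_top]; exact finite_quot_pow S k
  have exS : ∀ x : ℕ → S, ∃ z, IsULim (maximalIdeal S) U x z := exists_isULim U hSfin'
  have memS : ∀ k (x : S), x ∈ (maximalIdeal S ^ k • ⊤ : Submodule S S) ↔
      x ∈ maximalIdeal S ^ k := fun k x => by rw [smul_eq_mul, Ideal.mul_top]
  have closed : ∀ {K : Ideal S} {x : ℕ → S} {z : S}, IsULim (maximalIdeal S) U x z →
      (∀ n, x n ∈ K ⊔ I n) → z ∈ K := by
    intro K x z hx h
    refine mem_of_forall_mem_sup_pow fun k => ?_
    obtain ⟨n, h1, h2⟩ := ((hx k).and (hU k)).exists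
    rw [memS] at h1
    have h3 : x n ∈ K ⊔ maximalIdeal S ^ k :=
      sup_le_sup_left ((hI n).trans (Ideal.pow_le_pow_right h2)) K (h n)
    have h4 := Ideal.sub_mem _ h3 (Ideal.mem_sup_right h1)
    simpa using h4
  choose A C hAC using fun n => exists_intertwining (L n).toK (h n).some
  choose Al hAl using fun i j => exS fun n => A n i j
  choose Cl hCl using fun i j => exS fun n => C n i j
  refine nonempty_equiv_of_intertwining L'.toK (A := Al) (C := Cl) ⟨?_, ?_, ?_, ?_⟩
  · intro f i j
    refine Ideal.mem_sup_left (closed (K := K) ?_ fun n => (hAC n).comm f i j)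
    have h1 := IsULim.sum Finset.univ fun l _ => (hAl i l).mul (hΘ τ f l j)
    have h2 := IsULim.sum Finset.univ fun l _ => (hΘ τ' f i l).mul (hAl l j)
    have h3 := h1.add ((IsULim.const (I := maximalIdeal S) (U := U) (-1 : S)).mul h2)
    simpa [sub_eq_add_neg] using h3
  · intro f i j
    refine Ideal.mem_sup_left (closed (K := K) ?_ fun n => (hAC n).comm' f i j)
    have h1 := IsULim.sum Finset.univ fun l _ => (hCl i l).mul (hΘ τ' f l j)
    have h2 := IsULim.sum Finset.univ fun l _ => (hΘ τ f i l).mul (hCl l j)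
    have h3 := h1.add ((IsULim.const (I := maximalIdeal S) (U := U) (-1 : S)).mul h2)
    simpa [sub_eq_add_neg] using h3
  · intro i j
    refine Ideal.mem_sup_left (closed (K := K) ?_ fun n => (hAC n).left i j)
    have h1 := IsULim.sum Finset.univ fun l _ => (hCl i l).mul (hAl l j)
    have h3 := h1.add (IsULim.const (I := maximalIdeal S) (U := U)
      (-(if i = j then 1 else 0) : S))
    simpa [sub_eq_add_neg] using h3
  · intro i j
    refine Ideal.mem_sup_left (closed (K := K) ?_ fun n => (hAC n).right i j)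
    have h1 := IsULim.sum Finset.univ fun l _ => (hAl i l).mul (hCl l j)
    have h3 := h1.add (IsULim.const (I := maximalIdeal S) (U := U)
      (-(if i = j then 1 else 0) : S))
    simpa [sub_eq_add_neg] using h3

end Main

section Points

variable {O : Type} [CommRing O] [IsLocalRing O] [IsNoetherianRing O]
  [IsAdicComplete (maximalIdeal O) O] [Finite (ResidueField O)] [IsLocalRing B]

/-- Limits of local homomorphisms. -/
theorem exists_point_ulimit (U : Ultrafilter ℕ) (x : ℕ → B →+* O)
    (hx : ∀ n, maximalIdeal B ≤ (maximalIdeal O).comap (x n)) :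
    ∃ x' : B →+* O, ∀ (f : ℕ → B) (f' : B), IsULim (maximalIdeal B) U f f' →
      IsULim (maximalIdeal O) U (fun n => x n (f n)) (x' f') := by
  have hOfin' : ∀ k, Finite (O ⧸ (maximalIdeal O ^ k • ⊤ : Submodule O O)) := fun k => by
    rw [smul_eq_mul, Ideal.mul_top]; exact finite_quot_pow O k
  choose xl hxl using fun f : B => exists_isULim U hOfin' (fun n => x n f)
  let x' : B →+* O :=
    { toFun := xl
      map_one' := IsULim.unique (hxl 1) (by simpa using IsULim.const (1 : O))
      map_mul' := fun f g => IsULim.unique (hxl (f * g))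
        (by simpa using (hxl f).mul (hxl g))
      map_zero' := IsULim.unique (hxl 0) (by simpa using IsULim.const (0 : O))
      map_add' := fun f g => IsULim.unique (hxl (f + g))
        (by simpa using (hxl f).add (hxl g)) }
  refine ⟨x', fun f f' hf => (hxl f').congr fun k => ?_⟩
  filter_upwards [hf k] with n hn
  rw [smul_eq_mul, Ideal.mul_top] at hn ⊢
  rw [← map_sub]
  exact pow_le_comap_pow (x n) (hx n) k hn

end Points

end Fermat.Agent.H57.NM
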