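/-
`DOM(τ, k, κ)`: the explicit ring of type `chi` is a domain of dimension at most `1 + 3 τ + k`.
-/
import Fermat.Agent.H57TameDim
import Fermat.Agent.H57TameUni

set_option autoImplicit false

namespace Fermat.Agent.H57.Tame

open IsLocalRing

universe u

variable {O : Type u} [CommRing O] [IsDomain O] [IsLocalRing O] [IsNoetherianRing O]
  [IsAdicComplete (maximalIdeal O) O]

/-- The generators of `J_κ`. -/
def domSet (τ k : ℕ) (κ : Fin τ → O) : Set (MvPowerSeries ((Fin τ × Fin 6) ⊕ Fin k) O) :=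
  ⋃ t : Fin τ,
    {MvPowerSeries.X (Sum.inl (t, 0)) ^ 2 +
        MvPowerSeries.X (Sum.inl (t, 1)) * MvPowerSeries.X (Sum.inl (t, 2)) -
        MvPowerSeries.C (κ t ^ 2),
      MvPowerSeries.X (Sum.inl (t, 0)) * MvPowerSeries.X (Sum.inl (t, 4)) -
        MvPowerSeries.X (Sum.inl (t, 1)) * MvPowerSeries.X (Sum.inl (t, 3)),
      MvPowerSeries.X (Sum.inl (t, 0)) * MvPowerSeries.X (Sum.inl (t, 5)) -
        MvPowerSeries.X (Sum.inl (t, 2)) * MvPowerSeries.X (Sum.inl (t, 3)),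
      MvPowerSeries.X (Sum.inl (t, 1)) * MvPowerSeries.X (Sum.inl (t, 5)) -
        MvPowerSeries.X (Sum.inl (t, 2)) * MvPowerSeries.X (Sum.inl (t, 4))}

lemma span_domSet (τ k : ℕ) (κ : Fin τ → O) :
    Ideal.span (domSet τ k κ) = relIdeal (T := Fin τ) k κ κ (fun _ => Typ.chi) := by
  rw [relIdeal, domSet]
  congr 1
  refine Set.iUnion_congr fun t => ?_
  simp only [relSet, bVar, map_pow]

theorem dom (τ k : ℕ) {ϖ : O} (hϖ : maximalIdeal O = Ideal.span {ϖ}) (h2 : (2 : O) ≠ 0)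
    (κ : Fin τ → O) (hκ0 : ∀ t, κ t ≠ 0) (hκm : ∀ t, κ t ∈ maximalIdeal O) :
    (Ideal.span (domSet τ k κ)).IsPrime ∧
      ringKrullDim (MvPowerSeries ((Fin τ × Fin 6) ⊕ Fin k) O ⧸ Ideal.span (domSet τ k κ)) ≤
        ((1 + 3 * τ + k : ℕ) : WithBot ℕ∞) := by
  have hκ : ∀ t, κ t + κ t ≠ 0 := fun t => by
    rw [← two_mul]
    exact mul_ne_zero h2 (hκ0 t)
  rw [span_domSet]
  refine ⟨relIdeal_isPrime k hκ hκ hκm hκm _, ?_⟩
  have h := ringKrullDim_quot_relIdeal_le (T := Fin τ) k hϖ hκm hκm (fun _ => Typ.chi)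
  rwa [Nat.card_eq_fintype_card, Fintype.card_fin] at h

end Fermat.Agent.H57.Tame
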