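/-
`no_patching` for the explicit ring `B = O⟦(T × Fin 6) ⊕ Fin k⟧`: all geometric inputs discharged.
-/
import Fermat.Agent.H69NoPatch
import Fermat.Agent.H57Dom

set_option autoImplicit false
set_option linter.style.haveILetI false
set_option linter.unusedSectionVars false

namespace Fermat.Agent.H69.EG

open IsLocalRing Fermat.Agent.H57.Tame

section Dom

variable {O : Type} [CommRing O] [IsDomain O] [IsDiscreteValuationRing O]
  [IsAdicComplete (maximalIdeal O) O]

/-- the geometric input holds for the explicit ring -/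
theorem domHyp {ϖ : O} (hϖ : maximalIdeal O = Ideal.span {ϖ}) (h2 : (2 : O) ≠ 0)
    (T : Type) [Finite T] (k : ℕ) :
    DomHyp O (BRing O T k) (bVar O k : T → Fin 6 → BRing O T k) (1 + 3 * Nat.card T + k) := by
  intro κ hκ0 hκm
  have hκ : ∀ t, κ t + κ t ≠ 0 := fun t => by
    rw [← two_mul]
    exact mul_ne_zero h2 (hκ0 t)
  refine ⟨relIdeal k κ κ (fun _ => Typ.chi), relIdeal_isPrime k hκ hκ hκm hκm _,
    ringKrullDim_quot_relIdeal_le k hϖ hκm hκm _, ?_⟩
  intro P h1 h2 h3 h4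
  rw [relIdeal, Ideal.span_le, Set.iUnion_subset_iff]
  intro t x hx
  simp only [relSet, Set.mem_insert_iff, Set.mem_singleton_iff] at hx
  rcases hx with rfl | rfl | rfl | rfl
  · exact h1 t
  · exact h2 t
  · exact h3 t
  · exact h4 t

/-- the test prime -/
theorem exists_testPrime (T : Type) [Finite T] (k : ℕ) (t₀ : T) :
    ∃ Q : Ideal (BRing O T k), Q.IsPrime ∧
      (∀ a ∈ maximalIdeal O, (MvPowerSeries.C a : BRing O T k) ∈ Q) ∧
      (∀ t, bVar O k t 0 ∈ Q) ∧ (∀ t, bVar O k t 1 ∈ Q) ∧ (∀ t, bVar O k t 2 ∈ Q) ∧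
      bVar O k t₀ 3 ^ 2 + bVar O k t₀ 4 * bVar O k t₀ 5 ∉ Q := by
  classical
  have hfield : IsAdicComplete (maximalIdeal (ResidueField O)) (ResidueField O) := by
    rw [IsLocalRing.maximalIdeal_eq_bot]
    infer_instance
  have hW : IsAdicComplete (maximalIdeal (MvPowerSeries T (ResidueField O)))
      (MvPowerSeries T (ResidueField O)) := isAdicComplete_mv _ _
  haveI : IsDomain (MvPowerSeries T (ResidueField O)) := NoZeroDivisors.to_isDomain _
  let w : (T × Fin 6) ⊕ Fin k → MvPowerSeries T (ResidueField O) :=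
    Sum.elim (fun p => if p = (t₀, 3) then MvPowerSeries.X t₀ else 0) (fun _ => 0)
  obtain ⟨θ, hC, hX⟩ := exists_mv_eval (σ := (T × Fin 6) ⊕ Fin k)
    ((MvPowerSeries.C).comp (residue O)) (maximalIdeal (MvPowerSeries T (ResidueField O))) w (by
      rintro (p | j)
      · show (if p = (t₀, 3) then MvPowerSeries.X t₀ else 0) ∈ _
        split_ifs
        · exact mv_X_mem _
        · exact Ideal.zero_mem _
      · exact Ideal.zero_mem _)
  have hb : ∀ t j, θ (bVar O k t j) = if (t, j) = (t₀, 3) then MvPowerSeries.X t₀ else 0 :=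
    fun t j => hX (Sum.inl (t, j))
  refine ⟨RingHom.ker θ, RingHom.ker_isPrime θ, ?_, ?_, ?_, ?_, ?_⟩
  · intro a ha
    rw [RingHom.mem_ker, hC, RingHom.comp_apply, (residue_eq_zero_iff a).mpr ha, map_zero]
  · intro t
    rw [RingHom.mem_ker, hb]
    simp
  · intro t
    rw [RingHom.mem_ker, hb]
    simp
  · intro t
    rw [RingHom.mem_ker, hb]
    simp
  · intro h
    rw [RingHom.mem_ker, map_add, map_mul, map_pow, hb, hb, hb] at h
    simp only [if_true] at h
    have h3 : ((t₀, 4) : T × Fin 6) ≠ (t₀, 3) := by simp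
    rw [if_neg h3, zero_mul, add_zero] at h
    have h5 := pow_eq_zero_iff (two_ne_zero) |>.mp h
    have h6 := congrArg (MvPowerSeries.coeff (Finsupp.single t₀ 1)) h5
    rw [MvPowerSeries.coeff_index_single_self_X, map_zero] at h6
    exact one_ne_zero h6

end Dom

/-- **No patching**, final form: there is no compatible family of Taylor--Wiles levels. -/
theorem no_patching_mv {O : Type} [CommRing O] [IsDomain O] [IsDiscreteValuationRing O]
    [IsAdicComplete (maximalIdeal O) O] [Finite (ResidueField O)]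
    {ϖ : O} (hϖ : maximalIdeal O = Ideal.span {ϖ}) {p k D : ℕ}
    (hpO : (p : O) ∈ maximalIdeal O) (h2 : IsUnit (2 : O))
    {T : Type} [Finite T]
    {q : T → ℕ} (hq0 : ∀ t, 1 ≤ q t) (hq : ∀ t, (q t : O) - 1 ∈ maximalIdeal O)
    {v : T → O} (hv : ∀ t, v t ^ 2 - 1 ∈ maximalIdeal O)
    {Z : T → Finset Oˣ} (hZ1 : ∀ t, ∀ ζ ∈ Z t, ζ ≠ 1) (hZ2 : ∀ t, ∀ ζ ∈ Z t, ζ ^ (q t - 1) = 1)
    (hZ3 : ∀ t, ∀ ζ ∈ Z t, (ζ : O) - 1 ∈ maximalIdeal O) {t₀ : T}
    (L : ∀ n, Nonempty (TWLevel O ϖ p (3 * Nat.card T + k) n D (BRing O T k)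
      (bVar O k) q v Z t₀)) : False := by
  haveI : IsAdicComplete (maximalIdeal (BRing O T k)) (BRing O T k) := isAdicComplete_mv _ _
  haveI : Finite (ResidueField (BRing O T k)) :=
    Fermat.Agent.H57.finite_residueField_mvPowerSeries O _
  obtain ⟨Q, hQ, hQC, hQ0, hQ1, hQ2, hQt⟩ := exists_testPrime (O := O) T k t₀
  have hdom := domHyp hϖ h2.ne_zero T k
  have hr : 1 + 3 * Nat.card T + k = (3 * Nat.card T + k) + 1 := by ring
  rw [hr] at hdom
  have hC : ∀ x : O, algebraMap O (BRing O T k) x = MvPowerSeries.C x := fun _ => rfl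
  refine no_patching (B := BRing O T k) (X := bVar O k) hϖ hpO h2 ?_ (fun t i => mv_X_mem _)
    hq0 hq hv hZ1 hZ2 hZ3 hQ ?_ hQ0 hQ1 hQ2 hQt hdom L
  · intro x hx
    rw [hC]
    exact mv_C_mem hx
  · rw [hC]
    exact hQC _ (by rw [hϖ]; exact Ideal.mem_span_singleton_self _)

end Fermat.Agent.H69.EG
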