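/-
Local computations for the non-minimal lifting theorem: consequences of the tame relations modulo a
prime, both for the principal series type and for the unipotent type.
-/
import Fermat.Agent.H57Endgame
import Fermat.Agent.H57FreeLimit
import Fermat.Agent.H69NoPatchMv

set_option autoImplicit false
set_option linter.style.haveILetI false
set_option linter.unusedSectionVars false

namespace Fermat.Agent.H57.NM

open IsLocalRing Fermat.Agent.H57 Fermat.Agent.H57.Tame Fermat.Agent.H69.KP Fermat.Agent.H69.EG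

section Swap

variable {D : Type*} [CommRing D]

/-- conjugation by the Weyl element -/
def wD (d : Fin 6 → D) : Fin 6 → D := ![-d 0, d 2, d 1, -d 3, d 5, d 4]

lemma URel.swap {q s : D} {d : Fin 6 → D} (h : URel q s d) : URel q s (wD d) := by
  obtain ⟨h1, h2, h3, h4, h5, h6⟩ := h
  refine ⟨?_, ?_, ?_, ?_, ?_, ?_⟩ <;> simp only [wD, Matrix.cons_val]
  · linear_combination h1
  · linear_combination h2
  · linear_combination h6
  · linear_combination h5
  · linear_combination h4
  · linear_combination h3

lemma TRel.unswap_st {κ η : D} {d : Fin 6 → D} (h : TRel κ η (wD d) .st) : TRel κ η d .st := by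
  obtain ⟨h1, h2, h3, h4, h5, h6⟩ := h
  simp only [wD, Matrix.cons_val] at h1 h2 h3 h4 h5 h6
  refine ⟨?_, ?_, ?_, ?_, ?_, ?_⟩
  · linear_combination h1
  · linear_combination h5
  · linear_combination h4
  · linear_combination h3
  · linear_combination h2
  · linear_combination h6

/-- in a domain, `uni` and `N ≠ 0` imply Steinberg. -/
theorem URel.st_of_ne [IsDomain D] {q s η : D} {d : Fin 6 → D} (h : URel q s d)
    (hη : q = 1 + 2 * η) (h2 : (2 : D) ≠ 0) (hη0 : η ≠ 0) (hq : q ≠ 0)
    (hq1 : 1 + q ≠ 0) (hs : 2 * s + (1 + q) ≠ 0) (hN : ¬ (d 0 = 0 ∧ d 1 = 0 ∧ d 2 = 0)) (κ : D) :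
    TRel κ η d .st := by
  by_cases h1 : d 1 = 0
  · have h0 : d 0 = 0 := by
      have := h.2.1
      rw [h1, zero_mul, add_zero] at this
      exact pow_eq_zero_iff (two_ne_zero) |>.mp this
    have h2' : d 2 ≠ 0 := fun h2' => hN ⟨h0, h1, h2'⟩
    refine TRel.unswap_st ?_
    refine (URel.swap h).st hη h2 hη0 hq hq1 hs ?_ κ
    simpa [wD] using h2'
  · exact h.st hη h2 hη0 hq hq1 hs h1 κ

end Swap

section Uni

variable {A : Type*} [CommRing A]

lemma one_add_pow_of_sq_zero {N : Matrix (Fin 2) (Fin 2) A} (hN : N * N = 0) (m : ℕ) :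
    (1 + N) ^ m = 1 + m • N := by
  induction m with
  | zero => simp
  | succ m ih =>
    rw [pow_succ, ih, add_mul, one_mul, mul_add, mul_one, smul_mul_assoc, hN, smul_zero, add_zero,
      succ_nsmul]
    abel

/-- the unipotent relations from the tame relation. -/
lemma uRel_of_tame {x y z a b c s u : A} {q : ℕ} (hs : s ^ 2 = 1 + (x ^ 2 + y * z)) (hs1 : s = 1)
    (hu : u ^ 2 = q + (a ^ 2 + b * c))
    (htame : (!![u + a, b; c, u - a] : Matrix (Fin 2) (Fin 2) A) * !![s + x, y; z, s - x] =
      !![s + x, y; z, s - x] ^ q * !![u + a, b; c, u - a]) :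
    URel (q : A) u ![x, y, z, a, b, c] := by
  subst hs1
  have h0 : x ^ 2 + y * z = 0 := by linear_combination -hs
  refine URel.of_matrix (by simpa using hu) (by simpa using h0) ?_
  set N : Matrix (Fin 2) (Fin 2) A := !![x, y; z, -x] with hN
  have hNN : N * N = 0 := by
    rw [hN]
    ext i j
    fin_cases i <;> fin_cases j
    · simp [Matrix.mul_apply, Fin.sum_univ_two]; linear_combination h0
    · simp [Matrix.mul_apply, Fin.sum_univ_two]; ring
    · simp [Matrix.mul_apply, Fin.sum_univ_two]; ring
    · simp [Matrix.mul_apply, Fin.sum_univ_two]; linear_combination h0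
  have hS : (!![1 + x, y; z, 1 - x] : Matrix (Fin 2) (Fin 2) A) = 1 + N := by
    rw [hN]
    ext i j
    fin_cases i <;> fin_cases j <;> simp [sub_eq_add_neg]
  rw [hS, one_add_pow_of_sq_zero hNN, mul_add, add_mul, mul_one, one_mul] at htame
  have h5 := add_left_cancel htame
  simp only [Matrix.cons_val]
  change !![u + a, b; c, u - a] * N = (q : A) • (N * !![u + a, b; c, u - a])
  rw [h5, smul_mul_assoc, Nat.cast_smul_eq_nsmul]

end Uni

end Fermat.Agent.H57.NM
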