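/-
`no_nm_levels`: the endgame of the non-minimal modularity lifting theorem in concrete form.
There is no compatible family of Taylor--Wiles levels together with a point which stays uniformly
away from the support of the unipotent module.
-/
import Fermat.Agent.H57NMLocal

set_option autoImplicit false
set_option linter.style.haveILetI false
set_option linter.unusedSectionVars false

namespace Fermat.Agent.H57.NM

open IsLocalRing Fermat.Agent.H57 Fermat.Agent.H57.Tame Fermat.Agent.H69.KP Fermat.Agent.H69.EG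

/-- The ring part of a level (same fields as `Fermat.Agent.H69.EG.TWLevel`). -/
structure RPart (O : Type) [CommRing O] [IsLocalRing O] {T : Type}
    (B : Type) [CommRing B] [Algebra O B] (X : T → Fin 6 → B) (q : T → ℕ) (v : T → O) :
    Type 1 where
  /-- the deformation ring -/
  R : Type
  [instCommRing : CommRing R]
  [instLocal : IsLocalRing R]
  [instAlgebra : Algebra O R]
  /-- presentation of the deformation ring -/
  β : B →ₐ[O] R
  β_surj : Function.Surjective β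
  /-- generators of tame inertia -/
  Sg : T → Matrix (Fin 2) (Fin 2) R
  /-- Frobenius elements -/
  Ph : T → Matrix (Fin 2) (Fin 2) R
  det_Sg : ∀ t, Sg t 0 0 * Sg t 1 1 - Sg t 0 1 * Sg t 1 0 = 1
  det_Ph : ∀ t, Ph t 0 0 * Ph t 1 1 - Ph t 0 1 * Ph t 1 0 = q t
  tame : ∀ t, Ph t * Sg t = Sg t ^ q t * Ph t
  tr_Sg : ∀ t, Sg t 0 0 + Sg t 1 1 - 2 ∈ maximalIdeal R
  tr_Ph : ∀ t, Ph t 0 0 + Ph t 1 1 - 2 * algebraMap O R (v t) ∈ maximalIdeal R
  hX0 : ∀ t, 2 * β (X t 0) = Sg t 0 0 - Sg t 1 1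
  hX1 : ∀ t, β (X t 1) = Sg t 0 1
  hX2 : ∀ t, β (X t 2) = Sg t 1 0
  hX3 : ∀ t, 2 * β (X t 3) = Ph t 0 0 - Ph t 1 1
  hX4 : ∀ t, β (X t 4) = Ph t 0 1
  hX5 : ∀ t, β (X t 5) = Ph t 1 0

attribute [local instance] RPart.instCommRing RPart.instLocal RPart.instAlgebra

/-- One level of a Taylor--Wiles system for the non-minimal modularity lifting theorem. `M₀` is the
module with non-trivial characters at `T`, `M₁` the unipotent module; `pt` is the point (the
representation to be proved modular) and `f` is an element which annihilates `M₁` modulo the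
diamond variables and which does not vanish at the point. -/
structure NMLevel (O : Type) [CommRing O] [IsLocalRing O] (ϖ : O) (p r n D m : ℕ) {T : Type}
    (B : Type) [CommRing B] [Algebra O B] (X : T → Fin 6 → B) (q : T → ℕ) (v : T → O)
    (Z : T → Finset Oˣ) extends RPart O B X q v where
  /-- the module with non-trivial character -/
  M₀ : Type
  [instAddCommGroup₀ : AddCommGroup M₀]
  [instModule₀ : Module R M₀]
  /-- the unipotent module -/
  M₁ : Type
  [instAddCommGroup₁ : AddCommGroup M₁]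
  [instModule₁ : Module R M₁]
  /-- the ranks -/
  d₀ : ℕ
  d₁ : ℕ
  d₀_pos : 0 < d₀
  d₀_le : d₀ ≤ D
  d₁_le : d₁ ≤ D
  /-- the exponents of the diamond group -/
  e : Fin r → ℕ
  le_e : ∀ j, n ≤ e j
  /-- the diamond operators (through the Galois side) -/
  φ : MvPowerSeries (Fin r) O →ₐ[O] R
  φ_mem : ∀ j, φ (MvPowerSeries.X j) ∈ maximalIdeal R
  /-- the bases -/
  b₀ : Fin d₀ → M₀
  b₀_span : ∀ x : M₀, ∃ c : Fin d₀ → MvPowerSeries (Fin r) O, x = ∑ i, φ (c i) • b₀ i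
  b₀_rel : ∀ c : Fin d₀ → MvPowerSeries (Fin r) O, ∑ i, φ (c i) • b₀ i = 0 ↔
    ∀ i, c i ∈ twIdeal O (fun j => p ^ e j)
  b₁ : Fin d₁ → M₁
  b₁_span : ∀ x : M₁, ∃ c : Fin d₁ → MvPowerSeries (Fin r) O, x = ∑ i, φ (c i) • b₁ i
  b₁_rel : ∀ c : Fin d₁ → MvPowerSeries (Fin r) O, ∑ i, φ (c i) • b₁ i = 0 ↔
    ∀ i, c i ∈ twIdeal O (fun j => p ^ e j)
  prod_smul : ∀ t (x : M₀),
    (∏ ζ ∈ Z t, (Sg t 0 0 + Sg t 1 1 - algebraMap O R ((ζ : O) + (ζ⁻¹ : Oˣ)))) • x = 0
  uni_smul : ∀ t (x : M₁), (Sg t 0 0 + Sg t 1 1 - 2) • x = 0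
  iso : Nonempty ((M₀ ⧸ (Ideal.span {algebraMap O R ϖ} • ⊤ : Submodule R M₀)) ≃ₗ[R]
    (M₁ ⧸ (Ideal.span {algebraMap O R ϖ} • ⊤ : Submodule R M₁)))
  /-- the point -/
  pt : R →ₐ[O] O
  pt_φ : ∀ j, pt (φ (MvPowerSeries.X j)) = 0
  pt_uni : ∀ t, pt (Sg t 0 0 + Sg t 1 1) = 2
  /-- the witness of non-modularity -/
  f : R
  f_smul : ∀ x : M₁, f • x ∈
    (Ideal.span (Set.range fun j => φ (MvPowerSeries.X j)) • ⊤ : Submodule R M₁)
  f_pt : pt f ∉ Ideal.span {ϖ ^ m}

attribute [local instance] NMLevel.instAddCommGroup₀ NMLevel.instAddCommGroup₁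
  NMLevel.instModule₀ NMLevel.instModule₁

section RP

variable {O : Type} [CommRing O] [IsLocalRing O] {T : Type}
  {B : Type} [CommRing B] [Algebra O B] {X : T → Fin 6 → B} {q : T → ℕ} {v : T → O}
  (L : RPart O B X q v)

lemma β_mem [IsLocalRing B] {x : B} (hx : x ∈ maximalIdeal B) : L.β x ∈ maximalIdeal L.R :=
  le_comap_of_surjective (L.β : B →+* L.R) L.β_surj hx

/-- half the trace of `Σ_t` -/
lemma two_mul_β_s [IsLocalRing B] (h2 : IsUnit (2 : B)) {s : B} {t : T}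
    (hs : s ^ 2 = 1 + (X t 0 ^ 2 + X t 1 * X t 2)) (hs1 : s - 1 ∈ maximalIdeal B) :
    2 * L.β s = L.Sg t 0 0 + L.Sg t 1 1 := by
  have h2R : IsUnit (2 : L.R) := by
    have := h2.map L.β
    rwa [map_ofNat] at this
  refine sqrt_unique h2R (v := 2) h2R ?_ ?_ (L.tr_Sg t)
  · have h1 := congrArg L.β hs
    simp only [map_pow, map_add, map_one, map_mul] at h1
    have h3 := L.det_Sg t
    have h4 := L.hX0 t
    rw [L.hX1 t, L.hX2 t] at h1
    linear_combination 4 * h1 + (2 * L.β (X t 0) + (L.Sg t 0 0 - L.Sg t 1 1)) * h4 - 4 * h3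
  · have h5 := β_mem L hs1
    rw [map_sub, map_one] at h5
    have h6 : 2 * L.β s - 2 = 2 * (L.β s - 1) := by ring
    rw [h6]
    exact Ideal.mul_mem_left _ _ h5

/-- half the trace of `Φ_t` -/
lemma two_mul_β_c [IsLocalRing B] (h2 : IsUnit (2 : B)) {c : B} {t : T} (hv : IsUnit (v t))
    (hc : c ^ 2 = q t + (X t 3 ^ 2 + X t 4 * X t 5))
    (hc1 : c - algebraMap O B (v t) ∈ maximalIdeal B) :
    2 * L.β c = L.Ph t 0 0 + L.Ph t 1 1 := by
  have h2R : IsUnit (2 : L.R) := by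
    have := h2.map L.β
    rwa [map_ofNat] at this
  refine sqrt_unique h2R (v := 2 * algebraMap O L.R (v t)) (h2R.mul (hv.map _)) ?_ ?_ (L.tr_Ph t)
  · have h1 := congrArg L.β hc
    simp only [map_pow, map_add, map_natCast, map_mul] at h1
    have h3 := L.det_Ph t
    have h4 := L.hX3 t
    rw [L.hX4 t, L.hX5 t] at h1
    linear_combination 4 * h1 + (2 * L.β (X t 3) + (L.Ph t 0 0 - L.Ph t 1 1)) * h4 - 4 * h3
  · have h5 := β_mem L hc1
    rw [map_sub, AlgHom.commutes] at h5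
    have h6 : 2 * L.β c - 2 * algebraMap O L.R (v t) =
      2 * (L.β c - algebraMap O L.R (v t)) := by ring
    rw [h6]
    exact Ideal.mul_mem_left _ _ h5

lemma two_cancel [IsLocalRing B] (h2 : IsUnit (2 : B)) {x y : L.R} (h : 2 * x = 2 * y) :
    x = y := by
  have h2R : IsUnit (2 : L.R) := by
    have := h2.map L.β
    rwa [map_ofNat] at this
  exact h2R.mul_left_cancel h

lemma map_sgB [IsLocalRing B] (h2 : IsUnit (2 : B)) {s : B} {t : T}
    (hs : s ^ 2 = 1 + (X t 0 ^ 2 + X t 1 * X t 2)) (hs1 : s - 1 ∈ maximalIdeal B) :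
    (L.β : B →+* L.R).mapMatrix (sgB X s t) = L.Sg t := by
  have h3 := two_mul_β_s L h2 hs hs1
  have h4 := L.hX0 t
  ext i j
  fin_cases i <;> fin_cases j
  · simp only [sgB, RingHom.mapMatrix_apply, Fin.zero_eta, Fin.isValue, Matrix.map_apply,
      Matrix.of_apply, Matrix.cons_val', Matrix.cons_val_zero, Matrix.cons_val_fin_one, map_add,
      RingHom.coe_coe]
    exact two_cancel L h2 (by linear_combination h3 + h4)
  · simpa [sgB] using L.hX1 t
  · simpa [sgB] using L.hX2 t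
  · simp only [sgB, RingHom.mapMatrix_apply, Fin.mk_one, Fin.isValue, Matrix.map_apply,
      Matrix.of_apply, Matrix.cons_val', Matrix.cons_val_one, Matrix.cons_val_fin_one, map_sub,
      RingHom.coe_coe]
    exact two_cancel L h2 (by linear_combination h3 - h4)

lemma map_phB [IsLocalRing B] (h2 : IsUnit (2 : B)) {c : B} {t : T} (hv : IsUnit (v t))
    (hc : c ^ 2 = q t + (X t 3 ^ 2 + X t 4 * X t 5))
    (hc1 : c - algebraMap O B (v t) ∈ maximalIdeal B) :
    (L.β : B →+* L.R).mapMatrix (phB X c t) = L.Ph t := by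
  have h3 := two_mul_β_c L h2 hv hc hc1
  have h4 := L.hX3 t
  ext i j
  fin_cases i <;> fin_cases j
  · simp only [phB, RingHom.mapMatrix_apply, Fin.zero_eta, Fin.isValue, Matrix.map_apply,
      Matrix.of_apply, Matrix.cons_val', Matrix.cons_val_zero, Matrix.cons_val_fin_one, map_add,
      RingHom.coe_coe]
    exact two_cancel L h2 (by linear_combination h3 + h4)
  · simpa [phB] using L.hX4 t
  · simpa [phB] using L.hX5 t
  · simp only [phB, RingHom.mapMatrix_apply, Fin.mk_one, Fin.isValue, Matrix.map_apply,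
      Matrix.of_apply, Matrix.cons_val', Matrix.cons_val_one, Matrix.cons_val_fin_one, map_sub,
      RingHom.coe_coe]
    exact two_cancel L h2 (by linear_combination h3 - h4)

lemma β_gB [IsLocalRing B] (h2 : IsUnit (2 : B)) {s c : B} {t : T} (hv : IsUnit (v t))
    (hs : s ^ 2 = 1 + (X t 0 ^ 2 + X t 1 * X t 2)) (hs1 : s - 1 ∈ maximalIdeal B)
    (hc : c ^ 2 = q t + (X t 3 ^ 2 + X t 4 * X t 5))
    (hc1 : c - algebraMap O B (v t) ∈ maximalIdeal B) (i j : Fin 2) :
    L.β (gB X q s c t i j) = 0 := by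
  have h1 : (L.β : B →+* L.R).mapMatrix (gB X q s c t) = 0 := by
    rw [gB, map_sub, map_mul, map_mul, map_pow, map_sgB L h2 hs hs1, map_phB L h2 hv hc hc1,
      L.tame t, sub_self]
  exact congrFun (congrFun h1 i) j

/-- the product relation over `B` -/
lemma β_prod (Z : T → Finset Oˣ) (κ : Oˣ → O) (hκ : ∀ ζ : Oˣ, 2 * κ ζ = (ζ : O) - (ζ⁻¹ : Oˣ))
    (t : T) :
    L.β (∏ ζ ∈ Z t, (4 * (X t 0 ^ 2 + X t 1 * X t 2 - algebraMap O B (κ ζ) ^ 2))) =
      (∏ ζ ∈ Z t, (L.Sg t 0 0 + L.Sg t 1 1 + algebraMap O L.R ((ζ : O) + (ζ⁻¹ : Oˣ)))) *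
      ∏ ζ ∈ Z t, (L.Sg t 0 0 + L.Sg t 1 1 - algebraMap O L.R ((ζ : O) + (ζ⁻¹ : Oˣ))) := by
  rw [map_prod, ← Finset.prod_mul_distrib]
  refine Finset.prod_congr rfl fun ζ _ => ?_
  have h3 := L.det_Sg t
  have h4 := L.hX0 t
  simp only [map_mul, map_ofNat, map_sub, map_add, map_pow, AlgHom.commutes, L.hX1 t, L.hX2 t]
  have h5 : algebraMap O L.R (2 * κ ζ) = algebraMap O L.R ((ζ : O) - (ζ⁻¹ : Oˣ)) := by rw [hκ]
  have h6 : algebraMap O L.R (ζ : O) * algebraMap O L.R (ζ⁻¹ : Oˣ) = 1 := by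
    rw [← map_mul, Units.mul_inv, map_one]
  simp only [map_mul, map_sub, map_ofNat] at h5
  linear_combination (2 * L.β (X t 0) + (L.Sg t 0 0 - L.Sg t 1 1)) * h4 - 4 * h3 -
    (2 * algebraMap O L.R (κ ζ) + (algebraMap O L.R (ζ : O) - algebraMap O L.R (ζ⁻¹ : Oˣ))) * h5
    + 4 * h6

end RP

section Hom

variable {O : Type} [CommRing O] [IsLocalRing O] {T : Type}
  {B : Type} [CommRing B] [Algebra O B] [IsLocalRing B] {X : T → Fin 6 → B} {q : T → ℕ} {v : T → O}
  {D : Type} [CommRing D] (π : B →+* D)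

/-- the tame relation in `D` -/
lemma tame_of_hom {s c : B} {t : T} (hG : ∀ i j, π (gB X q s c t i j) = 0) :
    (!![π c + π (X t 3), π (X t 4); π (X t 5), π c - π (X t 3)] :
          Matrix (Fin 2) (Fin 2) D) *
          !![π s + π (X t 0), π (X t 1); π (X t 2), π s - π (X t 0)] =
          !![π s + π (X t 0), π (X t 1); π (X t 2), π s - π (X t 0)] ^ q t *
          !![π c + π (X t 3), π (X t 4); π (X t 5), π c - π (X t 3)] := by
  have hG' : π.mapMatrix (gB X q s c t) = 0 := by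
    ext i j
    exact hG i j
  have e1 : π.mapMatrix (phB X c t) =
      !![π c + π (X t 3), π (X t 4); π (X t 5), π c - π (X t 3)] := by
    ext i j
    fin_cases i <;> fin_cases j <;> simp [phB]
  have e2 : π.mapMatrix (sgB X s t) =
      !![π s + π (X t 0), π (X t 1); π (X t 2), π s - π (X t 0)] := by
    ext i j
    fin_cases i <;> fin_cases j <;> simp [sgB]
  rw [gB, map_sub, map_mul, map_mul, map_pow, e1, e2, sub_eq_zero] at hG'
  exact hG'

lemma uRel_of_hom {s c : B} {t : T} (hs : s ^ 2 = 1 + (X t 0 ^ 2 + X t 1 * X t 2))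
    (hc : c ^ 2 = q t + (X t 3 ^ 2 + X t 4 * X t 5))
    (hG : ∀ i j, π (gB X q s c t i j) = 0) (hs1 : π s = 1) :
    URel (q t : D) (π c) (fun j => π (X t j)) := by
  have h1 := congrArg π hs
  have h2 := congrArg π hc
  simp only [map_pow, map_add, map_mul, map_one, map_natCast] at h1 h2
  have h3 := uRel_of_tame h1 hs1 h2 (tame_of_hom π hG)
  convert h3 using 1
  funext j
  fin_cases j <;> rfl

lemma tRel_chi_of_hom [IsDomain D] [IsLocalRing D] (hπm : ∀ x ∈ maximalIdeal B,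
      π x ∈ maximalIdeal D) (h2D : IsUnit (2 : D))
    (hOB : ∀ x ∈ maximalIdeal O, algebraMap O B x ∈ maximalIdeal B)
    {s c : B} {t : T} (hq0 : 1 ≤ q t) (hs : s ^ 2 = 1 + (X t 0 ^ 2 + X t 1 * X t 2))
    (hs2 : s - 1 ∈ maximalIdeal B)
    (hG : ∀ i j, π (gB X q s c t i j) = 0) {ζ : Oˣ} {κ η : O}
    (hκ : 2 * κ = (ζ : O) - (ζ⁻¹ : Oˣ)) (hζ2 : ζ ^ (q t - 1) = 1)
    (hζ3 : (ζ : O) - 1 ∈ maximalIdeal O)
    (hζ0 : π (algebraMap O B ((ζ : O) - (ζ⁻¹ : Oˣ))) ≠ 0)
    (hκP : π (X t 0 ^ 2 + X t 1 * X t 2 - algebraMap O B κ ^ 2) = 0) :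
    TRel (π (algebraMap O B κ)) (π (algebraMap O B η)) (fun j => π (X t j)) .chi := by
  let z : D := π (algebraMap O B (ζ : O))
  let z' : D := π (algebraMap O B (ζ⁻¹ : Oˣ))
  have hzz : z * z' = 1 := by
    change π (algebraMap O B (ζ : O)) * π (algebraMap O B (ζ⁻¹ : Oˣ)) = 1
    rw [← map_mul, ← map_mul, Units.mul_inv, map_one, map_one]
  have hzne : z ≠ z' := by
    intro h
    apply hζ0
    rw [map_sub, map_sub, sub_eq_zero]
    exact h
  have hzpow : z ^ (q t - 1) = 1 := by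
    change (π (algebraMap O B (ζ : O))) ^ (q t - 1) = 1
    rw [← map_pow, ← map_pow]
    have h3 : ((ζ : O)) ^ (q t - 1) = 1 := by
      rw [← Units.val_pow_eq_pow_val, hζ2, Units.val_one]
    rw [h3, map_one, map_one]
  have hsP : (π s) ^ 2 = 1 + (π (X t 0) ^ 2 + π (X t 1) * π (X t 2)) := by
    rw [← map_pow, hs]
    simp only [map_add, map_one, map_pow, map_mul]
  have hκP' : π (X t 0) ^ 2 + π (X t 1) * π (X t 2) = (π (algebraMap O B κ)) ^ 2 := by
    have h3 := hκP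
    simp only [map_sub, map_add, map_mul, map_pow] at h3
    exact sub_eq_zero.mp h3
  have h2κ : 2 * π (algebraMap O B κ) = z - z' := by
    have h3 := congrArg (fun x => π (algebraMap O B x)) hκ
    simp only [map_mul, map_sub, map_ofNat] at h3
    exact h3
  have h2s : 2 * π s = z + z' := by
    refine sqrt_unique h2D (v := 2) h2D ?_ ?_ ?_
    · linear_combination 4 * hsP + 4 * hκP' +
        (2 * π (algebraMap O B κ) + (z - z')) * h2κ - 4 * hzz
    · have h3 := hπm _ hs2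
      rw [map_sub, map_one] at h3
      have h4 : 2 * π s - 2 = 2 * (π s - 1) := by ring
      rw [h4]
      exact Ideal.mul_mem_left _ _ h3
    · have h3 : ∀ w ∈ maximalIdeal O, π (algebraMap O B w) ∈ maximalIdeal D :=
        fun w hw => hπm _ (hOB _ hw)
      have h4 := h3 _ hζ3
      have h5 := h3 _ (Ideal.mul_mem_left _ (-(ζ⁻¹ : Oˣ) : O) hζ3)
      have h6 : z + z' - 2 = π (algebraMap O B ((ζ : O) - 1)) +
          π (algebraMap O B (-(ζ⁻¹ : Oˣ) * ((ζ : O) - 1))) := by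
        have h7 : (-(ζ⁻¹ : Oˣ) * ((ζ : O) - 1) : O) = (ζ⁻¹ : Oˣ) - 1 := by
          have h8 : ((ζ⁻¹ : Oˣ) : O) * ζ = 1 := ζ.inv_mul
          linear_combination -h8
        rw [h7]
        simp only [map_sub, map_one]
        change z + z' - 2 = (z - 1) + (z' - 1)
        ring
      rw [h6]
      exact add_mem h4 h5
  obtain ⟨r1, r2, r3⟩ := comm_of_tame h2D.ne_zero hq0 hzz hzne hzpow hsP h2s (tame_of_hom π hG)
  exact ⟨hκP', r1, r2, r3⟩

end Hom

end Fermat.Agent.H57.NM
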