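/-
Conversion of a level into a target-free patching level with two modules.
-/
import Fermat.Agent.H57NMLift

set_option autoImplicit false
set_option linter.style.haveILetI false
set_option linter.unusedSectionVars false

namespace Fermat.Agent.H57.NM

open IsLocalRing Fermat.Agent.H57 Fermat.Agent.H57.Tame Fermat.Agent.H69.KP Fermat.Agent.H69.EG

attribute [local instance] RPart.instCommRing RPart.instLocal RPart.instAlgebra
attribute [local instance] NMLevel.instAddCommGroup₀ NMLevel.instAddCommGroup₁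
  NMLevel.instModule₀ NMLevel.instModule₁

section Fam

/-- a pair of types as a family over `Bool` -/
def fam (M₀ M₁ : Type) : Bool → Type
  | false => M₀
  | true => M₁

variable {B : Type} [CommRing B] {M₀ M₁ : Type} [AddCommGroup M₀] [AddCommGroup M₁]

instance famGroup : ∀ τ, AddCommGroup (fam M₀ M₁ τ)
  | false => inferInstanceAs (AddCommGroup M₀)
  | true => inferInstanceAs (AddCommGroup M₁)

variable [Module B M₀] [Module B M₁]

instance famModule : ∀ τ, Module B (fam M₀ M₁ τ)
  | false => inferInstanceAs (Module B M₀)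
  | true => inferInstanceAs (Module B M₁)

/-- constructor of target-free levels with two modules -/
theorem exists_flevel_of_pair {S : Type} [CommRing S] {I : Ideal S} (φ : S →+* B) {d : Bool → ℕ}
    (b₀ : Fin (d false) → M₀) (b₁ : Fin (d true) → M₁)
    (hs₀ : ∀ x : M₀, ∃ c : Fin (d false) → S, x = ∑ i, φ (c i) • b₀ i)
    (hr₀ : ∀ c : Fin (d false) → S, ∑ i, φ (c i) • b₀ i = 0 ↔ ∀ i, c i ∈ I)
    (hs₁ : ∀ x : M₁, ∃ c : Fin (d true) → S, x = ∑ i, φ (c i) • b₁ i)
    (hr₁ : ∀ c : Fin (d true) → S, ∑ i, φ (c i) • b₁ i = 0 ↔ ∀ i, c i ∈ I) :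
    ∃ F : FLevel S B d I, F.φ = φ ∧
      (∀ (K : Ideal S) (f : B), (∀ x : M₀, f • x ∈ (K.map φ • ⊤ : Submodule B M₀)) →
        MulLe F false K f) ∧
      (∀ (K : Ideal S) (f : B), (∀ x : M₁, f • x ∈ (K.map φ • ⊤ : Submodule B M₁)) →
        MulLe F true K f) ∧
      (∀ (K : Ideal S), Nonempty ((M₀ ⧸ (K.map φ • ⊤ : Submodule B M₀)) ≃ₗ[B]
          (M₁ ⧸ (K.map φ • ⊤ : Submodule B M₁))) →
        Nonempty ((F.N false ⧸ (K.map F.φ • ⊤ : Submodule B (F.N false))) ≃ₗ[B]
          (F.N true ⧸ (K.map F.φ • ⊤ : Submodule B (F.N true))))) := by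
  refine ⟨{ N := fam M₀ M₁
            φ := φ
            b := fun τ => match τ with
              | false => b₀
              | true => b₁
            b_span := fun τ => match τ with
              | false => hs₀
              | true => hs₁
            b_rel := fun τ => match τ with
              | false => hr₀
              | true => hr₁ }, rfl, ?_, ?_, ?_⟩
  · intro K f h x
    exact h x
  · intro K f h x
    exact h x
  · intro K h
    exact h

end Fam

section Level

variable {O : Type} [CommRing O] [IsLocalRing O] {ϖ : O} {p r n D m : ℕ} {T : Type}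
  {B : Type} [CommRing B] [Algebra O B] {X : T → Fin 6 → B} {q : T → ℕ} {v : T → O}
  {Z : T → Finset Oˣ} (L : NMLevel O ϖ p r n D m B X q v Z)

/-- comparison of `K • ⊤` over `B` and over `R` -/
lemma smul_top_iff {R : Type} [CommRing R] (β : B →+* R) (hβ : Function.Surjective β)
    {M : Type} [AddCommGroup M] [Module R M] [Module B M] (hsm : ∀ (f : B) (x : M), f • x = β f • x)
    (K : Ideal B) (x : M) :
    x ∈ (K • ⊤ : Submodule B M) ↔ x ∈ (K.map β • ⊤ : Submodule R M) := by
  constructor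
  · intro h
    refine Submodule.smul_induction_on h ?_ ?_
    · intro f hf y _
      rw [hsm]
      exact Submodule.smul_mem_smul (Ideal.mem_map_of_mem β hf) trivial
    · intro y z hy hz
      exact add_mem hy hz
  · intro h
    refine Submodule.smul_induction_on h ?_ ?_
    · intro f hf y _
      obtain ⟨g, hg, rfl⟩ := (Ideal.mem_map_iff_of_surjective β hβ).mp hf
      rw [← hsm]
      exact Submodule.smul_mem_smul hg trivial
    · intro y z hy hz
      exact add_mem hy hz

/-- change of scalars for quotients -/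
lemma exists_addEquiv {R : Type} [CommRing R] (β : B →+* R) (hβ : Function.Surjective β)
    {M : Type} [AddCommGroup M] [Module R M] [Module B M] (hsm : ∀ (f : B) (x : M), f • x = β f • x)
    (K : Ideal B) : ∃ e : (M ⧸ (K • ⊤ : Submodule B M)) ≃+ (M ⧸ (K.map β • ⊤ : Submodule R M)),
      ∀ x : M, e (Submodule.Quotient.mk x) = Submodule.Quotient.mk x := by
  have h : (K • ⊤ : Submodule B M).toAddSubgroup = (K.map β • ⊤ : Submodule R M).toAddSubgroup := by
    ext x
    exact smul_top_iff β hβ hsm K x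
  exact ⟨QuotientAddGroup.quotientAddEquivOfEq h, fun x => rfl⟩

/-- change of scalars for isomorphisms of quotients -/
lemma nonempty_equiv_of_surjective {R : Type} [CommRing R] (β : B →+* R)
    (hβ : Function.Surjective β) {M N : Type} [AddCommGroup M] [Module R M] [Module B M]
    [AddCommGroup N] [Module R N] [Module B N] (hM : ∀ (f : B) (x : M), f • x = β f • x)
    (hN : ∀ (f : B) (x : N), f • x = β f • x) (K : Ideal B)
    (eq : (M ⧸ (K.map β • ⊤ : Submodule R M)) ≃ₗ[R] (N ⧸ (K.map β • ⊤ : Submodule R N))) :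
    Nonempty ((M ⧸ (K • ⊤ : Submodule B M)) ≃ₗ[B] (N ⧸ (K • ⊤ : Submodule B N))) := by
  obtain ⟨eM, heM⟩ := exists_addEquiv β hβ hM K
  obtain ⟨eN, heN⟩ := exists_addEquiv β hβ hN K
  refine ⟨{ (eM.trans (eq.toAddEquiv.trans eN.symm)) with map_smul' := ?_ }⟩
  intro f x
  obtain ⟨x, rfl⟩ := Submodule.Quotient.mk_surjective _ x
  obtain ⟨y, hy⟩ := Submodule.Quotient.mk_surjective _ (eq (Submodule.Quotient.mk x))
  change eN.symm (eq (eM (f • Submodule.Quotient.mk x))) =
    f • eN.symm (eq (eM (Submodule.Quotient.mk x)))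
  rw [← Submodule.Quotient.mk_smul, heM, heM, hM, Submodule.Quotient.mk_smul, map_smul, ← hy,
    ← Submodule.Quotient.mk_smul, ← hN, ← heN, ← heN, AddEquiv.symm_apply_apply,
    AddEquiv.symm_apply_apply, Submodule.Quotient.mk_smul]

/-- the level as a target-free patching level -/
theorem exists_flevel_nm [IsLocalRing B] [IsAdicComplete (maximalIdeal B) B] [IsNoetherianRing B]
    {d : Bool → ℕ} (hd : (fun τ => cond τ L.d₁ L.d₀) = d) :
    ∃ F : FLevel (MvPowerSeries (Fin r) O) B d (twIdeal O (fun j => p ^ L.e j)),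
      (∀ x, F.φ (MvPowerSeries.C x) = algebraMap O B x) ∧
      (∀ j, L.β (F.φ (MvPowerSeries.X j)) = L.φ (MvPowerSeries.X j)) ∧
      (∀ f : B, (∀ x : L.M₀, L.β f • x = 0) → MulLe F false ⊥ f) ∧
      (∀ f : B, (∀ x : L.M₁, L.β f • x = 0) → MulLe F true ⊥ f) ∧
      (∀ f : B, (∀ x : L.M₁, L.β f • x ∈
        (Ideal.span (Set.range fun j => L.φ (MvPowerSeries.X j)) • ⊤ : Submodule L.R L.M₁)) →
        MulLe F true (Ideal.span (Set.range MvPowerSeries.X)) f) ∧
      Nonempty ((F.N false ⧸ ((Ideal.span {MvPowerSeries.C ϖ}).map F.φ • ⊤ :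
          Submodule B (F.N false))) ≃ₗ[B]
        (F.N true ⧸ ((Ideal.span {MvPowerSeries.C ϖ}).map F.φ • ⊤ :
          Submodule B (F.N true)))) := by
  subst hd
  haveI : IsAdicComplete (maximalIdeal L.R) L.R :=
    isAdicComplete_of_surjective (L.β : B →+* L.R) L.β_surj
  obtain ⟨φB, h1, h2⟩ := exists_lift_one (L.β : B →+* L.R) L.β_surj
    (L.φ : MvPowerSeries (Fin r) O →+* L.R) L.φ_mem (algebraMap O B) (fun x => by
      rw [RingHom.coe_coe, RingHom.coe_coe, AlgHom.commutes]
      exact (L.φ.commutes x).symm)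
  letI : Module B L.M₀ := Module.compHom L.M₀ (L.β : B →+* L.R)
  letI : Module B L.M₁ := Module.compHom L.M₁ (L.β : B →+* L.R)
  have hsm₀ : ∀ (f : B) (x : L.M₀), f • x = (L.β : B →+* L.R) f • x := fun _ _ => rfl
  have hsm₁ : ∀ (f : B) (x : L.M₁), f • x = (L.β : B →+* L.R) f • x := fun _ _ => rfl
  have h1' : ∀ s, (L.β : B →+* L.R) (φB s) = L.φ s := h1
  obtain ⟨F, hF, hF₀, hF₁, hFiso⟩ := exists_flevel_of_pair (B := B) (M₀ := L.M₀) (M₁ := L.M₁)
    (I := twIdeal O (fun j => p ^ L.e j)) φB (d := fun τ => cond τ L.d₁ L.d₀) L.b₀ L.b₁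
    (by
      intro x
      obtain ⟨c, hc⟩ := L.b₀_span x
      refine ⟨c, ?_⟩
      rw [hc]
      exact Finset.sum_congr rfl fun i _ => by rw [hsm₀, h1'])
    (by
      intro c
      refine Iff.trans ?_ (L.b₀_rel c)
      have h3 : ∑ i, φB (c i) • L.b₀ i = ∑ i, L.φ (c i) • L.b₀ i :=
        Finset.sum_congr rfl fun i _ => by rw [hsm₀, h1']
      exact iff_of_eq (congrArg (· = 0) h3))
    (by
      intro x
      obtain ⟨c, hc⟩ := L.b₁_span x
      refine ⟨c, ?_⟩
      rw [hc]
      exact Finset.sum_congr rfl fun i _ => by rw [hsm₁, h1'])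
    (by
      intro c
      refine Iff.trans ?_ (L.b₁_rel c)
      have h3 : ∑ i, φB (c i) • L.b₁ i = ∑ i, L.φ (c i) • L.b₁ i :=
        Finset.sum_congr rfl fun i _ => by rw [hsm₁, h1']
      exact iff_of_eq (congrArg (· = 0) h3))
  refine ⟨F, ?_, ?_, ?_, ?_, ?_, ?_⟩
  · rw [hF]
    exact h2
  · intro j
    rw [hF]
    exact h1' _
  · intro f hf
    refine hF₀ ⊥ f fun x => ?_
    rw [hsm₀]
    have h5 : (L.β : B →+* L.R) f • x = 0 := hf x
    rw [h5]
    exact Submodule.zero_mem _
  · intro f hf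
    refine hF₁ ⊥ f fun x => ?_
    rw [hsm₁]
    have h5 : (L.β : B →+* L.R) f • x = 0 := hf x
    rw [h5]
    exact Submodule.zero_mem _
  · intro f hf
    refine hF₁ _ f fun x => ?_
    rw [smul_top_iff (L.β : B →+* L.R) L.β_surj hsm₁, Ideal.map_map, Ideal.map_span,
      ← Set.range_comp]
    have h6 : (fun j => L.φ (MvPowerSeries.X j)) =
        (⇑((L.β : B →+* L.R).comp φB) ∘ MvPowerSeries.X) := by
      funext j
      exact (h1' _).symm
    have h7 := hf x
    rw [h6] at h7
    exact h7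
  · refine hFiso _ ?_
    have hK : ((Ideal.span {MvPowerSeries.C ϖ}).map φB).map (L.β : B →+* L.R) =
        Ideal.span {algebraMap O L.R ϖ} := by
      rw [Ideal.map_map, Ideal.map_span, Set.image_singleton, RingHom.comp_apply, h2]
      congr 2
      exact L.β.commutes ϖ
    have h8 := L.iso
    rw [← hK] at h8
    obtain ⟨eq⟩ := h8
    exact nonempty_equiv_of_surjective (L.β : B →+* L.R) L.β_surj hsm₀ hsm₁ _ eq

end Level

end Fermat.Agent.H57.NM
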