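/-
The endgame of the non-minimal modularity lifting theorem: `no_nm_levels`.
-/
import Fermat.Agent.H57NMLevel

set_option autoImplicit false
set_option linter.style.haveILetI false
set_option linter.unusedSectionVars false

namespace Fermat.Agent.H57.NM

open IsLocalRing Fermat.Agent.H57 Fermat.Agent.H57.Tame Fermat.Agent.H69.KP Fermat.Agent.H69.EG

attribute [local instance] RPart.instCommRing RPart.instLocal RPart.instAlgebra
attribute [local instance] NMLevel.instAddCommGroup₀ NMLevel.instAddCommGroup₁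
  NMLevel.instModule₀ NMLevel.instModule₁

/-- infinite pigeonhole -/
lemma exists_const' {α : Type} [Finite α] (f : ℕ → α) : ∃ a, ∀ N, ∃ n, N ≤ n ∧ f n = a := by
  classical
  cases nonempty_fintype α
  by_contra h
  push Not at h
  choose N hN using h
  exact hN (f (Finset.univ.sup N)) (Finset.univ.sup N)
    (Finset.le_sup (f := N) (Finset.mem_univ _)) rfl

instance : Finite Typ := by
  refine Finite.of_surjective (fun i : Fin 3 => if i = 0 then Typ.nr else if i = 1 then Typ.st
    else Typ.chi) ?_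
  rintro (_ | _ | _)
  · exact ⟨0, rfl⟩
  · exact ⟨1, rfl⟩
  · exact ⟨2, rfl⟩

section Main

variable {O : Type} [CommRing O] [IsDomain O] [IsDiscreteValuationRing O]
  [IsAdicComplete (maximalIdeal O) O] [Finite (ResidueField O)]

/-- **No levels**, case of trivial quadratic characters. -/
theorem no_nm_levels_one {ϖ : O} (hϖ : maximalIdeal O = Ideal.span {ϖ}) {p k D m : ℕ}
    (hpO : (p : O) ∈ maximalIdeal O) (h2 : IsUnit (2 : O))
    {T : Type} [Finite T]
    {q : T → ℕ} (hq0 : ∀ t, 1 ≤ q t) (hq : ∀ t, (q t : O) - 1 ∈ maximalIdeal O)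
    (hq1 : ∀ t, (q t : O) ≠ 1)
    {Z : T → Finset Oˣ} (hZ1 : ∀ t, ∀ ζ ∈ Z t, ζ ≠ 1) (hZ2 : ∀ t, ∀ ζ ∈ Z t, ζ ^ (q t - 1) = 1)
    (hZ3 : ∀ t, ∀ ζ ∈ Z t, (ζ : O) - 1 ∈ maximalIdeal O)
    (L : ∀ n, Nonempty (NMLevel O ϖ p (3 * Nat.card T + k) n D m (BRing O T k)
      (bVar O k) q (fun _ => 1) Z)) : False := by
  classical
  set r := 3 * Nat.card T + k with hr
  set B := BRing O T k with hBdef
  haveI hBc : IsAdicComplete (maximalIdeal B) B := isAdicComplete_mv _ _
  haveI hBf : Finite (ResidueField B) :=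
    Fermat.Agent.H57.finite_residueField_mvPowerSeries O _
  have hCB : ∀ x : O, algebraMap O B x = MvPowerSeries.C x := fun _ => rfl
  have hOB : ∀ x ∈ maximalIdeal O, algebraMap O B x ∈ maximalIdeal B := by
    intro x hx
    rw [hCB]
    exact mv_C_mem hx
  let X : T → Fin 6 → B := bVar O k
  have hX : ∀ t j, X t j ∈ maximalIdeal B := fun t j => mv_X_mem _
  have h2B : IsUnit (2 : B) := by
    have := h2.map (algebraMap O B)
    rwa [map_ofNat] at this
  have h4B : IsUnit (4 : B) := by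
    have := h2B.mul h2B
    norm_num at this
    exact this
  -- the choice of `κ`
  obtain ⟨h2i, hh2i⟩ := h2.exists_right_inv
  let κ : Oˣ → O := fun ζ => h2i * ((ζ : O) - (ζ⁻¹ : Oˣ))
  have hκ : ∀ ζ : Oˣ, 2 * κ ζ = (ζ : O) - (ζ⁻¹ : Oˣ) := fun ζ => by
    change 2 * (h2i * ((ζ : O) - (ζ⁻¹ : Oˣ))) = _
    rw [← mul_assoc, hh2i, one_mul]
  have hκ0 : ∀ t, ∀ ζ ∈ Z t, (ζ : O) ≠ (ζ⁻¹ : Oˣ) := by
    intro t ζ hζ h
    have h3 : (ζ : O) * ζ = 1 := by
      nth_rewrite 2 [h]
      exact ζ.mul_inv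
    have h4 : ((ζ : O) - 1) * ((ζ : O) + 1) = 0 := by linear_combination h3
    have h5 : IsUnit ((ζ : O) + 1) := by
      by_contra hu
      have h6 : (ζ : O) + 1 ∈ maximalIdeal O := hu
      have h7 : (2 : O) ∈ maximalIdeal O := by
        have h8 : (2 : O) = ((ζ : O) + 1) - ((ζ : O) - 1) := by ring
        rw [h8]
        exact sub_mem h6 (hZ3 t ζ hζ)
      exact h7 h2
    have h9 := (h5.mul_left_eq_zero).mp h4
    exact hZ1 t ζ hζ (Units.ext (sub_eq_zero.mp h9))
  have hκm : ∀ t, ∀ ζ ∈ Z t, κ ζ ∈ maximalIdeal O := by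
    intro t ζ hζ
    refine Ideal.mul_mem_left _ _ ?_
    have h3 : (ζ : O) - (ζ⁻¹ : Oˣ) = ((ζ : O) - 1) + (ζ⁻¹ : Oˣ) * ((ζ : O) - 1) := by
      have h4 : ((ζ⁻¹ : Oˣ) : O) * ζ = 1 := ζ.inv_mul
      linear_combination -h4
    rw [h3]
    exact add_mem (hZ3 t ζ hζ) (Ideal.mul_mem_left _ _ (hZ3 t ζ hζ))
  -- the choice of `η`
  let η : T → O := fun t => h2i * ((q t : O) - 1)
  have hqη : ∀ t, (q t : O) = 1 + 2 * η t := fun t => by
    change (q t : O) = 1 + 2 * (h2i * ((q t : O) - 1))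
    rw [← mul_assoc, hh2i, one_mul]
    ring
  have hη0 : ∀ t, η t ≠ 0 := by
    intro t h
    apply hq1 t
    rw [hqη t, h, mul_zero, add_zero]
  have hηm : ∀ t, η t ∈ maximalIdeal O := fun t => Ideal.mul_mem_left _ _ (hq t)
  have hqu : ∀ t, (q t : O) ≠ 0 := by
    intro t h
    have h3 := hq t
    rw [h, zero_sub] at h3
    exact (Ideal.ne_top_iff_one _).mp (maximalIdeal.isMaximal O).ne_top
      ((Ideal.neg_mem_iff _).mp h3)
  have hq1u : ∀ t, 1 + (q t : O) ≠ 0 := by
    intro t h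
    have h3 : (2 : O) ∈ maximalIdeal O := by
      have h8 : (2 : O) = (1 + (q t : O)) - ((q t : O) - 1) := by ring
      rw [h8, h]
      exact sub_mem (Ideal.zero_mem _) (hq t)
    exact h3 h2
  -- the square roots
  have hs : ∀ t, ∃ s : B, s ^ 2 = 1 + (X t 0 ^ 2 + X t 1 * X t 2) ∧ s - 1 ∈ maximalIdeal B := by
    intro t
    refine exists_sqrt h2B isUnit_one ?_
    have h3 : (1 : B) ^ 2 - (1 + (X t 0 ^ 2 + X t 1 * X t 2)) =
      -(X t 0 * X t 0 + X t 1 * X t 2) := by ring
    rw [h3]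
    exact neg_mem (add_mem (Ideal.mul_mem_left _ _ (hX t 0)) (Ideal.mul_mem_left _ _ (hX t 2)))
  have hc : ∀ t, ∃ c : B, c ^ 2 = q t + (X t 3 ^ 2 + X t 4 * X t 5) ∧
      c - algebraMap O B 1 ∈ maximalIdeal B := by
    intro t
    refine exists_sqrt h2B (isUnit_one.map _) ?_
    have h3 : (algebraMap O B 1) ^ 2 - ((q t : B) + (X t 3 ^ 2 + X t 4 * X t 5)) =
      - algebraMap O B ((q t : O) - 1) -
        (X t 3 * X t 3 + X t 4 * X t 5) := by
      simp only [map_sub, map_natCast, map_one]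
      ring
    rw [h3]
    exact sub_mem (neg_mem (hOB _ (hq t)))
      (add_mem (Ideal.mul_mem_left _ _ (hX t 3)) (Ideal.mul_mem_left _ _ (hX t 5)))
  choose s hs1 hs2 using hs
  choose c hc1 hc2 using hc
  -- the levels and their points
  choose L' hL' using fun n => (⟨(L n).some, trivial⟩ :
    ∃ _ : NMLevel O ϖ p r n D m B (bVar O k) q (fun _ => 1) Z, True)
  let x : ℕ → B →+* O := fun n => ((L' n).pt : (L' n).R →+* O).comp ((L' n).β : B →+* (L' n).R)
  have hxC : ∀ n a, x n (algebraMap O B a) = a := by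
    intro n a
    change (L' n).pt ((L' n).β (algebraMap O B a)) = a
    rw [AlgHom.commutes, AlgHom.commutes]
    rfl
  have hxG : ∀ n t i j, x n (gB X q (s t) (c t) t i j) = 0 := by
    intro n t i j
    change (L' n).pt ((L' n).β (gB X q (s t) (c t) t i j)) = 0
    rw [β_gB (L' n).toRPart h2B isUnit_one (hs1 t) (hs2 t) (hc1 t) (hc2 t), map_zero]
  have hxs : ∀ n t, x n (s t) = 1 := by
    intro n t
    have h3 := congrArg (L' n).pt (two_mul_β_s (L' n).toRPart h2B (hs1 t) (hs2 t))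
    rw [(L' n).pt_uni t, map_mul, map_ofNat] at h3
    exact h2.mul_left_cancel (h3.trans (mul_one 2).symm)
  have hxloc : ∀ n, maximalIdeal B ≤ (maximalIdeal O).comap (x n) := by
    intro n
    exact le_comap_of_surjective (x n) fun a => ⟨algebraMap O B a, hxC n a⟩
  have hxU : ∀ n t, URel (q t : O) (x n (c t)) (fun j => x n (X t j)) := fun n t =>
    uRel_of_hom (x n) (hs1 t) (hc1 t) (hxG n t) (hxs n t)
  -- the types of the points
  let σ' : ℕ → T → Typ := fun n t => if x n (X t 0) = 0 ∧ x n (X t 1) = 0 ∧ x n (X t 2) = 0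
    then Typ.nr else Typ.st
  have hσ' : ∀ n, relIdeal k η η (σ' n) ≤ RingHom.ker (x n) := by
    intro n
    rw [relIdeal_le_ker_iff]
    intro t
    have hη' : x n (MvPowerSeries.C (η t)) = η t := hxC n (η t)
    rw [hη']
    by_cases h : x n (X t 0) = 0 ∧ x n (X t 1) = 0 ∧ x n (X t 2) = 0
    · have h3 : σ' n t = Typ.nr := if_pos h
      rw [h3]
      exact h
    · have h3 : σ' n t = Typ.st := if_neg h
      rw [h3]
      refine URel.st_of_ne (hxU n t) (hqη t) h2.ne_zero (hη0 t) (hqu t) (hq1u t) ?_ h _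
      intro h4
      have h5 := hxloc n (hc2 t)
      rw [Ideal.mem_comap, map_sub, hxC] at h5
      have h6 : (4 : O) ∈ maximalIdeal O := by
        have h8 : (4 : O) = (2 * x n (c t) + (1 + (q t : O))) - 2 * (x n (c t) - 1)
          - ((q t : O) - 1) := by ring
        rw [h8, h4]
        exact sub_mem (sub_mem (Ideal.zero_mem _) (Ideal.mul_mem_left _ _ h5)) (hq t)
      have h7 : IsUnit (4 : O) := by
        have := h2.mul h2
        norm_num at this
        exact this
      exact h6 h7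
  have hσc : ∀ n t, σ' n t ≠ Typ.chi := by
    intro n t
    change (if x n (X t 0) = 0 ∧ x n (X t 1) = 0 ∧ x n (X t 2) = 0
      then Typ.nr else Typ.st) ≠ Typ.chi
    split_ifs
    · exact fun h => Typ.noConfusion h
    · exact fun h => Typ.noConfusion h
  -- constant invariants
  obtain ⟨⟨a₀, a₁, σ⟩, hconst⟩ := exists_const' (α := Fin (D + 1) × Fin (D + 1) × (T → Typ))
    fun n => (⟨(L' n).d₀, Nat.lt_succ_of_le (L' n).d₀_le⟩,
      ⟨(L' n).d₁, Nat.lt_succ_of_le (L' n).d₁_le⟩, σ' n)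
  choose N hN1 hN2 using hconst
  have hN2a : ∀ n, (L' (N n)).d₀ = a₀ := fun n => congrArg (fun u => (u.1 : ℕ)) (hN2 n)
  have hN2b : ∀ n, (L' (N n)).d₁ = a₁ := fun n => congrArg (fun u => (u.2.1 : ℕ)) (hN2 n)
  have hN2c : ∀ n, σ' (N n) = σ := fun n => congrArg (fun u => u.2.2) (hN2 n)
  have ha₀ : 0 < (a₀ : ℕ) := by
    rw [← hN2a 0]
    exact (L' (N 0)).d₀_pos
  have hd : ∀ n, (fun τ => cond τ (L' (N n)).d₁ (L' (N n)).d₀) =
      (fun τ : Bool => cond τ (a₁ : ℕ) (a₀ : ℕ)) := by
    intro n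
    funext τ
    cases τ
    · exact hN2a n
    · exact hN2b n
  choose F hF1 hF2 hF3 hF4 hF5 hF6 using fun n => exists_flevel_nm (L' (N n)) (hd n)
  -- the limit
  haveI : IsAdicComplete (maximalIdeal (MvPowerSeries (Fin r) O)) (MvPowerSeries (Fin r) O) :=
    Fermat.Agent.H57.isAdicComplete_mvPowerSeries_fin O r
  haveI : Finite (ResidueField (MvPowerSeries (Fin r) O)) :=
    Fermat.Agent.H57.finite_residueField_mvPowerSeries O (Fin r)
  haveI : IsDomain (MvPowerSeries (Fin r) O) := NoZeroDivisors.to_isDomain _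
  let U : Ultrafilter ℕ := Filter.hyperfilter ℕ
  have hU : ∀ k, ∀ᶠ n in (U : Filter ℕ), k ≤ n := fun k =>
    (Filter.eventually_ge_atTop k).filter_mono Nat.hyperfilter_le_atTop
  have hI : ∀ n, twIdeal O (fun j => p ^ (L' (N n)).e j) ≤
      maximalIdeal (MvPowerSeries (Fin r) O) ^ n := fun n =>
    twIdeal_le_pow hpO (L' (N n)).e (N := n) fun j => (hN1 n).trans ((L' (N n)).le_e j)
  obtain ⟨F', hF'φ, hF'Θ⟩ := exists_free_ulimit (hI := hI) F U hU
  obtain ⟨x', hx'⟩ := exists_point_ulimit U (fun n => x (N n)) (fun n => hxloc (N n))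
  choose fB hfB using fun n => (L' (N n)).β_surj (L' (N n)).f
  have hBfin' : ∀ k, Finite (B ⧸ (maximalIdeal B ^ k • ⊤ : Submodule B B)) := fun k => by
    rw [smul_eq_mul, Ideal.mul_top]; exact finite_quot_pow B k
  obtain ⟨f', hf'⟩ := exists_isULim U hBfin' fB
  -- properties of the limit point
  have hx'σ : relIdeal k η η σ ≤ RingHom.ker x' := by
    intro g hg
    rw [RingHom.mem_ker]
    refine IsULim.unique (hx' (fun _ => g) g (IsULim.const g)) ?_
    have h3 : (fun n => x (N n) g) = fun _ => 0 := by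
      funext n
      have h4 := hσ' (N n)
      rw [hN2c] at h4
      exact h4 hg
    simp only [h3]
    exact IsULim.const 0
  have hx'φ : ∀ j, x' (F'.φ (MvPowerSeries.X j)) = 0 := by
    intro j
    refine IsULim.unique (hx' _ _ (hF'φ (MvPowerSeries.X j))) ?_
    have h3 : (fun n => x (N n) ((F n).φ (MvPowerSeries.X j))) = fun _ => 0 := by
      funext n
      change (L' (N n)).pt ((L' (N n)).β ((F n).φ (MvPowerSeries.X j))) = 0
      rw [hF2, (L' (N n)).pt_φ]
    simp only [h3]
    exact IsULim.const 0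
  have hx'f : x' f' ≠ 0 := by
    intro h
    have h3 := hx' _ _ hf'
    rw [h] at h3
    obtain ⟨n, hn⟩ := (h3 m).exists
    rw [sub_zero, smul_eq_mul, Ideal.mul_top, hϖ, Ideal.span_singleton_pow] at hn
    have h4 : x (N n) (fB n) = (L' (N n)).pt (L' (N n)).f := by
      change (L' (N n)).pt ((L' (N n)).β (fB n)) = _
      rw [hfB]
    exact (L' (N n)).f_pt (h4 ▸ hn)
  -- relations in the limit
  have hφC : ∀ a, F'.φ (MvPowerSeries.C a) = algebraMap O B a := by
    intro a
    refine IsULim.unique (hF'φ _) ?_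
    have h3 : (fun n => (F n).φ (MvPowerSeries.C a)) = fun _ => algebraMap O B a := by
      funext n
      exact hF1 n a
    simp only [h3]
    exact IsULim.const _
  have hkill : ∀ (τ : Bool) (f : B), (∀ n, MulLe (F n) τ ⊥ f) → ∀ y : F'.N τ, f • y = 0 := by
    intro τ f hf y
    have h3 := mulLe_of_ulimit hI F U hU F' hF'Θ τ ⊥ (IsULim.const f) hf y
    rwa [Ideal.map_bot, Submodule.bot_smul, Submodule.mem_bot] at h3
  have hG : ∀ (τ : Bool) t i j (y : F'.N τ), gB X q (s t) (c t) t i j • y = 0 := by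
    intro τ t i j
    refine hkill τ _ fun n => ?_
    have h3 := β_gB (L' (N n)).toRPart h2B isUnit_one (hs1 t) (hs2 t) (hc1 t) (hc2 t) i j
    cases τ
    · exact hF3 n _ fun y => by rw [h3, zero_smul]
    · exact hF4 n _ fun y => by rw [h3, zero_smul]
  have hprod : ∀ t (y : F'.N false),
      (∏ ζ ∈ Z t, (4 * (X t 0 ^ 2 + X t 1 * X t 2 - algebraMap O B (κ ζ) ^ 2))) • y = 0 := by
    intro t
    refine hkill false _ fun n => hF3 n _ fun y => ?_
    rw [β_prod (L' (N n)).toRPart Z κ hκ t, mul_smul, (L' (N n)).prod_smul, smul_zero]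
  have huni : ∀ t (y : F'.N true), (2 * (s t - 1)) • y = 0 := by
    intro t
    refine hkill true _ fun n => hF4 n _ fun y => ?_
    have h3 := two_mul_β_s (L' (N n)).toRPart h2B (hs1 t) (hs2 t)
    have h4 : (L' (N n)).β (2 * (s t - 1)) =
        (L' (N n)).Sg t 0 0 + (L' (N n)).Sg t 1 1 - 2 := by
      rw [map_mul, map_sub, map_one, map_ofNat, mul_sub, h3, mul_one]
    rw [h4]
    exact (L' (N n)).uni_smul t y
  obtain ⟨eq⟩ := nonempty_equiv_of_ulimit hI F U hU F' hF'Θ false true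
    (Ideal.span {MvPowerSeries.C ϖ}) hF6
  have hPO : ∀ P : Ideal B, (∀ a, F'.φ a ∈ P → a = 0) →
      ∀ a : O, algebraMap O B a ∈ P → a = 0 := by
    intro P hPS a ha
    rw [← hφC] at ha
    have h3 := congrArg MvPowerSeries.constantCoeff (hPS _ ha)
    simpa using h3
  have hspan : ∀ (τ : Bool) (y : F'.N τ), ∃ cc : Fin (cond τ (a₁ : ℕ) (a₀ : ℕ)) →
      MvPowerSeries (Fin r) O, y = ∑ i, F'.φ (cc i) • F'.b τ i := F'.b_span
  have hrel : ∀ (τ : Bool) (cc : Fin (cond τ (a₁ : ℕ) (a₀ : ℕ)) → MvPowerSeries (Fin r) O),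
      ∑ i, F'.φ (cc i) • F'.b τ i = 0 → ∀ i, cc i = 0 := by
    intro τ cc hcc i
    exact (Submodule.mem_bot _).mp ((F'.b_rel τ cc).mp hcc i)
  have hdim : ((1 + 3 * Nat.card T + k : ℕ) : WithBot ℕ∞) ≤
      ringKrullDim (MvPowerSeries (Fin r) O) := by
    have h3 := le_ringKrullDim_mvPowerSeries O r
    have h4 : 1 + 3 * Nat.card T + k = r + 1 := by rw [hr]; ring
    rw [h4]
    exact h3
  -- the support of the unipotent module
  have key : ∀ g : B, (∀ y : F'.N true, g • y = 0) → g ∈ relIdeal k η η σ := by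
    intro g hg
    refine ann_le_relIdeal (S := MvPowerSeries (Fin r) O) k hϖ (η := η) (q := fun t => (q t : O))
      h2.ne_zero hqη hη0 hqu hq1u hηm F'.φ MvPowerSeries.C MvPowerSeries.C_injective hφC
      (N₀ := F'.N false) (N₁ := F'.N true) ha₀ (F'.b false) (hspan false) (hrel false)
      (F'.b true) (hspan true) (hrel true) hdim
      ((Ideal.span {MvPowerSeries.C ϖ}).map F'.φ) ?_ eq ?_ ?_ σ ?_ g hg
    · rw [Ideal.map_span, Set.image_singleton, hφC]
      exact le_rfl
    · intro P hP hann hPS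
      have hPO' := hPO P hPS
      haveI : IsDomain (B ⧸ P) := Ideal.Quotient.isDomain P
      let π := Ideal.Quotient.mk P
      haveI : IsLocalRing (B ⧸ P) :=
        IsLocalRing.of_surjective' π Ideal.Quotient.mk_surjective
      have hπm : ∀ x ∈ maximalIdeal B, π x ∈ maximalIdeal (B ⧸ P) := fun x hx =>
        le_comap_of_surjective π Ideal.Quotient.mk_surjective hx
      have h2P : IsUnit (2 : B ⧸ P) := by
        have := h2B.map π
        rwa [map_ofNat] at this
      have hζ : ∀ t, ∃ ζ ∈ Z t, X t 0 ^ 2 + X t 1 * X t 2 - algebraMap O B (κ ζ) ^ 2 ∈ P := by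
        intro t
        have h3 := hann _ (hprod t)
        obtain ⟨ζ, hζ, h4⟩ := (Ideal.IsPrime.prod_mem_iff (hp := hP)).mp h3
        exact ⟨ζ, hζ, (Ideal.unit_mul_mem_iff_mem P h4B).mp h4⟩
      choose ζ hζZ hζP using hζ
      refine ⟨fun t => κ (ζ t), fun t h => hκ0 t _ (hζZ t)
        (sub_eq_zero.mp (by
          have h' : κ (ζ t) = 0 := h
          rw [← hκ, h', mul_zero])), fun t => hκm t _ (hζZ t), ?_⟩
      have h5 : relIdeal k (fun t => κ (ζ t)) η (fun _ => Typ.chi) ≤ RingHom.ker π := by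
        rw [relIdeal_le_ker_iff]
        intro t
        refine tRel_chi_of_hom (X := X) π hπm h2P hOB (hq0 t) (hs1 t) (hs2 t) (c := c t) ?_
          (hκ (ζ t)) (hZ2 t _ (hζZ t)) (hZ3 t _ (hζZ t)) ?_ ?_
        · intro i j
          exact Ideal.Quotient.eq_zero_iff_mem.mpr (hann _ (hG false t i j))
        · intro h
          rw [Ideal.Quotient.eq_zero_iff_mem] at h
          exact hκ0 t _ (hζZ t) (sub_eq_zero.mp (hPO' _ h))
        · exact Ideal.Quotient.eq_zero_iff_mem.mpr (hζP t)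
      rwa [Ideal.mk_ker] at h5
    · intro P hP hann hPS t
      let π := Ideal.Quotient.mk P
      have h3 : π (s t) = 1 := by
        have h4 : s t - 1 ∈ P := (Ideal.unit_mul_mem_iff_mem P h2B).mp (hann _ (huni t))
        rw [← sub_eq_zero, ← map_one π, ← map_sub]
        exact Ideal.Quotient.eq_zero_iff_mem.mpr h4
      refine ⟨π (c t), ?_, ?_⟩
      · have h4 := uRel_of_hom (X := X) π (hs1 t) (hc1 t) (fun i j =>
          Ideal.Quotient.eq_zero_iff_mem.mpr (hann _ (hG true t i j))) h3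
        have h5 : Ideal.Quotient.mk P (MvPowerSeries.C (q t : O)) = ((q t : ℕ) : B ⧸ P) := by
          rw [map_natCast, map_natCast]
        rw [h5]
        exact h4
      · intro h4
        have h5 : 2 * c t + (1 + (q t : B)) ∈ P := by
          rw [← Ideal.Quotient.eq_zero_iff_mem, map_add, map_mul, map_add, map_one, map_ofNat]
          have h6 : (MvPowerSeries.C (q t : O) : B) = (q t : B) := map_natCast _ _
          rw [← h6]
          exact h4
        have h7 : 2 * c t + (1 + (q t : B)) ∈ maximalIdeal B :=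
          (IsLocalRing.le_maximalIdeal hP.ne_top) h5
        have h8 : (4 : B) ∈ maximalIdeal B := by
          have h9 : (4 : B) = (2 * c t + (1 + (q t : B))) - 2 * (c t - algebraMap O B 1)
            - algebraMap O B ((q t : O) - 1) := by
            rw [map_sub, map_one, map_natCast]
            ring
          rw [h9]
          exact sub_mem (sub_mem h7 (Ideal.mul_mem_left _ _ (hc2 t))) (hOB _ (hq t))
        exact h8 h4B
    · intro t
      rw [← hN2c 0]
      exact hσc _ t
  -- conclusion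
  have hfin : Module.Finite B (F'.N true) := by
    refine Module.Finite.of_surjective (Fintype.linearCombination B (F'.b true)) ?_
    intro y
    obtain ⟨cc, hcc⟩ := hspan true y
    exact ⟨fun i => F'.φ (cc i), by rw [Fintype.linearCombination_apply, hcc]⟩
  have hf'N : MulLe F' true (Ideal.span (Set.range MvPowerSeries.X)) f' :=
    mulLe_of_ulimit hI F U hU F' hF'Θ true _ hf' fun n => hF5 n _ (by
      intro y
      rw [hfB]
      exact (L' (N n)).f_smul y)
  refine hx'f ?_
  rw [← RingHom.mem_ker]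
  refine mem_of_smul_mem (N := F'.N true) (RingHom.ker_isPrime x') ?_
    (fun g hg => hx'σ (key g hg)) hf'N
  rw [Ideal.map_span, Ideal.span_le]
  rintro _ ⟨_, ⟨j, rfl⟩, rfl⟩
  exact hx'φ j

end Main

section Sign

variable {O : Type} [CommRing O] [IsLocalRing O] [IsNoetherianRing O]
  [IsAdicComplete (maximalIdeal O) O] {T : Type} [Finite T]

/-- the automorphism changing the sign of the coordinates of `Φ_t` -/
theorem exists_signHom (k : ℕ) {v : T → O} (hv : ∀ t, v t * v t = 1) :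
    ∃ ε : BRing O T k →ₐ[O] BRing O T k, Function.Surjective ε ∧
      (∀ t, ε (bVar O k t 0) = bVar O k t 0) ∧ (∀ t, ε (bVar O k t 1) = bVar O k t 1) ∧
      (∀ t, ε (bVar O k t 2) = bVar O k t 2) ∧
      (∀ t, ε (bVar O k t 3) = algebraMap O (BRing O T k) (v t) * bVar O k t 3) ∧
      (∀ t, ε (bVar O k t 4) = algebraMap O (BRing O T k) (v t) * bVar O k t 4) ∧
      (∀ t, ε (bVar O k t 5) = algebraMap O (BRing O T k) (v t) * bVar O k t 5) := by
  haveI hBc : IsAdicComplete (maximalIdeal (BRing O T k)) (BRing O T k) := isAdicComplete_mv _ _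
  have hCB : ∀ x : O, algebraMap O (BRing O T k) x = MvPowerSeries.C x := fun _ => rfl
  let u : (T × Fin 6) ⊕ Fin k → BRing O T k := Sum.elim
    (fun t => if t.2 = 3 ∨ t.2 = 4 ∨ t.2 = 5 then MvPowerSeries.C (v t.1) else 1) (fun _ => 1)
  have huu : ∀ i, u i * u i = 1 := by
    rintro (⟨t, j⟩ | j)
    · change (if j = 3 ∨ j = 4 ∨ j = 5 then MvPowerSeries.C (v t) else 1) *
        (if j = 3 ∨ j = 4 ∨ j = 5 then MvPowerSeries.C (v t) else 1) = 1
      split_ifs
      · rw [← map_mul, hv, map_one]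
      · rw [one_mul]
    · exact one_mul 1
  obtain ⟨E, hEC, hEX⟩ := exists_mv_eval (σ := (T × Fin 6) ⊕ Fin k)
    (MvPowerSeries.C : O →+* BRing O T k) (maximalIdeal (BRing O T k))
    (fun i => u i * MvPowerSeries.X i) (fun i => Ideal.mul_mem_left _ _ (mv_X_mem i))
  have hEu : ∀ i, E (u i) = u i := by
    rintro (⟨t, j⟩ | j)
    · change E (if j = 3 ∨ j = 4 ∨ j = 5 then MvPowerSeries.C (v t) else 1) =
        (if j = 3 ∨ j = 4 ∨ j = 5 then MvPowerSeries.C (v t) else 1)
      split_ifs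
      · exact hEC _
      · exact map_one E
    · exact map_one E
  have hEE : E.comp E = RingHom.id _ := by
    refine mv_eval_unique (maximalIdeal (BRing O T k)) ?_ ?_ ?_
    · intro b
      rw [RingHom.comp_apply, hEC, hEC, RingHom.id_apply]
    · intro i
      rw [RingHom.comp_apply, hEX, map_mul, hEu, hEX, ← mul_assoc, huu, one_mul,
        RingHom.id_apply]
    · intro i
      rw [RingHom.comp_apply, hEX, map_mul, hEu, hEX, ← mul_assoc, huu, one_mul]
      exact mv_X_mem i
  have h3 : ∀ t j, E (bVar O k t j) =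
      (if j = 3 ∨ j = 4 ∨ j = 5 then MvPowerSeries.C (v t) else 1) * bVar O k t j :=
    fun t j => hEX (Sum.inl (t, j))
  refine ⟨{ E with commutes' := hEC }, ?_, ?_, ?_, ?_, ?_, ?_, ?_⟩
  · intro y
    exact ⟨E y, RingHom.congr_fun hEE y⟩
  · intro t
    have := h3 t 0
    simp at this
    exact this
  · intro t
    have := h3 t 1
    simp at this
    exact this
  · intro t
    have := h3 t 2
    simp at this
    exact this
  · intro t
    have := h3 t 3
    simp at this
    exact this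
  · intro t
    have := h3 t 4
    simp at this
    exact this
  · intro t
    have := h3 t 5
    simp at this
    exact this

/-- reduction to the case of trivial quadratic characters -/
theorem nonempty_untwist {ϖ : O} {p r n D m k : ℕ} {q : T → ℕ} {v : T → O}
    (hv : ∀ t, v t * v t = 1) {Z : T → Finset Oˣ}
    (L : NMLevel O ϖ p r n D m (BRing O T k) (bVar O k) q v Z) :
    Nonempty (NMLevel O ϖ p r n D m (BRing O T k) (bVar O k) q (fun _ => 1) Z) := by
  obtain ⟨ε, hε, h0, h1, h2, h3, h4, h5⟩ := exists_signHom (O := O) (T := T) k hv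
  have hvR : ∀ t, algebraMap O L.R (v t) * algebraMap O L.R (v t) = 1 := fun t => by
    rw [← map_mul, hv, map_one]
  refine ⟨
    { R := L.R
      β := L.β.comp ε
      β_surj := L.β_surj.comp hε
      Sg := L.Sg
      Ph := fun t => algebraMap O L.R (v t) • L.Ph t
      det_Sg := L.det_Sg
      det_Ph := ?_
      tame := ?_
      tr_Sg := L.tr_Sg
      tr_Ph := ?_
      hX0 := ?_
      hX1 := ?_
      hX2 := ?_
      hX3 := ?_
      hX4 := ?_
      hX5 := ?_
      M₀ := L.M₀
      M₁ := L.M₁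
      d₀ := L.d₀
      d₁ := L.d₁
      d₀_pos := L.d₀_pos
      d₀_le := L.d₀_le
      d₁_le := L.d₁_le
      e := L.e
      le_e := L.le_e
      φ := L.φ
      φ_mem := L.φ_mem
      b₀ := L.b₀
      b₀_span := L.b₀_span
      b₀_rel := L.b₀_rel
      b₁ := L.b₁
      b₁_span := L.b₁_span
      b₁_rel := L.b₁_rel
      prod_smul := L.prod_smul
      uni_smul := L.uni_smul
      iso := L.iso
      pt := L.pt
      pt_φ := L.pt_φ
      pt_uni := L.pt_uni
      f := L.f
      f_smul := L.f_smul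
      f_pt := L.f_pt }⟩
  · intro t
    simp only [Matrix.smul_apply, smul_eq_mul]
    linear_combination L.det_Ph t + (L.Ph t 0 0 * L.Ph t 1 1 - L.Ph t 0 1 * L.Ph t 1 0) * hvR t
  · intro t
    rw [smul_mul_assoc, L.tame, mul_smul_comm]
  · intro t
    simp only [Matrix.smul_apply, smul_eq_mul, map_one, mul_one]
    have h6 : algebraMap O L.R (v t) * L.Ph t 0 0 + algebraMap O L.R (v t) * L.Ph t 1 1 - 2 =
        algebraMap O L.R (v t) * (L.Ph t 0 0 + L.Ph t 1 1 - 2 * algebraMap O L.R (v t)) := by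
      linear_combination 2 * hvR t
    rw [h6]
    exact Ideal.mul_mem_left _ _ (L.tr_Ph t)
  · intro t
    rw [AlgHom.comp_apply, h0]
    exact L.hX0 t
  · intro t
    rw [AlgHom.comp_apply, h1]
    exact L.hX1 t
  · intro t
    rw [AlgHom.comp_apply, h2]
    exact L.hX2 t
  · intro t
    rw [AlgHom.comp_apply, h3, map_mul, AlgHom.commutes]
    simp only [Matrix.smul_apply, smul_eq_mul]
    linear_combination algebraMap O L.R (v t) * L.hX3 t
  · intro t
    rw [AlgHom.comp_apply, h4, map_mul, AlgHom.commutes, L.hX4 t]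
    simp only [Matrix.smul_apply, smul_eq_mul]
  · intro t
    rw [AlgHom.comp_apply, h5, map_mul, AlgHom.commutes, L.hX5 t]
    simp only [Matrix.smul_apply, smul_eq_mul]

end Sign

/-- **The endgame of the non-minimal modularity lifting theorem.** -/
theorem no_nm_levels {O : Type} [CommRing O] [IsDomain O] [IsDiscreteValuationRing O]
    [IsAdicComplete (maximalIdeal O) O] [Finite (ResidueField O)]
    {ϖ : O} (hϖ : maximalIdeal O = Ideal.span {ϖ}) {p k D m : ℕ}
    (hpO : (p : O) ∈ maximalIdeal O) (h2 : IsUnit (2 : O))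
    {T : Type} [Finite T]
    {q : T → ℕ} (hq0 : ∀ t, 1 ≤ q t) (hq : ∀ t, (q t : O) - 1 ∈ maximalIdeal O)
    (hq1 : ∀ t, (q t : O) ≠ 1) {v : T → O} (hv : ∀ t, v t * v t = 1)
    {Z : T → Finset Oˣ} (hZ1 : ∀ t, ∀ ζ ∈ Z t, ζ ≠ 1) (hZ2 : ∀ t, ∀ ζ ∈ Z t, ζ ^ (q t - 1) = 1)
    (hZ3 : ∀ t, ∀ ζ ∈ Z t, (ζ : O) - 1 ∈ maximalIdeal O)
    (L : ∀ n, Nonempty (NMLevel O ϖ p (3 * Nat.card T + k) n D m (BRing O T k)
      (bVar O k) q v Z)) : False :=
  no_nm_levels_one hϖ hpO h2 hq0 hq hq1 hZ1 hZ2 hZ3 fun n => nonempty_untwist hv (L n).some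

end Fermat.Agent.H57.NM
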