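/-
Geometry of the ring `BRing2`: tame coordinates at `T`, three coordinates `(t, y, z)` at each of the
`s` non-scalar primes, and `k` free variables.
-/
import Fermat.Agent.H57NMMain

set_option autoImplicit false
set_option linter.style.haveILetI false
set_option linter.unusedSectionVars false

namespace Fermat.Agent.H57.Full

open IsLocalRing Fermat.Agent.H57 Fermat.Agent.H57.Tame

/-- the ambient ring -/
abbrev BRing2 (O : Type) [CommRing O] (T : Type) (s k : ℕ) : Type :=
  MvPowerSeries ((T × Fin 6) ⊕ ((Fin s × Fin 3) ⊕ Fin k)) O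

/-- tame coordinates at `T` -/
noncomputable def xVar (O : Type) [CommRing O] {T : Type} (s k : ℕ) (t : T) (j : Fin 6) :
    BRing2 O T s k :=
  MvPowerSeries.X (Sum.inl (t, j))

/-- coordinates `(t, y, z)` at the non-scalar primes -/
noncomputable def yVar (O : Type) [CommRing O] (T : Type) {s : ℕ} (k : ℕ) (b : Fin s)
    (j : Fin 3) : BRing2 O T s k :=
  MvPowerSeries.X (Sum.inr (Sum.inl (b, j)))

/-- types at the non-scalar primes: unramified, Steinberg, the other Steinberg, and the
intersection of the first two. -/
inductive CTyp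
  | nr
  | su
  | sm
  | zz
  deriving DecidableEq

/-- the relations of the types -/
def CRel {D : Type*} [CommRing D] (c : D) (v : Fin 3 → D) : CTyp → Prop
  | .nr => v 1 = 0 ∧ v 2 = 0
  | .su => v 0 = 0 ∧ v 2 = 0
  | .sm => v 0 + c = 0 ∧ v 1 = 0
  | .zz => v 0 = 0 ∧ v 1 = 0 ∧ v 2 = 0

/-- the set of relations -/
def cSet {D : Type*} [CommRing D] (c : D) (v : Fin 3 → D) : CTyp → Set D
  | .nr => {v 1, v 2}
  | .su => {v 0, v 2}
  | .sm => {v 0 + c, v 1}
  | .zz => {v 0, v 1, v 2}

lemma crel_iff {D : Type*} [CommRing D] (c : D) (v : Fin 3 → D) (γ : CTyp) :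
    CRel c v γ ↔ ∀ r ∈ cSet c v γ, r = 0 := by
  cases γ <;> simp [CRel, cSet]

lemma cSet_map {D D' : Type*} [CommRing D] [CommRing D'] (c : D) (v : Fin 3 → D) (γ : CTyp)
    (f : D →+* D') : f '' cSet c v γ = cSet (f c) (fun j => f (v j)) γ := by
  cases γ <;> simp [cSet, Set.image_insert_eq]

section Def

variable {O : Type} [CommRing O] {T : Type} {s : ℕ}

/-- the ideal of a component -/
noncomputable def compIdeal (k : ℕ) (κ η : T → O) (τ : T → Typ) (cb : Fin s → O)
    (γ : Fin s → CTyp) : Ideal (BRing2 O T s k) :=
  Ideal.span ((⋃ t, relSet (MvPowerSeries.C (κ t)) (MvPowerSeries.C (η t)) (xVar O s k t) (τ t)) ∪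
    ⋃ b, cSet (MvPowerSeries.C (cb b)) (yVar O T k b) (γ b))

lemma compIdeal_le_ker_iff {k : ℕ} {D : Type*} [CommRing D] (κ η : T → O) (τ : T → Typ)
    (cb : Fin s → O) (γ : Fin s → CTyp) (f : BRing2 O T s k →+* D) :
    compIdeal k κ η τ cb γ ≤ RingHom.ker f ↔
      (∀ t, TRel (f (MvPowerSeries.C (κ t))) (f (MvPowerSeries.C (η t)))
        (fun j => f (xVar O s k t j)) (τ t)) ∧
      ∀ b, CRel (f (MvPowerSeries.C (cb b))) (fun j => f (yVar O T k b j)) (γ b) := by
  rw [compIdeal, Ideal.span_le, Set.union_subset_iff, Set.iUnion_subset_iff,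
    Set.iUnion_subset_iff]
  refine and_congr (forall_congr' fun t => ?_) (forall_congr' fun b => ?_)
  · rw [trel_iff, ← relSet_map]
    constructor
    · rintro h _ ⟨r, hr, rfl⟩
      exact h hr
    · intro h r hr
      exact h _ ⟨r, hr, rfl⟩
  · rw [crel_iff, ← cSet_map]
    constructor
    · rintro h _ ⟨r, hr, rfl⟩
      exact h hr
    · intro h r hr
      exact h _ ⟨r, hr, rfl⟩

end Def

section Main

variable {O : Type} [CommRing O] [IsLocalRing O] [IsNoetherianRing O]
  [IsAdicComplete (maximalIdeal O) O] [IsDomain O] {T : Type} [Finite T] {s : ℕ}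

lemma quot_mem {A : Type} [CommRing A] [IsLocalRing A] {J : Ideal A} [IsLocalRing (A ⧸ J)]
    {a : A} (ha : a ∈ maximalIdeal A) : Ideal.Quotient.mk J a ∈ maximalIdeal (A ⧸ J) :=
  Fermat.Agent.H69.KP.le_comap_of_surjective (Ideal.Quotient.mk J) Ideal.Quotient.mk_surjective ha

/-- the substitution homomorphisms of a component -/
theorem exists_xi (k : ℕ) (cb : Fin s → O) (γ : Fin s → CTyp)
    (hγ : ∀ b, γ b = .sm → cb b ∈ maximalIdeal O) :
    ∃ (ξ : BRing2 O T s k →+* BRing O T (s + k)) (ι : BRing O T (s + k) →+* BRing2 O T s k),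
      (∀ a, ξ (MvPowerSeries.C a) = MvPowerSeries.C a) ∧
      (∀ a, ι (MvPowerSeries.C a) = MvPowerSeries.C a) ∧
      (∀ t j, ξ (xVar O s k t j) = bVar O (s + k) t j) ∧
      (∀ t j, ι (bVar O (s + k) t j) = xVar O s k t j) ∧
      (∀ b j, ξ (yVar O T k b j) = match γ b with
        | .nr => if j = 0 then MvPowerSeries.X (Sum.inr (Fin.castAdd k b)) else 0
        | .su => if j = 1 then MvPowerSeries.X (Sum.inr (Fin.castAdd k b)) else 0
        | .sm => if j = 2 then MvPowerSeries.X (Sum.inr (Fin.castAdd k b)) else
            if j = 0 then - MvPowerSeries.C (cb b) else 0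
        | .zz => 0) ∧
      (∀ b, ι (MvPowerSeries.X (Sum.inr (Fin.castAdd k b))) = match γ b with
        | .nr => yVar O T k b 0
        | .su => yVar O T k b 1
        | .sm => yVar O T k b 2
        | .zz => 0) ∧
      (∀ j, ξ (MvPowerSeries.X (Sum.inr (Sum.inr j))) =
        MvPowerSeries.X (Sum.inr (Fin.natAdd s j))) ∧
      (∀ j, ι (MvPowerSeries.X (Sum.inr (Fin.natAdd s j))) =
        MvPowerSeries.X (Sum.inr (Sum.inr j))) := by
  haveI h1 : IsAdicComplete (maximalIdeal (BRing O T (s + k))) (BRing O T (s + k)) :=
    isAdicComplete_mv _ _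
  haveI h2 : IsAdicComplete (maximalIdeal (BRing2 O T s k)) (BRing2 O T s k) :=
    isAdicComplete_mv _ _
  let wy : Fin s → Fin 3 → BRing O T (s + k) := fun b j => match γ b with
        | .nr => if j = 0 then MvPowerSeries.X (Sum.inr (Fin.castAdd k b)) else 0
        | .su => if j = 1 then MvPowerSeries.X (Sum.inr (Fin.castAdd k b)) else 0
        | .sm => if j = 2 then MvPowerSeries.X (Sum.inr (Fin.castAdd k b)) else
            if j = 0 then - MvPowerSeries.C (cb b) else 0
        | .zz => 0
  have hwy : ∀ b j, wy b j ∈ maximalIdeal (BRing O T (s + k)) := by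
    intro b j
    have hb := hγ b
    simp only [wy]
    cases hγb : γ b
    · dsimp only
      split_ifs
      · exact mv_X_mem _
      · exact Ideal.zero_mem _
    · dsimp only
      split_ifs
      · exact mv_X_mem _
      · exact Ideal.zero_mem _
    · dsimp only
      split_ifs
      · exact mv_X_mem _
      · exact neg_mem (mv_C_mem (hb hγb))
      · exact Ideal.zero_mem _
    · exact Ideal.zero_mem _
  obtain ⟨ξ, hξC, hξX⟩ := exists_mv_eval (σ := (T × Fin 6) ⊕ ((Fin s × Fin 3) ⊕ Fin k))
    (MvPowerSeries.C : O →+* BRing O T (s + k)) (maximalIdeal (BRing O T (s + k)))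
    (Sum.elim (fun p => bVar O (s + k) p.1 p.2)
      (Sum.elim (fun p => wy p.1 p.2) (fun j => MvPowerSeries.X (Sum.inr (Fin.natAdd s j))))) (by
      rintro (p | p | j)
      · exact mv_X_mem _
      · exact hwy _ _
      · exact mv_X_mem _)
  let vy : Fin s → BRing2 O T s k := fun b => match γ b with
        | .nr => yVar O T k b 0
        | .su => yVar O T k b 1
        | .sm => yVar O T k b 2
        | .zz => 0
  have hvy : ∀ b, vy b ∈ maximalIdeal (BRing2 O T s k) := by
    intro b
    simp only [vy]
    cases γ b
    · exact mv_X_mem _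
    · exact mv_X_mem _
    · exact mv_X_mem _
    · exact Ideal.zero_mem _
  obtain ⟨ι, hιC, hιX⟩ := exists_mv_eval (σ := (T × Fin 6) ⊕ Fin (s + k))
    (MvPowerSeries.C : O →+* BRing2 O T s k) (maximalIdeal (BRing2 O T s k))
    (Sum.elim (fun p => xVar O s k p.1 p.2)
      (Fin.addCases (fun b => vy b) (fun j => MvPowerSeries.X (Sum.inr (Sum.inr j))))) (by
      rintro (p | j)
      · exact mv_X_mem _
      · refine Fin.addCases (fun b => ?_) (fun j => ?_) j
        · simp only [Sum.elim_inr, Fin.addCases_left]
          exact hvy b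
        · simp only [Sum.elim_inr, Fin.addCases_right]
          exact mv_X_mem _)
  refine ⟨ξ, ι, hξC, hιC, fun t j => hξX (Sum.inl (t, j)), fun t j => hιX (Sum.inl (t, j)),
    fun b j => hξX (Sum.inr (Sum.inl (b, j))), fun b => ?_, fun j => hξX (Sum.inr (Sum.inr j)),
    fun j => ?_⟩
  · have := hιX (Sum.inr (Fin.castAdd k b))
    simpa using this
  · have := hιX (Sum.inr (Fin.natAdd s j))
    simpa using this

/-- test homomorphism into `O` -/
theorem exists_section (k : ℕ) {κ η : T → O} (hκm : ∀ t, κ t ∈ maximalIdeal O)
    (hηm : ∀ t, η t ∈ maximalIdeal O) (τ : T → Typ) (cb : Fin s → O) (γ : Fin s → CTyp)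
    (hγ : ∀ b, γ b = .sm → cb b ∈ maximalIdeal O) :
    ∃ θ : BRing2 O T s k →+* O, (∀ a, θ (MvPowerSeries.C a) = a) ∧
      compIdeal k κ η τ cb γ ≤ RingHom.ker θ := by
  let wx : T → Fin 6 → O := fun t j => match τ t with
    | .nr => 0
    | .st => if j = 3 then η t else 0
    | .chi => if j = 0 then κ t else 0
  let wy : Fin s → Fin 3 → O := fun b j => match γ b with
    | .nr => 0
    | .su => 0
    | .sm => if j = 0 then -cb b else 0
    | .zz => 0
  obtain ⟨θ, hC, hX⟩ := exists_mv_eval (σ := (T × Fin 6) ⊕ ((Fin s × Fin 3) ⊕ Fin k))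
    (RingHom.id O) (maximalIdeal O)
    (Sum.elim (fun p => wx p.1 p.2) (Sum.elim (fun p => wy p.1 p.2) (fun _ => 0))) (by
      rintro (⟨t, j⟩ | ⟨b, j⟩ | j)
      · simp only [Sum.elim_inl, wx]
        cases τ t
        · exact Ideal.zero_mem _
        · dsimp only
          split_ifs
          · exact hηm t
          · exact Ideal.zero_mem _
        · dsimp only
          split_ifs
          · exact hκm t
          · exact Ideal.zero_mem _
      · have hb := hγ b
        simp only [Sum.elim_inl, Sum.elim_inr, wy]
        cases hγb : γ b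
        · exact Ideal.zero_mem _
        · exact Ideal.zero_mem _
        · dsimp only
          split_ifs
          · exact neg_mem (hb hγb)
          · exact Ideal.zero_mem _
        · exact Ideal.zero_mem _
      · exact Ideal.zero_mem _)
  have hx : ∀ t j, θ (xVar O s k t j) = match τ t with
    | .nr => 0
    | .st => if j = 3 then η t else 0
    | .chi => if j = 0 then κ t else 0 := fun t j => hX (Sum.inl (t, j))
  have hy : ∀ b j, θ (yVar O T k b j) = match γ b with
    | .nr => 0
    | .su => 0
    | .sm => if j = 0 then -cb b else 0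
    | .zz => 0 := fun b j => hX (Sum.inr (Sum.inl (b, j)))
  refine ⟨θ, hC, ?_⟩
  rw [compIdeal_le_ker_iff]
  refine ⟨fun t => ?_, fun b => ?_⟩
  · rw [hC, hC]
    have h := hx t
    cases hτ : τ t
    · simp only [hτ] at h
      simp [TRel, h]
    · simp only [hτ] at h
      simp [TRel, h]
    · simp only [hτ] at h
      simp [TRel, h]
  · rw [hC]
    have h := hy b
    cases hγb : γ b
    · simp only [hγb] at h
      simp [CRel, h]
    · simp only [hγb] at h
      simp [CRel, h]
    · simp only [hγb] at h
      simp [CRel, h]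
    · simp only [hγb] at h
      simp [CRel, h]

/-- constants do not meet the ideal of a component -/
theorem C_mem_compIdeal (k : ℕ) {κ η : T → O} (hκm : ∀ t, κ t ∈ maximalIdeal O)
    (hηm : ∀ t, η t ∈ maximalIdeal O) (τ : T → Typ) (cb : Fin s → O) (γ : Fin s → CTyp)
    (hγ : ∀ b, γ b = .sm → cb b ∈ maximalIdeal O) {a : O}
    (ha : (MvPowerSeries.C a : BRing2 O T s k) ∈ compIdeal k κ η τ cb γ) : a = 0 := by
  obtain ⟨θ, hC, hθ⟩ := exists_section k hκm hηm τ cb γ hγ
  have h := hθ ha
  rwa [RingHom.mem_ker, hC] at h

theorem compIdeal_le_maximalIdeal (k : ℕ) {κ η : T → O} (hκm : ∀ t, κ t ∈ maximalIdeal O)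
    (hηm : ∀ t, η t ∈ maximalIdeal O) (τ : T → Typ) (cb : Fin s → O) (γ : Fin s → CTyp)
    (hγ : ∀ b, γ b = .sm → cb b ∈ maximalIdeal O) :
    compIdeal k κ η τ cb γ ≤ maximalIdeal (BRing2 O T s k) := by
  obtain ⟨θ, hC, hθ⟩ := exists_section k hκm hηm τ cb γ hγ
  exact hθ.trans (IsLocalRing.le_maximalIdeal (RingHom.ker_ne_top _))

/-- the ideal of a component as an inverse image -/
theorem compIdeal_eq_comap (k : ℕ) {κ η : T → O} (hκm : ∀ t, κ t ∈ maximalIdeal O)
    (hηm : ∀ t, η t ∈ maximalIdeal O) (τ : T → Typ) (cb : Fin s → O) (γ : Fin s → CTyp)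
    (hγ : ∀ b, γ b = .sm → cb b ∈ maximalIdeal O) :
    ∃ ξ : BRing2 O T s k →+* BRing O T (s + k),
      compIdeal k κ η τ cb γ = (relIdeal (s + k) κ η τ).comap ξ ∧
      ((∀ b, γ b ≠ .zz) → Function.Surjective ξ) := by
  haveI hB1 : IsAdicComplete (maximalIdeal (BRing O T (s + k))) (BRing O T (s + k)) :=
    isAdicComplete_mv _ _
  haveI hB2 : IsAdicComplete (maximalIdeal (BRing2 O T s k)) (BRing2 O T s k) :=
    isAdicComplete_mv _ _
  obtain ⟨ξ, ι, hξC, hιC, hξx, hιx, hξy, hιy, hξf, hιf⟩ := exists_xi (T := T) k cb γ hγ
  refine ⟨ξ, ?_, ?_⟩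
  · refine le_antisymm ?_ ?_
    · have h1 : compIdeal k κ η τ cb γ ≤
          RingHom.ker ((Ideal.Quotient.mk (relIdeal (s + k) κ η τ)).comp ξ) := by
        rw [compIdeal_le_ker_iff]
        have h2 := (relIdeal_le_ker_iff (k := s + k) κ η τ
          (Ideal.Quotient.mk (relIdeal (s + k) κ η τ))).mp (by rw [Ideal.mk_ker])
        refine ⟨fun t => ?_, fun b => ?_⟩
        · have h3 := h2 t
          simp only [RingHom.comp_apply, hξC, hξx]
          exact h3
        · have h4 := hξy b
          simp only [RingHom.comp_apply, hξC]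
          cases hγb : γ b
          · simp only [hγb] at h4
            simp [CRel, h4]
          · simp only [hγb] at h4
            simp [CRel, h4]
          · simp only [hγb] at h4
            simp [CRel, h4]
          · simp only [hγb] at h4
            simp [CRel, h4]
      intro f hf
      have h5 := h1 hf
      rw [RingHom.mem_ker, RingHom.comp_apply, Ideal.Quotient.eq_zero_iff_mem] at h5
      exact h5
    · intro f hf
      have h2 := compIdeal_le_maximalIdeal k hκm hηm τ cb γ hγ
      haveI : Nontrivial (BRing2 O T s k ⧸ compIdeal k κ η τ cb γ) :=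
        Ideal.Quotient.nontrivial_iff.mpr
          (ne_top_of_le_ne_top (maximalIdeal.isMaximal _).ne_top h2)
      haveI hloc : IsLocalRing (BRing2 O T s k ⧸ compIdeal k κ η τ cb γ) :=
        IsLocalRing.of_surjective' (Ideal.Quotient.mk _) Ideal.Quotient.mk_surjective
      haveI hcomp : IsAdicComplete (maximalIdeal (BRing2 O T s k ⧸ compIdeal k κ η τ cb γ))
          (BRing2 O T s k ⧸ compIdeal k κ η τ cb γ) :=
        Fermat.Agent.H69.KP.isAdicComplete_of_surjective
          (Ideal.Quotient.mk (compIdeal k κ η τ cb γ)) Ideal.Quotient.mk_surjective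
      let π := Ideal.Quotient.mk (compIdeal k κ η τ cb γ)
      have hπ := (compIdeal_le_ker_iff (k := k) κ η τ cb γ π).mp (by rw [Ideal.mk_ker])
      have h3 : (π.comp ι).comp ξ = π := by
        apply mv_eval_unique
          (maximalIdeal (BRing2 O T s k ⧸ compIdeal k κ η τ cb γ))
        · intro a
          rw [RingHom.comp_apply, hξC, RingHom.comp_apply, hιC]
        · rintro (⟨t, j⟩ | ⟨b, j⟩ | j)
          · change π (ι (ξ (xVar O s k t j))) = π (xVar O s k t j)
            rw [hξx, hιx]
          · change π (ι (ξ (yVar O T k b j))) = π (yVar O T k b j)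
            have h4 := hξy b j
            have h5 := hιy b
            have h6 := hπ.2 b
            cases hγb : γ b
            · simp only [hγb] at h4 h5 h6
              obtain ⟨h7, h8⟩ := h6
              rw [h4]
              fin_cases j
              · simpa using congrArg π h5
              · simpa using h7.symm
              · simpa using h8.symm
            · simp only [hγb] at h4 h5 h6
              obtain ⟨h7, h8⟩ := h6
              rw [h4]
              fin_cases j
              · simpa using h7.symm
              · simpa using congrArg π h5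
              · simpa using h8.symm
            · simp only [hγb] at h4 h5 h6
              obtain ⟨h7, h8⟩ := h6
              rw [h4]
              fin_cases j
              · simp only [Fin.zero_eta, Fin.isValue, Fin.reduceEq, if_false, if_true, map_neg]
                rw [hιC]
                exact (eq_neg_of_add_eq_zero_left h7).symm
              · simpa using h8.symm
              · simpa using congrArg π h5
            · simp only [hγb] at h4 h6
              obtain ⟨h7, h8, h9⟩ := h6
              rw [h4]
              fin_cases j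
              · simpa using h7.symm
              · simpa using h8.symm
              · simpa using h9.symm
          · rw [RingHom.comp_apply, hξf, RingHom.comp_apply, hιf]
        · intro i
          have h3' : ∀ i, ((π.comp ι).comp ξ) (MvPowerSeries.X i) =
              π (MvPowerSeries.X i) := by
            rintro (⟨t, j⟩ | ⟨b, j⟩ | j)
            · change π (ι (ξ (xVar O s k t j))) = π (xVar O s k t j)
              rw [hξx, hιx]
            · change π (ι (ξ (yVar O T k b j))) = π (yVar O T k b j)
              have h4 := hξy b j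
              have h5 := hιy b
              have h6 := hπ.2 b
              cases hγb : γ b
              · simp only [hγb] at h4 h5 h6
                obtain ⟨h7, h8⟩ := h6
                rw [h4]
                fin_cases j
                · simpa using congrArg π h5
                · simpa using h7.symm
                · simpa using h8.symm
              · simp only [hγb] at h4 h5 h6
                obtain ⟨h7, h8⟩ := h6
                rw [h4]
                fin_cases j
                · simpa using h7.symm
                · simpa using congrArg π h5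
                · simpa using h8.symm
              · simp only [hγb] at h4 h5 h6
                obtain ⟨h7, h8⟩ := h6
                rw [h4]
                fin_cases j
                · simp only [Fin.zero_eta, Fin.isValue, Fin.reduceEq, if_false, if_true, map_neg]
                  rw [hιC]
                  exact (eq_neg_of_add_eq_zero_left h7).symm
                · simpa using h8.symm
                · simpa using congrArg π h5
              · simp only [hγb] at h4 h6
                obtain ⟨h7, h8, h9⟩ := h6
                rw [h4]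
                fin_cases j
                · simpa using h7.symm
                · simpa using h8.symm
                · simpa using h9.symm
            · rw [RingHom.comp_apply, hξf, RingHom.comp_apply, hιf]
          rw [h3']
          exact quot_mem (mv_X_mem i)
      have h4 : relIdeal (s + k) κ η τ ≤ RingHom.ker (π.comp ι) := by
        rw [relIdeal_le_ker_iff]
        intro t
        have h5 := hπ.1 t
        simp only [RingHom.comp_apply, hιC, hιx]
        exact h5
      have h5 : π f = 0 := by
        rw [← h3, RingHom.comp_apply]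
        exact h4 hf
      exact Ideal.Quotient.eq_zero_iff_mem.mp h5
  · intro hzz
    have h1 : ξ.comp ι = RingHom.id _ := by
      apply mv_eval_unique (maximalIdeal (BRing O T (s + k)))
      · intro a
        rw [RingHom.comp_apply, hιC, hξC, RingHom.id_apply]
      · rintro (⟨t, j⟩ | j)
        · change ξ (ι (bVar O (s + k) t j)) = bVar O (s + k) t j
          rw [hιx, hξx]
        · refine Fin.addCases (fun b => ?_) (fun j => ?_) j
          · rw [RingHom.comp_apply, hιy b, RingHom.id_apply]
            have h4 := hξy b
            have h6 := hzz b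
            cases hγb : γ b
            · simp only [hγb] at h4
              dsimp only
              rw [h4]
              simp
            · simp only [hγb] at h4
              dsimp only
              rw [h4]
              simp
            · simp only [hγb] at h4
              dsimp only
              rw [h4]
              simp
            · exact absurd hγb h6
          · rw [RingHom.comp_apply, hιf, hξf, RingHom.id_apply]
      · intro i
        have h3' : ∀ i, (ξ.comp ι) (MvPowerSeries.X i) = MvPowerSeries.X i := by
          rintro (⟨t, j⟩ | j)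
          · change ξ (ι (bVar O (s + k) t j)) = bVar O (s + k) t j
            rw [hιx, hξx]
          · refine Fin.addCases (fun b => ?_) (fun j => ?_) j
            · rw [RingHom.comp_apply, hιy b]
              have h4 := hξy b
              have h6 := hzz b
              cases hγb : γ b
              · simp only [hγb] at h4
                dsimp only
                rw [h4]
                simp
              · simp only [hγb] at h4
                dsimp only
                rw [h4]
                simp
              · simp only [hγb] at h4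
                dsimp only
                rw [h4]
                simp
              · exact absurd hγb h6
            · rw [RingHom.comp_apply, hιf, hξf]
        rw [h3']
        exact mv_X_mem i
    intro f
    exact ⟨ι f, RingHom.congr_fun h1 f⟩

/-- the ideals of the components are prime -/
theorem compIdeal_isPrime (k : ℕ) {κ η : T → O} (hκ : ∀ t, κ t + κ t ≠ 0)
    (hη : ∀ t, η t + η t ≠ 0) (hκm : ∀ t, κ t ∈ maximalIdeal O)
    (hηm : ∀ t, η t ∈ maximalIdeal O) (τ : T → Typ) (cb : Fin s → O) (γ : Fin s → CTyp)
    (hγ : ∀ b, γ b = .sm → cb b ∈ maximalIdeal O) :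
    (compIdeal k κ η τ cb γ).IsPrime := by
  obtain ⟨ξ, hξ, -⟩ := compIdeal_eq_comap k hκm hηm τ cb γ hγ
  haveI := relIdeal_isPrime (s + k) hκ hη hκm hηm τ
  rw [hξ]
  exact Ideal.comap_isPrime ξ _

/-- dimension bound -/
theorem ringKrullDim_quot_compIdeal_le (k : ℕ) {ϖ : O} (hϖ : maximalIdeal O = Ideal.span {ϖ})
    {κ η : T → O} (hκm : ∀ t, κ t ∈ maximalIdeal O) (hηm : ∀ t, η t ∈ maximalIdeal O)
    (τ : T → Typ) (cb : Fin s → O) (γ : Fin s → CTyp)
    (hγ : ∀ b, γ b = .sm → cb b ∈ maximalIdeal O) (hzz : ∀ b, γ b ≠ .zz) :
    ringKrullDim (BRing2 O T s k ⧸ compIdeal k κ η τ cb γ) ≤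
      ((1 + 3 * Nat.card T + (s + k) : ℕ) : WithBot ℕ∞) := by
  obtain ⟨ξ, hξ, hsurj⟩ := compIdeal_eq_comap k hκm hηm τ cb γ hγ
  refine le_trans (le_of_eq ?_) (ringKrullDim_quot_relIdeal_le (s + k) hϖ hκm hηm τ)
  rw [hξ]
  refine ringKrullDim_eq_of_ringEquiv (RingEquiv.ofBijective
    (Ideal.quotientMap (relIdeal (s + k) κ η τ) ξ le_rfl) ⟨Ideal.quotientMap_injective, ?_⟩)
  exact Ideal.quotientMap_surjective (hsurj hzz)

end Main

section Test

variable {O : Type} [CommRing O] [IsLocalRing O] {T : Type} [Finite T] {s : ℕ}

/-- values of the test homomorphism -/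
def tX {W : Type*} [Zero W] (w : W) : Typ → Fin 6 → W
  | .nr, j => if j = 3 then w else 0
  | .st, j => if j = 1 then w else 0
  | .chi, _ => 0

/-- values of the test homomorphism -/
def tY {W : Type*} [Zero W] (w : W) : CTyp → Fin 3 → W
  | .nr, j => if j = 0 then w else 0
  | .su, j => if j = 1 then w else 0
  | .sm, j => if j = 2 then w else 0
  | .zz, _ => 0

/-- test homomorphism into a domain of characteristic `p` -/
theorem exists_test2 (k : ℕ) (σ : T → Typ) (γ : Fin s → CTyp) :
    ∃ θ : BRing2 O T s k →+* MvPowerSeries (T ⊕ Fin s) (ResidueField O),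
      (∀ a, θ (MvPowerSeries.C a) = MvPowerSeries.C (residue O a)) ∧
      (∀ t j, θ (xVar O s k t j) = tX (MvPowerSeries.X (Sum.inl t)) (σ t) j) ∧
      (∀ b j, θ (yVar O T k b j) = tY (MvPowerSeries.X (Sum.inr b)) (γ b) j) := by
  have hfield : IsAdicComplete (maximalIdeal (ResidueField O)) (ResidueField O) := by
    rw [IsLocalRing.maximalIdeal_eq_bot]
    infer_instance
  have hW : IsAdicComplete (maximalIdeal (MvPowerSeries (T ⊕ Fin s) (ResidueField O)))
      (MvPowerSeries (T ⊕ Fin s) (ResidueField O)) := isAdicComplete_mv _ _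
  obtain ⟨θ, hC, hX⟩ := exists_mv_eval (σ := (T × Fin 6) ⊕ ((Fin s × Fin 3) ⊕ Fin k))
    ((MvPowerSeries.C).comp (residue O))
    (maximalIdeal (MvPowerSeries (T ⊕ Fin s) (ResidueField O)))
    (Sum.elim (fun p => tX (MvPowerSeries.X (Sum.inl p.1)) (σ p.1) p.2)
      (Sum.elim (fun p => tY (MvPowerSeries.X (Sum.inr p.1)) (γ p.1) p.2) (fun _ => 0))) (by
      rintro (⟨t, j⟩ | ⟨b, j⟩ | j)
      · simp only [Sum.elim_inl]
        cases σ t
        · simp only [tX]
          split_ifs
          · exact mv_X_mem _
          · exact Ideal.zero_mem _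
        · simp only [tX]
          split_ifs
          · exact mv_X_mem _
          · exact Ideal.zero_mem _
        · exact Ideal.zero_mem _
      · simp only [Sum.elim_inl, Sum.elim_inr]
        cases γ b
        · simp only [tY]
          split_ifs
          · exact mv_X_mem _
          · exact Ideal.zero_mem _
        · simp only [tY]
          split_ifs
          · exact mv_X_mem _
          · exact Ideal.zero_mem _
        · simp only [tY]
          split_ifs
          · exact mv_X_mem _
          · exact Ideal.zero_mem _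
        · exact Ideal.zero_mem _
      · exact Ideal.zero_mem _)
  exact ⟨θ, hC, fun t j => hX (Sum.inl (t, j)), fun b j => hX (Sum.inr (Sum.inl (b, j)))⟩

lemma X_ne_zero_aux {I R : Type*} [CommRing R] [Nontrivial R] (i : I) :
    (MvPowerSeries.X i : MvPowerSeries I R) ≠ 0 := by
  intro h
  have := congrArg (MvPowerSeries.coeff (Finsupp.single i 1)) h
  rw [MvPowerSeries.coeff_index_single_self_X, map_zero] at this
  exact one_ne_zero this

lemma X_add_C_ne_zero_aux {I R : Type*} [CommRing R] [Nontrivial R] (i : I) (a : R) :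
    (MvPowerSeries.X i + MvPowerSeries.C a : MvPowerSeries I R) ≠ 0 := by
  classical
  intro h
  have := congrArg (MvPowerSeries.coeff (Finsupp.single i 1)) h
  rw [map_add, MvPowerSeries.coeff_index_single_self_X, MvPowerSeries.coeff_C, map_zero,
    if_neg (by simp), add_zero] at this
  exact one_ne_zero this

section

variable {k : ℕ} {κ η : T → O} {σ : T → Typ} {cb : Fin s → O} {γ : Fin s → CTyp}
  {θ : BRing2 O T s k →+* MvPowerSeries (T ⊕ Fin s) (ResidueField O)}
  (hC : ∀ a, θ (MvPowerSeries.C a) = MvPowerSeries.C (residue O a))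
  (hx : ∀ t j, θ (xVar O s k t j) = tX (MvPowerSeries.X (Sum.inl t)) (σ t) j)
  (hy : ∀ b j, θ (yVar O T k b j) = tY (MvPowerSeries.X (Sum.inr b)) (γ b) j)

include hC in
lemma test_C {a : O} (ha : a ∈ maximalIdeal O) : θ (MvPowerSeries.C a) = 0 := by
  rw [hC, (residue_eq_zero_iff a).mpr ha, map_zero]

include hC hx hy in
/-- the test homomorphism kills the ideal of its own component -/
lemma test_kills (hηm : ∀ t, η t ∈ maximalIdeal O) (hσ : ∀ t, σ t ≠ .chi)
    (hγ : ∀ b, γ b = .sm → cb b ∈ maximalIdeal O) :
    compIdeal k κ η σ cb γ ≤ RingHom.ker θ := by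
  rw [compIdeal_le_ker_iff]
  refine ⟨fun t => ?_, fun b => ?_⟩
  · rw [test_C hC (hηm t)]
    have h := hx t
    cases hτ : σ t
    · simp only [hτ, tX] at h
      simp [TRel, h]
    · simp only [hτ, tX] at h
      simp [TRel, h]
    · exact absurd hτ (hσ t)
  · have h := hy b
    cases hγb : γ b
    · simp only [hγb, tY] at h
      simp [CRel, h]
    · simp only [hγb, tY] at h
      simp [CRel, h]
    · simp only [hγb, tY] at h
      rw [test_C hC (hγ b hγb)]
      simp [CRel, h]
    · simp only [hγb, tY] at h
      simp [CRel, h]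

include hC hx hy in
/-- the test homomorphism kills the component of principal series type -/
lemma test_kills_chi (hκm : ∀ t, κ t ∈ maximalIdeal O) (hγ : ∀ b, γ b = .nr) :
    compIdeal k κ η (fun _ => Typ.chi) cb γ ≤ RingHom.ker θ := by
  rw [compIdeal_le_ker_iff]
  refine ⟨fun t => ?_, fun b => ?_⟩
  · rw [test_C hC (hκm t)]
    have h := hx t
    cases hτ : σ t
    · simp only [hτ, tX] at h
      simp [TRel, h]
    · simp only [hτ, tX] at h
      simp [TRel, h]
    · simp only [hτ, tX] at h
      simp [TRel, h]
  · have h := hy b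
    rw [hγ b] at h ⊢
    simp only [tY] at h
    simp [CRel, h]

include hC hx in
/-- the test elements do not vanish -/
lemma test_gElt (hηm : ∀ t, η t ∈ maximalIdeal O) (t : T) :
    θ (gElt (MvPowerSeries.C (η t)) (xVar O s k t) (σ t)) ≠ 0 := by
  have hbt := hx t
  have hXne := X_ne_zero_aux (R := ResidueField O) (Sum.inl t : T ⊕ Fin s)
  cases hσ : σ t
  · simp only [hσ, tX] at hbt
    simp only [gElt, map_sub, map_add, map_mul, map_pow, hbt, test_C hC (hηm t)]
    simp
    exact hXne
  · simp only [hσ, tX] at hbt
    simp only [gElt, hbt]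
    simpa using hXne
  · simp [gElt]

include hC hx hy in
/-- the test homomorphism detects the component -/
lemma test_detect (hηm : ∀ t, η t ∈ maximalIdeal O) (hσ : ∀ t, σ t ≠ .chi)
    {σ' : T → Typ} (hσ' : ∀ t, σ' t ≠ .chi) {γ' : Fin s → CTyp} (hγ' : ∀ b, γ' b ≠ .zz)
    (h : compIdeal k κ η σ' cb γ' ≤ RingHom.ker θ) :
    σ' = σ ∧ ∀ b, (γ b = .nr → γ' b = .nr) ∧ (γ b = .su → γ' b = .su) := by
  rw [compIdeal_le_ker_iff] at h
  obtain ⟨h1, h2⟩ := h
  haveI : IsDomain (MvPowerSeries (T ⊕ Fin s) (ResidueField O)) := NoZeroDivisors.to_isDomain _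
  refine ⟨?_, fun b => ⟨fun hb => ?_, fun hb => ?_⟩⟩
  · funext t
    have h3 := h1 t
    have h4 := hx t
    have h5 := hσ' t
    rw [test_C hC (hηm t)] at h3
    have hXne := X_ne_zero_aux (R := ResidueField O) (Sum.inl t : T ⊕ Fin s)
    cases hτ : σ t
    · simp only [hτ, tX] at h4
      cases hτ' : σ' t
      · rfl
      · exfalso
        rw [hτ'] at h3
        obtain ⟨h6, -⟩ := h3
        simp only [h4] at h6
        apply hXne
        simpa using h6
      · exact absurd hτ' h5
    · simp only [hτ, tX] at h4
      cases hτ' : σ' t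
      · exfalso
        rw [hτ'] at h3
        obtain ⟨-, h6, -⟩ := h3
        simp only [h4] at h6
        apply hXne
        simpa using h6
      · rfl
      · exact absurd hτ' h5
    · exact absurd hτ (hσ t)
  · have h3 := h2 b
    have h4 := hy b
    have h5 := hγ' b
    rw [hC] at h3
    rw [hb] at h4
    simp only [tY] at h4
    cases hγb : γ' b
    · rfl
    · exfalso
      rw [hγb] at h3
      obtain ⟨h6, -⟩ := h3
      simp only [h4] at h6
      exact X_ne_zero_aux _ (by simpa using h6)
    · exfalso
      rw [hγb] at h3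
      obtain ⟨h6, -⟩ := h3
      simp only [h4] at h6
      exact X_add_C_ne_zero_aux _ _ (by simpa using h6)
    · exact absurd hγb h5
  · have h3 := h2 b
    have h4 := hy b
    have h5 := hγ' b
    rw [hC] at h3
    rw [hb] at h4
    simp only [tY] at h4
    cases hγb : γ' b
    · exfalso
      rw [hγb] at h3
      obtain ⟨h6, -⟩ := h3
      simp only [h4] at h6
      exact X_ne_zero_aux _ (by simpa using h6)
    · rfl
    · exfalso
      rw [hγb] at h3
      obtain ⟨-, h6⟩ := h3
      simp only [h4] at h6
      exact X_ne_zero_aux _ (by simpa using h6)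
    · exact absurd hγb h5

end

end Test

end Fermat.Agent.H57.Full
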