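/-
Abstract commutative algebra for the full endgame of modularity lifting: support of the unipotent
module (several components) and raising.
-/
import Fermat.Agent.H57NMMain
import Mathlib.RingTheory.Ideal.AssociatedPrime.Localization

set_option autoImplicit false
set_option linter.style.haveILetI false
set_option linter.unusedSectionVars false

namespace Fermat.Agent.H57.Full

open IsLocalRing Fermat.Agent.H57 Fermat.Agent.H57.Tame Fermat.Agent.H57.NM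
  Fermat.Agent.H69.KP Fermat.Agent.H69.EG

section Abs

variable {S B : Type} [CommRing S] [CommRing B] [IsDomain S] [IsNoetherianRing S]
  [IsNoetherianRing B]

/-- **Support of the unipotent module**, abstract form. -/
theorem ann_le_abs (φ : S →+* B)
    {N₀ N₁ : Type} [AddCommGroup N₀] [Module B N₀] [AddCommGroup N₁] [Module B N₁]
    {d₀ d₁ : ℕ} (hd₀ : 0 < d₀)
    (b₀ : Fin d₀ → N₀) (hspan₀ : ∀ x : N₀, ∃ c : Fin d₀ → S, x = ∑ i, φ (c i) • b₀ i)
    (hrel₀ : ∀ c : Fin d₀ → S, ∑ i, φ (c i) • b₀ i = 0 → ∀ i, c i = 0)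
    (b₁ : Fin d₁ → N₁) (hspan₁ : ∀ x : N₁, ∃ c : Fin d₁ → S, x = ∑ i, φ (c i) • b₁ i)
    (hrel₁ : ∀ c : Fin d₁ → S, ∑ i, φ (c i) • b₁ i = 0 → ∀ i, c i = 0)
    {n : ℕ} (hn : (n : WithBot ℕ∞) ≤ ringKrullDim S)
    (K : Ideal B)
    (e : (N₀ ⧸ (K • ⊤ : Submodule B N₀)) ≃ₗ[B] (N₁ ⧸ (K • ⊤ : Submodule B N₁)))
    (g : B)
    (hchi : ∀ P : Ideal B, P.IsPrime → (∀ f : B, (∀ x : N₀, f • x = 0) → f ∈ P) →
      (∀ s : S, φ s ∈ P → s = 0) → ∃ J : Ideal B, J.IsPrime ∧ J ≤ P ∧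
        ringKrullDim (B ⧸ J) ≤ (n : WithBot ℕ∞) ∧
        ∃ (q : Ideal B), q.IsPrime ∧ J ≤ q ∧ K ≤ q ∧ g ∉ q)
    {J₁ : Ideal B} (hJ₁ : J₁.IsPrime) (hJ₁d : ringKrullDim (B ⧸ J₁) ≤ (n : WithBot ℕ∞))
    (huni : ∀ P : Ideal B, P.IsPrime → (∀ f : B, (∀ x : N₁, f • x = 0) → f ∈ P) →
      (∀ s : S, φ s ∈ P → s = 0) → g ∉ P → J₁ ≤ P)
    (f : B) (hf : ∀ x : N₁, f • x = 0) : f ∈ J₁ := by
  obtain ⟨P, hP, hannP, hSP, hdimP⟩ :=
    Fermat.Agent.H69.EG.exists_prime φ hd₀ b₀ hspan₀ hrel₀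
  obtain ⟨J, hJp, hJP, hJd, q, hq, hJq, hKq, hgq⟩ := hchi P hP hannP hSP
  have hPeq : P = J := eq_of_le_of_ringKrullDim hJP hJd (hn.trans hdimP)
  haveI hfin₀ : Module.Finite B N₀ := by
    refine Module.Finite.of_surjective (Fintype.linearCombination B b₀) ?_
    intro y
    obtain ⟨c, hc⟩ := hspan₀ y
    exact ⟨fun i => φ (c i), by rw [Fintype.linearCombination_apply, hc]⟩
  haveI hfin₁ : Module.Finite B N₁ := by
    refine Module.Finite.of_surjective (Fintype.linearCombination B b₁) ?_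
    intro y
    obtain ⟨c, hc⟩ := hspan₁ y
    exact ⟨fun i => φ (c i), by rw [Fintype.linearCombination_apply, hc]⟩
  have hnil : ∀ m : ℕ, ∃ x : N₁, g ^ m • x ≠ 0 := by
    intro m
    by_contra hcon
    push Not at hcon
    have h1 : ∀ x : N₀, g ^ m • x ∈ (K • ⊤ : Submodule B N₀) := by
      intro x
      obtain ⟨y, hy⟩ := Submodule.Quotient.mk_surjective _ (e (Submodule.Quotient.mk x))
      have h3 : g ^ m • (e (Submodule.Quotient.mk x)) = 0 := by
        rw [← hy, ← Submodule.Quotient.mk_smul, hcon y, Submodule.Quotient.mk_zero]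
      rwa [← map_smul, LinearEquiv.map_eq_zero_iff, ← Submodule.Quotient.mk_smul,
        Submodule.Quotient.mk_eq_zero] at h3
    have h2 : g ^ m ∈ q := by
      refine mem_of_smul_mem (N := N₀) hq hKq ?_ h1
      intro f hf
      exact hJq (hPeq ▸ hannP f hf)
    exact hgq (hq.mem_of_pow_mem m h2)
  obtain ⟨Q, x, hQ, hmem, hgQ⟩ := exists_ass_avoid (N := N₁) g hnil
  obtain ⟨hSQ, hdimQ⟩ := dim_of_ann φ b₁ hspan₁ hrel₁ Q hQ.ne_top x hmem
  have hannQ : ∀ f : B, (∀ x : N₁, f • x = 0) → f ∈ Q := fun f hf => (hmem f).mpr (hf x)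
  have hQeq : Q = J₁ :=
    eq_of_le_of_ringKrullDim (huni Q hQ hannQ hSQ hgQ) hJ₁d (hn.trans hdimQ)
  rw [← hQeq]
  exact hannQ f hf

/-- **Raising**, abstract form. `A` is the old module, `Xn` the new quotient; `𝔮` is the generic
point of the intersection of the old component with the new component `Pn`. -/
theorem raise_abs (φ : S →+* B) {A Xn : Type} [AddCommGroup A] [Module B A] [Module.Finite B A]
    [AddCommGroup Xn] [Module B Xn] {d : ℕ} (b : Fin d → Xn)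
    (hspan : ∀ x : Xn, ∃ c : Fin d → S, x = ∑ i, φ (c i) • b i)
    (hrel : ∀ c : Fin d → S, ∑ i, φ (c i) • b i = 0 → ∀ i, c i = 0)
    {n : ℕ} (hn : (n : WithBot ℕ∞) ≤ ringKrullDim S)
    {𝔮 Pn : Ideal B} (h𝔮 : 𝔮.IsPrime) {t c' : B} (ht : t ∈ 𝔮) (hc' : c' ∉ 𝔮)
    (hA : ∀ f : B, (∀ a : A, f • a = 0) → f ∈ 𝔮)
    (hX : ∀ P : Ideal B, P.IsPrime → (∀ f : B, (∀ x : Xn, f • x = 0) → f ∈ P) →
      (∀ s : S, φ s ∈ P → s = 0) → (n : WithBot ℕ∞) ≤ ringKrullDim (B ⧸ P) → P ≤ 𝔮 → P ≤ Pn)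
    (hIII : ∀ g : B, (∀ x : Xn, g • x = 0) →
      ∀ a : A, (c' * g) • a ∈ (Ideal.span {t} • ⊤ : Submodule B A))
    (f : B) (hf : ∀ x : Xn, f • x = 0) : f ∈ Pn := by
  haveI hfinX : Module.Finite B Xn := by
    refine Module.Finite.of_surjective (Fintype.linearCombination B b) ?_
    intro y
    obtain ⟨c, hc⟩ := hspan y
    exact ⟨fun i => φ (c i), by rw [Fintype.linearCombination_apply, hc]⟩
  by_cases hle : Module.annihilator B Xn ≤ 𝔮
  · obtain ⟨P, hPmin, hP𝔮⟩ := Ideal.exists_minimalPrimes_le hle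
    have hPass := Module.associatedPrimes.minimalPrimes_annihilator_subset_associatedPrimes
      (R := B) (M := Xn) hPmin
    rw [AssociatedPrimes.mem_iff, isAssociatedPrime_iff] at hPass
    obtain ⟨hP, x, hx⟩ := hPass
    have hmem : ∀ f : B, f ∈ P ↔ f • x = 0 := by
      intro f
      rw [hx, Submodule.mem_colon_singleton, Submodule.mem_bot]
    obtain ⟨hSP, hdimP⟩ := dim_of_ann φ b hspan hrel P hP.ne_top x hmem
    have hannP : ∀ f : B, (∀ x : Xn, f • x = 0) → f ∈ P := fun f hf => (hmem f).mpr (hf x)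
    exact hX P hP hannP hSP (hn.trans hdimP) hP𝔮 (hannP f hf)
  · exfalso
    obtain ⟨g, hg, hg𝔮⟩ := SetLike.not_le_iff_exists.mp hle
    rw [Module.mem_annihilator] at hg
    have h1 := mem_of_smul_mem (N := A) h𝔮
      ((Ideal.span_singleton_le_iff_mem 𝔮).mpr ht) hA (hIII g hg)
    rcases h𝔮.mem_or_mem h1 with h2 | h2
    · exact hc' h2
    · exact hg𝔮 h2

end Abs

end Fermat.Agent.H57.Full
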