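/-
Transfer of implications between modules to the patching limit.
-/
import Fermat.Agent.H57FullAlg

set_option autoImplicit false
set_option linter.style.haveILetI false
set_option linter.unusedSectionVars false

namespace Fermat.Agent.H57.Full

open IsLocalRing Fermat.Agent.H57 Fermat.Agent.H57.Tame Fermat.Agent.H57.NM
  Fermat.Agent.H69.KP Fermat.Agent.H69.EG

variable {S B : Type} [CommRing S] [CommRing B] {ι : Type} {d : ι → ℕ}
  [IsLocalRing S] [IsNoetherianRing S] [IsAdicComplete (maximalIdeal S) S]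
  [Finite (ResidueField S)]
  [IsLocalRing B] [IsNoetherianRing B] [IsAdicComplete (maximalIdeal B) B]
  [Finite (ResidueField B)]

section Basic

variable {I : ℕ → Ideal S} (hI : ∀ n, I n ≤ maximalIdeal S ^ n)
  (L : ∀ n, FLevel S B d (I n)) (U : Ultrafilter ℕ) (hU : ∀ k, ∀ᶠ n in (U : Filter ℕ), k ≤ n)
  (L' : FLevel S B d (⊥ : Ideal S))
  (hΘ : ∀ τ f i j, IsULim (maximalIdeal S) U (fun n => Θ (L n).toK τ f i j)
    (Θ L'.toK τ f i j))

include hΘ in
/-- approximation of finitely many matrices at a large level -/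
lemma exists_approx (k : ℕ) (τ : ι) (f : B) :
    ∀ᶠ n in (U : Filter ℕ), ∀ i j, Θ (L n).toK τ f i j - Θ L'.toK τ f i j ∈
      maximalIdeal S ^ k := by
  have h1 : ∀ i j, ∀ᶠ n in (U : Filter ℕ), Θ (L n).toK τ f i j - Θ L'.toK τ f i j ∈
      maximalIdeal S ^ k := by
    intro i j
    filter_upwards [hΘ τ f i j k] with n hn
    rwa [smul_eq_mul, Ideal.mul_top] at hn
  simp only [Filter.eventually_all]
  exact h1

lemma Θ_eq_zero_of_kills (τ : ι) {g : B} (hg : ∀ x : L'.N τ, g • x = 0) (i j : Fin (d τ)) :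
    Θ L'.toK τ g i j = 0 := by
  have h1 := Θ_mem_of_smul_mem L'.toK τ g (K := ⊥) (fun x => by
    have h2 : g • x = 0 := hg x
    rw [h2]
    exact Submodule.zero_mem _) i j
  rwa [sup_bot_eq, Submodule.mem_bot] at h1

include hI hU hΘ in
/-- if `g` kills the limit module then it is small at large levels -/
lemma eventually_mulLe (k : ℕ) (τ : ι) {g : B} (hg : ∀ x : L'.N τ, g • x = 0) :
    ∀ᶠ n in (U : Filter ℕ), I n ≤ maximalIdeal S ^ k ∧
      MulLe (L n) τ (maximalIdeal S ^ k) g := by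
  filter_upwards [exists_approx L U L' hΘ k τ g, hU k] with n h1 h2
  refine ⟨(hI n).trans (Ideal.pow_le_pow_right h2), ?_⟩
  refine smul_mem_of_Θ_mem (L n).toK τ g fun i j => ?_
  have h3 := h1 i j
  rw [Θ_eq_zero_of_kills L' τ hg, sub_zero] at h3
  exact Ideal.mem_sup_left h3

include hI hU hΘ in
/-- **Transfer** of implications between annihilators. -/
theorem kills_of_ulimit (τ τ' : ι) (c : B)
    (h : ∀ n (K : Ideal S) (g : B), I n ≤ K → MulLe (L n) τ K g → MulLe (L n) τ' K (c * g))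
    {g : B} (hg : ∀ x : L'.N τ, g • x = 0) (x : L'.N τ') : (c * g) • x = 0 := by
  have h1 : MulLe L' τ' ⊥ (c * g) := by
    refine smul_mem_of_Θ_mem L'.toK τ' (c * g) fun i j => Ideal.mem_sup_left ?_
    refine mem_of_forall_mem_sup_pow fun k => ?_
    obtain ⟨n, ⟨h2, h3⟩, h4⟩ := ((eventually_mulLe hI L U hU L' hΘ k τ hg).and
      (exists_approx L U L' hΘ k τ' (c * g))).exists
    have h5 := h n _ g h2 h3
    have h6 := Θ_mem_of_smul_mem (L n).toK τ' (c * g) h5 i j
    have h7 : maximalIdeal S ^ k ⊔ I n ≤ maximalIdeal S ^ k := sup_le le_rfl h2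
    have h8 := sub_mem (h7 h6) (h4 i j)
    rw [sub_sub_cancel] at h8
    exact Ideal.mem_sup_right h8
  have h2 := h1 x
  rwa [Ideal.map_bot, Submodule.bot_smul, Submodule.mem_bot] at h2

/-- Krull: approximate solvability of linear equations. -/
lemma exists_of_approx {d : ℕ} (A : Fin d → Fin d → S) (w : Fin d → S)
    (h : ∀ k, ∃ v : Fin d → S, ∀ i, w i - ∑ l, A i l * v l ∈ maximalIdeal S ^ k) :
    ∃ v : Fin d → S, ∀ i, w i = ∑ l, A i l * v l := by
  classical
  let F : (Fin d → S) →ₗ[S] (Fin d → S) := Matrix.toLin' (Matrix.of A)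
  have hF : ∀ v i, F v i = ∑ l, A i l * v l := fun v i => rfl
  have h1 : (Submodule.Quotient.mk w : (Fin d → S) ⧸ LinearMap.range F) ∈
      (⨅ i : ℕ, (maximalIdeal S ^ i • ⊤ : Submodule S ((Fin d → S) ⧸ LinearMap.range F))) := by
    rw [Submodule.mem_iInf]
    intro k
    obtain ⟨v, hv⟩ := h k
    have h2 : (Submodule.Quotient.mk w : (Fin d → S) ⧸ LinearMap.range F) =
        Submodule.Quotient.mk (w - F v) := by
      rw [Submodule.Quotient.eq, sub_sub_cancel]
      exact ⟨v, rfl⟩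
    have h3 : w - F v = ∑ i, (w i - ∑ l, A i l * v l) • (Pi.single i (1 : S) : Fin d → S) := by
      funext j
      rw [Finset.sum_apply, Finset.sum_eq_single j]
      · rw [Pi.smul_apply, Pi.single_eq_same, smul_eq_mul, mul_one, Pi.sub_apply, hF]
      · intro i _ hij
        rw [Pi.smul_apply, Pi.single_eq_of_ne hij.symm, smul_zero]
      · simp
    rw [h2, h3]
    change (LinearMap.range F).mkQ _ ∈ _
    rw [map_sum]
    refine Submodule.sum_mem _ fun i _ => ?_
    rw [map_smul]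
    exact Submodule.smul_mem_smul (hv i) trivial
  rw [Ideal.iInf_pow_smul_eq_bot_of_isLocalRing _ (maximalIdeal.isMaximal S).ne_top,
    Submodule.mem_bot, Submodule.Quotient.mk_eq_zero] at h1
  obtain ⟨v, hv⟩ := h1
  exact ⟨v, fun i => by rw [← hF, hv]⟩

include hI hU hΘ in
/-- **Transfer** of divisibility. -/
theorem div_of_ulimit (τ τ' : ι) (c t : B)
    (h : ∀ n (K : Ideal S) (g : B), I n ≤ K → MulLe (L n) τ K g → ∀ a : (L n).N τ',
      ∃ a' : (L n).N τ', (c * g) • a - t • a' ∈ (K.map (L n).φ • ⊤ : Submodule B ((L n).N τ')))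
    {g : B} (hg : ∀ x : L'.N τ, g • x = 0) (a : L'.N τ') :
    (c * g) • a ∈ (Ideal.span {t} • ⊤ : Submodule B (L'.N τ')) := by
  -- enough for basis vectors
  have key : ∀ j, (c * g) • L'.b τ' j ∈ (Ideal.span {t} • ⊤ : Submodule B (L'.N τ')) := by
    intro j
    obtain ⟨v, hv⟩ := exists_of_approx (fun i l => Θ L'.toK τ' t i l)
      (fun i => Θ L'.toK τ' (c * g) i j) (by
      intro k
      obtain ⟨n, ⟨h2, h3⟩, h4, h5⟩ := ((eventually_mulLe hI L U hU L' hΘ k τ hg).and
        ((exists_approx L U L' hΘ k τ' (c * g)).and (exists_approx L U L' hΘ k τ' t))).exists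
      obtain ⟨a', ha'⟩ := h n _ g h2 h3 ((L n).b τ' j)
      obtain ⟨v, hv⟩ := (L n).b_span τ' a'
      refine ⟨v, fun i => ?_⟩
      have h6 : (c * g) • (L n).b τ' j - t • a' = ∑ i, (L n).φ
          (Θ (L n).toK τ' (c * g) i j - ∑ l, Θ (L n).toK τ' t i l * v l) • (L n).b τ' i := by
        have h7 : (c * g) • (L n).b τ' j =
            ∑ i, (L n).φ (Θ (L n).toK τ' (c * g) i j) • (L n).b τ' i :=
          Θ_spec (L n).toK τ' (c * g) j
        have h8 : t • ∑ j, (L n).φ (v j) • (L n).b τ' j =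
            ∑ i, (L n).φ (∑ l, Θ (L n).toK τ' t i l * v l) • (L n).b τ' i :=
          smul_sum (L n).toK τ' t v
        rw [hv, h8, h7, ← Finset.sum_sub_distrib]
        refine Finset.sum_congr rfl fun i _ => ?_
        rw [map_sub, sub_smul]
      rw [h6] at ha'
      have h9 := (sum_mem_iff (L n).toK).mp ha' i
      have h10 : maximalIdeal S ^ k ⊔ I n ≤ maximalIdeal S ^ k := sup_le le_rfl h2
      have h11 := h10 h9
      have h12 : ∑ l, (Θ (L n).toK τ' t i l - Θ L'.toK τ' t i l) * v l ∈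
          maximalIdeal S ^ k := Ideal.sum_mem _ fun l _ => Ideal.mul_mem_right _ _ (h5 i l)
      have h13 : Θ L'.toK τ' (c * g) i j - ∑ l, Θ L'.toK τ' t i l * v l =
          (Θ (L n).toK τ' (c * g) i j - ∑ l, Θ (L n).toK τ' t i l * v l) -
            (Θ (L n).toK τ' (c * g) i j - Θ L'.toK τ' (c * g) i j) +
            ∑ l, (Θ (L n).toK τ' t i l - Θ L'.toK τ' t i l) * v l := by
        simp only [sub_mul, Finset.sum_sub_distrib]
        ring
      rw [h13]
      exact add_mem (sub_mem h11 (h4 i j)) h12)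
    have h14 : (c * g) • L'.b τ' j = ∑ i, L'.φ (Θ L'.toK τ' (c * g) i j) • L'.b τ' i :=
      Θ_spec L'.toK τ' (c * g) j
    have h15 : t • ∑ j, L'.φ (v j) • L'.b τ' j =
        ∑ i, L'.φ (∑ l, Θ L'.toK τ' t i l * v l) • L'.b τ' i := smul_sum L'.toK τ' t v
    have h16 : (c * g) • L'.b τ' j = t • ∑ l, L'.φ (v l) • L'.b τ' l := by
      rw [h14, h15]
      refine Finset.sum_congr rfl fun i _ => ?_
      rw [hv i]
    rw [h16]
    exact Submodule.smul_mem_smul (Ideal.mem_span_singleton_self t) trivial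
  obtain ⟨v, hv⟩ := L'.b_span τ' a
  rw [hv, Finset.smul_sum]
  refine Submodule.sum_mem _ fun i _ => ?_
  rw [smul_comm]
  exact Submodule.smul_mem _ _ (key i)

end Basic

end Fermat.Agent.H57.Full
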