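/-
Levels for the full endgame of modularity lifting (scalar primes `T`, non-scalar primes
`b_1, …, b_s`), and their conversion to target-free patching levels.
-/
import Fermat.Agent.H57FullLimit
import Fermat.Agent.H57FullGeo

set_option autoImplicit false
set_option linter.style.haveILetI false
set_option linter.unusedSectionVars false

namespace Fermat.Agent.H57.Full

open IsLocalRing Fermat.Agent.H57 Fermat.Agent.H57.Tame Fermat.Agent.H57.NM
  Fermat.Agent.H69.KP Fermat.Agent.H69.EG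

/-- index set of the modules: `chi` (non-trivial characters at `T`, unramified at all `b`),
`mod i` (unipotent at `T` and at `b_1, …, b_i`), `new i` (quotient of `mod (i+1)` by the two copies
of `mod i`). -/
inductive MIdx (s : ℕ)
  | chi
  | mod (i : Fin (s + 1))
  | new (i : Fin s)

instance (s : ℕ) : Finite (MIdx s) := by
  refine Finite.of_surjective (fun x : Unit ⊕ (Fin (s + 1) ⊕ Fin s) =>
    Sum.elim (fun _ => MIdx.chi) (Sum.elim MIdx.mod MIdx.new) x) ?_
  rintro (_ | i | i)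
  · exact ⟨Sum.inl (), rfl⟩
  · exact ⟨Sum.inr (Sum.inl i), rfl⟩
  · exact ⟨Sum.inr (Sum.inr i), rfl⟩

attribute [local instance] RPart.instCommRing RPart.instLocal RPart.instAlgebra

/-- One level of a Taylor--Wiles system for the full non-minimal modularity lifting theorem. -/
structure FullLevel (O : Type) [CommRing O] [IsLocalRing O] (ϖ c' : O) (p r n D m s : ℕ)
    {T : Type} (B : Type) [CommRing B] [Algebra O B] (X : T → Fin 6 → B) (Y : Fin s → Fin 3 → B)
    (q : T → ℕ) (v : T → O) (Z : T → Finset Oˣ) (cb : Fin s → O) extends RPart O B X q v where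
  /-- the modules -/
  N : MIdx s → Type
  [instAddCommGroup : ∀ τ, AddCommGroup (N τ)]
  [instModule : ∀ τ, Module R (N τ)]
  /-- the ranks -/
  d : MIdx s → ℕ
  d_pos : 0 < d .chi
  d_le : ∀ τ, d τ ≤ D
  /-- the exponents of the diamond group -/
  e : Fin r → ℕ
  le_e : ∀ j, n ≤ e j
  /-- the diamond operators (through the Galois side) -/
  φ : MvPowerSeries (Fin r) O →ₐ[O] R
  φ_mem : ∀ j, φ (MvPowerSeries.X j) ∈ maximalIdeal R
  /-- the bases -/
  b : ∀ τ, Fin (d τ) → N τ
  b_span : ∀ τ (x : N τ), ∃ c : Fin (d τ) → MvPowerSeries (Fin r) O, x = ∑ i, φ (c i) • b τ i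
  b_rel : ∀ τ (c : Fin (d τ) → MvPowerSeries (Fin r) O), ∑ i, φ (c i) • b τ i = 0 ↔
    ∀ i, c i ∈ twIdeal O (fun j => p ^ e j)
  prod_smul : ∀ t (x : N .chi),
    (∏ ζ ∈ Z t, (Sg t 0 0 + Sg t 1 1 - algebraMap O R ((ζ : O) + (ζ⁻¹ : Oˣ)))) • x = 0
  uni_smul : ∀ i t (x : N (.mod i)), (Sg t 0 0 + Sg t 1 1 - 2) • x = 0
  chi_nr : ∀ i (x : N .chi), β (Y i 1) • x = 0 ∧ β (Y i 2) • x = 0
  mod_nr : ∀ (i : Fin (s + 1)) (j : Fin s), (i : ℕ) ≤ j → ∀ x : N (.mod i),
    β (Y j 1) • x = 0 ∧ β (Y j 2) • x = 0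
  mod_uni : ∀ (i : Fin (s + 1)) (j : Fin s), (j : ℕ) < i → ∀ x : N (.mod i),
    β (Y j 1 * Y j 0) • x = 0 ∧ β (Y j 2 * (Y j 0 + algebraMap O B (cb j))) • x = 0
  new_smul : ∀ (i : Fin s) (x : N (.new i)),
    β ((Y i 0 * (Y i 0 + algebraMap O B (cb i))) ^ 2) • x = 0
  iso : Nonempty ((N .chi ⧸ (Ideal.span {algebraMap O R ϖ} • ⊤ : Submodule R (N .chi))) ≃ₗ[R]
    (N (.mod 0) ⧸ (Ideal.span {algebraMap O R ϖ} • ⊤ : Submodule R (N (.mod 0)))))
  /-- the quotient map to the new part -/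
  quo : ∀ i : Fin s, N (.mod i.succ) →ₗ[R] N (.new i)
  quo_surj : ∀ i, Function.Surjective (quo i)
  /-- the map to lower level -/
  low : ∀ i : Fin s, N (.mod i.succ) →ₗ[R] N (.mod i.castSucc)
  low_surj : ∀ i (a : N (.mod i.castSucc)), ∃ y, low i y = algebraMap O R c' • a
  low_old : ∀ i y, quo i y = 0 → ∃ a, low i y = β (Y i 0) • a
  /-- the point -/
  pt : R →ₐ[O] O
  pt_φ : ∀ j, pt (φ (MvPowerSeries.X j)) = 0
  pt_uni : ∀ t, pt (Sg t 0 0 + Sg t 1 1) = 2
  pt_t : ∀ i, pt (β (Y i 0)) = 0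
  pt_z : ∀ i, pt (β (Y i 2)) = 0
  /-- the witness of non-modularity -/
  f : R
  f_smul : ∀ x : N (.mod (Fin.last s)), f • x ∈
    (Ideal.span (Set.range fun j => φ (MvPowerSeries.X j)) • ⊤ :
      Submodule R (N (.mod (Fin.last s))))
  f_pt : pt f ∉ Ideal.span {ϖ ^ m}

attribute [local instance] FullLevel.instAddCommGroup FullLevel.instModule

lemma map_smul_top_le {B M M' : Type} [CommRing B] [AddCommGroup M] [Module B M]
    [AddCommGroup M'] [Module B M'] (f : M →ₗ[B] M') (K : Ideal B) {x : M}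
    (hx : x ∈ (K • ⊤ : Submodule B M)) : f x ∈ (K • ⊤ : Submodule B M') := by
  have h1 : f x ∈ (K • ⊤ : Submodule B M).map f := ⟨x, hx, rfl⟩
  rw [Submodule.map_smul''] at h1
  exact Submodule.smul_mono le_rfl le_top h1

lemma exists_of_surjective_smul_top {B M M' : Type} [CommRing B] [AddCommGroup M] [Module B M]
    [AddCommGroup M'] [Module B M'] (f : M →ₗ[B] M') (hf : Function.Surjective f) (K : Ideal B)
    {y : M'} (hy : y ∈ (K • ⊤ : Submodule B M')) : ∃ x ∈ (K • ⊤ : Submodule B M), f x = y := by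
  have h1 : (K • ⊤ : Submodule B M).map f = (K • ⊤ : Submodule B M') := by
    rw [Submodule.map_smul'', Submodule.map_top, LinearMap.range_eq_top.mpr hf]
  rw [← h1] at hy
  exact hy

lemma new_of_maps {B M Xn : Type} [CommRing B] [AddCommGroup M] [Module B M]
    [AddCommGroup Xn] [Module B Xn] (quo : M →ₗ[B] Xn) (hquo : Function.Surjective quo)
    (K : Ideal B) {g : B} (hg : ∀ y : M, g • y ∈ (K • ⊤ : Submodule B M)) (x : Xn) :
    g • x ∈ (K • ⊤ : Submodule B Xn) := by
  obtain ⟨y, rfl⟩ := hquo x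
  rw [← map_smul]
  exact map_smul_top_le quo K (hg y)

lemma low_of_maps {B M A : Type} [CommRing B] [AddCommGroup M] [Module B M]
    [AddCommGroup A] [Module B A] (low : M →ₗ[B] A) (c : B) (hlow : ∀ a, ∃ y, low y = c • a)
    (K : Ideal B) {g : B} (hg : ∀ y : M, g • y ∈ (K • ⊤ : Submodule B M)) (a : A) :
    (c * g) • a ∈ (K • ⊤ : Submodule B A) := by
  obtain ⟨y, hy⟩ := hlow a
  rw [mul_comm, mul_smul, ← hy, ← map_smul]
  exact map_smul_top_le low K (hg y)

lemma div_of_maps {B M A Xn : Type} [CommRing B] [AddCommGroup M] [Module B M]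
    [AddCommGroup A] [Module B A] [AddCommGroup Xn] [Module B Xn] (quo : M →ₗ[B] Xn)
    (hquo : Function.Surjective quo) (low : M →ₗ[B] A) (c t : B)
    (hlow : ∀ a, ∃ y, low y = c • a) (hold : ∀ y, quo y = 0 → ∃ a, low y = t • a)
    (K : Ideal B) {g : B} (hg : ∀ x : Xn, g • x ∈ (K • ⊤ : Submodule B Xn)) (a : A) :
    ∃ a' : A, (c * g) • a - t • a' ∈ (K • ⊤ : Submodule B A) := by
  obtain ⟨y, hy⟩ := hlow a
  obtain ⟨κ, hκ, hκ2⟩ := exists_of_surjective_smul_top quo hquo K (hg (quo y))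
  obtain ⟨a', ha'⟩ := hold (g • y - κ) (by rw [map_sub, map_smul, hκ2, sub_self])
  refine ⟨a', ?_⟩
  rw [mul_comm, mul_smul, ← hy, ← map_smul, ← ha', map_sub, sub_sub_cancel]
  exact map_smul_top_le _ _ hκ

section Level

variable {O : Type} [CommRing O] [IsLocalRing O] {ϖ c' : O} {p r n D m s : ℕ} {T : Type}
  {B : Type} [CommRing B] [Algebra O B] {X : T → Fin 6 → B} {Y : Fin s → Fin 3 → B}
  {q : T → ℕ} {v : T → O} {Z : T → Finset Oˣ} {cb : Fin s → O}
  (L : FullLevel O ϖ c' p r n D m s B X Y q v Z cb)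

/-- the level as a target-free patching level -/
theorem exists_flevel_full [IsLocalRing B] [IsAdicComplete (maximalIdeal B) B]
    [IsNoetherianRing B] {d : MIdx s → ℕ} (hd : L.d = d) :
    ∃ F : FLevel (MvPowerSeries (Fin r) O) B d (twIdeal O (fun j => p ^ L.e j)),
      (∀ x, F.φ (MvPowerSeries.C x) = algebraMap O B x) ∧
      (∀ j, L.β (F.φ (MvPowerSeries.X j)) = L.φ (MvPowerSeries.X j)) ∧
      (∀ τ (f : B), (∀ x : L.N τ, L.β f • x = 0) → MulLe F τ ⊥ f) ∧
      (∀ f : B, (∀ x : L.N (.mod (Fin.last s)), L.β f • x ∈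
        (Ideal.span (Set.range fun j => L.φ (MvPowerSeries.X j)) • ⊤ :
          Submodule L.R (L.N (.mod (Fin.last s))))) →
        MulLe F (.mod (Fin.last s)) (Ideal.span (Set.range MvPowerSeries.X)) f) ∧
      Nonempty ((F.N .chi ⧸ ((Ideal.span {MvPowerSeries.C ϖ}).map F.φ • ⊤ :
          Submodule B (F.N .chi))) ≃ₗ[B]
        (F.N (.mod 0) ⧸ ((Ideal.span {MvPowerSeries.C ϖ}).map F.φ • ⊤ :
          Submodule B (F.N (.mod 0))))) ∧
      (∀ (i : Fin s) K g, MulLe F (.mod i.succ) K g → MulLe F (.new i) K g) ∧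
      (∀ (i : Fin s) K g, MulLe F (.mod i.succ) K g →
        MulLe F (.mod i.castSucc) K (algebraMap O B c' * g)) ∧
      (∀ (i : Fin s) K g, MulLe F (.new i) K g → ∀ a : F.N (.mod i.castSucc),
        ∃ a' : F.N (.mod i.castSucc), (algebraMap O B c' * g) • a - Y i 0 • a' ∈
          (K.map F.φ • ⊤ : Submodule B (F.N (.mod i.castSucc)))) := by
  subst hd
  haveI : IsAdicComplete (maximalIdeal L.R) L.R :=
    isAdicComplete_of_surjective (L.β : B →+* L.R) L.β_surj
  obtain ⟨φB, h1, h2⟩ := exists_lift_one (L.β : B →+* L.R) L.β_surj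
    (L.φ : MvPowerSeries (Fin r) O →+* L.R) L.φ_mem (algebraMap O B) (fun x => by
      rw [RingHom.coe_coe, RingHom.coe_coe, AlgHom.commutes]
      exact (L.φ.commutes x).symm)
  letI : ∀ τ, Module B (L.N τ) := fun τ => Module.compHom (L.N τ) (L.β : B →+* L.R)
  have hsm : ∀ τ (f : B) (x : L.N τ), f • x = (L.β : B →+* L.R) f • x := fun _ _ _ => rfl
  have h1' : ∀ s, (L.β : B →+* L.R) (φB s) = L.φ s := h1
  -- linear maps over `B`
  let quoB : ∀ i : Fin s, L.N (.mod i.succ) →ₗ[B] L.N (.new i) := fun i =>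
    { toFun := L.quo i
      map_add' := (L.quo i).map_add
      map_smul' := fun g x => (L.quo i).map_smul ((L.β : B →+* L.R) g) x }
  let lowB : ∀ i : Fin s, L.N (.mod i.succ) →ₗ[B] L.N (.mod i.castSucc) := fun i =>
    { toFun := L.low i
      map_add' := (L.low i).map_add
      map_smul' := fun g x => (L.low i).map_smul ((L.β : B →+* L.R) g) x }
  have hquo : ∀ i, Function.Surjective (quoB i) := L.quo_surj
  have hlow : ∀ i (a : L.N (.mod i.castSucc)), ∃ y, lowB i y = algebraMap O B c' • a := by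
    intro i a
    obtain ⟨y, hy⟩ := L.low_surj i a
    refine ⟨y, ?_⟩
    change L.low i y = (L.β : B →+* L.R) (algebraMap O B c') • a
    rw [hy, RingHom.coe_coe, AlgHom.commutes]
  have hold : ∀ i (y : L.N (.mod i.succ)), quoB i y = 0 → ∃ a, lowB i y = Y i 0 • a :=
    L.low_old
  refine ⟨{ N := L.N
            φ := φB
            b := L.b
            b_span := ?_
            b_rel := ?_ }, h2, fun j => h1 _, ?_, ?_, ?_, ?_, ?_, ?_⟩
  · intro τ x
    obtain ⟨c, hc⟩ := L.b_span τ x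
    refine ⟨c, ?_⟩
    rw [hc]
    exact Finset.sum_congr rfl fun i _ => by rw [hsm, h1']
  · intro τ c
    refine Iff.trans ?_ (L.b_rel τ c)
    have h3 : ∑ i, φB (c i) • L.b τ i = ∑ i, L.φ (c i) • L.b τ i :=
      Finset.sum_congr rfl fun i _ => by rw [hsm, h1']
    exact iff_of_eq (congrArg (· = 0) h3)
  · intro τ f hf x
    have h5 : f • x = 0 := hf x
    rw [h5]
    exact Submodule.zero_mem _
  · intro f hf x
    change f • x ∈ ((Ideal.span (Set.range MvPowerSeries.X)).map φB • ⊤ :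
      Submodule B (L.N (.mod (Fin.last s))))
    rw [smul_top_iff (L.β : B →+* L.R) L.β_surj (hsm _), Ideal.map_map, Ideal.map_span,
      ← Set.range_comp]
    have h6 : (fun j => L.φ (MvPowerSeries.X j)) =
        (⇑((L.β : B →+* L.R).comp φB) ∘ MvPowerSeries.X) := by
      funext j
      exact (h1' _).symm
    have h7 := hf x
    rw [h6] at h7
    exact h7
  · have hK : ((Ideal.span {MvPowerSeries.C ϖ}).map φB).map (L.β : B →+* L.R) =
        Ideal.span {algebraMap O L.R ϖ} := by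
      rw [Ideal.map_map, Ideal.map_span, Set.image_singleton, RingHom.comp_apply, h2]
      congr 2
      exact L.β.commutes ϖ
    have h8 := L.iso
    rw [← hK] at h8
    obtain ⟨eq⟩ := h8
    exact nonempty_equiv_of_surjective (L.β : B →+* L.R) L.β_surj (hsm _) (hsm _) _ eq
  · intro i K g hg x
    exact new_of_maps (quoB i) (hquo i) (K.map φB) hg x
  · intro i K g hg a
    exact low_of_maps (lowB i) (algebraMap O B c') (hlow i) (K.map φB) hg a
  · intro i K g hg a
    exact div_of_maps (quoB i) (hquo i) (lowB i) (algebraMap O B c') (Y i 0) (hlow i) (hold i)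
      (K.map φB) hg a

end Level

end Fermat.Agent.H57.Full
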