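/-
The norm trick: an `𝒪`-lattice carrying two actions of a finite `p`-group with the same norm
operator is free over the group ring for one action iff it is so for the other one.
Also the translation between bases over `𝒪[Δ]`, `Δ = (ℤ/pⁿ)^r`, and the `b_span`, `b_rel` form
over `𝒪⟦X₁,…,X_r⟧` used for patching.
-/
import Mathlib

set_option autoImplicit false
set_option linter.style.haveILetI false

namespace Fermat.Agent.H59

open IsLocalRing

section Socle

variable {κ : Type*} [Field κ] [Finite κ] {p : ℕ} [Fact p.Prime] [CharP κ p]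
  {Δ : Type*} [Group Δ] [Finite Δ]

/-- a nonzero finite dimensional subspace of `Fin d × Δ → κ`, stable by translations of a `p`-group,
contains a nonzero translation invariant function -/
lemma exists_invariant_ne_zero (hΔ : IsPGroup p Δ) {d : ℕ}
    (K : Submodule κ (Fin d × Δ → κ))
    (hK : ∀ h : Δ, ∀ c ∈ K, (fun x : Fin d × Δ => c (x.1, h⁻¹ * x.2)) ∈ K) (hne : K ≠ ⊥) :
    ∃ c ∈ K, c ≠ 0 ∧ ∀ (i : Fin d) (g h : Δ), c (i, g) = c (i, h) := by
  classical
  have hp : p.Prime := Fact.out
  letI : MulAction Δ K :=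
    { smul := fun h c => ⟨fun x : Fin d × Δ => c.1 (x.1, h⁻¹ * x.2), hK h c.1 c.2⟩
      one_smul := fun c => by
        refine Subtype.ext (funext fun x => ?_)
        change c.1 (x.1, (1 : Δ)⁻¹ * x.2) = c.1 x
        rw [inv_one, one_mul]
      mul_smul := fun g h c => by
        refine Subtype.ext (funext fun x => ?_)
        change c.1 (x.1, (g * h)⁻¹ * x.2) = c.1 (x.1, h⁻¹ * (g⁻¹ * x.2))
        rw [mul_inv_rev, mul_assoc] }
  have hsmul : ∀ (h : Δ) (c : K) (x : Fin d × Δ), (h • c).1 x = c.1 (x.1, h⁻¹ * x.2) :=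
    fun h c x => rfl
  haveI : Finite K := inferInstance
  haveI : Nontrivial K := (Submodule.nontrivial_iff_ne_bot).mpr hne
  have hdvd : p ∣ Nat.card K := by
    rw [Module.natCard_eq_pow_finrank (K := κ) (V := K)]
    have h1 : p ∣ Nat.card κ := by
      haveI := Fintype.ofFinite κ
      obtain ⟨n, hn, hcard⟩ := FiniteField.card κ p
      rw [Nat.card_eq_fintype_card, hcard]
      exact dvd_pow_self p n.ne_zero
    exact h1.trans (dvd_pow_self _ (Module.finrank_pos (R := κ) (M := K)).ne')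
  obtain ⟨c, hc, hc0⟩ := hΔ.exists_fixed_point_of_prime_dvd_card_of_fixed_point K hdvd
    (a := (0 : K)) (by
      intro h
      refine Subtype.ext (funext fun x => ?_)
      rw [hsmul]
      rfl)
  refine ⟨c.1, c.2, fun h => hc0 (Subtype.ext h).symm, fun i g h => ?_⟩
  have h1 : ∀ g : Δ, c.1 (i, g) = c.1 (i, 1) := by
    intro g
    have h2 := congrArg (fun z : K => z.1 (i, g)) (hc g)
    simp only [hsmul, inv_mul_cancel] at h2
    exact h2.symm
  rw [h1 g, h1 h]

end Socle

section Norm

variable {O : Type*} [CommRing O] [IsLocalRing O] [Finite (ResidueField O)] {p : ℕ}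
  [Fact p.Prime] [CharP (ResidueField O) p] {Δ : Type*} [Group Δ] [Fintype Δ] {M : Type*}
  [AddCommGroup M] [Module O M]

/-- **Norm trick.** If `M` is free over `O[Δ]` for the action `Ψ` of a finite `p`-group `Δ`, and
another action `ψ` has the same norm operator, then `M` is free over `O[Δ]` for `ψ`
with the same generators. -/
theorem exists_basis_of_norm (hΔ : IsPGroup p Δ) (Ψ ψ : Δ →* Module.End O M) {d : ℕ}
    (b : Module.Basis (Fin d × Δ) O M) (hb : ∀ i g, b (i, g) = Ψ g (b (i, 1)))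
    (hN : ∀ x : M, ∑ g, Ψ g x = ∑ g, ψ g x) :
    ∃ b' : Module.Basis (Fin d × Δ) O M, ∀ i g, b' (i, g) = ψ g (b (i, 1)) := by
  classical
  set κ := ResidueField O
  let v : Fin d × Δ → M := fun y => ψ y.2 (b (y.1, 1))
  let π : M → (Fin d × Δ → κ) := fun m x => residue O (b.repr m x)
  have hπadd : ∀ m m', π (m + m') = π m + π m' := fun m m' => by
    funext x; simp [π]
  have hπsmul : ∀ (a : O) m, π (a • m) = residue O a • π m := fun a m => by
    funext x; simp [π]
  have hπ0 : π 0 = 0 := by funext x; simp [π]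
  have hπsum : ∀ {α : Type _} (s : Finset α) (f : α → M), π (∑ i ∈ s, f i) = ∑ i ∈ s, π (f i) := by
    intro α s f
    induction s using Finset.induction_on with
    | empty => simpa using hπ0
    | insert a s ha ih => rw [Finset.sum_insert ha, Finset.sum_insert ha, hπadd, ih]
  have hπb : ∀ y, π (b y) = Pi.single y 1 := by
    intro y
    funext x
    simp only [π, Module.Basis.repr_self, Finsupp.single_apply, Pi.single_apply]
    by_cases h : y = x
    · subst h; simp
    · rw [if_neg h, if_neg (Ne.symm h), map_zero]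
  -- the action on the reduction
  let T : Module.End O M → Matrix (Fin d × Δ) (Fin d × Δ) κ := fun f =>
    (LinearMap.toMatrix b b f).map (residue O)
  have hT : ∀ f m, π (f m) = (T f).mulVec (π m) := by
    intro f m
    funext x
    have h1 : b.repr (f m) x = ∑ y, LinearMap.toMatrix b b f x y * b.repr m y := by
      have := congrFun (LinearMap.toMatrix_mulVec_repr b b f m) x
      rw [← this]
      rfl
    simp only [π, h1, map_sum, map_mul, Matrix.mulVec, dotProduct, T, Matrix.map_apply]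
  let A : Matrix (Fin d × Δ) (Fin d × Δ) O := b.toMatrix v
  have hA : ∀ x y, A x y = b.repr (v y) x := fun x y => rfl
  have hdet : IsUnit (b.det v) := by
    rw [Module.Basis.det_apply]
    by_contra hu
    have hmem : A.det ∈ maximalIdeal O := (mem_maximalIdeal _).mpr hu
    have h0 : (A.map (residue O)).det = 0 := by
      rw [← RingHom.mapMatrix_apply, ← RingHom.map_det]
      exact (residue_eq_zero_iff _).mpr hmem
    obtain ⟨c, hc0, hc⟩ := Matrix.exists_mulVec_eq_zero_iff.mpr h0
    let K : Submodule κ (Fin d × Δ → κ) := LinearMap.ker (Matrix.mulVecLin (A.map (residue O)))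
    have hKmem : ∀ c, c ∈ K ↔ ∑ y, c y • π (v y) = 0 := by
      intro c
      rw [LinearMap.mem_ker, Matrix.mulVecLin_apply]
      constructor
      · intro h
        funext x
        have := congrFun h x
        simp only [Matrix.mulVec, dotProduct, Matrix.map_apply, hA] at this
        rw [Finset.sum_apply]
        simp only [Pi.smul_apply, smul_eq_mul, π]
        rw [← this.trans rfl]
        exact Finset.sum_congr rfl fun y _ => mul_comm _ _
      · intro h
        funext x
        have := congrFun h x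
        rw [Finset.sum_apply] at this
        simp only [Pi.smul_apply, smul_eq_mul, π] at this
        simp only [Matrix.mulVec, dotProduct, Matrix.map_apply, hA]
        rw [← this.trans rfl]
        exact Finset.sum_congr rfl fun y _ => mul_comm _ _
    have hKne : K ≠ ⊥ := by
      intro h
      apply hc0
      have : c ∈ K := by rw [LinearMap.mem_ker, Matrix.mulVecLin_apply]; exact hc
      rw [h] at this
      exact (Submodule.mem_bot _).mp this
    have hKstab : ∀ h : Δ, ∀ c ∈ K, (fun x : Fin d × Δ => c (x.1, h⁻¹ * x.2)) ∈ K := by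
      intro h c hc
      rw [hKmem] at hc ⊢
      have h1 : ∑ y, c y • π (ψ h (v y)) = 0 := by
        have h2 : ∑ y, c y • π (ψ h (v y)) = (T (ψ h)).mulVec (∑ y, c y • π (v y)) := by
          rw [Matrix.mulVec_sum]
          refine Finset.sum_congr rfl fun y _ => ?_
          rw [hT, Matrix.mulVec_smul]
        rw [h2, hc, Matrix.mulVec_zero]
      rw [← h1]
      refine (Fintype.sum_equiv ((Equiv.refl (Fin d)).prodCongr (Equiv.mulLeft h)) _ _ ?_).symm
      rintro ⟨i, g⟩
      simp only [Equiv.prodCongr_apply, Prod.map_apply, Equiv.refl_apply, Equiv.coe_mulLeft,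
        inv_mul_cancel_left, v, map_mul, Module.End.mul_apply]
    obtain ⟨c, hcK, hc0, hcc⟩ := exists_invariant_ne_zero (p := p) hΔ K hKstab hKne
    rw [hKmem] at hcK
    have h2 : ∑ y : Fin d × Δ, c y • π (b y) = 0 := by
      rw [← hcK, Fintype.sum_prod_type, Fintype.sum_prod_type]
      refine Finset.sum_congr rfl fun i _ => ?_
      have h3 : ∀ g : Δ, c (i, g) = c (i, 1) := fun g => hcc i g 1
      simp only [h3]
      rw [← Finset.smul_sum, ← Finset.smul_sum, ← hπsum, ← hπsum]
      congr 2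
      rw [Finset.sum_congr rfl fun g _ => hb i g]
      exact hN _
    apply hc0
    funext x
    have h4 := congrFun h2 x
    rw [Finset.sum_apply] at h4
    simpa [hπb, Pi.single_apply] using h4
  obtain ⟨hli, hsp⟩ := (Module.Basis.is_basis_iff_det b).mpr hdet
  exact ⟨Module.Basis.mk hli hsp.ge, fun i g => by rw [Module.Basis.mk_apply]⟩

end Norm

section Eigen

variable {K V : Type*} [Field K] [IsAlgClosed K] [AddCommGroup V] [Module K V]

/-- a nonzero finite dimensional space, stable by a commuting family of operators, contains a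
common eigenvector -/
lemma exists_common_eigen (S : Set (Module.End K V)) (hS : ∀ f ∈ S, ∀ g ∈ S, f * g = g * f) :
    ∀ (n : ℕ) (W : Submodule K V) [FiniteDimensional K W], Module.finrank K W = n → W ≠ ⊥ →
      (∀ f ∈ S, ∀ w ∈ W, f w ∈ W) → ∃ v ∈ W, v ≠ 0 ∧ ∀ f ∈ S, ∃ μ : K, f v = μ • v := by
  intro n
  induction n using Nat.strong_induction_on with
  | _ n ih =>
    intro W _ hn hW0 hst
    by_cases hsc : ∀ f ∈ S, ∃ μ : K, ∀ w ∈ W, f w = μ • w
    · obtain ⟨v, hv, hv0⟩ := (Submodule.ne_bot_iff W).mp hW0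
      exact ⟨v, hv, hv0, fun f hf => (hsc f hf).imp fun μ h => h v hv⟩
    · push Not at hsc
      obtain ⟨f, hf, hns⟩ := hsc
      haveI : Nontrivial W := (Submodule.nontrivial_iff_ne_bot).mpr hW0
      let fW : Module.End K W := f.restrict (hst f hf)
      obtain ⟨μ, hμ⟩ := Module.End.exists_eigenvalue fW
      obtain ⟨w, hw⟩ := hμ.exists_hasEigenvector
      have hw1 : f w.1 = μ • w.1 := by
        have := congrArg Subtype.val hw.apply_eq_smul
        exact this
      let W' : Submodule K V := W ⊓ LinearMap.ker (f - μ • (1 : Module.End K V))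
      have hmem : ∀ x, x ∈ W' ↔ x ∈ W ∧ f x = μ • x := by
        intro x
        rw [Submodule.mem_inf, LinearMap.mem_ker, LinearMap.sub_apply, sub_eq_zero]
        rfl
      have hlt : W' < W := by
        refine lt_of_le_of_ne inf_le_left ?_
        intro h
        obtain ⟨x, hx, hne⟩ := hns μ
        rw [← h] at hx
        exact hne ((hmem x).mp hx).2
      haveI : FiniteDimensional K W' := Submodule.finiteDimensional_of_le hlt.le
      have hW'0 : W' ≠ ⊥ := by
        intro h
        have h1 : w.1 ∈ W' := (hmem _).mpr ⟨w.2, hw1⟩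
        rw [h] at h1
        exact hw.2 (Subtype.ext ((Submodule.mem_bot _).mp h1))
      obtain ⟨v, hv, hv0, hvS⟩ := ih (Module.finrank K W')
        (hn ▸ Submodule.finrank_lt_finrank_of_lt hlt) W' rfl hW'0 (by
          intro g hg x hx
          obtain ⟨hx1, hx2⟩ := (hmem x).mp hx
          refine (hmem _).mpr ⟨hst g hg x hx1, ?_⟩
          have h2 := congrArg (fun z : Module.End K V => z x) (hS f hf g hg)
          simp only [Module.End.mul_apply] at h2
          rw [h2, hx2, map_smul])
      exact ⟨v, hlt.le hv, hv0, hvS⟩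

omit [IsAlgClosed K] in
lemma sum_action_mul {Δ : Type*} [Group Δ] [Fintype Δ] (Ψ : Δ →* Module.End K V) (h : Δ) :
    Ψ h * ∑ g, Ψ g = ∑ g, Ψ g := by
  rw [Finset.mul_sum]
  simp only [← map_mul]
  exact Fintype.sum_equiv (Equiv.mulLeft h) _ _ fun g => rfl

omit [IsAlgClosed K] in
lemma sum_action_sq {Δ : Type*} [Group Δ] [Fintype Δ] (Ψ : Δ →* Module.End K V) :
    (∑ g, Ψ g) * ∑ g, Ψ g = (Fintype.card Δ : K) • ∑ g, Ψ g := by
  rw [Finset.sum_mul]
  simp only [sum_action_mul]
  rw [Finset.sum_const, Finset.card_univ, ← Nat.cast_smul_eq_nsmul K]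

/-- Two commuting actions of a finite commutative group, such that for every common eigenvector
one action is trivial iff the other one is, have the same norm operator. -/
theorem norm_eq_of_eigen [CharZero K] [FiniteDimensional K V] {Δ : Type*} [CommGroup Δ]
    [Fintype Δ] (Ψ ψ : Δ →* Module.End K V) (S : Set (Module.End K V))
    (hS : ∀ f ∈ S, ∀ g ∈ S, f * g = g * f)
    (hSΨ : ∀ f ∈ S, ∀ g, f * Ψ g = Ψ g * f) (hSψ : ∀ f ∈ S, ∀ g, f * ψ g = ψ g * f)
    (hΨψ : ∀ g h, Ψ g * ψ h = ψ h * Ψ g)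
    (h : ∀ v : V, v ≠ 0 → (∀ f ∈ S, ∃ μ : K, f v = μ • v) → (∀ g, ∃ μ : K, Ψ g v = μ • v) →
      ((∀ g, Ψ g v = v) ↔ ∀ g, ψ g v = v)) :
    ∑ g, Ψ g = ∑ g, ψ g := by
  classical
  set n : K := (Fintype.card Δ : K) with hn
  have hn0 : n ≠ 0 := by
    rw [hn]
    exact_mod_cast Fintype.card_ne_zero
  set N₁ := ∑ g, Ψ g with hN₁
  set N₂ := ∑ g, ψ g with hN₂
  have hΨN : ∀ g, Ψ g * N₁ = N₁ := sum_action_mul Ψ
  have hψN : ∀ g, ψ g * N₂ = N₂ := sum_action_mul ψ
  have h11 : N₁ * N₁ = n • N₁ := sum_action_sq Ψ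
  have h22 : N₂ * N₂ = n • N₂ := sum_action_sq ψ
  have hΨN₂ : ∀ g, Ψ g * N₂ = N₂ * Ψ g := by
    intro g
    rw [hN₂, Finset.mul_sum, Finset.sum_mul]
    exact Finset.sum_congr rfl fun h _ => hΨψ g h
  have hcomm : N₁ * N₂ = N₂ * N₁ := by
    rw [hN₁, Finset.sum_mul, Finset.mul_sum]
    exact Finset.sum_congr rfl fun g _ => hΨN₂ g
  have hΨN₁ : ∀ g, Ψ g * N₁ = N₁ * Ψ g := by
    intro g
    rw [hN₁, Finset.mul_sum, Finset.sum_mul]
    exact Finset.sum_congr rfl fun h _ => by rw [← map_mul, ← map_mul, mul_comm]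
  have hSN₁ : ∀ f ∈ S, f * N₁ = N₁ * f := by
    intro f hf
    rw [hN₁, Finset.mul_sum, Finset.sum_mul]
    exact Finset.sum_congr rfl fun h _ => hSΨ f hf h
  have hSN₂ : ∀ f ∈ S, f * N₂ = N₂ * f := by
    intro f hf
    rw [hN₂, Finset.mul_sum, Finset.sum_mul]
    exact Finset.sum_congr rfl fun h _ => hSψ f hf h
  let S' : Set (Module.End K V) := S ∪ Set.range Ψ
  have hS' : ∀ f ∈ S', ∀ g ∈ S', f * g = g * f := by
    rintro f (hf | ⟨a, rfl⟩) g (hg | ⟨b, rfl⟩)
    · exact hS f hf g hg
    · exact hSΨ f hf b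
    · exact (hSΨ g hg a).symm
    · rw [← map_mul, ← map_mul, mul_comm]
  have hS'N₁ : ∀ f ∈ S', f * N₁ = N₁ * f := by
    rintro f (hf | ⟨a, rfl⟩)
    · exact hSN₁ f hf
    · exact hΨN₁ a
  have hS'N₂ : ∀ f ∈ S', f * N₂ = N₂ * f := by
    rintro f (hf | ⟨a, rfl⟩)
    · exact hSN₂ f hf
    · exact hΨN₂ a
  -- a general vanishing principle
  have key : ∀ P : Module.End K V, (∀ f ∈ S', f * P = P * f) →
      (∀ v : V, (∃ y, v = P y) → v ≠ 0 → (∀ f ∈ S, ∃ μ : K, f v = μ • v) →
        (∀ g, ∃ μ : K, Ψ g v = μ • v) → False) → P = 0 := by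
    intro P hP hv
    by_contra hP0
    have hne : LinearMap.range P ≠ ⊥ := fun h => hP0 (LinearMap.range_eq_bot.mp h)
    obtain ⟨v, ⟨y, hy⟩, hv0, hvS⟩ := exists_common_eigen S' hS' _ (LinearMap.range P) rfl hne (by
      rintro f hf _ ⟨y, rfl⟩
      have := congrArg (fun z : Module.End K V => z y) (hP f hf)
      simp only [Module.End.mul_apply] at this
      exact ⟨f y, this.symm⟩)
    exact hv v ⟨y, hy.symm⟩ hv0 (fun f hf => hvS f (Or.inl hf))
      (fun g => hvS _ (Or.inr ⟨g, rfl⟩))
  have e1 : N₁ * (n • 1 - N₂) = 0 := by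
    refine key _ ?_ ?_
    · intro f hf
      rw [← mul_assoc, hS'N₁ f hf, mul_assoc, mul_assoc, mul_sub, sub_mul, hS'N₂ f hf]
      simp
    · rintro v ⟨y, rfl⟩ hv0 hvS hvΨ
      have h1 : ∀ g, Ψ g ((N₁ * (n • 1 - N₂)) y) = (N₁ * (n • 1 - N₂)) y := by
        intro g
        rw [← Module.End.mul_apply, ← mul_assoc, hΨN]
      have h2 := (h _ hv0 hvS hvΨ).mp h1
      have h3 : N₂ ((N₁ * (n • 1 - N₂)) y) = n • (N₁ * (n • 1 - N₂)) y := by
        have h7 : ∀ v, N₂ v = ∑ g, ψ g v := fun v => by rw [hN₂, LinearMap.sum_apply]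
        rw [h7, Finset.sum_congr rfl fun g _ => h2 g, Finset.sum_const, Finset.card_univ]
        exact (Nat.cast_smul_eq_nsmul K _ _).symm
      have h4 : N₂ * (N₁ * (n • 1 - N₂)) = 0 := by
        rw [← mul_assoc, ← hcomm, mul_assoc, mul_sub, h22]
        simp
      have h5 : n • (N₁ * (n • 1 - N₂)) y = 0 := by
        rw [← h3, ← Module.End.mul_apply, h4, LinearMap.zero_apply]
      exact hv0 ((smul_eq_zero.mp h5).resolve_left hn0)
  have e2 : N₂ * (n • 1 - N₁) = 0 := by
    refine key _ ?_ ?_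
    · intro f hf
      rw [← mul_assoc, hS'N₂ f hf, mul_assoc, mul_assoc, mul_sub, sub_mul, hS'N₁ f hf]
      simp
    · rintro v ⟨y, rfl⟩ hv0 hvS hvΨ
      have h1 : ∀ g, ψ g ((N₂ * (n • 1 - N₁)) y) = (N₂ * (n • 1 - N₁)) y := by
        intro g
        rw [← Module.End.mul_apply, ← mul_assoc, hψN]
      have h2 := (h _ hv0 hvS hvΨ).mpr h1
      have h3 : N₁ ((N₂ * (n • 1 - N₁)) y) = n • (N₂ * (n • 1 - N₁)) y := by
        have h7 : ∀ v, N₁ v = ∑ g, Ψ g v := fun v => by rw [hN₁, LinearMap.sum_apply]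
        rw [h7, Finset.sum_congr rfl fun g _ => h2 g, Finset.sum_const, Finset.card_univ]
        exact (Nat.cast_smul_eq_nsmul K _ _).symm
      have h4 : N₁ * (N₂ * (n • 1 - N₁)) = 0 := by
        rw [← mul_assoc, hcomm, mul_assoc, mul_sub, h11]
        simp
      have h5 : n • (N₂ * (n • 1 - N₁)) y = 0 := by
        rw [← h3, ← Module.End.mul_apply, h4, LinearMap.zero_apply]
      exact hv0 ((smul_eq_zero.mp h5).resolve_left hn0)
  rw [mul_sub, sub_eq_zero, mul_smul_comm, mul_one] at e1 e2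
  have h6 : n • N₁ = n • N₂ := by rw [e1, e2, hcomm]
  exact smul_right_injective _ hn0 h6

end Eigen

end Fermat.Agent.H59
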