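/-
Eigenvectors in lattices: passage from eigenvectors over an algebraic closure to eigenvectors over
a finite extension of a complete discrete valuation ring.
-/
import Fermat.Agent.H35DVR
import Fermat.Agent.H59Norm

set_option autoImplicit false
set_option linter.style.haveILetI false

namespace Fermat.Agent.H59

open IsLocalRing TensorProduct

section Coord

variable {O M J : Type} [CommRing O] [AddCommGroup M] [Module O M] [Fintype J] [DecidableEq J]

/-- coordinates of the base change of an endomorphism -/
lemma repr_baseChange_apply (b : Module.Basis J O M) (C : Type) [CommRing C] [Algebra O C]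
    (f : Module.End O M) (x : C ⊗[O] M) (i : J) :
    (b.baseChange C).repr (f.baseChange C x) i =
      ∑ j, LinearMap.toMatrix b b f i j • (b.baseChange C).repr x j := by
  have h1 : x = ∑ j, (b.baseChange C).repr x j • (b.baseChange C) j :=
    ((b.baseChange C).sum_repr x).symm
  conv_lhs => rw [h1]
  rw [map_sum, map_sum, Finsupp.finsetSum_apply]
  refine Finset.sum_congr rfl fun j _ => ?_
  rw [map_smul, map_smul, Finsupp.smul_apply, Module.Basis.baseChange_apply,
    LinearMap.baseChange_tmul, Module.Basis.baseChange_repr_tmul, LinearMap.toMatrix_apply,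
    smul_eq_mul, mul_smul_comm, mul_one]

end Coord

section Lattice

variable {O : Type} [CommRing O] [IsDomain O] [IsDiscreteValuationRing O]
  [IsAdicComplete (maximalIdeal O) O] [Finite (ResidueField O)] [CharZero O]
  {M : Type} [AddCommGroup M] [Module O M] [Module.Finite O M] [Module.Free O M]
  {𝕋 : Type} [CommRing 𝕋] [Algebra O 𝕋] [Module.Finite O 𝕋]

variable {Kb : Type} (K : Type) [Field K] [Algebra O K] [IsFractionRing O K] [Field Kb] [Algebra K Kb]
  [Algebra O Kb] [IsScalarTower O K Kb]

include K in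
/-- **Descent of eigenvectors.** An eigenvector over a large field, for the action of a
finite algebra `𝕋`, gives an eigenvector over a finite extension of `O`. -/
theorem exists_lattice_eigen (Φ : 𝕋 →ₐ[O] Module.End O M)
    (v : Kb ⊗[O] M) (hv0 : v ≠ 0) (μ : 𝕋 → Kb)
    (hμ : ∀ t, (Φ t).baseChange Kb v = μ t • v) :
    ∃ (O' : Type) (_ : CommRing O') (_ : IsDomain O') (_ : IsDiscreteValuationRing O')
      (_ : IsAdicComplete (maximalIdeal O') O') (_ : Finite (ResidueField O')) (_ : CharZero O')
      (_ : Algebra O O') (_ : Module.Finite O O') (_ : IsLocalHom (algebraMap O O'))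
      (j : O' →ₐ[O] Kb) (lam : 𝕋 →ₐ[O] O') (x : O' ⊗[O] M),
      Function.Injective (algebraMap O O') ∧ Function.Injective j ∧ x ≠ 0 ∧
      (∀ t, j (lam t) = μ t) ∧ ∀ t, (Φ t).baseChange O' x = lam t • x := by
  classical
  haveI : CharZero K := charZero_of_injective_algebraMap (IsFractionRing.injective O K)
  -- `μ` is an algebra homomorphism
  have hinj : ∀ a b : Kb, a • v = b • v → a = b := by
    intro a b h
    exact smul_left_injective Kb hv0 h
  have hμ1 : μ 1 = 1 := by
    apply hinj
    rw [← hμ, map_one, one_smul, Module.End.one_eq_id, LinearMap.baseChange_id]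
    rfl
  have hμmul : ∀ s t, μ (s * t) = μ s * μ t := by
    intro s t
    apply hinj
    rw [← hμ, map_mul, Module.End.mul_eq_comp, LinearMap.baseChange_comp, LinearMap.comp_apply,
      hμ t, map_smul, hμ s, smul_smul, mul_comm]
  have hμadd : ∀ s t, μ (s + t) = μ s + μ t := by
    intro s t
    apply hinj
    rw [← hμ, map_add, LinearMap.baseChange_add, LinearMap.add_apply, hμ, hμ, add_smul]
  have hμalg : ∀ a : O, μ (algebraMap O 𝕋 a) = algebraMap O Kb a := by
    intro a
    apply hinj
    rw [← hμ, AlgHom.commutes, Algebra.algebraMap_eq_smul_one, LinearMap.baseChange_smul,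
      Module.End.one_eq_id, LinearMap.baseChange_id, LinearMap.smul_apply, LinearMap.id_apply,
      algebraMap_smul]
  let μh : 𝕋 →ₐ[O] Kb :=
    { toFun := μ
      map_one' := hμ1
      map_mul' := hμmul
      map_zero' := by
        have := hμadd 0 0
        rw [add_zero] at this
        exact left_eq_add.mp this
      map_add' := hμadd
      commutes' := hμalg }
  have hμint : ∀ t, IsIntegral O (μ t) := fun t => (Algebra.IsIntegral.isIntegral (R := O) t).map μh
  -- the field
  obtain ⟨s, hs⟩ := (Module.Finite.fg_top : (⊤ : Submodule O 𝕋).FG)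
  let L : IntermediateField K Kb := IntermediateField.adjoin K (μ '' (s : Set 𝕋))
  haveI : FiniteDimensional K L := by
    apply IntermediateField.finiteDimensional_adjoin
    rintro _ ⟨t, -, rfl⟩
    exact (hμint t).tower_top
  have hμL : ∀ t, μ t ∈ L := by
    intro t
    have ht : t ∈ Submodule.span O (s : Set 𝕋) := by rw [hs]; trivial
    induction ht using Submodule.span_induction with
    | mem t ht => exact IntermediateField.subset_adjoin K _ ⟨t, ht, rfl⟩
    | zero =>
      have : μ 0 = 0 := map_zero μh
      rw [this]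
      exact zero_mem _
    | add x y _ _ hx hy => rw [hμadd]; exact add_mem hx hy
    | smul a x _ hx =>
      have : μ (a • x) = a • μ x := map_smul μh a x
      rw [this, ← algebraMap_smul K a (μ x)]
      exact L.smul_mem hx
  haveI : IsScalarTower O L Kb := IsScalarTower.of_algebraMap_eq fun a => by
    rw [IsScalarTower.algebraMap_apply O K L, IsScalarTower.algebraMap_apply O K Kb]
    rfl
  let O' := integralClosure O L
  haveI i1 : IsLocalRing O' := H35.isLocalRing_integralClosure O K L
  haveI i2 : IsDiscreteValuationRing O' := H35.isDiscreteValuationRing_integralClosure O K L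
  haveI i3 : IsAdicComplete (maximalIdeal O') O' := H35.isAdicComplete_integralClosure O K L
  haveI i4 : Finite (ResidueField O') := H35.finite_residueField_integralClosure O K L
  haveI i5 : Module.Finite O O' := H35.finite_integralClosure O K L
  haveI i6 : IsLocalHom (algebraMap O O') := H35.isLocalHom_integralClosure O K L
  have hOinj : Function.Injective (algebraMap O O') :=
    H35.injective_algebraMap_integralClosure O K L
  haveI i7 : CharZero O' := charZero_of_injective_algebraMap hOinj
  let j : O' →ₐ[O] Kb := (L.val.restrictScalars O).comp O'.val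
  have hj : ∀ y : O', j y = ((y : L) : Kb) := fun y => rfl
  have hjinj : Function.Injective j := fun y z h => by
    apply Subtype.ext
    apply Subtype.ext
    exact h
  let μL : 𝕋 → L := fun t => ⟨μ t, hμL t⟩
  have hμLint : ∀ t, IsIntegral O (μL t) := fun t => by
    have h1 : IsIntegral O (algebraMap L Kb (μL t)) := hμint t
    exact (isIntegral_algebraMap_iff (algebraMap L Kb).injective).mp h1
  let lam0 : 𝕋 → O' := fun t => ⟨μL t, hμLint t⟩
  have hjl : ∀ t, j (lam0 t) = μ t := fun t => rfl
  let lam : 𝕋 →ₐ[O] O' :=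
    { toFun := lam0
      map_one' := hjinj (by rw [hjl, hμ1, map_one])
      map_mul' := fun a b => hjinj (by rw [hjl, hμmul, map_mul, hjl, hjl])
      map_zero' := hjinj (by rw [hjl, map_zero]; exact map_zero μh)
      map_add' := fun a b => hjinj (by rw [hjl, hμadd, map_add, hjl, hjl])
      commutes' := fun a => hjinj (by rw [hjl, hμalg, AlgHom.commutes]) }
  have hjlam : ∀ t, j (lam t) = μ t := fun t => rfl
  -- the vector
  let b := Module.Free.chooseBasis O M
  obtain ⟨i₀, hi₀⟩ : ∃ i, (b.baseChange Kb).repr v i ≠ 0 := by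
    by_contra h
    push Not at h
    apply hv0
    apply (b.baseChange Kb).repr.injective
    rw [map_zero]
    exact Finsupp.ext h
  obtain ⟨c, hc⟩ := Module.Projective.exists_dual_ne_zero L hi₀
  obtain ⟨d, hd0, hd⟩ := exists_integral_multiples O K (L := L)
    (Finset.univ.image fun i => c ((b.baseChange Kb).repr v i))
  have hd' : ∀ i, IsIntegral O (d • c ((b.baseChange Kb).repr v i)) := fun i =>
    hd _ (Finset.mem_image_of_mem _ (Finset.mem_univ i))
  let z : Module.Free.ChooseBasisIndex O M → O' := fun i => ⟨_, hd' i⟩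
  let x : O' ⊗[O] M := ∑ i, z i • (b.baseChange O') i
  have hx : ∀ i, (b.baseChange O').repr x i = z i := by
    intro i
    simp only [x, map_sum, map_smul, Module.Basis.repr_self, Finsupp.finsetSum_apply,
      Finsupp.smul_apply, Finsupp.single_apply, smul_eq_mul, mul_ite, mul_one, mul_zero,
      Finset.sum_ite_eq', Finset.mem_univ, if_true]
  refine ⟨O', inferInstance, inferInstance, i2, i3, i4, i7, inferInstance, i5, i6, j, lam, x,
    hOinj, hjinj, ?_, hjlam, ?_⟩
  · intro h
    have h1 : z i₀ = 0 := by rw [← hx, h, map_zero, Finsupp.zero_apply]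
    have h2 : d • c ((b.baseChange Kb).repr v i₀) = 0 := congrArg Subtype.val h1
    rw [← algebraMap_smul K d, smul_eq_zero] at h2
    rcases h2 with h2 | h2
    · exact hd0 ((IsFractionRing.injective O K) (by rw [h2, map_zero]))
    · exact hc h2
  · intro t
    apply (b.baseChange O').repr.injective
    refine Finsupp.ext fun i => ?_
    rw [repr_baseChange_apply, map_smul, Finsupp.smul_apply, hx]
    simp only [hx]
    have h1 : ∑ k, LinearMap.toMatrix b b (Φ t) i k • (b.baseChange Kb).repr v k =
        μ t • (b.baseChange Kb).repr v i := by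
      rw [← repr_baseChange_apply, hμ, map_smul, Finsupp.smul_apply]
    apply Subtype.ext
    have h2 : ((∑ k, LinearMap.toMatrix b b (Φ t) i k • z k : O') : L) =
        d • c (∑ k, LinearMap.toMatrix b b (Φ t) i k • (b.baseChange Kb).repr v k) := by
      rw [map_sum, Finset.smul_sum]
      rw [AddSubmonoidClass.coe_finsetSum]
      refine Finset.sum_congr rfl fun k _ => ?_
      have h3 : c (LinearMap.toMatrix b b (Φ t) i k • (b.baseChange Kb).repr v k) =
          LinearMap.toMatrix b b (Φ t) i k • c ((b.baseChange Kb).repr v k) := by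
        rw [← algebraMap_smul L (LinearMap.toMatrix b b (Φ t) i k), map_smul, algebraMap_smul]
      rw [h3, smul_comm d]
      rfl
    rw [h2, h1]
    have h4 : c (μ t • (b.baseChange Kb).repr v i) = μL t • c ((b.baseChange Kb).repr v i) := by
      have : μ t • (b.baseChange Kb).repr v i = μL t • (b.baseChange Kb).repr v i := rfl
      rw [this, map_smul]
    rw [h4]
    change d • (μL t • _) = μL t * (d • _)
    rw [smul_eq_mul, mul_smul_comm]

omit [Module.Finite O 𝕋] [IsDomain O] [IsDiscreteValuationRing O]
  [IsAdicComplete (maximalIdeal O) O] [Finite (ResidueField O)] [CharZero O]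
  [Module.Finite O M] in
lemma one_tmul_injective (hO : Function.Injective (algebraMap O Kb)) {x y : M}
    (h : (1 : Kb) ⊗ₜ[O] x = (1 : Kb) ⊗ₜ[O] y) : x = y := by
  let b := Module.Free.chooseBasis O M
  apply b.repr.injective
  refine Finsupp.ext fun i => ?_
  have h1 := congrArg (fun z => (b.baseChange Kb).repr z i) h
  simp only [Module.Basis.baseChange_repr_tmul, Algebra.smul_def, mul_one] at h1
  exact hO h1

end Lattice

section Main

variable {O : Type} [CommRing O] [IsDomain O] [IsDiscreteValuationRing O]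
  [IsAdicComplete (maximalIdeal O) O] [Finite (ResidueField O)] [CharZero O]
  {M : Type} [AddCommGroup M] [Module O M] [Module.Finite O M] [Module.Free O M]
  {𝕋 : Type} [CommRing 𝕋] [Algebra O 𝕋] [Module.Finite O 𝕋]

/-- A property of eigenvectors with coefficients in finite extensions. -/
def ForallEigen (Φ : 𝕋 →ₐ[O] Module.End O M)
    (P : ∀ (O' : Type) [CommRing O'] [IsDomain O'] [IsDiscreteValuationRing O']
      [IsAdicComplete (maximalIdeal O') O'] [Finite (ResidueField O')] [CharZero O']
      [Algebra O O'] [Module.Finite O O'] [IsLocalHom (algebraMap O O')],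
      (𝕋 →ₐ[O] O') → (O' ⊗[O] M) → Prop) : Prop :=
  ∀ (O' : Type) [CommRing O'] [IsDomain O'] [IsDiscreteValuationRing O']
      [IsAdicComplete (maximalIdeal O') O'] [Finite (ResidueField O')] [CharZero O']
      [Algebra O O'] [Module.Finite O O'] [IsLocalHom (algebraMap O O')],
      Function.Injective (algebraMap O O') → ∀ (lam : 𝕋 →ₐ[O] O') (x : O' ⊗[O] M), x ≠ 0 →
        (∀ t, (Φ t).baseChange O' x = lam t • x) → P O' lam x

omit [IsDomain O] [IsDiscreteValuationRing O] [IsAdicComplete (maximalIdeal O) O] [Finite (ResidueField O)]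
  [Module.Finite O M] in
/-- In a reduced finite torsion free algebra every element is a root of a monic polynomial which
is separable over the fraction field. -/
theorem exists_monic_separable [IsIntegrallyClosed O] [IsReduced 𝕋] (K : Type) [Field K]
    [Algebra O K] [IsFractionRing O K] (t : 𝕋) :
    ∃ G : Polynomial O, G.Monic ∧ (G.map (algebraMap O K)).Separable ∧
      Polynomial.aeval t G = 0 := by
  classical
  haveI : CharZero K := charZero_of_injective_algebraMap (IsFractionRing.injective O K)
  have hinj := IsFractionRing.injective O K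
  obtain ⟨F, hF, hFt⟩ := (Algebra.IsIntegral.isIntegral (R := O) t)
  have hF0 : F.map (algebraMap O K) ≠ 0 := (hF.map _).ne_zero
  set P : Polynomial K := UniqueFactorizationMonoid.radical (F.map (algebraMap O K)) with hP
  have hPdvd : P ∣ F.map (algebraMap O K) := UniqueFactorizationMonoid.radical_dvd_self
  have hPsq : Squarefree P := UniqueFactorizationMonoid.squarefree_radical
  have hP0 : P ≠ 0 := ne_zero_of_dvd_ne_zero hF0 hPdvd
  obtain ⟨n, hn⟩ : ∃ n : ℕ, F.map (algebraMap O K) ∣ P ^ n :=
    UniqueFactorizationMonoid.exists_dvd_radical_self_pow hF0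
  obtain ⟨G, hG⟩ := IsIntegrallyClosed.eq_map_mul_C_of_dvd K hF hPdvd
  have hlc : P.leadingCoeff ≠ 0 := Polynomial.leadingCoeff_ne_zero.mpr hP0
  have hmon : (G.map (algebraMap O K)).Monic := by
    have h1 := congrArg Polynomial.leadingCoeff hG
    rw [Polynomial.leadingCoeff_mul, Polynomial.leadingCoeff_C] at h1
    exact mul_right_cancel₀ hlc (by rw [h1, one_mul])
  have hGm : G.Monic := Polynomial.monic_of_injective hinj hmon
  have hsq : Squarefree (G.map (algebraMap O K)) :=
    hPsq.squarefree_of_dvd ⟨Polynomial.C P.leadingCoeff, hG.symm⟩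
  refine ⟨G, hGm, PerfectField.separable_iff_squarefree.mpr hsq, ?_⟩
  have hdvd : F.map (algebraMap O K) ∣ (G ^ n).map (algebraMap O K) := by
    rw [Polynomial.map_pow]
    have h2 : P ^ n = (G.map (algebraMap O K)) ^ n * Polynomial.C (P.leadingCoeff ^ n) := by
      rw [Polynomial.C_pow, ← mul_pow, hG]
    have h3 : (G.map (algebraMap O K)) ^ n = P ^ n * Polynomial.C ((P.leadingCoeff ^ n)⁻¹) := by
      rw [h2, mul_assoc, ← Polynomial.C_mul, mul_inv_cancel₀ (pow_ne_zero _ hlc),
        Polynomial.C_1, mul_one]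
    rw [h3]
    exact hn.mul_right _
  have hdvd' : F ∣ G ^ n := (Polynomial.map_dvd_map _ hinj hF).mp hdvd
  obtain ⟨Q, hQ⟩ := hdvd'
  have h4 : (Polynomial.aeval t G) ^ n = 0 := by
    rw [← map_pow, hQ, map_mul]
    rw [← Polynomial.aeval_def] at hFt
    rw [hFt, zero_mul]
  exact eq_zero_of_pow_eq_zero h4

/-- **Semisimplicity.** If `𝕋` is reduced and `t` vanishes on all eigensystems occurring in `M`,
then `t` acts as zero. -/
theorem map_eq_zero_of_eigen [IsReduced 𝕋] (Φ : 𝕋 →ₐ[O] Module.End O M) (t : 𝕋)
    (h : ForallEigen Φ fun _ _ _ _ _ _ _ _ _ _ lam _ => lam t = 0) : Φ t = 0 := by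
  classical
  let K := FractionRing O
  let Kb := AlgebraicClosure K
  have hOK : Function.Injective (algebraMap O K) := IsFractionRing.injective O K
  have hOKb : Function.Injective (algebraMap O Kb) := by
    rw [IsScalarTower.algebraMap_eq O K Kb]
    exact (algebraMap K Kb).injective.comp hOK
  haveI : Module.Finite Kb (Kb ⊗[O] M) := inferInstance
  obtain ⟨G, -, hGs, hGt⟩ := exists_monic_separable (O := O) K t
  let Φb : 𝕋 →ₐ[O] Module.End Kb (Kb ⊗[O] M) := (Module.End.baseChangeHom O Kb M).comp Φ
  have hΦb : ∀ t, Φb t = (Φ t).baseChange Kb := fun t => rfl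
  have hf0 : Polynomial.aeval (Φb t) (G.map (algebraMap O Kb)) = 0 := by
    rw [Polynomial.aeval_map_algebraMap, Polynomial.aeval_algHom_apply, hGt, map_zero]
  have hsq : Squarefree (G.map (algebraMap O Kb)) := by
    have h1 : G.map (algebraMap O Kb) = (G.map (algebraMap O K)).map (algebraMap K Kb) := by
      rw [Polynomial.map_map, IsScalarTower.algebraMap_eq O K Kb]
    rw [h1]
    exact (hGs.map).squarefree
  have hss : (Φb t).IsSemisimple := Module.End.isSemisimple_of_squarefree_aeval_eq_zero hsq hf0
  have key : Φb t = 0 := by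
    rw [hss.eq_zero_iff_forall_eigenvalue]
    intro α hα
    have hne : (Φb t).eigenspace α ≠ ⊥ := hα
    obtain ⟨v, hv, hv0, hvS⟩ := exists_common_eigen (Set.range Φb) (by
      rintro _ ⟨s, rfl⟩ _ ⟨s', rfl⟩
      rw [← map_mul, ← map_mul, mul_comm]) _ ((Φb t).eigenspace α) rfl hne (by
      rintro _ ⟨s, rfl⟩ w hw
      rw [Module.End.mem_eigenspace_iff] at hw ⊢
      rw [← Module.End.mul_apply, ← map_mul, mul_comm, map_mul, Module.End.mul_apply, hw,
        map_smul])
    choose μ hμ using fun s => hvS (Φb s) ⟨s, rfl⟩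
    obtain ⟨O', _, _, _, _, _, _, _, _, _, j, lam, x, hOO', -, hx0, hjl, hx⟩ :=
      exists_lattice_eigen K Φ v hv0 μ hμ
    have h1 := h O' hOO' lam x hx0 hx
    have h2 : μ t = 0 := by rw [← hjl, h1, map_zero]
    have h3 := hμ t
    rw [Module.End.mem_eigenspace_iff.mp hv, h2, zero_smul] at h3
    exact (smul_eq_zero.mp h3).resolve_right hv0
  apply LinearMap.ext
  intro y
  apply one_tmul_injective (Kb := Kb) hOKb
  have h5 := congrArg (fun f : Module.End Kb (Kb ⊗[O] M) => f (1 ⊗ₜ y)) key
  simp only [hΦb, LinearMap.baseChange_tmul] at h5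
  rw [h5]
  simp

/-- **Comparison of norms.** -/
theorem sum_eq_of_eigen {Δ : Type} [CommGroup Δ] [Fintype Δ] (Φ : 𝕋 →ₐ[O] Module.End O M)
    (Ψ : Δ →* Module.End O M) (hΦΨ : ∀ t g, Φ t * Ψ g = Ψ g * Φ t) (ψ : Δ →* 𝕋)
    (h : ForallEigen Φ fun O' _ _ _ _ _ _ _ _ _ lam x =>
      ∀ χ : Δ →* O', (∀ g, (Ψ g).baseChange O' x = χ g • x) →
        ((∀ g, χ g = 1) ↔ ∀ g, lam (ψ g) = 1)) (y : M) :
    ∑ g, Ψ g y = ∑ g, Φ (ψ g) y := by
  classical
  let K := FractionRing O
  let Kb := AlgebraicClosure K
  have hOK : Function.Injective (algebraMap O K) := IsFractionRing.injective O K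
  have hOKb : Function.Injective (algebraMap O Kb) := by
    rw [IsScalarTower.algebraMap_eq O K Kb]
    exact (algebraMap K Kb).injective.comp hOK
  haveI : CharZero K := charZero_of_injective_algebraMap hOK
  haveI : CharZero Kb := charZero_of_injective_algebraMap hOKb
  haveI : Module.Finite Kb (Kb ⊗[O] M) := inferInstance
  let Φb : 𝕋 →ₐ[O] Module.End Kb (Kb ⊗[O] M) := (Module.End.baseChangeHom O Kb M).comp Φ
  have hΦb : ∀ t, Φb t = (Φ t).baseChange Kb := fun t => rfl
  let Ψb : Δ →* Module.End Kb (Kb ⊗[O] M) :=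
    { toFun := fun g => (Ψ g).baseChange Kb
      map_one' := by rw [map_one, LinearMap.baseChange_one]
      map_mul' := fun a b => by rw [map_mul, LinearMap.baseChange_mul] }
  have hΨb : ∀ g, Ψb g = (Ψ g).baseChange Kb := fun t => rfl
  have hcomm : ∀ t g, Φb t * Ψb g = Ψb g * Φb t := by
    intro t g
    rw [hΦb, hΨb, ← LinearMap.baseChange_mul, ← LinearMap.baseChange_mul, hΦΨ]
  let ψb : Δ →* Module.End Kb (Kb ⊗[O] M) := (Φb : 𝕋 →* _).comp ψ
  have hψb : ∀ g, ψb g = Φb (ψ g) := fun g => rfl
  -- the bigger algebra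
  let 𝕋' := 𝕋 ⊗[O] MonoidAlgebra O Δ
  let Ψa : MonoidAlgebra O Δ →ₐ[O] Module.End O M := MonoidAlgebra.lift O (Module.End O M) Δ Ψ
  have hΨa : ∀ g, Ψa (MonoidAlgebra.of O Δ g) = Ψ g := fun g => MonoidAlgebra.lift_of Ψ g
  have hc : ∀ (t : 𝕋) (z : MonoidAlgebra O Δ), Commute (Φ t) (Ψa z) := by
    intro t z
    induction z using MonoidAlgebra.induction_on with
    | of g => rw [hΨa]; exact hΦΨ t g
    | add a b ha hb => rw [map_add]; exact ha.add_right hb
    | smul r a ha => rw [map_smul]; exact ha.smul_right r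
  let Φ' : 𝕋' →ₐ[O] Module.End O M := Algebra.TensorProduct.lift Φ Ψa hc
  have hΦ'1 : ∀ t, Φ' (t ⊗ₜ 1) = Φ t := fun t => by
    rw [Algebra.TensorProduct.lift_tmul, map_one, mul_one]
  have hΦ'2 : ∀ g, Φ' (1 ⊗ₜ MonoidAlgebra.of O Δ g) = Ψ g := fun g => by
    rw [Algebra.TensorProduct.lift_tmul, map_one, one_mul, hΨa]
  have key : ∑ g, Ψb g = ∑ g, ψb g := by
    apply norm_eq_of_eigen Ψb ψb (Set.range Φb)
    · rintro _ ⟨s, rfl⟩ _ ⟨s', rfl⟩
      rw [← map_mul, ← map_mul, mul_comm]
    · rintro _ ⟨s, rfl⟩ g
      exact hcomm s g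
    · rintro _ ⟨s, rfl⟩ g
      rw [hψb, ← map_mul, ← map_mul, mul_comm]
    · intro g g'
      rw [hψb]
      exact (hcomm _ _).symm
    · intro v hv0 hvS hvΨ
      have hall : ∀ z : 𝕋', ∃ μ : Kb, (Φ' z).baseChange Kb v = μ • v := by
        intro z
        induction z using TensorProduct.induction_on with
        | zero => exact ⟨0, by rw [map_zero, LinearMap.baseChange_zero, zero_smul]; rfl⟩
        | add a b ha hb =>
          obtain ⟨α, hα⟩ := ha
          obtain ⟨β, hβ⟩ := hb
          exact ⟨α + β, by rw [map_add, LinearMap.baseChange_add, LinearMap.add_apply, hα, hβ,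
            add_smul]⟩
        | tmul t z =>
          obtain ⟨α, hα⟩ := hvS (Φb t) ⟨t, rfl⟩
          have hz : ∃ β : Kb, (Ψa z).baseChange Kb v = β • v := by
            induction z using MonoidAlgebra.induction_on with
            | of g =>
              obtain ⟨β, hβ⟩ := hvΨ g
              exact ⟨β, by rw [hΨa]; exact hβ⟩
            | add a b ha hb =>
              obtain ⟨α, hα⟩ := ha
              obtain ⟨β, hβ⟩ := hb
              exact ⟨α + β, by rw [map_add, LinearMap.baseChange_add, LinearMap.add_apply, hα, hβ,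
                add_smul]⟩
            | smul r a ha =>
              obtain ⟨α, hα⟩ := ha
              exact ⟨r • α, by rw [map_smul, LinearMap.baseChange_smul, LinearMap.smul_apply, hα,
                smul_assoc]⟩
          obtain ⟨β, hβ⟩ := hz
          refine ⟨β * α, ?_⟩
          rw [Algebra.TensorProduct.lift_tmul, Module.End.mul_eq_comp, LinearMap.baseChange_comp,
            LinearMap.comp_apply, hβ, map_smul]
          rw [hΦb] at hα
          rw [hα, smul_smul]
      choose μ hμ using hall
      obtain ⟨O', _, _, _, _, _, _, _, _, _, j, lam', x, hOO', hj, hx0, hjl, hx⟩ :=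
        exists_lattice_eigen K Φ' v hv0 μ hμ
      let lam : 𝕋 →ₐ[O] O' := lam'.comp Algebra.TensorProduct.includeLeft
      have hlam : ∀ t, lam t = lam' (t ⊗ₜ 1) := fun t => rfl
      let χ : Δ →* O' := ((lam' : 𝕋' →* O').comp
        ((Algebra.TensorProduct.includeRight : MonoidAlgebra O Δ →ₐ[O] 𝕋') :
          MonoidAlgebra O Δ →* 𝕋')).comp (MonoidAlgebra.of O Δ)
      have hχ : ∀ g, χ g = lam' (1 ⊗ₜ MonoidAlgebra.of O Δ g) := fun g => rfl
      have h1 := h O' hOO' lam x hx0 (fun t => by rw [hlam, ← hx, hΦ'1]) χ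
        (fun g => by rw [hχ, ← hx, hΦ'2])
      have hinj : ∀ a : Kb, a • v = v ↔ a = 1 := by
        intro a
        constructor
        · intro ha
          have h2 : a • v = (1 : Kb) • v := by rw [ha, one_smul]
          exact smul_left_injective Kb hv0 h2
        · rintro rfl
          exact one_smul _ _
      have hA : ∀ g, Ψb g v = v ↔ χ g = 1 := by
        intro g
        have h2 : Ψb g v = μ (1 ⊗ₜ MonoidAlgebra.of O Δ g) • v := by
          rw [← hμ, hΦ'2]
          rfl
        rw [h2, hinj, ← hjl, ← hχ]
        exact ⟨fun h3 => hj (by rw [h3, map_one]), fun h3 => by rw [h3, map_one]⟩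
      have hB : ∀ g, ψb g v = v ↔ lam (ψ g) = 1 := by
        intro g
        have h2 : ψb g v = μ (ψ g ⊗ₜ 1) • v := by
          rw [← hμ, hΦ'1]
          rfl
        rw [h2, hinj, ← hjl, ← hlam]
        exact ⟨fun h3 => hj (by rw [h3, map_one]), fun h3 => by rw [h3, map_one]⟩
      simp only [hA, hB]
      exact h1
  apply one_tmul_injective (Kb := Kb) hOKb
  have h5 := congrArg (fun f : Module.End Kb (Kb ⊗[O] M) => f (1 ⊗ₜ y)) key
  simp only [LinearMap.sum_apply, hψb, hΦb, hΨb, LinearMap.baseChange_tmul] at h5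
  rw [TensorProduct.tmul_sum, TensorProduct.tmul_sum]
  exact h5

end Main

end Fermat.Agent.H59
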