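/-
The module part of a Taylor--Wiles level ([A1] of the MODLIFT assembly).
-/
import Fermat.Agent.H69NoPatchMv
import Fermat.Agent.H59Eigen

set_option autoImplicit false
set_option linter.style.haveILetI false
set_option linter.unusedSectionVars false

namespace Fermat.Agent.H69.EG

open IsLocalRing Fermat.Agent.H69.KP Fermat.Agent.H59 TensorProduct

/-- The module part of a Taylor--Wiles level over `R`: `prodElt t` are the elements which must kill
the module, `hElt` the element which must kill it modulo `ϖ`. -/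
structure TWModPart (O : Type) [CommRing O] [IsLocalRing O] (ϖ : O) (p r n D : ℕ) {T : Type}
    (R : Type) [CommRing R] [IsLocalRing R] [Algebra O R] (prodElt : T → R) (hElt : R) :
    Type 1 where
  /-- the module with non-trivial character -/
  M : Type
  [instAddCommGroup : AddCommGroup M]
  [instModule : Module R M]
  /-- its rank -/
  d : ℕ
  d_pos : 0 < d
  d_le : d ≤ D
  /-- the exponents of the diamond group -/
  e : Fin r → ℕ
  le_e : ∀ j, n ≤ e j
  /-- the diamond operators (through the Galois side) -/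
  φ : MvPowerSeries (Fin r) O →ₐ[O] R
  φ_mem : ∀ j, φ (MvPowerSeries.X j) ∈ maximalIdeal R
  /-- the basis -/
  b : Fin d → M
  b_span : ∀ x : M, ∃ c : Fin d → MvPowerSeries (Fin r) O, x = ∑ i, φ (c i) • b i
  b_rel : ∀ c : Fin d → MvPowerSeries (Fin r) O, ∑ i, φ (c i) • b i = 0 ↔
    ∀ i, c i ∈ twIdeal O (fun j => p ^ e j)
  prod_smul : ∀ t (x : M), prodElt t • x = 0
  h_smul : ∀ x : M, ∃ y : M, hElt • x = algebraMap O R ϖ • y

/-- combine ring part and module part -/
def TWModPart.toLevel {O : Type} [CommRing O] [IsLocalRing O] {ϖ : O} {p r n D : ℕ} {T : Type}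
    {B : Type} [CommRing B] [Algebra O B] {X : T → Fin 6 → B} {q : T → ℕ} {v : T → O}
    {Z : T → Finset Oˣ} {t₀ : T}
    {R : Type} [CommRing R] [IsLocalRing R] [Algebra O R]
    (β : B →ₐ[O] R) (β_surj : Function.Surjective β)
    (Sg Ph : T → Matrix (Fin 2) (Fin 2) R)
    (det_Sg : ∀ t, Sg t 0 0 * Sg t 1 1 - Sg t 0 1 * Sg t 1 0 = 1)
    (det_Ph : ∀ t, Ph t 0 0 * Ph t 1 1 - Ph t 0 1 * Ph t 1 0 = q t)
    (tame : ∀ t, Ph t * Sg t = Sg t ^ q t * Ph t)
    (tr_Sg : ∀ t, Sg t 0 0 + Sg t 1 1 - 2 ∈ maximalIdeal R)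
    (tr_Ph : ∀ t, Ph t 0 0 + Ph t 1 1 - 2 * algebraMap O R (v t) ∈ maximalIdeal R)
    (hX0 : ∀ t, 2 * β (X t 0) = Sg t 0 0 - Sg t 1 1)
    (hX1 : ∀ t, β (X t 1) = Sg t 0 1)
    (hX2 : ∀ t, β (X t 2) = Sg t 1 0)
    (hX3 : ∀ t, 2 * β (X t 3) = Ph t 0 0 - Ph t 1 1)
    (hX4 : ∀ t, β (X t 4) = Ph t 0 1)
    (hX5 : ∀ t, β (X t 5) = Ph t 1 0)
    (mp : TWModPart O ϖ p r n D R
      (fun t => ∏ ζ ∈ Z t, (Sg t 0 0 + Sg t 1 1 - algebraMap O R ((ζ : O) + (ζ⁻¹ : Oˣ))))
      ((Ph t₀ 0 0 + Ph t₀ 1 1) ^ 2 - ((q t₀ : R) + 1) ^ 2)) :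
    TWLevel O ϖ p r n D B X q v Z t₀ where
  R := R
  β := β
  β_surj := β_surj
  Sg := Sg
  Ph := Ph
  det_Sg := det_Sg
  det_Ph := det_Ph
  tame := tame
  tr_Sg := tr_Sg
  tr_Ph := tr_Ph
  hX0 := hX0
  hX1 := hX1
  hX2 := hX2
  hX3 := hX3
  hX4 := hX4
  hX5 := hX5
  M := mp.M
  instAddCommGroup := mp.instAddCommGroup
  instModule := mp.instModule
  d := mp.d
  d_pos := mp.d_pos
  d_le := mp.d_le
  e := mp.e
  le_e := mp.le_e
  φ := mp.φ
  φ_mem := mp.φ_mem
  b := mp.b
  b_span := mp.b_span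
  b_rel := mp.b_rel
  prod_smul := mp.prod_smul
  h_smul := mp.h_smul

section Delta

/-- the diamond group -/
abbrev Dlt (p : ℕ) {r : ℕ} (e : Fin r → ℕ) : Type := ∀ j, Multiplicative (ZMod (p ^ e j))

variable {p r : ℕ} {e : Fin r → ℕ}

noncomputable instance [Fact p.Prime] : Fintype (Dlt p e) := by
  haveI : ∀ j, NeZero (p ^ e j) := fun j => ⟨pow_ne_zero _ (Nat.Prime.ne_zero Fact.out)⟩
  haveI : ∀ j, Fintype (Multiplicative (ZMod (p ^ e j))) := fun j =>
    inferInstanceAs (Fintype (ZMod (p ^ e j)))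
  exact inferInstance

lemma card_dlt [Fact p.Prime] : Nat.card (Dlt p e) = ∏ j, p ^ e j := by
  rw [Nat.card_pi]
  refine Finset.prod_congr rfl fun j _ => ?_
  exact Nat.card_zmod _

lemma isPGroup_dlt [Fact p.Prime] : IsPGroup p (Dlt p e) := by
  refine IsPGroup.of_card (n := ∑ j, e j) ?_
  rw [card_dlt, Finset.prod_pow_eq_pow_sum]

/-- homomorphism from the diamond group given by elements of `p`-power order -/
def powHom {A : Type*} [CommMonoid A] (u : Fin r → A) (hu : ∀ j, u j ^ (p ^ e j) = 1)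
    [Fact p.Prime] : Dlt p e →* A where
  toFun a := ∏ j, u j ^ (Multiplicative.toAdd (a j)).val
  map_one' := by
    haveI : ∀ j, NeZero (p ^ e j) := fun j => ⟨pow_ne_zero _ (Nat.Prime.ne_zero Fact.out)⟩
    refine Finset.prod_eq_one fun j _ => ?_
    rw [Pi.one_apply, toAdd_one, ZMod.val_zero, pow_zero]
  map_mul' a b := by
    haveI : ∀ j, NeZero (p ^ e j) := fun j => ⟨pow_ne_zero _ (Nat.Prime.ne_zero Fact.out)⟩
    rw [← Finset.prod_mul_distrib]
    refine Finset.prod_congr rfl fun j _ => ?_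
    rw [Pi.mul_apply, toAdd_mul, ZMod.val_add, ← pow_add]
    exact (pow_eq_pow_mod _ (hu j)).symm

lemma powHom_apply {A : Type*} [CommMonoid A] (u : Fin r → A) (hu : ∀ j, u j ^ (p ^ e j) = 1)
    [Fact p.Prime] (a : Dlt p e) :
    powHom u hu a = ∏ j, u j ^ (Multiplicative.toAdd (a j)).val := rfl

lemma forall_powHom_eq_one {A : Type*} [CommMonoid A] (u : Fin r → A)
    (hu : ∀ j, u j ^ (p ^ e j) = 1) [Fact p.Prime] :
    (∀ a : Dlt p e, powHom u hu a = 1) ↔ ∀ j, u j = 1 := by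
  classical
  haveI : ∀ j, NeZero (p ^ e j) := fun j => ⟨pow_ne_zero _ (Nat.Prime.ne_zero Fact.out)⟩
  constructor
  · intro h j
    have h1 := h (Pi.mulSingle j (Multiplicative.ofAdd 1))
    rw [powHom_apply, Finset.prod_eq_single j] at h1
    · rw [Pi.mulSingle_eq_same, toAdd_ofAdd, ZMod.val_one_eq_one_mod,
        ← pow_eq_pow_mod 1 (hu j), pow_one] at h1
      exact h1
    · intro i _ hij
      rw [Pi.mulSingle_eq_of_ne hij, toAdd_one, ZMod.val_zero, pow_zero]
    · intro hj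
      exact absurd (Finset.mem_univ j) hj
  · intro h a
    rw [powHom_apply]
    exact Finset.prod_eq_one fun j _ => by rw [h, one_pow]

lemma map_powHom {A A' : Type*} [CommMonoid A] [CommMonoid A'] (f : A →* A') (u : Fin r → A)
    (hu : ∀ j, u j ^ (p ^ e j) = 1) (hu' : ∀ j, f (u j) ^ (p ^ e j) = 1) [Fact p.Prime]
    (a : Dlt p e) : f (powHom u hu a) = powHom (fun j => f (u j)) hu' a := by
  rw [powHom_apply, powHom_apply, map_prod]
  exact Finset.prod_congr rfl fun j _ => map_pow f _ _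

end Delta

section Main

variable {O : Type} [CommRing O] [IsDomain O] [IsDiscreteValuationRing O]
  [IsAdicComplete (maximalIdeal O) O] [Finite (ResidueField O)] [CharZero O]
  {p : ℕ} [Fact p.Prime] [CharP (ResidueField O) p]
  {R : Type} [CommRing R] [IsLocalRing R] [Algebra O R] [IsAdicComplete (maximalIdeal R) R]
  {𝕋 : Type} [CommRing 𝕋] [Algebra O 𝕋] [Module.Finite O 𝕋] [IsReduced 𝕋]

/-- **The module part of a Taylor--Wiles level.** -/
theorem exists_modPart {ϖ : O} {r n D : ℕ} {T : Type} {prodElt : T → R} {hElt : R}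
    (π : R →ₐ[O] 𝕋) (e : Fin r → ℕ) (hne : ∀ j, n ≤ e j)
    (c : Fin r → R) (hcm : ∀ j, c j ∈ maximalIdeal R) (hc : ∀ j, (1 + c j) ^ (p ^ e j) = 1)
    {M : Type} [AddCommGroup M] [Module O M] [Module.Finite O M] [Module.Free O M]
    (Φ : 𝕋 →ₐ[O] Module.End O M) (Ψ : Dlt p e →* Module.End O M)
    (hΦΨ : ∀ t g, Φ t * Ψ g = Ψ g * Φ t)
    {d : ℕ} (hd0 : 0 < d) (hdD : d ≤ D)
    (b : Module.Basis (Fin d × Dlt p e) O M) (hb : ∀ i g, b (i, g) = Ψ g (b (i, 1)))
    (hEA1 : ForallEigen Φ fun O' _ _ _ _ _ _ _ _ _ lam x =>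
      ∀ χ : Dlt p e →* O', (∀ g, (Ψ g).baseChange O' x = χ g • x) →
        ((∀ g, χ g = 1) ↔ ∀ j, lam (π (1 + c j)) = 1))
    (hEA2 : ∀ t, ForallEigen Φ fun _ _ _ _ _ _ _ _ _ _ lam _ => lam (π (prodElt t)) = 0)
    {M₁ : Type} [AddCommGroup M₁] [Module O M₁] [Module.Finite O M₁] [Module.Free O M₁]
    (Φ₁ : 𝕋 →ₐ[O] Module.End O M₁)
    (hEA3 : ForallEigen Φ₁ fun _ _ _ _ _ _ _ _ _ _ lam _ => lam (π hElt) = 0)
    (N : Submodule O M) (hN : ∀ x ∈ N, ∃ y, x = ϖ • y)
    (f : M₁ →+ (M ⧸ N)) (hf : Function.Surjective f)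
    (hfΦ : ∀ t y x, f y = Submodule.Quotient.mk x → f (Φ₁ t y) = Submodule.Quotient.mk (Φ t x)) :
    Nonempty (TWModPart O ϖ p r n D R prodElt hElt) := by
  classical
  have hp : p.Prime := Fact.out
  have hpO : (p : O) ∈ maximalIdeal O := by
    rw [← residue_eq_zero_iff, map_natCast, CharP.cast_eq_zero]
  obtain ⟨φ, hφ⟩ := Fermat.Agent.H56.exists_mvPowerSeries_eval (O := O) (maximalIdeal R) c hcm
  -- the Galois action of the diamond group
  let u : Fin r → 𝕋 := fun j => π (1 + c j)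
  have hu : ∀ j, u j ^ (p ^ e j) = 1 := fun j => by
    change (π (1 + c j)) ^ (p ^ e j) = 1
    rw [← map_pow, hc, map_one]
  let ψ : Dlt p e →* 𝕋 := powHom u hu
  have hsum : ∀ y : M, ∑ g, Ψ g y = ∑ g, Φ (ψ g) y := by
    refine sum_eq_of_eigen Φ Ψ hΦΨ ψ ?_
    intro O' _ _ _ _ _ _ _ _ _ hOO' lam x hx hlam χ hχ
    rw [hEA1 O' hOO' lam x hx hlam χ hχ]
    have h1 : (∀ j, lam (π (1 + c j)) = 1) ↔ ∀ g, powHom (fun j => lam (u j))
        (fun j => by rw [← map_pow, hu, map_one]) g = 1 :=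
      (forall_powHom_eq_one _ _).symm
    rw [h1]
    refine forall_congr' fun g => ?_
    have h2 : lam (ψ g) = powHom (fun j => lam (u j))
        (fun j => by rw [← map_pow, hu, map_one]) g :=
      map_powHom (lam : 𝕋 →* O') u hu _ g
    rw [h2]
  let ψM : Dlt p e →* Module.End O M := (Φ : 𝕋 →* Module.End O M).comp ψ
  obtain ⟨b', hb'⟩ := exists_basis_of_norm (p := p) isPGroup_dlt Ψ ψM b hb hsum
  -- the module structure
  letI : Module R M :=
    { smul := fun a x => Φ (π a) x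
      one_smul := fun x => by
        change Φ (π 1) x = x
        rw [map_one, map_one]
        rfl
      mul_smul := fun a b x => by
        change Φ (π (a * b)) x = Φ (π a) (Φ (π b) x)
        rw [map_mul, map_mul]
        rfl
      smul_zero := fun a => map_zero _
      smul_add := fun a x y => map_add _ _ _
      add_smul := fun a b x => by
        change Φ (π (a + b)) x = Φ (π a) x + Φ (π b) x
        rw [map_add, map_add]
        rfl
      zero_smul := fun x => by
        change Φ (π 0) x = 0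
        rw [map_zero, map_zero]
        rfl }
  have hsm : ∀ (a : R) (x : M), a • x = Φ (π a) x := fun _ _ => rfl
  haveI : IsScalarTower O R M := ⟨fun a s x => by
    rw [hsm, hsm, map_smul, map_smul]
    rfl⟩
  have hOsm : ∀ (a : O) (x : M), algebraMap O R a • x = a • x := fun a x => algebraMap_smul R a x
  have hspan : ∀ x : M, ∃ cc : Fin d → MvPowerSeries (Fin r) O,
      x = ∑ i, φ (cc i) • b (i, 1) := by
    intro x
    refine ⟨fun i => ∑ g : Dlt p e, MvPowerSeries.C (b'.repr x (i, g)) *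
      ∏ j, (1 + MvPowerSeries.X j) ^ (Multiplicative.toAdd (g j)).val, ?_⟩
    conv_lhs => rw [← b'.sum_repr x]
    rw [Fintype.sum_prod_type]
    refine Finset.sum_congr rfl fun i _ => ?_
    rw [map_sum, Finset.sum_smul]
    refine Finset.sum_congr rfl fun g _ => ?_
    have h1 : (MvPowerSeries.C (b'.repr x (i, g)) : MvPowerSeries (Fin r) O) =
      algebraMap O _ (b'.repr x (i, g)) := rfl
    rw [map_mul, h1, AlgHom.commutes, mul_smul, hOsm, hb', map_prod]
    congr 1
    simp only [map_pow, map_add, map_one, hφ]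
    rw [hsm, map_prod]
    simp only [map_pow]
    rfl
  have hrank : Module.finrank O M = d * ∏ j, p ^ e j := by
    rw [Module.finrank_eq_card_basis b, Fintype.card_prod, Fintype.card_fin,
      ← Nat.card_eq_fintype_card, card_dlt]
  refine ⟨{ M := M
            d := d
            d_pos := hd0
            d_le := hdD
            e := e
            le_e := hne
            φ := φ
            φ_mem := fun j => by rw [hφ]; exact hcm j
            b := fun i => b (i, 1)
            b_span := hspan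
            b_rel := fun cc => rel_of_rank hp hpO e φ hrank (fun i => b (i, 1)) hspan
              (fun j => by rw [hφ, add_comm]; exact hc j) cc
            prod_smul := ?_
            h_smul := ?_ }⟩
  · intro t x
    rw [hsm, map_eq_zero_of_eigen Φ _ (hEA2 t)]
    rfl
  · intro x
    obtain ⟨y, hy⟩ := hf (Submodule.Quotient.mk x)
    have h1 := hfΦ (π hElt) y x hy
    rw [map_eq_zero_of_eigen Φ₁ _ hEA3, LinearMap.zero_apply, map_zero] at h1
    have h2 := (Submodule.Quotient.mk_eq_zero N).mp h1.symm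
    obtain ⟨z, hz⟩ := hN _ h2
    exact ⟨z, by rw [hOsm, hsm]; exact hz⟩

end Main

end Fermat.Agent.H69.EG
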