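/-
The module part of a level for the non-minimal endgame (`Fermat.Agent.H57.NM.NMLevel`).
-/
import Fermat.Agent.H69TWMod
import Fermat.Agent.H57NMLift

set_option autoImplicit false
set_option linter.style.haveILetI false
set_option linter.unusedSectionVars false

namespace Fermat.Agent.H69.EG

open IsLocalRing Fermat.Agent.H69.KP Fermat.Agent.H59 TensorProduct Fermat.Agent.H57.NM

/-- The module part of a level of the non-minimal endgame over `R`: `prodElt t` are the elements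
which must kill the module with characters, `uniElt t` those which must kill the unipotent
module. -/
structure NMModPart (O : Type) [CommRing O] [IsLocalRing O] (ϖ : O) (p r n D m : ℕ) {T : Type}
    (R : Type) [CommRing R] [IsLocalRing R] [Algebra O R] (prodElt uniElt : T → R) :
    Type 1 where
  /-- the module with non-trivial character -/
  M₀ : Type
  [instAddCommGroup₀ : AddCommGroup M₀]
  [instModule₀ : Module R M₀]
  /-- the unipotent module -/
  M₁ : Type
  [instAddCommGroup₁ : AddCommGroup M₁]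
  [instModule₁ : Module R M₁]
  /-- the ranks -/
  d₀ : ℕ
  d₁ : ℕ
  d₀_pos : 0 < d₀
  d₀_le : d₀ ≤ D
  d₁_le : d₁ ≤ D
  /-- the exponents of the diamond group -/
  e : Fin r → ℕ
  le_e : ∀ j, n ≤ e j
  /-- the diamond operators (through the Galois side) -/
  φ : MvPowerSeries (Fin r) O →ₐ[O] R
  φ_mem : ∀ j, φ (MvPowerSeries.X j) ∈ maximalIdeal R
  /-- the bases -/
  b₀ : Fin d₀ → M₀
  b₀_span : ∀ x : M₀, ∃ c : Fin d₀ → MvPowerSeries (Fin r) O, x = ∑ i, φ (c i) • b₀ i
  b₀_rel : ∀ c : Fin d₀ → MvPowerSeries (Fin r) O, ∑ i, φ (c i) • b₀ i = 0 ↔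
    ∀ i, c i ∈ twIdeal O (fun j => p ^ e j)
  b₁ : Fin d₁ → M₁
  b₁_span : ∀ x : M₁, ∃ c : Fin d₁ → MvPowerSeries (Fin r) O, x = ∑ i, φ (c i) • b₁ i
  b₁_rel : ∀ c : Fin d₁ → MvPowerSeries (Fin r) O, ∑ i, φ (c i) • b₁ i = 0 ↔
    ∀ i, c i ∈ twIdeal O (fun j => p ^ e j)
  prod_smul : ∀ t (x : M₀), prodElt t • x = 0
  uni_smul : ∀ t (x : M₁), uniElt t • x = 0
  iso : Nonempty ((M₀ ⧸ (Ideal.span {algebraMap O R ϖ} • ⊤ : Submodule R M₀)) ≃ₗ[R]
    (M₁ ⧸ (Ideal.span {algebraMap O R ϖ} • ⊤ : Submodule R M₁)))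
  /-- the point -/
  pt : R →ₐ[O] O
  pt_φ : ∀ j, pt (φ (MvPowerSeries.X j)) = 0
  pt_uni : ∀ t, pt (uniElt t) = 0
  /-- the witness of non-modularity -/
  f : R
  f_smul : ∀ x : M₁, f • x ∈
    (Ideal.span (Set.range fun j => φ (MvPowerSeries.X j)) • ⊤ : Submodule R M₁)
  f_pt : pt f ∉ Ideal.span {ϖ ^ m}

/-- combine ring part and module part -/
def NMModPart.toLevel {O : Type} [CommRing O] [IsLocalRing O] {ϖ : O} {p r n D m : ℕ} {T : Type}
    {B : Type} [CommRing B] [Algebra O B] {X : T → Fin 6 → B} {q : T → ℕ} {v : T → O}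
    {Z : T → Finset Oˣ}
    {R : Type} [CommRing R] [IsLocalRing R] [Algebra O R]
    (β : B →ₐ[O] R) (β_surj : Function.Surjective β)
    (Sg Ph : T → Matrix (Fin 2) (Fin 2) R)
    (det_Sg : ∀ t, Sg t 0 0 * Sg t 1 1 - Sg t 0 1 * Sg t 1 0 = 1)
    (det_Ph : ∀ t, Ph t 0 0 * Ph t 1 1 - Ph t 0 1 * Ph t 1 0 = q t)
    (tame : ∀ t, Ph t * Sg t = Sg t ^ q t * Ph t)
    (tr_Sg : ∀ t, Sg t 0 0 + Sg t 1 1 - 2 ∈ maximalIdeal R)
    (tr_Ph : ∀ t, Ph t 0 0 + Ph t 1 1 - 2 * algebraMap O R (v t) ∈ maximalIdeal R)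
    (hX0 : ∀ t, 2 * β (X t 0) = Sg t 0 0 - Sg t 1 1)
    (hX1 : ∀ t, β (X t 1) = Sg t 0 1)
    (hX2 : ∀ t, β (X t 2) = Sg t 1 0)
    (hX3 : ∀ t, 2 * β (X t 3) = Ph t 0 0 - Ph t 1 1)
    (hX4 : ∀ t, β (X t 4) = Ph t 0 1)
    (hX5 : ∀ t, β (X t 5) = Ph t 1 0)
    (mp : NMModPart O ϖ p r n D m R
      (fun t => ∏ ζ ∈ Z t, (Sg t 0 0 + Sg t 1 1 - algebraMap O R ((ζ : O) + (ζ⁻¹ : Oˣ))))
      (fun t => Sg t 0 0 + Sg t 1 1 - 2)) :
    NMLevel O ϖ p r n D m B X q v Z where
  R := R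
  β := β
  β_surj := β_surj
  Sg := Sg
  Ph := Ph
  det_Sg := det_Sg
  det_Ph := det_Ph
  tame := tame
  tr_Sg := tr_Sg
  tr_Ph := tr_Ph
  hX0 := hX0
  hX1 := hX1
  hX2 := hX2
  hX3 := hX3
  hX4 := hX4
  hX5 := hX5
  M₀ := mp.M₀
  instAddCommGroup₀ := mp.instAddCommGroup₀
  instModule₀ := mp.instModule₀
  M₁ := mp.M₁
  instAddCommGroup₁ := mp.instAddCommGroup₁
  instModule₁ := mp.instModule₁
  d₀ := mp.d₀
  d₁ := mp.d₁
  d₀_pos := mp.d₀_pos
  d₀_le := mp.d₀_le
  d₁_le := mp.d₁_le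
  e := mp.e
  le_e := mp.le_e
  φ := mp.φ
  φ_mem := mp.φ_mem
  b₀ := mp.b₀
  b₀_span := mp.b₀_span
  b₀_rel := mp.b₀_rel
  b₁ := mp.b₁
  b₁_span := mp.b₁_span
  b₁_rel := mp.b₁_rel
  prod_smul := mp.prod_smul
  uni_smul := mp.uni_smul
  iso := mp.iso
  pt := mp.pt
  pt_φ := mp.pt_φ
  pt_uni := fun t => by
    have h := mp.pt_uni t
    rwa [map_sub, sub_eq_zero, map_ofNat] at h
  f := mp.f
  f_smul := mp.f_smul
  f_pt := mp.f_pt

section Basis

/-- Description of a module through a norm compatible Galois action of the diamond group -/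
theorem exists_span_rel {O : Type} [CommRing O] [IsDomain O] [IsDiscreteValuationRing O]
    [IsAdicComplete (maximalIdeal O) O] [Finite (ResidueField O)] [CharZero O]
    {p : ℕ} [Fact p.Prime] [CharP (ResidueField O) p]
    {R : Type} [CommRing R] [IsLocalRing R] [Algebra O R]
    {𝕋 : Type} [CommRing 𝕋] [Algebra O 𝕋] [Module.Finite O 𝕋]
    {r : ℕ} (π : R →ₐ[O] 𝕋) (e : Fin r → ℕ)
    (c : Fin r → R) (hc : ∀ j, (1 + c j) ^ (p ^ e j) = 1)
    (φ : MvPowerSeries (Fin r) O →ₐ[O] R) (hφ : ∀ j, φ (MvPowerSeries.X j) = c j)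
    {M : Type} [AddCommGroup M] [Module O M] [Module.Finite O M] [Module.Free O M]
    (Φ : 𝕋 →ₐ[O] Module.End O M) (Ψ : Dlt p e →* Module.End O M)
    (hΦΨ : ∀ t g, Φ t * Ψ g = Ψ g * Φ t)
    {d : ℕ} (b : Module.Basis (Fin d × Dlt p e) O M) (hb : ∀ i g, b (i, g) = Ψ g (b (i, 1)))
    (hEA1 : ForallEigen Φ fun O' _ _ _ _ _ _ _ _ _ lam x =>
      ∀ χ : Dlt p e →* O', (∀ g, (Ψ g).baseChange O' x = χ g • x) →
        ((∀ g, χ g = 1) ↔ ∀ j, lam (π (1 + c j)) = 1)) :
    (∃ b' : Module.Basis (Fin d × Dlt p e) O M,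
      (∀ i g, b' (i, g) = Φ (π (φ (∏ j, (1 + MvPowerSeries.X j) ^
        (Multiplicative.toAdd (g j)).val))) (b (i, 1))) ∧
      ∀ y : M, ∑ g, Ψ g y = ∑ g : Dlt p e, Φ (π (φ (∏ j, (1 + MvPowerSeries.X j) ^
        (Multiplicative.toAdd (g j)).val))) y) := by
  classical
  let u : Fin r → 𝕋 := fun j => π (1 + c j)
  have hu : ∀ j, u j ^ (p ^ e j) = 1 := fun j => by
    change (π (1 + c j)) ^ (p ^ e j) = 1
    rw [← map_pow, hc, map_one]
  let ψ : Dlt p e →* 𝕋 := powHom u hu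
  have hsum : ∀ y : M, ∑ g, Ψ g y = ∑ g, Φ (ψ g) y := by
    refine sum_eq_of_eigen Φ Ψ hΦΨ ψ ?_
    intro O' _ _ _ _ _ _ _ _ _ hOO' lam x hx hlam χ hχ
    rw [hEA1 O' hOO' lam x hx hlam χ hχ]
    have h1 : (∀ j, lam (π (1 + c j)) = 1) ↔ ∀ g, powHom (fun j => lam (u j))
        (fun j => by rw [← map_pow, hu, map_one]) g = 1 :=
      (forall_powHom_eq_one _ _).symm
    rw [h1]
    refine forall_congr' fun g => ?_
    have h2 : lam (ψ g) = powHom (fun j => lam (u j))
        (fun j => by rw [← map_pow, hu, map_one]) g :=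
      map_powHom (lam : 𝕋 →* O') u hu _ g
    rw [h2]
  let ψM : Dlt p e →* Module.End O M := (Φ : 𝕋 →* Module.End O M).comp ψ
  obtain ⟨b', hb'⟩ := exists_basis_of_norm (p := p) isPGroup_dlt Ψ ψM b hb hsum
  have h1 : ∀ g : Dlt p e, π (φ (∏ j, (1 + MvPowerSeries.X j) ^
      (Multiplicative.toAdd (g j)).val)) = ψ g := by
    intro g
    simp only [map_prod, map_pow, map_add, map_one, hφ]
    change _ = ∏ j, (π (1 + c j)) ^ (Multiplicative.toAdd (g j)).val
    simp only [map_add, map_one]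
  refine ⟨b', fun i g => ?_, fun y => ?_⟩
  · rw [hb', h1]
    rfl
  · rw [hsum]
    exact Finset.sum_congr rfl fun g _ => by rw [h1]

end Basis

section Iso

/-- an isomorphism modulo `ϖ` from a common quotient -/
theorem exists_iso {R M M₁ Y : Type} [CommRing R] [AddCommGroup M] [Module R M]
    [AddCommGroup M₁] [Module R M₁] [AddCommGroup Y] (a : R)
    (g : M →+ Y) (hg : Function.Surjective g) (hgk : ∀ x, g x = 0 ↔ ∃ y, x = a • y)
    (g₁ : M₁ →+ Y) (hg₁ : Function.Surjective g₁) (hgk₁ : ∀ x, g₁ x = 0 ↔ ∃ y, x = a • y)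
    (h : ∀ (t : R) x y, g x = g₁ y → g (t • x) = g₁ (t • y)) :
    Nonempty ((M ⧸ (Ideal.span {a} • ⊤ : Submodule R M)) ≃ₗ[R]
      (M₁ ⧸ (Ideal.span {a} • ⊤ : Submodule R M₁))) := by
  classical
  have hmem : ∀ x : M, x ∈ (Ideal.span {a} • ⊤ : Submodule R M) ↔ g x = 0 := by
    intro x
    rw [hgk, Submodule.ideal_span_singleton_smul, Submodule.mem_smul_pointwise_iff_exists]
    exact ⟨fun ⟨y, _, hy⟩ => ⟨y, hy.symm⟩, fun ⟨y, hy⟩ => ⟨y, trivial, hy.symm⟩⟩
  have hmem₁ : ∀ x : M₁, x ∈ (Ideal.span {a} • ⊤ : Submodule R M₁) ↔ g₁ x = 0 := by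
    intro x
    rw [hgk₁, Submodule.ideal_span_singleton_smul, Submodule.mem_smul_pointwise_iff_exists]
    exact ⟨fun ⟨y, _, hy⟩ => ⟨y, hy.symm⟩, fun ⟨y, hy⟩ => ⟨y, trivial, hy.symm⟩⟩
  choose s hs using fun x : M => hg₁ (g x)
  let F : M →ₗ[R] (M₁ ⧸ (Ideal.span {a} • ⊤ : Submodule R M₁)) :=
    { toFun := fun x => Submodule.Quotient.mk (s x)
      map_add' := fun x y => by
        rw [← Submodule.Quotient.mk_add, Submodule.Quotient.eq, hmem₁, map_sub, map_add,
          hs, hs, hs, map_add, sub_self]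
      map_smul' := fun t x => by
        rw [RingHom.id_apply, ← Submodule.Quotient.mk_smul, Submodule.Quotient.eq, hmem₁,
          map_sub, hs, h t x (s x) (hs x).symm, sub_self] }
  have hF : ∀ x, F x = Submodule.Quotient.mk (s x) := fun _ => rfl
  have hker : LinearMap.ker F = (Ideal.span {a} • ⊤ : Submodule R M) := by
    ext x
    rw [LinearMap.mem_ker, hF, Submodule.Quotient.mk_eq_zero, hmem₁, hs, hmem]
  have hsurj : Function.Surjective F := by
    intro y
    obtain ⟨y, rfl⟩ := Submodule.Quotient.mk_surjective _ y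
    obtain ⟨x, hx⟩ := hg (g₁ y)
    refine ⟨x, ?_⟩
    rw [hF, Submodule.Quotient.eq, hmem₁, map_sub, hs, hx, sub_self]
  exact ⟨(Submodule.quotEquivOfEq _ _ hker.symm).trans (F.quotKerEquivOfSurjective hsurj)⟩

end Iso

section Norm

variable {O : Type} [CommRing O] [IsDomain O] [IsDiscreteValuationRing O]
  [IsAdicComplete (maximalIdeal O) O] [Finite (ResidueField O)] [CharZero O]
  {𝕋 : Type} [CommRing 𝕋] [Algebra O 𝕋] [Module.Finite O 𝕋] [IsReduced 𝕋]
  {M : Type} [AddCommGroup M] [Module O M] [Module.Finite O M] [Module.Free O M]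

/-- An element which vanishes on all invariant eigenvectors kills the image of the norm. -/
theorem map_norm_eq_zero {Δ : Type} [CommGroup Δ] [Fintype Δ] (Φ : 𝕋 →ₐ[O] Module.End O M)
    (Ψ : Δ →* Module.End O M) (hΦΨ : ∀ t g, Φ t * Ψ g = Ψ g * Φ t) (t : 𝕋)
    (h : ForallEigen Φ fun O' _ _ _ _ _ _ _ _ _ lam x =>
      (∀ g, (Ψ g).baseChange O' x = x) → lam t = 0) (y : M) :
    ∑ g, Ψ g (Φ t y) = 0 := by
  classical
  let Nm : Module.End O M := ∑ g, Ψ g
  have hNm : ∀ y, Nm y = ∑ g, Ψ g y := fun y => by simp [Nm]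
  have hΦN : ∀ t, Φ t * Nm = Nm * Φ t := by
    intro t
    simp only [Nm, Finset.mul_sum, Finset.sum_mul]
    exact Finset.sum_congr rfl fun g _ => hΦΨ t g
  have hΨN : ∀ g, Ψ g * Nm = Nm := by
    intro g
    simp only [Nm, Finset.mul_sum, ← map_mul]
    exact Fintype.sum_bijective (fun h => g * h) (Group.mulLeft_bijective g) _ _ fun _ => rfl
  let M' : Submodule O M := LinearMap.range Nm
  haveI : Module.Free O M' := inferInstance
  have hstab : ∀ t, ∀ x ∈ M', Φ t x ∈ M' := by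
    rintro t _ ⟨z, rfl⟩
    refine ⟨Φ t z, ?_⟩
    rw [← Module.End.mul_apply, ← Module.End.mul_apply, hΦN]
  let Φ' : 𝕋 →ₐ[O] Module.End O M' :=
    { toFun := fun t => (Φ t).restrict (hstab t)
      map_one' := by ext x; simp [LinearMap.restrict_apply]
      map_mul' := fun a b => by ext x; simp [LinearMap.restrict_apply]
      map_zero' := by ext x; simp [LinearMap.restrict_apply]
      map_add' := fun a b => by ext x; simp [LinearMap.restrict_apply]
      commutes' := fun a => by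
        ext x
        simp [LinearMap.restrict_apply, Module.algebraMap_end_apply] }
  have hΦ' : ∀ t (x : M'), ((Φ' t x : M') : M) = Φ t x := fun _ _ => rfl
  have h0 : Φ' t = 0 := by
    refine map_eq_zero_of_eigen Φ' t ?_
    intro O' _ _ _ _ _ _ _ _ _ hOO' lam x hx hlam
    have hinj : Function.Injective (M'.subtype.baseChange O') := by
      haveI : FaithfulSMul O O' := (faithfulSMul_iff_algebraMap_injective O O').mpr hOO'
      haveI : Module.IsTorsionFree O O' := inferInstance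
      haveI : Module.Free O O' := inferInstance
      exact Module.Flat.lTensor_preserves_injective_linearMap _ Subtype.val_injective
    refine h O' hOO' lam (M'.subtype.baseChange O' x) ?_ ?_ ?_
    · intro h1
      exact hx (hinj (by rw [h1, map_zero]))
    · intro s
      have h2 : (Φ s) ∘ₗ M'.subtype = M'.subtype ∘ₗ (Φ' s) := by
        ext z
        rfl
      have h3 := congrArg (fun f : M' →ₗ[O] M => f.baseChange O' x) h2
      simp only [LinearMap.baseChange_comp, LinearMap.comp_apply] at h3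
      rw [h3, hlam, map_smul]
    · intro g
      have h2 : (Ψ g) ∘ₗ M'.subtype = M'.subtype := by
        ext z
        obtain ⟨z, w, rfl⟩ := z
        change Ψ g (Nm w) = Nm w
        rw [← Module.End.mul_apply, hΨN]
      have h3 := congrArg (fun f : M' →ₗ[O] M => f.baseChange O' x) h2
      simpa only [LinearMap.baseChange_comp, LinearMap.comp_apply] using h3
  have h1 : ((Φ' t ⟨Nm y, y, rfl⟩ : M') : M) = 0 := by rw [h0]; rfl
  rw [hΦ'] at h1
  change Φ t (Nm y) = 0 at h1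
  rw [← Module.End.mul_apply, hΦN, Module.End.mul_apply, hNm] at h1
  exact h1

end Norm

section Main

variable {O : Type} [CommRing O] [IsDomain O] [IsDiscreteValuationRing O]
  [IsAdicComplete (maximalIdeal O) O] [Finite (ResidueField O)] [CharZero O]
  {p : ℕ} [Fact p.Prime] [CharP (ResidueField O) p]
  {R : Type} [CommRing R] [IsLocalRing R] [Algebra O R]
  {𝕋 : Type} [CommRing 𝕋] [Algebra O 𝕋]

/-- the `R`-module structure through `π` -/
abbrev modOf {M : Type} [AddCommGroup M] [Module O M] (π : R →ₐ[O] 𝕋)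
    (Φ : 𝕋 →ₐ[O] Module.End O M) : Module R M where
  smul := fun a x => Φ (π a) x
  one_smul := fun x => by
    change Φ (π 1) x = x
    rw [map_one, map_one]
    rfl
  mul_smul := fun a b x => by
    change Φ (π (a * b)) x = Φ (π a) (Φ (π b) x)
    rw [map_mul, map_mul]
    rfl
  smul_zero := fun a => map_zero _
  smul_add := fun a x y => map_add _ _ _
  add_smul := fun a b x => by
    change Φ (π (a + b)) x = Φ (π a) x + Φ (π b) x
    rw [map_add, map_add]
    rfl
  zero_smul := fun x => by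
    change Φ (π 0) x = 0
    rw [map_zero, map_zero]
    rfl

variable [Module.Finite O 𝕋]

/-- the description of one module -/
theorem exists_pres {r : ℕ}
    (π : R →ₐ[O] 𝕋) (e : Fin r → ℕ)
    (c : Fin r → R) (hc : ∀ j, (1 + c j) ^ (p ^ e j) = 1)
    (φ : MvPowerSeries (Fin r) O →ₐ[O] R) (hφ : ∀ j, φ (MvPowerSeries.X j) = c j)
    {M : Type} [AddCommGroup M] [Module O M] [Module.Finite O M] [Module.Free O M]
    (Φ : 𝕋 →ₐ[O] Module.End O M) (Ψ : Dlt p e →* Module.End O M)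
    (hΦΨ : ∀ t g, Φ t * Ψ g = Ψ g * Φ t)
    {d : ℕ} (b : Module.Basis (Fin d × Dlt p e) O M) (hb : ∀ i g, b (i, g) = Ψ g (b (i, 1)))
    (hEA1 : ForallEigen Φ fun O' _ _ _ _ _ _ _ _ _ lam x =>
      ∀ χ : Dlt p e →* O', (∀ g, (Ψ g).baseChange O' x = χ g • x) →
        ((∀ g, χ g = 1) ↔ ∀ j, lam (π (1 + c j)) = 1)) :
    letI : Module R M := modOf π Φ
    ∃ bb : Fin d → M,
      (∀ x : M, ∃ cc : Fin d → MvPowerSeries (Fin r) O, x = ∑ i, φ (cc i) • bb i) ∧
      (∀ cc : Fin d → MvPowerSeries (Fin r) O, ∑ i, φ (cc i) • bb i = 0 ↔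
        ∀ i, cc i ∈ twIdeal O (fun j => p ^ e j)) ∧
      (∀ x : M, ∑ g, Ψ g x = 0 →
        x ∈ (Ideal.span (Set.range fun j => φ (MvPowerSeries.X j)) • ⊤ : Submodule R M)) := by
  classical
  letI : Module R M := modOf π Φ
  have hp : p.Prime := Fact.out
  have hpO : (p : O) ∈ maximalIdeal O := by
    rw [← residue_eq_zero_iff, map_natCast, CharP.cast_eq_zero]
  obtain ⟨b', hb', hsum⟩ := exists_span_rel π e c hc φ hφ Φ Ψ hΦΨ b hb hEA1
  have hsm : ∀ (a : R) (x : M), a • x = Φ (π a) x := fun _ _ => rfl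
  haveI : IsScalarTower O R M := ⟨fun a s x => by
    rw [hsm, hsm, map_smul, map_smul]
    rfl⟩
  have hOsm : ∀ (a : O) (x : M), algebraMap O R a • x = a • x := fun a x => algebraMap_smul R a x
  let w : Dlt p e → R := fun g => φ (∏ j, (1 + MvPowerSeries.X j) ^
        (Multiplicative.toAdd (g j)).val)
  have hw : ∀ i g, b' (i, g) = w g • b (i, 1) := hb'
  have hsum' : ∀ y : M, ∑ g, Ψ g y = ∑ g, w g • y := hsum
  have hw1 : w 1 = 1 := by
    haveI : ∀ j, NeZero (p ^ e j) := fun j => ⟨pow_ne_zero _ hp.ne_zero⟩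
    simp only [w]
    rw [← map_one φ]
    congr 1
    refine Finset.prod_eq_one fun j _ => ?_
    rw [Pi.one_apply, toAdd_one, ZMod.val_zero, pow_zero]
  have hspan : ∀ x : M, ∃ cc : Fin d → MvPowerSeries (Fin r) O,
      x = ∑ i, φ (cc i) • b (i, 1) := by
    intro x
    refine ⟨fun i => ∑ g : Dlt p e, MvPowerSeries.C (b'.repr x (i, g)) *
      ∏ j, (1 + MvPowerSeries.X j) ^ (Multiplicative.toAdd (g j)).val, ?_⟩
    conv_lhs => rw [← b'.sum_repr x]
    rw [Fintype.sum_prod_type]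
    refine Finset.sum_congr rfl fun i _ => ?_
    rw [map_sum, Finset.sum_smul]
    refine Finset.sum_congr rfl fun g _ => ?_
    have h1 : (MvPowerSeries.C (b'.repr x (i, g)) : MvPowerSeries (Fin r) O) =
      algebraMap O _ (b'.repr x (i, g)) := rfl
    rw [map_mul, h1, AlgHom.commutes, mul_smul, hOsm, hw]
  have hrank : Module.finrank O M = d * ∏ j, p ^ e j := by
    rw [Module.finrank_eq_card_basis b, Fintype.card_prod, Fintype.card_fin,
      ← Nat.card_eq_fintype_card, card_dlt]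
  refine ⟨fun i => b (i, 1), hspan, fun cc => rel_of_rank hp hpO e φ hrank (fun i => b (i, 1))
    hspan (fun j => by rw [hφ, add_comm]; exact hc j) cc, ?_⟩
  intro x hx
  rw [hsum'] at hx
  -- the action of the diamonds on the norm
  have hΨ1 : ∀ (h : Dlt p e) (y : M), ∑ g, w g • (w h • y) = ∑ g, w g • y := by
    intro h y
    have hwh : w h • (∑ g, w g • y) = ∑ g, w g • (w h • y) := by
      rw [Finset.smul_sum]
      exact Finset.sum_congr rfl fun g _ => smul_comm _ _ _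
    let ψM : Dlt p e →* R := powHom (fun j => 1 + c j) hc
    have hwψ : ∀ g, w g = ψM g := by
      intro g
      simp only [w, map_prod, map_pow, map_add, map_one, hφ]
      rfl
    rw [← hwh, Finset.smul_sum]
    simp only [hwψ, smul_smul, ← map_mul]
    exact Fintype.sum_bijective (fun g => h * g) (Group.mulLeft_bijective h) _ _ fun _ => rfl
  -- coordinates
  have hxe : x = ∑ i, ∑ g, b'.repr x (i, g) • (w g • b (i, 1)) := by
    conv_lhs => rw [← b'.sum_repr x]
    rw [Fintype.sum_prod_type]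
    exact Finset.sum_congr rfl fun i _ => Finset.sum_congr rfl fun g _ => by rw [hw]
  have h0 : ∀ i, ∑ g, b'.repr x (i, g) = 0 := by
    have h1 : ∑ h, w h • x = ∑ i, ∑ h, (∑ g, b'.repr x (i, g)) • b' (i, h) := by
      have h2 : ∀ h : Dlt p e, w h • x =
          ∑ i, ∑ g, b'.repr x (i, g) • (w h • (w g • b (i, 1))) := by
        intro h
        conv_lhs => rw [hxe]
        rw [Finset.smul_sum]
        refine Finset.sum_congr rfl fun i _ => ?_
        rw [Finset.smul_sum]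
        exact Finset.sum_congr rfl fun g _ => smul_comm _ _ _
      simp only [h2]
      rw [Finset.sum_comm]
      refine Finset.sum_congr rfl fun i _ => ?_
      rw [Finset.sum_comm]
      have h3 : ∀ g, ∑ h, b'.repr x (i, g) • (w h • (w g • b (i, 1))) =
          b'.repr x (i, g) • ∑ h, b' (i, h) := by
        intro g
        rw [← Finset.smul_sum, hΨ1]
        congr 1
        exact Finset.sum_congr rfl fun h _ => (hw i h).symm
      simp only [h3]
      rw [← Finset.sum_smul, Finset.smul_sum]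
    rw [hx] at h1
    intro i
    have h4 := congrArg (fun z => b'.repr z (i, 1)) h1
    simp only [map_zero, Finsupp.zero_apply, ← Fintype.sum_prod_type
      (f := fun z : Fin d × Dlt p e => (∑ g, b'.repr x (z.1, g)) • b' z)] at h4
    rw [b'.repr_sum_self] at h4
    exact h4.symm
  rw [hxe]
  refine Submodule.sum_mem _ fun i _ => ?_
  have h5 : ∑ g, b'.repr x (i, g) • (w g • b (i, 1)) =
      ∑ g, (w g - 1) • (b'.repr x (i, g) • b (i, 1)) := by
    have h6 : ∑ g, (w g - 1) • (b'.repr x (i, g) • b (i, 1)) =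
        ∑ g, b'.repr x (i, g) • (w g • b (i, 1)) - (∑ g, b'.repr x (i, g)) • b (i, 1) := by
      rw [Finset.sum_smul, ← Finset.sum_sub_distrib]
      exact Finset.sum_congr rfl fun g _ => by rw [sub_smul, one_smul, smul_comm]
    rw [h6, h0, zero_smul, sub_zero]
  rw [h5]
  refine Submodule.sum_mem _ fun g _ => Submodule.smul_mem_smul ?_ trivial
  rw [← Ideal.Quotient.eq_zero_iff_mem, map_sub, map_one, sub_eq_zero]
  simp only [w, map_prod, map_pow, map_add, map_one]
  refine Finset.prod_eq_one fun j _ => ?_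
  have h7 : Ideal.Quotient.mk (Ideal.span (Set.range fun j => φ (MvPowerSeries.X j)))
      (φ (MvPowerSeries.X j)) = 0 :=
    Ideal.Quotient.eq_zero_iff_mem.mpr (Ideal.subset_span ⟨j, rfl⟩)
  rw [h7, add_zero, one_pow]

/-- **The module part of a level of the non-minimal endgame.** -/
theorem exists_nmModPart [IsReduced 𝕋] [IsAdicComplete (maximalIdeal R) R]
    {ϖ : O} {r n D m : ℕ} {T : Type} {prodElt uniElt : T → R}
    (π : R →ₐ[O] 𝕋) (e : Fin r → ℕ) (hne : ∀ j, n ≤ e j)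
    (c : Fin r → R) (hcm : ∀ j, c j ∈ maximalIdeal R) (hc : ∀ j, (1 + c j) ^ (p ^ e j) = 1)
    -- the module with characters
    {M : Type} [AddCommGroup M] [Module O M] [Module.Finite O M] [Module.Free O M]
    (Φ : 𝕋 →ₐ[O] Module.End O M) (Ψ : Dlt p e →* Module.End O M)
    (hΦΨ : ∀ t g, Φ t * Ψ g = Ψ g * Φ t)
    {d : ℕ} (hd0 : 0 < d) (hdD : d ≤ D)
    (b : Module.Basis (Fin d × Dlt p e) O M) (hb : ∀ i g, b (i, g) = Ψ g (b (i, 1)))
    (hEA1 : ForallEigen Φ fun O' _ _ _ _ _ _ _ _ _ lam x =>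
      ∀ χ : Dlt p e →* O', (∀ g, (Ψ g).baseChange O' x = χ g • x) →
        ((∀ g, χ g = 1) ↔ ∀ j, lam (π (1 + c j)) = 1))
    (hEA2 : ∀ t, ForallEigen Φ fun _ _ _ _ _ _ _ _ _ _ lam _ => lam (π (prodElt t)) = 0)
    -- the unipotent module
    {M₁ : Type} [AddCommGroup M₁] [Module O M₁] [Module.Finite O M₁] [Module.Free O M₁]
    (Φ₁ : 𝕋 →ₐ[O] Module.End O M₁) (Ψ₁ : Dlt p e →* Module.End O M₁)
    (hΦΨ₁ : ∀ t g, Φ₁ t * Ψ₁ g = Ψ₁ g * Φ₁ t)
    {d₁ : ℕ} (hdD₁ : d₁ ≤ D)
    (b₁ : Module.Basis (Fin d₁ × Dlt p e) O M₁) (hb₁ : ∀ i g, b₁ (i, g) = Ψ₁ g (b₁ (i, 1)))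
    (hEA1₁ : ForallEigen Φ₁ fun O' _ _ _ _ _ _ _ _ _ lam x =>
      ∀ χ : Dlt p e →* O', (∀ g, (Ψ₁ g).baseChange O' x = χ g • x) →
        ((∀ g, χ g = 1) ↔ ∀ j, lam (π (1 + c j)) = 1))
    (hEA3 : ∀ t, ForallEigen Φ₁ fun _ _ _ _ _ _ _ _ _ _ lam _ => lam (π (uniElt t)) = 0)
    -- the congruence between the two modules
    {Y : Type} [AddCommGroup Y]
    (g : M →+ Y) (hg : Function.Surjective g) (hgk : ∀ x, g x = 0 ↔ ∃ y, x = ϖ • y)
    (g₁ : M₁ →+ Y) (hg₁ : Function.Surjective g₁) (hgk₁ : ∀ x, g₁ x = 0 ↔ ∃ y, x = ϖ • y)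
    (hgg : ∀ t x y, g x = g₁ y → g (Φ t x) = g₁ (Φ₁ t y))
    -- the point
    (pt : R →ₐ[O] O) (hpt : ∀ j, pt (c j) = 0) (hptu : ∀ t, pt (uniElt t) = 0)
    (f : R) (hEA4 : ForallEigen Φ₁ fun O' _ _ _ _ _ _ _ _ _ lam x =>
      (∀ g, (Ψ₁ g).baseChange O' x = x) → lam (π f) = 0)
    (hf : pt f ∉ Ideal.span {ϖ ^ m}) :
    Nonempty (NMModPart O ϖ p r n D m R prodElt uniElt) := by
  classical
  obtain ⟨φ, hφ⟩ := Fermat.Agent.H56.exists_mvPowerSeries_eval (O := O) (maximalIdeal R) c hcm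
  obtain ⟨bb, hbs, hbr, -⟩ := exists_pres π e c hc φ hφ Φ Ψ hΦΨ b hb hEA1
  obtain ⟨bb₁, hbs₁, hbr₁, hbf⟩ := exists_pres π e c hc φ hφ Φ₁ Ψ₁ hΦΨ₁ b₁ hb₁ hEA1₁
  letI i1 : Module R M := modOf π Φ
  letI i2 : Module R M₁ := modOf π Φ₁
  have hsm : ∀ (a : R) (x : M), a • x = Φ (π a) x := fun _ _ => rfl
  have hsm₁ : ∀ (a : R) (x : M₁), a • x = Φ₁ (π a) x := fun _ _ => rfl
  haveI : IsScalarTower O R M := ⟨fun a s x => by
    rw [hsm, hsm, map_smul, map_smul]
    rfl⟩
  haveI : IsScalarTower O R M₁ := ⟨fun a s x => by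
    rw [hsm₁, hsm₁, map_smul, map_smul]
    rfl⟩
  have hOsm : ∀ (a : O) (x : M), algebraMap O R a • x = a • x := fun a x => algebraMap_smul R a x
  have hOsm₁ : ∀ (a : O) (x : M₁), algebraMap O R a • x = a • x :=
    fun a x => algebraMap_smul R a x
  refine ⟨{ M₀ := M
            M₁ := M₁
            d₀ := d
            d₁ := d₁
            d₀_pos := hd0
            d₀_le := hdD
            d₁_le := hdD₁
            e := e
            le_e := hne
            φ := φ
            φ_mem := fun j => by rw [hφ]; exact hcm j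
            b₀ := bb
            b₀_span := hbs
            b₀_rel := hbr
            b₁ := bb₁
            b₁_span := hbs₁
            b₁_rel := hbr₁
            prod_smul := fun t x => by
              rw [hsm, map_eq_zero_of_eigen Φ _ (hEA2 t)]
              rfl
            uni_smul := fun t x => by
              rw [hsm₁, map_eq_zero_of_eigen Φ₁ _ (hEA3 t)]
              rfl
            iso := exists_iso (algebraMap O R ϖ) g hg
              (fun x => by simp only [hOsm]; exact hgk x) g₁ hg₁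
              (fun x => by simp only [hOsm₁]; exact hgk₁ x)
              fun t x y h => hgg (π t) x y h
            pt := pt
            pt_φ := fun j => by rw [hφ]; exact hpt j
            pt_uni := hptu
            f := f
            f_smul := fun x => hbf _ (map_norm_eq_zero Φ₁ Ψ₁ hΦΨ₁ (π f) hEA4 x)
            f_pt := hf }⟩

end Main

end Fermat.Agent.H69.EG
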