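/-
The module part of a level of the full endgame (`Fermat.Agent.H57.Full.FullLevel`).
-/
import Fermat.Agent.H69NMMod
import Fermat.Agent.H57FullLevel

set_option autoImplicit false
set_option linter.style.haveILetI false
set_option linter.unusedSectionVars false

namespace Fermat.Agent.H69.EG

open IsLocalRing Fermat.Agent.H69.KP Fermat.Agent.H59 TensorProduct Fermat.Agent.H57.NM
  Fermat.Agent.H57.Full

/-- The module part of a level of the full endgame over `R`: `prodElt t` are the elements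
which must kill the module with characters, `uniElt t` those which must kill the unipotent
modules, `y i 0`, `y i 1`, `y i 2` are the marks at the non-scalar primes. -/
structure FullModPart (O : Type) [CommRing O] [IsLocalRing O] (ϖ c' : O) (p r n D m s : ℕ)
    {T : Type} (R : Type) [CommRing R] [IsLocalRing R] [Algebra O R] (prodElt uniElt : T → R)
    (y : Fin s → Fin 3 → R) (cb : Fin s → O) : Type 1 where
  /-- the modules -/
  N : MIdx s → Type
  [instAddCommGroup : ∀ τ, AddCommGroup (N τ)]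
  [instModule : ∀ τ, Module R (N τ)]
  /-- the ranks -/
  d : MIdx s → ℕ
  d_pos : 0 < d .chi
  d_le : ∀ τ, d τ ≤ D
  /-- the exponents of the diamond group -/
  e : Fin r → ℕ
  le_e : ∀ j, n ≤ e j
  /-- the diamond operators (through the Galois side) -/
  φ : MvPowerSeries (Fin r) O →ₐ[O] R
  φ_mem : ∀ j, φ (MvPowerSeries.X j) ∈ maximalIdeal R
  /-- the bases -/
  b : ∀ τ, Fin (d τ) → N τ
  b_span : ∀ τ (x : N τ), ∃ c : Fin (d τ) → MvPowerSeries (Fin r) O, x = ∑ i, φ (c i) • b τ i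
  b_rel : ∀ τ (c : Fin (d τ) → MvPowerSeries (Fin r) O), ∑ i, φ (c i) • b τ i = 0 ↔
    ∀ i, c i ∈ twIdeal O (fun j => p ^ e j)
  prod_smul : ∀ t (x : N .chi), prodElt t • x = 0
  uni_smul : ∀ i t (x : N (.mod i)), uniElt t • x = 0
  chi_nr : ∀ i (x : N .chi), y i 1 • x = 0 ∧ y i 2 • x = 0
  mod_nr : ∀ (i : Fin (s + 1)) (j : Fin s), (i : ℕ) ≤ j → ∀ x : N (.mod i),
    y j 1 • x = 0 ∧ y j 2 • x = 0
  mod_uni : ∀ (i : Fin (s + 1)) (j : Fin s), (j : ℕ) < i → ∀ x : N (.mod i),
    (y j 1 * y j 0) • x = 0 ∧ (y j 2 * (y j 0 + algebraMap O R (cb j))) • x = 0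
  new_smul : ∀ (i : Fin s) (x : N (.new i)),
    ((y i 0 * (y i 0 + algebraMap O R (cb i))) ^ 2) • x = 0
  iso : Nonempty ((N .chi ⧸ (Ideal.span {algebraMap O R ϖ} • ⊤ : Submodule R (N .chi))) ≃ₗ[R]
    (N (.mod 0) ⧸ (Ideal.span {algebraMap O R ϖ} • ⊤ : Submodule R (N (.mod 0)))))
  /-- the quotient map to the new part -/
  quo : ∀ i : Fin s, N (.mod i.succ) →ₗ[R] N (.new i)
  quo_surj : ∀ i, Function.Surjective (quo i)
  /-- the map to lower level -/
  low : ∀ i : Fin s, N (.mod i.succ) →ₗ[R] N (.mod i.castSucc)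
  low_surj : ∀ i (a : N (.mod i.castSucc)), ∃ x, low i x = algebraMap O R c' • a
  low_old : ∀ i x, quo i x = 0 → ∃ a, low i x = y i 0 • a
  /-- the point -/
  pt : R →ₐ[O] O
  pt_φ : ∀ j, pt (φ (MvPowerSeries.X j)) = 0
  pt_uni : ∀ t, pt (uniElt t) = 0
  pt_t : ∀ i, pt (y i 0) = 0
  pt_z : ∀ i, pt (y i 2) = 0
  /-- the witness of non-modularity -/
  f : R
  f_smul : ∀ x : N (.mod (Fin.last s)), f • x ∈
    (Ideal.span (Set.range fun j => φ (MvPowerSeries.X j)) • ⊤ :
      Submodule R (N (.mod (Fin.last s))))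
  f_pt : pt f ∉ Ideal.span {ϖ ^ m}

attribute [local instance] RPart.instCommRing RPart.instLocal RPart.instAlgebra

/-- combine ring part and module part -/
def FullModPart.toLevel {O : Type} [CommRing O] [IsLocalRing O] {ϖ c' : O} {p r n D m s : ℕ}
    {T : Type} {B : Type} [CommRing B] [Algebra O B] {X : T → Fin 6 → B}
    {Y : Fin s → Fin 3 → B} {q : T → ℕ} {v : T → O} {Z : T → Finset Oˣ} {cb : Fin s → O}
    (P : RPart O B X q v)
    (mp : FullModPart O ϖ c' p r n D m s P.R
      (fun t => ∏ ζ ∈ Z t, (P.Sg t 0 0 + P.Sg t 1 1 - algebraMap O P.R ((ζ : O) + (ζ⁻¹ : Oˣ))))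
      (fun t => P.Sg t 0 0 + P.Sg t 1 1 - 2) (fun i j => P.β (Y i j)) cb) :
    FullLevel O ϖ c' p r n D m s B X Y q v Z cb :=
  { P with
    N := mp.N
    instAddCommGroup := mp.instAddCommGroup
    instModule := mp.instModule
    d := mp.d
    d_pos := mp.d_pos
    d_le := mp.d_le
    e := mp.e
    le_e := mp.le_e
    φ := mp.φ
    φ_mem := mp.φ_mem
    b := mp.b
    b_span := mp.b_span
    b_rel := mp.b_rel
    prod_smul := mp.prod_smul
    uni_smul := mp.uni_smul
    chi_nr := mp.chi_nr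
    mod_nr := mp.mod_nr
    mod_uni := fun i j h x => by
      rw [map_mul, map_mul, map_add, AlgHom.commutes]
      exact mp.mod_uni i j h x
    new_smul := fun i x => by
      rw [map_pow, map_mul, map_add, AlgHom.commutes]
      exact mp.new_smul i x
    iso := mp.iso
    quo := mp.quo
    quo_surj := mp.quo_surj
    low := mp.low
    low_surj := mp.low_surj
    low_old := mp.low_old
    pt := mp.pt
    pt_φ := mp.pt_φ
    pt_uni := fun t => by
      have h := mp.pt_uni t
      rwa [map_sub, sub_eq_zero, map_ofNat] at h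
    pt_t := mp.pt_t
    pt_z := mp.pt_z
    f := mp.f
    f_smul := mp.f_smul
    f_pt := mp.f_pt }

/-- A Hecke module with diamond operators, free over the group ring of the diamond group. -/
structure EMod (O : Type) [CommRing O] (p : ℕ) {r : ℕ} (e : Fin r → ℕ) (𝕋 : Type)
    [CommRing 𝕋] [Algebra O 𝕋] : Type 1 where
  /-- the module -/
  M : Type
  [instAddCommGroup : AddCommGroup M]
  [instModule : Module O M]
  [instFinite : Module.Finite O M]
  [instFree : Module.Free O M]
  /-- the Hecke action -/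
  Φ : 𝕋 →ₐ[O] Module.End O M
  /-- the diamond operators -/
  Ψ : Dlt p e →* Module.End O M
  comm : ∀ t g, Φ t * Ψ g = Ψ g * Φ t
  /-- the rank over the group ring -/
  d : ℕ
  /-- the basis -/
  b : Module.Basis (Fin d × Dlt p e) O M
  b_apply : ∀ i g, b (i, g) = Ψ g (b (i, 1))

attribute [instance] EMod.instAddCommGroup EMod.instModule EMod.instFinite EMod.instFree

section Main

variable {O : Type} [CommRing O] [IsDomain O] [IsDiscreteValuationRing O]
  [IsAdicComplete (maximalIdeal O) O] [Finite (ResidueField O)] [CharZero O]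
  {p : ℕ} [Fact p.Prime] [CharP (ResidueField O) p]
  {R : Type} [CommRing R] [IsLocalRing R] [Algebra O R]
  {𝕋 : Type} [CommRing 𝕋] [Algebra O 𝕋]

/-- the diamond operators are given by the Galois side on eigenvectors -/
def EMod.Compat {r : ℕ} {e : Fin r → ℕ} (E : EMod O p e 𝕋) (π : R →ₐ[O] 𝕋) (c : Fin r → R) :
    Prop :=
  ForallEigen E.Φ fun O' _ _ _ _ _ _ _ _ _ lam x =>
    ∀ χ : Dlt p e →* O', (∀ g, (E.Ψ g).baseChange O' x = χ g • x) →
      ((∀ g, χ g = 1) ↔ ∀ j, lam (π (1 + c j)) = 1)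

variable [Module.Finite O 𝕋]

/-- an element which vanishes on all eigensystems kills the module -/
lemma EMod.map_eq_zero [IsReduced 𝕋] {r : ℕ} {e : Fin r → ℕ} (E : EMod O p e 𝕋) (t : 𝕋)
    (h : ForallEigen E.Φ fun _ _ _ _ _ _ _ _ _ _ lam _ => lam t = 0) : E.Φ t = 0 :=
  map_eq_zero_of_eigen E.Φ t h

/-- the hypothesis `hnew` of `exists_fullModPart` in terms of eigensystems -/
lemma EMod.new_smul_of_eigen [IsReduced 𝕋] {r : ℕ} {e : Fin r → ℕ} (E : EMod O p e 𝕋)
    (π : R →ₐ[O] 𝕋) (t : R) (c : O)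
    (h : ForallEigen E.Φ fun O' _ _ _ _ _ _ _ _ _ lam _ =>
      lam (π t) * (lam (π t) + algebraMap O O' c) = 0) (x : E.M) :
    E.Φ (π ((t * (t + algebraMap O R c)) ^ 2)) x = 0 := by
  rw [E.map_eq_zero]
  · rfl
  · intro O' _ _ _ _ _ _ _ _ _ hO lam z hz hl
    rw [map_pow, map_mul, map_add, AlgHom.commutes, map_pow, map_mul, map_add, AlgHom.commutes,
      h O' hO lam z hz hl]
    exact zero_pow two_ne_zero

/-- **The module part of a level of the full endgame.** -/
theorem exists_fullModPart [IsReduced 𝕋] [IsAdicComplete (maximalIdeal R) R]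
    {ϖ c' : O} {r n D m s : ℕ} {T : Type} {prodElt uniElt : T → R} {y : Fin s → Fin 3 → R}
    {cb : Fin s → O}
    (π : R →ₐ[O] 𝕋) (e : Fin r → ℕ) (hne : ∀ j, n ≤ e j)
    (c : Fin r → R) (hcm : ∀ j, c j ∈ maximalIdeal R) (hc : ∀ j, (1 + c j) ^ (p ^ e j) = 1)
    -- the modules
    (E : MIdx s → EMod O p e 𝕋) (hd0 : 0 < (E .chi).d) (hdD : ∀ τ, (E τ).d ≤ D)
    (hEA1 : ∀ τ, (E τ).Compat π c)
    (hprod : ∀ t, ForallEigen (E .chi).Φ fun _ _ _ _ _ _ _ _ _ _ lam _ =>
      lam (π (prodElt t)) = 0)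
    (huni : ∀ i t, ForallEigen (E (.mod i)).Φ fun _ _ _ _ _ _ _ _ _ _ lam _ =>
      lam (π (uniElt t)) = 0)
    (hchi : ∀ i, ForallEigen (E .chi).Φ fun _ _ _ _ _ _ _ _ _ _ lam _ =>
      lam (π (y i 1)) = 0 ∧ lam (π (y i 2)) = 0)
    (hnr : ∀ (i : Fin (s + 1)) (j : Fin s), (i : ℕ) ≤ j →
      ForallEigen (E (.mod i)).Φ fun _ _ _ _ _ _ _ _ _ _ lam _ =>
        lam (π (y j 1)) = 0 ∧ lam (π (y j 2)) = 0)
    (hun : ∀ (i : Fin (s + 1)) (j : Fin s), (j : ℕ) < i →
      ForallEigen (E (.mod i)).Φ fun O' _ _ _ _ _ _ _ _ _ lam _ =>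
        lam (π (y j 1)) * lam (π (y j 0)) = 0 ∧
        lam (π (y j 2)) * (lam (π (y j 0)) + algebraMap O O' (cb j)) = 0)
    (hnew : ∀ (i : Fin s) (x : (E (.new i)).M),
      (E (.new i)).Φ (π ((y i 0 * (y i 0 + algebraMap O R (cb i))) ^ 2)) x = 0)
    -- the congruence between the module with characters and the unipotent module
    {Y : Type} [AddCommGroup Y]
    (g : (E .chi).M →+ Y) (hg : Function.Surjective g) (hgk : ∀ x, g x = 0 ↔ ∃ y, x = ϖ • y)
    (g₁ : (E (.mod 0)).M →+ Y) (hg₁ : Function.Surjective g₁)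
    (hgk₁ : ∀ x, g₁ x = 0 ↔ ∃ y, x = ϖ • y)
    (hgg : ∀ t x y, g x = g₁ y → g ((E .chi).Φ t x) = g₁ ((E (.mod 0)).Φ t y))
    -- the quotients and the maps to lower level
    (quo : ∀ i : Fin s, (E (.mod i.succ)).M →+ (E (.new i)).M)
    (hquo : ∀ i t x, quo i ((E (.mod i.succ)).Φ t x) = (E (.new i)).Φ t (quo i x))
    (hquo_surj : ∀ i, Function.Surjective (quo i))
    (low : ∀ i : Fin s, (E (.mod i.succ)).M →+ (E (.mod i.castSucc)).M)
    (hlow : ∀ i t x, low i ((E (.mod i.succ)).Φ t x) = (E (.mod i.castSucc)).Φ t (low i x))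
    (hlow_surj : ∀ i a, ∃ x, low i x = c' • a)
    (hlow_old : ∀ i x, quo i x = 0 →
      ∃ a, low i x = (E (.mod i.castSucc)).Φ (π (y i 0)) a)
    -- the point
    (pt : R →ₐ[O] O) (hpt : ∀ j, pt (c j) = 0) (hptu : ∀ t, pt (uniElt t) = 0)
    (hptt : ∀ i, pt (y i 0) = 0) (hptz : ∀ i, pt (y i 2) = 0)
    (f : R) (hEA4 : ForallEigen (E (.mod (Fin.last s))).Φ fun O' _ _ _ _ _ _ _ _ _ lam x =>
      (∀ g, ((E (.mod (Fin.last s))).Ψ g).baseChange O' x = x) → lam (π f) = 0)
    (hf : pt f ∉ Ideal.span {ϖ ^ m}) :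
    Nonempty (FullModPart O ϖ c' p r n D m s R prodElt uniElt y cb) := by
  classical
  obtain ⟨φ, hφ⟩ := Fermat.Agent.H56.exists_mvPowerSeries_eval (O := O) (maximalIdeal R) c hcm
  have key := fun τ => exists_pres π e c hc φ hφ (E τ).Φ (E τ).Ψ (E τ).comm (E τ).b
    (E τ).b_apply (hEA1 τ)
  letI iM : ∀ τ, Module R (E τ).M := fun τ => modOf π (E τ).Φ
  choose bb hbs hbr hbf using key
  have hsm : ∀ τ (a : R) (x : (E τ).M), a • x = (E τ).Φ (π a) x := fun _ _ _ => rfl
  haveI : ∀ τ, IsScalarTower O R (E τ).M := fun τ => ⟨fun a s x => by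
    rw [hsm, hsm, map_smul, map_smul]
    rfl⟩
  have hOsm : ∀ τ (a : O) (x : (E τ).M), algebraMap O R a • x = a • x :=
    fun τ a x => algebraMap_smul R a x
  have hkill : ∀ τ (a : R), (ForallEigen (E τ).Φ fun _ _ _ _ _ _ _ _ _ _ lam _ =>
      lam (π a) = 0) → ∀ x : (E τ).M, a • x = 0 := by
    intro τ a h x
    rw [hsm, map_eq_zero_of_eigen (E τ).Φ _ h]
    rfl
  exact ⟨
    { N := fun τ => (E τ).M
      d := fun τ => (E τ).d
      d_pos := hd0
      d_le := hdD
      e := e
      le_e := hne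
      φ := φ
      φ_mem := fun j => by rw [hφ]; exact hcm j
      b := bb
      b_span := hbs
      b_rel := hbr
      prod_smul := fun t x => hkill .chi _ (hprod t) x
      uni_smul := fun i t x => hkill (.mod i) _ (huni i t) x
      chi_nr := fun i x => ⟨hkill .chi _ (fun O' _ _ _ _ _ _ _ _ _ h lam z hz hl =>
          (hchi i O' h lam z hz hl).1) x,
        hkill .chi _ (fun O' _ _ _ _ _ _ _ _ _ h lam z hz hl =>
          (hchi i O' h lam z hz hl).2) x⟩
      mod_nr := fun i j hij x => ⟨hkill (.mod i) _ (fun O' _ _ _ _ _ _ _ _ _ h lam z hz hl =>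
          (hnr i j hij O' h lam z hz hl).1) x,
        hkill (.mod i) _ (fun O' _ _ _ _ _ _ _ _ _ h lam z hz hl =>
          (hnr i j hij O' h lam z hz hl).2) x⟩
      mod_uni := fun i j hij x => ⟨hkill (.mod i) _ (fun O' _ _ _ _ _ _ _ _ _ h lam z hz hl => by
          change lam (π (y j 1 * y j 0)) = 0
          rw [map_mul, map_mul]
          exact (hun i j hij O' h lam z hz hl).1) x,
        hkill (.mod i) _ (fun O' _ _ _ _ _ _ _ _ _ h lam z hz hl => by
          change lam (π (y j 2 * (y j 0 + algebraMap O R (cb j)))) = 0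
          rw [map_mul, map_add, AlgHom.commutes, map_mul, map_add, AlgHom.commutes]
          exact (hun i j hij O' h lam z hz hl).2) x⟩
      new_smul := hnew
      iso := exists_iso (algebraMap O R ϖ) g hg
        (fun x => by simp only [hOsm]; exact hgk x) g₁ hg₁
        (fun x => by simp only [hOsm]; exact hgk₁ x)
        fun t x y h => hgg (π t) x y h
      quo := fun i =>
        { toFun := quo i
          map_add' := (quo i).map_add
          map_smul' := fun a x => hquo i (π a) x }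
      quo_surj := hquo_surj
      low := fun i =>
        { toFun := low i
          map_add' := (low i).map_add
          map_smul' := fun a x => hlow i (π a) x }
      low_surj := fun i a => by
        obtain ⟨x, hx⟩ := hlow_surj i a
        exact ⟨x, by rw [hOsm]; exact hx⟩
      low_old := fun i x hx => hlow_old i x hx
      pt := pt
      pt_φ := fun j => by rw [hφ]; exact hpt j
      pt_uni := hptu
      pt_t := hptt
      pt_z := hptz
      f := f
      f_smul := fun x => hbf _ _ (map_norm_eq_zero (E (.mod (Fin.last s))).Φ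
        (E (.mod (Fin.last s))).Ψ (E (.mod (Fin.last s))).comm (π f) hEA4 x)
      f_pt := hf }⟩

end Main

end Fermat.Agent.H69.EG
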