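import Fermat.Agent.H70Lev5

/-!
# The characters at the auxiliary primes
-/

set_option autoImplicit false
set_option linter.style.haveILetI false

open Matrix CongruenceSubgroup IsLocalRing CuspForm
open scoped MatrixGroups TensorProduct

namespace Fermat.Agent.H70.Mod

open Fermat.Agent.H70.Coh Fermat.Agent.H59 Fermat.Agent.H69.EG

/-- the character is trivial on the component at `q` -/
def TrivAt {A : Type*} [Monoid A] (N q : ℕ) (η : (ZMod N)ˣ →* A) : Prop :=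
  ∀ (N₁ : ℕ) (h : N = N₁ * q) (u : (ZMod N)ˣ),
    ZMod.unitsMap (h ▸ Dvd.intro q rfl) u = (1 : (ZMod N₁)ˣ) → η u = 1

section Comp

variable {N : ℕ}

lemma unitsMap_eq_one {N₁ q' : ℕ} {h₁ : N₁ ∣ N} (hq : q' ∣ N₁) (hqN : q' ∣ N) {u : (ZMod N)ˣ}
    (hu : ZMod.unitsMap h₁ u = (1 : (ZMod N₁)ˣ)) : ZMod.unitsMap hqN u = 1 := by
  have h3 : ZMod.unitsMap hqN u = ZMod.unitsMap hq (ZMod.unitsMap h₁ u) := by
    have := ZMod.unitsMap_comp hq h₁
    exact (congrArg (fun f : (ZMod N)ˣ →* (ZMod q')ˣ => f u) this).symm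
  rw [h3, hu, map_one]

lemma dvd_left_of_ne {N₁ q q' : ℕ} (hq : q.Prime) (hq' : q'.Prime) (hne : q' ≠ q)
    (h : N = N₁ * q) (hd : q' ∣ N) : q' ∣ N₁ := by
  rw [h] at hd
  exact ((Nat.coprime_primes hq' hq).mpr hne).dvd_of_dvd_mul_right hd

lemma coprime_of_squarefree (hsq : Squarefree N) {N₁ q : ℕ} (hq : q.Prime) (h : N = N₁ * q) :
    N₁.Coprime q := by
  refine ((Nat.Prime.coprime_iff_not_dvd hq).mpr fun hd => ?_).symm
  rw [h] at hsq
  have h1 := hsq q (Nat.mul_dvd_mul_right hd q)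
  exact hq.one_lt.ne' (Nat.isUnit_iff.mp h1)

end Comp

section Tau

variable {O : Type*} [CommRing O] {p : ℕ}

/-- the homomorphism `ℤ/p → Oˣ` given by a `p`-th root of unity -/
noncomputable def zetaHom (ζ : Oˣ) (hζ : ζ ^ p = 1) : Multiplicative (ZMod p) →* Oˣ :=
  AddMonoidHom.toMultiplicativeLeft
    (ZMod.lift p ⟨zmultiplesHom (Additive Oˣ) (Additive.ofMul ζ), by
      rw [zmultiplesHom_apply, natCast_zsmul, ← ofMul_pow, hζ, ofMul_one]⟩)

lemma zetaHom_ofAdd_one (ζ : Oˣ) (hζ : ζ ^ p = 1) :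
    zetaHom ζ hζ (Multiplicative.ofAdd 1) = ζ := by
  have h1 : (1 : ZMod p) = ((1 : ℤ) : ZMod p) := by norm_num
  have h2 : ZMod.lift p ⟨zmultiplesHom (Additive Oˣ) (Additive.ofMul ζ), by
      rw [zmultiplesHom_apply, natCast_zsmul, ← ofMul_pow, hζ, ofMul_one]⟩ (1 : ZMod p) =
      Additive.ofMul ζ := by
    rw [h1, ZMod.lift_coe]
    change (zmultiplesHom (Additive Oˣ)) (Additive.ofMul ζ) 1 = _
    rw [zmultiplesHom_apply, one_zsmul]
  exact congrArg Additive.toMul h2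

lemma zetaHom_pow (ζ : Oˣ) (hζ : ζ ^ p = 1) (a : Multiplicative (ZMod p)) :
    (zetaHom ζ hζ a) ^ p = 1 := by
  rw [← map_pow]
  have h1 : a ^ p = 1 := by
    apply Multiplicative.toAdd.injective
    rw [toAdd_pow, toAdd_one, nsmul_eq_mul, CharP.cast_eq_zero, zero_mul]
  rw [h1, map_one]

/-- **The character at the primes of `T`.** -/
theorem exists_tau {N : ℕ} [NeZero N] (hsq : Squarefree N) {T : Type} [Finite T] (qT : T → ℕ)
    (hqT : ∀ t, (qT t).Prime) (hinj : Function.Injective qT) (hdvd : ∀ t, qT t ∣ N)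
    (hp : ∀ t, p ∣ qT t - 1) (ζ : Oˣ) (hζ : ζ ^ p = 1) (hζ1 : ζ ≠ 1) :
    ∃ τ : (ZMod N)ˣ →* Oˣ, τ ^ p = 1 ∧ (∀ t, ¬ TrivAt N (qT t) τ) ∧
      ∀ q : ℕ, q.Prime → (∀ t, qT t ≠ q) → TrivAt N q τ := by
  classical
  haveI := Fintype.ofFinite T
  choose v hv using fun t => exists_pchar (hqT t) (hp t)
  let τ : (ZMod N)ˣ →* Oˣ := ∏ t, (zetaHom ζ hζ).comp ((v t).comp (ZMod.unitsMap (hdvd t)))
  have hτ : ∀ u, τ u = ∏ t, zetaHom ζ hζ (v t (ZMod.unitsMap (hdvd t) u)) := fun u => by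
    rw [MonoidHom.finsetProd_apply]
    rfl
  refine ⟨τ, ?_, fun t hT => ?_, fun q hq hne N₁ h u hu => ?_⟩
  · ext1 u
    rw [MonoidHom.pow_apply, hτ, ← Finset.prod_pow, MonoidHom.one_apply]
    exact Finset.prod_eq_one fun t _ => zetaHom_pow ζ hζ _
  · obtain ⟨N₁, h⟩ := hdvd t
    rw [mul_comm] at h
    have hN₁ : N₁ ≠ 0 := by
      rintro rfl
      exact NeZero.ne N (by rw [h, zero_mul])
    haveI : NeZero N₁ := ⟨hN₁⟩
    haveI : NeZero (qT t) := ⟨(hqT t).ne_zero⟩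
    obtain ⟨b, hb⟩ := hv t (Multiplicative.ofAdd 1)
    have hcop := coprime_of_squarefree hsq (hqT t) h
    subst h
    obtain ⟨u, hu1, hu2⟩ := exists_unit_component hcop 1 b
    have h1 := hT N₁ rfl u hu1
    rw [hτ, Finset.prod_eq_single t] at h1
    · rw [hu2, hb, zetaHom_ofAdd_one] at h1
      exact hζ1 h1
    · intro t' _ hne
      rw [unitsMap_eq_one (dvd_left_of_ne (hqT t) (hqT t') (hinj.ne hne) rfl (hdvd t')) (hdvd t')
        hu1, map_one, map_one]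
    · intro h2
      exact absurd (Finset.mem_univ t) h2
  · rw [hτ]
    refine Finset.prod_eq_one fun t _ => ?_
    rw [unitsMap_eq_one (dvd_left_of_ne hq (hqT t) (hne t) h (hdvd t)) (hdvd t) hu, map_one,
      map_one]

end Tau

section EtaL

variable {O : Type} [CommRing O] {p r : ℕ} {e : Fin r → ℕ} {N : ℕ} {Q : Fin r → ℕ}
  (hQN : ∀ j, Q j ∣ N) (u : ∀ j, (ZMod (Q j))ˣ →* Multiplicative (ZMod (p ^ e j)))

/-- the character with values in the group ring -/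
noncomputable def etaL (τ : (ZMod N)ˣ →* Oˣ) : (ZMod N)ˣ →* (MonoidAlgebra O (Dlt p e))ˣ :=
  ((MonoidAlgebra.of O (Dlt p e)).toHomUnits.comp (etaU hQN u)) *
    (Units.map (algebraMap O (MonoidAlgebra O (Dlt p e)) : O →* _)).comp τ

lemma etaL_val (τ : (ZMod N)ˣ →* Oˣ) (a : (ZMod N)ˣ) :
    ((etaL hQN u τ a : (MonoidAlgebra O (Dlt p e))ˣ) : MonoidAlgebra O (Dlt p e)) =
      MonoidAlgebra.of O (Dlt p e) (etaU hQN u a) * algebraMap O _ ((τ a : Oˣ) : O) := rfl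

lemma psiMap_etaL {O' : Type} [CommRing O'] [Algebra O O'] (τ : (ZMod N)ˣ →* Oˣ)
    (χ : Dlt p e →* O'ˣ) (a : (ZMod N)ˣ) :
    psiMap (evC (O := O) χ).toRingHom (etaL hQN u τ) a =
      χ (etaU hQN u a) * Units.map (algebraMap O O' : O →* O') (τ a) := by
  apply Units.ext
  rw [psiMap_apply, etaL_val, map_mul, Units.val_mul]
  congr 1
  · exact evC_of χ _
  · exact (evC (O := O) χ).commutes _

lemma etaU_pow {s : ℕ} (hs : ∀ j, e j ≤ s) (a : (ZMod N)ˣ) : (etaU hQN u a) ^ p ^ s = 1 := by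
  funext j
  rw [Pi.pow_apply, Pi.one_apply]
  apply Multiplicative.toAdd.injective
  rw [toAdd_pow, toAdd_one, nsmul_eq_mul]
  have h1 : ((p ^ s : ℕ) : ZMod (p ^ e j)) = 0 := by
    rw [ZMod.natCast_eq_zero_iff]
    exact pow_dvd_pow p (hs j)
  rw [h1, zero_mul]

lemma etaL_pow {s : ℕ} (hs : ∀ j, e j ≤ s) {τ : (ZMod N)ˣ →* Oˣ} (hτ : τ ^ p ^ s = 1) :
    (etaL hQN u τ) ^ p ^ s = 1 := by
  ext1 a
  rw [MonoidHom.pow_apply, MonoidHom.one_apply]
  change (((MonoidAlgebra.of O (Dlt p e)).toHomUnits (etaU hQN u a)) *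
    Units.map (algebraMap O (MonoidAlgebra O (Dlt p e)) : O →* _) (τ a)) ^ p ^ s = 1
  have h1 : (τ a) ^ p ^ s = 1 := congrArg (fun f : (ZMod N)ˣ →* Oˣ => f a) hτ
  have h2 : (MonoidAlgebra.of O (Dlt p e)).toHomUnits (etaU hQN u a) ^ p ^ s = 1 := by
    rw [← map_pow, etaU_pow hQN u hs, map_one]
  rw [mul_pow, h2, ← map_pow, h1, map_one, mul_one]

/-- congruence of the characters -/
lemma etaL_sub (τ : (ZMod N)ˣ →* Oˣ) (ϖ : O) (hτ : ∀ a, ϖ ∣ ((τ a : Oˣ) : O) - 1)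
    (a : (ZMod N)ˣ) : ∃ r : MonoidAlgebra O (Dlt p e),
      ((etaL hQN u 1 a : (MonoidAlgebra O (Dlt p e))ˣ) : MonoidAlgebra O (Dlt p e)) -
      ((etaL hQN u τ a : (MonoidAlgebra O (Dlt p e))ˣ) : MonoidAlgebra O (Dlt p e)) = ϖ • r := by
  obtain ⟨c, hc⟩ := hτ a
  refine ⟨MonoidAlgebra.of O (Dlt p e) (etaU hQN u a) * algebraMap O _ (-c), ?_⟩
  rw [etaL_val, etaL_val, Algebra.smul_def, MonoidHom.one_apply, Units.val_one, ← mul_sub,
    ← map_sub, mul_left_comm, ← map_mul]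
  congr 2
  linear_combination -hc

lemma etaL_sq_sub (τ : (ZMod N)ˣ →* Oˣ) (ϖ : O) (hτ : ∀ a, ϖ ∣ ((τ a : Oˣ) : O) - 1)
    (a : (ZMod N)ˣ) : ∃ r : MonoidAlgebra O (Dlt p e),
      ((((etaL hQN u 1) ^ 2) a : (MonoidAlgebra O (Dlt p e))ˣ) : MonoidAlgebra O (Dlt p e)) -
      ((((etaL hQN u τ) ^ 2) a : (MonoidAlgebra O (Dlt p e))ˣ) : MonoidAlgebra O (Dlt p e)) =
        ϖ • r := by
  obtain ⟨c, hc⟩ := etaL_sub hQN u τ ϖ hτ a
  rw [MonoidHom.pow_apply, MonoidHom.pow_apply, Units.val_pow_eq_pow_val,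
    Units.val_pow_eq_pow_val]
  refine ⟨c * (((etaL hQN u 1 a : (MonoidAlgebra O (Dlt p e))ˣ) : MonoidAlgebra O (Dlt p e)) +
    ((etaL hQN u τ a : (MonoidAlgebra O (Dlt p e))ˣ) : MonoidAlgebra O (Dlt p e))), ?_⟩
  rw [← smul_mul_assoc, ← hc]
  ring

end EtaL

section Triv

variable {O O' : Type} [CommRing O] [CommRing O'] [Algebra O O'] {p r : ℕ}
  {e : Fin r → ℕ} {N : ℕ} [NeZero N]
  (hsq : Squarefree N) {Q : Fin r → ℕ} (hQ : ∀ j, (Q j).Prime) (hinj : Function.Injective Q)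
  (hQN : ∀ j, Q j ∣ N) {u : ∀ j, (ZMod (Q j))ˣ →* Multiplicative (ZMod (p ^ e j))}
  (hu : ∀ j, Function.Surjective (u j)) {τ : (ZMod N)ˣ →* Oˣ}

include hsq hinj hu hQ in
/-- the character of the diamond group is trivial iff the local components at the `Q j` are
trivial -/
theorem trivAt_iff (hτ : ∀ j, TrivAt N (Q j) τ) (χ : Dlt p e →* O'ˣ) :
    (∀ j, TrivAt N (Q j) (psiMap (evC (O := O) χ).toRingHom (etaL hQN u τ))) ↔
      ∀ g, χ g = 1 := by
  classical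
  constructor
  · intro h g
    have hg : g = ∏ j, Pi.mulSingle j (g j) := by
      rw [Finset.univ_prod_mulSingle]
    rw [hg, map_prod]
    refine Finset.prod_eq_one fun j _ => ?_
    obtain ⟨b, hb⟩ := hu j (g j)
    obtain ⟨N₁, hN₁⟩ := hQN j
    rw [mul_comm] at hN₁
    have hN₁0 : N₁ ≠ 0 := by
      rintro rfl
      exact NeZero.ne N (by rw [hN₁, zero_mul])
    haveI : NeZero N₁ := ⟨hN₁0⟩
    haveI : NeZero (Q j) := ⟨(hQ j).ne_zero⟩
    have hcop := coprime_of_squarefree hsq (hQ j) hN₁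
    obtain ⟨a, ha1, ha2⟩ : ∃ a : (ZMod N)ˣ,
        ZMod.unitsMap (hN₁ ▸ Dvd.intro (Q j) rfl) a = (1 : (ZMod N₁)ˣ) ∧
        ZMod.unitsMap (hQN j) a = b := by
      subst hN₁
      exact exists_unit_component hcop 1 b
    have h1 := h j N₁ hN₁ a ha1
    have h2 : τ a = 1 := hτ j N₁ hN₁ a ha1
    rw [psiMap_etaL, h2, map_one, mul_one,
      etaU_of_component hQN u hQ hinj hN₁ hcop a ha1, ha2, hb] at h1
    exact h1
  · intro h j N₁ hN₁ a ha
    rw [psiMap_etaL, h, one_mul, hτ j N₁ hN₁ a ha, map_one]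

omit [NeZero N] in
include hQ in
/-- the components at the primes of `T` -/
theorem not_trivAt (hOO' : Function.Injective (algebraMap O O')) {t : ℕ} (ht : t.Prime)
    (hne : ∀ j, Q j ≠ t) (hτ : ¬ TrivAt N t τ) (χ : Dlt p e →* O'ˣ) :
    ¬ TrivAt N t (psiMap (evC (O := O) χ).toRingHom (etaL hQN u τ)) := by
  intro h
  apply hτ
  intro N₁ hN₁ a ha
  have h1 := h N₁ hN₁ a ha
  have h2 : etaU hQN u a = 1 := by
    funext j
    rw [etaU_apply, unitsMap_eq_one (dvd_left_of_ne ht (hQ j) (hne j) hN₁ (hQN j)) (hQN j) ha,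
      map_one]
    rfl
  rw [psiMap_etaL, h2, map_one, one_mul] at h1
  apply Units.ext
  apply hOO'
  rw [Units.val_one, map_one]
  exact congrArg Units.val h1

end Triv

end Fermat.Agent.H70.Mod
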