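import Fermat.Agent.H21MDesc
import Fermat.Agent.H70Lev6
import Fermat.Agent.H69Full

/-!
# The Hecke modules of one level as `EMod`s (helper21)

* `IsModel A ι` : the Hecke module `A : EMod O p e (heckeLocal L S O θ)` is isomorphic to the
  localised module `MLoc` at level `M`, with `M * N ∣ L`.
* `exists_emod` : existence.
-/

set_option autoImplicit false
set_option linter.style.haveILetI false
set_option linter.unusedSectionVars false

open Matrix CongruenceSubgroup IsLocalRing CuspForm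
open scoped MatrixGroups TensorProduct

namespace Fermat.Agent.H21M

open Fermat.Agent.H70.Coh Fermat.Agent.H70.Mod Fermat.Agent.H59 Fermat.Agent.H37.Rank
  Fermat.Agent.H30 Fermat.Agent.H69.EG

set_option synthInstance.maxHeartbeats 400000
set_option maxHeartbeats 1000000

section Model

variable {N M L : ℕ} [NeZero L] (hM : N ∣ M) {S : Set ℕ} (hS : Away M S)
  (hSL : ∀ q : ℕ, q.Prime → q ∣ L → q ∈ S)
  {O : Type} [CommRing O] [IsDomain O] [IsDiscreteValuationRing O]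
  [IsAdicComplete (maximalIdeal O) O]
  {p r : ℕ} {e : Fin r → ℕ} (ψ η : (ZMod N)ˣ →* (MonoidAlgebra O (Dlt p e))ˣ)
  (θ : heckeAlgebra L 2 S →+* ResidueField O) (ee : MvPolynomial (Idx S) O)

/-- the Hecke module `A` is isomorphic to the localised module -/
structure IsModel (A : EMod O p e (heckeLocal L S O θ)) (ι : A.M ≃ₗ[O] MLoc hM hS ψ η ee) :
    Prop where
  Φ : ∀ P x, ι (A.Φ (toLocal L S hSL O θ P) x) = mactO hM hS ψ η ee P (ι x)
  Ψ : ∀ g x, ι (A.Ψ g x) = diam hM hS ψ η ee g (ι x)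

variable {hM hS hSL ψ η θ ee} {A : EMod O p e (heckeLocal L S O θ)}
  {ι : A.M ≃ₗ[O] MLoc hM hS ψ η ee}

lemma IsModel.Φ_symm (h : IsModel hM hS hSL ψ η θ ee A ι) (P : MvPolynomial (Idx S) O)
    (x : MLoc hM hS ψ η ee) :
    ι.symm (mactO hM hS ψ η ee P x) = A.Φ (toLocal L S hSL O θ P) (ι.symm x) := by
  rw [LinearEquiv.symm_apply_eq, h.Φ, LinearEquiv.apply_symm_apply]

lemma IsModel.Ψ_symm (h : IsModel hM hS hSL ψ η θ ee A ι) (g : Dlt p e)
    (x : MLoc hM hS ψ η ee) :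
    ι.symm (diam hM hS ψ η ee g x) = A.Ψ g (ι.symm x) := by
  rw [LinearEquiv.symm_apply_eq, h.Ψ, LinearEquiv.apply_symm_apply]

end Model

section Exists

variable {N M L : ℕ} [NeZero N] [NeZero M] [NeZero L] (hM : N ∣ M) {S : Set ℕ} (hS : Away M S)
  (hSL : ∀ q : ℕ, q.Prime → q ∣ L → q ∈ S)
  {O : Type} [CommRing O] [IsDomain O] [IsDiscreteValuationRing O]
  [IsAdicComplete (maximalIdeal O) O] [CharZero O]
  {p : ℕ} [Fact p.Prime] (hp2 : p ≠ 2) (hpO : (p : O) ∈ maximalIdeal O)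
  {r : ℕ} {e : Fin r → ℕ} {η : (ZMod N)ˣ →* (MonoidAlgebra O (Dlt p e))ˣ}
  (θ : heckeAlgebra L 2 S →+* ResidueField O) {ee : MvPolynomial (Idx S) O}

include hp2 hpO in
/-- **The Hecke module of level `M`.** -/
theorem exists_emod (hsq : Squarefree N)
    (hex : ∀ q : ℕ, q.Prime → q ∣ N → ¬ q * q ∣ M) (hL : M * N ∣ L)
    {s : ℕ} (hη : η ^ p ^ s = 1)
    (hgΛ : Good M (MonoidAlgebra O (Dlt p e))) (hgM : Good M O) (hgL : Good (M * N) O)
    (heΛ : IsLocIdem (tw hM hS (η ^ 2) η) (tw_comm hM hS (η ^ 2) η)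
      (thetaPoly L S hSL O θ) ee)
    (he : ∀ (L' : ℕ) (hL' : Adm S L'), L' ∣ L →
      IsLocIdem (TT O hL') (TT_comm hL') (thetaPoly L S hSL O θ) ee)
    (i₀ : Idx S) (hi₀1 : (L : ℤ) ∣ (i₀.1 : ℤ) - 1)
    (hi₀ : θ (TIdx L S hSL i₀) ≠ 1 + (i₀.1 : ResidueField O)) (hSM : Adm S M) :
    ∃ (A : EMod O p e (heckeLocal L S O θ)) (ι : A.M ≃ₗ[O] MLoc hM hS (η ^ 2) η ee),
      IsModel hM hS hSL (η ^ 2) η θ ee A ι ∧
      A.d = Module.finrank O (Loc (TT O hSM) (TT_comm hSM) ee) := by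
  have hη2 : (η ^ 2) ^ p ^ s = 1 := sq_pow_eq_one hη
  have hp : p.Prime := Fact.out
  have hi₀' : thetaPoly L S hSL O θ (MvPolynomial.X i₀) ≠ 1 + (i₀.1 : ResidueField O) := by
    rw [thetaPoly_X]
    exact hi₀
  obtain ⟨hF, hFin⟩ := mloc_free_O hM hS hp hpO isPGroup_dlt hgΛ (sq_neg_one η) heΛ i₀ hi₀'
    hη2 hη
  obtain ⟨Φ, hΦ⟩ := exists_hecke_act_desc hM hS hSL θ hsq hex hL rfl
    ((hp.odd_of_ne_two hp2).pow (n := s)) hη hgΛ (sq_neg_one η) hgL heΛ he i₀ hi₀1 hi₀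
  obtain ⟨b, hb⟩ := exists_mloc_basis hM hS hp hpO isPGroup_dlt hgΛ (sq_neg_one η) heΛ i₀ hi₀'
    hη2 hη hgM hSM (he M hSM ((Dvd.intro N rfl).trans hL)) rfl
  refine ⟨{ M := MLoc hM hS (η ^ 2) η ee
            Φ := Φ
            Ψ := diam hM hS (η ^ 2) η ee
            comm := fun t g => ?_
            d := _
            b := b
            b_apply := hb }, LinearEquiv.refl O _, ⟨fun P x => ?_, fun g x => rfl⟩, rfl⟩
  · obtain ⟨P, rfl⟩ := toLocal_surjective L S hSL O θ t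
    rw [hΦ]
    exact mactO_diam hM hS (η ^ 2) η P g
  · exact LinearMap.congr_fun (hΦ P) x

end Exists

section Idem

variable {J : Type} [Finite J] {Nf Mf : J → ℕ} [∀ j, NeZero (Mf j)] (hM : ∀ j, Nf j ∣ Mf j)
  {S : Set ℕ} (hS : ∀ j, Away (Mf j) S) {O : Type} [CommRing O]
  [IsLocalRing O] [IsNoetherianRing O] [IsAdicComplete (maximalIdeal O) O]
  {Λ : Type} [CommRing Λ] [Algebra O Λ] [Module.Finite O Λ]
  (hg : ∀ j, Good (Mf j) Λ) {κ : Type} [Field κ] (θ : MvPolynomial (Idx S) O →+* κ)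
  (hθs : ∀ x : κ, ∃ a : O, θ (MvPolynomial.C a) = x)

include hg hθs in
/-- **One idempotent** for a finite family of modules with coefficients in `Λ` and all levels
`L' ∣ L` over `O`. -/
theorem exists_chain_idem {L : ℕ} [NeZero L] (hL : Away L S)
    (ψ η : ∀ j, (ZMod (Nf j))ˣ →* Λˣ) (hψ : ∀ j, ψ j (-1) = 1) :
    ∃ e : MvPolynomial (Idx S) O,
      (∀ j, IsLocIdem (tw (hM j) (hS j) (ψ j) (η j)) (tw_comm (hM j) (hS j) (ψ j) (η j)) θ e) ∧
      ∀ (L' : ℕ) (hL' : Adm S L'), L' ∣ L → IsLocIdem (TT O hL') (TT_comm hL') θ e := by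
  classical
  have hA : ∀ L' : {L' // L' ∈ Nat.divisors L}, Adm S L'.1 := fun L' ℓ hℓ h1 =>
    hL ℓ hℓ (h1.trans (Nat.dvd_of_mem_divisors L'.2))
  haveI i1 : ∀ j, Module.Finite O
      (Module.End Λ (H1 (gam (Nf j) (Mf j) (hM j)) (psiRep (ψ j) Λ))) := fun j => by
    haveI := h1_finite (hM j) (ψ j) (hg j) (hψ j)
    haveI : Module.Finite O (H1 (gam (Nf j) (Mf j) (hM j)) (psiRep (ψ j) Λ)) :=
      Module.Finite.trans Λ _
    exact finite_end (R := Λ)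
  haveI i2 : ∀ L' : {L' // L' ∈ Nat.divisors L}, Module.Finite O (Module.End O (HH O L'.1)) :=
    fun L' => by
      haveI : NeZero L'.1 := ⟨(Nat.pos_of_mem_divisors L'.2).ne'⟩
      exact finite_end (R := O)
  letI r1 : ∀ j, Ring (Module.End Λ (H1 (gam (Nf j) (Mf j) (hM j)) (psiRep (ψ j) Λ))) :=
    fun j => inferInstance
  letI r2 : ∀ L' : {L' // L' ∈ Nat.divisors L}, Ring (Module.End O (HH O L'.1)) :=
    fun L' => inferInstance
  obtain ⟨e, h1, h2⟩ := exists_isLocIdem_pi₂ (O := O)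
    (fun j => Module.End Λ (H1 (gam (Nf j) (Mf j) (hM j)) (psiRep (ψ j) Λ)))
    (fun L' : {L' // L' ∈ Nat.divisors L} => Module.End O (HH O L'.1))
    (fun j => tw (hM j) (hS j) (ψ j) (η j)) (fun L' => TT O (hA L'))
    (fun j => tw_comm (hM j) (hS j) (ψ j) (η j)) (fun L' => TT_comm (hA L')) θ hθs
  exact ⟨e, h1, fun L' hL' hd => h2 ⟨L', Nat.mem_divisors.mpr ⟨hd, NeZero.ne L⟩⟩⟩

end Idem

end Fermat.Agent.H21M
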