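import Mathlib

/-!
# Group algebras of finite `p`-groups over local rings
-/

set_option autoImplicit false
set_option linter.style.haveILetI false

open IsLocalRing

namespace Fermat.Agent.H70.Grp

variable {O Δ : Type} [CommRing O] [CommGroup Δ]

/-- the augmentation -/
noncomputable def aug (O Δ : Type) [CommRing O] [CommGroup Δ] : MonoidAlgebra O Δ →ₐ[O] O :=
  MonoidAlgebra.lift O O Δ 1

@[simp] lemma aug_of (g : Δ) : aug O Δ (MonoidAlgebra.of O Δ g) = 1 := by
  rw [aug, MonoidAlgebra.lift_of]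
  rfl

lemma aug_algebraMap (a : O) : aug O Δ (algebraMap O _ a) = a := (aug O Δ).commutes a

section Local

variable [IsLocalRing O]

/-- the augmentation followed by the residue map -/
noncomputable def resAug (O Δ : Type) [CommRing O] [IsLocalRing O] [CommGroup Δ] :
    MonoidAlgebra O Δ →+* ResidueField O :=
  (residue O).comp (aug O Δ : MonoidAlgebra O Δ →+* O)

lemma resAug_surjective : Function.Surjective (resAug O Δ) := by
  intro x
  obtain ⟨a, rfl⟩ := residue_surjective x
  exact ⟨algebraMap O _ a, by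
    change residue O (aug O Δ (algebraMap O _ a)) = _
    rw [aug_algebraMap]⟩

variable [Finite Δ] {p : ℕ} (hp : p.Prime) (hpm : (p : O) ∈ maximalIdeal O) (hΔ : IsPGroup p Δ)

include hp hpm hΔ in
lemma of_sub_one_mem {I : Ideal (MonoidAlgebra O Δ)} (hI : I.IsMaximal) (g : Δ) :
    MonoidAlgebra.of O Δ g - 1 ∈ I := by
  have h1 : I.comap (algebraMap O (MonoidAlgebra O Δ)) = maximalIdeal O :=
    IsLocalRing.eq_maximalIdeal (Ideal.isMaximal_comap_of_isIntegral_of_isMaximal I)
  have h2 : (algebraMap O (MonoidAlgebra O Δ)) (p : O) ∈ I := by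
    rw [← Ideal.mem_comap, h1]
    exact hpm
  haveI : Fact p.Prime := ⟨hp⟩
  letI := Ideal.Quotient.field I
  haveI : CharP (MonoidAlgebra O Δ ⧸ I) p := by
    rw [CharP.charP_iff_prime_eq_zero hp, ← map_natCast (Ideal.Quotient.mk I),
      Ideal.Quotient.eq_zero_iff_mem]
    rw [map_natCast] at h2
    exact h2
  obtain ⟨k, hk⟩ := hΔ g
  have h3 : (Ideal.Quotient.mk I (MonoidAlgebra.of O Δ g - 1)) ^ p ^ k = 0 := by
    rw [map_sub, sub_pow_char_pow, ← map_pow, ← map_pow, ← map_pow, hk, map_one, one_pow, map_one,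
      sub_self]
  have hpk : p ^ k ≠ 0 := pow_ne_zero _ hp.ne_zero
  exact Ideal.Quotient.eq_zero_iff_mem.mp ((pow_eq_zero_iff hpk).mp h3)

lemma eq_sum (x : MonoidAlgebra O Δ) [Fintype Δ] :
    x = algebraMap O _ (aug O Δ x) + ∑ g : Δ, x.coeff g • (MonoidAlgebra.of O Δ g - 1) := by
  induction x using MonoidAlgebra.induction_on with
  | of g₀ =>
    rw [aug_of, map_one, Finset.sum_eq_single g₀]
    · have : (MonoidAlgebra.of O Δ g₀).coeff g₀ = 1 := by
        simp [MonoidAlgebra.of]
      rw [this, one_smul]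
      ring
    · intro g _ hg
      have : (MonoidAlgebra.of O Δ g₀).coeff g = 0 := by
        simp [MonoidAlgebra.of, Finsupp.single_eq_of_ne hg]
      rw [this, zero_smul]
    · intro h
      exact absurd (Finset.mem_univ _) h
  | add a b ha hb =>
    conv_lhs => rw [ha, hb]
    have : ∀ g, (a + b).coeff g = a.coeff g + b.coeff g := fun g => by
      simp
    simp only [this, add_smul, Finset.sum_add_distrib, map_add]
    abel
  | smul r a ha =>
    conv_lhs => rw [ha]
    have : ∀ g, (r • a).coeff g = r * a.coeff g := fun g => by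
      simp
    simp only [this, mul_smul]
    rw [← Finset.smul_sum, map_smul, smul_eq_mul, map_mul, smul_add, Algebra.smul_def r
      (algebraMap O (MonoidAlgebra O Δ) (aug O Δ a))]

include hp hpm hΔ in
theorem eq_ker {I : Ideal (MonoidAlgebra O Δ)} (hI : I.IsMaximal) :
    I = RingHom.ker (resAug O Δ) := by
  haveI := Fintype.ofFinite Δ
  have h1 : I.comap (algebraMap O (MonoidAlgebra O Δ)) = maximalIdeal O :=
    IsLocalRing.eq_maximalIdeal (Ideal.isMaximal_comap_of_isIntegral_of_isMaximal I)
  have hle : RingHom.ker (resAug O Δ) ≤ I := by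
    intro x hx
    rw [eq_sum x]
    refine I.add_mem ?_ (Ideal.sum_mem _ fun g _ => ?_)
    · rw [← Ideal.mem_comap, h1, ← residue_eq_zero_iff]
      exact RingHom.mem_ker.mp hx
    · rw [Algebra.smul_def]
      exact I.mul_mem_left _ (of_sub_one_mem hp hpm hΔ hI g)
  exact ((RingHom.ker_isMaximal_of_surjective (resAug O Δ) resAug_surjective).eq_of_le
    hI.ne_top hle).symm

include hp hpm hΔ in
theorem isLocalRing : IsLocalRing (MonoidAlgebra O Δ) :=
  IsLocalRing.of_unique_max_ideal ⟨RingHom.ker (resAug O Δ),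
    RingHom.ker_isMaximal_of_surjective (resAug O Δ) resAug_surjective,
    fun _ hI => eq_ker hp hpm hΔ hI⟩

include hp hpm hΔ in
theorem maximalIdeal_eq [IsLocalRing (MonoidAlgebra O Δ)] :
    maximalIdeal (MonoidAlgebra O Δ) = RingHom.ker (resAug O Δ) :=
  eq_ker hp hpm hΔ (maximalIdeal.isMaximal _)

end Local

/-- the basis of a free `O[Δ]`-module over `O` -/
theorem exists_basis {M : Type} [AddCommGroup M] [Module (MonoidAlgebra O Δ) M] [Module O M]
    [IsScalarTower O (MonoidAlgebra O Δ) M] {d : ℕ}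
    (c : Module.Basis (Fin d) (MonoidAlgebra O Δ) M) :
    ∃ b : Module.Basis (Fin d × Δ) O M, ∀ i g, b (i, g) = MonoidAlgebra.of O Δ g • b (i, 1) := by
  refine ⟨((MonoidAlgebra.basis Δ O).smulTower c).reindex (Equiv.prodComm _ _), fun i g => ?_⟩
  rw [Module.Basis.reindex_apply, Module.Basis.reindex_apply]
  change ((MonoidAlgebra.basis Δ O).smulTower c) (g, i) =
    MonoidAlgebra.of O Δ g • ((MonoidAlgebra.basis Δ O).smulTower c) (1, i)
  rw [Module.Basis.smulTower_apply, Module.Basis.smulTower_apply]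
  simp only [MonoidAlgebra.basis_apply]
  have h1 : MonoidAlgebra.single (1 : Δ) (1 : O) = 1 := rfl
  rw [h1, one_smul]
  rfl

end Fermat.Agent.H70.Grp
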