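import Fermat.Agent.H71RMod
import Fermat.Agent.H70Grp
import Fermat.Agent.H62NE

/-!
# Hypotheses of `H71RMod` in the applications (helper71)

* `hOR_self`, `hOR_grp` : the residue field hypothesis for `R = O` and `R = O[Δ]`, `Δ` a `p`-group.
* `ne_of_curve` : the hypotheses `hNE1`, `hNE2` from the irreducibility of `W[p]`.
-/

set_option autoImplicit false

open IsLocalRing

namespace Fermat.Agent.H71.R

open Fermat.Agent.H70.Mod

section OR

lemma hOR_self (O : Type) [CommRing O] [IsLocalRing O] :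
    Function.Surjective (algebraMap O (ResidueField O)) := residue_surjective

lemma hOR_grp {O Δ : Type} [CommRing O] [IsLocalRing O] [CommGroup Δ] [Finite Δ] {p : ℕ}
    (hp : p.Prime) (hpm : (p : O) ∈ maximalIdeal O) (hΔ : IsPGroup p Δ)
    [IsLocalRing (MonoidAlgebra O Δ)] :
    Function.Surjective (algebraMap O (ResidueField (MonoidAlgebra O Δ))) := by
  intro x
  obtain ⟨r, rfl⟩ := residue_surjective x
  refine ⟨Fermat.Agent.H70.Grp.aug O Δ r, ?_⟩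
  change residue (MonoidAlgebra O Δ) (algebraMap O (MonoidAlgebra O Δ)
    (Fermat.Agent.H70.Grp.aug O Δ r)) = residue (MonoidAlgebra O Δ) r
  rw [← sub_eq_zero, ← map_sub, residue_eq_zero_iff,
    Fermat.Agent.H70.Grp.maximalIdeal_eq hp hpm hΔ, RingHom.mem_ker]
  change residue O (Fermat.Agent.H70.Grp.aug O Δ (algebraMap O (MonoidAlgebra O Δ)
    (Fermat.Agent.H70.Grp.aug O Δ r) - r)) = 0
  rw [map_sub, Fermat.Agent.H70.Grp.aug_algebraMap, sub_self, map_zero]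

end OR

section NE

variable {p : ℕ} [hp : Fact p.Prime]

/-- `ZMod p → κ` -/
lemma int_ne_of_zmod {κ : Type} [Field κ] [CharP κ p] {a b : ℤ} (h : (a : ZMod p) ≠ (b : ZMod p)) :
    (a : κ) ≠ (b : κ) := by
  intro h1
  apply h
  apply (ZMod.castHom dvd_rfl κ).injective
  rw [map_intCast, map_intCast]
  exact h1

/-- **The non-Eisenstein hypotheses** for the eigensystem of an elliptic curve. -/
theorem ne_of_curve {W : WeierstrassCurve ℤ} (hΔ : W.Δ ≠ 0) (hp2 : p ≠ 2)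
    (hirr : W.ModRepIsIrreducible p) {S : Set ℕ} {B : ℕ} (hB : 0 < B)
    (hSB : ∀ ℓ : ℕ, ℓ.Prime → ¬ ℓ ∣ B → ℓ ∉ S) {κ : Type} [Field κ] [CharP κ p]
    {O : Type} [CommRing O] (θ : MvPolynomial (Idx S) O →+* κ)
    (hθ : ∀ i : Idx S, ¬ i.1 ∣ B → W.IsGoodPrimeFor i.1 →
      θ (MvPolynomial.X i) = ((W.apOfModel i.1 : ℤ) : κ)) :
    (∃ i : Idx S, (θ (MvPolynomial.X i)) ^ 2 ≠ ((i.1 : κ) + 1) ^ 2) ∧
      ∀ D : ℕ, D ≠ 0 → ∃ i : Idx S, (D : ℤ) ∣ (i.1 : ℤ) - 1 ∧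
        θ (MvPolynomial.X i) ≠ (i.1 : κ) + 1 := by
  constructor
  · obtain ⟨ℓ, hℓ, hg, hℓB, -, hne⟩ := Fermat.Agent.H62.ne1 hΔ hp2 hirr hB
    refine ⟨⟨ℓ, hℓ, hSB ℓ hℓ hℓB⟩, ?_⟩
    rw [hθ _ hℓB hg]
    have h1 : (((W.apOfModel ℓ ^ 2 : ℤ)) : ZMod p) ≠ (((ℓ + 1 : ℤ) ^ 2 : ℤ) : ZMod p) := by
      push_cast
      exact hne
    have h2 := int_ne_of_zmod (κ := κ) h1
    push_cast at h2
    exact h2
  · intro D hD
    obtain ⟨ℓ, hℓ, hg, hℓB, -, hD1, hne⟩ := Fermat.Agent.H62.ne2 hΔ hp2 hirr hB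
      (Nat.pos_of_ne_zero hD)
    refine ⟨⟨ℓ, hℓ, hSB ℓ hℓ hℓB⟩, ?_, ?_⟩
    · rw [← ZMod.intCast_zmod_eq_zero_iff_dvd]
      push_cast
      rw [hD1, sub_self]
    · rw [hθ _ hℓB hg]
      have h1 : (((W.apOfModel ℓ : ℤ)) : ZMod p) ≠ (((ℓ + 1 : ℤ) : ℤ) : ZMod p) := by
        push_cast
        exact hne
      have h2 := int_ne_of_zmod (κ := κ) h1
      push_cast at h2
      exact h2

end NE

end Fermat.Agent.H71.R
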