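import Fermat.Agent.H41FullX
import Fermat.Agent.H21MLev
import Fermat.Agent.H71RGrp

/-!
# One step of the chain of levels for the localised modules (helper41)

* `exists_pt_fam` : passage from joint eigenvectors to points, keeping track of Hecke families
  which vanish on the eigenvector.
* `exists_step` : the step `M → M q` of the chain for the modules `MLoc`.
-/

set_option autoImplicit false
set_option linter.style.haveILetI false
set_option linter.unusedSectionVars false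

open Matrix CongruenceSubgroup IsLocalRing CuspForm
open scoped MatrixGroups TensorProduct

namespace Fermat.Agent.H41.Step

open Fermat.Agent.H70.Coh Fermat.Agent.H70.Mod Fermat.Agent.H59 Fermat.Agent.H37.Rank
  Fermat.Agent.H30 Fermat.Agent.H69.EG Fermat.Agent.H71.R Fermat.Agent.H21M Fermat.Agent.H41.FX

section Joint

variable {O : Type} [CommRing O] [IsDomain O] [IsDiscreteValuationRing O]
  [IsAdicComplete (maximalIdeal O) O] [Finite (ResidueField O)] [CharZero O]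
  {p : ℕ} [Fact p.Prime] {𝕋 : Type} [CommRing 𝕋] [Algebra O 𝕋] [Module.Finite O 𝕋] [IsReduced 𝕋]
  {r : ℕ} {e : Fin r → ℕ}

/-- if `t` acts as zero, all eigenvalues of `t` vanish -/
theorem forallEigen_of_map_eq_zero {M : Type} [AddCommGroup M] [Module O M] [Module.Finite O M]
    [Module.Free O M] (Φ : 𝕋 →ₐ[O] Module.End O M) (t : 𝕋) (h : Φ t = 0) :
    ForallEigen Φ fun _ _ _ _ _ _ _ _ _ _ lam _ => lam t = 0 := by
  intro O' _ _ _ _ _ _ _ _ _ hO lam x hx hl
  have h1 := hl t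
  rw [h, LinearMap.baseChange_zero, LinearMap.zero_apply] at h1
  exact (smul_eq_zero.mp h1.symm).resolve_right hx

/-- An element of the Hecke algebra which vanishes on all joint eigensystems of the joint kernel
of two equivariant maps kills this joint kernel. -/
theorem kills_of_joint (A B : EMod O p e 𝕋) (tr nu : B.M →ₗ[O] A.M)
    (htr : ∀ t x, tr (B.Φ t x) = A.Φ t (tr x)) (hnu : ∀ t x, nu (B.Φ t x) = A.Φ t (nu x))
    (htrΨ : ∀ g x, tr (B.Ψ g x) = A.Ψ g (tr x)) (hnuΨ : ∀ g x, nu (B.Ψ g x) = A.Ψ g (nu x))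
    (h : 𝕋)
    (hker : ∀ (O' : Type) [CommRing O'] [IsDomain O'] [IsDiscreteValuationRing O']
      [IsAdicComplete (maximalIdeal O') O'] [Finite (ResidueField O')] [CharZero O']
      [Algebra O O'] [Module.Finite O O'] [IsLocalHom (algebraMap O O')],
      Function.Injective (algebraMap O O') → ∀ (lam : 𝕋 →ₐ[O] O') (χ : Dlt p e →* O'ˣ)
        (x : O' ⊗[O] B.M), x ≠ 0 → (∀ t, (B.Φ t).baseChange O' x = lam t • x) →
        (∀ g, (B.Ψ g).baseChange O' x = ((χ g : O'ˣ) : O') • x) →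
        tr.baseChange O' x = 0 → nu.baseChange O' x = 0 → lam h = 0)
    (x : B.M) (hx : tr x = 0) (hx' : nu x = 0) : B.Φ h x = 0 := by
  let K : Submodule O B.M := LinearMap.ker tr ⊓ LinearMap.ker nu
  have hst : ∀ t, ∀ x ∈ K, B.Φ t x ∈ K := by
    rintro t x ⟨h1, h2⟩
    refine ⟨?_, ?_⟩
    · change tr (B.Φ t x) = 0
      rw [htr, LinearMap.mem_ker.mp h1, map_zero]
    · change nu (B.Φ t x) = 0
      rw [hnu, LinearMap.mem_ker.mp h2, map_zero]
  have hst' : ∀ g, ∀ x ∈ K, B.Ψ g x ∈ K := by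
    rintro g x ⟨h1, h2⟩
    refine ⟨?_, ?_⟩
    · change tr (B.Ψ g x) = 0
      rw [htrΨ, LinearMap.mem_ker.mp h1, map_zero]
    · change nu (B.Ψ g x) = 0
      rw [hnuΨ, LinearMap.mem_ker.mp h2, map_zero]
  haveI : Module.Finite O K := inferInstance
  haveI : Module.Free O K := inferInstance
  let ΦK : 𝕋 →ₐ[O] Module.End O K :=
    { toFun := fun t => (B.Φ t).restrict (hst t)
      map_one' := LinearMap.ext fun x => Subtype.ext (by
        change B.Φ 1 x.1 = x.1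
        rw [map_one]; rfl)
      map_mul' := fun s t => LinearMap.ext fun x => Subtype.ext (by
        change B.Φ (s * t) x.1 = B.Φ s (B.Φ t x.1)
        rw [map_mul]; rfl)
      map_zero' := LinearMap.ext fun x => Subtype.ext (by
        change B.Φ 0 x.1 = 0
        rw [map_zero]; rfl)
      map_add' := fun s t => LinearMap.ext fun x => Subtype.ext (by
        change B.Φ (s + t) x.1 = B.Φ s x.1 + B.Φ t x.1
        rw [map_add]; rfl)
      commutes' := fun a => LinearMap.ext fun x => Subtype.ext (by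
        change B.Φ (algebraMap O 𝕋 a) x.1 = a • x.1
        rw [AlgHom.commutes, Module.algebraMap_end_apply]) }
  let ΨK : Dlt p e →* Module.End O K :=
    { toFun := fun g => (B.Ψ g).restrict (hst' g)
      map_one' := LinearMap.ext fun x => Subtype.ext (by
        change B.Ψ 1 x.1 = x.1
        rw [map_one]; rfl)
      map_mul' := fun s t => LinearMap.ext fun x => Subtype.ext (by
        change B.Ψ (s * t) x.1 = B.Ψ s (B.Ψ t x.1)
        rw [map_mul]; rfl) }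
  have hcomm : ∀ t g, ΦK t * ΨK g = ΨK g * ΦK t := fun t g =>
    LinearMap.ext fun x => Subtype.ext (LinearMap.congr_fun (B.comm t g) x.1)
  have hsub : ∀ t, K.subtype ∘ₗ ΦK t = B.Φ t ∘ₗ K.subtype := fun t => LinearMap.ext fun x => rfl
  have hsub' : ∀ g, K.subtype ∘ₗ ΨK g = B.Ψ g ∘ₗ K.subtype := fun t => LinearMap.ext fun x => rfl
  have key : ΦK h = 0 := by
    apply map_eq_zero_of_eigen ΦK h
    apply Fermat.Agent.H70.Eig.forallEigen_of_group ΦK ΨK hcomm h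
    intro O' _ _ _ _ _ _ _ _ _ hO lam χ z hz hl hχ
    haveI : Module.IsTorsionFree O O' := Module.isTorsionFree_iff_algebraMap_injective.mpr hO
    haveI : Module.Flat O O' := inferInstance
    have hinj : Function.Injective (K.subtype.baseChange O') :=
      Module.Flat.lTensor_preserves_injective_linearMap (M := O') K.subtype K.subtype_injective
    refine hker O' hO lam χ (K.subtype.baseChange O' z) ?_ ?_ ?_ ?_ ?_
    · intro h0
      exact hz (hinj (by rw [h0, map_zero]))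
    · intro t
      rw [← map_smul, ← hl, ← LinearMap.comp_apply, ← LinearMap.comp_apply,
        ← LinearMap.baseChange_comp, ← LinearMap.baseChange_comp, hsub]
    · intro g
      rw [← map_smul, ← hχ, ← LinearMap.comp_apply, ← LinearMap.comp_apply,
        ← LinearMap.baseChange_comp, ← LinearMap.baseChange_comp, hsub']
    · have h0 : tr ∘ₗ K.subtype = 0 := LinearMap.ext fun x => LinearMap.mem_ker.mp x.2.1
      rw [← LinearMap.comp_apply, ← LinearMap.baseChange_comp, h0, LinearMap.baseChange_zero,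
        LinearMap.zero_apply]
    · have h0 : nu ∘ₗ K.subtype = 0 := LinearMap.ext fun x => LinearMap.mem_ker.mp x.2.2
      rw [← LinearMap.comp_apply, ← LinearMap.baseChange_comp, h0, LinearMap.baseChange_zero,
        LinearMap.zero_apply]
  exact congrArg Subtype.val (LinearMap.congr_fun key ⟨x, hx, hx'⟩)

end Joint

section Point

variable {N M : ℕ} (hM : N ∣ M) {S : Set ℕ} (hS : Away M S) {O Δ : Type} [CommRing O]
  [CommGroup Δ] (ψ η : (ZMod N)ˣ →* (MonoidAlgebra O Δ)ˣ) {e : MvPolynomial (Idx S) O}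
  {κ : Type} [Field κ] {θ : MvPolynomial (Idx S) O →+* κ}
  {O' : Type} [CommRing O'] [Algebra O O']

/-- vanishing of a family on the eigenvector -/
def Van (e : MvPolynomial (Idx S) O) (v : O' ⊗[O] MLoc hM hS ψ η e) (M' : ℕ) (hM' : N ∣ M')
    (F : HFam (gam N M hM) (gam N M' hM')) : Prop :=
  ((F.opH (psiRep ψ (MonoidAlgebra O Δ))).restrictScalars O).baseChange O'
    (((MLoc hM hS ψ η e).subtype.restrictScalars O).baseChange O' v) = 0

set_option maxHeartbeats 1000000 in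
/-- **Passage to points**, keeping track of families. -/
theorem exists_point_fam [NeZero M] [Finite Δ] [IsDomain O'] [CharZero O']
    (hg : Good M (MonoidAlgebra O Δ)) (hψ : ψ (-1) = 1)
    (he : IsLocIdem (tw hM hS ψ η) (tw_comm hM hS ψ η) θ e)
    [Module.Free O (MLoc hM hS ψ η e)]
    (v : O' ⊗[O] MLoc hM hS ψ η e) (hv : v ≠ 0) (χ : Δ →* O'ˣ)
    (hχ : ∀ g, (diam hM hS ψ η e g).baseChange O' v = ((χ g : O'ˣ) : O') • v)
    (lam : MvPolynomial (Idx S) O → O')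
    (hlam : ∀ P, (mactO hM hS ψ η e P).baseChange O' v = lam P • v) :
    ∃ y : MLoc hM hS (psiMap (evC (O := O) χ).toRingHom ψ)
        (psiMap (evC (O := O) χ).toRingHom η) e, y ≠ 0 ∧
      (∀ P, mact hM hS (psiMap (evC (O := O) χ).toRingHom ψ)
        (psiMap (evC (O := O) χ).toRingHom η) e P y = lam P • y) ∧
      ∀ (M' : ℕ) (hM' : N ∣ M') (F : HFam (gam N M hM) (gam N M' hM')),
        Van hM hS ψ η e v M' hM' F →
        F.opH (psiRep (psiMap (evC (O := O) χ).toRingHom ψ) O') y.1 = 0 := by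
  haveI := Fintype.ofFinite Δ
  have hPv := fun P => aux_hecke (O' := O') (MLoc hM hS ψ η e).subtype (mactO hM hS ψ η e P)
    ((act (tw hM hS ψ η) (tw_comm hM hS ψ η) P).restrictScalars O)
    (fun x => (mact_coe hM hS ψ η e P x).symm) v (lam P) (hlam P)
  unfold Van
  generalize hv' : ((MLoc hM hS ψ η e).subtype.restrictScalars O).baseChange O' v = v' at hPv ⊢
  have hne : evS hM ψ χ v' ≠ 0 := by
    intro h0
    have h1 := projC_eq_zero_of_evS hM ψ hg hψ χ v' h0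
    rw [← hv'] at h1
    exact aux_ne (MLoc hM hS ψ η e).subtype (locProj (tw hM hS ψ η) (tw_comm hM hS ψ η) e)
      (locProj_comp_subtype he.idem) v hv χ hχ h1
  have hPy : ∀ P, act (tw hM hS (psiMap (evC (O := O) χ).toRingHom ψ)
      (psiMap (evC (O := O) χ).toRingHom η)) (tw_comm hM hS _ _) P (evS hM ψ χ v') =
      lam P • evS hM ψ χ v' := by
    intro P
    have h1 := evS_act hM hS ψ η χ P v'
    rw [hPv P] at h1
    exact h1.symm.trans ((evS hM ψ χ).map_smul _ _)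
  have hlame : lam e • v = v := by
    rw [← hlam]
    have h1 : mactO hM hS ψ η e e = LinearMap.id := by
      apply LinearMap.ext
      intro x
      exact LinearMap.congr_fun (act_locT_e he.idem) x
    rw [h1, LinearMap.baseChange_id]
    rfl
  have hmem : evS hM ψ χ v' ∈ MLoc hM hS (psiMap (evC (O := O) χ).toRingHom ψ)
      (psiMap (evC (O := O) χ).toRingHom η) e := by
    have h6 : lam e • v' = v' := by
      have h7 := (((MLoc hM hS ψ η e).subtype.restrictScalars O).baseChange O').map_smul (lam e) v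
      rw [hlame, hv'] at h7
      exact h7.symm
    have h8 : lam e • evS hM ψ χ v' = evS hM ψ χ v' :=
      ((evS hM ψ χ).map_smul (lam e) v').symm.trans (congrArg (evS hM ψ χ) h6)
    exact (mem_loc (isLocIdem_bc hM hS ψ η hg hψ (evC (O := O) χ).toRingHom
      (fun a => (evC (O := O) χ).commutes a) he).idem).mpr ((hPy e).trans h8)
  refine ⟨⟨evS hM ψ χ v', hmem⟩, fun h => hne (congrArg Subtype.val h), fun P => ?_,
    fun M' hM' F h => ?_⟩
  · apply Subtype.ext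
    exact (mact_coe hM hS _ _ e P _).trans (hPy P)
  · have h1 := evS_opH hM ψ F χ v'
    rw [h, map_zero] at h1
    exact h1.symm

end Point

section Aux

variable {N M : ℕ} [NeZero M] (hM : N ∣ M) {S : Set ℕ} (hS : Away M S)
  {O : Type} [CommRing O]
  {κ : Type} [Field κ] {θ : MvPolynomial (Idx S) O →+* κ} {e : MvPolynomial (Idx S) O}
  {p : ℕ} (hp : p.Prime) {O' : Type} [CommRing O'] [IsDomain O'] [IsLocalRing O'] [Algebra O O']
  (hpO' : (p : O') ∈ maximalIdeal O') (hgO' : Good M O')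
  (i₀ : Idx S) (hi₀ : θ (MvPolynomial.X i₀) ≠ 1 + (i₀.1 : κ))

include hp hpO' hgO' hi₀ in
lemma isPt_of_mact_fam {ψ η : (ZMod N)ˣ →* O'ˣ} (hψ : ψ = η ^ 2) {s : ℕ} (hη : η ^ p ^ s = 1)
    (hψ1 : ψ (-1) = 1)
    (he : IsLocIdem (tw hM hS ψ η) (tw_comm hM hS ψ η) θ e) (y : MLoc hM hS ψ η e) (hy : y ≠ 0)
    (lam : MvPolynomial (Idx S) O → O') (hlam : ∀ P, mact hM hS ψ η e P y = lam P • y)
    (V : ∀ (M' : ℕ) (hM' : N ∣ M') (_ : HFam (gam N M hM) (gam N M' hM')), Prop)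
    (hV : ∀ (M' : ℕ) (hM' : N ∣ M') (F : HFam (gam N M hM) (gam N M' hM')), V M' hM' F →
      F.opH (psiRep ψ O') y.1 = 0) :
    ∃ z : H1 (gam N M hM) (psiRep (η ^ 2) O'),
      IsPt hM hS η (fun i => lam (MvPolynomial.X i)) z ∧
      ∀ (M' : ℕ) (hM' : N ∣ M') (F : HFam (gam N M hM) (gam N M' hM')), V M' hM' F →
        F.opH (psiRep (η ^ 2) O') z = 0 := by
  subst hψ
  have hη2 : (η ^ 2) ^ p ^ s = 1 := sq_pow_eq_one hη
  obtain ⟨h1, -⟩ := loc_free hM hS (η ^ 2) η hgO' hψ1 he (resTriv_of_pow hp hpO' hη2)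
    (resTriv_of_pow hp hpO' hη) i₀ hi₀
  refine ⟨y, ⟨fun c hc => smul_ne_zero_of_free _ y hy c hc, fun i => ?_⟩, hV⟩
  have h2 := congrArg Subtype.val (hlam (MvPolynomial.X i))
  have h3 := mact_coe hM hS (η ^ 2) η e (MvPolynomial.X i) y
  have h4 : act (tw hM hS (η ^ 2) η) (tw_comm hM hS (η ^ 2) η) (MvPolynomial.X i : MvPolynomial
    (Idx S) O) = tw hM hS (η ^ 2) η i := act_X _ _ i
  rw [h4] at h3
  exact h3.symm.trans h2

end Aux

section MainPt

variable {N M : ℕ} [NeZero M] (hM : N ∣ M) {S : Set ℕ} (hS : Away M S)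
  {O : Type} [CommRing O]
  {Δ : Type} [CommGroup Δ] [Finite Δ] {η : (ZMod N)ˣ →* (MonoidAlgebra O Δ)ˣ}
  {κ : Type} [Field κ] {θ : MvPolynomial (Idx S) O →+* κ} {e : MvPolynomial (Idx S) O}
  {p : ℕ} (hp : p.Prime)
  (hgΛ : Good M (MonoidAlgebra O Δ))
  (heΛ : IsLocIdem (tw hM hS (η ^ 2) η) (tw_comm hM hS (η ^ 2) η) θ e)
  (i₀ : Idx S) (hi₀ : θ (MvPolynomial.X i₀) ≠ 1 + (i₀.1 : κ))
  {O' : Type} [CommRing O'] [IsDomain O'] [IsLocalRing O'] [CharZero O'] [Algebra O O']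
  (hpO' : (p : O') ∈ maximalIdeal O')

include hp hgΛ heΛ hi₀ hpO' in
/-- **From joint eigenvectors in `O' ⊗_O M` to points over `O'`**, keeping track of families. -/
theorem exists_pt_fam {s : ℕ} (hη : η ^ p ^ s = 1) [Module.Free O (MLoc hM hS (η ^ 2) η e)]
    (v : O' ⊗[O] MLoc hM hS (η ^ 2) η e) (hv : v ≠ 0) (χ : Δ →* O'ˣ)
    (hχ : ∀ g, (diam hM hS (η ^ 2) η e g).baseChange O' v = ((χ g : O'ˣ) : O') • v)
    (lam : MvPolynomial (Idx S) O → O')
    (hlam : ∀ P, (mactO hM hS (η ^ 2) η e P).baseChange O' v = lam P • v) :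
    ∃ z : H1 (gam N M hM) (psiRep ((psiMap (evC (O := O) χ).toRingHom η) ^ 2) O'),
      IsPt hM hS (psiMap (evC (O := O) χ).toRingHom η) (fun i => lam (MvPolynomial.X i)) z ∧
      ∀ (M' : ℕ) (hM' : N ∣ M') (F : HFam (gam N M hM) (gam N M' hM')),
        Van hM hS (η ^ 2) η e v M' hM' F →
        F.opH (psiRep ((psiMap (evC (O := O) χ).toRingHom η) ^ 2) O') z = 0 := by
  obtain ⟨y, hy, hyl, hyF⟩ := exists_point_fam hM hS (η ^ 2) η hgΛ (sq_neg_one η) heΛ v hv χ hχ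
    lam hlam
  have h1 : psiMap (evC (O := O) χ).toRingHom (η ^ 2) =
      (psiMap (evC (O := O) χ).toRingHom η) ^ 2 := psiMap_pow _ _ _
  have h2 : (psiMap (evC (O := O) χ).toRingHom η) ^ p ^ s = 1 := by
    rw [← psiMap_pow, hη, psiMap_one]
  have h3 : psiMap (evC (O := O) χ).toRingHom (η ^ 2) (-1) = 1 := by
    rw [h1, sq_neg_one]
  exact isPt_of_mact_fam hM hS hp hpO' (good_map (evC (O := O) χ).toRingHom hgΛ) i₀ hi₀ h1 h2 h3
    (isLocIdem_bc hM hS (η ^ 2) η hgΛ (sq_neg_one η) (evC (O := O) χ).toRingHom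
      (fun a => (evC (O := O) χ).commutes a) heΛ) y hy lam hyl _ hyF

end MainPt

section Transport

variable {N M M' L : ℕ} [NeZero L] {hM : N ∣ M} {hM' : N ∣ M'} {S : Set ℕ} {hS : Away M S}
  {hS' : Away M' S} {hSL : ∀ q : ℕ, q.Prime → q ∣ L → q ∈ S}
  {O : Type} [CommRing O] [IsDomain O] [IsDiscreteValuationRing O]
  [IsAdicComplete (maximalIdeal O) O]
  {p r : ℕ} {e : Fin r → ℕ} {ψ η : (ZMod N)ˣ →* (MonoidAlgebra O (Dlt p e))ˣ}
  {θ : heckeAlgebra L 2 S →+* ResidueField O} {ee : MvPolynomial (Idx S) O}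
  {A B : EMod O p e (heckeLocal L S O θ)}
  {iA : A.M ≃ₗ[O] MLoc hM hS ψ η ee} {iB : B.M ≃ₗ[O] MLoc hM' hS' ψ η ee}

/-- transport of maps of localised modules to the abstract modules -/
noncomputable def tp (iA : A.M ≃ₗ[O] MLoc hM hS ψ η ee) (iB : B.M ≃ₗ[O] MLoc hM' hS' ψ η ee)
    (f : MLoc hM hS ψ η ee →ₗ[MonoidAlgebra O (Dlt p e)] MLoc hM' hS' ψ η ee) : A.M →ₗ[O] B.M :=
  iB.symm.toLinearMap ∘ₗ f.restrictScalars O ∘ₗ iA.toLinearMap

lemma tp_apply (f : MLoc hM hS ψ η ee →ₗ[MonoidAlgebra O (Dlt p e)] MLoc hM' hS' ψ η ee)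
    (x : A.M) : tp iA iB f x = iB.symm (f (iA x)) := rfl

lemma mactO_map (F : H1 (gam N M hM) (psiRep ψ (MonoidAlgebra O (Dlt p e)))
      →ₗ[MonoidAlgebra O (Dlt p e)] H1 (gam N M' hM') (psiRep ψ (MonoidAlgebra O (Dlt p e))))
    (hF : ∀ i x, F (tw hM hS ψ η i x) = tw hM' hS' ψ η i (F x))
    (f : MLoc hM hS ψ η ee →ₗ[MonoidAlgebra O (Dlt p e)] MLoc hM' hS' ψ η ee)
    (hf : ∀ x, (f x : H1 (gam N M' hM') (psiRep ψ (MonoidAlgebra O (Dlt p e)))) = F x.1)
    (P : MvPolynomial (Idx S) O) (x : MLoc hM hS ψ η ee) :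
    f (mactO hM hS ψ η ee P x) = mactO hM' hS' ψ η ee P (f x) := by
  apply Subtype.ext
  rw [hf, mactO_apply, mactO_apply, mact_coe, mact_coe, hf]
  exact map_act_apply (Λ := MonoidAlgebra O (Dlt p e)) (Λ' := MonoidAlgebra O (Dlt p e))
    F.toAddMonoidHom
    (fun a x => by
      change F (a • x) = a • F x
      rw [← algebraMap_smul (MonoidAlgebra O (Dlt p e)) a x, map_smul, algebraMap_smul])
    hF P x.1

lemma tp_Φ (hA : IsModel hM hS hSL ψ η θ ee A iA) (hB : IsModel hM' hS' hSL ψ η θ ee B iB)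
    (f : MLoc hM hS ψ η ee →ₗ[MonoidAlgebra O (Dlt p e)] MLoc hM' hS' ψ η ee)
    (hf : ∀ P x, f (mactO hM hS ψ η ee P x) = mactO hM' hS' ψ η ee P (f x))
    (t : heckeLocal L S O θ) (x : A.M) : tp iA iB f (A.Φ t x) = B.Φ t (tp iA iB f x) := by
  obtain ⟨P, rfl⟩ := toLocal_surjective L S hSL O θ t
  rw [tp_apply, tp_apply, hA.Φ, hf, hB.Φ_symm]

lemma tp_Ψ (hA : IsModel hM hS hSL ψ η θ ee A iA) (hB : IsModel hM' hS' hSL ψ η θ ee B iB)
    (f : MLoc hM hS ψ η ee →ₗ[MonoidAlgebra O (Dlt p e)] MLoc hM' hS' ψ η ee)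
    (g : Dlt p e) (x : A.M) : tp iA iB f (A.Ψ g x) = B.Ψ g (tp iA iB f x) := by
  rw [tp_apply, tp_apply, hA.Ψ, ← hB.Ψ_symm]
  congr 1
  exact map_smul f _ _

end Transport

section Main

variable {N M q L : ℕ} [NeZero N] [NeZero M] [NeZero q] [NeZero L] (hM : N ∣ M) {S : Set ℕ}
  (hS : Away M S) (hS' : Away (M * q) S) (hSL : ∀ q : ℕ, q.Prime → q ∣ L → q ∈ S)
  {O : Type} [CommRing O] [IsDomain O] [IsDiscreteValuationRing O]
  [IsAdicComplete (maximalIdeal O) O] [Finite (ResidueField O)] [CharZero O]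
  {p : ℕ} [Fact p.Prime] (hpO : (p : O) ∈ maximalIdeal O)
  {r : ℕ} {e : Fin r → ℕ} {η : (ZMod N)ˣ →* (MonoidAlgebra O (Dlt p e))ˣ}
  {θ : heckeAlgebra L 2 S →+* ResidueField O} {ee : MvPolynomial (Idx S) O}
  {sη : ℕ} (hη : η ^ p ^ sη = 1)
  (hq : q.Prime) (hqM : ¬ q ∣ M) (hqN : q.Coprime N)
  (hgΛ : Good M (MonoidAlgebra O (Dlt p e))) (hgΛ' : Good (M * q) (MonoidAlgebra O (Dlt p e)))
  (hgO : Good M O)
  (he : IsLocIdem (tw hM hS (η ^ 2) η) (tw_comm hM hS (η ^ 2) η) (thetaPoly L S hSL O θ) ee)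
  (he' : IsLocIdem (tw (dvd_mul_q (q := q) hM) hS' (η ^ 2) η)
    (tw_comm (dvd_mul_q (q := q) hM) hS' (η ^ 2) η) (thetaPoly L S hSL O θ) ee)
  (hNE1 : ∃ i : Idx S, (θ (TIdx L S hSL i)) ^ 2 ≠ ((i.1 : ResidueField O) + 1) ^ 2)
  (hNE2 : ∀ D : ℕ, D ≠ 0 → ∃ i : Idx S, (D : ℤ) ∣ (i.1 : ℤ) - 1 ∧
    θ (TIdx L S hSL i) ≠ (i.1 : ResidueField O) + 1)
  {A B : EMod O p e (heckeLocal L S O θ)}
  {iA : A.M ≃ₗ[O] MLoc hM hS (η ^ 2) η ee}
  {iB : B.M ≃ₗ[O] MLoc (dvd_mul_q (q := q) hM) hS' (η ^ 2) η ee}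
  (hA : IsModel hM hS hSL (η ^ 2) η θ ee A iA)
  (hB : IsModel (dvd_mul_q (q := q) hM) hS' hSL (η ^ 2) η θ ee B iB)

include hpO hη hqM hgΛ' he' hNE2 hA hB in
/-- the kernel of `(tr, nu)` -/
theorem kills_step [Module.Finite O (heckeLocal L S O θ)] [IsReduced (heckeLocal L S O θ)]
    (h0 : heckeLocal L S O θ)
    (hD : ∀ (O' : Type) [CommRing O'] [IsDomain O'] [IsDiscreteValuationRing O']
      [IsAdicComplete (maximalIdeal O') O'] [Finite (ResidueField O')] [CharZero O']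
      [Algebra O O'] [Module.Finite O O'] [IsLocalHom (algebraMap O O')],
      Function.Injective (algebraMap O O') →
      ∀ (lam : heckeLocal L S O θ →ₐ[O] O') (η' : (ZMod N)ˣ →* O'ˣ)
      (x : H1 (gam N (M * q) (hM.mul_right q)) (psiRep (η' ^ 2) O')),
      (∃ k, η' ^ p ^ k = 1) →
      IsPt (hM.mul_right q) hS' η'
        (fun i => lam (heckeLocal.π L S O θ (TIdx L S hSL i))) x →
      (trFam hM).opH (psiRep (η' ^ 2) O') x = 0 → (nuFam hM hq).opH (psiRep (η' ^ 2) O') x = 0 →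
      lam h0 = 0)
    (x : B.M) (hx : tp iB iA (trM hM hS hS' (η ^ 2) η ee hq hqM) x = 0)
    (hx' : tp iB iA (nuM hM hS hS' (η ^ 2) η ee hq hqM) x = 0) : B.Φ h0 x = 0 := by
  have hp : p.Prime := Fact.out
  obtain ⟨i₀, -, hi₀⟩ := hNE2 1 one_ne_zero
  have hi₀' : thetaPoly L S hSL O θ (MvPolynomial.X i₀) ≠ 1 + (i₀.1 : ResidueField O) := by
    rw [thetaPoly_X, add_comm]
    exact hi₀
  haveI : NeZero (M * q) := ⟨mul_ne_zero (NeZero.ne M) (NeZero.ne q)⟩
  refine kills_of_joint A B _ _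
    (tp_Φ hB hA _ (mactO_map (trL hM (η ^ 2) q) (trL_tw hM (η ^ 2) η hS hS' hq hqM) _
      fun x => rfl))
    (tp_Φ hB hA _ (mactO_map (nuL hM (η ^ 2) hq) (nuL_tw hM (η ^ 2) η hS hS' hq hqM) _
      fun x => rfl))
    (tp_Ψ hB hA _) (tp_Ψ hB hA _) h0 ?_ x hx hx'
  intro O' _ _ _ _ _ _ _ _ _ hO lam χ z hz hl hχ htr hnu
  haveI : Module.Free O (MLoc (dvd_mul_q (q := q) hM) hS' (η ^ 2) η ee) := Module.Free.of_equiv iB
  set v : O' ⊗[O] MLoc (dvd_mul_q (q := q) hM) hS' (η ^ 2) η ee :=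
    iB.toLinearMap.baseChange O' z with hv
  have hinv : iB.symm.toLinearMap.baseChange O' v = z := by
    rw [hv, ← LinearMap.comp_apply, ← LinearMap.baseChange_comp]
    have : iB.symm.toLinearMap ∘ₗ iB.toLinearMap = LinearMap.id := LinearMap.ext fun x =>
      iB.symm_apply_apply x
    rw [this, LinearMap.baseChange_id]
    rfl
  have hv0 : v ≠ 0 := by
    intro h
    apply hz
    rw [← hinv, h, map_zero]
  have hvχ : ∀ g, (diam (dvd_mul_q (q := q) hM) hS' (η ^ 2) η ee g).baseChange O' v =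
      ((χ g : O'ˣ) : O') • v := by
    intro g
    have h1 : diam (dvd_mul_q (q := q) hM) hS' (η ^ 2) η ee g ∘ₗ iB.toLinearMap =
        iB.toLinearMap ∘ₗ B.Ψ g := LinearMap.ext fun x => (hB.Ψ g x).symm
    rw [hv, ← LinearMap.comp_apply, ← LinearMap.baseChange_comp, h1, LinearMap.baseChange_comp,
      LinearMap.comp_apply, hχ, map_smul]
  have hvl : ∀ P, (mactO (dvd_mul_q (q := q) hM) hS' (η ^ 2) η ee P).baseChange O' v =
      (lam (toLocal L S hSL O θ P)) • v := by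
    intro P
    have h1 : mactO (dvd_mul_q (q := q) hM) hS' (η ^ 2) η ee P ∘ₗ iB.toLinearMap =
        iB.toLinearMap ∘ₗ B.Φ (toLocal L S hSL O θ P) := LinearMap.ext fun x => (hB.Φ P x).symm
    rw [hv, ← LinearMap.comp_apply, ← LinearMap.baseChange_comp, h1, LinearMap.baseChange_comp,
      LinearMap.comp_apply, hl, map_smul]
  obtain ⟨y, hy, hyF⟩ := exists_pt_fam (dvd_mul_q (q := q) hM) hS' hp hgΛ' he' i₀ hi₀'
    (natCast_mem_of_isLocalHom hpO) hη v hv0 χ hvχ (fun P => lam (toLocal L S hSL O θ P)) hvl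
  have hodd : ∃ k, (psiMap (evC (O := O) χ).toRingHom η) ^ p ^ k = 1 :=
    ⟨sη, by rw [← psiMap_pow, hη, psiMap_one]⟩
  have hy' : IsPt (hM.mul_right q) hS' (psiMap (evC (O := O) χ).toRingHom η)
      (fun i => lam (heckeLocal.π L S O θ (TIdx L S hSL i))) y := by
    refine ⟨hy.smul_ne, fun i => ?_⟩
    have h1 := hy.eigen i
    rw [toLocal_X] at h1
    exact h1
  -- the families vanish on `v`
  have key : ∀ (F : HFam (gam N (M * q) (dvd_mul_q hM)) (gam N M hM))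
      (f : MLoc (dvd_mul_q (q := q) hM) hS' (η ^ 2) η ee →ₗ[MonoidAlgebra O (Dlt p e)]
        MLoc hM hS (η ^ 2) η ee)
      (_ : ∀ x, (f x : H1 (gam N M hM) (psiRep (η ^ 2) (MonoidAlgebra O (Dlt p e)))) =
        F.opH (psiRep (η ^ 2) (MonoidAlgebra O (Dlt p e))) x.1)
      (_ : (tp iB iA f).baseChange O' z = 0),
      Van (dvd_mul_q (q := q) hM) hS' (η ^ 2) η ee v M hM F := by
    intro F f hf h1
    have h2 : (f.restrictScalars O).baseChange O' v = 0 := by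
      have h3 : f.restrictScalars O ∘ₗ iB.toLinearMap = iA.toLinearMap ∘ₗ tp iB iA f :=
        LinearMap.ext fun x => (iA.apply_symm_apply _).symm
      rw [hv, ← LinearMap.comp_apply, ← LinearMap.baseChange_comp, h3,
        LinearMap.baseChange_comp, LinearMap.comp_apply, h1, map_zero]
    have h4 : ((F.opH (psiRep (η ^ 2) (MonoidAlgebra O (Dlt p e)))).restrictScalars O) ∘ₗ
        ((MLoc (dvd_mul_q (q := q) hM) hS' (η ^ 2) η ee).subtype.restrictScalars O) =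
        ((MLoc hM hS (η ^ 2) η ee).subtype.restrictScalars O) ∘ₗ (f.restrictScalars O) :=
      LinearMap.ext fun x => (hf x).symm
    unfold Van
    rw [← baseChange_comp_apply, h4, baseChange_comp_apply, h2, map_zero]
  exact hD O' hO lam _ y hodd hy' (hyF M hM (trFam hM) (key _ _ (fun x => rfl) htr))
    (hyF M hM (nuFam hM hq) (key _ _ (fun x => rfl) hnu))

include hpO hη hqM hqN hgΛ hgΛ' hgO he he' hNE1 hNE2 hA hB in
/-- **One step of the chain for the localised modules.** -/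
theorem exists_newStep_model [Module.Finite O (heckeLocal L S O θ)]
    [IsReduced (heckeLocal L S O θ)] {R : Type} [CommRing R] [Algebra O R]
    (π : R →ₐ[O] heckeLocal L S O θ) (tb t : R) (c c' : O)
    (htq : ∀ x : MLoc hM hS (η ^ 2) η ee, tqM hM hS (η ^ 2) η ee hq hqM x =
      ((η (ZMod.unitOfCoprime q hqN) : (MonoidAlgebra O (Dlt p e))ˣ) :
        MonoidAlgebra O (Dlt p e)) • iA (A.Φ (π tb) (iA.symm x)))
    (htb : ∃ v : R, IsUnit v ∧ tb ^ 2 - ((q : R) + 1) ^ 2 = v * (t * (t + algebraMap O R c)))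
    (hD : ∀ (O' : Type) [CommRing O'] [IsDomain O'] [IsDiscreteValuationRing O']
      [IsAdicComplete (maximalIdeal O') O'] [Finite (ResidueField O')] [CharZero O']
      [Algebra O O'] [Module.Finite O O'] [IsLocalHom (algebraMap O O')],
      Function.Injective (algebraMap O O') →
      ∀ (lam : heckeLocal L S O θ →ₐ[O] O') (η' : (ZMod N)ˣ →* O'ˣ)
      (x : H1 (gam N (M * q) (hM.mul_right q)) (psiRep (η' ^ 2) O')),
      (∃ k, η' ^ p ^ k = 1) →
      IsPt (hM.mul_right q) hS' η'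
        (fun i => lam (heckeLocal.π L S O θ (TIdx L S hSL i))) x →
      (trFam hM).opH (psiRep (η' ^ 2) O') x = 0 → (nuFam hM hq).opH (psiRep (η' ^ 2) O') x = 0 →
      lam (π (t * (t + algebraMap O R c))) = 0)
    (hc' : ((q : O) + 1) ∣ c') :
    ∃ (X : EMod O p e (heckeLocal L S O θ)) (quo : B.M →+ X.M) (low : B.M →+ A.M),
      X.d + 2 * A.d = B.d ∧
      (∀ {r' : Fin r → R}, B.Compat π r' → X.Compat π r') ∧
      (∀ s x, quo (B.Φ s x) = X.Φ s (quo x)) ∧ Function.Surjective quo ∧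
      (∀ s x, low (B.Φ s x) = A.Φ s (low x)) ∧
      (∀ a, ∃ x, low x = c' • a) ∧
      (∀ x, quo x = 0 → ∃ a, low x = A.Φ (π t) a) ∧
      (∀ x : X.M, X.Φ (π ((t * (t + algebraMap O R c)) ^ 2)) x = 0) := by
  have hp : p.Prime := Fact.out
  have hΔ : IsPGroup p (Dlt p e) := isPGroup_dlt
  haveI := Fermat.Agent.H70.Grp.isLocalRing hp hpO hΔ
  have hpΛ := natCast_mem_grp (O := O) hp hpO hΔ
  have hOR := hOR_grp (O := O) hp hpO hΔ
  have hθ : ∀ a, thetaPoly L S hSL O θ (MvPolynomial.C a) = residue O a :=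
    thetaPoly_C L S hSL O θ
  have hη2 : (η ^ 2) ^ p ^ sη = 1 := sq_pow_eq_one hη
  have hψ1 := resTriv_of_pow hp hpΛ hη2
  have hη1 := resTriv_of_pow hp hpΛ hη
  have hNE1' : ∃ i : Idx S, (thetaPoly L S hSL O θ (MvPolynomial.X i)) ^ 2 ≠
      ((i.1 : ResidueField O) + 1) ^ 2 := by
    obtain ⟨i, hi⟩ := hNE1
    exact ⟨i, by rw [thetaPoly_X]; exact hi⟩
  have hNE2' : ∀ D : ℕ, D ≠ 0 → ∃ i : Idx S, (D : ℤ) ∣ (i.1 : ℤ) - 1 ∧
      thetaPoly L S hSL O θ (MvPolynomial.X i) ≠ (i.1 : ResidueField O) + 1 := by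
    intro D hD
    obtain ⟨i, hi, hi'⟩ := hNE2 D hD
    exact ⟨i, hi, by rw [thetaPoly_X]; exact hi'⟩
  obtain ⟨rr, hrr⟩ := exists_retract_old hM hS hS' (η ^ 2) η hOR hθ hgΛ hgΛ' (sq_neg_one η)
    hψ1 hη1 he he' hNE1' hNE2' hq hqM hqN
  obtain ⟨v, ⟨v', rfl⟩, hv⟩ := htb
  set Λ := MonoidAlgebra O (Dlt p e) with hΛ
  set u : Λˣ := (η ^ 2) (ZMod.unitOfCoprime q hqN) with hu
  -- the maps
  let res := tp iA iB (resM hM hS hS' (η ^ 2) η ee)
  let deg := tp iA iB (degM hM hS hS' (η ^ 2) η ee hq hqN)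
  let tr := tp iB iA (trM hM hS hS' (η ^ 2) η ee hq hqM)
  let nu := tp iB iA (nuM hM hS hS' (η ^ 2) η ee hq hqM)
  let tq := tp iA iA (tqM hM hS (η ^ 2) η ee hq hqM)
  let dia := tp iA iA (LinearMap.lsmul Λ (MLoc hM hS (η ^ 2) η ee) (u : Λ))
  let dia1 := tp iA iA (LinearMap.lsmul Λ (MLoc hM hS (η ^ 2) η ee) ((u⁻¹ : Λˣ) : Λ))
  let ret : B.M →ₗ[O] A.M × A.M :=
    (iA.symm.toLinearMap.prodMap iA.symm.toLinearMap) ∘ₗ rr.restrictScalars O ∘ₗ iB.toLinearMap
  have hnat : ∀ (n : ℕ) (x : A.M), ((n : O) + 1) • x = (n + 1) • x := by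
    intro n x
    rw [← Nat.cast_smul_eq_nsmul O, Nat.cast_add, Nat.cast_one]
  have hdia : ∀ x, dia x = iA.symm ((u : Λ) • iA x) := fun x => rfl
  have hdia1 : ∀ x, dia1 x = iA.symm (((u⁻¹ : Λˣ) : Λ) • iA x) := fun x => rfl
  refine exists_newStep_of_kills hpO π A B q res deg tr nu tq dia dia1
    (tp_Φ hA hB _ (mactO_map (resL hM (η ^ 2) q) (resL_tw hM (η ^ 2) η hS hS') _ fun x => rfl))
    (tp_Ψ hA hB _)
    (tp_Φ hA hB _ (mactO_map (degL hM (η ^ 2) hq hqN) (degL_tw hM (η ^ 2) η hS hS' hq hqN) _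
      fun x => rfl))
    (tp_Ψ hA hB _)
    (tp_Φ hB hA _ (mactO_map (trL hM (η ^ 2) q) (trL_tw hM (η ^ 2) η hS hS' hq hqM) _
      fun x => rfl))
    (tp_Φ hB hA _ (mactO_map (nuL hM (η ^ 2) hq) (nuL_tw hM (η ^ 2) η hS hS' hq hqM) _
      fun x => rfl))
    (tp_Φ hA hA _ (mactO_map (tH hM (η ^ 2) hq hqM Λ) (tqL_tw hM hS (η ^ 2) η hq hqM) _
      fun x => rfl))
    (tp_Φ hA hA _ (fun P x => (map_smul (mact hM hS (η ^ 2) η ee P) (u : Λ) x).symm))
    ?_ ?_ ?_ ?_ ?_ ?_ ?_ ?_ ret ?_ ?_ t (tb ^ 2) (-(v' : R)) (-((v'⁻¹ : Rˣ) : R)) c c' ?_ ?_ ?_ ?_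
    hc'
  · intro x
    rw [hdia, hdia1, LinearEquiv.apply_symm_apply, smul_smul, Units.mul_inv, one_smul,
      LinearEquiv.symm_apply_apply]
  · intro x
    rw [hdia1, hdia, LinearEquiv.apply_symm_apply, smul_smul, Units.inv_mul, one_smul,
      LinearEquiv.symm_apply_apply]
  · intro x
    change iA.symm (tqM hM hS (η ^ 2) η ee hq hqM (iA (iA.symm ((u : Λ) • iA x)))) =
      iA.symm ((u : Λ) • iA (iA.symm (tqM hM hS (η ^ 2) η ee hq hqM (iA x))))
    rw [LinearEquiv.apply_symm_apply, LinearEquiv.apply_symm_apply, map_smul]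
  · intro x
    change iA.symm (trM hM hS hS' (η ^ 2) η ee hq hqM (iB (iB.symm
      (resM hM hS hS' (η ^ 2) η ee (iA x))))) = _
    rw [LinearEquiv.apply_symm_apply, trM_resM, map_nsmul, LinearEquiv.symm_apply_apply, hnat]
  · intro x
    change iA.symm (trM hM hS hS' (η ^ 2) η ee hq hqM (iB (iB.symm
      (degM hM hS hS' (η ^ 2) η ee hq hqN (iA x))))) = iA.symm _
    rw [LinearEquiv.apply_symm_apply, trM_degM]
    rfl
  · intro x
    change iA.symm (nuM hM hS hS' (η ^ 2) η ee hq hqM (iB (iB.symm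
      (resM hM hS hS' (η ^ 2) η ee (iA x))))) = iA.symm _
    rw [LinearEquiv.apply_symm_apply, nuM_resM]
    rfl
  · intro x
    change iA.symm (nuM hM hS hS' (η ^ 2) η ee hq hqM (iB (iB.symm
      (degM hM hS hS' (η ^ 2) η ee hq hqN (iA x))))) = _
    rw [LinearEquiv.apply_symm_apply, nuM_degM, map_nsmul, hnat, hdia]
  · intro a b
    obtain ⟨x, h1, h2⟩ := exists_tr_nu_eq hM hS hS' (η ^ 2) η hOR hθ hgΛ hgΛ' hgO
      (sq_neg_one η) hψ1 hη1 he he' hNE1' hNE2' hq hqM (iA a) (iA b)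
    refine ⟨iB.symm x, ?_, ?_⟩
    · change iA.symm (trM hM hS hS' (η ^ 2) η ee hq hqM (iB (iB.symm x))) = a
      rw [LinearEquiv.apply_symm_apply, h1, LinearEquiv.symm_apply_apply]
    · change iA.symm (nuM hM hS hS' (η ^ 2) η ee hq hqM (iB (iB.symm x))) = b
      rw [LinearEquiv.apply_symm_apply, h2, LinearEquiv.symm_apply_apply]
  · intro g x
    have h1 : rr (iB (B.Ψ g x)) = MonoidAlgebra.of O (Dlt p e) g • rr (iB x) := by
      rw [hB.Ψ]
      exact map_smul rr _ _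
    change (iA.symm (rr (iB (B.Ψ g x))).1, iA.symm (rr (iB (B.Ψ g x))).2) = _
    rw [h1]
    change (iA.symm (diam hM hS (η ^ 2) η ee g (rr (iB x)).1),
      iA.symm (diam hM hS (η ^ 2) η ee g (rr (iB x)).2)) = _
    rw [hA.Ψ_symm, hA.Ψ_symm]
    rfl
  · intro a b
    have h1 : rr (iB (res a + deg b)) = (iA a, iA b) := by
      have h2 : iB (res a + deg b) = oldM hM hS hS' (η ^ 2) η hq hqN (iA a, iA b) := by
        rw [map_add, oldM_apply]
        congr 1
        · exact iB.apply_symm_apply _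
        · exact iB.apply_symm_apply _
      rw [h2]
      exact LinearMap.congr_fun hrr (iA a, iA b)
    change (iA.symm (rr (iB (res a + deg b))).1, iA.symm (rr (iB (res a + deg b))).2) = (a, b)
    rw [h1, LinearEquiv.symm_apply_apply, LinearEquiv.symm_apply_apply]
  · rw [neg_mul_neg, Units.mul_inv]
  · intro x
    change iA.symm (tqM hM hS (η ^ 2) η ee hq hqM (iA (iA.symm
      (tqM hM hS (η ^ 2) η ee hq hqM (iA x))))) = iA.symm ((u : Λ) • iA (A.Φ (π (tb ^ 2)) x))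
    have h5 : A.Φ (π (tb ^ 2)) x = A.Φ (π tb) (A.Φ (π tb) x) := by
      rw [sq tb, map_mul π, map_mul A.Φ]
      rfl
    have h6 : (u : Λ) = ((η (ZMod.unitOfCoprime q hqN) : Λˣ) : Λ) *
        ((η (ZMod.unitOfCoprime q hqN) : Λˣ) : Λ) := by
      rw [hu, MonoidHom.pow_apply, Units.val_pow_eq_pow_val, sq]
    rw [LinearEquiv.apply_symm_apply, htq (iA x), map_smul, htq, LinearEquiv.symm_apply_apply,
      LinearEquiv.symm_apply_apply, smul_smul, h5, h6]
  · rw [neg_mul, ← hv]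
    ring
  · exact kills_step hM hS hS' hSL hpO hη hq hqM hgΛ' he' hNE2 hA hB _ hD

end Main

end Fermat.Agent.H41.Step
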