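import Fermat.Agent.S41
import Fermat.Agent.H41Step

/-!
# Reader's guide: Ihara's lemma and level raising, the steps of the proofs

Written by helper41. This file is a companion of `GuideLevelsRaising` (S41: level raising) and of
`GuideLiftingHecke` (S59, S60: one raising step). It shows the steps between the theorems of those files.

**Ihara's lemma** (sections 1-4). Let `q` be a prime, `q ∤ N`, and let `m₁, m₂` be modular symbols of level
`N` with coefficients in a field and with `m₁ + m₂|diag(q, 1) = 0`. The theorem `ihara_symbols` of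
`GuideLevelsRaising` says that `m₁` and `m₂` are zero if they belong to a system of eigenvalues which is not
Eisenstein. The proof is elementary; neither the congruence subgroup property of `SL₂(ℤ[1/q])` nor geometry
is used:

1. (section 2) `Γ₀(N)` and its conjugate by `diag(q, 1)` generate the group `Γ₀(N)` of `SL₂(ℤ[1/q])`, so
   `m₁` is invariant under it.
2. (section 1) A *germ* is a homomorphism from a principal congruence subgroup of `SL₂(ℤ[1/q])` to an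
   abelian group which is zero on the elements with a fixed point on `P¹(ℚ)`. Conjugation by `diag(q, 1/q)`
   fixes all germs: this is an explicit computation with matrices and two primes in arithmetic progressions
   (theorem of Dirichlet). Hence all of `SL₂(ℚ)` acts trivially on germs, because it is the
   normal closure of this matrix in `GL₂(ℚ)`.
3. (section 3) So two elements of `GL₂(ℚ)` of the same determinant act in the same way on `m₁` up to
   *boundary symbols*, and `T_ℓ² m₁ = (ℓ + 1)² m₁` up to boundary symbols. On boundary symbols `T_ℓ = ℓ + 1`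
   if `ℓ ≡ 1` modulo a suitable number. A system of eigenvalues with `a_ℓ² ≠ (ℓ + 1)²` for one `ℓ` and
   `a_ℓ ≠ ℓ + 1` for some `ℓ ≡ 1` modulo every number does not occur.
4. (section 4) The same for homomorphisms `Γ₀(N) → A` instead of symbols: after application of
   `T_ℓ - (ℓ + 1)`, `ℓ ≡ 1` modulo `N q`, the homomorphisms are zero on the stabilisers of the cusps and
   come from symbols.

**Level raising** (section 5): the algebra behind `congruence_module` and the passage from a functional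
modulo `p` to an eigenvector in characteristic zero. **One raising step** (section 6): eigensystems of
quotients and of the kernel of the two traces, and the step for the localised cohomology modules. The
adjoints and the duality which turn `ihara_symbols` into the surjectivity of the two traces are in
`GuideSymbolDuality`.

**Notation.** As in `GuideLevelsRaising`: `H41.Symb R X A` are the functions `m : X × X → A` with
`m(x, y) + m(y, z) = m(x, z)`, `H41.slash g m` is `m|g`, i.e. `(x, y) ↦ m(g x, g y)`, `H41.inv R X A Γ` are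
the symbols invariant under `Γ`, `H41.G0 N` is `Γ₀(N)` in `GL₂(ℚ)`, `H41.hT ℓ` the operator `T_ℓ`
(`H41.tOp`: the same on the symbols of a level), `H41.hd q` the matrix `diag(q, 1)`. `OnePoint ℚ` is
`P¹(ℚ)`. New here: `H41.dt g` is the determinant of `g ∈ GL₂(ℚ)` as a rational number, `H41.Um t`,
`H41.Dm u` the matrices `(1 t; 0 1)`, `(u 0; 0 u⁻¹)`.

**Serves** sections 1-4: S01, S03, S04, S06, S38, S41, S45, S46, S50, S59, S60. Section 5: S41. Section 6:
the same as sections 1-4 without S41. **Notes**: NOTES-S41 [203], NOTES-S59-STEP [205].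
-/

set_option autoImplicit false

namespace Fermat.Agent.Guide.IharaSteps

open Matrix Matrix.SpecialLinearGroup CongruenceSubgroup IsLocalRing
open scoped MatrixGroups TensorProduct

/-! ### 1. Congruence subgroups of `SL₂(ℤ[1/q])` and germs -/

/-- **The ideal `M ℤ[1/q]`** of `ℤ[1/q]` as a subset of `ℚ` is `H41.JA q M`. (For `q = 1` it is `M ℤ`.) -/
theorem mem_ideal_iff {q M : ℕ} {x : ℚ} :
    x ∈ H41.JA q M ↔ ∃ (n : ℕ) (z : ℤ), x * (q : ℚ) ^ n = (M : ℚ) * z :=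
  Iff.rfl

/-- **The principal congruence subgroup** `Γ(M; ℤ[1/q])` is `H41.GamA q M`: matrices of determinant one,
congruent to the unit matrix modulo `M ℤ[1/q]`. (`H41.GamA 1 M` is the usual `Γ(M)`.) -/
theorem mem_congruenceSubgroup_iff {q M : ℕ} {g : GL (Fin 2) ℚ} :
    g ∈ H41.GamA q M ↔ H41.dt g = 1 ∧ g 0 0 - 1 ∈ H41.JA q M ∧ g 0 1 ∈ H41.JA q M ∧
      g 1 0 ∈ H41.JA q M ∧ g 1 1 - 1 ∈ H41.JA q M :=
  Iff.rfl

/-- **Germs of level `M`**: functions on `GL₂(ℚ)` whose restriction to `Γ(M; ℤ[1/q])` is a homomorphism to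
the abelian group `k` and is zero on all elements which fix a point of `P¹(ℚ)`. -/
theorem isGerm_iff {k : Type*} [AddCommGroup k] {q M : ℕ} {φ : GL (Fin 2) ℚ → k} :
    H41.IsGerm q M φ ↔
      (∀ x ∈ H41.GamA q M, ∀ y ∈ H41.GamA q M, φ (x * y) = φ x + φ y) ∧
      ∀ x ∈ H41.GamA q M, ∀ r : OnePoint ℚ, x • r = r → φ x = 0 :=
  ⟨fun h => ⟨h.map_mul, h.fix⟩, fun h => ⟨h.1, h.2⟩⟩

/-- **The computation behind Ihara's lemma.** If the upper left entry `a` of `x` divides `u² - 1` in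
`ℤ[1/q]`, `u` a unit, then conjugation of `x` by `diag(u, u⁻¹)` does not change the value of a germ: the
conjugate is `(1 0; s 1) x (1 t; 0 1)` with `s, t ∈ M ℤ[1/q]`, and a germ is zero on the two unipotent
matrices. (`H41Germs`) -/
theorem germ_conj_diag {k : Type*} [AddCommGroup k] {q M : ℕ} {φ : GL (Fin 2) ℚ → k}
    (h : H41.IsGerm q M φ) {x : GL (Fin 2) ℚ} (hx : x ∈ H41.GamA q M) {u : ℚ} (hu : u ≠ 0)
    (h2 : u⁻¹ ∈ H41.JA q 1) (ha : x 0 0 ≠ 0) (hdiv : (u ^ 2 - 1) / x 0 0 ∈ H41.JA q 1) :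
    φ (H41.Dm u hu * x * (H41.Dm u hu)⁻¹) = φ x :=
  h.conj_Dm_key hx hu h2 ha hdiv

/-- **First consequence.** If the upper left entry of `x` is `± ℓ / q^s` with a prime `ℓ ≠ q`,
`ℓ = 2 i + 1`, then conjugation by `diag(q^i, q^(-i))` does not change the values of germs at `x`: `ℓ`
divides `q^(2 i) - 1` by Fermat's little theorem. (`H41Germs`) -/
theorem germ_conj_diag_of_prime {k : Type*} [AddCommGroup k] {q M : ℕ} (hq : q ≠ 0)
    {x : GL (Fin 2) ℚ} (hx : x ∈ H41.GamA q M) (hqp : q.Prime) {ℓ : ℕ} (hℓ : ℓ.Prime) (hℓq : ℓ ≠ q)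
    {ε : ℚ} (hε : ε = 1 ∨ ε = -1) {s : ℕ} (ha : x 0 0 = ε * ℓ / (q : ℚ) ^ s) {i : ℕ}
    (hi : 2 * i = ℓ - 1) (φ : GL (Fin 2) ℚ → k) (h : H41.IsGerm q M φ) :
    φ (H41.Dm ((q : ℚ) ^ (i : ℤ)) (zpow_ne_zero _ (by exact_mod_cast hq)) * x *
      (H41.Dm ((q : ℚ) ^ (i : ℤ)) (zpow_ne_zero _ (by exact_mod_cast hq)))⁻¹) = φ x :=
  H41.mem_Iset_of_prime (hq := hq) hx hqp hℓ hℓq hε ha hi φ h

/-- **Conjugation by `diag(q, q⁻¹)` fixes all germs** of level `M` prime to `q`. Multiplication of `x` by a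
lower unipotent matrix does not change the question and replaces its upper left entry `a` by `a + b t`,
`b ≠ 0` the upper right entry. By Dirichlet's theorem one can obtain `ℓ₁ / q^s` and also `- ℓ₂ / q^s` with
primes `ℓ₁, ℓ₂` such that `(ℓ₁ - 1)/2` divides `(ℓ₂ - 1)/2 + 1`. The exponents `i` for which conjugation of
`x` by `diag(q^i, q^(-i))` is trivial on all germs form a group, so `i = 1` is one of them. (`H41Germs`) -/
theorem germ_conj_diag_q {k : Type*} [AddCommGroup k] {q M : ℕ} {φ : GL (Fin 2) ℚ → k}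
    (hqp : q.Prime) (hM : M ≠ 0) (hqM : ¬ q ∣ M) (h : H41.IsGerm q M φ) {x : GL (Fin 2) ℚ}
    (hx : x ∈ H41.GamA q M) (hq0 : (q : ℚ) ≠ 0) :
    φ (H41.Dm (q : ℚ) hq0 * x * (H41.Dm (q : ℚ) hq0)⁻¹) = φ x :=
  h.conj_Dq hqp hM hqM hx hq0

/-- Conjugation by an element of `GL₂(ℚ)` maps a principal congruence subgroup of sufficiently high level
`M'` (prime to `q`) into `Γ(M; ℤ[1/q])`. So `GL₂(ℚ)` acts on germs. (`H41Ihara`; also for `q = 1`.) -/
theorem conj_level {q : ℕ} (hq : q.Prime ∨ q = 1) (g : GL (Fin 2) ℚ) {M : ℕ} (hM : M ≠ 0)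
    (hqM : Nat.Coprime q M) :
    ∃ M' : ℕ, M' ≠ 0 ∧ Nat.Coprime q M' ∧ M ∣ M' ∧
      ∀ x ∈ H41.GamA q M', g * x * g⁻¹ ∈ H41.GamA q M :=
  H41.conj_level hq g hM hqM

/-- **`SL₂(ℚ)` acts trivially on germs**: for `g` of determinant one and a germ `φ` of level `M` there is a
level `M'` such that `φ(g x g⁻¹) = φ(x)` for `x ∈ Γ(M'; ℤ[1/q])`. The `g ∈ GL₂(ℚ)` which act trivially form
a normal subgroup, which contains `diag(q, q⁻¹)`, hence the commutators with unipotent matrices, hence all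
unipotent matrices and `SL₂(ℚ)`. (`H41Ihara`) -/
theorem SL2_trivial_on_germs {k : Type*} [AddCommGroup k] {q : ℕ} (hq : q.Prime)
    {g : GL (Fin 2) ℚ} (hg : H41.dt g = 1) (M : ℕ) (φ : GL (Fin 2) ℚ → k) (hM : M ≠ 0)
    (hqM : Nat.Coprime q M) (hφ : H41.IsGerm q M φ) :
    ∃ M' : ℕ, M' ≠ 0 ∧ Nat.Coprime q M' ∧ M ∣ M' ∧
      ∀ x ∈ H41.GamA q M', g * x * g⁻¹ ∈ H41.GamA q M ∧ φ (g * x * g⁻¹) = φ x :=
  H41.SL_le_KK (k := k) hq hg M φ hM hqM hφ

/-! ### 2. Generation -/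

/-- A group which contains `Γ₀(N)` and its conjugate by `diag(q, 1)` contains `diag(q, q⁻¹)`. (`H41Ihara`;
an explicit product, from `q w - N z = 1`.) -/
theorem diag_mem {q N : ℕ} {S : Subgroup (GL (Fin 2) ℚ)} (hq : q ≠ 0) (hc : Nat.Coprime q N)
    (h1 : H41.G0 N ≤ S) (h2 : ∀ g ∈ H41.G0 N, (H41.hd q)⁻¹ * g * H41.hd q ∈ S)
    (hq0 : (q : ℚ) ≠ 0) : H41.Dm q hq0 ∈ S :=
  H41.Dm_mem_of hq hc h1 h2 hq0

/-- ... hence all unipotent matrices `(1 b; 0 1)` with `b ∈ ℤ[1/q]`. (`H41Ihara`) -/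
theorem unipotent_mem {q : ℕ} {S : Subgroup (GL (Fin 2) ℚ)} (hq0 : (q : ℚ) ≠ 0)
    (hD : H41.Dm q hq0 ∈ S) (hU : ∀ z : ℤ, H41.Um (z : ℚ) ∈ S) (n : ℕ) (b : ℚ)
    (hb : ∃ z : ℤ, b * (q : ℚ) ^ n = z) : H41.Um b ∈ S :=
  H41.Um_mem_of_Dm hq0 hD hU n b hb

/-- ... hence the whole group `Γ₀(N; ℤ[1/q])` (theorem `generation` of `GuideLevelsRaising`), in particular
`Γ(N; ℤ[1/q])`. (`H41Ihara`) -/
theorem congruenceSubgroup_le {q N : ℕ} {S : Subgroup (GL (Fin 2) ℚ)} (hq : q.Prime)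
    (hc : Nat.Coprime q N) (h1 : H41.G0 N ≤ S)
    (h2 : ∀ g ∈ H41.G0 N, (H41.hd q)⁻¹ * g * H41.hd q ∈ S) : H41.GamA q N ≤ S :=
  H41.GamA_le_of hq hc h1 h2

/-- **A relation gives invariance.** If `m₁ + m₂|diag(q, 1) = 0` for two symbols of level `N`, then `m₁` is
invariant under `Γ(N; ℤ[1/q])`. (`H41Bdry`) -/
theorem invariant_of_relation {R A : Type*} [CommRing R] [AddCommGroup A] [Module R A] {q N : ℕ}
    (hq : q.Prime) (hc : Nat.Coprime q N) {m₁ m₂ : H41.Symb R (OnePoint ℚ) A}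
    (h₁ : m₁ ∈ H41.inv R (OnePoint ℚ) A (H41.G0 N))
    (h₂ : m₂ ∈ H41.inv R (OnePoint ℚ) A (H41.G0 N)) (h : m₁ + H41.slash (H41.hd q) m₂ = 0)
    (g : GL (Fin 2) ℚ) (hg : g ∈ H41.GamA q N) : H41.slash g m₁ = m₁ :=
  H41.GamA_le_stab hq hc h₁ h₂ h hg

/-! ### 3. Boundary symbols -/

/-- **Boundary symbols**: the symbols `b` such that `b(x r, r) = 0` for all cusps `r` and all `x` in some
`Γ(M)`. -/
theorem mem_boundary_iff {R A : Type*} [CommRing R] [AddCommGroup A] [Module R A]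
    {b : H41.Symb R (OnePoint ℚ) A} :
    b ∈ H41.Bdry R A ↔ ∃ M : ℕ, M ≠ 0 ∧ ∀ x ∈ H41.GamA 1 M, ∀ r : OnePoint ℚ, b.1 (x • r) r = 0 :=
  Iff.rfl

/-- **The germ of a symbol** `m` which is invariant under `Γ(N; ℤ[1/q])` is `x ↦ m(x ∞, ∞)`. (`H41Bdry`) -/
theorem germ_of_symbol {R A : Type*} [CommRing R] [AddCommGroup A] [Module R A] {q N : ℕ}
    {m : H41.Symb R (OnePoint ℚ) A} (hm : ∀ g ∈ H41.GamA q N, H41.slash g m = m) :
    H41.IsGerm q N (fun x => m.1 (x • OnePoint.infty) OnePoint.infty) :=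
  H41.isGerm_of_symb (m := m) hm

/-- **Only the determinant matters.** For a symbol `m` invariant under `Γ(N; ℤ[1/q])` and `g, h ∈ GL₂(ℚ)` of
the same determinant, `m|g - m|h` is a boundary symbol. (`H41Bdry`, from `SL2_trivial_on_germs`) -/
theorem same_determinant {R A : Type*} [CommRing R] [AddCommGroup A] [Module R A] {q N : ℕ}
    (hq : q.Prime) (hN : N ≠ 0) (hc : Nat.Coprime q N) {m : H41.Symb R (OnePoint ℚ) A}
    (hm : ∀ g ∈ H41.GamA q N, H41.slash g m = m) {g h : GL (Fin 2) ℚ} (hg : H41.dt g = H41.dt h) :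
    H41.slash g m - H41.slash h m ∈ H41.Bdry R A :=
  H41.slash_sub_slash_mem_Bdry hq hN hc hm hg

/-- **`T_ℓ² m = (ℓ + 1)² m` up to boundary symbols**: the products of two of the `ℓ + 1` matrices of `T_ℓ`
all have determinant `ℓ²`, as the scalar matrix `ℓ`, which acts trivially. (`H41Bdry`) -/
theorem hecke_square {R A : Type*} [CommRing R] [AddCommGroup A] [Module R A] {q N : ℕ}
    (hq : q.Prime) (hN : N ≠ 0) (hc : Nat.Coprime q N) {m : H41.Symb R (OnePoint ℚ) A}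
    (hm : ∀ g ∈ H41.GamA q N, H41.slash g m = m) {ℓ : ℕ} (hℓ : ℓ ≠ 0) :
    H41.hT ℓ (H41.hT ℓ m) - ((ℓ + 1) ^ 2) • m ∈ H41.Bdry R A :=
  H41.hT_hT_sub_mem_Bdry hq hN hc hm hℓ

/-- **The matrices of `T_ℓ`**, `ℓ` a prime, are `H41.hrep ℓ x` for `x ∈ P¹(𝔽_ℓ)`: `H41.hm ℓ j = (1 j; 0 ℓ)`
for `x = j` and `diag(ℓ, 1)` for `x = ∞`. If `ℓ ∤ N`, right multiplication by an element `g` of `Γ₀(N)`
permutes them up to `Γ₀(N)` on the left: `x` is replaced by `H41.red ℓ g • x`, where `H41.red ℓ g` is the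
matrix `(d b; c a)` modulo `ℓ` for `g = (a b; c d)` (a right action of `g` on `P¹(𝔽_ℓ)`). (`H41Defs`) -/
theorem hecke_matrices {X R A : Type*} [MulAction (GL (Fin 2) ℚ) X] [CommRing R] [AddCommGroup A]
    [Module R A] {ℓ : ℕ} [Fact ℓ.Prime] [NeZero ℓ] :
    (∀ j : ZMod ℓ, H41.hrep ℓ (j : OnePoint (ZMod ℓ)) = H41.hm ℓ j.val) ∧
    H41.hrep ℓ (OnePoint.infty : OnePoint (ZMod ℓ)) = H41.hd ℓ ∧
    (∀ m : H41.Symb R X A, H41.hT ℓ m = ∑ x : OnePoint (ZMod ℓ), H41.slash (H41.hrep ℓ x) m) ∧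
    ∀ N : ℕ, ¬ ℓ ∣ N → ∀ g : SL(2, ℤ), (N : ℤ) ∣ g 1 0 → ∀ x : OnePoint (ZMod ℓ),
      ∃ g' : SL(2, ℤ), (N : ℤ) ∣ g' 1 0 ∧
        H41.hrep ℓ x * mapGL ℚ g = mapGL ℚ g' * H41.hrep ℓ (H41.red ℓ g • x) :=
  ⟨fun _ => rfl, rfl, H41.hT_eq_sum, fun _ hℓN g hg x => H41.hrep_mul hℓN g hg x⟩

/-- **The same matrices modulo `M`**, `ℓ ≡ 1` modulo `M`, and on the cusps. Let `j = H41.jj x` be the integer
`j` above, and `0` for `x = ∞`. The matrix is congruent modulo `M` to the translation `(1 j; 0 1)`, and it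
maps each cusp `r` to the same orbit of `Γ(M)` as the translation. Proof of the second part: let `r = γ ∞`,
`γ ∈ SL₂(ℤ)`; by `hecke_matrices` (`N = 1`) the product of the matrix and `γ` is `g'` times another one of
them, which fixes `∞`, so the image of `r` is `g' ∞`; now compare `g'` times a translation with the
translation times `γ` modulo `M`. (`H41Bdry`) -/
theorem hecke_matrices_on_cusps {ℓ : ℕ} [Fact ℓ.Prime] {M : ℕ} (hM : (M : ℤ) ∣ (ℓ : ℤ) - 1)
    (x : OnePoint (ZMod ℓ)) :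
    (∀ i j : Fin 2, H41.hrep ℓ x i j - (H41.Um (H41.jj x : ℚ)) i j ∈ H41.JA 1 M) ∧
    ∀ r : OnePoint ℚ, ∃ y ∈ H41.GamA 1 M, H41.hrep ℓ x • r = y • (H41.Um (H41.jj x : ℚ) • r) :=
  ⟨H41.hrep_cong hM x, H41.hrep_smul_eq hM x⟩

/-- **`T_ℓ = ℓ + 1` on the boundary symbols of level `N`**, for the primes `ℓ ≡ 1` modulo `M` (`M` as in
`mem_boundary_iff`): for such `ℓ` each of the `ℓ + 1` matrices acts on the orbits of `Γ(M)` on the cusps as
an integral translation (`hecke_matrices_on_cusps`), which is in `Γ₀(N)`. (`H41Bdry`) -/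
theorem hecke_on_boundary {R A : Type*} [CommRing R] [AddCommGroup A] [Module R A]
    {b : H41.Symb R (OnePoint ℚ) A} {N : ℕ} (hb : b ∈ H41.inv R (OnePoint ℚ) A (H41.G0 N)) {M : ℕ}
    (hM : ∀ x ∈ H41.GamA 1 M, ∀ r : OnePoint ℚ, b.1 (x • r) r = 0) {ℓ : ℕ} (hℓ : ℓ.Prime)
    (h1 : (M : ℤ) ∣ (ℓ : ℤ) - 1) : H41.hT ℓ b = (ℓ + 1) • b :=
  H41.hT_of_bdry hb hM hℓ h1

/-! ### 4. From symbols to homomorphisms -/

/-- **Periods.** For a symbol `m` invariant under `Γ` the period `m(g x, x)` of `g ∈ Γ` does not depend on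
`x`, and it is a homomorphism on `Γ`. (`H41Defs`) -/
theorem periods {G X R A : Type*} [Group G] [MulAction G X] [CommRing R] [AddCommGroup A] [Module R A]
    {Γ : Subgroup G} {m : H41.Symb R X A} (hm : m ∈ H41.inv R X A Γ) {g h : G} (hg : g ∈ Γ) (x y : X) :
    m.1 (g • x) x = m.1 (g • y) y ∧ m.1 ((g * h) • x) x = m.1 (g • x) x + m.1 (h • x) x :=
  ⟨H41.per_indep hm hg x y, H41.per_mul hm hg x⟩

/-- **Parabolic homomorphisms are periods.** Let `Γ` act on a set `X`. A homomorphism `φ : Γ → A` which is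
zero on the stabilisers of all points of `X` is `g ↦ m(g x, x)` for a `Γ`-invariant symbol `m` on `X`.
(`H41Parab`) -/
theorem symbol_of_hom {G X A : Type*} [Group G] [MulAction G X] [AddCommGroup A] (R : Type*)
    [CommRing R] [Module R A] (Γ : Subgroup G) (φ : G → A)
    (hφ : ∀ g ∈ Γ, ∀ h ∈ Γ, φ (g * h) = φ g + φ h)
    (hfix : ∀ g ∈ Γ, ∀ x : X, g • x = x → φ g = 0) :
    ∃ m ∈ H41.inv R X A Γ, ∀ g ∈ Γ, ∀ x : X, m.1 (g • x) x = φ g :=
  H41.exists_symb_of_hom R Γ φ hφ hfix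

/-- **Translations and the Hecke matrices.** Right multiplication by the translation `(1 k; 0 1)` permutes
the matrices of `T_ℓ` by `x ↦ x + k` (`H41.shiftPerm ℓ k`), up to translations by integers `b(x)` on the
left whose sum is `(ℓ + 1) k`. (`H41Parab`) -/
theorem hecke_matrices_translation {ℓ : ℕ} [Fact ℓ.Prime] (k : ℤ) :
    ∃ b : OnePoint (ZMod ℓ) → ℤ,
      (∀ x, H41.hrep ℓ x * H41.Um (k : ℚ) = H41.Um (b x : ℚ) * H41.hrep ℓ (H41.shiftPerm ℓ k x)) ∧
      (∀ j : ZMod ℓ, (j.val : ℤ) + k = ((j + k : ZMod ℓ).val : ℤ) + ℓ * b (j : OnePoint (ZMod ℓ))) ∧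
      b OnePoint.infty = ℓ * k ∧ ∑ x, b x = (ℓ + 1) * k :=
  let ⟨b, h1, _, h2, h3, h4⟩ := H41.exists_shift (ℓ := ℓ) k
  ⟨b, h1, h2, h3, h4⟩

/-- **`T_ℓ - (ℓ + 1)` kills the unipotent elements** `γ = g (1 k; 0 1) g⁻¹` of `Γ₀(N)`, `g ∈ SL₂(ℤ)`, for the
primes `ℓ ≡ 1` modulo `N`. Proof: with `j = jj x` the matrices `M_x = g (1 -j; 0 1) (hrep ℓ x) g⁻¹` are
congruent to `1` modulo `N` (`hecke_matrices_on_cusps`), so `T_ℓ n` can be computed with them
(`hecke_representatives` of `GuideRaisingSteps`). By `hecke_matrices_translation`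
`M_x γ = g (1 a; 0 1) g⁻¹ M_(x + k)` with `a = a(x) = b(x) + jj(x + k) - jj(x)`; these integers are
`k + N t(x)`, and their sum is `(ℓ + 1) k`. So the period of `T_ℓ n` at `γ` is the sum over `x` of the
periods of `n` at `g (1 a; 0 1) g⁻¹`, which is `ℓ + 1` times the one at `γ`, as the sum of the `t(x)` is `0`.
(`H41Parab`) -/
theorem periods_of_unipotent {X R A : Type*} [MulAction (GL (Fin 2) ℚ) X] [CommRing R] [AddCommGroup A]
    [Module R A] {N ℓ : ℕ} (hN : N ≠ 0) (hℓ : ℓ.Prime) (hℓN : ¬ ℓ ∣ N)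
    (h1 : (N : ℤ) ∣ (ℓ : ℤ) - 1) {n : H41.Symb R X A} (hn : n ∈ H41.inv R X A (H41.G0 N))
    (g : SL(2, ℤ)) (k : ℤ)
    (hγ : (mapGL ℚ g : GL (Fin 2) ℚ) * H41.Um (k : ℚ) * (mapGL ℚ g)⁻¹ ∈ H41.G0 N) (o : X) :
    (H41.hT ℓ n).1 (((mapGL ℚ g : GL (Fin 2) ℚ) * H41.Um (k : ℚ) * (mapGL ℚ g)⁻¹) • o) o =
      (ℓ + 1) • n.1 (((mapGL ℚ g : GL (Fin 2) ℚ) * H41.Um (k : ℚ) * (mapGL ℚ g)⁻¹) • o) o :=
  H41.hT_per_of_unip hN hℓ hℓN h1 hn g k hγ o

/-- **`T_ℓ - (ℓ + 1)` kills the stabilisers of cusps**, `ℓ ≡ 1` modulo `N`: for a symbol `n` of level `N` on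
a set `X` on which the scalar matrices act trivially (`H41.SclTriv`), and `γ ∈ Γ₀(N)` with a fixed point `r`
on `P¹(ℚ)`, the period of `T_ℓ n` at `γ` is `ℓ + 1` times the one of `n`: `γ` is `± 1` times an element as in
`periods_of_unipotent`, `g ∞ = r`. (`H41Parab`) -/
theorem periods_at_cusps {X R A : Type*} [MulAction (GL (Fin 2) ℚ) X] [CommRing R] [AddCommGroup A]
    [Module R A] [H41.SclTriv X] {N ℓ : ℕ} (hN : N ≠ 0) (hℓ : ℓ.Prime) (hℓN : ¬ ℓ ∣ N)
    (h1 : (N : ℤ) ∣ (ℓ : ℤ) - 1) {n : H41.Symb R X A} (hn : n ∈ H41.inv R X A (H41.G0 N))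
    {γ : GL (Fin 2) ℚ} (hγ : γ ∈ H41.G0 N) {r : OnePoint ℚ} (hr : γ • r = r) (o : X) :
    (H41.hT ℓ n).1 (γ • o) o = (ℓ + 1) • n.1 (γ • o) o :=
  H41.hT_per_of_fix hN hℓ hℓN h1 hn hγ hr o

/-- **Invariant symbols with zero periods are boundary symbols**, so `T_ℓ = ℓ + 1` on them for the primes
`ℓ ≡ 1` modulo `N`. (`H41IharaHom`) -/
theorem hecke_of_zero_periods {R A : Type*} [CommRing R] [AddCommGroup A] [Module R A] {N ℓ : ℕ}
    {b : H41.Symb R (OnePoint ℚ) A} (hb : b ∈ H41.inv R (OnePoint ℚ) A (H41.G0 N))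
    (hper : ∀ γ ∈ H41.G0 N, ∀ r : OnePoint ℚ, b.1 (γ • r) r = 0) (hℓ : ℓ.Prime)
    (h1 : (N : ℤ) ∣ (ℓ : ℤ) - 1) : H41.hT ℓ b = (ℓ + 1) • b :=
  H41.hT_of_per_zero hb hper hℓ h1

/-- **Ihara's lemma for homomorphisms**, coefficients in a field `F`. All homomorphisms `Γ₀(N) → F` which
are zero at `-1` (so all, if `2 ≠ 0` in `F`) are periods `γ ↦ n(γ o, o)` of symbols `n` on the group
`PG = GL₂(ℚ)` modulo scalars (`Γ₀(N)` acts on it with stabilisers `± 1`, `o` is a base point). If the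
homomorphisms of `n₁` and `n₂` belong to a system of eigenvalues `a` which is not Eisenstein (`hNE1`,
`hNE2`), and the one of `n₁ + n₂|diag(q, 1)` is zero on `Γ₀(N q)`, then both are zero. (`H41IharaHom`; this
is the form used for the localised cohomology modules, `ihara_retraction` of `GuideLiftingHecke`.) -/
theorem ihara_hom_field {F : Type*} [Field F] {q N : ℕ} (hq : q.Prime) (hN : N ≠ 0)
    (hc : Nat.Coprime q N) {n₁ n₂ : H41.Symb F H41.PG F}
    (hn₁ : n₁ ∈ H41.inv F H41.PG F (H41.G0 N))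
    (hn₂ : n₂ ∈ H41.inv F H41.PG F (H41.G0 N)) (o : H41.PG)
    (hper : ∀ γ ∈ H41.G0 (N * q), n₁.1 (γ • o) o + (H41.slash (H41.hd q) n₂).1 (γ • o) o = 0)
    (S : Set ℕ) (hS : ∀ ℓ ∈ S, ℓ.Prime ∧ ¬ ℓ ∣ N * q) (a : ℕ → F)
    (hT₁ : ∀ ℓ ∈ S, ∀ γ ∈ H41.G0 N, (H41.hT ℓ n₁).1 (γ • o) o = a ℓ * n₁.1 (γ • o) o)
    (hT₂ : ∀ ℓ ∈ S, ∀ γ ∈ H41.G0 N, (H41.hT ℓ n₂).1 (γ • o) o = a ℓ * n₂.1 (γ • o) o)
    (hNE1 : ∃ ℓ ∈ S, (a ℓ) ^ 2 ≠ ((ℓ : F) + 1) ^ 2)
    (hNE2 : ∀ M : ℕ, M ≠ 0 → ∃ ℓ ∈ S, (M : ℤ) ∣ (ℓ : ℤ) - 1 ∧ a ℓ ≠ (ℓ : F) + 1) :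
    ∀ γ ∈ H41.G0 N, n₁.1 (γ • o) o = 0 ∧ n₂.1 (γ • o) o = 0 :=
  H41.ihara_hom_field hq hN hc hn₁ hn₂ o hper S hS a hT₁ hT₂ hNE1 hNE2

/-! ### 5. The algebra of level raising -/

/-- **Modules without socle.** Let `𝔪` be an ideal of `T` and `M` a `T`-module with finitely many elements
such that no `d ≠ 0` is killed by `𝔪`. Then `M` is killed by an element `r ≡ 1` modulo `𝔪`. (`H41Alg`) -/
theorem killed_of_no_socle {T M : Type*} [CommRing T] [AddCommGroup M] [Module T M] [Finite M]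
    (𝔪 : Ideal T) (h : ∀ d : M, (∀ t ∈ 𝔪, t • d = 0) → d = 0) :
    ∃ r : T, r - 1 ∈ 𝔪 ∧ ∀ d : M, r • d = 0 :=
  H41.exists_onePlus_of_socle 𝔪 h

/-- **Functionals detect divisibility.** If there is no functional `≠ 0` modulo `p` on `M` with eigenvalues
`χ : T → ℤ/p`, then `M = (ker χ) M`. (`H41Alg`) -/
theorem le_smul_of_no_functional {T M : Type*} [CommRing T] [AddCommGroup M] [Module T M] {p : ℕ}
    [Fact p.Prime] (χ : T →+* ZMod p)
    (h : ∀ lam : M →+ ZMod p, (∀ (t : T) (m : M), lam (t • m) = χ t * lam m) → lam = 0) :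
    (⊤ : Submodule T M) ≤ RingHom.ker χ • (⊤ : Submodule T M) :=
  H41.le_smul_of_no_functional χ h

/-- **The kernel near `χ`.** Let `i : L × L → L'` be a homomorphism of abelian groups with operators `T`,
`L` finitely generated, `L'` without torsion, which is injective modulo `p` on the elements with eigenvalues
`χ` (`hI`; Ihara's lemma). Then the kernel of `i` is killed by an element `r ≡ 1` modulo `ker χ`. (`H41Alg`)
-/
theorem kernel_killed {T L L' : Type*} [CommRing T] [AddCommGroup L] [Module T L]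
    [Module.Finite ℤ L] [AddCommGroup L'] [Module T L'] [Module.IsTorsionFree ℤ L'] {p : ℕ}
    [Fact p.Prime] (χ : T →+* ZMod p) (i : (L × L) →ₗ[T] L')
    (hI : ∀ z : L × L, (∃ w : L', i z = p • w) → (∀ t ∈ RingHom.ker χ, ∃ z', t • z = p • z') →
      ∃ z', z = p • z') :
    ∃ r : T, r - 1 ∈ RingHom.ker χ ∧ ∀ z, i z = 0 → r • z = 0 :=
  H41.core_ker χ i hI

/-- **From a functional modulo `p` to an eigenvector** (Deligne-Serre lifting for functionals). Let `K` be a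
finite free group with commuting operators `t_i`, embedded in a complex vector space. A functional `μ ≠ 0`
modulo `p` on `K` with eigenvalues `a_i` gives an eigenvector `v ≠ 0` in the span of `K`, with algebraic
integers `α_i` as eigenvalues, and a maximal ideal `𝔪 ∋ p` with `α_i ≡ a_i` modulo `𝔪`. (`H41DS`) -/
theorem eigenvector_of_functional {p : ℕ} [Fact p.Prime] {ι E K : Type*} [AddCommGroup E]
    [Module ℂ E] (t : ι → E →ₗ[ℂ] E) [AddCommGroup K] [Module.Finite ℤ K]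
    [Module.IsTorsionFree ℤ K] (c : K →+ E) (hc : Function.Injective c) (tK : ι → K →+ K)
    (ht : ∀ i m, t i (c m) = c (tK i m)) (hcomm : ∀ i j m, tK i (tK j m) = tK j (tK i m))
    (a : ι → ZMod p) (μ : K →+ ZMod p) (hμ : ∀ i m, μ (tK i m) = a i * μ m) (hμ0 : μ ≠ 0) :
    ∃ (α : ι → integralClosure ℤ ℂ) (v : E) (𝔪 : Ideal (integralClosure ℤ ℂ)),
      v ≠ 0 ∧ v ∈ Submodule.span ℂ (Set.range c) ∧ 𝔪.IsMaximal ∧
      ((p : ℕ) : integralClosure ℤ ℂ) ∈ 𝔪 ∧ (∀ i, t i v = (α i : ℂ) • v) ∧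
      ∀ i, α i - (((a i).val : ℕ) : integralClosure ℤ ℂ) ∈ 𝔪 :=
  H41.exists_eigenvector_of_functional t c hc tK ht hcomm a μ hμ hμ0

/-- **The determinant is injective on non-Eisenstein symbols.** If `y = T_{ℓ₀} x - (ℓ₀ + 1) x`, `ℓ₀ ≡ 1`
modulo `N`, for an integral symbol `x` of level `N`, and `(q + 1)² y = T_q² y`, then `y = 0`: `y` gives a
pair of cusp forms, and the eigenvalues of `T_q` on cusp forms are smaller than `q + 1`. (`H41Raise`; the
hypothesis `hΔ` of `congruence_module`.) -/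
theorem delta_injective {N q ℓ₀ : ℕ} [NeZero N] (hq : q.Prime) (hqN : ¬ q ∣ N) (hℓ₀ : ℓ₀.Prime)
    (hℓ₀N : ¬ ℓ₀ ∣ N) (h1 : (N : ℤ) ∣ (ℓ₀ : ℤ) - 1) (x y : H41.inv ℤ (OnePoint ℚ) ℤ (H41.G0 N))
    (hy : y = H41.tOp ℤ ℤ N ℓ₀ hℓ₀ hℓ₀N x - (ℓ₀ + 1) • x)
    (h : ((q + 1) ^ 2) • y = H41.tOp ℤ ℤ N q hq hqN (H41.tOp ℤ ℤ N q hq hqN y)) : y = 0 :=
  H41.delta_inj hq hqN hℓ₀ hℓ₀N h1 x y hy h

/-! ### 6. One raising step for the modules of S59 -/

section Step

open Fermat.Agent.H69.EG (EMod Dlt)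

/-- **Eigensystems of a quotient** (abstract form). Let the finite `R`-algebra `A` act on `V` and on its
quotient `X`, `R` a noetherian domain, `V` finite. If `w ∈ X` is an eigenvector with eigenvalue `μ : A → R`
and is not a torsion element, there is an eigenvector `v ≠ 0` of `V` with the same eigenvalue: `ker μ` is in
the support of `X`, hence in the support of `V`, and it is minimal there. (`H41FullX`) -/
theorem eigensystem_of_quotient {R A V X : Type*} [CommRing R] [IsDomain R] [IsNoetherianRing R]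
    [CommRing A] [Algebra R A] [Module.Finite R A] [AddCommGroup V] [Module R V]
    [Module.Finite R V] [AddCommGroup X] [Module R X]
    (F : A →ₐ[R] Module.End R V) (G : A →ₐ[R] Module.End R X) (f : V →ₗ[R] X)
    (hf : Function.Surjective f) (hfe : ∀ a v, f (F a v) = G a (f v)) (μ : A →ₐ[R] R) (w : X)
    (hw : ∀ r : R, r • w = 0 → r = 0) (hμ : ∀ a, G a w = μ a • w) :
    ∃ v : V, v ≠ 0 ∧ ∀ a, F a v = μ a • v :=
  H41.FX.exists_eigen_of_surj F G f hf hfe μ w hw hμ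

/-- **The kernel of the two traces.** `A`, `B` are Hecke modules over the reduced ring `𝕋` with diamond
operators (`EMod`, see `GuideLiftingHecke`) and `tr, nu : B → A` are equivariant. If the eigenvalue of
`h ∈ 𝕋` is zero on all joint eigenvectors of `𝕋` and of the diamond operators in the kernel of `tr` and `nu`
(over extensions `O'` of `O`), then `h` kills this kernel. (`H41Step`; the ring generated by the operators
on the kernel is reduced.) This gives the hypothesis `hkill` of `raising_step`: points with both traces zero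
are new at `q`. -/
theorem kernel_of_traces_killed {O : Type} [CommRing O] [IsDomain O] [IsDiscreteValuationRing O]
    [IsAdicComplete (maximalIdeal O) O] [Finite (ResidueField O)] [CharZero O]
    {p : ℕ} [Fact p.Prime] {𝕋 : Type} [CommRing 𝕋] [Algebra O 𝕋] [Module.Finite O 𝕋] [IsReduced 𝕋]
    {r : ℕ} {e : Fin r → ℕ} (A B : EMod O p e 𝕋) (tr nu : B.M →ₗ[O] A.M)
    (htr : ∀ t x, tr (B.Φ t x) = A.Φ t (tr x)) (hnu : ∀ t x, nu (B.Φ t x) = A.Φ t (nu x))
    (htrΨ : ∀ g x, tr (B.Ψ g x) = A.Ψ g (tr x)) (hnuΨ : ∀ g x, nu (B.Ψ g x) = A.Ψ g (nu x))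
    (h : 𝕋)
    (hker : ∀ (O' : Type) [CommRing O'] [IsDomain O'] [IsDiscreteValuationRing O']
      [IsAdicComplete (maximalIdeal O') O'] [Finite (ResidueField O')] [CharZero O']
      [Algebra O O'] [Module.Finite O O'] [IsLocalHom (algebraMap O O')],
      Function.Injective (algebraMap O O') → ∀ (lam : 𝕋 →ₐ[O] O') (χ : Dlt p e →* O'ˣ)
        (x : O' ⊗[O] B.M), x ≠ 0 → (∀ t, (B.Φ t).baseChange O' x = lam t • x) →
        (∀ g, (B.Ψ g).baseChange O' x = ((χ g : O'ˣ) : O') • x) →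
        tr.baseChange O' x = 0 → nu.baseChange O' x = 0 → lam h = 0)
    (x : B.M) (hx : tr x = 0) (hx' : nu x = 0) : B.Φ h x = 0 :=
  H41.Step.kills_of_joint A B tr nu htr hnu htrΨ hnuΨ h hker x hx hx'

end Step

section Modules

open H70.Coh H70.Mod H59 H37.Rank H30 H69.EG H71.R H21M H41.FX CuspForm

variable {N M q L : ℕ} [NeZero N] [NeZero M] [NeZero q] [NeZero L] (hM : N ∣ M) {S : Set ℕ}
  (hS : Away M S) (hS' : Away (M * q) S) (hSL : ∀ q : ℕ, q.Prime → q ∣ L → q ∈ S)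
  {O : Type} [CommRing O] [IsDomain O] [IsDiscreteValuationRing O]
  [IsAdicComplete (maximalIdeal O) O] [Finite (ResidueField O)] [CharZero O]
  {p : ℕ} [Fact p.Prime] (hpO : (p : O) ∈ maximalIdeal O)
  {r : ℕ} {e : Fin r → ℕ} {η : (ZMod N)ˣ →* (MonoidAlgebra O (Dlt p e))ˣ}
  {θ : heckeAlgebra L 2 S →+* ResidueField O} {ee : MvPolynomial (Idx S) O} {sη : ℕ}

include hpO in
/-- **One raising step for the localised modules.** The modules of `raising_step` (`GuideLiftingHecke`) are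
here the localised cohomology modules `MLoc` of `Γ₀(M)` and `Γ₀(M q)` with coefficients `O[Δ]`, twisted by
`η`; the polynomial `ee` in the Hecke operators acts as the idempotent of the eigensystem `θ` modulo `p`.
`Away M S` says that `S` contains the primes dividing `M`, `IsModel` that the Hecke modules `A`, `B` are
isomorphic to these localised modules (by `iA`, `iB`).
The hypotheses `hNE1`, `hNE2` (`θ` is not Eisenstein) give by Ihara's lemma the surjectivity of the two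
traces and a retraction of the two degeneracy maps; `hD` gives `hkill`; `htq` and `htb` express `T_q` by the
elements `tb`, `t` of the deformation ring `R`. The conclusion is the new module `X` of the step `M → M q`
with its maps. (`H41Step`; used in the proof of S59.) -/
theorem raising_step_of_modules (hη : η ^ p ^ sη = 1)
    (hq : q.Prime) (hqM : ¬ q ∣ M) (hqN : q.Coprime N)
    (hgΛ : Good M (MonoidAlgebra O (Dlt p e))) (hgΛ' : Good (M * q) (MonoidAlgebra O (Dlt p e)))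
    (hgO : Good M O)
    (he : IsLocIdem (tw hM hS (η ^ 2) η) (tw_comm hM hS (η ^ 2) η) (thetaPoly L S hSL O θ) ee)
    (he' : IsLocIdem (tw (dvd_mul_q (q := q) hM) hS' (η ^ 2) η)
      (tw_comm (dvd_mul_q (q := q) hM) hS' (η ^ 2) η) (thetaPoly L S hSL O θ) ee)
    (hNE1 : ∃ i : Idx S, (θ (TIdx L S hSL i)) ^ 2 ≠ ((i.1 : ResidueField O) + 1) ^ 2)
    (hNE2 : ∀ D : ℕ, D ≠ 0 → ∃ i : Idx S, (D : ℤ) ∣ (i.1 : ℤ) - 1 ∧
      θ (TIdx L S hSL i) ≠ (i.1 : ResidueField O) + 1)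
    {A B : EMod O p e (heckeLocal L S O θ)}
    {iA : A.M ≃ₗ[O] MLoc hM hS (η ^ 2) η ee}
    {iB : B.M ≃ₗ[O] MLoc (dvd_mul_q (q := q) hM) hS' (η ^ 2) η ee}
    (hA : IsModel hM hS hSL (η ^ 2) η θ ee A iA)
    (hB : IsModel (dvd_mul_q (q := q) hM) hS' hSL (η ^ 2) η θ ee B iB)
    [Module.Finite O (heckeLocal L S O θ)] [IsReduced (heckeLocal L S O θ)]
    {R : Type} [CommRing R] [Algebra O R] (π : R →ₐ[O] heckeLocal L S O θ) (tb t : R) (c c' : O)
    (htq : ∀ x : MLoc hM hS (η ^ 2) η ee, tqM hM hS (η ^ 2) η ee hq hqM x =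
      ((η (ZMod.unitOfCoprime q hqN) : (MonoidAlgebra O (Dlt p e))ˣ) :
        MonoidAlgebra O (Dlt p e)) • iA (A.Φ (π tb) (iA.symm x)))
    (htb : ∃ v : R, IsUnit v ∧ tb ^ 2 - ((q : R) + 1) ^ 2 = v * (t * (t + algebraMap O R c)))
    (hD : ∀ (O' : Type) [CommRing O'] [IsDomain O'] [IsDiscreteValuationRing O']
      [IsAdicComplete (maximalIdeal O') O'] [Finite (ResidueField O')] [CharZero O']
      [Algebra O O'] [Module.Finite O O'] [IsLocalHom (algebraMap O O')],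
      Function.Injective (algebraMap O O') →
      ∀ (lam : heckeLocal L S O θ →ₐ[O] O') (η' : (ZMod N)ˣ →* O'ˣ)
      (x : H1 (gam N (M * q) (hM.mul_right q)) (psiRep (η' ^ 2) O')),
      (∃ k, η' ^ p ^ k = 1) →
      IsPt (hM.mul_right q) hS' η'
        (fun i => lam (heckeLocal.π L S O θ (TIdx L S hSL i))) x →
      (trFam hM).opH (psiRep (η' ^ 2) O') x = 0 → (nuFam hM hq).opH (psiRep (η' ^ 2) O') x = 0 →
      lam (π (t * (t + algebraMap O R c))) = 0)
    (hc' : ((q : O) + 1) ∣ c') :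
    ∃ (X : EMod O p e (heckeLocal L S O θ)) (quo : B.M →+ X.M) (low : B.M →+ A.M),
      X.d + 2 * A.d = B.d ∧
      (∀ {r' : Fin r → R}, B.Compat π r' → X.Compat π r') ∧
      (∀ s x, quo (B.Φ s x) = X.Φ s (quo x)) ∧ Function.Surjective quo ∧
      (∀ s x, low (B.Φ s x) = A.Φ s (low x)) ∧
      (∀ a, ∃ x, low x = c' • a) ∧
      (∀ x, quo x = 0 → ∃ a, low x = A.Φ (π t) a) ∧
      (∀ x : X.M, X.Φ (π ((t * (t + algebraMap O R c)) ^ 2)) x = 0) :=
  H41.Step.exists_newStep_model hM hS hS' hSL hpO hη hq hqM hqN hgΛ hgΛ' hgO he he' hNE1 hNE2 hA hB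
    π tb t c c' htq htb hD hc'

end Modules

end Fermat.Agent.Guide.IharaSteps
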