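import Fermat.Agent.H23Main

/-!
# Reader's guide: cusp forms with integral coefficients, step by step (S23)

Every theorem of this file is proved by citing a theorem of the library; nothing here is used by any
other file. Editor: helper23. Companion of `GuideModularForms` (section 2: the main steps) and
`GuideWeightOne` (section 3: the same for `Γ₁(N)`). No theorem of these two files is repeated; here
are the steps of their proofs. Files: `H23LevelOne`, `H23Descent`, `H23Denom`, `H23Final`, `H23Main`,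
`H23Hecke` (helper23), `H78Coset`, `H78Lagrange`, `H78EisN` (helper78), `H79Analytic`, `H79GalStab`,
`H79Conj` (helper79). Used for S23 and through it for S01, S03, S04, S06, S09, S12, S15, S35, S36,
S38-S40, S43-S46, S50, S58-S60 (the last two theorems: not for S23, S09, S12, S15, but for the
others); sections 1-6 also for S47, S48 (only the case of `Γ₁(N)`).

**The statement.** `S_k(Γ₀(N))` is spanned by forms with integral `q`-expansion. Usually one uses a
model of the modular curve over `ℤ`, or the Hecke algebra and the lattice `H₁(X, ℤ)`. Here everything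
follows from level one, where it is obvious.

**The proof.**
1. *Level one.* The spaces of all forms and of the cusp forms of level one are spanned by integral forms.
2. *Over level one.* Let `g = E₄(Nτ)`. The translates `f ∣ γ` of a form `f` are permuted by `SL(2, ℤ)`.
   Their symmetric functions have level one, so (B1) a cusp form `f` is integral over the cusp forms
   of level one. Lagrange interpolation gives (B2): a form `D ≠ 0`, such that `D` and `D f` for all `f`
   are polynomials in `g` with coefficients of level one.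
3. *Quotients* `B/A` of forms which are integral over level one are forms.
4. *Conjugation.* Let `σ` be a ring endomorphism of `ℂ`. Apply `σ` to the coefficients of level one in
   the polynomials for `D` and `D f`; since `g` is integral, the quotient has the expansion
   `∑ σ(a_n) q^n`, and it satisfies the conjugate of the equation of `f`. By 3 it is a form on `Γ₀(N)`.
5. *Descent.* A complex number which is fixed by all ring endomorphisms of `ℂ` is rational. So the forms
   with rational coefficients span.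
6. *Denominators.* The expansions of `A = D`, `B = D f` and of the coefficients of the equation (B1) are
   complex combinations of integral series. A `ℚ`-linear map `ℂ → ℚ` applied to the coefficients makes
   them rational with bounded denominators. So for rational `f` some multiple of `f` is integral over
   `ℤ[[q]]` and a quotient of elements of `ℤ[[q]]`. Its powers have a common denominator, and therefore
   it is in `ℤ[[q]]`.

**Notation.** `𝒮ℒ` is the image of `SL(2, ℤ)` in `GL(2, ℝ)`; `f ∣[k] g` is the action of weight `k`;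
`qExpansion 1 f` is the power series `∑ a_n q^n`, `q = exp(2πiτ)`, and `qCoeff f n` is `a_n`; `MDiff f`
says that `f : ℍ → ℂ` is holomorphic. Details: NOTES.md, Appendix A.4, note [147].
-/

set_option autoImplicit false

open UpperHalfPlane ModularForm ModularFormClass MatrixGroups CongruenceSubgroup Filter Topology
open scoped Manifold

namespace Fermat.Agent.Guide.IntegralForms

/-! ## 1. Level one -/

/-- **`E₄` and `E₆` have integral coefficients**: they are `1 + 240 ∑ σ₃(n) qⁿ` and `1 - 504 ∑ σ₅(n) qⁿ`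
(Mathlib has the coefficients of Eisenstein series in terms of Bernoulli numbers). `H23LevelOne`. -/
theorem eisenstein_integral : (∀ n, ∃ m : ℤ, (qExpansion 1 E₄).coeff n = (m : ℂ)) ∧
    ∀ n, ∃ m : ℤ, (qExpansion 1 E₆).coeff n = (m : ℂ) :=
  ⟨H23.intPS_E₄, H23.intPS_E₆⟩

/-- **The discriminant.** `1728 Δ = E₄³ - E₆²`, so `1728 Δ` has integral coefficients. (So has `Δ`, but
this is not needed for complex spans.) `H23LevelOne`. -/
theorem discriminant_expansion :
    (1728 : ℂ) • qExpansion 1 CuspForm.discriminant =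
      (qExpansion 1 E₄) ^ 3 - (qExpansion 1 E₆) ^ 2 ∧
    ∀ n, ∃ m : ℤ, ((1728 : ℂ) • qExpansion 1 CuspForm.discriminant).coeff n = (m : ℂ) :=
  ⟨H23.qExpansion_disc, H23.intPS_disc⟩

/-- **Normalised forms.** In every even weight `k ≥ 4` there is an integral form with constant term one:
`E₄^a E₆^b` with `k = 4 a + 6 b`. `H23LevelOne`. -/
theorem exists_normalised_form (k : ℤ) (hk : 4 ≤ k) (hk2 : Even k) :
    ∃ G : ModularForm 𝒮ℒ k, (∀ n, ∃ m : ℤ, (qExpansion 1 G).coeff n = (m : ℂ)) ∧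
      (qExpansion 1 G).coeff 0 = 1 :=
  H23.exists_intForm k hk hk2

/-- **Cusp forms from lower weight.** Multiplication by `Δ` is an isomorphism from the forms of weight
`k - 12` to the cusp forms of weight `k` (Mathlib). `H23LevelOne`. -/
theorem cusp_forms_from_lower_weight (k : ℤ)
    (h : Submodule.span ℂ {F : ModularForm 𝒮ℒ (k - 12) |
      ∀ n, ∃ m : ℤ, (qExpansion 1 F).coeff n = (m : ℂ)} = ⊤) :
    Submodule.span ℂ {F : CuspForm 𝒮ℒ k |
      ∀ n, ∃ m : ℤ, (qExpansion 1 F).coeff n = (m : ℂ)} = ⊤ :=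
  H23.cusp_span_of k h

/-- **Cusp forms of level one** are spanned by integral forms, and their conjugates are cusp forms. For
all forms this is `levelOne_span_integral`, `levelOne_conjugate` in `GuideModularForms`: induction on
the weight, subtracting a multiple of `exists_normalised_form`; there are no nonzero forms of odd
weight, of negative weight or of weight two, and those of weight zero are constant. `H23LevelOne`. -/
theorem levelOne_cusp_forms (k : ℤ) :
    Submodule.span ℂ {F : CuspForm 𝒮ℒ k |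
      ∀ n, ∃ m : ℤ, (qExpansion 1 F).coeff n = (m : ℂ)} = ⊤ ∧
    ∀ (σ : ℂ →+* ℂ) (G : CuspForm 𝒮ℒ k), ∃ G' : CuspForm 𝒮ℒ k,
      qExpansion 1 G' = (qExpansion 1 G).map σ :=
  ⟨H23.levelOne_cusp_span k, fun σ G => H23.levelOne_cusp_conj σ G⟩

/-! ## 2. Translates, symmetric functions and Lagrange interpolation

`𝒢` is an arithmetic subgroup of `GL(2, ℝ)`, for example `Γ₀(N)`. -/

/-- **Families.** `H78.Fam k F`, for a set `X` with an action of `𝒮ℒ` and functions `F_q`, `q ∈ X`: the
`F_q` are holomorphic, bounded at `i∞` and permuted, `F_q ∣[k] h = F_(h⁻¹ q)`. `H78Coset`. -/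
theorem fam_iff {X : Type} [MulAction 𝒮ℒ X] (k : ℤ) (F : X → ℍ → ℂ) :
    H78.Fam k F ↔ (∀ q, MDiff (F q)) ∧ (∀ q, IsBoundedAtImInfty (F q)) ∧
      ∀ (h : GL (Fin 2) ℝ) (hh : h ∈ 𝒮ℒ) (q : X), F q ∣[k] h = F ((⟨h, hh⟩ : 𝒮ℒ)⁻¹ • q) :=
  ⟨fun h => ⟨h.holo, h.bdd, h.slash⟩, fun h => ⟨h.1, h.2.1, h.2.2⟩⟩

/-- **Translates.** For a form `f` on `𝒢` the functions `f ∣ r⁻¹`, where `r` runs through the cosets of
`𝒮ℒ ∩ 𝒢` in `𝒮ℒ`, are a family (Mathlib: `quotientFunc f`), and vanish at `i∞` if `f` is a cusp form.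
`H78Coset`. -/
theorem translates {𝒢 : Subgroup (GL (Fin 2) ℝ)} [𝒢.IsArithmetic] {k : ℤ} :
    (∀ f : ModularForm 𝒢 k,
      H78.Fam (X := 𝒮ℒ ⧸ 𝒢.subgroupOf 𝒮ℒ) k (SlashInvariantForm.quotientFunc f) ∧
      ∀ r : 𝒮ℒ, SlashInvariantForm.quotientFunc f (⟦r⟧ : 𝒮ℒ ⧸ 𝒢.subgroupOf 𝒮ℒ) =
        (f : ℍ → ℂ) ∣[k] (r : GL (Fin 2) ℝ)⁻¹) ∧
    ∀ (f : CuspForm 𝒢 k) (q : 𝒮ℒ ⧸ 𝒢.subgroupOf 𝒮ℒ),
      IsZeroAtImInfty (SlashInvariantForm.quotientFunc f q) :=
  ⟨fun f => ⟨H78.fam_quotientFunc f, fun r => SlashInvariantForm.quotientFunc_mk f r⟩,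
    fun f q => H78.zero_quotientFunc f q⟩

/-- **Symmetric functions.** The `i`-th elementary symmetric function of a family of weight `k` is a form
of level one and weight `k i`; if all `F_q` vanish at `i∞` and `i ≠ 0`, it is a cusp form. With the
polynomial `∏ (X - F_q)` this gives (B1), `integral_over_levelOne` in `GuideModularForms`.
`H78Coset`. -/
theorem symmetric_functions {X : Type} [MulAction 𝒮ℒ X] [Fintype X] {k : ℤ} {F : X → ℍ → ℂ}
    (hF : H78.Fam k F) (i : ℕ) :
    (∃ G : ModularForm 𝒮ℒ (k * i),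
      (G : ℍ → ℂ) = ∑ t ∈ Finset.powersetCard i Finset.univ, ∏ q ∈ t, F q) ∧
    ((∀ q, IsZeroAtImInfty (F q)) → i ≠ 0 → ∃ G : CuspForm 𝒮ℒ (k * i),
      (G : ℍ → ℂ) = ∑ t ∈ Finset.powersetCard i Finset.univ, ∏ q ∈ t, F q) :=
  ⟨hF.isMF_esymm i, fun h0 hi => hF.isCusp_esymm h0 i hi⟩

/-- **Sums over the cosets.** For two families `F`, `G` over the same `X` the function `∑ F_q G_q^m` is a
form of level one. `H78Coset`. -/
theorem sum_over_cosets {X : Type} [MulAction 𝒮ℒ X] [Fintype X] {k l : ℤ} {F G : X → ℍ → ℂ}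
    (hF : H78.Fam k F) (hG : H78.Fam l G) (m : ℕ) :
    ∃ T : ModularForm 𝒮ℒ (k + m * l), (T : ℍ → ℂ) = ∑ q, F q * G q ^ m :=
  (hF.mul (hG.pow m)).sum

/-- **Divided difference.** For `P = ∏ (X - x_q)` the polynomial `(P(X) - P(Y))/(X - Y)` has at
`X = x_(q₀)`, `Y = x_q` the value `P'(x_(q₀))` if `q = q₀` and zero otherwise (also when some `x_q`
coincide). Multiply by `y_q` and sum over `q`: this is `lagrange_interpolation` in
`GuideModularForms`. `H78Lagrange`. -/
theorem divided_difference {K ι : Type*} [Field K] [Fintype ι] [DecidableEq ι] (x : ι → K)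
    (q₀ q : ι) (P : Polynomial K) (hP : P = ∏ q, (Polynomial.X - Polynomial.C (x q))) :
    (∑ l ∈ Finset.range (Fintype.card ι + 1),
      P.coeff l * ∑ i ∈ Finset.range l, x q₀ ^ i * x q ^ (l - 1 - i)) =
      if q = q₀ then P.derivative.eval (x q₀) else 0 := by
  subst hP; exact H78.dd_eq x q₀ q

/-- **The denominator does not vanish**: `P'(x_(q₀)) = ∏ (x_(q₀) - x_q)`, product over `q ≠ q₀`. For the
translates of a form `g` whose stabiliser is exactly `𝒢` all factors are nonzero functions.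
`H78Lagrange`. -/
theorem derivative_at_root {K ι : Type*} [Field K] [Fintype ι] [DecidableEq ι] (x : ι → K)
    (q₀ : ι) (P : Polynomial K) (hP : P = ∏ q, (Polynomial.X - Polynomial.C (x q))) :
    P.derivative.eval (x q₀) = ∏ q ∈ Finset.univ.erase q₀, (x q₀ - x q) := by
  subst hP; exact H78.rootPoly_derivative_eval x q₀

/-- **Interpolation over level one.** Let `𝒢 ⊂ 𝒮ℒ` and let `g` be a form whose stabiliser in `𝒮ℒ` is `𝒢`.
There are `n > 0` and a form `D ≠ 0` such that `D`, and `D f` for every form `f` on `𝒢`, are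
polynomials of degree `< n` in `g` with coefficients of level one. For `g = E₄(Nτ)` this is (B2).
`H78Lagrange`. -/
theorem interpolation {𝒢 : Subgroup (GL (Fin 2) ℝ)} [𝒢.IsArithmetic] [𝒢.HasDetOne]
    (hle : 𝒢 ≤ 𝒮ℒ) {w : ℤ} (g : ModularForm 𝒢 w)
    (hstab : ∀ h ∈ 𝒮ℒ, (g : ℍ → ℂ) ∣[w] h = g → h ∈ 𝒢) :
    ∃ (n : ℕ) (D : ModularForm 𝒢 (w * (n - 1))), 0 < n ∧ D ≠ 0 ∧
      (∃ G : (i : ℕ) → ModularForm 𝒮ℒ (w * (n - 1 - i)),
        ∀ τ, D τ = ∑ i ∈ Finset.range n, G i τ * g τ ^ i) ∧
      ∀ (k : ℤ) (f : ModularForm 𝒢 k), ∃ G : (i : ℕ) → ModularForm 𝒮ℒ (k + w * (n - 1 - i)),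
        ∀ τ, D τ * f τ = ∑ i ∈ Finset.range n, G i τ * g τ ^ i :=
  H78.lagrange_forms hle g hstab

/-- **Stabiliser of `E₄(Nτ)`, first step.** For `γ ∈ SL(2, ℤ)` there is `δ ∈ SL(2, ℤ)` such that
`V = δ⁻¹ diag(N, 1) γ` is upper triangular, `V = (e, *; 0, d)`, and `e` divides the lower left entry of
`γ`. `H78EisN`. -/
theorem upper_triangular (N : ℕ) [NeZero N] (γ : SL(2, ℤ)) :
    ∃ (δ : SL(2, ℤ)) (e : ℤ), e ∣ γ 1 0 ∧
      ((Matrix.SpecialLinearGroup.mapGL ℝ δ)⁻¹ * heckeDiagMatrix N *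
        Matrix.SpecialLinearGroup.mapGL ℝ γ) 1 0 = 0 ∧
      ((Matrix.SpecialLinearGroup.mapGL ℝ δ)⁻¹ * heckeDiagMatrix N *
        Matrix.SpecialLinearGroup.mapGL ℝ γ) 0 0 = e :=
  H78.exists_upper N γ

/-- **Second step.** `E₄` tends to one at `i∞`, and if `F` tends to `L`, then for an upper triangular `V`
with positive determinant and lower right entry `d` the function `F ∣[k] V` tends to
`L det(V)^(k-1) d^(-k)`. So if `γ` fixes `E₄(Nτ)`, that is `E₄ ∣ V = E₄ ∣ diag(N, 1)`, then `d⁴ = 1`,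
`d = ±1`, `e = ±N`, and `N` divides the lower left entry of `γ`. `H78EisN`. -/
theorem limits_at_infinity : Tendsto (E₄ : ℍ → ℂ) atImInfty (𝓝 1) ∧
    ∀ {F : ℍ → ℂ} {L : ℂ}, Tendsto F atImInfty (𝓝 L) → ∀ (k : ℤ) {V : GL (Fin 2) ℝ},
      V 1 0 = 0 → 0 < V.det.val → Tendsto (F ∣[k] V) atImInfty
        (𝓝 (L * (V.det.val : ℂ) ^ (k - 1) * ((V 1 1 : ℝ) : ℂ) ^ (-k))) :=
  ⟨H78.E4_tendsto, fun hF k _ hV hdet => H78.tendsto_slash hF k hV hdet⟩

/-! ## 3. Integral quotients -/

/-- **Roots are bounded by the coefficients.** Let `w^n + c_1 w^(n-1) + ... + c_n = 0`. Then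
`|w| ≤ 1 + ∑ |c_i|`; and if `∑ |c_i| ε^(-i) < 1`, then `|w| < ε`. `H79Analytic`. -/
theorem root_bounds {n : ℕ} (c : ℕ → ℂ) (w : ℂ)
    (h : w ^ n + ∑ i ∈ Finset.Icc 1 n, c i * w ^ (n - i) = 0) :
    ‖w‖ ≤ 1 + ∑ i ∈ Finset.Icc 1 n, ‖c i‖ ∧
      ∀ ε : ℝ, 0 < ε → ∑ i ∈ Finset.Icc 1 n, ‖c i‖ * (ε⁻¹) ^ i < 1 → ‖w‖ < ε :=
  ⟨H79.norm_le_of_root c w h, fun ε hε hs => H79.norm_lt_of_root c w ε hε h hs⟩

/-- **Quotients of analytic functions.** If `a ≠ 0` and `b` are analytic on a connected open set and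
`b/a` satisfies an equation with leading coefficient one and analytic coefficients `c_i` (multiplied
by `a^n`), then `b = a F` with `F` analytic: a meromorphic function which is locally bounded has no
poles. `H79Analytic`. -/
theorem analytic_quotient {U : Set ℂ} (hU : IsOpen U) (hU' : IsPreconnected U) {a b : ℂ → ℂ}
    (ha : AnalyticOnNhd ℂ a U) (hb : AnalyticOnNhd ℂ b U) (ha0 : ∃ z ∈ U, a z ≠ 0) {n : ℕ}
    (c : ℕ → ℂ → ℂ) (hc : ∀ i, AnalyticOnNhd ℂ (c i) U)
    (h : ∀ z ∈ U, b z ^ n + ∑ i ∈ Finset.Icc 1 n, c i z * a z ^ i * b z ^ (n - i) = 0) :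
    ∃ F : ℂ → ℂ, AnalyticOnNhd ℂ F U ∧ ∀ z ∈ U, a z * F z = b z :=
  H79.exists_analytic_div hU hU' ha hb ha0 c hc h

/-- **The same on the upper half plane.** For forms `A`, `B` on `Γ` the quotient `F` is invariant (as
`A (F ∣ γ - F) = 0`), and it vanishes at all cusps, by `root_bounds` with coefficients which tend
to zero: this is `integral_quotient` in `GuideModularForms`. `H79GalStab`. -/
theorem holomorphic_quotient {A B : ℍ → ℂ} (hA : MDiff A) (hB : MDiff B) (hA0 : A ≠ 0) {n : ℕ}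
    (c : ℕ → ℍ → ℂ) (hc : ∀ i, MDiff (c i))
    (h : ∀ τ : ℍ, B τ ^ n + ∑ i ∈ Finset.Icc 1 n, c i τ * A τ ^ i * B τ ^ (n - i) = 0) :
    ∃ F : ℍ → ℂ, MDiff F ∧ ∀ τ, A τ * F τ = B τ :=
  H79.exists_mdiff_div hA hB hA0 c hc h

/-! ## 4. Conjugation -/

/-- **Calculus of expansions.** For `f` of period one `H79.HasQ f P` says that `f` is, near `i∞`, an
analytic function of `q` with Taylor series `P`. Forms on groups containing `(1, 1; 0, 1)` have an
expansion, and expansions are compatible with sums, products and powers. `H79Conj`. -/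
theorem expansions {f g : ℍ → ℂ} {P Q : PowerSeries ℂ} :
    (H79.HasQ f P ↔ AnalyticAt ℂ (cuspFunction 1 f) 0 ∧ qExpansion 1 f = P) ∧
    (H79.HasQ f P → H79.HasQ g Q → H79.HasQ (f + g) (P + Q) ∧ H79.HasQ (f * g) (P * Q)) ∧
    (H79.HasQ f P → ∀ n : ℕ, H79.HasQ (f ^ n) (P ^ n)) ∧
    ∀ {Γ : Subgroup (GL (Fin 2) ℝ)} {k : ℤ}, (1 : ℝ) ∈ Γ.strictPeriods →
      ∀ F : ModularForm Γ k, H79.HasQ F (qExpansion 1 F) :=
  ⟨Iff.rfl, fun hf hg => ⟨hf.add hg, hf.mul hg⟩, fun hf n => hf.pow n,
    fun hΓ F => H79.hasQ_of_class hΓ F⟩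

/-- **Conjugation over level one.** Let `Γ ⊂ SL(2, ℤ)` have finite index and contain `(1, 1; 0, 1)`, let
`σ` be a ring endomorphism of `ℂ`, and suppose that conjugates under `σ` exist in level one (`hA`,
`hAc`). Let the cusp form `f` on `Γ` satisfy an equation whose coefficients `c_i` are cusp forms of
level one, and let `D ≠ 0` and `D f` be polynomials over level one in a form `g` whose expansion is
fixed by `σ`. Then `f` has a conjugate `f'`, a cusp form on `Γ` with expansion `∑ σ(a_n) qⁿ`.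
`H79Conj`. -/
theorem conjugation_over_levelOne (Γ : Subgroup SL(2, ℤ)) [Γ.FiniteIndex]
    (h1 : (1 : ℝ) ∈ (Γ : Subgroup (GL (Fin 2) ℝ)).strictPeriods) (σ : ℂ →+* ℂ)
    (hA : ∀ (k : ℤ) (G : ModularForm 𝒮ℒ k), ∃ G' : ModularForm 𝒮ℒ k,
      qExpansion 1 G' = (qExpansion 1 G).map σ)
    (hAc : ∀ (k : ℤ) (G : CuspForm 𝒮ℒ k), ∃ G' : CuspForm 𝒮ℒ k,
      qExpansion 1 G' = (qExpansion 1 G).map σ)
    {k w : ℤ} (f : CuspForm Γ k) {m : ℕ} (c : (i : ℕ) → CuspForm 𝒮ℒ ((i : ℤ) * k))
    (hc : ∀ τ, f τ ^ m + ∑ i ∈ Finset.Icc 1 m, c i τ * f τ ^ (m - i) = 0)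
    {n : ℕ} (g : ModularForm Γ w) (D : ModularForm Γ (w * ((n : ℤ) - 1)))
    (hg : (qExpansion 1 g).map σ = qExpansion 1 g) (hD : D ≠ 0)
    (G : (i : ℕ) → ModularForm 𝒮ℒ (w * ((n : ℤ) - 1 - i)))
    (hG : ∀ τ, D τ = ∑ i ∈ Finset.range n, G i τ * g τ ^ i)
    (H : (i : ℕ) → ModularForm 𝒮ℒ (k + w * ((n : ℤ) - 1 - i)))
    (hH : ∀ τ, D τ * f τ = ∑ i ∈ Finset.range n, H i τ * g τ ^ i) :
    ∃ f' : CuspForm Γ k, qExpansion 1 f' = (qExpansion 1 f).map σ :=
  H79.exists_conj_cuspForm_of Γ h1 σ hA hAc f c hc g D hg hD G hG H hH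

/-! ## 5. Ring endomorphisms of `ℂ` -/

/-- **Extension of embeddings.** Let `R` be a domain contained in a field `K` which is algebraic over it.
Every embedding of `R` in an algebraically closed field `L` extends to `K`. `H23Descent`. -/
theorem extend_embedding {R K L : Type*} [CommRing R] [IsDomain R] [Field K] [Field L]
    [IsAlgClosed L] (i : R →+* K) (hi : Function.Injective i)
    (halg : ∀ x : K, ∃ p : Polynomial R, p ≠ 0 ∧ p.eval₂ i x = 0)
    (φ : R →+* L) (hφ : Function.Injective φ) : ∃ σ : K →+* L, ∀ r, σ (i r) = φ r :=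
  H23.exists_ringHom_extend i hi halg φ hφ

/-- **Extension from a transcendence basis.** Let `K` be algebraically closed and `B` a transcendence
basis of `K` over `F`. Every injective ring homomorphism `φ : F[B] → K` (it need not be the identity
on `F`) is the restriction of a ring endomorphism of `K`. `H23Descent`. -/
theorem extend_from_basis {F K : Type*} [Field F] [Field K] [IsAlgClosed K] [Algebra F K]
    {B : Set K} (hB : IsTranscendenceBasis F ((↑) : B → K)) (φ : MvPolynomial B F →+* K)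
    (hφ : Function.Injective φ) :
    ∃ σ : K →+* K, ∀ r, σ (MvPolynomial.aeval ((↑) : B → K) r) = φ r :=
  H23.exists_ringHom_of_basis hB φ hφ

/-- **Fixed numbers are rational.** A complex number `z` which is fixed by all ring endomorphisms of `ℂ`
is rational. If `z` is transcendental, let `B` be a transcendence basis over `ℚ` which contains `z`;
the endomorphism with `b ↦ b + 1` for `b ∈ B` moves `z`. If `z` is algebraic, every automorphism of the
field of algebraic numbers extends to `ℂ`, so `z` is fixed by all of them. With this,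
`descent_to_rational` in `GuideModularForms` is linear algebra: a basis dual to a basis among the
linear forms `c_i` is fixed by conjugation. `H23Descent`. -/
theorem rational_of_fixed {z : ℂ} (hz : ∀ σ : ℂ →+* ℂ, σ z = z) : ∃ q : ℚ, z = (q : ℂ) :=
  H23.exists_rat_of_forall_ringHom hz

/-! ## 6. Denominators

`H23.SpanInt` is the complex vector space spanned by the power series with integral coefficients. -/

/-- **A rational number whose powers have a common denominator is an integer.** Applied to the lowest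
coefficients it gives the same for `ℤ[[q]]`: `coeff_of_almostIntegral` in `GuideModularForms`.
`H23Denom`. -/
theorem integer_of_bounded_powers {x : ℚ} {a : ℤ} (ha : a ≠ 0)
    (h : ∀ m : ℕ, ∃ z : ℤ, (a : ℚ) * x ^ m = z) : ∃ z : ℤ, x = z :=
  H23.rat_int_of_almost ha h

/-- **Span of the integral series.** It is closed under products and powers, and contains the expansions
of all forms of level one, by section 1. `H23Final`. -/
theorem span_of_integral_series :
    H23.SpanInt = Submodule.span ℂ {p : PowerSeries ℂ | ∀ n, ∃ m : ℤ, p.coeff n = (m : ℂ)} ∧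
    (∀ {p q : PowerSeries ℂ}, p ∈ H23.SpanInt → q ∈ H23.SpanInt → p * q ∈ H23.SpanInt) ∧
    (∀ {p : PowerSeries ℂ}, p ∈ H23.SpanInt → ∀ n : ℕ, p ^ n ∈ H23.SpanInt) ∧
    ∀ {k : ℤ} (F : ModularForm 𝒮ℒ k), qExpansion 1 F ∈ H23.SpanInt :=
  ⟨rfl, fun hp hq => H23.spanInt_mul hp hq, fun hp n => H23.spanInt_pow hp n,
    fun F => H23.spanInt_levelOne F⟩

/-- **Functionals.** Let `l : ℂ → ℚ` be `ℚ`-linear and apply it to the coefficients of a series `p`
(`H23.applyLin l p`). If `p` is in the span of the integral series, the result has bounded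
denominators; and for `f` with rational coefficients, `l (A f) = l (A) f`. For every `x ≠ 0` there is
`l` with `l(x) = 1`. `H23Denom`. -/
theorem functionals :
    (∀ (l : ℂ →ₗ[ℚ] ℚ) (p : PowerSeries ℂ) (n : ℕ), (H23.applyLin l p).coeff n = l (p.coeff n)) ∧
    (∀ {p : PowerSeries ℂ}, p ∈ H23.SpanInt → ∀ l : ℂ →ₗ[ℚ] ℚ,
      ∃ D : ℤ, D ≠ 0 ∧ ∀ n, ∃ z : ℤ, (D : ℚ) * (H23.applyLin l p).coeff n = z) ∧
    (∀ (l : ℂ →ₗ[ℚ] ℚ) (A : PowerSeries ℂ) (f : PowerSeries ℚ),
      H23.applyLin l (A * f.map (algebraMap ℚ ℂ)) = H23.applyLin l A * f) ∧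
    ∀ {x : ℂ}, x ≠ 0 → ∃ l : ℂ →ₗ[ℚ] ℚ, l x = 1 :=
  ⟨fun _ _ _ => PowerSeries.coeff_mk _ _, fun hp l => H23.bddDen_iff.1 (H23.bddDen_applyLin hp l),
    fun l A f => H23.applyLin_mul l A f, fun hx => H23.exists_lin hx⟩

/-- **Bounded denominators.** Let `f` have rational coefficients, let `A f = B` with `A ≠ 0`, and let `f`
satisfy an equation with leading coefficient one; suppose that `A`, `B` and the coefficients of the
equation are in the span of the integral series. Then `f` has bounded denominators: after applying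
functionals everything is rational, some multiple `D f` is integral over `ℤ[[q]]` and a quotient of
elements of `ℤ[[q]]`, so its powers have a common denominator. `H23Denom`. -/
theorem bounded_denominators {f : PowerSeries ℚ} {A B : PowerSeries ℂ} (hA0 : A ≠ 0)
    (hA : A ∈ H23.SpanInt) (hB : B ∈ H23.SpanInt) (hAB : A * f.map (algebraMap ℚ ℂ) = B)
    {n : ℕ} {c : ℕ → PowerSeries ℂ} (hc : ∀ i, c i ∈ H23.SpanInt)
    (h : (f.map (algebraMap ℚ ℂ)) ^ n +
      ∑ i ∈ Finset.Icc 1 n, c i * (f.map (algebraMap ℚ ℂ)) ^ (n - i) = 0) :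
    ∃ D : ℤ, D ≠ 0 ∧ ∀ n, ∃ z : ℤ, (D : ℚ) * f.coeff n = z :=
  H23.bddDen_iff.1 (H23.bddDen_of hA0 hA hB hAB hc h)

/-! ## 7. Assembly, and the Hecke algebra -/

/-- **The coefficients separate the forms.** A cusp form of weight `k` on `Γ₀(N)` is zero if its first
`k [SL(2, ℤ) : Γ₀(N)]/12 + 1` coefficients vanish (Sturm), so the space is finite dimensional.
`H23Final`. -/
theorem coefficients_separate (N : ℕ) [NeZero N] (k : ℤ) :
    (∀ f : CuspForm (Gamma0 N) k,
      (∀ n ≤ (k * (Gamma0 N).index).toNat / 12, qCoeff f n = 0) → f = 0) ∧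
    FiniteDimensional ℂ (CuspForm (Gamma0 N) k) :=
  ⟨H23.cuspForm_eq_zero_of_coeff N k, H23.finiteDimensional_cuspForm N k⟩

/-- **(B1) and (B2) imply S23**, in every weight: `CuspForm.intLattice N k` is the `ℤ`-module spanned by
the cusp forms with integral coefficients, and the conclusion is that it spans the space over `ℂ`.
`H23Final`. -/
theorem integral_structure_of (N : ℕ) [NeZero N] (k : ℤ)
    (h1 : ∀ f : CuspForm (Gamma0 N) k, ∃ n : ℕ, 0 < n ∧
      ∃ c : (i : ℕ) → CuspForm 𝒮ℒ ((i : ℤ) * k),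
        ∀ τ, f τ ^ n + ∑ i ∈ Finset.Icc 1 n, c i τ * f τ ^ (n - i) = 0)
    (h2 : ∃ (w : ℤ) (n : ℕ) (g : ModularForm (Gamma0 N) w)
      (D : ModularForm (Gamma0 N) (w * ((n : ℤ) - 1))),
      (∀ m, ∃ z : ℤ, (qExpansion 1 g).coeff m = z) ∧ D ≠ 0 ∧
      (∃ G : (i : ℕ) → ModularForm 𝒮ℒ (w * ((n : ℤ) - 1 - i)),
        ∀ τ, D τ = ∑ i ∈ Finset.range n, G i τ * g τ ^ i) ∧
      ∀ (k : ℤ) (f : ModularForm (Gamma0 N) k),
        ∃ G : (i : ℕ) → ModularForm 𝒮ℒ (k + w * ((n : ℤ) - 1 - i)),
          ∀ τ, D τ * f τ = ∑ i ∈ Finset.range n, G i τ * g τ ^ i) :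
    Submodule.span ℂ (CuspForm.intLattice N k : Set (CuspForm (Gamma0 N) k)) = ⊤ :=
  H23.hasIntegralStructure_of N k h1 h2

/-- **Algebras which preserve a lattice.** Let `L` be a finitely generated subgroup of a complex vector
space `W` which spans `W`. A subring of `End(W)` which maps `L` to itself is a finitely generated
`ℤ`-module, as it embeds into `End(L)`. `H23Hecke`. -/
theorem finite_of_lattice {W : Type*} [AddCommGroup W] [Module ℂ W]
    (A : Subalgebra ℤ (Module.End ℂ W)) (L : Submodule ℤ W) (hfg : L.FG)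
    (hspan : Submodule.span ℂ (L : Set W) = ⊤) (hA : ∀ t ∈ A, ∀ f ∈ L, t f ∈ L) :
    Module.Finite ℤ A :=
  H23.moduleFinite_of_lattice A L hfg hspan hA

/-- **The Hecke algebra is finite.** The lattice of integral forms is finitely generated, and for `k ≥ 1`
stable under the Hecke operators (theorems of the Prelude); `CuspForm.heckeAlgebra N k S` is the ring
generated by the operators `T_ℓ`, `ℓ ∤ N`, and `U_q`, `q ∣ N`, on `S_k(Γ₀(N))` with `ℓ, q ∉ S`. So it is
finite over `ℤ` (for `k ≤ 0` there are no cusp forms). In this form it is used in `H35Mult`, `H35E1`,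
`H61TB`, `H61L5A` (S35, S36, S38-S40 and the closure of S01); the proof of S22 is a different one, by
periods (`finite_heckeAlgebra` in `GuidePeriods`). `H23Hecke`, `H23Main`. -/
theorem hecke_algebra_finite_of (N : ℕ) [NeZero N] (k : ℤ) (S : Set ℕ)
    (h : 1 ≤ k → Submodule.span ℂ (CuspForm.intLattice N k : Set (CuspForm (Gamma0 N) k)) = ⊤) :
    (CuspForm.intLattice N k).FG ∧
    (1 ≤ k → ∀ t ∈ CuspForm.heckeAlgebra N k S, ∀ f ∈ CuspForm.intLattice N k,
      t f ∈ CuspForm.intLattice N k) ∧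
    Module.Finite ℤ (CuspForm.heckeAlgebra N k S) :=
  ⟨CuspForm.intLattice_fg N k,
    fun hk _ ht _ hf => CuspForm.mem_intLattice_of_mem_heckeAlgebra hk ht hf,
    H23.moduleFinite_heckeAlgebra_of N k S h⟩

end Fermat.Agent.Guide.IntegralForms
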