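import Fermat.Agent.S25

/-!
# Guide to the proof: the charts of the Picard functor in detail (statement S25)

Companion of `GuideJacobians` (sections 3 to 6 there), with the intermediate steps behind
`exists_base_charts` and `glue_charts`. As there, `k` is a field, `c : C ⟶ Spec k` a curve with a
two-chart structure `τ : TwoChart c` (affine opens `U`, `V` covering `C`, with coordinates `t` on `U` and
`s = 1 / t` on `V`, such that `O(U)` and `O(V)` are free of rank `n` over `k[t]` and `k[s]`), `ε` a
rational point in `U`, `A` an arbitrary commutative `k`-algebra (no noetherian hypothesis, nilpotent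
elements are allowed) and `C_A = C × Spec A`.

The aim is a dictionary

    acyclic rigidified line bundles on `C_A` whose coordinate map is bijective
        ↔  pairs `(ρ, λ)`: matrices `ρ : O(U) → M_n(A[X])` and a row vector `λ` in `A^n`,

compatible with base change. The right side consists of the `A`-points of an affine scheme over `k`
(`Guide.Jacobians.chart_ring`), the left side is an open condition on a rigidified line bundle; so one
gets open pieces of the Picard functor which are affine schemes, without Quot or Hilbert schemes.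

Reading order.
1. Pure algebra: lattices on the projective line over `A` with an action of `B = O(U)`, their matrix data,
   uniqueness, base change, openness: `lattice_axioms`, `coefficient_operators`, `coordinate_map`,
   `matrix_data`, `acyclic_of_matrix_data`, `coordinate_map_of_matrix_data`, `matrix_data_unique`,
   `coordinate_map_base_change`, `matrix_data_base_change`, `coordinate_condition_open`.
2. Geometry: the lattice of a rigidified line bundle: `value_along_section`, `lattice_of_bundle`,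
   `lattice_base_change`, `acyclic_iff`, `matrix_data_iff`, `bundle_matrix_data_unique`, `bundle_determined`,
   `pullback_matrix_data`, `matrix_data_open`.
3. Over a field every acyclic bundle has matrix data for suitable words: `dimension_of_V`,
   `some_value_ne_zero`, `dvd_polynomial_in_t`, `quotient_torsion`, `common_chart_over_field`.
4. From affine test schemes to all schemes: `injective_over_opens`, `rigidified_iso_unique`,
   `exists_rigidified_iso`, `iso_of_locally_iso`, `chart_of_affine_tests`, `chart_of_words`.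

All theorems cited in this file are used in the proof of S25 and of no other statement. Notes: Appendix
A.5 of `NOTES.md`. Files: `H2G1a`, `H2G1c`, `H2LatSheaf`, `H2G2`, `H2G2BC`, `H2G3`, `H2Fld`, `H2PicS1`,
`H2PicBase`, `H2PicChart`, `H2Chart`, `H2Base` (helper2), `H25Act`, `H25Rep`, `H25Defs` (helper25),
`H51ActBC`, `H51ActOpen`, `H51Rep` (helper51), `H45Chart` (helper45), `H65Cyc` (helper65), `H74F1Int`
(helper74).
-/

set_option autoImplicit false
universe u v

open CategoryTheory CategoryTheory.Limits AlgebraicGeometry AlgebraicGeometry.RelPicard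
  NeronModelInfra TopologicalSpace Polynomial
open Fermat.Agent Fermat.Agent.H25
open scoped Matrix

noncomputable section

namespace Fermat.Agent.Guide.JacobianCharts

/-! ## 1. Lattices with an action, and matrix data

`D : H45.ChartData k B n` is: a `k`-algebra `B`, an element `D.t`, an exhausting sequence of subspaces
`D.F m`, a point `D.e : B → k`, and noncommutative polynomials `D.p 1, …, D.p n` in letters `(b, j)`
(`b ∈ B`, `j ∈ ℕ`). For a line bundle: `B = O(U)`, `F m` the functions with a pole of order at most `m`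
along `t = ∞`, `e` the evaluation at `ε`.

`L : ActLat t F e A M` is a lattice on the projective line over `A` (an automorphism `τ` of the `A`-module
`M` and two submodules `P`, `Q`: `P1Lat`, see `Guide.Jacobians`, section 3) with an action of `B` and a
linear form `lam : P → A`. `L.V = P ∩ τ Q`. Acyclic means `M = P ⊕ Q`. `L.FinProjP`, `L.FinProjQ`: `P`, `Q`
are finite projective over `A[τ]`, `A[τ⁻¹]`. `H45.ChartPt D A` is the set of chart points `(ρ, λ)` over
`A`, and `x.map φ` (`H45.ChartPt.map`) the image of `x` under `φ : A → A'`. -/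

/-- **The axioms of a lattice with action**: `t` acts as `τ`; `B` preserves `P`; an element of `F m` maps
`Q` into `τ^m Q`; and `lam (b x) = e(b) lam(x)`, that is, `lam` is "evaluation at the point `e`". File
`H25Act` (helper25). -/
theorem lattice_axioms {k B : Type u} [Field k] [CommRing B] [Algebra k B] {t : B}
    {F : ℕ → Submodule k B} {e : B →ₐ[k] k} {A : Type u} [CommRing A] [Algebra k A]
    {M : Type v} [AddCommGroup M] [Module A M] [Module k M] [IsScalarTower k A M]
    (L : ActLat t F e A M) :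
    (∀ x, L.act t x = L.τ x) ∧ (∀ b, ∀ x ∈ L.P, L.act b x ∈ L.P) ∧
    (∀ m, ∀ b ∈ F m, ∀ x ∈ L.Q, L.act b x ∈ L.Q.map ((L.τ ^ m : M ≃ₗ[A] M) : M →ₗ[A] M)) ∧
    ∀ b (x : L.P), L.lam ⟨L.act b x, L.act_P b x x.2⟩ = algebraMap k A (e b) * L.lam x :=
  ⟨L.act_t, L.act_P, L.act_Q, L.lam_act⟩

/-- **Coefficient operators.** Let `L` be acyclic. By Horrocks' lemma every element of `P` is in exactly
one way a finite sum `∑ τ^j v_j` with `v_j ∈ V`. For `b ∈ B`, `v ∈ V` write
`b v = ∑_j τ^j (m_{b,j} v)`: this defines `A`-linear operators `m_{b,j} = L.mop hc b j` of `V` (for given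
`b`, `v` almost all `m_{b,j} v` are zero). File `H25Act`. -/
theorem coefficient_operators {k B : Type u} [Field k] [CommRing B] [Algebra k B] {t : B}
    {F : ℕ → Submodule k B} {e : B →ₐ[k] k} {A : Type u} [CommRing A] [Algebra k A]
    {M : Type v} [AddCommGroup M] [Module A M] [Module k M] [IsScalarTower k A M]
    (L : ActLat t F e A M) (hc : IsCompl L.P L.Q) (b : B) (v : L.V) :
    ∃ f : ℕ →₀ L.V, (∀ j, L.mop hc b j v = f j) ∧
      L.act b v = f.sum fun j w => (L.τ ^ j) (w : M) :=
  ⟨L.mops hc b v, fun _ => rfl, L.act_eq hc b v⟩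

/-- **The coordinate map** `kap p : V → A^n`: its `i`-th component sends `v` to the value of `lam` at
`p_i(m) v`, where `p_i(m)` is the operator of `V` which one gets from the noncommutative polynomial `p_i`
by replacing the letter `(b, j)` by `m_{b,j}`. File `H25Act`. -/
theorem coordinate_map {k B : Type u} [Field k] [CommRing B] [Algebra k B] {t : B}
    {F : ℕ → Submodule k B} {e : B →ₐ[k] k} {A : Type u} [CommRing A] [Algebra k A]
    {M : Type v} [AddCommGroup M] [Module A M] [Module k M] [IsScalarTower k A M]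
    (L : ActLat t F e A M) (hc : IsCompl L.P L.Q) {n : ℕ} (p : Fin n → FreeAlgebra k (B × ℕ))
    (v : L.V) (i : Fin n) :
    L.kap hc p v i = L.lam ⟨(L.evV hc (p i) v : M), (L.evV hc (p i) v).2.1⟩ ∧
      ∀ (b : B) (j : ℕ), L.evV hc (FreeAlgebra.ι k (b, j)) = L.mop hc b j :=
  ⟨(L.kap_apply hc p v i).trans (L.lamV_apply _), fun b j => L.evV_ι hc (b, j)⟩

/-- **Matrix data of a lattice.** Let `L` be acyclic with bijective coordinate map (for the words `D.p`).
There are a chart point `(ρ, λ)` (see `Guide.Jacobians.chart_point`) and linear isomorphisms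
`θ₀ : A[X]^n → P`, `θ₁ : A[X]^n → Q` with `θ₀(ρ(b) v) = b θ₀(v)`, `θ₁(X v) = τ⁻¹ θ₁(v)`,
`θ₁(v) = τ⁻¹ θ₀(v)` for constant vectors `v`, and `lam(θ₀(v)) = λ v` for constant `v`.
Proof: `P = V ⊗ A[τ]` and `Q = τ⁻¹ V ⊗ A[τ⁻¹]` by Horrocks' lemma, and `V = A^n` by the coordinate map.
File `H2G1a`. -/
theorem matrix_data {k B : Type u} [Field k] [CommRing B] [Algebra k B] {n : ℕ}
    {D : H45.ChartData k B n} {A : Type u} [CommRing A] [Algebra k A]
    {M : Type v} [AddCommGroup M] [Module A M] [Module k M] [IsScalarTower k A M]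
    (L : ActLat D.t D.F D.e A M) (hc : IsCompl L.P L.Q)
    (hk : Function.Bijective (L.kap hc D.p)) :
    ∃ (x : H45.ChartPt D A) (θ₀ : (Fin n → A[X]) ≃ₗ[A] L.P) (θ₁ : (Fin n → A[X]) ≃ₗ[A] L.Q),
      (∀ (b : B) (v : Fin n → A[X]), (θ₀ (x.ρ b *ᵥ v) : M) = L.act b (θ₀ v)) ∧
      (∀ v : Fin n → A[X], (θ₁ ((X : A[X]) • v) : M) = L.τ.symm (θ₁ v)) ∧
      (∀ v : Fin n → A, (θ₁ (fun i => C (v i)) : M) = L.τ.symm (θ₀ fun i => C (v i))) ∧
      ∀ v : Fin n → A, L.lam (θ₀ fun i => C (v i)) = ∑ i, x.lam i * v i := by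
  obtain ⟨x, ⟨r⟩⟩ := H2Lat.exists_chartPt L hc hk
  exact ⟨x, r.θ0, r.θ1, r.act, r.θ1_X, r.θ01, fun v => by rw [r.lam v, Units.val_one, one_mul]⟩

/-- **Conversely, a lattice with matrix data is acyclic.** Here `λ` is only given up to a unit `u` of `A`
(the choice of the rigidification). Proof: `∑ X^i v_i ↦ ∑ τ^i θ₀(v_i)`, `∑ X^i v_i ↦ ∑ τ^(-1-i) θ₀(v_i)`
for constant vectors `v_i`; hence `P` and `Q` intersect in zero (multiply by a power of `τ` and compare
coefficients), and `P + Q` is everything because `M` is the union of the `τ^(-m) P`. File `H2G1a`. -/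
theorem acyclic_of_matrix_data {k B : Type u} [Field k] [CommRing B] [Algebra k B] {n : ℕ}
    {D : H45.ChartData k B n} {A : Type u} [CommRing A] [Algebra k A]
    {M : Type v} [AddCommGroup M] [Module A M] [Module k M] [IsScalarTower k A M]
    (L : ActLat D.t D.F D.e A M) (x : H45.ChartPt D A) (u : Aˣ)
    (θ₀ : (Fin n → A[X]) ≃ₗ[A] L.P) (θ₁ : (Fin n → A[X]) ≃ₗ[A] L.Q)
    (h₀ : ∀ (b : B) (v : Fin n → A[X]), (θ₀ (x.ρ b *ᵥ v) : M) = L.act b (θ₀ v))
    (h₁ : ∀ v : Fin n → A[X], (θ₁ ((X : A[X]) • v) : M) = L.τ.symm (θ₁ v))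
    (h₀₁ : ∀ v : Fin n → A, (θ₁ (fun i => C (v i)) : M) = L.τ.symm (θ₀ fun i => C (v i)))
    (hl : ∀ v : Fin n → A, L.lam (θ₀ fun i => C (v i)) = u * ∑ i, x.lam i * v i) :
    IsCompl L.P L.Q :=
  H2Lat.PreRep.isCompl (L := L) (ρ := x.ρ) (lm := x.lam) (u := u)
    ⟨x.ρ_t, θ₀, θ₁, h₀, h₁, h₀₁, hl⟩

/-- **... and its coordinate map is bijective**: `V` consists of the `θ₀(v)` with `v` constant, and on
them the coordinate map is multiplication by the unit `u` (because `λ p_i(ρ) = e_i`). File `H2G1a`. -/
theorem coordinate_map_of_matrix_data {k B : Type u} [Field k] [CommRing B] [Algebra k B] {n : ℕ}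
    {D : H45.ChartData k B n} {A : Type u} [CommRing A] [Algebra k A]
    {M : Type v} [AddCommGroup M] [Module A M] [Module k M] [IsScalarTower k A M]
    (L : ActLat D.t D.F D.e A M) (x : H45.ChartPt D A) (u : Aˣ)
    (θ₀ : (Fin n → A[X]) ≃ₗ[A] L.P) (θ₁ : (Fin n → A[X]) ≃ₗ[A] L.Q)
    (h₀ : ∀ (b : B) (v : Fin n → A[X]), (θ₀ (x.ρ b *ᵥ v) : M) = L.act b (θ₀ v))
    (h₁ : ∀ v : Fin n → A[X], (θ₁ ((X : A[X]) • v) : M) = L.τ.symm (θ₁ v))
    (h₀₁ : ∀ v : Fin n → A, (θ₁ (fun i => C (v i)) : M) = L.τ.symm (θ₀ fun i => C (v i)))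
    (hl : ∀ v : Fin n → A, L.lam (θ₀ fun i => C (v i)) = u * ∑ i, x.lam i * v i)
    (hc : IsCompl L.P L.Q) :
    Function.Bijective (L.kap hc D.p) ∧
      ∀ v : Fin n → A, ∃ w : L.V, (w : M) = θ₀ (fun i => C (v i)) ∧
        L.kap hc D.p w = (u : A) • v := by
  let r : H2Lat.LatRep L x u := ⟨x.ρ_t, θ₀, θ₁, h₀, h₁, h₀₁, hl⟩
  exact ⟨r.kap_bijective, fun v => ⟨⟨_, r.mem_V v⟩, rfl, r.kap_eq v⟩⟩

/-- **The matrix data are unique**: if two chart points `x`, `x'` describe the same lattice (the linear
form up to units `u`, `u'`) then `x = x'`. (`H2Lat.LatRep L x u` is a pair of isomorphisms `θ₀`, `θ₁` with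
the properties `h₀`, `h₁`, `h₀₁`, `hl` of `acyclic_of_matrix_data`.) Proof: on constant vectors `θ₀` is
determined up to the factor `u / u'` by the coordinate map, hence everywhere; `ρ(b)` is determined by
`θ₀(ρ(b) v) = b θ₀(v)` and `λ` by `lam`. The factor does not matter: it commutes with `ρ`, and for `λ` it
cancels. File `H2G1a`. -/
theorem matrix_data_unique {k B : Type u} [Field k] [CommRing B] [Algebra k B] {n : ℕ}
    {D : H45.ChartData k B n} {A : Type u} [CommRing A] [Algebra k A]
    {M : Type v} [AddCommGroup M] [Module A M] [Module k M] [IsScalarTower k A M]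
    {L : ActLat D.t D.F D.e A M} {x x' : H45.ChartPt D A} {u u' : Aˣ}
    (r : H2Lat.LatRep L x u) (r' : H2Lat.LatRep L x' u') : x = x' :=
  r.unique r'

/-- **The coordinate map commutes with base change** `A → A'`. `ActBC L L' β` says that `L'` is the base
change of `L` along `β : M → M'`, with the action and the linear form. If `L` is acyclic and finite
projective on both charts, then `L'` is acyclic and the coordinate map of `L'` is bijective if and only if
the base change of the coordinate map of `L` is. File `H51ActBC` (helper51). -/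
theorem coordinate_map_base_change {k B : Type u} [Field k] [CommRing B] [Algebra k B] {t : B}
    {F : ℕ → Submodule k B} {e : B →ₐ[k] k} {A : Type u} [CommRing A] [Algebra k A]
    {M : Type v} [AddCommGroup M] [Module A M] [Module k M] [IsScalarTower k A M]
    {A' : Type u} [CommRing A'] [Algebra k A'] [Algebra A A'] [IsScalarTower k A A']
    {M' : Type v} [AddCommGroup M'] [Module A' M'] [Module A M'] [IsScalarTower A A' M']
    [Module k M'] [IsScalarTower k A' M'] {L : ActLat t F e A M} {L' : ActLat t F e A' M'}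
    {β : M →ₗ[A] M'} (h : ActBC L L' β) (hP : L.FinProjP) (hQ : L.FinProjQ)
    (hc : IsCompl L.P L.Q) {n : ℕ} (p : Fin n → FreeAlgebra k (B × ℕ)) :
    ∃ hc' : IsCompl L'.P L'.Q,
      (Function.Bijective (L'.kap hc' p) ↔ Function.Bijective ((L.kap hc p).baseChange A')) :=
  ⟨h.isCompl hP hc, h.kap_bijective_iff hP hQ hc (h.isCompl hP hc) p⟩

/-- **Matrix data commute with base change**: if `x` describes `L` and `x'` describes the base change
`L'`, then `x'` is the image of `x` under `φ : A → A'` (apply `φ` to the coefficients of `ρ` and to `λ`).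
File `H2G1c`. -/
theorem matrix_data_base_change {k B : Type u} [Field k] [CommRing B] [Algebra k B] {n : ℕ}
    {D : H45.ChartData k B n} {A : Type u} [CommRing A] [Algebra k A]
    {M : Type v} [AddCommGroup M] [Module A M] [Module k M] [IsScalarTower k A M]
    {A' : Type u} [CommRing A'] [Algebra k A'] [Algebra A A'] [IsScalarTower k A A']
    {M' : Type v} [AddCommGroup M'] [Module A' M'] [Module A M'] [IsScalarTower A A' M']
    [Module k M'] [IsScalarTower k A' M'] {L : ActLat D.t D.F D.e A M}
    {L' : ActLat D.t D.F D.e A' M'} {β : M →ₗ[A] M'} {x : H45.ChartPt D A}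
    {x' : H45.ChartPt D A'} {u : Aˣ} (h : ActBC L L' β) (φ : A →ₐ[k] A')
    (hA : algebraMap A A' = φ.toRingHom) (r : H2Lat.LatRep L x u) (r' : H2Lat.LatRep L' x' 1) :
    x' = x.map φ :=
  H2Lat.map_unique h φ hA r r'

/-- **The coordinate condition is open.** If the fibre of `L` at a field valued point `A → K` is acyclic
with bijective coordinate map, there is `f ∈ A`, not zero in `K`, such that every base change of `L` in
which `f` becomes invertible is acyclic with bijective coordinate map. Proof: acyclicity is open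
(`Guide.Jacobians.acyclic_open`); over the ring where it holds, `V` is a finite projective module, its
formation commutes with base change, and bijectivity of a map `V → A^n` between finite projective modules
is open. File `H51ActOpen` (helper51). -/
theorem coordinate_condition_open {k B : Type u} [Field k] [CommRing B] [Algebra k B] {t : B}
    {F : ℕ → Submodule k B} {e : B →ₐ[k] k} {A : Type u} [CommRing A] [Algebra k A]
    {M : Type u} [AddCommGroup M] [Module A M] [Module k M] [IsScalarTower k A M]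
    {L : ActLat t F e A M} (hP : L.FinProjP) (hQ : L.FinProjQ) {K : Type u} [Field K] [Algebra k K]
    [Algebra A K] [IsScalarTower k A K] {MK : Type u} [AddCommGroup MK] [Module K MK]
    [Module A MK] [IsScalarTower A K MK] [Module k MK] [IsScalarTower k K MK]
    {LK : ActLat t F e K MK} {βK : M →ₗ[A] MK} (hK : ActBC L LK βK)
    (hcK : IsCompl LK.P LK.Q) {n : ℕ} (p : Fin n → FreeAlgebra k (B × ℕ))
    (hk : Function.Bijective (LK.kap hcK p)) :
    ∃ f : A, algebraMap A K f ≠ 0 ∧
      ∀ (A' : Type u) [CommRing A'] [Algebra k A'] [Algebra A A'] [IsScalarTower k A A']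
        (M' : Type u) [AddCommGroup M'] [Module A' M'] [Module A M'] [IsScalarTower A A' M']
        [Module k M'] [IsScalarTower k A' M'] (L' : ActLat t F e A' M')
        (β : M →ₗ[A] M') (_ : ActBC L L' β), IsUnit (algebraMap A A' f) →
        ∃ hc' : IsCompl L'.P L'.Q, Function.Bijective (L'.kap hc' p) :=
  exists_open_kap L hP hQ hK hcK p hk

/-! ## 2. The lattice of a rigidified line bundle

`spm k A : Spec A ⟶ Spec k`, `τ.UA A`, `τ.VA A` are the two charts of `C_A`; `τ.B0` is `O(U)` as a
`k`-algebra (`τ.fn b` is the function `b`) and `τ.eval hε` the evaluation at `ε`. For a line bundle `L` on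
`C_A` a rigidification is a generator `ℓ` of the pull back of `L` along the section
`rigSection c (spm k A) ε : Spec A ⟶ C_A`; `pb e L z` is the pull back of a section `z` along `e`, and
`pbL e i _ z` its image under an isomorphism `i` of `e^* L` with another bundle; `res` is the restriction of
sections, `resO` that of functions. `H2G2.ESec τ L` is the module of sections of `L` over `U_A ∩ V_A` (`x.s`
is `x` as a section). For `φ : A → A'`, `spa φ` is `Spec A' ⟶ Spec A` and `baseChangeSnd c (spa φ)` is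
`C_{A'} ⟶ C_A`. `H51Pb.baseChange τ _` (also `H2G2.tc τ A`) is the two-chart structure of `C_A`. The
statement `Rep τ hε p M x` is the geometric form of `matrix_data`: there are additive isomorphisms
`A[X]^n ≃ M(U_A)`, `A[X]^n ≃ M(V_A)` and a rigidification with the properties listed there. -/

/-- **The value of a section along the rigidifying section.** For a section `z` of `L` over `U_A` the
value `val z ∈ A` is defined by `ε^* z = val(z) ℓ`. It is additive, `A`-linear, and
`val (b z) = b(ε) val(z)` for a function `b` on `U`. Files `H2G2`, `H2LatSheaf`. -/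
theorem value_along_section {k : Type u} [Field k] {C : Scheme.{u}}
    {c : C ⟶ Spec (CommRingCat.of k)} {ε : SchemeHomOver (𝟙 (Spec (CommRingCat.of k))) c}
    {A : Type u} [CommRing A] [Algebra k A] {τ : TwoChart c} (hε : ε.1 ⁻¹ᵁ τ.U = ⊤)
    {L : (pullback c (spm k A)).Modules}
    {ℓ : Γ((Scheme.Modules.pullback (rigSection c (spm k A) ε)).obj L, ⊤)} (hℓ : IsGen _ ℓ)
    (z z' : Γ(L, τ.UA A)) :
    pb (rigSection c (spm k A) ε) L z =
      strHom (𝟙 (Spec (CommRingCat.of A))) (rigSection c (spm k A) ε ⁻¹ᵁ τ.UA A)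
        (H2G2.val hε hℓ z) • res _ le_top ℓ ∧
    H2G2.val hε hℓ (z + z') = H2G2.val hε hℓ z + H2G2.val hε hℓ z' ∧
    (∀ a : A, H2G2.val hε hℓ (strHom (pullback.snd c (spm k A)) (τ.UA A) a • z) =
      a * H2G2.val hε hℓ z) ∧
    ∀ b : τ.B0, H2G2.val hε hℓ ((pullback.fst c (spm k A)).app τ.U (τ.fn b) • z) =
      algebraMap k A (τ.eval hε b) * H2G2.val hε hℓ z :=
  ⟨H2G2.val_spec hε hℓ z, H2G2.val_add hε hℓ z z', fun a => H2G2.val_strHom_smul hε hℓ a z,
    fun b => H2G2.val_fst_smul hε hℓ b z⟩

/-- **The lattice with action of a rigidified line bundle** (`H2G2.actLat`): the underlying lattice is the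
one of `Guide.Jacobians.lattice_of_line_bundle` for the curve `C_A`, `b ∈ O(U)` acts on the sections over
`U_A ∩ V_A` by multiplication with the function `b`, and `lam` of a section which extends to `z` over `U_A`
is `val z`. File `H2G2`. -/
theorem lattice_of_bundle {k : Type u} [Field k] {C : Scheme.{u}}
    {c : C ⟶ Spec (CommRingCat.of k)} {ε : SchemeHomOver (𝟙 (Spec (CommRingCat.of k))) c}
    {A : Type u} [CommRing A] [Algebra k A] {τ : TwoChart c} (hε : ε.1 ⁻¹ᵁ τ.U = ⊤)
    {L : (pullback c (spm k A)).Modules} (hL : Scheme.Modules.IsInvertible L)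
    {ℓ : Γ((Scheme.Modules.pullback (rigSection c (spm k A) ε)).obj L, ⊤)} (hℓ : IsGen _ ℓ) :
    (H2G2.actLat hε hL hℓ).toP1Lat = latOf (H51Pb.baseChange τ (spm k A)) L hL ∧
    (∀ (b : τ.B0) (x : H2G2.ESec τ L), ((H2G2.actLat hε hL hℓ).act b x).s =
      (resO (inf_le_left : τ.UA A ⊓ τ.VA A ≤ τ.UA A)
        ((pullback.fst c (spm k A)).app τ.U (τ.fn b)) :
          Γ(pullback c (spm k A), (H2G2.tc τ A).U ⊓ (H2G2.tc τ A).V)) • x.s) ∧
    ∀ (x : (H2G2.actLat hε hL hℓ).P) (z : Γ(L, τ.UA A)),
      (x : H2G2.ESec τ L).s = res L (inf_le_left : τ.UA A ⊓ τ.VA A ≤ τ.UA A) z →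
      (H2G2.actLat hε hL hℓ).lam x = H2G2.val hε hℓ z :=
  ⟨rfl, fun b x => H2G2.actLat_act_s hε hL hℓ b x, fun x z h => H2G2.actLat_lam hε hL hℓ x z h⟩

/-- **The lattice of a pull back is the base change of the lattice.** For `φ : A → A'` and a suitable
rigidification `ℓ'` of the pull back `L'` of `L` to `C_{A'}` the pull back of sections over `U_A ∩ V_A`
makes the lattice of `L'` the base change of the lattice of `L`, with the action and the linear form.
File `H2G2BC`. -/
theorem lattice_base_change {k : Type u} [Field k] {C : Scheme.{u}}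
    {c : C ⟶ Spec (CommRingCat.of k)} {ε : SchemeHomOver (𝟙 (Spec (CommRingCat.of k))) c}
    {A : Type u} [CommRing A] [Algebra k A] {A' : Type u} [CommRing A'] [Algebra k A']
    {τ : TwoChart c} (hε : ε.1 ⁻¹ᵁ τ.U = ⊤) (φ : A →ₐ[k] A')
    {L : (pullback c (spm k A)).Modules} (hL : Scheme.Modules.IsInvertible L)
    {ℓ : Γ((Scheme.Modules.pullback (rigSection c (spm k A) ε)).obj L, ⊤)} (hℓ : IsGen _ ℓ)
    (hL' : Scheme.Modules.IsInvertible
      ((Scheme.Modules.pullback (baseChangeSnd c (spa φ))).obj L))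
    [Algebra A A'] (hA : algebraMap A A' = φ.toRingHom) :
    ∃ (ℓ' : Γ((Scheme.Modules.pullback (rigSection c (spm k A') ε)).obj
        ((Scheme.Modules.pullback (baseChangeSnd c (spa φ))).obj L), ⊤)) (hℓ' : IsGen _ ℓ'),
      ∀ [Module A (H2G2.ESec τ ((Scheme.Modules.pullback (baseChangeSnd c (spa φ))).obj L))]
        [IsScalarTower A A'
          (H2G2.ESec τ ((Scheme.Modules.pullback (baseChangeSnd c (spa φ))).obj L))],
      ∃ β : H2G2.ESec τ L →ₗ[A]
          H2G2.ESec τ ((Scheme.Modules.pullback (baseChangeSnd c (spa φ))).obj L),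
        (∀ x, (β x).s = pbL (baseChangeSnd c (spa φ)) (Iso.refl _) (H2G2.UV_pre τ φ) x.s) ∧
        ActBC (H2G2.actLat hε hL hℓ) (H2G2.actLat hε hL' hℓ') β :=
  H2G2.exists_actBC φ hε hL hℓ hL' hA

/-- **Acyclic bundles**: `Acyc τ L` says that a section over `U_A` and a section over `V_A` which agree on
`U_A ∩ V_A` are zero, and that every section over `U_A ∩ V_A` is a sum of a section over `U_A` and one over
`V_A` (`H⁰(L) = H¹(L) = 0`). This is the acyclicity of the lattice. File `H2G2`. -/
theorem acyclic_iff {k : Type u} [Field k] {C : Scheme.{u}}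
    {c : C ⟶ Spec (CommRingCat.of k)} {ε : SchemeHomOver (𝟙 (Spec (CommRingCat.of k))) c}
    {A : Type u} [CommRing A] [Algebra k A] {τ : TwoChart c} (hε : ε.1 ⁻¹ᵁ τ.U = ⊤)
    {L : (pullback c (spm k A)).Modules} (hL : Scheme.Modules.IsInvertible L)
    {ℓ : Γ((Scheme.Modules.pullback (rigSection c (spm k A) ε)).obj L, ⊤)} (hℓ : IsGen _ ℓ) :
    Acyc τ L ↔ IsCompl (H2G2.actLat hε hL hℓ).P (H2G2.actLat hε hL hℓ).Q :=
  H2G2.acyc_iff hε hL hℓ

/-- **Which bundles have matrix data.** A rigidified line bundle `M` on `C_A` has matrix data for the words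
`p` if and only if its lattice is acyclic with bijective coordinate map `kap p`. File `H2G2`. -/
theorem matrix_data_iff {k : Type u} [Field k] {C : Scheme.{u}}
    {c : C ⟶ Spec (CommRingCat.of k)} {ε : SchemeHomOver (𝟙 (Spec (CommRingCat.of k))) c}
    {A : Type u} [CommRing A] [Algebra k A] {τ : TwoChart c} {hε : ε.1 ⁻¹ᵁ τ.U = ⊤}
    (p : Fin τ.n → FreeAlgebra k (τ.B0 × ℕ)) (M : RigidifiedLineBundle c ε (spm k A))
    {ℓ : Γ((Scheme.Modules.pullback (rigSection c (spm k A) ε)).obj M.L, ⊤)} (hℓ : IsGen _ ℓ) :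
    (∃ x : H45.ChartPt (τ.chartData hε p) A, Rep τ hε p M x) ↔
      ∃ hc : IsCompl (H2G2.actLat hε M.isInvertible hℓ).P (H2G2.actLat hε M.isInvertible hℓ).Q,
        Function.Bijective ((H2G2.actLat hε M.isInvertible hℓ).kap hc p) :=
  ⟨fun ⟨_, h⟩ => H2G2.rep_kap hℓ h, fun ⟨hc, hk⟩ => H2G2.exists_rep_of_kap hℓ hc hk⟩

/-- **The matrix data of a bundle are unique.** File `H2G2`. -/
theorem bundle_matrix_data_unique {k : Type u} [Field k] {C : Scheme.{u}}
    {c : C ⟶ Spec (CommRingCat.of k)} {ε : SchemeHomOver (𝟙 (Spec (CommRingCat.of k))) c}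
    {A : Type u} [CommRing A] [Algebra k A] {τ : TwoChart c} {hε : ε.1 ⁻¹ᵁ τ.U = ⊤}
    {p : Fin τ.n → FreeAlgebra k (τ.B0 × ℕ)} {M : RigidifiedLineBundle c ε (spm k A)}
    {x x' : H45.ChartPt (τ.chartData hε p) A} (h : Rep τ hε p M x) (h' : Rep τ hε p M x') :
    x = x' :=
  H2G2.rep_unique h h'

/-- **A bundle is determined by its matrix data**, and matrix data only depend on the isomorphism class.
File `H51Rep` (helper51); the existence of a bundle for given matrix data is
`Guide.Jacobians.line_bundle_of_matrices`. -/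
theorem bundle_determined {k : Type u} [Field k] {C : Scheme.{u}}
    {c : C ⟶ Spec (CommRingCat.of k)} {ε : SchemeHomOver (𝟙 (Spec (CommRingCat.of k))) c}
    {A : Type u} [CommRing A] [Algebra k A] {τ : TwoChart c} {hε : ε.1 ⁻¹ᵁ τ.U = ⊤}
    {p : Fin τ.n → FreeAlgebra k (τ.B0 × ℕ)} {M M' : RigidifiedLineBundle c ε (spm k A)}
    {x : H45.ChartPt (τ.chartData hε p) A} (h : Rep τ hε p M x) :
    Rep τ hε p M' x ↔ Nonempty (M.L ≅ M'.L) :=
  ⟨fun h' => h.iso h', fun e => h.of_iso e⟩

/-- **Base change of matrix data**: for a homomorphism of `k`-algebras `φ : A → A'` the pull back of `M` to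
`C_{A'}` has the matrix data `φ(x)`. Files `H2G2BC`, `H2G3`. -/
theorem pullback_matrix_data {k : Type u} [Field k] {C : Scheme.{u}}
    {c : C ⟶ Spec (CommRingCat.of k)} {ε : SchemeHomOver (𝟙 (Spec (CommRingCat.of k))) c}
    {A : Type u} [CommRing A] [Algebra k A] {A' : Type u} [CommRing A'] [Algebra k A']
    {τ : TwoChart c} {hε : ε.1 ⁻¹ᵁ τ.U = ⊤} {p : Fin τ.n → FreeAlgebra k (τ.B0 × ℕ)}
    {M : RigidifiedLineBundle c ε (spm k A)} {x : H45.ChartPt (τ.chartData hε p) A}
    (h : Rep τ hε p M x) (φ : A →ₐ[k] A') :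
    Rep τ hε p (M.pullbackAlong (spa φ)) (x.map φ) :=
  H2G2.rep_pullback h φ

/-- **Having matrix data is an open condition**: if the fibre of `M` at a field valued point
`φ_K : A → K` has matrix data for `p`, there is `f ∈ A`, not zero in `K`, such that the pull back of `M`
along every `φ : A → A'` with `φ(f)` invertible has matrix data for `p`. File `H2G3`. -/
theorem matrix_data_open {k : Type u} [Field k] {C : Scheme.{u}}
    {c : C ⟶ Spec (CommRingCat.of k)} {ε : SchemeHomOver (𝟙 (Spec (CommRingCat.of k))) c}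
    {A : Type u} [CommRing A] [Algebra k A] {τ : TwoChart c} {hε : ε.1 ⁻¹ᵁ τ.U = ⊤}
    {p : Fin τ.n → FreeAlgebra k (τ.B0 × ℕ)} {M : RigidifiedLineBundle c ε (spm k A)}
    {K : Type u} [Field K] [Algebra k K] (φK : A →ₐ[k] K)
    {xK : H45.ChartPt (τ.chartData hε p) K} (h : Rep τ hε p (M.pullbackAlong (spa φK)) xK) :
    ∃ f : A, φK f ≠ 0 ∧ ∀ (A' : Type u) [CommRing A'] [Algebra k A'] (φ : A →ₐ[k] A'),
      IsUnit (φ f) → ∃ x : H45.ChartPt (τ.chartData hε p) A',
        Rep τ hε p (M.pullbackAlong (spa φ)) x :=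
  H2G2.exists_open_rep φK h

/-! ## 3. Over a field -/

/-- **The dimension of `V`.** For an acyclic line bundle on a two-chart curve over a field `K` the space
`P ∩ τ Q = H⁰(L(1))`, here `(latOf τ L hL).K 1`, has dimension `n`, the degree of the curve over the
projective line. Proof: `v ↦ τ⁻¹ v` induces a bijection of this space with `Q / τ⁻¹ Q`, because `P ⊕ Q` is
everything; `τ⁻¹` is multiplication by `s`, and `Q`, the module of sections over the second chart, is
invertible over a ring which is free of rank `n` over `K[s]`. File `H2Fld`. -/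
theorem dimension_of_V {K : Type u} [Field K] {Z : Scheme.{u}}
    {z : Z ⟶ Spec (CommRingCat.of K)} (τ : TwoChart z) {L : Z.Modules}
    (hL : Scheme.Modules.IsInvertible L) (h : IsCompl (latOf τ L hL).P (latOf τ L hL).Q) :
    Module.Finite K ((latOf τ L hL).K 1) ∧ Module.finrank K ((latOf τ L hL).K 1) = τ.n :=
  H2G2.finrank_V τ hL h

/-- **Not all values along the rigidifying section are zero**: the sections of `L` over `U_A` generate the
pull back of `L` along the section. So the linear form `lam` is not zero. File `H2Fld`. -/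
theorem some_value_ne_zero {k : Type u} [Field k] {C : Scheme.{u}}
    {c : C ⟶ Spec (CommRingCat.of k)} {ε : SchemeHomOver (𝟙 (Spec (CommRingCat.of k))) c}
    {A : Type u} [CommRing A] [Algebra k A] [Nontrivial A] {τ : TwoChart c}
    (hε : ε.1 ⁻¹ᵁ τ.U = ⊤) {L : (pullback c (spm k A)).Modules}
    (hL : Scheme.Modules.IsInvertible L)
    {ℓ : Γ((Scheme.Modules.pullback (rigSection c (spm k A) ε)).obj L, ⊤)} (hℓ : IsGen _ ℓ) :
    (∃ w : Γ(L, τ.UA A), H2G2.val hε hℓ w ≠ 0) ∧ (H2G2.actLat hε hL hℓ).lam ≠ 0 :=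
  ⟨H2G2.exists_val_ne_zero hε hL hℓ, H2G2.lam_ne_zero hε hL hℓ⟩

/-- **A nonzero element divides a polynomial in `t`**: if the domain `B` is finite over `K[t]` and
`a ≠ 0`, then `a` divides `q(t)` for some polynomial `q ≠ 0` (`a` is integral over `K[t]`). File
`H2Fld`. -/
theorem dvd_polynomial_in_t {K B : Type u} [Field K] [CommRing B] [IsDomain B] (i : K →+* B) (t : B)
    {n : ℕ} (b : Fin n → B)
    (hb : Function.Surjective (fun f : Fin n → Polynomial K => ∑ j, (f j).eval₂ i t * b j))
    {a : B} (ha : a ≠ 0) : ∃ q : Polynomial K, q ≠ 0 ∧ a ∣ q.eval₂ i t :=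
  H2G2.exists_dvd_eval₂ i t b hb ha

/-- **Quotients are torsion.** Let `O(U_K)` be a domain. For every nonzero subspace `P'` of `P = L(U_K)`
which is stable under `O(U)`, the quotient `P / P'` is torsion over `K[t]`: for `x ∈ P` there is `q ≠ 0`
with `q(t) x ∈ P'`. Proof: `P` is a torsion free `O(U_K)`-module of rank one; use `dvd_polynomial_in_t`.
This is the hypothesis of `Guide.Jacobians.common_words`. File `H2Fld`. -/
theorem quotient_torsion {k : Type u} [Field k] {C : Scheme.{u}}
    {c : C ⟶ Spec (CommRingCat.of k)} {ε : SchemeHomOver (𝟙 (Spec (CommRingCat.of k))) c}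
    {K : Type u} [Field K] [Algebra k K] {τ : TwoChart c} (hε : ε.1 ⁻¹ᵁ τ.U = ⊤)
    {L : (pullback c (spm k K)).Modules} (hL : Scheme.Modules.IsInvertible L)
    {ℓ : Γ((Scheme.Modules.pullback (rigSection c (spm k K) ε)).obj L, ⊤)} (hℓ : IsGen _ ℓ)
    [IsDomain Γ(pullback c (spm k K), τ.UA K)]
    (P' : Submodule K (H2G2.ESec τ L)) (hP' : P' ≤ (H2G2.actLat hε hL hℓ).P) (h0 : P' ≠ ⊥)
    (hst : ∀ b, ∀ x ∈ P', (H2G2.actLat hε hL hℓ).act b x ∈ P') :
    ∀ x ∈ (H2G2.actLat hε hL hℓ).P, ∃ q : Polynomial K, q ≠ 0 ∧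
      Polynomial.aeval
        ((H2G2.actLat hε hL hℓ).τ : H2G2.ESec τ L →ₗ[K] H2G2.ESec τ L) q x ∈ P' :=
  H2G2.torsion hε hL hℓ P' hP' h0 hst

/-- **A common chart for two acyclic bundles.** `k` algebraically closed, `C` integral and locally of
finite type, `K` a field over `k`. For any two acyclic rigidified line bundles on `C_K` there are words
`p_1, …, p_n` such that both have matrix data for `p`. (`O(U_K)` is a domain because `C` is geometrically
integral.) Files `H2Fld`, `H65Cyc` (helper65), `H74F1Int` (helper74). -/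
theorem common_chart_over_field {k : Type u} [Field k] [IsAlgClosed k] {C : Scheme.{u}}
    {c : C ⟶ Spec (CommRingCat.of k)} [IsIntegral C] [LocallyOfFiniteType c]
    {ε : SchemeHomOver (𝟙 (Spec (CommRingCat.of k))) c} {K : Type u} [Field K] [Algebra k K]
    {τ : TwoChart c} (hε : ε.1 ⁻¹ᵁ τ.U = ⊤) (hn : 0 < τ.n)
    (M M' : RigidifiedLineBundle c ε (spm k K)) (hM : Acyc τ M.L) (hM' : Acyc τ M'.L) :
    ∃ p : Fin τ.n → FreeAlgebra k (τ.B0 × ℕ),
      (∃ x : H45.ChartPt (τ.chartData hε p) K, Rep τ hε p M x) ∧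
      ∃ x : H45.ChartPt (τ.chartData hε p) K, Rep τ hε p M' x :=
  H2G2.exists_common_rep hε hn M M' hM hM'

/-! ## 4. From affine test schemes to all schemes

`RigInj c ε` is the conclusion of `Guide.Jacobians.functions_determined_on_section` for all `T`.
`LIso W M N` is the type of isomorphisms between the restrictions of the sheaves of modules `M`, `N` to the
open subset `W`; `ev e ρ z` is the value of the section `z` of `M` along `e : T ⟶ Y`, measured by a
trivialisation `ρ` of `e^* M`. -/

/-- **Functions over opens of the base**: if global functions on `C_T` are determined on the rigidifying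
section for all `T`, then for every open `W` of `T` also the functions on the preimage of `W` are. File
`H2PicBase`. -/
theorem injective_over_opens {k : Type u} [Field k] {C : Scheme.{u}}
    {c : C ⟶ Spec (CommRingCat.of k)} {ε : SchemeHomOver (𝟙 (Spec (CommRingCat.of k))) c}
    (hinj : RigInj c ε) {T : Scheme.{u}} (t : T ⟶ Spec (CommRingCat.of k)) (W : T.Opens) :
    Function.Injective ((rigSection c t ε).app (pullback.snd c t ⁻¹ᵁ W)) :=
  (H2Pic.rig_of_rigInj hinj t).inj W

/-- **Rigidified isomorphisms are unique.** `f : Y ⟶ T` a morphism with a section `e` such that functions on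
`f⁻¹(W)` are determined on `e`, `M`, `N` invertible on `Y` with trivialisations `ρ`, `σ` along `e`. Two
isomorphisms `M ≅ N` over `f⁻¹(W)` which are compatible with `ρ`, `σ` are equal. File `H2PicS1`. -/
theorem rigidified_iso_unique {Y T : Scheme.{u}} {M N : Y.Modules} {e : T ⟶ Y} {f : Y ⟶ T}
    (hef : e ≫ f = 𝟙 T) (hinj : ∀ W : T.Opens, Function.Injective (e.app (f ⁻¹ᵁ W)))
    (hM : Scheme.Modules.IsInvertible M)
    (ρ : (Scheme.Modules.pullback e).obj M ⟶ uMod T) [IsIso ρ]
    (σ : (Scheme.Modules.pullback e).obj N ⟶ uMod T) [IsIso σ] {W : T.Opens}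
    {φ ψ : LIso (f ⁻¹ᵁ W) M N}
    (hφ : ∀ (G : Y.Opens) (hG : G ≤ f ⁻¹ᵁ W) (s : Γ(M, G)),
      H2Pic.ev e σ (φ.hom.f G hG s) = H2Pic.ev e ρ s)
    (hψ : ∀ (G : Y.Opens) (hG : G ≤ f ⁻¹ᵁ W) (s : Γ(M, G)),
      H2Pic.ev e σ (ψ.hom.f G hG s) = H2Pic.ev e ρ s)
    (G : Y.Opens) (hG : G ≤ f ⁻¹ᵁ W) (s : Γ(M, G)) : φ.hom.f G hG s = ψ.hom.f G hG s :=
  H2Pic.Rig.unique ⟨hef, hinj⟩ hM ρ σ hφ hψ G hG s

/-- **Every local isomorphism can be made compatible with the rigidifications**: over `W` the
trivialisations `ρ` and `σ ∘ e^* φ` of `e^* M` differ by a unit of `O(W)`; divide `φ` by the pull back of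
this unit under `f`. File `H2PicS1`. -/
theorem exists_rigidified_iso {Y T : Scheme.{u}} {M N : Y.Modules} {e : T ⟶ Y} {f : Y ⟶ T}
    (hef : e ≫ f = 𝟙 T) (hinj : ∀ W : T.Opens, Function.Injective (e.app (f ⁻¹ᵁ W)))
    (hM : Scheme.Modules.IsInvertible M)
    (ρ : (Scheme.Modules.pullback e).obj M ⟶ uMod T) [IsIso ρ]
    (σ : (Scheme.Modules.pullback e).obj N ⟶ uMod T) [IsIso σ] {W : T.Opens}
    (φ : LIso (f ⁻¹ᵁ W) M N) :
    ∃ ψ : LIso (f ⁻¹ᵁ W) M N, ∀ (G : Y.Opens) (hG : G ≤ f ⁻¹ᵁ W) (s : Γ(M, G)),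
      H2Pic.ev e σ (ψ.hom.f G hG s) = H2Pic.ev e ρ s :=
  H2Pic.Rig.exists_isRig ⟨hef, hinj⟩ hM ρ σ φ

/-- **Locally isomorphic rigidified line bundles are isomorphic**: let `M`, `N` be rigidified line bundles
on `C_T` whose pull backs to the members of an open cover of `T` are isomorphic. Then `M ≅ N`: the local
isomorphisms, made compatible with the rigidifications, agree on intersections. Files `H2PicS1`,
`H2PicBase`. -/
theorem iso_of_locally_iso {k : Type u} [Field k] {C : Scheme.{u}}
    {c : C ⟶ Spec (CommRingCat.of k)} {ε : SchemeHomOver (𝟙 (Spec (CommRingCat.of k))) c}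
    (hinj : RigInj c ε) {T : Scheme.{u}} {t : T ⟶ Spec (CommRingCat.of k)}
    (M N : RigidifiedLineBundle c ε t) {ι : Type*} {Z : ι → Scheme.{u}}
    {z : ∀ i, Z i ⟶ Spec (CommRingCat.of k)} (j : ∀ i, SchemeHomOver (z i) t)
    [∀ i, IsOpenImmersion (j i).1] (hcov : ∀ y : T, ∃ i, y ∈ Set.range (j i).1)
    (h : ∀ i, Nonempty ((M.pullbackAlong (j i)).L ≅ (N.pullbackAlong (j i)).L)) :
    Nonempty (M.L ≅ N.L) :=
  H2Pic.exists_iso_of_cover hinj M N j hcov h

/-- **A chart from its behaviour on affine test schemes.** Let `L` be a rigidified line bundle on `C_X`.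
Suppose that (a) for affine `T` a morphism `h : T → X` is determined by the class of `h^* L`, and (b) if a
bundle `M` on `C_A` becomes a pull back of `L` over a field valued point `A → K`, then it is a pull back
of `L` over some `A[1/f]` with `f` not zero in `K`. Then `(X, L)` is a chart of the Picard functor
(`Guide.Jacobians.picard_chart`); the open subset which belongs to a bundle `M` on `C_T` is the union of
all opens `W` of `T` over which `M` is a pull back of `L`. File `H2PicChart`. -/
theorem chart_of_affine_tests {k : Type u} [Field k] {C : Scheme.{u}}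
    {c : C ⟶ Spec (CommRingCat.of k)} {ε : SchemeHomOver (𝟙 (Spec (CommRingCat.of k))) c}
    (hinj : RigInj c ε) {X : Scheme.{u}} {x : X ⟶ Spec (CommRingCat.of k)}
    (L : RigidifiedLineBundle c ε x)
    (hm : ∀ (A : CommRingCat.{u}) (t : Spec A ⟶ Spec (CommRingCat.of k)) (h h' : SchemeHomOver t x),
      Nonempty ((L.pullbackAlong h).L ≅ (L.pullbackAlong h').L) → h = h')
    (hk : ∀ (A : CommRingCat.{u}) (t : Spec A ⟶ Spec (CommRingCat.of k))
      (M : RigidifiedLineBundle c ε t) (K : Type u) [Field K] (φ : A ⟶ CommRingCat.of K)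
      (h : SchemeHomOver (Spec.map φ ≫ t) x),
      Nonempty ((L.pullbackAlong h).L ≅ (M.pullbackAlong ⟨Spec.map φ, rfl⟩).L) →
      ∃ f : A, φ f ≠ 0 ∧
        ∃ h' : SchemeHomOver
            (Spec.map (CommRingCat.ofHom (algebraMap A (Localization.Away f))) ≫ t) x,
          Nonempty ((L.pullbackAlong h').L ≅ (M.pullbackAlong
            ⟨Spec.map (CommRingCat.ofHom (algebraMap A (Localization.Away f))), rfl⟩).L)) :
    (∀ {T : Scheme.{u}} (t : T ⟶ Spec (CommRingCat.of k)) (M : RigidifiedLineBundle c ε t)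
      {T' : Scheme.{u}} (t' : T' ⟶ Spec (CommRingCat.of k)) (g : SchemeHomOver t' t),
      (∃ h : SchemeHomOver t' x, Nonempty ((L.pullbackAlong h).L ≅ (M.pullbackAlong g).L)) ↔
        Set.range g.1.base ⊆ (sSup {W : T.Opens | ∃ (h : W.toScheme ⟶ X) (w : h ≫ x = W.ι ≫ t),
          Nonempty ((L.pullbackAlong (t' := W.ι ≫ t) ⟨h, w⟩).L ≅
            (M.pullbackAlong (t' := W.ι ≫ t) ⟨W.ι, rfl⟩).L)} : T.Opens)) ∧
    ∀ {T : Scheme.{u}} (t : T ⟶ Spec (CommRingCat.of k)) (h h' : SchemeHomOver t x),
      Nonempty ((L.pullbackAlong h).L ≅ (L.pullbackAlong h').L) → h = h' :=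
  ⟨(H2Pic.mkPicChart hinj L hm hk).locus_spec, (H2Pic.mkPicChart hinj L hm hk).mono⟩

/-- **The chart of the words `p`.** `k` algebraically closed, `C` integral and smooth of dimension one. For
all `p_1, …, p_n` there is an affine, finitely presented chart of the Picard functor (`PicChart`, see
`Guide.Jacobians.picard_chart`) whose `A`-valued
points are the bundles with matrix data for `p`: a rigidified line bundle `M` on `C_A` lies in the chart
everywhere (its locus is the whole of `Spec A`) if and only if it has matrix data. Proof: the chart scheme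
is `Spec` of the chart ring, its bundle is the bundle of the universal chart point
(`Guide.Jacobians.chart_ring`, `line_bundle_of_matrices`); (a) of `chart_of_affine_tests` is
`bundle_matrix_data_unique` with `pullback_matrix_data`, and (b) is `matrix_data_open`. File `H2Chart`. -/
theorem chart_of_words {k : Type u} [Field k] [IsAlgClosed k] {C : Scheme.{u}}
    {c : C ⟶ Spec (CommRingCat.of k)} [IsIntegral C] [SmoothOfRelativeDimension 1 c]
    {ε : SchemeHomOver (𝟙 (Spec (CommRingCat.of k))) c} (hinj : RigInj c ε) (τ : TwoChart c)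
    (hε : ε.1 ⁻¹ᵁ τ.U = ⊤) (hn : 0 < τ.n) (p : Fin τ.n → FreeAlgebra k (τ.B0 × ℕ)) :
    ∃ ch : PicChart c ε, IsAffine ch.X ∧ LocallyOfFinitePresentation ch.x ∧
      ∀ (A : Type u) [CommRing A] [Algebra k A] (M : RigidifiedLineBundle c ε (spm k A)),
        ch.locus (spm k A) M = ⊤ ↔ ∃ x : H45.ChartPt (τ.chartData hε p) A, Rep τ hε p M x :=
  H2G2.exists_chart τ hε p hinj hn

end Fermat.Agent.Guide.JacobianCharts
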