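import Fermat.Agent.S25

/-!
# Guide to the proof: thickenings, geometry from points, bundles of matrices (companion of `GuideJacobians`)

This file contains no new mathematics. Every theorem below is proved by citing theorems of the library;
the statements are written out. It gives the steps behind sections 5 and 8 of `GuideJacobians` (the
Jacobian of a smooth proper curve `c : C ⟶ Spec k` over an algebraically closed field, statement S25):

* Smoothness. The charts of the Jacobian are smooth because line bundles on the curve lift along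
  nilpotent thickenings of an affine base. `C` is covered by two affine opens (section 1 of
  `GuideJacobians`), hence a line bundle is a pair of invertible modules with one identification over
  the intersection: invertible modules lift (section 1), the identification lifts since it is a
  homomorphism of projective modules (section 2), and two charts glue without a cocycle condition
  (section 3). There is no obstruction theory and no cohomology. Section 4 has the infinitesimal
  criterion.
* Separatedness, properness, connectedness and integrality of schemes locally of finite type over an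
  algebraically closed field, from points and from covers (section 5). They are used for the Jacobian
  `P`, which is glued from charts, with a surjection `C^d → P`.
* The line bundle of a pair `(ρ, λ)` of a homomorphism `ρ : O(U) → M_n(A[X])` and a row vector `λ`
  (`line_bundle_of_matrices` of `GuideJacobians`): the algebra of the second chart (section 6), of the
  first chart and of the rigidification (section 7).
* A line bundle on `X = U ∪ V` is a pair of modules with one identification (section 8, the steps of
  `line_bundle_of_two_charts` of `GuideJacobians`).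

Reading order.
1. Modules modulo a nilpotent ideal: `nakayama_sup`, `nakayama_smul`, `reduction_iff_base_change`,
   `lift_hom`, `bijective_of_reduction`, `matrix_nilpotent`, `lift_projective_module`, `lift_pairing`.
2. Two charts, algebra: `localisation_iff_base_change`, `is_loc_map_iff`, `is_red_map_iff`,
   `lift_two_charts`.
3. Line bundles on thickenings: `pushout_thickening`, `functions_thickening`, `sections_lift`,
   `sections_vanish`, `pullback_criterion`, `lift_line_bundle_two_charts`, `generator_lifts`.
4. The infinitesimal criterion: `points_of_thickening`, `lifting_iff`, `lifting_open`,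
   `formally_smooth_of_lifting`, `smooth_of_lifting`, `picard_chart_lifting`.
5. Geometry from points and covers: `smooth_of_cover`, `finite_type_of_cover`, `diagonal_of_open`,
   `separated_of_cover`, `surjective_of_points`, `connected_of_surjective`, `integral_of_cover`,
   `integral_over_field`, `integral_product`, `geometrically_connected`.
6. The second chart: `combination_def`, `combination_reverse`, `second_chart_formula`,
   `second_chart_denominators`, `second_chart_stable`, `second_chart`.
7. The first chart and the rigidification: `hom_from_tensor`, `first_chart`, `semilinear_of_generators`,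
   `functional_of_matrix`, `rigidification`.
8. Line bundles from two charts: `coordinate`, `generators_localised`, `sections_from_functionals`,
   `cocycle_of_coordinates`, `bundle_of_local_generators`, `homs_on_two_charts`, `isos_on_two_charts`.

All theorems cited in this file are used in the proof of S25 and of no other statement. Files `H74Lift`,
`H74LiftGlue`, `H74Sm1`, `H74Sm2`, `H74Sm3`, `H74F1`, `H74F1Int`, `H74R4a`, `H74R4b`, `H74R4` (helper74);
they use `H25Gen`, `H25Pb`, `H51Aff`, `H51Pb`, `H51CurveSm`, `H73TwoChart`, `H98ChartTensor`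
(helper25, helper51, helper73, helper98). Section 8: `H73TwoChart` (helper73). NOTES: [105], [102], [199].
-/

set_option autoImplicit false
universe u v w

open CategoryTheory CategoryTheory.Limits AlgebraicGeometry AlgebraicGeometry.RelPicard
  NeronModelInfra
open Fermat.Agent Fermat.Agent.H25 Fermat.Agent.H51Pb Polynomial TopologicalSpace
open scoped TensorProduct

noncomputable section

namespace Fermat.Agent.Guide.JacobianGeometry

/-! ## 1. Modules modulo a nilpotent ideal

The modules are not assumed finite: a nilpotent ideal needs no finiteness in Nakayama's lemma. -/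

/-- **Nakayama's lemma, first form**: a submodule `N` with `M = N + J M`, `J` nilpotent, is `M`. Proof:
`M = N + J^k M` for all `k`, by induction. File `H74Lift`. -/
theorem nakayama_sup {R M : Type*} [CommRing R] [AddCommGroup M] [Module R M] {J : Ideal R}
    (hJ : IsNilpotent J) {N : Submodule R M} (h : (⊤ : Submodule R M) ≤ N ⊔ J • ⊤) : N = ⊤ :=
  H74.Lift.eq_top_of_sup hJ h

/-- **Nakayama's lemma, second form**: a submodule `N` with `N ⊆ J N`, `J` nilpotent, is zero. File
`H74Lift`. -/
theorem nakayama_smul {R M : Type*} [CommRing R] [AddCommGroup M] [Module R M] {J : Ideal R}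
    (hJ : IsNilpotent J) {N : Submodule R M} (h : N ≤ J • N) : N = ⊥ :=
  H74.Lift.eq_bot_of_le_smul hJ h

/-- **Base change along a surjection is reduction modulo the kernel** `J` of `R → R'`: an `R`-linear map
`f : F → P` to an `R'`-module induces an isomorphism `R' ⊗ F = P` iff it is surjective with kernel
contained in `J F` (the kernel is then `J F`). Proof of one half: every element of `R' ⊗ F` is
`1 ⊗ x`; of the other: right exactness of the tensor product. File `H74Lift`. -/
theorem reduction_iff_base_change {R R' : Type*} [CommRing R] [CommRing R'] [Algebra R R']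
    (hs : Function.Surjective (algebraMap R R')) {F P : Type*} [AddCommGroup F] [Module R F]
    [AddCommGroup P] [Module R P] [Module R' P] [IsScalarTower R R' P] (f : F →ₗ[R] P) :
    IsBaseChange R' f ↔ Function.Surjective f ∧
      ∀ x, f x = 0 → x ∈ RingHom.ker (algebraMap R R') • (⊤ : Submodule R F) :=
  ⟨fun h => ⟨(H74.Lift.isRed_of_isBaseChange hs h).surj, (H74.Lift.isRed_of_isBaseChange hs h).ker_le⟩,
    fun h => H74.Lift.isBaseChange_of_isRed hs ⟨h.1, h.2⟩⟩

/-- **Homomorphisms from a projective module lift**: `F` projective over `R`, `f : F → P` and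
`f' : F' → P'` linear, `f'` surjective, `ψ : P → P'` linear over `R'`; there is `φ : F → F'` with
`f' φ = ψ f`. File `H74Lift`. -/
theorem lift_hom {R R' : Type*} [CommRing R] [CommRing R'] [Algebra R R'] {F P : Type*}
    [AddCommGroup F] [Module R F] [AddCommGroup P] [Module R P] [Module R' P] [IsScalarTower R R' P]
    {F' P' : Type*} [AddCommGroup F'] [Module R F'] [AddCommGroup P'] [Module R P'] [Module R' P']
    [IsScalarTower R R' P'] [Module.Projective R F] {f : F →ₗ[R] P} {f' : F' →ₗ[R] P'}
    (hf' : Function.Surjective f') (ψ : P →ₗ[R'] P') :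
    ∃ φ : F →ₗ[R] F', ∀ x, f' (φ x) = ψ (f x) :=
  H74.Lift.exists_lift_hom hf' ψ

/-- **A homomorphism to a projective module is bijective if it is bijective modulo a nilpotent ideal.**
`f : F → P`, `f' : F' → P'` are reductions modulo the kernel `J` of `R → R'`, which is nilpotent, `F'`
is projective and `φ : F → F'` induces a bijection `P → P'`. Proof: `φ` is surjective by
`nakayama_sup`, hence has a section, and its kernel `N` satisfies `N ⊆ J N`. File `H74Lift`. -/
theorem bijective_of_reduction {R R' : Type*} [CommRing R] [CommRing R'] [Algebra R R']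
    (hnil : IsNilpotent (RingHom.ker (algebraMap R R'))) {F P : Type*}
    [AddCommGroup F] [Module R F] [AddCommGroup P] [Module R P]
    {F' P' : Type*} [AddCommGroup F'] [Module R F'] [AddCommGroup P'] [Module R P'] [Module R' P']
    [IsScalarTower R R' P'] [Module.Projective R F'] {f : F →ₗ[R] P} {f' : F' →ₗ[R] P'}
    (hf : Function.Surjective f)
    (hk : ∀ x, f x = 0 → x ∈ RingHom.ker (algebraMap R R') • (⊤ : Submodule R F))
    (hf' : Function.Surjective f')
    (hk' : ∀ x, f' x = 0 → x ∈ RingHom.ker (algebraMap R R') • (⊤ : Submodule R F'))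
    (φ : F →ₗ[R] F') (ψ : P → P') (hψ : Function.Bijective ψ) (hc : ∀ x, ψ (f x) = f' (φ x)) :
    Function.Bijective φ :=
  H74.Lift.bijective_of_isRed (R' := R') hnil ⟨hf, hk⟩ ⟨hf', hk'⟩ φ ψ hψ hc

/-- **Matrices with entries in a nilpotent ideal are nilpotent**: the entries of `A^m` lie in `J^m`.
File `H74Lift`. -/
theorem matrix_nilpotent {R : Type u} {R' : Type v} [CommRing R] [CommRing R'] [Algebra R R']
    (hnil : IsNilpotent (RingHom.ker (algebraMap R R'))) {n : ℕ} (A : Matrix (Fin n) (Fin n) R)
    (hA : ∀ i j, algebraMap R R' (A i j) = 0) : IsNilpotent A :=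
  H74.Lift.mapMatrix_ker_nilpotent hnil A (by ext i j; exact hA i j)

/-- **Finite projective modules lift** along a surjection `R → R'` with nilpotent kernel. Proof: `P` is
the image of an idempotent matrix over `R'`; by `matrix_nilpotent` it lifts to an idempotent matrix over
`R`. File `H74Lift`. -/
theorem lift_projective_module {R : Type u} {R' : Type v} [CommRing R] [CommRing R'] [Algebra R R']
    (hs : Function.Surjective (algebraMap R R')) (hnil : IsNilpotent (RingHom.ker (algebraMap R R')))
    (P : Type w) [AddCommGroup P] [Module R P] [Module R' P] [IsScalarTower R R' P]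
    [Module.Finite R' P] [Module.Projective R' P] :
    ∃ (F : Type u) (_ : AddCommGroup F) (_ : Module R F) (_ : Module.Finite R F)
      (_ : Module.Projective R F) (f : F →ₗ[R] P), Function.Surjective f ∧
        ∀ x, f x = 0 → x ∈ RingHom.ker (algebraMap R R') • (⊤ : Submodule R F) := by
  obtain ⟨F, i1, i2, i3, i4, f, hf⟩ := H74.Lift.exists_lift_projective hs hnil P
  exact ⟨F, i1, i2, i3, i4, f, hf.surj, hf.ker_le⟩

/-- **Inverse modules lift to inverse modules.** `F`, `F₂` projective over `R` with reductions `P`, `P₂`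
and an isomorphism `P ⊗ P₂ = R'`; it lifts to an isomorphism `F ⊗ F₂ = R`. With
`lift_projective_module` for `P` and for its dual: the lift of an invertible module is invertible
(`lift_invertible_module` of `GuideJacobians`). File `H74Lift`. -/
theorem lift_pairing {R : Type u} {R' : Type v} [CommRing R] [CommRing R'] [Algebra R R']
    (hs : Function.Surjective (algebraMap R R')) (hnil : IsNilpotent (RingHom.ker (algebraMap R R')))
    {P P₂ : Type*} [AddCommGroup P] [Module R P] [Module R' P] [IsScalarTower R R' P]
    [AddCommGroup P₂] [Module R P₂] [Module R' P₂] [IsScalarTower R R' P₂]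
    (e : P ⊗[R'] P₂ ≃ₗ[R'] R') {F F₂ : Type*} [AddCommGroup F] [Module R F] [AddCommGroup F₂]
    [Module R F₂] [Module.Projective R F] [Module.Projective R F₂]
    {f : F →ₗ[R] P} {f₂ : F₂ →ₗ[R] P₂} (hf : IsBaseChange R' f) (hf₂ : IsBaseChange R' f₂) :
    ∃ φ : F ⊗[R] F₂ ≃ₗ[R] R, ∀ x y, algebraMap R R' (φ (x ⊗ₜ y)) = e (f x ⊗ₜ f₂ y) :=
  H74.Lift.exists_equiv_of_pairing hs hnil e (H74.Lift.isRed_of_isBaseChange hs hf)
    (H74.Lift.isRed_of_isBaseChange hs hf₂)

/-! ## 2. Two charts, algebra -/

/-- **Localisation at one element in terms of elements.** `S'` the localisation of `S` at `t`; an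
`S`-linear map `r : E → E'` to an `S'`-module is the localisation of `E` iff every `y` in `E'` has a
multiple `t^n y` in the image and every element of the kernel is killed by a power of `t`. File
`H74LiftGlue`. -/
theorem localisation_iff_base_change {S S' : Type*} [CommRing S] [CommRing S'] [Algebra S S'] {t : S}
    {E E' : Type*} [AddCommGroup E] [AddCommGroup E'] [Module S E] [Module S' E'] [Module S E']
    [IsScalarTower S S' E'] [IsLocalization.Away t S'] (r : E →ₗ[S] E') :
    IsBaseChange S' r ↔ (∀ y : E', ∃ (n : ℕ) (x : E), r x = (algebraMap S S' t) ^ n • y) ∧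
      ∀ x : E, r x = 0 → ∃ n : ℕ, t ^ n • x = 0 := by
  constructor
  · intro h
    exact ⟨(H74.Lift.isLocMap_of_isBaseChange (t := t) h).surj,
      (H74.Lift.isLocMap_of_isBaseChange (t := t) h).inj⟩
  · intro h
    exact H74.Lift.isBaseChange_of_isLocMap (t := t) ⟨fun a x => by simp, h.1, h.2⟩

/-- **`IsLocMap ρ t r` written out**: for a ring homomorphism `ρ : S → S'`, an `S`-module `E`, an
`S'`-module `E'` and an additive map `r`, it says that `r` is semilinear and satisfies the two
conditions of `localisation_iff_base_change`. File `H74LiftGlue`. -/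
theorem is_loc_map_iff {S S' : Type*} [CommRing S] [CommRing S'] (ρ : S →+* S') (t : S)
    {E E' : Type*} [AddCommGroup E] [AddCommGroup E'] [Module S E] [Module S' E'] (r : E →+ E') :
    H74.Lift.IsLocMap ρ t r ↔ (∀ (a : S) (x : E), r (a • x) = ρ a • r x) ∧
      (∀ y : E', ∃ (n : ℕ) (x : E), r x = (ρ t) ^ n • y) ∧
      ∀ x : E, r x = 0 → ∃ n : ℕ, t ^ n • x = 0 :=
  ⟨fun h => ⟨h.smul, h.surj, h.inj⟩, fun h => ⟨h.1, h.2.1, h.2.2⟩⟩

/-- **`IsRedMap π q` written out**: for a ring homomorphism `π : S → T` and an additive map `q` from an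
`S`-module to a `T`-module, it says that `q` is semilinear, surjective, and that its kernel is
contained in (hence equal to) `ker π` times the module: for surjective `π`, reduction modulo `ker π`. File
`H74LiftGlue`. -/
theorem is_red_map_iff {S T : Type*} [CommRing S] [CommRing T] (π : S →+* T)
    {F E : Type*} [AddCommGroup F] [AddCommGroup E] [Module S F] [Module T E] (q : F →+ E) :
    H74.Lift.IsRedMap π q ↔ (∀ (a : S) (x : F), q (a • x) = π a • q x) ∧ Function.Surjective q ∧
      ∀ x : F, q x = 0 → x ∈ (RingHom.ker π) • (⊤ : Submodule S F) :=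
  ⟨fun h => ⟨h.smul, h.surj, h.ker⟩, fun h => ⟨h.1, h.2.1, h.2.2⟩⟩

/-- **Line bundles on two charts lift, algebra.** `S0`, `S1`, `S01` are the rings of functions on `U`,
`V`, `U ∩ V` over the big base, `T0`, `T1`, `T01` over the small one; the maps `π0`, `π1`, `π01` are
surjective with nilpotent kernels, `S01` is the localisation of `S0` at `t` and of `S1` at `s`, and the
same for `T`. Given invertible modules `E0`, `E1` over `T0`, `T1` and localisation maps `r0`, `r1` to
the same `T01`-module `E01`, there are invertible modules `F0`, `F1`, `F01` over the rings `S`, with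
localisation maps `r0'`, `r1'` and compatible reductions `q0`, `q1`, `q01`. Proof: lift `E0`, `E1` to
`F0`, `F1`; the identity of `E01` lifts to a homomorphism from the localisation of `F1` to that of `F0`
(`lift_hom`), which is bijective (`bijective_of_reduction`). File `H74LiftGlue`. -/
theorem lift_two_charts {S0 S1 S01 : Type u} {T0 T1 T01 : Type v}
    [CommRing S0] [CommRing S1] [CommRing S01] [CommRing T0] [CommRing T1] [CommRing T01]
    (ρ0 : S0 →+* S01) (ρ1 : S1 →+* S01) (σ0 : T0 →+* T01) (σ1 : T1 →+* T01)
    (π0 : S0 →+* T0) (π1 : S1 →+* T1) (π01 : S01 →+* T01)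
    (c0 : ∀ a, π01 (ρ0 a) = σ0 (π0 a)) (c1 : ∀ a, π01 (ρ1 a) = σ1 (π1 a))
    (h0 : Function.Surjective π0) (h1 : Function.Surjective π1) (h01 : Function.Surjective π01)
    (n0 : IsNilpotent (RingHom.ker π0)) (n1 : IsNilpotent (RingHom.ker π1))
    (n01 : IsNilpotent (RingHom.ker π01)) (t : S0) (s : S1)
    (l0 : @IsLocalization.Away S0 _ t S01 _ ρ0.toAlgebra)
    (l1 : @IsLocalization.Away S1 _ s S01 _ ρ1.toAlgebra)
    (l0' : @IsLocalization.Away T0 _ (π0 t) T01 _ σ0.toAlgebra)
    (l1' : @IsLocalization.Away T1 _ (π1 s) T01 _ σ1.toAlgebra)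
    (E0 E1 E01 : Type w) [AddCommGroup E0] [AddCommGroup E1] [AddCommGroup E01]
    [Module T0 E0] [Module T1 E1] [Module T01 E01]
    [Module.Invertible T0 E0] [Module.Invertible T1 E1] (r0 : E0 →+ E01) (r1 : E1 →+ E01)
    (b0 : H74.Lift.IsLocMap σ0 (π0 t) r0) (b1 : H74.Lift.IsLocMap σ1 (π1 s) r1) :
    ∃ (F0 F1 F01 : Type u) (_ : AddCommGroup F0) (_ : AddCommGroup F1) (_ : AddCommGroup F01)
      (_ : Module S0 F0) (_ : Module S1 F1) (_ : Module S01 F01)
      (_ : Module.Invertible S0 F0) (_ : Module.Invertible S1 F1) (_ : Module.Invertible S01 F01)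
      (q0 : F0 →+ E0) (q1 : F1 →+ E1) (q01 : F01 →+ E01) (r0' : F0 →+ F01) (r1' : F1 →+ F01),
      H74.Lift.IsRedMap π0 q0 ∧ H74.Lift.IsRedMap π1 q1 ∧ H74.Lift.IsRedMap π01 q01 ∧
      H74.Lift.IsLocMap ρ0 t r0' ∧ H74.Lift.IsLocMap ρ1 s r1' ∧
      (∀ x, q01 (r0' x) = r0 (q0 x)) ∧ ∀ x, q01 (r1' x) = r1 (q1 x) :=
  H74.Lift.exists_lift_glue_elt ρ0 ρ1 σ0 σ1 π0 π1 π01 c0 c1 h0 h1 h01 n0 n1 n01 t s l0 l1 l0' l1'
    E0 E1 E01 r0 r1 b0 b1

/-! ## 3. Line bundles on thickenings

`pb g M x` is the pull back of the section `x` of the sheaf of modules `M` along the morphism `g`, `res`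
the restriction of sections, and `IsGen M s` says that `s` generates `M` freely (see `GuideSheaves`). -/

/-- **A base change of a nilpotent thickening is a nilpotent thickening**: `P = B ⊗_R A` (push out),
`R → A` surjective with nilpotent kernel, then `B → P` is surjective with nilpotent kernel. File
`H74Sm2`. -/
theorem pushout_thickening {R A B P : Type u} [CommRing R] [CommRing A] [CommRing B] [CommRing P]
    (φ : R →+* A) (i : R →+* B) (π : B →+* P) (j : A →+* P)
    (H : IsPushout (CommRingCat.ofHom i) (CommRingCat.ofHom φ) (CommRingCat.ofHom π)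
      (CommRingCat.ofHom j)) (hs : Function.Surjective φ) (hn : IsNilpotent (RingHom.ker φ)) :
    Function.Surjective π ∧ IsNilpotent (RingHom.ker π) :=
  H74.Sm.surj_ker_of_isPushout φ i π j H hs hn

/-- **Functions on a thickening.** `Y = X ×_{Spec R} Spec A` with `R → A` surjective with nilpotent
kernel; for an affine open `U` of `X` the map `O(U) → O(g⁻¹U)` is surjective with nilpotent kernel.
File `H74Sm2`. -/
theorem functions_thickening {R A : Type u} [CommRing R] [CommRing A] {X Y : Scheme.{u}}
    {x : X ⟶ Spec (CommRingCat.of R)} {y : Y ⟶ Spec (CommRingCat.of A)} {g : Y ⟶ X}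
    {f : Spec (CommRingCat.of A) ⟶ Spec (CommRingCat.of R)} (H : IsPullback g y x f)
    (hs : Function.Surjective (Spec.preimage f).hom)
    (hn : IsNilpotent (RingHom.ker (Spec.preimage f).hom)) {U : X.Opens} (hU : IsAffineOpen U) :
    Function.Surjective (g.app U) ∧ IsNilpotent (RingHom.ker (g.app U).hom) :=
  H74.Sm.surj_ker_app H hs hn hU

/-- **Sections lift** along `g : Y ⟶ X` if functions do: for a line bundle `M` on `X` and affine opens
`U`, `g⁻¹U` such that `O(U) → O(g⁻¹U)` is surjective, every section of `g^*M` over `g⁻¹U` is the pull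
back of a section of `M` over `U`. File `H74Sm2`. -/
theorem sections_lift {X Y : Scheme.{u}} (g : Y ⟶ X) {M : X.Modules}
    (hM : Scheme.Modules.IsInvertible M) {U : X.Opens} (hU : IsAffineOpen U)
    (hgU : IsAffineOpen (g ⁻¹ᵁ U)) (hs : Function.Surjective (g.app U)) :
    Function.Surjective (pb g M : Γ(M, U) → _) :=
  H74.Sm.pb_surjective g hM hU hgU hs

/-- **Sections in `J M` pull back to zero**, `J` the kernel of `O(U) → O(g⁻¹U)`. File `H74Sm2`. -/
theorem sections_vanish {X Y : Scheme.{u}} (g : Y ⟶ X) {M : X.Modules} (U : X.Opens) {x : Γ(M, U)}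
    (hx : x ∈ (RingHom.ker (g.app U).hom) • (⊤ : Submodule Γ(X, U) Γ(M, U))) : pb g M x = 0 :=
  H74.Sm.pb_eq_zero_of_mem g U hx

/-- **A criterion for `g^*M = N`** for line bundles: a homomorphism `u` from `M` to the push forward
of `N` which over the affine opens `U i` of a cover of `X` (with `g⁻¹(U i)` affine) is surjective with
kernel contained in `J M`, `J` the kernel of `O(U i) → O(g⁻¹(U i))` (a surjection). File `H74Sm2`. -/
theorem pullback_criterion {X Y : Scheme.{u}} (g : Y ⟶ X) {M : X.Modules} {N : Y.Modules}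
    (hM : Scheme.Modules.IsInvertible M) (hN : Scheme.Modules.IsInvertible N)
    (u : M ⟶ (Scheme.Modules.pushforward g).obj N) {ι : Type*} (U : ι → X.Opens)
    (hU : ∀ i, IsAffineOpen (U i)) (hc : ⨆ i, U i = ⊤) (hg : ∀ i, IsAffineOpen (g ⁻¹ᵁ U i))
    (hs : ∀ i, Function.Surjective (g.app (U i))) (hq : ∀ i, Function.Surjective (u.app (U i)))
    (hk : ∀ i (x : Γ(M, U i)), u.app (U i) x = 0 →
      x ∈ (RingHom.ker (g.app (U i)).hom) • (⊤ : Submodule Γ(X, U i) Γ(M, U i))) :
    Nonempty ((Scheme.Modules.pullback g).obj M ≅ N) :=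
  H74.Sm.nonempty_iso_of_red g hM hN u U hU hc hg hs hq hk

/-- **Line bundles lift.** `X` a scheme over `Spec R` with a two-chart presentation `τ : TwoChart x` (the
data of `exists_two_charts` of `GuideJacobians`: affine opens `U`, `V` with `U ∩ V = D(t) = D(s)`),
`R → A` surjective with nilpotent kernel, `Y` the base change of `X` to `A`: every line bundle `N` on `Y`
is the pull back of a line bundle `M` on `X`. Proof: `lift_two_charts` applied to the sections over `U`,
`V`, `U ∩ V`, then `line_bundle_of_two_charts` of `GuideJacobians` and `pullback_criterion`. File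
`H74Sm2`. -/
theorem lift_line_bundle_two_charts {R A : Type u} [CommRing R] [CommRing A] {X Y : Scheme.{u}}
    {x : X ⟶ Spec (CommRingCat.of R)} {y : Y ⟶ Spec (CommRingCat.of A)} {g : Y ⟶ X}
    {f : Spec (CommRingCat.of A) ⟶ Spec (CommRingCat.of R)} (H : IsPullback g y x f)
    (hs : Function.Surjective (Spec.preimage f).hom)
    (hn : IsNilpotent (RingHom.ker (Spec.preimage f).hom)) (τ : TwoChart x) {N : Y.Modules}
    (hN : Scheme.Modules.IsInvertible N) :
    ∃ M : X.Modules, Scheme.Modules.IsInvertible M ∧
      Nonempty ((Scheme.Modules.pullback g).obj M ≅ N) :=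
  H74.Sm.exists_lift_module H hs hn τ hN

/-- **A generator lifts**: a line bundle `N` on an affine scheme `X` whose restriction to a closed
subscheme `Y`, of which `X` is a nilpotent thickening, is trivial, is trivial. Hence the lift of a
rigidified bundle can be rigidified (`lift_line_bundle` of `GuideJacobians`). File `H74Sm3`. -/
theorem generator_lifts {X Y : Scheme.{u}} (g : Y ⟶ X) [IsAffine X] [IsAffine Y]
    (hs : Function.Surjective (g.app ⊤)) (hn : IsNilpotent (RingHom.ker (g.app ⊤).hom))
    {N : X.Modules} (hN : Scheme.Modules.IsInvertible N)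
    (h : ∃ s : Γ((Scheme.Modules.pullback g).obj N, g ⁻¹ᵁ ⊤), IsGen _ s) :
    ∃ s : Γ(N, ⊤), IsGen N s :=
  H74.Sm.exists_isGen_top_of_nilpotent g hs hn hN h

/-! ## 4. The infinitesimal criterion for smoothness -/

/-- **A nilpotent thickening has the same points**: for a surjection `A → B` with nilpotent kernel the
map `Spec B → Spec A` is surjective. File `H74Sm1`. -/
theorem points_of_thickening {A B : Type*} [CommRing A] [CommRing B] (φ : A →+* B)
    (hs : Function.Surjective φ) (hn : IsNilpotent (RingHom.ker φ)) :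
    Function.Surjective (PrimeSpectrum.comap φ) :=
  H74.Sm.surjective_comap_of_nilpotent φ hs hn

/-- **`Lifting x` written out**, for `x : X ⟶ Spec R`: for every ring `A` with an ideal `I` of square
zero and every morphism `t : Spec A ⟶ Spec R`, each morphism `Spec (A / I) ⟶ X` over `t` extends to a
morphism `Spec A ⟶ X` over `t`. (No uniqueness.) File `H74Sm1`. -/
theorem lifting_iff {R : Type u} [CommRing R] {X : Scheme.{u}} (x : X ⟶ Spec (.of R)) :
    H74.Sm.Lifting x ↔
      ∀ (A : Type u) [CommRing A] (I : Ideal A) (_ : I ^ 2 = ⊥) (t : Spec (.of A) ⟶ Spec (.of R))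
        (h₁ : Spec (.of (A ⧸ I)) ⟶ X),
        h₁ ≫ x = Spec.map (CommRingCat.ofHom (Ideal.Quotient.mk I)) ≫ t →
        ∃ h : Spec (.of A) ⟶ X, h ≫ x = t ∧
          Spec.map (CommRingCat.ofHom (Ideal.Quotient.mk I)) ≫ h = h₁ :=
  Iff.rfl

/-- **The lifting property passes to open subschemes**, because of `points_of_thickening`. File
`H74Sm1`. -/
theorem lifting_open {R : Type u} [CommRing R] {X U : Scheme.{u}} {x : X ⟶ Spec (.of R)}
    (H : H74.Sm.Lifting x) (j : U ⟶ X) [IsOpenImmersion j] : H74.Sm.Lifting (j ≫ x) :=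
  H.of_isOpenImmersion j

/-- **The affine case**: an algebra whose spectrum has the lifting property is formally smooth in
Mathlib's sense. File `H74Sm1`. -/
theorem formally_smooth_of_lifting {R S : Type u} [CommRing R] [CommRing S] [Algebra R S]
    (H : H74.Sm.Lifting (Spec.map (CommRingCat.ofHom (algebraMap R S)))) :
    Algebra.FormallySmooth R S :=
  H74.Sm.formallySmooth_of_lifting H

/-- **Infinitesimal criterion**: a scheme locally of finite presentation over `Spec R` with the lifting
property is smooth over `Spec R`. Mathlib has the local theory of smooth algebras; the criterion for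
schemes is not in Mathlib. File `H74Sm1`. -/
theorem smooth_of_lifting {R : Type u} [CommRing R] {X : Scheme.{u}} (x : X ⟶ Spec (.of R))
    [LocallyOfFinitePresentation x] (H : H74.Sm.Lifting x) : Smooth x :=
  H74.Sm.smooth_of_lifting x H

/-- **Charts of the Picard functor have the lifting property** (`PicChart` is explained in
`picard_chart` of `GuideJacobians`). Proof: a morphism `Spec (A / I) ⟶ X` is a bundle over `A / I`; it
lifts to a bundle `M` over `A` (`lift_line_bundle` of `GuideJacobians`); the locus of `M` in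
`Spec A` is open and contains all points, since `Spec (A / I)` has the same points; so `M` is given by
a morphism `Spec A ⟶ X`, which extends the given one by uniqueness. File `H74Sm3`. -/
theorem picard_chart_lifting {k : Type u} [Field k] {C : Scheme.{u}}
    {c : C ⟶ Spec (CommRingCat.of k)} {ε : SchemeHomOver (𝟙 (Spec (CommRingCat.of k))) c}
    (τ : TwoChart c) (ch : PicChart c ε) : H74.Sm.Lifting ch.x :=
  H74.Sm.lifting_of_picChart τ ch

/-! ## 5. Geometry from points and covers

`X i ⟶ P` is a family of open immersions; the hypothesis `hj` says that the images cover. -/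

/-- **Smoothness is local on the source** (for an arbitrary jointly surjective family of open
immersions). File `H74F1`. -/
theorem smooth_of_cover {P S : Scheme.{u}} (p : P ⟶ S) {ι : Type*} (X : ι → Scheme.{u})
    (j : ∀ i, X i ⟶ P) [∀ i, IsOpenImmersion (j i)] (hj : ∀ y : P, ∃ i, y ∈ Set.range (j i).base)
    (h : ∀ i, Smooth (j i ≫ p)) : Smooth p :=
  H74.F1.smooth_of_cover p X j hj h

/-- **Local finite type is local on the source.** File `H74F1`. -/
theorem finite_type_of_cover {P S : Scheme.{u}} (p : P ⟶ S) {ι : Type*} (X : ι → Scheme.{u})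
    (j : ∀ i, X i ⟶ P) [∀ i, IsOpenImmersion (j i)] (hj : ∀ y : P, ∃ i, y ∈ Set.range (j i).base)
    (h : ∀ i, LocallyOfFiniteType (j i ≫ p)) : LocallyOfFiniteType p :=
  H74.F1.locallyOfFiniteType_of_cover p X j hj h

/-- **The diagonal of an open subscheme** `j : X ⟶ P` (any monomorphism) is the restriction of the
diagonal of `P` to `X ×_S X`. File `H74F1`. -/
theorem diagonal_of_open {X P S : Scheme.{u}} (j : X ⟶ P) [Mono j] (p : P ⟶ S) :
    IsPullback j (pullback.diagonal (j ≫ p)) (pullback.diagonal p)
      (pullback.map (j ≫ p) (j ≫ p) p p j j (𝟙 S) (by simp) (by simp)) :=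
  H74.F1.isPullback_diagonal j p

/-- **Separatedness from a cover**: if the `X i` are separated over `S` and every point of `P ×_S P`
lies in some `X i ×_S X i`, then `P` is separated. Over an algebraically closed field it is enough that
any two rational points of `P` lie in a common `X i` (`separated_of_points` of `GuideJacobians`; for the
Jacobian this is the theorem on common words). File `H74F1`. -/
theorem separated_of_cover {P S : Scheme.{u}} (p : P ⟶ S) {ι : Type*} (X : ι → Scheme.{u})
    (j : ∀ i, X i ⟶ P) [∀ i, IsOpenImmersion (j i)] (hs : ∀ i, IsSeparated (j i ≫ p))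
    (hj : ∀ z : (pullback p p :), ∃ i, pullback.fst p p z ∈ Set.range (j i).base ∧
      pullback.snd p p z ∈ Set.range (j i).base) : IsSeparated p :=
  H74.F1.isSeparated_of_cover p X j hs hj

/-- **Surjectivity on points**: `k` algebraically closed, `P` separated and locally of finite type over
`k`, `Y` proper over `k`; a morphism `Y ⟶ P` such that every rational point of `P` lifts to a rational
point of `Y` is surjective. Proof: the image is closed, and the closed points of an open subset of `P`
are rational. For the Jacobian, `Y` is `C^d`. File `H74F1`. -/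
theorem surjective_of_points {k : Type u} [Field k] [IsAlgClosed k] {Y P : Scheme.{u}} (f : Y ⟶ P)
    (p : P ⟶ Spec (.of k)) [LocallyOfFiniteType p] [IsSeparated p] [IsProper (f ≫ p)]
    (h : ∀ x : Spec (.of k) ⟶ P, x ≫ p = 𝟙 _ → ∃ y : Spec (.of k) ⟶ Y, y ≫ f = x) :
    Surjective f :=
  H74.F1.surjective_of_kPoints f p h

/-- **Connectedness from a surjection**: if `Y ⟶ P` is surjective and `Y` is geometrically connected
over `S`, then so is `P`. File `H74F1`. -/
theorem connected_of_surjective {Y P S : Scheme.{u}} (f : Y ⟶ P) (p : P ⟶ S) [Surjective f]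
    [GeometricallyConnected (f ≫ p)] : GeometricallyConnected p :=
  H74.F1.geometricallyConnected_of_surjective f p

/-- **Integrality from a cover** by integral opens which meet pairwise. File `H74F1Int`. -/
theorem integral_of_cover {Z : Scheme.{u}} {ι : Type*} [Nonempty ι] (W : ι → Z.Opens)
    (hW : ⨆ i, W i = ⊤) (h : ∀ i, IsIntegral (W i))
    (h2 : ∀ i j, ((W i : Set Z) ∩ W j).Nonempty) : IsIntegral Z :=
  H74.F1.isIntegral_of_cover W hW h h2

/-- **Extension of scalars of an affine integral scheme**: `k` algebraically closed, `X` integral and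
locally of finite type over `k`, `K` any field over `k`, `U` a nonempty affine open of `X`; the open
subset of `X_K` over `U` is integral. Proof: the tensor product of an integral domain of finite type
over `k` with `K` is a domain (`product_domain` of `GuideSmoothCurves`). With `integral_of_cover` this
gives: `X` is geometrically integral (`geometrically_integral` of `GuideSheaves`). File `H74F1Int`. -/
theorem integral_over_field {k : Type u} [Field k] [IsAlgClosed k] {X : Scheme.{u}}
    (x : X ⟶ Spec (.of k)) [LocallyOfFiniteType x] [IsIntegral X] {K : Type u} [Field K]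
    (y : Spec (.of K) ⟶ Spec (.of k)) {U : X.Opens} (hU : IsAffineOpen U) [Nonempty U] :
    IsIntegral (pullback.fst x y ⁻¹ᵁ U) :=
  H74.F1.isIntegral_pullback_affine x y hU

/-- **Products of integral schemes** locally of finite type over an algebraically closed field are
integral; in particular `C^d` is integral. File `H74F1Int`. -/
theorem integral_product {k : Type u} [Field k] [IsAlgClosed k] {X Y : Scheme.{u}}
    (x : X ⟶ Spec (.of k)) (y : Y ⟶ Spec (.of k)) [LocallyOfFiniteType x] [LocallyOfFiniteType y]
    [IsIntegral X] [IsIntegral Y] : IsIntegral (pullback x y) :=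
  H74.F1.isIntegral_pullback x y

/-- **Integral schemes** locally of finite type over an algebraically closed field are geometrically
connected. File `H74F1Int`. -/
theorem geometrically_connected {k : Type u} [Field k] [IsAlgClosed k] {X : Scheme.{u}}
    (x : X ⟶ Spec (.of k)) [LocallyOfFiniteType x] [IsIntegral X] : GeometricallyConnected x :=
  H74.F1.geometricallyConnected x

/-! ## 6. The second chart of the bundle of a matrix

Notation. For a ring homomorphism `φ : A → R`, an element `x` of `R` and elements `m 1, …, m n` of an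
`R`-module, `H74.R4.lc φ x m` is the additive map `A[X]^n → M`, `w ↦ ∑ w_i(x) m_i`. The line bundle is
to have `E0 = A[X]^n` as its sections over `U`, with basis `e_i`, where the coordinate `t` acts as `X`.
Its sections over `U ∩ V` are the localisation `r0 : E0 → E01` at `t`, and its sections over `V` are to
be `E1 =` the sections with poles bounded so that the bundle is acyclic: the span of
`t^(-j-1) e_i`, `j ≥ 0`. This is the image of `H74.R4.R1 : A[Y]^n → E01`, `w ↦ ∑ w_i(s) s r0(e_i)`
(`s = 1 / t`). The point is that it is stable under the functions on `V`. -/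

/-- **The map `lc` written out** (in the theorems below `R1` and `lc` are written out). File
`H74R4a`. -/
theorem combination_def {A : Type*} [CommRing A] {n : ℕ} {R M : Type*} [CommRing R] [AddCommGroup M]
    [Module R M] (φ : A →+* R) (x : R) (m : Fin n → M) (w : Fin n → A[X]) :
    H74.R4.lc φ x m w = ∑ i, (w i).eval₂ φ x • m i :=
  H74.R4.lc_apply φ x m w

/-- **Reversal of coefficients**: if `t s = 1` and the `w_i` have degree at most `N`, then
`∑ w_i(s) m_i = s^N ∑ w_i^*(t) m_i` with the reversed polynomials `w_i^* = X^N w_i(1 / X)`. File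
`H74R4a`. -/
theorem combination_reverse {A : Type*} [CommRing A] {n : ℕ} {R M : Type*} [CommRing R]
    [AddCommGroup M] [Module R M] (φ : A →+* R) {t s : R} (hts : t * s = 1) (m : Fin n → M)
    (w : Fin n → A[X]) {N : ℕ} (hN : ∀ i, (w i).natDegree ≤ N) :
    ∑ i, (w i).eval₂ φ s • m i = s ^ N • ∑ i, (reflect N (w i)).eval₂ φ t • m i :=
  H74.R4.lc_reflect φ hts m w hN

/-- **The second chart in terms of the first**: `R1 w = s^(N+1) r0 (∑ w_i^*(t) e_i)` for `w_i` of
degree at most `N`. Here `ρU`, `ρV` are the restrictions from `S0 = O(U)`, `S1 = O(V)` to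
`S01 = O(U ∩ V)` and `α0`, `α1` the structure maps of `A`. File `H74R4a`. -/
theorem second_chart_formula {A : Type*} [CommRing A] {n : ℕ} {S0 S1 S01 E0 E01 : Type*}
    [CommRing S0] [CommRing S1] [CommRing S01] [AddCommGroup E0] [Module S0 E0] [AddCommGroup E01]
    [Module S01 E01] {ρU : S0 →+* S01} {ρV : S1 →+* S01} {α0 : A →+* S0} {α1 : A →+* S1}
    {t : S0} {s : S1} {e : Fin n → E0} {r0 : E0 →+ E01} (hα : ρU.comp α0 = ρV.comp α1)
    (hts : ρU t * ρV s = 1) (hr : H74.Lift.IsLocMap ρU t r0) (w : Fin n → A[X]) {N : ℕ}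
    (hN : ∀ i, (w i).natDegree ≤ N) :
    ∑ i, (w i).eval₂ (ρV.comp α1) (ρV s) • (ρV s • r0 (e i)) =
      ρV s ^ (N + 1) • r0 (∑ i, (reflect N (w i)).eval₂ α0 t • e i) :=
  H74.R4.R1_eq hα hts hr w hN

/-- **Denominators**: if `E0` is generated by the `e_i` over `A[t]`, then for every section `z` over
`U ∩ V` some `s^N z` lies in the second chart. File `H74R4a`. -/
theorem second_chart_denominators {A : Type*} [CommRing A] {n : ℕ} {S0 S1 S01 E0 E01 : Type*}
    [CommRing S0] [CommRing S1] [CommRing S01] [AddCommGroup E0] [Module S0 E0] [AddCommGroup E01]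
    [Module S01 E01] {ρU : S0 →+* S01} {ρV : S1 →+* S01} {α0 : A →+* S0} {α1 : A →+* S1}
    {t : S0} {s : S1} {e : Fin n → E0} {r0 : E0 →+ E01} (hα : ρU.comp α0 = ρV.comp α1)
    (hts : ρU t * ρV s = 1) (hr : H74.Lift.IsLocMap ρU t r0)
    (he : Function.Surjective fun w : Fin n → A[X] => ∑ i, (w i).eval₂ α0 t • e i) (z : E01) :
    ∃ (N : ℕ) (w : Fin n → A[X]),
      ∑ i, (w i).eval₂ (ρV.comp α1) (ρV s) • (ρV s • r0 (e i)) = ρV s ^ N • z :=
  H74.R4.exists_R1_eq (α1 := α1) hα hts hr he z

/-- **Stability of the second chart.** A function `y` on `V` is `y = s^m b` on `U ∩ V` with `b` a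
function on `U`; if the entries of the matrix of `b` have degree at most `m` (column `i`: `b e_i =
∑ u_l(t) e_l` with `deg u_l ≤ m`), then `y` maps the generator `s r0(e_i)` of the second chart into the
second chart. This is where the degree condition of a chart point (`chart_point` of `GuideJacobians`) is
used. File `H74R4a`. -/
theorem second_chart_stable {A : Type*} [CommRing A] {n : ℕ} {S0 S1 S01 E0 E01 : Type*}
    [CommRing S0] [CommRing S1] [CommRing S01] [AddCommGroup E0] [Module S0 E0] [AddCommGroup E01]
    [Module S01 E01] {ρU : S0 →+* S01} {ρV : S1 →+* S01} {α0 : A →+* S0} {α1 : A →+* S1}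
    {t : S0} {s : S1} {e : Fin n → E0} {r0 : E0 →+ E01} (hα : ρU.comp α0 = ρV.comp α1)
    (hts : ρU t * ρV s = 1) (hr : H74.Lift.IsLocMap ρU t r0) (y : S1) (m : ℕ) (b : S0)
    (hy : ρV y = ρV s ^ m * ρU b) (i : Fin n) (u : Fin n → A[X]) (hu : ∀ l, (u l).natDegree ≤ m)
    (hbu : b • e i = ∑ l, (u l).eval₂ α0 t • e l) :
    ∃ w : Fin n → A[X], ∑ l, (w l).eval₂ (ρV.comp α1) (ρV s) • (ρV s • r0 (e l)) =
      ρV y • (ρV s • r0 (e i)) :=
  H74.R4.smul_mg_mem hα hts hr y m b hy i u hu hbu

/-- **The second chart exists.** `E0` free over `A[t]` on the basis `e`, `r0 : E0 → E01` the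
localisation at `t`, `S1 = O(V)` generated over `A[s]` by elements `γ_j` which preserve the second
chart (`second_chart_stable`; `H74.R4.mg` is `i ↦ s r0(e_i)`). Then there are an `S1`-module `E1`, free
over `A[s]` on a basis `m`, and an injective localisation map `r1 : E1 → E01` at `s` with
`r1 (m_i) = s r0 (e_i)`. File `H74R4a`. -/
theorem second_chart {A : Type*} [CommRing A] {n : ℕ} {S0 : Type*} {S1 S01 : Type u}
    {E0 : Type*} {E01 : Type v} [CommRing S0] [CommRing S1] [CommRing S01] [AddCommGroup E0]
    [Module S0 E0] [AddCommGroup E01] [Module S01 E01]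
    {ρU : S0 →+* S01} {ρV : S1 →+* S01} {α0 : A →+* S0} {α1 : A →+* S1}
    {t : S0} {s : S1} {e : Fin n → E0} {r0 : E0 →+ E01}
    (hα : ρU.comp α0 = ρV.comp α1) (hts : ρU t * ρV s = 1)
    (hr : H74.Lift.IsLocMap ρU t r0)
    (he : Function.Bijective fun w : Fin n → A[X] => ∑ i, (w i).eval₂ α0 t • e i) {n' : ℕ}
    (γ : Fin n' → S1) (hgen : ∀ y : S1, ∃ f : Fin n' → A[X], y = ∑ j, (f j).eval₂ α1 s * γ j)
    (hγ : ∀ j i, ∃ w : Fin n → A[X],
      ∑ l, (w l).eval₂ (ρV.comp α1) (ρV s) • (ρV s • r0 (e l)) = ρV (γ j) • (ρV s • r0 (e i))) :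
    ∃ (E1 : Type v) (_ : AddCommGroup E1) (_ : Module S1 E1) (r1 : E1 →+ E01) (m : Fin n → E1),
      H74.Lift.IsLocMap ρV s r1 ∧ Function.Injective r1 ∧
      Function.Bijective (fun w : Fin n → A[X] => ∑ i, (w i).eval₂ α1 s • m i) ∧
      ∀ i, r1 (m i) = ρV s • r0 (e i) :=
  H74.R4.exists_chart1 hα hts hr he γ hgen hγ

/-! ## 7. The first chart and the rigidification -/

/-- **A homomorphism from the tensor product.** `S = A ⊗ B` over `k` (push out), and
`ρ : B → M_n(A[X])` a homomorphism of `k`-algebras; there is a homomorphism `S → M_n(A[X])` which is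
`ρ` on `B` and scalar on `A` (the scalars commute with the image of `ρ`). File `H74R4b`. -/
theorem hom_from_tensor {k A B S : Type u} [Field k] [CommRing A] [CommRing B] [CommRing S]
    [Algebra k A] [Algebra k B] {n : ℕ} (α : A →+* S) (γ : B →+* S)
    (H : IsPushout (CommRingCat.ofHom (algebraMap k B)) (CommRingCat.ofHom (algebraMap k A))
      (CommRingCat.ofHom γ) (CommRingCat.ofHom α)) (ρ : B →ₐ[k] Matrix (Fin n) (Fin n) A[X]) :
    ∃ Φ : S →+* Matrix (Fin n) (Fin n) A[X],
      (∀ a, Φ (α a) = (C a : A[X]) • (1 : Matrix (Fin n) (Fin n) A[X])) ∧ ∀ b, Φ (γ b) = ρ b :=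
  H74.R4.exists_hom_of_isPushout α γ H ρ

/-- **The first chart**: if moreover `ρ(t) = X`, then there is an `S`-module `E` with an additive
isomorphism `θ : A[X]^n → E` such that `b` in `B` acts by the matrix `ρ(b)` and
`θ (v) = ∑ v_i(t) θ(e_i)`, that is `E` is free over `A[t]` on the `θ(e_i)`. File `H74R4b`. -/
theorem first_chart {k A B S : Type u} [Field k] [CommRing A] [CommRing B] [CommRing S]
    [Algebra k A] [Algebra k B] {n : ℕ} (α : A →+* S) (γ : B →+* S)
    (H : IsPushout (CommRingCat.ofHom (algebraMap k B)) (CommRingCat.ofHom (algebraMap k A))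
      (CommRingCat.ofHom γ) (CommRingCat.ofHom α)) (t : B)
    (ρ : B →ₐ[k] Matrix (Fin n) (Fin n) A[X]) (hρ : ρ t = Matrix.diagonal fun _ => X) :
    ∃ (E : Type u) (_ : AddCommGroup E) (_ : Module S E) (θ : (Fin n → A[X]) ≃+ E),
      (∀ (b : B) (v : Fin n → A[X]), θ (Matrix.mulVec (ρ b) v) = γ b • θ v) ∧
      ∀ v, θ v = ∑ i, (v i).eval₂ α (γ t) • θ (Pi.single i 1) :=
  H74.R4.exists_module α γ H t ρ hρ

/-- **Semilinearity on generators**: an additive map `Λ : E → A'` which is semilinear (over
`ψ : S → A'`) with respect to the constants `α(a)`, the coordinate `t` and the module generators `γ_j`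
of `S` over `A[t]` is semilinear. File `H74R4`. -/
theorem semilinear_of_generators {S A' E A : Type*} [CommRing S] [CommRing A'] [AddCommGroup E]
    [Module S E] [CommRing A] (ψ : S →+* A') (Λ : E →+ A') {n' : ℕ} (α : A →+* S) (t : S)
    (γ : Fin n' → S) (hgen : ∀ y : S, ∃ f : Fin n' → A[X], y = ∑ j, (f j).eval₂ α t * γ j)
    (h1 : ∀ a z, Λ (α a • z) = ψ (α a) * Λ z) (h2 : ∀ z, Λ (t • z) = ψ t * Λ z)
    (h3 : ∀ j z, Λ (γ j • z) = ψ (γ j) * Λ z) (s : S) (z : E) : Λ (s • z) = ψ s * Λ z :=
  H74.R4.semilinear_of_gen ψ Λ α t γ hgen h1 h2 h3 s z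

/-- **Evaluation at the rational point.** If the row vector `λ` satisfies `λ M(a') = e λ` for a matrix
`M` over `A[X]`, then `v ↦ ∑ λ_i v_i(a')` satisfies `λ (M v) = e λ(v)`. With `M = ρ(b)`,
`a' = t(ε)`, `e = b(ε)` this is the condition on `λ` in a chart point, and it makes evaluation
semilinear with respect to `b` (`semilinear_of_generators`). File `H74R4`. -/
theorem functional_of_matrix {A : Type*} [CommRing A] {n : ℕ} (lam : Fin n → A)
    (M : Matrix (Fin n) (Fin n) A[X]) (v : Fin n → A[X]) (a' e : A)
    (h : Matrix.vecMul lam (M.map fun q => q.eval a') = e • lam) :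
    ∑ i, lam i * ((Matrix.mulVec M v) i).eval a' = ∑ i, e * (lam i * (v i).eval a') :=
  H74.R4.lam_mulVec lam M v a' e h

/-- **The rigidification, algebra.** `β : E → P` the base change of an `S`-module to an invertible
`A'`-module (the fibre of the line bundle along the section `ε`), `Λ : E → A'` linear over `S` with
`Λ (x₀) = 1` for some `x₀`: then `β x = Λ(x) β(x₀)` for all `x`, and `β(x₀)` is a basis of `P`. File
`H74R4b`. -/
theorem rigidification {S A' E P : Type*} [CommRing S] [CommRing A'] [Algebra S A'] [AddCommGroup E]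
    [Module S E] [AddCommGroup P] [Module A' P] [Module S P] [IsScalarTower S A' P]
    [Module.Invertible A' P] (β : E →ₗ[S] P) (hβ : IsBaseChange A' β) (Λ : E →ₗ[S] A') (x₀ : E)
    (h₀ : Λ x₀ = 1) :
    (∀ x, β x = Λ x • β x₀) ∧ Function.Bijective (fun a : A' => a • β x₀) :=
  H74.R4.rig_alg β hβ Λ x₀ h₀

/-! ## 8. Line bundles from two charts

The steps of `line_bundle_of_two_charts` of `GuideJacobians`. `X = U ∪ V`, and `E0`, `E1` are invertible
modules over `O(U)`, `O(V)` with the same localisation `E01` over `O(U ∩ V)`. They have finite systems of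
local generators (`H51Inv.LocGen f e`, see `invertible_of_local_generators` of `GuideSheaves`): functions
`f i` which generate the unit ideal, and elements `e i` which become bases when `f i` is inverted. The
coordinate with respect to `e i` is a semilinear functional with values in the functions on `D(f i)`, so
that no localised module has to be formed, and the line bundle is glued from the sets `D(f i)` with the
coordinates of the `e i` with respect to the `e j` as cocycle (`line_bundle_of_cocycle` of
`GuideJacobians`). -/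

/-- **Coordinates.** `f`, `e` a system of local generators of `E` over `R` and `φ : R → S` a homomorphism
for which `φ (f i)` is a unit. There is a `φ`-semilinear functional `c` on `E` with `c (e i) = 1`, and for
every other one `d x = c x * d (e i)`; in particular `c` is unique. File `H73TwoChart` (helper73). -/
theorem coordinate {R : Type*} [CommRing R] {E : Type*} [AddCommGroup E] [Module R E] {S : Type*}
    [CommRing S] {φ : R →+* S} {ι : Type*} [Finite ι] {f : ι → R} {e : ι → E}
    (h : H51Inv.LocGen f e) (i : ι) (hu : IsUnit (φ (f i))) :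
    (∃ c : E →ₛₗ[φ] S, c (e i) = 1) ∧
      ∀ c : E →ₛₗ[φ] S, c (e i) = 1 → ∀ (d : E →ₛₗ[φ] S) (x : E), d x = c x * d (e i) :=
  ⟨H73.TwoChart.exists_coord h i hu, fun _ hc d x => H73.TwoChart.coord_mul h i hu hc d x⟩

/-- **Local generators of a localisation.** If `r : E → E'` is the localisation at `t` over
`φ : R → S = R[1/t]` (the four conditions: `φ t` is a unit, denominators in `S` and in `E'`, kernel of
`r`), then `r` maps local generators of `E` to local generators of `E'`. File `H73TwoChart`. -/
theorem generators_localised {R : Type*} [CommRing R] {E : Type*} [AddCommGroup E] [Module R E]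
    {S : Type*} [CommRing S] {φ : R →+* S} {ι : Type*} {f : ι → R} {e : ι → E}
    {E' : Type*} [AddCommGroup E'] [Module S E'] (h : H51Inv.LocGen f e)
    (r : E →+ E') (hr : ∀ (a : R) (x : E), r (a • x) = φ a • r x) (t : R) (ht : IsUnit (φ t))
    (hφ : ∀ c : S, ∃ (n : ℕ) (a : R), φ a = φ t ^ n * c)
    (hs : ∀ y : E', ∃ (n : ℕ) (x : E), r x = φ t ^ n • y)
    (hi : ∀ x : E, r x = 0 → ∃ n : ℕ, t ^ n • x = 0) :
    H51Inv.LocGen (fun i => φ (f i)) (fun i => r (e i)) :=
  H73.TwoChart.locGen_localization h r hr t ht hφ hs hi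

/-- **Sections from functionals.** Let `W i` cover `T`, let `s i` be sections of a sheaf of modules `M`
over `W i` and `d i` semilinear functionals on the `O(T)`-module `E` with values in the functions on
`W i`. If `d i y • s i` and `d j y • s j` agree on `W i ∩ W j`, they are the restrictions of `a y` for a
linear map `a : E → Γ(M, T)`. File `H73TwoChart`. -/
theorem sections_from_functionals {X : Scheme.{u}} {M : X.Modules} {T : X.Opens} {E : Type*}
    [AddCommGroup E] [Module Γ(X, T) E] {κ : Type*} (W : κ → X.Opens) (hW : ∀ i, W i ≤ T)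
    (hc : T ≤ ⨆ i, W i) (s : ∀ i, Γ(M, W i)) (d : ∀ i, E →ₛₗ[resOHom (hW i)] Γ(X, W i))
    (hd : ∀ i j (Z : X.Opens) (hi : Z ≤ W i) (hj : Z ≤ W j) (y : E),
      resO hi (d i y) • res M hi (s i) = resO hj (d j y) • res M hj (s j)) :
    ∃ a : E →ₗ[Γ(X, T)] Γ(M, T), ∀ i y, res M (hW i) (a y) = d i y • s i :=
  H73.TwoChart.exists_secMap W hW hc s d hd

/-- **The cocycle.** `D : H73.TwoChart.Data U V E0 E1 E01 f0 e0 f1 e1` consists of semilinear maps
`D.r0 : E0 → E01`, `D.r1 : E1 → E01` such that `(f0, e0)`, `(f1, e1)` are local generators of `E0`, `E1` and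
their images in `O(U ∩ V)` and `E01` are local generators of `E01`. The open sets `D.op i` are the
`D(f0 i)` and the `D(f1 i)`; `D.v i` are the images of the generators in `E01` and `D.c i` the coordinate
with respect to `D.v i` over `D.op' i = D.op i ∩ U ∩ V`. The functions `D.g i j` on `D.op i ∩ D.op j` are a
cocycle, and over `U ∩ V` they are the coordinates `D.c j (D.v i)`. (For two indices in the same chart
`D.g i j` is defined with the coordinates in this chart.) File `H73TwoChart`. -/
theorem cocycle_of_coordinates {X : Scheme.{u}} {U V : X.Opens} {E0 E1 E01 : Type*}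
    [AddCommGroup E0] [Module Γ(X, U) E0] [AddCommGroup E1] [Module Γ(X, V) E1] [AddCommGroup E01]
    [Module Γ(X, U ⊓ V) E01] {ι0 ι1 : Type*} [Finite ι0] [Finite ι1] {f0 : ι0 → Γ(X, U)}
    {e0 : ι0 → E0} {f1 : ι1 → Γ(X, V)} {e1 : ι1 → E1}
    (D : H73.TwoChart.Data U V E0 E1 E01 f0 e0 f1 e1) :
    (∀ i, D.g i i = 1) ∧
    (∀ (i j k : ι0 ⊕ ι1) (W : X.Opens) (hi : W ≤ D.op i) (hj : W ≤ D.op j) (hk : W ≤ D.op k),
      resO (le_inf hi hj) (D.g i j) * resO (le_inf hj hk) (D.g j k) =
        resO (le_inf hi hk) (D.g i k)) ∧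
    ∀ (i j : ι0 ⊕ ι1) (W : X.Opens) (h : W ≤ D.op i ⊓ D.op j) (hW : W ≤ D.op' j),
      resO h (D.g i j) = resO hW (D.c j (D.v i)) :=
  ⟨D.g_self, D.cocycle, D.g_conv⟩

/-- **The line bundle of local generators on two charts.** If `U`, `V`, `U ∩ V` are affine and `X = U ∪ V`,
then for `D` as before there is a line bundle with sections `E0`, `E1`, `E01` over `U`, `V`, `U ∩ V` and
restriction maps `D.r0`, `D.r1`. Proof: `line_bundle_of_cocycle`, `sections_from_functionals` for the
coordinates; local generators go to local generators, so the maps are bijective. File `H73TwoChart`. -/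
theorem bundle_of_local_generators {X : Scheme.{u}} {U V : X.Opens} {E0 E1 E01 : Type*}
    [AddCommGroup E0] [Module Γ(X, U) E0] [AddCommGroup E1] [Module Γ(X, V) E1] [AddCommGroup E01]
    [Module Γ(X, U ⊓ V) E01] {ι0 ι1 : Type u} [Finite ι0] [Finite ι1] {f0 : ι0 → Γ(X, U)}
    {e0 : ι0 → E0} {f1 : ι1 → Γ(X, V)} {e1 : ι1 → E1}
    (D : H73.TwoChart.Data U V E0 E1 E01 f0 e0 f1 e1) (hU : IsAffineOpen U) (hV : IsAffineOpen V)
    (hW : IsAffineOpen (U ⊓ V)) (hUV : U ⊔ V = ⊤) :
    ∃ (M : X.Modules) (_ : M.IsInvertible) (a0 : E0 →ₗ[Γ(X, U)] Γ(M, U))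
      (a1 : E1 →ₗ[Γ(X, V)] Γ(M, V)) (a01 : E01 →ₗ[Γ(X, U ⊓ V)] Γ(M, U ⊓ V)),
      Function.Bijective a0 ∧ Function.Bijective a1 ∧ Function.Bijective a01 ∧
      (∀ x, a01 (D.r0 x) = res M inf_le_left (a0 x)) ∧
      (∀ x, a01 (D.r1 x) = res M inf_le_right (a1 x)) :=
  D.exists_module hU hV hW hUV

/-- **Homomorphisms on two charts.** `M` a line bundle and `N` any sheaf of modules on `X = U ∪ V`, with
`U`, `V`, `U ∩ V` affine: linear maps of the sections over `U`, `V` and `U ∩ V` which commute with the
restrictions come from exactly one homomorphism `M ⟶ N`. File `H73TwoChart`. -/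
theorem homs_on_two_charts {X : Scheme.{u}} {U V : X.Opens} {M N : X.Modules}
    (hU : IsAffineOpen U) (hV : IsAffineOpen V)
    (hW : IsAffineOpen (U ⊓ V)) (hUV : U ⊔ V = ⊤) (hM : M.IsInvertible)
    (a0 : Γ(M, U) →+ Γ(N, U)) (a1 : Γ(M, V) →+ Γ(N, V)) (a01 : Γ(M, U ⊓ V) →+ Γ(N, U ⊓ V))
    (ha0 : ∀ (c : Γ(X, U)) (x : Γ(M, U)), a0 (c • x) = c • a0 x)
    (ha1 : ∀ (c : Γ(X, V)) (x : Γ(M, V)), a1 (c • x) = c • a1 x)
    (ha01 : ∀ (c : Γ(X, U ⊓ V)) (x : Γ(M, U ⊓ V)), a01 (c • x) = c • a01 x)
    (h0 : ∀ x : Γ(M, U), a01 (res M inf_le_left x) = res N inf_le_left (a0 x))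
    (h1 : ∀ x : Γ(M, V), a01 (res M inf_le_right x) = res N inf_le_right (a1 x)) :
    ∃! φ : M ⟶ N, (∀ x, φ.app U x = a0 x) ∧ (∀ x, φ.app V x = a1 x) :=
  H73.TwoChart.exists_hom_of_charts hU hV hW hUV hM a0 a1 a01 ha0 ha1 ha01 h0 h1

/-- **Isomorphisms on two charts**: the same for isomorphisms of two line bundles. So the category of line
bundles on `X` is the category of pairs of invertible modules over `O(U)` and `O(V)` with an
identification over `O(U ∩ V)`. File `H73TwoChart`. -/
theorem isos_on_two_charts {X : Scheme.{u}} {U V : X.Opens} {M N : X.Modules}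
    (hU : IsAffineOpen U) (hV : IsAffineOpen V)
    (hW : IsAffineOpen (U ⊓ V)) (hUV : U ⊔ V = ⊤) (hM : M.IsInvertible) (hN : N.IsInvertible)
    (a0 : Γ(M, U) ≃+ Γ(N, U)) (a1 : Γ(M, V) ≃+ Γ(N, V)) (a01 : Γ(M, U ⊓ V) ≃+ Γ(N, U ⊓ V))
    (ha0 : ∀ (c : Γ(X, U)) (x : Γ(M, U)), a0 (c • x) = c • a0 x)
    (ha1 : ∀ (c : Γ(X, V)) (x : Γ(M, V)), a1 (c • x) = c • a1 x)
    (ha01 : ∀ (c : Γ(X, U ⊓ V)) (x : Γ(M, U ⊓ V)), a01 (c • x) = c • a01 x)
    (h0 : ∀ x : Γ(M, U), a01 (res M inf_le_left x) = res N inf_le_left (a0 x))
    (h1 : ∀ x : Γ(M, V), a01 (res M inf_le_right x) = res N inf_le_right (a1 x)) :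
    ∃! φ : M ≅ N, (∀ x, φ.hom.app U x = a0 x) ∧ (∀ x, φ.hom.app V x = a1 x) :=
  H73.TwoChart.exists_iso_of_charts hU hV hW hUV hM hN a0 a1 a01 ha0 ha1 ha01 h0 h1

end Fermat.Agent.Guide.JacobianGeometry
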