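import Fermat.Agent.S25

/-!
# Guide to the proof: the assembly of the Jacobian (S25, companion of `GuideJacobians`)

This file contains no new mathematics. Every theorem below is proved by citing theorems of the
library; the statements are written out. It shows how statement S25 follows from its main inputs, which
are explained in `GuideJacobians` (all of them), `GuideJacobianCharts` (base charts), `GuideTwists`
(twisting classes), `GuideLattices` (cohomology) and `GuideSheaves` (line bundles, glueing).

Let `k` be algebraically closed, `c : C ⟶ Spec k` proper and smooth of relative dimension one, `C`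
integral, `ε` a rational point, and `τ` a presentation of `C` by two affine charts (`TwoChart c`). For
a `k`-scheme `T`, a line bundle on `C_T` is called *good* here if all its fibres at field valued points
have the Euler characteristic of the structure sheaf (`Good τ F`). The plan:

1. Line bundles and lattices: `coordinates_of_module`, `restriction_injective`,
   `lattice_base_change`.
2. Euler characteristics of classes: `euler_char_of_class`, `euler_char_base_change`,
   `euler_char_of_acyclic`, `euler_char_at_points`, `euler_char_locally_constant`, `good_iff`,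
   `good_of_connected`.
3. Charts of the functor of good rigidified bundles: `in_chart_iff`, `in_chart_at_point`,
   `twisted_chart`, `inputs`, `exists_inputs`, `euler_char_in_chart`, `common_chart`,
   `charts_cover_good_locus`.
4. The scheme `J` which represents this functor: `represents_good_bundles`.
5. Points and effective classes: `diagonal_bundle`, `point_class_base_change`,
   `euler_char_minus_points`, `zeros_decrease`, `section_gives_points`, `exists_family`.
6. The map from a power of the curve to `J`: `rigidified_family`, `family_is_good`,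
   `family_map_surjective`, `proper_and_connected`.
7. Algebraic equivalence: `good_of_alg_equiv`, `alg_equiv_of_good`, `representability`.
8. Steps of `glue_charts` of `GuideJacobians`: `relation_of_points`, `related_to_chart`,
   `scheme_of_charts`, `morphism_from_cover`, `related_of_pullback`.

All library theorems cited below are used in the proof of S25 and of no other statement. NOTES:
[105], [177]. Files `H25Poly`, `H25Lat`, `H25Chi`, `H25ChiLC`, `H25Eff1` to `H25Eff4`, `H25Fin1` to
`H25Fin4`, `H25Spine`, `H25RelGlue` (helper25), with `H20Tw*`, `H20K3*`, `H20Rig` (helper20), `H74F1`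
(helper74), `H2Base` (helper2), `H94TwoChart` (helper94).
-/

set_option autoImplicit false
universe u

open CategoryTheory CategoryTheory.Limits AlgebraicGeometry AlgebraicGeometry.RelPicard
  NeronModelInfra TopologicalSpace Polynomial
open Fermat.Agent Fermat.Agent.H25 Fermat.Agent.H21T

noncomputable section

namespace Fermat.Agent.Guide.JacobianSteps

/-! ## 1. Line bundles and lattices

For a curve `Y` over `Spec A` with two charts `τ` and a line bundle `L` on `Y`, the lattice
`latOf τ L hL` (see `lattice_of_line_bundle` in `GuideJacobians`) consists of the sections of `L` over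
`U ∩ V`, the submodules `P`, `Q` of sections which extend to `U`, `V`, and multiplication by `t`.
`Sec y L W` is the `A`-module of the sections of `L` over `W` (`x.s` is `x` as a section), `res L h` the
restriction of sections to a smaller open subset. -/

/-- **Coordinates.** Let `B` be free over `A[t]` with basis `b` (`i : A → B` the structure map), and `E`
a finite projective `B`-module. Then there are elements `e j` of `E` and `A[t]`-linear maps
`φ j : E → A[X]` with `x = ∑ (φ j x)(t) e j`: the module `E` is finite projective over `A[t]`. File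
`H25Poly`. -/
theorem coordinates_of_module {A B : Type*} [CommRing A] [CommRing B] (i : A →+* B) (t : B) {n : ℕ}
    (b : Fin n → B)
    (hb : Function.Bijective (fun f : Fin n → Polynomial A => ∑ j, (f j).eval₂ i t * b j))
    {E : Type*} [AddCommGroup E] [Module B E] [Module.Finite B E] [Module.Projective B E] :
    ∃ (r : ℕ) (e : Fin r → E) (φ : Fin r → (E →+ A[X])),
      (∀ j (p : A[X]) x, φ j (p.eval₂ i t • x) = p * φ j x) ∧
        ∀ x, x = ∑ j, (φ j x).eval₂ i t • e j :=
  exists_polyDual i t b hb

/-- **Restriction to `U ∩ V` is injective** on the sections of a line bundle over `U` and over `V`: by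
the previous theorem `t` (on `V` its inverse `s`) is a nonzerodivisor on them, also if `A` is not
reduced. So sections over `U` and `V` may be regarded as sections over `U ∩ V`. File `H25Lat`. -/
theorem restriction_injective {A : Type u} [CommRing A] {Y : Scheme.{u}}
    {y : Y ⟶ Spec (CommRingCat.of A)} (τ : TwoChart y) {L : Y.Modules}
    (hL : Scheme.Modules.IsInvertible L) :
    Function.Injective (res L (inf_le_left : τ.U ⊓ τ.V ≤ τ.U)) ∧
      Function.Injective (res L (inf_le_right : τ.U ⊓ τ.V ≤ τ.V)) :=
  ⟨resU_injective τ hL, resV_injective τ hL⟩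

/-- **The lattice of a line bundle commutes with base change.** Let `y' : Y' ⟶ Spec A'` be the pull back
of `y : Y ⟶ Spec A` along `f` (`H`), with the two charts `τ'` induced by `τ` (`hU`, `hV`, `ht`), and `L'`
isomorphic to the pull back of the line bundle `L` (`e`). If the lattice of `L` is acyclic
(`Γ(U ∩ V, L)` is the direct sum of `P` and `Q`), so is the lattice of `L'`; and the lattice of `L'` is
the base change of the lattice of `L` along the pull back of sections `β` (`IsBC`, see
`GuideLattices.isBC_iff`; `pbL g e` pulls a section back along `g` and applies `e`). File `H25Lat`. -/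
theorem lattice_base_change {A A' : Type u} [CommRing A] [CommRing A'] {Y Y' : Scheme.{u}}
    {y : Y ⟶ Spec (CommRingCat.of A)} {y' : Y' ⟶ Spec (CommRingCat.of A')} {g : Y' ⟶ Y}
    {f : Spec (CommRingCat.of A') ⟶ Spec (CommRingCat.of A)} (H : IsPullback g y' y f)
    (τ : TwoChart y) (τ' : TwoChart y') (hU : τ'.U = g ⁻¹ᵁ τ.U) (hV : τ'.V = g ⁻¹ᵁ τ.V)
    (ht : τ'.t = resO hU.le (g.app _ τ.t)) {L : Y.Modules}
    (hL : Scheme.Modules.IsInvertible L) {L' : Y'.Modules} (hL' : Scheme.Modules.IsInvertible L')
    (e : (Scheme.Modules.pullback g).obj L ≅ L') [Algebra A A']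
    (hA : algebraMap A A' = (Spec.preimage f).hom) [Module A (Sec y' L' (τ'.U ⊓ τ'.V))]
    [IsScalarTower A A' (Sec y' L' (τ'.U ⊓ τ'.V))] :
    (∃ β : Sec y L (τ.U ⊓ τ.V) →ₗ[A] Sec y' L' (τ'.U ⊓ τ'.V),
      (∀ x, (β x).s = pbL g e (inf_le_inf hU.le hV.le) x.s) ∧
      (latOf τ L hL).IsBC (latOf τ' L' hL') β) ∧
    (IsCompl (latOf τ L hL).P (latOf τ L hL).Q → IsCompl (latOf τ' L' hL').P (latOf τ' L' hL').Q) :=
  ⟨exists_isBC H τ τ' hU hV ht hL hL' e hA, isCompl_latOf_baseChange H τ τ' hU hV ht hL hL' e⟩

/-! ## 2. Euler characteristics of classes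

`SPic X` is the Picard group (`GuideSheaves.picard_group`). For a point `z : Spec K ⟶ Spec k` and a class
`α` on `C_K` (`pullback c z`), `chiP τ z α` is its Euler characteristic and `AcycP τ z α` says that `α` is
acyclic (`h⁰ = h¹ = 0`), both computed with the two charts of `τ` pulled back to `C_K`
(`H51Pb.baseChange τ z`). -/

/-- **Euler characteristic and acyclicity of a class** are those of any line bundle in it. File
`H25Chi`. -/
theorem euler_char_of_class {k : Type u} [Field k] {C : Scheme.{u}} {c : C ⟶ Spec (CommRingCat.of k)}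
    (τ : TwoChart c) {K : Type u} [Field K] (z : Spec (CommRingCat.of K) ⟶ Spec (CommRingCat.of k))
    (L : (pullback c z).Modules) (hL : Scheme.Modules.IsInvertible L) :
    chiP τ z (SPic.mk L hL) = chiL (H51Pb.baseChange τ z) L hL ∧
      (AcycP τ z (SPic.mk L hL) ↔
        IsCompl (latOf (H51Pb.baseChange τ z) L hL).P (latOf (H51Pb.baseChange τ z) L hL).Q) :=
  ⟨chiP_mk τ z L hL, acycP_mk τ hL⟩

/-- **The Euler characteristic does not change under extension of the field.** File `H25Chi`. -/
theorem euler_char_base_change {k : Type u} [Field k] {C : Scheme.{u}}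
    {c : C ⟶ Spec (CommRingCat.of k)} (τ : TwoChart c) {K K' : Type u} [Field K] [Field K']
    {z : Spec (CommRingCat.of K) ⟶ Spec (CommRingCat.of k)}
    {z' : Spec (CommRingCat.of K') ⟶ Spec (CommRingCat.of k)} (g : SchemeHomOver z' z)
    (α : SPic (pullback c z)) : chiP τ z' (SPic.map (baseChangeSnd c g) α) = chiP τ z α :=
  chiP_map τ g α

/-- Acyclic classes have Euler characteristic `0`. File `H25Chi`. -/
theorem euler_char_of_acyclic {k : Type u} [Field k] {C : Scheme.{u}}
    {c : C ⟶ Spec (CommRingCat.of k)} (τ : TwoChart c) {K : Type u} [Field K]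
    {z : Spec (CommRingCat.of K) ⟶ Spec (CommRingCat.of k)} {α : SPic (pullback c z)}
    (h : AcycP τ z α) : chiP τ z α = 0 :=
  h.chi

/-- **The Euler characteristic of a fibre.** For a class `F` on `C_W` and a point `s : Spec K ⟶ W`,
`chiAt τ F s` is the Euler characteristic of the fibre of `F` at `s`. It is compatible with maps
`W' ⟶ W` and depends only on the image of `s`: `chiPt τ F x` is the value at the point `x` of `W`. File
`H25ChiLC`. -/
theorem euler_char_at_points {k : Type u} [Field k] {C : Scheme.{u}}
    {c : C ⟶ Spec (CommRingCat.of k)} (τ : TwoChart c) {W W' : Scheme.{u}}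
    {w : W ⟶ Spec (CommRingCat.of k)} {w' : W' ⟶ Spec (CommRingCat.of k)}
    (F : SPic (pullback c w)) (v : SchemeHomOver w' w) :
    (∀ (K : Type u) [Field K] (z : Spec (CommRingCat.of K) ⟶ Spec (CommRingCat.of k))
      (s : SchemeHomOver z w), chiAt τ F s.1 = chiP τ z (SPic.map (baseChangeSnd c s) F)) ∧
    (∀ (K : Type u) [Field K] (s : Spec (CommRingCat.of K) ⟶ W'),
      chiAt τ (SPic.map (baseChangeSnd c v) F) s = chiAt τ F (s ≫ v.1)) ∧
    ∀ (K : Type u) [Field K] (s : Spec (CommRingCat.of K) ⟶ W),
      chiAt τ F s = chiPt τ F (s.base (IsLocalRing.closedPoint K)) :=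
  ⟨fun _ _ _ s => chiAt_eq τ F s, fun _ _ s => chiAt_map τ F v s, fun _ _ s => chiAt_eq_chiPt τ F s⟩

/-- **Local constancy**: the Euler characteristic of the fibres is a locally constant function on `W`,
for every scheme `W` over `k` (no noetherian hypothesis: over an affine base the ranks of the finite
projective modules `K(m)` and `τ^m Q / Q` of `GuideLattices` are locally constant). File `H25ChiLC`. -/
theorem euler_char_locally_constant {k : Type u} [Field k] {C : Scheme.{u}}
    {c : C ⟶ Spec (CommRingCat.of k)} (τ : TwoChart c) {W : Scheme.{u}}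
    {w : W ⟶ Spec (CommRingCat.of k)} (F : SPic (pullback c w)) : IsLocallyConstant (chiPt τ F) :=
  isLocallyConstant_chiPt τ F

/-- **Good classes**: `F` on `C_T` is good if the fibres at all field valued points have the Euler
characteristic of the structure sheaf of `C`. File `H25Fin1`. -/
theorem good_iff {k : Type u} [Field k] {C : Scheme.{u}} {c : C ⟶ Spec (CommRingCat.of k)}
    (τ : TwoChart c) {T : Scheme.{u}} {t : T ⟶ Spec (CommRingCat.of k)} (F : SPic (pullback c t)) :
    Good τ F ↔ ∀ (K : Type u) [Field K] (s : Spec (CommRingCat.of K) ⟶ T),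
      chiAt τ F s = chiP τ (𝟙 (Spec (CommRingCat.of k))) 1 :=
  Iff.rfl

/-- Over a connected base one fibre decides. File `H25Fin1`. -/
theorem good_of_connected {k : Type u} [Field k] {C : Scheme.{u}} {c : C ⟶ Spec (CommRingCat.of k)}
    {τ : TwoChart c} {T : Scheme.{u}} {t : T ⟶ Spec (CommRingCat.of k)} [PreconnectedSpace T]
    {F : SPic (pullback c t)} {K : Type u} [Field K] (s : Spec (CommRingCat.of K) ⟶ T)
    (h : chiAt τ F s = chiP τ (𝟙 (Spec (CommRingCat.of k))) 1) : Good τ F :=
  Good.of_preconnected s h

/-! ## 3. The charts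

A chart (`PicChart c ε`) is a `k`-scheme `X` with a rigidified bundle on `C_X` which represents an open
subfunctor of the functor of all rigidified bundles; `locus t M` is the open subset of `T` over which the
bundle `M` on `C_T` belongs to the chart (`GuideJacobians`, `picard_chart`). `cl M` is the class of
`M`, and `bcl t ν` the pull back to `C_T` of a class `ν` on `C`. -/

/-- A rigidified bundle `M` on `C_T` is a pull back of the bundle of the chart if and only if its locus
is `T`. File `H25Fin1`. -/
theorem in_chart_iff {k : Type u} [Field k] {C : Scheme.{u}} {c : C ⟶ Spec (CommRingCat.of k)}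
    {ε : SchemeHomOver (𝟙 (Spec (CommRingCat.of k))) c} (ch : PicChart c ε) {T : Scheme.{u}}
    {t : T ⟶ Spec (CommRingCat.of k)} (M : RigidifiedLineBundle c ε t) :
    ch.locus t M = ⊤ ↔ ∃ h : SchemeHomOver t ch.x, Nonempty ((ch.L.pullbackAlong h).L ≅ M.L) :=
  ch.locus_eq_top_iff M

/-- The fibre of `M` at a field valued point `g` of `T` belongs to the chart if and only if the image of
`g` is in the locus. File `H25Fin1`. -/
theorem in_chart_at_point {k : Type u} [Field k] {C : Scheme.{u}} {c : C ⟶ Spec (CommRingCat.of k)}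
    {ε : SchemeHomOver (𝟙 (Spec (CommRingCat.of k))) c} (ch : PicChart c ε) {T : Scheme.{u}}
    {t : T ⟶ Spec (CommRingCat.of k)} {K : Type u} [Field K]
    {z : Spec (CommRingCat.of K) ⟶ Spec (CommRingCat.of k)} (M : RigidifiedLineBundle c ε t)
    (g : SchemeHomOver z t) :
    ch.locus z (M.pullbackAlong g) = ⊤ ↔ g.1.base (IsLocalRing.closedPoint K) ∈ ch.locus t M :=
  ch.locus_pullbackAlong_field M g

/-- **Twisted charts.** Let `ν` be a class on `C`. The chart `ch.twist ν` has the same scheme `X`, its
bundle has the class `[L] ν⁻¹`, and `M` belongs to it if and only if `M ν` belongs to `ch` (`tw M ν` is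
the rigidified bundle with class `[M] ν`, see `GuideSheaves.twist_by_class_on_curve`). File `H25Chi`. -/
theorem twisted_chart {k : Type u} [Field k] {C : Scheme.{u}} {c : C ⟶ Spec (CommRingCat.of k)}
    {ε : SchemeHomOver (𝟙 (Spec (CommRingCat.of k))) c} (ch : PicChart c ε) (ν : SPic C) :
    (ch.twist ν).X = ch.X ∧ cl (ch.twist ν).L = cl ch.L * bcl ch.x ν⁻¹ ∧
      ∀ {T : Scheme.{u}} (t : T ⟶ Spec (CommRingCat.of k)) (M : RigidifiedLineBundle c ε t),
        (ch.twist ν).locus t M = ch.locus t (tw M ν) ∧ cl (tw M ν) = cl M * bcl t ν :=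
  ⟨rfl, cl_tw ch.L ν⁻¹, fun _ M => ⟨rfl, cl_tw M ν⟩⟩

/-- **The inputs.** `FinData c ε` collects what is needed: a presentation `τ`; functions on `C_T` are
determined along the section (`RigInj`); affine charts of finite presentation whose members are acyclic
over fields, and such that any two acyclic bundles over a field lie in one chart (base charts); classes
`ν j` on `C` which shift all Euler characteristics by a constant and make any two classes with the same
Euler characteristic acyclic (twisting classes); a proper integral `Y` with a class `F` on `C_Y` such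
that every class on `C` with the Euler characteristic of the structure sheaf is the fibre of `F` at
some rational point of `Y` (`C^d`). File `H25Fin1`. -/
theorem inputs {k : Type u} [Field k] {C : Scheme.{u}} {c : C ⟶ Spec (CommRingCat.of k)}
    {ε : SchemeHomOver (𝟙 (Spec (CommRingCat.of k))) c} (D : FinData c ε) :
    RigInj c ε ∧ (∀ i, IsAffine (D.ch i).X ∧ LocallyOfFinitePresentation (D.ch i).x) ∧
    (∀ (i : D.I) (K : Type u) [Field K] (z : Spec (CommRingCat.of K) ⟶ Spec (CommRingCat.of k))
      (M : RigidifiedLineBundle c ε z), (D.ch i).locus z M = ⊤ → AcycP D.τ z (cl M)) ∧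
    (∀ (K : Type u) [Field K] (z : Spec (CommRingCat.of K) ⟶ Spec (CommRingCat.of k))
      (M M' : RigidifiedLineBundle c ε z), AcycP D.τ z (cl M) → AcycP D.τ z (cl M') →
        ∃ i, (D.ch i).locus z M = ⊤ ∧ (D.ch i).locus z M' = ⊤) ∧
    (∀ j, ∃ e : ℤ, ∀ (K : Type u) [Field K]
      (z : Spec (CommRingCat.of K) ⟶ Spec (CommRingCat.of k)) (α : SPic (pullback c z)),
        chiP D.τ z (α * bcl z (D.ν j)) = chiP D.τ z α + e) ∧
    (∀ (K : Type u) [Field K] (z : Spec (CommRingCat.of K) ⟶ Spec (CommRingCat.of k))
      (α β : SPic (pullback c z)), chiP D.τ z α = chiP D.τ z β →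
        ∃ j, AcycP D.τ z (α * bcl z (D.ν j)) ∧ AcycP D.τ z (β * bcl z (D.ν j))) ∧
    IsProper D.y ∧ IsIntegral D.Y ∧
    ∀ α : SPic (pullback c (𝟙 (Spec (CommRingCat.of k)))), chiP D.τ (𝟙 _) α = chiP D.τ (𝟙 _) 1 →
      ∃ s : SchemeHomOver (𝟙 (Spec (CommRingCat.of k))) D.y, SPic.map (baseChangeSnd c s) D.F = α :=
  ⟨D.inj, fun i => ⟨D.aff i, D.fp i⟩, D.ac, D.ex, D.deg, D.rr, D.Y_proper, D.Y_int, D.surj⟩

/-- **The inputs exist**: `exists_two_charts`, `functions_determined_on_section`, `exists_base_charts`,
`exists_twisting_classes` and `surjective_family` of `GuideJacobians`. Files `H25Fin4`, `H20K3d`. -/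
theorem exists_inputs {k : Type u} [Field k] [IsAlgClosed k] {C : Scheme.{u}}
    (c : C ⟶ Spec (CommRingCat.of k)) [IsProper c] [SmoothOfRelativeDimension 1 c] [IsIntegral C]
    (ε : SchemeHomOver (𝟙 (Spec (CommRingCat.of k))) c) : Nonempty (FinData c ε) :=
  exists_finData c ε fun τ => H20T.exists_twists τ

/-- The charts of `J` are the base charts `ch i` twisted by those `ν j` which have Euler characteristic
`0` (`D.Idx` is the set of these pairs `(i, j)`, `D.chart` the twisted chart). A bundle in such a chart
has the Euler characteristic of the structure sheaf: `χ(M ν) = 0 = χ(ν)`, and `ν` shifts all Euler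
characteristics by the same constant. File `H25Fin1`. -/
theorem euler_char_in_chart {k : Type u} [Field k] {C : Scheme.{u}}
    {c : C ⟶ Spec (CommRingCat.of k)} {ε : SchemeHomOver (𝟙 (Spec (CommRingCat.of k))) c}
    (D : FinData c ε) {K : Type u} [Field K]
    {z : Spec (CommRingCat.of K) ⟶ Spec (CommRingCat.of k)} {M : RigidifiedLineBundle c ε z}
    (i : D.Idx) (h : (D.chart i).locus z M = ⊤) :
    chiP D.τ z (cl M) = chiP D.τ (𝟙 (Spec (CommRingCat.of k))) 1 :=
  D.chi_of_locus i h

/-- **Any two good bundles over a field lie in a common chart**: a twisting class `ν` which makes both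
acyclic has Euler characteristic `0`, and two acyclic bundles lie in a common base chart. This gives
both the covering and the separatedness of `J`. File `H25Fin1`. -/
theorem common_chart {k : Type u} [Field k] {C : Scheme.{u}} {c : C ⟶ Spec (CommRingCat.of k)}
    {ε : SchemeHomOver (𝟙 (Spec (CommRingCat.of k))) c} (D : FinData c ε) {K : Type u} [Field K]
    {z : Spec (CommRingCat.of K) ⟶ Spec (CommRingCat.of k)} (M M' : RigidifiedLineBundle c ε z)
    (hM : chiP D.τ z (cl M) = chiP D.τ (𝟙 (Spec (CommRingCat.of k))) 1)
    (hM' : chiP D.τ z (cl M') = chiP D.τ (𝟙 (Spec (CommRingCat.of k))) 1) :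
    ∃ i : D.Idx, (D.chart i).locus z M = ⊤ ∧ (D.chart i).locus z M' = ⊤ :=
  D.exists_chart M M' hM hM'

/-- **The charts cover exactly the good bundles**: the loci of `M` in the charts cover `T` if and only if
the class of `M` is good. File `H25Fin1`. -/
theorem charts_cover_good_locus {k : Type u} [Field k] {C : Scheme.{u}}
    {c : C ⟶ Spec (CommRingCat.of k)} {ε : SchemeHomOver (𝟙 (Spec (CommRingCat.of k))) c}
    (D : FinData c ε) {T : Scheme.{u}} (t : T ⟶ Spec (CommRingCat.of k))
    (M : RigidifiedLineBundle c ε t) : ⨆ i, (D.chart i).locus t M = ⊤ ↔ Good D.τ (cl M) :=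
  D.iSup_locus_iff t M

/-! ## 4. The scheme which represents good bundles -/

/-- **The scheme `J`.** It is glued from the charts (`glue_charts` of `GuideJacobians`): every good
rigidified bundle is the pull back of the universal one along exactly one map. It is smooth because its
charts are (`chart_smooth`), and separated because any two rational points lie in one affine chart
(`common_chart`, `separated_of_points`). File `H25Fin2`. -/
theorem represents_good_bundles {k : Type u} [Field k] [IsAlgClosed k] {C : Scheme.{u}}
    {c : C ⟶ Spec (CommRingCat.of k)} {ε : SchemeHomOver (𝟙 (Spec (CommRingCat.of k))) c}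
    (D : FinData c ε) :
    ∃ (J : Scheme.{u}) (j : J ⟶ Spec (CommRingCat.of k)) (𝓛 : RigidifiedLineBundle c ε j),
      Good D.τ (cl 𝓛) ∧
      (∀ {T : Scheme.{u}} (t : T ⟶ Spec (CommRingCat.of k)) (M : RigidifiedLineBundle c ε t),
        Good D.τ (cl M) → ∃ g : SchemeHomOver t j, cl (𝓛.pullbackAlong g) = cl M) ∧
      (∀ {T : Scheme.{u}} (t : T ⟶ Spec (CommRingCat.of k)) (g g' : SchemeHomOver t j),
        cl (𝓛.pullbackAlong g) = cl (𝓛.pullbackAlong g') → g = g') ∧
      Smooth j ∧ LocallyOfFiniteType j ∧ IsSeparated j := by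
  obtain ⟨J⟩ := exists_jac D
  exact ⟨J.P, J.p, J.Poin, J.good, J.ex, J.uniq, J.smooth, J.lft, J.sep⟩

/-! ## 5. Points and effective classes

`H20T.IsTw γ L M` says that `L` is the twist `M(-γ)` (`GuideTwists.isCart_isTw_iff`): for some
`φ : L ⟶ M` one has `H20T.TwHom γ φ`, that is, `φ` identifies `L` with the sections of `M` which vanish
on `γ`. `H20T.graph y` is the graph of `y : T ⟶ C`, a section of `C_T ⟶ T`, and `dcl y` the class of
`O(-y)` on `C_T`. -/

/-- **The line bundle `O(-Δ)` of the diagonal** on `C × C`. File `H25Eff3`. -/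
theorem diagonal_bundle {k : Type u} [Field k] [IsAlgClosed k] {C : Scheme.{u}}
    (c : C ⟶ Spec (CommRingCat.of k)) [IsSeparated c] [SmoothOfRelativeDimension 1 c] [IsIntegral C] :
    ∃ L : (pullback c c).Modules, Scheme.Modules.IsInvertible L ∧
      H20T.IsTw (H20T.graph (⟨𝟙 C, Category.id_comp c⟩ : SchemeHomOver c c)) L (uMod _) :=
  exists_diagMod c

/-- **The class of `O(-y)`** commutes with base change (`shComp ψ y` is the composition `T' ⟶ T ⟶ C`),
and `[M(-y)] = [M] [O(-y)]`. File `H25Eff3`. -/
theorem point_class_base_change {k : Type u} [Field k] [IsAlgClosed k] {C : Scheme.{u}}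
    {c : C ⟶ Spec (CommRingCat.of k)} [IsSeparated c] [SmoothOfRelativeDimension 1 c] [IsIntegral C]
    {T T' : Scheme.{u}} {t : T ⟶ Spec (CommRingCat.of k)} {t' : T' ⟶ Spec (CommRingCat.of k)}
    (y : SchemeHomOver t c) (ψ : SchemeHomOver t' t) :
    SPic.map (baseChangeSnd c ψ) (dcl y) = dcl (shComp ψ y) ∧
      ∀ (L M : (pullback c t).Modules) (hL : Scheme.Modules.IsInvertible L)
        (hM : Scheme.Modules.IsInvertible M), H20T.IsTw (H20T.graph y) L M →
          SPic.mk L hL = SPic.mk M hM * dcl y :=
  ⟨dcl_map y ψ, fun _ _ hL hM h => mk_tw y hL hM h⟩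

/-- `χ(α(-x_1 - ... - x_n)) = χ(α) - n`. File `H25Eff4`. -/
theorem euler_char_minus_points {k : Type u} [Field k] [IsAlgClosed k] {C : Scheme.{u}}
    {c : C ⟶ Spec (CommRingCat.of k)} [IsSeparated c] [SmoothOfRelativeDimension 1 c] [IsIntegral C]
    (τ : TwoChart c) (α : SPic (pullback c (𝟙 (Spec (CommRingCat.of k)))))
    (l : List (SchemeHomOver (𝟙 (Spec (CommRingCat.of k))) c)) :
    chiP τ (𝟙 _) (α * (l.map dcl).prod) = chiP τ (𝟙 _) α - l.length :=
  chiP_mul_prod τ α l

/-- **Removing a zero.** `nz τ s` is the number of zeros of the global section `s`, with multiplicities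
and counted on both charts. If `φ : L → M` presents `L` as `M(-γ)` for a rational point `γ` and
`l ≠ 0` is a section of `L`, then `l` has fewer zeros than its image in `M`. File `H25Eff4`. -/
theorem zeros_decrease {K : Type u} [Field K] {Z : Scheme.{u}} {z : Z ⟶ Spec (CommRingCat.of K)}
    [IsIntegral Z] (τ : TwoChart z) {γ : Spec (CommRingCat.of K) ⟶ Z} (hγ : γ ≫ z = 𝟙 _)
    {L M : Z.Modules} (hL : Scheme.Modules.IsInvertible L) (hM : Scheme.Modules.IsInvertible M)
    {φ : L ⟶ M} (hφ : H20T.TwHom γ φ) {l : Γ(L, ⊤)} (hl : l ≠ 0) :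
    nz τ l < nz τ (φ.app ⊤ l) :=
  nz_tw τ hγ hL hM hφ hl

/-- **A nonzero section gives points**: the class of a line bundle with a nonzero section is
`O(x_1 + ... + x_n)`. Induction over the number of zeros: if the value of the section at all rational
points is nonzero, it is a generator (`GuideSheaves.generator_of_nonzero_values`), otherwise it comes
from `M(-x)`. File `H25Eff4`. -/
theorem section_gives_points {k : Type u} [Field k] [IsAlgClosed k] {C : Scheme.{u}}
    {c : C ⟶ Spec (CommRingCat.of k)} [IsSeparated c] [SmoothOfRelativeDimension 1 c] [IsIntegral C]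
    (τ : TwoChart c) {M : (pullback c (𝟙 (Spec (CommRingCat.of k)))).Modules}
    (hM : Scheme.Modules.IsInvertible M) {s : Γ(M, ⊤)} (hs : s ≠ 0) :
    ∃ l : List (SchemeHomOver (𝟙 (Spec (CommRingCat.of k))) c),
      SPic.mk M hM * (l.map dcl).prod = 1 :=
  exists_list τ _ hM hs rfl

/-- **The family of all effective classes of degree `d`** (up to sign): over `Y = C^d` there is a class
`F` on `C_Y` whose fibre at `(x_1, ..., x_d)` is `O(-x_1 - ... - x_d)`. File `H25Eff4`. -/
theorem exists_family {k : Type u} [Field k] [IsAlgClosed k] {C : Scheme.{u}}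
    {c : C ⟶ Spec (CommRingCat.of k)} [IsProper c] [SmoothOfRelativeDimension 1 c] [IsIntegral C]
    (d : ℕ) :
    ∃ (Y : Scheme.{u}) (y : Y ⟶ Spec (CommRingCat.of k)) (_ : IsProper y) (_ : IsIntegral Y)
      (F : SPic (pullback c y)),
      ∀ l : List (SchemeHomOver (𝟙 (Spec (CommRingCat.of k))) c), l.length = d →
        ∃ s : SchemeHomOver (𝟙 (Spec (CommRingCat.of k))) y,
          SPic.map (baseChangeSnd c s) F = (l.map dcl).prod :=
  H25.exists_family d

/-! ## 6. The map from a power of the curve to `J`

`Jac D` is the type of schemes `J` with the properties of `represents_good_bundles`; `𝒥.p` is the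
structure map and `𝒥.Poin` the universal bundle. -/

/-- **Rigidification**: the class `F` on `C_Y` (part of the inputs) may be replaced by the class of a
rigidified bundle with the same fibres (divide by the pull back of `ε^*F` from `Y`). File `H25Fin2`. -/
theorem rigidified_family {k : Type u} [Field k] {C : Scheme.{u}} {c : C ⟶ Spec (CommRingCat.of k)}
    {ε : SchemeHomOver (𝟙 (Spec (CommRingCat.of k))) c} (D : FinData c ε) :
    ∃ M : RigidifiedLineBundle c ε D.y, ∀ (K : Type u) [Field K]
      {z : Spec (CommRingCat.of K) ⟶ Spec (CommRingCat.of k)} (s : SchemeHomOver z D.y),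
        cl (M.pullbackAlong s) = SPic.map (baseChangeSnd c s) D.F :=
  D.exists_MY

/-- The rigidified family `D.MY` has a trivial fibre, and since `Y` is connected it is good. File
`H25Fin2`. -/
theorem family_is_good {k : Type u} [Field k] {C : Scheme.{u}} {c : C ⟶ Spec (CommRingCat.of k)}
    {ε : SchemeHomOver (𝟙 (Spec (CommRingCat.of k))) c} (D : FinData c ε) :
    (∃ s : SchemeHomOver (𝟙 _) D.y, cl (D.MY.pullbackAlong s) = 1) ∧ Good D.τ (cl D.MY) :=
  ⟨D.exists_y0, D.good_MY⟩

/-- **The map `Y ⟶ J` given by the family is surjective**: every rational point of `J` is a good bundle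
on `C`, hence a fibre of the family. File `H25Fin2`. -/
theorem family_map_surjective {k : Type u} [Field k] [IsAlgClosed k] {C : Scheme.{u}}
    {c : C ⟶ Spec (CommRingCat.of k)} {ε : SchemeHomOver (𝟙 (Spec (CommRingCat.of k))) c}
    {D : FinData c ε} (𝒥 : Jac D) :
    ∃ f : SchemeHomOver D.y 𝒥.p, cl (𝒥.Poin.pullbackAlong f) = cl D.MY ∧ Surjective f.1 := by
  obtain ⟨f, hf⟩ := 𝒥.exists_map
  exact ⟨f, hf, 𝒥.surjective f hf⟩

/-- **`J` is proper and geometrically connected**, as the image of `Y`. File `H25Fin2`. -/
theorem proper_and_connected {k : Type u} [Field k] [IsAlgClosed k] {C : Scheme.{u}}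
    {c : C ⟶ Spec (CommRingCat.of k)} {ε : SchemeHomOver (𝟙 (Spec (CommRingCat.of k))) c}
    {D : FinData c ε} (𝒥 : Jac D) : IsProper 𝒥.p ∧ GeometricallyConnected 𝒥.p :=
  ⟨𝒥.proper, 𝒥.geometricallyConnected⟩

/-! ## 7. Algebraic equivalence -/

/-- **Algebraically equivalent to zero implies good**: in a family over a geometrically integral base
the Euler characteristic is constant. File `H25Fin3`. -/
theorem good_of_alg_equiv {k : Type u} [Field k] {C : Scheme.{u}} {c : C ⟶ Spec (CommRingCat.of k)}
    {ε : SchemeHomOver (𝟙 (Spec (CommRingCat.of k))) c} {T : Scheme.{u}}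
    {t : T ⟶ Spec (CommRingCat.of k)} (τ : TwoChart c) (M : RigidifiedLineBundle c ε t)
    (h : FibrewiseAlgEquivZero M) : Good τ (cl M) :=
  good_of_fibrewise τ M h

/-- **Good implies algebraically equivalent to zero**: a geometric fibre of a good bundle is a point of
`J`, it lifts to a point of `Y`, and the family over `Y` joins it to the trivial bundle. File
`H25Fin3`. -/
theorem alg_equiv_of_good {k : Type u} [Field k] [IsAlgClosed k] {C : Scheme.{u}}
    {c : C ⟶ Spec (CommRingCat.of k)} {ε : SchemeHomOver (𝟙 (Spec (CommRingCat.of k))) c}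
    {D : FinData c ε} (𝒥 : Jac D) {T : Scheme.{u}} {t : T ⟶ Spec (CommRingCat.of k)}
    (M : RigidifiedLineBundle c ε t) (h : Good D.τ (cl M)) : FibrewiseAlgEquivZero M :=
  fibrewise_of_good 𝒥 M h

/-- **The conclusion of S25 from the inputs.** (`RelativePic0Designation`, `RepresentsRelSubPic` and
`algEquivZeroCut` are the notions of the statement, unfolded in `GuideNotionsSchemes`.) File
`H25Fin3`. -/
theorem representability {k : Type u} [Field k] [IsAlgClosed k] {C : Scheme.{u}}
    {c : C ⟶ Spec (CommRingCat.of k)} {ε : SchemeHomOver (𝟙 (Spec (CommRingCat.of k))) c}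
    (D : FinData c ε) :
    ∃ E : GoodReductionJacobian.RelativePic0Designation k c,
      Nonempty (RepresentsRelSubPic c ε (algEquivZeroCut c ε) E) ∧
        Smooth E.toBase ∧ IsProper E.toBase ∧ GeometricallyConnected E.toBase :=
  exists_representsRelSubPic D

/-! ## 8. Steps of `glue_charts`

`glue_charts` of `GuideJacobians` glues the charts to a scheme `P` with a rigidified bundle on `C_P`. In
the proof `RB c ε` are the pairs `B` of a `k`-scheme `B.Y` (structure map `B.y`) and a rigidified bundle
`B.N` over it; a chart gives such a pair `ch.toRB`. -/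

section GlueCharts

variable {k : Type u} [Field k] {C : Scheme.{u}} {c : C ⟶ Spec (CommRingCat.of k)}
  {ε : SchemeHomOver (𝟙 (Spec (CommRingCat.of k))) c}

/-- **The relation** between points `a` of `B.Y` and `b` of `B'.Y` with values in the same scheme `S`:
they define the same map to `Spec k`, and the pull backs of the two bundles are isomorphic. It is
reflexive, symmetric, transitive and compatible with maps `S' ⟶ S`. File `H25Spine`. -/
theorem relation_of_points (B B' : RB c ε) {S : Scheme.{u}} (a : S ⟶ B.Y) (b : S ⟶ B'.Y) :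
    (BRel B B' a b ↔
      ∃ (s : S ⟶ Spec (CommRingCat.of k)) (ha : a ≫ B.y = s) (hb : b ≫ B'.y = s),
        Nonempty ((B.N.pullbackAlong ⟨a, ha⟩).L ≅ (B'.N.pullbackAlong ⟨b, hb⟩).L)) ∧
    BRel B B a a ∧ (BRel B B' a b → BRel B' B b a) ∧
    (∀ (B'' : RB c ε) (d : S ⟶ B''.Y), BRel B B' a b → BRel B' B'' b d → BRel B B'' a d) ∧
    ∀ {S' : Scheme.{u}} (g : S' ⟶ S), BRel B B' a b → BRel B B' (g ≫ a) (g ≫ b) :=
  ⟨Iff.rfl, BRel.refl B a, BRel.symm, fun _ _ => BRel.trans, fun g h => h.pre g⟩

/-- **Charts and the relation.** A point of `B.Y` is related to some point of the chart if and only if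
its image lies in the locus of `B.N`, and two points of one chart which are related are equal. File
`H25Spine`. -/
theorem related_to_chart (ch : PicChart c ε) (B : RB c ε) {S : Scheme.{u}} (a : S ⟶ B.Y) :
    ((∃ b, BRel B ch.toRB a b) ↔ Set.range a ⊆ ch.locus B.y B.N) ∧
    ∀ b b' : S ⟶ ch.X, BRel ch.toRB ch.toRB b b' → b = b' :=
  ⟨ch.exists_iff B a, fun _ _ h => ch.eq_of_rel h⟩

/-- **The scheme `P`**, by `GuideSheaves.glue_schemes`, whose hypotheses are the two previous theorems:
the schemes of the charts are open in `P` and cover it, and points of two charts are equal in `P` if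
and only if they are related. Files `H25Spine`, `H25RelGlue`. -/
theorem scheme_of_charts {ι : Type u} (ch : ι → PicChart c ε) :
    ∃ (P : Scheme.{u}) (j : ∀ i, (ch i).X ⟶ P),
      (∀ i, IsOpenImmersion (j i)) ∧ (∀ x : P, ∃ i, x ∈ Set.range (j i)) ∧
      ∀ {S : Scheme.{u}} (i i' : ι) (a : S ⟶ (ch i).X) (b : S ⟶ (ch i').X),
        a ≫ j i = b ≫ j i' ↔ BRel (ch i).toRB (ch i').toRB a b :=
  exists_relGlue (chartGlue ch)

/-- **Morphisms.** Let the open immersions `j i : X i ⟶ P` cover `P`. Morphisms `f i : X i ⟶ Z` with
the same value at points of `X i` and `X i'` which are equal in `P` come from exactly one morphism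
`P ⟶ Z`. This gives the structure map of `P`; the bundle on `C_P` is given by
`GuideSheaves.glue_rigidified`. If the loci of `M` in the charts cover `T`, it also gives a map
`T ⟶ P` (over the loci by `related_to_chart`), and `M` is the pull back of the bundle on `C_P` because
this holds over the loci (`GuideSheaves.isomorphism_is_local`). File `H25Spine`. -/
theorem morphism_from_cover {P : Scheme.{u}} {ι : Type*} {X : ι → Scheme.{u}} (j : ∀ i, X i ⟶ P)
    (hj : ∀ i, IsOpenImmersion (j i)) (hcov : ∀ x : P, ∃ i, x ∈ Set.range (j i)) {Z : Scheme.{u}}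
    (f : ∀ i, X i ⟶ Z) (h : ∀ {S : Scheme.{u}} (i i' : ι) (a : S ⟶ X i) (b : S ⟶ X i'),
      a ≫ j i = b ≫ j i' → a ≫ f i = b ≫ f i') : ∃! g : P ⟶ Z, ∀ i, j i ≫ g = f i :=
  let ⟨g, hg⟩ := exists_desc j hj hcov f h
  ⟨g, hg, fun _ hg' => homs_ext j hj hcov fun i => (hg' i).trans (hg i).symm⟩

/-- **Pull backs are related points**: if `M` on `C_S` is the pull back of the bundle `N` on `C_Y` along
`g : S ⟶ Y`, the points `𝟙 S` and `g` are related. So, if `M` is a pull back of the bundle on `C_P`,
its loci in the charts cover the base, and points of `P` with isomorphic pull backs are equal over the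
charts, hence equal. File `H25Spine`. -/
theorem related_of_pullback {S Y : Scheme.{u}} {s : S ⟶ Spec (CommRingCat.of k)}
    {y : Y ⟶ Spec (CommRingCat.of k)} (M : RigidifiedLineBundle c ε s)
    (N : RigidifiedLineBundle c ε y) (g : SchemeHomOver s y)
    (e : Nonempty ((N.pullbackAlong g).L ≅ M.L)) :
    BRel (⟨S, s, M⟩ : RB c ε) ⟨Y, y, N⟩ (𝟙 S) g.1 :=
  BRel.of_iso M N g e

end GlueCharts

end Fermat.Agent.Guide.JacobianSteps
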