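import Fermat.Agent.S25

/-!
# Guide to the proof: the Jacobian of a smooth proper curve (statement S25)

Let `k` be an algebraically closed field, `c : C ⟶ Spec k` proper, smooth of relative dimension one,
`C` integral, `ε` a `k`-rational point. The functor which sends `T` to the line bundles on `C_T`
rigidified along `ε` whose geometric fibres are algebraically equivalent to zero is represented by a
smooth proper geometrically connected scheme, the Jacobian (`jacobian`, the last theorem). Everything is
proved from Mathlib's schemes and sheaves of modules: no Hilbert scheme, no symmetric power, no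
cohomology, no Riemann-Roch theorem, no projective embedding.

Idea. `C` is covered by two affine charts `U`, `V`, finite and free over `k[t]` and `k[1/t]`; a line
bundle on `C_A` is a lattice on the projective line over `A` with an action of `O(U)` (sections 1-4). If
it is acyclic, then `L(U) = A[X]^n` by Horrocks' lemma, the action of `O(U)` is a homomorphism
`ρ : O(U) → M_n(A[X])` and evaluation at `ε` is a row vector `λ`; the pairs `(ρ, λ)`, with the basis
normalised by noncommutative polynomials, are the points of an affine scheme (section 5). These charts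
are glued (section 6), after twisting with classes which replace the theorem of Riemann-Roch (section 7).
Smoothness is infinitesimal lifting, properness and connectedness come from a surjection `C^d → J`, and
`algebraically equivalent to zero` is `Euler characteristic of O` (section 8).

Reading order.
0. The notions of the statement: `fibrewise_alg_equiv_zero_iff`.
1. Two charts: `exists_two_charts`, `functions_determined_on_section`.
2. Sheaves of modules: `line_bundle_of_cocycle`, `picard_class_eq_iff`, `line_bundle_of_two_charts`.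
3. Lattices on the projective line: `horrocks_P`, `sections_finite_projective`,
   `sections_base_change`, `acyclic_open`, `euler_char_locally_constant`.
4. Line bundles as lattices: `lattice_of_line_bundle`, `euler_char_of_line_bundle`, `euler_char_const`.
5. Charts of the Picard functor: `chart_point`, `chart_ring`, `common_words`, `invertible_chart`,
   `line_bundle_of_matrices`, `picard_chart`, `exists_base_charts`.
6. Glueing: `glue_charts`.
7. Twisting classes: `euler_char_minus_point`, `exists_twisting_classes`, `effective_classes`,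
   `surjective_family`.
8. Geometry: `lift_invertible_module`, `lift_line_bundle`, `chart_smooth`, `separated_of_points`,
   `proper_of_surjective`, `alg_equiv_iff_euler_char`, `jacobian`.
Companion files with more steps: `GuideSmoothCurves` (helper25: smooth curves and their presentation by
two charts; for section 1), `GuideSheaves` (helper25: sheaves of modules, glueing, Picard groups,
rigidified bundles; for sections 2 and 6), `GuideLattices` (helper10: cohomology on the projective line;
for section 3), `GuideJacobianCharts` (helper2: lattices with an action of `O(U)` and their matrices; for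
sections 3 to 6), `GuideTwists` (helper20: the line bundles `M(-x)` over an arbitrary base and their Euler
characteristics; for section 7), `GuideJacobianSteps` (helper25: the assembly of the Jacobian, how the
inputs give `J`; for sections 6 to 8), `GuideJacobianGeometry` (helper74: thickenings, geometry from
points, the bundle of a matrix, line bundles from two charts; for sections 2, 5 and 8),
`GuideChartModules` (helper98: why the modules of a chart are invertible; for section 5). The notions of
the statement are also explained in `GuideNotionsSchemes`.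

All theorems cited in this file are used in the proof of S25 (109 modules, 27400 lines); no other
statement uses S25. NOTES: [105] (overview), [177], [223], [102], [199], [211], [126], [182], [312].
Authors: helper25 (design, most of this file), helper10, helper20, helper2,
helper51, helper74, helper98, helper45, helper65, helper21, helper94, helper73.
-/

set_option autoImplicit false
universe u v

open CategoryTheory CategoryTheory.Limits AlgebraicGeometry AlgebraicGeometry.RelPicard
  NeronModelInfra GoodReductionJacobian
open Fermat.Agent Fermat.Agent.H25 Fermat.Agent.H21T Polynomial TopologicalSpace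

noncomputable section

namespace Fermat.Agent.Guide.Jacobians

/-! ## 0. The notions of the statement

For `c : C ⟶ Spec k`, a rational point `ε` and `t : T ⟶ Spec k`, a `RigidifiedLineBundle c ε t` is an
invertible sheaf of modules `M.L` on `C_T = pullback c t` whose pull back along the section
`rigSection c t ε : T ⟶ C_T` is isomorphic to the structure sheaf; `SchemeHomOver t' t` is the type of
morphisms `T' ⟶ T` over `Spec k`, and `M.pullbackAlong g` the pull back to `C_T'`. -/

/-- **Fibrewise algebraically equivalent to zero**, written out: for every geometric point `s` of `T`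
there are a geometrically integral scheme `T'`, locally of finite type over the field `K` of `s`, an
invertible sheaf `N` on `C_s × T'` and two rational points `t₀`, `t₁` of `T'` such that `N` is trivial
over `t₀` and is the fibre `M_s` over `t₁`. This is the definition in the frozen statement. -/
theorem fibrewise_alg_equiv_zero_iff {k : Type u} [Field k] {C : Scheme.{u}}
    {c : C ⟶ Spec (CommRingCat.of k)} {ε : SchemeHomOver (𝟙 (Spec (CommRingCat.of k))) c}
    {T : Scheme.{u}} {t : T ⟶ Spec (CommRingCat.of k)} (M : RigidifiedLineBundle c ε t) :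
    FibrewiseAlgEquivZero M ↔
      ∀ (K : Type u) [Field K] [IsAlgClosed K] (s : Spec (CommRingCat.of K) ⟶ T),
        ∃ (T' : Scheme.{u}) (h : T' ⟶ Spec (CommRingCat.of K)) (_ : LocallyOfFiniteType h)
          (_ : GeometricallyIntegral h) (N : (pullback (pullback.snd (pullback.snd c t) s) h).Modules)
          (_ : N.IsInvertible) (t₀ t₁ : SchemeHomOver (𝟙 (Spec (CommRingCat.of K))) h),
          Nonempty ((Scheme.Modules.pullback (baseChangeSnd (pullback.snd (pullback.snd c t) s) t₀)).obj N ≅
            SheafOfModules.unit (pullback (pullback.snd (pullback.snd c t) s) (𝟙 _)).ringCatSheaf) ∧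
          Nonempty ((Scheme.Modules.pullback (baseChangeSnd (pullback.snd (pullback.snd c t) s) t₁)).obj N ≅
            (Scheme.Modules.pullback (pullback.fst (pullback.snd (pullback.snd c t) s) (𝟙 _))).obj
              ((Scheme.Modules.pullback (pullback.fst (pullback.snd c t) s)).obj M.L)) :=
  Iff.rfl

/-! ## 1. Two charts -/

/-- **Two charts.** `C` is a finite cover of the projective line, free on both charts: there are two
affine opens `U`, `V` covering `C`, functions `t` on `U` and `s` on `V` with `U ∩ V = D(t) = D(s)` and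
`t s = 1` there, such that `O(U)` is free of rank `n > 0` over `k[t]` and `O(V)` is free of rank `n`
over `k[s]`; moreover a given closed point `e` lies in `U`. (`strHom c U` is the structure map
`k → O(U)`, `resO` is restriction of functions.) Proof: let `t` be any rational function which is
transcendental over `k`. The local rings of `C` are valuation rings, so the domains of definition of `t`
and `1 / t` cover `C`; by the valuative criterion and Zariski's main theorem they are finite over the
affine line. Files `H94TC1` to `H94TC5`, `H94TwoChart` (helper94). -/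
theorem exists_two_charts (k : Type u) [Field k] [IsAlgClosed k] {C : Scheme.{u}}
    (c : C ⟶ Spec (CommRingCat.of k)) [IsProper c] [SmoothOfRelativeDimension 1 c] [IsIntegral C]
    (e : C) (he : IsClosed {e}) :
    ∃ (U V : C.Opens) (t : Γ(C, U)) (s : Γ(C, V)) (n : ℕ) (bU : Fin n → Γ(C, U))
      (bV : Fin n → Γ(C, V)),
      0 < n ∧ e ∈ U ∧ IsAffineOpen U ∧ IsAffineOpen V ∧ U ⊔ V = ⊤ ∧
      C.basicOpen t = U ⊓ V ∧ C.basicOpen s = U ⊓ V ∧
      resO (inf_le_left : U ⊓ V ≤ U) t * resO (inf_le_right : U ⊓ V ≤ V) s = 1 ∧
      Function.Bijective (fun f : Fin n → k[X] => ∑ i, (f i).eval₂ (strHom c U) t * bU i) ∧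
      Function.Bijective (fun f : Fin n → k[X] => ∑ i, (f i).eval₂ (strHom c V) s * bV i) := by
  obtain ⟨τ, hn, heU⟩ := H94.TC.exists_twoChart k c e he
  exact ⟨τ.U, τ.V, τ.t, τ.s, τ.n, τ.bU, τ.bV, hn, heU, τ.affU, τ.affV, τ.cover, τ.basic_t,
    τ.basic_s, τ.mul_eq_one, τ.basisU, τ.basisV⟩

/-- **`f_* O = O` universally** (in the form which is needed): for every `k`-scheme `T` a global
function on `C_T = C ×_k T` is determined by its restriction along the rigidifying section
`ε_T : T ⟶ C_T`. Hence rigidified line bundles have no automorphisms. File `H20Rig` (helper20). -/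
theorem functions_determined_on_section {k : Type u} [Field k] [IsAlgClosed k] {C : Scheme.{u}}
    (c : C ⟶ Spec (CommRingCat.of k)) [UniversallyClosed c] [QuasiSeparated c] [IsIntegral C]
    (ε : SchemeHomOver (𝟙 (Spec (CommRingCat.of k))) c) {T : Scheme.{u}}
    (t : T ⟶ Spec (CommRingCat.of k)) : Function.Injective (rigSection c t ε).appTop :=
  H20R.rigInj c ε t

/-! ## 2. Sheaves of modules -/

/-- **A line bundle from a cocycle.** Let `U i` be opens of a scheme `X` and `g i j` units on
`U i ∩ U j` with `g i j * g j l = g i l` on triple intersections. There is a sheaf of modules `M` with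
sections `s i` over `U i` which generate it (`f ↦ f s i` is a bijection `O(V) → M(V)` for all opens
`V ⊆ U i`) and which satisfy `s i = g i j s j`. Here `res` and `resO` are the restriction maps of
sections and of functions. File `H25Coc`. -/
theorem line_bundle_of_cocycle {X : Scheme.{u}} {ι : Type u} (U : ι → X.Opens)
    (g : ∀ i j : ι, (Γ(X, U i ⊓ U j))ˣ)
    (hg : ∀ (i j l : ι) (W : X.Opens) (hi : W ≤ U i) (hj : W ≤ U j) (hl : W ≤ U l),
      resO (le_inf hi hj) (g i j : Γ(X, U i ⊓ U j)) * resO (le_inf hj hl) (g j l : Γ(X, U j ⊓ U l)) =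
        resO (le_inf hi hl) (g i l : Γ(X, U i ⊓ U l))) :
    ∃ (M : X.Modules) (s : ∀ i : ι, Γ(M, U i)),
      (∀ i : ι, ∀ (V : X.Opens) (h : V ≤ U i),
        Function.Bijective (fun f : Γ(X, V) => f • res M h (s i))) ∧
      ∀ i j : ι, res M inf_le_left (s i) =
        (g i j : Γ(X, U i ⊓ U j)) • res M (inf_le_right : U i ⊓ U j ≤ U j) (s j) :=
  exists_cocycle_module U g hg

/-- **The Picard group of a scheme** `SPic X`: the isomorphism classes of invertible sheaves of
modules; two invertible modules have the same class iff they are isomorphic. The product is the tensor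
product of sheaves of modules, and `SPic` is a contravariant functor to commutative groups by
`SPic.map`. Files `H21Tens`, `H21Pic` (helper21). -/
theorem picard_class_eq_iff {X : Scheme.{u}} {M N : X.Modules} (hM : M.IsInvertible)
    (hN : N.IsInvertible) : SPic.mk M hM = SPic.mk N hN ↔ Nonempty (M ≅ N) :=
  SPic.mk_eq_mk

/-- **An invertible module from two affine charts.** Let `X = U ∪ V` with `U`, `V` affine and
`U ∩ V = D(t) = D(s)`, let `E0`, `E1` be invertible modules over `O(U)`, `O(V)` and `r0 : E0 → E01`,
`r1 : E1 → E01` maps to the same `O(U ∩ V)`-module which are localisations at `t`, at `s`. There is an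
invertible sheaf of modules with sections `E0`, `E1`, `E01` and these restriction maps. (Two charts: there
is no cocycle condition.) Steps: section 8 of `GuideJacobianGeometry`. File `H73TwoChart` (helper73). -/
theorem line_bundle_of_two_charts {X : Scheme.{u}} {U V : X.Opens} (hU : IsAffineOpen U)
    (hV : IsAffineOpen V) (hUV : U ⊔ V = ⊤) (t : Γ(X, U)) (s : Γ(X, V))
    (ht : X.basicOpen t = U ⊓ V) (hs : X.basicOpen s = U ⊓ V)
    {E0 E1 E01 : Type*} [AddCommGroup E0] [Module Γ(X, U) E0] [Module.Invertible Γ(X, U) E0]
    [AddCommGroup E1] [Module Γ(X, V) E1] [Module.Invertible Γ(X, V) E1]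
    [AddCommGroup E01] [Module Γ(X, U ⊓ V) E01] (r0 : E0 →+ E01) (r1 : E1 →+ E01)
    (r0_smul : ∀ (a : Γ(X, U)) (x : E0), r0 (a • x) = resO (inf_le_left : U ⊓ V ≤ U) a • r0 x)
    (r0_surj : ∀ y : E01, ∃ (n : ℕ) (x : E0), r0 x = (resO (inf_le_left : U ⊓ V ≤ U) t) ^ n • y)
    (r0_inj : ∀ x : E0, r0 x = 0 → ∃ n : ℕ, t ^ n • x = 0)
    (r1_smul : ∀ (a : Γ(X, V)) (x : E1), r1 (a • x) = resO (inf_le_right : U ⊓ V ≤ V) a • r1 x)
    (r1_surj : ∀ y : E01, ∃ (n : ℕ) (x : E1), r1 x = (resO (inf_le_right : U ⊓ V ≤ V) s) ^ n • y)
    (r1_inj : ∀ x : E1, r1 x = 0 → ∃ n : ℕ, s ^ n • x = 0) :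
    ∃ (M : X.Modules) (_ : M.IsInvertible) (a0 : Γ(M, U) ≃+ E0) (a1 : Γ(M, V) ≃+ E1)
      (a01 : Γ(M, U ⊓ V) ≃+ E01),
      (∀ (c : Γ(X, U)) (x : Γ(M, U)), a0 (c • x) = c • a0 x) ∧
      (∀ (c : Γ(X, V)) (x : Γ(M, V)), a1 (c • x) = c • a1 x) ∧
      (∀ (c : Γ(X, U ⊓ V)) (x : Γ(M, U ⊓ V)), a01 (c • x) = c • a01 x) ∧
      (∀ x : Γ(M, U), a01 (res M inf_le_left x) = r0 (a0 x)) ∧
      (∀ x : Γ(M, V), a01 (res M inf_le_right x) = r1 (a1 x)) :=
  H73.TwoChart.exists_module_of_charts hU hV hUV t s ht hs r0 r0_smul r0_surj r0_inj
    r1 r1_smul r1_surj r1_inj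

/-! ## 3. Lattices on the projective line

`P1Lat A M` (`H25Defs`): an `A`-module `M` with an automorphism `τ` and two submodules `P`, `Q` with
`τ P ⊆ P`, `τ⁻¹ Q ⊆ Q`, such that every element of `M` is brought into `P` by a power of `τ` and into
`Q` by a power of `τ⁻¹`. It is a quasi-coherent sheaf `E` on the projective line over `A`: `M`, `P`, `Q`
are the sections on the intersection and on the two charts. `L.Qm m = τ^m Q`,
`L.K m = P ∩ τ^m Q = H⁰(E(m))`, `M / (P + τ^m Q) = H¹(E(m))`. `L.FinProjP`, `L.FinProjQ`: `P`, `Q` are
finite projective over `A[τ]`, `A[τ⁻¹]` (existence of finite dual bases). `L.IsBC L' β`: `L'` is the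
base change of `L` along `β : M → M'`. -/

/-- **Horrocks' lemma**: if `M = P ⊕ Q` (that is `H⁰(E) = H¹(E) = 0`) then
`P = ⊕_{i ≥ 0} τ^i V` for `V = P ∩ τ Q = H⁰(E(1))`: every element of `P` is in exactly one way a finite
sum `∑ τ^i v_i` with `v_i ∈ V`. File `H10_P1Lat` (helper10). -/
theorem horrocks_P {A : Type u} [CommRing A] {M : Type v} [AddCommGroup M] [Module A M]
    (L : P1Lat A M) (h : IsCompl L.P L.Q) (x : M) (hx : x ∈ L.P) :
    ∃! f : ℕ →₀ L.K 1, (f.sum fun i v => (L.τ ^ i) (v : M)) = x := by
  obtain ⟨f, hf, huniq⟩ := (H10.Lat.sumP_bijective L h).existsUnique ⟨x, hx⟩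
  exact ⟨f, (H10.Lat.coe_sumP L f).symm.trans (congrArg Subtype.val hf),
    fun g hg => huniq g (Subtype.ext ((H10.Lat.coe_sumP L g).trans hg))⟩

/-- **Vanishing and finiteness**: for `m` large `H¹(E(m)) = 0` and `H⁰(E(m))` is a finite projective
`A`-module. No noetherian hypothesis. Files `H10_P1LatGen` (vanishing, generation by sections),
`H10_P1LatProj` (helper10). -/
theorem sections_finite_projective {A : Type u} [CommRing A] {M : Type v} [AddCommGroup M] [Module A M]
    (L : P1Lat A M) (hP : L.FinProjP) (hQ : L.FinProjQ) :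
    ∃ m : ℕ, ∀ n ≥ m, L.P ⊔ L.Qm n = ⊤ ∧ Module.Finite A (L.K n) ∧ Module.Projective A (L.K n) :=
  H10.Lat.exists_forall_finite_K L hP hQ

/-- **Cohomology and base change**: if `H¹(E(m)) = 0` then `H⁰(E(m))` commutes with every base change
`A → A'`. (`resBC` is the restriction `H⁰(E(m)) → H⁰(E'(m))` of `β`.) File `H10_P1LatBC` (helper10). -/
theorem sections_base_change {A : Type u} [CommRing A] {M : Type v} [AddCommGroup M] [Module A M]
    (L : P1Lat A M) {A' : Type u} [CommRing A'] [Algebra A A'] {M' : Type v}
    [AddCommGroup M'] [Module A' M'] [Module A M'] [IsScalarTower A A' M'] {L' : P1Lat A' M'}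
    {β : M →ₗ[A] M'} (hP : L.FinProjP) (hQ : L.FinProjQ) (hβ : L.IsBC L' β) {m : ℕ}
    (hm : L.P ⊔ L.Qm m = ⊤) :
    IsBaseChange A' (H10.Lat.resBC β (L.K m) (L'.K m) (fun _ hx => H10.Lat.IsBC_mem_K hβ m hx)) :=
  H10.Lat.IsBC_isBaseChange_K hP hQ hβ hm

/-- **Acyclicity is open**: if the fibre of `E` at a field valued point `A → K` is acyclic, then there
is `f ∈ A`, not zero in `K`, such that `E` is acyclic after every base change `A → A'` which inverts
`f`. File `H10_P1LatOpen` (helper10). -/
theorem acyclic_open {A : Type u} [CommRing A] {M : Type v} [AddCommGroup M] [Module A M]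
    (L : P1Lat A M) (hP : L.FinProjP) (hQ : L.FinProjQ) {K : Type u} [Field K] [Algebra A K]
    {MK : Type v} [AddCommGroup MK] [Module K MK] [Module A MK] [IsScalarTower A K MK]
    {LK : P1Lat K MK} {βK : M →ₗ[A] MK} (hβK : L.IsBC LK βK) (h : IsCompl LK.P LK.Q) :
    ∃ f : A, algebraMap A K f ≠ 0 ∧
      ∀ (A' : Type u) [CommRing A'] [Algebra A A'] (M' : Type v) [AddCommGroup M']
        [Module A' M'] [Module A M'] [IsScalarTower A A' M'] (L' : P1Lat A' M')
        (β : M →ₗ[A] M') (_ : L.IsBC L' β), IsUnit (algebraMap A A' f) → IsCompl L'.P L'.Q :=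
  H10.Lat.exists_isCompl_of_field L hP hQ hβK h

/-- **The Euler characteristic is locally constant**: there is a locally constant function `χ` on
`Spec A` such that for every field valued point `A → K` the fibre has finite dimensional `H⁰`, `H¹` and
`dim H⁰ - dim H¹` is the value of `χ` at the image point. File `H10_P1LatOpen` (helper10). -/
theorem euler_char_locally_constant {A : Type u} [CommRing A] {M : Type v} [AddCommGroup M] [Module A M]
    (L : P1Lat A M) (hP : L.FinProjP) (hQ : L.FinProjQ) :
    ∃ χ : PrimeSpectrum A → ℤ, IsLocallyConstant χ ∧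
      ∀ (K : Type u) [Field K] [Algebra A K] (MK : Type v) [AddCommGroup MK] [Module K MK]
        [Module A MK] [IsScalarTower A K MK] (LK : P1Lat K MK) (βK : M →ₗ[A] MK)
        (_ : L.IsBC LK βK),
        Module.Finite K (LK.P ⊓ LK.Q : Submodule K MK) ∧ Module.Finite K (MK ⧸ (LK.P ⊔ LK.Q)) ∧
        (Module.finrank K (LK.P ⊓ LK.Q : Submodule K MK) : ℤ) -
          Module.finrank K (MK ⧸ (LK.P ⊔ LK.Q)) =
          χ (PrimeSpectrum.comap (algebraMap A K) ⊥) :=
  H10.Lat.exists_chi L hP hQ

/-! ## 4. Line bundles as lattices

`τ : TwoChart y` is the data of `exists_two_charts` for a scheme `y : Y ⟶ Spec A`; `latOf τ L hL` is the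
lattice of a line bundle `L` on `Y`. `Sec y L W` is `Γ(W, L)` as an `A`-module, an element `x` has the
underlying section `x.s`. -/

/-- **The lattice of a line bundle** `L`: the module is `Γ(U ∩ V, L)`, the automorphism is multiplication
by the coordinate `t`, the submodule `P` (`Q`) consists of the sections over `U ∩ V` which extend to `U`
(to `V`). It is finite projective on both charts, because `O(U)` is finite free over `A[t]` and `L(U)` is
an invertible `O(U)`-module. File `H25Lat` (helper25; `H51Aff`, `H51Pb` by helper51). -/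
theorem lattice_of_line_bundle {A : Type u} [CommRing A] {Y : Scheme.{u}}
    {y : Y ⟶ Spec (CommRingCat.of A)} (τ : TwoChart y) {L : Y.Modules} (hL : L.IsInvertible) :
    (∀ x : Sec y L (τ.U ⊓ τ.V),
      ((latOf τ L hL).τ x).s = resO (inf_le_left : τ.U ⊓ τ.V ≤ τ.U) τ.t • x.s) ∧
    (∀ x : Sec y L (τ.U ⊓ τ.V),
      x ∈ (latOf τ L hL).P ↔ ∃ z : Γ(L, τ.U), res L inf_le_left z = x.s) ∧
    (∀ x : Sec y L (τ.U ⊓ τ.V),
      x ∈ (latOf τ L hL).Q ↔ ∃ z : Γ(L, τ.V), res L inf_le_right z = x.s) ∧
    (latOf τ L hL).FinProjP ∧ (latOf τ L hL).FinProjQ :=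
  ⟨fun _ => rfl, fun _ => Iff.rfl, fun _ => Iff.rfl, finProjP τ hL, finProjQ τ hL⟩

/-- **Euler characteristic of a line bundle** on a two-chart curve over a field:
`χ(L) = dim (L(U) ∩ L(V)) - dim L(U ∩ V) / (L(U) + L(V))`, both dimensions being finite. -/
theorem euler_char_of_line_bundle {K : Type u} [Field K] {Z : Scheme.{u}}
    {z : Z ⟶ Spec (CommRingCat.of K)} (τ : TwoChart z) {L : Z.Modules} (hL : L.IsInvertible) :
    (Module.Finite K ((latOf τ L hL).P ⊓ (latOf τ L hL).Q : Submodule K (Sec z L (τ.U ⊓ τ.V))) ∧
      Module.Finite K (Sec z L (τ.U ⊓ τ.V) ⧸ ((latOf τ L hL).P ⊔ (latOf τ L hL).Q))) ∧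
    chiL τ L hL =
      (Module.finrank K ((latOf τ L hL).P ⊓ (latOf τ L hL).Q :
        Submodule K (Sec z L (τ.U ⊓ τ.V))) : ℤ) -
      Module.finrank K (Sec z L (τ.U ⊓ τ.V) ⧸ ((latOf τ L hL).P ⊔ (latOf τ L hL).Q)) :=
  ⟨chiL_finite τ hL, rfl⟩

/-- **The Euler characteristic is constant in connected families**, over an arbitrary (not necessarily
noetherian or reduced) connected base `W`: `chiAt τ F s` is the Euler characteristic of the fibre of
the class `F ∈ Pic (C_W)` at the field valued point `s`. File `H25ChiLC`. -/
theorem euler_char_const {k : Type u} [Field k] {C : Scheme.{u}}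
    {c : C ⟶ Spec (CommRingCat.of k)} (τ : TwoChart c) {W : Scheme.{u}} {w : W ⟶ Spec (CommRingCat.of k)}
    [PreconnectedSpace W] (F : SPic (pullback c w)) {K K' : Type u} [Field K] [Field K']
    (s : Spec (CommRingCat.of K) ⟶ W) (s' : Spec (CommRingCat.of K') ⟶ W) :
    chiAt τ F s = chiAt τ F s' :=
  chiAt_const τ F s s'

/-! ## 5. Charts of the Picard functor -/

/-- **What a chart point is.** Let `B` be a `k`-algebra (for us `B = O(U)`) with an element `t`, an
exhausting filtration `F`, a `k`-point `e`, and noncommutative polynomials `p 1, …, p n` in letters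
`(b, j)`. A chart point over a `k`-algebra `A` is a pair `(ρ, λ)`: a homomorphism `ρ : B → M_n(A[X])` with
`ρ(t) = X` and entries of `ρ(b)` of degree at most `m` for `b ∈ F m`, and a row vector `λ ∈ A^n` with
`λ p_i(ρ) = e_i` (the letter `(b, j)` is replaced by the `j`-th coefficient matrix of `ρ(b)`) and
`λ ρ(b)(t(e)) = b(e) λ`. An acyclic line bundle `L` gives such a pair: `L(U) = V ⊗ A[t]` by Horrocks
(`horrocks_P`), `ρ` is the action of `O(U)`, `λ` is evaluation at the point `ε`, and the basis of `V` is
normalised by the `p_i`. File `H45Chart` (helper45), idea helper25. -/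
theorem chart_point {k B : Type u} [Field k] [CommRing B] [Algebra k B] {n : ℕ} (t : B)
    (F : ℕ → Submodule k B) (exh : ∀ b : B, ∃ m, b ∈ F m) (e : B →ₐ[k] k)
    (p : Fin n → FreeAlgebra k (B × ℕ)) {A : Type u} [CommRing A] [Algebra k A]
    (y : H45.ChartPt ⟨t, F, exh, e, p⟩ A) :
    y.ρ t = Matrix.diagonal (fun _ => X) ∧
    (∀ m, ∀ b ∈ F m, ∀ i j, (y.ρ b i j).natDegree ≤ m) ∧
    (∀ i, Matrix.vecMul y.lam (FreeAlgebra.lift k
      (fun x : B × ℕ => (y.ρ x.1).map fun q => q.coeff x.2) (p i)) = Pi.single i 1) ∧
    ∀ b, Matrix.vecMul y.lam ((y.ρ b).map fun q => q.eval (algebraMap k A (e t))) =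
      algebraMap k A (e b) • y.lam :=
  ⟨y.ρ_t, y.ρ_deg, y.lam_p, y.lam_e⟩

/-- **The chart ring.** For a finitely generated `B` the chart points over `A` (see `chart_point`) are
the `A`-points of a finitely generated `k`-algebra `R`: there is a universal chart point over `R`, and
every chart point over `A` comes from it by exactly one homomorphism `R → A`. Proof: generic matrices
modulo the equations. File `H45Chart` (helper45). -/
theorem chart_ring {k B : Type u} [Field k] [CommRing B] [Algebra k B] [Algebra.FiniteType k B]
    {n : ℕ} (t : B) (F : ℕ → Submodule k B) (exh : ∀ b : B, ∃ m, b ∈ F m) (e : B →ₐ[k] k)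
    (p : Fin n → FreeAlgebra k (B × ℕ)) :
    ∃ (R : Type u) (_ : CommRing R) (_ : Algebra k R), Algebra.FiniteType k R ∧
      ∃ x : H45.ChartPt ⟨t, F, exh, e, p⟩ R,
        ∀ (A : Type u) [CommRing A] [Algebra k A] (y : H45.ChartPt ⟨t, F, exh, e, p⟩ A),
          ∃! φ : R →ₐ[k] A, (∀ b i j, (x.ρ b i j).map (φ : R →+* A) = y.ρ b i j) ∧
            ∀ i, φ (x.lam i) = y.lam i := by
  refine ⟨_, _, _, H45.ChartRing.finiteType, H45.ChartRing.upt ⟨t, F, exh, e, p⟩, fun A _ _ y =>
    ⟨H45.ChartRing.lift y, ?_, fun ψ h => H45.ChartRing.eq_lift_of_map_upt (H45.ChartPt.ext' h.1 h.2)⟩⟩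
  constructor <;> intros <;> conv_rhs => rw [← H45.ChartRing.map_lift_upt y]
  all_goals rfl

/-- **Common cyclic words.** An `ActLat` is a lattice over a field `K` (as in section 3) with an action
of `B` (`t ∈ B` acts as `τ`, `B` preserves `P`, and `b ∈ F m` maps `Q` into `τ^m Q`) and a functional
`lam` on `P` with `lam (b x) = e(b) lam x` for a point `e : B → k`. Let it be acyclic (`M` is the direct
sum of `P` and `Q`) with `V = P ∩ τ Q` finite dimensional; then `b v = ∑_j τ^j m_{b,j} v` with the
coefficient operators `m_{b,j}` of `V`, and `kap p v = (lam (p_i v))_i` for noncommutative polynomials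
`p_i` in the `m_{b,j}`. For two such lattices with `dim V = dim V' = n`, `lam ≠ 0`, `lam' ≠ 0`, such that
the quotient of `P` (of `P'`) by every nonzero `B`-stable subspace is torsion over `K[τ]` (this holds for
a line bundle on an integral curve), and `k` infinite, there are `p_1, …, p_n` for which both coordinate
maps `kap p` are bijective. So two acyclic line bundles lie in a common chart. File `H65Cyc`
(helper65). -/
theorem common_words {k B : Type u} [Field k] [CommRing B] [Algebra k B] {t : B}
    {F : ℕ → Submodule k B} {e : B →ₐ[k] k} {K : Type u} [Field K] [Algebra k K] [Infinite k]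
    {M : Type v} [AddCommGroup M] [Module K M] [Module k M] [IsScalarTower k K M]
    (L : H25.ActLat t F e K M) (hc : IsCompl L.P L.Q)
    {M' : Type v} [AddCommGroup M'] [Module K M'] [Module k M'] [IsScalarTower k K M']
    (L' : H25.ActLat t F e K M') (hc' : IsCompl L'.P L'.Q)
    [Module.Finite K L.V] [Module.Finite K L'.V] {n : ℕ} (hn : Module.finrank K L.V = n)
    (hn' : Module.finrank K L'.V = n) (h1 : L.lam ≠ 0)
    (h2 : ∀ P' : Submodule K M, P' ≤ L.P → P' ≠ ⊥ → (∀ b, ∀ x ∈ P', L.act b x ∈ P') →
      ∀ x ∈ L.P, ∃ q : Polynomial K, q ≠ 0 ∧ Polynomial.aeval (L.τ : M →ₗ[K] M) q x ∈ P')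
    (h1' : L'.lam ≠ 0)
    (h2' : ∀ P' : Submodule K M', P' ≤ L'.P → P' ≠ ⊥ → (∀ b, ∀ x ∈ P', L'.act b x ∈ P') →
      ∀ x ∈ L'.P, ∃ q : Polynomial K, q ≠ 0 ∧
        Polynomial.aeval (L'.τ : M' →ₗ[K] M') q x ∈ P') :
    ∃ p : Fin n → FreeAlgebra k (B × ℕ), Function.Bijective (L.kap hc p) ∧
      Function.Bijective (L'.kap hc' p) :=
  H65.exists_common_kap_bijective L hc L' hc' hn hn' h1 h2 h1' h2'

/-- **Rank one over the moving curve from freeness over `A[t]`.** `k` algebraically closed, `B` a Dedekind
domain over `k`, free over `k[t]` with basis `β 1, …, β n`; `A` an arbitrary commutative `k`-algebra. Let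
`S` be a commutative ring with maps `α : A → S`, `γ : B → S` which is free over `A[t]` on the basis `β`
(that is `S = A ⊗ B`), and `M` an `S`-module which is free over `A[t]` of the same rank `n`. Then `M` is
invertible. Proof: over `A = k` the module is torsion free of rank one over `B`, so for every point `a`
of the line one vector `e` generates the fibre of `M` at `a`, that is the determinant of
`b ↦ b e` does not vanish at `a`; by the Nullstellensatz these determinants generate the unit ideal for
every `A` (reduce to `A` of finite type), which makes `M` invertible. Files `H98Inv`, `H98Fiber`,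
`H98Chart` (helper98). -/
theorem invertible_chart {k B A : Type*} [Field k] [IsAlgClosed k] [CommRing B] [IsDedekindDomain B]
    [Algebra k B] [CommRing A] [Algebra k A] {n : ℕ} (t : B) (β : Fin n → B)
    (hβ : Function.Bijective fun f : Fin n → k[X] => ∑ i, aeval t (f i) * β i)
    {S M : Type*} [CommRing S] [AddCommGroup M] [Module S M]
    (α : A →+* S) (γ : B →+* S) (hαγ : ∀ a : k, α (algebraMap k A a) = γ (algebraMap k B a))
    (hS : Function.Bijective fun f : Fin n → A[X] => ∑ i, (f i).eval₂ α (γ t) * γ (β i))
    (m : Fin n → M)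
    (hM : Function.Bijective fun f : Fin n → A[X] => ∑ i, (f i).eval₂ α (γ t) • m i) :
    Module.Invertible S M :=
  H98.invertible_chart t β hβ α γ hαγ hS m hM

/-- **The line bundle of a chart point.** `τ` a two-chart presentation of the smooth curve `C`,
`x = (ρ, λ)` a chart point over `A` (with `B = O(U)`, its coordinate `t`, the filtration by pole order
at infinity and the point `ε`; `τ.B0` is `O(U)` as a `k`-algebra). There is a rigidified line bundle `M`
on `C_A` with `M(U_A) = A[X]^n`, on which functions `b` on `U` act by `ρ(b)`. Proof: the module on the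
second chart is the image of `A[Y]^n`, `Y^j e_i ↦ t^(-j-1) e_i`; both modules are invertible by
`invertible_chart`; two affine charts glue without cocycle condition. (The library theorem gives also the
module over `V` and the rigidification.) Files `H74R4a`, `H74R4b`, `H74R4` (helper74), `H73TwoChart`
(helper73). -/
theorem line_bundle_of_matrices {k : Type u} [Field k] [IsAlgClosed k] {C : Scheme.{u}}
    {c : C ⟶ Spec (CommRingCat.of k)} [IsIntegral C] [SmoothOfRelativeDimension 1 c]
    {ε : SchemeHomOver (𝟙 (Spec (CommRingCat.of k))) c} (τ : TwoChart c) (hε : ε.1 ⁻¹ᵁ τ.U = ⊤)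
    (hn : 0 < τ.n) {A : Type u} [CommRing A] [Algebra k A]
    (p : Fin τ.n → FreeAlgebra k (τ.B0 × ℕ)) (x : H45.ChartPt (τ.chartData hε p) A) :
    ∃ (M : RigidifiedLineBundle c ε (spm k A)) (θ : (Fin τ.n → A[X]) ≃+ Γ(M.L, τ.UA A)),
      (∀ (a : A) (v : Fin τ.n → A[X]),
        θ (Polynomial.C a • v) = strHom (pullback.snd c (spm k A)) (τ.UA A) a • θ v) ∧
      ∀ (b : τ.B0) (v : Fin τ.n → A[X]),
        θ (Matrix.mulVec (x.ρ b) v) = (pullback.fst c (spm k A)).app τ.U (τ.fn b) • θ v := by
  obtain ⟨M, ⟨R⟩⟩ := H74.R4.exists_rep' τ hε p hn x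
  exact ⟨M, R.θ0, R.θ0_C, R.θ0_B⟩

/-- **What a chart of the Picard functor is** (`PicChart c ε`): a `k`-scheme `ch.X` with a rigidified
line bundle `ch.L` on `C_X`, and for every rigidified line bundle `M` on `C_T` an open subset
`ch.locus t M` of `T`, such that a morphism `g : T' → T` factors through this open subset iff the pull
back of `M` to `C_T'` is isomorphic to the pull back of `ch.L` along some morphism `T' → X`; this
morphism is unique. So `X` represents an open subfunctor of the rigidified Picard functor. Files
`H25Defs`, `H2PicS1`, `H2PicBase`, `H2PicChart` (charts from affine test schemes; helper2). -/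
theorem picard_chart {k : Type u} [Field k] {C : Scheme.{u}}
    {c : C ⟶ Spec (CommRingCat.of k)} {ε : SchemeHomOver (𝟙 (Spec (CommRingCat.of k))) c}
    (ch : PicChart c ε) {T : Scheme.{u}} (t : T ⟶ Spec (CommRingCat.of k)) :
    (∀ (M : RigidifiedLineBundle c ε t) {T' : Scheme.{u}} (t' : T' ⟶ Spec (CommRingCat.of k))
      (g : SchemeHomOver t' t),
      (∃ h : SchemeHomOver t' ch.x, Nonempty ((ch.L.pullbackAlong h).L ≅ (M.pullbackAlong g).L)) ↔
        Set.range g.1.base ⊆ ch.locus t M) ∧
    ∀ h h' : SchemeHomOver t ch.x,
      Nonempty ((ch.L.pullbackAlong h).L ≅ (ch.L.pullbackAlong h').L) → h = h' :=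
  ⟨fun M _ t' g => ch.locus_spec t M t' g, fun h h' => ch.mono t h h'⟩

/-- **The base charts.** On a two-chart curve with `ε` in `U` there is a family of affine, finitely
presented charts of the Picard functor such that (a) bundles in a chart are acyclic (`Acyc τ L`:
`L(U ∩ V) = L(U) ⊕ L(V)`), (b) over a field any two acyclic rigidified bundles lie in a common chart.
(`RigInj c ε` is the conclusion of `functions_determined_on_section` for all `T`.) Proof: an acyclic bundle on
which the coordinate map is bijective (an open condition) is the same as a chart point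
(`lattice_of_line_bundle`, `horrocks_P` in one direction, `line_bundle_of_matrices` in the other), and
chart points are represented by `chart_ring`; (b) is `common_words`. Details: `GuideJacobianCharts`.
Files `H2G1a` to `H2G3`, `H2Fld`, `H2Chart`, `H2Base` (helper2), `H45Chart`, `H65Cyc`, `H98Chart`,
`H98ChartTensor`, `H74R4`, `H10_LatOf`, `H10_RRInv`, `H10_RRDim` (dimensions over a field, helper10). -/
theorem exists_base_charts {k : Type u} [Field k] {C : Scheme.{u}}
    {c : C ⟶ Spec (CommRingCat.of k)} {ε : SchemeHomOver (𝟙 (Spec (CommRingCat.of k))) c}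
    [IsAlgClosed k] [IsIntegral C] [SmoothOfRelativeDimension 1 c]
    (hinj : RigInj c ε) (τ : TwoChart c) (hε : ε.1 ⁻¹ᵁ τ.U = ⊤) (hn : 0 < τ.n) :
    ∃ (I : Type u) (ch : I → PicChart c ε),
      (∀ i, IsAffine (ch i).X ∧ LocallyOfFinitePresentation (ch i).x) ∧
      (∀ (i : I) (A : Type u) [CommRing A] [Algebra k A] (M : RigidifiedLineBundle c ε (spm k A)),
        (ch i).locus (spm k A) M = ⊤ → Acyc τ M.L) ∧
      ∀ (K : Type u) [Field K] [Algebra k K] (M M' : RigidifiedLineBundle c ε (spm k K)),
        Acyc τ M.L → Acyc τ M'.L →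
          ∃ i, (ch i).locus (spm k K) M = ⊤ ∧ (ch i).locus (spm k K) M' = ⊤ :=
  H2G2.exists_baseCharts hinj τ hε hn

/-! ## 6. Glueing -/

/-- **Glueing of charts.** Every family of charts of the Picard functor glues to a `k`-scheme `P` with
a rigidified bundle `𝓛` on `C_P`: the chart schemes are open in `P` and cover it, `𝓛` restricts to the
bundles of the charts, a bundle `M` on `C_T` is a pull back of `𝓛` iff its loci in the charts cover `T`,
and then in only one way. Proof: rigidified bundles have no automorphisms
(`functions_determined_on_section`; this is the hypothesis `hinj`), so bundles which agree locally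
agree, and local pull backs glue (steps: section 8 of `GuideSheaves`, section 8 of
`GuideJacobianSteps`). The Jacobian is glued from the base charts of section 5 twisted by the classes
`ν_j` of section 7 (`H25Fin1`). File `H25Spine` (with `H25RelGlue`, `H25Rig`, `H25S12`). -/
theorem glue_charts {k : Type u} [Field k] {C : Scheme.{u}}
    {c : C ⟶ Spec (CommRingCat.of k)} {ε : SchemeHomOver (𝟙 (Spec (CommRingCat.of k))) c}
    (hinj : RigInj c ε) {ι : Type u} (ch : ι → PicChart c ε) :
    ∃ (P : Scheme.{u}) (p : P ⟶ Spec (CommRingCat.of k)) (𝓛 : RigidifiedLineBundle c ε p)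
      (j : ∀ i, SchemeHomOver (ch i).x p),
      (∀ i, IsOpenImmersion (j i).1) ∧ (∀ y : P, ∃ i, y ∈ Set.range (j i).1.base) ∧
      (∀ i, Nonempty ((𝓛.pullbackAlong (j i)).L ≅ (ch i).L.L)) ∧
      (∀ {T : Scheme.{u}} (t : T ⟶ Spec (CommRingCat.of k)) (M : RigidifiedLineBundle c ε t),
        ⨆ i, (ch i).locus t M = ⊤ ↔
          ∃ g : SchemeHomOver t p, Nonempty ((𝓛.pullbackAlong g).L ≅ M.L)) ∧
      ∀ {T : Scheme.{u}} (t : T ⟶ Spec (CommRingCat.of k)) (g g' : SchemeHomOver t p),
        Nonempty ((𝓛.pullbackAlong g).L ≅ (𝓛.pullbackAlong g').L) → g = g' :=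
  exists_glued hinj ch

/-! ## 7. Twisting classes

For a field `K` and `z : Spec K ⟶ Spec k`, `SPic (pullback c z)` is the Picard group of `C_K`, and
`chiP τ z α` is the Euler characteristic of the class `α`, computed with the two charts of `τ` pulled back
to `C_K` as in `euler_char_of_line_bundle`. Details: `GuideTwists`. -/

/-- **`O(-x)` lowers the Euler characteristic by one.** For a `K`-valued point `x` of `C` let
`dcl x ∈ Pic (C_K)` be the class of `O(-x)` (the graph of a morphism to a smooth curve is a Cartier
divisor: files `H20Tw*`, helper20). Then `χ(α ⊗ O(-x)) = χ(α) - 1`. File `H25Eff3`. -/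
theorem euler_char_minus_point {k : Type u} [Field k] [IsAlgClosed k] {C : Scheme.{u}}
    {c : C ⟶ Spec (CommRingCat.of k)} [IsSeparated c] [SmoothOfRelativeDimension 1 c] [IsIntegral C]
    (τ : TwoChart c) {K : Type u} [Field K]
    {z : Spec (CommRingCat.of K) ⟶ Spec (CommRingCat.of k)} (x : SchemeHomOver z c)
    (α : SPic (pullback c z)) : chiP τ z (α * dcl x) = chiP τ z α - 1 :=
  chiP_mul_dcl τ x α

/-- **Twisting classes** (they replace the theorem of Riemann-Roch). There is a family of classes
`ν_j ∈ Pic C`, each shifting all Euler characteristics by a constant, such that for every field `K` over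
`k` any two classes `α`, `β ∈ Pic (C_K)` with the same Euler characteristic become acyclic after
multiplication by one and the same `ν_j`. (`bcl z ν` is the pull back of `ν` to `C_K`;
`AcycP τ z α`: the class `α` is acyclic.) The `ν_j` are large multiples of infinity minus general
rational points: each general point lowers `h⁰` by one as long as it is positive, and `h¹` stays zero.
File `H20K3d` (helper20). -/
theorem exists_twisting_classes {k : Type u} [Field k] [IsAlgClosed k] {C : Scheme.{u}}
    {c : C ⟶ Spec (CommRingCat.of k)} [IsProper c] [SmoothOfRelativeDimension 1 c] [IsIntegral C]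
    (τ : TwoChart c) :
    ∃ (J : Type u) (ν : J → SPic C),
      (∀ j, ∃ e : ℤ, ∀ (K : Type u) [Field K]
        (z : Spec (CommRingCat.of K) ⟶ Spec (CommRingCat.of k)) (α : SPic (pullback c z)),
          chiP τ z (α * bcl z (ν j)) = chiP τ z α + e) ∧
      ∀ (K : Type u) [Field K] (z : Spec (CommRingCat.of K) ⟶ Spec (CommRingCat.of k))
        (α β : SPic (pullback c z)), chiP τ z α = chiP τ z β →
          ∃ j, AcycP τ z (α * bcl z (ν j)) ∧ AcycP τ z (β * bcl z (ν j)) :=
  H20T.exists_twists τ

/-- **Effective classes.** A class `α` with `χ(α) > 0` has a nonzero section, and such a section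
vanishes exactly in `χ(α) - χ(O)` points, with multiplicities: `α = O(x_1 + … + x_d)`. (On each chart the
section generates a submodule of finite codimension: `H10_RRPoints`, helper10.) File `H25Eff4`. -/
theorem effective_classes {k : Type u} [Field k] [IsAlgClosed k] {C : Scheme.{u}}
    {c : C ⟶ Spec (CommRingCat.of k)} [IsSeparated c] [SmoothOfRelativeDimension 1 c] [IsIntegral C]
    (τ : TwoChart c) (α : SPic (pullback c (𝟙 (Spec (CommRingCat.of k)))))
    (h : 0 < chiP τ (𝟙 (Spec (CommRingCat.of k))) α) :
    ∃ l : List (SchemeHomOver (𝟙 (Spec (CommRingCat.of k))) c),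
      α * (l.map dcl).prod = 1 ∧
      (l.length : ℤ) = chiP τ (𝟙 (Spec (CommRingCat.of k))) α -
        chiP τ (𝟙 (Spec (CommRingCat.of k))) 1 :=
  exists_list_of_chi τ α h

/-- **A surjective family.** There is a proper integral `k`-scheme `Y` (a power `C^d`) and a class `F`
on `C_Y` such that every class on `C` with the Euler characteristic of `O` is a fibre of `F` at a
`k`-point of `Y`: the fibre of `F` at `(x_1, …, x_d)` is `O(x_1 + … + x_d - d ε)`, and
`χ(O) + d > 0`, so that `effective_classes` applies to `α(d ε)`. File `H25Eff4`. -/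
theorem surjective_family {k : Type u} [Field k] [IsAlgClosed k] {C : Scheme.{u}}
    {c : C ⟶ Spec (CommRingCat.of k)} [IsProper c] [SmoothOfRelativeDimension 1 c] [IsIntegral C]
    (τ : TwoChart c) (ε : SchemeHomOver (𝟙 (Spec (CommRingCat.of k))) c) :
    ∃ (Y : Scheme.{u}) (y : Y ⟶ Spec (CommRingCat.of k)) (_ : IsProper y) (_ : IsIntegral Y)
      (F : SPic (pullback c y)), ∀ α : SPic (pullback c (𝟙 (Spec (CommRingCat.of k)))),
        chiP τ (𝟙 _) α = chiP τ (𝟙 _) 1 →
          ∃ s : SchemeHomOver (𝟙 (Spec (CommRingCat.of k))) y, SPic.map (baseChangeSnd c s) F = α :=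
  exists_surj_family τ ε

/-! ## 8. Geometry of the Jacobian -/

/-- **Invertible modules lift along nilpotent thickenings.** `R → R'` a surjection of commutative rings
with nilpotent kernel: every invertible `R'`-module `P` is the base change of an invertible `R`-module
`F`. Proof: lift the idempotent matrix of a projective module; a map of projective modules which is
bijective modulo a nilpotent ideal is bijective. File `H74Lift` (helper74). -/
theorem lift_invertible_module {R R' : Type u} [CommRing R] [CommRing R'] [Algebra R R']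
    (hs : Function.Surjective (algebraMap R R')) (hnil : IsNilpotent (RingHom.ker (algebraMap R R')))
    (P : Type u) [AddCommGroup P] [Module R P] [Module R' P] [IsScalarTower R R' P]
    [Module.Invertible R' P] :
    ∃ (F : Type u) (_ : AddCommGroup F) (_ : Module R F) (_ : Module.Invertible R F)
      (f : F →ₗ[R] P), IsBaseChange R' f := by
  obtain ⟨F, i1, i2, i3, f, hf⟩ := H74.Lift.exists_lift_invertible hs hnil P
  exact ⟨F, i1, i2, i3, f, H74.Lift.isBaseChange_of_isRed hs hf⟩

/-- **Line bundles on a two-chart curve lift along nilpotent thickenings**: there is no obstruction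
because there are no triple intersections. `A → B` a surjection of rings with nilpotent kernel.
Files `H74Lift`, `H74LiftGlue`, `H74Sm2`, `H74Sm3` (helper74). -/
theorem lift_line_bundle {k : Type u} [Field k] {C : Scheme.{u}} {c : C ⟶ Spec (CommRingCat.of k)}
    {ε : SchemeHomOver (𝟙 (Spec (CommRingCat.of k))) c} (τ : TwoChart c) {A B : CommRingCat.{u}}
    (φ : A ⟶ B) (hφ : Function.Surjective φ.hom) (hnil : IsNilpotent (RingHom.ker φ.hom))
    (t : Spec A ⟶ Spec (CommRingCat.of k)) (N : RigidifiedLineBundle c ε (Spec.map φ ≫ t)) :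
    ∃ M : RigidifiedLineBundle c ε t,
      Nonempty ((M.pullbackAlong ⟨Spec.map φ, rfl⟩).L ≅ N.L) :=
  H74.Sm.exists_lift_rigidified τ φ hφ hnil t N

/-- **Charts are smooth**: by `lift_line_bundle` every morphism `Spec (A / I) → X`, `I² = 0`, to a chart
extends to `Spec A`, and a scheme which is locally of finite presentation and has this lifting property is
smooth. Files `H74Sm1`, `H74Sm3` (helper74). -/
theorem chart_smooth {k : Type u} [Field k] {C : Scheme.{u}} {c : C ⟶ Spec (CommRingCat.of k)}
    {ε : SchemeHomOver (𝟙 (Spec (CommRingCat.of k))) c} (τ : TwoChart c) (ch : PicChart c ε)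
    [LocallyOfFinitePresentation ch.x] : Smooth ch.x :=
  H74.Sm.smooth_of_picChart τ ch

/-- **Separatedness on points**: a scheme locally of finite type over an algebraically closed field with
separated opens `X i` is separated if any two of its rational points lie in a common `X i`.
File `H74F1` (helper74). -/
theorem separated_of_points {k : Type u} [Field k] [IsAlgClosed k] {P : Scheme.{u}}
    (p : P ⟶ Spec (CommRingCat.of k)) [LocallyOfFiniteType p] {ι : Type*} (X : ι → Scheme.{u})
    (j : ∀ i, X i ⟶ P) [∀ i, IsOpenImmersion (j i)] (hsep : ∀ i, IsSeparated (j i ≫ p))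
    (hpt : ∀ x y : Spec (CommRingCat.of k) ⟶ P, x ≫ p = 𝟙 _ → y ≫ p = 𝟙 _ →
      ∃ i, Set.range x.base ⊆ Set.range (j i).base ∧ Set.range y.base ⊆ Set.range (j i).base) :
    IsSeparated p :=
  H74.F1.isSeparated_of_kPoints p X j hsep hpt

/-- **Properness from a surjection**: if `f : Y → P` is surjective, `Y` universally closed over `S`,
`P` separated and locally of finite type over `S`, then `P` is proper over `S`. Used with `Y = C^d`.
File `H74F1` (helper74). -/
theorem proper_of_surjective {Y P S : Scheme.{u}} (f : Y ⟶ P) (p : P ⟶ S) [Surjective f]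
    [UniversallyClosed (f ≫ p)] [IsSeparated p] [LocallyOfFiniteType p] : IsProper p :=
  H74.F1.isProper_of_surjective f p

/-- **Algebraic equivalence and Euler characteristic.** For a suitable two-chart presentation `τ` of
`C`: the geometric fibres of a rigidified bundle `M` on `C_T` are all algebraically equivalent to zero
(see `fibrewise_alg_equiv_zero_iff`) iff all fibres at field valued points have the Euler characteristic
of `O`. (`cl M` is the class of `M`.) One half is `euler_char_const`. For the other one the map
`Y → J` given by the family of `surjective_family` is surjective, so the point of `J` which classifies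
the fibre `M_s` lifts to `Y`; the geometrically integral base `T'` is `Y_K`, and the family over `Y_K`
joins the trivial bundle to `M_s`. Files `H25Fin1` to `H25Fin3`, `H74F1Int`. -/
theorem alg_equiv_iff_euler_char (k : Type u) [Field k] [IsAlgClosed k] {C : Scheme.{u}}
    (c : C ⟶ Spec (CommRingCat.of k)) [IsProper c] [SmoothOfRelativeDimension 1 c] [IsIntegral C]
    (ε : SchemeHomOver (𝟙 (Spec (CommRingCat.of k))) c) :
    ∃ τ : TwoChart c, ∀ {T : Scheme.{u}} (t : T ⟶ Spec (CommRingCat.of k))
      (M : RigidifiedLineBundle c ε t),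
      FibrewiseAlgEquivZero M ↔
        ∀ (K : Type u) [Field K] (s : Spec (CommRingCat.of K) ⟶ T),
          chiAt τ (cl M) s = chiP τ (𝟙 (Spec (CommRingCat.of k))) 1 := by
  obtain ⟨D⟩ := exists_finData c ε (fun τ => H20T.exists_twists τ)
  obtain ⟨J⟩ := exists_jac D
  exact ⟨D.τ, fun t M => ⟨good_of_fibrewise D.τ M, fibrewise_of_good J M⟩⟩

/-- **The Jacobian** (statement S25 written out). Let `k` be algebraically closed, `c : C ⟶ Spec k`
proper and smooth of relative dimension one, `C` integral, `ε` a rational point. There are a smooth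
proper geometrically connected `k`-scheme `J`, a rational point `0` of `J` and a line bundle `𝓛` on
`C_J` rigidified along `ε`, with fibres algebraically equivalent to zero, such that every rigidified
bundle `M` on `C_T` with fibres algebraically equivalent to zero is the pull back of `𝓛` along exactly
one morphism `T → J`; `𝓛` is trivial over `0`. -/
theorem jacobian (k : Type u) [Field k] [IsAlgClosed k] {C : Scheme.{u}}
    (c : C ⟶ Spec (CommRingCat.of k)) [IsProper c] [SmoothOfRelativeDimension 1 c] [IsIntegral C]
    (ε : SchemeHomOver (𝟙 (Spec (CommRingCat.of k))) c) :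
    ∃ (J : Scheme.{u}) (j : J ⟶ Spec (CommRingCat.of k)) (zero : Spec (CommRingCat.of k) ⟶ J)
      (hzero : zero ≫ j = 𝟙 _) (𝓛 : RigidifiedLineBundle c ε j),
      Smooth j ∧ IsProper j ∧ GeometricallyConnected j ∧ FibrewiseAlgEquivZero 𝓛 ∧
      (∀ {T : Scheme.{u}} (t : T ⟶ Spec (CommRingCat.of k)) (M : RigidifiedLineBundle c ε t),
        FibrewiseAlgEquivZero M →
          ∃! g : SchemeHomOver t j, Nonempty ((𝓛.pullbackAlong g).L ≅ M.L)) ∧
      Nonempty ((𝓛.pullbackAlong ⟨zero, hzero⟩).L ≅
        (RigidifiedLineBundle.unit (c := c) (ε := ε) (𝟙 _)).L) := by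
  obtain ⟨D, ⟨h⟩, h1, h2, h3⟩ := S25.result k c ε
  exact ⟨D.P, D.toBase, D.zeroSection, D.zeroSection_toBase, h.poincare, h1, h2, h3,
    h.poincare_mem, fun t M hM => h.univ t M hM, h.zero⟩

end Fermat.Agent.Guide.Jacobians
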