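import Fermat.Agent.H18CRed

/-!
# The Hecke relation on the reduction of a Kummer function (helper17)

`A` is a place above `p`, `p ∤ M`, and `g` is the reduction of a (scaled) function `u` of
`X₀(M p)` whose divisor is `p D`, the class of `D` being an eigenclass of `T_ℓ`.  Then
`T_ℓ (div g) = a div g + p div h` on `X₀(M)` in characteristic `p`.
-/

set_option autoImplicit false
set_option linter.unusedSectionVars false

noncomputable section

open AlgebraicCurve ModularCurve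

namespace Fermat.Agent.H17C

open Fermat.Agent.H67 Fermat.Agent.H38.Mz Fermat.Agent.H23 Fermat.Agent.H17 Fermat.Agent.H19
open Fermat.Agent.H18.CR

local notation "Qb" => AlgebraicClosure ℚ

section Hecke

variable {A : ValuationSubring Qb}

local notation "kA" => IsLocalRing.ResidueField A
local notation "πA" => IsLocalRing.residue A

/-- **The Hecke correspondence in characteristic `p`**, explicitly: `T_ℓ = α_* β^*` commutes with
the reduction of divisors. -/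
theorem mapDomain_hecke (N : ℕ) [NeZero N] {p : ℕ} (hp : p.Prime) (hpN : ¬ p ∣ N)
    (hA : A.LiesOverPrime p) {ℓ : ℕ} [NeZero ℓ] (hℓ : ℓ.Prime) (hℓp : ℓ ≠ p)
    [IsAlgClosed kA] [H94.FunField kA (modularFunctionFieldFullC kA N)]
    [H94.FunField kA (modularFunctionFieldFullC kA (N * ℓ))]
    (hαb : (alphaC kA N ℓ).toRingHom.IsIntegral) (hβb : (betaC kA N ℓ).toRingHom.IsIntegral)
    (T : Setup A N (H42.degLE_place hp hA hpN)) :
    ∃ (TD : Divisor.degZero (K := Qb) (F := FB Qb N) →+ Divisor.degZero (K := Qb) (F := FB Qb N)),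
      (∀ D, Pic0.mk (TD D) = heckeOperatorBar N ⟨ℓ, hℓ⟩ (Pic0.mk D : Pic0 Qb (FB Qb N))) ∧
      (∀ D, Finsupp.mapDomain T.S.r (TD D : Divisor Qb (FB Qb N)) =
        Divisor.correspondence (betaC kA N ℓ) (alphaC kA N ℓ) hβb hαb
          (Finsupp.mapDomain T.S.r (D : Divisor Qb (FB Qb N)))) ∧
      ∀ (G : FB Qb N), G ≠ 0 → ∀ D : Divisor.degZero (K := Qb) (F := FB Qb N),
        (∀ v, (D : Divisor Qb (FB Qb N)) v = v.ord G) →
          ∀ v, (TD D : Divisor Qb (FB Qb N)) v = v.ord (Th N ℓ G) := by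
  have : Fact ℓ.Prime := ⟨hℓ⟩
  have hpNℓ : ¬ p ∣ N * ℓ := by
    rw [hp.dvd_mul]
    rintro (h | h)
    · exact hpN h
    · exact hℓp ((Nat.prime_dvd_prime_iff_eq hp hℓ).mp h).symm
  have hdeg := H42.degLE_place hp hA hpN
  have hdeg' := H42.degLE_place hp hA hpNℓ
  obtain ⟨T'⟩ := exists_setup (N * ℓ) hp hpNℓ A hA
  have := T'.S.pdF
  have := T'.S.pdE
  have hcast : ((N * ℓ : ℕ) : kA) ≠ 0 := H42.natCast_ne_zero_of_liesOver hp hA hpNℓ
  have hpos : 0 < dedekindPsi N := H67.dedekindPsi_pos N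
  have hrα : finrankAlong Qb (heckeAlphaBar Qb N ℓ) ≤ finrankAlong kA (alphaC kA N ℓ) := by
    have h1 := finrank_alphaC kA N ℓ hcast
    have h2 := H67.relfinrank_full_mul (H67.degreeFact Qb) N ℓ
    rw [← H67.finrank_alpha, ← h1] at h2
    exact (Nat.eq_of_mul_eq_mul_left hpos h2).le
  have hrβ : finrankAlong Qb (heckeBetaBar Qb N ℓ) ≤ finrankAlong kA (betaC kA N ℓ) := by
    have h1 := finrank_betaC kA N ℓ hcast
    have h2 := H9.psi_mul_finrank_beta (L := Qb) N ℓ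
    rw [← h1] at h2
    exact (Nat.eq_of_mul_eq_mul_left hpos h2).le
  have Δα := degMap_of hdeg hdeg' T.S T'.S T.hS T'.hS (heckeAlphaBar Qb N ℓ)
    (alphaC kA N ℓ) (fun b hb => alpha_mem hdeg hdeg' hb)
    (fun b => alpha_red hdeg hdeg' b) hrα
  have Δβ := degMap_of hdeg hdeg' T.S T'.S T.hS T'.hS (heckeBetaBar Qb N ℓ)
    (betaC kA N ℓ) (fun b hb => beta_mem hdeg hdeg' hb)
    (fun b => beta_red hdeg hdeg' b) hrβ
  obtain ⟨hα, hβ, hPD, hfin, hFI, hNF⟩ := H67.heckeInputsAlong_of_degreeFact (H67.degreeFact Qb) N ℓ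
  refine ⟨Pic0.degZeroCorrespondence (heckeBetaBar Qb N ℓ) (heckeAlphaBar Qb N ℓ) hβ hα hFI,
    ?_, ?_, ?_⟩
  · intro D
    have hop : heckeOperatorBar N ⟨ℓ, hℓ⟩ (Pic0.mk D) =
        heckePic0Bar hα hβ hFI hfin hNF (Pic0.mk D) := by
      exact (heckeOperatorBar_apply N (⟨ℓ, hℓ⟩ : Nat.Primes) _).trans
        (DFunLike.congr_fun (heckeOperatorAlong_eq hα hβ hFI hfin hNF) _)
    rw [hop]
    rfl
  · intro D
    rw [Pic0.coe_degZeroCorrespondence, Divisor.correspondence_apply, Divisor.correspondence_apply]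
    have h2 := Δα.push (Divisor.pullbackAlong (heckeBetaBar Qb N ℓ) hβ (D : Divisor _ _))
    have h3 := Δβ.pull (D : Divisor _ _)
    rw [h3] at h2
    exact h2
  · intro G hG D hD v
    exact H60.correspondence_apply_eq_ord (heckeBetaBar Qb N ℓ) (heckeAlphaBar Qb N ℓ) hβ hα
      hfin hNF hG hD v

/-- **The divisor of the Hecke transform in characteristic `p`.**  If `tb` is the Hecke transform
of `g` on `q`-expansions, then `T_ℓ (div g) = div tb`. -/
theorem correspondence_div {M p : ℕ} [NeZero M] (hp : p.Prime) (hpM : ¬ p ∣ M)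
    (hA : A.LiesOverPrime p) {ℓ : ℕ} [NeZero ℓ] (hℓ : ℓ.Prime) (hℓM : ¬ ℓ ∣ M) (hℓp : ℓ ≠ p)
    [IsAlgClosed kA] [H94.FunField kA (modularFunctionFieldFullC kA M)]
    [H94.FunField kA (modularFunctionFieldFullC kA (M * ℓ))]
    (hαb : (alphaC kA M ℓ).toRingHom.IsIntegral) (hβb : (betaC kA M ℓ).toRingHom.IsIntegral)
    {g tb : modularFunctionFieldFullC kA M} (hg : g ≠ 0) {ζ : Aˣ}
    (hζ : IsPrimitiveRoot (Units.map (A.subtype : A →* Qb) ζ) ℓ)
    (htb : qExpand kA ℓ (tb : LaurentSeries kA) =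
          H60.normSeries ℓ (Units.map (πA : A →* kA) ζ) (g : LaurentSeries kA))
    {D : Divisor kA (modularFunctionFieldFullC kA M)} (hD : ∀ w, D w = w.ord g)
    (w : Place kA (modularFunctionFieldFullC kA M)) :
    Divisor.correspondence (betaC kA M ℓ) (alphaC kA M ℓ) hβb hαb D w = w.ord tb := by
  classical
  obtain ⟨T⟩ := exists_setup M hp hpM A hA
  have := T.S.pdF
  have := T.S.pdE
  have hg' : (g : LaurentSeries kA) ≠ 0 := fun h => hg (Subtype.ext h)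
  obtain ⟨G, hG⟩ := exists_red_eq M A g.2
  have hG0 : G ≠ 0 := by
    rintro rfl
    exact hg' (hG.unique Red.zero)
  obtain ⟨DG, hDG, hDG0⟩ := T.S.pdF.exists_divisor G hG0
  have hmapG : Finsupp.mapDomain T.S.r DG = D := by
    ext v
    rw [mapDomain_div_of_red _ T.S T.hS hG0 hDG hg hG v, hD]
  obtain ⟨TD, -, hTb, hTdiv⟩ := mapDomain_hecke M hp hpM hA hℓ hℓp hαb hβb T
  obtain ⟨tb', htb'0, htb', htb'q⟩ := red_Th hℓ hℓM hζ hg' hG
  have htt : tb' = (tb : LaurentSeries kA) := by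
    apply qExpand_inj ℓ
    rw [htb'q, htb]
  rw [htt] at htb' htb'0
  have htb0 : tb ≠ 0 := fun h => htb'0 (congrArg Subtype.val h)
  have h1 := hTb ⟨DG, hDG0⟩
  rw [hmapG] at h1
  rw [← h1]
  exact mapDomain_div_of_red _ T.S T.hS (Th_ne_zero hG0) (hTdiv G hG0 ⟨DG, hDG0⟩ hDG) htb0 htb' w

/-- **Hecke comparison for the reduction of a Kummer function of level `M p`**: the Hecke transform
of the reduction `g` is `g ^ a` up to a `p`-th power. -/
theorem exists_hecke_transform {M p : ℕ} [NeZero M] [NeZero (M * p)] (hp : p.Prime)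
    (hpM : ¬ p ∣ M) (hA : A.LiesOverPrime p) {ℓ : ℕ} [NeZero ℓ] (hℓ : ℓ.Prime)
    (hℓN : ¬ ℓ ∣ M * p)
    {D : Divisor.degZero (K := Qb) (F := FB Qb (M * p))} {u : FB Qb (M * p)} (hu : u ≠ 0)
    (hord : ∀ v : Place Qb (FB Qb (M * p)),
      v.ord u = (p : ℤ) * (D : Divisor Qb (FB Qb (M * p))) v)
    {a : ℤ} (hT : heckeOperatorBar (M * p) ⟨ℓ, hℓ⟩ (Pic0.mk D) =
        a • (Pic0.mk D : Pic0 Qb (FB Qb (M * p))))
    {c : Qb} {g : modularFunctionFieldFullC kA M} (hg : g ≠ 0)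
    (hred : Red A πA (algebraMap Qb (LaurentSeries Qb) c * (u : LaurentSeries Qb))
      (g : LaurentSeries kA)) :
    ∃ (ζ : Aˣ) (tb hb : modularFunctionFieldFullC kA M),
        IsPrimitiveRoot (Units.map (A.subtype : A →* Qb) ζ) ℓ ∧ hb ≠ 0 ∧
        qExpand kA ℓ (tb : LaurentSeries kA) =
          H60.normSeries ℓ (Units.map (πA : A →* kA) ζ) (g : LaurentSeries kA) ∧
        tb = g ^ a * hb ^ p := by
  classical
  have : Fact p.Prime := ⟨hp⟩
  have : NeZero p := ⟨hp.ne_zero⟩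
  have hc : c ≠ 0 := by
    rintro rfl
    rw [map_zero, zero_mul] at hred
    exact hg (Subtype.ext (hred.unique Red.zero))
  have hcF : algebraMap Qb (FB Qb (M * p)) c ≠ 0 := (_root_.map_ne_zero _).mpr hc
  obtain ⟨u', hu'⟩ : ∃ u' : FB Qb (M * p), u' = algebraMap Qb (FB Qb (M * p)) c * u := ⟨_, rfl⟩
  have hu'0 : u' ≠ 0 := by rw [hu']; exact mul_ne_zero hcF hu
  have hord' : ∀ v : Place Qb (FB Qb (M * p)), v.ord u' =
      (p : ℤ) * (D : Divisor Qb (FB Qb (M * p))) v := by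
    intro v
    rw [hu', v.ord_mul hcF hu, H94.ord_algebraMap, zero_add, hord]
  have hred' : Red A πA (u' : LaurentSeries Qb) (g : LaurentSeries kA) := by
    rw [hu', coe_algebraMap_mul]
    exact hred
  have hg' : (g : LaurentSeries kA) ≠ 0 := fun h => hg (Subtype.ext h)
  obtain ⟨ζ, hζ⟩ := exists_zeta_unit A ℓ hℓ
  obtain ⟨D', hD', hordT⟩ := exists_div_Th (ℓ := ℓ) hℓ hu'0 hord'
  have hmk : Pic0.mk D' = a • (Pic0.mk D : Pic0 Qb (FB Qb (M * p))) := hD'.trans hT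
  have hprin := mk_eq_zsmul_iff.mp hmk
  have hTu0 : Th (M * p) ℓ u' ≠ 0 := Th_ne_zero hu'0
  obtain ⟨h, hh0, hh⟩ := H89SS.exists_eq_pow (K := Qb) hp.ne_zero
    (mul_ne_zero hTu0 (zpow_ne_zero (-a) hu'0)) hprin
    (ord_mul_zpow_neg hu'0 hTu0 hord' hordT a)
  obtain ⟨tb, htb0, htb, htbq⟩ := red_Th hℓ hℓN hζ hg' hred'
  have htbmem := mem_full_of_red hpM hA htb
  have h1 : Red A πA ((h : LaurentSeries Qb) ^ p)
      (tb * (g : LaurentSeries kA) ^ (-a)) := by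
    rw [← coe_pow_FB, ← hh, coe_mul_FB, coe_zpow_FB]
    exact htb.mul (hred'.zpow hg' _)
  obtain ⟨hb, hhb, hhb'⟩ := red_of_pow hp.ne_zero
    (mul_ne_zero htb0 (zpow_ne_zero _ hg')) h1
  have hbmem := mem_full_of_red hpM hA hhb
  have hb0 : hb ≠ 0 := by
    rintro rfl
    rw [zero_pow hp.ne_zero] at hhb'
    exact mul_ne_zero htb0 (zpow_ne_zero _ hg') hhb'.symm
  refine ⟨ζ, ⟨tb, htbmem⟩, ⟨hb, hbmem⟩, hζ, fun h0 => hb0 (congrArg Subtype.val h0), htbq, ?_⟩
  apply Subtype.ext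
  show tb = (g : LaurentSeries kA) ^ a * hb ^ p
  rw [hhb', mul_left_comm, ← zpow_add₀ hg', add_neg_cancel, zpow_zero, mul_one]

/-- **[HR]**, unfolded. -/
theorem exists_hrel {M p : ℕ} [NeZero M] [NeZero (M * p)] (hp : p.Prime)
    (hpM : ¬ p ∣ M) (hA : A.LiesOverPrime p) {ℓ : ℕ} [NeZero ℓ] (hℓ : ℓ.Prime)
    (hℓN : ¬ ℓ ∣ M * p)
    [IsAlgClosed kA] [H94.FunField kA (modularFunctionFieldFullC kA M)]
    [H94.FunField kA (modularFunctionFieldFullC kA (M * ℓ))]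
    (hαb : (alphaC kA M ℓ).toRingHom.IsIntegral) (hβb : (betaC kA M ℓ).toRingHom.IsIntegral)
    {D : Divisor.degZero (K := Qb) (F := FB Qb (M * p))} {u : FB Qb (M * p)} (hu : u ≠ 0)
    (hord : ∀ v : Place Qb (FB Qb (M * p)),
      v.ord u = (p : ℤ) * (D : Divisor Qb (FB Qb (M * p))) v)
    {a : ℤ} (hT : heckeOperatorBar (M * p) ⟨ℓ, hℓ⟩ (Pic0.mk D) =
        a • (Pic0.mk D : Pic0 Qb (FB Qb (M * p))))
    {c : Qb} {g : modularFunctionFieldFullC kA M} (hg : g ≠ 0)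
    (hred : Red A πA (algebraMap Qb (LaurentSeries Qb) c * (u : LaurentSeries Qb))
      (g : LaurentSeries kA)) :
    ∃ h : modularFunctionFieldFullC kA M, h ≠ 0 ∧
      ∀ D : Divisor kA (modularFunctionFieldFullC kA M), (∀ w, D w = w.ord g) →
        ∀ w, Divisor.correspondence (betaC kA M ℓ) (alphaC kA M ℓ) hβb hαb D w =
          a * w.ord g + p * w.ord h := by
  have hℓM : ¬ ℓ ∣ M := fun h => hℓN (h.trans (dvd_mul_right M p))
  have hℓp : ℓ ≠ p := by
    rintro rfl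
    exact hℓN (dvd_mul_left _ _)
  obtain ⟨ζ, tb, hb, hζ, hb0, htb, htbeq⟩ := exists_hecke_transform hp hpM hA hℓ hℓN hu hord hT hg
    hred
  refine ⟨hb, hb0, fun E hE w => ?_⟩
  rw [correspondence_div hp hpM hA hℓ hℓM hℓp hαb hβb hg hζ htb hE w, htbeq,
    w.ord_mul (zpow_ne_zero _ hg) (pow_ne_zero _ hb0), Place.ord_zpow, ← zpow_natCast,
    Place.ord_zpow]

end Hecke

end Fermat.Agent.H17C
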