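import Fermat.Agent.H17Norm3
import Fermat.Agent.H17C1

/-!
# Reader's guide: the kernel of reduction of `J₀(N)` at a good place (divisibility, norms, Hecke)

Every theorem of this file is proved by citing a theorem of the library; nothing here is used by any
other file. Editor: helper17. Companion of `GuideMazurJacobian` (helper61: the results for
`J₀(N)`), `GuideFunctionField` (helper10) and `GuideFlatTorsion` (helper19: good reduction of
function fields, residue discs). It contains the steps of the proofs of three facts which are usually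
deduced from Néron models and formal groups:

* **(J5)** the kernel of reduction of `J₀(N)(ℚ̄)` at a place above `ℓ ∤ N` is divisible, also by `ℓ`;
* **(J6)** an element of this kernel fixed by inertia is a norm from unramified extensions of any
  degree (Lang, Mazur);
* **(J2)** the reduction of divisors commutes with the Hecke correspondences (so the kernel is stable by
  the Hecke operators; for this last fact the proof in use is the one of `H18HkTop`, see
  `GuideHeckeReduction`).

**Language.** `F/K` is a function field with a good reduction `S : GoodRed K F k E` to the function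
field `E/k`: a ring `S.B` of integral functions with a reduction map `S.ρ : S.B → E`, a ring `S.A` of
integral constants with `S.π : S.A → k`, a map `S.r` from the places of `F` to the places of `E`, such
that the divisor of `S.ρ b` is the image of the divisor of `b` and `L(D)` reduces onto `L(r_* D)` if
`deg D > S.c` (see `goodRed_content` in `GuideFlatTorsion`; `S.toReductionData` consists of `S.A`,
`S.π`, `S.B`, `S.ρ`). `H23.redPic0 S : Pic0 K F → Pic0 k E` is the reduction of classes. `Γ` is a group
of semilinear automorphisms of `F` which acts as inertia (`InertiaAction S Γ`, see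
`inertiaAction_content` there). No scheme and no formal group occurs: only places, Riemann-Roch spaces
in characteristics `0` and `ℓ`, and residue discs `{P | S.r P = Q}`. `S.discRing Q` is the ring of the
functions in `S.B` without poles in the residue disc of `Q`, and `H19.pval P f` the value of the
function `f` at the place `P`.

**Used for** (proof terms). Sections 1 and 2 (J5), except `lift_section` and the last assertion of
`situation_X0`: S01, S03, S04, S06, S09, S12, S15, S38, S39, S40, S43, S45, S46, S50, S59, S60. These two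
and section 3 (J6): S15 and so S12, S09, S03, S01; there (J5) and (J6) show that the Kummer classes at
the Eisenstein prime `r` are units (`kummer_classes_units` in `GuideEisenstein`, file `H47UnitR`; steps
in `GuideKummerUnits`), which replaces flat cohomology in Mazur's descent. Section 4: S39 and S40
(`GuideLevelsAtP`, and section 2 of `GuideLevelsAtPSteps`). Details: NOTES.md, notes [153] and [325].
-/

set_option autoImplicit false

open AlgebraicCurve ModularCurve

namespace Fermat.Agent.Guide.Kernel

open Fermat.Agent.H19 (GoodRed InertiaAction)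

/-- short for `AlgebraicClosure ℚ` -/
local notation "Qb" => AlgebraicClosure ℚ

/-- the absolute Galois group of `ℚ` -/
local notation "Gq" => AlgebraicClosure ℚ ≃ₐ[ℚ] AlgebraicClosure ℚ

/-! ## 1. The situation at a good place -/

set_option synthInstance.maxHeartbeats 400000 in
/-- **`X₀(N)` at a place `A` above `ℓ ∤ N`.** There is a good reduction `S` of the function field of
`X₀(N)` over `ℚ̄` to the one over the residue field, on which the inertia group of `A` acts, and whose
reduction of classes is the map `reductionModL` of the Prelude; the fixed place of the action (the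
cusp `∞`) is fixed by the whole Galois group. The record `H17.Setup`, which occurs below, consists of
`S` and `I` with these three properties. Files `H17RedMod`, `H17SurjRed` (`exists_setup`). -/
theorem situation_X0 (N : ℕ) [NeZero N] {ℓ : ℕ} (hℓ : ℓ.Prime) (hℓN : ¬ ℓ ∣ N)
    (A : ValuationSubring Qb) (hA : A.LiesOverPrime ℓ)
    [H94.FunField (IsLocalRing.ResidueField A)
      (modularFunctionFieldFullC (IsLocalRing.ResidueField A) N)] :
    ∃ (S : GoodRed Qb (modularFunctionFieldBar N) (IsLocalRing.ResidueField A)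
        (modularFunctionFieldFullC (IsLocalRing.ResidueField A) N))
      (I : InertiaAction S ((A.inertiaSubgroupIn ℚ).map
        (arithmeticGalois (modularFunctionFieldFull N)))),
      S.toReductionData = H42.modRed (H42.degLE_place hℓ hA hℓN) ∧
      (∀ x : JZero N, H23.redPic0 S x = reductionModL A N x) ∧
      ∀ σ : Gq, arithmeticGalois (modularFunctionFieldFull N) σ • I.Pinf = I.Pinf := by
  obtain ⟨T⟩ := H17.exists_setup N hℓ hℓN A hA
  exact ⟨T.S, T.I, T.hS, T.red, T.Pinf⟩

/-- **Lifting invariant sections.** If the divisor `D`, of degree `> S.c`, is fixed by `Γ`, then every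
section of its reduction is the reduction of a `Γ`-invariant integral section of `D`. File
`H17NrmLift`. -/
theorem lift_section {K F k E : Type*} [Field K] [Field F] [Algebra K F] [Field k] [Field E]
    [Algebra k E] [IsAlgClosed K] [IsAlgClosed k] [H94.FunField K F] [H94.FunField k E]
    {S : GoodRed K F k E} {Γ : Subgroup (SemilinearAut K F)} (I : InertiaAction S Γ)
    {D : Divisor K F} (hDΓ : ∀ γ ∈ Γ, γ • D = D) (hD : S.c < Divisor.degree D) {zb : E}
    (hzb : zb ∈ riemannRochSpace (Finsupp.mapDomain S.r D)) :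
    ∃ z : S.B, (z : F) ∈ riemannRochSpace D ∧ (∀ γ ∈ Γ, γ • (z : F) = z) ∧ S.ρ z = zb :=
  H17.exists_fixed_lift I hDΓ hD hzb

/-! ## 2. Classes in the kernel of reduction as orbit sums, and divisibility (J5) -/

/-- **Uniformizers.** `Unif S H ϖ`: the constant `ϖ` is fixed by `H`, in the maximal ideal, and every
constant fixed by `H` in the maximal ideal is a multiple of `ϖ`. (`S.IsSmall a`: `a` is in the maximal
ideal of `S.A`.) Structure of `H17Orb`. -/
theorem unif_iff {K F k E : Type*} [Field K] [Field F] [Algebra K F] [Field k] [Field E]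
    [Algebra k E] (S : GoodRed K F k E) (H : Subgroup (SemilinearAut K F)) (ϖ : K) :
    H17.Unif S H ϖ ↔ ϖ ≠ 0 ∧ (∀ γ ∈ H, SemilinearAut.baseAut γ ϖ = ϖ) ∧ S.IsSmall ϖ ∧
      ∀ a : K, (∀ γ ∈ H, SemilinearAut.baseAut γ a = a) → S.IsSmall a → a / ϖ ∈ S.A :=
  ⟨fun h => ⟨h.1, h.2, h.3, h.4⟩, fun h => ⟨h.1, h.2.1, h.2.2.1, h.2.2.2⟩⟩

set_option synthInstance.maxHeartbeats 400000 in
/-- **Small inertia groups have uniformizers.** For a place above `ℓ ∤ N`, finitely many functions and
a divisor of `X₀(N)`, there is a subgroup `H` of the inertia group which fixes all of them and has a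
uniformizer: functions and divisors are defined over number fields, and the value group of the field
fixed by an open subgroup of inertia is discrete. File `H17DivRed` (with `H33Inertia`, `H31Level`). -/
theorem exists_small_inertia {N : ℕ} [NeZero N] {A : ValuationSubring Qb}
    {hdeg : H42.DegLE Qb (IsLocalRing.ResidueField A) N}
    [H94.FunField (IsLocalRing.ResidueField A)
      (modularFunctionFieldFullC (IsLocalRing.ResidueField A) N)]
    (T : H17.Setup A N hdeg) {ℓ : ℕ} (hℓ : ℓ.Prime) (hA : A.LiesOverPrime ℓ)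
    (U : Finset (modularFunctionFieldBar N)) (D : Divisor Qb (modularFunctionFieldBar N)) :
    ∃ H : Subgroup (SemilinearAut Qb (modularFunctionFieldBar N)),
      H ≤ (A.inertiaSubgroupIn ℚ).map (arithmeticGalois (modularFunctionFieldFull N)) ∧
      (∀ γ ∈ H, (∀ f ∈ U, γ • f = f) ∧ γ • D = D) ∧ ∃ ϖ, H17.Unif T.S H ϖ :=
  T.hU hℓ hA U D

/-- **An Eisenstein equation has one orbit of zeros.** `C` is a coordinate on the residue disc of `Q`
with centre and coordinate function fixed by `H` (`H19.Coord`), and `g` a function fixed by `H`,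
integral and without poles in the disc, with reduction `≠ 0`. If the value of `g` at the centre is
`ϖ u`, `ϖ` a uniformizer for `H` and `u` a unit, then all zeros of `g` in the disc are simple and form
one orbit under `H`; their number is the order at `Q` of the reduction of `g`. (In the coordinate, `g`
is a power series of Eisenstein type, as in Eisenstein's criterion of irreducibility.) File
`H17Orb`. -/
theorem one_orbit_of_zeros {K F k E : Type*} [Field K] [Field F] [Algebra K F] [Field k] [Field E]
    [Algebra k E] [IsAlgClosed K] [H94.FunField K F] {S : GoodRed K F k E} {Q : Place k E}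
    (C : H19.Coord S Q) {H : Subgroup (SemilinearAut K F)} (hP0 : ∀ γ ∈ H, γ • C.P0 = C.P0)
    (hz : ∀ γ ∈ H, γ • C.z = C.z) (hr : ∀ γ ∈ H, ∀ P, S.r (γ • P) = S.r P) {ϖ : K}
    (hϖ : H17.Unif S H ϖ) {g : F} (hg : g ∈ S.discRing Q) (hρ : S.ρ ⟨g, hg.1⟩ ≠ 0)
    (hgH : ∀ γ ∈ H, γ • g = g) {u : K} (hu : u ∈ S.A) (hu0 : S.π ⟨u, hu⟩ ≠ 0)
    (hval : H19.pval C.P0 g = ϖ * u) :
    ∃ (P₁ : Place K F) (O : Finset (Place K F)), P₁ ∈ O ∧ (∀ P ∈ O, ∃ γ ∈ H, γ • P₁ = P) ∧
      (∀ P ∈ O, S.r P = Q) ∧ (O.card : ℤ) = Q.ord (S.ρ ⟨g, hg.1⟩) ∧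
      ∀ P, S.r P = Q → (P ∈ O → P.ord g = 1) ∧ (P ∉ O → P.ord g = 0) :=
  H17.orbit_of_unif C hP0 hz hr hϖ hg hρ hgH hu hu0 hval

/-- **Orbit sums.** For every `m > S.c` a class `x` in the kernel of reduction is a sum of `m`
conjugates `γ_i ξ`, `γ_i ∈ Γ`, of one class `ξ` of the kernel. Proof: let the divisor `D` represent
`x`; its image in `E` is the divisor of a function `h`. Choose a residue disc without points of `D`,
with centre `P₀` and coordinate `z` fixed by `Γ`. The section `1/h` of the reduction of `D + m P₀`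
lifts to a section `s` of `D + m P₀`, fixed by a small inertia group `H`, such that `s z^m` has the
value `ϖ · unit` at `P₀` (add `ϖ` times a second section if necessary). All zeros of this section lie
in the disc and form one orbit `{γ_i P₁}` of `m` simple zeros, so `x = ∑ [γ_i P₁ - P₀]`. File
`H17OrbMain`. -/
theorem orbit_sum {K F k E : Type*} [Field K] [Field F] [Algebra K F] [Field k] [Field E]
    [Algebra k E] [IsAlgClosed K] [IsAlgClosed k] [H94.FunField K F] [H94.FunField k E]
    {S : GoodRed K F k E} {Γ : Subgroup (SemilinearAut K F)} (I : InertiaAction S Γ)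
    (hU : ∀ (T : Finset F) (D : Divisor K F), ∃ H : Subgroup (SemilinearAut K F), H ≤ Γ ∧
      (∀ γ ∈ H, (∀ f ∈ T, γ • f = f) ∧ γ • D = D) ∧ ∃ ϖ, H17.Unif S H ϖ)
    (x : Pic0 K F) (hx : H23.redPic0 S x = 0) (m : ℕ) (hm : S.c < m) (hm0 : 0 < m) :
    ∃ (ξ : Pic0 K F) (T : Finset (Place K F)) (γ : Place K F → SemilinearAut K F),
      H23.redPic0 S ξ = 0 ∧ T.card = m ∧ (∀ i, γ i ∈ Γ) ∧ x = ∑ i ∈ T, γ i • ξ :=
  H17.exists_orbit_sum I hU x hx m hm hm0

/-- **(J5) The kernel of reduction is divisible** by every prime `p`, also by `p = ℓ`. Proof: write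
`x = ∑ γ_i ξ` with `p n` terms and `ξ = p η` in `J₀(N)(ℚ̄)`, which is divisible (`jzero_divisible` in
`GuideMordellWeil`). Then `y = ∑ γ_i η` satisfies `p y = x`, and its reduction is `p n` times the
reduction of `η`, that is `n` times the one of `ξ`, hence `0`. File `H17DivRed`. -/
theorem kernel_divisible (N : ℕ) [NeZero N] {ℓ : ℕ} (hℓ : ℓ.Prime) (hℓN : ¬ ℓ ∣ N)
    (A : ValuationSubring Qb) (hA : A.LiesOverPrime ℓ) (p : ℕ) (hp : p.Prime) (x : JZero N)
    (hx : reductionModL A N x = 0) : ∃ y : JZero N, reductionModL A N y = 0 ∧ p • y = x :=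
  H17.divRed N ℓ hℓ hℓN A hA p hp x hx

/-! ## 3. Norms (J6) -/

/-- **Frobenius data.** `FrobData S Γ φ β q`: the semilinear automorphism `φ` of `F` preserves integral
functions and induces the automorphism `β` of `E`; `φ⁻¹ Γ φ ⊆ Γ`; `β` acts on the constants by
`c ↦ c^q`, where `q > 1` is zero in `k` (in the application: a power of the residue characteristic);
elements of the field of `q^M` elements lift to constants fixed by `Γ` and `φ^M`; every function is
fixed by a power of `φ`. Structure of `H17NrmLift`. -/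
theorem frobData_iff {K F k E : Type*} [Field K] [Field F] [Algebra K F] [Field k] [Field E]
    [Algebra k E] (S : GoodRed K F k E) (Γ : Subgroup (SemilinearAut K F)) (φ : SemilinearAut K F)
    (β : SemilinearAut k E) (q : ℕ) :
    H17.FrobData S Γ φ β q ↔ (∃ h : ∀ f : F, φ • f ∈ S.B ↔ f ∈ S.B,
        ∀ b : S.B, β • S.ρ b = S.ρ ⟨φ • (b : F), (h _).mpr b.2⟩) ∧
      (∀ γ ∈ Γ, φ⁻¹ * γ * φ ∈ Γ) ∧ 1 < q ∧ (q : k) = 0 ∧
      (∀ c : k, SemilinearAut.baseAut β c = c ^ q) ∧
      (∀ M : ℕ, 0 < M → ∀ c : k, c ^ q ^ M = c → ∃ a : S.A,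
        (∀ γ ∈ Γ, SemilinearAut.baseAut γ (a : K) = a) ∧
          SemilinearAut.baseAut (φ ^ M) (a : K) = a ∧ S.π a = c) ∧
      ∀ f : F, ∃ M, 0 < M ∧ φ ^ M • f = f :=
  ⟨fun h => ⟨⟨h.compat.mem_iff, h.bar⟩, h.norm, h.one_lt, h.zero, h.frob, h.teich, h.per⟩,
    fun ⟨⟨h1, h2⟩, h3, h4, h5, h6, h7, h8⟩ => ⟨⟨h1⟩, h2, h3, h4, h5, h6, h7, h8⟩⟩

set_option synthInstance.maxHeartbeats 400000 in
/-- **Frobenius elements give Frobenius data**: for `X₀(N)` at a place `A` above `ℓ ∤ N`, `σ` a Frobenius
element at `A`, the power `σ^s` gives Frobenius data with `q = ℓ^s`. File `H17NrmKer`. -/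
theorem exists_frobData {N : ℕ} [NeZero N] {A : ValuationSubring Qb}
    {hdeg : H42.DegLE Qb (IsLocalRing.ResidueField A) N} {ℓ : ℕ} (hℓ : ℓ.Prime)
    (hA : A.LiesOverPrime ℓ) [H94.FunField (IsLocalRing.ResidueField A)
      (modularFunctionFieldFullC (IsLocalRing.ResidueField A) N)]
    (S : GoodRed Qb (modularFunctionFieldBar N) (IsLocalRing.ResidueField A)
      (modularFunctionFieldFullC (IsLocalRing.ResidueField A) N))
    (hS : S.toReductionData = H42.modRed hdeg) {σ : Gq} (hσ : A.IsFrobeniusAt σ ℓ) {s : ℕ}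
    (hs : 0 < s) :
    ∃ β, H17.FrobData S ((A.inertiaSubgroupIn ℚ).map
        (arithmeticGalois (modularFunctionFieldFull N)))
      (arithmeticGalois (modularFunctionFieldFull N) (σ ^ s)) β (ℓ ^ s) :=
  H17.exists_frobData hdeg hℓ hA S hS hσ hs

/-- **Lifts fixed by inertia and Frobenius.** If `D`, of degree `> S.c`, is fixed by `Γ` and `φ`, then a
section of its reduction fixed by `β` lifts to an integral section of `D` fixed by `Γ` and `φ`. Proof:
take a lift `z₀` fixed by `Γ` (`lift_section`), fixed by `φ^M`, and a constant `a` fixed by `Γ` and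
`φ^M` whose reduction has trace `1`; then `∑_{i<M} φ^i (a z₀)` is a lift. File `H17NrmLift`. -/
theorem lift_section_frobenius {K F k E : Type*} [Field K] [Field F] [Algebra K F] [Field k]
    [Field E] [Algebra k E] [IsAlgClosed K] [IsAlgClosed k] [H94.FunField K F] [H94.FunField k E]
    {S : GoodRed K F k E} {Γ : Subgroup (SemilinearAut K F)} {φ : SemilinearAut K F}
    {β : SemilinearAut k E} {q : ℕ} (Φ : H17.FrobData S Γ φ β q) (I : InertiaAction S Γ)
    {D : Divisor K F} (hDΓ : ∀ γ ∈ Γ, γ • D = D) (hDφ : φ • D = D) (hD : S.c < Divisor.degree D)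
    {zb : E} (hzb : zb ∈ riemannRochSpace (Finsupp.mapDomain S.r D)) (hβ : β • zb = zb) :
    ∃ z : S.B, (z : F) ∈ riemannRochSpace D ∧ (∀ γ ∈ Γ, γ • (z : F) = z) ∧
      φ • (z : F) = z ∧ S.ρ z = zb :=
  Φ.exists_lift I hDΓ hDφ hD hzb hβ

/-- **Places of large period.** For every `m > 0` there is a place `Q` of `E` with `β^i Q = Q` only if
`m ∣ i`: a zero of `t - c`, where `t` is the reduction of a function fixed by `φ` (the `j`-invariant)
and `c` a primitive root of unity of order `q^m - 1`. File `H17NrmMain`. -/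
theorem exists_place_of_period {K F k E : Type*} [Field K] [Field F] [Algebra K F] [Field k]
    [Field E] [Algebra k E] [IsAlgClosed K] [IsAlgClosed k] [H94.FunField K F] [H94.FunField k E]
    {S : GoodRed K F k E} {Γ : Subgroup (SemilinearAut K F)} {φ : SemilinearAut K F}
    {β : SemilinearAut k E} {q : ℕ} (Φ : H17.FrobData S Γ φ β q) (t : S.B)
    (ht : φ • (t : F) = t) (htt : Transcendental k (S.ρ t)) {m : ℕ} (hm : 0 < m) :
    ∃ Q : Place k E, ∀ i : ℤ, β ^ i • Q = Q → (m : ℤ) ∣ i :=
  Φ.exists_place t ht htt hm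

open Classical in
/-- **Layers.** Let `Q` be as in the previous theorem, and `G` a divisor fixed by `φ` supported in the
residue discs of the places `β^a Q`. The part `G₀` of `G` in the discs of the `β^a Q` with `m ∣ a`
satisfies `G = ∑_{j<m} φ^j G₀`. File `H17Lay`. -/
theorem sum_layers {K F k E : Type*} [Field K] [Field F] [Algebra K F] [Field k] [Field E]
    [Algebra k E] {r : Place K F → Place k E} {φ : SemilinearAut K F} {β : SemilinearAut k E}
    {Q : Place k E} {m : ℕ} (hm : 0 < m) (hQ : ∀ i : ℤ, β ^ i • Q = Q → (m : ℤ) ∣ i)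
    (hr : ∀ P, r (φ • P) = β • r P) {G : Divisor K F} (hφG : φ • G = G)
    (hsupp : ∀ P, G P ≠ 0 → ∃ a : ℤ, r P = β ^ a • Q) :
    ∑ j ∈ Finset.range m, φ ^ j •
      Finsupp.filter (fun P => r P ∈ {R | ∃ i : ℤ, R = β ^ ((m : ℤ) * i) • Q}) G = G :=
  H17.sum_layers hm hQ hr hφG hsupp

/-- **Hilbert 90**: a function on `E` whose divisor is fixed by `β` can be multiplied by a constant such
that it becomes fixed by `β`. File `H17NrmMain`. -/
theorem exists_invariant_function {K F k E : Type*} [Field K] [Field F] [Algebra K F] [Field k]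
    [Field E] [Algebra k E] [IsAlgClosed K] [IsAlgClosed k] [H94.FunField K F] [H94.FunField k E]
    {S : GoodRed K F k E} {Γ : Subgroup (SemilinearAut K F)} {φ : SemilinearAut K F}
    {β : SemilinearAut k E} {q : ℕ} (Φ : H17.FrobData S Γ φ β q) {h : E} (hh0 : h ≠ 0)
    {D : Divisor k E} (hD : ∀ v, D v = v.ord h) (hβ : β • D = D) :
    ∃ h' : E, h' ≠ 0 ∧ (∀ v, D v = v.ord h') ∧ β • h' = h' :=
  Φ.exists_scale hh0 hD hβ

/-- **Norms, abstract form.** A class `x` in the kernel of reduction, fixed by `Γ` and `φ`, is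
`∑_{j<m} φ^j y` with a class `y` of the kernel fixed by `Γ`. Proof: `x` is the class of an invariant
divisor; by `exists_invariant_function` and `lift_section_frobenius` it is equivalent to an invariant
divisor supported in the residue discs of the orbit of a place of period divisible by `m`, and there
`sum_layers` applies. File `H17NrmMain`. -/
theorem norm_abstract {K F k E : Type*} [Field K] [Field F] [Algebra K F] [Field k]
    [Field E] [Algebra k E] [IsAlgClosed K] [IsAlgClosed k] [H94.FunField K F] [H94.FunField k E]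
    {S : GoodRed K F k E} {Γ : Subgroup (SemilinearAut K F)} {φ : SemilinearAut K F}
    {β : SemilinearAut k E} {q : ℕ} (Φ : H17.FrobData S Γ φ β q) (I : InertiaAction S Γ)
    (t : S.B) (ht : φ • (t : F) = t) (htt : Transcendental k (S.ρ t))
    (hper : ∀ P : Place K F, ∃ M, 0 < M ∧ φ ^ M • P = P) (hPinf : φ • I.Pinf = I.Pinf)
    {x : Pic0 K F} (hx : H23.redPic0 S x = 0) (hxΓ : ∀ γ ∈ Γ, γ • x = x) (hxφ : φ • x = x)
    {m : ℕ} (hm : 0 < m) :
    ∃ y : Pic0 K F, H23.redPic0 S y = 0 ∧ (∀ γ ∈ Γ, γ • y = y) ∧
      x = ∑ j ∈ Finset.range m, φ ^ j • y :=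
  Φ.exists_norm I t ht htt hper hPinf hx hxΓ hxφ hm

/-- **(J6) Norms in the kernel of reduction of `J₀(N)`.** `A` is a place above `ℓ ∤ N`, `σ₀` a Frobenius
element. A class `x` in the kernel, fixed by inertia, is for every `m` the norm
`∑_{j<m} σ₀^{s j} y` of a class `y` of the kernel fixed by inertia, with `s` divisible by any given
`s₀`. (`s` is chosen such that `σ₀^s` fixes `x`.) File `H17NrmKer`. -/
theorem norm_kernel (N : ℕ) [NeZero N] {ℓ : ℕ} (hℓ : ℓ.Prime) (hℓN : ¬ ℓ ∣ N)
    (A : ValuationSubring Qb) (hA : A.LiesOverPrime ℓ) {σ₀ : Gq} (hσ₀ : A.IsFrobeniusAt σ₀ ℓ)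
    {x : JZero N} (hx : reductionModL A N x = 0)
    (hxI : ∀ τ ∈ A.inertiaSubgroupIn ℚ, τ • x = x) {m : ℕ} (hm : 0 < m) {s₀ : ℕ} (hs₀ : 0 < s₀) :
    ∃ s : ℕ, 0 < s ∧ s₀ ∣ s ∧ ∃ y : JZero N, reductionModL A N y = 0 ∧
      (∀ τ ∈ A.inertiaSubgroupIn ℚ, τ • y = y) ∧
      x = ∑ j ∈ Finset.range m, σ₀ ^ (s * j) • y :=
  H17.norm_kernel N hℓ hℓN A hA hσ₀ hx hxI hm hs₀

/-! ## 4. Degeneracy maps and Hecke correspondences (J2) -/

/-- **Compatible maps of function fields.** `DegMap S S' γ γb`: `γ : F → F'` maps integral functions to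
integral functions and induces `γb : E → E'` on the reductions; both extensions are algebraic and
satisfy the fundamental identity `∑ e f = degree`, and `[F' : F] ≤ [E' : E]`. Structure of
`H17HkAbs`. -/
theorem degMap_iff {K F F' k E E' : Type*} [Field K] [Field F] [Field F'] [Algebra K F]
    [Algebra K F'] [Field k] [Field E] [Field E'] [Algebra k E] [Algebra k E']
    [HasPrincipalDivisors K F'] [HasPrincipalDivisors k E'] (S : GoodRed K F k E)
    (S' : GoodRed K F' k E') (γ : F →ₐ[K] F') (γb : E →ₐ[k] E') :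
    H17.DegMap S S' γ γb ↔ ∃ (h : γ.toRingHom.IsIntegral) (hb : γb.toRingHom.IsIntegral),
      (∃ hm : ∀ b : S.B, γ b ∈ S'.B, ∀ b : S.B, S'.ρ ⟨γ b, hm b⟩ = γb (S.ρ b)) ∧
      FundamentalIdentityAlong K γ h ∧ FundamentalIdentityAlong k γb hb ∧
      finrankAlong K γ ≤ finrankAlong k γb :=
  ⟨fun h => ⟨h.int, h.intb, ⟨h.mem, h.red⟩, h.FI, h.FIb, h.deg⟩,
    fun ⟨h1, h2, ⟨h3, h4⟩, h5, h6, h7⟩ => ⟨h1, h2, h3, h4, h5, h6, h7⟩⟩

/-- **Reduction of divisors commutes with pull-back, push-forward and restriction of places** along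
compatible maps, also at ramified places. Proof: a function with a pole of exact order `n` at `r(P)`
and nowhere else, `n` large, lifts; this gives an inequality of effective divisors, and equality
follows because both sides have the same degree. File `H17HkAbs`. -/
theorem reduction_degMap {K F F' k E E' : Type*} [Field K] [Field F] [Field F'] [Algebra K F]
    [Algebra K F'] [Field k] [Field E] [Field E'] [Algebra k E] [Algebra k E']
    [HasPrincipalDivisors K F'] [HasPrincipalDivisors k E'] [IsAlgClosed K] [IsAlgClosed k]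
    [H94.FunField K F] [H94.FunField K F'] [H94.FunField k E] [H94.FunField k E']
    {S : GoodRed K F k E} {S' : GoodRed K F' k E'} {γ : F →ₐ[K] F'} {γb : E →ₐ[k] E'}
    (Δ : H17.DegMap S S' γ γb) :
    (∀ D : Divisor K F, Finsupp.mapDomain S'.r (Divisor.pullbackAlong γ Δ.int D) =
      Divisor.pullbackAlong γb Δ.intb (Finsupp.mapDomain S.r D)) ∧
    (∀ D : Divisor K F', Finsupp.mapDomain S.r (Divisor.pushforwardAlong γ Δ.int D) =
      Divisor.pushforwardAlong γb Δ.intb (Finsupp.mapDomain S'.r D)) ∧
    ∀ w : Place K F', (S'.r w).restrictAlong γb Δ.intb = S.r (w.restrictAlong γ Δ.int) :=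
  ⟨Δ.pull, Δ.push, Δ.restrict⟩

/-- **The degeneracy maps in all characteristics.** `alphaC` is the inclusion and `betaC` the map
`f(q) ↦ f(q^p)` from the function field of `X₀(N)` over `K` to the one of `X₀(N p)`. If `K` is
algebraically closed and `N p ≠ 0` in `K`, both have degree `ψ(N p)/ψ(N)`; so the degrees in
characteristic `0` and `ℓ` agree, as required for `DegMap`. File `H17HkDeg`. (The other conditions of
`DegMap`, on integral functions and their reductions: `H17Hk`, `H17HkMain`.) -/
theorem degeneracy_degrees (K : Type*) [Field K] [IsAlgClosed K] (N p : ℕ) [NeZero N] [NeZero p]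
    [Fact p.Prime] (hN : ((N * p : ℕ) : K) ≠ 0) :
    (∀ f, ((H17.alphaC K N p f : modularFunctionFieldFullC K (N * p)) : LaurentSeries K) = f) ∧
    (∀ f, ((H17.betaC K N p f : modularFunctionFieldFullC K (N * p)) : LaurentSeries K) =
      qExpand K p (f : LaurentSeries K)) ∧
    dedekindPsi N * finrankAlong K (H17.alphaC K N p) = dedekindPsi (N * p) ∧
    dedekindPsi N * finrankAlong K (H17.betaC K N p) = dedekindPsi (N * p) :=
  ⟨fun _ => H17.coe_alphaC K N p _, fun _ => H17.coe_betaC K N p _, H17.finrank_alphaC K N p hN,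
    H17.finrank_betaC K N p hN⟩

set_option synthInstance.maxHeartbeats 400000 in
/-- **The Hecke correspondence and reduction of divisors.** For `p ∤ N`, a prime `ℓ ≠ p` and the
situation `T` of `X₀(N)` at a place above `p` there is an operator `TD` on divisors of degree zero which
induces the Hecke operator `T_ℓ` on classes, corresponds under the reduction of places to the
correspondence `α_* β^*` in characteristic `p`, and maps the divisor of a function `G` to the divisor of
its Hecke transform `Th N ℓ G` (the norm along `α` of `β(G)`). File `H17C1`. -/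
theorem hecke_reduction {A : ValuationSubring Qb} (N : ℕ) [NeZero N] {p : ℕ} (hp : p.Prime)
    (hpN : ¬ p ∣ N) (hA : A.LiesOverPrime p) {ℓ : ℕ} [NeZero ℓ] (hℓ : ℓ.Prime) (hℓp : ℓ ≠ p)
    [IsAlgClosed (IsLocalRing.ResidueField A)]
    [H94.FunField (IsLocalRing.ResidueField A)
      (modularFunctionFieldFullC (IsLocalRing.ResidueField A) N)]
    [H94.FunField (IsLocalRing.ResidueField A)
      (modularFunctionFieldFullC (IsLocalRing.ResidueField A) (N * ℓ))]
    (hα : (H17.alphaC (IsLocalRing.ResidueField A) N ℓ).toRingHom.IsIntegral)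
    (hβ : (H17.betaC (IsLocalRing.ResidueField A) N ℓ).toRingHom.IsIntegral)
    (T : H17.Setup A N (H42.degLE_place hp hA hpN)) :
    ∃ TD : Divisor.degZero (K := Qb) (F := modularFunctionFieldBar N) →+
        Divisor.degZero (K := Qb) (F := modularFunctionFieldBar N),
      (∀ D, Pic0.mk (TD D) =
        heckeOperatorBar N ⟨ℓ, hℓ⟩ (Pic0.mk D : Pic0 Qb (modularFunctionFieldBar N))) ∧
      (∀ D, Finsupp.mapDomain T.S.r (TD D : Divisor Qb (modularFunctionFieldBar N)) =
        Divisor.correspondence (H17.betaC (IsLocalRing.ResidueField A) N ℓ)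
          (H17.alphaC (IsLocalRing.ResidueField A) N ℓ) hβ hα
          (Finsupp.mapDomain T.S.r (D : Divisor Qb (modularFunctionFieldBar N)))) ∧
      ∀ G : modularFunctionFieldBar N, G ≠ 0 →
        ∀ D : Divisor.degZero (K := Qb) (F := modularFunctionFieldBar N),
          (∀ v, (D : Divisor Qb (modularFunctionFieldBar N)) v = v.ord G) →
            ∀ v, (TD D : Divisor Qb (modularFunctionFieldBar N)) v = v.ord (H38.Mz.Th N ℓ G) :=
  H17C.mapDomain_hecke N hp hpN hA hℓ hℓp hα hβ T

set_option synthInstance.maxHeartbeats 400000 in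
/-- **The Hecke transform of the reduction of a Kummer function.** `u` is a function on `X₀(M p)`,
`p ∤ M`, with divisor `p D`, where the class of `D` is an eigenclass, `T_ℓ [D] = a [D]`, for a prime
`ℓ ∤ M p`; `g` is a Gauss reduction of `c u` at a place above `p` (`H38.Mz.Red`: quotient of the
reductions of two integral series), a function on `X₀(M)` in characteristic `p`. Then the Hecke
transform of `g`, the series `tb` with `tb(q^ℓ) = g(q^(ℓ²)) ∏_{i<ℓ} g(ζ^i q)`, is `g^a hb^p` for some
function `hb ≠ 0`. Together with `hecke_reduction` this gives `T_ℓ (div g) = a div g + p div hb` (see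
`GuideLevelsAtP`). File `H17C1`; the form needed in S39 and S40 is in `H17C2`. -/
theorem hecke_transform {A : ValuationSubring Qb} {M p : ℕ} [NeZero M] [NeZero (M * p)]
    (hp : p.Prime) (hpM : ¬ p ∣ M) (hA : A.LiesOverPrime p) {ℓ : ℕ} [NeZero ℓ] (hℓ : ℓ.Prime)
    (hℓN : ¬ ℓ ∣ M * p)
    {D : Divisor.degZero (K := Qb) (F := modularFunctionFieldBar (M * p))}
    {u : modularFunctionFieldBar (M * p)} (hu : u ≠ 0)
    (hord : ∀ v : Place Qb (modularFunctionFieldBar (M * p)),
      v.ord u = (p : ℤ) * (D : Divisor Qb (modularFunctionFieldBar (M * p))) v)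
    {a : ℤ} (hT : heckeOperatorBar (M * p) ⟨ℓ, hℓ⟩ (Pic0.mk D) =
      a • (Pic0.mk D : Pic0 Qb (modularFunctionFieldBar (M * p))))
    {c : Qb} {g : modularFunctionFieldFullC (IsLocalRing.ResidueField A) M} (hg : g ≠ 0)
    (hred : H38.Mz.Red A (IsLocalRing.residue A)
      (algebraMap Qb (LaurentSeries Qb) c * (u : LaurentSeries Qb))
      (g : LaurentSeries (IsLocalRing.ResidueField A))) :
    ∃ (ζ : Aˣ) (tb hb : modularFunctionFieldFullC (IsLocalRing.ResidueField A) M),
      IsPrimitiveRoot (Units.map (A.subtype : A →* Qb) ζ) ℓ ∧ hb ≠ 0 ∧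
      qExpand (IsLocalRing.ResidueField A) ℓ (tb : LaurentSeries (IsLocalRing.ResidueField A)) =
        H60.normSeries ℓ (Units.map (IsLocalRing.residue A : A →* IsLocalRing.ResidueField A) ζ)
          (g : LaurentSeries (IsLocalRing.ResidueField A)) ∧
      tb = g ^ a * hb ^ p :=
  H17C.exists_hecke_transform hp hpM hA hℓ hℓN hu hord hT hg hred

end Fermat.Agent.Guide.Kernel
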