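import Fermat.Agent.H90Faithful
import Fermat.Agent.H90Kappa

/-!
# Reader's guide: the steps of the Kummer bridge

Companion of `GuideBridge` (section 3) and of `GuideCusps` (part A: charts and expansions). Section 3
of `GuideBridge` says that a torsion class of `J₀(N)` over an algebraically closed field `K ⊂ ℂ` and a
character of `Γ₀(N)` that kills the parabolic and elliptic elements are the same thing. This file shows
the steps of the proof, in the order in which they are used. There is no new mathematics and no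
definition; every theorem cites a theorem of the library.

**Order.**
1. Twisted Eisenstein series: for every unitary character `χ` of `Γ₀(N)` there is a holomorphic
   function with this character and at most poles at the cusps (`exists_twisted_function` of
   `GuideBridge`). This is the only existence theorem of the block.
2. From functions to series. A holomorphic `Γ₀(N)`-invariant function with expansions at all cusps is a
   good Laurent series, good series satisfy relations over `K[j]`, and `n`-th roots of good series are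
   good (`modular_of_good` of `GuideBridge`).
3. Roots and characters: the character of an `n`-th root, and finiteness.
4. Places of the function field and points of the upper half plane. Here the condition on parabolic and
   elliptic elements is used, in both directions: `rel_isPE` and `exists_class` of `GuideBridge`.
5. Descent from `ℂ` to an algebraically closed subfield (`descent` of `GuideBridge`): torsion classes do
   not need new constants. This replaces the theory of the Jacobian variety over `Q̄`.

**Statements served.** All theorems are used in S01, S03, S04, S06, S09, S12, S15, S35, S36, S38-S40,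
S43-S46, S50, S58-S60, and all except `elliptic_rotation` and `multiplier` also in S29-S34, S42;
sections 2 and 3, `embedding_place`, `translation`, `fixed_elements` and the `q`-adic place also in S17;
`series` and `series_slash` (Eisenstein series of other levels) and `translation` also in S47 and S48.
NOTES: [157] NOTES-KUMMERBRIDGE, [192] NOTES-KUMMERBRIDGE-2. **Files**: `H90TwistedEis`, `H90Exp`,
`H90Good`, `H90Deg`, `H90Rel`, `H90Exist`, `H96Chart` (helper96), `H90Kappa`, `H90Surj`, `H90Bridge`,
`H90Field`, `H90Place`, `H90DescentLin`, `H90DescentCore`, `H90Descent`; all others are by helper90.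

**Conventions** (as in `GuideCusps`). A chart is a function `z` from the upper half plane to the unit
disc, `exp(2πiτ/N)` at the cusp `i∞` or the Cayley transform at a point; `H24.HasExpC z f F` means that
the convergent Laurent series `F` is the expansion of the function `f` in the chart `z`. `H24.Good K N x`
and `H24.ev K x` are explained in `GuideBridge` (`good_iff`), `H90.FX K N` is the function field of
`X₀(N)` over `K`, a subfield of `K((q))`, and `H90.Mu` is the group `ℂˣ` written additively.
-/

set_option autoImplicit false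

noncomputable section

open UpperHalfPlane hiding I
open Complex MatrixGroups ModularForm ModularGroup ModularCurve AlgebraicCurve CongruenceSubgroup
open scoped Manifold Real Topology Matrix

namespace Fermat.Agent.Guide.KummerSteps

/-! ## 1. Twisted Eisenstein series -/

/-- **Series with arbitrary coefficients.** `genEis k c (z) = Σ_v c(v) (v₀ z + v₁)^(-k)`, the sum over
all integral row vectors `v = (v₀, v₁)`. For bounded coefficients and `k ≥ 3` it is a holomorphic
function, bounded at `i∞`, and its limit at `i∞` is the sum of the terms with `v₀ = 0`. Proved in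
`H90TwistedEis`, with Mathlib's estimates for the Eisenstein series with trivial coefficients. -/
theorem series {k : ℤ} (hk : 3 ≤ k) {c : (Fin 2 → ℤ) → ℂ} {C : ℝ} (hc : ∀ v, ‖c v‖ ≤ C) :
    (∀ z : ℍ, H90.genEis k c z = ∑' v : Fin 2 → ℤ, c v * ((v 0 : ℂ) * z + v 1) ^ (-k)) ∧
      MDifferentiable 𝓘(ℂ) 𝓘(ℂ) (H90.genEis k c) ∧ IsBoundedAtImInfty (H90.genEis k c) ∧
      Filter.Tendsto (H90.genEis k c) atImInfty
        (𝓝 (∑' v : Fin 2 → ℤ, (if v 0 = 0 then c v * (v 1 : ℂ) ^ (-k) else 0))) :=
  ⟨fun _ => rfl, H90.genEis_mdifferentiable hk hc, H90.genEis_bounded hk hc, H90.genEis_tendsto hk hc⟩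

/-- **Transformation**: acting on the series by `δ ∈ SL₂(ℤ)` in weight `k` moves the coefficients. So
boundedness at all cusps follows from `series`. Proved in `H90TwistedEis`. -/
theorem series_slash (k : ℤ) (c : (Fin 2 → ℤ) → ℂ) (δ : SL(2, ℤ)) :
    H90.genEis k c ∣[k] δ =
      H90.genEis k (fun v => c (v ᵥ* ((δ⁻¹ : SL(2, ℤ)) : Matrix (Fin 2) (Fin 2) ℤ))) :=
  H90.genEis_slash k c δ

/-- **The coefficients for a character** `χ` of `Γ₀(N)` which is trivial on the matrices with lower left
entry `0`: `charCoeff χ v` is `χ(α)⁻¹` if `v` is the second row of some `α ∈ Γ₀(N)`, and `0` if there is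
no such `α`. They satisfy `charCoeff (v γ⁻¹) = χ(γ) charCoeff v`, and for even `k` the terms `(0, ± 1)`
give the limit `2` at `i∞`. Proved in `H90TwistedEis`. -/
theorem coefficients {N : ℕ} {χ : Gamma0 N →* ℂˣ}
    (hpar : ∀ γ : Gamma0 N, (γ : SL(2, ℤ)) 1 0 = 0 → χ γ = 1) :
    (∀ α : Gamma0 N, H90.charCoeff χ (((α : SL(2, ℤ)) : Matrix (Fin 2) (Fin 2) ℤ) 1) =
      (((χ α)⁻¹ : ℂˣ) : ℂ)) ∧
    (∀ (γ : Gamma0 N) (v : Fin 2 → ℤ),
      H90.charCoeff χ (v ᵥ* (((γ : SL(2, ℤ))⁻¹ : SL(2, ℤ)) : Matrix (Fin 2) (Fin 2) ℤ)) =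
        (χ γ : ℂ) * H90.charCoeff χ v) ∧
    ∀ k : ℤ, Even k →
      ∑' v : Fin 2 → ℤ, (if v 0 = 0 then H90.charCoeff χ v * (v 1 : ℂ) ^ (-k) else 0) = 2 :=
  ⟨H90.charCoeff_bottom hpar, H90.charCoeff_mul_inv hpar, fun _ => H90.charCoeff_const_term hpar⟩

/-- **Twisted Eisenstein series.** For a unitary character `χ` of `Γ₀(N)`, trivial on the matrices with
lower left entry `0`, and even `k ≥ 4`, there is a holomorphic function of weight `k` with character
`χ`, bounded at all cusps, with limit `1` at `i∞`. It is one half of the series with the coefficients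
`charCoeff χ`. (For `k = 12` its quotient by `Δ` is the function in `exists_twisted_function` of
`GuideBridge`.) Proved in `H90TwistedEis`. -/
theorem twisted_eisenstein (N : ℕ) (χ : Gamma0 N →* ℂˣ) (h1 : ∀ γ, ‖(χ γ : ℂ)‖ = 1)
    (hpar : ∀ γ : Gamma0 N, (γ : SL(2, ℤ)) 1 0 = 0 → χ γ = 1)
    (k : ℤ) (hk : Even k) (hk4 : 4 ≤ k) :
    ∃ E : ℍ → ℂ, MDifferentiable 𝓘(ℂ) 𝓘(ℂ) E ∧
      (∀ γ : Gamma0 N, E ∣[k] (γ : SL(2, ℤ)) = (χ γ : ℂ) • E) ∧
      (∀ δ : SL(2, ℤ), IsBoundedAtImInfty (E ∣[k] δ)) ∧ Filter.Tendsto E atImInfty (𝓝 1) :=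
  H90.exists_twisted N χ h1 hpar k hk hk4

/-- **The function attached to a character.** Let `φ` be a character of `Γ₀(N)` with `n φ = 0` that
kills the parabolic and elliptic elements. There is a holomorphic function `h ≠ 0` with
`h(γτ) = φ(γ) h(τ)` such that `τ ↦ h(δτ)` has a Laurent expansion in `exp(2πiτ/N)` for every
`δ ∈ SL₂(ℤ)`: `h(δτ)` has period `N` because `δ Tᴺ δ⁻¹` is parabolic. Proved in `H90Surj`. -/
theorem function_of_character {N : ℕ} [NeZero N] {n : ℕ} (hn : n ≠ 0)
    (φ : Additive (Gamma0 N) →+ H90.Mu) (hφ : H4.IsPE φ) (hnφ : n • φ = 0) :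
    ∃ h : ℍ → ℂ, MDifferentiable 𝓘(ℂ) 𝓘(ℂ) h ∧ h ≠ 0 ∧
      (∀ δ : SL(2, ℤ), ∃ F, H24.HasExpC (fun τ : ℍ => Function.Periodic.qParam (N : ℝ) τ)
        (fun τ => h (δ • τ)) F) ∧
      ∀ (γ : Gamma0 N) (τ : ℍ),
        h ((γ : SL(2, ℤ)) • τ) = (φ (Additive.ofMul γ)).val * h τ :=
  H90.exists_hol_of_char hn φ hφ hnφ

/-! ## 2. From functions to series -/

/-- **Growth and expansion.** A holomorphic function `f` of period `N` such that `f(τ) q^k`,
`q = exp(2πiτ/N)`, is bounded at `i∞` has a Laurent expansion in `q`. Proved in `H90Exp`, from the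
removable singularity theorem. -/
theorem expansion_of_growth (N : ℕ) [NeZero N] {f : ℍ → ℂ} (hf : MDifferentiable 𝓘(ℂ) 𝓘(ℂ) f)
    (hper : ∀ τ : ℍ, f ((T ^ N : SL(2, ℤ)) • τ) = f τ) (k : ℕ)
    (hb : IsBoundedAtImInfty fun τ : ℍ => f τ * Function.Periodic.qParam (N : ℝ) τ ^ k) :
    ∃ F, H24.HasExpC (fun τ : ℍ => Function.Periodic.qParam (N : ℝ) τ) f F :=
  H90.exists_hasExpC_of_bounded N hf hper k hb

/-- **Roots of functions with expansions** have expansions (`|f|ⁿ` bounded implies `|f|` bounded).
Proved in `H90Exp`. -/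
theorem expansion_of_root (N : ℕ) [NeZero N] {f : ℍ → ℂ} (hf : MDifferentiable 𝓘(ℂ) 𝓘(ℂ) f)
    (hper : ∀ τ : ℍ, f ((T ^ N : SL(2, ℤ)) • τ) = f τ) {n : ℕ} (hn : n ≠ 0)
    (h : ∃ F, H24.HasExpC (fun τ : ℍ => Function.Periodic.qParam (N : ℝ) τ) (f ^ n) F) :
    ∃ F, H24.HasExpC (fun τ : ℍ => Function.Periodic.qParam (N : ℝ) τ) f F :=
  H90.mem_ExpAlg_of_pow N hf hper hn h

/-- **Functions are series.** A holomorphic function `G`, invariant under `Γ₀(N)`, such that all
functions `τ ↦ G(γτ)` have expansions in `exp(2πiτ/N)`, is the function of a good Laurent series over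
`ℂ`: its expansion in `exp(2πiτ/N)` contains only exponents divisible by `N`. Proved in `H90Good`. -/
theorem good_of_function {N : ℕ} [NeZero N] {G : ℍ → ℂ} (hG : MDifferentiable 𝓘(ℂ) 𝓘(ℂ) G)
    (hinv : ∀ γ ∈ Gamma0 N, H24.compHom γ G = G)
    (hexp : ∀ γ : SL(2, ℤ), ∃ F,
      H24.HasExpC (fun τ : ℍ => Function.Periodic.qParam (N : ℝ) τ) (fun τ => G (γ • τ)) F) :
    ∃ x : LaurentSeries ℂ, H24.Good ℂ N x ∧ H24.ev ℂ x = G :=
  H90.exists_good hG hinv hexp

/-- **Relations.** Every good series `x` is a root of a monic polynomial with coefficients in `K[j]` of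
degree `[SL₂(ℤ) : Γ₀(N)]` (over `ℂ`: the polynomial with the roots `x(γτ)`). Together with
`degree_bound` and `degree` of `GuideCusps`, applied to the field generated by `x` over the function
field, this gives `modular_of_good` of `GuideBridge`. Proved in `H90Deg`. -/
theorem relation_of_good {K : Type*} [Field K] [Algebra K ℂ] {N : ℕ} [NeZero N]
    [Fintype (SL(2, ℤ) ⧸ Gamma0 N)] {x : LaurentSeries K} (hx : H24.Good K N x) :
    ∃ p : ℕ → Polynomial K,
      x ^ (Fintype.card (SL(2, ℤ) ⧸ Gamma0 N)) +
        ∑ i ∈ Finset.range (Fintype.card (SL(2, ℤ) ⧸ Gamma0 N)),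
          Polynomial.aeval (jqModC K) (p i) * x ^ i = 0 :=
  H90.gexists_relation hx

/-- **Roots of series have coefficients in the same field.** If `W ∈ ℂ((q))` and `Wⁿ` has coefficients
in the algebraically closed field `K`, so has `W`: every `σ ∈ Aut(ℂ/K)` multiplies `W` by a root of
unity, which is `1` because the leading coefficient of `W` is in `K`; then `fixed_elements` (section 5).
Proved in `H90Good`. -/
theorem root_of_series (K : Type*) [Field K] [Algebra K ℂ] [IsAlgClosed K] {n : ℕ} (hn : n ≠ 0)
    {W : LaurentSeries ℂ} {x : LaurentSeries K} (h : W ^ n = coeffMap (algebraMap K ℂ) x) :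
    ∃ w : LaurentSeries K, coeffMap (algebraMap K ℂ) w = W ∧ w ^ n = x :=
  H90.mem_range_incl_of_pow_eq K hn h

/-- **Invariant roots of good functions are good.** This proves that the Kummer relation is injective
on classes: if the character of `h` is trivial, then `h` is a modular function over `K`. Proved in
`H90Good`, from `expansion_of_root`, `good_of_function` and `root_of_series`. -/
theorem good_root (K : Type*) [Field K] [Algebra K ℂ] [IsAlgClosed K] {N : ℕ} [NeZero N] {G : ℍ → ℂ}
    (hG : MDifferentiable 𝓘(ℂ) 𝓘(ℂ) G) (hinv : ∀ γ ∈ Gamma0 N, H24.compHom γ G = G) {n : ℕ}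
    (hn : n ≠ 0) {x : LaurentSeries K} (hx : H24.Good K N x) (h : G ^ n = H24.ev K x) :
    ∃ w : LaurentSeries K, H24.Good K N w ∧ H24.ev K w = G ∧ w ^ n = x :=
  H90.exists_good_of_pow K hG hinv hn hx h

/-! ## 3. Roots and characters -/

/-- **Holomorphic functions on `ℍ`** form a domain, and two holomorphic functions with the same `n`-th
power differ by an `n`-th root of unity. Proved in `H90Rel`. -/
theorem holomorphic_functions {f g : ℍ → ℂ} (hf : MDifferentiable 𝓘(ℂ) 𝓘(ℂ) f)
    (hg : MDifferentiable 𝓘(ℂ) 𝓘(ℂ) g) :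
    (f * g = 0 → f = 0 ∨ g = 0) ∧
      ∀ n : ℕ, n ≠ 0 → f ^ n = g ^ n → ∃ ζ : ℂ, ζ ^ n = 1 ∧ f = ζ • g :=
  ⟨H90.hol_eq_zero_or hf hg, fun _ hn => H90.hol_eq_of_pow_eq hn hf hg⟩

/-- **The character of a root.** If `h ≠ 0` is holomorphic and `hⁿ` is invariant under `Γ₀(N)`, then
`h(γτ) = χ(γ) h(τ)` for a character `χ` of `Γ₀(N)`. Proved in `H90Exist`. -/
theorem character_of_root {N : ℕ} [NeZero N] {n : ℕ} (hn : n ≠ 0) {h : ℍ → ℂ}
    (hh : MDifferentiable 𝓘(ℂ) 𝓘(ℂ) h) (h0 : h ≠ 0)
    (hinv : ∀ γ ∈ Gamma0 N, H24.compHom γ (h ^ n) = h ^ n) :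
    ∃ χ : Additive (Gamma0 N) →+ H90.Mu, ∀ (γ : Gamma0 N) (τ : ℍ),
      h ((γ : SL(2, ℤ)) • τ) = (χ (Additive.ofMul γ)).val * h τ :=
  H90.exists_char hn hh h0 hinv

/-- **A good function whose divisor is divisible by `n` has a holomorphic `n`-th root**: the order at a
point of `ℍ` is a multiple of the order at a place (`embedding_place` below, with the Cayley chart), and
`exists_nthRoot` of `GuideBridge` applies. Proved in `H90Exist`. -/
theorem root_of_divisible {K : Type*} [Field K] [Algebra K ℂ] {N : ℕ} [NeZero N] [IsAlgClosed K]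
    [CharZero K] [Algebra ℚ K] {n : ℕ} (hn : n ≠ 0) {a : H90.FX K N} (ha : a ≠ 0)
    (hg : H24.Good K N (a : LaurentSeries K))
    (hdiv : ∀ v : Place K (H90.FX K N), (n : ℤ) ∣ v.ord a) :
    ∃ h : ℍ → ℂ, MDifferentiable 𝓘(ℂ) 𝓘(ℂ) h ∧ h ^ n = H24.ev K (a : LaurentSeries K) :=
  H90.exists_root_of_dvd hn ha hg hdiv

/-- **Finiteness**: `Γ₀(N)` is finitely generated, so it has only finitely many characters of order
dividing `n`. Since a class is determined by its character, the `n`-torsion of `J₀(N)` is finite, before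
anything is known about Jacobians (S17). Proved in `H90Exist`. -/
theorem finitely_many_characters {N : ℕ} [NeZero N] {n : ℕ} (hn : n ≠ 0) :
    {χ : Additive (Gamma0 N) →+ H90.Mu | n • χ = 0}.Finite :=
  H90.finite_char hn

/-! ## 4. Places and points -/

/-- **Embeddings and places.** Let `F` be a function field of one variable over `K` (characteristic 0)
and `s : F → C((z))` an embedding over `K`, `K ⊂ C`. Either `s(f)` has order `0` for all `f`, or there
are a place `v` and a positive integer `m` such that the order of `s(f)` is `m · v(f)` for all `f`. It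
is applied to the embeddings of the function field of `X₀(N)` (a function field of one variable:
`H90Field`) which are given by the charts. Proved in `H90Exist`. -/
theorem embedding_place {K F C : Type*} [Field K] [Field F] [Algebra K F] [Field C] [Algebra K C]
    [CharZero K] [H94.FunField K F] (s : F →ₐ[K] LaurentSeries C) :
    (∀ f, (s f).order = 0) ∨
      ∃ (v : Place K F) (m : ℤ), 0 < m ∧ ∀ f : F, (s f).order = m * v.ord f :=
  H90.order_eq_zero_or_place s

/-- **The dictionary.** Every place `v` of the function field of `X₀(N)` is seen in a chart `z` after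
the substitution `τ ↦ γτ` with some `γ ∈ SL₂(ℤ)`: the order of a good function in the chart is `m` times
its order at `v` (`m` is the order of the stabiliser of the point in `Γ₀(N)/±1`, and at a cusp `N`
divided by the width); every holomorphic function with expansions at all cusps has an expansion in the
chart; and if a holomorphic function with an expansion in the chart is invariant under the parabolic and
elliptic elements of `Γ₀(N)`, then its order in the chart is divisible by `m`. Proved in `H96Chart` and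
`H90Bridge`, from the local monodromy of `j` (`local_monodromy` of `GuideCusps`). -/
theorem dictionary (K : Type*) [Field K] [Algebra K ℂ] [IsAlgClosed K] [CharZero K] [Algebra ℚ K]
    (N : ℕ) [NeZero N] (v : Place K (H90.FX K N)) :
    ∃ (z : ℍ → ℂ) (_ : H24.Chart z) (γ : SL(2, ℤ)) (m : ℕ), 0 < m ∧
      (∀ x : H90.FX K N, H24.Good K N (x : LaurentSeries K) → x ≠ 0 →
        ∃ X, H24.HasExpC z (fun τ => H24.ev K (x : LaurentSeries K) (γ • τ)) X ∧
          X.order = m * v.ord x) ∧
      (∀ g : ℍ → ℂ, MDifferentiable 𝓘(ℂ) 𝓘(ℂ) g →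
        (∀ δ : SL(2, ℤ), ∃ F, H24.HasExpC (fun τ : ℍ => Function.Periodic.qParam (N : ℝ) τ)
          (fun τ => g (δ • τ)) F) → ∃ G, H24.HasExpC z (fun τ => g (γ • τ)) G) ∧
      ∀ g : ℍ → ℂ, MDifferentiable 𝓘(ℂ) 𝓘(ℂ) g →
        (∀ σ : Gamma0 N, ((σ : SL(2, ℤ)) : Matrix (Fin 2) (Fin 2) ℤ).trace ^ 2 ≤ 4 →
          H24.compHom (σ : SL(2, ℤ)) g = g) →
        ∀ G, H24.HasExpC z (fun τ => g (γ • τ)) G → G ≠ 0 → (m : ℤ) ∣ G.order :=
  H90.placeDict K N v

/-- **Consequence**: if `h` is holomorphic with expansions at all cusps, invariant under the parabolic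
and elliptic elements of `Γ₀(N)`, and `hⁿ = a` is a good function, then the divisor of `a` is divisible
by `n`. This is the step of `exists_class` (`GuideBridge`) which needs the hypothesis on the character.
Proved in `H90Surj` from `dictionary` (`H90Bridge`). -/
theorem divisor_divisible {K : Type*} [Field K] [Algebra K ℂ] [IsAlgClosed K] [CharZero K]
    [Algebra ℚ K] {N : ℕ} [NeZero N] {n : ℕ} (hn : n ≠ 0) {a : H90.FX K N} (ha : a ≠ 0)
    (hg : H24.Good K N (a : LaurentSeries K)) {h : ℍ → ℂ} (hh : MDifferentiable 𝓘(ℂ) 𝓘(ℂ) h)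
    (hexp : ∀ δ : SL(2, ℤ), ∃ F, H24.HasExpC
      (fun τ : ℍ => Function.Periodic.qParam (N : ℝ) τ) (fun τ => h (δ • τ)) F)
    (hPE : ∀ σ : Gamma0 N, ((σ : SL(2, ℤ)) : Matrix (Fin 2) (Fin 2) ℤ).trace ^ 2 ≤ 4 →
      H24.compHom (σ : SL(2, ℤ)) h = h)
    (hpow : h ^ n = H24.ev K (a : LaurentSeries K)) (v : Place K (H90.FX K N)) :
    (n : ℤ) ∣ v.ord a :=
  H90.dvd_ord_of_pow (H90.placeDict K N) hn ha hg hh hexp hPE hpow v

/-- **Elliptic elements are rotations.** If `(tr γ)² < 4`, then `γ` has a fixed point `τ₀` in `ℍ`; in the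
Cayley chart at `τ₀` it is the multiplication by a number `ζ` of absolute value 1. Proved in
`H90Kappa`. -/
theorem elliptic_rotation (γ : SL(2, ℤ)) (h : ((γ : Matrix (Fin 2) (Fin 2) ℤ)).trace ^ 2 < 4) :
    ∃ τ₀ : ℍ, γ • τ₀ = τ₀ ∧
      ∃ ζ : ℂˣ, ‖(ζ : ℂ)‖ = 1 ∧ ∀ τ, H24.cayley τ₀ (γ • τ) = ζ * H24.cayley τ₀ τ :=
  (H90.exists_fixed γ h).imp fun _ h0 => ⟨h0, H90.cayley_smul h0⟩

/-- **The multiplier is a power of the rotation number.** Let `z` be a chart, `φ` a map of `ℍ` with
`z(φτ) = ζ z(τ)`, `|ζ| = 1`, and `f` a function with expansion `F ≠ 0` in `z` and `f(φτ) = c f(τ)`. Then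
`c = ζ ^ ord F`. For the `n`-th root `h` of a function with divisor `n D` the order is `m D(v)`, with `m`
and `v` as in `embedding_place`, and `ζ ^ m = 1` by the same formula for a modular function with a
simple zero at `v`. So `c = 1`: characters of torsion classes kill the elliptic elements, and, in the
chart `exp(2πiτ/(N n))`, the parabolic elements (`rel_isPE` of `GuideBridge`). Proved in `H90Kappa`. -/
theorem multiplier {z : ℍ → ℂ} (hz : H24.Chart z) {φ : ℍ → ℍ} {ζ : ℂˣ} (hζ : ‖(ζ : ℂ)‖ = 1)
    (hφ : ∀ τ, z (φ τ) = ζ * z τ) {f : ℍ → ℂ} {F : LaurentSeries ℂ} (hF : H24.HasExpC z f F)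
    (hF0 : F ≠ 0) {c : ℂ} (hc : ∀ τ, f (φ τ) = c * f τ) : c = (ζ : ℂ) ^ F.order :=
  H90.eq_zpow_order hz hζ hφ hF hF0 hc

/-! ## 5. Descent -/

/-- **Transcendental elements are moved.** Let `L` be algebraically closed, `a ∈ L` transcendental over
the subfield `k`. There is `σ ∈ Aut(L/k)` with `σ(a) = a + 1` (extend `a` to a transcendence basis).
Proved in `H90DescentLin`. -/
theorem translation {k L : Type*} [Field k] [Field L] [Algebra k L] [IsAlgClosed L] {a : L}
    (ha : Transcendental k a) : ∃ σ : L ≃ₐ[k] L, σ a = a + 1 :=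
  H90.exists_algEquiv_add_one ha

/-- **Fixed elements.** Let `k ⊂ L` be algebraically closed of characteristic 0. An element of `L` which
is fixed by a subgroup of finite index of `Aut(L/k)` is in `k` (otherwise some power of the `σ` of
`translation` fixes `a`, but `σⁿ(a) = a + n`). Proved in `H90DescentLin`. -/
theorem fixed_elements {k L : Type*} [Field k] [Field L] [Algebra k L] [IsAlgClosed k]
    [IsAlgClosed L] [CharZero L] (H : Subgroup (L ≃ₐ[k] L)) [H.FiniteIndex] {a : L}
    (ha : ∀ σ ∈ H, σ a = a) : ∃ b : k, algebraMap k L b = a :=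
  H90.mem_range_of_finiteIndex H ha

/-- **Coefficients decide the field.** Let `F₀` be a field of Laurent series over `ℚ`, `L0 ⊂ L1` fields
of characteristic 0, and `y` a series over `L0` that belongs to the field `L1·F₀`. Then `y ∈ L0·F₀`
(apply an `L0`-linear functional `L1 → L0` to the coefficients of a relation `p = r y`). Proved in
`H90DescentLin`. -/
theorem coefficients_decide {L0 L1 : Type*} [Field L0] [Field L1] [Algebra L0 L1] [Algebra ℚ L0]
    [Algebra ℚ L1] (F₀ : IntermediateField ℚ (LaurentSeries ℚ)) {y : LaurentSeries L0}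
    (hy : coeffMap (algebraMap L0 L1) y ∈ laurentBaseChange L1 F₀) :
    y ∈ laurentBaseChange L0 F₀ :=
  H90.exists_of_coeff_mem F₀ hy

/-- **The `q`-adic place.** A homomorphism `φ` over `K` from a field `F` to `K((q))` whose image contains
a series of order 1 defines a place of `F`, with `ord f = ord_q φ(f)`. Proved in `H90Place`; used for
`F = K·F₀ ⊂ K((q))`. -/
theorem q_adic_place {K F : Type*} [Field K] [Field F] [Algebra K F] (φ : F →+* LaurentSeries K)
    (hφ : ∀ a : K, φ (algebraMap K F a) = algebraMap K (LaurentSeries K) a)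
    (ht : ∃ t : F, (φ t).order = 1) :
    ∃ P : Place K F, ∀ f : F, P.ord f = (φ f).order :=
  ⟨H90.laurentPlace φ hφ ht, H90.laurentPlace_ord φ hφ ht⟩

/-- **It is fixed by the automorphisms of the constants.** `arithmeticGalois F₀ σ` is the action of
`σ ∈ Aut(L/ℚ)` on `L·F₀` through the coefficients; `H90.infPlace` is the `q`-adic place. Proved in
`H90Descent`. -/
theorem q_adic_place_fixed (L : Type*) [Field L] [Algebra ℚ L]
    {F₀ : IntermediateField ℚ (LaurentSeries ℚ)} (h : ∃ x ∈ F₀, x.order = 1) (σ : L ≃ₐ[ℚ] L) :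
    arithmeticGalois F₀ σ • H90.infPlace L h = H90.infPlace L h :=
  H90.smul_infPlace L h σ

/-- **A normalised function.** Let `D` be a divisor of degree 0 and `P` a rational place
(`H90.IsRational P`: every function without pole at `P` has a value in `K`). If `L(D + m P) ≠ 0` for
some `m ≥ 0`, then for the smallest such `m` this space has dimension 1. (For a function field the
hypothesis holds by Riemann's inequality, `H90.exists_L_ne_bot`.) Proved in `H90DescentCore`. -/
theorem normalised_function {K F : Type*} [Field K] [Field F] [Algebra K F]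
    [HasPrincipalDivisors K F] {P : Place K F} (hrat : H90.IsRational P) (hP : 0 < P.deg)
    {D : Divisor K F} (hD : Divisor.degree D = 0)
    (hL : ∃ m : ℕ, riemannRochSpace (D + Finsupp.single P (m : ℤ)) ≠ ⊥) :
    ∃ (m : ℤ) (f : F), f ≠ 0 ∧ f ∈ riemannRochSpace (D + Finsupp.single P m) ∧
      ∀ g ∈ riemannRochSpace (D + Finsupp.single P m), ∃ c : K, g = algebraMap K F c * f :=
  H90.exists_unique_section hrat hP hD hL

/-- **Invariance up to constants.** Let `div u = n D`, let `f` span `L(D + m P)`, and let `s` be a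
semilinear automorphism of `F` that fixes `P` and the class of `D`. Then `s(u fⁿ)` is a constant times
`u fⁿ`. (`u fⁿ` has the divisor `n (D + div f)`, which depends only on the class of `D`, on `P` and on
`m`.) Proved in `H90DescentCore`. -/
theorem invariance {K F : Type*} [Field K] [Field F] [Algebra K F] [HasPrincipalDivisors K F]
    {P : Place K F} (hrat : H90.IsRational P) (hP : 0 < P.deg) {D : Divisor K F} {m : ℤ} {f : F}
    (hf0 : f ≠ 0) (hf : f ∈ riemannRochSpace (D + Finsupp.single P m))
    (huniq : ∀ g ∈ riemannRochSpace (D + Finsupp.single P m), ∃ c : K, g = algebraMap K F c * f)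
    {n : ℕ} {u : F} (hu0 : u ≠ 0) (hu : ∀ v : Place K F, v.ord u = n * D v)
    (s : SemilinearAut K F) (hsP : s • P = P) {g : F} (hg0 : g ≠ 0)
    (hsD : ∀ v : Place K F, (s • D) v = D v + v.ord g) :
    ∃ c : K, c ≠ 0 ∧ s • (u * f ^ n) = algebraMap K F c * (u * f ^ n) :=
  H90.semilinear_invariant hrat hP hf0 hf huniq hu0 hu s hsP hg0 hsD

/-- **Functions invariant up to constants descend.** If every `σ` in a subgroup of finite index of
`Aut(L1/L0)` multiplies the coefficients of `u ∈ L1·F₀` by a constant, then `u` is a constant times an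
element of `L0·F₀` (divide by the leading coefficient; use `fixed_elements`, `coefficients_decide`). The
subgroup is the stabiliser of the class of `D`; its index is finite because the `n`-torsion is finite.
With `w = a^(1/n) f⁻¹` this gives `descent` of `GuideBridge`. Proved in `H90Descent`. -/
theorem descend_of_invariant {L0 L1 : Type*} [Field L0] [Field L1] [Algebra L0 L1] [Algebra ℚ L0]
    [Algebra ℚ L1] [IsAlgClosed L0] [IsAlgClosed L1]
    {F₀ : IntermediateField ℚ (LaurentSeries ℚ)} (H : Subgroup (L1 ≃ₐ[L0] L1)) [H.FiniteIndex]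
    {u : laurentBaseChange L1 F₀} (hu : u ≠ 0)
    (hinv : ∀ σ ∈ H, ∃ c : L1, ∀ j : ℤ, σ ((u : LaurentSeries L1).coeff j) =
      c * (u : LaurentSeries L1).coeff j) :
    ∃ (u0 : laurentBaseChange L0 F₀) (a : L1), u0 ≠ 0 ∧ a ≠ 0 ∧
      u = algebraMap L1 _ a * H90.baseIncl L0 L1 F₀ u0 :=
  H90.exists_descend_of_invariant H hu hinv

end Fermat.Agent.Guide.KummerSteps

end
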