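import Fermat.Agent.H64A1

/-!
# Guide to the proof: Kummer theory with restricted ramification (companion of `GuideEulerChar`)

This file is a machine-checked table of contents. Every theorem below is a citation of a theorem of
the library, with its statement written out. Nothing imports this file.

**What it contains.** The steps behind `GuideEulerChar.card_H1_GKS`: for a number field `K` inside `ℚ̄` which
is unramified outside `S` and contains the `p`-th roots of unity, where `p ∈ S`, the group `H^1(G_{K,S}, ℤ/p)`
is the group of the `x ∈ Kˣ` whose valuations outside `S` are divisible by `p`, modulo `p`-th powers; and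
so its order is known, up to the class group. The order of the second group
(`GuideEulerChar.card_selmer`) and the equivariant form (`GuideEulerSteps`, section 6) are not repeated.

**The idea.** There are no local fields and no completions in this part of the library. A place is a
valuation subring `A` of `ℚ̄` (`GuideAbsGal`); `A.LiesOverPrime q` says that `q` is not invertible in `A`;
the inertia group of `A` is a subgroup of `Gal(ℚ̄/ℚ)`, and "unramified outside `S`" means that the inertia
groups of all `A` over all `q` outside `S` act trivially. So two statements are needed which connect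
these subgroups with the valuations of a number field.
 * If `p ∣ v(x)` at the place `v` of `K` below `A`, and `p` is invertible in `A`, then the elements of the
   inertia group of `A` which fix `K` fix `x^(1/p)`: change `x` by a `p`-th power and make it a unit at `v`.
   Then `w = x^(1/p)` is a unit of `A`, and `σ(w) / w` is a `p`-th root of unity which is congruent to `1`
   modulo the maximal ideal of `A`, so it is `1` (`inertia_fixes_root`).
 * Conversely, if inertia acts trivially on a Galois number field `E` which contains `K` and `y = x^(1/p)`,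
   then the place of `E` below `A` has ramification index `1` (the order of the inertia group), the
   valuations of `K` and `E` agree on `K`, and `v(x) = p v(y)` (`valuation_divisible`).
The Kummer character of `x` is the function `f` on `Gal(ℚ̄/K)` with `σ(y) = ζ^(f σ) y`, where `y^p = x` and
`ζ ∈ K`. Every homomorphism from `Gal(ℚ̄/K)` to `ℤ/p` which is trivial on an open subgroup is of this form,
by Lagrange resolvents and Dedekind's theorem on the independence of characters (`exists_eigenvector`).

**Order of the file.** 1. The place below. 2. Ramification of `p`-th roots. 3. Kummer characters.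
4. Level structures and the Selmer condition. 5. The Kummer isomorphism. 6. The count.

**Where.** NOTES.md, Appendix A.10. Used in S55, S56, S43, S59 and through them in S01, S03, S04, S06, S38,
S45, S46, S50, S60 (inverses in `product_inverse`: not in S55). `place_below` and `integral_at_place` are
also used in S09, S12, S15, S33, S36, S39, S40, S44, S58, `place_below` and `place_above` in S47.
Author: helper64.
-/

set_option autoImplicit false

open NumberField IsDedekindDomain
open Fermat.Agent.H63 Fermat.Agent.H55 Fermat.Agent.H64 ExtCitation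

namespace Fermat.Agent.Guide.KummerTheory

/-- The algebraic closure of `ℚ`. -/
local notation "Qb" => AlgebraicClosure ℚ

/-- The absolute Galois group of `ℚ` (inside the fixed algebraic closure). -/
local notation "GQ" => (AlgebraicClosure ℚ ≃ₐ[ℚ] AlgebraicClosure ℚ)

/-! ## 1. The place below

`L` is an algebraic extension of `ℚ`, Galois over `ℚ` (for the applications `L = ℚ̄`), `A` a valuation subring
of `L` over the prime number `q`, and `K` a number field in `L`. `center A` is the prime ideal of `𝓞 L` of
the integers which are not units of `A`. -/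

section

variable {L : Type*} [Field L] [CharZero L] [IsGalois ℚ L]

omit [CharZero L] [IsGalois ℚ L] in
/-- **The place below** (`H64KumRam`): `placeBelow K hq hA`, the prime of `𝓞 K` below the centre of `A`. It is
not zero, since it contains `q`. -/
theorem place_below (K : Type*) [Field K] [NumberField K] [Algebra K L] {q : ℕ}
    (hq : q.Prime) {A : ValuationSubring L} (hA : A.LiesOverPrime q) :
    (placeBelow K hq hA).asIdeal = (center A).comap (algebraMap (𝓞 K) (𝓞 L)) ∧
      (center A).comap (algebraMap (𝓞 K) (𝓞 L)) ≠ ⊥ :=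
  ⟨rfl, comap_center_ne_bot hq hA⟩

/-- **Elements of `K` and elements of `A`** (`H64KumRam`): if `v` is the place below `A` and `v(u) ≤ 1`
(multiplicatively written), then `u ∈ A` (write `u = a / d` with integers `a` and `d`, `d` prime to `v`); if
`v(u) = 1`, then `u` is a unit of `A`. -/
theorem integral_at_place (K : Type*) [Field K] [NumberField K] [Algebra K L]
    {q : ℕ} (hq : q.Prime) {A : ValuationSubring L} (hA : A.LiesOverPrime q) {u : K} :
    ((placeBelow K hq hA).valuation K u ≤ 1 → algebraMap K L u ∈ A) ∧
      ((placeBelow K hq hA).valuation K u = 1 → A.valuation (algebraMap K L u) = 1) :=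
  ⟨algebraMap_mem_of_valuation_le_one K hq hA, valuation_algebraMap_eq_one K hq hA⟩

end

/-- **Every place of a number field is below a place of `ℚ̄`** (`H64Kummer`): by going up for `𝓞 K ⊂ 𝓞 ℚ̄`,
and since every maximal ideal of the integers of `ℚ̄` is a centre (`GuideAbsGal`). -/
theorem place_above {K : IntermediateField ℚ Qb} [NumberField K] (v : HeightOneSpectrum (𝓞 K)) :
    ∃ (ℓ : ℕ) (hℓ : ℓ.Prime) (A : ValuationSubring Qb) (hA : A.LiesOverPrime ℓ),
      placeBelow K hℓ hA = v ∧ (ℓ : 𝓞 K) ∈ v.asIdeal :=
  exists_placeBelow_eq v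

/-- **Different residue characteristics** (`H64Kummer`): a prime number `q' ≠ q` is not in the place below a
place over `q`. -/
theorem other_primes {K : IntermediateField ℚ Qb} [NumberField K] {q q' : ℕ} (hq : q.Prime)
    (hq' : q'.Prime) (hne : q ≠ q') {A : ValuationSubring Qb} (hA : A.LiesOverPrime q) :
    ((q' : ℕ) : 𝓞 K) ∉ (placeBelow K hq hA).asIdeal :=
  notMem_placeBelow hq hq' hne hA

/-! ## 2. Ramification of `p`-th roots -/

section

variable {L : Type*} [Field L] [CharZero L] [IsGalois ℚ L]

/-- **Roots of elements whose valuation is divisible by `p`** (`H64KumRam`). Let `A` be a place over `q` whose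
residue characteristic is not `p`, `v` the place of `K` below it, `v(x) = p n` (the statement is written
multiplicatively) and `y^p = x`. Every `σ` in the inertia group of `A` which is the identity on `K` fixes `y`.
Proof: see the header. The roots of unity of order `p` are different modulo the centre of `A`
(`H63.eq_of_pow_eq_one_of_sub_mem`). -/
theorem inertia_fixes_root {p : ℕ} (hp : p.Prime) {K : Type*} [Field K] [NumberField K]
    [Algebra K L] {q : ℕ} (hq : q.Prime) {A : ValuationSubring L} (hA : A.LiesOverPrime q)
    (hpA : (p : 𝓞 L) ∉ center A) {σ : L ≃ₐ[ℚ] L} (hσ : σ ∈ A.inertiaSubgroupIn ℚ)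
    (hσK : ∀ x : K, σ (algebraMap K L x) = algebraMap K L x)
    {x : K} (n : ℤ) (hvx : (placeBelow K hq hA).valuation K x = WithZero.exp ((p : ℤ) * n))
    {y : L} (hy : y ^ p = algebraMap K L x) : σ y = y :=
  H64.inertia_fixes_root hp hq hA hpA hσ hσK n hvx hy

/-- **Trivial inertia means ramification index one** (`H64KumRam`): let `E` be a number field in `L`, Galois
over `ℚ`, on which the inertia group of `A` acts trivially. Every element of the inertia group of the
place `P` of `E` below `A` is the restriction of an element of the inertia group of `A` (`GuideAbsGal`), so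
the inertia group of `P` is trivial; its order is the ramification index (Mathlib). -/
theorem unramified_below (E : Type*) [Field E] [NumberField E] [IsGalois ℚ E]
    [Algebra E L] (A : ValuationSubring L)
    (hI : ∀ σ ∈ A.inertiaSubgroupIn ℚ, ∀ x : E, σ (algebraMap E L x) = algebraMap E L x) :
    ((center A).comap (algebraMap (𝓞 E) (𝓞 L))).ramificationIdx ℤ = 1 :=
  ramificationIdx_eq_one_of_inertia E A hI

/-- **Then the valuations of `K ⊂ E` agree on `K`** (`H64KumRam`). -/
theorem valuation_in_tower (K E : Type*) [Field K] [NumberField K] [Field E]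
    [NumberField E] [IsGalois ℚ E] [Algebra K E] [Algebra E L] [Algebra K L] [IsScalarTower K E L]
    {q : ℕ} (hq : q.Prime) {A : ValuationSubring L} (hA : A.LiesOverPrime q)
    (hI : ∀ σ ∈ A.inertiaSubgroupIn ℚ, ∀ x : E, σ (algebraMap E L x) = algebraMap E L x) (x : K) :
    (placeBelow K hq hA).valuation K x = (placeBelow E hq hA).valuation E (algebraMap K E x) :=
  valuation_placeBelow_tower K E hq hA hI x

/-- **The converse** (`H64KumRam`): if inertia acts trivially on a Galois number field `E` which contains `K`
and a `p`-th root `y` of `x ∈ K`, `x ≠ 0`, then `p ∣ v(x)` at the place `v` of `K` below `A`. -/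
theorem valuation_divisible (p : ℕ) (K E : Type*) [Field K] [NumberField K] [Field E]
    [NumberField E] [IsGalois ℚ E] [Algebra K E] [Algebra E L] [Algebra K L] [IsScalarTower K E L]
    {q : ℕ} (hq : q.Prime) {A : ValuationSubring L} (hA : A.LiesOverPrime q)
    (hI : ∀ σ ∈ A.inertiaSubgroupIn ℚ, ∀ x : E, σ (algebraMap E L x) = algebraMap E L x)
    {x : K} (hx : x ≠ 0) {y : E} (hy : y ^ p = algebraMap K E x) :
    ∃ n : ℤ, (placeBelow K hq hA).valuation K x = WithZero.exp ((p : ℤ) * n) :=
  exists_valuation_eq_exp_mul p K E hq hA hI hx hy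

end

/-! ## 3. Kummer characters

`K` is a subfield of `ℚ̄`, `K.fixingSubgroup` is `Gal(ℚ̄/K)`, and `ζ` is a primitive `p`-th root of unity. -/

section

variable {p : ℕ} {K : IntermediateField ℚ Qb} {ζ : Qb}

/-- **The notion** (`H64Kummer`): `f` is the Kummer character of `x` with respect to `ζ` if some `p`-th root
`y` of `x` satisfies `σ(y) = ζ^(f σ) y` for all `σ`. -/
theorem isKummer_iff (x : Kˣ) (f : K.fixingSubgroup → ZMod p) :
    IsKummer p ζ x f ↔
      ∃ y : Qb, y ^ p = ((x : K) : Qb) ∧ ∀ σ : K.fixingSubgroup, (σ : GQ) y = ζ ^ (f σ).val * y :=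
  Iff.rfl

/-- **Existence and uniqueness** (`H64Kummer`): every `x ∈ Kˣ` has a Kummer character. If `ζ ∈ K`, there is
only one: the roots differ by powers of `ζ`, which are fixed by `Gal(ℚ̄/K)`. -/
theorem existence_uniqueness [NeZero p] (hζ : IsPrimitiveRoot ζ p) (x : Kˣ) :
    (∃ f : K.fixingSubgroup → ZMod p, IsKummer p ζ x f) ∧
      (ζ ∈ K → ∀ f f' : K.fixingSubgroup → ZMod p, IsKummer p ζ x f → IsKummer p ζ x f' → f = f') :=
  ⟨IsKummer.exists hζ x, fun hζK _ _ h h' => h.unique hζ hζK h'⟩

/-- **The Kummer character is a homomorphism** (`H64Kummer`), if `ζ ∈ K`. -/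
theorem kummer_character_hom [NeZero p] (hζ : IsPrimitiveRoot ζ p) (hζK : ζ ∈ K) {x : Kˣ}
    {f : K.fixingSubgroup → ZMod p} (h : IsKummer p ζ x f) (σ τ : K.fixingSubgroup) :
    f (σ * τ) = f σ + f τ :=
  h.map_mul' hζ hζK σ τ

/-- **Products and inverses** (`H64Kummer`): the Kummer character of `x x'` is the sum of the Kummer
characters, that of `x⁻¹` is the negative. -/
theorem product_inverse [NeZero p] (hζ : IsPrimitiveRoot ζ p) {x x' : Kˣ}
    {f f' : K.fixingSubgroup → ZMod p} (h : IsKummer p ζ x f) (h' : IsKummer p ζ x' f') :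
    IsKummer p ζ (x * x') (f + f') ∧ IsKummer p ζ x⁻¹ (-f) :=
  ⟨h.mul hζ h', h.inv hζ⟩

/-- **The Kummer character of `x` is zero exactly if `x` is a `p`-th power in `K`** (`H64Kummer`), by Galois
theory: the fixed field of `Gal(ℚ̄/K)` is `K`. -/
theorem character_zero_iff [NeZero p] {x : Kˣ} :
    IsKummer p ζ x (0 : K.fixingSubgroup → ZMod p) ↔ ∃ z : Kˣ, z ^ p = x :=
  IsKummer.zero_iff

/-- **Eigenvectors by Lagrange resolvents** (`H64Kummer`). Let `U` be a group of automorphisms of `ℚ̄` which
fix `ζ`, and `f : U → ℤ/p` a homomorphism which is zero on the elements of `U` that fix the number field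
`F`. There is `y ≠ 0` with `σ(y) = ζ^(f σ) y` for all `σ ∈ U`. (Take `y = ∑ ζ^(-f σ) σ(z)`, the sum over the
cosets of `U` modulo the elements which fix `F`, with `z ∈ F` such that `y ≠ 0`; it exists since different
embeddings of `F` are linearly independent.) -/
theorem exists_eigenvector [NeZero p] (hζ : IsPrimitiveRoot ζ p) (U : Subgroup GQ)
    (hζU : ∀ σ ∈ U, σ ζ = ζ) (f : U → ZMod p) (hmul : ∀ σ τ, f (σ * τ) = f σ + f τ)
    (F : IntermediateField ℚ Qb) [FiniteDimensional ℚ F]
    (hF : ∀ s : U, (s : GQ) ∈ F.fixingSubgroup → f s = 0) :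
    ∃ y : Qb, y ≠ 0 ∧ ∀ σ : U, (σ : GQ) y = ζ ^ (f σ).val * y :=
  H64.exists_eigenvector hζ U hζU f hmul F hF

end

/-! ## 4. Level structures and the Selmer condition

Continuous cochains are defined without topology: a *level structure* is a set of subgroups of finite
index, the open ones, and `LC1 𝓛 f` says that `f` is invariant under right translation by an open
subgroup (`GuideLevelCohomology`, `GuidePoitouTate`). `𝓛.onSub U` is the induced structure on `U`. -/

section

variable {p : ℕ} {K : IntermediateField ℚ Qb} {ζ : Qb} {S : Finset Nat.Primes}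

/-- **The level structure of `G_{ℚ,S}`** (`H64Kummer`, `H64A1`): a subgroup is open if it contains
`Gal(ℚ̄/F)` for a number field `F` which is unramified outside `S`. It is the structure `ramLevels S` of
`GuidePoitouTate`. -/
theorem level_structure (V : Subgroup GQ) :
    ((levelsS S).op V ↔
      ∃ F : IntermediateField ℚ Qb, F.IsUnramifiedOutside S ∧ F.fixingSubgroup ≤ V) ∧
    levelsS S = ramLevels S :=
  ⟨Iff.rfl, levelsS_eq S⟩

/-- **Adjoining an element fixed by inertia** (`H64Kummer`): if `K` is unramified outside `S` and `y` is fixed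
by the inertia groups of all places over primes outside `S`, then `K(y)` is unramified outside `S`. -/
theorem adjoin_unramified [NumberField K] (hK : K.IsUnramifiedOutside S) {y : Qb}
    (hy : ∀ q : Nat.Primes, q ∉ S → ∀ A : ValuationSubring Qb, A.LiesOverPrime (q : ℕ) →
      ∀ σ ∈ A.inertiaSubgroupIn ℚ, σ y = y) :
    (K ⊔ IntermediateField.adjoin ℚ {y}).IsUnramifiedOutside S :=
  H64.adjoin_unramified hK hy

/-- **The Selmer condition** (`H64Kummer`, `H64A1`): `VS S K p` is the group of the `x ∈ Kˣ` whose valuation
is divisible by `p` at all places which are not above `S`; it is the group `selT K T p` of `GuideEulerChar`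
for the set `T = placesS S K` of the places above `S`, which is finite. -/
theorem selmer_condition (S : Finset Nat.Primes) (K : Type*) [Field K] [NumberField K] (p : ℕ) :
    (∀ x : Kˣ, x ∈ VS S K p ↔ ∀ v : HeightOneSpectrum (𝓞 K),
      (∀ q ∈ S, ((q : ℕ) : 𝓞 K) ∉ v.asIdeal) →
        (p : ℤ) ∣ Multiplicative.toAdd (v.valuationOfNeZero x)) ∧
    (∀ v : HeightOneSpectrum (𝓞 K), v ∈ placesS S K ↔ ∃ q ∈ S, ((q : ℕ) : 𝓞 K) ∈ v.asIdeal) ∧
    VS S K p = H47.selT K (placesS S K) p ∧ (placesS S K).Finite :=
  ⟨fun _ => mem_VS, fun _ => mem_placesS, VS_eq_selT, finite_placesS⟩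

/-- **Inertia outside `S` fixes the roots of the elements of `VS`** (`H64Kummer`), if `p ∈ S` and `K` is
unramified outside `S`: this is `inertia_fixes_root` for all places over `q ∉ S`. -/
theorem root_fixed [NumberField K] [Fact p.Prime]
    (hpS : ∀ q : Nat.Primes, (q : ℕ) = p → q ∈ S)
    (hK : K.IsUnramifiedOutside S) {x : Kˣ} (hx : x ∈ VS S K p) {y : Qb}
    (hy : y ^ p = ((x : K) : Qb)) (q : Nat.Primes) (hq : q ∉ S) (A : ValuationSubring Qb)
    (hA : A.LiesOverPrime (q : ℕ)) (σ : GQ) (hσ : σ ∈ A.inertiaSubgroupIn ℚ) : σ y = y :=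
  IsKummer.fixes_root hpS hK hx hy q hq A hA σ hσ

/-- **So the Kummer character of an element of `VS` is a character of `G_{K,S}`** (`H64Kummer`): it is
trivial on `Gal(ℚ̄/K(y))`. -/
theorem character_unramified [NumberField K] [Fact p.Prime] (hζ : IsPrimitiveRoot ζ p)
    (hζK : ζ ∈ K) (hpS : ∀ q : Nat.Primes, (q : ℕ) = p → q ∈ S)
    (hK : K.IsUnramifiedOutside S) {x : Kˣ} (hx : x ∈ VS S K p)
    {f : K.fixingSubgroup → ZMod p} (h : IsKummer p ζ x f) :
    LC1 ((levelsS S).onSub K.fixingSubgroup) f :=
  h.lc1 hζ hζK hpS hK hx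

/-- **Every character of `G_{K,S}` with values in `ℤ/p` comes from `VS`** (`H64Kummer`): let `y` be an
eigenvector for `f` (`exists_eigenvector`, with a number field `F ⊇ K` which is unramified outside `S` and on
whose Galois group `f` is trivial). Then `x = y^p` is fixed by `Gal(ℚ̄/K)`, and inertia outside `S` fixes `y`,
so that `valuation_divisible` applies to the normal closure of `K(y)`. Here `p ∈ S` is not needed. -/
theorem character_from_selmer [NumberField K] [Fact p.Prime] (hζ : IsPrimitiveRoot ζ p)
    (hζK : ζ ∈ K) (hK : K.IsUnramifiedOutside S)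
    {f : K.fixingSubgroup → ZMod p} (hmul : ∀ σ τ, f (σ * τ) = f σ + f τ)
    (hf : LC1 ((levelsS S).onSub K.fixingSubgroup) f) :
    ∃ x ∈ VS S K p, IsKummer p ζ x f :=
  exists_isKummer hζ hζK hK hmul hf

end

/-! ## 5. The Kummer isomorphism

`H1 𝓛 ρ` is the first cohomology group with respect to the level structure `𝓛`, `Z1 𝓛 ρ` the group of
cocycles and `H1π 𝓛 ρ : Z1 𝓛 ρ → H1 𝓛 ρ` the projection. -/

/-- **Cocycles of a trivial module are homomorphisms, and there are no coboundaries** (`H64KummerIso`): `f` is
a cocycle if it is locally constant and `f(g h) = f(g) + f(h)`, and `Z1 → H1` is injective. -/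
theorem trivial_coefficients {G : Type*} [Group G] {p : ℕ} (𝓛 : Levels G) :
    (∀ f : G → ZMod p, f ∈ Z1 𝓛 (Representation.trivial (ZMod p) G (ZMod p)) ↔
      LC1 𝓛 f ∧ ∀ g h, f (g * h) = f g + f h) ∧
    Function.Injective (H1π 𝓛 (Representation.trivial (ZMod p) G (ZMod p))) :=
  ⟨fun _ => mem_Z1_trivial, H1π_trivial_injective 𝓛⟩

section

variable {p : ℕ} [Fact p.Prime] {K : IntermediateField ℚ Qb} [NumberField K] {ζ : Qb}
  {S : Finset Nat.Primes}

/-- **The Kummer map** (`H64KummerIso`) sends an element of `VS` to the class of its Kummer character. -/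
theorem kummerMap_apply (hζ : IsPrimitiveRoot ζ p) (hζK : ζ ∈ K)
    (hpS : ∀ q : Nat.Primes, (q : ℕ) = p → q ∈ S) (hK : K.IsUnramifiedOutside S)
    (x : VS S K p) {f : K.fixingSubgroup → ZMod p} (hf : IsKummer p ζ (x : Kˣ) f) :
    kummerMap hζ hζK hpS hK x = Multiplicative.ofAdd (H1π ((levelsS S).onSub K.fixingSubgroup)
      (Representation.trivial (ZMod p) K.fixingSubgroup (ZMod p)) ⟨f, mem_Z1_trivial.2
      ⟨hf.lc1 hζ hζK hpS hK x.2, hf.map_mul' hζ hζK⟩⟩) :=
  kummerMap_eq hζ hζK hpS hK x hf

/-- **The Kummer isomorphism** (`H64KummerIso`): the Kummer map is onto `H^1(G_{K,S}, ℤ/p)`, its kernel is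
the group of `p`-th powers, and so the order of `H^1(G_{K,S}, ℤ/p)` is the index of the `p`-th powers in
`VS`. -/
theorem kummer_isomorphism (hζ : IsPrimitiveRoot ζ p) (hζK : ζ ∈ K)
    (hpS : ∀ q : Nat.Primes, (q : ℕ) = p → q ∈ S) (hK : K.IsUnramifiedOutside S) :
    Function.Surjective (kummerMap hζ hζK hpS hK) ∧
    (kummerMap hζ hζK hpS hK).ker = (powMonoidHom p : Kˣ →* Kˣ).range.subgroupOf (VS S K p) ∧
    Nat.card (H1 ((levelsS S).onSub K.fixingSubgroup)
      (Representation.trivial (ZMod p) K.fixingSubgroup (ZMod p))) =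
      Nat.card (VS S K p ⧸ (powMonoidHom p : Kˣ →* Kˣ).range.subgroupOf (VS S K p)) :=
  ⟨kummerMap_surjective hζ hζK hpS hK, kummerMap_ker hζ hζK hpS hK, card_H1_eq hζ hζK hpS hK⟩

end

/-! ## 6. The count -/

/-- **The rank of the units** (`H64A1`): a number field which contains the `p`-th roots of unity, `p > 2`, has
no real place, so `2 (rank + 1) = [K : ℚ]`. -/
theorem unit_rank {K : Type*} [Field K] [NumberField K] {p : ℕ} (hp : 2 < p) {ζ : K}
    (hζ : IsPrimitiveRoot ζ p) :
    2 * (NumberField.Units.rank K + 1) = Module.finrank ℚ K :=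
  rank_add_one hp hζ

/-- **The dimension of `H^1(G_{K,S}, ℤ/p)`** (`H64A1`): it is finite and equal to `[K : ℚ] / 2 + #S(K) + c`,
where `p^c` is the order of the `p`-torsion of the `S`-class group. This is the Kummer isomorphism, the
formula `GuideEulerChar.card_selmer` (Dirichlet's unit theorem) and `unit_rank`. -/
theorem dimension_H1 {p : ℕ} [Fact p.Prime] {K : IntermediateField ℚ Qb} [NumberField K]
    {ζ : Qb} {S : Finset Nat.Primes} (hp2 : p ≠ 2) (hζ : IsPrimitiveRoot ζ p) (hζK : ζ ∈ K)
    (hpS : ∀ q : Nat.Primes, (q : ℕ) = p → q ∈ S) (hK : K.IsUnramifiedOutside S) :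
    FiniteDimensional (ZMod p) (H1 ((ramLevels S).onSub K.fixingSubgroup)
      (Representation.trivial (ZMod p) K.fixingSubgroup (ZMod p))) ∧
    ∃ c : ℕ, Nat.card (nsmulAddMonoidHom (α := H47.ClT K (placesS S K)) p).ker = p ^ c ∧
      Module.finrank (ZMod p) (H1 ((ramLevels S).onSub K.fixingSubgroup)
        (Representation.trivial (ZMod p) K.fixingSubgroup (ZMod p))) =
        Module.finrank ℚ K / 2 + (placesS S K).ncard + c :=
  ⟨finiteDimensional_H1 hp2 hζ hζK hpS hK, exists_finrank_H1 hp2 hζ hζK hpS hK⟩

end Fermat.Agent.Guide.KummerTheory
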