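import Fermat.Agent.H47UnitR

/-!
# Guide: Kummer classes in the Eisenstein descent

Companion of `GuideMazurDescent` (section 2), `GuideMazurSteps` (section 5), `GuideEisenstein`
(`kummer_classes_units`) and `GuideKernel` (section 3); nothing stated there is repeated.  Everything here is
used in S15, S12, S09, S03, S01.

**Where Kummer classes occur.**  In the count of cocycles with values in the Eisenstein part `W_k` of
`J[r^k]` (`GuideMazurDescent.count_theorem`) the constituents on which Galois acts by the cyclotomic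
character contribute cocycles `σ ↦ σβ/β`, `β^r = b` rational.  They are few if the valuations of `b` are
divisible by `r` outside `N`.  At a prime `q ≠ r` this means that the cocycle is unramified.  At `r` it is
usually deduced from the finite flatness of `W_k` at `r`.  Here it follows from a property of points
(`unitR_iff`), proved in section 3:

  *let `A` be a place above `r`, `I` its inertia group, `K A` the kernel of reduction, `R` a point of `J`
  with `σR - R ∈ W_k ∩ K A` for `σ ∈ I`, and let `ψ(σR - R) = σκ/κ` for a homomorphism `ψ` from `W_k ∩ K A`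
  to the multiplicative group.  Then `κ` has at `A` the valuation of a power of `r`.*

**The idea.**  Put `m = r^k`.  The point `x = m R` is fixed by `I`, and one may assume that `R` is in `K A`.
By the theorem on norms (`GuideKernel.norm_kernel`) `x` is a sum of `m` conjugates of a point `y ∈ K A` which
is fixed by `I`, under powers of a Frobenius element.  Write `y = m R'` with `R' ∈ K A`.  Up to a point of
`K A` killed by `m`, `R` is the sum of the conjugates of `R'`; so `κ` is, up to a root of unity and a factor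
fixed by `I`, the product of `m` conjugates of a number `α` such that `α^m` is fixed by `I`.  A number fixed
by `I` has the valuation of a power of `r`, since `ℚ̄^I` is unramified at `A`, and the conjugates of `α` have
the valuation of `α`; hence `|κ| = |r|^n |α|^m = |r|^(n + n')`.

**Order.** 1. The property and its inputs.  2. Tools.  3. The theorem.  4. Rational numbers at a place of
`ℚ̄`.  5. Kummer cocycles over `ℚ`.  **Files** `H15Defs` (the notions of section 1), `H47UnitR`,
`H47KummerCount` (helper47; sections 3-5), `H85JH`, `H85Fit`, `H43Place`.  Notes: NOTES.md [283], overview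
[129].  Written by helper47.
-/

set_option autoImplicit false

namespace Fermat.Agent.Guide.KummerUnits

open ModularCurve
open Fermat.Agent.H15 (Qb GQ kumCoc)
open scoped Pointwise

/-! ## 1. The property and its inputs

`J` is an abelian group with commuting actions of the Galois group `GQ` of `ℚ` and of the Hecke algebra
`HeckeAlg = ℤ[X_ℓ]`; `K A` is a subgroup for every place `A` of `ℚ̄`.  In the application `J = J₀(N)(ℚ̄)` and
`K A` is the kernel of reduction.  `H15.WSub N r J k` is `W_k` (`GuideMazurDescent.mem_W_iff`), and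
`A.inertiaSubgroupIn ℚ` the inertia group of `A`. -/

section Inputs

variable (N r : ℕ) (J : Type) [AddCommGroup J] [Module HeckeAlg J] [DistribMulAction GQ J]
  (K : ValuationSubring Qb → AddSubgroup J)

/-- **The Kummer classes at `r` are units** (`H15.UnitR`).  `m = r^k`; the hypotheses on the point `R` say
that `m R` is fixed by inertia, that `σR - R ∈ W_k ∩ K A` and `ψ(σR - R) κ = σκ` for all `σ` in inertia. -/
theorem unitR_iff : H15.UnitR N r J K ↔
    ∀ A : ValuationSubring Qb, A.LiesOverPrime r → ∀ k : ℕ,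
      ∀ (ψ : (H15.WSub N r J k ⊓ K A : AddSubgroup J) →+ Additive Qbˣ) (R : J) (κ : Qbˣ),
        (∀ σ ∈ A.inertiaSubgroupIn ℚ, σ • ((r ^ k : ℕ) • R) = (r ^ k : ℕ) • R) →
        (∀ (σ : GQ), σ ∈ A.inertiaSubgroupIn ℚ → ∃ h : σ • R - R ∈ H15.WSub N r J k ⊓ K A,
          ((ψ ⟨_, h⟩).toMul : Qb) * κ = σ (κ : Qb)) →
        ∃ m : ℤ, A.valuation (κ : Qb) = A.valuation (r : Qb) ^ m :=
  Iff.rfl

/-- **Three properties of the kernels of reduction** at the places above the primes `ℓ ∤ N`: every point is
congruent modulo `K A` to a point fixed by inertia; `K A` is divisible; `K A` is stable under the Hecke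
operators.  For `J₀(N)`: `lift_inertia_invariant`, `kernel_divisible`, `kernel_hecke_stable` in
`GuideMazurJacobian`. -/
theorem kernel_properties_iff :
    (H15.SurjRed N J K ↔ ∀ ℓ : ℕ, ℓ.Prime → ¬ ℓ ∣ N → ∀ A : ValuationSubring Qb, A.LiesOverPrime ℓ →
      ∀ x : J, ∃ y : J, (∀ σ ∈ A.inertiaSubgroupIn ℚ, σ • y = y) ∧ x - y ∈ K A) ∧
    (H15.DivRed N J K ↔ ∀ ℓ : ℕ, ℓ.Prime → ¬ ℓ ∣ N → ∀ A : ValuationSubring Qb, A.LiesOverPrime ℓ →
      ∀ p : ℕ, p.Prime → ∀ x ∈ K A, ∃ y ∈ K A, p • y = x) ∧
    (H15.HeckeRed N J K ↔ ∀ ℓ : ℕ, ℓ.Prime → ¬ ℓ ∣ N → ∀ A : ValuationSubring Qb,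
      A.LiesOverPrime ℓ → ∀ t : HeckeAlg, ∀ x ∈ K A, t • x ∈ K A) :=
  ⟨Iff.rfl, Iff.rfl, Iff.rfl⟩

/-- **Inertia at `r` acts on `W_k ∩ K A` through the cyclotomic character** (`H15.MultChar`; for `J₀(N)`:
`GuideEisenstein.inertia_on_kernel_part`). -/
theorem multChar_iff : H15.MultChar N r J K ↔
    ∀ A : ValuationSubring Qb, A.LiesOverPrime r → ∀ k : ℕ, ∀ σ ∈ A.inertiaSubgroupIn ℚ,
      ∀ n : ℕ, (∀ ζ : Qb, ζ ^ (r ^ k) = 1 → σ ζ = ζ ^ n) →
        ∀ x ∈ H15.WSub N r J k ⊓ K A, σ • x = n • x :=
  Iff.rfl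

omit [Module HeckeAlg J] in
/-- **Norms from unramified extensions** (`H47.NormRed`).  Let `φ` be a Frobenius element at `A` and
`x ∈ K A` fixed by inertia.  For all `m, s₀ > 0` there are a multiple `s > 0` of `s₀` and a point `y ∈ K A`
fixed by inertia with `x = ∑ φ^(s j) y`, the sum over `j < m`.  For `J₀(N)`:
`GuideMazurJacobian.kernel_norm`, proved in `GuideKernel`, section 3. -/
theorem normRed_iff : H47.NormRed N J K ↔
    ∀ ℓ : ℕ, ℓ.Prime → ¬ ℓ ∣ N → ∀ A : ValuationSubring Qb, A.LiesOverPrime ℓ →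
      ∀ φ : GQ, A.IsFrobeniusAt φ ℓ → ∀ x ∈ K A, (∀ σ ∈ A.inertiaSubgroupIn ℚ, σ • x = x) →
        ∀ m s₀ : ℕ, 0 < m → 0 < s₀ → ∃ s : ℕ, 0 < s ∧ s₀ ∣ s ∧ ∃ y ∈ K A,
          (∀ σ ∈ A.inertiaSubgroupIn ℚ, σ • y = y) ∧
            x = ∑ j ∈ Finset.range m, (φ ^ (s * j)) • y :=
  Iff.rfl

end Inputs

/-! ## 2. Tools -/

section Tools

variable {N r : ℕ} {J : Type} [AddCommGroup J] [Module HeckeAlg J] [DistribMulAction GQ J]
  {K : ValuationSubring Qb → AddSubgroup J}

omit [DistribMulAction GQ J] in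
/-- **The projector**: if `J[r^k]` is finite, an element `ε` of the Hecke algebra maps `J[r^k]` to `W_k` and
is the identity on `W_k`.  (The same as `GuideMazurDescent.exists_projector`, with a weaker hypothesis.)
It extends `ψ` to a homomorphism `ψ'(x) = ψ(ε x)` on the group `M` of the points of `K A` killed by
`r^k`.  File `H85Fit`. -/
theorem exists_projector (k : ℕ) (hfin : {x : J | (r ^ k : ℕ) • x = 0}.Finite) :
    ∃ ε : HeckeAlg, (∀ x : J, (r ^ k : ℕ) • x = 0 → ε • x ∈ H15.WSub N r J k) ∧
      ∀ x ∈ H15.WSub N r J k, ε • x = x :=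
  H85.exists_epsilon N r J k hfin

/-- **Finitely many points are defined over a number field.**  File `H85JH`. -/
theorem finite_level (hB : H15.BasicInputs N J K) (s : Set J) (hs : s.Finite) :
    ∃ L : IntermediateField ℚ Qb, FiniteDimensional ℚ L ∧
      ∀ σ : GQ, (∀ x ∈ L, σ x = x) → ∀ y ∈ s, σ • y = y :=
  H85.exists_level hB s hs

/-- **Powers of a Galois element which act trivially**: for every `φ` there is `s₀ > 0` such that all `φ^t`
with `s₀ ∣ t` fix the points of a finite set and the `m`-th roots of unity.  File `H47UnitR`. -/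
theorem trivial_power (hB : H15.BasicInputs N J K) {s : Set J} (hs : s.Finite) {m : ℕ} (hm : 0 < m)
    (φ : GQ) : ∃ s₀ : ℕ, 0 < s₀ ∧ ∀ t : ℕ, s₀ ∣ t →
      (∀ x ∈ s, φ ^ t • x = x) ∧ ∀ ζ : Qb, ζ ^ m = 1 → (φ ^ t) ζ = ζ :=
  H47.exists_pow_trivial hB hs hm φ

omit [Module HeckeAlg J] [DistribMulAction GQ J] in
/-- **Division by powers** in a subgroup which is divisible by `r`.  File `H47UnitR`. -/
theorem divide_by_powers {S : AddSubgroup J} (h : ∀ x ∈ S, ∃ y ∈ S, r • y = x) (k : ℕ) :
    ∀ x ∈ S, ∃ y ∈ S, (r ^ k : ℕ) • y = x :=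
  H47.iterate_div h k

/-- **Decomposition and inertia group of a place**: inertia is contained in the stabiliser of `A` and
normalised by it.  File `H43Place`. -/
theorem inertia_normal {A : ValuationSubring Qb} {σ : GQ} (hσ : σ ∈ A.inertiaSubgroupIn ℚ) :
    σ • A = A ∧ ∀ τ : GQ, τ • A = A → τ⁻¹ * σ * τ ∈ A.inertiaSubgroupIn ℚ :=
  ⟨H43.inertia_le hσ, fun _ hτ => H43.conj_mem_inertia hσ hτ⟩

/-- **Roots of unity are units**, and values in a linearly ordered group have at most one `n`-th root.
File `H47UnitR`. -/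
theorem valuation_root_of_unity {n : ℕ} (hn : n ≠ 0) :
    (∀ {A : ValuationSubring Qb} {ζ : Qb}, ζ ^ n = 1 → A.valuation ζ = 1) ∧
      ∀ {Γ : Type} [LinearOrderedCommGroupWithZero Γ] {a b : Γ}, a ^ n = b ^ n → a = b :=
  ⟨fun h => H47.valuation_eq_one_of_pow hn h, fun h => H47.pow_left_inj_val hn h⟩

/-- **Conjugates have the same valuation.**  The value group of `A` is abstract, and an element `τ` of the
decomposition group may a priori act on it; but if `|x|^n` is a power of `|r|`, then `|τ x| = |x|`, since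
`x^n / r^m` is a unit of `A`, hence also its image under `τ`.  File `H47UnitR`. -/
theorem valuation_of_conjugate {A : ValuationSubring Qb} (hr : r ≠ 0) {n : ℕ} (hn : n ≠ 0)
    {x : Qb} {m : ℤ} (hx : A.valuation x ^ n = A.valuation (r : Qb) ^ m) {τ : GQ} (hτ : τ • A = A) :
    A.valuation (τ x) = A.valuation x :=
  H47.valuation_apply_eq hr hn hx hτ

end Tools

/-! ## 3. The theorem -/

/-- **The Kummer classes at `r` are units.**  Proof, with `m = r^k` and `I` the inertia group of `A`:
(a) Subtracting from `R` a point fixed by `I` (`SurjRed`) does not change `σR - R`; so let `R ∈ K A`.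
(b) For a point `X ∈ K A` such that `m X` is fixed by `I`, and `σ ∈ I`, put `θ_σ(X) = ψ'(σX - X)`; this is
additive in `X`.  By `MultChar` and the projector `ψ'(σ u) = σ ψ'(u)` for `u ∈ M`, so `σ ↦ θ_σ(X)` is a
cocycle on `I`.
(c) Let `φ` be a Frobenius element and `s₀` such that `φ^t` fixes `J[m]` and the `m`-th roots of unity if
`s₀ ∣ t` (`trivial_power`).  By `NormRed` there are `s`, divisible by `s₀`, and `y ∈ K A`, fixed by `I`, with
`m R = ∑_{j < m} F_j y`, `F_j = φ^(s j)`; by `DivRed` `y = m R'` with `R' ∈ K A`.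
(d) The point `S = R - ∑ F_j R'` is killed by `m`, and it is in `K A` because the `F_j` stabilise `A` and
Galois permutes the subgroups `K A`.  So `θ_σ(S) = σ ψ'(S) / ψ'(S)`, and `ψ'(S)` is a root of unity.  By
Hilbert 90 on `I` (`GuideHasseH2.hilbert90`; the cocycle is locally constant by `finite_level`)
`θ_σ(R') = σα/α`.  As `F_j` normalises `I` and acts trivially on the points killed by `m` and on the `m`-th
roots of unity, `θ_σ(F_j R') = θ_{F_j⁻¹ σ F_j}(R') = σ(F_j α) / F_j α`.
(e) So `ψ(σR - R) = σb/b` with `b = ψ'(S) ∏ F_j α`, and `κ/b` is fixed by `I`.  The number `α^m` is fixed by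
`I` because `θ_σ(R')^m = 1`.  A number fixed by `I` has the valuation of a power of `r`
(`GuideOrderPPoints.size_of_fixed`), and `|F_j α| = |α|` by `valuation_of_conjugate`.  Hence
`|κ| = |κ/b| |α|^m` is a power of `|r|`.  File `H47UnitR`; for `J₀(N)` see
`GuideEisenstein.kummer_classes_units`. -/
theorem units_at_r {N r : ℕ} {J : Type} [AddCommGroup J] [Module HeckeAlg J] [DistribMulAction GQ J]
    [SMulCommClass GQ HeckeAlg J] {K : ValuationSubring Qb → AddSubgroup J} (hr : r.Prime)
    (hrN : ¬ r ∣ N) (hB : H15.BasicInputs N J K) (hS : H15.SurjRed N J K) (hD : H15.DivRed N J K)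
    (hH : H15.HeckeRed N J K) (hM : H15.MultChar N r J K) (hN : H47.NormRed N J K) :
    H15.UnitR N r J K :=
  H47.unitR_of hr hrN hB hS hD hH hM hN

/-! ## 4. Rational numbers at a place of `ℚ̄` -/

/-- **The valuation of a rational number** `b ≠ 0` at a place above `q` is `|q|^{v_q(b)}`, and the powers of
`|q|` are different.  (`L` is a field of characteristic zero.)  File `H47KummerCount`. -/
theorem valuation_of_rational {L : Type*} [Field L] [CharZero L] {A : ValuationSubring L} {q : ℕ}
    (hq : q.Prime) (hA : A.LiesOverPrime q) :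
    (∀ {b : ℚ}, b ≠ 0 → A.valuation (b : L) = A.valuation (q : L) ^ padicValRat q b) ∧
      ∀ {m n : ℤ}, A.valuation (q : L) ^ m = A.valuation (q : L) ^ n → m = n :=
  ⟨fun hb => H47.val_ratCast_eq_zpow hq hA hb, fun h => H47.zpow_val_injective hq hA h⟩

/-- **Divisibility of the valuation.**  Let `b = β^r`.  If `β` has at a place above `q` the valuation of a
power of `q`, then `r ∣ v_q(b)`.  For `q ≠ r` this applies if the Kummer cocycle of `β` is trivial on the
inertia group (`GuideOrderPPoints.size_of_fixed`), for `q = r` by `units_at_r`.  File `H47KummerCount`. -/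
theorem divides_valuation {β : Qbˣ} {b : ℚ} {r : ℕ} (h : (b : Qb) = (β : Qb) ^ r) {q : ℕ}
    (hq : q.Prime) {A : ValuationSubring Qb} (hA : A.LiesOverPrime q)
    (hm : ∃ m : ℤ, A.valuation (β : Qb) = A.valuation (q : Qb) ^ m) : (r : ℤ) ∣ padicValRat q b :=
  H47.dvd_padicValRat_of_val h hq hA hm

/-- **Perfect powers**: a natural number, or up to sign a rational number, all valuations of which are
divisible by `r` is an `r`-th power.  File `H47KummerCount`. -/
theorem perfect_powers {r : ℕ} (hr : 0 < r) :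
    (∀ {n : ℕ}, n ≠ 0 → (∀ p : ℕ, p.Prime → r ∣ padicValNat p n) → ∃ m : ℕ, n = m ^ r) ∧
      ∀ {b : ℚ}, b ≠ 0 → (∀ q : ℕ, q.Prime → (r : ℤ) ∣ padicValRat q b) →
        ∃ c : ℚ, c ≠ 0 ∧ (b = c ^ r ∨ b = -c ^ r) :=
  ⟨fun hn h => H47.nat_exists_eq_pow hn h, fun hb h => H47.rat_exists_eq_pow hr hb h⟩

/-! ## 5. Kummer cocycles over `ℚ`

`kumCoc β` is the function `σ ↦ σβ/β` on the Galois group. -/

/-- **The cocycle does not change** if `β` is multiplied by a rational number.  File `H47KummerCount`. -/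
theorem cocycle_of_multiple {β β' : Qbˣ} {s : ℚ} (hs : s ≠ 0) (h : (β : Qb) = s * β') :
    (∀ σ : GQ, kumCoc β σ = σ (β : Qb) / (β : Qb)) ∧ kumCoc β = kumCoc β' :=
  ⟨fun _ => rfl, H47.kumCoc_ratCast_mul hs h⟩

/-- **Representatives.**  `T` is a set of representatives, modulo rational numbers, of the `r`-th roots of
`± 1` (there is one with at most `r` elements: `GuideMazurSteps.roots_of_one`), `ν` an `r`-th root of `N`.
If all valuations of `b = β^r` outside `N` are divisible by `r`, then the cocycle of `β` is that of some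
`t ν^j`, `t ∈ T`, `j < r`, because `b = ± N^j c^r`; so there are at most `r²` such cocycles.
File `H47KummerCount`. -/
theorem representatives {N r : ℕ} (hN : N.Prime) (hr : r.Prime) {T : Finset Qbˣ}
    (hT : ∀ x : Qbˣ, (x : Qb) ^ r = 1 ∨ (x : Qb) ^ r = -1 →
      ∃ t ∈ T, ∃ s : ℚ, s ≠ 0 ∧ (x : Qb) = s * t) {ν : Qbˣ} (hν : (ν : Qb) ^ r = N)
    {β : Qbˣ} {b : ℚ} (hb : (b : Qb) = (β : Qb) ^ r)
    (h : ∀ q : ℕ, q.Prime → q ≠ N → (r : ℤ) ∣ padicValRat q b) :
    ∃ j < r, ∃ t ∈ T, kumCoc β = kumCoc (t * ν ^ j) :=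
  H47.kummer_subset hN hr hT hν hb h

/-- **Representatives, unramified case.**  If all valuations of `b` are divisible by `r`, the cocycle is that
of an element of `T`, because `b = ± c^r`; so there are at most `r` such cocycles.
File `H47KummerCount`. -/
theorem representatives_unramified {r : ℕ} (hr : r.Prime) {T : Finset Qbˣ}
    (hT : ∀ x : Qbˣ, (x : Qb) ^ r = 1 ∨ (x : Qb) ^ r = -1 →
      ∃ t ∈ T, ∃ s : ℚ, s ≠ 0 ∧ (x : Qb) = s * t)
    {β : Qbˣ} {b : ℚ} (hb : (b : Qb) = (β : Qb) ^ r)
    (h : ∀ q : ℕ, q.Prime → (r : ℤ) ∣ padicValRat q b) : ∃ t ∈ T, kumCoc β = kumCoc t :=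
  H47.kummer_subset' hr hT hb h

end Fermat.Agent.Guide.KummerUnits
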