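import Fermat.Agent.H45FreyImage

/-!
# Reader's guide: transvections and the size of the image (companion of `GuideLevelsIhara`, `GuideEndgame`)

Every theorem of this file is proved by citing a theorem of the library; nothing here is used by any other
file. Editor: helper45. Notes: [134]. All theorems are in the closures of S43, S45, S01 and S03, through
theorem LL (`GuideLevelsIhara`); `base_change_residual` (without the last clause), `determinant` and
`trace_of_frobenius` also in the closures of S04, S06, S38, S46, S50, S59, S60, and the first part of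
`roots_of_unity` also in those of S09, S12, S15.

**What is proved.** Let `ρ` be the representation of `Gal(ℚ̄/ℚ)` on the points of order `p` of an elliptic
curve, `p ≥ 5`, `ρ` irreducible, and let `q ≠ p` be a prime of multiplicative reduction such that `p` does not
divide `v_q(Δ)`. Then the image of inertia at `q` contains a transvection. Consequences:
* the restriction of `ρ` to each subgroup of index two is absolutely irreducible (Taylor-Wiles condition);
* the image contains `SL₂(𝔽_p)`, even after restriction to the Galois group of `ℚ(ζ_m)`, for every `m`;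
* there are infinitely many primes `l ≡ 1` modulo `m` with `ρ(Frob_l) = -1`, so with `a_l ≡ -2 ≠ l + 1`: the
  representation is not Eisenstein, even along a residue class.
For the Frey curve one takes `q = 2`: `8 + v₂(Δ) = 2 p v₂(abc)`, so `p ∤ v₂(Δ)`.

**Idea.** An irreducible representation of dimension two with one unipotent element `≠ 1` contains two
transvections with different axes, and one is conjugate to the other (`HasTv`). This property passes to
extensions of the field. Two such elements have only their two axes as candidates for stable lines; their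
squares are again transvections if `2 ≠ 0`. Over `𝔽_p` their powers are all elementary matrices, which
generate `SL₂(𝔽_p)`; for `p ≥ 5` the commutators contain again elementary matrices. No classification of
subgroups of `GL₂(𝔽_p)` is used.

Notation: `resZ W hΔ p` is the representation on the points of order `p` of the curve `W` (`GuideCurvesTate`);
`ρ.baseChange K` the extension of scalars; `A.inertiaSubgroupIn ℚ` the inertia group of the place `A` of `ℚ̄`.
-/

set_option autoImplicit false

noncomputable section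

open Polynomial WeierstrassCurve WeierstrassCurve.Affine
open scoped TensorProduct

namespace Fermat.Agent.Guide.LargeImage

open Fermat.Agent.H45 (HasTv)
open Fermat.Agent.H87.Glue (resZ)

/-! ## 1. Linear algebra -/

/-- **Transvections.** `HasTv ρ` means: in a suitable basis `e` the element `ρ(g)` is an upper elementary
matrix `≠ 1` and its conjugate `ρ(h g h⁻¹)` is a lower elementary matrix `≠ 1`. File `H45Transv`. -/
theorem hasTv_iff {k V G : Type*} [Field k] [AddCommGroup V] [Module k V] [Group G]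
    (ρ : G →* Module.End k V) :
    HasTv ρ ↔ ∃ (e : Module.Basis (Fin 2) k V) (g h : G) (a b : k), a ≠ 0 ∧ b ≠ 0 ∧
      ρ g (e 0) = e 0 ∧ ρ g (e 1) = e 1 + a • e 0 ∧
      ρ (h * g * h⁻¹) (e 1) = e 1 ∧ ρ (h * g * h⁻¹) (e 0) = e 0 + b • e 1 :=
  Iff.rfl

/-- **One unipotent element is enough.** Let `ρ` be irreducible of dimension two and `ρ(g) ≠ 1` unipotent.
The fixed line of `ρ(g)` is moved by some `ρ(h)`, and the two lines are the axes. File `H45Transv`. -/
theorem of_unipotent {k V G : Type*} [Field k] [AddCommGroup V] [Module k V] [Group G]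
    {ρ : G →* Module.End k V} (hV : Module.finrank k V = 2)
    (hirr : ∀ W : Submodule k V, (∀ σ : G, ∀ x ∈ W, ρ σ x ∈ W) → W = ⊥ ∨ W = ⊤)
    (g : G) (hg1 : ρ g ≠ 1) (hg : ∀ x, ρ g (ρ g x - x) = ρ g x - x) : HasTv ρ :=
  H45.hasTv_of_unipotent hV hirr g hg1 hg

/-- **Stable subspaces**: a subspace stable under an upper elementary matrix `u ≠ 1` is contained in the line
of the first basis vector or contains this vector. File `H45Transv`. -/
theorem stable_subspaces {k V : Type*} [Field k] [AddCommGroup V] [Module k V]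
    (e : Module.Basis (Fin 2) k V) {u : Module.End k V} {a : k} (ha : a ≠ 0)
    (h0 : u (e 0) = e 0) (h1 : u (e 1) = e 1 + a • e 0) (W : Submodule k V)
    (hW : ∀ x ∈ W, u x ∈ W) : W ≤ Submodule.span k {e 0} ∨ e 0 ∈ W :=
  H45.stable_of_transvection e ha h0 h1 W hW

/-- **Restriction to subgroups with all squares.** If `ρ` has transvections and `2 ≠ 0` in `k`, then the
restriction of `ρ` to a subgroup which contains all squares is irreducible: the squares of the two
transvections are transvections with the same axes. File `H45Transv`. -/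
theorem irreducible_on_squares {k V G : Type*} [Field k] [AddCommGroup V] [Module k V] [Group G]
    {ρ : G →* Module.End k V} (h : HasTv ρ) (h2 : (2 : k) ≠ 0) (G' : Subgroup G)
    (hG' : ∀ x : G, x * x ∈ G') (W : Submodule k V) (hW : ∀ σ ∈ G', ∀ x ∈ W, ρ σ x ∈ W) :
    W = ⊥ ∨ W = ⊤ :=
  h.irred h2 G' hG' W hW

/-- **Extension of scalars** preserves the property. File `H45Transv`. -/
theorem base_change {k V G : Type*} [Field k] [AddCommGroup V] [Module k V] [Group G]
    {ρ : G →* Module.End k V} (h : HasTv ρ) (K : Type*) [Field K] [Algebra k K]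
    (ρ' : G →* Module.End K (K ⊗[k] V)) (hρ' : ∀ σ, ρ' σ = (ρ σ).baseChange K) : HasTv ρ' :=
  h.baseChange K ρ' hρ'

/-- **Elementary matrices generate `SL₂`** of a field, also as a monoid. File `H45Transv`. -/
theorem elementary_matrices_generate {F : Type*} [Field F] (S : Submonoid (Matrix (Fin 2) (Fin 2) F))
    (hU : ∀ x : F, !![1, x; 0, 1] ∈ S) (hL : ∀ x : F, !![1, 0; x, 1] ∈ S)
    (M : Matrix (Fin 2) (Fin 2) F) (hM : M.det = 1) : M ∈ S :=
  H45.mem_of_elementary S hU hL M hM

/-- **The image contains `SL₂(𝔽_p)`** if `ρ` is defined over `𝔽_p` and has transvections: powers of one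
elementary matrix `≠ 1` are all elementary matrices of the same shape (upper or lower). File `H45Transv`. -/
theorem image_contains_sl_two {V G : Type*} [Group G] {p : ℕ} [Fact p.Prime] [AddCommGroup V]
    [Module (ZMod p) V] {ρ : G →* Module.End (ZMod p) V} (h : HasTv ρ) (f : Module.End (ZMod p) V)
    (hf : LinearMap.det f = 1) : ∃ σ : G, ρ σ = f :=
  h.exists_eq_of_det_one_top f hf

/-- **Commutators**: for `p ≥ 5` the image of each subgroup `G'` which contains all commutators contains
`SL₂(𝔽_p)`: the commutator of `diag(2, 1/2)` (or of its inverse) with the elementary matrix with entry `x/3`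
is the elementary matrix with entry `x`, because `4 - 1 = 3`. File `H45Transv`. -/
theorem commutators_contain_sl_two {V G : Type*} [Group G] {p : ℕ} [Fact p.Prime] [AddCommGroup V]
    [Module (ZMod p) V] {ρ : G →* Module.End (ZMod p) V} (h : HasTv ρ) (hp : 5 ≤ p)
    (G' : Subgroup G) (hG' : ∀ x y : G, x * y * x⁻¹ * y⁻¹ ∈ G') (f : Module.End (ZMod p) V)
    (hf : LinearMap.det f = 1) : ∃ σ ∈ G', ρ σ = f :=
  h.exists_eq_of_det_one hp G' hG' f hf

/-! ## 2. Residual representations of `Gal(ℚ̄/ℚ)` -/

/-- **Extension of scalars**: determinant, characteristic polynomial and ramification. File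
`H45ResImage`. -/
theorem base_change_residual {k : Type} [Field k] (ρbar : ResidualGaloisRep k) (K : Type) [Field K]
    [Algebra k K] :
    (∀ σ, LinearMap.det ((ρbar.baseChange K).ρ σ) = algebraMap k K (LinearMap.det (ρbar.ρ σ))) ∧
      (∀ σ, ((ρbar.baseChange K).ρ σ).charpoly = ((ρbar.ρ σ).charpoly).map (algebraMap k K)) ∧
      (∀ q, (ρbar.baseChange K).IsUnramifiedAt q ↔ ρbar.IsUnramifiedAt q) ∧
      (HasTv ρbar.ρ → HasTv (ρbar.baseChange K).ρ) :=
  ⟨H45.det_baseChange_apply ρbar K, H45.charpoly_baseChange_apply ρbar K,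
    fun _ => H45.isUnramifiedAt_baseChange_iff ρbar K, fun h => H45.hasTv_baseChange ρbar h K⟩

/-- **Taylor-Wiles condition.** If `ρbar` has transvections and `2 ≠ 0` in `k`, then `ρbar` is absolutely
irreducible, and for every extension `K` of `k` the restriction of `ρbar ⊗ K` to every subgroup of index two
is irreducible. This is the hypothesis `hTW` of S56 and of the theorems on the rings `R` and `T`. File
`H45ResImage`; used in theorem LL (`H59LL2`). -/
theorem taylor_wiles_condition {k : Type} [Field k] (ρbar : ResidualGaloisRep k) (h2 : (2 : k) ≠ 0)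
    (h : HasTv ρbar.ρ) : ρbar.IsAbsolutelyIrreducible ∧
      ∀ (K : Type) [Field K] [Algebra k K]
        (G : Subgroup (AlgebraicClosure ℚ ≃ₐ[ℚ] AlgebraicClosure ℚ)), G.index = 2 →
        ∀ V : Submodule K (ρbar.baseChange K).V,
          (∀ σ ∈ G, ∀ x ∈ V, (ρbar.baseChange K).ρ σ x ∈ V) → V = ⊥ ∨ V = ⊤ :=
  ⟨H45.isAbsolutelyIrreducible_of_hasTv ρbar h2 h, H45.hTW_of_hasTv ρbar h2 h⟩

/-- **Roots of unity**: an element `σ` of the Galois group acts on all `m`-th roots of unity by one
exponent, so commutators act trivially. File `H45ResImage`. -/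
theorem roots_of_unity {m : ℕ} (hm : m ≠ 0) (σ τ : AlgebraicClosure ℚ ≃ₐ[ℚ] AlgebraicClosure ℚ) :
    (∃ a : ℕ, ∀ ζ : AlgebraicClosure ℚ, ζ ^ m = 1 → σ ζ = ζ ^ a) ∧
      ∀ ζ : AlgebraicClosure ℚ, ζ ^ m = 1 → (σ * τ * σ⁻¹ * τ⁻¹) ζ = ζ :=
  ⟨H45.exists_pow_of_rootsOfUnity hm σ, H45.commutator_mem_fixRoots hm σ τ⟩

/-- **The image over `ℚ(ζ_m)`**: if `ρbar` is defined over `𝔽_p`, `p ≥ 5`, and has transvections, then every
endomorphism of determinant one is `ρbar(σ)` for some `σ` which fixes the `m`-th roots of unity. File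
`H45ResImage`. -/
theorem image_over_cyclotomic_field {p : ℕ} [Fact p.Prime] (ρbar : ResidualGaloisRep (ZMod p))
    (hp : 5 ≤ p) (h : HasTv ρbar.ρ) {m : ℕ} (hm : m ≠ 0) (f : Module.End (ZMod p) ρbar.V)
    (hf : LinearMap.det f = 1) :
    ∃ σ : AlgebraicClosure ℚ ≃ₐ[ℚ] AlgebraicClosure ℚ,
      (∀ ζ : AlgebraicClosure ℚ, ζ ^ m = 1 → σ ζ = ζ) ∧ ρbar.ρ σ = f :=
  H45.exists_fix_roots_eq ρbar hp h hm f hf

/-- **Frobenius elements** (theorem of Frobenius, not of Chebotarev): if `σ` fixes the `m`-th roots of unity,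
then outside every finite set `S` there are a prime `l ≡ 1` modulo `m` and a Frobenius element `φ` at `l`,
fixing the `m`-th roots of unity, such that `ρbar(φ)` and `ρbar(σ)` generate the same cyclic group. File
`H45ResImage`, from `frobenius_density` of the guide `Galois` (for finite extensions of `ℚ`). -/
theorem frobenius_elements {k : Type} [Field k] (ρbar : ResidualGaloisRep k) {m : ℕ} (hm : m ≠ 0)
    {σ : AlgebraicClosure ℚ ≃ₐ[ℚ] AlgebraicClosure ℚ}
    (hσ : ∀ ζ : AlgebraicClosure ℚ, ζ ^ m = 1 → σ ζ = ζ) (S : Finset ℕ) :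
    ∃ l : ℕ, l.Prime ∧ l ∉ S ∧ l ≡ 1 [MOD m] ∧
      ∃ A : ValuationSubring (AlgebraicClosure ℚ), A.LiesOverPrime l ∧
        ∃ φ : AlgebraicClosure ℚ ≃ₐ[ℚ] AlgebraicClosure ℚ, A.IsFrobeniusAt φ l ∧
          (∀ ζ : AlgebraicClosure ℚ, ζ ^ m = 1 → φ ζ = ζ) ∧
            ∃ i j : ℕ, ρbar.ρ φ = ρbar.ρ σ ^ i ∧ ρbar.ρ σ = ρbar.ρ φ ^ j :=
  H45.exists_frobenius_of_fix ρbar hm hσ S

/-- **Frobenius elements which act as `-1`**: the generator of a group of order two is unique, so for
`ρbar(σ) = -1` the preceding theorem gives `ρbar(φ) = -1`. File `H45ResImage`. -/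
theorem frobenius_minus_one {p : ℕ} [Fact p.Prime] (ρbar : ResidualGaloisRep (ZMod p)) (hp : 5 ≤ p)
    (h : HasTv ρbar.ρ) {m : ℕ} (hm : m ≠ 0) (S : Finset ℕ) :
    ∃ l : ℕ, l.Prime ∧ l ∉ S ∧ l ≡ 1 [MOD m] ∧
      ∃ A : ValuationSubring (AlgebraicClosure ℚ), A.LiesOverPrime l ∧
        ∃ φ : AlgebraicClosure ℚ ≃ₐ[ℚ] AlgebraicClosure ℚ, A.IsFrobeniusAt φ l ∧
          (∀ ζ : AlgebraicClosure ℚ, ζ ^ m = 1 → φ ζ = ζ) ∧ ρbar.ρ φ = -1 :=
  H45.exists_frobenius_neg_one ρbar hp h hm S

/-! ## 3. Elliptic curves -/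

/-- **A transvection from a multiplicative prime.** `W` an integral equation with irreducible `p`-torsion,
`q ≠ p` a prime of multiplicative reduction with `p ∤ v_q(Δ)`. Inertia at `q` acts unipotently, and not
trivially (criterion of ramification, `GuideNode`). File `H45FreyImage`. -/
theorem transvection_of_multiplicative (W : WeierstrassCurve ℤ) (hΔ : W.Δ ≠ 0) (p : ℕ)
    [Fact p.Prime] (hirr : W.ModRepIsIrreducible p) {q : ℕ} (hq : q.Prime) (hqp : q ≠ p)
    (hbad : (q : ℤ) ∣ W.Δ) (hc : ¬ (q : ℤ) ∣ W.c₄) (hram : ¬ p ∣ padicValInt q W.Δ) :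
    HasTv (resZ W hΔ p).ρ :=
  H45.hasTv_of_multiplicative W hΔ p hirr hq hqp hbad hc hram

/-- **Determinant**: an element which raises the `p`-th roots of unity to the power `a` has determinant `a`
on the points of order `p`; hence over every extension field of `𝔽_p` the representation satisfies the
condition on the determinant in the deformation problems (`DetIsCyclotomic`). File `H45FreyImage`. -/
theorem determinant (W : WeierstrassCurve ℤ) (hΔ : W.Δ ≠ 0) (p : ℕ) [Fact p.Prime] :
    (∀ (σ : AlgebraicClosure ℚ ≃ₐ[ℚ] AlgebraicClosure ℚ) (a : ℕ),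
      (∀ μ : AlgebraicClosure ℚ, μ ^ p = 1 → σ μ = μ ^ a) →
        LinearMap.det ((resZ W hΔ p).ρ σ) = (a : ZMod p)) ∧
      ∀ (K : Type) [Field K] [Algebra (ZMod p) K],
        (GaloisRepAdic.ofResidualGaloisRep ((resZ W hΔ p).baseChange K)).DetIsCyclotomic p :=
  ⟨H45.det_resZ W hΔ p, H45.detIsCyclotomic_resZ_baseChange W hΔ p⟩

/-- **Trace of Frobenius** at a prime `l ≠ p` of good reduction: it is `a_l` modulo `p`. File
`H45FreyImage`. -/
theorem trace_of_frobenius (W : WeierstrassCurve ℤ) (hΔ : W.Δ ≠ 0) (p : ℕ) [Fact p.Prime] {l : ℕ}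
    (hl : l.Prime) (hlp : l ≠ p) (hW : W.IsGoodPrimeFor l)
    {P : ValuationSubring (AlgebraicClosure ℚ)} (hP : P.LiesOverPrime l)
    {σ : AlgebraicClosure ℚ ≃ₐ[ℚ] AlgebraicClosure ℚ} (hσ : P.IsFrobeniusAt σ l) :
    LinearMap.trace (ZMod p) _ ((resZ W hΔ p).ρ σ) = (W.apOfModel l : ZMod p) :=
  H45.trace_resZ_frob W hΔ p hl hlp hW hP hσ

/-- **Not Eisenstein along a residue class**: if the representation has transvections and `p ≥ 5`, then for
every `m` and every finite set `S` there is a prime `l` outside `S`, of good reduction, with `l ≡ 1` modulo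
`m` and modulo `p` and `a_l ≡ -2`; in particular `a_l` is not congruent to `l + 1`. File `H45FreyImage`; used
in theorem LL (`H59LL5`), where the levels are auxiliary primes `≡ 1` modulo a power of `p`. -/
theorem not_eisenstein (W : WeierstrassCurve ℤ) (hΔ : W.Δ ≠ 0) (p : ℕ) [Fact p.Prime] (hp5 : 5 ≤ p)
    (h : HasTv (resZ W hΔ p).ρ) {m : ℕ} (hm : m ≠ 0) (S : Finset ℕ) :
    ∃ l : ℕ, l.Prime ∧ l ∉ S ∧ l ≠ p ∧ W.IsGoodPrimeFor l ∧ l ≡ 1 [MOD m] ∧ (l : ZMod p) = 1 ∧
      (W.apOfModel l : ZMod p) = -2 ∧ (W.apOfModel l : ZMod p) ≠ (l : ZMod p) + 1 :=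
  H45.exists_noneisenstein W hΔ p hp5 h hm S

/-- **The Frey curve.** For a solution `aᵖ + bᵖ = cᵖ` in normal form the discriminant `Δ` of the integral
minimal equation satisfies `8 + v₂(Δ) = 2 p v₂(abc)`; so `p` does not divide `v₂(Δ)`. File `H45FreyImage`. -/
theorem frey_valuation_at_two (P : FreyPackage) :
    8 + padicValInt 2 P.freyCurveInt.Δ = 2 * P.p * padicValInt 2 (P.a * P.b * P.c) ∧
      ¬ P.p ∣ padicValInt 2 P.freyCurveInt.Δ :=
  ⟨H45.frey_padicVal_two P, H45.frey_not_dvd_padicVal P⟩

/-- **The representation of the Frey curve has transvections** (`freyRes P`: the representation on the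
`p`-torsion of the integral model) if it is irreducible, from inertia at `2`; and `2 ≠ 0` in `𝔽_p`. This is
how S43 applies theorem LL. File `H45FreyImage`; used in `H59Fin43`. -/
theorem frey_has_transvections (P : FreyPackage)
    (hirr : Affine.Point.GaloisRepIsIrreducible (K := AlgebraicClosure ℚ) ℚ P.freyCurve P.p) :
    P.freyCurveInt.ModRepIsIrreducible P.p ∧ HasTv (H45.freyRes P).ρ ∧ (2 : ZMod P.p) ≠ 0 :=
  ⟨H45.frey_modRepIsIrreducible P hirr, H45.frey_hasTv P hirr, H45.frey_two_ne_zero P⟩

end Fermat.Agent.Guide.LargeImage
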