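import Fermat.Agent.H35Fin
import Fermat.Agent.H35S34

/-!
# Guide: Galois representations on lattices (the steps of S30, S34, S35, S36)

Companion of GuideGalois (sections 3 and 4) and of GuideNewforms. Those pages explain how the
two-dimensional representations attached to Hecke eigensystems are found in the Tate module
`T = T_p J_0(N)`; this page shows the steps of the proofs.

**The problem.** `T` is a finite free `ℤ_p`-module with commuting actions of the Galois group and of
the Hecke operators, and `φ² - T_ℓ φ + ℓ = 0` for the Frobenius elements `φ` at the good primes `ℓ`.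
Let `χ` be a character of the Hecke algebra with values in a complete discrete valuation ring `𝒪'`.
One wants a representation `ρ` of dimension two over a finite extension `𝒪''` of `𝒪'` such that
`ρ(φ)` has characteristic polynomial `X² - χ(T_ℓ) X + ℓ`. It is not known here that the `χ`-part of
`T` has rank two (this needs multiplicity one), nor that it is semisimple; this is also not needed.

**The solution.**
1. The eigenlattice `V_χ ⊆ 𝒪' ⊗ T` is not zero and saturated (section 4).
2. On `V_χ` every element `g` of the Galois group satisfies a quadratic equation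
   `g² - t g + cyc(g) = 0` with `t` in `𝒪'`: this is true for the Frobenius elements, and extended
   by density and continuity (`GuideGalois.quadratic_of_frobenius`; sections 3 and 5).
3. A representation over an algebraically closed field all of whose values satisfy such an equation
   has a stable subspace of dimension one, or of dimension two with trace `t` and determinant `cyc`
   (section 2). In the first case, a character `α`, the sum `α ⊕ cyc α⁻¹` has the same property.
4. The stable subspace is defined over a finite extension, and it has a basis such that the matrices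
   of the Galois group have entries in the integral closure `𝒪''` of `𝒪'`, which is again a complete
   discrete valuation ring with finite residue field (sections 1 and 2).
5. What is true for `V_χ` is true for `ρ`: if `g` acts trivially on `V_χ` and `cyc(g) = 1` then
   `ρ(g) = 1` (S30: unramified); if the relation with `t = ±(q + 1)` holds on `V_χ`, it gives the
   characteristic polynomial (S35); if inertia were unipotent on `ρ`, then it would be unipotent on
   `V_χ` and would have a fixed vector there (S36). Sections 5 and 6.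

Sections 7 and 8 are about the Hecke side: strong multiplicity one by Galois representations, and
the comparison of cusp forms and torsion points which is needed for the absence of a newform from
the lower levels.

`Gℚ` is the absolute Galois group of `ℚ`, `H35.cyc O hp` its `p`-adic cyclotomic character with
values in `O`, `H53.M2 O` the ring of `2 × 2` matrices over `O`. Continuity of a matrix
representation `r` (`H35.MatCont`): for every `n` there is a finite extension `L` of `ℚ` such that
`r(σ) ≡ 1` modulo the `n`-th power of the maximal ideal for all `σ` fixing `L`; `H35.CharCont` is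
the same for characters.

Related pages: GuideTateJacobian (the Tate module, S30 from the properties of `J_0(N)`, submodules
with a basis), GuideEigenModules and GuideEigenSteps (the same method for any Hecke-Galois module,
as used in S59), GuideRealisation (realisation in the Tate module), GuideBridge (Kummer relation).
Serves S29, S30, S34, S35, S36, S42, S43, S58 and S01, S03, S04, S06, S38, S45, S46, S50, S59, S60
(the three theorems of helper96 also S47, S48; section 1 without the finiteness of the residue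
field, the first part of `coefficients`, `independent_of_integral` and the three theorems on links
also S09, S12, S15, the latter also S39, S40, S44); only `carayolData_iff` and `s36_of_data` (S36,
S58) are not used for S01. Authors: `H35*` helper35, `H96TwoDim` helper96. Notes: [240]
NOTES-GALREP-GLUE.
-/

set_option autoImplicit false

open Polynomial IsLocalRing Module AlgebraicCurve ModularCurve TensorProduct Fermat.Agent.H31

namespace Fermat.Agent.Guide.LatticeReps

/-- The absolute Galois group of `ℚ`. -/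
local notation "Gℚ" => AlgebraicClosure ℚ ≃ₐ[ℚ] AlgebraicClosure ℚ

/-! ## 1. Coefficient rings -/

/-- A domain which is finite over a complete noetherian local ring is local. (A finite algebra over
a complete local ring is the product of its localisations at the maximal ideals.) File `H35DVR`. -/
theorem finite_domain_local {O : Type} [CommRing O] [IsLocalRing O] [IsNoetherianRing O]
    [IsAdicComplete (maximalIdeal O) O] (B : Type) [CommRing B] [IsDomain B] [Algebra O B]
    [Module.Finite O B] : IsLocalRing B :=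
  H35.isLocalRing_of_finite_of_isDomain (O := O) B

/-- **Finite extensions of complete discrete valuation rings.** Let `O` be a complete discrete
valuation ring with field of fractions `K` and `L` a finite separable extension of `K`. The integral
closure of `O` in `L` is finite over `O`, a complete discrete valuation ring, the inclusion is
injective and local, and the residue field is finite if that of `O` is. File `H35DVR`. -/
theorem integral_closure (O : Type) [CommRing O] [IsDomain O] [IsDiscreteValuationRing O]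
    [IsAdicComplete (maximalIdeal O) O] (K : Type) [Field K] [Algebra O K] [IsFractionRing O K]
    (L : Type) [Field L] [Algebra O L] [Algebra K L] [IsScalarTower O K L]
    [FiniteDimensional K L] [Algebra.IsSeparable K L] :
    Module.Finite O (integralClosure O L) ∧ IsDiscreteValuationRing (integralClosure O L) ∧
    Function.Injective (algebraMap O (integralClosure O L)) ∧
    IsLocalHom (algebraMap O (integralClosure O L)) ∧
    (haveI := H35.isLocalRing_integralClosure O K L
     IsAdicComplete (maximalIdeal (integralClosure O L)) (integralClosure O L) ∧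
     (Finite (ResidueField O) → Finite (ResidueField (integralClosure O L)))) :=
  ⟨H35.finite_integralClosure O K L, H35.isDiscreteValuationRing_integralClosure O K L,
    H35.injective_algebraMap_integralClosure O K L, H35.isLocalHom_integralClosure O K L,
    H35.isAdicComplete_integralClosure O K L,
    fun _ => H35.finite_residueField_integralClosure O K L⟩

/-- **The cyclotomic character modulo `m^n`**: if `σ` raises the `p^n`-th roots of unity to the
power `a` then `cyc(σ) ≡ a` modulo the `n`-th power of the maximal ideal. Its values at Frobenius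
elements and on inertia (`GuideGalois`) follow. File `H35Cyclo`. -/
theorem cyc_modulo (O : Type) [CommRing O] [IsLocalRing O] [IsAdicComplete (maximalIdeal O) O]
    {p : ℕ} [Fact p.Prime] (hp : (p : O) ∈ maximalIdeal O) (σ : Gℚ) (n a : ℕ)
    (h : ∀ ζ : AlgebraicClosure ℚ, ζ ^ p ^ n = 1 → σ ζ = ζ ^ a) :
    H35.cyc O hp σ - (a : O) ∈ maximalIdeal O ^ n :=
  H35.cyc_sub_mem O hp σ n a h

/-! ## 2. From quadratic equations to dimension two -/

/-- **Polarisation** (helper96). Let `ρ` be a representation of a group and `d` a character with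
`ρ(g)² - t(g) ρ(g) + d(g) = 0` for all `g`. Then
`ρ(g) ρ(g') + ρ(g') ρ(g) - t(g') ρ(g) - t(g) ρ(g')` is the scalar `t(g g') - t(g) t(g')`: write
`d(g) ρ(g)⁻¹ = t(g) - ρ(g)`, also for `g'` and `g g'`, and multiply. File `H96TwoDim`. -/
theorem quadratic_polarised {G : Type*} [Group G] {k : Type*} [Field k] [IsAlgClosed k]
    {W : Type*} [AddCommGroup W] [Module k W] [FiniteDimensional k W] [Nontrivial W]
    {ρ : G →* Module.End k W} {d : G →* k} {t : G → k}
    (h : ∀ g, ρ g * ρ g - t g • ρ g + d g • (1 : Module.End k W) = 0) (g g' : G) :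
    ρ g * ρ g' + ρ g' * ρ g - t g' • ρ g - t g • ρ g'
      = (t (g * g') - t g * t g') • (1 : Module.End k W) :=
  H96.relation_mul h g g'

/-- **The trace of `2 × 2` matrices** (helper96). Let `T` be a linear form on the `n × n` matrices
over a field, `n ≥ 2`, such that `X Y + Y X - T(Y) X - T(X) Y` is the scalar `T(X Y) - T(X) T(Y)`
for all `X`, `Y`. Then `n = 2` and `T` is the trace. Proof: take `X = E_ij`, `Y = E_ji` and compare
the entries. File `H96TwoDim`. -/
theorem trace_characterised {k : Type*} [Field k] {n : Type*} [Fintype n] [DecidableEq n]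
    (T : Matrix n n k →ₗ[k] k)
    (h : ∀ X Y : Matrix n n k, X * Y + Y * X - T Y • X - T X • Y
      = (T (X * Y) - T X * T Y) • (1 : Matrix n n k))
    (hn : 2 ≤ Fintype.card n) : Fintype.card n = 2 ∧ ∀ X, T X = X.trace :=
  H96.key_trace T h hn

/-- **Irreducible representations with quadratic equations** (helper96). Let `ρ` be an irreducible
representation of a group over an algebraically closed field, of finite dimension, such that
`ρ(g)² - t(g) ρ(g) + d(g) = 0` for all `g`, `d` a character. Then the dimension is one, or it is two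
and `t(g)`, `d(g)` are the trace and the determinant of `ρ(g)`. Proof: the `ρ(g)` span all
endomorphisms (Burnside); unless the dimension is one, `t` extends to a linear form on them, and the
two preceding theorems apply. File `H96TwoDim`. -/
theorem irreducible_quadratic {G : Type*} [Group G] {k : Type*} [Field k] [IsAlgClosed k]
    {W : Type*} [AddCommGroup W] [Module k W] [FiniteDimensional k W] [Nontrivial W]
    {ρ : G →* Module.End k W}
    (hirr : ∀ U : Submodule k W, (∀ g, ∀ x ∈ U, ρ g x ∈ U) → U = ⊥ ∨ U = ⊤)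
    {d : G →* k} {t : G → k}
    (h : ∀ g, ρ g * ρ g - t g • ρ g + d g • (1 : Module.End k W) = 0)
    (h1 : finrank k W ≠ 1) :
    finrank k W = 2 ∧ ∀ g, LinearMap.trace k W (ρ g) = t g ∧ LinearMap.det (ρ g) = d g :=
  H96.irreducible_case hirr h h1

/-- The same in terms of matrices, for a representation which need not be irreducible: there is a
matrix `P` with `r = 1` or `r = 2` linearly independent columns (a basis of a stable subspace, of
minimal dimension) with `ρ(g) P = P R(g)`, and for `r = 2` the trace and the determinant of `R(g)`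
are `t(g)` and `d(g)`. File `H35Stable`. -/
theorem stable_subspace {G : Type*} [Group G] {k : Type*} [Field k] [IsAlgClosed k] {m : ℕ}
    (hm : 0 < m) (ρ : G →* Matrix (Fin m) (Fin m) k) (d : G →* k) (t : G → k)
    (h : ∀ g, ρ g * ρ g - t g • ρ g + d g • (1 : Matrix (Fin m) (Fin m) k) = 0) :
    ∃ (r : ℕ) (P : Matrix (Fin m) (Fin r) k) (R : G → Matrix (Fin r) (Fin r) k),
      (r = 1 ∨ (r = 2 ∧ ∀ g, (R g).trace = t g ∧ (R g).det = d g)) ∧
      (∃ I : Fin r → Fin m, (P.submatrix I id).det ≠ 0) ∧ ∀ g, ρ g * P = P * R g :=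
  H35.exists_matrix_sub hm ρ d t h

/-- **Normalisation.** Let `v` be a valuation of a field and `P` an `m × r` matrix with a nonzero
`r × r` minor. If `P_I` is the `r × r` submatrix whose determinant has the largest valuation, then
all entries of `P P_I⁻¹` are integral: up to sign they are quotients of minors, by Cramer's rule.
File `H35Stable`. -/
theorem normalised_matrix {L : Type*} [Field L] {Γ : Type*} [LinearOrderedCommGroupWithZero Γ]
    (v : Valuation L Γ) {m r : ℕ} (P : Matrix (Fin m) (Fin r) L)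
    (hP : ∃ I : Fin r → Fin m, (P.submatrix I id).det ≠ 0) :
    ∃ I : Fin r → Fin m, (P.submatrix I id).det ≠ 0 ∧
      ∀ k a, v ((P * (P.submatrix I id)⁻¹) k a) ≤ 1 :=
  H35.exists_normalized v P hP

/-- **The lattice step.** Let `ρ` be a matrix representation over `O`, `B` a valuation ring with
field of fractions `L` (an `O`-algebra), and let the columns of the matrix `P` over `L` span a
subspace which is stable over a larger field `Kb`, with matrices `R(g)`. After the normalisation the
basis `Q = P P_I⁻¹` has entries in `B` and contains the unit matrix in the rows `I`; so the matrices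
`R'(g)` of the action with respect to `Q` are the rows `I` of `ρ(g) Q` and have entries in `B`.
Traces and determinants are those of `R(g)`. File `H35Lattice`. -/
theorem lattice_step {G : Type*} [Group G] {O B L Kb : Type*} [CommRing O] [CommRing B]
    [IsDomain B] [ValuationRing B] [Algebra O B] [Field L] [Algebra B L] [IsFractionRing B L]
    [Field Kb] [Algebra B Kb] [Algebra L Kb] [IsScalarTower B L Kb]
    {m r : ℕ} (ρ : G →* Matrix (Fin m) (Fin m) O) (P : Matrix (Fin m) (Fin r) L)
    (hP : ∃ I : Fin r → Fin m, (P.submatrix I id).det ≠ 0)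
    (R : G → Matrix (Fin r) (Fin r) Kb)
    (hR : ∀ g, ((ρ g).map (algebraMap O B)).map (algebraMap B Kb) * P.map (algebraMap L Kb)
      = P.map (algebraMap L Kb) * R g) :
    ∃ (Q : Matrix (Fin m) (Fin r) B) (I : Fin r → Fin m) (R' : G →* Matrix (Fin r) (Fin r) B),
      Q.submatrix I id = 1 ∧ (∀ g, (ρ g).map (algebraMap O B) * Q = Q * R' g) ∧
      ∀ g, algebraMap B Kb (R' g).trace = (R g).trace ∧
        algebraMap B Kb (R' g).det = (R g).det :=
  H35.lattice_step ρ P hP R hR

/-- **A continuous representation of dimension two.** `ρ` is a continuous matrix representation of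
`Gℚ` over `O` and `d` a continuous character with `ρ(g)² - t(g) ρ(g) + d(g) = 0`, and `R'` is as in
`lattice_step`. Then there is a continuous representation `ρ'` of dimension two over `B` with trace
`t` and determinant `d`, which is trivial on the `g` with `ρ(g) = 1`, `d(g) = 1`: for `r = 2` it is
`R'`, for `r = 1`, where `R'` is a character `α`, it is the diagonal representation with `α` and
`d α⁻¹`. File `H35Lattice`. -/
theorem two_dimensional_step {O B : Type} [CommRing O] [IsLocalRing O] [CommRing B] [IsLocalRing B]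
    [Algebra O B] (hloc : IsLocalHom (algebraMap O B)) {m r : ℕ}
    (ρ : Gℚ →* Matrix (Fin m) (Fin m) O) (hρ : H35.MatCont O ρ)
    (d : Gℚ →* O) (hd : H35.CharCont O d) (t : Gℚ → O)
    (ht : ∀ g, ρ g * ρ g - t g • ρ g + d g • (1 : Matrix (Fin m) (Fin m) O) = 0)
    (Q : Matrix (Fin m) (Fin r) B) (I : Fin r → Fin m) (R' : Gℚ →* Matrix (Fin r) (Fin r) B)
    (hQI : Q.submatrix I id = 1) (hrel : ∀ g, (ρ g).map (algebraMap O B) * Q = Q * R' g)
    (hcase : r = 1 ∨ (r = 2 ∧ ∀ g, (R' g).trace = algebraMap O B (t g) ∧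
      (R' g).det = algebraMap O B (d g))) :
    ∃ ρ' : Gℚ →* H53.M2 B, H53.MCont B ρ' ∧
        (∀ g, (ρ' g).trace = algebraMap O B (t g) ∧ (ρ' g).det = algebraMap O B (d g)) ∧
        ∀ g, ρ g = 1 → d g = 1 → ρ' g = 1 :=
  H35.key_step hloc ρ hρ d hd t ht Q I R' hQI hrel hcase

/-! ## 3. The representation attached to a lattice over `𝒪'` -/

/-- **The representation attached to a lattice.** `W` is a nonzero finite free module over the
complete discrete valuation ring `𝒪'` (characteristic zero, finite residue field of characteristic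
`p`) with a continuous action `ρW` of `Gℚ` such that `φ² - a_ℓ φ + ℓ = 0` on `W` for the Frobenius
elements `φ` at all primes `ℓ` outside the finite set `S`. Then every `g` satisfies a quadratic
equation `g² - t g + cyc(g) = 0` on `W`, and over a finite extension `𝒪''` of `𝒪'` there is a
two-dimensional representation `ρ` such that `ρ(g)` has characteristic polynomial
`X² - t X + cyc(g)` for these `t`, and `ρ(g) = 1` if `g` acts trivially on `W` and `cyc(g) = 1`.
Proof: choose a basis of `W`; `H35Dens`, `H35Lattice` and section 2. File `H35VLattice`. -/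
theorem rep_of_lattice {p : ℕ} [Fact p.Prime] {S : Finset ℕ} (hpS : p ∈ S)
    (𝒪' : Type) [CommRing 𝒪'] [IsDomain 𝒪'] [IsDiscreteValuationRing 𝒪']
    [IsAdicComplete (maximalIdeal 𝒪') 𝒪'] [Finite (ResidueField 𝒪')]
    [CharZero 𝒪'] (hp𝒪' : (p : 𝒪') ∈ maximalIdeal 𝒪')
    {W : Type*} [AddCommGroup W] [Module 𝒪' W] [Module.Free 𝒪' W] [Module.Finite 𝒪' W]
    [Nontrivial W] (ρW : Gℚ →* Module.End 𝒪' W)
    (hcont : ∀ n : ℕ, ∃ L : IntermediateField ℚ (AlgebraicClosure ℚ), FiniteDimensional ℚ L ∧
      ∀ σ : Gℚ, (∀ x ∈ L, σ x = x) →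
        ∀ w : W, ρW σ w - w ∈ maximalIdeal 𝒪' ^ n • (⊤ : Submodule 𝒪' W))
    (a : ℕ → 𝒪')
    (hfrob : ∀ ℓ : ℕ, ℓ.Prime → ℓ ∉ S → ∀ A : ValuationSubring (AlgebraicClosure ℚ),
      A.LiesOverPrime ℓ → ∀ φ : Gℚ, A.IsFrobeniusAt φ ℓ →
        ∀ w : W, ρW φ (ρW φ w) - a ℓ • ρW φ w + (ℓ : 𝒪') • w = 0) :
    (∀ g, ∃ t : 𝒪', ∀ w : W, ρW g (ρW g w) - t • ρW g w + H35.cyc 𝒪' hp𝒪' g • w = 0) ∧
    ∃ (𝒪'' : Type) (_ : CommRing 𝒪'') (_ : IsDomain 𝒪'') (_ : IsDiscreteValuationRing 𝒪'')
      (_ : IsAdicComplete (maximalIdeal 𝒪'') 𝒪'') (_ : Finite (ResidueField 𝒪''))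
      (_ : CharZero 𝒪'') (_ : Algebra 𝒪' 𝒪'') (_ : Module.Finite 𝒪' 𝒪'')
      (_ : IsLocalHom (algebraMap 𝒪' 𝒪'')),
    Function.Injective (algebraMap 𝒪' 𝒪'') ∧
    ∃ ρ : GaloisRepAdic 𝒪'',
      (∀ g t, (∀ w, ρW g (ρW g w) - t • ρW g w + H35.cyc 𝒪' hp𝒪' g • w = 0) →
        LinearMap.charpoly (ρ.ρ g) = X ^ 2 - C (algebraMap 𝒪' 𝒪'' t) * X
          + C (algebraMap 𝒪' 𝒪'' (H35.cyc 𝒪' hp𝒪' g))) ∧
      (∀ g, ρW g = 1 → H35.cyc 𝒪' hp𝒪' g = 1 → ρ.ρ g = 1) :=
  H35.exists_rep_of_lattice hpS 𝒪' hp𝒪' ρW hcont a hfrob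

/-! ## 4. Eigenlattices

`T` is a module over `Z` with an action `act` of a commutative ring `A` of operators, `χ : A → O` a
ring homomorphism to a `Z`-algebra `O`, and `H35.chiSub act χ` the submodule of the `v` in `O ⊗ T`
with `P v = χ(P) v` for all `P` in `A` (`GuideNewforms.mem_chiSub`; it is not zero if `χ` respects
the linear relations: `GuideNewforms.chiSub_ne_bot`). -/

/-- **Coefficients.** Let `Z` be a principal ideal domain contained in the domain `O`. Every element
of `O ⊗ T` is a sum `∑ e_k ⊗ x_k` with `e_k` in `O` linearly independent over `Z`. If `T'` is free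
and `F : T → T'` linear, then `F` kills the sum if and only if it kills all `x_k`. In this way
vectors of `T` itself are found from vectors of `O ⊗ T`. File `H35VChi`. -/
theorem coefficients {Z O : Type*} [CommRing Z] [IsDomain Z] [IsPrincipalIdealRing Z] [CommRing O]
    [IsDomain O] [Algebra Z O] (hinj : Function.Injective (algebraMap Z O)) {T T' : Type*}
    [AddCommGroup T] [Module Z T] [AddCommGroup T'] [Module Z T'] [Module.Free Z T']
    (v : O ⊗[Z] T) :
    ∃ (s : ℕ) (e : Fin s → O) (x : Fin s → T), LinearIndependent Z e ∧ v = ∑ k, e k ⊗ₜ[Z] x k ∧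
      ∀ F : T →ₗ[Z] T', F.baseChange O v = 0 ↔ ∀ k, F (x k) = 0 := by
  obtain ⟨s, e, x, he, hv⟩ := H35.exists_split hinj v
  exact ⟨s, e, x, he, hv, fun F => ⟨fun h => H35.apply_eq_zero_of_split he hv F h,
    fun h => H35.baseChange_eq_zero_of_split hv F h⟩⟩

/-- **The eigenlattice is stable** under the endomorphisms of `T` which commute with the operators
(for example the Galois group, or an Atkin-Lehner involution). File `H35VChi`. -/
theorem eigenlattice_stable {Z O : Type*} [CommRing Z] [CommRing O] [Algebra Z O] {A : Type*}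
    [CommRing A] {T : Type*} [AddCommGroup T] [Module Z T] (act : A →+* Module.End Z T)
    (χ : A →+* O) {F : Module.End Z T} (hF : ∀ P, Commute (act P) F) {v : O ⊗[Z] T}
    (hv : v ∈ H35.chiSub act χ) : F.baseChange O v ∈ H35.chiSub act χ :=
  H35.baseChange_mem_chiSub act χ hF hv

/-- **The eigenlattice is saturated** in `O ⊗ T`: scalars `c ≠ 0` can be cancelled (`T` is free and
`O` a domain). As a submodule of a finite free module over a discrete valuation ring it is finite
and free. File `H35VChi`. -/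
theorem eigenlattice_saturated {Z O : Type*} [CommRing Z] [CommRing O] [IsDomain O] [Algebra Z O]
    {A : Type*} [CommRing A] {T : Type*} [AddCommGroup T] [Module Z T] [Module.Free Z T]
    (act : A →+* Module.End Z T) (χ : A →+* O) {c : O} (hc : c ≠ 0) {v : O ⊗[Z] T}
    (h : c • v ∈ H35.chiSub act χ) : v ∈ H35.chiSub act χ :=
  H35.chiSub_saturated act χ hc h

/-- **The adic topology of the eigenlattice** is the topology induced from `O ⊗ T`, more precisely:
if `v` in the eigenlattice is divisible by the `n`-th power of the maximal ideal in `O ⊗ T`, then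
also in the eigenlattice. So the Galois action on it is continuous. File `H35VChi`. -/
theorem eigenlattice_topology {Z O : Type*} [CommRing Z] [CommRing O] [IsDomain O]
    [IsDiscreteValuationRing O] [Algebra Z O] {A : Type*} [CommRing A] {T : Type*}
    [AddCommGroup T] [Module Z T] [Module.Free Z T] (act : A →+* Module.End Z T) (χ : A →+* O)
    (n : ℕ) (v : H35.chiSub act χ)
    (h : (v : O ⊗[Z] T) ∈ maximalIdeal O ^ n • (⊤ : Submodule O (O ⊗[Z] T))) :
    v ∈ maximalIdeal O ^ n • (⊤ : Submodule O (H35.chiSub act χ)) :=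
  H35.mem_pow_smul_top_of_chiSub act χ n v h

/-! ## 5. The Galois action on the eigenlattice of a Hecke-Galois lattice

`T` is a finite free `ℤ_p`-module, `ρT` an action of `Gℚ` on `T`, `act` an action of the polynomials
in the good Hecke operators of level `N` (`act (X_ℓ)` is the operator `T_ℓ`), `χ` a character of the
Hecke algebra with values in `𝒪'`, and `V_χ = H35.chiSub act (χ ∘ ev)` the eigenlattice in `𝒪' ⊗ T`,
on which `g` acts by `H35.galChi act _ ρT hcomm g`, the restriction of `1 ⊗ ρT g`. -/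

/-- **Continuity.** If the action on `T` is continuous for the `p`-adic topology (for every `n` the
elements `σ` of an open subgroup satisfy `σ x ≡ x` modulo `p^n T`) then the action on the
eigenlattice is continuous for the topology of its maximal ideal. File `H35VMain`. -/
theorem galois_continuous {p : ℕ} [Fact p.Prime] {N : ℕ} [NeZero N] {S : Finset ℕ}
    {𝒪' : Type} [CommRing 𝒪'] [IsDomain 𝒪'] [IsDiscreteValuationRing 𝒪']
    [IsAdicComplete (maximalIdeal 𝒪') 𝒪'] [Finite (ResidueField 𝒪')]
    [CharZero 𝒪'] [Algebra ℤ_[p] 𝒪'] (hp𝒪' : (p : 𝒪') ∈ maximalIdeal 𝒪')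
    (χ : CuspForm.heckeAlgebra N 2 (↑S : Set ℕ) →+* 𝒪')
    {T : Type*} [AddCommGroup T] [Module ℤ_[p] T] [Module.Free ℤ_[p] T] [Module.Finite ℤ_[p] T]
    (ρT : Gℚ →* Module.End ℤ_[p] T)
    (act : MvPolynomial (GoodPrimes N (↑S : Set ℕ)) ℤ →+* Module.End ℤ_[p] T)
    (hcont : ∀ n : ℕ, ∃ L : IntermediateField ℚ (AlgebraicClosure ℚ), FiniteDimensional ℚ L ∧
      ∀ σ : Gℚ, (∀ x ∈ L, σ x = x) → ∀ x : T, ∃ y : T, ρT σ x - x = (p : ℤ_[p]) ^ n • y)
    (hcomm : ∀ P σ, Commute (act P) (ρT σ)) (n : ℕ) :
    ∃ L : IntermediateField ℚ (AlgebraicClosure ℚ), FiniteDimensional ℚ L ∧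
      ∀ σ : Gℚ, (∀ x ∈ L, σ x = x) →
        ∀ w : H35.chiSub act (χ.comp (evHecke N (↑S : Set ℕ))),
          H35.galChi act _ ρT hcomm σ w - w ∈ maximalIdeal 𝒪' ^ n •
            (⊤ : Submodule 𝒪' (H35.chiSub act (χ.comp (evHecke N (↑S : Set ℕ))))) :=
  H35.galChi_continuous hp𝒪' χ ρT act hcont hcomm n

/-- **Frobenius elements.** If `φ² - T_ℓ φ + ℓ = 0` on `T` then `φ² - χ(T_ℓ) φ + ℓ = 0` on the
eigenlattice. With `galois_continuous` and `rep_of_lattice` one gets
`GuideNewforms.attached_of_eigenlattice`. File `H35VMain`. -/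
theorem galois_frobenius {p : ℕ} [Fact p.Prime] {N : ℕ} [NeZero N] {S : Finset ℕ}
    {𝒪' : Type} [CommRing 𝒪'] [IsDomain 𝒪'] [IsDiscreteValuationRing 𝒪']
    [IsAdicComplete (maximalIdeal 𝒪') 𝒪'] [Finite (ResidueField 𝒪')]
    [CharZero 𝒪'] [Algebra ℤ_[p] 𝒪']
    (χ : CuspForm.heckeAlgebra N 2 (↑S : Set ℕ) →+* 𝒪')
    {T : Type*} [AddCommGroup T] [Module ℤ_[p] T] [Module.Free ℤ_[p] T] [Module.Finite ℤ_[p] T]
    (ρT : Gℚ →* Module.End ℤ_[p] T)
    (act : MvPolynomial (GoodPrimes N (↑S : Set ℕ)) ℤ →+* Module.End ℤ_[p] T)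
    (hcomm : ∀ P σ, Commute (act P) (ρT σ))
    (hfrob : ∀ (a : GoodPrimes N (↑S : Set ℕ)) (A : ValuationSubring (AlgebraicClosure ℚ)),
      A.LiesOverPrime (a.1 : ℕ) → ∀ φ : Gℚ, A.IsFrobeniusAt φ (a.1 : ℕ) →
        ∀ x : T, ρT φ (ρT φ x) - act (MvPolynomial.X a) (ρT φ x) + (a.1 : ℕ) • x = 0)
    (ℓ : ℕ) (hℓ : ℓ.Prime) (hℓN : ¬ ℓ ∣ N) (hℓS : ℓ ∉ (↑S : Set ℕ))
    (A : ValuationSubring (AlgebraicClosure ℚ)) (hA : A.LiesOverPrime ℓ) (φ : Gℚ)
    (hφ : A.IsFrobeniusAt φ ℓ) (w : H35.chiSub act (χ.comp (evHecke N (↑S : Set ℕ)))) :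
    H35.galChi act _ ρT hcomm φ (H35.galChi act _ ρT hcomm φ w)
      - χ (CuspForm.heckeAlgebra.T hℓ hℓN hℓS) • H35.galChi act _ ρT hcomm φ w
      + (ℓ : 𝒪') • w = 0 :=
  H35.galChi_frobenius χ ρT act hcomm hfrob ℓ hℓ hℓN hℓS A hA φ hφ w

/-! ## 6. The primes dividing the level -/

/-- **Unipotent operators anticommute.** If `(ρ(σ) - 1)² = 0` for all `σ` in a subgroup `I` then
`(ρ(σ) - 1)(ρ(τ) - 1) = - (ρ(τ) - 1)(ρ(σ) - 1)` for `σ`, `τ` in `I` (apply the hypothesis to `σ`,
`τ`, `σ τ`). This is the first step of `GuideNewforms.exists_fixed_of_sq_zero`.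
File `H35VKolchin`. -/
theorem anticommute {O W G : Type*} [CommRing O] [AddCommGroup W] [Module O W] [Group G]
    (I : Subgroup G) (ρ : G →* Module.End O W) (h : ∀ σ ∈ I, (ρ σ - 1) * (ρ σ - 1) = 0) {σ τ : G}
    (hσ : σ ∈ I) (hτ : τ ∈ I) :
    (ρ σ - 1) * (ρ τ - 1) + (ρ τ - 1) * (ρ σ - 1) = 0 :=
  H35.anticomm_of_sq_zero I ρ h hσ hτ

/-- **Steinberg data** at `q` for a Frobenius element `σ` at `q`, on the Hecke-Galois lattice `T`:
an involution `w` which commutes with the Hecke operators and with `σ`, and an operator `D` which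
becomes zero after some operator `P` with `χ(P) ≠ 0`, such that `(σ + q w)(σ + w) x = 0` if
`D x = D (w x) = 0`. For `T_p J_0(Mq)`: `w` is the Atkin-Lehner involution and `D = β^* α_*`.
Definition in `H35VFinal`. -/
theorem steinbergData_iff {p : ℕ} [Fact p.Prime] {N : ℕ} [NeZero N] {S : Finset ℕ} {𝒪' : Type*}
    [CommRing 𝒪'] (χ : CuspForm.heckeAlgebra N 2 (↑S : Set ℕ) →+* 𝒪') {T : Type*}
    [AddCommGroup T] [Module ℤ_[p] T] (ρT : Gℚ →* Module.End ℤ_[p] T)
    (act : MvPolynomial (GoodPrimes N (↑S : Set ℕ)) ℤ →+* Module.End ℤ_[p] T) (q : ℕ) (σ : Gℚ) :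
    H35.SteinbergData χ ρT act q σ ↔
      ∃ w D : Module.End ℤ_[p] T, w * w = 1 ∧ (∀ P, Commute (act P) w) ∧ Commute w (ρT σ) ∧
        (∃ P, D * act P = 0 ∧ χ (evHecke N (↑S : Set ℕ) P) ≠ 0) ∧
        ∀ x : T, D x = 0 → D (w x) = 0 →
          ρT σ (ρT σ x) + ρT σ (w x) + q • w (ρT σ x) + q • x = 0 :=
  Iff.rfl

/-- **S35 from Steinberg data.** `T` is a Hecke-Galois lattice of level `N`: continuous action of
`Gℚ` (`hcont`), commuting with the Hecke operators (`hcomm`), `φ² - T_ℓ φ + ℓ = 0` (`hfrob`), and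
the Hecke algebra acts almost faithfully: if `P T ⊆ p^n T` then `u P` is divisible by `p^{n-c}` in
the Hecke algebra, `c` and `u ≠ 0` fixed (`hfaith`; it implies that `χ` respects the linear
relations between the operators on `T`: `GuideTateJacobian.relations_of_faithful`). If there are
Steinberg data at all Frobenius elements at the primes `q ≠ p` with `q ∥ N`, then the conclusion of
S35 holds (`H35.S35Conclusion`, written out in `GuideNewforms.s35`): the representation attached to
`χ` has at these elements the characteristic polynomial `X² ∓ (q + 1) X + q`. Proof: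
`GuideNewforms.attached_of_eigenlattice` and `GuideNewforms.steinberg_trace`. File `H35VFinal`. -/
theorem s35_of_data {p : ℕ} [Fact p.Prime] {N : ℕ} [NeZero N] {S : Finset ℕ}
    (hpS : p ∈ S) (hNS : ∀ q : ℕ, q.Prime → q ∣ N → q ∈ S)
    (𝒪' : Type) [CommRing 𝒪'] [IsDomain 𝒪'] [IsDiscreteValuationRing 𝒪']
    [IsAdicComplete (maximalIdeal 𝒪') 𝒪'] [Finite (ResidueField 𝒪')]
    [CharZero 𝒪'] (hp𝒪' : (p : 𝒪') ∈ maximalIdeal 𝒪')
    (χ : CuspForm.heckeAlgebra N 2 (↑S : Set ℕ) →+* 𝒪')
    {T : Type*} [AddCommGroup T] [Module ℤ_[p] T] [Module.Free ℤ_[p] T] [Module.Finite ℤ_[p] T]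
    (ρT : Gℚ →* Module.End ℤ_[p] T)
    (hcont : ∀ n : ℕ, ∃ L : IntermediateField ℚ (AlgebraicClosure ℚ), FiniteDimensional ℚ L ∧
      ∀ σ : Gℚ, (∀ x ∈ L, σ x = x) → ∀ x : T, ∃ y : T, ρT σ x - x = (p : ℤ_[p]) ^ n • y)
    (act : MvPolynomial (GoodPrimes N (↑S : Set ℕ)) ℤ →+* Module.End ℤ_[p] T)
    (hcomm : ∀ P σ, Commute (act P) (ρT σ))
    (hfrob : ∀ (a : GoodPrimes N (↑S : Set ℕ)) (A : ValuationSubring (AlgebraicClosure ℚ)),
      A.LiesOverPrime (a.1 : ℕ) → ∀ φ : Gℚ, A.IsFrobeniusAt φ (a.1 : ℕ) →
        ∀ x : T, ρT φ (ρT φ x) - act (MvPolynomial.X a) (ρT φ x) + (a.1 : ℕ) • x = 0)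
    (hfaith : ∃ c u : ℕ, u ≠ 0 ∧
      ∀ (n : ℕ) (P : MvPolynomial (GoodPrimes N (↑S : Set ℕ)) ℤ),
        (∀ x : T, ∃ y : T, act P x = (p : ℤ_[p]) ^ n • y) →
          ∃ y : CuspForm.heckeAlgebra N 2 (↑S : Set ℕ),
            (u : CuspForm.heckeAlgebra N 2 (↑S : Set ℕ)) * evHecke N (↑S : Set ℕ) P =
              (p : CuspForm.heckeAlgebra N 2 (↑S : Set ℕ)) ^ (n - c) * y)
    (hst : ∀ q : ℕ, q.Prime → q ≠ p → q ∣ N → ¬ q ^ 2 ∣ N →
      ∀ A : ValuationSubring (AlgebraicClosure ℚ), A.LiesOverPrime q →
        ∀ σ : Gℚ, A.IsFrobeniusAt σ q → H35.SteinbergData χ ρT act q σ) :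
    H35.S35Conclusion p N S 𝒪' χ :=
  H35.s35_of_data hpS hNS 𝒪' hp𝒪' χ ρT hcont act hcomm hfrob hfaith hst

/-- **Steinberg data for `J_0(M q)`**, `q ∤ M`: they exist if the Steinberg relation holds on the
`p`-power torsion (`H35.StarInput`, this is `GuideNewforms.steinberg_on_torsion`) and `χ` is absent
from `J_0(M)` (`H35.AbsentFrom`, for newforms `GuideNewforms.newform_absent_from_lower_jacobians`).
`w` and `D` are the maps of Tate modules induced by the Atkin-Lehner involution and by `β^* α_*`.
Files `H35S35`, `H35Fin`. -/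
theorem steinbergData_jacobian {p : ℕ} [Fact p.Prime] {M q : ℕ} [NeZero M] [NeZero (M * q)]
    [NeZero q] (hq : q.Prime) (hc : M.Coprime q) {S : Finset ℕ} {𝒪' : Type*} [CommRing 𝒪']
    {χ : CuspForm.heckeAlgebra (M * q) 2 (↑S : Set ℕ) →+* 𝒪'} (hstar : H35.StarInput p q M)
    (habs : letI := heckeModuleBar M; H35.AbsentFrom χ p (JZero M))
    {A : ValuationSubring (AlgebraicClosure ℚ)} (hA : A.LiesOverPrime q) {σ : Gℚ}
    (hσ : A.IsFrobeniusAt σ q) :
    letI := heckeModuleBar (M * q)
    H35.SteinbergData χ (H30.galTate p (JZero (M * q)))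
      (H30.actTate p (JZero (M * q)) (M * q) (↑S : Set ℕ)) q σ := by
  let := heckeModuleBar (M * q)
  let := heckeModuleBar M
  obtain ⟨D⟩ := H35.steinbergJ_of_star hq hc (↑S : Set ℕ) p hstar
  exact H35.steinbergData_of_J D habs hA hσ

/-- **Carayol data** at `q` on the Hecke-Galois lattice `T`: a place `A` above `q` and two maps `a`,
`b` to a lattice `T₁` which become zero after operators with nonzero value under `χ`, such that an
element of `T` which is fixed by inertia and killed by `a` and `b` is zero. For `T_p J_0(M q²)`: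
the maps to `T_p J_0(M q)` induced by the degeneracy maps. Definition in `H35VFinal`. -/
theorem carayolData_iff {p : ℕ} [Fact p.Prime] {N : ℕ} [NeZero N] {S : Finset ℕ} {𝒪' : Type*}
    [CommRing 𝒪'] (χ : CuspForm.heckeAlgebra N 2 (↑S : Set ℕ) →+* 𝒪') {T : Type*}
    [AddCommGroup T] [Module ℤ_[p] T] (ρT : Gℚ →* Module.End ℤ_[p] T)
    (act : MvPolynomial (GoodPrimes N (↑S : Set ℕ)) ℤ →+* Module.End ℤ_[p] T) (q : ℕ) :
    H35.CarayolData χ ρT act q ↔
      ∃ A : ValuationSubring (AlgebraicClosure ℚ), A.LiesOverPrime q ∧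
        ∃ (T₁ : Type) (_ : AddCommGroup T₁) (_ : Module ℤ_[p] T₁) (_ : Module.Free ℤ_[p] T₁)
          (a b : T →ₗ[ℤ_[p]] T₁),
          (∃ P, a ∘ₗ act P = 0 ∧ χ (evHecke N (↑S : Set ℕ) P) ≠ 0) ∧
          (∃ P, b ∘ₗ act P = 0 ∧ χ (evHecke N (↑S : Set ℕ) P) ≠ 0) ∧
          ∀ x : T, (∀ σ ∈ A.inertiaSubgroupIn ℚ, ρT σ x = x) → a x = 0 → b x = 0 → x = 0 :=
  Iff.rfl

/-- **S36 from Carayol data.** Hypotheses as in `s35_of_data`, but with Carayol data at the primes
`q ≠ p` with `q² ∥ N`. Then the conclusion of S36 holds (`H35.S36Conclusion`, written out in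
`GuideNewforms.s36`): the representation attached to `χ` is not unipotent on inertia at these `q`.
Proof: otherwise `(σ - 1)² = 0` on the eigenlattice for `σ` in inertia, and
`GuideNewforms.exists_fixed_of_unipotent` gives a nonzero `x` in `T` fixed by inertia with
`a x = b x = 0`. File `H35VFinal`. -/
theorem s36_of_data {p : ℕ} [Fact p.Prime] {N : ℕ} [NeZero N] {S : Finset ℕ}
    (hpS : p ∈ S) (hNS : ∀ q : ℕ, q.Prime → q ∣ N → q ∈ S)
    (𝒪' : Type) [CommRing 𝒪'] [IsDomain 𝒪'] [IsDiscreteValuationRing 𝒪']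
    [IsAdicComplete (maximalIdeal 𝒪') 𝒪'] [Finite (ResidueField 𝒪')]
    [CharZero 𝒪'] (hp𝒪' : (p : 𝒪') ∈ maximalIdeal 𝒪')
    (χ : CuspForm.heckeAlgebra N 2 (↑S : Set ℕ) →+* 𝒪')
    {T : Type*} [AddCommGroup T] [Module ℤ_[p] T] [Module.Free ℤ_[p] T] [Module.Finite ℤ_[p] T]
    (ρT : Gℚ →* Module.End ℤ_[p] T)
    (hcont : ∀ n : ℕ, ∃ L : IntermediateField ℚ (AlgebraicClosure ℚ), FiniteDimensional ℚ L ∧
      ∀ σ : Gℚ, (∀ x ∈ L, σ x = x) → ∀ x : T, ∃ y : T, ρT σ x - x = (p : ℤ_[p]) ^ n • y)
    (act : MvPolynomial (GoodPrimes N (↑S : Set ℕ)) ℤ →+* Module.End ℤ_[p] T)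
    (hcomm : ∀ P σ, Commute (act P) (ρT σ))
    (hfrob : ∀ (a : GoodPrimes N (↑S : Set ℕ)) (A : ValuationSubring (AlgebraicClosure ℚ)),
      A.LiesOverPrime (a.1 : ℕ) → ∀ φ : Gℚ, A.IsFrobeniusAt φ (a.1 : ℕ) →
        ∀ x : T, ρT φ (ρT φ x) - act (MvPolynomial.X a) (ρT φ x) + (a.1 : ℕ) • x = 0)
    (hfaith : ∃ c u : ℕ, u ≠ 0 ∧
      ∀ (n : ℕ) (P : MvPolynomial (GoodPrimes N (↑S : Set ℕ)) ℤ),
        (∀ x : T, ∃ y : T, act P x = (p : ℤ_[p]) ^ n • y) →
          ∃ y : CuspForm.heckeAlgebra N 2 (↑S : Set ℕ),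
            (u : CuspForm.heckeAlgebra N 2 (↑S : Set ℕ)) * evHecke N (↑S : Set ℕ) P =
              (p : CuspForm.heckeAlgebra N 2 (↑S : Set ℕ)) ^ (n - c) * y)
    (hca : ∀ q : ℕ, q.Prime → q ≠ p → N.factorization q = 2 → H35.CarayolData χ ρT act q) :
    H35.S36Conclusion p N S 𝒪' χ :=
  H35.s36_of_data hpS hNS 𝒪' hp𝒪' χ ρT hcont act hcomm hfrob hfaith hca

/-- **S34 over the Hecke ring.** `H` is a Hecke-Galois datum of level `N` (`GuideGalois`, section
6) with Hecke ring `T`, and `J` an abelian group with commuting actions of `Gℚ` and of the Hecke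
operators (for example `J_0(N)`), with the following properties for its `p`-power torsion:
`φ² - T_ℓ φ + ℓ = 0` (`FrobeniusQuadratic`), on every `J[p^n]` the Galois group acts through a
finite quotient (`FiniteLevel`), a polynomial in the good Hecke operators which kills `J[p^n]` is,
up to a fixed factor prime to `p`, divisible by `p^{n-c}` in the Hecke algebra (`HeckeFaithful`),
and `(σ - 1)² = 0` for `σ` in inertia at `q ≠ p` (`UnipotentTorsion`). Then `H.ρ` is unipotent on
inertia at `q`. Proof: approximate `σ` by a power `φ^j` of a Frobenius element at a good prime; the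
trace of `ρ(φ^j)` is a polynomial in `T_ℓ` (a Lucas polynomial) which acts on `J[p^n]` like
`σ + σ⁻¹ = 2`; so the trace of `ρ(σ)` is congruent to `2` modulo all powers of the maximal ideal.
File `H35S34`. -/
theorem s34_of_module {p : ℕ} {J : Type*} [AddCommGroup J] [Module HeckeAlg J]
    [DistribMulAction GQ J] [SMulCommClass GQ HeckeAlg J] {N : ℕ} [NeZero N] {S : Finset ℕ}
    {𝒪 : Type} [CommRing 𝒪] [IsDomain 𝒪] [IsDiscreteValuationRing 𝒪]
    [IsAdicComplete (maximalIdeal 𝒪) 𝒪]
    {θ : CuspForm.heckeAlgebra N 2 (↑S : Set ℕ) →+* ResidueField 𝒪}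
    {T : Type} [CommRing T] [IsLocalRing T] [IsNoetherianRing T]
    [IsAdicComplete (maximalIdeal T) T] [Algebra 𝒪 T] [IsLocalHom (algebraMap 𝒪 T)]
    [Module.Finite 𝒪 T] [Module.Free 𝒪 T]
    (hp : p.Prime) (hp𝒪 : (p : 𝒪) ∈ maximalIdeal 𝒪) (hpS : p ∈ S)
    (hNS : ∀ q : ℕ, q.Prime → q ∣ N → q ∈ S)
    (H : CuspForm.HeckeGaloisRepDatum N (↑S : Set ℕ) 𝒪 θ T)
    (q : ℕ) (hq : q.Prime) (hqp : q ≠ p)
    (hF : FrobeniusQuadratic (K := ℚ) (L := AlgebraicClosure ℚ) N p J)
    (hfin : FiniteLevel p J) (hfaith : HeckeFaithful N (↑S : Set ℕ) p J)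
    (hss : H35.UnipotentTorsion p q J) :
    H.ρ.IsUnipotentOnInertiaAt q :=
  H35.S34_of_module hp hp𝒪 hpS hNS H q hq hqp hF hfin hfaith hss

/-! ## 7. Strong multiplicity one -/

/-- **The congruence.** `J` as in `s34_of_module`, `r` a prime which does not divide `N p`. For all
`n` the operator `T_r` is congruent modulo `p^{n-c}`, up to a fixed factor `u` prime to `p`, to a
polynomial `P` in the operators `T_ℓ` with `ℓ ∉ S`. Proof: let `σ` be a Frobenius element at `r`; on
`J[p^n]` it agrees with a power `φ^j` of a Frobenius element at some `ℓ ∉ S` with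
`ℓ^j ≡ r` modulo `p^n`, so that `T_r = σ + r σ⁻¹ = φ^j + ℓ^j φ^{-j}`, a polynomial in `T_ℓ`.
(`H35.renameGood` is the inclusion of polynomial rings.) File `H35Mult`. -/
theorem hecke_congruence {p : ℕ} {J : Type*} [AddCommGroup J] [Module HeckeAlg J]
    [DistribMulAction GQ J] [SMulCommClass GQ HeckeAlg J]
    {N : ℕ} [NeZero N] (hp : p.Prime) {r : ℕ} (hr : r.Prime) (hrp : r ≠ p) (hrN : ¬ r ∣ N)
    {S₀ : Set ℕ} (hrS₀ : r ∉ S₀) (S : Finset ℕ) (hpS : p ∈ S)
    (hNS : ∀ q : ℕ, q.Prime → q ∣ N → q ∈ S) (hS₀ : S₀ ⊆ (↑S : Set ℕ))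
    (hF : FrobeniusQuadratic (K := ℚ) (L := AlgebraicClosure ℚ) N p J)
    (hfin : FiniteLevel p J) (hfaith : HeckeFaithful N S₀ p J) :
    ∃ c u : ℕ, ¬ p ∣ u ∧ ∀ n : ℕ, ∃ (P : MvPolynomial (GoodPrimes N (↑S : Set ℕ)) ℤ)
      (y : CuspForm.heckeAlgebra N 2 S₀),
      (u : CuspForm.heckeAlgebra N 2 S₀) * (CuspForm.heckeAlgebra.T hr hrN hrS₀ -
        evHecke N S₀ (H35.renameGood dvd_rfl hS₀ P)) =
          (p : CuspForm.heckeAlgebra N 2 S₀) ^ (n - c) * y :=
  H35.exists_cong_of_module hp hr hrp hrN hrS₀ S hpS hNS hS₀ hF hfin hfaith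

/-- **Krull's intersection theorem**, in the form used here: let `A` be a finitely generated abelian
group, `B` a subgroup, and `x` congruent to elements of `B` modulo all powers of the prime `p`. Then
some nonzero multiple of `x` is in `B`. With `hecke_congruence` this gives
`GuideNewforms.strong_multiplicity_one`. File `H35Mult`. -/
theorem multiple_in_subgroup {A : Type*} [AddCommGroup A] [Module.Finite ℤ A]
    (B : AddSubgroup A) {p : ℕ} (hp : p.Prime) (c : ℕ) (x : A)
    (h : ∀ n : ℕ, ∃ b ∈ B, ∃ y : A, x = b + p ^ (n - c) • y) :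
    ∃ e : ℤ, e ≠ 0 ∧ e • x ∈ B :=
  H35.exists_mul_mem_of_forall_cong B hp c x h

/-! ## 8. Cusp forms, torsion points and the lower levels -/

/-- **Integral `q`-expansions.** Cusp forms with integral Fourier coefficients which are linearly
independent over `ℤ` are linearly independent over `ℂ`. (Used for
`GuideNewforms.eigenform_of_character`: in a basis with integral coefficients the Hecke operators
have integral matrices; a common eigenvector of the matrices over `ℂ` gives a cusp form, which is
not zero by this theorem.) File `H35Abs`. -/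
theorem independent_of_integral {N : ℕ} [NeZero N] {m : ℕ}
    (b : Fin m → CuspForm (CongruenceSubgroup.Gamma0 N) 2)
    (hb : ∀ i n, ∃ z : ℤ, ModularFormClass.qCoeff (b i) n = (z : ℂ))
    (hli : LinearIndependent ℤ b) (v : Fin m → ℂ) (hv : ∑ i, v i • b i = 0) : v = 0 :=
  H35.sum_ne_zero_of_intCoeff b hb hli v hv

/-- **A polynomial in the good Hecke operators** is compatible with the inclusion of the cusp forms
of level `M` in those of level `N`, and acts on a normalised eigenform `g` by its value at the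
`a_ℓ(g)`. File `H35Abs`. -/
theorem hecke_polynomial {M N : ℕ} [NeZero M] [NeZero N] (h : M ∣ N) (S : Set ℕ)
    (P : MvPolynomial (GoodPrimes N S) ℤ) :
    (∀ f : CuspForm (CongruenceSubgroup.Gamma0 M) 2,
      H58.levelIncl 2 h (H35.evEnd M h S P f) = H35.evEnd N dvd_rfl S P (H58.levelIncl 2 h f)) ∧
    ∀ g : CuspForm (CongruenceSubgroup.Gamma0 N) 2, g.IsNormalizedEigenform →
      H35.evEnd N dvd_rfl S P g = MvPolynomial.eval₂ (Int.castRingHom ℂ)
        (fun a : GoodPrimes N S => ModularFormClass.qCoeff g (a.1 : ℕ)) P • g :=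
  ⟨H35.levelIncl_evEnd h S P, fun _ hg => H35.evEnd_eigen S hg P⟩

/-- **Torsion points and periods.** `H90.Mu` is the multiplicative group of `ℂ`, written additively,
and `e : ℤ → H90.Mu` a homomorphism (in the application `e(1)` is a primitive `n`-th root of unity);
`H90.FX K N` is the function field of `X_0(N)` over `K`. The class `c` in `Pic⁰` of `X_0(N)` and the
cusp form `f` are linked if there is a homomorphism `φ : Γ_0(N) → ℤ`, equal to the real part of the
periods of `f`, such that the character `e ∘ φ` corresponds to `c` under the Kummer relation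
`H90.Rel n` (`GuideBridge.rel_iff`). Definition in `H35Kill`. -/
theorem link_iff {K : Type*} [Field K] [Algebra K ℂ] [IsAlgClosed K] [CharZero K] [Algebra ℚ K]
    {N : ℕ} [NeZero N] (e : ℤ →+ H90.Mu) (n : ℕ) (c : Pic0 K (H90.FX K N))
    (f : CuspForm (CongruenceSubgroup.Gamma0 N) 2) :
    H35.Link e n c f ↔ ∃ φ : Additive (CongruenceSubgroup.Gamma0 N) →+ ℤ,
      (Int.castAddHom ℝ).comp φ = Complex.reAddGroupHom.comp (periodMap N f) ∧
      H90.Rel n c (e.comp φ) :=
  Iff.rfl

/-- **Links respect the Hecke operators**, and only the class `0` is linked with the form `0`. So a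
polynomial in the Hecke operators which is zero on cusp forms kills all classes which are linked
with a cusp form (`GuideNewforms.hecke_relation_on_torsion`). File `H35Kill`. -/
theorem link_hecke {K : Type*} [Field K] [Algebra K ℂ] [IsAlgClosed K] [CharZero K] [Algebra ℚ K]
    {N : ℕ} [NeZero N] {e : ℤ →+ H90.Mu} {n : ℕ} {c : Pic0 K (H90.FX K N)} :
    (∀ (f : CuspForm (CongruenceSubgroup.Gamma0 N) 2) (ℓ : ℕ) [hℓ : Fact ℓ.Prime]
      (hℓN : ¬ ℓ ∣ N), H35.Link e n c f →
        haveI : NeZero ℓ := ⟨hℓ.out.ne_zero⟩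
        H35.Link e n (heckeOperatorAlong K N ℓ c) (CuspForm.heckeTLin 2 hℓ.out hℓN f)) ∧
    (n ≠ 0 → H35.Link e n c (0 : CuspForm (CongruenceSubgroup.Gamma0 N) 2) → c = 0) :=
  ⟨fun _ _ _ hℓN h => h.hecke hℓN, fun hn h => h.eq_zero hn⟩

/-- **Every `n`-torsion class is linked with a cusp form**, for a suitable `e`. The hypothesis, that
the characters of `n`-torsion classes vanish on the parabolic and elliptic elements of `Γ_0(N)`, is
`GuideBridge.rel_isPE`. Proof: the character of the class has values in the `n`-th roots of unity;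
it lifts to a homomorphism `φ : Γ_0(N) → ℤ` which vanishes on these elements, since the quotient of
the abelianised group `Γ_0(N)` by them is free; and by Eichler and Shimura `φ` is the real part of
the periods of a cusp form (`H80`, `H8Shim*`, see GuidePeriods). File `H35Kill`. -/
theorem exists_link {K : Type*} [Field K] [Algebra K ℂ] [IsAlgClosed K] [CharZero K] [Algebra ℚ K]
    {N : ℕ} [NeZero N] {n : ℕ} (hn : n ≠ 0)
    (hPE : ∀ (c : Pic0 K (H90.FX K N)) (χ : Additive (CongruenceSubgroup.Gamma0 N) →+ H90.Mu),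
      H90.Rel n c χ → H4.IsPE χ) :
    ∃ e : ℤ →+ H90.Mu, ∀ c : Pic0 K (H90.FX K N), n • c = 0 →
      ∃ f : CuspForm (CongruenceSubgroup.Gamma0 N) 2, H35.Link e n c f :=
  H35.exists_link hn hPE

/-- **Homomorphisms from the ring of eigenvalues** to a domain of characteristic zero are injective:
the ring is integral over `ℤ`, and a prime ideal which contains no nonzero integer is `0`. (So
`χ(P) ≠ 0` can be checked in `ℂ`.) File `H35E1`. -/
theorem eigenvalue_embedding {N : ℕ} [NeZero N] {S : Set ℕ}
    (χ : CuspForm.heckeAlgebra N 2 S →+* ℂ) {O' : Type*} [CommRing O'] [IsDomain O'] [CharZero O']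
    (ι : χ.range →+* O') : Function.Injective ι :=
  H35.iota_injective χ ι

end Fermat.Agent.Guide.LatticeReps
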