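import Fermat.Agent.H76V3

/-!
# Reader's guide: blocks (C) and (D) of S47, companion: the lattice types at the bad places

**Statement served:** S47, blocks (C) and (D). The types are used in `GuideOctDForm` (block (D)),
`GuideOctCGeom`, `GuideOctCSplit`, `GuideOctCLocal` (block (C)); their groups and characters are
explained in `GuideSemilocal`. Every library theorem cited below is used in the proof of S47. In
prose: note [469] of `NOTES.md`. Files: `H76U4`, `H76VDef`, `H76V1`-`H76V3` (helper76), `H36Psi`.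

**What this is about.** `F` is a number field, `E/F` a cyclic extension of degree three generated by
`s`. At every place `v` of `F` and every place `w` of `E` one needs lattice data `A`, `B`, `C`, i. e.
groups of matrices `(1 + A, B; C, 1 + A)` with the character `(a b; c d) ↦ ψ_w(b)`, with the
following properties: as deep as one wants; open, bounded, of finite index; `1 + A` is exactly the
set of the multipliers of `B` which preserve `ψ_w` (duality); invariant under `s`; and the data over
`F` and over `E` must correspond to each other. At places `v` which split this is easy (balls). At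
places with one place `w` above them, possibly wildly ramified, balls do not work: the norm map on
the congruence subgroups of `E` is complicated. Here the lattices are defined by the self-dual normal
basis `e, s e, s² e` of the Kummer extension `E/F`: `Lat r` is the set of all `x` with
`|Tr(x e)|, |Tr(x s e)|, |Tr(x s² e)| ≤ r`. It is stable under `s`, its intersection with `F` is a
ball, and it has an exact dual for `ψ_w`, whatever the ramification is.

**Conventions.** `w.valuation K` is the absolute value at `w` with values `exp n`, `n ∈ ℤ`, and `0`;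
`exp(-n)` is the absolute value of the `n`-th power of a uniformiser. `H7.Z.psi w` is the standard
additive character `ψ_w` (`psi_formula` in `GuideOctCGeom`); `H36.Psi.dexp w` is the exponent of `w` in
the different. `H82.above E v` is the set of the places of `E` above `v`, and `H82.NonSplit E v` says
that it has one element. `U0 w` is `PGL₂` of the local ring at `w`, `Gam w n` its principal congruence
subgroup of level `w^n`. `H76V.Nice w T k c₀` is the list of the properties of a type of depth
`(k, c₀)` (`nice_iff` in `GuideOctCLocal`). `nM b`, `dM t`, `lM c` and `H76U.TD K`, the structure of the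
lattice data `A`, `B`, `C`, `psi` over `K`, as in `GuideSemilocal` (section 4).
-/

set_option autoImplicit false

namespace Fermat.Agent.Guide.LatticeTypes

open IsDedekindDomain HeightOneSpectrum WithZero NumberField Matrix
open scoped MatrixGroups
open Fermat.Agent.H59XF Fermat.Agent.H59D
open Fermat.Agent.H76U (nM dM lM TD SD)

/-! ## 1. The additive characters -/

/-- **The exponent of the different** at a place. -/
theorem dexp_eq {K : Type*} [Field K] [NumberField K] (w : HeightOneSpectrum (𝓞 K)) :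
    H36.Psi.dexp w = multiplicity w.asIdeal (differentIdeal ℤ (𝓞 K)) :=
  rfl

/-- **Duality** (`H36Psi`, helper36; steps of the proof: `GuideThetaGauss`, section 1). `ψ_w(x r) = 1` for
all `r` with `|r|_w ≤ exp n` if and only if `|x|_w ≤ exp(d - n)`, `d` the exponent of the different at
`w`. -/
theorem psi_duality {K : Type*} [Field K] [NumberField K] (w : HeightOneSpectrum (𝓞 K)) (x : K)
    (n : ℤ) :
    (∀ r : K, w.valuation K r ≤ exp n → H7.Z.psi w (x * r) = 1) ↔
      w.valuation K x ≤ exp ((H36.Psi.dexp w : ℤ) - n) :=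
  H36.Psi.dual_iff w x n

/-- **Finite order** (`H76V1`). On a ball `|b|_w ≤ exp m` the character `ψ_w` has values in the
roots of unity of a fixed order, namely `N(w)^m`: the integer `N(w)` is in the prime `w`, so
`N(w)^m b` is integral at `w`. -/
theorem psi_finite_order {K : Type*} [Field K] [NumberField K] (w : HeightOneSpectrum (𝓞 K))
    (m : ℕ) :
    w.valuation K ((Ideal.absNorm w.asIdeal : ℕ) : K) ≤ exp (-1 : ℤ) ∧
    ∃ N : ℕ, 0 < N ∧ ∀ b : K, w.valuation K b ≤ exp (m : ℤ) → H7.Z.psi w b ^ N = 1 :=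
  ⟨H76V.val_absNorm_le w, H76V.exists_psi_pow w m⟩

/-! ## 2. Balls, and the properties of the level -/

/-- **Lattice data given by balls** (`H76U4`). `v` is a valuation of a field `K` and `a < 1`,
`b c ≤ a`; `psi` is an additive character trivial on the ball of radius `a b`. Then the balls of
radii `a`, `b`, `c` and `psi` are lattice data. -/
theorem balls {K : Type*} [Field K] {Γ₀ : Type*} [LinearOrderedCommGroupWithZero Γ₀]
    (v : Valuation K Γ₀) (a b c : Γ₀) (ha : a < 1) (hbc : b * c ≤ a) (psi : AddChar K ℂ)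
    (hpsi : ∀ x, v x ≤ a * b → psi x = 1) :
    ∃ T : TD K, (∀ x, x ∈ T.A ↔ v x ≤ a) ∧ (∀ x, x ∈ T.B ↔ v x ≤ b) ∧
      (∀ x, x ∈ T.C ↔ v x ≤ c) ∧ T.psi = psi :=
  ⟨TD.std v a b c ha hbc psi hpsi, fun _ => Iff.rfl, fun _ => Iff.rfl, fun _ => Iff.rfl, rfl⟩

/-- **The level is open** (`H76U4`). If the ball of radius `exp(-n)` is contained in `A`, `B`, `C`
and in the kernel of `psi`, the principal congruence subgroup of level `w^n` is contained in the
level `T.U` (the kernel of the character of `T.H`). -/
theorem level_open {R : Type*} [CommRing R] [IsDedekindDomain R] {K : Type*} [Field K]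
    [Algebra R K] [IsFractionRing R K] (T : TD K) (w : HeightOneSpectrum R) {n : ℕ}
    (h : ∀ x, w.valuation K x ≤ exp (-(n : ℤ)) → x ∈ T.A ∧ x ∈ T.B ∧ x ∈ T.C ∧ T.psi x = 1) :
    Gam w n ≤ T.U :=
  T.gam_le w h

/-- **The group is bounded** (`H76U4`). If `A` is contained in the maximal ideal, `B` in the ball of
radius `|t|` and `C` in the ball of radius `|t|⁻¹`, conjugation by `diag(t, 1)` moves `T.H` into the
maximal compact subgroup. -/
theorem group_bounded {R : Type*} [CommRing R] [IsDedekindDomain R] {K : Type*} [Field K]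
    [Algebra R K] [IsFractionRing R K] (T : TD K) (w : HeightOneSpectrum R) {t : Kˣ}
    (hA : ∀ x ∈ T.A, w.valuation K x < 1)
    (hB : ∀ x ∈ T.B, w.valuation K x ≤ w.valuation K (t : K))
    (hC : ∀ x ∈ T.C, w.valuation K x * w.valuation K (t : K) ≤ 1) :
    ∀ g ∈ T.H, (ProjGenLinGroup.mk (dM t))⁻¹ * g * ProjGenLinGroup.mk (dM t) ∈ U0 w :=
  T.bdd_H w hA hB hC

/-- **Conjugation by `diag(t, 1)`** (`H76V1`): `(a, b; c, d)` becomes `(a, t⁻¹ b; t c, d)`. With `|t|`
between the radius of `B` and the inverse of the radius of `C`, and not too close to them, all four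
entries become close to those of `1`. -/
theorem conjugation {K : Type*} [Field K] [NumberField K] (t : Kˣ) (x : GL (Fin 2) K) :
    (((dM t)⁻¹ * x * dM t : GL (Fin 2) K) : Matrix (Fin 2) (Fin 2) K) =
      !![x 0 0, (t : K)⁻¹ * x 0 1; x 1 0 * t, x 1 1] :=
  H76V.conj_mk t x

/-- **The level has finite index** (`H76V1`) in `T.H` if `psi` has finite order on `B`: the character
then has values in a finite group of roots of unity. -/
theorem level_index {K : Type*} [Field K] (T : TD K) {N : ℕ} (hN : 0 < N)
    (h : ∀ b ∈ T.B, T.psi b ^ N = 1) : (T.U.subgroupOf T.H).index ≠ 0 :=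
  H76V.index_ne_zero T hN h

/-- **Criterion** (`H76V1`). All properties of a type of depth `(k, c₀)` follow from estimates of the
three lattices by balls, two inequalities between the exponents, and the duality of `A` and `B`:
`w^nA ⊆ A ⊆ w^(k+1)`, `w^nA ⊆ B ⊆ w^(-mB)`, `w^nC ⊆ C ⊆ w^mC`, `mC ≥ 2 nA + c₀`,
`mC ≥ mB + 2 (k + 1)`. -/
theorem criterion {K : Type*} [Field K] [NumberField K] (w : HeightOneSpectrum (𝓞 K)) (T : TD K)
    {k c₀ nA nC mB mC : ℕ} (hpsi : ∀ x, T.psi x = H7.Z.psi w x)
    (hA1 : ∀ x ∈ T.A, w.valuation K x ≤ exp (-((k + 1 : ℕ) : ℤ)))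
    (hA2 : ∀ x, w.valuation K x ≤ exp (-(nA : ℤ)) → x ∈ T.A)
    (hB1 : ∀ x ∈ T.B, w.valuation K x ≤ exp (mB : ℤ))
    (hB2 : ∀ x, w.valuation K x ≤ exp (-(nA : ℤ)) → x ∈ T.B)
    (hC1 : ∀ x ∈ T.C, w.valuation K x ≤ exp (-(mC : ℤ)))
    (hC2 : ∀ x, w.valuation K x ≤ exp (-(nC : ℤ)) → x ∈ T.C)
    (h1 : 2 * nA + c₀ ≤ mC) (h2 : mB + 2 * (k + 1) ≤ mC)
    (dual : ∀ x : K, (∀ b ∈ T.B, H7.Z.psi w (x * b) = 1) → x ∈ T.A) : H76V.Nice w T k c₀ :=
  H76V.nice_of w T hpsi hA1 hA2 hB1 hB2 hC1 hC2 h1 h2 dual

/-- **Deep types are also less deep** (`H76V1`); used to fulfil the requirements of all blocks with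
one type. -/
theorem depth_mono {K : Type*} [Field K] [NumberField K] {w : HeightOneSpectrum (𝓞 K)} {T : TD K}
    {k c₀ k' c₀' : ℕ} (h : H76V.Nice w T k c₀) (hk : k' ≤ k) (hc : c₀' ≤ c₀) :
    H76V.Nice w T k' c₀' :=
  h.mono hk hc

/-! ## 3. Lattices in a self-dual normal basis

`D : SD K` is an automorphism `D.s` of order three of a field `K` and an element `e` with
`e + s e + s² e = 1` and `e · s e + s e · s² e + s² e · e = 0`; `D.T x = x + s x + s² x` is the trace,
`D.b = (e, s e, s² e)`, and `D.Lat v r` the set of all `x` with `v(T(x b_i)) ≤ r` for `i = 0, 1, 2`. For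
the Kummer extension generated by `θ` one has `e = (1 + θ + θ⁻¹) / 3` (`selfDual_kummer` in
`GuideOctCGeom`). -/

/-- **The basis** (`H76U4`). `e² + (s e)² + (s² e)² = 1`, all `b_i` have trace `1`, and
`x = Σ T(x b_i) b_i` for all `x`. -/
theorem basis {K : Type*} [Field K] (D : SD K) :
    D.e * D.e + D.s D.e * D.s D.e + D.s (D.s D.e) * D.s (D.s D.e) = 1 ∧
    (∀ i, D.T (D.b i) = 1) ∧
    ∀ x, x = D.T (x * D.b 0) * D.b 0 + D.T (x * D.b 1) * D.b 1 + D.T (x * D.b 2) * D.b 2 :=
  ⟨D.sum_sq, D.T_b, D.expand⟩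

/-- **The trace** (`H76U4`) is additive, fixed by `s`, invariant under `s`, and linear over the fixed
field. -/
theorem trace_rules {K : Type*} [Field K] (D : SD K) :
    (∀ x y, D.T (x + y) = D.T x + D.T y) ∧ (∀ x, D.s (D.T x) = D.T x) ∧
    (∀ x, D.T (D.s x) = D.T x) ∧ ∀ x y, D.s y = y → D.T (x * y) = D.T x * y :=
  ⟨D.T_add, D.s_T, D.T_s, fun _ _ hy => D.T_mul_fixed hy⟩

/-- **Stability** (`H76V3`). `D.Lat v r` is stable under `s` and `s⁻¹`: `s` permutes the coordinates
`T(x b_i)`. No invariance of `v` is needed. -/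
theorem lattice_stable {F E : Type*} [Field F] [Field E] [NumberField F] [NumberField E]
    [Algebra F E] (D : SD E) {s : E ≃ₐ[F] E} (hD : ∀ x, D.s x = s x) (v : Valuation E ℤᵐ⁰)
    (r : ℤᵐ⁰) (x : E) : s x ∈ D.Lat v r ↔ x ∈ D.Lat v r :=
  H76V.lat_s_iff D hD v r x

/-- **Products** (`H76U4`). If the products `b_i b_j` are in `Lat κ`, then
`Lat r · Lat r' ⊆ Lat (r r' κ)`; the trace of such a product has absolute value `≤ r r'`. -/
theorem lattice_products {K : Type*} [Field K] (D : SD K) {Γ₀ : Type*}
    [LinearOrderedCommGroupWithZero Γ₀] (v : Valuation K Γ₀) {κ : Γ₀}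
    (hκ : ∀ i j, D.b i * D.b j ∈ D.Lat v κ) {r r' : Γ₀} {x y : K} (hx : x ∈ D.Lat v r)
    (hy : y ∈ D.Lat v r') : x * y ∈ D.Lat v (r * r' * κ) ∧ v (D.T (x * y)) ≤ r * r' :=
  ⟨D.mul_mem v hκ hx hy, D.T_mem v hx hy⟩

/-- **Comparison with balls** (`H76U4`). If the `b_i` have absolute value `≤ β`, `Lat r` is contained
in the ball of radius `r β`, and, if `v` is invariant under `s`, it contains the ball of radius
`r β⁻¹`. -/
theorem lattice_bounds {K : Type*} [Field K] (D : SD K) {Γ₀ : Type*}
    [LinearOrderedCommGroupWithZero Γ₀] (v : Valuation K Γ₀) {r β : Γ₀}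
    (hβ : ∀ i, v (D.b i) ≤ β) (x : K) :
    (x ∈ D.Lat v r → v x ≤ r * β) ∧
    ((∀ x, v (D.s x) = v x) → v x * β ≤ r → x ∈ D.Lat v r) :=
  ⟨fun hx => D.val_le_of_mem v hβ hx, fun hs hx => D.mem_of_val_le v hs hβ hx⟩

/-- **The constants exist** (`H76V3`) at every place: finitely many elements are bounded. -/
theorem basis_constants {E : Type*} [Field E] [NumberField E] (D : SD E)
    (w : HeightOneSpectrum (𝓞 E)) :
    ∃ C : ℕ, (∀ i, w.valuation E (D.b i) ≤ exp (C : ℤ)) ∧
      ∀ i j, D.b i * D.b j ∈ D.Lat (w.valuation E) (exp (C : ℤ)) :=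
  H76V.exists_const D w

/-- **The self-dual lattice data** (`H76U4`). Let `κ` bound the products of the basis, `a < 1`,
`a κ ≤ 1`, `b c κ ≤ a`, and let `psi` be trivial on the `x` with `v(T x) ≤ a b`. Then `Lat a`, `Lat b`,
`Lat c` and `psi` are lattice data. The only point which is not formal is that `1 + Lat a` is closed
under inverses: for `x ∈ Lat a` the product `(1 + x)(1 + s x)(1 + s² x)` is `1 + y` with `y` fixed by
`s` and in `Lat a`, so `v y ≤ a < 1`; hence `(1 + x)⁻¹ = (1 + s x)(1 + s² x)(1 + y)⁻¹` is in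
`1 + Lat a`. -/
theorem selfDual_data {K : Type*} [Field K] (D : SD K) {Γ₀ : Type*}
    [LinearOrderedCommGroupWithZero Γ₀] (v : Valuation K Γ₀) {κ a b c : Γ₀}
    (hκ : ∀ i j, D.b i * D.b j ∈ D.Lat v κ) (ha : a < 1) (haκ : a * κ ≤ 1) (hbc : b * c * κ ≤ a)
    (psi : AddChar K ℂ) (hpsi : ∀ x, v (D.T x) ≤ a * b → psi x = 1) :
    ∃ T : TD K, T.A = D.Lat v a ∧ T.B = D.Lat v b ∧ T.C = D.Lat v c ∧ T.psi = psi :=
  ⟨D.td v hκ ha haκ hbc psi hpsi, rfl, rfl, rfl, rfl⟩

/-! ## 4. Places with one place above them -/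

/-- **Self-duality for the trace form of `E/F`** (`H76V2`). `Tr(b_i b_j)` is `1` for `i = j` and `0`
otherwise, and `z = Σ Tr(z b_i) b_i`. -/
theorem selfDual_basis {F E : Type*} [Field F] [NumberField F] [Field E] [NumberField E]
    [Algebra F E] [IsGalois F E] (h3 : Module.finrank F E = 3) (s : E ≃ₐ[F] E) (hs : s ≠ 1)
    (D : SD E) (hD : ∀ x, D.s x = s x) :
    (∀ i j, Algebra.trace F E (D.b i * D.b j) = if i = j then 1 else 0) ∧
    ∀ z : E, z = ∑ i, algebraMap F E (Algebra.trace F E (z * D.b i)) * D.b i :=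
  have h := H76V.selfDual D h3 s hs hD
  ⟨h.orth, h.expand⟩

/-- **Absolute values above** (`H76V2`). For `w` above `v` with ramification index `e` one has
`|x|_w = |x|_v ^ e` for `x ∈ F`. -/
theorem valuation_above {F E : Type*} [Field F] [NumberField F] [Field E] [NumberField E]
    [Algebra F E] {v : HeightOneSpectrum (𝓞 F)} {w : HeightOneSpectrum (𝓞 E)}
    (hw : w ∈ H82.above E v) (x : F) :
    w.valuation E (algebraMap F E x) =
      v.valuation F x ^ (v.asIdeal.ramificationIdx' w.asIdeal) :=
  H76V.val_alg hw x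

/-- **The lattices in terms of `F`** (`H76V2`). With `e` the ramification index: `z ∈ Lat (exp(e m))`
if and only if the coordinates `Tr(z b_i) ∈ F` are in the ball `|x|_v ≤ exp m`. -/
theorem lattice_below {F E : Type*} [Field F] [NumberField F] [Field E] [NumberField E]
    [Algebra F E] [IsGalois F E] (h3 : Module.finrank F E = 3) (s : E ≃ₐ[F] E) (hs : s ≠ 1)
    (D : SD E) (hD : ∀ x, D.s x = s x) {v : HeightOneSpectrum (𝓞 F)}
    {w : HeightOneSpectrum (𝓞 E)} (hw : w ∈ H82.above E v) (m : ℤ) (z : E) :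
    z ∈ D.Lat (w.valuation E) (exp (((v.asIdeal.ramificationIdx' w.asIdeal : ℕ) : ℤ) * m)) ↔
      ∀ i, v.valuation F (Algebra.trace F E (z * D.b i)) ≤ exp m :=
  (H76V.mem_Lat_iff D h3 s hs hD hw m z).trans H36.Psi.mem_latt

/-- **Exact duality** (`H36Psi`, helper36). Let `w` be the only place above `v`, `d` the exponent of the
different of `F` at `v`. For `z ∈ E`: `ψ_w(z b) = 1` for all `b ∈ E` with coordinates `|Tr(b b_i)|_v ≤ exp n`
if and only if `z` has coordinates `|Tr(z b_i)|_v ≤ exp(d - n)`. This is because `ψ_w = ψ_v ∘ Tr` and the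
basis is its own dual basis; the different of `E/F` does not occur. -/
theorem lattice_duality {F E : Type*} [Field F] [NumberField F] [Field E] [NumberField E]
    [Algebra F E] [IsGalois F E] (h3 : Module.finrank F E = 3) (s : E ≃ₐ[F] E) (hs : s ≠ 1)
    (D : SD E) (hD : ∀ x, D.s x = s x) {v : HeightOneSpectrum (𝓞 F)}
    {w : HeightOneSpectrum (𝓞 E)} (hns : H82.above E v = {w}) (n : ℤ) (z : E) :
    (∀ b : E, (∀ i, v.valuation F (Algebra.trace F E (b * D.b i)) ≤ exp n) →
      H7.Z.psi w (z * b) = 1) ↔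
    ∀ i, v.valuation F (Algebra.trace F E (z * D.b i)) ≤ exp ((H36.Psi.dexp v : ℤ) - n) :=
  (H76V.selfDual D h3 s hs hD).single_dual hns n z

/-- **The type at a place with one place above it** (`H76V2`). `e` is the ramification index, `d` the
exponent of the different of `F` at `v`, and `exp C` bounds the basis and its products at `w`. For
`n ≥ 2 C + k + 1` and `M ≥ 3 n + d + 3 C + c₀` the lattices `A = Lat(exp(-e n))`,
`B = Lat(exp(e (n + d)))`, `C = Lat(exp(-e M))` and the character `ψ_w` form a type of depth `(k, c₀)`;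
compare `standard_type` in `GuideOctCLocal`, which gives the balls over `F` with the same `n`, `M`. -/
theorem selfDual_type {F E : Type*} [Field F] [NumberField F] [Field E] [NumberField E]
    [Algebra F E] [IsGalois F E] (D : SD E) (h3 : Module.finrank F E = 3) (s : E ≃ₐ[F] E)
    (hs : s ≠ 1) (hD : ∀ x, D.s x = s x) {v : HeightOneSpectrum (𝓞 F)}
    {w : HeightOneSpectrum (𝓞 E)} (hw : w ∈ H82.above E v) (hns : H82.above E v = {w})
    {e d C n M k c₀ : ℕ} (he : v.asIdeal.ramificationIdx' w.asIdeal = e)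
    (hd : H36.Psi.dexp v = d) (hβ : ∀ i, w.valuation E (D.b i) ≤ exp (C : ℤ))
    (hstr : ∀ i j, D.b i * D.b j ∈ D.Lat (w.valuation E) (exp (C : ℤ)))
    (hn : 2 * C + k + 1 ≤ n) (hM : 3 * n + d + 3 * C + c₀ ≤ M) :
    ∃ T : TD E, T.psi = H7.Z.psi w ∧
      T.A = D.Lat (w.valuation E) (exp ((e : ℤ) * (-(n : ℤ)))) ∧
      T.B = D.Lat (w.valuation E) (exp ((e : ℤ) * ((n : ℤ) + d))) ∧
      T.C = D.Lat (w.valuation E) (exp ((e : ℤ) * (-(M : ℤ)))) ∧ H76V.Nice w T k c₀ :=
  H76V.exists_sd D h3 s hs hD hw hns he hd hβ hstr hn hM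

/-! ## 5. Places which split, and the types at all places -/

/-- **Split places** (`H76V3`). If `v` has three places `w` above it, `|x|_w = |x|_v` for `x ∈ F`, and
the exponents of the differents of `F` at `v` and of `E` at `w` are equal. (Both follow from the
density of `F` in `E` at `w` and from `ψ_w = ψ_v` on `F`, see `GuideOctCSplit`: the exponent of the
different is determined by the character.) -/
theorem split_places {F E : Type*} [Field F] [NumberField F] [Field E] [NumberField E]
    [Algebra F E] [IsGalois F E] (h3 : Module.finrank F E = 3) (s : E ≃ₐ[F] E) (hs : s ≠ 1)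
    {v : HeightOneSpectrum (𝓞 F)} {w : HeightOneSpectrum (𝓞 E)} (hw : w ∈ H82.above E v)
    (hv : ¬ H82.NonSplit E v) :
    (∀ x : F, w.valuation E (algebraMap F E x) = v.valuation F x) ∧
      H36.Psi.dexp w = H36.Psi.dexp v :=
  ⟨H76V.val_split h3 s hs hw hv, H76V.dexp_split h3 s hs hw hv⟩

/-- **Types at all places** (`H76V3`). Let `D` be a self-dual normal basis for the generator `s` of the
Galois group of `E/F`. For all `k`, `c₀` there is a system of types (structure `H76V.TInst`, listed in
`types_everywhere` of `GuideOctCGeom`). Two properties which are not listed there: over `F` the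
lattice `B` contains the dual of the local ring at `v` for `ψ_v` (used after block (C), for the
invariance of the classical function on `ℍ³` under a congruence group), and at split places the
characters of the types agree on `F`. Proof: with the constants `C_v` of `basis_constants`, `n_v` and
`M_v` are chosen as in `selfDual_type`; over `F` and at the `w` above split `v` one takes
`standard_type` of `GuideOctCLocal`, at the other `w` `selfDual_type`. -/
theorem types_exist {F E : Type*} [Field F] [NumberField F] [Field E] [NumberField E]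
    [Algebra F E] [IsGalois F E] (h3 : Module.finrank F E = 3) (s : E ≃ₐ[F] E) (hs : s ≠ 1)
    (D : SD E) (hD : ∀ x, D.s x = s x) (k c₀ : ℕ) :
    ∃ T : H76V.TInst F E s k c₀,
      (∀ v (b : F), (∀ r : F, v.valuation F r ≤ 1 → H7.Z.psi v (b * r) = 1) → b ∈ (T.TF v).B) ∧
      ∀ v, ¬ H82.NonSplit E v → ∀ w ∈ H82.above E v, ∀ x : F,
        (T.TE w).psi (algebraMap F E x) = (T.TF v).psi x :=
  let ⟨T⟩ := H76V.exists_tinst_sd h3 s hs D hD k c₀
  ⟨T, T.lowB, fun v hv w hw x => (T.split v hv w hw x).2.2.2⟩

end Fermat.Agent.Guide.LatticeTypes
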