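import Fermat.Agent.H98Chart

/-!
# S25-D5 for `S = A ⊗[k] B` and for matrix data `ρ : B →ₐ[k] Mₙ(A[X])`
-/

set_option autoImplicit false

namespace Fermat.Agent.H98

open Polynomial Matrix TensorProduct

section

variable {k B A : Type*} [Field k] [CommRing B]
  [Algebra k B] [CommRing A] [Algebra k A]
  {n : ℕ} (t : B) (β : Fin n → B)
  (hβ : Function.Bijective (fun f : Fin n → k[X] => ∑ i, aeval t (f i) * β i))

/-- the `k`-linear map `k[X]^n → B`, `f ↦ ∑ f_i(t) β_i`. -/
noncomputable def betaLin {k B : Type*} [CommRing k] [CommRing B] [Algebra k B] {n : ℕ} (t : B)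
    (β : Fin n → B) : (Fin n → k[X]) →ₗ[k] B where
  toFun f := ∑ i, aeval t (f i) * β i
  map_add' f g := by simp only [Pi.add_apply, map_add, add_mul, Finset.sum_add_distrib]
  map_smul' c f := by
    simp only [Pi.smul_apply, map_smul, smul_mul_assoc, Finset.smul_sum, RingHom.id_apply]

include hβ in
/-- base change of the basis property -/
theorem bijective_tensor :
    Function.Bijective (fun f : Fin n → A[X] => ∑ i,
      (f i).eval₂ (Algebra.TensorProduct.includeLeftRingHom : A →+* A ⊗[k] B)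
        ((1 : A) ⊗ₜ[k] t) * ((1 : A) ⊗ₜ[k] β i)) := by
  classical
  let eB : (Fin n → k[X]) ≃ₗ[k] B := LinearEquiv.ofBijective (betaLin t β) hβ
  let bk : Module.Basis (Σ _ : Fin n, ℕ) k (Fin n → k[X]) :=
    Pi.basis fun _ => Polynomial.basisMonomials k
  let bA : Module.Basis (Σ _ : Fin n, ℕ) A (Fin n → A[X]) :=
    Pi.basis fun _ => Polynomial.basisMonomials A
  let bB : Module.Basis (Σ _ : Fin n, ℕ) k B := bk.map eB
  let bAB : Module.Basis (Σ _ : Fin n, ℕ) A (A ⊗[k] B) := Algebra.TensorProduct.basis A bB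
  let E : (Fin n → A[X]) ≃ₗ[A] A ⊗[k] B := bA.equiv bAB (Equiv.refl _)
  let F : (Fin n → A[X]) →ₗ[A] A ⊗[k] B :=
    betaLin (k := A) (B := A ⊗[k] B) ((1 : A) ⊗ₜ[k] t) (fun i => (1 : A) ⊗ₜ[k] β i)
  have hEF : (E : (Fin n → A[X]) →ₗ[A] A ⊗[k] B) = F := by
    apply bA.ext
    rintro ⟨i, m⟩
    have h1 : (E : (Fin n → A[X]) →ₗ[A] A ⊗[k] B) (bA ⟨i, m⟩) = bAB ⟨i, m⟩ := by
      simp [E]
    rw [h1]
    have h2 : bAB ⟨i, m⟩ = (1 : A) ⊗ₜ[k] (t ^ m * β i) := by
      rw [Algebra.TensorProduct.basis_apply]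
      congr 1
      change betaLin t β (bk ⟨i, m⟩) = _
      simp only [bk, Pi.basis_apply, betaLin, LinearMap.coe_mk, AddHom.coe_mk,
        coe_basisMonomials]
      rw [Finset.sum_eq_single i]
      · rw [Pi.single_eq_same, aeval_monomial, map_one, one_mul]
      · intro j _ hj
        rw [Pi.single_eq_of_ne hj, map_zero, zero_mul]
      · simp
    have h3 : F (bA ⟨i, m⟩) = (1 : A) ⊗ₜ[k] (t ^ m * β i) := by
      simp only [F, bA, Pi.basis_apply, betaLin, LinearMap.coe_mk, AddHom.coe_mk,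
        coe_basisMonomials]
      rw [Finset.sum_eq_single i]
      · rw [Pi.single_eq_same, aeval_monomial, map_one, one_mul,
          Algebra.TensorProduct.tmul_pow, one_pow, Algebra.TensorProduct.tmul_mul_tmul, one_mul]
      · intro j _ hj
        rw [Pi.single_eq_of_ne hj, map_zero, zero_mul]
      · simp
    rw [h2, h3]
  have : Function.Bijective F := by
    rw [← hEF]
    exact E.bijective
  exact this

end

section

variable {k B A : Type*} [Field k] [IsAlgClosed k] [CommRing B] [IsDedekindDomain B]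
  [Algebra k B] [CommRing A] [Algebra k A]
  {n : ℕ} (t : B) (β : Fin n → B)
  (hβ : Function.Bijective (fun f : Fin n → k[X] => ∑ i, aeval t (f i) * β i))

include hβ in
/-- **S25-D5 (tensor product form).** An `A ⊗[k] B`-module which is free over `A[t]` of rank `n`
is invertible. -/
theorem invertible_tensor {M : Type*} [AddCommGroup M] [Module (A ⊗[k] B) M] (m : Fin n → M)
    (hM : Function.Bijective fun f : Fin n → A[X] => ∑ i,
      (f i).eval₂ (Algebra.TensorProduct.includeLeftRingHom : A →+* A ⊗[k] B)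
        ((1 : A) ⊗ₜ[k] t) • m i) :
    Module.Invertible (A ⊗[k] B) M :=
  invertible_chart t β hβ (Algebra.TensorProduct.includeLeftRingHom : A →+* A ⊗[k] B)
    ((Algebra.TensorProduct.includeRight : B →ₐ[k] A ⊗[k] B) : B →+* A ⊗[k] B)
    (fun c => by simp) (bijective_tensor t β hβ) m hM

/-- The ring homomorphism `A ⊗[k] B → Mₙ(A[X])` attached to `ρ : B →ₐ[k] Mₙ(A[X])`. -/
noncomputable def tensorHom (ρ : B →ₐ[k] Matrix (Fin n) (Fin n) A[X]) :
    A ⊗[k] B →ₐ[A] Matrix (Fin n) (Fin n) A[X] :=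
  Algebra.TensorProduct.lift (Algebra.ofId A _) ρ
    (fun a b => by
      change algebraMap A _ a * ρ b = ρ b * algebraMap A _ a
      exact Algebra.commutes a (ρ b))

omit [IsAlgClosed k] [IsDedekindDomain B] in
theorem tensorHom_tmul (ρ : B →ₐ[k] Matrix (Fin n) (Fin n) A[X]) (a : A) (b : B) :
    tensorHom ρ (a ⊗ₜ[k] b) = (C a : A[X]) • ρ b := by
  have h0 : tensorHom ρ (a ⊗ₜ[k] b) = algebraMap A _ a * ρ b :=
    Algebra.TensorProduct.lift_tmul _ _ _ a b
  rw [h0]
  rw [← Algebra.smul_def, ← algebraMap_smul A[X] a (ρ b)]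
  rfl

/-- the `A ⊗[k] B`-module structure on `A[X]^n` given by `ρ`. -/
@[reducible]
noncomputable def tensorModule (ρ : B →ₐ[k] Matrix (Fin n) (Fin n) A[X]) :
    Module (A ⊗[k] B) (Fin n → A[X]) :=
  Module.compHom (Fin n → A[X])
    ((Matrix.toLinAlgEquiv' : Matrix (Fin n) (Fin n) A[X] ≃ₐ[A[X]]
      ((Fin n → A[X]) →ₗ[A[X]] (Fin n → A[X]))).toRingEquiv.toRingHom.comp
        (tensorHom ρ).toRingHom)

omit [IsAlgClosed k] [IsDedekindDomain B] in
theorem tensorModule_smul (ρ : B →ₐ[k] Matrix (Fin n) (Fin n) A[X]) (s : A ⊗[k] B)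
    (x : Fin n → A[X]) :
    (letI := tensorModule ρ; s • x) = tensorHom ρ s *ᵥ x := rfl

omit [IsAlgClosed k] [IsDedekindDomain B] in
theorem tensorHom_eval₂ (ρ : B →ₐ[k] Matrix (Fin n) (Fin n) A[X])
    (hρ : ρ t = (X : A[X]) • (1 : Matrix (Fin n) (Fin n) A[X])) (p : A[X]) :
    tensorHom ρ (p.eval₂ (Algebra.TensorProduct.includeLeftRingHom : A →+* A ⊗[k] B)
        ((1 : A) ⊗ₜ[k] t)) = p • (1 : Matrix (Fin n) (Fin n) A[X]) := by
  have : ∀ p : A[X], p.eval₂ (Algebra.TensorProduct.includeLeftRingHom : A →+* A ⊗[k] B)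
        ((1 : A) ⊗ₜ[k] t) = aeval ((1 : A) ⊗ₜ[k] t) p := fun p => rfl
  rw [this, ← Polynomial.aeval_algHom_apply, tensorHom_tmul, C_1, one_smul, hρ,
    ← Algebra.algebraMap_eq_smul_one, ← Algebra.algebraMap_eq_smul_one,
    Polynomial.aeval_algebraMap_apply, aeval_X_left_apply]

include hβ in
/-- **S25-D5 (matrix form).** For `ρ : B →ₐ[k] Mₙ(A[X])` with `ρ t = X`, the `A ⊗[k] B`-module
`A[X]^n` is invertible. -/
theorem invertible_matrix (ρ : B →ₐ[k] Matrix (Fin n) (Fin n) A[X])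
    (hρ : ρ t = (X : A[X]) • (1 : Matrix (Fin n) (Fin n) A[X])) :
    letI := tensorModule ρ
    Module.Invertible (A ⊗[k] B) (Fin n → A[X]) := by
  let _ := tensorModule ρ
  refine invertible_tensor t β hβ (fun i => (Pi.single i 1 : Fin n → A[X])) ?_
  have : (fun f : Fin n → A[X] => ∑ i,
      (f i).eval₂ (Algebra.TensorProduct.includeLeftRingHom : A →+* A ⊗[k] B)
        ((1 : A) ⊗ₜ[k] t) • (Pi.single i 1 : Fin n → A[X])) = id := by
    ext1 f
    have h1 : ∀ i, (f i).eval₂ (Algebra.TensorProduct.includeLeftRingHom : A →+* A ⊗[k] B)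
        ((1 : A) ⊗ₜ[k] t) • (Pi.single i 1 : Fin n → A[X]) = f i • Pi.single i 1 := by
      intro i
      rw [tensorModule_smul, tensorHom_eval₂ t ρ hρ, Matrix.smul_mulVec, Matrix.one_mulVec]
    simp only [h1]
    ext1 j
    simp [Finset.sum_apply, Pi.single_apply]
  rw [this]
  exact Function.bijective_id

end

end Fermat.Agent.H98
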