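import Fermat.Agent.H10_RRMain
import Fermat.Agent.H98ChartTensor

/-!
# Points of a two-chart curve (S25, job D3)
-/

set_option autoImplicit false
set_option linter.unusedSectionVars false
universe u v w
open Fermat.Agent.H25 TensorProduct

namespace Fermat.Agent.H10.Lat

/-! ### Finite dimensional quotients -/

section FD

variable {K : Type*} [Field K] {R : Type*} [CommRing R] [Algebra K R] {t : R} {n : ℕ}
  {b : Fin n → R}

/-- every nonzero element divides a nonzero polynomial in `t` -/
theorem exists_dvd_aeval [IsDomain R] (hb : Function.Bijective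
    (fun f : Fin n → Polynomial K => ∑ i, Polynomial.aeval t (f i) * b i)) {a : R} (ha : a ≠ 0) :
    ∃ g : Polynomial K, g ≠ 0 ∧ a ∣ Polynomial.aeval t g := by
  classical
  let _ : Algebra (Polynomial K) R := (Polynomial.aeval t).toAlgebra
  have hsm : ∀ (f : Polynomial K) (r : R), f • r = Polynomial.aeval t f * r := fun f r => rfl
  have hfin : Module.Finite (Polynomial K) R := by
    refine ⟨⟨Finset.univ.image b, ?_⟩⟩
    rw [eq_top_iff]
    rintro r -
    obtain ⟨f, rfl⟩ := hb.2 r
    refine Submodule.sum_mem _ fun i _ => ?_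
    rw [← hsm]
    exact Submodule.smul_mem _ _ (Submodule.subset_span (by simp))
  have halg : IsAlgebraic (Polynomial K) a :=
    (Algebra.IsIntegral.isIntegral (R := Polynomial K) a).isAlgebraic
  obtain ⟨g, hg, hd⟩ := halg.exists_nonzero_dvd (mem_nonZeroDivisors_of_ne_zero ha)
  exact ⟨g, hg, hd⟩

theorem finite_quot_aeval (hb : Function.Bijective
    (fun f : Fin n → Polynomial K => ∑ i, Polynomial.aeval t (f i) * b i)) {g : Polynomial K}
    (hg : g ≠ 0) : Module.Finite K (R ⧸ Ideal.span {Polynomial.aeval t g}) := by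
  let D := Polynomial.degreeLT K g.natDegree
  have hD : Module.Finite K D := inferInstance
  let F : (Fin n → D) →ₗ[K] (R ⧸ Ideal.span {Polynomial.aeval t g}) :=
    { toFun := fun f => Ideal.Quotient.mk _ (∑ i, Polynomial.aeval t (f i : Polynomial K) * b i)
      map_add' := fun f f' => by
        rw [← map_add, ← Finset.sum_add_distrib]
        congr 1
        exact Finset.sum_congr rfl fun i _ => by
          rw [Pi.add_apply, Submodule.coe_add, map_add, add_mul]
      map_smul' := fun a f => by
        rw [RingHom.id_apply, ← Ideal.Quotient.mkₐ_eq_mk K, ← map_smul, Finset.smul_sum]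
        congr 1
        exact Finset.sum_congr rfl fun i _ => by
          rw [Pi.smul_apply, Submodule.coe_smul, map_smul, smul_mul_assoc] }
  have hF : Function.Surjective F := by
    intro z
    obtain ⟨r, rfl⟩ := Ideal.Quotient.mk_surjective z
    obtain ⟨f, rfl⟩ := hb.2 r
    have hmem : ∀ i, f i % g ∈ D := by
      intro i
      rw [Polynomial.mem_degreeLT, ← Polynomial.degree_eq_natDegree hg]
      exact EuclideanDomain.mod_lt _ hg
    refine ⟨fun i => ⟨f i % g, hmem i⟩, ?_⟩
    change Ideal.Quotient.mk _ _ = Ideal.Quotient.mk _ _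
    rw [Ideal.Quotient.eq, Ideal.mem_span_singleton, ← Finset.sum_sub_distrib]
    refine Finset.dvd_sum fun i _ => ?_
    refine ⟨- Polynomial.aeval t (f i / g) * b i, ?_⟩
    have h1 := EuclideanDomain.mod_add_div (f i) g
    have h2 : Polynomial.aeval t (f i) = Polynomial.aeval t (f i % g) +
        Polynomial.aeval t g * Polynomial.aeval t (f i / g) := by
      rw [← map_mul, ← map_add, h1]
    rw [h2]
    ring
  exact Module.Finite.of_surjective F hF

theorem finite_quot_of_ne_zero [IsDomain R] (hb : Function.Bijective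
    (fun f : Fin n → Polynomial K => ∑ i, Polynomial.aeval t (f i) * b i)) {a : R} (ha : a ≠ 0) :
    Module.Finite K (R ⧸ Ideal.span {a}) := by
  obtain ⟨g, hg, hd⟩ := exists_dvd_aeval hb ha
  have := finite_quot_aeval hb hg
  have hle : Ideal.span {Polynomial.aeval t g} ≤ Ideal.span {a} := by
    rw [Ideal.span_singleton_le_span_singleton]; exact hd
  exact Module.Finite.of_surjective (Ideal.Quotient.factorₐ K hle).toLinearMap
    (Ideal.Quotient.factor_surjective hle)

/-- finitely many points lie on a nonzero function -/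
theorem finite_zeros [IsDomain R] (hb : Function.Bijective
    (fun f : Fin n → Polynomial K => ∑ i, Polynomial.aeval t (f i) * b i)) {a : R} (ha : a ≠ 0) :
    {y : R →ₐ[K] K | y a = 0}.Finite := by
  have := finite_quot_of_ne_zero hb ha
  have hf : Finite ((R ⧸ Ideal.span {a}) →ₐ[K] K) := inferInstance
  let F : ((R ⧸ Ideal.span {a}) →ₐ[K] K) → (R →ₐ[K] K) :=
    fun φ => φ.comp (Ideal.Quotient.mkₐ K (Ideal.span {a}))
  refine (Set.finite_range F).subset ?_
  intro y hy
  refine ⟨Ideal.Quotient.liftₐ (Ideal.span {a}) y ?_, ?_⟩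
  · intro r hr
    obtain ⟨c, rfl⟩ := Ideal.mem_span_singleton.mp hr
    rw [map_mul, show y a = 0 from hy, zero_mul]
  · ext r
    rfl

/-- there is a point above every value of `t` -/
theorem exists_point [IsAlgClosed K] [IsDomain R] (hb : Function.Bijective
    (fun f : Fin n → Polynomial K => ∑ i, Polynomial.aeval t (f i) * b i)) (a : K) :
    ∃ y : R →ₐ[K] K, y t = a := by
  obtain ⟨c, h1, h2, h3⟩ : ∃ c : Fin n → (R → Polynomial K),
      (∀ i x, c i ((t - algebraMap K R a) * x) = (Polynomial.X - Polynomial.C a) * c i x) ∧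
      (∀ x, x = ∑ i, Polynomial.aeval t (c i x) * b i) ∧
      (∀ (f : Fin n → Polynomial K) i, c i (∑ i, Polynomial.aeval t (f i) * b i) = f i) := by
    choose g hg using hb.2
    have h3 : ∀ (f : Fin n → Polynomial K), g (∑ i, Polynomial.aeval t (f i) * b i) = f :=
      fun f => hb.1 (hg _)
    refine ⟨fun i x => g x i, fun i x => ?_, fun x => (hg x).symm, fun f i => congrFun (h3 f) i⟩
    have : (t - algebraMap K R a) * x = ∑ i, Polynomial.aeval t
        ((Polynomial.X - Polynomial.C a) * g x i) * b i := by
      conv_lhs => rw [← hg x]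
      rw [Finset.mul_sum]
      refine Finset.sum_congr rfl fun i _ => ?_
      rw [map_mul, map_sub, Polynomial.aeval_X, Polynomial.aeval_C, mul_assoc]
    change g _ i = _
    rw [this, h3 (fun i => (Polynomial.X - Polynomial.C a) * g x i)]
  have hn : 0 < n := by
    rcases Nat.eq_zero_or_pos n with h | h
    · subst h
      exfalso
      have := h2 1
      rw [Finset.univ_eq_empty, Finset.sum_empty] at this
      exact one_ne_zero this
    · exact h
  have hne : Ideal.span {t - algebraMap K R a} ≠ ⊤ := by
    intro htop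
    rw [Ideal.span_singleton_eq_top] at htop
    obtain ⟨u, hu⟩ := htop
    have h4 := h1 ⟨0, hn⟩ ((↑u⁻¹ : R) * b ⟨0, hn⟩)
    rw [← mul_assoc, ← hu, Units.mul_inv, one_mul] at h4
    have h5 : c ⟨0, hn⟩ (b ⟨0, hn⟩) = 1 := by
      have h6 := h3 (Pi.single ⟨0, hn⟩ 1) ⟨0, hn⟩
      rw [Pi.single_eq_same] at h6
      rw [← h6]
      congr 1
      rw [Finset.sum_eq_single ⟨0, hn⟩]
      · rw [Pi.single_eq_same, map_one, one_mul]
      · intro j _ hj
        rw [Pi.single_eq_of_ne hj, map_zero, zero_mul]
      · simp
    rw [h5] at h4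
    have h7 := congrArg (Polynomial.eval a) h4
    simp at h7
  obtain ⟨m, hm, hle⟩ := Ideal.exists_le_maximal _ hne
  have hfin : Module.Finite K (R ⧸ m) := by
    have h1 : Module.Finite K (R ⧸ Ideal.span {t - algebraMap K R a}) := by
      have := finite_quot_aeval hb (Polynomial.X_sub_C_ne_zero a)
      rwa [map_sub, Polynomial.aeval_X, Polynomial.aeval_C] at this
    exact Module.Finite.of_surjective (Ideal.Quotient.factorₐ K hle).toLinearMap
      (Ideal.Quotient.factor_surjective hle)
  let _ : Field (R ⧸ m) := Ideal.Quotient.field m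
  have hbij : Function.Bijective (algebraMap K (R ⧸ m)) :=
    IsAlgClosed.algebraMap_bijective_of_isIntegral
  let e : K ≃ₐ[K] (R ⧸ m) := AlgEquiv.ofBijective (Algebra.ofId K (R ⧸ m)) hbij
  refine ⟨(e.symm : (R ⧸ m) →ₐ[K] K).comp (Ideal.Quotient.mkₐ K m), ?_⟩
  change e.symm (Ideal.Quotient.mk m t) = a
  rw [AlgEquiv.symm_apply_eq]
  change Ideal.Quotient.mk m t = algebraMap K (R ⧸ m) a
  rw [IsScalarTower.algebraMap_apply K R (R ⧸ m), Ideal.Quotient.algebraMap_eq,
    Ideal.Quotient.eq]
  exact hle (Ideal.mem_span_singleton_self _)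

end FD

/-! ### Base change of points -/

section BC

variable {k : Type*} [Field k] {K : Type*} [Field K] [Algebra k K]
  {B : Type*} [CommRing B] [Algebra k B] {R : Type*} [CommRing R] [Algebra k R] [Algebra K R]
  [Algebra B R] [IsScalarTower k K R] [IsScalarTower k B R] [Algebra.IsPushout k K B R]

/-- the `K`-point of the base change attached to a `k`-point -/
noncomputable def bcPt (K : Type*) [Field K] [Algebra k K] (R : Type*) [CommRing R] [Algebra k R]
    [Algebra K R] [Algebra B R] [IsScalarTower k K R] [IsScalarTower k B R]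
    [Algebra.IsPushout k K B R] (x : B →ₐ[k] k) : R →ₐ[K] K :=
  (Algebra.TensorProduct.lift (AlgHom.id K K) ((Algebra.ofId k K).comp x)
    (fun _ _ => Commute.all _ _)).comp
    ((Algebra.IsPushout.equiv k K B R).symm : R →ₐ[K] K ⊗[k] B)

@[simp] theorem bcPt_algebraMap (x : B →ₐ[k] k) (b : B) :
    bcPt K R x (algebraMap B R b) = algebraMap k K (x b) := by
  have h1 : bcPt K R x (algebraMap B R b) =
      (Algebra.TensorProduct.lift (AlgHom.id K K) ((Algebra.ofId k K).comp x)
        (fun _ _ => Commute.all _ _)) ((Algebra.IsPushout.equiv k K B R).symm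
          (algebraMap B R b)) := rfl
  rw [h1, Algebra.IsPushout.equiv_symm_algebraMap_right]
  simp [Algebra.ofId_apply]

/-- coordinates of the base change -/
theorem exists_coords {ι : Type*} (e : Module.Basis ι k K) (F : R) :
    ∃ f : ι →₀ B, F = f.sum fun i b => e i • algebraMap B R b := by
  classical
  obtain ⟨z, rfl⟩ := (Algebra.IsPushout.equiv k K B R).surjective F
  obtain ⟨f, rfl⟩ := (TensorProduct.equivFinsuppOfBasisLeft e).symm.surjective z
  refine ⟨f, ?_⟩
  rw [TensorProduct.equivFinsuppOfBasisLeft_symm_apply, Finsupp.sum, map_sum]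
  refine Finset.sum_congr rfl fun i _ => ?_
  rw [Algebra.IsPushout.equiv_tmul]
  exact (Algebra.smul_def _ _).symm

theorem bcPt_finite (hfin : ∀ f : B, f ≠ 0 → {x : B →ₐ[k] k | x f = 0}.Finite) {F : R}
    (hF : F ≠ 0) : {x : B →ₐ[k] k | bcPt K R x F = 0}.Finite := by
  let e := Module.Basis.ofVectorSpace k K
  obtain ⟨f, rfl⟩ := exists_coords (B := B) (R := R) e F
  have hf : f ≠ 0 := by
    rintro rfl
    exact hF (by simp)
  obtain ⟨i, hi⟩ := Finsupp.ne_iff.mp hf
  refine (hfin _ hi).subset fun x hx => ?_
  have h1 : bcPt K R x (f.sum fun i b => e i • algebraMap B R b) =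
      f.sum fun i b => x b • e i := by
    rw [Finsupp.sum, map_sum]
    refine Finset.sum_congr rfl fun i _ => ?_
    rw [map_smul, bcPt_algebraMap, smul_eq_mul, mul_comm]
    exact (Algebra.smul_def _ _).symm
  have h2 : f.sum (fun i b => x b • e i) = 0 := by rw [← h1]; exact hx
  have h3 := congrArg (fun z => e.repr z i) h2
  simp only [Finsupp.sum, map_sum, map_smul, Module.Basis.repr_self, Finsupp.coe_finsetSum,
    Finset.sum_apply, Finsupp.smul_apply, map_zero, Finsupp.coe_zero, Pi.zero_apply] at h3
  rw [Finset.sum_eq_single i] at h3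
  · simpa using h3
  · intro j _ hj
    rw [Finsupp.single_eq_of_ne (Ne.symm hj), smul_zero]
  · intro hi'
    rw [Finsupp.notMem_support_iff.mp hi', map_zero, zero_smul]

/-- `ker` of the `K`-point is generated by the `ker` of the `k`-point. -/
theorem ker_bcPt (x : B →ₐ[k] k) :
    RingHom.ker (bcPt K R x) = Ideal.map (algebraMap B R) (RingHom.ker x) := by
  apply le_antisymm
  · intro F hF
    let e := Module.Basis.ofVectorSpace k K
    obtain ⟨f, rfl⟩ := exists_coords (B := B) (R := R) e F
    have h1 : bcPt K R x (f.sum fun i b => e i • algebraMap B R b) =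
        f.sum fun i b => x b • e i := by
      rw [Finsupp.sum, map_sum]
      refine Finset.sum_congr rfl fun i _ => ?_
      rw [map_smul, bcPt_algebraMap, smul_eq_mul, mul_comm]
      exact (Algebra.smul_def _ _).symm
    have h2 : (f.sum fun i b => e i • algebraMap B R b) =
        (f.sum fun i b => e i • algebraMap B R (b - algebraMap k B (x b))) +
          algebraMap K R (f.sum fun i b => x b • e i) := by
      simp only [Finsupp.sum]
      rw [map_sum, ← Finset.sum_add_distrib]
      refine Finset.sum_congr rfl fun i _ => ?_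
      rw [map_sub, smul_sub, ← IsScalarTower.algebraMap_apply k B R,
        IsScalarTower.algebraMap_apply k K R, Algebra.smul_def (e i) (algebraMap K R _),
        ← map_mul, Algebra.smul_def (x (f i)) (e i), mul_comm (e i)]
      abel
    have h3 : f.sum (fun i b => x b • e i) = 0 := by rw [← h1]; exact hF
    rw [h2, h3, map_zero, add_zero]
    refine Ideal.sum_mem _ fun i _ => ?_
    change e i • algebraMap B R (f i - algebraMap k B (x (f i))) ∈ _
    rw [Algebra.smul_def]
    refine Ideal.mul_mem_left _ _ (Ideal.mem_map_of_mem _ ?_)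
    rw [RingHom.mem_ker, map_sub, AlgHom.commutes]
    simp
  · rw [Ideal.map_le_iff_le_comap]
    intro b hb
    rw [Ideal.mem_comap, RingHom.mem_ker, bcPt_algebraMap, show x b = 0 from hb, map_zero]

end BC

/-! ### The curve -/

section Curve

variable {k : Type*} [Field k] {B0 B01 : Type*} [CommRing B0] [CommRing B01] [Algebra k B0]
  [Algebra k B01] [Algebra B0 B01] [IsScalarTower k B0 B01] {t : B0} {n : ℕ} {b : Fin n → B0}

/-- restriction of points to the chart -/
def resPt (B0 : Type*) [CommRing B0] [Algebra k B0] [Algebra B0 B01] [IsScalarTower k B0 B01]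
    (x : B01 →ₐ[k] k) : B0 →ₐ[k] k := x.comp (IsScalarTower.toAlgHom k B0 B01)

theorem resPt_apply (x : B01 →ₐ[k] k) (r : B0) : resPt B0 x r = x (algebraMap B0 B01 r) := rfl

theorem resPt_injective (t : B0) [IsLocalization.Away t B01] :
    Function.Injective (resPt (k := k) (B01 := B01) B0) := by
  intro x y hxy
  have : (x : B01 →+* k).comp (algebraMap B0 B01) = (y : B01 →+* k).comp (algebraMap B0 B01) := by
    ext r
    exact AlgHom.congr_fun hxy r
  have h2 := IsLocalization.ringHom_ext (Submonoid.powers t) this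
  ext r
  exact RingHom.congr_fun h2 r

theorem infinite_points [IsAlgClosed k] [IsDomain B0] (hb : Function.Bijective
    (fun f : Fin n → Polynomial k => ∑ i, Polynomial.aeval t (f i) * b i))
    [IsLocalization.Away t B01] : Infinite (B01 →ₐ[k] k) := by
  have h1 : ∀ a : {a : k // a ≠ 0}, ∃ x : B01 →ₐ[k] k, x (algebraMap B0 B01 t) = a := by
    intro a
    obtain ⟨y, hy⟩ := exists_point hb (a : k)
    have hu : ∀ m : Submonoid.powers t, IsUnit (y m) := by
      rintro ⟨m, j, rfl⟩
      rw [map_pow, hy]
      exact (IsUnit.mk0 _ a.2).pow j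
    refine ⟨IsLocalization.liftAlgHom (M := Submonoid.powers t) (f := y) hu, ?_⟩
    change IsLocalization.lift (M := Submonoid.powers t) _ _ = _
    rw [IsLocalization.lift_eq]
    exact hy
  choose x hx using h1
  have hinj : Function.Injective x := by
    intro a a' h
    apply Subtype.ext
    rw [← hx, ← hx, h]
  have hinf : Infinite {a : k // a ≠ 0} := by
    have h3 : (Set.univ \ {(0 : k)}).Infinite := Set.infinite_univ.sdiff (Set.finite_singleton 0)
    have h4 := h3.to_subtype
    refine Infinite.of_injective (fun a : ↥(Set.univ \ {(0 : k)}) => (⟨a.1, a.2.2⟩ : {a : k // a ≠ 0})) ?_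
    intro a a' h
    have h5 := congrArg (Subtype.val) h
    exact Subtype.ext h5
  exact Infinite.of_injective x hinj

theorem finite_zeros_away [IsDomain B0] (hb : Function.Bijective
    (fun f : Fin n → Polynomial k => ∑ i, Polynomial.aeval t (f i) * b i))
    [IsLocalization.Away t B01] {f : B01} (hf : f ≠ 0) : {x : B01 →ₐ[k] k | x f = 0}.Finite := by
  obtain ⟨⟨g, m⟩, hg⟩ := IsLocalization.surj (Submonoid.powers t) f
  have hm : IsUnit (algebraMap B0 B01 m) := IsLocalization.map_units _ m
  have hg0 : g ≠ 0 := by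
    rintro rfl
    rw [map_zero] at hg
    exact hf ((hm.mul_left_eq_zero).mp hg)
  have h1 := finite_zeros hb hg0
  have h2 := h1.preimage ((resPt_injective (k := k) (B01 := B01) t).injOn)
  refine h2.subset fun x hx => ?_
  change x (algebraMap B0 B01 g) = 0
  change f * algebraMap B0 B01 m = algebraMap B0 B01 g at hg
  rw [← hg, map_mul, show x f = 0 from hx, zero_mul]

end Curve

section CurveBC

variable {k : Type*} [Field k] {K : Type*} [Field K] [Algebra k K]
  {B0 B01 : Type*} [CommRing B0] [CommRing B01] [Algebra k B0]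
  [Algebra k B01] [Algebra B0 B01] [IsScalarTower k B0 B01] {t : B0} {n : ℕ} {b : Fin n → B0}
  {R0 R01 : Type*} [CommRing R0] [CommRing R01] [Algebra k R0] [Algebra K R0]
  [Algebra B0 R0] [IsScalarTower k K R0] [IsScalarTower k B0 R0] [Algebra.IsPushout k K B0 R0]
  [Algebra k R01] [Algebra K R01]
  [Algebra B01 R01] [IsScalarTower k K R01] [IsScalarTower k B01 R01]
  [Algebra.IsPushout k K B01 R01] [Algebra R0 R01] [IsScalarTower K R0 R01]

/-- base change of a basis over `k[t]` -/
theorem bijective_bc (hb : Function.Bijective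
    (fun f : Fin n → Polynomial k => ∑ i, Polynomial.aeval t (f i) * b i)) :
    Function.Bijective (fun f : Fin n → Polynomial K => ∑ i,
      Polynomial.aeval (algebraMap B0 R0 t) (f i) * algebraMap B0 R0 (b i)) := by
  have h1 := H98.bijective_tensor (A := K) t b hb
  have h2 := (Algebra.IsPushout.equiv k K B0 R0).bijective.comp h1
  convert h2 using 1
  funext f
  simp only [Function.comp_apply]
  rw [map_sum]
  refine Finset.sum_congr rfl fun i _ => ?_
  rw [map_mul, Algebra.IsPushout.equiv_tmul, map_one, one_mul]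
  congr 1
  have h3 : Polynomial.eval₂ (Algebra.TensorProduct.includeLeftRingHom : K →+* K ⊗[k] B0)
      ((1 : K) ⊗ₜ[k] t) (f i) = Polynomial.aeval ((1 : K) ⊗ₜ[k] t) (f i) := rfl
  rw [h3, ← Polynomial.aeval_algHom_apply, Algebra.IsPushout.equiv_tmul, map_one, one_mul]

theorem pt0_bcPt (hcomm : ∀ b : B0, algebraMap R0 R01 (algebraMap B0 R0 b) =
    algebraMap B01 R01 (algebraMap B0 B01 b)) (x : B01 →ₐ[k] k) :
    (bcPt K R01 x).comp (IsScalarTower.toAlgHom K R0 R01) = bcPt K R0 (resPt B0 x) := by
  apply AlgHom.ext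
  intro r
  obtain ⟨f, rfl⟩ := exists_coords (B := B0) (R := R0) (Module.Basis.ofVectorSpace k K) r
  simp only [Finsupp.sum, map_sum, map_smul]
  refine Finset.sum_congr rfl fun i _ => ?_
  rw [bcPt_algebraMap, AlgHom.comp_apply, IsScalarTower.coe_toAlgHom', hcomm, bcPt_algebraMap]
  rfl

theorem bcPt_injective : Function.Injective (bcPt (k := k) (B := B01) K R01) := by
  intro x y hxy
  ext b
  have := AlgHom.congr_fun hxy (algebraMap B01 R01 b)
  rw [bcPt_algebraMap, bcPt_algebraMap] at this
  exact (algebraMap k K).injective this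

/-- points are separated on the first chart -/
theorem pt0_injective (t : B0) [IsLocalization.Away t B01]
    (hcomm : ∀ b : B0, algebraMap R0 R01 (algebraMap B0 R0 b) =
    algebraMap B01 R01 (algebraMap B0 B01 b)) :
    Function.Injective (fun x : B01 →ₐ[k] k =>
      (bcPt K R01 x).comp (IsScalarTower.toAlgHom K R0 R01)) := by
  intro x y hxy
  simp only [pt0_bcPt hcomm] at hxy
  exact resPt_injective (k := k) (B01 := B01) t (bcPt_injective hxy)

variable (k K) in
include k K in
/-- `R0 → R01` is injective -/
theorem algebraMap_bc_injective (hcomm : ∀ b : B0, algebraMap R0 R01 (algebraMap B0 R0 b) =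
    algebraMap B01 R01 (algebraMap B0 B01 b)) (hinj : Function.Injective (algebraMap B0 B01)) :
    Function.Injective (algebraMap R0 R01) := by
  have h1 : Function.Injective (LinearMap.lTensor K
      (IsScalarTower.toAlgHom k B0 B01).toLinearMap) :=
    Module.Flat.lTensor_preserves_injective_linearMap _ hinj
  have h2 : ∀ z, algebraMap R0 R01 (Algebra.IsPushout.equiv k K B0 R0 z) =
      Algebra.IsPushout.equiv k K B01 R01 (LinearMap.lTensor K
      (IsScalarTower.toAlgHom k B0 B01).toLinearMap z) := by
    intro z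
    induction z with
    | zero => simp
    | add x y hx hy => rw [map_add, map_add, hx, hy, map_add, map_add]
    | tmul a b =>
      rw [LinearMap.lTensor_tmul, Algebra.IsPushout.equiv_tmul, Algebra.IsPushout.equiv_tmul,
        map_mul, hcomm, ← IsScalarTower.algebraMap_apply K R0 R01]
      rfl
  intro r r' hr
  obtain ⟨z, rfl⟩ := (Algebra.IsPushout.equiv k K B0 R0).surjective r
  obtain ⟨z', rfl⟩ := (Algebra.IsPushout.equiv k K B0 R0).surjective r'
  rw [h2, h2] at hr
  rw [h1 ((Algebra.IsPushout.equiv k K B01 R01).injective hr)]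

end CurveBC

/-- a ring with infinitely many points such that every nonzero function has finitely many zeros
is a domain -/
theorem isDomain_of_points {K : Type*} [Field K] {R : Type*} [CommRing R] [Algebra K R]
    {X : Type*} [Infinite X] (pt : X → (R →ₐ[K] K))
    (hfin : ∀ f : R, f ≠ 0 → {x | pt x f = 0}.Finite) : IsDomain R := by
  have hnt : Nontrivial R := by
    obtain ⟨x⟩ := (inferInstance : Nonempty X)
    exact (pt x : R →+* K).domain_nontrivial
  refine @NoZeroDivisors.to_isDomain _ _ _ ⟨fun {f g} hfg => ?_⟩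
  by_contra hcon
  push Not at hcon
  have h1 := (hfin f hcon.1).union (hfin g hcon.2)
  refine Set.infinite_univ (h1.subset fun x _ => ?_)
  have := congrArg (pt x) hfg
  rw [map_mul, map_zero] at this
  exact mul_eq_zero.mp this

end Fermat.Agent.H10.Lat
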