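import Fermat.Agent.H10_P1LatOpen
import Fermat.Agent.H10_RRPoints

/-!
# Reader's guide: lattices on the projective line (S25, cohomology without sheaves)

Every theorem of this file is proved by citing a theorem of the library; nothing here is used by any
other file. Editor: helper10. Companion of `GuideJacobians` (section 3 there: the final statements)
and `GuideJacobianCharts` (the lattice of a line bundle: `lattice_of_bundle` there; line bundles by
sections: `GuideSheaves`); all of it serves S25. The library files are `H10_*` (helper10) and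
`H25Defs` (helper25).

**What it is for.** In S25 line bundles on a curve `C → Spec A` over an arbitrary ring `A` have to be
studied: finiteness and base change of the cohomology, openness of the vanishing, Euler
characteristic. The curve is a finite free cover of the projective line, so a line bundle on `C` is
the same as a vector bundle `E` on the projective line with more structure, and only `E` matters for
the cohomology. A quasi-coherent sheaf `E` on the projective line over `A` is written down as a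
*lattice*: an `A`-module `M` with an automorphism `τ` and two submodules `P`, `Q`, where `M` = sections
on the intersection of the two charts, `P` = sections on the chart where the coordinate is regular,
`Q` = sections on the chart where it is invertible or infinite, `τ` = multiplication by the
coordinate. Then

    H⁰(E(m)) = P ∩ τ^m Q,      H¹(E(m)) = M / (P + τ^m Q)

by definition, and everything needed is proved with elementary algebra, without noetherian
hypotheses and without sheaves or derived functors.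

**Order of this file.**
1. Notions.
2. Acyclic lattices (`M = P ⊕ Q`): Horrocks' lemma.
3. Lattices which are finite projective on both charts: projectivity over `A`, vanishing of
   `H¹(E(m))` for large `m`, finiteness.
4. Base change.
5. The complex `H⁰(E(m)) → τ^m Q / Q`, openness of acyclicity, Euler characteristic.
6. Rings `R` with a basis over `A[t]` (coordinate rings of the charts of the curve), invertible modules.

Details: NOTES.md, Appendix A.5, notes [177], [105]. References for the classical facts: J.-P. Serre,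
*Faisceaux algébriques cohérents*, chapter III; D. Mumford, *Abelian varieties*, section 5 (cohomology
and base change); G. Horrocks, Proc. London Math. Soc. 14 (1964).
-/

set_option autoImplicit false
universe u v w

open Fermat.Agent.H25 Polynomial TensorProduct

namespace Fermat.Agent.Guide.Lattices

variable {A : Type u} [CommRing A] {M : Type v} [AddCommGroup M] [Module A M] (L : P1Lat A M)

/-! ## 1. Notions

In sections 1 to 5 `A` is a commutative ring, `M` an `A`-module and `L : P1Lat A M` a lattice; in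
section 4 `A'`, `M'`, `L'`, `β` are as in `isBC_iff`. -/

/-- **The axioms of a lattice** (`P1Lat A M`, `H25Defs`): `τ P ⊆ P`, `τ⁻¹ Q ⊆ Q`; every element of `M` is
moved into `P` by a power of `τ` and into `Q` by a power of `τ⁻¹`. -/
theorem axioms_of_lattice : (∀ x ∈ L.P, L.τ x ∈ L.P) ∧ (∀ x ∈ L.Q, L.τ.symm x ∈ L.Q) ∧
    (∀ x : M, ∃ n : ℕ, (L.τ ^ n) x ∈ L.P) ∧ ∀ x : M, ∃ n : ℕ, (L.τ.symm ^ n) x ∈ L.Q :=
  ⟨L.τ_mem, L.τ_symm_mem, L.exhaustP, L.exhaustQ⟩

/-- **Twists**: `L.Qm m = τ^m Q` (an increasing sequence with union `M`) and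
`L.K m = P ∩ τ^m Q = H⁰(E(m))`. File `H10_P1Lat`. -/
theorem twists (m n : ℕ) (h : m ≤ n) (x : M) :
    (x ∈ L.Qm m ↔ (L.τ.symm ^ m) x ∈ L.Q) ∧ L.K m = L.P ⊓ L.Qm m ∧ L.Qm 0 = L.Q ∧
      L.Qm m ≤ L.Qm n :=
  ⟨H10.Lat.mem_Qm L, rfl, H10.Lat.Qm_zero L, H10.Lat.Qm_mono L h⟩

/-- **Finite projective on the charts.** `L.FinProjP`: `P` is a finite projective module over `A[τ]`,
written with a dual basis: elements `p_j` and `A[τ]`-linear maps `φ_j : P → A[X]` (`τ` acts on `A[X]` as
`X`) with `x = ∑ φ_j(x)(τ) p_j`. `L.FinProjQ` is the same for `Q`, `τ⁻¹`. -/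
theorem finProjP_iff : L.FinProjP ↔
    ∃ (r : ℕ) (p : Fin r → L.P) (φ : Fin r → (L.P →ₗ[A] A[X])),
      (∀ j (x : L.P), φ j ⟨L.τ x, L.τ_mem x x.2⟩ = X * φ j x) ∧
      ∀ x : L.P, (x : M) = ∑ j, aeval (L.τ : M →ₗ[A] M) (φ j x) (p j : M) :=
  Iff.rfl

/-- **Base change of lattices.** `L.IsBC L' β`: the `A'`-module `M'` of `L'` is the base change of `M`
along `β`, `β` commutes with `τ`, and `P'`, `Q'` are generated by the images of `P`, `Q`. -/
theorem isBC_iff {A' : Type u} [CommRing A'] [Algebra A A'] {M' : Type v} [AddCommGroup M']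
    [Module A' M'] [Module A M'] [IsScalarTower A A' M'] (L' : P1Lat A' M') (β : M →ₗ[A] M') :
    L.IsBC L' β ↔ (∀ x, β (L.τ x) = L'.τ (β x)) ∧ IsBaseChange A' β ∧
      (∀ x ∈ L.P, β x ∈ L'.P) ∧ (∀ x ∈ L.Q, β x ∈ L'.Q) ∧
      L'.P = Submodule.span A' (β '' L.P) ∧ L'.Q = Submodule.span A' (β '' L.Q) :=
  ⟨fun h => ⟨h.1, h.2, h.3, h.4, h.5, h.6⟩,
    fun h => ⟨h.1, h.2.1, h.2.2.1, h.2.2.2.1, h.2.2.2.2.1, h.2.2.2.2.2⟩⟩

/-! ## 2. Acyclic lattices

`L` is acyclic if `M = P ⊕ Q`, that is, `H⁰(E) = 0` and `H¹(E) = 0`. `H10.Lat.sumZ L V f` is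
`∑ τ^i f_i`, the sum over all integers `i`, for a finitely supported family `f` of elements of `V`. -/

/-- **One step.** If `M = P + Q`, then `P = V + τ P` with `V = P ∩ τ Q = H⁰(E(1))`: write
`τ⁻¹ x = p + q`; then `x = τ q + τ p`. File `H10_P1Lat`. -/
theorem one_step (h : L.P ⊔ L.Q = ⊤) {x : M} (hx : x ∈ L.P) :
    ∃ v ∈ L.K 1, ∃ p ∈ L.P, x = v + L.τ p :=
  H10.Lat.exists_K1_add L h hx

/-- **Independence.** If `P ∩ Q = 0` then `∑ τ^i v_i = 0` with `v_i ∈ V` is only possible if all `v_i`
are `0`: otherwise let `n` be the last index; `τ^n v_n` is in `τ^n P` and, being minus the sum of the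
others, in `τ^n Q`. File `H10_P1Lat`. -/
theorem independence (h : Disjoint L.P L.Q) : Function.Injective (H10.Lat.sumZ L (L.K 1)) :=
  H10.Lat.sumZ_injective L h

/-- **Horrocks' lemma.** If `M = P ⊕ Q` then every element of `M` is in exactly one way a finite sum
`∑ τ^i v_i`, `i ∈ ℤ`, `v_i ∈ V`, and it is in `Q` exactly when only indices `i < 0` occur.
(For `P` see `horrocks_P` in `GuideJacobians`.) So `E` is `V ⊗ O(-1)`. File `H10_P1Lat`. -/
theorem horrocks (h : IsCompl L.P L.Q) : Function.Bijective (H10.Lat.sumZ L (L.K 1)) ∧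
    ∀ f : ℤ →₀ L.K 1, H10.Lat.sumZ L (L.K 1) f = (f.sum fun i v => (L.τ ^ i) (v : M)) ∧
      (H10.Lat.sumZ L (L.K 1) f ∈ L.Q ↔ ∀ i ∈ f.support, i < 0) :=
  ⟨⟨H10.Lat.sumZ_injective L h.disjoint, H10.Lat.sumZ_surjective L h⟩,
    fun f => ⟨rfl, H10.Lat.mem_Q_iff_sumZ L h f⟩⟩

/-! ## 3. Finiteness -/

/-- **The dual basis on `M`.** An `A[τ]`-linear map `φ : P → A[X]` extends to `M → A[X, X⁻¹]` (finitely
supported functions on `ℤ`; `shift i` = multiplication by `X^i`, `toZ` = inclusion of `A[X]`,
`ev L p f = ∑ f_i τ^i p`), because every element of `M` is moved into `P` by a power of `τ`. So the dual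
basis of `P` describes all of `M`. File `H10_P1LatProj`. -/
theorem dual_basis_on_M (h : L.FinProjP) :
    ∃ (r : ℕ) (p : Fin r → L.P) (φ : Fin r → (M →ₗ[A] (ℤ →₀ A))),
      (∀ j (i : ℤ) (x : M), φ j ((L.τ ^ i) x) = H10.Lat.shift i (φ j x)) ∧
      (∀ j (x : M), x ∈ L.P → ∃ f : A[X], φ j x = H10.Lat.toZ f) ∧
      ∀ x : M, x = ∑ j, H10.Lat.ev L (p j) (φ j x) :=
  H10.Lat.exists_dualBasis L h

/-- **Projectivity**: `M`, `P` and `τ^m Q` are projective `A`-modules (direct summands of sums of copies
of `A[X, X⁻¹]` or `A[X]`). File `H10_P1LatProj`. -/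
theorem projective (hP : L.FinProjP) (hQ : L.FinProjQ) (m : ℕ) :
    Module.Projective A M ∧ Module.Projective A L.P ∧ Module.Projective A (L.Qm m) :=
  ⟨H10.Lat.projective_M L hP, H10.Lat.projective_P L hP, H10.Lat.projective_Qm L hQ m⟩

/-- **Vanishing** of `H¹(E(m))` for large `m`. Let `S` be a finite set of elements of `P` which generates
`P` over `A[τ]` (`genP L S` is the `A`-span of the `τ^i y`, `y ∈ S`, `i ≥ 0`). If `S ⊂ τ^m Q`, then `M` is
spanned by the `τ^i y`, `i ∈ ℤ`; those with `i ≥ 0` are in `P`, those with `i < 0` in `τ^m Q`.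
File `H10_P1LatGen`. -/
theorem vanishing {S : Set M} (hfin : S.Finite) (hSP : S ⊆ L.P) (hS : L.P ≤ H10.Lat.genP L S) :
    ∃ m : ℕ, ∀ n ≥ m, L.P ⊔ L.Qm n = ⊤ :=
  H10.Lat.exists_sup_Qm_eq_top L hfin hSP hS

/-- **Generators**: `FinProjP` gives such a set `S` (the `p_j`). File `H10_P1LatProj`. -/
theorem exists_generators (h : L.FinProjP) :
    ∃ S : Set M, S.Finite ∧ S ⊆ L.P ∧ L.P ≤ H10.Lat.genP L S :=
  H10.Lat.FinProjP_generate L h

/-- **Bounds.** The elements of `K(m) = P ∩ τ^m Q` have bounded degree, at `0` and at `∞`: `K(m)` is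
contained in a finitely generated submodule of `P`. Proof: for the dual basis `φ_j` of `P` the
functions `φ_j(x)` are polynomials if `x ∈ P`, and of degree at most `m + d` if `x ∈ τ^m Q`, where `d`
bounds the `φ_j` of generators of `Q`. File `H10_P1LatProj`. -/
theorem bounded (hP : L.FinProjP) (hQ : L.FinProjQ) (m : ℕ) :
    ∃ F : Submodule A M, F.FG ∧ F ≤ L.P ∧ L.K m ≤ F :=
  H10.Lat.exists_bound L hP hQ m

/-- **Splitting.** If `H¹(E(m)) = 0`, the map `P × τ^m Q → M`, `(p, q) ↦ p - q`, is surjective onto a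
projective module, so its kernel `K(m)` is a direct summand of `P × τ^m Q`. File `H10_P1LatProj`. -/
theorem splitting (hP : L.FinProjP) {m : ℕ} (hm : L.P ⊔ L.Qm m = ⊤) :
    ∃ ρ : (L.P × L.Qm m) →ₗ[A] L.K m,
      ∀ x : L.K m, ρ (⟨(x : M), x.2.1⟩, ⟨(x : M), x.2.2⟩) = x :=
  H10.Lat.exists_retraction_K L hP hm

/-- **Finiteness of `H⁰`**: if `H¹(E(m)) = 0`, then `H⁰(E(m)) = K(m)` is a finite projective `A`-module
(`splitting` and `bounded`). File `H10_P1LatProj`. -/
theorem sections_finite (hP : L.FinProjP) (hQ : L.FinProjQ) {m : ℕ} (hm : L.P ⊔ L.Qm m = ⊤) :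
    Module.Finite A (L.K m) ∧ Module.Projective A (L.K m) :=
  ⟨H10.Lat.finite_K L hP hQ hm, H10.Lat.projective_K L hP hQ hm⟩

/-- **`τ^m Q / Q` is finite projective** over `A` (the sections of `E(m)` on the thickened point at
infinity `X^m = 0`, `X = τ⁻¹`): division with remainder by `X^m` in the dual basis.
File `H10_P1LatProj`. -/
theorem quotient_finite (hQ : L.FinProjQ) (m : ℕ) :
    Module.Finite A (L.Qm m ⧸ L.Q.submoduleOf (L.Qm m)) ∧
      Module.Projective A (L.Qm m ⧸ L.Q.submoduleOf (L.Qm m)) :=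
  H10.Lat.finite_projective_Qm_quot L hQ m

/-! ## 4. Base change -/

section BaseChange

variable {A' : Type u} [CommRing A'] [Algebra A A'] {M' : Type v} [AddCommGroup M']
  [Module A' M'] [Module A M'] [IsScalarTower A A' M'] {L' : P1Lat A' M'} {β : M →ₗ[A] M'}

/-- **Direct summands**: if `M'` is the base change of `M` along `β` and the submodule `N` of `M` is a
direct summand, then the submodule `N'` of `M'` generated by `β(N)` is the base change of `N`.
(`resBC β N N' h` is `β : N → N'`.) File `H10_P1LatBC`. -/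
theorem summand_base_change (hβ : IsBaseChange A' β) {N : Submodule A M} {N' : Submodule A' M'}
    (r : M →ₗ[A] N) (hr : ∀ x : N, r x = x) (hN' : N' = Submodule.span A' (β '' N))
    (h : ∀ x ∈ N, β x ∈ N') : IsBaseChange A' (H10.Lat.resBC β N N' h) :=
  H10.Lat.isBaseChange_resBC hβ r hr hN' h

/-- **`P`, `τ^m Q` and `K(m)` are direct summands of `M`** (the last one if `H¹(E(m)) = 0`). For `P`: cut
off the negative powers in the dual basis. File `H10_P1LatBC`. -/
theorem summands (hP : L.FinProjP) (hQ : L.FinProjQ) (m : ℕ) :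
    (∃ r : M →ₗ[A] L.P, ∀ x : L.P, r x = x) ∧ (∃ r : M →ₗ[A] L.Qm m, ∀ x : L.Qm m, r x = x) ∧
      (L.P ⊔ L.Qm m = ⊤ → ∃ r : M →ₗ[A] L.K m, ∀ x : L.K m, r x = x) :=
  ⟨H10.Lat.exists_retraction_P L hP, H10.Lat.exists_retraction_Qm L hQ m,
    H10.Lat.exists_retraction_M_K L hP hQ⟩

/-- **A splitting endomorphism**: if `H¹(E(m)) = 0` there is an endomorphism `σ` of `M` with
`x - σ x ∈ K(m)` for `x ∈ P` and `σ x ∈ K(m)` for `x ∈ τ^m Q`. File `H10_P1LatBC`. -/
theorem splitting_endomorphism (hP : L.FinProjP) {m : ℕ} (hm : L.P ⊔ L.Qm m = ⊤) :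
    ∃ σ : M →ₗ[A] M, (∀ p ∈ L.P, p - σ p ∈ L.K m) ∧ ∀ q ∈ L.Qm m, σ q ∈ L.K m :=
  H10.Lat.exists_sigma L hP hm

/-- **`K(m)` is compatible with base change**, first half: `K'(m)` is generated by the image of `K(m)`.
Apply the extension of `σ` and of `1 - σ` to an element of `P' ∩ τ^m Q'`. The second half (`K'(m)` is the
base change of `K(m)`) is `sections_base_change` in `GuideJacobians`, from this and
`summand_base_change`. File `H10_P1LatBC`. -/
theorem sections_generate (hP : L.FinProjP) (hβ : L.IsBC L' β) {m : ℕ}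
    (hm : L.P ⊔ L.Qm m = ⊤) : L'.K m = Submodule.span A' (β '' L.K m) :=
  H10.Lat.IsBC_span_K hP hβ hm

/-- **Stability**: the conditions `FinProjP`, `FinProjQ`, `H¹(E(m)) = 0` and acyclicity are preserved by
base change. File `H10_P1LatBC`. -/
theorem stability (hβ : L.IsBC L' β) :
    (L.FinProjP → L'.FinProjP) ∧ (L.FinProjQ → L'.FinProjQ) ∧
      (∀ m, L.P ⊔ L.Qm m = ⊤ → L'.P ⊔ L'.Qm m = ⊤) ∧
      (L.FinProjP → IsCompl L.P L.Q → IsCompl L'.P L'.Q) :=
  ⟨fun h => H10.Lat.IsBC_finProjP h hβ, fun h => H10.Lat.IsBC_finProjQ h hβ,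
    fun _ hm => H10.Lat.IsBC_sup_eq_top hβ hm, fun hP h => H10.Lat.IsBC_isCompl hP hβ h⟩

/-- **The module `V`**: for an acyclic lattice `V = P ∩ τ Q = H⁰(E(1))` is finite projective and
commutes with base change. It is the module on which the charts of the Picard functor are built.
File `H10_P1LatBC`. -/
theorem module_V (hP : L.FinProjP) (hQ : L.FinProjQ) (hβ : L.IsBC L' β) (h : IsCompl L.P L.Q) :
    (Module.Finite A (L.K 1) ∧ Module.Projective A (L.K 1)) ∧
      IsBaseChange A' (H10.Lat.resBC β (L.K 1) (L'.K 1) fun _ hx => H10.Lat.IsBC_mem_K hβ 1 hx) :=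
  ⟨H10.Lat.finite_projective_K1 hP hQ h, H10.Lat.IsBC_isBaseChange_K1 hP hQ hβ h⟩

end BaseChange

/-! ## 5. The complex `K(m) → τ^m Q / Q`

`Fq L m = τ^m Q / Q`, `gmap L m : K(m) → Fq L m` the natural map, `toH1 L m : Fq L m → M / (P + Q)`. -/

/-- **The complex computes the cohomology of `E`**, if `H¹(E(m)) = 0`: the kernel of `gmap` is
`P ∩ Q = H⁰(E)` and its cokernel is `M / (P + Q) = H¹(E)`. File `H10_P1LatOpen`. -/
theorem complex {m : ℕ} (hm : L.P ⊔ L.Qm m = ⊤) :
    (∀ x : L.K m, H10.Lat.gmap L m x = 0 ↔ (x : M) ∈ L.Q) ∧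
      LinearMap.ker (H10.Lat.toH1 L m) = LinearMap.range (H10.Lat.gmap L m) ∧
      Function.Surjective (H10.Lat.toH1 L m) :=
  ⟨H10.Lat.gmap_eq_zero_iff L, H10.Lat.ker_toH1 L m, H10.Lat.toH1_surjective L hm⟩

/-- **Acyclicity** is the bijectivity of a homomorphism of finite projective modules, and after base
change it is the bijectivity of the base change of this homomorphism. File `H10_P1LatOpen`. -/
theorem acyclic_iff (hP : L.FinProjP) (hQ : L.FinProjQ) {m : ℕ} (hm : L.P ⊔ L.Qm m = ⊤) :
    (IsCompl L.P L.Q ↔ Function.Bijective (H10.Lat.gmap L m)) ∧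
    ∀ (A' : Type u) [CommRing A'] [Algebra A A'] (M' : Type v) [AddCommGroup M'] [Module A' M']
      [Module A M'] [IsScalarTower A A' M'] (L' : P1Lat A' M') (β : M →ₗ[A] M'), L.IsBC L' β →
      (IsCompl L'.P L'.Q ↔ Function.Bijective ((H10.Lat.gmap L m).baseChange A')) :=
  ⟨H10.Lat.isCompl_iff L hm, fun _ _ _ _ _ _ _ _ _ _ hβ => H10.Lat.isCompl_iff_baseChange hP hQ hβ hm⟩

/-- **Modules which vanish at a point**: `C` a finite `A`-module, `K` a field over `A` with `K ⊗ C = 0`.
There is `f ∈ A`, not zero in `K`, with `f C = 0`. File `H10_P1LatOpen`. -/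
theorem killed_near_point {K : Type w} [Field K] [Algebra A K] {C : Type v} [AddCommGroup C]
    [Module A C] [Module.Finite A C] [Subsingleton (K ⊗[A] C)] :
    ∃ f : A, algebraMap A K f ≠ 0 ∧ ∀ c : C, f • c = 0 :=
  H10.Lat.exists_smul_eq_zero

/-- **Bijective at a point implies bijective near the point**: `g : E → F` a homomorphism of finite
modules, `F` projective, `K ⊗ g` bijective. There are `f ∈ A`, not zero in `K`, and `H : F → E` with
`g H = f` and `H g = f`. (First for the cokernel of `g`, then, after a partial section is found, for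
the image of `f - H g`.) With `acyclic_iff` this is `acyclic_open` of `GuideJacobians`.
File `H10_P1LatOpen`. -/
theorem inverse_near_point {K : Type w} [Field K] [Algebra A K] {E F : Type v} [AddCommGroup E]
    [Module A E] [Module.Finite A E] [AddCommGroup F] [Module A F] [Module.Finite A F]
    [Module.Projective A F] (g : E →ₗ[A] F) (hg : Function.Bijective (g.baseChange K)) :
    ∃ (f : A) (H : F →ₗ[A] E), algebraMap A K f ≠ 0 ∧ (∀ x, g (H x) = f • x) ∧
      ∀ x, H (g x) = f • x :=
  H10.Lat.exists_quasi_inverse g hg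

/-- **Euler characteristic over a field**: `H⁰` and `H¹` are finite dimensional and
`dim H⁰(E) - dim H¹(E) = dim K(m) - dim τ^m Q / Q`. Over a ring the right hand side is
`chi L m p`, the difference of the ranks of two finite projective modules at a prime `p`; this is
locally constant (`euler_char_locally_constant` in `GuideJacobians`). File `H10_P1LatOpen`. -/
theorem euler_characteristic {K : Type u} [Field K] {W : Type v} [AddCommGroup W] [Module K W]
    (L : P1Lat K W) {m : ℕ} (hm : L.P ⊔ L.Qm m = ⊤) [Module.Finite K (L.K m)]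
    [Module.Finite K (H10.Lat.Fq L m)] :
    (Module.Finite K (L.P ⊓ L.Q : Submodule K W) ∧ Module.Finite K (W ⧸ (L.P ⊔ L.Q))) ∧
      (Module.finrank K (L.P ⊓ L.Q : Submodule K W) : ℤ) - Module.finrank K (W ⧸ (L.P ⊔ L.Q)) =
        (Module.finrank K (L.K m) : ℤ) - Module.finrank K (H10.Lat.Fq L m) :=
  let ⟨h1, h2, h3⟩ := H10.Lat.finrank_formula L hm
  ⟨⟨h1, h2⟩, h3⟩

/-! ## 6. Coordinate rings of the charts, invertible modules

`R` is a ring over `K` (a field; for `coordinates` a ring `A`) with elements `t`, `b_1, ..., b_n` such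
that `b` is a basis of `R` over the polynomials in `t`: this is the ring of functions on a chart of the
curve. -/

/-- **Coordinates** with respect to the basis `b`: maps `c_i : R → A[X]`, linear over the polynomials
in `t`. They are used to show that the lattice of a line bundle satisfies `FinProjP` (compose them with
a dual basis of an invertible `R`-module). Files `H10_LatOf`, `H10_RRDim`. -/
theorem coordinates {R : Type u} [CommRing R] [Algebra A R] {t : R} {n : ℕ} {b : Fin n → R}
    (hb : Function.Bijective (fun f : Fin n → A[X] => ∑ i, aeval t (f i) * b i)) :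
    ∃ c : Fin n → (R →ₗ[A] A[X]), (∀ i x, c i (t * x) = X * c i x) ∧
      ∀ x, x = ∑ i, aeval t (c i x) * b i :=
  H10.Lat.exists_coordinates hb

/-- **Dimension of `R / t^m`**: it is `m n`. File `H10_RRDim`. -/
theorem dim_quotient {K : Type u} [Field K] {R : Type u} [CommRing R] [Algebra K R] {t : R} {n : ℕ}
    {b : Fin n → R}
    (hb : Function.Bijective (fun f : Fin n → K[X] => ∑ i, aeval t (f i) * b i)) (m : ℕ) :
    Module.Finite K (R ⧸ Ideal.span {t ^ m}) ∧
      Module.finrank K (R ⧸ Ideal.span {t ^ m}) = m * n :=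
  H10.Lat.finrank_quot_pow hb m

/-- **Finiteness of quotients**: if `R` is a domain, every `a ≠ 0` divides a nonzero polynomial in `t`
(a norm), and `R / a` is finite dimensional. File `H10_RRPoints`. -/
theorem finite_quotient {K : Type*} [Field K] {R : Type*} [CommRing R] [Algebra K R] {t : R} {n : ℕ}
    {b : Fin n → R} [IsDomain R]
    (hb : Function.Bijective (fun f : Fin n → K[X] => ∑ i, aeval t (f i) * b i)) {a : R}
    (ha : a ≠ 0) :
    (∃ g : K[X], g ≠ 0 ∧ a ∣ aeval t g) ∧ Module.Finite K (R ⧸ Ideal.span {a}) :=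
  ⟨H10.Lat.exists_dvd_aeval hb ha, H10.Lat.finite_quot_of_ne_zero hb ha⟩

/-- **Invertible modules are locally free of rank one**: if `R / I` is finite dimensional over `K` and
`Q` is an invertible `R`-module, then `Q / I Q` has the same dimension as `R / I` (the artinian ring
`R / I` has trivial Picard group). File `H10_RRDim`. -/
theorem dim_invertible {K R : Type u} [Field K] [CommRing R] [Algebra K R] {Q : Type v}
    [AddCommGroup Q] [Module K Q] [Module R Q] [IsScalarTower K R Q] [Module.Invertible R Q]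
    (I : Ideal R) [Module.Finite K (R ⧸ I)] :
    Module.Finite K (Q ⧸ (I • (⊤ : Submodule R Q))) ∧
      Module.finrank K (Q ⧸ (I • (⊤ : Submodule R Q))) = Module.finrank K (R ⧸ I) :=
  H10.Lat.finrank_quot_smul I

/-- **Functionals on an invertible module `P`**: `1 = ∑ φ_i(m_i)`; `φ(x) y = φ(y) x`; an element
which is killed by all functionals is zero. File `H10_RRInv`. -/
theorem functionals {R : Type u} [CommRing R] {P : Type v} [AddCommGroup P] [Module R P]
    [Module.Invertible R P] :
    (∃ (r : ℕ) (φ : Fin r → Module.Dual R P) (m : Fin r → P), ∑ i, φ i (m i) = 1) ∧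
      (∀ (φ : Module.Dual R P) (x y : P), φ x • y = φ y • x) ∧
      ∀ m : P, m ≠ 0 → ∃ φ : Module.Dual R P, φ m ≠ 0 :=
  ⟨H10.Inv.exists_sum_eq_one, H10.Inv.dual_smul_comm, fun _ h => H10.Inv.exists_dual_apply_ne_zero h⟩

end Fermat.Agent.Guide.Lattices
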