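import Fermat.Agent.H64FTors

/-!
# S56-[B4] : the derivation argument (K4a)
-/

set_option autoImplicit false

noncomputable section

namespace Fermat.Agent.H64

variable {p : ℕ} [Fact p.Prime]

theorem nm_sum_pow_p_sub_le {ι : Type*} (s : Finset ι) (f : ι → FQb) (hf : ∀ i ∈ s, nm p (f i) ≤ 1) :
    nm p ((∑ i ∈ s, f i) ^ p - ∑ i ∈ s, f i ^ p) ≤ nm p (p : FQb) := by
  classical
  induction s using Finset.induction_on with
  | empty =>
    simp only [Finset.sum_empty, zero_pow (Fact.out : p.Prime).ne_zero, sub_zero, nm_zero]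
    exact nm_nonneg _
  | insert b s hb ih =>
    rw [Finset.sum_insert hb, Finset.sum_insert hb]
    have h1 : nm p (f b) ≤ 1 := hf b (Finset.mem_insert_self b s)
    have h2 : nm p (∑ i ∈ s, f i) ≤ 1 :=
      nm_sum_le _ _ zero_le_one fun i hi => hf i (Finset.mem_insert_of_mem hi)
    have h3 := nm_add_pow_p_sub_le h1 h2
    have h4 := ih fun i hi => hf i (Finset.mem_insert_of_mem hi)
    have e1 : (f b + ∑ i ∈ s, f i) ^ p - (f b ^ p + ∑ i ∈ s, f i ^ p) =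
        ((f b + ∑ i ∈ s, f i) ^ p - f b ^ p - (∑ i ∈ s, f i) ^ p) +
          ((∑ i ∈ s, f i) ^ p - ∑ i ∈ s, f i ^ p) := by ring
    rw [e1]
    refine nm_add_le_of (h3.trans ?_) h4
    apply mul_le_of_le_one_right (nm_nonneg _)
    exact mul_le_one₀ h1 (nm_nonneg _) h2

/-- a layer with its derivation -/
theorem exists_layer_derivation (S : Set FQb) (hS : S.Finite) {e : ℕ} (he : 1 < e)
    (hep : e.Coprime p) {π : FQb} (hπ : π ^ e = -(p : FQb)) :
    ∃ (L : IntermediateField ℚ FQb) (δ : ℝ) (hδ : 0 < δ)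
      (D : Derivation ℤ (BL p L) (FQb ⧸ Ud p L δ hδ)) (u : FQb) (hπB : π ∈ BL p L),
      IsGalois ℚ L ∧ S ⊆ L ∧ (∀ b : BL p L, FixI p (b : FQb) → D b = 0) ∧
      D ⟨π, hπB⟩ = Submodule.Quotient.mk u ∧ nm p u * nm p π ^ (e - 1) = δ := by
  obtain ⟨L, hfd, hgal, hL⟩ := exists_galois_field (insert π S) (hS.insert π)
  have : NumberField L := @NumberField.mk _ _ inferInstance hfd
  have hπL : π ∈ L := hL (Set.mem_insert π S)
  have hπB : π ∈ BL p L := ⟨hπL, (nm_pi_lt_one hπ).le⟩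
  obtain ⟨N, ϖ, hN, hϖL, hϖ, hexp⟩ := exists_uniformizer (p := p) L
  have hϖB : ϖ ∈ BL p L := ⟨hϖL, (nm_unif_lt_one hϖ).le⟩
  obtain ⟨g, hg, hgN, hgev, hglt⟩ := exists_eisenstein hN hϖL hϖ hexp
  obtain ⟨P, hPN, hP⟩ := exists_poly hN hϖ hexp hπB
  refine ⟨L, nm p (ev L ϖ (Polynomial.derivative g)), ev_derivative_pos hN hϖ hg hgN,
    derivϖ hN hϖ hexp hϖB hg hgN hgev, ev L ϖ (Polynomial.derivative P), hπB, hgal,
    (Set.subset_insert π S).trans hL, ?_, derivϖ_spec hN hϖ hexp hϖB hg hgN hgev hP,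
    nm_derivative_pi hN hϖ hϖB hg hgN hgev hglt he hep hπ hPN hP⟩
  intro b hb
  have h1 : ev L ϖ (Polynomial.C (⟨b, b.2, hb⟩ : OL p L)) = b := by
    rw [ev, Polynomial.eval₂_C]
    rfl
  rw [derivϖ_spec hN hϖ hexp hϖB hg hgN hgev h1, Polynomial.derivative_C]
  have h2 : ev L ϖ (0 : Polynomial (OL p L)) = 0 := Polynomial.eval₂_zero _ _
  rw [h2]
  rfl

variable {W : Type*} [AddCommGroup W] [Finite W] {act : FGQ → W → W} {n : ℕ}
  {e : Fin n → W → FQb} {a : Fin n → Fin n → Fin n → ℚ}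

/-- **K4a** -/
theorem FData.exists_congr_pow (h : FData p act n e a) (hpW : ∀ x : W, p • x = 0) {d : ℕ}
    (hd : 1 < d) (hdp : d.Coprime p) {π : FQb} (hπ : π ^ d = -(p : FQb)) (x : W)
    (b : Fin n → FQb) (hb : ∀ i, FixT p π (b i)) (hb1 : ∀ i, nm p (b i) ≤ 1)
    {α : FQb} (hα : α = ∑ i, b i * e i x) (hα1 : nm p α = 1) (hκ : FixT p π (α ^ p)) :
    ∃ β, FixT p π β ∧ nm p β = 1 ∧ nm p (α ^ p - β ^ p) ≤ nm p (p : FQb) := by
  classical
  have hd0 : 0 < d := by omega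
  have hπ0 := pi_ne_zero hd0 hπ
  have hπpos := nm_pi_pos hd0 hπ
  obtain ⟨t, ht, ζ, hζ, htπ⟩ := exists_tame_gen hd0 hdp hπ
  -- the layer
  set S : Set FQb := Set.range b ∪ Set.range (fun iy : Fin n × W => e iy.1 iy.2) with hS
  have hSfin : S.Finite := (Set.finite_range _).union (Set.finite_range _)
  obtain ⟨L, δ, hδ, D, u, hπB, hgal, hSL, hDI, hDπ, hu⟩ :=
    exists_layer_derivation S hSfin hd hdp hπ
  have hbL : ∀ i, b i ∈ L := fun i => hSL (Or.inl ⟨i, rfl⟩)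
  have heL : ∀ i y, e i y ∈ L := fun i y => hSL (Or.inr ⟨(i, y), rfl⟩)
  have hπL : π ∈ L := hπB.1
  have hαL : α ∈ L := by
    rw [hα]
    exact sum_mem fun i _ => mul_mem (hbL i) (heL i x)
  -- `p D(π) = 0`
  have hnm_iff : ∀ c : BL p L, c • D ⟨π, hπB⟩ = 0 ↔ nm p (c : FQb) ≤ nm p π ^ (d - 1) := by
    intro c
    have hu0 : 0 < nm p u := by
      rcases eq_or_lt_of_le (nm_nonneg (p := p) u) with h0 | h0
      · rw [← h0, zero_mul] at hu
        exact absurd hu hδ.ne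
      · exact h0
    rw [hDπ, ← Submodule.Quotient.mk_smul, Submodule.Quotient.mk_eq_zero, mem_Ud, ← hu]
    show nm p ((c : FQb) * u) ≤ _ ↔ _
    rw [nm_mul, mul_comm (nm p u)]
    exact mul_le_mul_iff_left₀ hu0
  have hpπ : p • D ⟨π, hπB⟩ = 0 := by
    rw [← Nat.cast_smul_eq_nsmul (BL p L), hnm_iff]
    show nm p (((p : ℕ) : BL p L) : FQb) ≤ _
    have h1 : (((p : ℕ) : BL p L) : FQb) = (p : FQb) := by simp
    rw [h1, ← nm_pi_pow hπ]
    exact pow_le_pow_of_le_one hπpos.le (nm_pi_lt_one hπ).le (by omega)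
  -- derivatives of elements fixed by `Tm`
  have hDT : ∀ z : BL p L, FixT p π (z : FQb) → ∃ f : Fin d → FQb, (∀ i, FixI p (f i)) ∧
      (∀ i, nm p (f i) ≤ 1) ∧ (z : FQb) = ∑ i, f i * π ^ (i : ℕ) ∧
      ∃ c : BL p L, (c : FQb) = ∑ i : Fin d, ((i : ℕ) : FQb) * f i * π ^ ((i : ℕ) - 1) ∧
        D z = c • D ⟨π, hπB⟩ := by
    intro z hz
    obtain ⟨f, hf, hfs, hfL⟩ := hz.exists_expansion hd0 hdp hπ ht hζ htπ
    have hf1 := coeff_le_one hd0 (nm_pi_pow hπ) f hf (by rw [← hfs]; exact z.2.2)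
    have hfL' := hfL L hgal hπL z.2.1
    let F : Fin d → BL p L := fun i => ⟨f i, hfL' i, hf1 i⟩
    refine ⟨f, hf, hf1, hfs, ∑ i : Fin d, ((i : ℕ) : BL p L) * F i * ⟨π, hπB⟩ ^ ((i : ℕ) - 1),
      ?_, ?_⟩
    · push_cast
      rfl
    · have h1 : z = ∑ i : Fin d, F i * ⟨π, hπB⟩ ^ (i : ℕ) := by
        apply Subtype.ext
        rw [hfs]
        push_cast
        rfl
      rw [h1, map_sum, Finset.sum_smul]
      refine Finset.sum_congr rfl fun i _ => ?_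
      rw [Derivation.leibniz, hDI (F i) (hf i), smul_zero, add_zero, Derivation.leibniz_pow,
        mul_comm (((i : ℕ) : BL p L)) (F i), mul_smul, mul_smul, Nat.cast_smul_eq_nsmul]
  -- `p D(α) = 0`
  have hpα : p • D ⟨α, hαL, hα1.le⟩ = 0 := by
    have h1 : (⟨α, hαL, hα1.le⟩ : BL p L) =
        ∑ i, (⟨b i, hbL i, hb1 i⟩ : BL p L) * ⟨e i x, heL i x, h.nm_le i x⟩ := by
      apply Subtype.ext
      refine hα.trans ?_
      push_cast
      rfl
    rw [h1, map_sum, Finset.smul_sum]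
    apply Finset.sum_eq_zero
    intro i _
    obtain ⟨f, -, -, -, c, -, hc⟩ := hDT ⟨b i, hbL i, hb1 i⟩ (hb i)
    rw [Derivation.leibniz, smul_add, smul_comm p, smul_comm p,
      h.torsion_derivation heL D hDI (hpW x) i, smul_zero, zero_add, hc, smul_comm p, hpπ,
      smul_zero, smul_zero]
  -- `D(κ) = 0`
  have hκB : α ^ p ∈ BL p L := ⟨pow_mem hαL p, by rw [nm_pow, hα1, one_pow]⟩
  have hDκ : D ⟨α ^ p, hκB⟩ = 0 := by
    have h1 : (⟨α ^ p, hκB⟩ : BL p L) = ⟨α, hαL, hα1.le⟩ ^ p := rfl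
    rw [h1, Derivation.leibniz_pow, smul_comm, hpα, smul_zero]
  obtain ⟨f, hf, hf1, hfs, c, hc, hDc⟩ := hDT ⟨α ^ p, hκB⟩ hκ
  rw [hDκ, eq_comm, hnm_iff, hc] at hDc
  -- the coefficients
  have hcoef : ∀ i : Fin d, nm p (((i : ℕ) : FQb) * f i * π ^ (i : ℕ)) ≤ nm p (p : FQb) := by
    have h1 : ∑ i : Fin d, (((i : ℕ) : FQb) * f i) * π ^ (i : ℕ) =
        π * ∑ i : Fin d, ((i : ℕ) : FQb) * f i * π ^ ((i : ℕ) - 1) := by
      rw [Finset.mul_sum]
      refine Finset.sum_congr rfl fun i _ => ?_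
      rcases Nat.eq_zero_or_pos (i : ℕ) with h0 | h0
      · rw [h0]; simp
      · obtain ⟨j, hj⟩ : ∃ j, (i : ℕ) = j + 1 := ⟨(i : ℕ) - 1, by omega⟩
        rw [hj, Nat.add_sub_cancel, pow_succ]
        ring
    have h2 : nm p (∑ i : Fin d, (((i : ℕ) : FQb) * f i) * π ^ (i : ℕ)) ≤ nm p (p : FQb) := by
      rw [h1, nm_mul, ← nm_pi_pow hπ]
      calc nm p π * _ ≤ nm p π * nm p π ^ (d - 1) := mul_le_mul_of_nonneg_left hDc hπpos.le
        _ = nm p π ^ d := by rw [← pow_succ', Nat.sub_add_cancel hd0]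
    intro i
    exact (nm_term_le_sum hd0 (nm_pi_pow hπ) (fun i : Fin d => ((i : ℕ) : FQb) * f i)
      (fun i σ hσ => by rw [map_mul, map_natCast, hf i σ hσ]) i).trans h2
  -- Teichmüller approximations
  choose τ hτ hτ' using fun i => exists_teich (hf1 i)
  choose ξ hξ hξ' using fun i => (hτ i).exists_root
  have hτI : ∀ i, nm p (f i - τ i) ≤ nm p (p : FQb) := by
    intro i
    apply FixI.nm_le_p_of_lt _ (hτ' i)
    intro σ hσ
    rw [map_sub, hf i σ hσ, (hτ i).inertia hσ]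
  set β : FQb := ∑ i ∈ Finset.univ.filter (fun i : Fin d => p ∣ (i : ℕ)), ξ i * π ^ ((i : ℕ) / p)
    with hβ
  have hβfix : FixT p π β := by
    intro σ hσ
    rw [hβ, map_sum]
    refine Finset.sum_congr rfl fun i _ => ?_
    rw [map_mul, map_pow, (hξ i).inertia (Tm_le_Ip hσ), (mem_Tm.mp hσ).2]
  have hterm1 : ∀ i : Fin d, nm p (ξ i * π ^ ((i : ℕ) / p)) ≤ 1 := by
    intro i
    apply nm_mul_le_one (hξ i).nm_le
    rw [nm_pow]
    exact pow_le_one₀ hπpos.le (nm_pi_lt_one hπ).le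
  have hβp : nm p (β ^ p - ∑ i ∈ Finset.univ.filter (fun i : Fin d => p ∣ (i : ℕ)),
      τ i * π ^ (i : ℕ)) ≤ nm p (p : FQb) := by
    have h1 := nm_sum_pow_p_sub_le (Finset.univ.filter (fun i : Fin d => p ∣ (i : ℕ)))
      (fun i => ξ i * π ^ ((i : ℕ) / p)) (fun i _ => hterm1 i)
    rw [← hβ] at h1
    convert h1 using 3
    refine Finset.sum_congr rfl fun i hi => ?_
    rw [mul_pow, hξ', ← pow_mul, Nat.div_mul_cancel (Finset.mem_filter.mp hi).2]
  have hκβ : nm p (α ^ p - β ^ p) ≤ nm p (p : FQb) := by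
    have h1 : α ^ p = ∑ i, f i * π ^ (i : ℕ) := hfs
    have e1 : α ^ p - β ^ p = (∑ i ∈ Finset.univ.filter (fun i : Fin d => p ∣ (i : ℕ)),
        (f i - τ i) * π ^ (i : ℕ)) +
        (∑ i ∈ Finset.univ.filter (fun i : Fin d => ¬ p ∣ (i : ℕ)), f i * π ^ (i : ℕ)) -
        (β ^ p - ∑ i ∈ Finset.univ.filter (fun i : Fin d => p ∣ (i : ℕ)), τ i * π ^ (i : ℕ)) := by
      rw [h1, ← Finset.sum_filter_add_sum_filter_not Finset.univ (fun i : Fin d => p ∣ (i : ℕ))]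
      simp only [sub_mul, Finset.sum_sub_distrib]
      ring
    rw [e1]
    refine nm_sub_le_of (nm_add_le_of ?_ ?_) hβp
    · refine nm_sum_le _ _ (nm_nonneg _) fun i _ => ?_
      rw [nm_mul, nm_pow]
      exact (mul_le_of_le_one_right (nm_nonneg _)
        (pow_le_one₀ hπpos.le (nm_pi_lt_one hπ).le)).trans (hτI i)
    · refine nm_sum_le _ _ (nm_nonneg _) fun i hi => ?_
      have h2 := hcoef i
      have h3 : nm p (((i : ℕ) : FQb)) = 1 := by
        apply nm_natCast_eq_one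
        exact ((Nat.Prime.coprime_iff_not_dvd Fact.out).mpr (Finset.mem_filter.mp hi).2).symm
      rw [nm_mul, nm_mul, h3, one_mul, ← nm_mul] at h2
      exact h2
  refine ⟨β, hβfix, ?_, hκβ⟩
  have h1 : nm p (β ^ p) = 1 := by
    rw [← nm_eq_of_sub_lt' (x := α ^ p) (y := β ^ p) (by
      rw [nm_pow, hα1, one_pow]
      exact hκβ.trans_lt (nm_p_lt_one p)), nm_pow, hα1, one_pow]
  rw [nm_pow] at h1
  exact (pow_eq_one_iff_of_nonneg (nm_nonneg _) (Fact.out : p.Prime).ne_zero).mp h1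

end Fermat.Agent.H64
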