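import Fermat.Agent.H64FCount
import Fermat.Agent.H64FK2
import Fermat.Agent.H64FK4

/-!
# Guide to the proof: inertia, layers and levels of Kummer classes (companion of `GuideFlatBound`)

This file is a machine-checked table of contents. Every theorem below is a citation of a theorem of
the library, with its statement written out. Nothing imports this file.

**What it contains.** The steps behind `GuideFlatBound` (the bound for the cocycles of flat lifts):
absolute values on `ℚ̄` and inertia, uniformizers, the field fixed by tame inertia, the derivation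
`d/dϖ`, `p`-th powers near `1`, the unit lemma, and the calculus of residues of Kummer classes by which
case (II) is counted. The statements of `GuideFlatBound` and `GuideUnitCocycles` are not repeated.

**The idea.** There is no local field in this part of the library. The fixed embedding of `ℚ̄` into an
algebraic closure of `ℚ_p` defines an absolute value `|x| = nm p x` on `ℚ̄`, and all arguments take
place in `ℚ̄`, with the decomposition group `Dp p` (the isometries) and the inertia group `Ip p` (which acts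
trivially on residues). Two facts replace the theory of complete fields:
 * a nonzero number fixed by inertia has the absolute value of a power of `p` (`exists_layer`,
   `inertia_field`), so that an expansion `∑ f_i ϖ^i`, `i < N`, with `|ϖ|^N = |p|` and coefficients fixed
   by inertia has no cancellation;
 * residue classes are represented by the Teichmüller elements (`ζ^(p^m) = ζ`), which are fixed by inertia.
With them one divides with remainder by an Eisenstein polynomial (`exists_eisenstein`,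
`divisible_by_eisenstein`), differentiates with respect to `ϖ` (`derivation_spec`), and computes modulo
powers of `π = (-p)^(1/(p² - 1))` (section 6).

**Order of the file.** 1. Absolute value and residues. 2. Layers. 3. The field fixed by `Tm`. 4. The
derivation `d/dϖ`. 5. Coordinates of group schemes. 6. Residues of Kummer classes. 7. The count.

**Where.** NOTES.md, Appendix A.10 (NOTES-S56). Used in S56, S43, S59 and through them in S01, S03, S04,
S06, S38, S45, S46, S50, S60. Authors: helper64; places of number fields in `ℚ̄` (`H54Place`): helper54;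
`semilinear_count`: helper20. The fundamental characters of level two: `GuideLevelTwo`.
-/

set_option autoImplicit false
set_option maxSynthPendingDepth 3

open Polynomial ExtCitation
open Fermat.Agent.H64

noncomputable section

namespace Fermat.Agent.Guide.Layers

variable {p : ℕ} [Fact p.Prime]

/-! ## 1. Absolute value and residues

`FQb` is the algebraic closure of `ℚ`, `FGQ` its Galois group, `nm p` the absolute value, `Kap p` the
residue field, `rs x` the residue of `x` (by definition `0` if `|x| > 1`), `frob p` a Frobenius element. -/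

/-- **The absolute value** (`H64FVal`): multiplicative, ultrametric, `|p| = 1/p`, at most `1` at algebraic
integers, and equal to `1` at natural numbers prime to `p`. -/
theorem absolute_value (x y : FQb) :
    nm p (x * y) = nm p x * nm p y ∧ nm p (x + y) ≤ max (nm p x) (nm p y) ∧
      nm p (p : FQb) = (p : ℝ)⁻¹ ∧ (IsIntegral ℤ x → nm p x ≤ 1) ∧
      ∀ n : ℕ, n.Coprime p → nm p (n : FQb) = 1 :=
  ⟨nm_mul x y, nm_add_le x y, nm_p p, nm_le_one_of_isIntegral, fun _ => nm_natCast_eq_one⟩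

/-- **The decomposition group acts by isometries** (`H64FVal`), and the inertia group is a normal subgroup
of it (`H64FCore`). -/
theorem decomposition_group {g : FGQ} (hg : g ∈ Dp p) :
    (∀ x, nm p (g x) = nm p x) ∧ ∀ σ ∈ Ip p, g * σ * g⁻¹ ∈ Ip p :=
  ⟨nm_dec hg, fun _ hσ => conj_mem_Ip hσ hg⟩

/-- **Residues** (`H64FVal`): a surjective ring homomorphism on the numbers with `|x| ≤ 1`; two of them
have the same residue exactly if `|x - y| < 1`; inertia acts trivially on residues and Frobenius by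
the `p`-th power. -/
theorem residues {x y : FQb} (hx : nm p x ≤ 1) (hy : nm p y ≤ 1) :
    rs (p := p) (x + y) = rs x + rs y ∧ rs (p := p) (x * y) = rs x * rs y ∧
      (rs (p := p) x = rs y ↔ nm p (x - y) < 1) ∧ (∀ σ ∈ Ip p, rs (p := p) (σ x) = rs x) ∧
      rs (p := p) (frob p x) = rs x ^ p ∧ ∀ z : Kap p, ∃ w : FQb, nm p w ≤ 1 ∧ rs w = z :=
  ⟨rs_add hx hy, rs_mul hx hy, rs_eq_iff hx hy, fun _ hσ => rs_inertia hσ hx, rs_frob hx,
    rs_surjective⟩

/-- **Residues are algebraic over `𝔽_p`** (`H64FVal`): every `u` with `|u| ≤ 1` is congruent to `u^(p^m)` for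
some `m ≥ 1`. (Reduce a primitive integral polynomial with root `u`; the residue of `u` generates a
finite field.) The factorisation of `X^(p^m) - X` then gives the Teichmüller elements
(`GuideUnitCocycles`). -/
theorem residues_algebraic {u : FQb} (hu : nm p u ≤ 1) :
    ∃ m : ℕ, 0 < m ∧ nm p (u ^ (p ^ m) - u) < 1 :=
  exists_pow_congr hu

/-- **The `p`-th power map** (`H64FVal`): additive up to multiples of `p a b`, and contracting on residue
classes; so two different Teichmüller elements are not congruent, since their `p^m`-th powers for a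
suitable `m`, which are the elements themselves, would be nearer to each other. -/
theorem pth_powers {a b : FQb} (ha : nm p a ≤ 1) (hb : nm p b ≤ 1) :
    nm p ((a + b) ^ p - a ^ p - b ^ p) ≤ nm p (p : FQb) * (nm p a * nm p b) ∧
      nm p (a ^ p - b ^ p) ≤ max (nm p (a - b) ^ p) (nm p (p : FQb) * nm p (a - b)) :=
  ⟨nm_add_pow_p_sub_le ha hb, nm_pow_p_sub_le ha hb⟩

omit [Fact p.Prime] in
/-- **Teichmüller elements** (`IsTeich p ζ`: `ζ^(p^m) = ζ` for some `m ≥ 1`) are closed under products and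
have `p`-th roots of the same kind (`H64FVal`); roots of unity of order prime to `p` are Teichmüller
elements (`H64FTame`). -/
theorem teichmuller {ζ ξ : FQb} (hζ : IsTeich p ζ) (hξ : IsTeich p ξ) :
    IsTeich p (ζ * ξ) ∧ (∃ η, IsTeich p η ∧ η ^ p = ζ) ∧
      ∀ (e : ℕ) (η : FQb), 0 < e → e.Coprime p → η ^ e = 1 → IsTeich p η :=
  ⟨hζ.mul hξ, hζ.exists_root, fun _ _ he hep h => isTeich_of_pow_eq_one he hep h⟩

/-! ## 2. Layers

A *layer* is a number field `L`, Galois over `ℚ`, with an embedding `j` into the algebraic closure of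
`ℚ_p`. `layI L j` is its inertia group at the place `H54.placeOf j` and `layF L j` the inertia field. -/

/-- **The degree over the inertia field is the ramification index** of the place over `ℚ`, and the place is
totally ramified over the inertia field (`H64FLayer`). -/
theorem degree_over_inertia_field (L : Type*) [Field L] [NumberField L] [IsGalois ℚ L]
    (j : L →+* PadicAlgCl p) :
    Module.finrank (layF L j) L =
        ((H54.placeOf j).asIdeal.under ℤ).ramificationIdx' (H54.placeOf j).asIdeal ∧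
      Module.finrank (layF L j) L =
        ((H54.placeOf j).asIdeal.under (NumberField.RingOfIntegers (layF L j))).ramificationIdx'
          (H54.placeOf j).asIdeal :=
  ⟨finrank_layF L j, finrank_layF' L j⟩

/-- **A layer has a uniformizer `ϖ` with `|ϖ|^e = |p|`, `e` the degree over the inertia field, and the
nonzero elements of the inertia field have absolute values `|p|^k`** (`H64FLayer`). The absolute value on
`L` is `c^v`, `v` the valuation of the place (`H54Place`); by `degree_over_inertia_field` `v(p) = e`, and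
on the inertia field the values of `v` are multiples of `e`. -/
theorem exists_layer (L : Type*) [Field L] [NumberField L] [IsGalois ℚ L]
    (j : L →+* PadicAlgCl p) :
    ∃ ϖ : L, ‖j ϖ‖ ^ Module.finrank (layF L j) L = ‖(p : PadicAlgCl p)‖ ∧
      ∀ x ∈ layF L j, x ≠ 0 → ∃ k : ℤ, ‖j x‖ = ‖(p : PadicAlgCl p)‖ ^ k :=
  H64.exists_layer L j

/-- **Elements of the inertia group of a layer lift to `Ip p`** (`H64FLayer2`). -/
theorem inertia_lifts (L : IntermediateField ℚ FQb) [NumberField L] [IsGalois ℚ L]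
    {τ : L ≃ₐ[ℚ] L} (hτ : τ ∈ layI L (jEmb p L)) : ∃ σ ∈ Ip p, ∀ x : L, σ (x : FQb) = τ x :=
  exists_lift_layI L hτ

/-- **The inertia field of `L` consists of the elements of `L` fixed by `Ip p`** (`H64FLayer2`).
`FixI p x`: `x` is fixed by `Ip p`. -/
theorem inertia_field (L : IntermediateField ℚ FQb) [NumberField L] [IsGalois ℚ L] (x : L) :
    x ∈ layF L (jEmb p L) ↔ FixI p (x : FQb) :=
  ⟨fixI_of_mem_layF L, mem_layF_of_fixI L⟩

/-- **No values between** (`H64FDeriv`): if `x` is fixed by inertia, `|x| < 1` implies `|x| ≤ |p|`, and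
`|x| < 1/|p|` implies `|x| ≤ 1`. -/
theorem no_values_between {x : FQb} (hx : FixI p x) :
    (nm p x < 1 → nm p x ≤ nm p (p : FQb)) ∧ (nm p x < (nm p (p : FQb))⁻¹ → nm p x ≤ 1) :=
  ⟨hx.nm_le_p_of_lt, hx.nm_le_one_of_lt⟩

/-! ## 3. The field fixed by `Tm`

`π` is a root of `-p` of order `e`, `e` prime to `p`. `Tm p π` is the stabilizer of `π` in the inertia
group; `FixT p π x`: `x` is fixed by `Tm p π`. -/

/-- **Tame inertia** (`H64FTame`): inertia acts on `π` by all `e`-th roots of unity; more precisely there is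
`t` in the inertia group with `t π = ζ π`, `ζ` a primitive `e`-th root of unity. (If inertia acted by
`d`-th roots of unity only, `π^d` would be fixed by inertia, and `|π|^d` is a power of `|p|` only if
`e ∣ d`.) -/
theorem exists_tame_generator {e : ℕ} (he : 0 < e) (hep : e.Coprime p) {π : FQb}
    (hπ : π ^ e = -(p : FQb)) : ∃ t ∈ Ip p, ∃ ζ : FQb, IsPrimitiveRoot ζ e ∧ t π = ζ * π :=
  exists_tame_gen he hep hπ

/-- **Inertia is generated by `t` and `Tm`** (`H64FTame`): `Tm` is normalized by `t`, `t^e ∈ Tm`, and every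
element of inertia is `t^n τ` with `n < e`, `τ ∈ Tm`. -/
theorem inertia_from_Tm {e : ℕ} (he : 0 < e) (hep : e.Coprime p) {π : FQb}
    (hπ : π ^ e = -(p : FQb)) {t : FGQ} (ht : t ∈ Ip p) {ζ : FQb} (hζ : IsPrimitiveRoot ζ e)
    (htπ : t π = ζ * π) :
    (∀ σ ∈ Tm p π, ∀ n : ℕ, (t ^ n)⁻¹ * σ * t ^ n ∈ Tm p π) ∧ t ^ e ∈ Tm p π ∧
      ∀ σ ∈ Ip p, ∃ n : ℕ, n < e ∧ ∃ τ ∈ Tm p π, σ = t ^ n * τ :=
  ⟨fun _ hσ n => conj_mem_Tm he hep ht hζ htπ hσ n, pow_e_mem_Tm he hep ht hζ htπ,
    fun _ hσ => exists_pow_mul_Tm he hep hπ ht hζ htπ hσ⟩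

/-- **Expansions of the elements fixed by `Tm`** (`H64FTame`): such an `x` is `∑ f_i π^i`, `i < e`, with
coefficients fixed by inertia; they lie in every layer which contains `π` and `x`. (The term `f_i π^i` is
the projection of `x` to the eigenspace of `t` with eigenvalue `ζ^i`.) -/
theorem expansion {e : ℕ} (he : 0 < e) (hep : e.Coprime p) {π : FQb} (hπ : π ^ e = -(p : FQb))
    {t : FGQ} (ht : t ∈ Ip p) {ζ : FQb} (hζ : IsPrimitiveRoot ζ e) (htπ : t π = ζ * π) {x : FQb}
    (hx : FixT p π x) :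
    ∃ f : Fin e → FQb, (∀ i, FixI p (f i)) ∧ x = ∑ i, f i * π ^ (i : ℕ) ∧
      ∀ L : IntermediateField ℚ FQb, IsGalois ℚ L → π ∈ L → x ∈ L → ∀ i, f i ∈ L :=
  hx.exists_expansion he hep hπ ht hζ htπ

/-- **The value group of the field fixed by `Tm` is `|π|^ℤ`** (`H64FTame`). -/
theorem value_group_Tm {e : ℕ} (he : 0 < e) (hep : e.Coprime p) {π : FQb}
    (hπ : π ^ e = -(p : FQb)) {t : FGQ} (ht : t ∈ Ip p) {ζ : FQb} (hζ : IsPrimitiveRoot ζ e)
    (htπ : t π = ζ * π) {x : FQb} (hx : FixT p π x) (hx0 : x ≠ 0) :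
    ∃ k : ℤ, nm p x = nm p π ^ k :=
  hx.exists_zpow he hep hπ ht hζ htπ hx0

/-- **Tame characters** (`H64FCore`): `th p z σ` is the residue of the unit `σ z / z`. On the inertia group it
depends only on `|z|`; it is multiplicative in `z`; and if `|z|^(p-1) = |p|`, as for `z = ζ - 1`, `ζ` a
primitive `p`-th root of unity, it is the cyclotomic character, since
`(ζ^m - 1)/(ζ - 1) = 1 + ζ + ... + ζ^(m-1) ≡ m`. (`th p z σ` is `theta z σ` in `GuideLevelTwo`; see also
`GuideTWCondition`.) -/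
theorem tame_characters {z w : FQb} (hz : z ≠ 0) (hw : w ≠ 0) {σ : FGQ} (hσ : σ ∈ Ip p) :
    (nm p z = nm p w → th p z σ = th p w σ) ∧ th p (z * w) σ = th p z σ * th p w σ ∧
      (nm p z ^ (p - 1) = nm p (p : FQb) → th p z σ = ((cycloChar p σ : ZMod p).val : Kap p)) :=
  ⟨fun h => th_congr hz h hσ, th_mul_elem hz hw (Ip_le_Dp hσ), fun h => th_cyclo h hσ⟩

/-- **Roots of unity of order `p`** (`H64FRoot`): if `ζ^p = 1`, `ζ ≠ 1`, then `|ζ - 1|^(p-1) = |p|`. Hence a
number `α` nearer to `1` than that is the only `p`-th root of `α^p` so near to `1`, and is fixed by every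
element of the decomposition group which fixes `α^p`. -/
theorem roots_of_unity_and_roots :
    (∀ ζ : FQb, ζ ^ p = 1 → ζ ≠ 1 → nm p (ζ - 1) ^ (p - 1) = nm p (p : FQb)) ∧
      ∀ α : FQb, nm p (α - 1) ^ (p - 1) < nm p (p : FQb) → ∀ σ ∈ Dp p, σ (α ^ p) = α ^ p →
        σ α = α :=
  ⟨fun _ h1 h2 => nm_zeta_sub_one h1 h2, fun _ h _ hσ h' => root_near_one_fixed h hσ h'⟩

/-! ## 4. The derivation `d/dϖ`

`BL p L` is the ring of the elements of `L` with `|x| ≤ 1`, `OL p L` the subring of those fixed by inertia;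
`ev L ϖ P` is the value at `ϖ` of a polynomial `P` with coefficients in `OL p L`; `Ud p L δ hδ` is the
module of the `x ∈ ℚ̄` with `|x| ≤ δ`. The hypothesis `hexp` is the conclusion of
`GuideFlatBound.exists_uniformizer`. -/

/-- **The elements of `BL p L` are polynomials in `ϖ`** of degree `< N` with coefficients in `OL p L`
(`H64FDeriv`; no cancellation). -/
theorem exists_polynomial {L : IntermediateField ℚ FQb} {N : ℕ} (hN : 0 < N) {ϖ : FQb}
    (hϖ : nm p ϖ ^ N = nm p (p : FQb))
    (hexp : ∀ x ∈ L, ∃ f : Fin N → FQb, (∀ i, f i ∈ L ∧ FixI p (f i)) ∧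
      x = ∑ i, f i * ϖ ^ (i : ℕ)) {b : FQb} (hb : b ∈ BL p L) :
    ∃ P : (OL p L)[X], P.natDegree < N ∧ ev L ϖ P = b :=
  exists_poly hN hϖ hexp hb

/-- **The Eisenstein polynomial** `g` of `ϖ` (`H64FDeriv`): monic of degree `N`, `g(ϖ) = 0`, and the other
coefficients have absolute value `< 1`. -/
theorem exists_eisenstein {L : IntermediateField ℚ FQb} {N : ℕ} (hN : 0 < N) {ϖ : FQb}
    (hϖL : ϖ ∈ L) (hϖ : nm p ϖ ^ N = nm p (p : FQb))
    (hexp : ∀ x ∈ L, ∃ f : Fin N → FQb, (∀ i, f i ∈ L ∧ FixI p (f i)) ∧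
      x = ∑ i, f i * ϖ ^ (i : ℕ)) :
    ∃ g : (OL p L)[X], g.Monic ∧ g.natDegree = N ∧ ev L ϖ g = 0 ∧
      ∀ i < N, nm p (g.coeff i : FQb) < 1 :=
  H64.exists_eisenstein hN hϖL hϖ hexp

/-- **It divides every polynomial vanishing at `ϖ`** (`H64FDeriv`). Hence `P'(ϖ)` is determined by `P(ϖ)` up
to multiples of `g'(ϖ)`. -/
theorem divisible_by_eisenstein {L : IntermediateField ℚ FQb} {N : ℕ} (hN : 0 < N) {ϖ : FQb}
    (hϖ : nm p ϖ ^ N = nm p (p : FQb)) (hϖB : ϖ ∈ BL p L) {g : (OL p L)[X]} (hg : g.Monic)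
    (hgN : g.natDegree = N) (hgev : ev L ϖ g = 0) :
    (∀ P : (OL p L)[X], ev L ϖ P = 0 → ∃ q, P = g * q) ∧
      ∀ P Q : (OL p L)[X], ev L ϖ P = ev L ϖ Q →
        nm p (ev L ϖ (derivative P) - ev L ϖ (derivative Q)) ≤ nm p (ev L ϖ (derivative g)) :=
  ⟨fun _ h => exists_eq_mul_of_ev hN hϖ hg hgN hgev h,
    fun _ _ h => nm_derivative_sub_le hN hϖ hϖB hg hgN hgev h⟩

/-- **The derivation `d/dϖ`** from `BL p L` to `ℚ̄` modulo the `x` with `|x| ≤ |g'(ϖ)|` (`H64FDeriv`): its
value at `P(ϖ)` is the class of `P'(ϖ)`. -/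
theorem derivation_spec {L : IntermediateField ℚ FQb} {N : ℕ} (hN : 0 < N) {ϖ : FQb}
    (hϖ : nm p ϖ ^ N = nm p (p : FQb))
    (hexp : ∀ x ∈ L, ∃ f : Fin N → FQb, (∀ i, f i ∈ L ∧ FixI p (f i)) ∧
      x = ∑ i, f i * ϖ ^ (i : ℕ)) (hϖB : ϖ ∈ BL p L) {g : (OL p L)[X]} (hg : g.Monic)
    (hgN : g.natDegree = N) (hgev : ev L ϖ g = 0) {b : BL p L} {P : (OL p L)[X]}
    (hP : ev L ϖ P = b) :
    derivϖ hN hϖ hexp hϖB hg hgN hgev b = Submodule.Quotient.mk (ev L ϖ (derivative P)) :=
  derivϖ_spec hN hϖ hexp hϖB hg hgN hgev hP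

/-- **The derivative of `π`** (`H64FDeriv`). Let `π^e = -p` with `e > 1` prime to `p`, and `π = P(ϖ)`. Then
`|P'(ϖ)| |π|^(e-1) = |g'(ϖ)|`. (Differentiate `P^e + p = g q`; the value `q(ϖ)` is a unit, as one sees
by reducing the polynomials: `P ≡ X^d R`, `g ≡ X^N`, `N = d e`, hence `q ≡ R^e`, and `R(0) ≠ 0`.) -/
theorem derivative_of_pi {L : IntermediateField ℚ FQb} {N : ℕ} (hN : 0 < N) {ϖ : FQb}
    (hϖ : nm p ϖ ^ N = nm p (p : FQb)) (hϖB : ϖ ∈ BL p L) {g : (OL p L)[X]} (hg : g.Monic)
    (hgN : g.natDegree = N) (hgev : ev L ϖ g = 0)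
    (hglt : ∀ i < N, nm p (g.coeff i : FQb) < 1) {e : ℕ} (he : 1 < e) (hep : e.Coprime p)
    {π : FQb} (hπ : π ^ e = -(p : FQb)) {P : (OL p L)[X]} (hPN : P.natDegree < N)
    (hP : ev L ϖ P = π) :
    nm p (ev L ϖ (derivative P)) * nm p π ^ (e - 1) = nm p (ev L ϖ (derivative g)) :=
  nm_derivative_pi hN hϖ hϖB hg hgN hgev hglt he hep hπ hPN hP

/-- **A layer with its derivation** (`H64FK4`). Given finitely many numbers there are a Galois extension `L`
of `ℚ` which contains them and `π`, and a derivation `D` on `BL p L` which vanishes on the elements fixed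
by inertia, such that `c D(π) = 0` exactly if `|c| ≤ |π|^(e-1)` (this is what the last two conditions
say). Applied to the coordinates of a group scheme in `GuideFlatBound.derivation_argument`. -/
theorem exists_layer_derivation (S : Set FQb) (hS : S.Finite) {e : ℕ} (he : 1 < e)
    (hep : e.Coprime p) {π : FQb} (hπ : π ^ e = -(p : FQb)) :
    ∃ (L : IntermediateField ℚ FQb) (δ : ℝ) (hδ : 0 < δ)
      (D : Derivation ℤ (BL p L) (FQb ⧸ Ud p L δ hδ)) (u : FQb) (hπB : π ∈ BL p L),
      IsGalois ℚ L ∧ S ⊆ L ∧ (∀ b : BL p L, FixI p (b : FQb) → D b = 0) ∧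
      D ⟨π, hπB⟩ = Submodule.Quotient.mk u ∧ nm p u * nm p π ^ (e - 1) = δ :=
  H64.exists_layer_derivation S hS he hep hπ

/-! ## 5. Coordinates of group schemes

`FData p act n e a`: coordinates `e_i` with structure constants `a_ijk`, see `GuideFlatBound.fdata_iff`;
`tm e a z`: the matrix `∑_k a_ijk e_k(z)`, which describes the translation by `z`. For the points near the
origin see `GuideFlatBound`, section 3, and `GuideFlatOrdinary` (`H64FConn`, `H64FQuot`). -/

section Coordinates

variable {W : Type*} [AddCommGroup W] {act : FGQ → W → W} {n : ℕ} {e : Fin n → W → FQb}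
  {a : Fin n → Fin n → Fin n → ℚ}

/-- **First consequences of the axioms** (`H64FTors`): the coordinates separate the points, the structure
constants are symmetric (the group is commutative), and the Galois group acts by automorphisms. -/
theorem coordinates_first (h : FData p act n e a) :
    (∀ x y : W, (∀ i, e i x = e i y) → x = y) ∧ (∀ i j k, a i j k = a i k j) ∧
      ∀ (σ : FGQ) (x y : W), act σ (x + y) = act σ x + act σ y :=
  ⟨fun _ _ => h.ext, h.symm, h.act_add⟩

/-- **Translation matrices** (`H64FTors`): `e_i(y + z) = ∑_j tm(z)_ij e_j(y)`; `tm(z + w) = tm(z) tm(w)`,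
`tm(0) = 1`. -/
theorem translation_matrices (h : FData p act n e a) (z w : W) :
    (∀ i (y : W), e i (y + z) = ∑ j, tm e a z i j * e j y) ∧
      tm e a (z + w) = tm e a z * tm e a w ∧ tm e a 0 = 1 :=
  ⟨fun i y => h.tm_spec i y z, h.tm_add z w, h.tm_zero⟩

/-- **The coefficients of a character are integral** (`H64FK2`, first step of the unit lemma): every
character `ψ` of `W` is of the form `∑ c_i e_i` with `|c_i| ≤ 1`. (From `c_j c_k = ∑ c_i a_ijk`: take the
largest `|c_j|`.) -/
theorem character_coefficients (h : FData p act n e a) (ψ : AddChar W FQb) :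
    ∃ c : Fin n → FQb, (∀ x, ψ x = ∑ i, c i * e i x) ∧ ∀ i, nm p (c i) ≤ 1 :=
  h.exists_coeff_addChar ψ

/-- **Lattices of equivariant functions** (`H64FK2`, second step). `G'` a subgroup of the Galois group,
`OG p G'` the ring of the `x` with `|x| ≤ 1` fixed by `G'`; `f_1, ..., f_n` functions on a set such that
for `σ ∈ G'` every value vector is `σ` of another value vector. The `OG`-module generated by the `f_i`
has a basis which is linearly independent over `ℚ̄`. (A minimal generating system: a linear relation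
with the smallest number of terms has, after division by one coefficient, coefficients fixed by `G'`,
and one solves it for the largest one.) -/
theorem lattice_basis (G' : Subgroup FGQ) {X : Type*} {n : ℕ} (f : Fin n → X → FQb)
    (heq : ∀ σ ∈ G', ∀ x, ∃ x', ∀ i, f i x = σ (f i x')) :
    ∃ (r : ℕ) (b : Fin r → X → FQb),
      Submodule.span (OG p G') (Set.range b) = Submodule.span (OG p G') (Set.range f) ∧
      ∀ g : Fin r → FQb, (∀ x, ∑ i, g i * b i x = 0) → g = 0 :=
  exists_lattice_basis G' f heq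

end Coordinates

/-! ## 6. Residues of Kummer classes

Now `π^(p² - 1) = -p`, `t` in the inertia group, `t π = ζ π`, `ζ` a primitive root of unity of order
`p² - 1`. `x` is a function on the Galois group with values in a field `k` of characteristic `p` (in the
application: a homomorphism on `Tm`), `ψ` an additive character of `k` with values in `ℚ̄`. -/

section Levels

variable {k : Type*} [Field k]

/-- **Residue at the level `n`** (`H64FLev`): `Res p π x n ψ m` means that the Kummer class `ψ ∘ x` on `Tm` is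
given by some `α` with `|α^p - 1| ≤ |π|^n`, and `m` is the residue of `(α^p - 1)/π^n`. -/
theorem res_iff (π : FQb) (x : FGQ → k) (n : ℕ) (ψ : AddChar k FQb) (m : Kap p) :
    Res p π x n ψ m ↔ ∃ α : FQb, (∀ σ ∈ Tm p π, σ α = ψ (x σ) * α) ∧
      nm p (α ^ p - 1) ≤ nm p π ^ n ∧ rs ((α ^ p - 1) / π ^ n) = m :=
  Iff.rfl

/-- **`p`-th powers in the field fixed by `Tm`** (`H64FLev`): let `p² - 1 ≤ n < p² + p`, `n ≠ p²`. If
`u ∈ ℚ̄` is fixed by `Tm` and `|u^p - 1| ≤ |π|^n`, then `|u^p - 1| < |π|^n`. (For `u = 1 + y`, `|y| = |π|^s`,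
one has `|u^p - 1| = |π|^(ps)` if `s ≤ p`, and `|u^p - 1| ≤ |π|^(p² + p)` if `s ≥ p + 1`.) -/
theorem pth_powers_of_Tm {π : FQb} (hπ : π ^ (p ^ 2 - 1) = -(p : FQb)) {t : FGQ} (ht : t ∈ Ip p)
    {ζ : FQb} (hζ : IsPrimitiveRoot ζ (p ^ 2 - 1)) (htπ : t π = ζ * π) {u : FQb}
    (hu : FixT p π u) {n : ℕ} (hn1 : p ^ 2 - 1 ≤ n) (hn2 : n < p ^ 2 + p) (hn3 : n ≠ p ^ 2)
    (h : nm p (u ^ p - 1) ≤ nm p π ^ n) : nm p (u ^ p - 1) < nm p π ^ n :=
  good_unit hπ ht hζ htπ hu hn1 hn2 hn3 h

/-- **So at these levels the residue is unique** (`H64FLev`). -/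
theorem res_unique {π : FQb} (hπ : π ^ (p ^ 2 - 1) = -(p : FQb)) {x : FGQ → k} {t : FGQ}
    (ht : t ∈ Ip p) {ζ : FQb} (hζ : IsPrimitiveRoot ζ (p ^ 2 - 1)) (htπ : t π = ζ * π) {n : ℕ}
    (hn1 : p ^ 2 - 1 ≤ n) (hn2 : n < p ^ 2 + p) (hn3 : n ≠ p ^ 2) {ψ : AddChar k FQb}
    {m m' : Kap p} (h : Res p π x n ψ m) (h' : Res p π x n ψ m') : m = m' :=
  Res.unique hπ ht hζ htπ hn1 hn2 hn3 h h'

/-- **The residue is additive** in the character and in the class (`H64FLev`). -/
theorem res_add {π : FQb} (hπ : π ^ (p ^ 2 - 1) = -(p : FQb)) {x x' x'' : FGQ → k} {n : ℕ}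
    (hn : 0 < n) {ψ ψ' ψ'' : AddChar k FQb} {m m' : Kap p} (h : Res p π x n ψ m)
    (h' : Res p π x' n ψ' m') (hx : ∀ σ ∈ Tm p π, ψ'' (x'' σ) = ψ (x σ) * ψ' (x' σ)) :
    Res p π x'' n ψ'' (m + m') :=
  Res.mul hπ hn h h' hx

/-- **The action of the decomposition group on residues** (`H64FLev`): conjugation by `g`, which acts on
residues of numbers by `G`, sends the residue `m` at the level `n` to `G(m)` times the `n`-th power of
the residue of `g π / π`. -/
theorem res_conj {π : FQb} (hπ : π ^ (p ^ 2 - 1) = -(p : FQb)) {x x'' : FGQ → k} {n : ℕ}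
    {ψ ψ'' : AddChar k FQb} {m : Kap p} (h : Res p π x n ψ m) {g : FGQ} (hg : g ∈ Dp p)
    (G : Kap p → Kap p) (hG : ∀ y, nm p y ≤ 1 → rs (g y) = G (rs y))
    (hconj : ∀ σ ∈ Tm p π, g⁻¹ * σ * g ∈ Tm p π)
    (hx : ∀ σ ∈ Tm p π, ψ'' (x'' σ) = g (ψ (x (g⁻¹ * σ * g)))) :
    Res p π x'' n ψ'' (G m * th p π g ^ n) :=
  Res.conj hπ h hg G hG hconj hx

/-- **The case of `t`** (`H64FCount`): if `x(t σ t⁻¹) = v x(σ)` on `Tm` and `u v = χ_p(t)`, then replacing
`ψ` by `ψ(u ·)` multiplies the residue at the level `n` by the `n`-th power of the residue of `ζ`. (`v` is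
not zero, since `u v = χ_p(t)`.) -/
theorem res_shift {π : FQb} (hπ : π ^ (p ^ 2 - 1) = -(p : FQb)) [CharP k p] {t : FGQ}
    (ht : t ∈ Ip p) {ζ : FQb} (hζ : IsPrimitiveRoot ζ (p ^ 2 - 1)) (htπ : t π = ζ * π)
    {x : FGQ → k} {n : ℕ} {ψ : AddChar k FQb} {m : Kap p} (h : Res p π x n ψ m) {u v : k}
    (huv : u * v = ((cycloChar p t : ZMod p).val : k))
    (hx : ∀ σ ∈ Tm p π, x (t * σ * t⁻¹) = v * x σ) :
    Res p π x n (ψ.mulShift u) (m * rs ζ ^ n) :=
  h.shift hπ ht hζ htπ huv hx

/-- **Most residues vanish** (`H64FCount`): if moreover `u^j` is the image of a natural number `N` and the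
residue of `ζ^(nj)` is different from `N`, then `m = 0`: by `j` shifts and by additivity the residue for
`ψ(N ·)` is `ζ^(nj) m` and `N m`, and it is unique at the levels considered here. -/
theorem res_kill {π : FQb} (hπ : π ^ (p ^ 2 - 1) = -(p : FQb)) [CharP k p] {t : FGQ}
    (ht : t ∈ Ip p) {ζ : FQb} (hζ : IsPrimitiveRoot ζ (p ^ 2 - 1)) (htπ : t π = ζ * π)
    {x : FGQ → k} {n : ℕ} (hn1 : p ^ 2 - 1 ≤ n) (hn2 : n < p ^ 2 + p) (hn3 : n ≠ p ^ 2)
    {ψ : AddChar k FQb} {m : Kap p} (h : Res p π x n ψ m) {u v : k}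
    (huv : u * v = ((cycloChar p t : ZMod p).val : k))
    (hx : ∀ σ ∈ Tm p π, x (t * σ * t⁻¹) = v * x σ) {j N : ℕ} (hjN : u ^ j = (N : k))
    (hne : (rs (p := p) ζ ^ n) ^ j ≠ (N : Kap p)) : m = 0 :=
  h.kill hπ ht hζ htπ hn1 hn2 hn3 huv hx hjN hne

/-- **The first level** (`H64FCount`): at the level `p² - 1` the factor `ζ^(p² - 1)` is `1`. If `u ≠ 1` and
residues at this level exist for all characters, they vanish: `ψ = ψ'(u ·) ψ'(·)⁻¹` for some `ψ'`. -/
theorem res_kill_first {π : FQb} (hπ : π ^ (p ^ 2 - 1) = -(p : FQb)) [CharP k p] {t : FGQ}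
    (ht : t ∈ Ip p) {ζ : FQb} (hζ : IsPrimitiveRoot ζ (p ^ 2 - 1)) (htπ : t π = ζ * π)
    {x : FGQ → k} (hp2 : 2 < p) {u v : k} (huv : u * v = ((cycloChar p t : ZMod p).val : k))
    (hx : ∀ σ ∈ Tm p π, x (t * σ * t⁻¹) = v * x σ) (hu : u ≠ 1)
    (hex : ∀ ψ : AddChar k FQb, ∃ m, Res p π x (p ^ 2 - 1) ψ m)
    {ψ : AddChar k FQb} {m : Kap p} (h : Res p π x (p ^ 2 - 1) ψ m) : m = 0 :=
  Res.kill0 hπ ht hζ htπ hp2 huv hx hu hex h

/-- **The chain** (`H64FCount`): if the class has a residue at the level `n₀` and all residues at the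
levels `n₀ ≤ n < p² + p` vanish, then the class is trivial: raise the level (`GuideFlatBound.res_raise`)
to `p² + p`, remove the residue there, and use that beyond `p² + p` classes are trivial. -/
theorem chain {π : FQb} (hπ : π ^ (p ^ 2 - 1) = -(p : FQb)) [CharP k p] {t : FGQ} (ht : t ∈ Ip p)
    {ζ : FQb} (hζ : IsPrimitiveRoot ζ (p ^ 2 - 1)) (htπ : t π = ζ * π) {x : FGQ → k} {n₀ : ℕ}
    {ψ : AddChar k FQb} (h : ∃ m, Res p π x n₀ ψ m) (hn₀ : n₀ ≤ p ^ 2 + p)
    (hkill : ∀ n, n₀ ≤ n → n < p ^ 2 + p → ∀ m, Res p π x n ψ m → m = 0) :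
    ∀ σ ∈ Tm p π, ψ (x σ) = 1 :=
  res_chain hπ ht hζ htπ h hn₀ hkill

/-! ## 7. The count -/

/-- **The cyclotomic character at `t`** is the residue of `ζ^(p+1)`, since `π^(p+1)` has the absolute value
of `ζ_p - 1` (`H64FCount`); the residue of `ζ` is again a primitive root of unity. -/
theorem cyclotomic_at_t {π : FQb} (hπ : π ^ (p ^ 2 - 1) = -(p : FQb)) {t : FGQ} (ht : t ∈ Ip p)
    {ζ : FQb} (hζ : IsPrimitiveRoot ζ (p ^ 2 - 1)) (htπ : t π = ζ * π) :
    (((cycloChar p t : ZMod p).val : ℕ) : Kap p) = rs ζ ^ (p + 1) ∧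
      IsPrimitiveRoot (rs (p := p) ζ) (p ^ 2 - 1) :=
  ⟨cyclo_t hπ ht hζ htπ, rs_zeta_primitive hζ⟩

/-- **The homomorphisms to be counted** (`H64FCount`): `KumT p π x` says that `x` is a homomorphism on `Tm`
and that every class `ψ ∘ x` is given by some `α` with `|α^p - 1| ≤ |p|`; by definition such a class has
a residue at the level `p² - 1`. -/
theorem kumT_iff {π : FQb} (hπ : π ^ (p ^ 2 - 1) = -(p : FQb)) [CharP k p] (x : FGQ → k) :
    (KumT p π x ↔ (∀ σ ∈ Tm p π, ∀ τ ∈ Tm p π, x (σ * τ) = x σ + x τ) ∧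
      ∀ ψ : AddChar k FQb, ∃ α : FQb, nm p (α ^ p - 1) ≤ nm p (p : FQb) ∧
        ∀ σ ∈ Tm p π, σ α = ψ (x σ) * α) ∧
      (KumT p π x → ∀ ψ, ∃ m, Res p π x (p ^ 2 - 1) ψ m) :=
  ⟨Iff.rfl, fun h ψ => h.res hπ ψ⟩

/-- **Invariant homomorphisms vanish** (`H64FCount`): if `x` is `KumT` and `x(t σ t⁻¹) = x(σ)`, then `x = 0`
on `Tm`. Here `v = 1`, `u = χ_p(t)`; at the level `p²` the residue can be removed, and at the other levels
it vanishes unless `n ≡ p + 1` modulo `p² - 1`, i.e. `n = p² + p`; then use `chain`. This gives the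
hypothesis `hL1` of `GuideFlatBound.local_bound_of_counts`. -/
theorem invariant_eq_zero {π : FQb} (hπ : π ^ (p ^ 2 - 1) = -(p : FQb)) [CharP k p] {t : FGQ}
    (ht : t ∈ Ip p) {ζ : FQb} (hζ : IsPrimitiveRoot ζ (p ^ 2 - 1)) (htπ : t π = ζ * π)
    {x : FGQ → k} (hp2 : 2 < p) (h : KumT p π x)
    (hx : ∀ σ ∈ Tm p π, x (t * σ * t⁻¹) = x σ) : ∀ σ ∈ Tm p π, x σ = 0 :=
  h.eq_zero hπ ht hζ htπ hp2 hx

end Levels

/-- **Counting semilinear maps** (`H20SemiCount`), the last step of `GuideFlatBound.count_case_two`: `ρ(a)` is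
the residue for `ψ(a ·)` at the level `p² + 1`. Let `k` and `κ` be fields of characteristic `p`, `k`
finite, `c ∈ k`, `z, w ∈ κ` with `z^p ≠ z`. The additive maps `ρ : k → κ` with `ρ(c a) = z ρ(a)` and
`ρ(a)^(p²) = w ρ(a)` are finite in number, at most `#k`. -/
theorem semilinear_count {k κ : Type*} [Field k] [Finite k] [CharP k p] [Field κ] [CharP κ p]
    (c : k) (z w : κ) (hz : z ^ p ≠ z) (S : Set (k → κ))
    (h1 : ∀ ρ ∈ S, ∀ a b, ρ (a + b) = ρ a + ρ b) (h2 : ∀ ρ ∈ S, ∀ a, ρ (c * a) = z * ρ a)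
    (h3 : ∀ ρ ∈ S, ∀ a, ρ a ^ (p ^ 2) = w * ρ a) : S.Finite ∧ S.ncard ≤ Nat.card k :=
  H20SC.card_semilinear_le p c z w hz S h1 h2 h3

end Fermat.Agent.Guide.Layers
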