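import Fermat.Agent.H55Fin
import Fermat.Agent.H55GlobFin

/-!
# Guide to the proof: level cohomology (companion of GuidePoitouTate, for S55)

This file is a machine-checked table of contents. Every theorem below is a citation of a theorem of
the library, with its statement written out. Nothing imports this file.

**What it does.** `GuidePoitouTate` cites four formal results about the cohomology of a group `G` with a
family of "open" subgroups (`Levels G`): Shapiro's lemma, Euler characteristics, right exactness of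
`H^2`, duality with the module `μ`. Here are the steps of their proofs. Everything is done with
inhomogeneous cochains which are constant on the cosets of an open subgroup; there are no resolutions,
no `H^3`, no spectral sequences and no topology; cup products are used only for `H^1 × H^1` (not here).

**The steps.**
 1. Functoriality in the group and the coefficients; inner automorphisms act trivially; the long exact
    sequence.
 2. Shapiro's lemma for the functions on a finite `G`-set `Ω`, with values in a module: the cohomology is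
    the product, over the orbits, of the cohomologies of the stabilisers. Two explicit homotopies.
 3. A second group `H` (a local Galois group) with a homomorphism `f : H → G`: the set `G / U` need not be
    one orbit of `H`. Its orbits are the places of the field fixed by `U`, the stabilisers the decomposition
    groups. This gives the dimensions of the local groups for the induced modules, and `Sha^2`.
 4. If `G/N` is a `p`-group, all finite `F_p`-modules with trivial action of `N` are successive extensions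
    of `F_p`. If the Euler characteristic of `F_p` is multiplicative from `G` to `N`, then it is additive on
    all these modules, so `H^2` is right exact; a Sylow subgroup and transfer give the general case.
 5. A right exact functor `F` with `dim F(Fun(G/U, F_p)) = 1` for all small `U` and `F(μ) ≠ 0` is dual to
    `M ↦ Hom_G(M, μ)`. This replaces the cup product in the dualities between `H^2` and `H^0`.
 6. The comparison with the frozen statement S55: the real place imposes no condition, and a perfect pairing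
    exists because the dimensions are equal.

**Notation.** `H1 𝓛 ρ`, `H2 𝓛 ρ`: the cohomology of `G` with levels `𝓛` and coefficients in the
representation `ρ` over `k`; `𝓛.onSub U` the levels of the subgroup `U`; `funRep Ω ρ` the functions on
the `G`-set `Ω` with values in `ρ`; `Equivar ρA ρB φ`: the linear map `φ` is equivariant; `H2c 𝓛 hφ` the
map of `H^2` induced by an equivariant map; `chi2 = h^0 - h^1 + h^2`, `Fin2`: these three are finite;
`SES 𝓛 ρA ρB ρC`: a short exact sequence of smooth modules; `Smooth`: every element is fixed by an open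
subgroup.

**See also.** `GuideLevelSequences` (locally constant cochains and the long exact sequence of section 1b,
step by step); `GuideFourier` (the Fourier argument, `GuidePoitouTate.fourier`, step by step);
`GuideLocalGlobal` and `GuideDecomposition` (places and decomposition groups); for the arithmetic:
`GuideEulerChar`.

**Where.** NOTES.md, Appendix A.10: [206], [263]; for section 6 also A.12: [253]. In the proof terms of S55
and S56, and of S01, S03, S04, S06, S38, S43, S45, S46, S50, S59, S60 (all through the inequality of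
Greenberg and Wiles, `GuideEulerChar.greenberg_wiles`; S56 itself is not used for them); in section 6 this is
so only for `unramified_levels`, the other theorems are only in the one of S55.
Authors: helper55 (files `H55*`); section 1b (the long exact sequence, files `H92Lev*`): helper92; section 6
(files `H73F6*`): helper73.
-/

set_option autoImplicit false
set_option maxSynthPendingDepth 3

namespace Fermat.Agent.Guide.LevelCohomology

open Module Fermat.Agent Fermat.Agent.H55

/-! ## 1. Functoriality -/

/-- **Change of the group and of the coefficients** (`H55Level`, `H55Funct`). A homomorphism `f : H → G`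
under which the preimages of open subgroups are open (`Levels.Cont`), and a linear map `φ : A → B` with
`φ(f(h) a) = h φ(a)`, induce maps `H1map`, `H2map` of `H^1` and `H^2` (the class of `z` goes to the class
of `h ↦ φ(z(f(h)))`); they are compatible with composition. -/
theorem functoriality {k G H K A B C : Type} [CommRing k] [Group G] [Group H] [Group K]
    [AddCommGroup A] [Module k A] [AddCommGroup B] [Module k B] [AddCommGroup C] [Module k C]
    {𝓛 : Levels G} {𝓜 : Levels H} {𝓚 : Levels K} {ρA : Representation k G A}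
    {ρB : Representation k H B} {ρC : Representation k K C} {f : H →* G}
    {hf : Levels.Cont 𝓜 𝓛 f} {φ : A →ₗ[k] B} {hφ : ∀ h a, φ (ρA (f h) a) = ρB h (φ a)}
    {g : K →* H} {hg : Levels.Cont 𝓚 𝓜 g} {ψ : B →ₗ[k] C}
    {hψ : ∀ h b, ψ (ρB (g h) b) = ρC h (ψ b)} :
    (∀ x : H1 𝓛 ρA, H1map hg hψ (H1map hf hφ x) = H1map (f := f.comp g) (φ := ψ ∘ₗ φ) (ρB := ρC)
      (hf.comp hg) (fun h a => by simp [← hψ, ← hφ]) x) ∧
    ∀ x : H2 𝓛 ρA, H2map hg hψ (H2map hf hφ x) = H2map (f := f.comp g) (φ := ψ ∘ₗ φ) (ρB := ρC)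
      (hf.comp hg) (fun h a => by simp [← hψ, ← hφ]) x :=
  ⟨fun x => H1map_comp x, fun x => H2map_comp x⟩

/-- **Additivity in the coefficients** (`H55Funct`). -/
theorem additivity {k G A B : Type} [CommRing k] [Group G] [AddCommGroup A] [Module k A]
    [AddCommGroup B] [Module k B] {𝓛 : Levels G} {ρA : Representation k G A}
    {ρB : Representation k G B} {φ ψ : A →ₗ[k] B} (hφ : Equivar ρA ρB φ) (hψ : Equivar ρA ρB ψ)
    (x : H2 𝓛 ρA) : H2c 𝓛 (hφ.add hψ) x = H2c 𝓛 hφ x + H2c 𝓛 hψ x :=
  H2c_add hφ hψ x

/-- **Inner automorphisms act trivially** (`H55ShapiroA`): for `g ∈ G` the map of `H^2` induced by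
`h ↦ g⁻¹ h g` on the group and `a ↦ g a` on the coefficients is the identity. (The cochain
`h ↦ z(g, g⁻¹ h g) - z(h, g)` has the difference of the two cocycles as its coboundary.) -/
theorem inner_automorphisms {k G A : Type} [CommRing k] [Group G] [AddCommGroup A] [Module k A]
    {𝓛 : Levels G} {ρ : Representation k G A} (g : G) (x : H2 𝓛 ρ) :
    H2map (ρB := ρ) (φ := ρ g) (cont_conj 𝓛 g) (conj_equivar ρ g) x = x :=
  H2map_conj g x

/-! ## 1b. The long exact sequence

In `H92LevBasic`, `H92LevLES` and `H92LevNat` the levels are a basis of neighbourhoods of the identity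
(`H91.LevelFam`) instead of the set of all open subgroups; `toFam 𝓛` is the family of all open subgroups of
`𝓛`, and `e1`, `e2` identify `H92.LH1`, `H92.LH2` with `H1`, `H2` (`H55LES`). For
`E : H92.SES 𝓥 ρA ρB ρC` the maps on the cohomology are `E.fP.H0` (`H^0(A) → H^0(B)`), `E.gP.H0`,
and so on. -/

/-- **The two versions of level cohomology agree** (`H55LES`): same cocycles, isomorphic groups. -/
theorem level_families {k G A : Type} [CommRing k] [Group G] [AddCommGroup A] [Module k A]
    (𝓛 : Levels G) (ρ : Representation k G A) :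
    (∀ U : Subgroup G, U ∈ (toFam 𝓛).carrier ↔ 𝓛.op U) ∧ H92.Z1 (toFam 𝓛) ρ = Z1 𝓛 ρ ∧
      H92.Z2 (toFam 𝓛) ρ = Z2 𝓛 ρ ∧ Nonempty (H92.LH1 (toFam 𝓛) ρ ≃ₗ[k] H1 𝓛 ρ) ∧
      Nonempty (H92.LH2 (toFam 𝓛) ρ ≃ₗ[k] H2 𝓛 ρ) :=
  ⟨fun _ => Iff.rfl, Z1_toFam 𝓛 ρ, Z2_toFam 𝓛 ρ, ⟨e1 𝓛 ρ⟩, ⟨e2 𝓛 ρ⟩⟩

/-- **The long exact sequence** (`H92LevLES`) of a short exact sequence `0 → A → B → C → 0`, `B` smooth,
in degrees 0, 1, 2; `E.δ0`, `E.δ1` are the connecting maps. Only cochains are used: a locally constant
function with values in `C` has a locally constant lift to `B` (compose it with a section). -/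
theorem long_exact_sequence {k G A B C : Type} [CommRing k] [Group G] [AddCommGroup A] [Module k A]
    [AddCommGroup B] [Module k B] [AddCommGroup C] [Module k C] {𝓥 : H91.LevelFam G}
    {ρA : Representation k G A} {ρB : Representation k G B} {ρC : Representation k G C}
    (E : H92.SES 𝓥 ρA ρB ρC) :
    Function.Injective E.fP.H0 ∧ Function.Exact E.fP.H0 E.gP.H0 ∧ Function.Exact E.gP.H0 E.δ0 ∧
      Function.Exact E.δ0 E.fP.H1 ∧ Function.Exact E.fP.H1 E.gP.H1 ∧
      Function.Exact E.gP.H1 E.δ1 ∧ Function.Exact E.δ1 E.fP.H2 ∧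
      Function.Exact E.fP.H2 E.gP.H2 :=
  ⟨E.H0_f_injective, E.exact_H0_f_g, E.exact_H0_g_δ0, E.exact_δ0_H1_f, E.exact_H1_f_g,
    E.exact_H1_g_δ1, E.exact_δ1_H2_f, E.exact_H2_f_g⟩

/-- **The connecting maps** (`H92LevLES`): lift an invariant `c` to `b ∈ B`, then `δ0 c` is the class of
`x ↦ x b - b`; lift a cocycle `c` to a locally constant `b : G → B`, then `δ1 c` is the class of
`(x, y) ↦ x b(y) - b(xy) + b(x)`. -/
theorem connecting_maps {k G A B C : Type} [CommRing k] [Group G] [AddCommGroup A] [Module k A]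
    [AddCommGroup B] [Module k B] [AddCommGroup C] [Module k C] {𝓥 : H91.LevelFam G}
    {ρA : Representation k G A} {ρB : Representation k G B} {ρC : Representation k G C}
    (E : H92.SES 𝓥 ρA ρB ρC) :
    (∀ c : ρC.invariants, ∃ (b : B) (a : H92.Z1 𝓥 ρA), E.g b = c ∧
        (∀ x, E.f ((a : G → A) x) = ρB x b - b) ∧ E.δ0 c = H92.mk1 𝓥 ρA a) ∧
      ∀ c : H92.Z1 𝓥 ρC, ∃ (b : G → B) (a : H92.Z2 𝓥 ρA), 𝓥.IsConst₁ b ∧
        (∀ x, E.g (b x) = (c : G → C) x) ∧
        (∀ x y, E.f ((a : G × G → A) (x, y)) = ρB x (b y) - b (x * y) + b x) ∧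
        E.δ1 (H92.mk1 𝓥 ρC c) = H92.mk2 𝓥 ρA a := by
  refine ⟨E.exists_δ0, fun c => ?_⟩
  obtain ⟨b, a, h1, h2, h3, h4⟩ := E.exists_δ1 c
  exact ⟨b, a, h1, h2, fun x y => h3 (x, y), h4⟩

/-- **The Euler characteristic in a short exact sequence** (`H92LevNat`): `χ(B) = χ(A) + χ(C)` up to the
dimension of the cokernel of `H^2(B) → H^2(C)`; this is the source of `chi2_of_sequence` of
`GuidePoitouTate`. -/
theorem chi2_additivity {k G A B C : Type} [Field k] [Group G] [AddCommGroup A] [Module k A]
    [AddCommGroup B] [Module k B] [AddCommGroup C] [Module k C] {𝓥 : H91.LevelFam G}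
    {ρA : Representation k G A} {ρB : Representation k G B} {ρC : Representation k G C}
    (E : H92.SES 𝓥 ρA ρB ρC) (hA : H92.FinCoh 𝓥 ρA) (hC : H92.FinCoh 𝓥 ρC) :
    H92.chi2 𝓥 ρB + finrank k (H92.LH2 𝓥 ρC ⧸ LinearMap.range E.gP.H2) =
      H92.chi2 𝓥 ρA + H92.chi2 𝓥 ρC :=
  E.chi2_add hA hC

/-! ## 2. Shapiro's lemma

`Ω` is a finite set with an action of `G` such that an open subgroup acts trivially (`OpenAct 𝓛 Ω`).
`R : OrbitReps G Ω ι` is a choice of representatives: `R.x i` (`i : ι`) is one point in every orbit,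
`R.V i` its stabiliser, `R.idx y` the index of the orbit of `y`, and `R.s y` carries the representative
to `y`. The coboundaries are `d0 ρ a : g ↦ g a - a` and `d1 ρ F : (g, h) ↦ g F(h) - F(g h) + F(g)`. -/

/-- **The action of `G` on `G/U`** for an open subgroup `U`: it is finite, an open subgroup acts
trivially, and `U` is the stabiliser of the base point (`H55ShapiroC`). -/
theorem coset_space {G : Type} [Group G] {𝓛 : Levels G} {U : Subgroup G} (hU : 𝓛.op U) :
    Finite (G ⧸ U) ∧ OpenAct 𝓛 (G ⧸ U) ∧
      ∀ g : G, g ∈ U ↔ g • ((1 : G) : G ⧸ U) = ((1 : G) : G ⧸ U) :=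
  ⟨finite_coset hU, openAct_coset hU, mem_iff_smul_one U⟩

/-- **Functions form a smooth module** (`H55ShapiroA`): if every element of the module `ρ` is fixed by an
open subgroup, then so is every function on `Ω`; the action is `(g f)(y) = g (f(g⁻¹ y))`. -/
theorem smooth_functions {k G A Ω : Type} [CommRing k] [Group G] [AddCommGroup A] [Module k A]
    [MulAction G Ω] {𝓛 : Levels G} {ρ : Representation k G A} [Finite Ω] (hρ : Smooth 𝓛 ρ)
    (hΩ : OpenAct 𝓛 Ω) : Smooth 𝓛 (funRep Ω ρ) :=
  hρ.funRep hΩ

/-- **The homotopy in degree one** (`H55ShapiroA`). Let `F` be a 1-cocycle with values in the functions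
on `Ω` and `s : Ω → G` any map. Then `F` is cohomologous to the cocycle which is computed from the
values of `F` at the elements `s(y)⁻¹ g s(g⁻¹ y)` and at the points `s(y)⁻¹ y`. If `s(y)` carries a
representative `x` to `y`, these elements are in the stabiliser of `x`, and `s(y)⁻¹ y = x`. -/
theorem homotopy_one {k G A Ω : Type} [CommRing k] [Group G] [AddCommGroup A] [Module k A]
    [MulAction G Ω] {ρ : Representation k G A} (s : Ω → G) {F : G → Ω → A}
    (hF : ∀ g h, F (g * h) = funRep Ω ρ g (F h) + F g) :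
    (fun (g : G) (y : Ω) => ρ (s y) (F ((s y)⁻¹ * g * s (g⁻¹ • y)) ((s y)⁻¹ • y))) =
      F + d0 (funRep Ω ρ) (fun y => F (s y) y) :=
  retr1_eq s hF

/-- **The homotopy in degree two** (`H55ShapiroA`): the same for 2-cocycles, with the 1-cochain
`(g, y) ↦ F(s(y), s(y)⁻¹ g s(g⁻¹ y))(y) - F(g, s(g⁻¹ y))(y)`. It is constant on cosets of an open subgroup
if `F` is. -/
theorem homotopy_two {k G A Ω : Type} [CommRing k] [Group G] [AddCommGroup A] [Module k A]
    [MulAction G Ω] {ρ : Representation k G A} (s : Ω → G) {F : G × G → Ω → A}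
    (hF : ∀ g h j, F (g * h, j) + F (g, h) = funRep Ω ρ g (F (h, j)) + F (g, h * j)) :
    (fun (p : G × G) (y : Ω) => ρ (s y) (F ((s y)⁻¹ * p.1 * s (p.1⁻¹ • y),
      (s (p.1⁻¹ • y))⁻¹ * p.2 * s (p.2⁻¹ • p.1⁻¹ • y)) ((s y)⁻¹ • y))) =
      F + d1 (funRep Ω ρ) (fun g y =>
        F (s y, (s y)⁻¹ * g * s (g⁻¹ • y)) y - F (g, s (g⁻¹ • y)) y) :=
  retr2_eq s hF

/-- **Induction of cocycles** (`H55ShapiroB`): cocycles `c i` on the stabilisers `R.V i` of the
representatives give a cocycle on `G` with values in the functions on `Ω`; in degree one it sends `g` to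
the function `y ↦ s(y) c(s(y)⁻¹ g s(g⁻¹ y))` (`ind1`, `ind2`). -/
theorem induced_cocycles {k G A Ω ι : Type} [CommRing k] [Group G] [AddCommGroup A] [Module k A]
    [MulAction G Ω] {𝓛 : Levels G} {ρ : Representation k G A} (R : OrbitReps G Ω ι) [Finite Ω]
    (hΩ : OpenAct 𝓛 Ω) {c : ∀ i, R.V i → A} {c' : ∀ i, R.V i × R.V i → A}
    (hc : ∀ i, c i ∈ Z1 (𝓛.onSub (R.V i)) (ρ.comp (R.V i).subtype))
    (hc' : ∀ i, c' i ∈ Z2 (𝓛.onSub (R.V i)) (ρ.comp (R.V i).subtype)) :
    ind1 R ρ c ∈ Z1 𝓛 (funRep Ω ρ) ∧ ind2 R ρ c' ∈ Z2 𝓛 (funRep Ω ρ) :=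
  ⟨ind1_mem_Z1 R hΩ hc, ind2_mem_Z2 R hΩ hc'⟩

/-- **Shapiro's lemma for a finite `G`-set** (`H55ShapiroB`): evaluation at the representatives is a
bijection from `H^i(G, Fun(Ω, A))` to the product of the `H^i(V_j, A)`, `V_j` the stabilisers of the
representatives, `i = 1, 2`. (`ev1`, `ev2` at a point `y`: restrict the cocycle to the stabiliser and
evaluate its values at `y`.) Injectivity: the homotopies; surjectivity: induction of cocycles. -/
theorem shapiro_orbits {k G A Ω ι : Type} [CommRing k] [Group G] [AddCommGroup A] [Module k A]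
    [MulAction G Ω] {𝓛 : Levels G} {ρ : Representation k G A} (R : OrbitReps G Ω ι) [Finite Ω]
    (hΩ : OpenAct 𝓛 Ω) :
    Function.Bijective (fun (x : H1 𝓛 (funRep Ω ρ)) i => ev1 𝓛 ρ (R.x i) (R.V i) (R.hV i) x) ∧
      Function.Bijective (fun (x : H2 𝓛 (funRep Ω ρ)) i => ev2 𝓛 ρ (R.x i) (R.V i) (R.hV i) x) :=
  ⟨evT1_bijective R hΩ, evT2_bijective R hΩ⟩

/-- **Degree zero** (`H55ShapiroC`): the invariants of the functions on `Ω` with values in the trivial
module `k` have the number of orbits as dimension. -/
theorem shapiro_degree_zero {k G Ω ι : Type} [Field k] [Group G] [MulAction G Ω]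
    (R : OrbitReps G Ω ι) [Fintype ι] :
    finrank k (funRep Ω (Representation.trivial k G k)).invariants = Fintype.card ι :=
  finrank_invariants_funRep R

/-! ## 3. Places

`f : H → G` is a homomorphism and `U` an open subgroup of `G`. `dec f U g` is the subgroup of the `x ∈ H`
with `g⁻¹ f(x) g ∈ U`, `decHom f U g` the homomorphism `x ↦ g⁻¹ f(x) g` to `U`. `Places f U` is the set of
the orbits of `H` on `G/U` and `place f U g` the orbit of `g U`; `nPl f U` is their number. For the
absolute Galois groups of `ℚ_q` and `ℚ` these are the places above `q` of the field fixed by `U`. -/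

/-- **Decomposition groups are stabilisers** (`H55ShapiroC`), and they are open. -/
theorem mem_dec_iff {G H : Type} [Group G] [Group H] {𝓛 : Levels G} {𝓜 : Levels H} {f : H →* G}
    (hf : Levels.Cont 𝓜 𝓛 f) {U : Subgroup G} (hU : 𝓛.op U) (g : G) :
    𝓜.op (dec f U g) ∧ ∀ h : H, h ∈ dec f U g ↔ f h • (g : G ⧸ U) = (g : G ⧸ U) :=
  ⟨op_dec hf hU g, mem_dec_iff_smul f U g⟩

/-- **The sum of the local degrees is the degree** (`H55ShapiroF`): `∑_w [H : dec w] = [G : U]`. -/
theorem sum_of_local_degrees {G H : Type} [Group G] [Group H] (f : H →* G) (U : Subgroup G)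
    [Fintype (Places f U)] (hfin : ∀ g, (dec f U g).FiniteIndex) (rep : Places f U → G)
    (hrep : ∀ w, place f U (rep w) = w) : ∑ w, (dec f U (rep w)).index = U.index :=
  sum_index_dec f U hfin rep hrep

/-- **Shapiro's lemma for the places** (`H55ShapiroD`): for the restriction to `H` of the functions on
`G/U` with values in `A`, `H^i(H, Fun(G/U, A))` is the product over the places `w` of the
`H^i(dec w, A)`, `i = 1, 2`. The maps `evd1`, `evd2` restrict a cocycle to `dec f U g` and evaluate its
values at `g U`, `g` a representative of `w`. -/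
theorem shapiro_places {k G H A : Type} [CommRing k] [Group G] [Group H] [AddCommGroup A]
    [Module k A] {𝓛 : Levels G} {𝓜 : Levels H} {f : H →* G} (ρ : Representation k G A)
    (hf : Levels.Cont 𝓜 𝓛 f) {U : Subgroup G} (hU : 𝓛.op U) (rep : Places f U → G)
    (hrep : ∀ w, place f U (rep w) = w) :
    Function.Bijective (fun (x : H1 𝓜 ((funRep (G ⧸ U) ρ).comp f)) w =>
        evd1 ρ 𝓜 f U (rep w) x) ∧
      Function.Bijective (fun (x : H2 𝓜 ((funRep (G ⧸ U) ρ).comp f)) w =>
        evd2 ρ 𝓜 f U (rep w) x) :=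
  ⟨evP1_bijective ρ hf hU rep hrep, evP2_bijective ρ hf hU rep hrep⟩

/-- **Change of the representative** (`H55ShapiroD`): if `g' = f(x) g u` with `x ∈ H`, `u ∈ U`, then the
evaluations at `g'` and at `g` differ by conjugation with `x` (`conjDec`: `y ↦ x⁻¹ y x`, from `dec f U g'` to
`dec f U g`) and the action of `f(x)` on `A`. So the vanishing of the component of a class at a place does
not depend on the representative. -/
theorem change_of_representative {k G H A : Type} [CommRing k] [Group G] [Group H]
    [AddCommGroup A] [Module k A] {𝓜 : Levels H} {f : H →* G} (ρ : Representation k G A)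
    (U : Subgroup G) {g g' : G} {x : H} {u : G} (hu : u ∈ U) (h : f x * g * u = g')
    (z : H2 𝓜 ((funRep (G ⧸ U) ρ).comp f)) :
    evd2 ρ 𝓜 f U g' z = H2map (f := conjDec f U hu h) (φ := ρ (f x))
      (cont_conjDec f U hu h) (conjDec_equivar ρ U hu h) (evd2 ρ 𝓜 f U g z) :=
  evd2_conj ρ U hu h z

/-- **Localisation and Shapiro's lemma** (Mackey's formula, `H55ShapiroC`): restrict a class in
`H^2(G, Fun(G/U, A))` to `H` (`H2res`) and evaluate it at the place of `g` (`evd2`); this is the same as to
evaluate it at the base point (`ev2`), which gives a class of `U`, and to pull this back along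
`x ↦ g⁻¹ f(x) g` (with the action of `g` on `A`). Proof: `inner_automorphisms`. -/
theorem mackey {k G H A : Type} [CommRing k] [Group G] [Group H] [AddCommGroup A] [Module k A]
    {𝓛 : Levels G} {𝓜 : Levels H} {f : H →* G} (ρ : Representation k G A)
    (hf : Levels.Cont 𝓜 𝓛 f) (U : Subgroup G) (g : G) (z : H2 𝓛 (funRep (G ⧸ U) ρ)) :
    evd2 ρ 𝓜 f U g (H2res hf (funRep (G ⧸ U) ρ) z) =
      H2map (f := decHom f U g) (φ := ρ g) (cont_decHom hf U g) (decHom_equivar ρ f U g)
        (ev2 𝓛 ρ ((1 : G) : G ⧸ U) U (mem_iff_smul_one U) z) :=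
  evd2_H2res ρ hf U g z

/-- **Local dimensions for the induced modules** (`H55ShapiroF`). Suppose that `H^1(dec w, k)` has
dimension `2 + c [H : dec w]` for all places (local fields which contain the `p`-th roots of unity:
`c = 1` above `p`, `0` otherwise). Then `H^1(H, Fun(G/U, k))` has dimension `2 n + c [G : U]`, `n` the
number of places; the invariants have dimension `n`. -/
theorem local_dimensions {k G H : Type} [Field k] [Group G] [Group H] {𝓛 : Levels G}
    {𝓜 : Levels H} {f : H →* G} (hf : Levels.Cont 𝓜 𝓛 f) {U : Subgroup G} (hU : 𝓛.op U)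
    [Finite (Places f U)] (c : ℕ) (h : ∀ g, finrank k (H1 (𝓜.onSub (dec f U g))
      (Representation.trivial k (dec f U g) k)) = 2 + c * (dec f U g).index) :
    finrank k (H1 𝓜 ((funRep (G ⧸ U) (Representation.trivial k G k)).comp f)) =
      2 * nPl f U + c * U.index ∧
    finrank k (Representation.invariants
      ((funRep (G ⧸ U) (Representation.trivial k G k)).comp f) : Submodule k (G ⧸ U → k)) =
      nPl f U :=
  ⟨finrank_H1_places_eq hf hU c h, finrank_invariants_places f U⟩

/-- **`Sha^2` of the induced modules** (`H55ShapiroF`). `D : LD 𝓛` is a finite family of local groups,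
`D.locU2 k U v g` the localisation at the place of `U` given by `g` (pull back along `x ↦ g⁻¹ f_v(x) g`),
and `D.ShaU2 k U` the group of the classes in `H^2(U, k)` which vanish at all places of `U`. Shapiro's
isomorphism `shX2`, the evaluation at the base point, carries `Sha^2(Fun(G/U, k))` to it. -/
theorem sha_of_functions {k G : Type} [Field k] [Group G] {𝓛 : Levels G} (D : LD 𝓛)
    {U : Subgroup G} (hU : 𝓛.op U) :
    (∀ z : H2 𝓛 (funRep (G ⧸ U) (Representation.trivial k G k)),
      z ∈ D.Sha2 (funRep (G ⧸ U) (Representation.trivial k G k)) ↔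
        ∀ v g, D.locU2 k U v g (shX2 k hU z) = 0) ∧
    finrank k (D.Sha2 (funRep (G ⧸ U) (Representation.trivial k G k))) =
      finrank k (D.ShaU2 k U) :=
  ⟨fun z => (D.mem_Sha2_funRep_iff hU z).trans (D.mem_ShaU2 k), D.finrank_Sha2_funRep hU⟩

/-- **Finiteness of `H^2`** (`H55GlobFin`): `H^2(U, k)` is finite dimensional if the space of the everywhere
locally trivial classes and the local groups are (`U` in the kernel of a character `χ`; the condition on the
local groups is needed only for `V` in the kernel of `χ`). -/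
theorem finite_H2 {k G : Type} [Field k] [Group G] {𝓛 : Levels G} {D : LD 𝓛} {χ : G →* kˣ}
    (hloc : ∀ v V, (D.lev v).op V → V ≤ (χ.comp (D.loc v)).ker →
      Module.Finite k (H2 ((D.lev v).onSub V) (Representation.trivial k V k)))
    {U : Subgroup G} (hU : 𝓛.op U) (hle : U ≤ χ.ker) (hfin : Module.Finite k (D.ShaU2 k U)) :
    Module.Finite k (H2 (𝓛.onSub U) (Representation.trivial k U k)) :=
  finite_H2_of_finite_ShaU2 hloc hU hle hfin

/-! ## 4. Right exactness of `H^2` -/

/-- **Powers** (`H55Pow`): for a finite set `ι` the projections give bijections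
`H^i(G, A^ι) → H^i(G, A)^ι`, `i = 1, 2` (`powRep ι ρ` is the module `A^ι`). A finite dimensional module with
trivial action of `G` is isomorphic to a power of `k`; this gives the second formula of the next theorem. -/
theorem powers {k G A ι : Type} [CommRing k] [Group G] [AddCommGroup A] [Module k A] [Finite ι]
    {𝓛 : Levels G} {ρ : Representation k G A} :
    Function.Bijective (LinearMap.pi fun i => H1c 𝓛 (equivar_proj ι ρ i)) ∧
      Function.Bijective (LinearMap.pi fun i => H2c 𝓛 (equivar_proj ι ρ i)) :=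
  ⟨H1pow_bijective, H2pow_bijective⟩

/-- **Euler characteristics of functions** (`H55PGrp`, `H55Pow`): `χ(G, Fun(G/P, A)) = χ(P, A)`, and
`χ(G, A) = dim A · χ(G, k)` if `G` acts trivially on `A`. -/
theorem chi2_rules {k G A B : Type} [Field k] [Group G] [AddCommGroup A] [Module k A]
    [AddCommGroup B] [Module k B] [Module.Finite k B] {P : Subgroup G}
    {ρ : Representation k G A} {𝓛 : Levels G} (hP : 𝓛.op P) (hs : Smooth 𝓛 ρ)
    (h1 : Module.Finite k (H1 𝓛 (Representation.trivial k G k)))
    (h2 : Module.Finite k (H2 𝓛 (Representation.trivial k G k))) :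
    chi2 𝓛 (funRep (G ⧸ P) ρ) = chi2 (𝓛.onSub P) (ρ.comp P.subtype) ∧
      chi2 𝓛 (Representation.trivial k G B) =
        finrank k B * chi2 𝓛 (Representation.trivial k G k) :=
  ⟨chi2_sh hP hs, chi2_trivial h1 h2⟩

/-- **Fixed vectors** (`H55PGrp`): a finite `p`-group acting on a nonzero finite `F_p`-vector space fixes a
nonzero vector. -/
theorem fixed_vector {p : ℕ} [Fact p.Prime] {G : Type} [Group G] {N : Subgroup G} [N.Normal]
    [N.FiniteIndex] (hp : IsPGroup p (G ⧸ N)) {A : Type} [AddCommGroup A] [Module (ZMod p) A]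
    [Module.Finite (ZMod p) A] [Nontrivial A] (ρ : Representation (ZMod p) G A)
    (hN : ∀ g ∈ N, ∀ a, ρ g a = a) : ∃ a : A, a ≠ 0 ∧ ∀ g, ρ g a = a :=
  exists_fixed hp ρ hN

/-- **Devissage** (`H55PGrp`): so every finite module `A` on which `N` acts trivially is a successive
extension of trivial modules, its cohomology is finite, and `χ(G, A) ≤ dim A · χ(G, F_p)`: `χ` is only
subadditive, because the last map of `H^2` may fail to be surjective. -/
theorem devissage_inequality {p : ℕ} [Fact p.Prime] {G : Type} [Group G] {𝓛 : Levels G}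
    {N : Subgroup G} [N.Normal] [N.FiniteIndex] (hp : IsPGroup p (G ⧸ N)) (hN : 𝓛.op N)
    (h1 : Module.Finite (ZMod p) (H1 𝓛 (Representation.trivial (ZMod p) G (ZMod p))))
    (h2 : Module.Finite (ZMod p) (H2 𝓛 (Representation.trivial (ZMod p) G (ZMod p))))
    {A : Type} [AddCommGroup A] [Module (ZMod p) A] [Module.Finite (ZMod p) A]
    (ρ : Representation (ZMod p) G A) (hρ : ∀ g ∈ N, ∀ a, ρ g a = a) :
    Fin2 𝓛 ρ ∧ chi2 𝓛 ρ ≤
      finrank (ZMod p) A * chi2 𝓛 (Representation.trivial (ZMod p) G (ZMod p)) :=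
  devissage hp hN h1 h2 _ ρ hρ rfl

/-- **Quotients of functions** (`H55RE`, `H55PGrp`): let `A` be a finite smooth module over `F_p` and `W` an
open subgroup. There is an open normal subgroup `N ≤ W` which acts trivially on `A`, and `A` is a quotient of
`Fun(G/N, A₀)`, `A₀` the vector space `A` with trivial action, by the map `f ↦ ∑ x f(x)` (`sumMap`). -/
theorem quotient_of_functions {p : ℕ} [Fact p.Prime] {G : Type} [Group G] {𝓛 : Levels G} {A : Type}
    [AddCommGroup A] [Module (ZMod p) A] [Module.Finite (ZMod p) A]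
    {ρ : Representation (ZMod p) G A} (hs : Smooth 𝓛 ρ) {W : Subgroup G} (hW : 𝓛.op W) :
    ∃ N : Subgroup G, 𝓛.op N ∧ N.Normal ∧ N ≤ W ∧ (∀ g ∈ N, ∀ a, ρ g a = a) ∧
      ∃ φ : (G ⧸ N → A) →ₗ[ZMod p] A,
        Equivar (funRep (G ⧸ N) (Representation.trivial (ZMod p) G A)) ρ φ ∧
          Function.Surjective φ := by
  obtain ⟨N, hN, hn, hNW, h⟩ := exists_kill hs hW
  have hf := 𝓛.finiteIndex hN
  exact ⟨N, hN, hn, hNW, h, sumMap N ρ h, sumMap_equivar N ρ h, sumMap_surjective N ρ h⟩

/-- **Equality** (`H55PGrp`): suppose `χ(N, F_p) = [G : N] χ(G, F_p)`. Then `χ(G, A) = dim A · χ(G, F_p)`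
for every finite `A` with trivial action of `N`. Proof: `A` is a quotient of the functions on `G/N` with
values in the vector space `A` (map `f ↦ ∑ x f(x)`). Their Euler characteristic is `dim A · χ(N, F_p)`, the
largest value allowed by `devissage_inequality`; so there is equality for `A` and for the kernel. -/
theorem chi2_equality {p : ℕ} [Fact p.Prime] {G : Type} [Group G] {𝓛 : Levels G}
    {N : Subgroup G} [N.Normal] [N.FiniteIndex] (hp : IsPGroup p (G ⧸ N)) (hN : 𝓛.op N)
    (h1 : Module.Finite (ZMod p) (H1 𝓛 (Representation.trivial (ZMod p) G (ZMod p))))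
    (h2 : Module.Finite (ZMod p) (H2 𝓛 (Representation.trivial (ZMod p) G (ZMod p))))
    (h1' : Module.Finite (ZMod p) (H1 (𝓛.onSub N) (Representation.trivial (ZMod p) N (ZMod p))))
    (h2' : Module.Finite (ZMod p) (H2 (𝓛.onSub N) (Representation.trivial (ZMod p) N (ZMod p))))
    (hEC : chi2 (𝓛.onSub N) (Representation.trivial (ZMod p) N (ZMod p)) =
      N.index * chi2 𝓛 (Representation.trivial (ZMod p) G (ZMod p)))
    {A : Type} [AddCommGroup A] [Module (ZMod p) A] [Module.Finite (ZMod p) A]
    (ρ : Representation (ZMod p) G A) (hρ : ∀ g ∈ N, ∀ a, ρ g a = a) :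
    chi2 𝓛 ρ = finrank (ZMod p) A * chi2 𝓛 (Representation.trivial (ZMod p) G (ZMod p)) :=
  (chi2_exact hp hN h1 h2 h1' h2' hEC ρ hρ).2

/-- **Right exactness for a `p`-group** (`H55PGrp`): under the same hypotheses `H^2(G, B) → H^2(G, C)` is
surjective for every surjection `B → C` of finite modules with trivial action of `N` (by
`chi2_of_sequence` of `GuidePoitouTate`: equality of Euler characteristics means surjectivity). -/
theorem right_exact_p_group {p : ℕ} [Fact p.Prime] {G : Type} [Group G] {𝓛 : Levels G}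
    {N : Subgroup G} [N.Normal] [N.FiniteIndex] (hp : IsPGroup p (G ⧸ N)) (hN : 𝓛.op N)
    (h1 : Module.Finite (ZMod p) (H1 𝓛 (Representation.trivial (ZMod p) G (ZMod p))))
    (h2 : Module.Finite (ZMod p) (H2 𝓛 (Representation.trivial (ZMod p) G (ZMod p))))
    (h1' : Module.Finite (ZMod p) (H1 (𝓛.onSub N) (Representation.trivial (ZMod p) N (ZMod p))))
    (h2' : Module.Finite (ZMod p) (H2 (𝓛.onSub N) (Representation.trivial (ZMod p) N (ZMod p))))
    (hEC : chi2 (𝓛.onSub N) (Representation.trivial (ZMod p) N (ZMod p)) =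
      N.index * chi2 𝓛 (Representation.trivial (ZMod p) G (ZMod p)))
    {A B C : Type} [AddCommGroup A] [Module (ZMod p) A] [AddCommGroup B] [Module (ZMod p) B]
    [AddCommGroup C] [Module (ZMod p) C] [Module.Finite (ZMod p) B]
    {ρA : Representation (ZMod p) G A} {ρB : Representation (ZMod p) G B}
    {ρC : Representation (ZMod p) G C} (E : SES 𝓛 ρA ρB ρC)
    (hρ : ∀ g ∈ N, ∀ b, ρB g b = b) : Function.Surjective (H2c 𝓛 E.hq) :=
  re_pgroup hp hN h1 h2 h1' h2' hEC E hρ

/-- **A Sylow subgroup** (`H55RE`): `N ≤ W` are normal, `N` of finite index, `W` of index prime to `p`.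
There is a subgroup `P` between `N` and `W`, of index prime to `p`, such that `P/N` is a `p`-group. -/
theorem sylow_subgroup {p : ℕ} [Fact p.Prime] {G : Type} [Group G] {N W : Subgroup G} [N.Normal]
    [N.FiniteIndex] [W.Normal] (hNW : N ≤ W) (hW : ¬ p ∣ W.index) :
    ∃ P : Subgroup G, N ≤ P ∧ P ≤ W ∧ ¬ p ∣ P.index ∧ ∀ x ∈ P, ∃ n : ℕ, x ^ (p ^ n) ∈ N :=
  exists_sylow hNW hW

/-- **Transfer** (`H55RE`): the composition `A → Fun(G/P, A) → A` (constant functions, then the sum of the
values) is multiplication by `[G : P]` on `H^2(G, A)`. By Shapiro's lemma the first map is the restriction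
to `P`. It is injective if the index is prime to `p`; and right exactness for `P` implies right
exactness for `G`. -/
theorem transfer {k G A : Type} [CommRing k] [Group G] [AddCommGroup A] [Module k A]
    {P : Subgroup G} {ρ : Representation k G A} {𝓛 : Levels G} [P.FiniteIndex] (x : H2 𝓛 ρ) :
    H2c 𝓛 (totMap_equivar P ρ) (H2c 𝓛 (constMap_equivar P ρ) x) = (P.index : k) • x :=
  H2_tot_const x

/-! ## 5. Right exact functors and duality

`F : RF (ZMod p) 𝓛` is an additive functor `F.obj`, `F.map` from the `F_p`-representations of `G` to vector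
spaces which is right exact on the finite smooth ones. `F.Good χ`: the kernel of `χ` is open,
`F (Fun(G/U, F_p))` has dimension one for all open `U ≤ ker χ`, and `F(μ) ≠ 0`, `μ = mu χ` the one
dimensional module of `χ`. -/

/-- **`H^2` is such a functor** (`H55Main`) if it is finite and right exact on finite smooth modules
(`H75.RightExact`; for local and global Galois groups by `right_exact` of `GuidePoitouTate`). The other
one which is used is the cokernel of the localisation map in degree 2. -/
theorem h2_functor {p : ℕ} [Fact p.Prime] {G : Type} [Group G] {𝓛 : Levels G}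
    (hR : H75.RightExact (ZMod p) 𝓛) {A : Type} [AddCommGroup A] [Module (ZMod p) A]
    (ρ : Representation (ZMod p) G A) : (h2RF hR).obj ρ = ModuleCat.of (ZMod p) (H2 𝓛 ρ) :=
  rfl

/-- **Maps to `μ`** (`H55RF`): for a linear form `l` on `A` and `U ≤ ker χ` of finite index the map
`eps χ U hU l : f ↦ ∑ χ(x) l(f(x))` from `Fun(G/U, A)` to `μ` is equivariant (`A` with trivial action;
`chiQ` is `χ` as a function on `G/U`), and it takes the value `l(a)` at the function with the value `a` at
the base point and `0` elsewhere. -/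
theorem maps_to_mu {k G A : Type} [Field k] [Group G] [AddCommGroup A] [Module k A] (χ : G →* kˣ)
    (U : Subgroup G) [U.FiniteIndex] (hU : U ≤ χ.ker) (l : A →ₗ[k] k) [DecidableEq (G ⧸ U)] :
    Equivar (funRep (G ⧸ U) (Representation.trivial k G A)) (mu χ) (eps χ U hU l) ∧
      (∀ f, eps χ U hU l f = ∑ᶠ x, chiQ χ U hU x * l (f x)) ∧
      (∀ g : G, chiQ χ U hU (g : G ⧸ U) = χ g) ∧
      ∀ a : A, eps χ U hU l (Pi.single ((1 : G) : G ⧸ U) a) = l a := by
  refine ⟨eps_equivar χ U hU l, eps_apply χ U hU l, chiQ_mk χ U hU, fun a => ?_⟩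
  rw [← eps_single χ U hU l a]
  congr!

/-- **From the functions to `μ`** (`H55RF`): `F` of the map `f ↦ ∑ χ(x) f(x)` is a bijection
`F(Fun(G/U, F_p)) → F(μ)` for all open `U ≤ ker χ`: it is surjective, from a space of dimension one to a
nonzero space. -/
theorem functions_to_mu {p : ℕ} [Fact p.Prime] {G : Type} [Group G] {𝓛 : Levels G}
    {F : RF (ZMod p) 𝓛} {χ : G →* (ZMod p)ˣ} (hF : F.Good χ) {U : Subgroup G} (hU : 𝓛.op U)
    (hUχ : U ≤ χ.ker) (hf : U.FiniteIndex) :
    Function.Bijective (F.map (eps_equivar χ U hUχ (LinearMap.id : ZMod p →ₗ[ZMod p] ZMod p))) :=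
  hF.eps_bijective hU hUχ hf

/-- **`F(μ)` has dimension one** (`H55RF`), by the preceding theorem for `U = ker χ`. -/
theorem functor_of_mu {p : ℕ} [Fact p.Prime] {G : Type} [Group G] {𝓛 : Levels G}
    {F : RF (ZMod p) 𝓛} {χ : G →* (ZMod p)ˣ} (hF : F.Good χ) :
    finrank (ZMod p) (F.obj (mu χ)) = 1 :=
  hF.finrank_mu

/-- **Coordinates** (`H55RF`): the coordinates with respect to a basis of `A` give a bijection `compMap` from
`F(Fun(G/N, A))` to the power `F(Fun(G/N, F_p))^n`, `n = dim A` (`A` with trivial action), because `F` is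
additive; so `F(Fun(G/N, A))` has the dimension of `A` if `N` is open and contained in `ker χ`. -/
theorem coordinates {p : ℕ} [Fact p.Prime] {G : Type} [Group G] {𝓛 : Levels G}
    {F : RF (ZMod p) 𝓛} {χ : G →* (ZMod p)ˣ} (hF : F.Good χ) {N : Subgroup G} [N.FiniteIndex]
    (hN : 𝓛.op N) (hNχ : N ≤ χ.ker) {A : Type} [AddCommGroup A] [Module (ZMod p) A]
    [Module.Finite (ZMod p) A] :
    Function.Bijective (compMap F N A) ∧
      finrank (ZMod p) (F.obj (funRep (G ⧸ N) (Representation.trivial (ZMod p) G A))) =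
        finrank (ZMod p) A :=
  ⟨compMap_bijective, hF.finrank_X hN hNχ⟩

/-- **Nondegeneracy for functions** (`H55RF`): an element of `F(Fun(G/N, A))`, `A` with trivial action, is
zero if it is killed by `F` of all maps `f ↦ ∑ χ(x) l(f(x))`, `l` a linear form on `A`: by the bijection
`functions_to_mu` all its coordinates are zero. -/
theorem nondegeneracy_for_functions {p : ℕ} [Fact p.Prime] {G : Type} [Group G] {𝓛 : Levels G}
    {F : RF (ZMod p) 𝓛} {χ : G →* (ZMod p)ˣ} (hF : F.Good χ) {N : Subgroup G} [N.FiniteIndex]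
    (hN : 𝓛.op N) (hNχ : N ≤ χ.ker) {A : Type} [AddCommGroup A] [Module (ZMod p) A]
    [Module.Finite (ZMod p) A]
    (x : F.obj (funRep (G ⧸ N) (Representation.trivial (ZMod p) G A)))
    (hx : ∀ l : A →ₗ[ZMod p] ZMod p, F.map (eps_equivar χ N hNχ l) x = 0) : x = 0 :=
  hF.X_inj hN hNχ x hx

/-- **Nondegeneracy** (`H55RF`): an element `x` of `F(A)` is zero if it is killed by `F(φ)` for all
equivariant maps `φ : A → μ`. For `Fun(G/N, A₀)` with trivial `A₀` this is the preceding theorem. In general
`A` is a quotient of `Fun(G/N, A₀)`, `A₀` the vector space `A` (`quotient_of_functions`); the equivariant maps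
from `A` to `μ` are the equivariant maps from `Fun(G/N, A₀)` which vanish on the kernel. A nonzero equivariant
map from the kernel to `μ` is surjective, so `F` of it is not zero; with this, duality of finite dimensional
vector spaces gives the claim. -/
theorem nondegeneracy {p : ℕ} [Fact p.Prime] {G : Type} [Group G] {𝓛 : Levels G}
    {F : RF (ZMod p) 𝓛} {χ : G →* (ZMod p)ˣ} (hF : F.Good χ) {A : Type} [AddCommGroup A]
    [Module (ZMod p) A] [Module.Finite (ZMod p) A] {ρ : Representation (ZMod p) G A}
    (hs : Smooth 𝓛 ρ) (x : F.obj ρ)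
    (hx : ∀ (φ : A →ₗ[ZMod p] ZMod p) (hφ : Equivar ρ (mu χ) φ), F.map hφ x = 0) : x = 0 :=
  hF.nondeg hs x hx

/-! ## 6. The comparison with the frozen statement

`krullLevels` are the open subgroups of the absolute Galois group of `ℚ`, `ramLevels S` those which
contain the group of a number field unramified outside `S`; `DS S` the local groups at the primes of `S`
(`GuidePoitouTate`, section 1). The dictionary for `sha₁`, `sha₂` is `prelude_sha` of `GuidePoitouTate`. -/

/-- **Unramified levels** (`H73F6`): an open subgroup of the Galois group which contains all inertia groups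
at the primes outside `S` is a level of `ramLevels S` (its fixed field is unramified outside `S`); so is the
kernel of the cyclotomic character, if `p` is in `S`. -/
theorem unramified_levels {p : ℕ} [Fact p.Prime] (S : Finset Nat.Primes) :
    (∀ N : Subgroup (AlgebraicClosure ℚ ≃ₐ[ℚ] AlgebraicClosure ℚ), krullLevels.op N →
      (∀ q : Nat.Primes, q ∉ S → ∀ A : ValuationSubring (AlgebraicClosure ℚ),
        A.LiesOverPrime (q : ℕ) → A.inertiaSubgroupIn ℚ ≤ N) → (ramLevels S).op N) ∧
      (ExtCitation.pPrime p ∈ S → (ramLevels S).op (ExtCitation.cycloChar p).ker) :=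
  ⟨fun _ hN h => H73.F6.ramLevels_op_of_krull S hN h, fun h => H73.F6.op_ker_cycloChar S h⟩

/-- **Smooth modules** (`H73F6`): a finite `F_p`-module of the Galois group whose vectors have open
stabilisers, and on which the inertia groups outside `S` act trivially, is smooth for `ramLevels S`. -/
theorem smooth_of_unramified {p : ℕ} [Fact p.Prime] {V : Type} [AddCommGroup V]
    [Module (ZMod p) V] [Finite V] (S : Finset Nat.Primes)
    (ρ : Representation (ZMod p) (AlgebraicClosure ℚ ≃ₐ[ℚ] AlgebraicClosure ℚ) V)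
    (hsm : ∀ m : V, ∃ F : IntermediateField ℚ (AlgebraicClosure ℚ), FiniteDimensional ℚ F ∧
      ∀ s ∈ F.fixingSubgroup, ρ s m = m)
    (hur : ∀ q : Nat.Primes, q ∉ S → ∀ A : ValuationSubring (AlgebraicClosure ℚ),
      A.LiesOverPrime (q : ℕ) → ∀ g ∈ A.inertiaSubgroupIn ℚ, ρ g = 1) :
    Smooth (ramLevels S) ρ :=
  H73.F6.smooth_of_unramified S ρ hsm hur

/-- **The same cochains** (`H73F6a`, `H73F6b`): in degree two the cocycles and the coboundaries for the levels
`ramLevels S` are those of the Prelude (`levelCocyclesS₂`, `levelCoboundariesS₂`); in degree one the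
comparison map `toH1`, which sends the class of a cocycle to its class in `H^1` of Mathlib, is injective. -/
theorem same_cochains {p : ℕ} [Fact p.Prime] (S : Finset Nat.Primes)
    (M : Rep (ZMod p) (AlgebraicClosure ℚ ≃ₐ[ℚ] AlgebraicClosure ℚ)) :
    Z2 (ramLevels S) M.ρ = groupCohomology.levelCocyclesS₂ S M ∧
      B2 (ramLevels S) M.ρ = groupCohomology.levelCoboundariesS₂ S M ∧
      Function.Injective (H73.F6.toH1 (ramLevels S) M) :=
  ⟨H73.F6.Z2_eq S M, H73.F6.B2_eq S M, H73.F6.toH1_injective (ramLevels S) M⟩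

/-- **The local conditions in degree two** (`H73F6b`), written out on both sides: the class of a cocycle `f`
is in `Sha^2` if and only if its restriction to the local group at every `q ∈ S` is the coboundary of a
cochain which is constant on the cosets of an open subgroup; and the localisation `locRes₂S` of the Prelude
along a homomorphism `r` is zero if and only if the same holds for the restriction along `r`. -/
theorem local_conditions {p : ℕ} [Fact p.Prime] (S : Finset Nat.Primes)
    (M : Rep (ZMod p) (AlgebraicClosure ℚ ≃ₐ[ℚ] AlgebraicClosure ℚ)) :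
    (∀ f : Z2 (ramLevels S) M.ρ, H2π (ramLevels S) M.ρ f ∈ (DS S).Sha2 M.ρ ↔
      ∀ q : S, (fun h : ExtCitation.primeLocalGaloisGroup q.1 × ExtCitation.primeLocalGaloisGroup q.1 =>
        (f : (AlgebraicClosure ℚ ≃ₐ[ℚ] AlgebraicClosure ℚ) × (AlgebraicClosure ℚ ≃ₐ[ℚ] AlgebraicClosure ℚ)
          → M) (ExtCitation.primeLocalToGlobal q.1 h.1, ExtCitation.primeLocalToGlobal q.1 h.2)) ∈
        B2 (krullLevels.comap (ExtCitation.primeLocalToGlobal q.1))
          (M.ρ.comp (ExtCitation.primeLocalToGlobal q.1))) ∧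
      ∀ (H : Type) [Group H] (r : H →* (AlgebraicClosure ℚ ≃ₐ[ℚ] AlgebraicClosure ℚ))
        (f : groupCohomology.levelCocyclesS₂ S M),
        groupCohomology.locRes₂S S M r (groupCohomology.continuousH2Sπ S M f) = 0 ↔
          (fun h : H × H => (f : (AlgebraicClosure ℚ ≃ₐ[ℚ] AlgebraicClosure ℚ) ×
            (AlgebraicClosure ℚ ≃ₐ[ℚ] AlgebraicClosure ℚ) → M) (r h.1, r h.2)) ∈
            groupCohomology.levelCoboundaries₂ r (Rep.res r M) :=
  ⟨H73.F6.mem_Sha2_mk_iff S M, fun _ _ r f => H73.F6.locRes₂S_mk_eq_zero_iff S M r f⟩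

/-- **The real place** (`H73F6a`, `H73F6b`): let `G` be a finite group whose order is invertible in `k`. Then
every 1-cocycle is a coboundary, and every 2-cocycle which is constant on the cosets of an open subgroup is
the coboundary of such a 1-cochain (averages over the group). The order of the decomposition group of the
real place divides two, so it is invertible in `F_p` for odd `p`: the real place in the definition of `sha₁`
and `sha₂` imposes no condition. -/
theorem real_place {k G A : Type} [Field k] [Group G] [Finite G] [AddCommGroup A] [Module k A]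
    (hG : (Nat.card G : k) ≠ 0) (𝓛 : Levels G) (ρ : Representation k G A) :
    (∀ f : G → A, (∀ g h, f (g * h) = ρ g (f h) + f g) → ∃ a, ∀ g, ρ g a - a = f g) ∧
      (∀ f ∈ Z2 𝓛 ρ, ∃ x, LC1 𝓛 x ∧ d1 ρ x = f) ∧
      ∀ (p : ℕ) [Fact p.Prime], p ≠ 2 →
        ((Nat.card ExtCitation.archimedeanDecomposition : ℕ) : ZMod p) ≠ 0 :=
  ⟨H73.F6.exists_d0_of_invertible hG ρ, H73.F6.exists_d1_of_invertible hG 𝓛 ρ,
    fun _ _ h => H73.F6.card_arch_ne_zero h⟩

/-- **A perfect pairing from dimensions** (`H73F6`): two vector spaces of the same finite dimension have a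
perfect pairing. (The frozen statement asserts only that a perfect pairing exists.) -/
theorem pairing_of_dimensions {k V W : Type} [Field k] [AddCommGroup V] [Module k V]
    [AddCommGroup W] [Module k W] [Module.Finite k V] [Module.Finite k W]
    (h : finrank k V = finrank k W) :
    ∃ B : V →ₗ[k] W →ₗ[k] k, (∀ y, (∀ x, B y x = 0) → y = 0) ∧
      (∀ x, (∀ y, B y x = 0) → x = 0) :=
  H73.F6.exists_perfect h

/-- **S55 from the numerical theorem** (`H73F6`): if `dim Sha^1(A') = dim Sha^2(A) < ∞` for all finite smooth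
`A` (`finrank_sha` of `GuidePoitouTate`), the perfect pairing of the frozen statement exists. By the
preceding theorems and `prelude_sha`. -/
theorem poitou_tate_of_dimensions {p : ℕ} [Fact p.Prime] (S : Finset Nat.Primes)
    (M : Rep (ZMod p) (AlgebraicClosure ℚ ≃ₐ[ℚ] AlgebraicClosure ℚ)) (hp2 : p ≠ 2)
    (hpS : ExtCitation.pPrime p ∈ S) [FiniteDimensional (ZMod p) M]
    (hsm : ∀ m : M, ∃ F : IntermediateField ℚ (AlgebraicClosure ℚ), FiniteDimensional ℚ F ∧
      ∀ s ∈ F.fixingSubgroup, M.ρ s m = m)
    (hMur : ∀ q : Nat.Primes, q ∉ S → ∀ A : ValuationSubring (AlgebraicClosure ℚ),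
      A.LiesOverPrime (q : ℕ) → ∀ g ∈ A.inertiaSubgroupIn ℚ, M.ρ g = 1)
    (hPT : ∀ (V : Type) [AddCommGroup V] [Module (ZMod p) V] [Module.Finite (ZMod p) V]
      (ρ : Representation (ZMod p) (AlgebraicClosure ℚ ≃ₐ[ℚ] AlgebraicClosure ℚ) V),
      Smooth (ramLevels S) ρ →
      Module.Finite (ZMod p) ((DS S).Sha1 (dtw (ExtCitation.cycloChar p) ρ)) ∧
      Module.Finite (ZMod p) ((DS S).Sha2 ρ) ∧
      finrank (ZMod p) ((DS S).Sha1 (dtw (ExtCitation.cycloChar p) ρ)) =
        finrank (ZMod p) ((DS S).Sha2 ρ)) :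
    ∃ B : groupCohomology.sha₁ S (M.dualTwist (ExtCitation.cycloChar p)) →ₗ[ZMod p]
        groupCohomology.sha₂ S M →ₗ[ZMod p] ZMod p,
      (∀ y, (∀ x, B y x = 0) → y = 0) ∧ (∀ x, (∀ y, B y x = 0) → x = 0) :=
  H73.F6.S55_of_numeric S M hp2 hpS hsm hMur hPT

/-- **S55 from the arithmetic input** (`H55Fin`). Everything formal together: if `p` is odd and in `S`, and
the dimensions for trivial coefficients are as in `ArithInput` (written out in `arithInput_iff` of
`GuidePoitouTate`), then there is a perfect pairing of `sha₁ S (M')` and `sha₂ S M`, for every finite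
`F_p`-module `M` of the Galois group which is smooth and unramified outside `S`. -/
theorem poitou_tate_of_arithInput {p : ℕ} [Fact p.Prime] (hp2 : p ≠ 2) (S : Finset Nat.Primes)
    (hpS : ExtCitation.pPrime p ∈ S) (hA : ArithInput (DS S) (ExtCitation.cycloChar p))
    (M : Rep (ZMod p) (AlgebraicClosure ℚ ≃ₐ[ℚ] AlgebraicClosure ℚ)) [FiniteDimensional (ZMod p) M]
    (hsm : ∀ m : M, ∃ F : IntermediateField ℚ (AlgebraicClosure ℚ), FiniteDimensional ℚ F ∧
      ∀ s ∈ F.fixingSubgroup, M.ρ s m = m)
    (hMur : ∀ q : Nat.Primes, q ∉ S → ∀ A : ValuationSubring (AlgebraicClosure ℚ),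
      A.LiesOverPrime (q : ℕ) → ∀ g ∈ A.inertiaSubgroupIn ℚ, M.ρ g = 1) :
    ∃ B : groupCohomology.sha₁ S (M.dualTwist (ExtCitation.cycloChar p)) →ₗ[ZMod p]
        groupCohomology.sha₂ S M →ₗ[ZMod p] ZMod p,
      (∀ y, (∀ x, B y x = 0) → y = 0) ∧ (∀ x, (∀ y, B y x = 0) → x = 0) :=
  S55_of_arithInput hp2 S hpS hA M hsm hMur

end Fermat.Agent.Guide.LevelCohomology
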