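import Fermat.Agent.H92LevNat
import Fermat.Agent.H91InfRes

/-!
# Guide to the proof: locally constant cochains and long exact sequences (for S55 and S56)

This file is a machine-checked table of contents, the companion of `GuideLevelCohomology` (section 1b) and
of `GuideHasseH2` (section 2). Every theorem below is a citation of theorems of the library, with its
statement written out. Only the list `Guide` imports this file.

**What the block does.** The cohomology of Galois groups in the proof of S55 (`GuidePoitouTate`) and S56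
(`GuideEulerChar`) is computed with inhomogeneous cochains in at most two variables which are constant on
the cosets of a small subgroup. There are no topologies, no resolutions and no derived functors. This file
contains the elementary layer: the rules for locally constant cochains, the groups `H^0`, `H^1`, `H^2`, their
functoriality, and the long exact sequence up to `H^2(B) → H^2(C)`, in terms of cochains.

**The steps.**
 1. Level families: a basis of neighbourhoods of the identity by subgroups of finite index. A locally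
    constant function has finitely many values. Pull-backs; open subgroups; the families of `Gal(ℚ̄/ℚ)`.
 2. Cochains: differentials, smooth representations, cocycles, coboundaries, classes.
 3. Maps: a homomorphism of groups backwards and a linear map forwards induce maps of `H^0`, `H^1`, `H^2`.
 4. Short exact sequences: locally constant cochains lift, hence the two connecting maps.
 5. Exactness at the six places from `H^0(C)` to `H^2(B)`, each time as a statement about cochains.
 6. Dimension counts: the Euler characteristic `h^0 - h^1 + h^2` of the middle term is at most the sum of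
    the two others, with equality exactly if `H^2(B) → H^2(C)` is surjective.
 7. Degree two for a group acting on an abelian group (`H91InfRes`): the pieces of the proof of
    inflation-restriction (theorem `inflation` of `GuideHasseH2`).

**Notation.** `𝓥 : LevelFam G` a level family, `𝓥.carrier` its set of subgroups ("levels");
`𝓥.IsConst₁ f`, `𝓥.IsConst₂ f`: locally constant functions of one and two variables; `𝓥.IsOpenSubgroup U`:
`U` contains a level; `𝓥.comap r`: the pull-back along a homomorphism `r`; `𝓥.restrict U`: the restriction to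
a subgroup. `d0 ρ`, `d1 ρ`, `d2 ρ`: the differentials of a representation `ρ`; `Z1`, `B1`, `Z2`, `B2`: locally
constant cocycles and coboundaries; `LH1 𝓥 ρ`, `LH2 𝓥 ρ`: the quotients, with the maps `mk1`, `mk2`. In
sections 4 to 6 `E : SES 𝓥 ρA ρB ρC` is a short exact sequence `0 → A → B → C → 0` with the maps `E.f`, `E.g`;
`E.fP`, `E.gP` are the two maps as pairs, `E.fP.H1`, ... the induced maps, `E.δ0`, `E.δ1` the connecting maps.

**Where.** NOTES.md, Appendix A.10: [206], [209]. Files `H91Level`, `H91InfRes`, `H92LevBasic`,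
`H92LevLES`, `H92LevNat` (2550 lines). In the proof terms of S55 and S56, and of S01, S03, S04, S06, S38,
S43, S45, S46, S50, S59, S60 (all through the inequality of Greenberg and Wiles,
`GuideEulerChar.greenberg_wiles`; S56 itself is not used for them); the theorem `prelude_families` only of
S55. Authors: helper91 (files `H91*`), helper92 (files `H92Lev*`).
-/

set_option autoImplicit false
set_option maxSynthPendingDepth 3

namespace Fermat.Agent.Guide.LevelSequences

open Module Function Fermat.Agent.H91 Fermat.Agent.H91.LevelFam Fermat.Agent.H92 groupCohomology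

/-! ## 1. Level families -/

/-- **Normal levels** (`H91Level`). The axioms of a level family: it is not empty, the intersection of two
levels contains a level, and every level contains a normal level of finite index. Hence a locally constant
function is constant on the cosets of a normal level of finite index. -/
theorem normal_levels {G X : Type*} [Group G] {𝓥 : LevelFam G} :
    (∀ f : G → X, 𝓥.IsConst₁ f → ∃ V ∈ 𝓥.carrier, V.Normal ∧ V.FiniteIndex ∧
      ∀ g, ∀ s ∈ V, f (g * s) = f g) ∧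
    ∀ f : G × G → X, 𝓥.IsConst₂ f → ∃ V ∈ 𝓥.carrier, V.Normal ∧ V.FiniteIndex ∧
      ∀ g g', ∀ s ∈ V, ∀ s' ∈ V, f (g * s, g' * s') = f (g, g') :=
  ⟨fun _ h => h.exists_normal, fun _ h => h.exists_normal⟩

/-- **Finitely many values** (`H92LevBasic`): a locally constant function factors over a finite quotient. -/
theorem finite_range {G X : Type*} [Group G] {𝓥 : LevelFam G} {f : G → X} (hf : 𝓥.IsConst₁ f) :
    (Set.range f).Finite :=
  isConst₁_finite_range hf

/-- **Rules in one variable** (`H91Level`): constants, and any function of two locally constant functions. -/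
theorem rules_one {G X Y Z : Type*} [Group G] {𝓥 : LevelFam G} :
    (∀ x : X, 𝓥.IsConst₁ fun _ => x) ∧
      ∀ (f : G → X) (f' : G → Y) (φ : X → Y → Z), 𝓥.IsConst₁ f → 𝓥.IsConst₁ f' →
        𝓥.IsConst₁ fun g => φ (f g) (f' g) :=
  ⟨isConst₁_const, fun _ _ φ h h' => h.map₂ h' φ⟩

/-- **Rules in two variables** (`H91Level`, `H92LevBasic`): the same, and the functions `f(g)`, `f(g h)` of
`(g, h)` for a locally constant `f`; the second uses a normal level. -/
theorem rules_two {G X Y Z : Type*} [Group G] {𝓥 : LevelFam G} :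
    (∀ x : X, 𝓥.IsConst₂ fun _ => x) ∧
      (∀ (f : G × G → X) (f' : G × G → Y) (φ : X → Y → Z), 𝓥.IsConst₂ f → 𝓥.IsConst₂ f' →
        𝓥.IsConst₂ fun g => φ (f g) (f' g)) ∧
      ∀ f : G → X, 𝓥.IsConst₁ f →
        𝓥.IsConst₂ (fun g => f g.1) ∧ 𝓥.IsConst₂ (fun g => f (g.1 * g.2)) :=
  ⟨isConst₂_const, fun _ _ φ h h' => h.map₂ h' φ, fun _ h => ⟨isConst₂_fst h, isConst₂_mul h⟩⟩

/-- **Pull-back** (`H91Level`): the levels of `𝓥.comap r` are the preimages of the levels of `𝓥`; locally
constant functions pull back to locally constant functions. -/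
theorem pull_back {G H X : Type*} [Group G] [Group H] (𝓥 : LevelFam G) (r : H →* G) :
    (∀ W, W ∈ (𝓥.comap r).carrier ↔ ∃ V ∈ 𝓥.carrier, W = V.comap r) ∧
      (∀ f : H → X, (𝓥.comap r).IsConst₁ f ↔
        ∃ V ∈ 𝓥.carrier, ∀ g s, r s ∈ V → f (g * s) = f g) ∧
      (∀ f : G → X, 𝓥.IsConst₁ f → (𝓥.comap r).IsConst₁ fun h => f (r h)) ∧
      ∀ f : G × G → X, 𝓥.IsConst₂ f → (𝓥.comap r).IsConst₂ fun h => f (r h.1, r h.2) :=
  ⟨fun _ => Iff.rfl, isConst₁_comap_iff 𝓥 r, fun _ h => h.comap r, fun _ h => h.comap r⟩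

/-- **Open subgroups** (`H91Level`): those containing a level. They have finite index; levels are open;
overgroups, intersections and preimages of open subgroups are open. -/
theorem open_subgroups {G H : Type*} [Group G] [Group H] (𝓥 : LevelFam G) (r : H →* G) :
    (∀ U, 𝓥.IsOpenSubgroup U ↔ ∃ V ∈ 𝓥.carrier, V ≤ U) ∧
      (∀ V ∈ 𝓥.carrier, 𝓥.IsOpenSubgroup V) ∧
      ∀ U, 𝓥.IsOpenSubgroup U → U.FiniteIndex ∧ (∀ W, U ≤ W → 𝓥.IsOpenSubgroup W) ∧
        (∀ W, 𝓥.IsOpenSubgroup W → 𝓥.IsOpenSubgroup (U ⊓ W)) ∧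
        (𝓥.comap r).IsOpenSubgroup (U.comap r) :=
  ⟨fun _ => Iff.rfl, fun _ h => isOpenSubgroup_of_mem h,
    fun _ h => ⟨h.finiteIndex, fun _ h' => h.mono h', fun _ h' => h.inf h', h.comap r⟩⟩

/-- **The families of `Gal(ℚ̄/ℚ)`** (`H91Level`): `krullFam` consists of the groups `Gal(ℚ̄/F)`, `F` a number
field; `ramFam S` of those with `F` unramified outside `S`. (The axiom on normal levels is proved with
normal closures.) -/
theorem galois_families (S : Finset Nat.Primes) (V : Subgroup GQ) :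
    (V ∈ krullFam.carrier ↔ ∃ F : IntermediateField ℚ (AlgebraicClosure ℚ),
      FiniteDimensional ℚ F ∧ V = F.fixingSubgroup) ∧
    (V ∈ (ramFam S).carrier ↔ ∃ F : IntermediateField ℚ (AlgebraicClosure ℚ),
      F.IsUnramifiedOutside S ∧ V = F.fixingSubgroup) :=
  ⟨Iff.rfl, Iff.rfl⟩

/-- **The cochains of the Prelude** (`H91Level`), used in the definitions of the cohomology groups in the
statement S55, are the locally constant functions for these two families and their pull-backs. -/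
theorem prelude_families {G X : Type*} [Group G] (r : G →* GQ) (S : Finset Nat.Primes) :
    (∀ f : G → X, IsLevelConstant₁ r f ↔ (krullFam.comap r).IsConst₁ f) ∧
      (∀ f : GQ → X, IsLevelConstantS₁ S f ↔ (ramFam S).IsConst₁ f) ∧
      ∀ f : GQ × GQ → X, IsLevelConstantS₂ S f ↔ (ramFam S).IsConst₂ f :=
  ⟨isLevelConstant₁_iff r, isLevelConstantS₁_iff S, isLevelConstantS₂_iff S⟩

/-! ## 2. Cochains, cocycles, classes -/

/-- **The differentials** (`H92LevBasic`), with `d1 ∘ d0 = 0` and `d2 ∘ d1 = 0`. They are defined on all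
functions, not only on the locally constant ones. -/
theorem differentials {k G A : Type*} [CommRing k] [Group G] [AddCommGroup A] [Module k A]
    (ρ : Representation k G A) (g h j : G) :
    (∀ a, d0 ρ a g = ρ g a - a) ∧ (∀ f, d1 ρ f (g, h) = ρ g (f h) - f (g * h) + f g) ∧
      (∀ f, d2 ρ f (g, h, j) = ρ g (f (h, j)) - f (g * h, j) + f (g, h * j) - f (g, h)) ∧
      (∀ a, d1 ρ (d0 ρ a) = 0) ∧ ∀ f, d2 ρ (d1 ρ f) = 0 :=
  ⟨fun _ => rfl, fun _ => rfl, fun _ => rfl, d1_d0 ρ, d2_d1 ρ⟩

/-- **Smooth representations** (`H92LevBasic`): every vector is fixed by a level; then finitely many vectors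
are fixed by one level, and the functions `g ↦ g a` and `(g, h) ↦ g f(h)`, `f` locally constant, are locally
constant (for the second: `f` has finitely many values). -/
theorem smooth_representations {k G A : Type*} [CommRing k] [Group G] [AddCommGroup A] [Module k A]
    {𝓥 : LevelFam G} {ρ : Representation k G A} (hs : H92.Smooth 𝓥 ρ) :
    (∀ a, ∃ V ∈ 𝓥.carrier, ∀ s ∈ V, ρ s a = a) ∧
      (∀ S : Set A, S.Finite → ∃ V ∈ 𝓥.carrier, ∀ s ∈ V, ∀ a ∈ S, ρ s a = a) ∧
      (∀ a, 𝓥.IsConst₁ fun g => ρ g a) ∧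
      ∀ f : G → A, 𝓥.IsConst₁ f → 𝓥.IsConst₂ fun g => ρ g.1 (f g.2) :=
  ⟨hs, fun _ hS => hs.exists_fix hS, fun a => hs.isConst₁_rho a, fun _ hf => hs.isConst₂_rho hf⟩

/-- **Coboundaries of locally constant cochains are locally constant** (`H92LevBasic`), for a smooth
representation. -/
theorem coboundaries_constant {k G A : Type*} [CommRing k] [Group G] [AddCommGroup A] [Module k A]
    {𝓥 : LevelFam G} {ρ : Representation k G A} (hs : H92.Smooth 𝓥 ρ) :
    (∀ a, 𝓥.IsConst₁ (d0 ρ a)) ∧ ∀ f : G → A, 𝓥.IsConst₁ f → 𝓥.IsConst₂ (d1 ρ f) :=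
  ⟨fun a => d0_mem_LC1 hs a, fun _ hf => d1_mem_LC2 hs hf⟩

/-- **Cocycles and coboundaries** (`H92LevBasic`). For `B2` the cochain `b` has to be locally constant; for
`B1` nothing has to be required. -/
theorem cocycles {k G A : Type*} [CommRing k] [Group G] [AddCommGroup A] [Module k A]
    (𝓥 : LevelFam G) (ρ : Representation k G A) :
    (∀ f, f ∈ Z1 𝓥 ρ ↔ (∀ g h, f (g * h) = ρ g (f h) + f g) ∧ 𝓥.IsConst₁ f) ∧
      (∀ f, f ∈ B1 ρ ↔ ∃ a, ∀ g, f g = ρ g a - a) ∧
      (∀ f, f ∈ Z2 𝓥 ρ ↔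
        (∀ g h j, ρ g (f (h, j)) + f (g, h * j) = f (g * h, j) + f (g, h)) ∧ 𝓥.IsConst₂ f) ∧
      ∀ f, f ∈ B2 𝓥 ρ ↔ ∃ b : G → A, 𝓥.IsConst₁ b ∧ d1 ρ b = f :=
  ⟨fun _ => mem_Z1_iff', fun _ => mem_B1_iff, fun _ => mem_Z2_iff', fun _ => mem_B2_iff⟩

/-- **Classes in `H^1`** (`H92LevBasic`): every class is the class of a cocycle, and it is zero if and only
if the cocycle is of the form `g ↦ g a - a`. -/
theorem classes_one {k G A : Type*} [CommRing k] [Group G] [AddCommGroup A] [Module k A]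
    (𝓥 : LevelFam G) (ρ : Representation k G A) :
    Surjective (mk1 𝓥 ρ) ∧
      ∀ f : Z1 𝓥 ρ, mk1 𝓥 ρ f = 0 ↔ ∃ a, ∀ g, (f : G → A) g = ρ g a - a :=
  ⟨mk1_surjective 𝓥 ρ, fun _ => mk1_eq_zero_iff'⟩

/-- **Classes in `H^2`** (`H92LevBasic`). -/
theorem classes_two {k G A : Type*} [CommRing k] [Group G] [AddCommGroup A] [Module k A]
    (𝓥 : LevelFam G) (ρ : Representation k G A) :
    Surjective (mk2 𝓥 ρ) ∧
      ∀ f : Z2 𝓥 ρ, mk2 𝓥 ρ f = 0 ↔ ∃ b : G → A, 𝓥.IsConst₁ b ∧ d1 ρ b = f :=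
  ⟨mk2_surjective 𝓥 ρ, fun _ => mk2_eq_zero_iff'⟩

/-! ## 3. Maps -/

/-- **Pairs** (`PairHom`, in `H92LevBasic`). A pair consists of a homomorphism `r : H → G` for which every
level of `G` contains the image of a level of `H`, and a linear map `φ : A → B` with `φ(r(h) a) = h φ(a)`.
The cochain `f` on `G` is sent to `h ↦ φ(f(r(h)))`, similarly in two variables; this commutes with the
differentials. -/
theorem maps_of_cochains {k G H A B : Type*} [CommRing k] [Group G] [Group H] [AddCommGroup A]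
    [Module k A] [AddCommGroup B] [Module k B] {𝓥 : LevelFam G} {ρ : Representation k G A}
    {𝓦 : LevelFam H} {σ : Representation k H B} (P : PairHom 𝓥 ρ 𝓦 σ) :
    (∀ h a, P.φ (ρ (P.r h) a) = σ h (P.φ a)) ∧
      (∀ V ∈ 𝓥.carrier, ∃ W ∈ 𝓦.carrier, ∀ s ∈ W, P.r s ∈ V) ∧
      (∀ f h, P.c1 f h = P.φ (f (P.r h))) ∧
      (∀ f h h', P.c2 f (h, h') = P.φ (f (P.r h, P.r h'))) ∧
      (∀ a, P.c1 (d0 ρ a) = d0 σ (P.φ a)) ∧ (∀ f, P.c2 (d1 ρ f) = d1 σ (P.c1 f)) ∧
      ∀ f h h' h'', d2 σ (P.c2 f) (h, h', h'') = P.φ (d2 ρ f (P.r h, P.r h', P.r h'')) :=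
  ⟨P.compat, P.level, fun _ _ => rfl, fun _ _ _ => rfl, P.c1_d0, P.c2_d1, P.d2_c2⟩

/-- **Locally constant cochains are mapped to locally constant cochains** (`H92LevBasic`), cocycles to
cocycles and coboundaries to coboundaries. -/
theorem maps_of_cocycles {k G H A B : Type*} [CommRing k] [Group G] [Group H] [AddCommGroup A]
    [Module k A] [AddCommGroup B] [Module k B] {𝓥 : LevelFam G} {ρ : Representation k G A}
    {𝓦 : LevelFam H} {σ : Representation k H B} (P : PairHom 𝓥 ρ 𝓦 σ) :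
    (∀ f : G → A, 𝓥.IsConst₁ f → 𝓦.IsConst₁ (P.c1 f)) ∧
      (∀ f : G × G → A, 𝓥.IsConst₂ f → 𝓦.IsConst₂ (P.c2 f)) ∧
      (∀ f ∈ Z1 𝓥 ρ, P.c1 f ∈ Z1 𝓦 σ) ∧ (∀ f ∈ B1 ρ, P.c1 f ∈ B1 σ) ∧
      (∀ f ∈ Z2 𝓥 ρ, P.c2 f ∈ Z2 𝓦 σ) ∧ ∀ f ∈ B2 𝓥 ρ, P.c2 f ∈ B2 𝓦 σ :=
  ⟨fun _ h => P.c1_mem_LC1 h, fun _ h => P.c2_mem_LC2 h, fun _ h => P.c1_mem_Z1 h,
    fun _ h => P.c1_mem_B1 h, fun _ h => P.c2_mem_Z2 h, fun _ h => P.c2_mem_B2 h⟩

/-- **Factorisation** (`H92LevBasic`): the tool for maps out of `H^1`, `H^2` and for the connecting maps. A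
linear map `β` which vanishes on the kernel of the surjective map `α` factors through `α`. -/
theorem factorisation {k P X Y : Type*} [CommRing k] [AddCommGroup P] [Module k P]
    [AddCommGroup X] [Module k X] [AddCommGroup Y] [Module k Y] (α : P →ₗ[k] X)
    (hα : Surjective α) (β : P →ₗ[k] Y) (h : ∀ x, α x = 0 → β x = 0) :
    ∃ γ : X →ₗ[k] Y, ∀ x, γ (α x) = β x :=
  ⟨factor α hα β h, factor_apply α hα β h⟩

/-- **The induced maps of `H^0`, `H^1`, `H^2`** (`H92LevBasic`). `H^0` is `ρ.invariants`; `P.z1 f` and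
`P.z2 f` are the cocycles `P.c1 f` and `P.c2 f`. -/
theorem maps_of_cohomology {k G H A B : Type*} [CommRing k] [Group G] [Group H] [AddCommGroup A]
    [Module k A] [AddCommGroup B] [Module k B] {𝓥 : LevelFam G} {ρ : Representation k G A}
    {𝓦 : LevelFam H} {σ : Representation k H B} (P : PairHom 𝓥 ρ 𝓦 σ) :
    (∀ a : ρ.invariants, (P.H0 a : B) = P.φ a) ∧
      (∀ f : Z1 𝓥 ρ, P.H1 (mk1 𝓥 ρ f) = mk1 𝓦 σ (P.z1 f) ∧ (P.z1 f : H → B) = P.c1 f) ∧
      ∀ f : Z2 𝓥 ρ, P.H2 (mk2 𝓥 ρ f) = mk2 𝓦 σ (P.z2 f) ∧ (P.z2 f : H × H → B) = P.c2 f :=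
  ⟨fun _ => rfl, fun f => ⟨P.H1_mk f, rfl⟩, fun f => ⟨P.H2_mk f, rfl⟩⟩

/-! ## 4. Short exact sequences and connecting maps

In sections 4, 5 and 6 `k` is a commutative ring (a field in section 6), `G` a group with a level family
`𝓥`, and `A`, `B`, `C` are the modules of three representations of `G`. -/

/-- **Short exact sequences** (`H92LevLES`): two equivariant linear maps, the first injective, the second
surjective, the image of the first is the kernel of the second; the middle term is smooth (then the other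
two are smooth as well). -/
theorem short_exact_sequence {k G A B C : Type*} [CommRing k] [Group G] [AddCommGroup A]
    [Module k A] [AddCommGroup B] [Module k B] [AddCommGroup C] [Module k C] (𝓥 : LevelFam G)
    (ρA : Representation k G A) (ρB : Representation k G B) (ρC : Representation k G C) :
    Nonempty (SES 𝓥 ρA ρB ρC) ↔ ∃ (f : A →ₗ[k] B) (g : B →ₗ[k] C),
      (∀ x a, f (ρA x a) = ρB x (f a)) ∧ (∀ x b, g (ρB x b) = ρC x (g b)) ∧ Injective f ∧
        Surjective g ∧ (∀ b, g b = 0 ↔ ∃ a, f a = b) ∧ H92.Smooth 𝓥 ρB :=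
  ⟨fun ⟨E⟩ => ⟨E.f, E.g, E.hf, E.hg, E.inj, E.surj, E.exact, E.smooth⟩,
    fun ⟨f, g, h1, h2, h3, h4, h5, h6⟩ => ⟨⟨f, g, h1, h2, h3, h4, h5, h6⟩⟩⟩

section

variable {k G A B C : Type*} [CommRing k] [Group G] [AddCommGroup A] [Module k A]
  [AddCommGroup B] [Module k B] [AddCommGroup C] [Module k C] {𝓥 : LevelFam G}
  {ρA : Representation k G A} {ρB : Representation k G B} {ρC : Representation k G C}

/-- **Cochains with values in `A` and `C`** (`H92LevLES`). Local constancy can be checked in `B`; a locally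
constant function with values in `C` lifts to a locally constant function with values in `B` (compose it
with a section of `B → C`; the section is only a map of sets). -/
theorem lifts_of_cochains (E : SES 𝓥 ρA ρB ρC) :
    (∀ F : G → A, 𝓥.IsConst₁ (fun x => E.f (F x)) → 𝓥.IsConst₁ F) ∧
      (∀ F : G × G → A, 𝓥.IsConst₂ (fun x => E.f (F x)) → 𝓥.IsConst₂ F) ∧
      ∀ F : G → C, 𝓥.IsConst₁ F → ∃ F' : G → B, 𝓥.IsConst₁ F' ∧ ∀ x, E.g (F' x) = F x :=
  ⟨fun _ h => E.isConst₁_of_f (fun _ => rfl) h, fun _ h => E.isConst₂_of_f (fun _ => rfl) h,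
    fun _ h => E.exists_lift1 h⟩

/-- **The maps commute with the differentials** (`H92LevLES`). -/
theorem maps_and_differentials (E : SES 𝓥 ρA ρB ρC) :
    (∀ (F : G → A) (x : G × G), E.f (d1 ρA F x) = d1 ρB (fun y => E.f (F y)) x) ∧
      (∀ (F : G × G → A) (x : G × G × G), E.f (d2 ρA F x) = d2 ρB (fun y => E.f (F y)) x) ∧
      ∀ (F : G → B) (x : G × G), E.g (d1 ρB F x) = d1 ρC (fun y => E.g (F y)) x :=
  ⟨E.d1_f, E.d2_f, E.d1_g⟩

/-- **The connecting map in degree 0** (`H92LevLES`): if `b ∈ B` lifts the invariant `c` and the cocycle `a`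
with values in `A` is `x ↦ x b - b`, then `E.δ0 c` is the class of `a`, whatever the lift. -/
theorem connecting_zero (E : SES 𝓥 ρA ρB ρC) (c : ρC.invariants) (b : B) (hb : E.g b = c)
    (a : Z1 𝓥 ρA) (ha : ∀ x, E.f ((a : G → A) x) = ρB x b - b) : E.δ0 c = mk1 𝓥 ρA a :=
  E.δ0_eq c.2 hb ha

/-- **The coboundary of a lift is a cocycle with values in `A`** (`H92LevLES`): `b` a locally constant
function with values in `B` whose image in `C` is a cocycle. -/
theorem coboundary_of_lift (E : SES 𝓥 ρA ρB ρC) (b : G → B) (hb : 𝓥.IsConst₁ b)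
    (hc : (fun x => E.g (b x)) ∈ Z1 𝓥 ρC) :
    ∃ a : Z2 𝓥 ρA, ∀ x, E.f ((a : G × G → A) x) = d1 ρB b x :=
  ⟨⟨E.β1c ⟨b, hb, hc⟩, E.β1c_mem ⟨b, hb, hc⟩⟩, fun x => E.f_β1c ⟨b, hb, hc⟩ x⟩

/-- **The connecting map in degree 1** (`H92LevLES`): if the locally constant `b : G → B` lifts the cocycle
`c` and the cocycle `a` with values in `A` is `d b`, then `E.δ1` of the class of `c` is the class of `a`. -/
theorem connecting_one (E : SES 𝓥 ρA ρB ρC) (c : Z1 𝓥 ρC) (b : G → B) (hb : 𝓥.IsConst₁ b)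
    (hbc : ∀ x, E.g (b x) = (c : G → C) x) (a : Z2 𝓥 ρA)
    (ha : ∀ x, E.f ((a : G × G → A) x) = d1 ρB b x) : E.δ1 (mk1 𝓥 ρC c) = mk2 𝓥 ρA a :=
  E.δ1_eq hb hbc ha

/-- **Why `δ1` is well defined** (`H92LevLES`): if the image of `b` in `C` is a coboundary, then the cocycle
`a = d b` with values in `A` is the coboundary of a locally constant function with values in `A`. -/
theorem well_defined (E : SES 𝓥 ρA ρB ρC) (b : G → B) (hb : 𝓥.IsConst₁ b) (c : C)
    (hc : ∀ x, E.g (b x) = ρC x c - c) (a : Z2 𝓥 ρA)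
    (ha : ∀ x, E.f ((a : G × G → A) x) = d1 ρB b x) :
    ∃ a' : G → A, 𝓥.IsConst₁ a' ∧ d1 ρA a' = a := by
  have hz : (fun x => E.g (b x)) ∈ Z1 𝓥 ρC :=
    mem_Z1_iff.2 ⟨by
      have h : (fun x => E.g (b x)) = d0 ρC c := funext hc
      rw [h, d1_d0], hb.comp E.g⟩
  obtain ⟨a', ha', h⟩ := mk2_eq_zero_iff'.1 (E.ker_α1_le ⟨b, hb, hz⟩ (mk1_eq_zero_iff'.2 ⟨c, hc⟩))
  exact ⟨a', ha', h.trans (funext fun x => E.inj ((E.f_β1c ⟨b, hb, hz⟩ x).trans (ha x).symm))⟩

/-! ## 5. Exactness

The eight statements of exactness are `long_exact_sequence` of `GuideLevelCohomology`. The following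
statements are what the last six mean for cochains (only the inclusion "kernel in the image"). -/

/-- **Exactness at `H^0(C)`** (`H92LevLES`): if `c` is invariant and `δ0 c = 0`, then `c` has an invariant
lift. -/
theorem exact_at_H0C (E : SES 𝓥 ρA ρB ρC) (c : ρC.invariants) (hc : E.δ0 c = 0) :
    ∃ b : B, (∀ x, ρB x b = b) ∧ E.g b = c := by
  obtain ⟨b, hb⟩ := (E.exact_H0_g_δ0 c).1 hc
  exact ⟨b, b.2, congrArg Subtype.val hb⟩

/-- **Exactness at `H^1(A)`** (`H92LevLES`): a cocycle with values in `A` which becomes `x ↦ x b - b` in `B`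
represents `δ0` of the image of `b`, which is invariant. -/
theorem exact_at_H1A (E : SES 𝓥 ρA ρB ρC) (a : Z1 𝓥 ρA) (b : B)
    (hb : ∀ x, E.f ((a : G → A) x) = ρB x b - b) :
    ∃ c : ρC.invariants, (c : C) = E.g b ∧ E.δ0 c = mk1 𝓥 ρA a := by
  have hinv : E.g b ∈ ρC.invariants := fun x => by
    rw [← E.hg, ← sub_eq_zero, ← map_sub, ← hb x, E.gf]
  exact ⟨⟨E.g b, hinv⟩, rfl, E.δ0_eq hinv rfl hb⟩

/-- **Exactness at `H^1(B)`** (`H92LevLES`): a cocycle `b` whose image in `C` is `x ↦ x c - c` is cohomologous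
to a cocycle with values in `A`. -/
theorem exact_at_H1B (E : SES 𝓥 ρA ρB ρC) (b : Z1 𝓥 ρB) (c : C)
    (hc : ∀ x, E.g ((b : G → B) x) = ρC x c - c) :
    ∃ (a : Z1 𝓥 ρA) (b' : B), ∀ x, E.f ((a : G → A) x) - (b : G → B) x = ρB x b' - b' := by
  have h : E.gP.H1 (mk1 𝓥 ρB b) = 0 := by
    rw [PairHom.H1_mk]
    exact mk1_eq_zero_iff'.2 ⟨c, hc⟩
  obtain ⟨a, ha⟩ := (E.exact_H1_f_g _).1 h
  obtain ⟨a, rfl⟩ := mk1_surjective 𝓥 ρA a
  rw [PairHom.H1_mk, mk1_eq_mk1_iff, mem_B1_iff] at ha
  obtain ⟨b', hb'⟩ := ha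
  exact ⟨a, b', hb'⟩

/-- **Exactness at `H^1(C)`** (`H92LevLES`): a cocycle `c` whose class is killed by `δ1` has a lift which is a
cocycle. (The exactness gives a cocycle `b` with values in `B` whose image is `c` up to a coboundary
`x ↦ x c' - c'`; subtract `x ↦ x b' - b'` from `b`, where `b'` lifts `c'`.) -/
theorem exact_at_H1C (E : SES 𝓥 ρA ρB ρC) (c : Z1 𝓥 ρC) (hc : E.δ1 (mk1 𝓥 ρC c) = 0) :
    ∃ b : Z1 𝓥 ρB, ∀ x, E.g ((b : G → B) x) = (c : G → C) x := by
  obtain ⟨b, hb⟩ := (E.exact_H1_g_δ1 _).1 hc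
  obtain ⟨b, rfl⟩ := mk1_surjective 𝓥 ρB b
  rw [PairHom.H1_mk, mk1_eq_mk1_iff, mem_B1_iff] at hb
  obtain ⟨c', hc'⟩ := hb
  obtain ⟨b', rfl⟩ := E.surj c'
  refine ⟨⟨(b : G → B) - d0 ρB b', sub_mem b.2 ⟨d1_d0 ρB b', d0_mem_LC1 E.smooth b'⟩⟩, fun x => ?_⟩
  have h : E.g ((b : G → B) x) - (c : G → C) x = ρC x (E.g b') - E.g b' := hc' x
  change E.g ((b : G → B) x - (ρB x b' - b')) = (c : G → C) x
  rw [map_sub, map_sub, E.hg, ← h, sub_sub_cancel]

/-- **Exactness at `H^2(A)`** (`H92LevLES`): a cocycle with values in `A` which becomes the coboundary of the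
locally constant `b : G → B` represents `δ1` of the class of the image of `b` in `C`, which is a cocycle. -/
theorem exact_at_H2A (E : SES 𝓥 ρA ρB ρC) (a : Z2 𝓥 ρA) (b : G → B) (hb : 𝓥.IsConst₁ b)
    (ha : ∀ x, E.f ((a : G × G → A) x) = d1 ρB b x) :
    ∃ c : Z1 𝓥 ρC, (∀ x, (c : G → C) x = E.g (b x)) ∧ E.δ1 (mk1 𝓥 ρC c) = mk2 𝓥 ρA a := by
  have hz : (fun x => E.g (b x)) ∈ Z1 𝓥 ρC :=
    mem_Z1_iff.2 ⟨by
      funext x
      rw [← E.d1_g, ← ha, E.gf]
      rfl, hb.comp E.g⟩
  exact ⟨⟨_, hz⟩, fun _ => rfl, E.δ1_eq hb (fun _ => rfl) ha⟩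

/-- **Exactness at `H^2(B)`** (`H92LevLES`): a cocycle `b` whose image in `C` is the coboundary of a locally
constant function differs from a cocycle with values in `A` by the coboundary of a locally constant
function. -/
theorem exact_at_H2B (E : SES 𝓥 ρA ρB ρC) (b : Z2 𝓥 ρB) (c : G → C) (hc : 𝓥.IsConst₁ c)
    (hbc : ∀ x, E.g ((b : G × G → B) x) = d1 ρC c x) :
    ∃ (a : Z2 𝓥 ρA) (b' : G → B), 𝓥.IsConst₁ b' ∧
      ∀ x, d1 ρB b' x = E.f ((a : G × G → A) x) - (b : G × G → B) x := by
  have h : E.gP.H2 (mk2 𝓥 ρB b) = 0 := by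
    rw [PairHom.H2_mk]
    exact mk2_eq_zero_iff'.2 ⟨c, hc, funext fun x => (hbc x).symm⟩
  obtain ⟨a, ha⟩ := (E.exact_H2_f_g _).1 h
  obtain ⟨a, rfl⟩ := mk2_surjective 𝓥 ρA a
  rw [PairHom.H2_mk, mk2_eq_mk2_iff, mem_B2_iff] at ha
  obtain ⟨b', hb', h'⟩ := ha
  exact ⟨a, b', hb', fun x => congrFun h' x⟩

end

/-! ## 6. Dimension counts -/

/-- **Finiteness and dimension in an exact sequence** (`H92LevNat`) `X → Y → Z` of vector spaces. -/
theorem exact_dimensions {k X Y Z : Type*} [Field k] [AddCommGroup X] [Module k X] [AddCommGroup Y]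
    [Module k Y] [AddCommGroup Z] [Module k Z] {f : X →ₗ[k] Y} {g : Y →ₗ[k] Z} (h : Exact f g) :
    (Module.Finite k X → Module.Finite k Z → Module.Finite k Y) ∧
      (Module.Finite k Y → finrank k Y =
        finrank k (LinearMap.range f) + finrank k (LinearMap.range g)) :=
  ⟨fun _ _ => finite_of_exact h, fun _ => finrank_of_exact h⟩

/-- **The two ends** (`H92LevNat`): an injective map preserves the dimension; the dimension of the
cokernel. -/
theorem end_dimensions {k X Y : Type*} [Field k] [AddCommGroup X] [Module k X] [AddCommGroup Y]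
    [Module k Y] (f : X →ₗ[k] Y) :
    (Injective f → finrank k (LinearMap.range f) = finrank k X) ∧
      (Module.Finite k Y → finrank k (Y ⧸ LinearMap.range f) + finrank k (LinearMap.range f) =
        finrank k Y) :=
  ⟨finrank_range_of_injective, fun _ => finrank_coker f⟩

/-- **The partial Euler characteristic** (`H92LevNat`): `chi2` is `h^0 - h^1 + h^2`, an integer; `FinCoh`
says that these three groups are finite-dimensional. -/
theorem euler_characteristic {k G A : Type*} [Field k] [Group G] [AddCommGroup A] [Module k A]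
    (𝓥 : LevelFam G) (ρ : Representation k G A) :
    chi2 𝓥 ρ = finrank k ρ.invariants - finrank k (LH1 𝓥 ρ) + finrank k (LH2 𝓥 ρ) ∧
      (FinCoh 𝓥 ρ ↔ Module.Finite k ρ.invariants ∧ Module.Finite k (LH1 𝓥 ρ) ∧
        Module.Finite k (LH2 𝓥 ρ)) :=
  ⟨rfl, fun h => ⟨h.fin0, h.fin1, h.fin2⟩, fun h => ⟨h.1, h.2.1, h.2.2⟩⟩

/-- **The middle term** (`H92LevNat`) of a short exact sequence: its cohomology is finite if that of the two
others is, its Euler characteristic is at most the sum of the two others, and it is equal to the sum if and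
only if `H^2(B) → H^2(C)` is surjective. -/
theorem middle_term {k G A B C : Type*} [Field k] [Group G] [AddCommGroup A] [Module k A]
    [AddCommGroup B] [Module k B] [AddCommGroup C] [Module k C] {𝓥 : LevelFam G}
    {ρA : Representation k G A} {ρB : Representation k G B} {ρC : Representation k G C}
    (E : SES 𝓥 ρA ρB ρC) (hA : FinCoh 𝓥 ρA) (hC : FinCoh 𝓥 ρC) :
    FinCoh 𝓥 ρB ∧ chi2 𝓥 ρB ≤ chi2 𝓥 ρA + chi2 𝓥 ρC ∧
      (chi2 𝓥 ρB = chi2 𝓥 ρA + chi2 𝓥 ρC ↔ Surjective E.gP.H2) :=
  ⟨E.finCoh hA hC, E.chi2_le hA hC, E.chi2_eq_iff hA hC⟩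

/-! ## 7. Degree two for a group acting on an abelian group

Here `G` acts on an abelian group `A` (in the applications mostly the multiplicative group of `ℚ̄`). `dd x` is
the coboundary of `x : G → A`; `𝓥.Triv₂ f`: `f` is the coboundary of a locally constant cochain; `𝓥.Smooth A`:
every element of `A` is fixed by a level. -/

section

variable {G A : Type*} [Group G] [AddCommGroup A] [DistribMulAction G A] {𝓥 : LevelFam G}

/-- **Coboundaries** (`H91InfRes`) are cocycles; the coboundary of a principal crossed homomorphism is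
zero. -/
theorem coboundaries_two :
    (∀ x : G → A, IsCocycle₂ (dd x)) ∧
      ∀ (a : A) (g h : G), dd (fun g : G => g • a - a) (g, h) = 0 :=
  ⟨isCocycle₂_dd, dd_coboundary⟩

/-- **Trivial cocycles** (`H91InfRes`) form a group, closed under multiples. -/
theorem trivial_cocycles {f f' : G × G → A} (hf : 𝓥.Triv₂ f) (hf' : 𝓥.Triv₂ f') (n : ℤ) :
    𝓥.Triv₂ (f + f') ∧ 𝓥.Triv₂ (f - f') ∧ 𝓥.Triv₂ (n • f) :=
  ⟨hf.add hf', hf.sub hf', hf.zsmul n⟩

/-- **Small levels** (`H91InfRes`): finitely many levels contain a common level; if `A` is smooth, the values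
of a locally constant `x : G → A` are fixed by a normal level of finite index, and the coboundary of `x` is
locally constant. -/
theorem small_levels (hA : 𝓥.Smooth A) :
    (∀ (n : ℕ) (V : Fin n → Subgroup G), (∀ i, V i ∈ 𝓥.carrier) →
      ∃ X ∈ 𝓥.carrier, ∀ i, X ≤ V i) ∧
    ∀ x : G → A, 𝓥.IsConst₁ x → 𝓥.IsConst₂ (dd x) ∧
      ∃ V ∈ 𝓥.carrier, V.Normal ∧ V.FiniteIndex ∧ (∀ g, ∀ s ∈ V, x (g * s) = x g) ∧
        ∀ g, ∀ s ∈ V, s • x g = x g :=
  ⟨fun _ V hV => exists_mem_le_of_finite V hV, fun _ hx => ⟨hx.dd hA, hx.exists_fix hA⟩⟩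

/-- **Extension of cochains** (`H91InfRes`): a locally constant function on an open subgroup `H` is the
restriction of a locally constant function on `G` (extend it by zero). -/
theorem extension {H : Subgroup G} (hH : 𝓥.IsOpenSubgroup H) {x : H → A}
    (hx : (𝓥.restrict H).IsConst₁ x) : ∃ y : G → A, 𝓥.IsConst₁ y ∧ ∀ h : H, y h = x h :=
  exists_extend hH hx

/-- **Inflated cocycles** (`H91InfRes`). `H` normal, `f` a cocycle with `f(h, g) = 0 = f(g, h)` for `h ∈ H`
(`Inflated H f`). Then `f` depends only on the classes of its arguments modulo `H`, its values are fixed by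
`H`, and `f` is locally constant if `H` is open: `f` is a cocycle of `G / H` with values in `A^H`. -/
theorem inflated_cocycles {H : Subgroup G} [H.Normal] {f : G × G → A} (hf : Inflated H f)
    (g j : G) (h : G) (hh : h ∈ H) :
    f (g * h, j) = f (g, j) ∧ f (g, j * h) = f (g, j) ∧ h • f (g, j) = f (g, j) ∧
      (𝓥.IsOpenSubgroup H → 𝓥.IsConst₂ f) :=
  ⟨hf.mul_left g j hh, hf.mul_right g j hh, hf.smul_eq g j hh, fun hH => hf.isConst₂ hH⟩

end

/-! **How `GuideHasseH2.inflation` is proved** (`LevelFam.exists_inflated`, `H91InfRes`). Let `f` be a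
cocycle of `G` whose restriction to the open normal subgroup `H` is a coboundary, and suppose that Hilbert 90
holds on `H`. (1) Extend the cochain on `H` to `G` and subtract its coboundary: now `f = 0` on `H × H`.
(2) With a representative `s` of `gH` and `β(g) = -f(s, s⁻¹ g)` the cocycle `f - d β` vanishes if its second
argument is in `H`. (3) Now `f(h, g) = f(h, s)` for `h ∈ H`, and `h ↦ f(h, s)` is a cocycle of `H`, by
Hilbert 90 of the form `h ↦ h a(s) - a(s)`; with `b(g) = a(s)` for `g ∉ H` and `b = 0` on `H` the cocycle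
`f - d b` vanishes also if its first argument is in `H`. -/

end Fermat.Agent.Guide.LevelSequences
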