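import Mathlib
import Fermat.Agent.H19Setting

/-!
# S19: values of functions at places (helper19)
-/

set_option autoImplicit false

noncomputable section

open AlgebraicCurve WithZero

namespace Fermat.Agent.H19

open Fermat.Agent.H40 Fermat.Agent.H94

section Value

variable {K F : Type*} [Field K] [Field F] [Algebra K F]

theorem mem_iff_ord {P : Place K F} {f : F} : f ∈ P.toValuationSubring ↔ 0 ≤ P.ord f :=
  ⟨ord_nonneg_of_mem P, mem_of_ord_nonneg P⟩

theorem hasVal_const (P : Place K F) (c : K) : HasVal P (algebraMap K F c) c := Or.inl (sub_self _)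

theorem HasVal.mem {P : Place K F} {f : F} {c : K} (h : HasVal P f c) :
    f ∈ P.toValuationSubring := by
  have h1 : f - algebraMap K F c ∈ P.toValuationSubring := by
    rcases h with h | h
    · rw [h]; exact zero_mem _
    · exact mem_of_ord_nonneg P h.le
  have := add_mem h1 (P.algebraMap_mem' c)
  simpa using this

theorem HasVal.eq {P : Place K F} {f : F} {c c' : K} (h : HasVal P f c) (h' : HasVal P f c') :
    c = c' := by
  by_contra hne
  have h1 : algebraMap K F (c - c') ≠ 0 := by
    rw [Ne, map_eq_zero]
    exact sub_ne_zero.mpr hne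
  have h2 : algebraMap K F (c - c') = -(f - algebraMap K F c) + (f - algebraMap K F c') := by
    rw [map_sub]; ring
  have h3 : -(f - algebraMap K F c) = 0 ∨ (1 : ℤ) ≤ P.ord (-(f - algebraMap K F c)) := by
    rcases h with h | h
    · left; rw [h, neg_zero]
    · right
      rw [show P.ord (-(f - algebraMap K F c)) = P.ord (f - algebraMap K F c) by
        simp only [Place.ord, Valuation.map_neg]]
      exact h
  have h4 : f - algebraMap K F c' = 0 ∨ (1 : ℤ) ≤ P.ord (f - algebraMap K F c') := h'
  rcases H94.ord_add_ge P h3 h4 with h5 | h5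
  · rw [← h2] at h5; exact h1 h5
  · rw [← h2, H94.ord_algebraMap] at h5
    omega

theorem exists_hasVal [IsAlgClosed K] [FunField K F] {P : Place K F} {f : F}
    (hf : f ∈ P.toValuationSubring) : ∃ c, HasVal P f c :=
  exists_sub_algebraMap_ord_pos P hf

theorem hasVal_zero_iff {P : Place K F} {f : F} : HasVal P f 0 ↔ f = 0 ∨ 0 < P.ord f := by
  simp [HasVal]

theorem HasVal.add {P : Place K F} {f g : F} {c d : K} (hf : HasVal P f c) (hg : HasVal P g d) :
    HasVal P (f + g) (c + d) := by
  have h1 : f + g - algebraMap K F (c + d) = (f - algebraMap K F c) + (g - algebraMap K F d) := by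
    rw [map_add]; ring
  rw [HasVal, h1]
  have h2 : f - algebraMap K F c = 0 ∨ (1 : ℤ) ≤ P.ord (f - algebraMap K F c) := hf
  have h3 : g - algebraMap K F d = 0 ∨ (1 : ℤ) ≤ P.ord (g - algebraMap K F d) := hg
  exact H94.ord_add_ge P h2 h3

theorem HasVal.mul_zero' {P : Place K F} {f g : F} (hf : HasVal P f 0)
    (hg : g ∈ P.toValuationSubring) : HasVal P (f * g) 0 := by
  rw [hasVal_zero_iff] at hf ⊢
  rcases eq_or_ne f 0 with rfl | hf0
  · left; rw [zero_mul]
  rcases eq_or_ne g 0 with rfl | hg0
  · left; rw [mul_zero]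
  right
  rw [P.ord_mul hf0 hg0]
  have := hf.resolve_left hf0
  have := ord_nonneg_of_mem P hg
  omega

theorem HasVal.sub_const {P : Place K F} {f : F} {c : K} (hf : HasVal P f c) :
    HasVal P (f - algebraMap K F c) 0 := by
  rw [hasVal_zero_iff]; exact hf

theorem HasVal.mul {P : Place K F} {f g : F} {c d : K} (hf : HasVal P f c) (hg : HasVal P g d) :
    HasVal P (f * g) (c * d) := by
  have h1 : f * g = (f - algebraMap K F c) * g + (algebraMap K F c * (g - algebraMap K F d) +
      algebraMap K F (c * d)) := by
    rw [map_mul]; ring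
  have h2 := hf.sub_const.mul_zero' hg.mem
  have h3 := hg.sub_const.mul_zero' (P.algebraMap_mem' c)
  have h4 := h2.add (h3.add (hasVal_const P (c * d)))
  rw [zero_add, zero_add] at h4
  rw [h1, mul_comm (algebraMap K F c)]
  exact h4

theorem HasVal.neg {P : Place K F} {f : F} {c : K} (hf : HasVal P f c) : HasVal P (-f) (-c) := by
  have := (hasVal_const P (-1 : K)).mul hf
  simpa using this

theorem HasVal.sub {P : Place K F} {f g : F} {c d : K} (hf : HasVal P f c) (hg : HasVal P g d) :
    HasVal P (f - g) (c - d) := by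
  rw [sub_eq_add_neg, sub_eq_add_neg]
  exact hf.add hg.neg

theorem HasVal.pow {P : Place K F} {f : F} {c : K} (hf : HasVal P f c) (n : ℕ) :
    HasVal P (f ^ n) (c ^ n) := by
  induction n with
  | zero => rw [pow_zero, pow_zero]; simpa using hasVal_const P (1 : K)
  | succ n ih => rw [pow_succ, pow_succ]; exact ih.mul hf

theorem HasVal.smul {P : Place K F} {f : F} {c : K} (hf : HasVal P f c) (a : K) :
    HasVal P (a • f) (a * c) := by
  rw [Algebra.smul_def]
  exact (hasVal_const P a).mul hf

theorem HasVal.sum {P : Place K F} {ι : Type*} (T : Finset ι) {f : ι → F} {c : ι → K}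
    (h : ∀ i ∈ T, HasVal P (f i) (c i)) : HasVal P (∑ i ∈ T, f i) (∑ i ∈ T, c i) := by
  classical
  induction T using Finset.induction_on with
  | empty => simpa using hasVal_const P (0 : K)
  | insert a T ha ih =>
    rw [Finset.sum_insert ha, Finset.sum_insert ha]
    exact (h a (Finset.mem_insert_self _ _)).add
      (ih fun i hi => h i (Finset.mem_insert_of_mem hi))

/-- the value of a function at a place (`0` if there is a pole) -/
def pval (P : Place K F) (f : F) : K :=
  open Classical in if h : ∃ c, HasVal P f c then h.choose else 0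

theorem HasVal.pval_eq {P : Place K F} {f : F} {c : K} (h : HasVal P f c) : pval P f = c := by
  have h1 : ∃ c, HasVal P f c := ⟨c, h⟩
  rw [pval, dif_pos h1]
  exact h1.choose_spec.eq h

theorem hasVal_pval [IsAlgClosed K] [FunField K F] {P : Place K F} {f : F}
    (hf : f ∈ P.toValuationSubring) : HasVal P f (pval P f) := by
  obtain ⟨c, hc⟩ := exists_hasVal hf
  rw [hc.pval_eq]
  exact hc

/-- semilinear automorphisms -/
theorem HasVal.smul_aut {P : Place K F} {f : F} {c : K} (h : HasVal P f c)
    (γ : SemilinearAut K F) : HasVal (γ • P) (γ • f) (SemilinearAut.baseAut γ c) := by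
  have h1 : γ • f - algebraMap K F (SemilinearAut.baseAut γ c) = γ • (f - algebraMap K F c) := by
    rw [smul_sub, SemilinearAut.smul_algebraMap]
  rw [HasVal, h1]
  rcases h with h | h
  · left; rw [h, smul_zero]
  · right
    rw [SemilinearAut.ord_smul]
    exact h

theorem pval_smul_aut [IsAlgClosed K] [FunField K F] {P : Place K F} {f : F}
    (hf : f ∈ P.toValuationSubring) (γ : SemilinearAut K F) :
    pval (γ • P) (γ • f) = SemilinearAut.baseAut γ (pval P f) :=
  ((hasVal_pval hf).smul_aut γ).pval_eq

end Value

end Fermat.Agent.H19
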