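import Mathlib
import Fermat.Agent.H19Value

/-!
# S19: residue discs, coordinates and expansions (helper19)
-/

set_option autoImplicit false

noncomputable section

open AlgebraicCurve WithZero

namespace Fermat.Agent.H19

open Fermat.Agent.H40 Fermat.Agent.H94

namespace GoodRed

variable {K F k E : Type*} [Field K] [Field F] [Algebra K F] [Field k] [Field E] [Algebra k E]
variable (S : GoodRed K F k E)

theorem const_mem {a : K} (ha : a ∈ S.A) : algebraMap K F a ∈ S.B := S.mem_B ⟨a, ha⟩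

theorem ρ_const {a : K} (ha : a ∈ S.A) :
    S.ρ ⟨algebraMap K F a, S.const_mem ha⟩ = algebraMap k E (S.π ⟨a, ha⟩) := S.ρ_algebraMap ⟨a, ha⟩

theorem π_eq_zero_of_inv_notMem {a : K} (ha : a ∈ S.A) (h : a⁻¹ ∉ S.A) :
    S.π ⟨a, ha⟩ = 0 := by
  rw [S.π_eq_zero]
  rintro ⟨u, hu⟩
  apply h
  have h1 : (((u⁻¹ : S.Aˣ) : S.A) : K) * a = 1 := by
    have h2 : ((u⁻¹ : S.Aˣ) : S.A) * (u : S.A) = 1 := by simp
    have h3 := congrArg Subtype.val h2
    rw [hu] at h3
    exact h3
  have h2 : a⁻¹ = (((u⁻¹ : S.Aˣ) : S.A) : K) := by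
    rw [eq_comm]
    exact eq_inv_of_mul_eq_one_left h1
  rw [h2]
  exact SetLike.coe_mem _

theorem inv_mem_of_π_ne_zero {a : K} (ha : a ∈ S.A) (h : S.π ⟨a, ha⟩ ≠ 0) : a⁻¹ ∈ S.A := by
  by_contra hcon
  exact h (S.π_eq_zero_of_inv_notMem ha hcon)

/-- every nonzero function can be scaled to have nonzero reduction -/
theorem exists_scale {h : F} (hh : h ≠ 0) :
    ∃ (a : K) (b : S.B), a ≠ 0 ∧ S.ρ b ≠ 0 ∧ h = algebraMap K F a * b := by
  obtain ⟨n, b, hspan, hli⟩ := S.exists_basis (Submodule.span K {h}) inferInstance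
  have hn : n ≠ 0 := by
    rintro rfl
    rw [Set.range_eq_empty, Submodule.span_empty] at hspan
    have : h ∈ Submodule.span K {h} := Submodule.mem_span_singleton_self h
    rw [← hspan, Submodule.mem_bot] at this
    exact hh this
  let i : Fin n := ⟨0, Nat.pos_of_ne_zero hn⟩
  have h1 : (b i : F) ∈ Submodule.span K {h} := by
    rw [← hspan]
    exact Submodule.subset_span ⟨i, rfl⟩
  obtain ⟨c, hc⟩ := Submodule.mem_span_singleton.mp h1
  have hρ : S.ρ (b i) ≠ 0 := hli.ne_zero i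
  have hc0 : c ≠ 0 := by
    rintro rfl
    apply hρ
    have : b i = 0 := Subtype.ext (by rw [← hc, zero_smul]; rfl)
    rw [this, map_zero]
  refine ⟨c⁻¹, b i, inv_ne_zero hc0, hρ, ?_⟩
  rw [← hc, Algebra.smul_def, ← mul_assoc, ← map_mul, inv_mul_cancel₀ hc0, map_one, one_mul]

theorem mem_B_of_mul {y : S.B} (hy : S.ρ y ≠ 0) {h : F} (hyh : (y : F) * h ∈ S.B) : h ∈ S.B := by
  rcases eq_or_ne h 0 with rfl | hh
  · exact S.B.zero_mem
  obtain ⟨a, b, ha, hb, rfl⟩ := S.exists_scale hh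
  by_cases haA : a ∈ S.A
  · exact S.B.mul_mem (S.const_mem haA) b.2
  exfalso
  have h1 : a⁻¹ ∈ S.A := (S.A.mem_or_inv_mem a).resolve_left haA
  have h2 : S.π ⟨a⁻¹, h1⟩ = 0 := S.π_eq_zero_of_inv_notMem h1 (by rwa [inv_inv])
  have h3 : (⟨algebraMap K F a⁻¹, S.const_mem h1⟩ : S.B) *
      ⟨(y : F) * (algebraMap K F a * b), hyh⟩ = y * b := by
    apply Subtype.ext
    change algebraMap K F a⁻¹ * ((y : F) * (algebraMap K F a * b)) = (y : F) * b
    rw [map_inv₀]
    have : algebraMap K F a ≠ 0 := by simpa using ha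
    field_simp
  have h4 := congrArg S.ρ h3
  rw [map_mul, S.ρ_const h1, h2, map_zero, zero_mul, map_mul] at h4
  exact mul_ne_zero hy hb h4.symm

theorem mapDomain_apply_eq_sum (D : Divisor K F) (Q : Place k E) [DecidableEq (Place k E)] :
    Finsupp.mapDomain S.r D Q = ∑ v ∈ D.support.filter (fun v => S.r v = Q), D v := by
  classical
  rw [Finsupp.mapDomain, Finsupp.sum_apply, Finsupp.sum, Finset.sum_filter]
  exact Finset.sum_congr rfl fun v _ => by rw [Finsupp.single_apply]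

/-- Zeros of an integral function without poles in a residue disc. -/
theorem sum_ord_le {x : S.B} (hx : S.ρ x ≠ 0) {Q : Place k E}
    (hreg : ∀ P, S.r P = Q → 0 ≤ P.ord (x : F)) (T : Finset (Place K F))
    (hT : ∀ P ∈ T, S.r P = Q) : ∑ P ∈ T, P.ord (x : F) ≤ Q.ord (S.ρ x) := by
  classical
  have := S.pdF
  have hx0 : (x : F) ≠ 0 := by
    intro h
    apply hx
    rw [show x = 0 from Subtype.ext h, map_zero]
  obtain ⟨D, hD, -⟩ := HasPrincipalDivisors.exists_divisor (K := K) (x : F) hx0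
  rw [← S.div_red x hx D hD Q, S.mapDomain_apply_eq_sum]
  calc ∑ P ∈ T, P.ord (x : F) = ∑ P ∈ T, D P := Finset.sum_congr rfl fun P _ => (hD P).symm
    _ = ∑ P ∈ T.filter (fun P => P ∈ D.support), D P := by
        rw [Finset.sum_filter]
        refine Finset.sum_congr rfl fun P _ => ?_
        split_ifs with h
        · rfl
        · exact Finsupp.notMem_support_iff.mp h
    _ ≤ ∑ v ∈ D.support.filter (fun v => S.r v = Q), D v := by
        refine Finset.sum_le_sum_of_subset_of_nonneg ?_ ?_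
        · intro P hP
          rw [Finset.mem_filter] at hP ⊢
          exact ⟨hP.2, hT P hP.1⟩
        · intro P hP _
          rw [Finset.mem_filter] at hP
          rw [hD]
          exact hreg P hP.2

theorem ord_le {x : S.B} (hx : S.ρ x ≠ 0) {Q : Place k E}
    (hreg : ∀ P, S.r P = Q → 0 ≤ P.ord (x : F)) {P : Place K F} (hP : S.r P = Q) :
    P.ord (x : F) ≤ Q.ord (S.ρ x) := by
  have := S.sum_ord_le hx hreg {P} (by simpa using hP)
  simpa using this

theorem ord_add_ord_le {x : S.B} (hx : S.ρ x ≠ 0) {Q : Place k E}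
    (hreg : ∀ P, S.r P = Q → 0 ≤ P.ord (x : F)) {P P' : Place K F} (hP : S.r P = Q)
    (hP' : S.r P' = Q) (hne : P ≠ P') : P.ord (x : F) + P'.ord (x : F) ≤ Q.ord (S.ρ x) := by
  classical
  have := S.sum_ord_le hx hreg {P, P'} (by simp [hP, hP'])
  rwa [Finset.sum_pair hne] at this

/-- Functions integral and without poles in the residue disc of `Q`. -/
def discRing (Q : Place k E) : Subring F where
  carrier := {f | f ∈ S.B ∧ ∀ P, S.r P = Q → f ∈ P.toValuationSubring}
  zero_mem' := ⟨S.B.zero_mem, fun _ _ => zero_mem _⟩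
  one_mem' := ⟨S.B.one_mem, fun _ _ => one_mem _⟩
  add_mem' := fun ha hb => ⟨S.B.add_mem ha.1 hb.1, fun P hP => add_mem (ha.2 P hP) (hb.2 P hP)⟩
  mul_mem' := fun ha hb => ⟨S.B.mul_mem ha.1 hb.1, fun P hP => mul_mem (ha.2 P hP) (hb.2 P hP)⟩
  neg_mem' := fun ha => ⟨S.B.neg_mem ha.1, fun P hP => neg_mem (ha.2 P hP)⟩

variable {S}

theorem mem_discRing {Q : Place k E} {f : F} :
    f ∈ S.discRing Q ↔ f ∈ S.B ∧ ∀ P, S.r P = Q → f ∈ P.toValuationSubring := Iff.rfl

theorem const_mem_discRing (Q : Place k E) {a : K} (ha : a ∈ S.A) :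
    algebraMap K F a ∈ S.discRing Q :=
  ⟨S.const_mem ha, fun P _ => P.algebraMap_mem' a⟩

theorem ord_nonneg_of_discRing {Q : Place k E} {f : F} (hf : f ∈ S.discRing Q) {P : Place K F}
    (hP : S.r P = Q) : 0 ≤ P.ord f := mem_iff_ord.mp (hf.2 P hP)

theorem ne_zero_of_ρ {x : S.B} (hx : S.ρ x ≠ 0) : (x : F) ≠ 0 := by
  intro h
  apply hx
  rw [show x = 0 from Subtype.ext h, map_zero]

theorem ne_zero_of_ord_ne_zero {K F : Type*} [Field K] [Field F] [Algebra K F] {P : Place K F}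
    {f : F} (h : P.ord f ≠ 0) : f ≠ 0 := by
  rintro rfl
  exact h P.ord_zero

/-- Values on a residue disc are integral and reduce to the value of the reduction. -/
theorem hasVal_red {Q : Place k E} {f : F} (hf : f ∈ S.discRing Q) {P : Place K F}
    (hP : S.r P = Q) {c : K} (hc : HasVal P f c) :
    ∃ hcA : c ∈ S.A, HasVal Q (S.ρ ⟨f, hf.1⟩) (S.π ⟨c, hcA⟩) := by
  have hcA : c ∈ S.A := by
    by_contra hcA
    have h1 : c⁻¹ ∈ S.A := (S.A.mem_or_inv_mem c).resolve_left hcA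
    have h2 : S.π ⟨c⁻¹, h1⟩ = 0 := S.π_eq_zero_of_inv_notMem h1 (by rwa [inv_inv])
    have hc0 : c ≠ 0 := fun h => hcA (h ▸ S.A.zero_mem)
    -- `y = c⁻¹ f - 1`
    let y : S.B := ⟨algebraMap K F c⁻¹, S.const_mem h1⟩ * ⟨f, hf.1⟩ - 1
    have hy : S.ρ y = -1 := by
      rw [map_sub, map_mul, S.ρ_const h1, h2, map_zero, zero_mul, map_one, zero_sub]
    have hyF : (y : F) = algebraMap K F c⁻¹ * f - 1 := rfl
    have hyF' : (y : F) = algebraMap K F c⁻¹ * (f - algebraMap K F c) := by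
      rw [hyF, mul_sub, ← map_mul, inv_mul_cancel₀ hc0, map_one]
    have hy0 : S.ρ y ≠ 0 := by rw [hy]; exact neg_ne_zero.mpr one_ne_zero
    have hydisc : (y : F) ∈ S.discRing Q :=
      (S.discRing Q).sub_mem ((S.discRing Q).mul_mem (const_mem_discRing Q h1) hf)
        (S.discRing Q).one_mem
    have h3 : P.ord (y : F) ≤ Q.ord (S.ρ y) :=
      S.ord_le hy0 (fun P' hP' => ord_nonneg_of_discRing hydisc hP') hP
    have h4 : HasVal P (y : F) 0 := by
      rw [hyF]
      have := ((hasVal_const P c⁻¹).mul hc).sub (hasVal_const P (1 : K))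
      rwa [map_one, inv_mul_cancel₀ hc0, sub_self] at this
    rw [hasVal_zero_iff] at h4
    have h5 := h4.resolve_left (ne_zero_of_ρ hy0)
    have h6 : Q.ord (S.ρ y) = 0 := by
      rw [hy, ← map_one (algebraMap k E), ← map_neg, H94.ord_algebraMap]
    omega
  refine ⟨hcA, ?_⟩
  let y : S.B := ⟨f, hf.1⟩ - ⟨algebraMap K F c, S.const_mem hcA⟩
  have hy : S.ρ y = S.ρ ⟨f, hf.1⟩ - algebraMap k E (S.π ⟨c, hcA⟩) := by
    rw [map_sub, S.ρ_const hcA]
  rw [HasVal, ← hy]
  by_cases hy0 : S.ρ y = 0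
  · exact Or.inl hy0
  right
  have hydisc : (y : F) ∈ S.discRing Q :=
    (S.discRing Q).sub_mem hf (const_mem_discRing Q hcA)
  have h3 : P.ord (y : F) ≤ Q.ord (S.ρ y) :=
    S.ord_le hy0 (fun P' hP' => ord_nonneg_of_discRing hydisc hP') hP
  have h5 : 0 < P.ord (y : F) := hc.resolve_left (ne_zero_of_ρ hy0)
  omega

variable (S) in
/-- constants in the maximal ideal -/
def IsSmall (a : K) : Prop := ∃ h : a ∈ S.A, S.π ⟨a, h⟩ = 0

theorem IsSmall.mem {a : K} (h : S.IsSmall a) : a ∈ S.A := h.1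

/-- multiplication by a unit of the Gauss ring which is regular -/
theorem div_mem_discRing {Q : Place k E} {f y : F} (hf : f ∈ S.discRing Q) (hy : y ∈ S.B)
    (hρy : S.ρ ⟨y, hy⟩ ≠ 0) (h : ∀ P, S.r P = Q → f = 0 ∨ P.ord y ≤ P.ord f) :
    f / y ∈ S.discRing Q := by
  have hy0 : y ≠ 0 := ne_zero_of_ρ hρy
  refine ⟨S.mem_B_of_mul hρy ?_, fun P hP => ?_⟩
  · change y * (f / y) ∈ S.B
    rw [mul_div_cancel₀ _ hy0]
    exact hf.1
  · rw [mem_iff_ord]
    rcases eq_or_ne f 0 with rfl | hf0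
    · rw [zero_div, P.ord_zero]
    have h1 := (h P hP).resolve_left hf0
    rw [div_eq_mul_inv, P.ord_mul hf0 (inv_ne_zero hy0), P.ord_inv]
    omega

end GoodRed

open GoodRed

variable {K F k E : Type*} [Field K] [Field F] [Algebra K F] [Field k] [Field E] [Algebra k E]

/-- A coordinate on the residue disc of `Q`, with centre `P0`. -/
structure Coord (S : GoodRed K F k E) (Q : Place k E) where
  /-- the centre -/
  P0 : Place K F
  /-- the coordinate function -/
  z : F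
  hz : z ∈ S.discRing Q
  r_P0 : S.r P0 = Q
  ord_P0 : 0 < P0.ord z
  ord_ρ : Q.ord (S.ρ ⟨z, hz.1⟩) = 1

namespace Coord

variable {S : GoodRed K F k E} {Q : Place k E} (C : Coord S Q)

theorem ρ_ne_zero : S.ρ ⟨C.z, C.hz.1⟩ ≠ 0 :=
  ne_zero_of_ord_ne_zero (P := Q) (by rw [C.ord_ρ]; exact one_ne_zero)

theorem hasVal_P0 : HasVal C.P0 C.z 0 := hasVal_zero_iff.mpr (Or.inr C.ord_P0)

theorem isSmall {P : Place K F} (hP : S.r P = Q) {a : K} (ha : HasVal P C.z a) : S.IsSmall a := by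
  obtain ⟨h1, h2⟩ := hasVal_red C.hz hP ha
  refine ⟨h1, h2.eq ?_⟩
  rw [hasVal_zero_iff, C.ord_ρ]
  exact Or.inr one_pos

/-- the translated coordinate -/
theorem sub_mem {a : K} (ha : S.IsSmall a) : C.z - algebraMap K F a ∈ S.discRing Q :=
  (S.discRing Q).sub_mem C.hz (const_mem_discRing Q ha.mem)

theorem ρ_sub {a : K} (ha : S.IsSmall a) :
    S.ρ ⟨C.z - algebraMap K F a, (C.sub_mem ha).1⟩ = S.ρ ⟨C.z, C.hz.1⟩ := by
  have h1 : (⟨C.z - algebraMap K F a, (C.sub_mem ha).1⟩ : S.B) =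
    ⟨C.z, C.hz.1⟩ - ⟨algebraMap K F a, S.const_mem ha.mem⟩ := rfl
  rw [h1, map_sub, S.ρ_const ha.mem, ha.2, map_zero, sub_zero]

theorem ord_sub {P : Place K F} (hP : S.r P = Q) {a : K} (ha : HasVal P C.z a) :
    P.ord (C.z - algebraMap K F a) = 1 := by
  have ha' := C.isSmall hP ha
  have h1 : S.ρ ⟨C.z - algebraMap K F a, (C.sub_mem ha').1⟩ ≠ 0 := by
    rw [C.ρ_sub ha']; exact C.ρ_ne_zero
  have h2 : P.ord (C.z - algebraMap K F a) ≤ Q.ord _ :=
    S.ord_le h1 (fun P' hP' => ord_nonneg_of_discRing (C.sub_mem ha') hP') hP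
  rw [C.ρ_sub ha', C.ord_ρ] at h2
  have h3 : 0 < P.ord (C.z - algebraMap K F a) := by
    rcases ha with h | h
    · exact absurd h (ne_zero_of_ρ h1)
    · exact h
  omega

theorem ord_sub_of_ne {P P' : Place K F} (hP : S.r P = Q) (hP' : S.r P' = Q) (hne : P ≠ P')
    {a : K} (ha : HasVal P C.z a) : P'.ord (C.z - algebraMap K F a) = 0 := by
  have ha' := C.isSmall hP ha
  have h1 : S.ρ ⟨C.z - algebraMap K F a, (C.sub_mem ha').1⟩ ≠ 0 := by
    rw [C.ρ_sub ha']; exact C.ρ_ne_zero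
  have h2 : P.ord (C.z - algebraMap K F a) + P'.ord (C.z - algebraMap K F a) ≤ Q.ord _ :=
    S.ord_add_ord_le h1 (fun P' hP' => ord_nonneg_of_discRing (C.sub_mem ha') hP') hP hP' hne
  rw [C.ρ_sub ha', C.ord_ρ, C.ord_sub hP ha] at h2
  have := ord_nonneg_of_discRing (C.sub_mem ha') hP'
  omega

theorem ord_z_P0 : C.P0.ord C.z = 1 := by
  have := C.ord_sub C.r_P0 C.hasVal_P0
  rwa [map_zero, sub_zero] at this

theorem ord_z_of_ne {P : Place K F} (hP : S.r P = Q) (hne : P ≠ C.P0) : P.ord C.z = 0 := by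
  have := C.ord_sub_of_ne C.r_P0 hP hne.symm C.hasVal_P0
  rwa [map_zero, sub_zero] at this

/-- the coordinate is injective on the disc -/
theorem eq_of_hasVal {P P' : Place K F} (hP : S.r P = Q) (hP' : S.r P' = Q) {a : K}
    (ha : HasVal P C.z a) (ha' : HasVal P' C.z a) : P = P' := by
  by_contra hne
  have h1 := C.ord_sub_of_ne hP hP' hne ha
  have h2 := C.ord_sub hP' ha'
  omega

theorem z_ne_zero : C.z ≠ 0 := ne_zero_of_ρ C.ρ_ne_zero

/-- division by the coordinate -/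
theorem div_mem {f : F} (hf : f ∈ S.discRing Q) (h0 : HasVal C.P0 f 0) :
    f / C.z ∈ S.discRing Q := by
  refine div_mem_discRing hf C.hz.1 C.ρ_ne_zero fun P hP => ?_
  rcases eq_or_ne f 0 with rfl | hf0
  · exact Or.inl rfl
  right
  rcases eq_or_ne P C.P0 with rfl | hne
  · rw [C.ord_z_P0]
    rw [hasVal_zero_iff] at h0
    have := h0.resolve_left hf0
    omega
  · rw [C.ord_z_of_ne hP hne]
    exact ord_nonneg_of_discRing hf hP

variable [IsAlgClosed K] [FunField K F]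

/-- the shift: `f = f(P0) + z * shift f` -/
def shift (f : F) : F := (f - algebraMap K F (pval C.P0 f)) / C.z

theorem hasVal_of_disc {f : F} (hf : f ∈ S.discRing Q) {P : Place K F} (hP : S.r P = Q) :
    HasVal P f (pval P f) := hasVal_pval (hf.2 P hP)

theorem pval_mem {f : F} (hf : f ∈ S.discRing Q) {P : Place K F} (hP : S.r P = Q) :
    pval P f ∈ S.A := (hasVal_red hf hP (hasVal_pval (hf.2 P hP))).1

theorem shift_mem {f : F} (hf : f ∈ S.discRing Q) : C.shift f ∈ S.discRing Q := by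
  refine C.div_mem ((S.discRing Q).sub_mem hf (const_mem_discRing Q (pval_mem hf C.r_P0))) ?_
  have := (hasVal_pval (hf.2 _ C.r_P0)).sub (hasVal_const C.P0 (pval C.P0 f))
  rwa [sub_self] at this

theorem eq_add_shift (f : F) : f = algebraMap K F (pval C.P0 f) + C.z * C.shift f := by
  rw [shift, mul_div_cancel₀ _ C.z_ne_zero]
  ring

/-- Taylor coefficients at the centre -/
def coeff (f : F) (n : ℕ) : K := pval C.P0 (C.shift^[n] f)

theorem iterate_shift_mem {f : F} (hf : f ∈ S.discRing Q) (n : ℕ) :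
    C.shift^[n] f ∈ S.discRing Q := by
  induction n with
  | zero => exact hf
  | succ n ih => rw [Function.iterate_succ_apply']; exact C.shift_mem ih

theorem coeff_mem {f : F} (hf : f ∈ S.discRing Q) (n : ℕ) : C.coeff f n ∈ S.A :=
  pval_mem (C.iterate_shift_mem hf n) C.r_P0

theorem expansion (f : F) (m : ℕ) :
    f = (∑ n ∈ Finset.range m, algebraMap K F (C.coeff f n) * C.z ^ n) +
      C.z ^ m * C.shift^[m] f := by
  induction m with
  | zero => simp
  | succ m ih =>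
    rw [Finset.sum_range_succ, Function.iterate_succ_apply']
    conv_lhs => rw [ih, C.eq_add_shift (C.shift^[m] f)]
    rw [coeff]
    ring

/-- expansion of values -/
theorem exists_expansion_pval {f : F} (hf : f ∈ S.discRing Q) (m : ℕ) {P : Place K F}
    (hP : S.r P = Q) : ∃ a ∈ S.A, pval P f =
      (∑ n ∈ Finset.range m, C.coeff f n * pval P C.z ^ n) + pval P C.z ^ m * a := by
  have hz := hasVal_of_disc C.hz hP
  have hm := C.iterate_shift_mem hf m
  refine ⟨pval P (C.shift^[m] f), pval_mem hm hP, ?_⟩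
  refine HasVal.pval_eq ?_
  have h1 : HasVal P ((∑ n ∈ Finset.range m, algebraMap K F (C.coeff f n) * C.z ^ n) +
      C.z ^ m * C.shift^[m] f) ((∑ n ∈ Finset.range m, C.coeff f n * pval P C.z ^ n) +
        pval P C.z ^ m * pval P (C.shift^[m] f)) :=
    (HasVal.sum _ fun n _ => (hasVal_const P (C.coeff f n)).mul (hz.pow n)).add
      ((hz.pow m).mul (hasVal_of_disc hm hP))
  rwa [← C.expansion f m] at h1

section Equivariance

variable {γ : SemilinearAut K F} (hP0 : γ • C.P0 = C.P0) (hz : γ • C.z = C.z)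

include hP0

theorem baseAut_pval {f : F} (hf : f ∈ S.discRing Q) (hγf : γ • f = f) :
    SemilinearAut.baseAut γ (pval C.P0 f) = pval C.P0 f := by
  rw [← pval_smul_aut (hf.2 _ C.r_P0) γ, hP0, hγf]

include hz

theorem smul_shift {f : F} (hf : f ∈ S.discRing Q) (hγf : γ • f = f) :
    γ • C.shift f = C.shift f := by
  rw [shift, div_eq_mul_inv, smul_mul', smul_inv'', smul_sub, SemilinearAut.smul_algebraMap, hz,
    hγf, C.baseAut_pval hP0 hf hγf]

theorem smul_iterate_shift {f : F} (hf : f ∈ S.discRing Q) (hγf : γ • f = f) (n : ℕ) :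
    γ • C.shift^[n] f = C.shift^[n] f := by
  induction n with
  | zero => exact hγf
  | succ n ih =>
    rw [Function.iterate_succ_apply']
    exact C.smul_shift hP0 hz (C.iterate_shift_mem hf n) ih

theorem baseAut_coeff {f : F} (hf : f ∈ S.discRing Q) (hγf : γ • f = f) (n : ℕ) :
    SemilinearAut.baseAut γ (C.coeff f n) = C.coeff f n :=
  C.baseAut_pval hP0 (C.iterate_shift_mem hf n) (C.smul_iterate_shift hP0 hz hf hγf n)

end Equivariance

end Coord

end Fermat.Agent.H19
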