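import Mathlib
import Fermat.Agent.H23RedPic
import Fermat.Agent.H19Disc

/-!
# Classes in the kernel of reduction as sums over an inertia orbit (helper17), local part
-/

set_option autoImplicit false
set_option linter.unusedSectionVars false

noncomputable section

open AlgebraicCurve WithZero

namespace Fermat.Agent.H17

open Fermat.Agent.H40 Fermat.Agent.H19 Fermat.Agent.H23 GoodRed

variable {K F k E : Type*} [Field K] [Field F] [Algebra K F] [Field k] [Field E] [Algebra k E]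

/-- `ϖ` is a uniformizer of the field of constants fixed by `H`. -/
structure Unif (S : GoodRed K F k E) (H : Subgroup (SemilinearAut K F)) (ϖ : K) : Prop where
  ne : ϖ ≠ 0
  fix : ∀ γ ∈ H, SemilinearAut.baseAut γ ϖ = ϖ
  small : S.IsSmall ϖ
  dvd : ∀ a : K, (∀ γ ∈ H, SemilinearAut.baseAut γ a = a) → S.IsSmall a → a / ϖ ∈ S.A

section Val

theorem hasVal_prod {P : Place K F} {ι : Type*} (T : Finset ι) {f : ι → F} {c : ι → K}
    (h : ∀ i ∈ T, HasVal P (f i) (c i)) : HasVal P (∏ i ∈ T, f i) (∏ i ∈ T, c i) := by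
  classical
  induction T using Finset.induction_on with
  | empty => simpa using hasVal_const P (1 : K)
  | insert a T ha ih =>
    rw [Finset.prod_insert ha, Finset.prod_insert ha]
    exact (h a (Finset.mem_insert_self _ _)).mul
      (ih fun i hi => h i (Finset.mem_insert_of_mem hi))

theorem HasVal.ord_eq_zero {P : Place K F} {f : F} {c : K} (h : HasVal P f c) (hc : c ≠ 0) :
    P.ord f = 0 := by
  have h1 : 0 ≤ P.ord f := mem_iff_ord.mp h.mem
  by_contra hne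
  have h2 : HasVal P f 0 := hasVal_zero_iff.mpr (Or.inr (by omega))
  exact hc (h.eq h2)

end Val

variable {S : GoodRed K F k E}

theorem isSmall_prod {ι : Type*} (T : Finset ι) (hT : T.Nonempty) {c : ι → K}
    (h : ∀ i ∈ T, S.IsSmall (c i)) : S.IsSmall (∏ i ∈ T, c i) := by
  classical
  have key : ∀ {a b : K}, S.IsSmall a → b ∈ S.A → S.IsSmall (a * b) := by
    rintro a b ⟨ha, ha0⟩ hb
    refine ⟨S.A.mul_mem _ _ ha hb, ?_⟩
    have h1 : (⟨a * b, S.A.mul_mem _ _ ha hb⟩ : S.A) = ⟨a, ha⟩ * ⟨b, hb⟩ := rfl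
    rw [h1, map_mul, ha0, zero_mul]
  obtain ⟨i, hi⟩ := hT
  rw [← Finset.mul_prod_erase T c hi]
  exact key (h i hi) (prod_mem fun j hj => (h j (Finset.mem_of_mem_erase hj)).mem)

variable [IsAlgClosed K] [H94.FunField K F]

/-- An `H`-invariant function which is regular on a residue disc, and whose value at an invariant
centre is a uniformizer, has a single orbit of simple zeros in the disc. -/
theorem orbit_of_unif {Q : Place k E} (C : Coord S Q) {H : Subgroup (SemilinearAut K F)}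
    (hP0 : ∀ γ ∈ H, γ • C.P0 = C.P0) (hz : ∀ γ ∈ H, γ • C.z = C.z)
    (hr : ∀ γ ∈ H, ∀ P, S.r (γ • P) = S.r P)
    {ϖ : K} (hϖ : Unif S H ϖ) {g : F} (hg : g ∈ S.discRing Q) (hρ : S.ρ ⟨g, hg.1⟩ ≠ 0)
    (hgH : ∀ γ ∈ H, γ • g = g) {u : K} (hu : u ∈ S.A) (hu0 : S.π ⟨u, hu⟩ ≠ 0)
    (hval : pval C.P0 g = ϖ * u) :
    ∃ (P₁ : Place K F) (O : Finset (Place K F)), P₁ ∈ O ∧ (∀ P ∈ O, ∃ γ ∈ H, γ • P₁ = P) ∧
      (∀ P ∈ O, S.r P = Q) ∧ (O.card : ℤ) = Q.ord (S.ρ ⟨g, hg.1⟩) ∧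
      ∀ P, S.r P = Q → (P ∈ O → P.ord g = 1) ∧ (P ∉ O → P.ord g = 0) := by
  classical
  have := S.pdF
  have hg0 : g ≠ 0 := ne_zero_of_ρ hρ
  obtain ⟨D, hD, -⟩ := HasPrincipalDivisors.exists_divisor (K := K) g hg0
  have hsum := S.div_red ⟨g, hg.1⟩ hρ D hD Q
  rw [S.mapDomain_apply_eq_sum] at hsum
  -- the value at the centre is small, so there is a zero
  have hvalg : HasVal C.P0 g (ϖ * u) := by
    rw [← hval]; exact Coord.hasVal_of_disc hg C.r_P0
  obtain ⟨hϖuA, hvalQ⟩ := hasVal_red hg C.r_P0 hvalg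
  have hϖA := hϖ.small.mem
  have hπϖu : S.π ⟨ϖ * u, hϖuA⟩ = 0 := by
    have h1 : (⟨ϖ * u, hϖuA⟩ : S.A) = ⟨ϖ, hϖA⟩ * ⟨u, hu⟩ := rfl
    obtain ⟨h2, h3⟩ := hϖ.small
    rw [h1, map_mul, h3, zero_mul]
  rw [hπϖu, hasVal_zero_iff] at hvalQ
  have hm : 0 < Q.ord (S.ρ ⟨g, hg.1⟩) := hvalQ.resolve_left hρ
  obtain ⟨P₁, hP₁mem⟩ : (D.support.filter (fun v => S.r v = Q)).Nonempty := by
    rw [Finset.nonempty_iff_ne_empty]
    intro he
    rw [he, Finset.sum_empty] at hsum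
    omega
  rw [Finset.mem_filter, Finsupp.mem_support_iff] at hP₁mem
  obtain ⟨hP₁0, hP₁Q⟩ := hP₁mem
  have hordg : ∀ P, S.r P = Q → 0 ≤ P.ord g := fun P hP => ord_nonneg_of_discRing hg hP
  have hordγ : ∀ γ ∈ H, ∀ P : Place K F, (γ • P).ord g = P.ord g := by
    intro γ hγ P
    have := SemilinearAut.ord_smul γ P g
    rwa [hgH γ hγ] at this
  -- the orbit
  have hOfin : (MulAction.orbit H P₁).Finite := by
    refine (D.support.finite_toSet).subset ?_
    rintro _ ⟨γ, rfl⟩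
    rw [Finset.mem_coe, Finsupp.mem_support_iff, hD]
    show ((γ : SemilinearAut K F) • P₁).ord g ≠ 0
    rw [hordγ γ γ.2, ← hD]
    exact hP₁0
  set O : Finset (Place K F) := hOfin.toFinset with hO
  have hmemO : ∀ P, P ∈ O ↔ ∃ γ ∈ H, γ • P₁ = P := by
    intro P
    rw [hO, Set.Finite.mem_toFinset]
    constructor
    · rintro ⟨γ, rfl⟩
      exact ⟨γ, γ.2, rfl⟩
    · rintro ⟨γ, hγ, rfl⟩
      exact ⟨⟨γ, hγ⟩, rfl⟩
  have hP₁O : P₁ ∈ O := (hmemO P₁).mpr ⟨1, H.one_mem, one_smul _ _⟩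
  have hOQ : ∀ P ∈ O, S.r P = Q := by
    intro P hP
    obtain ⟨γ, hγ, rfl⟩ := (hmemO P).mp hP
    rw [hr γ hγ]; exact hP₁Q
  have hOord : ∀ P ∈ O, 1 ≤ P.ord g := by
    intro P hP
    obtain ⟨γ, hγ, rfl⟩ := (hmemO P).mp hP
    rw [hordγ γ hγ]
    have h1 := hordg P₁ hP₁Q
    rw [hD] at hP₁0
    omega
  have hγO : ∀ γ ∈ H, ∀ P ∈ O, γ • P ∈ O := by
    intro γ hγ P hP
    obtain ⟨δ, hδ, rfl⟩ := (hmemO P).mp hP
    exact (hmemO _).mpr ⟨γ * δ, H.mul_mem hγ hδ, mul_smul _ _ _⟩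
  -- the product over the orbit
  set a : Place K F → K := fun P => pval P C.z with ha
  have haval : ∀ P ∈ O, HasVal P C.z (a P) := fun P hP =>
    Coord.hasVal_of_disc C.hz (hOQ P hP)
  have hasmall : ∀ P ∈ O, S.IsSmall (a P) := fun P hP => C.isSmall (hOQ P hP) (haval P hP)
  set y : F := ∏ P ∈ O, (C.z - algebraMap K F (a P)) with hy
  have hydisc : y ∈ S.discRing Q := prod_mem fun P hP => C.sub_mem (hasmall P hP)
  have hρy : S.ρ ⟨y, hydisc.1⟩ = S.ρ ⟨C.z, C.hz.1⟩ ^ O.card := by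
    have h1 : (⟨y, hydisc.1⟩ : S.B) = ∏ P ∈ O.attach,
        (⟨C.z - algebraMap K F (a P), (C.sub_mem (hasmall P P.2)).1⟩ : S.B) := by
      apply Subtype.ext
      rw [show ((∏ P ∈ O.attach,
        (⟨C.z - algebraMap K F (a P), (C.sub_mem (hasmall P P.2)).1⟩ : S.B) : S.B) : F) =
          ∏ P ∈ O.attach, (C.z - algebraMap K F (a P)) from map_prod S.B.subtype _ _]
      exact (Finset.prod_attach O (fun P => C.z - algebraMap K F (a P))).symm
    rw [h1, map_prod, Finset.prod_congr rfl (g := fun _ => S.ρ ⟨C.z, C.hz.1⟩)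
      (fun (P : {x // x ∈ O}) _ => C.ρ_sub (hasmall P.1 P.2)), Finset.prod_const,
      Finset.card_attach]
  have hρy0 : S.ρ ⟨y, hydisc.1⟩ ≠ 0 := by
    rw [hρy]; exact pow_ne_zero _ C.ρ_ne_zero
  have hy0 : y ≠ 0 := ne_zero_of_ρ hρy0
  have hne : ∀ P' ∈ O, C.z - algebraMap K F (a P') ≠ 0 := fun P' hP' h0 => by
    apply hy0
    rw [hy]
    exact Finset.prod_eq_zero hP' h0
  have hordy : ∀ P, S.r P = Q → P.ord y = if P ∈ O then 1 else 0 := by
    intro P hP
    have hprod : ∀ T : Finset (Place K F), T ⊆ O →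
        P.ord (∏ P' ∈ T, (C.z - algebraMap K F (a P'))) = if P ∈ T then 1 else 0 := by
      intro T
      induction T using Finset.induction_on with
      | empty => intro _; simp
      | insert P' T hP' ih =>
        intro hT
        have hP'O : P' ∈ O := hT (Finset.mem_insert_self _ _)
        have hTO : T ⊆ O := fun x hx => hT (Finset.mem_insert_of_mem hx)
        rw [Finset.prod_insert hP', P.ord_mul (hne P' hP'O)
          (Finset.prod_ne_zero_iff.mpr fun x hx => hne x (hTO hx)), ih hTO]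
        by_cases hPP' : P = P'
        · subst hPP'
          rw [C.ord_sub hP (haval _ hP'O), if_neg hP', if_pos (Finset.mem_insert_self _ _)]
          rfl
        · rw [C.ord_sub_of_ne (hOQ P' hP'O) hP (Ne.symm hPP') (haval _ hP'O), zero_add]
          by_cases hPT : P ∈ T
          · rw [if_pos hPT, if_pos (Finset.mem_insert_of_mem hPT)]
          · rw [if_neg hPT, if_neg]
            rw [Finset.mem_insert, not_or]
            exact ⟨hPP', hPT⟩
    exact hprod O (Finset.Subset.refl _)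
  have hyH : ∀ γ ∈ H, γ • y = y := by
    intro γ hγ
    rw [hy, Finset.smul_prod']
    refine Finset.prod_nbij (fun P => γ • P) (fun P hP => hγO γ hγ P hP)
      (fun P _ P' _ h => smul_left_cancel γ h) ?_ ?_
    · intro P hP
      refine ⟨γ⁻¹ • P, hγO γ⁻¹ (H.inv_mem hγ) P hP, smul_inv_smul γ P⟩
    · intro P hP
      rw [smul_sub, SemilinearAut.smul_algebraMap, hz γ hγ]
      congr 2
      rw [ha]
      show SemilinearAut.baseAut γ (pval P C.z) = pval (γ • P) C.z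
      rw [← pval_smul_aut (haval P hP).mem γ, hz γ hγ]
  -- the quotient
  set w : F := g / y with hw
  have hwdisc : w ∈ S.discRing Q := by
    refine div_mem_discRing hg hydisc.1 hρy0 fun P hP => Or.inr ?_
    rw [hordy P hP]
    split_ifs with h
    · exact hOord P h
    · exact hordg P hP
  have hgw : g = w * y := by rw [hw, div_mul_cancel₀ _ hy0]
  -- values at the centre
  set b : K := ∏ P ∈ O, (0 - a P) with hb
  have hvaly : HasVal C.P0 y b :=
    hasVal_prod O fun P hP => C.hasVal_P0.sub (hasVal_const C.P0 (a P))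
  have hvalw : HasVal C.P0 w (pval C.P0 w) := Coord.hasVal_of_disc hwdisc C.r_P0
  have hbsmall : S.IsSmall b := by
    refine isSmall_prod O ⟨P₁, hP₁O⟩ fun P hP => ?_
    obtain ⟨h1, h2⟩ := hasmall P hP
    refine ⟨by rw [zero_sub]; exact neg_mem h1, ?_⟩
    have h3 : (⟨0 - a P, by rw [zero_sub]; exact neg_mem h1⟩ : S.A) = -⟨a P, h1⟩ :=
      Subtype.ext (zero_sub _)
    rw [h3, map_neg, h2, neg_zero]
  have hbH : ∀ γ ∈ H, SemilinearAut.baseAut γ b = b := by
    intro γ hγ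
    have h1 := hvaly.smul_aut γ
    rw [hP0 γ hγ, hyH γ hγ] at h1
    exact h1.eq hvaly
  have hbϖ := hϖ.dvd b hbH hbsmall
  have hprod : ϖ * u = pval C.P0 w * b := by
    have h1 := hvalw.mul hvaly
    rw [← hgw] at h1
    exact hvalg.eq h1
  have hu' : u = pval C.P0 w * (b / ϖ) := by
    have := hϖ.ne
    field_simp
    linear_combination hprod
  obtain ⟨hwA, hvalwQ⟩ := hasVal_red hwdisc C.r_P0 hvalw
  have hπw : S.π ⟨pval C.P0 w, hwA⟩ ≠ 0 := by
    intro h0
    apply hu0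
    have h1 : (⟨u, hu⟩ : S.A) = ⟨pval C.P0 w, hwA⟩ * ⟨b / ϖ, hbϖ⟩ := Subtype.ext hu'
    rw [h1, map_mul, h0, zero_mul]
  have hordQw : Q.ord (S.ρ ⟨w, hwdisc.1⟩) = 0 := HasVal.ord_eq_zero hvalwQ hπw
  have hρmul : S.ρ ⟨g, hg.1⟩ = S.ρ ⟨w, hwdisc.1⟩ * S.ρ ⟨y, hydisc.1⟩ := by
    rw [← map_mul]
    congr 1
    exact Subtype.ext hgw
  have hρw0 : S.ρ ⟨w, hwdisc.1⟩ ≠ 0 := by
    intro h0
    rw [h0, zero_mul] at hρmul
    exact hρ hρmul
  have hw0 : w ≠ 0 := ne_zero_of_ρ hρw0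
  refine ⟨P₁, O, hP₁O, fun P hP => (hmemO P).mp hP, hOQ, ?_, fun P hP => ?_⟩
  · rw [hρmul, Q.ord_mul hρw0 hρy0, hordQw, zero_add, hρy]
    have hpow : ∀ n : ℕ, Q.ord (S.ρ ⟨C.z, C.hz.1⟩ ^ n) = n := by
      intro n
      induction n with
      | zero => simp
      | succ n ih =>
        rw [pow_succ, Q.ord_mul (pow_ne_zero _ C.ρ_ne_zero) C.ρ_ne_zero, ih, C.ord_ρ]
        push_cast; ring
    rw [hpow]
  · have h1 : P.ord w ≤ Q.ord (S.ρ ⟨w, hwdisc.1⟩) :=
      S.ord_le hρw0 (fun P' hP' => ord_nonneg_of_discRing hwdisc hP') hP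
    have h2 : 0 ≤ P.ord w := ord_nonneg_of_discRing hwdisc hP
    have h3 : P.ord w = 0 := by omega
    have h4 : P.ord g = P.ord y := by rw [hgw, P.ord_mul hw0 hy0, h3, zero_add]
    rw [h4, hordy P hP]
    exact ⟨fun h => if_pos h, fun h => if_neg h⟩

end Fermat.Agent.H17
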