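import Mathlib
import Fermat.Agent.H17Orb
import Fermat.Agent.H18Torsion

/-!
# Classes in the kernel of reduction as sums over an inertia orbit (helper17), global part
-/

set_option autoImplicit false
set_option linter.unusedSectionVars false

noncomputable section

open AlgebraicCurve WithZero

namespace Fermat.Agent.H17

open Fermat.Agent.H40 Fermat.Agent.H19 Fermat.Agent.H23 GoodRed

variable {K F k E : Type*} [Field K] [Field F] [Algebra K F] [Field k] [Field E] [Algebra k E]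

section Cls

variable [IsAlgClosed K] [H94.FunField K F]

theorem single_sub_mem (P P' : Place K F) :
    (Finsupp.single P 1 - Finsupp.single P' 1 : Divisor K F) ∈
      Divisor.degZero (K := K) (F := F) := by
  rw [Divisor.mem_degZero, map_sub, Divisor.degree_single, Divisor.degree_single,
    H94.deg_eq_one, H94.deg_eq_one, sub_self]

/-- the class of `[P] - [P']` -/
def dcl (P P' : Place K F) : Pic0 K F := Pic0.mk ⟨_, single_sub_mem P P'⟩

theorem smul_dcl (γ : SemilinearAut K F) (P P' : Place K F) :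
    γ • dcl P P' = dcl (γ • P) (γ • P') := by
  rw [dcl, SemilinearAut.pic0_smul_mk, dcl]
  congr 1
  apply Subtype.ext
  rw [SemilinearAut.coe_degZeroSMulHom]
  show γ • (Finsupp.single P 1 - Finsupp.single P' 1 : Divisor K F) = _
  rw [smul_sub, SemilinearAut.smul_single, SemilinearAut.smul_single]

variable {S : GoodRed K F k E} [IsAlgClosed k] [H94.FunField k E]

theorem redPic0_dcl {P P' : Place K F} (h : S.r P = S.r P') : redPic0 S (dcl P P') = 0 := by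
  rw [dcl, redPic0_mk, ← Pic0.mk_zero]
  congr 1
  apply Subtype.ext
  rw [coe_redDegZero]
  show Finsupp.mapDomain S.r (_ - _) = 0
  rw [← Finsupp.mapDomain.addMonoidHom_apply, map_sub, Finsupp.mapDomain.addMonoidHom_apply,
    Finsupp.mapDomain.addMonoidHom_apply, Finsupp.mapDomain_single, Finsupp.mapDomain_single, h,
    sub_self]

theorem sum_mk {ι : Type*} (T : Finset ι) (D : ι → Divisor.degZero (K := K) (F := F)) :
    ∑ i ∈ T, Pic0.mk (D i) = Pic0.mk (∑ i ∈ T, D i) :=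
  (map_sum (QuotientAddGroup.mk' ((Divisor.principal (K := K) (F := F)).addSubgroupOf
    (Divisor.degZero (K := K) (F := F)))) D T).symm

end Cls

variable {S : GoodRed K F k E} {Γ : Subgroup (SemilinearAut K F)} (I : InertiaAction S Γ)
variable [IsAlgClosed K] [IsAlgClosed k] [H94.FunField K F] [H94.FunField k E]

include I

/-- **Orbit representation.** -/
theorem exists_orbit_sum
    (hU : ∀ (T : Finset F) (D : Divisor K F), ∃ H : Subgroup (SemilinearAut K F), H ≤ Γ ∧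
      (∀ γ ∈ H, (∀ f ∈ T, γ • f = f) ∧ γ • D = D) ∧ ∃ ϖ, Unif S H ϖ)
    (x : Pic0 K F) (hx : redPic0 S x = 0) (m : ℕ) (hm : S.c < m) (hm0 : 0 < m) :
    ∃ (ξ : Pic0 K F) (T : Finset (Place K F)) (γ : Place K F → SemilinearAut K F),
      redPic0 S ξ = 0 ∧ T.card = m ∧ (∀ i, γ i ∈ Γ) ∧ x = ∑ i ∈ T, γ i • ξ := by
  classical
  have := S.pdF
  obtain ⟨Dx, rfl⟩ := Pic0.mk_surjective x
  have hDx0 : Divisor.degree (Dx : Divisor K F) = 0 := Dx.2
  rw [redPic0_mk, ← Pic0.mk_zero, eq_comm, Pic0_mk_eq_mk_iff] at hx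
  rw [coe_redDegZero, AddSubgroup.coe_zero, sub_zero] at hx
  obtain ⟨h, hh0, hh⟩ := hx
  -- the disc
  obtain ⟨Q₀, hQ₀⟩ := Infinite.exists_notMem_finset
    (insert (S.r I.Pinf) ((Dx : Divisor K F).support.image S.r))
  rw [Finset.mem_insert, not_or] at hQ₀
  obtain ⟨hQinf, hQD⟩ := hQ₀
  have hDxP : ∀ P, S.r P = Q₀ → (Dx : Divisor K F) P = 0 := by
    intro P hP
    by_contra hne
    exact hQD (hP ▸ Finset.mem_image_of_mem _ (Finsupp.mem_support_iff.mpr hne))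
  obtain ⟨P₀, z, hrP₀, hP₀Γ, hzΓ, hzreg, hzP₀, hQz, -⟩ := exists_fixed_place I hQinf
  have hzdisc : (z : F) ∈ S.discRing Q₀ := ⟨z.2, fun P hP => by
    rcases hzreg P hP with h1 | h1
    · exact mem_iff_ord.mpr h1
    · rw [h1]; exact zero_mem _⟩
  let C : Coord S Q₀ := ⟨P₀, z, hzdisc, hrP₀, hzP₀, hQz⟩
  have hz0 : (z : F) ≠ 0 := C.z_ne_zero
  -- the divisors
  set V : Divisor K F := Finsupp.single P₀ (m : ℤ) + (Dx : Divisor K F) with hV
  have hVdeg : Divisor.degree V = m := by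
    rw [hV, map_add, hDx0, add_zero, Divisor.degree_single, H94.deg_eq_one, Nat.cast_one, mul_one]
  have hVr : Finsupp.mapDomain S.r V =
      Finsupp.single Q₀ (m : ℤ) + Finsupp.mapDomain S.r (Dx : Divisor K F) := by
    rw [hV, Finsupp.mapDomain_add, Finsupp.mapDomain_single, hrP₀]
  obtain ⟨hVrdeg, hVred⟩ := S.isRed V (by rw [hVdeg]; exact hm)
  have hDxQ : Finsupp.mapDomain S.r (Dx : Divisor K F) Q₀ = 0 := by
    rw [S.mapDomain_apply_eq_sum]
    refine Finset.sum_eq_zero fun v hv => ?_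
    rw [Finset.mem_filter] at hv
    exact hDxP v hv.2
  have hVP : ∀ P, S.r P = Q₀ → V P = if P = P₀ then (m : ℤ) else 0 := by
    intro P hP
    rw [hV, Finsupp.add_apply, hDxP P hP, add_zero, Finsupp.single_apply]
    simp only [eq_comm]
  have hordz : ∀ P, S.r P = Q₀ → P.ord (z : F) = if P = P₀ then 1 else 0 := by
    intro P hP
    split_ifs with h1
    · rw [h1]; exact C.ord_z_P0
    · exact C.ord_z_of_ne hP h1
  have hordzm : ∀ P, S.r P = Q₀ → P.ord ((z : F) ^ m) = V P := by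
    intro P hP
    have h1 : ∀ n : ℕ, P.ord ((z : F) ^ n) = n * P.ord (z : F) := by
      intro n
      induction n with
      | zero => simp
      | succ n ih =>
        rw [pow_succ, P.ord_mul (pow_ne_zero _ hz0) hz0, ih]
        push_cast; ring
    rw [h1, hordz P hP, hVP P hP]
    split_ifs <;> simp
  have hQzm : Q₀.ord (S.ρ z ^ m) = m := by
    have h1 : ∀ n : ℕ, Q₀.ord (S.ρ z ^ n) = n := by
      intro n
      induction n with
      | zero => simp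
      | succ n ih =>
        rw [pow_succ, Q₀.ord_mul (pow_ne_zero _ C.ρ_ne_zero) C.ρ_ne_zero, ih, hQz]
        push_cast; ring
    exact h1 m
  -- the sections
  have hhinv : h⁻¹ ∈ S.red (riemannRochSpace V) := by
    rw [hVred, H40.mem_L (inv_ne_zero hh0)]
    intro v
    rw [hVr, Finsupp.add_apply, v.ord_inv, hh v]
    have : 0 ≤ (Finsupp.single Q₀ (m : ℤ)) v := by
      rw [Finsupp.single_apply]; split_ifs <;> simp
    omega
  obtain ⟨s, hsV, hρs⟩ := hhinv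
  obtain ⟨e₁, he₁, he₁0, hord₁⟩ := H40.exists_ord_eq S.riemE H94.deg_eq_one
    (D := Finsupp.mapDomain S.r V) (by rw [hVrdeg, hVdeg]; exact hm) Q₀
  rw [← hVred] at he₁
  obtain ⟨s₁, hs₁V, hρs₁⟩ := he₁
  rw [hVr, Finsupp.add_apply, hDxQ, Finsupp.single_eq_same, add_zero] at hord₁
  -- multiplication by `z ^ m`
  have hmulmem : ∀ f : S.B, (f : F) ∈ riemannRochSpace V → (f : F) * z ^ m ∈ S.discRing Q₀ := by
    intro f hf
    refine ⟨S.B.mul_mem f.2 (S.B.pow_mem z.2 m), fun P hP => ?_⟩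
    rcases eq_or_ne (f : F) 0 with h0 | h0
    · rw [h0, zero_mul]; exact zero_mem _
    rw [mem_iff_ord, P.ord_mul h0 (pow_ne_zero _ hz0), hordzm P hP]
    have := (H40.mem_L h0).mp hf P
    omega
  have hρmul : ∀ (f : S.B) (hf : (f : F) * z ^ m ∈ S.discRing Q₀),
      S.ρ ⟨(f : F) * z ^ m, hf.1⟩ = S.ρ f * S.ρ z ^ m := by
    intro f hf
    rw [← map_pow, ← map_mul]
    congr 1
  have hs0 : S.ρ s ≠ 0 := by rw [hρs]; exact inv_ne_zero hh0
  have hs₁0 : S.ρ s₁ ≠ 0 := by rw [hρs₁]; exact he₁0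
  have hzm0 : S.ρ z ^ m ≠ 0 := pow_ne_zero _ C.ρ_ne_zero
  have hhQ : Q₀.ord h = 0 := by rw [← hh Q₀, hDxQ]
  have hg := hmulmem s hsV
  have hg₁ := hmulmem s₁ hs₁V
  set c₀ : K := pval P₀ ((s : F) * z ^ m) with hc₀
  set c₁ : K := pval P₀ ((s₁ : F) * z ^ m) with hc₁
  have hval₀ : HasVal P₀ ((s : F) * z ^ m) c₀ := Coord.hasVal_of_disc hg hrP₀
  have hval₁ : HasVal P₀ ((s₁ : F) * z ^ m) c₁ := Coord.hasVal_of_disc hg₁ hrP₀
  obtain ⟨hc₀A, hc₀Q⟩ := hasVal_red hg hrP₀ hval₀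
  obtain ⟨hc₁A, hc₁Q⟩ := hasVal_red hg₁ hrP₀ hval₁
  have hρg0 : S.ρ ⟨(s : F) * z ^ m, hg.1⟩ ≠ 0 := by
    rw [hρmul s hg]; exact mul_ne_zero hs0 hzm0
  have hρg₁0 : S.ρ ⟨(s₁ : F) * z ^ m, hg₁.1⟩ ≠ 0 := by
    rw [hρmul s₁ hg₁]; exact mul_ne_zero hs₁0 hzm0
  have hordg : Q₀.ord (S.ρ ⟨(s : F) * z ^ m, hg.1⟩) = m := by
    rw [hρmul s hg, Q₀.ord_mul hs0 hzm0, hQzm, hρs, Q₀.ord_inv, hhQ]; ring
  have hordg₁ : Q₀.ord (S.ρ ⟨(s₁ : F) * z ^ m, hg₁.1⟩) = 0 := by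
    rw [hρmul s₁ hg₁, Q₀.ord_mul hs₁0 hzm0, hQzm, hρs₁, hord₁]; ring
  have hc₀small : S.IsSmall c₀ := by
    refine ⟨hc₀A, hc₀Q.eq ?_⟩
    rw [hasVal_zero_iff, hordg]
    right
    exact_mod_cast hm0
  have hc₁unit : S.π ⟨c₁, hc₁A⟩ ≠ 0 := by
    intro h1
    rw [h1, hasVal_zero_iff, hordg₁] at hc₁Q
    rcases hc₁Q with h2 | h2
    · exact hρg₁0 h2
    · exact lt_irrefl _ h2
  -- the invariant structure
  obtain ⟨H, hHΓ, hHfix, ϖ, hϖ⟩ := hU {(s : F), (s₁ : F)} (Dx : Divisor K F)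
  have hHs : ∀ γ ∈ H, γ • (s : F) = s := fun γ hγ => (hHfix γ hγ).1 _ (by simp)
  have hHs₁ : ∀ γ ∈ H, γ • (s₁ : F) = s₁ := fun γ hγ => (hHfix γ hγ).1 _ (by simp)
  have hHz : ∀ γ ∈ H, γ • (z : F) = z := fun γ hγ => hzΓ γ (hHΓ hγ)
  have hHP₀ : ∀ γ ∈ H, γ • P₀ = P₀ := fun γ hγ => hP₀Γ γ (hHΓ hγ)
  have hHr : ∀ γ ∈ H, ∀ P, S.r (γ • P) = S.r P := fun γ hγ P => r_smul I (hHΓ hγ) P
  have hHg : ∀ γ ∈ H, γ • ((s : F) * z ^ m) = (s : F) * z ^ m := fun γ hγ => by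
    rw [smul_mul', smul_pow', hHs γ hγ, hHz γ hγ]
  have hHg₁ : ∀ γ ∈ H, γ • ((s₁ : F) * z ^ m) = (s₁ : F) * z ^ m := fun γ hγ => by
    rw [smul_mul', smul_pow', hHs₁ γ hγ, hHz γ hγ]
  have hHc₀ : ∀ γ ∈ H, SemilinearAut.baseAut γ c₀ = c₀ := by
    intro γ hγ
    have h1 := hval₀.smul_aut γ
    rw [hHP₀ γ hγ, hHg γ hγ] at h1
    exact h1.eq hval₀
  have hdiv := hϖ.dvd c₀ hHc₀ hc₀small
  have hϖ0 := hϖ.ne
  -- the good section
  obtain ⟨s', hs'V, hρs', hHs', u, hu, hu0, hvals'⟩ : ∃ s' : S.B,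
      (s' : F) ∈ riemannRochSpace V ∧ S.ρ s' = h⁻¹ ∧ (∀ γ ∈ H, γ • (s' : F) = s') ∧
      ∃ (u : K) (hu : u ∈ S.A), S.π ⟨u, hu⟩ ≠ 0 ∧
        HasVal P₀ ((s' : F) * z ^ m) (ϖ * u) := by
    by_cases hcase : S.π ⟨c₀ / ϖ, hdiv⟩ = 0
    · have hϖA := hϖ.small.mem
      have hπϖ : S.π ⟨ϖ, hϖA⟩ = 0 := by
        obtain ⟨h1, h2⟩ := hϖ.small
        exact h2
      refine ⟨s + S.const ⟨ϖ, hϖA⟩ * s₁, ?_, ?_, ?_, c₀ / ϖ + c₁, S.A.add_mem _ _ hdiv hc₁A, ?_, ?_⟩
      · rw [Subring.coe_add, Subring.coe_mul, ReductionData.coe_const, ← Algebra.smul_def]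
        exact Submodule.add_mem _ hsV (Submodule.smul_mem _ _ hs₁V)
      · rw [map_add, map_mul, ReductionData.ρ_const, hπϖ, map_zero, zero_mul, add_zero, hρs]
      · intro γ hγ
        rw [Subring.coe_add, Subring.coe_mul, ReductionData.coe_const, smul_add, smul_mul',
          SemilinearAut.smul_algebraMap, hHs γ hγ, hHs₁ γ hγ]
        congr 3
        exact hϖ.fix γ hγ
      · have h1 : (⟨c₀ / ϖ + c₁, S.A.add_mem _ _ hdiv hc₁A⟩ : S.A) =
          ⟨c₀ / ϖ, hdiv⟩ + ⟨c₁, hc₁A⟩ := rfl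
        rw [h1, map_add, hcase, zero_add]
        exact hc₁unit
      · have h1 := hval₀.add ((hasVal_const P₀ ϖ).mul hval₁)
        have h2 : (s : F) * z ^ m + algebraMap K F ϖ * ((s₁ : F) * z ^ m) =
            ((s + S.const ⟨ϖ, hϖA⟩ * s₁ : S.B) : F) * z ^ m := by
          rw [Subring.coe_add, Subring.coe_mul, ReductionData.coe_const]
          ring
        have h3 : c₀ + ϖ * c₁ = ϖ * (c₀ / ϖ + c₁) := by
          field_simp
        rw [h2, h3] at h1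
        exact h1
    · refine ⟨s, hsV, hρs, hHs, c₀ / ϖ, hdiv, hcase, ?_⟩
      rw [mul_div_cancel₀ _ hϖ0]
      exact hval₀
  have hs'0 : S.ρ s' ≠ 0 := by rw [hρs']; exact inv_ne_zero hh0
  have hs'F : (s' : F) ≠ 0 := ne_zero_of_ρ hs'0
  have hg' := hmulmem s' hs'V
  have hρg'0 : S.ρ ⟨(s' : F) * z ^ m, hg'.1⟩ ≠ 0 := by
    rw [hρmul s' hg']; exact mul_ne_zero hs'0 hzm0
  have hordg' : Q₀.ord (S.ρ ⟨(s' : F) * z ^ m, hg'.1⟩) = m := by
    rw [hρmul s' hg', Q₀.ord_mul hs'0 hzm0, hQzm, hρs', Q₀.ord_inv, hhQ]; ring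
  obtain ⟨P₁, O, hP₁O, hO1, hO2, hO3, hO4⟩ := orbit_of_unif C hHP₀ hHz hHr hϖ hg' hρg'0
    (fun γ hγ => by rw [smul_mul', smul_pow', hHs' γ hγ, hHz γ hγ]) hu hu0 hvals'.pval_eq
  rw [hordg'] at hO3
  have hOcard : O.card = m := by exact_mod_cast hO3
  -- the divisor of zeros of the section
  obtain ⟨G₀, hG₀, hG₀deg⟩ := HasPrincipalDivisors.exists_divisor (K := K) (s' : F) hs'F
  have hG : G₀ + V = ∑ P ∈ O, Finsupp.single P (1 : ℤ) := by
    have hnonneg : ∀ P, 0 ≤ (G₀ + V) P := by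
      intro P
      have := (H40.mem_L hs'F).mp hs'V P
      rw [Finsupp.add_apply, hG₀]
      omega
    ext P
    have hsumP : (∑ P' ∈ O, Finsupp.single P' (1 : ℤ)) P = if P ∈ O then 1 else 0 := by
      rw [Finsupp.finsetSum_apply]
      simp only [Finsupp.single_apply]
      rw [Finset.sum_ite_eq' O P (fun _ => (1 : ℤ))]
    rw [hsumP]
    by_cases hP : S.r P = Q₀
    · have h1 : P.ord ((s' : F) * z ^ m) = (G₀ + V) P := by
        rw [P.ord_mul hs'F (pow_ne_zero _ hz0), hordzm P hP, ← hG₀]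
        rfl
      rw [← h1]
      split_ifs with h2
      · exact (hO4 P hP).1 h2
      · exact (hO4 P hP).2 h2
    · rw [if_neg fun h1 => hP (hO2 P h1)]
      refine H18.eq_zero_of_mapDomain_apply_eq_zero (r := S.r) (G₀ + V) (S.r P)
        (fun P' _ => hnonneg P') ?_ P rfl
      rw [Finsupp.mapDomain_add, Finsupp.add_apply, S.div_red s' hs'0 G₀ hG₀, hρs', hVr,
        Finsupp.add_apply, hh, Place.ord_inv, Finsupp.single_apply, if_neg (Ne.symm hP)]
      ring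
  -- conclusion
  choose! γ hγH hγP using hO1
  refine ⟨dcl P₁ P₀, O, fun P => if P ∈ O then γ P else 1, ?_, hOcard, ?_, ?_⟩
  · exact redPic0_dcl (by rw [hO2 P₁ hP₁O, hrP₀])
  · intro P
    show (if P ∈ O then γ P else 1) ∈ Γ
    split_ifs with h1
    · exact hHΓ (hγH P h1)
    · exact Γ.one_mem
  · have h1 : ∀ P ∈ O, (if P ∈ O then γ P else 1) • dcl P₁ P₀ = dcl P P₀ := by
      intro P hP
      rw [if_pos hP, smul_dcl, hγP P hP, hHP₀ _ (hγH P hP)]
    rw [Finset.sum_congr rfl h1]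
    simp only [dcl]
    rw [sum_mk, Pic0_mk_eq_mk_iff]
    refine ⟨(s' : F), hs'F, fun v => ?_⟩
    rw [← hG₀ v]
    congr 1
    have h2 : ((∑ P ∈ O, (⟨_, single_sub_mem P P₀⟩ : Divisor.degZero (K := K) (F := F)) :
        Divisor.degZero (K := K) (F := F)) : Divisor K F) =
        ∑ P ∈ O, (Finsupp.single P 1 - Finsupp.single P₀ 1 : Divisor K F) := by
      rw [show ((∑ P ∈ O, (⟨_, single_sub_mem P P₀⟩ : Divisor.degZero (K := K) (F := F)) :
        Divisor.degZero (K := K) (F := F)) : Divisor K F) = ∑ P ∈ O,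
          (((⟨_, single_sub_mem P P₀⟩ : Divisor.degZero (K := K) (F := F))) : Divisor K F) from
            map_sum (Divisor.degZero (K := K) (F := F)).subtype _ _]
    rw [h2, Finset.sum_sub_distrib, ← hG, Finset.sum_const, hOcard, hV]
    rw [show (m • Finsupp.single P₀ (1 : ℤ) : Divisor K F) = Finsupp.single P₀ (m : ℤ) by
      rw [← Nat.cast_smul_eq_nsmul ℤ, Finsupp.smul_single, smul_eq_mul, mul_one]]
    abel

end Fermat.Agent.H17
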