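import Mathlib
import Fermat.Agent.H17OrbMain
import Fermat.Agent.H88Norm
import Fermat.Prelude.Def_AlgebraicCurve_Correspondence

/-!
# MZ-J2: reduction commutes with degeneracy maps (helper17), abstract part
-/

set_option autoImplicit false
set_option linter.unusedSectionVars false

noncomputable section

open AlgebraicCurve

namespace Fermat.Agent.H17

open Fermat.Agent.H40 Fermat.Agent.H19 Fermat.Agent.H23 GoodRed

variable {K F F' k E E' : Type*} [Field K] [Field F] [Field F'] [Algebra K F] [Algebra K F']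
  [Field k] [Field E] [Field E'] [Algebra k E] [Algebra k E']

section Gen

variable [IsAlgClosed K] [H94.FunField K F]

theorem eq_zero_of_nonneg_of_degree_le {D : Divisor K F} (h : ∀ v, 0 ≤ D v)
    (hd : Divisor.degree D ≤ 0) : D = 0 := by
  classical
  rw [H40.degree_eq_sum H94.deg_eq_one, Finsupp.sum] at hd
  have h1 := (Finset.sum_eq_zero_iff_of_nonneg (s := D.support) fun v _ => h v).mp
    (le_antisymm hd (Finset.sum_nonneg fun v _ => h v))
  ext v
  by_contra hv
  exact hv (h1 v (Finsupp.mem_support_iff.mpr hv))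

theorem le_mapDomain {X : Type*} {r : Place K F → X} {D : Divisor K F} (h : ∀ v, 0 ≤ D v)
    (v : Place K F) : D v ≤ Finsupp.mapDomain r D (r v) := by
  classical
  rw [Finsupp.mapDomain, Finsupp.sum_apply, Finsupp.sum]
  by_cases hv : v ∈ D.support
  · have h1 : ∀ u ∈ D.support, 0 ≤ (Finsupp.single (r u) (D u)) (r v) := by
      intro u _
      rw [Finsupp.single_apply]
      split_ifs
      · exact h u
      · exact le_rfl
    have h2 := Finset.single_le_sum h1 hv
    rwa [Finsupp.single_eq_same] at h2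
  · rw [Finsupp.notMem_support_iff.mp hv]
    refine Finset.sum_nonneg fun u _ => ?_
    rw [Finsupp.single_apply]
    split_ifs
    · exact h u
    · exact le_rfl

theorem mapDomain_nonneg {X : Type*} {r : Place K F → X} {D : Divisor K F} (h : ∀ v, 0 ≤ D v)
    (x : X) : 0 ≤ Finsupp.mapDomain r D x := by
  classical
  rw [Finsupp.mapDomain, Finsupp.sum_apply, Finsupp.sum]
  refine Finset.sum_nonneg fun u _ => ?_
  rw [Finsupp.single_apply]
  split_ifs
  · exact h u
  · exact le_rfl

end Gen

variable [HasPrincipalDivisors K F'] [HasPrincipalDivisors k E']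

/-- compatible degeneracy maps -/
structure DegMap (S : GoodRed K F k E) (S' : GoodRed K F' k E') (γ : F →ₐ[K] F')
    (γb : E →ₐ[k] E') : Prop where
  int : γ.toRingHom.IsIntegral
  intb : γb.toRingHom.IsIntegral
  mem : ∀ b : S.B, γ b ∈ S'.B
  red : ∀ b : S.B, S'.ρ ⟨γ b, mem b⟩ = γb (S.ρ b)
  FI : FundamentalIdentityAlong K γ int
  FIb : FundamentalIdentityAlong k γb intb
  deg : finrankAlong K γ ≤ finrankAlong k γb

variable {S : GoodRed K F k E} {S' : GoodRed K F' k E'} {γ : F →ₐ[K] F'} {γb : E →ₐ[k] E'}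
variable (Δ : DegMap S S' γ γb)
variable [IsAlgClosed K] [IsAlgClosed k] [H94.FunField K F] [H94.FunField K F']
  [H94.FunField k E] [H94.FunField k E']

include Δ

theorem DegMap.pull_nonneg {D : Divisor K F} (hD : ∀ v, 0 ≤ D v) (w : Place K F') :
    0 ≤ Divisor.pullbackAlong γ Δ.int D w := by
  rw [Divisor.pullbackAlong_apply]
  exact mul_nonneg (Int.natCast_nonneg _) (hD _)

theorem DegMap.pull_single_le (P : Place K F) {n : ℤ} (hn : S.c < n) (hn0 : 0 ≤ n)
    (w : Place k E') :
    Divisor.pullbackAlong γb Δ.intb (Finsupp.single (S.r P) n) w ≤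
      Finsupp.mapDomain S'.r (Divisor.pullbackAlong γ Δ.int (Finsupp.single P n)) w := by
  classical
  have hPn : ∀ v, 0 ≤ (Finsupp.single P n : Divisor K F) v := by
    intro v
    rw [Finsupp.single_apply]
    split_ifs
    · exact hn0
    · exact le_rfl
  by_cases hw : w.restrictAlong γb Δ.intb = S.r P
  · have hd : Divisor.degree (Finsupp.single P n : Divisor K F) = n := by
      rw [Divisor.degree_single, H94.deg_eq_one]; simp
    have hd' : Divisor.degree (Finsupp.single (S.r P) n : Divisor k E) = n := by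
      rw [Divisor.degree_single, H94.deg_eq_one]; simp
    obtain ⟨e, he, he0, hord⟩ := H40.exists_ord_eq S.riemE H94.deg_eq_one
      (D := Finsupp.single (S.r P) n) (by rw [hd']; exact hn) (S.r P)
    rw [Finsupp.single_eq_same] at hord
    have h1 := (S.isRed (Finsupp.single P n) (by rw [hd]; exact hn)).2
    rw [Finsupp.mapDomain_single] at h1
    rw [← h1] at he
    obtain ⟨f, hf, hfe⟩ := he
    have hρ : S.ρ f ≠ 0 := by rw [hfe]; exact he0
    have hf0 := S.ne_zero_of_ρ_ne_zero hρ
    have hρ' : S'.ρ ⟨γ f, Δ.mem f⟩ ≠ 0 := by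
      rw [Δ.red]
      exact (map_ne_zero_iff _ γb.toRingHom.injective).mpr hρ
    have hγf0 : γ (f : F) ≠ 0 := (map_ne_zero_iff _ γ.toRingHom.injective).mpr hf0
    obtain ⟨D, hD, -⟩ := S'.pdF.exists_divisor (γ (f : F)) hγf0
    have h2 := S'.div_red ⟨γ f, Δ.mem f⟩ hρ' D hD w
    rw [Δ.red, hfe, Place.ord_restrictAlong γb Δ.intb, hw, hord] at h2
    have h3 := mapDomain_nonneg (r := S'.r)
      (D := D + Divisor.pullbackAlong γ Δ.int (Finsupp.single P n)) (fun v => by
        rw [Finsupp.add_apply, hD, Place.ord_restrictAlong γ Δ.int, Divisor.pullbackAlong_apply,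
          ← mul_add]
        have := (H40.mem_L hf0).mp hf (v.restrictAlong γ Δ.int)
        exact mul_nonneg (Int.natCast_nonneg _) (by omega)) w
    rw [Finsupp.mapDomain_add, Finsupp.add_apply, h2] at h3
    rw [Divisor.pullbackAlong_apply, hw, Finsupp.single_eq_same]
    linarith
  · rw [Divisor.pullbackAlong_apply, Finsupp.single_apply, if_neg (fun h => hw h.symm), mul_zero]
    exact mapDomain_nonneg (fun v => Δ.pull_nonneg hPn v) w

theorem DegMap.pull_single (P : Place K F) :
    Finsupp.mapDomain S'.r (Divisor.pullbackAlong γ Δ.int (Finsupp.single P 1)) =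
      Divisor.pullbackAlong γb Δ.intb (Finsupp.single (S.r P) 1) := by
  classical
  obtain ⟨n, hn0, hn⟩ : ∃ n : ℤ, 0 < n ∧ S.c < n :=
    ⟨max S.c 0 + 1, by have := le_max_right S.c 0; omega, by have := le_max_left S.c 0; omega⟩
  have hle := Δ.pull_single_le P hn hn0.le
  set X := Finsupp.mapDomain S'.r (Divisor.pullbackAlong γ Δ.int (Finsupp.single P n)) with hX
  set Y := Divisor.pullbackAlong γb Δ.intb (Finsupp.single (S.r P) n) with hY
  have hXY : X - Y = 0 := by
    refine eq_zero_of_nonneg_of_degree_le (fun v => ?_) ?_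
    · rw [Finsupp.sub_apply]
      have := hle v
      omega
    · rw [map_sub, hX, H23.degree_mapDomain S', Divisor.degree_pullbackAlong γ Δ.int Δ.FI, hY,
        Divisor.degree_pullbackAlong γb Δ.intb Δ.FIb, Divisor.degree_single,
        Divisor.degree_single, H94.deg_eq_one, H94.deg_eq_one]
      have h1 : (finrankAlong K γ : ℤ) ≤ finrankAlong k γb := by exact_mod_cast Δ.deg
      simp only [Nat.cast_one, mul_one]
      nlinarith
  have h1 : (Finsupp.single P n : Divisor K F) = n • Finsupp.single P 1 := by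
    rw [Finsupp.smul_single, smul_eq_mul, mul_one]
  have h2 : (Finsupp.single (S.r P) n : Divisor k E) = n • Finsupp.single (S.r P) 1 := by
    rw [Finsupp.smul_single, smul_eq_mul, mul_one]
  have h3 := sub_eq_zero.mp hXY
  rw [hX, hY, h1, h2, map_zsmul, map_zsmul, ← Finsupp.mapDomain.addMonoidHom_apply,
    map_zsmul, Finsupp.mapDomain.addMonoidHom_apply] at h3
  exact smul_right_injective _ hn0.ne' h3

/-- **reduction commutes with pullback** -/
theorem DegMap.pull (D : Divisor K F) :
    Finsupp.mapDomain S'.r (Divisor.pullbackAlong γ Δ.int D) =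
      Divisor.pullbackAlong γb Δ.intb (Finsupp.mapDomain S.r D) := by
  induction D using Finsupp.induction_linear with
  | zero => rw [map_zero, Finsupp.mapDomain_zero, Finsupp.mapDomain_zero, map_zero]
  | add D D' hD hD' =>
    rw [map_add, Finsupp.mapDomain_add, Finsupp.mapDomain_add, map_add, hD, hD']
  | single P n =>
    have h1 : (Finsupp.single P n : Divisor K F) = n • Finsupp.single P 1 := by
      rw [Finsupp.smul_single, smul_eq_mul, mul_one]
    rw [h1, map_zsmul, ← Finsupp.mapDomain.addMonoidHom_apply, map_zsmul,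
      ← Finsupp.mapDomain.addMonoidHom_apply, map_zsmul, map_zsmul,
      Finsupp.mapDomain.addMonoidHom_apply, Finsupp.mapDomain.addMonoidHom_apply,
      Finsupp.mapDomain_single, Δ.pull_single]

/-- **reduction commutes with restriction of places** -/
theorem DegMap.restrict (w : Place K F') :
    (S'.r w).restrictAlong γb Δ.intb = S.r (w.restrictAlong γ Δ.int) := by
  classical
  have h1 := DFunLike.congr_fun (Δ.pull_single (w.restrictAlong γ Δ.int)) (S'.r w)
  have h2 := le_mapDomain (r := S'.r)
    (D := Divisor.pullbackAlong γ Δ.int (Finsupp.single (w.restrictAlong γ Δ.int) 1))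
    (fun v => Δ.pull_nonneg (fun u => by rw [Finsupp.single_apply]; split_ifs <;> simp) v) w
  rw [h1, Divisor.pullbackAlong_apply, Divisor.pullbackAlong_apply, Finsupp.single_eq_same,
    Finsupp.single_apply] at h2
  have h3 : 0 < Place.ramificationIndexAlong γ w := by
    letI := algebraAlong γ
    haveI := isScalarTower_along γ
    haveI := isIntegral_along γ Δ.int
    exact w.ramificationIndex_pos (F := F)
  by_contra hne
  rw [if_neg (fun h => hne h.symm)] at h2
  have h4 : (0 : ℤ) < Place.ramificationIndexAlong γ w := by exact_mod_cast h3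
  simp at h2
  omega

omit Δ [IsAlgClosed k] [HasPrincipalDivisors K F'] [HasPrincipalDivisors k E']
  [H94.FunField k E] [H94.FunField k E'] in
theorem inertiaDegAlong_eq_one (γ : F →ₐ[K] F') (hγ : γ.toRingHom.IsIntegral)
    (w : Place K F') : w.inertiaDegAlong γ hγ = 1 := by
  letI := algebraAlong γ
  haveI := isScalarTower_along γ
  haveI := isIntegral_along γ hγ
  have h1 := w.deg_restrict_mul_inertiaDeg (F := F)
  rw [H94.deg_eq_one, H94.deg_eq_one, one_mul] at h1
  exact h1

/-- **reduction commutes with pushforward** -/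
theorem DegMap.push (D : Divisor K F') :
    Finsupp.mapDomain S.r (Divisor.pushforwardAlong γ Δ.int D) =
      Divisor.pushforwardAlong γb Δ.intb (Finsupp.mapDomain S'.r D) := by
  induction D using Finsupp.induction_linear with
  | zero => rw [map_zero, Finsupp.mapDomain_zero, Finsupp.mapDomain_zero, map_zero]
  | add D D' hD hD' =>
    rw [map_add, Finsupp.mapDomain_add, Finsupp.mapDomain_add, map_add, hD, hD']
  | single w n =>
    rw [Divisor.pushforwardAlong_single, inertiaDegAlong_eq_one, Finsupp.mapDomain_single,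
      Finsupp.mapDomain_single, Divisor.pushforwardAlong_single, inertiaDegAlong_eq_one,
      Δ.restrict]

omit Δ [HasPrincipalDivisors K F'] [HasPrincipalDivisors k E'] [H94.FunField K F']
  [H94.FunField k E'] in
/-- classes in the kernel of reduction have representatives with zero reduction -/
theorem exists_mk_red_zero {x : Pic0 K F} (hx : redPic0 S x = 0) :
    ∃ D : Divisor.degZero (K := K) (F := F), Pic0.mk D = x ∧
      Finsupp.mapDomain S.r (D : Divisor K F) = 0 := by
  classical
  obtain ⟨Dx, rfl⟩ := Pic0.mk_surjective x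
  have hDx0 : Divisor.degree (Dx : Divisor K F) = 0 := Dx.2
  rw [redPic0_mk, ← Pic0.mk_zero, eq_comm, Pic0_mk_eq_mk_iff] at hx
  rw [coe_redDegZero, AddSubgroup.coe_zero, sub_zero] at hx
  obtain ⟨h, hh0, hh⟩ := hx
  obtain ⟨y, z, hz, hyz⟩ := S.frac h
  have hy : S.ρ y ≠ 0 := by rw [← hyz]; exact mul_ne_zero hh0 hz
  have hy0 := S.ne_zero_of_ρ_ne_zero hy
  have hz0 := S.ne_zero_of_ρ_ne_zero hz
  obtain ⟨Y, hY, hYd⟩ := S.pdF.exists_divisor (y : F) hy0
  obtain ⟨Z, hZ, hZd⟩ := S.pdF.exists_divisor (z : F) hz0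
  have hprin : Y - Z ∈ Divisor.principal (K := K) (F := F) := by
    refine ⟨(y : F) / z, div_ne_zero hy0 hz0, fun v => ?_⟩
    rw [Finsupp.sub_apply, hY, hZ, div_eq_mul_inv, v.ord_mul hy0 (inv_ne_zero hz0), v.ord_inv]
    ring
  have := S.pdF
  have hdeg : (Dx : Divisor K F) - (Y - Z) ∈ Divisor.degZero (K := K) (F := F) :=
    AddSubgroup.sub_mem _ Dx.2 (by rw [Divisor.mem_degZero, map_sub, hYd, hZd, sub_zero])
  refine ⟨⟨_, hdeg⟩, ?_, ?_⟩
  · rw [Pic0_mk_eq_mk_iff]
    simpa using hprin
  · ext v
    show Finsupp.mapDomain S.r ((Dx : Divisor K F) - (Y - Z)) v = 0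
    rw [← Finsupp.mapDomain.addMonoidHom_apply, map_sub, map_sub,
      Finsupp.mapDomain.addMonoidHom_apply, Finsupp.mapDomain.addMonoidHom_apply,
      Finsupp.mapDomain.addMonoidHom_apply, Finsupp.sub_apply, Finsupp.sub_apply, hh v,
      S.div_red y hy Y hY, S.div_red z hz Z hZ, ← hyz, v.ord_mul hh0 hz]
    ring

end Fermat.Agent.H17
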