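import Fermat.Agent.H67Norm

/-!
# Base change formula and commuting correspondences on function fields (helper67)
-/

set_option autoImplicit false
set_option linter.unusedSectionVars false
set_option linter.style.haveILetI false

noncomputable section

open IsDedekindDomain WithZero IsLocalRing AlgebraicCurve

namespace Fermat.Agent.H67

section Approx

variable {K F F' : Type*} [Field K] [Field F] [Field F']
  [Algebra K F] [Algebra K F'] [Algebra F F'] [IsScalarTower K F F']
  [Module.Finite F F'] [CharZero K]

/-- For a place `w` of `F'` there is `b : F'` of order one at `w` and of order zero at all the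
other places with the same restriction to `F`. -/
theorem exists_ord_one_above (w : Place K F') :
    ∃ b : F', b ≠ 0 ∧ w.ord b = 1 ∧
      ∀ w' : Place K F', w'.restrict F = w.restrict F → w' ≠ w → w'.ord b = 0 := by
  haveI : Algebra.IsSeparable F F' := isSeparable_of_charZero K F F'
  set v := w.restrict F with hv
  have hw : w.restrict F = v := rfl
  haveI : Finite (HeightOneSpectrum (IC v F')) := by
    haveI : Finite {w : Place K F' // w.restrict F = v} :=
      Set.finite_coe_iff.mpr (finite_above v)
    exact Finite.of_equiv _ (equivHOS (K := K) (F := F) (F' := F') (v := v))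
  have hfinP : {I : Ideal (IC v F') | I.IsPrime}.Finite := by
    have h1 : (Set.range (fun P : HeightOneSpectrum (IC v F') => P.asIdeal)).Finite :=
      Set.finite_range _
    refine (h1.union (Set.finite_singleton ⊥)).subset fun I hI => ?_
    by_cases hbot : I = ⊥
    · exact Or.inr hbot
    · exact Or.inl ⟨⟨I, hI, hbot⟩, rfl⟩
  haveI : IsPrincipalIdealRing (IC v F') := IsPrincipalIdealRing.of_finite_primes hfinP
  obtain ⟨b, hb⟩ := (IsPrincipalIdealRing.principal (primeOf hw).asIdeal).principal
  have hb' : (primeOf hw).asIdeal = Ideal.span {b} := hb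
  have hb0 : b ≠ 0 := by
    rintro rfl
    apply (primeOf hw).ne_bot
    rw [hb', Ideal.span_singleton_eq_bot]
  have hbF : (b : F') ≠ 0 := by simpa using hb0
  refine ⟨b, hbF, ?_, ?_⟩
  · rw [ord_eq_primeOf hw]
    have h6 : (primeOf hw).valuation F' (b : F') = (primeOf hw).intValuation b :=
      (primeOf hw).valuation_of_algebraMap (K := F') b
    rw [h6, HeightOneSpectrum.intValuation_singleton _ hb0 hb', WithZero.log_exp, neg_neg]
  · intro w' hw' hne
    have hw'' : w'.restrict F = v := hw'
    have h0 : 0 ≤ w'.ord (b : F') := ord_nonneg_of_mem w' (ic_mem hw'' b)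
    by_contra hcon
    have hmem : b ∈ (primeOf hw'').asIdeal := (mem_primeOf_iff hw'' hb0).mpr (by omega)
    have hle : (primeOf hw).asIdeal ≤ (primeOf hw'').asIdeal := by
      rw [hb', Ideal.span_singleton_le_iff_mem]
      exact hmem
    have heq := (primeOf hw).isMaximal.eq_of_le (primeOf hw'').isPrime.ne_top hle
    exact hne (primeOf_injective hw'' hw (HeightOneSpectrum.ext heq.symm))

end Approx

section Square

variable {K A B C D : Type*} [Field K] [Field A] [Field B] [Field C] [Field D]
  [Algebra K A] [Algebra K B] [Algebra K C] [Algebra K D]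
  [Algebra A B] [Algebra A C] [Algebra B D] [Algebra C D] [Algebra A D]
  [IsScalarTower K A B] [IsScalarTower K A C] [IsScalarTower K B D] [IsScalarTower K C D]
  [IsScalarTower K A D] [IsScalarTower A B D] [IsScalarTower A C D]
  [Module.Finite A B] [Module.Finite A C] [Module.Finite B D] [Module.Finite C D]
  [Module.Finite A D]

omit [Module.Finite A B] [Module.Finite A C] [Module.Finite B D] [Module.Finite C D]
  [Module.Finite A D] in
theorem restrict_restrict [Algebra.IsIntegral A B] [Algebra.IsIntegral B D]
    [Algebra.IsIntegral A D] (x : Place K D) :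
    (x.restrict B).restrict A = x.restrict A := by
  apply Place.ext
  ext a
  change algebraMap B D (algebraMap A B a) ∈ x.toValuationSubring ↔
    algebraMap A D a ∈ x.toValuationSubring
  rw [← IsScalarTower.algebraMap_apply]

omit [Module.Finite A B] [Module.Finite A C] [Module.Finite B D] [Module.Finite C D]
  [Module.Finite A D] in
theorem ramificationIndex_mul [Algebra.IsIntegral A B] [Algebra.IsIntegral B D]
    [Algebra.IsIntegral A D] (x : Place K D) :
    (x.ramificationIndex B : ℤ) * ((x.restrict B).ramificationIndex A : ℤ)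
      = (x.ramificationIndex A : ℤ) := by
  obtain ⟨f, hf0, hf⟩ := exists_ord_eq_one (x.restrict A)
  have h1 := x.ord_restrict (F := A) f
  have h2 := x.ord_restrict (F := B) (algebraMap A B f)
  have h3 := (x.restrict B).ord_restrict (F := A) f
  rw [restrict_restrict, hf, mul_one] at h3
  rw [hf, mul_one] at h1
  rw [← IsScalarTower.algebraMap_apply, h1, h3] at h2
  exact h2.symm

variable [CharZero K]

/-- **Local base change identity**. -/
theorem sum_above_base_change
    (hnorm : ∀ b : B, Algebra.norm C (algebraMap B D b) = algebraMap A C (Algebra.norm A b))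
    (w : Place K B) (u : Place K C) (huw : u.restrict A = w.restrict A) [DecidableEq (Place K B)] :
    ∑ x ∈ above D u, (x.inertiaDeg C : ℤ) *
        (if x.restrict B = w then (x.ramificationIndex B : ℤ) else 0)
      = (u.ramificationIndex A : ℤ) * (w.inertiaDeg A : ℤ) := by
  obtain ⟨b, hb0, hb1, hbne⟩ := exists_ord_one_above (F := A) w
  have hbD : algebraMap B D b ≠ 0 := by simpa using hb0
  have h1 := ord_norm_above (F := C) (F' := D) u (algebraMap B D b) hbD
  rw [hnorm, u.ord_restrict (F := A), huw,
    ord_norm_above (F := A) (F' := B) (w.restrict A) b hb0] at h1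
  have h2 : ∑ w' ∈ above B (w.restrict A), (w'.inertiaDeg A : ℤ) * w'.ord b
      = (w.inertiaDeg A : ℤ) := by
    rw [Finset.sum_eq_single_of_mem w (mem_above.mpr rfl)]
    · rw [hb1, mul_one]
    · intro w' hw' hne
      rw [hbne w' (mem_above.mp hw') hne, mul_zero]
  rw [h2] at h1
  rw [h1]
  refine Finset.sum_congr rfl fun x hx => ?_
  congr 1
  have hxu : x.restrict C = u := mem_above.mp hx
  rw [x.ord_restrict (F := B)]
  split_ifs with h
  · rw [h, hb1, mul_one]
  · rw [hbne (x.restrict B) ?_ h, mul_zero]
    rw [restrict_restrict, ← huw, ← hxu, restrict_restrict]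

variable [HasPrincipalDivisors K C] [HasPrincipalDivisors K D]

/-- **Base change formula** `g^* f_* = f'_* g'^*` for divisors. -/
theorem pullback_pushforward
    (hnorm : ∀ b : B, Algebra.norm C (algebraMap B D b) = algebraMap A C (Algebra.norm A b))
    (E : Divisor K B) :
    Divisor.pullback C (Divisor.pushforward A E)
      = Divisor.pushforward C (Divisor.pullback D E) := by
  classical
  induction E using Finsupp.induction with
  | zero => simp
  | single_add w n E _ _ ih =>
    rw [map_add, map_add, map_add, map_add, ih]
    congr 1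
    ext u
    rw [Divisor.pullback_apply, Divisor.pushforward_single, pushforward_apply_eq_sum_above]
    by_cases huw : u.restrict A = w.restrict A
    · rw [huw, Finsupp.single_eq_same]
      have h := sum_above_base_change hnorm w u huw
      calc (u.ramificationIndex A : ℤ) * (n * (w.inertiaDeg A : ℤ))
          = ((u.ramificationIndex A : ℤ) * (w.inertiaDeg A : ℤ)) * n := by ring
        _ = ∑ x ∈ above D u, (x.inertiaDeg C : ℤ) *
              (Divisor.pullback D (Finsupp.single w n)) x := by
            rw [← h, Finset.sum_mul]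
            refine Finset.sum_congr rfl fun x _ => ?_
            rw [Divisor.pullback_apply]
            split_ifs with hxw
            · rw [hxw, Finsupp.single_eq_same]; ring
            · rw [Finsupp.single_eq_of_ne hxw]; ring
    · rw [Finsupp.single_eq_of_ne huw, mul_zero]
      symm
      refine Finset.sum_eq_zero fun x hx => ?_
      rw [Divisor.pullback_apply, Finsupp.single_eq_of_ne, mul_zero, mul_zero]
      rintro rfl
      apply huw
      rw [restrict_restrict, ← mem_above.mp hx, restrict_restrict]

end Square

section NormCompat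

variable {A B C D : Type*} [Field A] [Field B] [Field C] [Field D]
  [Algebra A B] [Algebra A C] [Algebra B D] [Algebra C D] [Algebra A D]
  [IsScalarTower A B D] [IsScalarTower A C D]
  [Module.Finite A B] [Module.Finite C D]

omit [Module.Finite C D] in
theorem norm_of_basis {ι : Type*} [Fintype ι] [DecidableEq ι] (b : Module.Basis ι A B) (b' : Module.Basis ι C D)
    (h : ∀ i, b' i = algebraMap B D (b i)) (x : B) :
    Algebra.norm C (algebraMap B D x) = algebraMap A C (Algebra.norm A x) := by
  rw [Algebra.norm_eq_matrix_det b', Algebra.norm_eq_matrix_det b, RingHom.map_det]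
  congr 1
  ext i j
  rw [RingHom.mapMatrix_apply, Matrix.map_apply, Algebra.leftMulMatrix_eq_repr_mul,
    Algebra.leftMulMatrix_eq_repr_mul, h]
  have h1 : x * b j = ∑ k, (b.repr (x * b j) k) • b k := (b.sum_repr _).symm
  have h2 : algebraMap B D x * algebraMap B D (b j)
      = ∑ k, (algebraMap A C (b.repr (x * b j) k)) • b' k := by
    rw [← map_mul]
    conv_lhs => rw [h1]
    rw [map_sum]
    refine Finset.sum_congr rfl fun k _ => ?_
    rw [h, Algebra.smul_def, Algebra.smul_def, map_mul, ← IsScalarTower.algebraMap_apply A B D,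
      ← IsScalarTower.algebraMap_apply A C D]
  rw [h2, map_sum, Finset.sum_apply']
  simp only [map_smul, Finsupp.smul_apply, Module.Basis.repr_self]
  rw [Finset.sum_eq_single i]
  · simp
  · intro k _ hk
    simp [hk]
  · simp

theorem norm_compat (hdeg : Module.finrank C D = Module.finrank A B)
    (hgen : IntermediateField.adjoin C (Set.range (algebraMap B D)) = ⊤) (x : B) :
    Algebra.norm C (algebraMap B D x) = algebraMap A C (Algebra.norm A x) := by
  classical
  set b := Module.finBasis A B with hb
  have hspan : ⊤ ≤ Submodule.span C (Set.range fun i => algebraMap B D (b i)) := by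
    have h1 : Algebra.adjoin C (Set.range (algebraMap B D)) = ⊤ := by
      rw [← IntermediateField.adjoin_toSubalgebra (F := C) (Set.range (algebraMap B D)), hgen]
      rfl
    have h2 : Subalgebra.toSubmodule (Algebra.adjoin C (Set.range (algebraMap B D)))
        = Submodule.span C (Set.range (algebraMap B D)) := by
      rw [Algebra.adjoin_eq_span]
      congr 1
      exact congrArg SetLike.coe (Submonoid.closure_eq (MonoidHom.mrange (algebraMap B D : B →* D)))
    rw [h1, Algebra.top_toSubmodule] at h2
    rw [h2, Submodule.span_le]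
    rintro _ ⟨y, rfl⟩
    rw [← b.sum_repr y, map_sum]
    refine Submodule.sum_mem _ fun k _ => ?_
    have h3 : algebraMap B D (b.repr y k • b k)
        = algebraMap A C (b.repr y k) • algebraMap B D (b k) := by
      rw [Algebra.smul_def, Algebra.smul_def, map_mul, ← IsScalarTower.algebraMap_apply A B D,
        ← IsScalarTower.algebraMap_apply A C D]
    rw [h3]
    exact Submodule.smul_mem _ _ (Submodule.subset_span ⟨k, rfl⟩)
  have hcard : Fintype.card (Fin (Module.finrank A B)) = Module.finrank C D := by
    rw [Fintype.card_fin, hdeg]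
  exact norm_of_basis b (basisOfTopLeSpanOfCardEqFinrank _ hspan hcard) (fun i => by simp) x

end NormCompat

section Along

variable {K A B C D : Type*} [Field K] [Field A] [Field B] [Field C] [Field D]
  [Algebra K A] [Algebra K B] [Algebra K C] [Algebra K D]

theorem isIntegral_of_finiteAlong {φ : A →ₐ[K] B} (h : FiniteAlong K φ) :
    φ.toRingHom.IsIntegral := by
  letI := algebraAlong φ
  haveI : Module.Finite A B := h
  exact (Algebra.IsIntegral.of_finite A B).isIntegral

theorem finiteAlong_comp {φ : A →ₐ[K] B} {ψ : B →ₐ[K] D} (h : FiniteAlong K φ)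
    (h' : FiniteAlong K ψ) : FiniteAlong K (ψ.comp φ) := by
  letI := algebraAlong φ
  letI := algebraAlong ψ
  letI := algebraAlong (ψ.comp φ)
  haveI : IsScalarTower A B D := IsScalarTower.of_algebraMap_eq fun _ => rfl
  haveI : Module.Finite A B := h
  haveI : Module.Finite B D := h'
  exact Module.Finite.trans (R := A) B D

/-- functoriality of pull back -/
theorem pullbackAlong_comp [HasPrincipalDivisors K B] [HasPrincipalDivisors K D]
    (φ : A →ₐ[K] B) (ψ : B →ₐ[K] D) (hφ : φ.toRingHom.IsIntegral) (hψ : ψ.toRingHom.IsIntegral)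
    (h : (ψ.comp φ).toRingHom.IsIntegral) (E : Divisor K A) :
    Divisor.pullbackAlong (ψ.comp φ) h E
      = Divisor.pullbackAlong ψ hψ (Divisor.pullbackAlong φ hφ E) := by
  letI := algebraAlong φ
  letI := algebraAlong ψ
  letI := algebraAlong (ψ.comp φ)
  haveI := isScalarTower_along φ
  haveI := isScalarTower_along ψ
  haveI := isScalarTower_along (ψ.comp φ)
  haveI := isIntegral_along φ hφ
  haveI := isIntegral_along ψ hψ
  haveI := isIntegral_along _ h
  haveI : IsScalarTower A B D := IsScalarTower.of_algebraMap_eq fun _ => rfl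
  ext x
  change Divisor.pullback D E x = Divisor.pullback D (Divisor.pullback B E) x
  rw [Divisor.pullback_apply, Divisor.pullback_apply, Divisor.pullback_apply,
    restrict_restrict (A := A) (B := B) x, ← mul_assoc, ramificationIndex_mul (A := A) (B := B) x]

/-- functoriality of push forward -/
theorem pushforwardAlong_comp (hdeg : ∀ v : Place K A, v.deg ≠ 0)
    (φ : A →ₐ[K] B) (ψ : B →ₐ[K] D) (hφ : φ.toRingHom.IsIntegral) (hψ : ψ.toRingHom.IsIntegral)
    (h : (ψ.comp φ).toRingHom.IsIntegral) (E : Divisor K D) :
    Divisor.pushforwardAlong (ψ.comp φ) h E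
      = Divisor.pushforwardAlong φ hφ (Divisor.pushforwardAlong ψ hψ E) := by
  letI := algebraAlong φ
  letI := algebraAlong ψ
  letI := algebraAlong (ψ.comp φ)
  haveI := isScalarTower_along φ
  haveI := isScalarTower_along ψ
  haveI := isScalarTower_along (ψ.comp φ)
  haveI := isIntegral_along φ hφ
  haveI := isIntegral_along ψ hψ
  haveI := isIntegral_along _ h
  haveI : IsScalarTower A B D := IsScalarTower.of_algebraMap_eq fun _ => rfl
  change Divisor.pushforward A E = Divisor.pushforward A (Divisor.pushforward B E)
  induction E using Finsupp.induction with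
  | zero => simp
  | single_add w n E _ _ ih =>
    rw [map_add, map_add, map_add, ih]
    congr 1
    rw [Divisor.pushforward_single, Divisor.pushforward_single, Divisor.pushforward_single,
      restrict_restrict (A := A) (B := B) w]
    congr 1
    rw [mul_assoc]
    congr 1
    have h1 := w.deg_restrict_mul_inertiaDeg (F := A)
    have h2 := w.deg_restrict_mul_inertiaDeg (F := B)
    have h3 := (w.restrict B).deg_restrict_mul_inertiaDeg (F := A)
    rw [restrict_restrict (A := A) (B := B) w] at h3
    have h4 : (w.restrict A).deg * w.inertiaDeg A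
        = (w.restrict A).deg * (w.inertiaDeg B * (w.restrict B).inertiaDeg A) := by
      rw [h1, ← h2, ← h3]; ring
    exact_mod_cast Nat.eq_of_mul_eq_mul_left (Nat.pos_of_ne_zero (hdeg _)) h4

variable [CharZero K]

/-- **Base change formula along homomorphisms**: for a square `φ' ∘ ψ = ψ' ∘ φ` with
`D` generated by `C` and `B` and `[D : C] = [B : A]`. -/
theorem pullbackAlong_pushforwardAlong [HasPrincipalDivisors K C] [HasPrincipalDivisors K D]
    {φ : A →ₐ[K] B} {ψ : A →ₐ[K] C} {φ' : C →ₐ[K] D} {ψ' : B →ₐ[K] D}
    (hsq : φ'.comp ψ = ψ'.comp φ)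
    (hφ : FiniteAlong K φ) (hψ : FiniteAlong K ψ) (hφ' : FiniteAlong K φ')
    (hψ' : FiniteAlong K ψ')
    (hdeg : finrankAlong K φ' = finrankAlong K φ)
    (hgen : Subfield.closure (Set.range φ' ∪ Set.range ψ') = ⊤)
    (iφ : φ.toRingHom.IsIntegral) (iψ : ψ.toRingHom.IsIntegral)
    (iφ' : φ'.toRingHom.IsIntegral) (iψ' : ψ'.toRingHom.IsIntegral) (E : Divisor K B) :
    Divisor.pullbackAlong ψ iψ (Divisor.pushforwardAlong φ iφ E)
      = Divisor.pushforwardAlong φ' iφ' (Divisor.pullbackAlong ψ' iψ' E) := by
  letI := algebraAlong φ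
  letI := algebraAlong ψ
  letI := algebraAlong φ'
  letI := algebraAlong ψ'
  letI := algebraAlong (φ'.comp ψ)
  haveI := isScalarTower_along φ
  haveI := isScalarTower_along ψ
  haveI := isScalarTower_along φ'
  haveI := isScalarTower_along ψ'
  haveI := isScalarTower_along (φ'.comp ψ)
  haveI : Module.Finite A B := hφ
  haveI : Module.Finite A C := hψ
  haveI : Module.Finite C D := hφ'
  haveI : Module.Finite B D := hψ'
  haveI : Module.Finite A D := finiteAlong_comp hψ hφ'
  haveI : IsScalarTower A C D := IsScalarTower.of_algebraMap_eq fun _ => rfl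
  haveI : IsScalarTower A B D := IsScalarTower.of_algebraMap_eq fun a =>
    congrArg (fun f : A →ₐ[K] D => f a) hsq
  refine pullback_pushforward (A := A) (B := B) (C := C) (D := D) ?_ E
  refine norm_compat hdeg ?_
  rw [eq_top_iff]
  intro x _
  have hx : x ∈ Subfield.closure (Set.range φ' ∪ Set.range ψ') := hgen ▸ Subfield.mem_top x
  have hle : Subfield.closure (Set.range φ' ∪ Set.range ψ')
      ≤ (IntermediateField.adjoin C (Set.range (algebraMap B D))).toSubfield := by
    rw [Subfield.closure_le]
    rintro y (⟨c, rfl⟩ | ⟨b, rfl⟩)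
    · exact (IntermediateField.adjoin C (Set.range (algebraMap B D))).algebraMap_mem c
    · exact IntermediateField.subset_adjoin C _ ⟨b, rfl⟩
  exact hle hx


/-- Two correspondences which fit in "cartesian" squares commute. -/
theorem correspondence_comm [HasPrincipalDivisors K B] [HasPrincipalDivisors K C]
    [HasPrincipalDivisors K D] (hdegA : ∀ v : Place K A, v.deg ≠ 0)
    {α β : A →ₐ[K] B} {α' β' : A →ₐ[K] C} {a' b' : B →ₐ[K] D} {a b : C →ₐ[K] D}
    (h1 : a.comp β' = b'.comp α) (h2 : a'.comp β = b.comp α')
    (h3 : a.comp α' = a'.comp α) (h4 : b.comp β' = b'.comp β)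
    (fα : FiniteAlong K α) (fβ : FiniteAlong K β) (fα' : FiniteAlong K α')
    (fβ' : FiniteAlong K β') (fa : FiniteAlong K a) (fb : FiniteAlong K b)
    (fa' : FiniteAlong K a') (fb' : FiniteAlong K b')
    (d1 : finrankAlong K a = finrankAlong K α) (d2 : finrankAlong K a' = finrankAlong K α')
    (g1 : Subfield.closure (Set.range a ∪ Set.range b') = ⊤)
    (g2 : Subfield.closure (Set.range a' ∪ Set.range b) = ⊤)
    (iα : α.toRingHom.IsIntegral) (iβ : β.toRingHom.IsIntegral)
    (iα' : α'.toRingHom.IsIntegral) (iβ' : β'.toRingHom.IsIntegral) (E : Divisor K A) :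
    Divisor.correspondence β' α' iβ' iα' (Divisor.correspondence β α iβ iα E)
      = Divisor.correspondence β α iβ iα (Divisor.correspondence β' α' iβ' iα' E) := by
  have ia := isIntegral_of_finiteAlong fa
  have ib := isIntegral_of_finiteAlong fb
  have ia' := isIntegral_of_finiteAlong fa'
  have ib' := isIntegral_of_finiteAlong fb'
  have iaα' := isIntegral_of_finiteAlong (finiteAlong_comp fα' fa)
  have ib'β := isIntegral_of_finiteAlong (finiteAlong_comp fβ fb')
  have ia'α := isIntegral_of_finiteAlong (finiteAlong_comp fα fa')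
  have ibβ' := isIntegral_of_finiteAlong (finiteAlong_comp fβ' fb)
  simp only [Divisor.correspondence_apply]
  rw [pullbackAlong_pushforwardAlong h1 fα fβ' fa fb' d1 g1 iα iβ' ia ib',
    pullbackAlong_pushforwardAlong h2 fα' fβ fa' fb d2 g2 iα' iβ ia' ib,
    ← pullbackAlong_comp β b' iβ ib' ib'β, ← pushforwardAlong_comp hdegA α' a iα' ia iaα',
    ← pullbackAlong_comp β' b iβ' ib ibβ', ← pushforwardAlong_comp hdegA α a' iα ia' ia'α]
  congr 1
  · simp only [h3]
  · simp only [h4]

end Along

end Fermat.Agent.H67
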