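import Fermat.Prelude.Def_ModularCurve_HeckeModule
import Fermat.Prelude.Def_ModularCurve_X0ModL
import Fermat.Agent.H67Square
import Fermat.Agent.H94Divisors

/-!
# The modular function fields `F_N` (helper67): basic facts
-/

set_option autoImplicit false
set_option linter.unusedSectionVars false
set_option linter.style.haveILetI false

noncomputable section

open AlgebraicCurve IntermediateField HahnSeries ModularCurve

namespace Fermat.Agent.H67

section Laurent

variable (L : Type*) [Field L]

theorem transcendental_jqModC : Transcendental L (jqModC L) := by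
  rw [transcendental_iff]
  intro p hp
  by_contra hp0
  set n := p.natDegree with hn
  have h1 : (Polynomial.aeval (jqModC L) p).coeff (-(n : ℤ)) = 0 := by rw [hp]; rfl
  rw [Polynomial.aeval_eq_sum_range] at h1
  simp only [Algebra.smul_def, algebraMap_laurentSeries_eq_single] at h1
  rw [HahnSeries.coeff_sum, Finset.sum_eq_single_of_mem n (by simp [hn])] at h1
  · rw [HahnSeries.coeff_single_mul, sub_zero, coeff_jqModC_pow_self L n, mul_one] at h1
    exact hp0 (Polynomial.leadingCoeff_eq_zero.mp h1)
  · intro k hk hkn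
    have hk' : k < n := by
      rw [Finset.mem_range] at hk
      omega
    rw [HahnSeries.coeff_single_mul, sub_zero,
      coeff_jqModC_pow_of_lt L (b := k) (m := -(n : ℤ)) (by omega), mul_zero]

end Laurent

section FiniteAdjoin

variable {K E : Type*} [Field K] [Field E] [Algebra K E]

theorem finiteDimensional_adjoin_of_relfinrank {B : IntermediateField K E} (x : E) (hx : x ∈ B)
    (h : relfinrank K⟮x⟯ B ≠ 0) : FiniteDimensional K⟮(⟨x, hx⟩ : B)⟯ B := by
  have h1 : K⟮x⟯ ≤ B := by
    rw [adjoin_le_iff, Set.singleton_subset_iff]; exact hx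
  rw [relfinrank_eq_finrank_of_le h1] at h
  haveI h2 : FiniteDimensional K⟮x⟯ (extendScalars h1) :=
    FiniteDimensional.of_finrank_pos (Nat.pos_of_ne_zero h)
  have hmap : (K⟮(⟨x, hx⟩ : B)⟯).map B.val = K⟮x⟯ := by
    rw [adjoin_map, Set.image_singleton]; rfl
  have hmem : ∀ a : K⟮x⟯, (⟨a, h1 a.2⟩ : B) ∈ K⟮(⟨x, hx⟩ : B)⟯ := by
    intro a
    have ha : (a : E) ∈ (K⟮(⟨x, hx⟩ : B)⟯).map B.val := by rw [hmap]; exact a.2
    obtain ⟨b, hb, hba⟩ := ha
    have : b = ⟨a, h1 a.2⟩ := Subtype.ext hba
    rw [← this]
    exact hb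
  letI : Algebra K⟮x⟯ B := (inclusion h1).toRingHom.toAlgebra
  let φ : K⟮x⟯ →+* K⟮(⟨x, hx⟩ : B)⟯ := (inclusion h1).toRingHom.codRestrict _ (fun a => hmem a)
  letI : Algebra K⟮x⟯ K⟮(⟨x, hx⟩ : B)⟯ := φ.toAlgebra
  haveI : IsScalarTower K⟮x⟯ K⟮(⟨x, hx⟩ : B)⟯ B := IsScalarTower.of_algebraMap_eq fun _ => rfl
  haveI : Module.Finite K⟮x⟯ B := h2
  exact Module.Finite.of_restrictScalars_finite K⟮x⟯ K⟮(⟨x, hx⟩ : B)⟯ B

end FiniteAdjoin

section FiniteAlong

variable {K F F' : Type*} [Field K] [Field F] [Field F'] [Algebra K F] [Algebra K F']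

/-- Every homomorphism of function fields (of one variable) is finite. -/
theorem finiteAlong_of_funField [hF : H94.FunField K F] [H94.FunField K F'] (φ : F →ₐ[K] F') :
    FiniteAlong K φ := by
  obtain ⟨x, hx, -⟩ := hF.out
  have hy : Transcendental K (φ x) := by
    intro h
    exact hx ((isAlgebraic_algHom_iff φ φ.injective).mp h)
  haveI h1 := H94.FunField.finiteDimensional (F := F') hy
  have hle : K⟮φ x⟯ ≤ φ.fieldRange := by
    rw [adjoin_le_iff, Set.singleton_subset_iff]
    exact ⟨x, rfl⟩
  letI : Algebra K⟮φ x⟯ φ.fieldRange := (inclusion hle).toRingHom.toAlgebra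
  haveI : IsScalarTower K⟮φ x⟯ φ.fieldRange F' := IsScalarTower.of_algebraMap_eq fun _ => rfl
  haveI h2 : Module.Finite φ.fieldRange F' :=
    Module.Finite.of_restrictScalars_finite K⟮φ x⟯ φ.fieldRange F'
  letI := algebraAlong φ
  let e : F ≃ₐ[K] φ.fieldRange := AlgEquiv.ofInjectiveField φ
  exact Module.Finite.of_equiv_equiv (A₁ := φ.fieldRange) (B₁ := F') (A₂ := F) (B₂ := F')
    e.symm.toRingEquiv (RingEquiv.refl F') (by
      ext a
      obtain ⟨b, rfl⟩ := e.surjective a
      change φ (e.symm (e b)) = (e b : F')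
      rw [e.symm_apply_apply]
      rfl)

end FiniteAlong

section Field

variable (L : Type*) [Field L] [Algebra ℚ L]

theorem coeffEmb_jq : coeffEmb L jq = jqModC L := by
  rw [coeffEmb, ← jqModC_rat, coeffMap_jqModC]

theorem coeffEmb_qExpand_jq (d : ℕ) [NeZero d] :
    coeffEmb L (qExpand ℚ d jq) = qExpand L d (jqModC L) := by
  rw [coeffEmb, coeffMap_qExpand]
  exact congrArg _ (coeffEmb_jq L)

/-- The two descriptions of the function field of `X_0(N)` over `L` agree. -/
theorem laurentBaseChange_full (N : ℕ) :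
    laurentBaseChange L (modularFunctionFieldFull N) = modularFunctionFieldFullC L N := by
  apply le_antisymm
  · rw [laurentBaseChange, adjoin_le_iff]
    rintro _ ⟨y, hy, rfl⟩
    have hle : modularFunctionFieldFull N ≤
        ((modularFunctionFieldFullC L N).toSubfield.comap (coeffEmb L)).toIntermediateField
          (fun a => by
            rw [Subfield.mem_comap]
            have : coeffEmb L (algebraMap ℚ (LaurentSeries ℚ) a)
                = algebraMap L (LaurentSeries L) (algebraMap ℚ L a) := by
              rw [algebraMap_laurentSeries_eq_single, algebraMap_laurentSeries_eq_single, coeffEmb,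
                coeffMap_single]
            rw [this]
            exact (modularFunctionFieldFullC L N).algebraMap_mem _) := by
      rw [modularFunctionFieldFull, adjoin_le_iff]
      rintro x ⟨d, hd0, hd, rfl⟩
      haveI := hd0
      change coeffEmb L (qExpand ℚ d jq) ∈ modularFunctionFieldFullC L N
      rw [coeffEmb_qExpand_jq]
      exact jqModCd_mem_full L N hd
    exact hle hy
  · rw [modularFunctionFieldFullC, adjoin_le_iff]
    rintro x ⟨d, hd0, hd, rfl⟩
    haveI := hd0
    rw [← coeffEmb_qExpand_jq]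
    exact coeffEmb_mem_laurentBaseChange L (jqd_mem_full N hd)

theorem mem_laurentBaseChange_full {N : ℕ} {d : ℕ} [NeZero d] (hd : d ∣ N) :
    qExpand L d (jqModC L) ∈ laurentBaseChange L (modularFunctionFieldFull N) := by
  rw [laurentBaseChange_full]
  exact jqModCd_mem_full L N hd

/-- The degree statement: `[F_M : L(j)] = ψ(M)` for all `M`. -/
def DegreeFact : Prop := ∀ (M : ℕ) [NeZero M],
  relfinrank L⟮jqModC L⟯ (modularFunctionFieldFullC L M) = dedekindPsi M

theorem dedekindPsi_pos (M : ℕ) [NeZero M] : 0 < dedekindPsi M := by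
  rw [dedekindPsi]
  refine Finset.sum_pos' (fun _ _ => Nat.zero_le _) ⟨1, ?_, ?_⟩
  · simp [NeZero.ne M]
  · simp [Nat.pos_of_ne_zero (NeZero.ne M)]

variable {L}

theorem funField_of_degreeFact (hD : DegreeFact L) (N : ℕ) [NeZero N] :
    H94.FunField L (laurentBaseChange L (modularFunctionFieldFull N)) := by
  rw [laurentBaseChange_full]
  have hx : jqModC L ∈ modularFunctionFieldFullC L N := jqModC_mem_full L N
  refine ⟨⟨jqModC L, hx⟩, ?_, ?_⟩
  · have h := transcendental_jqModC L
    exact (transcendental_algebraMap_iff (R := L) (S := modularFunctionFieldFullC L N)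
      (A := LaurentSeries L) (Subtype.val_injective)).mp h
  · exact finiteDimensional_adjoin_of_relfinrank _ hx (by
      rw [hD N]; exact (dedekindPsi_pos N).ne')


theorem relfinrank_full_mul (hD : DegreeFact L) (N ℓ : ℕ) [NeZero N] [NeZero ℓ] :
    dedekindPsi N *
      relfinrank (modularFunctionFieldFullC L N) (modularFunctionFieldFullC L (N * ℓ))
      = dedekindPsi (N * ℓ) := by
  rw [← hD N, ← hD (N * ℓ)]
  refine relfinrank_mul_relfinrank ?_ (full_degeneracyC_le L (dvd_mul_right N ℓ))
  rw [adjoin_le_iff, Set.singleton_subset_iff]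
  exact jqModC_mem_full L N

theorem finrank_alpha (N ℓ : ℕ) [NeZero N] [NeZero ℓ] :
    finrankAlong L (heckeAlphaBar L N ℓ)
      = relfinrank (modularFunctionFieldFullC L N) (modularFunctionFieldFullC L (N * ℓ)) := by
  have hle := full_degeneracyC_le L (dvd_mul_right N ℓ)
  rw [relfinrank_eq_finrank_of_le hle]
  letI := algebraAlong (heckeAlphaBar L N ℓ)
  have e1 := (IntermediateField.equivOfEq (laurentBaseChange_full L N)).toRingEquiv
  refine Algebra.finrank_eq_of_equiv_equiv
    (IntermediateField.equivOfEq (laurentBaseChange_full L N)).toRingEquiv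
    (IntermediateField.equivOfEq (laurentBaseChange_full L (N * ℓ))).toRingEquiv ?_
  ext x
  rfl

theorem finiteAlong_alpha (hD : DegreeFact L) (N ℓ : ℕ) [NeZero N] [NeZero ℓ] :
    FiniteAlong L (heckeAlphaBar L N ℓ) := by
  letI := algebraAlong (heckeAlphaBar L N ℓ)
  have h1 : finrankAlong L (heckeAlphaBar L N ℓ) ≠ 0 := by
    rw [finrank_alpha]
    intro h
    have h2 := relfinrank_full_mul hD N ℓ
    rw [h, mul_zero] at h2
    exact (dedekindPsi_pos (N * ℓ)).ne h2
  exact FiniteDimensional.of_finrank_pos (Nat.pos_of_ne_zero h1)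


/-- **The Hecke inputs are satisfied** (given the degree theorem). -/
theorem heckeInputsAlong_of_degreeFact [IsAlgClosed L] [CharZero L] (hD : DegreeFact L)
    (N ℓ : ℕ) [NeZero N] [NeZero ℓ] : HeckeInputsAlong L N ℓ := by
  haveI := funField_of_degreeFact hD N
  haveI := funField_of_degreeFact hD (N * ℓ)
  haveI : HasPrincipalDivisors L (laurentBaseChange L (modularFunctionFieldFull (N * ℓ))) :=
    H94.hasPrincipalDivisors L _
  have hα := finiteAlong_of_funField (heckeAlphaBar L N ℓ)
  have hβ := finiteAlong_of_funField (heckeBetaBar L N ℓ)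
  refine heckeInputsAlong_intro (isIntegral_of_finiteAlong hα) (isIntegral_of_finiteAlong hβ)
    ?_ hα ?_
  · letI := algebraAlong (heckeBetaBar L N ℓ)
    haveI := isScalarTower_along (heckeBetaBar L N ℓ)
    haveI : Module.Finite (laurentBaseChange L (modularFunctionFieldFull N))
      (laurentBaseChange L (modularFunctionFieldFull (N * ℓ))) := hβ
    exact fundamentalIdentity
  · letI := algebraAlong (heckeAlphaBar L N ℓ)
    haveI := isScalarTower_along (heckeAlphaBar L N ℓ)
    haveI : Module.Finite (laurentBaseChange L (modularFunctionFieldFull N))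
      (laurentBaseChange L (modularFunctionFieldFull (N * ℓ))) := hα
    exact pushforwardNormFormula

end Field

end Fermat.Agent.H67
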