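import Fermat.Agent.H9Cusp
import Fermat.Agent.H67Field

/-!
# The degree of the second degeneracy map
-/

set_option autoImplicit false
set_option linter.unusedSectionVars false
set_option linter.style.haveILetI false

noncomputable section

open ModularCurve Polynomial IntermediateField AlgebraicCurve
open Fermat.Agent.H61 Fermat.Agent.H28 Fermat.Agent.H66

namespace Fermat.Agent.H9

section General

variable {K E : Type*} [Field K] [Field E] [Algebra K E]

theorem finrank_adjoin_algEquiv (w : E ≃ₐ[K] E) (x : E) :
    Module.finrank K⟮w x⟯ E = Module.finrank K⟮x⟯ E := by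
  have hmap : (K⟮x⟯).map w.toAlgHom = K⟮w x⟯ := by
    rw [adjoin_map, Set.image_singleton]; rfl
  let e := (intermediateFieldMap w K⟮x⟯).trans (equivOfEq hmap)
  symm
  refine Algebra.finrank_eq_of_equiv_equiv e.toRingEquiv w.toRingEquiv ?_
  ext a
  rfl

end General

section Psi

theorem dedekindPsi_prime {p : ℕ} (hp : p.Prime) : dedekindPsi p = p + 1 := by
  rw [dedekindPsi, hp.divisors]
  have : ({1, p} : Finset ℕ).filter Squarefree = {1, p} := by
    apply Finset.filter_true_of_mem
    intro x hx
    rw [Finset.mem_insert, Finset.mem_singleton] at hx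
    rcases hx with rfl | rfl
    · exact squarefree_one
    · exact hp.squarefree
  rw [this, Finset.sum_pair hp.one_lt.ne, Nat.div_one, Nat.div_self hp.pos]

end Psi

section Prime

variable (K : Type*) [Field K] [IsAlgClosed K] (p : ℕ) [Fact p.Prime] (hp0 : (p : K) ≠ 0)

include hp0 in
theorem relfinrank_J_p : relfinrank K⟮J K p⟯ (modularFunctionFieldFullC K p) = p + 1 := by
  have h1 := H42.relfinrank_eq_finrank_adjoin (K := K) (modularFunctionFieldFullC K p) (J_p_mem)
  rw [h1, ← finrank_adjoin_j₁ K p hp0, ← finrank_adjoin_algEquiv (wAL K p hp0) (j₁ K p), wAL_j₁]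
  rfl

include hp0 in
/-- `[F_{Np} : K(j_p)] = [F_{Np} : K(j)]`. -/
theorem relfinrank_J_p_full (N : ℕ) [NeZero N] :
    relfinrank K⟮J K p⟯ (modularFunctionFieldFullC K (N * p)) =
      relfinrank K⟮jqModC K⟯ (modularFunctionFieldFullC K (N * p)) := by
  have hle : modularFunctionFieldFullC K p ≤ modularFunctionFieldFullC K (N * p) :=
    full_degeneracyC_le K (Dvd.intro_left N rfl)
  have h1 : K⟮J K p⟯ ≤ modularFunctionFieldFullC K p := by
    rw [adjoin_simple_le_iff]; exact J_p_mem
  have h2 : K⟮jqModC K⟯ ≤ modularFunctionFieldFullC K p := adjoin_j_le_full K p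
  rw [← relfinrank_mul_relfinrank h1 hle, ← relfinrank_mul_relfinrank h2 hle,
    relfinrank_J_p K p hp0, relfinrank_full K p hp0, dedekindPsi_prime Fact.out]

end Prime

section Beta

variable (L : Type*) [Field L] [Algebra ℚ L] [IsAlgClosed L]

theorem degreeFact [CharZero L] : H67.DegreeFact L := by
  intro M _
  exact relfinrank_full L M (by exact_mod_cast NeZero.ne M)

theorem finrank_beta (N p : ℕ) [NeZero N] [Fact p.Prime] :
    finrankAlong L (heckeBetaBar L N p)
      = relfinrank ((modularFunctionFieldFullC L N).map (qExpandAlgHomC L p))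
        (modularFunctionFieldFullC L (N * p)) := by
  have hle : (modularFunctionFieldFullC L N).map (qExpandAlgHomC L p) ≤
    modularFunctionFieldFullC L (N * p) := full_degeneracyC_map_le L N p
  rw [relfinrank_eq_finrank_of_le hle]
  letI := algebraAlong (heckeBetaBar L N p)
  let e1 : laurentBaseChange L (modularFunctionFieldFull N) ≃ₐ[L]
      (modularFunctionFieldFullC L N).map (qExpandAlgHomC L p) :=
    (IntermediateField.equivOfEq (H67.laurentBaseChange_full L N)).trans
      ((modularFunctionFieldFullC L N).equivMap (qExpandAlgHomC L p))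
  refine Algebra.finrank_eq_of_equiv_equiv e1.toRingEquiv
    (IntermediateField.equivOfEq (H67.laurentBaseChange_full L (N * p))).toRingEquiv ?_
  ext x
  rfl

theorem psi_mul_finrank_beta [CharZero L] (N p : ℕ) [NeZero N] [Fact p.Prime] :
    dedekindPsi N * finrankAlong L (heckeBetaBar L N p) = dedekindPsi (N * p) := by
  have hp : p.Prime := Fact.out
  have hp0 : (p : L) ≠ 0 := by exact_mod_cast hp.ne_zero
  rw [finrank_beta]
  have hle : (modularFunctionFieldFullC L N).map (qExpandAlgHomC L p) ≤
    modularFunctionFieldFullC L (N * p) := full_degeneracyC_map_le L N p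
  have h1 : (L⟮jqModC L⟯).map (qExpandAlgHomC L p) ≤
      (modularFunctionFieldFullC L N).map (qExpandAlgHomC L p) :=
    IntermediateField.map_mono _ (adjoin_j_le_full L N)
  have h2 := relfinrank_mul_relfinrank h1 hle
  rw [relfinrank_map_map, relfinrank_full L N (by exact_mod_cast NeZero.ne N)] at h2
  rw [h2]
  have h3 : (L⟮jqModC L⟯).map (qExpandAlgHomC L p) = L⟮J L p⟯ := by
    rw [adjoin_map, Set.image_singleton, J_eq]
    rfl
  rw [h3, relfinrank_J_p_full L p hp0 N]
  haveI : NeZero (N * p) := ⟨mul_ne_zero (NeZero.ne N) hp.ne_zero⟩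
  exact relfinrank_full L (N * p) (by exact_mod_cast NeZero.ne (N * p))

end Beta

end Fermat.Agent.H9
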