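import Mathlib
import Fermat.Agent.H17HkAbs
import Fermat.Agent.H9Beta
import Fermat.Agent.H67Comm
import Fermat.Agent.H31Inputs

/-!
# MZ-J2: degeneracy maps in arbitrary characteristic (helper17)
-/

set_option autoImplicit false
set_option linter.unusedSectionVars false

noncomputable section

open AlgebraicCurve ModularCurve IntermediateField

namespace Fermat.Agent.H17

open Fermat.Agent.H66 Fermat.Agent.H9

section Gen

variable {k E E' : Type*} [Field k] [Field E] [Field E'] [Algebra k E] [Algebra k E']
variable [IsAlgClosed k] [H94.FunField k E] [H94.FunField k E']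

theorem isIntegral_of_funField (φ : E →ₐ[k] E') : φ.toRingHom.IsIntegral := by
  have h := H67.finiteAlong_of_funField φ
  letI := algebraAlong φ
  haveI : Module.Finite E E' := h
  have h1 : Algebra.IsIntegral E E' := inferInstance
  exact h1.isIntegral

theorem fundamentalIdentityAlong_of_funField [HasPrincipalDivisors k E'] (φ : E →ₐ[k] E')
    (hφ : φ.toRingHom.IsIntegral) : FundamentalIdentityAlong k φ hφ := by
  have h := H67.finiteAlong_of_funField φ
  letI := algebraAlong φ
  haveI := isScalarTower_along φ
  haveI := isIntegral_along φ hφ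
  haveI : Module.Finite E E' := h
  refine ⟨fun v => ?_⟩
  rw [H3RR.deg_eq_one, Nat.cast_one, mul_one]
  have h1 := H88.sum_ramificationIndex v (v.fiber E') (fun w => Place.mem_fiber)
  rw [← h1]
  push_cast
  refine Finset.sum_congr rfl fun w _ => ?_
  rw [H3RR.deg_eq_one, Nat.cast_one, mul_one]

end Gen

section Maps

variable (K : Type*) [Field K] (N q : ℕ) [NeZero N] [NeZero q]

/-- the inclusion -/
def alphaC : modularFunctionFieldFullC K N →ₐ[K] modularFunctionFieldFullC K (N * q) :=
  IntermediateField.inclusion (full_degeneracyC_le K (dvd_mul_right N q))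

@[simp] theorem coe_alphaC (x : modularFunctionFieldFullC K N) :
    (alphaC K N q x : LaurentSeries K) = (x : LaurentSeries K) :=
  IntermediateField.coe_inclusion _ x

/-- `f(q) ↦ f(q ^ ℓ)` -/
def betaC : modularFunctionFieldFullC K N →ₐ[K] modularFunctionFieldFullC K (N * q) where
  toFun x := ⟨qExpand K q (x : LaurentSeries K), full_degeneracyC_map_le K N q ⟨x, x.2, rfl⟩⟩
  map_one' := Subtype.ext (map_one (qExpand K q))
  map_mul' _ _ := Subtype.ext (map_mul (qExpand K q) _ _)
  map_zero' := Subtype.ext (map_zero (qExpand K q))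
  map_add' _ _ := Subtype.ext (map_add (qExpand K q) _ _)
  commutes' a := Subtype.ext <| by
    show qExpand K q (algebraMap K (LaurentSeries K) a) = algebraMap K (LaurentSeries K) a
    rw [algebraMap_laurentSeries_eq_single, qExpand_single, mul_zero]

@[simp] theorem coe_betaC (x : modularFunctionFieldFullC K N) :
    (betaC K N q x : LaurentSeries K) = qExpand K q (x : LaurentSeries K) := rfl

theorem finrank_alphaC [IsAlgClosed K] (hN : ((N * q : ℕ) : K) ≠ 0) :
    dedekindPsi N * finrankAlong K (alphaC K N q) = dedekindPsi (N * q) := by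
  have hN' : (N : K) ≠ 0 := by
    intro h
    apply hN
    rw [Nat.cast_mul, h, zero_mul]
  have hle := full_degeneracyC_le K (dvd_mul_right N q)
  have h1 : finrankAlong K (alphaC K N q) =
      relfinrank (modularFunctionFieldFullC K N) (modularFunctionFieldFullC K (N * q)) := by
    rw [relfinrank_eq_finrank_of_le hle]
    letI := algebraAlong (alphaC K N q)
    refine Algebra.finrank_eq_of_equiv_equiv (RingEquiv.refl (modularFunctionFieldFullC K N))
      (RingEquiv.refl (modularFunctionFieldFullC K (N * q))) ?_
    ext x
    rfl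
  rw [h1, ← relfinrank_full K N hN', ← relfinrank_full K (N * q) hN]
  exact relfinrank_mul_relfinrank (adjoin_j_le_full K N) hle

theorem finrank_betaC [IsAlgClosed K] [Fact q.Prime] (hN : ((N * q : ℕ) : K) ≠ 0) :
    dedekindPsi N * finrankAlong K (betaC K N q) = dedekindPsi (N * q) := by
  have hN' : (N : K) ≠ 0 := by
    intro h
    apply hN
    rw [Nat.cast_mul, h, zero_mul]
  have hq' : (q : K) ≠ 0 := by
    intro h
    apply hN
    rw [Nat.cast_mul, h, mul_zero]
  have hle : (modularFunctionFieldFullC K N).map (qExpandAlgHomC K q) ≤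
    modularFunctionFieldFullC K (N * q) := full_degeneracyC_map_le K N q
  have h0 : finrankAlong K (betaC K N q) =
      relfinrank ((modularFunctionFieldFullC K N).map (qExpandAlgHomC K q))
        (modularFunctionFieldFullC K (N * q)) := by
    rw [relfinrank_eq_finrank_of_le hle]
    letI := algebraAlong (betaC K N q)
    let e1 : modularFunctionFieldFullC K N ≃ₐ[K]
        (modularFunctionFieldFullC K N).map (qExpandAlgHomC K q) :=
      (modularFunctionFieldFullC K N).equivMap (qExpandAlgHomC K q)
    refine Algebra.finrank_eq_of_equiv_equiv e1.toRingEquiv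
      (RingEquiv.refl (modularFunctionFieldFullC K (N * q))) ?_
    ext x
    rfl
  rw [h0]
  have h1 : (K⟮jqModC K⟯).map (qExpandAlgHomC K q) ≤
      (modularFunctionFieldFullC K N).map (qExpandAlgHomC K q) :=
    IntermediateField.map_mono _ (adjoin_j_le_full K N)
  have h2 := relfinrank_mul_relfinrank h1 hle
  rw [relfinrank_map_map, relfinrank_full K N hN'] at h2
  rw [h2]
  have h3 : (K⟮jqModC K⟯).map (qExpandAlgHomC K q) = K⟮J K q⟯ := by
    rw [adjoin_map, Set.image_singleton, J_eq]
    rfl
  rw [h3, relfinrank_J_p_full K q hq' N]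
  exact relfinrank_full K (N * q) hN

end Maps

end Fermat.Agent.H17
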