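import Fermat.Agent.H24Final
import Fermat.Agent.H94Export
import Fermat.Agent.H17HkDeg

/-!
# Elliptic points of order three and degeneracy maps

The place of `X₀(Mℓ)` given by an elliptic point of order three has the same image under the two
degeneracy maps to `X₀(M)`.
-/

set_option autoImplicit false
set_option linter.unusedSectionVars false

noncomputable section

open UpperHalfPlane hiding I
open Complex MatrixGroups ModularGroup ModularCurve CongruenceSubgroup AlgebraicCurve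
open Fermat.Agent.H24 Fermat.Agent.H94

namespace Fermat.Agent.H8C

/-- Thue's lemma. -/
theorem exists_small {ℓ : ℕ} (hℓ : ℓ.Prime) (a : ℤ) :
    ∃ x y : ℤ, (x, y) ≠ (0, 0) ∧ x ^ 2 < ℓ ∧ y ^ 2 < ℓ ∧ (ℓ : ℤ) ∣ x + y * a := by
  have : Fact ℓ.Prime := ⟨hℓ⟩
  set r := Nat.sqrt ℓ with hr
  have hr1 : r * r ≤ ℓ := Nat.sqrt_le ℓ
  have hr2 : ℓ < (r + 1) * (r + 1) := Nat.lt_succ_sqrt ℓ
  have hne : r * r ≠ ℓ := by
    intro h
    exact hℓ.not_isSquare ⟨r, h.symm⟩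
  have hlt : r * r < ℓ := lt_of_le_of_ne hr1 hne
  let f : Fin (r + 1) × Fin (r + 1) → ZMod ℓ := fun z => ((z.1 : ℕ) : ZMod ℓ) + ((z.2 : ℕ) : ZMod ℓ) * (a : ZMod ℓ)
  have hcard : Fintype.card (ZMod ℓ) < Fintype.card (Fin (r + 1) × Fin (r + 1)) := by
    rw [ZMod.card, Fintype.card_prod, Fintype.card_fin]
    exact hr2
  obtain ⟨z, z', hzz, hf⟩ := Fintype.exists_ne_map_eq_of_card_lt f hcard
  refine ⟨(z.1 : ℕ) - (z'.1 : ℕ), (z.2 : ℕ) - (z'.2 : ℕ), ?_, ?_, ?_, ?_⟩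
  · intro h
    apply hzz
    have h1 := congrArg Prod.fst h
    have h2 := congrArg Prod.snd h
    simp only at h1 h2
    ext
    · omega
    · omega
  · have h1 := z.1.isLt
    have h2 := z'.1.isLt
    have h3 : |((z.1 : ℕ) : ℤ) - (z'.1 : ℕ)| ≤ r := by rw [abs_le]; constructor <;> omega
    have h4 : (((z.1 : ℕ) : ℤ) - (z'.1 : ℕ)) ^ 2 ≤ (r : ℤ) ^ 2 := sq_le_sq' (by rw [abs_le] at h3; linarith [h3.1]) (by rw [abs_le] at h3; linarith [h3.2])
    have h5 : ((r * r : ℕ) : ℤ) < ℓ := by exact_mod_cast hlt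
    push_cast at h5
    nlinarith
  · have h1 := z.2.isLt
    have h2 := z'.2.isLt
    have h3 : |((z.2 : ℕ) : ℤ) - (z'.2 : ℕ)| ≤ r := by rw [abs_le]; constructor <;> omega
    have h4 : (((z.2 : ℕ) : ℤ) - (z'.2 : ℕ)) ^ 2 ≤ (r : ℤ) ^ 2 := sq_le_sq' (by rw [abs_le] at h3; linarith [h3.1]) (by rw [abs_le] at h3; linarith [h3.2])
    have h5 : ((r * r : ℕ) : ℤ) < ℓ := by exact_mod_cast hlt
    push_cast at h5
    nlinarith
  · rw [← ZMod.intCast_zmod_eq_zero_iff_dvd]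
    push_cast
    have : (((z.1 : ℕ) : ZMod ℓ) + ((z.2 : ℕ) : ZMod ℓ) * (a : ZMod ℓ)) =
      (((z'.1 : ℕ) : ZMod ℓ) + ((z'.2 : ℕ) : ZMod ℓ) * (a : ZMod ℓ)) := hf
    linear_combination this

/-- Numbers represented by `x² + xy + y²`. -/
theorem exists_norm {ℓ : ℕ} (hℓ : ℓ.Prime) {a : ℤ} (h : (ℓ : ℤ) ∣ a ^ 2 - a + 1) :
    ∃ x y : ℤ, x ^ 2 + x * y + y ^ 2 = ℓ ∧ (ℓ : ℤ) ∣ x + y * a := by
  obtain ⟨x, y, hne, hx, hy, hd⟩ := exists_small hℓ a
  refine ⟨x, y, ?_, hd⟩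
  have hℓ0 : (0 : ℤ) < ℓ := by exact_mod_cast hℓ.pos
  have h1 : (ℓ : ℤ) ∣ x ^ 2 + x * y + y ^ 2 := by
    obtain ⟨s, hs⟩ := hd
    obtain ⟨t, ht⟩ := h
    refine ⟨s * (x + y - y * a) + y ^ 2 * t, ?_⟩
    have e1 : x = ℓ * s - y * a := by linarith
    have e2 : x ^ 2 + x * y + y ^ 2 = (x + y * a) * (x + y - y * a) + y ^ 2 * (a ^ 2 - a + 1) := by
      ring
    rw [e2, hs, ht]
    ring
  have h2 : x ^ 2 + x * y + y ^ 2 < 3 * ℓ := by nlinarith [sq_nonneg (x - y)]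
  have h3 : 0 < x ^ 2 + x * y + y ^ 2 := by
    have h4 : x ≠ 0 ∨ y ≠ 0 := by
      by_contra hcon
      push Not at hcon
      exact hne (by rw [hcon.1, hcon.2])
    rcases h4 with h4 | h4
    · nlinarith [sq_nonneg (x + 2 * y), sq_pos_of_ne_zero h4]
    · nlinarith [sq_nonneg (2 * x + y), sq_pos_of_ne_zero h4]
  obtain ⟨k, hk⟩ := h1
  have hk0 : 0 < k := by
    by_contra hcon
    push Not at hcon
    have : (ℓ : ℤ) * k ≤ 0 := mul_nonpos_of_nonneg_of_nonpos hℓ0.le hcon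
    linarith
  have hk3 : k < 3 := by
    by_contra hcon
    push Not at hcon
    have : (ℓ : ℤ) * 3 ≤ ℓ * k := mul_le_mul_of_nonneg_left hcon hℓ0.le
    linarith
  have hk12 : k = 1 ∨ k = 2 := by omega
  rcases hk12 with rfl | rfl
  · rw [hk, mul_one]
  · exfalso
    have hev : (2 : ℤ) ∣ x ^ 2 + x * y + y ^ 2 := ⟨ℓ, by rw [hk]; ring⟩
    have hxy : (2 : ℤ) ∣ x ∧ (2 : ℤ) ∣ y := by
      rcases Int.even_or_odd' x with ⟨c, rfl | rfl⟩ <;> rcases Int.even_or_odd' y with ⟨d, rfl | rfl⟩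
      · exact ⟨dvd_mul_right _ _, dvd_mul_right _ _⟩
      · exfalso
        obtain ⟨e, he⟩ := hev
        have : (2 * c) ^ 2 + 2 * c * (2 * d + 1) + (2 * d + 1) ^ 2 =
          2 * (2 * c ^ 2 + c * (2 * d + 1) + 2 * d ^ 2 + 2 * d) + 1 := by ring
        omega
      · exfalso
        obtain ⟨e, he⟩ := hev
        have : (2 * c + 1) ^ 2 + (2 * c + 1) * (2 * d) + (2 * d) ^ 2 =
          2 * (2 * c ^ 2 + 2 * c + (2 * c + 1) * d + 2 * d ^ 2) + 1 := by ring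
        omega
      · exfalso
        obtain ⟨e, he⟩ := hev
        have : (2 * c + 1) ^ 2 + (2 * c + 1) * (2 * d + 1) + (2 * d + 1) ^ 2 =
          2 * (2 * c ^ 2 + 2 * c + 2 * c * d + c + d + 2 * d ^ 2 + 2 * d + 1) + 1 := by ring
        omega
    obtain ⟨⟨c, rfl⟩, ⟨d, rfl⟩⟩ := hxy
    have h5 : (ℓ : ℤ) = 2 * (c ^ 2 + c * d + d ^ 2) := by
      have : (2 * c) ^ 2 + 2 * c * (2 * d) + (2 * d) ^ 2 = 4 * (c ^ 2 + c * d + d ^ 2) := by ring
      omega
    have h6 : 2 ∣ ℓ := by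
      have : (2 : ℤ) ∣ ℓ := ⟨_, h5⟩
      exact_mod_cast this
    have h7 : ℓ = 2 := ((Nat.prime_dvd_prime_iff_eq Nat.prime_two hℓ).mp h6).symm
    subst h7
    have h8 : a ^ 2 - a + 1 = a * (a - 1) + 1 := by ring
    rw [h8] at h
    have h9 : Even (a * (a - 1)) := Int.even_mul_pred_self a
    obtain ⟨m, hm⟩ := h9
    rw [hm] at h
    push_cast at h
    omega

theorem sl_mul (A B : SL(2, ℤ)) (i j : Fin 2) :
    (A * B) i j = A i 0 * B 0 j + A i 1 * B 1 j := by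
  have h : (A * B) i j = ((A : Matrix (Fin 2) (Fin 2) ℤ) * (B : Matrix (Fin 2) (Fin 2) ℤ)) i j := by
    rw [← Matrix.SpecialLinearGroup.coe_mul]
  rw [h, Matrix.mul_apply, Fin.sum_univ_two]

/-- The factorisation `diag(ℓ, 1) g = δ g (x + y ST)`. -/
theorem exists_delta {M ℓ : ℕ} (hℓ : ℓ.Prime) (g : SL(2, ℤ))
    (hg : g * (S * T) * g⁻¹ ∈ Gamma0 (M * ℓ)) :
    ∃ (δ : SL(2, ℤ)) (x y : ℤ), δ ∈ Gamma0 M ∧ x ^ 2 + x * y + y ^ 2 = ℓ ∧
      (δ * g) 0 0 * x + (δ * g) 0 1 * y = ℓ * g 0 0 ∧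
      -(δ * g) 0 0 * y + (δ * g) 0 1 * (x + y) = ℓ * g 0 1 ∧
      (δ * g) 1 0 * x + (δ * g) 1 1 * y = g 1 0 ∧
      -(δ * g) 1 0 * y + (δ * g) 1 1 * (x + y) = g 1 1 := by
  have hdet : g 0 0 * g 1 1 - g 0 1 * g 1 0 = 1 := by
    have := g.det_coe
    rwa [Matrix.det_fin_two] at this
  have hc : ((M * ℓ : ℕ) : ℤ) ∣ g 1 1 ^ 2 - g 1 0 * g 1 1 + g 1 0 ^ 2 := by
    have h1 := Gamma0_mem.mp hg
    rw [ZMod.intCast_zmod_eq_zero_iff_dvd] at h1
    have h2 : (g * (S * T) * g⁻¹) 1 0 = g 1 1 ^ 2 - g 1 0 * g 1 1 + g 1 0 ^ 2 := by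
      have e1 : (g⁻¹) 0 0 = g 1 1 := by
        simp [Matrix.SpecialLinearGroup.coe_inv, Matrix.adjugate_fin_two]
      have e2 : (g⁻¹) 1 0 = - g 1 0 := by
        simp [Matrix.SpecialLinearGroup.coe_inv, Matrix.adjugate_fin_two]
      have e3 : S 0 0 = 0 := by simp [S]
      have e4 : S 0 1 = -1 := by simp [S]
      have e5 : S 1 0 = 1 := by simp [S]
      have e6 : S 1 1 = 0 := by simp [S]
      have e7 : T 0 0 = 1 := by simp [T]
      have e8 : T 0 1 = 1 := by simp [T]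
      have e9 : T 1 0 = 0 := by simp [T]
      have e10 : T 1 1 = 1 := by simp [T]
      simp only [sl_mul, e1, e2, e3, e4, e5, e6, e7, e8, e9, e10]
      ring
    rwa [h2] at h1
  obtain ⟨c', hc'⟩ := hc
  push_cast at hc'
  generalize hp : g 0 0 = p at *
  generalize hq : g 0 1 = q at *
  generalize hr : g 1 0 = r at *
  generalize hs : g 1 1 = s at *
  obtain ⟨a, ha⟩ : ∃ a : ℤ, a = q * s + p * r - q * r := ⟨_, rfl⟩
  have hℓa : (ℓ : ℤ) ∣ a ^ 2 - a + 1 := by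
    refine ⟨-(- p ^ 2 + p * q - q ^ 2) * (M * c'), ?_⟩
    have e1 : a ^ 2 - a * (p * s - q * r) + (p * s - q * r) ^ 2 =
      -(- p ^ 2 + p * q - q ^ 2) * (s ^ 2 - r * s + r ^ 2) := by rw [ha]; ring
    rw [hdet] at e1
    rw [show a ^ 2 - a + 1 = a ^ 2 - a * 1 + 1 ^ 2 by ring, e1, hc']
    ring
  obtain ⟨x, y, hxy, e, he⟩ := exists_norm hℓ hℓa
  have hℓ0 : (ℓ : ℤ) ≠ 0 := by exact_mod_cast hℓ.ne_zero
  have hb1 : (x + y * (p * s - q * s - p * r)) * e -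
      (-(y * (- p ^ 2 + p * q - q ^ 2))) * (-(y * (M * c'))) = 1 := by
    apply mul_left_cancel₀ hℓ0
    have h1 : (ℓ : ℤ) * ((x + y * (p * s - q * s - p * r)) * e -
      (-(y * (- p ^ 2 + p * q - q ^ 2))) * (-(y * (M * c')))) =
      (x + y * (p * s - q * s - p * r)) * (ℓ * e) -
      y ^ 2 * (- p ^ 2 + p * q - q ^ 2) * (M * ℓ * c') := by ring
    rw [h1, ← he, ← hc', mul_one, ← hxy, ha]
    have h2 : (x + y * (p * s - q * s - p * r)) * (x + y * (q * s + p * r - q * r)) -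
      y ^ 2 * (- p ^ 2 + p * q - q ^ 2) * (s ^ 2 - r * s + r ^ 2) =
      x ^ 2 + x * y * (p * s - q * r) + y ^ 2 * (p * s - q * r) ^ 2 := by ring
    rw [h2, hdet]
    ring
  let δ : SL(2, ℤ) := ⟨!![x + y * (p * s - q * s - p * r), -(y * (- p ^ 2 + p * q - q ^ 2));
    -(y * (M * c')), e], by rw [Matrix.det_fin_two_of]; exact hb1⟩
  have h00 : (δ * g) 0 0 = (x + y * (p * s - q * s - p * r)) * p +
      -(y * (- p ^ 2 + p * q - q ^ 2)) * r := by
    rw [sl_mul, hp, hr]; rfl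
  have h01 : (δ * g) 0 1 = (x + y * (p * s - q * s - p * r)) * q +
      -(y * (- p ^ 2 + p * q - q ^ 2)) * s := by
    rw [sl_mul, hq, hs]; rfl
  have h10 : (δ * g) 1 0 = -(y * (M * c')) * p + e * r := by
    rw [sl_mul, hp, hr]; rfl
  have h11 : (δ * g) 1 1 = -(y * (M * c')) * q + e * s := by
    rw [sl_mul, hq, hs]; rfl
  refine ⟨δ, x, y, ?_, hxy, ?_, ?_, ?_, ?_⟩
  · rw [Gamma0_mem, ZMod.intCast_zmod_eq_zero_iff_dvd]
    show (M : ℤ) ∣ -(y * (M * c'))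
    exact ⟨-(y * c'), by ring⟩
  · rw [h00, h01, ← hxy]
    linear_combination (x * y * p + y ^ 2 * (p * s - q * r + 1) * p -
      ((x + y * (p * s - q * s - p * r)) * q + -(y * (- p ^ 2 + p * q - q ^ 2)) * s) * y) * hdet
  · rw [h00, h01, ← hxy]
    linear_combination (x * y * q + y ^ 2 * (p * s - q * r + 1) * q -
      ((x + y * (p * s - q * s - p * r)) * (q - p) +
        -(y * (- p ^ 2 + p * q - q ^ 2)) * (s - r)) * y) * hdet
  · apply mul_left_cancel₀ hℓ0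
    rw [h10, h11]
    have h1 : (ℓ : ℤ) * ((-(y * (M * c')) * p + e * r) * x + (-(y * (M * c')) * q + e * s) * y) =
      (-(y * (M * ℓ * c')) * p + (ℓ * e) * r) * x + (-(y * (M * ℓ * c')) * q + (ℓ * e) * s) * y := by
      ring
    rw [h1, ← he, ← hc', ha, ← hxy]
    linear_combination (x * y * r + y ^ 2 * (p * s - q * r + 1) * r -
      (-(y * (s ^ 2 - r * s + r ^ 2)) * q + (x + y * (q * s + p * r - q * r)) * s) * y) * hdet
  · apply mul_left_cancel₀ hℓ0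
    rw [h10, h11]
    have h1 : (ℓ : ℤ) * (-(-(y * (M * c')) * p + e * r) * y +
        (-(y * (M * c')) * q + e * s) * (x + y)) =
      -(-(y * (M * ℓ * c')) * p + (ℓ * e) * r) * y +
        (-(y * (M * ℓ * c')) * q + (ℓ * e) * s) * (x + y) := by
      ring
    rw [h1, ← he, ← hc', ha, ← hxy]
    linear_combination (x * y * s + y ^ 2 * (p * s - q * r + 1) * s -
      (-(y * (s ^ 2 - r * s + r ^ 2)) * (q - p) +
        (x + y * (q * s + p * r - q * r)) * (s - r)) * y) * hdet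

theorem rho_conj : (starRingEnd ℂ) (UpperHalfPlane.ρ : ℂ) = -(UpperHalfPlane.ρ : ℂ) - 1 := by
  apply Complex.ext
  · simp [UpperHalfPlane.ρ]; norm_num
  · simp

theorem rho_sq' : (UpperHalfPlane.ρ : ℂ) ^ 2 = -(UpperHalfPlane.ρ : ℂ) - 1 :=
  UpperHalfPlane.ρ_sq

/-- The rotation around `ρ` by `(x + y ST)`. -/
theorem exists_rot {M ℓ : ℕ} [NeZero ℓ] (hℓ : ℓ.Prime) (g : SL(2, ℤ))
    (hg : g * (S * T) * g⁻¹ ∈ Gamma0 (M * ℓ)) :
    ∃ (δ : SL(2, ℤ)) (c : ℂˣ), δ ∈ Gamma0 M ∧ ‖(c : ℂ)‖ = 1 ∧ ∀ τ : ℍ, ∃ τ' : ℍ,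
      scale ℓ (g • τ) = δ • (g • τ') ∧
      cayley UpperHalfPlane.ρ τ' = c * cayley UpperHalfPlane.ρ τ := by
  obtain ⟨δ, x, y, hδ, hxy, h1, h2, h3, h4⟩ := exists_delta hℓ g hg
  have hℓ0 : (0 : ℝ) < ℓ := by exact_mod_cast hℓ.pos
  set ρ : ℂ := (UpperHalfPlane.ρ : ℂ) with hρ
  have hρ2 : ρ ^ 2 = -ρ - 1 := rho_sq'
  have hρc : (starRingEnd ℂ) ρ = -ρ - 1 := rho_conj
  -- the rotation number
  have hn : ((x : ℂ) - ρ * y) * ((x : ℂ) - (-ρ - 1) * y) = ℓ := by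
    have : ((x : ℂ) ^ 2 + x * y + y ^ 2) = ℓ := by exact_mod_cast hxy
    rw [← this]
    linear_combination (-(y : ℂ) ^ 2) * hρ2
  have hℓC : (ℓ : ℂ) ≠ 0 := by exact_mod_cast hℓ.ne_zero
  have hn1 : (x : ℂ) - ρ * y ≠ 0 := fun h => by rw [h, zero_mul] at hn; exact hℓC hn.symm
  have hn2 : (x : ℂ) - (-ρ - 1) * y ≠ 0 := fun h => by rw [h, mul_zero] at hn; exact hℓC hn.symm
  have hconj : (starRingEnd ℂ) ((x : ℂ) - ρ * y) = (x : ℂ) - (-ρ - 1) * y := by
    rw [map_sub, map_mul, hρc, map_intCast, map_intCast]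
  refine ⟨δ, Units.mk0 (((x : ℂ) - ρ * y) / ((x : ℂ) - (-ρ - 1) * y)) (div_ne_zero hn1 hn2), hδ,
    ?_, fun τ => ?_⟩
  · rw [Units.val_mk0, norm_div, ← hconj, RCLike.norm_conj, div_self (norm_ne_zero_iff.mpr hn1)]
  have hden : (y : ℂ) * τ + x + y ≠ 0 := by
    intro h
    have him := congrArg Complex.im h
    simp only [Complex.add_im, Complex.mul_im, Complex.intCast_re, Complex.intCast_im, zero_mul,
      add_zero, Complex.zero_im, UpperHalfPlane.coe_im] at him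
    have hy : y = 0 := by
      rcases mul_eq_zero.mp him with h' | h'
      · exact_mod_cast h'
      · exact absurd h' τ.im_pos.ne'
    subst hy
    have hx : x = 0 := by
      have : (x : ℂ) = 0 := by simpa using h
      exact_mod_cast this
    subst hx
    simp at hxy
    exact hℓ.ne_zero (by exact_mod_cast hxy.symm)
  have him : 0 < ((((x : ℂ) * τ - y) / ((y : ℂ) * τ + x + y))).im := by
    have e1 : (((x : ℂ) * τ - y) / ((y : ℂ) * τ + x + y)).im =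
        (ℓ : ℝ) * τ.im / Complex.normSq ((y : ℂ) * τ + x + y) := by
      have hxyR : ((x : ℝ) ^ 2 + x * y + y ^ 2) = ℓ := by exact_mod_cast hxy
      rw [Complex.div_im, ← sub_div]
      congr 1
      simp only [Complex.add_im, Complex.add_re, Complex.sub_im, Complex.sub_re, Complex.mul_im,
        Complex.mul_re, Complex.intCast_re, Complex.intCast_im, zero_mul, add_zero, sub_zero,
        UpperHalfPlane.coe_im, UpperHalfPlane.coe_re]
      rw [← hxyR]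
      ring
    rw [e1]
    exact div_pos (mul_pos hℓ0 τ.im_pos) (Complex.normSq_pos.mpr hden)
  obtain ⟨W, hW⟩ : ∃ W : ℂ, W = (y : ℂ) * τ + x + y := ⟨_, rfl⟩
  rw [← hW] at him hden
  refine ⟨⟨_, him⟩, ?_, ?_⟩
  · apply UpperHalfPlane.ext
    rw [coe_scale, ← mul_smul, UpperHalfPlane.coe_specialLinearGroup_apply,
      UpperHalfPlane.coe_specialLinearGroup_apply]
    simp only [algebraMap_int_eq, eq_intCast, Complex.ofReal_intCast]
    have h1' : ((δ * g) 0 0 : ℂ) * x + ((δ * g) 0 1 : ℂ) * y = ℓ * (g 0 0 : ℂ) := by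
      exact_mod_cast h1
    have h2' : -((δ * g) 0 0 : ℂ) * y + ((δ * g) 0 1 : ℂ) * (x + y) = ℓ * (g 0 1 : ℂ) := by
      exact_mod_cast h2
    have h3' : ((δ * g) 1 0 : ℂ) * x + ((δ * g) 1 1 : ℂ) * y = (g 1 0 : ℂ) := by
      exact_mod_cast h3
    have h4' : -((δ * g) 1 0 : ℂ) * y + ((δ * g) 1 1 : ℂ) * (x + y) = (g 1 1 : ℂ) := by
      exact_mod_cast h4
    have hd1 : (g 1 0 : ℂ) * τ + (g 1 1 : ℂ) ≠ 0 := by
      have := UpperHalfPlane.denom_ne_zero (g : GL (Fin 2) ℝ) τ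
      simpa [UpperHalfPlane.denom] using this
    have hd2 : ((δ * g) 1 0 : ℂ) * (((x : ℂ) * τ - y) / W) +
        ((δ * g) 1 1 : ℂ) = ((g 1 0 : ℂ) * τ + (g 1 1 : ℂ)) / W := by
      rw [← h3', ← h4', eq_div_iff hden, add_mul, mul_assoc, div_mul_cancel₀ _ hden]
      rw [hW]
      ring
    have hd3 : ((δ * g) 0 0 : ℂ) * (((x : ℂ) * τ - y) / W) +
        ((δ * g) 0 1 : ℂ) = (ℓ * ((g 0 0 : ℂ) * τ + (g 0 1 : ℂ))) / W := by
      rw [mul_add, ← mul_assoc, ← h1', ← h2', eq_div_iff hden, add_mul, mul_assoc,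
        div_mul_cancel₀ _ hden]
      rw [hW]
      ring
    show (ℓ : ℂ) * (((g 0 0 : ℂ) * τ + (g 0 1 : ℂ)) / ((g 1 0 : ℂ) * τ + (g 1 1 : ℂ))) =
      (((δ * g) 0 0 : ℂ) * (((x : ℂ) * τ - y) / W) + ((δ * g) 0 1 : ℂ)) /
      (((δ * g) 1 0 : ℂ) * (((x : ℂ) * τ - y) / W) + ((δ * g) 1 1 : ℂ))
    rw [hd2, hd3, div_div_div_cancel_right₀ hden, mul_div_assoc]
  · have hc1 := cayley_den_ne UpperHalfPlane.ρ τ
    rw [← hρ, hρc] at hc1
    simp only [cayley, Units.val_mk0]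
    rw [← hρ, hρc]
    change ((((x : ℂ) * τ - y) / W) - ρ) / ((((x : ℂ) * τ - y) / W) - (-ρ - 1)) = _
    have e1 : ((((x : ℂ) * τ - y) / W) - ρ) = ((x : ℂ) - ρ * y) * (τ - ρ) / W := by
      rw [eq_div_iff hden, sub_mul, div_mul_cancel₀ _ hden, hW]
      linear_combination (-(y : ℂ)) * hρ2
    have e2 : ((((x : ℂ) * τ - y) / W) - (-ρ - 1)) =
        ((x : ℂ) - (-ρ - 1) * y) * (τ - (-ρ - 1)) / W := by
      rw [eq_div_iff hden, sub_mul, div_mul_cancel₀ _ hden, hW]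
      linear_combination (-(y : ℂ)) * hρ2
    rw [e1, e2, div_div_div_cancel_right₀ hden, mul_div_mul_comm]

section Field

variable {K : Type*} [Field K] [Algebra K ℂ] {M ℓ : ℕ} [NeZero M] [NeZero ℓ]

local notation "𝕢" => Function.Periodic.qParam

theorem ev_qExpand {x : LaurentSeries K} (hx : IsConv (incl K x)) (τ : ℍ) :
    ev K (qExpand K ℓ x) τ = ev K x (scale ℓ τ) := by
  have h1 : incl K (qExpand K ℓ x) = qExpand ℂ ℓ (incl K x) := by
    rw [incl, coeffMap_qExpand]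
  rw [ev, h1, evalAt_qExpand ℓ hx (Function.Periodic.qParam_ne_zero _) (norm_qParam_one τ), ev]
  congr 1
  simp only [Function.Periodic.qParam, coe_scale]
  rw [← Complex.exp_nat_mul]
  congr 1
  push_cast
  ring

theorem A_mono : A K M ≤ A K (M * ℓ) := by
  apply Algebra.adjoin_mono
  rintro x ⟨d, hd0, hd, rfl⟩
  exact ⟨d, hd0, hd.mul_right ℓ, rfl⟩

theorem qExpand_mem_A {x : LaurentSeries K} (hx : x ∈ A K M) : qExpand K ℓ x ∈ A K (M * ℓ) := by
  induction hx using Algebra.adjoin_induction with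
  | mem x hx =>
    obtain ⟨d, hd0, hd, rfl⟩ := hx
    rw [qExpand_qExpand]
    apply Algebra.subset_adjoin
    exact ⟨ℓ * d, inferInstance, by rw [mul_comm M]; exact mul_dvd_mul_left ℓ hd, rfl⟩
  | algebraMap c =>
    have : qExpand K ℓ (algebraMap K (LaurentSeries K) c) = algebraMap K (LaurentSeries K) c := by
      rw [algebraMap_laurentSeries_eq_single, qExpand_single, mul_zero]
    rw [this]
    exact Subalgebra.algebraMap_mem _ _
  | add x y _ _ hx hy => rw [map_add]; exact add_mem hx hy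
  | mul x y _ _ hx hy => rw [map_mul]; exact mul_mem hx hy

local notation "ρc" => cayley UpperHalfPlane.ρ

theorem phi_alpha {z : ℍ → ℂ} (hz : GoodChart K M z) (hz' : GoodChart K (M * ℓ) z) (g : SL(2, ℤ))
    (x : A K M) : phi hz' g ⟨x, A_mono x.2⟩ = phi hz g x := by
  apply phi_eq
  exact phi_spec hz g x

theorem phi_beta (hℓ : ℓ.Prime) (hz : GoodChart K M ρc) (hz' : GoodChart K (M * ℓ) ρc)
    (g : SL(2, ℤ)) (hg : g * (S * T) * g⁻¹ ∈ Gamma0 (M * ℓ)) :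
    ∃ c : ℂˣ, ‖(c : ℂ)‖ = 1 ∧ ∀ x : A K M,
      phi hz' g ⟨qExpand K ℓ x, qExpand_mem_A x.2⟩ = twist c (phi hz g x) := by
  obtain ⟨δ, c, hδ, hc, hτ⟩ := exists_rot hℓ g hg
  refine ⟨c, hc, fun x => ?_⟩
  have hgood := good_of_mem K x.2
  obtain ⟨h1, h2⟩ := phi_spec hz g x
  apply phi_eq
  refine ⟨isConv_twist hc h1, fun τ h0 => ?_⟩
  obtain ⟨τ', hτ1, hτ2⟩ := hτ τ
  have h0' : ρc τ' ≠ 0 := by rw [hτ2]; exact mul_ne_zero c.ne_zero h0
  rw [evalAt_twist, ← hτ2, h2 _ h0']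
  show ev K x (g • τ') = ev K (qExpand K ℓ (x : LaurentSeries K)) (g • τ)
  rw [ev_qExpand hgood.conv, hτ1]
  have := congrFun (hgood.inv δ hδ) (g • τ')
  simp only [compHom_apply] at this
  exact this.symm

theorem sF_alpha {z : ℍ → ℂ} (hz : GoodChart K M z) (hz' : GoodChart K (M * ℓ) z) (γ : SL(2, ℤ))
    (f : modularFunctionFieldFullC K M) :
    sF hz' (QuotientGroup.mk γ) (H17.alphaC K M ℓ f) = sF hz (QuotientGroup.mk γ) f := by
  have : ((sF hz' (QuotientGroup.mk γ)).comp (H17.alphaC K M ℓ) :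
      modularFunctionFieldFullC K M →+* LaurentSeries ℂ) =
      (sF hz (QuotientGroup.mk γ) : modularFunctionFieldFullC K M →+* LaurentSeries ℂ) := by
    apply IsFractionRing.ringHom_ext (A := A K M)
    intro x
    show sF hz' (QuotientGroup.mk γ) (H17.alphaC K M ℓ (algebraMap _ _ x)) =
      sF hz (QuotientGroup.mk γ) (algebraMap _ _ x)
    have h1 : H17.alphaC K M ℓ (algebraMap (A K M) _ x) =
        algebraMap (A K (M * ℓ)) _ ⟨x, A_mono x.2⟩ := Subtype.ext rfl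
    rw [h1, sF_algebraMap, sF_algebraMap, sA_mk, sA_mk, phi_alpha hz hz']
  exact RingHom.congr_fun this f

theorem sF_beta (hℓ : ℓ.Prime) (hz : GoodChart K M ρc) (hz' : GoodChart K (M * ℓ) ρc)
    (γ : SL(2, ℤ)) (hγ : γ⁻¹ * (S * T) * γ ∈ Gamma0 (M * ℓ)) :
    ∃ c : ℂˣ, ∀ f : modularFunctionFieldFullC K M,
      sF hz' (QuotientGroup.mk γ) (H17.betaC K M ℓ f) = twist c (sF hz (QuotientGroup.mk γ) f) := by
  obtain ⟨c, -, hc⟩ := phi_beta hℓ hz hz' γ⁻¹ (by rwa [inv_inv])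
  refine ⟨c, fun f => ?_⟩
  have : ((sF hz' (QuotientGroup.mk γ)).comp (H17.betaC K M ℓ) :
      modularFunctionFieldFullC K M →+* LaurentSeries ℂ) =
      (twist c).comp
        (sF hz (QuotientGroup.mk γ) : modularFunctionFieldFullC K M →+* LaurentSeries ℂ) := by
    apply IsFractionRing.ringHom_ext (A := A K M)
    intro x
    show sF hz' (QuotientGroup.mk γ) (H17.betaC K M ℓ (algebraMap _ _ x)) =
      twist c (sF hz (QuotientGroup.mk γ) (algebraMap _ _ x))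
    have h1 : H17.betaC K M ℓ (algebraMap (A K M) _ x) =
        algebraMap (A K (M * ℓ)) _ ⟨qExpand K ℓ x, qExpand_mem_A x.2⟩ := Subtype.ext rfl
    rw [h1, sF_algebraMap, sF_algebraMap, sA_mk, sA_mk, hc]
  exact RingHom.congr_fun this f

theorem order_twist (c : ℂˣ) (F : LaurentSeries ℂ) : (twist c F).order = F.order := by
  rcases eq_or_ne F 0 with rfl | hF
  · rw [map_zero]
  have h0 : F.coeff F.order ≠ 0 := fun h => hF (HahnSeries.coeff_order_eq_zero.mp h)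
  have h1 : (twist c F).coeff F.order ≠ 0 := by
    rw [twist_coeff]; exact mul_ne_zero (c ^ _).ne_zero h0
  refine le_antisymm (HahnSeries.order_le_of_coeff_ne_zero h1) ?_
  have hne : twist c F ≠ 0 := fun h => h1 (by rw [h]; rfl)
  rw [HahnSeries.le_order_iff_forall hne]
  intro n hn
  rw [twist_coeff, HahnSeries.coeff_eq_zero_of_lt_order hn, mul_zero]

variable (K M ℓ)

/-- **Elliptic points of order three**: a place `v` of `X₀(Mℓ)` with `ord_v j = 1` has the same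
image under the two degeneracy maps to `X₀(M)`. -/
theorem restrictAlong_alpha_eq_beta [IsAlgClosed K] (hℓ : ℓ.Prime)
    (hα : (H17.alphaC K M ℓ).toRingHom.IsIntegral) (hβ : (H17.betaC K M ℓ).toRingHom.IsIntegral)
    (v : Place K (modularFunctionFieldFullC K (M * ℓ))) (hv : v.ord (jF K (M * ℓ)) = 1) :
    v.restrictAlong (H17.alphaC K M ℓ) hα = v.restrictAlong (H17.betaC K M ℓ) hβ := by
  have : CharZero K := charZero_of_algebra
  have : Fintype (SL(2, ℤ) ⧸ Gamma0 (M * ℓ)) := Fintype.ofFinite _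
  have hz := goodChart_cayley K M UpperHalfPlane.ρ
  have hz' := goodChart_cayley K (M * ℓ) UpperHalfPlane.ρ
  obtain ⟨ζ, hζ, hζ2⟩ := exists_cayley_ρ_ST
  obtain ⟨y, hy, hy2⟩ := exists_expansion_sub (K := K) (N := M * ℓ) UpperHalfPlane.ρ (a := 0)
    (e := 3) (by rw [H61.jInv_ρ, map_zero]) (by rw [H61.analyticOrderAt_jInv, if_pos H61.jInv_ρ]; rfl)
  rw [map_zero, sub_zero] at hy2
  have h0 : ζ ≠ 0 := hζ.ne_zero (by norm_num)
  let d : LocalEmb K (modularFunctionFieldFullC K (M * ℓ)) ℂ (SL(2, ℤ) ⧸ Gamma0 (M * ℓ))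
      (jF K (M * ℓ)) 3 (MulAction.toPerm (S * T)) :=
    { s := sF hz'
      inj := sF_injective hz'
      y := y
      map_x := hy2
      e_pos := by norm_num
      order_y := hy
      ζ := (((Units.mk0 ζ h0)⁻¹ : ℂˣ) : ℂ)
      prim := by
        have := hζ.inv
        simpa using this
      twist := fun g f n => sF_smul_coeff' hz' (ζ := Units.mk0 ζ h0)
        (hζ.norm'_eq_one (by norm_num)) hζ2 g f n }
  obtain ⟨i, hi1, hi2⟩ := d.exists_ord_eq transcendental_jF card_eq_finrank_jF v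
    (by rw [hv]; exact one_pos)
  rw [hv] at hi2
  have hfix : (S * T) • i = i := by
    have h1 : Function.minimalPeriod (MulAction.toPerm (S * T)) i = 1 := by exact_mod_cast hi2.symm
    rw [Function.minimalPeriod_eq_one_iff_isFixedPt] at h1
    exact h1
  induction i using QuotientGroup.induction_on with
  | H γ =>
    have hγ : γ⁻¹ * (S * T) * γ ∈ Gamma0 (M * ℓ) := by
      have h1 : (QuotientGroup.mk γ : SL(2, ℤ) ⧸ Gamma0 (M * ℓ)) =
          QuotientGroup.mk ((S * T) * γ) := hfix.symm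
      have h2 := QuotientGroup.eq.mp h1
      rwa [← mul_assoc] at h2
    obtain ⟨c, hc⟩ := sF_beta hℓ hz hz' γ hγ
    apply Place.ext
    ext f
    have e1 : f ∈ (v.restrictAlong (H17.alphaC K M ℓ) hα).toValuationSubring ↔
        H17.alphaC K M ℓ f ∈ v.toValuationSubring := by
      let := algebraAlong (H17.alphaC K M ℓ)
      have := isScalarTower_along (H17.alphaC K M ℓ)
      have := isIntegral_along (H17.alphaC K M ℓ) hα
      exact Place.mem_restrict_iff v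
    have e2 : f ∈ (v.restrictAlong (H17.betaC K M ℓ) hβ).toValuationSubring ↔
        H17.betaC K M ℓ f ∈ v.toValuationSubring := by
      let := algebraAlong (H17.betaC K M ℓ)
      have := isScalarTower_along (H17.betaC K M ℓ)
      have := isIntegral_along (H17.betaC K M ℓ) hβ
      exact Place.mem_restrict_iff v
    rw [e1, e2, hi1, mem_pullbackRing, mem_pullbackRing]
    show 0 ≤ (sF hz' (QuotientGroup.mk γ) (H17.alphaC K M ℓ f)).order ↔
      0 ≤ (sF hz' (QuotientGroup.mk γ) (H17.betaC K M ℓ f)).order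
    rw [sF_alpha hz hz', hc, order_twist]

end Field

end Fermat.Agent.H8C
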