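import Mathlib
import Fermat.Agent.H18C2
import Fermat.Agent.H1HauptFinal

/-!
# The residue data of `X₀(m)` with the Hauptmodul of level `4` or `9` (helper18, CARAYOL C2)
-/

set_option autoImplicit false

noncomputable section

open AlgebraicCurve ModularCurve IntermediateField Fermat.Agent.H1

namespace Fermat.Agent.H18

theorem thetaL_eq_theta {R : Type*} [CommRing R] (x : LaurentSeries R) :
    thetaL R x = H61.theta x := by
  ext n
  rw [thetaL_coeff, H61.coeff_theta]

theorem dX_eq_theta_div {k : Type*} [Field k] (c : ℕ) (x : LaurentSeries k) :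
    dX c k x = H61.theta x / H61.theta (Xc c k) := by
  rw [dX_apply, thInv_eq_inv, thetaL_eq_theta, thetaL_eq_theta, div_eq_inv_mul]

theorem theta_Xc_ne_zero (k : Type*) [Field k] (c : ℕ) : H61.theta (Xc c k) ≠ 0 := by
  rw [← thetaL_eq_theta]
  exact right_ne_zero_of_mul_eq_one (thInv_mul_theta c k)

section Final

variable {L : Type*} [Field L] [Algebra ℚ L] [IsAlgClosed L] (ι : L →+* ℂ)
  (A : ValuationSubring L) {k : Type*} [Field k] [IsAlgClosed k] (π : A →+* k) [IsLocalHom π]
  (m : ℕ) (hπ : Function.Surjective π) (hm : (m : k) ≠ 0) (hg : GenusFFEq L k m)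
  {c : ℕ} (hc : c = 4 ∨ c = 9) (hcm : c ∣ m)

omit [IsAlgClosed k] in
include hm hcm in
theorem natCast_ne_zero_of_dvd : (c : k) ≠ 0 := by
  obtain ⟨d, rfl⟩ := hcm
  intro h
  exact hm (by rw [Nat.cast_mul, h, zero_mul])

include hπ hm hc hcm in
theorem Xc_mem_Cm : Xc c k ∈ Cm k m := by
  have : CharZero L := algebraRat.charZero L
  have hm0 : m ≠ 0 := by rintro rfl; exact hm Nat.cast_zero
  have hdeg : H42.DegLE L k m := H88.degLE m hm
  have h1 : Xc c L ∈ laurentBaseChange L (modularFunctionFieldFull m) :=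
    Xc_mem_baseChange L hc hm0 hcm
  have h2 : coeffMap A.subtype (Xc c A) = Xc c L := coeffMap_Xc c _
  have h3 : coeffMap A.subtype (Xc c A) ∈ laurentBaseChange L (modularFunctionFieldFull m) := by
    rw [h2]; exact h1
  have hB : (⟨coeffMap A.subtype (Xc c A), h3⟩ : laurentBaseChange L (modularFunctionFieldFull m))
      ∈ (H42.modReductionData A π m hπ hdeg).B :=
    (H42.modGauss A π m hπ hdeg).le_loc ((H42.mem_modGauss_B A π m hπ hdeg).2 ⟨Xc c A, rfl⟩)
  have h4 := res_mem_Cm A π m hπ hdeg hm (b := ⟨_, hB⟩) (by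
    show IsIntegral (Algebra.adjoin L {jqModC L}) (coeffMap A.subtype (Xc c A))
    rw [h2, intJ_iff]
    exact Xc_intJ L hc)
  have h5 := H42.coeffMap_mem_full A π m hπ hdeg (Xc c A) h3
  have h6 := H42.modReductionData_ρ A π m hπ hdeg (Xc c A) h3 h5 hB
  rw [h6] at h4
  have h7 : coeffMap π (Xc c A) = Xc c k := coeffMap_Xc c _
  exact (congrArg (fun z => z ∈ Cm k m) h7).mp h4

include ι hπ hm hg hc hcm in
/-- `d/dX` preserves the coordinate ring of the special fibre -/
theorem dX_mem_Cm {x : LaurentSeries k} (hx : x ∈ Cm k m) : dX c k x ∈ Cm k m := by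
  have : CharZero L := algebraRat.charZero L
  have hm0 : m ≠ 0 := by rintro rfl; exact hm Nat.cast_zero
  have : NeZero m := ⟨hm0⟩
  have hdeg : H42.DegLE L k m := H88.degLE m hm
  have hXL : coeffMap A.subtype (Xc c A) = Xc c L := coeffMap_Xc c _
  have hXk : coeffMap π (Xc c A) = Xc c k := coeffMap_Xc c _
  have h1 := derX_mem_Cm A π m hπ hdeg hm hg (XA := Xc c A) (u := thInv c A)
    (by rw [← thetaL_eq_theta]; exact thInv_mul_theta c A)
    (fun f hf => by
      rw [hXL, ← dX_eq_theta_div]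
      exact dX_mem ι hc hcm hf)
    (fun f hf hfi => by
      rw [hXL, ← dX_eq_theta_div, intJ_iff]
      exact dX_intJ ι hc hcm hf (intJ_iff.1 hfi)) hx
  rw [hXk, ← dX_eq_theta_div] at h1
  exact h1

variable (q : ℕ) [Fact q.Prime] [CharP k q]

include ι hπ hm hg hc hcm in
/-- **The residue data of `X₀(m)`**, with coordinate the Hauptmodul of level `4` or `9`. -/
def resDataC : H83.ResData k (LaurentSeries k) q :=
  resData k q m hm (Xc c k) (Xc_mem_Cm A π m hπ hm hc hcm) (theta_Xc_ne_zero k c)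
    (fun x hx => by
      rw [← dX_eq_theta_div]
      exact dX_mem_Cm ι A π m hπ hm hg hc hcm hx)

theorem resDataC_C : (resDataC ι A π m hπ hm hg hc hcm q).C = Cm k m := rfl

theorem resDataC_Φ : (resDataC ι A π m hπ hm hg hc hcm q).Φ = qExpand k q := rfl

theorem resDataC_φ : (resDataC ι A π m hπ hm hg hc hcm q).φ = frobL k q := rfl

theorem resDataC_X : (resDataC ι A π m hπ hm hg hc hcm q).X = Xc c k := rfl

theorem resDataC_D (x : LaurentSeries k) :
    (resDataC ι A π m hπ hm hg hc hcm q).D x = dX c k x :=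
  (dX_eq_theta_div c x).symm

end Final

end Fermat.Agent.H18
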