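import Fermat.Agent.H42GaussMod

/-!
# Laurent series with coefficients in a rank one valuation ring
-/

set_option autoImplicit false

open ModularCurve

namespace Fermat.Agent.H97

variable {L : Type*} [Field L] (A : ValuationSubring L)

/-- The subring of Laurent series with coefficients in `A`. -/
noncomputable def intL : Subring (LaurentSeries L) := (coeffMap A.subtype).range

variable {A}

theorem mem_intL {g : LaurentSeries L} : g ∈ intL A ↔ ∀ n, g.coeff n ∈ A := by
  constructor
  · rintro ⟨y, rfl⟩ n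
    rw [coeffMap_coeff]
    exact (y.coeff n).2
  · intro h
    refine ⟨⟨fun n => ⟨g.coeff n, h n⟩, g.isPWO_support'.mono ?_⟩, ?_⟩
    · intro n hn
      rw [Function.mem_support] at hn ⊢
      intro h0
      exact hn (Subtype.ext h0)
    · ext n
      rw [coeffMap_coeff]
      rfl

theorem C_mem_intL {a : L} (ha : a ∈ A) : algebraMap L (LaurentSeries L) a ∈ intL A := by
  rw [mem_intL]
  intro n
  rw [algebraMap_laurentSeries_eq_single, HahnSeries.coeff_single]
  split_ifs
  · exact ha
  · exact A.zero_mem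

theorem coeff_C_mul (c : L) (f : LaurentSeries L) (n : ℤ) :
    (algebraMap L (LaurentSeries L) c * f).coeff n = c * f.coeff n :=
  H42.coeff_algebraMap_mul c f n

theorem leadingCoeff_mem {g : LaurentSeries L} (h : g ∈ intL A) : g.leadingCoeff ∈ A := by
  by_cases h0 : g = 0
  · rw [h0, HahnSeries.leadingCoeff_zero]; exact A.zero_mem
  · rw [HahnSeries.leadingCoeff_eq]
    exact mem_intL.mp h _

/-- truncation below `n` -/
noncomputable def trunc (n : ℤ) (g : LaurentSeries L) : LaurentSeries L where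
  coeff m := if m < n then g.coeff m else 0
  isPWO_support' := g.isPWO_support'.mono fun m hm => by
    rw [Function.mem_support] at hm ⊢
    intro h0
    apply hm
    rw [h0, ite_self]

theorem trunc_coeff (n m : ℤ) (g : LaurentSeries L) :
    (trunc n g).coeff m = if m < n then g.coeff m else 0 := rfl

theorem exists_first {g : LaurentSeries L} {P : L → Prop} (h0 : P 0) (h : ∃ n, ¬ P (g.coeff n)) :
    ∃ n, ¬ P (g.coeff n) ∧ ∀ m < n, P (g.coeff m) := by
  have hS : ({n : ℤ | ¬ P (g.coeff n)}).IsWF := by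
    refine Set.IsWF.mono g.isWF_support ?_
    intro n hn
    rw [HahnSeries.mem_support]
    intro h1
    apply hn
    rw [h1]; exact h0
  obtain ⟨n, hn⟩ := h
  refine ⟨hS.min ⟨n, hn⟩, hS.min_mem ⟨n, hn⟩, fun m hm => ?_⟩
  by_contra h1
  exact hS.not_lt_min ⟨n, hn⟩ h1 hm

theorem order_leadingCoeff_of {g : LaurentSeries L} {n : ℤ} (hn : g.coeff n ≠ 0)
    (h : ∀ m < n, g.coeff m = 0) : g.order = n ∧ g.leadingCoeff = g.coeff n := by
  have h1 : g.order = n := by
    apply le_antisymm
    · exact HahnSeries.order_le_of_coeff_ne_zero hn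
    · by_contra hlt
      rw [not_le] at hlt
      have := h _ hlt
      exact HahnSeries.coeff_order_eq_zero.not.mpr (by rintro rfl; simp at hn) this
  exact ⟨h1, by rw [HahnSeries.leadingCoeff_eq, h1]⟩

theorem leadingCoeff_pow' (g : LaurentSeries L) (n : ℕ) :
    (g ^ n).leadingCoeff = g.leadingCoeff ^ n := by
  induction n with
  | zero => simp
  | succ n ih => rw [pow_succ, HahnSeries.leadingCoeff_mul, ih, pow_succ]

/-- The archimedean condition. -/
def Arch (A : ValuationSubring L) : Prop :=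
  ∀ a b : A, ¬ IsUnit a → b ≠ 0 → ∃ n : ℕ, b ∣ a ^ n

theorem not_isUnit_inv {a : L} (ha : a ∉ A) : ∃ b : A, (b : L) = a⁻¹ ∧ ¬ IsUnit b ∧ b ≠ 0 := by
  have h := (A.mem_or_inv_mem a).resolve_left ha
  have ha0 : a ≠ 0 := fun h => ha (h ▸ A.zero_mem)
  refine ⟨⟨a⁻¹, h⟩, rfl, fun hu => ?_, fun h0 => inv_ne_zero ha0 (congrArg Subtype.val h0)⟩
  obtain ⟨b, hb⟩ := hu.exists_right_inv
  have hb' : a⁻¹ * (b : L) = 1 := congrArg Subtype.val hb
  have : (b : L) = a := by
    rw [inv_mul_eq_one₀ ha0] at hb'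
    exact hb'.symm
  exact ha (this ▸ b.2)

/-- `A((t))` is completely integrally closed. -/
theorem mem_intL_of_pow (arch : Arch A) {c g : LaurentSeries L} (hc : c ≠ 0)
    (h : ∀ n : ℕ, c * g ^ n ∈ intL A) : g ∈ intL A := by
  by_contra hg
  rw [mem_intL] at hg
  push Not at hg
  obtain ⟨n, hn, hlt⟩ := exists_first (g := g) (P := (· ∈ A)) A.zero_mem hg
  set g₁ := trunc n g with hg₁
  have hg₁mem : g₁ ∈ intL A := by
    rw [mem_intL]
    intro m
    rw [hg₁, trunc_coeff]
    split_ifs with hm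
    · exact hlt m hm
    · exact A.zero_mem
  have hn0 : g.coeff n ≠ 0 := fun h0 => hn (h0 ▸ A.zero_mem)
  have hg₂ : (g - g₁).coeff n = g.coeff n := by
    rw [HahnSeries.coeff_sub, hg₁, trunc_coeff, if_neg (lt_irrefl _), sub_zero]
  obtain ⟨-, hlc⟩ := order_leadingCoeff_of (g := g - g₁) (n := n) (by rw [hg₂]; exact hn0)
    (fun m hm => by rw [HahnSeries.coeff_sub, hg₁, trunc_coeff, if_pos hm, sub_self])
  rw [hg₂] at hlc
  -- powers of `g - g₁`
  have hpow : ∀ k : ℕ, c * (g - g₁) ^ k ∈ intL A := by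
    intro k
    rw [sub_eq_add_neg, add_pow, Finset.mul_sum]
    refine Subring.sum_mem _ fun i _ => ?_
    have : c * (g ^ i * (-g₁) ^ (k - i) * (k.choose i : LaurentSeries L)) =
        (c * g ^ i) * ((-g₁) ^ (k - i) * (k.choose i : LaurentSeries L)) := by ring
    rw [this]
    exact mul_mem (h i) (mul_mem (pow_mem (neg_mem hg₁mem) _) (natCast_mem _ _))
  have hcA : c.leadingCoeff ∈ A := leadingCoeff_mem (by simpa using h 0)
  have hc0 : (⟨c.leadingCoeff, hcA⟩ : A) ≠ 0 := by
    intro h0
    exact hc (HahnSeries.leadingCoeff_eq_zero.mp (congrArg Subtype.val h0))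
  obtain ⟨a, ha, hau, ha0⟩ := not_isUnit_inv hn
  obtain ⟨k, e, he⟩ := arch a ⟨c.leadingCoeff, hcA⟩ hau hc0
  apply hau
  have h1 := leadingCoeff_mem (hpow (k + 1))
  rw [HahnSeries.leadingCoeff_mul, leadingCoeff_pow', hlc] at h1
  refine IsUnit.of_mul_eq_one (⟨c.leadingCoeff * g.coeff n ^ (k + 1), h1⟩ * e) ?_
  apply Subtype.ext
  have he' : (a : L) ^ k = c.leadingCoeff * (e : L) := congrArg Subtype.val he
  have ha' : (a : L) * g.coeff n = 1 := by rw [ha, inv_mul_cancel₀ hn0]
  change (a : L) * (c.leadingCoeff * g.coeff n ^ (k + 1) * (e : L)) = 1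
  calc (a : L) * (c.leadingCoeff * g.coeff n ^ (k + 1) * (e : L))
      = (c.leadingCoeff * (e : L)) * g.coeff n ^ k * ((a : L) * g.coeff n) := by ring
    _ = ((a : L) * g.coeff n) ^ k * ((a : L) * g.coeff n) := by rw [← he', mul_pow]
    _ = 1 := by rw [ha', one_pow, one_mul]

/-- The first unit coefficient. -/
theorem exists_decomp {z : LaurentSeries L} (hz : z ∈ intL A)
    (hz' : ∃ n, ¬ ∀ h : z.coeff n ∈ A, ¬ IsUnit (⟨z.coeff n, h⟩ : A)) :
    ∃ (p : A) (z₁ z₂ z₂' : LaurentSeries L), ¬ IsUnit p ∧ z₁ ∈ intL A ∧ z₂ ∈ intL A ∧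
      z₂' ∈ intL A ∧ z₂ * z₂' = 1 ∧ z = algebraMap L (LaurentSeries L) p * z₁ + z₂ := by
  classical
  obtain ⟨n, hn, hlt⟩ := exists_first (g := z)
    (P := fun a => ∀ h : a ∈ A, ¬ IsUnit (⟨a, h⟩ : A)) (fun h h1 => not_isUnit_zero h1) hz'
  push Not at hn
  obtain ⟨hnA, hnu⟩ := hn
  -- the truncated part
  set z₀ := trunc n z with hz₀
  have hfin : (Function.support z₀.coeff).Finite := by
    by_cases h0 : z = 0
    · have : z₀ = 0 := by
        ext m; rw [hz₀, trunc_coeff, h0]; simp
      rw [this]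
      have h1 : Function.support (0 : LaurentSeries L).coeff = ∅ := by
        ext m; simp [Function.mem_support]
      rw [h1]
      exact Set.finite_empty
    · refine (Set.finite_Icc z.order n).subset ?_
      intro m hm
      rw [Function.mem_support, hz₀, trunc_coeff] at hm
      have h1 : m < n := by
        by_contra h2
        rw [if_neg h2] at hm
        exact hm rfl
      rw [if_pos h1] at hm
      exact ⟨HahnSeries.order_le_of_coeff_ne_zero hm, h1.le⟩
  -- a common divisor
  obtain ⟨p, hpu, hp⟩ : ∃ p : A, ¬ IsUnit p ∧ ∀ m < n, ∃ b : A, z.coeff m = p * b := by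
    by_cases hne : hfin.toFinset.Nonempty
    · obtain ⟨m₀, hm₀, hmax⟩ := Finset.exists_max_image hfin.toFinset
        (fun m => A.valuation (z.coeff m)) hne
      rw [Set.Finite.mem_toFinset, Function.mem_support, hz₀, trunc_coeff] at hm₀
      have hm₀n : m₀ < n := by
        by_contra h2
        rw [if_neg h2] at hm₀
        exact hm₀ rfl
      rw [if_pos hm₀n] at hm₀
      refine ⟨⟨z.coeff m₀, mem_intL.mp hz m₀⟩, hlt m₀ hm₀n _, fun m hm => ?_⟩
      by_cases h0 : z.coeff m = 0
      · exact ⟨0, by simp [h0]⟩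
      · have h1 := hmax m (by
          rw [Set.Finite.mem_toFinset, Function.mem_support, hz₀, trunc_coeff, if_pos hm]
          exact h0)
        refine ⟨⟨z.coeff m / z.coeff m₀, ?_⟩, ?_⟩
        · rw [← A.valuation_le_one_iff, map_div₀]
          exact (div_le_one₀ (zero_lt_iff.mpr ((Valuation.ne_zero_iff _).mpr hm₀))).mpr h1
        · change z.coeff m = z.coeff m₀ * (z.coeff m / z.coeff m₀)
          rw [mul_div_cancel₀ _ hm₀]
    · refine ⟨0, not_isUnit_zero, fun m hm => ⟨0, ?_⟩⟩
      by_contra h0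
      apply hne
      refine ⟨m, ?_⟩
      rw [Set.Finite.mem_toFinset, Function.mem_support, hz₀, trunc_coeff, if_pos hm]
      simpa using h0
  choose b hb using hp
  set z₁ : LaurentSeries L :=
    { coeff := fun m => if h : m < n ∧ z.coeff m ≠ 0 then (b m h.1 : L) else 0
      isPWO_support' := z.isPWO_support'.mono fun m hm => by
        rw [Function.mem_support] at hm ⊢
        intro h0
        apply hm
        rw [dif_neg (by tauto)] } with hz₁
  have hz₁c : ∀ m, z₁.coeff m = if h : m < n ∧ z.coeff m ≠ 0 then (b m h.1 : L) else 0 :=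
    fun m => rfl
  have hz₁mem : z₁ ∈ intL A := by
    rw [mem_intL]
    intro m
    rw [hz₁c]
    split_ifs
    · exact Subtype.mem _
    · exact A.zero_mem
  have hpz : algebraMap L (LaurentSeries L) p * z₁ = z₀ := by
    ext m
    rw [coeff_C_mul, hz₁c, hz₀, trunc_coeff]
    split_ifs with h1 h2 h3
    · exact (hb m h1.1).symm
    · exact absurd h1.1 h2
    · rw [mul_zero]
      by_contra h4
      exact h1 ⟨h3, fun h => h4 h.symm⟩
    · rw [mul_zero]
  have hz₂mem : z - z₀ ∈ intL A := sub_mem hz (by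
    rw [mem_intL]
    intro m
    rw [hz₀, trunc_coeff]
    split_ifs
    · exact mem_intL.mp hz m
    · exact A.zero_mem)
  have hz₂n : (z - z₀).coeff n = z.coeff n := by
    rw [HahnSeries.coeff_sub, hz₀, trunc_coeff, if_neg (lt_irrefl _), sub_zero]
  obtain ⟨y, hy⟩ := hz₂mem
  have hyn : y.coeff n = ⟨z.coeff n, hnA⟩ := by
    apply Subtype.ext
    have h1 : A.subtype (y.coeff n) = (z - z₀).coeff n := by rw [← hy, coeffMap_coeff]
    exact h1.trans hz₂n
  have hyu : IsUnit y := by
    rw [HahnSeries.isUnit_iff]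
    have hlt' : ∀ m < n, y.coeff m = 0 := by
      intro m hm
      apply Subtype.ext
      have : A.subtype (y.coeff m) = (z - z₀).coeff m := by rw [← hy, coeffMap_coeff]
      change A.subtype (y.coeff m) = 0
      rw [this, HahnSeries.coeff_sub, hz₀, trunc_coeff, if_pos hm, sub_self]
    have hn0 : y.coeff n ≠ 0 := by rw [hyn]; exact hnu.ne_zero
    have hy0 : y ≠ 0 := by rintro rfl; simp at hn0
    have hord : y.order = n := by
      apply le_antisymm
      · exact HahnSeries.order_le_of_coeff_ne_zero hn0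
      · by_contra hlt
        rw [not_le] at hlt
        exact HahnSeries.coeff_order_eq_zero.not.mpr hy0 (hlt' _ hlt)
    rw [HahnSeries.leadingCoeff_eq, hord, hyn]
    exact hnu
  obtain ⟨y', hy'⟩ := hyu.exists_right_inv
  refine ⟨p, z₁, z - z₀, coeffMap A.subtype y', hpu, hz₁mem, ⟨y, hy⟩, ⟨y', rfl⟩, ?_, ?_⟩
  · rw [← hy, ← map_mul, hy', map_one]
  · rw [hpz]; ring

/-- A bounded Laurent series which is Gauss integral has integral coefficients. -/
theorem mem_intL_of_bounded (arch : Arch A) {f z : LaurentSeries L} {c : L} (hc : c ≠ 0)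
    (hcf : algebraMap L (LaurentSeries L) c * f ∈ intL A) (hz : z ∈ intL A)
    (hz' : ∃ n, ¬ ∀ h : z.coeff n ∈ A, ¬ IsUnit (⟨z.coeff n, h⟩ : A))
    (hfz : f * z ∈ intL A) : f ∈ intL A := by
  obtain ⟨p, z₁, z₂, z₂', hp, hz₁, hz₂, hz₂', h22, hdec⟩ := exists_decomp hz hz'
  set P := algebraMap L (LaurentSeries L) p with hP
  have hPmem : P ∈ intL A := C_mem_intL p.2
  -- wlog `c ∈ A`
  obtain ⟨c', hc'0, hc'f⟩ : ∃ c' : A, c' ≠ 0 ∧
      algebraMap L (LaurentSeries L) c' * f ∈ intL A := by
    rcases A.mem_or_inv_mem c with h | h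
    · exact ⟨⟨c, h⟩, fun h0 => hc (congrArg Subtype.val h0), hcf⟩
    · refine ⟨1, one_ne_zero, ?_⟩
      have h1 := mul_mem (C_mem_intL h) hcf
      rw [← mul_assoc, ← map_mul, inv_mul_cancel₀ hc, map_one] at h1
      simpa using h1
  obtain ⟨n, e, he⟩ := arch p c' hp hc'0
  -- `f = y - P w f`
  set w := -(z₁ * z₂') with hw
  have hwmem : w ∈ intL A := neg_mem (mul_mem hz₁ hz₂')
  set y := f * z * z₂' with hy
  have hymem : y ∈ intL A := mul_mem hfz hz₂'
  have hrec : f = y + P * w * f := by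
    have : f * z * z₂' = f * (P * z₁) * z₂' + f * (z₂ * z₂') := by rw [hdec]; ring
    rw [hy, hw, this, h22]
    ring
  have hiter : ∀ k : ℕ, f - (P * w) ^ k * f ∈ intL A := by
    intro k
    induction k with
    | zero => simp [zero_mem]
    | succ k ih =>
      have : f - (P * w) ^ (k + 1) * f = f - (P * w) ^ k * f + (P * w) ^ k * y := by
        have h1 : (P * w) ^ k * f = (P * w) ^ k * y + (P * w) ^ (k + 1) * f := by
          conv_lhs => rw [hrec]
          ring
        rw [h1]; ring
      rw [this]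
      exact add_mem ih (mul_mem (pow_mem (mul_mem hPmem hwmem) _) hymem)
  have hlast : (P * w) ^ n * f ∈ intL A := by
    have h1 : P ^ n = algebraMap L (LaurentSeries L) (c' : L) *
        algebraMap L (LaurentSeries L) (e : L) := by
      rw [hP, ← map_pow, ← map_mul]
      exact congrArg _ (congrArg Subtype.val he)
    have h2 : (P * w) ^ n * f = (algebraMap L (LaurentSeries L) (c' : L) * f) *
        (algebraMap L (LaurentSeries L) (e : L) * w ^ n) := by
      rw [mul_pow, h1]; ring
    rw [h2]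
    exact mul_mem hc'f (mul_mem (C_mem_intL e.2) (pow_mem hwmem n))
  have := add_mem (hiter n) hlast
  rwa [sub_add_cancel] at this

end Fermat.Agent.H97
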