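import Mathlib
import Fermat.Prelude.Def_FLTPrelim_Ramification
import Fermat.Agent.H97InfA

/-!
# Archimedean property of the places of `ℚ̄` (helper34)
-/

set_option autoImplicit false

open Polynomial

namespace Fermat.Agent.H34.Two

section Arch

variable {K : Type*} [Field K] [CharZero K] {A : ValuationSubring K} {q : ℕ}

omit [CharZero K] in
theorem q_mem_maximal (hA : A.LiesOverPrime q) : (q : A) ∈ IsLocalRing.maximalIdeal A := by
  rw [IsLocalRing.mem_maximalIdeal, mem_nonunits_iff]
  intro hu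
  have h2 : (q : K) ∈ A.nonunits := hA
  have h3 : ((q : A) : K) ∈ A.nonunits := by simpa using h2
  exact (A.coe_mem_nonunits_iff.mp h3) hu

omit [CharZero K] in
theorem intCast_isUnit (hA : A.LiesOverPrime q) {n : ℤ} (hn : IsCoprime n (q : ℤ)) :
    IsUnit (n : A) := by
  obtain ⟨u, v, h⟩ := hn
  have h1 : (u : A) * (n : A) + (v : A) * (q : A) = 1 := by
    have : ((u * n + v * q : ℤ) : A) = 1 := by rw [h, Int.cast_one]
    push_cast at this
    exact this
  by_contra hu
  have h2 : (n : A) ∈ IsLocalRing.maximalIdeal A := by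
    rw [IsLocalRing.mem_maximalIdeal, mem_nonunits_iff]; exact hu
  have h3 : (1 : A) ∈ IsLocalRing.maximalIdeal A := by
    rw [← h1]
    exact add_mem (Ideal.mul_mem_left _ _ h2) (Ideal.mul_mem_left _ _ (q_mem_maximal hA))
  exact (Ideal.ne_top_iff_one _).mp (IsLocalRing.maximalIdeal.isMaximal A).ne_top h3

omit [CharZero K] in
theorem dvd_pow_aux (hq : q.Prime) (hA : A.LiesOverPrime q) {a : A}
    (ha : a ∈ IsLocalRing.maximalIdeal A) (n : ℕ) :
    ∀ (P : ℤ[X]) (m : ℕ), (∀ j < n, (q : ℤ) ∣ P.coeff j) → ¬ (q : ℤ) ∣ P.coeff n →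
      (q : A) ∣ a ^ m * aeval a P → (q : A) ∣ a ^ (m + n) := by
  induction n with
  | zero =>
    intro P m _ h0 hP
    have hu : IsUnit (aeval a P) := by
      by_contra hcon
      have h1 : aeval a P ∈ IsLocalRing.maximalIdeal A := by
        rw [IsLocalRing.mem_maximalIdeal, mem_nonunits_iff]; exact hcon
      have h2 : aeval a P = aeval a P.divX * a + (P.coeff 0 : A) := by
        conv_lhs => rw [← Polynomial.divX_mul_X_add P]
        simp
      have h3 : ((P.coeff 0 : ℤ) : A) ∈ IsLocalRing.maximalIdeal A := by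
        have h4 : ((P.coeff 0 : ℤ) : A) = aeval a P - aeval a P.divX * a := by
          rw [h2]; ring
        rw [h4]
        exact sub_mem h1 (Ideal.mul_mem_left _ _ ha)
      have h4 : IsUnit ((P.coeff 0 : ℤ) : A) := by
        apply intCast_isUnit hA
        have h5 : Prime (q : ℤ) := Nat.prime_iff_prime_int.mp hq
        exact ((Prime.coprime_iff_not_dvd h5).mpr h0).symm
      rw [IsLocalRing.mem_maximalIdeal, mem_nonunits_iff] at h3
      exact h3 h4
    rw [add_zero]
    exact (hu.dvd_mul_right).mp hP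
  | succ n ih =>
    intro P m hj hn hP
    have h1 : aeval a P = aeval a P.divX * a + (P.coeff 0 : A) := by
      conv_lhs => rw [← Polynomial.divX_mul_X_add P]
      simp
    have h2 : (q : A) ∣ (P.coeff 0 : A) := by
      obtain ⟨c, hc⟩ := hj 0 (Nat.succ_pos n)
      exact ⟨(c : A), by rw [hc]; push_cast; ring⟩
    have h3 : (q : A) ∣ a ^ (m + 1) * aeval a P.divX := by
      have h4 : a ^ (m + 1) * aeval a P.divX =
          a ^ m * aeval a P - a ^ m * (P.coeff 0 : A) := by
        rw [h1, pow_succ]; ring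
      rw [h4]
      exact dvd_sub hP (Dvd.dvd.mul_left h2 _)
    have h5 := ih P.divX (m + 1) (fun j hj' => by
      rw [Polynomial.coeff_divX]; exact hj (j + 1) (by omega)) (by
      rw [Polynomial.coeff_divX]; exact hn) h3
    rwa [show m + (n + 1) = m + 1 + n by ring]

theorem exists_dvd_pow (hq : q.Prime) (hA : A.LiesOverPrime q) {a : A}
    (ha : a ∈ IsLocalRing.maximalIdeal A) (halg : IsAlgebraic ℤ a) :
    ∃ n : ℕ, (q : A) ∣ a ^ n := by
  obtain ⟨P, hP, hPa⟩ := halg
  have hprim : P.primPart.IsPrimitive := P.isPrimitive_primPart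
  have hPa' : aeval a P.primPart = 0 := by
    have h1 : (P.content : A) * aeval a P.primPart = 0 := by
      have h2 := congrArg (aeval a) P.eq_C_content_mul_primPart
      rw [hPa, map_mul] at h2
      simpa using h2.symm
    rcases mul_eq_zero.mp h1 with h | h
    · exfalso
      have h3 : (P.content : ℤ) = 0 := by
        have h4 : ((P.content : A) : K) = 0 := by rw [h]; rfl
        have h5 : ((P.content : ℤ) : K) = 0 := by simpa using h4
        exact_mod_cast h5
      exact hP (Polynomial.content_eq_zero_iff.mp h3)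
    · exact h
  have hex : ∃ n, ¬ (q : ℤ) ∣ P.primPart.coeff n := by
    by_contra hcon
    push Not at hcon
    have h1 : C (q : ℤ) ∣ P.primPart := (Polynomial.C_dvd_iff_dvd_coeff _ _).mpr hcon
    have h2 := hprim _ h1
    exact (Nat.prime_iff_prime_int.mp hq).not_isUnit h2
  classical
  refine ⟨Nat.find hex, ?_⟩
  have := dvd_pow_aux hq hA ha (Nat.find hex) P.primPart 0
    (fun j hj => by
      have := Nat.find_min hex hj
      rwa [not_not] at this) (Nat.find_spec hex) (by rw [hPa', mul_zero]; exact dvd_zero _)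
  rwa [zero_add] at this

theorem exists_dvd_pow_q (hq : q.Prime) (hA : A.LiesOverPrime q) {b : A} (hb : b ≠ 0)
    (halg : IsAlgebraic ℤ b) : ∃ n : ℕ, b ∣ (q : A) ^ n := by
  obtain ⟨r, hr, hbr⟩ := halg.exists_nonzero_dvd (mem_nonZeroDivisors_of_ne_zero hb)
  obtain ⟨s, hrs, hs⟩ := (FiniteMultiplicity.of_prime_left
    (Nat.prime_iff_prime_int.mp hq) hr).exists_eq_pow_mul_and_not_dvd
  generalize multiplicity (q : ℤ) r = n at hrs
  have h5 : Prime (q : ℤ) := Nat.prime_iff_prime_int.mp hq
  have hu : IsUnit (s : A) := intCast_isUnit hA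
    ((Prime.coprime_iff_not_dvd h5).mpr hs).symm
  refine ⟨n, ?_⟩
  rw [hrs] at hbr
  have h6 : algebraMap ℤ A ((q : ℤ) ^ n * s) = (q : A) ^ n * (s : A) := by
    simp
  rw [h6] at hbr
  exact (hu.dvd_mul_right).mp hbr

theorem arch_of_liesOver (hq : q.Prime) (hA : A.LiesOverPrime q)
    (halg : ∀ a : A, IsAlgebraic ℤ a) : H97.Arch A := by
  intro a b ha hb
  have ha' : a ∈ IsLocalRing.maximalIdeal A := by
    rw [IsLocalRing.mem_maximalIdeal, mem_nonunits_iff]; exact ha
  obtain ⟨n, hn⟩ := exists_dvd_pow hq hA ha' (halg a)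
  obtain ⟨s, hs⟩ := exists_dvd_pow_q hq hA hb (halg b)
  refine ⟨n * s, hs.trans ?_⟩
  rw [pow_mul]
  exact pow_dvd_pow_of_dvd hn s

omit [CharZero K] in
theorem isAlgebraic_int_of_rat [Algebra ℚ K] [Algebra.IsAlgebraic ℚ K] (a : A) :
    IsAlgebraic ℤ a := by
  have h1 : IsAlgebraic ℤ (a : K) := by
    have h2 : IsAlgebraic ℚ (a : K) := Algebra.IsAlgebraic.isAlgebraic _
    exact (IsFractionRing.isAlgebraic_iff ℤ ℚ K).mpr h2
  obtain ⟨P, hP, hPa⟩ := h1
  refine ⟨P, hP, Subtype.ext ?_⟩
  have h3 : ((aeval a P : A) : K) = aeval (a : K) P := by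
    have := Polynomial.aeval_algHom_apply (A.subtype.toIntAlgHom) a P
    exact this.symm
  rw [h3, hPa]
  rfl

/-- The places of `ℚ̄` above primes are archimedean (rank one). -/
theorem arch_Qbar {A : ValuationSubring (AlgebraicClosure ℚ)} {q : ℕ} (hq : q.Prime)
    (hA : A.LiesOverPrime q) : H97.Arch A := by
  have : Algebra.IsAlgebraic ℚ (AlgebraicClosure ℚ) := AlgebraicClosure.isAlgebraic ℚ
  exact arch_of_liesOver hq hA fun a => isAlgebraic_int_of_rat a

end Arch

end Fermat.Agent.H34.Two
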