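import Fermat.Agent.H9HeckeAct

/-!
# The cuspidal class in `J_0(p)`: Galois invariance and Hecke eigenvalues
-/

set_option autoImplicit false
set_option linter.unusedSectionVars false
set_option linter.style.haveILetI false

noncomputable section

open ModularCurve Polynomial IntermediateField AlgebraicCurve
open Fermat.Agent.H61 Fermat.Agent.H28 Fermat.Agent.H66

namespace Fermat.Agent.H9

local notation "Qb" => AlgebraicClosure ℚ

theorem exists_cuspSpecBar (p : ℕ) [Fact p.Prime] :
    ∃ i z : Place Qb (modularFunctionFieldBar p), CuspSpec Qb p (modularFunctionFieldBar p) i z :=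
  exists_cuspSpec Qb p (by exact_mod_cast (Fact.out : p.Prime).ne_zero) _
    (H67.laurentBaseChange_full Qb p)

namespace CuspSpec

variable {p : ℕ} [Fact p.Prime] {i z : Place Qb (modularFunctionFieldBar p)}
  (S : CuspSpec Qb p (modularFunctionFieldBar p) i z)

include S

theorem smul_J₁ (σ : Qb ≃ₐ[ℚ] Qb) :
    arithmeticGalois (modularFunctionFieldFull p) σ •
      (⟨J Qb 1, J₁_mem_F S⟩ : modularFunctionFieldBar p) = ⟨J Qb 1, J₁_mem_F S⟩ := by
  apply Subtype.ext
  rw [coe_arithmeticGalois_smul]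
  show coeffMap (σ : Qb →+* Qb) (J Qb 1) = J Qb 1
  rw [J_eq, coeffMap_qExpand]
  congr 1
  exact H61.coeffMap_jqModC _

theorem smul_cusp (σ : Qb ≃ₐ[ℚ] Qb) :
    arithmeticGalois (modularFunctionFieldFull p) σ • i = i ∧
      arithmeticGalois (modularFunctionFieldFull p) σ • z = z := by
  have hp := (Fact.out : p.Prime).two_le
  have key : ∀ v : Place Qb (modularFunctionFieldBar p),
      (arithmeticGalois (modularFunctionFieldFull p) σ • v).ord
        (⟨J Qb 1, J₁_mem_F S⟩ : modularFunctionFieldBar p) =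
      v.ord (⟨J Qb 1, J₁_mem_F S⟩ : modularFunctionFieldBar p) := by
    intro v
    have h := SemilinearAut.ord_smul (arithmeticGalois (modularFunctionFieldFull p) σ) v
      (⟨J Qb 1, J₁_mem_F S⟩ : modularFunctionFieldBar p)
    rwa [S.smul_J₁] at h
  have hi := key i
  have hz := key z
  rw [S.inf_J₁ _ rfl] at hi
  rw [S.zero_J₁ _ rfl] at hz
  constructor
  · rcases S.cusp _ _ rfl (by rw [hi]; norm_num) with h | h
    · exact h
    · exfalso
      rw [h, S.zero_J₁ _ rfl] at hi
      omega
  · rcases S.cusp (arithmeticGalois (modularFunctionFieldFull p) σ • z) _ rfl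
      (by rw [hz]; omega) with h | h
    · exfalso
      rw [h, S.inf_J₁ _ rfl] at hz
      omega
    · exact h

/-- The cuspidal class is rational. -/
theorem smul_cls (σ : Qb ≃ₐ[ℚ] Qb) : σ • (S.cls : JZero p) = S.cls := by
  rw [galois_smul_pic0_def, S.cls_def, SemilinearAut.pic0_smul_mk]
  congr 1
  apply Subtype.ext
  show arithmeticGalois (modularFunctionFieldFull p) σ •
    (Finsupp.single z 1 - Finsupp.single i 1 : Divisor Qb (modularFunctionFieldBar p)) = _
  rw [smul_sub, SemilinearAut.smul_single, SemilinearAut.smul_single, (S.smul_cusp σ).1,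
    (S.smul_cusp σ).2]

theorem heckeOperatorBar_cls (ℓ : Nat.Primes) (hne : (ℓ : ℕ) ≠ p) :
    heckeOperatorBar p ℓ (S.cls : JZero p) = (1 + (ℓ : ℤ)) • S.cls := by
  haveI : Fact (ℓ : ℕ).Prime := ⟨ℓ.2⟩
  rw [heckeOperatorBar_apply]
  exact heckeAlong_cls_of_ne S ℓ hne

theorem heckeOperatorBar_cls_self (ℓ : Nat.Primes) (he : (ℓ : ℕ) = p) :
    heckeOperatorBar p ℓ (S.cls : JZero p) = S.cls := by
  obtain ⟨q, hq⟩ := ℓ
  subst he
  rw [heckeOperatorBar_apply]
  have := heckeAlong_cls_self S
  rw [one_smul] at this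
  exact this

end CuspSpec

end Fermat.Agent.H9
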