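import Fermat.Agent.H98Div3
import Fermat.Agent.H34Arch
import Fermat.Agent.H88GenusEq
import Fermat.Agent.H18Dedekind
import Fermat.Agent.H9JZero
import Fermat.Agent.H49HeckeBasic

/-!
# MZ-F1c: the divisor of `h` is divisible by `r` (helper98)
-/

set_option autoImplicit false

noncomputable section

open AlgebraicCurve IsDedekindDomain WithZero IntermediateField KaehlerDifferential ModularCurve
open Fermat.Agent.H94 Fermat.Agent.H40

namespace Fermat.Agent.H98

local notation "Qb" => AlgebraicClosure ℚ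

section Abs

variable {K F k E : Type*} [Field K] [Field F] [Algebra K F] [Field k] [Field E] [Algebra k E]
  {R : H40.ReductionData K F k E} {r : Place K F → Place k E}

/-- coordinates on the residue discs -/
theorem exists_coord_lift {g c c' : ℤ} (hE : RiemannFor k E g c')
    (hr1 : ∀ D : Divisor K F, c < Divisor.degree D → R.IsRed D (Finsupp.mapDomain r D))
    (hdF : ∀ v : Place K F, v.deg = 1) (hdE : ∀ v : Place k E, v.deg = 1)
    {Pinf : Place K F} {Q : Place k E} (hQ : Q ≠ r Pinf) :
    ∃ t : R.B, Q.ord (R.ρ t) = 1 ∧ ∀ P : Place K F, r P = Q → 0 ≤ P.ord (t : F) := by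
  classical
  set n : ℤ := max (max c c') 0 + 2 with hn
  have hn1 : c < n := by
    have h1 := le_max_left c c'
    have h2 := le_max_left (max c c') 0
    omega
  have hn2 : c' + 1 < n := by
    have h1 := le_max_right c c'
    have h2 := le_max_left (max c c') 0
    omega
  obtain ⟨f, hfL, hf0, hfQ⟩ := exists_ord_eq hE hdE
    (D := Finsupp.single (r Pinf) n - Finsupp.single Q 1) (by
      rw [map_sub, Divisor.degree_single, Divisor.degree_single, hdE, hdE]
      push_cast; omega) Q
  have hfQ1 : Q.ord f = 1 := by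
    rw [hfQ, Finsupp.sub_apply, Finsupp.single_eq_of_ne hQ, Finsupp.single_eq_same]
    ring
  have hfL' : f ∈ riemannRochSpace (Finsupp.single (r Pinf) n) := by
    refine L_mono ?_ hfL
    rw [sub_le_self_iff]
    exact Finsupp.single_nonneg.mpr zero_le_one
  have hred := hr1 (Finsupp.single Pinf n) (by
    rw [Divisor.degree_single, hdF]; push_cast; omega)
  rw [Finsupp.mapDomain_single] at hred
  rw [← hred.2] at hfL'
  obtain ⟨x, hxL, hxf⟩ := hfL'
  have hρx : R.ρ x ≠ 0 := by rw [hxf]; exact hf0
  have hx0 := R.ne_zero_of_ρ_ne_zero hρx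
  refine ⟨x, by rw [hxf]; exact hfQ1, fun P hP => ?_⟩
  have h1 := (mem_L hx0).mp hxL P
  rw [Finsupp.single_eq_of_ne (by
    rintro rfl; exact hQ hP.symm)] at h1
  omega

end Abs

section Form

/-- weight two cusp forms as functions with bounded poles, transported -/
theorem exists_form_fun (N : ℕ) [NeZero N] (F : IntermediateField Qb (LaurentSeries Qb))
    (hF : F = modularFunctionFieldFullC Qb N)
    (f : CuspForm (CongruenceSubgroup.Gamma0 N) 2) (G : PowerSeries ℤ)
    (hG : ∀ n : ℕ, ModularFormClass.qCoeff f n = ((PowerSeries.coeff n G : ℤ) : ℂ))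
    {y : LaurentSeries ℤ}
    (hy : y * H1.thetaL ℤ (jqModC ℤ) = HahnSeries.ofPowerSeries ℤ ℤ G) :
    ∃ x : F, (x : LaurentSeries Qb) = coeffMap (Int.castRingHom Qb) y ∧
      (x ≠ 0 → ∀ (j : F), (j : LaurentSeries Qb) = jqModC Qb → ∀ (P : Place Qb F) (c : Qb),
        0 < P.ord (j - algebraMap Qb F c) →
          1 - P.ord (j - algebraMap Qb F c) ≤ P.ord x) := by
  subst hF
  let : Algebra Qb ℂ := (IsAlgClosed.lift : Qb →ₐ[ℚ] ℂ).toRingHom.toAlgebra
  have hX : ∀ n : ℕ, algebraMap Qb ℂ
      ((HahnSeries.ofPowerSeries ℤ Qb (G.map (Int.castRingHom Qb)) : LaurentSeries Qb).coeff n) =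
      ModularFormClass.qCoeff (CuspForm.toModularFormₗ f) n := by
    intro n
    rw [HahnSeries.ofPowerSeries_apply_coeff, PowerSeries.coeff_map]
    have h1 : ModularFormClass.qCoeff (CuspForm.toModularFormₗ f) n =
      ModularFormClass.qCoeff f n := rfl
    rw [h1, hG n]
    simp
  obtain ⟨x, hx, hx2⟩ := H45.FF.exists_function_of_form (K := Qb) (N := N)
    (CuspForm.toModularFormₗ f) _ hX (fun n hn => ofPowerSeries_coeff_of_neg _ hn)
  have h2 := coeffMap_quot (R := Qb) hy
  rw [← hx, ← thetaL_eq] at h2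
  have h3 := mul_right_cancel₀ (thetaL_jqModC_ne_zero (k := Qb)) h2
  refine ⟨x, h3.symm, fun hx0 j hj P c hc => ?_⟩
  have hjF : j = H24.jF Qb N := Subtype.ext hj
  subst hjF
  exact (hx2 hx0).2 P c hc

end Form

section Main

variable {r : ℕ} [hr : Fact r.Prime] {A : ValuationSubring Qb}
  {k : Type} [Field k] [CharP k r] [IsAlgClosed k] {π : A →+* k} {N : ℕ} [NeZero N]

omit [IsAlgClosed k] in
/-- the reduction of an integral cusp form, as an integral function -/
theorem exists_form_red (hπ : Function.Surjective π) [IsLocalHom π]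
    (hdeg : H42.DegLE Qb k N)
    (fm : CuspForm (CongruenceSubgroup.Gamma0 N) 2) (G : PowerSeries ℤ)
    (hG : ∀ n : ℕ, ModularFormClass.qCoeff fm n = ((PowerSeries.coeff n G : ℤ) : ℂ)) :
    ∃ x : (H42.modReductionData A π N hπ hdeg).B,
      (((H42.modReductionData A π N hπ hdeg).ρ x : modularFunctionFieldFullC k N) :
        LaurentSeries k) * H1.thetaL k (jqModC k) =
          HahnSeries.ofPowerSeries ℤ k (G.map (Int.castRingHom k)) ∧
      ((x : laurentBaseChange Qb (modularFunctionFieldFull N)) ≠ 0 →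
        ∀ (j : laurentBaseChange Qb (modularFunctionFieldFull N)),
        (j : LaurentSeries Qb) = jqModC Qb →
        ∀ (P : Place Qb (laurentBaseChange Qb (modularFunctionFieldFull N))) (c : Qb),
        0 < P.ord (j - algebraMap Qb _ c) →
          1 - P.ord (j - algebraMap Qb _ c) ≤
            P.ord (x : laurentBaseChange Qb (modularFunctionFieldFull N))) := by
  obtain ⟨y, hy⟩ := exists_int_quot G
  obtain ⟨x, hx, hx2⟩ := exists_form_fun N (laurentBaseChange Qb (modularFunctionFieldFull N))
    (H42.laurentBaseChange_full _ _) fm G hG hy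
  have hcomp : (A.subtype).comp (Int.castRingHom A) = Int.castRingHom Qb := RingHom.ext_int _ _
  have hcomp' : π.comp (Int.castRingHom A) = Int.castRingHom k := RingHom.ext_int _ _
  have h1 : coeffMap A.subtype (coeffMap (Int.castRingHom A) y) = x := by
    rw [coeffMap_coeffMap, hcomp, hx]
  have hY : coeffMap A.subtype (coeffMap (Int.castRingHom A) y) ∈
      laurentBaseChange Qb (modularFunctionFieldFull N) := by rw [h1]; exact x.2
  obtain rfl : (⟨_, hY⟩ : laurentBaseChange Qb (modularFunctionFieldFull N)) = x :=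
    Subtype.ext h1
  have hB : (⟨_, hY⟩ : laurentBaseChange Qb (modularFunctionFieldFull N)) ∈
      (H42.modReductionData A π N hπ hdeg).B :=
    (H42.modGauss A π N hπ hdeg).le_loc ⟨_, rfl⟩
  refine ⟨⟨_, hB⟩, ?_, hx2⟩
  rw [H42.modReductionData_ρ A π N hπ hdeg _ hY (H42.coeffMap_mem_full A π N hπ hdeg _ hY) hB]
  show coeffMap π (coeffMap (Int.castRingHom A) y) * _ = _
  rw [coeffMap_coeffMap, hcomp', coeffMap_quot hy]

/-- The local statement at the places of the reduction all of whose lifts are finite. -/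
theorem exists_fun_regular (hN : (N : k) ≠ 0) (hπ : Function.Surjective π) [IsLocalHom π]
    (hdeg : H42.DegLE Qb k N)
    [FunField Qb (laurentBaseChange Qb (modularFunctionFieldFull N))]
    [HasPrincipalDivisors Qb (laurentBaseChange Qb (modularFunctionFieldFull N))]
    {rr : Place Qb (laurentBaseChange Qb (modularFunctionFieldFull N)) →
      Place k (modularFunctionFieldFullC k N)}
    (hr2 : H34.GR.DivCompat (H42.modReductionData A π N hπ hdeg) rr)
    {j : laurentBaseChange Qb (modularFunctionFieldFull N)} (hj : Transcendental Qb j)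
    (hjq : (j : LaurentSeries Qb) = jqModC Qb)
    {Q : Place k (modularFunctionFieldFullC k N)}
    (hQj : ∀ P, rr P = Q → 0 ≤ P.ord j)
    {t : (H42.modReductionData A π N hπ hdeg).B}
    (htQ : Q.ord ((H42.modReductionData A π N hπ hdeg).ρ t) = 1)
    (htreg : ∀ P, rr P = Q →
      0 ≤ P.ord (t : laurentBaseChange Qb (modularFunctionFieldFull N)))
    (hDt : derJ k r N hN ((H42.modReductionData A π N hπ hdeg).ρ t) ≠ 0)
    {f : PowerSeries k} (hf : f ∈ H15.S2 N k) :
    ∃ g : modularFunctionFieldFullC k N,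
      HahnSeries.ofPowerSeries ℤ k f = (g : LaurentSeries k) * H1.thetaL k (jqModC k) ∧
      g * (derJ k r N hN ((H42.modReductionData A π N hπ hdeg).ρ t))⁻¹ ∈
        Q.toValuationSubring := by
  rw [H15.S2] at hf
  induction hf using Submodule.span_induction with
  | mem f hf =>
    obtain ⟨F, G, hG, rfl⟩ := hf
    obtain ⟨x, hx1, hx2⟩ := exists_form_red hπ hdeg F G hG
    refine ⟨_, hx1.symm, ?_⟩
    by_cases h0 : (H42.modReductionData A π N hπ hdeg).ρ x = 0
    · rw [h0, zero_mul]; exact zero_mem _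
    · have hx0 := (H42.modReductionData A π N hπ hdeg).ne_zero_of_ρ_ne_zero h0
      have h1 := ord_der_red_le hr2 (derCompat r hN hπ hdeg hj hjq) (dd_self hj) h0
        (hx2 hx0 j hjq) hQj htQ htreg hDt
      apply mem_of_ord_nonneg
      rw [Q.ord_mul h0 (inv_ne_zero hDt), Q.ord_inv]
      omega
  | zero => exact ⟨0, by rw [map_zero]; exact (zero_mul _).symm, by
      rw [zero_mul]; exact zero_mem _⟩
  | add f g _ _ hf hg =>
    obtain ⟨a, ha, hfa⟩ := hf
    obtain ⟨b, hb, hgb⟩ := hg
    refine ⟨a + b, ?_, ?_⟩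
    · rw [map_add, ha, hb]; exact (add_mul _ _ _).symm
    · rw [add_mul]; exact add_mem hfa hgb
  | smul c f _ hf =>
    obtain ⟨a, ha, hfa⟩ := hf
    refine ⟨algebraMap k _ c * a, ?_, ?_⟩
    · rw [PowerSeries.smul_eq_C_mul, map_mul, HahnSeries.ofPowerSeries_C, ha, ← mul_assoc]
      congr 1
      show HahnSeries.C c * (a : LaurentSeries k) =
        algebraMap k (LaurentSeries k) c * (a : LaurentSeries k)
      rw [algebraMap_laurentSeries_eq_single, HahnSeries.C_apply]
    · rw [mul_assoc]
      exact mul_mem (Q.algebraMap_mem' c) hfa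

omit [IsAlgClosed k] [NeZero N] in
/-- the function `j` in characteristic zero as an integral function -/
theorem exists_jB (hπ : Function.Surjective π) [IsLocalHom π] (hdeg : H42.DegLE Qb k N) :
    ∃ j : (H42.modReductionData A π N hπ hdeg).B,
      ((j : laurentBaseChange Qb (modularFunctionFieldFull N)) : LaurentSeries Qb) =
        jqModC Qb ∧
      (((H42.modReductionData A π N hπ hdeg).ρ j : modularFunctionFieldFullC k N) :
        LaurentSeries k) = jqModC k := by
  have h1 : coeffMap A.subtype (jqModC A) = jqModC Qb := coeffMap_jqModC _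
  have hY : coeffMap A.subtype (jqModC A) ∈ laurentBaseChange Qb (modularFunctionFieldFull N) := by
    rw [h1, H42.laurentBaseChange_full]
    exact jqModC_mem_full Qb N
  have hB : (⟨_, hY⟩ : laurentBaseChange Qb (modularFunctionFieldFull N)) ∈
      (H42.modReductionData A π N hπ hdeg).B :=
    (H42.modGauss A π N hπ hdeg).le_loc ⟨_, rfl⟩
  refine ⟨⟨_, hB⟩, h1, ?_⟩
  rw [H42.modReductionData_ρ A π N hπ hdeg _ hY (H42.coeffMap_mem_full A π N hπ hdeg _ hY) hB]
  exact coeffMap_jqModC π

/-- The local statement at the places of the reduction all of whose lifts are finite. -/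
theorem ord_cast_of_good (r : ℕ) [Fact r.Prime] [CharP k r] (hN : (N : k) ≠ 0) (hπ : Function.Surjective π) [IsLocalHom π]
    (hdeg : H42.DegLE Qb k N)
    [FunField Qb (laurentBaseChange Qb (modularFunctionFieldFull N))]
    [FunField k (modularFunctionFieldFullC k N)]
    [HasPrincipalDivisors Qb (laurentBaseChange Qb (modularFunctionFieldFull N))]
    {rr : Place Qb (laurentBaseChange Qb (modularFunctionFieldFull N)) →
      Place k (modularFunctionFieldFullC k N)} {c : ℕ}
    (hr1 : ∀ D : Divisor Qb (laurentBaseChange Qb (modularFunctionFieldFull N)),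
      (c : ℤ) < Divisor.degree D →
      (H42.modReductionData A π N hπ hdeg).IsRed D (Finsupp.mapDomain rr D))
    (hr2 : H34.GR.DivCompat (H42.modReductionData A π N hπ hdeg) rr)
    {Pinf : Place Qb (laurentBaseChange Qb (modularFunctionFieldFull N))}
    {Q : Place k (modularFunctionFieldFullC k N)} (hQ : Q ≠ rr Pinf)
    (hQj : ∀ P, rr P = Q → ∀ j : laurentBaseChange Qb (modularFunctionFieldFull N),
      (j : LaurentSeries Qb) = jqModC Qb → 0 ≤ P.ord j)
    {f : PowerSeries k} (hf : f ∈ H15.S2 N k) {h : modularFunctionFieldFullC k N} (hh : h ≠ 0)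
    (hfh : H1.thetaL k (h : LaurentSeries k) = HahnSeries.ofPowerSeries ℤ k f * h) :
    ((Q.ord h : ℤ) : k) = 0 := by
  have hdF : ∀ v : Place Qb (laurentBaseChange Qb (modularFunctionFieldFull N)), v.deg = 1 :=
    fun v => H94.deg_eq_one v
  have hdE : ∀ v : Place k (modularFunctionFieldFullC k N), v.deg = 1 :=
    fun v => H94.deg_eq_one v
  have hE := H42.riemannFor k (modularFunctionFieldFullC k N)
    (c := 2 * (genusFF k (modularFunctionFieldFullC k N) : ℤ)) (by omega)
  obtain ⟨t, htQ, htreg⟩ := exists_coord_lift hE hr1 hdF hdE hQ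
  obtain ⟨j, hjq, hjk⟩ := exists_jB hπ hdeg
  have hj : Transcendental Qb (j : laurentBaseChange Qb (modularFunctionFieldFull N)) := by
    intro h1
    have h2 := h1.algHom (laurentBaseChange Qb (modularFunctionFieldFull N)).val
    exact H42.transcendental_jqModC Qb (hjq ▸ h2)
  obtain ⟨hfin, hsep, htr⟩ := H18.cm_aux (modularFunctionFieldFullC k N) (jqModC_mem_full k N) N hN
    rfl inferInstance
  have hjk' : (H42.modReductionData A π N hπ hdeg).ρ j = ⟨jqModC k, jqModC_mem_full k N⟩ :=
    Subtype.ext hjk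
  have hjQ : (⟨jqModC k, jqModC_mem_full k N⟩ : modularFunctionFieldFullC k N) ∈
      Q.toValuationSubring := by
    apply mem_of_ord_nonneg
    rw [← hjk']
    refine H34.GR.ord_red_nonneg hr2 ?_ (fun P hP => hQj P hP _ hjq)
    rw [hjk']
    intro h0
    rw [h0] at htr
    exact htr isAlgebraic_zero
  obtain ⟨b, hb⟩ := exists_der_bound htr (derJ k r N hN) Q htQ hjQ
  have hDj : derJ k r N hN ⟨jqModC k, jqModC_mem_full k N⟩ = 1 :=
    Subtype.ext (H1.ddX_self thetaL_jqModC_ne_zero)
  have hDt := der_unif_ne_zero (derJ k r N hN) Q htQ hb hjQ (by rw [hDj]; exact one_ne_zero)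
  obtain ⟨g, hg1, hg2⟩ := exists_fun_regular hN hπ hdeg hr2 hj hjq
    (fun P hP => hQj P hP _ hjq) htQ htreg hDt hf
  refine ord_cast_eq_zero (derJ k r N hN) Q htQ hb hDt hh hg2 (Subtype.ext ?_)
  rw [coe_derJ, H1.ddX_apply, hfh, hg1]
  have h1 : H1.thetaL k (jqModC k) ≠ 0 := thetaL_jqModC_ne_zero
  show (g : LaurentSeries k) * H1.thetaL k (jqModC k) * (h : LaurentSeries k) /
    H1.thetaL k (jqModC k) = (g : LaurentSeries k) * (h : LaurentSeries k)
  field_simp

omit [IsAlgClosed k] [NeZero N] in
theorem coeff_zero_of_S2 {f : PowerSeries k} (hf : f ∈ H15.S2 N k) :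
    PowerSeries.coeff 0 f = 0 := by
  rw [H15.S2] at hf
  induction hf using Submodule.span_induction with
  | mem f hf =>
    obtain ⟨F, G, hG, rfl⟩ := hf
    have h1 := hG 0
    rw [H49.qCoeff_zero_eq_zero] at h1
    have h2 : PowerSeries.coeff 0 G = 0 := by exact_mod_cast h1.symm
    rw [PowerSeries.coeff_map, h2, map_zero]
  | zero => rw [map_zero]
  | add f g _ _ hf hg => rw [map_add, hf, hg, add_zero]
  | smul c f _ hf => rw [map_smul, hf, smul_zero]

omit [IsAlgClosed k] in
/-- the order at the cusp `∞` -/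
theorem order_cast_eq_zero {f : PowerSeries k} (hf : PowerSeries.coeff 0 f = 0)
    {h : LaurentSeries k} (hh : h ≠ 0)
    (hfh : H1.thetaL k h = HahnSeries.ofPowerSeries ℤ k f * h) : ((h.order : ℤ) : k) = 0 := by
  have h1 := congrArg (fun x => HahnSeries.coeff x h.order) hfh
  simp only [H1.thetaL_coeff] at h1
  have h2 : (HahnSeries.ofPowerSeries ℤ k f * h).coeff h.order = 0 := by
    by_cases hf0 : HahnSeries.ofPowerSeries ℤ k f = 0
    · rw [hf0, zero_mul]; rfl
    apply HahnSeries.coeff_eq_zero_of_lt_order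
    rw [HahnSeries.order_mul hf0 hh]
    have h3 : 1 ≤ (HahnSeries.ofPowerSeries ℤ k f).order := by
      rw [HahnSeries.le_order_iff_forall hf0]
      intro n hn
      by_cases hn0 : n < 0
      · exact ofPowerSeries_coeff_of_neg _ hn0
      · have : n = 0 := by omega
        rw [this]
        exact (HahnSeries.ofPowerSeries_apply_coeff f 0).trans hf
    omega
  rw [h2] at h1
  rcases mul_eq_zero.mp h1 with h3 | h3
  · exact h3
  · exact absurd h3 (HahnSeries.coeff_order_eq_zero.not.mpr hh)

end Main

section Final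

variable {r : ℕ} [hr : Fact r.Prime] {A : ValuationSubring Qb}
  {k : Type} [Field k] [CharP k r] [IsAlgClosed k] {π : A →+* k} {N : ℕ} [NeZero N]

/-- **MZ-F1c**, general form -/
theorem dvd_ord_of_S2_aux (hNp : N.Prime) (hN : (N : k) ≠ 0) (hπ : Function.Surjective π)
    [IsLocalHom π] (arch : H97.Arch A) (hdeg : H42.DegLE Qb k N)
    (hgen : genusFF Qb (laurentBaseChange Qb (modularFunctionFieldFull N)) =
      genusFF k (modularFunctionFieldFullC k N))
    {f : PowerSeries k} (hf : f ∈ H15.S2 N k) {h : modularFunctionFieldFullC k N} (hh : h ≠ 0)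
    (hfh : H1.thetaL k (h : LaurentSeries k) = HahnSeries.ofPowerSeries ℤ k f * h)
    (Q : Place k (modularFunctionFieldFullC k N)) : (r : ℤ) ∣ Q.ord h := by
  classical
  have : Fact N.Prime := ⟨hNp⟩
  have : FunField Qb (laurentBaseChange Qb (modularFunctionFieldFull N)) :=
    H42.funField_left (k := k) N hdeg
  have : FunField k (modularFunctionFieldFullC k N) := H42.funField_right (L := Qb) N hdeg
  have : HasPrincipalDivisors Qb (laurentBaseChange Qb (modularFunctionFieldFull N)) :=
    H18.hasPrincipalDivisors _ _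
  have : HasPrincipalDivisors k (modularFunctionFieldFullC k N) := H18.hasPrincipalDivisors _ _
  obtain ⟨rr, c, hr1, hr2, hinf⟩ := H97.exists_red hπ arch hdeg hgen
  obtain ⟨i, z, S⟩ := H9.exists_cuspSpec Qb N (by exact_mod_cast hNp.ne_zero)
    (laurentBaseChange Qb (modularFunctionFieldFull N)) (H42.laurentBaseChange_full _ _)
  obtain ⟨i', z', S'⟩ := H9.exists_cuspSpec k N hN (modularFunctionFieldFullC k N) rfl
  have hi : rr i = i' := hinf i i' S.inf_ord S'.inf_ord
  have hcast : ∀ n : ℤ, ((n : ℤ) : k) = 0 → (r : ℤ) ∣ n := fun n hn =>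
    (CharP.intCast_eq_zero_iff k r n).mp hn
  -- all places but `rr z`
  have hall : ∀ Q : Place k (modularFunctionFieldFullC k N), Q ≠ rr z → (r : ℤ) ∣ Q.ord h := by
    intro Q hQz
    by_cases hQi : Q = i'
    · rw [hQi, S'.inf_ord]
      apply hcast
      exact order_cast_eq_zero (coeff_zero_of_S2 hf) (fun h0 => hh (Subtype.ext h0)) hfh
    · apply hcast
      refine ord_cast_of_good r hN hπ hdeg hr1 hr2 (Pinf := i) (by rw [hi]; exact hQi) ?_ hf hh hfh
      intro P hP j hj
      by_contra hlt
      rcases S.cusp P j (by rw [hj, H66.J_one]) (not_le.mp hlt) with h1 | h1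
      · rw [h1, hi] at hP; exact hQi hP.symm
      · rw [h1] at hP; exact hQz hP.symm
  by_cases hQz : Q = rr z
  · obtain ⟨D, hD, hD0⟩ := exists_div (K := k) hh
    rw [← hD]
    by_cases hQs : Q ∈ D.support
    · have h1 : Divisor.degree D = ∑ v ∈ D.support, D v := by
        have h2 : Divisor.degree D = D.sum fun v n => n * (v.deg : ℤ) := rfl
        rw [h2, Finsupp.sum]
        refine Finset.sum_congr rfl fun v _ => ?_
        rw [H94.deg_eq_one, Nat.cast_one, mul_one]
      rw [hD0, ← Finset.add_sum_erase _ _ hQs] at h1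
      have h3 : (r : ℤ) ∣ ∑ v ∈ D.support.erase Q, D v :=
        Finset.dvd_sum fun v hv => by
          rw [hD]
          exact hall v (by rw [← hQz]; exact Finset.ne_of_mem_erase hv)
      have h4 : D Q = - ∑ v ∈ D.support.erase Q, D v := by omega
      rw [h4]
      exact (dvd_neg).mpr h3
    · rw [Finsupp.notMem_support_iff.mp hQs]
      exact dvd_zero _
  · exact hall Q hQz

set_option synthInstance.maxHeartbeats 400000 in
/-- **MZ-F1c**: if `θ h = f h` with `f` a cusp form mod `r` then the divisor of `h` is divisible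
by `r`. -/
theorem dvd_ord_of_S2 (hA : A.LiesOverPrime r) [CharP (IsLocalRing.ResidueField A) r]
    (hN : N.Prime) (hrN : N ≠ r) {f : PowerSeries (IsLocalRing.ResidueField A)}
    (hf : f ∈ H15.S2 N (IsLocalRing.ResidueField A))
    {h : modularFunctionFieldFullC (IsLocalRing.ResidueField A) N} (hh : h ≠ 0)
    (hfh : H1.thetaL (IsLocalRing.ResidueField A)
      (h : LaurentSeries (IsLocalRing.ResidueField A)) =
        HahnSeries.ofPowerSeries ℤ (IsLocalRing.ResidueField A) f * h)
    (Q : Place (IsLocalRing.ResidueField A)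
      (modularFunctionFieldFullC (IsLocalRing.ResidueField A) N)) : (r : ℤ) ∣ Q.ord h := by
  have hac : IsAlgClosed (IsLocalRing.ResidueField A) := H18.isAlgClosed_residueField A
  have hrN' : ¬ r ∣ N := fun h => hrN ((Nat.prime_dvd_prime_iff_eq hr.out hN).mp h).symm
  exact dvd_ord_of_S2_aux (r := r) (π := IsLocalRing.residue A) hN
    (fun h => hrN' ((CharP.cast_eq_zero_iff _ r N).mp h)) IsLocalRing.residue_surjective
    (H34.Two.arch_Qbar hr.out hA) (H42.degLE_place hr.out hA hrN')
    (H88.genusFFEq N hrN' A hA) hf hh hfh Q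

end Final

end Fermat.Agent.H98
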