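import Fermat.Agent.H8Ord3
import Fermat.Agent.H18C2Final
import Fermat.Agent.H98Div4

/-!
# Zeros of `j` in characteristic three (helper98, S39/S40 piece (a))

* `ord_jC_sub_dvd` : on the reduction of `X₀(M)` at a place over a prime `ℓ ∤ M`, the order of `j`
  at a non cuspidal place `Q` is congruent modulo `3` to the number of elliptic points of order `3`
  which reduce to `Q`;
* `ord_jC_eq_six` : if `4 ∣ M` then in characteristic `3` all the zeros of `j` have order `6`;
* `exists_ell3_of_three_dvd` : a supersingular place `Q` of level `M` which has a place `Q'` above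
  of a level divisible by `4` with ramification index divisible by `3` is the reduction of an
  elliptic point of order `3`.
-/

set_option autoImplicit false
set_option linter.unusedSectionVars false

noncomputable section

open AlgebraicCurve WithZero IntermediateField ModularCurve Fermat.Agent.H3RR Fermat.Agent.H8

namespace Fermat.Agent.H98C

local notation "Qb" => AlgebraicClosure ℚ

section Ell

/-- the divisor of the elliptic points of order `3`: the simple zeros of `j` -/
def ell3 (M : ℕ) [NeZero M] : Divisor Qb (modularFunctionFieldBar M) :=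
  letI : H94.FunField Qb (modularFunctionFieldBar M) := H94.funField_bar M
  Finsupp.mapRange (fun n : ℤ => if n = 1 then 1 else 0) (by norm_num)
    (divOf (H94.jBar M) : Divisor Qb (modularFunctionFieldBar M))

theorem ell3_apply (M : ℕ) [NeZero M] (P : Place Qb (modularFunctionFieldBar M)) :
    ell3 M P = if P.ord (H94.jBar M) = 1 then 1 else 0 := by
  have : H94.FunField Qb (modularFunctionFieldBar M) := H94.funField_bar M
  have hj0 : H94.jBar M ≠ 0 := transcendental_ne_zero (H94.x0PlaceData_bar M).transcendental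
  rw [ell3, Finsupp.mapRange_apply, divOf_apply hj0]

end Ell

section Red

variable {A : ValuationSubring Qb} {M : ℕ} [NeZero M] {k : Type*} [Field k] [IsAlgClosed k]

/-- The order of `j` modulo `3` in characteristic `ℓ`. -/
theorem ord_jC_sub_dvd (hM : (M : k) ≠ 0) {π : A →+* k}
    {r : Place Qb (laurentBaseChange Qb (modularFunctionFieldFull M)) →
      Place k (modularFunctionFieldFullC k M)} (hr : IsPlaceReductionAlong A π M r)
    (Q : Place k (modularFunctionFieldFullC k M)) (hQ : 0 ≤ Q.ord (jC k M)) :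
    (3 : ℤ) ∣ Q.ord (jC k M) - Finsupp.mapDomain r (ell3 M) Q := by
  classical
  have hff : H94.FunField Qb (modularFunctionFieldBar M) := H94.funField_bar M
  have hffk : H94.FunField k (modularFunctionFieldFullC k M) := funField_fullC hM
  have D := H94.x0PlaceData_bar M
  have hell : ∀ P, ell3 M P = if P.ord (H94.jBar M) = 1 then 1 else 0 := ell3_apply M
  obtain ⟨jL, hjL⟩ : ∃ jL, jL = H94.jBar M := ⟨_, rfl⟩
  rw [← hjL] at D hell
  have hj0 : jL ≠ 0 := transcendental_ne_zero D.transcendental
  have hy1 : coeffMap A.subtype (jqModC A) = jqModC Qb := map_jqModC A.subtype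
  have hy2 : coeffMap π (jqModC A) = jqModC k := map_jqModC π
  have hjQ0 : jC k M ≠ 0 := transcendental_ne_zero transcendental_jC
  -- the divisor of `j`
  have hred : ∀ Q, Finsupp.mapDomain r (divOf jL : Divisor Qb (modularFunctionFieldBar M)) Q =
      Q.ord (jC k M) := by
    intro Q
    have h1 : coeffMap A.subtype (jqModC A) ∈
        laurentBaseChange Qb (modularFunctionFieldFull M) := by
      rw [hy1]; exact H94.jqModC_mem_bar M
    have h2 : coeffMap π (jqModC A) ∈ modularFunctionFieldFullC k M := by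
      rw [hy2]; exact jqModC_mem_full k M
    have h3 := hr.2 (jqModC A) h1 h2 (by
      rw [hy2]
      intro h
      exact hjQ0 (Subtype.ext h)) (divOf jL) (fun P => by
        rw [divOf_apply hj0, hjL]
        congr 1
        exact Subtype.ext hy1.symm) Q
    rw [h3]
    congr 1
    exact Subtype.ext hy2
  -- zeros and poles
  set Z : Divisor Qb (modularFunctionFieldBar M) := (divOf jL)⁺ with hZ
  set E : Divisor Qb (modularFunctionFieldBar M) := poleDiv jL with hE
  have hZE : (divOf jL : Divisor Qb (modularFunctionFieldBar M)) = Z - E :=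
    (posPart_sub_negPart _).symm
  have hZP : ∀ P, Z P = max (P.ord jL) 0 := fun P => by
    rw [hZ, posPart_def, Finsupp.sup_apply, divOf_apply hj0]
    rfl
  have hZ3 : ∃ Z' : Divisor Qb (modularFunctionFieldBar M), Z = ell3 M + (3 : ℤ) • Z' := by
    refine ⟨Finsupp.mapRange (fun n : ℤ => n / 3) (by norm_num) Z, ?_⟩
    ext P
    rw [Finsupp.add_apply, Finsupp.smul_apply, Finsupp.mapRange_apply, hell, hZP]
    rcases lt_or_ge 0 (P.ord jL) with h2 | h2
    · have h3 := D.ord_dvd_three P h2
      have h4 := D.ord_le_three P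
      have h5 : P.ord jL = 1 ∨ P.ord jL = 2 ∨ P.ord jL = 3 := by omega
      rcases h5 with h5 | h5 | h5
      · rw [h5]; norm_num
      · rw [h5] at h3; norm_num at h3
      · rw [h5]; norm_num
    · rw [max_eq_right h2, if_neg (by omega)]
      norm_num
  have hEn : ∀ P, 0 ≤ E P := fun P => by
    rw [hE, poleDiv_apply hj0]
    exact le_max_right _ _
  have hZn : ∀ P, 0 ≤ Z P := fun P => by
    rw [hZP]
    exact le_max_right _ _
  have hredQ : ∀ Q, Finsupp.mapDomain r Z Q - Finsupp.mapDomain r E Q = Q.ord (jC k M) := by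
    intro Q
    rw [← hred Q, hZE]
    exact (H18.mapDomain_sub_apply Z E Q).symm
  have hE0 : ∀ Q, 0 ≤ Finsupp.mapDomain r E Q := fun Q =>
    H18.mapDomain_apply_nonneg E Q fun P _ => hEn P
  have hZ0 : ∀ Q, 0 ≤ Finsupp.mapDomain r Z Q := fun Q =>
    H18.mapDomain_apply_nonneg Z Q fun P _ => hZn P
  have hle : (poleDiv (jC k M) : Divisor k (modularFunctionFieldFullC k M)) ≤
      Finsupp.mapDomain r E := by
    rw [Finsupp.le_def]
    intro Q
    rw [poleDiv_apply hjQ0]
    have h1 := hredQ Q
    have h2 := hE0 Q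
    have h4 := hZ0 Q
    exact max_le (by omega) h2
  have hdeg : Divisor.degree (poleDiv (jC k M) : Divisor k (modularFunctionFieldFullC k M)) =
      Divisor.degree (Finsupp.mapDomain r E) := by
    rw [degree_poleDiv transcendental_jC, finrank_jC hM, degree_mapDomain_of_deg_eq hr.1, hE,
      degree_poleDiv D.transcendental, D.finrank_eq]
  have heq : (poleDiv (jC k M) : Divisor k (modularFunctionFieldFullC k M)) =
      Finsupp.mapDomain r E :=
    H40.eq_of_le_of_degree_le H94.deg_eq_one hle hdeg.ge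
  have h4 : Finsupp.mapDomain r E Q = 0 := by
    rw [← heq, poleDiv_apply hjQ0]
    exact max_eq_right (by omega)
  obtain ⟨Z', hZ'⟩ := hZ3
  have h5 := hredQ Q
  rw [h4, sub_zero, hZ', Finsupp.mapDomain_add, Finsupp.add_apply, Finsupp.mapDomain_smul,
    Finsupp.smul_apply] at h5
  exact ⟨Finsupp.mapDomain r Z' Q, by rw [← h5, smul_eq_mul]; ring⟩

/-- A non cuspidal place at which `3 ∤ ord j` is the reduction of an elliptic point of order
`3`. -/
theorem exists_ell3_of_not_dvd (hM : (M : k) ≠ 0) {π : A →+* k}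
    {r : Place Qb (laurentBaseChange Qb (modularFunctionFieldFull M)) →
      Place k (modularFunctionFieldFullC k M)} (hr : IsPlaceReductionAlong A π M r)
    (Q : Place k (modularFunctionFieldFullC k M)) (hQ : 0 ≤ Q.ord (jC k M))
    (h3 : ¬ (3 : ℤ) ∣ Q.ord (jC k M)) :
    ∃ P : Place Qb (modularFunctionFieldBar M), r P = Q ∧ P.ord (H94.jBar M) = 1 := by
  classical
  by_contra hcon
  push Not at hcon
  apply h3
  have h1 := ord_jC_sub_dvd hM hr Q hQ
  have h2 : Finsupp.mapDomain r (ell3 M) Q = 0 := by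
    rw [← Finsupp.notMem_support_iff]
    intro h
    have h4 := Finsupp.mapDomain_support h
    rw [Finset.mem_image] at h4
    obtain ⟨P, hP, hPQ⟩ := h4
    rw [Finsupp.mem_support_iff, ell3_apply, if_neg (hcon P hPQ)] at hP
    exact hP rfl
  rwa [h2, sub_zero] at h1

end Red

section Generic

variable {K F : Type*} [Field K] [Field F] [Algebra K F]

/-- elements of the valuation ring of a place are fractions of integral elements -/
theorem exists_frac {x : F} [FiniteDimensional K⟮x⟯ F] [Algebra.IsSeparable K⟮x⟯ F]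
    (hx : Transcendental K x) (v : Place K F) (hxv : x ∈ v.toValuationSubring) {f : F}
    (hf : f ∈ v.toValuationSubring) :
    ∃ n d : F, IsIntegral (Algebra.adjoin K {x}) n ∧ IsIntegral (Algebra.adjoin K {x}) d ∧
      d ≠ 0 ∧ d⁻¹ ∈ v.toValuationSubring ∧ f * d = n := by
  have hded := H18.isDedekindDomain_intRing_sep (F := F) hx
  have hfrac := H94.isFractionRing_intRing (K := K) (F := F) (x := x)
  have hB : ∀ b : H94.IntRing K x, algebraMap (H94.IntRing K x) F b ∈ v.toValuationSubring :=
    fun b => H94.mem_of_intRing hxv b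
  obtain ⟨n, d, hnd⟩ := (H94.primeBelow v hB).exists_primeCompl_mul_eq_of_integer f (by
    have h2 := H94.ofHeightOneSpectrum_primeBelow v hB
    have h3 : f ∈ (Place.ofHeightOneSpectrum (K := K) (H94.primeBelow v hB)).toValuationSubring := by
      rw [h2]; exact hf
    exact h3)
  have hd : (d : H94.IntRing K x) ∉ (H94.primeBelow v hB).asIdeal := d.2
  rw [H94.mem_primeBelow_iff, not_or] at hd
  have hd0 : algebraMap (H94.IntRing K x) F d ≠ 0 := by
    rw [ne_eq, map_eq_zero_iff _ (IsFractionRing.injective (H94.IntRing K x) F)]; exact hd.1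
  have hordd : v.ord (algebraMap (H94.IntRing K x) F d) = 0 :=
    le_antisymm (not_lt.mp hd.2) (H94.ord_nonneg_of_mem v (hB _))
  exact ⟨algebraMap (H94.IntRing K x) F n, algebraMap (H94.IntRing K x) F d, n.2,
    (d : H94.IntRing K x).2, hd0,
    H94.mem_of_ord_nonneg v (by rw [v.ord_inv, hordd, neg_zero]), by rw [← hnd]⟩

/-- elements integral over `K[x]` are regular where `x` is -/
theorem mem_of_isIntegral {x : F} (v : Place K F) (hxv : x ∈ v.toValuationSubring) {f : F}
    (hf : IsIntegral (Algebra.adjoin K {x}) f) : f ∈ v.toValuationSubring :=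
  H94.mem_of_intRing hxv (⟨f, hf⟩ : H94.IntRing K x)

end Generic

section Six

variable {A : ValuationSubring Qb} {M : ℕ} [NeZero M] {k : Type*} [Field k] [IsAlgClosed k]
  {π : A →+* k} [IsLocalHom π]

/-- `d/dX` preserves the valuation rings of the finite places. -/
theorem dX_mem_place (ι : Qb →+* ℂ) (hπ : Function.Surjective π) (hM : (M : k) ≠ 0)
    (hg : H18.GenusFFEq Qb k M) {c : ℕ} (hc : c = 4 ∨ c = 9) (hcM : c ∣ M)
    {Q : Place k (modularFunctionFieldFullC k M)} (hQ : 0 ≤ Q.ord (jC k M))
    {f : modularFunctionFieldFullC k M} (hf : f ∈ Q.toValuationSubring) :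
    ∃ h : modularFunctionFieldFullC k M, (h : LaurentSeries k) = H1.dX c k (f : LaurentSeries k) ∧
      h ∈ Q.toValuationSubring := by
  have : H94.FunField k (modularFunctionFieldFullC k M) := funField_fullC hM
  obtain ⟨hfin, hsep, htr⟩ := H18.cm_aux (modularFunctionFieldFullC k M) (jqModC_mem_full k M) M hM
    rfl inferInstance
  have hfin' : FiniteDimensional k⟮jC k M⟯ (modularFunctionFieldFullC k M) := hfin
  have hsep' : Algebra.IsSeparable k⟮jC k M⟯ (modularFunctionFieldFullC k M) := hsep
  have hxQ : jC k M ∈ Q.toValuationSubring := H94.mem_of_ord_nonneg Q hQ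
  have hdX : ∀ b : modularFunctionFieldFullC k M,
      IsIntegral (Algebra.adjoin k {jC k M}) b → ∃ h : modularFunctionFieldFullC k M,
      (h : LaurentSeries k) = H1.dX c k (b : LaurentSeries k) ∧ h ∈ Q.toValuationSubring := by
    intro b hb
    have h1 : (b : LaurentSeries k) ∈ H18.Cm k M := H18.mem_Cm_iff.mpr hb
    have h2 := H18.dX_mem_Cm ι A π M hπ hM hg hc hcM h1
    exact ⟨⟨_, h2.1⟩, rfl, mem_of_isIntegral Q hxQ (H18.mem_Cm_iff.mp h2)⟩
  obtain ⟨n, d, hn, hd, hd0, hinv, hfd⟩ := exists_frac (x := jC k M) htr Q hxQ hf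
  obtain ⟨hn, hn1, hn2⟩ := hdX n hn
  obtain ⟨hd', hd1, hd2⟩ := hdX d hd
  refine ⟨(hn - f * hd') * d⁻¹, ?_, mul_mem (sub_mem hn2 (mul_mem hf hd2)) hinv⟩
  have h4 : H1.dX c k (n : LaurentSeries k) =
      H1.dX c k (f : LaurentSeries k) * (d : LaurentSeries k) +
        (f : LaurentSeries k) * H1.dX c k (d : LaurentSeries k) := by
    rw [← H1.dX_mul, ← hfd]
    rfl
  have hdL : (d : LaurentSeries k) ≠ 0 := fun h => hd0 (Subtype.ext h)
  show ((hn : LaurentSeries k) - (f : LaurentSeries k) * (hd' : LaurentSeries k)) *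
    (d : LaurentSeries k)⁻¹ = _
  rw [hn1, hd1, h4]
  field_simp
  ring

/-- The Hauptmodul `X` is a local coordinate at every finite place. -/
theorem ord_sub_X_le_one (ι : Qb →+* ℂ) (hπ : Function.Surjective π) (hM : (M : k) ≠ 0)
    (hg : H18.GenusFFEq Qb k M) {c : ℕ} (hc : c = 4 ∨ c = 9) (hcM : c ∣ M)
    {Q : Place k (modularFunctionFieldFullC k M)} (hQ : 0 ≤ Q.ord (jC k M))
    {X : modularFunctionFieldFullC k M} (hX : (X : LaurentSeries k) = H1.Xc c k) (a : k) :
    Q.ord (X - algebraMap k _ a) ≤ 1 := by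
  by_contra hlt
  push Not at hlt
  have : H94.FunField k (modularFunctionFieldFullC k M) := funField_fullC hM
  obtain ⟨t, ht⟩ := H94.exists_ord_eq_one Q
  have ht0 : t ≠ 0 := by rintro rfl; simp at ht
  set y := X - algebraMap k (modularFunctionFieldFullC k M) a with hy
  have hy0 : y ≠ 0 := by rintro h; rw [h] at hlt; simp at hlt
  -- `y = t * g`, `g` regular and vanishing
  have hg1 : Q.ord (y * t⁻¹) = Q.ord y - 1 := by
    rw [Q.ord_mul hy0 (inv_ne_zero ht0), Q.ord_inv, ht]
    ring
  have hgm : y * t⁻¹ ∈ Q.toValuationSubring := H94.mem_of_ord_nonneg Q (by omega)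
  have htm : t ∈ Q.toValuationSubring := H94.mem_of_ord_nonneg Q (by omega)
  obtain ⟨dt, hdt1, hdt2⟩ := dX_mem_place ι hπ hM hg hc hcM hQ htm
  obtain ⟨dg, hdg1, hdg2⟩ := dX_mem_place ι hπ hM hg hc hcM hQ hgm
  have h1 : (1 : modularFunctionFieldFullC k M) = dt * (y * t⁻¹) + t * dg := by
    apply Subtype.ext
    have h2 : (y : LaurentSeries k) = t * ((y * t⁻¹ : modularFunctionFieldFullC k M) :
        LaurentSeries k) := by
      have : y = t * (y * t⁻¹) := by field_simp
      exact congrArg Subtype.val this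
    have h3 : H1.dX c k (y : LaurentSeries k) = 1 := by
      have : (y : LaurentSeries k) = H1.Xc c k - algebraMap k (LaurentSeries k) a := by
        rw [← hX]; rfl
      rw [this, map_sub, H1.dX_Xc, H1.dX_algebraMap, sub_zero]
    rw [h2, H1.dX_mul] at h3
    show (1 : LaurentSeries k) = (dt : LaurentSeries k) *
      ((y * t⁻¹ : modularFunctionFieldFullC k M) : LaurentSeries k) + (t : LaurentSeries k) * dg
    rw [hdt1, hdg1, h3]
  have h4 := H94.ord_add_ge Q (f := dt * (y * t⁻¹)) (g := t * dg) (n := 1)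
    (by
      rcases eq_or_ne dt 0 with h | h
      · left; rw [h, zero_mul]
      · right
        rw [Q.ord_mul h (mul_ne_zero hy0 (inv_ne_zero ht0)), hg1]
        have := H94.ord_nonneg_of_mem Q hdt2
        omega)
    (by
      rcases eq_or_ne dg 0 with h | h
      · left; rw [h, mul_zero]
      · right
        rw [Q.ord_mul ht0 h, ht]
        have := H94.ord_nonneg_of_mem Q hdg2
        omega)
  rw [← h1, Q.ord_one] at h4
  rcases h4 with h4 | h4
  · exact one_ne_zero h4
  · omega

/-- **In characteristic `3` all the zeros of `j` on `X₀(M)`, `4 ∣ M`, have order `6`.** -/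
theorem ord_jC_eq_six (ι : Qb →+* ℂ) (hπ : Function.Surjective π) (hM : (M : k) ≠ 0)
    (hg : H18.GenusFFEq Qb k M) [CharP k 3] (h4 : 4 ∣ M)
    {Q : Place k (modularFunctionFieldFullC k M)} (hQ : 0 < Q.ord (jC k M)) :
    Q.ord (jC k M) = 6 := by
  have hff : H94.FunField k (modularFunctionFieldFullC k M) := funField_fullC hM
  have hXm := H18.Xc_mem_Cm A π M hπ hM (Or.inl rfl) h4
  obtain ⟨X, hX⟩ : ∃ X : modularFunctionFieldFullC k M, (X : LaurentSeries k) = H1.Xc 4 k :=
    ⟨⟨_, hXm.1⟩, rfl⟩
  have hj0 : jC k M ≠ 0 := transcendental_ne_zero transcendental_jC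
  have h3 : (3 : modularFunctionFieldFullC k M) = 0 := by
    have h := CharP.cast_eq_zero k 3
    have h' := congrArg (algebraMap k (modularFunctionFieldFullC k M)) h
    rw [map_natCast, map_zero] at h'
    exact_mod_cast h'
  -- the equation
  have heq : (X - 1) ^ 6 = jC k M * (X ^ 4 * (X + 1)) := by
    have h1 : (X ^ 2 + 256 * X + 4096) ^ 3 = jC k M * (X ^ 4 * (X + 16)) := by
      apply Subtype.ext
      have h2 := H1.X4_j k
      rw [← H1.Xc_four, ← hX] at h2
      exact h2
    have e1 : X ^ 2 + 256 * X + 4096 = (X - 1) ^ 2 := by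
      linear_combination (86 * X + 1365) * h3
    have e2 : X + 16 = X + 1 := by linear_combination 5 * h3
    rw [e1, e2] at h1
    rw [← h1]; ring
  have hXQ : X ∈ Q.toValuationSubring := by
    apply mem_of_isIntegral Q (H94.mem_of_ord_nonneg Q hQ.le)
    apply H18.mem_Cm_iff.mp
    rw [hX]
    exact hXm
  have hle := ord_sub_X_le_one ι hπ hM hg (Or.inl rfl) h4 hQ.le hX 1
  rw [map_one] at hle
  set y := X - 1 with hy
  have hXy : X = y + 1 := by rw [hy]; ring
  have hyQ : y ∈ Q.toValuationSubring := sub_mem hXQ (one_mem _)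
  have hX0 : X ≠ 0 := by
    rintro h
    rw [h] at heq
    have h5 : y = -1 := by rw [hy, h]; ring
    rw [h5] at heq
    norm_num at heq
  have hX1 : X + 1 ≠ 0 := by
    intro h
    rw [h, mul_zero, mul_zero] at heq
    have h5 : y = 0 := pow_eq_zero_iff (by norm_num) |>.mp heq
    have h6 : (1 : modularFunctionFieldFullC k M) = 0 := by
      linear_combination h3 - h + h5 + hy
    exact one_ne_zero h6
  have hy0 : y ≠ 0 := by
    intro h
    rw [h, zero_pow (by norm_num)] at heq
    exact mul_ne_zero hj0 (mul_ne_zero (pow_ne_zero 4 hX0) hX1) heq.symm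
  have hord := congrArg Q.ord heq
  rw [Q.ord_mul hj0 (mul_ne_zero (pow_ne_zero 4 hX0) hX1), Q.ord_mul (pow_ne_zero 4 hX0) hX1,
    ← zpow_natCast, Q.ord_zpow, ← zpow_natCast, Q.ord_zpow] at hord
  have hXn := H94.ord_nonneg_of_mem Q hXQ
  have hX1n := H94.ord_nonneg_of_mem Q (add_mem hXQ (one_mem _))
  have hyp : 0 < Q.ord y := by
    push_cast at hord
    omega
  -- `X` and `X + 1` are units
  have hunit : ∀ z : modularFunctionFieldFullC k M, z ≠ 0 → ∀ a : modularFunctionFieldFullC k M,
      Q.ord a = 0 → a ≠ 0 → z = y + a → Q.ord z = 0 := by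
    intro z hz a ha ha0 hza
    have h5 : 0 ≤ Q.ord z := by
      apply H94.ord_nonneg_of_mem
      rw [hza]
      exact add_mem hyQ (H94.mem_of_ord_nonneg Q ha.ge)
    by_contra hne
    have h6 := H94.ord_add_ge Q (f := z) (g := -y) (n := 1) (Or.inr (by omega))
      (Or.inr (by rw [H34.GR.ord_neg']; omega))
    have h7 : z + -y = a := by rw [hza]; ring
    rw [h7] at h6
    rcases h6 with h6 | h6
    · exact ha0 h6
    · omega
  have h5 : Q.ord X = 0 := hunit X hX0 1 Q.ord_one one_ne_zero hXy
  have h6 : Q.ord (X + 1) = 0 := by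
    refine hunit (X + 1) hX1 (-1) (by rw [H34.GR.ord_neg', Q.ord_one]) (neg_ne_zero.mpr one_ne_zero) ?_
    linear_combination hXy + h3
  rw [h5, h6] at hord
  push_cast at hord
  omega

end Six

section Final

variable {A : ValuationSubring Qb}

local notation "kA" => IsLocalRing.ResidueField A

/-- all the zeros of `j` on `X₀(M)` modulo `3`, `4 ∣ M`, have order `6` -/
theorem ord_jC_eq_six_residueField (hA : A.LiesOverPrime 3) {M : ℕ} [NeZero M] (h3M : ¬ 3 ∣ M)
    (h4 : 4 ∣ M) {Q : Place kA (modularFunctionFieldFullC kA M)} (hQ : 0 < Q.ord (jC kA M)) :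
    Q.ord (jC kA M) = 6 := by
  have : Fact (Nat.Prime 3) := ⟨Nat.prime_three⟩
  have : CharP kA 3 := H60.charP_residue Nat.prime_three hA
  have : IsAlgClosed kA := H18.isAlgClosed_residueField A
  exact ord_jC_eq_six (π := IsLocalRing.residue A) H24.embBar IsLocalRing.residue_surjective
    (H18.natCast_residueField_ne_zero A Nat.prime_three hA h3M) (H88.genusFFEq M h3M A hA) h4 hQ

/-- **(a3)** A supersingular place of level `M` with a place above of a level divisible by `4`
and ramification index divisible by `3` is the reduction of an elliptic point of order `3`. -/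
theorem exists_ell3_of_three_dvd (hA : A.LiesOverPrime 3) {M M' : ℕ} [NeZero M] [NeZero M']
    (h3M : ¬ 3 ∣ M) (h3M' : ¬ 3 ∣ M') (h4 : 4 ∣ M')
    {r : Place Qb (laurentBaseChange Qb (modularFunctionFieldFull M)) →
      Place kA (modularFunctionFieldFullC kA M)}
    (hr : IsPlaceReductionAlong A (IsLocalRing.residue A) M r)
    {Q : Place kA (modularFunctionFieldFullC kA M)} (hQ : 0 < Q.ord (jC kA M))
    {Q' : Place kA (modularFunctionFieldFullC kA M')} {e : ℤ} (he : (3 : ℤ) ∣ e) (he0 : 0 < e)
    (h : Q'.ord (jC kA M') = e * Q.ord (jC kA M)) :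
    ∃ P : Place Qb (modularFunctionFieldBar M), r P = Q ∧ P.ord (H94.jBar M) = 1 := by
  have : IsAlgClosed kA := H18.isAlgClosed_residueField A
  refine exists_ell3_of_not_dvd (H18.natCast_residueField_ne_zero A Nat.prime_three hA h3M) hr Q
    hQ.le fun h1 => ?_
  have h2 := ord_jC_eq_six_residueField hA h3M' h4 (Q := Q') (by rw [h]; positivity)
  rw [h2] at h
  obtain ⟨a, rfl⟩ := he
  obtain ⟨b, hb⟩ := h1
  rw [hb] at h
  have h3 : (9 : ℤ) ∣ 6 := ⟨a * b, by rw [h]; ring⟩
  norm_num at h3

end Final

end Fermat.Agent.H98C
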