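import Mathlib.FieldTheory.Galois.Infinite
import Mathlib.FieldTheory.IsAlgClosed.AlgebraicClosure
import Mathlib.LinearAlgebra.FreeModule.PID
import Mathlib.RingTheory.PrincipalIdealDomain
import Mathlib.RingTheory.Finiteness.Subalgebra
import Mathlib.LinearAlgebra.LinearIndependent.Lemmas
import Fermat.Prelude.Def_GaloisRep_Flat

/-!
# Orders in algebras of equivariant functions: linear algebra and Galois descent

Let `M` be a finite abelian group with an action of `Gal(ℚbar/ℚ)`.  A *flat order* for `M` at `ℓ` is
a `ℤ_(ℓ)`-subalgebra `H` of the algebra of functions `M → ℚbar`, finitely generated as a module,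
consisting of equivariant functions, separating the points of `M` and closed under
comultiplication.  We prove the stability of the existence of flat orders under
subobjects, quotients and finite products.
-/

set_option autoImplicit false

noncomputable section

namespace Fermat.Agent.H32

/-- The absolute Galois group of `ℚ`. -/
abbrev GQ : Type := AlgebraicClosure ℚ ≃ₐ[ℚ] AlgebraicClosure ℚ

/-- `ℚbar` -/
abbrev Qbar : Type := AlgebraicClosure ℚ

section PID

open GaloisRep

instance isPrincipalIdealRing_ratLocalizedAt (ℓ : ℕ) :
    IsPrincipalIdealRing (ratLocalizedAt ℓ) where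
  principal I := by
    let J : Ideal ℤ := I.comap (Int.castRingHom (ratLocalizedAt ℓ))
    obtain ⟨d, hd⟩ := (IsPrincipalIdealRing.principal J).principal
    refine ⟨⟨(d : ratLocalizedAt ℓ), ?_⟩⟩
    apply le_antisymm
    · intro x hx
      have hden : ((1 : ℚ) / (x : ℚ).den) ∈ ratLocalizedAt ℓ := by
        show ((1 : ℚ) / (x : ℚ).den).den.Coprime ℓ
        rw [one_div, Rat.inv_natCast_den_of_pos (x : ℚ).pos]
        exact x.2
      have hnum : (((x : ℚ).num : ℤ) : ratLocalizedAt ℓ) =
          ((((x : ℚ).den : ℕ)) : ratLocalizedAt ℓ) * x := by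
        apply Subtype.ext
        push_cast
        rw [mul_comm]
        exact (Rat.mul_den_eq_num (x : ℚ)).symm
      have hJ : (x : ℚ).num ∈ J := by
        show (Int.castRingHom (ratLocalizedAt ℓ)) (x : ℚ).num ∈ I
        rw [eq_intCast, hnum]
        exact I.mul_mem_left _ hx
      rw [hd] at hJ
      obtain ⟨k, hk⟩ := Submodule.mem_span_singleton.mp hJ
      refine Submodule.mem_span_singleton.mpr ⟨(k : ratLocalizedAt ℓ) * ⟨_, hden⟩, ?_⟩
      apply Subtype.ext
      have hk' : ((k : ℚ)) * (d : ℚ) = (x : ℚ).num := by
        rw [smul_eq_mul] at hk; exact_mod_cast congrArg (Int.cast : ℤ → ℚ) hk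
      simp only [smul_eq_mul, Subring.coe_mul]
      push_cast
      rw [mul_right_comm, hk', mul_one_div]
      exact Rat.num_div_den (x : ℚ)
    · rw [Submodule.span_singleton_le_iff_mem]
      have : d ∈ J := by rw [hd]; exact Submodule.mem_span_singleton_self d
      have h2 : (Int.castRingHom (ratLocalizedAt ℓ)) d ∈ I := this
      rwa [eq_intCast] at h2

theorem exists_nat_mul_mem_ratLocalizedAt (q : ℚ) (ℓ : ℕ) :
    ∃ n : ℕ, n ≠ 0 ∧ (n : ℚ) * q ∈ ratLocalizedAt ℓ := by
  refine ⟨q.den, q.den_nz, ?_⟩
  rw [mul_comm, Rat.mul_den_eq_num]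
  show ((q.num : ℤ) : ℚ).den.Coprime ℓ
  simp

end PID

section Descent

theorem isGalois_Qbar : IsGalois ℚ (AlgebraicClosure ℚ) := by
  have h1 : Algebra.IsAlgebraic ℚ (AlgebraicClosure ℚ) := AlgebraicClosure.isAlgebraic ℚ
  have h2 : IsAlgClosure ℚ (AlgebraicClosure ℚ) := ⟨inferInstance, inferInstance⟩
  exact IsAlgClosure.isGalois ℚ (AlgebraicClosure ℚ)

theorem mem_range_of_forall_fixed (x : Qbar) (h : ∀ σ : GQ, σ x = x) :
    x ∈ Set.range (algebraMap ℚ Qbar) :=
  haveI := isGalois_Qbar
  (InfiniteGalois.mem_range_algebraMap_iff_fixed x).mpr h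

variable {M : Type*} (act : GQ → M → M)

/-- Equivariant functions which are linearly independent over `ℚ` are linearly independent
over `ℚbar`. -/
theorem linearIndependent_of_equivariant {ι : Type*} (f : ι → (M → Qbar))
    (hsurj : ∀ σ m, ∃ m', act σ m' = m)
    (heq : ∀ i σ m, f i (act σ m) = σ (f i m)) (hli : LinearIndependent ℚ f) :
    LinearIndependent Qbar f := by
  classical
  rw [linearIndependent_iff]
  intro g
  induction hn : g.support.card using Nat.strong_induction_on generalizing g with
  | _ n ih =>
    intro hg
    by_contra hne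
    obtain ⟨i₀, hi₀⟩ := Finsupp.support_nonempty_iff.mpr hne
    have hi₀' : g i₀ ≠ 0 := Finsupp.mem_support_iff.mp hi₀
    -- normalise
    set g' : ι →₀ Qbar := (g i₀)⁻¹ • g with hg'
    have hsupp : g'.support = g.support := Finsupp.support_smul_eq (inv_ne_zero hi₀')
    have hg'1 : g' i₀ = 1 := by
      rw [hg', Finsupp.smul_apply, smul_eq_mul, inv_mul_cancel₀ hi₀']
    have hg'0 : Finsupp.linearCombination Qbar f g' = 0 := by
      rw [hg', map_smul, hg, smul_zero]
    have hfix : ∀ (σ : GQ) (i : ι), σ (g' i) = g' i := by
      intro σ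
      set g'' : ι →₀ Qbar := g'.mapRange σ (map_zero σ) with hg''
      have hg''0 : Finsupp.linearCombination Qbar f g'' = 0 := by
        ext m
        obtain ⟨m', rfl⟩ := hsurj σ m
        have h1 := congrArg (fun F => σ (F m')) hg'0
        simp only [Finsupp.linearCombination_apply, Finsupp.sum, Finset.sum_apply,
          Pi.smul_apply, smul_eq_mul, map_sum, map_mul, Pi.zero_apply, map_zero] at h1 ⊢
        rw [← h1]
        have hss : g''.support ⊆ g'.support := Finsupp.support_mapRange
        rw [Finset.sum_subset hss]
        · refine Finset.sum_congr rfl fun i _ => ?_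
          rw [hg'', Finsupp.mapRange_apply, heq]
        · intro i _ hi
          rw [Finsupp.notMem_support_iff.mp hi, zero_mul]
      have hsub : Finsupp.linearCombination Qbar f (g'' - g') = 0 := by
        rw [map_sub, hg''0, hg'0, sub_zero]
      have hlt : (g'' - g').support.card < n := by
        rw [← hn, ← hsupp]
        apply Finset.card_lt_card
        rw [Finset.ssubset_iff_of_subset]
        · refine ⟨i₀, by rw [hsupp]; exact hi₀, ?_⟩
          rw [Finsupp.notMem_support_iff, Finsupp.sub_apply, hg'', Finsupp.mapRange_apply, hg'1,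
            map_one, sub_self]
        · refine Finsupp.support_sub.trans ?_
          apply Finset.union_subset _ (Finset.Subset.refl _)
          exact Finsupp.support_mapRange
      have hz := ih _ hlt (g'' - g') rfl hsub
      intro i
      have := congrArg (fun F => F i) hz
      simp only [Finsupp.sub_apply, hg'', Finsupp.mapRange_apply, Finsupp.coe_zero,
        Pi.zero_apply, sub_eq_zero] at this
      exact this
    -- all coefficients are rational
    have hrat : ∀ i, ∃ q : ℚ, algebraMap ℚ Qbar q = g' i := fun i =>
      mem_range_of_forall_fixed (g' i) (fun σ => hfix σ i)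
    choose q hq using hrat
    have hsum : ∑ i ∈ g'.support, q i • f i = 0 := by
      have := hg'0
      rw [Finsupp.linearCombination_apply, Finsupp.sum] at this
      rw [← this]
      refine Finset.sum_congr rfl fun i _ => ?_
      rw [← hq i, algebraMap_smul]
    have h0 := (linearIndependent_iff'.mp hli) g'.support q hsum i₀ (by rw [hsupp]; exact hi₀)
    have := hq i₀
    rw [h0, map_zero, hg'1] at this
    exact zero_ne_one this

/-- A `ℚbar`-linear combination of equivariant functions, linearly independent over `ℚbar`, which is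
equivariant, has rational coefficients. -/
theorem coeff_fixed_of_equivariant {ι : Type*} [Fintype ι] (f : ι → (M → Qbar))
    (hsurj : ∀ σ m, ∃ m', act σ m' = m)
    (heq : ∀ i σ m, f i (act σ m) = σ (f i m)) (hli : LinearIndependent Qbar f)
    (c : ι → Qbar) (hF : ∀ σ m, (∑ i, c i • f i) (act σ m) = σ ((∑ i, c i • f i) m)) (i : ι) :
    c i ∈ Set.range (algebraMap ℚ Qbar) := by
  apply mem_range_of_forall_fixed
  intro σ
  have h : ∑ i, (σ (c i) - c i) • f i = 0 := by
    ext m
    obtain ⟨m', rfl⟩ := hsurj σ m
    have h1 := hF σ m'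
    simp only [Finset.sum_apply, Pi.smul_apply, smul_eq_mul, map_sum, map_mul, Pi.zero_apply,
      ← heq] at h1 ⊢
    simp only [sub_mul, Finset.sum_sub_distrib]
    rw [← h1, sub_self]
  exact sub_eq_zero.mp ((Fintype.linearIndependent_iff.mp hli) _ h i)

end Descent

section Separation

variable {M : Type*} [Finite M] {R : Type*} [CommRing R] [Algebra R Qbar]

/-- A subalgebra separating the points of a finite set spans all functions. -/
theorem span_eq_top_of_separates (H : Subalgebra R (M → Qbar))
    (hsep : ∀ m m', (∀ h ∈ H, h m = h m') → m = m') :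
    Submodule.span Qbar (H : Set (M → Qbar)) = ⊤ := by
  classical
  have := Fintype.ofFinite M
  have hmul : ∀ x ∈ Submodule.span Qbar (H : Set (M → Qbar)),
      ∀ y ∈ Submodule.span Qbar (H : Set (M → Qbar)), x * y ∈ Submodule.span Qbar (H : Set (M → Qbar)) := by
    intro x hx y hy
    induction hx using Submodule.span_induction with
    | mem x hx =>
      induction hy using Submodule.span_induction with
      | mem y hy => exact Submodule.subset_span (H.mul_mem hx hy)
      | zero => rw [mul_zero]; exact Submodule.zero_mem _
      | add y z _ _ hy hz => rw [mul_add]; exact Submodule.add_mem _ hy hz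
      | smul a y _ hy => rw [mul_smul_comm]; exact Submodule.smul_mem _ _ hy
    | zero => rw [zero_mul]; exact Submodule.zero_mem _
    | add x z _ _ hx hz => rw [add_mul]; exact Submodule.add_mem _ hx hz
    | smul a x _ hx => rw [smul_mul_assoc]; exact Submodule.smul_mem _ _ hx
  have hone : (1 : M → Qbar) ∈ Submodule.span Qbar (H : Set (M → Qbar)) :=
    Submodule.subset_span H.one_mem
  -- the indicator function of a point
  have hind : ∀ m : M, (Pi.single m (1 : Qbar)) ∈ Submodule.span Qbar (H : Set (M → Qbar)) := by
    intro m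
    have h1 : ∀ m' : M, m' ≠ m → ∃ f ∈ Submodule.span Qbar (H : Set (M → Qbar)), f m = 1 ∧ f m' = 0 := by
      intro m' hm'
      have h2 : ∃ h ∈ H, h m' ≠ h m := by
        by_contra hcon
        push Not at hcon
        exact hm' (hsep m' m hcon)
      obtain ⟨h, hh, hne⟩ := h2
      refine ⟨(h m - h m')⁻¹ • (h - (h m') • (1 : M → Qbar)), ?_, ?_, ?_⟩
      · exact Submodule.smul_mem _ _ (Submodule.sub_mem _ (Submodule.subset_span hh)
          (Submodule.smul_mem _ _ hone))
      · simp only [Pi.smul_apply, Pi.sub_apply, Pi.one_apply, smul_eq_mul, mul_one]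
        exact inv_mul_cancel₀ (sub_ne_zero.mpr hne.symm)
      · simp
    choose! f hf hf1 hf0 using h1
    have hprod : (Pi.single m (1 : Qbar)) = ∏ m' ∈ Finset.univ.erase m, f m' := by
      ext x
      rw [Finset.prod_apply]
      by_cases hx : x = m
      · subst hx
        rw [Pi.single_eq_same, Finset.prod_eq_one]
        intro m' hm'
        exact hf1 m' (Finset.ne_of_mem_erase hm')
      · rw [Pi.single_eq_of_ne hx]
        symm
        apply Finset.prod_eq_zero (Finset.mem_erase.mpr ⟨hx, Finset.mem_univ x⟩)
        exact hf0 x hx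
    rw [hprod]
    have : ∀ s : Finset M, (∀ m' ∈ s, m' ≠ m) →
        ∏ m' ∈ s, f m' ∈ Submodule.span Qbar (H : Set (M → Qbar)) := by
      intro s
      induction s using Finset.induction_on with
      | empty => intro _; simpa using hone
      | insert a s ha ih =>
        intro hs
        rw [Finset.prod_insert ha]
        exact hmul _ (hf a (hs a (Finset.mem_insert_self a s))) _
          (ih fun m' hm' => hs m' (Finset.mem_insert_of_mem hm'))
    exact this _ fun m' hm' => Finset.ne_of_mem_erase hm'
  rw [eq_top_iff]
  intro F _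
  have hF : F = ∑ m, F m • (Pi.single m (1 : Qbar) : M → Qbar) := by
    ext x
    simp [Finset.sum_apply, Pi.single_apply]
  rw [hF]
  exact Submodule.sum_mem _ fun m _ => Submodule.smul_mem _ _ (hind m)

end Separation

end Fermat.Agent.H32
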