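import Mathlib.AlgebraicGeometry.Properties
import Mathlib.AlgebraicGeometry.Limits
import Mathlib.AlgebraicGeometry.Pullbacks

set_option autoImplicit false

universe u

open CategoryTheory CategoryTheory.Limits AlgebraicGeometry

namespace Fermat.Agent.H68

/-- A scheme covered by two integral open charts meeting each other is integral. -/
theorem isIntegral_of_two_charts {X U V : Scheme.{u}} (f : U ⟶ X) (g : V ⟶ X)
    [IsOpenImmersion f] [IsOpenImmersion g] [IsIntegral U] [IsIntegral V]
    (hcov : ∀ x : X, x ∈ Set.range f ∨ x ∈ Set.range g)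
    (hne : (Set.range f ∩ Set.range g).Nonempty) : IsIntegral X := by
  -- reduced
  have hred : IsReduced X := by
    have : ∀ x : X, _root_.IsReduced (X.presheaf.stalk x) := by
      intro x
      rcases hcov x with ⟨y, rfl⟩ | ⟨y, rfl⟩
      · exact isReduced_of_injective (f.stalkMap y).hom
          ((asIso (f.stalkMap y)).commRingCatIsoToRingEquiv.injective)
      · exact isReduced_of_injective (g.stalkMap y).hom
          ((asIso (g.stalkMap y)).commRingCatIsoToRingEquiv.injective)
    exact isReduced_of_isReduced_stalk X
  -- irreducible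
  have hf : IsOpen (Set.range f) := f.isOpenEmbedding.isOpen_range
  have hg : IsOpen (Set.range g) := g.isOpenEmbedding.isOpen_range
  have hfi : IsPreirreducible (Set.range f) := by
    rw [← Set.image_univ]
    exact (PreirreducibleSpace.isPreirreducible_univ (X := U)).image _
      f.continuous.continuousOn
  have hgi : IsPreirreducible (Set.range g) := by
    rw [← Set.image_univ]
    exact (PreirreducibleSpace.isPreirreducible_univ (X := V)).image _
      g.continuous.continuousOn
  -- a nonempty open meets both charts
  have key : ∀ A : Set X, IsOpen A → A.Nonempty →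
      (Set.range f ∩ A).Nonempty := by
    intro A hA ⟨a, ha⟩
    rcases hcov a with h | h
    · exact ⟨a, h, ha⟩
    · obtain ⟨b, hb1, hb2⟩ := hne
      obtain ⟨c, -, hc1, hc2⟩ := hgi A (Set.range f) hA hf ⟨a, h, ha⟩ ⟨b, hb2, hb1⟩
      exact ⟨c, hc2, hc1⟩
  have hirr : IrreducibleSpace X := by
    have hpre : PreirreducibleSpace X := by
      refine ⟨?_⟩
      intro A B hA hB hA' hB'
      have h1 := key A hA (hA'.mono Set.inter_subset_right)
      have h2 := key B hB (hB'.mono Set.inter_subset_right)
      obtain ⟨c, -, hc⟩ := hfi A B hA hB h1 h2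
      exact ⟨c, Set.mem_univ _, hc⟩
    have hnon : Nonempty X := ⟨hne.some⟩
    exact { toPreirreducibleSpace := hpre, toNonempty := hnon }
  exact isIntegral_of_irreducibleSpace_of_isReduced X

end Fermat.Agent.H68
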