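import Fermat.Prelude.Def_ModularCurve_IgusaScheme
import Fermat.Agent.H68TwoCharts

set_option autoImplicit false

open CategoryTheory CategoryTheory.Limits AlgebraicGeometry ModularCurve ModularCurve.IgusaScheme
open scoped TensorProduct

noncomputable section

namespace Fermat.Agent.H68

/-- Two-chart integrality of a base change.  `X → S` has open charts `f : U → X`, `g : V → X`
covering `X`, `m₁ : W → U`, `m₂ : W → V` with `m₁ ≫ f = m₂ ≫ g`, and the base changes of `U`, `V`
along `s : T → S` are integral, that of `W` nonempty: then the base change of `X` is integral. -/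
theorem isIntegral_pullback_of_two_charts {X U V W S T : Scheme.{0}} (p : X ⟶ S) (s : T ⟶ S)
    (f : U ⟶ X) (g : V ⟶ X) [IsOpenImmersion f] [IsOpenImmersion g]
    (m₁ : W ⟶ U) (m₂ : W ⟶ V) (hm : m₁ ≫ f = m₂ ≫ g)
    (hcov : ∀ x : X, x ∈ Set.range f ∨ x ∈ Set.range g)
    [IsIntegral ↑(pullback (f ≫ p) s)] [IsIntegral ↑(pullback (g ≫ p) s)]
    [Nonempty ↑(pullback (m₁ ≫ f ≫ p) s)] : IsIntegral ↑(pullback p s) := by
  let u : pullback f (pullback.fst p s) ⟶ pullback p s := pullback.snd f (pullback.fst p s)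
  let v : pullback g (pullback.fst p s) ⟶ pullback p s := pullback.snd g (pullback.fst p s)
  have hU : IsIntegral ↑(pullback f (pullback.fst p s)) :=
    IsIntegral.of_isIso (pullbackRightPullbackFstIso p s f).inv
  have hV : IsIntegral ↑(pullback g (pullback.fst p s)) :=
    IsIntegral.of_isIso (pullbackRightPullbackFstIso p s g).inv
  have hru : ∀ x : ↑(pullback p s), x ∈ Set.range u ↔ (pullback.fst p s) x ∈ Set.range f := by
    intro x
    have h := IsOpenImmersion.range_pullbackSnd f (pullback.fst p s)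
    rw [show Set.range u = _ from h]
    rfl
  have hrv : ∀ x : ↑(pullback p s), x ∈ Set.range v ↔ (pullback.fst p s) x ∈ Set.range g := by
    intro x
    have h := IsOpenImmersion.range_pullbackSnd g (pullback.fst p s)
    rw [show Set.range v = _ from h]
    rfl
  refine isIntegral_of_two_charts u v ?_ ?_
  · intro x
    rw [hru, hrv]
    exact hcov _
  · obtain ⟨z⟩ := (inferInstance : Nonempty ↑(pullback (m₁ ≫ f ≫ p) s))
    let w : pullback (m₁ ≫ f ≫ p) s ⟶ pullback p s :=
      pullback.lift (pullback.fst _ _ ≫ m₁ ≫ f) (pullback.snd _ _) (by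
        rw [Category.assoc, Category.assoc]; exact pullback.condition)
    have hw : w ≫ pullback.fst p s = pullback.fst _ _ ≫ m₁ ≫ f := pullback.lift_fst _ _ _
    have hz : (pullback.fst p s) (w z) = f (m₁ ((pullback.fst (m₁ ≫ f ≫ p) s) z)) := by
      have := congrArg (fun t => t z) (congrArg (fun h : _ ⟶ X => (h : _ → X)) hw)
      simpa using this
    have hz' : f (m₁ ((pullback.fst (m₁ ≫ f ≫ p) s) z)) =
        g (m₂ ((pullback.fst (m₁ ≫ f ≫ p) s) z)) := by
      have := congrArg (fun h : W ⟶ X => h ((pullback.fst (m₁ ≫ f ≫ p) s) z)) hm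
      simpa using this
    refine ⟨w z, (hru _).mpr ?_, (hrv _).mpr ?_⟩
    · rw [hz]; exact ⟨_, rfl⟩
    · rw [hz, hz']; exact ⟨_, rfl⟩

/-- The base change of an affine chart. -/
theorem isIntegral_pullback_spec (R S T : Type) [CommRing R] [CommRing S] [CommRing T]
    [Algebra R S] [Algebra R T] [IsDomain (S ⊗[R] T)] :
    IsIntegral ↑(pullback (Spec.map (CommRingCat.ofHom (algebraMap R S)))
      (Spec.map (CommRingCat.ofHom (algebraMap R T)))) :=
  IsIntegral.of_isIso (pullbackSpecIso R S T).inv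

theorem nonempty_pullback_spec (R S T : Type) [CommRing R] [CommRing S] [CommRing T]
    [Algebra R S] [Algebra R T] [Nontrivial (S ⊗[R] T)] :
    Nonempty ↑(pullback (Spec.map (CommRingCat.ofHom (algebraMap R S)))
      (Spec.map (CommRingCat.ofHom (algebraMap R T)))) := by
  have h : Nonempty (Spec (CommRingCat.of (S ⊗[R] T))) :=
    (inferInstance : Nonempty (PrimeSpectrum (S ⊗[R] T)))
  exact h.map (pullbackSpecIso R S T).inv

variable (N : ℕ) [NeZero N] (ℓ : ℕ) [Fact ℓ.Prime]

set_option maxHeartbeats 4000000 in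
set_option synthInstance.maxHeartbeats 400000 in
/-- **S28, scheme part (L8 / M4)**: geometric integrality of the special fibre of the Igusa
scheme, reduced to commutative algebra on the three charts. -/
theorem isIntegral_pullback_igusaTo (K : Type) [Field K]
    [Algebra ↥(GaloisRep.ratLocalizedAt ℓ) K]
    (hfin : IsDomain (↥(chartAlgFin N ℓ) ⊗[↥(GaloisRep.ratLocalizedAt ℓ)] K))
    (hinf : IsDomain (↥(chartAlgInf N ℓ) ⊗[↥(GaloisRep.ratLocalizedAt ℓ)] K))
    (hmid : Nontrivial (↥(chartAlgMid N ℓ) ⊗[↥(GaloisRep.ratLocalizedAt ℓ)] K)) :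
    IsIntegral ↑(pullback (igusaTo N ℓ)
      (Spec.map (CommRingCat.ofHom (algebraMap ↥(GaloisRep.ratLocalizedAt ℓ) K)))) := by
  have h1 : IsIntegral ↑(pullback (ιFin N ℓ ≫ igusaTo N ℓ)
      (Spec.map (CommRingCat.ofHom (algebraMap ↥(GaloisRep.ratLocalizedAt ℓ) K)))) := by
    rw [ιFin_igusaTo]
    exact isIntegral_pullback_spec _ _ _
  have h2 : IsIntegral ↑(pullback (ιInf N ℓ ≫ igusaTo N ℓ)
      (Spec.map (CommRingCat.ofHom (algebraMap ↥(GaloisRep.ratLocalizedAt ℓ) K)))) := by
    rw [ιInf_igusaTo]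
    exact isIntegral_pullback_spec _ _ _
  have h3 : Nonempty ↑(pullback (fFin N ℓ ≫ ιFin N ℓ ≫ igusaTo N ℓ)
      (Spec.map (CommRingCat.ofHom (algebraMap ↥(GaloisRep.ratLocalizedAt ℓ) K)))) := by
    have h : fFin N ℓ ≫ ιFin N ℓ ≫ igusaTo N ℓ = Spec.map (CommRingCat.ofHom
        (algebraMap ↥(GaloisRep.ratLocalizedAt ℓ) ↥(chartAlgMid N ℓ))) := by
      rw [ιFin_igusaTo, fFin, ← Spec.map_comp, ← CommRingCat.ofHom_comp]
      congr 2
    rw [h]
    exact nonempty_pullback_spec _ _ _
  exact isIntegral_pullback_of_two_charts (igusaTo N ℓ) _ (ιFin N ℓ) (ιInf N ℓ)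
    (fFin N ℓ) (fInf N ℓ) (glue_condition N ℓ)
    (fun x => mem_range_ιFin_or_mem_range_ιInf N ℓ x)

end Fermat.Agent.H68
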