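import Mathlib.RingTheory.LaurentSeries
import Mathlib.RingTheory.TensorProduct.Basic
import Mathlib.Algebra.Algebra.ZMod
import Mathlib.LinearAlgebra.Basis.VectorSpace
import Mathlib.Algebra.Field.ZMod
import Mathlib.LinearAlgebra.Dimension.Free
import Mathlib.LinearAlgebra.FreeModule.Basic
import Mathlib.RingTheory.HahnSeries.Multiplication
import Fermat.Prelude.Def_ModularCurve_LaurentCoeff

set_option autoImplicit false

open scoped TensorProduct
open ModularCurve

noncomputable section

namespace Fermat.Agent.H68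

variable {Z : Type} [CommRing Z] {A : Type} [CommRing A] [Algebra Z A]
  {K : Type} [Field K] [Algebra Z K]

/-- The map `A ⊗ K → K((q))` attached to a `q`-expansion map `A → Z((q))`. -/
def theta (c : A →+* LaurentSeries Z)
    (hc : ∀ z : Z, c (algebraMap Z A z) = HahnSeries.single 0 z) :
    A ⊗[Z] K →+* LaurentSeries K :=
  letI : Algebra Z (LaurentSeries K) :=
    ((algebraMap K (LaurentSeries K)).comp (algebraMap Z K)).toAlgebra
  (Algebra.TensorProduct.productMap
    ({ (coeffMap (algebraMap Z K)).comp c with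
        commutes' := fun z => by
          change coeffMap (algebraMap Z K) (c (algebraMap Z A z)) =
            algebraMap K (LaurentSeries K) (algebraMap Z K z)
          rw [hc, coeffMap_single, algebraMap_laurentSeries_eq_single] } :
      A →ₐ[Z] LaurentSeries K)
    ({ algebraMap K (LaurentSeries K) with commutes' := fun _ => rfl } :
      K →ₐ[Z] LaurentSeries K)).toRingHom

theorem theta_tmul (c : A →+* LaurentSeries Z)
    (hc : ∀ z : Z, c (algebraMap Z A z) = HahnSeries.single 0 z) (a : A) (x : K) :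
    theta c hc (a ⊗ₜ[Z] x) = coeffMap (algebraMap Z K) (c a) * algebraMap K (LaurentSeries K) x :=
  rfl

theorem coeff_theta_tmul (c : A →+* LaurentSeries Z)
    (hc : ∀ z : Z, c (algebraMap Z A z) = HahnSeries.single 0 z) (a : A) (x : K) (n : ℤ) :
    (theta c hc (a ⊗ₜ[Z] x)).coeff n = algebraMap Z K ((c a).coeff n) * x := by
  rw [theta_tmul, algebraMap_laurentSeries_eq_single, mul_comm,
    HahnSeries.coeff_single_zero_mul, coeffMap_coeff, mul_comm]

variable (ℓ : ℕ)

/-- Every tensor is `∑ aᵢ ⊗ eᵢ` for a given `𝔽_ℓ`-basis `e` of `K`. -/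
theorem exists_finsupp_tensor [NeZero ℓ] [Algebra (ZMod ℓ) K] {ι : Type} (e : Module.Basis ι (ZMod ℓ) K)
    (t : A ⊗[Z] K) : ∃ f : ι →₀ A, t = f.sum fun i a => a ⊗ₜ[Z] e i := by
  classical
  induction t using TensorProduct.induction_on with
  | zero => exact ⟨0, by simp⟩
  | tmul a x =>
    refine ⟨(e.repr x).mapRange (fun l => ((l.val : ℕ) : A) * a) (by simp), ?_⟩
    rw [Finsupp.sum_mapRange_index (by simp)]
    conv_lhs => rw [← e.linearCombination_repr x, Finsupp.linearCombination_apply,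
      Finsupp.sum, TensorProduct.tmul_sum]
    refine Finset.sum_congr rfl fun i _ => ?_
    have h1 : (e.repr x) i • e i = (((e.repr x) i).val : ℕ) • e i := by
      rw [Algebra.smul_def, nsmul_eq_mul]
      congr 1
      conv_lhs => rw [← ZMod.natCast_zmod_val ((e.repr x) i)]
      rw [map_natCast]
    rw [h1, TensorProduct.tmul_smul, TensorProduct.smul_tmul', nsmul_eq_mul]
  | add t₁ t₂ h₁ h₂ =>
    obtain ⟨f, rfl⟩ := h₁
    obtain ⟨g, rfl⟩ := h₂
    refine ⟨f + g, ?_⟩
    rw [Finsupp.sum_add_index' (by simp) (fun i a b => TensorProduct.add_tmul _ _ _)]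

variable [Fact ℓ.Prime] [CharP K ℓ]

/-- Injectivity of `A ⊗ K → K((q))`, given that divisibility by `ℓ` in `A` is detected by
`q`-expansions. -/
theorem theta_injective
    (hZ : ∀ z : Z, ∃ (m : ℤ) (w : Z), z = m + (ℓ : Z) * w)
    (c : A →+* LaurentSeries Z)
    (hc : ∀ z : Z, c (algebraMap Z A z) = HahnSeries.single 0 z)
    (hdiv : ∀ a : A, (∀ n : ℤ, ∃ w : Z, (c a).coeff n = (ℓ : Z) * w) → ∃ b : A, a = (ℓ : A) * b) :
    Function.Injective (theta (K := K) c hc) := by
  classical
  let _ : Algebra (ZMod ℓ) K := ZMod.algebra K ℓ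
  have : NeZero ℓ := ⟨(Fact.out : ℓ.Prime).ne_zero⟩
  have hℓK : (ℓ : K) = 0 := CharP.cast_eq_zero K ℓ
  have hfree : Module.Free (ZMod ℓ) K := Module.Free.of_divisionRing (ZMod ℓ) K
  let e := Module.Free.chooseBasis (ZMod ℓ) K
  rw [injective_iff_map_eq_zero]
  intro t ht
  obtain ⟨f, rfl⟩ := exists_finsupp_tensor (Z := Z) (A := A) ℓ e t
  -- every coefficient of every `c (f i)` is divisible by `ℓ`
  have hcoef : ∀ (n : ℤ) (i), ∃ w : Z, (c (f i)).coeff n = (ℓ : Z) * w := by
    intro n
    choose m w hmw using fun i => hZ ((c (f i)).coeff n)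
    have h1 : ∑ i ∈ f.support, algebraMap Z K ((c (f i)).coeff n) * e i = 0 := by
      have h2 := congrArg (fun g : LaurentSeries K => g.coeff n) ht
      simp only [Finsupp.sum, map_sum, HahnSeries.coeff_sum, coeff_theta_tmul,
        HahnSeries.coeff_zero] at h2
      exact h2
    have h3 : ∑ i ∈ f.support, ((m i : ℤ) : ZMod ℓ) • e i = 0 := by
      rw [← h1]
      refine Finset.sum_congr rfl fun i _ => ?_
      rw [hmw i, map_add, map_mul, map_natCast, hℓK, zero_mul, add_zero, Algebra.smul_def]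
      simp
    have h4 := linearIndependent_iff'.mp e.linearIndependent f.support _ h3
    intro i
    by_cases hi : i ∈ f.support
    · have h5 := h4 i hi
      rw [ZMod.intCast_zmod_eq_zero_iff_dvd] at h5
      obtain ⟨d, hd⟩ := h5
      refine ⟨(d : Z) + w i, ?_⟩
      rw [hmw i, hd]
      push_cast
      ring
    · rw [Finsupp.notMem_support_iff] at hi
      exact ⟨0, by rw [hi]; simp⟩
  refine Finset.sum_eq_zero fun i _ => ?_
  obtain ⟨b, hb⟩ := hdiv (f i) fun n => hcoef n i
  have h6 : (ℓ : A) * b = ℓ • b := by rw [nsmul_eq_mul]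
  change (f i) ⊗ₜ[Z] e i = 0
  rw [hb, h6, ← TensorProduct.smul_tmul', ← TensorProduct.tmul_smul, nsmul_eq_mul, hℓK, zero_mul,
    TensorProduct.tmul_zero]

theorem isDomain_tensor
    (hZ : ∀ z : Z, ∃ (m : ℤ) (w : Z), z = m + (ℓ : Z) * w)
    (c : A →+* LaurentSeries Z)
    (hc : ∀ z : Z, c (algebraMap Z A z) = HahnSeries.single 0 z)
    (hdiv : ∀ a : A, (∀ n : ℤ, ∃ w : Z, (c a).coeff n = (ℓ : Z) * w) → ∃ b : A, a = (ℓ : A) * b) :
    IsDomain (A ⊗[Z] K) :=
  Function.Injective.isDomain (theta (K := K) c hc) (theta_injective ℓ hZ c hc hdiv)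

theorem nontrivial_tensor (c : A →+* LaurentSeries Z)
    (hc : ∀ z : Z, c (algebraMap Z A z) = HahnSeries.single 0 z) :
    Nontrivial (A ⊗[Z] K) :=
  (theta (K := K) c hc).domain_nontrivial

end Fermat.Agent.H68
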