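import Fermat.Prelude.Def_ModularCurve_IgusaScheme
import Fermat.Prelude.Def_ModularCurve_X0ModL
import Fermat.Agent.H68IgusaIntegral
import Fermat.Agent.H68TensorLaurent

set_option autoImplicit false

open CategoryTheory CategoryTheory.Limits AlgebraicGeometry ModularCurve ModularCurve.IgusaScheme
open scoped TensorProduct

noncomputable section

namespace Fermat.Agent.H68

/-- Laurent series over `ℚ` with coefficients in a subring `Z`, as a subring. -/
def coeffSubring (Z : Subring ℚ) : Subring (LaurentSeries ℚ) := (coeffMap Z.subtype).range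

theorem coeffMap_injective {R S : Type*} [CommRing R] [CommRing S] (f : R →+* S)
    (hf : Function.Injective f) : Function.Injective (coeffMap f) := by
  intro x y h
  ext n
  apply hf
  have := congrArg (fun g : LaurentSeries S => g.coeff n) h
  simpa using this

theorem mem_coeffSubring_iff (Z : Subring ℚ) (x : LaurentSeries ℚ) :
    x ∈ coeffSubring Z ↔ ∀ n : ℤ, x.coeff n ∈ Z := by
  constructor
  · rintro ⟨y, rfl⟩ n
    rw [coeffMap_coeff]
    exact (y.coeff n).2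
  · intro h
    refine ⟨⟨fun n => ⟨x.coeff n, h n⟩, ?_⟩, ?_⟩
    · refine x.isPWO_support.mono ?_
      intro n hn
      simp only [Function.mem_support, ne_eq] at hn ⊢
      intro h0
      exact hn (Subtype.ext h0)
    · ext n
      rfl

/-- `Z((q)) ≃ {f ∈ ℚ((q)) : coefficients in Z}`. -/
def coeffEquiv (Z : Subring ℚ) : LaurentSeries Z ≃+* coeffSubring Z :=
  RingEquiv.ofBijective (coeffMap Z.subtype).rangeRestrict
    ⟨fun _ _ h => coeffMap_injective _ Subtype.val_injective (congrArg Subtype.val h),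
      (coeffMap Z.subtype).rangeRestrict_surjective⟩

theorem coe_coeffEquiv (Z : Subring ℚ) (x : LaurentSeries Z) :
    (coeffEquiv Z x : LaurentSeries ℚ) = coeffMap Z.subtype x := rfl

theorem coeff_coeffEquiv_symm (Z : Subring ℚ) (x : coeffSubring Z) (n : ℤ) :
    (((coeffEquiv Z).symm x).coeff n : ℚ) = (x : LaurentSeries ℚ).coeff n := by
  conv_rhs => rw [← (coeffEquiv Z).apply_symm_apply x, coe_coeffEquiv, coeffMap_coeff]
  rfl

variable (N : ℕ) [NeZero N] (ℓ : ℕ) [Fact ℓ.Prime]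

omit [Fact ℓ.Prime] in
/-- `x = m + ℓ w` for `x ∈ ℤ_(ℓ)`, `m ∈ ℤ`. -/
theorem exists_int_add_mul (z : ↥(GaloisRep.ratLocalizedAt ℓ)) :
    ∃ (m : ℤ) (w : ↥(GaloisRep.ratLocalizedAt ℓ)), z = m + (ℓ : ↥(GaloisRep.ratLocalizedAt ℓ)) * w := by
  have hden : (z : ℚ).den.Coprime ℓ := z.2
  have hco : IsCoprime ((z : ℚ).den : ℤ) (ℓ : ℤ) := Nat.isCoprime_iff_coprime.mpr hden
  obtain ⟨u, v, huv⟩ := hco
  -- `m = num * u`, `z - m = num (1 - u den)/den = num v ℓ / den`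
  have hinv : ((((z : ℚ).den : ℚ))⁻¹) ∈ GaloisRep.ratLocalizedAt ℓ := by
    change ((((z : ℚ).den : ℚ))⁻¹).den.Coprime ℓ
    have h0 : (0 : ℤ) < ((z : ℚ).den : ℤ) := by exact_mod_cast (z : ℚ).den_pos
    have h1 : ((((z : ℚ).den : ℚ))⁻¹).den = (z : ℚ).den := by
      have := Rat.inv_natCast_den_of_pos (z : ℚ).den_pos
      exact this
    rw [h1]; exact hden
  refine ⟨(z : ℚ).num * u, ((z : ℚ).num * v : ℤ) * ⟨_, hinv⟩, ?_⟩
  apply Subtype.ext
  have hd : (((z : ℚ).den : ℚ)) ≠ 0 := by exact_mod_cast (z : ℚ).den_ne_zero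
  have hz : (z : ℚ) = ((z : ℚ).num : ℚ) / ((z : ℚ).den : ℚ) := (Rat.num_div_den _).symm
  have huv' : (u : ℚ) * ((z : ℚ).den : ℚ) + (v : ℚ) * (ℓ : ℚ) = 1 := by exact_mod_cast huv
  push_cast
  conv_lhs => rw [hz]
  field_simp
  linear_combination (-((z : ℚ).num : ℚ)) * huv'

variable {N ℓ}

/-- The `q`-expansion ring homomorphism of a chart whose elements have `ℤ_(ℓ)`-coefficients. -/
def chartExp (S : Set ↥(modularFunctionFieldFull N))
    (hint : ∀ f ∈ chartAlg N ℓ S, ∀ n : ℤ,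
      (f : LaurentSeries ℚ).coeff n ∈ GaloisRep.ratLocalizedAt ℓ) :
    ↥(chartAlg N ℓ S) →+* LaurentSeries ↥(GaloisRep.ratLocalizedAt ℓ) :=
  (coeffEquiv (GaloisRep.ratLocalizedAt ℓ)).symm.toRingHom.comp
    (((algebraMap ↥(modularFunctionFieldFull N) (LaurentSeries ℚ)).comp
      (chartAlg N ℓ S).val.toRingHom).codRestrict _ (fun f =>
        (mem_coeffSubring_iff _ _).mpr (hint f f.2)))

theorem coeff_chartExp (S : Set ↥(modularFunctionFieldFull N))
    (hint : ∀ f ∈ chartAlg N ℓ S, ∀ n : ℤ,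
      (f : LaurentSeries ℚ).coeff n ∈ GaloisRep.ratLocalizedAt ℓ)
    (f : ↥(chartAlg N ℓ S)) (n : ℤ) :
    (((chartExp S hint f).coeff n : ↥(GaloisRep.ratLocalizedAt ℓ)) : ℚ) =
      ((f : ↥(modularFunctionFieldFull N)) : LaurentSeries ℚ).coeff n :=
  coeff_coeffEquiv_symm _ _ _

theorem chartExp_algebraMap (S : Set ↥(modularFunctionFieldFull N))
    (hint : ∀ f ∈ chartAlg N ℓ S, ∀ n : ℤ,
      (f : LaurentSeries ℚ).coeff n ∈ GaloisRep.ratLocalizedAt ℓ)
    (z : ↥(GaloisRep.ratLocalizedAt ℓ)) :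
    chartExp S hint (algebraMap _ _ z) = HahnSeries.single 0 z := by
  ext n
  rw [coeff_chartExp]
  have h : (((algebraMap ↥(GaloisRep.ratLocalizedAt ℓ) ↥(chartAlg N ℓ S) z :
      ↥(chartAlg N ℓ S)) : ↥(modularFunctionFieldFull N)) : LaurentSeries ℚ) =
      HahnSeries.single 0 (z : ℚ) := by
    have h1 : ((algebraMap ↥(GaloisRep.ratLocalizedAt ℓ) ↥(chartAlg N ℓ S) z :
        ↥(chartAlg N ℓ S)) : ↥(modularFunctionFieldFull N)) =
        algebraMap ℚ ↥(modularFunctionFieldFull N) (z : ℚ) := rfl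
    rw [h1, ← algebraMap_apply_eq_single, eq_ratCast, eq_ratCast]
    exact map_ratCast (algebraMap ↥(modularFunctionFieldFull N) (LaurentSeries ℚ)) (z : ℚ)
  rw [h]
  rcases eq_or_ne n 0 with rfl | hn
  · simp
  · rw [HahnSeries.coeff_single_of_ne hn, HahnSeries.coeff_single_of_ne hn]; rfl

/-- `j⁻¹` has coefficients in every subring of `ℚ`. -/
theorem jq_inv_mem_coeffSubring (Z : Subring ℚ) : (jq)⁻¹ ∈ coeffSubring Z := by
  have hu : IsUnit (jqModC ↥Z) := by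
    have h1 : jqModC ↥Z = HahnSeries.single (-1 : ℤ) (1 : ↥Z) *
        HahnSeries.ofPowerSeries ℤ ↥Z (jNum.map (Int.castRingHom ↥Z)) := rfl
    rw [h1]
    refine IsUnit.mul ?_ ?_
    · refine .of_mul_eq_one (HahnSeries.single (1 : ℤ) (1 : ↥Z)) ?_
      rw [HahnSeries.single_mul_single]
      simp
    · apply IsUnit.map
      rw [PowerSeries.isUnit_iff_constantCoeff]
      have : PowerSeries.constantCoeff (jNum.map (Int.castRingHom ↥Z)) = 1 := by
        rw [← PowerSeries.coeff_zero_eq_constantCoeff, PowerSeries.coeff_map,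
          PowerSeries.coeff_zero_eq_constantCoeff, constantCoeff_jNum, map_one]
      rw [this]
      exact isUnit_one
  obtain ⟨u, hu⟩ := hu
  refine ⟨(u⁻¹ : (LaurentSeries ↥Z)ˣ), ?_⟩
  have h2 : coeffMap Z.subtype (u : LaurentSeries ↥Z) = jq := by
    rw [hu, coeffMap_jqModC, jqModC_rat]
  symm
  apply inv_eq_of_mul_eq_one_right
  rw [← h2, ← map_mul, Units.mul_inv, map_one]

/-- Integrality of `q`-expansions on the middle chart follows from the finite chart. -/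
theorem hint_mid
    (hint : ∀ f ∈ chartAlgFin N ℓ, ∀ n : ℤ,
      (f : LaurentSeries ℚ).coeff n ∈ GaloisRep.ratLocalizedAt ℓ) :
    ∀ f ∈ chartAlgMid N ℓ, ∀ n : ℤ,
      (f : LaurentSeries ℚ).coeff n ∈ GaloisRep.ratLocalizedAt ℓ := by
  intro f hf
  rw [← mem_coeffSubring_iff]
  have hf' : f ∈ chartAlg N ℓ (insert (jFull N)⁻¹ {jFull N}) := by
    rw [show insert (jFull N)⁻¹ ({jFull N} : Set ↥(modularFunctionFieldFull N)) =
      {jFull N, (jFull N)⁻¹} from Set.pair_comm _ _]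
    exact hf
  obtain ⟨n, hn⟩ := exists_pow_mul_mem_chartAlg (Set.mem_singleton _) (jFull_ne_zero N) hf'
  have h1 := (mem_coeffSubring_iff _ _).mpr (hint _ hn)
  have h2 := mul_mem (pow_mem (jq_inv_mem_coeffSubring (GaloisRep.ratLocalizedAt ℓ)) n) h1
  have h3 : (jq⁻¹) ^ n * (((jFull N) ^ n * f : ↥(modularFunctionFieldFull N)) : LaurentSeries ℚ) =
      (f : LaurentSeries ℚ) := by
    have h4 : (((jFull N) ^ n * f : ↥(modularFunctionFieldFull N)) : LaurentSeries ℚ) =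
        jq ^ n * (f : LaurentSeries ℚ) := rfl
    rw [h4, ← mul_assoc, ← mul_pow, inv_mul_cancel₀ jq_ne_zero, one_pow, one_mul]
  rwa [h3] at h2

theorem isDomain_chart_tensor (S : Set ↥(modularFunctionFieldFull N))
    (hint : ∀ f ∈ chartAlg N ℓ S, ∀ n : ℤ,
      (f : LaurentSeries ℚ).coeff n ∈ GaloisRep.ratLocalizedAt ℓ)
    (hdiv : ∀ f ∈ chartAlg N ℓ S,
      (∀ n : ℤ, ∃ w ∈ GaloisRep.ratLocalizedAt ℓ, (f : LaurentSeries ℚ).coeff n = (ℓ : ℚ) * w) →
        ∃ g ∈ chartAlg N ℓ S, f = (ℓ : ↥(modularFunctionFieldFull N)) * g)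
    (K : Type) [Field K] [CharP K ℓ] [Algebra ↥(GaloisRep.ratLocalizedAt ℓ) K] :
    IsDomain (↥(chartAlg N ℓ S) ⊗[↥(GaloisRep.ratLocalizedAt ℓ)] K) := by
  refine isDomain_tensor ℓ (exists_int_add_mul ℓ) (chartExp S hint)
    (chartExp_algebraMap S hint) ?_
  intro a ha
  obtain ⟨g, hg, hag⟩ := hdiv a a.2 (by
    intro n
    obtain ⟨w, hw⟩ := ha n
    refine ⟨w, w.2, ?_⟩
    rw [← coeff_chartExp S hint, hw]
    rfl)
  exact ⟨⟨g, hg⟩, Subtype.ext hag⟩

variable (N ℓ)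

set_option maxHeartbeats 4000000 in
set_option synthInstance.maxHeartbeats 400000 in
/-- **M4 of S28**: the S28 conclusion from integrality (`hint`) and `ℓ`-saturation (`hdiv`) of
`q`-expansions on the two charts. -/
theorem isIntegral_pullback_igusaTo_of_coeff
    (hintF : ∀ f ∈ chartAlgFin N ℓ, ∀ n : ℤ,
      (f : LaurentSeries ℚ).coeff n ∈ GaloisRep.ratLocalizedAt ℓ)
    (hdivF : ∀ f ∈ chartAlgFin N ℓ,
      (∀ n : ℤ, ∃ w ∈ GaloisRep.ratLocalizedAt ℓ, (f : LaurentSeries ℚ).coeff n = (ℓ : ℚ) * w) →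
        ∃ g ∈ chartAlgFin N ℓ, f = (ℓ : ↥(modularFunctionFieldFull N)) * g)
    (hintI : ∀ f ∈ chartAlgInf N ℓ, ∀ n : ℤ,
      (f : LaurentSeries ℚ).coeff n ∈ GaloisRep.ratLocalizedAt ℓ)
    (hdivI : ∀ f ∈ chartAlgInf N ℓ,
      (∀ n : ℤ, ∃ w ∈ GaloisRep.ratLocalizedAt ℓ, (f : LaurentSeries ℚ).coeff n = (ℓ : ℚ) * w) →
        ∃ g ∈ chartAlgInf N ℓ, f = (ℓ : ↥(modularFunctionFieldFull N)) * g)
    (K : Type) [Field K] [CharP K ℓ] [Algebra ↥(GaloisRep.ratLocalizedAt ℓ) K] :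
    IsIntegral ↑(pullback (igusaTo N ℓ)
      (Spec.map (CommRingCat.ofHom (algebraMap ↥(GaloisRep.ratLocalizedAt ℓ) K)))) :=
  isIntegral_pullback_igusaTo N ℓ K
    (isDomain_chart_tensor _ hintF hdivF K)
    (isDomain_chart_tensor _ hintI hdivI K)
    (nontrivial_tensor (chartExp _ (hint_mid hintF)) (chartExp_algebraMap _ (hint_mid hintF)))

end Fermat.Agent.H68
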