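import Mathlib.RingTheory.IntegralClosure.IsIntegral.AlmostIntegral
import Mathlib.NumberTheory.Padics.PadicVal.Basic
import Fermat.Agent.H68IgusaCoeff

/-!
# `hint` for S28: elements of the Igusa charts have `ℤ_(ℓ)`-integral `q`-expansions
-/

set_option autoImplicit false

open ModularCurve ModularCurve.IgusaScheme

noncomputable section

namespace Fermat.Agent.H68

/-- `ℤ_(ℓ)` is completely integrally closed in `ℚ`. -/
theorem mem_ratLocalizedAt_of_almost (ℓ : ℕ) [Fact ℓ.Prime] {u c : ℚ} (hc0 : c ≠ 0)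
    (h : ∀ m : ℕ, c * u ^ m ∈ GaloisRep.ratLocalizedAt ℓ) : u ∈ GaloisRep.ratLocalizedAt ℓ := by
  have hℓ : ℓ.Prime := Fact.out
  rcases eq_or_ne u 0 with rfl | hu0
  · exact Subring.zero_mem _
  -- membership implies nonnegative valuation
  have hpos : ∀ x : ℚ, x ∈ GaloisRep.ratLocalizedAt ℓ → 0 ≤ padicValRat ℓ x := by
    intro x hx
    have hx' : x.den.Coprime ℓ := hx
    have h1 : ¬ ℓ ∣ x.den := fun hd =>
      hℓ.one_lt.ne' (Nat.eq_one_of_dvd_coprimes hx' hd dvd_rfl)
    rw [padicValRat_def, padicValNat.eq_zero_of_not_dvd h1]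
    simp
  by_contra hu
  have hden : ℓ ∣ u.den := by
    by_contra hd
    exact hu (((Nat.Prime.coprime_iff_not_dvd hℓ).mpr hd).symm)
  have hnum : ¬ (ℓ : ℤ) ∣ u.num := by
    intro hn
    have h2 : ℓ ∣ u.num.natAbs := Int.natCast_dvd.mp hn
    exact hℓ.one_lt.ne' (Nat.eq_one_of_dvd_coprimes u.reduced h2 hden)
  have hneg : padicValRat ℓ u ≤ -1 := by
    rw [padicValRat_def, padicValInt.eq_zero_of_not_dvd hnum]
    have h3 : 1 ≤ padicValNat ℓ u.den := one_le_padicValNat_of_dvd u.den_ne_zero hden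
    have h3' : (1 : ℤ) ≤ ((padicValNat ℓ u.den : ℕ) : ℤ) := by exact_mod_cast h3
    simp only [Nat.cast_zero]
    linarith
  have h4 := hpos _ (h ((padicValRat ℓ c).toNat + 1))
  rw [padicValRat.mul hc0 (pow_ne_zero _ hu0), padicValRat.pow] at h4
  have h5 : padicValRat ℓ c ≤ ((padicValRat ℓ c).toNat : ℤ) := Int.self_le_toNat _
  push_cast at h4
  nlinarith

/-- `Z((q))` is completely integrally closed in `ℚ((q))` if `Z` is in `ℚ`. -/
theorem mem_coeffSubring_of_almostIntegral (Z : Subring ℚ)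
    (hZ : ∀ u c : ℚ, c ≠ 0 → (∀ m : ℕ, c * u ^ m ∈ Z) → u ∈ Z)
    {f : LaurentSeries ℚ} (hf : IsAlmostIntegral ↥(coeffSubring Z) f) : f ∈ coeffSubring Z := by
  classical
  rw [mem_coeffSubring_iff]
  by_contra hcon
  push Not at hcon
  -- the least bad index
  have hBsub : {n : ℤ | f.coeff n ∉ Z} ⊆ f.support := by
    intro n hn
    rw [HahnSeries.mem_support]
    intro h0
    exact hn (h0 ▸ Z.zero_mem)
  have hBwf : {n : ℤ | f.coeff n ∉ Z}.IsWF := f.isWF_support.subset hBsub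
  have hBne : {n : ℤ | f.coeff n ∉ Z}.Nonempty := hcon
  set n₀ := hBwf.min hBne with hn₀
  have hbad : f.coeff n₀ ∉ Z := hBwf.min_mem hBne
  have hgood : ∀ n < n₀, f.coeff n ∈ Z := by
    intro n hn
    by_contra hnz
    exact hBwf.not_lt_min hBne hnz hn
  -- the integral head `p` of `f`
  let p : LaurentSeries ℚ :=
    ⟨fun n => if n < n₀ then f.coeff n else 0, f.isPWO_support.mono (by
      intro n hn
      simp only [Function.mem_support, ne_eq] at hn ⊢
      intro h0
      apply hn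
      rw [h0]
      simp)⟩
  have hpc : ∀ n, p.coeff n = if n < n₀ then f.coeff n else 0 := fun _ => rfl
  have hp : p ∈ coeffSubring Z := by
    rw [mem_coeffSubring_iff]
    intro n
    rw [hpc]
    split_ifs with h
    · exact hgood n h
    · exact Z.zero_mem
  have hg : IsAlmostIntegral ↥(coeffSubring Z) (f - p) :=
    (completeIntegralClosure ↥(coeffSubring Z) (LaurentSeries ℚ)).sub_mem hf
      ((completeIntegralClosure ↥(coeffSubring Z) (LaurentSeries ℚ)).algebraMap_mem ⟨p, hp⟩)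
  set g := f - p with hgdef
  have hgc : ∀ n, g.coeff n = if n < n₀ then 0 else f.coeff n := by
    intro n
    rw [hgdef, HahnSeries.coeff_sub, hpc]
    split_ifs <;> simp
  have hgn₀ : g.coeff n₀ = f.coeff n₀ := by rw [hgc, if_neg (lt_irrefl _)]
  have hu0 : f.coeff n₀ ≠ 0 := fun h0 => hbad (h0 ▸ Z.zero_mem)
  have hg0 : g ≠ 0 := by
    intro h0
    apply hu0
    rw [← hgn₀, h0, HahnSeries.coeff_zero]
  have hord : g.order = n₀ := by
    apply le_antisymm
    · exact HahnSeries.order_le_of_coeff_ne_zero (by rw [hgn₀]; exact hu0)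
    · by_contra hlt
      push Not at hlt
      exact HahnSeries.coeff_order_eq_zero.not.mpr hg0 (by rw [hgc, if_pos hlt])
  obtain ⟨r, hr, hr'⟩ := hg
  have hr0 : (r : LaurentSeries ℚ) ≠ 0 := by
    have := nonZeroDivisors.ne_zero hr
    exact fun h => this (Subtype.ext h)
  apply hbad
  refine hZ _ ((r : LaurentSeries ℚ).coeff (r : LaurentSeries ℚ).order)
    (HahnSeries.coeff_order_eq_zero.not.mpr hr0) fun m => ?_
  obtain ⟨s, hs⟩ := hr' m
  have hs' : (s : LaurentSeries ℚ) = (r : LaurentSeries ℚ) * g ^ m := by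
    rw [Algebra.smul_def] at hs
    exact hs
  have hlead : ((r : LaurentSeries ℚ) * g ^ m).coeff
      ((r : LaurentSeries ℚ).order + (g ^ m).order) =
      (r : LaurentSeries ℚ).coeff (r : LaurentSeries ℚ).order * (f.coeff n₀) ^ m := by
    rw [HahnSeries.coeff_mul_order_add_order]
    have h1 : (g ^ m).leadingCoeff = (f.coeff n₀) ^ m := by
      have h2 : ∀ k : ℕ, (g ^ k).leadingCoeff = g.leadingCoeff ^ k := by
        intro k
        induction k with
        | zero => simp
        | succ k ih => rw [pow_succ, HahnSeries.leadingCoeff_mul, ih, pow_succ]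
      rw [h2, HahnSeries.leadingCoeff_eq, hord, hgn₀]
    rw [h1, HahnSeries.leadingCoeff_eq]
  rw [← hlead, ← hs']
  exact (mem_coeffSubring_iff Z _).mp s.2 _

/-- The subring `Z((q))` contains every `j(q^d)`. -/
theorem qExpand_jq_mem_coeffSubring (Z : Subring ℚ) (d : ℕ) [NeZero d] :
    qExpand ℚ d jq ∈ coeffSubring Z := by
  refine ⟨jqNModC ↥Z d, ?_⟩
  rw [coeffMap_jqNModC]
  rfl

theorem jq_mem_coeffSubring (Z : Subring ℚ) : jq ∈ coeffSubring Z := by
  have := qExpand_jq_mem_coeffSubring Z 1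
  rwa [qExpand_one_apply] at this

/-- Elements of the modular function field are quotients of integral `q`-expansions. -/
theorem exists_mul_mem_coeffSubring (Z : Subring ℚ) (N : ℕ) {f : LaurentSeries ℚ}
    (hf : f ∈ modularFunctionFieldFull N) :
    ∃ b ∈ coeffSubring Z, b ≠ 0 ∧ b * f ∈ coeffSubring Z := by
  rw [modularFunctionFieldFull] at hf
  induction hf using IntermediateField.adjoin_induction with
  | mem x hx =>
    obtain ⟨d, hd, -, rfl⟩ := hx
    exact ⟨1, one_mem _, one_ne_zero, by rw [one_mul]; exact qExpand_jq_mem_coeffSubring Z d⟩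
  | algebraMap x =>
    have hden0 : ((x.den : ℕ) : LaurentSeries ℚ) ≠ 0 := by
      rw [← map_natCast (algebraMap ℚ (LaurentSeries ℚ))]
      exact (map_ne_zero _).mpr (Nat.cast_ne_zero.mpr x.den_ne_zero)
    refine ⟨((x.den : ℕ) : LaurentSeries ℚ), natCast_mem _ _, hden0, ?_⟩
    have h1 : ((x.den : ℕ) : LaurentSeries ℚ) * algebraMap ℚ (LaurentSeries ℚ) x =
        ((x.num : ℤ) : LaurentSeries ℚ) := by
      rw [← map_natCast (algebraMap ℚ (LaurentSeries ℚ)), ← map_mul,
        mul_comm, Rat.mul_den_eq_num, map_intCast]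
    rw [h1]
    exact intCast_mem _ _
  | add x y _ _ hx hy =>
    obtain ⟨b, hb, hb0, hbx⟩ := hx
    obtain ⟨c, hc, hc0, hcy⟩ := hy
    refine ⟨b * c, mul_mem hb hc, mul_ne_zero hb0 hc0, ?_⟩
    have : b * c * (x + y) = c * (b * x) + b * (c * y) := by ring
    rw [this]
    exact add_mem (mul_mem hc hbx) (mul_mem hb hcy)
  | inv x _ hx =>
    obtain ⟨b, hb, hb0, hbx⟩ := hx
    rcases eq_or_ne x 0 with rfl | hx0
    · exact ⟨1, one_mem _, one_ne_zero, by simp [zero_mem]⟩
    · refine ⟨b * x, hbx, mul_ne_zero hb0 hx0, ?_⟩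
      rw [mul_assoc, mul_inv_cancel₀ hx0, mul_one]
      exact hb
  | mul x y _ _ hx hy =>
    obtain ⟨b, hb, hb0, hbx⟩ := hx
    obtain ⟨c, hc, hc0, hcy⟩ := hy
    refine ⟨b * c, mul_mem hb hc, mul_ne_zero hb0 hc0, ?_⟩
    have : b * c * (x * y) = (b * x) * (c * y) := by ring
    rw [this]
    exact mul_mem hbx hcy

variable (N : ℕ) [NeZero N] (ℓ : ℕ) [Fact ℓ.Prime]

/-- **hint**: if `S` has integral `q`-expansions, so has everything integral over `ℤ_(ℓ)[S]`. -/
theorem hint_of_subset (S : Set ↥(modularFunctionFieldFull N))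
    (hS : ∀ s ∈ S, (s : LaurentSeries ℚ) ∈ coeffSubring (GaloisRep.ratLocalizedAt ℓ)) :
    ∀ f ∈ chartAlg N ℓ S, ∀ n : ℤ,
      (f : LaurentSeries ℚ).coeff n ∈ GaloisRep.ratLocalizedAt ℓ := by
  intro f hf
  rw [← mem_coeffSubring_iff]
  refine mem_coeffSubring_of_almostIntegral _
    (fun u c hc h => mem_ratLocalizedAt_of_almost ℓ hc h) ?_
  -- `ℤ_(ℓ)[S] ⊆ ℤ_(ℓ)((q))`
  have hadj : ∀ x ∈ Algebra.adjoin ↥(GaloisRep.ratLocalizedAt ℓ) S,
      (x : LaurentSeries ℚ) ∈ coeffSubring (GaloisRep.ratLocalizedAt ℓ) := by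
    intro x hx
    induction hx using Algebra.adjoin_induction with
    | mem y hy => exact hS y hy
    | algebraMap a =>
      have h1 : ((algebraMap ↥(GaloisRep.ratLocalizedAt ℓ) ↥(modularFunctionFieldFull N) a :
          ↥(modularFunctionFieldFull N)) : LaurentSeries ℚ) = HahnSeries.single 0 (a : ℚ) := by
        have h2 : algebraMap ↥(GaloisRep.ratLocalizedAt ℓ) ↥(modularFunctionFieldFull N) a =
          algebraMap ℚ ↥(modularFunctionFieldFull N) (a : ℚ) := rfl
        rw [h2, ← algebraMap_apply_eq_single, eq_ratCast, eq_ratCast]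
        exact map_ratCast (algebraMap ↥(modularFunctionFieldFull N) (LaurentSeries ℚ)) (a : ℚ)
      rw [h1, mem_coeffSubring_iff]
      intro n
      rcases eq_or_ne n 0 with rfl | hn
      · rw [HahnSeries.coeff_single_same]; exact a.2
      · rw [HahnSeries.coeff_single_of_ne hn]; exact Subring.zero_mem _
    | add y z _ _ hy hz => exact add_mem hy hz
    | mul y z _ _ hy hz => exact mul_mem hy hz
  have hint : IsIntegral ↥(coeffSubring (GaloisRep.ratLocalizedAt ℓ)) (f : LaurentSeries ℚ) := by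
    have h1 := (mem_chartAlg_iff N ℓ).mp hf
    let φ : ↥(Algebra.adjoin ↥(GaloisRep.ratLocalizedAt ℓ) S) →+*
        ↥(coeffSubring (GaloisRep.ratLocalizedAt ℓ)) :=
      ((algebraMap ↥(modularFunctionFieldFull N) (LaurentSeries ℚ)).comp
        (Algebra.adjoin ↥(GaloisRep.ratLocalizedAt ℓ) S).val.toRingHom).codRestrict _
          (fun x => hadj x x.2)
    exact h1.map_of_comp_eq φ (algebraMap ↥(modularFunctionFieldFull N) (LaurentSeries ℚ))
      (RingHom.ext fun _ => rfl)
  refine hint.isAlmostIntegral_of_exists_smul_mem_range ?_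
  obtain ⟨b, hb, hb0, hbf⟩ := exists_mul_mem_coeffSubring (GaloisRep.ratLocalizedAt ℓ) N f.2
  refine ⟨⟨b, hb⟩, mem_nonZeroDivisors_of_ne_zero (fun h => hb0 (congrArg Subtype.val h)),
    ⟨⟨b * f, hbf⟩, ?_⟩⟩
  rw [Algebra.smul_def]
  rfl

theorem hintF : ∀ f ∈ chartAlgFin N ℓ, ∀ n : ℤ,
    (f : LaurentSeries ℚ).coeff n ∈ GaloisRep.ratLocalizedAt ℓ :=
  hint_of_subset N ℓ _ (by
    intro s hs
    rw [Set.mem_singleton_iff] at hs
    rw [hs]
    exact jq_mem_coeffSubring _)

theorem hintI : ∀ f ∈ chartAlgInf N ℓ, ∀ n : ℤ,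
    (f : LaurentSeries ℚ).coeff n ∈ GaloisRep.ratLocalizedAt ℓ :=
  hint_of_subset N ℓ _ (by
    intro s hs
    rw [Set.mem_singleton_iff] at hs
    rw [hs]
    exact jq_inv_mem_coeffSubring _)

end Fermat.Agent.H68
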