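import Fermat.Agent.H9Cuspidal
import Fermat.Agent.H90DescentLin
import Fermat.Agent.H32FlatOrder
import Fermat.Agent.H68IgusaHint

/-!
# The order of the cuspidal class: `p - 1 ∣ 24 m` whenever `m c = 0`
-/

set_option autoImplicit false
set_option linter.unusedSectionVars false

noncomputable section

open ModularCurve Polynomial IntermediateField AlgebraicCurve
open Fermat.Agent.H61 Fermat.Agent.H28 Fermat.Agent.H66

namespace Fermat.Agent.H9

section CoeffSubring

variable (Z : Subring ℚ)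

theorem theta_mem_coeffSubring {f : LaurentSeries ℚ} (hf : f ∈ H68.coeffSubring Z) :
    theta f ∈ H68.coeffSubring Z := by
  rw [H68.mem_coeffSubring_iff] at hf ⊢
  intro n
  rw [coeff_theta]
  exact mul_mem (intCast_mem Z n) (hf n)

theorem deltaRatio_mem_coeffSubring (p : ℕ) [NeZero p] :
    deltaRatio ℚ p ∈ H68.coeffSubring Z := by
  have h1 : deltaRatio ℚ p = coeffMap Z.subtype (qExpand Z p (deltaL Z) * deltaInvL Z) := by
    rw [deltaRatio, map_mul, coeffMap_qExpand, H66.coeffMap_deltaL, H66.coeffMap_deltaInvL]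
  rw [h1]
  exact ⟨_, rfl⟩

theorem deltaRatio_inv_mem_coeffSubring (p : ℕ) [NeZero p] :
    (deltaRatio ℚ p)⁻¹ ∈ H68.coeffSubring Z := by
  have h1 : (deltaRatio ℚ p)⁻¹ =
      coeffMap Z.subtype (qExpand Z p (deltaInvL Z) * deltaL Z) := by
    rw [map_mul, coeffMap_qExpand, H66.coeffMap_deltaL, H66.coeffMap_deltaInvL]
    apply inv_eq_of_mul_eq_one_left
    rw [deltaRatio]
    have h2 : qExpand ℚ p (deltaL ℚ) * qExpand ℚ p (deltaInvL ℚ) = 1 := by
      rw [← map_mul, deltaL_mul_deltaInvL, map_one]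
    calc qExpand ℚ p (deltaInvL ℚ) * deltaL ℚ * (qExpand ℚ p (deltaL ℚ) * deltaInvL ℚ)
        = (qExpand ℚ p (deltaL ℚ) * qExpand ℚ p (deltaInvL ℚ)) * (deltaL ℚ * deltaInvL ℚ) := by
          ring
      _ = 1 := by rw [h2, deltaL_mul_deltaInvL, mul_one]
  rw [h1]
  exact ⟨_, rfl⟩

/-- Elements of the modular function field some power of which is integral are integral. -/
theorem mem_coeffSubring_of_pow_mem (ℓ : ℕ) [Fact ℓ.Prime] {N : ℕ} {f : LaurentSeries ℚ}
    (hf : f ∈ modularFunctionFieldFull N) {k : ℕ} (hk : 0 < k)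
    (h : f ^ k ∈ H68.coeffSubring (GaloisRep.ratLocalizedAt ℓ)) :
    f ∈ H68.coeffSubring (GaloisRep.ratLocalizedAt ℓ) := by
  refine H68.mem_coeffSubring_of_almostIntegral _
    (fun u c hc h => H68.mem_ratLocalizedAt_of_almost ℓ hc h) ?_
  have hint : IsIntegral ↥(H68.coeffSubring (GaloisRep.ratLocalizedAt ℓ)) f := by
    refine ⟨X ^ k - C ⟨f ^ k, h⟩, monic_X_pow_sub_C _ hk.ne', ?_⟩
    rw [eval₂_sub, eval₂_X_pow, eval₂_C]
    exact sub_self _
  refine hint.isAlmostIntegral_of_exists_smul_mem_range ?_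
  obtain ⟨b, hb, hb0, hbf⟩ := H68.exists_mul_mem_coeffSubring (GaloisRep.ratLocalizedAt ℓ) N hf
  refine ⟨⟨b, hb⟩, mem_nonZeroDivisors_of_ne_zero (fun h => hb0 (congrArg Subtype.val h)),
    ⟨⟨b * f, hbf⟩, ?_⟩⟩
  rw [Algebra.smul_def]
  rfl

/-- A rational number in all `ℤ_(ℓ)` is an integer. -/
theorem exists_int_of_forall_mem {x : ℚ}
    (h : ∀ ℓ : ℕ, Fact ℓ.Prime → x ∈ GaloisRep.ratLocalizedAt ℓ) : ∃ n : ℤ, x = n := by
  have h1 : x.den = 1 := by
    rw [Nat.eq_one_iff_not_exists_prime_dvd]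
    intro ℓ hℓ hd
    have h3 : Nat.Coprime x.den ℓ := h ℓ ⟨hℓ⟩
    have h2 : Nat.Coprime ℓ x.den := h3.symm
    exact hℓ.one_lt.ne' (Nat.dvd_one.mp (h2 ▸ Nat.dvd_gcd dvd_rfl hd))
  exact ⟨x.num, (Rat.coe_int_num_of_den_eq_one h1).symm⟩

end CoeffSubring

/-- If `h^k = Δ(pτ)/Δ(τ)` with `h` a rational modular function, then `k ∣ 24`. -/
theorem dvd_of_pow_eq_rat {p : ℕ} [Fact p.Prime] {k : ℕ} (hk : 0 < k) {h : LaurentSeries ℚ}
    (hh : h ∈ modularFunctionFieldFull p) (hpow : h ^ k = deltaRatio ℚ p) : k ∣ 24 := by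
  have hp : p.Prime := Fact.out
  have hR0 : deltaRatio ℚ p ≠ 0 := deltaRatio_ne_zero p
  have hh0 : h ≠ 0 := by
    rintro rfl
    rw [zero_pow hk.ne'] at hpow
    exact hR0 hpow.symm
  -- logarithmic derivative
  have h1 : (k : LaurentSeries ℚ) * (theta h * h⁻¹) =
      (p : LaurentSeries ℚ) * qExpand ℚ p (E2L ℚ) - E2L ℚ := by
    have h2 : theta (deltaRatio ℚ p) =
        ((p : LaurentSeries ℚ) * qExpand ℚ p (E2L ℚ) - E2L ℚ) * deltaRatio ℚ p := by
      have h3 : deltaRatio ℚ p * deltaL ℚ = qExpand ℚ p (deltaL ℚ) := by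
        rw [deltaRatio, mul_assoc, mul_comm (deltaInvL ℚ), deltaL_mul_deltaInvL, mul_one]
      have h4 := congrArg theta h3
      rw [theta_mul, theta_qExpand, theta_deltaL, map_mul, ← h3] at h4
      have hΔ := deltaL_ne_zero (K := ℚ)
      apply mul_right_cancel₀ hΔ
      linear_combination h4
    rw [← hpow, theta_pow] at h2
    have h5 : h ^ k = h ^ (k - 1) * h := by
      rw [← pow_succ]
      congr 1
      omega
    rw [h5] at h2
    have h6 : (k : LaurentSeries ℚ) * theta h =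
        ((p : LaurentSeries ℚ) * qExpand ℚ p (E2L ℚ) - E2L ℚ) * h := by
      apply mul_left_cancel₀ (pow_ne_zero (k - 1) hh0)
      linear_combination h2
    field_simp
    linear_combination h6
  -- coefficient of `q`
  have h7 : (k : ℚ) * (theta h * h⁻¹).coeff 1 = 24 := by
    have h8 := congrArg (fun f : LaurentSeries ℚ => f.coeff 1) h1
    have hC : ∀ n : ℕ, (n : LaurentSeries ℚ) = HahnSeries.C (n : ℚ) := by intro n; simp
    simp only [hC, HahnSeries.C_mul_eq_smul, HahnSeries.coeff_sub, HahnSeries.coeff_smul,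
      smul_eq_mul] at h8
    rw [h8, qExpand_coeff_of_not_dvd p _ (by
      intro h
      have := Int.le_of_dvd one_pos h
      have := hp.two_le
      omega)]
    have h9 : (E2L ℚ).coeff 1 = -24 := by
      have := coeff_toL_nat ℚ E2f 1
      rw [Nat.cast_one] at this
      rw [E2L, this, E2f]
      simp
    rw [h9]
    ring
  obtain ⟨n, hn⟩ := exists_int_of_forall_mem (x := (theta h * h⁻¹).coeff 1) (by
    intro ℓ hℓ
    have hm1 := mem_coeffSubring_of_pow_mem ℓ hh hk (by
      rw [hpow]; exact deltaRatio_mem_coeffSubring _ p)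
    have hm2 := mem_coeffSubring_of_pow_mem ℓ (f := h⁻¹) (inv_mem hh) hk (by
      rw [inv_pow, hpow]; exact deltaRatio_inv_mem_coeffSubring _ p)
    exact (H68.mem_coeffSubring_iff _ _).mp (mul_mem (theta_mem_coeffSubring _ hm1) hm2) 1)
  rw [hn] at h7
  have h10 : ((k : ℤ)) * n = 24 := by exact_mod_cast h7
  have h11 : (k : ℤ) ∣ (24 : ℕ) := ⟨n, by rw [h10]; rfl⟩
  exact Int.natCast_dvd_natCast.mp h11

section Qbar

local notation "Qb" => AlgebraicClosure ℚ

/-- `k`-th roots of unity in `K((q))` are constants. -/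
theorem exists_C_of_pow_eq_one {K : Type*} [Field K] [IsAlgClosed K] {t : LaurentSeries K} {k : ℕ}
    (hk : 0 < k) (ht : t ^ k = 1) : ∃ ζ : K, t = HahnSeries.C ζ := by
  have hint : IsIntegral K t := ⟨X ^ k - 1, monic_X_pow_sub_C 1 hk.ne', by
    rw [eval₂_sub, eval₂_X_pow, eval₂_one, ht, sub_self]⟩
  have h2 : (minpoly K t).degree = 1 :=
    IsAlgClosed.degree_eq_one_of_irreducible K (minpoly.irreducible hint)
  obtain ⟨ζ, hζ⟩ := minpoly.mem_range_of_degree_eq_one K t h2
  exact ⟨ζ, by rw [← hζ, algebraMap_eq_C]⟩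

/-- Uniqueness of roots with leading coefficient one. -/
theorem eq_of_pow_eq {K : Type*} [Field K] [IsAlgClosed K] {x y : LaurentSeries K} {k : ℕ} {n : ℤ}
    (hk : 0 < k) (hx : HasLead x n 1) (hy : HasLead y n 1) (h : x ^ k = y ^ k) : x = y := by
  have hy0 := hy.ne_zero one_ne_zero
  obtain ⟨ζ, hζ⟩ := exists_C_of_pow_eq_one (t := x / y) hk (by
    rw [div_pow, h, div_self (pow_ne_zero _ hy0)])
  have h1 : x = HahnSeries.C ζ * y := by
    rw [← hζ, div_mul_cancel₀ _ hy0]
  have h2 := congrArg (fun f : LaurentSeries K => f.coeff n) h1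
  simp only [HahnSeries.C_mul_eq_smul, HahnSeries.coeff_smul, smul_eq_mul, hx.1, hy.1,
    mul_one] at h2
  rw [h1, ← h2, map_one, one_mul]

theorem hasLead_order {K : Type*} [Field K] (x : LaurentSeries K) :
    HasLead x x.order x.leadingCoeff := by
  refine ⟨HahnSeries.leadingCoeff_eq.symm, fun m hm => ?_⟩
  exact HahnSeries.coeff_eq_zero_of_lt_order hm

theorem coeffMap_deltaRatio {K L : Type*} [Field K] [Field L] (φ : K →+* L) (p : ℕ) [NeZero p] :
    coeffMap φ (deltaRatio K p) = deltaRatio L p := by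
  rw [deltaRatio, deltaRatio, map_mul, coeffMap_qExpand, H66.coeffMap_deltaL,
    H66.coeffMap_deltaInvL]

theorem hasLead_coeffMap {K L : Type*} [Field K] [Field L] (φ : K →+* L) {x : LaurentSeries K}
    {n : ℤ} {c : K} (h : HasLead x n c) : HasLead (ModularCurve.coeffMap φ x) n (φ c) := by
  refine ⟨by rw [coeffMap_coeff, h.1], fun m hm => ?_⟩
  rw [coeffMap_coeff, h.2 m hm, map_zero]

/-- If `h^k = Δ(pτ)/Δ(τ)` with `h` a modular function over `ℚ̄`, then `k ∣ 24`. -/
theorem dvd_of_pow_eq {p : ℕ} [Fact p.Prime] {k : ℕ} (hk : 0 < k) {h : LaurentSeries Qb}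
    (hh : h ∈ modularFunctionFieldFullC Qb p) (hpow : h ^ k = deltaRatio Qb p) : k ∣ 24 := by
  have hR0 : deltaRatio Qb p ≠ 0 := deltaRatio_ne_zero p
  have hh0 : h ≠ 0 := by
    rintro rfl
    rw [zero_pow hk.ne'] at hpow
    exact hR0 hpow.symm
  have hlead := hasLead_order h
  set a := h.leadingCoeff with ha
  set n := h.order with hn
  have ha0 : a ≠ 0 := HahnSeries.leadingCoeff_ne_zero.mpr hh0
  have hleadk := hlead.pow k
  rw [hpow] at hleadk
  have hord : (p : ℤ) - 1 = k * n :=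
    (hasLead_deltaRatio p).order_unique hleadk one_ne_zero (pow_ne_zero _ ha0)
  have hak : a ^ k = 1 := by
    have h1 := hleadk.1
    rw [← hord, (hasLead_deltaRatio p).1] at h1
    exact h1.symm
  -- normalise
  set g : LaurentSeries Qb := HahnSeries.C a⁻¹ * h with hg
  have hgmem : g ∈ modularFunctionFieldFullC Qb p := by
    rw [hg, ← algebraMap_eq_C]
    exact mul_mem (IntermediateField.algebraMap_mem _ _) hh
  have hglead : HasLead g n 1 := by
    have h1 := (HasLead.C a⁻¹).mul hlead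
    rw [zero_add, inv_mul_cancel₀ ha0] at h1
    exact h1
  have hgpow : g ^ k = deltaRatio Qb p := by
    rw [hg, mul_pow, ← map_pow, inv_pow, hak, inv_one, map_one, one_mul, hpow]
  -- rationality
  have hfix : ∀ σ : Qb ≃ₐ[ℚ] Qb, coeffMap (σ : Qb →+* Qb) g = g := by
    intro σ
    have h2 := hasLead_coeffMap (σ : Qb →+* Qb) hglead
    rw [map_one] at h2
    refine eq_of_pow_eq hk h2 hglead ?_
    rw [← map_pow, hgpow, coeffMap_deltaRatio]
  have hrat : ∀ m : ℤ, ∃ c : ℚ, algebraMap ℚ Qb c = g.coeff m := by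
    intro m
    exact H32.mem_range_of_forall_fixed _ fun σ => by
      have := congrArg (fun f : LaurentSeries Qb => f.coeff m) (hfix σ)
      simpa using this
  choose c hc using hrat
  have hsupp : (Function.support c).IsPWO := by
    refine g.isPWO_support.mono fun m hm => ?_
    rw [HahnSeries.mem_support, ← hc m]
    exact (_root_.map_ne_zero _).mpr hm
  let g₀ : LaurentSeries ℚ := ⟨c, hsupp⟩
  have hg₀ : coeffMap (algebraMap ℚ Qb) g₀ = g := by
    ext m
    rw [coeffMap_coeff]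
    exact hc m
  have hpow₀ : g₀ ^ k = deltaRatio ℚ p := by
    apply H66.coeffMap_injective (algebraMap ℚ Qb).injective
    rw [map_pow, hg₀, hgpow, coeffMap_deltaRatio]
  have hmem₀ : g₀ ∈ modularFunctionFieldFull p := by
    have h3 : coeffMap (algebraMap ℚ Qb) g₀ ∈
        laurentBaseChange Qb (modularFunctionFieldFull p) := by
      rw [hg₀, H42.laurentBaseChange_full]
      exact hgmem
    have h4 := H90.exists_of_coeff_mem _ h3
    rw [H42.laurentBaseChange_full] at h4
    exact h4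
  exact dvd_of_pow_eq_rat hk hmem₀ hpow₀

end Qbar

end Fermat.Agent.H9
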