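import Fermat.Agent.H9Beta
import Fermat.Agent.H9Order

/-!
# Hecke operators on the cuspidal class of `X_0(p)`
-/

set_option autoImplicit false
set_option linter.unusedSectionVars false
set_option linter.style.haveILetI false

noncomputable section

open ModularCurve Polynomial IntermediateField AlgebraicCurve
open Fermat.Agent.H61 Fermat.Agent.H28 Fermat.Agent.H66

namespace Fermat.Agent.H9

section Along

variable {K F F' : Type*} [Field K] [Field F] [Field F'] [Algebra K F] [Algebra K F']

theorem ramificationIndexAlong_pos (φ : F →ₐ[K] F') (hφ : φ.toRingHom.IsIntegral)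
    (w : Place K F') : 0 < Place.ramificationIndexAlong φ w := by
  letI := algebraAlong φ
  haveI := isScalarTower_along φ
  haveI := isIntegral_along φ hφ
  exact w.ramificationIndex_pos (F := F)

theorem inertiaDegAlong_eq_one (φ : F →ₐ[K] F') (hφ : φ.toRingHom.IsIntegral)
    (w : Place K F') (hw : w.deg = 1) : w.inertiaDegAlong φ hφ = 1 := by
  letI := algebraAlong φ
  haveI := isScalarTower_along φ
  haveI := isIntegral_along φ hφ
  have h := w.deg_restrict_mul_inertiaDeg (F := F)
  rw [hw] at h
  exact Nat.eq_one_of_mul_eq_one_left h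

theorem sum_ramificationIndexAlong [HasPrincipalDivisors K F'] (φ : F →ₐ[K] F')
    (hφ : φ.toRingHom.IsIntegral) (hFI : FundamentalIdentityAlong K φ hφ)
    (hdeg : ∀ w : Place K F', w.deg = 1) (v : Place K F) (hv : v.deg = 1) :
    ∑ W ∈ Place.fiberAlong φ hφ v, (W.ramificationIndexAlong φ : ℤ) = finrankAlong K φ := by
  have h := Divisor.degree_pullbackAlong φ hφ hFI (Finsupp.single v 1)
  rw [Divisor.degree_single, hv, Divisor.pullbackAlong_single, map_sum] at h
  simp only [Divisor.degree_single, hdeg, Nat.cast_one, mul_one, one_mul] at h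
  exact h

theorem correspondence_single [HasPrincipalDivisors K F'] (φ ψ : F →ₐ[K] F')
    (hφ : φ.toRingHom.IsIntegral) (hψ : ψ.toRingHom.IsIntegral)
    (hdeg : ∀ w : Place K F', w.deg = 1) (v : Place K F) :
    Divisor.correspondence φ ψ hφ hψ (Finsupp.single v 1) =
      ∑ W ∈ Place.fiberAlong φ hφ v,
        Finsupp.single (W.restrictAlong ψ hψ) (W.ramificationIndexAlong φ : ℤ) := by
  rw [Divisor.correspondence_apply, Divisor.pullbackAlong_single, map_sum]
  refine Finset.sum_congr rfl fun W _ => ?_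
  rw [Divisor.pushforwardAlong_single, inertiaDegAlong_eq_one ψ hψ W (hdeg W), one_mul,
    Nat.cast_one, mul_one]

/-- If all places over `v` along `φ` lie over `v` along `ψ`, the correspondence multiplies `v`
by the degree. -/
theorem correspondence_single_of_forall [HasPrincipalDivisors K F'] (φ ψ : F →ₐ[K] F')
    (hφ : φ.toRingHom.IsIntegral) (hψ : ψ.toRingHom.IsIntegral)
    (hFI : FundamentalIdentityAlong K φ hφ)
    (hdeg : ∀ w : Place K F', w.deg = 1) (v : Place K F) (hv : v.deg = 1)
    (h : ∀ W : Place K F', W.restrictAlong φ hφ = v → W.restrictAlong ψ hψ = v) :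
    Divisor.correspondence φ ψ hφ hψ (Finsupp.single v 1) =
      Finsupp.single v (finrankAlong K φ : ℤ) := by
  rw [correspondence_single φ ψ hφ hψ hdeg, ← sum_ramificationIndexAlong φ hφ hFI hdeg v hv,
    Finsupp.single_finsetSum]
  refine Finset.sum_congr rfl fun W hW => ?_
  rw [h W (Place.mem_fiberAlong.mp hW)]

end Along

section Ratio

variable (K : Type*) [Field K] [IsAlgClosed K] (q : ℕ) [Fact q.Prime] (hq0 : (q : K) ≠ 0)

include hq0 in
theorem eq_cusp_of_ord_jₚ_neg {v : Place K (modularFunctionFieldFullC K q)}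
    (hv : v.ord (jₚ K q) < 0) : v = infPl K q ∨ v = zeroPl K q hq0 := by
  have h1 : (wAL K q hq0 • v).ord (j₁ K q) = v.ord (jₚ K q) := by
    rw [← wAL_jₚ K q hq0]
    exact Place.ord_smul (wAL K q hq0) v (jₚ K q)
  rw [← h1] at hv
  have hinv : wAL K q hq0 • (wAL K q hq0 • v) = v := by
    rw [← mul_smul]
    have : wAL K q hq0 * wAL K q hq0 = 1 := AlgEquiv.ext fun f => wAL_wAL K q hq0 f
    rw [this, one_smul]
  rcases eq_cusp_of_ord_neg K q hq0 hv with h | h
  · right
    rw [zeroPl, ← h, hinv]
  · left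
    rw [zeroPl] at h
    exact MulAction.injective (wAL K q hq0) h

variable {E : Type*} [Field E] [Algebra K E] [H94.FunField K E]
  (φ : modularFunctionFieldFullC K q →ₐ[K] E) (W : Place K E)

include hq0 in
theorem ord_ratio_cases (h : W.ord (φ (j₁ K q)) < 0) :
    W.ord (φ (jₚ K q)) = q * W.ord (φ (j₁ K q)) ∨
      W.ord (φ (j₁ K q)) = q * W.ord (φ (jₚ K q)) := by
  haveI := funField_full K q hq0
  have hφ := H67.isIntegral_of_finiteAlong (H67.finiteAlong_of_funField φ)
  have h1 := W.ord_restrictAlong φ hφ (j₁ K q)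
  have h2 := W.ord_restrictAlong φ hφ (jₚ K q)
  set v := W.restrictAlong φ hφ
  have hv : v.ord (j₁ K q) < 0 := by
    by_contra hcon
    rw [not_lt] at hcon
    rw [h1] at h
    exact absurd h (not_lt.mpr (mul_nonneg (by positivity) hcon))
  rw [h1, h2]
  rcases eq_cusp_of_ord_neg K q hq0 hv with h3 | h3
  · left
    rw [h3, infPl_ord_j₁, infPl_ord_jₚ]
    ring
  · right
    rw [h3, zeroPl_ord_j₁, zeroPl_ord_jₚ]
    ring

include hq0 in
theorem ord_neg_of_ord_jₚ_neg (h : W.ord (φ (jₚ K q)) < 0) : W.ord (φ (j₁ K q)) < 0 := by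
  haveI := funField_full K q hq0
  have hφ := H67.isIntegral_of_finiteAlong (H67.finiteAlong_of_funField φ)
  have h1 := W.ord_restrictAlong φ hφ (j₁ K q)
  have h2 := W.ord_restrictAlong φ hφ (jₚ K q)
  have hpos := ramificationIndexAlong_pos φ hφ W
  set v := W.restrictAlong φ hφ
  have hv : v.ord (jₚ K q) < 0 := by
    by_contra hcon
    rw [not_lt] at hcon
    rw [h2] at h
    exact absurd h (not_lt.mpr (mul_nonneg (by positivity) hcon))
  rw [h1]
  have hpos' : (0 : ℤ) < Place.ramificationIndexAlong φ W := by exact_mod_cast hpos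
  have hq := (Fact.out : q.Prime).pos
  rcases eq_cusp_of_ord_jₚ_neg K q hq0 hv with h3 | h3
  · rw [h3, infPl_ord_j₁]
    linarith
  · rw [h3, zeroPl_ord_j₁]
    have : (0 : ℤ) < q := by exact_mod_cast hq
    nlinarith

end Ratio

end Fermat.Agent.H9
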