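import Fermat.Agent.H17HkMain
import Fermat.Agent.H98CJ3
import Fermat.Agent.H99Emb2
import Fermat.Agent.H9Hecke
import Fermat.Agent.H8CEll

/-!
# Hecke correspondences and elliptic points of order three (helper26, S39/S40)

* `dvd_correspondence_single`: a correspondence multiplies a place `P` by the degree modulo `p` if all
  the places above `P` with ramification index prime to `p` are mapped to `P`;
* `EllSame M ℓ`: the two degeneracy maps `X₀(Mℓ) → X₀(M)` agree at the elliptic points of order `3`;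
* `dvd_hecke_ell3`: `T_ℓ P ≡ (ℓ + 1) P mod 3` for the elliptic points `P` of order `3`;
* `dvd_TC_single`: the same on the reduction of `X₀(M)` modulo a prime, for all non cuspidal places
  at which the order of `j` is prime to `3`.
-/

set_option autoImplicit false
set_option linter.unusedSectionVars false

noncomputable section

open AlgebraicCurve ModularCurve
open Fermat.Agent.H17

namespace Fermat.Agent.H26C

local notation "Qb" => AlgebraicClosure ℚ

section Abs

variable {K F F' : Type*} [Field K] [Field F] [Field F'] [Algebra K F] [Algebra K F']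

theorem dvd_correspondence_single [HasPrincipalDivisors K F'] (φ ψ : F →ₐ[K] F')
    (hφ : φ.toRingHom.IsIntegral) (hψ : ψ.toRingHom.IsIntegral)
    (hFI : FundamentalIdentityAlong K φ hφ)
    (hdeg : ∀ w : Place K F', w.deg = 1) (p : ℤ) (P : Place K F) (hP : P.deg = 1)
    (h : ∀ Q : Place K F', Q.restrictAlong φ hφ = P →
      p ∣ (Q.ramificationIndexAlong φ : ℤ) ∨ Q.restrictAlong ψ hψ = P) (w : Place K F) :
    p ∣ Divisor.correspondence φ ψ hφ hψ (Finsupp.single P 1) w -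
      (finrankAlong K φ : ℤ) * (Finsupp.single P (1 : ℤ) : Divisor K F) w := by
  classical
  rw [H9.correspondence_single φ ψ hφ hψ hdeg, ← H9.sum_ramificationIndexAlong φ hφ hFI hdeg P hP,
    Finsupp.finsetSum_apply, Finset.sum_mul, ← Finset.sum_sub_distrib]
  refine Finset.dvd_sum fun Q hQ => ?_
  rcases h Q (Place.mem_fiberAlong.mp hQ) with h1 | h1
  · refine dvd_sub ?_ (Dvd.dvd.mul_right h1 _)
    rw [Finsupp.single_apply]
    split_ifs
    · exact h1
    · exact dvd_zero _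
  · rw [h1, Finsupp.single_apply, Finsupp.single_apply]
    split_ifs <;> simp

theorem dvd_mapDomain {X Y : Type*} (r : X → Y) (p : ℤ) {D : X →₀ ℤ} (h : ∀ x, p ∣ D x) (y : Y) :
    p ∣ Finsupp.mapDomain r D y := by
  classical
  rw [Finsupp.mapDomain, Finsupp.sum_apply, Finsupp.sum]
  refine Finset.dvd_sum fun x _ => ?_
  rw [Finsupp.single_apply]
  split_ifs
  · exact h x
  · exact dvd_zero _

theorem ramificationIndexAlong_pos (φ : F →ₐ[K] F') (hφ : φ.toRingHom.IsIntegral)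
    (w : Place K F') : 0 < w.ramificationIndexAlong φ := by
  letI := algebraAlong φ
  haveI := isScalarTower_along φ
  haveI := isIntegral_along φ hφ
  exact w.ramificationIndex_pos (F := F)

theorem mem_smul_iff (W : F' ≃ₐ[K] F') (hW : ∀ x, W (W x) = x) (Q : Place K F') (x : F') :
    x ∈ (W • Q).toValuationSubring ↔ W x ∈ Q.toValuationSubring := by
  have h : W.symm x = W x := by rw [AlgEquiv.symm_apply_eq, hW]
  rw [← h, Place.smul_toValuationSubring, ValuationSubring.mem_pointwise_smul_iff_inv_smul_mem,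
    AlgEquiv.smul_def, AlgEquiv.aut_inv]

theorem ord_smul' (W : F' ≃ₐ[K] F') (hW : ∀ x, W (W x) = x) (Q : Place K F') (x : F') :
    (W • Q).ord x = Q.ord (W x) := by
  have h1 := Place.ord_smul W Q (W x)
  rwa [hW] at h1

theorem restrictAlong_smul (W : F' ≃ₐ[K] F') (hW : ∀ x, W (W x) = x) (φ ψ : F →ₐ[K] F')
    (hφ : φ.toRingHom.IsIntegral) (hψ : ψ.toRingHom.IsIntegral) (h : ∀ x, W (φ x) = ψ x)
    (Q : Place K F') : (W • Q).restrictAlong φ hφ = Q.restrictAlong ψ hψ := by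
  apply Place.ext
  ext x
  refine (mem_smul_iff W hW Q (φ x)).trans ?_
  rw [h]
  exact Iff.rfl

end Abs

section CharZero

variable (M ℓ : ℕ) [NeZero M] [NeZero ℓ]

/-- the two degeneracy maps `X₀(Mℓ) → X₀(M)` agree at the elliptic points of order `3` -/
def EllSame : Prop :=
  ∀ (hα : (heckeAlphaBar Qb M ℓ).toRingHom.IsIntegral)
    (hβ : (heckeBetaBar Qb M ℓ).toRingHom.IsIntegral)
    (Q : Place Qb (modularFunctionFieldBar (M * ℓ))), Q.ord (H94.jBar (M * ℓ)) = 1 →
      Q.restrictAlong (heckeAlphaBar Qb M ℓ) hα = Q.restrictAlong (heckeBetaBar Qb M ℓ) hβ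

variable {M ℓ}

theorem restrict_of_eq {K : Type*} [Field K] [Algebra K ℂ] [IsAlgClosed K] (hℓ : ℓ.Prime)
    {X Y : IntermediateField K (LaurentSeries K)} (hX : X = modularFunctionFieldFullC K M)
    (hY : Y = modularFunctionFieldFullC K (M * ℓ)) (α β : X →ₐ[K] Y)
    (hαc : ∀ x, (α x : LaurentSeries K) = x)
    (hβc : ∀ x, (β x : LaurentSeries K) = qExpand K ℓ (x : LaurentSeries K))
    (hα : α.toRingHom.IsIntegral) (hβ : β.toRingHom.IsIntegral) (v : Place K Y) {jY : Y}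
    (hj : (jY : LaurentSeries K) = jqModC K) (hv : v.ord jY = 1) :
    v.restrictAlong α hα = v.restrictAlong β hβ := by
  subst hX hY
  obtain rfl : α = alphaC K M ℓ :=
    AlgHom.ext fun x => Subtype.ext ((hαc x).trans (coe_alphaC K M ℓ x).symm)
  obtain rfl : β = betaC K M ℓ :=
    AlgHom.ext fun x => Subtype.ext ((hβc x).trans (coe_betaC K M ℓ x).symm)
  obtain rfl : jY = H24.jF K (M * ℓ) := Subtype.ext hj
  exact H8C.restrictAlong_alpha_eq_beta K M ℓ hℓ hα hβ v hv

theorem ellSame (hℓ : ℓ.Prime) : EllSame M ℓ := by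
  intro hα hβ Q hQ
  let : Algebra Qb ℂ := H24.embBar.toAlgebra
  exact restrict_of_eq hℓ (H24.laurentBaseChange_full Qb M)
    (H24.laurentBaseChange_full Qb (M * ℓ)) _ _ (coe_heckeAlphaBar M ℓ) (coe_heckeBetaBar M ℓ)
    hα hβ Q rfl hQ

theorem alpha_jBar : heckeAlphaBar Qb M ℓ (H94.jBar M) = H94.jBar (M * ℓ) :=
  Subtype.ext (coe_heckeAlphaBar M ℓ _)

theorem restrict_eq (hℓ : ℓ.Prime) (hℓM : ¬ ℓ ∣ M)
    (hα : (heckeAlphaBar Qb M ℓ).toRingHom.IsIntegral)
    (hβ : (heckeBetaBar Qb M ℓ).toRingHom.IsIntegral)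
    (Q : Place Qb (modularFunctionFieldBar (M * ℓ)))
    (hQ : Q.ord (heckeBetaBar Qb M ℓ (H94.jBar M)) = 1) :
    Q.restrictAlong (heckeAlphaBar Qb M ℓ) hα = Q.restrictAlong (heckeBetaBar Qb M ℓ) hβ := by
  obtain ⟨w⟩ := H99.nonempty_AL (L := Qb) H24.embBar
    ((Nat.Prime.coprime_iff_not_dvd hℓ).mpr hℓM).symm
  have h1 := ellSame hℓ hα hβ (w.W • Q) (by
    rw [ord_smul' w.W w.invol, ← alpha_jBar, w.alpha, hQ])
  rw [restrictAlong_smul w.W w.invol _ _ hα hβ w.alpha,
    restrictAlong_smul w.W w.invol _ _ hβ hα w.beta] at h1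
  exact h1.symm

/-- the orders of `j` and `j(q^ℓ)` at their zeros are `1` or `3` -/
theorem ord_beta_cases (hℓ : ℓ.Prime) (hℓM : ¬ ℓ ∣ M)
    (Q : Place Qb (modularFunctionFieldBar (M * ℓ)))
    (hQ : 0 < Q.ord (heckeBetaBar Qb M ℓ (H94.jBar M))) :
    Q.ord (heckeBetaBar Qb M ℓ (H94.jBar M)) = 1 ∨
      Q.ord (heckeBetaBar Qb M ℓ (H94.jBar M)) = 3 := by
  obtain ⟨w⟩ := H99.nonempty_AL (L := Qb) H24.embBar
    ((Nat.Prime.coprime_iff_not_dvd hℓ).mpr hℓM).symm
  have hord : (w.W • Q).ord (H94.jBar (M * ℓ)) = Q.ord (heckeBetaBar Qb M ℓ (H94.jBar M)) := by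
    rw [ord_smul' w.W w.invol, ← alpha_jBar, w.alpha]
  have D := H94.x0PlaceData_bar (M * ℓ)
  rw [← hord] at hQ ⊢
  have h3 := D.ord_dvd_three _ hQ
  have h4 := D.ord_le_three (w.W • Q)
  generalize (w.W • Q).ord (H94.jBar (M * ℓ)) = m at *
  have h5 : m = 1 ∨ m = 2 ∨ m = 3 := by omega
  rcases h5 with h5 | h5 | h5
  · exact Or.inl h5
  · rw [h5] at h3; norm_num at h3
  · exact Or.inr h5

theorem finrank_beta (hℓ : ℓ.Prime) (hℓM : ¬ ℓ ∣ M) :
    finrankAlong Qb (heckeBetaBar Qb M ℓ) = ℓ + 1 := by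
  have : Fact ℓ.Prime := ⟨hℓ⟩
  have h2 := H9.psi_mul_finrank_beta (L := Qb) M ℓ
  have h3 : dedekindPsi (M * ℓ) = (ℓ + 1) * dedekindPsi M := by
    rw [mul_comm M ℓ]
    exact H45.dedekindPsi_mul_of_not_dvd hℓ (NeZero.ne M) hℓM
  rw [h3, mul_comm] at h2
  exact Nat.eq_of_mul_eq_mul_right (H67.dedekindPsi_pos M) h2

theorem finrank_alpha (hℓ : ℓ.Prime) (hℓM : ¬ ℓ ∣ M) :
    finrankAlong Qb (heckeAlphaBar Qb M ℓ) = ℓ + 1 := by
  have h2 := H67.relfinrank_full_mul (H67.degreeFact Qb) M ℓ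
  rw [← H67.finrank_alpha] at h2
  have h3 : dedekindPsi (M * ℓ) = (ℓ + 1) * dedekindPsi M := by
    rw [mul_comm M ℓ]
    exact H45.dedekindPsi_mul_of_not_dvd hℓ (NeZero.ne M) hℓM
  rw [h3, mul_comm] at h2
  exact Nat.eq_of_mul_eq_mul_right (H67.dedekindPsi_pos M) h2

/-- **(b1)** `T_ℓ P ≡ (ℓ + 1) P mod 3` for the elliptic points `P` of order `3`. -/
theorem dvd_hecke_ell3 (hℓ : ℓ.Prime) (hℓM : ¬ ℓ ∣ M)
    [HasPrincipalDivisors Qb (modularFunctionFieldBar (M * ℓ))]
    (hα : (heckeAlphaBar Qb M ℓ).toRingHom.IsIntegral)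
    (hβ : (heckeBetaBar Qb M ℓ).toRingHom.IsIntegral)
    {P : Place Qb (modularFunctionFieldBar M)} (hP : P.ord (H94.jBar M) = 1)
    (w : Place Qb (modularFunctionFieldBar M)) :
    (3 : ℤ) ∣ Divisor.correspondence (heckeBetaBar Qb M ℓ) (heckeAlphaBar Qb M ℓ) hβ hα
        (Finsupp.single P 1) w -
      ((ℓ : ℤ) + 1) * (Finsupp.single P (1 : ℤ) : Divisor Qb (modularFunctionFieldBar M)) w := by
  have hff : H94.FunField Qb (modularFunctionFieldBar M) := H94.funField_bar M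
  have hff' : H94.FunField Qb (modularFunctionFieldBar (M * ℓ)) := H94.funField_bar (M * ℓ)
  have h := dvd_correspondence_single (heckeBetaBar Qb M ℓ) (heckeAlphaBar Qb M ℓ) hβ hα
    (fundamentalIdentityAlong_of_funField _ hβ) H94.deg_eq_one 3 P (H94.deg_eq_one P)
    (fun Q hQ => ?_) w
  · rw [finrank_beta hℓ hℓM] at h
    push_cast at h
    exact h
  have h1 := Place.ord_restrictAlong (heckeBetaBar Qb M ℓ) hβ Q (H94.jBar M)
  rw [hQ, hP, mul_one] at h1
  have h2 : 0 < Place.ramificationIndexAlong (heckeBetaBar Qb M ℓ) Q := by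
    exact ramificationIndexAlong_pos _ hβ Q
  rcases ord_beta_cases hℓ hℓM Q (by rw [h1]; exact_mod_cast h2) with h3 | h3
  · right
    rw [restrict_eq hℓ hℓM hα hβ Q h3, hQ]
  · left
    rw [← h1, h3]

/-- **(b2)** the transpose -/
theorem dvd_hecke_ell3' (hℓ : ℓ.Prime) (hℓM : ¬ ℓ ∣ M)
    [HasPrincipalDivisors Qb (modularFunctionFieldBar (M * ℓ))]
    (hα : (heckeAlphaBar Qb M ℓ).toRingHom.IsIntegral)
    (hβ : (heckeBetaBar Qb M ℓ).toRingHom.IsIntegral)
    {P : Place Qb (modularFunctionFieldBar M)} (hP : P.ord (H94.jBar M) = 1)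
    (w : Place Qb (modularFunctionFieldBar M)) :
    (3 : ℤ) ∣ Divisor.correspondence (heckeAlphaBar Qb M ℓ) (heckeBetaBar Qb M ℓ) hα hβ
        (Finsupp.single P 1) w -
      ((ℓ : ℤ) + 1) * (Finsupp.single P (1 : ℤ) : Divisor Qb (modularFunctionFieldBar M)) w := by
  have hff : H94.FunField Qb (modularFunctionFieldBar M) := H94.funField_bar M
  have hff' : H94.FunField Qb (modularFunctionFieldBar (M * ℓ)) := H94.funField_bar (M * ℓ)
  have h := dvd_correspondence_single (heckeAlphaBar Qb M ℓ) (heckeBetaBar Qb M ℓ) hα hβ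
    (fundamentalIdentityAlong_of_funField _ hα) H94.deg_eq_one 3 P (H94.deg_eq_one P)
    (fun Q hQ => ?_) w
  · rw [finrank_alpha hℓ hℓM] at h
    push_cast at h
    exact h
  have h1 := Place.ord_restrictAlong (heckeAlphaBar Qb M ℓ) hα Q (H94.jBar M)
  rw [hQ, hP, mul_one, alpha_jBar] at h1
  have h2 : 0 < Place.ramificationIndexAlong (heckeAlphaBar Qb M ℓ) Q := by
    exact ramificationIndexAlong_pos _ hα Q
  have D := H94.x0PlaceData_bar (M * ℓ)
  have h3 := D.ord_dvd_three Q (by rw [h1]; exact_mod_cast h2)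
  have h4 := D.ord_le_three Q
  have h5 : Q.ord (H94.jBar (M * ℓ)) = 1 ∨ Q.ord (H94.jBar (M * ℓ)) = 3 := by
    generalize Q.ord (H94.jBar (M * ℓ)) = m at *
    have h5 : m = 1 ∨ m = 2 ∨ m = 3 := by omega
    rcases h5 with h5 | h5 | h5
    · exact Or.inl h5
    · rw [h5] at h3; norm_num at h3
    · exact Or.inr h5
  rcases h5 with h5 | h5
  · right
    rw [← ellSame hℓ hα hβ Q h5, hQ]
  · left
    rw [← h1, h5]

end CharZero

section Red

variable {A : ValuationSubring Qb}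

local notation "kA" => IsLocalRing.ResidueField A

set_option synthInstance.maxHeartbeats 400000 in
set_option maxHeartbeats 1000000 in
/-- reduction commutes with the Hecke correspondence on divisors -/
theorem exists_reduction (M ℓ : ℕ) [NeZero M] [NeZero ℓ] (hℓ : ℓ.Prime) {q : ℕ} (hq : q.Prime)
    (hA : A.LiesOverPrime q) (hqM : ¬ q ∣ M * ℓ)
    [IsAlgClosed kA] [H94.FunField kA (modularFunctionFieldFullC kA M)]
    [H94.FunField kA (modularFunctionFieldFullC kA (M * ℓ))]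
    [HasPrincipalDivisors Qb (modularFunctionFieldBar (M * ℓ))]
    [HasPrincipalDivisors kA (modularFunctionFieldFullC kA (M * ℓ))]
    (hα : (heckeAlphaBar Qb M ℓ).toRingHom.IsIntegral)
    (hβ : (heckeBetaBar Qb M ℓ).toRingHom.IsIntegral)
    (hα' : (alphaC kA M ℓ).toRingHom.IsIntegral) (hβ' : (betaC kA M ℓ).toRingHom.IsIntegral) :
    ∃ r : Place Qb (modularFunctionFieldBar M) → Place kA (modularFunctionFieldFullC kA M),
      IsPlaceReductionAlong A (IsLocalRing.residue A) M r ∧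
      ∀ D : Divisor Qb (modularFunctionFieldBar M),
        Divisor.correspondence (betaC kA M ℓ) (alphaC kA M ℓ) hβ' hα' (Finsupp.mapDomain r D) =
          Finsupp.mapDomain r (Divisor.correspondence (heckeBetaBar Qb M ℓ)
            (heckeAlphaBar Qb M ℓ) hβ hα D) := by
  have : Fact ℓ.Prime := ⟨hℓ⟩
  have hqM0 : ¬ q ∣ M := fun h => hqM (h.mul_right ℓ)
  have hdeg := H42.degLE_place hq hA hqM0
  have hdeg' := H42.degLE_place hq hA hqM
  obtain ⟨S, hS, hr⟩ := exists_goodRed_modL hdeg (H31.genusEqAt M hq hqM0 A hA)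
    (reductionInputs M hq hqM0 A hA)
  obtain ⟨S', hS', -⟩ := exists_goodRed_modL hdeg' (H31.genusEqAt (M * ℓ) hq hqM A hA)
    (reductionInputs (M * ℓ) hq hqM A hA)
  have hcast : ((M * ℓ : ℕ) : kA) ≠ 0 := H42.natCast_ne_zero_of_liesOver hq hA hqM
  have hpos : 0 < dedekindPsi M := H67.dedekindPsi_pos M
  have hrα : finrankAlong Qb (heckeAlphaBar Qb M ℓ) ≤ finrankAlong kA (alphaC kA M ℓ) := by
    have h1 := finrank_alphaC kA M ℓ hcast
    have h2 := H67.relfinrank_full_mul (H67.degreeFact Qb) M ℓ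
    rw [← H67.finrank_alpha, ← h1] at h2
    exact (Nat.eq_of_mul_eq_mul_left hpos h2).le
  have hrβ : finrankAlong Qb (heckeBetaBar Qb M ℓ) ≤ finrankAlong kA (betaC kA M ℓ) := by
    have h1 := finrank_betaC kA M ℓ hcast
    have h2 := H9.psi_mul_finrank_beta (L := Qb) M ℓ
    rw [← h1] at h2
    exact (Nat.eq_of_mul_eq_mul_left hpos h2).le
  have Δα := degMap_of hdeg hdeg' S S' hS hS' (heckeAlphaBar Qb M ℓ)
    (alphaC kA M ℓ) (fun b hb => alpha_mem hdeg hdeg' hb)
    (fun b => alpha_red hdeg hdeg' b) hrα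
  have Δβ := degMap_of hdeg hdeg' S S' hS hS' (heckeBetaBar Qb M ℓ)
    (betaC kA M ℓ) (fun b hb => beta_mem hdeg hdeg' hb)
    (fun b => beta_red hdeg hdeg' b) hrβ
  refine ⟨S.r, ?_, fun D => ?_⟩
  · rw [hr]
    exact isPlaceReductionModL_placeReductionModL _
  · rw [Divisor.correspondence_apply, Divisor.correspondence_apply]
    have h2 := Δα.push (Divisor.pullbackAlong (heckeBetaBar Qb M ℓ) hβ D)
    have h3 := Δβ.pull D
    rw [h2, h3]

set_option synthInstance.maxHeartbeats 400000 in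
set_option maxHeartbeats 1000000 in
/-- `T_ℓ s ≡ (ℓ + 1) s mod 3` on the reduction of `X₀(M)`, for the non cuspidal places `s` at which
the order of `j` is prime to `3`. -/
theorem dvd_TC_single {M ℓ : ℕ} [NeZero M] [NeZero ℓ] (hℓ : ℓ.Prime) (hℓM : ¬ ℓ ∣ M)
    {q : ℕ} (hq : q.Prime)
    (hA : A.LiesOverPrime q) (hqM : ¬ q ∣ M * ℓ)
    [IsAlgClosed kA] [H94.FunField kA (modularFunctionFieldFullC kA M)]
    [H94.FunField kA (modularFunctionFieldFullC kA (M * ℓ))]
    [HasPrincipalDivisors kA (modularFunctionFieldFullC kA (M * ℓ))]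
    (hα' : (alphaC kA M ℓ).toRingHom.IsIntegral) (hβ' : (betaC kA M ℓ).toRingHom.IsIntegral)
    (s : Place kA (modularFunctionFieldFullC kA M)) (hs0 : 0 ≤ s.ord (H8.jC kA M))
    (hs : ¬ (3 : ℤ) ∣ s.ord (H8.jC kA M)) (w : Place kA (modularFunctionFieldFullC kA M)) :
    (3 : ℤ) ∣ Divisor.correspondence (betaC kA M ℓ) (alphaC kA M ℓ) hβ' hα'
        (Finsupp.single s 1) w -
      ((ℓ : ℤ) + 1) *
        (Finsupp.single s (1 : ℤ) : Divisor kA (modularFunctionFieldFullC kA M)) w := by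
  have hqM0 : ¬ q ∣ M := fun h => hqM (h.mul_right ℓ)
  have hff : H94.FunField Qb (modularFunctionFieldBar M) := H94.funField_bar M
  have hff' : H94.FunField Qb (modularFunctionFieldBar (M * ℓ)) := H94.funField_bar (M * ℓ)
  have hPD : HasPrincipalDivisors Qb (modularFunctionFieldBar (M * ℓ)) :=
    H18.hasPrincipalDivisors _ _
  have hα := isIntegral_of_funField (heckeAlphaBar Qb M ℓ)
  have hβ := isIntegral_of_funField (heckeBetaBar Qb M ℓ)
  obtain ⟨r, hr, hcorr⟩ := exists_reduction M ℓ hℓ hq hA hqM hα hβ hα' hβ'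
  obtain ⟨P, hPs, hP⟩ := H98C.exists_ell3_of_not_dvd
    (H42.natCast_ne_zero_of_liesOver hq hA hqM0) hr s hs0 hs
  have h1 := hcorr (Finsupp.single P 1)
  rw [Finsupp.mapDomain_single, hPs] at h1
  rw [h1]
  have h2 : ((ℓ : ℤ) + 1) *
        (Finsupp.single s (1 : ℤ) : Divisor kA (modularFunctionFieldFullC kA M)) w =
      Finsupp.mapDomain r (((ℓ : ℤ) + 1) •
        (Finsupp.single P (1 : ℤ) : Divisor Qb (modularFunctionFieldBar M))) w := by
    rw [Finsupp.mapDomain_smul, Finsupp.mapDomain_single, hPs, Finsupp.smul_apply, smul_eq_mul]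
  rw [h2, ← H18.mapDomain_sub_apply]
  refine dvd_mapDomain r 3 (fun x => ?_) w
  rw [Finsupp.sub_apply, Finsupp.smul_apply, smul_eq_mul]
  exact dvd_hecke_ell3 hℓ hℓM hα hβ hP x

end Red

end Fermat.Agent.H26C
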