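import Fermat.Agent.H17Hk
import Fermat.Agent.H9Hecke

/-!
# Eisenstein places: the last step of level lowering at `3` (COMPLETE, helper8)

`dvd_ord_of_eisenstein`: if the divisor of `g` is, modulo `p`, an eigenvector of a correspondence with
eigenvalue `a`, and the correspondence multiplies by `d` modulo `p` every place at which the order
of `g` is not divisible by `p`, and `a ≢ d mod p`, then the divisor of `g` is divisible by `p`.
-/

set_option autoImplicit false
set_option linter.unusedSectionVars false

noncomputable section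

open AlgebraicCurve

namespace Fermat.Agent.H8C

variable {K F : Type*} [Field K] [Field F] [Algebra K F]

theorem dvd_map_sub {p : ℕ} (T : Divisor K F →+ Divisor K F) {d : ℤ} (D : Divisor K F)
    (hT : ∀ s : Place K F, ¬ (p : ℤ) ∣ D s → ∀ w : Place K F,
      (p : ℤ) ∣ T (Finsupp.single s 1) w - d * (Finsupp.single s (1 : ℤ) : Divisor K F) w)
    (w : Place K F) : (p : ℤ) ∣ T D w - d * D w := by
  classical
  have h1 : D = D.sum fun s n => n • (Finsupp.single s (1 : ℤ) : Divisor K F) := by
    conv_lhs => rw [← D.sum_single]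
    refine Finsupp.sum_congr fun s _ => ?_
    rw [Finsupp.smul_single, smul_eq_mul, mul_one]
  have h2 : T D w - d * D w = D.sum fun s n =>
      n * (T (Finsupp.single s 1) w - d * (Finsupp.single s (1 : ℤ) : Divisor K F) w) := by
    conv_lhs => rw [h1]
    rw [Finsupp.sum, map_sum, Finsupp.finsetSum_apply, Finsupp.finsetSum_apply, Finset.mul_sum,
      ← Finset.sum_sub_distrib]
    refine Finset.sum_congr rfl fun s _ => ?_
    rw [map_zsmul, Finsupp.smul_apply, Finsupp.smul_apply, smul_eq_mul, smul_eq_mul]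
    ring
  rw [h2]
  refine Finset.dvd_sum fun s _ => ?_
  by_cases hs : (p : ℤ) ∣ D s
  · exact Dvd.dvd.mul_right hs _
  · exact Dvd.dvd.mul_left (hT s hs w) _

/-- **Eisenstein places.** -/
theorem dvd_ord_of_eisenstein {p : ℕ} (hp : p.Prime) (T : Divisor K F →+ Divisor K F) {a d : ℤ}
    (had : ¬ (p : ℤ) ∣ a - d) (D : Divisor K F)
    (hT : ∀ s : Place K F, ¬ (p : ℤ) ∣ D s → ∀ w : Place K F,
      (p : ℤ) ∣ T (Finsupp.single s 1) w - d * (Finsupp.single s (1 : ℤ) : Divisor K F) w)
    (hN : ∀ w : Place K F, (p : ℤ) ∣ T D w - a * D w) (w : Place K F) : (p : ℤ) ∣ D w := by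
  have h1 := dvd_map_sub T D hT w
  have h2 : (p : ℤ) ∣ (a - d) * D w := by
    have h3 := dvd_sub h1 (hN w)
    have h4 : T D w - d * D w - (T D w - a * D w) = (a - d) * D w := by ring
    rwa [h4] at h3
  exact ((Nat.prime_iff_prime_int.mp hp).dvd_mul.mp h2).resolve_left had

end Fermat.Agent.H8C
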