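import Fermat.Agent.H8MazurOdd
import Fermat.Agent.H26CEll
import Fermat.Agent.H8CThree

/-!
# Reader's guide: the prime `3` in the change of level

Companion of `GuideLevelsMazur`, section 4 (the node formula at `p = 3`) and of `GuideLevelsAtP`, section 5
(elliptic points of order three).  Nothing imports this file, and it contains no new mathematics.  Text and
library files: helper8.  Prose: NOTES [76], [332], [340].

**Serves.**  Sections 1 to 4: S38, S43, S59, S60 and what is deduced from them (S03, S04, S06, S45, S46,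
S50, S01); `degree_of_j` is also used for S39 and S40, the general facts `places_above`, `norm_of_unit` and
`reduction_of_divisors` for most of the statements on modular curves.  Sections 5 to 7: S39 and S40.

**The question.**  In both places a divisibility by `p` is known on a curve `X₀(m)` of auxiliary level and
is needed on `X₀(M)`, `M ∣ m`.  For `p ≥ 5` the degree of the covering can be chosen prime to `p`; for
`p = 3` this is not possible: an elliptic point of order `3` of `X₀(M)` (a zero of `j` where the level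
structure is stable under an automorphism of order `3`) is ramified of index `3` in every covering without
elliptic points.  The two answers are different.

**First answer (sections 1 to 4; Mazur's principle).**  If a prime `s ≡ 2` modulo `3` divides `M`, there are
no elliptic points of order `3` on `X₀(M)`, and the order of `j` is divisible by `3` at all the zeros of
`j`, also in characteristic `q ∤ M`.  The function `j(q³)` is a cube at level `9`, so the covering
`X₀(9 M') → X₀(M)`, `f(τ) ↦ f(3τ)`, contains the cubic extension of the function field given by a cube root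
of `j`, which is unramified wherever `3` divides the order of `j`; the rest of the covering has degree `4`
or `1`.

**Second answer (sections 5 to 7; level lowering at `p = 3`).**  Without a condition on `M` one shows that
the elliptic points are Eisenstein (`GuideEllipticPoints`, where also the descent from `X₀(m)`,
`4 ∣ m`, outside these points is proved): a point `P` of `X₀(M)` in characteristic `0` at which `j` has a
simple zero satisfies `T_ℓ P ≡ (ℓ + 1) P` modulo `3`, `ℓ ∤ M`.  Here `T_ℓ P` is the sum of the `α(t)`, `t` a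
point of `X₀(M ℓ)` with `β(t) = P`, with multiplicity the ramification index of `β` at `t`, which is the
order of `j(q^ℓ)` at `t`; the sum of the multiplicities is `ℓ + 1`.  If the index is `3`, the term does not
count modulo `3`; if it is `1`, then `t` is elliptic and `α(t) = β(t) = P`.  This last fact is (up to the
involution `w_ℓ`, which exchanges `α` and `β`) the theorem `GuideLevelsAtP.restrict_alpha_eq_beta`; here are
the steps of its proof, which uses no moduli problem: an elliptic curve with an automorphism of order `3` is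
the point `ρ = e^(2πi/3)` of the upper half plane, and an isogeny of degree `ℓ` to itself is a rotation
about `ρ`.

**Reading order.**  1 Pure cubic extensions (`H8Kum3`).  2 The order of `j` (`H8Ord3`).  3 The covering of
level `9` (`H8V3`).  4 The node formula (`H8Smooth`, `H8Node3`, `H8MazurOdd`).  5 The arithmetic of the
rotation (`H8CEll`).  6 The two maps near an elliptic point (`H8CEll`).  7 The Eisenstein step (`H8CThree`).
-/

set_option autoImplicit false
set_option synthInstance.maxHeartbeats 200000

noncomputable section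

namespace Fermat.Agent.Guide.LevelThree

open AlgebraicCurve ModularCurve CongruenceSubgroup
open UpperHalfPlane hiding I
open scoped MatrixGroups

/-- The field of algebraic numbers. -/
local notation "Qb" => AlgebraicClosure ℚ

/-- The function field of `X₀(N)` over an arbitrary field `k`, a subfield of `k((q))`. -/
local notation "FC" => modularFunctionFieldFullC

/-- The function field of `X₀(N)` over `ℚ̄`. -/
local notation "FB" => Fermat.Agent.H67.FB (AlgebraicClosure ℚ)

/-! ## 1. Places above a place in a pure cubic extension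

`F ⊆ F₁` are function fields over an algebraically closed field `K`; `Place K F` is the set of places
(points of the curve), `w.ord a` the order of `a` at `w`, `w₁.restrict F` the place of `F` below the place
`w₁` of `F₁`. -/

/-- **Finite extensions.**  A finite extension of a function field of one variable is again one
(`H3RR.IsFF K F`: there is a transcendental `x ∈ F` with `F` finite over `K(x)`). -/
theorem finite_extension {K F F' : Type*} [Field K] [Field F] [Algebra K F] [Field F'] [Algebra K F']
    [Algebra F F'] [IsScalarTower K F F'] [Module.Finite F F'] [H3RR.IsFF K F] : H3RR.IsFF K F' :=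
  H8.isFF_of_finite (F := F)

/-- **Places above a place** `v` of `F`: there is at least one, and the sum of the ramification indices is
`[F' : F]` (`K` is algebraically closed, so there are no residue degrees). -/
theorem places_above {K F F' : Type*} [Field K] [Field F] [Field F'] [Algebra K F] [Algebra K F']
    [Algebra F F'] [IsScalarTower K F F'] [Module.Finite F F'] [H3RR.IsFF K F'] [H3RR.IsFF K F]
    [IsAlgClosed K] (v : Place K F) :
    (∃ w : Place K F', w.restrict F = v) ∧
      ∀ S : Finset (Place K F'), (∀ w : Place K F', w ∈ S ↔ w.restrict F = v) →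
        ∑ w ∈ S, w.ramificationIndex F = Module.finrank F F' :=
  ⟨H88.exists_restrict_eq v, H88.sum_ramificationIndex v⟩

/-- **Norms of local units.**  If `h` is a unit at all the places above `v`, its norm is a unit at `v`
(`v.adicValuation` is the absolute value of the place `v`, written multiplicatively). -/
theorem norm_of_unit {K F F' : Type*} [Field K] [Field F] [Field F'] [Algebra K F] [Algebra K F']
    [Algebra F F'] [IsScalarTower K F F'] [Module.Finite F F'] [H3RR.IsFF K F']
    [Algebra.IsSeparable F F'] (v : Place K F) {h : F'}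
    (hh : ∀ w : Place K F', w.restrict F = v → w.adicValuation h = 1) :
    v.adicValuation (Algebra.norm F h) = 1 :=
  H88.norm_eq_one v hh

/-- **A norm.**  If `v³ = u ∈ F` generates the extension `F'` of degree `3` of `F`, then the norm of `v - b`,
`b ∈ F`, is `u - b³`. -/
theorem norm_of_generator {F F' : Type*} [Field F] [Field F'] [Algebra F F'] [Module.Finite F F']
    {v : F'} {u : F} (hv : v ^ 3 = algebraMap F F' u) (hdeg : Module.finrank F F' = 3)
    (hgen : IntermediateField.adjoin F {v} = ⊤) (b : F) :
    Algebra.norm F (v - algebraMap F F' b) = u - b ^ 3 :=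
  H8.norm_sub_of_cube hv hdeg hgen b

/-- **A pure cubic extension is unramified where `3` divides the order of the radicand** (characteristic
different from `3`): `F₁ = F(γ)`, `γ³ = a`, `[F₁ : F] = 3`, and `3 ∣ ord_w(a)`; then the ramification index
of a place `w₁` above `w` is not divisible by `3`.  Proof: if it were `3`, then `w₁` would be the only place
above `w`.  Divide `γ` by a suitable element of `F`: one may assume that `a` is a unit `u` at `w`, and
`v³ = u`.  Let `c` be the value of `v` at `w₁` and `ζ` a primitive third root of unity.  Then `v - ζ c` is a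
unit at `w₁`, so its norm `u - c³` is a unit at `w`; but `u - c³ = v³ - c³` vanishes at `w₁`. -/
theorem pure_cubic_unramified {K F F₁ : Type*} [Field K] [IsAlgClosed K] [Field F] [Field F₁]
    [Algebra K F] [Algebra K F₁] [Algebra F F₁] [IsScalarTower K F F₁] [Module.Finite F F₁]
    [H3RR.IsFF K F] [H3RR.IsFF K F₁] (h3 : (3 : K) ≠ 0) {γ : F₁} {a : F}
    (hγ : γ ^ 3 = algebraMap F F₁ a) (ha : a ≠ 0) (hdeg : Module.finrank F F₁ = 3)
    (hgen : IntermediateField.adjoin F {γ} = ⊤) (w : Place K F) (hw : (3 : ℤ) ∣ w.ord a)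
    (w₁ : Place K F₁) (hw₁ : w₁.restrict F = w) : ¬ 3 ∣ w₁.ramificationIndex F :=
  H8.not_three_dvd_ramificationIndex h3 hγ ha hdeg hgen w hw w₁ hw₁

/-- **Counting.**  If `p` does not divide `[F₂ : F]` then above every place of `F` there is a place whose
ramification index is not divisible by `p`: the sum of the ramification indices is `[F₂ : F]`.  (With the
previous theorem for `F ⊆ F(γ)` and this one for `F(γ) ⊆ F₂` one gets
`GuideLevelsMazur.exists_place_of_cube_root`.) -/
theorem exists_place_prime_to {K F F₂ : Type*} [Field K] [IsAlgClosed K] [Field F] [Field F₂]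
    [Algebra K F] [Algebra K F₂] [Algebra F F₂] [IsScalarTower K F F₂] [Module.Finite F F₂]
    [H3RR.IsFF K F] {p : ℕ} (hp : ¬ p ∣ Module.finrank F F₂) (w : Place K F) :
    ∃ w₂ : Place K F₂, w₂.restrict F = w ∧ ¬ p ∣ w₂.ramificationIndex F :=
  H8.exists_place_of_not_dvd hp w

/-! ## 2. The order of `j` -/

/-- **The function `j` on `X₀(M)` in characteristic prime to `M`.**  `FC k M` is a function field of one
variable, `j` is transcendental, and `[FC k M : k(j)] = ψ(M)`, the Dedekind function. -/
theorem degree_of_j {k : Type*} [Field k] [IsAlgClosed k] {M : ℕ} [NeZero M] (hM : (M : k) ≠ 0) :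
    H94.FunField k (FC k M) ∧ Transcendental k (H8.jC k M) ∧
      Module.finrank (IntermediateField.adjoin k {H8.jC k M}) (FC k M) = dedekindPsi M :=
  ⟨H8.funField_fullC hM, H8.transcendental_jC, H8.finrank_jC hM⟩

/-- **No elliptic points of order `3`.**  `nuThree M` is the number of solutions of `x² + x + 1 = 0` modulo
`M` (it is the number of elliptic points of order `3`).  It is zero if a prime `s ≡ 2` modulo `3` divides
`M`: a solution modulo `s` would be an element of order `3` of a group of order `s - 1`. -/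
theorem no_elliptic_points {M s : ℕ} (hs : s.Prime) (hs3 : s % 3 = 2) (h : s ∣ M) :
    nuThree M = Nat.card {x : ZMod M // x ^ 2 + x + 1 = 0} ∧ nuThree M = 0 :=
  ⟨rfl, H8.nuThree_eq_zero hs hs3 h⟩

/-- **The zeros of `j` are triple if there are no elliptic points of order `3`** (characteristic `0`).  The
structure `X0PlaceData K F M j` says that `F` is the function field of `X₀(M)` with function `j`.  Proof:
there are `ψ(M) / 3` zeros, each of order at most `3`, and the sum of the orders is `ψ(M)`. -/
theorem zeros_of_j {K F : Type*} [Field K] [Field F] [Algebra K F] [CharZero K] [IsAlgClosed K]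
    [H94.FunField K F] {M : ℕ} [NeZero M] {j : F} (D : H94.X0PlaceData K F M j)
    (hM : nuThree M = 0) (v : Place K F) (hv : 0 < v.ord j) : v.ord j = 3 :=
  H8.ord_eq_three D hM v hv

/-- **Reduction of divisors.**  Two facts used to carry this over to characteristic `q`.  `r` is the
reduction of places, `Finsupp.mapDomain r D` the reduction of a divisor `D`.  (a) The reduction of divisors
is additive.  (b) On a curve over an algebraically closed field all places have degree one, and two divisors
`D ≤ D'` of the same degree are equal.  So the divisor of poles of `j` reduces to the divisor of poles of `j`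
(both have degree `ψ(M)`), hence the divisor of zeros of `j` to the divisor of zeros, and it stays divisible
by `3` (`GuideLevelsMazur.three_dvd_ord_j`). -/
theorem reduction_of_divisors {K F k E : Type*} [Field K] [Field F] [Algebra K F] [Field k] [Field E]
    [Algebra k E] {r : Place K F → Place k E} :
    (∀ (D D' : Divisor K F) (Q : Place k E), Finsupp.mapDomain r (D - D') Q =
      Finsupp.mapDomain r D Q - Finsupp.mapDomain r D' Q) ∧
    ((∀ v : Place k E, v.deg = 1) → ∀ {D D' : Divisor k E}, D ≤ D' →
      Divisor.degree D' ≤ Divisor.degree D → D = D') :=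
  ⟨H18.mapDomain_sub_apply, fun h _ _ h1 h2 => H40.eq_of_le_of_degree_le h h1 h2⟩

/-! ## 3. The covering of level `9` -/

/-- **The cube root of `j(q³)`.**  Let `X = (η(z)/η(9z))³` (`H1.X9`), a Hauptmodul of `X₀(9)`, and
`γ = (X + 9)(X + 3)(X² + 27) / (X (X² + 9X + 27))`.  Then `γ³ = j(q³)`, an identity of Laurent series over
every field, and `γ` belongs to the function field of `X₀(m)` for `9 ∣ m` if `3 ≠ 0`.  (`γ` is Weber's
function `γ₂(3z)`.) -/
theorem cube_root_of_j {k : Type*} [Field k] :
    H8.gam k = (H1.X9 k + 9) * (H1.X9 k + 3) * (H1.X9 k ^ 2 + 27) /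
      (H1.X9 k * (H1.X9 k ^ 2 + 9 * H1.X9 k + 27)) ∧
    H8.gam k ^ 3 = qExpand k 3 (jqModC k) ∧
    ∀ [IsAlgClosed k], (3 : k) ≠ 0 → ∀ {m : ℕ} [NeZero m], 9 ∣ m → H8.gam k ∈ FC k m :=
  ⟨rfl, H8.gam_cube, fun h3 _ _ h9 => H8.gam_mem h3 h9⟩

/-- **`j` is not a cube** in the function field of `X₀(M)`: the order of `j = q⁻¹ + 744 + …` is `-1`. -/
theorem j_not_a_cube {k : Type*} [Field k] {M : ℕ} :
    (jqModC k).order = -1 ∧ ∀ b : FC k M, b ^ 3 ≠ H8.jC k M :=
  ⟨H8.order_jqModC', H8.not_cube_jC⟩

/-- **The embedding** `f(τ) ↦ f(3τ)`, that is, `f(q) ↦ f(q³)`, of the function field of `X₀(M)` into that of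
`X₀(m)`, `3 M ∣ m` (`H8.V3`). -/
theorem embedding {k : Type*} [Field k] {M m : ℕ} [NeZero M] [NeZero m] (h : M * 3 ∣ m)
    (f : FC k M) : (H8.V3 k h f : LaurentSeries k) = qExpand k 3 (f : LaurentSeries k) :=
  rfl

/-- **Its degree.**  Let `M = M'` or `M = 3 M'`, `3 ∤ M'`, and `m = 9 M'`, prime to the characteristic.  The
degree `n` of the function field of `X₀(m)` over the image of that of `X₀(M)` satisfies `ψ(m) = n ψ(M)`
(compare the degrees over `k(j(q³))`), so it is `12` or `3`; it is not divisible by `9`. -/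
theorem degree_of_embedding {k : Type*} [Field k] [IsAlgClosed k] {M m M' : ℕ} [NeZero M] [NeZero m]
    (h3k : (3 : k) ≠ 0) (h3 : ¬ 3 ∣ M') (hM' : M' ≠ 0) (hM : M = M' ∨ M = 3 * M') (hm : m = 9 * M')
    (hMm : M * 3 ∣ m) (hmk : (m : k) ≠ 0) (hMk : (M : k) ≠ 0) (h9 : 9 ∣ m) :
    dedekindPsi M * IntermediateField.relfinrank ((FC k M).map (qExpandAlgHomC k 3)) (FC k m) =
      dedekindPsi m ∧
    ∃ n : ℕ, dedekindPsi m = n * dedekindPsi M ∧ n ≠ 0 ∧ ¬ 9 ∣ n :=
  ⟨H8.relfinrank_map_V3 h3k hMm hmk hMk h9, H8.psi_rel h3 hM' hM hm⟩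

/-! ## 4. The node formula at level `M` from the level `9 M'` -/

/-- **Smooth points.**  `S` is a two-sheeted model (`H97.Sheets`; `GuideNodeParameters`, `GuideTwoSheets`),
`u` a function all orders of which are divisible by `d`, of absolute value `1` on the first component.  At a
point `x` of the first component which is not a node the order of the reduction of `u` is divisible by `d`:
it is the degree of the divisor of `u` on the residue class of `x`. -/
theorem smooth_points {K F₀ F k κ Γ : Type*} [Field K] [Field F₀] [Field F] [Algebra K F₀] [Algebra K F]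
    [Field k] [Field κ] [Algebra k κ] [LinearOrderedCommGroupWithZero Γ] {q : ℕ} [IsAlgClosed K]
    [CharZero K] [H3RR.IsFF K F₀] [H3RR.IsFF K F] [IsAlgClosed k] [H3RR.IsFF k κ]
    [H94.FunField K F₀] [H94.FunField K F] [Fact q.Prime] [CharP k q] (S : H97.Sheets K F₀ F k κ Γ q)
    {d : ℕ} {x : Place k κ} (hx : ¬ S.Node x) {u : F} (hu0 : u ≠ 0)
    (hdiv : ∀ v : Place K F, (d : ℤ) ∣ v.ord u) (hv : S.v false u = 1) :
    (d : ℤ) ∣ x.ord (S.ρ false u) :=
  H8.dvd_ord_of_not_node S hx hu0 hdiv hv

/-- **The cusps.**  The same for the model of `X₀(M q)` over `X₀(M)` at a pole `P` of `j`: nodes are not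
cusps (`GuideNodeParameters.nodes_are_not_cusps`).  `H97.v1 … u = 1` says that `u` has absolute value `1` on
the first component, `(H34.Two.comp1 …).red u` is its reduction, `H34.Two.jk k M` the function `j`; the
hypotheses are those of section 4 of `GuideNodeParameters`.  (`H99.FX Qb M` is the function field of `X₀(M)`
over `ℚ̄`; `w`, of type `H99.AL Qb M q`, the Atkin-Lehner involution; `H97.Arch A`: every nonzero element of
`A` divides a power of every non-unit; `r` the reduction of places, compatible with the reduction of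
divisors of large degree, `hr1`, and with the divisors of integral functions, `H34.GR.DivCompat`.) -/
theorem cusps_are_smooth {M q : ℕ} [NeZero M] [NeZero q] [NeZero (M * q)] [Fact q.Prime]
    {A : ValuationSubring Qb} {k : Type} [Field k] [CharP k q] [Infinite k] [IsAlgClosed k]
    {π : A →+* k} [IsLocalHom π] (w : H99.AL Qb M q) (hπ : Function.Surjective π)
    (hdeg : H42.DegLE Qb k M) (hqM : ¬ q ∣ M) (arch : H97.Arch A)
    (r : Place Qb (H99.FX Qb M) → Place k (FC k M)) {c : ℕ}
    (hr1 : ∀ D : Divisor Qb (H99.FX Qb M), (c : ℤ) < Divisor.degree D →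
      (H42.modReductionData A π M hπ hdeg).IsRed D (Finsupp.mapDomain r D))
    (hr2 : H34.GR.DivCompat (H42.modReductionData A π M hπ hdeg) r)
    {d : ℕ} {u : FB (M * q)} (hu0 : u ≠ 0)
    (hdiv : ∀ v : Place Qb (FB (M * q)), (d : ℤ) ∣ v.ord u)
    (hv : H97.v1 A π w hπ (H42.degreeFact Qb) hdeg hqM u = 1)
    {P : Place k (FC k M)} (hP : P.ord (H34.Two.jk k M) < 0) :
    (d : ℤ) ∣ P.ord ((H34.Two.comp1 A π w hπ (H42.degreeFact Qb) hdeg hqM).red u) :=
  H8.dvd_ord_cusp w hπ hdeg hqM arch r hr1 hr2 hu0 hdiv hv hP

/-- **Descent of the node formula** (`NodeInput`, see `GuideLevelsMazur.nodeInput_iff`) modulo a power of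
`3` from the level `m = 9 M'` to the level `M = M'` or `3 M'`, `3 ∤ M'`, if the order of `j` is divisible by
`3` at all the places of `X₀(M)` in characteristic `q` where it is not negative.  Proof: at such a place `P`
choose `P'` on `X₀(m)` with ramification index `e` prime to `3` (sections 1 and 3); the formula for `u(q³)`,
`u` the Kummer function, at `P'` says that `e` times the order at `P` is divisible by `3^j`.  At the cusps
use `cusps_are_smooth`. -/
theorem node_formula_descends {M m M' q : ℕ} [NeZero M] [NeZero m] [NeZero q] [NeZero (M * q)]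
    [NeZero (m * q)] [Fact q.Prime] {A : ValuationSubring Qb} {k : Type} [Field k] [CharP k q]
    [Infinite k] [IsAlgClosed k] {π : A →+* k} [IsLocalHom π] (w : H99.AL Qb M q)
    (hπ : Function.Surjective π) (hdeg : H42.DegLE Qb k M) (hqM : ¬ q ∣ M) (arch : H97.Arch A)
    (r : Place Qb (H99.FX Qb M) → Place k (FC k M)) {c : ℕ}
    (hr1 : ∀ D : Divisor Qb (H99.FX Qb M), (c : ℤ) < Divisor.degree D →
      (H42.modReductionData A π M hπ hdeg).IsRed D (Finsupp.mapDomain r D))
    (hr2 : H34.GR.DivCompat (H42.modReductionData A π M hπ hdeg) r)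
    (h3k : (3 : k) ≠ 0) (hmk : (m : k) ≠ 0) (h3 : ¬ 3 ∣ M') (hM : M = M' ∨ M = 3 * M')
    (hm : m = 9 * M')
    (hord3 : ∀ P : Place k (FC k M), 0 ≤ P.ord (H8.jC k M) → (3 : ℤ) ∣ P.ord (H8.jC k M)) {j : ℕ}
    (h : H35.Geo.NodeInput (3 ^ j) 1 q m A π) : H35.Geo.NodeInput (3 ^ j) 1 q M A π :=
  H8.nodeInput_three w hπ hdeg hqM arch r hr1 hr2 h3k hmk h3 hM hm hord3 h

/-! ## 5. The arithmetic of the rotation

In this section `ℓ` is a prime number, and `S`, `T` are the standard generators of `SL₂(ℤ)`: `τ ↦ -1/τ`,
`τ ↦ τ + 1`.  The matrix `S T = (0, -1; 1, 1)` has order `6`, `(S T)³ = -1`; it acts on the upper half plane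
as a rotation of order `3` about `ρ = e^(2πi/3)`. -/

/-- **Thue's lemma.**  For every `a` there are `x`, `y`, not both zero, of absolute value less than `√ℓ`, with
`ℓ ∣ x + y a`: there are more than `ℓ` pairs of integers in `[0, √ℓ]`. -/
theorem thue {ℓ : ℕ} (hℓ : ℓ.Prime) (a : ℤ) :
    ∃ x y : ℤ, (x, y) ≠ (0, 0) ∧ x ^ 2 < ℓ ∧ y ^ 2 < ℓ ∧ (ℓ : ℤ) ∣ x + y * a :=
  H8C.exists_small hℓ a

/-- **A prime which divides `a² - a + 1` is a norm of `ℤ[ρ]`**: `ℓ = x² + x y + y²` with `ℓ ∣ x + y a`.
Proof: for the `x`, `y` of `thue` the number `x² + x y + y²` is positive, less than `3 ℓ` and divisible by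
`ℓ`; it is not `2 ℓ`, since it is odd or divisible by `4` and `a² - a + 1` is odd. -/
theorem norm_form {ℓ : ℕ} (hℓ : ℓ.Prime) {a : ℤ} (h : (ℓ : ℤ) ∣ a ^ 2 - a + 1) :
    ∃ x y : ℤ, x ^ 2 + x * y + y ^ 2 = ℓ ∧ (ℓ : ℤ) ∣ x + y * a :=
  H8C.exists_norm hℓ h

/-- **The factorisation.**  `g ∈ SL₂(ℤ)` with `g S T g⁻¹ ∈ Γ₀(M ℓ)` (the point `g ρ` of `X₀(M ℓ)` is
elliptic).  Then `diag(ℓ, 1) g = δ g (x + y S T)` with `δ ∈ Γ₀(M)` and `x² + x y + y² = ℓ`; the four
equations are the four entries.  Proof: for `g S T g⁻¹ = (a, b; c, d)` the trace is `1` and `ℓ ∣ c`, hence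
`ℓ` divides `a² - a + 1 = -b c`; take `x`, `y` from `norm_form`. -/
theorem factorisation {M ℓ : ℕ} (hℓ : ℓ.Prime) (g : SL(2, ℤ))
    (hg : g * (ModularGroup.S * ModularGroup.T) * g⁻¹ ∈ Gamma0 (M * ℓ)) :
    ∃ (δ : SL(2, ℤ)) (x y : ℤ), δ ∈ Gamma0 M ∧ x ^ 2 + x * y + y ^ 2 = ℓ ∧
      (δ * g) 0 0 * x + (δ * g) 0 1 * y = ℓ * g 0 0 ∧
      -(δ * g) 0 0 * y + (δ * g) 0 1 * (x + y) = ℓ * g 0 1 ∧
      (δ * g) 1 0 * x + (δ * g) 1 1 * y = g 1 0 ∧
      -(δ * g) 1 0 * y + (δ * g) 1 1 * (x + y) = g 1 1 :=
  H8C.exists_delta hℓ g hg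

/-- **The isogeny is a rotation.**  Same `g`.  The matrix `x + y S T` fixes `ρ`, and in the coordinate
`(τ - ρ)/(τ - ρ̄)` it is the multiplication by `c = (x - ρ y)/(x - ρ̄ y)`, `|c| = 1`.  So
`ℓ · (g τ) = δ g τ'`, where `τ'` is the image of `τ` under the rotation by `c` (`H24.scale ℓ` is the
multiplication by `ℓ`, `H24.cayley ρ` the coordinate). -/
theorem rotation {M ℓ : ℕ} [NeZero ℓ] (hℓ : ℓ.Prime) (g : SL(2, ℤ))
    (hg : g * (ModularGroup.S * ModularGroup.T) * g⁻¹ ∈ Gamma0 (M * ℓ)) :
    ∃ (δ : SL(2, ℤ)) (c : ℂˣ), δ ∈ Gamma0 M ∧ ‖(c : ℂ)‖ = 1 ∧ ∀ τ : ℍ, ∃ τ' : ℍ,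
      H24.scale ℓ (g • τ) = δ • (g • τ') ∧
      H24.cayley UpperHalfPlane.ρ τ' = c * H24.cayley UpperHalfPlane.ρ τ :=
  H8C.exists_rot hℓ g hg

/-! ## 6. The two maps near an elliptic point

`K` is a subfield of `ℂ` (more precisely a field with an embedding in `ℂ`).  `H24.A K M` is the ring
`K[j(q^d) : d ∣ M]`, `H24.ev K x τ` the value of `x` at `q = exp(2πiτ)`, `H24.phi hz g x` the expansion of the
function `τ ↦ x(g τ)` in the chart `z`, and `H24.sF hz (g⁻¹ Γ₀(M))` its extension to the function field
(`GuideCusps`, section A).  The chart is the Cayley coordinate at `ρ`. -/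

section Field

variable {K : Type*} [Field K] [Algebra K ℂ] {M ℓ : ℕ} [NeZero M] [NeZero ℓ]

/-- **The second map on values**: the value of `x(q^ℓ)` at `τ` is the value of `x` at `ℓ τ`, if the series
`x`, with its coefficients in `ℂ` (`H24.incl K x`), converges for `0 < |q| < 1` (`H24.IsConv`). -/
theorem value_of_beta {x : LaurentSeries K} (hx : H24.IsConv (H24.incl K x)) (τ : ℍ) :
    H24.ev K (qExpand K ℓ x) τ = H24.ev K x (H24.scale ℓ τ) :=
  H8C.ev_qExpand hx τ

/-- **The two maps on the rings**: `x` and `x(q^ℓ)` belong to the ring of level `M ℓ` for `x` in the ring of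
level `M`. -/
theorem rings : H24.A K M ≤ H24.A K (M * ℓ) ∧
    ∀ {x : LaurentSeries K}, x ∈ H24.A K M → qExpand K ℓ x ∈ H24.A K (M * ℓ) :=
  ⟨H8C.A_mono, H8C.qExpand_mem_A⟩

/-- **The first map** does not change the expansion, at any point and in any chart (`H24.GoodChart`: a
coordinate in which all the functions `x(g τ)`, `x` in the ring, have expansions). -/
theorem alpha_on_expansions {z : ℍ → ℂ} (hz : H24.GoodChart K M z)
    (hz' : H24.GoodChart K (M * ℓ) z) (g : SL(2, ℤ)) (x : H24.A K M) :
    H24.phi hz' g ⟨x, H8C.A_mono x.2⟩ = H24.phi hz g x :=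
  H8C.phi_alpha hz hz' g x

/-- **The second map** at an elliptic point `g ρ` of `X₀(M ℓ)`: the expansion of `x(q^ℓ)` is that of `x`
with the variable multiplied by the constant `c` of `rotation` (`H24.twist c`).  Proof: the value of
`x(q^ℓ)` at `g τ` is `x(ℓ g τ) = x(δ g τ') = x(g τ')`, since `x` is invariant under `Γ₀(M)`. -/
theorem beta_on_expansions (hℓ : ℓ.Prime)
    (hz : H24.GoodChart K M (H24.cayley UpperHalfPlane.ρ))
    (hz' : H24.GoodChart K (M * ℓ) (H24.cayley UpperHalfPlane.ρ)) (g : SL(2, ℤ))
    (hg : g * (ModularGroup.S * ModularGroup.T) * g⁻¹ ∈ Gamma0 (M * ℓ)) :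
    ∃ c : ℂˣ, ‖(c : ℂ)‖ = 1 ∧ ∀ x : H24.A K M,
      H24.phi hz' g ⟨qExpand K ℓ x, H8C.qExpand_mem_A x.2⟩ = H24.twist c (H24.phi hz g x) :=
  H8C.phi_beta hℓ hz hz' g hg

/-- **The same for functions.**  `H17.alphaC`, `H17.betaC` are the two maps of function fields
(`GuideLevelsAtP.coe_alpha_beta`), `γ = g⁻¹`. -/
theorem alpha_beta_on_functions (hℓ : ℓ.Prime)
    (hz : H24.GoodChart K M (H24.cayley UpperHalfPlane.ρ))
    (hz' : H24.GoodChart K (M * ℓ) (H24.cayley UpperHalfPlane.ρ)) (γ : SL(2, ℤ))
    (hγ : γ⁻¹ * (ModularGroup.S * ModularGroup.T) * γ ∈ Gamma0 (M * ℓ)) :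
    (∀ f : FC K M, H24.sF hz' (QuotientGroup.mk γ) (H17.alphaC K M ℓ f) =
      H24.sF hz (QuotientGroup.mk γ) f) ∧
    ∃ c : ℂˣ, ∀ f : FC K M, H24.sF hz' (QuotientGroup.mk γ) (H17.betaC K M ℓ f) =
      H24.twist c (H24.sF hz (QuotientGroup.mk γ) f) :=
  ⟨H8C.sF_alpha hz hz' γ, H8C.sF_beta hℓ hz hz' γ hγ⟩

end Field

/-- **A rotation does not change orders**: `F(c z)` and `F(z)` have the same order. -/
theorem order_of_twist (c : ℂˣ) (F : LaurentSeries ℂ) : (H24.twist c F).order = F.order :=
  H8C.order_twist c F

/-! ## 7. The Eisenstein step -/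

/-- **Divisors modulo `p`.**  `T` an additive map on divisors, `D` a divisor.  If `T s ≡ d s` modulo `p` for
all the points `s` at which the multiplicity of `D` is not divisible by `p`, then `T D ≡ d D` modulo `p`.
With `T D ≡ a D` and `a ≢ d` this gives `D ≡ 0` (`GuideLevelsAtP.dvd_of_eisenstein`). -/
theorem divisors_mod_p {K F : Type*} [Field K] [Field F] [Algebra K F] {p : ℕ}
    (T : Divisor K F →+ Divisor K F) {d : ℤ} (D : Divisor K F)
    (hT : ∀ s : Place K F, ¬ (p : ℤ) ∣ D s → ∀ w : Place K F,
      (p : ℤ) ∣ T (Finsupp.single s 1) w - d * (Finsupp.single s (1 : ℤ) : Divisor K F) w)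
    (w : Place K F) : (p : ℤ) ∣ T D w - d * D w :=
  H8C.dvd_map_sub T D hT w

end Fermat.Agent.Guide.LevelThree
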