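import Fermat.Agent.H56FC5c

/-!
# Guide to the proof: fundamental characters of level two (companion of `GuideFlatBound`)

This file is a machine-checked table of contents. Every theorem below is a citation of a theorem of
the library, with its statement written out. Only `Guide` imports this file.

**What it contains.** The steps of case (II) of the local bound for flat deformations at `p`
(`GuideFlatBound`, section 6), as far as they do not concern the Kummer classes modulo powers of `π`:
the proofs of `GuideFlatBound.level_two_structure`, `coboundary_of_vanishing_on_Tm` and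
`local_bound_of_counts`. Their statements are not repeated.

**The idea.** Let `r` be a two-dimensional representation over the finite field `k`, flat at `p` and
irreducible under the decomposition group, such that all points are near the origin. By
`GuideFlatBound.leading_terms` the leading coefficients of the coordinates are additive functions on
`k²` with values in the residue field, on which inertia acts by a tame character
`σ ↦ σ(ϖ)/ϖ mod the maximal ideal` (sections 1, 2). So the image of inertia is cyclic of order prime to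
`p`, and conjugation by Frobenius is the `p`-th power on it. Linear algebra gives a basis in which a
generator is `diag(g, g^p)` with `g^(p²) = g ≠ g^p` and Frobenius is antidiagonal (section 3). Hence the
character has order dividing `p² - 1`, it is a power of the character of `π = (-p)^(1/(p² - 1))`, and the
elements `Tm` of inertia which fix `π` act trivially. On the trace zero matrices inertia and Frobenius act
by explicit formulas (section 4); up to coboundaries the cocycles of flat lifts are determined by one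
entry, a homomorphism on `Tm` given by good Kummer classes (section 5).

**Order of the file.** 1. The tame character of an algebraic number. 2. From leading terms to the image
of inertia. 3. Linear algebra. 4. The adjoint representation. 5. Good homomorphisms on `Tm`.

**Notation** as in `GuideFlatBound`: `nm p` the absolute value, `Dp p` and `Ip p` the decomposition and
inertia group of the fixed place of `FQb` = the algebraic closure of `ℚ`, `FGQ` its Galois group,
`frob p` a Frobenius element, `rs` the reduction to the residue field `Kap p`, `M2 k` the 2x2 matrices,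
`Tm p π` the elements of inertia fixing `π`. New: `theta a σ = rs (σ a / a)`.

**See also.** Existence of `t ∈ Ip p` with `t π = ζ π`, and `Ip = ⋃ t^n Tm` (`H64FTame`):
`exists_tame_generator`, `inertia_from_Tm` in `GuideLayers`.

**Where.** NOTES.md, Appendix A.10: [296] (overview of S56), [297]. All theorems below are in the
closures of S56, S59, S43, S60, S38, S45, S46, S50, S03, S04, S06 and S01. Author: helper56.
-/

set_option autoImplicit false
set_option maxSynthPendingDepth 3

open Polynomial ExtCitation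
open Fermat.Agent.H53 Fermat.Agent.H55 Fermat.Agent.H28 Fermat.Agent.H56 Fermat.Agent.H64

namespace Fermat.Agent.Guide.LevelTwo

/-! ## 1. The tame character of an algebraic number -/

/-- **Definition** (`H56FC2a`): `theta a σ` is the residue class of `σ a / a`, for `a ≠ 0` and `σ` in the
decomposition group; as `|σ a| = |a|`, it is not zero. -/
theorem tame_character {p : ℕ} [Fact p.Prime] {a : FQb} (ha : a ≠ 0) {σ : FGQ} (hσ : σ ∈ Dp p) :
    theta (p := p) a σ = rs (σ a / a) ∧ nm p (σ a / a) = 1 ∧ theta (p := p) a σ ≠ 0 :=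
  ⟨rfl, nm_dec_div hσ ha, theta_ne_zero hσ ha⟩

/-- **It is multiplicative** (`H56FC2a`) in `σ` on the inertia group (inertia acts trivially on residue
classes) and in `a`. -/
theorem tame_character_mul {p : ℕ} [Fact p.Prime] {a b : FQb} (ha : a ≠ 0) (hb : b ≠ 0) :
    (∀ {σ τ : FGQ}, σ ∈ Ip p → τ ∈ Dp p →
      theta (p := p) a (σ * τ) = theta a σ * theta a τ) ∧
    (∀ {σ : FGQ}, σ ∈ Dp p → theta (p := p) (a * b) σ = theta a σ * theta b σ) ∧
    ∀ {σ : FGQ}, σ ∈ Dp p → ∀ n : ℕ, theta (p := p) (a ^ n) σ = theta a σ ^ n :=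
  ⟨fun h1 h2 => theta_mul h1 h2 ha, fun h => theta_mul_elt h ha hb,
    fun h n => theta_pow_elt h ha n⟩

/-- **On inertia it depends only on `|a|`** (`H56FC2a`): it is trivial for units, and equal for elements
of the same absolute value. -/
theorem tame_character_congr {p : ℕ} [Fact p.Prime] {σ : FGQ} (hσ : σ ∈ Ip p) :
    (∀ {a : FQb}, nm p a = 1 → theta (p := p) a σ = 1) ∧
      ∀ {a b : FQb}, a ≠ 0 → b ≠ 0 → nm p a = nm p b → theta (p := p) a σ = theta b σ :=
  ⟨fun h => theta_unit hσ h, fun ha hb h => theta_congr hσ ha hb h⟩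

/-- **Frobenius acts by the `p`-th power** (`H56FC2a`): for `σ` in the inertia group,
`theta a (φ σ φ⁻¹) = (theta a σ)^p`, since `|φ⁻¹ a| = |a|` and `φ` is the `p`-th power on residue
classes. -/
theorem tame_character_frobenius {p : ℕ} [Fact p.Prime] {σ : FGQ} (hσ : σ ∈ Ip p) {a : FQb}
    (ha : a ≠ 0) : theta (p := p) a (frob p * σ * (frob p)⁻¹) = theta a σ ^ p :=
  theta_frob hσ ha

/-- **Absolute values are commensurable to `|p|`** (`H56FC2a`): for `0 < |a| ≤ 1` a positive power of `|a|`
is a power of `|p|` (the value group of a number field is cyclic). -/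
theorem size_commensurable {p : ℕ} [Fact p.Prime] {a : FQb} (ha : a ≠ 0) (ha1 : nm p a ≤ 1) :
    ∃ w u : ℕ, 0 < w ∧ nm p a ^ w = nm p (p : FQb) ^ u :=
  exists_nm_pow_eq ha ha1

/-- **The tame lemma** (`H56FC2a`). Let `e` be prime to `p` and `π^e = -p`. If the character of `a` on
inertia has order dividing `e`, it is a power of the character of `π`. Proof: write `|a|^w = |p|^u`
with `w = p^m w'`, `p ∤ w'`, and let `ϖ` be a root of `π` of order `w'`; then `|a|^(p^m) = |ϖ|^(ue)`, so
`theta(a)^(p^m) = theta(ϖ)^(ue)`; an element of inertia with `ϖ ↦ ζ ϖ`, `ζ` a primitive root of unity of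
order `w' e`, shows `w' ∣ ue`; hence the right hand side is a power of `theta(π)`, and the exponent `p^m`
is removed modulo `e`. -/
theorem tame_lemma {p : ℕ} [Fact p.Prime] {e : ℕ} (he : 0 < e) (hep : e.Coprime p) {π : FQb}
    (hπ : π ^ e = -(p : FQb)) {a : FQb} (ha : a ≠ 0) (ha1 : nm p a ≤ 1)
    (hθ : ∀ σ ∈ Ip p, theta (p := p) a σ ^ e = 1) :
    ∃ j : ℕ, ∀ σ ∈ Ip p, theta (p := p) a σ = theta π σ ^ j :=
  exists_theta_eq_pow he hep hπ ha ha1 hθ

/-- **The cyclotomic character is a tame character** (`H56FC2e`): for `π^(p² - 1) = -p` the residue class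
of `χ(σ)` is `theta(π)(σ)^(p + 1)`, `σ` in the inertia group. Indeed `|ζ_p - 1| = |π^(p + 1)|`, and
`σ(ζ_p - 1)/(ζ_p - 1) ≡ χ(σ)`. -/
theorem cyclotomic_is_tame {p : ℕ} [Fact p.Prime] {π : FQb} (hp1 : 0 < p ^ 2 - 1)
    (hπ : π ^ (p ^ 2 - 1) = -(p : FQb)) {σ : FGQ} (hσ : σ ∈ Ip p) :
    (((cycloChar p σ : ZMod p).val : ℕ) : Kap p) = theta π σ ^ (p + 1) :=
  cyclo_eq_theta hp1 hπ hσ

/-- **`Tm` fixes the `p`-th roots of unity** (`H56FC5b`). -/
theorem tm_fixes_roots_of_unity {p : ℕ} [Fact p.Prime] {π : FQb}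
    (hπ : π ^ (p ^ 2 - 1) = -(p : FQb)) {σ : FGQ} (hσ : σ ∈ Tm p π) {ζ : FQb} (hζ : ζ ^ p = 1) :
    σ ζ = ζ :=
  Tm_fix_zeta hπ hσ hζ

/-! ## 2. From leading terms to the image of inertia

The hypotheses `hadd`, `hinj`, `hI` are the conclusions of `GuideFlatBound.leading_terms`, for the
representation `r` on `k²`: additive functions `l j` with values in the residue field, jointly injective,
on which inertia acts by the tame character of `ϖ`. -/

/-- **The image of inertia is the image of the tame character** (`H56FC2c`): for `σ`, `τ` in the inertia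
group, `r σ = r τ` if and only if `theta ϖ σ = theta ϖ τ`. -/
theorem image_and_character {p : ℕ} [Fact p.Prime] {k : Type} [Field k] [Algebra (ZMod p) k]
    [Finite k] {r : FGQ →* M2 k} {ι : Type*} [Nonempty ι] {ϖ : FQb}
    {l : ι → (Fin 2 → k) → Kap p} (hadd : ∀ j x y, l j (x + y) = l j x + l j y)
    (hinj : ∀ x, (∀ j, l j x = 0) → x = 0)
    (hI : ∀ σ ∈ Ip p, ∀ j x, l j ((r σ).mulVec x) = theta ϖ σ * l j x) {σ τ : FGQ}
    (hσ : σ ∈ Ip p) (hτ : τ ∈ Ip p) :
    r σ = r τ ↔ theta (p := p) ϖ σ = theta ϖ τ :=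
  ⟨theta_eq_of_r_eq hinj hI hσ hτ, r_eq_of_theta_eq hadd hinj hI hσ hτ⟩

/-- **Conjugation by Frobenius** (`H56FC2c`) is the `p`-th power on the image of inertia. -/
theorem frobenius_on_inertia {p : ℕ} [Fact p.Prime] {k : Type} [Field k] [Algebra (ZMod p) k]
    [Finite k] {r : FGQ →* M2 k} {ι : Type*} {ϖ : FQb} {l : ι → (Fin 2 → k) → Kap p}
    (hϖ : ϖ ≠ 0) (hadd : ∀ j x y, l j (x + y) = l j x + l j y)
    (hinj : ∀ x, (∀ j, l j x = 0) → x = 0)
    (hI : ∀ σ ∈ Ip p, ∀ j x, l j ((r σ).mulVec x) = theta ϖ σ * l j x) {σ : FGQ}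
    (hσ : σ ∈ Ip p) : r (frob p * σ * (frob p)⁻¹) = r σ ^ p :=
  r_frob_conj hϖ hadd hinj hI hσ

/-- **The image of inertia is cyclic** (`H56FC2c`), generated by an element of order prime to `p`: it is
isomorphic to a finite subgroup of the multiplicative group of a field of characteristic `p`. -/
theorem cyclic_image {p : ℕ} [Fact p.Prime] {k : Type} [Field k] [Algebra (ZMod p) k]
    [Finite k] {r : FGQ →* M2 k} {ι : Type*} {ϖ : FQb} {l : ι → (Fin 2 → k) → Kap p}
    (hϖ : ϖ ≠ 0) (hadd : ∀ j x y, l j (x + y) = l j x + l j y)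
    (hinj : ∀ x, (∀ j, l j x = 0) → x = 0)
    (hI : ∀ σ ∈ Ip p, ∀ j x, l j ((r σ).mulVec x) = theta ϖ σ * l j x) [Nonempty ι] :
    ∃ σ₀ ∈ Ip p, (∀ σ ∈ Ip p, ∃ i : ℕ, r σ = r σ₀ ^ i) ∧
      ∃ m : ℕ, 0 < m ∧ m.Coprime p ∧ r σ₀ ^ m = 1 :=
  exists_gen hϖ hadd hinj hI

/-- **The decomposition group is generated by inertia and Frobenius** at finite level (`H56FC2c`), and
inertia is normal in it. (`FinLev r`: `r` is trivial on an open subgroup.) -/
theorem decomposition_group {p : ℕ} [Fact p.Prime] {k : Type} [Field k] [Algebra (ZMod p) k]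
    [Finite k] {r : FGQ →* M2 k} (hr : FinLev r) {σ : FGQ} (hσ : σ ∈ Dp p) :
    (∃ n : ℕ, ∃ τ ∈ Ip p, r σ = r (frob p) ^ n * r τ) ∧ ∀ τ ∈ Ip p, σ * τ * σ⁻¹ ∈ Ip p :=
  ⟨exists_frob_mul_inertia hr hσ, fun _ hτ => conj_mem_Ip hσ hτ⟩

/-- **Irreducibility**: without stable lines there are no stable subspaces besides `0` and `k²`
(`H56FC2e`); this is the hypothesis of `GuideFlatBound.leading_terms`. -/
theorem no_stable_subspace {p : ℕ} [Fact p.Prime] {k : Type} [Field k] {r : FGQ →* M2 k}
    (hirr : ∀ v : Fin 2 → k, v ≠ 0 → ¬ ∀ σ ∈ Dp p, ∃ c : k, (r σ).mulVec v = c • v)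
    (U : Submodule k (Fin 2 → k)) (hU : ∀ σ ∈ Dp p, ∀ x ∈ U, (r σ).mulVec x ∈ U) :
    U = ⊥ ∨ U = ⊤ :=
  submodule_irr hirr U hU

/-! ## 3. Linear algebra -/

/-- **Eigenvectors** (`H56FC2d`): a matrix with characteristic polynomial `(X - α)(X - β)` has an
eigenvector with eigenvalue `α`; on an eigenvector the powers of the matrix are the powers of the
eigenvalue. -/
theorem eigenvectors {k : Type} [Field k] {A : M2 k} :
    (∀ {α β : k}, A.charpoly = (X - C α) * (X - C β) →
      ∃ v : Fin 2 → k, v ≠ 0 ∧ A.mulVec v = α • v) ∧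
    ∀ {v : Fin 2 → k} {g : k}, A.mulVec v = g • v →
      ∀ n : ℕ, (A ^ n).mulVec v = g ^ n • v :=
  ⟨fun h => exists_eigenvector h, fun h n => pow_mulVec_eig h n⟩

/-- **Eigenvectors of `A^p`** (`H56FC2d`): if the order of `A` is prime to `p`, then `A` is a power of
`A^p`, and eigenvectors of `A^p` are eigenvectors of `A`. -/
theorem eigenvectors_of_power {k : Type} [Field k] {A : M2 k} {m p : ℕ} (hm : 0 < m)
    (hmp : m.Coprime p) (hA : A ^ m = 1) {w : Fin 2 → k} (hw : w ≠ 0) {g : k}
    (h : (A ^ p).mulVec w = g • w) : ∃ g' : k, A.mulVec w = g' • w ∧ g' ^ p = g :=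
  eig_of_pow hm hmp hA hw h

/-- **The linear algebra of case (II)** (`H56FC2d`). Let `A` be of order prime to `p` and `B A B⁻¹ = A^p`,
both with eigenvectors in `k²`, but without a common one. Let `A v = g v`. In the basis `v, B v` we have
`A = diag(g, g^p)` and `B = (0 b; 1 0)`, with `g ≠ g^p` and `g^(p²) = g`. Proof: `A^p B v = g B v`, so
`B v` is an eigenvector of `A` with an eigenvalue `g₂`, `g₂^p = g`; similarly `B² v`, with `g₃^p = g₂`. Now
`B v` is not proportional to `v`, and `g ≠ g₂`, because otherwise `A` is scalar and an eigenvector of `B` is a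
common one. So `B² v` is a multiple of `v` or of `B v`; the second case is excluded, and so `g₃ = g` and
`g₂ = g^p`. -/
theorem case_two_linear_algebra {k : Type} [Field k] {A B : M2 k} {m p : ℕ} (hm : 0 < m)
    (hmp : m.Coprime p) (hA : A ^ m = 1) (hB : IsUnit B) (hBA : B * A = A ^ p * B)
    (hAe : ∃ v : Fin 2 → k, v ≠ 0 ∧ ∃ g : k, A.mulVec v = g • v)
    (hBe : ∃ v : Fin 2 → k, v ≠ 0 ∧ ∃ g : k, B.mulVec v = g • v)
    (hirr : ∀ v : Fin 2 → k, v ≠ 0 → ∀ c d : k, A.mulVec v = c • v → B.mulVec v = d • v →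
      False) :
    ∃ (P : M2 k) (g b : k), IsUnit P ∧ A * P = P * !![g, 0; 0, g ^ p] ∧
      B * P = P * !![0, b; 1, 0] ∧ g ≠ g ^ p ∧ (g ^ p) ^ p = g ∧ g ≠ 0 ∧ b ≠ 0 :=
  caseII_linear hm hmp hA hB hBA hAe hBe hirr

/-! ## 4. The adjoint representation

`co u Y = u⁻¹ Y u` are the coordinates of the matrix `Y` in the basis given by `u`. -/

/-- **Coordinates** (`H56FC5a`) are injective, additive and preserve the trace. -/
theorem coordinates {k : Type} [Field k] (u : (M2 k)ˣ) (X Y : M2 k) :
    co u Y = (↑u⁻¹ : M2 k) * Y * u ∧ co u (X + Y) = co u X + co u Y ∧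
      (co u Y).trace = Y.trace ∧ (co u X = co u Y → X = Y) :=
  ⟨rfl, co_add u X Y, trace_co u Y, co_inj u⟩

/-- **The action of an element which is diagonal in the basis** (`H56FC5a`): conjugation by
`diag(x, y)` multiplies the entries by `1, x/y, y/x, 1`. For `t`: `x = g`, `y = g^p`, so that `t` has no
fixed vectors outside the diagonal, as `g ≠ g^p`. -/
theorem conjugation_diagonal {k : Type} [Field k] {G : Type} [Group G] (r : G →* M2 k)
    (u : (M2 k)ˣ) {σ : G} {x y : k} (hx : x ≠ 0) (hy : y ≠ 0)
    (h : r σ * u = u * !![x, 0; 0, y]) (Y : M2 k) :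
    co u (r σ * Y * r σ⁻¹) =
      !![co u Y 0 0, x * y⁻¹ * co u Y 0 1; y * x⁻¹ * co u Y 1 0, co u Y 1 1] :=
  co_conj_diag r u hx hy h Y

/-- **The action of Frobenius** (`H56FC5a`): conjugation by an antidiagonal matrix exchanges the
diagonal entries, and it exchanges the two others up to the factors `b` and `b⁻¹`. -/
theorem conjugation_antidiagonal {k : Type} [Field k] {G : Type} [Group G] (r : G →* M2 k)
    (u : (M2 k)ˣ) {σ : G} {b : k} (hb : b ≠ 0) (h : r σ * u = u * !![0, b; 1, 0]) (Y : M2 k) :
    co u (r σ * Y * r σ⁻¹) =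
      !![co u Y 1 1, b * co u Y 1 0; b⁻¹ * co u Y 0 1, co u Y 0 0] :=
  co_conj_anti r u hb h Y

/-- **The element `frob p` is a Frobenius element** at the place `padicPlace p` in the sense of the
statements (`H56FC5a`). -/
theorem frob_is_frobenius (p : ℕ) [Fact p.Prime] : (padicPlace p).IsFrobeniusAt (frob p) p :=
  frob_isFrobeniusAt

/-! ## 5. Good homomorphisms on `Tm` -/

/-- **Good homomorphisms** (`H56FC5b`): `x` is a homomorphism on `Tm p π`, and for every additive character
`ψ` of `k` there is `α` with `|α^p - 1| ≤ |p|` and `σ α = ψ(x σ) α` for `σ ∈ Tm p π`: all Kummer classes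
`ψ ∘ x` are given by units congruent to `1` modulo `p`. -/
theorem kumX_iff {p : ℕ} [Fact p.Prime] {k : Type} [Field k] {π : FQb} {x : FGQ → k} :
    KumX p π x ↔ (∀ σ ∈ Tm p π, ∀ τ ∈ Tm p π, x (σ * τ) = x σ + x τ) ∧
      ∀ ψ : AddChar k FQb, ∃ α : FQb, nm p (α ^ p - 1) ≤ nm p (p : FQb) ∧
        ∀ σ ∈ Tm p π, σ α = ψ (x σ) * α :=
  Iff.rfl

/-- **They form a group** (`H56FC5b`): sums correspond to products of the `α`, which are units. -/
theorem kumX_group {p : ℕ} [Fact p.Prime] {k : Type} [Field k] {π : FQb} :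
    KumX p π (fun _ => (0 : k)) ∧
    (∀ {x y : FGQ → k}, KumX p π x → KumX p π y → KumX p π (fun σ => x σ + y σ)) ∧
    (∀ {x : FGQ → k}, KumX p π x → KumX p π (fun σ => -x σ)) ∧
    ∀ {α : FQb}, nm p (α ^ p - 1) ≤ nm p (p : FQb) → nm p α = 1 :=
  ⟨KumX.zero, fun h1 h2 => h1.add h2, fun h => h.neg, fun h => nm_eq_one_of_pow h⟩

/-- **`Tm` is normal in the decomposition group** (`H56FC5c`): `τ⁻¹ π / π` is a Teichmüller element, hence
fixed by inertia. -/
theorem tm_normal {p : ℕ} [Fact p.Prime] {e : ℕ} (he : 0 < e) (hep : e.Coprime p) {π : FQb}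
    (hπ : π ^ e = -(p : FQb)) {τ σ : FGQ} (hτ : τ ∈ Dp p) (hσ : σ ∈ Tm p π) :
    τ * σ * τ⁻¹ ∈ Tm p π :=
  conj_mem_Tm_of_Dp he hep hπ hτ hσ

/-- **Cocycles on `Tm`** (`H56FC5c`): if `r` is trivial on `Tm`, then `c(τ σ τ⁻¹) = ad r(τ) c(σ)` for a
cocycle `c` of the decomposition group with values in the trace zero matrices, `σ ∈ Tm`. (`extD c` is `c`
extended by zero to the whole group. Cocycles are locally constant: `Dlev` is the family of the open
subgroups of the decomposition group, and `rhoD` restricts a representation to it.) With the formulas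
of section 4 for `τ = t` and `τ = Frob`: the entry `(0, 1)` in the basis `u` is transformed by `t`
through `g^(1 - p)` and is fixed by `Frob²`, the entry `(1, 0)` is determined by it, and the entry
`(0, 0)` is invariant under `t`. -/
theorem cocycle_on_tm {p : ℕ} [Fact p.Prime] {k : Type} [Field k] [Algebra (ZMod p) k]
    [Finite k] {r : FGQ →* M2 k} {π : FQb} (hTm : ∀ σ ∈ Tm p π, r σ = 1)
    {c : Dq (pPrime p) → SL p k} (hc : c ∈ Z1 (Dlev (pPrime p)) (rhoD (ad p r) (pPrime p)))
    {τ σ : FGQ} (hτ : τ ∈ Dp p) (hσ : σ ∈ Tm p π) (hτσ : τ * σ * τ⁻¹ ∈ Tm p π) :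
    extD c (τ * σ * τ⁻¹) = ad p r τ (extD c σ) :=
  extD_conj hTm hc hτ hσ hτσ

/-- **The group of cocycles of case (II)** (`H56FC5c`): `LIIadd r π u` consists of the cocycles of the
decomposition group whose entry `(0, 0)` vanishes on `Tm` and whose entry `(0, 1)` is a good
homomorphism. It contains the coboundaries and the cocycles of all flat lifts; modulo the coboundaries
its elements are determined by the entry `(0, 1)` on `Tm`
(`GuideFlatBound.coboundary_of_vanishing_on_Tm`), for which there are at most `|k|` possibilities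
(`GuideFlatBound.count_case_two`). There are at most `|k|³` coboundaries, and so at most `|k|⁴` elements:
this is `GuideFlatBound.local_bound_of_counts`. -/
theorem group_of_case_two {p : ℕ} [Fact p.Prime] {k : Type} [Field k] [Algebra (ZMod p) k]
    {r : FGQ →* M2 k} {π : FQb} {u : (M2 k)ˣ} {c : Dq (pPrime p) → SL p k} :
    c ∈ LIIadd (p := p) r π u ↔
      c ∈ Z1 (Dlev (pPrime p)) (rhoD (ad p r) (pPrime p)) ∧
      (∀ σ ∈ Tm p π, co u ((extD c σ : SL p k) : M2 k) 0 0 = 0) ∧
      KumX p π (fun σ => co u ((extD c σ : SL p k) : M2 k) 0 1) :=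
  Iff.rfl

/-- **The lifted representation on dual number vectors** (`H56FC5b`). For a matrix `A` over the dual
numbers with reduction `redM A` and `ε`-part `sndM A`: on a vector without `ε`-part, `A v` has the
components `redM(A) v` and `sndM(A) v`; on a multiple of `ε`, `A` acts through its reduction. So the
elements of `Tm` move `v` by `ε sndM(R σ) v` and fix `ε k²`; this is how the points of the flat group
scheme of the lift see the cocycle (`GuideFlatBound.kummer_of_flat_lift`). -/
theorem dual_number_vectors {k : Type} [Field k] (A : M2 (DualNumber k)) :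
    (∀ v : Fin 2 → k, (fun i => TrivSqZeroExt.fst ((A.mulVec fun j =>
      TrivSqZeroExt.inl (v j)) i)) = (redM k A).mulVec v) ∧
    (∀ v : Fin 2 → k, (fun i => TrivSqZeroExt.snd ((A.mulVec fun j =>
      TrivSqZeroExt.inl (v j)) i)) = (sndM A).mulVec v) ∧
    ∀ w : Fin 2 → DualNumber k, (∀ i, TrivSqZeroExt.fst (w i) = 0) →
      A.mulVec w = fun i => TrivSqZeroExt.inr
        ((redM k A).mulVec (fun j => TrivSqZeroExt.snd (w j)) i) :=
  ⟨fst_mulVec A, snd_mulVec A, mulVec_inr A⟩

end Fermat.Agent.Guide.LevelTwo
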