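/-
H39Lat: reduction modulo `p` of the lattice of integral sequences in a finite dimensional complex
space of sequences.
-/
import Mathlib

set_option autoImplicit false

noncomputable section

namespace Fermat.Agent.H39

/-- A finite dimensional space of sequences is detected by finitely many coordinates. -/
theorem exists_trunc_injective (V : Submodule ℂ (ℕ → ℂ)) [FiniteDimensional ℂ V] :
    ∃ M : ℕ, ∀ v ∈ V, (∀ n < M, v n = 0) → v = 0 := by
  let K : ℕ → Submodule ℂ V := fun M =>
    { carrier := {v | ∀ n < M, (v : ℕ → ℂ) n = 0}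
      add_mem' := fun {a b} ha hb n hn => by
        show (a : ℕ → ℂ) n + (b : ℕ → ℂ) n = 0
        rw [ha n hn, hb n hn, add_zero]
      zero_mem' := fun n _ => rfl
      smul_mem' := fun c v hv n hn => by
        show c * (v : ℕ → ℂ) n = 0
        rw [hv n hn, mul_zero] }
  have hK : ∀ {a b : ℕ}, a ≤ b → K b ≤ K a := fun {a b} hab v hv n hn => hv n (hn.trans_le hab)
  let f : ℕ →o (Submodule ℂ V)ᵒᵈ := ⟨fun n => OrderDual.toDual (K n), fun a b hab => hK hab⟩
  obtain ⟨M, hM⟩ := IsArtinian.monotone_stabilizes f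
  refine ⟨M, fun v hv h0 => ?_⟩
  funext n
  have h1 : (⟨v, hv⟩ : V) ∈ K M := h0
  have h2 : K M = K (max M (n + 1)) := hM (max M (n + 1)) (le_max_left _ _)
  rw [h2] at h1
  exact h1 n (lt_of_lt_of_le (Nat.lt_succ_self n) (le_max_right _ _))

/-- the lattice of integral sequences in `V` -/
def seqLat (V : Submodule ℂ (ℕ → ℂ)) : Submodule ℤ (ℕ → ℤ) where
  carrier := {c | (fun n => (c n : ℂ)) ∈ V}
  add_mem' {a b} ha hb := by
    have : (fun n => (((a + b) n : ℤ) : ℂ)) = (fun n => (a n : ℂ)) + fun n => (b n : ℂ) := by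
      funext n
      simp
    show (fun n => (((a + b) n : ℤ) : ℂ)) ∈ V
    rw [this]
    exact V.add_mem ha hb
  zero_mem' := by
    have : (fun n => (((0 : ℕ → ℤ) n : ℤ) : ℂ)) = 0 := by
      funext n
      simp
    show (fun n => (((0 : ℕ → ℤ) n : ℤ) : ℂ)) ∈ V
    rw [this]
    exact V.zero_mem
  smul_mem' m a ha := by
    have : (fun n => (((m • a) n : ℤ) : ℂ)) = (m : ℂ) • fun n => (a n : ℂ) := by
      funext n
      simp
    show (fun n => (((m • a) n : ℤ) : ℂ)) ∈ V
    rw [this]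
    exact V.smul_mem _ ha

theorem mem_seqLat {V : Submodule ℂ (ℕ → ℂ)} {c : ℕ → ℤ} :
    c ∈ seqLat V ↔ (fun n => (c n : ℂ)) ∈ V := Iff.rfl

/-- saturation -/
theorem mem_seqLat_of_mul {V : Submodule ℂ (ℕ → ℂ)} {c : ℕ → ℤ} {m : ℤ} (hm : m ≠ 0)
    (h : (fun n => m * c n) ∈ seqLat V) : c ∈ seqLat V := by
  rw [mem_seqLat] at h ⊢
  have h1 : (fun n => (c n : ℂ)) = (m : ℂ)⁻¹ • fun n => (((m * c n : ℤ)) : ℂ) := by
    funext n
    have : (m : ℂ) ≠ 0 := by exact_mod_cast hm
    simp only [Pi.smul_apply, smul_eq_mul]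
    push_cast
    field_simp
  rw [h1]
  exact V.smul_mem _ h

instance seqLat_torsionFree (V : Submodule ℂ (ℕ → ℂ)) : Module.IsTorsionFree ℤ (seqLat V) :=
  inferInstance

theorem seqLat_finite (V : Submodule ℂ (ℕ → ℂ)) [FiniteDimensional ℂ V] :
    Module.Finite ℤ (seqLat V) := by
  obtain ⟨M, hM⟩ := exists_trunc_injective V
  let f : seqLat V →ₗ[ℤ] (Fin M → ℤ) :=
    { toFun := fun c n => (c : ℕ → ℤ) n
      map_add' := fun _ _ => rfl
      map_smul' := fun _ _ => rfl }
  refine Module.Finite.of_injective f ?_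
  rw [← LinearMap.ker_eq_bot, LinearMap.ker_eq_bot']
  intro c hc
  have h1 := hM _ c.2 (fun n hn => by
    have := congrFun hc ⟨n, hn⟩
    show (((c : ℕ → ℤ) n : ℤ) : ℂ) = 0
    have h2 : (c : ℕ → ℤ) n = 0 := this
    rw [h2, Int.cast_zero])
  apply Subtype.ext
  funext n
  have h3 := congrFun h1 n
  have h4 : (((c : ℕ → ℤ) n : ℤ) : ℂ) = 0 := h3
  exact_mod_cast h4

/-- **Reduction modulo `p` of the lattice of integral sequences.** -/
theorem exists_good_basis (V : Submodule ℂ (ℕ → ℂ)) [FiniteDimensional ℂ V]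
    (hV : ∀ v ∈ V, v ∈ Submodule.span ℂ ((fun c : ℕ → ℤ => fun n => (c n : ℂ)) '' (seqLat V)))
    (p : ℕ) [hp : Fact p.Prime] :
    ∃ (r : ℕ) (b : Fin r → (ℕ → ℤ)), Module.finrank ℂ V ≤ r ∧ (∀ i, b i ∈ seqLat V) ∧
      (∀ c ∈ seqLat V, ∃ t : Fin r → ℤ, ∀ n, c n = ∑ i, t i * b i n) ∧
      ∀ (k : Type) [Field k] [CharP k p],
        LinearIndependent k (fun i => (fun n => (b i n : k) : ℕ → k)) := by
  classical
  haveI := seqLat_finite V
  haveI : Module.Free ℤ (seqLat V) := Module.free_of_finite_type_torsion_free'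
  let b' := Module.finBasis ℤ (seqLat V)
  refine ⟨Module.finrank ℤ (seqLat V), fun i => (b' i : ℕ → ℤ), ?_, fun i => (b' i).2, ?_, ?_⟩
  · -- the real span
    let g : (Fin (Module.finrank ℤ (seqLat V)) → ℂ) →ₗ[ℂ] (ℕ → ℂ) :=
      Fintype.linearCombination ℂ (fun i => fun n => (((b' i : ℕ → ℤ) n : ℤ) : ℂ))
    have hle : V ≤ LinearMap.range g := by
      intro v hv
      have h1 := hV v hv
      refine Submodule.span_le.mpr ?_ h1
      rintro _ ⟨c, hc, rfl⟩
      refine ⟨fun i => ((b'.repr ⟨c, hc⟩ i : ℤ) : ℂ), ?_⟩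
      funext n
      have h2 := congrArg (fun x : seqLat V => (x : ℕ → ℤ) n) (b'.sum_repr ⟨c, hc⟩)
      simp only [AddSubmonoidClass.coe_finsetSum, Finset.sum_apply, SetLike.val_smul,
        Pi.smul_apply, smul_eq_mul] at h2
      show (Fintype.linearCombination ℂ _ _ : ℕ → ℂ) n = ((c n : ℤ) : ℂ)
      rw [Fintype.linearCombination_apply, Finset.sum_apply, ← h2, Int.cast_sum]
      refine Finset.sum_congr rfl fun i _ => ?_
      simp
    calc Module.finrank ℂ V ≤ Module.finrank ℂ (LinearMap.range g) := Submodule.finrank_mono hle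
      _ ≤ Module.finrank ℂ (Fin (Module.finrank ℤ (seqLat V)) → ℂ) := LinearMap.finrank_range_le g
      _ = _ := by simp
  · intro c hc
    refine ⟨fun i => b'.repr ⟨c, hc⟩ i, fun n => ?_⟩
    have h2 := congrArg (fun x : seqLat V => (x : ℕ → ℤ) n) (b'.sum_repr ⟨c, hc⟩)
    simp only [AddSubmonoidClass.coe_finsetSum, Finset.sum_apply, SetLike.val_smul,
      Pi.smul_apply, smul_eq_mul] at h2
    exact h2.symm
  · intro k _ _
    rw [Fintype.linearIndependent_iff]
    intro lam hlam i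
    letI : Algebra (ZMod p) k := ZMod.algebra k p
    rw [← Module.forall_dual_apply_eq_zero_iff (ZMod p) (lam i)]
    intro φ
    choose m hm using fun i => ZMod.intCast_surjective (φ (lam i))
    have h1 : ∀ n, (p : ℤ) ∣ ∑ i, m i * (b' i : ℕ → ℤ) n := by
      intro n
      rw [← ZMod.intCast_zmod_eq_zero_iff_dvd, Int.cast_sum]
      have h2 := congrArg φ (congrFun hlam n)
      simp only [Finset.sum_apply, Pi.smul_apply, smul_eq_mul, Pi.zero_apply, map_zero,
        map_sum] at h2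
      rw [← h2]
      refine Finset.sum_congr rfl fun i _ => ?_
      have h3 : lam i * (((b' i : ℕ → ℤ) n : ℤ) : k) =
          (((b' i : ℕ → ℤ) n : ℤ) : ZMod p) • lam i := by
        rw [Algebra.smul_def, map_intCast, mul_comm]
      rw [h3, map_smul, ← hm i, smul_eq_mul, Int.cast_mul, mul_comm]
    choose c' hc' using h1
    have hpne : (p : ℤ) ≠ 0 := by exact_mod_cast hp.out.ne_zero
    have hmem : c' ∈ seqLat V := by
      refine mem_seqLat_of_mul hpne ?_
      have h4 : (fun n => (p : ℤ) * c' n) = ∑ i, m i • (b' i : ℕ → ℤ) := by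
        funext n
        rw [← hc' n, Finset.sum_apply]
        rfl
      rw [h4]
      exact Submodule.sum_mem _ fun i _ => Submodule.smul_mem _ _ (b' i).2
    have h5 : (p : ℤ) • (⟨c', hmem⟩ : seqLat V) = ∑ i, m i • b' i := by
      apply Subtype.ext
      funext n
      simp only [AddSubmonoidClass.coe_finsetSum, Finset.sum_apply, SetLike.val_smul,
        Pi.smul_apply, smul_eq_mul]
      exact (hc' n).symm
    have h6 := congrArg (fun x => b'.repr x i) h5
    simp only [map_smul, map_sum, Finsupp.smul_apply, Finsupp.coe_finsetSum, Finset.sum_apply,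
      Module.Basis.repr_self, Finsupp.single_apply, smul_eq_mul, mul_ite, mul_one, mul_zero,
      Finset.sum_ite_eq', Finset.mem_univ, if_true] at h6
    rw [← hm i, ← h6, Int.cast_mul]
    simp

end Fermat.Agent.H39
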