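import Mathlib
import Fermat.Prelude.Def_FLTPrelim_Modularity

set_option autoImplicit false

namespace Fermat.Agent.H16

/-- σ'(k) = sum of the divisors of `k` prime to `p` -/
def sigmaP (p k : ℕ) : ℕ := ∑ d ∈ k.divisors with ¬ p ∣ d, d

/-- there is a weight two cusp form of level `p` with integral q-expansion congruent mod `m` to the
Eisenstein series (in the coefficients of index ≥ 1) -/
def EisCong (p m : ℕ) : Prop :=
  ∃ f : CuspForm (CongruenceSubgroup.Gamma0 p) 2, ∀ k : ℕ, ∃ a : ℤ,
    ModularFormClass.qCoeff f k = a ∧ (1 ≤ k → (m : ℤ) ∣ a - sigmaP p k)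

end Fermat.Agent.H16
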