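import Mathlib
import Fermat.Prelude.Def_ModularForm_HeckeOperator

set_option autoImplicit false

/-!
# A modular form on `Γ₀(N)` whose stabiliser in `SL(2, ℤ)` is exactly `Γ₀(N)`

`f(τ) = Δ(N τ)` (suitably normalised, `Δ ∣[12] diag(N,1)`).
-/

noncomputable section

open UpperHalfPlane ModularForm MatrixGroups Filter Topology CongruenceSubgroup Matrix
  Matrix.SpecialLinearGroup
open scoped ModularForm Pointwise

namespace Fermat.Agent.H80

local notation "Δ" => ModularForm.discriminant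
local notation "𝕢" => Function.Periodic.qParam

/-- `Δ(τ)/q → 1` at `i∞`. -/
lemma tendsto_discriminant_div_q :
    Tendsto (fun τ : ℍ => Δ τ / 𝕢 1 τ) atImInfty (𝓝 1) := by
  refine tendsto_atImInfty_tprod_one_sub_eta_q_pow.congr fun τ => ?_
  rw [discriminant_eq_q_prod]
  have h : 𝕢 1 (τ : ℂ) ≠ 0 := by simp [Function.Periodic.qParam]
  field_simp

lemma norm_q (τ : ℍ) : ‖𝕢 1 (τ : ℂ)‖ = Real.exp (-2 * Real.pi * τ.im) := by
  simp [Function.Periodic.qParam, Complex.norm_exp]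

/-- `‖Δ(τ)‖ e^{2π Im τ} → 1` at `i∞`. -/
lemma tendsto_norm_discriminant :
    Tendsto (fun τ : ℍ => ‖Δ τ‖ * Real.exp (2 * Real.pi * τ.im)) atImInfty (𝓝 1) := by
  have h := tendsto_discriminant_div_q.norm
  simp only [norm_one] at h
  refine h.congr fun τ => ?_
  rw [norm_div, norm_q, div_eq_mul_inv, ← Real.exp_neg]
  congr 2
  ring

lemma mapGL_entry (γ : SL(2, ℤ)) (i j : Fin 2) :
    ((mapGL ℝ γ : GL (Fin 2) ℝ) : Matrix (Fin 2) (Fin 2) ℝ) i j = ((γ i j : ℤ) : ℝ) := rfl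

variable (N : ℕ) [NeZero N]

lemma heckeDiag_mem_conj {γ : SL(2, ℤ)} (hγ : γ ∈ Gamma0 N) :
    ∃ δ : SL(2, ℤ), heckeDiagMatrix N * (mapGL ℝ γ) = (mapGL ℝ δ) * heckeDiagMatrix N := by
  have hN : N ≠ 0 := NeZero.ne N
  have h1 : (N : ℤ) ∣ γ 1 0 := by
    have := Gamma0_mem.mp hγ
    exact (ZMod.intCast_zmod_eq_zero_iff_dvd _ _).mp this
  obtain ⟨c, hc⟩ := h1
  have hdet := γ.det_coe
  rw [Matrix.det_fin_two] at hdet
  obtain ⟨δ, e00, e01, e10, e11⟩ : ∃ δ : SL(2, ℤ), δ 0 0 = γ 0 0 ∧ δ 0 1 = N * γ 0 1 ∧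
      δ 1 0 = c ∧ δ 1 1 = γ 1 1 := by
    refine ⟨⟨!![γ 0 0, N * γ 0 1; c, γ 1 1], ?_⟩, rfl, rfl, rfl, rfl⟩
    rw [Matrix.det_fin_two_of]
    rw [hc] at hdet
    linarith
  refine ⟨δ, ?_⟩
  apply Units.ext
  have hcR : ((γ 1 0 : ℤ) : ℝ) = (N : ℝ) * (c : ℝ) := by rw [hc]; push_cast; ring
  ext i j
  rw [Units.val_mul, Units.val_mul, Matrix.mul_apply, Matrix.mul_apply, Fin.sum_univ_two,
    Fin.sum_univ_two, val_heckeDiagMatrix hN]
  simp only [mapGL_entry]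
  fin_cases i <;> fin_cases j <;> simp [hcR, mul_comm, e00, e01, e10, e11]

/-- The function `Δ ∣[12] diag(N,1)`, i.e. `N^11 Δ(Nτ)`. -/
def dN : ℍ → ℂ := (Δ : ℍ → ℂ) ∣[(12 : ℤ)] (heckeDiagMatrix N)

lemma discriminant_slash (γ : SL(2, ℤ)) : (Δ : ℍ → ℂ) ∣[(12 : ℤ)] (mapGL ℝ γ) = Δ :=
  CuspForm.discriminant.slash_action_eq' _ ⟨γ, rfl⟩

lemma dN_slash {γ : SL(2, ℤ)} (hγ : γ ∈ Gamma0 N) : dN N ∣[(12 : ℤ)] (mapGL ℝ γ) = dN N := by
  obtain ⟨δ, hδ⟩ := heckeDiag_mem_conj N hγ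
  rw [dN, ← SlashAction.slash_mul, hδ, SlashAction.slash_mul, discriminant_slash]

/-- `N^11 Δ(Nτ)` as a modular form of weight `12` and level `Γ₀(N)`. -/
def dNForm : ModularForm (Gamma0 N) 12 where
  toFun := dN N
  slash_action_eq' A hA := by
    obtain ⟨γ, hγ, rfl⟩ := hA
    exact dN_slash N hγ
  holo' := MDifferentiable.slash CuspForm.discriminant.holo' 12 _
  bdd_at_cusps' {c} hc := by
    have hc' : IsCusp c (ConjAct.toConjAct (heckeDiagMatrix N)⁻¹ • 𝒮ℒ) := by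
      refine hc.mono ?_
      rintro _ ⟨γ, hγ, rfl⟩
      obtain ⟨δ, hδ⟩ := heckeDiag_mem_conj N hγ
      rw [Subgroup.mem_pointwise_smul_iff_inv_smul_mem]
      refine ⟨δ, ?_⟩
      rw [ConjAct.smul_def]
      simp [hδ]
    exact (ModularForm.translate (CuspForm.discriminant : CuspForm 𝒮ℒ 12)
      (heckeDiagMatrix N)).bdd_at_cusps' hc'

@[simp] lemma coe_dNForm : (dNForm N : ℍ → ℂ) = dN N := rfl

/-- Bezout: an upper triangularisation of `diag(N,1) g`. -/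
lemma exists_upper (g : SL(2, ℤ)) : ∃ (δ : SL(2, ℤ)) (G e : ℤ) (u : GL (Fin 2) ℝ), 0 < G ∧
    G * e = N ∧ G ∣ g 1 0 ∧ heckeDiagMatrix N * (mapGL ℝ g) = mapGL ℝ δ * u ∧
    u 1 0 = 0 ∧ u 0 0 = G ∧ u 1 1 = e := by
  have hN : N ≠ 0 := NeZero.ne N
  have hdet := g.det_coe
  rw [Matrix.det_fin_two] at hdet
  have hG : (N : ℤ) * g 0 0 ≠ 0 ∨ g 1 0 ≠ 0 := by
    by_contra h
    push Not at h
    have ha : g 0 0 = 0 := by
      rcases mul_eq_zero.mp h.1 with h | h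
      · exact absurd (by exact_mod_cast h) hN
      · exact h
    rw [ha, h.2] at hdet
    simp at hdet
  obtain ⟨G, x, y, hGpos, hxy, h1, h2⟩ := Int.exists_gcd_one' (Int.gcd_pos_iff.mpr hG)
  obtain ⟨δ, hδ0, hδ1⟩ := (Int.isCoprime_iff_gcd_eq_one.mpr hxy).exists_SL2_col 0
  have hdetδ := δ.det_coe
  rw [Matrix.det_fin_two, hδ0, hδ1] at hdetδ
  have hNR : (N : ℝ) * (g 0 0 : ℤ) = x * G := by exact_mod_cast congrArg (Int.cast (R := ℝ)) h1
  have hcR : ((g 1 0 : ℤ) : ℝ) = y * G := by exact_mod_cast congrArg (Int.cast (R := ℝ)) h2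
  refine ⟨δ, G, -y * (N * g 0 1) + x * g 1 1,
    (mapGL ℝ δ)⁻¹ * (heckeDiagMatrix N * mapGL ℝ g), by exact_mod_cast hGpos, ?_, ?_, by group,
    ?_, ?_, ?_⟩
  · linear_combination (g 1 1 : ℤ) * (-1 : ℤ) * h1 + N * g 0 1 * h2 + N * hdet
  · exact Dvd.intro_left y h2.symm
  all_goals
    rw [← map_inv, Units.val_mul, Units.val_mul, Matrix.mul_apply, Fin.sum_univ_two,
      Matrix.mul_apply, Matrix.mul_apply, Fin.sum_univ_two, Fin.sum_univ_two,
      val_heckeDiagMatrix hN]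
    simp only [mapGL_entry]
    simp [Matrix.SpecialLinearGroup.coe_inv, Matrix.adjugate_fin_two, hδ0, hδ1, hcR]
  · linear_combination (-(y : ℝ)) * hNR
  · have := congrArg (Int.cast (R := ℝ)) hdetδ
    push_cast at this
    linear_combination ((δ 1 1 : ℤ) : ℝ) * hNR + (G : ℝ) * this

/-- Main asymptotic comparison. -/
lemma eq_one_of_slash_eq {G e : ℤ} (hG : 0 < G) (hGe : G * e = N) {u : GL (Fin 2) ℝ}
    (h10 : u 1 0 = 0) (h00 : u 0 0 = G) (h11 : u 1 1 = e)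
    (h : (Δ : ℍ → ℂ) ∣[(12 : ℤ)] u = dN N) : e = 1 := by
  have hN : 0 < N := Nat.pos_of_ne_zero (NeZero.ne N)
  have hNR : (0 : ℝ) < N := by exact_mod_cast hN
  have he : 0 < e := by
    by_contra hcon
    have : G * e ≤ 0 := mul_nonpos_of_nonneg_of_nonpos hG.le (not_lt.mp hcon)
    rw [hGe] at this
    have : (0 : ℤ) < N := by exact_mod_cast hN
    omega
  have heR : (0 : ℝ) < e := by exact_mod_cast he
  have hGR : (0 : ℝ) < G := by exact_mod_cast hG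
  have hGeR : (G : ℝ) * e = N := by exact_mod_cast congrArg (Int.cast (R := ℝ)) hGe
  have hden : ∀ τ : ℍ, denom u τ = e := by
    intro τ
    simp [denom, h10, h11]
  have hdet : u.det.val = N := by
    rw [Matrix.GeneralLinearGroup.val_det_apply, Matrix.det_fin_two]
    rw [h10, h00, h11, mul_zero, sub_zero, hGeR]
  have hden2 : ∀ τ : ℍ, denom (heckeDiagMatrix N) τ = 1 := fun τ =>
    denom_heckeDiagMatrix (NeZero.ne N) τ
  have hdet2 : (heckeDiagMatrix N).det.val = N := det_heckeDiagMatrix (NeZero.ne N)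
  have him1 : ∀ τ : ℍ, (u • τ).im = (G / e) * τ.im := by
    intro τ
    rw [UpperHalfPlane.im_smul_eq_div_normSq, hden, hdet, abs_of_pos hNR,
      show ((e : ℤ) : ℂ) = ((e : ℝ) : ℂ) by push_cast; rfl, Complex.normSq_ofReal, ← hGeR]
    field_simp
  have him2 : ∀ τ : ℍ, (heckeDiagMatrix N • τ).im = N * τ.im := by
    intro τ
    rw [UpperHalfPlane.im_smul_eq_div_normSq, hden2, hdet2, abs_of_pos hNR]
    simp
  have hD10 : (heckeDiagMatrix N) 1 0 = 0 := by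
    rw [val_heckeDiagMatrix (NeZero.ne N)]; simp
  have t1 := tendsto_norm_discriminant.comp (tendsto_smul_atImInfty h10)
  have t2 := tendsto_norm_discriminant.comp (tendsto_smul_atImInfty hD10)
  have hnorm : ∀ τ : ℍ, ‖Δ (u • τ)‖ = (e : ℝ) ^ 12 * ‖Δ (heckeDiagMatrix N • τ)‖ := by
    intro τ
    have h1 := congrArg norm (congrFun h τ)
    rw [dN, slash_apply, slash_apply, hden, hden2, hdet, hdet2, norm_mul, norm_mul, norm_mul,
      norm_mul, norm_σ, norm_σ] at h1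
    have hx : ‖((|(N : ℝ)| : ℝ) : ℂ) ^ ((12 : ℤ) - 1)‖ ≠ 0 := by
      rw [norm_ne_zero_iff]
      apply zpow_ne_zero
      rw [abs_of_pos hNR]
      exact_mod_cast hNR.ne'
    have hy : ‖((e : ℤ) : ℂ) ^ (-(12 : ℤ))‖ = ((e : ℝ) ^ 12)⁻¹ := by
      rw [_root_.zpow_neg, norm_inv, show ((12 : ℤ)) = ((12 : ℕ) : ℤ) by norm_num, zpow_natCast,
        norm_pow, Complex.norm_intCast, abs_of_pos heR]
    rw [hy, _root_.one_zpow, norm_one, mul_one] at h1
    have hE : ((e : ℝ) ^ 12) ≠ 0 := by positivity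
    field_simp at h1
    linarith
  have t3 := t1.div t2 one_ne_zero
  rw [div_one] at t3
  have t4 : Tendsto (fun τ : ℍ => (e : ℝ) ^ 12 * Real.exp (2 * Real.pi * (G / e - N) * τ.im))
      atImInfty (𝓝 1) := by
    refine t3.congr fun τ => ?_
    simp only [Function.comp_apply, Pi.div_apply]
    rw [hnorm, him1, him2]
    have hd : ‖Δ (heckeDiagMatrix N • τ)‖ ≠ 0 := norm_ne_zero_iff.mpr (discriminant_ne_zero _)
    rw [mul_comm ((e : ℝ) ^ 12) ‖Δ (heckeDiagMatrix N • τ)‖, mul_assoc, mul_div_mul_left _ _ hd,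
      mul_div_assoc, ← Real.exp_sub]
    congr 2
    ring
  by_contra hne
  have h2e : 2 ≤ e := by omega
  have hneg : 2 * Real.pi * ((G : ℝ) / e - N) < 0 := by
    have h2eR : (2 : ℝ) ≤ e := by exact_mod_cast h2e
    have : (G : ℝ) / e < N := by
      rw [div_lt_iff₀ heR, ← hGeR]
      nlinarith [mul_pos hGR heR]
    have h2 : (G : ℝ) / e - N < 0 := by linarith
    exact mul_neg_of_pos_of_neg (by positivity) h2
  have t5 : Tendsto (fun τ : ℍ => (e : ℝ) ^ 12 * Real.exp (2 * Real.pi * (G / e - N) * τ.im))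
      atImInfty (𝓝 ((e : ℝ) ^ 12 * 0)) := by
    refine Tendsto.const_mul _ (Real.tendsto_exp_atBot.comp ?_)
    exact (tendsto_comap).const_mul_atTop_of_neg hneg
  have := tendsto_nhds_unique t4 t5
  simp at this

/-- The stabiliser of `Δ(Nτ)` in `SL(2,ℤ)` is contained in `Γ₀(N)`. -/
theorem mem_Gamma0_of_dN_slash {g : SL(2, ℤ)} (h : dN N ∣[(12 : ℤ)] g = dN N) :
    g ∈ Gamma0 N := by
  obtain ⟨δ, G, e, u, hG, hGe, hdvd, hu, h10, h00, h11⟩ := exists_upper N g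
  have h' : (Δ : ℍ → ℂ) ∣[(12 : ℤ)] u = dN N := by
    have h1 : dN N ∣[(12 : ℤ)] (mapGL ℝ g) = dN N := h
    rw [dN, ← SlashAction.slash_mul, hu, SlashAction.slash_mul, discriminant_slash] at h1
    exact h1
  have he := eq_one_of_slash_eq N hG hGe h10 h00 h11 h'
  rw [he, mul_one] at hGe
  rw [Gamma0_mem, ZMod.intCast_zmod_eq_zero_iff_dvd, ← hGe]
  exact hdvd

/-- **C2**: there is a modular form on `Γ₀(N)` whose stabiliser in `SL(2,ℤ)` is `Γ₀(N)`. -/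
theorem exists_form_stabilizer : ∃ (k : ℤ) (f : ModularForm (Gamma0 N) k),
    ∀ g : SL(2, ℤ), (f : ℍ → ℂ) ∣[k] g = f → g ∈ Gamma0 N :=
  ⟨12, dNForm N, fun _ h => mem_Gamma0_of_dN_slash N h⟩

end Fermat.Agent.H80
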