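import Mathlib
import Fermat.Agent.H16Defs
import Fermat.Agent.H80Stab
import Fermat.Prelude.Thm_CongruenceSubgroup_one_mem_strictPeriods_Gamma0

/-!
# The weight two Eisenstein series of level `N`

`E = (N E₂(N z) - E₂(z)) / 24` as a modular form of weight `2` on `Γ₀(N)`.
-/

set_option autoImplicit false

noncomputable section

open UpperHalfPlane hiding I
open ModularForm MatrixGroups CongruenceSubgroup Matrix.SpecialLinearGroup
open EisensteinSeries Complex
open scoped Real Manifold ModularForm ArithmeticFunction.sigma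

namespace Fermat.Agent.H16.Eis

local notation "𝕢" => Function.Periodic.qParam

variable (N : ℕ) [NeZero N]

/-- `N E₂(N z) - E₂(z)`. -/
def eisF : ℍ → ℂ := E2 ∣[(2 : ℤ)] (heckeDiagMatrix N) - E2

/-- The cocycle `D2` under an upper triangular matrix. -/
lemma D2_slash_upper {γ δ : SL(2, ℤ)} {u : GL (Fin 2) ℝ} (hdet : 0 < u.det.val)
    (hu : heckeDiagMatrix N * (mapGL ℝ γ) = mapGL ℝ δ * u) (h10 : u 1 0 = 0) :
    (D2 δ) ∣[(2 : ℤ)] u = D2 γ := by
  have hN : N ≠ 0 := NeZero.ne N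
  have hd : u.det.val = u 0 0 * u 1 1 := by
    rw [Matrix.GeneralLinearGroup.val_det_apply, Matrix.det_fin_two, h10, mul_zero, sub_zero]
  have h00 : u 0 0 ≠ 0 := by
    intro h; rw [hd, h, zero_mul] at hdet; exact lt_irrefl _ hdet
  have h11 : u 1 1 ≠ 0 := by
    intro h; rw [hd, h, mul_zero] at hdet; exact lt_irrefl _ hdet
  have hmat : ∀ i j, (heckeDiagMatrix N * mapGL ℝ γ) i j = (mapGL ℝ δ * u) i j := by
    intro i j; rw [hu]
  have e0 : ((γ 1 0 : ℤ) : ℝ) = δ 1 0 * u 0 0 := by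
    have := hmat 1 0
    rw [Units.val_mul, Units.val_mul, Matrix.mul_apply, Matrix.mul_apply, Fin.sum_univ_two,
      Fin.sum_univ_two, val_heckeDiagMatrix hN] at this
    simpa [H80.mapGL_entry, h10] using this
  have e1 : ((γ 1 1 : ℤ) : ℝ) = δ 1 0 * u 0 1 + δ 1 1 * u 1 1 := by
    have := hmat 1 1
    rw [Units.val_mul, Units.val_mul, Matrix.mul_apply, Matrix.mul_apply, Fin.sum_univ_two,
      Fin.sum_univ_two, val_heckeDiagMatrix hN] at this
    simpa [H80.mapGL_entry, h10] using this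
  have e0' : ((γ 1 0 : ℤ) : ℂ) = δ 1 0 * u 0 0 := by exact_mod_cast congrArg (Complex.ofReal) e0
  have e1' : ((γ 1 1 : ℤ) : ℂ) = δ 1 0 * u 0 1 + δ 1 1 * u 1 1 := by
    exact_mod_cast congrArg (Complex.ofReal) e1
  have h00' : ((u 0 0 : ℝ) : ℂ) ≠ 0 := by exact_mod_cast h00
  have h11' : ((u 1 1 : ℝ) : ℂ) ≠ 0 := by exact_mod_cast h11
  ext z
  have hz : ((u • z : ℍ) : ℂ) = (u 0 0 * z + u 0 1) / u 1 1 := by
    rw [UpperHalfPlane.coe_smul_of_det_pos hdet, num, denom, h10]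
    simp
  have hden : denom u z = u 1 1 := by simp [denom, h10]
  have hdγ : denom γ z ≠ 0 := denom_ne_zero _ _
  rw [ModularGroup.denom_apply] at hdγ
  have hD1 : D2 δ (u • z) =
      (2 * π * I * δ 1 0) / (δ 1 0 * ((u 0 0 * z + u 0 1) / u 1 1) + δ 1 1) := by
    rw [D2, ModularGroup.denom_apply, hz]
  have hD2 : D2 γ z = (2 * π * I * (δ 1 0 * u 0 0)) /
      (δ 1 0 * u 0 0 * z + (δ 1 0 * u 0 1 + δ 1 1 * u 1 1)) := by
    rw [D2, ModularGroup.denom_apply, e0', e1']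
  rw [e0', e1'] at hdγ
  have hne : (δ 1 0 : ℂ) * ((u 0 0 * z + u 0 1) / u 1 1) + δ 1 1 ≠ 0 := by
    intro h
    apply hdγ
    have := congrArg (fun x => x * ((u 1 1 : ℝ) : ℂ)) h
    simp only [zero_mul] at this
    rw [← this]
    field_simp
    ring
  have hne' : (δ 1 0 : ℂ) * (u 0 0 * z + u 0 1) + δ 1 1 * u 1 1 ≠ 0 := by
    intro h
    apply hdγ
    rw [← h]
    ring
  rw [slash_apply, UpperHalfPlane.σ, if_pos hdet, hden, abs_of_pos hdet, hd, hD2,
    ContinuousAlgEquiv.refl_apply, hD1, show (2 : ℤ) - 1 = 1 by norm_num, zpow_one]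
  push_cast
  rw [show (-2 : ℤ) = -((2 : ℕ) : ℤ) by norm_num, zpow_neg, zpow_natCast,
    show (δ 1 0 : ℂ) * ((u 0 0 * z + u 0 1) / u 1 1) + δ 1 1 =
      (δ 1 0 * (u 0 0 * z + u 0 1) + δ 1 1 * u 1 1) / u 1 1 by field_simp,
    show (δ 1 0 : ℂ) * u 0 0 * z + (δ 1 0 * u 0 1 + δ 1 1 * u 1 1) =
      δ 1 0 * (u 0 0 * z + u 0 1) + δ 1 1 * u 1 1 by ring]
  field_simp

lemma eisF_slash {γ δ : SL(2, ℤ)} {u : GL (Fin 2) ℝ} (hdet : 0 < u.det.val)
    (hu : heckeDiagMatrix N * (mapGL ℝ γ) = mapGL ℝ δ * u) (h10 : u 1 0 = 0) :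
    eisF N ∣[(2 : ℤ)] γ = E2 ∣[(2 : ℤ)] u - E2 := by
  have h1 : (E2 ∣[(2 : ℤ)] (heckeDiagMatrix N)) ∣[(2 : ℤ)] γ =
      E2 ∣[(2 : ℤ)] u - (1 / (2 * riemannZeta 2)) • D2 γ := by
    show (E2 ∣[(2 : ℤ)] (heckeDiagMatrix N)) ∣[(2 : ℤ)] (mapGL ℝ γ) = _
    rw [← SlashAction.slash_mul, hu, SlashAction.slash_mul]
    have h2 : E2 ∣[(2 : ℤ)] (mapGL ℝ δ) = E2 - (1 / (2 * riemannZeta 2)) • D2 δ :=
      E2_slash_action δ
    rw [h2, sub_eq_add_neg, SlashAction.add_slash, SlashAction.neg_slash, ← sub_eq_add_neg,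
      ModularForm.smul_slash, D2_slash_upper N hdet hu h10, UpperHalfPlane.σ, if_pos hdet]
    rfl
  rw [eisF, sub_eq_add_neg, SlashAction.add_slash, SlashAction.neg_slash, h1, E2_slash_action]
  abel

/-- `N E₂(N z) - E₂(z)` as a modular form. -/
def eisForm : ModularForm (Gamma0 N) 2 where
  toFun := eisF N
  slash_action_eq' A hA := by
    obtain ⟨γ, hγ, rfl⟩ := hA
    obtain ⟨δ, hδ⟩ := H80.heckeDiag_mem_conj N hγ
    have h10 : (heckeDiagMatrix N) 1 0 = 0 := by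
      rw [val_heckeDiagMatrix (NeZero.ne N)]; simp
    exact eisF_slash N (det_heckeDiagMatrix_pos N) hδ h10
  holo' := (MDifferentiable.slash E2_mdifferentiable 2 _).sub E2_mdifferentiable
  bdd_at_cusps' {c} hc := by
    rw [Subgroup.IsArithmetic.isCusp_iff_isCusp_SL2Z] at hc
    rw [OnePoint.isBoundedAt_iff_forall_SL2Z hc]
    intro γ _
    obtain ⟨δ, G, e, u, hG, hGe, -, hu, h10, h00, h11⟩ := H80.exists_upper N γ
    have hN : 0 < N := Nat.pos_of_ne_zero (NeZero.ne N)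
    have hdet : 0 < u.det.val := by
      rw [Matrix.GeneralLinearGroup.val_det_apply, Matrix.det_fin_two, h10, h00, h11, mul_zero,
        sub_zero]
      have : (0 : ℤ) < G * e := by rw [hGe]; exact_mod_cast hN
      exact_mod_cast this
    rw [eisF_slash N hdet hu h10]
    exact (isBoundedAtImInfty_E2.slash 2 h10).sub isBoundedAtImInfty_E2

@[simp] lemma coe_eisForm : (eisForm N : ℍ → ℂ) = eisF N := rfl

/-- coefficients of `E₂` -/
def e2c (m : ℕ) : ℂ := if m = 0 then 1 else -24 * σ 1 m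

lemma hasSum_E2 (τ : ℍ) : HasSum (fun m : ℕ => e2c m * 𝕢 (1 : ℝ) (τ : ℂ) ^ m) (E2 τ) := by
  have h := hasSum_qExpansion_E2 (z := τ)
  convert! h using 2 with m
  simp [e2c, Function.Periodic.qParam]

lemma qExpansion_eisForm (m : ℕ) : (qExpansion 1 (eisForm N)).coeff m =
    (if N ∣ m then (N : ℂ) * e2c (m / N) else 0) - e2c m := by
  symm
  have hN : 0 < N := Nat.pos_of_ne_zero (NeZero.ne N)
  refine ModularFormClass.qExpansion_coeff_unique
    (c := fun m => (if N ∣ m then (N : ℂ) * e2c (m / N) else 0) - e2c m) one_pos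
    (CongruenceSubgroup.one_mem_strictPeriods_Gamma0 N) (f := eisForm N) ?_ m
  intro τ
  have h1 := (hasSum_E2 (heckeDiagMatrix N • τ)).mul_left (N : ℂ)
  have h3 : HasSum (fun m : ℕ => (if N ∣ m then (N : ℂ) * e2c (m / N) else 0) *
      𝕢 (1 : ℝ) (τ : ℂ) ^ m) ((N : ℂ) * E2 (heckeDiagMatrix N • τ)) := by
    have hinj : Function.Injective (fun m : ℕ => N * m) :=
      fun a b h => Nat.eq_of_mul_eq_mul_left hN h
    rw [← hinj.hasSum_iff]
    · convert! h1 using 2 with m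
      have hq : 𝕢 (1 : ℝ) ((heckeDiagMatrix N • τ : ℍ) : ℂ) = 𝕢 (1 : ℝ) (τ : ℂ) ^ N := by
        rw [coe_heckeDiagMatrix_smul (NeZero.ne N), Function.Periodic.qParam,
          Function.Periodic.qParam, ← Complex.exp_nat_mul]
        congr 1
        push_cast
        ring
      simp only [Function.comp_apply, Nat.dvd_mul_right, if_true, Nat.mul_div_cancel_left _ hN]
      rw [hq, ← pow_mul, mul_assoc]
    · intro m hm
      have : ¬ N ∣ m := fun ⟨d, hd⟩ => hm ⟨d, hd.symm⟩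
      simp [this]
  have h4 := h3.sub (hasSum_E2 τ)
  have h5 : eisForm N τ = (N : ℂ) * E2 (heckeDiagMatrix N • τ) - E2 τ := by
    rw [coe_eisForm, eisF, Pi.sub_apply, slash_heckeDiagMatrix_apply _ (NeZero.ne N)]
    norm_num
  rw [h5]
  convert! h4 using 2 with m
  rw [smul_eq_mul, sub_mul]

lemma sigma_eq_sigmaP (p k : ℕ) (hp : p.Prime) (hk : 1 ≤ k) :
    (σ 1 k : ℕ) = sigmaP p k + (if p ∣ k then p * σ 1 (k / p) else 0) := by
  rw [ArithmeticFunction.sigma_one_apply, sigmaP,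
    ← Finset.sum_filter_not_add_sum_filter (k.divisors) (fun d => p ∣ d)]
  congr 1
  split_ifs with h
  · obtain ⟨m, rfl⟩ := h
    have hm : m ≠ 0 := by rintro rfl; simp at hk
    rw [Nat.mul_div_cancel_left _ hp.pos, ArithmeticFunction.sigma_one_apply, Finset.mul_sum]
    symm
    refine Finset.sum_bij (fun d _ => p * d) ?_ ?_ ?_ ?_
    · intro d hd
      rw [Nat.mem_divisors] at hd
      rw [Finset.mem_filter, Nat.mem_divisors]
      exact ⟨⟨Nat.mul_dvd_mul_left p hd.1, mul_ne_zero hp.ne_zero hm⟩, Nat.dvd_mul_right p d⟩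
    · intro a _ b _ h
      exact Nat.eq_of_mul_eq_mul_left hp.pos h
    · intro d hd
      rw [Finset.mem_filter, Nat.mem_divisors] at hd
      obtain ⟨⟨hd1, _⟩, e, rfl⟩ := hd
      refine ⟨e, ?_, rfl⟩
      rw [Nat.mem_divisors]
      exact ⟨Nat.dvd_of_mul_dvd_mul_left hp.pos hd1, hm⟩
    · intro d _
      rfl
  · rw [Finset.sum_eq_zero]
    intro d hd
    rw [Finset.mem_filter, Nat.mem_divisors] at hd
    exact absurd (hd.2.trans hd.1.1) h

end Fermat.Agent.H16.Eis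

namespace Fermat.Agent.H16

open Eis

/-- **The weight two Eisenstein series** `(p E₂(p z) - E₂(z)) / 24` on `Γ₀(p)`. -/
theorem exists_eisenstein (p : ℕ) (hp : p.Prime) :
    ∃ E : ModularForm (CongruenceSubgroup.Gamma0 p) 2,
      ModularFormClass.qCoeff E 0 = ((p : ℂ) - 1) / 24 ∧
      ∀ k : ℕ, 1 ≤ k → ModularFormClass.qCoeff E k = (sigmaP p k : ℂ) := by
  have : NeZero p := ⟨hp.ne_zero⟩
  have hq : ∀ k, ModularFormClass.qCoeff ((1 / 24 : ℂ) • eisForm p : ModularForm (Gamma0 p) 2) k =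
      1 / 24 * ((if p ∣ k then (p : ℂ) * e2c (k / p) else 0) - e2c k) := by
    intro k
    rw [ModularFormClass.qCoeff, FunLike.coe_smul, ModularForm.qExpansion_smul one_pos
      (CongruenceSubgroup.one_mem_strictPeriods_Gamma0 p), PowerSeries.coeff_smul,
      qExpansion_eisForm, smul_eq_mul]
  refine ⟨(1 / 24 : ℂ) • eisForm p, ?_, fun k hk => ?_⟩
  · rw [hq]
    simp [e2c]
    ring
  · rw [hq]
    have hk0 : k ≠ 0 := by omega
    have h1 := sigma_eq_sigmaP p k hp hk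
    have h2 : ((σ 1 k : ℕ) : ℂ) = sigmaP p k + (if p ∣ k then (p : ℂ) * (σ 1 (k / p) : ℕ) else 0) := by
      rw [h1]
      split_ifs <;> push_cast <;> ring
    have h3 : e2c k = -24 * (σ 1 k : ℕ) := by rw [e2c, if_neg hk0]
    rw [h3, h2]
    split_ifs with h
    · have hkp : k / p ≠ 0 := by
        obtain ⟨m, rfl⟩ := h
        rw [Nat.mul_div_cancel_left _ hp.pos]
        rintro rfl
        simp at hk
      rw [e2c, if_neg hkp]
      ring
    · ring

end Fermat.Agent.H16
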