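import Mathlib
import Fermat.Agent.H16Eis
import Fermat.Agent.H61Valence

set_option autoImplicit false

/-!
# Independence of the weight two Eisenstein series modulo cusp forms, squarefree level
-/

noncomputable section

open UpperHalfPlane hiding I
open ModularForm MatrixGroups CongruenceSubgroup Matrix.SpecialLinearGroup
open EisensteinSeries Complex Filter Topology
open scoped Real Manifold ModularForm

namespace Fermat.Agent.H61.EisInd

open Fermat.Agent.H16.Eis

/-! ### Linear algebra -/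

theorem divisors_prime_mul {r M : ℕ} (hr : r.Prime) (hM : M ≠ 0) (hrM : ¬ r ∣ M) (g : ℕ → ℂ) :
    ∑ d ∈ (r * M).divisors, g d = ∑ d ∈ M.divisors, (g d + g (r * d)) := by
  classical
  have h1 : (r * M).divisors = M.divisors ∪ M.divisors.image (r * ·) := by
    ext d
    simp only [Finset.mem_union, Nat.mem_divisors, Finset.mem_image]
    constructor
    · rintro ⟨hd, -⟩
      by_cases hrd : r ∣ d
      · obtain ⟨e, rfl⟩ := hrd
        exact Or.inr ⟨e, ⟨Nat.dvd_of_mul_dvd_mul_left hr.pos hd, hM⟩, rfl⟩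
      · exact Or.inl ⟨(Nat.Coprime.dvd_of_dvd_mul_left
          ((Nat.Prime.coprime_iff_not_dvd hr).mpr hrd).symm hd), hM⟩
    · rintro (⟨hd, -⟩ | ⟨e, ⟨he, -⟩, rfl⟩)
      · exact ⟨hd.mul_left r, mul_ne_zero hr.ne_zero hM⟩
      · exact ⟨Nat.mul_dvd_mul_left r he, mul_ne_zero hr.ne_zero hM⟩
  have h2 : Disjoint M.divisors (M.divisors.image (r * ·)) := by
    rw [Finset.disjoint_left]
    intro d hd hd'
    obtain ⟨e, -, rfl⟩ := Finset.mem_image.mp hd'
    exact hrM ((Nat.dvd_mul_right r e).trans (Nat.dvd_of_mem_divisors hd))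
  rw [h1, Finset.sum_union h2, Finset.sum_image (fun a _ b _ h => Nat.eq_of_mul_eq_mul_left hr.pos h),
    Finset.sum_add_distrib]

theorem linear_algebra (N : ℕ) (hN : Squarefree N) : ∀ y : ℕ → ℂ,
    (∀ c ∈ N.divisors, ∑ d ∈ N.divisors, y d * ((Nat.gcd d c : ℂ) ^ 2 / d) = 0) →
    ∀ d ∈ N.divisors, y d = 0 := by
  induction N using Nat.strong_induction_on with
  | _ N ih =>
  intro y h
  rcases eq_or_ne N 1 with rfl | hN1
  · intro d hd
    have := h 1 (by simp)
    simp at hd this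
    rw [hd]; exact this
  have hN0 : N ≠ 0 := hN.ne_zero
  set r := N.minFac with hr'
  have hr : r.Prime := Nat.minFac_prime hN1
  obtain ⟨M, hM⟩ : r ∣ N := Nat.minFac_dvd N
  have hM0 : M ≠ 0 := by rintro rfl; exact hN0 (by rw [hM, mul_zero])
  have hrM : ¬ r ∣ M := by
    rintro ⟨K, rfl⟩
    have := hN r ⟨K, by rw [hM]; ring⟩
    exact hr.one_lt.ne' (Nat.isUnit_iff.mp this)
  have hMN : M < N := by
    rw [hM]
    exact lt_mul_of_one_lt_left (Nat.pos_of_ne_zero hM0) hr.one_lt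
  have hMs : Squarefree M := hN.squarefree_of_dvd ⟨r, by rw [hM, mul_comm]⟩
  have hcop : ∀ c ∈ M.divisors, ∀ d ∈ M.divisors, Nat.gcd (r * d) c = Nat.gcd d c ∧
      Nat.gcd d (r * c) = Nat.gcd d c := by
    intro c hc d hd
    have hrc : Nat.Coprime r c := (Nat.Prime.coprime_iff_not_dvd hr).mpr
      (fun h => hrM (h.trans (Nat.dvd_of_mem_divisors hc)))
    have hrd : Nat.Coprime r d := (Nat.Prime.coprime_iff_not_dvd hr).mpr
      (fun h => hrM (h.trans (Nat.dvd_of_mem_divisors hd)))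
    exact ⟨Nat.Coprime.gcd_mul_left_cancel d hrc, Nat.Coprime.gcd_mul_left_cancel_right c hrd⟩
  have hr0 : (r : ℂ) ≠ 0 := by exact_mod_cast hr.ne_zero
  rw [hM] at h
  have e1 : ∀ c ∈ M.divisors, ∑ d ∈ M.divisors,
      (y d + y (r * d) / r) * ((Nat.gcd d c : ℂ) ^ 2 / d) = 0 := by
    intro c hc
    have h1 := h c (Nat.mem_divisors.mpr ⟨(Nat.dvd_of_mem_divisors hc).mul_left r,
      mul_ne_zero hr.ne_zero hM0⟩)
    rw [divisors_prime_mul hr hM0 hrM] at h1
    rw [← h1]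
    refine Finset.sum_congr rfl fun d hd => ?_
    have hd0 : (d : ℂ) ≠ 0 := by exact_mod_cast (Nat.pos_of_mem_divisors hd).ne'
    rw [(hcop c hc d hd).1]
    push_cast
    field_simp
  have e2 : ∀ c ∈ M.divisors, ∑ d ∈ M.divisors,
      (y d + y (r * d) * r) * ((Nat.gcd d c : ℂ) ^ 2 / d) = 0 := by
    intro c hc
    have h1 := h (r * c) (Nat.mem_divisors.mpr ⟨Nat.mul_dvd_mul_left r (Nat.dvd_of_mem_divisors hc),
      mul_ne_zero hr.ne_zero hM0⟩)
    rw [divisors_prime_mul hr hM0 hrM] at h1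
    rw [← h1]
    refine Finset.sum_congr rfl fun d hd => ?_
    have hd0 : (d : ℂ) ≠ 0 := by exact_mod_cast (Nat.pos_of_mem_divisors hd).ne'
    rw [(hcop c hc d hd).2, Nat.gcd_mul_left]
    push_cast
    field_simp
  have f1 := ih M hMN hMs _ e1
  have f2 := ih M hMN hMs _ e2
  have hne : (r : ℂ) - 1 / r ≠ 0 := by
    intro h0
    have h1 : (r : ℂ) * r = 1 := by
      field_simp at h0
      linear_combination h0
    have h2 : r * r = 1 := by exact_mod_cast h1
    have := hr.one_lt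
    nlinarith
  have g : ∀ d ∈ M.divisors, y (r * d) = 0 ∧ y d = 0 := by
    intro d hd
    have a1 := f1 d hd
    have a2 := f2 d hd
    have a3 : y (r * d) * ((r : ℂ) - 1 / r) = 0 := by linear_combination a2 - a1
    have a4 := (mul_eq_zero.mp a3).resolve_right hne
    rw [a4] at a1
    exact ⟨a4, by simpa using a1⟩
  intro d hd
  rw [hM] at hd
  by_cases hrd : r ∣ d
  · obtain ⟨e, rfl⟩ := hrd
    exact (g e (Nat.mem_divisors.mpr ⟨Nat.dvd_of_mul_dvd_mul_left hr.pos
      (Nat.dvd_of_mem_divisors hd), hM0⟩)).1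
  · exact (g d (Nat.mem_divisors.mpr ⟨Nat.Coprime.dvd_of_dvd_mul_left
      ((Nat.Prime.coprime_iff_not_dvd hr).mpr hrd).symm (Nat.dvd_of_mem_divisors hd), hM0⟩)).2

/-! ### Limits -/

theorem gcd_of_upper {N : ℕ} [NeZero N] {g δ : SL(2, ℤ)} {G : ℤ} {u : GL (Fin 2) ℝ} (hG : 0 < G)
    (hu : heckeDiagMatrix N * (mapGL ℝ g) = mapGL ℝ δ * u) (h10 : u 1 0 = 0) (h00 : u 0 0 = G) : G = Int.gcd N (g 1 0) := by
  have hN : N ≠ 0 := NeZero.ne N
  have hmat : ∀ i j, (heckeDiagMatrix N * mapGL ℝ g) i j = (mapGL ℝ δ * u) i j := by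
    intro i j; rw [hu]
  have e0 : (N : ℤ) * g 0 0 = G * δ 0 0 := by
    have := hmat 0 0
    rw [Units.val_mul, Units.val_mul, Matrix.mul_apply, Matrix.mul_apply, Fin.sum_univ_two,
      Fin.sum_univ_two, val_heckeDiagMatrix hN] at this
    simp only [H80.mapGL_entry, h10, h00] at this
    have h2 : ((N : ℤ) * g 0 0 : ℝ) = ((G * δ 0 0 : ℤ) : ℝ) := by
      push_cast
      simpa [mul_comm] using this
    exact_mod_cast h2
  have e1 : (g 1 0 : ℤ) = G * δ 1 0 := by
    have := hmat 1 0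
    rw [Units.val_mul, Units.val_mul, Matrix.mul_apply, Matrix.mul_apply, Fin.sum_univ_two,
      Fin.sum_univ_two, val_heckeDiagMatrix hN] at this
    simp only [H80.mapGL_entry, h10, h00] at this
    have h2 : ((g 1 0 : ℤ) : ℝ) = ((G * δ 1 0 : ℤ) : ℝ) := by
      push_cast
      simpa [mul_comm] using this
    exact_mod_cast h2
  have hδ : Int.gcd (δ 0 0) (δ 1 0) = 1 := by
    rw [← Int.isCoprime_iff_gcd_eq_one]
    exact ⟨δ 1 1, -δ 0 1, by have := δ.det_coe; rw [Matrix.det_fin_two] at this; linarith⟩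
  have hg : IsCoprime (g 1 0 : ℤ) (g 0 0) :=
    ⟨-g 0 1, g 1 1, by have := g.det_coe; rw [Matrix.det_fin_two] at this; linarith⟩
  have h1 : Int.gcd ((N : ℤ) * g 0 0) (g 1 0) = G.natAbs := by
    rw [e0, e1, Int.gcd_mul_left, hδ, mul_one]
  have h2 : Int.gcd ((N : ℤ) * g 0 0) (g 1 0) = Int.gcd N (g 1 0) := by
    rw [Int.gcd_comm, mul_comm, Int.gcd_comm (N : ℤ)]
    exact Int.gcd_mul_right_right_of_gcd_eq_one (Int.isCoprime_iff_gcd_eq_one.mp hg)
  rw [← h2, h1]
  omega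

theorem tendsto_E2_slash {G e : ℤ} (hG : 0 < G) (he : 0 < e) {u : GL (Fin 2) ℝ}
    (h10 : u 1 0 = 0) (h00 : u 0 0 = G) (h11 : u 1 1 = e) :
    Tendsto (E2 ∣[(2 : ℤ)] u) atImInfty (𝓝 ((G : ℂ) / e)) := by
  have hGR : (0 : ℝ) < G := by exact_mod_cast hG
  have heR : (0 : ℝ) < e := by exact_mod_cast he
  have heC : (e : ℂ) ≠ 0 := by exact_mod_cast he.ne'
  have hden : ∀ τ : ℍ, denom u τ = e := by
    intro τ
    simp [denom, h10, h11]
  have hdet : u.det.val = G * e := by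
    rw [Matrix.GeneralLinearGroup.val_det_apply, Matrix.det_fin_two]
    rw [h10, h00, h11, mul_zero, sub_zero]
  have hdetpos : 0 < u.det.val := by rw [hdet]; positivity
  have him : ∀ τ : ℍ, (u • τ).im = (G / e) * τ.im := by
    intro τ
    rw [UpperHalfPlane.im_smul_eq_div_normSq, hden, abs_of_pos hdetpos, hdet,
      show ((e : ℤ) : ℂ) = ((e : ℝ) : ℂ) by push_cast; rfl, Complex.normSq_ofReal]
    field_simp
  have hsl : ∀ τ : ℍ, (E2 ∣[(2 : ℤ)] u) τ = ((G : ℂ) / e) * E2 (u • τ) := by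
    intro τ
    rw [slash_apply, UpperHalfPlane.σ, if_pos hdetpos, hden, abs_of_pos hdetpos, hdet,
      ContinuousAlgEquiv.refl_apply, show (2 : ℤ) - 1 = 1 by norm_num, zpow_one]
    push_cast
    rw [show (-2 : ℤ) = -((2 : ℕ) : ℤ) by norm_num, zpow_neg, zpow_natCast]
    field_simp
  have htend : Tendsto (fun τ : ℍ => u • τ) atImInfty atImInfty := by
    rw [atImInfty, tendsto_comap_iff]
    have h1 : Tendsto (fun τ : ℍ => ((G : ℝ) / e) * τ.im) atImInfty atTop :=
      Tendsto.const_mul_atTop (by positivity) tendsto_comap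
    refine h1.congr fun τ => ?_
    simp only [Function.comp_apply]
    rw [him]
  have h2 : Tendsto (fun τ : ℍ => ((G : ℂ) / e) * E2 (u • τ)) atImInfty (𝓝 (((G : ℂ) / e) * 1)) :=
    (tendsto_E2.comp htend).const_mul _
  rw [mul_one] at h2
  exact h2.congr fun τ => (hsl τ).symm

/-- the value of `d E₂(dτ) - E₂(τ)` at the cusp `γ ∞` -/
theorem tendsto_eisF_slash (d : ℕ) [NeZero d] (g : SL(2, ℤ)) :
    Tendsto (eisF d ∣[(2 : ℤ)] g) atImInfty
      (𝓝 (((Int.gcd d (g 1 0) : ℕ) : ℂ) ^ 2 / d - 1)) := by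
  obtain ⟨δ, G, e, u, hG, hGe, -, hu, h10, h00, h11⟩ := H80.exists_upper d g
  have hd : 0 < d := Nat.pos_of_ne_zero (NeZero.ne d)
  have he : 0 < e := by
    by_contra hcon
    have : G * e ≤ 0 := mul_nonpos_of_nonneg_of_nonpos hG.le (not_lt.mp hcon)
    rw [hGe] at this
    have : (0 : ℤ) < d := by exact_mod_cast hd
    omega
  have hdet : 0 < u.det.val := by
    rw [Matrix.GeneralLinearGroup.val_det_apply, Matrix.det_fin_two, h10, h00, h11, mul_zero,
      sub_zero]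
    have : (0 : ℤ) < G * e := by rw [hGe]; exact_mod_cast hd
    exact_mod_cast this
  rw [eisF_slash d hdet hu h10]
  have hG' := gcd_of_upper hG hu h10 h00
  have h1 := (tendsto_E2_slash hG he h10 h00 h11).sub tendsto_E2
  have h2 : (G : ℂ) / e = ((Int.gcd d (g 1 0) : ℕ) : ℂ) ^ 2 / d := by
    have hGc : (G : ℂ) = ((Int.gcd d (g 1 0) : ℕ) : ℂ) := by
      rw [hG']; push_cast; rfl
    have hdC : (d : ℂ) = G * e := by exact_mod_cast hGe.symm
    have hG0 : (G : ℂ) ≠ 0 := by exact_mod_cast hG.ne'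
    have he0 : (e : ℂ) ≠ 0 := by exact_mod_cast he.ne'
    rw [hdC, ← hGc]
    field_simp
  rw [h2] at h1
  exact h1

/-- the matrix `(1 0; c 1)` -/
def lowerMat (c : ℤ) : SL(2, ℤ) := ⟨!![1, 0; c, 1], by rw [Matrix.det_fin_two_of]; ring⟩

theorem lowerMat_10 (c : ℤ) : (lowerMat c) 1 0 = c := rfl

/-- `d E₂(dτ) - E₂(τ)` as a modular form of level `N`, `d ∣ N` -/
def eisFormN (d N : ℕ) [NeZero d] [NeZero N] (h : d ∣ N) : ModularForm (Gamma0 N) 2 where
  toFun := eisF d
  slash_action_eq' A hA := by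
    obtain ⟨γ, hγ, rfl⟩ := hA
    refine (eisForm d).slash_action_eq' _ ⟨γ, ?_, rfl⟩
    rw [SetLike.mem_coe, Gamma0_mem] at hγ ⊢
    have h1 := congrArg (ZMod.castHom h (ZMod d)) hγ
    simpa using h1
  holo' := (eisForm d).holo'
  bdd_at_cusps' {c} hc := by
    refine (eisForm d).bdd_at_cusps' ?_
    rw [Subgroup.IsArithmetic.isCusp_iff_isCusp_SL2Z] at hc ⊢
    exact hc

@[simp] theorem coe_eisFormN (d N : ℕ) [NeZero d] [NeZero N] (h : d ∣ N) :
    (eisFormN d N h : ℍ → ℂ) = eisF d := rfl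

/-- **Independence of Eisenstein series modulo cusp forms** (squarefree level) -/
theorem eis_independent (N : ℕ) [NeZero N] (hN : Squarefree N) (x : ℕ → ℂ)
    (f : CuspForm (CongruenceSubgroup.Gamma0 N) 2)
    (h : ∀ τ : UpperHalfPlane, ∑ d ∈ N.divisors.erase 1, x d *
      (if hd : d ≠ 0 then (haveI : NeZero d := ⟨hd⟩; Fermat.Agent.H16.Eis.eisForm d τ) else 0) = f τ) :
    ∀ d ∈ N.divisors.erase 1, x d = 0 := by
  classical
  have hlim : ∀ c : ℕ, ∑ d ∈ N.divisors.erase 1, x d * ((Nat.gcd d c : ℂ) ^ 2 / d - 1) = 0 := by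
    intro c
    have h0 : Tendsto ((f : ℍ → ℂ) ∣[(2 : ℤ)] (lowerMat c)) atImInfty (𝓝 0) :=
      CuspFormClass.zero_at_infty_slash f _
    have h1 : Tendsto (fun τ : ℍ => ∑ d ∈ N.divisors.erase 1, x d *
        (if hd : d ≠ 0 then (haveI : NeZero d := ⟨hd⟩; (eisF d ∣[(2 : ℤ)] (lowerMat c)) τ) else 0))
        atImInfty (𝓝 (∑ d ∈ N.divisors.erase 1, x d * ((Nat.gcd d c : ℂ) ^ 2 / d - 1))) := by
      refine tendsto_finsetSum _ fun d hd => Tendsto.const_mul _ ?_
      have hd0 : d ≠ 0 := (Nat.pos_of_mem_divisors (Finset.mem_of_mem_erase hd)).ne'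
      simp only [dif_pos hd0]
      haveI : NeZero d := ⟨hd0⟩
      have h2 := tendsto_eisF_slash d (lowerMat c)
      rw [lowerMat_10, Int.gcd_natCast_natCast] at h2
      exact h2
    have h2 : (fun τ : ℍ => ∑ d ∈ N.divisors.erase 1, x d *
        (if hd : d ≠ 0 then (haveI : NeZero d := ⟨hd⟩; (eisF d ∣[(2 : ℤ)] (lowerMat c)) τ) else 0))
        = (f : ℍ → ℂ) ∣[(2 : ℤ)] (lowerMat c) := by
      funext τ
      rw [ModularForm.SL_slash_apply, ← h, Finset.sum_mul]
      refine Finset.sum_congr rfl fun d hd => ?_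
      have hd0 : d ≠ 0 := (Nat.pos_of_mem_divisors (Finset.mem_of_mem_erase hd)).ne'
      rw [dif_pos hd0, dif_pos hd0, ModularForm.SL_slash_apply, mul_assoc]
      rfl
    rw [h2] at h1
    exact tendsto_nhds_unique h1 h0
  have h1N : 1 ∈ N.divisors := Nat.one_mem_divisors.mpr (NeZero.ne N)
  let y : ℕ → ℂ := fun d => if d = 1 then - ∑ d ∈ N.divisors.erase 1, x d else x d
  have hy := linear_algebra N hN y (fun c _ => by
    rw [← Finset.add_sum_erase _ _ h1N]
    have h2 : ∑ d ∈ N.divisors.erase 1, y d * ((Nat.gcd d c : ℂ) ^ 2 / d)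
        = ∑ d ∈ N.divisors.erase 1, x d * ((Nat.gcd d c : ℂ) ^ 2 / d) :=
      Finset.sum_congr rfl fun d hd => by
        simp only [y, if_neg (Finset.ne_of_mem_erase hd)]
    have h3 := hlim c
    simp only [mul_sub, mul_one, Finset.sum_sub_distrib] at h3
    rw [h2]
    simp only [y, if_true, Nat.gcd_one_left, Nat.cast_one, one_pow, div_one, mul_one]
    linear_combination h3)
  intro d hd
  have := hy d (Finset.mem_of_mem_erase hd)
  simpa only [y, if_neg (Finset.ne_of_mem_erase hd)] using this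

end Fermat.Agent.H61.EisInd
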