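/-
H39Forms: the space `M₂ ⊇ S₂ ⊕ Eis` of level `N` (squarefree), its integral structure, and the
Hecke operators `T_ℓ - 1 - ℓ` mapping it to cusp forms.
-/
import Fermat.Agent.H39Lat
import Fermat.Agent.H61EisInd
import Fermat.Agent.H23Main
import Fermat.Agent.H49Lifting
import Fermat.Agent.H80S20
import Mathlib.NumberTheory.ModularForms.CuspFormSubmodule

set_option autoImplicit false

noncomputable section

namespace Fermat.Agent.H39

open UpperHalfPlane hiding I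
open ModularFormClass CongruenceSubgroup Fermat.Agent.H49 Fermat.Agent.H61.EisInd
open Fermat.Agent.H16.Eis
open scoped ArithmeticFunction.sigma

/-- integer coefficients of `E₂` -/
def e2Z (m : ℕ) : ℤ := if m = 0 then 1 else -24 * (σ 1 m : ℕ)

theorem coe_e2Z (m : ℕ) : ((e2Z m : ℤ) : ℂ) = e2c m := by
  unfold e2Z e2c
  split_ifs <;> push_cast <;> ring

/-- integer coefficients of `d E₂(dτ) - E₂(τ)` -/
def eisZ (d n : ℕ) : ℤ := (if d ∣ n then (d : ℤ) * e2Z (n / d) else 0) - e2Z n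

theorem coe_eisZ (d n : ℕ) [NeZero d] : ((eisZ d n : ℤ) : ℂ) = qCoeff (eisForm d) n := by
  rw [qCoeff, qExpansion_eisForm, eisZ]
  split_ifs <;> simp [coe_e2Z]

section sigma

theorem sigmaP_mul {ℓ : ℕ} (hℓ : ℓ.Prime) (n : ℕ) (hn : n ≠ 0) :
    H16.sigmaP ℓ (n * ℓ) = H16.sigmaP ℓ n := by
  unfold H16.sigmaP
  refine Finset.sum_congr ?_ fun _ _ => rfl
  ext d
  simp only [Finset.mem_filter, Nat.mem_divisors]
  constructor
  · rintro ⟨⟨h1, -⟩, h2⟩
    exact ⟨⟨(Nat.Coprime.dvd_mul_right ((Nat.Prime.coprime_iff_not_dvd hℓ).mpr h2).symm).mp h1,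
      hn⟩, h2⟩
  · rintro ⟨⟨h1, -⟩, h2⟩
    exact ⟨⟨h1.mul_right ℓ, mul_ne_zero hn hℓ.ne_zero⟩, h2⟩

theorem sigma_rel {ℓ : ℕ} (hℓ : ℓ.Prime) (n : ℕ) (hn : n ≠ 0) :
    σ 1 (n * ℓ) + (if ℓ ∣ n then ℓ * σ 1 (n / ℓ) else 0) = (1 + ℓ) * σ 1 n := by
  have h1 := sigma_eq_sigmaP ℓ (n * ℓ) hℓ (Nat.pos_of_ne_zero (mul_ne_zero hn hℓ.ne_zero))
  have h2 := sigma_eq_sigmaP ℓ n hℓ (Nat.pos_of_ne_zero hn)
  rw [if_pos (Dvd.intro_left n rfl), Nat.mul_div_cancel _ hℓ.pos, sigmaP_mul hℓ n hn] at h1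
  rw [h1]
  have h3 : (1 + ℓ) * σ 1 n = σ 1 n + ℓ * σ 1 n := by ring
  rw [h3]
  conv_rhs => rw [h2]
  conv_lhs => rw [h2]
  ring

end sigma

theorem hecke_e2Z {N ℓ : ℕ} (hℓ : ℓ.Prime) (hN : ¬ ℓ ∣ N) (n : ℕ) :
    heckeCoeffTwo N ℓ e2Z n = (1 + ℓ) * e2Z n := by
  rw [heckeCoeffTwo, if_neg hN]
  by_cases hn : n = 0
  · subst hn
    simp [e2Z]
  · have h1 := sigma_rel hℓ n hn
    have h2 : n * ℓ ≠ 0 := mul_ne_zero hn hℓ.ne_zero
    simp only [e2Z, if_neg hn, if_neg h2]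
    by_cases h3 : ℓ ∣ n
    · have h4 : n / ℓ ≠ 0 := by
        intro h
        rw [Nat.div_eq_zero_iff] at h
        rcases h with h | h
        · exact hℓ.ne_zero h
        · exact absurd (Nat.le_of_dvd (Nat.pos_of_ne_zero hn) h3) (by omega)
      rw [if_pos h3, if_neg h4]
      rw [if_pos h3] at h1
      have h5 : ((σ 1 (n * ℓ) : ℕ) : ℤ) + (ℓ : ℤ) * (σ 1 (n / ℓ) : ℕ) = (1 + ℓ) * (σ 1 n : ℕ) := by
        exact_mod_cast h1
      linear_combination (-24) * h5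
    · rw [if_neg h3]
      rw [if_neg h3] at h1
      have h5 : ((σ 1 (n * ℓ) : ℕ) : ℤ) + 0 = (1 + ℓ) * (σ 1 n : ℕ) := by
        exact_mod_cast h1
      linear_combination (-24) * h5

theorem hecke_eisZ {N ℓ d : ℕ} (hℓ : ℓ.Prime) (hN : ¬ ℓ ∣ N) (hd : d ∣ N) (hd0 : d ≠ 0) (n : ℕ) :
    heckeCoeffTwo N ℓ (eisZ d) n = (1 + ℓ) * eisZ d n := by
  have hcop : Nat.Coprime d ℓ :=
    ((Nat.Prime.coprime_iff_not_dvd hℓ).mpr (fun h => hN (h.trans hd))).symm
  have h1 := hecke_e2Z (N := N) hℓ hN n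
  have h2 := hecke_e2Z (N := N) hℓ hN (n / d)
  simp only [heckeCoeffTwo, if_neg hN] at h1 h2 ⊢
  simp only [eisZ]
  have e1 : (d ∣ n * ℓ) ↔ d ∣ n := hcop.dvd_mul_right
  by_cases hdn : d ∣ n
  · obtain ⟨m, rfl⟩ := hdn
    have hdpos : 0 < d := Nat.pos_of_ne_zero hd0
    rw [Nat.mul_div_cancel_left _ hdpos] at h2 ⊢
    rw [if_pos (e1.mpr (Dvd.intro m rfl)), if_pos (Dvd.intro m rfl)]
    have e2 : d * m * ℓ / d = m * ℓ := by
      rw [mul_assoc, Nat.mul_div_cancel_left _ hdpos]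
    rw [e2]
    have e3 : ℓ ∣ d * m ↔ ℓ ∣ m := hcop.symm.dvd_mul_left
    by_cases hlm : ℓ ∣ m
    · rw [if_pos hlm] at h2
      rw [if_pos (e3.mpr hlm)] at h1 ⊢
      obtain ⟨m', rfl⟩ := hlm
      have hℓpos := hℓ.pos
      have e4 : d * (ℓ * m') / ℓ = d * m' := by
        rw [show d * (ℓ * m') = ℓ * (d * m') by ring, Nat.mul_div_cancel_left _ hℓpos]
      rw [e4] at h1 ⊢
      rw [Nat.mul_div_cancel_left _ hℓpos] at h2
      rw [if_pos (Dvd.intro m' rfl), Nat.mul_div_cancel_left _ hdpos]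
      linear_combination (d : ℤ) * h2 - h1
    · rw [if_neg hlm] at h2
      rw [if_neg (fun h => hlm (e3.mp h))] at h1 ⊢
      linear_combination (d : ℤ) * h2 - h1
  · rw [if_neg (fun h => hdn (e1.mp h)), if_neg hdn]
    by_cases hln : ℓ ∣ n
    · rw [if_pos hln] at h1 ⊢
      obtain ⟨m, rfl⟩ := hln
      rw [Nat.mul_div_cancel_left _ hℓ.pos] at h1 ⊢
      have : ¬ d ∣ m := fun h => hdn (h.mul_left ℓ)
      rw [if_neg this]
      linear_combination - h1
    · rw [if_neg hln] at h1 ⊢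
      linear_combination - h1

variable (N : ℕ) [NeZero N]

/-- `S₂ ⊕ Eis` -/
def formMap : (CuspForm (Gamma0 N) 2 × (↥(N.divisors.erase 1) → ℂ)) →ₗ[ℂ]
    ModularForm (Gamma0 N) 2 where
  toFun w := CuspForm.toModularFormₗ w.1 + ∑ d : ↥(N.divisors.erase 1), w.2 d •
    (haveI : NeZero (d : ℕ) := ⟨(Nat.pos_of_mem_divisors (Finset.mem_of_mem_erase d.2)).ne'⟩
     eisFormN (d : ℕ) N (Nat.dvd_of_mem_divisors (Finset.mem_of_mem_erase d.2)))
  map_add' w w' := by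
    simp only [Prod.fst_add, map_add, Prod.snd_add, Pi.add_apply, add_smul,
      Finset.sum_add_distrib]
    abel
  map_smul' c w := by
    simp only [Prod.smul_fst, map_smul, Prod.smul_snd, Pi.smul_apply, smul_eq_mul, mul_smul,
      RingHom.id_apply, smul_add, Finset.smul_sum]

/-- `q`-coefficients of modular forms -/
def qCoeffLin : ModularForm (Gamma0 N) 2 →ₗ[ℂ] (ℕ → ℂ) where
  toFun F n := qCoeff F n
  map_add' F G := by
    funext n
    show (qExpansion 1 (⇑(F + G))).coeff n = _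
    rw [FunLike.coe_add, ModularForm.qExpansion_add one_pos (one_mem_strictPeriods_Gamma0 N) F G,
      map_add]
    rfl
  map_smul' c F := by
    funext n
    show (qExpansion 1 (⇑(c • F))).coeff n = _
    rw [FunLike.coe_smul, ModularForm.qExpansion_smul one_pos (one_mem_strictPeriods_Gamma0 N) c F,
      PowerSeries.coeff_smul]
    rfl

theorem eq_zero_of_qCoeffLin {F : ModularForm (Gamma0 N) 2} (h : qCoeffLin N F = 0) : F = 0 := by
  ext τ
  have h1 := ModularForm.hasSum_qExpansion (f := F) (h := 1) one_pos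
    (one_mem_strictPeriods_Gamma0 N) τ
  have h2 : ∀ m, (qExpansion 1 F).coeff m = 0 := fun m => congrFun h m
  simp only [h2, zero_mul] at h1
  exact (hasSum_zero.unique h1).symm

/-- sequences of coefficients of forms in `S₂ ⊕ Eis` -/
def V2 : Submodule ℂ (ℕ → ℂ) := LinearMap.range ((qCoeffLin N).comp (formMap N))

theorem formMap_injective (hN : Squarefree N) : Function.Injective (formMap N) := by
  rw [← LinearMap.ker_eq_bot, LinearMap.ker_eq_bot']
  rintro ⟨f, x⟩ h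
  have h1 : ∀ d ∈ N.divisors.erase 1, (fun d => if hd : d ∈ N.divisors.erase 1 then
      x ⟨d, hd⟩ else 0) d = 0 := by
    refine eis_independent N hN _ (-f) fun τ => ?_
    have h2 := DFunLike.congr_fun h τ
    simp only [formMap, LinearMap.coe_mk, AddHom.coe_mk, add_apply,
      CuspForm.toModularFormₗ_apply, zero_apply] at h2
    have h4 : ∀ (s : Finset ↥(N.divisors.erase 1)) (G : ↥(N.divisors.erase 1) →
        ModularForm (Gamma0 N) 2), (∑ d ∈ s, G d) τ = ∑ d ∈ s, G d τ := by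
      intro s G
      exact map_sum (G := ModularForm (Gamma0 N) 2 →+ ℂ) ⟨⟨fun F => F τ, rfl⟩, fun _ _ => rfl⟩ G s
    rw [h4] at h2
    have h5 : ∑ d ∈ N.divisors.erase 1, (if hd : d ∈ N.divisors.erase 1 then x ⟨d, hd⟩ else 0) *
        (if hd : d ≠ 0 then (haveI : NeZero d := ⟨hd⟩; eisForm d τ) else 0) = 0 - f τ := by
      rw [← Finset.sum_attach, ← h2, add_sub_cancel_left]
      refine Finset.sum_congr rfl fun d _ => ?_
      have hd0 : (d : ℕ) ≠ 0 :=
        (Nat.pos_of_mem_divisors (Finset.mem_of_mem_erase d.2)).ne'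
      rw [dif_pos d.2, dif_pos hd0]
      rfl
    rw [zero_sub] at h5
    exact h5
  have hx : x = 0 := by
    funext d
    have := h1 d d.2
    simpa using this
  subst hx
  have h3 : f = 0 := by
    apply CuspForm.toModularFormₗ_injective
    rw [map_zero, ← h]
    simp [formMap]
  rw [h3]
  rfl

theorem finrank_V2 (hN : Squarefree N) :
    Module.finrank ℂ (V2 N) = Module.finrank ℂ (CuspForm (Gamma0 N) 2) +
      (N.divisors.card - 1) := by
  haveI : FiniteDimensional ℂ (CuspForm (Gamma0 N) 2) := finiteDimensional_cuspForm N 2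
  have hinj : Function.Injective ((qCoeffLin N).comp (formMap N)) := by
    rw [LinearMap.coe_comp]
    refine Function.Injective.comp ?_ (formMap_injective N hN)
    rw [← LinearMap.ker_eq_bot, LinearMap.ker_eq_bot']
    exact fun F hF => eq_zero_of_qCoeffLin N hF
  rw [V2, LinearMap.finrank_range_of_inj hinj, Module.finrank_prod, Module.finrank_pi,
    Fintype.card_coe, Finset.card_erase_of_mem (Nat.one_mem_divisors.mpr (NeZero.ne N))]

/-- sequences of coefficients of cusp forms -/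
def S2 : Submodule ℂ (ℕ → ℂ) :=
  LinearMap.range ((qCoeffLin N).comp
    (CuspForm.toModularFormₗ : CuspForm (Gamma0 N) 2 →ₗ[ℂ] ModularForm (Gamma0 N) 2))

omit [NeZero N] in
theorem mem_S2 {v : ℕ → ℂ} : v ∈ S2 N ↔ ∃ f : CuspForm (Gamma0 N) 2, ∀ n, qCoeff f n = v n := by
  constructor
  · rintro ⟨f, rfl⟩
    exact ⟨f, fun _ => rfl⟩
  · rintro ⟨f, hf⟩
    exact ⟨f, funext hf⟩

theorem qCoeffLin_formMap (w : CuspForm (Gamma0 N) 2 × (↥(N.divisors.erase 1) → ℂ)) :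
    qCoeffLin N (formMap N w) = (fun n => qCoeff w.1 n) +
      ∑ d : ↥(N.divisors.erase 1), w.2 d • fun n => ((eisZ (d : ℕ) n : ℤ) : ℂ) := by
  have h1 : formMap N w = CuspForm.toModularFormₗ w.1 + ∑ d : ↥(N.divisors.erase 1), w.2 d •
    (haveI : NeZero (d : ℕ) := ⟨(Nat.pos_of_mem_divisors (Finset.mem_of_mem_erase d.2)).ne'⟩
     eisFormN (d : ℕ) N (Nat.dvd_of_mem_divisors (Finset.mem_of_mem_erase d.2))) := rfl
  rw [h1, map_add, map_sum]
  congr 1
  refine Finset.sum_congr rfl fun d _ => ?_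
  rw [map_smul]
  congr 1
  funext n
  haveI : NeZero (d : ℕ) := ⟨(Nat.pos_of_mem_divisors (Finset.mem_of_mem_erase d.2)).ne'⟩
  rw [coe_eisZ]
  rfl

theorem mem_V2 {v : ℕ → ℂ} : v ∈ V2 N ↔ ∃ (f : CuspForm (Gamma0 N) 2)
    (x : ↥(N.divisors.erase 1) → ℂ), v = (fun n => qCoeff f n) +
      ∑ d : ↥(N.divisors.erase 1), x d • fun n => ((eisZ (d : ℕ) n : ℤ) : ℂ) := by
  constructor
  · rintro ⟨w, rfl⟩
    exact ⟨w.1, w.2, qCoeffLin_formMap N w⟩
  · rintro ⟨f, x, rfl⟩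
    exact ⟨(f, x), qCoeffLin_formMap N (f, x)⟩

theorem exists_form_of_mem_V2 {v : ℕ → ℂ} (hv : v ∈ V2 N) :
    ∃ F : ModularForm (Gamma0 N) 2, ∀ n, qCoeff F n = v n := by
  obtain ⟨w, rfl⟩ := hv
  exact ⟨formMap N w, fun _ => rfl⟩

instance finiteDimensional_V2 : FiniteDimensional ℂ (V2 N) := by
  haveI : FiniteDimensional ℂ (CuspForm (Gamma0 N) 2) := finiteDimensional_cuspForm N 2
  unfold V2
  infer_instance

/-- the integral structure -/
theorem V2_integral : ∀ v ∈ V2 N,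
    v ∈ Submodule.span ℂ ((fun c : ℕ → ℤ => fun n => (c n : ℂ)) '' (seqLat (V2 N))) := by
  intro v hv
  obtain ⟨f, x, rfl⟩ := (mem_V2 N).mp hv
  refine Submodule.add_mem _ ?_ (Submodule.sum_mem _ fun d _ => Submodule.smul_mem _ _ ?_)
  · have hf : f ∈ Submodule.span ℂ ((CuspForm.intLattice N 2 : Submodule ℤ _) :
        Set (CuspForm (Gamma0 N) 2)) := by
      have := H23.hasIntegralStructure N 2
      rw [CuspForm.HasIntegralStructure] at this
      rw [this]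
      trivial
    let L : CuspForm (Gamma0 N) 2 →ₗ[ℂ] (ℕ → ℂ) := (qCoeffLin N).comp CuspForm.toModularFormₗ
    have hL : (fun n => qCoeff f n) = L f := rfl
    rw [hL]
    have h1 : L f ∈ Submodule.map L (Submodule.span ℂ ((CuspForm.intLattice N 2 : Submodule ℤ _) :
        Set (CuspForm (Gamma0 N) 2))) := Submodule.mem_map_of_mem hf
    rw [Submodule.map_span] at h1
    refine Submodule.span_le.mpr ?_ h1
    rintro _ ⟨g, hg, rfl⟩
    refine Submodule.span_induction (p := fun g _ => L g ∈ Submodule.span ℂ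
      ((fun c : ℕ → ℤ => fun n => (c n : ℂ)) '' (seqLat (V2 N)))) ?_ ?_ ?_ ?_ hg
    · intro g hg
      choose c hc using hg
      have hgc : L g = fun n => (c n : ℂ) := funext hc
      rw [hgc]
      refine Submodule.subset_span ⟨c, ?_, rfl⟩
      show (fun n => (c n : ℂ)) ∈ V2 N
      rw [← hgc]
      exact (mem_V2 N).mpr ⟨g, 0, by simp [L]; rfl⟩
    · rw [map_zero]
      exact Submodule.zero_mem _
    · intro a b _ _ ha hb
      rw [map_add]
      exact Submodule.add_mem _ ha hb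
    · intro m a _ ha
      have : L (m • a) = (m : ℂ) • L a := by rw [← map_smul, Int.cast_smul_eq_zsmul]
      rw [this]
      exact Submodule.smul_mem _ _ ha
  · refine Submodule.subset_span ⟨eisZ d, ?_, rfl⟩
    show (fun n => ((eisZ d n : ℤ) : ℂ)) ∈ V2 N
    refine (mem_V2 N).mpr ⟨0, Pi.single d 1, ?_⟩
    have h0 : (fun n => qCoeff (0 : CuspForm (Gamma0 N) 2) n) = 0 := by
      funext n
      exact H49.qCoeff_zero n
    rw [h0, zero_add, Finset.sum_eq_single d]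
    · simp
    · intro b _ hb
      rw [Pi.single_eq_of_ne hb, zero_smul]
    · simp

/-- `T_ℓ - 1 - ℓ` maps `S₂ ⊕ Eis` to cusp forms. -/
theorem hecke_mem_S2 {ℓ : ℕ} (hℓ : ℓ.Prime) (hℓN : ¬ ℓ ∣ N) {c : ℕ → ℤ}
    (hc : c ∈ seqLat (V2 N)) :
    (fun n => heckeCoeffTwo N ℓ c n - (1 + ℓ) * c n) ∈ seqLat (S2 N) := by
  obtain ⟨f, x, hfx⟩ := (mem_V2 N).mp hc
  refine (mem_S2 N).mpr ⟨CuspForm.heckeTLin 2 hℓ hℓN f - (1 + (ℓ : ℂ)) • f, fun n => ?_⟩
  have hcn : ∀ n, (c n : ℂ) = qCoeff f n +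
      ∑ d : ↥(N.divisors.erase 1), x d * ((eisZ (d : ℕ) n : ℤ) : ℂ) := by
    intro n
    have := congrFun hfx n
    simpa [Finset.sum_apply] using this
  have hE : ∀ d : ↥(N.divisors.erase 1), ((eisZ (d : ℕ) (n * ℓ) : ℤ) : ℂ) +
      (if ℓ ∣ n then (ℓ : ℂ) * ((eisZ (d : ℕ) (n / ℓ) : ℤ) : ℂ) else 0) =
      (1 + ℓ) * ((eisZ (d : ℕ) n : ℤ) : ℂ) := by
    intro d
    have h1 := hecke_eisZ hℓ hℓN (Nat.dvd_of_mem_divisors (Finset.mem_of_mem_erase d.2))
      (Nat.pos_of_mem_divisors (Finset.mem_of_mem_erase d.2)).ne' n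
    rw [heckeCoeffTwo, if_neg hℓN] at h1
    split_ifs at h1 ⊢
    · exact_mod_cast h1
    · exact_mod_cast h1
  rw [H49.qCoeff_sub, H49.qCoeff_T_two, H49.qCoeff_smul]
  simp only [heckeCoeffTwo, if_neg hℓN]
  push_cast
  rw [hcn, hcn n]
  by_cases hln : ℓ ∣ n
  · simp only [if_pos hln, Int.cast_mul, Int.cast_natCast] at hE ⊢
    rw [hcn (n / ℓ)]
    have h3 : ∑ d : ↥(N.divisors.erase 1), x d * ((eisZ (d : ℕ) (n * ℓ) : ℤ) : ℂ) +
        ℓ * ∑ d : ↥(N.divisors.erase 1), x d * ((eisZ (d : ℕ) (n / ℓ) : ℤ) : ℂ) =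
        (1 + ℓ) * ∑ d : ↥(N.divisors.erase 1), x d * ((eisZ (d : ℕ) n : ℤ) : ℂ) := by
      rw [Finset.mul_sum, Finset.mul_sum, ← Finset.sum_add_distrib]
      refine Finset.sum_congr rfl fun d _ => ?_
      linear_combination x d * hE d
    linear_combination (-1 : ℂ) * h3
  · simp only [if_neg hln, Int.cast_zero] at hE ⊢
    have h3 : ∑ d : ↥(N.divisors.erase 1), x d * ((eisZ (d : ℕ) (n * ℓ) : ℤ) : ℂ) =
        (1 + ℓ) * ∑ d : ↥(N.divisors.erase 1), x d * ((eisZ (d : ℕ) n : ℤ) : ℂ) := by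
      rw [Finset.mul_sum]
      refine Finset.sum_congr rfl fun d _ => ?_
      linear_combination x d * hE d
    linear_combination (-1 : ℂ) * h3

end Fermat.Agent.H39
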