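/-
H39End: a mod `p` cusp form over a field of characteristic `p`, eigenform for the good Hecke
operators with eigenvalues `a_ℓ(W)`, gives residual modularity.
-/
import Fermat.Agent.H39Forms
import Fermat.Agent.H39Conv

set_option autoImplicit false

noncomputable section

namespace Fermat.Agent.H39

open ModularFormClass CongruenceSubgroup
open Fermat.Agent.H49 (heckeCoeffTwo)

theorem map_heckeCoeffTwo {R S : Type*} [CommRing R] [CommRing S] (N ℓ : ℕ) (φ : R →+ S)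
    (a : ℕ → R) (n : ℕ) : φ (heckeCoeffTwo N ℓ a n) = heckeCoeffTwo N ℓ (fun n => φ (a n)) n := by
  rw [heckeCoeffTwo, heckeCoeffTwo, map_add]
  split_ifs
  · rw [map_zero]
  · rw [← nsmul_eq_mul, map_nsmul, nsmul_eq_mul]
  · rw [map_zero]

theorem heckeCoeffTwo_sum {R : Type*} [CommRing R] (N ℓ : ℕ) {ι : Type*} (s : Finset ι)
    (m : ι → R) (b : ι → ℕ → R) (n : ℕ) :
    heckeCoeffTwo N ℓ (fun n => ∑ i ∈ s, m i * b i n) n = ∑ i ∈ s, m i * heckeCoeffTwo N ℓ (b i) n := by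
  simp only [heckeCoeffTwo]
  split_ifs
  · simp
  · rw [Finset.mul_sum, ← Finset.sum_add_distrib]
    refine Finset.sum_congr rfl fun i _ => ?_
    ring
  · simp

/-- **End step over a field of characteristic `p`.** -/
theorem isResiduallyModularOfLevel_of_field {W : WeierstrassCurve ℤ} {p N : ℕ} [NeZero N]
    [hp : Fact p.Prime] {k : Type*} [Field k] [CharP k p] {r : ℕ} (s : Fin r → ℕ → ℤ)
    (hs : ∀ i, s i ∈ seqLat (S2 N)) (μ : Fin r → k) (a : ℕ → k)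
    (ha : ∀ n, a n = ∑ i, μ i * (s i n : k)) (hne : ∃ n, a n ≠ 0)
    (hT : ∀ ℓ : ℕ, ℓ.Prime → W.IsGoodPrimeFor ℓ → ¬ ℓ ∣ N → ℓ ≠ p →
      ∀ n, heckeCoeffTwo N ℓ a n = (W.apOfModel ℓ : k) * a n) :
    W.IsResiduallyModularOfLevel p N := by
  classical
  let _ : Algebra (ZMod p) k := ZMod.algebra k p
  obtain ⟨n₀, hn₀⟩ := hne
  obtain ⟨φ, hφ⟩ : ∃ φ : Module.Dual (ZMod p) k, φ (a n₀) ≠ 0 := by
    by_contra h
    push Not at h
    exact hn₀ ((Module.forall_dual_apply_eq_zero_iff (ZMod p) (a n₀)).mp h)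
  choose m hm using fun i => ZMod.intCast_surjective (φ (μ i))
  let c : ℕ → ℤ := fun n => ∑ i, m i * s i n
  have hcφ : ∀ n, ((c n : ℤ) : ZMod p) = φ (a n) := by
    intro n
    rw [ha n, map_sum, Int.cast_sum]
    refine Finset.sum_congr rfl fun i _ => ?_
    have h3 : μ i * ((s i n : ℤ) : k) = ((s i n : ℤ) : ZMod p) • μ i := by
      rw [Algebra.smul_def, map_intCast, mul_comm]
    rw [h3, map_smul, ← hm i, smul_eq_mul, Int.cast_mul, mul_comm]
  have hcS : c ∈ seqLat (S2 N) := by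
    have : c = ∑ i, m i • s i := by
      funext n
      rw [Finset.sum_apply]
      rfl
    rw [this]
    exact Submodule.sum_mem _ fun i _ => Submodule.smul_mem _ _ (hs i)
  obtain ⟨f, hf⟩ := (mem_S2 N).mp hcS
  refine isResiduallyModularOfLevel_of_form hp.out f c hf ⟨n₀, fun h => hφ ?_⟩ ?_
  · rw [← hcφ]
    exact (ZMod.intCast_zmod_eq_zero_iff_dvd _ _).mpr h
  · intro ℓ hℓ hgood hℓN hℓp n
    rw [← ZMod.intCast_zmod_eq_zero_iff_dvd, Int.cast_sub, Int.cast_mul, hcφ n]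
    have h1 := map_heckeCoeffTwo N ℓ (Int.castAddHom (ZMod p)) c n
    have h2 := map_heckeCoeffTwo N ℓ (φ : k →+ ZMod p) a n
    have h3 : ((heckeCoeffTwo N ℓ c n : ℤ) : ZMod p) = heckeCoeffTwo N ℓ (fun n => φ (a n)) n := by
      have h6 : ((heckeCoeffTwo N ℓ c n : ℤ) : ZMod p) =
        heckeCoeffTwo N ℓ (fun n => ((c n : ℤ) : ZMod p)) n := h1
      rw [h6]
      congr 1
      funext n
      exact hcφ n
    have h4 : φ (heckeCoeffTwo N ℓ a n) = heckeCoeffTwo N ℓ (fun n => φ (a n)) n := h2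
    rw [h3, ← h4, hT ℓ hℓ hgood hℓN hℓp n]
    have h5 : ((W.apOfModel ℓ : ℤ) : k) * a n = ((W.apOfModel ℓ : ℤ) : ZMod p) • a n := by
      rw [Algebra.smul_def, map_intCast]
    rw [h5, map_smul, smul_eq_mul, sub_self]

/-- **End step with the Eisenstein part.** `f` is an eigensequence, not zero,
`A • f + B • E₂` lies in the span of the reductions of integral elements of `S₂ ⊕ Eis`, and
`a_ℓ ≢ 1 + ℓ` for some good `ℓ`. -/
theorem isResiduallyModularOfLevel_of_V2 {W : WeierstrassCurve ℤ} {p N : ℕ} [NeZero N]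
    [hp : Fact p.Prime] {k : Type*} [Field k] [CharP k p] {r : ℕ} (b : Fin r → ℕ → ℤ)
    (hb : ∀ i, b i ∈ seqLat (V2 N)) (lam : Fin r → k) (f : ℕ → k) (A B : k) (hA : A ≠ 0)
    (hf : ∀ n, A * f n + B * (e2Z n : k) = ∑ i, lam i * (b i n : k)) (hne : ∃ n, f n ≠ 0)
    (hT : ∀ ℓ : ℕ, ℓ.Prime → W.IsGoodPrimeFor ℓ → ¬ ℓ ∣ N → ℓ ≠ p →
      ∀ n, heckeCoeffTwo N ℓ f n = (W.apOfModel ℓ : k) * f n)
    (hE : ∃ ℓ : ℕ, ℓ.Prime ∧ W.IsGoodPrimeFor ℓ ∧ ¬ ℓ ∣ N ∧ ℓ ≠ p ∧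
      (W.apOfModel ℓ : k) ≠ (ℓ : k) + 1) :
    W.IsResiduallyModularOfLevel p N := by
  obtain ⟨ℓ, hℓ, hgood, hℓN, hℓp, hne'⟩ := hE
  have hC : A * ((W.apOfModel ℓ : k) - (ℓ + 1)) ≠ 0 := mul_ne_zero hA (sub_ne_zero.mpr hne')
  set C : k := A * ((W.apOfModel ℓ : k) - (ℓ + 1)) with hCdef
  refine isResiduallyModularOfLevel_of_field
    (s := fun i n => heckeCoeffTwo N ℓ (b i) n - (1 + ℓ) * b i n)
    (fun i => hecke_mem_S2 N hℓ hℓN (hb i)) (fun i => C⁻¹ * lam i) f ?_ hne hT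
  intro n
  have h1 : heckeCoeffTwo N ℓ (fun n => A * f n + B * (e2Z n : k)) n =
      ∑ i, lam i * heckeCoeffTwo N ℓ (fun n => (b i n : k)) n := by
    rw [← heckeCoeffTwo_sum]
    congr 1
    funext n
    exact hf n
  have h2 : heckeCoeffTwo N ℓ (fun n => A * f n + B * (e2Z n : k)) n =
      A * heckeCoeffTwo N ℓ f n + B * heckeCoeffTwo N ℓ (fun n => (e2Z n : k)) n := by
    simp only [heckeCoeffTwo]
    split_ifs <;> ring
  have h3 : ∀ c : ℕ → ℤ, heckeCoeffTwo N ℓ (fun n => (c n : k)) n =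
      ((heckeCoeffTwo N ℓ c n : ℤ) : k) := fun c =>
    (map_heckeCoeffTwo N ℓ (Int.castAddHom k) c n).symm
  have h4 : heckeCoeffTwo N ℓ (fun n => (e2Z n : k)) n = (1 + ℓ) * (e2Z n : k) := by
    rw [h3, hecke_e2Z hℓ hℓN]
    push_cast
    rfl
  rw [h1, h4, hT ℓ hℓ hgood hℓN hℓp n] at h2
  simp only [h3] at h2
  have h5 := hf n
  have h6 : C * f n = ∑ i, lam i * ((heckeCoeffTwo N ℓ (b i) n - (1 + ℓ) * b i n : ℤ) : k) := by
    have h7 : ∑ i, lam i * ((heckeCoeffTwo N ℓ (b i) n - (1 + ℓ) * b i n : ℤ) : k) =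
        ∑ i, lam i * ((heckeCoeffTwo N ℓ (b i) n : ℤ) : k) -
          (1 + ℓ) * ∑ i, lam i * (b i n : k) := by
      rw [Finset.mul_sum, ← Finset.sum_sub_distrib]
      refine Finset.sum_congr rfl fun i _ => ?_
      push_cast
      ring
    rw [h7, h2, ← h5, hCdef]
    ring
  have h8 : f n = C⁻¹ * (C * f n) := by
    rw [inv_mul_cancel_left₀ hC]
  rw [h8, h6, Finset.mul_sum]
  exact Finset.sum_congr rfl fun i _ => by ring

end Fermat.Agent.H39
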