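import Fermat.Agent.H38MzComp2

/-!
# Comparison of levels, III: the Hecke eigenclass of level `M`
-/

set_option autoImplicit false
set_option linter.unusedSectionVars false
set_option linter.style.haveILetI false

noncomputable section

open AlgebraicCurve IntermediateField HahnSeries ModularCurve
open Fermat.Agent.H67 Fermat.Agent.H34.Two

namespace Fermat.Agent.H38.Mz

local notation "Qb" => AlgebraicClosure ℚ

section Aux

variable {K F : Type*} [Field K] [Field F] [Algebra K F]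

theorem mk_eq_zsmul_iff {D D' : Divisor.degZero (K := K) (F := F)} {a : ℤ} :
    Pic0.mk D' = a • Pic0.mk D ↔
      ((D' : Divisor K F) - a • (D : Divisor K F)) ∈ Divisor.principal (K := K) (F := F) := by
  have h1 : a • Pic0.mk D = Pic0.mk (a • D) := rfl
  rw [h1, H89SS.mk_eq_mk]
  rfl

theorem ord_mul_zpow_neg {u v : F} (hu : u ≠ 0) (hv : v ≠ 0) {d : ℤ} {D D' : Divisor K F}
    (h : ∀ P : Place K F, P.ord u = d * D P) (h' : ∀ P : Place K F, P.ord v = d * D' P) (a : ℤ)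
    (P : Place K F) : P.ord (v * u ^ (-a)) = d * (D' - a • D) P := by
  rw [P.ord_mul hv (zpow_ne_zero _ hu), P.ord_zpow, h, h', Finsupp.sub_apply, Finsupp.smul_apply,
    smul_eq_mul]
  ring

end Aux

section Level

variable {M q : ℕ} [NeZero M] [hq : Fact q.Prime] (hqM : ¬ q ∣ M) {A : ValuationSubring Qb}
  (hA : A.LiesOverPrime q)

local notation "kA" => IsLocalRing.ResidueField A
local notation "πA" => IsLocalRing.residue A

theorem coe_zpow_FB {N : ℕ} (f : FB Qb N) (a : ℤ) :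
    ((f ^ a : FB Qb N) : LaurentSeries Qb) = (f : LaurentSeries Qb) ^ a := rfl

theorem coe_pow_FB {N : ℕ} (f : FB Qb N) (a : ℕ) :
    ((f ^ a : FB Qb N) : LaurentSeries Qb) = (f : LaurentSeries Qb) ^ a := rfl

theorem coe_mul_FB {N : ℕ} (f g : FB Qb N) :
    ((f * g : FB Qb N) : LaurentSeries Qb) = (f : LaurentSeries Qb) * (g : LaurentSeries Qb) := rfl

include hqM hA

/-- **Hecke comparison.** -/
theorem hecke_compare (p : ℕ) [hp : Fact p.Prime] (hpq : p ≠ q) (n : ℕ) {ℓ : ℕ} (hℓ : ℓ.Prime)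
    (hℓN : ¬ ℓ ∣ M * q) {a : ℤ}
    {D : Divisor.degZero (K := Qb) (F := FB Qb (M * q))} {u : FB Qb (M * q)} (hu : u ≠ 0)
    (hord : ∀ v : Place Qb (FB Qb (M * q)),
      v.ord u = ((p ^ n : ℕ) : ℤ) * (D : Divisor Qb (FB Qb (M * q))) v)
    (hT : heckeOperatorBar (M * q) ⟨ℓ, hℓ⟩ (Pic0.mk D) = a • (Pic0.mk D : Pic0 Qb (FB Qb (M * q))))
    {fb : LaurentSeries kA} (hfb : fb ≠ 0) (hred : Red A πA (u : LaurentSeries Qb) fb)
    {E : Divisor.degZero (K := Qb) (F := FB Qb M)} {g : FB Qb M} (hg : g ≠ 0)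
    (hordg : ∀ v : Place Qb (FB Qb M),
      v.ord g = ((p ^ n : ℕ) : ℤ) * (E : Divisor Qb (FB Qb M)) v)
    {c : modularFunctionFieldFullC kA M} (hc : c ≠ 0)
    (hredg : Red A πA (g : LaurentSeries Qb) (fb * (c : LaurentSeries kA) ^ (p ^ n))) :
    heckeOperatorBar M ⟨ℓ, hℓ⟩ (Pic0.mk E) = a • (Pic0.mk E : Pic0 Qb (FB Qb M)) := by
  haveI : NeZero ℓ := ⟨hℓ.ne_zero⟩
  have hℓM : ¬ ℓ ∣ M := fun h => hℓN (h.mul_right q)
  set d : ℕ := p ^ n with hd
  have hd0 : d ≠ 0 := pow_ne_zero _ hp.out.ne_zero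
  have hc' : (c : LaurentSeries kA) ≠ 0 := fun h => hc (Subtype.ext h)
  obtain ⟨ζ, hζ⟩ := exists_zeta_unit A ℓ hℓ
  -- level `M q`
  obtain ⟨D', hD', hordT⟩ := exists_div_Th (ℓ := ℓ) hℓ hu hord
  have hmk : Pic0.mk D' = a • (Pic0.mk D : Pic0 Qb (FB Qb (M * q))) := hD'.trans hT
  have hprin := mk_eq_zsmul_iff.mp hmk
  have hTu0 : Th (M * q) ℓ u ≠ 0 := Th_ne_zero hu
  obtain ⟨h, hh0, hh⟩ := H89SS.exists_eq_pow (K := Qb) hd0
    (mul_ne_zero hTu0 (zpow_ne_zero (-a) hu)) hprin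
    (ord_mul_zpow_neg hu hTu0 hord hordT a)
  obtain ⟨tb, htb0, htb, htbq⟩ := red_Th hℓ hℓN hζ hfb hred
  have h1 : Red A πA ((h : LaurentSeries Qb) ^ d) (tb * fb ^ (-a)) := by
    rw [← coe_pow_FB, ← hh, coe_mul_FB, coe_zpow_FB]
    exact htb.mul (hred.zpow hfb _)
  obtain ⟨hb, hhb, hhb'⟩ := red_of_pow hd0 (mul_ne_zero htb0 (zpow_ne_zero _ hfb)) h1
  have hbmem := mem_full_of_red hqM hA hhb
  have hb0 : hb ≠ 0 := by
    rintro rfl
    rw [zero_pow hd0] at hhb'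
    exact mul_ne_zero htb0 (zpow_ne_zero _ hfb) hhb'.symm
  -- lift of `c`
  obtain ⟨ct, hct⟩ := exists_red_eq M A c.2
  obtain ⟨t3, ht30, ht3, ht3q⟩ := red_Th (N := M) hℓ hℓM hζ hc' hct
  have ht3mem := mem_full_of_red' hqM hA ht3
  -- level `M`
  obtain ⟨E', hE', hordTg⟩ := exists_div_Th (ℓ := ℓ) hℓ hg hordg
  have hfc : fb * (c : LaurentSeries kA) ^ d ≠ 0 := mul_ne_zero hfb (pow_ne_zero _ hc')
  obtain ⟨t2, ht20, ht2, ht2q⟩ := red_Th (N := M) hℓ hℓM hζ hfc hredg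
  have ht2eq : t2 = tb * t3 ^ d := by
    apply qExpand_inj ℓ
    rw [ht2q, normSeries_mul, normSeries_pow, map_mul, map_pow, htbq, ht3q]
  have hTg0 : Th M ℓ g ≠ 0 := Th_ne_zero hg
  set s : modularFunctionFieldFullC kA M := ⟨hb, hbmem⟩ * ⟨t3, ht3mem⟩ * c ^ (-a) with hs
  have hs_coe : (s : LaurentSeries kA) = hb * t3 * (c : LaurentSeries kA) ^ (-a) := rfl
  have hs0 : s ≠ 0 := by
    intro h0
    have h2 := congrArg Subtype.val h0
    change hb * t3 * (c : LaurentSeries kA) ^ (-a) = 0 at h2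
    exact mul_ne_zero (mul_ne_zero hb0 ht30) (zpow_ne_zero _ hc') h2
  have hG : Red A πA ((Th M ℓ g * g ^ (-a) : FB Qb M) : LaurentSeries Qb)
      ((s : LaurentSeries kA) ^ d) := by
    rw [coe_mul_FB, coe_zpow_FB]
    have h2 := ht2.mul (hredg.zpow hfc (-a))
    have h3 : t2 * (fb * (c : LaurentSeries kA) ^ d) ^ (-a) = (s : LaurentSeries kA) ^ d := by
      rw [ht2eq, hs_coe, mul_pow, mul_pow, hhb', mul_zpow, ← zpow_natCast (c : LaurentSeries kA) d,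
        ← zpow_natCast ((c : LaurentSeries kA) ^ (-a)) d, ← zpow_mul, ← zpow_mul,
        mul_comm (d : ℤ) (-a)]
      ring
    rwa [h3] at h2
  have hfin := mk_eq_zero_of_red hqM hA p hpq n (X := E' - a • E) (G := Th M ℓ g * g ^ (-a))
    (mul_ne_zero hTg0 (zpow_ne_zero _ hg)) (ord_mul_zpow_neg hg hTg0 hordg hordTg a) hs0 hG
  have h4 : Pic0.mk E' = a • (Pic0.mk E : Pic0 Qb (FB Qb M)) := by
    rw [mk_eq_zsmul_iff]
    exact H89SS.mk_eq_zero.mp hfin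
  rw [← hE', h4]

end Level

end Fermat.Agent.H38.Mz
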