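/-
H39Hecke: the Hecke relation for the logarithmic derivative of the reduction of a function
`u` with `div u = p D`, `T_ℓ [D] = a [D]`.
-/
import Fermat.Agent.H38MzHecke
import Fermat.Agent.H61Formal
import Fermat.Agent.H49Lifting

set_option autoImplicit false

noncomputable section

open AlgebraicCurve ModularCurve HahnSeries Fermat.Agent.H61

namespace Fermat.Agent.H39

local notation "Qb" => AlgebraicClosure ℚ

section dlog

variable {k : Type*} [Field k]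

/-- The logarithmic derivative `θx / x`. -/
def dl (x : LaurentSeries k) : LaurentSeries k := theta x / x

theorem dl_mul {x y : LaurentSeries k} (hx : x ≠ 0) (hy : y ≠ 0) :
    dl (x * y) = dl x + dl y := by
  rw [dl, dl, dl, theta_mul]
  field_simp

theorem dl_one : dl (1 : LaurentSeries k) = 0 := by
  rw [dl, theta_one, zero_div]

theorem dl_pow {x : LaurentSeries k} (hx : x ≠ 0) (n : ℕ) : dl (x ^ n) = n * dl x := by
  induction n with
  | zero => rw [pow_zero, dl_one, Nat.cast_zero, zero_mul]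
  | succ n ih =>
    rw [pow_succ, dl_mul (pow_ne_zero _ hx) hx, ih]
    push_cast
    ring

theorem dl_inv {x : LaurentSeries k} (hx : x ≠ 0) : dl x⁻¹ = -dl x := by
  have h := dl_mul hx (inv_ne_zero hx)
  rw [mul_inv_cancel₀ hx, dl_one] at h
  linear_combination -h

theorem dl_zpow {x : LaurentSeries k} (hx : x ≠ 0) (n : ℤ) : dl (x ^ n) = n * dl x := by
  cases n with
  | ofNat n => rw [Int.ofNat_eq_natCast, zpow_natCast, dl_pow hx, Int.cast_natCast]
  | negSucc n =>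
    rw [zpow_negSucc, dl_inv (pow_ne_zero _ hx), dl_pow hx, Int.cast_negSucc]
    ring

theorem dl_prod {ι : Type*} (s : Finset ι) (x : ι → LaurentSeries k) (hx : ∀ i ∈ s, x i ≠ 0) :
    dl (∏ i ∈ s, x i) = ∑ i ∈ s, dl (x i) := by
  classical
  induction s using Finset.induction_on with
  | empty => rw [Finset.prod_empty, Finset.sum_empty, dl_one]
  | insert a s ha ih =>
    have h1 : ∀ i ∈ s, x i ≠ 0 := fun i hi => hx i (Finset.mem_insert_of_mem hi)
    rw [Finset.prod_insert ha, Finset.sum_insert ha,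
      dl_mul (hx a (Finset.mem_insert_self a s)) (Finset.prod_ne_zero_iff.mpr h1), ih h1]

theorem coeff_natCast_mul (m : ℕ) (x : LaurentSeries k) (n : ℤ) :
    ((m : LaurentSeries k) * x).coeff n = m * x.coeff n := by
  rw [← nsmul_eq_mul, HahnSeries.coeff_nsmul, Pi.smul_apply, nsmul_eq_mul]

theorem theta_qExpand' (ℓ : ℕ) [NeZero ℓ] (f : LaurentSeries k) :
    theta (qExpand k ℓ f) = (ℓ : LaurentSeries k) * qExpand k ℓ (theta f) := by
  ext n
  rw [coeff_natCast_mul, coeff_theta]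
  by_cases h : (ℓ : ℤ) ∣ n
  · obtain ⟨m, rfl⟩ := h
    rw [qExpand_coeff_mul, qExpand_coeff_mul, coeff_theta]
    push_cast
    ring
  · rw [qExpand_coeff_of_not_dvd _ _ h, qExpand_coeff_of_not_dvd _ _ h, mul_zero, mul_zero]

theorem dl_qExpand (ℓ : ℕ) [NeZero ℓ] (x : LaurentSeries k) :
    dl (qExpand k ℓ x) = ℓ * qExpand k ℓ (dl x) := by
  rw [dl, dl, theta_qExpand', map_div₀, mul_div_assoc]

theorem theta_twist (u : kˣ) (x : LaurentSeries k) :
    theta (H60.twist u x) = H60.twist u (theta x) := by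
  ext n
  rw [coeff_theta, H60.twist_coeff, H60.twist_coeff, coeff_theta]
  ring

theorem dl_twist (u : kˣ) (x : LaurentSeries k) :
    dl (H60.twist u x) = H60.twist u (dl x) := by
  rw [dl, dl, theta_twist, map_div₀]

theorem coeff_intCast_mul (m : ℤ) (x : LaurentSeries k) (n : ℤ) :
    ((m : LaurentSeries k) * x).coeff n = m * x.coeff n := by
  have h : (m : LaurentSeries k) = HahnSeries.C (m : k) := (map_intCast _ m).symm
  rw [h, HahnSeries.C_mul_eq_smul, HahnSeries.coeff_smul, smul_eq_mul]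

theorem coeff_qExpand_eq (ℓ : ℕ) [NeZero ℓ] (x : LaurentSeries k) (n : ℤ) :
    (qExpand k ℓ x).coeff n = if (ℓ : ℤ) ∣ n then x.coeff (n / ℓ) else 0 := by
  split_ifs with h
  · obtain ⟨m, rfl⟩ := h
    rw [qExpand_coeff_mul, Int.mul_ediv_cancel_left _ (Int.natCast_ne_zero.mpr (NeZero.ne ℓ))]
  · exact qExpand_coeff_of_not_dvd _ _ h

/-- **The Hecke relation for logarithmic derivatives.** -/
theorem coeff_dl_normSeries {p : ℕ} [CharP k p] {ℓ : ℕ} [NeZero ℓ] (hℓk : (ℓ : k) ≠ 0) {ζ : kˣ}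
    (hζ : ζ ^ ℓ = 1) {f w : LaurentSeries k} (hf : f ≠ 0) (hw : w ≠ 0) {a : ℤ}
    (h : H60.normSeries ℓ ζ f = qExpand k ℓ (f ^ a * w ^ p)) (n : ℤ) :
    (dl f).coeff (ℓ * n) + (if (ℓ : ℤ) ∣ n then (ℓ : k) * (dl f).coeff (n / ℓ) else 0) =
      a * (dl f).coeff n := by
  have hq : qExpand k ℓ (qExpand k ℓ f) ≠ 0 := by
    intro h0
    exact hf (H38.Mz.qExpand_inj ℓ (H38.Mz.qExpand_inj ℓ (h0.trans ((map_zero _).symm.trans
      (congrArg _ (map_zero _).symm)))))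
  have ht : ∀ i ∈ Finset.range ℓ, H60.twist (ζ ^ i) f ≠ 0 := fun i _ h0 =>
    hf (H38.Mz.twist_inj _ (h0.trans (map_zero _).symm))
  have h1 : dl (H60.normSeries ℓ ζ f) = ℓ * qExpand k ℓ (ℓ * qExpand k ℓ (dl f)) +
      ∑ i ∈ Finset.range ℓ, H60.twist (ζ ^ i) (dl f) := by
    rw [H60.normSeries, dl_mul hq (Finset.prod_ne_zero_iff.mpr ht), dl_prod _ _ ht, dl_qExpand,
      dl_qExpand]
    simp only [dl_twist]
  have h2 : dl (qExpand k ℓ (f ^ a * w ^ p)) = ℓ * qExpand k ℓ (a * dl f) := by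
    rw [dl_qExpand, dl_mul (zpow_ne_zero _ hf) (pow_ne_zero _ hw), dl_zpow hf, dl_pow hw]
    have : ((p : ℕ) : LaurentSeries k) = 0 := by
      have h3 : (HahnSeries.C (p : k) : LaurentSeries k) = (p : LaurentSeries k) := map_natCast _ p
      rw [← h3, CharP.cast_eq_zero, map_zero]
    rw [this, zero_mul, add_zero]
  rw [h, h2] at h1
  have h3 := congrArg (fun z : LaurentSeries k => z.coeff (ℓ * n)) h1
  simp only [HahnSeries.coeff_add, coeff_natCast_mul, coeff_intCast_mul, qExpand_coeff_mul,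
    HahnSeries.coeff_sum, H60.twist_coeff] at h3
  have h4 : ∀ i ∈ Finset.range ℓ, (((ζ ^ i) ^ ((ℓ : ℤ) * n) : kˣ) : k) * (dl f).coeff (ℓ * n) =
      (dl f).coeff (ℓ * n) := by
    intro i _
    have : (ζ ^ i) ^ ((ℓ : ℤ) * n) = 1 := by
      rw [zpow_mul, zpow_natCast, ← pow_mul, mul_comm i ℓ, pow_mul, hζ, one_pow, one_zpow]
    rw [this, Units.val_one, one_mul]
  rw [Finset.sum_congr rfl h4, Finset.sum_const, Finset.card_range, nsmul_eq_mul,
    coeff_qExpand_eq] at h3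
  apply mul_left_cancel₀ hℓk
  rw [h3]
  split_ifs <;> ring

/-- the order of `θx` is at least the order of `x`. -/
theorem coeff_dl_of_neg {x : LaurentSeries k} {n : ℤ} (hn : n < 0) : (dl x).coeff n = 0 := by
  by_cases hx : x = 0
  · rw [dl, hx, div_zero]; rfl
  by_cases h0 : dl x = 0
  · rw [h0]; rfl
  have hth : theta x ≠ 0 := by
    intro h
    exact h0 (by rw [dl, h, zero_div])
  have h1 : theta x = dl x * x := by rw [dl, div_mul_cancel₀ _ hx]
  have h2 : (theta x).order = (dl x).order + x.order := by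
    rw [h1, HahnSeries.order_mul h0 hx]
  have h3 : x.order ≤ (theta x).order := by
    by_contra h
    push Not at h
    have h4 : (theta x).coeff (theta x).order ≠ 0 := by
      rw [ne_eq, HahnSeries.coeff_order_eq_zero]
      exact hth
    rw [coeff_theta, HahnSeries.coeff_eq_zero_of_lt_order h, mul_zero] at h4
    exact h4 rfl
  apply HahnSeries.coeff_eq_zero_of_lt_order
  omega

/-- the `ℕ`-indexed form of the relation -/
theorem heckeCoeffTwo_dl {N ℓ : ℕ} [NeZero ℓ] (hℓN : ¬ ℓ ∣ N) {a : k} {f : LaurentSeries k}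
    (h : ∀ n : ℤ, (dl f).coeff (ℓ * n) +
      (if (ℓ : ℤ) ∣ n then (ℓ : k) * (dl f).coeff (n / ℓ) else 0) = a * (dl f).coeff n) (n : ℕ) :
    H49.heckeCoeffTwo N ℓ (fun n : ℕ => (dl f).coeff (n : ℤ)) n = a * (dl f).coeff (n : ℤ) := by
  rw [← h n, H49.heckeCoeffTwo, if_neg hℓN]
  have h1 : (((n * ℓ : ℕ) : ℤ)) = ℓ * n := by push_cast; ring
  rw [h1]
  congr 1
  by_cases hd : ℓ ∣ n
  · rw [if_pos hd, if_pos (Int.natCast_dvd_natCast.mpr hd), Int.natCast_div]
  · rw [if_neg hd, if_neg (fun h' => hd (Int.natCast_dvd_natCast.mp h'))]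

end dlog

section Char0

open Fermat.Agent.H67 Fermat.Agent.H34.Two Fermat.Agent.H38.Mz

variable {A : ValuationSubring Qb} {k : Type*} [Field k] {π : A →+* k} [IsLocalHom π]
  {N : ℕ} [NeZero N]

/-- **Multiplicative form of the Hecke relation for the reduction.** -/
theorem exists_normSeries_red {p : ℕ} (hp : p ≠ 0) {ℓ : ℕ} [NeZero ℓ] (hℓ : ℓ.Prime)
    (hℓN : ¬ ℓ ∣ N)
    {a : ℤ} {D : Divisor.degZero (K := Qb) (F := FB Qb N)} {u : FB Qb N} (hu : u ≠ 0)
    (hord : ∀ v : Place Qb (FB Qb N), v.ord u = (p : ℤ) * (D : Divisor Qb (FB Qb N)) v)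
    (hT : heckeOperatorBar N ⟨ℓ, hℓ⟩ (Pic0.mk D) = a • (Pic0.mk D : Pic0 Qb (FB Qb N)))
    {fb : LaurentSeries k} (hfb : fb ≠ 0) (hred : Red A π (u : LaurentSeries Qb) fb) :
    ∃ (ζ : kˣ) (wb : LaurentSeries k), ζ ^ ℓ = 1 ∧ wb ≠ 0 ∧
      H60.normSeries ℓ ζ fb = qExpand k ℓ (fb ^ a * wb ^ p) := by
  obtain ⟨ζ, hζ⟩ := exists_zeta_unit A ℓ hℓ
  obtain ⟨D', hD', hordT⟩ := exists_div_Th (ℓ := ℓ) hℓ hu hord
  have hmk : Pic0.mk D' = a • (Pic0.mk D : Pic0 Qb (FB Qb N)) := hD'.trans hT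
  have hprin := mk_eq_zsmul_iff.mp hmk
  have hTu0 : Th N ℓ u ≠ 0 := Th_ne_zero hu
  obtain ⟨h, hh0, hh⟩ := H89SS.exists_eq_pow (K := Qb) hp
    (mul_ne_zero hTu0 (zpow_ne_zero (-a) hu)) hprin
    (ord_mul_zpow_neg hu hTu0 hord hordT a)
  obtain ⟨tb, htb0, htb, htbq⟩ := red_Th hℓ hℓN hζ hfb hred
  have h1 : Red A π ((h : LaurentSeries Qb) ^ p) (tb * fb ^ (-a)) := by
    rw [← coe_pow_FB, ← hh, coe_mul_FB, coe_zpow_FB]
    exact htb.mul (hred.zpow hfb _)
  obtain ⟨hb, hhb, hhb'⟩ := red_of_pow hp (mul_ne_zero htb0 (zpow_ne_zero _ hfb)) h1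
  have hb0 : hb ≠ 0 := by
    rintro rfl
    rw [zero_pow hp] at hhb'
    exact mul_ne_zero htb0 (zpow_ne_zero _ hfb) hhb'.symm
  refine ⟨Units.map (π : A →* k) ζ, hb, ?_, hb0, ?_⟩
  · rw [← map_pow]
    have h2 : ζ ^ ℓ = 1 := by
      have h3 := hζ.pow_eq_one
      rw [← map_pow] at h3
      ext
      exact congrArg (fun z : Qbˣ => (z : Qb)) h3
    rw [h2, map_one]
  · rw [← htbq, hhb']
    congr 1
    rw [mul_comm tb, ← mul_assoc, ← zpow_add₀ hfb, add_neg_cancel, zpow_zero, one_mul]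

/-- **The Hecke relation for the logarithmic derivative of the reduction.** -/
theorem heckeCoeffTwo_dl_red {p : ℕ} [hp : Fact p.Prime] [CharP k p] {M : ℕ} {ℓ : ℕ}
    (hℓ : ℓ.Prime) (hℓN : ¬ ℓ ∣ N) (hℓM : ¬ ℓ ∣ M) (hℓp : ℓ ≠ p)
    {a : ℤ} {D : Divisor.degZero (K := Qb) (F := FB Qb N)} {u : FB Qb N} (hu : u ≠ 0)
    (hord : ∀ v : Place Qb (FB Qb N), v.ord u = (p : ℤ) * (D : Divisor Qb (FB Qb N)) v)
    (hT : heckeOperatorBar N ⟨ℓ, hℓ⟩ (Pic0.mk D) = a • (Pic0.mk D : Pic0 Qb (FB Qb N)))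
    {fb : LaurentSeries k} (hfb : fb ≠ 0) (hred : Red A π (u : LaurentSeries Qb) fb) (n : ℕ) :
    H49.heckeCoeffTwo M ℓ (fun n : ℕ => (dl fb).coeff (n : ℤ)) n =
      (a : k) * (dl fb).coeff (n : ℤ) := by
  haveI : NeZero ℓ := ⟨hℓ.ne_zero⟩
  obtain ⟨ζ, wb, hζ, hwb, h⟩ :=
    exists_normSeries_red hp.out.ne_zero hℓ hℓN hu hord hT hfb hred
  have hℓk : (ℓ : k) ≠ 0 := by
    intro h0
    rw [CharP.cast_eq_zero_iff k p] at h0
    exact hℓp ((Nat.prime_dvd_prime_iff_eq hp.out hℓ).mp h0).symm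
  exact heckeCoeffTwo_dl hℓM (coeff_dl_normSeries hℓk hζ hfb hwb h) n

end Char0

end Fermat.Agent.H39
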