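import Fermat.Agent.H94Kaehler
set_option autoImplicit false

/-!
# Orders of differentials (helper94)
-/

noncomputable section

open AlgebraicCurve IsDedekindDomain WithZero IntermediateField KaehlerDifferential
open scoped IntermediateField.algebraAdjoinAdjoin

namespace Fermat.Agent.H94
variable {K F : Type*} [Field K] [Field F] [Algebra K F]

section DD

variable [CharZero K] [FunField K F]

/-- The isomorphism `F ≃ Ω`, `a ↦ a • dx`. -/
def dxEquiv {x : F} (hx : Transcendental K x) : F ≃ₗ[F] Ω[F⁄K] :=
  LinearEquiv.ofBijective (LinearMap.toSpanSingleton F _ (D K F x)) ⟨by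
    rw [← LinearMap.ker_eq_bot, LinearMap.ker_eq_bot']
    intro a ha
    exact (smul_eq_zero.mp ha).resolve_right (D_ne_zero hx), by
    rw [← LinearMap.range_eq_top, LinearMap.range_toSpanSingleton]
    exact span_D_eq_top hx⟩

theorem dxEquiv_apply {x : F} (hx : Transcendental K x) (a : F) :
    dxEquiv hx a = a • D K F x := rfl

/-- The derivation `d/dx`. -/
def dd {x : F} (hx : Transcendental K x) : Derivation K F F :=
  (dxEquiv hx).symm.toLinearMap.compDer (D K F)

theorem dd_smul {x : F} (hx : Transcendental K x) (f : F) : dd hx f • D K F x = D K F f := by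
  rw [← dxEquiv_apply hx]
  exact (dxEquiv hx).apply_symm_apply _

theorem dd_eq_of {x : F} (hx : Transcendental K x) {f g : F} (h : D K F f = g • D K F x) :
    dd hx f = g := by
  have h1 := (dd_smul hx f).trans h
  have h2 : (dd hx f - g) • D K F x = 0 := by rw [sub_smul, h1, sub_self]
  rcases smul_eq_zero.mp h2 with h | h
  · exact sub_eq_zero.mp h
  · exact absurd h (D_ne_zero hx)

theorem dd_self {x : F} (hx : Transcendental K x) : dd hx x = 1 :=
  dd_eq_of hx (one_smul F _).symm

theorem dd_mul_dd {x y : F} (hx : Transcendental K x) (hy : Transcendental K y) (f : F) :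
    dd hy f * dd hx y = dd hx f := by
  symm
  apply dd_eq_of
  rw [mul_smul, dd_smul, dd_smul]

end DD

section Local

variable [CharZero K] [IsAlgClosed K] [FunField K F]

omit [CharZero K] in
/-- `t`-adic Taylor approximation by polynomials in `t`. -/
theorem exists_poly_approx (v : Place K F) {t : F} (ht : v.ord t = 1) {f : F}
    (hf : f ∈ v.toValuationSubring) (N : ℕ) :
    ∃ (p : Polynomial K) (g : F), g ∈ v.toValuationSubring ∧
      f = Polynomial.aeval t p + t ^ N * g := by
  induction N with
  | zero => exact ⟨0, f, hf, by simp⟩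
  | succ N ih =>
    obtain ⟨p, g, hg, hfg⟩ := ih
    obtain ⟨a, ha⟩ := exists_sub_algebraMap_ord_pos v hg
    have ht0 : t ≠ 0 := by rintro rfl; simp at ht
    refine ⟨p + Polynomial.C a * Polynomial.X ^ N, (g - algebraMap K F a) * t⁻¹, ?_, ?_⟩
    · rcases ha with h0 | h0
      · rw [h0, zero_mul]; exact zero_mem _
      · have hne : g - algebraMap K F a ≠ 0 := by
          intro h; rw [h, Place.ord_zero] at h0; exact lt_irrefl _ h0
        apply mem_of_ord_nonneg
        rw [v.ord_mul hne (inv_ne_zero ht0), v.ord_inv, ht]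
        omega
    · rw [hfg, map_add, map_mul, Polynomial.aeval_C, map_pow, Polynomial.aeval_X]
      field_simp
      ring

omit [CharZero K] [FunField K F] in
theorem transcendental_of_ord_eq_one {v : Place K F} {t : F} (ht : v.ord t = 1) :
    Transcendental K t :=
  transcendental_of_ord_ne_zero (v := v) (by rw [ht]; norm_num)

omit [IsAlgClosed K] in
theorem dd_aeval {t : F} (ht : Transcendental K t) (p : Polynomial K) :
    dd ht (Polynomial.aeval t p) = Polynomial.aeval t (Polynomial.derivative p) := by
  rw [Derivation.map_aeval, dd_self, smul_eq_mul, mul_one]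

omit [CharZero K] [IsAlgClosed K] [FunField K F] in
theorem aeval_mem (v : Place K F) {t : F} (ht : t ∈ v.toValuationSubring) (p : Polynomial K) :
    Polynomial.aeval t p ∈ v.toValuationSubring := by
  have := Polynomial.aeval_algebraMap_apply F (⟨t, ht⟩ : v.toValuationSubring) p
  have h2 : Polynomial.aeval t p =
    ((Polynomial.aeval (⟨t, ht⟩ : v.toValuationSubring) p : v.toValuationSubring) : F) := this
  rw [h2]
  exact SetLike.coe_mem _

/-- The order of `d/dt` is bounded below on the valuation ring. -/
theorem exists_bound (v : Place K F) {t : F} (ht : v.ord t = 1) :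
    ∃ c : ℕ, ∀ f ∈ v.toValuationSubring,
      t ^ c * dd (transcendental_of_ord_eq_one ht) f ∈ v.toValuationSubring := by
  classical
  have htr : Transcendental K t := transcendental_of_ord_eq_one ht
  have ht0 : t ≠ 0 := by rintro rfl; simp at ht
  have htmem : t ∈ v.toValuationSubring := mem_of_ord_nonneg v (by omega)
  have hfd := FunField.finiteDimensional (F := F) htr
  have hded := isDedekindDomain_intRing (F := F) htr
  have hfrac := isFractionRing_intRing (K := K) (x := t)
  have hfin := finite_intRing (F := F) htr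
  have hB : ∀ b : IntRing K t, algebraMap (IntRing K t) F b ∈ v.toValuationSubring := fun b =>
    mem_of_intRing htmem b
  obtain ⟨S, hS⟩ := hfin.fg_top
  have h1 : ∀ f : F, ∃ c : ℕ, ∀ c' ≥ c, t ^ c' * f ∈ v.toValuationSubring := by
    intro f
    refine ⟨(v.ord f).natAbs, fun c' hc' => ?_⟩
    rcases eq_or_ne f 0 with rfl | hf
    · simp
    apply mem_of_ord_nonneg
    rw [v.ord_mul (pow_ne_zero _ ht0) hf, ← zpow_natCast, v.ord_zpow, ht]
    omega
  choose cf hcf using h1
  let c := S.sup fun s => cf (dd htr (s : F))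
  have hc : ∀ b : IntRing K t, t ^ c * dd htr (b : F) ∈ v.toValuationSubring := by
    intro b
    have hb : b ∈ Submodule.span (Algebra.adjoin K {t}) (S : Set (IntRing K t)) :=
      hS ▸ Submodule.mem_top
    induction hb using Submodule.span_induction with
    | mem s hs =>
      exact hcf _ _ (Finset.le_sup (f := fun s : IntRing K t => cf (dd htr (s : F))) hs)
    | zero => simp
    | add a b _ _ ha hb =>
      have : ((a + b : IntRing K t) : F) = (a : F) + (b : F) := rfl
      rw [this, map_add, mul_add]
      exact add_mem ha hb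
    | smul a b _ hb =>
      have : ((a • b : IntRing K t) : F) = (a : F) * (b : F) := rfl
      rw [this, Derivation.leibniz, smul_eq_mul, smul_eq_mul, mul_add]
      have ha1 : (a : F) ∈ v.toValuationSubring :=
        hB (algebraMap (Algebra.adjoin K {t}) (IntRing K t) a)
      have ha2 : dd htr (a : F) ∈ v.toValuationSubring := by
        obtain ⟨a, ha⟩ := a
        rw [Algebra.adjoin_singleton_eq_range_aeval] at ha
        obtain ⟨p, rfl⟩ := ha
        show dd htr (Polynomial.aeval t p) ∈ _
        rw [dd_aeval]
        exact aeval_mem v htmem _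
      refine add_mem ?_ ?_
      · have : t ^ c * ((a : F) * dd htr (b : F)) = (a : F) * (t ^ c * dd htr (b : F)) := by ring
        rw [this]
        exact mul_mem ha1 hb
      · exact mul_mem (pow_mem htmem _) (mul_mem (hB b) ha2)
  refine ⟨c, fun f hf => ?_⟩
  obtain ⟨n, d, hnd⟩ := (primeBelow v hB).exists_primeCompl_mul_eq_of_integer f (by
    have h2 := ofHeightOneSpectrum_primeBelow v hB
    have h3 : f ∈ (Place.ofHeightOneSpectrum (K := K) (primeBelow v hB)).toValuationSubring := by
      rw [h2]; exact hf
    exact h3)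
  have hd : (d : IntRing K t) ∉ (primeBelow v hB).asIdeal := d.2
  rw [mem_primeBelow_iff, not_or] at hd
  have hd0 : algebraMap (IntRing K t) F d ≠ 0 := by
    rw [ne_eq, map_eq_zero_iff _ (IsFractionRing.injective (IntRing K t) F)]; exact hd.1
  have hordd : v.ord (algebraMap (IntRing K t) F d) = 0 :=
    le_antisymm (not_lt.mp hd.2) (ord_nonneg_of_mem v (hB _))
  have hinv : (algebraMap (IntRing K t) F d)⁻¹ ∈ v.toValuationSubring :=
    mem_of_ord_nonneg v (by rw [v.ord_inv, hordd, neg_zero])
  have h4 : dd htr (algebraMap (IntRing K t) F n) =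
      f * dd htr (algebraMap (IntRing K t) F d) + algebraMap (IntRing K t) F d * dd htr f := by
    rw [← hnd, Derivation.leibniz, smul_eq_mul, smul_eq_mul]
  have h5 : t ^ c * dd htr f = (t ^ c * dd htr (algebraMap (IntRing K t) F n) -
      f * (t ^ c * dd htr (algebraMap (IntRing K t) F d))) * (algebraMap (IntRing K t) F d)⁻¹ := by
    rw [h4]
    field_simp
    ring
  show t ^ c * dd htr f ∈ _
  rw [h5]
  exact mul_mem (sub_mem (hc n) (mul_mem hf (hc d))) hinv

/-- `d/dt` preserves the valuation ring when `t` is a uniformizer. -/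
theorem dd_mem (v : Place K F) {t : F} (ht : v.ord t = 1) {f : F}
    (hf : f ∈ v.toValuationSubring) :
    dd (transcendental_of_ord_eq_one ht) f ∈ v.toValuationSubring := by
  have htr : Transcendental K t := transcendental_of_ord_eq_one ht
  have htmem : t ∈ v.toValuationSubring := mem_of_ord_nonneg v (by omega)
  obtain ⟨c, hc⟩ := exists_bound v ht
  obtain ⟨p, g, hg, hfg⟩ := exists_poly_approx v ht hf (c + 1)
  have h1 : dd htr f = Polynomial.aeval t (Polynomial.derivative p) +
      (((c + 1 : ℕ) : F) * t ^ c * g + t * (t ^ c * dd htr g)) := by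
    rw [hfg, map_add, dd_aeval, Derivation.leibniz, Derivation.leibniz_pow, dd_self]
    simp only [smul_eq_mul, nsmul_eq_mul, add_tsub_cancel_right, mul_one]
    ring
  show dd htr f ∈ _
  rw [h1]
  refine add_mem (aeval_mem v htmem _) (add_mem (mul_mem (mul_mem ?_ (pow_mem htmem _)) hg)
    (mul_mem htmem (hc g hg)))
  exact natCast_mem _ _

/-- `dt'/dt` is a unit for two uniformizers. -/
theorem ord_dd_uniformizer (v : Place K F) {t t' : F} (ht : v.ord t = 1) (ht' : v.ord t' = 1) :
    v.ord (dd (transcendental_of_ord_eq_one ht) t') = 0 := by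
  have htr := transcendental_of_ord_eq_one ht
  have htr' := transcendental_of_ord_eq_one ht'
  have h1 : dd htr t' ∈ v.toValuationSubring :=
    dd_mem v ht (mem_of_ord_nonneg v (by omega))
  have h2 : dd htr' t ∈ v.toValuationSubring :=
    dd_mem v ht' (mem_of_ord_nonneg v (by omega))
  have h3 : dd htr' t * dd htr t' = 1 := by
    rw [dd_mul_dd htr htr', dd_self]
  have h4 : dd htr t' ≠ 0 := right_ne_zero_of_mul_eq_one h3
  have h5 : dd htr' t ≠ 0 := left_ne_zero_of_mul_eq_one h3
  have h6 := v.ord_mul h5 h4
  rw [h3, v.ord_one] at h6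
  have h7 := ord_nonneg_of_mem v h1
  have h8 := ord_nonneg_of_mem v h2
  show v.ord (dd htr t') = 0
  omega

/-- The basic order computation: `ord_t (dy/dt) = ord y - 1` if `ord y ≠ 0`. -/
theorem ord_dd (v : Place K F) {t y : F} (ht : v.ord t = 1) (hy : v.ord y ≠ 0) :
    v.ord (dd (transcendental_of_ord_eq_one ht) y) = v.ord y - 1 ∧
      dd (transcendental_of_ord_eq_one ht) y ≠ 0 := by
  have htr := transcendental_of_ord_eq_one ht
  have ht0 : t ≠ 0 := by rintro rfl; simp at ht
  have hy0 : y ≠ 0 := by rintro rfl; simp at hy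
  set k := v.ord y with hk
  let u := y * t ^ (-k)
  have hu0 : u ≠ 0 := mul_ne_zero hy0 (zpow_ne_zero _ ht0)
  have hu : v.ord u = 0 := by
    rw [v.ord_mul hy0 (zpow_ne_zero _ ht0), v.ord_zpow, ht]; omega
  have humem : u ∈ v.toValuationSubring := mem_of_ord_nonneg v hu.ge
  have hyu : y = u * t ^ k := by
    show y = y * t ^ (-k) * t ^ k
    rw [mul_assoc, ← zpow_add₀ ht0]; simp
  have hdu : dd htr u ∈ v.toValuationSubring := dd_mem v ht humem
  have hd : dd htr y = t ^ (k - 1) * ((k : F) * u + t * dd htr u) := by
    rw [hyu, Derivation.leibniz, Derivation.leibniz_zpow, dd_self]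
    simp only [smul_eq_mul, zsmul_eq_mul, mul_one]
    have : t ^ k = t ^ (k - 1) * t := by
      rw [← zpow_add_one₀ ht0]; congr 1; ring
    rw [this]
    ring
  have hkF : (k : F) ≠ 0 := by
    have : CharZero F := charZero_of_injective_algebraMap (algebraMap K F).injective
    exact_mod_cast hy
  have hku0 : (k : F) * u ≠ 0 := mul_ne_zero hkF hu0
  have hku : v.ord ((k : F) * u) = 0 := by
    rw [v.ord_mul hkF hu0, hu, add_zero]
    have := ord_algebraMap v (k : K)
    simpa using this
  have hsum : (k : F) * u + t * dd htr u ≠ 0 ∧ v.ord ((k : F) * u + t * dd htr u) = 0 := by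
    rcases eq_or_ne (dd htr u) 0 with h0 | h0
    · rw [h0, mul_zero, add_zero]; exact ⟨hku0, hku⟩
    have h1 : 1 ≤ v.ord (t * dd htr u) := by
      rw [v.ord_mul ht0 h0, ht]
      have := ord_nonneg_of_mem v hdu
      omega
    have h2 : (k : F) * u + t * dd htr u ≠ 0 := by
      intro h
      have h3 : (k : F) * u = -(t * dd htr u) := eq_neg_of_add_eq_zero_left h
      have h4 : v.ord (-(t * dd htr u)) = v.ord (t * dd htr u) := by
        have h5 : -(t * dd htr u) = (-1 : F) * (t * dd htr u) := by ring
        rw [h5, v.ord_mul (by norm_num) (mul_ne_zero ht0 h0)]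
        have h6 := ord_algebraMap v (-1 : K)
        rw [map_neg, map_one] at h6
        rw [h6, zero_add]
      rw [h3, h4] at hku
      omega
    refine ⟨h2, ?_⟩
    have hge := (ord_add_ge v (n := 0) (Or.inr hku.ge) (Or.inr (by omega : 0 ≤ v.ord (t * dd htr u)))).resolve_left h2
    by_contra hne
    have hgt : 1 ≤ v.ord ((k : F) * u + t * dd htr u) := by omega
    have h7 : (k : F) * u = ((k : F) * u + t * dd htr u) + (-1 : F) * (t * dd htr u) := by ring
    have h8 : v.ord ((-1 : F) * (t * dd htr u)) = v.ord (t * dd htr u) := by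
      rw [v.ord_mul (by norm_num) (mul_ne_zero ht0 h0)]
      have h6 := ord_algebraMap v (-1 : K)
      rw [map_neg, map_one] at h6
      rw [h6, zero_add]
    have h9 := (ord_add_ge v (n := 1) (Or.inr hgt) (Or.inr (h8 ▸ h1))).resolve_left
      (by rw [← h7]; exact hku0)
    rw [← h7, hku] at h9
    omega
  show v.ord (dd htr y) = k - 1 ∧ dd htr y ≠ 0
  rw [hd]
  refine ⟨?_, mul_ne_zero (zpow_ne_zero _ ht0) hsum.1⟩
  rw [v.ord_mul (zpow_ne_zero _ ht0) hsum.1, hsum.2, v.ord_zpow, ht]
  ring

omit [CharZero K] [IsAlgClosed K] [FunField K F] in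
theorem exists_ord_eq_one (v : Place K F) : ∃ t : F, v.ord t = 1 := by
  obtain ⟨π, hπ⟩ := IsDiscreteValuationRing.exists_irreducible v.toValuationSubring
  exact ⟨π, v.ord_coe_irreducible hπ⟩

omit [CharZero K] [IsAlgClosed K] [FunField K F] in
/-- `dCoord` is the differential of some uniformizer. -/
theorem exists_dCoord_eq (v : Place K F) : ∃ t : F, v.ord t = 1 ∧ v.dCoord = D K F t :=
  ⟨_, v.ord_coe_irreducible
    (IsDiscreteValuationRing.exists_irreducible v.toValuationSubring).choose_spec, rfl⟩

instance dCoordGenerates (v : Place K F) : v.DCoordGenerates where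
  span_eq_top := by
    obtain ⟨t, ht, hdt⟩ := exists_dCoord_eq v
    rw [hdt]
    exact span_D_eq_top (transcendental_of_ord_eq_one ht)

/-- `ordDifferential` can be computed with any uniformizer. -/
theorem ordDifferential_eq (v : Place K F) {t : F} (ht : v.ord t = 1) {ω : Ω[F⁄K]} {f : F}
    (hω : ω = f • D K F t) : v.ordDifferential ω = v.ord f := by
  have := nontrivial_kaehler (K := K) (F := F)
  obtain ⟨t', ht', hdt'⟩ := exists_dCoord_eq v
  have htr' := transcendental_of_ord_eq_one ht'
  rcases eq_or_ne f 0 with rfl | hf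
  · rw [hω, zero_smul, Place.ordDifferential, v.differentialCoeff_zero]
  have h1 : ω = (f * dd htr' t) • v.dCoord := by
    rw [hω, hdt', mul_smul, dd_smul]
  have h2 := ord_dd v ht' (y := t) (by omega)
  rw [Place.ordDifferential, v.differentialCoeff_unique h1, v.ord_mul hf h2.2, h2.1, ht]
  ring

theorem ordDifferential_D (v : Place K F) {y : F} (hy : v.ord y ≠ 0) :
    v.ordDifferential (D K F y) = v.ord y - 1 := by
  obtain ⟨t, ht⟩ := exists_ord_eq_one v
  have htr := transcendental_of_ord_eq_one ht
  rw [ordDifferential_eq v ht (dd_smul htr y).symm]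
  exact (ord_dd v ht hy).1

theorem ordDifferential_smul' (v : Place K F) {g : F} (hg : g ≠ 0) {ω : Ω[F⁄K]} (hω : ω ≠ 0) :
    v.ordDifferential (g • ω) = v.ord g + v.ordDifferential ω := by
  have := nontrivial_kaehler (K := K) (F := F)
  refine v.ordDifferential_smul hg ?_
  intro h
  have h1 := v.differentialCoeff_smul_dCoord ω
  rw [h, zero_smul] at h1
  exact hω h1.symm

theorem ordDifferential_D_sub (v : Place K F) {x : F} {a : K}
    (h : v.ord (x - algebraMap K F a) ≠ 0) :
    v.ordDifferential (D K F x) = v.ord (x - algebraMap K F a) - 1 := by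
  have h1 : D K F x = D K F (x - algebraMap K F a) := by
    rw [map_sub, Derivation.map_algebraMap, sub_zero]
  rw [h1]
  exact ordDifferential_D v h

end Local

end Fermat.Agent.H94
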