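/-
H39DerRed: reduction of derivations and pole bounds for logarithmic derivatives on the special
fibre of a Deuring reduction.
-/
import Fermat.Agent.H40DeuringPlace
import Fermat.Agent.H3RR_Degree
import Fermat.Agent.H94OrdDiff

set_option autoImplicit false

noncomputable section

open AlgebraicCurve WithZero

namespace Fermat.Agent.H39

section mapDomain

variable {α β : Type*} (r : α → β)

theorem mapDomain_nonneg {D : α →₀ ℤ} {w : β} (h : ∀ P, r P = w → 0 ≤ D P) :
    0 ≤ Finsupp.mapDomain r D w := by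
  classical
  rw [Finsupp.mapDomain, Finsupp.sum_apply, Finsupp.sum]
  refine Finset.sum_nonneg fun P _ => ?_
  rw [Finsupp.single_apply]
  split_ifs with h1
  · exact h P h1
  · exact le_rfl

theorem mapDomain_eq_zero' {D : α →₀ ℤ} {w : β} (h : ∀ P, r P = w → D P = 0) :
    Finsupp.mapDomain r D w = 0 := by
  classical
  rw [Finsupp.mapDomain, Finsupp.sum_apply, Finsupp.sum]
  refine Finset.sum_eq_zero fun P _ => ?_
  rw [Finsupp.single_apply]
  split_ifs with h1
  · exact h P h1
  · rfl

end mapDomain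

variable {K F k E : Type*} [Field K] [Field F] [Algebra K F] [Field k] [Field E] [Algebra k E]

open Fermat.Agent.H40

/-- `e' / e` -/
theorem ord_add_ge' (w : Place k E) {a b : E} {n : ℤ}
    (ha : a = 0 ∨ n ≤ w.ord a) (hb : b = 0 ∨ n ≤ w.ord b) : a + b = 0 ∨ n ≤ w.ord (a + b) := by
  by_cases h : a + b = 0
  · exact Or.inl h
  · exact Or.inr (ord_add_ge w h ha hb)

section compat

variable (R : ReductionData K F k E) (r : Place K F → Place k E) {c : ℤ}
  (hred : ∀ D : Divisor K F, c < Divisor.degree D → R.IsRed D (Finsupp.mapDomain r D))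
  (hcompat : ∀ x : R.B, R.ρ x ≠ 0 → ∀ Δ : Divisor K F, (∀ v, Δ v = v.ord (x : F)) →
        ∀ w, Finsupp.mapDomain r Δ w = w.ord (R.ρ x))

include hcompat in
/-- the reduction of places is surjective -/
theorem surjective_r [HasPrincipalDivisors K F] : Function.Surjective r := by
  intro w
  by_contra hcon
  push Not at hcon
  have h0 : ∀ x : R.B, R.ρ x ≠ 0 → w.ord (R.ρ x) = 0 := by
    intro x hx
    obtain ⟨Δ, hΔ, -⟩ := Fermat.Agent.H40.exists_div (K := K) (R.ne_zero_of_ρ_ne_zero hx)
    rw [← hcompat x hx Δ hΔ w]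
    exact mapDomain_eq_zero' r fun P hP => absurd hP (hcon P)
  obtain ⟨t, ht⟩ := H94.exists_ord_eq_one w
  have ht0 : t ≠ 0 := by
    rintro rfl
    rw [w.ord_zero] at ht
    exact zero_ne_one ht
  obtain ⟨x, y, hy, hxy⟩ := R.frac t
  have hx : R.ρ x ≠ 0 := by
    rw [← hxy]
    exact mul_ne_zero ht0 hy
  have h1 := w.ord_mul ht0 hy
  rw [hxy, h0 x hx, h0 y hy, ht] at h1
  omega

variable [HasPrincipalDivisors K F] [HasPrincipalDivisors k E]
  (hdF : ∀ v : Place K F, v.deg = 1)
  (δ : Derivation K F F) (δ' : Derivation k E E)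
  (hδ : ∀ x : R.B, ∃ h : δ (x : F) ∈ R.B, R.ρ ⟨δ (x : F), h⟩ = δ' (R.ρ x))
  (D0 : Divisor K F)
  (hD0 : ∀ (P : Place K F) (x : F), x ≠ 0 → 0 ≤ P.ord x → δ x = 0 ∨ -D0 P ≤ P.ord (δ x))

include hred hcompat hdF hδ hD0

/-- **Pole bound for the reduced derivation.** -/
theorem ord_der_ge (hw : ∃ w w' : Place k E, w ≠ w') (w : Place k E) {e : E} (he0 : e ≠ 0)
    (he : 0 ≤ w.ord e) : δ' e = 0 ∨ -(Finsupp.mapDomain r D0 w) ≤ w.ord (δ' e) := by
  classical
  obtain ⟨G, hG, -⟩ := Fermat.Agent.H40.exists_div (K := k) he0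
  have hsurj := surjective_r R r hcompat
  choose s hs using hsurj
  obtain ⟨w', hw'⟩ : ∃ w', w' ≠ w := by
    obtain ⟨a, b, hab⟩ := hw
    by_cases h : a = w
    · exact ⟨b, fun h' => hab (h.trans h'.symm)⟩
    · exact ⟨a, h⟩
  -- the lifted divisor
  set G' : Divisor k E := G⁻ with hG'
  have hG'v : ∀ v, G' v = max (-(G v)) 0 := fun v => by
    rw [hG', negPart_def, Finsupp.sup_apply, Finsupp.neg_apply]
    rfl
  obtain ⟨m, hm0, hm⟩ : ∃ m : ℤ, 0 ≤ m ∧
      c < Divisor.degree (Finsupp.mapDomain s G') + m := by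
    refine ⟨|c| + |Divisor.degree (Finsupp.mapDomain s G')| + 1, by positivity, ?_⟩
    have h1 := le_abs_self c
    have h2 := neg_abs_le (Divisor.degree (Finsupp.mapDomain s G'))
    omega
  set D' : Divisor K F := Finsupp.mapDomain s G' + Finsupp.single (s w') m with hD'
  have hdeg : c < Divisor.degree D' := by
    rw [hD', map_add, Divisor.degree_single, hdF]
    simpa using hm
  have hmap : Finsupp.mapDomain r D' = G' + Finsupp.single w' m := by
    rw [hD', Finsupp.mapDomain_add, ← Finsupp.mapDomain_comp, Finsupp.mapDomain_single, hs]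
    congr 1
    have : r ∘ s = id := funext hs
    rw [this, Finsupp.mapDomain_id]
  have hD'w : ∀ P, r P = w → D' P = 0 := by
    intro P hP
    rw [hD', Finsupp.add_apply, Finsupp.single_apply, if_neg (by
      rintro rfl
      exact hw' (by rw [← hs w']; exact hP)), add_zero]
    refine mapDomain_eq_zero' s fun v hv => ?_
    have h1 : v = w := by rw [← hs v, hv, hP]
    subst h1
    rw [hG'v, hG v]
    exact max_eq_right (by omega)
  obtain ⟨-, hL⟩ := hred D' hdeg
  have hmem : e ∈ riemannRochSpace (Finsupp.mapDomain r D') := by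
    rw [mem_L he0]
    intro v
    rw [hmap, Finsupp.add_apply, hG'v, hG v, Finsupp.single_apply]
    have h1 : -(w.ord e) ≤ max (-(w.ord e)) 0 := le_max_left _ _
    have h2 : -(v.ord e) ≤ max (-(v.ord e)) 0 := le_max_left _ _
    split_ifs <;> omega
  rw [← hL] at hmem
  obtain ⟨x, hxL, rfl⟩ := hmem
  have hx0 : (x : F) ≠ 0 := R.ne_zero_of_ρ_ne_zero he0
  obtain ⟨hδx, hρδ⟩ := hδ x
  rw [← hρδ]
  by_cases hz : R.ρ ⟨δ (x : F), hδx⟩ = 0
  · exact Or.inl hz
  right
  have hδ0 : δ (x : F) ≠ 0 := R.ne_zero_of_ρ_ne_zero hz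
  obtain ⟨Δ, hΔ, -⟩ := Fermat.Agent.H40.exists_div (K := K) hδ0
  rw [← hcompat ⟨δ (x : F), hδx⟩ hz Δ hΔ w]
  have h1 : 0 ≤ Finsupp.mapDomain r (Δ + D0) w := by
    refine mapDomain_nonneg r fun P hP => ?_
    have h2 := (mem_L hx0).mp hxL P
    rw [hD'w P hP, neg_zero] at h2
    rcases hD0 P x hx0 h2 with h3 | h3
    · exact absurd h3 hδ0
    · rw [Finsupp.add_apply, hΔ P]
      omega
  rw [Finsupp.mapDomain_add, Finsupp.add_apply] at h1
  omega

/-- **Pole bound for logarithmic derivatives.** -/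
theorem ord_logDer_ge (hw : ∃ w w' : Place k E, w ≠ w') (w : Place k E) {g : E} (hg : g ≠ 0) :
    (δ' g = 0 ∨ -(Finsupp.mapDomain r D0 w) - 1 ≤ w.ord (δ' g / g)) ∧
      (((w.ord g : ℤ) : E) = 0 →
        δ' g = 0 ∨ -(Finsupp.mapDomain r D0 w) ≤ w.ord (δ' g / g)) := by
  obtain ⟨t, ht⟩ := H94.exists_ord_eq_one w
  have ht0 : t ≠ 0 := by
    rintro rfl
    rw [w.ord_zero] at ht
    exact zero_ne_one ht
  set m := w.ord g with hm
  set u : E := g * t ^ (-m) with hu
  have hu0 : u ≠ 0 := mul_ne_zero hg (zpow_ne_zero _ ht0)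
  have hum : w.ord u = 0 := by
    rw [hu, w.ord_mul hg (zpow_ne_zero _ ht0), w.ord_zpow, ht, ← hm]
    ring
  have hgu : g = u * t ^ m := by
    rw [hu, mul_assoc, ← zpow_add₀ ht0]
    simp
  have hder : δ' g / g = δ' u / u + (m : E) * (δ' t / t) := by
    rw [hgu, Derivation.leibniz, Derivation.leibniz_zpow]
    simp only [smul_eq_mul, zsmul_eq_mul]
    have h1 : t ^ (m - 1) = t ^ m * t⁻¹ := by rw [zpow_sub_one₀ ht0]
    rw [h1]
    have h2 : t ^ m ≠ 0 := zpow_ne_zero _ ht0
    field_simp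
    ring
  have hub := ord_der_ge R r hred hcompat hdF δ δ' hδ D0 hD0 hw w hu0 hum.ge
  have htb := ord_der_ge R r hred hcompat hdF δ δ' hδ D0 hD0 hw w ht0 (by omega)
  have hub' : δ' u / u = 0 ∨ -(Finsupp.mapDomain r D0 w) ≤ w.ord (δ' u / u) := by
    rcases hub with h | h
    · left
      rw [h, zero_div]
    · by_cases h0 : δ' u = 0
      · left
        rw [h0, zero_div]
      · right
        rw [div_eq_mul_inv, w.ord_mul h0 (inv_ne_zero hu0), w.ord_inv, hum]
        omega
  have htb' : δ' t / t = 0 ∨ -(Finsupp.mapDomain r D0 w) - 1 ≤ w.ord (δ' t / t) := by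
    rcases htb with h | h
    · left
      rw [h, zero_div]
    · by_cases h0 : δ' t = 0
      · left
        rw [h0, zero_div]
      · right
        rw [div_eq_mul_inv, w.ord_mul h0 (inv_ne_zero ht0), w.ord_inv, ht]
        omega
  have hconv : ∀ n : ℤ, (δ' g / g = 0 ∨ n ≤ w.ord (δ' g / g)) → (δ' g = 0 ∨ n ≤ w.ord (δ' g / g)) := by
    rintro n (h | h)
    · left
      rcases div_eq_zero_iff.mp h with h | h
      · exact h
      · exact absurd h hg
    · exact Or.inr h
  constructor
  · apply hconv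
    rw [hder]
    apply ord_add_ge'
    · rcases hub' with h | h
      · exact Or.inl h
      · right
        omega
    · rcases htb' with h | h
      · left
        rw [h, mul_zero]
      · by_cases h0 : (m : E) = 0
        · left
          rw [h0, zero_mul]
        · by_cases h1 : δ' t / t = 0
          · left
            rw [h1, mul_zero]
          · right
            rw [w.ord_mul h0 h1]
            have : w.ord ((m : E)) = 0 := by
              have h2 := ord_algebraMap w (m : k)
              rwa [map_intCast] at h2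
            omega
  · intro hm0
    apply hconv
    rw [hder, hm0, zero_mul, add_zero]
    exact hub'

end compat

end Fermat.Agent.H39
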