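/-
H39DerMod: the derivation `θ/θj` of the modular function fields and its reduction modulo `p`.
-/
import Fermat.Agent.H39DerRed
import Fermat.Agent.H61Formal
import Fermat.Agent.H42Inputs
import Fermat.Agent.H94Export
import Fermat.Agent.H18Inst
import Fermat.Agent.H18DerLift
import Fermat.Agent.H1Theta

set_option autoImplicit false

noncomputable section

open AlgebraicCurve ModularCurve Fermat.Agent.H61 Fermat.Agent.H28

namespace Fermat.Agent.H39

/-- `1 / θ(j)` is a series with integral coefficients. -/
theorem exists_inv_theta_j_int : ∃ y : LaurentSeries ℤ, y * theta (jqModC ℤ) = 1 := by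
  have hunit : ∀ f : PowerSeries ℤ, PowerSeries.constantCoeff f = 1 →
      ∃ g : LaurentSeries ℤ, toL ℤ f * g = 1 := by
    intro f hf
    have h1 : IsUnit f := by
      rw [PowerSeries.isUnit_iff_constantCoeff, hf]
      exact isUnit_one
    obtain ⟨g, hg⟩ := h1.exists_right_inv
    refine ⟨toL ℤ g, ?_⟩
    rw [toL, toL, ← map_mul, ← map_mul, hg, map_one, map_one]
  obtain ⟨a, ha⟩ := hunit eisenstein4 (by simp [eisenstein4])
  obtain ⟨b, hb⟩ := hunit E6f (by simp [E6f])
  have ha' : E4L ℤ * a = 1 := ha
  have hb' : E6L ℤ * b = 1 := hb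
  have h1 := theta_jqModC_mul_deltaL ℤ
  refine ⟨-(deltaL ℤ * a ^ 2 * b), ?_⟩
  have h2 : -(deltaL ℤ * a ^ 2 * b) * theta (jqModC ℤ) = (E4L ℤ * a) ^ 2 * (E6L ℤ * b) := by
    linear_combination (-(a ^ 2 * b)) * h1
  rw [h2, ha', hb']
  ring

theorem exists_inv_theta_j (R : Type*) [CommRing R] :
    ∃ y : LaurentSeries R, y * theta (jqModC R) = 1 := by
  obtain ⟨y, hy⟩ := exists_inv_theta_j_int
  refine ⟨coeffMap (Int.castRingHom R) y, ?_⟩
  have h := congrArg (coeffMap (Int.castRingHom R)) hy
  rwa [map_mul, H18.coeffMap_theta, map_one, H61.coeffMap_jqModC] at h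

theorem theta_j_ne_zero (K : Type*) [Field K] : theta (jqModC K) ≠ 0 := by
  obtain ⟨y, hy⟩ := exists_inv_theta_j K
  exact right_ne_zero_of_mul_eq_one hy

theorem theta_algebraMap {K : Type*} [Field K] (c : K) :
    theta (algebraMap K (LaurentSeries K) c) = 0 := by
  rw [algebraMap_laurentSeries_eq_single]
  exact theta_C c

/-- restriction of `θ/θj` to a stable subfield -/
def thetaAdd {K : Type*} [Field K] (E : IntermediateField K (LaurentSeries K))
    (hE : ∀ f ∈ E, theta f / theta (jqModC K) ∈ E) : E →+ E where
  toFun f := ⟨theta (f : LaurentSeries K) / theta (jqModC K), hE f f.2⟩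
  map_zero' := Subtype.ext (by
    show theta (0 : LaurentSeries K) / _ = 0
    rw [theta_zero, zero_div])
  map_add' a b := Subtype.ext (by
    show theta ((a : LaurentSeries K) + (b : LaurentSeries K)) / _ = _ / _ + _ / _
    rw [theta_add, add_div])

/-- restriction of `θ/θj` to a stable subfield, as a derivation -/
def thetaDerOn {K : Type*} [Field K] (E : IntermediateField K (LaurentSeries K))
    (hE : ∀ f ∈ E, theta f / theta (jqModC K) ∈ E) : Derivation K E E :=
  H1.mkDer (thetaAdd E hE) (fun a b => Subtype.ext (by
      show theta ((a : LaurentSeries K) * (b : LaurentSeries K)) / theta (jqModC K) =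
        theta (a : LaurentSeries K) / theta (jqModC K) * (b : LaurentSeries K) +
          (a : LaurentSeries K) * (theta (b : LaurentSeries K) / theta (jqModC K))
      rw [theta_mul]
      ring)) (fun c => Subtype.ext (by
      show theta (algebraMap K (LaurentSeries K) c) / _ = 0
      rw [theta_algebraMap, zero_div]))

@[simp] theorem coe_thetaDerOn {K : Type*} [Field K] (E : IntermediateField K (LaurentSeries K))
    (hE : ∀ f ∈ E, theta f / theta (jqModC K) ∈ E) (f : E) :
    ((thetaDerOn E hE f : E) : LaurentSeries K) = theta (f : LaurentSeries K) / theta (jqModC K) :=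
  rfl

section CharZero

variable {K : Type*} [Field K] [CharZero K] {F : IntermediateField K (LaurentSeries K)}
  [H94.FunField K F]

/-- In characteristic zero, `θ f / θ j` is the derivative `df/dj`. -/
theorem coe_dd {j : F} (hj : (j : LaurentSeries K) = jqModC K) (htr : Transcendental K j) (f : F) :
    ((H94.dd htr f : F) : LaurentSeries K) =
      theta (f : LaurentSeries K) / theta (jqModC K) := by
  -- `θ/θj` restricted to `F`, with values in Laurent series
  letI : Module K (LaurentSeries K) := Algebra.toModule
  let D : Derivation K F (LaurentSeries K) :=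
    Derivation.mk' (R := K) (A := F) (M := LaurentSeries K)
      { toFun := fun f => theta (f : LaurentSeries K) / theta (jqModC K)
        map_add' := fun a b => by
          show theta ((a : LaurentSeries K) + (b : LaurentSeries K)) / _ = _ / _ + _ / _
          rw [theta_add, add_div]
        map_smul' := fun c a => by
          have h1 : (((c • a : F)) : LaurentSeries K) =
            algebraMap K (LaurentSeries K) c * (a : LaurentSeries K) := by
            rw [Algebra.smul_def]
            rfl
          rw [h1, theta_mul, theta_algebraMap, zero_mul, zero_add, RingHom.id_apply,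
            Algebra.smul_def, mul_div_assoc] }
      (fun a b => by
        show theta ((a : LaurentSeries K) * (b : LaurentSeries K)) / theta (jqModC K) =
          (a : LaurentSeries K) * (theta (b : LaurentSeries K) / theta (jqModC K)) +
            (b : LaurentSeries K) * (theta (a : LaurentSeries K) / theta (jqModC K))
        rw [theta_mul, add_div]
        ring)
  have h1 : ∀ f, D f = D.liftKaehlerDifferential (KaehlerDifferential.D K F f) := fun f => by
    rw [Derivation.liftKaehlerDifferential_comp_D]
  have h2 := h1 f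
  rw [← H94.dd_smul htr f, map_smul, ← h1] at h2
  have h3 : D j = 1 := by
    show theta (j : LaurentSeries K) / theta (jqModC K) = 1
    rw [hj]
    exact div_self (theta_j_ne_zero K)
  rw [h3] at h2
  have h4 : D f = theta (f : LaurentSeries K) / theta (jqModC K) := rfl
  rw [← h4, h2]
  show _ = ((H94.dd htr f : F) : LaurentSeries K) * 1
  rw [mul_one]

theorem theta_div_mem {j : F} (hj : (j : LaurentSeries K) = jqModC K)
    (htr : Transcendental K j) : ∀ f ∈ F, theta f / theta (jqModC K) ∈ F := by
  intro f hf
  have h := coe_dd hj htr ⟨f, hf⟩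
  rw [← h]
  exact (H94.dd htr ⟨f, hf⟩).2

variable [IsAlgClosed K]

/-- pole bound for `θ/θj` in characteristic zero -/
theorem ord_thetaDerOn_ge {j : F} (hj : (j : LaurentSeries K) = jqModC K)
    (htr : Transcendental K j) (hF : ∀ f ∈ F, theta f / theta (jqModC K) ∈ F)
    (P : Place K F) {x : F} (hx0 : x ≠ 0) (hx : 0 ≤ P.ord x) :
    thetaDerOn F hF x = 0 ∨
      -(P.ordDifferential (KaehlerDifferential.D K F j)) ≤ P.ord (thetaDerOn F hF x) := by
  have h0 : thetaDerOn F hF x = H94.dd htr x := Subtype.ext (coe_dd hj htr x).symm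
  rw [h0]
  by_cases hz : H94.dd htr x = 0
  · exact Or.inl hz
  right
  have h1 := H94.dd_smul htr x
  have h2 := H94.ordDifferential_smul' P hz (H94.D_ne_zero htr)
  rw [h1] at h2
  obtain ⟨t, ht⟩ := H94.exists_ord_eq_one P
  have h3 := H94.ordDifferential_eq P ht
    (H94.dd_smul (H94.transcendental_of_ord_eq_one ht) x).symm
  have h4 := H94.dd_mem P ht (H94.mem_of_ord_nonneg P hx)
  have h5 := H94.ord_nonneg_of_mem P h4
  omega

end CharZero

section Mod

variable {L : Type*} [Field L] [Algebra ℚ L] (A : ValuationSubring L) {k : Type*} [Field k]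
  (π : A →+* k) (N : ℕ) (hπ : Function.Surjective π) [IsLocalHom π] (hdeg : H42.DegLE L k N)

theorem exists_der_modGauss
    (hF : ∀ f ∈ laurentBaseChange L (modularFunctionFieldFull N),
      theta f / theta (jqModC L) ∈ laurentBaseChange L (modularFunctionFieldFull N))
    (f : (H42.modGauss A π N hπ hdeg).loc) :
    ∃ g : (H42.modGauss A π N hπ hdeg).loc,
      ((g : laurentBaseChange L (modularFunctionFieldFull N)) : LaurentSeries L) =
        theta ((f : laurentBaseChange L (modularFunctionFieldFull N)) : LaurentSeries L) /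
          theta (jqModC L) ∧
      (((H42.modGauss A π N hπ hdeg).res g : modularFunctionFieldFullC k N) : LaurentSeries k) =
        theta (((H42.modGauss A π N hπ hdeg).res f : modularFunctionFieldFullC k N) :
          LaurentSeries k) / theta (jqModC k) := by
  obtain ⟨u, hu⟩ := exists_inv_theta_j A
  have h := (H18.isStd_modGauss A π N hπ hdeg).exists_der (XA := jqModC A) hu
  rw [H61.coeffMap_jqModC, H61.coeffMap_jqModC] at h
  exact h hF f

include hπ hdeg in
theorem theta_div_mem_red
    (hF : ∀ f ∈ laurentBaseChange L (modularFunctionFieldFull N),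
      theta f / theta (jqModC L) ∈ laurentBaseChange L (modularFunctionFieldFull N)) :
    ∀ f ∈ modularFunctionFieldFullC k N,
      theta f / theta (jqModC k) ∈ modularFunctionFieldFullC k N := by
  intro f hf
  obtain ⟨y, z, hz, hyz⟩ := H42.modGauss_frac A π N hπ hdeg ⟨f, hf⟩
  have hz0 : (z : laurentBaseChange L (modularFunctionFieldFull N)) ≠ 0 :=
    (H42.modGauss A π N hπ hdeg).coe_ne_zero hz
  have hyz' : ((y : laurentBaseChange L (modularFunctionFieldFull N)) /
      (z : laurentBaseChange L (modularFunctionFieldFull N))) *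
      (z : laurentBaseChange L (modularFunctionFieldFull N)) =
      (y : laurentBaseChange L (modularFunctionFieldFull N)) := div_mul_cancel₀ _ hz0
  obtain ⟨x, hx1⟩ : ∃ x : (H42.modGauss A π N hπ hdeg).loc,
      (x : laurentBaseChange L (modularFunctionFieldFull N)) *
        (z : laurentBaseChange L (modularFunctionFieldFull N)) =
      (y : laurentBaseChange L (modularFunctionFieldFull N)) := ⟨⟨_, y, z, hz, hyz'⟩, hyz'⟩
  have hx : (H42.modGauss A π N hπ hdeg).res x = ⟨f, hf⟩ := by
    have h1 := (H42.modGauss A π N hπ hdeg).res_mul_eq x hz hx1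
    rw [← hyz] at h1
    exact mul_right_cancel₀ hz h1
  obtain ⟨g, -, hg⟩ := exists_der_modGauss A π N hπ hdeg hF x
  rw [hx] at hg
  rw [← hg]
  exact ((H42.modGauss A π N hπ hdeg).res g).2

theorem exists_der_modReductionData
    (hF : ∀ f ∈ laurentBaseChange L (modularFunctionFieldFull N),
      theta f / theta (jqModC L) ∈ laurentBaseChange L (modularFunctionFieldFull N))
    (hE : ∀ f ∈ modularFunctionFieldFullC k N,
      theta f / theta (jqModC k) ∈ modularFunctionFieldFullC k N)
    (x : (H42.modReductionData A π N hπ hdeg).B) :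
    ∃ h : thetaDerOn _ hF (x : laurentBaseChange L (modularFunctionFieldFull N)) ∈
      (H42.modReductionData A π N hπ hdeg).B,
      (H42.modReductionData A π N hπ hdeg).ρ
        ⟨thetaDerOn _ hF (x : laurentBaseChange L (modularFunctionFieldFull N)), h⟩ =
          thetaDerOn _ hE ((H42.modReductionData A π N hπ hdeg).ρ x) := by
  obtain ⟨g, hg1, hg2⟩ := exists_der_modGauss A π N hπ hdeg hF x
  have h1 : thetaDerOn _ hF (x : laurentBaseChange L (modularFunctionFieldFull N)) =
      (g : laurentBaseChange L (modularFunctionFieldFull N)) := Subtype.ext hg1.symm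
  refine ⟨h1 ▸ g.2, ?_⟩
  have h2 : (⟨thetaDerOn _ hF (x : laurentBaseChange L (modularFunctionFieldFull N)),
      h1 ▸ g.2⟩ : (H42.modReductionData A π N hπ hdeg).B) = g := Subtype.ext h1
  rw [h2]
  exact Subtype.ext hg2

end Mod

end Fermat.Agent.H39
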