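import Mathlib
import Fermat.Agent.H96Chart
import Fermat.Agent.H90Deg
import Fermat.Agent.H61Formal

/-!
# Functions on `X₀(N)` of the form `A / Δ`, `A` of weight 12 (ROW38-FORMFUN, part A, helper45)

* `order_nonneg_of_bounded` : a convergent Laurent series bounded near `0` has nonnegative order;
* `cusp_chart` : places over `j = ∞` come from the chart `q_N`;
* `good_div_disc` : `A / Δ` is good; `ord_jF_le` : `ord j ≤ ord (A / Δ)` at the cusps;
* `ord_nonneg_of_good` : good elements are regular at the finite places.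
-/

set_option autoImplicit false

noncomputable section

namespace Fermat.Agent.H45.FF

open UpperHalfPlane hiding I
open Complex MatrixGroups ModularGroup ModularCurve Fermat.Agent.H24 Fermat.Agent.H94 Fermat.Agent.H61
open Fermat.Agent.H90 Fermat.Agent.H96
open CongruenceSubgroup AlgebraicCurve Filter Topology
open scoped Manifold

local notation "𝕢" => Function.Periodic.qParam

/-! ### Orders and bounds -/

theorem norm_evalAt_le {H : LaurentSeries ℂ} (hH : IsConv H) (h0 : ∀ n < (0 : ℤ), H.coeff n = 0)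
    {w : ℂ} (hw0 : w ≠ 0) (hw : ‖w‖ ≤ 1 / 2) :
    ‖evalAt w H‖ ≤ ∑' n : ℤ, ‖H.coeff n‖ * (1 / 2 : ℝ) ^ n := by
  have hw1 : ‖w‖ < 1 := lt_of_le_of_lt hw (by norm_num)
  have h1 := hH.summable_norm hw0 hw1
  have h2 := hH (1 / 2) (by norm_num) (by norm_num)
  refine (norm_tsum_le_tsum_norm h1).trans ?_
  refine h1.tsum_le_tsum (fun n => ?_) h2
  rw [norm_mul, norm_zpow]
  rcases lt_or_ge n 0 with hn | hn
  · rw [h0 n hn, norm_zero, zero_mul, zero_mul]
  · lift n to ℕ using hn
    rw [zpow_natCast, zpow_natCast]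
    exact mul_le_mul_of_nonneg_left (pow_le_pow_left₀ (norm_nonneg _) hw n) (norm_nonneg _)

/-- A convergent Laurent series which is bounded near `0` has nonnegative order. -/
theorem order_nonneg_of_bounded {F : LaurentSeries ℂ} (hF : IsConv F) {ε C : ℝ} (hε : 0 < ε)
    (hb : ∀ w : ℂ, w ≠ 0 → ‖w‖ < ε → ‖evalAt w F‖ ≤ C) : 0 ≤ F.order := by
  by_contra hneg
  push Not at hneg
  have hF0 : F ≠ 0 := by
    rintro rfl
    rw [HahnSeries.order_zero] at hneg
    exact lt_irrefl _ hneg
  set c := F.coeff F.order with hc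
  have hc0 : c ≠ 0 := HahnSeries.coeff_order_eq_zero.not.mpr hF0
  obtain ⟨d, hd⟩ : ∃ d : ℕ, F.order = -((d : ℤ) + 1) := ⟨(-F.order - 1).toNat, by omega⟩
  -- `F w^{d+1} - c = w H`
  set H : LaurentSeries ℂ := F * HahnSeries.single (d : ℤ) 1 - HahnSeries.single (-1) c with hH
  have hHc : IsConv H := by
    have h1 : IsConv (-HahnSeries.single (-1 : ℤ) c : LaurentSeries ℂ) := by
      rw [← HahnSeries.single_neg]
      exact isConv_single _ _
    rw [hH, sub_eq_add_neg]
    exact (hF.mul (isConv_single _ _)).add h1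
  have hH0 : ∀ n < (0 : ℤ), H.coeff n = 0 := by
    intro n hn
    have h1 : (F * HahnSeries.single (d : ℤ) 1).coeff n = F.coeff (n - d) := by
      rw [mul_comm, HahnSeries.coeff_single_mul, one_mul]
    rw [hH, HahnSeries.coeff_sub, h1]
    rcases eq_or_ne n (-1) with rfl | hn1
    · rw [HahnSeries.coeff_single_same, hc, hd]
      ring_nf
    · rw [HahnSeries.coeff_single_of_ne hn1, sub_zero]
      apply HahnSeries.coeff_eq_zero_of_lt_order
      omega
  have hev : ∀ w : ℂ, w ≠ 0 → ‖w‖ < 1 → evalAt w F * w ^ d = evalAt w H + c * w⁻¹ := by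
    intro w hw0 hw1
    have h1 : F * HahnSeries.single (d : ℤ) 1 = H + HahnSeries.single (-1) c := by
      rw [hH, sub_add_cancel]
    have h2 := congrArg (evalAt w) h1
    rw [evalAt_mul hF (isConv_single _ _) hw0 hw1, evalAt_add hHc (isConv_single _ _) hw0 hw1,
      evalAt_single, evalAt_single, one_mul, zpow_natCast, zpow_neg_one] at h2
    exact h2
  set M := ∑' n : ℤ, ‖H.coeff n‖ * (1 / 2 : ℝ) ^ n with hM
  have hC : 0 ≤ C := by
    obtain ⟨w, hw0, hw⟩ : ∃ w : ℂ, w ≠ 0 ∧ ‖w‖ < ε := ⟨((ε / 2 : ℝ) : ℂ), by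
      exact_mod_cast (half_pos hε).ne', by
      rw [Complex.norm_real, Real.norm_of_nonneg (half_pos hε).le]; exact half_lt_self hε⟩
    exact (norm_nonneg _).trans (hb w hw0 hw)
  have hM0 : 0 ≤ M := tsum_nonneg fun n => by positivity
  -- `|c| ≤ |w| (M + C)`
  have hle : ∀ t : ℝ, 0 < t → t < ε → t ≤ 1 / 2 → ‖c‖ ≤ t * (M + C) := by
    intro t ht0 htε ht
    have hw0 : ((t : ℝ) : ℂ) ≠ 0 := by exact_mod_cast ht0.ne'
    have hnt : ‖((t : ℝ) : ℂ)‖ = t := by rw [Complex.norm_real, Real.norm_of_nonneg ht0.le]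
    have h1 := hev t hw0 (by rw [hnt]; linarith)
    have h2 : c = (evalAt (t : ℂ) F * (t : ℂ) ^ d - evalAt (t : ℂ) H) * (t : ℂ) := by
      rw [h1]; field_simp; ring
    have h3 : ‖evalAt (t : ℂ) F * (t : ℂ) ^ d - evalAt (t : ℂ) H‖ ≤ C + M := by
      refine (norm_sub_le _ _).trans (add_le_add ?_ (norm_evalAt_le hHc hH0 hw0 (by rw [hnt]; exact ht)))
      rw [norm_mul, norm_pow, hnt]
      calc ‖evalAt (t : ℂ) F‖ * t ^ d ≤ C * 1 :=
            mul_le_mul (hb _ hw0 (by rw [hnt]; exact htε)) (pow_le_one₀ ht0.le (by linarith))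
              (by positivity) hC
        _ = C := mul_one C
    rw [h2, norm_mul, hnt, mul_comm]
    exact mul_le_mul_of_nonneg_left (by linarith) ht0.le
  have hcpos : 0 < ‖c‖ := norm_pos_iff.mpr hc0
  have hpos : 0 < M + C + 1 := by linarith
  set t := min (min (ε / 2) (1 / 2)) (‖c‖ / (2 * (M + C + 1))) with ht
  have ht0 : 0 < t := by rw [ht]; positivity
  have h1 := hle t ht0 (lt_of_le_of_lt ((min_le_left _ _).trans (min_le_left _ _)) (half_lt_self hε))
    ((min_le_left _ _).trans (min_le_right _ _))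
  have h2 : t * (M + C) ≤ ‖c‖ / 2 := by
    have h3 : t ≤ ‖c‖ / (2 * (M + C + 1)) := min_le_right _ _
    calc t * (M + C) ≤ t * (M + C + 1) := mul_le_mul_of_nonneg_left (by linarith) ht0.le
      _ ≤ ‖c‖ / (2 * (M + C + 1)) * (M + C + 1) := mul_le_mul_of_nonneg_right h3 hpos.le
      _ = ‖c‖ / 2 := by field_simp
  linarith

/-! ### Places over `j = ∞` -/

section Cusp

variable {K : Type*} [Field K] [Algebra K ℂ] {N : ℕ} [NeZero N]

/-- Places over `j = ∞` come from the chart `q_N`. -/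
theorem cusp_chart [IsAlgClosed K] (v : Place K (modularFunctionFieldFullC K N))
    (hj : v.ord (jF K N) < 0) :
    ∃ (γ : SL(2, ℤ)) (m : ℕ), 0 < m ∧ ∀ x : modularFunctionFieldFullC K N,
      Good K N (x : LaurentSeries K) → ∃ X,
        HasExpC (fun τ : ℍ => 𝕢 (N : ℝ) τ) (compHom γ (ev K (x : LaurentSeries K))) X ∧
          X.order = m * v.ord x := by
  have : CharZero K := charZero_of_algebra
  have : Fintype (SL(2, ℤ) ⧸ Gamma0 N) := Fintype.ofFinite _
  have hj' : 0 < v.ord (jF K N)⁻¹ := by rw [v.ord_inv]; omega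
  have hq : HasExpC (fun τ : ℍ => Function.Periodic.qParam (N : ℝ) τ) jInv
      (qExpand ℂ N (jqModC ℂ)) :=
    ⟨isConv_qExpand N isConv_jqModC, fun τ _ => evalAt_qExpand_J isConv_jqModC evalAt_jqModC N τ⟩
  have hne : qExpand ℂ N (jqModC ℂ) ≠ 0 := by
    intro h
    have := order_qExpand N (jqModC ℂ)
    rw [h, order_jqModC, HahnSeries.order_zero] at this
    have hN : (N : ℤ) ≠ 0 := by exact_mod_cast NeZero.ne N
    apply hN; linarith
  set hz := goodChart_qParam K N
  have hexp : ∀ f ∈ Hol, (∀ δ, compHom δ f ∈ ExpAlg (chart_qParam N)) → f ∈ ExpAlg hz.chart := by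
    intro f _ hf
    have := hf 1
    have h1 : compHom 1 f = f := by ext τ; simp
    rwa [h1] at this
  have hx : ∀ g, sF hz g (jF K N)⁻¹ = (qExpand ℂ N (jqModC ℂ))⁻¹ := by
    intro g
    rw [map_inv₀, sF_jF _ g hq]
  have hy : ((qExpand ℂ N (jqModC ℂ))⁻¹).order = (N : ℕ) := by
    rw [order_inv' hne, order_qExpand, order_jqModC]; ring
  have hprim' : IsPrimitiveRoot ((((zetaU N)⁻¹ : ℂˣ) : ℂ)) N := by
    have := (zetaU_isPrimitiveRoot N).inv
    simpa using this
  obtain ⟨V, hV1, -, hV3, -⟩ := exists_places_orbits (transcendental_jF_inv (K := K) (N := N))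
    (sF hz) (sF_injective hz)
    (by rw [← Nat.card_eq_fintype_card]; exact finrank_inv) hx (Nat.pos_of_ne_zero (NeZero.ne N))
    hy hprim' (π := MulAction.toPerm (T : SL(2, ℤ)))
    (fun g f n => sF_smul_coeff' hz (norm_zetaU N) (qParam_T_smul N) g f n)
  obtain ⟨g, rfl⟩ := hV3 v hj'
  obtain ⟨m, hm, hmo⟩ := exists_order_eq_mul (V g) (sF hz g) (hV1 g)
  lift m to ℕ using hm.le
  induction g using QuotientGroup.induction_on with
  | H γ' =>
    exact ⟨γ'⁻¹, m, by exact_mod_cast hm, fun f hf => ⟨_, hasExpC_of_good hz hexp γ' f hf, hmo f⟩⟩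

/-- Good elements are regular at the finite places. -/
theorem ord_nonneg_of_good (v : Place K (modularFunctionFieldFullC K N))
    (hj : 0 ≤ v.ord (jF K N)) (x : modularFunctionFieldFullC K N)
    (hx : Good K N (x : LaurentSeries K)) : 0 ≤ v.ord x := by
  have : Fintype (SL(2, ℤ) ⧸ Gamma0 N) := Fintype.ofFinite _
  obtain ⟨p, hp⟩ := gexists_relation hx
  set n := Fintype.card (SL(2, ℤ) ⧸ CongruenceSubgroup.Gamma0 N) with hn
  have hjm : jF K N ∈ v.toValuationSubring := mem_of_ord_nonneg v hj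
  have hrel : x ^ n + ∑ i ∈ Finset.range n,
      Polynomial.aeval (jF K N) (p i) * x ^ i = 0 := by
    apply Subtype.ext
    push_cast
    rw [← hp]
    congr 1
    refine Finset.sum_congr rfl fun i _ => ?_
    congr 1
    exact (Polynomial.aeval_algHom_apply (modularFunctionFieldFullC K N).val (jF K N) (p i)).symm
  have hmem : ∀ i, Polynomial.aeval (jF K N) (p i) ∈ v.toValuationSubring := by
    intro i
    rw [Polynomial.aeval_eq_sum_range]
    refine sum_mem fun j _ => ?_
    rw [Algebra.smul_def]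
    exact mul_mem (v.algebraMap_mem' _) (pow_mem hjm _)
  have hint : IsIntegral v.toValuationSubring x := by
    refine ⟨Polynomial.X ^ n + ∑ i ∈ Finset.range n,
      Polynomial.C ⟨_, hmem i⟩ * Polynomial.X ^ i, ?_, ?_⟩
    · apply Polynomial.monic_X_pow_add
      refine (Polynomial.degree_sum_le _ _).trans_lt ?_
      rw [Finset.sup_lt_iff (by exact WithBot.bot_lt_coe _)]
      intro i hi
      refine (Polynomial.degree_C_mul_X_pow_le _ _).trans_lt ?_
      exact_mod_cast Finset.mem_range.mp hi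
    · rw [Polynomial.eval₂_add, Polynomial.eval₂_X_pow, Polynomial.eval₂_finsetSum, ← hrel]
      congr 1
      refine Finset.sum_congr rfl fun i _ => ?_
      rw [Polynomial.eval₂_mul, Polynomial.eval₂_C, Polynomial.eval₂_X_pow]
      rfl
  obtain ⟨y, hy⟩ := IsIntegrallyClosed.isIntegral_iff.mp hint
  refine ord_nonneg_of_mem v ?_
  rw [← hy]
  exact y.2

end Cusp

end Fermat.Agent.H45.FF
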