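import Mathlib
import Fermat.Agent.H45FormFunA
import Fermat.Prelude.Thm_CongruenceSubgroup_one_mem_strictPeriods_Gamma0

/-!
# Weight two forms as functions on `X₀(N)` with bounded poles (ROW38-FORMFUN, helper45)

`exists_function_of_form` : for `F ∈ M₂(Γ₀(N))` with expansion `X` over `K`, `F = x · θ(j)` with
`x` in the function field and `div x ≥ -div_0(j - c) + 1` at the finite places, `≥ div_∞(j)` at the
cusps.
-/

set_option autoImplicit false

noncomputable section

namespace Fermat.Agent.H45.FF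

open UpperHalfPlane hiding I
open Complex MatrixGroups ModularGroup ModularCurve Fermat.Agent.H24 Fermat.Agent.H94 Fermat.Agent.H61
open Fermat.Agent.H90 Fermat.Agent.H96 Fermat.Agent.H28
open CongruenceSubgroup AlgebraicCurve Filter Topology ModularForm EisensteinSeries
open scoped Manifold

local notation "𝕢" => Function.Periodic.qParam

/-! ### Expansions in `q` -/

theorem isConv_of_hasExp {f : ℍ → ℂ} {a : LaurentSeries ℂ} (h : HasExp 1 f a) : IsConv a := by
  intro r hr0 hr1
  obtain ⟨τ, hτ⟩ := exists_qParam_eq_of_norm 1 (w := (r : ℂ)) (by exact_mod_cast hr0.ne')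
    (by simpa [abs_of_pos hr0] using hr1)
  have h := (h τ).summable.norm
  rw [Nat.cast_one] at hτ
  rw [hτ] at h
  simpa [norm_mul, norm_zpow, abs_of_pos hr0] using h

theorem evalAt_of_hasExp {f : ℍ → ℂ} {a : LaurentSeries ℂ} (h : HasExp 1 f a) (τ : ℍ) :
    evalAt (𝕢 (1 : ℝ) τ) a = f τ := (h τ).tsum_eq

/-- bounded: `q / Δ` -/
theorem isBounded_q_div_disc : IsBoundedAtImInfty fun τ : ℍ =>
    𝕢 (1 : ℝ) τ / ModularForm.discriminant τ := by
  have hc : IsConv (deltaInvL ℂ) := isConv_of_hasExp hasExp_discriminant_inv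
  set H : LaurentSeries ℂ := deltaInvL ℂ * HahnSeries.single (1 : ℤ) 1 with hH
  have hHc : IsConv H := hc.mul (isConv_single _ _)
  have hH0 : ∀ n < (0 : ℤ), H.coeff n = 0 := by
    intro n hn
    have h1 : H = HahnSeries.ofPowerSeries ℤ ℂ (dedekindEtaUnitInv.map (Int.castRingHom ℂ)) := by
      rw [hH, deltaInvL, mul_right_comm, HahnSeries.single_mul_single]
      simp
    rw [h1]
    exact ofPowerSeries_coeff_neg _ hn
  rw [isBoundedAtImInfty_iff]
  refine ⟨∑' n : ℤ, ‖H.coeff n‖ * (1 / 2 : ℝ) ^ n, Real.log 2 / (2 * Real.pi), fun τ hτ => ?_⟩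
  have hq0 : 𝕢 (1 : ℝ) τ ≠ 0 := Function.Periodic.qParam_ne_zero _
  have h1 : evalAt (𝕢 (1 : ℝ) τ) H = 𝕢 (1 : ℝ) τ / ModularForm.discriminant τ := by
    rw [hH, evalAt_mul hc (isConv_single _ _) hq0 (norm_qParam_one τ), evalAt_single,
      evalAt_of_hasExp hasExp_discriminant_inv]
    simp [div_eq_mul_inv, mul_comm]
  rw [← h1]
  refine norm_evalAt_le hHc hH0 hq0 ?_
  rw [Function.Periodic.norm_qParam]
  have h2 : Real.log 2 ≤ 2 * Real.pi * τ.im := by
    rw [div_le_iff₀ (by positivity)] at hτ
    linarith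
  calc Real.exp (-2 * Real.pi * (τ : ℂ).im / 1) ≤ Real.exp (-Real.log 2) := by
        apply Real.exp_le_exp.mpr
        change -2 * Real.pi * τ.im / 1 ≤ _
        linarith
    _ = 1 / 2 := by rw [Real.exp_neg, Real.exp_log (by norm_num)]; norm_num

/-! ### Forms of weight 12 -/

/-- `A` behaves like a holomorphic modular form of weight 12 for `Γ₀(N)`. -/
structure Wt12 (N : ℕ) (A : ℍ → ℂ) : Prop where
  hol : MDiff A
  inv : ∀ γ ∈ Gamma0 N, ∀ τ, A (γ • τ) = denom γ τ ^ 12 * A τ
  bdd : ∀ γ : SL(2, ℤ), IsBoundedAtImInfty fun τ => A (γ • τ) / denom γ τ ^ 12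

section

variable {K : Type*} [Field K] [Algebra K ℂ] {N : ℕ} [NeZero N] {A : ℍ → ℂ}

/-- the bound at the cusps -/
theorem Wt12.bdd_div (hA : Wt12 N A) (γ : SL(2, ℤ)) : IsBoundedAtImInfty fun τ : ℍ =>
    A (γ • τ) / ModularForm.discriminant (γ • τ) * 𝕢 (N : ℝ) τ ^ N := by
  have h1 := (hA.bdd γ).mul isBounded_q_div_disc
  refine h1.congr_left fun τ => ?_
  have hq : 𝕢 (N : ℝ) τ ^ N = 𝕢 (1 : ℝ) τ := by
    have hN : (N : ℂ) ≠ 0 := Nat.cast_ne_zero.mpr (NeZero.ne N)
    simp only [Function.Periodic.qParam]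
    rw [← Complex.exp_nat_mul]
    congr 1
    push_cast
    field_simp
  have h2 : denom γ τ ≠ 0 := denom_ne_zero _ _
  have h3 := ModularForm.discriminant_ne_zero τ
  rw [disc_smul, hq]
  simp only [Pi.mul_apply]
  field_simp

theorem incl_deltaInvL : incl K (deltaInvL K) = deltaInvL ℂ := by
  rw [incl, deltaInvL, deltaInvL, map_mul, coeffMap_single, map_one]
  congr 1
  exact coeffMap_toL _ _

theorem ev_deltaInvL (τ : ℍ) : ev K (deltaInvL K) τ = (ModularForm.discriminant τ)⁻¹ := by
  rw [ev, incl_deltaInvL]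
  exact evalAt_of_hasExp hasExp_discriminant_inv τ

/-- **Quotients by `Δ` are good.** -/
theorem Wt12.good (hA : Wt12 N A) {a : LaurentSeries K} (ha : IsConv (incl K a))
    (hev : ev K a = A) : Good K N (a * deltaInvL K) ∧
      ∀ τ, ev K (a * deltaInvL K) τ = A τ / ModularForm.discriminant τ := by
  have hd : IsConv (incl K (deltaInvL K)) := by
    rw [incl_deltaInvL]; exact isConv_of_hasExp hasExp_discriminant_inv
  have hval : ∀ τ, ev K (a * deltaInvL K) τ = A τ / ModularForm.discriminant τ := by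
    intro τ
    rw [ev_mul K ha hd, Pi.mul_apply, hev, ev_deltaInvL, div_eq_mul_inv]
  have hfun : ev K (a * deltaInvL K) = fun τ => A τ / ModularForm.discriminant τ := funext hval
  have hhol : ev K (a * deltaInvL K) ∈ Hol := by
    rw [hfun]
    exact hA.hol.div disc_mdiff ModularForm.discriminant_ne_zero
  have hinv : ∀ γ ∈ Gamma0 N, compHom γ (ev K (a * deltaInvL K)) = ev K (a * deltaInvL K) := by
    intro γ hγ
    ext τ
    rw [compHom_apply, hval, hval, hA.inv γ hγ, disc_smul]
    have h2 : denom γ τ ≠ 0 := denom_ne_zero _ _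
    have h3 := ModularForm.discriminant_ne_zero τ
    field_simp
  refine ⟨⟨by rw [map_mul]; exact ha.mul hd, hhol, fun γ => ?_, hinv⟩, hval⟩
  refine exists_hasExpC_of_bounded N (compHom_mem_Hol γ hhol) (fun τ => ?_) N ?_
  · have h2 := congrFun (hinv _ (T_pow_mem_Gamma0 (N := N) γ)) (γ • τ)
    simp only [compHom_apply] at h2 ⊢
    rw [← h2, ← mul_smul, ← mul_smul, inv_mul_cancel_right]
  · refine (hA.bdd_div γ).congr_left fun τ => ?_
    rw [compHom_apply, hval]

/-- **The pole order of `A / Δ` at the cusps.** -/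
theorem Wt12.ord_le [IsAlgClosed K] (hA : Wt12 N A) {a : LaurentSeries K}
    (ha : IsConv (incl K a)) (hev : ev K a = A) (x : modularFunctionFieldFullC K N)
    (hx : (x : LaurentSeries K) = a * deltaInvL K) (v : Place K (modularFunctionFieldFullC K N))
    (hj : v.ord (jF K N) < 0) : v.ord (jF K N) ≤ v.ord x := by
  have hN0 : (0 : ℤ) < N := by exact_mod_cast Nat.pos_of_ne_zero (NeZero.ne N)
  rcases eq_or_ne x 0 with rfl | hx0
  · rw [v.ord_zero]; exact hj.le
  obtain ⟨hg, hval⟩ := hA.good ha hev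
  obtain ⟨γ, m, hm, hch⟩ := cusp_chart v hj
  obtain ⟨X, hX, hXo⟩ := hch x (by rw [hx]; exact hg)
  have hjg : Good K N ((jF K N : modularFunctionFieldFullC K N) : LaurentSeries K) :=
    good_of_mem K (jA K N).2
  obtain ⟨J, hJ, hJo⟩ := hch (jF K N) hjg
  have hchart := chart_qParam N
  -- the order of `j`
  have hJ' : J = qExpand ℂ N (jqModC ℂ) := by
    refine hJ.unique hchart ⟨isConv_qExpand N isConv_jqModC, fun τ _ => ?_⟩
    rw [evalAt_qExpand_J isConv_jqModC evalAt_jqModC N τ, compHom_apply]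
    have h1 : ev K (jqModC K) (γ • τ) = jInv (γ • τ) := by
      rw [ev, incl, H61.coeffMap_jqModC, evalAt_jqModC]
    exact ((congrFun (show ev K ((jF K N : modularFunctionFieldFullC K N) : LaurentSeries K) =
      ev K (jqModC K) from rfl) (γ • τ)).trans (h1.trans (jInv_smul γ τ))).symm
  have hJord : J.order = -(N : ℤ) := by
    rw [hJ', order_qExpand, order_jqModC]; ring
  -- the order of `X`
  have hX0 : X ≠ 0 := by
    intro h0
    rw [h0, HahnSeries.order_zero] at hXo
    -- then `compHom γ (ev x) = 0` so `x = 0`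
    apply hx0
    apply Subtype.ext
    have h1 : ev K (x : LaurentSeries K) = ev K (0 : LaurentSeries K) := by
      ext τ
      have h2 := hX.2 (γ⁻¹ • τ) (Function.Periodic.qParam_ne_zero _)
      rw [h0, compHom_apply, ← mul_smul, mul_inv_cancel, one_smul] at h2
      rw [← h2, ev, map_zero]
      simp [evalAt]
    refine ev_injective_of_conv K (by rw [hx]; exact hg.conv) ?_ h1
    rw [ZeroMemClass.coe_zero, map_zero]
    simpa using isConv_single 0 0
  have hs0 : (HahnSeries.single (N : ℤ) (1 : ℂ)) ≠ 0 := by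
    rw [ne_eq, HahnSeries.single_eq_zero_iff]; exact one_ne_zero
  have hXN : 0 ≤ (X * HahnSeries.single (N : ℤ) 1).order := by
    obtain ⟨C, B, hB⟩ := isBoundedAtImInfty_iff.mp (hA.bdd_div γ)
    have hNr : (0 : ℝ) < N := by exact_mod_cast Nat.pos_of_ne_zero (NeZero.ne N)
    refine order_nonneg_of_bounded (ε := min (Real.exp (-2 * Real.pi * B / N)) 1) (C := C)
      (hX.1.mul (isConv_single _ _)) (lt_min (Real.exp_pos _) one_pos) fun w hw0 hw => ?_
    have hw1 : ‖w‖ < 1 := lt_of_lt_of_le hw (min_le_right _ _)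
    replace hw := lt_of_lt_of_le hw (min_le_left _ _)
    obtain ⟨τ, rfl⟩ := hchart.surj w hw0 hw1
    rw [evalAt_mul hX.1 (isConv_single _ _) hw0 hw1, evalAt_single, one_mul, zpow_natCast,
      hX.2 τ hw0]
    have h3 : B ≤ τ.im := by
      rw [Function.Periodic.norm_qParam, Real.exp_lt_exp, div_lt_div_iff_of_pos_right hNr] at hw
      have hpi := Real.pi_pos
      change -2 * Real.pi * τ.im < _ at hw
      nlinarith
    have h4 := hB τ h3
    have h5 : compHom γ (ev K (x : LaurentSeries K)) τ =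
        A (γ • τ) / ModularForm.discriminant (γ • τ) := by
      rw [compHom_apply, hx, hval]
    rw [h5]
    exact h4
  rw [HahnSeries.order_mul hX0 hs0, HahnSeries.order_single one_ne_zero, hXo] at hXN
  rw [hJord] at hJo
  have hm' : (0 : ℤ) < m := by exact_mod_cast hm
  nlinarith

end

/-! ### Weight two forms -/

section Form

variable {K : Type*} [Field K] [Algebra K ℂ] {N : ℕ} [NeZero N]

omit [NeZero N] in
theorem form_smul (F : ModularForm (Gamma0 N) 2) {γ : SL(2, ℤ)} (hγ : γ ∈ Gamma0 N) (τ : ℍ) :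
    F (γ • τ) = denom γ τ ^ 2 * F τ := by
  have h : (γ : GL (Fin 2) ℝ) ∈ (Gamma0 N : Subgroup (GL (Fin 2) ℝ)) := ⟨γ, hγ, rfl⟩
  exact_mod_cast SlashInvariantForm.slash_action_eqn'' F h τ

theorem form_bdd (F : ModularForm (Gamma0 N) 2) (γ : SL(2, ℤ)) :
    IsBoundedAtImInfty fun τ : ℍ => F (γ • τ) / denom γ τ ^ 2 := by
  refine (ModularFormClass.bdd_at_infty_slash (k := 2) F γ).congr_left fun τ => ?_
  rw [SL_slash_apply, zpow_neg, div_eq_mul_inv]
  norm_cast

omit [NeZero N] in
theorem form_mdiff (F : ModularForm (Gamma0 N) 2) : MDiff (F : ℍ → ℂ) :=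
  ModularFormClass.holo F

theorem wt12_pow (F : ModularForm (Gamma0 N) 2) : Wt12 N (fun τ => F τ ^ 6) where
  hol := (form_mdiff F).pow 6
  inv γ hγ τ := by rw [form_smul F hγ]; ring
  bdd γ := by
    have h := form_bdd F γ
    have h2 := (h.mul h).mul ((h.mul h).mul (h.mul h))
    refine h2.congr_left fun τ => ?_
    have h3 : denom γ τ ≠ 0 := denom_ne_zero _ _
    simp only [Pi.mul_apply]
    field_simp

theorem wt12_mul (F : ModularForm (Gamma0 N) 2) :
    Wt12 N (fun τ => F τ * E₄ τ * E₆ τ) where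
  hol := ((form_mdiff F).mul (levelOne_mdiff E₄)).mul (levelOne_mdiff E₆)
  inv γ hγ τ := by rw [form_smul F hγ, E₄_smul, E₆_smul]; ring
  bdd γ := by
    have h := form_bdd F γ
    have h4 : IsBoundedAtImInfty (E₄ : ℍ → ℂ) := ModularFormClass.bdd_at_infty E₄
    have h6 : IsBoundedAtImInfty (E₆ : ℍ → ℂ) := ModularFormClass.bdd_at_infty E₆
    refine ((h.mul h4).mul h6).congr_left fun τ => ?_
    have h3 : denom γ τ ≠ 0 := denom_ne_zero _ _
    rw [E₄_smul, E₆_smul]
    simp only [Pi.mul_apply]
    field_simp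

theorem hasExp_form (F : ModularForm (Gamma0 N) 2) {X : LaurentSeries ℂ}
    (hX : ∀ n : ℕ, X.coeff n = ModularFormClass.qCoeff F n) (hneg : ∀ n < (0 : ℤ), X.coeff n = 0) :
    HasExp 1 F X := by
  intro τ
  have h := ModularForm.hasSum_qExpansion (f := F) (k := 2) one_pos
    (CongruenceSubgroup.one_mem_strictPeriods_Gamma0 N) τ
  unfold LSum
  rw [← (Nat.cast_injective (R := ℤ)).hasSum_iff]
  · convert! h using 2 with n
    simp only [Function.comp_apply]
    rw [hX, zpow_natCast]
    rfl
  · intro n hn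
    have : n < 0 := by
      by_contra h0
      exact hn ⟨n.toNat, Int.toNat_of_nonneg (not_lt.mp h0)⟩
    rw [hneg n this, zero_mul]

end Form

/-! ### Places and `j` -/

section Places

variable {K : Type*} [Field K] [Algebra K ℂ] {N : ℕ} [NeZero N]

omit [Algebra K ℂ] [NeZero N] in
theorem ord_const (v : Place K (modularFunctionFieldFullC K N)) (c : K) :
    v.ord (algebraMap K (modularFunctionFieldFullC K N) c) = 0 :=
  H94.ord_algebraMap v c

omit [NeZero N] in
theorem jF_sub_ne_zero (c : K) :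
    jF K N - algebraMap K (modularFunctionFieldFullC K N) c ≠ 0 := fun h =>
  transcendental_sub (N := N) c (h ▸ isAlgebraic_zero)

omit [NeZero N] in
theorem ord_sub_of_ne (v : Place K (modularFunctionFieldFullC K N)) {c c' : K} (hne : c' ≠ c)
    (h : 0 < v.ord (jF K N - algebraMap K _ c)) : v.ord (jF K N - algebraMap K _ c') = 0 := by
  have h1 := jF_sub_ne_zero (K := K) (N := N) c'
  have hge : 0 ≤ v.ord (jF K N - algebraMap K _ c') := by
    have := ord_add_ge v (f := jF K N - algebraMap K _ c) (g := algebraMap K _ (c - c')) (n := 0)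
      (Or.inr h.le) (Or.inr (ord_const v _).ge)
    rw [map_sub, sub_add_sub_cancel] at this
    exact this.resolve_left h1
  by_contra h0
  have hpos : 1 ≤ v.ord (jF K N - algebraMap K _ c') := by omega
  have hneg : v.ord (-(jF K N - algebraMap K _ c')) = v.ord (jF K N - algebraMap K _ c') := by
    have h2 : -(jF K N - algebraMap K (modularFunctionFieldFullC K N) c') =
        algebraMap K _ (-1) * (jF K N - algebraMap K _ c') := by
      rw [map_neg, map_one, neg_one_mul]
    rw [h2, v.ord_mul (by rw [map_neg, map_one]; exact neg_ne_zero.mpr one_ne_zero) h1,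
      ord_const, zero_add]
  have := ord_add_ge v (f := jF K N - algebraMap K _ c) (g := -(jF K N - algebraMap K _ c'))
    (n := 1) (Or.inr (by omega)) (Or.inr (by rw [hneg]; exact hpos))
  have h3 : jF K N - algebraMap K (modularFunctionFieldFullC K N) c +
      -(jF K N - algebraMap K _ c') = algebraMap K _ (c' - c) := by
    rw [map_sub]; ring
  rw [h3, ord_const] at this
  rcases this with h4 | h4
  · rw [map_eq_zero, sub_eq_zero] at h4
    exact hne h4
  · omega

theorem ord_jF_nonneg (v : Place K (modularFunctionFieldFullC K N)) {c : K}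
    (h : 0 < v.ord (jF K N - algebraMap K _ c)) : 0 ≤ v.ord (jF K N) := by
  by_cases hc : c = 0
  · subst hc
    rw [map_zero, sub_zero] at h
    exact h.le
  · have := ord_sub_of_ne v (c' := 0) (Ne.symm hc) h
    rw [map_zero, sub_zero] at this
    exact this.ge

omit [NeZero N] in
theorem ord_sub_le (v : Place K (modularFunctionFieldFullC K N)) (hj : v.ord (jF K N) < 0) (c : K) :
    v.ord (jF K N - algebraMap K _ c) ≤ v.ord (jF K N) := by
  by_contra hlt
  push Not at hlt
  have := ord_add_ge v (f := jF K N - algebraMap K _ c) (g := algebraMap K _ c)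
    (n := v.ord (jF K N) + 1) (Or.inr (by omega)) (Or.inr (by rw [ord_const]; omega))
  rw [sub_add_cancel] at this
  rcases this with h | h
  · exact (transcendental_jF (K := K) (N := N)) (h ▸ isAlgebraic_zero)
  · omega

end Places

/-! ### The main statement -/

section Main

variable {K : Type*} [Field K] [Algebra K ℂ] [IsAlgClosed K] {N : ℕ} [NeZero N]

/-- **Weight two forms as functions with bounded poles.** -/
theorem exists_function_of_form (F : ModularForm (Gamma0 N) 2) (X : LaurentSeries K)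
    (hX : ∀ n : ℕ, algebraMap K ℂ (X.coeff n) = ModularFormClass.qCoeff F n)
    (hneg : ∀ n < (0 : ℤ), X.coeff n = 0) :
    ∃ x : modularFunctionFieldFullC K N,
      (x : LaurentSeries K) * theta (jqModC K) = X ∧
      (x ≠ 0 →
        (∀ v : Place K (modularFunctionFieldFullC K N), v.ord (jF K N) < 0 →
          -(v.ord (jF K N)) ≤ v.ord x) ∧
        (∀ (v : Place K (modularFunctionFieldFullC K N)) (c : K),
          0 < v.ord (jF K N - algebraMap K _ c) →
            1 - v.ord (jF K N - algebraMap K _ c) ≤ v.ord x)) := by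
  have : CharZero K := charZero_of_algebra
  -- expansions
  have hXe : HasExp 1 F (incl K X) := hasExp_form F hX fun n hn => by
    rw [incl_coeff, hneg n hn, map_zero]
  have hE4 : HasExp 1 (E₄ : ℍ → ℂ) (incl K (E4L K)) := by
    rw [incl, coeffMap_E4L]; exact hasExp_E₄'
  have hE6 : HasExp 1 (E₆ : ℍ → ℂ) (incl K (E6L K)) := by
    rw [incl, coeffMap_E6L]; exact hasExp_E₆
  -- `y = F E₄ E₆ / Δ`
  have hay : HasExp 1 (fun τ => F τ * E₄ τ * E₆ τ) (incl K (X * E4L K * E6L K)) := by
    rw [map_mul, map_mul]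
    exact (hXe.mul hE4).mul hE6
  have haf : HasExp 1 (fun τ => F τ ^ 6) (incl K (X ^ 6)) := by
    rw [map_pow]
    exact hXe.pow 6
  obtain ⟨hyg, -⟩ := (wt12_mul F).good (K := K) (a := X * E4L K * E6L K) (isConv_of_hasExp hay)
    (funext fun τ => evalAt_of_hasExp hay τ)
  obtain ⟨hfg, -⟩ := (wt12_pow F).good (K := K) (a := X ^ 6) (isConv_of_hasExp haf)
    (funext fun τ => evalAt_of_hasExp haf τ)
  set y : modularFunctionFieldFullC K N := ⟨_, mem_full_of_good hyg⟩ with hy
  set f : modularFunctionFieldFullC K N := ⟨_, mem_full_of_good hfg⟩ with hf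
  have hyv : (y : LaurentSeries K) = X * E4L K * E6L K * deltaInvL K := rfl
  have hfv : (f : LaurentSeries K) = X ^ 6 * deltaInvL K := rfl
  have hJ0 : jF K N ≠ 0 := fun h => (transcendental_jF (K := K) (N := N)) (h ▸ isAlgebraic_zero)
  have hJ1 := jF_sub_ne_zero (K := K) (N := N) 1728
  set J := jF K N with hJ
  set J' := jF K N - algebraMap K (modularFunctionFieldFullC K N) 1728 with hJ'
  have hJv : (J : LaurentSeries K) = E4L K ^ 3 * deltaInvL K := by
    rw [← jqModC_mul_deltaL, mul_assoc, deltaL_mul_deltaInvL, mul_one]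
    rfl
  have hJ'v : (J' : LaurentSeries K) = E6L K ^ 2 * deltaInvL K := by
    rw [← jqModC_sub_mul_deltaL, mul_assoc, deltaL_mul_deltaInvL, mul_one]
    have h1 : (((algebraMap K (modularFunctionFieldFullC K N) 1728 :
        modularFunctionFieldFullC K N)) : LaurentSeries K) = 1728 := by
      rw [map_ofNat]
      rfl
    rw [← h1]
    rfl
  have hθ : theta (jqModC K) = -(E4L K ^ 2 * E6L K) * deltaInvL K := by
    rw [← theta_jqModC_mul_deltaL, mul_assoc, deltaL_mul_deltaInvL, mul_one]
  refine ⟨-(y / (J * J')), ?_, fun hx0 => ?_⟩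
  · have h1 : (((-(y / (J * J')) : modularFunctionFieldFullC K N)) : LaurentSeries K) =
        -((y : LaurentSeries K) / ((J : LaurentSeries K) * (J' : LaurentSeries K))) := by
      push_cast
      rfl
    have h2 : (J : LaurentSeries K) ≠ 0 := fun h => hJ0 (Subtype.ext h)
    have h3 : (J' : LaurentSeries K) ≠ 0 := fun h => hJ1 (Subtype.ext h)
    rw [h1, hθ, hyv]
    rw [hJv] at h2 ⊢
    rw [hJ'v] at h3 ⊢
    obtain ⟨h4, h5⟩ := mul_ne_zero_iff.mp h2
    obtain ⟨h6, -⟩ := mul_ne_zero_iff.mp h3
    have h7 : E4L K ≠ 0 := fun h => h4 (by rw [h]; exact zero_pow (by norm_num))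
    have h8 : E6L K ≠ 0 := fun h => h6 (by rw [h]; exact zero_pow (by norm_num))
    field_simp
  · have hy0 : y ≠ 0 := by
      intro h
      apply hx0
      rw [h, zero_div, neg_zero]
    -- the order of `x`
    have hneg1 : ∀ (v : Place K (modularFunctionFieldFullC K N)) (z : modularFunctionFieldFullC K N),
        z ≠ 0 → v.ord (-z) = v.ord z := by
      intro v z hz
      have h2 : -z = algebraMap K _ (-1) * z := by rw [map_neg, map_one, neg_one_mul]
      rw [h2, v.ord_mul (by rw [map_neg, map_one]; exact neg_ne_zero.mpr one_ne_zero) hz,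
        ord_const, zero_add]
    have hxo : ∀ v : Place K (modularFunctionFieldFullC K N),
        v.ord (-(y / (J * J'))) = v.ord y - v.ord J - v.ord J' := by
      intro v
      rw [hneg1 v _ (div_ne_zero hy0 (mul_ne_zero hJ0 hJ1)), div_eq_mul_inv,
        v.ord_mul hy0 (inv_ne_zero (mul_ne_zero hJ0 hJ1)), v.ord_inv, v.ord_mul hJ0 hJ1]
      ring
    refine ⟨fun v hv => ?_, fun v c hv => ?_⟩
    · -- cusps
      have h1 := (wt12_mul F).ord_le (K := K) (a := X * E4L K * E6L K) (isConv_of_hasExp hay)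
        (funext fun τ => evalAt_of_hasExp hay τ) y hyv v hv
      have h2 := ord_sub_le v hv 1728
      rw [hxo v]
      change v.ord J' ≤ v.ord J at h2
      change v.ord J ≤ v.ord y at h1
      omega
    · -- finite places: `x⁶ J⁴ J'³ = f`
      have hrel : y ^ 6 = f * J ^ 2 * J' ^ 3 := by
        apply Subtype.ext
        push_cast
        rw [hyv, hfv, hJv, hJ'v]
        ring
      have hf0 : f ≠ 0 := by
        intro h
        rw [h, zero_mul, zero_mul] at hrel
        exact hy0 (pow_eq_zero_iff (by norm_num) |>.mp hrel)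
      have h1 : 0 ≤ v.ord f := ord_nonneg_of_good v (ord_jF_nonneg v hv) f (by rw [hfv]; exact hfg)
      have h2 : 6 * v.ord y = v.ord f + 2 * v.ord J + 3 * v.ord J' := by
        have h3 := congrArg v.ord hrel
        rw [v.ord_mul (mul_ne_zero hf0 (pow_ne_zero _ hJ0)) (pow_ne_zero _ hJ1),
          v.ord_mul hf0 (pow_ne_zero _ hJ0), ← zpow_natCast, ← zpow_natCast, ← zpow_natCast,
          v.ord_zpow, v.ord_zpow, v.ord_zpow] at h3
        push_cast at h3
        exact h3
      rw [hxo v]
      set o := v.ord (J - algebraMap K (modularFunctionFieldFullC K N) c) with ho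
      by_cases hc0 : c = 0
      · subst hc0
        have h3 : v.ord J' = 0 := ord_sub_of_ne v (by norm_num) hv
        have h4 : v.ord J = o := by rw [ho, map_zero, sub_zero]
        omega
      · have h4 : v.ord J = 0 := by
          have := ord_sub_of_ne v (c' := 0) (Ne.symm hc0) hv
          rwa [map_zero, sub_zero] at this
        by_cases hc1 : c = 1728
        · subst hc1
          have h3 : v.ord J' = o := rfl
          omega
        · have h3 : v.ord J' = 0 := ord_sub_of_ne v (Ne.symm hc1) hv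
          omega

end Main

end Fermat.Agent.H45.FF
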