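/-
H39Poles: the divisor `div(dj) + cusps` on `X₀(N)` in characteristic zero, and weight two forms as
elements of its Riemann-Roch space.
-/
import Fermat.Agent.H39DerMod
import Fermat.Agent.H39Forms
import Fermat.Agent.H45FormFun
import Fermat.Agent.H31Inputs

set_option autoImplicit false

noncomputable section

open AlgebraicCurve ModularCurve Fermat.Agent.H61 KaehlerDifferential

namespace Fermat.Agent.H39

local notation "Qb" => AlgebraicClosure ℚ

/-- the `q`-series with integer coefficients -/
def ser (R : Type*) [CommRing R] (c : ℕ → ℤ) : LaurentSeries R := toL R (PowerSeries.mk c)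

theorem coeff_ser (R : Type*) [CommRing R] (c : ℕ → ℤ) (n : ℕ) :
    (ser R c).coeff (n : ℤ) = (c n : R) := by
  rw [ser, coeff_toL_nat, PowerSeries.coeff_mk]

theorem coeff_ser_neg (R : Type*) [CommRing R] (c : ℕ → ℤ) {n : ℤ} (hn : n < 0) :
    (ser R c).coeff n = 0 := coeff_toL_neg R _ hn

theorem coeffMap_ser {R S : Type*} [CommRing R] [CommRing S] (φ : R →+* S) (c : ℕ → ℤ) :
    coeffMap φ (ser R c) = ser S c := coeffMap_toL φ _

variable (N : ℕ) [NeZero N]

theorem transc_jBar : Transcendental Qb (H94.jBar N) := (H94.x0PlaceData_bar N).transcendental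

/-- the divisor of `dj` -/
def divDj : Divisor Qb (modularFunctionFieldBar N) :=
  haveI := H94.hasCanonicalDivisor Qb (modularFunctionFieldBar N)
  canonicalDivisorOf (H94.D_ne_zero (transc_jBar N))

theorem divDj_apply (v : Place Qb (modularFunctionFieldBar N)) :
    divDj N v = v.ordDifferential (D Qb (modularFunctionFieldBar N) (H94.jBar N)) :=
  haveI := H94.hasCanonicalDivisor Qb (modularFunctionFieldBar N)
  canonicalDivisorOf_apply (H94.D_ne_zero (transc_jBar N)) v

theorem degree_divDj : Divisor.degree (divDj N) =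
    2 * (genusFF Qb (modularFunctionFieldBar N) : ℤ) - 2 :=
  H94.degree_div_dx_eq_genusFF (transc_jBar N) _ (divDj_apply N)

/-- the cusps -/
def cuspFin : Finset (Place Qb (modularFunctionFieldBar N)) :=
  (H94.finite_setOf_ord_neg (K := Qb) (transc_jBar N)).toFinset

theorem mem_cuspFin {v : Place Qb (modularFunctionFieldBar N)} :
    v ∈ cuspFin N ↔ v.ord (H94.jBar N) < 0 := by
  rw [cuspFin, Set.Finite.mem_toFinset]
  rfl

theorem card_cuspFin : (cuspFin N).card = cuspCount N := by
  rw [← (H94.x0PlaceData_bar N).card_cusp]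
  have h1 : Nat.card {v // v ∈ cuspFin N} = (cuspFin N).card := by
    rw [Nat.card_eq_fintype_card, Fintype.card_coe]
  rw [← h1]
  exact Nat.card_congr (Equiv.subtypeEquivRight fun v => mem_cuspFin N)

/-- the divisor of cusps -/
def cuspDiv : Divisor Qb (modularFunctionFieldBar N) := ∑ v ∈ cuspFin N, Finsupp.single v 1

open Classical in
theorem cuspDiv_apply (v : Place Qb (modularFunctionFieldBar N)) :
    cuspDiv N v = if v.ord (H94.jBar N) < 0 then 1 else 0 := by
  rw [cuspDiv, Finsupp.finsetSum_apply]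
  simp only [Finsupp.single_apply]
  rw [Finset.sum_ite_eq']
  simp only [mem_cuspFin]

theorem cuspDiv_nonneg (v : Place Qb (modularFunctionFieldBar N)) : 0 ≤ cuspDiv N v := by
  rw [cuspDiv_apply]
  split_ifs <;> norm_num

theorem degree_cuspDiv : Divisor.degree (cuspDiv N) = cuspCount N := by
  rw [cuspDiv, map_sum]
  simp only [Divisor.degree_single, H42.deg_bar]
  rw [← card_cuspFin]
  simp

omit [NeZero N] in
theorem cuspCount_of_squarefree (hN : Squarefree N) : cuspCount N = N.divisors.card := by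
  rw [cuspCount, Finset.card_eq_sum_ones]
  refine Finset.sum_congr rfl fun d hd => ?_
  have h1 : d * (N / d) = N := Nat.mul_div_cancel' (Nat.dvd_of_mem_divisors hd)
  have h2 : Nat.Coprime d (N / d) := by
    apply Nat.coprime_of_squarefree_mul
    rwa [h1]
  rw [h2, Nat.totient_one]

theorem degree_DD (hN : Squarefree N) : Divisor.degree (divDj N + cuspDiv N) =
    2 * (genusFF Qb (modularFunctionFieldBar N) : ℤ) - 2 + N.divisors.card := by
  rw [map_add, degree_divDj, degree_cuspDiv, cuspCount_of_squarefree N hN]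

theorem genus_eq : (genusFF Qb (modularFunctionFieldBar N) : ℤ) =
    Module.finrank ℂ (CuspForm (CongruenceSubgroup.Gamma0 N) 2) := by
  have h1 := (H94.x0PlaceData_bar N).genusFF_eq
  have h2 := H80.finrank_eq_genusFormula N
  rw [← h2] at h1
  exact_mod_cast h1

/-- value of `div(dj) + cusps` at a cusp -/
theorem DD_cusp {v : Place Qb (modularFunctionFieldBar N)} (hv : v.ord (H94.jBar N) < 0) :
    (divDj N + cuspDiv N) v = v.ord (H94.jBar N) := by
  rw [Finsupp.add_apply, divDj_apply, cuspDiv_apply, if_pos hv,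
    H94.ordDifferential_D v (ne_of_lt hv)]
  ring

/-- value of `div(dj) + cusps` at a finite place -/
theorem DD_finite {v : Place Qb (modularFunctionFieldBar N)} {c : Qb}
    (hv : 0 < v.ord (H94.jBar N - algebraMap _ _ c)) (hj : 0 ≤ v.ord (H94.jBar N)) :
    (divDj N + cuspDiv N) v = v.ord (H94.jBar N - algebraMap _ _ c) - 1 := by
  rw [Finsupp.add_apply, divDj_apply, cuspDiv_apply, if_neg (not_lt.mpr hj),
    H94.ordDifferential_D_sub v (ne_of_gt hv)]
  ring

/-- transport of the FORMFUN theorem -/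
theorem exists_function_bar (F0 : ModularForm (CongruenceSubgroup.Gamma0 N) 2) (X : LaurentSeries Qb)
    (hX : ∀ n : ℕ, H24.embBar (X.coeff n) = ModularFormClass.qCoeff F0 n)
    (hneg : ∀ n < (0 : ℤ), X.coeff n = 0) :
    ∃ x : modularFunctionFieldBar N,
      (x : LaurentSeries Qb) * theta (jqModC Qb) = X ∧
      (x ≠ 0 →
        (∀ v : Place Qb (modularFunctionFieldBar N), v.ord (H94.jBar N) < 0 →
          -(v.ord (H94.jBar N)) ≤ v.ord x) ∧
        (∀ (v : Place Qb (modularFunctionFieldBar N)) (c : Qb),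
          0 < v.ord (H94.jBar N - algebraMap Qb _ c) →
            1 - v.ord (H94.jBar N - algebraMap Qb _ c) ≤ v.ord x)) := by
  let : Algebra Qb ℂ := H24.embBar.toAlgebra
  have key : ∀ (F : IntermediateField Qb (LaurentSeries Qb))
      (_ : F = modularFunctionFieldFullC Qb N) (j : F) (_ : (j : LaurentSeries Qb) = jqModC Qb),
      ∃ x : F, (x : LaurentSeries Qb) * theta (jqModC Qb) = X ∧
      (x ≠ 0 →
        (∀ v : Place Qb F, v.ord j < 0 → -(v.ord j) ≤ v.ord x) ∧
        (∀ (v : Place Qb F) (c : Qb), 0 < v.ord (j - algebraMap Qb _ c) →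
            1 - v.ord (j - algebraMap Qb _ c) ≤ v.ord x)) := by
    rintro F rfl j hj
    obtain rfl : j = H24.jF Qb N := Subtype.ext hj
    exact H45.FF.exists_function_of_form F0 X hX hneg
  exact key _ (H24.laurentBaseChange_full Qb N) _ rfl

/-- integral elements of `S₂ ⊕ Eis` as elements of `L(div(dj) + cusps)` -/
theorem exists_function_seq {c : ℕ → ℤ} (hc : c ∈ seqLat (V2 N)) :
    ∃ x : modularFunctionFieldBar N, (x : LaurentSeries Qb) * theta (jqModC Qb) = ser Qb c ∧
      x ∈ riemannRochSpace (divDj N + cuspDiv N) := by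
  obtain ⟨F0, hF0⟩ := exists_form_of_mem_V2 N hc
  obtain ⟨x, hx, hxv⟩ := exists_function_bar N F0 (ser Qb c) (fun n => by
    rw [coeff_ser, map_intCast, hF0 n]) (fun n hn => coeff_ser_neg Qb c hn)
  refine ⟨x, hx, ?_⟩
  by_cases hx0 : x = 0
  · rw [hx0]
    exact Submodule.zero_mem _
  obtain ⟨h1, h2⟩ := hxv hx0
  rw [H40.mem_L hx0]
  intro v
  by_cases hv : v.ord (H94.jBar N) < 0
  · rw [DD_cusp N hv]
    exact h1 v hv
  · obtain ⟨a, ha⟩ := H94.exists_sub_ord_pos (transc_jBar N) v (not_lt.mp hv)
    rw [DD_finite N ha (not_lt.mp hv)]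
    have := h2 v a ha
    omega

end Fermat.Agent.H39
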