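/-
H39Span: logarithmic derivatives of functions on the special fibre of `X₀(N)` whose divisor is
divisible by `p` away from the cusps are reductions of weight two forms in `S₂ ⊕ Eis`.
-/
import Fermat.Agent.H39Poles

set_option autoImplicit false

noncomputable section

open AlgebraicCurve ModularCurve Fermat.Agent.H61 KaehlerDifferential

namespace Fermat.Agent.H39

local notation "Qb" => AlgebraicClosure ℚ

section

variable (A : ValuationSubring Qb) {k : Type} [Field k] [IsAlgClosed k]
  (π : A →+* k) (N : ℕ) [NeZero N] (hπ : Function.Surjective π) [IsLocalHom π]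
  (hdeg : H42.DegLE Qb k N)
  (hg : genusFF Qb (modularFunctionFieldBar N) = genusFF k (modularFunctionFieldFullC k N))

include hg in
theorem exists_red_map :
    ∃ r : Place Qb (modularFunctionFieldBar N) → Place k (modularFunctionFieldFullC k N),
      (∀ D : Divisor Qb (modularFunctionFieldBar N),
        2 * (genusFF Qb (modularFunctionFieldBar N) : ℤ) < Divisor.degree D →
          (H42.modReductionData A π N hπ hdeg).IsRed D (Finsupp.mapDomain r D)) ∧
      ∀ x : (H42.modReductionData A π N hπ hdeg).B, (H42.modReductionData A π N hπ hdeg).ρ x ≠ 0 →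
        ∀ Δ : Divisor Qb (modularFunctionFieldBar N),
          (∀ v, Δ v = v.ord (x : modularFunctionFieldBar N)) →
            ∀ w, Finsupp.mapDomain r Δ w = w.ord ((H42.modReductionData A π N hπ hdeg).ρ x) := by
  have := H42.funField_left (k := k) (L := Qb) N hdeg
  have := H42.funField_right (L := Qb) N hdeg
  have : HasPrincipalDivisors Qb (modularFunctionFieldBar N) := H18.hasPrincipalDivisors _ _
  have : HasPrincipalDivisors k (modularFunctionFieldFullC k N) := H18.hasPrincipalDivisors _ _
  have : Infinite k := IsAlgClosed.instInfinite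
  have hx := H42.transcendental_jFull k N
  obtain ⟨v, -⟩ := H18.exists_ord_pos hx
  have : Nonempty (Place k (modularFunctionFieldFullC k N)) := ⟨v⟩
  have : Nonempty (Place Qb (modularFunctionFieldBar N)) := by
    obtain ⟨x, hx, -⟩ := (H42.funField_left (k := k) (L := Qb) N hdeg).out
    obtain ⟨v, -⟩ := H18.exists_ord_pos hx
    exact ⟨v⟩
  have hdF : ∀ v : Place Qb (modularFunctionFieldBar N), v.deg = 1 := H94.deg_eq_one
  have hdE : ∀ v : Place k (modularFunctionFieldFullC k N), v.deg = 1 := H94.deg_eq_one
  have hF : H40.RiemannFor Qb (modularFunctionFieldBar N)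
      (genusFF Qb (modularFunctionFieldBar N)) (2 * genusFF Qb (modularFunctionFieldBar N)) :=
    H42.riemannFor _ _ (by omega)
  have hE : H40.RiemannFor k (modularFunctionFieldFullC k N)
      (genusFF Qb (modularFunctionFieldBar N)) (2 * genusFF Qb (modularFunctionFieldBar N)) := by
    have h1 := H42.riemannFor k (modularFunctionFieldFullC k N)
      (c := 2 * genusFF Qb (modularFunctionFieldBar N)) (by omega)
    rwa [← hg] at h1
  have hpole : (H42.modReductionData A π N hπ hdeg).PoleIneq :=
    (H42.modReductionData A π N hπ hdeg).poleIneq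
  exact (H42.modReductionData A π N hπ hdeg).exists_placeReduction hF hE hdF hdE hpole
    (by omega) (by omega)

/-- `j` on the special fibre -/
def jE (k : Type) [Field k] (N : ℕ) : modularFunctionFieldFullC k N :=
  ⟨jqModC k, jqModC_mem_full k N⟩

/-- multiplication by `θj` and coefficients -/
def coefLin (k : Type) [Field k] (N : ℕ) : modularFunctionFieldFullC k N →ₗ[k] (ℕ → k) where
  toFun e n := ((e : LaurentSeries k) * theta (jqModC k)).coeff (n : ℤ)
  map_add' a b := by
    funext n
    show (((a : LaurentSeries k) + (b : LaurentSeries k)) * theta (jqModC k)).coeff _ = _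
    rw [add_mul, HahnSeries.coeff_add]
    rfl
  map_smul' c a := by
    funext n
    have h1 : (((c • a : modularFunctionFieldFullC k N)) : LaurentSeries k) =
        HahnSeries.C c * (a : LaurentSeries k) := by
      rw [Algebra.smul_def]
      show algebraMap k (LaurentSeries k) c * (a : LaurentSeries k) = _
      rw [algebraMap_laurentSeries_eq_single]
      rfl
    show ((((c • a : modularFunctionFieldFullC k N)) : LaurentSeries k) *
      theta (jqModC k)).coeff _ = _
    rw [h1, mul_assoc, HahnSeries.C_mul_eq_smul, HahnSeries.coeff_smul]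
    rfl

include hg hπ hdeg in
/-- **Logarithmic derivatives of functions with divisor divisible by `p` away from the cusps.** -/
theorem exists_span_of_log {p : ℕ} [Fact p.Prime] [CharP k p] (hN : Squarefree N)
    {g : modularFunctionFieldFullC k N} (hg0 : g ≠ 0)
    (hdiv : ∀ w : Place k (modularFunctionFieldFullC k N), 0 ≤ w.ord (jE k N) →
      (p : ℤ) ∣ w.ord g) :
    ∃ (r : ℕ) (b : Fin r → ℕ → ℤ) (lam : Fin r → k), (∀ i, b i ∈ seqLat (V2 N)) ∧
      ∀ n : ℕ, (theta (g : LaurentSeries k) / (g : LaurentSeries k)).coeff (n : ℤ) =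
        ∑ i, lam i * (b i n : k) := by
  classical
  obtain ⟨r, hred, hcompat⟩ := exists_red_map A π N hπ hdeg hg
  have := H42.funField_left (k := k) (L := Qb) N hdeg
  have := H42.funField_right (L := Qb) N hdeg
  have : HasPrincipalDivisors Qb (modularFunctionFieldBar N) := H18.hasPrincipalDivisors _ _
  have : HasPrincipalDivisors k (modularFunctionFieldFullC k N) := H18.hasPrincipalDivisors _ _
  have hdF : ∀ v : Place Qb (modularFunctionFieldBar N), v.deg = 1 := H94.deg_eq_one
  have hdE : ∀ v : Place k (modularFunctionFieldFullC k N), v.deg = 1 := H94.deg_eq_one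
  -- the derivations
  have hF : ∀ f ∈ laurentBaseChange Qb (modularFunctionFieldFull N),
      theta f / theta (jqModC Qb) ∈ laurentBaseChange Qb (modularFunctionFieldFull N) :=
    theta_div_mem (F := modularFunctionFieldBar N) (j := H94.jBar N) rfl (transc_jBar N)
  have hE := theta_div_mem_red A π N hπ hdeg hF
  have hδ := exists_der_modReductionData A π N hπ hdeg hF hE
  have hD0 : ∀ (P : Place Qb (modularFunctionFieldBar N)) (x : modularFunctionFieldBar N),
      x ≠ 0 → 0 ≤ P.ord x → thetaDerOn _ hF x = 0 ∨ -divDj N P ≤ P.ord (thetaDerOn _ hF x) := by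
    intro P x hx0 hx
    rw [divDj_apply]
    exact ord_thetaDerOn_ge (j := H94.jBar N) rfl (transc_jBar N) hF P hx0 hx
  -- two places
  have hw : ∃ w w' : Place k (modularFunctionFieldFullC k N), w ≠ w' := by
    have hx := H42.transcendental_jFull k N
    obtain ⟨v, hv⟩ := H18.exists_ord_pos hx
    obtain ⟨v', hv'⟩ := H18.exists_ord_neg hx
    refine ⟨v, v', ?_⟩
    rintro rfl
    omega
  -- `j`
  obtain ⟨jB, hjB1, hjB2⟩ := H18.exists_mem_B A π N hπ hdeg (jqModC A) (by
    rw [H61.coeffMap_jqModC]
    exact (H94.jBar N).2)
  rw [H61.coeffMap_jqModC] at hjB1 hjB2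
  have hjB1' : (jB : modularFunctionFieldBar N) = H94.jBar N := Subtype.ext hjB1
  have hjB2' : (H42.modReductionData A π N hπ hdeg).ρ jB = jE k N := Subtype.ext hjB2
  have hjE0 : jE k N ≠ 0 := by
    intro h
    have h' : (⟨jqModC k, jqModC_mem_full k N⟩ : modularFunctionFieldFullC k N) = 0 := h
    apply H42.transcendental_jFull k N
    rw [h']
    exact isAlgebraic_zero
  -- the logarithmic derivative lies in `L(r_* DD)`
  set DDk := Finsupp.mapDomain r (divDj N + cuspDiv N) with hDDk
  have hmap : DDk = Finsupp.mapDomain r (divDj N) + Finsupp.mapDomain r (cuspDiv N) := by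
    rw [hDDk, Finsupp.mapDomain_add]
  have hω : thetaDerOn _ hE g / g ∈ riemannRochSpace DDk := by
    by_cases hz : thetaDerOn _ hE g = 0
    · rw [hz, zero_div]
      exact Submodule.zero_mem _
    rw [H40.mem_L (div_ne_zero hz hg0)]
    intro w
    have hlog := ord_logDer_ge (H42.modReductionData A π N hπ hdeg) r hred hcompat hdF
      (thetaDerOn _ hF) (thetaDerOn _ hE) hδ (divDj N) hD0 hw w hg0
    have hcusp0 : 0 ≤ Finsupp.mapDomain r (cuspDiv N) w :=
      mapDomain_nonneg r fun P _ => cuspDiv_nonneg N P
    rw [hmap, Finsupp.add_apply]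
    by_cases hwj : 0 ≤ w.ord (jE k N)
    · have h1 : ((w.ord g : ℤ) : modularFunctionFieldFullC k N) = 0 := by
        have h2 : ((w.ord g : ℤ) : k) = 0 := (CharP.intCast_eq_zero_iff k p _).mpr (hdiv w hwj)
        have h3 := congrArg (algebraMap k (modularFunctionFieldFullC k N)) h2
        rwa [map_intCast, map_zero] at h3
      rcases hlog.2 h1 with h | h
      · exact absurd h hz
      · omega
    · rcases hlog.1 with h | h
      · exact absurd h hz
      · have h1 : 1 ≤ Finsupp.mapDomain r (cuspDiv N) w := by
          obtain ⟨P, hP, hPj⟩ : ∃ P, r P = w ∧ P.ord (H94.jBar N) < 0 := by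
            by_contra hcon
            push Not at hcon
            obtain ⟨Δ, hΔ, -⟩ := H40.exists_div (K := Qb)
              (H40.ReductionData.ne_zero_of_ρ_ne_zero _ (x := jB) (by rw [hjB2']; exact hjE0))
            have h2 := hcompat jB (by rw [hjB2']; exact hjE0) Δ hΔ w
            rw [hjB2'] at h2
            have h3 : 0 ≤ Finsupp.mapDomain r Δ w := mapDomain_nonneg r fun P hP => by
              rw [hΔ P, hjB1']
              exact hcon P hP
            omega
          have h4 : 0 ≤ Finsupp.mapDomain r (cuspDiv N - Finsupp.single P 1) w := by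
            refine mapDomain_nonneg r fun P' _ => ?_
            rw [Finsupp.sub_apply, Finsupp.single_apply]
            split_ifs with h5
            · subst h5
              rw [cuspDiv_apply, if_pos hPj]
              norm_num
            · have := cuspDiv_nonneg N P'
              omega
          rw [sub_eq_add_neg, Finsupp.mapDomain_add, Finsupp.add_apply,
            ← Finsupp.single_neg, Finsupp.mapDomain_single, hP, Finsupp.single_eq_same] at h4
          omega
        omega
  -- the basis
  obtain ⟨m, b, hm, hb, -, hbind⟩ := exists_good_basis (V2 N) (V2_integral N) p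
  have hbind' := hbind k
  obtain ⟨u, hu⟩ := exists_inv_theta_j A
  have huL : coeffMap A.subtype u * theta (jqModC Qb) = 1 := by
    have := congrArg (coeffMap A.subtype) hu
    rwa [map_mul, H18.coeffMap_theta, map_one, H61.coeffMap_jqModC] at this
  have huk : coeffMap π u * theta (jqModC k) = 1 := by
    have := congrArg (coeffMap π) hu
    rwa [map_mul, H18.coeffMap_theta, map_one, H61.coeffMap_jqModC] at this
  have hβ : ∀ i, ∃ β : (H42.modReductionData A π N hπ hdeg).B,
      (β : modularFunctionFieldBar N) ∈ riemannRochSpace (divDj N + cuspDiv N) ∧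
      (((H42.modReductionData A π N hπ hdeg).ρ β : modularFunctionFieldFullC k N) :
        LaurentSeries k) * theta (jqModC k) = ser k (b i) := by
    intro i
    obtain ⟨x, hx, hxL⟩ := exists_function_seq N (hb i)
    have hx' : coeffMap A.subtype (ser A (b i) * u) = (x : LaurentSeries Qb) := by
      rw [map_mul, coeffMap_ser, ← hx, mul_assoc, mul_comm (theta (jqModC Qb)), huL, mul_one]
    obtain ⟨β, h1, h2⟩ := H18.exists_mem_B A π N hπ hdeg (ser A (b i) * u) (by
      rw [hx']
      exact x.2)
    have h3 : (β : modularFunctionFieldBar N) = x := Subtype.ext (h1.trans hx')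
    refine ⟨β, h3 ▸ hxL, ?_⟩
    rw [h2, map_mul, coeffMap_ser, mul_assoc, huk, mul_one]
  choose β hβL hβs using hβ
  have hρL : ∀ i, (H42.modReductionData A π N hπ hdeg).ρ (β i) ∈ riemannRochSpace DDk := by
    intro i
    by_cases hz : (H42.modReductionData A π N hπ hdeg).ρ (β i) = 0
    · rw [hz]
      exact Submodule.zero_mem _
    have hβ0 := H40.ReductionData.ne_zero_of_ρ_ne_zero _ hz
    obtain ⟨Δ, hΔ, -⟩ := H40.exists_div (K := Qb) hβ0
    rw [H40.mem_L hz]
    intro w
    rw [← hcompat (β i) hz Δ hΔ w]
    have h1 : 0 ≤ Finsupp.mapDomain r (Δ + (divDj N + cuspDiv N)) w := by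
      refine mapDomain_nonneg r fun P _ => ?_
      have := (H40.mem_L hβ0).mp (hβL i) P
      rw [Finsupp.add_apply, hΔ P]
      omega
    rw [Finsupp.mapDomain_add, Finsupp.add_apply, ← hDDk] at h1
    omega
  have hind : LinearIndependent k
      (fun i => (H42.modReductionData A π N hπ hdeg).ρ (β i)) := by
    apply LinearIndependent.of_comp (coefLin k N)
    convert hbind' using 1
    funext i n
    show ((((H42.modReductionData A π N hπ hdeg).ρ (β i) : modularFunctionFieldFullC k N) :
        LaurentSeries k) * theta (jqModC k)).coeff (n : ℤ) = _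
    rw [hβs i, coeff_ser]
  -- dimension of `L(r_* DD)`
  have hdegD : Divisor.degree DDk = 2 * (genusFF Qb (modularFunctionFieldBar N) : ℤ) - 2 +
      N.divisors.card := by
    rw [← degree_DD N hN, hDDk]
    exact degree_mapDomain_of_deg_eq (fun P => by rw [hdF, hdE]) _
  have hcard : 1 ≤ N.divisors.card :=
    Finset.card_pos.mpr ⟨1, Nat.one_mem_divisors.mpr (NeZero.ne N)⟩
  have hell : (Module.finrank k (riemannRochSpace DDk) : ℤ) =
      Divisor.degree DDk + 1 - genusFF k (modularFunctionFieldFullC k N) :=
    H3RR.ell_of_degree_gt (by rw [hdegD, ← hg]; omega)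
  have hfinL : Module.Finite k (riemannRochSpace DDk) := H3RR.finite_L DDk
  have hrank : Module.finrank k (riemannRochSpace DDk) ≤ m := by
    have h1 := finrank_V2 N hN
    have h2 := genus_eq N
    rw [hdegD, ← hg] at hell
    omega
  let v : Fin m → riemannRochSpace DDk := fun i => ⟨_, hρL i⟩
  have hvind : LinearIndependent k v := LinearIndependent.of_comp (Submodule.subtype _) hind
  have hspan : Submodule.span k (Set.range v) = ⊤ := by
    apply hvind.span_eq_top_of_card_eq_finrank'
    rw [Fintype.card_fin]
    have := hvind.fintype_card_le_finrank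
    rw [Fintype.card_fin] at this
    omega
  have hmem : (⟨_, hω⟩ : riemannRochSpace DDk) ∈ Submodule.span k (Set.range v) := by
    rw [hspan]
    trivial
  rw [Submodule.mem_span_range_iff_exists_fun] at hmem
  obtain ⟨lam, hlam⟩ := hmem
  refine ⟨m, b, lam, hb, fun n => ?_⟩
  have h1 := congrArg (fun e : riemannRochSpace DDk => coefLin k N (e : _) n) hlam
  simp only [AddSubmonoidClass.coe_finsetSum, SetLike.val_smul, map_sum, map_smul,
    Finset.sum_apply, Pi.smul_apply, smul_eq_mul] at h1
  have h2 : ∀ i, coefLin k N (v i : modularFunctionFieldFullC k N) n = (b i n : k) := by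
    intro i
    show ((((H42.modReductionData A π N hπ hdeg).ρ (β i) : modularFunctionFieldFullC k N) :
        LaurentSeries k) * theta (jqModC k)).coeff (n : ℤ) = _
    rw [hβs i, coeff_ser]
  simp only [h2] at h1
  rw [h1]
  show _ = (((theta (g : LaurentSeries k) / theta (jqModC k)) / (g : LaurentSeries k)) *
    theta (jqModC k)).coeff (n : ℤ)
  congr 1
  have h3 := theta_j_ne_zero k
  field_simp

end

end Fermat.Agent.H39
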