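import Fermat.Agent.H9Cusp

/-!
# The divisor of the modular unit `Δ(pτ)/Δ(τ)`
-/

set_option autoImplicit false
set_option linter.unusedSectionVars false

noncomputable section

open ModularCurve Polynomial IntermediateField AlgebraicCurve
open Fermat.Agent.H61 Fermat.Agent.H28 Fermat.Agent.H66

namespace Fermat.Agent.H9

section Abstract

/-- A root of a monic polynomial over `K[x]` with nonzero constant constant coefficient is a
unit at every place where `x` is finite. -/
theorem exists_unit_of_root {K O F : Type*} [Field K] [CommRing O] [IsDomain O]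
    [IsIntegrallyClosed O] [Field F] [Algebra O F] [IsFractionRing O F] [Algebra K O]
    (H : K[X][X]) (hm : H.Monic) {c : K} (hc : c ≠ 0) (h0 : H.coeff 0 = C c) (x : O) {y : F}
    (hy : (H.map (aeval x : K[X] →ₐ[K] O).toRingHom).eval₂ (algebraMap O F) y = 0) :
    ∃ z : Oˣ, algebraMap O F z = y := by
  set G : O[X] := H.map (aeval x : K[X] →ₐ[K] O).toRingHom with hG
  have hGm : G.Monic := hm.map _
  obtain ⟨z, rfl⟩ := IsIntegrallyClosed.isIntegral_iff.mp (⟨G, hGm, hy⟩ : IsIntegral O y)
  have hz : G.eval z = 0 := by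
    rw [Polynomial.eval₂_at_apply] at hy
    exact (IsFractionRing.injective O F) (by rw [hy, map_zero])
  have h1 : G.divX * X + C (G.coeff 0) = G := G.divX_mul_X_add
  have h2 : G.coeff 0 = algebraMap K O c := by
    rw [hG, Polynomial.coeff_map, h0]
    show aeval x (C c) = _
    rw [aeval_C]
  have h3 : G.divX.eval z * z = -(algebraMap K O c) := by
    rw [← h1, eval_add, eval_mul, eval_X, eval_C, h2] at hz
    linear_combination hz
  have h4 : IsUnit z := by
    have h5 : IsUnit (G.divX.eval z * z) := by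
      rw [h3]
      exact ((IsUnit.mk0 c hc).map (algebraMap K O)).neg
    exact isUnit_of_mul_isUnit_right h5
  exact ⟨h4.unit, rfl⟩

end Abstract

section Poly

variable {K : Type*} [Field K] {p : ℕ} [Fact p.Prime] {u : Kˣ}

theorem InJ_prod_vf (hmod : ModEq K p u) : InJ K p (∏ a, vf K p u a) := by
  have h := hmod.hp 0
  rw [Polynomial.coeff_zero_eq_eval_zero, Polynomial.eval_prod] at h
  have h1 : ∏ a, (X - C (vf K p u a)).eval 0 =
      HahnSeries.C ((-1 : K) ^ (p + 1)) * ∏ a, vf K p u a := by
    rw [map_pow, map_neg, map_one]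
    have : ∀ a, (X - C (vf K p u a)).eval 0 = (-1) * vf K p u a := by
      intro a; simp
    simp only [this]
    rw [Finset.prod_mul_distrib, Finset.prod_const, Finset.card_univ, Fintype.card_option,
      Fintype.card_fin]
  have h2 : ∏ a, vf K p u a = HahnSeries.C ((-1 : K) ^ (p + 1)) *
      ∏ a, (X - C (vf K p u a)).eval 0 := by
    rw [h1, ← mul_assoc, ← map_mul, ← pow_add, ← two_mul, pow_mul, neg_one_sq, one_pow, map_one,
      one_mul]
  rw [h2]
  exact (InJ.C _).mul h

theorem hasLead_prod_vf : ∃ c : K, ((p : K) ≠ 0 → c ≠ 0) ∧ HasLead (∏ a, vf K p u a) 0 c := by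
  have h1 : HasLead (qExpand K p (H28.deltaInvL K)) (p * (-1)) 1 :=
    (hasLead_deltaInvL K).qExpand p
  have h2 : HasLead (fam p u ((p : K) ^ 12) (H28.deltaL K) none * qExpand K p (H28.deltaInvL K))
      ((0 + p * (p * 1)) + p * (-1)) (((p : K) ^ 12 * 1) * 1) :=
    ((HasLead.C _).mul (((hasLead_deltaL K).qExpand p).qExpand p)).mul h1
  have h3 := HasLead.prod Finset.univ (fun i : Fin p =>
    fam p u ((p : K) ^ 12) (H28.deltaL K) (some i) * qExpand K p (H28.deltaInvL K))
    (fun _ => 1 + p * (-1)) (fun i => (((u ^ (i : ℕ)) ^ (1 : ℤ) : Kˣ) : K) * 1 * 1)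
    (fun i _ => ((hasLead_deltaL K).tw (u ^ (i : ℕ))).mul h1)
  have h4 := (h2.mul h3).pow p
  have h5 : ∏ a, vf K p u a =
      (fam p u ((p : K) ^ 12) (H28.deltaL K) none * qExpand K p (H28.deltaInvL K) *
        ∏ i : Fin p, (fam p u ((p : K) ^ 12) (H28.deltaL K) (some i) *
          qExpand K p (H28.deltaInvL K))) ^ p := by
    rw [← Fintype.prod_option (fun a => fam p u ((p : K) ^ 12) (H28.deltaL K) a *
      qExpand K p (H28.deltaInvL K)), ← Finset.prod_pow]
    rfl
  rw [← h5] at h4
  have h6 : (p : ℤ) * (0 + p * (p * 1) + p * -1 + ∑ _i : Fin p, (1 + (p : ℤ) * -1)) = 0 := by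
    simp only [mul_one, Finset.sum_const, Finset.card_univ, Fintype.card_fin, nsmul_eq_mul]
    ring
  rw [h6] at h4
  refine ⟨_, fun hp0 => ?_, h4⟩
  refine pow_ne_zero _ (mul_ne_zero ?_ ?_)
  · simpa using hp0
  · exact Finset.prod_ne_zero_iff.2 fun i _ => by simp

/-- The polynomial of `(p^12 Δ(pτ)/Δ(τ))^p` over `K[j]`; its constant coefficient is a nonzero
constant. -/
theorem exists_poly_vv (hp0 : (p : K) ≠ 0) (hu : IsPrimitiveRoot u p) :
    ∃ (H : K[X][X]) (c : K), H.Monic ∧ c ≠ 0 ∧ H.coeff 0 = C c ∧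
      (phiAt K H (J K 1)).eval (vv K p) = 0 := by
  have hmod := modEq_field K p u hu
  obtain ⟨H, h4, h5, h6⟩ := exists_poly _ hmod.hp
  have h8 : (phiAt K H (jqModC K)).eval (vv K p) = 0 := by
    apply qExpand_injective (R := K) p
    rw [map_zero, ← Polynomial.eval_map_apply, phiAt_map, ← J_one, qExpand_J, mul_one, h6,
      qExpand_vv (u := u), eval_prod]
    exact Finset.prod_eq_zero (Finset.mem_univ none) (by simp)
  obtain ⟨c, hc, hlead⟩ := hasLead_prod_vf (K := K) (p := p) (u := u)
  have h9 := (InJ_prod_vf hmod).eq_C hlead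
  refine ⟨H, (-1) ^ (p + 1) * c, h4, mul_ne_zero (pow_ne_zero _ (neg_ne_zero.mpr one_ne_zero))
    (hc hp0), ?_, by rwa [J_one]⟩
  have h10 : aeval (J K p) (H.coeff 0) = HahnSeries.C ((-1 : K) ^ (p + 1) * c) := by
    have h11 : aeval (J K p) (H.coeff 0) = (phiAt K H (J K p)).coeff 0 := by
      rw [phiAt, Polynomial.coeff_map]; rfl
    rw [h11, h6, Polynomial.coeff_zero_eq_eval_zero, Polynomial.eval_prod]
    have : ∀ a, (X - C (vf K p u a)).eval 0 = (-1) * vf K p u a := by
      intro a; simp
    simp only [this]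
    rw [Finset.prod_mul_distrib, Finset.prod_const, Finset.card_univ, Fintype.card_option,
      Fintype.card_fin, h9, map_mul, map_pow, map_neg, map_one]
  have hinj : Function.Injective (aeval (J K p) : K[X] →ₐ[K] LaurentSeries K) := by
    have h1 := (aeval_J_injective (K := K))
    have h2 : ∀ P : K[X], aeval (J K p) P = qExpand K p (aeval (jqModC K) P) := by
      intro P
      rw [aeval_def, aeval_def, hom_eval₂, ← J_one, qExpand_J, mul_one]
      congr 1
      ext1 a
      rw [RingHom.comp_apply, algebraMap_eq_C, qExpand_C]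
    intro P Q hPQ
    rw [h2, h2] at hPQ
    exact h1 (qExpand_injective (R := K) p hPQ)
  apply hinj
  rw [h10, aeval_C, algebraMap_eq_C]

end Poly

section Divisor

variable (K : Type*) [Field K] [IsAlgClosed K] (p : ℕ) [Fact p.Prime] (hp0 : (p : K) ≠ 0)

/-- `Δ(pτ)/Δ(τ)` as an element of the function field of `X_0(p)`. -/
def ratio : modularFunctionFieldFullC K p :=
  ⟨deltaRatio K p, deltaRatio_mem hp0 (hasRoots_of_isAlgClosed K p Fact.out hp0).choose_spec⟩

theorem ratio_ne_zero : ratio K p hp0 ≠ 0 := by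
  intro h
  exact deltaRatio_ne_zero (K := K) p (congrArg Subtype.val h)

theorem infPl_ord_ratio : (infPl K p).ord (ratio K p hp0) = p - 1 := by
  rw [infPl_ord]
  exact order_of_hasLead K (hasLead_deltaRatio p) one_ne_zero

theorem ord_ratio_of_nonneg {v : Place K (modularFunctionFieldFullC K p)}
    (hv : 0 ≤ v.ord (j₁ K p)) : v.ord (ratio K p hp0) = 0 := by
  have hp : p.Prime := Fact.out
  obtain ⟨H, c, hH, hc, h0, hroot⟩ := exists_poly_vv hp0
    (hasRoots_of_isAlgClosed K p Fact.out hp0).choose_spec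
  have hvv : vv K p = ((algebraMap K (modularFunctionFieldFullC K p) (p ^ 12) *
      ratio K p hp0) ^ p : modularFunctionFieldFullC K p) := by
    show _ = (algebraMap K (LaurentSeries K) (p ^ 12) * deltaRatio K p) ^ p
    rw [vv, algebraMap_eq_C, deltaRatio, mul_assoc]
  have hx : (j₁ K p) ∈ v.toValuationSubring := H94.mem_of_ord_nonneg _ hv
  obtain ⟨z, hz⟩ := exists_unit_of_root (K := K) (O := v.toValuationSubring)
    (F := modularFunctionFieldFullC K p) H hH hc h0 ⟨j₁ K p, hx⟩
    (y := (algebraMap K (modularFunctionFieldFullC K p) (p ^ 12) * ratio K p hp0) ^ p) (by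
      have h1 : (phiAt K H (J K 1)) = ((H.map (aeval (⟨j₁ K p, hx⟩ : v.toValuationSubring) :
          K[X] →ₐ[K] v.toValuationSubring).toRingHom).map
          (algebraMap v.toValuationSubring (modularFunctionFieldFullC K p))).map
          (algebraMap (modularFunctionFieldFullC K p) (LaurentSeries K)) := by
        rw [phiAt, Polynomial.map_map, Polynomial.map_map]
        congr 1
        refine Polynomial.ringHom_ext (fun a => ?_) ?_
        · show aeval (J K 1) (C a) = algebraMap (modularFunctionFieldFullC K p) (LaurentSeries K)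
            (algebraMap v.toValuationSubring (modularFunctionFieldFullC K p) (aeval _ (C a)))
          rw [aeval_C, aeval_C]
          rfl
        · show aeval (J K 1) X = algebraMap (modularFunctionFieldFullC K p) (LaurentSeries K)
            (algebraMap v.toValuationSubring (modularFunctionFieldFullC K p) (aeval _ X))
          rw [aeval_X, aeval_X]
          rfl
      rw [h1, hvv] at hroot
      apply (algebraMap (modularFunctionFieldFullC K p) (LaurentSeries K)).injective
      rw [map_zero, ← hroot, ← Polynomial.eval_map]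
      exact (Polynomial.eval_map_apply _ _).symm)
  have h2 := v.ord_coe_unit z
  have h3 : ((z : v.toValuationSubring) : modularFunctionFieldFullC K p) =
    (algebraMap K (modularFunctionFieldFullC K p) (p ^ 12) * ratio K p hp0) ^ p := hz
  rw [h3, ← zpow_natCast, v.ord_zpow, v.ord_mul ((_root_.map_ne_zero _).mpr (pow_ne_zero _ hp0))
    (ratio_ne_zero K p hp0), H94.ord_algebraMap, zero_add] at h2
  rcases mul_eq_zero.mp h2 with h4 | h4
  · exact absurd h4 (by exact_mod_cast hp.ne_zero)
  · exact h4

end Divisor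

end Fermat.Agent.H9
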