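/-
H39Core: residual modularity of level `M₀` from the Gauss reduction of the function attached to an
eigenclass of level `p M₀`, the reduction being considered at an auxiliary level.
-/
import Fermat.Agent.H39Hecke
import Fermat.Agent.H39Span
import Fermat.Agent.H39End
import Fermat.Agent.H18Insep
import Fermat.Agent.H66Degree
import Fermat.Agent.H9Unit
import Fermat.Agent.H88GenusEq
import Fermat.Agent.H62NE

set_option autoImplicit false

noncomputable section

open AlgebraicCurve ModularCurve HahnSeries IntermediateField Fermat.Agent.H61 Fermat.Agent.H28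

namespace Fermat.Agent.H39

local notation "Qb" => AlgebraicClosure ℚ

section Kernel

variable {k : Type*} [Field k] (F : IntermediateField k (LaurentSeries k))

/-- The kernel of `θ` on `F`. -/
def kerTheta : Subfield F where
  carrier := {x | theta (x : LaurentSeries k) = 0}
  zero_mem' := theta_zero
  one_mem' := theta_one
  add_mem' {a b} ha hb := by
    show theta ((a : LaurentSeries k) + (b : LaurentSeries k)) = 0
    rw [theta_add]
    rw [show theta (a : LaurentSeries k) = 0 from ha, show theta (b : LaurentSeries k) = 0 from hb,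
      add_zero]
  neg_mem' {a} ha := by
    show theta (-(a : LaurentSeries k)) = 0
    rw [theta_neg, show theta (a : LaurentSeries k) = 0 from ha, neg_zero]
  mul_mem' {a b} ha hb := by
    show theta ((a : LaurentSeries k) * (b : LaurentSeries k)) = 0
    rw [theta_mul, show theta (a : LaurentSeries k) = 0 from ha,
      show theta (b : LaurentSeries k) = 0 from hb, zero_mul, mul_zero, add_zero]
  inv_mem' a ha := by
    show theta ((a : LaurentSeries k)⁻¹) = 0
    by_cases h0 : (a : LaurentSeries k) = 0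
    · rw [h0, inv_zero, theta_zero]
    · have h1 : theta ((a : LaurentSeries k) * (a : LaurentSeries k)⁻¹) = 0 := by
        rw [mul_inv_cancel₀ h0, theta_one]
      rw [theta_mul, show theta (a : LaurentSeries k) = 0 from ha, zero_mul, zero_add] at h1
      exact (mul_eq_zero.mp h1).resolve_left h0

theorem mem_kerTheta {x : F} : x ∈ kerTheta F ↔ theta (x : LaurentSeries k) = 0 := Iff.rfl

/-- A function killed by `θ` is a `p`-th power. -/
theorem exists_pow_of_theta_eq_zero [PerfectField k] (p : ℕ) [hp : Fact p.Prime] [CharP k p]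
    {j : F} (hj : Transcendental k j) [FiniteDimensional k⟮j⟯ F]
    (hθ : theta (j : LaurentSeries k) ≠ 0) {g : F} (hg : theta (g : LaurentSeries k) = 0) :
    ∃ h : F, h ^ p = g := by
  have : CharP F p := charP_of_injective_algebraMap (algebraMap k F).injective p
  have h1 := H18.finrank_frobenius_range p hj 1
  rw [pow_one] at h1
  have hle : (iterateFrobenius F p 1).fieldRange ≤ kerTheta F := by
    rintro _ ⟨y, rfl⟩
    rw [iterateFrobenius_def, pow_one, mem_kerTheta]
    show theta ((y : LaurentSeries k) ^ p) = 0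
    rw [theta_pow]
    have h3 : ((p : ℕ) : LaurentSeries k) = 0 := by
      have h3 : (HahnSeries.C (p : k) : LaurentSeries k) = (p : LaurentSeries k) := map_natCast _ p
      rw [← h3, CharP.cast_eq_zero, map_zero]
    rw [h3, zero_mul, zero_mul]
  have h2 := Subfield.relfinrank_mul_finrank_top hle
  rw [h1] at h2
  rcases (Nat.dvd_prime hp.out).mp (Dvd.intro _ h2) with h3 | h3
  · rw [Subfield.relfinrank_eq_one_iff] at h3
    obtain ⟨z, hz⟩ := h3 (show g ∈ kerTheta F from hg)
    rw [iterateFrobenius_def, pow_one] at hz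
    exact ⟨z, hz⟩
  · exfalso
    rw [h3] at h2
    have h4 : Module.finrank (kerTheta F) F = 1 :=
      Nat.eq_of_mul_eq_mul_left hp.out.pos (by rw [h2, mul_one])
    have h6 : Function.Surjective (algebraMap (kerTheta F) F) := by
      have := (Algebra.finrank_eq_one_iff_bijective_algebraMap (F := kerTheta F) (E := F)).mp h4
      exact this.2
    obtain ⟨y, hy⟩ := h6 j
    apply hθ
    rw [← hy]
    exact y.2

end Kernel

section Over

/-- A place above with ramification index prime to `p`, if the degree is prime to `p`. -/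
theorem exists_place_over {k : Type*} [Field k] [IsAlgClosed k] {E E' : IntermediateField k (LaurentSeries k)}
    (hle : E ≤ E') [H3RR.IsFF k E] [H3RR.IsFF k E'] {p d : ℕ} (hd : relfinrank E E' = d)
    (hd0 : d ≠ 0) (hpd : ¬ p ∣ d) (w : Place k E) :
    ∃ (w' : Place k E') (e : ℕ), ¬ p ∣ e ∧ 0 < e ∧
      ∀ (f : E) (f' : E'), (f : LaurentSeries k) = f' → w'.ord f' = e * w.ord f := by
  classical
  letI : Algebra E E' := (IntermediateField.inclusion hle).toRingHom.toAlgebra
  haveI : IsScalarTower k E E' := IsScalarTower.of_algebraMap_eq fun x => rfl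
  have hfr : Module.finrank E E' = d := by
    rw [← hd, relfinrank_eq_finrank_of_le hle]
    rfl
  haveI : Module.Finite E E' := Module.finite_of_finrank_pos (by
    rw [hfr]; exact Nat.pos_of_ne_zero hd0)
  haveI : H94.FunField k E' := H3RR.funField_of_isFF
  haveI : HasPrincipalDivisors k E' := H18.hasPrincipalDivisors _ _
  have h1 := H88.sum_ramificationIndex w (w.fiber E') (fun w' => Place.mem_fiber)
  rw [hfr] at h1
  obtain ⟨w', hw', he⟩ : ∃ w' ∈ w.fiber E', ¬ p ∣ w'.ramificationIndex E := by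
    by_contra hcon
    push Not at hcon
    apply hpd
    rw [← h1]
    exact Finset.dvd_sum fun w' hw' => hcon w' hw'
  rw [Place.mem_fiber] at hw'
  refine ⟨w', w'.ramificationIndex E, he, w'.ramificationIndex_pos (F := E), fun f f' hff => ?_⟩
  have h2 := w'.ord_restrict (F := E) f
  rw [hw'] at h2
  rw [← h2]
  congr 1
  exact Subtype.ext hff.symm

end Over

section Ubar

variable {A : ValuationSubring Qb} {k : Type*} [Field k] {π : A →+* k}

theorem deltaL_pow_char (k : Type*) [Field k] (p : ℕ) [Fact p.Prime] [CharP k p] :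
    (deltaL k) ^ p = qExpand k p (deltaL k) := by
  rw [H60.laurent_pow_char p, coeffMap_deltaL]

/-- The reduction of `Δ(pτ)/Δ(τ)` is `Δ^(p-1)`. -/
theorem red_deltaRatio (p : ℕ) [hp : Fact p.Prime] [CharP k p] :
    H38.Mz.Red A π (H9.deltaRatio Qb p) ((deltaL k) ^ (p - 1)) := by
  have h1 := H38.Mz.Red.coe (A := A) (π := π) (qExpand A p (deltaL A) * deltaInvL A)
  have h2 : coeffMap A.subtype (qExpand A p (deltaL A) * deltaInvL A) = H9.deltaRatio Qb p := by
    rw [map_mul, coeffMap_qExpand, coeffMap_deltaL, H66.coeffMap_deltaInvL]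
    rfl
  have h3 : coeffMap π (qExpand A p (deltaL A) * deltaInvL A) = (deltaL k) ^ (p - 1) := by
    rw [map_mul, coeffMap_qExpand, coeffMap_deltaL, H66.coeffMap_deltaInvL, ← deltaL_pow_char,
      H9.deltaInvL_eq]
    obtain ⟨m, hm⟩ : ∃ m, p = m + 1 := ⟨p - 1, by have := hp.out.pos; omega⟩
    rw [hm, Nat.add_sub_cancel, pow_succ, mul_assoc, mul_inv_cancel₀ H9.deltaL_ne_zero, mul_one]
  rwa [h2, h3] at h1

theorem coeff_E2L (k : Type*) [Field k] (n : ℕ) : (E2L k).coeff (n : ℤ) = (e2Z n : k) := by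
  rw [E2L, coeff_toL_nat, E2f, PowerSeries.coeff_mk, e2Z, ArithmeticFunction.sigma_one_apply]
  congr 1
  split_ifs
  · rfl
  · push_cast
    rfl

theorem dl_ubar (k : Type*) [Field k] (p : ℕ) [hp : Fact p.Prime] [CharP k p] :
    dl ((deltaL k) ^ (p - 1)) = -E2L k := by
  rw [dl_pow H9.deltaL_ne_zero]
  have h1 : dl (deltaL k) = E2L k := by
    rw [dl, theta_deltaL, mul_div_assoc, div_self H9.deltaL_ne_zero, mul_one]
  have h2 : (((p - 1 : ℕ) : ℕ) : LaurentSeries k) = -1 := by
    have h3 : (((p - 1 + 1 : ℕ) : ℕ) : LaurentSeries k) = 0 := by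
      rw [Nat.sub_add_cancel hp.out.one_lt.le]
      have h3 : (HahnSeries.C (p : k) : LaurentSeries k) = (p : LaurentSeries k) := map_natCast _ p
      rw [← h3, CharP.cast_eq_zero, map_zero]
    push_cast at h3
    linear_combination h3
  rw [h1, h2, neg_one_mul]

end Ubar

section Core

open Fermat.Agent.H67 Fermat.Agent.H38.Mz

variable {p : ℕ} [hp : Fact p.Prime] {A : ValuationSubring Qb} (hA : A.LiesOverPrime p)

local notation "kA" => IsLocalRing.ResidueField A
local notation "πA" => IsLocalRing.residue A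

include hA in
/-- `Δ^(p-1)` is a function on `X₀(M)` in characteristic `p`. -/
theorem ubar_mem (M : ℕ) [NeZero M] (hpM : ¬ p ∣ M) :
    (deltaL kA) ^ (p - 1) ∈ modularFunctionFieldFullC kA M := by
  haveI : CharP kA p := H60.charP_residue hp.out hA
  haveI : NeZero p := ⟨hp.out.ne_zero⟩
  have h1 : H9.deltaRatio Qb p ∈ FB Qb (M * p) := by
    show _ ∈ laurentBaseChange Qb (modularFunctionFieldFull (M * p))
    rw [laurentBaseChange_full]
    exact H66.full_mono Qb hp.out.ne_zero (NeZero.ne (M * p)) (dvd_mul_left p M)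
      (H9.ratio Qb p (Nat.cast_ne_zero.mpr hp.out.ne_zero)).2
  exact mem_full_of_red hpM hA (f := (⟨H9.deltaRatio Qb p, h1⟩ : FB Qb (M * p)))
    (red_deltaRatio (π := πA) p)

include hA in
/-- **The core statement.** Residual modularity of level `M₀` from the Gauss reduction `ḡ` of the
function of an eigenclass of level `p M₀`, whose divisor (at an auxiliary level `M`) is known
modulo `p` away from the cusps. -/
theorem isResiduallyModularOfLevel_of_gbar {W : WeierstrassCurve ℤ} {M₀ M : ℕ} [NeZero M₀]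
    [NeZero M] (hM₀ : Squarefree M₀) (hdvd : M₀ ∣ M) (hpM : ¬ p ∣ M) {d : ℕ}
    (hd : dedekindPsi M = d * dedekindPsi M₀) (hpd : ¬ p ∣ d)
    {D : Divisor.degZero (K := Qb) (F := FB Qb (M₀ * p))} {u : FB Qb (M₀ * p)} (hu : u ≠ 0)
    (hord : ∀ v : Place Qb (FB Qb (M₀ * p)),
      v.ord u = (p : ℤ) * (D : Divisor Qb (FB Qb (M₀ * p))) v)
    (hT : ∀ (ℓ : ℕ) (hℓ : ℓ.Prime), W.IsGoodPrimeFor ℓ → ¬ ℓ ∣ M₀ → ℓ ≠ p →
      heckeOperatorBar (M₀ * p) ⟨ℓ, hℓ⟩ (Pic0.mk D) =
        W.apOfModel ℓ • (Pic0.mk D : Pic0 Qb (FB Qb (M₀ * p))))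
    {c : Qb} {gb : modularFunctionFieldFullC kA M} (hgb : gb ≠ 0)
    (hred : Red A πA (algebraMap Qb (LaurentSeries Qb) c * (u : LaurentSeries Qb))
      (gb : LaurentSeries kA))
    (hpow : ∀ h : modularFunctionFieldFullC kA M, h ^ p ≠ gb)
    {ub : modularFunctionFieldFullC kA M}
    (hub : (ub : LaurentSeries kA) = (deltaL kA) ^ (p - 1))
    {a b : ℤ} (ha : ¬ (p : ℤ) ∣ a)
    (hdiv : ∀ w : Place kA (modularFunctionFieldFullC kA M), 0 ≤ w.ord (jE kA M) →
      (p : ℤ) ∣ a * w.ord gb + b * w.ord ub)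
    (hE : ∃ ℓ : ℕ, ℓ.Prime ∧ W.IsGoodPrimeFor ℓ ∧ ¬ ℓ ∣ M₀ ∧ ℓ ≠ p ∧
      (W.apOfModel ℓ : ZMod p) ≠ (ℓ : ZMod p) + 1) :
    W.IsResiduallyModularOfLevel p M₀ := by
  classical
  haveI : CharP kA p := H60.charP_residue hp.out hA
  haveI : NeZero p := ⟨hp.out.ne_zero⟩
  haveI : IsAlgClosed kA := H18.isAlgClosed_residueField A
  have hpM₀ : ¬ p ∣ M₀ := fun h => hpM (h.trans hdvd)
  have hdeg₀ : H42.DegLE Qb kA M₀ := H18.degLE_of_not_dvd M₀ hpM₀ A hA
  have hdeg : H42.DegLE Qb kA M := H18.degLE_of_not_dvd M hpM A hA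
  haveI : H94.FunField kA (modularFunctionFieldFullC kA M₀) :=
    H42.funField_right (L := Qb) M₀ hdeg₀
  haveI : H94.FunField kA (modularFunctionFieldFullC kA M) :=
    H42.funField_right (L := Qb) M hdeg
  haveI : H3RR.IsFF kA (modularFunctionFieldFullC kA M₀) := inferInstance
  haveI : H3RR.IsFF kA (modularFunctionFieldFullC kA M) := inferInstance
  have hMk : (M : kA) ≠ 0 := H18.natCast_residueField_ne_zero A hp.out hA hpM
  have hM₀k : (M₀ : kA) ≠ 0 := H18.natCast_residueField_ne_zero A hp.out hA hpM₀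
  -- the function at level `M₀`
  have hc : c ≠ 0 := by
    rintro rfl
    rw [map_zero, zero_mul] at hred
    exact hgb (Subtype.ext (hred.unique Red.zero))
  have hcF : algebraMap Qb (FB Qb (M₀ * p)) c ≠ 0 := (_root_.map_ne_zero _).mpr hc
  have hu' : algebraMap Qb (FB Qb (M₀ * p)) c * u ≠ 0 := mul_ne_zero hcF hu
  have hord' : ∀ v : Place Qb (FB Qb (M₀ * p)), v.ord (algebraMap Qb (FB Qb (M₀ * p)) c * u) =
      (p : ℤ) * (D : Divisor Qb (FB Qb (M₀ * p))) v := by
    intro v
    rw [v.ord_mul hcF hu, H94.ord_algebraMap, zero_add, hord]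
  have hmem : (gb : LaurentSeries kA) ∈ modularFunctionFieldFullC kA M₀ :=
    mem_full_of_red hpM₀ hA (f := algebraMap Qb (FB Qb (M₀ * p)) c * u) hred
  have hgbL : (gb : LaurentSeries kA) ≠ 0 := fun h => hgb (Subtype.ext h)
  set g₀ : modularFunctionFieldFullC kA M₀ := ⟨gb, hmem⟩ with hg₀
  have hg₀0 : g₀ ≠ 0 := fun h => hgbL (congrArg Subtype.val h)
  set u₀ : modularFunctionFieldFullC kA M₀ := ⟨_, ubar_mem hA M₀ hpM₀⟩ with hu₀
  have huL : (deltaL kA) ^ (p - 1) ≠ 0 := pow_ne_zero _ H9.deltaL_ne_zero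
  have hu₀0 : u₀ ≠ 0 := fun h => huL (congrArg Subtype.val h)
  -- the degree
  have hle : modularFunctionFieldFullC kA M₀ ≤ modularFunctionFieldFullC kA M :=
    H66.full_mono kA (NeZero.ne M₀) (NeZero.ne M) hdvd
  have hjle : kA⟮jqModC kA⟯ ≤ modularFunctionFieldFullC kA M₀ := by
    rw [adjoin_simple_le_iff]
    exact jqModC_mem_full kA M₀
  have hrel : relfinrank (modularFunctionFieldFullC kA M₀) (modularFunctionFieldFullC kA M) = d := by
    have h1 := relfinrank_mul_relfinrank hjle hle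
    rw [H66.relfinrank_full kA M₀ hM₀k, H66.relfinrank_full kA M hMk, hd, mul_comm] at h1
    exact Nat.eq_of_mul_eq_mul_right (dedekindPsi_pos M₀) h1
  have hd0 : d ≠ 0 := by
    rintro rfl
    exact hpd (dvd_zero p)
  have hpZ : Prime (p : ℤ) := Nat.prime_iff_prime_int.mp hp.out
  have hdiv₀ : ∀ w : Place kA (modularFunctionFieldFullC kA M₀), 0 ≤ w.ord (jE kA M₀) →
      (p : ℤ) ∣ a * w.ord g₀ + b * w.ord u₀ := by
    intro w hw
    obtain ⟨w', e, hpe, he, h⟩ := exists_place_over hle hrel hd0 hpd w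
    have h1 := h (jE kA M₀) (jE kA M) rfl
    have h2 := h g₀ gb rfl
    have h3 := h u₀ ub hub.symm
    have h4 := hdiv w' (by rw [h1]; positivity)
    rw [h2, h3] at h4
    have h5 : (p : ℤ) ∣ e * (a * w.ord g₀ + b * w.ord u₀) := by
      have : (e : ℤ) * (a * w.ord g₀ + b * w.ord u₀) =
        a * (e * w.ord g₀) + b * (e * w.ord u₀) := by ring
      rw [this]
      exact h4
    rcases hpZ.dvd_or_dvd h5 with h6 | h6
    · exact absurd (Int.natCast_dvd_natCast.mp h6) hpe
    · exact h6
  -- the span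
  set G : modularFunctionFieldFullC kA M₀ := g₀ ^ a * u₀ ^ b with hG
  have hG0 : G ≠ 0 := mul_ne_zero (zpow_ne_zero _ hg₀0) (zpow_ne_zero _ hu₀0)
  obtain ⟨r, bb, lam, hbb, hsum⟩ := exists_span_of_log A πA M₀ IsLocalRing.residue_surjective hdeg₀
    (H88.genusFFEq M₀ hpM₀ A hA) (p := p) hM₀ hG0 (fun w hw => by
      rw [hG, w.ord_mul (zpow_ne_zero _ hg₀0) (zpow_ne_zero _ hu₀0), w.ord_zpow, w.ord_zpow]
      exact hdiv₀ w hw)
  have hdlG : theta (G : LaurentSeries kA) / (G : LaurentSeries kA) =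
      a * dl (gb : LaurentSeries kA) + b * (-E2L kA) := by
    have h1 : (G : LaurentSeries kA) = (gb : LaurentSeries kA) ^ a *
        ((deltaL kA) ^ (p - 1)) ^ b := rfl
    show dl (G : LaurentSeries kA) = _
    rw [h1, dl_mul (zpow_ne_zero _ hgbL) (zpow_ne_zero _ huL), dl_zpow hgbL, dl_zpow huL, dl_ubar]
  rw [hdlG] at hsum
  -- the eigenform
  have haA : (a : kA) ≠ 0 := by
    rw [ne_eq, CharP.intCast_eq_zero_iff kA p]
    exact ha
  refine isResiduallyModularOfLevel_of_V2 bb hbb lam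
    (fun n : ℕ => (dl (gb : LaurentSeries kA)).coeff (n : ℤ)) (a : kA) (-b : kA) haA ?_ ?_ ?_ ?_
  · intro n
    rw [← hsum n, HahnSeries.coeff_add, coeff_intCast_mul, coeff_intCast_mul, HahnSeries.coeff_neg,
      coeff_E2L]
    ring
  · -- nonzero
    by_contra hcon
    push Not at hcon
    have h1 : dl (gb : LaurentSeries kA) = 0 := by
      ext n
      rcases lt_or_ge n 0 with hn | hn
      · rw [coeff_dl_of_neg hn]; rfl
      · lift n to ℕ using hn
        rw [hcon n]; rfl
    have h2 : theta (gb : LaurentSeries kA) = 0 := by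
      rw [dl, div_eq_zero_iff] at h1
      exact h1.resolve_right hgbL
    have hjt : Transcendental kA (jE kA M) := H42.transcendental_jFull kA M
    haveI : FiniteDimensional kA⟮jE kA M⟯ (modularFunctionFieldFullC kA M) :=
      H94.FunField.finiteDimensional hjt
    obtain ⟨h, hh⟩ := exists_pow_of_theta_eq_zero (modularFunctionFieldFullC kA M) p hjt
      (theta_j_ne_zero kA) h2
    exact hpow h hh
  · intro ℓ hℓ hgood hℓM hℓp n
    have hℓN : ¬ ℓ ∣ M₀ * p := by
      intro h
      rcases hℓ.dvd_mul.mp h with h1 | h1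
      · exact hℓM h1
      · exact hℓp ((Nat.prime_dvd_prime_iff_eq hℓ hp.out).mp h1)
    exact heckeCoeffTwo_dl_red (p := p) hℓ hℓN hℓM hℓp hu' hord' (hT ℓ hℓ hgood hℓM hℓp) hgbL
      hred n
  · obtain ⟨ℓ, hℓ, hgood, hℓM, hℓp, hne⟩ := hE
    refine ⟨ℓ, hℓ, hgood, hℓM, hℓp, fun h => hne ?_⟩
    have h1 : ((W.apOfModel ℓ - (ℓ + 1) : ℤ) : kA) = 0 := by
      push_cast
      rw [h, sub_self]
    rw [CharP.intCast_eq_zero_iff kA p, ← ZMod.intCast_zmod_eq_zero_iff_dvd] at h1
    push_cast at h1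
    exact sub_eq_zero.mp h1

end Core

end Fermat.Agent.H39
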