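import Fermat.Agent.H65InF

/-!
# Letter `F` of the level lowering at primes different from `p`

The level is prime to `p`: the residual representation is flat at `p` and so are the
representations over the Hecke rings of all levels prime to `p`. No condition on the reduction of
the curve at `p`.
-/

set_option autoImplicit false
set_option linter.style.haveILetI false
set_option linter.unusedSectionVars false
set_option linter.unusedVariables false

noncomputable section

open IsLocalRing CuspForm GaloisRep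
open Fermat.Agent.H53 (PData)
open Fermat.Agent.H59 (CoeffChoice)
open Fermat.Agent.H87.Glue (resZ)

namespace Fermat.Agent.H65.C

variable {W : WeierstrassCurve ℤ} (hΔ : W.Δ ≠ 0) {p : ℕ} [hp : Fact p.Prime]

/-- **Flatness**: if `W` is residually modular of a level prime to `p`, the residual representation
is flat at `p`. -/
theorem residual_flat (hp2 : p ≠ 2) (hirr : W.ModRepIsIrreducible p) {M : ℕ} (hM : M ≠ 0)
    (hpM : ¬ p ∣ M) (hmod : W.IsResiduallyModularOfLevel p M)
    (k : Type) [Field k] [Finite k] [Algebra (ZMod p) k] :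
    (GaloisRepAdic.ofResidualGaloisRep ((resZ W hΔ p).baseChange k)).IsFlatAt p := by
  haveI : NeZero M := ⟨hM⟩
  exact (H47.isFlatAt_resZ' W hΔ hp2 H30.statementS30 Fermat.Agent.S32.result
    (H87.Glue.resZ_isIrreducible W hΔ p hirr) hmod).1 hpM k

/-- **Unramifiedness** outside the level. -/
theorem residual_unramified (hp2 : p ≠ 2) (hirr : W.ModRepIsIrreducible p) {M : ℕ} (hM : M ≠ 0)
    (hmod : W.IsResiduallyModularOfLevel p M) {q : ℕ} (hq : q.Prime) (hqM : ¬ q ∣ M)
    (hqp : q ≠ p) : (resZ W hΔ p).IsUnramifiedAt q := by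
  haveI : NeZero M := ⟨hM⟩
  exact (H47.isFlatAt_resZ' W hΔ hp2 H30.statementS30 Fermat.Agent.S32.result
    (H87.Glue.resZ_isIrreducible W hΔ p hirr) hmod).2 q hq hqM hqp

variable {O : Type} [CommRing O] [IsDomain O] [IsDiscreteValuationRing O]
  [IsAdicComplete (maximalIdeal O) O] [CharZero O] [Finite (ResidueField O)]
  [Algebra (ZMod p) (ResidueField O)]

/-- **Letter `F`** in general form: the residual representation is flat. -/
theorem letterF_of_flat
    (b : Module.Basis (Fin 2) (ResidueField O) ((resZ W hΔ p).baseChange (ResidueField O)).V)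
    (hpO : (p : O) ∈ maximalIdeal O) (hp2 : p ≠ 2)
    (hroots : ∀ t d : ℤ, ∃ α β : ResidueField O, α + β = t ∧ α * β = d)
    (hflat : (GaloisRepAdic.ofResidualGaloisRep
      ((resZ W hΔ p).baseChange (ResidueField O))).IsFlatAt p) {inc : Prop} (hinc : ¬ inc) :
    ∃ pd : PData p ((resZ W hΔ p).baseChange (ResidueField O)) b, IsEmpty pd.ε ∧
      ∀ {L : ℕ} [NeZero L] {S : Finset ℕ}, p ∈ S → (∀ q : ℕ, q.Prime → q ∣ L → q ∈ S) →
        ¬ p ^ 2 ∣ L → (p ∣ L ↔ inc) →
        ∀ {θ : heckeAlgebra L 2 (↑S : Set ℕ) →+* ResidueField O}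
          (H : HeckeGaloisRepDatum L (↑S : Set ℕ) O θ (heckeLocal L (↑S : Set ℕ) O θ)),
          H.ρ.residual.IsEquiv (((resZ W hΔ p).baseChange (ResidueField O)).baseChangeAlong
            (ResidueField.map (algebraMap O (heckeLocal L (↑S : Set ℕ) O θ)))) →
            pd.𝒟p H.ρ := by
  refine ⟨H65.InF.pdF hΔ b hp2 hroots hflat, inferInstanceAs (IsEmpty Empty), ?_⟩
  intro L _ S hpS hLS _ hpL θ H _
  exact Fermat.Agent.S32.result hp.out hp2 hpO (fun h => hinc (hpL.mp h)) hpS hLS H

/-- **Letter `F`**, in the form of the hypothesis `hP` of the inner statement of level lowering. -/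
theorem letterF (hp2 : p ≠ 2) (hirr : W.ModRepIsIrreducible p) {T : Finset ℕ} {M : ℕ} (hM : M ≠ 0)
    (hpM : ¬ p ∣ M) (hmod : W.IsResiduallyModularOfLevel p M) :
    ∀ (O : Type) [CommRing O] [IsDomain O] [IsDiscreteValuationRing O]
      [IsAdicComplete (maximalIdeal O) O] [CharZero O] [Finite (ResidueField O)]
      [CharP (ResidueField O) p] [Algebra (ZMod p) (ResidueField O)] (ϖ : O) (a : ℕ) (ζ : O)
      (_ : CoeffChoice p T O ϖ a ζ)
      (b : Module.Basis (Fin 2) (ResidueField O) ((resZ W hΔ p).baseChange (ResidueField O)).V),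
      ∃ pd : PData p ((resZ W hΔ p).baseChange (ResidueField O)) b, IsEmpty pd.ε ∧
        ∀ {L : ℕ} [NeZero L] {S : Finset ℕ}, p ∈ S → (∀ q : ℕ, q.Prime → q ∣ L → q ∈ S) →
          ¬ p ^ 2 ∣ L → (p ∣ L ↔ p ∣ M) →
          ∀ {θ : heckeAlgebra L 2 (↑S : Set ℕ) →+* ResidueField O}
          (H : HeckeGaloisRepDatum L (↑S : Set ℕ) O θ (heckeLocal L (↑S : Set ℕ) O θ)),
          H.ρ.residual.IsEquiv (((resZ W hΔ p).baseChange (ResidueField O)).baseChangeAlong
            (ResidueField.map (algebraMap O (heckeLocal L (↑S : Set ℕ) O θ)))) → pd.𝒟p H.ρ := by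
  intro O _ _ _ _ _ _ _ _ ϖ a ζ hO b
  exact letterF_of_flat hΔ b hO.mem hp2 hO.roots
    (residual_flat hΔ hp2 hirr hM hpM hmod (ResidueField O)) hpM

end Fermat.Agent.H65.C

end
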