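import Mathlib.NumberTheory.FLT.Three
import Mathlib.NumberTheory.FLT.Four
import Fermat.Prelude.Def_FLTPrelim_FreyPackage

/-! Conditional root wiring: `S02`-type and `S03`-type facts imply the `S01`-type fact. -/

set_option autoImplicit false

namespace Fermat.Agent.H1

/-- The root statement from the `S02` and `S03` statements. -/
theorem flt_of_freyPackage
    (h2 : ∀ (a b c : ℤ), a ≠ 0 → b ≠ 0 → c ≠ 0 → ∀ (p : ℕ), p.Prime → 5 ≤ p →
      a ^ p + b ^ p = c ^ p → Nonempty FreyPackage)
    (h3 : FreyPackage → False)
    (n : ℕ) (hn : 3 ≤ n) (a b c : ℕ) (ha : 0 < a) (hb : 0 < b) (hc : 0 < c) :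
    a ^ n + b ^ n ≠ c ^ n := by
  have hFLT : FermatLastTheorem := by
    refine FermatLastTheorem.of_odd_primes ?_
    intro p pp podd
    rcases Nat.lt_or_ge p 5 with h5 | h5
    · have : p = 3 := by
        have h2 := pp.two_le
        interval_cases p
        · exact absurd podd (by decide)
        · rfl
        · exact absurd podd (by decide)
      subst this
      exact fermatLastTheoremThree
    · rw [fermatLastTheoremFor_iff_int]
      intro a b c ha hb hc H
      exact (h2 a b c ha hb hc p pp h5 H).elim h3
  exact hFLT n hn a b c ha.ne' hb.ne' hc.ne'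

end Fermat.Agent.H1
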