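/-
Conditional wiring of the endgame (helper3).  Everything here is kernel-checked with explicit hypotheses: nothing here
is a claim that the hypotheses hold.
-/
import Mathlib
import Fermat.Prelude.Def_FLTPrelim_FreyPackage
import Fermat.Prelude.Def_FLTPrelim_GaloisRep
import Fermat.Prelude.Def_FLTPrelim_Modularity
import Fermat.Prelude.Def_FLTPrelim_ModularRep
import Fermat.Prelude.Def_FLTPrelim_Ramification
import Fermat.Prelude.Def_FLTPrelim_CofixedLine
import Fermat.Prelude.Def_FreyPackage_IsConductorLevel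

set_option autoImplicit false
open WeierstrassCurve WeierstrassCurve.Affine WeierstrassCurve.Affine.Point
open CuspForm ModularFormClass UpperHalfPlane

namespace Fermat.Agent.H3Wiring

/-- S03 from S04, S09, S45, S07. -/
theorem S03_of
    (S04 : ∀ P : FreyPackage, P.freyCurve.IsModular)
    (S09 : ∀ P : FreyPackage, GaloisRepIsIrreducible (K := AlgebraicClosure ℚ) ℚ P.freyCurve P.p)
    (S45 : ∀ (P : FreyPackage) (_ : P.freyCurve.IsModular)
      (_ : GaloisRepIsIrreducible (K := AlgebraicClosure ℚ) ℚ P.freyCurve P.p),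
      ∃ f : CuspForm (CongruenceSubgroup.Gamma0 2) 2, f ≠ 0)
    (S07 : ∀ f : CuspForm (CongruenceSubgroup.Gamma0 2) 2, f = 0)
    (P : FreyPackage) : False := by
  obtain ⟨f, hf⟩ := S45 P (S04 P) (S09 P)
  exact hf (S07 f)

/-- S09 from S10, S11, S12, S13. -/
theorem S09_of
    (S10 : ∀ (P : FreyPackage) (_ : P.p = 5 ∨ P.p = 7 ∨ P.p = 13),
      ¬ HasGaloisStableCofixedLine (K := AlgebraicClosure ℚ) ℚ P.freyCurve P.p)
    (S11 : ∀ (P : FreyPackage) (_ : P.p = 11),
      ¬ HasGaloisStableCofixedLine (K := AlgebraicClosure ℚ) ℚ P.freyCurve P.p)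
    (S12 : ∀ (P : FreyPackage) (_ : 17 ≤ P.p),
      ¬ HasGaloisStableCofixedLine (K := AlgebraicClosure ℚ) ℚ P.freyCurve P.p)
    (S13 : ∀ (P : FreyPackage)
      (_ : ¬ GaloisRepIsIrreducible (K := AlgebraicClosure ℚ) ℚ P.freyCurve P.p),
      HasGaloisStableCofixedLine (K := AlgebraicClosure ℚ) ℚ P.freyCurve P.p)
    (P : FreyPackage) :
    GaloisRepIsIrreducible (K := AlgebraicClosure ℚ) ℚ P.freyCurve P.p := by
  by_contra hred
  have h := S13 P hred
  by_cases h17 : 17 ≤ P.p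
  · exact S12 P h17 h
  · have h5 := P.hp5
    have hp := P.pp
    have hlt : P.p < 17 := not_le.mp h17
    have hcases : P.p = 5 ∨ P.p = 7 ∨ P.p = 11 ∨ P.p = 13 := by
      have key : ∀ n : ℕ, n < 17 → 5 ≤ n → n.Prime → n = 5 ∨ n = 7 ∨ n = 11 ∨ n = 13 := by
        decide
      exact key _ hlt h5 hp
    rcases hcases with h' | h' | h' | h'
    · exact S10 P (Or.inl h') h
    · exact S10 P (Or.inr (Or.inl h')) h
    · exact S11 P h' h
    · exact S10 P (Or.inr (Or.inr h')) h

/-- A nonzero form of weight 2 on `Γ₀(1)` gives a nonzero form on `Γ₀(2)`; here we only use S08. -/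
theorem S45_of
    (S05 : ∀ (P : FreyPackage) {q : ℕ} (_ : q.Prime) (_ : q ≠ 2) (_ : q ≠ P.p),
      P.GaloisRepUnramifiedAt q)
    (S06 : ∀ (P : FreyPackage), ∃ N : ℕ, P.IsConductorLevel N ∧ P.ModularRepOfLevel N)
    (S43 : ∀ (P : FreyPackage) {N q : ℕ} (_ : P.IsConductorLevel N) (_ : q.Prime) (_ : q ≠ 2)
      (_ : q ≠ P.p) (_ : q ∣ N)
      (_ : GaloisRepIsIrreducible (K := AlgebraicClosure ℚ) ℚ P.freyCurve P.p)
      (_ : P.ModularRepOfLevel N) (_ : P.GaloisRepUnramifiedAt q),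
      ∃ M : ℕ, M ∣ N ∧ ¬ q ∣ M ∧ P.ModularRepOfLevel M)
    (S44 : ∀ (P : FreyPackage) {N : ℕ} (_ : P.IsConductorLevel N) (_ : P.p ∣ N)
      (_ : GaloisRepIsIrreducible (K := AlgebraicClosure ℚ) ℚ P.freyCurve P.p)
      (_ : P.ModularRepOfLevel N), ∃ M : ℕ, M ∣ N ∧ ¬ P.p ∣ M ∧ P.ModularRepOfLevel M)
    (S08 : ∀ f : CuspForm (CongruenceSubgroup.Gamma0 1) 2, f = 0)
    (P : FreyPackage) (_hmod : P.freyCurve.IsModular)
    (hirr : GaloisRepIsIrreducible (K := AlgebraicClosure ℚ) ℚ P.freyCurve P.p) :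
    ∃ f : CuspForm (CongruenceSubgroup.Gamma0 2) 2, f ≠ 0 := by
  -- descend to a level dividing 2
  have key : ∀ n : ℕ, ∀ N : ℕ, N ≤ n → P.IsConductorLevel N → P.ModularRepOfLevel N →
      ∃ M : ℕ, M ∣ 2 ∧ P.ModularRepOfLevel M := by
    intro n
    induction n with
    | zero =>
      intro N hN hc _
      exact absurd hc.pos (by omega)
    | succ n ih =>
      intro N hN hc hm
      by_cases hex : ∃ q : ℕ, q.Prime ∧ q ≠ 2 ∧ q ∣ N
      · obtain ⟨q, hq, hq2, hqN⟩ := hex
        have hstep : ∃ M : ℕ, M ∣ N ∧ ¬ q ∣ M ∧ P.ModularRepOfLevel M := by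
          by_cases hqp : q = P.p
          · subst hqp
            exact S44 P hc hqN hirr hm
          · exact S43 P hc hq hq2 hqp hqN hirr hm (S05 P hq hq2 hqp)
        obtain ⟨M, hMN, hqM, hMm⟩ := hstep
        have hMpos : 0 < M := Nat.pos_of_dvd_of_pos hMN hc.pos
        have hMne : M ≠ N := fun h => hqM (h ▸ hqN)
        have hMlt : M < N := lt_of_le_of_ne (Nat.le_of_dvd hc.pos hMN) hMne
        exact ih M (by omega) (hc.of_dvd hMN hMpos) hMm
      · push Not at hex
        refine ⟨N, ?_, hm⟩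
        have hsq := hc.squarefree
        have h2 : ∀ q : ℕ, q.Prime → q ∣ N → q = 2 := by
          intro q hq hqN
          by_contra hne
          exact hex q hq hne hqN
        have hN0 : N ≠ 0 := hc.pos.ne'
        rw [← Nat.prod_primeFactors_of_squarefree hsq]
        have hsub : N.primeFactors ⊆ {2} := by
          intro q hq
          rw [Finset.mem_singleton]
          exact h2 q (Nat.prime_of_mem_primeFactors hq) (Nat.dvd_of_mem_primeFactors hq)
        calc (∏ p ∈ N.primeFactors, p) ∣ ∏ p ∈ ({2} : Finset ℕ), p :=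
              Finset.prod_dvd_prod_of_subset _ _ _ hsub
          _ = 2 := by simp
  obtain ⟨N, hc, hm⟩ := S06 P
  obtain ⟨M, hM2, f, W, 𝔪, hf, -⟩ := key N N le_rfl hc hm
  have hne : f ≠ 0 := hf.ne_zero
  rcases (Nat.dvd_prime Nat.prime_two).mp hM2 with rfl | rfl
  · exact absurd (S08 f) hne
  · exact ⟨f, hne⟩

end Fermat.Agent.H3Wiring
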