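import Fermat.Statements.S02

set_option autoImplicit false
open FreyPackage

namespace Fermat.Agent.S02

/-- base case: normalised solution with `a ≡ 3 mod 4`, `b` even. -/
theorem of_normalised (a b c : ℤ) (ha : a ≠ 0) (hb : b ≠ 0) (hc : c ≠ 0) (p : ℕ)
    (pp : p.Prime) (hp5 : 5 ≤ p) (H : a ^ p + b ^ p = c ^ p) (hgcd : gcd a b = 1)
    (ha4 : a % 4 = 3) (hb2 : b % 2 = 0) : Nonempty FreyPackage := by
  refine ⟨⟨a, b, c, ha, hb, hc, p, pp, hp5, H, hgcd, ?_, ?_⟩⟩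
  · have h : ((a : ℤ) : ZMod 4) = ((3 : ℤ) : ZMod 4) := by
      rw [ZMod.intCast_eq_intCast_iff]
      exact ha4
    simpa using h
  · rw [ZMod.intCast_zmod_eq_zero_iff_dvd]
    exact Int.dvd_of_emod_eq_zero hb2

theorem of_b_even (a b c : ℤ) (ha : a ≠ 0) (hb : b ≠ 0) (hc : c ≠ 0) (p : ℕ)
    (pp : p.Prime) (hp5 : 5 ≤ p) (H : a ^ p + b ^ p = c ^ p) (hgcd : gcd a b = 1)
    (hb2 : b % 2 = 0) : Nonempty FreyPackage := by
  have hodd : Odd p := pp.odd_of_ne_two (by omega)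
  have ha2 : a % 2 ≠ 0 := by
    intro h
    have h1 : (2 : ℤ) ∣ gcd a b :=
      dvd_gcd (Int.dvd_of_emod_eq_zero h) (Int.dvd_of_emod_eq_zero hb2)
    rw [hgcd] at h1
    omega
  have h4 : a % 4 = 1 ∨ a % 4 = 3 := by omega
  rcases h4 with h4 | h4
  · refine of_normalised (-a) (-b) (-c) (neg_ne_zero.2 ha) (neg_ne_zero.2 hb)
      (neg_ne_zero.2 hc) p pp hp5 ?_ ?_ (by omega) (by omega)
    · rw [hodd.neg_pow, hodd.neg_pow, hodd.neg_pow, ← H]
      ring
    · rw [← Int.coe_gcd] at hgcd ⊢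
      rw [Int.neg_gcd, Int.gcd_neg]
      exact hgcd
  · exact of_normalised a b c ha hb hc p pp hp5 H hgcd h4 hb2

theorem of_coprime (a b c : ℤ) (ha : a ≠ 0) (hb : b ≠ 0) (hc : c ≠ 0) (p : ℕ)
    (pp : p.Prime) (hp5 : 5 ≤ p) (H : a ^ p + b ^ p = c ^ p) (hgcd : gcd a b = 1) :
    Nonempty FreyPackage := by
  have hodd : Odd p := pp.odd_of_ne_two (by omega)
  rcases Int.even_or_odd b with hbe | hbo
  · exact of_b_even a b c ha hb hc p pp hp5 H hgcd (Int.even_iff.1 hbe)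
  rcases Int.even_or_odd a with hae | hao
  · refine of_b_even b a c hb ha hc p pp hp5 (by rw [← H]; ring) ?_ (Int.even_iff.1 hae)
    rw [gcd_comm]; exact hgcd
  · -- both odd, so c even
    have hce : Even c := by
      have h1 : Even (c ^ p) := by
        rw [← H]
        exact (hao.pow).add_odd (hbo.pow)
      exact ((Int.even_pow).1 h1).1
    refine of_b_even a (-c) (-b) ha (neg_ne_zero.2 hc) (neg_ne_zero.2 hb) p pp hp5 ?_ ?_ ?_
    · rw [hodd.neg_pow, hodd.neg_pow, ← H]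
      ring
    · have h2 : gcd a c = 1 := by
        rw [← gcdab_eq_gcdac pp.pos H, hgcd]
      have h3 : gcd a (-c) = gcd a c := by
        rw [Int.coe_gcd a (-c) |>.symm, Int.coe_gcd a c |>.symm]
        simp
      rw [h3, h2]
    · have := Int.even_iff.1 hce
      omega

theorem result (a b c : ℤ) (ha : a ≠ 0) (hb : b ≠ 0) (hc : c ≠ 0) (p : ℕ) (pp : p.Prime) (hp5 : 5 ≤ p) (H : a ^ p + b ^ p = c ^ p) : Nonempty FreyPackage := by
  set d : ℤ := gcd a b with hd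
  have hd0 : d ≠ 0 := by
    intro h
    exact ha ((gcd_eq_zero_iff a b).1 (hd ▸ h)).1
  obtain ⟨a', ha'⟩ : d ∣ a := gcd_dvd_left a b
  obtain ⟨b', hb'⟩ : d ∣ b := gcd_dvd_right a b
  have hdc : d ∣ c := by
    rw [← Int.pow_dvd_pow_iff pp.ne_zero, ← H]
    apply dvd_add <;> rw [Int.pow_dvd_pow_iff pp.ne_zero]
    · exact gcd_dvd_left a b
    · exact gcd_dvd_right a b
  obtain ⟨c', hc'⟩ := hdc
  have ha0 : a' ≠ 0 := by rintro rfl; simp at ha'; exact ha ha'
  have hb0 : b' ≠ 0 := by rintro rfl; simp at hb'; exact hb hb'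
  have hc0 : c' ≠ 0 := by rintro rfl; simp at hc'; exact hc hc'
  have H' : a' ^ p + b' ^ p = c' ^ p := by
    have h1 : d ^ p * (a' ^ p + b' ^ p) = d ^ p * c' ^ p := by
      rw [mul_add, ← mul_pow, ← mul_pow, ← mul_pow, ← ha', ← hb', ← hc', H]
    exact mul_left_cancel₀ (pow_ne_zero p hd0) h1
  have hg : gcd a' b' = 1 := by
    have h1 : gcd a b = normalize d * gcd a' b' := by
      conv_lhs => rw [ha', hb']
      exact gcd_mul_left d a' b'
    have h2 : normalize d = d := by rw [hd, normalize_gcd]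
    rw [h2, ← hd] at h1
    have h3 : d * 1 = d * gcd a' b' := by rw [mul_one]; exact h1
    exact (mul_left_cancel₀ hd0 h3).symm
  exact of_coprime a' b' c' ha0 hb0 hc0 p pp hp5 H' hg

end Fermat.Agent.S02
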