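import Fermat.Statements.S07

set_option autoImplicit false
open WeierstrassCurve WeierstrassCurve.Affine WeierstrassCurve.Affine.Point
open CuspForm ModularFormClass UpperHalfPlane
open ModularForm

namespace Fermat.Agent.S07

open scoped MatrixGroups

/-- the relative index of `Γ₀(2)` in `SL(2, ℤ)` is at most `4` -/
theorem relIndex_le :
    ((CongruenceSubgroup.Gamma0 2).map (Matrix.SpecialLinearGroup.mapGL ℝ)).relIndex 𝒮ℒ ≤ 4 := by
  have h1 : ((CongruenceSubgroup.Gamma0 2).map (Matrix.SpecialLinearGroup.mapGL ℝ)).relIndex 𝒮ℒ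
      = (CongruenceSubgroup.Gamma0 2).index := by
    rw [MonoidHom.range_eq_map, ← Subgroup.relIndex_comap]
    rw [Subgroup.relIndex_top_right]
    congr 1
    exact Subgroup.comap_map_eq_self_of_injective Matrix.SpecialLinearGroup.mapGL_injective _
  rw [h1]
  let ψ : SL(2, ℤ) ⧸ (CongruenceSubgroup.Gamma0 2) → ZMod 2 × ZMod 2 := fun q =>
    (((Quotient.out q : SL(2, ℤ)) 0 0 : ℤ), ((Quotient.out q : SL(2, ℤ)) 1 0 : ℤ))
  have hψ : Function.Injective ψ := by
    intro a b hab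
    rw [← QuotientGroup.out_eq' a, ← QuotientGroup.out_eq' b, QuotientGroup.eq]
    rw [CongruenceSubgroup.Gamma0_mem]
    simp only [ψ, Prod.mk.injEq] at hab
    obtain ⟨h0, h1⟩ := hab
    rw [Matrix.SpecialLinearGroup.coe_mul, Matrix.SpecialLinearGroup.coe_inv,
      Matrix.adjugate_fin_two]
    simp [Matrix.mul_apply, Fin.sum_univ_two]
    rw [h0, h1, mul_comm]
    exact CharTwo.add_self_eq_zero _
  have := Nat.card_le_card_of_injective ψ hψ
  simpa [Subgroup.index] using this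

/-- each `SL(2, ℤ)`-translate of a cusp form vanishes at `i∞`. -/
theorem isZero_quotientFunc {Γ : Subgroup (GL (Fin 2) ℝ)} [Γ.IsArithmetic] {k : ℤ}
    (f : CuspForm Γ k) (q : 𝒮ℒ ⧸ Γ.subgroupOf 𝒮ℒ) :
    IsZeroAtImInfty (SlashInvariantForm.quotientFunc f q) := by
  revert q
  refine Quotient.forall.mpr fun ⟨r, hr⟩ ↦ ?_
  have := (CuspForm.translate f r⁻¹).zero_at_cusps' (c := OnePoint.infty) ?_ 1 (by simp)
  · have h2 : (IsZeroAtImInfty (⇑f ∣[k] r⁻¹)) := by
      have h3 := SlashAction.slash_one (G := GL (Fin 2) ℝ) k (⇑f ∣[k] r⁻¹)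
      rw [← h3]
      exact this
    exact h2
  · have h : IsCusp OnePoint.infty (𝒮ℒ : Subgroup (GL (Fin 2) ℝ)) :=
      isCusp_SL2Z_iff'.mpr ⟨1, by simp⟩
    have := h.of_isFiniteRelIndex_conj (𝒢 := Γ) hr
    simpa using this

theorem result (f : CuspForm (CongruenceSubgroup.Gamma0 2) 2) : f = 0 := by
  have hcard := relIndex_le
  have hcard2 : Nat.card (𝒮ℒ ⧸ ((CongruenceSubgroup.Gamma0 2).map (Matrix.SpecialLinearGroup.mapGL ℝ)).subgroupOf 𝒮ℒ) ≤ 4 := hcard
  suffices hn : ModularForm.norm 𝒮ℒ f = 0 by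
    rw [ModularForm.norm_eq_zero_iff] at hn
    ext z
    exact congrFun hn z
  apply ModularForm.sturm_bound_levelOne
  set k := Nat.card (𝒮ℒ ⧸ ((CongruenceSubgroup.Gamma0 2).map (Matrix.SpecialLinearGroup.mapGL ℝ)).subgroupOf 𝒮ℒ) with hk
  have h0 : (((2 * (k : ℤ)).toNat / 12 : ℕ) : ℕ∞) = 0 := by
    have : (2 * (k : ℤ)).toNat / 12 = 0 := by omega
    rw [this]; rfl
  rw [h0]
  -- the zeroth coefficient vanishes
  have hz : IsZeroAtImInfty (ModularForm.norm 𝒮ℒ f) := by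
    rw [ModularForm.coe_norm]
    unfold IsZeroAtImInfty Filter.ZeroAtFilter
    let := Fintype.ofFinite (𝒮ℒ ⧸ ((CongruenceSubgroup.Gamma0 2).map (Matrix.SpecialLinearGroup.mapGL ℝ)).subgroupOf 𝒮ℒ)
    have h1 : (0 : ℂ) = ∏ q : (𝒮ℒ ⧸ ((CongruenceSubgroup.Gamma0 2).map (Matrix.SpecialLinearGroup.mapGL ℝ)).subgroupOf 𝒮ℒ), 0 := by
      rw [Finset.prod_const, zero_pow]
      exact Finset.card_ne_zero_of_mem (Finset.mem_univ (QuotientGroup.mk 1))
    rw [h1, Finset.prod_fn]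
    exact tendsto_finsetProd _ fun q _ => isZero_quotientFunc f q
  have hc : (qExpansion 1 (ModularForm.norm 𝒮ℒ f)).coeff 0 = 0 := by
    rw [qExpansion_coeff_zero one_pos
    (ModularFormClass.analyticAt_cuspFunction_zero _ one_pos one_mem_strictPeriods_SL)
    (SlashInvariantFormClass.periodic_comp_ofComplex _ one_mem_strictPeriods_SL)]
    exact hz.valueAtInfty_eq_zero
  rw [pos_iff_ne_zero, PowerSeries.order_ne_zero_iff_constCoeff_eq_zero]
  simpa using hc

end Fermat.Agent.S07
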