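import Fermat.Statements.S08
import Fermat.Prelude.Thm_CongruenceSubgroup_one_mem_strictPeriods_Gamma0
import Fermat.Prelude.Thm_ModularForm_sturm_bound_Gamma0

set_option autoImplicit false
open WeierstrassCurve WeierstrassCurve.Affine WeierstrassCurve.Affine.Point
open CuspForm ModularFormClass UpperHalfPlane
open ModularForm

namespace Fermat.Agent.S08

/-- `Γ₀(1)` is all of `SL(2, ℤ)`, so its index is `1`. -/
theorem index_Gamma0_one : (CongruenceSubgroup.Gamma0 1).index = 1 := by
  rw [Subgroup.index_eq_one]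
  ext A
  simp [CongruenceSubgroup.Gamma0_mem, eq_iff_true_of_subsingleton]

theorem result (f : CuspForm (CongruenceSubgroup.Gamma0 1) 2) : f = 0 := by
  have hΓ : (1 : ℝ) ∈ (Subgroup.map (Matrix.SpecialLinearGroup.mapGL ℝ)
      (CongruenceSubgroup.Gamma0 1)).strictPeriods :=
    CongruenceSubgroup.one_mem_strictPeriods_Gamma0 1
  have hmf : (ModularFormClass.modularForm f :
      ModularForm (CongruenceSubgroup.Gamma0 1) 2) = 0 := by
    refine ModularForm.sturm_bound_Gamma0 1 _ fun n hn ↦ ?_
    rw [index_Gamma0_one] at hn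
    have hn0 : n = 0 := by
      have : ((2 : ℤ) * ((1 : ℕ) : ℤ)).toNat / 12 = 0 := by decide
      omega
    subst hn0
    have := CuspFormClass.qExpansion_coeff_zero f one_pos hΓ
    simpa using this
  have hcoe : (⇑f : ℍ → ℂ) = 0 := by
    have := congrArg (fun F : ModularForm (CongruenceSubgroup.Gamma0 1) 2 ↦ (⇑F : ℍ → ℂ)) hmf
    simpa using this
  exact DFunLike.coe_injective (hcoe.trans FunLike.coe_zero.symm)

end Fermat.Agent.S08
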