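import Fermat.Agent.H88LTWire
import Fermat.Agent.H3Wiring
import Fermat.Agent.H1Root
import Fermat.Agent.H6_FreyCurve
import Fermat.Agent.S02
import Fermat.Agent.S05
import Fermat.Agent.S07
import Fermat.Agent.S08
import Fermat.Agent.S10
import Fermat.Agent.S11
import Fermat.Agent.S13
import Fermat.Agent.S51

set_option autoImplicit false

/-!
# The root statement from the remaining inputs

`S01_of`: Fermat's Last Theorem from
* `ResMod3Two` (residual modularity at `3`, even discriminant),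
* `Lifting` (= `S59`), `S12`, `S43`, `S44`.
-/

open WeierstrassCurve WeierstrassCurve.Affine WeierstrassCurve.Affine.Point
open CuspForm ModularFormClass UpperHalfPlane
open Fermat.Agent.H60

namespace Fermat.Agent.H88.LTW

/-- the type of `S12` -/
def T12 : Prop := ∀ (P : FreyPackage) (_ : 17 ≤ P.p),
  ¬ HasGaloisStableCofixedLine (K := AlgebraicClosure ℚ) ℚ P.freyCurve P.p

/-- the type of `S43` -/
def T43 : Prop := ∀ (P : FreyPackage) {N q : ℕ} (_ : P.IsConductorLevel N) (_ : q.Prime)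
  (_ : q ≠ 2) (_ : q ≠ P.p) (_ : q ∣ N)
  (_ : GaloisRepIsIrreducible (K := AlgebraicClosure ℚ) ℚ P.freyCurve P.p)
  (_ : P.ModularRepOfLevel N) (_ : P.GaloisRepUnramifiedAt q),
  ∃ M : ℕ, M ∣ N ∧ ¬ q ∣ M ∧ P.ModularRepOfLevel M

/-- the type of `S44` -/
def T44 : Prop := ∀ (P : FreyPackage) {N : ℕ} (_ : P.IsConductorLevel N) (_ : P.p ∣ N)
  (_ : GaloisRepIsIrreducible (K := AlgebraicClosure ℚ) ℚ P.freyCurve P.p)
  (_ : P.ModularRepOfLevel N), ∃ M : ℕ, M ∣ N ∧ ¬ P.p ∣ M ∧ P.ModularRepOfLevel M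

/-- `S03` from the remaining inputs. -/
theorem S03_of (h50 : ResMod3Two) (h59 : Lifting) (h12 : T12) (h43 : T43) (h44 : T44)
    (P : FreyPackage) : False := by
  have h51 : Irr35 := Fermat.Agent.S51.result
  have h9 := Fermat.Agent.H3Wiring.S09_of Fermat.Agent.S10.result Fermat.Agent.S11.result h12
    Fermat.Agent.S13.result
  have h6 : ∀ P : FreyPackage, ∃ N : ℕ, P.IsConductorLevel N ∧ P.ModularRepOfLevel N := fun P =>
    Fermat.Agent.H6.s06_of_exactConductorLevel P
      (exact_of_two_dvd h50 h51 h59 _ (Fermat.Agent.H4.freyCurveInt_Δ_ne_zero P)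
        (Fermat.Agent.H4.freyCurveInt_isSemistableModel P) (two_dvd_freyCurveInt_Δ P))
  exact Fermat.Agent.H3Wiring.S03_of (S04_of h50 h51 h59) h9
    (fun P => Fermat.Agent.H3Wiring.S45_of Fermat.Agent.S05.result h6 h43 h44
      Fermat.Agent.S08.result P)
    Fermat.Agent.S07.result P

/-- `S01` from the remaining inputs. -/
theorem S01_of (h50 : ResMod3Two) (h59 : Lifting) (h12 : T12) (h43 : T43) (h44 : T44)
    (n : ℕ) (hn : 3 ≤ n) (a b c : ℕ) (ha : 0 < a) (hb : 0 < b) (hc : 0 < c) :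
    a ^ n + b ^ n ≠ c ^ n :=
  Fermat.Agent.H1.flt_of_freyPackage Fermat.Agent.S02.result (S03_of h50 h59 h12 h43 h44)
    n hn a b c ha hb hc

end Fermat.Agent.H88.LTW
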