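/-
H42XRoot: the root statement from `LTEvenSq`, `LiftSq 3`, `LiftSq 5`, S12, S43, S44
(squarefree versions of helper88's `S01_of`).
-/
import Fermat.Agent.H42XFinal
import Fermat.Agent.H88LTRoot

set_option autoImplicit false

open WeierstrassCurve WeierstrassCurve.Affine WeierstrassCurve.Affine.Point
open CuspForm ModularFormClass UpperHalfPlane
open Fermat.Agent.H60 Fermat.Agent.H88.LTW

namespace Fermat.Agent.H42X

theorem frey_exact_of (hE : EvenExact) (P : FreyPackage) :
    Mlc1IsModularModelOfExactConductorLevel P.freyCurveInt :=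
  hE _ (Fermat.Agent.H4.freyCurveInt_Δ_ne_zero P)
    (Fermat.Agent.H4.freyCurveInt_isSemistableModel P) (two_dvd_freyCurveInt_Δ P)

/-- `S04` -/
theorem S04_of_even (hE : EvenExact) (P : FreyPackage) : P.freyCurve.IsModular := by
  rw [← Fermat.Agent.H4.freyCurveInt_map]
  exact isModular_of_exact (frey_exact_of hE P)

/-- `S06` -/
theorem S06_of_even (hE : EvenExact) (P : FreyPackage) :
    ∃ N : ℕ, P.IsConductorLevel N ∧ P.ModularRepOfLevel N :=
  Fermat.Agent.H6.s06_of_exactConductorLevel P (frey_exact_of hE P)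

/-- `S09` from `S12` -/
theorem S09_of (h12 : T12) (P : FreyPackage) :
    GaloisRepIsIrreducible (K := AlgebraicClosure ℚ) ℚ P.freyCurve P.p :=
  Fermat.Agent.H3Wiring.S09_of Fermat.Agent.S10.result Fermat.Agent.S11.result h12
    Fermat.Agent.S13.result P

/-- `S03` -/
theorem S03_of_even (hE : EvenExact) (h12 : T12) (h43 : T43) (h44 : T44)
    (P : FreyPackage) : False :=
  Fermat.Agent.H3Wiring.S03_of (S04_of_even hE) (S09_of h12)
    (fun P => Fermat.Agent.H3Wiring.S45_of Fermat.Agent.S05.result (S06_of_even hE) h43 h44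
      Fermat.Agent.S08.result P)
    Fermat.Agent.S07.result P

/-- `S01` -/
theorem S01_of_even (hE : EvenExact) (h12 : T12) (h43 : T43) (h44 : T44)
    (n : ℕ) (hn : 3 ≤ n) (a b c : ℕ) (ha : 0 < a) (hb : 0 < b) (hc : 0 < c) :
    a ^ n + b ^ n ≠ c ^ n :=
  Fermat.Agent.H1.flt_of_freyPackage Fermat.Agent.S02.result (S03_of_even hE h12 h43 h44)
    n hn a b c ha hb hc

/-- **`S01`** from the exact remaining inputs. -/
theorem S01_of_sq (hLT : LTEvenSq) (h3 : LiftSq 3) (h5 : LiftSq 5) (h12 : T12) (h43 : T43)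
    (h44 : T44) (n : ℕ) (hn : 3 ≤ n) (a b c : ℕ) (ha : 0 < a) (hb : 0 < b) (hc : 0 < c) :
    a ^ n + b ^ n ≠ c ^ n :=
  S01_of_even (evenExact_of hLT h3 h5) h12 h43 h44 n hn a b c ha hb hc

end Fermat.Agent.H42X
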