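import Fermat.Prelude.Def_WeierstrassCurve_Mlc1RowStatement
import Mathlib

/-!
# `S59` verbatim from its squarefree version

Statement-level glue: `S59` follows from

* `S59sq`: squarefree level, prime to `p` if the curve is good at `p`;
* `Car p`: mod `p` lowering `q² → q` (Carayol);
* `LowerP p`: lowering at `p` (Mazur-Ribet) for a curve good at `p`.
-/

set_option autoImplicit false

open WeierstrassCurve

namespace Fermat.Agent.H52.S59

/-- the squarefree version of `S59` -/
def S59sq : Prop :=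
  ∀ (p : ℕ), (p = 3 ∨ p = 5) →
    ∀ W : WeierstrassCurve ℤ, W.Δ ≠ 0 → W.IsSemistableModel → W.ModRepIsIrreducible p →
    ∀ (M₀ : ℕ), Squarefree M₀ → (W.IsGoodPrimeFor p → ¬ p ∣ M₀) →
      W.IsResiduallyModularOfLevel p M₀ → Mlc1IsModularModelOfExactConductorLevel W

/-- Carayol's lowering `q² → q` modulo `p` for a semistable curve -/
def Car (p : ℕ) : Prop :=
  ∀ W : WeierstrassCurve ℤ, W.Δ ≠ 0 → W.IsSemistableModel → W.ModRepIsIrreducible p →
    ∀ M q : ℕ, 0 < M → q.Prime → q ≠ p → ¬ q ∣ M → ¬ p ^ 2 ∣ M →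
      (∀ r : ℕ, r.Prime → ¬ r ^ 3 ∣ M) →
      W.IsResiduallyModularOfLevel p (M * q ^ 2) → W.IsResiduallyModularOfLevel p (M * q)

/-- Mazur-Ribet at `p` for a curve with good reduction at `p` -/
def LowerP (p : ℕ) : Prop :=
  ∀ W : WeierstrassCurve ℤ, W.Δ ≠ 0 → W.IsSemistableModel → W.ModRepIsIrreducible p →
    W.IsGoodPrimeFor p → ∀ M : ℕ, Squarefree M → ¬ p ∣ M →
      W.IsResiduallyModularOfLevel p (M * p) → W.IsResiduallyModularOfLevel p M

theorem s59_of (h : S59sq) (hcar : ∀ p, p = 3 ∨ p = 5 → Car p)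
    (hlow : ∀ p, p = 3 ∨ p = 5 → LowerP p)
    (p : ℕ) (hp : p = 3 ∨ p = 5)
    (W : WeierstrassCurve ℤ) (hΔ : W.Δ ≠ 0) (hW : W.IsSemistableModel)
    (hirr : W.ModRepIsIrreducible p)
    (M₀ : ℕ) [NeZero M₀] (hres₀ : W.IsResiduallyModularOfLevel p M₀)
    (hM₀ : ¬ p ^ 2 ∣ M₀)
    (hM₀3 : ∀ q : ℕ, q.Prime → q ≠ p → ¬ q ^ 3 ∣ M₀) :
    Mlc1IsModularModelOfExactConductorLevel W := by
  have hM0 : 0 < M₀ := NeZero.pos M₀
  have hpp : p.Prime := by rcases hp with rfl | rfl <;> norm_num
  clear ‹NeZero M₀›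
  induction M₀ using Nat.strong_induction_on with
  | _ M₀ ih =>
    by_cases hsq : Squarefree M₀
    · by_cases hg : W.IsGoodPrimeFor p ∧ p ∣ M₀
      · obtain ⟨hg, M, rfl⟩ := hg
        have hpM : ¬ p ∣ M := by
          intro hd
          exact hM₀ (by rw [pow_two]; exact mul_dvd_mul_left p hd)
        have hMsq : Squarefree M := hsq.squarefree_of_dvd (Dvd.intro_left p rfl)
        exact h p hp W hΔ hW hirr M hMsq (fun _ => hpM)
          (hlow p hp W hΔ hW hirr hg M hMsq hpM (by rw [mul_comm]; exact hres₀))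
      · exact h p hp W hΔ hW hirr M₀ hsq (fun h1 h2 => hg ⟨h1, h2⟩) hres₀
    · -- a square factor
      obtain ⟨q, hq, hqM⟩ : ∃ q : ℕ, q.Prime ∧ q * q ∣ M₀ := by
        by_contra hc
        push Not at hc
        exact hsq (Nat.squarefree_iff_prime_squarefree.mpr hc)
      have hqp : q ≠ p := by
        rintro rfl
        exact hM₀ (by rw [pow_two]; exact hqM)
      obtain ⟨M, rfl⟩ := hqM
      have hMpos : 0 < M := by
        rcases Nat.eq_zero_or_pos M with h0 | h0
        · subst h0; simp at hM0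
        · exact h0
      have hqM : ¬ q ∣ M := by
        intro hd
        apply hM₀3 q hq hqp
        have : q ^ 3 = q * q * q := by ring
        rw [this]; exact mul_dvd_mul_left _ hd
      have hlev : q * q * M = M * q ^ 2 := by ring
      have hlt : M * q < q * q * M := by
        have h2 : 1 < q := hq.one_lt
        have : M * q * 1 < M * q * q := Nat.mul_lt_mul_of_pos_left h2 (Nat.mul_pos hMpos hq.pos)
        calc M * q = M * q * 1 := by ring
          _ < M * q * q := this
          _ = q * q * M := by ring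
      have hdvd : M * q ∣ q * q * M := ⟨q, by ring⟩
      have hdvd' : M ∣ q * q * M := ⟨q * q, by ring⟩
      refine ih (M * q) hlt ?_ (fun hd => hM₀ (hd.trans hdvd))
        (fun r hr hrp hd => hM₀3 r hr hrp (hd.trans hdvd)) (Nat.mul_pos hMpos hq.pos)
      refine hcar p hp W hΔ hW hirr M q hMpos hq hqp hqM (fun hd => hM₀ (hd.trans hdvd')) ?_
        (by rw [← hlev]; exact hres₀)
      intro r hr hd
      by_cases hrp : r = p
      · subst hrp
        exact hM₀ (((pow_dvd_pow r (by norm_num : 2 ≤ 3)).trans hd).trans hdvd')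
      · exact hM₀3 r hr hrp (hd.trans hdvd')

end Fermat.Agent.H52.S59
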