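/-
H42XClose: the final wiring in the language of the project outputs:
`H49.LTF.LTA` (output of LT-MOD2) and `H52.S59.S59sq` (modularity lifting, squarefree levels).
-/
import Fermat.Agent.H42XRoot
import Fermat.Agent.H49LTFinal
import Fermat.Agent.H52S59

set_option autoImplicit false

open WeierstrassCurve WeierstrassCurve.Affine WeierstrassCurve.Affine.Point
open CuspForm ModularFormClass UpperHalfPlane

namespace Fermat.Agent.H42X

theorem ltEvenSq_of (h : H49.LTF.LTA) : LTEvenSq := by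
  intro W hΔ hW h2 _
  obtain ⟨M, hM, hsq, h3, -, hres⟩ := h W hΔ hW h2
  exact ⟨M, hM, hsq, h3, hres⟩

theorem liftSq_of (h : H52.S59.S59sq) {p : ℕ} (hp : p = 3 ∨ p = 5) : LiftSq p := by
  intro W hΔ hW hirr M₀ _ hsq hres hgood
  exact h p hp W hΔ hW hirr M₀ hsq hgood hres

theorem evenExact_close (hA : H49.LTF.LTA) (hS : H52.S59.S59sq) : EvenExact :=
  evenExact_of (ltEvenSq_of hA) (liftSq_of hS (Or.inl rfl)) (liftSq_of hS (Or.inr rfl))

/-- all semistable curves are modular of exact level: S58-S60 -/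
theorem exact_close (hA : H49.LTF.LTA) (hS : H52.S59.S59sq)
    (W : WeierstrassCurve ℤ) (hΔ : W.Δ ≠ 0) (hW : W.IsSemistableModel) :
    Mlc1IsModularModelOfExactConductorLevel W :=
  exact_final (ltEvenSq_of hA) (liftSq_of hS (Or.inl rfl)) (liftSq_of hS (Or.inr rfl)) W hΔ hW

theorem S01_close (hA : H49.LTF.LTA) (hS : H52.S59.S59sq) (h12 : H88.LTW.T12)
    (h43 : H88.LTW.T43) (h44 : H88.LTW.T44)
    (n : ℕ) (hn : 3 ≤ n) (a b c : ℕ) (ha : 0 < a) (hb : 0 < b) (hc : 0 < c) :
    a ^ n + b ^ n ≠ c ^ n :=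
  S01_of_even (evenExact_close hA hS) h12 h43 h44 n hn a b c ha hb hc

end Fermat.Agent.H42X
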