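/-
The full endgame of modularity lifting: `no_full_levels`.
-/
import Fermat.Agent.H57FullLevel

set_option autoImplicit false
set_option linter.style.haveILetI false
set_option linter.unusedSectionVars false

namespace Fermat.Agent.H57.Full

open IsLocalRing Fermat.Agent.H57 Fermat.Agent.H57.Tame Fermat.Agent.H57.NM
  Fermat.Agent.H69.KP Fermat.Agent.H69.EG

attribute [local instance] RPart.instCommRing RPart.instLocal RPart.instAlgebra
attribute [local instance] FullLevel.instAddCommGroup FullLevel.instModule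

section Main

variable {O : Type} [CommRing O] [IsDomain O] [IsDiscreteValuationRing O]
  [IsAdicComplete (maximalIdeal O) O] [Finite (ResidueField O)]

/-- **No levels**, case of trivial quadratic characters. -/
theorem no_full_levels_one {ϖ c' : O} (hϖ : maximalIdeal O = Ideal.span {ϖ}) (hc' : c' ≠ 0)
    {p k D m s : ℕ} (hpO : (p : O) ∈ maximalIdeal O) (h2 : IsUnit (2 : O))
    {T : Type} [Finite T]
    {q : T → ℕ} (hq0 : ∀ t, 1 ≤ q t) (hq : ∀ t, (q t : O) - 1 ∈ maximalIdeal O)
    (hq1 : ∀ t, (q t : O) ≠ 1)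
    {Z : T → Finset Oˣ} (hZ1 : ∀ t, ∀ ζ ∈ Z t, ζ ≠ 1) (hZ2 : ∀ t, ∀ ζ ∈ Z t, ζ ^ (q t - 1) = 1)
    (hZ3 : ∀ t, ∀ ζ ∈ Z t, (ζ : O) - 1 ∈ maximalIdeal O)
    {cb : Fin s → O} (hcb : ∀ i, cb i ≠ 0)
    (L : ∀ n, Nonempty (FullLevel O ϖ c' p (3 * Nat.card T + (s + k)) n D m s (BRing2 O T s k)
      (xVar O s k) (yVar O T k) q (fun _ => 1) Z cb)) : False := by
  classical
  cases nonempty_fintype T
  set r := 3 * Nat.card T + (s + k) with hr
  set B := BRing2 O T s k with hBdef
  haveI hBc : IsAdicComplete (maximalIdeal B) B := isAdicComplete_mv _ _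
  haveI hBf : Finite (ResidueField B) :=
    Fermat.Agent.H57.finite_residueField_mvPowerSeries O _
  have hCB : ∀ x : O, algebraMap O B x = MvPowerSeries.C x := fun _ => rfl
  have hOB : ∀ x ∈ maximalIdeal O, algebraMap O B x ∈ maximalIdeal B := by
    intro x hx
    rw [hCB]
    exact mv_C_mem hx
  let X : T → Fin 6 → B := xVar O s k
  let Y : Fin s → Fin 3 → B := yVar O T k
  have hX : ∀ t j, X t j ∈ maximalIdeal B := fun t j => mv_X_mem _
  have h2B : IsUnit (2 : B) := by
    have := h2.map (algebraMap O B)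
    rwa [map_ofNat] at this
  have h4B : IsUnit (4 : B) := by
    have := h2B.mul h2B
    norm_num at this
    exact this
  -- the choice of `κ`
  obtain ⟨h2i, hh2i⟩ := h2.exists_right_inv
  let κ : Oˣ → O := fun ζ => h2i * ((ζ : O) - (ζ⁻¹ : Oˣ))
  have hκ : ∀ ζ : Oˣ, 2 * κ ζ = (ζ : O) - (ζ⁻¹ : Oˣ) := fun ζ => by
    change 2 * (h2i * ((ζ : O) - (ζ⁻¹ : Oˣ))) = _
    rw [← mul_assoc, hh2i, one_mul]
  have hκ0 : ∀ t, ∀ ζ ∈ Z t, (ζ : O) ≠ (ζ⁻¹ : Oˣ) := by
    intro t ζ hζ h
    have h3 : (ζ : O) * ζ = 1 := by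
      nth_rewrite 2 [h]
      exact ζ.mul_inv
    have h4 : ((ζ : O) - 1) * ((ζ : O) + 1) = 0 := by linear_combination h3
    have h5 : IsUnit ((ζ : O) + 1) := by
      by_contra hu
      have h6 : (ζ : O) + 1 ∈ maximalIdeal O := hu
      have h7 : (2 : O) ∈ maximalIdeal O := by
        have h8 : (2 : O) = ((ζ : O) + 1) - ((ζ : O) - 1) := by ring
        rw [h8]
        exact sub_mem h6 (hZ3 t ζ hζ)
      exact h7 h2
    have h9 := (h5.mul_left_eq_zero).mp h4
    exact hZ1 t ζ hζ (Units.ext (sub_eq_zero.mp h9))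
  have hκm : ∀ t, ∀ ζ ∈ Z t, κ ζ ∈ maximalIdeal O := by
    intro t ζ hζ
    refine Ideal.mul_mem_left _ _ ?_
    have h3 : (ζ : O) - (ζ⁻¹ : Oˣ) = ((ζ : O) - 1) + (ζ⁻¹ : Oˣ) * ((ζ : O) - 1) := by
      have h4 : ((ζ⁻¹ : Oˣ) : O) * ζ = 1 := ζ.inv_mul
      linear_combination -h4
    rw [h3]
    exact add_mem (hZ3 t ζ hζ) (Ideal.mul_mem_left _ _ (hZ3 t ζ hζ))
  -- the choice of `η`
  let η : T → O := fun t => h2i * ((q t : O) - 1)
  have hqη : ∀ t, (q t : O) = 1 + 2 * η t := fun t => by
    change (q t : O) = 1 + 2 * (h2i * ((q t : O) - 1))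
    rw [← mul_assoc, hh2i, one_mul]
    ring
  have hη0 : ∀ t, η t ≠ 0 := by
    intro t h
    apply hq1 t
    rw [hqη t, h, mul_zero, add_zero]
  have hηm : ∀ t, η t ∈ maximalIdeal O := fun t => Ideal.mul_mem_left _ _ (hq t)
  have hqu : ∀ t, (q t : O) ≠ 0 := by
    intro t h
    have h3 := hq t
    rw [h, zero_sub] at h3
    exact (Ideal.ne_top_iff_one _).mp (maximalIdeal.isMaximal O).ne_top
      ((Ideal.neg_mem_iff _).mp h3)
  have hq1u : ∀ t, 1 + (q t : O) ≠ 0 := by
    intro t h
    have h3 : (2 : O) ∈ maximalIdeal O := by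
      have h8 : (2 : O) = (1 + (q t : O)) - ((q t : O) - 1) := by ring
      rw [h8, h]
      exact sub_mem (Ideal.zero_mem _) (hq t)
    exact h3 h2
  -- the square roots
  have hs : ∀ t, ∃ s : B, s ^ 2 = 1 + (X t 0 ^ 2 + X t 1 * X t 2) ∧ s - 1 ∈ maximalIdeal B := by
    intro t
    refine exists_sqrt h2B isUnit_one ?_
    have h3 : (1 : B) ^ 2 - (1 + (X t 0 ^ 2 + X t 1 * X t 2)) =
      -(X t 0 * X t 0 + X t 1 * X t 2) := by ring
    rw [h3]
    exact neg_mem (add_mem (Ideal.mul_mem_left _ _ (hX t 0)) (Ideal.mul_mem_left _ _ (hX t 2)))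
  have hc : ∀ t, ∃ c : B, c ^ 2 = q t + (X t 3 ^ 2 + X t 4 * X t 5) ∧
      c - algebraMap O B 1 ∈ maximalIdeal B := by
    intro t
    refine exists_sqrt h2B (isUnit_one.map _) ?_
    have h3 : (algebraMap O B 1) ^ 2 - ((q t : B) + (X t 3 ^ 2 + X t 4 * X t 5)) =
      - algebraMap O B ((q t : O) - 1) -
        (X t 3 * X t 3 + X t 4 * X t 5) := by
      simp only [map_sub, map_natCast, map_one]
      ring
    rw [h3]
    exact sub_mem (neg_mem (hOB _ (hq t)))
      (add_mem (Ideal.mul_mem_left _ _ (hX t 3)) (Ideal.mul_mem_left _ _ (hX t 5)))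
  choose sq hs1 hs2 using hs
  choose cq hc1 hc2 using hc
  have hY : ∀ i j, Y i j ∈ maximalIdeal B := fun i j => mv_X_mem _
  -- the levels and their points
  choose L' hL' using fun n => (⟨(L n).some, trivial⟩ :
    ∃ _ : FullLevel O ϖ c' p r n D m s B (xVar O s k) (yVar O T k) q (fun _ => 1) Z cb, True)
  let x : ℕ → B →+* O := fun n => ((L' n).pt : (L' n).R →+* O).comp ((L' n).β : B →+* (L' n).R)
  have hxC : ∀ n a, x n (algebraMap O B a) = a := by
    intro n a
    change (L' n).pt ((L' n).β (algebraMap O B a)) = a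
    rw [AlgHom.commutes, AlgHom.commutes]
    rfl
  have hxG : ∀ n t i j, x n (gB X q (sq t) (cq t) t i j) = 0 := by
    intro n t i j
    change (L' n).pt ((L' n).β (gB X q (sq t) (cq t) t i j)) = 0
    rw [β_gB (L' n).toRPart h2B isUnit_one (hs1 t) (hs2 t) (hc1 t) (hc2 t), map_zero]
  have hxs : ∀ n t, x n (sq t) = 1 := by
    intro n t
    have h3 := congrArg (L' n).pt (two_mul_β_s (L' n).toRPart h2B (hs1 t) (hs2 t))
    rw [(L' n).pt_uni t, map_mul, map_ofNat] at h3
    exact h2.mul_left_cancel (h3.trans (mul_one 2).symm)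
  have hxloc : ∀ n, maximalIdeal B ≤ (maximalIdeal O).comap (x n) := by
    intro n
    exact le_comap_of_surjective (x n) fun a => ⟨algebraMap O B a, hxC n a⟩
  have hxU : ∀ n t, URel (q t : O) (x n (cq t)) (fun j => x n (X t j)) := fun n t =>
    uRel_of_hom (x n) (hs1 t) (hc1 t) (hxG n t) (hxs n t)
  -- the types of the points
  let σ' : ℕ → T → Typ := fun n t => if x n (X t 0) = 0 ∧ x n (X t 1) = 0 ∧ x n (X t 2) = 0
    then Typ.nr else Typ.st
  have hσ' : ∀ n, compIdeal k η η (σ' n) cb (fun _ => CTyp.su) ≤ RingHom.ker (x n) := by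
    intro n
    rw [compIdeal_le_ker_iff]
    refine ⟨fun t => ?_, fun i => ?_⟩
    · have hη' : x n (MvPowerSeries.C (η t)) = η t := hxC n (η t)
      rw [hη']
      by_cases h : x n (X t 0) = 0 ∧ x n (X t 1) = 0 ∧ x n (X t 2) = 0
      · have h3 : σ' n t = Typ.nr := if_pos h
        rw [h3]
        exact h
      · have h3 : σ' n t = Typ.st := if_neg h
        rw [h3]
        refine URel.st_of_ne (hxU n t) (hqη t) h2.ne_zero (hη0 t) (hqu t) (hq1u t) ?_ h _
        intro h4
        have h5 := hxloc n (hc2 t)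
        rw [Ideal.mem_comap, map_sub, hxC] at h5
        have h6 : (4 : O) ∈ maximalIdeal O := by
          have h8 : (4 : O) = (2 * x n (cq t) + (1 + (q t : O))) - 2 * (x n (cq t) - 1)
            - ((q t : O) - 1) := by ring
          rw [h8, h4]
          exact sub_mem (sub_mem (Ideal.zero_mem _) (Ideal.mul_mem_left _ _ h5)) (hq t)
        have h7 : IsUnit (4 : O) := by
          have := h2.mul h2
          norm_num at this
          exact this
        exact h6 h7
    · exact ⟨(L' n).pt_t i, (L' n).pt_z i⟩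
  have hσc : ∀ n t, σ' n t ≠ Typ.chi := by
    intro n t
    change (if x n (X t 0) = 0 ∧ x n (X t 1) = 0 ∧ x n (X t 2) = 0
      then Typ.nr else Typ.st) ≠ Typ.chi
    split_ifs
    · exact fun h => Typ.noConfusion h
    · exact fun h => Typ.noConfusion h
  -- constant invariants
  obtain ⟨⟨d₀, σ⟩, hconst⟩ := exists_const' (α := (MIdx s → Fin (D + 1)) × (T → Typ))
    fun n => (fun τ => ⟨(L' n).d τ, Nat.lt_succ_of_le ((L' n).d_le τ)⟩, σ' n)
  choose N hN1 hN2 using hconst
  let d : MIdx s → ℕ := fun τ => d₀ τ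
  have hN2a : ∀ n, (L' (N n)).d = d := by
    intro n
    funext τ
    exact congrArg (fun u => (u.1 τ : ℕ)) (hN2 n)
  have hN2c : ∀ n, σ' (N n) = σ := fun n => congrArg (fun u => u.2) (hN2 n)
  have hσc' : ∀ t, σ t ≠ Typ.chi := by
    intro t
    rw [← hN2c 0]
    exact hσc _ t
  have ha₀ : 0 < d .chi := by
    rw [← hN2a 0]
    exact (L' (N 0)).d_pos
  choose F hF1 hF2 hF3 hF4 hF5 hF6 hF7 hF8 using fun n => exists_flevel_full (L' (N n)) (hN2a n)
  -- the limit
  haveI : IsAdicComplete (maximalIdeal (MvPowerSeries (Fin r) O)) (MvPowerSeries (Fin r) O) :=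
    Fermat.Agent.H57.isAdicComplete_mvPowerSeries_fin O r
  haveI : Finite (ResidueField (MvPowerSeries (Fin r) O)) :=
    Fermat.Agent.H57.finite_residueField_mvPowerSeries O (Fin r)
  haveI : IsDomain (MvPowerSeries (Fin r) O) := NoZeroDivisors.to_isDomain _
  let U : Ultrafilter ℕ := Filter.hyperfilter ℕ
  have hU : ∀ k, ∀ᶠ n in (U : Filter ℕ), k ≤ n := fun k =>
    (Filter.eventually_ge_atTop k).filter_mono Nat.hyperfilter_le_atTop
  have hI : ∀ n, twIdeal O (fun j => p ^ (L' (N n)).e j) ≤
      maximalIdeal (MvPowerSeries (Fin r) O) ^ n := fun n =>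
    twIdeal_le_pow hpO (L' (N n)).e (N := n) fun j => (hN1 n).trans ((L' (N n)).le_e j)
  obtain ⟨F', hF'φ, hF'Θ⟩ := exists_free_ulimit (hI := hI) F U hU
  obtain ⟨x', hx'⟩ := exists_point_ulimit U (fun n => x (N n)) (fun n => hxloc (N n))
  choose fB hfB using fun n => (L' (N n)).β_surj (L' (N n)).f
  have hBfin' : ∀ k, Finite (B ⧸ (maximalIdeal B ^ k • ⊤ : Submodule B B)) := fun k => by
    rw [smul_eq_mul, Ideal.mul_top]; exact finite_quot_pow B k
  obtain ⟨f', hf'⟩ := exists_isULim U hBfin' fB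
  -- properties of the limit point
  have hx'σ : compIdeal k η η σ cb (fun _ => CTyp.su) ≤ RingHom.ker x' := by
    intro g hg
    rw [RingHom.mem_ker]
    refine IsULim.unique (hx' (fun _ => g) g (IsULim.const g)) ?_
    have h3 : (fun n => x (N n) g) = fun _ => 0 := by
      funext n
      have h4 := hσ' (N n)
      rw [hN2c] at h4
      exact h4 hg
    simp only [h3]
    exact IsULim.const 0
  have hx'φ : ∀ j, x' (F'.φ (MvPowerSeries.X j)) = 0 := by
    intro j
    refine IsULim.unique (hx' _ _ (hF'φ (MvPowerSeries.X j))) ?_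
    have h3 : (fun n => x (N n) ((F n).φ (MvPowerSeries.X j))) = fun _ => 0 := by
      funext n
      change (L' (N n)).pt ((L' (N n)).β ((F n).φ (MvPowerSeries.X j))) = 0
      rw [hF2, (L' (N n)).pt_φ]
    simp only [h3]
    exact IsULim.const 0
  have hx'f : x' f' ≠ 0 := by
    intro h
    have h3 := hx' _ _ hf'
    rw [h] at h3
    obtain ⟨n, hn⟩ := (h3 m).exists
    rw [sub_zero, smul_eq_mul, Ideal.mul_top, hϖ, Ideal.span_singleton_pow] at hn
    have h4 : x (N n) (fB n) = (L' (N n)).pt (L' (N n)).f := by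
      change (L' (N n)).pt ((L' (N n)).β (fB n)) = _
      rw [hfB]
    exact (L' (N n)).f_pt (h4 ▸ hn)
  -- relations in the limit
  have hφC : ∀ a, F'.φ (MvPowerSeries.C a) = algebraMap O B a := by
    intro a
    refine IsULim.unique (hF'φ _) ?_
    have h3 : (fun n => (F n).φ (MvPowerSeries.C a)) = fun _ => algebraMap O B a := by
      funext n
      exact hF1 n a
    simp only [h3]
    exact IsULim.const _
  have hkill : ∀ (τ : MIdx s) (f : B), (∀ n, MulLe (F n) τ ⊥ f) →
      ∀ y : F'.N τ, f • y = 0 := by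
    intro τ f hf y
    have h3 := mulLe_of_ulimit hI F U hU F' hF'Θ τ ⊥ (IsULim.const f) hf y
    rwa [Ideal.map_bot, Submodule.bot_smul, Submodule.mem_bot] at h3
  have hG : ∀ (τ : MIdx s) t i j (y : F'.N τ), gB X q (sq t) (cq t) t i j • y = 0 := by
    intro τ t i j
    refine hkill τ _ fun n => ?_
    have h3 := β_gB (L' (N n)).toRPart h2B isUnit_one (hs1 t) (hs2 t) (hc1 t) (hc2 t) i j
    exact hF3 n τ _ fun y => by rw [h3, zero_smul]
  have hprod : ∀ t (y : F'.N .chi),
      (∏ ζ ∈ Z t, (4 * (X t 0 ^ 2 + X t 1 * X t 2 - algebraMap O B (κ ζ) ^ 2))) • y = 0 := by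
    intro t
    refine hkill .chi _ fun n => hF3 n .chi _ fun y => ?_
    rw [β_prod (L' (N n)).toRPart Z κ hκ t, mul_smul, (L' (N n)).prod_smul, smul_zero]
  have huni : ∀ i t (y : F'.N (.mod i)), (2 * (sq t - 1)) • y = 0 := by
    intro i t
    refine hkill (.mod i) _ fun n => hF3 n (.mod i) _ fun y => ?_
    have h3 := two_mul_β_s (L' (N n)).toRPart h2B (hs1 t) (hs2 t)
    have h4 : (L' (N n)).β (2 * (sq t - 1)) =
        (L' (N n)).Sg t 0 0 + (L' (N n)).Sg t 1 1 - 2 := by
      rw [map_mul, map_sub, map_one, map_ofNat, mul_sub, h3, mul_one]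
    rw [h4]
    exact (L' (N n)).uni_smul i t y
  have hchi1 : ∀ i (y : F'.N .chi), Y i 1 • y = 0 := fun i =>
    hkill .chi _ fun n => hF3 n .chi _ fun y => ((L' (N n)).chi_nr i y).1
  have hchi2 : ∀ i (y : F'.N .chi), Y i 2 • y = 0 := fun i =>
    hkill .chi _ fun n => hF3 n .chi _ fun y => ((L' (N n)).chi_nr i y).2
  have hnr1 : ∀ (i : Fin (s + 1)) (j : Fin s), (i : ℕ) ≤ j → ∀ y : F'.N (.mod i),
      Y j 1 • y = 0 := fun i j hij =>
    hkill (.mod i) _ fun n => hF3 n (.mod i) _ fun y => ((L' (N n)).mod_nr i j hij y).1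
  have hnr2 : ∀ (i : Fin (s + 1)) (j : Fin s), (i : ℕ) ≤ j → ∀ y : F'.N (.mod i),
      Y j 2 • y = 0 := fun i j hij =>
    hkill (.mod i) _ fun n => hF3 n (.mod i) _ fun y => ((L' (N n)).mod_nr i j hij y).2
  have hun1 : ∀ (i : Fin (s + 1)) (j : Fin s), (j : ℕ) < i → ∀ y : F'.N (.mod i),
      (Y j 1 * Y j 0) • y = 0 := fun i j hij =>
    hkill (.mod i) _ fun n => hF3 n (.mod i) _ fun y => ((L' (N n)).mod_uni i j hij y).1
  have hun2 : ∀ (i : Fin (s + 1)) (j : Fin s), (j : ℕ) < i → ∀ y : F'.N (.mod i),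
      (Y j 2 * (Y j 0 + algebraMap O B (cb j))) • y = 0 := fun i j hij =>
    hkill (.mod i) _ fun n => hF3 n (.mod i) _ fun y => ((L' (N n)).mod_uni i j hij y).2
  have hnew : ∀ (i : Fin s) (y : F'.N (.new i)),
      ((Y i 0 * (Y i 0 + algebraMap O B (cb i))) ^ 2) • y = 0 := fun i =>
    hkill (.new i) _ fun n => hF3 n (.new i) _ fun y => (L' (N n)).new_smul i y
  obtain ⟨eq⟩ := nonempty_equiv_of_ulimit hI F U hU F' hF'Θ .chi (.mod 0)
    (Ideal.span {MvPowerSeries.C ϖ}) hF5
  have hPO : ∀ P : Ideal B, (∀ a, F'.φ a ∈ P → a = 0) →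
      ∀ a : O, algebraMap O B a ∈ P → a = 0 := by
    intro P hPS a ha
    rw [← hφC] at ha
    have h3 := congrArg MvPowerSeries.constantCoeff (hPS _ ha)
    simpa using h3
  have hspan : ∀ (τ : MIdx s) (y : F'.N τ), ∃ cc : Fin (d τ) →
      MvPowerSeries (Fin r) O, y = ∑ i, F'.φ (cc i) • F'.b τ i := F'.b_span
  have hrel : ∀ (τ : MIdx s) (cc : Fin (d τ) → MvPowerSeries (Fin r) O),
      ∑ i, F'.φ (cc i) • F'.b τ i = 0 → ∀ i, cc i = 0 := by
    intro τ cc hcc i
    exact (Submodule.mem_bot _).mp ((F'.b_rel τ cc).mp hcc i)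
  have hfin : ∀ τ, Module.Finite B (F'.N τ) := by
    intro τ
    refine Module.Finite.of_surjective (Fintype.linearCombination B (F'.b τ)) ?_
    intro y
    obtain ⟨cc, hcc⟩ := hspan τ y
    exact ⟨fun i => F'.φ (cc i), by rw [Fintype.linearCombination_apply, hcc]⟩
  have hdim : ((1 + 3 * Nat.card T + (s + k) : ℕ) : WithBot ℕ∞) ≤
      ringKrullDim (MvPowerSeries (Fin r) O) := by
    have h3 := le_ringKrullDim_mvPowerSeries O r
    have h4 : 1 + 3 * Nat.card T + (s + k) = r + 1 := by rw [hr]; ring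
    rw [h4]
    exact h3
  -- unipotent relations modulo a prime
  have hUR : ∀ P : Ideal B, P.IsPrime → (∀ t i j, gB X q (sq t) (cq t) t i j ∈ P) →
      (∀ t, 2 * (sq t - 1) ∈ P) → ∀ t,
        URel (Ideal.Quotient.mk P (MvPowerSeries.C (q t))) (Ideal.Quotient.mk P (cq t))
          (fun j => Ideal.Quotient.mk P (X t j)) ∧
        2 * (Ideal.Quotient.mk P (cq t)) +
          (1 + Ideal.Quotient.mk P (MvPowerSeries.C (q t))) ≠ 0 := by
    intro P hP hGP hsP t
    let π := Ideal.Quotient.mk P
    have h3 : π (sq t) = 1 := by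
      have h4 : sq t - 1 ∈ P := (Ideal.unit_mul_mem_iff_mem P h2B).mp (hsP t)
      rw [← sub_eq_zero, ← map_one π, ← map_sub]
      exact Ideal.Quotient.eq_zero_iff_mem.mpr h4
    refine ⟨?_, ?_⟩
    · have h4 := uRel_of_hom (X := X) π (hs1 t) (hc1 t) (fun i j =>
        Ideal.Quotient.eq_zero_iff_mem.mpr (hGP t i j)) h3
      have h5 : Ideal.Quotient.mk P (MvPowerSeries.C (q t : O)) = ((q t : ℕ) : B ⧸ P) := by
        rw [map_natCast, map_natCast]
      rw [h5]
      exact h4
    · intro h4
      have h5 : 2 * cq t + (1 + (q t : B)) ∈ P := by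
        rw [← Ideal.Quotient.eq_zero_iff_mem, map_add, map_mul, map_add, map_one, map_ofNat]
        have h6 : (MvPowerSeries.C (q t : O) : B) = (q t : B) := map_natCast _ _
        rw [← h6]
        exact h4
      have h7 : 2 * cq t + (1 + (q t : B)) ∈ maximalIdeal B :=
        (IsLocalRing.le_maximalIdeal hP.ne_top) h5
      have h8 : (4 : B) ∈ maximalIdeal B := by
        have h9 : (4 : B) = (2 * cq t + (1 + (q t : B))) - 2 * (cq t - algebraMap O B 1)
          - algebraMap O B ((q t : O) - 1) := by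
          rw [map_sub, map_one, map_natCast]
          ring
        rw [h9]
        exact sub_mem (sub_mem h7 (Ideal.mul_mem_left _ _ (hc2 t))) (hOB _ (hq t))
      exact h8 h4B
  -- constants modulo a prime
  have hconstP : ∀ P : Ideal B, (∀ a : O, algebraMap O B a ∈ P → a = 0) → ∀ t,
      Ideal.Quotient.mk P (MvPowerSeries.C (q t : O)) =
          1 + 2 * Ideal.Quotient.mk P (MvPowerSeries.C (η t)) ∧
      (2 : B ⧸ P) ≠ 0 ∧ Ideal.Quotient.mk P (MvPowerSeries.C (η t)) ≠ 0 ∧
      Ideal.Quotient.mk P (MvPowerSeries.C (q t : O)) ≠ 0 ∧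
      1 + Ideal.Quotient.mk P (MvPowerSeries.C (q t : O)) ≠ 0 := by
    intro P hPO' t
    have hC : ∀ a : O, a ≠ 0 → Ideal.Quotient.mk P (MvPowerSeries.C a) ≠ 0 := by
      intro a ha h
      rw [Ideal.Quotient.eq_zero_iff_mem] at h
      exact ha (hPO' a h)
    have e0 : Ideal.Quotient.mk P (MvPowerSeries.C (2 : O)) = 2 := by
      rw [map_ofNat, map_ofNat]
    refine ⟨?_, ?_, hC _ (hη0 t), hC _ (hqu t), ?_⟩
    · rw [hqη t, map_add, map_one, map_mul, map_add, map_one, map_mul, e0]
    · rw [← e0]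
      exact hC 2 h2.ne_zero
    · have := hC _ (hq1u t)
      rwa [map_add, map_add, map_one, map_one] at this
  -- the types along the chain
  have hη2 : ∀ t, η t + η t ≠ 0 := fun t => by
    rw [← two_mul]; exact mul_ne_zero h2.ne_zero (hη0 t)
  let γ : ℕ → Fin s → CTyp := fun i b => if (b : ℕ) < i then CTyp.su else CTyp.nr
  have hγsm : ∀ i b, γ i b = .sm → cb b ∈ maximalIdeal O := by
    intro i b h
    simp only [γ] at h
    split_ifs at h
  have hγzz : ∀ i b, γ i b ≠ .zz := by
    intro i b h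
    simp only [γ] at h
    split_ifs at h
  have hprime : ∀ i, (compIdeal k η η σ cb (γ i)).IsPrime := fun i =>
    compIdeal_isPrime k hη2 hη2 hηm hηm σ cb (γ i) (hγsm i)
  have hdimc : ∀ i, ringKrullDim (B ⧸ compIdeal k η η σ cb (γ i)) ≤
      ((1 + 3 * Nat.card T + (s + k) : ℕ) : WithBot ℕ∞) := fun i =>
    ringKrullDim_quot_compIdeal_le k hϖ hηm hηm σ cb (γ i) (hγsm i) (hγzz i)
  have key : ∀ (i : ℕ) (hi : i < s + 1) (g : B), (∀ y : F'.N (.mod ⟨i, hi⟩), g • y = 0) →
      g ∈ compIdeal k η η σ cb (γ i) := by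
    intro i
    induction i with
    | zero =>
      intro hi
      change ∀ g : B, (∀ y : F'.N (.mod 0), g • y = 0) → g ∈ compIdeal k η η σ cb (γ 0)
      obtain ⟨θ, hθC, hθx, hθy⟩ := exists_test2 (O := O) (T := T) (s := s) k σ
        (fun _ => CTyp.nr)
      haveI hWd : IsDomain (MvPowerSeries (T ⊕ Fin s) (ResidueField O)) :=
        NoZeroDivisors.to_isDomain _
      refine ann_le_abs F'.φ (N₀ := F'.N .chi) (N₁ := F'.N (.mod 0)) ha₀ (F'.b .chi)
        (hspan .chi) (hrel .chi) (F'.b (.mod 0)) (hspan _) (hrel _) hdim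
        ((Ideal.span {MvPowerSeries.C ϖ}).map F'.φ) eq
        (∏ t, gElt (MvPowerSeries.C (η t)) (X t) (σ t)) ?_ (hprime 0) (hdimc 0) ?_
      · intro P hP hann hPS
        have hPO' := hPO P hPS
        haveI : IsDomain (B ⧸ P) := Ideal.Quotient.isDomain P
        let π := Ideal.Quotient.mk P
        haveI : IsLocalRing (B ⧸ P) :=
          IsLocalRing.of_surjective' π Ideal.Quotient.mk_surjective
        have hπm : ∀ x ∈ maximalIdeal B, π x ∈ maximalIdeal (B ⧸ P) := fun x hx =>
          le_comap_of_surjective π Ideal.Quotient.mk_surjective hx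
        have h2P : IsUnit (2 : B ⧸ P) := by
          have := h2B.map π
          rwa [map_ofNat] at this
        have hζ : ∀ t, ∃ ζ ∈ Z t,
            X t 0 ^ 2 + X t 1 * X t 2 - algebraMap O B (κ ζ) ^ 2 ∈ P := by
          intro t
          have h3 := hann _ (hprod t)
          obtain ⟨ζ, hζ, h4⟩ := (Ideal.IsPrime.prod_mem_iff (hp := hP)).mp h3
          exact ⟨ζ, hζ, (Ideal.unit_mul_mem_iff_mem P h4B).mp h4⟩
        choose ζ hζZ hζP using hζ
        have hκζ0 : ∀ t, κ (ζ t) ≠ 0 := fun t h => hκ0 t _ (hζZ t)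
          (sub_eq_zero.mp (by rw [← hκ, h, mul_zero]))
        have hκζ2 : ∀ t, κ (ζ t) + κ (ζ t) ≠ 0 := fun t => by
          rw [← two_mul]; exact mul_ne_zero h2.ne_zero (hκζ0 t)
        have hκζm : ∀ t, κ (ζ t) ∈ maximalIdeal O := fun t => hκm t _ (hζZ t)
        have hnr : ∀ b : Fin s, (fun _ : Fin s => CTyp.nr) b = .sm → cb b ∈ maximalIdeal O :=
          fun b h => CTyp.noConfusion h
        refine ⟨compIdeal k (fun t => κ (ζ t)) η (fun _ => Typ.chi) cb (fun _ => CTyp.nr),
          compIdeal_isPrime k hκζ2 hη2 hκζm hηm _ cb _ hnr, ?_,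
          ringKrullDim_quot_compIdeal_le k hϖ hκζm hηm _ cb _ hnr
            (fun b h => CTyp.noConfusion h), RingHom.ker θ, RingHom.ker_isPrime θ,
          test_kills_chi hθC hθx hθy hκζm (fun _ => rfl), ?_, ?_⟩
        · have h5 : compIdeal k (fun t => κ (ζ t)) η (fun _ => Typ.chi) cb
              (fun _ => CTyp.nr) ≤ RingHom.ker π := by
            rw [compIdeal_le_ker_iff]
            refine ⟨fun t => ?_, fun b => ⟨?_, ?_⟩⟩
            · refine tRel_chi_of_hom (X := X) π hπm h2P hOB (hq0 t) (hs1 t) (hs2 t)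
                (c := cq t) ?_ (hκ (ζ t)) (hZ2 t _ (hζZ t)) (hZ3 t _ (hζZ t)) ?_ ?_
              · intro i j
                exact Ideal.Quotient.eq_zero_iff_mem.mpr (hann _ (hG .chi t i j))
              · intro h
                rw [Ideal.Quotient.eq_zero_iff_mem] at h
                exact hκ0 t _ (hζZ t) (sub_eq_zero.mp (hPO' _ h))
              · exact Ideal.Quotient.eq_zero_iff_mem.mpr (hζP t)
            · exact Ideal.Quotient.eq_zero_iff_mem.mpr (hann _ (hchi1 b))
            · exact Ideal.Quotient.eq_zero_iff_mem.mpr (hann _ (hchi2 b))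
          rwa [Ideal.mk_ker] at h5
        · rw [Ideal.map_span, Set.image_singleton, hφC, Ideal.span_singleton_le_iff_mem,
            RingHom.mem_ker]
          exact test_C hθC (by rw [hϖ]; exact Ideal.mem_span_singleton_self ϖ)
        · rw [RingHom.mem_ker, map_prod]
          exact Finset.prod_ne_zero_iff.mpr fun t _ => test_gElt hθC hθx hηm t
      · intro P hP hann hPS hgP
        have hPO' := hPO P hPS
        haveI : IsDomain (B ⧸ P) := Ideal.Quotient.isDomain P
        have hUR' := hUR P hP (fun t i j => hann _ (hG (.mod 0) t i j))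
          (fun t => hann _ (huni 0 t))
        have hcP := hconstP P hPO'
        have hgt : ∀ t, Ideal.Quotient.mk P
            (gElt (MvPowerSeries.C (η t)) (X t) (σ t)) ≠ 0 := by
          intro t h
          rw [Ideal.Quotient.eq_zero_iff_mem] at h
          exact hgP (Ideal.mem_of_dvd P (Finset.dvd_prod_of_mem _ (Finset.mem_univ t)) h)
        have h0 : compIdeal k η η σ cb (γ 0) ≤ RingHom.ker (Ideal.Quotient.mk P) := by
          rw [compIdeal_le_ker_iff]
          refine ⟨fun t => ?_, fun b => ?_⟩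
          · obtain ⟨hs, hs'⟩ := hUR' t
            obtain ⟨e1, e2, e3, e4, e5⟩ := hcP t
            have e6 := hgt t
            cases hσt : σ t with
            | nr =>
              rw [hσt] at e6
              refine hs.nr e1 e2 e3 e4 ?_ _
              simpa [gElt] using e6
            | st =>
              rw [hσt] at e6
              exact hs.st e1 e2 e3 e4 e5 hs' e6 _
            | chi => exact absurd hσt (hσc' t)
          · have hγ0 : γ 0 b = CTyp.nr := if_neg (Nat.not_lt_zero _)
            rw [hγ0]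
            exact ⟨Ideal.Quotient.eq_zero_iff_mem.mpr (hann _ (hnr1 0 b (Nat.zero_le _))),
              Ideal.Quotient.eq_zero_iff_mem.mpr (hann _ (hnr2 0 b (Nat.zero_le _)))⟩
        rwa [Ideal.mk_ker] at h0
    | succ i ih =>
      intro hi g hg
      have his : i < s := Nat.lt_of_succ_lt_succ hi
      let i' : Fin s := ⟨i, his⟩
      have hAnn : ∀ f : B, (∀ y : F'.N (.mod i'.succ), f • y = 0) →
          ∀ y : F'.N (.new i'), f • y = 0 := by
        intro f hf y
        have := kills_of_ulimit hI F U hU F' hF'Θ (.mod i'.succ) (.new i') 1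
          (fun n K g _ hg => by
            rw [one_mul]
            exact hF6 n i' K g hg) hf y
        rwa [one_mul] at this
      let γq : Fin s → CTyp := fun b => if (b : ℕ) < i then CTyp.su
        else if (b : ℕ) = i then CTyp.zz else CTyp.nr
      have hγqsm : ∀ b, γq b = .sm → cb b ∈ maximalIdeal O := by
        intro b h
        simp only [γq] at h
        split_ifs at h
      have h𝔮 : (compIdeal k η η σ cb γq).IsPrime :=
        compIdeal_isPrime k hη2 hη2 hηm hηm σ cb γq hγqsm
      have h𝔮rel := (compIdeal_le_ker_iff (k := k) η η σ cb γq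
        (Ideal.Quotient.mk (compIdeal k η η σ cb γq))).mp (by rw [Ideal.mk_ker])
      have hγqi : γq i' = CTyp.zz := by
        simp only [γq, i', lt_self_iff_false, if_false, if_true]
      have ht : Y i' 0 ∈ compIdeal k η η σ cb γq := by
        have h3 := h𝔮rel.2 i'
        rw [hγqi] at h3
        exact Ideal.Quotient.eq_zero_iff_mem.mp h3.1
      have hc𝔮 : algebraMap O B c' ∉ compIdeal k η η σ cb γq := fun h =>
        hc' (C_mem_compIdeal k hηm hηm σ cb γq hγqsm h)
      have hle𝔮 : compIdeal k η η σ cb (γ i) ≤ compIdeal k η η σ cb γq := by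
        have h3 : compIdeal k η η σ cb (γ i) ≤
            RingHom.ker (Ideal.Quotient.mk (compIdeal k η η σ cb γq)) := by
          rw [compIdeal_le_ker_iff]
          refine ⟨h𝔮rel.1, fun b => ?_⟩
          have h4 := h𝔮rel.2 b
          simp only [γq] at h4
          simp only [γ]
          split_ifs at h4 ⊢
          · exact h4
          · exact ⟨h4.2.1, h4.2.2⟩
          · exact h4
        rwa [Ideal.mk_ker] at h3
      obtain ⟨θ, hθC, hθx, hθy⟩ := exists_test2 (O := O) (T := T) (s := s) k σ γq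
      have hθ𝔮 : compIdeal k η η σ cb γq ≤ RingHom.ker θ :=
        test_kills hθC hθx hθy hηm hσc' hγqsm
      refine raise_abs F'.φ (A := F'.N (.mod i'.castSucc)) (Xn := F'.N (.new i'))
        (F'.b (.new i')) (hspan _) (hrel _) hdim h𝔮 ht hc𝔮
        (fun f hf => hle𝔮 (ih (Nat.lt_succ_of_lt his) f hf)) ?_ ?_ g (hAnn g hg)
      · intro P hP hann hPS hdimP hP𝔮
        have hPO' := hPO P hPS
        haveI : IsDomain (B ⧸ P) := Ideal.Quotient.isDomain P
        have hannP : ∀ f : B, (∀ y : F'.N (.mod i'.succ), f • y = 0) → f ∈ P :=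
          fun f hf => hann f (hAnn f hf)
        have hUR' := hUR P hP (fun t i j => hannP _ (hG _ t i j))
          (fun t => hannP _ (huni _ t))
        have hcP := hconstP P hPO'
        have hσ'' : ∀ t, ∃ τ : Typ, τ ≠ Typ.chi ∧
            TRel (Ideal.Quotient.mk P (MvPowerSeries.C (η t)))
              (Ideal.Quotient.mk P (MvPowerSeries.C (η t)))
              (fun j => Ideal.Quotient.mk P (X t j)) τ := by
          intro t
          obtain ⟨hs, hs'⟩ := hUR' t
          obtain ⟨e1, e2, e3, e4, e5⟩ := hcP t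
          by_cases h : Ideal.Quotient.mk P (X t 0) = 0 ∧ Ideal.Quotient.mk P (X t 1) = 0 ∧
              Ideal.Quotient.mk P (X t 2) = 0
          · exact ⟨Typ.nr, fun h => Typ.noConfusion h, h⟩
          · exact ⟨Typ.st, fun h => Typ.noConfusion h,
              URel.st_of_ne hs e1 e2 e3 e4 e5 hs' h _⟩
        choose σ'' hσ''c hσ''r using hσ''
        have hnewP : Y i' 0 * (Y i' 0 + algebraMap O B (cb i')) ∈ P :=
          hP.mem_of_pow_mem 2 (hann _ (hnew i'))
        have hγ'' : ∀ b, ∃ γb : CTyp, γb ≠ .zz ∧ (γb = .sm → cb b ∈ maximalIdeal O) ∧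
            CRel (Ideal.Quotient.mk P (MvPowerSeries.C (cb b)))
              (fun j => Ideal.Quotient.mk P (Y b j)) γb ∧
            ((b : ℕ) = i → γb = .su ∨ γb = .sm) := by
          intro b
          by_cases hb : i < (b : ℕ)
          · refine ⟨.nr, fun h => CTyp.noConfusion h, fun h => CTyp.noConfusion h,
              ⟨?_, ?_⟩, fun h => absurd h (ne_of_gt hb)⟩
            · exact Ideal.Quotient.eq_zero_iff_mem.mpr (hannP _ (hnr1 i'.succ b hb))
            · exact Ideal.Quotient.eq_zero_iff_mem.mpr (hannP _ (hnr2 i'.succ b hb))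
          · have hb' : (b : ℕ) < (i'.succ : Fin (s + 1)) :=
              Nat.lt_succ_of_le (Nat.le_of_not_lt hb)
            have hyt := hannP _ (hun1 i'.succ b hb')
            have hzt := hannP _ (hun2 i'.succ b hb')
            by_cases htP : Y b 0 ∈ P
            · refine ⟨.su, fun h => CTyp.noConfusion h, fun h => CTyp.noConfusion h,
                ⟨Ideal.Quotient.eq_zero_iff_mem.mpr htP, ?_⟩, fun _ => Or.inl rfl⟩
              rcases hP.mem_or_mem hzt with h3 | h3
              · exact Ideal.Quotient.eq_zero_iff_mem.mpr h3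
              · exfalso
                have h4 : algebraMap O B (cb b) ∈ P := by
                  have := sub_mem h3 htP
                  rwa [add_sub_cancel_left] at this
                exact hcb b (hPO' _ h4)
            · have hyP : Y b 1 ∈ P := (hP.mem_or_mem hyt).resolve_right htP
              by_cases htc : Y b 0 + algebraMap O B (cb b) ∈ P
              · refine ⟨.sm, fun h => CTyp.noConfusion h, fun _ => ?_,
                  ⟨?_, Ideal.Quotient.eq_zero_iff_mem.mpr hyP⟩, fun _ => Or.inr rfl⟩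
                · have h4 : algebraMap O B (cb b) ∈ maximalIdeal B := by
                    have h5 := sub_mem ((IsLocalRing.le_maximalIdeal hP.ne_top) htc) (hY b 0)
                    rwa [add_sub_cancel_left] at h5
                  by_contra h5
                  have h6 : IsUnit (cb b) := by
                    by_contra h7
                    exact h5 h7
                  exact h4 (h6.map (algebraMap O B))
                · rw [← map_add]
                  exact Ideal.Quotient.eq_zero_iff_mem.mpr htc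
              · refine ⟨.nr, fun h => CTyp.noConfusion h, fun h => CTyp.noConfusion h,
                  ⟨Ideal.Quotient.eq_zero_iff_mem.mpr hyP, ?_⟩, fun hbi => ?_⟩
                · exact Ideal.Quotient.eq_zero_iff_mem.mpr
                    ((hP.mem_or_mem hzt).resolve_right htc)
                · exfalso
                  have hbi' : b = i' := Fin.ext hbi
                  subst hbi'
                  rcases hP.mem_or_mem hnewP with h3 | h3
                  · exact htP h3
                  · exact htc h3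
        choose γ'' hγzz'' hγsm'' hγrel'' hγi'' using hγ''
        have hJP : compIdeal k η η σ'' cb γ'' ≤ P := by
          have h3 : compIdeal k η η σ'' cb γ'' ≤ RingHom.ker (Ideal.Quotient.mk P) := by
            rw [compIdeal_le_ker_iff]
            exact ⟨hσ''r, hγrel''⟩
          rwa [Ideal.mk_ker] at h3
        haveI := compIdeal_isPrime k hη2 hη2 hηm hηm σ'' cb γ'' hγsm''
        have hPeq : P = compIdeal k η η σ'' cb γ'' :=
          eq_of_le_of_ringKrullDim hJP
            (ringKrullDim_quot_compIdeal_le k hϖ hηm hηm σ'' cb γ'' hγsm'' hγzz'') hdimP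
        obtain ⟨hσeq, hγeq⟩ := test_detect hθC hθx hθy hηm hσc' hσ''c hγzz''
          ((hJP.trans hP𝔮).trans hθ𝔮)
        have hγfin : γ'' = γ (i + 1) := by
          funext b
          simp only [γ]
          by_cases hb1 : (b : ℕ) < i
          · rw [if_pos (Nat.lt_succ_of_lt hb1)]
            refine (hγeq b).2 ?_
            simp only [γq]
            rw [if_pos hb1]
          · by_cases hb2 : (b : ℕ) = i
            · rw [if_pos (by omega)]
              rcases hγi'' b hb2 with h3 | h3
              · exact h3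
              · exfalso
                have hbi' : b = i' := Fin.ext hb2
                have h4 := hγrel'' b
                rw [h3] at h4
                have h5 : Y b 0 + algebraMap O B (cb b) ∈ P := by
                  have h6 := h4.1
                  rw [← map_add] at h6
                  exact Ideal.Quotient.eq_zero_iff_mem.mp h6
                have h7 := hP𝔮 h5
                have h8 : Y b 0 ∈ compIdeal k η η σ cb γq := by
                  rw [hbi']
                  exact ht
                have h9 : algebraMap O B (cb b) ∈ compIdeal k η η σ cb γq := by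
                  have := sub_mem h7 h8
                  rwa [add_sub_cancel_left] at this
                exact hcb b (C_mem_compIdeal k hηm hηm σ cb γq hγqsm h9)
            · rw [if_neg (by omega)]
              refine (hγeq b).1 ?_
              simp only [γq]
              rw [if_neg hb1, if_neg hb2]
        rw [hPeq, hσeq, hγfin]
      · intro g hg a
        exact div_of_ulimit hI F U hU F' hF'Θ (.new i') (.mod i'.castSucc)
          (algebraMap O B c') (Y i' 0) (fun n K g _ hg a => hF8 n i' K g hg a) hg a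
  -- conclusion
  have hγs : γ s = fun _ => CTyp.su := by
    funext b
    exact if_pos b.2
  have hf'N : MulLe F' (.mod (Fin.last s)) (Ideal.span (Set.range MvPowerSeries.X)) f' :=
    mulLe_of_ulimit hI F U hU F' hF'Θ _ _ hf' fun n => hF4 n _ (by
      intro y
      rw [hfB]
      exact (L' (N n)).f_smul y)
  refine hx'f ?_
  rw [← RingHom.mem_ker]
  haveI := hfin (.mod (Fin.last s))
  refine mem_of_smul_mem (N := F'.N (.mod (Fin.last s))) (RingHom.ker_isPrime x') ?_
    (fun g hg => hx'σ ?_) hf'N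
  · rw [Ideal.map_span, Ideal.span_le]
    rintro _ ⟨_, ⟨j, rfl⟩, rfl⟩
    exact hx'φ j
  · rw [← hγs]
    exact key s (Nat.lt_succ_self s) g hg

end Main

section Sign

variable {O : Type} [CommRing O] [IsLocalRing O] [IsNoetherianRing O]
  [IsAdicComplete (maximalIdeal O) O] {T : Type} [Finite T]

/-- the automorphism changing the sign of the coordinates of `Φ_t` -/
theorem exists_signHom2 (s k : ℕ) {v : T → O} (hv : ∀ t, v t * v t = 1) :
    ∃ ε : BRing2 O T s k →ₐ[O] BRing2 O T s k, Function.Surjective ε ∧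
      (∀ t, ε (xVar O s k t 0) = xVar O s k t 0) ∧ (∀ t, ε (xVar O s k t 1) = xVar O s k t 1) ∧
      (∀ t, ε (xVar O s k t 2) = xVar O s k t 2) ∧
      (∀ t, ε (xVar O s k t 3) = algebraMap O (BRing2 O T s k) (v t) * xVar O s k t 3) ∧
      (∀ t, ε (xVar O s k t 4) = algebraMap O (BRing2 O T s k) (v t) * xVar O s k t 4) ∧
      (∀ t, ε (xVar O s k t 5) = algebraMap O (BRing2 O T s k) (v t) * xVar O s k t 5) ∧
      (∀ i j, ε (yVar O T k i j) = yVar O T k i j) := by
  haveI hBc : IsAdicComplete (maximalIdeal (BRing2 O T s k)) (BRing2 O T s k) :=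
    isAdicComplete_mv _ _
  let u : (T × Fin 6) ⊕ ((Fin s × Fin 3) ⊕ Fin k) → BRing2 O T s k := Sum.elim
    (fun t => if t.2 = 3 ∨ t.2 = 4 ∨ t.2 = 5 then MvPowerSeries.C (v t.1) else 1) (fun _ => 1)
  have huu : ∀ i, u i * u i = 1 := by
    rintro (⟨t, j⟩ | j)
    · change (if j = 3 ∨ j = 4 ∨ j = 5 then MvPowerSeries.C (v t) else 1) *
        (if j = 3 ∨ j = 4 ∨ j = 5 then MvPowerSeries.C (v t) else 1) = 1
      split_ifs
      · rw [← map_mul, hv, map_one]
      · rw [one_mul]
    · exact one_mul 1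
  obtain ⟨E, hEC, hEX⟩ := exists_mv_eval (σ := (T × Fin 6) ⊕ ((Fin s × Fin 3) ⊕ Fin k))
    (MvPowerSeries.C : O →+* BRing2 O T s k) (maximalIdeal (BRing2 O T s k))
    (fun i => u i * MvPowerSeries.X i) (fun i => Ideal.mul_mem_left _ _ (mv_X_mem i))
  have hEu : ∀ i, E (u i) = u i := by
    rintro (⟨t, j⟩ | j)
    · change E (if j = 3 ∨ j = 4 ∨ j = 5 then MvPowerSeries.C (v t) else 1) =
        (if j = 3 ∨ j = 4 ∨ j = 5 then MvPowerSeries.C (v t) else 1)
      split_ifs
      · exact hEC _
      · exact map_one E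
    · exact map_one E
  have hEE : E.comp E = RingHom.id _ := by
    refine mv_eval_unique (maximalIdeal (BRing2 O T s k)) ?_ ?_ ?_
    · intro b
      rw [RingHom.comp_apply, hEC, hEC, RingHom.id_apply]
    · intro i
      rw [RingHom.comp_apply, hEX, map_mul, hEu, hEX, ← mul_assoc, huu, one_mul,
        RingHom.id_apply]
    · intro i
      rw [RingHom.comp_apply, hEX, map_mul, hEu, hEX, ← mul_assoc, huu, one_mul]
      exact mv_X_mem i
  have h3 : ∀ t j, E (xVar O s k t j) =
      (if j = 3 ∨ j = 4 ∨ j = 5 then MvPowerSeries.C (v t) else 1) * xVar O s k t j :=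
    fun t j => hEX (Sum.inl (t, j))
  have h4 : ∀ i j, E (yVar O T k i j) = yVar O T k i j := fun i j => by
    have := hEX (Sum.inr (Sum.inl (i, j)))
    change E (yVar O T k i j) = 1 * yVar O T k i j at this
    rwa [one_mul] at this
  refine ⟨{ E with commutes' := hEC }, ?_, ?_, ?_, ?_, ?_, ?_, ?_, h4⟩
  · intro y
    exact ⟨E y, RingHom.congr_fun hEE y⟩
  · intro t
    have := h3 t 0
    simp at this
    exact this
  · intro t
    have := h3 t 1
    simp at this
    exact this
  · intro t
    have := h3 t 2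
    simp at this
    exact this
  · intro t
    have := h3 t 3
    simp at this
    exact this
  · intro t
    have := h3 t 4
    simp at this
    exact this
  · intro t
    have := h3 t 5
    simp at this
    exact this

/-- reduction to the case of trivial quadratic characters -/
theorem nonempty_untwist2 {ϖ c' : O} {p r n D m s k : ℕ} {q : T → ℕ} {v : T → O}
    (hv : ∀ t, v t * v t = 1) {Z : T → Finset Oˣ} {cb : Fin s → O}
    (L : FullLevel O ϖ c' p r n D m s (BRing2 O T s k) (xVar O s k) (yVar O T k) q v Z cb) :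
    Nonempty (FullLevel O ϖ c' p r n D m s (BRing2 O T s k) (xVar O s k) (yVar O T k) q
      (fun _ => 1) Z cb) := by
  obtain ⟨ε, hε, h0, h1, h2, h3, h4, h5, h6⟩ := exists_signHom2 (O := O) (T := T) s k hv
  have hεO : ∀ x, ε (algebraMap O _ x) = algebraMap O _ x := fun x => ε.commutes x
  have hvR : ∀ t, algebraMap O L.R (v t) * algebraMap O L.R (v t) = 1 := fun t => by
    rw [← map_mul, hv, map_one]
  refine ⟨
    { R := L.R
      β := L.β.comp ε
      β_surj := L.β_surj.comp hε
      Sg := L.Sg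
      Ph := fun t => algebraMap O L.R (v t) • L.Ph t
      det_Sg := L.det_Sg
      det_Ph := ?_
      tame := ?_
      tr_Sg := L.tr_Sg
      tr_Ph := ?_
      hX0 := ?_
      hX1 := ?_
      hX2 := ?_
      hX3 := ?_
      hX4 := ?_
      hX5 := ?_
      N := L.N
      d := L.d
      d_pos := L.d_pos
      d_le := L.d_le
      e := L.e
      le_e := L.le_e
      φ := L.φ
      φ_mem := L.φ_mem
      b := L.b
      b_span := L.b_span
      b_rel := L.b_rel
      prod_smul := L.prod_smul
      uni_smul := L.uni_smul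
      chi_nr := ?_
      mod_nr := ?_
      mod_uni := ?_
      new_smul := ?_
      iso := L.iso
      quo := L.quo
      quo_surj := L.quo_surj
      low := L.low
      low_surj := L.low_surj
      low_old := ?_
      pt := L.pt
      pt_φ := L.pt_φ
      pt_uni := L.pt_uni
      pt_t := ?_
      pt_z := ?_
      f := L.f
      f_smul := L.f_smul
      f_pt := L.f_pt }⟩
  · intro t
    simp only [Matrix.smul_apply, smul_eq_mul]
    linear_combination L.det_Ph t + (L.Ph t 0 0 * L.Ph t 1 1 - L.Ph t 0 1 * L.Ph t 1 0) * hvR t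
  · intro t
    rw [smul_mul_assoc, L.tame, mul_smul_comm]
  · intro t
    simp only [Matrix.smul_apply, smul_eq_mul, map_one, mul_one]
    have h6 : algebraMap O L.R (v t) * L.Ph t 0 0 + algebraMap O L.R (v t) * L.Ph t 1 1 - 2 =
        algebraMap O L.R (v t) * (L.Ph t 0 0 + L.Ph t 1 1 - 2 * algebraMap O L.R (v t)) := by
      linear_combination 2 * hvR t
    rw [h6]
    exact Ideal.mul_mem_left _ _ (L.tr_Ph t)
  · intro t
    rw [AlgHom.comp_apply, h0]
    exact L.hX0 t
  · intro t
    rw [AlgHom.comp_apply, h1]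
    exact L.hX1 t
  · intro t
    rw [AlgHom.comp_apply, h2]
    exact L.hX2 t
  · intro t
    rw [AlgHom.comp_apply, h3, map_mul, AlgHom.commutes]
    simp only [Matrix.smul_apply, smul_eq_mul]
    linear_combination algebraMap O L.R (v t) * L.hX3 t
  · intro t
    rw [AlgHom.comp_apply, h4, map_mul, AlgHom.commutes, L.hX4 t]
    simp only [Matrix.smul_apply, smul_eq_mul]
  · intro t
    rw [AlgHom.comp_apply, h5, map_mul, AlgHom.commutes, L.hX5 t]
    simp only [Matrix.smul_apply, smul_eq_mul]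
  · intro i x
    rw [AlgHom.comp_apply, AlgHom.comp_apply, h6, h6]
    exact L.chi_nr i x
  · intro i j hij x
    rw [AlgHom.comp_apply, AlgHom.comp_apply, h6, h6]
    exact L.mod_nr i j hij x
  · intro i j hij x
    have e1 : ε (yVar O T k j 1 * yVar O T k j 0) = yVar O T k j 1 * yVar O T k j 0 := by
      rw [map_mul, h6, h6]
    have e2 : ε (yVar O T k j 2 * (yVar O T k j 0 + algebraMap O (BRing2 O T s k) (cb j))) =
        yVar O T k j 2 * (yVar O T k j 0 + algebraMap O (BRing2 O T s k) (cb j)) := by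
      rw [map_mul, map_add, h6, h6, hεO]
    rw [AlgHom.comp_apply, AlgHom.comp_apply, e1, e2]
    exact L.mod_uni i j hij x
  · intro i x
    have e1 : ε ((yVar O T k i 0 * (yVar O T k i 0 + algebraMap O (BRing2 O T s k) (cb i))) ^ 2) =
        (yVar O T k i 0 * (yVar O T k i 0 + algebraMap O (BRing2 O T s k) (cb i))) ^ 2 := by
      rw [map_pow, map_mul, map_add, h6, hεO]
    rw [AlgHom.comp_apply, e1]
    exact L.new_smul i x
  · intro i y hy
    rw [AlgHom.comp_apply, h6]
    exact L.low_old i y hy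
  · intro i
    rw [AlgHom.comp_apply, h6]
    exact L.pt_t i
  · intro i
    rw [AlgHom.comp_apply, h6]
    exact L.pt_z i

end Sign

/-- **The endgame of the full non-minimal modularity lifting theorem** (scalar primes `T`,
non-scalar primes `b_1, …, b_s`, one of which may be `p`). -/
theorem no_full_levels {O : Type} [CommRing O] [IsDomain O] [IsDiscreteValuationRing O]
    [IsAdicComplete (maximalIdeal O) O] [Finite (ResidueField O)]
    {ϖ c' : O} (hϖ : maximalIdeal O = Ideal.span {ϖ}) (hc' : c' ≠ 0)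
    {p k D m s : ℕ} (hpO : (p : O) ∈ maximalIdeal O) (h2 : IsUnit (2 : O))
    {T : Type} [Finite T]
    {q : T → ℕ} (hq0 : ∀ t, 1 ≤ q t) (hq : ∀ t, (q t : O) - 1 ∈ maximalIdeal O)
    (hq1 : ∀ t, (q t : O) ≠ 1) {v : T → O} (hv : ∀ t, v t * v t = 1)
    {Z : T → Finset Oˣ} (hZ1 : ∀ t, ∀ ζ ∈ Z t, ζ ≠ 1) (hZ2 : ∀ t, ∀ ζ ∈ Z t, ζ ^ (q t - 1) = 1)
    (hZ3 : ∀ t, ∀ ζ ∈ Z t, (ζ : O) - 1 ∈ maximalIdeal O)
    {cb : Fin s → O} (hcb : ∀ i, cb i ≠ 0)
    (L : ∀ n, Nonempty (FullLevel O ϖ c' p (3 * Nat.card T + (s + k)) n D m s (BRing2 O T s k)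
      (xVar O s k) (yVar O T k) q v Z cb)) : False :=
  no_full_levels_one hϖ hc' hpO h2 hq0 hq hq1 hZ1 hZ2 hZ3 hcb
    fun n => nonempty_untwist2 hv (L n).some

end Fermat.Agent.H57.Full
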