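/-
Reindexing of the presentations in the full endgame: general finite index type for the non-scalar
primes, other order of the variables.
-/
import Fermat.Agent.H57FullMain

set_option autoImplicit false
set_option linter.style.haveILetI false
set_option linter.unusedSectionVars false

namespace Fermat.Agent.H57.Full

open IsLocalRing Fermat.Agent.H57 Fermat.Agent.H57.Tame Fermat.Agent.H57.NM
  Fermat.Agent.H69.KP Fermat.Agent.H69.EG

attribute [local instance] RPart.instCommRing RPart.instLocal RPart.instAlgebra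
attribute [local instance] FullLevel.instAddCommGroup FullLevel.instModule

/-- change of the presentation -/
theorem FullLevel.nonempty_comap {O : Type} [CommRing O] [IsLocalRing O] {ϖ c' : O}
    {p r n D m s : ℕ} {T B B' : Type} [CommRing B] [Algebra O B] [CommRing B'] [Algebra O B']
    {X : T → Fin 6 → B} {Y : Fin s → Fin 3 → B} {X' : T → Fin 6 → B'} {Y' : Fin s → Fin 3 → B'}
    {q : T → ℕ} {v : T → O} {Z : T → Finset Oˣ} {cb : Fin s → O}
    (ρ : B' →ₐ[O] B) (hρ : Function.Surjective ρ) (hX : ∀ t j, ρ (X' t j) = X t j)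
    (hY : ∀ i j, ρ (Y' i j) = Y i j)
    (L : FullLevel O ϖ c' p r n D m s B X Y q v Z cb) :
    Nonempty (FullLevel O ϖ c' p r n D m s B' X' Y' q v Z cb) := by
  have hρO : ∀ x, ρ (algebraMap O B' x) = algebraMap O B x := fun x => ρ.commutes x
  refine ⟨
    { R := L.R
      β := L.β.comp ρ
      β_surj := L.β_surj.comp hρ
      Sg := L.Sg
      Ph := L.Ph
      det_Sg := L.det_Sg
      det_Ph := L.det_Ph
      tame := L.tame
      tr_Sg := L.tr_Sg
      tr_Ph := L.tr_Ph
      hX0 := fun t => by rw [AlgHom.comp_apply, hX]; exact L.hX0 t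
      hX1 := fun t => by rw [AlgHom.comp_apply, hX]; exact L.hX1 t
      hX2 := fun t => by rw [AlgHom.comp_apply, hX]; exact L.hX2 t
      hX3 := fun t => by rw [AlgHom.comp_apply, hX]; exact L.hX3 t
      hX4 := fun t => by rw [AlgHom.comp_apply, hX]; exact L.hX4 t
      hX5 := fun t => by rw [AlgHom.comp_apply, hX]; exact L.hX5 t
      N := L.N
      d := L.d
      d_pos := L.d_pos
      d_le := L.d_le
      e := L.e
      le_e := L.le_e
      φ := L.φ
      φ_mem := L.φ_mem
      b := L.b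
      b_span := L.b_span
      b_rel := L.b_rel
      prod_smul := L.prod_smul
      uni_smul := L.uni_smul
      chi_nr := ?_
      mod_nr := ?_
      mod_uni := ?_
      new_smul := ?_
      iso := L.iso
      quo := L.quo
      quo_surj := L.quo_surj
      low := L.low
      low_surj := L.low_surj
      low_old := ?_
      pt := L.pt
      pt_φ := L.pt_φ
      pt_uni := L.pt_uni
      pt_t := ?_
      pt_z := ?_
      f := L.f
      f_smul := L.f_smul
      f_pt := L.f_pt }⟩
  · intro i x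
    rw [AlgHom.comp_apply, AlgHom.comp_apply, hY, hY]
    exact L.chi_nr i x
  · intro i j hij x
    rw [AlgHom.comp_apply, AlgHom.comp_apply, hY, hY]
    exact L.mod_nr i j hij x
  · intro i j hij x
    have e1 : ρ (Y' j 1 * Y' j 0) = Y j 1 * Y j 0 := by rw [map_mul, hY, hY]
    have e2 : ρ (Y' j 2 * (Y' j 0 + algebraMap O B' (cb j))) =
        Y j 2 * (Y j 0 + algebraMap O B (cb j)) := by
      rw [map_mul, map_add, hY, hY, hρO]
    rw [AlgHom.comp_apply, AlgHom.comp_apply, e1, e2]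
    exact L.mod_uni i j hij x
  · intro i x
    have e1 : ρ ((Y' i 0 * (Y' i 0 + algebraMap O B' (cb i))) ^ 2) =
        (Y i 0 * (Y i 0 + algebraMap O B (cb i))) ^ 2 := by
      rw [map_pow, map_mul, map_add, hY, hρO]
    rw [AlgHom.comp_apply, e1]
    exact L.new_smul i x
  · intro i y hy
    rw [AlgHom.comp_apply, hY]
    exact L.low_old i y hy
  · intro i
    rw [AlgHom.comp_apply, hY]
    exact L.pt_t i
  · intro i
    rw [AlgHom.comp_apply, hY]
    exact L.pt_z i

/-- renaming the variables of a power series ring -/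
theorem exists_rename_mv {O : Type} [CommRing O] [IsLocalRing O] [IsNoetherianRing O]
    [IsAdicComplete (maximalIdeal O) O] {σ σ' : Type} [Finite σ] [Finite σ'] (ε : σ' ≃ σ) :
    ∃ ρ : MvPowerSeries σ' O →ₐ[O] MvPowerSeries σ O, Function.Surjective ρ ∧
      ∀ i, ρ (MvPowerSeries.X i) = MvPowerSeries.X (ε i) := by
  haveI hB : IsAdicComplete (maximalIdeal (MvPowerSeries σ O)) (MvPowerSeries σ O) :=
    isAdicComplete_mv _ _
  haveI hB' : IsAdicComplete (maximalIdeal (MvPowerSeries σ' O)) (MvPowerSeries σ' O) :=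
    isAdicComplete_mv _ _
  obtain ⟨E, hEC, hEX⟩ := exists_mv_eval (σ := σ')
    (MvPowerSeries.C : O →+* MvPowerSeries σ O) (maximalIdeal (MvPowerSeries σ O))
    (fun i => MvPowerSeries.X (ε i)) (fun i => mv_X_mem _)
  obtain ⟨E', hEC', hEX'⟩ := exists_mv_eval (σ := σ)
    (MvPowerSeries.C : O →+* MvPowerSeries σ' O) (maximalIdeal (MvPowerSeries σ' O))
    (fun i => MvPowerSeries.X (ε.symm i)) (fun i => mv_X_mem _)
  have hEE : E.comp E' = RingHom.id _ := by
    refine mv_eval_unique (maximalIdeal (MvPowerSeries σ O)) ?_ ?_ ?_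
    · intro b
      rw [RingHom.comp_apply, hEC', hEC, RingHom.id_apply]
    · intro i
      rw [RingHom.comp_apply, hEX', hEX, RingHom.id_apply, ε.apply_symm_apply]
    · intro i
      rw [RingHom.comp_apply, hEX', hEX]
      exact mv_X_mem _
  exact ⟨{ E with commutes' := hEC }, fun y => ⟨E' y, RingHom.congr_fun hEE y⟩, hEX⟩

/-- **The endgame of the full non-minimal modularity lifting theorem**, in the index types of
`Fermat.Agent.H53.GalLevelB`. -/
theorem no_full_levels_idx {O : Type} [CommRing O] [IsDomain O] [IsDiscreteValuationRing O]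
    [IsAdicComplete (maximalIdeal O) O] [Finite (ResidueField O)]
    {ϖ c' : O} (hϖ : maximalIdeal O = Ideal.span {ϖ}) (hc' : c' ≠ 0)
    {p k D m s r : ℕ} (hpO : (p : O) ∈ maximalIdeal O) (h2 : IsUnit (2 : O))
    {T κ : Type} [Finite T] [Finite κ] (ε : Fin s ≃ κ)
    (hr : r = 3 * Nat.card T + Nat.card κ + k)
    {q : T → ℕ} (hq0 : ∀ t, 1 ≤ q t) (hq : ∀ t, (q t : O) - 1 ∈ maximalIdeal O)
    (hq1 : ∀ t, (q t : O) ≠ 1) {v : T → O} (hv : ∀ t, v t * v t = 1)
    {Z : T → Finset Oˣ} (hZ1 : ∀ t, ∀ ζ ∈ Z t, ζ ≠ 1) (hZ2 : ∀ t, ∀ ζ ∈ Z t, ζ ^ (q t - 1) = 1)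
    (hZ3 : ∀ t, ∀ ζ ∈ Z t, (ζ : O) - 1 ∈ maximalIdeal O)
    {cb : Fin s → O} (hcb : ∀ i, cb i ≠ 0)
    (L : ∀ n, Nonempty (FullLevel O ϖ c' p r n D m s
      (MvPowerSeries (((T × Fin 6) ⊕ (κ × Fin 3)) ⊕ Fin k) O)
      (fun t j => MvPowerSeries.X (Sum.inl (Sum.inl (t, j))))
      (fun i j => MvPowerSeries.X (Sum.inl (Sum.inr (ε i, j)))) q v Z cb)) : False := by
  have hcard : Nat.card κ = s := by rw [← Nat.card_congr ε, Nat.card_fin]
  have hr' : r = 3 * Nat.card T + (s + k) := by rw [hr, hcard]; ring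
  subst hr'
  let e0 : (T × Fin 6) ⊕ ((Fin s × Fin 3) ⊕ Fin k) ≃ ((T × Fin 6) ⊕ (κ × Fin 3)) ⊕ Fin k :=
    ((Equiv.refl _).sumCongr ((ε.prodCongr (Equiv.refl _)).sumCongr (Equiv.refl _))).trans
      (Equiv.sumAssoc _ _ _).symm
  obtain ⟨ρ, hρ, hρX⟩ := exists_rename_mv (O := O) e0
  refine no_full_levels hϖ hc' hpO h2 hq0 hq hq1 hv hZ1 hZ2 hZ3 hcb fun n =>
    FullLevel.nonempty_comap (B' := BRing2 O T s k) ρ hρ ?_ ?_ (L n).some
  · intro t j
    exact hρX (Sum.inl (t, j))
  · intro i j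
    exact hρX (Sum.inr (Sum.inl (i, j)))

end Fermat.Agent.H57.Full
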