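import Fermat.Agent.H53Pt
import Fermat.Agent.H57FullIdx

set_option autoImplicit false
set_option maxSynthPendingDepth 3
set_option linter.style.haveILetI false
set_option linter.unusedSectionVars false

/-!
# The ring part of the levels with raising primes
-/

noncomputable section

open IsLocalRing Module ExtCitation Polynomial GaloisRep
open Fermat.Agent.H55 Fermat.Agent.H56
open Fermat.Agent.H57.Full Fermat.Agent.H57.NM

namespace Fermat.Agent.H53

variable {𝒪 : Type} [CommRing 𝒪] [IsDomain 𝒪] [IsDiscreteValuationRing 𝒪]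
    [IsAdicComplete (maximalIdeal 𝒪) 𝒪] [Finite (ResidueField 𝒪)]
  {p : ℕ} [Fact p.Prime] {ρbar : ResidualGaloisRep (ResidueField 𝒪)}
  {b : Module.Basis (Fin 2) (ResidueField 𝒪) ρbar.V} {pd : PData p ρbar b} {A : Finset ℕ}
  {τ ι : Type} [Fintype τ] [Fintype ι] {qT : τ → ℕ} {pl : ∀ t, PlaceData p (qT t)} {u : τ → 𝒪}
  {qB : ι → ℕ} {plB : ∀ i, PlaceData p (qB i)} {uB : ι → 𝒪} {k n : ℕ} {S : Finset ℕ}
  (L : GalLevelB p ρbar b pd A qT pl u qB plB uB k n S)

namespace GalLevelB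

/-- **the ring part of the level** -/
def rpart : RPart 𝒪 (MvPowerSeries (((τ × Fin 6) ⊕ ((ι ⊕ pd.ε) × Fin 3)) ⊕ Fin k) 𝒪)
    (fun t j => MvPowerSeries.X (Sum.inl (Sum.inl (t, j)))) qT u where
  R := L.D.R
  β := L.β
  β_surj := L.β_surj
  Sg t := L.r (pl t).σ
  Ph t := L.r (pl t).φ
  det_Sg := L.det_Sg
  det_Ph := L.det_Ph
  tame := L.tame
  tr_Sg := L.tr_Sg
  tr_Ph := L.tr_Ph
  hX0 := L.hX0
  hX1 := L.hX1
  hX2 := L.hX2
  hX3 := L.hX3
  hX4 := L.hX4
  hX5 := L.hX5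

end GalLevelB

end Fermat.Agent.H53
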