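import Fermat.Agent.H70Pt

/-!
# Comparison of `MLoc` (trivial characters) with the localisation of `Hom(Γ₀(M), O)`
-/

set_option autoImplicit false
set_option linter.style.haveILetI false

open Matrix CongruenceSubgroup IsLocalRing
open scoped MatrixGroups TensorProduct

namespace Fermat.Agent.H70.Mod

open Fermat.Agent.H70.Coh Fermat.Agent.H59

section LocEquiv

variable {O R ι H H' : Type} [CommRing O] [CommRing R] [Algebra O R] [AddCommGroup H]
  [Module R H] [Module O H] [IsScalarTower O R H] [AddCommGroup H'] [Module R H'] [Module O H']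
  [IsScalarTower O R H'] {T : ι → Module.End R H} {hT : ∀ i j, T i * T j = T j * T i}
  {T' : ι → Module.End R H'} {hT' : ∀ i j, T' i * T' j = T' j * T' i}
  (E : H ≃ₗ[R] H') (hE : ∀ i x, E (T i x) = T' i (E x))

include hE in
lemma equiv_act (P : MvPolynomial ι O) (x : H) : E (act T hT P x) = act T' hT' P (E x) :=
  map_act_apply (Λ := R) (Λ' := R) E.toLinearMap.toAddMonoidHom
    (fun a x => by
      change E (a • x) = a • E x
      rw [← algebraMap_smul R a x, map_smul, algebraMap_smul]) hE P x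

include hE in
lemma equiv_map_loc (e : MvPolynomial ι O) :
    (Loc T hT e).map (E : H →ₗ[R] H') = Loc T' hT' e := by
  ext y
  constructor
  · rintro ⟨_, ⟨x, rfl⟩, rfl⟩
    exact ⟨E x, (equiv_act E hE e x).symm⟩
  · rintro ⟨y, rfl⟩
    obtain ⟨x, rfl⟩ := E.surjective y
    exact ⟨act T hT e x, ⟨x, rfl⟩, equiv_act E hE e x⟩

/-- equivalence of the localised modules -/
noncomputable def locEquiv (e : MvPolynomial ι O) : Loc T hT e ≃ₗ[R] Loc T' hT' e :=
  (E.submoduleMap (Loc T hT e)).trans (LinearEquiv.ofEq _ _ (equiv_map_loc E hE e))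

lemma locEquiv_coe (e : MvPolynomial ι O) (x : Loc T hT e) :
    (locEquiv (hT' := hT') E hE e x : H') = E x := rfl

lemma locEquiv_act (e P : MvPolynomial ι O) (x : Loc T hT e) :
    locEquiv (hT' := hT') E hE e (act (locT T hT e) locT_comm P x) =
      act (locT T' hT' e) locT_comm P (locEquiv (hT' := hT') E hE e x) := by
  apply Subtype.ext
  rw [locEquiv_coe, act_locT_coe, act_locT_coe, locEquiv_coe]
  exact equiv_act E hE P x

include hE in
lemma isLocIdem_equiv {κ : Type} [Field κ] {θ : MvPolynomial ι O →+* κ} {e : MvPolynomial ι O}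
    (h : IsLocIdem T hT θ e) : IsLocIdem T' hT' θ e where
  residue := h.residue
  idem := by
    apply LinearMap.ext
    intro y
    obtain ⟨x, rfl⟩ := E.surjective y
    rw [Module.End.mul_apply, ← equiv_act (hT := hT) E hE, ← equiv_act (hT := hT) E hE]
    exact congrArg E (LinearMap.congr_fun h.idem x)
  inv s hs := by
    obtain ⟨s', hs'⟩ := h.inv s hs
    refine ⟨s', ?_⟩
    apply LinearMap.ext
    intro y
    obtain ⟨x, rfl⟩ := E.surjective y
    rw [← equiv_act (hT := hT) E hE, ← equiv_act (hT := hT) E hE, hs']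

end LocEquiv

section HH

open Fermat.Agent.H37.Rank

variable {N M : ℕ} (hM : N ∣ M) {S : Set ℕ} (hS : Away M S) {O : Type} [CommRing O]

/-- `H¹(Γ₀(M), O)` for the auxiliary level `N` and for the auxiliary level `1` -/
noncomputable def hhLev : H1 (gam N M hM) (psiRep (1 : (ZMod N)ˣ →* Oˣ) O) ≃ₗ[O] HH O M :=
  h1Lev (one_dvd N) hM (one_dvd M) (MonoidHom.one_comp _).symm O

lemma hhLev_tw (i : Idx S) (x : H1 (gam N M hM) (psiRep (1 : (ZMod N)ˣ →* Oˣ) O)) :
    hhLev (O := O) hM (tw (R := O) hM hS 1 1 i x) =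
      TT O (S := S) (M := M) hS i (hhLev (O := O) hM x) := by
  rw [tw_apply]
  have h1 : atIdx hM hS (1 : (ZMod N)ˣ →* Oˣ) i = 1 := rfl
  rw [h1, inv_one, Units.val_one, one_smul]
  exact (tFam_h1Lev (one_dvd N) hM (one_dvd M) (MonoidHom.one_comp _).symm O i.2.1
    (hS.not_dvd i) x).symm

/-- comparison of the localised modules -/
noncomputable def mlocHH (e : MvPolynomial (Idx S) O) :
    MLoc (R := O) hM hS 1 1 e ≃ₗ[O] Loc (TT O (S := S) (M := M) hS) (TT_comm hS) e :=
  locEquiv (hhLev hM) (hhLev_tw hM hS) e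

theorem finrank_mlocHH (e : MvPolynomial (Idx S) O) :
    Module.finrank O (MLoc (R := O) hM hS 1 1 e) =
      Module.finrank O (Loc (TT O (S := S) (M := M) hS) (TT_comm hS) e) :=
  (mlocHH hM hS e).finrank_eq

theorem isLocIdem_HH {κ : Type} [Field κ] {θ : MvPolynomial (Idx S) O →+* κ}
    {e : MvPolynomial (Idx S) O} :
    IsLocIdem (tw (R := O) hM hS 1 1) (tw_comm hM hS 1 1) θ e ↔
      IsLocIdem (TT O (S := S) (M := M) hS) (TT_comm hS) θ e := by
  constructor
  · exact isLocIdem_equiv (hhLev hM) (hhLev_tw hM hS)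
  · intro h
    refine isLocIdem_equiv (hhLev hM).symm (fun i x => ?_) h
    rw [LinearEquiv.symm_apply_eq, hhLev_tw, LinearEquiv.apply_symm_apply]

end HH

end Fermat.Agent.H70.Mod
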