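import Fermat.Agent.H59Occ
import Fermat.Agent.H70HH

/-!
# Positivity of the ranks
-/

set_option autoImplicit false
set_option linter.style.haveILetI false
set_option linter.unusedSectionVars false

noncomputable section

open Polynomial CongruenceSubgroup CuspForm ModularFormClass IsLocalRing
open Fermat.Agent.H70.Coh Fermat.Agent.H70.Mod Fermat.Agent.H37.Rank

namespace Fermat.Agent.H59

/-- the localisation over the residue field in `HH`-form and in `MLoc`-form -/
theorem finrank_mlocHH_alg {M : ℕ} {S : Set ℕ} (hS : Adm S M) {O R : Type} [CommRing O]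
    [CommRing R] [Algebra O R] (e : MvPolynomial (Pr S) O) :
    Module.finrank R (MLoc (R := R) (O := O) (one_dvd M) hS 1 1 e) =
      Module.finrank R (Loc (TT R hS) (TT_comm hS) e) :=
  (locEquiv (O := O) (R := R) (hT := tw_comm (R := R) (one_dvd M) hS 1 1)
    (hT' := TT_comm (O := R) hS) (hhLev (O := R) (one_dvd M))
    (hhLev_tw (O := R) (one_dvd M) hS) e).finrank_eq

/-- **Positivity.** A character of the Hecke algebra gives positive rank. -/
theorem finrank_loc_pos {M : ℕ} [NeZero M] {S : Set ℕ} (hS : Adm S M) {O : Type} [CommRing O]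
    [IsLocalRing O] (hg : Good M O) {θ : MvPolynomial (Pr S) O →+* ResidueField O}
    (hθC : ∀ a, θ (MvPolynomial.C a) = residue O a) {e : MvPolynomial (Pr S) O}
    (he : IsLocIdem (TT O hS) (TT_comm hS) θ e) (i₀ : Pr S)
    (hi₀ : θ (MvPolynomial.X i₀) ≠ 1 + (i₀.1 : ResidueField O))
    (χ : heckeAlgebra M 2 S →+* ResidueField O)
    (hχ : ∀ i, χ (evHA hS (MvPolynomial.X i)) = θ (MvPolynomial.X i)) :
    0 < Module.finrank O (Loc (TT O hS) (TT_comm hS) e) := by
  have he' : IsLocIdem (tw (R := O) (one_dvd M) hS 1 1) (tw_comm (one_dvd M) hS 1 1) θ e :=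
    (isLocIdem_HH (one_dvd M) hS).mpr he
  have h1 := finrank_mloc_residue (R := O) (one_dvd M) hS (1 : (ZMod 1)ˣ →* Oˣ) 1 hg rfl he'
    ResTriv.one ResTriv.one i₀ hi₀
  rw [finrank_mlocHH_alg hS, finrank_mlocHH_alg hS] at h1
  rw [← h1]
  have h2 : Loc (TT (ResidueField O) hS) (TT_comm hS) e ≠ ⊥ :=
    loc_residue_ne_bot hS hθC he.residue χ hχ
  haveI : Nontrivial (Loc (TT (ResidueField O) hS) (TT_comm hS) e) :=
    Submodule.nontrivial_iff_ne_bot.mpr h2
  haveI : Module.Finite (ResidueField O)
      (Loc (TT (ResidueField O) hS) (TT_comm hS) e) := inferInstance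
  exact Module.finrank_pos

end Fermat.Agent.H59
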