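import Fermat.Agent.H53TWL3
import Fermat.Agent.H69TWMod
import Fermat.Agent.H55CoeffRing
import Fermat.Agent.H59LL1

/-!
# The outer part of the theorem on Taylor-Wiles-Kisin levels
-/

set_option autoImplicit false
set_option linter.style.haveILetI false
set_option linter.unusedSectionVars false

noncomputable section

open Polynomial IsLocalRing GaloisRep Fermat.Agent.H53 Fermat.Agent.H69.EG Fermat.Agent.H57.Tame
open Fermat.Agent.H87.Glue

namespace Fermat.Agent.H59

local notation "Qb" => AlgebraicClosure ℚ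
local notation "Gq" => (AlgebraicClosure ℚ ≃ₐ[ℚ] AlgebraicClosure ℚ)

/-- if quadratic polynomials with integral coefficients split over `k`, then so do the
characteristic polynomials of the base change of a representation over the prime field -/
theorem hsplit_of_roots {p : ℕ} [Fact p.Prime] (ρ : ResidualGaloisRep (ZMod p)) (k : Type)
    [Field k] [Algebra (ZMod p) k] (h : ∀ t d : ℤ, ∃ α β : k, α + β = t ∧ α * β = d) (σ : Gq) :
    ∃ α β : k, LinearMap.charpoly ((ρ.baseChange k).ρ σ) = (X - C α) * (X - C β) := by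
  rw [H45.charpoly_baseChange_apply, H86.charpoly_eq_of_finrank_two ρ.finrank_eq]
  obtain ⟨t, ht⟩ := ZMod.intCast_surjective (LinearMap.trace (ZMod p) ρ.V (ρ.ρ σ))
  obtain ⟨d, hd⟩ := ZMod.intCast_surjective (LinearMap.det (ρ.ρ σ))
  obtain ⟨α, β, h1, h2⟩ := h t d
  have e1 : algebraMap (ZMod p) k (LinearMap.trace (ZMod p) ρ.V (ρ.ρ σ)) = α + β := by
    rw [h1, ← ht, map_intCast]
  have e2 : algebraMap (ZMod p) k (LinearMap.det (ρ.ρ σ)) = α * β := by
    rw [h2, ← hd, map_intCast]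
  refine ⟨α, β, ?_⟩
  rw [Polynomial.map_add, Polynomial.map_sub, Polynomial.map_mul, Polynomial.map_pow, map_X,
    map_C, map_C, e1, e2, C_add, C_mul]
  ring

/-- the primes `t ∈ T` as a type -/
abbrev Tset (T : Finset ℕ) : Type := {t : ℕ // t ∈ T}

/-- **The residual hypotheses**: `A` = ramified primes, `T` = some unramified primes which are
`1` modulo `p` with scalar Frobenius. -/
structure ResHyp (W : WeierstrassCurve ℤ) (hΔ : W.Δ ≠ 0) (p : ℕ) [Fact p.Prime]
    (A T : Finset ℕ) : Prop where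
  A_prime : ∀ q ∈ A, q.Prime
  A_ne : ∀ q ∈ A, q ≠ p
  A_ram : ∀ q ∈ A, ¬ (resZ W hΔ p).IsUnramifiedAt q
  A_unip : ∀ q ∈ A, ∀ P : ValuationSubring Qb, P.LiesOverPrime q →
    ∀ σ ∈ P.inertiaSubgroupIn ℚ, LinearMap.charpoly ((resZ W hΔ p).ρ σ) = (X - 1) ^ 2
  unr : ∀ q : ℕ, q.Prime → q ≠ p → q ∉ A → (resZ W hΔ p).IsUnramifiedAt q
  T_prime : ∀ t ∈ T, t.Prime
  T_dvd : ∀ t ∈ T, p ∣ t - 1
  T_unr : ∀ t ∈ T, (resZ W hΔ p).IsUnramifiedAt t
  T_scalar : ∀ t ∈ T, ∃ u : ℤ, u ^ 2 = 1 ∧ ∀ P : ValuationSubring Qb, P.LiesOverPrime t →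
    ∀ φ : Gq, P.IsFrobeniusAt φ t → (resZ W hΔ p).ρ φ = (u : ZMod p) • 1
  flat : ∀ (k : Type) [Field k] [Finite k] [Algebra (ZMod p) k],
    (GaloisRepAdic.ofResidualGaloisRep ((resZ W hΔ p).baseChange k)).IsFlatAt p

/-- The choice of the coefficient ring. -/
structure CoeffChoice (p : ℕ) [Fact p.Prime] (T : Finset ℕ) (O : Type) [CommRing O] [IsDomain O]
    [IsDiscreteValuationRing O] (ϖ : O) (a : ℕ) (ζ : O) : Prop where
  adic : IsAdicComplete (maximalIdeal O) O
  char0 : CharZero O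
  finite : Finite (ResidueField O)
  charp : CharP (ResidueField O) p
  mem : (p : O) ∈ maximalIdeal O
  unif : maximalIdeal O = Ideal.span {ϖ}
  roots : ∀ t d : ℤ, ∃ α β : ResidueField O, α + β = t ∧ α * β = d
  prim : IsPrimitiveRoot ζ (p ^ a)
  one_le : 1 ≤ a
  le : ∀ t ∈ T, padicValNat p (t - 1) ≤ a

theorem exists_coeffChoice (p : ℕ) [Fact p.Prime] (T : Finset ℕ) :
    ∃ (O : Type) (_ : CommRing O) (_ : IsDomain O) (_ : IsDiscreteValuationRing O) (ϖ : O) (a : ℕ)
      (ζ : O), CoeffChoice p T O ϖ a ζ := by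
  set a := (T.sup fun t => padicValNat p (t - 1)) + 1 with ha
  obtain ⟨O, i1, i2, i3, h1, h2, h3, h4, h5, h6, ζ, h7⟩ := H55.exists_coeffRing p a
  obtain ⟨ϖ, hϖ⟩ := IsDiscreteValuationRing.exists_irreducible O
  exact ⟨O, i1, i2, i3, ϖ, a, ζ, h1, h2, h3, h4, h5, hϖ.maximalIdeal_eq, h6, h7, by omega,
    fun t ht => (Finset.le_sup (f := fun t => padicValNat p (t - 1)) ht).trans (by omega)⟩

/-- the sets of roots of unity -/
def Zset (O : Type) [CommRing O] [IsDomain O] (p : ℕ) [Fact p.Prime] (T : Finset ℕ) (t : Tset T) :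
    Finset Oˣ :=
  H55.ntRoots O p (padicValNat p (t.1 - 1))

section Main

variable {W : WeierstrassCurve ℤ} {hΔ : W.Δ ≠ 0} {p : ℕ} [hp : Fact p.Prime] {A T : Finset ℕ}

/-- **The inner statement**: at every Taylor-Wiles-Kisin level the Galois side can be completed by
the Hecke side. -/
def Inner (W : WeierstrassCurve ℤ) (hΔ : W.Δ ≠ 0) (p : ℕ) [Fact p.Prime] (A T : Finset ℕ)
    (S₀ : Finset ℕ) (t₀ : Tset T) : Prop :=
  ∀ (O : Type) [CommRing O] [IsDomain O] [IsDiscreteValuationRing O]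
    [IsAdicComplete (maximalIdeal O) O] [CharZero O] [Finite (ResidueField O)]
    [CharP (ResidueField O) p] [Algebra (ZMod p) (ResidueField O)] (ϖ : O) (a : ℕ) (ζ : O)
    (_ : CoeffChoice p T O ϖ a ζ)
    (b : Module.Basis (Fin 2) (ResidueField O) ((resZ W hΔ p).baseChange (ResidueField O)).V)
    (pl : ∀ t : Tset T, PlaceData p t.1) (u : Tset T → O) (_ : ∀ t, u t ^ 2 = 1)
    (_ : ∀ t, toMat ((resZ W hΔ p).baseChange (ResidueField O)).ρ b (pl t).φ =
      residue O (u t) • (1 : M2 (ResidueField O))) (k : ℕ),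
    ∃ D : ℕ, ∀ n (_ : GalLevel p ((resZ W hΔ p).baseChange (ResidueField O)) b A
      (fun t : Tset T => t.1) pl u k n S₀),
      Nonempty (TWLevel O ϖ p (3 * Nat.card (Tset T) + k) n D (BRing O (Tset T) k)
        (bVar O k) (fun t : Tset T => t.1) u (Zset O p T) t₀)

theorem no_levels (h5 : 5 ≤ p) (hTv : H45.HasTv (resZ W hΔ p).ρ) (GW : H56.GWIneq p)
    (F : ∀ (k : Type) [Field k] [Finite k] [Algebra (ZMod p) k], H56.StatementF (k := k) p)
    (H : ResHyp W hΔ p A T) (S₀ : Finset ℕ) (t₀ : Tset T) (inner : Inner W hΔ p A T S₀ t₀) :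
    False := by
  classical
  obtain ⟨O, i1, i2, i3, ϖ, a, ζ, hO⟩ := exists_coeffChoice p T
  haveI := hO.adic
  haveI := hO.char0
  haveI := hO.finite
  haveI := hO.charp
  letI : Algebra (ZMod p) (ResidueField O) := ZMod.algebra _ p
  have hp2 : p ≠ 2 := by omega
  have h2k : (2 : ResidueField O) ≠ 0 := by
    intro h
    have h1 : ((2 : ℕ) : ResidueField O) = 0 := by exact_mod_cast h
    rw [CharP.cast_eq_zero_iff (ResidueField O) p] at h1
    have := Nat.le_of_dvd (by norm_num) h1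
    omega
  have h2z : (2 : ZMod p) ≠ 0 := by
    intro h
    apply h2k
    have h1 := congrArg (algebraMap (ZMod p) (ResidueField O)) h
    rwa [map_ofNat, map_zero] at h1
  have h2O : IsUnit (2 : O) := by
    by_contra hcon
    apply h2k
    have h1 : (2 : O) ∈ maximalIdeal O := hcon
    rw [← residue_eq_zero_iff] at h1
    rwa [map_ofNat] at h1
  set ρbar := (resZ W hΔ p).baseChange (ResidueField O) with hρbar
  have hTvk : H45.HasTv ρbar.ρ := H45.hasTv_baseChange _ hTv _
  have habs : ρbar.IsAbsolutelyIrreducible := H45.isAbsolutelyIrreducible_of_hasTv _ h2k hTvk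
  have hdet := H45.detIsCyclotomic_resZ_baseChange W hΔ p (ResidueField O)
  have hsplit := hsplit_of_roots (resZ W hΔ p) (ResidueField O) hO.roots
  have hTW := H45.hTW_of_hasTv ρbar h2k hTvk
  let b : Module.Basis (Fin 2) (ResidueField O) ρbar.V :=
    (Module.finBasisOfFinrankEq (ResidueField O) ρbar.V ρbar.finrank_eq)
  have hTp : ∀ t : Tset T, p ≠ t.1 := fun t =>
    ne_of_dvd_sub_one hp.out (H.T_prime t.1 t.2) (H.T_dvd t.1 t.2)
  choose pl hpl using fun t : Tset T =>
    exists_stdPlace (p := p) ⟨t.1, H.T_prime t.1 t.2⟩ (hTp t)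
  choose u₀ hu₀ hu₁ using fun t : Tset T => H.T_scalar t.1 t.2
  let u : Tset T → O := fun t => (u₀ t : O)
  have hu : ∀ t, u t ^ 2 = 1 := fun t => by
    have := congrArg (Int.cast : ℤ → O) (hu₀ t)
    push_cast at this
    exact this
  have hφ : ∀ t, toMat ρbar.ρ b (pl t).φ = residue O (u t) • (1 : M2 (ResidueField O)) := by
    intro t
    have h1 : ρbar.ρ (pl t).φ = (residue O (u t)) • (1 : Module.End (ResidueField O) ρbar.V) := by
      have h2 : ρbar.ρ (pl t).φ = ((resZ W hΔ p).ρ (pl t).φ).baseChange (ResidueField O) := rfl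
      rw [h2, hu₁ t _ (pl t).lies _ (pl t).frob, LinearMap.baseChange_smul,
        LinearMap.baseChange_one]
      have h3 : residue O (u t) = algebraMap (ZMod p) (ResidueField O) ((u₀ t : ℤ) : ZMod p) := by
        rw [map_intCast, map_intCast]
      rw [h3, algebraMap_smul]
    rw [toMat_apply, h1, map_smul, LinearMap.toMatrix_one]
  obtain ⟨k, hk⟩ := exists_galLevel (p := p) hp2 hO.mem GW
    (fun {_} => F (ResidueField O)) ρbar habs hdet hsplit hTW b (H.flat (ResidueField O)) A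
    (fun q hq => ⟨H.A_prime q hq, H.A_ne q hq⟩)
    (fun q hq h => H.A_ram q hq ((H45.isUnramifiedAt_baseChange_iff _ _).mp h))
    (fun q hq P hP σ hσ => by
      have h1 := H.A_unip q hq P hP σ hσ
      have h2 := H45.charpoly_baseChange_apply (resZ W hΔ p) (ResidueField O) σ
      rw [h1] at h2
      refine h2.trans ?_
      rw [Polynomial.map_pow, Polynomial.map_sub, map_X, Polynomial.map_one])
    (fun q hq hqp hqA => (H45.isUnramifiedAt_baseChange_iff _ _).mpr (H.unr q hq hqp hqA))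
    (fun t : Tset T => t.1) (fun t => H.T_prime t.1 t.2) Subtype.val_injective
    (fun t => H.T_dvd t.1 t.2) (fun t h => H.A_ram _ h (H.T_unr t.1 t.2)) u hu pl hpl hφ
  obtain ⟨D, hD⟩ := inner O ϖ a ζ hO b pl u hu hφ k
  refine no_patching_mv (O := O) (T := Tset T) hO.unif (p := p) (k := k) (D := D) hO.mem h2O
    (q := fun t => t.1) (fun t => (H.T_prime t.1 t.2).one_le) (fun t => ?_) (v := u)
    (fun t => ?_) (Z := Zset O p T) ?_ ?_ ?_ (t₀ := t₀) fun n => ?_
  · obtain ⟨c, hc⟩ := H.T_dvd t.1 t.2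
    have h1 : ((t.1 : ℕ) : O) - 1 = ((p * c : ℕ) : O) := by
      rw [← hc, Nat.cast_sub (H.T_prime t.1 t.2).one_le, Nat.cast_one]
    rw [h1, Nat.cast_mul]
    exact Ideal.mul_mem_right _ _ hO.mem
  · rw [hu t, sub_self]
    exact Ideal.zero_mem _
  · intro t z hz
    exact (H55.mem_ntRoots.mp hz).2
  · intro t z hz
    obtain ⟨c, hc⟩ : p ^ padicValNat p (t.1 - 1) ∣ t.1 - 1 := pow_padicValNat_dvd
    rw [hc, pow_mul, (H55.mem_ntRoots.mp hz).1, one_pow]
  · intro t z hz
    have h1 := (H55.mem_ntRoots.mp hz).1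
    exact H55.sub_one_mem_of_pow (p := p) (a := padicValNat p (t.1 - 1)) (by
      rw [← Units.val_pow_eq_pow_val, h1, Units.val_one])
  · obtain ⟨G⟩ := hk k le_rfl n S₀
    exact hD n G

end Main

end Fermat.Agent.H59
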