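/-
Passing to a quotient of the deformation ring in a level of the full endgame.
-/
import Fermat.Agent.H57FullIdx

set_option autoImplicit false
set_option linter.style.haveILetI false
set_option linter.unusedSectionVars false

namespace Fermat.Agent.H69.Quot

open IsLocalRing Fermat.Agent.H57 Fermat.Agent.H57.Tame Fermat.Agent.H57.NM
  Fermat.Agent.H69.KP Fermat.Agent.H69.EG Fermat.Agent.H57.Full

section Scalars

variable {R : Type} [CommRing R] (I : Ideal R)

/-- comparison of isomorphisms over a ring and over a quotient acting -/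
lemma nonempty_equiv_quot {M N : Type} [AddCommGroup M] [Module R M] [Module (R ⧸ I) M]
    [AddCommGroup N] [Module R N] [Module (R ⧸ I) N]
    (hM : ∀ (f : R) (x : M), f • x = Ideal.Quotient.mk I f • x)
    (hN : ∀ (f : R) (x : N), f • x = Ideal.Quotient.mk I f • x) (K : Ideal R)
    (K' : Ideal (R ⧸ I)) (hK : K' = K.map (Ideal.Quotient.mk I))
    (eq : (M ⧸ (K • ⊤ : Submodule R M)) ≃ₗ[R] (N ⧸ (K • ⊤ : Submodule R N))) :
    Nonempty ((M ⧸ (K' • ⊤ : Submodule (R ⧸ I) M)) ≃ₗ[R ⧸ I]
      (N ⧸ (K' • ⊤ : Submodule (R ⧸ I) N))) := by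
  subst hK
  obtain ⟨eM, heM⟩ := exists_addEquiv (Ideal.Quotient.mk I) Ideal.Quotient.mk_surjective hM K
  obtain ⟨eN, heN⟩ := exists_addEquiv (Ideal.Quotient.mk I) Ideal.Quotient.mk_surjective hN K
  refine ⟨{ (eM.symm.trans (eq.toAddEquiv.trans eN)) with map_smul' := ?_ }⟩
  intro f x
  obtain ⟨f, rfl⟩ := Ideal.Quotient.mk_surjective f
  obtain ⟨x, rfl⟩ := Submodule.Quotient.mk_surjective _ x
  obtain ⟨y, hy⟩ := Submodule.Quotient.mk_surjective _ (eq (Submodule.Quotient.mk x))
  have h1 : ∀ x : M, eM.symm (Submodule.Quotient.mk x) = Submodule.Quotient.mk x := fun x => by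
    rw [AddEquiv.symm_apply_eq, heM]
  change eN (eq (eM.symm (Ideal.Quotient.mk I f • Submodule.Quotient.mk x))) =
    Ideal.Quotient.mk I f • eN (eq (eM.symm (Submodule.Quotient.mk x)))
  rw [← Submodule.Quotient.mk_smul, ← hM, h1, h1, Submodule.Quotient.mk_smul, map_smul, ← hy,
    ← Submodule.Quotient.mk_smul, heN, heN, hN, Submodule.Quotient.mk_smul]

end Scalars

attribute [local instance] RPart.instCommRing RPart.instLocal RPart.instAlgebra
attribute [local instance] FullLevel.instAddCommGroup FullLevel.instModule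

set_option maxHeartbeats 1000000 in
/-- **Quotients of the deformation ring.** -/
theorem nonempty_quot {O : Type} [CommRing O] [IsLocalRing O] {ϖ c' : O}
    {p r n D m s : ℕ} {T B B' : Type} [CommRing B] [Algebra O B] [CommRing B'] [Algebra O B']
    {X : T → Fin 6 → B} {Y : Fin s → Fin 3 → B} {X' : T → Fin 6 → B'} {Y' : Fin s → Fin 3 → B'}
    {q : T → ℕ} {v : T → O} {Z : T → Finset Oˣ} {cb : Fin s → O}
    (L : FullLevel O ϖ c' p r n D m s B X Y q v Z cb) (I : Ideal L.R)
    (hIN : ∀ τ, ∀ a ∈ I, ∀ x : L.N τ, a • x = 0) (hIpt : ∀ a ∈ I, L.pt a = 0)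
    (β' : B' →ₐ[O] L.R ⧸ I) (hβ' : Function.Surjective β')
    (hX : ∀ t j, β' (X' t j) = Ideal.Quotient.mk I (L.β (X t j)))
    (hY : ∀ i j, β' (Y' i j) = Ideal.Quotient.mk I (L.β (Y i j))) :
    Nonempty (FullLevel O ϖ c' p r n D m s B' X' Y' q v Z cb) := by
  have hI : I ≠ ⊤ := by
    rintro rfl
    have h1 := hIpt 1 trivial
    rw [map_one] at h1
    exact one_ne_zero h1
  haveI : Nontrivial (L.R ⧸ I) := Ideal.Quotient.nontrivial_iff.mpr hI
  haveI iL : IsLocalRing (L.R ⧸ I) := IsLocalRing.of_surjective' _ Ideal.Quotient.mk_surjective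
  haveI iH : IsLocalHom (Ideal.Quotient.mk I) :=
    IsLocalHom.of_surjective _ Ideal.Quotient.mk_surjective
  have hmax : ∀ a ∈ maximalIdeal L.R, Ideal.Quotient.mk I a ∈ maximalIdeal (L.R ⧸ I) := by
    intro a ha
    rw [mem_maximalIdeal, mem_nonunits_iff] at ha ⊢
    exact fun h => ha ((isUnit_map_iff (Ideal.Quotient.mk I) a).mp h)
  letI iM : ∀ τ, Module (L.R ⧸ I) (L.N τ) := fun τ =>
    Module.IsTorsionBySet.module (fun x a => hIN τ a a.2 x)
  have hsm : ∀ τ (a : L.R) (x : L.N τ), Ideal.Quotient.mk I a • x = a • x := fun _ _ _ => rfl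
  have halg : ∀ x : O, algebraMap O (L.R ⧸ I) x = Ideal.Quotient.mk I (algebraMap O L.R x) :=
    fun _ => rfl
  have hpt : ∀ a, (Ideal.Quotient.liftₐ I L.pt hIpt) (Ideal.Quotient.mk I a) = L.pt a :=
    fun _ => rfl
  refine ⟨
    { R := L.R ⧸ I
      β := β'
      β_surj := hβ'
      Sg := fun t => (L.Sg t).map (Ideal.Quotient.mk I)
      Ph := fun t => (L.Ph t).map (Ideal.Quotient.mk I)
      det_Sg := fun t => ?_
      det_Ph := fun t => ?_
      tame := fun t => ?_
      tr_Sg := fun t => ?_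
      tr_Ph := fun t => ?_
      hX0 := fun t => ?_
      hX1 := fun t => ?_
      hX2 := fun t => ?_
      hX3 := fun t => ?_
      hX4 := fun t => ?_
      hX5 := fun t => ?_
      N := L.N
      d := L.d
      d_pos := L.d_pos
      d_le := L.d_le
      e := L.e
      le_e := L.le_e
      φ := (Ideal.Quotient.mkₐ O I).comp L.φ
      φ_mem := fun j => hmax _ (L.φ_mem j)
      b := L.b
      b_span := fun τ x => ?_
      b_rel := fun τ c => ?_
      prod_smul := fun t x => ?_
      uni_smul := fun i t x => ?_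
      chi_nr := fun i x => ?_
      mod_nr := fun i j hij x => ?_
      mod_uni := fun i j hij x => ?_
      new_smul := fun i x => ?_
      iso := ?_
      quo := fun i =>
        { toFun := L.quo i
          map_add' := (L.quo i).map_add
          map_smul' := fun a x => by
            obtain ⟨a, rfl⟩ := Ideal.Quotient.mk_surjective a
            exact (L.quo i).map_smul a x }
      quo_surj := L.quo_surj
      low := fun i =>
        { toFun := L.low i
          map_add' := (L.low i).map_add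
          map_smul' := fun a x => by
            obtain ⟨a, rfl⟩ := Ideal.Quotient.mk_surjective a
            exact (L.low i).map_smul a x }
      low_surj := fun i a => ?_
      low_old := fun i x hx => ?_
      pt := Ideal.Quotient.liftₐ I L.pt hIpt
      pt_φ := fun j => L.pt_φ j
      pt_uni := fun t => L.pt_uni t
      pt_t := fun i => ?_
      pt_z := fun i => ?_
      f := Ideal.Quotient.mk I L.f
      f_smul := fun x => ?_
      f_pt := L.f_pt }⟩
  · change Ideal.Quotient.mk I _ * Ideal.Quotient.mk I _ -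
      Ideal.Quotient.mk I _ * Ideal.Quotient.mk I _ = 1
    rw [← map_mul, ← map_mul, ← map_sub, L.det_Sg, map_one]
  · change Ideal.Quotient.mk I _ * Ideal.Quotient.mk I _ -
      Ideal.Quotient.mk I _ * Ideal.Quotient.mk I _ = _
    rw [← map_mul, ← map_mul, ← map_sub, L.det_Ph, map_natCast]
  · have h1 := congrArg (fun A : Matrix (Fin 2) (Fin 2) L.R => A.map (Ideal.Quotient.mk I))
      (L.tame t)
    have h2 : ((Ideal.Quotient.mk I).mapMatrix (L.Ph t * L.Sg t)) =
        (Ideal.Quotient.mk I).mapMatrix (L.Sg t ^ q t * L.Ph t) := h1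
    rw [map_mul, map_mul, map_pow] at h2
    exact h2
  · change Ideal.Quotient.mk I _ + Ideal.Quotient.mk I _ - 2 ∈ _
    have := hmax _ (L.tr_Sg t)
    rwa [map_sub, map_add, map_ofNat] at this
  · change Ideal.Quotient.mk I _ + Ideal.Quotient.mk I _ - 2 * _ ∈ _
    have := hmax _ (L.tr_Ph t)
    rwa [map_sub, map_add, map_mul, map_ofNat, ← halg] at this
  · change _ = Ideal.Quotient.mk I _ - Ideal.Quotient.mk I _
    rw [hX, ← map_sub, ← L.hX0, map_mul, map_ofNat]
  · change _ = Ideal.Quotient.mk I _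
    rw [hX, ← L.hX1]
  · change _ = Ideal.Quotient.mk I _
    rw [hX, ← L.hX2]
  · change _ = Ideal.Quotient.mk I _ - Ideal.Quotient.mk I _
    rw [hX, ← map_sub, ← L.hX3, map_mul, map_ofNat]
  · change _ = Ideal.Quotient.mk I _
    rw [hX, ← L.hX4]
  · change _ = Ideal.Quotient.mk I _
    rw [hX, ← L.hX5]
  · obtain ⟨c, hc⟩ := L.b_span τ x
    exact ⟨c, hc⟩
  · exact L.b_rel τ c
  · have h1 : (∏ ζ ∈ Z t, ((L.Sg t).map (Ideal.Quotient.mk I) 0 0 +
        (L.Sg t).map (Ideal.Quotient.mk I) 1 1 -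
          algebraMap O (L.R ⧸ I) ((ζ : O) + (ζ⁻¹ : Oˣ)))) =
        Ideal.Quotient.mk I (∏ ζ ∈ Z t, (L.Sg t 0 0 + L.Sg t 1 1 -
          algebraMap O L.R ((ζ : O) + (ζ⁻¹ : Oˣ)))) := by
      rw [map_prod]
      exact Finset.prod_congr rfl fun ζ _ => by
        rw [halg, map_sub, map_add]
        rfl
    rw [h1, hsm]
    exact L.prod_smul t x
  · have h1 : ((L.Sg t).map (Ideal.Quotient.mk I) 0 0 +
        (L.Sg t).map (Ideal.Quotient.mk I) 1 1 - 2) =
        Ideal.Quotient.mk I (L.Sg t 0 0 + L.Sg t 1 1 - 2) := by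
      rw [map_sub, map_add, map_ofNat]
      rfl
    rw [h1, hsm]
    exact L.uni_smul i t x
  · rw [hY, hY, hsm, hsm]
    exact L.chi_nr i x
  · rw [hY, hY, hsm, hsm]
    exact L.mod_nr i j hij x
  · have h1 := L.mod_uni i j hij x
    have e1 : β' (Y' j 1 * Y' j 0) = Ideal.Quotient.mk I (L.β (Y j 1 * Y j 0)) := by
      rw [map_mul, hY, hY, map_mul, map_mul]
    have e2 : β' (Y' j 2 * (Y' j 0 + algebraMap O B' (cb j))) =
        Ideal.Quotient.mk I (L.β (Y j 2 * (Y j 0 + algebraMap O B (cb j)))) := by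
      rw [map_mul, map_add, AlgHom.commutes, hY, hY, halg, map_mul, map_add, AlgHom.commutes,
        map_mul, map_add]
    rw [e1, e2, hsm, hsm]
    exact h1
  · rw [map_pow, map_mul, map_add, AlgHom.commutes, hY, halg, ← map_add, ← map_mul, ← map_pow,
      hsm]
    have h1 := L.new_smul i x
    rw [map_pow, map_mul, map_add, AlgHom.commutes] at h1
    exact h1
  · obtain ⟨eq⟩ := L.iso
    refine nonempty_equiv_quot I (fun f x => rfl) (fun f x => rfl) _ _ ?_ eq
    rw [Ideal.map_span, Set.image_singleton]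
    rfl
  · obtain ⟨y, hy⟩ := L.low_surj i a
    exact ⟨y, hy⟩
  · obtain ⟨a, ha⟩ := L.low_old i x hx
    refine ⟨a, ?_⟩
    rw [hY, hsm]
    exact ha
  · rw [hY, hpt]
    exact L.pt_t i
  · rw [hY, hpt]
    exact L.pt_z i
  · have h1 := L.f_smul x
    have h2 := (smul_top_iff (Ideal.Quotient.mk I) Ideal.Quotient.mk_surjective
      (fun f (x : L.N (.mod (Fin.last s))) => rfl) _ _).mp h1
    rw [Ideal.map_span, ← Set.range_comp] at h2
    exact h2

end Fermat.Agent.H69.Quot
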