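/-
The endgame when one mark `t` kills all modules (strict ordinary points on an ordinary deformation
ring): case `Pβ` of modularity lifting.
-/
import Fermat.Agent.H69Quot

set_option autoImplicit false
set_option linter.style.haveILetI false
set_option linter.unusedSectionVars false

namespace Fermat.Agent.H69.Quot

open IsLocalRing Fermat.Agent.H57 Fermat.Agent.H57.Tame Fermat.Agent.H57.NM
  Fermat.Agent.H69.KP Fermat.Agent.H69.EG Fermat.Agent.H57.Full

attribute [local instance] RPart.instCommRing RPart.instLocal RPart.instAlgebra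
attribute [local instance] FullLevel.instAddCommGroup FullLevel.instModule

/-- A presentation of a quotient by fewer variables. -/
theorem exists_pres_quot {O : Type} [CommRing O] [IsLocalRing O] [IsNoetherianRing O]
    [IsAdicComplete (maximalIdeal O) O] {σ σ₁ : Type} [Finite σ] [Finite σ₁]
    {R : Type} [CommRing R] [IsLocalRing R] [Algebra O R] (β : MvPowerSeries σ O →ₐ[O] R)
    (hβ : Function.Surjective β) (I : Ideal R) (hI : I ≠ ⊤) (j : σ₁ → σ)
    (hj : ∀ a, (∃ b, j b = a) ∨ β (MvPowerSeries.X a) ∈ I) :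
    ∃ β' : MvPowerSeries σ₁ O →ₐ[O] R ⧸ I, Function.Surjective β' ∧
      ∀ b, β' (MvPowerSeries.X b) = Ideal.Quotient.mk I (β (MvPowerSeries.X (j b))) := by
  classical
  haveI hB : IsAdicComplete (maximalIdeal (MvPowerSeries σ O)) (MvPowerSeries σ O) :=
    isAdicComplete_mv _ _
  haveI hB' : IsAdicComplete (maximalIdeal (MvPowerSeries σ₁ O)) (MvPowerSeries σ₁ O) :=
    isAdicComplete_mv _ _
  haveI : Nontrivial (R ⧸ I) := Ideal.Quotient.nontrivial_iff.mpr hI
  haveI iL : IsLocalRing (R ⧸ I) := IsLocalRing.of_surjective' _ Ideal.Quotient.mk_surjective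
  let π : MvPowerSeries σ O →+* R ⧸ I := (Ideal.Quotient.mk I).comp (β : MvPowerSeries σ O →+* R)
  have hπ : Function.Surjective π := Ideal.Quotient.mk_surjective.comp hβ
  haveI : IsAdicComplete (maximalIdeal (R ⧸ I)) (R ⧸ I) := isAdicComplete_of_surjective π hπ
  haveI : IsLocalHom π := IsLocalHom.of_surjective π hπ
  obtain ⟨E, hEC, hEX⟩ := exists_mv_eval (σ := σ₁)
    (MvPowerSeries.C : O →+* MvPowerSeries σ O) (maximalIdeal (MvPowerSeries σ O))
    (fun i => MvPowerSeries.X (j i)) (fun i => mv_X_mem _)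
  let g : σ → MvPowerSeries σ₁ O := fun a =>
    if h : ∃ b, j b = a then MvPowerSeries.X h.choose else 0
  obtain ⟨G, hGC, hGX⟩ := exists_mv_eval (σ := σ)
    (MvPowerSeries.C : O →+* MvPowerSeries σ₁ O) (maximalIdeal (MvPowerSeries σ₁ O)) g
    (fun a => by
      simp only [g]
      split_ifs with h
      · exact mv_X_mem _
      · exact Ideal.zero_mem _)
  have hπX : ∀ a, π (MvPowerSeries.X a) ∈ maximalIdeal (R ⧸ I) := by
    intro a
    have h1 := mv_X_mem (O := O) a
    rw [mem_maximalIdeal, mem_nonunits_iff] at h1 ⊢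
    exact fun h => h1 ((isUnit_map_iff π _).mp h)
  have key : (π.comp E).comp G = π := by
    refine mv_eval_unique (maximalIdeal (R ⧸ I)) ?_ ?_ ?_
    · intro b
      rw [RingHom.comp_apply, RingHom.comp_apply, hGC, hEC]
    · intro a
      rw [RingHom.comp_apply, RingHom.comp_apply, hGX]
      simp only [g]
      split_ifs with h
      · rw [hEX, h.choose_spec]
      · rw [map_zero, map_zero]
        rcases hj a with h' | h'
        · exact absurd h' h
        · exact (Ideal.Quotient.eq_zero_iff_mem.mpr h').symm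
    · intro a
      rw [RingHom.comp_apply, RingHom.comp_apply, hGX]
      simp only [g]
      split_ifs with h
      · rw [hEX, h.choose_spec]
        exact hπX a
      · rw [map_zero, map_zero]
        exact Ideal.zero_mem _
  refine ⟨{ π.comp E with
            commutes' := fun x => ?_ }, fun y => ?_, fun b => ?_⟩
  · change π (E (MvPowerSeries.C x)) = _
    rw [hEC]
    exact congrArg (Ideal.Quotient.mk I) (β.commutes x)
  · obtain ⟨z, rfl⟩ := hπ y
    exact ⟨G z, RingHom.congr_fun key z⟩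
  · change π (E (MvPowerSeries.X b)) = _
    rw [hEX]
    rfl

variable {O : Type} [CommRing O] [IsDomain O] [IsDiscreteValuationRing O]
    [IsAdicComplete (maximalIdeal O) O]

/-- **Removal of a mark.** If the marks `t` and `z` at one index `e` kill all modules and the
point, then one can pass to the quotient, keeping only the mark `y` as a free variable. -/
theorem nonempty_remove {ϖ c' : O} {p r n D m s k : ℕ} {T ι ε' : Type} [Finite T] [Finite ι]
    [Unique ε'] {q : T → ℕ} {v : T → O} {Z : T → Finset Oˣ} {cb : Fin s → O} (ε : Fin s → ι)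
    (L : FullLevel O ϖ c' p r n D m s
      (MvPowerSeries (((T × Fin 6) ⊕ ((ι ⊕ ε') × Fin 3)) ⊕ Fin k) O)
      (fun t j => MvPowerSeries.X (Sum.inl (Sum.inl (t, j))))
      (fun i j => MvPowerSeries.X (Sum.inl (Sum.inr (Sum.inl (ε i), j)))) q v Z cb)
    (ht : ∀ τ (x : L.N τ),
      L.β (MvPowerSeries.X (Sum.inl (Sum.inr (Sum.inr default, 0)))) • x = 0)
    (hz : ∀ τ (x : L.N τ),
      L.β (MvPowerSeries.X (Sum.inl (Sum.inr (Sum.inr default, 2)))) • x = 0)
    (hpt : L.pt (L.β (MvPowerSeries.X (Sum.inl (Sum.inr (Sum.inr default, 0))))) = 0)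
    (hpz : L.pt (L.β (MvPowerSeries.X (Sum.inl (Sum.inr (Sum.inr default, 2))))) = 0) :
    Nonempty (FullLevel O ϖ c' p r n D m s
      (MvPowerSeries (((T × Fin 6) ⊕ (ι × Fin 3)) ⊕ Fin (k + 1)) O)
      (fun t j => MvPowerSeries.X (Sum.inl (Sum.inl (t, j))))
      (fun i j => MvPowerSeries.X (Sum.inl (Sum.inr (ε i, j)))) q v Z cb) := by
  haveI : Finite ε' := Finite.of_subsingleton
  set a₀ : L.R := L.β (MvPowerSeries.X (Sum.inl (Sum.inr (Sum.inr default, 0)))) with ha₀
  set a₂ : L.R := L.β (MvPowerSeries.X (Sum.inl (Sum.inr (Sum.inr default, 2)))) with ha₂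
  let I : Ideal L.R := Ideal.span {a₀, a₂}
  have hIN : ∀ τ, ∀ a ∈ I, ∀ x : L.N τ, a • x = 0 := by
    intro τ a ha x
    obtain ⟨b, c, rfl⟩ := Ideal.mem_span_pair.mp ha
    rw [add_smul, mul_smul, mul_smul, ht, hz, smul_zero, smul_zero, add_zero]
  have hIpt : ∀ a ∈ I, L.pt a = 0 := by
    intro a ha
    obtain ⟨b, c, rfl⟩ := Ideal.mem_span_pair.mp ha
    rw [map_add, map_mul, map_mul, hpt, hpz, mul_zero, mul_zero, add_zero]
  have hI : I ≠ ⊤ := by
    intro h
    have h1 := hIpt 1 (h ▸ trivial)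
    rw [map_one] at h1
    exact one_ne_zero h1
  let j : ((T × Fin 6) ⊕ (ι × Fin 3)) ⊕ Fin (k + 1) →
      ((T × Fin 6) ⊕ ((ι ⊕ ε') × Fin 3)) ⊕ Fin k :=
    Sum.elim (Sum.elim (fun a => Sum.inl (Sum.inl a))
      (fun a => Sum.inl (Sum.inr (Sum.inl a.1, a.2))))
      (Fin.cases (Sum.inl (Sum.inr (Sum.inr default, 1))) fun l => Sum.inr l)
  obtain ⟨β', hβ', hβX⟩ := exists_pres_quot L.β L.β_surj I hI j (by
    rintro ((a | ⟨i | i, l⟩) | l)
    · exact Or.inl ⟨Sum.inl (Sum.inl a), rfl⟩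
    · exact Or.inl ⟨Sum.inl (Sum.inr (i, l)), rfl⟩
    · obtain rfl : i = default := Subsingleton.elim _ _
      fin_cases l
      · exact Or.inr (Ideal.subset_span (Or.inl rfl))
      · exact Or.inl ⟨Sum.inr 0, rfl⟩
      · exact Or.inr (Ideal.subset_span (Or.inr rfl))
    · exact Or.inl ⟨Sum.inr l.succ, rfl⟩)
  exact nonempty_quot L I hIN hIpt β' hβ' (fun t l => hβX (Sum.inl (Sum.inl (t, l))))
    (fun i l => hβX (Sum.inl (Sum.inr (ε i, l))))

/-- **The endgame in case `Pβ`**, in the index types of `Fermat.Agent.H53.GalLevelB` with the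
ordinary condition at `p` (`ε' = Unit`). -/
theorem no_full_levels_pbeta [Finite (ResidueField O)]
    {ϖ c' : O} (hϖ : maximalIdeal O = Ideal.span {ϖ}) (hc' : c' ≠ 0)
    {p k D m s r : ℕ} (hpO : (p : O) ∈ maximalIdeal O) (h2 : IsUnit (2 : O))
    {T ι ε' : Type} [Finite T] [Finite ι] [Unique ε'] (ε : Fin s ≃ ι)
    (hr : r = 3 * Nat.card T + Nat.card (ι ⊕ ε') + k)
    {q : T → ℕ} (hq0 : ∀ t, 1 ≤ q t) (hq : ∀ t, (q t : O) - 1 ∈ maximalIdeal O)
    (hq1 : ∀ t, (q t : O) ≠ 1) {v : T → O} (hv : ∀ t, v t * v t = 1)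
    {Z : T → Finset Oˣ} (hZ1 : ∀ t, ∀ ζ ∈ Z t, ζ ≠ 1) (hZ2 : ∀ t, ∀ ζ ∈ Z t, ζ ^ (q t - 1) = 1)
    (hZ3 : ∀ t, ∀ ζ ∈ Z t, (ζ : O) - 1 ∈ maximalIdeal O)
    {cb : Fin s → O} (hcb : ∀ i, cb i ≠ 0)
    (L : ∀ n, ∃ L : FullLevel O ϖ c' p r n D m s
      (MvPowerSeries (((T × Fin 6) ⊕ ((ι ⊕ ε') × Fin 3)) ⊕ Fin k) O)
      (fun t j => MvPowerSeries.X (Sum.inl (Sum.inl (t, j))))
      (fun i j => MvPowerSeries.X (Sum.inl (Sum.inr (Sum.inl (ε i), j)))) q v Z cb,
      (∀ τ (x : L.N τ),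
        L.β (MvPowerSeries.X (Sum.inl (Sum.inr (Sum.inr default, 0)))) • x = 0) ∧
      (∀ τ (x : L.N τ),
        L.β (MvPowerSeries.X (Sum.inl (Sum.inr (Sum.inr default, 2)))) • x = 0) ∧
      L.pt (L.β (MvPowerSeries.X (Sum.inl (Sum.inr (Sum.inr default, 0))))) = 0 ∧
      L.pt (L.β (MvPowerSeries.X (Sum.inl (Sum.inr (Sum.inr default, 2))))) = 0) : False := by
  haveI : Finite ε' := Finite.of_subsingleton
  refine no_full_levels_idx (r := r) (m := m) (D := D) hϖ hc' (k := k + 1) hpO h2 ε ?_ hq0 hq hq1 hv hZ1 hZ2 hZ3 hcb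
    fun n => ?_
  · have h1 : Nat.card ε' = 1 := Nat.card_unique
    rw [hr, Nat.card_sum, h1]
    ring
  · obtain ⟨L, h1, h3, h4, h5⟩ := L n
    exact nonempty_remove ε L h1 h3 h4 h5

end Fermat.Agent.H69.Quot
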