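/-
The outer part of the full modularity lifting theorem (levels with scalar primes `T` and
non-scalar primes `B`), for a semistable curve `W` and `p ∈ {3, 5}`.
-/
import Fermat.Agent.H57FullIdx
import Fermat.Agent.H69PBeta
import Fermat.Agent.H53RPart
import Fermat.Agent.H59LL2
import Fermat.Agent.H73TW
import Fermat.Agent.H75EC4

set_option autoImplicit false
set_option linter.style.haveILetI false
set_option linter.unusedSectionVars false

noncomputable section

open Polynomial IsLocalRing GaloisRep Fermat.Agent.H53 Fermat.Agent.H57.Full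
open Fermat.Agent.H87.Glue Fermat.Agent.H59 ExtCitation Fermat.Agent.H55 Fermat.Agent.H56

namespace Fermat.Agent.H57.S59

attribute [local instance] H57.NM.RPart.instCommRing H57.NM.RPart.instLocal
  H57.NM.RPart.instAlgebra
attribute [local instance] FullLevel.instAddCommGroup FullLevel.instModule

local notation "Qb" => AlgebraicClosure ℚ
local notation "Gq" => (AlgebraicClosure ℚ ≃ₐ[ℚ] AlgebraicClosure ℚ)

/-- **The residual hypotheses**: `A` = ramified primes, `T` = some unramified primes which are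
`1` modulo `p` with scalar Frobenius, `B` = some unramified primes with non-scalar Frobenius and
trace `sB q * (q + 1)`. -/
structure ResHypB (W : WeierstrassCurve ℤ) (hΔ : W.Δ ≠ 0) (p : ℕ) [Fact p.Prime]
    (A T B : Finset ℕ) (sB : ℕ → ℤ) : Prop where
  A_prime : ∀ q ∈ A, q.Prime
  A_ne : ∀ q ∈ A, q ≠ p
  A_ram : ∀ q ∈ A, ¬ (resZ W hΔ p).IsUnramifiedAt q
  A_unip : ∀ q ∈ A, ∀ P : ValuationSubring Qb, P.LiesOverPrime q →
    ∀ σ ∈ P.inertiaSubgroupIn ℚ, LinearMap.charpoly ((resZ W hΔ p).ρ σ) = (X - 1) ^ 2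
  unr : ∀ q : ℕ, q.Prime → q ≠ p → q ∉ A → (resZ W hΔ p).IsUnramifiedAt q
  T_prime : ∀ t ∈ T, t.Prime
  T_dvd : ∀ t ∈ T, p ∣ t - 1
  T_unr : ∀ t ∈ T, (resZ W hΔ p).IsUnramifiedAt t
  T_scalar : ∀ t ∈ T, ∃ u : ℤ, u ^ 2 = 1 ∧ ∀ P : ValuationSubring Qb, P.LiesOverPrime t →
    ∀ φ : Gq, P.IsFrobeniusAt φ t → (resZ W hΔ p).ρ φ = (u : ZMod p) • 1
  B_prime : ∀ q ∈ B, q.Prime
  B_ne : ∀ q ∈ B, q ≠ p
  B_unr : ∀ q ∈ B, (resZ W hΔ p).IsUnramifiedAt q
  B_nonscalar : ∀ q ∈ B, ∀ P : ValuationSubring Qb, P.LiesOverPrime q →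
    ∀ φ : Gq, P.IsFrobeniusAt φ q → ∀ c : ZMod p, (resZ W hΔ p).ρ φ ≠ c • 1
  B_sign : ∀ q ∈ B, sB q ^ 2 = 1
  B_trace : ∀ q ∈ B, ∀ P : ValuationSubring Qb, P.LiesOverPrime q →
    ∀ φ : Gq, P.IsFrobeniusAt φ q →
      LinearMap.trace (ZMod p) _ ((resZ W hΔ p).ρ φ) = (sB q : ZMod p) * ((q : ZMod p) + 1)

/-- **The inner statement** (types `F`, `O`, `Pα`): at every level the Galois side can be
completed by the Hecke side. The index type of the marks of `s` raising steps is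
`Tset B ⊕ pd.ε`. -/
def InnerFull (W : WeierstrassCurve ℤ) (hΔ : W.Δ ≠ 0) (p : ℕ) [Fact p.Prime] (A T B : Finset ℕ)
    (sB : ℕ → ℤ) : Prop :=
  ∀ (O : Type) [CommRing O] [IsDomain O] [IsDiscreteValuationRing O]
    [IsAdicComplete (maximalIdeal O) O] [CharZero O] [Finite (ResidueField O)]
    [CharP (ResidueField O) p] [Algebra (ZMod p) (ResidueField O)] (ϖ : O) (a : ℕ) (ζ : O)
    (_ : CoeffChoice p T O ϖ a ζ)
    (b : Module.Basis (Fin 2) (ResidueField O) ((resZ W hΔ p).baseChange (ResidueField O)).V)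
    (pl : ∀ t : Tset T, PlaceData p t.1)
    (_ : ∀ (t : Tset T) (ht : t.1.Prime), (pl t).P = primeLocalPlace ⟨t.1, ht⟩)
    (u : Tset T → O) (_ : ∀ t, u t ^ 2 = 1)
    (_ : ∀ t, toMat ((resZ W hΔ p).baseChange (ResidueField O)).ρ b (pl t).φ =
      residue O (u t) • (1 : M2 (ResidueField O)))
    (plB : ∀ i : Tset B, PlaceData p i.1)
    (_ : ∀ (i : Tset B) (hi : i.1.Prime), (plB i).P = primeLocalPlace ⟨i.1, hi⟩),
    ∃ pd : PData p ((resZ W hΔ p).baseChange (ResidueField O)) b,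
      ∀ k : ℕ, ∃ (D m s : ℕ) (ε : Fin s ≃ Tset B ⊕ pd.ε) (cb : Fin s → O) (c' : O),
        (∀ i, cb i ≠ 0) ∧ c' ≠ 0 ∧ ∀ n : ℕ, ∃ S₀ : Finset ℕ,
        ∀ _ : GalLevelB p ((resZ W hΔ p).baseChange (ResidueField O)) b pd A
          (fun t : Tset T => t.1) pl u (fun i : Tset B => i.1) plB (fun i => (sB i.1 : O)) k n S₀,
          Nonempty (FullLevel O ϖ c' p (numB (Tset T) (Tset B) pd.ε k) n D m s
            (MvPowerSeries (((Tset T × Fin 6) ⊕ ((Tset B ⊕ pd.ε) × Fin 3)) ⊕ Fin k) O)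
            (fun t j => MvPowerSeries.X (Sum.inl (Sum.inl (t, j))))
            (fun i j => MvPowerSeries.X (Sum.inl (Sum.inr (ε i, j))))
            (fun t : Tset T => t.1) u (Zset O p T) cb)

/-- **The inner statement, type `Pβ`**: one mark at `p`, which kills all the modules, and `s`
raising steps with index type `Tset B`. -/
def InnerBeta (W : WeierstrassCurve ℤ) (hΔ : W.Δ ≠ 0) (p : ℕ) [Fact p.Prime] (A T B : Finset ℕ)
    (sB : ℕ → ℤ) : Prop :=
  ∀ (O : Type) [CommRing O] [IsDomain O] [IsDiscreteValuationRing O]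
    [IsAdicComplete (maximalIdeal O) O] [CharZero O] [Finite (ResidueField O)]
    [CharP (ResidueField O) p] [Algebra (ZMod p) (ResidueField O)] (ϖ : O) (a : ℕ) (ζ : O)
    (_ : CoeffChoice p T O ϖ a ζ)
    (b : Module.Basis (Fin 2) (ResidueField O) ((resZ W hΔ p).baseChange (ResidueField O)).V)
    (pl : ∀ t : Tset T, PlaceData p t.1)
    (_ : ∀ (t : Tset T) (ht : t.1.Prime), (pl t).P = primeLocalPlace ⟨t.1, ht⟩)
    (u : Tset T → O) (_ : ∀ t, u t ^ 2 = 1)
    (_ : ∀ t, toMat ((resZ W hΔ p).baseChange (ResidueField O)).ρ b (pl t).φ =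
      residue O (u t) • (1 : M2 (ResidueField O)))
    (plB : ∀ i : Tset B, PlaceData p i.1)
    (_ : ∀ (i : Tset B) (hi : i.1.Prime), (plB i).P = primeLocalPlace ⟨i.1, hi⟩),
    ∃ (pd : PData p ((resZ W hΔ p).baseChange (ResidueField O)) b) (j₀ : pd.ε),
      (∀ j, j = j₀) ∧
      ∀ k : ℕ, ∃ (D m s : ℕ) (ε : Fin s ≃ Tset B) (cb : Fin s → O) (c' : O),
        (∀ i, cb i ≠ 0) ∧ c' ≠ 0 ∧ ∀ n : ℕ, ∃ S₀ : Finset ℕ,
        ∀ _ : GalLevelB p ((resZ W hΔ p).baseChange (ResidueField O)) b pd A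
          (fun t : Tset T => t.1) pl u (fun i : Tset B => i.1) plB (fun i => (sB i.1 : O)) k n S₀,
          ∃ L : FullLevel O ϖ c' p (numB (Tset T) (Tset B) pd.ε k) n D m s
            (MvPowerSeries (((Tset T × Fin 6) ⊕ ((Tset B ⊕ pd.ε) × Fin 3)) ⊕ Fin k) O)
            (fun t j => MvPowerSeries.X (Sum.inl (Sum.inl (t, j))))
            (fun i j => MvPowerSeries.X (Sum.inl (Sum.inr (Sum.inl (ε i), j))))
            (fun t : Tset T => t.1) u (Zset O p T) cb,
            (∀ τ (x : L.N τ),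
              L.β (MvPowerSeries.X (Sum.inl (Sum.inr (Sum.inr j₀, 0)))) • x = 0) ∧
            (∀ τ (x : L.N τ),
              L.β (MvPowerSeries.X (Sum.inl (Sum.inr (Sum.inr j₀, 2)))) • x = 0) ∧
            L.pt (L.β (MvPowerSeries.X (Sum.inl (Sum.inr (Sum.inr j₀, 0))))) = 0 ∧
            L.pt (L.β (MvPowerSeries.X (Sum.inl (Sum.inr (Sum.inr j₀, 2))))) = 0

/-- non-scalar matrices over the prime field stay non-scalar over extensions -/
theorem nonScalar_of {W : WeierstrassCurve ℤ} {hΔ : W.Δ ≠ 0} {p : ℕ} [Fact p.Prime] {k : Type}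
    [Field k] [Algebra (ZMod p) k]
    (b : Module.Basis (Fin 2) k ((resZ W hΔ p).baseChange k).V) {σ : Gq}
    (h : ∀ c : ZMod p, (resZ W hΔ p).ρ σ ≠ c • 1) :
    NonScalar (toMat ((resZ W hΔ p).baseChange k).ρ b σ) := by
  rintro ⟨u, hu⟩
  let b₀ : Module.Basis (Fin 2) (ZMod p) (resZ W hΔ p).V :=
    Module.finBasisOfFinrankEq (ZMod p) (resZ W hΔ p).V (resZ W hΔ p).finrank_eq
  let f : Module.End (ZMod p) (resZ W hΔ p).V := (resZ W hΔ p).ρ σ
  have h1 : f.baseChange k = u • (1 : Module.End k (TensorProduct (ZMod p) k (resZ W hΔ p).V)) := by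
    apply (LinearMap.toMatrix b b).injective
    rw [map_smul, LinearMap.toMatrix_one]
    exact hu
  let M := LinearMap.toMatrix b₀ b₀ f
  have h2 : M.map (algebraMap (ZMod p) k) = u • (1 : Matrix (Fin 2) (Fin 2) k) := by
    rw [← LinearMap.toMatrix_baseChange k f b₀ b₀, h1, map_smul, LinearMap.toMatrix_one]
  have hinj : Function.Injective (algebraMap (ZMod p) k) := (algebraMap (ZMod p) k).injective
  have e : ∀ i j, algebraMap (ZMod p) k (M i j) = u * (1 : Matrix (Fin 2) (Fin 2) k) i j :=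
    fun i j => by
      have := congrFun (congrFun h2 i) j
      simpa using this
  have e01 : M 0 1 = 0 := hinj (by rw [e, map_zero]; simp)
  have e10 : M 1 0 = 0 := hinj (by rw [e, map_zero]; simp)
  have e11 : M 1 1 = M 0 0 := hinj (by rw [e, e]; simp)
  refine h (M 0 0) ?_
  apply (LinearMap.toMatrix b₀ b₀).injective
  rw [map_smul, LinearMap.toMatrix_one]
  change M = _
  ext i j
  fin_cases i <;> fin_cases j <;> simp [e01, e10, e11]

lemma baseChangeAlong_algebraMap {k k' : Type} [Field k] [Field k'] [Algebra k k']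
    (ρ : ResidualGaloisRep k) :
    (ρ.baseChangeAlong (algebraMap k k')).IsEquiv (ρ.baseChange k') := by
  let b₀ : Module.Basis (Fin 2) k ρ.V := Module.finBasisOfFinrankEq k ρ.V ρ.finrank_eq
  let b₁ : Module.Basis (Fin 2) k' (ρ.baseChange k').V := Algebra.TensorProduct.basis k' b₀
  rw [residual_isEquiv_iff_conj _ _ (rbcBasis _ ρ b₀) b₁]
  refine ⟨1, isUnit_one, fun σ => ?_⟩
  rw [one_mul, mul_one, toMat_rbcBasis]
  exact (LinearMap.toMatrix_baseChange k' (ρ.ρ σ) b₀ b₀).symm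

section Main

variable {W : WeierstrassCurve ℤ} {hΔ : W.Δ ≠ 0} {p : ℕ} [hp : Fact p.Prime] {A T B : Finset ℕ}
  {sB : ℕ → ℤ}

/-- **The outer part**, in continuation form: coefficients, places, signs, Galois sides of all
levels. -/
theorem outer (h35 : p = 3 ∨ p = 5) (hW : W.IsSemistableModel)
    (hirr : W.ModRepIsIrreducible p) (H : ResHypB W hΔ p A T B sB) {C : Prop}
    (K : ∀ (O : Type) [CommRing O] [IsDomain O] [IsDiscreteValuationRing O]
      [IsAdicComplete (maximalIdeal O) O] [CharZero O] [Finite (ResidueField O)]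
      [CharP (ResidueField O) p] [Algebra (ZMod p) (ResidueField O)] (ϖ : O) (a : ℕ) (ζ : O)
      (_ : CoeffChoice p T O ϖ a ζ)
      (b : Module.Basis (Fin 2) (ResidueField O) ((resZ W hΔ p).baseChange (ResidueField O)).V)
      (pl : ∀ t : Tset T, PlaceData p t.1)
      (_ : ∀ (t : Tset T) (ht : t.1.Prime), (pl t).P = primeLocalPlace ⟨t.1, ht⟩)
      (u : Tset T → O) (_ : ∀ t, u t ^ 2 = 1)
      (_ : ∀ t, toMat ((resZ W hΔ p).baseChange (ResidueField O)).ρ b (pl t).φ =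
        residue O (u t) • (1 : M2 (ResidueField O)))
      (plB : ∀ i : Tset B, PlaceData p i.1)
      (_ : ∀ (i : Tset B) (hi : i.1.Prime), (plB i).P = primeLocalPlace ⟨i.1, hi⟩),
      (∀ pd : PData p ((resZ W hΔ p).baseChange (ResidueField O)) b, ∃ k : ℕ,
        ∀ (n : ℕ) (S₀ : Finset ℕ),
          Nonempty (GalLevelB p ((resZ W hΔ p).baseChange (ResidueField O)) b pd A
            (fun t : Tset T => t.1) pl u (fun i : Tset B => i.1) plB
            (fun i => (sB i.1 : O)) k n S₀)) → C) : C := by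
  classical
  obtain ⟨O, i1, i2, i3, ϖ, a, ζ, hO⟩ := exists_coeffChoice p T
  haveI := hO.adic
  haveI := hO.char0
  haveI := hO.finite
  haveI := hO.charp
  letI : Algebra (ZMod p) (ResidueField O) := ZMod.algebra _ p
  have hp2 : p ≠ 2 := by omega
  have h2k : (2 : ResidueField O) ≠ 0 := by
    intro h
    have h1 : ((2 : ℕ) : ResidueField O) = 0 := by exact_mod_cast h
    rw [CharP.cast_eq_zero_iff (ResidueField O) p] at h1
    have := Nat.le_of_dvd (by norm_num) h1
    omega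
  have h2z : (2 : ZMod p) ≠ 0 := by
    intro h
    apply h2k
    have h1 := congrArg (algebraMap (ZMod p) (ResidueField O)) h
    rwa [map_ofNat, map_zero] at h1
  have h2O : IsUnit (2 : O) := by
    by_contra hcon
    apply h2k
    have h1 : (2 : O) ∈ maximalIdeal O := hcon
    rw [← residue_eq_zero_iff] at h1
    rwa [map_ofNat] at h1
  set ρbar := (resZ W hΔ p).baseChange (ResidueField O) with hρbar
  obtain ⟨c, hc1, hc2⟩ : ∃ c : Gq, c * c = 1 ∧ c ≠ 1 :=
    ⟨complexConjugation, complexConjugation_mul_self, H87.Res.complexConjugation_ne_one⟩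
  have hdetc : LinearMap.det ((resZ W hΔ p).ρ c) = -1 := resZ_isOdd W hΔ p c hc1 hc2
  have hirrk : ρbar.IsIrreducible :=
    H87.AbsIrr.isIrreducible_baseChange_of_involution h2z _ (resZ_isIrreducible W hΔ p hirr) c
      hc1 hdetc
  have hdetk : LinearMap.det (ρbar.ρ c) = -1 := by
    have h1 := H45.det_baseChange_apply (resZ W hΔ p) (ResidueField O) c
    rw [hdetc, map_neg, map_one] at h1
    exact h1
  have habs : ρbar.IsAbsolutelyIrreducible :=
    H87.AbsIrr.isAbsolutelyIrreducible_of_involution h2k _ hirrk c hc1 hdetk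
  have hdet := H45.detIsCyclotomic_resZ_baseChange W hΔ p (ResidueField O)
  have hsplit := hsplit_of_roots (resZ W hΔ p) (ResidueField O) hO.roots
  have hTW := H73.TW.hTW_of_isEquiv W hΔ h35 hW hirr (algebraMap (ZMod p) (ResidueField O)) ρbar
    (baseChangeAlong_algebraMap _)
  let b : Module.Basis (Fin 2) (ResidueField O) ρbar.V :=
    (Module.finBasisOfFinrankEq (ResidueField O) ρbar.V ρbar.finrank_eq)
  have hTp : ∀ t : Tset T, p ≠ t.1 := fun t =>
    ne_of_dvd_sub_one hp.out (H.T_prime t.1 t.2) (H.T_dvd t.1 t.2)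
  choose pl hpl using fun t : Tset T =>
    exists_stdPlace (p := p) ⟨t.1, H.T_prime t.1 t.2⟩ (hTp t)
  choose plB hplB using fun t : Tset B =>
    exists_stdPlace (p := p) ⟨t.1, H.B_prime t.1 t.2⟩ (H.B_ne t.1 t.2).symm
  choose u₀ hu₀ hu₁ using fun t : Tset T => H.T_scalar t.1 t.2
  let u : Tset T → O := fun t => (u₀ t : O)
  have hu : ∀ t, u t ^ 2 = 1 := fun t => by
    have := congrArg (Int.cast : ℤ → O) (hu₀ t)
    push_cast at this
    exact this
  have hφ : ∀ t, toMat ρbar.ρ b (pl t).φ = residue O (u t) • (1 : M2 (ResidueField O)) := by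
    intro t
    have h1 : ρbar.ρ (pl t).φ = (residue O (u t)) • (1 : Module.End (ResidueField O) ρbar.V) := by
      have h2 : ρbar.ρ (pl t).φ = ((resZ W hΔ p).ρ (pl t).φ).baseChange (ResidueField O) := rfl
      rw [h2, hu₁ t _ (pl t).lies _ (pl t).frob, LinearMap.baseChange_smul,
        LinearMap.baseChange_one]
      have h3 : residue O (u t) = algebraMap (ZMod p) (ResidueField O) ((u₀ t : ℤ) : ZMod p) := by
        rw [map_intCast, map_intCast]
      rw [h3, algebraMap_smul]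
    rw [toMat_apply, h1, map_smul, LinearMap.toMatrix_one]
  have htrB : ∀ i : Tset B, (toMat ρbar.ρ b (plB i).φ).trace =
      residue O ((sB i.1 : ℤ) : O) * ((i.1 : ℕ) + 1) := by
    intro i
    rw [toMat_apply, ← LinearMap.trace_eq_matrix_trace]
    have h2 : ρbar.ρ (plB i).φ = ((resZ W hΔ p).ρ (plB i).φ).baseChange (ResidueField O) := rfl
    rw [h2]
    have h3 := H.B_trace i.1 i.2 _ (plB i).lies _ (plB i).frob
    have h4 := LinearMap.trace_baseChange ((resZ W hΔ p).ρ (plB i).φ) (ResidueField O)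
    refine h4.trans ?_
    rw [h3, map_mul, map_add, map_one, map_natCast, map_intCast, map_intCast]
  refine K O ϖ a ζ hO b pl (fun t ht => hpl t) u hu hφ plB (fun i hi => hplB i) fun pd => ?_
  obtain ⟨k, hk⟩ := exists_galLevelB (p := p) hp2 hO.mem (H75.gwIneq hp2) ρbar habs hdet hsplit
    hTW b pd A (fun q hq => ⟨H.A_prime q hq, H.A_ne q hq⟩)
    (fun q hq h => H.A_ram q hq ((H45.isUnramifiedAt_baseChange_iff _ _).mp h))
    (fun q hq P hP σ hσ => by
      have h1 := H.A_unip q hq P hP σ hσ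
      have h2 := H45.charpoly_baseChange_apply (resZ W hΔ p) (ResidueField O) σ
      rw [h1] at h2
      refine h2.trans ?_
      rw [Polynomial.map_pow, Polynomial.map_sub, map_X, Polynomial.map_one])
    (fun q hq hqp hqA => (H45.isUnramifiedAt_baseChange_iff _ _).mpr (H.unr q hq hqp hqA))
    (fun t : Tset T => t.1) (fun t => H.T_prime t.1 t.2) Subtype.val_injective
    (fun t => H.T_dvd t.1 t.2) (fun t h => H.A_ram _ h (H.T_unr t.1 t.2)) u hu pl hpl hφ
    (fun i : Tset B => i.1) (fun i => H.B_prime i.1 i.2) Subtype.val_injective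
    (fun i => (H.B_ne i.1 i.2).symm) (fun i h => H.A_ram _ h (H.B_unr i.1 i.2))
    (fun i => ((sB i.1 : ℤ) : O)) (fun i => by
      have := congrArg (Int.cast : ℤ → O) (H.B_sign i.1 i.2)
      push_cast at this
      exact this) plB hplB
    (fun i => nonScalar_of b (H.B_nonscalar i.1 i.2 _ (plB i).lies _ (plB i).frob)) htrB
  exact ⟨k, fun n S₀ => hk k le_rfl n S₀⟩

lemma side_mem (H : ResHypB W hΔ p A T B sB) {O : Type} [CommRing O] [IsLocalRing O]
    (hpO : (p : O) ∈ maximalIdeal O) (t : Tset T) : (t.1 : O) - 1 ∈ maximalIdeal O := by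
  obtain ⟨c, hc⟩ := H.T_dvd t.1 t.2
  have h1 : ((t.1 : ℕ) : O) - 1 = ((p * c : ℕ) : O) := by
    rw [← hc, Nat.cast_sub (H.T_prime t.1 t.2).one_le, Nat.cast_one]
  rw [h1, Nat.cast_mul]
  exact Ideal.mul_mem_right _ _ hpO

lemma side_ne (H : ResHypB W hΔ p A T B sB) {O : Type} [CommRing O] [CharZero O]
    (t : Tset T) : (t.1 : O) ≠ 1 := by
  intro h
  have h1 : t.1 = 1 := by exact_mod_cast h
  exact (H.T_prime t.1 t.2).one_lt.ne' h1

lemma side_Z1 {O : Type} [CommRing O] [IsDomain O] (t : Tset T) :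
    ∀ z ∈ Zset O p T t, z ≠ 1 := fun _ hz => (H55.mem_ntRoots.mp hz).2

lemma side_Z2 {O : Type} [CommRing O] [IsDomain O] (t : Tset T) :
    ∀ z ∈ Zset O p T t, z ^ (t.1 - 1) = 1 := by
  intro z hz
  obtain ⟨c, hc⟩ : p ^ padicValNat p (t.1 - 1) ∣ t.1 - 1 := pow_padicValNat_dvd
  rw [hc, pow_mul, (H55.mem_ntRoots.mp hz).1, one_pow]

lemma side_Z3 {O : Type} [CommRing O] [IsDomain O] [IsDiscreteValuationRing O]
    [CharP (ResidueField O) p] (t : Tset T) :
    ∀ z ∈ Zset O p T t, (z : O) - 1 ∈ maximalIdeal O := by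
  intro z hz
  have h1 := (H55.mem_ntRoots.mp hz).1
  exact H55.sub_one_mem_of_pow (p := p) (a := padicValNat p (t.1 - 1)) (by
    rw [← Units.val_pow_eq_pow_val, h1, Units.val_one])

lemma side_two {O : Type} [CommRing O] [IsLocalRing O] [CharP (ResidueField O) p]
    (h35 : p = 3 ∨ p = 5) : IsUnit (2 : O) := by
  have h2k : (2 : ResidueField O) ≠ 0 := by
    intro h
    have h1 : ((2 : ℕ) : ResidueField O) = 0 := by exact_mod_cast h
    rw [CharP.cast_eq_zero_iff (ResidueField O) p] at h1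
    have := Nat.le_of_dvd (by norm_num) h1
    omega
  by_contra hcon
  apply h2k
  have h1 : (2 : O) ∈ maximalIdeal O := hcon
  rw [← residue_eq_zero_iff] at h1
  rwa [map_ofNat] at h1

/-- **Types `F`, `O`, `Pα`.** -/
theorem no_full (h35 : p = 3 ∨ p = 5) (hW : W.IsSemistableModel)
    (hirr : W.ModRepIsIrreducible p) (H : ResHypB W hΔ p A T B sB)
    (inner : InnerFull W hΔ p A T B sB) : False := by
  classical
  refine outer h35 hW hirr H ?_
  intro O _ _ _ _ _ _ _ _ ϖ a ζ hO b pl hpl u hu hφ plB hplB hex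
  obtain ⟨pd, hpd⟩ := inner O ϖ a ζ hO b pl hpl u hu hφ plB hplB
  obtain ⟨k, hk⟩ := hex pd
  obtain ⟨D, m, s, ε, cb, c', hcb, hc', hD⟩ := hpd k
  refine no_full_levels_idx (O := O) (T := Tset T) hO.unif hc' (p := p) (k := k) (D := D)
    (m := m) hO.mem (side_two (p := p) h35) ε rfl
    (q := fun t => t.1) (fun t => (H.T_prime t.1 t.2).one_le) (side_mem H hO.mem)
    (side_ne H) (v := u) (fun t => by rw [← pow_two, hu t]) (Z := Zset O p T) side_Z1 side_Z2
    side_Z3 hcb fun n => ?_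
  obtain ⟨S₀, hS₀⟩ := hD n
  obtain ⟨G⟩ := hk n S₀
  exact hS₀ G

/-- **Type `Pβ`.** -/
theorem no_full_beta (h35 : p = 3 ∨ p = 5) (hW : W.IsSemistableModel)
    (hirr : W.ModRepIsIrreducible p) (H : ResHypB W hΔ p A T B sB)
    (inner : InnerBeta W hΔ p A T B sB) : False := by
  classical
  refine outer h35 hW hirr H ?_
  intro O _ _ _ _ _ _ _ _ ϖ a ζ hO b pl hpl u hu hφ plB hplB hex
  obtain ⟨pd, j₀, hj₀, hpd⟩ := inner O ϖ a ζ hO b pl hpl u hu hφ plB hplB
  letI : Unique pd.ε := ⟨⟨j₀⟩, hj₀⟩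
  obtain ⟨k, hk⟩ := hex pd
  obtain ⟨D, m, s, ε, cb, c', hcb, hc', hD⟩ := hpd k
  refine H69.Quot.no_full_levels_pbeta (O := O) (T := Tset T) (ε' := pd.ε) hO.unif hc' (p := p)
    (k := k) (D := D) (m := m) hO.mem (side_two (p := p) h35) ε rfl
    (q := fun t => t.1) (fun t => (H.T_prime t.1 t.2).one_le) (side_mem H hO.mem)
    (side_ne H) (v := u) (fun t => by rw [← pow_two, hu t]) (Z := Zset O p T) side_Z1 side_Z2
    side_Z3 hcb fun n => ?_
  obtain ⟨S₀, hS₀⟩ := hD n
  obtain ⟨G⟩ := hk n S₀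
  exact hS₀ G

end Main

end Fermat.Agent.H57.S59
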