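/-
The point of the universal deformation ring given by the Tate module of a semistable curve.
-/
import Fermat.Agent.H87S58
import Fermat.Agent.H87Glue2
import Fermat.Agent.H30Type
import Fermat.Agent.H53TWL3

set_option autoImplicit false
set_option linter.style.haveILetI false
set_option linter.unusedSectionVars false

noncomputable section

open Polynomial IsLocalRing GaloisRep
open Fermat.Agent.H53 (GQ M2 MCont toMat mapMat FlatType OrdType)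

namespace Fermat.Agent.H69.Pt

open Fermat.Agent.H87 Fermat.Agent.H87.Glue Fermat.Agent.H87.S58

variable {𝒪 : Type} [CommRing 𝒪] [IsDomain 𝒪] [IsDiscreteValuationRing 𝒪]
  [IsAdicComplete (maximalIdeal 𝒪) 𝒪]

section Generic

lemma residueField_map_self : ResidueField.map (algebraMap 𝒪 𝒪) = RingHom.id _ := by
  ext x
  obtain ⟨x, rfl⟩ := residue_surjective x
  simp

lemma isEquiv_baseChangeAlong_id (ρbar : ResidualGaloisRep (ResidueField 𝒪)) :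
    ρbar.IsEquiv (ρbar.baseChangeAlong (ResidueField.map (algebraMap 𝒪 𝒪))) := by
  let bb : Module.Basis (Fin 2) (ResidueField 𝒪) ρbar.V :=
    Module.finBasisOfFinrankEq _ ρbar.V ρbar.finrank_eq
  rw [H53.residual_isEquiv_iff_conj _ _ bb (H53.rbcBasis _ ρbar bb)]
  refine ⟨1, isUnit_one, fun σ => ?_⟩
  rw [H53.toMat_rbcBasis, residueField_map_self, H53.mapMat_id, one_mul, mul_one]

/-- A representation over `𝒪` of the given type defines a point of the universal ring. -/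
theorem exists_pt {ρbar : ResidualGaloisRep (ResidueField 𝒪)}
    {𝒟 : ∀ ⦃A : Type⦄ [CommRing A] [IsLocalRing A] [Algebra 𝒪 A], GaloisRepAdic A → Prop}
    (D : DeformationRingData 𝒪 ρbar 𝒟) (b₁ : Module.Basis (Fin 2) D.R D.ρ.V)
    (ρ : GaloisRepAdic 𝒪) (hρ : 𝒟 ρ) (hres : ρ.residual.IsEquiv ρbar) :
    ∃ (pt : D.R →ₐ[𝒪] 𝒪) (b₂ : Module.Basis (Fin 2) 𝒪 ρ.V),
      toMat ρ.ρ b₂ = mapMat (pt : D.R →+* 𝒪) (toMat D.ρ.ρ b₁) := by
  haveI : IsLocalHom (algebraMap 𝒪 𝒪) := ⟨fun a ha => ha⟩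
  obtain ⟨e⟩ := hres
  obtain ⟨e'⟩ := isEquiv_baseChangeAlong_id ρbar
  obtain ⟨pt, ⟨hφ, heq⟩, -⟩ := D.universal 𝒪 residue_surjective ρ hρ ⟨e.trans e'⟩
  obtain ⟨b₂, hb₂⟩ := H30.exists_basis_of_isEquiv (pt : D.R →+* 𝒪) hφ D.ρ ρ heq b₁
  exact ⟨pt, b₂, hb₂⟩

end Generic

section Curve

variable (W : WeierstrassCurve ℤ) (hΔ : W.Δ ≠ 0) {p : ℕ} [hp : Fact p.Prime]
  (hpO : (p : 𝒪) ∈ maximalIdeal 𝒪)

/-- the residual representation of the Tate module over `𝒪` -/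
theorem residual_tO (φ : ZMod p →+* ResidueField 𝒪) :
    (tO W hΔ hpO).residual.IsEquiv ((resZ W hΔ p).baseChangeAlong φ) := by
  obtain ⟨e⟩ := residual_isEquiv W hΔ p (H35.padicToAdic 𝒪 hpO)
    (isLocalHom_padicToAdic 𝒪 (H35.padicToAdic 𝒪 hpO) hpO) φ
  exact ⟨e.symm⟩

theorem detIsCyclotomic_tO : (tO W hΔ hpO).DetIsCyclotomic p :=
  BC.detIsCyclotomic_baseChangeAlong _ _ hp.out.ne_zero (detIsCyclotomic W hΔ p)

theorem isUnramifiedAt_tO {q : ℕ} (hq : q.Prime) (hqp : q ≠ p) (hW : W.IsGoodPrimeFor q) :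
    (tO W hΔ hpO).IsUnramifiedAt q :=
  BC.isUnramifiedAt_baseChangeAlong _ _ (isUnramifiedAt_of_good W hΔ p hq hqp hW)

theorem isUnipotentOnInertiaAt_tO (hss : W.IsSemistableModel) {q : ℕ} (hq : q.Prime)
    (hqp : q ≠ p) : (tO W hΔ hpO).IsUnipotentOnInertiaAt q :=
  BC.isUnipotentOnInertiaAt_baseChangeAlong _ _
    (isUnipotentOnInertiaAt_of_semistable W hΔ p hss hq hqp)

theorem isFlatAt_tO [hfin : Finite (ResidueField 𝒪)] (hp2 : p ≠ 2) (hW : W.IsGoodPrimeFor p) :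
    (tO W hΔ hpO).IsFlatAt p :=
  BC.isFlatAt_baseChangeAlong _ _ hfin (isFlatAt_of_good W hΔ p hp2 hW)

/-- the Tate module of a semistable curve with good reduction at `p` has flat type -/
theorem flatType_tO [Finite (ResidueField 𝒪)] (hss : W.IsSemistableModel) (hp2 : p ≠ 2)
    (hW : W.IsGoodPrimeFor p) (S A : Finset ℕ)
    (hS : ∀ q : ℕ, q.Prime → (q : ℤ) ∣ W.Δ → q ∈ S) (hpS : p ∈ S) :
    FlatType 𝒪 p S A (tO W hΔ hpO) :=
  ⟨⟨detIsCyclotomic_tO W hΔ hpO, isFlatAt_tO W hΔ hpO hp2 hW, fun q hq hqS =>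
      isUnramifiedAt_tO W hΔ hpO hq (fun h => hqS (h ▸ hpS)) fun h => hqS (hS q hq h)⟩,
    fun _ _ hq hqp => isUnipotentOnInertiaAt_tO W hΔ hpO hss hq hqp⟩

/-- the Tate module of a semistable curve with multiplicative reduction at `p` is strictly
ordinary -/
theorem isStrictOrdinaryAt_tO (hss : W.IsSemistableModel) (hbad : (p : ℤ) ∣ W.Δ) :
    (tO W hΔ hpO).IsStrictOrdinaryAt p :=
  Ord.isStrictOrdinaryAt_baseChangeAlong _ _
    (isStrictOrdinaryAt_of_mult W hΔ p hbad (hss p hp.out hbad))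

theorem ordType_tO (hss : W.IsSemistableModel)
    (hbad : (p : ℤ) ∣ W.Δ) (S A : Finset ℕ)
    (hS : ∀ q : ℕ, q.Prime → (q : ℤ) ∣ W.Δ → q ∈ S) :
    OrdType 𝒪 p S A (tO W hΔ hpO) :=
  ⟨⟨detIsCyclotomic_tO W hΔ hpO, isStrictOrdinaryAt_tO W hΔ hpO hss hbad, fun q hq hqS =>
      isUnramifiedAt_tO W hΔ hpO hq (fun h => hqS (hS q hq (h ▸ hbad))) fun h =>
        hqS (hS q hq h)⟩,
    fun _ _ hq hqp => isUnipotentOnInertiaAt_tO W hΔ hpO hss hq hqp⟩

section Matrix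

variable {W hΔ hpO} {R : Type} [CommRing R] {r : GQ →* M2 R} {f : R →+* 𝒪}
  {b₂ : Module.Basis (Fin 2) 𝒪 (tO W hΔ hpO).V}

lemma charpoly_map (h : toMat (tO W hΔ hpO).ρ b₂ = mapMat f r) (σ : GQ) :
    (mapMat f r σ).charpoly = ((tO W hΔ hpO).ρ σ).charpoly := by
  rw [← h, H53.toMat_charpoly _ b₂]

lemma map_trace (f : R →+* 𝒪) (r : GQ →* M2 R) (σ : GQ) :
    f ((r σ) 0 0 + (r σ) 1 1) = (mapMat f r σ).trace := by
  rw [Matrix.trace_fin_two, map_add]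
  rfl

/-- the trace of Frobenius at a good prime -/
lemma map_trace_frob (h : toMat (tO W hΔ hpO).ρ b₂ = mapMat f r) {ℓ : ℕ} (hℓ : ℓ.Prime)
    (hℓp : ℓ ≠ p) (hW : W.IsGoodPrimeFor ℓ)
    {P : ValuationSubring (AlgebraicClosure ℚ)} (hP : P.LiesOverPrime ℓ) {σ : GQ}
    (hσ : P.IsFrobeniusAt σ ℓ) :
    f ((r σ) 0 0 + (r σ) 1 1) = (W.apOfModel ℓ : 𝒪) := by
  have h1 := charpoly_map h σ
  rw [charpoly_tO_frob W hΔ hpO hℓ hℓp hW hP hσ, Matrix.charpoly_fin_two] at h1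
  rw [map_trace]
  exact coeff_one_eq h1

/-- the trace of inertia -/
lemma map_trace_inertia (h : toMat (tO W hΔ hpO).ρ b₂ = mapMat f r) (hss : W.IsSemistableModel)
    {q : ℕ} (hq : q.Prime) (hqp : q ≠ p)
    {P : ValuationSubring (AlgebraicClosure ℚ)} (hP : P.LiesOverPrime q) {σ : GQ}
    (hσ : σ ∈ P.inertiaSubgroupIn ℚ) :
    f ((r σ) 0 0 + (r σ) 1 1) = 2 := by
  have h1 := charpoly_map h σ
  rw [isUnipotentOnInertiaAt_tO W hΔ hpO hss hq hqp P hP σ hσ] at h1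
  have h2 : ((X - 1) ^ 2 : 𝒪[X]) = X ^ 2 - C 2 * X + C 1 := by
    rw [show (C 2 : 𝒪[X]) = 2 from rfl, C_1]
    ring
  rw [h2, Matrix.charpoly_fin_two] at h1
  rw [map_trace]
  exact coeff_one_eq h1

/-- unramified at good primes -/
lemma map_inertia_eq_one (h : toMat (tO W hΔ hpO).ρ b₂ = mapMat f r)
    {q : ℕ} (hq : q.Prime) (hqp : q ≠ p) (hW : W.IsGoodPrimeFor q)
    {P : ValuationSubring (AlgebraicClosure ℚ)} (hP : P.LiesOverPrime q) {σ : GQ}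
    (hσ : σ ∈ P.inertiaSubgroupIn ℚ) : mapMat f r σ = 1 := by
  rw [← h, H53.toMat_apply, isUnramifiedAt_tO W hΔ hpO hq hqp hW P hP σ hσ]
  exact LinearMap.toMatrix_one b₂

end Matrix

end Curve

section Element

/-- a Frobenius element at `ℓ` -/
def frobElt (ℓ : ℕ) : GQ := by
  classical
  exact if h : ∃ (P : ValuationSubring (AlgebraicClosure ℚ)) (σ : GQ), P.LiesOverPrime ℓ ∧
    P.IsFrobeniusAt σ ℓ then h.choose_spec.choose else 1

lemma frobElt_spec {ℓ : ℕ} (hℓ : ℓ.Prime) :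
    ∃ P : ValuationSubring (AlgebraicClosure ℚ), P.LiesOverPrime ℓ ∧
      P.IsFrobeniusAt (frobElt ℓ) ℓ := by
  classical
  have h : ∃ (P : ValuationSubring (AlgebraicClosure ℚ)) (σ : GQ), P.LiesOverPrime ℓ ∧
      P.IsFrobeniusAt σ ℓ := by
    obtain ⟨P, hP⟩ := H54.exists_liesOverPrime hℓ
    obtain ⟨σ, hσ⟩ := H54.exists_isFrobeniusAt hℓ hP
    exact ⟨P, σ, hP, hσ⟩
  have h1 : frobElt ℓ = h.choose_spec.choose := by rw [frobElt, dif_pos h]
  rw [h1]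
  exact ⟨h.choose, h.choose_spec.choose_spec⟩

variable {R : Type} [CommRing R]

/-- the element of the ring of a representation attached to a polynomial in the Hecke
operators -/
def trElt (r : GQ →* M2 R) {S : Set ℕ} (P : MvPolynomial {ℓ : ℕ // ℓ.Prime ∧ ℓ ∉ S} ℤ) : R :=
  MvPolynomial.aeval (fun i => r (frobElt i.1) 0 0 + r (frobElt i.1) 1 1) P

/-- evaluation of `trElt` under a homomorphism, given the traces at the primes which occur -/
lemma map_trElt {B : Type*} [CommRing B] (f : R →+* B) (r : GQ →* M2 R) {S : Set ℕ}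
    (P : MvPolynomial {ℓ : ℕ // ℓ.Prime ∧ ℓ ∉ S} ℤ) (a : {ℓ : ℕ // ℓ.Prime ∧ ℓ ∉ S} → B)
    (h : ∀ i ∈ P.vars, f (r (frobElt i.1) 0 0 + r (frobElt i.1) 1 1) = a i) :
    f (trElt r P) = MvPolynomial.aeval a P := by
  rw [trElt, MvPolynomial.aeval_def, MvPolynomial.aeval_def,
    MvPolynomial.hom_eval₂]
  have h1 : f.comp (algebraMap ℤ R) = algebraMap ℤ B := Subsingleton.elim _ _
  rw [h1]
  refine MvPolynomial.eval₂Hom_congr' (f₁ := algebraMap ℤ B) rfl (fun i hi _ => h i hi) rfl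

end Element

section Point

variable {W : WeierstrassCurve ℤ} {hΔ : W.Δ ≠ 0} {p : ℕ} [hp : Fact p.Prime]
  {hpO : (p : 𝒪) ∈ maximalIdeal 𝒪}
  {R : Type} [CommRing R] {r : GQ →* M2 R} {f : R →+* 𝒪}
  {b₂ : Module.Basis (Fin 2) 𝒪 (tO W hΔ hpO).V}

/-- the value of `trElt` at the point of the curve -/
lemma map_trElt_tO (h : toMat (tO W hΔ hpO).ρ b₂ = mapMat f r) {S : Set ℕ} (hpS : p ∈ S)
    (hS : ∀ q : ℕ, q.Prime → (q : ℤ) ∣ W.Δ → q ∈ S)
    (P : MvPolynomial {ℓ : ℕ // ℓ.Prime ∧ ℓ ∉ S} ℤ) :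
    f (trElt r P) = ((MvPolynomial.aeval (fun i => W.apOfModel i.1) P : ℤ) : 𝒪) := by
  rw [map_trElt f r P (fun i => (W.apOfModel i.1 : 𝒪)) ?_]
  · rw [MvPolynomial.aeval_def, MvPolynomial.aeval_def]
    change _ = Int.castRingHom 𝒪 (MvPolynomial.eval₂ _ _ P)
    rw [MvPolynomial.hom_eval₂]
    rfl
  · intro i _
    obtain ⟨Q, hQ, hσ⟩ := frobElt_spec i.2.1
    exact map_trace_frob h i.2.1 (fun he => i.2.2 (he ▸ hpS))
      (fun hd => i.2.2 (hS _ i.2.1 hd)) hQ hσ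

/-- a nonzero integer is not divisible by a high power of the uniformiser -/
lemma exists_notMem_pow [CharZero 𝒪] {ϖ : 𝒪} (hϖ : maximalIdeal 𝒪 = Ideal.span {ϖ}) {c : ℤ}
    (hc : c ≠ 0) : ∃ m : ℕ, (c : 𝒪) ∉ Ideal.span {ϖ ^ m} := by
  by_contra hcon
  push Not at hcon
  have h1 : (c : 𝒪) = 0 := by
    refine IsHausdorff.haus (I := maximalIdeal 𝒪) inferInstance _ fun n => ?_
    rw [SModEq.zero, smul_eq_mul, Ideal.mul_top, hϖ, Ideal.span_singleton_pow]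
    exact hcon n
  exact hc (by exact_mod_cast h1)

end Point

end Fermat.Agent.H69.Pt
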