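import Fermat.Agent.H53POrd
import Fermat.Agent.H69Pt
import Fermat.Agent.H59LocAt
import Fermat.Agent.H57S59Out

set_option autoImplicit false
set_option linter.style.haveILetI false
set_option linter.unusedSectionVars false

/-!
# Type `Pα` of the S59 composition: the data at `p`

For a semistable curve with multiplicative reduction at `p` which is residually modular of a level
prime to `p`, the residual representation is strictly ordinary and flat at `p`, hence the data
for `PData.ord` exist.
-/

noncomputable section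

open IsLocalRing GaloisRep
open Fermat.Agent.H53 Fermat.Agent.H87.Glue Fermat.Agent.H87.S58
open Fermat.Agent.H75P (OrdMark MarkElts OrdI cj)

namespace Fermat.Agent.H85.InA

/-- the residual representation of a strictly ordinary representation is strictly ordinary -/
theorem ofResidual_isStrictOrdinaryAt {A : Type} [CommRing A] [IsLocalRing A]
    {ρ : GaloisRepAdic A} {ρbar : ResidualGaloisRep (ResidueField A)}
    (h : ρ.residual.IsEquiv ρbar) {p : ℕ} (hs : ρ.IsStrictOrdinaryAt p) :
    (GaloisRepAdic.ofResidualGaloisRep ρbar).IsStrictOrdinaryAt p := by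
  haveI hloc : IsLocalHom (residue A) := inferInstance
  obtain ⟨b₀⟩ := H53.exists_basis ρ
  let bb : Module.Basis (Fin 2) (ResidueField A) ρbar.V :=
    Module.finBasisOfFinrankEq _ ρbar.V ρbar.finrank_eq
  rw [residual_isEquiv_iff_conj _ _ (resBasis ρ b₀) bb] at h
  obtain ⟨u, hu, huc⟩ := h
  have h1 : (ρ.baseChangeAlong (residue A) hloc).IsEquiv
      (GaloisRepAdic.ofResidualGaloisRep ρbar) := by
    rw [isEquiv_iff_conj _ _ (bcBasis (residue A) hloc ρ b₀)
      (show Module.Basis (Fin 2) (ResidueField A) (GaloisRepAdic.ofResidualGaloisRep ρbar).V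
        from bb)]
    refine ⟨u, hu, fun σ => ?_⟩
    have h2 := huc σ
    rw [toMat_resBasis] at h2
    rw [toMat_bcBasis]
    exact h2
  exact H87.Ord.isStrictOrdinaryAt_of_isEquiv h1
    (H87.Ord.isStrictOrdinaryAt_baseChangeAlong (residue A) hloc hs)

section Curve

variable {W : WeierstrassCurve ℤ} (hΔ : W.Δ ≠ 0) {p : ℕ} [hp : Fact p.Prime]
  {O : Type} [CommRing O] [IsDomain O] [IsDiscreteValuationRing O]
  [IsAdicComplete (maximalIdeal O) O] [Finite (ResidueField O)] [CharZero O]
  [Algebra (ZMod p) (ResidueField O)]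
  (hpO : (p : O) ∈ maximalIdeal O)

/-- the residual representation of the Tate module over `O` -/
theorem residual_tO_baseChange :
    (tO W hΔ hpO).residual.IsEquiv ((resZ W hΔ p).baseChange (ResidueField O)) := by
  obtain ⟨e₁⟩ := H69.Pt.residual_tO W hΔ hpO (algebraMap (ZMod p) (ResidueField O))
  obtain ⟨e₂⟩ := H57.S59.baseChangeAlong_algebraMap (k' := ResidueField O) (resZ W hΔ p)
  exact ⟨e₁.trans e₂⟩

include hpO in
/-- the residual representation is strictly ordinary at a multiplicative prime `p` -/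
theorem residual_isStrictOrdinaryAt (hss : W.IsSemistableModel) (hbad : (p : ℤ) ∣ W.Δ) :
    (GaloisRepAdic.ofResidualGaloisRep
      ((resZ W hΔ p).baseChange (ResidueField O))).IsStrictOrdinaryAt p :=
  ofResidual_isStrictOrdinaryAt (residual_tO_baseChange hΔ hpO)
    (H69.Pt.isStrictOrdinaryAt_tO W hΔ hpO hss hbad)

include hpO in
/-- **The data for `PData.ord`.** -/
theorem exists_ordData_alpha (hss : W.IsSemistableModel) (hp2 : p ≠ 2) (h30 : H96.StatementS30)
    (h32 : H47.StatementS32') (hirr : (resZ W hΔ p).IsIrreducible) (hbad : (p : ℤ) ∣ W.Δ)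
    {M : ℕ} (hM : 0 < M) (hpM : ¬ p ∣ M) (hmod : W.IsResiduallyModularOfLevel p M)
    (b : Module.Basis (Fin 2) (ResidueField O)
      ((resZ W hΔ p).baseChange (ResidueField O)).V) :
    ∃ φ σ₀ : GQ, MarkElts p φ σ₀ ∧
      toMat ((resZ W hΔ p).baseChange (ResidueField O)).ρ b σ₀ = 1 ∧ ∃ w : ℤ, w ^ 2 = 1 ∧
      ∃ g₀ : (M2 (ResidueField O))ˣ,
        OrdI p (cj g₀ (toMat ((resZ W hΔ p).baseChange (ResidueField O)).ρ b)) ∧
        cj g₀ (toMat ((resZ W hΔ p).baseChange (ResidueField O)).ρ b) φ 1 1 =
          (w : ResidueField O) :=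
  exists_ordData hp2 _ b (H45.detIsCyclotomic_resZ_baseChange W hΔ p (ResidueField O))
    (residual_isStrictOrdinaryAt hΔ hpO hss hbad)
    ((H59.localAt hΔ hss hp2 h30 h32 hirr).flat M hM hpM hmod (ResidueField O))

end Curve

end Fermat.Agent.H85.InA
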