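import Fermat.Agent.H86InFa
import Fermat.Agent.H57S59Out
import Fermat.Agent.H30PT2
import Fermat.Agent.H69Red

/-!
# The hypotheses at `p` of the composition of the levels of S59

`HSide` : the Hecke side of a level; `PHyp` : everything which has to be known at `p`.
-/

set_option autoImplicit false
set_option linter.style.haveILetI false
set_option linter.unusedSectionVars false

noncomputable section

open IsLocalRing CuspForm GaloisRep
open Fermat.Agent.H53 (toMat mapMat PData PlaceData GalLevelB)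
open Fermat.Agent.H59 (Tset)
open Fermat.Agent.H87.Glue (resZ)
open Fermat.Agent.H87.S58 (tO)
open Fermat.Agent.H73LT (nodeSign)

namespace Fermat.Agent.H86.In

/-- **The Hecke side of a level**: a surjection from the deformation ring to the Hecke ring which
is compatible with the Galois representations. -/
structure HSide {O : Type} [CommRing O] [IsDomain O] [IsDiscreteValuationRing O]
    [IsAdicComplete (maximalIdeal O) O] (p : ℕ) {ρbar : ResidualGaloisRep (ResidueField O)}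
    {𝒟 : ∀ ⦃A : Type⦄ [CommRing A] [IsLocalRing A] [Algebra O A], GaloisRepAdic A → Prop}
    (D : DeformationRingData O ρbar 𝒟) (b₁ : Module.Basis (Fin 2) D.R D.ρ.V)
    {L : ℕ} [NeZero L] {S : Finset ℕ} {θ : heckeAlgebra L 2 (↑S : Set ℕ) →+* ResidueField O}
    (π : D.R →ₐ[O] heckeLocal L (↑S : Set ℕ) O θ) : Prop where
  hpS : p ∈ S
  hLS : ∀ q : ℕ, q.Prime → q ∣ L → q ∈ (↑S : Set ℕ)
  surj : Function.Surjective π
  datum : ∃ (H : HeckeGaloisRepDatum L (↑S : Set ℕ) O θ (heckeLocal L (↑S : Set ℕ) O θ))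
    (b₂ : Module.Basis (Fin 2) (heckeLocal L (↑S : Set ℕ) O θ) H.ρ.V),
    H.π = heckeLocal.π L (↑S : Set ℕ) O θ ∧
      toMat H.ρ.ρ b₂ = mapMat (π : D.R →+* heckeLocal L (↑S : Set ℕ) O θ) (toMat D.ρ.ρ b₁)

section PHyp

variable {W : WeierstrassCurve ℤ} (hΔ : W.Δ ≠ 0) {p : ℕ} [Fact p.Prime]
  {O : Type} [CommRing O] [IsDomain O] [IsDiscreteValuationRing O]
  [IsAdicComplete (maximalIdeal O) O] [CharZero O] [Finite (ResidueField O)]
  [Algebra (ZMod p) (ResidueField O)] (hpO : (p : O) ∈ maximalIdeal O)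
  {b : Module.Basis (Fin 2) (ResidueField O) ((resZ W hΔ p).baseChange (ResidueField O)).V}
  (pd : PData p ((resZ W hΔ p).baseChange (ResidueField O)) b) (A : Finset ℕ) {T B : Finset ℕ}
  (pl : ∀ t : Tset T, PlaceData p t.1) (u : Tset T → O) (plB : ∀ i : Tset B, PlaceData p i.1)

/-- the Galois side of a level -/
abbrev GLev (k n : ℕ) (S₀ : Finset ℕ) : Type 1 :=
  GalLevelB p ((resZ W hΔ p).baseChange (ResidueField O)) b pd A (fun t : Tset T => t.1) pl u
    (fun i : Tset B => i.1) plB (fun i => (nodeSign W i.1 : O)) k n S₀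

/-- **Everything which has to be known at `p`**; `inc` says whether `p` divides the level. -/
structure PHyp (inc : Prop) : Prop where
  /-- the Tate module of the curve is of the type -/
  𝒟tO : pd.𝒟p (tO W hΔ hpO)
  /-- the representations over the Hecke rings are of the type -/
  𝒟H : ∀ {L : ℕ} [NeZero L] {S : Finset ℕ}, p ∈ S → (∀ q : ℕ, q.Prime → q ∣ L → q ∈ S) →
    ¬ p ^ 2 ∣ L → (p ∣ L ↔ inc) → ∀ {θ : heckeAlgebra L 2 (↑S : Set ℕ) →+* ResidueField O}
    (H : HeckeGaloisRepDatum L (↑S : Set ℕ) O θ (heckeLocal L (↑S : Set ℕ) O θ)),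
    H.ρ.residual.IsEquiv (((resZ W hΔ p).baseChange (ResidueField O)).baseChangeAlong
      (ResidueField.map (algebraMap O (heckeLocal L (↑S : Set ℕ) O θ)))) → pd.𝒟p H.ρ
  /-- the facts about the marks at `p` -/
  marks : ∀ {k n : ℕ} {S₀ : Finset ℕ} (G : GLev hΔ pd A pl u plB k n S₀) {L : ℕ} [NeZero L]
    {S : Finset ℕ} {θ : heckeAlgebra L 2 (↑S : Set ℕ) →+* ResidueField O}
    (π : G.D.R →ₐ[O] heckeLocal L (↑S : Set ℕ) O θ) (hs : HSide p G.D G.b₁ π) (j : pd.ε),
    ∃ τ : G.D.R, MarkFacts p hs.hLS π p (G.mB (Sum.inr j) 0) (G.mB (Sum.inr j) 1)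
      (G.mB (Sum.inr j) 2) (1 : O) τ
  /-- the values of the marks at `p` at the point defined by the curve -/
  pt : ∀ {k n : ℕ} {S₀ : Finset ℕ} (G : GLev hΔ pd A pl u plB k n S₀) (f : G.D.R →ₐ[O] O)
    (_ : IsLocalHom (f : G.D.R →+* O)) (b' : Module.Basis (Fin 2) O (tO W hΔ hpO).V),
    toMat (tO W hΔ hpO).ρ b' = mapMat (f : G.D.R →+* O) G.r →
    ∀ j : pd.ε, f (G.mB (Sum.inr j) 0) = 0 ∧ f (G.mB (Sum.inr j) 2) = 0

end PHyp

end Fermat.Agent.H86.In

end
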