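/-
Type `O` of the composition of S59: strictly ordinary at `p`, non-trivial at `σ₀`, level divisible
by `p`.
-/
import Fermat.Agent.H86InPH
import Fermat.Agent.H85InA1
import Fermat.Agent.H30S59b
import Fermat.Agent.H81Ord3

set_option autoImplicit false
set_option linter.style.haveILetI false
set_option linter.unusedSectionVars false

noncomputable section

open IsLocalRing CuspForm GaloisRep
open Fermat.Agent.H53 (GQ M2 toMat mapMat PData PlaceData GalLevelB)
open Fermat.Agent.H59 (Tset)
open Fermat.Agent.H87.Glue (resZ)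
open Fermat.Agent.H87.S58 (tO)
open Fermat.Agent.H75P (MarkElts)

namespace Fermat.Agent.H20.InO

/-- non-triviality of matrices is preserved by extension of scalars -/
theorem toMat_ne_one {k k' : Type} [Field k] [Field k'] [Algebra k k']
    (ρ : ResidualGaloisRep k) (b : Module.Basis (Fin 2) k' (ρ.baseChange k').V) {σ : GQ}
    (h : ρ.ρ σ ≠ 1) : toMat (ρ.baseChange k').ρ b σ ≠ 1 := by
  intro h0
  apply h
  let b₀ : Module.Basis (Fin 2) k ρ.V := Module.finBasisOfFinrankEq k ρ.V ρ.finrank_eq
  let f : Module.End k ρ.V := ρ.ρ σ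
  have h1 : f.baseChange k' = (1 : Module.End k' (TensorProduct k k' ρ.V)) := by
    apply (LinearMap.toMatrix b b).injective
    rw [LinearMap.toMatrix_one]
    exact h0
  let M := LinearMap.toMatrix b₀ b₀ f
  have h2 : M.map (algebraMap k k') = (1 : Matrix (Fin 2) (Fin 2) k') := by
    rw [← LinearMap.toMatrix_baseChange k' f b₀ b₀, h1, LinearMap.toMatrix_one]
  have h3 : M = 1 := by
    apply Matrix.map_injective (algebraMap k k').injective
    change M.map (algebraMap k k') = (1 : Matrix (Fin 2) (Fin 2) k).map (algebraMap k k')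
    rw [h2, Matrix.map_one _ (map_zero _) (map_one _)]
  apply (LinearMap.toMatrix b₀ b₀).injective
  rw [LinearMap.toMatrix_one]
  exact h3

section

variable {W : WeierstrassCurve ℤ} (hΔ : W.Δ ≠ 0) {p : ℕ} [hp : Fact p.Prime]
  {O : Type} [CommRing O] [IsDomain O] [IsDiscreteValuationRing O]
  [IsAdicComplete (maximalIdeal O) O] [CharZero O] [Finite (ResidueField O)]
  [Algebra (ZMod p) (ResidueField O)] (hpO : (p : O) ∈ maximalIdeal O)
  (b : Module.Basis (Fin 2) (ResidueField O) ((resZ W hΔ p).baseChange (ResidueField O)).V)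

/-- the strictly ordinary type at `p` -/
def pdO (hp2 : p ≠ 2) (hss : W.IsSemistableModel) (hbad : (p : ℤ) ∣ W.Δ) :
    PData p ((resZ W hΔ p).baseChange (ResidueField O)) b :=
  PData.strict hp2 _ b (fun {_} => H81.statementO p hp2)
    (H45.detIsCyclotomic_resZ_baseChange W hΔ p (ResidueField O))
    (H85.InA.residual_isStrictOrdinaryAt hΔ hpO hss hbad)

/-- **The hypotheses at `p`, type `O`.** -/
theorem pHyp_strict (h33 : H30.StatementS33) (hp2 : p ≠ 2) (hss : W.IsSemistableModel)
    (hbad : (p : ℤ) ∣ W.Δ) {φ σ₀ : GQ} (hm : MarkElts p φ σ₀)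
    (hne : (resZ W hΔ p).ρ σ₀ ≠ 1) (A : Finset ℕ) {T B : Finset ℕ}
    (pl : ∀ t : Tset T, PlaceData p t.1) (u : Tset T → O) (plB : ∀ i : Tset B, PlaceData p i.1)
    {inc : Prop} (hinc : inc) :
    H86.In.PHyp hΔ hpO (pdO hΔ hpO b hp2 hss hbad) A pl u plB inc where
  𝒟tO := H30.PT.tO_isStrictOrdinaryAt hΔ hpO hss hbad
  𝒟H := by
    intro L _ S hpS hLS hpL2 hi θ H hres
    haveI : Finite (ResidueField (heckeLocal L (↑S : Set ℕ) O θ)) :=
      Finite.of_surjective (ResidueField.map (algebraMap O (heckeLocal L (↑S : Set ℕ) O θ)))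
        (fun x => by
          obtain ⟨y, hy⟩ := H.residue_surjective x
          exact ⟨residue O y, by rw [ResidueField.map_residue]; exact hy⟩)
    exact H30.strictOrdinary_datum h33 hp2 hpO (hi.mpr hinc) hpL2 hLS H _ hres
      (H85.InA.residual_isStrictOrdinaryAt hΔ hpO hss hbad).isOrdinaryAt b hm
      (toMat_ne_one _ b hne)
  marks := by
    intro k n S₀ G L _ S θ π hs j
    exact (j : Empty).elim
  pt := by
    intro k n S₀ G f hf b' hb' j
    exact (j : Empty).elim

end

end Fermat.Agent.H20.InO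

end
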