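/-
The residual hypotheses of the outer theorem from the partition of the initial reduction.
-/
import Fermat.Agent.H57S59Out
import Fermat.Agent.H69Red
import Fermat.Agent.H30PT
import Fermat.Agent.H6TWFrob

set_option autoImplicit false
set_option linter.style.haveILetI false
set_option linter.unusedSectionVars false

noncomputable section

open Polynomial IsLocalRing GaloisRep Fermat.Agent.H53
open Fermat.Agent.H87.Glue Fermat.Agent.H87.S58 Fermat.Agent.H69.Red
open Fermat.Agent.H73LT (nodeSign)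

namespace Fermat.Agent.H57.S59

local notation "Qb" => AlgebraicClosure ℚ
local notation "Gq" => (AlgebraicClosure ℚ ≃ₐ[ℚ] AlgebraicClosure ℚ)

/-- all Frobenius elements at a prime where the representation is unramified are scalar with the
same scalar if one of them is -/
theorem frob_scalar_of_one {k : Type} [Field k] {ρ : ResidualGaloisRep k} {q : ℕ} (hq : q.Prime)
    (hunr : ρ.IsUnramifiedAt q) {P P' : ValuationSubring Qb} (hP : P.LiesOverPrime q)
    (hP' : P'.LiesOverPrime q) {φ φ' : Gq} (hφ : P.IsFrobeniusAt φ q)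
    (hφ' : P'.IsFrobeniusAt φ' q) {c : k} (h : ρ.ρ φ = c • 1) : ρ.ρ φ' = c • 1 := by
  obtain ⟨g, rfl⟩ := H53.exists_smul_eq_place hq hP hP'
  have h1 := hunr _ hP' _ (H6.frobenius_inv_mul_mem (H6.frobenius_conj hφ g) hφ')
  have h2 : φ' = (g * φ * g⁻¹) * ((g * φ * g⁻¹)⁻¹ * φ') := by group
  rw [h2, map_mul, h1, mul_one, map_mul, map_mul, h, mul_smul_comm, mul_one, smul_mul_assoc,
    ← map_mul, mul_inv_cancel, map_one]

variable {W : WeierstrassCurve ℤ} {hΔ : W.Δ ≠ 0} {p : ℕ} [hp : Fact p.Prime] {A T B : Finset ℕ}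

lemma charpoly_equiv {k : Type} [Field k] {ρ ρ' : ResidualGaloisRep k} (h : ρ.IsEquiv ρ')
    (σ : Gq) : LinearMap.charpoly (ρ.ρ σ) = LinearMap.charpoly (ρ'.ρ σ) := by
  obtain ⟨e⟩ := h
  have h1 : ρ'.ρ σ = e.toLinearEquiv.conj (ρ.ρ σ) := by
    apply LinearMap.ext
    intro x
    obtain ⟨y, rfl⟩ := e.toLinearEquiv.surjective x
    rw [LinearEquiv.conj_apply_apply, LinearEquiv.symm_apply_apply]
    exact (e.map_apply σ y).symm
  rw [h1, LinearEquiv.charpoly_conj]

lemma hpZ : (p : ℤ_[p]) ∈ maximalIdeal ℤ_[p] := by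
  rw [PadicInt.maximalIdeal_eq_span_p]
  exact Ideal.mem_span_singleton_self _

/-- characteristic polynomials of the residual representation from those of the Tate module -/
lemma charpoly_resZ_of {t d : ℤ} {σ : Gq}
    (h : ∀ [Finite (ResidueField ℤ_[p])], (H30.PT.tMat W hΔ (hpZ (p := p)) σ).trace = (t : ℤ_[p]) ∧
      (H30.PT.tMat W hΔ (hpZ (p := p)) σ).det = (d : ℤ_[p])) :
    LinearMap.charpoly ((resZ W hΔ p).ρ σ) =
      X ^ 2 - C (t : ZMod p) * X + C (d : ZMod p) := by
  let φ : ZMod p →+* ResidueField ℤ_[p] := (PadicInt.residueField (p := p)).symm.toRingHom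
  haveI : Finite (ResidueField ℤ_[p]) :=
    Finite.of_equiv _ (PadicInt.residueField (p := p)).symm.toEquiv
  have e := H87.Glue.residual_isEquiv W hΔ p (H35.padicToAdic ℤ_[p] hpZ)
    (H87.S58.isLocalHom_padicToAdic ℤ_[p] (H35.padicToAdic ℤ_[p] hpZ) hpZ) φ
  have h1 := charpoly_equiv e σ
  rw [H96.charpoly_residual_baseChangeAlong, H96.charpoly_residual] at h1
  have h2 : LinearMap.charpoly ((tO W hΔ (hpZ (p := p))).ρ σ) =
      X ^ 2 - C (t : ℤ_[p]) * X + C (d : ℤ_[p]) := by
    rw [← H30.PT.tMat_charpoly, Matrix.charpoly_fin_two, h.1, h.2]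
  have h3 : LinearMap.charpoly (((tateZ W hΔ p).baseChangeAlong (H35.padicToAdic ℤ_[p] hpZ)
    (H87.S58.isLocalHom_padicToAdic ℤ_[p] (H35.padicToAdic ℤ_[p] hpZ) hpZ)).ρ σ) = _ := h2
  rw [h3] at h1
  apply Polynomial.map_injective φ φ.injective
  rw [h1]
  simp

/-- Frobenius at a multiplicative prime on the residual representation -/
theorem resZ_charpoly_mult {q : ℕ} (hq : q.Prime) (hqp : q ≠ p) (hbad : (q : ℤ) ∣ W.Δ)
    (hc : ¬ (q : ℤ) ∣ W.c₄) {P : ValuationSubring Qb} (hP : P.LiesOverPrime q) {σ : Gq}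
    (hσ : P.IsFrobeniusAt σ q) :
    LinearMap.charpoly ((resZ W hΔ p).ρ σ) =
      X ^ 2 - C ((nodeSign W q : ZMod p) * ((q : ZMod p) + 1)) * X + C (q : ZMod p) := by
  have h := charpoly_resZ_of (p := p) (hΔ := hΔ) (W := W) (t := nodeSign W q * (q + 1))
    (d := (q : ℤ)) (σ := σ) (by
      intro _
      have h1 := H30.PT.tMat_frob_mult hΔ (hpZ (p := p)) hq hqp hbad hc hP hσ
      push_cast
      exact h1)
  rw [h]
  push_cast
  rfl

/-- Inertia on the residual representation -/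
theorem resZ_charpoly_inertia (hss : W.IsSemistableModel) {q : ℕ} (hq : q.Prime) (hqp : q ≠ p)
    {P : ValuationSubring Qb} (hP : P.LiesOverPrime q) {σ : Gq}
    (hσ : σ ∈ P.inertiaSubgroupIn ℚ) :
    LinearMap.charpoly ((resZ W hΔ p).ρ σ) = (X - 1) ^ 2 := by
  have h := charpoly_resZ_of (p := p) (hΔ := hΔ) (W := W) (t := 2)
    (d := 1) (σ := σ) (by
      intro _
      have h1 := H30.PT.tMat_inertia hΔ (hpZ (p := p)) hss hq hqp hP hσ
      push_cast
      exact h1)
  rw [h]
  simp only [Int.cast_ofNat, map_ofNat, Int.cast_one, map_one]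
  ring

/-- **The residual hypotheses from the partition.** -/
theorem resHypB_of_partition (h35 : p = 3 ∨ p = 5) (hW : W.IsSemistableModel) {s : ℕ}
    (P : Partition W hΔ p A T B s) : ResHypB W hΔ p A T B (nodeSign W) := by
  classical
  have h2 : (2 : ZMod p) ≠ 0 := by
    intro h
    have h1 : ((2 : ℕ) : ZMod p) = 0 := by exact_mod_cast h
    rw [CharP.cast_eq_zero_iff (ZMod p) p] at h1
    have := Nat.le_of_dvd (by norm_num) h1
    omega
  have hsgn : ∀ q, nodeSign W q ^ 2 = 1 := fun q => by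
    rcases H73LT.nodeSign_eq W q with h | h <;> rw [h] <;> norm_num
  have htr : ∀ q ∈ B, ∀ P : ValuationSubring Qb, P.LiesOverPrime q →
      ∀ φ : Gq, P.IsFrobeniusAt φ q →
      LinearMap.trace (ZMod p) _ ((resZ W hΔ p).ρ φ) =
        (nodeSign W q : ZMod p) * ((q : ZMod p) + 1) ∧
      LinearMap.det ((resZ W hΔ p).ρ φ) = (q : ZMod p) := by
    intro q hq Q hQ φ hφ
    have h1 := resZ_charpoly_mult (hΔ := hΔ) (P.B_prime q hq) (P.B_ne q hq) (P.B_bad q hq)
      (hW q (P.B_prime q hq) (P.B_bad q hq)) hQ hφ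
    rw [H86.charpoly_eq_of_finrank_two (resZ W hΔ p).finrank_eq] at h1
    have h3 := congrArg (fun f => f.coeff 1) h1
    have h4 := congrArg (fun f => f.coeff 0) h1
    simp [coeff_X, coeff_C] at h3 h4
    exact ⟨h3, h4⟩
  refine ⟨P.A_prime, P.A_ne, P.A_ram, ?_, ?_, P.T_prime, P.T_dvd, P.T_unr,
    fun q hq => (P.T_scalar q hq).2, P.B_prime, P.B_ne, P.B_unr, ?_, fun q _ => hsgn q,
    fun q hq Q hQ φ hφ => (htr q hq Q hQ φ hφ).1⟩
  · intro q hq Q hQ σ hσ
    exact resZ_charpoly_inertia hW (P.A_prime q hq) (P.A_ne q hq) hQ hσ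
  · intro q hq hqp hqA
    by_cases hbad : (q : ℤ) ∣ W.Δ
    · rcases P.cover q hq hqp hbad with h | h | h
      · exact absurd h hqA
      · exact P.T_unr q h
      · exact P.B_unr q h
    · exact resZ_isUnramifiedAt W hΔ p hq hqp hbad
  · intro q hq Q hQ φ hφ c hc
    obtain ⟨h3, h4⟩ := htr q hq Q hQ φ hφ
    have hfr : Module.finrank (ZMod p) (resZ W hΔ p).V = 2 := (resZ W hΔ p).finrank_eq
    rw [hc, map_smul, LinearMap.trace_one, hfr] at h3
    rw [hc, LinearMap.det_smul, hfr, map_one, mul_one] at h4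
    rw [smul_eq_mul] at h3
    push_cast at h3
    have hs2 : (nodeSign W q : ZMod p) ^ 2 = 1 := by
      have := congrArg (Int.cast : ℤ → ZMod p) (hsgn q)
      push_cast at this
      exact this
    -- `q = 1` in `ZMod p`
    have h5 : ((q : ZMod p) - 1) ^ 2 = 0 := by
      linear_combination ((q : ZMod p) + 1) ^ 2 * hs2 * (-1) + (4 : ZMod p) * h4 -
        (c * 2 + (nodeSign W q : ZMod p) * ((q : ZMod p) + 1)) * h3
    have h6 : (q : ZMod p) = 1 := by
      have := pow_eq_zero_iff (two_ne_zero) |>.mp h5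
      exact sub_eq_zero.mp this
    have h7 : c = (nodeSign W q : ZMod p) := by
      have : (2 : ZMod p) * (c - (nodeSign W q : ZMod p)) = 0 := by
        rw [h6] at h3
        linear_combination h3
      rcases mul_eq_zero.mp this with h | h
      · exact absurd h h2
      · exact sub_eq_zero.mp h
    refine P.B_not q hq ⟨?_, nodeSign W q, hsgn q, fun Q' hQ' φ' hφ' => ?_⟩
    · rw [← CharP.cast_eq_zero_iff (ZMod p) p (q - 1), Nat.cast_sub (P.B_prime q hq).one_le, h6,
        Nat.cast_one, sub_self]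
    · rw [← h7]
      exact frob_scalar_of_one (P.B_prime q hq) (P.B_unr q hq) hQ hQ' hφ hφ' hc

end Fermat.Agent.H57.S59
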