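/-
Mazur's principle in the form used by the initial reduction, from `H2Mz`.
-/
import Fermat.Agent.H69Red
import Fermat.Agent.H2Mz

set_option autoImplicit false
set_option linter.style.haveILetI false

noncomputable section

open WeierstrassCurve Fermat.Agent.H87.Glue

namespace Fermat.Agent.H69.Red

variable {W : WeierstrassCurve ℤ} {p : ℕ} [hp : Fact p.Prime]

theorem mazurW_of_odd (H : H2Mz.MazurOdd) (hp2 : p ≠ 2) (hΔ : W.Δ ≠ 0)
    (hirr : W.ModRepIsIrreducible p) : MazurW W hΔ p := by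
  intro q M hq hqp hM hqM h3 hunr hmod
  haveI : NeZero M := ⟨hM.ne'⟩
  rcases H2Mz.mazurW_of_odd H hp2 hΔ hirr hq hqp hqM
    (fun h => by
      obtain ⟨s, h1, h2, h4⟩ := h3 h
      exact ⟨s, h1, h4, h2⟩)
    (fun A hA σ hσ x => LinearMap.congr_fun (hunr A hA σ hσ) x) hmod with h | ⟨h1, u, hu, h2⟩
  · exact Or.inl h
  · right
    refine ⟨?_, u, ?_, fun P hP φ hφ => LinearMap.ext fun x => ?_⟩
    · rw [← CharP.cast_eq_zero_iff (ZMod p) p (q - 1), Nat.cast_sub hq.one_le, h1, Nat.cast_one,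
        sub_self]
    · rcases hu with rfl | rfl <;> norm_num
    · refine (h2 P hP φ hφ x).trans ?_
      rw [LinearMap.smul_apply, Module.End.one_apply, Int.cast_smul_eq_zsmul]
      rfl

end Fermat.Agent.H69.Red
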