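import Fermat.Agent.H53Selmer
import Fermat.Agent.H53Level

set_option autoImplicit false
set_option maxSynthPendingDepth 3
set_option linter.style.haveILetI false
set_option linter.unusedSectionVars false

/-!
# Dictionary between deformation conditions and cocycle conditions
-/

noncomputable section

open IsLocalRing Module ExtCitation Polynomial GaloisRep
open Fermat.Agent.H55 Fermat.Agent.H56

namespace Fermat.Agent.H53

section Residual

variable {p : ℕ} [Fact p.Prime] {k : Type} [Field k] [Algebra (ZMod p) k]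
  (ρbar : ResidualGaloisRep k) (b : Module.Basis (Fin 2) k ρbar.V)

lemma finLev_toMat : FinLev (toMat ρbar.ρ b) := by
  obtain ⟨L, hL, h⟩ := ρbar.factorsThroughFiniteLevel
  refine ⟨L.fixingSubgroup, (krullLevels_op_iff _).2 ⟨L, hL, le_rfl⟩, fun σ hσ => ?_⟩
  rw [IntermediateField.mem_fixingSubgroup_iff] at hσ
  rw [toMat_apply, h σ hσ]
  exact LinearMap.toMatrix_one b

lemma detCyc_toMat (hdet : (GaloisRepAdic.ofResidualGaloisRep ρbar).DetIsCyclotomic p) :
    DetCyc p (toMat ρbar.ρ b) := by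
  intro σ
  obtain ⟨hp, h⟩ := hdet
  have h1 := h 1 σ _ (cyc_one_val p σ)
  have hp0 : (p : k) = 0 := by
    have := (mem_maximalIdeal _).mp hp
    rw [mem_nonunits_iff, isUnit_iff_ne_zero, not_not] at this
    exact this
  rw [pow_one, hp0, Ideal.span_singleton_eq_bot.mpr rfl, Ideal.mem_bot, sub_eq_zero] at h1
  have h2 : (toMat ρbar.ρ b σ).det = LinearMap.det (ρbar.ρ σ) := by
    rw [toMat_apply, LinearMap.det_toMatrix]
  rw [h2]
  refine Eq.trans (show _ = _ from h1) ?_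
  rw [← map_natCast (algebraMap (ZMod p) k)]
  congr 1
  haveI : NeZero p := ⟨(Fact.out : p.Prime).ne_zero⟩
  rw [ZMod.natCast_val, ZMod.cast_id]

variable {ρbar}

lemma goodLift_of_det (hdet : (GaloisRepAdic.ofResidualGaloisRep ρbar).DetIsCyclotomic p)
    {R : GQ →* M2 (DualNumber k)} (h : MCont (DualNumber k) R)
    (hred : ∀ σ, redM k (R σ) = toMat ρbar.ρ b σ)
    (hR : (ofMatrix R h).DetIsCyclotomic p) : GoodLift (toMat ρbar.ρ b) R := by
  refine ⟨h, hred, fun σ => ?_⟩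
  obtain ⟨hp, h'⟩ := hR
  have h1 := h' 1 σ _ (cyc_one_val p σ)
  have hpk : (p : k) = 0 := by
    have := (mem_maximalIdeal _).mp hdet.1
    rw [mem_nonunits_iff, isUnit_iff_ne_zero, not_not] at this
    exact this
  have hp0 : (p : DualNumber k) = 0 := by
    have h2 : (p : DualNumber k) = TrivSqZeroExt.inl (p : k) := by
      rw [TrivSqZeroExt.inl_natCast]
    rw [h2, hpk, TrivSqZeroExt.inl_zero]
  rw [pow_one, hp0, Ideal.span_singleton_eq_bot.mpr rfl, Ideal.mem_bot, sub_eq_zero] at h1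
  have h2 := toMat_det (ofMatrix R h) (stdBasis R h) σ
  rw [toMat_stdBasis] at h2
  have h3 := detCyc_toMat (p := p) ρbar b hdet σ
  rw [← h2, h1, h3]
  have h4 : (algebraMap (ZMod p) k) (cycloChar p σ : ZMod p) =
      (((cycloChar p σ : ZMod p).val : ℕ) : k) := by
    haveI : NeZero p := ⟨(Fact.out : p.Prime).ne_zero⟩
    rw [← map_natCast (algebraMap (ZMod p) k), ZMod.natCast_val, ZMod.cast_id]
  rw [h4, TrivSqZeroExt.inl_natCast]

end Residual

section Adic

variable {A : Type} [CommRing A] [IsLocalRing A] {R : GQ →* M2 A} (h : MCont A R)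

lemma charpoly_of_unip {q : ℕ} (hR : (ofMatrix R h).IsUnipotentOnInertiaAt q)
    {P : ValuationSubring (AlgebraicClosure ℚ)} (hP : P.LiesOverPrime q) {σ : GQ}
    (hσ : σ ∈ P.inertiaSubgroupIn ℚ) : (R σ).charpoly = (X - 1) ^ 2 := by
  have h1 := hR P hP σ hσ
  rw [toMat_charpoly (ofMatrix R h) (stdBasis R h), toMat_stdBasis] at h1
  exact h1

lemma eq_one_of_unram {q : ℕ} (hR : (ofMatrix R h).IsUnramifiedAt q)
    {P : ValuationSubring (AlgebraicClosure ℚ)} (hP : P.LiesOverPrime q) {σ : GQ}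
    (hσ : σ ∈ P.inertiaSubgroupIn ℚ) : R σ = 1 := by
  have h1 := hR P hP σ hσ
  rw [toMat_eq_one_iff (ofMatrix R h) (stdBasis R h), toMat_stdBasis] at h1
  exact h1

end Adic

section Place

variable {p : ℕ} [Fact p.Prime]

lemma exists_stdPlace (q : Nat.Primes) (hq : p ≠ (q : ℕ)) :
    ∃ pl : PlaceData p (q : ℕ), pl.P = primeLocalPlace q := by
  have hP := H28.primeLocalPlace_liesOver q
  obtain ⟨φ, hφ⟩ := H54.exists_isFrobeniusAt q.2 hP
  obtain ⟨pl, h1, -⟩ := nonempty_placeData q.2 hq hP hφ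
  exact ⟨pl, h1⟩

variable {k : Type} [Field k] [Algebra (ZMod p) k]

/-- a cocycle vanishing at Frobenius and at the tame generator vanishes on the decomposition
group -/
lemma coc_eq_zero_D {r : H91.GQ →* M2 k} {R : H91.GQ →* M2 (DualNumber k)} (hR : GoodLift r R)
    {t : Nat.Primes} (htp : p ≠ (t : ℕ)) (pl : PlaceData p (t : ℕ))
    (hpl : pl.P = primeLocalPlace t) (hI : ∀ σ ∈ Iq t, r σ = 1) (h1 : coc R pl.φ = 0)
    (h2 : coc R pl.σ = 0) : ∀ σ ∈ Dq t, coc R σ = 0 := by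
  intro σ hσ
  let c : Dq t → SL p k := fun σ => ⟨coc R σ, trace_coc hR σ⟩
  have hc : c ∈ Z1 (Dlev t) (rhoD (ad p r) t) := H28.coc_mem_Z1 hR fun σ => rfl
  have hφ : (primeLocalPlace t).IsFrobeniusAt pl.φ t := by rw [← hpl]; exact pl.frob
  have hσ₀ : pl.σ ∈ Iq t := by
    have := pl.inert
    rwa [hpl] at this
  have hφD : pl.φ ∈ Dq t := hφ.mem_decompositionSubgroup
  have hσD : pl.σ ∈ Dq t := H28.Iq_le_Dq hσ₀
  have h3 := H28.eq_zero_of_tame hc (Ne.symm htp) (fun σ hσ m => by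
    rw [H51Dual.ad_eq_one (hI σ hσ)]; rfl) hσ₀ pl.tame (by
      rw [H28.extD_of_mem c hσD]
      exact Subtype.ext h2)
  have h4 := H28.eq_zero_of_frobenius hc hφ h3 (by
      rw [H28.extD_of_mem c hφD]
      exact Subtype.ext h1)
  have h5 := congrFun h4 ⟨σ, hσ⟩
  exact congrArg Subtype.val h5

/-- a representation which is unramified at `t` with scalar Frobenius is scalar on the decomposition
group -/
lemma scalar_D {r : H91.GQ →* M2 k} (hfl : FinLev r) {t : Nat.Primes}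
    (hI : ∀ σ ∈ Iq t, r σ = 1) {φ : H91.GQ} (hφ : (primeLocalPlace t).IsFrobeniusAt φ t) {u : k}
    (hu : r φ = u • (1 : M2 k)) : ∀ σ ∈ Dq t, ∃ u : k, r σ = u • (1 : M2 k) := by
  intro σ hσ
  obtain ⟨U, hU, h⟩ := hfl
  obtain ⟨n, ι, hι, w, hw, rfl⟩ := H28.exists_frobenius_mul t.2 (H28.primeLocalPlace_liesOver t) hφ
    hσ hU
  refine ⟨u ^ n, ?_⟩
  rw [map_mul, map_mul, map_pow, hI ι hι, h w hw, mul_one, mul_one, hu, _root_.smul_pow, one_pow]

end Place

end Fermat.Agent.H53
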