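import Fermat.Agent.H75PMark2
import Fermat.Agent.H53TWL1
import Fermat.Agent.H54Frobenius

/-!
# The marks at `p` : interface for the deformation ring
-/

set_option autoImplicit false
set_option maxSynthPendingDepth 3
set_option linter.unusedSectionVars false

open scoped Pointwise
open IsLocalRing Fermat.Agent.H64 Fermat.Agent.H56 ExtCitation
open Fermat.Agent.H53 (M2 MCont ofMatrix toMat mapMat OrdB)

noncomputable section

namespace Fermat.Agent.H75P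

variable {p : ℕ} [hp : Fact p.Prime]

theorem localBound_mono {k : Type} [Field k] [Algebra (ZMod p) k] {r : H91.GQ →* M2 k}
    {q : Nat.Primes} {N : ℕ} {Cond Cond' : (H91.GQ →* M2 (DualNumber k)) → Prop}
    (h : LocalBound p r q N Cond) (h' : ∀ R, GoodLift r R → Cond' R → Cond R) :
    LocalBound p r q N Cond' := by
  obtain ⟨L, h1, h2, h3, h4, h5⟩ := h
  exact ⟨L, h1, h2, h3, h4, fun R hR hC => h5 R hR (h' R hR hC)⟩

variable (p) in
/-- the elements `φ` (Frobenius) and `σ₀` used to define the marks at `p` -/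
structure MarkElts (φ σ₀ : FGQ) : Prop where
  frob : (padicPlace p).IsFrobeniusAt φ p
  inert : σ₀ ∈ Ip p
  fix : ∀ α ∈ UU p, σ₀ α = α
  move : ∃ π₁ : FQb, π₁ ^ p = p ∧ σ₀ π₁ ≠ π₁

namespace MarkElts

variable {φ σ₀ : FGQ} (h : MarkElts p φ σ₀)

include h

theorem dec : φ ∈ Dp p := h.frob.mem_decompositionSubgroup

theorem fixζ (n : ℕ) (ζ : FQb) (hζ : ζ ^ p ^ n = 1) : σ₀ ζ = ζ := h.fix ζ (rootOfUnity_mem_UU hζ)

theorem fixζ' (ζ : FQb) (hζ : ζ ^ p = 1) : σ₀ ζ = ζ := h.fixζ 1 ζ (by rwa [pow_one])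

end MarkElts

variable (p) in
theorem exists_markElts (hp2 : p ≠ 2) : ∃ φ σ₀ : FGQ, MarkElts p φ σ₀ := by
  obtain ⟨π₁, hπ⟩ := IsAlgClosed.exists_pow_nat_eq (p : FQb) hp.out.pos
  obtain ⟨σ₀, h1, h2, h3⟩ := exists_sigma hp2 hπ
  obtain ⟨φ, hφ⟩ := H54.exists_isFrobeniusAt hp.out (H54.liesOverPrime_padicPlace p)
  exact ⟨φ, σ₀, hφ, h1, h2, π₁, hπ, h3⟩

/-- the local bound for marked ordinary lifts -/
theorem localBound_ordMark {k : Type} [Field k] [Finite k] [Algebra (ZMod p) k] (hp2 : p ≠ 2)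
    {r : H91.GQ →* M2 k} (hr : FinLev r) (hdet : DetCyc p r) {φ σ₀ : FGQ}
    (hm : MarkElts p φ σ₀) (hr0 : r σ₀ = 1) {u : k} (hu : u ^ 2 = 1) :
    LocalBound p r (pPrime p) 3
      (fun R => OrdMark p R (TrivSqZeroExt.inl u) φ σ₀ 0 0) := by
  obtain ⟨π₁, hπ, hσ⟩ := hm.move
  refine localBound_mono (localBound_mark p hp2 hr (σ₀ := σ₀) (Ip_le_Dp (p := p) hm.inert) hπ hσ hr0) ?_
  intro R hR hC
  exact hC.markCond hdet hR hu hm.frob hm.inert hm.fixζ'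

/-- the determinant condition in matrix form -/
theorem detC_toMat {A : Type} [CommRing A] [IsLocalRing A] {ρ : GaloisRepAdic A}
    (h : ρ.DetIsCyclotomic p) (b : Module.Basis (Fin 2) A ρ.V) : DetC p (toMat ρ.ρ b) := by
  intro n σ a ha
  rw [← H53.toMat_det]
  exact h.2 n σ a ha

/-- change of basis -/
theorem exists_cj {A : Type} [CommRing A] [IsLocalRing A] (ρ : GaloisRepAdic A)
    (b b' : Module.Basis (Fin 2) A ρ.V) : ∃ g : (M2 A)ˣ, toMat ρ.ρ b' = cj g (toMat ρ.ρ b) := by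
  have h1 : b.toMatrix b' * b'.toMatrix b = 1 := b.toMatrix_mul_toMatrix_flip b'
  have h2 : b'.toMatrix b * b.toMatrix b' = 1 := b'.toMatrix_mul_toMatrix_flip b
  refine ⟨⟨b.toMatrix b', b'.toMatrix b, h1, h2⟩, ?_⟩
  ext1 σ
  show LinearMap.toMatrix b' b' (ρ.ρ σ) =
    b'.toMatrix b * LinearMap.toMatrix b b (ρ.ρ σ) * b.toMatrix b'
  rw [basis_toMatrix_mul_linearMap_toMatrix_mul_basis_toMatrix]

/-- ordinary representations in matrix form -/
theorem exists_ordI {A : Type} [CommRing A] [IsLocalRing A] {ρ : GaloisRepAdic A}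
    (h : ρ.IsOrdinaryAt p) (b : Module.Basis (Fin 2) A ρ.V) :
    ∃ g : (M2 A)ˣ, OrdI p (cj g (toMat ρ.ρ b)) := by
  obtain ⟨L, ⟨b', rfl⟩, hD, hI⟩ := h (padicPlace p) (H54.liesOverPrime_padicPlace p)
  obtain ⟨g, hg⟩ := exists_cj ρ b b'
  refine ⟨g, ?_⟩
  rw [← hg]
  refine ⟨fun σ hσ => ?_, fun σ hσ => ?_⟩
  · have h1 := hD σ hσ (b' 0) (Submodule.mem_span_singleton_self _)
    rw [H53.mem_span_basis_zero_iff, H53.repr_apply_eq] at h1
    simpa using h1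
  · have h2 := hI σ hσ (b' 1)
    rw [H53.mem_span_basis_zero_iff, map_sub, Finsupp.sub_apply, H53.repr_apply_eq] at h2
    simpa [sub_eq_zero] using h2

/-- strictly ordinary representations in matrix form -/
theorem exists_ordB {A : Type} [CommRing A] [IsLocalRing A] {ρ : GaloisRepAdic A}
    (h : ρ.IsStrictOrdinaryAt p) (b : Module.Basis (Fin 2) A ρ.V) :
    ∃ g : (M2 A)ˣ, OrdB p (padicPlace p) (cj g (toMat ρ.ρ b)) := by
  obtain ⟨b', hb'⟩ := (H53.strictOrd_iff_exists_ordB ρ p (padicPlace p)).mp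
    (h.2 (padicPlace p) (H54.liesOverPrime_padicPlace p))
  obtain ⟨g, hg⟩ := exists_cj ρ b b'
  exact ⟨g, by rwa [← hg]⟩

/-- **Existence of the marks at `p`.** -/
theorem exists_ordMark (hp2 : p ≠ 2) {A : Type} [CommRing A] [IsLocalRing A]
    {k : Type} [Field k] {j : k →+* ResidueField A} {r₀ : FGQ →* M2 k} {φ σ₀ : FGQ}
    (hm : MarkElts p φ σ₀) (hr0 : r₀ σ₀ = 1) {g₀ : (M2 k)ˣ} (hg₀ : OrdI p (cj g₀ r₀))
    {u₀ : k} (hu₀ : cj g₀ r₀ φ 1 1 = u₀) {u : A} (hu : residue A u = j u₀)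
    {ρ : GaloisRepAdic A} (hdet : ρ.DetIsCyclotomic p) (hord : ρ.IsOrdinaryAt p)
    (b₁ : Module.Basis (Fin 2) A ρ.V)
    (hb₁ : mapMat (residue A) (toMat ρ.ρ b₁) = mapMat j r₀) :
    ∃ t y : A, t ∈ maximalIdeal A ∧ y ∈ maximalIdeal A ∧
      OrdMark p (toMat ρ.ρ b₁) u φ σ₀ t y := by
  obtain ⟨g, hg⟩ := exists_ordI hord b₁
  have hdetA := detC_toMat hdet b₁
  obtain ⟨τ, hτ, hτu⟩ := exists_tau_unit p hp2
  refine ⟨_, _, ?_, ?_, g, hg, rfl, rfl⟩
  · -- `t`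
    rw [← residue_eq_zero_iff, map_sub, hu, sub_eq_zero]
    have h1 : OrdI p (cj (Units.map ((residue A).mapMatrix : M2 A →+* M2 _).toMonoidHom g)
        (mapMat (residue A) (toMat ρ.ρ b₁))) := by
      rw [← cj_map]; exact hg.map _
    have h2 : OrdI p (cj (Units.map (j.mapMatrix : M2 k →+* M2 _).toMonoidHom g₀)
        (mapMat (residue A) (toMat ρ.ρ b₁))) := by
      rw [hb₁, ← cj_map]; exact hg₀.map _
    have hpR : ((p : ℕ) : ResidueField A) ∈ maximalIdeal (ResidueField A) := by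
      rw [mem_maximalIdeal, mem_nonunits_iff, isUnit_iff_ne_zero, not_not,
        ← map_natCast (residue A), residue_eq_zero_iff]
      exact hdet.1
    have h3 := h1.psi_unique h2 hτ (hτu _ hpR _ (hdetA.map _)) hm.dec
    rw [hb₁, ← cj_map, ← hb₁, ← cj_map] at h3
    have h4 : residue A (cj g (toMat ρ.ρ b₁) φ 1 1) = j (cj g₀ r₀ φ 1 1) := h3
    rw [h4, hu₀]
  · -- `y`
    rw [← residue_eq_zero_iff]
    have h1 : mapMat (residue A) (cj g (toMat ρ.ρ b₁)) σ₀ = 1 := by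
      rw [cj_map, hb₁, cj_apply]
      have h2 : mapMat j r₀ σ₀ = 1 := by
        show (j.mapMatrix : M2 k →+* M2 _) (r₀ σ₀) = 1
        rw [hr0, map_one]
      rw [h2, mul_one, Units.inv_mul]
    have h2 := congrFun (congrFun h1 0) 1
    rw [Matrix.one_apply_ne (by decide)] at h2
    exact h2

/-- **The local theory at `p`, `p ∈ B`** (form required by the deformation ring side). -/
theorem local_p {𝒪 : Type} [CommRing 𝒪] [IsLocalRing 𝒪] [Finite (ResidueField 𝒪)]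
    [Algebra (ZMod p) (ResidueField 𝒪)] (hp2 : p ≠ 2)
    (ρbar : ResidualGaloisRep (ResidueField 𝒪))
    (hdetbar : (GaloisRepAdic.ofResidualGaloisRep ρbar).DetIsCyclotomic p)
    (b : Module.Basis (Fin 2) (ResidueField 𝒪) ρbar.V) (hfl : FinLev (toMat ρbar.ρ b))
    {φ σ₀ : FGQ} (hm : MarkElts p φ σ₀) (hr0 : toMat ρbar.ρ b σ₀ = 1)
    {g₀ : (M2 (ResidueField 𝒪))ˣ} (hg₀ : OrdI p (cj g₀ (toMat ρbar.ρ b)))
    {u : 𝒪} (hu2 : u ^ 2 = 1) (hu : cj g₀ (toMat ρbar.ρ b) φ 1 1 = residue 𝒪 u) :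
    ∃ Condp : (FGQ →* M2 (DualNumber (ResidueField 𝒪))) → Prop,
      LocalBound p (toMat ρbar.ρ b) (pPrime p) 3 Condp ∧
      ∀ (A : Type) [CommRing A] [IsLocalRing A] [Algebra 𝒪 A] [IsLocalHom (algebraMap 𝒪 A)]
        (ρ : GaloisRepAdic A), ρ.DetIsCyclotomic p → ρ.IsOrdinaryAt p →
        ∀ (b₁ : Module.Basis (Fin 2) A ρ.V),
          mapMat (residue A) (toMat ρ.ρ b₁) =
            mapMat (ResidueField.map (algebraMap 𝒪 A)) (toMat ρbar.ρ b) →
          ∃ t y : A, t ∈ maximalIdeal A ∧ y ∈ maximalIdeal A ∧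
            OrdMark p (toMat ρ.ρ b₁) (algebraMap 𝒪 A u) φ σ₀ t y ∧
            ∀ f : A →+* DualNumber (ResidueField 𝒪), IsLocalHom f →
              (∀ c, f (algebraMap 𝒪 A c) = TrivSqZeroExt.inl (residue 𝒪 c)) →
              f t = 0 → f y = 0 → Condp (mapMat f (toMat ρ.ρ b₁)) := by
  have hu0 : (residue 𝒪 u) ^ 2 = 1 := by rw [← map_pow, hu2, map_one]
  refine ⟨_, localBound_ordMark hp2 hfl (H53.detCyc_toMat (p := p) ρbar b hdetbar) hm hr0 hu0,
    fun A _ _ _ _ ρ hdet hord b₁ hb₁ => ?_⟩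
  obtain ⟨t, y, ht, hy, h⟩ := exists_ordMark hp2 hm hr0 hg₀ hu (u := algebraMap 𝒪 A u)
    (ResidueField.map_residue _ _).symm hdet hord b₁ hb₁
  refine ⟨t, y, ht, hy, h, fun f _ hf hft hfy => ?_⟩
  have h1 := h.map f
  rw [hft, hfy, hf] at h1
  exact h1

end Fermat.Agent.H75P
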