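/-
The squarefree version of `S59` from the four inner statements (types `F`, `Pα`, `Pβ`, `O`).
-/
import Fermat.Agent.H57S59Part
import Fermat.Agent.H69RedMz
import Fermat.Agent.H75PLocal
import Fermat.Agent.H52S59

set_option autoImplicit false
set_option linter.style.haveILetI false
set_option linter.unusedSectionVars false

noncomputable section

open WeierstrassCurve Fermat.Agent.H87.Glue Fermat.Agent.H69.Red
open Fermat.Agent.H73LT (nodeSign)

namespace Fermat.Agent.H57.S59

/-- **The common hypotheses** of the four types: a counterexample with its partition of primes. -/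
structure Setup (W : WeierstrassCurve ℤ) (hΔ : W.Δ ≠ 0) (p : ℕ) [Fact p.Prime]
    (A T B : Finset ℕ) (s : ℕ) : Prop where
  h35 : p = 3 ∨ p = 5
  ss : W.IsSemistableModel
  irr : W.ModRepIsIrreducible p
  part : Partition W hΔ p A T B s
  not_exact : ¬ Mlc1IsModularModelOfExactConductorLevel W

/-- **Type `F`**: good reduction at `p`, base level prime to `p` -/
def TypeF : Prop :=
  ∀ (W : WeierstrassCurve ℤ) (hΔ : W.Δ ≠ 0) (p : ℕ) [Fact p.Prime] (A T B : Finset ℕ) (s : ℕ),
    Setup W hΔ p A T B s → W.IsGoodPrimeFor p →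
      W.IsResiduallyModularOfLevel p (baseLevel A T s) → InnerFull W hΔ p A T B (nodeSign W)

/-- **Type `Pα`**: multiplicative reduction at `p`, base level prime to `p` -/
def TypeAlpha : Prop :=
  ∀ (W : WeierstrassCurve ℤ) (hΔ : W.Δ ≠ 0) (p : ℕ) [Fact p.Prime] (A T B : Finset ℕ) (s : ℕ),
    Setup W hΔ p A T B s → ¬ W.IsGoodPrimeFor p →
      W.IsResiduallyModularOfLevel p (baseLevel A T s) → InnerFull W hΔ p A T B (nodeSign W)

/-- **Type `O`**: multiplicative reduction at `p`, base level divisible by `p` and minimal at `p`,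
the mark element `σ₀` acts non-trivially -/
def TypeO : Prop :=
  ∀ (W : WeierstrassCurve ℤ) (hΔ : W.Δ ≠ 0) (p : ℕ) [Fact p.Prime] (A T B : Finset ℕ) (s : ℕ),
    Setup W hΔ p A T B s → ¬ W.IsGoodPrimeFor p →
      W.IsResiduallyModularOfLevel p (baseLevel A T s * p) →
      (∀ B' ⊆ B, ¬ W.IsResiduallyModularOfLevel p (baseLevel A T s * ∏ q ∈ B', q)) →
      ∀ φ σ₀ : AlgebraicClosure ℚ ≃ₐ[ℚ] AlgebraicClosure ℚ, H75P.MarkElts p φ σ₀ →
        (resZ W hΔ p).ρ σ₀ ≠ 1 → InnerFull W hΔ p A T B (nodeSign W)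

/-- **Type `Pβ`**: multiplicative reduction at `p`, base level divisible by `p` and minimal at `p`,
the mark element `σ₀` acts trivially -/
def TypeBeta : Prop :=
  ∀ (W : WeierstrassCurve ℤ) (hΔ : W.Δ ≠ 0) (p : ℕ) [Fact p.Prime] (A T B : Finset ℕ) (s : ℕ),
    Setup W hΔ p A T B s → ¬ W.IsGoodPrimeFor p →
      W.IsResiduallyModularOfLevel p (baseLevel A T s * p) →
      (∀ B' ⊆ B, ¬ W.IsResiduallyModularOfLevel p (baseLevel A T s * ∏ q ∈ B', q)) →
      ∀ φ σ₀ : AlgebraicClosure ℚ ≃ₐ[ℚ] AlgebraicClosure ℚ, H75P.MarkElts p φ σ₀ →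
        (resZ W hΔ p).ρ σ₀ = 1 → InnerBeta W hΔ p A T B (nodeSign W)

/-- **The squarefree version of `S59` from the four inner statements.** -/
theorem s59sq_of (h29 : H96.StatementS29) (hMz : H2Mz.MazurOdd)
    (hF : TypeF) (hA : TypeAlpha) (hO : TypeO) (hB : TypeBeta) : H52.S59.S59sq := by
  intro p h35 W hΔ hW hirr M₀ hsq hgood hres
  have hpp : p.Prime := by rcases h35 with rfl | rfl <;> norm_num
  haveI : Fact p.Prime := ⟨hpp⟩
  have hp2 : p ≠ 2 := by omega
  by_contra hnot
  obtain ⟨A, T, B, s, P, h⟩ := exists_partition h29 hΔ hW hirr (mazurW_of_odd hMz hp2 hΔ hirr) hsq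
    hgood hres
  have H := resHypB_of_partition h35 hW P
  have St : Setup W hΔ p A T B s := ⟨h35, hW, hirr, P, hnot⟩
  rcases h with h | ⟨hbad, h, hmin⟩
  · by_cases hg : W.IsGoodPrimeFor p
    · exact no_full h35 hW hirr H (hF W hΔ p A T B s St hg h)
    · exact no_full h35 hW hirr H (hA W hΔ p A T B s St hg h)
  · obtain ⟨φ, σ₀, hm⟩ := H75P.exists_markElts (p := p) hp2
    by_cases h1 : (resZ W hΔ p).ρ σ₀ = 1
    · exact no_full_beta h35 hW hirr H (hB W hΔ p A T B s St hbad h hmin φ σ₀ hm h1)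
    · exact no_full h35 hW hirr H (hO W hΔ p A T B s St hbad h hmin φ σ₀ hm h1)

/-- the action of `σ₀` over an extension of the prime field -/
theorem resZ_eq_one_iff {W : WeierstrassCurve ℤ} {hΔ : W.Δ ≠ 0} {p : ℕ} [Fact p.Prime]
    {k : Type} [Field k] [Algebra (ZMod p) k]
    (b : Module.Basis (Fin 2) k ((resZ W hΔ p).baseChange k).V)
    (σ : AlgebraicClosure ℚ ≃ₐ[ℚ] AlgebraicClosure ℚ) :
    H53.toMat ((resZ W hΔ p).baseChange k).ρ b σ = 1 ↔ (resZ W hΔ p).ρ σ = 1 := by
  let b₀ : Module.Basis (Fin 2) (ZMod p) (resZ W hΔ p).V :=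
    Module.finBasisOfFinrankEq (ZMod p) (resZ W hΔ p).V (resZ W hΔ p).finrank_eq
  let f : Module.End (ZMod p) (resZ W hΔ p).V := (resZ W hΔ p).ρ σ
  have h0 : H53.toMat ((resZ W hΔ p).baseChange k).ρ b σ =
    LinearMap.toMatrix b b (f.baseChange k) := rfl
  rw [h0]
  constructor
  · intro h
    have h1 : f.baseChange k = (1 : Module.End k (TensorProduct (ZMod p) k (resZ W hΔ p).V)) := by
      apply (LinearMap.toMatrix b b).injective
      rw [LinearMap.toMatrix_one]
      exact h
    let M := LinearMap.toMatrix b₀ b₀ f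
    have h2 : M.map (algebraMap (ZMod p) k) = (1 : Matrix (Fin 2) (Fin 2) k) := by
      rw [← LinearMap.toMatrix_baseChange k f b₀ b₀, h1, LinearMap.toMatrix_one]
    have hinj : Function.Injective (algebraMap (ZMod p) k) := (algebraMap (ZMod p) k).injective
    apply (LinearMap.toMatrix b₀ b₀).injective
    rw [LinearMap.toMatrix_one]
    change M = _
    ext i j
    apply hinj
    have h3 := congrFun (congrFun h2 i) j
    rw [Matrix.map_apply] at h3
    rw [h3]
    fin_cases i <;> fin_cases j <;> simp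
  · intro h
    change f = 1 at h
    rw [h, LinearMap.baseChange_one]
    exact LinearMap.toMatrix_one b

end Fermat.Agent.H57.S59
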