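/-
The end of S59: from a form of squarefree level with the eigenvalues of `W` to the exact conductor
level.
-/
import Fermat.Agent.H87S58
import Fermat.Agent.H44OldForm
import Fermat.Agent.H35Abs
import Fermat.Agent.H30Act
import Fermat.Prelude.Def_WeierstrassCurve_Mlc1RowStatement

set_option autoImplicit false
set_option linter.style.haveILetI false

noncomputable section

open Polynomial IsLocalRing ModularFormClass

namespace Fermat.Agent.H69.Fin

open Fermat.Agent.H87.S58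

/-- **The end of S59 for normalised eigenforms.** A normalised eigenform of squarefree level with
almost all eigenvalues equal to those of `W` shows that `W` is modular of exact conductor level. -/
theorem exact_of_eigenform (h35 : StatementS35) (W : WeierstrassCurve ℤ) (hΔ : W.Δ ≠ 0)
    {L : ℕ} (hL : Squarefree L) {f : CuspForm (CongruenceSubgroup.Gamma0 L) 2}
    (hf : f.IsNormalizedEigenform) {N : ℕ} (hN0 : N ≠ 0) (hLN : L ∣ N)
    (hfa : ∀ ℓ : ℕ, ℓ.Prime → ¬ ℓ ∣ N → qCoeff ⇑f ℓ = (W.apOfModel ℓ : ℂ)) :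
    Mlc1IsModularModelOfExactConductorLevel W := by
  have hL0 : L ≠ 0 := hL.ne_zero
  obtain ⟨M, hML, g, hg, hgf⟩ := H58.exists_isNewform hL0 hf
  have hM0 : M ≠ 0 := by
    rintro rfl
    exact hL0 (zero_dvd_iff.mp hML)
  haveI : NeZero M := ⟨hM0⟩
  have hMN : M ∣ N := hML.trans hLN
  have hsqM : Squarefree M := hL.squarefree_of_dvd hML
  have hga : ∀ ℓ : ℕ, ℓ.Prime → ¬ ℓ ∣ N → qCoeff ⇑g ℓ = (W.apOfModel ℓ : ℂ) := by
    intro ℓ hℓ hℓN
    rw [hgf ℓ hℓ fun h => hℓN (h.trans hLN)]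
    exact hfa ℓ hℓ hℓN
  have hsq : ∀ q : ℕ, q.Prime → ¬ q ^ 2 ∣ M := by
    intro q hq h
    rw [Nat.squarefree_iff_prime_squarefree] at hsqM
    exact hsqM q hq (by rwa [← pow_two])
  have hdvd : ∀ q : ℕ, q.Prime → q ∣ M → (q : ℤ) ∣ W.Δ := by
    intro q hq hqM
    by_contra hgood
    exact (good_prime hΔ hN0 hMN hg hga h35 hq hgood).1 ⟨hqM, hsq q hq⟩
  have hMc : M ∣ W.conductorLevel := by
    have h1 : M ∣ ∏ q ∈ M.primeFactors, q := by
      rw [Nat.prod_primeFactors_of_squarefree hsqM]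
    refine h1.trans ?_
    refine Finset.prod_primes_dvd _ (fun q hq => (Nat.prime_of_mem_primeFactors hq).prime)
      fun q hq => ?_
    have hq' := Nat.prime_of_mem_primeFactors hq
    exact (W.prime_dvd_conductorLevel_iff hΔ hq').mpr
      (hdvd q hq' (Nat.dvd_of_mem_primeFactors hq))
  have hc0 : W.conductorLevel ≠ 0 := W.conductorLevel_pos.ne'
  obtain ⟨f', hf', hf'a⟩ := H58.exists_isNormalizedEigenform_of_dvd' hc0 hMc hg.1
  refine ⟨W.conductorLevel, W.conductorLevel_pos, W.squarefree_conductorLevel,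
    fun q hq => W.prime_dvd_conductorLevel_iff hΔ hq, f', hf', fun ℓ hℓ hgood hℓc => ?_⟩
  rw [hf'a ℓ hℓ hℓc]
  refine (good_prime hΔ hN0 hMN hg hga h35 hℓ hgood).2 fun h => ?_
  exact hgood (hdvd ℓ hℓ h)

/-- A nonzero cusp form of level `L` which is an eigenvector of `T_ℓ`, `ℓ ∤ N`, with eigenvalue
`a_ℓ(W)`. -/
theorem exact_of_form (h35 : StatementS35) (W : WeierstrassCurve ℤ) (hΔ : W.Δ ≠ 0)
    {L : ℕ} (hL : Squarefree L) {N : ℕ} (hN0 : N ≠ 0) (hLN : L ∣ N)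
    (h : CuspForm (CongruenceSubgroup.Gamma0 L) 2) (hne : h ≠ 0)
    (hT : ∀ (ℓ : ℕ) (hℓ : ℓ.Prime) (_ : ¬ ℓ ∣ N) (hℓL : ¬ ℓ ∣ L),
      CuspForm.heckeTLin 2 hℓ hℓL h = (W.apOfModel ℓ : ℂ) • h) :
    Mlc1IsModularModelOfExactConductorLevel W := by
  haveI : NeZero L := ⟨hL.ne_zero⟩
  obtain ⟨g, hg, hga⟩ := H44.exists_normalizedEigenform_of_partial hLN h hne _ hT
  exact exact_of_eigenform h35 W hΔ hL hg hN0 hLN hga

/-- A homomorphism of the Hecke algebra of squarefree level to a ring of characteristic zero with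
`T_ℓ ↦ a_ℓ(W)` for `ℓ ∉ S`. -/
theorem exact_of_char (h35 : StatementS35) (W : WeierstrassCurve ℤ) (hΔ : W.Δ ≠ 0)
    {L : ℕ} [NeZero L] (hL : Squarefree L) (S : Finset ℕ)
    {A : Type*} [CommRing A] [CharZero A]
    (lam : CuspForm.heckeAlgebra L 2 (↑S : Set ℕ) →+* A)
    (hlam : ∀ (ℓ : ℕ) (hℓ : ℓ.Prime) (hℓL : ¬ ℓ ∣ L) (hℓS : ℓ ∉ (↑S : Set ℕ)),
      lam (CuspForm.heckeAlgebra.T hℓ hℓL hℓS) = (W.apOfModel ℓ : A)) :
    Mlc1IsModularModelOfExactConductorLevel W := by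
  classical
  let a : MvPolynomial (H31.GoodPrimes L (↑S : Set ℕ)) ℤ →+* ℤ :=
    MvPolynomial.eval₂Hom (RingHom.id ℤ) fun ℓ => W.apOfModel ℓ.1
  let ψ : MvPolynomial (H31.GoodPrimes L (↑S : Set ℕ)) ℤ →+* ℂ := (Int.castRingHom ℂ).comp a
  have h1 : lam.comp (H31.evHecke L (↑S : Set ℕ)) = (Int.castRingHom A).comp a := by
    refine MvPolynomial.ringHom_ext (fun r => ?_) fun ℓ => ?_
    · simp
    · rw [RingHom.comp_apply, H31.evHecke_X, hlam]
      simp [a]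
  obtain ⟨f, hf0, hf⟩ := H35.exists_eigenform_of_char (N := L) (N' := L) dvd_rfl (↑S : Set ℕ) ψ (by
    intro P hP
    have h2 : H31.evHecke L (↑S : Set ℕ) P = 0 := by
      apply Subtype.ext
      have h3 : H35.renameGood (dvd_refl L) (subset_rfl : (↑S : Set ℕ) ⊆ ↑S) P = P := by
        have h9 : H35.renameGood (dvd_refl L) (subset_rfl : (↑S : Set ℕ) ⊆ ↑S) =
            RingHom.id _ := by
          refine MvPolynomial.ringHom_ext (fun r => ?_) fun ℓ => ?_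
          · simp
          · rw [H35.renameGood_X]
            rfl
        rw [h9, RingHom.id_apply]
      have h4 := hP
      rw [H35.evEnd, RingHom.comp_apply, h3] at h4
      exact h4
    have h5 := RingHom.congr_fun h1 P
    rw [RingHom.comp_apply, h2, map_zero, RingHom.comp_apply] at h5
    have h6 : a P = 0 := by
      have : ((a P : ℤ) : A) = 0 := h5.symm
      exact_mod_cast this
    change ((a P : ℤ) : ℂ) = 0
    rw [h6, Int.cast_zero])
  refine exact_of_form h35 W hΔ hL (N := L * ∏ q ∈ S, (if q = 0 then 1 else q)) ?_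
    (dvd_mul_right _ _) f hf0 ?_
  · refine mul_ne_zero hL.ne_zero (Finset.prod_ne_zero_iff.mpr fun q _ => ?_)
    split_ifs with h
    · exact one_ne_zero
    · exact h
  · intro ℓ hℓ hℓN hℓL
    have hℓS : ℓ ∉ (↑S : Set ℕ) := by
      intro h
      apply hℓN
      refine Dvd.dvd.mul_left ?_ _
      have h7 := Finset.dvd_prod_of_mem (fun q => if q = 0 then 1 else q) (Finset.mem_coe.mp h)
      simpa [hℓ.ne_zero] using h7
    have h8 := hf (MvPolynomial.X ⟨⟨ℓ, hℓ⟩, hℓL, hℓS⟩)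
    rw [H35.evEnd_X] at h8
    rw [h8]
    simp [ψ, a]

/-- **Dichotomy**: either `W` is modular of exact conductor level, or some integral relation
between the Hecke operators of level `L` does not hold for the `a_ℓ(W)`. -/
theorem exact_or_exists (h35 : StatementS35) (W : WeierstrassCurve ℤ) (hΔ : W.Δ ≠ 0)
    {L : ℕ} [NeZero L] (hL : Squarefree L) (S : Finset ℕ)
    (hNS : ∀ q : ℕ, q.Prime → q ∣ L → q ∈ (↑S : Set ℕ)) :
    Mlc1IsModularModelOfExactConductorLevel W ∨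
      ∃ P : MvPolynomial {ℓ : ℕ // ℓ.Prime ∧ ℓ ∉ (↑S : Set ℕ)} ℤ,
        H30.evZ L (↑S : Set ℕ) hNS P = 0 ∧
          MvPolynomial.aeval (fun i => W.apOfModel i.1) P ≠ (0 : ℤ) := by
  classical
  by_contra hcon
  push Not at hcon
  obtain ⟨h1, h2⟩ := hcon
  apply h1
  let a : MvPolynomial {ℓ : ℕ // ℓ.Prime ∧ ℓ ∉ (↑S : Set ℕ)} ℤ →+* ℤ :=
    (MvPolynomial.aeval (fun i => W.apOfModel i.1) :
      MvPolynomial {ℓ : ℕ // ℓ.Prime ∧ ℓ ∉ (↑S : Set ℕ)} ℤ →ₐ[ℤ] ℤ)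
  let ev : MvPolynomial {ℓ : ℕ // ℓ.Prime ∧ ℓ ∉ (↑S : Set ℕ)} ℤ →+*
    CuspForm.heckeAlgebra L 2 (↑S : Set ℕ) := (H30.evZ L (↑S : Set ℕ) hNS).toRingHom
  have hker : RingHom.ker ev ≤ RingHom.ker a := by
    intro P hP
    exact h2 P hP
  let lam : CuspForm.heckeAlgebra L 2 (↑S : Set ℕ) →+* ℤ :=
    ev.liftOfSurjective (H30.evZ_surjective L (↑S : Set ℕ) hNS) ⟨a, hker⟩
  have hlam : ∀ P, lam (H30.evZ L (↑S : Set ℕ) hNS P) = a P := fun P =>
    RingHom.liftOfRightInverse_comp_apply _ _ _ ⟨a, hker⟩ P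
  refine exact_of_char h35 W hΔ hL S lam ?_
  intro ℓ hℓ hℓL hℓS
  have h3 := hlam (MvPolynomial.X ⟨ℓ, hℓ, hℓS⟩)
  rw [H30.evZ_X] at h3
  have h4 : a (MvPolynomial.X ⟨ℓ, hℓ, hℓS⟩) = W.apOfModel ℓ := by
    change MvPolynomial.aeval (fun i : {ℓ : ℕ // ℓ.Prime ∧ ℓ ∉ (↑S : Set ℕ)} => W.apOfModel i.1)
      (MvPolynomial.X ⟨ℓ, hℓ, hℓS⟩) = _
    rw [MvPolynomial.aeval_X]
  rw [h4] at h3
  exact h3

end Fermat.Agent.H69.Fin
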