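import Fermat.Agent.H70Psi

/-!
# `H¹(Γ₀(M), W_ψ)` : right exactness, Eisenstein kernel, projectivity of non-Eisenstein summands
-/

set_option autoImplicit false

open CongruenceSubgroup Matrix.SpecialLinearGroup
open scoped MatrixGroups

noncomputable section

namespace Fermat.Agent.H70.Coh

lemma neg_one_mem_Gamma0 (M : ℕ) : (-1 : SL(2, ℤ)) ∈ Gamma0 M := by
  rw [Gamma0_mem]; simp

instance groupFG_SL2Z : Group.FG SL(2, ℤ) :=
  ⟨⟨{ModularGroup.S, ModularGroup.T}, by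
    rw [Finset.coe_insert, Finset.coe_singleton]
    exact SpecialLinearGroup.SL2Z_generators⟩⟩

instance groupFG_Gamma0 (M : ℕ) [NeZero M] : Group.FG (Gamma0 M) :=
  Subgroup.fg_of_index_ne_zero _

section

variable {N M : ℕ} (hM : N ∣ M) {R : Type*} [CommRing R] (ψ : (ZMod N)ˣ →* Rˣ)

/-- the character of `Γ₀(M)` -/
def chi : Gamma0 M →* Rˣ := ψ.comp ((aUnit N).comp (gam N M hM))

lemma chi_apply (γ : Gamma0 M) : chi hM ψ γ = ψ (aUnit N (gam N M hM γ)) := rfl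

lemma chi_neg_one (hψ : ψ (-1) = 1) : chi hM ψ ⟨-1, neg_one_mem_Gamma0 M⟩ = 1 := by
  rw [chi_apply]
  have : aUnit N (gam N M hM ⟨-1, neg_one_mem_Gamma0 M⟩) = -1 := by
    apply Units.ext
    rw [aUnit_val, gam_val]
    simp
  rw [this, hψ]

variable {W : Type*} [AddCommGroup W] [Module R W]

lemma mem_Z1_psi {c : Gamma0 M → W} : c ∈ Z1 (gam N M hM) (psiRep ψ W) ↔
    ∀ γ δ, c (γ * δ) = ((chi hM ψ δ : Rˣ) : R) • c γ + c δ := Iff.rfl

/-- `Z¹ = Hom(UD, W)` -/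
def z1Equiv (W : Type*) [AddCommGroup W] [Module R W] :
    Z1 (gam N M hM) (psiRep ψ W) ≃ₗ[R] (UD (chi hM ψ) →ₗ[R] W) where
  toFun c := udLift (chi hM ψ) c.1 ((mem_Z1_psi hM ψ).mp c.2)
  map_add' a b := by
    apply ud_hom_ext
    intro γ
    rw [LinearMap.add_apply, udLift_ud, udLift_ud, udLift_ud]
    rfl
  map_smul' r a := by
    apply ud_hom_ext
    intro γ
    rw [LinearMap.smul_apply, udLift_ud, udLift_ud]
    rfl
  invFun f := ⟨fun γ => f (ud (chi hM ψ) γ), fun γ δ => by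
    change f (ud (chi hM ψ) (γ * δ)) = ((chi hM ψ δ : Rˣ) : R) • f (ud (chi hM ψ) γ) +
      f (ud (chi hM ψ) δ)
    rw [ud_mul, map_add, map_smul]⟩
  left_inv c := by
    apply Subtype.ext
    funext γ
    exact udLift_ud _ _ _ _
  right_inv f := by
    apply ud_hom_ext
    intro γ
    exact udLift_ud _ _ _ _

lemma z1Equiv_apply (c : Z1 (gam N M hM) (psiRep ψ W)) (γ : Gamma0 M) :
    z1Equiv hM ψ W c (ud (chi hM ψ) γ) = c.1 γ := udLift_ud _ _ ((mem_Z1_psi hM ψ).mp c.2) _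

lemma z1Equiv_symm_apply (f : UD (chi hM ψ) →ₗ[R] W) (γ : Gamma0 M) :
    ((z1Equiv hM ψ W).symm f).1 γ = f (ud (chi hM ψ) γ) := rfl

/-- compatibility of the action with linear maps of the coefficients -/
lemma psiRep_compat {W' : Type*} [AddCommGroup W'] [Module R W'] (f : W →ₗ[R] W') (s : DN N)
    (v : W) : f (slash (psiRep ψ W) s v) = slash (psiRep ψ W') s (f v) := by
  rw [slash_psiRep, slash_psiRep, map_smul]

/-- functoriality in the `R`-module `W` -/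
def z1map {W' : Type*} [AddCommGroup W'] [Module R W'] (f : W →ₗ[R] W') :
    Z1 (gam N M hM) (psiRep ψ W) →ₗ[R] Z1 (gam N M hM) (psiRep ψ W') :=
  Z1.map f (psiRep_compat ψ f)

/-- functoriality in the `R`-module `W` -/
def h1map {W' : Type*} [AddCommGroup W'] [Module R W'] (f : W →ₗ[R] W') :
    H1 (gam N M hM) (psiRep ψ W) →ₗ[R] H1 (gam N M hM) (psiRep ψ W') :=
  H1.map f (psiRep_compat ψ f)

variable {W' : Type*} [AddCommGroup W'] [Module R W']

lemma z1map_apply (f : W →ₗ[R] W') (c : Z1 (gam N M hM) (psiRep ψ W)) (γ : Gamma0 M) :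
    (z1map hM ψ f c).1 γ = f (c.1 γ) := rfl

lemma h1map_mk (f : W →ₗ[R] W') (c : Z1 (gam N M hM) (psiRep ψ W)) :
    h1map hM ψ f (H1.mk (gam N M hM) (psiRep ψ W) c) =
      H1.mk (gam N M hM) (psiRep ψ W') (z1map hM ψ f c) := rfl

/-- hypotheses guaranteeing `H² = 0` -/
structure Good (M : ℕ) (R : Type*) [CommRing R] : Prop where
  weight : Nonempty (OrbitWeight R (Gamma0 M))
  two : IsUnit (2 : R)

theorem good_of_six (M : ℕ) (h2 : IsUnit (2 : R)) (h3 : IsUnit (3 : R)) : Good M R :=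
  ⟨⟨orbitWeightOfUnit _ h2 h3⟩, h2⟩

/-- `Γ₀(M)` has no `3`-torsion mod `±1` if `x² - x + 1` has no root modulo a divisor of `M`. -/
theorem good_of_noThree {r : ℕ} (hr : r ∣ M) (h2 : IsUnit (2 : R))
    (hroot : ∀ x : ZMod r, x ^ 2 - x + 1 ≠ 0) : Good M R := by
  refine ⟨nonempty_orbitWeight_of_noThree (neg_one_mem_Gamma0 M) h2 ?_, h2⟩
  intro g hg
  set h : SL(2, ℤ) := g * (ModularGroup.S * ModularGroup.T) * g⁻¹ with hh
  have htr : (h : Matrix (Fin 2) (Fin 2) ℤ).trace = 1 := by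
    rw [hh, Matrix.SpecialLinearGroup.coe_mul, Matrix.trace_mul_comm,
      Matrix.SpecialLinearGroup.coe_mul, ← mul_assoc, ← Matrix.SpecialLinearGroup.coe_mul,
      inv_mul_cancel, Matrix.SpecialLinearGroup.coe_one, one_mul]
    decide
  have hdet : (h : Matrix (Fin 2) (Fin 2) ℤ).det = 1 := h.det_coe
  rw [Matrix.det_fin_two] at hdet
  rw [Matrix.trace_fin_two] at htr
  have hc : ((h 1 0 : ℤ) : ZMod r) = 0 := by
    rw [ZMod.intCast_zmod_eq_zero_iff_dvd]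
    exact (Int.natCast_dvd_natCast.mpr hr).trans
      ((ZMod.intCast_zmod_eq_zero_iff_dvd _ _).mp (Gamma0_mem.mp hg))
  apply hroot ((h 0 0 : ℤ) : ZMod r)
  have h1 := congrArg (Int.cast : ℤ → ZMod r) hdet
  have h2 := congrArg (Int.cast : ℤ → ZMod r) htr
  push_cast at h1 h2
  change ((h 0 0 : ℤ) : ZMod r) * ((h 1 1 : ℤ) : ZMod r) -
    ((h 0 1 : ℤ) : ZMod r) * ((h 1 0 : ℤ) : ZMod r) = 1 at h1
  change ((h 0 0 : ℤ) : ZMod r) + ((h 1 1 : ℤ) : ZMod r) = 1 at h2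
  rw [hc, mul_zero, sub_zero] at h1
  have h3 : ((h 1 1 : ℤ) : ZMod r) = 1 - ((h 0 0 : ℤ) : ZMod r) := by linear_combination h2
  rw [h3] at h1
  linear_combination -h1

variable (hg : Good M R) (hψ : ψ (-1) = 1)

include hg hψ in
/-- **Right exactness of `Z¹`.** -/
theorem z1map_surjective (f : W →ₗ[R] W') (hf : Function.Surjective f) :
    Function.Surjective (z1map hM ψ f) := by
  intro c'
  obtain ⟨w⟩ := hg.weight
  obtain ⟨c, hc, hcf⟩ := exists_lift_crossed (neg_one_mem_Gamma0 M) w hg.two (chi hM ψ)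
    (chi_neg_one hM ψ hψ) f hf c'.1 c'.2
  exact ⟨⟨c, hc⟩, Subtype.ext (funext hcf)⟩

include hg hψ in
theorem h1map_surjective (f : W →ₗ[R] W') (hf : Function.Surjective f) :
    Function.Surjective (h1map hM ψ f) := by
  intro x
  obtain ⟨c', rfl⟩ := Submodule.mkQ_surjective _ x
  obtain ⟨c, rfl⟩ := z1map_surjective hM ψ hg hψ f hf c'
  exact ⟨H1.mk (gam N M hM) (psiRep ψ W) c, rfl⟩

include hg hψ in
/-- **Middle exactness of `H¹`.** -/
theorem h1map_exact {W'' : Type*} [AddCommGroup W''] [Module R W'']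
    (f : W →ₗ[R] W') (g : W' →ₗ[R] W'') (hfg : Function.Exact f g)
    (hg' : Function.Surjective g) :
    Function.Exact (h1map hM ψ f) (h1map hM ψ g) := by
  intro x
  obtain ⟨c, rfl⟩ := Submodule.mkQ_surjective _ x
  constructor
  · intro hx
    change H1.mk (gam N M hM) (psiRep ψ W'') (z1map hM ψ g c) = 0 at hx
    rw [Submodule.mkQ_apply, Submodule.Quotient.mk_eq_zero] at hx
    obtain ⟨v'', hv''⟩ := hx
    obtain ⟨v', rfl⟩ := hg' v''
    have h1 : z1map hM ψ g (c - cob (gam N M hM) (psiRep ψ W') v') = 0 := by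
      rw [map_sub, ← hv'']
      have : z1map hM ψ g (cob (gam N M hM) (psiRep ψ W') v') =
        cob (gam N M hM) (psiRep ψ W'') (g v') := Z1.map_cob g (psiRep_compat ψ g) v'
      rw [this, sub_self]
    have h2 : ∀ γ, g ((c - cob (gam N M hM) (psiRep ψ W') v').1 γ) = 0 :=
      fun γ => congrFun (congrArg Subtype.val h1) γ
    have h3 : ∀ γ, (c - cob (gam N M hM) (psiRep ψ W') v').1 γ ∈ LinearMap.range f :=
      fun γ => (hfg _).mp (h2 γ)
    let e : Z1 (gam N M hM) (psiRep ψ (LinearMap.range f)) :=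
      ⟨fun γ => ⟨(c - cob (gam N M hM) (psiRep ψ W') v').1 γ, h3 γ⟩, fun γ δ => by
        apply Subtype.ext
        exact (c - cob (gam N M hM) (psiRep ψ W') v').2 γ δ⟩
    obtain ⟨d, hd⟩ := z1map_surjective hM ψ hg hψ f.rangeRestrict
      (LinearMap.surjective_rangeRestrict f) e
    refine ⟨H1.mk (gam N M hM) (psiRep ψ W) d, ?_⟩
    have h4 : z1map hM ψ f d = c - cob (gam N M hM) (psiRep ψ W') v' := by
      apply Subtype.ext
      funext γ
      have h5 := congrArg Subtype.val (congrFun (congrArg Subtype.val hd) γ)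
      exact h5
    change H1.mk (gam N M hM) (psiRep ψ W') (z1map hM ψ f d) =
      H1.mk (gam N M hM) (psiRep ψ W') c
    rw [h4, map_sub]
    have h6 : H1.mk (gam N M hM) (psiRep ψ W') (cob (gam N M hM) (psiRep ψ W') v') = 0 := by
      rw [Submodule.mkQ_apply, Submodule.Quotient.mk_eq_zero]
      exact ⟨_, rfl⟩
    rw [h6, sub_zero]
  · rintro ⟨y, hy⟩
    obtain ⟨d, rfl⟩ := Submodule.mkQ_surjective _ y
    rw [← hy]
    change H1.mk (gam N M hM) (psiRep ψ W'') (z1map hM ψ g (z1map hM ψ f d)) = 0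
    have : z1map hM ψ g (z1map hM ψ f d) = 0 := by
      apply Subtype.ext
      funext γ
      change g (f (d.1 γ)) = 0
      exact (hfg _).mpr ⟨_, rfl⟩
    rw [this, map_zero]

/-- the Eisenstein eigenvalue of `T_ℓ` on coboundaries -/
def eis {ℓ : ℕ} (hℓN : ℓ.Coprime N) : R := ((ψ (ZMod.unitOfCoprime ℓ hℓN) : Rˣ) : R) + ℓ

lemma sum_slash_tFam {ℓ : ℕ} (hℓ : ℓ.Prime) (hℓM : ¬ ℓ ∣ M) (w : W) :
    ∑ i, slash (psiRep ψ W) ((tFam hM hℓ hℓM).α i) w =
      eis ψ (coprime_of_not_dvd hℓ hℓM hM) • w := by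
  have i1 : NeZero ℓ := ⟨hℓ.ne_zero⟩
  have h1 : ∑ i, slash (psiRep ψ W) ((tFam hM hℓ hℓM).α i) w =
      ∑ i : Option (ZMod ℓ), slash (psiRep ψ W) (tRep hM hℓ hℓM i) w := rfl
  rw [h1, Fintype.sum_option]
  have h2 : ∀ j : ZMod ℓ, slash (psiRep ψ W) (tRep hM hℓ hℓM (some j)) w = w := by
    intro j
    rw [slash_psiRep]
    have : aUnit N (tRep hM hℓ hℓM (some j)) = 1 := by
      apply Units.ext
      rw [aUnit_val]
      change (((1 : ℕ) : ℤ) : ZMod N) = 1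
      simp
    rw [this, map_one, Units.val_one, one_smul]
  have h3 : slash (psiRep ψ W) (tRep hM hℓ hℓM none) w =
      ((ψ (ZMod.unitOfCoprime ℓ (coprime_of_not_dvd hℓ hℓM hM)) : Rˣ) : R) • w := by
    rw [slash_psiRep]
    have : aUnit N (tRep hM hℓ hℓM none) =
        ZMod.unitOfCoprime ℓ (coprime_of_not_dvd hℓ hℓM hM) := by
      apply Units.ext
      rw [aUnit_val]
      change ((ℓ : ℤ) : ZMod N) = (ℓ : ZMod N)
      simp
    rw [this]
  rw [Finset.sum_congr rfl fun j _ => h2 j, h3, Finset.sum_const, Finset.card_univ, ZMod.card,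
    eis, add_smul, Nat.cast_smul_eq_nsmul]

/-- `T_ℓ` acts on coboundaries by the Eisenstein eigenvalue. -/
lemma op_tFam_cob {ℓ : ℕ} (hℓ : ℓ.Prime) (hℓM : ¬ ℓ ∣ M) (w : W) :
    (tFam hM hℓ hℓM).op (psiRep ψ W) (cob (gam N M hM) (psiRep ψ W) w) =
      eis ψ (coprime_of_not_dvd hℓ hℓM hM) • cob (gam N M hM) (psiRep ψ W) w := by
  rw [HFam.op_cob, sum_slash_tFam, map_smul]

/-- `T_ℓ` on `H¹(Γ₀(M), W_ψ)` -/
abbrev tH {ℓ : ℕ} (hℓ : ℓ.Prime) (hℓM : ¬ ℓ ∣ M) (W : Type*) [AddCommGroup W] [Module R W] :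
    Module.End R (H1 (gam N M hM) (psiRep ψ W)) :=
  (tFam hM hℓ hℓM).opH (psiRep ψ W)

/-- `T_ℓ - eis` on `H¹` -/
abbrev etaH {ℓ : ℕ} (hℓ : ℓ.Prime) (hℓM : ¬ ℓ ∣ M) (W : Type*) [AddCommGroup W] [Module R W] :
    Module.End R (H1 (gam N M hM) (psiRep ψ W)) :=
  tH hM ψ hℓ hℓM W - eis ψ (coprime_of_not_dvd hℓ hℓM hM) • 1

/-- The lift `H¹ → Z¹` of `T_ℓ - eis`. -/
def etaLift {ℓ : ℕ} (hℓ : ℓ.Prime) (hℓM : ¬ ℓ ∣ M) (W : Type*) [AddCommGroup W] [Module R W] :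
    H1 (gam N M hM) (psiRep ψ W) →ₗ[R] Z1 (gam N M hM) (psiRep ψ W) :=
  (B1 (gam N M hM) (psiRep ψ W)).liftQ
    ((tFam hM hℓ hℓM).op (psiRep ψ W) - eis ψ (coprime_of_not_dvd hℓ hℓM hM) • LinearMap.id) (by
      rintro _ ⟨w, rfl⟩
      rw [LinearMap.mem_ker, LinearMap.sub_apply, op_tFam_cob, LinearMap.smul_apply,
        LinearMap.id_apply, sub_self])

lemma mk_etaLift {ℓ : ℕ} (hℓ : ℓ.Prime) (hℓM : ¬ ℓ ∣ M)
    (x : H1 (gam N M hM) (psiRep ψ W)) :
    H1.mk (gam N M hM) (psiRep ψ W) (etaLift hM ψ hℓ hℓM W x) = etaH hM ψ hℓ hℓM W x := by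
  obtain ⟨c, rfl⟩ := Submodule.mkQ_surjective _ x
  rfl

/-- **The kernel of `H¹(W) → H¹(W')` for injective `W → W'` is Eisenstein.** -/
theorem etaH_eq_zero_of_map_eq_zero {ℓ : ℕ} (hℓ : ℓ.Prime) (hℓM : ¬ ℓ ∣ M)
    (f : W →ₗ[R] W') (hf : Function.Injective f)
    (x : H1 (gam N M hM) (psiRep ψ W)) (hx : h1map hM ψ f x = 0) :
    etaH hM ψ hℓ hℓM W x = 0 := by
  obtain ⟨c, rfl⟩ := Submodule.mkQ_surjective _ x
  change H1.mk (gam N M hM) (psiRep ψ W') (z1map hM ψ f c) = 0 at hx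
  rw [Submodule.mkQ_apply, Submodule.Quotient.mk_eq_zero] at hx
  obtain ⟨w', hw'⟩ := hx
  have h1 : (tFam hM hℓ hℓM).op (psiRep ψ W') (z1map hM ψ f c) =
      eis ψ (coprime_of_not_dvd hℓ hℓM hM) • z1map hM ψ f c := by
    rw [← hw', op_tFam_cob]
  have h2 : z1map hM ψ f ((tFam hM hℓ hℓM).op (psiRep ψ W) c) =
      z1map hM ψ f (eis ψ (coprime_of_not_dvd hℓ hℓM hM) • c) := by
    rw [map_smul, ← h1]
    exact (op_map (tFam hM hℓ hℓM) f (psiRep_compat ψ f) c).symm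
  have h3 : (tFam hM hℓ hℓM).op (psiRep ψ W) c =
      eis ψ (coprime_of_not_dvd hℓ hℓM hM) • c := by
    apply Subtype.ext
    funext γ
    exact hf (congrFun (congrArg Subtype.val h2) γ)
  change H1.mk (gam N M hM) (psiRep ψ W) ((tFam hM hℓ hℓM).op (psiRep ψ W) c) -
    eis ψ (coprime_of_not_dvd hℓ hℓM hM) • H1.mk (gam N M hM) (psiRep ψ W) c = 0
  rw [h3, map_smul, sub_self]

include hg hψ in
theorem z1_projective [NeZero M] :
    Module.Finite R (Z1 (gam N M hM) (psiRep ψ R)) ∧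
      Module.Projective R (Z1 (gam N M hM) (psiRep ψ R)) := by
  obtain ⟨w⟩ := hg.weight
  have h1 : Module.Projective R (UD (chi hM ψ)) :=
    ud_projective (neg_one_mem_Gamma0 M) w hg.two (chi hM ψ) (chi_neg_one hM ψ hψ)
  have h2 : Module.Finite R (UD (chi hM ψ)) := ud_finite _
  obtain ⟨n, f, hf⟩ := Module.Finite.exists_fin' R (UD (chi hM ψ))
  obtain ⟨s, hs⟩ := Module.projective_lifting_property f LinearMap.id hf
  -- `Hom(UD, R)` is a direct summand of `Hom(R^n, R)`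
  let i : (UD (chi hM ψ) →ₗ[R] R) →ₗ[R] ((Fin n → R) →ₗ[R] R) := LinearMap.lcomp R R f
  let p : ((Fin n → R) →ₗ[R] R) →ₗ[R] (UD (chi hM ψ) →ₗ[R] R) := LinearMap.lcomp R R s
  have hpi : p ∘ₗ i = LinearMap.id := by
    apply LinearMap.ext
    intro g
    apply LinearMap.ext
    intro x
    change g (f (s x)) = g x
    rw [← LinearMap.comp_apply f s, hs]
    rfl
  have h3 : Module.Projective R (UD (chi hM ψ) →ₗ[R] R) := Module.Projective.of_split i p hpi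
  have h4 : Module.Finite R (UD (chi hM ψ) →ₗ[R] R) :=
    Module.Finite.of_surjective p (fun g => ⟨i g, LinearMap.congr_fun hpi g⟩)
  exact ⟨Module.Finite.equiv (z1Equiv hM ψ R).symm,
    Module.Projective.of_equiv (z1Equiv hM ψ R).symm⟩

include hg hψ in
/-- **Non-Eisenstein direct summands of `H¹(Γ₀(M), R_ψ)` are projective.** -/
theorem h1_summand_projective [NeZero M] {ℓ : ℕ} (hℓ : ℓ.Prime) (hℓM : ¬ ℓ ∣ M)
    {X : Type*} [AddCommGroup X] [Module R X]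
    (i : X →ₗ[R] H1 (gam N M hM) (psiRep ψ R)) (p : H1 (gam N M hM) (psiRep ψ R) →ₗ[R] X)
    (hpi : p ∘ₗ i = LinearMap.id) (e : X ≃ₗ[R] X)
    (he : ∀ x, i (e x) = etaH hM ψ hℓ hℓM R (i x)) :
    Module.Projective R X ∧ Module.Finite R X := by
  obtain ⟨h1, h2⟩ := z1_projective hM ψ hg hψ
  have key : (p ∘ₗ H1.mk (gam N M hM) (psiRep ψ R)) ∘ₗ
      (etaLift hM ψ hℓ hℓM R ∘ₗ i ∘ₗ e.symm.toLinearMap) = LinearMap.id := by
    apply LinearMap.ext
    intro x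
    change p (H1.mk (gam N M hM) (psiRep ψ R) (etaLift hM ψ hℓ hℓM R (i (e.symm x)))) = x
    rw [mk_etaLift, ← he, LinearEquiv.apply_symm_apply]
    exact LinearMap.congr_fun hpi x
  refine ⟨Module.Projective.of_split _ _ key, ?_⟩
  exact Module.Finite.of_surjective (p ∘ₗ H1.mk (gam N M hM) (psiRep ψ R))
    (fun x => ⟨_, LinearMap.congr_fun key x⟩)

end

end Fermat.Agent.H70.Coh
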