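import Fermat.Agent.H62NE
import Fermat.Agent.H70Free
import Fermat.Agent.H30Act
import Fermat.Agent.H69Red

/-!
# Non-Eisenstein primes and the vanishing of `H²` for the levels of S59

* `good_of_partition` : `Good M R` for all multiples `M` of the base level of a partition.
* `ne1`, `ne2`, `exists_i0` : the non-Eisenstein hypotheses for the eigensystem of `W`, outside an
  arbitrary finite set of primes, over fields of characteristic `p`.
* `hNE1`, `hNE2`, `exists_i0_T` : the same in terms of a character of the Hecke algebra.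
-/

set_option autoImplicit false
set_option linter.style.haveILetI false
set_option linter.unusedSectionVars false

noncomputable section

open IsLocalRing CuspForm
open Fermat.Agent.H70.Coh Fermat.Agent.H69.Red Fermat.Agent.H30 Fermat.Agent.H37.Rank
open Fermat.Agent.H87.Glue

namespace Fermat.Agent.H10.NE

section Good

/-- `x ^ 2 - x + 1` has no root modulo a prime `≡ 2` modulo `3` -/
lemma no_root_of_mod {s : ℕ} (hs : s.Prime) (hs3 : s % 3 = 2) (x : ZMod s) :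
    x ^ 2 - x + 1 ≠ 0 := by
  haveI : Fact s.Prime := ⟨hs⟩
  intro h
  have h3 : (-x) ^ 3 = 1 := by linear_combination (-(x + 1)) * h
  have hx0 : -x ≠ 0 := by
    intro h0
    rw [h0] at h3
    norm_num at h3
  by_cases hx1 : -x = 1
  · have h4 : ((3 : ℕ) : ZMod s) = 0 := by
      have h5 : x = -1 := by linear_combination -hx1
      rw [h5] at h
      push_cast
      linear_combination h
    have h6 := (Nat.prime_dvd_prime_iff_eq hs Nat.prime_three).mp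
      ((ZMod.natCast_eq_zero_iff 3 s).mp h4)
    omega
  · have ho : orderOf (-x) = 3 := orderOf_eq_prime h3 hx1
    have h5 : orderOf (-x) ∣ s - 1 := ZMod.orderOf_dvd_card_sub_one hx0
    rw [ho] at h5
    have := hs.two_le
    omega

variable {p : ℕ} [hp : Fact p.Prime]

/-- the primes different from `p` are units in local rings of residue characteristic `p` -/
lemma isUnit_natCast_of_ne {R : Type*} [CommRing R] [IsLocalRing R] [CharP (ResidueField R) p]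
    {q : ℕ} (hq : q.Prime) (hqp : q ≠ p) : IsUnit (q : R) := by
  by_contra hcon
  have h1 : (q : R) ∈ maximalIdeal R := hcon
  rw [← residue_eq_zero_iff, map_natCast, CharP.cast_eq_zero_iff (ResidueField R) p] at h1
  exact hqp ((Nat.prime_dvd_prime_iff_eq hp.out hq).mp h1).symm

variable {W : WeierstrassCurve ℤ} {hΔ : W.Δ ≠ 0} {A T B : Finset ℕ} {s : ℕ}

/-- **`H²` vanishes** for all multiples of the base level. -/
theorem good_of_partition (P : Partition W hΔ p A T B s) (hp2 : p ≠ 2) {R : Type*} [CommRing R]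
    [IsLocalRing R] [CharP (ResidueField R) p] (M : ℕ) (hM : baseLevel A T s ∣ M) :
    Good M R := by
  have h2 : IsUnit (2 : R) := by
    have := isUnit_natCast_of_ne (p := p) (R := R) Nat.prime_two hp2.symm
    exact_mod_cast this
  by_cases h3 : p = 3
  · obtain ⟨hs, hs3, -, -⟩ := P.aux_three h3
    exact good_of_noThree ((Dvd.intro_left _ rfl : s ∣ baseLevel A T s).trans hM) h2
      (no_root_of_mod hs hs3)
  · refine good_of_six M h2 ?_
    have := isUnit_natCast_of_ne (p := p) (R := R) Nat.prime_three (Ne.symm h3)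
    exact_mod_cast this

end Good

section NE

variable {p : ℕ} [hp : Fact p.Prime] {W : WeierstrassCurve ℤ}

/-- a multiple of all primes of a finite set -/
lemma exists_bound (S : Finset ℕ) :
    ∃ B : ℕ, 0 < B ∧ ∀ ℓ : ℕ, ℓ.Prime → ¬ ℓ ∣ B → ℓ ∉ (↑S : Set ℕ) := by
  classical
  refine ⟨∏ q ∈ S.filter Nat.Prime, q, Finset.prod_pos fun q hq =>
    (Finset.mem_filter.mp hq).2.pos, fun ℓ hℓ h hS => h ?_⟩
  exact Finset.dvd_prod_of_mem (fun q : ℕ => q)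
    (Finset.mem_filter.mpr ⟨Finset.mem_coe.mp hS, hℓ⟩)

/-- from `ZMod p` to fields of characteristic `p` -/
lemma int_ne_of_zmod {κ : Type*} [Field κ] [CharP κ p] {a b : ℤ}
    (h : (a : ZMod p) ≠ (b : ZMod p)) : (a : κ) ≠ (b : κ) := by
  intro h1
  apply h
  apply (ZMod.castHom dvd_rfl κ).injective
  rw [map_intCast, map_intCast]
  exact h1

variable (hΔ : W.Δ ≠ 0) (hp2 : p ≠ 2) (hirr : W.ModRepIsIrreducible p) (S : Finset ℕ)
  (κ : Type*) [Field κ] [CharP κ p]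

include hΔ hp2 hirr

/-- **Non-Eisenstein, squares.** -/
theorem ne1 : ∃ i : Pr (↑S : Set ℕ),
    (((W.apOfModel i.1 : ℤ) : κ)) ^ 2 ≠ ((i.1 : κ) + 1) ^ 2 := by
  obtain ⟨B, hB, hSB⟩ := exists_bound S
  obtain ⟨ℓ, hℓ, -, hℓB, -, hne⟩ := Fermat.Agent.H62.ne1 hΔ hp2 hirr hB
  refine ⟨⟨ℓ, hℓ, hSB ℓ hℓ hℓB⟩, ?_⟩
  have h1 : (((W.apOfModel ℓ ^ 2 : ℤ)) : ZMod p) ≠ (((ℓ + 1 : ℤ) ^ 2 : ℤ) : ZMod p) := by
    push_cast
    exact hne
  have h2 := int_ne_of_zmod (κ := κ) h1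
  push_cast at h2
  exact h2

/-- **Non-Eisenstein, congruence form.** -/
theorem ne2 (D : ℕ) (hD : D ≠ 0) : ∃ i : Pr (↑S : Set ℕ), (D : ℤ) ∣ (i.1 : ℤ) - 1 ∧
    ((W.apOfModel i.1 : ℤ) : κ) ≠ (i.1 : κ) + 1 := by
  obtain ⟨B, hB, hSB⟩ := exists_bound S
  obtain ⟨ℓ, hℓ, -, hℓB, -, hD1, hne⟩ := Fermat.Agent.H62.ne2 hΔ hp2 hirr hB
    (Nat.pos_of_ne_zero hD)
  refine ⟨⟨ℓ, hℓ, hSB ℓ hℓ hℓB⟩, ?_, ?_⟩
  · rw [← ZMod.intCast_zmod_eq_zero_iff_dvd]
    push_cast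
    rw [hD1, sub_self]
  · have h1 : (((W.apOfModel ℓ : ℤ)) : ZMod p) ≠ (((ℓ + 1 : ℤ) : ℤ) : ZMod p) := by
      push_cast
      exact hne
    have h2 := int_ne_of_zmod (κ := κ) h1
    push_cast at h2
    exact h2

/-- the auxiliary prime `i₀`, in terms of a character of the polynomial ring -/
theorem exists_i0 {O : Type*} [CommRing O] {θ : MvPolynomial (Pr (↑S : Set ℕ)) O →+* κ}
    (hθ : ∀ i, θ (MvPolynomial.X i) = ((W.apOfModel i.1 : ℤ) : κ)) (D : ℕ) (hD : D ≠ 0) :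
    ∃ i₀ : Pr (↑S : Set ℕ), (D : ℤ) ∣ (i₀.1 : ℤ) - 1 ∧
      θ (MvPolynomial.X i₀) ≠ 1 + (i₀.1 : κ) := by
  obtain ⟨i, h1, h2⟩ := ne2 hΔ hp2 hirr S κ D hD
  exact ⟨i, h1, by rw [hθ, add_comm]; exact h2⟩

section Hecke

variable {S κ} {L : ℕ} [NeZero L] {hSL : ∀ q : ℕ, q.Prime → q ∣ L → q ∈ (↑S : Set ℕ)}
  {θ : heckeAlgebra L 2 (↑S : Set ℕ) →+* κ}
  (hθ : ∀ i : Pr (↑S : Set ℕ), θ (TIdx L (↑S : Set ℕ) hSL i) = ((W.apOfModel i.1 : ℤ) : κ))

include hθ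

/-- `hNE1` of `exists_fullModPart_chain` -/
theorem hNE1 : ∃ i : Pr (↑S : Set ℕ),
    (θ (TIdx L (↑S : Set ℕ) hSL i)) ^ 2 ≠ ((i.1 : κ) + 1) ^ 2 := by
  obtain ⟨i, h⟩ := ne1 hΔ hp2 hirr S κ
  exact ⟨i, by rw [hθ]; exact h⟩

/-- `hNE2` of `exists_fullModPart_chain` -/
theorem hNE2 (D : ℕ) (hD : D ≠ 0) : ∃ i : Pr (↑S : Set ℕ), (D : ℤ) ∣ (i.1 : ℤ) - 1 ∧
    θ (TIdx L (↑S : Set ℕ) hSL i) ≠ (i.1 : κ) + 1 := by
  obtain ⟨i, h1, h2⟩ := ne2 hΔ hp2 hirr S κ D hD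
  exact ⟨i, h1, by rw [hθ]; exact h2⟩

/-- the auxiliary prime `i₀` -/
theorem exists_i0_T (D : ℕ) (hD : D ≠ 0) : ∃ i₀ : Pr (↑S : Set ℕ), (D : ℤ) ∣ (i₀.1 : ℤ) - 1 ∧
    θ (TIdx L (↑S : Set ℕ) hSL i₀) ≠ 1 + (i₀.1 : κ) := by
  obtain ⟨i, h1, h2⟩ := ne2 hΔ hp2 hirr S κ D hD
  exact ⟨i, h1, by rw [hθ, add_comm]; exact h2⟩

end Hecke

end NE

/-- the two forms of the Hecke operators outside `S` -/
lemma TIdx_eq_evHA {L : ℕ} [NeZero L] {S : Set ℕ}
    (hSL : ∀ q : ℕ, q.Prime → q ∣ L → q ∈ S) (i : Pr S) :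
    TIdx L S hSL i = H59.evHA hSL (MvPolynomial.X i) := (H59.evHA_X hSL i).symm

end Fermat.Agent.H10.NE
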