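/-
H30Lev: arithmetic of the levels of the S59 modules (dictionary for `H69.Red.Partition`).
-/
import Fermat.Agent.H69Red

set_option autoImplicit false
set_option linter.style.haveILetI false
set_option linter.unusedSectionVars false

namespace Fermat.Agent.H30.Lev

open Fermat.Agent.H69.Red

theorem not_sq_dvd_mul {q X Y : ℕ} (hq : q.Prime) (hX : Squarefree X) (hY : ¬ q ∣ Y) :
    ¬ q ^ 2 ∣ X * Y := by
  intro h
  have h1 : (q ^ 2).Coprime Y := ((Nat.Prime.coprime_iff_not_dvd hq).mpr hY).pow_left 2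
  have h2 : q * q ∣ X := by
    rw [← pow_two]
    exact h1.dvd_of_dvd_mul_right h
  exact hq.not_isUnit (hX q h2)

theorem dvd_prod_fin_iff {r : ℕ} {Q : Fin r → ℕ} (hQ : ∀ j, (Q j).Prime) {q : ℕ} (hq : q.Prime) :
    q ∣ ∏ j, Q j ↔ ∃ j, Q j = q := by
  constructor
  · intro h
    obtain ⟨j, -, hj⟩ := (Prime.dvd_finsetProd_iff hq.prime _).mp h
    exact ⟨j, ((Nat.prime_dvd_prime_iff_eq hq (hQ j)).mp hj).symm⟩
  · rintro ⟨j, rfl⟩
    exact Finset.dvd_prod_of_mem _ (Finset.mem_univ j)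

theorem dvd_prod_finset_iff {B : Finset ℕ} (hB : ∀ q ∈ B, q.Prime) {q : ℕ} (hq : q.Prime) :
    q ∣ ∏ x ∈ B, x ↔ q ∈ B := by
  constructor
  · intro h
    obtain ⟨j, hjB, hj⟩ := (Prime.dvd_finsetProd_iff hq.prime _).mp h
    rw [(Nat.prime_dvd_prime_iff_eq hq (hB j hjB)).mp hj]
    exact hjB
  · intro h
    exact Finset.dvd_prod_of_mem _ h

theorem squarefree_prod_fin {r : ℕ} {Q : Fin r → ℕ} (hQ : ∀ j, (Q j).Prime)
    (hinj : Function.Injective Q) : Squarefree (∏ j, Q j) := by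
  classical
  rw [Nat.squarefree_iff_prime_squarefree]
  intro x hx hd
  obtain ⟨j, hj⟩ := (dvd_prod_fin_iff hQ hx).mp ((Dvd.intro _ rfl).trans hd)
  subst hj
  rw [← Finset.mul_prod_erase Finset.univ Q (Finset.mem_univ j)] at hd
  have h1 := Nat.dvd_of_mul_dvd_mul_left (hQ j).pos hd
  obtain ⟨i, hi, hi'⟩ := (Prime.dvd_finsetProd_iff (hQ j).prime _).mp h1
  have h2 := (Nat.prime_dvd_prime_iff_eq (hQ j) (hQ i)).mp hi'
  exact (Finset.mem_erase.mp hi).1 (hinj h2.symm)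

theorem squarefree_prod_finset {B : Finset ℕ} (hB : ∀ q ∈ B, q.Prime) :
    Squarefree (∏ x ∈ B, x) := by
  classical
  rw [Nat.squarefree_iff_prime_squarefree]
  intro x hx hd
  have hxB := (dvd_prod_finset_iff hB hx).mp ((Dvd.intro _ rfl).trans hd)
  rw [← Finset.mul_prod_erase B (fun x => x) hxB] at hd
  have h1 := Nat.dvd_of_mul_dvd_mul_left hx.pos hd
  obtain ⟨i, hi, hi'⟩ := (Prime.dvd_finsetProd_iff hx.prime _).mp h1
  have h2 := (Nat.prime_dvd_prime_iff_eq hx (hB i (Finset.mem_of_mem_erase hi))).mp hi'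
  exact (Finset.mem_erase.mp hi).1 h2.symm

variable {W : WeierstrassCurve ℤ} {hΔ : W.Δ ≠ 0} {p : ℕ} [hp : Fact p.Prime]
  {A T B : Finset ℕ} {s : ℕ}

/-- Taylor–Wiles primes away from a partition -/
structure Away (p : ℕ) (A T B : Finset ℕ) (s : ℕ) {r : ℕ} (Q : Fin r → ℕ) : Prop where
  prime : ∀ j, (Q j).Prime
  inj : Function.Injective Q
  notMem_A : ∀ j, Q j ∉ A
  notMem_T : ∀ j, Q j ∉ T
  notMem_B : ∀ j, Q j ∉ B
  ne_s : ∀ j, Q j ≠ s
  ne_p : ∀ j, Q j ≠ p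

/-- **the squarefree part of the levels** -/
theorem squarefree_top (P : Partition W hΔ p A T B s) {r : ℕ} {Q : Fin r → ℕ}
    (hQ : Away p A T B s Q) {ε : ℕ} (hε : ε ≤ 1) :
    Squarefree (baseLevel A T s * (∏ j, Q j) * (∏ q ∈ B, q) * p ^ ε) := by
  rw [Nat.squarefree_mul_iff, Nat.squarefree_mul_iff, Nat.squarefree_mul_iff]
  have hpp : p.Prime := hp.out
  refine ⟨?_, ⟨?_, ⟨?_, P.squarefree, squarefree_prod_fin hQ.prime hQ.inj⟩,
    squarefree_prod_finset P.B_prime⟩, ?_⟩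
  · refine Nat.coprime_of_dvd fun x hx h1 h2 => ?_
    have hxp := (Nat.prime_dvd_prime_iff_eq hx hpp).mp (hx.dvd_of_dvd_pow h2)
    subst hxp
    rcases (hx.dvd_mul.mp h1) with h | h
    · rcases (hx.dvd_mul.mp h) with h | h
      · exact P.not_p_dvd h
      · obtain ⟨j, hj⟩ := (dvd_prod_fin_iff hQ.prime hx).mp h
        exact hQ.ne_p j hj
    · exact P.B_ne _ ((dvd_prod_finset_iff P.B_prime hx).mp h) rfl
  · refine Nat.coprime_of_dvd fun x hx h1 h2 => ?_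
    have hxB := (dvd_prod_finset_iff P.B_prime hx).mp h2
    rcases (hx.dvd_mul.mp h1) with h | h
    · exact P.not_B_dvd hxB h
    · obtain ⟨j, hj⟩ := (dvd_prod_fin_iff hQ.prime hx).mp h
      exact hQ.notMem_B j (hj ▸ hxB)
  · refine Nat.coprime_of_dvd fun x hx h1 h2 => ?_
    obtain ⟨j, hj⟩ := (dvd_prod_fin_iff hQ.prime hx).mp h2
    rcases (P.dvd_baseLevel_iff hx).mp h1 with h | h | h
    · exact hQ.notMem_A j (hj ▸ h)
    · exact hQ.notMem_T j (hj ▸ h)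
    · exact hQ.ne_s j (hj.trans h)
  · interval_cases ε
    · simp
    · rw [pow_one]
      exact hpp.squarefree

/-- the primes dividing `N1` -/
theorem dvd_N1_iff (P : Partition W hΔ p A T B s) {r : ℕ} {Q : Fin r → ℕ}
    (hQ : Away p A T B s Q) {q : ℕ} (hq : q.Prime) :
    q ∣ (∏ j, Q j) * ∏ t ∈ T, t ↔ (∃ j, Q j = q) ∨ q ∈ T := by
  rw [hq.dvd_mul, dvd_prod_fin_iff hQ.prime hq, dvd_prod_finset_iff P.T_prime hq]

/-- **the dictionary**: all hypotheses on the top level needed for `S59.exists_hecke_*` -/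
theorem top_level (P : Partition W hΔ p A T B s) {r : ℕ} {Q : Fin r → ℕ}
    (hQ : Away p A T B s Q) {ε : ℕ} (hε : ε ≤ 1) {L : ℕ}
    (hL : L = baseLevel A T s * (∏ j, Q j) * (∏ q ∈ B, q) * p ^ ε *
      ((∏ j, Q j) * ∏ t ∈ T, t)) :
    (∀ q : ℕ, q.Prime → q ∣ L → q = p ∨ q ∈ A ∨ (∃ t : {t : ℕ // t ∈ T}, t.1 = q) ∨
      (∃ i : {t : ℕ // t ∈ B}, i.1 = q) ∨ (∃ i, Q i = q) ∨ q = s) ∧
    (∀ q ∈ A, ¬ q ^ 2 ∣ L) ∧ (∀ i : {t : ℕ // t ∈ B}, ¬ i.1 ^ 2 ∣ L) ∧ (p = 3 → ¬ s ^ 2 ∣ L) ∧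
    ¬ p ^ 2 ∣ L ∧ (p ∣ L ↔ ε = 1) ∧ L ≠ 0 := by
  have hpp : p.Prime := hp.out
  have hsq := squarefree_top P hQ hε
  have hN1 := fun {q : ℕ} (hq : q.Prime) => dvd_N1_iff P hQ hq
  refine ⟨?_, ?_, ?_, ?_, ?_, ?_, ?_⟩
  · intro q hq hqL
    rw [hL] at hqL
    rcases hq.dvd_mul.mp hqL with h | h
    · rcases hq.dvd_mul.mp h with h | h
      · rcases hq.dvd_mul.mp h with h | h
        · rcases hq.dvd_mul.mp h with h | h
          · rcases (P.dvd_baseLevel_iff hq).mp h with h | h | h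
            · exact Or.inr (Or.inl h)
            · exact Or.inr (Or.inr (Or.inl ⟨⟨q, h⟩, rfl⟩))
            · exact Or.inr (Or.inr (Or.inr (Or.inr (Or.inr h))))
          · exact Or.inr (Or.inr (Or.inr (Or.inr (Or.inl ((dvd_prod_fin_iff hQ.prime hq).mp h)))))
        · exact Or.inr (Or.inr (Or.inr (Or.inl
            ⟨⟨q, (dvd_prod_finset_iff P.B_prime hq).mp h⟩, rfl⟩)))
      · exact Or.inl ((Nat.prime_dvd_prime_iff_eq hq hpp).mp (hq.dvd_of_dvd_pow h))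
    · rcases (hN1 hq).mp h with h | h
      · exact Or.inr (Or.inr (Or.inr (Or.inr (Or.inl h))))
      · exact Or.inr (Or.inr (Or.inl ⟨⟨q, h⟩, rfl⟩))
  · intro q hqA
    rw [hL]
    refine not_sq_dvd_mul (P.A_prime q hqA) hsq fun h => ?_
    rcases (hN1 (P.A_prime q hqA)).mp h with ⟨j, h⟩ | h
    · exact hQ.notMem_A j (h ▸ hqA)
    · exact Finset.disjoint_left.mp P.disj_AT hqA h
  · rintro ⟨q, hqB⟩
    rw [hL]
    refine not_sq_dvd_mul (P.B_prime q hqB) hsq fun h => ?_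
    rcases (hN1 (P.B_prime q hqB)).mp h with ⟨j, h⟩ | h
    · exact hQ.notMem_B j (h ▸ hqB)
    · exact Finset.disjoint_left.mp P.disj_TB h hqB
  · intro h3
    rw [hL]
    refine not_sq_dvd_mul (P.aux_three h3).1 hsq fun h => ?_
    rcases (hN1 (P.aux_three h3).1).mp h with ⟨j, h⟩ | h
    · exact hQ.ne_s j h
    · exact P.s_notMem_T h
  · rw [hL]
    refine not_sq_dvd_mul hpp hsq fun h => ?_
    rcases (hN1 hpp).mp h with ⟨j, h⟩ | h
    · exact hQ.ne_p j h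
    · exact P.T_ne _ h rfl
  · rw [hL]
    constructor
    · intro h
      by_contra hcon
      have hε0 : ε = 0 := by omega
      rw [hε0, pow_zero, mul_one] at h
      rcases hpp.dvd_mul.mp h with h | h
      · rcases hpp.dvd_mul.mp h with h | h
        · rcases hpp.dvd_mul.mp h with h | h
          · exact P.not_p_dvd h
          · obtain ⟨j, hj⟩ := (dvd_prod_fin_iff hQ.prime hpp).mp h
            exact hQ.ne_p j hj
        · exact P.B_ne _ ((dvd_prod_finset_iff P.B_prime hpp).mp h) rfl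
      · rcases (hN1 hpp).mp h with ⟨j, h⟩ | h
        · exact hQ.ne_p j h
        · exact P.T_ne _ h rfl
    · rintro rfl
      rw [pow_one]
      exact Dvd.dvd.mul_right (Dvd.intro_left _ rfl) _
  · rw [hL]
    refine mul_ne_zero hsq.ne_zero (mul_ne_zero ?_ ?_)
    · exact Finset.prod_ne_zero_iff.mpr fun j _ => (hQ.prime j).ne_zero
    · exact Finset.prod_ne_zero_iff.mpr fun q hq => (P.T_prime q hq).ne_zero

end Fermat.Agent.H30.Lev
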