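import Fermat.Agent.H53SelmerB
import Fermat.Agent.H53TWL1

set_option autoImplicit false
set_option maxSynthPendingDepth 3
set_option linter.style.haveILetI false
set_option linter.unusedSectionVars false

/-!
# Local analysis at unramified primes with non-scalar Frobenius
-/

noncomputable section

open IsLocalRing Module ExtCitation Polynomial GaloisRep
open Fermat.Agent.H55 Fermat.Agent.H56

namespace Fermat.Agent.H53

section Algebra

variable {k : Type} [Field k]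

/-- not a scalar matrix -/
def NonScalar (Φ : M2 k) : Prop := ¬ ∃ u : k, Φ = u • (1 : M2 k)

lemma NonScalar.cases {Φ : M2 k} (h : NonScalar Φ) :
    Φ 0 1 ≠ 0 ∨ Φ 1 0 ≠ 0 ∨ Φ 0 0 - Φ 1 1 ≠ 0 := by
  by_contra hcon
  push Not at hcon
  obtain ⟨h1, h2, h3⟩ := hcon
  apply h
  refine ⟨Φ 0 0, ?_⟩
  ext i j
  fin_cases i <;> fin_cases j
  · simp
  · simpa using h1
  · simpa using h2
  · simp [sub_eq_zero.mp h3]

lemma exists_commutator_aux (h2 : (2 : k) ≠ 0) {a b c d y0 y1 y2 : k}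
    (h : b ≠ 0 ∨ c ≠ 0 ∨ a - d ≠ 0) (hy : y0 * (a - d) + y1 * c + y2 * b = 0) :
    ∃ x0 x1 x2 : k, b * x2 - c * x1 = y0 ∧ (a - d) * x1 - b * (2 * x0) = y1 ∧
      c * (2 * x0) - (a - d) * x2 = y2 := by
  rcases h with h | h | h
  · refine ⟨-y1 / (2 * b), 0, y0 / b, ?_, ?_, ?_⟩
    · field_simp
      ring
    · field_simp
      ring
    · field_simp
      linear_combination -hy
  · refine ⟨y2 / (2 * c), -y0 / c, 0, ?_, ?_, ?_⟩
    · field_simp
      ring
    · field_simp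
      linear_combination -hy
    · field_simp
      ring
  · refine ⟨0, y1 / (a - d), -y2 / (a - d), ?_, ?_, ?_⟩
    · field_simp
      linear_combination -hy
    · field_simp
      ring
    · field_simp
      ring

/-- commutators with a non-scalar matrix -/
lemma exists_commutator (h2 : (2 : k) ≠ 0) {Φ : M2 k} (hΦ : NonScalar Φ) {Y : M2 k}
    (hY : Y.trace = 0) (hYΦ : (Y * Φ).trace = 0) :
    ∃ X : M2 k, X.trace = 0 ∧ Y = Φ * X - X * Φ := by
  rw [Matrix.trace_fin_two] at hY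
  have hY11 : Y 1 1 = - Y 0 0 := by linear_combination hY
  simp only [Matrix.trace_fin_two, Matrix.mul_apply, Fin.sum_univ_two, hY11] at hYΦ
  obtain ⟨x0, x1, x2, e0, e1, e2⟩ := exists_commutator_aux h2 (a := Φ 0 0) (b := Φ 0 1)
    (c := Φ 1 0) (d := Φ 1 1) (y0 := Y 0 0) (y1 := Y 0 1) (y2 := Y 1 0) hΦ.cases
    (by linear_combination hYΦ)
  refine ⟨!![x0, x1; x2, -x0], by simp [Matrix.trace_fin_two_of], ?_⟩
  have hmul : ∀ i j, (Φ * !![x0, x1; x2, -x0] - !![x0, x1; x2, -x0] * Φ) i j =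
      (Φ i 0 * !![x0, x1; x2, -x0] 0 j + Φ i 1 * !![x0, x1; x2, -x0] 1 j) -
      (!![x0, x1; x2, -x0] i 0 * Φ 0 j + !![x0, x1; x2, -x0] i 1 * Φ 1 j) := by
    intro i j
    rw [Matrix.sub_apply, Matrix.mul_apply, Matrix.mul_apply, Fin.sum_univ_two, Fin.sum_univ_two]
  ext i j
  rw [hmul]
  fin_cases i <;> fin_cases j
  · show Y 0 0 = (Φ 0 0 * x0 + Φ 0 1 * x2) - (x0 * Φ 0 0 + x1 * Φ 1 0)
    linear_combination -e0
  · show Y 0 1 = (Φ 0 0 * x1 + Φ 0 1 * -x0) - (x0 * Φ 0 1 + x1 * Φ 1 1)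
    linear_combination -e1
  · show Y 1 0 = (Φ 1 0 * x0 + Φ 1 1 * x2) - (x2 * Φ 0 0 + -x0 * Φ 1 0)
    linear_combination -e2
  · show Y 1 1 = (Φ 1 0 * x1 + Φ 1 1 * -x0) - (x2 * Φ 0 1 + -x0 * Φ 1 1)
    linear_combination e0 + hY11

/-- the relevant coboundary equation -/
lemma exists_cob {G : Type} [Group G] (h2 : (2 : k) ≠ 0) (r : G →* M2 k) {φ : G}
    (hΦ : NonScalar (r φ)) {F : M2 k} (hF : F.trace = 0) (hFΦ : (F * r φ).trace = 0) :
    ∃ X : M2 k, X.trace = 0 ∧ F = cob r X φ := by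
  obtain ⟨X, hX, h⟩ := exists_commutator h2 hΦ (Y := F * r φ) hFΦ (by
    -- Cayley-Hamilton
    have h3 : r φ * r φ = (r φ).trace • r φ - (r φ).det • (1 : M2 k) := by
      ext i j
      fin_cases i <;> fin_cases j <;>
        simp [Matrix.mul_apply, Fin.sum_univ_two, Matrix.trace_fin_two, Matrix.det_fin_two] <;> ring
    rw [mul_assoc, h3, mul_sub, mul_smul_comm, mul_smul_comm, mul_one, Matrix.trace_sub,
      Matrix.trace_smul, Matrix.trace_smul, hF, hFΦ, smul_zero, smul_zero, sub_zero])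
  refine ⟨X, hX, ?_⟩
  have h4 : r φ * r φ⁻¹ = 1 := rmul_inv r φ
  calc F = F * r φ * r φ⁻¹ := by rw [mul_assoc, h4, mul_one]
    _ = (r φ * X - X * r φ) * r φ⁻¹ := by rw [h]
    _ = r φ * X * r φ⁻¹ - X := by rw [sub_mul, mul_assoc X, h4, mul_one]

end Algebra

section Local

variable {p : ℕ} [Fact p.Prime] {k : Type} [Field k] [Algebra (ZMod p) k]

/-- all elements of the decomposition group act through powers of Frobenius -/
lemma exists_pow_of_unram {r : H91.GQ →* M2 k} (hfl : FinLev r) {t : Nat.Primes}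
    (hI : ∀ σ ∈ Iq t, r σ = 1) {φ : H91.GQ} (hφ : (primeLocalPlace t).IsFrobeniusAt φ t) :
    ∀ σ ∈ Dq t, ∃ n : ℕ, r σ = r φ ^ n := by
  intro σ hσ
  obtain ⟨U, hU, h⟩ := hfl
  obtain ⟨n, ι, hι, w, hw, rfl⟩ := H28.exists_frobenius_mul t.2 (H28.primeLocalPlace_liesOver t) hφ
    hσ hU
  exact ⟨n, by rw [map_mul, map_mul, map_pow, hI ι hι, h w hw, mul_one, mul_one]⟩

lemma commute_of_unram {r : H91.GQ →* M2 k} (hfl : FinLev r) {t : Nat.Primes}
    (hI : ∀ σ ∈ Iq t, r σ = 1) {φ : H91.GQ} (hφ : (primeLocalPlace t).IsFrobeniusAt φ t)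
    {X : M2 k} (hX : r φ * X = X * r φ) : ∀ σ ∈ Dq t, r σ * X = X * r σ := by
  intro σ hσ
  obtain ⟨n, hn⟩ := exists_pow_of_unram hfl hI hφ σ hσ
  rw [hn]
  exact Commute.pow_left hX n

variable [Finite k]

/-- **Size of the coboundaries** at an unramified prime with non-scalar Frobenius. -/
lemma finrank_B1_nonScalar {r : H91.GQ →* M2 k} (hfl : FinLev r) {t : Nat.Primes}
    (hI : ∀ σ ∈ Iq t, r σ = 1) {φ : H91.GQ} (hφ : (primeLocalPlace t).IsFrobeniusAt φ t)
    (hp2 : p ≠ 2) (hΦ : NonScalar (r φ)) :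
    finrank (ZMod p) (B1 (rhoD (ad p r) t)) + 1 * finrank (ZMod p) k ≤
      3 * finrank (ZMod p) k := by
  have h2 : (2 : k) ≠ 0 := H51Dual.two_ne_zero' p k hp2
  haveI hfk : Module.Finite (ZMod p) k := Module.Finite.of_finite
  rw [← H51Dual.finrank_SL p k, one_mul]
  have h1 := LinearMap.finrank_range_add_finrank_ker (d0 (rhoD (ad p r) t))
  rw [← h1, B1]
  refine Nat.add_le_add_left ?_ _
  -- the invariants
  let X₀ : M2 k := r φ - ((r φ).trace / 2) • (1 : M2 k)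
  have hX₀ : X₀.trace = 0 := by
    simp only [X₀, Matrix.trace_sub, Matrix.trace_smul, Matrix.trace_one, Fintype.card_fin,
      smul_eq_mul]
    push_cast
    field_simp
    ring
  have hX₀ne : X₀ ≠ 0 := fun h => hΦ ⟨_, sub_eq_zero.mp h⟩
  have hcomm : r φ * X₀ = X₀ * r φ := by
    simp only [X₀, mul_sub, sub_mul, mul_smul_comm, smul_mul_assoc, mul_one, one_mul]
  have hcommD := commute_of_unram hfl hI hφ hcomm
  let L : k →ₗ[ZMod p] SL p k :=
    { toFun := fun a => ⟨a • X₀, by rw [mem_SL, Matrix.trace_smul, hX₀, smul_zero]⟩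
      map_add' := fun a b => Subtype.ext (add_smul a b X₀)
      map_smul' := fun c a => Subtype.ext (by
        show (c • a) • X₀ = c • (a • X₀)
        rw [smul_assoc]) }
  have hLker : ∀ a, L a ∈ LinearMap.ker (d0 (rhoD (ad p r) t)) := by
    intro a
    rw [LinearMap.mem_ker]
    funext σ
    rw [d0_apply, Pi.zero_apply, sub_eq_zero]
    ext1
    show r σ * (a • X₀) * r (σ : H91.GQ)⁻¹ = a • X₀
    rw [mul_smul_comm, hcommD σ σ.2, smul_mul_assoc, mul_assoc, rmul_inv, mul_one]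
  let L' : k →ₗ[ZMod p] LinearMap.ker (d0 (rhoD (ad p r) t)) := L.codRestrict _ hLker
  have hinj : Function.Injective L' := by
    rw [injective_iff_map_eq_zero]
    intro a ha
    have h3 : a • X₀ = 0 := congrArg (fun x : LinearMap.ker (d0 (rhoD (ad p r) t)) =>
      ((x : SL p k) : M2 k)) ha
    exact (smul_eq_zero.mp h3).resolve_right hX₀ne
  exact LinearMap.finrank_le_finrank_of_injective hinj

/-- **Tangent classes** at an unramified prime with non-scalar Frobenius: if the lift is trivial at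
the tame generator and has constant trace at Frobenius then its cocycle is a coboundary on the
decomposition group. -/
lemma coc_eq_cob_D {r : H91.GQ →* M2 k} (hfl : FinLev r) (hp2 : p ≠ 2)
    {R : H91.GQ →* M2 (DualNumber k)} (hR : GoodLift r R)
    {t : Nat.Primes} (htp : p ≠ (t : ℕ)) (pl : PlaceData p (t : ℕ))
    (hpl : pl.P = primeLocalPlace t) (hI : ∀ σ ∈ Iq t, r σ = 1) (hΦ : NonScalar (r pl.φ))
    (h1 : TrivSqZeroExt.snd (R pl.φ).trace = 0) (h2 : coc R pl.σ = 0) :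
    ∃ X : M2 k, X.trace = 0 ∧ ∀ σ ∈ Dq t, coc R σ = cob r X σ := by
  have h20 : (2 : k) ≠ 0 := H51Dual.two_ne_zero' p k hp2
  have htrF : (coc R pl.φ * r pl.φ).trace = 0 := by
    have h3 := sndM_eq_coc_mul R pl.φ
    rw [hR.red] at h3
    rw [← h3]
    have h4 : (sndM (R pl.φ)).trace = TrivSqZeroExt.snd (R pl.φ).trace := by
      rw [Matrix.trace_fin_two, Matrix.trace_fin_two, sndM_apply, sndM_apply,
        TrivSqZeroExt.snd_add]
    rw [h4, h1]
  obtain ⟨X, hX, hF⟩ := exists_cob h20 r hΦ (trace_coc hR pl.φ) htrF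
  refine ⟨X, hX, ?_⟩
  let c : Dq t → SL p k := fun σ => ⟨coc R σ, trace_coc hR σ⟩
  have hc : c ∈ Z1 (Dlev t) (rhoD (ad p r) t) := H28.coc_mem_Z1 hR fun σ => rfl
  let c' : Dq t → SL p k := c - d0 (rhoD (ad p r) t) ⟨X, hX⟩
  have hc' : c' ∈ Z1 (Dlev t) (rhoD (ad p r) t) :=
    Submodule.sub_mem _ hc (H28.B1_le_Z1 hfl t ⟨⟨X, hX⟩, rfl⟩)
  have hc'v : ∀ σ : Dq t, (c' σ : M2 k) = coc R σ - cob r X σ := fun σ => rfl
  have hφ : (primeLocalPlace t).IsFrobeniusAt pl.φ t := by rw [← hpl]; exact pl.frob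
  have hσ₀ : pl.σ ∈ Iq t := by
    have := pl.inert
    rwa [hpl] at this
  have hφD : pl.φ ∈ Dq t := hφ.mem_decompositionSubgroup
  have hσD : pl.σ ∈ Dq t := H28.Iq_le_Dq hσ₀
  have h3 := H28.eq_zero_of_tame hc' (Ne.symm htp) (fun σ hσ m => by
    rw [H51Dual.ad_eq_one (hI σ hσ)]; rfl) hσ₀ pl.tame (by
      rw [H28.extD_of_mem c' hσD]
      ext1
      rw [hc'v]
      show coc R pl.σ - (r pl.σ * X * r pl.σ⁻¹ - X) = 0
      rw [h2, hI _ hσ₀, hI _ (inv_mem hσ₀), one_mul, mul_one, sub_self, sub_self])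
  have h4 := H28.eq_zero_of_frobenius hc' hφ h3 (by
      rw [H28.extD_of_mem c' hφD]
      ext1
      rw [hc'v]
      show coc R pl.φ - cob r X pl.φ = 0
      rw [← hF, sub_self])
  intro σ hσ
  have h5 : (c' ⟨σ, hσ⟩ : M2 k) = 0 := congrArg Subtype.val (congrFun h4 ⟨σ, hσ⟩)
  rw [hc'v] at h5
  exact sub_eq_zero.mp h5

end Local

end Fermat.Agent.H53
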