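import Fermat.Agent.H53Level
import Fermat.Agent.H53LocB

set_option autoImplicit false
set_option maxSynthPendingDepth 3
set_option linter.style.haveILetI false
set_option linter.unusedSectionVars false

/-!
# Marks at unramified primes with non-scalar Frobenius
-/

noncomputable section

open IsLocalRing Polynomial GaloisRep
open Fermat.Agent.H56

namespace Fermat.Agent.H53

/-- **Marks at a prime `q` where the residual representation is unramified with non-scalar
Frobenius**: `Ph`, `Sg` are the matrices of Frobenius and of a tame generator. -/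
structure IsBMarks {A : Type} [CommRing A] [IsLocalRing A] (q : ℕ) (u : A) (Ph Sg : M2 A)
    (t y z : A) : Prop where
  t_mem : t ∈ maximalIdeal A
  y_mem : y ∈ maximalIdeal A
  z_mem : z ∈ maximalIdeal A
  /-- the level raising element -/
  h_eq : ∃ v : A, IsUnit v ∧ Ph.trace ^ 2 - (q + 1) ^ 2 = v * (t * (t + u * (q + 1)))
  /-- unramified points -/
  nr : ∀ {B : Type} [CommRing B] (g : A →+* B), Sg.map g = 1 → g y = 0 ∧ g z = 0
  /-- unipotent points -/
  uni : ∀ {B : Type} [CommRing B] [IsDomain B] [CharZero B] (g : A →+* B),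
    (Sg.map g - 1) ^ 2 = 0 →
      g y * g t = 0 ∧ g z * (g t + g u * (q + 1)) = 0 ∧ g y * g z = 0
  /-- points with trace `u (q + 1)` -/
  pt : ∀ {B : Type} [CommRing B] (g : A →+* B), (Ph.map g).trace = g u * (q + 1) → g t = 0
  /-- tangent vectors -/
  tangent : ∀ {k : Type} [Field k] (f : A →+* DualNumber k), IsLocalHom f →
    TrivSqZeroExt.snd (f u) = 0 → f t = 0 → f y = 0 → f z = 0 →
      Sg.map f = 1 ∧ TrivSqZeroExt.snd (Ph.map f).trace = 0

section Alg

lemma one_add_pow_of_sq {B : Type} [CommRing B] {N : M2 B} (hN : N ^ 2 = 0) (q : ℕ) :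
    (1 + N) ^ q = 1 + (q : B) • N := by
  induction q with
  | zero => simp
  | succ q ih =>
    have h1 : N * N = 0 := by rw [← pow_two]; exact hN
    rw [pow_succ, ih, mul_add, mul_one, add_mul, one_mul, smul_mul_assoc, h1, smul_zero, add_zero]
    push_cast
    rw [add_smul, one_smul, add_assoc]

/-- the infinitesimal form of the tame relation -/
lemma tame_nilpotent {B : Type} [CommRing B] {Ph Sg : M2 B} {q : ℕ}
    (h : Ph * Sg = Sg ^ q * Ph) (hN : (Sg - 1) ^ 2 = 0) :
    Ph * (Sg - 1) = (q : B) • ((Sg - 1) * Ph) := by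
  have h1 := one_add_pow_of_sq hN q
  rw [add_sub_cancel] at h1
  rw [mul_sub, mul_one, h, h1, add_mul, one_mul, add_sub_cancel_left, smul_mul_assoc]

lemma trace_sq_of_nilpotent {B : Type} [CommRing B] [IsDomain B] {Ph N : M2 B} {q : ℕ}
    (hq0 : (q : B) ≠ 0) (hq1 : (q : B) ≠ 1) (hdet : Ph.det = q) (hN0 : N ≠ 0)
    (h : Ph * N = (q : B) • (N * Ph)) : Ph.trace ^ 2 = (q + 1) ^ 2 := by
  set t := Ph.trace with ht
  -- Cayley-Hamilton
  have hCH : Ph * Ph = t • Ph - (q : B) • (1 : M2 B) := by
    rw [ht, ← hdet]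
    ext i j
    fin_cases i <;> fin_cases j <;>
      simp [Matrix.mul_apply, Fin.sum_univ_two, Matrix.trace_fin_two, Matrix.det_fin_two] <;> ring
  have h1 : Ph * Ph * N = (q : B) • ((q : B) • (N * (Ph * Ph))) := by
    rw [mul_assoc, h, mul_smul_comm, ← mul_assoc, h, smul_mul_assoc, mul_assoc]
  rw [hCH, sub_mul, smul_mul_assoc, smul_mul_assoc, one_mul, h, mul_sub, mul_smul_comm,
    mul_smul_comm, mul_one] at h1
  -- `N (t Φ - (1 + q)) = 0`
  have h2 : N * (t • Ph - ((q : B) + 1) • (1 : M2 B)) = 0 := by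
    rw [mul_sub, mul_smul_comm, mul_smul_comm, mul_one]
    ext i j
    have h3 := congrFun (congrFun h1 i) j
    simp only [Matrix.sub_apply, Matrix.smul_apply, smul_eq_mul, Matrix.zero_apply] at h3 ⊢
    have h4 : (q : B) * ((1 - q) * (t * (N * Ph) i j - (q + 1) * N i j)) = 0 := by
      linear_combination h3
    exact ((mul_eq_zero.mp ((mul_eq_zero.mp h4).resolve_left hq0)).resolve_left
      (sub_ne_zero.mpr hq1.symm))
  have h5 : (t • Ph - ((q : B) + 1) • (1 : M2 B)).det = 0 := by
    by_contra hne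
    apply hN0
    have h6 := congrArg (· * (t • Ph - ((q : B) + 1) • (1 : M2 B)).adjugate) h2
    simp only [mul_assoc, Matrix.mul_adjugate, zero_mul, mul_smul_comm, mul_one] at h6
    exact (smul_eq_zero.mp h6).resolve_left hne
  have h7 : (t • Ph - ((q : B) + 1) • (1 : M2 B)).det =
      t ^ 2 * Ph.det - ((q : B) + 1) * t * Ph.trace + ((q : B) + 1) ^ 2 := by
    rw [Matrix.det_fin_two, Matrix.det_fin_two, Matrix.trace_fin_two]
    simp
    ring
  rw [h7, hdet, ← ht] at h5
  linear_combination -h5

variable {A : Type} [CommRing A] [IsLocalRing A]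

lemma fst_eq_zero_of_mem {k : Type} [Field k] (f : A →+* DualNumber k) (hf : IsLocalHom f)
    {x : A} (hx : x ∈ maximalIdeal A) : TrivSqZeroExt.fst (f x) = 0 := by
  by_contra h
  have h1 : IsUnit (f x) := TrivSqZeroExt.isUnit_iff_isUnit_fst.mpr (isUnit_iff_ne_zero.mpr h)
  exact (mem_maximalIdeal x).mp hx ((isUnit_map_iff f x).mp h1)

/-- the `ε`-part squares to zero -/
lemma sq_eq_zero_of_fst {k : Type} [Field k] {N : M2 (DualNumber k)}
    (h : ∀ i j, TrivSqZeroExt.fst (N i j) = 0) : N ^ 2 = 0 := by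
  rw [pow_two]
  ext i j
  · simp [Matrix.mul_apply, Fin.sum_univ_two, h]
  · simp [Matrix.mul_apply, Fin.sum_univ_two, h]

lemma cong_map_dual {k : Type} [Field k] (f : A →+* DualNumber k) (hf : IsLocalHom f) {M : M2 A}
    (hM : Cong (maximalIdeal A) M) : (M.map f - 1) ^ 2 = 0 := by
  refine sq_eq_zero_of_fst fun i j => ?_
  have h1 := fst_eq_zero_of_mem f hf (hM i j)
  have h2 : f (M i j - (1 : M2 A) i j) = (M.map f - 1) i j := by
    rw [map_sub, Matrix.sub_apply, Matrix.map_apply, Matrix.one_apply, Matrix.one_apply]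
    split_ifs <;> simp
  rwa [h2] at h1

end Alg

section CaseOne

variable {A : Type} [CommRing A] [IsLocalRing A]

/-- relations in an eigenbasis of Frobenius -/
lemma eigen_relations {B : Type} [CommRing B] {q : ℕ} {u α β : B} {N : M2 B}
    (hu : u ^ 2 = 1) (hq : IsUnit ((q : B) - 1)) (hqu : IsUnit (q : B)) (hαβ : α * β = q)
    (hα : IsUnit (α - u)) (hβ : IsUnit (β + u)) (hN : N ^ 2 = 0)
    (h : !![α, 0; 0, β] * N = (q : B) • (N * !![α, 0; 0, β])) :
    N 0 0 = 0 ∧ N 1 1 = 0 ∧ N 0 1 * (β - u) = 0 ∧ N 1 0 * ((β - u) + u * (q + 1)) = 0 ∧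
      N 0 1 * N 1 0 = 0 := by
  have hαu : IsUnit α := isUnit_of_mul_isUnit_left (by rw [hαβ]; exact hqu)
  have hβu : IsUnit β := isUnit_of_mul_isUnit_right (by rw [hαβ]; exact hqu)
  have h00 : α * N 0 0 = q * (N 0 0 * α) := by
    have := congrFun (congrFun h 0) 0
    simpa [Matrix.mul_apply, Fin.sum_univ_two] using this
  have h01 : α * N 0 1 = q * (N 0 1 * β) := by
    have := congrFun (congrFun h 0) 1
    simpa [Matrix.mul_apply, Fin.sum_univ_two] using this
  have h10 : β * N 1 0 = q * (N 1 0 * α) := by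
    have := congrFun (congrFun h 1) 0
    simpa [Matrix.mul_apply, Fin.sum_univ_two] using this
  have h11 : β * N 1 1 = q * (N 1 1 * β) := by
    have := congrFun (congrFun h 1) 1
    simpa [Matrix.mul_apply, Fin.sum_univ_two] using this
  have n00 : N 0 0 = 0 := by
    have e : (α * ((q : B) - 1)) * N 0 0 = 0 := by linear_combination -h00
    exact ((hαu.mul hq).mul_right_eq_zero).mp e
  have n11 : N 1 1 = 0 := by
    have e : (β * ((q : B) - 1)) * N 1 1 = 0 := by linear_combination -h11
    exact ((hβu.mul hq).mul_right_eq_zero).mp e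
  refine ⟨n00, n11, ?_, ?_, ?_⟩
  · have e : (q * (β + u)) * (N 0 1 * (β - u)) = 0 := by
      linear_combination -β * h01 + N 0 1 * hαβ - q * N 0 1 * hu
    exact ((hqu.mul hβ).mul_right_eq_zero).mp e
  · have e : (β * (α - u)) * (N 1 0 * (α + u)) = 0 := by
      linear_combination -h10 + N 1 0 * α * hαβ - β * N 1 0 * hu
    have e1 : N 1 0 * (α + u) = 0 := ((hβu.mul hα).mul_right_eq_zero).mp e
    linear_combination β * u * e1 - (N 1 0 * u) * hαβ - (N 1 0 * β) * hu
  · have h2 := congrFun (congrFun hN 0) 0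
    rw [pow_two, Matrix.mul_apply, Fin.sum_univ_two, n00, zero_mul, zero_add,
      Matrix.zero_apply] at h2
    exact h2

/-- marks when `q ≢ 1` modulo `p` -/
theorem exists_bMarks_one [IsAdicComplete (maximalIdeal A) A] {q : ℕ} {u : A} (hu : u ^ 2 = 1)
    (h2 : IsUnit (2 : A)) {Ph Sg : M2 A} (htame : Ph * Sg = Sg ^ q * Ph) (hdet : Ph.det = q)
    (hSg : Cong (maximalIdeal A) Sg) (htr : Ph.trace - u * (q + 1) ∈ maximalIdeal A)
    (hq : IsUnit ((q : A) - 1)) (hqu : IsUnit (q : A)) :
    ∃ t y z, IsBMarks q u Ph Sg t y z := by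
  have hu' : IsUnit u := IsUnit.of_pow_eq_one hu two_ne_zero
  have hab : residue A (u * q) ≠ residue A u := by
    intro h
    rw [← sub_eq_zero, ← map_sub, residue_eq_zero_iff] at h
    have h1 : u * q - u = u * (q - 1) := by ring
    rw [h1] at h
    exact (mem_maximalIdeal _).mp h (hu'.mul hq)
  have hchar : (Ph.map (residue A)).charpoly = (X - C (residue A (u * q))) * (X - C (residue A u)) := by
    have e1 : (Ph.map (residue A)).trace = residue A (u * q) + residue A u := by
      rw [← map_add, Matrix.trace_fin_two, Matrix.map_apply, Matrix.map_apply, ← map_add,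
        ← Matrix.trace_fin_two, ← sub_eq_zero, ← map_sub, residue_eq_zero_iff]
      convert htr using 1
      ring
    have e2 : (Ph.map (residue A)).det = residue A (u * q) * residue A u := by
      have h3 : (Ph.map (residue A)).det = residue A Ph.det := by
        rw [RingHom.map_det]; rfl
      rw [h3, hdet, ← map_mul]
      congr 1
      linear_combination -(q : A) * hu
    rw [Matrix.charpoly_fin_two, e1, e2]
    generalize residue A (u * q) = a'
    generalize residue A u = b'
    rw [C_add, C_mul]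
    ring
  obtain ⟨α, β, hα, hβ, htr', hdet', hαβu⟩ := exists_eigen_lift Ph hab hchar
  obtain ⟨w, hw⟩ := exists_diag_of_eigen Ph htr' hdet' hαβu
  have hαβ : α * β = q := by rw [← hdet, Matrix.det_fin_two, hdet']
  -- units
  have hβu1 : β - u ∈ maximalIdeal A := by
    rw [← residue_eq_zero_iff, map_sub, hβ, sub_self]
  have hαu1 : α - u * q ∈ maximalIdeal A := by
    rw [← residue_eq_zero_iff, map_sub, hα, sub_self]
  have unit_of : ∀ {x y : A}, IsUnit y → x - y ∈ maximalIdeal A → IsUnit x := by
    intro x y hy hxy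
    by_contra hcon
    have h3 := Ideal.sub_mem _ ((mem_maximalIdeal _).mpr hcon) hxy
    rw [sub_sub_cancel] at h3
    exact (mem_maximalIdeal _).mp h3 hy
  have hβunit : IsUnit β := unit_of hu' hβu1
  have hβu : IsUnit (β + u) := by
    refine unit_of (h2.mul hu') ?_
    convert hβu1 using 1
    ring
  have hαu : IsUnit (α - u) := by
    refine unit_of (hu'.mul hq) ?_
    convert hαu1 using 1
    ring
  have hβuq : IsUnit (β - u * q) := by
    refine unit_of (hu'.mul hq).neg ?_
    convert hβu1 using 1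
    ring
  set M : M2 A := (↑w⁻¹ : M2 A) * Sg * w with hM
  have hpow : ∀ n : ℕ, M ^ n = (↑w⁻¹ : M2 A) * Sg ^ n * w := by
    intro n
    induction n with
    | zero => rw [pow_zero, pow_zero, mul_one, Units.inv_mul]
    | succ n ih =>
      rw [pow_succ, ih, hM, pow_succ]
      calc (↑w⁻¹ : M2 A) * Sg ^ n * w * ((↑w⁻¹ : M2 A) * Sg * w)
          = (↑w⁻¹ : M2 A) * Sg ^ n * (w * (↑w⁻¹ : M2 A)) * Sg * w := by noncomm_ring
        _ = _ := by rw [Units.mul_inv, mul_one]; noncomm_ring
  have hD : (↑w⁻¹ : M2 A) * Ph * w = !![α, 0; 0, β] := by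
    rw [mul_assoc, hw, ← mul_assoc, Units.inv_mul, one_mul]
  have htameM : !![α, 0; 0, β] * M = M ^ q * !![α, 0; 0, β] := by
    rw [hpow, ← hD, hM]
    calc (↑w⁻¹ : M2 A) * Ph * w * ((↑w⁻¹ : M2 A) * Sg * w)
        = (↑w⁻¹ : M2 A) * Ph * (w * (↑w⁻¹ : M2 A)) * Sg * w := by noncomm_ring
      _ = (↑w⁻¹ : M2 A) * (Ph * Sg) * w := by rw [Units.mul_inv, mul_one]; noncomm_ring
      _ = (↑w⁻¹ : M2 A) * (Sg ^ q * Ph) * w := by rw [htame]
      _ = (↑w⁻¹ : M2 A) * Sg ^ q * (w * (↑w⁻¹ : M2 A)) * Ph * w := by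
          rw [Units.mul_inv, mul_one]; noncomm_ring
      _ = _ := by noncomm_ring
  have hMcong : Cong (maximalIdeal A) M := by
    rw [cong_iff_map] at hSg ⊢
    rw [hM, Matrix.map_mul, Matrix.map_mul, hSg, mul_one, ← Matrix.map_mul, Units.inv_mul]
    exact Matrix.map_one _ (map_zero _) (map_one _)
  -- conjugation after a specialisation
  have hconj : ∀ {B : Type} [CommRing B] (g : A →+* B),
      M.map g = (↑w⁻¹ : M2 A).map g * Sg.map g * (w : M2 A).map g ∧
      (↑w⁻¹ : M2 A).map g * (w : M2 A).map g = 1 ∧ (w : M2 A).map g * (↑w⁻¹ : M2 A).map g = 1 := by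
    intro B _ g
    refine ⟨by rw [hM, Matrix.map_mul, Matrix.map_mul], ?_, ?_⟩
    · rw [← Matrix.map_mul, Units.inv_mul]
      exact Matrix.map_one _ (map_zero _) (map_one _)
    · rw [← Matrix.map_mul, Units.mul_inv]
      exact Matrix.map_one _ (map_zero _) (map_one _)
  have hrel : ∀ {B : Type} [CommRing B] (g : A →+* B), (M.map g - 1) ^ 2 = 0 →
      (M.map g - 1) 0 0 = 0 ∧ (M.map g - 1) 1 1 = 0 ∧ g (M 0 1) * g (β - u) = 0 ∧
      g (M 1 0) * (g (β - u) + g u * (q + 1)) = 0 ∧ g (M 0 1) * g (M 1 0) = 0 := by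
    intro B _ g hg
    have h3 : !![g α, 0; 0, g β] * M.map g = M.map g ^ q * !![g α, 0; 0, g β] := by
      have h4 := congrArg (fun x : M2 A => g.mapMatrix x) htameM
      simp only [map_mul, map_pow] at h4
      have h5 : (g.mapMatrix !![α, 0; 0, β] : M2 B) = !![g α, 0; 0, g β] := by
        ext i j
        fin_cases i <;> fin_cases j <;> simp
      rw [h5] at h4
      exact h4
    have h4 := tame_nilpotent h3 hg
    have hunit : ∀ {x : A}, IsUnit x → IsUnit (g x) := fun hx => hx.map g
    have h6 := eigen_relations (q := q) (u := g u) (α := g α) (β := g β)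
      (N := M.map g - 1) (by rw [← map_pow, hu, map_one])
      (by have := hunit hq; rwa [map_sub, map_natCast, map_one] at this)
      (by have := hunit hqu; rwa [map_natCast] at this)
      (by rw [← map_mul, hαβ, map_natCast])
      (by rw [← map_sub]; exact hunit hαu) (by rw [← map_add]; exact hunit hβu) hg h4
    have e01 : (M.map g - 1) 0 1 = g (M 0 1) := by
      rw [Matrix.sub_apply, Matrix.one_apply_ne (by decide), sub_zero, Matrix.map_apply]
    have e10 : (M.map g - 1) 1 0 = g (M 1 0) := by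
      rw [Matrix.sub_apply, Matrix.one_apply_ne (by decide), sub_zero, Matrix.map_apply]
    rw [e01, e10, ← map_sub] at h6
    exact h6
  have hsq : ∀ {B : Type} [CommRing B] (g : A →+* B), (Sg.map g - 1) ^ 2 = 0 →
      (M.map g - 1) ^ 2 = 0 := by
    intro B _ g hg
    obtain ⟨h3, h4, h5⟩ := hconj g
    have h6 : M.map g - 1 = (↑w⁻¹ : M2 A).map g * (Sg.map g - 1) * (w : M2 A).map g := by
      rw [h3, mul_sub, sub_mul, mul_one, h4]
    rw [h6, pow_two]
    calc (↑w⁻¹ : M2 A).map g * (Sg.map g - 1) * (w : M2 A).map g *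
          ((↑w⁻¹ : M2 A).map g * (Sg.map g - 1) * (w : M2 A).map g)
        = (↑w⁻¹ : M2 A).map g * (Sg.map g - 1) * ((w : M2 A).map g * (↑w⁻¹ : M2 A).map g) *
            (Sg.map g - 1) * (w : M2 A).map g := by simp only [mul_assoc]
      _ = (↑w⁻¹ : M2 A).map g * ((Sg.map g - 1) ^ 2) * (w : M2 A).map g := by
          rw [h5, mul_one, pow_two]; simp only [mul_assoc]
      _ = 0 := by rw [hg, mul_zero, zero_mul]
  have hMone : ∀ {B : Type} [CommRing B] (g : A →+* B), M.map g = 1 ↔ Sg.map g = 1 := by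
    intro B _ g
    obtain ⟨h3, h4, h5⟩ := hconj g
    constructor
    · intro h6
      calc Sg.map g = ((w : M2 A).map g * (↑w⁻¹ : M2 A).map g) * Sg.map g *
            ((w : M2 A).map g * (↑w⁻¹ : M2 A).map g) := by rw [h5, one_mul, mul_one]
        _ = (w : M2 A).map g * ((↑w⁻¹ : M2 A).map g * Sg.map g * (w : M2 A).map g) *
            (↑w⁻¹ : M2 A).map g := by simp only [mul_assoc]
        _ = 1 := by rw [← h3, h6, mul_one, h5]
    · intro h6
      rw [h3, h6, mul_one, h4]
  refine ⟨β - u, M 0 1, M 1 0, ?_, ?_, ?_, ?_, ?_, ?_, ?_, ?_⟩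
  · exact hβu1
  · have := hMcong 0 1
    rwa [Matrix.one_apply_ne (by decide), sub_zero] at this
  · have := hMcong 1 0
    rwa [Matrix.one_apply_ne (by decide), sub_zero] at this
  · obtain ⟨βi, hβi⟩ := hβunit.exists_right_inv
    refine ⟨-(α - u) * (β + u) * u * βi, (((hαu.neg).mul hβu).mul hu').mul
      (IsUnit.of_mul_eq_one β (by rw [mul_comm]; exact hβi)), ?_⟩
    have h3 : Ph.trace = α + β := by rw [Matrix.trace_fin_two, htr']
    rw [h3, ← hαβ]
    have h4 : (β - u) * ((β - u) + u * (α * β + 1)) = (β - u) * (β * (1 + u * α)) := by ring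
    rw [h4]
    have h5 : -(α - u) * (β + u) * u * βi * ((β - u) * (β * (1 + u * α))) =
        -(α - u) * (β + u) * u * (β - u) * (1 + u * α) * (β * βi) := by ring
    rw [h5, hβi, mul_one]
    linear_combination ((α ^ 2 - 1) * (β ^ 2 - 1 - u ^ 2) - u * α * (β ^ 2 - u ^ 2)) * hu
  · intro B _ g hg
    have h3 := (hMone g).mpr hg
    constructor
    · have := congrFun (congrFun h3 0) 1
      rwa [Matrix.map_apply, Matrix.one_apply_ne (by decide)] at this
    · have := congrFun (congrFun h3 1) 0
      rwa [Matrix.map_apply, Matrix.one_apply_ne (by decide)] at this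
  · intro B _ _ _ g hg
    obtain ⟨-, -, h3, h4, h5⟩ := hrel g (hsq g hg)
    exact ⟨h3, h4, h5⟩
  · intro B _ g hg
    have h3 : (Ph.map g).trace = g α + g β := by
      rw [← map_add, ← htr', map_add]
      rw [Matrix.trace_fin_two, Matrix.map_apply, Matrix.map_apply]
    rw [h3] at hg
    have h4 : g (β - u * q) * g (β - u) = 0 := by
      have h6 : g α * g β = q := by rw [← map_mul, hαβ, map_natCast]
      have h7 : g u ^ 2 = 1 := by rw [← map_pow, hu, map_one]
      rw [map_sub, map_sub, map_mul, map_natCast]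
      linear_combination g β * hg - h6 + (q : B) * h7
    exact ((hβuq.map g).mul_right_eq_zero).mp h4
  · intro k _ f hf hfu ht hy hz
    have h3 := cong_map_dual f hf hMcong
    obtain ⟨h4, h5, -, -, -⟩ := hrel f h3
    have hM1 : M.map f = 1 := by
      rw [← sub_eq_zero]
      refine Matrix.ext fun i j => ?_
      fin_cases i <;> fin_cases j
      · exact h4
      · show (M.map f - 1) 0 1 = 0
        rw [Matrix.sub_apply, Matrix.one_apply_ne (by decide), sub_zero, Matrix.map_apply, hy]
      · show (M.map f - 1) 1 0 = 0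
        rw [Matrix.sub_apply, Matrix.one_apply_ne (by decide), sub_zero, Matrix.map_apply, hz]
      · exact h5
    refine ⟨(hMone f).mp hM1, ?_⟩
    have h6 : (Ph.map f).trace = f α + f β := by
      rw [← map_add, ← htr', map_add]
      rw [Matrix.trace_fin_two, Matrix.map_apply, Matrix.map_apply]
    have h7 : f β = f u := by
      rw [map_sub, sub_eq_zero] at ht
      exact ht
    have h8 : f α = q * f u := by
      have h9 : f α * f β = q := by rw [← map_mul, hαβ, map_natCast]
      have h10 : f u ^ 2 = 1 := by rw [← map_pow, hu, map_one]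
      rw [h7] at h9
      linear_combination (f u) * h9 - (f α) * h10
    rw [h6, h7, h8, TrivSqZeroExt.snd_add, TrivSqZeroExt.snd_mul, hfu]
    simp

end CaseOne

section CaseTwo

variable {A : Type} [CommRing A] [IsLocalRing A]

/-- trace zero matrices commuting with a non-scalar matrix -/
lemma eq_zero_of_commute {k : Type} [Field k] (h2 : (2 : k) ≠ 0) {Ph N : M2 k}
    (hN : N.trace = 0) (h : Ph * N = N * Ph) {i j : Fin 2} {u : k} (htr : Ph.trace = 2 * u)
    (hne : (Ph - u • (1 : M2 k)) i j ≠ 0) (hij : N i j = 0) : N = 0 := by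
  rw [Matrix.trace_fin_two] at hN htr
  have h00 := congrFun (congrFun h 0) 0
  have h01 := congrFun (congrFun h 0) 1
  have h10 := congrFun (congrFun h 1) 0
  simp only [Matrix.mul_apply, Fin.sum_univ_two] at h00 h01 h10
  have hd : Ph 1 1 = 2 * u - Ph 0 0 := by linear_combination htr
  have hn : N 1 1 = -N 0 0 := by linear_combination hN
  rw [hd] at h01 h10
  rw [hn] at h01 h10
  -- the three relations
  have r1 : Ph 0 1 * N 1 0 = Ph 1 0 * N 0 1 := by linear_combination h00
  have r2 : (Ph 0 0 - u) * N 0 1 = Ph 0 1 * N 0 0 := by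
    have : 2 * ((Ph 0 0 - u) * N 0 1 - Ph 0 1 * N 0 0) = 0 := by linear_combination h01
    exact sub_eq_zero.mp ((mul_eq_zero.mp this).resolve_left h2)
  have r3 : (Ph 0 0 - u) * N 1 0 = Ph 1 0 * N 0 0 := by
    have : 2 * ((Ph 0 0 - u) * N 1 0 - Ph 1 0 * N 0 0) = 0 := by linear_combination -h10
    exact sub_eq_zero.mp ((mul_eq_zero.mp this).resolve_left h2)
  have fin : N 0 0 = 0 → N 0 1 = 0 → N 1 0 = 0 → N = 0 := by
    intro a1 a2 a3
    refine Matrix.ext fun i j => ?_
    fin_cases i <;> fin_cases j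
    · exact a1
    · exact a2
    · exact a3
    · show N 1 1 = 0
      rw [hn, a1, neg_zero]
  rw [Matrix.sub_apply, Matrix.smul_apply, smul_eq_mul] at hne
  fin_cases i <;> fin_cases j
  · have hne' : Ph 0 0 - u ≠ 0 := by simpa using hne
    have h0 : N 0 0 = 0 := hij
    rw [h0, mul_zero] at r2 r3
    exact fin h0 ((mul_eq_zero.mp r2).resolve_left hne') ((mul_eq_zero.mp r3).resolve_left hne')
  · have hne' : Ph 0 1 ≠ 0 := by simpa using hne
    have h0 : N 0 1 = 0 := hij
    rw [h0, mul_zero] at r1 r2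
    exact fin ((mul_eq_zero.mp r2.symm).resolve_left hne') h0
      ((mul_eq_zero.mp r1).resolve_left hne')
  · have hne' : Ph 1 0 ≠ 0 := by simpa using hne
    have h0 : N 1 0 = 0 := hij
    rw [h0, mul_zero] at r1 r3
    exact fin ((mul_eq_zero.mp r3.symm).resolve_left hne')
      ((mul_eq_zero.mp r1.symm).resolve_left hne') h0
  · have hne' : Ph 0 0 - u ≠ 0 := by
      intro h4
      apply hne
      show Ph 1 1 - u * (1 : M2 k) 1 1 = 0
      rw [Matrix.one_apply_eq, hd]
      linear_combination -h4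
    have h0 : N 0 0 = 0 := by
      have : N 1 1 = 0 := hij
      rw [hn] at this
      exact neg_eq_zero.mp this
    rw [h0, mul_zero] at r2 r3
    exact fin h0 ((mul_eq_zero.mp r2).resolve_left hne') ((mul_eq_zero.mp r3).resolve_left hne')

/-- marks when `q ≡ 1` modulo `p` -/
theorem exists_bMarks_two {q : ℕ} {u : A} (hu : u ^ 2 = 1)
    (h2 : IsUnit (2 : A)) {Ph Sg : M2 A} (htame : Ph * Sg = Sg ^ q * Ph) (hdet : Ph.det = q)
    (hdetS : Sg.det = 1) (hSg : Cong (maximalIdeal A) Sg)
    (htr : Ph.trace - u * (q + 1) ∈ maximalIdeal A)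
    (hq : (q : A) - 1 ∈ maximalIdeal A) (hq1 : 1 < q)
    (hns : NonScalar (Ph.map (residue A))) :
    ∃ t y z, IsBMarks q u Ph Sg t y z := by
  have hu' : IsUnit u := IsUnit.of_pow_eq_one hu two_ne_zero
  have unit_of : ∀ {x y : A}, IsUnit y → x - y ∈ maximalIdeal A → IsUnit x := by
    intro x y hy hxy
    by_contra hcon
    have h3 := Ideal.sub_mem _ ((mem_maximalIdeal _).mpr hcon) hxy
    rw [sub_sub_cancel] at h3
    exact (mem_maximalIdeal _).mp h3 hy
  have htr2 : Ph.trace - 2 * u ∈ maximalIdeal A := by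
    have h3 : Ph.trace - 2 * u = (Ph.trace - u * (q + 1)) + u * (q - 1) := by ring
    rw [h3]
    exact Ideal.add_mem _ htr (Ideal.mul_mem_left _ _ hq)
  -- the chosen entry
  obtain ⟨i, j, hij⟩ : ∃ i j, IsUnit ((Ph - u • (1 : M2 A)) i j) := by
    have hunit : ∀ {x : A}, residue A x ≠ 0 → IsUnit x := by
      intro x hx
      by_contra hcon
      exact hx ((residue_eq_zero_iff x).mpr ((mem_maximalIdeal _).mpr hcon))
    rcases hns.cases with h | h | h
    · refine ⟨0, 1, hunit ?_⟩
      simpa using h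
    · refine ⟨1, 0, hunit ?_⟩
      simpa using h
    · refine ⟨0, 0, hunit ?_⟩
      intro h3
      apply h
      have h4 : residue A (Ph.trace - 2 * u) = 0 := (residue_eq_zero_iff _).mpr htr2
      have h5 : (Ph - u • (1 : M2 A)) 0 0 = Ph 0 0 - u := by simp
      rw [h5] at h3
      rw [Matrix.map_apply, Matrix.map_apply, ← map_sub]
      have h6 : Ph 0 0 - Ph 1 1 = 2 * (Ph 0 0 - u) - (Ph.trace - 2 * u) := by
        rw [Matrix.trace_fin_two]; ring
      rw [h6, map_sub, map_mul, h3, h4, mul_zero, sub_zero]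
  set t : A := Ph.trace - u * (q + 1) with ht
  have hunit1 : IsUnit (t + u * (q + 1)) := by
    refine unit_of (h2.mul hu') ?_
    convert htr2 using 1
    rw [ht]; ring
  have hunit2 : IsUnit (t + 2 * (u * (q + 1))) := by
    refine unit_of ((h2.mul h2).mul hu') ?_
    have h3 : t + 2 * (u * (q + 1)) - 2 * 2 * u = t + 2 * u * (q - 1) := by ring
    rw [h3]
    exact Ideal.add_mem _ htr (Ideal.mul_mem_left _ _ hq)
  refine ⟨t, Sg i j - (1 : M2 A) i j, 0, ⟨htr, hSg i j, Ideal.zero_mem _, ?_, ?_, ?_, ?_, ?_⟩⟩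
  · obtain ⟨x, hx⟩ := hunit1.exists_right_inv
    refine ⟨(t + 2 * (u * (q + 1))) * x, hunit2.mul
      (IsUnit.of_mul_eq_one (t + u * (q + 1)) (by rw [mul_comm]; exact hx)), ?_⟩
    have h3 : (t + 2 * (u * (q + 1))) * x * (t * (t + u * (q + 1))) =
        (t + 2 * (u * (q + 1))) * t * ((t + u * (q + 1)) * x) := by ring
    rw [h3, hx, mul_one, ht]
    linear_combination (((q : A) + 1) ^ 2) * hu
  · intro B _ g hg
    refine ⟨?_, map_zero g⟩
    rw [map_sub]
    have h3 := congrFun (congrFun hg i) j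
    rw [Matrix.map_apply] at h3
    rw [h3, Matrix.one_apply, Matrix.one_apply]
    split_ifs <;> simp
  · intro B _ _ _ g hg
    refine ⟨?_, by rw [map_zero, zero_mul], by rw [map_zero, mul_zero]⟩
    by_cases hN : Sg.map g - 1 = 0
    · have h3 := congrFun (congrFun hN i) j
      have h4 : g (Sg i j - (1 : M2 A) i j) = (Sg.map g - 1) i j := by
        rw [map_sub, Matrix.sub_apply, Matrix.map_apply, Matrix.one_apply, Matrix.one_apply]
        split_ifs <;> simp
      rw [h4, h3, Matrix.zero_apply, zero_mul]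
    · have htame' : Ph.map g * Sg.map g = Sg.map g ^ q * Ph.map g := by
        have h4 := congrArg (fun x : M2 A => g.mapMatrix x) htame
        simp only [map_mul, map_pow] at h4
        exact h4
      have hdet' : (Ph.map g).det = q := by
        have h4 : (Ph.map g).det = g Ph.det := by rw [RingHom.map_det]; rfl
        rw [h4, hdet, map_natCast]
      have hq0' : (q : B) ≠ 0 := Nat.cast_ne_zero.mpr (by omega)
      have hq1' : (q : B) ≠ 1 := by
        intro h
        have : q = 1 := by exact_mod_cast h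
        omega
      have h5 := trace_sq_of_nilpotent hq0' hq1' hdet' hN (tame_nilpotent htame' hg)
      have h6 : (Ph.map g).trace = g t + g u * (q + 1) := by
        rw [ht, map_sub, map_mul, map_add, map_natCast, map_one, sub_add_cancel,
          Matrix.trace_fin_two, Matrix.trace_fin_two, Matrix.map_apply, Matrix.map_apply, map_add]
      have h7 : g u ^ 2 = 1 := by rw [← map_pow, hu, map_one]
      have h8 : g t * g (t + 2 * (u * (q + 1))) = 0 := by
        rw [h6] at h5
        simp only [map_add, map_mul, map_ofNat, map_natCast, map_one]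
        linear_combination h5 - ((q : B) + 1) ^ 2 * h7
      have h9 : g t = 0 := ((hunit2.map g).mul_left_eq_zero).mp h8
      rw [h9, mul_zero]
  · intro B _ g hg
    rw [ht, map_sub, map_mul, map_add, map_natCast, map_one, ← hg, Matrix.trace_fin_two,
      Matrix.trace_fin_two, Matrix.map_apply, Matrix.map_apply, map_add, sub_self]
  · intro k _ f hf hfu htf hy _
    have hN := cong_map_dual f hf hSg
    have htame' : Ph.map f * Sg.map f = Sg.map f ^ q * Ph.map f := by
      have h4 := congrArg (fun x : M2 A => f.mapMatrix x) htame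
      simp only [map_mul, map_pow] at h4
      exact h4
    have h4 := tame_nilpotent htame' hN
    set N := Sg.map f - 1 with hNdef
    have hNij : ∀ a c, N a c = f (Sg a c - (1 : M2 A) a c) := by
      intro a c
      rw [hNdef, map_sub, Matrix.sub_apply, Matrix.map_apply, Matrix.one_apply, Matrix.one_apply]
      split_ifs <;> simp
    have hfst : ∀ a c, TrivSqZeroExt.fst (N a c) = 0 := fun a c => by
      rw [hNij]
      exact fst_eq_zero_of_mem f hf (hSg a c)
    have hq' : TrivSqZeroExt.fst ((q : DualNumber k)) = 1 := by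
      have h5 := fst_eq_zero_of_mem f hf hq
      rw [map_sub, map_natCast, map_one, TrivSqZeroExt.fst_sub, TrivSqZeroExt.fst_one,
        sub_eq_zero] at h5
      exact h5
    have hfst2 : TrivSqZeroExt.fst (2 : DualNumber k) = 2 := by
      rw [← one_add_one_eq_two, TrivSqZeroExt.fst_add, TrivSqZeroExt.fst_one]
      norm_num
    have h2k : (2 : k) ≠ 0 := by
      have h5 := h2.map f
      rw [map_ofNat] at h5
      have h6 := (TrivSqZeroExt.isUnit_iff_isUnit_fst.mp h5).ne_zero
      rwa [hfst2] at h6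
    have hsnd : sndM N = 0 := by
      refine eq_zero_of_commute h2k (Ph := redM k (Ph.map f)) (u := TrivSqZeroExt.fst (f u))
        (i := i) (j := j) ?_ ?_ ?_ ?_ ?_
      · -- trace zero from the determinant
        have hd : (Sg.map f).det = 1 := by
          have h5 : (Sg.map f).det = f Sg.det := by rw [RingHom.map_det]; rfl
          rw [h5, hdetS, map_one]
        have h5 : Sg.map f = 1 + N := by rw [hNdef]; abel
        rw [h5, Matrix.det_fin_two] at hd
        have h6 := congrArg TrivSqZeroExt.snd hd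
        simp [hfst] at h6
        rw [Matrix.trace_fin_two, sndM_apply, sndM_apply, add_comm]
        exact h6
      · have h5 := congrArg sndM h4
        have h6 : sndM ((q : DualNumber k) • (N * Ph.map f)) = sndM (N * Ph.map f) := by
          refine Matrix.ext fun a c => ?_
          rw [sndM_apply, sndM_apply, Matrix.smul_apply, smul_eq_mul, TrivSqZeroExt.snd_mul, hq',
            TrivSqZeroExt.snd_natCast]
          simp
        rw [h6, sndM_mul, sndM_mul] at h5
        have h7 : redM k N = 0 := by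
          refine Matrix.ext fun a c => ?_
          rw [redM_apply, hfst]
          rfl
        rw [h7, mul_zero, add_zero, zero_mul, zero_add] at h5
        exact h5
      · have h5 := fst_eq_zero_of_mem f hf htr2
        rw [map_sub, map_mul, map_ofNat, TrivSqZeroExt.fst_sub, TrivSqZeroExt.fst_mul,
          sub_eq_zero, Matrix.trace_fin_two, map_add, TrivSqZeroExt.fst_add] at h5
        rw [Matrix.trace_fin_two, redM_apply, redM_apply, Matrix.map_apply, Matrix.map_apply, h5,
          hfst2]
      · have h5 := (TrivSqZeroExt.isUnit_iff_isUnit_fst.mp (hij.map f)).ne_zero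
        rw [Matrix.sub_apply, Matrix.smul_apply, smul_eq_mul, map_sub, map_mul,
          TrivSqZeroExt.fst_sub, TrivSqZeroExt.fst_mul] at h5
        rw [Matrix.sub_apply, Matrix.smul_apply, smul_eq_mul, redM_apply, Matrix.map_apply]
        convert h5 using 3
        rw [Matrix.one_apply, Matrix.one_apply]
        split_ifs <;> simp
      · rw [sndM_apply, hNij, hy]
        rfl
    have hSg1 : Sg.map f = 1 := by
      rw [← sub_eq_zero]
      refine Matrix.ext fun a c => ?_
      refine TrivSqZeroExt.ext (hfst a c) ?_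
      have := congrFun (congrFun hsnd a) c
      rw [sndM_apply] at this
      exact this
    refine ⟨hSg1, ?_⟩
    have h6 : (Ph.map f).trace = f t + f u * (q + 1) := by
      rw [ht, map_sub, map_mul, map_add, map_natCast, map_one, sub_add_cancel,
        Matrix.trace_fin_two, Matrix.trace_fin_two, Matrix.map_apply, Matrix.map_apply, map_add]
    rw [h6, htf, zero_add, TrivSqZeroExt.snd_mul, hfu]
    simp

/-- **Existence of marks.** -/
theorem exists_bMarks [IsAdicComplete (maximalIdeal A) A] {q : ℕ} {u : A} (hu : u ^ 2 = 1)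
    (h2 : IsUnit (2 : A)) {Ph Sg : M2 A} (htame : Ph * Sg = Sg ^ q * Ph) (hdet : Ph.det = q)
    (hdetS : Sg.det = 1) (hSg : Cong (maximalIdeal A) Sg)
    (htr : Ph.trace - u * (q + 1) ∈ maximalIdeal A) (hq1 : 1 < q) (hqu : IsUnit (q : A))
    (hns : NonScalar (Ph.map (residue A))) :
    ∃ t y z, IsBMarks q u Ph Sg t y z := by
  by_cases hq : IsUnit ((q : A) - 1)
  · exact exists_bMarks_one hu h2 htame hdet hSg htr hq hqu
  · exact exists_bMarks_two hu h2 htame hdet hdetS hSg htr ((mem_maximalIdeal _).mpr hq) hq1 hns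

end CaseTwo

end Fermat.Agent.H53
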