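import Fermat.Agent.H53TWL3
import Fermat.Agent.H53MarkB
import Fermat.Agent.H53Gen4

set_option autoImplicit false
set_option maxSynthPendingDepth 3
set_option linter.style.haveILetI false
set_option linter.unusedSectionVars false

/-!
# The Galois side of the levels with raising primes: definitions
-/

noncomputable section

open IsLocalRing Module ExtCitation Polynomial GaloisRep
open Fermat.Agent.H55 Fermat.Agent.H56

namespace Fermat.Agent.H53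

/-- the type "cyclotomic determinant, condition `𝒟p` at `p`, unramified outside `S`, unipotent
inertia at `U`" -/
def GType (𝒪 : Type) [CommRing 𝒪] (p : ℕ)
    (𝒟p : ∀ ⦃A : Type⦄ [CommRing A] [IsLocalRing A], GaloisRepAdic A → Prop) (S U : Finset ℕ) :
    ∀ ⦃A : Type⦄ [CommRing A] [IsLocalRing A] [Algebra 𝒪 A], GaloisRepAdic A → Prop :=
  fun _A _ _ _ ρ => (ρ.DetIsCyclotomic p ∧ 𝒟p ρ ∧
    ∀ q : ℕ, q.Prime → q ∉ S → ρ.IsUnramifiedAt q) ∧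
    ∀ q ∈ U, q.Prime → q ≠ p → ρ.IsUnipotentOnInertiaAt q

/-- the set of primes allowed to ramify -/
def levelSetB (p : ℕ) (A : Finset ℕ) {τ ι : Type} [Fintype τ] [Fintype ι] (qT : τ → ℕ)
    (qB : ι → ℕ) {r : ℕ} (qv : Fin r → ℕ) : Finset ℕ :=
  {p} ∪ A ∪ Finset.univ.image qT ∪ Finset.univ.image qB ∪ Finset.univ.image qv

lemma mem_levelSetB {p : ℕ} {A : Finset ℕ} {τ ι : Type} [Fintype τ] [Fintype ι] {qT : τ → ℕ}
    {qB : ι → ℕ} {r : ℕ} {qv : Fin r → ℕ} {q : ℕ} :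
    q ∈ levelSetB p A qT qB qv ↔
      q = p ∨ q ∈ A ∨ (∃ t, qT t = q) ∨ (∃ i, qB i = q) ∨ ∃ i, qv i = q := by
  simp only [levelSetB, Finset.mem_union, Finset.mem_singleton, Finset.mem_image,
    Finset.mem_univ, true_and, or_assoc]

/-- the set of primes with unipotent inertia -/
def uniSet (A : Finset ℕ) {ι : Type} [Fintype ι] (qB : ι → ℕ) : Finset ℕ :=
  A ∪ Finset.univ.image qB

lemma mem_uniSet {A : Finset ℕ} {ι : Type} [Fintype ι] {qB : ι → ℕ} {q : ℕ} :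
    q ∈ uniSet A qB ↔ q ∈ A ∨ ∃ i, qB i = q := by
  simp only [uniSet, Finset.mem_union, Finset.mem_image, Finset.mem_univ, true_and]

variable {𝒪 : Type} [CommRing 𝒪] [IsDomain 𝒪] [IsDiscreteValuationRing 𝒪]
    [IsAdicComplete (maximalIdeal 𝒪) 𝒪] [Finite (ResidueField 𝒪)]

/-- **The local data at `p`** of a deformation problem. `ε` is empty or a singleton: marks at `p`. -/
structure PData (p : ℕ) [Fact p.Prime] (ρbar : ResidualGaloisRep (ResidueField 𝒪))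
    (b : Module.Basis (Fin 2) (ResidueField 𝒪) ρbar.V) : Type 1 where
  /-- the condition at `p` -/
  𝒟p : ∀ ⦃A : Type⦄ [CommRing A] [IsLocalRing A], GaloisRepAdic A → Prop
  isDef : ∀ S U : Finset ℕ, IsDeformationCondition 𝒪 (GType 𝒪 p 𝒟p S U)
  residual : 𝒟p (GaloisRepAdic.ofResidualGaloisRep ρbar)
  /-- the index type of the marks at `p` -/
  ε : Type
  [fin : Fintype ε]
  card_le : Nat.card ε ≤ 3
  /-- the characterisation of the marks at `p` -/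
  Mark : ∀ ⦃A : Type⦄ [CommRing A] [IsLocalRing A] (ρ : GaloisRepAdic A)
    (_ : Module.Basis (Fin 2) A ρ.V), (ε → Fin 3 → A) → Prop
  /-- the condition on the lifts to the dual numbers -/
  Condp : (GQ →* M2 (DualNumber (ResidueField 𝒪))) → Prop
  bound : ∀ [Algebra (ZMod p) (ResidueField 𝒪)],
    LocalBound p (toMat ρbar.ρ b) (pPrime p) (4 - Nat.card ε) Condp
  mark : ∀ (A : Type) [CommRing A] [IsLocalRing A] [IsNoetherianRing A]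
    [IsAdicComplete (maximalIdeal A) A] [Algebra 𝒪 A] [IsLocalHom (algebraMap 𝒪 A)]
    (ρ : GaloisRepAdic A) (b₁ : Module.Basis (Fin 2) A ρ.V),
    ρ.DetIsCyclotomic p → 𝒟p ρ →
    mapMat (residue A) (toMat ρ.ρ b₁) =
      mapMat (ResidueField.map (algebraMap 𝒪 A)) (toMat ρbar.ρ b) →
    ∃ m : ε → Fin 3 → A, (∀ e j, m e j ∈ maximalIdeal A) ∧ Mark ρ b₁ m ∧
      ∀ (f : A →+* DualNumber (ResidueField 𝒪)), IsLocalHom f →
        (∀ c, f (algebraMap 𝒪 A c) = TrivSqZeroExt.inl (residue 𝒪 c)) →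
        (∀ e j, f (m e j) = 0) →
        ∀ h : MCont (DualNumber (ResidueField 𝒪)) (mapMat f (toMat ρ.ρ b₁)),
          𝒟p (ofMatrix (mapMat f (toMat ρ.ρ b₁)) h) → Condp (mapMat f (toMat ρ.ρ b₁))

attribute [instance] PData.fin

/-- the flat condition -/
def PData.flat {p : ℕ} [Fact p.Prime] (ρbar : ResidualGaloisRep (ResidueField 𝒪))
    (b : Module.Basis (Fin 2) (ResidueField 𝒪) ρbar.V)
    (F : ∀ [Algebra (ZMod p) (ResidueField 𝒪)], StatementF (k := ResidueField 𝒪) p)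
    (hdet : (GaloisRepAdic.ofResidualGaloisRep ρbar).DetIsCyclotomic p)
    (hsplit : ∀ σ : AlgebraicClosure ℚ ≃ₐ[ℚ] AlgebraicClosure ℚ,
      ∃ α β : ResidueField 𝒪, LinearMap.charpoly (ρbar.ρ σ) = (X - C α) * (X - C β))
    (hflat : (GaloisRepAdic.ofResidualGaloisRep ρbar).IsFlatAt p) : PData p ρbar b where
  𝒟p := fun _A _ _ ρ => ρ.IsFlatAt p
  isDef S U := isDeformationCondition_flat 𝒪 p S U
  residual := hflat
  ε := Empty
  card_le := by simp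
  Mark := fun _ _ _ _ _ _ => True
  Condp := fun R => ∃ h : MCont (DualNumber (ResidueField 𝒪)) R, (ofMatrix R h).IsFlatAt p
  bound := by
    intro _
    rw [show 4 - Nat.card Empty = 4 by simp]
    exact F _ (finLev_toMat ρbar b) (detCyc_toMat ρbar b hdet) (fun σ => by
      obtain ⟨α, β, h⟩ := hsplit σ
      exact ⟨α, β, by rw [← h, toMat_apply, LinearMap.charpoly_toMatrix]⟩)
  mark := fun A _ _ _ _ _ _ ρ b₁ _ _ _ =>
    ⟨fun e => e.elim, fun e => e.elim, trivial, fun f _ _ _ h hh => ⟨h, hh⟩⟩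

/-- the strictly ordinary condition -/
def PData.strict {p : ℕ} [Fact p.Prime] (hp2 : p ≠ 2)
    (ρbar : ResidualGaloisRep (ResidueField 𝒪))
    (b : Module.Basis (Fin 2) (ResidueField 𝒪) ρbar.V)
    (O : ∀ [Algebra (ZMod p) (ResidueField 𝒪)], StatementO (k := ResidueField 𝒪) p)
    (hdet : (GaloisRepAdic.ofResidualGaloisRep ρbar).DetIsCyclotomic p)
    (hord : (GaloisRepAdic.ofResidualGaloisRep ρbar).IsStrictOrdinaryAt p) : PData p ρbar b where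
  𝒟p := fun _A _ _ ρ => ρ.IsStrictOrdinaryAt p
  isDef S U := isDeformationCondition_strictOrdinary 𝒪 p hp2 S U
  residual := hord
  ε := Empty
  card_le := by simp
  Mark := fun _ _ _ _ _ _ => True
  Condp := fun R => ∃ h : MCont (DualNumber (ResidueField 𝒪)) R, (ofMatrix R h).IsStrictOrdinaryAt p
  bound := by
    intro _
    rw [show 4 - Nat.card Empty = 4 by simp]
    exact O _ (finLev_toMat ρbar b) (detCyc_toMat ρbar b hdet)
  mark := fun A _ _ _ _ _ _ ρ b₁ _ _ _ =>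
    ⟨fun e => e.elim, fun e => e.elim, trivial, fun f _ _ _ h hh => ⟨h, hh⟩⟩

variable (𝒪) in
/-- the type of the level -/
abbrev typeB (p : ℕ) (𝒟p : ∀ ⦃A : Type⦄ [CommRing A] [IsLocalRing A], GaloisRepAdic A → Prop)
    (A : Finset ℕ) {τ ι : Type} [Fintype τ] [Fintype ι] (qT : τ → ℕ)
    (qB : ι → ℕ) {r : ℕ} (qv : Fin r → ℕ) :
    ∀ ⦃A : Type⦄ [CommRing A] [IsLocalRing A] [Algebra 𝒪 A], GaloisRepAdic A → Prop :=
  GType 𝒪 p 𝒟p (levelSetB p A qT qB qv) (uniSet A qB)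

/-- the number of Taylor-Wiles primes -/
abbrev numB (τ ι ε : Type) (k : ℕ) : ℕ := 3 * Nat.card τ + Nat.card (ι ⊕ ε) + k

/-- **The Galois side of a level with raising primes.** -/
structure GalLevelB (p : ℕ) [Fact p.Prime] (ρbar : ResidualGaloisRep (ResidueField 𝒪))
    (b : Module.Basis (Fin 2) (ResidueField 𝒪) ρbar.V) (pd : PData p ρbar b) (A : Finset ℕ)
    {τ ι : Type} [Fintype τ] [Fintype ι]
    (qT : τ → ℕ) (pl : ∀ t, PlaceData p (qT t)) (u : τ → 𝒪)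
    (qB : ι → ℕ) (plB : ∀ i, PlaceData p (qB i)) (uB : ι → 𝒪) (k n : ℕ) (S : Finset ℕ) :
    Type 1 where
  /-- the Taylor-Wiles primes -/
  qv : Fin (numB τ ι pd.ε k) → ℕ
  prime : ∀ i, (qv i).Prime
  inj : Function.Injective qv
  not_mem_S : ∀ i, qv i ∉ S
  not_mem_A : ∀ i, qv i ∉ A
  ne_qT : ∀ i t, qv i ≠ qT t
  ne_qB : ∀ i t, qv i ≠ qB t
  ne_p : ∀ i, qv i ≠ p
  dvd : ∀ i, p ^ (n + 1) ∣ qv i - 1
  /-- the exponent of `p` in `qv i - 1` -/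
  e : Fin (numB τ ι pd.ε k) → ℕ
  le_e : ∀ i, n ≤ e i
  e_spec : ∀ i, ∃ m, qv i - 1 = p ^ e i * m ∧ ¬ p ∣ m
  unram : ∀ i, ρbar.IsUnramifiedAt (qv i)
  frob : ∀ i, ∀ P : ValuationSubring (AlgebraicClosure ℚ), P.LiesOverPrime (qv i) →
    ∀ φ : AlgebraicClosure ℚ ≃ₐ[ℚ] AlgebraicClosure ℚ, P.IsFrobeniusAt φ (qv i) →
      LinearMap.det (ρbar.ρ φ) = 1 ∧
      ∃ α β : ResidueField 𝒪, α ≠ β ∧ LinearMap.charpoly (ρbar.ρ φ) = (X - C α) * (X - C β)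
  /-- the universal deformation ring -/
  D : DeformationRingData 𝒪 ρbar (typeB 𝒪 p pd.𝒟p A qT qB qv)
  /-- a basis of the universal representation -/
  b₁ : Module.Basis (Fin 2) D.R D.ρ.V
  hb₁ : mapMat (residue D.R) (toMat D.ρ.ρ b₁) =
    mapMat (ResidueField.map (algebraMap 𝒪 D.R)) (toMat ρbar.ρ b)
  /-- places above the Taylor-Wiles primes, Frobenius and tame generator -/
  plQ : ∀ i, PlaceData p (qv i)
  plQ_eq : ∀ i, (plQ i).P = primeLocalPlace ⟨qv i, prime i⟩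
  /-- the splitting at the Taylor-Wiles primes -/
  s : ∀ i, TWSplit (plQ i).P (toMat D.ρ.ρ b₁)
  s_ne : ∀ i, residue D.R ((s i).χ₁ (plQ i).φD) ≠ residue D.R ((s i).χ₂ (plQ i).φD)
  /-- the presentation -/
  β : MvPowerSeries (((τ × Fin 6) ⊕ ((ι ⊕ pd.ε) × Fin 3)) ⊕ Fin k) 𝒪 →ₐ[𝒪] D.R
  β_surj : Function.Surjective β
  hX0 : ∀ t, 2 * β (MvPowerSeries.X (Sum.inl (Sum.inl (t, 0)))) =
    toMat D.ρ.ρ b₁ (pl t).σ 0 0 - toMat D.ρ.ρ b₁ (pl t).σ 1 1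
  hX1 : ∀ t, β (MvPowerSeries.X (Sum.inl (Sum.inl (t, 1)))) = toMat D.ρ.ρ b₁ (pl t).σ 0 1
  hX2 : ∀ t, β (MvPowerSeries.X (Sum.inl (Sum.inl (t, 2)))) = toMat D.ρ.ρ b₁ (pl t).σ 1 0
  hX3 : ∀ t, 2 * β (MvPowerSeries.X (Sum.inl (Sum.inl (t, 3)))) =
    toMat D.ρ.ρ b₁ (pl t).φ 0 0 - toMat D.ρ.ρ b₁ (pl t).φ 1 1
  hX4 : ∀ t, β (MvPowerSeries.X (Sum.inl (Sum.inl (t, 4)))) = toMat D.ρ.ρ b₁ (pl t).φ 0 1
  hX5 : ∀ t, β (MvPowerSeries.X (Sum.inl (Sum.inl (t, 5)))) = toMat D.ρ.ρ b₁ (pl t).φ 1 0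
  det_Sg : ∀ t, toMat D.ρ.ρ b₁ (pl t).σ 0 0 * toMat D.ρ.ρ b₁ (pl t).σ 1 1 -
    toMat D.ρ.ρ b₁ (pl t).σ 0 1 * toMat D.ρ.ρ b₁ (pl t).σ 1 0 = 1
  det_Ph : ∀ t, toMat D.ρ.ρ b₁ (pl t).φ 0 0 * toMat D.ρ.ρ b₁ (pl t).φ 1 1 -
    toMat D.ρ.ρ b₁ (pl t).φ 0 1 * toMat D.ρ.ρ b₁ (pl t).φ 1 0 = qT t
  tame : ∀ t, toMat D.ρ.ρ b₁ (pl t).φ * toMat D.ρ.ρ b₁ (pl t).σ =
    toMat D.ρ.ρ b₁ (pl t).σ ^ qT t * toMat D.ρ.ρ b₁ (pl t).φ
  tr_Sg : ∀ t, toMat D.ρ.ρ b₁ (pl t).σ 0 0 + toMat D.ρ.ρ b₁ (pl t).σ 1 1 - 2 ∈ maximalIdeal D.R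
  tr_Ph : ∀ t, toMat D.ρ.ρ b₁ (pl t).φ 0 0 + toMat D.ρ.ρ b₁ (pl t).φ 1 1 -
    2 * algebraMap 𝒪 D.R (u t) ∈ maximalIdeal D.R
  /-- the marks at the raising primes and at `p`: `(t, y, z)` -/
  mB : ι ⊕ pd.ε → Fin 3 → D.R
  β_mB : ∀ x j, β (MvPowerSeries.X (Sum.inl (Sum.inr (x, j)))) = mB x j
  isBMarks : ∀ i : ι, IsBMarks (qB i) (algebraMap 𝒪 D.R (uB i)) (toMat D.ρ.ρ b₁ (plB i).φ)
    (toMat D.ρ.ρ b₁ (plB i).σ) (mB (Sum.inl i) 0) (mB (Sum.inl i) 1) (mB (Sum.inl i) 2)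
  isPMark : pd.Mark D.ρ b₁ fun e j => mB (Sum.inr e) j
  mB_mem : ∀ x j, mB x j ∈ maximalIdeal D.R
  /-- the diamond operators -/
  φ : MvPowerSeries (Fin (numB τ ι pd.ε k)) 𝒪 →ₐ[𝒪] D.R
  φ_X : ∀ i, φ (MvPowerSeries.X i) = ((s i).χ₁ (plQ i).σD : D.R) - 1

end Fermat.Agent.H53
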