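import Fermat.Agent.H70Lev3

/-!
# Bases and points of the localised modules over group rings
-/

set_option autoImplicit false
set_option linter.style.haveILetI false

open Matrix CongruenceSubgroup IsLocalRing CuspForm
open scoped MatrixGroups TensorProduct

namespace Fermat.Agent.H70.Mod

open Fermat.Agent.H70.Coh Fermat.Agent.H59 Fermat.Agent.H37.Rank Fermat.Agent.H30

section ResTriv

lemma eq_one_of_pow_char {k : Type*} [Field k] {p : ℕ} (hp : p.Prime) (hpk : (p : k) = 0) {x : k}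
    {s : ℕ} (h : x ^ p ^ s = 1) : x = 1 := by
  haveI : Fact p.Prime := ⟨hp⟩
  haveI : CharP k p := (CharP.charP_iff_prime_eq_zero hp).mpr hpk
  have h1 : (x - 1) ^ p ^ s = 0 := by
    rw [sub_pow_char_pow, h, one_pow, sub_self]
  have hps : p ^ s ≠ 0 := pow_ne_zero _ hp.ne_zero
  exact sub_eq_zero.mp ((pow_eq_zero_iff hps).mp h1)

theorem resTriv_of_pow {N : ℕ} {R : Type} [CommRing R] [IsLocalRing R] {p : ℕ} (hp : p.Prime)
    (hpR : (p : R) ∈ maximalIdeal R) {η : (ZMod N)ˣ →* Rˣ} {s : ℕ} (h : η ^ p ^ s = 1) :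
    ResTriv η := by
  intro u
  rw [← residue_eq_zero_iff, map_sub, map_one, sub_eq_zero]
  refine eq_one_of_pow_char (s := s) hp ?_ ?_
  · rw [← map_natCast (residue R), residue_eq_zero_iff]
    exact hpR
  · have h1 := congrArg (fun f : (ZMod N)ˣ →* Rˣ => ((f u : Rˣ) : R)) h
    have h2 : ((η u : Rˣ) : R) ^ p ^ s = 1 := h1
    rw [← map_pow, h2, map_one]

lemma natCast_mem_of_isLocalHom {O O' : Type} [CommRing O] [CommRing O'] [IsLocalRing O]
    [IsLocalRing O'] [Algebra O O'] [IsLocalHom (algebraMap O O')] {p : ℕ}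
    (hp : (p : O) ∈ maximalIdeal O) : (p : O') ∈ maximalIdeal O' := by
  rw [mem_maximalIdeal, mem_nonunits_iff] at hp ⊢
  intro h
  apply hp
  rw [← map_natCast (algebraMap O O')] at h
  exact (isUnit_map_iff (algebraMap O O') _).mp h

end ResTriv

section Basis

variable {N M : ℕ} [NeZero M] (hM : N ∣ M) {S : Set ℕ} (hS : Away M S)
  {O : Type} [CommRing O] [IsLocalRing O]
  {Δ : Type} [CommGroup Δ] [Finite Δ] {ψ η : (ZMod N)ˣ →* (MonoidAlgebra O Δ)ˣ}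
  {κ : Type} [Field κ] {θ : MvPolynomial (Idx S) O →+* κ} {e : MvPolynomial (Idx S) O}
  {p : ℕ} (hp : p.Prime) (hpO : (p : O) ∈ maximalIdeal O) (hΔ : IsPGroup p Δ)
  (hgΛ : Good M (MonoidAlgebra O Δ)) (hψ1 : ψ (-1) = 1)
  (heΛ : IsLocIdem (tw hM hS ψ η) (tw_comm hM hS ψ η) θ e)
  (i₀ : Idx S) (hi₀ : θ (MvPolynomial.X i₀) ≠ 1 + (i₀.1 : κ))

include hp hpO hΔ in
omit [Finite Δ] [NeZero M] in
lemma natCast_mem_grp [Finite Δ] [IsLocalRing (MonoidAlgebra O Δ)] :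
    (p : MonoidAlgebra O Δ) ∈ maximalIdeal (MonoidAlgebra O Δ) := by
  rw [Grp.maximalIdeal_eq hp hpO hΔ, RingHom.mem_ker, map_natCast, ← map_natCast (residue O),
    residue_eq_zero_iff]
  exact hpO

include hp hpO hΔ hgΛ hψ1 heΛ hi₀ in
/-- freeness over the group ring -/
theorem mloc_free_grp {s : ℕ} (hψs : ψ ^ p ^ s = 1) (hηs : η ^ p ^ s = 1) :
    Module.Free (MonoidAlgebra O Δ) (MLoc hM hS ψ η e) ∧
      Module.Finite (MonoidAlgebra O Δ) (MLoc hM hS ψ η e) := by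
  haveI := Grp.isLocalRing hp hpO hΔ
  have hpΛ := natCast_mem_grp hp hpO hΔ
  exact loc_free hM hS ψ η hgΛ hψ1 heΛ (resTriv_of_pow hp hpΛ hψs) (resTriv_of_pow hp hpΛ hηs)
    i₀ hi₀

include hp hpO hΔ hgΛ hψ1 heΛ hi₀ in
/-- freeness over `O` -/
theorem mloc_free_O {s : ℕ} (hψs : ψ ^ p ^ s = 1) (hηs : η ^ p ^ s = 1) :
    Module.Free O (MLoc hM hS ψ η e) ∧ Module.Finite O (MLoc hM hS ψ η e) := by
  obtain ⟨h1, h2⟩ := mloc_free_grp hM hS hp hpO hΔ hgΛ hψ1 heΛ i₀ hi₀ hψs hηs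
  exact ⟨Module.Free.trans (R := O) (S := MonoidAlgebra O Δ),
    Module.Finite.trans (MonoidAlgebra O Δ) _⟩

include hp hpO hΔ hgΛ hψ1 heΛ hi₀ in
/-- **The basis.** -/
theorem exists_mloc_basis {s : ℕ} (hψs : ψ ^ p ^ s = 1) (hηs : η ^ p ^ s = 1) (hgO : Good M O)
    (hSM : Adm S M) (he : IsLocIdem (TT O hSM) (TT_comm hSM) θ e) {d : ℕ}
    (hd : Module.finrank O (Loc (TT O hSM) (TT_comm hSM) e) = d) :
    ∃ b : Module.Basis (Fin d × Δ) O (MLoc hM hS ψ η e),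
      ∀ i g, b (i, g) = diam hM hS ψ η e g (b (i, 1)) := by
  haveI := Grp.isLocalRing hp hpO hΔ
  have hpΛ := natCast_mem_grp hp hpO hΔ
  obtain ⟨h1, h2⟩ := mloc_free_grp hM hS hp hpO hΔ hgΛ hψ1 heΛ i₀ hi₀ hψs hηs
  have heO : IsLocIdem (tw (R := O) hM hS 1 1) (tw_comm hM hS 1 1) θ e :=
    (isLocIdem_HH hM hS).mpr he
  have h3 := finrank_mloc_eq hM hS i₀ hi₀ ψ η hgO hgΛ hψ1 heO heΛ
    (resTriv_of_pow hp hpΛ hψs) (resTriv_of_pow hp hpΛ hηs)
  have h4 : Module.finrank (MonoidAlgebra O Δ) (MLoc hM hS ψ η e) = d := by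
    rw [h3, finrank_mlocHH hM hS e]
    exact hd
  exact Grp.exists_basis (Module.finBasisOfFinrankEq (MonoidAlgebra O Δ) (MLoc hM hS ψ η e) h4)

end Basis

end Fermat.Agent.H70.Mod
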