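import Fermat.Agent.H37NoNew
import Fermat.Agent.H59LL1
import Fermat.Agent.H59LL3
import Fermat.Agent.H70Lev4
import Fermat.Agent.H53TWB1

/-!
# Uniform bounds and positivity of the ranks at Taylor–Wiles levels
-/

set_option autoImplicit false
set_option linter.style.haveILetI false
set_option linter.unusedSectionVars false

open IsLocalRing Polynomial CuspForm

noncomputable section

namespace Fermat.Agent.H35.Rk

open Fermat.Agent.H59 Fermat.Agent.H37.Rank Fermat.Agent.H37.NN Fermat.Agent.H70.Coh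
  Fermat.Agent.H70.Mod Fermat.Agent.H30

section Bound

variable (O : Type) [CommRing O]

/-- a bound of the ranks which does not depend on the Taylor–Wiles primes -/
def bnd (r M : ℕ) : ℕ := 2 ^ r * ∑ d ∈ M.divisors, Module.finrank O (HH O d)

lemma finrank_le_sum {M M' : ℕ} [NeZero M] (h : M' ∣ M) :
    Module.finrank O (HH O M') ≤ ∑ d ∈ M.divisors, Module.finrank O (HH O d) :=
  Finset.single_le_sum (f := fun d => Module.finrank O (HH O d)) (fun _ _ => Nat.zero_le _)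
    (Nat.mem_divisors.mpr ⟨h, NeZero.ne M⟩)

end Bound

section Le

variable {O : Type} [CommRing O] [IsDomain O] [IsDiscreteValuationRing O]
  [IsAdicComplete (maximalIdeal O) O] [Finite (ResidueField O)] [CharZero O]
  {p : ℕ} [Fact p.Prime] {S : Finset ℕ}
  (hp2 : p ≠ 2) (hpO : (p : O) ∈ maximalIdeal O) (hpS : p ∈ S)
  {θ : MvPolynomial (Pr (↑S : Set ℕ)) O →+* ResidueField O}
  (hθ : ∀ a : O, θ (MvPolynomial.C a) = residue O a)
  (ρbar : ResidualGaloisRep (ResidueField O)) (hirr : ρbar.IsIrreducible)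
  (hfr : IsAtt S θ ρbar) {e : MvPolynomial (Pr (↑S : Set ℕ)) O}
  {M : ℕ} [NeZero M] {r : ℕ} (Q : Fin r → ℕ) (hQ : ∀ i, (Q i).Prime) (hQM : ∀ i, ¬ Q i ∣ M)
  (hQinj : Function.Injective Q) (hQ1 : ∀ i, p ∣ Q i - 1) (hdist : ∀ i, FrobDist ρbar (Q i))

include hp2 hpO hpS hθ hirr hfr hQ hQM hQinj hQ1 hdist

/-- **Uniform bound.** `M'` any divisor of `M` (one of the levels `N₀ b₁ ⋯ b_i`), `X = M' ∏ Q`. -/
theorem finrank_le_bnd {M' X : ℕ} (hM' : M' ∣ M) (hX : X = M' * ∏ i, Q i)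
    (hS : Adm (↑S : Set ℕ) X) (he : IsLocIdem (TT O hS) (TT_comm hS) θ e) :
    Module.finrank O (Loc (TT O hS) (TT_comm hS) e) ≤ bnd O r M := by
  subst hX
  haveI : NeZero M' := ⟨fun h => NeZero.ne M (by rw [h, zero_dvd_iff] at hM'; exact hM')⟩
  exact (finrank_le_pow_TW' hp2 hpO hpS hθ ρbar hirr hfr Q hQ (fun i h => hQM i (h.trans hM'))
    hQinj hQ1 hdist hS he).trans (Nat.mul_le_mul_left _ (finrank_le_sum O hM'))

/-- **Uniform bound**, the idempotent being given at a higher level `L`. -/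
theorem finrank_le_bnd_of_dvd {M' X L : ℕ} [NeZero L] (hM' : M' ∣ M) (hX : X = M' * ∏ i, Q i)
    (hXL : X ∣ L) (hS : Adm (↑S : Set ℕ) X) (hL : Adm (↑S : Set ℕ) L)
    (he : IsLocIdem (TT O hL) (TT_comm hL) θ e) :
    Module.finrank O (Loc (TT O hS) (TT_comm hS) e) ≤ bnd O r M :=
  finrank_le_bnd hp2 hpO hpS hθ ρbar hirr hfr Q hQ hQM hQinj hQ1 hdist hM' hX hS
    (isLocIdem_of_dvd hXL hL he)

/-- **Vanishing** at Taylor–Wiles levels, the level being given up to equality. -/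
theorem finrank_eq_zero {M' X : ℕ} (hM' : M' ∣ M) (hX : X = M' * ∏ i, Q i)
    (hS : Adm (↑S : Set ℕ) X) (he : IsLocIdem (TT O hS) (TT_comm hS) θ e)
    (hS' : Adm (↑S : Set ℕ) M')
    (h0 : Module.finrank O (Loc (TT O hS') (TT_comm hS') e) = 0) :
    Module.finrank O (Loc (TT O hS) (TT_comm hS) e) = 0 := by
  subst hX
  haveI : NeZero M' := ⟨fun h => NeZero.ne M (by rw [h, zero_dvd_iff] at hM'; exact hM')⟩
  exact finrank_eq_zero_TW hp2 hpO hpS hθ ρbar hirr hfr Q hQ (fun i h => hQM i (h.trans hM'))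
    hQinj hQ1 hdist hS he h0

end Le

section Grp

variable {N M : ℕ} [NeZero M] (hM : N ∣ M) {S : Set ℕ} (hS : Away M S)
  {O : Type} [CommRing O] [IsLocalRing O]
  {Δ : Type} [CommGroup Δ] [Finite Δ] {ψ η : (ZMod N)ˣ →* (MonoidAlgebra O Δ)ˣ}
  {κ : Type} [Field κ] {θ : MvPolynomial (Idx S) O →+* κ} {e : MvPolynomial (Idx S) O}
  {p : ℕ} (hp : p.Prime) (hpO : (p : O) ∈ maximalIdeal O) (hΔ : IsPGroup p Δ)
  (hgΛ : Good M (MonoidAlgebra O Δ)) (hψ1 : ψ (-1) = 1)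
  (heΛ : IsLocIdem (tw hM hS ψ η) (tw_comm hM hS ψ η) θ e)
  (i₀ : Idx S) (hi₀ : θ (MvPolynomial.X i₀) ≠ 1 + (i₀.1 : κ))

include hp hpO hΔ hgΛ hψ1 heΛ hi₀ in
/-- **The rank over the group ring** is the rank of `H¹(Γ₀(M), O)_𝔪`, for all characters of
`p`-power order. -/
theorem finrank_mloc_grp {s : ℕ} (hψs : ψ ^ p ^ s = 1) (hηs : η ^ p ^ s = 1) (hgO : Good M O)
    (hSM : Adm S M) (he : IsLocIdem (TT O hSM) (TT_comm hSM) θ e) :
    Module.finrank (MonoidAlgebra O Δ) (MLoc hM hS ψ η e) =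
      Module.finrank O (Loc (TT O hSM) (TT_comm hSM) e) := by
  haveI := Fermat.Agent.H70.Grp.isLocalRing hp hpO hΔ
  have hpΛ := natCast_mem_grp hp hpO hΔ
  have heO : IsLocIdem (tw (R := O) hM hS 1 1) (tw_comm hM hS 1 1) θ e :=
    (isLocIdem_HH hM hS).mpr he
  rw [finrank_mloc_eq hM hS i₀ hi₀ ψ η hgO hgΛ hψ1 heO heΛ
    (resTriv_of_pow hp hpΛ hψs) (resTriv_of_pow hp hpΛ hηs)]
  exact finrank_mlocHH hM hS e

end Grp

section Pos

variable {W : WeierstrassCurve ℤ} {p : ℕ} [hp : Fact p.Prime]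
  {O : Type} [CommRing O] [IsDomain O] [IsDiscreteValuationRing O]
  [IsAdicComplete (maximalIdeal O) O] [Finite (ResidueField O)] [CharZero O]
  [Algebra (ZMod p) (ResidueField O)]

/-- **Positivity** of the rank at all levels `X` divisible by a level `M` at which `W` is residually
modular. -/
theorem finrank_pos {M : ℕ} [NeZero M] (h : W.IsResiduallyModularOfLevel p M)
    {X : ℕ} [NeZero X] (hX : M ∣ X) {S : Set ℕ} (hS : Adm S X)
    (hSW : ∀ ℓ : ℕ, ℓ.Prime → ℓ ∉ S → W.IsGoodPrimeFor ℓ ∧ ℓ ≠ p) (hg : Good X O)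
    {e : MvPolynomial (Pr S) O} (he : IsLocIdem (TT O hS) (TT_comm hS) (thetaW W S O) e)
    (i₀ : Pr S) (hi₀ : thetaW W S O (MvPolynomial.X i₀) ≠ 1 + (i₀.1 : ResidueField O)) :
    0 < Module.finrank O (Loc (TT O hS) (TT_comm hS) e) := by
  obtain ⟨χ, hχ⟩ := exists_kchar (O := O) h hX hS hSW
  exact finrank_loc_pos hS hg (thetaW_C W S) he i₀ hi₀ χ fun i => by rw [hχ, thetaW_X]

end Pos

section Gal

open Fermat.Agent.H53 GaloisRep

variable {𝒪 : Type} [CommRing 𝒪] [IsDomain 𝒪] [IsDiscreteValuationRing 𝒪]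
    [IsAdicComplete (maximalIdeal 𝒪) 𝒪] [Finite (ResidueField 𝒪)]
  {p : ℕ} [Fact p.Prime] {ρbar : ResidualGaloisRep (ResidueField 𝒪)}
  {b : Module.Basis (Fin 2) (ResidueField 𝒪) ρbar.V} {pd : PData p ρbar b} {A : Finset ℕ}
  {τ ι : Type} [Fintype τ] [Fintype ι]
  {qT : τ → ℕ} {pl : ∀ t, PlaceData p (qT t)} {u : τ → 𝒪}
  {qB : ι → ℕ} {plB : ∀ i, PlaceData p (qB i)} {uB : ι → 𝒪} {k n : ℕ} {S : Finset ℕ}
  (E : GalLevelB p ρbar b pd A qT pl u qB plB uB k n S)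

/-- the Taylor–Wiles primes of a level are residually distinguished -/
lemma frobDist (i : Fin (numB τ ι pd.ε k)) : FrobDist ρbar (E.qv i) := by
  obtain ⟨P, hP⟩ := H54.exists_liesOverPrime (E.prime i)
  obtain ⟨φ, hφ⟩ := H54.exists_isFrobeniusAt (E.prime i) hP
  obtain ⟨-, α, β, h1, h2⟩ := E.frob i P hP φ hφ
  exact ⟨P, hP, φ, hφ, α, β, h1, h2⟩

lemma dvd_sub_one (i : Fin (numB τ ι pd.ε k)) : p ∣ E.qv i - 1 :=
  (dvd_pow_self p (Nat.succ_ne_zero n)).trans (E.dvd i)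

end Gal

end Fermat.Agent.H35.Rk
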