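import Mathlib
import Fermat.Agent.H68TwAtt

/-!
# The points of the Taylor-Wiles-Kisin deformation rings (helper68)

`[A12]` of the MODLIFT assembly: (g2), (g3) for `GalLevel`.
-/

set_option autoImplicit false
set_option linter.style.haveILetI false
set_option linter.unusedSectionVars false

noncomputable section

open IsLocalRing Polynomial CuspForm GaloisRep
open Fermat.Agent.H53 Fermat.Agent.H30 Fermat.Agent.H55

namespace Fermat.Agent.H68.Tw

variable {𝒪 : Type} [CommRing 𝒪] [IsDomain 𝒪] [IsDiscreteValuationRing 𝒪]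
    [IsAdicComplete (maximalIdeal 𝒪) 𝒪]
  {p : ℕ} [Fact p.Prime] {ρbar : ResidualGaloisRep (ResidueField 𝒪)}
  {b : Module.Basis (Fin 2) (ResidueField 𝒪) ρbar.V} {A : Finset ℕ} {τ : Type} [Fintype τ]
  {qT : τ → ℕ} {pl : ∀ t, PlaceData p (qT t)} {u : τ → 𝒪} {k n : ℕ} {S₀ : Finset ℕ}
  (E : GalLevel p ρbar b A qT pl u k n S₀)
  {O' : Type} [CommRing O'] [IsDomain O'] [IsLocalRing O'] [IsAdicComplete (maximalIdeal O') O']
  [Algebra 𝒪 O'] [IsLocalHom (algebraMap 𝒪 O')]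

/-- at the Taylor-Wiles primes: unipotent ⇔ unramified ⇔ the diamond parameter vanishes. -/
theorem isUnipotent_iff (f : E.D.R →ₐ[𝒪] O') (hf : IsLocalHom (f : E.D.R →+* O'))
    (j : Fin (3 * Nat.card τ + k)) :
    (ptRep E.D f hf).IsUnipotentOnInertiaAt (E.qv j) ↔ f (E.c j) = 0 := by
  constructor
  · intro h
    have h1 := (ptRep_isUnipotent_iff E.D f hf E.b₁ (E.qv j)).mp h _ (E.plQ j).lies _
      (E.plQ j).inert
    exact E.c_eq_zero_of_unipotent (f : E.D.R →+* O') j h1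
  · intro h
    have h1 := (E.unram_iff (f : E.D.R →+* O') j).mpr h
    refine (ptRep_isUnipotent_iff E.D f hf E.b₁ (E.qv j)).mpr fun P hP σ hσ => ?_
    have h2 := h1 P hP σ hσ
    have h3 : mapMat (f : E.D.R →+* O') (toMat E.D.ρ.ρ E.b₁) σ = 1 := h2
    rw [h3, Matrix.charpoly_one, Fintype.card_fin]

/-- the trace of the tame generator at the primes of `T`. -/
theorem trace_eq_of_not_unipotent (hinj : Function.Injective (algebraMap 𝒪 O')) (hp2 : p ≠ 2)
    (f : E.D.R →ₐ[𝒪] O') (hf : IsLocalHom (f : E.D.R →+* O')) {t : τ}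
    (hqT : (qT t).Prime) (hunr : ρbar.IsUnramifiedAt (qT t))
    {a m : ℕ} (hqa : qT t - 1 = p ^ a * m) (hm : ¬ p ∣ m) (ha : 0 < a) {ζ : 𝒪}
    (hζ : IsPrimitiveRoot ζ (p ^ a))
    (h : ¬ (ptRep E.D f hf).IsUnipotentOnInertiaAt (qT t)) :
    ∃ z ∈ ntRoots 𝒪 p a, f (E.r (pl t).σ).trace = algebraMap 𝒪 O' ((z : 𝒪) + (z⁻¹ : 𝒪ˣ)) := by
  have hpqT : p ≠ qT t := by
    intro hpe
    have h1 : p ∣ qT t - 1 := by rw [hqa]; exact dvd_mul_of_dvd_left (dvd_pow_self p ha.ne') m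
    have h2 := Nat.le_of_dvd (by have := hqT.two_le; omega) h1
    have := hqT.two_le
    omega
  have hmap : ∀ x ∈ maximalIdeal E.D.R, f x ∈ maximalIdeal O' := fun x hx => by
    have h1 := map_maximalIdeal_pow (f : E.D.R →+* O') hf 1 (a := x) (by rwa [pow_one])
    rwa [pow_one] at h1
  have hpO' : (p : O') ∈ maximalIdeal O' := by
    have h1 := hmap _ E.p_mem
    rwa [map_natCast] at h1
  have hcong : ∀ σ ∈ (pl t).P.inertiaSubgroupIn ℚ, Cong (maximalIdeal E.D.R) (E.r σ) := fun σ hσ =>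
    cong_of_residual E.D b E.b₁ E.hb₁ (by
      have h1 := hunr (pl t).P (pl t).lies σ hσ
      exact (toMat_eq_one_iff (GaloisRepAdic.ofResidualGaloisRep ρbar) b σ).mp h1)
  have hcong' : ∀ σ ∈ (pl t).P.inertiaSubgroupIn ℚ,
      Cong (maximalIdeal O') (mapMat (f : E.D.R →+* O') E.r σ) := by
    intro σ hσ i j
    have h1 := hmap _ (hcong σ hσ i j)
    rw [map_sub] at h1
    have h2 : f ((1 : M2 E.D.R) i j) = (1 : M2 O') i j := by
      rw [Matrix.one_apply, Matrix.one_apply]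
      split_ifs <;> simp
    rw [h2] at h1
    exact h1
  have hdet : ∀ σ ∈ (pl t).P.inertiaSubgroupIn ℚ, (mapMat (f : E.D.R →+* O') E.r σ).det = 1 := by
    intro σ hσ
    have h1 : (E.r σ).det = 1 :=
      det_inertia hausdorff_of_complete E.detCyc E.b₁ hqT (pl t).lies hpqT hσ
    have h2 : (mapMat (f : E.D.R →+* O') E.r σ).det = (f : E.D.R →+* O') (E.r σ).det := by
      rw [mapMat_apply']
      exact (RingHom.map_det (f : E.D.R →+* O') (E.r σ)).symm
    rw [h2, h1, map_one]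
  have htrmap : ∀ M : M2 E.D.R, (M.map (f : E.D.R →+* O')).trace = f M.trace := fun M =>
    (AddMonoidHom.map_trace (f : E.D.R →+* O') M).symm
  have htr : (mapMat (f : E.D.R →+* O') E.r (pl t).σ).trace - 2 ∈ maximalIdeal O' := by
    have h1 := hmap _ (E.tr_Sg t)
    rw [map_sub, map_ofNat] at h1
    have h2 : (mapMat (f : E.D.R →+* O') E.r (pl t).σ).trace = f (E.r (pl t).σ).trace := by
      rw [mapMat_apply']; exact htrmap _
    rw [h2, Matrix.trace_fin_two]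
    exact h1
  have hrel : mapMat (f : E.D.R →+* O') E.r (pl t).φ * mapMat (f : E.D.R →+* O') E.r (pl t).σ =
      mapMat (f : E.D.R →+* O') E.r (pl t).σ ^ qT t * mapMat (f : E.D.R →+* O') E.r (pl t).φ := by
    have h1 := congrArg ((f : E.D.R →+* O').mapMatrix : M2 E.D.R →+* M2 O') (E.tame t)
    rw [map_mul, map_mul, map_pow] at h1
    exact h1
  rcases unipotent_or_trace (O := 𝒪) (B := O') hinj hp2 hqT (pl t).lies hpO' hausdorff_of_complete
    hqa hm ha hζ (E.mcont.map (f : E.D.R →+* O') hf) (fun σ hσ => ⟨0, by simpa using hcong' σ hσ⟩)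
    hdet (pl t).inert (pl t).tame hrel htr with h1 | ⟨z, hz, h1⟩
  · exact absurd ((ptRep_isUnipotent_iff E.D f hf E.b₁ (qT t)).mpr h1) h
  · refine ⟨z, hz, ?_⟩
    rw [← h1, mapMat_apply']
    exact (htrmap _).symm

/-- **(g2)**: if the point is not unipotent at `qT t`, the product over the non-trivial roots of
unity vanishes. -/
theorem prodElt_eq_zero (hinj : Function.Injective (algebraMap 𝒪 O')) (hp2 : p ≠ 2)
    (f : E.D.R →ₐ[𝒪] O') (hf : IsLocalHom (f : E.D.R →+* O')) {t : τ}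
    (hqT : (qT t).Prime) (hunr : ρbar.IsUnramifiedAt (qT t))
    {a m : ℕ} (hqa : qT t - 1 = p ^ a * m) (hm : ¬ p ∣ m) (ha : 0 < a) {ζ : 𝒪}
    (hζ : IsPrimitiveRoot ζ (p ^ a))
    (h : ¬ (ptRep E.D f hf).IsUnipotentOnInertiaAt (qT t)) :
    f (∏ z ∈ ntRoots 𝒪 p a, (E.r (pl t).σ 0 0 + E.r (pl t).σ 1 1 -
      algebraMap 𝒪 E.D.R ((z : 𝒪) + (z⁻¹ : 𝒪ˣ)))) = 0 := by
  obtain ⟨z, hz, h1⟩ := trace_eq_of_not_unipotent E hinj hp2 f hf hqT hunr hqa hm ha hζ h
  rw [map_prod]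
  refine Finset.prod_eq_zero hz ?_
  rw [map_sub, AlgHom.commutes, ← h1, Matrix.trace_fin_two, sub_self]

/-- **(g4)**: Steinberg Frobenius at `qT t₀`. -/
theorem hElt_eq_zero (f : E.D.R →ₐ[𝒪] O') (hf : IsLocalHom (f : E.D.R →+* O')) {t : τ}
    {v : O'} (hv : v = 1 ∨ v = -1)
    (h : LinearMap.charpoly ((ptRep E.D f hf).ρ (pl t).φ) =
      (X - C v) * (X - C (v * (qT t : O')))) :
    f ((E.r (pl t).φ 0 0 + E.r (pl t).φ 1 1) ^ 2 - ((qT t : E.D.R) + 1) ^ 2) = 0 := by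
  rw [ptRep_charpoly E.D f hf E.b₁] at h
  have h1 : (X - C v) * (X - C (v * (qT t : O'))) =
      (X ^ 2 - C (v + v * (qT t : O')) * X + C (v * (v * (qT t : O'))) : O'[X]) := by
    rw [C_add, C_mul (a := v) (b := v * (qT t : O'))]
    ring
  rw [h1] at h
  have h2 := (trace_det_of_charpoly h).1
  have h3 : (mapMat (f : E.D.R →+* O') (toMat E.D.ρ.ρ E.b₁) (pl t).φ).trace =
      f (E.r (pl t).φ 0 0 + E.r (pl t).φ 1 1) := by
    rw [Matrix.trace_fin_two, map_add]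
    rfl
  rw [h3] at h2
  rw [map_sub, map_pow, h2, map_pow, map_add, map_natCast, map_one]
  have hv2 : v ^ 2 = 1 := by rcases hv with rfl | rfl <;> ring
  linear_combination (1 + (qT t : O')) ^ 2 * hv2

end Fermat.Agent.H68.Tw
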