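import Mathlib
import Fermat.Agent.H68TwGal
import Fermat.Agent.H4EA

/-!
# The eigen-analysis at the Taylor-Wiles-Kisin levels (helper68)

`[A12]` of the MODLIFT assembly: the hypotheses `(hA)`, `(hA3)` of the module part.
-/

set_option autoImplicit false
set_option linter.style.haveILetI false
set_option linter.unusedSectionVars false

noncomputable section

open IsLocalRing Polynomial CuspForm GaloisRep
open Fermat.Agent.H53 Fermat.Agent.H30 Fermat.Agent.H55 Fermat.Agent.H4 Fermat.Agent.H70.Coh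
open Fermat.Agent.H94.BR Fermat.Agent.H70.Mod

namespace Fermat.Agent.H68.Tw

/-- a character of `(ℤ/N)ˣ` is trivial at `q`: it factors through `(ℤ/(N/q))ˣ` -/
def TrivAt (N q : ℕ) {B : Type*} [Monoid B] (η : (ZMod N)ˣ →* B) : Prop :=
  ∀ (N₁ : ℕ) (h : N = N₁ * q) (u : (ZMod N)ˣ),
    ZMod.unitsMap (h ▸ Dvd.intro q rfl) u = (1 : (ZMod N₁)ˣ) → η u = 1

variable {𝒪 : Type} [CommRing 𝒪] [IsDomain 𝒪] [IsDiscreteValuationRing 𝒪]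
    [IsAdicComplete (maximalIdeal 𝒪) 𝒪] [Finite (ResidueField 𝒪)] [CharZero 𝒪]
  {p : ℕ} [Fact p.Prime] {ρbar : ResidualGaloisRep (ResidueField 𝒪)}
  {b : Module.Basis (Fin 2) (ResidueField 𝒪) ρbar.V} {A : Finset ℕ} {τ : Type} [Fintype τ]
  {qT : τ → ℕ} {pl : ∀ t, PlaceData p (qT t)} {u : τ → 𝒪} {k n : ℕ} {S₀ : Finset ℕ}
  (E : GalLevel p ρbar b A qT pl u k n S₀)
  {L : ℕ} [NeZero L] {S : Finset ℕ} (hpS : p ∈ S) (hLS : ∀ q : ℕ, q.Prime → q ∣ L → q ∈ S)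
  {θ : heckeAlgebra L 2 (↑S : Set ℕ) →+* ResidueField 𝒪}
  (π : E.D.R →ₐ[𝒪] heckeLocal L (↑S : Set ℕ) 𝒪 θ) (hπ : Function.Surjective π)
  {H : HeckeGaloisRepDatum L (↑S : Set ℕ) 𝒪 θ (heckeLocal L (↑S : Set ℕ) 𝒪 θ)}
  (hH : H.π = heckeLocal.π L (↑S : Set ℕ) 𝒪 θ)
  (b₂ : Module.Basis (Fin 2) (heckeLocal L (↑S : Set ℕ) 𝒪 θ) H.ρ.V)
  (hb₂ : toMat H.ρ.ρ b₂ =
    mapMat (π : E.D.R →+* heckeLocal L (↑S : Set ℕ) 𝒪 θ) (toMat E.D.ρ.ρ E.b₁))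
  {O' : Type} [CommRing O'] [IsDomain O'] [IsDiscreteValuationRing O']
  [IsAdicComplete (maximalIdeal O') O'] [Finite (ResidueField O')] [CharZero O']
  [Algebra 𝒪 O'] [Module.Finite 𝒪 O'] [IsLocalHom (algebraMap 𝒪 O')]

include hπ in
/-- points of the deformation ring coming from points of the Hecke algebra are local -/
theorem isLocalHom_comp (lam : heckeLocal L (↑S : Set ℕ) 𝒪 θ →ₐ[𝒪] O') :
    IsLocalHom ((lam.comp π : E.D.R →ₐ[𝒪] O') : E.D.R →+* O') := by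
  haveI h1 : IsLocalHom (lam : heckeLocal L (↑S : Set ℕ) 𝒪 θ →+* O') := isLocalHom_of_finite lam
  haveI h2 : IsLocalHom (π : E.D.R →+* heckeLocal L (↑S : Set ℕ) 𝒪 θ) :=
    IsLocalHom.of_surjective _ hπ
  exact RingHom.isLocalHom_comp (lam : heckeLocal L (↑S : Set ℕ) 𝒪 θ →+* O')
    (π : E.D.R →+* heckeLocal L (↑S : Set ℕ) 𝒪 θ)

/-- `(p : O')` is in the maximal ideal -/
theorem natCast_mem (hp𝒪 : (p : 𝒪) ∈ maximalIdeal 𝒪) : (p : O') ∈ maximalIdeal O' := by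
  have h1 : algebraMap 𝒪 O' (p : 𝒪) ∈ maximalIdeal O' := by
    rw [mem_maximalIdeal, mem_nonunits_iff]
    intro h
    exact (mem_nonunits_iff.mp ((mem_maximalIdeal _).mp hp𝒪)) (isUnit_of_map_unit _ _ h)
  rwa [map_natCast] at h1

include hLS hπ hH hb₂ hpS in
/-- **(hA)** the eigen-analysis for the module with character at the primes of `T`. -/
theorem hA (hp2 : p ≠ 2) (hp𝒪 : (p : 𝒪) ∈ maximalIdeal 𝒪) (G : GeomInputs p)
    {N1 M : ℕ} (hsq : Squarefree N1) (hM0 : 0 < M)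
    (hex : ∀ r : ℕ, r.Prime → r ∣ N1 → ¬ r * r ∣ M) (hM : N1 ∣ M) (hS : Away M (↑S : Set ℕ))
    (hQN : ∀ j, E.qv j ∣ N1)
    (hqT : ∀ t, (qT t).Prime) (hunr : ∀ t, ρbar.IsUnramifiedAt (qT t))
    {a m : τ → ℕ} (hqa : ∀ t, qT t - 1 = p ^ a t * m t) (hm : ∀ t, ¬ p ∣ m t)
    (ha : ∀ t, 0 < a t) {ζ : τ → 𝒪} (hζ : ∀ t, IsPrimitiveRoot (ζ t) (p ^ a t))
    (hinj : Function.Injective (algebraMap 𝒪 O'))
    (lam : heckeLocal L (↑S : Set ℕ) 𝒪 θ →ₐ[𝒪] O') (η : (ZMod N1)ˣ →* O'ˣ)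
    (x : H1 (gam N1 M hM) (psiRep (η ^ 2) O')) (hη : ∃ m, Odd m ∧ η ^ m = 1)
    (hT : ∀ t, ¬ TrivAt N1 (qT t) η) (hx : ∀ c : O', c ≠ 0 → c • x ≠ 0)
    (hlam : ∀ i : Idx (↑S : Set ℕ), tw hM hS (η ^ 2) η i x =
      lam (heckeLocal.π L (↑S : Set ℕ) 𝒪 θ (TIdx L (↑S : Set ℕ) hLS i)) • x) :
    (∀ t, lam (π (∏ z ∈ ntRoots 𝒪 p (a t), (E.r (pl t).σ 0 0 + E.r (pl t).σ 1 1 -
      algebraMap 𝒪 E.D.R ((z : 𝒪) + (z⁻¹ : 𝒪ˣ))))) = 0) ∧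
    ∀ j, (TrivAt N1 (E.qv j) η ↔ lam (π (1 + E.c j)) = 1) := by
  obtain ⟨m', hm', hηm⟩ := hη
  have hf := isLocalHom_comp E π hπ lam
  have hatt := ptRep_isAttached E.D hLS hH E.b₁ b₂ π hb₂ lam hf
  have hirr := ptRep_residual_irreducible E.D (lam.comp π) hf
  have hp𝒪' : (p : O') ∈ maximalIdeal O' := natCast_mem hp𝒪
  have hT' : ∀ i : Idx (↑S : Set ℕ), tw hM hS (η ^ 2) η i x = aOf lam i.1 • x := fun i => by
    rw [aOf_idx hLS lam i]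
    exact hlam i
  have hne : ∀ q : ℕ, q.Prime → p ∣ q - 1 → q ≠ p := by
    rintro q hq h rfl
    have h1 := hq.two_le
    have h2 := Nat.le_of_dvd (by omega) h
    omega
  constructor
  · intro t
    have h1 := hT t
    rw [TrivAt] at h1
    push Not at h1
    obtain ⟨N₁, hN, v, hv1, hv⟩ := h1
    have hqp : qT t ≠ p := hne _ (hqT t) (by
      rw [hqa]; exact dvd_mul_of_dvd_left (dvd_pow_self p (ha t).ne') _)
    have h2 := EA_not_unipotent hp2 hpS hp𝒪' G hsq hM0 hex hM hS η hm' hηm _ hatt hirr hx hT'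
      (hqT t) hqp hN v hv1 hv
    exact prodElt_eq_zero E hinj hp2 (lam.comp π) hf (hqT t) (hunr t) (hqa t) (hm t) (ha t)
      (hζ t) h2
  · intro j
    have h3 : lam (π (1 + E.c j)) = 1 ↔ (lam.comp π) (E.c j) = 0 := by
      rw [map_add, map_one, map_add, map_one, add_eq_left]
      rfl
    rw [h3, ← isUnipotent_iff E (lam.comp π) hf j]
    constructor
    · intro h
      obtain ⟨N₁, hN⟩ : ∃ N₁, N1 = N₁ * E.qv j := by
        obtain ⟨c, hc⟩ := hQN j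
        exact ⟨c, by rw [hc, mul_comm]⟩
      exact EA_unipotent' hp2 hpS hp𝒪' G hsq hM0 hex hM hS η hm' hηm _ hatt hirr hx hT'
        (E.prime j) (E.ne_p j) hN (h N₁ hN)
    · intro h
      by_contra hcon
      rw [TrivAt] at hcon
      push Not at hcon
      obtain ⟨N₁, hN, v, hv1, hv⟩ := hcon
      exact EA_not_unipotent hp2 hpS hp𝒪' G hsq hM0 hex hM hS η hm' hηm _ hatt hirr hx hT'
        (E.prime j) (E.ne_p j) hN v hv1 hv h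

include hLS hπ hH hb₂ hpS in
/-- **(hA3)** the eigen-analysis for the kernel of the two traces at `qT t₀`. -/
theorem hA3 (hp2 : p ≠ 2) (hp𝒪 : (p : 𝒪) ∈ maximalIdeal 𝒪) (G : GeomInputs p) {t₀ : τ}
    (hqT : (qT t₀).Prime) (hqp : qT t₀ ≠ p)
    {N2 M₀ : ℕ} [NeZero M₀] [NeZero (qT t₀)] (hsq : Squarefree N2)
    (hex : ∀ r : ℕ, r.Prime → r ∣ N2 → ¬ r * r ∣ M₀) (hM : N2 ∣ M₀)
    (hS : Away (M₀ * qT t₀) (↑S : Set ℕ)) (hqM : ¬ qT t₀ ∣ M₀)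
    (lam : heckeLocal L (↑S : Set ℕ) 𝒪 θ →ₐ[𝒪] O') (η : (ZMod N2)ˣ →* O'ˣ)
    (x : H1 (gam N2 (M₀ * qT t₀) (dvd_mul_q hM)) (psiRep (η ^ 2) O'))
    (hη : ∃ m, Odd m ∧ η ^ m = 1) (hx : ∀ c : O', c ≠ 0 → c • x ≠ 0)
    (hlam : ∀ i : Idx (↑S : Set ℕ), tw (dvd_mul_q hM) hS (η ^ 2) η i x =
      lam (heckeLocal.π L (↑S : Set ℕ) 𝒪 θ (TIdx L (↑S : Set ℕ) hLS i)) • x)
    (h1 : (trFam hM).opH (psiRep (η ^ 2) O') x = 0)
    (h2 : (nuFam hM hqT).opH (psiRep (η ^ 2) O') x = 0) :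
    lam (π ((E.r (pl t₀).φ 0 0 + E.r (pl t₀).φ 1 1) ^ 2 - ((qT t₀ : E.D.R) + 1) ^ 2)) = 0 := by
  obtain ⟨m', hm', hηm⟩ := hη
  have hf := isLocalHom_comp E π hπ lam
  have hatt := ptRep_isAttached E.D hLS hH E.b₁ b₂ π hb₂ lam hf
  have hirr := ptRep_residual_irreducible E.D (lam.comp π) hf
  have hp𝒪' : (p : O') ∈ maximalIdeal O' := natCast_mem hp𝒪
  have hT' : ∀ i : Idx (↑S : Set ℕ), tw (dvd_mul_q hM) hS (η ^ 2) η i x = aOf lam i.1 • x :=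
    fun i => by
    rw [aOf_idx hLS lam i]
    exact hlam i
  obtain ⟨v, hv, h3⟩ := EA_steinberg hp2 hpS hp𝒪' G hsq hex hM hS η hm' hηm _ hatt hirr hx hT'
    hqT hqp hqM h1 h2
  exact hElt_eq_zero E (lam.comp π) hf hv (h3 _ (pl t₀).lies _ (pl t₀).frob)

end Fermat.Agent.H68.Tw
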