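/-
H79PtB: point facts for the levels with raising primes (`GalLevelB`), at the primes `q ≠ p`.
-/
import Fermat.Agent.H53GalPt
import Fermat.Agent.H68TwGlue
import Fermat.Agent.H21MGood
import Fermat.Agent.H70Lev6

set_option autoImplicit false
set_option maxSynthPendingDepth 3
set_option linter.style.haveILetI false
set_option linter.unusedSectionVars false

noncomputable section

open IsLocalRing Polynomial CuspForm GaloisRep
open Fermat.Agent.H53 Fermat.Agent.H30 Fermat.Agent.H55 Fermat.Agent.H4 Fermat.Agent.H70.Coh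
open Fermat.Agent.H94.BR Fermat.Agent.H70.Mod Fermat.Agent.H21M
open Fermat.Agent.H62 (IsAttached)
open Fermat.Agent.H31 (trace_eq_of_charpoly)
open Fermat.Agent.H68.Tw (ptRep ptRep_isAttached ptRep_residual_irreducible aOf aOf_idx
  isLocalHom_of_finite ptRep_charpoly)

namespace Fermat.Agent.H79.PtB

variable {𝒪 : Type} [CommRing 𝒪] [IsDomain 𝒪] [IsDiscreteValuationRing 𝒪]
    [IsAdicComplete (maximalIdeal 𝒪) 𝒪] [Finite (ResidueField 𝒪)] [CharZero 𝒪]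
  {p : ℕ} [Fact p.Prime] {ρbar : ResidualGaloisRep (ResidueField 𝒪)}
  {b : Module.Basis (Fin 2) (ResidueField 𝒪) ρbar.V} {pd : PData p ρbar b} {A : Finset ℕ}
  {τ ι : Type} [Fintype τ] [Fintype ι] {qT : τ → ℕ} {pl : ∀ t, PlaceData p (qT t)} {u : τ → 𝒪}
  {qB : ι → ℕ} {plB : ∀ i, PlaceData p (qB i)} {uB : ι → 𝒪} {k n : ℕ} {S₀ : Finset ℕ}
  (E : GalLevelB p ρbar b pd A qT pl u qB plB uB k n S₀)
  {L : ℕ} [NeZero L] {S : Finset ℕ} (hpS : p ∈ S) (hLS : ∀ q : ℕ, q.Prime → q ∣ L → q ∈ S)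
  {θ : heckeAlgebra L 2 (↑S : Set ℕ) →+* ResidueField 𝒪}
  (π : E.D.R →ₐ[𝒪] heckeLocal L (↑S : Set ℕ) 𝒪 θ) (hπ : Function.Surjective π)
  {H : HeckeGaloisRepDatum L (↑S : Set ℕ) 𝒪 θ (heckeLocal L (↑S : Set ℕ) 𝒪 θ)}
  (hH : H.π = heckeLocal.π L (↑S : Set ℕ) 𝒪 θ)
  (b₂ : Module.Basis (Fin 2) (heckeLocal L (↑S : Set ℕ) 𝒪 θ) H.ρ.V)
  (hb₂ : toMat H.ρ.ρ b₂ =
    mapMat (π : E.D.R →+* heckeLocal L (↑S : Set ℕ) 𝒪 θ) (toMat E.D.ρ.ρ E.b₁))
  {O' : Type} [CommRing O'] [IsDomain O'] [IsDiscreteValuationRing O']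
  [IsAdicComplete (maximalIdeal O') O'] [Finite (ResidueField O')] [CharZero O']
  [Algebra 𝒪 O'] [Module.Finite 𝒪 O'] [IsLocalHom (algebraMap 𝒪 O')]

include hπ in
/-- points of the deformation ring coming from points of the Hecke algebra are local -/
theorem isLocalHom_pt (lam : heckeLocal L (↑S : Set ℕ) 𝒪 θ →ₐ[𝒪] O') :
    IsLocalHom ((lam.comp π : E.D.R →ₐ[𝒪] O') : E.D.R →+* O') := by
  haveI h1 : IsLocalHom (lam : heckeLocal L (↑S : Set ℕ) 𝒪 θ →+* O') := isLocalHom_of_finite lam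
  haveI h2 : IsLocalHom (π : E.D.R →+* heckeLocal L (↑S : Set ℕ) 𝒪 θ) :=
    IsLocalHom.of_surjective _ hπ
  exact RingHom.isLocalHom_comp (lam : heckeLocal L (↑S : Set ℕ) 𝒪 θ →+* O')
    (π : E.D.R →+* heckeLocal L (↑S : Set ℕ) 𝒪 θ)

include hLS hπ hH hb₂ hpS in
/-- the representation attached to a point -/
theorem pt_facts (lam : heckeLocal L (↑S : Set ℕ) 𝒪 θ →ₐ[𝒪] O') :
    ∃ hf : IsLocalHom ((lam.comp π : E.D.R →ₐ[𝒪] O') : E.D.R →+* O'),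
      IsAttached S (aOf lam) (ptRep E.D (lam.comp π) hf) ∧
      (ptRep E.D (lam.comp π) hf).residual.IsIrreducible ∧
      (p : O') ∈ maximalIdeal O' := by
  have hf := isLocalHom_pt E π hπ lam
  refine ⟨hf, ptRep_isAttached E.D hLS hH E.b₁ b₂ π hb₂ lam hf,
    ptRep_residual_irreducible E.D (lam.comp π) hf, ?_⟩
  have := E.pt_mem (lam.comp π) hf E.p_mem
  rwa [map_natCast] at this

section Facts

variable {N M : ℕ} (hsq : Squarefree N) (hM0 : 0 < M)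
  (hex : ∀ r : ℕ, r.Prime → r ∣ N → ¬ r * r ∣ M) (hM : N ∣ M) (hS : Away M (↑S : Set ℕ))
  (lam : heckeLocal L (↑S : Set ℕ) 𝒪 θ →ₐ[𝒪] O') (η : (ZMod N)ˣ →* O'ˣ)
  (x : H1 (gam N M hM) (psiRep (η ^ 2) O')) (hη : ∃ m, Odd m ∧ η ^ m = 1)
  (hx : IsPt hM hS η (fun i => lam (heckeLocal.π L (↑S : Set ℕ) 𝒪 θ
    (TIdx L (↑S : Set ℕ) hLS i))) x)

include hpS hLS hπ hH hb₂ hsq hM0 hex hη hx in
/-- **(chi)** the product over the non-trivial roots of unity -/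
theorem lam_prodElt (hp2 : p ≠ 2) (G : GeomInputs p)
    (hinj : Function.Injective (algebraMap 𝒪 O')) {t : τ} (hqT : (qT t).Prime)
    (hunr : ρbar.IsUnramifiedAt (qT t)) {a m : ℕ} (hqa : qT t - 1 = p ^ a * m) (hm : ¬ p ∣ m)
    (ha : 0 < a) {ζ : 𝒪} (hζ : IsPrimitiveRoot ζ (p ^ a)) (hT : ¬ TrivAt N (qT t) η) :
    lam (π (∏ z ∈ ntRoots 𝒪 p a, (E.r (pl t).σ 0 0 + E.r (pl t).σ 1 1 -
      algebraMap 𝒪 E.D.R ((z : 𝒪) + (z⁻¹ : 𝒪ˣ))))) = 0 := by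
  obtain ⟨m', hm', hηm⟩ := hη
  obtain ⟨hf, hatt, hirr, hp𝒪'⟩ := pt_facts E hpS hLS π hπ hH b₂ hb₂ lam
  have hT' : ∀ i : Idx (↑S : Set ℕ), tw hM hS (η ^ 2) η i x = aOf lam i.1 • x := fun i => by
    rw [aOf_idx hLS lam i]
    exact hx.eigen i
  rw [TrivAt] at hT
  push Not at hT
  obtain ⟨N₁, hN, v, hv1, hv⟩ := hT
  have hqp : qT t ≠ p := by
    intro h
    have h1 : p ∣ qT t - 1 := by rw [hqa]; exact dvd_mul_of_dvd_left (dvd_pow_self p ha.ne') _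
    have h2 := Nat.le_of_dvd (by have := hqT.two_le; omega) h1
    have := hqT.two_le
    omega
  have h2 := EA_not_unipotent hp2 hpS hp𝒪' G hsq hM0 hex hM hS η hm' hηm _ hatt hirr hx.smul_ne
    hT' hqT hqp hN v hv1 hv
  exact E.pt_prodElt (lam.comp π) hf hinj hp2 hqT hunr hqa hm ha hζ h2

include hpS hLS hπ hH hb₂ hsq hM0 hex hη hx in
/-- **(tw)** the diamond operators at the Taylor-Wiles primes -/
theorem lam_c_iff (hp2 : p ≠ 2) (G : GeomInputs p) (j : Fin (numB τ ι pd.ε k))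
    (hQN : E.qv j ∣ N) :
    TrivAt N (E.qv j) η ↔ lam (π (1 + E.c j)) = 1 := by
  obtain ⟨m', hm', hηm⟩ := hη
  obtain ⟨hf, hatt, hirr, hp𝒪'⟩ := pt_facts E hpS hLS π hπ hH b₂ hb₂ lam
  have hT' : ∀ i : Idx (↑S : Set ℕ), tw hM hS (η ^ 2) η i x = aOf lam i.1 • x := fun i => by
    rw [aOf_idx hLS lam i]
    exact hx.eigen i
  have h3 : lam (π (1 + E.c j)) = 1 ↔ (lam.comp π) (E.c j) = 0 := by
    rw [map_add, map_one, map_add, map_one, add_eq_left]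
    rfl
  rw [h3, ← E.pt_isUnipotent_iff (lam.comp π) hf j]
  constructor
  · intro h
    obtain ⟨N₁, hN⟩ : ∃ N₁, N = N₁ * E.qv j := by
      obtain ⟨c, hc⟩ := hQN
      exact ⟨c, by rw [hc, mul_comm]⟩
    exact EA_unipotent' hp2 hpS hp𝒪' G hsq hM0 hex hM hS η hm' hηm _ hatt hirr hx.smul_ne hT'
      (E.prime j) (E.ne_p j) hN (h N₁ hN)
  · intro h
    by_contra hcon
    rw [TrivAt] at hcon
    push Not at hcon
    obtain ⟨N₁, hN, v, hv1, hv⟩ := hcon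
    exact EA_not_unipotent hp2 hpS hp𝒪' G hsq hM0 hex hM hS η hm' hηm _ hatt hirr hx.smul_ne hT'
      (E.prime j) (E.ne_p j) hN v hv1 hv h

include hpS hLS hπ hH hb₂ hsq hM0 hex hη hx in
/-- **(uni)** unipotent inertia at the primes of `T` -/
theorem lam_uniElt (hp2 : p ≠ 2) (G : GeomInputs p) {t : τ} (hqT : (qT t).Prime)
    (hqp : qT t ≠ p) (hqM : qT t ∣ M) (hqM2 : ¬ qT t * qT t ∣ M) (hqN : ¬ qT t ∣ N) :
    lam (π (E.r (pl t).σ 0 0 + E.r (pl t).σ 1 1 - 2)) = 0 := by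
  obtain ⟨m', hm', hηm⟩ := hη
  obtain ⟨hf, hatt, hirr, hp𝒪'⟩ := pt_facts E hpS hLS π hπ hH b₂ hb₂ lam
  have hT' : ∀ i : Idx (↑S : Set ℕ), tw hM hS (η ^ 2) η i x = aOf lam i.1 • x := fun i => by
    rw [aOf_idx hLS lam i]
    exact hx.eigen i
  exact E.pt_uniElt (lam.comp π) hf t (EA_unipotent hp2 hpS hp𝒪' G hsq hM0 hex hM hS η hm' hηm _
    hatt hirr hx.smul_ne hT' hqT hqp hqM hqM2 hqN)

include hpS hLS hπ hH hb₂ hsq hM0 hex hη hx in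
/-- **(nr)** raising primes which do not divide the level -/
theorem lam_nr (hp2 : p ≠ 2) (i : ι) (hqB : (qB i).Prime) (hqp : qB i ≠ p)
    (hqM : ¬ qB i ∣ M) :
    lam (π (E.mB (Sum.inl i) 1)) = 0 ∧ lam (π (E.mB (Sum.inl i) 2)) = 0 := by
  obtain ⟨m', hm', hηm⟩ := hη
  obtain ⟨hf, hatt, hirr, hp𝒪'⟩ := pt_facts E hpS hLS π hπ hH b₂ hb₂ lam
  have hT' : ∀ i : Idx (↑S : Set ℕ), tw hM hS (η ^ 2) η i x = aOf lam i.1 • x := fun i => by
    rw [aOf_idx hLS lam i]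
    exact hx.eigen i
  exact E.pt_nr (lam.comp π) hf i (EA_unramified hp2 hpS hp𝒪' hsq hM0 hex hM hS η hm' hηm _
    hatt hirr hx.smul_ne hT' hqB hqp hqM)

include hpS hLS hπ hH hb₂ hsq hM0 hex hη hx in
/-- **(un)** raising primes which divide the level exactly once -/
theorem lam_un (hp2 : p ≠ 2) (G : GeomInputs p) (i : ι) (hqB : (qB i).Prime) (hqp : qB i ≠ p)
    (hqM : qB i ∣ M) (hqM2 : ¬ qB i * qB i ∣ M) (hqN : ¬ qB i ∣ N) :
    lam (π (E.mB (Sum.inl i) 1)) * lam (π (E.mB (Sum.inl i) 0)) = 0 ∧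
    lam (π (E.mB (Sum.inl i) 2)) * (lam (π (E.mB (Sum.inl i) 0)) +
      algebraMap 𝒪 O' (uB i * ((qB i : 𝒪) + 1))) = 0 := by
  obtain ⟨m', hm', hηm⟩ := hη
  obtain ⟨hf, hatt, hirr, hp𝒪'⟩ := pt_facts E hpS hLS π hπ hH b₂ hb₂ lam
  have hT' : ∀ i : Idx (↑S : Set ℕ), tw hM hS (η ^ 2) η i x = aOf lam i.1 • x := fun i => by
    rw [aOf_idx hLS lam i]
    exact hx.eigen i
  exact E.pt_uni (lam.comp π) hf i (EA_unipotent hp2 hpS hp𝒪' G hsq hM0 hex hM hS η hm' hηm _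
    hatt hirr hx.smul_ne hT' hqB hqp hqM hqM2 hqN)

include hpS hLS hπ hH hb₂ hsq hM0 hex hη hx in
/-- **(frob)** the trace of Frobenius at a raising prime which does not divide the level -/
theorem lam_frob (hp2 : p ≠ 2) (i : ι) (hqB : (qB i).Prime) (hqp : qB i ≠ p)
    (hqM : ¬ qB i ∣ M) (hqN : (qB i).Coprime N) (μ : O')
    (hμ : (tFam hM hqB hqM).opH (psiRep (η ^ 2) O') x =
      (((η (ZMod.unitOfCoprime (qB i) hqN) : O'ˣ) : O') * μ) • x) :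
    lam (π (E.r (plB i).φ 0 0 + E.r (plB i).φ 1 1)) = μ := by
  obtain ⟨m', hm', hηm⟩ := hη
  obtain ⟨hf, hatt, hirr, hp𝒪'⟩ := pt_facts E hpS hLS π hπ hH b₂ hb₂ lam
  have hT' : ∀ i : Idx (↑S : Set ℕ), tw hM hS (η ^ 2) η i x = aOf lam i.1 • x := fun i => by
    rw [aOf_idx hLS lam i]
    exact hx.eigen i
  have h1 := EA_frobenius hp2 hpS hp𝒪' hsq hM0 hex hM hS η hm' hηm _ hatt hirr hx.smul_ne hT'
    hqB hqp hqM hqN hμ (plB i).lies (plB i).frob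
  have h2 := trace_eq_of_charpoly (ptRep E.D (lam.comp π) hf).finrank_eq _ _ _ h1
  rw [LinearMap.trace_eq_matrix_trace O' (bcBasis ((lam.comp π : E.D.R →ₐ[𝒪] O') : E.D.R →+* O')
    hf E.D.ρ E.b₁), ← toMat_apply, toMat_bcBasis, mapMat_apply', Matrix.trace_fin_two] at h2
  rw [map_add, map_add]
  exact h2

include hpS hLS hπ hH hb₂ hsq hη in
/-- **(new)** the new classes at a raising prime -/
theorem lam_new (hp2 : p ≠ 2) (G : GeomInputs p) (i : ι) [NeZero M] [NeZero (qB i)]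
    (hex : ∀ r : ℕ, r.Prime → r ∣ N → ¬ r * r ∣ M)
    (hqB : (qB i).Prime) (hqp : qB i ≠ p) (hqM : ¬ qB i ∣ M)
    (hS : Away (M * qB i) (↑S : Set ℕ))
    (x : H1 (gam N (M * qB i) (hM.mul_right (qB i))) (psiRep (η ^ 2) O'))
    (hx : IsPt (hM.mul_right (qB i)) hS η (fun i => lam (heckeLocal.π L (↑S : Set ℕ) 𝒪 θ
      (TIdx L (↑S : Set ℕ) hLS i))) x)
    (h1 : (trFam hM).opH (psiRep (η ^ 2) O') x = 0)
    (h2 : (nuFam hM hqB).opH (psiRep (η ^ 2) O') x = 0) :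
    lam (π (E.mB (Sum.inl i) 0 * (E.mB (Sum.inl i) 0 +
      algebraMap 𝒪 E.D.R (uB i * ((qB i : 𝒪) + 1))))) = 0 := by
  obtain ⟨m', hm', hηm⟩ := hη
  obtain ⟨hf, hatt, hirr, hp𝒪'⟩ := pt_facts E hpS hLS π hπ hH b₂ hb₂ lam
  have hT' : ∀ j : Idx (↑S : Set ℕ), tw (dvd_mul_q hM) hS (η ^ 2) η j x = aOf lam j.1 • x :=
    fun j => by
    rw [aOf_idx hLS lam j]
    exact hx.eigen j
  obtain ⟨v, hv, h3⟩ := EA_steinberg hp2 hpS hp𝒪' G hsq hex hM hS η hm' hηm _ hatt hirr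
    hx.smul_ne hT' hqB hqp hqM h1 h2
  have h4 := h3 _ (plB i).lies _ (plB i).frob
  have h5 : LinearMap.charpoly ((ptRep E.D (lam.comp π) hf).ρ (plB i).φ) =
      X ^ 2 - C (v * ((qB i : O') + 1)) * X + C ((qB i : O')) := by
    rw [h4]
    have hv2 : v * v = 1 := by rcases hv with rfl | rfl <;> norm_num
    have hC : (C v : O'[X]) * C v = 1 := by rw [← C_mul, hv2, C_1]
    rw [C_mul, C_mul, C_add, C_1]
    linear_combination (C ((qB i : O')) : O'[X]) * hC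
  have h6 := trace_eq_of_charpoly (ptRep E.D (lam.comp π) hf).finrank_eq _ _ _ h5
  rw [LinearMap.trace_eq_matrix_trace O' (bcBasis ((lam.comp π : E.D.R →ₐ[𝒪] O') : E.D.R →+* O')
    hf E.D.ρ E.b₁), ← toMat_apply, toMat_bcBasis, mapMat_apply', Matrix.trace_fin_two] at h6
  refine E.pt_new (lam.comp π) i ?_
  rw [map_add]
  have h7 : (lam.comp π) (E.r (plB i).φ 0 0) + (lam.comp π) (E.r (plB i).φ 1 1) =
      v * ((qB i : O') + 1) := h6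
  rw [h7, mul_pow]
  rcases hv with rfl | rfl <;> ring

end Facts

end Fermat.Agent.H79.PtB
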