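import Fermat.Agent.H70Lev6

/-!
# The core of the composition of the levels of S59: the local facts (helper86)

Local facts about the points of a Hecke algebra at the raising primes (`MarkFacts`), at the
primes of `T` (`TFacts`), at the Taylor-Wiles primes (`TWFacts`).
-/

set_option autoImplicit false
set_option linter.style.haveILetI false
set_option linter.unusedSectionVars false

open Matrix CongruenceSubgroup IsLocalRing CuspForm
open scoped MatrixGroups TensorProduct

namespace Fermat.Agent.H86.In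

open Fermat.Agent.H70.Coh Fermat.Agent.H70.Mod Fermat.Agent.H59 Fermat.Agent.H37.Rank
  Fermat.Agent.H30

section Facts

variable {O : Type} [CommRing O] [IsDomain O] [IsDiscreteValuationRing O]
  [IsAdicComplete (maximalIdeal O) O] [Finite (ResidueField O)] [CharZero O]
  (p : ℕ) {R : Type} [CommRing R] [Algebra O R] {L : ℕ} [NeZero L] {S : Set ℕ}
  (hSL : ∀ q : ℕ, q.Prime → q ∣ L → q ∈ S)
  {θ : heckeAlgebra L 2 S →+* ResidueField O} (π : R →ₐ[O] heckeLocal L S O θ)

/-- **The local facts at a raising prime `q`** with marks `(t, y, z)`, constant `c` and trace of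
Frobenius `τ`, at the points of the Hecke algebra occurring in the cohomology of squarefree
level. -/
structure MarkFacts (q : ℕ) (t y z : R) (c : O) (τ : R) : Prop where
  /-- level prime to `q` -/
  nr : ∀ (O' : Type) [CommRing O'] [IsDomain O'] [IsDiscreteValuationRing O']
    [IsAdicComplete (maximalIdeal O') O'] [Finite (ResidueField O')] [CharZero O']
    [Algebra O O'] [Module.Finite O O'] [IsLocalHom (algebraMap O O')],
    Function.Injective (algebraMap O O') → ∀ {N M : ℕ} (hN : N ∣ M) (hS : Away M S)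
    (_ : Squarefree M) (lam : heckeLocal L S O θ →ₐ[O] O') (η : (ZMod N)ˣ →* O'ˣ)
    (x : H1 (gam N M hN) (psiRep (η ^ 2) O')), (∃ k, η ^ p ^ k = 1) →
    IsPt hN hS η (fun i => lam (heckeLocal.π L S O θ (TIdx L S hSL i))) x →
    ¬ q ∣ M → lam (π y) = 0 ∧ lam (π z) = 0
  /-- level divisible by `q`, trivial character at `q` -/
  un : ∀ (O' : Type) [CommRing O'] [IsDomain O'] [IsDiscreteValuationRing O']
    [IsAdicComplete (maximalIdeal O') O'] [Finite (ResidueField O')] [CharZero O']
    [Algebra O O'] [Module.Finite O O'] [IsLocalHom (algebraMap O O')],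
    Function.Injective (algebraMap O O') → ∀ {N M : ℕ} (hN : N ∣ M) (hS : Away M S)
    (_ : Squarefree M) (lam : heckeLocal L S O θ →ₐ[O] O') (η : (ZMod N)ˣ →* O'ˣ)
    (x : H1 (gam N M hN) (psiRep (η ^ 2) O')), (∃ k, η ^ p ^ k = 1) →
    IsPt hN hS η (fun i => lam (heckeLocal.π L S O θ (TIdx L S hSL i))) x →
    q ∣ M → ¬ q ∣ N →
    lam (π y) * lam (π t) = 0 ∧ lam (π z) * (lam (π t) + algebraMap O O' c) = 0
  /-- the relation between `t` and the trace of Frobenius -/
  tr : ∃ v : R, IsUnit v ∧ τ ^ 2 - ((q : R) + 1) ^ 2 = v * (t * (t + algebraMap O R c))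
  /-- the eigenvalue of `T_q` -/
  frob : ∀ (O' : Type) [CommRing O'] [IsDomain O'] [IsDiscreteValuationRing O']
    [IsAdicComplete (maximalIdeal O') O'] [Finite (ResidueField O')] [CharZero O']
    [Algebra O O'] [Module.Finite O O'] [IsLocalHom (algebraMap O O')],
    Function.Injective (algebraMap O O') → ∀ {N M : ℕ} (hN : N ∣ M) (hS : Away M S)
    (_ : Squarefree M) (hq : q.Prime) (hqM : ¬ q ∣ M) (hqN : q.Coprime N)
    (lam : heckeLocal L S O θ →ₐ[O] O') (η : (ZMod N)ˣ →* O'ˣ)
    (x : H1 (gam N M hN) (psiRep (η ^ 2) O')), (∃ k, η ^ p ^ k = 1) →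
    IsPt hN hS η (fun i => lam (heckeLocal.π L S O θ (TIdx L S hSL i))) x → ∀ μ : O',
    (tFam hN hq hqM).opH (psiRep (η ^ 2) O') x =
      (((η (ZMod.unitOfCoprime q hqN) : O'ˣ) : O') * μ) • x → lam (π τ) = μ
  /-- new points -/
  new : ∀ [NeZero q] (O' : Type) [CommRing O'] [IsDomain O'] [IsDiscreteValuationRing O']
    [IsAdicComplete (maximalIdeal O') O'] [Finite (ResidueField O')] [CharZero O']
    [Algebra O O'] [Module.Finite O O'] [IsLocalHom (algebraMap O O')],
    Function.Injective (algebraMap O O') → ∀ {N M : ℕ} [NeZero M] (hN : N ∣ M)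
    (hS : Away (M * q) S) (_ : Squarefree (M * q)) (hq : q.Prime) (_ : ¬ q ∣ M)
    (lam : heckeLocal L S O θ →ₐ[O] O') (η : (ZMod N)ˣ →* O'ˣ)
    (x : H1 (gam N (M * q) (hN.mul_right q)) (psiRep (η ^ 2) O')), (∃ k, η ^ p ^ k = 1) →
    IsPt (hN.mul_right q) hS η
      (fun i => lam (heckeLocal.π L S O θ (TIdx L S hSL i))) x →
    (trFam hN).opH (psiRep (η ^ 2) O') x = 0 → (nuFam hN hq).opH (psiRep (η ^ 2) O') x = 0 →
    lam (π (t * (t + algebraMap O R c))) = 0

/-- **The local facts at a prime `q` of `T`**: `a` vanishes at points with non-trivial character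
at `q`, `b` at points with trivial character at `q`. -/
structure TFacts (q : ℕ) (a b : R) : Prop where
  prod : ∀ (O' : Type) [CommRing O'] [IsDomain O'] [IsDiscreteValuationRing O']
    [IsAdicComplete (maximalIdeal O') O'] [Finite (ResidueField O')] [CharZero O']
    [Algebra O O'] [Module.Finite O O'] [IsLocalHom (algebraMap O O')],
    Function.Injective (algebraMap O O') → ∀ {N M : ℕ} (hN : N ∣ M) (hS : Away M S)
    (_ : Squarefree M) (lam : heckeLocal L S O θ →ₐ[O] O') (η : (ZMod N)ˣ →* O'ˣ)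
    (x : H1 (gam N M hN) (psiRep (η ^ 2) O')), (∃ k, η ^ p ^ k = 1) →
    IsPt hN hS η (fun i => lam (heckeLocal.π L S O θ (TIdx L S hSL i))) x →
    q ∣ N → ¬ TrivAt N q η → lam (π a) = 0
  uni : ∀ (O' : Type) [CommRing O'] [IsDomain O'] [IsDiscreteValuationRing O']
    [IsAdicComplete (maximalIdeal O') O'] [Finite (ResidueField O')] [CharZero O']
    [Algebra O O'] [Module.Finite O O'] [IsLocalHom (algebraMap O O')],
    Function.Injective (algebraMap O O') → ∀ {N M : ℕ} (hN : N ∣ M) (hS : Away M S)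
    (_ : Squarefree M) (lam : heckeLocal L S O θ →ₐ[O] O') (η : (ZMod N)ˣ →* O'ˣ)
    (x : H1 (gam N M hN) (psiRep (η ^ 2) O')), (∃ k, η ^ p ^ k = 1) →
    IsPt hN hS η (fun i => lam (heckeLocal.π L S O θ (TIdx L S hSL i))) x →
    q ∣ M → ¬ q ∣ N → lam (π b) = 0

/-- **The local facts at a Taylor-Wiles prime `q`** with diamond parameter `c`. -/
def TWFacts (q : ℕ) (c : R) : Prop :=
  ∀ (O' : Type) [CommRing O'] [IsDomain O'] [IsDiscreteValuationRing O']
    [IsAdicComplete (maximalIdeal O') O'] [Finite (ResidueField O')] [CharZero O']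
    [Algebra O O'] [Module.Finite O O'] [IsLocalHom (algebraMap O O')],
    Function.Injective (algebraMap O O') → ∀ {N M : ℕ} (hN : N ∣ M) (hS : Away M S)
    (_ : Squarefree M) (lam : heckeLocal L S O θ →ₐ[O] O') (η : (ZMod N)ˣ →* O'ˣ)
    (x : H1 (gam N M hN) (psiRep (η ^ 2) O')), (∃ k, η ^ p ^ k = 1) →
    IsPt hN hS η (fun i => lam (heckeLocal.π L S O θ (TIdx L S hSL i))) x →
    q ∣ N → (TrivAt N q η ↔ lam (π (1 + c)) = 1)

/-- an element which vanishes at all points of level `M` -/
def VanishAt (M : ℕ) (a : R) : Prop :=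
  ∀ (O' : Type) [CommRing O'] [IsDomain O'] [IsDiscreteValuationRing O']
    [IsAdicComplete (maximalIdeal O') O'] [Finite (ResidueField O')] [CharZero O']
    [Algebra O O'] [Module.Finite O O'] [IsLocalHom (algebraMap O O')],
    Function.Injective (algebraMap O O') → ∀ {N : ℕ} (hN : N ∣ M) (_ : ¬ p ∣ N) (hS : Away M S)
    (lam : heckeLocal L S O θ →ₐ[O] O') (η : (ZMod N)ˣ →* O'ˣ)
    (x : H1 (gam N M hN) (psiRep (η ^ 2) O')), (∃ k, η ^ p ^ k = 1) →
    IsPt hN hS η (fun i => lam (heckeLocal.π L S O θ (TIdx L S hSL i))) x → lam (π a) = 0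

/-- an element which vanishes at all points of level `M` without character -/
def VanishAt₁ (M : ℕ) (a : R) : Prop :=
  ∀ (O' : Type) [CommRing O'] [IsDomain O'] [IsDiscreteValuationRing O']
    [IsAdicComplete (maximalIdeal O') O'] [Finite (ResidueField O')] [CharZero O']
    [Algebra O O'] [Module.Finite O O'] [IsLocalHom (algebraMap O O')],
    Function.Injective (algebraMap O O') → ∀ {N : ℕ} (hN : N ∣ M) (hS : Away M S)
    (lam : heckeLocal L S O θ →ₐ[O] O') (η : (ZMod N)ˣ →* O'ˣ)
    (x : H1 (gam N M hN) (psiRep (η ^ 2) O')), η = 1 →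
    IsPt hN hS η (fun i => lam (heckeLocal.π L S O θ (TIdx L S hSL i))) x → lam (π a) = 0

end Facts

end Fermat.Agent.H86.In
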