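/-
H79PtFa: the local facts (`MarkFacts`, `TFacts`, `TWFacts`) at the primes `q ≠ p` of a level with
raising primes.
-/
import Fermat.Agent.H79PtB
import Fermat.Agent.H86InFa

set_option autoImplicit false
set_option maxSynthPendingDepth 3
set_option linter.style.haveILetI false
set_option linter.unusedSectionVars false
set_option linter.unusedVariables false

noncomputable section

open IsLocalRing Polynomial CuspForm GaloisRep
open Fermat.Agent.H53 Fermat.Agent.H30 Fermat.Agent.H55 Fermat.Agent.H4 Fermat.Agent.H70.Coh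
open Fermat.Agent.H94.BR Fermat.Agent.H70.Mod Fermat.Agent.H21M

namespace Fermat.Agent.H79.PtB

/-- `p`-power order is odd order -/
theorem exists_odd_pow {p : ℕ} [Fact p.Prime] (hp2 : p ≠ 2) {G : Type*} [Monoid G] {η : G}
    (h : ∃ k, η ^ p ^ k = 1) : ∃ m, Odd m ∧ η ^ m = 1 := by
  obtain ⟨k, hk⟩ := h
  exact ⟨p ^ k, ((Fact.out : p.Prime).odd_of_ne_two hp2).pow, hk⟩

/-- squarefree levels are exact -/
theorem hex_of_squarefree {N M : ℕ} (hM : Squarefree M) :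
    ∀ r : ℕ, r.Prime → r ∣ N → ¬ r * r ∣ M := fun r hr _ h =>
  hr.not_isUnit (hM r h)

variable {𝒪 : Type} [CommRing 𝒪] [IsDomain 𝒪] [IsDiscreteValuationRing 𝒪]
    [IsAdicComplete (maximalIdeal 𝒪) 𝒪] [Finite (ResidueField 𝒪)] [CharZero 𝒪]
  {p : ℕ} [Fact p.Prime] {ρbar : ResidualGaloisRep (ResidueField 𝒪)}
  {b : Module.Basis (Fin 2) (ResidueField 𝒪) ρbar.V} {pd : PData p ρbar b} {A : Finset ℕ}
  {τ ι : Type} [Fintype τ] [Fintype ι] {qT : τ → ℕ} {pl : ∀ t, PlaceData p (qT t)} {u : τ → 𝒪}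
  {qB : ι → ℕ} {plB : ∀ i, PlaceData p (qB i)} {uB : ι → 𝒪} {k n : ℕ} {S₀ : Finset ℕ}
  (E : GalLevelB p ρbar b pd A qT pl u qB plB uB k n S₀)
  {L : ℕ} [NeZero L] {S : Finset ℕ} (hpS : p ∈ S) (hLS : ∀ q : ℕ, q.Prime → q ∣ L → q ∈ S)
  {θ : heckeAlgebra L 2 (↑S : Set ℕ) →+* ResidueField 𝒪}
  (π : E.D.R →ₐ[𝒪] heckeLocal L (↑S : Set ℕ) 𝒪 θ) (hπ : Function.Surjective π)
  {H : HeckeGaloisRepDatum L (↑S : Set ℕ) 𝒪 θ (heckeLocal L (↑S : Set ℕ) 𝒪 θ)}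
  (hH : H.π = heckeLocal.π L (↑S : Set ℕ) 𝒪 θ)
  (b₂ : Module.Basis (Fin 2) (heckeLocal L (↑S : Set ℕ) 𝒪 θ) H.ρ.V)
  (hb₂ : toMat H.ρ.ρ b₂ =
    mapMat (π : E.D.R →+* heckeLocal L (↑S : Set ℕ) 𝒪 θ) (toMat E.D.ρ.ρ E.b₁))

include hpS hπ hH hb₂ in
/-- **The local facts at a raising prime `q ≠ p`.** -/
theorem markFacts (hp2 : p ≠ 2) (G : GeomInputs p) (i : ι) (hqB : (qB i).Prime)
    (hqp : qB i ≠ p) :
    H86.In.MarkFacts p hLS π (qB i) (E.mB (Sum.inl i) 0) (E.mB (Sum.inl i) 1)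
      (E.mB (Sum.inl i) 2) (uB i * ((qB i : 𝒪) + 1))
      (E.r (plB i).φ 0 0 + E.r (plB i).φ 1 1) where
  nr O' _ _ _ _ _ _ _ _ _ _ N M hN hS hsq lam η x hη hx hqM :=
    lam_nr E hpS hLS π hπ hH b₂ hb₂ (hsq.squarefree_of_dvd hN)
      (Nat.pos_of_ne_zero hsq.ne_zero) (hex_of_squarefree hsq) hN hS lam η x
      (exists_odd_pow hp2 hη) hx hp2 i hqB hqp hqM
  un O' _ _ _ _ _ _ _ _ _ _ N M hN hS hsq lam η x hη hx hqM hqN :=
    lam_un E hpS hLS π hπ hH b₂ hb₂ (hsq.squarefree_of_dvd hN)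
      (Nat.pos_of_ne_zero hsq.ne_zero) (hex_of_squarefree hsq) hN hS lam η x
      (exists_odd_pow hp2 hη) hx hp2 G i hqB hqp hqM (fun h => hqB.not_isUnit (hsq _ h)) hqN
  tr := E.h_eq i
  frob O' _ _ _ _ _ _ _ _ _ _ N M hN hS hsq hq hqM hqN lam η x hη hx μ hμ :=
    lam_frob E hpS hLS π hπ hH b₂ hb₂ (hsq.squarefree_of_dvd hN)
      (Nat.pos_of_ne_zero hsq.ne_zero) (hex_of_squarefree hsq) hN hS lam η x
      (exists_odd_pow hp2 hη) hx hp2 i hq hqp hqM hqN μ hμ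
  new O' _ _ _ _ _ _ _ _ _ _ N M _ hN hS hsq hq hqM lam η x hη hx h1 h2 :=
    have hM : Squarefree M := hsq.squarefree_of_dvd (dvd_mul_right _ _)
    lam_new E hpS hLS π hπ hH b₂ hb₂ (hM.squarefree_of_dvd hN) hN lam η
      (exists_odd_pow hp2 hη) hp2 G i (hex_of_squarefree hM) hq hqp hqM hS x hx h1 h2

include hpS hπ hH hb₂ in
/-- **The local facts at the primes of `T`.** -/
theorem tFacts (hp2 : p ≠ 2) (G : GeomInputs p) {t : τ} (hqT : (qT t).Prime)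
    (hunr : ρbar.IsUnramifiedAt (qT t)) {a m : ℕ} (hqa : qT t - 1 = p ^ a * m) (hm : ¬ p ∣ m)
    (ha : 0 < a) {ζ : 𝒪} (hζ : IsPrimitiveRoot ζ (p ^ a)) :
    H86.In.TFacts p hLS π (qT t)
      (∏ z ∈ ntRoots 𝒪 p a, (E.r (pl t).σ 0 0 + E.r (pl t).σ 1 1 -
        algebraMap 𝒪 E.D.R ((z : 𝒪) + (z⁻¹ : 𝒪ˣ))))
      (E.r (pl t).σ 0 0 + E.r (pl t).σ 1 1 - 2) where
  prod O' _ _ _ _ _ _ _ _ _ hinj N M hN hS hsq lam η x hη hx _ hT :=
    lam_prodElt E hpS hLS π hπ hH b₂ hb₂ (hsq.squarefree_of_dvd hN)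
      (Nat.pos_of_ne_zero hsq.ne_zero) (hex_of_squarefree hsq) hN hS lam η x
      (exists_odd_pow hp2 hη) hx hp2 G hinj hqT hunr hqa hm ha hζ hT
  uni O' _ _ _ _ _ _ _ _ _ _ N M hN hS hsq lam η x hη hx hqM hqN :=
    lam_uniElt E hpS hLS π hπ hH b₂ hb₂ (hsq.squarefree_of_dvd hN)
      (Nat.pos_of_ne_zero hsq.ne_zero) (hex_of_squarefree hsq) hN hS lam η x
      (exists_odd_pow hp2 hη) hx hp2 G hqT (fun h => by
        have h1 : p ∣ qT t - 1 := by rw [hqa]; exact dvd_mul_of_dvd_left (dvd_pow_self p ha.ne') _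
        have h2 := Nat.le_of_dvd (by have := hqT.two_le; omega) h1
        have := hqT.two_le
        omega) hqM (fun h => hqT.not_isUnit (hsq _ h)) hqN

include hpS hπ hH hb₂ in
/-- the `T`-facts with `a = v_p (q - 1)` -/
theorem tFacts' (hp2 : p ≠ 2) (G : GeomInputs p) {t : τ} (hqT : (qT t).Prime)
    (hdvd : p ∣ qT t - 1) (hunr : ρbar.IsUnramifiedAt (qT t)) {a : ℕ} {ζ : 𝒪}
    (ha : padicValNat p (qT t - 1) ≤ a) (hζ : IsPrimitiveRoot ζ (p ^ a)) :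
    H86.In.TFacts p hLS π (qT t)
      (∏ z ∈ ntRoots 𝒪 p (padicValNat p (qT t - 1)), (E.r (pl t).σ 0 0 + E.r (pl t).σ 1 1 -
        algebraMap 𝒪 E.D.R ((z : 𝒪) + (z⁻¹ : 𝒪ˣ))))
      (E.r (pl t).σ 0 0 + E.r (pl t).σ 1 1 - 2) := by
  have hq1 : qT t - 1 ≠ 0 := by have := hqT.two_le; omega
  obtain ⟨m, hm⟩ : p ^ padicValNat p (qT t - 1) ∣ qT t - 1 := pow_padicValNat_dvd
  refine tFacts E hpS hLS π hπ hH b₂ hb₂ hp2 G hqT hunr (m := m) hm ?_ ?_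
    (ζ := ζ ^ p ^ (a - padicValNat p (qT t - 1))) ?_
  · rintro ⟨c, rfl⟩
    have h1 : p ^ (padicValNat p (qT t - 1) + 1) ∣ qT t - 1 := by
      rw [pow_succ]
      exact ⟨c, by rw [mul_assoc]; exact hm⟩
    exact pow_succ_padicValNat_not_dvd hq1 h1
  · exact Nat.pos_of_ne_zero fun h0 => by
      have := one_le_padicValNat_of_dvd hq1 hdvd
      omega
  · refine hζ.pow (pow_pos (Fact.out : p.Prime).pos _) ?_
    rw [← pow_add]
    congr 1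
    omega

include hpS hπ hH hb₂ in
/-- **The local facts at the Taylor-Wiles primes.** -/
theorem twFacts (hp2 : p ≠ 2) (G : GeomInputs p) (j : Fin (numB τ ι pd.ε k)) :
    H86.In.TWFacts p hLS π (E.qv j) (E.c j) :=
  fun O' _ _ _ _ _ _ _ _ _ _ N M hN hS hsq lam η x hη hx hqN =>
    lam_c_iff E hpS hLS π hπ hH b₂ hb₂ (hsq.squarefree_of_dvd hN)
      (Nat.pos_of_ne_zero hsq.ne_zero) (hex_of_squarefree hsq) hN hS lam η x
      (exists_odd_pow hp2 hη) hx hp2 G j hqN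

end Fermat.Agent.H79.PtB
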