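import Fermat.Agent.H70Lev4

/-!
# Points of the localised modules
-/

set_option autoImplicit false
set_option linter.style.haveILetI false

open Matrix CongruenceSubgroup IsLocalRing CuspForm
open scoped MatrixGroups TensorProduct

namespace Fermat.Agent.H70.Mod

open Fermat.Agent.H70.Coh Fermat.Agent.H59 Fermat.Agent.H37.Rank Fermat.Agent.H30

section Pt

variable {N M : ℕ} (hM : N ∣ M) {S : Set ℕ} (hS : Away M S) {O' : Type} [CommRing O']

/-- A non-torsion eigenclass for the normalised operators. -/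
structure IsPt (η : (ZMod N)ˣ →* O'ˣ) (lam : Idx S → O')
    (y : H1 (gam N M hM) (psiRep (η ^ 2) O')) : Prop where
  smul_ne : ∀ c : O', c ≠ 0 → c • y ≠ 0
  eigen : ∀ i, tw hM hS (η ^ 2) η i y = lam i • y

end Pt

section Aux

lemma sq_pow_eq_one {G : Type*} [CommMonoid G] {x : G} {n : ℕ} (h : x ^ n = 1) :
    (x ^ 2) ^ n = 1 := by
  rw [← pow_mul, mul_comm, pow_mul, h, one_pow]

/-- non-zero vectors of free modules over domains are not torsion -/
lemma smul_ne_zero_of_free {R H : Type} [CommRing R] [IsDomain R] [AddCommGroup H] [Module R H]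
    (X : Submodule R H) [Module.Free R X] (y : X) (hy : y ≠ 0) (c : R) (hc : c ≠ 0) :
    c • (y : H) ≠ 0 := by
  intro h
  have h1 : c • y = 0 := Subtype.ext h
  rcases smul_eq_zero.mp h1 with h2 | h2
  · exact hc h2
  · exact hy h2

variable {N M : ℕ} [NeZero M] (hM : N ∣ M) {S : Set ℕ} (hS : Away M S)
  {O : Type} [CommRing O]
  {κ : Type} [Field κ] {θ : MvPolynomial (Idx S) O →+* κ} {e : MvPolynomial (Idx S) O}
  {p : ℕ} (hp : p.Prime) {O' : Type} [CommRing O'] [IsDomain O'] [IsLocalRing O'] [Algebra O O']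
  (hpO' : (p : O') ∈ maximalIdeal O') (hgO' : Good M O')
  (i₀ : Idx S) (hi₀ : θ (MvPolynomial.X i₀) ≠ 1 + (i₀.1 : κ))

include hp hpO' hgO' hi₀ in
lemma isPt_of_mact {ψ η : (ZMod N)ˣ →* O'ˣ} (hψ : ψ = η ^ 2) {s : ℕ} (hη : η ^ p ^ s = 1)
    (hψ1 : ψ (-1) = 1)
    (he : IsLocIdem (tw hM hS ψ η) (tw_comm hM hS ψ η) θ e) (y : MLoc hM hS ψ η e) (hy : y ≠ 0)
    (lam : MvPolynomial (Idx S) O → O') (hlam : ∀ P, mact hM hS ψ η e P y = lam P • y) :
    ∃ z : H1 (gam N M hM) (psiRep (η ^ 2) O'),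
      IsPt hM hS η (fun i => lam (MvPolynomial.X i)) z ∧
      act (tw hM hS (η ^ 2) η) (tw_comm hM hS (η ^ 2) η) e z = z := by
  subst hψ
  have hη2 : (η ^ 2) ^ p ^ s = 1 := sq_pow_eq_one hη
  obtain ⟨h1, -⟩ := loc_free hM hS (η ^ 2) η hgO' hψ1 he (resTriv_of_pow hp hpO' hη2)
    (resTriv_of_pow hp hpO' hη) i₀ hi₀
  refine ⟨y, ⟨fun c hc => smul_ne_zero_of_free _ y hy c hc, fun i => ?_⟩, ?_⟩
  · have h2 := congrArg Subtype.val (hlam (MvPolynomial.X i))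
    have h3 := mact_coe hM hS (η ^ 2) η e (MvPolynomial.X i) y
    have h4 : act (tw hM hS (η ^ 2) η) (tw_comm hM hS (η ^ 2) η) (MvPolynomial.X i : MvPolynomial
      (Idx S) O) = tw hM hS (η ^ 2) η i := act_X _ _ i
    rw [h4] at h3
    exact h3.symm.trans h2
  · exact (mem_loc he.idem).mp y.2

end Aux

section Main

variable {N M : ℕ} [NeZero M] (hM : N ∣ M) {S : Set ℕ} (hS : Away M S)
  {O : Type} [CommRing O]
  {Δ : Type} [CommGroup Δ] [Finite Δ] {η : (ZMod N)ˣ →* (MonoidAlgebra O Δ)ˣ}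
  {κ : Type} [Field κ] {θ : MvPolynomial (Idx S) O →+* κ} {e : MvPolynomial (Idx S) O}
  {p : ℕ} (hp : p.Prime)
  (hgΛ : Good M (MonoidAlgebra O Δ))
  (heΛ : IsLocIdem (tw hM hS (η ^ 2) η) (tw_comm hM hS (η ^ 2) η) θ e)
  (i₀ : Idx S) (hi₀ : θ (MvPolynomial.X i₀) ≠ 1 + (i₀.1 : κ))
  {O' : Type} [CommRing O'] [IsDomain O'] [IsLocalRing O'] [CharZero O'] [Algebra O O']
  (hpO' : (p : O') ∈ maximalIdeal O')

lemma sq_neg_one {G : Type*} [CommGroup G] {N : ℕ} (η : (ZMod N)ˣ →* G) :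
    (η ^ 2) (-1) = 1 := by
  rw [MonoidHom.pow_apply, ← map_pow, neg_one_sq, map_one]

include hp hgΛ heΛ hi₀ hpO' in
/-- **From eigenvectors in `O' ⊗_O M` to classes over `O'`.** -/
theorem exists_pt {s : ℕ} (hη : η ^ p ^ s = 1) [Module.Free O (MLoc hM hS (η ^ 2) η e)]
    (v : O' ⊗[O] MLoc hM hS (η ^ 2) η e) (hv : v ≠ 0) (χ : Δ →* O'ˣ)
    (hχ : ∀ g, (diam hM hS (η ^ 2) η e g).baseChange O' v = ((χ g : O'ˣ) : O') • v)
    (lam : MvPolynomial (Idx S) O → O')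
    (hlam : ∀ P, (mactO hM hS (η ^ 2) η e P).baseChange O' v = lam P • v) :
    ∃ z : H1 (gam N M hM) (psiRep ((psiMap (evC (O := O) χ).toRingHom η) ^ 2) O'),
      IsPt hM hS (psiMap (evC (O := O) χ).toRingHom η) (fun i => lam (MvPolynomial.X i)) z ∧
      act (tw hM hS ((psiMap (evC (O := O) χ).toRingHom η) ^ 2)
        (psiMap (evC (O := O) χ).toRingHom η)) (tw_comm hM hS _ _) e z = z := by
  obtain ⟨y, hy, hyl⟩ := exists_point hM hS (η ^ 2) η hgΛ (sq_neg_one η) heΛ v hv χ hχ lam hlam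
  have h1 : psiMap (evC (O := O) χ).toRingHom (η ^ 2) =
      (psiMap (evC (O := O) χ).toRingHom η) ^ 2 := psiMap_pow _ _ _
  have h2 : (psiMap (evC (O := O) χ).toRingHom η) ^ p ^ s = 1 := by
    rw [← psiMap_pow, hη, psiMap_one]
  have h3 : psiMap (evC (O := O) χ).toRingHom (η ^ 2) (-1) = 1 := by
    rw [h1, sq_neg_one]
  exact isPt_of_mact hM hS hp hpO' (good_map (evC (O := O) χ).toRingHom hgΛ) i₀ hi₀ h1 h2 h3
    (isLocIdem_bc hM hS (η ^ 2) η hgΛ (sq_neg_one η) (evC (O := O) χ).toRingHom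
      (fun a => (evC (O := O) χ).commutes a) heΛ) y hy lam hyl

end Main

end Fermat.Agent.H70.Mod
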