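import Fermat.Agent.H86FM
import Fermat.Agent.H68TwAtt
import Fermat.Agent.H70Lev5
import Fermat.Agent.H69Pt

/-!
# The witness of non-modularity, point form

`fm_point`: let `P` be an integral relation between the Hecke operators of level `N₀`; then the
element `trElt r P` of the deformation ring vanishes at all points coming from classes without
character at the levels `N₀ ∏ Q`, `Q` a set of Taylor-Wiles primes (not occurring in `P`).
-/

set_option autoImplicit false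
set_option linter.style.haveILetI false
set_option linter.unusedSectionVars false

noncomputable section

open IsLocalRing Polynomial CuspForm GaloisRep
open Fermat.Agent.H53 Fermat.Agent.H30 Fermat.Agent.H4 Fermat.Agent.H70.Coh
open Fermat.Agent.H94.BR Fermat.Agent.H70.Mod Fermat.Agent.H37.Rank Fermat.Agent.H59
open Fermat.Agent.H68.Tw Fermat.Agent.H69.Pt

namespace Fermat.Agent.H86.FM

section ToHH

variable {S : Finset ℕ} {𝒪' : Type} [CommRing 𝒪'] [IsDomain 𝒪'] [IsDiscreteValuationRing 𝒪']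
    [IsAdicComplete (IsLocalRing.maximalIdeal 𝒪') 𝒪'] [Finite (IsLocalRing.ResidueField 𝒪')]
    [CharZero 𝒪']

/-- from a non-torsion class over `𝒪'` with trivial character to an eigenclass over the
fraction field -/
theorem exists_eig {N' M : ℕ} (hM : N' ∣ M) (hS : Away M (↑S : Set ℕ))
    (η : (ZMod N')ˣ →* 𝒪'ˣ) (hη : η = 1) {lam : ℕ → 𝒪'}
    {x : H1 (gam N' M hM) (psiRep (η ^ 2) 𝒪')} (hx : ∀ c : 𝒪', c ≠ 0 → c • x ≠ 0)
    (hT : ∀ i : Idx (↑S : Set ℕ), tw hM hS (η ^ 2) η i x = lam i.1 • x) :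
    ∃ y : HH (FractionRing 𝒪') M, y ≠ 0 ∧ Eig S lam y := by
  have hψ : psiMap (algebraMap 𝒪' (FractionRing 𝒪')) (η ^ 2) =
      (1 : (ZMod 1)ˣ →* (FractionRing 𝒪')ˣ).comp (ZMod.unitsMap (one_dvd N')) := by
    have hone : (1 : (ZMod N')ˣ →* 𝒪'ˣ) ^ 2 = 1 := MonoidHom.ext fun _ => one_pow 2
    rw [hη, hone, H70.Mod.psiMap_one, MonoidHom.one_comp]
  refine ⟨h1Lev (one_dvd N') hM (one_dvd M) hψ (FractionRing 𝒪')
    (h1S hM (η ^ 2) (algebraMap 𝒪' (FractionRing 𝒪')) x), ?_, ?_⟩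
  · intro h
    exact h1S_ne_zero (K := FractionRing 𝒪') hM (η ^ 2) hx
      ((LinearEquiv.map_eq_zero_iff _).mp h)
  · intro ℓ hℓ hℓM hc hℓS
    have hc' : ℓ.Coprime N' :=
      (Nat.Prime.coprime_iff_not_dvd hℓ).mpr (fun h => hℓM (h.trans hM))
    have h1 := tFam_h1S_of_tw hM hS η hT hℓ hℓS hℓM hc'
    have h2 : ((psiMap (algebraMap 𝒪' (FractionRing 𝒪')) η (ZMod.unitOfCoprime ℓ hc') :
        (FractionRing 𝒪')ˣ) : FractionRing 𝒪') = 1 := by
      rw [hη, H70.Mod.psiMap_one]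
      rfl
    rw [h2, one_smul] at h1
    rw [tFam_h1Lev, h1, map_smul, MonoidHom.one_apply, Units.val_one, one_mul]

end ToHH

section Res

variable {𝒪 : Type} [CommRing 𝒪] [IsDomain 𝒪] [IsDiscreteValuationRing 𝒪]
    [IsAdicComplete (maximalIdeal 𝒪) 𝒪]

/-- the Frobenius elements at `q` have distinct eigenvalues (in the coefficient field) -/
def DistinctAt (ρbar : ResidualGaloisRep (ResidueField 𝒪)) (q : ℕ) : Prop :=
  ∀ P : ValuationSubring (AlgebraicClosure ℚ), P.LiesOverPrime q →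
    ∀ φ : AlgebraicClosure ℚ ≃ₐ[ℚ] AlgebraicClosure ℚ, P.IsFrobeniusAt φ q →
      ∃ α β : ResidueField 𝒪, α ≠ β ∧ LinearMap.charpoly (ρbar.ρ φ) = (X - C α) * (X - C β)

variable {ρbar : ResidualGaloisRep (ResidueField 𝒪)}
  {𝒟 : ∀ ⦃A : Type⦄ [CommRing A] [IsLocalRing A] [Algebra 𝒪 A], GaloisRepAdic A → Prop}
  (D : DeformationRingData 𝒪 ρbar 𝒟)
  {O' : Type} [CommRing O'] [IsLocalRing O'] [Algebra 𝒪 O'] [IsLocalHom (algebraMap 𝒪 O')]

lemma charpoly_equiv {k : Type} [Field k] {ρ ρ' : ResidualGaloisRep k} (h : ρ.IsEquiv ρ')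
    (σ : AlgebraicClosure ℚ ≃ₐ[ℚ] AlgebraicClosure ℚ) :
    LinearMap.charpoly (ρ.ρ σ) = LinearMap.charpoly (ρ'.ρ σ) := by
  obtain ⟨e⟩ := h
  have h1 : ρ'.ρ σ = e.toLinearEquiv.conj (ρ.ρ σ) := by
    apply LinearMap.ext
    intro x
    obtain ⟨y, rfl⟩ := e.toLinearEquiv.surjective x
    rw [LinearEquiv.conj_apply_apply, LinearEquiv.symm_apply_apply]
    exact (e.map_apply σ y).symm
  rw [h1, LinearEquiv.charpoly_conj]

/-- the residual characteristic polynomials at a point of the deformation ring -/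
theorem charpoly_residual_pt (f : D.R →ₐ[𝒪] O') (hf : IsLocalHom (f : D.R →+* O'))
    (σ : AlgebraicClosure ℚ ≃ₐ[ℚ] AlgebraicClosure ℚ) :
    (LinearMap.charpoly ((ptRep D f hf).ρ σ)).map (residue O') =
      (LinearMap.charpoly (ρbar.ρ σ)).map (ResidueField.map (algebraMap 𝒪 O')) := by
  have h1 := charpoly_equiv (residual_bc_isEquiv ρbar f hf D.ρ D.residual_isEquiv) σ
  have h2 : LinearMap.charpoly ((ptRep D f hf).residual.ρ σ) =
      (LinearMap.charpoly ((ptRep D f hf).ρ σ)).map (residue O') :=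
    LinearMap.charpoly_baseChange ((ptRep D f hf).ρ σ) (ResidueField O')
  have h3 : LinearMap.charpoly
      ((ρbar.baseChangeAlong (ResidueField.map (algebraMap 𝒪 O'))).ρ σ) =
      (LinearMap.charpoly (ρbar.ρ σ)).map (ResidueField.map (algebraMap 𝒪 O')) := by
    let _ : Algebra (ResidueField 𝒪) (ResidueField O') :=
      (ResidueField.map (algebraMap 𝒪 O')).toAlgebra
    exact LinearMap.charpoly_baseChange (ρbar.ρ σ) (ResidueField O')
  rw [← h2, ← h3]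
  exact h1

/-- Taylor-Wiles primes at the points -/
theorem twAt_pt {O' : Type} [CommRing O'] [IsDomain O'] [IsDiscreteValuationRing O']
    [Algebra 𝒪 O'] [IsLocalHom (algebraMap 𝒪 O')]
    (f : D.R →ₐ[𝒪] O') (hf : IsLocalHom (f : D.R →+* O')) {p q : ℕ}
    (hp𝒪 : (p : 𝒪) ∈ maximalIdeal 𝒪) (hq : q.Prime) (hpq : p ∣ q - 1)
    (hd : DistinctAt ρbar q) : TWAt (ptRep D f hf) q := by
  constructor
  · have h1 : ((p : ℕ) : ResidueField O') = 0 := by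
      have h2 : residue 𝒪 (p : 𝒪) = 0 := (residue_eq_zero_iff _).mpr hp𝒪
      have h3 := congrArg (ResidueField.map (algebraMap 𝒪 O')) h2
      rwa [map_natCast, map_natCast, map_zero] at h3
    obtain ⟨c, hc⟩ := hpq
    have h2 : q = p * c + 1 := by have := hq.one_lt; omega
    rw [h2, Nat.cast_add, Nat.cast_mul, h1, zero_mul, zero_add, Nat.cast_one]
  · obtain ⟨P, hP, hφ⟩ := frobElt_spec hq
    refine ⟨P, hP, frobElt q, hφ, fun v hv => ?_⟩
    obtain ⟨α, β, hne, h1⟩ := hd P hP _ hφ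
    rw [charpoly_residual_pt D f hf, h1, Polynomial.map_mul, Polynomial.map_sub,
      Polynomial.map_sub, Polynomial.map_X, Polynomial.map_C, Polynomial.map_C] at hv
    set ι := ResidueField.map (algebraMap 𝒪 O') with hι
    have h2 : ∀ c : ResidueField O', (c - ι α) * (c - ι β) = (c - v) ^ 2 := fun c => by
      have := congrArg (Polynomial.eval c) hv
      simpa using this
    have h3 : ι α = v := by
      have := h2 (ι α)
      rw [sub_self, zero_mul] at this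
      exact sub_eq_zero.mp (pow_eq_zero_iff two_ne_zero |>.mp this.symm)
    have h4 : ι β = v := by
      have := h2 (ι β)
      rw [sub_self, mul_zero] at this
      exact sub_eq_zero.mp (pow_eq_zero_iff two_ne_zero |>.mp this.symm)
    exact hne (ι.injective (h3.trans h4.symm))

end Res

section Point

variable {𝒪 : Type} [CommRing 𝒪] [IsDomain 𝒪] [IsDiscreteValuationRing 𝒪]
    [IsAdicComplete (maximalIdeal 𝒪) 𝒪] [Finite (ResidueField 𝒪)] [CharZero 𝒪]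
  {p : ℕ} [Fact p.Prime] {ρbar : ResidualGaloisRep (ResidueField 𝒪)}
  {𝒟 : ∀ ⦃A : Type⦄ [CommRing A] [IsLocalRing A] [Algebra 𝒪 A], GaloisRepAdic A → Prop}
  (D : DeformationRingData 𝒪 ρbar 𝒟) (b₁ : Module.Basis (Fin 2) D.R D.ρ.V)
  {L : ℕ} [NeZero L] {S : Finset ℕ} (hpS : p ∈ S) (hLS : ∀ q : ℕ, q.Prime → q ∣ L → q ∈ S)
  {θ : heckeAlgebra L 2 (↑S : Set ℕ) →+* ResidueField 𝒪}
  (π : D.R →ₐ[𝒪] heckeLocal L (↑S : Set ℕ) 𝒪 θ) (hπ : Function.Surjective π)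
  {H : HeckeGaloisRepDatum L (↑S : Set ℕ) 𝒪 θ (heckeLocal L (↑S : Set ℕ) 𝒪 θ)}
  (hH : H.π = heckeLocal.π L (↑S : Set ℕ) 𝒪 θ)
  (b₂ : Module.Basis (Fin 2) (heckeLocal L (↑S : Set ℕ) 𝒪 θ) H.ρ.V)
  (hb₂ : toMat H.ρ.ρ b₂ =
    mapMat (π : D.R →+* heckeLocal L (↑S : Set ℕ) 𝒪 θ) (toMat D.ρ.ρ b₁))
  {O' : Type} [CommRing O'] [IsDomain O'] [IsDiscreteValuationRing O']
  [IsAdicComplete (maximalIdeal O') O'] [Finite (ResidueField O')] [CharZero O']
  [Algebra 𝒪 O'] [Module.Finite 𝒪 O'] [IsLocalHom (algebraMap 𝒪 O')]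

include hLS hH hb₂ in
/-- the value of the element attached to a relation at a point of the Hecke algebra -/
theorem lam_trElt (lam : heckeLocal L (↑S : Set ℕ) 𝒪 θ →ₐ[𝒪] O') {S₀ : Set ℕ}
    (P : MvPolynomial {ℓ : ℕ // ℓ.Prime ∧ ℓ ∉ S₀} ℤ) (hvars : ∀ i ∈ P.vars, i.1 ∉ S) :
    lam (π (trElt (toMat D.ρ.ρ b₁) P)) = MvPolynomial.aeval (fun i => aOf lam i.1) P := by
  refine map_trElt (((lam.comp π : D.R →ₐ[𝒪] O') : D.R →+* O')) (toMat D.ρ.ρ b₁) P
    (fun i => aOf lam i.1) fun i hi => ?_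
  have hiS := hvars i hi
  have hiS' : i.1 ∉ (↑S : Set ℕ) := by simpa using hiS
  have hiL : ¬ i.1 ∣ L := fun h => hiS (hLS i.1 i.2.1 h)
  obtain ⟨A, hA, hφ⟩ := frobElt_spec i.2.1
  obtain ⟨h1, -⟩ := trace_det_frob hH b₂ i.2.1 hiL hiS' hA hφ
  rw [hb₂, Matrix.trace_fin_two] at h1
  rw [aOf_eq lam i.2.1 hiL hiS', ← h1, map_add, map_add]
  rfl

include hpS hLS hπ hH hb₂ in
/-- **The witness of non-modularity vanishes at the points of level `N₀ ∏ Q`.** -/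
theorem fm_point (hp2 : p ≠ 2) (hp𝒪 : (p : 𝒪) ∈ maximalIdeal 𝒪) (G : GeomInputs p)
    -- the relation
    {N₀ : ℕ} [NeZero N₀] {S₀ : Set ℕ} (hS₀ : ∀ q : ℕ, q.Prime → q ∣ N₀ → q ∈ S₀)
    (hSS : ∀ ℓ ∈ S₀, ℓ ∈ S) (P : MvPolynomial {ℓ : ℕ // ℓ.Prime ∧ ℓ ∉ S₀} ℤ)
    (hP : evZ N₀ S₀ hS₀ P = 0) (hvars : ∀ i ∈ P.vars, i.1 ∉ S)
    -- the Taylor-Wiles primes
    (Q : Finset ℕ) (hQ : ∀ q ∈ Q, q.Prime ∧ p ∣ q - 1 ∧ ¬ q ∣ N₀ ∧ DistinctAt ρbar q)
    {M : ℕ} (hM : M = N₀ * ∏ q ∈ Q, q) {N' : ℕ} (hN' : N' ∣ M) (hS : Away M (↑S : Set ℕ))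
    -- the point
    (lam : heckeLocal L (↑S : Set ℕ) 𝒪 θ →ₐ[𝒪] O') (η : (ZMod N')ˣ →* O'ˣ) (hη : η = 1)
    (x : H1 (gam N' M hN') (psiRep (η ^ 2) O')) (hx : ∀ c : O', c ≠ 0 → c • x ≠ 0)
    (hlam : ∀ i : Idx (↑S : Set ℕ), tw hN' hS (η ^ 2) η i x =
      lam (heckeLocal.π L (↑S : Set ℕ) 𝒪 θ (TIdx L (↑S : Set ℕ) hLS i)) • x) :
    lam (π (trElt (toMat D.ρ.ρ b₁) P)) = 0 := by
  haveI h1 : IsLocalHom (lam : heckeLocal L (↑S : Set ℕ) 𝒪 θ →+* O') := isLocalHom_of_finite lam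
  haveI h2 : IsLocalHom (π : D.R →+* heckeLocal L (↑S : Set ℕ) 𝒪 θ) :=
    IsLocalHom.of_surjective _ hπ
  have hf : IsLocalHom ((lam.comp π : D.R →ₐ[𝒪] O') : D.R →+* O') :=
    RingHom.isLocalHom_comp (lam : heckeLocal L (↑S : Set ℕ) 𝒪 θ →+* O')
      (π : D.R →+* heckeLocal L (↑S : Set ℕ) 𝒪 θ)
  have hatt := ptRep_isAttached D hLS hH b₁ b₂ π hb₂ lam hf
  have hirr := ptRep_residual_irreducible D (lam.comp π) hf
  have hp𝒪' : (p : O') ∈ maximalIdeal O' := by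
    have h1 : algebraMap 𝒪 O' (p : 𝒪) ∈ maximalIdeal O' := by
      rw [mem_maximalIdeal, mem_nonunits_iff]
      intro h
      exact (mem_nonunits_iff.mp ((mem_maximalIdeal _).mp hp𝒪)) (isUnit_of_map_unit _ _ h)
    rwa [map_natCast] at h1
  obtain ⟨y, hy, hT⟩ := exists_eig (lam := aOf lam) hN' hS η hη hx (fun i => by
    rw [aOf_idx hLS lam i]
    exact hlam i)
  rw [lam_trElt D b₁ hLS π hH b₂ hb₂ lam P hvars]
  refine relation (p := p) (K₁ := FractionRing O') hp2 hpS hp𝒪' G hS₀ hSS P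
    ((evHA_eq_evZ hS₀ P).trans hP) hvars (ptRep D (lam.comp π) hf) hatt hirr Q
    (fun q hq => ?_) hM (fun r hr hrM => ?_) y hy hT
  · obtain ⟨h1, h2, h3, h4⟩ := hQ q hq
    refine ⟨h1, ?_, h3, twAt_pt D (lam.comp π) hf hp𝒪 h1 h2 h4⟩
    rintro rfl
    have h5 := h1.two_le
    have h6 := Nat.le_of_dvd (by omega) h2
    omega
  · by_contra hrS
    exact hS.not_dvd ⟨r, hr, by simpa using hrS⟩ hrM

end Point

end Fermat.Agent.H86.FM

end
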