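import Fermat.Agent.H86In2
import Fermat.Agent.H86InPH
import Fermat.Agent.H86FM2
import Fermat.Agent.H79PtFa
import Fermat.Agent.H35Rk
import Fermat.Agent.H30S59b
import Fermat.Agent.H30Lev
import Fermat.Agent.H53RPart
import Fermat.Agent.H10NE

/-!
# The levels of S59 at a fixed Taylor-Wiles datum

`inner_level` : the Galois side of a level can be completed by the Hecke side.
-/

set_option autoImplicit false
set_option linter.style.haveILetI false
set_option linter.unusedSectionVars false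

noncomputable section

open IsLocalRing CuspForm GaloisRep
open Fermat.Agent.H53 (toMat mapMat PData PlaceData GalLevelB numB)
open Fermat.Agent.H59 (Tset Zset CoeffChoice thetaW thetaW_C thetaW_X evHA evHA_X IsLocIdem Loc)
open Fermat.Agent.H87.Glue (resZ)
open Fermat.Agent.H87.S58 (tO)
open Fermat.Agent.H73LT (nodeSign)
open Fermat.Agent.H69.Red (Partition baseLevel)
open Fermat.Agent.H70.Coh Fermat.Agent.H70.Mod Fermat.Agent.H37.Rank
open Fermat.Agent.H30 Fermat.Agent.H69.EG Fermat.Agent.H57.Full Fermat.Agent.H21M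

namespace Fermat.Agent.H86.In

section Defs

/-- the raising primes -/
def bq (p : ℕ) {B : Finset ℕ} {E : Type} {s : ℕ} (ε : Fin s → Tset B ⊕ E) (i : Fin s) : ℕ :=
  Sum.elim (fun q : Tset B => q.1) (fun _ => p) (ε i)

/-- the constants of the raising steps -/
def cq (O : Type) [CommRing O] (W : WeierstrassCurve ℤ) {B : Finset ℕ} {E : Type} {s : ℕ}
    (ε : Fin s → Tset B ⊕ E) (i : Fin s) : O :=
  Sum.elim (fun q : Tset B => (nodeSign W q.1 : O) * ((q.1 : O) + 1)) (fun _ => 1) (ε i)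

variable {B : Finset ℕ} {E : Type} {s : ℕ} {ε : Fin s → Tset B ⊕ E} {i : Fin s}

lemma bq_inl (p : ℕ) {q : Tset B} (h : ε i = Sum.inl q) : bq p ε i = q.1 := by
  simp only [bq, h, Sum.elim_inl]

lemma bq_inr (p : ℕ) {j : E} (h : ε i = Sum.inr j) : bq p ε i = p := by
  simp only [bq, h, Sum.elim_inr]

lemma cq_inl (O : Type) [CommRing O] (W : WeierstrassCurve ℤ) {q : Tset B}
    (h : ε i = Sum.inl q) : cq O W ε i = (nodeSign W q.1 : O) * ((q.1 : O) + 1) := by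
  simp only [cq, h, Sum.elim_inl]

lemma cq_inr (O : Type) [CommRing O] (W : WeierstrassCurve ℤ) {j : E} (h : ε i = Sum.inr j) :
    cq O W ε i = 1 := by
  simp only [cq, h, Sum.elim_inr]

/-- the constants are not zero -/
lemma cq_ne_zero (O : Type) [CommRing O] [IsDomain O] [CharZero O] (W : WeierstrassCurve ℤ)
    (ε : Fin s → Tset B ⊕ E) (i : Fin s) : cq O W ε i ≠ 0 := by
  rcases h : ε i with q | j
  · rw [cq_inl O W h]
    refine mul_ne_zero ?_ (Nat.cast_add_one_ne_zero q.1)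
    rcases H73LT.nodeSign_eq W q.1 with h1 | h1 <;> rw [h1] <;> simp
  · rw [cq_inr O W h]
    exact one_ne_zero

/-- the constant of the chain of the levels is not zero -/
lemma prod_bq_ne_zero (O : Type) [CommRing O] [IsDomain O] [CharZero O] (p : ℕ)
    (ε : Fin s → Tset B ⊕ E) : (∏ i, ((bq p ε i : O) + 1)) ≠ 0 :=
  Finset.prod_ne_zero_iff.mpr fun i _ => Nat.cast_add_one_ne_zero (bq p ε i)

/-- a root of unity of order `p` -/
lemma exists_zeta {p a : ℕ} [hp : Fact p.Prime] (ha : 1 ≤ a) {O : Type} [CommRing O] {ζ : O}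
    (hζ : IsPrimitiveRoot ζ (p ^ a)) : ∃ z : Oˣ, z ^ p = 1 ∧ z ≠ 1 := by
  obtain ⟨b, rfl⟩ := Nat.exists_eq_add_of_le' ha
  have h1 : IsPrimitiveRoot (ζ ^ p ^ b) p :=
    hζ.pow (pow_pos hp.out.pos _) (by rw [pow_succ])
  have h2 : (ζ ^ p ^ b) ^ p = 1 := h1.pow_eq_one
  refine ⟨Units.ofPowEqOne _ p h2 hp.out.ne_zero, ?_, fun h => ?_⟩
  · apply Units.ext
    rw [Units.val_pow_eq_pow_val, Units.val_ofPowEqOne, h2, Units.val_one]
  · have h3 := congrArg Units.val h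
    rw [Units.val_ofPowEqOne, Units.val_one] at h3
    exact h1.ne_one hp.out.one_lt h3

end Defs

section Arith

variable {W : WeierstrassCurve ℤ} {hΔ : W.Δ ≠ 0} {p : ℕ} [hp : Fact p.Prime] {A T B : Finset ℕ}
  {s' : ℕ} (P : Partition W hΔ p A T B s') {δ : ℕ} (hδ : δ = 1 ∨ δ = p)
  {E : Type} {s : ℕ} {ε : Fin s → Tset B ⊕ E} (hε : Function.Injective ε)
  (hsub : ∀ j j' : E, j = j') (hε1 : ∀ i j, ε i = Sum.inr j → δ = 1)

include P

lemma bq_prime (i : Fin s) : (bq p ε i).Prime := by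
  rcases h : ε i with q | j
  · rw [bq_inl p h]
    exact P.B_prime q.1 q.2
  · rw [bq_inr p h]
    exact hp.out

include hε hsub in
lemma bq_injective : Function.Injective (bq p ε) := by
  intro i i' h
  apply hε
  rcases hi : ε i with q | j <;> rcases hi' : ε i' with q' | j'
  · rw [bq_inl p hi, bq_inl p hi'] at h
    rw [Subtype.ext h]
  · rw [bq_inl p hi, bq_inr p hi'] at h
    exact absurd h (P.B_ne _ q.2)
  · rw [bq_inr p hi, bq_inl p hi'] at h
    exact absurd h.symm (P.B_ne _ q'.2)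
  · rw [hsub j j']

include hδ in
lemma base_sq : Squarefree (baseLevel A T s' * δ) := by
  rcases hδ with h | h
  · rw [h, mul_one]
    exact P.squarefree
  · rw [h, Nat.squarefree_mul_iff]
    exact ⟨((Nat.Prime.coprime_iff_not_dvd hp.out).mpr P.not_p_dvd).symm, P.squarefree,
      hp.out.prime.squarefree⟩

include hδ in
lemma prime_dvd_base {q : ℕ} (hq : q.Prime) (h : q ∣ baseLevel A T s' * δ) :
    q ∣ baseLevel A T s' ∨ (q = p ∧ δ = p) := by
  rcases hq.dvd_mul.mp h with h | h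
  · exact Or.inl h
  · rcases hδ with h' | h'
    · rw [h'] at h
      exact absurd (Nat.dvd_one.mp h) hq.one_lt.ne'
    · rw [h'] at h
      exact Or.inr ⟨(Nat.prime_dvd_prime_iff_eq hq hp.out).mp h, h'⟩

lemma base_T_dvd (δ : ℕ) (t : Tset T) : t.1 ∣ baseLevel A T s' * δ :=
  ((P.dvd_baseLevel_iff (P.T_prime _ t.2)).mpr (Or.inr (Or.inl t.2))).mul_right _

include hδ hε1 in
lemma bq_not_dvd (i : Fin s) : ¬ bq p ε i ∣ baseLevel A T s' * δ := by
  rcases hi : ε i with q | j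
  · rw [bq_inl p hi]
    intro h
    rcases prime_dvd_base P hδ (P.B_prime _ q.2) h with h | h
    · exact P.not_B_dvd q.2 h
    · exact P.B_ne _ q.2 h.1
  · rw [bq_inr p hi, hε1 i j hi, mul_one]
    exact P.not_p_dvd

/-- the prime divisors of the top level of the chain -/
lemma prime_dvd_lvl {N₀ r : ℕ} {Q : Fin r → ℕ} (hQ : ∀ j, (Q j).Prime) {q : ℕ} (hq : q.Prime)
    (h : q ∣ lvl (N₀ * ∏ j, Q j) (bfun (bq p ε)) s) :
    q ∣ N₀ ∨ (∃ j, Q j = q) ∨ ∃ i, bq p ε i = q := by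
  rcases chain_prime_dvd (f := lvl (N₀ * ∏ j, Q j) (bfun (bq p ε))) (b := bfun (bq p ε))
    (fun _ => rfl) (bfun_prime (bq_prime P)) s le_rfl hq h with h | ⟨i, hi, h⟩
  · have h' : q ∣ N₀ * ∏ j, Q j := h
    rcases hq.dvd_mul.mp h' with h | h
    · exact Or.inl h
    · exact Or.inr (Or.inl (prime_dvd_prod hQ hq h))
  · exact Or.inr (Or.inr ⟨⟨i, hi⟩, by rw [← bfun_lt (bq p ε) hi]; exact h⟩)

/-- the prime divisors of the level of the module with characters -/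
lemma prime_dvd_N1 {r : ℕ} {Q : Fin r → ℕ} (hQ : ∀ j, (Q j).Prime) {q : ℕ} (hq : q.Prime)
    (h : q ∣ (∏ j, Q j) * ∏ t : Tset T, t.1) : (∃ j, Q j = q) ∨ q ∈ T := by
  rcases hq.dvd_mul.mp h with h | h
  · exact Or.inl (prime_dvd_prod hQ hq h)
  · obtain ⟨t, ht⟩ := prime_dvd_prod' (fun t : Tset T => P.T_prime t.1 t.2) hq h
    exact Or.inr (ht ▸ t.2)

include hδ hε1 in
/-- **`p` in the top level** -/
lemma p_dvd_top_iff {r : ℕ} {Q : Fin r → ℕ} (hQ : ∀ j, (Q j).Prime) (hQp : ∀ j, Q j ≠ p) :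
    p ∣ lvl (baseLevel A T s' * δ * ∏ j, Q j) (bfun (bq p ε)) s *
      ((∏ j, Q j) * ∏ t : Tset T, t.1) ↔ (δ = p ∨ ∃ i j, ε i = Sum.inr j) := by
  constructor
  · intro h
    rcases hp.out.dvd_mul.mp h with h | h
    · rcases prime_dvd_lvl P hQ hp.out h with h | ⟨j, h⟩ | ⟨i, h⟩
      · rcases prime_dvd_base P hδ hp.out h with h | h
        · exact absurd h P.not_p_dvd
        · exact Or.inl h.2
      · exact absurd h (hQp j)
      · rcases hi : ε i with q | j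
        · rw [bq_inl p hi] at h
          exact absurd h (P.B_ne _ q.2)
        · exact Or.inr ⟨i, j, hi⟩
    · rcases prime_dvd_N1 P hQ hp.out h with ⟨j, h⟩ | h
      · exact absurd h (hQp j)
      · exact absurd rfl (P.T_ne _ h)
  · rintro (h | ⟨i, j, h⟩)
    · refine Dvd.dvd.mul_right ?_ _
      have h1 : p ∣ baseLevel A T s' * δ * ∏ j, Q j := (Dvd.intro_left _ (by rw [h])).mul_right _
      exact h1.trans (chain_dvd (f := lvl (baseLevel A T s' * δ * ∏ j, Q j) (bfun (bq p ε)))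
        (fun _ => rfl) (Nat.zero_le s))
    · refine Dvd.dvd.mul_right ?_ _
      have h1 := chain_dvd_of_lt (f := lvl (baseLevel A T s' * δ * ∏ j, Q j) (bfun (bq p ε)))
        (b := bfun (bq p ε)) (fun _ => rfl) i.2
      rwa [bfun_fin, bq_inr p h] at h1

include hδ hε1 hε hsub in
/-- the top level of the chain is squarefree -/
lemma lvl_sq {r : ℕ} {Q : Fin r → ℕ} (hQ : ∀ j, (Q j).Prime) (hQinj : Function.Injective Q)
    (hQN : ∀ j, ¬ Q j ∣ baseLevel A T s' * δ) (hbQ : ∀ i j, bq p ε i ≠ Q j) :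
    Squarefree (lvl (baseLevel A T s' * δ * ∏ j, Q j) (bfun (bq p ε)) s) := by
  refine chain_squarefree (f := lvl (baseLevel A T s' * δ * ∏ j, Q j) (bfun (bq p ε)))
    (b := bfun (bq p ε)) (fun _ => rfl) (bfun_prime (bq_prime P)) ?_
    (fun i hi j hj => bfun_inj (bq_injective P hε hsub) i hi j hj)
    (squarefree_mul_prod hQ hQinj (base_sq P hδ) hQN) s le_rfl
  intro i hi h
  have h' : bfun (bq p ε) i ∣ baseLevel A T s' * δ * ∏ j, Q j := h
  rw [bfun_lt _ hi] at h'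
  rcases (bq_prime P _).dvd_mul.mp h' with h | h
  · exact bq_not_dvd P hδ hε1 _ h
  · obtain ⟨j, hj⟩ := prime_dvd_prod hQ (bq_prime P _) h
    exact hbQ _ j hj.symm

end Arith

section Pack

attribute [local instance] H57.NM.RPart.instCommRing H57.NM.RPart.instLocal
  H57.NM.RPart.instAlgebra
attribute [local instance] FullLevel.instAddCommGroup FullLevel.instModule
attribute [local instance] FullModPart.instAddCommGroup FullModPart.instModule

variable {𝒪 : Type} [CommRing 𝒪] [IsDomain 𝒪] [IsDiscreteValuationRing 𝒪]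
    [IsAdicComplete (maximalIdeal 𝒪) 𝒪] [Finite (ResidueField 𝒪)]
  {p : ℕ} [Fact p.Prime] {ρbar : ResidualGaloisRep (ResidueField 𝒪)}
  {b : Module.Basis (Fin 2) (ResidueField 𝒪) ρbar.V} {pd : PData p ρbar b} {A : Finset ℕ}
  {τ ι : Type} [Fintype τ] [Fintype ι] {qT : τ → ℕ} {pl : ∀ t, PlaceData p (qT t)} {u : τ → 𝒪}
  {qB : ι → ℕ} {plB : ∀ i, PlaceData p (qB i)} {uB : ι → 𝒪} {k n : ℕ} {S₀ : Finset ℕ}

/-- **ring part + module part = level** -/
theorem exists_fullLevel (G : GalLevelB p ρbar b pd A qT pl u qB plB uB k n S₀)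
    {ϖ c' : 𝒪} {r' n' D m s : ℕ} {Z : τ → Finset 𝒪ˣ} {cb : Fin s → 𝒪} (ε : Fin s → ι ⊕ pd.ε)
    (mp : FullModPart 𝒪 ϖ c' p r' n' D m s G.D.R
      (fun t => ∏ z ∈ Z t, (G.r (pl t).σ 0 0 + G.r (pl t).σ 1 1 -
        algebraMap 𝒪 G.D.R ((z : 𝒪) + (z⁻¹ : 𝒪ˣ))))
      (fun t => G.r (pl t).σ 0 0 + G.r (pl t).σ 1 1 - 2)
      (fun i j => G.β (MvPowerSeries.X (Sum.inl (Sum.inr (ε i, j))))) cb) :
    ∃ FL : FullLevel 𝒪 ϖ c' p r' n' D m s
      (MvPowerSeries (((τ × Fin 6) ⊕ ((ι ⊕ pd.ε) × Fin 3)) ⊕ Fin k) 𝒪)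
      (fun t j => MvPowerSeries.X (Sum.inl (Sum.inl (t, j))))
      (fun i j => MvPowerSeries.X (Sum.inl (Sum.inr (ε i, j)))) qT u Z cb,
      (∀ v, (∀ τ (x : mp.N τ), G.β v • x = 0) → ∀ τ (x : FL.N τ), FL.β v • x = 0) ∧
      ∀ v, FL.pt (FL.β v) = mp.pt (G.β v) :=
  ⟨FullModPart.toLevel G.rpart mp, fun _ h => h, fun _ => rfl⟩

end Pack

section Level

variable {W : WeierstrassCurve ℤ} (hΔ : W.Δ ≠ 0) {p : ℕ} [hp : Fact p.Prime]
  {O : Type} [CommRing O] [IsDomain O] [IsDiscreteValuationRing O]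
  [IsAdicComplete (maximalIdeal O) O] [CharZero O] [Finite (ResidueField O)]
  [CharP (ResidueField O) p] [Algebra (ZMod p) (ResidueField O)]

attribute [local instance] H57.NM.RPart.instCommRing H57.NM.RPart.instLocal
  H57.NM.RPart.instAlgebra
attribute [local instance] FullLevel.instAddCommGroup FullLevel.instModule
attribute [local instance] FullModPart.instAddCommGroup FullModPart.instModule

/-- **A level of the Taylor-Wiles system**: the Galois side can be completed by the Hecke side. -/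
theorem inner_level (hp2 : p ≠ 2) (hW : W.IsSemistableModel) (hirrp : W.ModRepIsIrreducible p)
    (hirr : ((resZ W hΔ p).baseChange (ResidueField O)).IsIrreducible)
    (h34 : StatementS34) (GI : H4.GeomInputs p)
    {A T B : Finset ℕ} {s' : ℕ} {ϖ : O} {a : ℕ} {ζ : O} (hO : CoeffChoice p T O ϖ a ζ)
    (P : Partition W hΔ p A T B s')
    {b : Module.Basis (Fin 2) (ResidueField O) ((resZ W hΔ p).baseChange (ResidueField O)).V}
    {pd : PData p ((resZ W hΔ p).baseChange (ResidueField O)) b}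
    {pl : ∀ t : Tset T, PlaceData p t.1} {u : Tset T → O} {plB : ∀ i : Tset B, PlaceData p i.1}
    {inc : Prop} (ph : PHyp hΔ hO.mem pd A pl u plB inc)
    -- the base level and the raising steps
    {δ : ℕ} (hδ : δ = 1 ∨ δ = p) (hmod : W.IsResiduallyModularOfLevel p (baseLevel A T s' * δ))
    {s : ℕ} (ε : Fin s → Tset B ⊕ pd.ε) (hε : Function.Injective ε)
    (hsub : ∀ j j' : pd.ε, j = j') (hε1 : ∀ i j, ε i = Sum.inr j → δ = 1)
    (hinc : inc ↔ (δ = p ∨ ∃ i j, ε i = Sum.inr j))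
    -- the relation
    {S₁ : Finset ℕ} (hpS₁ : p ∈ S₁) [NeZero (lvl (baseLevel A T s' * δ) (bfun (bq p ε)) s)]
    (hNS₁ : ∀ q : ℕ, q.Prime → q ∣ lvl (baseLevel A T s' * δ) (bfun (bq p ε)) s →
      q ∈ (↑S₁ : Set ℕ))
    (hWS₁ : ∀ q : ℕ, q.Prime → (q : ℤ) ∣ W.Δ → q ∈ S₁)
    (P₀ : MvPolynomial {ℓ : ℕ // ℓ.Prime ∧ ℓ ∉ (↑S₁ : Set ℕ)} ℤ)
    (hP₀ : evZ (lvl (baseLevel A T s' * δ) (bfun (bq p ε)) s) (↑S₁ : Set ℕ) hNS₁ P₀ = 0)
    {m : ℕ} (hm : ((MvPolynomial.aeval (fun i => W.apOfModel i.1) P₀ : ℤ) : O) ∉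
      Ideal.span {ϖ ^ m})
    -- the Galois side
    {k n : ℕ} (G : GLev hΔ pd A pl u plB k n (S₁ ∪ P₀.vars.image fun i => i.1))
    -- the elements killing the modules
    (U : Set G.D.R)
    (hU : ∀ {L : ℕ} [NeZero L] {S : Finset ℕ} {θ : heckeAlgebra L 2 (↑S : Set ℕ) →+* ResidueField O}
      (π : G.D.R →ₐ[O] heckeLocal L (↑S : Set ℕ) O θ) (hs : HSide p G.D G.b₁ π)
      (_ : ∀ ℓ : ℕ, ℓ.Prime → ℓ ∉ S → W.IsGoodPrimeFor ℓ)
      (_ : ∀ i : Idx (↑S : Set ℕ), θ (TIdx L (↑S : Set ℕ) hs.hLS i) =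
        ((W.apOfModel i.1 : ℤ) : ResidueField O)),
      ∀ a ∈ U, ∀ i, i ≤ s → VanishAt p hs.hLS π
        (lvl (baseLevel A T s' * δ * ∏ j, G.qv j) (bfun (bq p ε)) i) a) :
    ∃ FL : FullLevel O ϖ (∏ i, ((bq p ε i : O) + 1)) p (numB (Tset T) (Tset B) pd.ε k) n
      (H35.Rk.bnd O (numB (Tset T) (Tset B) pd.ε k)
        (lvl (baseLevel A T s' * δ) (bfun (bq p ε)) s)) m s
      (MvPowerSeries (((Tset T × Fin 6) ⊕ ((Tset B ⊕ pd.ε) × Fin 3)) ⊕ Fin k) O)
      (fun t j => MvPowerSeries.X (Sum.inl (Sum.inl (t, j))))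
      (fun i j => MvPowerSeries.X (Sum.inl (Sum.inr (ε i, j))))
      (fun t : Tset T => t.1) u (Zset O p T) (cq O W ε),
      (∀ v, G.β v ∈ U → ∀ τ (x : FL.N τ), FL.β v • x = 0) ∧
      ∀ j : pd.ε, FL.pt (FL.β (MvPowerSeries.X (Sum.inl (Sum.inr (Sum.inr j, 0))))) = 0 ∧
        FL.pt (FL.β (MvPowerSeries.X (Sum.inl (Sum.inr (Sum.inr j, 2))))) = 0 := by
  classical
  -- arithmetic
  obtain ⟨N₀, hN₀⟩ : ∃ N₀ : ℕ, N₀ = baseLevel A T s' * δ := ⟨_, rfl⟩
  have hbbp : ∀ i, (bq p ε i).Prime := bq_prime P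
  have hbbinj : Function.Injective (bq p ε) := bq_injective P hε hsub
  have hbbN : ∀ i, ¬ bq p ε i ∣ baseLevel A T s' * δ := bq_not_dvd P hδ hε1
  have hTN : ∀ t : Tset T, t.1 ∣ baseLevel A T s' * δ := base_T_dvd P δ
  have hN₀sq : Squarefree (baseLevel A T s' * δ) := base_sq P hδ
  haveI hN₀0 : NeZero (baseLevel A T s' * δ) := ⟨hN₀sq.ne_zero⟩
  have hN₀f : baseLevel A T s' * δ ∣ lvl (baseLevel A T s' * δ) (bfun (bq p ε)) s :=
    chain_dvd (f := lvl (baseLevel A T s' * δ) (bfun (bq p ε))) (fun _ => rfl) (Nat.zero_le s)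
  have hbf : ∀ i : Fin s, bq p ε i ∣ lvl (baseLevel A T s' * δ) (bfun (bq p ε)) s := fun i => by
    have h1 := chain_dvd_of_lt (f := lvl (baseLevel A T s' * δ) (bfun (bq p ε)))
      (b := bfun (bq p ε)) (fun _ => rfl) i.2
    rwa [bfun_fin] at h1
  have hQS₁ : ∀ j, G.qv j ∉ S₁ := fun j h => G.not_mem_S j (Finset.mem_union_left _ h)
  have hQf : ∀ j, ¬ G.qv j ∣ lvl (baseLevel A T s' * δ) (bfun (bq p ε)) s := fun j h =>
    hQS₁ j (by exact_mod_cast hNS₁ _ (G.prime j) h)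
  have hQN : ∀ j, ¬ G.qv j ∣ baseLevel A T s' * δ := fun j h => hQf j (h.trans hN₀f)
  have hbQ : ∀ i j, bq p ε i ≠ G.qv j := fun i j h => hQf j (h ▸ hbf i)
  have hQ0 : (∏ j, G.qv j) ≠ 0 := Finset.prod_ne_zero_iff.mpr fun j _ => (G.prime j).ne_zero
  have hT0 : (∏ t : Tset T, t.1) ≠ 0 :=
    Finset.prod_ne_zero_iff.mpr fun t _ => (P.T_prime _ t.2).ne_zero
  have hsqL := lvl_sq P hδ hε hsub hε1 G.prime G.inj hQN hbQ
  have hpL := p_dvd_top_iff P hδ hε1 G.prime G.ne_p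
  -- the level
  obtain ⟨L, hL⟩ : ∃ L : ℕ, L = lvl (baseLevel A T s' * δ * ∏ j, G.qv j) (bfun (bq p ε)) s *
    ((∏ j, G.qv j) * ∏ t : Tset T, t.1) := ⟨_, rfl⟩
  rw [← hL] at hpL
  haveI hL0 : NeZero L := ⟨by rw [hL]; exact mul_ne_zero hsqL.ne_zero (mul_ne_zero hQ0 hT0)⟩
  obtain ⟨S, hS⟩ : ∃ S : Finset ℕ, S = S₁ ∪ Finset.univ.image G.qv := ⟨_, rfl⟩
  have hS₁S : ∀ {q : ℕ}, q ∈ S₁ → q ∈ S := fun h => by rw [hS]; exact Finset.mem_union_left _ h
  have hQS : ∀ j, G.qv j ∈ S := fun j => by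
    rw [hS]
    exact Finset.mem_union_right _ (Finset.mem_image_of_mem _ (Finset.mem_univ j))
  have hprL : ∀ q : ℕ, q.Prime → q ∣ L → q ∣ baseLevel A T s' * δ ∨ (∃ j, G.qv j = q) ∨
      ∃ i, bq p ε i = q := by
    intro q hq h
    rw [hL] at h
    rcases hq.dvd_mul.mp h with h | h
    · exact prime_dvd_lvl P G.prime hq h
    · rcases prime_dvd_N1 P G.prime hq h with h | h
      · exact Or.inr (Or.inl h)
      · exact Or.inl (hTN ⟨q, h⟩)
  have hLS : ∀ q : ℕ, q.Prime → q ∣ L → q ∈ (↑S : Set ℕ) := by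
    intro q hq h
    rcases hprL q hq h with h | ⟨j, h⟩ | ⟨i, h⟩
    · exact Finset.mem_coe.mpr (hS₁S (Finset.mem_coe.mp (hNS₁ q hq (h.trans hN₀f))))
    · exact Finset.mem_coe.mpr (h ▸ hQS j)
    · exact Finset.mem_coe.mpr (hS₁S (Finset.mem_coe.mp (hNS₁ q hq (h ▸ hbf i))))
  have hpS : p ∈ S := hS₁S hpS₁
  have hSW : ∀ ℓ : ℕ, ℓ.Prime → ℓ ∉ S → W.IsGoodPrimeFor ℓ := fun ℓ hℓ hℓS hbad =>
    hℓS (hS₁S (hWS₁ ℓ hℓ hbad))
  have hSWp : ∀ ℓ : ℕ, ℓ.Prime → ℓ ∉ (↑S : Set ℕ) → W.IsGoodPrimeFor ℓ ∧ ℓ ≠ p :=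
    fun ℓ hℓ hℓS => ⟨hSW ℓ hℓ (fun h => hℓS (Finset.mem_coe.mpr h)),
      fun h => hℓS (by rw [h]; exact Finset.mem_coe.mpr hpS)⟩
  have hMQ : baseLevel A T s' * δ ∣ baseLevel A T s' * δ * ∏ j, G.qv j := Dvd.intro _ rfl
  have hMQL : baseLevel A T s' * δ * ∏ j, G.qv j ∣ L := by
    rw [hL]
    exact (chain_dvd (f := lvl (baseLevel A T s' * δ * ∏ j, G.qv j) (bfun (bq p ε)))
      (fun _ => rfl) (Nat.zero_le s)).mul_right _
  have hnsq : ∀ q : ℕ, q.Prime → (∀ j, G.qv j ≠ q) → q ∉ T → ¬ q ^ 2 ∣ L := by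
    intro q hq h1 h2
    rw [hL]
    refine H30.Lev.not_sq_dvd_mul hq hsqL fun h => ?_
    rcases prime_dvd_N1 P G.prime hq h with ⟨j, h⟩ | h
    · exact h1 j h
    · exact h2 h
  have hpL2 : ¬ p ^ 2 ∣ L := hnsq p hp.out G.ne_p fun h => P.T_ne _ h rfl
  have hpLinc : p ∣ L ↔ inc := hpL.trans hinc.symm
  -- the Hecke side
  obtain ⟨χ, hχ, H, π, b₂, hH, hπ, hb₂, -⟩ := H30.S59.exists_hecke_all hΔ hO.mem h34 hp2
    (H30.S59.tO_residual_baseChange hΔ hO.mem) hirr hmod (hMQ.trans hMQL) S hpS hLS hSW G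
    (fun χ H hres => ph.𝒟H hpS hLS hpL2 hpLinc H hres)
    (s := s') ⟨P.aux_three, P.aux_other⟩
    (by
      intro q hq h
      rcases hprL q hq h with h | ⟨j, h⟩ | ⟨i, h⟩
      · rcases prime_dvd_base P hδ hq h with h | h
        · rcases (P.dvd_baseLevel_iff hq).mp h with h | h | h
          · exact Or.inr (Or.inl h)
          · exact Or.inr (Or.inr (Or.inl ⟨⟨q, h⟩, rfl⟩))
          · exact Or.inr (Or.inr (Or.inr (Or.inr (Or.inr h))))
        · exact Or.inl h.1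
      · exact Or.inr (Or.inr (Or.inr (Or.inr (Or.inl ⟨j, h⟩))))
      · rcases hi : ε i with q' | j
        · rw [bq_inl p hi] at h
          exact Or.inr (Or.inr (Or.inr (Or.inl ⟨q', h⟩)))
        · rw [bq_inr p hi] at h
          exact Or.inl h.symm)
    (fun q hq => hnsq q (P.A_prime q hq) (fun j h => G.not_mem_A j (h ▸ hq))
      fun h => Finset.disjoint_left.mp P.disj_AT hq h)
    (fun i => hnsq i.1 (P.B_prime _ i.2) (fun j h => G.ne_qB j i h)
      fun h => Finset.disjoint_left.mp P.disj_TB h i.2)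
    (fun h3 => hnsq s' (P.aux_three h3).1 (fun j h => hQf j (by
        rw [h]
        exact (((P.dvd_baseLevel_iff (P.aux_three h3).1).mpr
          (Or.inr (Or.inr rfl))).mul_right δ).trans hN₀f))
      P.s_notMem_T)
  have hs : HSide p G.D G.b₁ π := ⟨hpS, hLS, hπ, H, b₂, hH, hb₂⟩
  have hχT : ∀ i : Idx (↑S : Set ℕ), χ (TIdx L (↑S : Set ℕ) hLS i) =
      ((W.apOfModel i.1 : ℤ) : ResidueField O) := fun i => by
    rw [H10.NE.TIdx_eq_evHA]
    exact hχ i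
  have hθ : thetaPoly L (↑S : Set ℕ) hLS O χ = thetaW W (↑S : Set ℕ) O := by
    refine MvPolynomial.ringHom_ext (fun x => ?_) fun i => ?_
    · rw [thetaPoly_C, thetaW_C]
    · rw [thetaPoly_X, thetaW_X, hχT]
  have hatt : H37.NN.IsAtt S (thetaW W (↑S : Set ℕ) O)
      ((resZ W hΔ p).baseChange (ResidueField O)) :=
    H30.S59.isAtt_thetaW hΔ hO.mem (H30.S59.tO_residual_baseChange hΔ hO.mem) S hSWp
  have hg : ∀ M' : ℕ, baseLevel A T s' * δ ∣ M' → Good M' O := fun M' h =>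
    H10.NE.good_of_partition P hp2 M' ((Dvd.intro _ rfl).trans h)
  obtain ⟨ζp, hζp1, hζp2⟩ := exists_zeta hO.one_le hO.prim
  -- the local facts
  have hMk : ∀ i, ∃ τ, MarkFacts p hLS π (bq p ε i) (G.mB (ε i) 0) (G.mB (ε i) 1)
      (G.mB (ε i) 2) (cq O W ε i) τ := by
    intro i
    rcases hi : ε i with q | j
    · rw [bq_inl p hi, cq_inl O W hi]
      exact ⟨_, H79.PtB.markFacts G hpS hLS π hπ hH b₂ hb₂ hp2 GI q (P.B_prime _ q.2)
        (P.B_ne _ q.2)⟩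
    · rw [bq_inr p hi, cq_inr O W hi]
      exact ph.marks G π hs j
  choose tb htb using hMk
  have hTf : ∀ t : Tset T, TFacts p hLS π t.1
      (∏ z ∈ Zset O p T t, (G.r (pl t).σ 0 0 + G.r (pl t).σ 1 1 -
        algebraMap O G.D.R ((z : O) + (z⁻¹ : Oˣ))))
      (G.r (pl t).σ 0 0 + G.r (pl t).σ 1 1 - 2) := fun t =>
    H79.PtB.tFacts' G hpS hLS π hπ hH b₂ hb₂ hp2 GI (P.T_prime t.1 t.2) (P.T_dvd t.1 t.2)
      ((H45.isUnramifiedAt_baseChange_iff _ _).mpr (P.T_unr t.1 t.2)) (hO.le t.1 t.2) hO.prim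
  have hTW : ∀ j, TWFacts p hLS π (G.qv j) (G.c j) := fun j =>
    H79.PtB.twFacts G hpS hLS π hπ hH b₂ hb₂ hp2 GI j
  -- the point
  obtain ⟨pt, hptl, ⟨b', hb'⟩, -, hptc, hptT, hpt0, hpt2⟩ := H30.PT.exists_pt_tate hΔ hO.mem hW G
    (H30.S59.tO_residual_baseChange hΔ hO.mem) ph.𝒟tO
    (fun q hq hqp hbad => by
      rcases P.cover q hq hqp hbad with h | h | h
      · exact Or.inl h
      · exact Or.inr (Or.inl ⟨⟨q, h⟩, rfl⟩)
      · exact Or.inr (Or.inr ⟨⟨q, h⟩, rfl⟩))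
    (fun t => ⟨P.T_prime t.1 t.2, P.T_ne t.1 t.2⟩) (fun i => ⟨P.B_prime i.1 i.2, P.B_ne i.1 i.2⟩)
    (fun i => P.B_bad i.1 i.2) (fun i => rfl)
  have hptj := ph.pt G pt hptl b' hb'
  have hptf : pt (H69.Pt.trElt G.r P₀) =
      ((MvPolynomial.aeval (fun i => W.apOfModel i.1) P₀ : ℤ) : O) :=
    H69.Pt.map_trElt_tO (f := (pt : G.D.R →+* O)) hb' (Finset.mem_coe.mpr hpS₁)
      (fun q hq h => Finset.mem_coe.mpr (hWS₁ q hq h)) P₀
  -- the chain of the levels without the Taylor-Wiles primes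
  have hchain : ∀ i, lvl (baseLevel A T s' * δ * ∏ j, G.qv j) (bfun (bq p ε)) i =
      lvl (baseLevel A T s' * δ) (bfun (bq p ε)) i * ∏ j, G.qv j := fun i =>
    chain_mul (f := lvl (baseLevel A T s' * δ) (bfun (bq p ε)))
      (g := lvl (baseLevel A T s' * δ * ∏ j, G.qv j) (bfun (bq p ε)))
      (fun _ => rfl) (fun _ => rfl) rfl i
  have hvars : ∀ i ∈ P₀.vars, i.1 ∉ S := by
    intro i hi h
    rw [hS, Finset.mem_union] at h
    rcases h with h | h
    · exact i.2.2 (Finset.mem_coe.mpr h)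
    · obtain ⟨j, -, hj⟩ := Finset.mem_image.mp h
      exact G.not_mem_S j (Finset.mem_union_right _ (hj ▸ Finset.mem_image_of_mem _ hi))
  have hE : VanishAt₁ hLS π (lvl (baseLevel A T s' * δ * ∏ j, G.qv j) (bfun (bq p ε)) s)
      (H69.Pt.trElt G.r P₀) := by
    intro O' _ _ _ _ _ _ _ _ _ hinj N hN hSM lam η x hη hx
    refine H86.FM.fm_point G.D G.b₁ hpS hLS π hπ hH b₂ hb₂ hp2 hO.mem GI hNS₁
      (fun ℓ hℓ => Finset.mem_coe.mp ?_) P₀ hP₀ hvars (Finset.univ.image G.qv) ?_ ?_ hN hSM lam η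
      hη x hx.smul_ne hx.eigen
    · exact Finset.mem_coe.mpr (hS₁S (Finset.mem_coe.mp hℓ))
    · intro q hq
      obtain ⟨j, -, rfl⟩ := Finset.mem_image.mp hq
      refine ⟨G.prime j, H35.Rk.dvd_sub_one G j, hQf j, fun P' hP' φ hφ => ?_⟩
      obtain ⟨-, h⟩ := G.frob j P' hP' φ hφ
      exact h
    · rw [hchain, Finset.prod_image fun _ _ _ _ h => G.inj h]
  -- the ranks
  have hrk : ∀ e : MvPolynomial (Idx (↑S : Set ℕ)) O,
      (∀ (L' : ℕ) (hL' : Adm (↑S : Set ℕ) L'), L' ∣ L →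
        IsLocIdem (TT O hL') (TT_comm hL') (thetaPoly L (↑S : Set ℕ) hLS O χ) e) →
      (∀ h : Adm (↑S : Set ℕ) (baseLevel A T s' * δ * ∏ j, G.qv j),
        0 < Module.finrank O (Loc (TT O h) (TT_comm h) e)) ∧
      ∀ i, i ≤ s → ∀ h : Adm (↑S : Set ℕ)
        (lvl (baseLevel A T s' * δ * ∏ j, G.qv j) (bfun (bq p ε)) i),
        Module.finrank O (Loc (TT O h) (TT_comm h) e) ≤
          H35.Rk.bnd O (numB (Tset T) (Tset B) pd.ε k)
            (lvl (baseLevel A T s' * δ) (bfun (bq p ε)) s) := by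
    intro e he
    rw [hθ] at he
    obtain ⟨i₀, -, hi₀⟩ := H10.NE.exists_i0 hΔ hp2 hirrp S (ResidueField O)
      (θ := thetaW W (↑S : Set ℕ) O) (fun i => thetaW_X W _ i) 1 one_ne_zero
    haveI : NeZero (baseLevel A T s' * δ * ∏ j, G.qv j) := ⟨mul_ne_zero hN₀sq.ne_zero hQ0⟩
    refine ⟨fun h => ?_, fun i hi h => ?_⟩
    · exact H35.Rk.finrank_pos hmod hMQ h hSWp (hg _ hMQ) (he _ h hMQL) i₀ hi₀
    · refine H35.Rk.finrank_le_bnd_of_dvd hp2 hO.mem hpS (thetaW_C W _) _ hirr hatt G.qv G.prime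
        hQf G.inj (H35.Rk.dvd_sub_one G) (H35.Rk.frobDist G)
        (chain_dvd (f := lvl (baseLevel A T s' * δ) (bfun (bq p ε))) (fun _ => rfl) hi)
        (hchain i) ?_ h hLS (he _ hLS dvd_rfl)
      rw [hL]
      exact (chain_dvd (f := lvl (baseLevel A T s' * δ * ∏ j, G.qv j) (bfun (bq p ε)))
        (fun _ => rfl) hi).mul_right _
  -- the module part
  obtain ⟨mp, hmp, hmpU⟩ := core (c' := ∏ i, ((bq p ε i : O) + 1))
    (D := H35.Rk.bnd O (numB (Tset T) (Tset B) pd.ε k)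
      (lvl (baseLevel A T s' * δ) (bfun (bq p ε)) s)) (m := m)
    (y := fun i j => G.β (MvPowerSeries.X (Sum.inl (Sum.inr (ε i, j))))) (cb := cq O W ε)
    hp2 hLS π hO.unif G.e G.le_e G.c G.c_mem G.one_add_c_pow G.qv G.prime G.inj
    (fun j => by
      obtain ⟨m', hm', -⟩ := G.e_spec j
      exact ⟨m', hm'⟩)
    G.ne_p (fun t : Tset T => t.1) (fun t => P.T_prime t.1 t.2) Subtype.val_injective
    (fun t => P.T_dvd t.1 t.2) ζp hζp1 hζp2 hN₀sq hTN hQN (bq p ε) hbbp hbbinj hbbN hbQ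
    (fun i => Finset.dvd_prod_of_mem (fun i => (bq p ε i : O) + 1) (Finset.mem_univ i)) hL hg
    (H10.NE.hNE1 hΔ hp2 hirrp hχT) (H10.NE.hNE2 hΔ hp2 hirrp hχT) hrk tb
    (fun i => by simpa only [G.β_mB] using htb i) hTf hTW U
    (fun a' ha' i hi => hU π hs hSW hχT a' ha' i hi) pt hptc
    (fun t => by
      rw [map_sub, ← Matrix.trace_fin_two, hptT t, map_ofNat, sub_self])
    (fun i => by
      simp only [G.β_mB]
      rcases ε i with q | j
      · exact hpt0 q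
      · exact (hptj j).1)
    (fun i => by
      simp only [G.β_mB]
      rcases ε i with q | j
      · exact hpt2 q
      · exact (hptj j).2)
    (H69.Pt.trElt G.r P₀) (by rw [hptf]; exact hm) hE
  obtain ⟨FL, hFL1, hFL2⟩ := exists_fullLevel G ε mp
  refine ⟨FL, fun v hv => hFL1 v fun τ x => hmpU _ hv τ x, fun j => ⟨?_, ?_⟩⟩
  · rw [hFL2, hmp, G.β_mB]
    exact (hptj j).1
  · rw [hFL2, hmp, G.β_mB]
    exact (hptj j).2

end Level

end Fermat.Agent.H86.In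

end
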