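/-
Type `O` of the composition of S59: the tail of `InnerFull` for every type at `p`, and type `O`.
-/
import Fermat.Agent.H86In3
import Fermat.Agent.H20InO
import Fermat.Agent.H57S59Fin
import Fermat.Agent.H69Fin
import Fermat.Agent.H4GeomIn
import Fermat.Agent.S33
import Fermat.Agent.S34
import Fermat.Agent.S35

set_option autoImplicit false
set_option linter.style.haveILetI false
set_option linter.unusedSectionVars false

noncomputable section

open IsLocalRing GaloisRep CuspForm WeierstrassCurve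
open Fermat.Agent.H87.Glue (resZ)
open Fermat.Agent.H87.S58 (tO)
open Fermat.Agent.H59 (Tset Zset CoeffChoice)
open Fermat.Agent.H86.In Fermat.Agent.H21M Fermat.Agent.H30
open Fermat.Agent.H53 (GQ M2 toMat mapMat PlaceData PData GalLevelB numB)
open Fermat.Agent.H69.Red (Partition baseLevel)
open Fermat.Agent.H73LT (nodeSign)
open Fermat.Agent.H57.Full

namespace Fermat.Agent.H20.InO

/-- **The relation**: since `W` is not modular, some relation between the Hecke operators of a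
squarefree level does not hold for `W`; it is not even zero modulo a power of the uniformiser. -/
theorem exists_relation (W : WeierstrassCurve ℤ) (hΔ : W.Δ ≠ 0)
    (hnot : ¬ Mlc1IsModularModelOfExactConductorLevel W) (p : ℕ)
    {O : Type} [CommRing O] [IsDomain O] [IsDiscreteValuationRing O]
    [IsAdicComplete (maximalIdeal O) O] [CharZero O] {ϖ : O}
    (hϖ : maximalIdeal O = Ideal.span {ϖ}) {L₁ : ℕ} [NeZero L₁] (hL₁ : Squarefree L₁) :
    ∃ S₁ : Finset ℕ, p ∈ S₁ ∧ (∀ q : ℕ, q.Prime → (q : ℤ) ∣ W.Δ → q ∈ S₁) ∧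
      ∃ (hNS₁ : ∀ q : ℕ, q.Prime → q ∣ L₁ → q ∈ (↑S₁ : Set ℕ))
        (P₀ : MvPolynomial {ℓ : ℕ // ℓ.Prime ∧ ℓ ∉ (↑S₁ : Set ℕ)} ℤ),
        H30.evZ L₁ (↑S₁ : Set ℕ) hNS₁ P₀ = 0 ∧
          ∃ m : ℕ, ((MvPolynomial.aeval (fun i => W.apOfModel i.1) P₀ : ℤ) : O) ∉
            Ideal.span {ϖ ^ m} := by
  classical
  obtain ⟨S₁, hS₁⟩ : ∃ S₁ : Finset ℕ, S₁ = insert p (L₁.primeFactors ∪ W.Δ.natAbs.primeFactors) :=
    ⟨_, rfl⟩
  have hN : ∀ q : ℕ, q.Prime → q ∣ L₁ → q ∈ (↑S₁ : Set ℕ) := by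
    intro q hq h
    rw [Finset.mem_coe, hS₁]
    exact Finset.mem_insert_of_mem (Finset.mem_union_left _
      (Nat.mem_primeFactors.mpr ⟨hq, h, NeZero.ne L₁⟩))
  refine ⟨S₁, by rw [hS₁]; exact Finset.mem_insert_self _ _, fun q hq h => ?_, hN, ?_⟩
  · rw [hS₁]
    exact Finset.mem_insert_of_mem (Finset.mem_union_right _
      (Nat.mem_primeFactors.mpr ⟨hq, Int.natCast_dvd.mp h, Int.natAbs_ne_zero.mpr hΔ⟩))
  · rcases H69.Fin.exact_or_exists S35.result W hΔ hL₁ S₁ hN with h | ⟨P₀, h1, h2⟩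
    · exact absurd h hnot
    · exact ⟨P₀, h1, H69.Pt.exists_notMem_pow hϖ h2⟩

/-- the residual representation stays irreducible over extensions -/
theorem irreducible_baseChange (W : WeierstrassCurve ℤ) (hΔ : W.Δ ≠ 0) {p : ℕ} [hp : Fact p.Prime]
    (hp2 : p ≠ 2) (hirr : W.ModRepIsIrreducible p) (κ : Type) [Field κ] [Algebra (ZMod p) κ] :
    ((resZ W hΔ p).baseChange κ).IsIrreducible := by
  have h2z : (2 : ZMod p) ≠ 0 := by
    intro h
    have h1 : ((2 : ℕ) : ZMod p) = 0 := by exact_mod_cast h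
    rw [CharP.cast_eq_zero_iff (ZMod p) p] at h1
    have h2 := Nat.le_of_dvd (by norm_num) h1
    have h3 := hp.out.two_le
    omega
  obtain ⟨c, hc1, hc2⟩ : ∃ c : GQ, c * c = 1 ∧ c ≠ 1 :=
    ⟨complexConjugation, complexConjugation_mul_self, H87.Res.complexConjugation_ne_one⟩
  exact H87.AbsIrr.isIrreducible_baseChange_of_involution h2z _
    (H87.Glue.resZ_isIrreducible W hΔ p hirr) c hc1 (H87.Glue.resZ_isOdd W hΔ p c hc1 hc2)

section Tail

variable {W : WeierstrassCurve ℤ} {hΔ : W.Δ ≠ 0} {p : ℕ} [hp : Fact p.Prime] {A T B : Finset ℕ}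
  {s' : ℕ}

/-- the top level without Taylor-Wiles primes is squarefree -/
theorem lvl_squarefree (P : Partition W hΔ p A T B s') {δ : ℕ} (hδ : δ = 1 ∨ δ = p)
    {E : Type} {s : ℕ} {ε : Fin s → Tset B ⊕ E} (hε : Function.Injective ε)
    (hsub : ∀ j j' : E, j = j') (hε1 : ∀ i j, ε i = Sum.inr j → δ = 1) :
    Squarefree (lvl (baseLevel A T s' * δ) (bfun (bq p ε)) s) := by
  refine chain_squarefree (f := lvl (baseLevel A T s' * δ) (bfun (bq p ε)))
    (b := bfun (bq p ε)) (fun _ => rfl) (bfun_prime (bq_prime P)) ?_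
    (fun i hi j hj => bfun_inj (bq_injective P hε hsub) i hi j hj)
    (base_sq P hδ) s le_rfl
  intro i hi h
  have h' : bfun (bq p ε) i ∣ baseLevel A T s' * δ := h
  rw [bfun_lt _ hi] at h'
  exact bq_not_dvd P hδ hε1 _ h'

/-- **The tail of `InnerFull`** for every type at `p` without or with one mark. -/
theorem tail {O : Type} [CommRing O] [IsDomain O] [IsDiscreteValuationRing O]
    [IsAdicComplete (maximalIdeal O) O] [CharZero O] [Finite (ResidueField O)]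
    [CharP (ResidueField O) p] [Algebra (ZMod p) (ResidueField O)]
    (hp2 : p ≠ 2) (hW : W.IsSemistableModel) (hirrp : W.ModRepIsIrreducible p)
    (hnot : ¬ Mlc1IsModularModelOfExactConductorLevel W)
    {ϖ : O} {a : ℕ} {ζ : O} (hO : CoeffChoice p T O ϖ a ζ)
    (P : Partition W hΔ p A T B s')
    {b : Module.Basis (Fin 2) (ResidueField O) ((resZ W hΔ p).baseChange (ResidueField O)).V}
    {pd : PData p ((resZ W hΔ p).baseChange (ResidueField O)) b}
    {pl : ∀ t : Tset T, PlaceData p t.1} {u : Tset T → O} {plB : ∀ i : Tset B, PlaceData p i.1}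
    {inc : Prop} (ph : PHyp hΔ hO.mem pd A pl u plB inc)
    {δ : ℕ} (hδ : δ = 1 ∨ δ = p) (hmod : W.IsResiduallyModularOfLevel p (baseLevel A T s' * δ))
    (hsub : ∀ j j' : pd.ε, j = j') (hε1 : Nonempty pd.ε → δ = 1)
    (hinc : inc ↔ (δ = p ∨ Nonempty pd.ε)) (k : ℕ) :
    ∃ (D m s : ℕ) (ε : Fin s ≃ Tset B ⊕ pd.ε) (cb : Fin s → O) (c' : O),
        (∀ i, cb i ≠ 0) ∧ c' ≠ 0 ∧ ∀ n : ℕ, ∃ S₀ : Finset ℕ,
        ∀ _ : GalLevelB p ((resZ W hΔ p).baseChange (ResidueField O)) b pd A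
          (fun t : Tset T => t.1) pl u (fun i : Tset B => i.1) plB
          (fun i => (nodeSign W i.1 : O)) k n S₀,
          Nonempty (FullLevel O ϖ c' p (numB (Tset T) (Tset B) pd.ε k) n D m s
            (MvPowerSeries (((Tset T × Fin 6) ⊕ ((Tset B ⊕ pd.ε) × Fin 3)) ⊕ Fin k) O)
            (fun t j => MvPowerSeries.X (Sum.inl (Sum.inl (t, j))))
            (fun i j => MvPowerSeries.X (Sum.inl (Sum.inr (ε i, j))))
            (fun t : Tset T => t.1) u (Zset O p T) cb) := by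
  classical
  have hirrk := irreducible_baseChange W hΔ hp2 hirrp (ResidueField O)
  let ε : Fin (Fintype.card (Tset B ⊕ pd.ε)) ≃ Tset B ⊕ pd.ε := (Fintype.equivFin _).symm
  have hε1' : ∀ i (j : pd.ε), ε i = Sum.inr j → δ = 1 := fun _ j _ => hε1 ⟨j⟩
  have hsq := lvl_squarefree P hδ (ε := ε) ε.injective hsub hε1'
  haveI : NeZero (lvl (baseLevel A T s' * δ) (bfun (bq p ε))
    (Fintype.card (Tset B ⊕ pd.ε))) := ⟨hsq.ne_zero⟩
  obtain ⟨S₁, hpS₁, hWS₁, hNS₁, P₀, hP₀, m, hm⟩ := exists_relation W hΔ hnot p hO.unif hsq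
  have hinc' : inc ↔ (δ = p ∨ ∃ i j, ε i = Sum.inr j) := by
    rw [hinc]
    refine or_congr Iff.rfl ⟨?_, ?_⟩
    · rintro ⟨j⟩
      exact ⟨ε.symm (Sum.inr j), j, ε.apply_symm_apply _⟩
    · rintro ⟨i, j, -⟩
      exact ⟨j⟩
  refine ⟨H35.Rk.bnd O (numB (Tset T) (Tset B) pd.ε k)
    (lvl (baseLevel A T s' * δ) (bfun (bq p ε)) (Fintype.card (Tset B ⊕ pd.ε))), m, _, ε,
    cq O W ε, ∏ i, ((bq p ε i : O) + 1), cq_ne_zero O W ε, prod_bq_ne_zero O p ε, fun n =>
      ⟨S₁ ∪ P₀.vars.image fun i => i.1, fun G => ?_⟩⟩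
  obtain ⟨FL, -⟩ := inner_level hΔ hp2 hW hirrp hirrk Fermat.Agent.S34.result
    (H4.geomInputs hp.out) hO P ph hδ hmod ε ε.injective hsub hε1' hinc' hpS₁ hNS₁ hWS₁ P₀ hP₀ hm G
    ∅ (fun _ _ _ _ _ h => absurd h (Set.notMem_empty _))
  exact ⟨FL⟩

end Tail

/-- **Type `O`.** -/
theorem typeO : H57.S59.TypeO := by
  intro W hΔ p _ A T B s' St hbad hmod _ φ σ₀ hm hne
  have hp2 : p ≠ 2 := by
    rcases St.h35 with h | h <;> omega
  have hbad' : (p : ℤ) ∣ W.Δ := not_not.mp hbad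
  intro O _ _ _ _ _ _ _ _ ϖ a ζ hO b pl hpl u hu hφ plB hplB
  have ph := pHyp_strict hΔ hO.mem b Fermat.Agent.S33.result hp2 St.ss hbad' hm hne A pl u plB
    trivial
  refine ⟨pdO hΔ hO.mem b hp2 St.ss hbad', fun k => ?_⟩
  exact tail hp2 St.ss St.irr St.not_exact hO St.part ph (δ := p) (Or.inr rfl) hmod
    (fun j => (j : Empty).elim) (fun h => h.elim fun j => (j : Empty).elim)
    ⟨fun _ => Or.inl rfl, fun _ => trivial⟩ k

end Fermat.Agent.H20.InO

end
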