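import Fermat.Agent.H35InB1
import Fermat.Agent.H86InPH
import Fermat.Agent.H10NE
import Fermat.Agent.H30Lev
import Fermat.Agent.H30S59b

/-!
# Case `Pβ`: the elements killing all modules, in the form used by the composition of the levels
-/

set_option autoImplicit false
set_option linter.style.haveILetI false
set_option linter.unusedSectionVars false

noncomputable section

open IsLocalRing Polynomial GaloisRep CuspForm
open Fermat.Agent.H87.Glue (resZ)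
open Fermat.Agent.H87.S58 (tO)
open Fermat.Agent.H59 (Tset thetaW thetaW_X)
open Fermat.Agent.H37.Rank Fermat.Agent.H37.NN Fermat.Agent.H30 Fermat.Agent.H86.In
open Fermat.Agent.H53 (GQ M2 MCont toMat mapMat PlaceData PData GalLevelB)
open Fermat.Agent.H75P (OrdMark MarkElts OrdI cj DetC UU)
open Fermat.Agent.H69.Red

namespace Fermat.Agent.H35.InB

section Shape

variable {W : WeierstrassCurve ℤ} {hΔ : W.Δ ≠ 0} {p : ℕ} [hp : Fact p.Prime]
  {O : Type} [CommRing O] [IsDomain O] [IsDiscreteValuationRing O]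
  [IsAdicComplete (maximalIdeal O) O] [CharZero O] [Finite (ResidueField O)]
  [Algebra (ZMod p) (ResidueField O)]
  {b : Module.Basis (Fin 2) (ResidueField O) ((resZ W hΔ p).baseChange (ResidueField O)).V}
  {A T B : Finset ℕ} {s : ℕ}

/-- the Taylor–Wiles primes of a level are away from the partition -/
theorem away_of_GLev (P : Partition W hΔ p A T B s)
    {pd : PData p ((resZ W hΔ p).baseChange (ResidueField O)) b}
    {pl : ∀ t : Tset T, PlaceData p t.1} {u : Tset T → O} {plB : ∀ i : Tset B, PlaceData p i.1}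
    {k n : ℕ} {S₀ : Finset ℕ} (G : GLev hΔ pd A pl u plB k n S₀) :
    H30.Lev.Away p A T B s G.qv where
  prime := G.prime
  inj := G.inj
  notMem_A := G.not_mem_A
  notMem_T j h := G.ne_qT j ⟨_, h⟩ rfl
  notMem_B j h := G.ne_qB j ⟨_, h⟩ rfl
  ne_s j h := by
    have h1 : p ∣ s - 1 := by
      rw [← h]
      exact H35.Rk.dvd_sub_one G j
    have h2 : 2 ≤ s := by
      rw [← h]
      exact (G.prime j).two_le
    by_cases h3 : p = 3
    · obtain ⟨-, h5, -, -⟩ := P.aux_three h3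
      rw [h3] at h1
      omega
    · have h4 := P.aux_other h3
      omega
  ne_p := G.ne_p

variable (hpO : (p : O) ∈ maximalIdeal O) [CharP (ResidueField O) p]

include hpO in
/-- **The elements killing all modules in case `Pβ`.** -/
theorem hU_beta (h29 : H96.StatementS29) (hp2 : p ≠ 2)
    (hdet : (GaloisRepAdic.ofResidualGaloisRep
      ((resZ W hΔ p).baseChange (ResidueField O))).DetIsCyclotomic p)
    (hord : (GaloisRepAdic.ofResidualGaloisRep
      ((resZ W hΔ p).baseChange (ResidueField O))).IsOrdinaryAt p)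
    {φ σ₀ : GQ} (hm : MarkElts p φ σ₀)
    (hr0 : toMat ((resZ W hΔ p).baseChange (ResidueField O)).ρ b σ₀ = 1) (w : ℤ) (hw : w ^ 2 = 1)
    {g₀ : (M2 (ResidueField O))ˣ}
    (hg₀ : OrdI p (cj g₀ (toMat ((resZ W hΔ p).baseChange (ResidueField O)).ρ b)))
    (hu : cj g₀ (toMat ((resZ W hΔ p).baseChange (ResidueField O)).ρ b) φ 1 1 =
      (w : ResidueField O))
    (P : Partition W hΔ p A T B s) (hirr : W.ModRepIsIrreducible p)
    (hirrk : ((resZ W hΔ p).baseChange (ResidueField O)).IsIrreducible)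
    (hno : ∀ B' ⊆ B, ¬ W.IsResiduallyModularOfLevel p (baseLevel A T s * ∏ q ∈ B', q))
    {pl : ∀ t : Tset T, PlaceData p t.1} {u : Tset T → O} {plB : ∀ i : Tset B, PlaceData p i.1}
    {k n : ℕ} {S₀ : Finset ℕ}
    (G : GLev hΔ (PData.ord hp2 ((resZ W hΔ p).baseChange (ResidueField O)) b hdet hord hm hr0 w hw
      hg₀ hu) A pl u plB k n S₀)
    {L : ℕ} [NeZero L] {S : Finset ℕ}
    {θ : heckeAlgebra L 2 (↑S : Set ℕ) →+* ResidueField O}
    (π : G.D.R →ₐ[O] heckeLocal L (↑S : Set ℕ) O θ) (hs : HSide p G.D G.b₁ π)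
    (hSW : ∀ ℓ : ℕ, ℓ.Prime → ℓ ∉ S → W.IsGoodPrimeFor ℓ)
    (hθ : ∀ i : Pr (↑S : Set ℕ), θ (TIdx L (↑S : Set ℕ) hs.hLS i) =
      ((W.apOfModel i.1 : ℤ) : ResidueField O))
    {B1 : Finset ℕ} (hB1 : B1 ⊆ B) :
    VanishAt p hs.hLS π (baseLevel A T s * p * (∏ q ∈ B1, q) * ∏ j, G.qv j)
        (G.mB (Sum.inr ()) 0) ∧
      VanishAt p hs.hLS π (baseLevel A T s * p * (∏ q ∈ B1, q) * ∏ j, G.qv j)
        (G.mB (Sum.inr ()) 2) := by
  classical
  have hQ := away_of_GLev P G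
  obtain ⟨H, b₂, hH, hb₂⟩ := hs.datum
  have hπ := hs.surj
  have hpS := hs.hpS
  have hlv : baseLevel A T s * p * (∏ q ∈ B1, q) * ∏ j, G.qv j =
      baseLevel A T s * (∏ q ∈ B1, q) * (∏ j, G.qv j) * p := by ring
  have hdvdB : (∏ q ∈ B1, q) ∣ ∏ q ∈ B, q := Finset.prod_dvd_prod_of_subset _ _ _ hB1
  have hsq : Squarefree (baseLevel A T s * (∏ q ∈ B1, q) * (∏ j, G.qv j) * p) := by
    refine (H30.Lev.squarefree_top P hQ le_rfl).squarefree_of_dvd ?_
    rw [pow_one]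
    obtain ⟨c, hc⟩ := hdvdB
    exact ⟨c, by rw [hc]; ring⟩
  have hM0 : baseLevel A T s * (∏ q ∈ B1, q) * (∏ j, G.qv j) ≠ 0 :=
    left_ne_zero_of_mul hsq.ne_zero
  have hM1 : baseLevel A T s * (∏ q ∈ B1, q) ≠ 0 := left_ne_zero_of_mul hM0
  haveI : NeZero (baseLevel A T s * (∏ q ∈ B1, q) * ∏ j, G.qv j) := ⟨hM0⟩
  haveI : NeZero (baseLevel A T s * ∏ q ∈ B1, q) := ⟨hM1⟩
  have hg : ∀ M' : ℕ, baseLevel A T s ∣ M' → H70.Coh.Good M' O := fun M' h =>
    H10.NE.good_of_partition P hp2 M' h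
  obtain ⟨i₀, h1, h2⟩ := H10.NE.exists_i0_T (κ := ResidueField O) hΔ hp2 hirr hθ
    (baseLevel A T s * ∏ q ∈ B1, q) hM1
  have hSW' : ∀ ℓ : ℕ, ℓ.Prime → ℓ ∉ (↑S : Set ℕ) → W.IsGoodPrimeFor ℓ ∧ ℓ ≠ p :=
    fun ℓ hℓ hℓS => ⟨hSW ℓ hℓ (by exact_mod_cast hℓS),
      fun h => hℓS (by rw [h]; exact_mod_cast hpS)⟩
  have hfr : IsAtt S (thetaPoly L (↑S : Set ℕ) hs.hLS O θ)
      ((resZ W hΔ p).baseChange (ResidueField O)) := by
    intro ℓ hℓ hℓS P' hP' ψ hψ
    rw [thetaPoly_X, hθ, ← thetaW_X W (↑S : Set ℕ) (O := O) ⟨ℓ, hℓ, hℓS⟩]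
    exact H30.S59.isAtt_thetaW hΔ hpO (H30.S59.tO_residual_baseChange hΔ hpO) S hSW' ℓ hℓ hℓS P'
      hP' ψ hψ
  rw [hlv]
  refine ⟨?_, vanishAt_z hp2 hdet hord hm hr0 w hw hg₀ hu G hs.hLS π _⟩
  refine vanishAt_t hp2 hdet hord hm hr0 w hw hg₀ hu G hpS hs.hLS π hπ hH b₂ hb₂ hsq ?_
    (hg _ ⟨(∏ q ∈ B1, q) * ∏ j, G.qv j, by ring⟩)
    (hg _ ⟨(∏ q ∈ B1, q) * (∏ j, G.qv j) * p, by ring⟩) i₀ h2
  intro hS e he
  refine finrank_eq_zero_of_not hΔ h29 hp2 hpO hpS (fun a => thetaPoly_C _ _ _ _ _ a)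
    (fun i => by rw [thetaPoly_X, hθ]) _ hirrk hfr (hg _ ⟨∏ q ∈ B1, q, rfl⟩) (hno B1 hB1)
    i₀ h1 (by rw [thetaPoly_X]; exact h2) G.qv G.prime (fun j hj => ?_) G.inj
    (H35.Rk.dvd_sub_one G) (H35.Rk.frobDist G) rfl hS he
  -- the Taylor–Wiles primes do not divide the level
  rcases (G.prime j).dvd_mul.mp hj with h | h
  · rcases (P.dvd_baseLevel_iff (G.prime j)).mp h with h | h | h
    · exact hQ.notMem_A j h
    · exact hQ.notMem_T j h
    · exact hQ.ne_s j h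
  · exact hQ.notMem_B j (hB1 ((H30.Lev.dvd_prod_finset_iff
      (fun q hq => P.B_prime q (hB1 hq)) (G.prime j)).mp h))

end Shape

end Fermat.Agent.H35.InB
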