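import Fermat.Agent.H75R5
import Fermat.Agent.H86InFa

set_option autoImplicit false
set_option maxSynthPendingDepth 3
set_option linter.style.haveILetI false
set_option linter.unusedSectionVars false

/-!
# The local facts at `p` for the ordinary type, in the form used by the composition of the levels
-/

noncomputable section

open IsLocalRing Module ExtCitation Polynomial GaloisRep TensorProduct
open Fermat.Agent.H30 Fermat.Agent.H35 Fermat.Agent.H62 Fermat.Agent.H94.BR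
  Fermat.Agent.H70.Coh Fermat.Agent.H70.Mod Fermat.Agent.H4 Fermat.Agent.H21M
open Fermat.Agent.H55 Fermat.Agent.H56 Fermat.Agent.H64 Fermat.Agent.H53 Fermat.Agent.H68.Tw
open Fermat.Agent.H75P (OrdMark MarkElts OrdI cj DetC UU)
open Fermat.Agent.H86.In
open CuspForm

namespace Fermat.Agent.H75R

theorem not_sq_dvd {M N : ℕ} (h : Squarefree M) :
    ∀ r : ℕ, r.Prime → r ∣ N → ¬ r * r ∣ M := fun r hr _ h1 => hr.not_isUnit (h r h1)

variable {𝒪 : Type} [CommRing 𝒪] [IsDomain 𝒪] [IsDiscreteValuationRing 𝒪]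
    [IsAdicComplete (maximalIdeal 𝒪) 𝒪] [Finite (ResidueField 𝒪)] [CharZero 𝒪]
  {p : ℕ} [Fact p.Prime] (hp2 : p ≠ 2) {ρbar : ResidualGaloisRep (ResidueField 𝒪)}
  {b : Module.Basis (Fin 2) (ResidueField 𝒪) ρbar.V}
  (hdet : (GaloisRepAdic.ofResidualGaloisRep ρbar).DetIsCyclotomic p)
  (hord : (GaloisRepAdic.ofResidualGaloisRep ρbar).IsOrdinaryAt p)
  {φ σ₀ : GQ} (hm : MarkElts p φ σ₀) (hr0 : toMat ρbar.ρ b σ₀ = 1) (w : ℤ) (hw : w ^ 2 = 1)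
  {g₀ : (M2 (ResidueField 𝒪))ˣ} (hg₀ : OrdI p (cj g₀ (toMat ρbar.ρ b)))
  (hu : cj g₀ (toMat ρbar.ρ b) φ 1 1 = (w : ResidueField 𝒪))
  {A : Finset ℕ}
  {τ ι : Type} [Fintype τ] [Fintype ι] {qT : τ → ℕ} {pl : ∀ t, PlaceData p (qT t)} {u : τ → 𝒪}
  {qB : ι → ℕ} {plB : ∀ i, PlaceData p (qB i)} {uB : ι → 𝒪} {k n : ℕ} {S₀ : Finset ℕ}
  (E : GalLevelB p ρbar b (PData.ord hp2 ρbar b hdet hord hm hr0 w hw hg₀ hu) A qT pl u qB plB uB
    k n S₀)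
  {L : ℕ} [NeZero L] {S : Finset ℕ} (hpS : p ∈ S) (hLS : ∀ q : ℕ, q.Prime → q ∣ L → q ∈ S)
  {θ : heckeAlgebra L 2 (↑S : Set ℕ) →+* ResidueField 𝒪}
  (π : E.D.R →ₐ[𝒪] heckeLocal L (↑S : Set ℕ) 𝒪 θ) (hπ : Function.Surjective π)
  {H : HeckeGaloisRepDatum L (↑S : Set ℕ) 𝒪 θ (heckeLocal L (↑S : Set ℕ) 𝒪 θ)}
  (hH : H.π = heckeLocal.π L (↑S : Set ℕ) 𝒪 θ)
  (b₂ : Module.Basis (Fin 2) (heckeLocal L (↑S : Set ℕ) 𝒪 θ) H.ρ.V)
  (hb₂ : toMat H.ρ.ρ b₂ =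
    mapMat (π : E.D.R →+* heckeLocal L (↑S : Set ℕ) 𝒪 θ) (toMat E.D.ρ.ρ E.b₁))

include hπ hH hb₂ hpS in
/-- **The local facts at `p`**, ordinary type, for a prime `q = p` and any unit `c`. -/
theorem markFacts_p' {q : ℕ} (hqp : q = p) {c : 𝒪} (hc : IsUnit c) :
    MarkFacts p hLS π q (E.mB (Sum.inr ()) 0) (E.mB (Sum.inr ()) 1) (E.mB (Sum.inr ()) 2) c
      (tauP hp2 hdet hord hm hr0 w hw hg₀ hu E) where
  nr := by
    intro O' _ _ _ _ _ _ _ _ _ _ N M hN hS hsq lam η x hη hx hqM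
    exact lam_y_eq_zero hp2 hdet hord hm hr0 w hw hg₀ hu E hpS hLS π hπ hH b₂ hb₂
      (hsq.squarefree_of_dvd hN) (Nat.pos_of_ne_zero hsq.ne_zero) (not_sq_dvd hsq) hN hS
      (hqp ▸ hqM) lam η x (exists_odd_of_pow hp2 hη) hx
  un := by
    intro O' _ _ _ _ _ _ _ _ _ _ N M hN hS hsq lam η x hη hx hqM hqN
    exact lam_un hp2 hdet hord hm hr0 w hw hg₀ hu E π lam _
  tr := htb_p hp2 hdet hord hm hr0 w hw hg₀ hu E hc hqp
  frob := by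
    intro O' _ _ _ _ _ _ _ _ _ _ N M hN hS hsq hq hqM hqN lam η x hη hx μ hμ
    exact lam_tauP_eq hp2 hdet hord hm hr0 w hw hg₀ hu E hpS hLS π hπ hH b₂ hb₂ hqp
      (hsq.squarefree_of_dvd hN) (Nat.pos_of_ne_zero hsq.ne_zero) (not_sq_dvd hsq) hN hS
      hq hqM hqN lam η x (exists_odd_of_pow hp2 hη) hx μ hμ
  new := by
    intro _ O' _ _ _ _ _ _ _ _ _ _ N M _ hN hS hsq hq hqM lam η x hη hx h1 h2
    have hsq' : Squarefree M := hsq.squarefree_of_dvd (Dvd.intro _ rfl)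
    exact lam_t_mul_eq_zero hp2 hdet hord hm hr0 w hw hg₀ hu E hpS hLS π hπ hH b₂ hb₂ hqp c
      (hsq'.squarefree_of_dvd hN) (not_sq_dvd hsq') hN hS
      hq hqM lam η x (exists_odd_of_pow hp2 hη) hx h1 h2

include hπ hH hb₂ hpS in
/-- **The local facts at `p`**, ordinary type. -/
theorem markFacts_p :
    MarkFacts p hLS π p (E.mB (Sum.inr ()) 0) (E.mB (Sum.inr ()) 1) (E.mB (Sum.inr ()) 2) 1
      (tauP hp2 hdet hord hm hr0 w hw hg₀ hu E) :=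
  markFacts_p' hp2 hdet hord hm hr0 w hw hg₀ hu E hpS hLS π hπ hH b₂ hb₂ rfl isUnit_one

end Fermat.Agent.H75R
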