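import Fermat.Agent.H86InPH
import Fermat.Agent.H75R6
import Fermat.Agent.H30Type4
import Fermat.Agent.H85InA1

set_option autoImplicit false
set_option linter.style.haveILetI false
set_option linter.unusedSectionVars false

/-!
# The hypotheses at `p` of the S59 composition for the ordinary type
-/

noncomputable section

open IsLocalRing GaloisRep CuspForm
open Fermat.Agent.H53 Fermat.Agent.H87.Glue Fermat.Agent.H87.S58
open Fermat.Agent.H75P (OrdMark MarkElts OrdI cj)
open Fermat.Agent.H59 (Tset)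
open Fermat.Agent.H86.In

namespace Fermat.Agent.H85.InA

variable {W : WeierstrassCurve ℤ} (hΔ : W.Δ ≠ 0) {p : ℕ} [Fact p.Prime]
  {O : Type} [CommRing O] [IsDomain O] [IsDiscreteValuationRing O]
  [IsAdicComplete (maximalIdeal O) O] [CharZero O] [Finite (ResidueField O)]
  [Algebra (ZMod p) (ResidueField O)] (hpO : (p : O) ∈ maximalIdeal O)
  {b : Module.Basis (Fin 2) (ResidueField O) ((resZ W hΔ p).baseChange (ResidueField O)).V}
  (A : Finset ℕ) {T B : Finset ℕ}
  (pl : ∀ t : Tset T, PlaceData p t.1) (u : Tset T → O) (plB : ∀ i : Tset B, PlaceData p i.1)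
  (hp2 : p ≠ 2)
  (hdet : (GaloisRepAdic.ofResidualGaloisRep
    ((resZ W hΔ p).baseChange (ResidueField O))).DetIsCyclotomic p)
  (hord : (GaloisRepAdic.ofResidualGaloisRep
    ((resZ W hΔ p).baseChange (ResidueField O))).IsOrdinaryAt p)
  {φ σ₀ : GQ} (hm : MarkElts p φ σ₀)
  (hr0 : toMat ((resZ W hΔ p).baseChange (ResidueField O)).ρ b σ₀ = 1) (w : ℤ) (hw : w ^ 2 = 1)
  {g₀ : (M2 (ResidueField O))ˣ}
  (hg₀ : OrdI p (cj g₀ (toMat ((resZ W hΔ p).baseChange (ResidueField O)).ρ b)))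
  (hu : cj g₀ (toMat ((resZ W hΔ p).baseChange (ResidueField O)).ρ b) φ 1 1 =
    (w : ResidueField O))

/-- **The hypotheses at `p` for the ordinary type with marks** (types `Pα` and `Pβ`). -/
theorem pHyp_ord (h32 : H30.StatementS32) (h33 : H30.StatementS33)
    (hss : W.IsSemistableModel) (hbad : (p : ℤ) ∣ W.Δ) (inc : Prop) :
    PHyp hΔ hpO (PData.ord hp2 ((resZ W hΔ p).baseChange (ResidueField O)) b hdet hord hm hr0 w
      hw hg₀ hu) A pl u plB inc where
  𝒟tO := H30.PT.tO_isOrdinaryAt hΔ hpO hss hbad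
  𝒟H := by
    intro L _ S hpS hLS hL2 _ θ H hres
    exact H30.ordinary_datum_all h32 h33 hp2 hpO hL2 hpS hLS H _ hres hord
  marks := by
    intro k n S₀ G L _ S θ π hs j
    obtain ⟨H, b₂, hH, hb₂⟩ := hs.datum
    exact ⟨_, H75R.markFacts_p hp2 hdet hord hm hr0 w hw hg₀ hu G hs.hpS hs.hLS π hs.surj hH b₂
      hb₂⟩
  pt := by
    intro k n S₀ G f hf b' hb' j
    have h1 := G.ord_pt hp2 hdet hord hm hr0 w hw hg₀ hu inferInstance (f : G.D.R →+* O) hf _ b'
      hb' (H30.PT.tO_isStrictOrdinaryAt hΔ hpO hss hbad) (H69.Pt.detIsCyclotomic_tO W hΔ hpO)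
    refine ⟨h1, ?_⟩
    have h2 := G.ord_z hp2 hdet hord hm hr0 w hw hg₀ hu
    exact (congrArg f h2).trans (map_zero f)

end Fermat.Agent.H85.InA
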