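import Fermat.Agent.H86In3
import Fermat.Agent.H35InB2
import Fermat.Agent.H85InA2
import Fermat.Agent.H57S59Fin
import Fermat.Agent.H69Fin

/-!
# Type `Pβ` of the composition of S59
-/

set_option autoImplicit false
set_option linter.style.haveILetI false
set_option linter.unusedSectionVars false

noncomputable section

open IsLocalRing GaloisRep CuspForm WeierstrassCurve
open Fermat.Agent.H87.Glue (resZ)
open Fermat.Agent.H87.S58 (tO)
open Fermat.Agent.H59 (Tset Zset CoeffChoice)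
open Fermat.Agent.H86.In Fermat.Agent.H21M Fermat.Agent.H30
open Fermat.Agent.H53 (GQ M2 toMat mapMat PlaceData PData GalLevelB numB)
open Fermat.Agent.H69.Red (Partition baseLevel)
open Fermat.Agent.H73LT (nodeSign)

namespace Fermat.Agent.H35.InB

/-- **The relation**: since `W` is not modular, some relation between the Hecke operators of a
squarefree level does not hold for `W`; it is not even zero modulo a power of the uniformiser. -/
theorem exists_relation (h35 : H87.S58.StatementS35) (W : WeierstrassCurve ℤ) (hΔ : W.Δ ≠ 0)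
    (hnot : ¬ Mlc1IsModularModelOfExactConductorLevel W) (p : ℕ)
    {O : Type} [CommRing O] [IsDomain O] [IsDiscreteValuationRing O]
    [IsAdicComplete (maximalIdeal O) O] [CharZero O] {ϖ : O}
    (hϖ : maximalIdeal O = Ideal.span {ϖ}) {L₁ : ℕ} [NeZero L₁] (hL₁ : Squarefree L₁) :
    ∃ S₁ : Finset ℕ, p ∈ S₁ ∧ (∀ q : ℕ, q.Prime → (q : ℤ) ∣ W.Δ → q ∈ S₁) ∧
      ∃ (hNS₁ : ∀ q : ℕ, q.Prime → q ∣ L₁ → q ∈ (↑S₁ : Set ℕ))
        (P₀ : MvPolynomial {ℓ : ℕ // ℓ.Prime ∧ ℓ ∉ (↑S₁ : Set ℕ)} ℤ),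
        H30.evZ L₁ (↑S₁ : Set ℕ) hNS₁ P₀ = 0 ∧
          ∃ m : ℕ, ((MvPolynomial.aeval (fun i => W.apOfModel i.1) P₀ : ℤ) : O) ∉
            Ideal.span {ϖ ^ m} := by
  classical
  obtain ⟨S₁, hS₁⟩ : ∃ S₁ : Finset ℕ, S₁ = insert p (L₁.primeFactors ∪ W.Δ.natAbs.primeFactors) :=
    ⟨_, rfl⟩
  have hN : ∀ q : ℕ, q.Prime → q ∣ L₁ → q ∈ (↑S₁ : Set ℕ) := by
    intro q hq h
    rw [Finset.mem_coe, hS₁]
    exact Finset.mem_insert_of_mem (Finset.mem_union_left _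
      (Nat.mem_primeFactors.mpr ⟨hq, h, NeZero.ne L₁⟩))
  refine ⟨S₁, by rw [hS₁]; exact Finset.mem_insert_self _ _, fun q hq h => ?_, hN, ?_⟩
  · rw [hS₁]
    exact Finset.mem_insert_of_mem (Finset.mem_union_right _
      (Nat.mem_primeFactors.mpr ⟨hq, Int.natCast_dvd.mp h, Int.natAbs_ne_zero.mpr hΔ⟩))
  · rcases H69.Fin.exact_or_exists h35 W hΔ hL₁ S₁ hN with h | ⟨P₀, h1, h2⟩
    · exact absurd h hnot
    · exact ⟨P₀, h1, H69.Pt.exists_notMem_pow hϖ h2⟩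

/-- the residual representation stays irreducible over extensions -/
theorem irreducible_baseChange (W : WeierstrassCurve ℤ) (hΔ : W.Δ ≠ 0) {p : ℕ} [hp : Fact p.Prime]
    (hp2 : p ≠ 2) (hirr : W.ModRepIsIrreducible p) (κ : Type) [Field κ] [Algebra (ZMod p) κ] :
    ((resZ W hΔ p).baseChange κ).IsIrreducible := by
  have h2z : (2 : ZMod p) ≠ 0 := by
    intro h
    have h1 : ((2 : ℕ) : ZMod p) = 0 := by exact_mod_cast h
    rw [CharP.cast_eq_zero_iff (ZMod p) p] at h1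
    have h2 := Nat.le_of_dvd (by norm_num) h1
    have h3 := hp.out.two_le
    omega
  obtain ⟨c, hc1, hc2⟩ : ∃ c : GQ, c * c = 1 ∧ c ≠ 1 :=
    ⟨complexConjugation, complexConjugation_mul_self, H87.Res.complexConjugation_ne_one⟩
  exact H87.AbsIrr.isIrreducible_baseChange_of_involution h2z _
    (H87.Glue.resZ_isIrreducible W hΔ p hirr) c hc1 (H87.Glue.resZ_isOdd W hΔ p c hc1 hc2)

/-- the levels of the chain in case `Pβ` -/
theorem exists_lvl_beta {p : ℕ} {A T B : Finset ℕ} {s' : ℕ} {E : Type} {s : ℕ}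
    (ε₀ : Fin s ≃ Tset B) {R : ℕ} {i : ℕ} (hi : i ≤ s) :
    ∃ B₁ ⊆ B, lvl (baseLevel A T s' * p * R)
      (bfun (bq p (fun j => (Sum.inl (ε₀ j) : Tset B ⊕ E)))) i =
        baseLevel A T s' * p * (∏ q ∈ B₁, q) * R := by
  obtain ⟨B₁, h1, h2⟩ := exists_lvl_eq (N₀ := baseLevel A T s') (p := p) (q := R) (B := B)
    (bfun (bq p (fun j => (Sum.inl (ε₀ j) : Tset B ⊕ E)))) (s := s)
    (fun j hj => by
      rw [bfun_lt _ hj]
      exact (ε₀ ⟨j, hj⟩).2)
    (fun j hj l hl => by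
      refine bfun_inj (bb := bq p (fun j => (Sum.inl (ε₀ j) : Tset B ⊕ E))) ?_ j hj l hl
      intro x y hxy
      exact ε₀.injective (Subtype.ext hxy)) hi
  exact ⟨B₁, h1, by rw [h2]; ring⟩

/-- **Type `Pβ`.** -/
theorem typeBeta (h29 : H96.StatementS29) (h32 : H30.StatementS32) (h33 : H30.StatementS33)
    (h34 : H30.StatementS34) (h35 : H87.S58.StatementS35)
    (GI : ∀ {p : ℕ}, p.Prime → H4.GeomInputs p) : H57.S59.TypeBeta := by
  classical
  intro W hΔ p hp A T B s' St hbad hmod hno φ σ₀ hm h1 O _ _ _ _ _ _ _ _ ϖ a ζ hO b pl hpl u hu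
    hφ plB hplB
  have hp2 : p ≠ 2 := by
    rcases St.h35 with h | h <;> omega
  have hbad' : (p : ℤ) ∣ W.Δ := not_not.mp hbad
  have hpO := hO.mem
  have P := St.part
  have hdet := H45.detIsCyclotomic_resZ_baseChange W hΔ p (ResidueField O)
  have hstr := H85.InA.residual_isStrictOrdinaryAt hΔ hpO St.ss hbad'
  have hr0 : toMat ((resZ W hΔ p).baseChange (ResidueField O)).ρ b σ₀ = 1 :=
    (H57.S59.resZ_eq_one_iff b σ₀).mpr h1
  obtain ⟨w, hw, g₀, hg₀, hu₀⟩ := H30.CaseP.exists_ordData_of_sigma _ b hdet hstr hm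
  have hirrk := irreducible_baseChange W hΔ hp2 St.irr (ResidueField O)
  obtain ⟨pd, hpd⟩ : ∃ pd : PData p ((resZ W hΔ p).baseChange (ResidueField O)) b,
    pd = PData.ord hp2 ((resZ W hΔ p).baseChange (ResidueField O)) b hdet hstr.isOrdinaryAt hm hr0
      w hw hg₀ hu₀ := ⟨_, rfl⟩
  have hPH := H85.InA.pHyp_ord hΔ hpO A pl u plB hp2 hdet hstr.isOrdinaryAt hm hr0 w hw hg₀ hu₀
    h32 h33 St.ss hbad' True
  refine ⟨PData.ord hp2 ((resZ W hΔ p).baseChange (ResidueField O)) b hdet hstr.isOrdinaryAt hm hr0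
      w hw hg₀ hu₀, (), fun _ => rfl, fun k => ?_⟩
  obtain ⟨s, ⟨ε₀⟩⟩ : ∃ s : ℕ, Nonempty (Fin s ≃ Tset B) :=
    ⟨_, ⟨(Fintype.equivFin (Tset B)).symm⟩⟩
  let ε : Fin s → Tset B ⊕ Unit := fun i => Sum.inl (ε₀ i)
  have hε : Function.Injective ε := fun i j h => ε₀.injective (Sum.inl_injective h)
  have hε1 : ∀ i (j : Unit), ε i = Sum.inr j → p = 1 := fun i j h => by cases h
  -- the level without Taylor–Wiles primes
  have hsq₁ : Squarefree (lvl (baseLevel A T s' * p) (bfun (bq p ε)) s) := by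
    obtain ⟨B₁, hB₁, hlv⟩ := exists_lvl_beta (A := A) (T := T) (s' := s') (p := p) (E := Unit) ε₀ (R := 1)
      (le_refl s)
    rw [mul_one, mul_one] at hlv
    rw [hlv]
    have hsq := H30.Lev.squarefree_top P (Q := fun i : Fin 0 => i.elim0)
      ⟨fun j => j.elim0, fun j => j.elim0, fun j => j.elim0, fun j => j.elim0, fun j => j.elim0,
        fun j => j.elim0, fun j => j.elim0⟩ (ε := 1) le_rfl
    refine hsq.squarefree_of_dvd ?_
    obtain ⟨c, hc⟩ := Finset.prod_dvd_prod_of_subset _ _ (fun q : ℕ => q) hB₁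
    rw [Finset.univ_eq_empty, Finset.prod_empty, mul_one, pow_one, hc]
    exact ⟨c, by ring⟩
  haveI hne₁ : NeZero (lvl (baseLevel A T s' * p) (bfun (bq p ε)) s) := ⟨hsq₁.ne_zero⟩
  haveI hne₂ : NeZero (lvl (baseLevel A T s' * p) (bfun (bq (E := PData.ε (PData.ord hp2
      ((resZ W hΔ p).baseChange (ResidueField O)) b hdet hstr.isOrdinaryAt hm hr0 w hw hg₀ hu₀))
      p ε)) s) := hne₁
  obtain ⟨S₁, hpS₁, hWS₁, hNS₁, P₀, hP₀, m, hm'⟩ :=
    @exists_relation h35 W hΔ St.not_exact p O _ _ _ _ _ ϖ hO.unif _ hne₁ hsq₁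
  refine ⟨H35.Rk.bnd O (numB (Tset T) (Tset B) Unit k)
    (lvl (baseLevel A T s' * p) (bfun (bq p ε)) s), m, s, ε₀, cq O W ε,
    ∏ i, ((bq p ε i : O) + 1), cq_ne_zero O W ε, prod_bq_ne_zero O p ε, fun n =>
      ⟨S₁ ∪ P₀.vars.image fun i => i.1, fun G => ?_⟩⟩
  obtain ⟨FL, h2, h3⟩ := inner_level hΔ hp2 St.ss St.irr hirrk h34
    (GI hp.out) hO P hPH (δ := p) (Or.inr rfl) hmod ε hε (fun _ _ => rfl) hε1
    ⟨fun _ => Or.inl rfl, fun _ => trivial⟩ hpS₁ hNS₁ hWS₁ P₀ hP₀ hm' G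
    {G.mB (Sum.inr ()) 0, G.mB (Sum.inr ()) 2} (by
      intro L _ S θ π hs hSW hθ x hx i hi
      obtain ⟨B₁, hB₁, hlv⟩ := exists_lvl_beta (A := A) (T := T) (s' := s') (p := p) (E := Unit)
        ε₀ (R := ∏ j, G.qv j) hi
      have key := hU_beta hpO h29 hp2 hdet hstr.isOrdinaryAt hm hr0 w hw hg₀ hu₀
        P St.irr hirrk hno G π hs hSW hθ hB₁
      rw [← hlv] at key
      rcases hx with rfl | rfl
      · exact key.1
      · exact key.2)
  refine ⟨FL, fun τ x => h2 _ ?_ τ x, fun τ x => h2 _ ?_ τ x, (h3 ()).1, (h3 ()).2⟩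
  · rw [G.β_mB]
    exact Set.mem_insert _ _
  · rw [G.β_mB]
    exact Set.mem_insert_of_mem _ rfl

end Fermat.Agent.H35.InB
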