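import Fermat.Agent.H80TyStrict
import Fermat.Agent.H80AuxDatum
import Fermat.Agent.H30Type2
import Fermat.Agent.H53TWB1
import Fermat.Agent.H23FlatOrd

set_option autoImplicit false
set_option linter.style.haveILetI false
set_option linter.unusedSectionVars false

/-!
# The types of the Hecke data

`gtype_datum`: the type `GType` ("cyclotomic determinant, condition `𝒟p` at `p`, unramified outside
`S'`, unipotent at `U`") of the representation of a Hecke datum; the conditions at `p`: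

* `isOrdinaryAt_datum_flat` : level prime to `p`, residually ordinary (from S32);
* `isOrdinaryAt_datum` : `p ∥ N`, residually ordinary (from S33);
* `isStrictOrdinaryAt_datum` : ordinary, and at all points the Frobenius acts with `z ^ 2 = 1`.
-/

noncomputable section

open IsLocalRing GaloisRep CuspForm Polynomial
open scoped TensorProduct Pointwise

namespace Fermat.Agent.H80.Ty

open Fermat.Agent.H53 Fermat.Agent.H64 Fermat.Agent.H75P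

local notation "GQ" => (AlgebraicClosure ℚ ≃ₐ[ℚ] AlgebraicClosure ℚ)

/-- The statement of S33 (verbatim). -/
def StatementS33 : Prop :=
  ∀ {p : ℕ} {N : ℕ} [NeZero N] {S : Finset ℕ}
  {𝒪 : Type} [CommRing 𝒪] [IsDomain 𝒪] [IsDiscreteValuationRing 𝒪]
  [IsAdicComplete (IsLocalRing.maximalIdeal 𝒪) 𝒪]
  {θ : CuspForm.heckeAlgebra N 2 (↑S : Set ℕ) →+* IsLocalRing.ResidueField 𝒪}
  {T : Type} [CommRing T] [IsLocalRing T] [IsNoetherianRing T]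
  [IsAdicComplete (IsLocalRing.maximalIdeal T) T] [Algebra 𝒪 T] [IsLocalHom (algebraMap 𝒪 T)]
  [Module.Finite 𝒪 T] [Module.Free 𝒪 T]
    [Finite (IsLocalRing.ResidueField 𝒪)] [CharZero 𝒪]
    (_hp : p.Prime) (_hp2 : p ≠ 2) (_hp𝒪 : (p : 𝒪) ∈ IsLocalRing.maximalIdeal 𝒪)
    (_hN : p ∣ N ∧ ¬ p ^ 2 ∣ N)
    (_hNS : ∀ q : ℕ, q.Prime → q ∣ N → q ∈ S)
    (H : CuspForm.HeckeGaloisRepDatum N (↑S : Set ℕ) 𝒪 θ T)
    (_hres : (GaloisRepAdic.ofResidualGaloisRep H.ρ.residual).IsOrdinaryAt p),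
    H.ρ.IsOrdinaryAt p

/-! ### Residual ordinarity -/

/-- ordinarity of a residual representation is preserved by equivalence and base change -/
theorem residual_isOrdinaryAt {p : ℕ} [Fact p.Prime] {k k' : Type} [Field k] [Field k']
    (f : k →+* k') (ρbar : ResidualGaloisRep k) (ρ' : ResidualGaloisRep k')
    (h : ρ'.IsEquiv (ρbar.baseChangeAlong f))
    (hord : (GaloisRepAdic.ofResidualGaloisRep ρbar).IsOrdinaryAt p) :
    (GaloisRepAdic.ofResidualGaloisRep ρ').IsOrdinaryAt p := by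
  intro P hP
  refine (ord_iff_exists_ordBp _ P).mpr ?_
  obtain ⟨b, hb⟩ := (ord_iff_exists_ordBp _ P).mp (hord P hP)
  obtain ⟨e⟩ := h
  let b₀ : Module.Basis (Fin 2) k ρbar.V := b
  let b₁ : Module.Basis (Fin 2) k' (ρbar.baseChangeAlong f).V := rbcBasis f ρbar b₀
  let b₂ : Module.Basis (Fin 2) k' ρ'.V := b₁.map e.toLinearEquiv.symm
  have hm : ∀ σ, toMat ρ'.ρ b₂ σ = (toMat ρbar.ρ b₀ σ).map f := by
    intro σ
    have h1 := congrArg (fun r => r σ) (toMat_rbcBasis f ρbar b₀)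
    have h2 : (toMat ρbar.ρ b₀ σ).map f = toMat (ρbar.baseChangeAlong f).ρ b₁ σ := h1.symm
    rw [h2, toMat_apply, toMat_apply]
    ext i j
    rw [LinearMap.toMatrix_apply, LinearMap.toMatrix_apply, Module.Basis.map_apply,
      Module.Basis.map_repr, LinearEquiv.trans_apply, LinearEquiv.symm_symm]
    have h3 := e.map_apply σ (e.toLinearEquiv.symm (b₁ j))
    rw [LinearEquiv.apply_symm_apply] at h3
    rw [h3]
  refine ⟨b₂, fun σ hσ => ?_, fun σ hσ => ⟨?_, ?_⟩⟩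
  · show toMat ρ'.ρ b₂ σ 1 0 = 0
    rw [hm, Matrix.map_apply]
    have := hb.1 σ hσ
    have h4 : toMat ρbar.ρ b₀ σ 1 0 = 0 := this
    rw [h4, map_zero]
  · show toMat ρ'.ρ b₂ σ 1 0 = 0
    rw [hm, Matrix.map_apply]
    have h4 : toMat ρbar.ρ b₀ σ 1 0 = 0 := (hb.2 σ hσ).1
    rw [h4, map_zero]
  · show toMat ρ'.ρ b₂ σ 1 1 = 1
    rw [hm, Matrix.map_apply]
    have h4 : toMat ρbar.ρ b₀ σ 1 1 = 1 := (hb.2 σ hσ).2
    rw [h4, map_one]

section Datum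

variable {p : ℕ} [Fact p.Prime] {N : ℕ} [NeZero N] {S : Finset ℕ}
  {𝒪 : Type} [CommRing 𝒪] [IsDomain 𝒪] [IsDiscreteValuationRing 𝒪]
  [IsAdicComplete (maximalIdeal 𝒪) 𝒪] [Finite (ResidueField 𝒪)] [CharZero 𝒪]
  {θ : heckeAlgebra N 2 (↑S : Set ℕ) →+* ResidueField 𝒪}
  {T : Type} [CommRing T] [IsLocalRing T] [IsNoetherianRing T]
  [IsAdicComplete (maximalIdeal T) T] [Algebra 𝒪 T] [IsLocalHom (algebraMap 𝒪 T)]
  [Module.Finite 𝒪 T] [Module.Free 𝒪 T]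

/-- **The type of a Hecke datum.** -/
theorem gtype_datum (h34 : H30.StatementS34) (hp𝒪 : (p : 𝒪) ∈ maximalIdeal 𝒪)
    (hpS : p ∈ S) (hNS : ∀ q : ℕ, q.Prime → q ∣ N → q ∈ S)
    (H : HeckeGaloisRepDatum N (↑S : Set ℕ) 𝒪 θ T)
    (hunr : ∀ q : ℕ, q.Prime → ¬ q ∣ N → q ≠ p → H.ρ.IsUnramifiedAt q)
    (𝒟p : ∀ ⦃A : Type⦄ [CommRing A] [IsLocalRing A], GaloisRepAdic A → Prop) (h𝒟p : 𝒟p H.ρ)
    (S' U : Finset ℕ)
    (hS' : ∀ q : ℕ, q.Prime → q ∉ S' → q ≠ p ∧ (q ∣ N → H.ρ.IsUnramifiedAt q))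
    (hU : ∀ q ∈ U, q.Prime → q ≠ p → ¬ q ^ 2 ∣ N) :
    GType 𝒪 p 𝒟p S' U H.ρ := by
  refine ⟨⟨H33.datum_detIsCyclotomic Fact.out hp𝒪 hNS H, h𝒟p, fun q hq hqS => ?_⟩,
    fun q hqU hq hqp => ?_⟩
  · by_cases hqN : q ∣ N
    · exact (hS' q hq hqS).2 hqN
    · exact hunr q hq hqN (hS' q hq hqS).1
  · by_cases hqN : q ∣ N
    · exact h34 Fact.out hp𝒪 hpS hNS H q hq hqp hqN (hU q hqU hq hqp)
    · intro P hP σ hσ
      have h1 := hunr q hq hqN hqp P hP σ hσ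
      rw [h1, LinearMap.charpoly_one, H.ρ.finrank_eq]

/-- level prime to `p` -/
theorem isFlatAt_datum (h32 : H30.StatementS32) (hp2 : p ≠ 2) (hp𝒪 : (p : 𝒪) ∈ maximalIdeal 𝒪)
    (hpS : p ∈ S) (hNS : ∀ q : ℕ, q.Prime → q ∣ N → q ∈ S) (hpN : ¬ p ∣ N)
    (H : HeckeGaloisRepDatum N (↑S : Set ℕ) 𝒪 θ T) : H.ρ.IsFlatAt p :=
  h32 Fact.out hp2 hp𝒪 hpN hpS hNS H

/-- level prime to `p`, residually ordinary -/
theorem isOrdinaryAt_datum_flat (h32 : H30.StatementS32) (hp2 : p ≠ 2)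
    (hp𝒪 : (p : 𝒪) ∈ maximalIdeal 𝒪) (hpS : p ∈ S)
    (hNS : ∀ q : ℕ, q.Prime → q ∣ N → q ∈ S) (hpN : ¬ p ∣ N)
    (H : HeckeGaloisRepDatum N (↑S : Set ℕ) 𝒪 θ T)
    {k : Type} [Field k] (g : k →+* ResidueField T) (ρbar : ResidualGaloisRep k)
    (hres : H.ρ.residual.IsEquiv (ρbar.baseChangeAlong g))
    (hord : (GaloisRepAdic.ofResidualGaloisRep ρbar).IsOrdinaryAt p) :
    H.ρ.IsOrdinaryAt p :=
  H23.isOrdinaryAt_of_isFlatAt hp2 H.ρ (H33.datum_detIsCyclotomic Fact.out hp𝒪 hNS H)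
    (isFlatAt_datum h32 hp2 hp𝒪 hpS hNS hpN H) (residual_isOrdinaryAt g ρbar _ hres hord)

/-- `p ∥ N`, residually ordinary -/
theorem isOrdinaryAt_datum (h33 : StatementS33) (hp2 : p ≠ 2)
    (hp𝒪 : (p : 𝒪) ∈ maximalIdeal 𝒪) (hNS : ∀ q : ℕ, q.Prime → q ∣ N → q ∈ S)
    (hpN : p ∣ N) (hpN2 : ¬ p ^ 2 ∣ N) (H : HeckeGaloisRepDatum N (↑S : Set ℕ) 𝒪 θ T)
    {k : Type} [Field k] (g : k →+* ResidueField T) (ρbar : ResidualGaloisRep k)
    (hres : H.ρ.residual.IsEquiv (ρbar.baseChangeAlong g))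
    (hord : (GaloisRepAdic.ofResidualGaloisRep ρbar).IsOrdinaryAt p) :
    H.ρ.IsOrdinaryAt p :=
  h33 Fact.out hp2 hp𝒪 ⟨hpN, hpN2⟩ hNS H (residual_isOrdinaryAt g ρbar _ hres hord)

/-- `p ∥ N`, residually ordinary, and `z ^ 2 = 1` at all points -/
theorem isStrictOrdinaryAt_datum [IsReduced T] (hp𝒪 : (p : 𝒪) ∈ maximalIdeal 𝒪)
    (hNS : ∀ q : ℕ, q.Prime → q ∣ N → q ∈ S)
    (H : HeckeGaloisRepDatum N (↑S : Set ℕ) 𝒪 θ T) (hord : H.ρ.IsOrdinaryAt p) {φ : GQ}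
    (hφ : (padicPlace p).IsFrobeniusAt φ p)
    (hpt : ∀ (O' : Type) [CommRing O'] [IsDomain O'] [IsDiscreteValuationRing O']
      [IsAdicComplete (maximalIdeal O') O'] [Finite (ResidueField O')] [CharZero O']
      [Algebra 𝒪 O'] [Module.Finite 𝒪 O'] [IsLocalHom (algebraMap 𝒪 O')],
      Function.Injective (algebraMap 𝒪 O') → ∀ (f : T →ₐ[𝒪] O')
        (hf : IsLocalHom (f : T →+* O'))
        (l : (H.ρ.baseChangeAlong (f : T →+* O') hf).V →ₗ[O'] O'), l ≠ 0 →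
        (∀ σ ∈ (padicPlace p).inertiaSubgroupIn ℚ, ∀ v,
          l ((H.ρ.baseChangeAlong (f : T →+* O') hf).ρ σ v) = l v) →
        ∀ z : O', (∀ v, l ((H.ρ.baseChangeAlong (f : T →+* O') hf).ρ φ v) = z * l v) →
          z ^ 2 = 1) :
    H.ρ.IsStrictOrdinaryAt p :=
  isStrictOrdinaryAt_of_points (O := 𝒪) H.ρ (H33.datum_detIsCyclotomic Fact.out hp𝒪 hNS H)
    hord hφ hpt

end Datum

end Fermat.Agent.H80.Ty
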