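import Fermat.Agent.H86InPH
import Fermat.Agent.H57S59Part
import Fermat.Agent.H59LocAt
import Fermat.Agent.H30S59b
import Fermat.Agent.H80TyDatum
import Fermat.Agent.H64StatementF
import Fermat.Agent.H30Main
import Fermat.Agent.S32

/-!
# Type `F` of the composition of the levels of S59

The curve has good reduction at `p`: the condition at `p` is flatness, there is no mark at `p` and
the levels are prime to `p`.
-/

set_option autoImplicit false
set_option linter.style.haveILetI false
set_option linter.unusedSectionVars false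
set_option linter.unusedVariables false

noncomputable section

open Polynomial IsLocalRing CuspForm GaloisRep
open Fermat.Agent.H53 (toMat mapMat PData PlaceData GalLevelB)
open Fermat.Agent.H59 (Tset)
open Fermat.Agent.H87.Glue (resZ)
open Fermat.Agent.H87.S58 (tO)
open Fermat.Agent.H73LT (nodeSign)
open Fermat.Agent.H69.Red

namespace Fermat.Agent.H65.InF

variable {W : WeierstrassCurve ℤ} (hΔ : W.Δ ≠ 0) {p : ℕ} [hp : Fact p.Prime]

/-- the residual representation is flat -/
theorem residual_flat (hss : W.IsSemistableModel) (hirr : W.ModRepIsIrreducible p) (hp2 : p ≠ 2)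
    {A T B : Finset ℕ} {s : ℕ} (P : Partition W hΔ p A T B s)
    (hres : W.IsResiduallyModularOfLevel p (baseLevel A T s))
    (k : Type) [Field k] [Finite k] [Algebra (ZMod p) k] :
    (GaloisRepAdic.ofResidualGaloisRep ((resZ W hΔ p).baseChange k)).IsFlatAt p :=
  (H59.localAt hΔ hss hp2 H30.statementS30 Fermat.Agent.S32.result
    (H87.Glue.resZ_isIrreducible W hΔ p hirr)).flat _ P.baseLevel_pos P.not_p_dvd hres k

section PD

variable {O : Type} [CommRing O] [IsDomain O] [IsDiscreteValuationRing O]
  [IsAdicComplete (maximalIdeal O) O] [CharZero O] [Finite (ResidueField O)]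
  [Algebra (ZMod p) (ResidueField O)]
  (b : Module.Basis (Fin 2) (ResidueField O) ((resZ W hΔ p).baseChange (ResidueField O)).V)

/-- the flat type -/
def pdF (hp2 : p ≠ 2) (hroots : ∀ t d : ℤ, ∃ α β : ResidueField O, α + β = t ∧ α * β = d)
    (hflat : (GaloisRepAdic.ofResidualGaloisRep
      ((resZ W hΔ p).baseChange (ResidueField O))).IsFlatAt p) :
    PData p ((resZ W hΔ p).baseChange (ResidueField O)) b :=
  PData.flat _ b (H64.statementF hp2) (H45.detIsCyclotomic_resZ_baseChange W hΔ p (ResidueField O))
    (H59.hsplit_of_roots (resZ W hΔ p) (ResidueField O) hroots) hflat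

variable {hΔ b} {hp2 : p ≠ 2}
  {hroots : ∀ t d : ℤ, ∃ α β : ResidueField O, α + β = t ∧ α * β = d}
  {hflat : (GaloisRepAdic.ofResidualGaloisRep
      ((resZ W hΔ p).baseChange (ResidueField O))).IsFlatAt p}

/-- **The facts at `p`** for the flat type. -/
theorem pHyp_flat (hgood : W.IsGoodPrimeFor p) (hpO : (p : O) ∈ maximalIdeal O) (A : Finset ℕ)
    {T B : Finset ℕ} (pl : ∀ t : Tset T, PlaceData p t.1) (u : Tset T → O)
    (plB : ∀ i : Tset B, PlaceData p i.1) {inc : Prop} (hinc : ¬ inc) :
    H86.In.PHyp hΔ hpO (pdF hΔ b hp2 hroots hflat) A pl u plB inc where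
  𝒟tO := H30.PT.tO_isFlatAt hΔ hpO hp2 hgood
  𝒟H hpS hLS _ hpL _ H _ := Fermat.Agent.S32.result hp.out hp2 hpO (fun h => hinc (hpL.mp h)) hpS hLS H
  marks := by
    intro _ _ _ _ _ _ _ _ _ _ j
    exact (j : Empty).elim
  pt := by
    intro _ _ _ _ _ _ _ _ j
    exact (j : Empty).elim

end PD

end Fermat.Agent.H65.InF

end
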