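import Fermat.Agent.H86In3
import Fermat.Agent.H65InF
import Fermat.Agent.H57S59Fin
import Fermat.Agent.H69Fin
import Fermat.Agent.H4GeomIn
import Fermat.Agent.S34
import Fermat.Agent.S35

/-!
# Type `F`

Good reduction at `p`: the inner statement.
-/

set_option autoImplicit false
set_option linter.style.haveILetI false
set_option linter.unusedSectionVars false
set_option linter.unusedVariables false

noncomputable section

open Polynomial IsLocalRing CuspForm GaloisRep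
open Fermat.Agent.H53 (toMat mapMat PData PlaceData GalLevelB)
open Fermat.Agent.H59 (Tset Zset)
open Fermat.Agent.H87.Glue (resZ)
open Fermat.Agent.H87.S58 (tO)
open Fermat.Agent.H73LT (nodeSign)
open Fermat.Agent.H69.Red Fermat.Agent.H21M Fermat.Agent.H86.In

namespace Fermat.Agent.H65.InF

/-- the residual representation stays irreducible over extensions of the prime field -/
theorem baseChange_irreducible (W : WeierstrassCurve ℤ) (hΔ : W.Δ ≠ 0) {p : ℕ}
    [hp : Fact p.Prime] (hp2 : p ≠ 2) (hirr : W.ModRepIsIrreducible p) (k : Type) [Field k]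
    [Algebra (ZMod p) k] : ((resZ W hΔ p).baseChange k).IsIrreducible := by
  have h2z : (2 : ZMod p) ≠ 0 := by
    intro h
    have h1 : ((2 : ℕ) : ZMod p) = 0 := by exact_mod_cast h
    rw [CharP.cast_eq_zero_iff (ZMod p) p] at h1
    exact hp2 ((Nat.prime_dvd_prime_iff_eq hp.out Nat.prime_two).mp h1)
  obtain ⟨c, hc1, hc2⟩ : ∃ c : AlgebraicClosure ℚ ≃ₐ[ℚ] AlgebraicClosure ℚ, c * c = 1 ∧ c ≠ 1 :=
    ⟨complexConjugation, complexConjugation_mul_self, H87.Res.complexConjugation_ne_one⟩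
  have hdetc : LinearMap.det ((resZ W hΔ p).ρ c) = -1 := H87.Glue.resZ_isOdd W hΔ p c hc1 hc2
  exact H87.AbsIrr.isIrreducible_baseChange_of_involution h2z _
    (H87.Glue.resZ_isIrreducible W hΔ p hirr) c hc1 hdetc

/-- **Type `F`** -/
theorem typeF : H57.S59.TypeF := by
  classical
  intro W hΔ p hp A T B s' St hgood hres
  intro O _ _ _ _ _ _ _ _ ϖ a ζ hO b pl hpl u hu hφ plB hplB
  have P := St.part
  have hp2 : p ≠ 2 := by rcases St.h35 with h | h <;> omega
  have hflat := residual_flat hΔ St.ss St.irr hp2 P hres (ResidueField O)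
  refine ⟨pdF hΔ b hp2 hO.roots hflat, fun k => ?_⟩
  have ph := pHyp_flat (b := b) (hp2 := hp2) (hroots := hO.roots) (hflat := hflat) hgood hO.mem A
    pl u plB (inc := False) not_false
  obtain ⟨ε⟩ : Nonempty (Fin (Fintype.card (Tset B ⊕ (pdF hΔ b hp2 hO.roots hflat).ε)) ≃
    Tset B ⊕ (pdF hΔ b hp2 hO.roots hflat).ε) := ⟨(Fintype.equivFin _).symm⟩
  have hsub : ∀ j j' : (pdF hΔ b hp2 hO.roots hflat).ε, j = j' := fun j => (j : Empty).elim
  have hε1 : ∀ i j, ε i = Sum.inr j → (1 : ℕ) = 1 := fun _ _ _ => rfl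
  have hp1 : (1 : ℕ) ≠ p := hp.out.ne_one.symm
  -- the top level
  have hsq : Squarefree (lvl (baseLevel A T s' * 1) (bfun (bq p ε))
      (Fintype.card (Tset B ⊕ (pdF hΔ b hp2 hO.roots hflat).ε))) := by
    have h1 := lvl_sq P (Or.inl rfl) ε.injective hsub hε1 (r := 0) (Q := Fin.elim0)
      (fun j => j.elim0) (fun j => j.elim0) (fun j => j.elim0) (fun _ j => j.elim0)
    simpa only [Finset.univ_eq_empty, Finset.prod_empty, mul_one] using h1
  haveI : NeZero (lvl (baseLevel A T s' * 1) (bfun (bq p ε))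
      (Fintype.card (Tset B ⊕ (pdF hΔ b hp2 hO.roots hflat).ε))) := ⟨hsq.ne_zero⟩
  obtain ⟨S₁, hS₁⟩ : ∃ S₁ : Finset ℕ, S₁ = {p} ∪ (lvl (baseLevel A T s' * 1) (bfun (bq p ε))
      (Fintype.card (Tset B ⊕ (pdF hΔ b hp2 hO.roots hflat).ε))).primeFactors ∪
      W.Δ.natAbs.primeFactors := ⟨_, rfl⟩
  have hpS₁ : p ∈ S₁ := by
    rw [hS₁]
    exact Finset.mem_union_left _ (Finset.mem_union_left _ (Finset.mem_singleton_self p))
  have hNS₁ : ∀ q : ℕ, q.Prime → q ∣ lvl (baseLevel A T s' * 1) (bfun (bq p ε))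
      (Fintype.card (Tset B ⊕ (pdF hΔ b hp2 hO.roots hflat).ε)) → q ∈ (↑S₁ : Set ℕ) := by
    intro q hq h
    rw [hS₁]
    exact Finset.mem_coe.mpr (Finset.mem_union_left _ (Finset.mem_union_right _
      (Nat.mem_primeFactors.mpr ⟨hq, h, hsq.ne_zero⟩)))
  have hWS₁ : ∀ q : ℕ, q.Prime → (q : ℤ) ∣ W.Δ → q ∈ S₁ := by
    intro q hq h
    rw [hS₁]
    exact Finset.mem_union_right _
      (Nat.mem_primeFactors.mpr ⟨hq, Int.natCast_dvd.mp h, Int.natAbs_ne_zero.mpr hΔ⟩)
  rcases H69.Fin.exact_or_exists Fermat.Agent.S35.result W hΔ hsq S₁ hNS₁ with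
    h | ⟨P₀, hP₀, hne⟩
  · exact absurd h St.not_exact
  obtain ⟨m, hm⟩ := H69.Pt.exists_notMem_pow hO.unif hne
  refine ⟨H35.Rk.bnd O (H53.numB (Tset T) (Tset B) (pdF hΔ b hp2 hO.roots hflat).ε k)
    (lvl (baseLevel A T s' * 1) (bfun (bq p ε))
      (Fintype.card (Tset B ⊕ (pdF hΔ b hp2 hO.roots hflat).ε))), m, _, ε, cq O W ε, ∏ i, ((bq p ε i : O) + 1), cq_ne_zero O W ε,
    prod_bq_ne_zero O p ε, fun n => ⟨S₁ ∪ P₀.vars.image fun i => i.1, fun G => ?_⟩⟩
  obtain ⟨FL, -⟩ := inner_level hΔ hp2 St.ss St.irr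
    (baseChange_irreducible W hΔ hp2 St.irr (ResidueField O)) Fermat.Agent.S34.result
    (H4.geomInputs hp.out) hO P ph (Or.inl rfl) (by rw [mul_one]; exact hres) ε ε.injective hsub
    hε1 (by
      constructor
      · exact False.elim
      · rintro (h | ⟨_, j, _⟩)
        · exact hp1 h
        · exact (j : Empty).elim) hpS₁ hNS₁ hWS₁ P₀ hP₀ hm G ∅ (by
      intro L _ S θ π hs _ _ a ha
      exact absurd ha (Set.notMem_empty a))
  exact ⟨FL⟩

end Fermat.Agent.H65.InF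

end
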