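import Fermat.Agent.H85InL
import Fermat.Agent.H4GeomIn
import Fermat.Agent.S30
import Fermat.Agent.S32
import Fermat.Agent.S33
import Fermat.Agent.S34
import Fermat.Agent.S35

set_option autoImplicit false
set_option linter.style.haveILetI false
set_option linter.unusedSectionVars false

/-!
# The type `Pα` of S59
-/

noncomputable section

open IsLocalRing GaloisRep CuspForm
open Fermat.Agent.H53 (GQ M2 toMat mapMat PData PlaceData GalLevelB numB)
open Fermat.Agent.H59 (Tset CoeffChoice Zset)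
open Fermat.Agent.H87.Glue (resZ)
open Fermat.Agent.H69.Red Fermat.Agent.H86.In

namespace Fermat.Agent.H85.InA

/-- **Type `Pα`.** -/
theorem typeAlpha_of (h30 : H96.StatementS30) (h32 : H30.StatementS32) (h33 : H30.StatementS33)
    (h34 : H30.StatementS34) (h35S : H87.S58.StatementS35)
    (Gm : ∀ p : ℕ, p.Prime → H4.GeomInputs p) : H57.S59.TypeAlpha := by
  intro W hΔ p hp A T B s St hbad hmod
  have hbad' : (p : ℤ) ∣ W.Δ := not_not.mp hbad
  have hp2 : p ≠ 2 := by rcases St.h35 with h | h <;> omega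
  have hirrz := H87.Glue.resZ_isIrreducible W hΔ p St.irr
  refine InL.innerFull_of (δ := 1) h34 h35S (Gm p hp.out) St (Or.inl rfl)
    (by rw [mul_one]; exact hmod) ?_
  intro O _ _ _ _ _ _ _ _ ϖ a ζ hO b pl _ u _ _ plB _
  obtain ⟨φ, σ₀, hm, hr0, w, hw, g₀, hg₀, hu⟩ := exists_ordData_alpha hΔ hO.mem St.ss hp2 h30 h32
    hirrz hbad' (Nat.pos_of_ne_zero St.part.squarefree.ne_zero) St.part.not_p_dvd hmod b
  refine ⟨PData.ord hp2 ((resZ W hΔ p).baseChange (ResidueField O)) b
    (H45.detIsCyclotomic_resZ_baseChange W hΔ p (ResidueField O))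
    (residual_isStrictOrdinaryAt hΔ hO.mem St.ss hbad').isOrdinaryAt hm hr0 w hw hg₀ hu, True,
    fun _ _ => rfl, fun _ => rfl, iff_of_true trivial (Or.inr ⟨()⟩), ?_⟩
  exact pHyp_ord hΔ hO.mem A pl u plB hp2 _ _ hm hr0 w hw hg₀ hu h32 h33 St.ss hbad' True

/-- **Type `Pα`** -/
theorem typeAlpha : H57.S59.TypeAlpha :=
  typeAlpha_of S30.result S32.result S33.result S34.result S35.result
    fun _ hp => H4.geomInputs hp

end Fermat.Agent.H85.InA
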