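/-
The squarefree version of `S59`.
-/
import Fermat.Agent.H57S59Fin
import Fermat.Agent.H65TyF
import Fermat.Agent.H85InA
import Fermat.Agent.H20TypeO
import Fermat.Agent.H35InB
import Fermat.Agent.H8MazurOdd
import Fermat.Agent.H4GeomIn
import Fermat.Agent.S29
import Fermat.Agent.S32
import Fermat.Agent.S33
import Fermat.Agent.S34
import Fermat.Agent.S35

set_option autoImplicit false

namespace Fermat.Agent.H57.S59

/-- **Modularity lifting at `3` and `5` for semistable curves, squarefree level.** -/
theorem s59sq : H52.S59.S59sq :=
  s59sq_of S29.result H8.mazurOdd H65.InF.typeF H85.InA.typeAlpha H20.InO.typeO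
    (H35.InB.typeBeta S29.result S32.result S33.result S34.result S35.result
      fun hp => H4.geomInputs hp)

end Fermat.Agent.H57.S59
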