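/-
H42Last: the end of the modularity part. Residual modularity mod 3 (`H49.LTF.ltA`) and the
squarefree modularity lifting theorem (`H57.S59.s59sq`) give: semistable curves over ℚ are modular
of exact conductor level.
-/
import Fermat.Agent.H42XClose
import Fermat.Agent.H49LTA
import Fermat.Agent.H57S59sq

set_option autoImplicit false

namespace Fermat.Agent.H42X

theorem lt_even_sq : LTEvenSq := ltEvenSq_of H49.LTF.ltA

theorem lift_three : LiftSq 3 := liftSq_of H57.S59.s59sq (Or.inl rfl)

theorem lift_five : LiftSq 5 := liftSq_of H57.S59.s59sq (Or.inr rfl)

theorem even_exact : EvenExact := evenExact_of lt_even_sq lift_three lift_five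

end Fermat.Agent.H42X
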