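import Mathlib
import Fermat.Prelude.Def_GaloisRep_Residual
import Fermat.Prelude.Def_FLTPrelim_ModularRep
import Fermat.Prelude.Def_FLTPrelim_Ramification
import Fermat.Prelude.Def_WeierstrassCurve_PeuRamifiee
import Fermat.Prelude.Def_WeierstrassCurve_Mlc1RowStatement

set_option autoImplicit false
open WeierstrassCurve WeierstrassCurve.Affine WeierstrassCurve.Affine.Point

namespace Fermat.Agent.H45

/-- A model that is modular of level `N` is residually modular of level `N` at every prime. -/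
theorem isResiduallyModularOfLevel_of_isModularModelOfLevel {W : WeierstrassCurve ℤ} {N : ℕ}
    (h : W.IsModularModelOfLevel N) {p : ℕ} (hp : p.Prime) : W.IsResiduallyModularOfLevel p N := by
  obtain ⟨f, hf, hcoeff⟩ := h
  obtain ⟨𝔪, hmax, hpm⟩ := FLTPrelim.exists_maximalIdeal_natCast_prime_mem hp
  refine ⟨f, 𝔪, hf, hmax, hpm, fun ℓ hℓ hgood hℓN _ =>
    ⟨((W.apOfModel ℓ : ℤ) : integralClosure ℤ ℂ), ?_, ?_⟩⟩
  · rw [hcoeff ℓ hℓ hgood hℓN]; push_cast; rfl
  · rw [sub_self]; exact 𝔪.zero_mem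

/-- The lowering induction for a fixed integral model: if every odd prime can be removed from a
squarefree level, then the level can be brought down to a divisor of two. -/
theorem exists_dvd_two_level_of_model (W : WeierstrassCurve ℤ) (p : ℕ)
    (hstep : ∀ M q : ℕ, Squarefree M → 0 < M → q.Prime → q ≠ 2 → q ∣ M →
      W.IsResiduallyModularOfLevel p M → W.IsResiduallyModularOfLevel p (M / q)) :
    ∀ N : ℕ, Squarefree N → 0 < N → W.IsResiduallyModularOfLevel p N →
      ∃ M : ℕ, M ∣ 2 ∧ W.IsResiduallyModularOfLevel p M := by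
  intro N
  induction N using Nat.strong_induction_on with
  | _ N ih =>
    intro hsq hpos hmod
    by_cases h2 : N ∣ 2
    · exact ⟨N, h2, hmod⟩
    have hodd : ∃ q : ℕ, q.Prime ∧ q ≠ 2 ∧ q ∣ N := by
      by_contra hno
      push Not at hno
      apply h2
      have hfac : N.primeFactors ⊆ {2} := by
        intro q hq
        rw [Finset.mem_singleton]
        by_contra hq2
        exact hno q (Nat.prime_of_mem_primeFactors hq) hq2 (Nat.dvd_of_mem_primeFactors hq)
      have hprod := Nat.prod_primeFactors_of_squarefree hsq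
      rw [← hprod]
      calc ∏ q ∈ N.primeFactors, q ∣ ∏ q ∈ ({2} : Finset ℕ), q :=
            Finset.prod_dvd_prod_of_subset _ _ _ hfac
        _ = 2 := by simp
    obtain ⟨q, hq, hq2, hqN⟩ := hodd
    have hdiv : N / q ∣ N := Nat.div_dvd_of_dvd hqN
    have hdpos : 0 < N / q := Nat.pos_of_dvd_of_pos hdiv hpos
    exact ih (N / q) (Nat.div_lt_self hpos hq.one_lt) (hsq.squarefree_of_dvd hdiv) hdpos
      (hstep N q hsq hpos hq hq2 hqN hmod)

/-- Statement shape of S38. -/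
def Stmt38 : Prop :=
  ∀ (p : ℕ) [Fact p.Prime] (_hp2 : p ≠ 2) (W : WeierstrassCurve ℤ) (_hΔ : W.Δ ≠ 0)
    (_hW : W.IsSemistableModel)
    (hcard₁ : Nat.card (Submodule.torsionBy ℤ
      ((W.map (Int.castRingHom ℚ))⁄(AlgebraicClosure ℚ)).Point p) = p ^ 2)
    (hker : GaloisFactorsThroughFiniteLevel
      (WeierstrassCurve.Affine.Point.galoisRepModuleEnd (K := AlgebraicClosure ℚ) ℚ
        (W.map (Int.castRingHom ℚ)) p))
    (_hirr : W.ModRepIsIrreducible p) (M q : ℕ) (_hq : q.Prime) (_hqp : q ≠ p)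
    (_hqM : q ∣ M) (_hq2 : ¬ q ^ 2 ∣ M) (_hM : Squarefree M)
    (_hunr : ((W.map (Int.castRingHom ℚ)).residualGaloisRepOf p hcard₁ hker).IsUnramifiedAt q)
    (_hres : W.IsResiduallyModularOfLevel p M),
    W.IsResiduallyModularOfLevel p (M / q)

/-- Statement shape of S39. -/
def Stmt39 : Prop :=
  ∀ (W : WeierstrassCurve ℤ) (_hΔ : W.Δ ≠ 0)
    {p : ℕ} (_hp : p.Prime) (_hp2 : p ≠ 2)
    (_hsemi : (p : ℤ) ∣ W.Δ → ¬ (p : ℤ) ∣ W.c₄)
    (_hirr : W.ModRepIsIrreducible p)
    (_hfin : (W.map (Int.castRingHom ℚ)).IsPeuRamifieeAt p p)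
    {M : ℕ} (_hM : 0 < M) (_hpM : p ∣ M) (_hp2M : ¬ p ^ 2 ∣ M)
    (_hmod : W.IsResiduallyModularOfLevel p M),
    W.IsResiduallyModularOfLevel p (M / p)

/-- Route B for S45: from exact-conductor modularity of a semistable integral model of the Frey
curve, S38, S39 and S08. -/
theorem level_lowering_to_two_of_model (P : FreyPackage) (W : WeierstrassCurve ℤ)
    (hWE : W.map (Int.castRingHom ℚ) = P.freyCurve) (hΔ : W.Δ ≠ 0) (hss : W.IsSemistableModel)
    (h05 : ∀ q : ℕ, q.Prime → q ≠ 2 → q ≠ P.p → P.GaloisRepUnramifiedAt q)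
    (hcard : Nat.card (Submodule.torsionBy ℤ
      ((W.map (Int.castRingHom ℚ))⁄(AlgebraicClosure ℚ)).Point P.p) = P.p ^ 2)
    (hker : GaloisFactorsThroughFiniteLevel
      (WeierstrassCurve.Affine.Point.galoisRepModuleEnd (K := AlgebraicClosure ℚ) ℚ
        (W.map (Int.castRingHom ℚ)) P.p))
    (hpeu : (W.map (Int.castRingHom ℚ)).IsPeuRamifieeAt P.p P.p)
    (hmod : Mlc1IsModularModelOfExactConductorLevel W)
    (h38 : Stmt38) (h39 : Stmt39)
    (h08 : ∀ f : CuspForm (CongruenceSubgroup.Gamma0 1) 2, f = 0)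
    (hirr : GaloisRepIsIrreducible (K := AlgebraicClosure ℚ) ℚ P.freyCurve P.p) :
    ∃ f : CuspForm (CongruenceSubgroup.Gamma0 2) 2, f ≠ 0 := by
  have : Fact P.p.Prime := ⟨P.pp⟩
  have hp2 : P.p ≠ 2 := by have := P.hp5; omega
  have hirrW : W.ModRepIsIrreducible P.p := by
    rw [WeierstrassCurve.ModRepIsIrreducible, hWE]; exact hirr
  have hunr : ∀ q : ℕ, q.Prime → q ≠ 2 → q ≠ P.p →
      ((W.map (Int.castRingHom ℚ)).residualGaloisRepOf P.p hcard hker).IsUnramifiedAt q := by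
    intro q hq hq2 hqp A hA σ hσ
    refine LinearMap.ext fun x => ?_
    have h := h05 q hq hq2 hqp
    unfold FreyPackage.GaloisRepUnramifiedAt at h
    rw [← hWE] at h
    exact h A hA σ hσ x
  obtain ⟨N, hN, hsq, -, hNmod⟩ := hmod
  obtain ⟨M, hM2, hM⟩ := exists_dvd_two_level_of_model W P.p
    (fun M q hsqM hMpos hq hq2 hqM hres => by
      have hq2M : ¬ q ^ 2 ∣ M := fun h =>
        (Nat.squarefree_iff_prime_squarefree.mp hsqM q hq) (by rwa [← pow_two])
      by_cases hqp : q = P.p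
      · subst hqp
        exact h39 W hΔ P.pp hp2 (hss P.p P.pp) hirrW hpeu hMpos hqM hq2M hres
      · exact h38 P.p hp2 W hΔ hss hcard hker hirrW M q hq hqp hqM hq2M hsqM
          (hunr q hq hq2 hqp) hres)
    N hsq hN (isResiduallyModularOfLevel_of_isModularModelOfLevel hNmod P.pp)
  rcases (Nat.dvd_prime Nat.prime_two).mp hM2 with rfl | rfl
  · obtain ⟨f, 𝔪, hf, -⟩ := hM
    exact absurd (h08 f) hf.ne_zero
  · obtain ⟨f, 𝔪, hf, -⟩ := hM
    exact ⟨f, hf.ne_zero⟩

end Fermat.Agent.H45
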