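import Fermat.Agent.H85C0

set_option autoImplicit false
set_option linter.style.haveILetI false
set_option linter.unusedSectionVars false

/-!
# The inner statement of level lowering with marks at `p` which kill the modules
-/

noncomputable section

open IsLocalRing GaloisRep CuspForm
open Fermat.Agent.H53 (GQ M2 toMat mapMat PData PlaceData GalLevelB numB)
open Fermat.Agent.H59 (Tset CoeffChoice Zset)
open Fermat.Agent.H87.Glue (resZ)
open Fermat.Agent.H69.EG (TWModPart)
open Fermat.Agent.H86.In (GLev)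
open Fermat.Agent.H85.C (InnerLL)
open ExtCitation

namespace Fermat.Agent.H69C

attribute [local instance] TWModPart.instAddCommGroup TWModPart.instModule

/-- the element `a` kills the module of the module part -/
def Kills {O : Type} [CommRing O] [IsLocalRing O] {ϖ : O} {p r n D : ℕ} {T : Type}
    {R : Type} [CommRing R] [IsLocalRing R] [Algebra O R] {prodElt : T → R} {hElt : R}
    (mp : TWModPart O ϖ p r n D R prodElt hElt) (a : R) : Prop :=
  ∀ x : mp.M, a • x = 0

/-- **The inner statement of level lowering, with marks at `p`**: the marks `t` and `z` at `p` (if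
there are any) kill the module; `InnerLL` is the special case without marks. -/
def InnerLLK (W : WeierstrassCurve ℤ) (hΔ : W.Δ ≠ 0) (p : ℕ) [Fact p.Prime] (A T : Finset ℕ)
    (t₀ : Tset T) : Prop :=
  ∀ (O : Type) [CommRing O] [IsDomain O] [IsDiscreteValuationRing O]
    [IsAdicComplete (maximalIdeal O) O] [CharZero O] [Finite (ResidueField O)]
    [CharP (ResidueField O) p] [Algebra (ZMod p) (ResidueField O)] (ϖ : O) (a : ℕ) (ζ : O)
    (_ : CoeffChoice p T O ϖ a ζ)
    (b : Module.Basis (Fin 2) (ResidueField O) ((resZ W hΔ p).baseChange (ResidueField O)).V)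
    (pl : ∀ t : Tset T, PlaceData p t.1)
    (_ : ∀ (t : Tset T) (ht : t.1.Prime), (pl t).P = primeLocalPlace ⟨t.1, ht⟩)
    (u : Tset T → O) (_ : ∀ t, u t ^ 2 = 1)
    (_ : ∀ t, toMat ((resZ W hΔ p).baseChange (ResidueField O)).ρ b (pl t).φ =
      residue O (u t) • (1 : M2 (ResidueField O)))
    (plB : ∀ i : Tset (∅ : Finset ℕ), PlaceData p i.1),
    ∃ (pd : PData p ((resZ W hΔ p).baseChange (ResidueField O)) b),
      ∀ k : ℕ, ∃ D : ℕ, ∀ n : ℕ, ∃ S₀ : Finset ℕ, ∀ G : GLev hΔ pd A pl u plB k n S₀,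
        ∃ mp : TWModPart O ϖ p (numB (Tset T) (Tset (∅ : Finset ℕ)) pd.ε k) n D G.D.R
          (fun t : Tset T => ∏ z ∈ Zset O p T t, (G.r (pl t).σ 0 0 + G.r (pl t).σ 1 1 -
            algebraMap O G.D.R ((z : O) + (z⁻¹ : Oˣ))))
          ((G.r (pl t₀).φ 0 0 + G.r (pl t₀).φ 1 1) ^ 2 - ((t₀.1 : G.D.R) + 1) ^ 2),
        ∀ j : pd.ε, Kills mp (G.mB (Sum.inr j) 0) ∧ Kills mp (G.mB (Sum.inr j) 2)

/-- types without marks -/
theorem innerLLK_of_innerLL {W : WeierstrassCurve ℤ} {hΔ : W.Δ ≠ 0} {p : ℕ} [Fact p.Prime]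
    {A T : Finset ℕ} {t₀ : Tset T} (h : InnerLL W hΔ p A T t₀) : InnerLLK W hΔ p A T t₀ := by
  intro O _ _ _ _ _ _ _ _ ϖ a ζ hO b pl hpl u hu hφ plB
  obtain ⟨pd, he, h1⟩ := h O ϖ a ζ hO b pl hpl u hu hφ plB
  refine ⟨pd, fun k => ?_⟩
  obtain ⟨D, hD⟩ := h1 k
  refine ⟨D, fun n => ?_⟩
  obtain ⟨S₀, hS⟩ := hD n
  exact ⟨S₀, fun G => ⟨(hS G).some, fun j => he.elim j⟩⟩

end Fermat.Agent.H69C
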