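/-
Quotients and removal of marks for the levels of the level lowering argument.
-/
import Fermat.Agent.H69PBeta
import Fermat.Agent.H69TWMod

set_option autoImplicit false
set_option linter.style.haveILetI false
set_option linter.unusedSectionVars false

namespace Fermat.Agent.H69C

open IsLocalRing Fermat.Agent.H57 Fermat.Agent.H57.Tame Fermat.Agent.H69.KP Fermat.Agent.H69.EG
open Fermat.Agent.H69.Quot (exists_pres_quot)

attribute [local instance] TWLevel.instCommRing TWLevel.instLocal TWLevel.instAlgebra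
attribute [local instance] TWLevel.instAddCommGroup TWLevel.instModule

set_option maxHeartbeats 1000000 in
/-- **Quotients of the deformation ring** in a level of the level lowering argument. -/
theorem nonempty_twQuot {O : Type} [CommRing O] [IsLocalRing O] {ϖ : O}
    {p r n D : ℕ} {T B B' : Type} [CommRing B] [Algebra O B] [CommRing B'] [Algebra O B']
    {X : T → Fin 6 → B} {X' : T → Fin 6 → B'}
    {q : T → ℕ} {v : T → O} {Z : T → Finset Oˣ} {t₀ : T}
    (L : TWLevel O ϖ p r n D B X q v Z t₀) (I : Ideal L.R) (hI : I ≤ maximalIdeal L.R)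
    (hIM : ∀ a ∈ I, ∀ x : L.M, a • x = 0)
    (β' : B' →ₐ[O] L.R ⧸ I) (hβ' : Function.Surjective β')
    (hX : ∀ t j, β' (X' t j) = Ideal.Quotient.mk I (L.β (X t j))) :
    Nonempty (TWLevel O ϖ p r n D B' X' q v Z t₀) := by
  have hI' : I ≠ ⊤ := by
    rintro rfl
    exact (maximalIdeal.isMaximal L.R).ne_top (top_le_iff.mp hI)
  haveI : Nontrivial (L.R ⧸ I) := Ideal.Quotient.nontrivial_iff.mpr hI'
  haveI iL : IsLocalRing (L.R ⧸ I) := IsLocalRing.of_surjective' _ Ideal.Quotient.mk_surjective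
  haveI iH : IsLocalHom (Ideal.Quotient.mk I) :=
    IsLocalHom.of_surjective _ Ideal.Quotient.mk_surjective
  have hmax : ∀ a ∈ maximalIdeal L.R, Ideal.Quotient.mk I a ∈ maximalIdeal (L.R ⧸ I) := by
    intro a ha
    rw [mem_maximalIdeal, mem_nonunits_iff] at ha ⊢
    exact fun h => ha ((isUnit_map_iff (Ideal.Quotient.mk I) a).mp h)
  letI iM : Module (L.R ⧸ I) L.M := Module.IsTorsionBySet.module (fun x a => hIM a a.2 x)
  have hsm : ∀ (a : L.R) (x : L.M), Ideal.Quotient.mk I a • x = a • x := fun _ _ => rfl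
  have halg : ∀ x : O, algebraMap O (L.R ⧸ I) x = Ideal.Quotient.mk I (algebraMap O L.R x) :=
    fun _ => rfl
  refine ⟨
    { R := L.R ⧸ I
      β := β'
      β_surj := hβ'
      Sg := fun t => (L.Sg t).map (Ideal.Quotient.mk I)
      Ph := fun t => (L.Ph t).map (Ideal.Quotient.mk I)
      det_Sg := fun t => ?_
      det_Ph := fun t => ?_
      tame := fun t => ?_
      tr_Sg := fun t => ?_
      tr_Ph := fun t => ?_
      hX0 := fun t => ?_
      hX1 := fun t => ?_
      hX2 := fun t => ?_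
      hX3 := fun t => ?_
      hX4 := fun t => ?_
      hX5 := fun t => ?_
      M := L.M
      d := L.d
      d_pos := L.d_pos
      d_le := L.d_le
      e := L.e
      le_e := L.le_e
      φ := (Ideal.Quotient.mkₐ O I).comp L.φ
      φ_mem := fun j => hmax _ (L.φ_mem j)
      b := L.b
      b_span := fun x => ?_
      b_rel := fun c => ?_
      prod_smul := fun t x => ?_
      h_smul := fun x => ?_ }⟩
  · change Ideal.Quotient.mk I _ * Ideal.Quotient.mk I _ -
      Ideal.Quotient.mk I _ * Ideal.Quotient.mk I _ = 1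
    rw [← map_mul, ← map_mul, ← map_sub, L.det_Sg, map_one]
  · change Ideal.Quotient.mk I _ * Ideal.Quotient.mk I _ -
      Ideal.Quotient.mk I _ * Ideal.Quotient.mk I _ = _
    rw [← map_mul, ← map_mul, ← map_sub, L.det_Ph, map_natCast]
  · have h1 := congrArg (fun A : Matrix (Fin 2) (Fin 2) L.R => A.map (Ideal.Quotient.mk I))
      (L.tame t)
    have h2 : ((Ideal.Quotient.mk I).mapMatrix (L.Ph t * L.Sg t)) =
        (Ideal.Quotient.mk I).mapMatrix (L.Sg t ^ q t * L.Ph t) := h1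
    rw [map_mul, map_mul, map_pow] at h2
    exact h2
  · change Ideal.Quotient.mk I _ + Ideal.Quotient.mk I _ - 2 ∈ _
    have := hmax _ (L.tr_Sg t)
    rwa [map_sub, map_add, map_ofNat] at this
  · change Ideal.Quotient.mk I _ + Ideal.Quotient.mk I _ - 2 * _ ∈ _
    have := hmax _ (L.tr_Ph t)
    rwa [map_sub, map_add, map_mul, map_ofNat, ← halg] at this
  · change _ = Ideal.Quotient.mk I _ - Ideal.Quotient.mk I _
    rw [hX, ← map_sub, ← L.hX0, map_mul, map_ofNat]
  · change _ = Ideal.Quotient.mk I _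
    rw [hX, ← L.hX1]
  · change _ = Ideal.Quotient.mk I _
    rw [hX, ← L.hX2]
  · change _ = Ideal.Quotient.mk I _ - Ideal.Quotient.mk I _
    rw [hX, ← map_sub, ← L.hX3, map_mul, map_ofNat]
  · change _ = Ideal.Quotient.mk I _
    rw [hX, ← L.hX4]
  · change _ = Ideal.Quotient.mk I _
    rw [hX, ← L.hX5]
  · obtain ⟨c, hc⟩ := L.b_span x
    exact ⟨c, hc⟩
  · exact L.b_rel c
  · have h1 : (∏ ζ ∈ Z t, ((L.Sg t).map (Ideal.Quotient.mk I) 0 0 +
        (L.Sg t).map (Ideal.Quotient.mk I) 1 1 -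
          algebraMap O (L.R ⧸ I) ((ζ : O) + (ζ⁻¹ : Oˣ)))) =
        Ideal.Quotient.mk I (∏ ζ ∈ Z t, (L.Sg t 0 0 + L.Sg t 1 1 -
          algebraMap O L.R ((ζ : O) + (ζ⁻¹ : Oˣ)))) := by
      rw [map_prod]
      exact Finset.prod_congr rfl fun ζ _ => by
        rw [halg, map_sub, map_add]
        rfl
    rw [h1, hsm]
    exact L.prod_smul t x
  · obtain ⟨y, hy⟩ := L.h_smul x
    refine ⟨y, ?_⟩
    have h1 : (((L.Ph t₀).map (Ideal.Quotient.mk I) 0 0 +
        (L.Ph t₀).map (Ideal.Quotient.mk I) 1 1) ^ 2 - ((q t₀ : L.R ⧸ I) + 1) ^ 2) =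
        Ideal.Quotient.mk I ((L.Ph t₀ 0 0 + L.Ph t₀ 1 1) ^ 2 - ((q t₀ : L.R) + 1) ^ 2) := by
      rw [map_sub, map_pow, map_pow, map_add, map_add, map_natCast, map_one]
      rfl
    rw [h1, halg, hsm, hsm]
    exact hy

section Remove

variable {O : Type} [CommRing O] [IsDomain O] [IsDiscreteValuationRing O]
    [IsAdicComplete (maximalIdeal O) O]

/-- **Removal of the marks.** If the marks `t` and `z` at all indices `e` kill the module, then one
can pass to the quotient, keeping only the marks `y` as free variables. -/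
theorem nonempty_removeMarks {ϖ : O} {p r n D k : ℕ} {T ι ε' : Type} [Finite T] [IsEmpty ι]
    [Finite ε'] {q : T → ℕ} {v : T → O} {Z : T → Finset Oˣ} {t₀ : T}
    (L : TWLevel O ϖ p r n D
      (MvPowerSeries (((T × Fin 6) ⊕ ((ι ⊕ ε') × Fin 3)) ⊕ Fin k) O)
      (fun t j => MvPowerSeries.X (Sum.inl (Sum.inl (t, j)))) q v Z t₀)
    (ht : ∀ (e : ε') (x : L.M),
      L.β (MvPowerSeries.X (Sum.inl (Sum.inr (Sum.inr e, 0)))) • x = 0)
    (hz : ∀ (e : ε') (x : L.M),
      L.β (MvPowerSeries.X (Sum.inl (Sum.inr (Sum.inr e, 2)))) • x = 0) :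
    Nonempty (TWLevel O ϖ p r n D (BRing O T (Nat.card ε' + k)) (bVar O (Nat.card ε' + k))
      q v Z t₀) := by
  classical
  haveI : Finite ι := Finite.of_subsingleton
  haveI iβ : IsLocalHom L.β.toRingHom := IsLocalHom.of_surjective _ L.β_surj
  have hXm : ∀ a, L.β (MvPowerSeries.X a) ∈ maximalIdeal L.R := by
    intro a
    have h1 := mv_X_mem (O := O) a
    rw [mem_maximalIdeal, mem_nonunits_iff] at h1 ⊢
    exact fun h => h1 ((isUnit_map_iff L.β.toRingHom _).mp h)
  let I : Ideal L.R := Ideal.span (Set.range fun e : ε' × Bool =>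
    L.β (MvPowerSeries.X (Sum.inl (Sum.inr (Sum.inr e.1, if e.2 then 0 else 2)))))
  have hI : I ≤ maximalIdeal L.R := by
    rw [Ideal.span_le]
    rintro _ ⟨e, rfl⟩
    exact hXm _
  have hIM : ∀ a ∈ I, ∀ x : L.M, a • x = 0 := by
    intro a ha x
    refine Submodule.span_induction (p := fun a _ => a • x = 0) ?_ ?_ ?_ ?_ ha
    · rintro _ ⟨⟨e, c⟩, rfl⟩
      cases c
      · exact hz e x
      · exact ht e x
    · exact zero_smul _ _
    · intro a b _ _ h1 h2
      rw [add_smul, h1, h2, add_zero]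
    · intro a b _ h1
      rw [smul_eq_mul, mul_smul, h1, smul_zero]
  have hI' : I ≠ ⊤ := by
    intro h
    exact (maximalIdeal.isMaximal L.R).ne_top (top_le_iff.mp (h ▸ hI))
  let E : Fin (Nat.card ε') ≃ ε' := (Finite.equivFin ε').symm
  let j : (T × Fin 6) ⊕ Fin (Nat.card ε' + k) →
      ((T × Fin 6) ⊕ ((ι ⊕ ε') × Fin 3)) ⊕ Fin k :=
    Sum.elim (fun a => Sum.inl (Sum.inl a))
      (Fin.addCases (fun l => Sum.inl (Sum.inr (Sum.inr (E l), 1))) fun l => Sum.inr l)
  obtain ⟨β', hβ', hβX⟩ := exists_pres_quot L.β L.β_surj I hI' j (by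
    rintro ((a | ⟨i | i, l⟩) | l)
    · exact Or.inl ⟨Sum.inl a, rfl⟩
    · exact isEmptyElim i
    · fin_cases l
      · exact Or.inr (Ideal.subset_span ⟨(i, true), rfl⟩)
      · refine Or.inl ⟨Sum.inr (Fin.castAdd k (E.symm i)), ?_⟩
        simp only [j, Sum.elim_inr, Fin.addCases_left, Equiv.apply_symm_apply]
        rfl
      · exact Or.inr (Ideal.subset_span ⟨(i, false), rfl⟩)
    · refine Or.inl ⟨Sum.inr (Fin.natAdd _ l), ?_⟩
      simp only [j, Sum.elim_inr, Fin.addCases_right])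
  exact nonempty_twQuot L I hI hIM β' hβ' (fun t l => hβX (Sum.inl (t, l)))

/-- **No patching** for levels with marks at `p` which kill the modules (`ε'` may be empty), in the
index types of `GalLevelB`. -/
theorem no_patching_marks [Finite (ResidueField O)]
    {ϖ : O} (hϖ : maximalIdeal O = Ideal.span {ϖ}) {p r k D : ℕ}
    (hpO : (p : O) ∈ maximalIdeal O) (h2 : IsUnit (2 : O))
    {T ι ε' : Type} [Finite T] [IsEmpty ι] [Finite ε']
    (hr : r = 3 * Nat.card T + Nat.card (ι ⊕ ε') + k)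
    {q : T → ℕ} (hq0 : ∀ t, 1 ≤ q t) (hq : ∀ t, (q t : O) - 1 ∈ maximalIdeal O)
    {v : T → O} (hv : ∀ t, v t ^ 2 - 1 ∈ maximalIdeal O)
    {Z : T → Finset Oˣ} (hZ1 : ∀ t, ∀ ζ ∈ Z t, ζ ≠ 1) (hZ2 : ∀ t, ∀ ζ ∈ Z t, ζ ^ (q t - 1) = 1)
    (hZ3 : ∀ t, ∀ ζ ∈ Z t, (ζ : O) - 1 ∈ maximalIdeal O) {t₀ : T}
    (L : ∀ n, ∃ L : TWLevel O ϖ p r n D
      (MvPowerSeries (((T × Fin 6) ⊕ ((ι ⊕ ε') × Fin 3)) ⊕ Fin k) O)
      (fun t j => MvPowerSeries.X (Sum.inl (Sum.inl (t, j)))) q v Z t₀,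
      (∀ (e : ε') (x : L.M),
        L.β (MvPowerSeries.X (Sum.inl (Sum.inr (Sum.inr e, 0)))) • x = 0) ∧
      (∀ (e : ε') (x : L.M),
        L.β (MvPowerSeries.X (Sum.inl (Sum.inr (Sum.inr e, 2)))) • x = 0)) : False := by
  have hr' : r = 3 * Nat.card T + (Nat.card ε' + k) := by
    haveI : Finite ι := Finite.of_subsingleton
    rw [hr, Nat.card_sum, Nat.card_of_isEmpty (α := ι)]
    ring
  subst hr'
  refine no_patching_mv (O := O) (T := T) hϖ (p := p) (k := Nat.card ε' + k) (D := D) hpO h2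
    hq0 hq hv hZ1 hZ2 hZ3 (t₀ := t₀) fun n => ?_
  obtain ⟨L, h1, h3⟩ := L n
  exact nonempty_removeMarks L h1 h3

end Remove

end Fermat.Agent.H69C
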