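import Fermat.Agent.H57S59Out
import Fermat.Agent.H69C0
import Fermat.Agent.H69C1

set_option autoImplicit false
set_option linter.style.haveILetI false
set_option linter.unusedSectionVars false

/-!
# The outer part of level lowering, for all odd `p` and with marks at `p` which kill the modules
-/

noncomputable section

open Polynomial IsLocalRing GaloisRep Fermat.Agent.H53 Fermat.Agent.H57.S59
open Fermat.Agent.H87.Glue Fermat.Agent.H59 ExtCitation Fermat.Agent.H55 Fermat.Agent.H56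
open Fermat.Agent.H69.EG (TWModPart TWLevel)
open Fermat.Agent.H86.In (GLev)

namespace Fermat.Agent.H69C

attribute [local instance] TWModPart.instAddCommGroup TWModPart.instModule
attribute [local instance] TWLevel.instCommRing TWLevel.instLocal TWLevel.instAlgebra
attribute [local instance] TWLevel.instAddCommGroup TWLevel.instModule

local notation "Qb" => AlgebraicClosure ℚ
local notation "Gq" => (AlgebraicClosure ℚ ≃ₐ[ℚ] AlgebraicClosure ℚ)

/-- **The Taylor–Wiles condition**: all base changes of `W[p]` stay irreducible over all quadratic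
extensions. -/
def TWCond (W : WeierstrassCurve ℤ) (hΔ : W.Δ ≠ 0) (p : ℕ) [Fact p.Prime] : Prop :=
  ∀ (k : Type) [Field k] (φ : ZMod p →+* k) (ρbar : ResidualGaloisRep k),
    ((resZ W hΔ p).baseChangeAlong φ).IsEquiv ρbar →
    ∀ (K : Type) [Field K] [Algebra k K] (G : Subgroup Gq), G.index = 2 →
      ∀ V : Submodule K (ρbar.baseChange K).V,
        (∀ σ ∈ G, ∀ x ∈ V, (ρbar.baseChange K).ρ σ x ∈ V) → V = ⊥ ∨ V = ⊤

section Main

variable {W : WeierstrassCurve ℤ} {hΔ : W.Δ ≠ 0} {p : ℕ} [hp : Fact p.Prime] {A T B : Finset ℕ}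
  {sB : ℕ → ℤ}

/-- **The outer part**, in continuation form, for all odd `p`. -/
theorem outer (hp2 : p ≠ 2) (hTWc : TWCond W hΔ p)
    (hirr : W.ModRepIsIrreducible p) (H : ResHypB W hΔ p A T B sB) {C : Prop}
    (K : ∀ (O : Type) [CommRing O] [IsDomain O] [IsDiscreteValuationRing O]
      [IsAdicComplete (maximalIdeal O) O] [CharZero O] [Finite (ResidueField O)]
      [CharP (ResidueField O) p] [Algebra (ZMod p) (ResidueField O)] (ϖ : O) (a : ℕ) (ζ : O)
      (_ : CoeffChoice p T O ϖ a ζ)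
      (b : Module.Basis (Fin 2) (ResidueField O) ((resZ W hΔ p).baseChange (ResidueField O)).V)
      (pl : ∀ t : Tset T, PlaceData p t.1)
      (_ : ∀ (t : Tset T) (ht : t.1.Prime), (pl t).P = primeLocalPlace ⟨t.1, ht⟩)
      (u : Tset T → O) (_ : ∀ t, u t ^ 2 = 1)
      (_ : ∀ t, toMat ((resZ W hΔ p).baseChange (ResidueField O)).ρ b (pl t).φ =
        residue O (u t) • (1 : M2 (ResidueField O)))
      (plB : ∀ i : Tset B, PlaceData p i.1)
      (_ : ∀ (i : Tset B) (hi : i.1.Prime), (plB i).P = primeLocalPlace ⟨i.1, hi⟩),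
      (∀ pd : PData p ((resZ W hΔ p).baseChange (ResidueField O)) b, ∃ k : ℕ,
        ∀ (n : ℕ) (S₀ : Finset ℕ),
          Nonempty (GalLevelB p ((resZ W hΔ p).baseChange (ResidueField O)) b pd A
            (fun t : Tset T => t.1) pl u (fun i : Tset B => i.1) plB
            (fun i => (sB i.1 : O)) k n S₀)) → C) : C := by
  classical
  obtain ⟨O, i1, i2, i3, ϖ, a, ζ, hO⟩ := exists_coeffChoice p T
  haveI := hO.adic
  haveI := hO.char0
  haveI := hO.finite
  haveI := hO.charp
  letI : Algebra (ZMod p) (ResidueField O) := ZMod.algebra _ p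
  have h3p : 3 ≤ p := by
    have h := hp.out.two_le
    omega
  have h2k : (2 : ResidueField O) ≠ 0 := by
    intro h
    have h1 : ((2 : ℕ) : ResidueField O) = 0 := by exact_mod_cast h
    rw [CharP.cast_eq_zero_iff (ResidueField O) p] at h1
    have := Nat.le_of_dvd (by norm_num) h1
    omega
  have h2z : (2 : ZMod p) ≠ 0 := by
    intro h
    apply h2k
    have h1 := congrArg (algebraMap (ZMod p) (ResidueField O)) h
    rwa [map_ofNat, map_zero] at h1
  have h2O : IsUnit (2 : O) := by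
    by_contra hcon
    apply h2k
    have h1 : (2 : O) ∈ maximalIdeal O := hcon
    rw [← residue_eq_zero_iff] at h1
    rwa [map_ofNat] at h1
  set ρbar := (resZ W hΔ p).baseChange (ResidueField O) with hρbar
  obtain ⟨c, hc1, hc2⟩ : ∃ c : Gq, c * c = 1 ∧ c ≠ 1 :=
    ⟨complexConjugation, complexConjugation_mul_self, H87.Res.complexConjugation_ne_one⟩
  have hdetc : LinearMap.det ((resZ W hΔ p).ρ c) = -1 := resZ_isOdd W hΔ p c hc1 hc2
  have hirrk : ρbar.IsIrreducible :=
    H87.AbsIrr.isIrreducible_baseChange_of_involution h2z _ (resZ_isIrreducible W hΔ p hirr) c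
      hc1 hdetc
  have hdetk : LinearMap.det (ρbar.ρ c) = -1 := by
    have h1 := H45.det_baseChange_apply (resZ W hΔ p) (ResidueField O) c
    rw [hdetc, map_neg, map_one] at h1
    exact h1
  have habs : ρbar.IsAbsolutelyIrreducible :=
    H87.AbsIrr.isAbsolutelyIrreducible_of_involution h2k _ hirrk c hc1 hdetk
  have hdet := H45.detIsCyclotomic_resZ_baseChange W hΔ p (ResidueField O)
  have hsplit := hsplit_of_roots (resZ W hΔ p) (ResidueField O) hO.roots
  have hTW := hTWc (ResidueField O) (algebraMap (ZMod p) (ResidueField O)) ρbar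
    (baseChangeAlong_algebraMap _)
  let b : Module.Basis (Fin 2) (ResidueField O) ρbar.V :=
    (Module.finBasisOfFinrankEq (ResidueField O) ρbar.V ρbar.finrank_eq)
  have hTp : ∀ t : Tset T, p ≠ t.1 := fun t =>
    ne_of_dvd_sub_one hp.out (H.T_prime t.1 t.2) (H.T_dvd t.1 t.2)
  choose pl hpl using fun t : Tset T =>
    exists_stdPlace (p := p) ⟨t.1, H.T_prime t.1 t.2⟩ (hTp t)
  choose plB hplB using fun t : Tset B =>
    exists_stdPlace (p := p) ⟨t.1, H.B_prime t.1 t.2⟩ (H.B_ne t.1 t.2).symm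
  choose u₀ hu₀ hu₁ using fun t : Tset T => H.T_scalar t.1 t.2
  let u : Tset T → O := fun t => (u₀ t : O)
  have hu : ∀ t, u t ^ 2 = 1 := fun t => by
    have := congrArg (Int.cast : ℤ → O) (hu₀ t)
    push_cast at this
    exact this
  have hφ : ∀ t, toMat ρbar.ρ b (pl t).φ = residue O (u t) • (1 : M2 (ResidueField O)) := by
    intro t
    have h1 : ρbar.ρ (pl t).φ = (residue O (u t)) • (1 : Module.End (ResidueField O) ρbar.V) := by
      have h2 : ρbar.ρ (pl t).φ = ((resZ W hΔ p).ρ (pl t).φ).baseChange (ResidueField O) := rfl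
      rw [h2, hu₁ t _ (pl t).lies _ (pl t).frob, LinearMap.baseChange_smul,
        LinearMap.baseChange_one]
      have h3 : residue O (u t) = algebraMap (ZMod p) (ResidueField O) ((u₀ t : ℤ) : ZMod p) := by
        rw [map_intCast, map_intCast]
      rw [h3, algebraMap_smul]
    rw [toMat_apply, h1, map_smul, LinearMap.toMatrix_one]
  have htrB : ∀ i : Tset B, (toMat ρbar.ρ b (plB i).φ).trace =
      residue O ((sB i.1 : ℤ) : O) * ((i.1 : ℕ) + 1) := by
    intro i
    rw [toMat_apply, ← LinearMap.trace_eq_matrix_trace]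
    have h2 : ρbar.ρ (plB i).φ = ((resZ W hΔ p).ρ (plB i).φ).baseChange (ResidueField O) := rfl
    rw [h2]
    have h3 := H.B_trace i.1 i.2 _ (plB i).lies _ (plB i).frob
    have h4 := LinearMap.trace_baseChange ((resZ W hΔ p).ρ (plB i).φ) (ResidueField O)
    refine h4.trans ?_
    rw [h3, map_mul, map_add, map_one, map_natCast, map_intCast, map_intCast]
  refine K O ϖ a ζ hO b pl (fun t ht => hpl t) u hu hφ plB (fun i hi => hplB i) fun pd => ?_
  obtain ⟨k, hk⟩ := exists_galLevelB (p := p) hp2 hO.mem (H75.gwIneq hp2) ρbar habs hdet hsplit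
    hTW b pd A (fun q hq => ⟨H.A_prime q hq, H.A_ne q hq⟩)
    (fun q hq h => H.A_ram q hq ((H45.isUnramifiedAt_baseChange_iff _ _).mp h))
    (fun q hq P hP σ hσ => by
      have h1 := H.A_unip q hq P hP σ hσ
      have h2 := H45.charpoly_baseChange_apply (resZ W hΔ p) (ResidueField O) σ
      rw [h1] at h2
      refine h2.trans ?_
      rw [Polynomial.map_pow, Polynomial.map_sub, map_X, Polynomial.map_one])
    (fun q hq hqp hqA => (H45.isUnramifiedAt_baseChange_iff _ _).mpr (H.unr q hq hqp hqA))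
    (fun t : Tset T => t.1) (fun t => H.T_prime t.1 t.2) Subtype.val_injective
    (fun t => H.T_dvd t.1 t.2) (fun t h => H.A_ram _ h (H.T_unr t.1 t.2)) u hu pl hpl hφ
    (fun i : Tset B => i.1) (fun i => H.B_prime i.1 i.2) Subtype.val_injective
    (fun i => (H.B_ne i.1 i.2).symm) (fun i h => H.A_ram _ h (H.B_unr i.1 i.2))
    (fun i => ((sB i.1 : ℤ) : O)) (fun i => by
      have := congrArg (Int.cast : ℤ → O) (H.B_sign i.1 i.2)
      push_cast at this
      exact this) plB hplB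
    (fun i => nonScalar_of b (H.B_nonscalar i.1 i.2 _ (plB i).lies _ (plB i).frob)) htrB
  exact ⟨k, fun n S₀ => hk k le_rfl n S₀⟩

lemma side_two' {O : Type} [CommRing O] [IsLocalRing O] [CharP (ResidueField O) p]
    (hp2 : p ≠ 2) : IsUnit (2 : O) := by
  have h2k : (2 : ResidueField O) ≠ 0 := by
    intro h
    have h1 : ((2 : ℕ) : ResidueField O) = 0 := by exact_mod_cast h
    rw [CharP.cast_eq_zero_iff (ResidueField O) p] at h1
    have h2 := Nat.le_of_dvd (by norm_num) h1
    have h3 := hp.out.two_le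
    omega
  by_contra hcon
  apply h2k
  have h1 : (2 : O) ∈ maximalIdeal O := hcon
  rw [← residue_eq_zero_iff] at h1
  rwa [map_ofNat] at h1

/-- **Packing**: the Galois side and the module part of a level, with killing marks, give a level
of the endgame. -/
theorem exists_twLevel {O : Type} [CommRing O] [IsDomain O] [IsDiscreteValuationRing O]
    [IsAdicComplete (maximalIdeal O) O] [Finite (ResidueField O)]
    {ρbar : ResidualGaloisRep (ResidueField O)}
    {b : Module.Basis (Fin 2) (ResidueField O) ρbar.V} {pd : PData p ρbar b}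
    {τ ι : Type} [Fintype τ] [Fintype ι] {qT : τ → ℕ} {pl : ∀ t, PlaceData p (qT t)} {u : τ → O}
    {qB : ι → ℕ} {plB : ∀ i, PlaceData p (qB i)} {uB : ι → O} {k n D : ℕ} {S₀ : Finset ℕ}
    (G : GalLevelB p ρbar b pd A qT pl u qB plB uB k n S₀) {ϖ : O} {r : ℕ} {Z : τ → Finset Oˣ}
    {t₀ : τ}
    (mp : TWModPart O ϖ p r n D G.D.R
      (fun t : τ => ∏ z ∈ Z t, (toMat G.D.ρ.ρ G.b₁ (pl t).σ 0 0 +
        toMat G.D.ρ.ρ G.b₁ (pl t).σ 1 1 - algebraMap O G.D.R ((z : O) + (z⁻¹ : Oˣ))))
      ((toMat G.D.ρ.ρ G.b₁ (pl t₀).φ 0 0 + toMat G.D.ρ.ρ G.b₁ (pl t₀).φ 1 1) ^ 2 -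
        ((qT t₀ : G.D.R) + 1) ^ 2))
    (hmp : ∀ j : pd.ε, Kills mp (G.mB (Sum.inr j) 0) ∧ Kills mp (G.mB (Sum.inr j) 2)) :
    ∃ L : TWLevel O ϖ p r n D
      (MvPowerSeries (((τ × Fin 6) ⊕ ((ι ⊕ pd.ε) × Fin 3)) ⊕ Fin k) O)
      (fun t j => MvPowerSeries.X (Sum.inl (Sum.inl (t, j)))) qT u Z t₀,
      (∀ (e : pd.ε) (x : L.M),
        L.β (MvPowerSeries.X (Sum.inl (Sum.inr (Sum.inr e, 0)))) • x = 0) ∧
      (∀ (e : pd.ε) (x : L.M),
        L.β (MvPowerSeries.X (Sum.inl (Sum.inr (Sum.inr e, 2)))) • x = 0) := by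
  refine ⟨TWModPart.toLevel (X := fun t j => MvPowerSeries.X (Sum.inl (Sum.inl (t, j)))) G.β
    G.β_surj (fun t => toMat G.D.ρ.ρ G.b₁ (pl t).σ) (fun t => toMat G.D.ρ.ρ G.b₁ (pl t).φ)
    G.det_Sg G.det_Ph G.tame G.tr_Sg G.tr_Ph G.hX0 G.hX1 G.hX2 G.hX3 G.hX4 G.hX5 mp, ?_, ?_⟩
  · intro e x
    have h := (hmp e).1 x
    rw [← G.β_mB] at h
    exact h
  · intro e x
    have h := (hmp e).2 x
    rw [← G.β_mB] at h
    exact h

/-- **There is no level lowering system**: all odd `p`, all types at `p`; the marks `t` and `z` at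
`p` (if there are any) kill all modules. -/
theorem noLLK (hp2 : p ≠ 2) (hTWc : TWCond W hΔ p) (hirr : W.ModRepIsIrreducible p)
    (H' : ResHypB W hΔ p A T ∅ sB) (t₀ : Tset T)
    (inner : InnerLLK W hΔ p A T t₀) : False := by
  classical
  have H : ResHypB W hΔ p A T ∅ (H73LT.nodeSign W) :=
    { H' with
      B_sign := fun q hq => absurd hq (Finset.notMem_empty q)
      B_trace := fun q hq => absurd hq (Finset.notMem_empty q) }
  refine outer hp2 hTWc hirr H ?_
  intro O _ _ _ _ _ _ _ _ ϖ a ζ hO b pl hpl u hu hφ plB hplB hex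
  obtain ⟨pd, hpd⟩ := inner O ϖ a ζ hO b pl hpl u hu hφ plB
  obtain ⟨k, hk⟩ := hex pd
  obtain ⟨D, hD⟩ := hpd k
  haveI : IsEmpty (Tset (∅ : Finset ℕ)) := ⟨fun i => absurd i.2 (Finset.notMem_empty _)⟩
  refine no_patching_marks (O := O) (T := Tset T) (ι := Tset (∅ : Finset ℕ)) (ε' := pd.ε)
    hO.unif (p := p) (k := k) (D := D) hO.mem (side_two' (p := p) hp2) rfl
    (q := fun t => t.1) (fun t => (H.T_prime t.1 t.2).one_le) (side_mem H hO.mem)
    (v := u) (fun t => by rw [hu t, sub_self]; exact Ideal.zero_mem _) (Z := Zset O p T)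
    side_Z1 side_Z2 side_Z3 (t₀ := t₀) fun n => ?_
  obtain ⟨S₀, hS₀⟩ := hD n
  obtain ⟨G⟩ := hk n S₀
  obtain ⟨mp, hmp⟩ := hS₀ G
  exact exists_twLevel G mp hmp

/-- the case without marks -/
theorem noLL' (hp2 : p ≠ 2) (hTWc : TWCond W hΔ p) (hirr : W.ModRepIsIrreducible p)
    (H : ResHypB W hΔ p A T ∅ sB) (t₀ : Tset T)
    (inner : H85.C.InnerLL W hΔ p A T t₀) : False :=
  noLLK hp2 hTWc hirr H t₀ (innerLLK_of_innerLL inner)

end Main

end Fermat.Agent.H69C
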