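import Mathlib

/-!
# The chain of levels `M₀, M₀ b₀, M₀ b₀ b₁, …` (helper21)
-/

set_option autoImplicit false

namespace Fermat.Agent.H21M

/-- the chain of levels -/
def lvl (M₀ : ℕ) (b : ℕ → ℕ) : ℕ → ℕ
  | 0 => M₀
  | (i + 1) => lvl M₀ b i * b i

variable {M₀ : ℕ} {b : ℕ → ℕ}

@[simp] lemma lvl_zero : lvl M₀ b 0 = M₀ := rfl

lemma lvl_succ (i : ℕ) : lvl M₀ b (i + 1) = lvl M₀ b i * b i := rfl

lemma lvl_ne_zero (h0 : M₀ ≠ 0) (hb0 : ∀ i, b i ≠ 0) (i : ℕ) : lvl M₀ b i ≠ 0 := by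
  induction i with
  | zero => exact h0
  | succ i ih => exact mul_ne_zero ih (hb0 i)

lemma dvd_lvl (i : ℕ) : M₀ ∣ lvl M₀ b i := by
  induction i with
  | zero => exact dvd_rfl
  | succ i ih => exact ih.mul_right _

lemma lvl_dvd_lvl {i j : ℕ} (h : i ≤ j) : lvl M₀ b i ∣ lvl M₀ b j := by
  induction h with
  | refl => exact dvd_rfl
  | step _ ih => exact ih.mul_right _

lemma prime_dvd_lvl {q : ℕ} (hq : q.Prime) {i : ℕ} (h : q ∣ lvl M₀ b i) :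
    q ∣ M₀ ∨ ∃ j, j < i ∧ q ∣ b j := by
  induction i with
  | zero => exact Or.inl h
  | succ i ih =>
    rcases (Nat.Prime.dvd_mul hq).mp h with h1 | h1
    · rcases ih h1 with h2 | ⟨j, hj, h2⟩
      · exact Or.inl h2
      · exact Or.inr ⟨j, Nat.lt_succ_of_lt hj, h2⟩
    · exact Or.inr ⟨i, Nat.lt_succ_self i, h1⟩

variable {s : ℕ} (hb : ∀ i, i < s → (b i).Prime) (hbM₀ : ∀ i, i < s → ¬ b i ∣ M₀)
  (hbinj : ∀ i, i < s → ∀ j, j < i → b i ≠ b j)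

include hb hbM₀ hbinj in
lemma not_dvd_lvl {i : ℕ} (hi : i < s) : ¬ b i ∣ lvl M₀ b i := by
  intro h
  rcases prime_dvd_lvl (hb i hi) h with h1 | ⟨j, hj, h1⟩
  · exact hbM₀ i hi h1
  · exact hbinj i hi j hj ((Nat.prime_dvd_prime_iff_eq (hb i hi) (hb j (hj.trans hi))).mp h1)

include hb hbM₀ in
lemma not_sq_dvd_lvl {q : ℕ} (hq : q.Prime) (hqM : q ∣ M₀) (hqq : ¬ q * q ∣ M₀) {i : ℕ}
    (hi : i ≤ s) : ¬ q * q ∣ lvl M₀ b i := by
  induction i with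
  | zero => exact hqq
  | succ i ih =>
    intro h
    apply ih (Nat.le_of_succ_le hi)
    have h1 : q ≠ b i := by
      rintro rfl
      exact hbM₀ i hi hqM
    have h2 : (q * q).Coprime (b i) := by
      have h3 : q.Coprime (b i) := (Nat.coprime_primes hq (hb i hi)).mpr h1
      exact Nat.Coprime.mul_left h3 h3
    exact h2.dvd_of_dvd_mul_right h

include hb hbM₀ in
lemma coprime_of_dvd_base {N : ℕ} (hN : N ∣ M₀) {i : ℕ} (hi : i < s) : (b i).Coprime N :=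
  (Nat.Prime.coprime_iff_not_dvd (hb i hi)).mpr fun h => hbM₀ i hi (h.trans hN)

end Fermat.Agent.H21M
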