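import Mathlib

/-!
# Arithmetic of the chain of levels
-/

set_option autoImplicit false

namespace Fermat.Agent.H86.In

section Chain

variable {f b : ℕ → ℕ}

lemma chain_dvd (hs : ∀ i, f (i + 1) = f i * b i) {i j : ℕ} (h : i ≤ j) : f i ∣ f j := by
  induction j, h using Nat.le_induction with
  | base => exact dvd_rfl
  | succ j _ ih => rw [hs]; exact ih.mul_right _

/-- prime divisors of the levels -/
lemma chain_prime_dvd (hs : ∀ i, f (i + 1) = f i * b i) {s : ℕ} (hb : ∀ i, i < s → (b i).Prime) :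
    ∀ i, i ≤ s → ∀ {q : ℕ}, q.Prime → q ∣ f i → q ∣ f 0 ∨ ∃ j, j < i ∧ b j = q := by
  intro i
  induction i with
  | zero => intro _ q _ h; exact Or.inl h
  | succ i ih =>
    intro hi q hq h
    rw [hs, hq.dvd_mul] at h
    rcases h with h | h
    · rcases ih (by omega) hq h with h | ⟨j, hj, hj'⟩
      · exact Or.inl h
      · exact Or.inr ⟨j, by omega, hj'⟩
    · exact Or.inr ⟨i, by omega, ((Nat.prime_dvd_prime_iff_eq hq (hb i (by omega))).mp h).symm⟩

lemma chain_dvd_of_lt (hs : ∀ i, f (i + 1) = f i * b i) {i j : ℕ} (h : j < i) : b j ∣ f i :=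
  (Dvd.intro_left (f j) (hs j).symm).trans (chain_dvd hs h)

lemma chain_not_dvd (hs : ∀ i, f (i + 1) = f i * b i) {s : ℕ} (hb : ∀ i, i < s → (b i).Prime)
    (hb0 : ∀ i, i < s → ¬ b i ∣ f 0) (hinj : ∀ i, i < s → ∀ j, j < i → b i ≠ b j) {i j : ℕ}
    (hj : j < s) (hi : i ≤ j) : ¬ b j ∣ f i := by
  intro h
  rcases chain_prime_dvd hs hb i (by omega) (hb j hj) h with h | ⟨l, hl, h⟩
  · exact hb0 j hj h
  · exact hinj j hj l (by omega) h.symm

lemma chain_squarefree (hs : ∀ i, f (i + 1) = f i * b i) {s : ℕ}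
    (hb : ∀ i, i < s → (b i).Prime)
    (hb0 : ∀ i, i < s → ¬ b i ∣ f 0) (hinj : ∀ i, i < s → ∀ j, j < i → b i ≠ b j)
    (h0 : Squarefree (f 0)) : ∀ i, i ≤ s → Squarefree (f i) := by
  intro i
  induction i with
  | zero => intro _; exact h0
  | succ i ih =>
    intro hi
    rw [hs, Nat.squarefree_mul_iff]
    refine ⟨?_, ih (by omega), (hb i (by omega)).prime.squarefree⟩
    exact ((Nat.Prime.coprime_iff_not_dvd (hb i (by omega))).mpr
      (chain_not_dvd hs hb hb0 hinj (by omega) le_rfl)).symm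

lemma chain_pos (hs : ∀ i, f (i + 1) = f i * b i) (h0 : 0 < f 0) (hb : ∀ i, b i ≠ 0) (i : ℕ) :
    0 < f i := by
  induction i with
  | zero => exact h0
  | succ i ih => rw [hs]; exact Nat.mul_pos ih (Nat.pos_of_ne_zero (hb i))

/-- the chain starting with a multiple -/
lemma chain_mul (hs : ∀ i, f (i + 1) = f i * b i) {g : ℕ → ℕ} (hg : ∀ i, g (i + 1) = g i * b i)
    {P : ℕ} (h0 : g 0 = f 0 * P) (i : ℕ) : g i = f i * P := by
  induction i with
  | zero => exact h0
  | succ i ih => rw [hs, hg, ih]; ring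

end Chain

section BFun

/-- a finite family of primes as a function on `ℕ` -/
def bfun {s : ℕ} (bb : Fin s → ℕ) (i : ℕ) : ℕ := if h : i < s then bb ⟨i, h⟩ else 1

lemma bfun_lt {s : ℕ} (bb : Fin s → ℕ) {i : ℕ} (h : i < s) : bfun bb i = bb ⟨i, h⟩ := dif_pos h

lemma bfun_fin {s : ℕ} (bb : Fin s → ℕ) (i : Fin s) : bfun bb i = bb i := bfun_lt bb i.2

lemma bfun_ne_zero {s : ℕ} {bb : Fin s → ℕ} (h : ∀ i, (bb i).Prime) (i : ℕ) : bfun bb i ≠ 0 := by
  unfold bfun
  split_ifs with hi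
  · exact (h _).ne_zero
  · exact one_ne_zero

lemma bfun_prime {s : ℕ} {bb : Fin s → ℕ} (h : ∀ i, (bb i).Prime) (i : ℕ) (hi : i < s) :
    (bfun bb i).Prime := by rw [bfun_lt bb hi]; exact h _

lemma bfun_inj {s : ℕ} {bb : Fin s → ℕ} (h : Function.Injective bb) (i : ℕ) (hi : i < s) (j : ℕ)
    (hj : j < i) : bfun bb i ≠ bfun bb j := by
  rw [bfun_lt bb hi, bfun_lt bb (hj.trans hi)]
  intro h1
  have := congrArg Fin.val (h h1)
  simp only at this
  omega

end BFun

section Prod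

variable {r : ℕ} {Q : Fin r → ℕ}

lemma prime_dvd_prod (hQ : ∀ i, (Q i).Prime) {q : ℕ} (hq : q.Prime) (h : q ∣ ∏ i, Q i) :
    ∃ i, Q i = q := by
  rw [hq.prime.dvd_finsetProd_iff] at h
  obtain ⟨i, -, hi⟩ := h
  exact ⟨i, ((Nat.prime_dvd_prime_iff_eq hq (hQ i)).mp hi).symm⟩

lemma prime_dvd_prod' {τ : Type} [Fintype τ] {qT : τ → ℕ} (hT : ∀ i, (qT i).Prime) {q : ℕ}
    (hq : q.Prime) (h : q ∣ ∏ i, qT i) : ∃ i, qT i = q := by
  rw [hq.prime.dvd_finsetProd_iff] at h
  obtain ⟨i, -, hi⟩ := h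
  exact ⟨i, ((Nat.prime_dvd_prime_iff_eq hq (hT i)).mp hi).symm⟩

/-- a product of distinct primes is squarefree -/
lemma squarefree_prod_primes {τ : Type} [Fintype τ] {qT : τ → ℕ} (hT : ∀ i, (qT i).Prime)
    (hinj : Function.Injective qT) : Squarefree (∏ i, qT i) := by
  refine Finset.squarefree_prod_of_pairwise_isCoprime (fun i _ j _ hij => ?_)
    fun i _ => (hT i).prime.squarefree
  change IsRelPrime (qT i) (qT j)
  rw [← Nat.coprime_iff_isRelPrime]
  exact (Nat.coprime_primes (hT i) (hT j)).mpr (hinj.ne hij)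

/-- a product of distinct primes divides what each of them divides -/
lemma prod_primes_dvd {τ : Type} [Fintype τ] {qT : τ → ℕ} (hT : ∀ i, (qT i).Prime)
    (hinj : Function.Injective qT) {N : ℕ} (h : ∀ i, qT i ∣ N) : ∏ i, qT i ∣ N := by
  refine Finset.prod_dvd_of_isRelPrime ?_ fun i _ => h i
  intro i _ j _ hij
  change IsRelPrime (qT i) (qT j)
  rw [← Nat.coprime_iff_isRelPrime]
  exact (Nat.coprime_primes (hT i) (hT j)).mpr (hinj.ne hij)

/-- the product of a squarefree number and new distinct primes is squarefree -/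
lemma squarefree_mul_prod (hQ : ∀ i, (Q i).Prime) (hinj : Function.Injective Q) {N : ℕ}
    (hN : Squarefree N) (hQN : ∀ i, ¬ Q i ∣ N) : Squarefree (N * ∏ i, Q i) := by
  rw [Nat.squarefree_mul_iff]
  refine ⟨?_, hN, squarefree_prod_primes hQ hinj⟩
  exact Nat.Coprime.prod_right fun i _ =>
    ((Nat.Prime.coprime_iff_not_dvd (hQ i)).mpr (hQN i)).symm

end Prod

end Fermat.Agent.H86.In
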