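/-
H30InH: the Hecke side and the level dictionary for the composition of the levels of S59.
-/
import Fermat.Agent.H86InPH
import Fermat.Agent.H86In1
import Fermat.Agent.H21MLvl
import Fermat.Agent.H30S59b
import Fermat.Agent.H30Lev

set_option autoImplicit false
set_option linter.style.haveILetI false
set_option linter.unusedSectionVars false

noncomputable section

namespace Fermat.Agent.H30.InH

open IsLocalRing CuspForm GaloisRep
open Fermat.Agent.H53 (toMat mapMat PData PlaceData GalLevelB)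
open Fermat.Agent.H59 (Tset evHA evHA_X)
open Fermat.Agent.H87.Glue (resZ)
open Fermat.Agent.H87.S58 (tO)
open Fermat.Agent.H73LT (nodeSign)
open Fermat.Agent.H69.Red Fermat.Agent.H86.In Fermat.Agent.H21M Fermat.Agent.H30.Lev
open Fermat.Agent.H37.Rank

section Dict

/-- the top of the chain of levels -/
theorem lvl_top (M₀ : ℕ) {s : ℕ} (bb : Fin s → ℕ) :
    lvl M₀ (bfun bb) s = M₀ * ∏ i, bb i := by
  have h : ∀ i, lvl M₀ (bfun bb) i = M₀ * ∏ j ∈ Finset.range i, bfun bb j := by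
    intro i
    induction i with
    | zero => simp
    | succ i ih => rw [lvl_succ, ih, Finset.prod_range_succ, mul_assoc]
  rw [h, Finset.prod_range]
  congr 1
  exact Finset.prod_congr rfl fun i _ => bfun_fin bb i

/-- the product of the raising primes, with marks at `p` -/
theorem prod_marks {B : Finset ℕ} {p s : ℕ} {ε : Type} [Fintype ε] (x : Fin s ≃ Tset B ⊕ ε)
    {bb : Fin s → ℕ} (hbb : ∀ i, bb i = Sum.elim (fun t : Tset B => t.1) (fun _ => p) (x i)) :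
    ∏ i, bb i = (∏ q ∈ B, q) * p ^ Fintype.card ε := by
  rw [Finset.prod_congr rfl fun i _ => hbb i,
    Equiv.prod_comp x (Sum.elim (fun t : Tset B => t.1) (fun _ => p)), Fintype.prod_sum_type]
  simp only [Sum.elim_inl, Sum.elim_inr, Finset.prod_const, Finset.card_univ]
  congr 1
  exact Finset.prod_coe_sort B fun q => q

/-- the product of the raising primes, without marks at `p` -/
theorem prod_noMarks {B : Finset ℕ} {s : ℕ} (x : Fin s ≃ Tset B)
    {bb : Fin s → ℕ} (hbb : ∀ i, bb i = (x i).1) :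
    ∏ i, bb i = ∏ q ∈ B, q := by
  rw [Finset.prod_congr rfl fun i _ => hbb i, Equiv.prod_comp x (fun t : Tset B => t.1)]
  exact Finset.prod_coe_sort B fun q => q

variable {W : WeierstrassCurve ℤ} {hΔ : W.Δ ≠ 0} {p : ℕ} [hp : Fact p.Prime]
  {A T B : Finset ℕ} {s : ℕ}

/-- **the shape of the top level** -/
theorem top_eq {r s' : ℕ} (Q : Fin r → ℕ) (bb : Fin s' → ℕ) {δ a : ℕ}
    (hδ : δ * ∏ i, bb i = (∏ q ∈ B, q) * p ^ a) :
    lvl (baseLevel A T s * δ * ∏ j, Q j) (bfun bb) s' * ((∏ j, Q j) * ∏ t : Tset T, t.1) =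
      baseLevel A T s * (∏ j, Q j) * (∏ q ∈ B, q) * p ^ a * ((∏ j, Q j) * ∏ t ∈ T, t) := by
  rw [lvl_top]
  have h1 : (∏ t : Tset T, t.1) = ∏ t ∈ T, t := Finset.prod_coe_sort T fun q => q
  rw [h1]
  congr 1
  calc baseLevel A T s * δ * (∏ j, Q j) * ∏ i, bb i
      = baseLevel A T s * (∏ j, Q j) * (δ * ∏ i, bb i) := by ring
    _ = _ := by rw [hδ]; ring

/-- the fixed part of the set of bad primes -/
def S₁ (W : WeierstrassCurve ℤ) (p : ℕ) (A T B : Finset ℕ) (s : ℕ) : Finset ℕ :=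
  insert p ((baseLevel A T s * ∏ q ∈ B, q).primeFactors ∪ W.Δ.natAbs.primeFactors)

/-- the set of bad primes of a level -/
def STop (W : WeierstrassCurve ℤ) (p : ℕ) (A T B : Finset ℕ) (s : ℕ) {r : ℕ} (Q : Fin r → ℕ) :
    Finset ℕ :=
  S₁ W p A T B s ∪ Finset.univ.image Q

theorem p_mem_S₁ : p ∈ S₁ W p A T B s := Finset.mem_insert_self _ _

theorem p_mem_STop {r : ℕ} (Q : Fin r → ℕ) : p ∈ STop W p A T B s Q :=
  Finset.mem_union_left _ p_mem_S₁

include hΔ in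
theorem good_of_notMem_S₁ {ℓ : ℕ} (hℓ : ℓ.Prime) (h : ℓ ∉ S₁ W p A T B s) :
    W.IsGoodPrimeFor ℓ := by
  intro hdvd
  apply h
  refine Finset.mem_insert_of_mem (Finset.mem_union_right _ ?_)
  rw [Nat.mem_primeFactors]
  exact ⟨hℓ, Int.natCast_dvd.mp hdvd, Int.natAbs_ne_zero.mpr hΔ⟩

theorem dvd_mem_S₁ (P : Partition W hΔ p A T B s) {q : ℕ} (hq : q.Prime)
    (h : q ∣ baseLevel A T s * (∏ q ∈ B, q) * p) : q ∈ S₁ W p A T B s := by
  rcases hq.dvd_mul.mp h with h | h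
  · refine Finset.mem_insert_of_mem (Finset.mem_union_left _ ?_)
    rw [Nat.mem_primeFactors]
    exact ⟨hq, h, mul_ne_zero P.squarefree.ne_zero
      (Finset.prod_ne_zero_iff.mpr fun q hq => (P.B_prime q hq).ne_zero)⟩
  · rw [(Nat.prime_dvd_prime_iff_eq hq hp.out).mp h]
    exact p_mem_S₁

theorem mem_STop (P : Partition W hΔ p A T B s) {r s' : ℕ} {Q : Fin r → ℕ}
    (hQ : Away p A T B s Q) {bb : Fin s' → ℕ} {δ a : ℕ} (ha : a ≤ 1)
    (hδ : δ * ∏ i, bb i = (∏ q ∈ B, q) * p ^ a) {q : ℕ} (hq : q.Prime)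
    (hqL : q ∣ lvl (baseLevel A T s * δ * ∏ j, Q j) (bfun bb) s' *
      ((∏ j, Q j) * ∏ t : Tset T, t.1)) : q ∈ STop W p A T B s Q := by
  have h1 := (top_level P hQ ha (top_eq Q bb hδ)).1 q hq hqL
  rcases h1 with h | h | ⟨t, h⟩ | ⟨t, h⟩ | ⟨j, h⟩ | h
  · rw [h]; exact p_mem_STop Q
  · exact Finset.mem_union_left _ (dvd_mem_S₁ P hq
      (((P.dvd_baseLevel_iff hq).mpr (Or.inl h)).mul_right _ |>.mul_right _))
  · exact Finset.mem_union_left _ (dvd_mem_S₁ P hq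
      (((P.dvd_baseLevel_iff hq).mpr (Or.inr (Or.inl (h ▸ t.2)))).mul_right _ |>.mul_right _))
  · exact Finset.mem_union_left _ (dvd_mem_S₁ P hq
      ((Dvd.dvd.mul_left ((dvd_prod_finset_iff P.B_prime hq).mpr (h ▸ t.2)) _).mul_right _))
  · exact Finset.mem_union_right _ (Finset.mem_image.mpr ⟨j, Finset.mem_univ j, h⟩)
  · exact Finset.mem_union_left _ (dvd_mem_S₁ P hq
      (((P.dvd_baseLevel_iff hq).mpr (Or.inr (Or.inr h))).mul_right _ |>.mul_right _))

theorem good_of_notMem_STop (hΔ : W.Δ ≠ 0) {r : ℕ} (Q : Fin r → ℕ) {ℓ : ℕ} (hℓ : ℓ.Prime)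
    (h : ℓ ∉ STop W p A T B s Q) : W.IsGoodPrimeFor ℓ :=
  good_of_notMem_S₁ (hΔ := hΔ) hℓ fun h' => h (Finset.mem_union_left _ h')

end Dict

section Hecke

variable {W : WeierstrassCurve ℤ} (hΔ : W.Δ ≠ 0) {p : ℕ} [hp : Fact p.Prime]
  {O : Type} [CommRing O] [IsDomain O] [IsDiscreteValuationRing O]
  [IsAdicComplete (maximalIdeal O) O] [CharZero O] [Finite (ResidueField O)]
  [CharP (ResidueField O) p] [Algebra (ZMod p) (ResidueField O)] (hpO : (p : O) ∈ maximalIdeal O)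
  {b : Module.Basis (Fin 2) (ResidueField O) ((resZ W hΔ p).baseChange (ResidueField O)).V}
  {pd : PData p ((resZ W hΔ p).baseChange (ResidueField O)) b} {A T B : Finset ℕ}
  {pl : ∀ t : Tset T, PlaceData p t.1} {u : Tset T → O} {plB : ∀ i : Tset B, PlaceData p i.1}

/-- the residual representation stays irreducible over extensions -/
theorem irreducible_baseChange (hp2 : p ≠ 2) (hirr : W.ModRepIsIrreducible p) :
    ((resZ W hΔ p).baseChange (ResidueField O)).IsIrreducible := by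
  have h2z : (2 : ZMod p) ≠ 0 := by
    intro h
    have h1 : ((2 : ℕ) : ZMod p) = 0 := by exact_mod_cast h
    rw [ZMod.natCast_eq_zero_iff] at h1
    exact hp2 ((Nat.prime_dvd_prime_iff_eq hp.out Nat.prime_two).mp h1)
  exact H87.AbsIrr.isIrreducible_baseChange_of_involution h2z _
    (H87.Glue.resZ_isIrreducible W hΔ p hirr) complexConjugation complexConjugation_mul_self
    (H87.Glue.resZ_isOdd W hΔ p _ complexConjugation_mul_self
      H87.Res.complexConjugation_ne_one)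

/-- **The Hecke side of a level of the chain.** -/
theorem hecke_block (h34 : StatementS34) (hp2 : p ≠ 2) (hirr : W.ModRepIsIrreducible p) {s : ℕ}
    (P : Partition W hΔ p A T B s) {inc : Prop} (PH : PHyp hΔ hpO pd A pl u plB inc)
    {k n : ℕ} {S₀ : Finset ℕ} (G : GLev hΔ pd A pl u plB k n S₀)
    (hQ : Away p A T B s G.qv) {s' : ℕ} {bb : Fin s' → ℕ} {δ a : ℕ} (ha : a ≤ 1)
    (hδ : δ * ∏ i, bb i = (∏ q ∈ B, q) * p ^ a) (hinc : a = 1 ↔ inc)
    (hmod : W.IsResiduallyModularOfLevel p (baseLevel A T s * δ)) {L : ℕ} [NeZero L]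
    (hL : L = lvl (baseLevel A T s * δ * ∏ j, G.qv j) (bfun bb) s' *
      ((∏ j, G.qv j) * ∏ t : Tset T, t.1))
    (S : Finset ℕ) (hpS : p ∈ S) (hLS : ∀ q : ℕ, q.Prime → q ∣ L → q ∈ (↑S : Set ℕ))
    (hSW : ∀ ℓ : ℕ, ℓ.Prime → ℓ ∉ S → W.IsGoodPrimeFor ℓ) :
    ∃ (θ : heckeAlgebra L 2 (↑S : Set ℕ) →+* ResidueField O)
      (π : G.D.R →ₐ[O] heckeLocal L (↑S : Set ℕ) O θ) (hs : HSide p G.D G.b₁ π),
      (∀ i : Pr (↑S : Set ℕ), θ (TIdx L (↑S : Set ℕ) hs.hLS i) =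
        ((W.apOfModel i.1 : ℤ) : ResidueField O)) := by
  have hL' := hL.trans (top_eq G.qv bb hδ)
  obtain ⟨hN, hA, hB, hs3, hp2L, hpL, hL0⟩ := top_level P hQ ha hL'
  have hdvd : baseLevel A T s * δ ∣ L := by
    rw [hL, lvl_top]
    exact (((Dvd.intro _ rfl).mul_right _).mul_right _)
  haveI : NeZero (baseLevel A T s * δ) := ⟨fun h => hL0 (by
    rw [h] at hdvd
    exact Nat.eq_zero_of_zero_dvd hdvd)⟩
  obtain ⟨θ, hθ, H, π, b₂, h1, h2, h3, -⟩ := S59.exists_hecke_all hΔ hpO h34 hp2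
    (S59.tO_residual_baseChange hΔ hpO) (irreducible_baseChange hΔ hp2 hirr) hmod hdvd S hpS hLS
    hSW G (fun χ H hres => PH.𝒟H hpS (fun q hq h => by exact_mod_cast hLS q hq h) hp2L
      (hpL.trans hinc) H hres) (s := s) ⟨P.aux_three, P.aux_other⟩ hN hA hB hs3
  refine ⟨θ, π, ⟨hpS, hLS, h2, H, b₂, h1, h3⟩, fun i => ?_⟩
  rw [← hθ i]
  exact congrArg θ (evHA_X hLS i).symm

end Hecke

end Fermat.Agent.H30.InH
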