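import Fermat.Agent.H85C1
import Fermat.Agent.H30InH

set_option autoImplicit false
set_option linter.style.haveILetI false
set_option linter.unusedSectionVars false

/-!
# The inner statement of level lowering
-/

noncomputable section

open IsLocalRing CuspForm GaloisRep ExtCitation
open Fermat.Agent.H53
open Fermat.Agent.H59 (Tset CoeffChoice Zset)
open Fermat.Agent.H87.Glue (resZ)

namespace Fermat.Agent.H85.C

variable {W : WeierstrassCurve ℤ} (hΔ : W.Δ ≠ 0) {p : ℕ} [hp : Fact p.Prime]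

/-- **The inner statement of level lowering** from a type at `p` without marks. -/
theorem innerLL_of (hp2 : p ≠ 2) (hirrp : W.ModRepIsIrreducible p)
    (h29 : H96.StatementS29) (h34 : H30.StatementS34) (GI : H4.GeomInputs p)
    {A T : Finset ℕ} (hA : ∀ q ∈ A, q.Prime) (hAT : ∀ q ∈ A, q ∉ T) (hTp : ∀ t ∈ T, t.Prime)
    (hTd : ∀ t ∈ T, p ∣ t - 1) (hTu : ∀ t ∈ T, (resZ W hΔ p).IsUnramifiedAt t)
    {s₁ : ℕ} (haux : H30.S59.Aux W p s₁)
    {M : ℕ} (hM : Squarefree M) (hmod : W.IsResiduallyModularOfLevel p M)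
    (hMpr : ∀ q : ℕ, q.Prime → q ∣ M → q = p ∨ q ∈ A ∨ q ∈ T ∨ q = s₁)
    (hTM : ∀ t ∈ T, t ∣ M) (hsM : p = 3 → s₁ ∣ M)
    (t₀ : Tset T) (hnot : ¬ W.IsResiduallyModularOfLevel p (M / t₀.1))
    (hP : ∀ (O : Type) [CommRing O] [IsDomain O] [IsDiscreteValuationRing O]
      [IsAdicComplete (maximalIdeal O) O] [CharZero O] [Finite (ResidueField O)]
      [CharP (ResidueField O) p] [Algebra (ZMod p) (ResidueField O)] (ϖ : O) (a : ℕ) (ζ : O)
      (_ : CoeffChoice p T O ϖ a ζ)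
      (b : Module.Basis (Fin 2) (ResidueField O) ((resZ W hΔ p).baseChange (ResidueField O)).V),
      ∃ pd : PData p ((resZ W hΔ p).baseChange (ResidueField O)) b, IsEmpty pd.ε ∧
        ∀ {L : ℕ} [NeZero L] {S : Finset ℕ}, p ∈ S → (∀ q : ℕ, q.Prime → q ∣ L → q ∈ S) →
          ¬ p ^ 2 ∣ L → (p ∣ L ↔ p ∣ M) →
          ∀ {θ : heckeAlgebra L 2 (↑S : Set ℕ) →+* ResidueField O}
          (H : HeckeGaloisRepDatum L (↑S : Set ℕ) O θ (heckeLocal L (↑S : Set ℕ) O θ)),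
          H.ρ.residual.IsEquiv (((resZ W hΔ p).baseChange (ResidueField O)).baseChangeAlong
            (ResidueField.map (algebraMap O (heckeLocal L (↑S : Set ℕ) O θ)))) → pd.𝒟p H.ρ) :
    InnerLL W hΔ p A T t₀ := by
  intro O _ _ _ _ _ _ _ _ ϖ a ζ hO b pl _ u _ _ plB
  obtain ⟨pd, hε, hD⟩ := hP O ϖ a ζ hO b
  have hne : M * p * W.Δ.natAbs ≠ 0 :=
    mul_ne_zero (mul_ne_zero hM.ne_zero hp.out.ne_zero) (Int.natAbs_ne_zero.mpr hΔ)
  refine ⟨pd, hε, fun k => ⟨H35.Rk.bnd O (numB (Tset T) (Tset (∅ : Finset ℕ)) pd.ε k) M,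
    fun n => ⟨(M * p * W.Δ.natAbs).primeFactors, fun G => ?_⟩⟩⟩
  refine level hΔ hp2 hirrp (H30.InH.irreducible_baseChange hΔ hp2 hirrp) h29 h34 GI hO hA hAT hTp
    hTd hTu haux hM hmod hMpr hTM hsM t₀ hnot hD ?_ ?_ ?_ G
  · exact Nat.mem_primeFactors.mpr ⟨hp.out, (dvd_mul_left p M).mul_right _, hne⟩
  · intro q hq h
    exact Nat.mem_primeFactors.mpr ⟨hq, (h.mul_right p).mul_right _, hne⟩
  · intro q hq h hd
    exact h (Nat.mem_primeFactors.mpr ⟨hq, (Int.natCast_dvd.mp hd).mul_left _, hne⟩)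

end Fermat.Agent.H85.C
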