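import Fermat.Agent.H2C38S
import Fermat.Agent.H69C2
import Fermat.Agent.H65C1
import Fermat.Agent.H85C2
import Fermat.Agent.H45GlueB
import Fermat.Agent.H42Last
import Fermat.Agent.H4GeomIn
import Fermat.Agent.S34

/-!
# Level lowering at levels prime to `p`, and the curves with good reduction at `p`

* `noLLF` : the scalar case at levels prime to `p` (type `F`);
* `lower_F` : level lowering at levels prime to `p`;
* `level_div_of_good` : if `W` has good reduction at `p` and is residually modular of squarefree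
  level `M`, `p ∣ M`, then it is residually modular of level `M / p` (through the modularity of `W`).
-/

set_option autoImplicit false
set_option linter.style.haveILetI false

noncomputable section

open Polynomial WeierstrassCurve WeierstrassCurve.Affine WeierstrassCurve.Affine.Point
open Fermat.Agent.H87.Glue Fermat.Agent.H2C

namespace Fermat.Agent.H69C

local notation "Qb" => AlgebraicClosure ℚ

/-- The scalar case of level lowering, at levels prime to `p`. -/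
def NoLLF (W : WeierstrassCurve ℤ) (hΔ : W.Δ ≠ 0) (p : ℕ) [Fact p.Prime] : Prop :=
  ∀ (M s : ℕ) (A T : Finset ℕ), Squarefree M → ¬ p ∣ M → W.IsResiduallyModularOfLevel p M →
    H57.S59.ResHypB W hΔ p A T ∅ (fun _ => 1) → H30.S59.Aux W p s → (p = 3 → s ∣ M) →
    (∀ q : ℕ, q.Prime → q ∣ M → q ∈ A ∨ q ∈ T ∨ q = s) →
    (∀ q ∈ T, q ∣ M) → ∀ t₀ ∈ T, ¬ W.IsResiduallyModularOfLevel p (M / t₀) → False

variable {W : WeierstrassCurve ℤ} {hΔ : W.Δ ≠ 0} {p : ℕ} [hp : Fact p.Prime]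

/-- **Type `F`**. -/
theorem noLLF (hp2 : p ≠ 2) (hTWc : TWCond W hΔ p) (hirr : W.ModRepIsIrreducible p) :
    NoLLF W hΔ p := by
  intro M s A T hM hpM hmod H haux hsM hMpr hTM t₀ ht₀ hnot
  refine noLL' hp2 hTWc hirr H ⟨t₀, ht₀⟩ ?_
  exact H85.C.innerLL_of hΔ hp2 hirr S29.result S34.result (H4.geomInputs hp.out) H.A_prime
    (fun q hq h => H.A_ram q hq (H.T_unr q h)) H.T_prime H.T_dvd H.T_unr haux hM hmod
    (fun q hq h => by
      rcases hMpr q hq h with h | h | h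
      · exact Or.inr (Or.inl h)
      · exact Or.inr (Or.inr (Or.inl h))
      · exact Or.inr (Or.inr (Or.inr h))) hTM hsM ⟨t₀, ht₀⟩ hnot
    (H65.C.letterF hΔ hp2 hirr hM.ne_zero hpM hmod)

/-- **Level lowering at an unramified prime**, levels prime to `p`. -/
theorem lower_F (hLL : NoLLF W hΔ p) (hp2 : p ≠ 2) (hW : W.IsSemistableModel)
    (hirr : W.ModRepIsIrreducible p) {M q : ℕ} (hq : q.Prime) (hqp : q ≠ p) (hqM : q ∣ M)
    (hM : Squarefree M) (hpM : ¬ p ∣ M) (hunr : (resZ W hΔ p).IsUnramifiedAt q)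
    (hres : W.IsResiduallyModularOfLevel p M) : W.IsResiduallyModularOfLevel p (M / q) := by
  classical
  have hM0 : 0 < M := Nat.pos_of_ne_zero hM.ne_zero
  have h30 : H96.StatementS30 := H30.statementS30
  have h32 : H30.StatementS32 := Fermat.Agent.S32.result
  have hloc := H59.localAt hΔ (p := p) hW hp2 h30 h32 (resZ_isIrreducible W hΔ p hirr)
  -- the auxiliary prime
  obtain ⟨s, haux, hsp, hsM, hs0, hsm⟩ : ∃ s : ℕ, H30.S59.Aux W p s ∧ s ≠ p ∧
      (∀ ℓ : ℕ, ℓ.Prime → ℓ ∣ M → ℓ ≠ s) ∧ 0 < s ∧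
      (∀ m : ℕ, 0 < m → m ∣ M → W.IsResiduallyModularOfLevel p (m * s) →
        W.IsResiduallyModularOfLevel p m) := by
    by_cases h3 : p = 3
    · subst h3
      obtain ⟨s, h1, h2, h3, h4, h5⟩ :=
        H80.Aux.exists_aux_prime W hΔ hW hirr (insert 3 M.primeFactors)
      rw [Finset.mem_insert, not_or, Nat.mem_primeFactors] at h2
      have hsM : ¬ s ∣ M := fun h => h2.2 ⟨h1, h, hM.ne_zero⟩
      refine ⟨s, ⟨fun _ => ⟨h1, h3, h4, h5⟩, fun h => absurd rfl h⟩, h2.1,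
        fun ℓ _ hℓM h => hsM (h ▸ hℓM), h1.pos, fun m hm hmM h => ?_⟩
      exact remove_aux hm hp2 hΔ hirr h1 h2.1 (fun h => hsM (h.trans hmM)) h4 (aux_ap h3 h5) h
    · refine ⟨1, ⟨fun h => absurd h h3, fun _ => rfl⟩, hp.out.ne_one.symm,
        fun ℓ hℓ _ h => hℓ.ne_one h, one_pos, fun m _ _ h => by rwa [mul_one] at h⟩
  -- the minimal level
  have hex : ∃ m : ℕ, m ∣ M ∧ W.IsResiduallyModularOfLevel p (m * s) :=
    ⟨M, dvd_rfl, H69.Red.res_of_dvd S29.result hΔ hp.out (Nat.mul_pos hM0 hs0).ne'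
      (dvd_mul_right M s) hres⟩
  set m := Nat.find hex with hmdef
  obtain ⟨hmM, hmres⟩ := Nat.find_spec hex
  rw [← hmdef] at hmM hmres
  have hmin : ∀ m' : ℕ, m' ∣ M → m' < m → ¬ W.IsResiduallyModularOfLevel p (m' * s) :=
    fun m' h1 h2 h3 => Nat.find_min hex h2 ⟨h1, h3⟩
  have hm0 : 0 < m := Nat.pos_of_dvd_of_pos hmM hM0
  have hmsq : Squarefree m := hM.squarefree_of_dvd hmM
  have hpm : ¬ p ∣ m := fun h => hpM (h.trans hmM)
  by_cases hqm : q ∣ m
  swap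
  · -- the prime `q` has been removed
    have h1 : m ∣ M / q := by
      refine Nat.Coprime.dvd_of_dvd_mul_right
        ((Nat.Prime.coprime_iff_not_dvd hq).mpr hqm).symm ?_
      rw [Nat.div_mul_cancel hqM]
      exact hmM
    exact H69.Red.res_of_dvd S29.result hΔ hp.out (sqf_div hM hq hqM).2.2.1.ne' h1
      (hsm m hm0 hmM hmres)
  exfalso
  let A : Finset ℕ := m.primeFactors.filter fun ℓ => ¬ (resZ W hΔ p).IsUnramifiedAt ℓ
  let T : Finset ℕ := m.primeFactors.filter fun ℓ => (resZ W hΔ p).IsUnramifiedAt ℓ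
  have hA : ∀ ℓ, ℓ ∈ A ↔ (ℓ.Prime ∧ ℓ ∣ m) ∧ ¬ (resZ W hΔ p).IsUnramifiedAt ℓ :=
    fun ℓ => by
      rw [Finset.mem_filter, Nat.mem_primeFactors]
      have := hm0.ne'
      tauto
  have hT : ∀ ℓ, ℓ ∈ T ↔ (ℓ.Prime ∧ ℓ ∣ m) ∧ (resZ W hΔ p).IsUnramifiedAt ℓ :=
    fun ℓ => by
      rw [Finset.mem_filter, Nat.mem_primeFactors]
      have := hm0.ne'
      tauto
  have hnep : ∀ ℓ, ℓ ∣ m → ℓ ≠ p := fun ℓ h h' => hpm (h' ▸ h)
  have hns : ∀ ℓ : ℕ, ℓ.Prime → ℓ ∣ m → ¬ ℓ ∣ s := by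
    intro ℓ hℓ hℓm hd
    by_cases h3 : p = 3
    · exact hsM ℓ hℓ (hℓm.trans hmM) ((Nat.prime_dvd_prime_iff_eq hℓ (haux.1 h3).1).mp hd)
    · rw [haux.2 h3] at hd
      exact hℓ.ne_one (Nat.dvd_one.mp hd)
  have hdivs : ∀ ℓ : ℕ, ℓ ∣ m → m * s / ℓ = m / ℓ * s := fun ℓ h => by
    rw [mul_comm m s, Nat.mul_div_assoc s h, mul_comm]
  -- all unramified primes are scalar
  have hsc : ∀ ℓ ∈ T, H69.Red.ScalarAt W hΔ p ℓ := by
    intro ℓ hℓT
    obtain ⟨⟨hℓ, hℓm⟩, hℓu⟩ := (hT ℓ).mp hℓT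
    obtain ⟨h1, h2, h3, h4⟩ := sqf_div hmsq hℓ hℓm
    by_contra hcon
    refine hmin (m / ℓ) ((Nat.div_dvd_of_dvd hℓm).trans hmM) h4 ?_
    refine lower_nonscalar hp2 hΔ hW hirr hℓ (hnep ℓ hℓm) (Nat.mul_pos h3 hs0) ?_ hℓu hcon ?_
    · intro hd
      rcases hℓ.dvd_mul.mp hd with hd | hd
      · exact h1 hd
      · exact hns ℓ hℓ hℓm hd
    · rw [mul_right_comm, h2]
      exact hmres
  have hmspos : 0 < m * s := Nat.mul_pos hm0 hs0
  have hRes : H57.S59.ResHypB W hΔ p A T ∅ (fun _ => 1) :=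
    { A_prime := fun ℓ h => ((hA ℓ).mp h).1.1
      A_ne := fun ℓ h => hnep ℓ ((hA ℓ).mp h).1.2
      A_ram := fun ℓ h => ((hA ℓ).mp h).2
      A_unip := fun ℓ h => hloc.unip ℓ ((hA ℓ).mp h).1.1 (hnep ℓ ((hA ℓ).mp h).1.2)
      unr := fun ℓ hℓ hℓp hℓA => by
        by_cases h : ℓ ∣ m
        · by_contra hcon
          exact hℓA ((hA ℓ).mpr ⟨⟨hℓ, h⟩, hcon⟩)
        · by_cases hs : ℓ ∣ s
          · by_cases h3 : p = 3
            · have h5 : ℓ = s := (Nat.prime_dvd_prime_iff_eq hℓ (haux.1 h3).1).mp hs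
              exact resZ_isUnramifiedAt W hΔ p hℓ hℓp (h5 ▸ (haux.1 h3).2.2.1)
            · rw [haux.2 h3] at hs
              exact absurd (Nat.dvd_one.mp hs) hℓ.ne_one
          · exact hloc.unr (m * s) hmspos hmres ℓ hℓ hℓp (fun hd => by
              rcases hℓ.dvd_mul.mp hd with hd | hd
              · exact h hd
              · exact hs hd)
      T_prime := fun ℓ h => ((hT ℓ).mp h).1.1
      T_dvd := fun ℓ h => (hsc ℓ h).1
      T_unr := fun ℓ h => ((hT ℓ).mp h).2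
      T_scalar := fun ℓ h => (hsc ℓ h).2
      B_prime := fun ℓ h => absurd h (Finset.notMem_empty ℓ)
      B_ne := fun ℓ h => absurd h (Finset.notMem_empty ℓ)
      B_unr := fun ℓ h => absurd h (Finset.notMem_empty ℓ)
      B_nonscalar := fun ℓ h => absurd h (Finset.notMem_empty ℓ)
      B_sign := fun ℓ h => absurd h (Finset.notMem_empty ℓ)
      B_trace := fun ℓ h => absurd h (Finset.notMem_empty ℓ) }
  have hqT : q ∈ T := (hT q).mpr ⟨⟨hq, hqm⟩, hunr⟩
  have hsq : Squarefree (m * s) := by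
    by_cases h3 : p = 3
    · have hs := (haux.1 h3).1
      rw [Nat.squarefree_mul]
      · exact ⟨hmsq, hs.squarefree⟩
      · rw [Nat.coprime_comm, Nat.Prime.coprime_iff_not_dvd hs]
        exact fun h => hsM s hs (h.trans hmM) rfl
    · rw [haux.2 h3, mul_one]
      exact hmsq
  refine hLL (m * s) s A T hsq ?_ hmres hRes haux (fun _ => dvd_mul_left s m) ?_ ?_ q hqT ?_
  · intro hd
    rcases hp.out.dvd_mul.mp hd with hd | hd
    · exact hpm hd
    · by_cases h3 : p = 3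
      · exact hsp ((Nat.prime_dvd_prime_iff_eq hp.out (haux.1 h3).1).mp hd).symm
      · rw [haux.2 h3] at hd
        exact hp.out.ne_one (Nat.dvd_one.mp hd)
  · intro ℓ hℓ hd
    rw [hA, hT]
    rcases hℓ.dvd_mul.mp hd with hd | hd
    · by_cases h2 : (resZ W hΔ p).IsUnramifiedAt ℓ
      · exact Or.inr (Or.inl ⟨⟨hℓ, hd⟩, h2⟩)
      · exact Or.inl ⟨⟨hℓ, hd⟩, h2⟩
    · by_cases h3 : p = 3
      · exact Or.inr (Or.inr ((Nat.prime_dvd_prime_iff_eq hℓ (haux.1 h3).1).mp hd))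
      · rw [haux.2 h3] at hd
        exact absurd (Nat.dvd_one.mp hd) hℓ.ne_one
  · exact fun ℓ h => ((hT ℓ).mp h).1.2.mul_right s
  · rw [hdivs q hqm]
    exact hmin _ ((Nat.div_dvd_of_dvd hqm).trans hmM) (sqf_div hmsq hq hqm).2.2.2

/-- **Removal of all unramified primes** from a level prime to `p`. -/
theorem exists_ramified_level (hLL : NoLLF W hΔ p) (hp2 : p ≠ 2) (hW : W.IsSemistableModel)
    (hirr : W.ModRepIsIrreducible p) : ∀ N : ℕ, Squarefree N → ¬ p ∣ N →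
      W.IsResiduallyModularOfLevel p N → ∃ N' : ℕ, N' ∣ N ∧ W.IsResiduallyModularOfLevel p N' ∧
        ∀ q : ℕ, q.Prime → q ∣ N' → ¬ (resZ W hΔ p).IsUnramifiedAt q := by
  intro N
  induction N using Nat.strong_induction_on with
  | _ N ih =>
    intro hsq hpN hmod
    by_cases h : ∀ q : ℕ, q.Prime → q ∣ N → ¬ (resZ W hΔ p).IsUnramifiedAt q
    · exact ⟨N, dvd_rfl, hmod, h⟩
    push Not at h
    obtain ⟨q, hq, hqN, hu⟩ := h
    have h1 := sqf_div hsq hq hqN
    have hdiv : N / q ∣ N := Nat.div_dvd_of_dvd hqN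
    obtain ⟨N', h2, h3, h4⟩ := ih (N / q) h1.2.2.2 (hsq.squarefree_of_dvd hdiv)
      (fun h => hpN (h.trans hdiv))
      (lower_F hLL hp2 hW hirr hq (fun h => hpN (h ▸ hqN)) hqN hsq hpN hu hmod)
    exact ⟨N', h2.trans hdiv, h3, h4⟩

/-- **Good reduction at `p`**: the prime `p` can be removed from the level. -/
theorem level_div_of_good (hLL : NoLLF W hΔ p) (hp2 : p ≠ 2) (hW : W.IsSemistableModel)
    (hirr : W.ModRepIsIrreducible p) (hgood : ¬ (p : ℤ) ∣ W.Δ) {M : ℕ} (hM : M ≠ 0)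
    (hpM : p ∣ M) (hram : ∀ q : ℕ, q.Prime → q ≠ p → ¬ (resZ W hΔ p).IsUnramifiedAt q → q ∣ M) :
    W.IsResiduallyModularOfLevel p (M / p) := by
  obtain ⟨N, hN, hsq, hsupp, hmod⟩ :=
    H42X.exact_final H42X.lt_even_sq H42X.lift_three H42X.lift_five W hΔ hW
  have hpN : ¬ p ∣ N := fun h => hgood ((hsupp p hp.out).mp h)
  obtain ⟨N', h1, h2, h3⟩ := exists_ramified_level hLL hp2 hW hirr N hsq hpN
    (H45.isResiduallyModularOfLevel_of_isModularModelOfLevel hmod hp.out)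
  have hN' : N' ≠ 0 := fun h => hN.ne' (Nat.eq_zero_of_zero_dvd (h ▸ h1))
  have hpN' : ¬ p ∣ N' := fun h => hpN (h.trans h1)
  have hsq' : Squarefree N' := hsq.squarefree_of_dvd h1
  have hMp : M / p * p = M := Nat.div_mul_cancel hpM
  have hMp0 : M / p ≠ 0 := fun h => hM (by rw [← hMp, h, zero_mul])
  refine H69.Red.res_of_dvd S29.result hΔ hp.out hMp0 ?_ h2
  rw [← Nat.prod_primeFactors_of_squarefree hsq']
  refine Finset.prod_primes_dvd _ (fun q hq => (Nat.prime_of_mem_primeFactors hq).prime)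
    fun q hq => ?_
  have hqp := Nat.prime_of_mem_primeFactors hq
  have hqN := Nat.dvd_of_mem_primeFactors hq
  have hne : q ≠ p := fun h => hpN' (h ▸ hqN)
  have h4 : q ∣ M / p * p := by
    rw [hMp]
    exact hram q hqp hne (h3 q hqp hqN)
  rcases hqp.dvd_mul.mp h4 with h | h
  · exact h
  · exact absurd ((Nat.prime_dvd_prime_iff_eq hqp hp.out).mp h) hne

end Fermat.Agent.H69C
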