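import Fermat.Agent.H75D1
import Fermat.Agent.H85InA2
import Fermat.Agent.H30CaseP
import Fermat.Agent.H57S59Fin
import Fermat.Agent.H20TypeO
import Fermat.Agent.S32
import Fermat.Agent.S33

/-!
# S38, levels divisible by `p`, residually trivial at `σ₀`: the data at `p`

`W[p]` is strictly ordinary at `p`, trivial at `σ₀`, not residually modular of level `M₁`. The
ordinary deformation problem with the marks `t, y, z` at `p`: the Hecke representations of all levels
not divisible by `p ^ 2` are of this type, and `t, z` vanish at all points of the levels `M₁ p ∏ Q`.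
-/

set_option autoImplicit false
set_option linter.style.haveILetI false
set_option linter.unusedSectionVars false

noncomputable section

open IsLocalRing Polynomial GaloisRep CuspForm
open Fermat.Agent.H87.Glue (resZ)
open Fermat.Agent.H59 (Tset)
open Fermat.Agent.H37.Rank Fermat.Agent.H30 Fermat.Agent.H86.In
open Fermat.Agent.H53 (GQ M2 toMat mapMat PlaceData PData GalLevelB)
open Fermat.Agent.H75P (MarkElts OrdI cj)

namespace Fermat.Agent.H75.D

variable {W : WeierstrassCurve ℤ} (hΔ : W.Δ ≠ 0) {p : ℕ} [hp : Fact p.Prime]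
  {O : Type} [CommRing O] [IsDomain O] [IsDiscreteValuationRing O]
  [IsAdicComplete (maximalIdeal O) O] [CharZero O] [Finite (ResidueField O)]
  [Algebra (ZMod p) (ResidueField O)]
  {b : Module.Basis (Fin 2) (ResidueField O) ((resZ W hΔ p).baseChange (ResidueField O)).V}

/-- the Hecke representations of all levels not divisible by `p ^ 2` are of the type `pd` at `p` -/
def HeckeType (pd : PData p ((resZ W hΔ p).baseChange (ResidueField O)) b) : Prop :=
  ∀ {L : ℕ} [NeZero L] {S : Finset ℕ}, p ∈ S → (∀ q : ℕ, q.Prime → q ∣ L → q ∈ S) →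
    ¬ p ^ 2 ∣ L → ∀ {θ : heckeAlgebra L 2 (↑S : Set ℕ) →+* ResidueField O}
    (H : HeckeGaloisRepDatum L (↑S : Set ℕ) O θ (heckeLocal L (↑S : Set ℕ) O θ)),
    H.ρ.residual.IsEquiv (((resZ W hΔ p).baseChange (ResidueField O)).baseChangeAlong
      (ResidueField.map (algebraMap O (heckeLocal L (↑S : Set ℕ) O θ)))) → pd.𝒟p H.ρ

/-- the elements `x` of the rings of the levels of type `pd` vanish at all points of the levels
`M₁ p ∏ Q`, `W` not residually modular of level `M₁` -/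
def KillsAt (pd : PData p ((resZ W hΔ p).baseChange (ResidueField O)) b) (j₀ : pd.ε) : Prop :=
  ∀ (A T B : Finset ℕ) (pl : ∀ t : Tset T, PlaceData p t.1) (u : Tset T → O)
    (plB : ∀ i : Tset B, PlaceData p i.1) (k n : ℕ) (S₀ : Finset ℕ)
    (G : GLev hΔ pd A pl u plB k n S₀) (M₁ : ℕ), Squarefree M₁ → ¬ p ∣ M₁ →
    (∀ M' : ℕ, M₁ ∣ M' → H70.Coh.Good M' O) → ¬ W.IsResiduallyModularOfLevel p M₁ →
    (∀ j, ¬ G.qv j ∣ M₁) → ∀ (L : ℕ) [NeZero L] (S : Finset ℕ)
    (θ : heckeAlgebra L 2 (↑S : Set ℕ) →+* ResidueField O)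
    (π : G.D.R →ₐ[O] heckeLocal L (↑S : Set ℕ) O θ) (hs : HSide p G.D G.b₁ π),
    (∀ ℓ : ℕ, ℓ.Prime → ℓ ∉ S → W.IsGoodPrimeFor ℓ) →
    (∀ i : Pr (↑S : Set ℕ), θ (TIdx L (↑S : Set ℕ) hs.hLS i) =
      ((W.apOfModel i.1 : ℤ) : ResidueField O)) →
    VanishAt p hs.hLS π (M₁ * p * ∏ j, G.qv j) (G.mB (Sum.inr j₀) 0) ∧
      VanishAt p hs.hLS π (M₁ * p * ∏ j, G.qv j) (G.mB (Sum.inr j₀) 2)

variable (b) in
/-- **The data at `p`**, `W[p]` strictly ordinary and trivial at `σ₀`. -/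
theorem exists_pd_of_strict [CharP (ResidueField O) p] (hpO : (p : O) ∈ maximalIdeal O)
    (hp2 : p ≠ 2) (hirr : W.ModRepIsIrreducible p)
    (hstr : (GaloisRepAdic.ofResidualGaloisRep
      ((resZ W hΔ p).baseChange (ResidueField O))).IsStrictOrdinaryAt p)
    {φ σ₀ : GQ} (hm : MarkElts p φ σ₀) (h1 : (resZ W hΔ p).ρ σ₀ = 1) :
    ∃ (pd : PData p ((resZ W hΔ p).baseChange (ResidueField O)) b) (j₀ : pd.ε),
      (∀ j, j = j₀) ∧ HeckeType hΔ pd ∧ KillsAt hΔ pd j₀ := by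
  have hdet := H45.detIsCyclotomic_resZ_baseChange W hΔ p (ResidueField O)
  have hr0 : toMat ((resZ W hΔ p).baseChange (ResidueField O)).ρ b σ₀ = 1 :=
    (H57.S59.resZ_eq_one_iff b σ₀).mpr h1
  obtain ⟨w, hw, g₀, hg₀, hu₀⟩ := H30.CaseP.exists_ordData_of_sigma _ b hdet hstr hm
  refine ⟨PData.ord hp2 ((resZ W hΔ p).baseChange (ResidueField O)) b hdet hstr.isOrdinaryAt hm
    hr0 w hw hg₀ hu₀, (), fun _ => rfl, ?_, ?_⟩
  · intro L _ S hpS hLS hL2 θ H hres
    exact H30.ordinary_datum_all Fermat.Agent.S32.result Fermat.Agent.S33.result hp2 hpO hL2 hpS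
      hLS H _ hres hstr.isOrdinaryAt
  · intro A T B pl u plB k n S₀ G M₁ hsq hpM₁ hg hno hQ L _ S θ π hs hSW hθ
    exact vanishAt_marks hpO hp2 hdet hstr.isOrdinaryAt hm hr0 w hw hg₀ hu₀ hirr
      (H20.InO.irreducible_baseChange W hΔ hp2 hirr (ResidueField O)) hsq hpM₁ hg hno G hQ π hs
      hSW hθ

variable (b) in
/-- **The data at `p`**, `W` multiplicative at `p` and `W[p]` trivial at `σ₀`. -/
theorem exists_pd_of_multiplicative [CharP (ResidueField O) p] (hpO : (p : O) ∈ maximalIdeal O)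
    (hp2 : p ≠ 2) (hirr : W.ModRepIsIrreducible p) (hss : W.IsSemistableModel)
    (hbad : (p : ℤ) ∣ W.Δ) {φ σ₀ : GQ} (hm : MarkElts p φ σ₀) (h1 : (resZ W hΔ p).ρ σ₀ = 1) :
    ∃ (pd : PData p ((resZ W hΔ p).baseChange (ResidueField O)) b) (j₀ : pd.ε),
      (∀ j, j = j₀) ∧ HeckeType hΔ pd ∧ KillsAt hΔ pd j₀ :=
  exists_pd_of_strict hΔ b hpO hp2 hirr (H85.InA.residual_isStrictOrdinaryAt hΔ hpO hss hbad) hm h1

end Fermat.Agent.H75.D
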