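import Fermat.Agent.H85C4
import Fermat.Agent.H75D2
import Fermat.Agent.H30InH

set_option autoImplicit false
set_option linter.style.haveILetI false
set_option linter.unusedSectionVars false

/-!
# The inner statement of level lowering, with marks at `p` which kill the modules
-/

noncomputable section

open IsLocalRing CuspForm GaloisRep ExtCitation
open Fermat.Agent.H53
open Fermat.Agent.H59 (Tset CoeffChoice Zset)
open Fermat.Agent.H87.Glue (resZ)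
open Fermat.Agent.H30 (TIdx)
open Fermat.Agent.H70.Mod (Idx)
open Fermat.Agent.H86.In (GLev HSide VanishAt)
open Fermat.Agent.H69C (Kills InnerLLK)
open Fermat.Agent.H75.D (HeckeType KillsAt)

namespace Fermat.Agent.H85.C

variable {W : WeierstrassCurve ℤ} (hΔ : W.Δ ≠ 0) {p : ℕ} [hp : Fact p.Prime]

/-- **The inner statement of level lowering** from any type at `p` whose marks vanish at the points
of the levels `M ∏ Q`. -/
theorem innerLLK_of (hp2 : p ≠ 2) (hirrp : W.ModRepIsIrreducible p)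
    (h29 : H96.StatementS29) (h34 : H30.StatementS34) (GI : H4.GeomInputs p)
    {A T : Finset ℕ} (hA : ∀ q ∈ A, q.Prime) (hAT : ∀ q ∈ A, q ∉ T) (hTp : ∀ t ∈ T, t.Prime)
    (hTd : ∀ t ∈ T, p ∣ t - 1) (hTu : ∀ t ∈ T, (resZ W hΔ p).IsUnramifiedAt t)
    {s₁ : ℕ} (haux : H30.S59.Aux W p s₁)
    {M : ℕ} (hM : Squarefree M) (hmod : W.IsResiduallyModularOfLevel p M)
    (hMpr : ∀ q : ℕ, q.Prime → q ∣ M → q = p ∨ q ∈ A ∨ q ∈ T ∨ q = s₁)
    (hTM : ∀ t ∈ T, t ∣ M) (hsM : p = 3 → s₁ ∣ M)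
    (t₀ : Tset T) (hnot : ¬ W.IsResiduallyModularOfLevel p (M / t₀.1))
    (hP : ∀ (O : Type) [CommRing O] [IsDomain O] [IsDiscreteValuationRing O]
      [IsAdicComplete (maximalIdeal O) O] [CharZero O] [Finite (ResidueField O)]
      [CharP (ResidueField O) p] [Algebra (ZMod p) (ResidueField O)] (ϖ : O) (a : ℕ) (ζ : O)
      (_ : CoeffChoice p T O ϖ a ζ)
      (b : Module.Basis (Fin 2) (ResidueField O) ((resZ W hΔ p).baseChange (ResidueField O)).V),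
      ∃ pd : PData p ((resZ W hΔ p).baseChange (ResidueField O)) b,
        (∀ {L : ℕ} [NeZero L] {S : Finset ℕ}, p ∈ S → (∀ q : ℕ, q.Prime → q ∣ L → q ∈ S) →
          ¬ p ^ 2 ∣ L → (p ∣ L ↔ p ∣ M) →
          ∀ {θ : heckeAlgebra L 2 (↑S : Set ℕ) →+* ResidueField O}
          (H : HeckeGaloisRepDatum L (↑S : Set ℕ) O θ (heckeLocal L (↑S : Set ℕ) O θ)),
          H.ρ.residual.IsEquiv (((resZ W hΔ p).baseChange (ResidueField O)).baseChangeAlong
            (ResidueField.map (algebraMap O (heckeLocal L (↑S : Set ℕ) O θ)))) → pd.𝒟p H.ρ) ∧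
        ∀ (pl : ∀ t : Tset T, PlaceData p t.1) (u : Tset T → O)
          (plB : ∀ i : Tset (∅ : Finset ℕ), PlaceData p i.1) (k n : ℕ) (S₀ : Finset ℕ)
          (G : GLev hΔ pd A pl u plB k n S₀), (∀ j, ¬ G.qv j ∣ M) →
          ∀ (L : ℕ) [NeZero L] (S : Finset ℕ)
          (θ : heckeAlgebra L 2 (↑S : Set ℕ) →+* ResidueField O)
          (π : G.D.R →ₐ[O] heckeLocal L (↑S : Set ℕ) O θ) (hs : HSide p G.D G.b₁ π),
          (∀ ℓ : ℕ, ℓ.Prime → ℓ ∉ S → W.IsGoodPrimeFor ℓ) →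
          (∀ i : Idx (↑S : Set ℕ), θ (TIdx L (↑S : Set ℕ) hs.hLS i) =
            ((W.apOfModel i.1 : ℤ) : ResidueField O)) → ∀ j : pd.ε,
          VanishAt p hs.hLS π (M * ∏ j, G.qv j) (G.mB (Sum.inr j) 0) ∧
            VanishAt p hs.hLS π (M * ∏ j, G.qv j) (G.mB (Sum.inr j) 2)) :
    InnerLLK W hΔ p A T t₀ := by
  intro O _ _ _ _ _ _ _ _ ϖ a ζ hO b pl _ u _ _ plB
  obtain ⟨pd, hD, hK⟩ := hP O ϖ a ζ hO b
  have hne : M * p * W.Δ.natAbs ≠ 0 :=
    mul_ne_zero (mul_ne_zero hM.ne_zero hp.out.ne_zero) (Int.natAbs_ne_zero.mpr hΔ)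
  have hMS : ∀ q : ℕ, q.Prime → q ∣ M → q ∈ (M * p * W.Δ.natAbs).primeFactors := fun q hq h =>
    Nat.mem_primeFactors.mpr ⟨hq, (h.mul_right p).mul_right _, hne⟩
  refine ⟨pd, fun k => ⟨H35.Rk.bnd O (numB (Tset T) (Tset (∅ : Finset ℕ)) pd.ε k) M,
    fun n => ⟨(M * p * W.Δ.natAbs).primeFactors, fun G => ?_⟩⟩⟩
  obtain ⟨mp, hmp⟩ := level_kill hΔ hp2 hirrp (H30.InH.irreducible_baseChange hΔ hp2 hirrp) h29
    h34 GI hO hA hAT hTp hTd hTu haux hM hmod hMpr hTM hsM t₀ hnot hD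
    (Nat.mem_primeFactors.mpr ⟨hp.out, (dvd_mul_left p M).mul_right _, hne⟩) hMS
    (fun q hq h hd => h (Nat.mem_primeFactors.mpr ⟨hq, (Int.natCast_dvd.mp hd).mul_left _, hne⟩))
    G {x | ∃ j : pd.ε, x = G.mB (Sum.inr j) 0 ∨ x = G.mB (Sum.inr j) 2} (by
      rintro L _ S θ π hs hSW hθ x ⟨j, hx⟩
      have h1 := hK pl u plB k n _ G
        (fun i h => G.not_mem_S i (hMS _ (G.prime i) h)) L S θ π hs hSW hθ j
      rcases hx with rfl | rfl
      · exact h1.1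
      · exact h1.2)
  exact ⟨mp, fun j => ⟨hmp _ ⟨j, Or.inl rfl⟩, hmp _ ⟨j, Or.inr rfl⟩⟩⟩

/-- **The inner statement of level lowering** at a level `M` divisible by `p`, minimal at `p`, from
a type at `p` with one mark (types from `H75.D.exists_pd_of_strict`). -/
theorem innerLLK_of_marks (hp2 : p ≠ 2) (hirrp : W.ModRepIsIrreducible p)
    (h29 : H96.StatementS29) (h34 : H30.StatementS34) (GI : H4.GeomInputs p)
    {A T : Finset ℕ} (hA : ∀ q ∈ A, q.Prime) (hAT : ∀ q ∈ A, q ∉ T) (hTp : ∀ t ∈ T, t.Prime)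
    (hTd : ∀ t ∈ T, p ∣ t - 1) (hTu : ∀ t ∈ T, (resZ W hΔ p).IsUnramifiedAt t)
    {s₁ : ℕ} (haux : H30.S59.Aux W p s₁)
    {M : ℕ} (hM : Squarefree M) (hmod : W.IsResiduallyModularOfLevel p M)
    (hMpr : ∀ q : ℕ, q.Prime → q ∣ M → q = p ∨ q ∈ A ∨ q ∈ T ∨ q = s₁)
    (hTM : ∀ t ∈ T, t ∣ M) (hsM : p = 3 → s₁ ∣ M)
    (hpM : p ∣ M) (hnotp : ¬ W.IsResiduallyModularOfLevel p (M / p))
    (t₀ : Tset T) (hnot : ¬ W.IsResiduallyModularOfLevel p (M / t₀.1))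
    (hP : ∀ (O : Type) [CommRing O] [IsDomain O] [IsDiscreteValuationRing O]
      [IsAdicComplete (maximalIdeal O) O] [CharZero O] [Finite (ResidueField O)]
      [CharP (ResidueField O) p] [Algebra (ZMod p) (ResidueField O)] (ϖ : O) (a : ℕ) (ζ : O)
      (_ : CoeffChoice p T O ϖ a ζ)
      (b : Module.Basis (Fin 2) (ResidueField O) ((resZ W hΔ p).baseChange (ResidueField O)).V),
      ∃ (pd : PData p ((resZ W hΔ p).baseChange (ResidueField O)) b) (j₀ : pd.ε),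
        (∀ j, j = j₀) ∧ HeckeType hΔ pd ∧ KillsAt hΔ pd j₀) :
    InnerLLK W hΔ p A T t₀ := by
  have hMp : M / p * p = M := Nat.div_mul_cancel hpM
  have hsq : Squarefree (M / p) := hM.squarefree_of_dvd (Nat.div_dvd_of_dvd hpM)
  have hpM₁ : ¬ p ∣ M / p := fun h => by
    have h2 : p * p ∣ M := by
      rw [← hMp]
      exact Nat.mul_dvd_mul_right h _
    exact hp.out.not_isUnit (hM _ h2)
  have hsMp : p = 3 → s₁ ∣ M / p := fun h3 => by
    have h4 : s₁ ∣ M / p * p := by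
      rw [hMp]
      exact hsM h3
    rcases (haux.1 h3).1.dvd_mul.mp h4 with h | h
    · exact h
    · exfalso
      have h5 := (Nat.prime_dvd_prime_iff_eq (haux.1 h3).1 hp.out).mp h
      have h7 := (haux.1 h3).2.1
      omega
  refine innerLLK_of hΔ hp2 hirrp h29 h34 GI hA hAT hTp hTd hTu haux hM hmod hMpr hTM hsM t₀ hnot ?_
  intro O _ _ _ _ _ _ _ _ ϖ a ζ hO b
  obtain ⟨pd, j₀, hj, hH, hK⟩ := hP O ϖ a ζ hO b
  refine ⟨pd, fun hpS hLS hL2 _ _ H hres => hH hpS hLS hL2 H hres, ?_⟩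
  intro pl u plB k n S₀ G hQM L _ S θ π hs hSW hθ j
  have h1 := hK A T ∅ pl u plB k n S₀ G (M / p) hsq hpM₁
    (fun M' h => good_of_aux haux hp2 M' fun h3 => (hsMp h3).trans h) hnotp
    (fun i h => hQM i (h.trans (Nat.div_dvd_of_dvd hpM))) L S θ π hs hSW hθ
  rw [hMp] at h1
  rw [hj j]
  exact h1

end Fermat.Agent.H85.C
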