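import Fermat.Agent.H2C38N
import Fermat.Agent.H85C5
import Fermat.Agent.H69C3

/-!
# The scalar case of S38, `W` multiplicative at `p` and `W[p]` trivial at `σ₀`
-/

set_option autoImplicit false
set_option linter.style.haveILetI false

noncomputable section

open IsLocalRing CuspForm GaloisRep ExtCitation
open Fermat.Agent.H53 (GQ M2 toMat mapMat PData)
open Fermat.Agent.H59 (Tset CoeffChoice Zset)
open Fermat.Agent.H87.Glue (resZ)
open Fermat.Agent.H75P (MarkElts)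
open WeierstrassCurve WeierstrassCurve.Affine WeierstrassCurve.Affine.Point

namespace Fermat.Agent.H2C

variable {W : WeierstrassCurve ℤ} {hΔ : W.Δ ≠ 0} {p : ℕ} [hp : Fact p.Prime]

/-- **Letter P**: multiplicative reduction at `p ∣ M`, `W[p]` trivial at `σ₀`, `W[p]` not modular of
level `M / p`. -/
theorem false_marks (hp2 : p ≠ 2) (hTW : H69C.TWCond W hΔ p) (hss : W.IsSemistableModel)
    (hirr : W.ModRepIsIrreducible p)
    {M s : ℕ} {A T : Finset ℕ} (D : LLData W hΔ p M s A T) (hpM : p ∣ M) {t₀ : ℕ} (ht₀ : t₀ ∈ T)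
    (hnot : ¬ W.IsResiduallyModularOfLevel p (M / t₀)) (hbad : (p : ℤ) ∣ W.Δ)
    {φ σ₀ : GQ} (hm : MarkElts p φ σ₀) (h1 : (resZ W hΔ p).ρ σ₀ = 1) : False := by
  refine H69C.noLLK hp2 hTW hirr D.res ⟨t₀, ht₀⟩ ?_
  refine H85.C.innerLLK_of_marks hΔ hp2 hirr S29.result S34.result (H4.geomInputs hp.out)
    D.res.A_prime (fun q hA hT => D.res.A_ram q hA (D.res.T_unr q hT)) D.res.T_prime D.res.T_dvd
    D.res.T_unr D.aux D.sq D.mod
    (fun q hq hd => by
      rcases D.cover q hq hd with h | h | h | h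
      · exact Or.inr (Or.inl h)
      · exact Or.inr (Or.inr (Or.inl h))
      · exact Or.inr (Or.inr (Or.inr h))
      · exact Or.inl h)
    (fun t ht => (D.T_dvd t ht).1) D.aux_dvd hpM (D.min_p hpM) ⟨t₀, ht₀⟩ hnot ?_
  intro O _ _ _ _ _ _ _ _ ϖ a ζ hO b
  exact H75.D.exists_pd_of_multiplicative hΔ b hO.mem hp2 hirr hss hbad hm h1

/-- **The scalar case** from the case `W` good at `p ∣ M`. -/
theorem noLL_of_good (hp2 : p ≠ 2) (hTW : H69C.TWCond W hΔ p) (hss : W.IsSemistableModel)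
    (hirr : W.ModRepIsIrreducible p)
    (hgood : ¬ (p : ℤ) ∣ W.Δ → ∀ (M s : ℕ) (A T : Finset ℕ), LLData W hΔ p M s A T → p ∣ M →
      ∀ t₀ ∈ T, ¬ W.IsResiduallyModularOfLevel p (M / t₀) → False) : NoLL W hΔ p :=
  noLL_of hp2 hTW hss hirr hgood fun hbad _ _ hm h1 _ _ _ _ D hpM _ ht₀ hnot =>
    false_marks hp2 hTW hss hirr D hpM ht₀ hnot hbad hm h1

/-- **The scalar case** from the Taylor-Wiles condition. -/
theorem noLL_of_tw (hp2 : p ≠ 2) (hTW : H69C.TWCond W hΔ p) (hss : W.IsSemistableModel)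
    (hirr : W.ModRepIsIrreducible p) : NoLL W hΔ p :=
  noLL_of_good hp2 hTW hss hirr fun hgood M _ A T D hpM _ _ _ => by
    refine D.min_p hpM (H69C.level_div_of_good (H69C.noLLF hp2 hTW hirr) hp2 hss hirr hgood
      D.sq.ne_zero hpM fun q hq hqp hram => D.A_dvd q ?_)
    by_contra hqA
    exact hram (D.res.unr q hq hqp hqA)

/-- **S38** (verbatim) from the Taylor-Wiles condition. -/
theorem S38_of_tw
    (hTW : ∀ (p : ℕ) [Fact p.Prime], p ≠ 2 → ∀ (W : WeierstrassCurve ℤ) (hΔ : W.Δ ≠ 0),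
      W.IsSemistableModel → W.ModRepIsIrreducible p → H69C.TWCond W hΔ p)
    (p : ℕ) [Fact p.Prime] (hp2 : p ≠ 2) (W : WeierstrassCurve ℤ) (hΔ : W.Δ ≠ 0)
    (hW : W.IsSemistableModel)
    (hcard₁ : Nat.card (Submodule.torsionBy ℤ
      ((W.map (Int.castRingHom ℚ))⁄(AlgebraicClosure ℚ)).Point p) = p ^ 2)
    (hker : GaloisFactorsThroughFiniteLevel
      (WeierstrassCurve.Affine.Point.galoisRepModuleEnd (K := AlgebraicClosure ℚ) ℚ
        (W.map (Int.castRingHom ℚ)) p))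
    (hirr : W.ModRepIsIrreducible p) (M q : ℕ) (hq : q.Prime) (hqp : q ≠ p)
    (hqM : q ∣ M) (hq2 : ¬ q ^ 2 ∣ M) (hM : Squarefree M)
    (hunr : ((W.map (Int.castRingHom ℚ)).residualGaloisRepOf p hcard₁ hker).IsUnramifiedAt q)
    (hres : W.IsResiduallyModularOfLevel p M) :
    W.IsResiduallyModularOfLevel p (M / q) :=
  S38_of_noLL (fun p _ hp2 W hΔ hss hirr => noLL_of_tw hp2 (hTW p hp2 W hΔ hss hirr) hss hirr)
    p hp2 W hΔ hW hcard₁ hker hirr M q hq hqp hqM hq2 hM hunr hres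

end Fermat.Agent.H2C
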