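import Fermat.Agent.H44ENode
import Fermat.Agent.H44EDisc
import Fermat.Agent.H13EC8

/-!
# The `p`-torsion in the kernel of reduction, multiplicative reduction at `p`
-/

set_option autoImplicit false
set_option linter.unusedSectionVars false

open Polynomial WeierstrassCurve WeierstrassCurve.Affine IsLocalRing

namespace Fermat.Agent.H44E

open Fermat.Agent.H72 Fermat.Agent.H13

section zc

variable {L : Type*} [Field L] [DecidableEq L]

/-- `x / y` -/
def zc {EL : Affine L} (P : EL.Point) : L :=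
  match P with
  | .zero => 0
  | .some x y _ => x / y

variable {A : ValuationSubring L} {W : WeierstrassCurve A} {EL : Affine L}

theorem v_zc_sq (hL : W.map A.subtype = EL) {P : EL.Point} (hP0 : P ≠ 0) (nP : xN P ≠ 0)
    (hP : A.valuation (wc P) < 1) :
    A.valuation (zc P) ^ 2 = A.valuation (wc P) := by
  rcases P with _ | ⟨x, y, h⟩
  · exact absurd rfl hP0
  set v := A.valuation with hv
  have ha : v EL.a₁ ≤ 1 ∧ v EL.a₂ ≤ 1 ∧ v EL.a₃ ≤ 1 ∧ v EL.a₄ ≤ 1 ∧ v EL.a₆ ≤ 1 := by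
    subst hL
    rw [map_a₁, map_a₂, map_a₃, map_a₄, map_a₆]
    exact ⟨A.valuation_le_one _, A.valuation_le_one _, A.valuation_le_one _,
      A.valuation_le_one _, A.valuation_le_one _⟩
  obtain ⟨ha₁, ha₂, ha₃, ha₄, ha₆⟩ := ha
  rw [xN_some] at nP
  rw [wc, xD_some, xN_some, one_div, map_inv₀] at hP ⊢
  have hx1 : 1 < v x := by
    have h0 : 0 < v x := zero_lt_iff.mpr ((Valuation.ne_zero_iff _).mpr nP)
    exact (inv_lt_one₀ h0).mp hP
  have hx0 : v x ≠ 0 := (Valuation.ne_zero_iff _).mpr nP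
  have hxpos : 0 < v x := zero_lt_iff.mpr hx0
  have heq := (equation_iff ..).mp h.1
  -- right hand side
  have hx2 : v x ^ 2 < v x ^ 3 := by
    calc v x ^ 2 = v x ^ 2 * 1 := (mul_one _).symm
      _ < v x ^ 2 * v x := mul_lt_mul_of_pos_left hx1 (pow_pos hxpos 2)
      _ = v x ^ 3 := (pow_succ _ _).symm
  have hx12 : v x ≤ v x ^ 2 := by
    rw [pow_two]; exact le_mul_of_one_le_left' hx1.le
  have h1x2 : 1 ≤ v x ^ 2 := one_le_pow₀ hx1.le
  have hr : v (EL.a₂ * x ^ 2 + EL.a₄ * x + EL.a₆) < v (x ^ 3) := by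
    rw [map_pow]
    refine lt_of_le_of_lt ?_ hx2
    refine (Valuation.map_add _ _ _).trans (max_le ((Valuation.map_add _ _ _).trans
      (max_le ?_ ?_)) (ha₆.trans h1x2))
    · rw [map_mul, map_pow]; exact mul_le_of_le_one_left' ha₂
    · rw [map_mul]; exact (mul_le_of_le_one_left' ha₄).trans hx12
  have hR : v (x ^ 3 + EL.a₂ * x ^ 2 + EL.a₄ * x + EL.a₆) = v x ^ 3 := by
    have : x ^ 3 + EL.a₂ * x ^ 2 + EL.a₄ * x + EL.a₆ =
      x ^ 3 + (EL.a₂ * x ^ 2 + EL.a₄ * x + EL.a₆) := by ring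
    rw [this, Valuation.map_add_eq_of_lt_left _ hr, map_pow]
  have hb : v (EL.a₁ * x + EL.a₃) ≤ v x := by
    refine (Valuation.map_add _ _ _).trans (max_le ?_ (ha₃.trans hx1.le))
    rw [map_mul]; exact mul_le_of_le_one_left' ha₁
  have hy : v x < v y := by
    by_contra hcon
    rw [not_lt] at hcon
    have h3 : v (y * (y + (EL.a₁ * x + EL.a₃))) ≤ v x ^ 2 := by
      rw [map_mul, pow_two]
      exact mul_le_mul' hcon ((Valuation.map_add _ _ _).trans (max_le hcon hb))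
    have h4 : y * (y + (EL.a₁ * x + EL.a₃)) = x ^ 3 + EL.a₂ * x ^ 2 + EL.a₄ * x + EL.a₆ := by
      rw [← heq]; ring
    rw [h4, hR] at h3
    exact absurd hx2 (not_lt.mpr h3)
  have hy2 : v y ^ 2 = v x ^ 3 := by
    rw [← hR, ← heq]
    have : y ^ 2 + EL.a₁ * x * y + EL.a₃ * y = y * (y + (EL.a₁ * x + EL.a₃)) := by ring
    rw [this, map_mul, Valuation.map_add_eq_of_lt_left _ (hb.trans_lt hy), pow_two]
  have hyne : v y ≠ 0 := (lt_trans hxpos hy).ne'
  show v (x / y) ^ 2 = (v x)⁻¹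
  rw [map_div₀, div_pow, hy2]
  field_simp

end zc

section V1

local notation "Qb" => AlgebraicClosure ℚ
local notation "GQ" => (AlgebraicClosure ℚ ≃ₐ[ℚ] AlgebraicClosure ℚ)

/-- Points of the generic fibre over `ℚ̄`. -/
abbrev PtQ (W : WeierstrassCurve ℤ) : Type :=
  ((W.map (Int.castRingHom ℚ))⁄(AlgebraicClosure ℚ)).Point

variable (W : WeierstrassCurve ℤ) (p : ℕ) (A : ValuationSubring Qb)

theorem hLQ : (W.map (Int.castRingHom A)).map A.subtype =
    ((W.map (Int.castRingHom ℚ))⁄(AlgebraicClosure ℚ)) := H59.model_map rfl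

/-- `P` reduces to zero. -/
def Red0 (P : PtQ W) : Prop := H59.Reduces A (residue A) P
  (0 : ((W.map (Int.castRingHom A)).map (residue A)).toAffine.Point)

/-- The `p`-torsion points reducing to zero. -/
noncomputable def V1 : AddSubgroup (PtQ W) where
  carrier := {P | p • P = 0 ∧ Red0 W A P}
  add_mem' := by
    classical
    intro P Q hP hQ
    exact ⟨by rw [nsmul_add, hP.1, hQ.1, add_zero],
      (H59.E1 (ρ := residue A) (hLQ W A) (rfl : (W.map (Int.castRingHom A)).map (residue A) = _)).add_mem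
        hP.2 hQ.2⟩
  zero_mem' := ⟨smul_zero _, trivial⟩
  neg_mem' := by
    classical
    intro P hP
    exact ⟨by rw [neg_nsmul, hP.1, neg_zero],
      (H59.E1 (ρ := residue A) (hLQ W A) (rfl : (W.map (Int.castRingHom A)).map (residue A) = _)).neg_mem
        hP.2⟩

variable {W p A}

theorem mem_V1 {P : PtQ W} : P ∈ V1 W p A ↔ p • P = 0 ∧ Red0 W A P := Iff.rfl

theorem mem_V1_some {x y : Qb} {h} : (Point.some x y h : PtQ W) ∈ V1 W p A ↔
    p • (Point.some x y h : PtQ W) = 0 ∧ x ∉ A := mem_V1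

theorem wc_lt_of_mem_V1 {P : PtQ W} (hP0 : P ≠ 0) (hP : P ∈ V1 W p A) :
    xN P ≠ 0 ∧ A.valuation (wc P) < 1 := by
  rcases P with _ | ⟨x, y, h⟩
  · exact absurd rfl hP0
  have hx := (mem_V1_some.mp hP).2
  rw [← A.valuation_le_one_iff, not_le] at hx
  have hx0 : x ≠ 0 := by
    rintro rfl
    rw [_root_.map_zero] at hx
    exact not_lt_zero hx
  rw [xN_some]
  refine ⟨hx0, ?_⟩
  rw [wc, xD_some, xN_some, one_div, map_inv₀]
  exact (inv_lt_one₀ (zero_lt_iff.mpr ((Valuation.ne_zero_iff _).mpr hx0))).mpr hx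

theorem smul_some' (σ : GQ) {x y : Qb} (h : ((W.map (Int.castRingHom ℚ))⁄Qb).Nonsingular x y) :
    ∃ h', σ • (Point.some x y h : PtQ W) = Point.some (σ x) (σ y) h' := ⟨_, rfl⟩

theorem smul_mem_V1 {σ : GQ} (hσ : σ ∈ A.inertiaSubgroupIn ℚ) {P : PtQ W} (hP : P ∈ V1 W p A) :
    σ • P ∈ V1 W p A := by
  rcases P with _ | ⟨x, y, h⟩
  · exact zero_mem (V1 W p A)
  · obtain ⟨h1, h2⟩ := mem_V1_some.mp hP
    obtain ⟨h', hs⟩ := smul_some' σ h
    rw [hs, mem_V1_some]
    refine ⟨?_, ?_⟩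
    · rw [← hs, smul_comm, h1]; rfl
    · intro h3
      exact h2 ((H73.mem_iff_of_decomposition (mem_decomposition_of_mem_inertia hσ)).mp h3)

variable {x₀ y₀ α β g : A}

theorem near_of_not_mem (hp : p.Prime) (hA : A.LiesOverPrime p)
    (hN : GoodNode (W.map (Int.castRingHom A)) x₀ y₀ α β g) {P : PtQ W} (hpP : p • P = 0)
    (hP : P ∉ V1 W p A) : Near A x₀ P := by
  by_contra hcon
  refine hP ⟨hpP, ?_⟩
  refine reduces_zero_of_pow_nsmul hN (hLQ W A) hp (H59.natCast_residue_eq_zero hA) hcon (m := 1) ?_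
  rw [pow_one, hpP]
  trivial

theorem not_mem_of_near (hN : GoodNode (W.map (Int.castRingHom A)) x₀ y₀ α β g) {P : PtQ W}
    (hP : Near A x₀ P) : P ∉ V1 W p A := fun h =>
  not_near_of_reduces hN rfl h.2 hP

theorem smul_sub_mem_V1 (hp : p.Prime) (hA : A.LiesOverPrime p)
    (hN : GoodNode (W.map (Int.castRingHom A)) x₀ y₀ α β g) {σ : GQ}
    (hσ : σ ∈ A.inertiaSubgroupIn ℚ) {P : PtQ W} (hpP : p • P = 0) : σ • P - P ∈ V1 W p A := by
  have := H73.isAlgebraic_Qbar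
  by_contra hcon
  have h0 : p • (σ • P - P) = 0 := by
    rw [nsmul_sub, smul_comm _ σ P, hpP, sub_zero]
    rfl
  exact smul_sub_not_near hN rfl hσ P (near_of_not_mem hp hA hN h0 hcon)

theorem natCard_V1 (hp : p.Prime) (hA : A.LiesOverPrime p) (hΔ : W.Δ ≠ 0)
    (hN : GoodNode (W.map (Int.castRingHom A)) x₀ y₀ α β g) : Nat.card (V1 W p A) = p := by
  have hpk := H59.natCast_residue_eq_zero hA
  have hcardT : Nat.card (Submodule.torsionBy ℤ (PtQ W) (p : ℤ)) = p ^ 2 :=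
    H87.EC.natCard_torsionBy_rat _ (H87.EC.map_int_Δ_ne_zero hΔ) hp.ne_zero
  obtain ⟨T, hT⟩ : ∃ T, T = (Submodule.torsionBy ℤ (PtQ W) (p : ℤ)).toAddSubgroup := ⟨_, rfl⟩
  have hTmem : ∀ P : PtQ W, P ∈ T ↔ p • P = 0 := by
    intro P
    rw [hT]
    show P ∈ Submodule.torsionBy ℤ (PtQ W) (p : ℤ) ↔ _
    rw [Submodule.mem_torsionBy_iff, ← natCast_zsmul]
  have hcardT' : Nat.card T = p ^ 2 := by rw [hT]; exact hcardT
  have hTfin : Finite T := Nat.finite_of_card_ne_zero (by rw [hcardT']; exact pow_ne_zero _ hp.ne_zero)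
  have hle : V1 W p A ≤ T := fun P hP => (hTmem P).mpr hP.1
  have hdvd := AddSubgroup.card_dvd_of_le hle
  rw [hcardT', Nat.dvd_prime_pow hp] at hdvd
  obtain ⟨k, hk, hcard⟩ := hdvd
  have hfin : Finite (V1 W p A) := Finite.of_injective _ (AddSubgroup.inclusion_injective hle)
  have hk0 : k ≠ 0 := by
    rintro rfl
    rw [pow_zero] at hcard
    obtain ⟨P, hP, hP0, hpP⟩ := exists_ne_zero_reduces_zero (E := W.map (Int.castRingHom ℚ)) hN rfl
      hp hpk hcardT
    have h1 : P ∈ V1 W p A := ⟨hpP, hP⟩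
    rw [AddSubgroup.card_eq_one] at hcard
    rw [hcard, AddSubgroup.mem_bot] at h1
    exact hP0 h1
  have hk2 : k ≠ 2 := by
    rintro rfl
    have h1 : V1 W p A = T := AddSubgroup.eq_of_le_of_card_ge hle (by rw [hcardT', hcard])
    obtain ⟨P, hpP, hPn⟩ := exists_near_of_char hN (hLQ W A) hp hpk
    have h2 : P ∈ V1 W p A := by rw [h1]; exact (hTmem P).mpr hpP
    exact not_mem_of_near hN hPn h2
  have hk1 : k = 1 := by omega
  rw [hcard, hk1, pow_one]

theorem exists_nsmul_of_mem_V1 (hp : p.Prime) (hA : A.LiesOverPrime p) (hΔ : W.Δ ≠ 0)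
    (hN : GoodNode (W.map (Int.castRingHom A)) x₀ y₀ α β g) {Q T : PtQ W} (hQ0 : Q ≠ 0)
    (hQ : Q ∈ V1 W p A) (hT : T ∈ V1 W p A) : ∃ n < p, T = n • Q := by
  have := Fact.mk hp
  have hcard := natCard_V1 hp hA hΔ hN
  have hQ' : (⟨Q, hQ⟩ : V1 W p A) ≠ 0 := fun h => hQ0 (congrArg Subtype.val h)
  have h1 : (⟨T, hT⟩ : V1 W p A) ∈ AddSubgroup.zmultiples (⟨Q, hQ⟩ : V1 W p A) :=
    mem_zmultiples_of_prime_card hcard hQ'
  obtain ⟨k, hk⟩ := AddSubgroup.mem_zmultiples_iff.mp h1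
  have hk' : k • Q = T := congrArg Subtype.val hk
  have hp0 : (p : ℤ) ≠ 0 := by exact_mod_cast hp.ne_zero
  refine ⟨(k % p).toNat, ?_, ?_⟩
  · have h2 := Int.emod_lt_of_pos k (by exact_mod_cast hp.pos : (0 : ℤ) < p)
    have h3 := Int.emod_nonneg k hp0
    omega
  · have h3 := Int.emod_nonneg k hp0
    rw [← natCast_zsmul, Int.toNat_of_nonneg h3, ← hk']
    conv_lhs => rw [← Int.emod_add_mul_ediv k p]
    rw [add_zsmul, mul_zsmul, natCast_zsmul, smul_comm, hQ.1, zsmul_zero, add_zero]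

theorem valuation_nat_lt (hp : p.Prime) (hA : A.LiesOverPrime p) {n : ℕ} (hn0 : 0 < n)
    (hn : n < p) : A.valuation (n : Qb) = 1 :=
  H72.val_natCast_eq_one hp hA (Nat.not_dvd_of_pos_of_lt hn0 hn)

theorem valuation_p_lt (hA : A.LiesOverPrime p) : A.valuation (p : Qb) < 1 :=
  H72.val_natCast_lt hA

theorem valuation_p_ne (hp : p.Prime) : A.valuation (p : Qb) ≠ 0 :=
  (Valuation.ne_zero_iff _).mpr (by exact_mod_cast hp.ne_zero)

theorem valuation_smul {σ : GQ} (hσ : σ ∈ A.inertiaSubgroupIn ℚ) (a : Qb) :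
    A.valuation (σ a) = A.valuation a := by
  have := H73.isAlgebraic_Qbar
  exact valuation_decomp (mem_decomposition_of_mem_inertia hσ) a

/-- Elements of absolute value `< 1` fixed by inertia are divisible by `p`. -/
theorem le_of_fixed (hp : p.Prime) (hA : A.LiesOverPrime p) {c : Qb}
    (hfix : ∀ σ ∈ A.inertiaSubgroupIn ℚ, σ c = c) (hc : A.valuation c < 1) :
    A.valuation c ≤ A.valuation (p : Qb) := by
  rcases eq_or_ne c 0 with rfl | hc0
  · rw [_root_.map_zero]; exact zero_le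
  obtain ⟨n, hn⟩ := exists_valuation_eq_zpow hp hA hc0 hfix
  have hpos : 0 < A.valuation (p : Qb) := zero_lt_iff.mpr (valuation_p_ne hp)
  have h1 := valuation_p_lt hA
  rw [hn] at hc ⊢
  have h2 : 0 < n := by
    by_contra hcon
    have h4 : (A.valuation (p : Qb)) ^ (0 : ℤ) ≤ A.valuation (p : Qb) ^ n :=
      (zpow_le_zpow_iff_right_of_lt_one₀ hpos h1).mpr (by omega)
    rw [zpow_zero] at h4
    exact absurd hc (not_lt.mpr h4)
  calc A.valuation (p : Qb) ^ n ≤ A.valuation (p : Qb) ^ (1 : ℤ) :=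
        (zpow_le_zpow_iff_right_of_lt_one₀ hpos h1).mpr (by omega)
    _ = _ := zpow_one _

theorem zc_smul (σ : GQ) (P : PtQ W) : zc (σ • P) = σ (zc P) := by
  rcases P with _ | ⟨x, y, h⟩
  · exact (_root_.map_zero σ).symm
  · exact (map_div₀ σ x y).symm

/-- **The `p`-torsion points in the kernel of reduction.** -/
theorem val_wc (hp : p.Prime) (hp2 : p ≠ 2) (hA : A.LiesOverPrime p) (hΔ : W.Δ ≠ 0)
    (hN : GoodNode (W.map (Int.castRingHom A)) x₀ y₀ α β g) {Q : PtQ W} (hQ0 : Q ≠ 0)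
    (hQ : Q ∈ V1 W p A) : A.valuation (wc Q) ^ ((p - 1) / 2) = A.valuation (p : Qb) := by
  classical
  have := H73.isAlgebraic_Qbar
  have hLE := hLQ W A
  obtain ⟨nQ, hQ1⟩ := wc_lt_of_mem_V1 hQ0 hQ
  have hunit : ∀ n : ℕ, 0 < n → n < p → A.valuation (n : Qb) = 1 := fun n h1 h2 =>
    valuation_nat_lt hp hA h1 h2
  refine le_antisymm ?_ (valuation_p_le hLE hp hp2 hunit hQ0 nQ hQ.1 hQ1)
  have hodd := hp.odd_of_ne_two hp2
  obtain ⟨r, hr⟩ := hodd
  have hpr : (p - 1) / 2 = r := by omega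
  rw [hpr]
  -- all elements have the same valuation
  have hall : ∀ T ∈ V1 W p A, T ≠ 0 → A.valuation (wc T) = A.valuation (wc Q) := by
    intro T hT hT0
    obtain ⟨n, hn, rfl⟩ := exists_nsmul_of_mem_V1 hp hA hΔ hN hQ0 hQ hT
    have hn0 : 0 < n := by
      rcases Nat.eq_zero_or_pos n with rfl | h
      · exact absurd (zero_nsmul _) hT0
      · exact h
    exact (wc_nsmul_unit hLE hQ0 nQ hQ1 (hunit n hn0 hn)).2
  have hcard := natCard_V1 hp hA hΔ hN
  have hfin : Finite (V1 W p A) := Nat.finite_of_card_ne_zero (by rw [hcard]; exact hp.ne_zero)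
  let _ : Fintype (V1 W p A) := Fintype.ofFinite _
  set S : Finset (V1 W p A) := Finset.univ.erase 0 with hS
  have hScard : S.card = 2 * r := by
    rw [hS, Finset.card_erase_of_mem (Finset.mem_univ _), Finset.card_univ, ← Nat.card_eq_fintype_card,
      hcard]
    omega
  set N : Qb := ∏ T ∈ S, zc (T : PtQ W) with hNdef
  have hSne : ∀ T ∈ S, (T : PtQ W) ≠ 0 := by
    intro T hT h0
    exact Finset.ne_of_mem_erase hT (Subtype.ext h0)
  have hvN : A.valuation N ^ 2 = A.valuation (wc Q) ^ (2 * r) := by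
    rw [hNdef, map_prod, ← Finset.prod_pow, ← hScard, ← Finset.prod_const]
    refine Finset.prod_congr rfl fun T hT => ?_
    obtain ⟨h1, h2⟩ := wc_lt_of_mem_V1 (hSne T hT) T.2
    rw [v_zc_sq hLE (hSne T hT) h1 h2, hall _ T.2 (hSne T hT)]
  have hNfix : ∀ σ ∈ A.inertiaSubgroupIn ℚ, σ N = N := by
    intro σ hσ
    rw [hNdef, map_prod]
    refine Finset.prod_bij (fun T _ => ⟨σ • (T : PtQ W), smul_mem_V1 hσ T.2⟩) ?_ ?_ ?_ ?_
    · intro T hT
      rw [hS, Finset.mem_erase]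
      refine ⟨?_, Finset.mem_univ _⟩
      intro h0
      have h1 : σ • (T : PtQ W) = 0 := congrArg Subtype.val h0
      apply hSne T hT
      have h2 : σ⁻¹ • σ • (T : PtQ W) = σ⁻¹ • (0 : PtQ W) := by rw [h1]
      rw [inv_smul_smul] at h2
      rw [h2]; rfl
    · intro T _ T' _ h
      have h1 : σ • (T : PtQ W) = σ • (T' : PtQ W) := congrArg Subtype.val h
      exact Subtype.ext (smul_left_cancel σ h1)
    · intro T hT
      have hσ' : σ⁻¹ ∈ A.inertiaSubgroupIn ℚ := inv_mem hσ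
      refine ⟨⟨σ⁻¹ • (T : PtQ W), smul_mem_V1 hσ' T.2⟩, ?_, ?_⟩
      · rw [hS, Finset.mem_erase]
        refine ⟨?_, Finset.mem_univ _⟩
        intro h0
        have h1 : σ⁻¹ • (T : PtQ W) = 0 := congrArg Subtype.val h0
        apply hSne T hT
        have h2 : σ • σ⁻¹ • (T : PtQ W) = σ • (0 : PtQ W) := by rw [h1]
        rw [smul_inv_smul] at h2
        rw [h2]; rfl
      · exact Subtype.ext (smul_inv_smul σ (T : PtQ W))
    · intro T _
      exact (zc_smul σ (T : PtQ W)).symm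
  have hr0 : 0 < r := by have := hp.two_le; omega
  have hN1 : A.valuation N < 1 := by
    by_contra hcon
    rw [not_lt] at hcon
    have h1 : 1 ≤ A.valuation N ^ 2 := one_le_pow₀ hcon
    rw [hvN] at h1
    exact absurd (pow_lt_one₀ zero_le hQ1 (by omega : 2 * r ≠ 0)) (not_lt.mpr h1)
  have hle := le_of_fixed hp hA hNfix hN1
  have h2 : (A.valuation (wc Q) ^ r) ^ 2 ≤ A.valuation (p : Qb) ^ 2 := by
    rw [← pow_mul, mul_comm, ← hvN]
    exact pow_le_pow_left₀ zero_le hle 2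
  exact (pow_le_pow_iff_left₀ zero_le zero_le two_ne_zero).mp h2

end V1

end Fermat.Agent.H44E
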