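import Fermat.Agent.H79C0
import Fermat.Agent.H73TW
import Fermat.Agent.H44EGlob
import Fermat.Agent.H33Cyclo

/-!
# S38-[TW]: the Taylor-Wiles condition for `W[p]`, `W` semistable over `ℚ`, any odd `p`

`hTW_resZ`, `hTW_of_isEquiv` are the theorems of `H73TW` with `p ≠ 2` instead of `p = 3 ∨ p = 5`.
-/

set_option autoImplicit false

noncomputable section

open scoped TensorProduct
open Polynomial

namespace Fermat.Agent.H79C

/-! ### Linear algebra -/

section Alg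

theorem det_sub_one {k V : Type*} [Field k] [AddCommGroup V] [Module k V]
    (hV : Module.finrank k V = 2) (f : Module.End k V) :
    LinearMap.det (f - 1) = 1 - LinearMap.trace k V f + LinearMap.det f := by
  have : Module.Finite k V := Module.finite_of_finrank_eq_succ hV
  let b := Module.finBasisOfFinrankEq k V hV
  rw [← LinearMap.det_toMatrix b, ← LinearMap.det_toMatrix b, LinearMap.trace_eq_matrix_trace k b,
    map_sub, LinearMap.toMatrix_one, Matrix.det_fin_two, Matrix.det_fin_two,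
    Matrix.trace_fin_two]
  simp only [Matrix.sub_apply, Matrix.one_apply_eq, ne_eq, Fin.isValue, zero_ne_one,
    not_false_eq_true, Matrix.one_apply_ne, one_ne_zero]
  ring

theorem det_sub_one_eq_zero {k V : Type*} [Field k] [AddCommGroup V] [Module k V]
    [Module.Finite k V] (f : Module.End k V) (S : AddSubgroup V) (hS : ∀ v, f v - v ∈ S) {v₀ : V}
    (hv₀ : v₀ ∉ S) : LinearMap.det (f - 1) = 0 := by
  by_contra hne
  apply hv₀
  have h1 : IsUnit (f - 1) :=
    (LinearMap.isUnit_iff_isUnit_det _).mpr (isUnit_iff_ne_zero.mpr hne)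
  obtain ⟨w, hw⟩ := ((Module.End.isUnit_iff _).mp h1).2 v₀
  rw [← hw]
  exact hS w

theorem eq_or_eq_neg_of_forall {k V : Type*} [Field k] [AddCommGroup V] [Module k V]
    (f g : Module.End k V) (h : ∀ v, f v = g v ∨ f v = -g v) : f = g ∨ f = -g := by
  by_contra hcon
  push Not at hcon
  obtain ⟨v, hv⟩ : ∃ v, f v ≠ g v := by
    by_contra hv
    push Not at hv
    exact hcon.1 (LinearMap.ext hv)
  obtain ⟨w, hw⟩ : ∃ w, f w ≠ -g w := by
    by_contra hw
    push Not at hw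
    exact hcon.2 (LinearMap.ext hw)
  have hv' := (h v).resolve_left hv
  have hw' := (h w).resolve_right hw
  rcases h (v + w) with h1 | h1
  · rw [map_add, map_add, hw', add_left_inj] at h1
    exact hv h1
  · rw [map_add, map_add, hv', neg_add, add_right_inj] at h1
    exact hw h1

variable {p : ℕ} [hp : Fact p.Prime] {V Γ : Type*} [AddCommGroup V] [Module (ZMod p) V] [Group Γ]

open H73.TW

/-- elements outside `G` have scalar square -/
theorem pow_eq_one_of_isDih {K : Type*} [Field K] [Algebra (ZMod p) K]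
    {ρ : Γ →* Module.End (ZMod p) V} {G : Subgroup Γ}
    {b : Module.Basis (Fin 2) K (K ⊗[ZMod p] V)} (hb : IsDih ρ G b)
    (hV : Module.finrank (ZMod p) V = 2) (h2 : (2 : ZMod p) ≠ 0) {g : Γ} (hg : g ∉ G) :
    ρ g ^ (2 * (p - 1)) = 1 := by
  have hfin : Module.Finite (ZMod p) V := Module.finite_of_finrank_eq_succ hV
  obtain ⟨x, y, h0, h1⟩ := hb.2 g hg
  have hsq : (ρ g * ρ g).baseChange K = (x * y) • (1 : Module.End K (K ⊗[ZMod p] V)) := by
    refine b.ext fun i => ?_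
    rw [LinearMap.baseChange_mul, Module.End.mul_apply, LinearMap.smul_apply, Module.End.one_apply]
    fin_cases i
    · simp only [Fin.zero_eta, Fin.isValue]
      rw [h0, map_smul, h1, smul_smul]
    · simp only [Fin.mk_one, Fin.isValue]
      rw [h1, map_smul, h0, smul_smul, mul_comm]
  set t := LinearMap.trace (ZMod p) V (ρ g * ρ g) with ht
  have htr : algebraMap (ZMod p) K t = 2 * (x * y) := by
    rw [ht, ← LinearMap.trace_baseChange, hsq, map_smul, LinearMap.trace_one,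
      Module.finrank_baseChange, hV, smul_eq_mul]
    push_cast
    ring
  have h3 : ρ g * ρ g = (t / 2) • (1 : Module.End (ZMod p) V) := by
    apply baseChange_inj (K := K)
    have h2' : (2 : K) ≠ 0 := by
      have := (map_ne_zero (algebraMap (ZMod p) K)).mpr h2
      rwa [map_ofNat] at this
    rw [hsq, LinearMap.baseChange_smul, LinearMap.baseChange_one, ← algebraMap_smul K (t / 2),
      map_div₀, htr, map_ofNat, mul_div_cancel_left₀ _ h2']
  have hinv : ρ g⁻¹ * ρ g = 1 := by rw [← map_mul, inv_mul_cancel, map_one]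
  have hnt : Nontrivial V := Module.nontrivial_of_finrank_pos (R := ZMod p) (by rw [hV]; norm_num)
  have ht0 : t / 2 ≠ 0 := by
    intro h4
    rw [h4, zero_smul] at h3
    have h5 : (1 : Module.End (ZMod p) V) = 0 := by
      calc (1 : Module.End (ZMod p) V) = ρ g⁻¹ * (ρ g⁻¹ * ρ g) * ρ g := by
            rw [hinv, mul_one, hinv]
        _ = ρ g⁻¹ * ρ g⁻¹ * (ρ g * ρ g) := by noncomm_ring
        _ = 0 := by rw [h3, mul_zero]
    exact one_ne_zero h5
  rw [pow_mul, sq, h3, _root_.smul_pow, one_pow, ZMod.pow_card_sub_one_eq_one ht0, one_smul]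

/-- a non-square different from `-1` -/
theorem exists_nonsquare_ne (hp5 : 5 ≤ p) :
    ∃ a : (ZMod p)ˣ, ¬ IsSquare (a : ZMod p) ∧ (a : ZMod p) ≠ -1 := by
  have hp2 : p ≠ 2 := by omega
  have h2 : (2 : ZMod p) ≠ 0 := by
    have h : ¬ ((2 : ℕ) : ZMod p) = 0 := by
      rw [ZMod.natCast_eq_zero_iff]
      intro h
      have := Nat.le_of_dvd (by norm_num) h
      omega
    exact_mod_cast h
  have h3 : (3 : ZMod p) ≠ 0 := by
    have h : ¬ ((3 : ℕ) : ZMod p) = 0 := by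
      rw [ZMod.natCast_eq_zero_iff]
      intro h
      have := Nat.le_of_dvd (by norm_num) h
      omega
    exact_mod_cast h
  obtain ⟨n, hn⟩ := FiniteField.exists_nonsquare (F := ZMod p) (by rwa [ZMod.ringChar_zmod_n])
  have hn0 : n ≠ 0 := by
    rintro rfl
    exact hn ⟨0, by simp⟩
  by_cases h1 : n = -1
  · have hm0 : (-4 : ZMod p) ≠ 0 := by
      have : (-4 : ZMod p) = -(2 * 2) := by norm_num
      rw [this]
      exact neg_ne_zero.mpr (mul_ne_zero h2 h2)
    refine ⟨Units.mk0 (-4) hm0, ?_, ?_⟩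
    · rintro ⟨r, hr⟩
      rw [Units.val_mk0] at hr
      apply hn
      refine ⟨r / 2, ?_⟩
      rw [h1]
      field_simp
      linear_combination hr
    · rw [Units.val_mk0]
      intro h4
      apply h3
      linear_combination -h4
  · exact ⟨Units.mk0 n hn0, hn, h1⟩

/-- **the Taylor-Wiles condition, abstract form, `p ≥ 5`** -/
theorem core5 {K : Type*} [Field K] [Algebra (ZMod p) K] (hp5 : 5 ≤ p)
    (hV : Module.finrank (ZMod p) V = 2) (ρ : Γ →* Module.End (ZMod p) V)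
    (hirr : ∀ W : Submodule (ZMod p) V, (∀ σ, ∀ x ∈ W, ρ σ x ∈ W) → W = ⊥ ∨ W = ⊤)
    (c : Γ) (hc : ρ c * ρ c = 1) (hdet : LinearMap.det (ρ c) = -1)
    (S : Set Γ) (hS : ∀ σ ∈ S, IsNilpotent (ρ σ - 1))
    (huniq : ∀ G₁ G₂ : Subgroup Γ, G₁.index = 2 → G₂.index = 2 →
      (∀ σ, ρ σ = 1 → σ ∈ G₁) → (∀ σ, ρ σ = 1 → σ ∈ G₂) → S ⊆ G₁ → S ⊆ G₂ → G₁ = G₂)
    (I : Subgroup Γ) (hI : ∀ a : (ZMod p)ˣ, ∃ σ ∈ I, LinearMap.det (ρ σ) = a)
    (halt : (∀ σ ∈ I, LinearMap.det (ρ σ - 1) = 0) ∨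
      ∃ σ ∈ I, ρ σ ^ (2 * (p - 1)) ≠ 1 ∧ ∀ τ ∈ I, ∃ k : ℕ, ρ τ = ρ σ ^ k ∨ ρ τ = -ρ σ ^ k)
    (G : Subgroup Γ) (hG : G.index = 2) (L : Submodule K (K ⊗[ZMod p] V))
    (hL : ∀ σ ∈ G, ∀ x ∈ L, (ρ σ).baseChange K x ∈ L) : L = ⊥ ∨ L = ⊤ := by
  have h2 : (2 : ZMod p) ≠ 0 := by
    have h : ¬ ((2 : ℕ) : ZMod p) = 0 := by
      rw [ZMod.natCast_eq_zero_iff]
      intro h
      have := Nat.le_of_dvd (by norm_num) h
      omega
    exact_mod_cast h
  by_contra hcon
  push Not at hcon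
  obtain ⟨B, hB⟩ := exists_dih ρ (K := K) hV hG (fun W hW =>
    H87.AbsIrr.stable_baseChange h2 hV ρ hirr c hc hdet W hW) L hL hcon.1 hcon.2
  have hfin : Module.Finite (ZMod p) V := Module.finite_of_finrank_eq_succ hV
  have hkerG : ∀ σ, ρ σ = 1 → σ ∈ G := fun σ hσ =>
    (hB.eq_one_of_isNilpotent hV h2 (by rw [hσ, sub_self]; exact IsNilpotent.zero)).1
  have hS1 : ∀ σ ∈ S, ρ σ = 1 := fun σ hσ => (hB.eq_one_of_isNilpotent hV h2 (hS σ hσ)).2
  obtain ⟨a, hasq, ha1⟩ := exists_nonsquare_ne hp5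
  obtain ⟨τ, hτI, hτ⟩ := hI a
  have hτq : qdet ρ τ ≠ 1 := by
    intro h
    have h1 := congrArg Units.val h
    rw [qdet_apply, hτ] at h1
    exact hasq ((quadraticChar_one_iff_isSquare a.ne_zero).mp h1)
  have hGq : (qdet ρ).ker = G := by
    have hk : ∀ σ, ρ σ = 1 → σ ∈ (qdet ρ).ker := by
      intro σ hσ
      rw [MonoidHom.mem_ker]
      ext
      rw [qdet_apply, hσ, map_one, map_one, Units.val_one]
    exact huniq _ G (index_ker_qdet ρ hτq) hG hk hkerG (fun σ hσ => hk σ (hS1 σ hσ))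
      (fun σ hσ => hkerG σ (hS1 σ hσ))
  have hτG : τ ∉ G := by
    rw [← hGq, MonoidHom.mem_ker]
    exact hτq
  rcases halt with halt | ⟨σ, hσI, hσ, hgen⟩
  · have h3 := halt τ hτI
    rw [det_sub_one hV, hB.trace_eq_zero hτG, hτ] at h3
    apply ha1
    linear_combination h3
  · have hσG : σ ∈ G := by
      by_contra hσG
      exact hσ (pow_eq_one_of_isDih hB hV h2 hσG)
    obtain ⟨k, hk⟩ := hgen τ hτI
    have hkG : σ ^ k ∈ G := G.pow_mem hσG k
    have h3 : τ * (σ ^ k)⁻¹ ∉ G := fun h4 => hτG (by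
      have := G.mul_mem h4 hkG
      rwa [inv_mul_cancel_right] at this)
    have h4 := hB.trace_eq_zero h3
    have h5 : ρ (σ ^ k) * ρ (σ ^ k)⁻¹ = 1 := by rw [← map_mul, mul_inv_cancel, map_one]
    rw [← map_pow] at hk
    rw [map_mul] at h4
    rcases hk with hk | hk
    · rw [hk, h5, LinearMap.trace_one, hV] at h4
      exact h2 (by exact_mod_cast h4)
    · rw [hk, neg_mul, h5, map_neg, LinearMap.trace_one, hV, neg_eq_zero] at h4
      exact h2 (by exact_mod_cast h4)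

end Alg

/-! ### The two cases at `p` -/

section Geom

open WeierstrassCurve WeierstrassCurve.Affine WeierstrassCurve.Affine.Point IsLocalRing
open H64 H87.Glue H87.Tate H44E

set_option linter.unusedSectionVars false

variable (W : WeierstrassCurve ℤ) (hΔ : W.Δ ≠ 0) {p : ℕ} [hp : Fact p.Prime]

/-- the inclusion of the `p`-torsion in the group of points -/
def jj : (resZ W hΔ p).V →+ PtQ W :=
  (Submodule.torsionBy ℤ (PtQ W) (p : ℤ)).subtype.toAddMonoidHom

theorem jj_rho (σ : FGQ) (x : (resZ W hΔ p).V) :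
    jj W hΔ ((resZ W hΔ p).ρ σ x) = σ • jj W hΔ x := rfl

theorem jj_injective : Function.Injective (jj W hΔ (p := p)) :=
  (Submodule.torsionBy ℤ (PtQ W) (p : ℤ)).injective_subtype

theorem nsmul_jj (x : (resZ W hΔ p).V) : p • jj W hΔ x = 0 := by
  have h := (Submodule.mem_torsionBy_iff _ _).mp
    (show jj W hΔ x ∈ Submodule.torsionBy ℤ (PtQ W) (p : ℤ) from x.2)
  rw [← natCast_zsmul]
  exact h

theorem exists_jj {P : PtQ W} (hP : p • P = 0) : ∃ x : (resZ W hΔ p).V, jj W hΔ x = P :=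
  ⟨(⟨P, (Submodule.mem_torsionBy_iff _ _).mpr (by rw [natCast_zsmul]; exact hP)⟩ :
    Submodule.torsionBy ℤ (PtQ W) (p : ℤ)), rfl⟩

theorem map_eq : ((W.map (Int.castRingHom ℚ))⁄(AlgebraicClosure ℚ)) =
    W.map (Int.castRingHom (AlgebraicClosure ℚ)) := by
  change (W.map (Int.castRingHom ℚ)).map (algebraMap ℚ _) = _
  rw [WeierstrassCurve.map_map]
  congr 1

/-- the ordinary case -/
theorem det_of_V1 (h : ∀ σ ∈ Ip p, ∀ P : PtQ W, p • P = 0 → σ • P - P ∈ V1 W p (padicPlace p))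
    {P₀ : PtQ W} (hP₀ : p • P₀ = 0) (hP₀' : P₀ ∉ V1 W p (padicPlace p)) {σ : FGQ} (hσ : σ ∈ Ip p) :
    LinearMap.det ((resZ W hΔ p).ρ σ - 1) = 0 := by
  obtain ⟨x₀, rfl⟩ := exists_jj W hΔ hP₀
  refine det_sub_one_eq_zero _ ((V1 W p (padicPlace p)).comap (jj W hΔ)) (fun v => ?_) (v₀ := x₀)
    hP₀'
  rw [AddSubgroup.mem_comap, map_sub]
  exact h σ hσ _ (nsmul_jj W hΔ v)

include hΔ in
/-- `x`-coordinates of `p`-torsion points -/
theorem exists_point (hodd : ¬ Even p) {x : FQb} (hx : aeval x (W.preΨ' p) = 0) :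
    ∃ y, ∃ h : ((W.map (Int.castRingHom ℚ))⁄(AlgebraicClosure ℚ)).Nonsingular x y,
      p • (Point.some x y h : PtQ W) = 0 := by
  have hΔQ : ((W.map (Int.castRingHom ℚ))⁄(AlgebraicClosure ℚ)).Δ ≠ 0 := by
    rw [map_eq, map_Δ]
    exact (map_ne_zero_iff _ (RingHom.injective_int _)).mpr hΔ
  obtain ⟨y, hy⟩ := H87.exists_equation
    (W := ((W.map (Int.castRingHom ℚ))⁄(AlgebraicClosure ℚ))) x
  have hns := (equation_iff_nonsingular_of_Δ_ne_zero hΔQ).mp hy
  refine ⟨y, hns, (H87.nsmul_eq_zero_iff p hns).mpr ?_⟩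
  rw [ΨSq_ofNat, if_neg hodd, mul_one, eval_pow, map_eq, map_preΨ', eval_map,
    pow_eq_zero_iff two_ne_zero]
  exact hx

theorem root_of_point (hodd : ¬ Even p) {x y : FQb}
    (h : ((W.map (Int.castRingHom ℚ))⁄(AlgebraicClosure ℚ)).Nonsingular x y)
    (hP : p • (Point.some x y h : PtQ W) = 0) : aeval x (W.preΨ' p) = 0 := by
  have h2 := (H87.nsmul_eq_zero_iff p h).mp hP
  rw [ΨSq_ofNat, if_neg hodd, mul_one, eval_pow, map_eq, map_preΨ', eval_map,
    pow_eq_zero_iff two_ne_zero] at h2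
  exact h2

include hΔ in
/-- the supersingular case -/
theorem ssPoly (hp2 : p ≠ 2) (hgood : ¬ (p : ℤ) ∣ W.Δ)
    (hss : ∀ P : PtQ W, p • P = 0 → P ≠ 0 → P ∈ V1 W p (padicPlace p)) :
    ∃ e : ℕ, 2 * (e + 1) = p ^ 2 - 1 ∧ SSPoly p (W.preΨ' p) e := by
  have hodd : ¬ Even p := by
    rw [Nat.not_even_iff_odd]
    exact hp.out.odd_of_ne_two hp2
  obtain ⟨r, hr⟩ := hp.out.odd_of_ne_two hp2
  have hr0 : 0 < r := by
    rcases Nat.eq_zero_or_pos r with rfl | h
    · have := hp.out.one_lt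
      omega
    · exact h
  have hN : p ^ 2 - 1 = 2 * (2 * r * (r + 1)) := by
    rw [hr]
    have : (2 * r + 1) ^ 2 = 2 * (2 * r * (r + 1)) + 1 := by ring
    rw [this, Nat.add_sub_cancel]
  obtain ⟨e, he⟩ : ∃ e, 2 * r * (r + 1) = e + 1 := by
    have : 0 < 2 * r * (r + 1) := by positivity
    exact ⟨2 * r * (r + 1) - 1, by omega⟩
  have hN' : (p ^ 2 - 1) / 2 = e + 1 := by omega
  have hdeg : (W.preΨ' p).natDegree ≤ e + 1 := by
    have := W.natDegree_preΨ'_le p
    rwa [if_neg hodd, hN'] at this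
  have hlead : (W.preΨ' p).coeff (e + 1) = p := by
    have := W.coeff_preΨ' p
    rwa [if_neg hodd, if_neg hodd, hN'] at this
  have hne : W.preΨ' p ≠ 0 := by
    intro h0
    rw [h0, coeff_zero] at hlead
    exact hp.out.ne_zero (by exact_mod_cast hlead.symm)
  have hroots : ∀ x : FQb, aeval x (W.preΨ' p) = 0 → 1 < nm p x := by
    intro x hx
    obtain ⟨y, hns, h0⟩ := exists_point W hΔ hodd hx
    have h1 := hss _ h0 (by simp)
    have h2 := (mem_V1_some.mp h1).2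
    rw [mem_padicPlace_iff_nm, not_le] at h2
    exact h2
  obtain ⟨h1, h2⟩ := coeff_of_roots hne hroots
  refine ⟨e, by omega, hdeg, hlead, h1, h2 ?_, ?_, hroots⟩
  · by_contra hcon
    push Not at hcon
    have h3 : (W.map (Int.castRingHom (ZMod p))).preΨ' p = 0 := by
      rw [map_preΨ']
      ext i
      rw [coeff_map, coeff_zero, eq_intCast, ZMod.intCast_zmod_eq_zero_iff_dvd]
      exact hcon i
    have hΔp : (W.map (Int.castRingHom (ZMod p))).Δ ≠ 0 := by
      rw [map_Δ, eq_intCast, Ne, ZMod.intCast_zmod_eq_zero_iff_dvd]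
      exact hgood
    have h4 := H87.isCoprime_Φ_ΨSq (W := (W.map (Int.castRingHom (ZMod p))).toAffine) hΔp p
    rw [ΨSq_ofNat, h3, if_neg hodd, mul_one, zero_pow two_ne_zero, isCoprime_zero_right] at h4
    have h5 := natDegree_eq_zero_of_isUnit h4
    have h6 := natDegree_Φ (W.map (Int.castRingHom (ZMod p))) (p : ℤ)
    rw [Int.natAbs_natCast] at h6
    rw [h6] at h5
    exact pow_ne_zero 2 hp.out.ne_zero h5
  · rw [Nat.coprime_comm, hp.out.coprime_iff_not_dvd]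
    intro h3
    have h4 : p ∣ p ^ 2 - 1 := by
      have : p ^ 2 - 1 = 2 * (e + 1) := by omega
      rw [this]
      exact Dvd.dvd.mul_left h3 2
    have h5 : p ∣ 1 := by
      have h6 : p ∣ p ^ 2 := dvd_pow_self p two_ne_zero
      have h7 := (Nat.dvd_sub h6 h4)
      have h8 : 1 ≤ p ^ 2 := Nat.one_le_pow _ _ hp.out.pos
      have h9 : p ^ 2 - (p ^ 2 - 1) = 1 := by omega
      rwa [h9] at h7
    exact hp.out.one_lt.ne' (Nat.dvd_one.mp h5)

theorem th_pow_Ip {z : FQb} (hz : z ≠ 0) {σ : FGQ} (hσ : σ ∈ Ip p) (m : ℕ) :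
    th p z (σ ^ m) = th p z σ ^ m := by
  induction m with
  | zero => rw [pow_zero, pow_zero, th_one hz]
  | succ m ih => rw [pow_succ, pow_succ, th_mul hz (pow_mem hσ m) hσ, ih]

theorem smul_eq_or_neg {σ τ : FGQ} {P : PtQ W} (h : ∀ x y hns, P = Point.some x y hns → σ x = τ x) :
    σ • P = τ • P ∨ σ • P = -(τ • P) := by
  rcases P with _ | ⟨x, y, hns⟩
  · exact Or.inl rfl
  · obtain ⟨h1, e1⟩ := smul_some' σ hns
    obtain ⟨h2, e2⟩ := smul_some' τ hns
    have h3 := h x y hns rfl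
    rw [e1, e2]
    rcases Y_eq_of_X_eq h1.1 h2.1 h3 with h4 | h4
    · left
      rw [Point.some.injEq]
      exact ⟨h3, h4⟩
    · right
      rw [Point.neg_some, Point.some.injEq]
      exact ⟨h3, h4⟩

/-- **the alternative at `p`** -/
theorem halt (hp5 : 5 ≤ p) (hloc : (p : ℤ) ∣ W.Δ → ¬ (p : ℤ) ∣ W.c₄) :
    (∀ σ ∈ Ip p, LinearMap.det ((resZ W hΔ p).ρ σ - 1) = 0) ∨
      ∃ σ ∈ Ip p, (resZ W hΔ p).ρ σ ^ (2 * (p - 1)) ≠ 1 ∧
        ∀ τ ∈ Ip p, ∃ k : ℕ, (resZ W hΔ p).ρ τ = (resZ W hΔ p).ρ σ ^ k ∨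
          (resZ W hΔ p).ρ τ = -(resZ W hΔ p).ρ σ ^ k := by
  classical
  have hp2 : p ≠ 2 := by omega
  have hA := H54.liesOverPrime_padicPlace p
  have hodd : ¬ Even p := by
    rw [Nat.not_even_iff_odd]
    exact hp.out.odd_of_ne_two hp2
  by_cases hbad : (p : ℤ) ∣ W.Δ
  · left
    obtain ⟨x₀, y₀, α, β, g, hN⟩ := H13.exists_goodNode hp.out hbad hΔ (hloc hbad) hA
    obtain ⟨P, hP, hPn⟩ := H13.exists_near_of_char hN (hLQ W (padicPlace p)) hp.out
      (H59.natCast_residue_eq_zero hA)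
    exact fun σ hσ => det_of_V1 W hΔ (fun σ hσ P hP => smul_sub_mem_V1 hp.out hA hN hσ hP) hP
      (not_mem_of_near hN hPn) hσ
  by_cases hss : ∀ P : PtQ W, p • P = 0 → P ≠ 0 → P ∈ V1 W p (padicPlace p)
  · right
    obtain ⟨e, he, h⟩ := ssPoly W hΔ hp2 hbad hss
    obtain ⟨x, hx⟩ := IsAlgClosed.exists_aeval_eq_zero_of_injective FQb
      (RingHom.injective_int (algebraMap ℤ FQb)) (W.preΨ' p) (by
        intro h0
        have h1 := natDegree_eq_zero_iff_degree_le_zero.mpr h0.le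
        have h2 := h.lead
        rw [coeff_eq_zero_of_natDegree_lt (by omega)] at h2
        exact hp.out.ne_zero (by exact_mod_cast h2.symm))
    have hx0 := h.ne_zero hx
    obtain ⟨σ, hσ, hord, hgen⟩ := h.exists_gen hx
    refine ⟨σ, hσ, fun h1 => ?_, fun τ hτ => ?_⟩
    · obtain ⟨y, hns, hP⟩ := exists_point W hΔ hodd hx
      obtain ⟨v, hv⟩ := exists_jj W hΔ hP
      have h2 : (σ ^ (2 * (p - 1))) • (Point.some x y hns : PtQ W) = Point.some x y hns := by
        rw [← hv, ← jj_rho, map_pow, h1]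
        rfl
      obtain ⟨h3, e3⟩ := smul_some' (σ ^ (2 * (p - 1))) hns
      rw [e3, Point.some.injEq] at h2
      have h4 : th p x (σ ^ (2 * (p - 1))) = 1 := by
        rw [th, h2.1, div_self hx0, rs_one]
      rw [th_pow_Ip hx0 hσ] at h4
      have h5 := hord _ h4
      obtain ⟨q, rfl⟩ : ∃ q, p = q + 1 := ⟨p - 1, by omega⟩
      rw [Nat.add_sub_cancel] at h5
      have h6 : (q + 1) ^ 2 - 1 = q * (q + 2) := by
        have : (q + 1) ^ 2 = q * (q + 2) + 1 := by ring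
        rw [this, Nat.add_sub_cancel]
      rw [h6] at he
      have h7 : q * (q + 2) ∣ q * 4 := by
        rw [← he]
        have : q * 4 = 2 * (2 * q) := by ring
        rw [this]
        exact Nat.mul_dvd_mul_left 2 h5
      have h8 := Nat.dvd_of_mul_dvd_mul_left (by omega) h7
      have h9 := Nat.le_of_dvd (by norm_num) h8
      omega
    · obtain ⟨k, hk⟩ := hgen τ hτ
      refine ⟨k, ?_⟩
      rw [← map_pow]
      apply eq_or_eq_neg_of_forall
      intro v
      have h1 : τ • jj W hΔ v = (σ ^ k) • jj W hΔ v ∨ τ • jj W hΔ v = -((σ ^ k) • jj W hΔ v) := by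
        apply smul_eq_or_neg
        intro x' y' hns hP
        have hx' : aeval x' (W.preΨ' p) = 0 := by
          apply root_of_point W hodd hns
          rw [← hP]
          exact nsmul_jj W hΔ v
        exact h.apply_eq hx hτ (pow_mem hσ k) (by rw [hk, th_pow_Ip hx0 hσ]) hx'
      rcases h1 with h1 | h1
      · left
        exact jj_injective W hΔ h1
      · right
        apply jj_injective W hΔ
        rw [map_neg]
        exact h1
  · left
    push Not at hss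
    obtain ⟨P, hP, -, hPn⟩ := hss
    refine fun σ hσ => det_of_V1 W hΔ (fun σ hσ Q hQ => ?_) hP hPn hσ
    obtain ⟨Q', hQ'⟩ := H59.exists_reduces (R := ℚ) (W := W) rfl hp.out hbad hA Q
    refine ⟨?_, ?_⟩
    · rw [nsmul_sub, smul_comm _ σ Q, hQ, sub_zero]
      rfl
    · exact hQ'.smul_sub_of_inertia (S := ℚ) (R := ℚ) (W := W) rfl hσ

end Geom

/-! ### The Taylor-Wiles condition -/

section Main

open WeierstrassCurve
open H64 H87.Glue H87.Tate H73.TW

variable (W : WeierstrassCurve ℤ) (hΔ : W.Δ ≠ 0) {p : ℕ} [hp : Fact p.Prime]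

/-- **EC10**, every odd `p`. -/
theorem hTW_resZ (hp2 : p ≠ 2) (hW : W.IsSemistableModel) (hirr : W.ModRepIsIrreducible p)
    {K : Type*} [Field K] [Algebra (ZMod p) K] (G : Subgroup FGQ) (hG : G.index = 2)
    (L : Submodule K (K ⊗[ZMod p] (resZ W hΔ p).V))
    (hL : ∀ σ ∈ G, ∀ x ∈ L, ((resZ W hΔ p).ρ σ).baseChange K x ∈ L) : L = ⊥ ∨ L = ⊤ := by
  by_cases hp3 : p = 3
  · exact H73.TW.hTW_resZ W hΔ (Or.inl hp3) hW hirr G hG L hL
  have hp5 : 5 ≤ p := by
    have h2 := hp.out.two_le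
    have h4 : p ≠ 4 := by
      rintro rfl
      exact absurd hp.out (by norm_num)
    omega
  have hcc : complexConjugation * complexConjugation = 1 := complexConjugation_mul_self
  have hA := H54.liesOverPrime_padicPlace p
  refine core5 hp5 (resZ W hΔ p).finrank_eq (resZ W hΔ p).ρ
    (resZ_isIrreducible W hΔ p hirr) complexConjugation (by rw [← map_mul, hcc, map_one])
    (resZ_isOdd W hΔ p _ hcc H87.Res.complexConjugation_ne_one) (inertiaSet p)
    (fun σ hσ => isNilpotent_resZ W hΔ hW hσ) ?_ (Ip p) ?_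
    (halt W hΔ hp5 fun h => hW p hp.out h) G hG L hL
  · intro G₁ G₂ h₁ h₂ hk₁ hk₂ hS₁ hS₂
    obtain ⟨E, hE, hE1⟩ := (resZ W hΔ p).factorsThroughFiniteLevel
    have hopen : ∀ G' : Subgroup FGQ, (∀ σ, (resZ W hΔ p).ρ σ = 1 → σ ∈ G') →
        IsOpen (G' : Set FGQ) := fun G' hG' => by
      refine Subgroup.isOpen_mono (H₁ := E.fixingSubgroup) (fun σ hσ => hG' σ (hE1 σ fun x hx => ?_))
        (IntermediateField.fixingSubgroup_isOpen E)
      exact (IntermediateField.mem_fixingSubgroup_iff E σ).mp hσ x hx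
    exact H73.Quad.eq_of_index_two hp.out hp2 G₁ G₂ (hopen _ hk₁) (hopen _ hk₂) h₁ h₂
      (fun q hq hqp A hA σ hσ => hS₁ ⟨q, hq, hqp, A, hA, hσ⟩)
      (fun q hq hqp A hA σ hσ => hS₂ ⟨q, hq, hqp, A, hA, hσ⟩)
  · intro a
    have ha : ¬ p ∣ (a : ZMod p).val := by
      intro h
      have h1 := (ZMod.natCast_eq_zero_iff _ _).2 h
      rw [ZMod.natCast_zmod_val] at h1
      exact a.ne_zero h1
    obtain ⟨σ, hσ, h⟩ := H33.exists_inertia_cyclo hA (a : ZMod p).val ha
    refine ⟨σ, hσ, ?_⟩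
    have h2 : LinearMap.det ((resZ W hΔ p).ρ σ) = (((a : ZMod p).val : ℕ) : ZMod p) :=
      det_rep_eq (EQ W) (H87.EC.map_int_Δ_ne_zero hΔ) hp.out.ne_zero σ _ h
    rw [h2, ZMod.natCast_zmod_val]

/-- **EC10**, every odd `p`, for any residual representation isomorphic to an extension of scalars
of `W[p]`; exactly the hypothesis `hTW` of `S56`. -/
theorem hTW_of_isEquiv (hp2 : p ≠ 2) (hW : W.IsSemistableModel)
    (hirr : W.ModRepIsIrreducible p) {k : Type} [Field k] (φ : ZMod p →+* k)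
    (ρbar : ResidualGaloisRep k)
    (hρ : ((resZ W hΔ p).baseChangeAlong φ).IsEquiv ρbar)
    (K : Type) [Field K] [Algebra k K] (G : Subgroup FGQ) (hG : G.index = 2)
    (L : Submodule K (ρbar.baseChange K).V)
    (hL : ∀ σ ∈ G, ∀ x ∈ L, (ρbar.baseChange K).ρ σ x ∈ L) : L = ⊥ ∨ L = ⊤ := by
  let : Algebra (ZMod p) k := φ.toAlgebra
  let : Algebra (ZMod p) K := ((algebraMap k K).comp φ).toAlgebra
  have : IsScalarTower (ZMod p) k K := IsScalarTower.of_algebraMap_eq fun _ => rfl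
  obtain ⟨ε⟩ := hρ
  let ε' : (k ⊗[ZMod p] (resZ W hΔ p).V) ≃ₗ[k] ρbar.V := ε.toLinearEquiv
  have hε' : ∀ σ x, ε' (((resZ W hΔ p).ρ σ).baseChange k x) = ρbar.ρ σ (ε' x) := ε.map_apply
  let e : (K ⊗[ZMod p] (resZ W hΔ p).V) ≃ₗ[K] (K ⊗[k] ρbar.V) :=
    (TensorProduct.AlgebraTensorModule.cancelBaseChange (ZMod p) k K K (resZ W hΔ p).V).symm ≪≫ₗ
      TensorProduct.AlgebraTensorModule.congr (LinearEquiv.refl K K) ε'
  refine hTW_transport (fun σ => (resZ W hΔ p).ρ σ) (fun σ => (ρbar.baseChange K).ρ σ) e ?_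
    (G : Set FGQ) (fun L hL => hTW_resZ W hΔ hp2 hW hirr G hG L hL) L hL
  intro σ x
  induction x with
  | zero => simp
  | add x y hx hy => rw [map_add, map_add, hx, hy, map_add, map_add]
  | tmul a v =>
    have h1 : e (a ⊗ₜ[ZMod p] v) = a ⊗ₜ[k] ε' (1 ⊗ₜ[ZMod p] v) := by
      simp [e]
    have h2 : e (a ⊗ₜ[ZMod p] ((resZ W hΔ p).ρ σ v)) =
        a ⊗ₜ[k] ε' (1 ⊗ₜ[ZMod p] ((resZ W hΔ p).ρ σ v)) := by
      simp [e]
    rw [LinearMap.baseChange_tmul, h1, h2]
    change _ = a ⊗ₜ[k] (ρbar.ρ σ (ε' (1 ⊗ₜ[ZMod p] v)))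
    rw [← hε', LinearMap.baseChange_tmul]

end Main

end Fermat.Agent.H79C
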