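import Fermat.Agent.H59Fin43
import Fermat.Agent.S38
import Fermat.Agent.S43
import Fermat.Agent.H39Core
import Fermat.Agent.H39Real2
import Fermat.Agent.H31Inputs
import Fermat.Agent.H65C1

/-!
# Guide: changing the level (statements S38, S43; overview of S38, S39, S40, S41, S43, S44)

**The statements.** `W[p]` (or `E[p]`, `E` an elliptic curve) irreducible and modular of level `N`:
* S43, S44 (Ribet, for the Frey curve, `p ≥ 5`): it is modular of a level `M ∣ N` prime to `q` if it is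
  unramified at `q ≠ p` (S43), and of a level prime to `p` (S44); with all `q`: of level `2`;
* S38: `p` odd, `W` semistable, level `M` squarefree, `W[p]` unramified at `q ∣ M`: level `M / q`;
* S39, S40: the same for `q = p`, with finiteness of `E[p]` at `p` expressed by `p ∣ v_p(Δ)` or good
  reduction;
* S41 (Ribet, Diamond-Taylor): raising the level at a prime `q` with `a_q ≡ ± (q + 1)`.

**The files.** `GuideLevelsRaising`: S41.  `GuideLevelsMazur`: Mazur's principle at `q ≠ p`.  This file: the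
definitions, S43 and S38.  `GuideLevelsIhara`: theorem `LL` below.  `GuideLevelsS44`: S44.
`GuideLevelsAtP`: S39, S40.

**The method for `q ≠ p`.** (1) S44 removes `p` from the level.  (2) Take the smallest level `M ∣ N` of
`E[p]` and suppose that `E[p]` is unramified at a prime `t ∣ M`.  Mazur's principle removes `t` from `M`
unless `t ≡ 1` modulo `p` and the Frobenius elements at `t` act on `E[p]` as `1` or as `-1`.  (3) In this last
case Ribet's proof uses Shimura curves.  Here it is replaced by a Taylor-Wiles argument on modular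
curves with characters of order `p` at *all* these primes `t` ("Ihara avoidance", Taylor 2008, used to
lower the level): theorem `LL`.  For S38 the same is done for all odd `p` (for `p = 3` with an auxiliary
prime `s`), also with `p ∣ M` (types flat, ordinary, multiplicative at `p`), and the modularity of semistable
curves (`H42X.exact_final`, the content of S60) is used to remove `p` itself at good reduction.  The method
for `q = p` uses Kummer functions in characteristic `p`; no Néron model.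

**Reading order** 1. vocabulary; 2. local facts; 3. modularity and `J₀(N)`, modularity and Hecke characters;
4. S43; 5. S38.

**Files** 2: `H87Res`, `H59Loc`, `H59LocAt`, `H47LL2`, `H13EC6`, `H13EC7`. 3: `H59Occ`, `H39RealEig`,
`H39Real`, `H39Real2`, `H39ConvA`, `H39Conv`. 4 (S43): `H59LL1` to `H59LL7` (theorem `LL`), `H59Maz`,
`H59S43`, `H81L1` (independence of the integral model), `H13Tame`, `H45Transv`, `H45FreyImage`, `H59Fin43`.
5 (S38): `H79C0`, `H79C1` (Taylor-Wiles condition); `H85C0`, `H85C1`, `H85C2`, `H85C3`, `H85C4`, `H85C5`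
(the levels, also with elements which kill the module); `H69C0`, `H69C1`, `H69C2` (the same with marks at
`p`, outer part); types at `p`: `H65C1`, `H69C3` (flat), `H20C1` (ordinary), `H75D1`, `H75D2`, `H2C38O`
(multiplicative, with marks); `H30InH`, `H45GlueB`, `H2C38N`, `H2C38A`, `H2C38S`.

**More details** in `GuideLargeImage` (transvections and the size of the image; section 4), `GuideLevelsOdd`
(the steps of `LL_all_odd`), `GuideTWCondition`, `GuideRealisation` (embeddings of `W[p]` in `J₀(N)`),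
`GuideLiftingGalois`, `GuideLiftingHecke`, `GuidePatching` (the levels with marks), `GuideNode` (curves at a
multiplicative prime), `GuideAtkinLehner` (old forms, Atkin-Lehner operators).

**Serves** S38; S43 and with it S03, S45, S01.  Sections 2 and 3 are also used for S59, S60 (and with them
S04, S06, S46, S50), `exists_embedding_torsion` also for S39, S40, S44, and
`isResiduallyModular_of_eigenvector` also for S39, S40.

**Notes** Section 3.5; [244], [176], [139], [234], [284], [304] (S43), [247] (Taylor-Wiles levels),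
[315], [317], [318], [320], [322], [324], [327], [329], [339] (S38).  Written by helper59, helper5,
helper39, helper2, helper47, edited by helper5; theorems of helper59, 87, 62, 47, 39, 45, 2, 69, 79, 65,
85.
-/

set_option autoImplicit false
set_option synthInstance.maxHeartbeats 200000

noncomputable section

namespace Fermat.Agent.Guide.Levels

open WeierstrassCurve WeierstrassCurve.Affine WeierstrassCurve.Affine.Point
open CuspForm ModularFormClass UpperHalfPlane CongruenceSubgroup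
open AlgebraicCurve ModularCurve
open Polynomial IsLocalRing GaloisRep

/-- The field of algebraic numbers. -/
local notation "Qb" => AlgebraicClosure ℚ

/-- The absolute Galois group of `ℚ`. -/
local notation "GQ" => (AlgebraicClosure ℚ ≃ₐ[ℚ] AlgebraicClosure ℚ)

/-- The residual representation on `W[p]`, over the field with `p` elements; it exists if `Δ ≠ 0`. -/
local notation "resZ" => Fermat.Agent.H87.Glue.resZ

/-! ### 1. Vocabulary -/

/-- **Residual modularity.**  `W.IsResiduallyModularOfLevel p M` (frozen Prelude), for an integral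
Weierstrass equation `W`, says that there are a normalised Hecke eigenform `f` of weight `2` for
`Γ₀(M)` and a maximal ideal `𝔪` of the ring of all algebraic integers, with `p ∈ 𝔪`, such that
`a_ℓ(f) ≡ a_ℓ(W)` modulo `𝔪` for all primes `ℓ ∤ M p` of good reduction (`ℓ ∤ Δ`).  All the level
lowering statements replace `M` by a divisor. -/
theorem isResiduallyModularOfLevel_iff (W : WeierstrassCurve ℤ) (p M : ℕ) :
    W.IsResiduallyModularOfLevel p M ↔
      ∃ (f : CuspForm (CongruenceSubgroup.Gamma0 M) 2) (𝔪 : Ideal (integralClosure ℤ ℂ)),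
        f.IsNormalizedEigenform ∧ 𝔪.IsMaximal ∧ (p : integralClosure ℤ ℂ) ∈ 𝔪 ∧
        ∀ ℓ : ℕ, ℓ.Prime → ¬ (ℓ : ℤ) ∣ W.Δ → ¬ ℓ ∣ M → ℓ ≠ p →
          ∃ a : integralClosure ℤ ℂ, (a : ℂ) = ModularFormClass.qCoeff f ℓ ∧
            a - ((W.apOfModel ℓ : ℤ) : integralClosure ℤ ℂ) ∈ 𝔪 :=
  Iff.rfl

/-- `a_ℓ(W) = ℓ + 1 - #W(𝔽_ℓ)`, the points being the nonsingular points of the equation reduced modulo
`ℓ`, the point at infinity included; used only for `ℓ ∤ Δ(W)` (definition of the Prelude). -/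
theorem apOfModel_eq (W : WeierstrassCurve ℤ) (ℓ : ℕ) [Fact ℓ.Prime] :
    W.apOfModel ℓ =
      (ℓ : ℤ) + 1 - (Nat.card (W.map (Int.castRingHom (ZMod ℓ))).toAffine.Point : ℤ) := by
  simp [WeierstrassCurve.apOfModel, WeierstrassCurve.traceOfFrobenius, WeierstrassCurve.card,
    WeierstrassCurve.reductionMod]

/-- **Irreducibility.**  `W.ModRepIsIrreducible p`: the group `E[p]` of `p`-torsion points over `ℚ̄`
(`H39.Tor W p`) is not zero and has no Galois stable `𝔽_p`-subspace except `0` and `E[p]`. -/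
theorem modRepIsIrreducible_iff (W : WeierstrassCurve ℤ) (p : ℕ) :
    W.ModRepIsIrreducible p ↔ Nontrivial (H39.Tor W p) ∧
      ∀ N : Submodule (ZMod p) (H39.Tor W p), (∀ (σ : GQ), ∀ x ∈ N, σ • x ∈ N) → N = ⊥ ∨ N = ⊤ :=
  Iff.rfl

/-- `E[p]` is *peu ramifiée* at `ℓ`: `p` divides the exponent of `ℓ` in the discriminant.  At a prime
of semistable reduction this is the condition of the theorems of Ribet and Mazur (unramified for
`ℓ ≠ p`, finite flat for `ℓ = p`). -/
theorem isPeuRamifieeAt_iff (W : WeierstrassCurve ℚ) (p ℓ : ℕ) :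
    W.IsPeuRamifieeAt p ℓ ↔ (p : ℤ) ∣ padicValRat ℓ W.Δ :=
  Iff.rfl

/-- **Frey packages.**  `P.ModularRepOfLevel N`: the same as residual modularity of level `N` for some
integral equation of the Frey curve. -/
theorem modularRepOfLevel_iff (P : FreyPackage) (N : ℕ) :
    P.ModularRepOfLevel N ↔ ∃ W : WeierstrassCurve ℤ,
      W.IsIntegralModelOf P.freyCurve ∧ W.IsResiduallyModularOfLevel P.p N :=
  ⟨fun ⟨f, W, m, h1, h2, h3, h4, h5⟩ => ⟨W, h2, f, m, h1, h3, h4, h5⟩,
    fun ⟨W, h2, f, m, h1, h3, h4, h5⟩ => ⟨f, W, m, h1, h2, h3, h4, h5⟩⟩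

/-- `g` is *new at `q`* (frozen Prelude): `a_q(g) = ± 1`. -/
theorem isNewAt_iff {M : ℕ} (g : CuspForm (CongruenceSubgroup.Gamma0 M) 2) (q : ℕ) :
    g.IsNewAt q ↔ ModularFormClass.qCoeff g q ^ 2 = 1 :=
  Iff.rfl

/-! ### 2. The local facts -/

/-- **The residual representation** `resZ W hΔ p` is the action of `Gal(ℚ̄/ℚ)` on `W[p]`, a vector
space of dimension 2 over `ZMod p`. This theorem describes it, after extension of scalars to a field
`k`: at a prime `ℓ ≠ p` of good reduction a Frobenius element has trace `a_ℓ(W)` and determinant `ℓ`.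
(`A` is a place of `ℚ̄` above `ℓ`, given by its valuation ring.) Proof: Hasse's relation between
Frobenius and the number of points, on torsion points (`H62FrobTrace`, `H59Occ`). -/
theorem resZ_frobenius_trace_det (W : WeierstrassCurve ℤ) (hΔ : W.Δ ≠ 0) (p : ℕ) [Fact p.Prime]
    {k : Type} [Field k] [Algebra (ZMod p) k] {ℓ : ℕ} (hℓ : ℓ.Prime) (hℓp : ℓ ≠ p)
    (hW : W.IsGoodPrimeFor ℓ) {A : ValuationSubring Qb} (hA : A.LiesOverPrime ℓ) {φ : GQ}
    (hφ : A.IsFrobeniusAt φ ℓ) :
    LinearMap.trace k _ (((resZ W hΔ p).baseChange k).ρ φ) = (W.apOfModel ℓ : k) ∧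
      LinearMap.det (((resZ W hΔ p).baseChange k).ρ φ) = (ℓ : k) :=
  H59.trace_det_baseChange W hΔ p hℓ hℓp hW hA hφ

/-- The residual representation is unramified at the primes `q ≠ p` of good reduction: the inertia
groups at `q` act trivially. Proof: a torsion point of order prime to `q` is determined by its
reduction (`H59Red`, `H59RedTors`, `H59RedGal`). -/
theorem resZ_isUnramifiedAt_of_good (W : WeierstrassCurve ℤ) (hΔ : W.Δ ≠ 0) (p : ℕ)
    [Fact p.Prime] {q : ℕ} (hq : q.Prime) (hqp : q ≠ p) (hW : W.IsGoodPrimeFor q) :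
    (resZ W hΔ p).IsUnramifiedAt q :=
  H87.Glue.resZ_isUnramifiedAt W hΔ p hq hqp hW

/-- **Inertia is unipotent.** For a semistable model (`p` odd, `W[p]` irreducible) the inertia groups at
`q ≠ p` act on `W[p]` with characteristic polynomial `(X - 1)²`. Good primes: inertia is trivial.
Multiplicative primes: `σ x - x` does not reduce to the node, and inertia fixes the points of order `p` which
do not reduce to the node (`H13EC6`, `GuideNode`; no Tate curve). -/
theorem inertia_unipotent (W : WeierstrassCurve ℤ) (hΔ : W.Δ ≠ 0) {p : ℕ} [Fact p.Prime]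
    (hss : W.IsSemistableModel) (hp2 : p ≠ 2) (hirr : (resZ W hΔ p).IsIrreducible)
    {q : ℕ} (hq : q.Prime) (hqp : q ≠ p) (P : ValuationSubring Qb) (hP : P.LiesOverPrime q)
    (σ : GQ) (hσ : σ ∈ P.inertiaSubgroupIn ℚ) :
    LinearMap.charpoly ((resZ W hΔ p).ρ σ) = (X - 1) ^ 2 :=
  (H59.localAt hΔ hss hp2 H30.statementS30 S32.result hirr).unip q hq hqp P hP σ hσ

/-- **Residual flatness** (S38), `p` odd. If `W[p]` is irreducible and residually modular of a level `M`
prime to `p`, then `W[p] ⊗ k` is flat at `p` for every finite field `k` containing `𝔽_p`. No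
condition on the reduction of `W` at `p`. Proof: lift to the Galois representation over the Hecke
algebra (S30), which is flat (S32), and descend. (`H47LL2`, `H65C1`.) -/
theorem residual_flat {W : WeierstrassCurve ℤ} (hΔ : W.Δ ≠ 0) {p : ℕ} [Fact p.Prime]
    (hp2 : p ≠ 2) (hirr : W.ModRepIsIrreducible p) {M : ℕ} (hM : M ≠ 0) (hpM : ¬ p ∣ M)
    (hmod : W.IsResiduallyModularOfLevel p M) (k : Type) [Field k] [Finite k]
    [Algebra (ZMod p) k] :
    (GaloisRepAdic.ofResidualGaloisRep ((resZ W hΔ p).baseChange k)).IsFlatAt p :=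
  H65.C.residual_flat hΔ hp2 hirr hM hpM hmod k

/-- **Unramified outside of the level.** `W` semistable, `p` odd. If the irreducible representation `W[p]` is
modular of level `M`, then it is unramified at the primes `q ≠ p`, `q ∤ M`. (S30, S32; `H59LocAt`.) -/
theorem unramified_of_modular (W : WeierstrassCurve ℤ) (hΔ : W.Δ ≠ 0) {p : ℕ} [Fact p.Prime]
    (hss : W.IsSemistableModel) (hp2 : p ≠ 2) (hirr : (resZ W hΔ p).IsIrreducible)
    {M : ℕ} (hM : 0 < M) (hmod : W.IsResiduallyModularOfLevel p M)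
    {q : ℕ} (hq : q.Prime) (hqp : q ≠ p) (hqM : ¬ q ∣ M) : (resZ W hΔ p).IsUnramifiedAt q :=
  (H59.localAt hΔ hss hp2 H30.statementS30 S32.result hirr).unr M hM hmod q hq hqp hqM

/-! ### 3. Residual modularity, `J₀(N)` and characters of Hecke algebras -/

/-- **From residual modularity to a character of the Hecke algebra.** If `W[p]` is modular of level
`N₀` and `N₀ ∣ L`, then for a set `S` of primes containing those dividing `L` and all primes `ℓ = p` or
of bad reduction there is a homomorphism `θ` from the Hecke algebra of `S₂(Γ₀(L))` generated by the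
`T_ℓ`, `ℓ ∉ S`, to `ZMod p` with `θ(T_ℓ) = a_ℓ(W)`. Proof: the form is also a form of level `L` and an
eigenvector of these `T_ℓ`; reduce its eigenvalues modulo `𝔪` (`H59Occ`). -/
theorem exists_hecke_character {W : WeierstrassCurve ℤ} {p : ℕ} [Fact p.Prime] {N₀ : ℕ}
    [NeZero N₀] (h : W.IsResiduallyModularOfLevel p N₀) {L : ℕ} [NeZero L] (hL : N₀ ∣ L)
    {S : Set ℕ} (hS : ∀ ℓ : ℕ, ℓ.Prime → ℓ ∣ L → ℓ ∈ S)
    (hSW : ∀ ℓ : ℕ, ℓ.Prime → ℓ ∉ S → W.IsGoodPrimeFor ℓ ∧ ℓ ≠ p) :
    ∃ θ : heckeAlgebra L 2 S →+* ZMod p, ∀ (ℓ : ℕ) (hℓ : ℓ.Prime) (hℓS : ℓ ∉ S),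
      θ (heckeAlgebra.T hℓ (fun hd => hℓS (hS ℓ hℓ hd)) hℓS) = (W.apOfModel ℓ : ZMod p) :=
  have hA : H37.Rank.Adm S L := hS
  let ⟨θ, h⟩ := H59.exists_char_of_modular h hL hA hSW
  ⟨θ, fun ℓ hℓ hℓS => (congrArg θ (H59.evHA_X hA ⟨ℓ, hℓ, hℓS⟩)).symm.trans (h ⟨ℓ, hℓ, hℓS⟩)⟩

/-- **From a character of the Hecke algebra to residual modularity.** If there is a homomorphism `θ`
from the Hecke algebra of level `N` outside of the finite set `S` to `ZMod p` with `θ(T_ℓ) = a_ℓ(W)`,
then `W[p]` is modular of level `N`. Proof: Deligne-Serre lifting (`H49DeligneSerre`, `H49Lifting`) gives an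
eigenform whose eigenvalues are congruent to `a_ℓ(W)` for `ℓ ∉ S`; the congruence for the other primes
`ℓ ∤ Np` follows from the Galois representation of the form (S29) and Frobenius's density theorem
(`H86.frobDensityFinite`; Chebotarev's theorem is not needed). (`H59Occ`.) -/
theorem residually_modular_of_character {W : WeierstrassCurve ℤ} (hΔ : W.Δ ≠ 0) {p : ℕ}
    [Fact p.Prime] {N : ℕ} [NeZero N] {S : Finset ℕ}
    (hS : ∀ ℓ : ℕ, ℓ.Prime → ℓ ∣ N → ℓ ∈ (S : Set ℕ))
    (θ : heckeAlgebra N 2 (S : Set ℕ) →+* ZMod p)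
    (hθ : ∀ (ℓ : ℕ) (hℓ : ℓ.Prime) (hℓS : ℓ ∉ (S : Set ℕ)),
      θ (heckeAlgebra.T hℓ (fun hd => hℓS (hS ℓ hℓ hd)) hℓS) = (W.apOfModel ℓ : ZMod p)) :
    W.IsResiduallyModularOfLevel p N :=
  have hA : H37.Rank.Adm (S : Set ℕ) N := hS
  H59.isResiduallyModularOfLevel_of_char hΔ S29.result hA θ fun i =>
    (congrArg θ (H59.evHA_X hA i)).trans (hθ i.1 i.2.1 i.2.2)

/-- **Realisation of `E[p]` in `J₀(N)`.** `E[p]` is irreducible, `p ≠ 2`, `S` is a finite set of primes
with `p`, the primes dividing `N` and the primes dividing the discriminant of `W`; `f` is a normalised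
eigenform of level `N` with `a_ℓ(f) ≡ a_ℓ(W)` modulo a maximal ideal above `p`, for
all `ℓ` outside `S`. Then there is an injective map `E[p] → J₀(N)`, equivariant for Galois, with
`T_ℓ = a_ℓ(W)` on the image for all `ℓ` outside `S`. Proof: `J₀(N)[𝔪]` is not zero, `𝔪` here the kernel
of `T_ℓ ↦ a_ℓ(W)` modulo `p`; the quadratic relation of Frobenius (Eichler and Shimura) and the theorem of
Boston, Lenstra and Ribet (`GuideRealisation`) give an equivariant map `E[p] → J₀(N)[𝔪]`, injective since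
`E[p]` is irreducible; the determinant is the cyclotomic character by the Weil pairing.
(`H39RealEig`, `H39Real`, `H39Real2`.) -/
theorem exists_embedding_torsion {N : ℕ} [NeZero N] {S : Finset ℕ} {p : ℕ} [Fact p.Prime]
    (hp2 : p ≠ 2) (hpS : p ∈ S)
    (hNS : ∀ q : ℕ, q.Prime → q ∣ N → q ∈ S) {W : WeierstrassCurve ℤ} (hΔ : W.Δ ≠ 0)
    (hΔS : ∀ q : ℕ, q.Prime → (q : ℤ) ∣ W.Δ → q ∈ S) (hirr : W.ModRepIsIrreducible p)
    {f : CuspForm (CongruenceSubgroup.Gamma0 N) 2} (hf : f.IsNormalizedEigenform)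
    {𝔪 : Ideal (integralClosure ℤ ℂ)} (h𝔪 : 𝔪.IsMaximal) (hp𝔪 : (p : integralClosure ℤ ℂ) ∈ 𝔪)
    (hcong : ∀ ℓ : ℕ, ℓ.Prime → ℓ ∉ S →
      ∃ a : integralClosure ℤ ℂ, (a : ℂ) = ModularFormClass.qCoeff f ℓ ∧
        a - ((W.apOfModel ℓ : ℤ) : integralClosure ℤ ℂ) ∈ 𝔪) :
    ∃ ι : H39.Tor W p →+ JZero N, Function.Injective ι ∧
      (∀ (σ : Qb ≃ₐ[ℚ] Qb) (x : H39.Tor W p), ι (σ • x) = σ • ι x) ∧
      ∀ ℓ : Nat.Primes, (ℓ : ℕ) ∉ S → ∀ x : H39.Tor W p,
        heckeOperatorBar N ℓ (ι x) = W.apOfModel (ℓ : ℕ) • ι x :=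
  H39.exists_embedding_JZero (H31.jzeroInputs N) (H67.heckeOperatorsCommuteBar N) hp2 hpS hNS hΔ hΔS
    hirr hf h𝔪 hp𝔪 hcong

/-- **From an eigenclass in `J₀(N)[p]` to residual modularity of level `N`.** `y ≠ 0` is a class killed
by `p` with `T_ℓ y = a_ℓ(W) y` for all primes `ℓ` of good reduction of `W`, `ℓ` not dividing `N`,
`ℓ ≠ p`. Proof: the annihilator of the lattice of integral cusp forms in the Hecke polynomials kills
`J₀(N)`, so the character `T_ℓ ↦ a_ℓ(W) mod p` factors through the Hecke algebra of the lattice; there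
is an integral form, not divisible by `p`, which is an eigenform mod `p` (Nakayama), and its
eigenvalues lift (lemma of Deligne and Serre). (`H39ConvA`, `H39Conv`.) -/
theorem isResiduallyModular_of_eigenvector {W : WeierstrassCurve ℤ} {p N : ℕ} [NeZero N]
    (hp : p.Prime) (y : JZero N) (hy0 : y ≠ 0) (hpy : p • y = 0)
    (hT : ∀ ℓ : Nat.Primes, W.IsGoodPrimeFor ℓ → ¬ (ℓ : ℕ) ∣ N → (ℓ : ℕ) ≠ p →
      heckeOperatorBar N ℓ y = W.apOfModel (ℓ : ℕ) • y) :
    W.IsResiduallyModularOfLevel p N :=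
  H39.isResiduallyModularOfLevel_of_eigenvector hp y hy0 hpy hT

/-! ### 4. S43 -/

/-- **Theorem LL** (level lowering in the degenerate case of Mazur's principle). Let `p ≥ 5`,
`M` squarefree and prime to `p`, `W[p]` modular of level `M`. The primes dividing `M` are the set `A` of
ramified primes (with unipotent inertia) and the set `T` of unramified primes; every `t ∈ T` satisfies
`t ≡ 1 mod p` and Frobenius at `t` acts as a scalar `u = ±1`; outside of `A` and `p` everything is
unramified; at `p` it is flat. Assume that the image of Galois contains two transvections with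
different axes (`hTv`; it is a theorem for the Frey curve). Then `W[p]` is modular of level `M / t₀` for
every `t₀ ∈ T`. Proof: `GuideLevelsIhara` (`H59LL7`). -/
theorem LL (W : WeierstrassCurve ℤ) (hΔ : W.Δ ≠ 0) {p : ℕ} [Fact p.Prime] (h5 : 5 ≤ p)
    (hTv : ∃ (e : Module.Basis (Fin 2) (ZMod p) (resZ W hΔ p).V) (g h : GQ) (a b : ZMod p),
      a ≠ 0 ∧ b ≠ 0 ∧ (resZ W hΔ p).ρ g (e 0) = e 0 ∧ (resZ W hΔ p).ρ g (e 1) = e 1 + a • e 0 ∧
      (resZ W hΔ p).ρ (h * g * h⁻¹) (e 1) = e 1 ∧
      (resZ W hΔ p).ρ (h * g * h⁻¹) (e 0) = e 0 + b • e 1)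
    {M : ℕ} (hM : Squarefree M) (hpM : ¬ p ∣ M) (hmod : W.IsResiduallyModularOfLevel p M)
    (A T : Finset ℕ) (hAT : ∀ q : ℕ, q.Prime → (q ∣ M ↔ q ∈ A ∨ q ∈ T))
    (hA_prime : ∀ q ∈ A, q.Prime) (hA_ne : ∀ q ∈ A, q ≠ p)
    (hA_ram : ∀ q ∈ A, ¬ (resZ W hΔ p).IsUnramifiedAt q)
    (hA_unip : ∀ q ∈ A, ∀ P : ValuationSubring Qb, P.LiesOverPrime q →
      ∀ σ ∈ P.inertiaSubgroupIn ℚ, LinearMap.charpoly ((resZ W hΔ p).ρ σ) = (X - 1) ^ 2)
    (hunr : ∀ q : ℕ, q.Prime → q ≠ p → q ∉ A → (resZ W hΔ p).IsUnramifiedAt q)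
    (hT_prime : ∀ t ∈ T, t.Prime) (hT_dvd : ∀ t ∈ T, p ∣ t - 1)
    (hT_unr : ∀ t ∈ T, (resZ W hΔ p).IsUnramifiedAt t)
    (hT_scalar : ∀ t ∈ T, ∃ u : ℤ, u ^ 2 = 1 ∧ ∀ P : ValuationSubring Qb, P.LiesOverPrime t →
      ∀ φ : GQ, P.IsFrobeniusAt φ t → (resZ W hΔ p).ρ φ = (u : ZMod p) • 1)
    (hflat : ∀ (k : Type) [Field k] [Finite k] [Algebra (ZMod p) k],
      (GaloisRepAdic.ofResidualGaloisRep ((resZ W hΔ p).baseChange k)).IsFlatAt p)
    {t₀ : ℕ} (ht₀ : t₀ ∈ T) : W.IsResiduallyModularOfLevel p (M / t₀) :=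
  by_contra (H59.llAt hΔ h5 hTv (H75.gwIneq (by omega)) (fun k _ _ _ => H64.statementF (by omega))
    S29.result S32.result S34.result (H4.geomInputs Fact.out) M A T hM hpM hmod
    ⟨hA_prime, hA_ne, hA_ram, hA_unip, hunr, hT_prime, hT_dvd, hT_unr, hT_scalar, hflat⟩ hAT t₀ ht₀)

/-- **The descent.** From Mazur's principle (`hmaz`), the local facts (`hunip`, `hflat`, `hunr'`) and
LL (`hLL`) for the curve `W` to level lowering: if `W[p]` is modular of the squarefree level `N`
prime to `p` and unramified at `q ≠ p`, then it is modular of a level `M ∣ N` with `q ∤ M`. Proof: take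
the smallest `M ∣ N` such that `W[p]` is modular of level `M`; if `q ∣ M`, then all unramified primes
dividing `M` are in the degenerate case of Mazur's principle, and LL gives a smaller level (`H59S43`).
(`H59.ResHyp W hΔ p A T`: the hypotheses `hA_prime` to `hflat` of theorem `LL`.) -/
theorem descent (W : WeierstrassCurve ℤ) (hΔ : W.Δ ≠ 0) {p : ℕ} [Fact p.Prime]
    (hmaz : ∀ q M : ℕ, q.Prime → q ≠ p → 0 < M → ¬ q ∣ M → (resZ W hΔ p).IsUnramifiedAt q →
      W.IsResiduallyModularOfLevel p (M * q) → W.IsResiduallyModularOfLevel p M ∨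
        (p ∣ q - 1 ∧ ∃ u : ℤ, u ^ 2 = 1 ∧ ∀ P : ValuationSubring Qb, P.LiesOverPrime q →
          ∀ φ : GQ, P.IsFrobeniusAt φ q → (resZ W hΔ p).ρ φ = (u : ZMod p) • 1))
    (hunip : ∀ q : ℕ, q.Prime → q ≠ p → ∀ P : ValuationSubring Qb, P.LiesOverPrime q →
      ∀ σ ∈ P.inertiaSubgroupIn ℚ, LinearMap.charpoly ((resZ W hΔ p).ρ σ) = (X - 1) ^ 2)
    (hflat : ∀ M : ℕ, 0 < M → ¬ p ∣ M → W.IsResiduallyModularOfLevel p M →
      ∀ (k : Type) [Field k] [Finite k] [Algebra (ZMod p) k],
        (GaloisRepAdic.ofResidualGaloisRep ((resZ W hΔ p).baseChange k)).IsFlatAt p)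
    (hunr' : ∀ M : ℕ, 0 < M → W.IsResiduallyModularOfLevel p M → ∀ q : ℕ, q.Prime → q ≠ p →
      ¬ q ∣ M → (resZ W hΔ p).IsUnramifiedAt q)
    (hLL : ∀ (M : ℕ) (A T : Finset ℕ), Squarefree M → ¬ p ∣ M →
      W.IsResiduallyModularOfLevel p M → H59.ResHyp W hΔ p A T →
      (∀ q : ℕ, q.Prime → (q ∣ M ↔ q ∈ A ∨ q ∈ T)) → ∀ t₀ : ℕ, t₀ ∈ T →
      ¬ W.IsResiduallyModularOfLevel p (M / t₀) → False)
    {N : ℕ} (hN : Squarefree N) (hpN : ¬ p ∣ N) (hmod : W.IsResiduallyModularOfLevel p N)
    {q : ℕ} (hq : q.Prime) (hqp : q ≠ p) (hunr : (resZ W hΔ p).IsUnramifiedAt q) :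
    ∃ M : ℕ, M ∣ N ∧ ¬ q ∣ M ∧ W.IsResiduallyModularOfLevel p M :=
  H59.exists_level hΔ hmaz ⟨hunip, hflat, hunr'⟩ hLL hN hpN hmod hq hqp hunr

/-- **The Frey curve has transvections.** The image of the Galois group on `E[p]` of an irreducible
Frey package contains two transvections with different axes, as used in LL: an element of inertia at `2`
which acts nontrivially (it exists because `2` is multiplicative and `p` does not divide
`v_2(Δ) = 2 p v_2(abc) - 8`, `H13EC7`) and a conjugate of it (irreducibility). (`H45FreyImage`.) -/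
theorem frey_transvections (P : FreyPackage) [Fact P.p.Prime]
    (hirr : GaloisRepIsIrreducible (K := Qb) ℚ P.freyCurve P.p) :
    ∃ (e : Module.Basis (Fin 2) (ZMod P.p)
        (resZ P.freyCurveInt (H6.freyCurveInt_Δ_ne_zero P) P.p).V) (g h : GQ) (a b : ZMod P.p),
      a ≠ 0 ∧ b ≠ 0 ∧
      (resZ P.freyCurveInt (H6.freyCurveInt_Δ_ne_zero P) P.p).ρ g (e 0) = e 0 ∧
      (resZ P.freyCurveInt (H6.freyCurveInt_Δ_ne_zero P) P.p).ρ g (e 1) = e 1 + a • e 0 ∧
      (resZ P.freyCurveInt (H6.freyCurveInt_Δ_ne_zero P) P.p).ρ (h * g * h⁻¹) (e 1) = e 1 ∧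
      (resZ P.freyCurveInt (H6.freyCurveInt_Δ_ne_zero P) P.p).ρ (h * g * h⁻¹) (e 0) =
        e 0 + b • e 1 :=
  H45.frey_hasTv P hirr

/-- **Two integral equations of one curve** have traces `a_ℓ` which are congruent modulo `p`, for the primes
`ℓ ≠ p` of good reduction of both: both are the trace of Frobenius at `ℓ` on `E[p]`. (`H81L1`.) -/
theorem two_models {E : WeierstrassCurve ℚ} {W W' : WeierstrassCurve ℤ} (hW : W.IsIntegralModelOf E)
    (hW' : W'.IsIntegralModelOf E) {p : ℕ} [Fact p.Prime] {ℓ : ℕ} (hℓ : ℓ.Prime) (hℓp : ℓ ≠ p)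
    (hg : W.IsGoodPrimeFor ℓ) (hg' : W'.IsGoodPrimeFor ℓ) : (p : ℤ) ∣ W.apOfModel ℓ - W'.apOfModel ℓ :=
  H81.L1.apOfModel_modEq hW hW' hℓ hℓp hg hg'

/-- **The integral equation does not matter**: `E[p]` is modular of level `N` (for some integral equation of
the Frey curve, `modularRepOfLevel_iff`) exactly if the equation `P.freyCurveInt` is residually modular of
level `N`. By `two_models` the congruence holds at all but finitely many primes; at the remaining good primes
of `P.freyCurveInt` it follows with the Galois representation of the eigenform (S29). (`H81L1`.) -/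
theorem frey_model (P : FreyPackage) {N : ℕ} [NeZero N] :
    P.ModularRepOfLevel N ↔ P.freyCurveInt.IsResiduallyModularOfLevel P.p N :=
  ⟨H81.L1.isResiduallyModularOfLevel_freyCurveInt P S29.result,
    H81.L1.modularRepOfLevel_of_freyCurveInt P⟩

/-- **S43 from S44.** `P` a Frey package, `N` a conductor level, `q ≠ p` a prime at which `E[p]` is
unramified, `E[p]` irreducible and modular of level `N`: then it is modular of some level `M ∣ N` with
`q ∤ M`. The hypothesis `h44` is the statement S44 (removal of `p` from the level); S43 follows with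
`S44.result` (`H59Fin43`). Proof: by `h44` and `frey_model` the equation `P.freyCurveInt` is residually
modular of a level `N₁ ∣ N` prime to `p`; now `descent`, with Mazur's principle (`mazur_principle` of
`GuideLevelsMazur`), the local facts of section 2 and `LL`, whose hypothesis is `frey_transvections`. -/
theorem S43_of_S44
    (h44 : ∀ (P : FreyPackage) {N : ℕ}, P.IsConductorLevel N → P.p ∣ N →
      GaloisRepIsIrreducible (K := Qb) ℚ P.freyCurve P.p →
      P.ModularRepOfLevel N → ∃ M : ℕ, M ∣ N ∧ ¬ P.p ∣ M ∧ P.ModularRepOfLevel M)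
    (P : FreyPackage) {N q : ℕ} (hcond : P.IsConductorLevel N) (hq : q.Prime) (hqp : q ≠ P.p)
    (hirr : GaloisRepIsIrreducible (K := Qb) ℚ P.freyCurve P.p)
    (hmod : P.ModularRepOfLevel N) (hunr : P.GaloisRepUnramifiedAt q) :
    ∃ M : ℕ, M ∣ N ∧ ¬ q ∣ M ∧ P.ModularRepOfLevel M :=
  H59.s43_of h44 P hcond hq hqp hirr hmod hunr

/-- **S43**: `P` a Frey package, `N` a conductor level, `q ∣ N` an odd prime `≠ p` at which `E[p]` is
unramified, `E[p]` irreducible and modular of level `N`: then it is modular of some `M ∣ N` with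
`q ∤ M`. (`q ≠ 2` and `q ∣ N` are hypotheses of the frozen statement; the proof does not need them.) -/
theorem S43_level_lowering (P : FreyPackage) {N q : ℕ} (hcond : P.IsConductorLevel N)
    (hq : q.Prime) (hq2 : q ≠ 2) (hqp : q ≠ P.p) (hqN : q ∣ N)
    (hirr : GaloisRepIsIrreducible (K := Qb) ℚ P.freyCurve P.p) (hmod : P.ModularRepOfLevel N)
    (hunr : P.GaloisRepUnramifiedAt q) : ∃ M : ℕ, M ∣ N ∧ ¬ q ∣ M ∧ P.ModularRepOfLevel M :=
  S43.result P hcond hq hq2 hqp hqN hirr hmod hunr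

/-! ### 5. S38: all semistable curves and all odd `p` -/

/-- **The Taylor-Wiles condition.** `W` semistable, `p` odd, `W[p]` irreducible. Then `W[p]`, with
scalars extended to any field `K`, stays irreducible over every quadratic extension of the rational
numbers (every subgroup `G` of index 2 of the Galois group) (`H79C1`; for `p = 3` `H73TW`; proof in
`GuideTWCondition`). -/
theorem taylor_wiles_condition (W : WeierstrassCurve ℤ) (hΔ : W.Δ ≠ 0) {p : ℕ} [Fact p.Prime]
    (hp2 : p ≠ 2) (hW : W.IsSemistableModel) (hirr : W.ModRepIsIrreducible p)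
    {k : Type} [Field k] (φ : ZMod p →+* k) (ρbar : ResidualGaloisRep k)
    (hρ : ((resZ W hΔ p).baseChangeAlong φ).IsEquiv ρbar)
    (K : Type) [Field K] [Algebra k K] (G : Subgroup GQ) (hG : G.index = 2)
    (V : Submodule K (ρbar.baseChange K).V)
    (hV : ∀ σ ∈ G, ∀ x ∈ V, (ρbar.baseChange K).ρ σ x ∈ V) : V = ⊥ ∨ V = ⊤ :=
  H79C.hTW_of_isEquiv W hΔ hp2 hW hirr φ ρbar hρ K G hG V hV

/-- **LL for all odd `p`**, at squarefree levels `M`, also divisible by `p`. `A`: the ramified primes;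
`T`: the unramified primes dividing `M` (`≠ p, s`), all of them `1` modulo `p` with scalar Frobenius; `s`:
an auxiliary prime dividing `M`, only for `p = 3`, with `s ≡ 2` modulo `3`, `3 ∤ a_s(W)` (otherwise `s = 1`).
If `p ∣ M`, assume that `W[p]` is not modular of level `M / p`. Then it is modular of level `M / t₀` for all
`t₀ ∈ T`. Cases at `p`: `p ∤ M` (flat, `H65C1`); `p ∣ M`, `W` multiplicative at `p` and `W[p]` not trivial
at the test element `σ₀` of inertia (strictly ordinary, `H20C1`), or trivial there (ordinary with marks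
`t, y, z` at `p`; `t` and `z` kill all modules: `H75D1`, `H75D2`, `H85C3`, `H85C4`, `H85C5`, `H69C0`, `H69C1`,
`H69C2`, theorem `LevelsIhara.no_patching_marks`); `p ∣ M` and `W` good at `p` is excluded by
`level_div_p_of_good` (`H69C3`). (`H2C38N`, `H2C38O`; step by step in `GuideLevelsOdd`.) -/
theorem LL_all_odd {W : WeierstrassCurve ℤ} (hΔ : W.Δ ≠ 0) {p : ℕ} [Fact p.Prime] (hp2 : p ≠ 2)
    (hW : W.IsSemistableModel) (hirr : W.ModRepIsIrreducible p)
    {M s : ℕ} {A T : Finset ℕ} (hM : Squarefree M) (hmod : W.IsResiduallyModularOfLevel p M)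
    (hA_prime : ∀ q ∈ A, q.Prime) (hA_ne : ∀ q ∈ A, q ≠ p)
    (hA_ram : ∀ q ∈ A, ¬ (resZ W hΔ p).IsUnramifiedAt q)
    (hA_unip : ∀ q ∈ A, ∀ P : ValuationSubring Qb, P.LiesOverPrime q →
      ∀ σ ∈ P.inertiaSubgroupIn ℚ, LinearMap.charpoly ((resZ W hΔ p).ρ σ) = (X - 1) ^ 2)
    (hunr : ∀ q : ℕ, q.Prime → q ≠ p → q ∉ A → (resZ W hΔ p).IsUnramifiedAt q)
    (hT_prime : ∀ t ∈ T, t.Prime) (hT_dvd : ∀ t ∈ T, p ∣ t - 1)
    (hT_unr : ∀ t ∈ T, (resZ W hΔ p).IsUnramifiedAt t)
    (hT_scalar : ∀ t ∈ T, ∃ u : ℤ, u ^ 2 = 1 ∧ ∀ P : ValuationSubring Qb, P.LiesOverPrime t →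
      ∀ φ : GQ, P.IsFrobeniusAt φ t → (resZ W hΔ p).ρ φ = (u : ZMod p) • 1)
    (haux : (p = 3 → s.Prime ∧ s % 3 = 2 ∧ W.IsGoodPrimeFor s ∧ ¬ (3 : ℤ) ∣ W.apOfModel s) ∧
      (p ≠ 3 → s = 1))
    (hs3 : p = 3 → s ∣ M) (hsp : s ≠ p) (hsA : s ∉ A) (hsT : s ∉ T)
    (hcover : ∀ q : ℕ, q.Prime → q ∣ M → q ∈ A ∨ q ∈ T ∨ q = s ∨ q = p)
    (hA : ∀ q ∈ A, q ∣ M) (hT : ∀ q ∈ T, q ∣ M ∧ q ≠ p)
    (hmin : p ∣ M → ¬ W.IsResiduallyModularOfLevel p (M / p)) {t₀ : ℕ} (ht₀ : t₀ ∈ T) :
    W.IsResiduallyModularOfLevel p (M / t₀) :=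
  by_contra (H2C.noLL_of_tw hp2 (fun _ _ φ r hr K _ _ G hG V hV =>
    H79C.hTW_of_isEquiv W hΔ hp2 hW hirr φ r hr K G hG V hV) hW hirr M s A T hM hmod
    ⟨hA_prime, hA_ne, hA_ram, hA_unip, hunr, hT_prime, hT_dvd, hT_unr, hT_scalar, by simp, by simp,
      by simp, by simp, by simp, by simp⟩ haux hs3 hsp hsA hsT hcover hA hT hmin t₀ ht₀)

/-- **`H2C.NoLL W hΔ p` unfolded**: it is the statement of `LL_all_odd` for all `M`, `s`, `A`, `T`
(`H57.S59.ResHypB W hΔ p A T ∅ _`: the hypotheses `hA_prime` to `hT_scalar`; `H30.S59.Aux W p s`: the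
hypothesis `haux`). -/
theorem noLL_iff (W : WeierstrassCurve ℤ) (hΔ : W.Δ ≠ 0) (p : ℕ) [Fact p.Prime] :
    H2C.NoLL W hΔ p ↔
      ∀ (M s : ℕ) (A T : Finset ℕ), Squarefree M → W.IsResiduallyModularOfLevel p M →
        H57.S59.ResHypB W hΔ p A T ∅ (fun _ => 1) → H30.S59.Aux W p s → (p = 3 → s ∣ M) →
        s ≠ p → s ∉ A → s ∉ T →
        (∀ q : ℕ, q.Prime → q ∣ M → q ∈ A ∨ q ∈ T ∨ q = s ∨ q = p) →
        (∀ q ∈ A, q ∣ M) → (∀ q ∈ T, q ∣ M ∧ q ≠ p) →
        (p ∣ M → ¬ W.IsResiduallyModularOfLevel p (M / p)) →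
        ∀ t₀ ∈ T, ¬ W.IsResiduallyModularOfLevel p (M / t₀) → False :=
  Iff.rfl

/-- **From `LL_all_odd` to S38**: choose a minimal level dividing `M s`; Mazur's principle
(`LevelsMazur.lower_nonscalar`) removes the nonscalar unramified primes, `LL_all_odd` the others, and
`LevelsMazur.lower_of_trace` the auxiliary prime. Proved in `H2C38S`. -/
theorem lower_of_noLL {p : ℕ} [Fact p.Prime] {W : WeierstrassCurve ℤ} {hΔ : W.Δ ≠ 0}
    (hLL : H2C.NoLL W hΔ p) (hp2 : p ≠ 2) (hW : W.IsSemistableModel)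
    (hirr : W.ModRepIsIrreducible p) {M q : ℕ} (hq : q.Prime) (hqp : q ≠ p) (hqM : q ∣ M)
    (hM : Squarefree M) (hunr : (resZ W hΔ p).IsUnramifiedAt q)
    (hres : W.IsResiduallyModularOfLevel p M) : W.IsResiduallyModularOfLevel p (M / q) :=
  H2C.S38_of hLL hp2 hW hirr hq hqp hqM hM hunr hres

/-- **Removal of `p` at good reduction.** `W` semistable with good reduction at the odd prime `p`,
`W[p]` irreducible; `M` divisible by `p` and by all primes `q ≠ p` at which `W[p]` is ramified. Then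
`W[p]` is modular of level `M / p`. Proof: `W` is modular (modularity of semistable curves), of a level
prime to `p`; LL removes the primes at which `W[p]` is unramified. (`H42X.exact_final`, `H69C3`.) -/
theorem level_div_p_of_good {W : WeierstrassCurve ℤ} (hΔ : W.Δ ≠ 0) {p : ℕ} [Fact p.Prime]
    (hp2 : p ≠ 2) (hW : W.IsSemistableModel) (hirr : W.ModRepIsIrreducible p)
    (hgood : ¬ (p : ℤ) ∣ W.Δ) {M : ℕ} (hM : M ≠ 0) (hpM : p ∣ M)
    (hram : ∀ q : ℕ, q.Prime → q ≠ p → ¬ (resZ W hΔ p).IsUnramifiedAt q → q ∣ M) :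
    W.IsResiduallyModularOfLevel p (M / p) :=
  H69C.level_div_of_good (H69C.noLLF hp2 (fun _ _ φ r hr K _ _ G hG V hV =>
    H79C.hTW_of_isEquiv W hΔ hp2 hW hirr φ r hr K G hG V hV) hirr) hp2 hW hirr hgood hM hpM hram

/-- **S38**: `W` semistable, `p` odd, `W[p]` irreducible and modular of the squarefree level `M`,
unramified at the prime `q ≠ p` dividing `M`: then it is modular of level `M / q`. (The
representation `W[p]` is written with `residualGaloisRepOf`; `hcard`, `hker` are the proofs that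
`W[p]` has `p²` elements and that the action factors through a finite level.) -/
theorem S38_level_lowering (p : ℕ) [Fact p.Prime] (hp2 : p ≠ 2) (W : WeierstrassCurve ℤ)
    (hΔ : W.Δ ≠ 0) (hW : W.IsSemistableModel)
    (hcard : Nat.card (Submodule.torsionBy ℤ ((W.map (Int.castRingHom ℚ))⁄Qb).Point p) = p ^ 2)
    (hker : GaloisFactorsThroughFiniteLevel
      (galoisRepModuleEnd (K := Qb) ℚ (W.map (Int.castRingHom ℚ)) p))
    (hirr : W.ModRepIsIrreducible p) (M q : ℕ) (hq : q.Prime) (hqp : q ≠ p) (hqM : q ∣ M)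
    (hq2 : ¬ q ^ 2 ∣ M) (hM : Squarefree M)
    (hunr : ((W.map (Int.castRingHom ℚ)).residualGaloisRepOf p hcard hker).IsUnramifiedAt q)
    (hmod : W.IsResiduallyModularOfLevel p M) : W.IsResiduallyModularOfLevel p (M / q) :=
  S38.result p hp2 W hΔ hW hcard hker hirr M q hq hqp hqM hq2 hM hunr hmod

end Fermat.Agent.Guide.Levels
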