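import Mathlib
import Fermat.Prelude.Def_ModularCurve_X0ModL
import Fermat.Prelude.Def_ModularForm_HeckeOperatorForms
import Fermat.Prelude.Thm_ModularFormClass_qCoeff_heckeT
import Fermat.Agent.H28Jq

/-!
# `q`-expansions of level one modular forms
-/

set_option autoImplicit false

noncomputable section

open UpperHalfPlane ModularForm ModularFormClass MatrixGroups EisensteinSeries ModularCurve

namespace Fermat.Agent.H66

/-- `f` is the `q`-expansion of a level one modular form of weight `k`. -/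
def IsMF (k : ℤ) (f : PowerSeries ℂ) : Prop :=
  ∃ F : ModularForm 𝒮ℒ k, qExpansion 1 F = f

theorem IsMF.mul {k l : ℤ} {f g : PowerSeries ℂ} (hf : IsMF k f) (hg : IsMF l g) :
    IsMF (k + l) (f * g) := by
  obtain ⟨F, rfl⟩ := hf
  obtain ⟨G, rfl⟩ := hg
  exact ⟨F.mul G, ModularForm.qExpansion_mul one_pos one_mem_strictPeriods_SL F G⟩

theorem IsMF.cast {k l : ℤ} {f : PowerSeries ℂ} (hf : IsMF k f) (h : k = l) : IsMF l f := h ▸ hf

theorem IsMF.add {k : ℤ} {f g : PowerSeries ℂ} (hf : IsMF k f) (hg : IsMF k g) :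
    IsMF k (f + g) := by
  obtain ⟨F, rfl⟩ := hf
  obtain ⟨G, rfl⟩ := hg
  exact ⟨F + G, ModularForm.qExpansion_add one_pos one_mem_strictPeriods_SL F G⟩

theorem IsMF.sub {k : ℤ} {f g : PowerSeries ℂ} (hf : IsMF k f) (hg : IsMF k g) :
    IsMF k (f - g) := by
  obtain ⟨F, rfl⟩ := hf
  obtain ⟨G, rfl⟩ := hg
  exact ⟨F - G, ModularForm.qExpansion_sub one_pos one_mem_strictPeriods_SL F G⟩

theorem IsMF.smul {k : ℤ} {f : PowerSeries ℂ} (hf : IsMF k f) (c : ℂ) : IsMF k (c • f) := by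
  obtain ⟨F, rfl⟩ := hf
  exact ⟨c • F, ModularForm.qExpansion_smul one_pos one_mem_strictPeriods_SL c F⟩

theorem IsMF.pow {k : ℤ} {f : PowerSeries ℂ} (hf : IsMF k f) (n : ℕ) : IsMF (n * k) (f ^ n) := by
  obtain ⟨F, rfl⟩ := hf
  exact ⟨F.pow n, ModularForm.qExpansion_pow one_pos one_mem_strictPeriods_SL F n⟩

/-- the `q`-expansion of `E₄` -/
def e4 : PowerSeries ℂ := eisenstein4.map (Int.castRingHom ℂ)

/-- the `q`-expansion of `Δ` -/
def dl : PowerSeries ℂ := PowerSeries.X * dedekindEtaUnit.map (Int.castRingHom ℂ)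

theorem isMF_e4 : IsMF 4 e4 := by
  refine ⟨E₄, ?_⟩
  ext n
  rw [E_qExpansion_coeff _ ⟨2, rfl⟩]
  simp only [e4, eisenstein4, PowerSeries.coeff_map, PowerSeries.coeff_mk,
    show bernoulli 4 = -1 / 30 by decide +kernel]
  split_ifs with hn
  · simp
  · simp only [ArithmeticFunction.sigma_apply]
    push_cast
    norm_num

theorem ofPowerSeries_dl : HahnSeries.ofPowerSeries ℤ ℂ dl = H28.deltaL ℂ := by
  rw [dl, H28.deltaL, map_mul]
  congr 1
  exact HahnSeries.ofPowerSeries_X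

theorem qExpansion_discriminant : qExpansion 1 (CuspForm.discriminant) = dl := by
  ext n
  symm
  refine ModularFormClass.qExpansion_coeff_unique (f := CuspForm.discriminant) (Γ := 𝒮ℒ) (k := 12)
    (c := fun n => dl.coeff n) one_pos one_mem_strictPeriods_SL (fun τ => ?_) n
  have h := H28.hasExp_discriminant τ
  rw [← ofPowerSeries_dl, H28.LSum.ofPowerSeries] at h
  simpa [CuspForm.coe_discriminant] using h

/-- Division by `Δ`. -/
theorem IsMF.exists_eq {k : ℤ} {f : PowerSeries ℂ} (hf : IsMF k f)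
    (h0 : f.coeff 0 = 0) : ∃ g, IsMF (k - 12) g ∧ f = dl * g := by
  obtain ⟨F, rfl⟩ := hf
  refine ⟨_, ⟨CuspForm.discriminantEquiv (F.toCuspForm h0), rfl⟩, ?_⟩
  rw [ModularForm.qExpansion_eq_qExpansion_discriminant_mul F h0, ← qExpansion_discriminant]
  rfl

theorem isMF_dl : IsMF 12 dl := by
  refine ⟨CuspForm.discriminant.toModularFormₗ, ?_⟩
  rw [← qExpansion_discriminant]
  rfl

theorem IsMF.zero_weight {f : PowerSeries ℂ} (hf : IsMF 0 f) :
    ∃ c : ℂ, f = PowerSeries.C c := by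
  obtain ⟨F, rfl⟩ := hf
  obtain ⟨c, hc⟩ := levelOne_weight_zero_const F
  refine ⟨c, ?_⟩
  ext n
  symm
  refine ModularFormClass.qExpansion_coeff_unique (f := F) (Γ := 𝒮ℒ) (k := 0)
    (c := fun n => (PowerSeries.C c).coeff n) one_pos one_mem_strictPeriods_SL (fun τ => ?_) n
  rw [hc]
  have := hasSum_single (f := fun n : ℕ => (PowerSeries.C c).coeff n •
    Function.Periodic.qParam 1 (τ : ℂ) ^ n) 0 (by
      intro n hn
      simp [PowerSeries.coeff_C, hn])
  simpa using this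

theorem coeff_zero_e4 : e4.coeff 0 = 1 := by
  simp [e4, eisenstein4]

theorem gamma0_one_coe_eq_SL :
    ((CongruenceSubgroup.Gamma0 1 : Subgroup SL(2, ℤ)) : Subgroup (GL (Fin 2) ℝ)) = 𝒮ℒ := by
  have h : CongruenceSubgroup.Gamma0 1 = ⊤ := by
    ext g
    simp [CongruenceSubgroup.Gamma0_mem, Subsingleton.elim _ (0 : ZMod 1)]
  simp [h, MonoidHom.range_eq_map]

/-- The Hecke operator `T_p` in level one, on `q`-expansions. -/
theorem IsMF.hecke {k : ℤ} {f : PowerSeries ℂ} (hf : IsMF k f) {p : ℕ} (hp : p.Prime) :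
    IsMF k (PowerSeries.mk fun n => f.coeff (n * p) +
      if p ∣ n then (p : ℂ) ^ (k - 1) * f.coeff (n / p) else 0) := by
  obtain ⟨F, rfl⟩ := hf
  let F' : ModularForm (CongruenceSubgroup.Gamma0 1) k := ModularForm.mcast rfl F
    gamma0_one_coe_eq_SL
  have hp1 : ¬ p ∣ 1 := fun h => hp.one_lt.ne' (Nat.dvd_one.1 h)
  refine ⟨ModularForm.mcast rfl (ModularForm.heckeTLin k hp hp1 F') gamma0_one_coe_eq_SL.symm, ?_⟩
  ext n
  have h := ModularFormClass.qCoeff_heckeT F' (by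
    rw [gamma0_one_coe_eq_SL]; exact one_mem_strictPeriods_SL) hp.ne_zero n
  rw [PowerSeries.coeff_mk]
  exact h

theorem jqModC_eq :
    jqModC ℂ = HahnSeries.ofPowerSeries ℤ ℂ e4 ^ 3 * H28.deltaInvL ℂ := by
  rw [H28.deltaInvL, jqModC, jNum, e4, map_mul, map_mul, map_pow, map_pow]
  ring

theorem dl_mul_inv : HahnSeries.ofPowerSeries ℤ ℂ dl * H28.deltaInvL ℂ = 1 := by
  rw [ofPowerSeries_dl, H28.deltaL_mul_deltaInvL]

/-- A level one form of weight `12 n` divided by `Δ ^ n` is a polynomial in `j`. -/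
theorem IsMF.exists_aeval : ∀ (n : ℕ) {f : PowerSeries ℂ} (_ : IsMF ((12 * n : ℕ) : ℤ) f),
    ∃ P : Polynomial ℂ, HahnSeries.ofPowerSeries ℤ ℂ f * H28.deltaInvL ℂ ^ n =
      Polynomial.aeval (jqModC ℂ) P := by
  intro n
  induction n with
  | zero =>
    intro f hf
    obtain ⟨c, rfl⟩ := IsMF.zero_weight (by simpa using hf)
    refine ⟨Polynomial.C c, ?_⟩
    simp [algebraMap_laurentSeries_eq_single]
  | succ n ih =>
    intro f hf
    set a : ℂ := f.coeff 0 with ha
    have h1 : IsMF ((12 * (n + 1) : ℕ) : ℤ) (e4 ^ (3 * (n + 1))) :=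
      (isMF_e4.pow (3 * (n + 1))).cast (by push_cast; ring)
    have h2 : IsMF ((12 * (n + 1) : ℕ) : ℤ) (f - a • e4 ^ (3 * (n + 1))) := hf.sub (h1.smul a)
    have h0 : (f - a • e4 ^ (3 * (n + 1))).coeff 0 = 0 := by
      have := coeff_zero_e4
      rw [PowerSeries.coeff_zero_eq_constantCoeff_apply] at this
      rw [map_sub, PowerSeries.coeff_smul, ← ha, PowerSeries.coeff_zero_eq_constantCoeff_apply,
        map_pow, this]
      simp
    obtain ⟨g, hg, hfg⟩ := h2.exists_eq h0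
    obtain ⟨P, hP⟩ := ih (hg.cast (by push_cast; ring))
    refine ⟨P + Polynomial.C a * Polynomial.X ^ (n + 1), ?_⟩
    have h3 : f = a • e4 ^ (3 * (n + 1)) + dl * g := by rw [← hfg]; ring
    have h4 : HahnSeries.ofPowerSeries ℤ ℂ f = algebraMap ℂ _ a *
        HahnSeries.ofPowerSeries ℤ ℂ e4 ^ (3 * (n + 1)) +
        HahnSeries.ofPowerSeries ℤ ℂ dl * HahnSeries.ofPowerSeries ℤ ℂ g := by
      conv_lhs => rw [h3]
      rw [map_add, map_mul, PowerSeries.smul_eq_C_mul, map_mul, map_pow, HahnSeries.ofPowerSeries_C,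
        algebraMap_laurentSeries_eq_single]
      rfl
    rw [h4, map_add, ← hP, map_mul, map_pow, Polynomial.aeval_C, Polynomial.aeval_X, jqModC_eq]
    have h5 := dl_mul_inv
    linear_combination (HahnSeries.ofPowerSeries ℤ ℂ g * H28.deltaInvL ℂ ^ n) * h5

end Fermat.Agent.H66
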