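import Fermat.Agent.H23Trunc
import Fermat.Agent.H45P1Index
import Fermat.Agent.H66Level1
import Fermat.Agent.H61Formal
import Fermat.Agent.H80Stab
import Fermat.Prelude.Thm_ModularForm_sturm_bound_Gamma0
import Fermat.Prelude.Thm_CongruenceSubgroup_one_mem_strictPeriods_Gamma0

/-!
# Hauptmodul identities in levels 2 and 3 (helper23)
-/

set_option autoImplicit false
set_option linter.unusedSectionVars false

noncomputable section

open UpperHalfPlane ModularForm MatrixGroups CongruenceSubgroup ModularCurve PowerSeries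
open scoped Pointwise

namespace Fermat.Agent.H23.Haupt

open Fermat.Agent.H23.Trunc Fermat.Agent.H28 Fermat.Agent.H61

local notation "𝕢" => Function.Periodic.qParam

/-! ### Coefficients -/

/-- `Δ` as an integral power series -/
def DZ : PowerSeries ℤ := PowerSeries.X * dedekindEtaUnit

theorem ofPowerSeries_DZ : HahnSeries.ofPowerSeries ℤ ℤ DZ = deltaL ℤ := by
  rw [DZ, map_mul, deltaL, HahnSeries.ofPowerSeries_X]
  congr 2

theorem toL_int (f : PowerSeries ℤ) : toL ℤ f = HahnSeries.ofPowerSeries ℤ ℤ f := by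
  rw [toL]
  congr 1

theorem mul_DZ : PowerSeries.C (1728 : ℤ) * DZ = eisenstein4 ^ 3 - E6f ^ 2 := by
  apply HahnSeries.ofPowerSeries_injective (Γ := ℤ) (R := ℤ)
  rw [map_sub, map_pow, map_pow, map_mul, ofPowerSeries_DZ, HahnSeries.ofPowerSeries_C]
  have h := mul_deltaL ℤ
  rw [E4L, E6L, toL_int, toL_int] at h
  rw [← h]
  congr 1

theorem ap_e4 : Ap 17 eisenstein4 [1, 240, 2160, 6720, 17520, 30240, 60480, 82560, 140400, 181680,
    272160, 319680, 490560, 527520, 743040, 846720, 1123440] := by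
  intro n hn
  rw [eisenstein4, PowerSeries.coeff_mk]
  revert n
  decide +kernel

theorem ap_e6 : Ap 17 E6f [1, -504, -16632, -122976, -532728, -1575504, -4058208, -8471232,
    -17047800, -29883672, -51991632, -81170208, -129985632, -187132176, -279550656, -384422976,
    -545530104] := by
  intro n hn
  rw [E6f, PowerSeries.coeff_mk]
  revert n
  decide +kernel

/-- the coefficients of `Δ` -/
def dlist : List ℤ := [0, 1, -24, 252, -1472, 4830, -6048, -16744, 84480, -113643, -115920, 534612, -370944, -577738, 401856, 1217160, 987136]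

theorem ap_D : Ap 17 DZ dlist := by
  have h1 := (ap_e4.pow_succ (ap_e4.pow_succ (ap_e4.pow_succ Ap.pow_zero))).sub
      (ap_e6.pow_succ (ap_e6.pow_succ Ap.pow_zero))
  rw [← mul_DZ] at h1
  refine (Ap.of_smul (by norm_num) h1).eq ?_
  decide +kernel

/-- the list of coefficients of `E₄³` -/
def e43list : List ℤ := [1, 720, 179280, 16954560, 396974160, 4632858720, 34413301440, 187477879680, 814940600400, 2975469665040, 9486467837280, 27053330840640, 70485969919680, 169930679355360, 384163875688320, 820167497170560, 1668890801059920]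

theorem ap_e43 : Ap 17 (eisenstein4 ^ 3) e43list :=
  (ap_e4.pow_succ (ap_e4.pow_succ (ap_e4.pow_succ Ap.pow_zero))).eq (by decide +kernel)

/-- (E1), coefficients -/
theorem coeff_E1 : ∀ n < 17, ((DZ + C (256 : ℤ) * exPS 2 DZ) ^ 3).coeff n =
    (eisenstein4 ^ 3 * (DZ * exPS 2 DZ)).coeff n := by
  have h1 := ap_D.add ((ap_D.ex 2).smul 256)
  have h2 := h1.pow_succ (h1.pow_succ (h1.pow_succ Ap.pow_zero))
  have h3 := ap_e43.mul (ap_D.mul (ap_D.ex 2))
  intro n hn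
  exact (h2.eq (by decide +kernel)).coeff_eq h3 hn

/-- (E2), coefficients -/
theorem coeff_E2 : ∀ n < 17, ((DZ + C (16 : ℤ) * exPS 2 DZ) ^ 3).coeff n =
    (exPS 2 (eisenstein4 ^ 3) * (DZ * exPS 2 DZ)).coeff n := by
  have h1 := ap_D.add ((ap_D.ex 2).smul 16)
  have h2 := h1.pow_succ (h1.pow_succ (h1.pow_succ Ap.pow_zero))
  have h3 := (ap_e43.ex 2).mul (ap_D.mul (ap_D.ex 2))
  intro n hn
  exact (h2.eq (by decide +kernel)).coeff_eq h3 hn

/-- (E3), coefficients -/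
theorem coeff_E3 : ∀ n < 17, ((DZ ^ 2 + C (196830 : ℤ) * (DZ * exPS 3 DZ) +
      C (387420489 : ℤ) * exPS 3 DZ ^ 2) ^ 2).coeff n =
    ((DZ * exPS 3 DZ) * (C (756 : ℤ) * DZ - eisenstein4 ^ 3 +
      C (19131876 : ℤ) * exPS 3 DZ) ^ 2).coeff n := by
  have hD3 := ap_D.ex 3
  have h1 := ((ap_D.pow_succ (ap_D.pow_succ Ap.pow_zero)).add
    ((ap_D.mul hD3).smul 196830)).add ((hD3.pow_succ (hD3.pow_succ Ap.pow_zero)).smul 387420489)
  have h2 := h1.pow_succ (h1.pow_succ Ap.pow_zero)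
  have h3 := ((ap_D.smul 756).sub ap_e43).add (hD3.smul 19131876)
  have h4 := (ap_D.mul hD3).mul (h3.pow_succ (h3.pow_succ Ap.pow_zero))
  intro n hn
  exact (h2.eq (by decide +kernel)).coeff_eq h4 hn

/-- (E4), coefficients -/
theorem coeff_E4 : ∀ n < 17, ((DZ ^ 2 + C (270 : ℤ) * (DZ * exPS 3 DZ) +
      C (729 : ℤ) * exPS 3 DZ ^ 2) ^ 2).coeff n =
    ((DZ * exPS 3 DZ) * (C (36 : ℤ) * DZ - exPS 3 (eisenstein4 ^ 3) +
      C (756 : ℤ) * exPS 3 DZ) ^ 2).coeff n := by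
  have hD3 := ap_D.ex 3
  have h1 := ((ap_D.pow_succ (ap_D.pow_succ Ap.pow_zero)).add
    ((ap_D.mul hD3).smul 270)).add ((hD3.pow_succ (hD3.pow_succ Ap.pow_zero)).smul 729)
  have h2 := h1.pow_succ (h1.pow_succ Ap.pow_zero)
  have h3 := ((ap_D.smul 36).sub (ap_e43.ex 3)).add (hD3.smul 756)
  have h4 := (ap_D.mul hD3).mul (h3.pow_succ (h3.pow_succ Ap.pow_zero))
  intro n hn
  exact (h2.eq (by decide +kernel)).coeff_eq h4 hn

/-! ### Modular forms on `Γ₀(N)` -/

section Forms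

variable (N : ℕ) [NeZero N]

/-- `f` is the `q`-expansion of a modular form of weight `k` on `Γ₀(N)` -/
def IsMN (k : ℤ) (f : PowerSeries ℂ) : Prop :=
  ∃ F : ModularForm (Gamma0 N) k, qExpansion 1 F = f

variable {N}

theorem IsMN.mul {k l : ℤ} {f g : PowerSeries ℂ} (hf : IsMN N k f) (hg : IsMN N l g) :
    IsMN N (k + l) (f * g) := by
  obtain ⟨F, rfl⟩ := hf
  obtain ⟨G, rfl⟩ := hg
  exact ⟨F.mul G, ModularForm.qExpansion_mul one_pos
    (CongruenceSubgroup.one_mem_strictPeriods_Gamma0 N) F G⟩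

theorem IsMN.cast {k l : ℤ} {f : PowerSeries ℂ} (hf : IsMN N k f) (h : k = l) : IsMN N l f :=
  h ▸ hf

theorem IsMN.add {k : ℤ} {f g : PowerSeries ℂ} (hf : IsMN N k f) (hg : IsMN N k g) :
    IsMN N k (f + g) := by
  obtain ⟨F, rfl⟩ := hf
  obtain ⟨G, rfl⟩ := hg
  exact ⟨F + G, ModularForm.qExpansion_add one_pos
    (CongruenceSubgroup.one_mem_strictPeriods_Gamma0 N) F G⟩

theorem IsMN.sub {k : ℤ} {f g : PowerSeries ℂ} (hf : IsMN N k f) (hg : IsMN N k g) :
    IsMN N k (f - g) := by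
  obtain ⟨F, rfl⟩ := hf
  obtain ⟨G, rfl⟩ := hg
  exact ⟨F - G, ModularForm.qExpansion_sub one_pos
    (CongruenceSubgroup.one_mem_strictPeriods_Gamma0 N) F G⟩

theorem IsMN.smul {k : ℤ} {f : PowerSeries ℂ} (hf : IsMN N k f) (c : ℂ) : IsMN N k (c • f) := by
  obtain ⟨F, rfl⟩ := hf
  exact ⟨c • F, ModularForm.qExpansion_smul one_pos
    (CongruenceSubgroup.one_mem_strictPeriods_Gamma0 N) c F⟩

theorem IsMN.C_mul {k : ℤ} {f : PowerSeries ℂ} (hf : IsMN N k f) (c : ℂ) :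
    IsMN N k (PowerSeries.C c * f) := by
  have := hf.smul c
  rwa [PowerSeries.smul_eq_C_mul] at this

theorem IsMN.pow {k : ℤ} {f : PowerSeries ℂ} (hf : IsMN N k f) (n : ℕ) :
    IsMN N (n * k) (f ^ n) := by
  obtain ⟨F, rfl⟩ := hf
  exact ⟨F.pow n, ModularForm.qExpansion_pow one_pos
    (CongruenceSubgroup.one_mem_strictPeriods_Gamma0 N) F n⟩

/-- Sturm bound -/
theorem IsMN.sturm {k : ℤ} {f : PowerSeries ℂ} (hf : IsMN N k f)
    (h : ∀ n : ℕ, n ≤ (k * (dedekindPsi N : ℕ)).toNat / 12 → f.coeff n = 0) : f = 0 := by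
  obtain ⟨F, rfl⟩ := hf
  have hF : F = 0 := ModularForm.sturm_bound_Gamma0 N F (by
    rw [Fermat.Agent.H45.index_Gamma0]; exact h)
  rw [hF]
  exact qExpansion_zero 1

/-- restriction of a level one form -/
def restr {k : ℤ} (F : ModularForm 𝒮ℒ k) : ModularForm (Gamma0 N) k where
  toFun := F
  slash_action_eq' A hA := by
    obtain ⟨γ, -, rfl⟩ := hA
    exact F.slash_action_eq' _ ⟨γ, rfl⟩
  holo' := F.holo'
  bdd_at_cusps' {c} hc := F.bdd_at_cusps' (hc.mono (by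
    rintro _ ⟨γ, -, rfl⟩
    exact ⟨γ, rfl⟩))

theorem IsMN.of_isMF {k : ℤ} {f : PowerSeries ℂ} (hf : H66.IsMF k f) : IsMN N k f := by
  obtain ⟨F, rfl⟩ := hf
  exact ⟨restr F, rfl⟩

/-- the form `F ∣[k] diag(N,1)` -/
def raise {k : ℤ} (F : ModularForm 𝒮ℒ k) : ModularForm (Gamma0 N) k where
  toFun := (F : ℍ → ℂ) ∣[k] (heckeDiagMatrix N)
  slash_action_eq' A hA := by
    obtain ⟨γ, hγ, rfl⟩ := hA
    obtain ⟨δ, hδ⟩ := H80.heckeDiag_mem_conj N hγ
    have h1 : (F : ℍ → ℂ) ∣[k] (Matrix.SpecialLinearGroup.mapGL ℝ δ) = F :=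
      F.slash_action_eq' _ ⟨δ, rfl⟩
    rw [← SlashAction.slash_mul, hδ, SlashAction.slash_mul, h1]
  holo' := MDifferentiable.slash F.holo' k _
  bdd_at_cusps' {c} hc := by
    have hc' : IsCusp c (ConjAct.toConjAct (heckeDiagMatrix N)⁻¹ • 𝒮ℒ) := by
      refine hc.mono ?_
      rintro _ ⟨γ, hγ, rfl⟩
      obtain ⟨δ, hδ⟩ := H80.heckeDiag_mem_conj N hγ
      rw [Subgroup.mem_pointwise_smul_iff_inv_smul_mem]
      refine ⟨δ, ?_⟩
      rw [ConjAct.smul_def]
      simp [hδ]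
    exact (ModularForm.translate F (heckeDiagMatrix N)).bdd_at_cusps' hc'

theorem raise_apply {k : ℤ} (F : ModularForm 𝒮ℒ k) (τ : ℍ) :
    raise (N := N) F τ = (N : ℂ) ^ (k - 1) * F (heckeDiagMatrix N • τ) := by
  show ((F : ℍ → ℂ) ∣[k] (heckeDiagMatrix N)) τ = _
  rw [slash_heckeDiagMatrix_apply _ (NeZero.ne N)]

theorem qExpansion_raise {k : ℤ} (F : ModularForm 𝒮ℒ k) :
    qExpansion 1 (raise (N := N) F) = ((N : ℂ) ^ (k - 1)) • exPS N (qExpansion 1 F) := by
  have hN : 0 < N := Nat.pos_of_ne_zero (NeZero.ne N)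
  ext m
  rw [PowerSeries.coeff_smul, exPS, PowerSeries.coeff_mk, smul_eq_mul]
  symm
  refine ModularFormClass.qExpansion_coeff_unique
    (c := fun m => (N : ℂ) ^ (k - 1) * (if N ∣ m then
      (qExpansion 1 F).coeff (m / N) else 0)) one_pos
    (CongruenceSubgroup.one_mem_strictPeriods_Gamma0 N) (f := raise F) ?_ m
  intro τ
  have h1 := ModularForm.hasSum_qExpansion (k := k) (f := F) one_pos
    one_mem_strictPeriods_SL (heckeDiagMatrix N • τ)
  have h2 := h1.mul_left ((N : ℂ) ^ (k - 1))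
  rw [raise_apply]
  have hinj : Function.Injective (fun m : ℕ => N * m) := fun a b h => Nat.eq_of_mul_eq_mul_left hN h
  rw [← hinj.hasSum_iff]
  · convert! h2 using 2 with m
    have hq : 𝕢 (1 : ℝ) ((heckeDiagMatrix N • τ : ℍ) : ℂ) = 𝕢 (1 : ℝ) (τ : ℂ) ^ N := by
      rw [coe_heckeDiagMatrix_smul (NeZero.ne N), Function.Periodic.qParam,
        Function.Periodic.qParam, ← Complex.exp_nat_mul]
      congr 1
      push_cast
      ring
    simp only [Function.comp_apply, Nat.dvd_mul_right, if_true, Nat.mul_div_cancel_left _ hN]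
    rw [hq, ← pow_mul, smul_eq_mul, mul_assoc]
  · intro m hm
    have : ¬ N ∣ m := fun ⟨d, hd⟩ => hm ⟨d, hd.symm⟩
    simp [this]

theorem IsMN.ex {k : ℤ} {f : PowerSeries ℂ} (hf : H66.IsMF k f) : IsMN N k (exPS N f) := by
  obtain ⟨F, rfl⟩ := hf
  have h1 : IsMN N k (qExpansion 1 (raise (N := N) F)) := ⟨_, rfl⟩
  rw [qExpansion_raise] at h1
  have h2 := h1.smul ((N : ℂ) ^ (k - 1))⁻¹
  rwa [smul_smul, inv_mul_cancel₀ (zpow_ne_zero _ (Nat.cast_ne_zero.mpr (NeZero.ne N))),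
    one_smul] at h2

end Forms

/-! ### The identities for power series -/

section Identities

local notation "ι" => Int.castRingHom ℂ

theorem map_exPS {R S : Type*} [CommRing R] [CommRing S] (φ : R →+* S) (N : ℕ)
    (f : PowerSeries R) : (exPS N f).map φ = exPS N (f.map φ) := by
  ext n
  simp only [exPS, PowerSeries.coeff_map, PowerSeries.coeff_mk]
  split_ifs <;> simp

theorem map_DZ : DZ.map ι = H66.dl := by
  rw [DZ, map_mul, PowerSeries.map_X, H66.dl]

theorem map_e4 : eisenstein4.map ι = H66.e4 := rfl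

/-- comparison of integral power series which are modular forms -/
theorem eq_of_isMN {N : ℕ} [NeZero N] {k : ℤ} {A B : PowerSeries ℤ}
    (hA : IsMN N k (A.map ι)) (hB : IsMN N k (B.map ι)) {M : ℕ}
    (hM : (k * (dedekindPsi N : ℕ)).toNat / 12 < M) (h : ∀ n < M, A.coeff n = B.coeff n) :
    A = B := by
  have h1 : A.map ι - B.map ι = 0 := (hA.sub hB).sturm fun n hn => by
    rw [map_sub, PowerSeries.coeff_map, PowerSeries.coeff_map, h n (lt_of_le_of_lt hn hM),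
      sub_self]
  have h2 : A.map ι = B.map ι := sub_eq_zero.mp h1
  exact PowerSeries.map_injective ι (RingHom.injective_int ι) h2

theorem isMN_D (N : ℕ) [NeZero N] : IsMN N 12 (DZ.map ι) := by
  rw [map_DZ]; exact IsMN.of_isMF H66.isMF_dl

theorem isMN_exD (N : ℕ) [NeZero N] : IsMN N 12 ((exPS N DZ).map ι) := by
  rw [map_exPS, map_DZ]; exact IsMN.ex H66.isMF_dl

theorem isMF_e43 : H66.IsMF 12 ((eisenstein4 ^ 3).map ι) := by
  rw [map_pow, map_e4]
  exact (H66.isMF_e4.pow 3).cast (by norm_num)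

theorem isMN_e43 (N : ℕ) [NeZero N] : IsMN N 12 ((eisenstein4 ^ 3).map ι) :=
  IsMN.of_isMF isMF_e43

theorem isMN_exe43 (N : ℕ) [NeZero N] : IsMN N 12 ((exPS N (eisenstein4 ^ 3)).map ι) := by
  rw [map_exPS]; exact IsMN.ex isMF_e43

theorem isMN_Cmul {N : ℕ} [NeZero N] {k : ℤ} {f : PowerSeries ℤ} (c : ℤ)
    (h : IsMN N k (f.map ι)) : IsMN N k ((C c * f).map ι) := by
  rw [map_mul, PowerSeries.map_C]
  exact h.C_mul _

theorem isMN_add {N : ℕ} [NeZero N] {k : ℤ} {f g : PowerSeries ℤ}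
    (h : IsMN N k (f.map ι)) (h' : IsMN N k (g.map ι)) : IsMN N k ((f + g).map ι) := by
  rw [map_add]; exact h.add h'

theorem isMN_sub {N : ℕ} [NeZero N] {k : ℤ} {f g : PowerSeries ℤ}
    (h : IsMN N k (f.map ι)) (h' : IsMN N k (g.map ι)) : IsMN N k ((f - g).map ι) := by
  rw [map_sub]; exact h.sub h'

theorem isMN_mul {N : ℕ} [NeZero N] {k l m : ℤ} {f g : PowerSeries ℤ}
    (h : IsMN N k (f.map ι)) (h' : IsMN N l (g.map ι)) (hm : k + l = m) :
    IsMN N m ((f * g).map ι) := by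
  rw [map_mul]; exact (h.mul h').cast hm

theorem isMN_pow {N : ℕ} [NeZero N] {k m : ℤ} {f : PowerSeries ℤ} (n : ℕ)
    (h : IsMN N k (f.map ι)) (hm : n * k = m) : IsMN N m ((f ^ n).map ι) := by
  rw [map_pow]; exact (h.pow n).cast hm

theorem psi_two : dedekindPsi 2 = 3 := by decide +kernel

theorem psi_three : dedekindPsi 3 = 4 := by decide +kernel

/-- (E1), integral power series -/
theorem identity_E1 : (DZ + C (256 : ℤ) * exPS 2 DZ) ^ 3 =
    eisenstein4 ^ 3 * (DZ * exPS 2 DZ) := by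
  refine eq_of_isMN (N := 2) (k := 36) (M := 17)
    (isMN_pow 3 (isMN_add (isMN_D 2) (isMN_Cmul _ (isMN_exD 2))) (by norm_num))
    (isMN_mul (isMN_e43 2) (isMN_mul (isMN_D 2) (isMN_exD 2) rfl) (by norm_num))
    (by rw [psi_two]; decide) coeff_E1

/-- (E2), integral power series -/
theorem identity_E2 : (DZ + C (16 : ℤ) * exPS 2 DZ) ^ 3 =
    exPS 2 (eisenstein4 ^ 3) * (DZ * exPS 2 DZ) := by
  refine eq_of_isMN (N := 2) (k := 36) (M := 17)
    (isMN_pow 3 (isMN_add (isMN_D 2) (isMN_Cmul _ (isMN_exD 2))) (by norm_num))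
    (isMN_mul (isMN_exe43 2) (isMN_mul (isMN_D 2) (isMN_exD 2) rfl) (by norm_num))
    (by rw [psi_two]; decide) coeff_E2

/-- (E3), integral power series -/
theorem identity_E3 : (DZ ^ 2 + C (196830 : ℤ) * (DZ * exPS 3 DZ) +
      C (387420489 : ℤ) * exPS 3 DZ ^ 2) ^ 2 =
    (DZ * exPS 3 DZ) * (C (756 : ℤ) * DZ - eisenstein4 ^ 3 +
      C (19131876 : ℤ) * exPS 3 DZ) ^ 2 := by
  have hD := isMN_D 3
  have hD3 := isMN_exD 3
  refine eq_of_isMN (N := 3) (k := 48) (M := 17)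
    (isMN_pow 2 (k := 24) (isMN_add (isMN_add (isMN_pow 2 hD (by norm_num))
      (isMN_Cmul _ (isMN_mul hD hD3 (by norm_num))))
      (isMN_Cmul _ (isMN_pow 2 hD3 (by norm_num)))) (by norm_num))
    (isMN_mul (isMN_mul hD hD3 rfl) (isMN_pow 2 (isMN_add (isMN_sub (isMN_Cmul _ hD)
      (isMN_e43 3)) (isMN_Cmul _ hD3)) rfl) (by norm_num))
    (by rw [psi_three]; decide) coeff_E3

/-- (E4), integral power series -/
theorem identity_E4 : (DZ ^ 2 + C (270 : ℤ) * (DZ * exPS 3 DZ) +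
      C (729 : ℤ) * exPS 3 DZ ^ 2) ^ 2 =
    (DZ * exPS 3 DZ) * (C (36 : ℤ) * DZ - exPS 3 (eisenstein4 ^ 3) +
      C (756 : ℤ) * exPS 3 DZ) ^ 2 := by
  have hD := isMN_D 3
  have hD3 := isMN_exD 3
  refine eq_of_isMN (N := 3) (k := 48) (M := 17)
    (isMN_pow 2 (k := 24) (isMN_add (isMN_add (isMN_pow 2 hD (by norm_num))
      (isMN_Cmul _ (isMN_mul hD hD3 (by norm_num))))
      (isMN_Cmul _ (isMN_pow 2 hD3 (by norm_num)))) (by norm_num))
    (isMN_mul (isMN_mul hD hD3 rfl) (isMN_pow 2 (isMN_add (isMN_sub (isMN_Cmul _ hD)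
      (isMN_exe43 3)) (isMN_Cmul _ hD3)) rfl) (by norm_num))
    (by rw [psi_three]; decide) coeff_E4

end Identities

end Fermat.Agent.H23.Haupt
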