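import Fermat.Agent.H98CJ3
import Fermat.Agent.H39Core
import Fermat.Agent.H23Haupt
import Fermat.Agent.H45P1Index

/-!
# Descent of divisibility by three from level `M` to level `M₀` (helper98, S39/S40 piece T3a)
-/

set_option autoImplicit false
set_option linter.unusedSectionVars false

noncomputable section

open AlgebraicCurve WithZero IntermediateField ModularCurve Fermat.Agent.H3RR Fermat.Agent.H8

namespace Fermat.Agent.H98C

section Cubic

variable {F F' : Type*} [Field F] [Field F'] [Algebra F F'] [Module.Finite F F']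

theorem cubic_minpoly (hfr : Module.finrank F F' = 3) {j b : F} {Y : F'}
    (hY : Y ^ 3 - algebraMap F F' j * Y + algebraMap F F' b = 0)
    (hYF : ∀ x : F, algebraMap F F' x ≠ Y) :
    minpoly F Y = Polynomial.X ^ 3 - Polynomial.C j * Polynomial.X + Polynomial.C b ∧
      F⟮Y⟯ = ⊤ := by
  have hint : IsIntegral F Y := Algebra.IsIntegral.isIntegral Y
  have hdvd : (minpoly F Y).natDegree ∣ 3 := by
    rw [← hfr, ← IntermediateField.adjoin.finrank hint]
    exact Dvd.intro _ (Module.finrank_mul_finrank F F⟮Y⟯ F')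
  have hne : (minpoly F Y).natDegree ≠ 1 := by
    rw [ne_eq, minpoly.natDegree_eq_one_iff]
    rintro ⟨x, hx⟩
    exact hYF x hx
  have hdeg : (minpoly F Y).natDegree = 3 :=
    ((Nat.dvd_prime Nat.prime_three).mp hdvd).resolve_left hne
  constructor
  · have hmon : (Polynomial.X ^ 3 - Polynomial.C j * Polynomial.X + Polynomial.C b).Monic := by
      monicity!
    have hroot : Polynomial.aeval Y
        (Polynomial.X ^ 3 - Polynomial.C j * Polynomial.X + Polynomial.C b) = 0 := by
      simpa using hY
    have hPdeg : (Polynomial.X ^ 3 - Polynomial.C j * Polynomial.X +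
        Polynomial.C b).natDegree = 3 := by compute_degree!
    exact (Polynomial.eq_of_monic_of_dvd_of_natDegree_le (minpoly.monic hint) hmon
      (minpoly.dvd F Y hroot) (by rw [hPdeg, hdeg])).symm
  · have h1 := Module.finrank_mul_finrank F F⟮Y⟯ F'
    rw [IntermediateField.adjoin.finrank hint, hdeg, hfr] at h1
    apply IntermediateField.eq_of_le_of_finrank_le le_top
    rw [IntermediateField.finrank_top', hfr, IntermediateField.adjoin.finrank hint, hdeg]

theorem cubic_norm (hfr : Module.finrank F F' = 3) {j b : F} {Y : F'}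
    (hY : Y ^ 3 - algebraMap F F' j * Y + algebraMap F F' b = 0)
    (hYF : ∀ x : F, algebraMap F F' x ≠ Y) : Algebra.norm F Y = -b := by
  obtain ⟨h1, h2⟩ := cubic_minpoly hfr hY hYF
  have hint : IsIntegral F Y := Algebra.IsIntegral.isIntegral Y
  have h3 : Algebra.adjoin F {Y} = ⊤ := by
    rw [← IntermediateField.adjoin_toSubalgebra, h2, IntermediateField.top_toSubalgebra]
  have h4 := Algebra.PowerBasis.norm_gen_eq_coeff_zero_minpoly (PowerBasis.ofAdjoinEqTop hint h3)
  rw [PowerBasis.ofAdjoinEqTop_gen, PowerBasis.ofAdjoinEqTop_dim, h1] at h4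
  have hPdeg : (Polynomial.X ^ 3 - Polynomial.C j * Polynomial.X +
      Polynomial.C b).natDegree = 3 := by compute_degree!
  rw [h4, hPdeg]
  simp [Odd.neg_one_pow (by decide : Odd 3)]

theorem cubic_separable [CharP F 3] (hfr : Module.finrank F F' = 3) {j b : F} (hj : j ≠ 0) {Y : F'}
    (hY : Y ^ 3 - algebraMap F F' j * Y + algebraMap F F' b = 0)
    (hYF : ∀ x : F, algebraMap F F' x ≠ Y) : Algebra.IsSeparable F F' := by
  obtain ⟨h1, h2⟩ := cubic_minpoly hfr hY hYF
  have hint : IsIntegral F Y := Algebra.IsIntegral.isIntegral Y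
  have h3 : (3 : F) = 0 := by exact_mod_cast CharP.cast_eq_zero F 3
  have hsep : IsSeparable F Y := by
    rw [IsSeparable, h1]
    have hder : Polynomial.derivative (Polynomial.X ^ 3 - Polynomial.C j * Polynomial.X +
        Polynomial.C b) = Polynomial.C (-j) := by
      simp only [Polynomial.derivative_add, Polynomial.derivative_sub, Polynomial.derivative_X_pow,
        Polynomial.derivative_C_mul, Polynomial.derivative_X, Polynomial.derivative_C]
      push_cast
      rw [h3]
      simp
    rw [Polynomial.Separable, hder]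
    refine ⟨0, Polynomial.C (-j)⁻¹, ?_⟩
    rw [zero_mul, zero_add, ← Polynomial.C_mul, inv_mul_cancel₀ (neg_ne_zero.mpr hj),
      Polynomial.C_1]
  have h4 : Algebra.IsSeparable F F⟮Y⟯ :=
    (IntermediateField.isSeparable_adjoin_simple_iff_isSeparable F F').mpr hsep
  rw [h2] at h4
  exact (AlgEquiv.Algebra.isSeparable_iff (IntermediateField.topEquiv (F := F) (E := F'))).mp h4

end Cubic

section CubicPlace

variable {K F F' : Type*} [Field K] [IsAlgClosed K] [CharP K 3] [Field F] [Field F'] [Algebra K F]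
  [Algebra K F'] [Algebra F F'] [IsScalarTower K F F'] [Module.Finite F F'] [IsFF K F'] [IsFF K F]
  [HasPrincipalDivisors K F']

/-- A cubic extension `X³ - jX + 1 = 0` in characteristic `3` is not totally ramified at the
places where `j` does not vanish. -/
theorem exists_place_not_dvd (hfr : Module.finrank F F' = 3) {j : F} {X : F'}
    (hX : X ^ 3 - algebraMap F F' j * X + 1 = 0) (hXF : ∀ x : F, algebraMap F F' x ≠ X)
    (w : Place K F) (hj0 : j ≠ 0) (hw : w.ord j ≤ 0) :
    ∃ w' : Place K F', w'.restrict F = w ∧ ¬ 3 ∣ w'.ramificationIndex F := by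
  classical
  by_contra hcon
  push Not at hcon
  have : CharP F 3 := charP_of_injective_algebraMap (algebraMap K F).injective 3
  have h3F' : (3 : F') = 0 := by
    have : CharP F' 3 := charP_of_injective_algebraMap (algebraMap K F').injective 3
    exact_mod_cast CharP.cast_eq_zero F' 3
  have h3K : (3 : K) = 0 := by exact_mod_cast CharP.cast_eq_zero K 3
  have hX' : X ^ 3 - algebraMap F F' j * X + algebraMap F F' 1 = 0 := by rw [map_one]; exact hX
  have hsep : Algebra.IsSeparable F F' := cubic_separable hfr hj0 hX' hXF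
  -- there is only one place above `w`
  obtain ⟨w₁, hw₁⟩ := H88.exists_restrict_eq (F' := F') w
  have hsum := H88.sum_ramificationIndex w (w.fiber F') (fun w' => Place.mem_fiber)
  rw [hfr] at hsum
  have huniq : ∀ w' : Place K F', w'.restrict F = w → w' = w₁ := by
    intro w' hw'
    by_contra hne
    have h1 : ({w', w₁} : Finset (Place K F')) ⊆ w.fiber F' := by
      intro z hz
      rw [Finset.mem_insert, Finset.mem_singleton] at hz
      rcases hz with rfl | rfl
      · exact Place.mem_fiber.mpr hw'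
      · exact Place.mem_fiber.mpr hw₁
    have h2 := Finset.sum_le_sum_of_subset (f := fun z : Place K F' => z.ramificationIndex F) h1
    rw [hsum, Finset.sum_pair hne] at h2
    have h4 := Nat.le_of_dvd (w'.ramificationIndex_pos (F := F)) (hcon w' hw')
    have h5 := Nat.le_of_dvd (w₁.ramificationIndex_pos (F := F)) (hcon w₁ hw₁)
    omega
  have hX0 : X ≠ 0 := by
    rintro rfl
    simp at hX
  have hjX : algebraMap F F' j * X = X ^ 3 + 1 := by linear_combination -hX
  have hjF0 : algebraMap F F' j ≠ 0 := (_root_.map_ne_zero _).mpr hj0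
  have hordj : w₁.ord (algebraMap F F' j) = w₁.ramificationIndex F * w.ord j := by
    rw [w₁.ord_restrict, hw₁]
  have hepos : (0 : ℤ) < w₁.ramificationIndex F := by
    exact_mod_cast w₁.ramificationIndex_pos (F := F)
  have hnormX : Algebra.norm F X = -1 := cubic_norm hfr hX' hXF
  have hordX : w₁.ord (algebraMap F F' j * X) = w₁.ramificationIndex F * w.ord j + w₁.ord X := by
    rw [w₁.ord_mul hjF0 hX0, hordj]
  have hval1 : w.adicValuation (-1 : F) = 1 := by rw [Valuation.map_neg, map_one]
  rcases lt_or_eq_of_le hw with hlt | heq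
  · -- a pole of `j`
    have hneg : (w₁.ramificationIndex F : ℤ) * w.ord j < 0 := mul_neg_of_pos_of_neg hepos hlt
    have hX1 : w₁.ord X ≠ 0 := by
      intro h0
      rw [h0, add_zero, hjX] at hordX
      have h1 : X ∈ w₁.toValuationSubring := H94.mem_of_ord_nonneg w₁ h0.ge
      have h2 := H94.ord_nonneg_of_mem w₁ (add_mem (pow_mem h1 3) (one_mem _))
      omega
    rcases lt_or_gt_of_ne hX1 with h0 | h0
    · have h1 := (H88.norm_aux w w₁ hw₁ (h := X⁻¹) (fun w' hw' => by
        rw [huniq w' hw', w₁.adicValuation_eq_exp_neg_ord (inv_ne_zero hX0), w₁.ord_inv, ← exp_zero,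
          exp_le_exp]
        omega)).2 (by
        rw [w₁.adicValuation_eq_exp_neg_ord (inv_ne_zero hX0), w₁.ord_inv, ← exp_zero, exp_lt_exp]
        omega)
      have h2 : Algebra.norm F X⁻¹ = -1 := by
        have h3 : Algebra.norm F X⁻¹ * Algebra.norm F X = 1 := by
          rw [← map_mul, inv_mul_cancel₀ hX0, map_one]
        rw [hnormX] at h3
        linear_combination -h3
      rw [h2, hval1] at h1
      exact lt_irrefl _ h1
    · have h1 := (H88.norm_aux w w₁ hw₁ (h := X) (fun w' hw' => by
        rw [huniq w' hw', w₁.adicValuation_eq_exp_neg_ord hX0, ← exp_zero, exp_le_exp]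
        omega)).2 (by
        rw [w₁.adicValuation_eq_exp_neg_ord hX0, ← exp_zero, exp_lt_exp]
        omega)
      rw [hnormX, hval1] at h1
      exact lt_irrefl _ h1
  · -- `j` is finite and non zero
    have hjw : w.adicValuation j = 1 := by
      rw [w.adicValuation_eq_exp_neg_ord hj0, heq, neg_zero, exp_zero]
    obtain ⟨a, ha⟩ := exists_const_sub_lt_one w hjw.le
    have ha0 : a ≠ 0 := by
      rintro rfl
      rw [map_zero, sub_zero, hjw] at ha
      exact lt_irrefl _ ha
    have hXle : w₁.adicValuation X ≤ 1 := by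
      rw [w₁.adicValuation_eq_exp_neg_ord hX0, ← exp_zero, exp_le_exp]
      by_contra hlt
      push Not at hlt
      have h1 : X ^ 2 = algebraMap F F' j - X⁻¹ := by
        field_simp
        linear_combination hX
      have h2 : X⁻¹ ∈ w₁.toValuationSubring :=
        H94.mem_of_ord_nonneg w₁ (by rw [w₁.ord_inv]; omega)
      have h3 : algebraMap F F' j ∈ w₁.toValuationSubring :=
        H94.mem_of_ord_nonneg w₁ (by rw [hordj, heq, mul_zero])
      have h4 := H94.ord_nonneg_of_mem w₁ (sub_mem h3 h2)
      rw [← h1, ← zpow_natCast, w₁.ord_zpow] at h4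
      push_cast at h4
      omega
    obtain ⟨x₀, hx₀⟩ := exists_const_sub_lt_one w₁ hXle
    -- another root
    obtain ⟨x₁, hx₁, hne⟩ : ∃ x₁ : K, x₁ ^ 3 - a * x₁ + 1 = 0 ∧ x₁ ≠ x₀ := by
      obtain ⟨r, hr⟩ : ∃ r : K, r ^ 3 - a * r + 1 = 0 := by
        have h1 := IsAlgClosed.exists_root
          (Polynomial.X ^ 3 - Polynomial.C a * Polynomial.X + Polynomial.C 1 : Polynomial K) (by
            have : (Polynomial.X ^ 3 - Polynomial.C a * Polynomial.X + Polynomial.C 1 :
              Polynomial K).degree = 3 := by compute_degree!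
            rw [this]; norm_num)
        obtain ⟨r, hr⟩ := h1
        refine ⟨r, ?_⟩
        rw [Polynomial.IsRoot] at hr
        simpa using hr
      obtain ⟨s, hs⟩ := IsAlgClosed.exists_pow_nat_eq a (n := 2) (by norm_num)
      by_cases hrx : r = x₀
      · refine ⟨r + s, ?_, fun h => ?_⟩
        · linear_combination hr + s * hs + (r ^ 2 * s + r * s ^ 2) * h3K
        · rw [hrx] at h
          have hs0 : s = 0 := by linear_combination h
          rw [hs0] at hs
          exact ha0 (by rw [← hs]; ring)
      · exact ⟨r, hr, hrx⟩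
    set Y := X - algebraMap K F' x₁ with hY
    have hYval : w₁.adicValuation Y = 1 := by
      have h1 : Y = (X - algebraMap K F' x₀) + algebraMap K F' (x₀ - x₁) := by
        rw [map_sub, hY]; ring
      have h2 : w₁.adicValuation (algebraMap K F' (x₀ - x₁)) = 1 :=
        adicValuation_algebraMap w₁ (sub_ne_zero.mpr hne.symm)
      rw [h1, Valuation.map_add_eq_of_lt_right _ (by rw [h2]; exact hx₀), h2]
    have hYeq : Y ^ 3 - algebraMap F F' j * Y +
        algebraMap F F' (algebraMap K F x₁ ^ 3 - j * algebraMap K F x₁ + 1) = 0 := by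
      have h1 : algebraMap F F' (algebraMap K F x₁) = algebraMap K F' x₁ :=
        (IsScalarTower.algebraMap_apply K F F' x₁).symm
      rw [map_add, map_sub, map_mul, map_pow, map_one, h1, hY]
      linear_combination hX - (X ^ 2 * algebraMap K F' x₁ - X * algebraMap K F' x₁ ^ 2) * h3F'
    have hYF : ∀ x : F, algebraMap F F' x ≠ Y := by
      intro x hx
      apply hXF (x + algebraMap K F x₁)
      rw [map_add, ← IsScalarTower.algebraMap_apply, hx, hY]
      ring
    have hnY := cubic_norm hfr hYeq hYF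
    have h1 := H88.norm_eq_one w (h := Y) (fun w' hw' => by rw [huniq w' hw', hYval])
    rw [hnY, Valuation.map_neg] at h1
    have h2 : algebraMap K F x₁ ^ 3 - j * algebraMap K F x₁ + 1 =
        (j - algebraMap K F a) * algebraMap K F (-x₁) := by
      have h4 := congrArg (algebraMap K F) hx₁
      rw [map_add, map_sub, map_mul, map_pow, map_one, map_zero] at h4
      rw [map_neg]
      linear_combination h4
    rw [h2, map_mul] at h1
    have h5 := w.adicValuation_algebraMap_le_one (-x₁)
    have h6 : w.adicValuation (j - algebraMap K F a) * w.adicValuation (algebraMap K F (-x₁)) < 1 :=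
      mul_lt_one_of_lt_of_le ha h5
    rw [h1] at h6
    exact lt_irrefl _ h6

end CubicPlace

section Level

variable {k : Type*} [Field k] [IsAlgClosed k]

theorem relfinrank_level {M M' d : ℕ} [NeZero M] [NeZero M'] (hdvd : M ∣ M') (hM' : (M' : k) ≠ 0)
    (hd : dedekindPsi M' = d * dedekindPsi M) :
    relfinrank (modularFunctionFieldFullC k M) (modularFunctionFieldFullC k M') = d := by
  have hM : (M : k) ≠ 0 := by
    obtain ⟨c, rfl⟩ := hdvd
    intro h
    apply hM'
    push_cast
    rw [h, zero_mul]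
  have hle := H66.full_mono k (NeZero.ne M) (NeZero.ne M') hdvd
  have hjle : k⟮jqModC k⟯ ≤ modularFunctionFieldFullC k M := by
    rw [adjoin_simple_le_iff]
    exact jqModC_mem_full k M
  have h1 := relfinrank_mul_relfinrank hjle hle
  rw [H66.relfinrank_full k M hM, H66.relfinrank_full k M' hM', hd, mul_comm] at h1
  exact Nat.eq_of_mul_eq_mul_right (H28.dedekindPsi_pos M) h1

/-- At level `2R`, `R` odd, the place `w` of level `R` with `j(w) ≠ 0` has a place above with
ramification index prime to `3` (characteristic `3`). -/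
theorem exists_place_two [CharP k 3] {R : ℕ} [NeZero R] [NeZero (2 * R)] (h2 : ¬ 2 ∣ R)
    (hR : ((2 * R : ℕ) : k) ≠ 0)
    (w : Place k (modularFunctionFieldFullC k R)) (hw : w.ord (jC k R) ≤ 0) :
    ∃ (w' : Place k (modularFunctionFieldFullC k (2 * R))) (e : ℕ), ¬ 3 ∣ e ∧ 0 < e ∧
      ∀ (f : modularFunctionFieldFullC k R) (f' : modularFunctionFieldFullC k (2 * R)),
        (f : LaurentSeries k) = f' → w'.ord f' = e * w.ord f := by
  classical
  have hR1 : (R : k) ≠ 0 := by
    intro h
    apply hR
    push_cast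
    rw [h, mul_zero]
  have h20 : ((2 : ℕ) : k) ≠ 0 := by
    intro h
    apply hR
    push_cast at h ⊢
    rw [h, zero_mul]
  have h3k : (3 : k) = 0 := by exact_mod_cast CharP.cast_eq_zero k 3
  have h3L : (3 : LaurentSeries k) = 0 := by
    have h := congrArg (algebraMap k (LaurentSeries k)) h3k
    rwa [map_ofNat, map_zero] at h
  haveI : H94.FunField k (modularFunctionFieldFullC k R) := funField_fullC hR1
  haveI : H94.FunField k (modularFunctionFieldFullC k (2 * R)) := funField_fullC hR
  have hle := H66.full_mono k (NeZero.ne R) (NeZero.ne (2 * R)) (dvd_mul_left R 2)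
  have hrel : relfinrank (modularFunctionFieldFullC k R) (modularFunctionFieldFullC k (2 * R)) =
      3 := relfinrank_level (dvd_mul_left R 2) hR
        (H45.dedekindPsi_mul_of_not_dvd Nat.prime_two (NeZero.ne R) h2)
  have ht2 : H23.Haupt.t2 k ∈ modularFunctionFieldFullC k (2 * R) :=
    H18.t2_mem_full k (NeZero.ne (2 * R)) (dvd_mul_right 2 R) (by exact_mod_cast h20)
  have ht20 : H23.Haupt.t2 k ≠ 0 := (H23.Haupt.hasLead_t2 k).ne_zero one_ne_zero
  -- `t2` is not of level `R`
  have hnot : H23.Haupt.t2 k ∉ modularFunctionFieldFullC k R := by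
    intro hmem
    have hE2 := H23.Haupt.t2_E2 k
    have hJ : H66.J k (2 ^ (0 + 1)) ∈ modularFunctionFieldFullC k R := by
      rw [zero_add, pow_one, H66.J_eq]
      have h4 : qExpand k 2 (jqModC k) = (H23.Haupt.t2 k + 16) ^ 3 / H23.Haupt.t2 k := by
        rw [hE2, mul_div_assoc, div_self ht20, mul_one]
      rw [h4]
      exact div_mem (pow_mem (add_mem hmem (ofNat_mem _ 16)) 3) hmem
    have : Fact (Nat.Prime 2) := ⟨Nat.prime_two⟩
    have h5 := H66.J_mem_of (H66.hasRoots_of_isAlgClosed k) (modularFunctionFieldFullC k R)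
      (p := 2) (a := 0) (m := R) h2 hR1 h20 (by rw [pow_zero, one_mul]) hJ
    rw [zero_add, pow_one] at h5
    rw [relfinrank_eq_one_of_le h5] at hrel
    exact absurd hrel (by norm_num)
  letI : Algebra (modularFunctionFieldFullC k R) (modularFunctionFieldFullC k (2 * R)) :=
    (IntermediateField.inclusion hle).toRingHom.toAlgebra
  haveI : IsScalarTower k (modularFunctionFieldFullC k R)
    (modularFunctionFieldFullC k (2 * R)) := IsScalarTower.of_algebraMap_eq fun x => rfl
  have hfr : Module.finrank (modularFunctionFieldFullC k R)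
      (modularFunctionFieldFullC k (2 * R)) = 3 := by
    rw [← hrel, relfinrank_eq_finrank_of_le hle]
    rfl
  haveI : Module.Finite (modularFunctionFieldFullC k R) (modularFunctionFieldFullC k (2 * R)) :=
    Module.finite_of_finrank_pos (by rw [hfr]; norm_num)
  haveI : HasPrincipalDivisors k (modularFunctionFieldFullC k (2 * R)) :=
    H18.hasPrincipalDivisors _ _
  set X : modularFunctionFieldFullC k (2 * R) := ⟨H23.Haupt.t2 k, ht2⟩⁻¹ with hX
  have hXc : (X : LaurentSeries k) = (H23.Haupt.t2 k)⁻¹ := rfl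
  have hcub : X ^ 3 - algebraMap (modularFunctionFieldFullC k R) _ (jC k R) * X + 1 = 0 := by
    apply Subtype.ext
    show (H23.Haupt.t2 k)⁻¹ ^ 3 - jqModC k * (H23.Haupt.t2 k)⁻¹ + 1 = 0
    have hE1 := H23.Haupt.t2_E1 k
    field_simp
    linear_combination hE1 - (256 * H23.Haupt.t2 k ^ 2 + 65536 * H23.Haupt.t2 k + 5592405) * h3L
  obtain ⟨w', hw', he⟩ := exists_place_not_dvd hfr hcub (fun x hx => hnot (by
    have h6 := congrArg (fun y : modularFunctionFieldFullC k (2 * R) => (y : LaurentSeries k)⁻¹) hx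
    have h7 : (x : LaurentSeries k)⁻¹ = H23.Haupt.t2 k := by
      have h8 : ((X : LaurentSeries k))⁻¹ = H23.Haupt.t2 k := by rw [hXc, inv_inv]
      rw [← h8]
      exact h6
    rw [← h7]
    exact inv_mem x.2)) w (transcendental_ne_zero transcendental_jC) hw
  refine ⟨w', w'.ramificationIndex (modularFunctionFieldFullC k R), he,
    w'.ramificationIndex_pos (F := modularFunctionFieldFullC k R), fun f f' hff => ?_⟩
  have h2 := w'.ord_restrict (F := modularFunctionFieldFullC k R) f
  rw [hw'] at h2
  rw [← h2]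
  congr 1
  exact Subtype.ext hff.symm

end Level

section Final

local notation "Qb" => AlgebraicClosure ℚ

variable {A : ValuationSubring Qb}

local notation "kA" => IsLocalRing.ResidueField A

private theorem three_dvd_of_mul {e : ℕ} {n : ℤ} (he : ¬ 3 ∣ e) (h : (3 : ℤ) ∣ e * n) :
    (3 : ℤ) ∣ n := by
  rcases Int.prime_three.dvd_or_dvd h with h1 | h1
  · exact absurd (Int.natCast_dvd_natCast.mp h1) he
  · exact h1

/-- **[T3a]** Descent of divisibility by `3` of the orders of a function from level `M` to level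
`M₀`, `M₀ ∣ M ∣ 4 M₀`, at all places but the places where `j` has order `1` or `2`. -/
theorem three_dvd_ord (hA : A.LiesOverPrime 3) {M₀ M : ℕ} [NeZero M₀] [NeZero M]
    (hdvd : M₀ ∣ M) (h4 : 4 ∣ M) (hM4 : M ∣ 4 * M₀) (h3 : ¬ 3 ∣ M)
    {g₀ : modularFunctionFieldFullC kA M₀} {g : modularFunctionFieldFullC kA M}
    (hg : (g : LaurentSeries kA) = (g₀ : LaurentSeries kA))
    (hdiv : ∀ s : Place kA (modularFunctionFieldFullC kA M), (3 : ℤ) ∣ s.ord g)
    (w : Place kA (modularFunctionFieldFullC kA M₀))
    (hw : 0 < w.ord (jC kA M₀) → (3 : ℤ) ∣ w.ord (jC kA M₀)) : (3 : ℤ) ∣ w.ord g₀ := by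
  have : Fact (Nat.Prime 3) := ⟨Nat.prime_three⟩
  have : CharP kA 3 := H60.charP_residue Nat.prime_three hA
  have : IsAlgClosed kA := H18.isAlgClosed_residueField A
  have hMk : (M : kA) ≠ 0 := H18.natCast_residueField_ne_zero A Nat.prime_three hA h3
  have h3M₀ : ¬ 3 ∣ M₀ := fun h => h3 (h.trans hdvd)
  have hM₀k : (M₀ : kA) ≠ 0 := H18.natCast_residueField_ne_zero A Nat.prime_three hA h3M₀
  have hff₀ : H94.FunField kA (modularFunctionFieldFullC kA M₀) := funField_fullC hM₀k
  have hff : H94.FunField kA (modularFunctionFieldFullC kA M) := funField_fullC hMk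
  have hle := H66.full_mono kA (NeZero.ne M₀) (NeZero.ne M) hdvd
  obtain ⟨c, rfl⟩ := hdvd
  have hc4 : c ∣ 4 := by
    have h1 : M₀ * c ∣ M₀ * 4 := by rw [mul_comm M₀ 4]; exact hM4
    exact Nat.dvd_of_mul_dvd_mul_left (Nat.pos_of_ne_zero (NeZero.ne M₀)) h1
  by_cases h2 : 2 ∣ M₀
  · -- the degree is a power of `2`
    have hc : c ∈ Nat.divisors 4 := Nat.mem_divisors.mpr ⟨hc4, by norm_num⟩
    have hdiv4 : Nat.divisors 4 = {1, 2, 4} := by decide
    have hpsi : dedekindPsi (M₀ * c) = c * dedekindPsi M₀ := by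
      have e2 : dedekindPsi (2 * M₀) = 2 * dedekindPsi M₀ :=
        H45.dedekindPsi_mul_of_dvd Nat.prime_two (NeZero.ne M₀) h2
      have e4 : dedekindPsi (2 * (2 * M₀)) = 2 * dedekindPsi (2 * M₀) :=
        H45.dedekindPsi_mul_of_dvd Nat.prime_two (mul_ne_zero two_ne_zero (NeZero.ne M₀))
          (dvd_mul_right 2 M₀)
      rw [hdiv4, Finset.mem_insert, Finset.mem_insert, Finset.mem_singleton] at hc
      rcases hc with rfl | rfl | rfl
      · rw [mul_one, one_mul]
      · rw [mul_comm M₀ 2, e2]
      · rw [show M₀ * 4 = 2 * (2 * M₀) by ring, e4, e2]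
        ring
    have hc3 : ¬ 3 ∣ c := by
      intro h
      have := h.trans hc4
      omega
    have hc0 : c ≠ 0 := by
      rintro rfl
      exact hc3 (dvd_zero 3)
    obtain ⟨w', e, he, -, h⟩ := H39.exists_place_over hle
      (relfinrank_level (Dvd.intro c rfl) hMk hpsi) hc0 hc3 w
    have h5 := hdiv w'
    rw [h g₀ g hg.symm] at h5
    exact three_dvd_of_mul he h5
  · -- `M = 4 M₀`
    have hc : c = 4 := by
      have hcop : Nat.Coprime 4 M₀ := by
        rw [show 4 = 2 ^ 2 by norm_num]
        exact Nat.Coprime.pow_left 2 ((Nat.Prime.coprime_iff_not_dvd Nat.prime_two).mpr h2)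
      exact Nat.dvd_antisymm hc4 (hcop.dvd_of_dvd_mul_left h4)
    subst hc
    have hN2 : NeZero (2 * M₀) := ⟨mul_ne_zero two_ne_zero (NeZero.ne M₀)⟩
    have e2 : dedekindPsi (2 * M₀) = 3 * dedekindPsi M₀ :=
      H45.dedekindPsi_mul_of_not_dvd Nat.prime_two (NeZero.ne M₀) h2
    have e4 : dedekindPsi (M₀ * 4) = 2 * dedekindPsi (2 * M₀) := by
      rw [show M₀ * 4 = 2 * (2 * M₀) by ring]
      exact H45.dedekindPsi_mul_of_dvd Nat.prime_two (NeZero.ne (2 * M₀)) (dvd_mul_right 2 M₀)
    have hM2k : ((2 * M₀ : ℕ) : kA) ≠ 0 := by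
      intro h
      apply hMk
      rw [show M₀ * 4 = 2 * (2 * M₀) by ring]
      push_cast at h ⊢
      rw [h, mul_zero]
    have hff2 : H94.FunField kA (modularFunctionFieldFullC kA (2 * M₀)) := funField_fullC hM2k
    rcases le_or_gt (w.ord (jC kA M₀)) 0 with hj | hj
    · obtain ⟨w', e, he, -, h⟩ := exists_place_two h2 hM2k w hj
      have hle1 := H66.full_mono kA (NeZero.ne M₀) (NeZero.ne (2 * M₀)) (dvd_mul_left M₀ 2)
      have hle2 := H66.full_mono kA (NeZero.ne (2 * M₀)) (NeZero.ne (M₀ * 4))
        (show 2 * M₀ ∣ M₀ * 4 from ⟨2, by ring⟩)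
      obtain ⟨w'', e', he', -, h'⟩ := H39.exists_place_over hle2
        (relfinrank_level (show 2 * M₀ ∣ M₀ * 4 from ⟨2, by ring⟩) hMk e4) two_ne_zero
        (p := 3) (by norm_num) w'
      have h5 := hdiv w''
      rw [h' ⟨g₀, hle1 g₀.2⟩ g hg.symm, h g₀ ⟨g₀, hle1 g₀.2⟩ rfl] at h5
      exact three_dvd_of_mul he (three_dvd_of_mul he' h5)
    · obtain ⟨w', e, -, he0, h⟩ := H39.exists_place_over hle
        (relfinrank_level (d := 6) (Dvd.intro 4 rfl) hMk (by rw [e4, e2]; ring)) (by norm_num)
        (p := 5) (by norm_num) w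
      have he : ¬ 3 ∣ e := by
        intro he
        have h6 := h (jC kA M₀) (jC kA (M₀ * 4)) rfl
        obtain ⟨a, rfl⟩ := he
        obtain ⟨b, hb⟩ := hw hj
        have hpos : 0 < w'.ord (jC kA (M₀ * 4)) := by
          rw [h6]
          exact mul_pos (Int.natCast_pos.mpr he0) hj
        rw [ord_jC_eq_six_residueField hA h3 h4 hpos, hb] at h6
        push_cast at h6
        have h7 : (9 : ℤ) ∣ 6 := ⟨a * b, by rw [h6]; ring⟩
        omega
      have h5 := hdiv w'
      rw [h g₀ g hg.symm] at h5
      exact three_dvd_of_mul he h5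

end Final

end Fermat.Agent.H98C
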