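import Fermat.Agent.H31C6
import Fermat.Agent.H8CThree
import Fermat.Agent.H26CEll
import Fermat.Agent.H98CT3

/-!
# Level lowering at `p`: `S39`, `S40` (helper31)

`inT3` : descent of the divisibility by `3` along `X₀(M) → X₀(M₀)` in characteristic `3`, from
helper98's `three_dvd_ord` (all the places but the places where `j` has order `1` or `2`), helper26's
`dvd_TC_single` (`T_ℓ s ≡ (ℓ + 1) s` modulo `3` at the exceptional places) and helper8's
`dvd_ord_of_eisenstein`.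
-/

set_option autoImplicit false
set_option linter.unusedSectionVars false
set_option linter.style.haveILetI false
set_option maxHeartbeats 1000000
set_option synthInstance.maxHeartbeats 200000

noncomputable section

open AlgebraicCurve ModularCurve

namespace Fermat.Agent.H31C

/-- **[T3]** -/
theorem inT3 : H40C.InT3 := by
  intro A hA M₀ M _ _ hdvd h4 hM4 h3 g₀ hg₀0 g hg hdiv S _ a hHR hex w
  obtain ⟨ℓ, hℓ, hℓS, hℓN, hne⟩ := hex
  haveI : NeZero ℓ := ⟨hℓ.ne_zero⟩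
  haveI : Fact (Nat.Prime 3) := ⟨Nat.prime_three⟩
  obtain ⟨h, hh0, hrel⟩ := hHR ℓ hℓ hℓS hℓN
  have hℓM : ¬ ℓ ∣ M₀ := fun h => hℓN (h.trans (dvd_mul_right _ _))
  have hℓ3 : ℓ ≠ 3 := fun h => hℓN (h ▸ dvd_mul_left _ _)
  have h3M₀ : ¬ 3 ∣ M₀ := fun h => h3 (h.trans hdvd)
  have h3Mℓ : ¬ 3 ∣ M₀ * ℓ := by
    rw [Nat.prime_three.dvd_mul]
    rintro (h | h)
    · exact h3M₀ h
    · exact hℓ3 ((Nat.prime_dvd_prime_iff_eq Nat.prime_three hℓ).mp h).symm
  haveI h1 : IsAlgClosed (IsLocalRing.ResidueField A) := H18.isAlgClosed_residueField A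
  haveI h2 : H94.FunField (IsLocalRing.ResidueField A)
      (modularFunctionFieldFullC (IsLocalRing.ResidueField A) M₀) :=
    H42.funField_right (L := AlgebraicClosure ℚ) M₀ (H42.degLE_place Nat.prime_three hA h3M₀)
  haveI h3' : H94.FunField (IsLocalRing.ResidueField A)
      (modularFunctionFieldFullC (IsLocalRing.ResidueField A) (M₀ * ℓ)) :=
    H42.funField_right (L := AlgebraicClosure ℚ) (M₀ * ℓ)
      (H42.degLE_place Nat.prime_three hA h3Mℓ)
  have hα := H17.isIntegral_of_funField (H17.alphaC (IsLocalRing.ResidueField A) M₀ ℓ)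
  have hβ := H17.isIntegral_of_funField (H17.betaC (IsLocalRing.ResidueField A) M₀ ℓ)
  obtain ⟨D, hD, -⟩ := HasPrincipalDivisors.exists_divisor
    (K := IsLocalRing.ResidueField A) g₀ hg₀0
  have hD' : ∀ v, D v = v.ord g₀ := fun v => hD v
  have key := H8C.dvd_ord_of_eisenstein Nat.prime_three
    (Divisor.correspondence (H17.betaC (IsLocalRing.ResidueField A) M₀ ℓ)
      (H17.alphaC (IsLocalRing.ResidueField A) M₀ ℓ) hβ hα) (a := a ℓ) (d := (ℓ : ℤ) + 1) hne D
    (fun s hs v => by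
      rw [hD'] at hs
      have h5 : 0 < s.ord (H8.jC (IsLocalRing.ResidueField A) M₀) ∧
          ¬ (3 : ℤ) ∣ s.ord (H8.jC (IsLocalRing.ResidueField A) M₀) := by
        by_contra hcon
        apply hs
        refine H98C.three_dvd_ord hA hdvd h4 hM4 h3 hg hdiv s fun h6 => ?_
        by_contra h7
        exact hcon ⟨h6, h7⟩
      exact H26C.dvd_TC_single hℓ hℓM Nat.prime_three hA h3Mℓ hα hβ s h5.1.le h5.2 v)
    (fun v => by
      rw [hrel hβ hα D hD' v, hD']
      exact ⟨v.ord h, by ring⟩) w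
  rw [hD'] at key
  exact key

/-- **`S39`**. -/
theorem level_lowering39_full (W : WeierstrassCurve ℤ) (hΔ : W.Δ ≠ 0)
    {p : ℕ} (hp : p.Prime) (hp2 : p ≠ 2)
    (hsemi : (p : ℤ) ∣ W.Δ → ¬ (p : ℤ) ∣ W.c₄)
    (hirr : W.ModRepIsIrreducible p)
    (hfin : (W.map (Int.castRingHom ℚ)).IsPeuRamifieeAt p p)
    {M : ℕ} (hM : 0 < M) (hpM : p ∣ M) (hp2M : ¬ p ^ 2 ∣ M)
    (hmod : W.IsResiduallyModularOfLevel p M) :
    W.IsResiduallyModularOfLevel p (M / p) :=
  level_lowering39_of inT3 W hΔ hp hp2 hsemi hirr hfin hM hpM hp2M hmod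

/-- **`S40`**. -/
theorem level_lowering40_full (W : WeierstrassCurve ℤ) (hΔ : W.Δ ≠ 0)
    {p : ℕ} (hp : p.Prime) (hp2 : p ≠ 2)
    (hgood : W.IsGoodPrimeFor p)
    (hirr : W.ModRepIsIrreducible p)
    {M : ℕ} (hM : 0 < M) (hpM : p ∣ M) (hp2M : ¬ p ^ 2 ∣ M)
    (hmod : W.IsResiduallyModularOfLevel p M) :
    W.IsResiduallyModularOfLevel p (M / p) :=
  level_lowering40_of inT3 W hΔ hp hp2 hgood hirr hM hpM hp2M hmod

end Fermat.Agent.H31C
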