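import Fermat.Agent.H33Final
import Fermat.Agent.H30Mid

/-!
# Classes in the image of `σ - 1`, `σ` in inertia (helper33)
-/

set_option autoImplicit false
set_option linter.unusedSectionVars false

open ModularCurve AlgebraicCurve

namespace Fermat.Agent.H33

section

variable {K F : Type*} [Field K] [Field F] [Algebra K F]

theorem IsKum.pow_level {n : ℕ} {x : Pic0 K F} {f : F} (hf : IsKum n x f) (m : ℕ) :
    IsKum (n * m) x (f ^ m) := by
  obtain ⟨hf0, D, rfl, hD⟩ := hf
  refine ⟨pow_ne_zero m hf0, D, rfl, fun v => ?_⟩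
  rw [← zpow_natCast, v.ord_zpow, ← hD]
  push_cast
  ring

end

local notation "Qb" => AlgebraicClosure ℚ
local notation "Gq" => AlgebraicClosure ℚ ≃ₐ[ℚ] AlgebraicClosure ℚ

variable {p : ℕ} [Fact p.Prime] [NeZero p] {N : ℕ} [NeZero N] {A : ValuationSubring Qb}

/-- Kummer functions (of level `p`) of a class which is, at level `p^(m+1)`, a sum of
`σ Y - Y` with `σ` in the inertia group, have reductions which are `p`-th powers. -/
theorem red_of_coinv (hA : A.LiesOverPrime p) {x : JZero N} {m : ℕ} {ι : Type*} (s : Finset ι)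
    (σ : ι → Gq) (hσ : ∀ i ∈ s, σ i ∈ A.inertiaSubgroupIn ℚ) (Y : ι → JZero N)
    (hY : ∀ i ∈ s, (p * p ^ m) • Y i = 0) (hx : x = ∑ i ∈ s, (σ i • Y i - Y i))
    (f : H99.FX Qb N) (hf : IsKum p x f) :
    ∃ ω, Red A (IsLocalRing.residue A) (f : LaurentSeries Qb) (ω ^ p) := by
  classical
  have hp : p.Prime := Fact.out
  have : CharP (IsLocalRing.ResidueField A) p := H60.charP_residue hp hA
  have : IsAlgClosed (IsLocalRing.ResidueField A) := H18.isAlgClosed_residueField A
  have hFX : H94.FunField Qb (H99.FX Qb N) := funFieldFX N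
  have hπ := IsLocalRing.residue_surjective (R := A)
  have hfL : ∀ g : H99.FX Qb N, (g : LaurentSeries Qb) ∈ modularFunctionFieldFullC Qb N :=
    fun g => by rw [← H99.FX_eq]; exact g.2
  -- Kummer functions of the `Y i`
  have hKum : ∀ i : s, ∃ F : H99.FX Qb N, IsKum (p * p ^ m) (Y i) F := fun i =>
    IsKum.exists_of_nsmul (hY i i.2)
  choose F hF using hKum
  let F' : ι → H99.FX Qb N := fun i => if h : i ∈ s then F ⟨i, h⟩ else 1
  have hF' : ∀ i ∈ s, IsKum (p * p ^ m) (Y i) (F' i) := fun i hi => by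
    simp only [F', dif_pos hi]
    exact hF ⟨i, hi⟩
  set g : H99.FX Qb N := ∏ i ∈ s,
    (arithmeticGalois (modularFunctionFieldFull N) (σ i) • F' i / F' i) with hg
  have hgK : IsKum (p * p ^ m) x g := by
    rw [hx]
    refine IsKum.prod s fun i hi => ?_
    exact ((hF' i hi).smul (arithmeticGalois (modularFunctionFieldFull N) (σ i))).div (hF' i hi)
  have hgR : Red A (IsLocalRing.residue A) (g : LaurentSeries Qb) 1 := by
    have h1 : (g : LaurentSeries Qb) = ∏ i ∈ s,
        (coeffMap (σ i : Qb →+* Qb) (F' i : LaurentSeries Qb) / (F' i : LaurentSeries Qb)) := by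
      rw [hg]
      exact map_prod (algebraMap (H99.FX Qb N) (LaurentSeries Qb)) _ _
    have h2 : Red A (IsLocalRing.residue A) (∏ i ∈ s,
        (coeffMap (σ i : Qb →+* Qb) (F' i : LaurentSeries Qb) / (F' i : LaurentSeries Qb)))
        (∏ i ∈ s, (1 : LaurentSeries (IsLocalRing.ResidueField A))) := by
      refine Red.prod s fun i hi => ?_
      obtain ⟨r, hr⟩ := exists_red (A := A) hπ N (hfL (F' i))
        (fun h => (hF' i hi).ne_zero (Subtype.ext h))
      have h3 := (hr.map (τ := (σ i : Qb →+* Qb)) (fun a ha => inertia_mem (hσ i hi) ha)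
        (inertia_res (hσ i hi))).div hr
      rwa [div_self hr.res_ne] at h3
    rw [h1]
    simpa using h2
  -- comparison
  obtain ⟨h, hh0, hh⟩ := (hf.pow_level (p ^ m)).unique
    (mul_ne_zero hp.ne_zero (pow_ne_zero m hp.ne_zero)) hgK
  obtain ⟨r, hr⟩ := exists_red (A := A) hπ N (hfL f) (fun h => hf.ne_zero (Subtype.ext h))
  obtain ⟨t, ht⟩ := exists_red (A := A) hπ N (hfL h) (fun h' => hh0 (Subtype.ext h'))
  have e1 : (f : LaurentSeries Qb) ^ (p ^ m) =
      (g : LaurentSeries Qb) * (h : LaurentSeries Qb) ^ (p * p ^ m) := congrArg Subtype.val hh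
  have h1 := hgR.mul (ht.pow (p * p ^ m))
  rw [← e1, one_mul] at h1
  obtain ⟨c, hc0, hc⟩ := h1.unique hπ (hr.pow (p ^ m))
  -- `r ^ (p ^ m) = c t ^ (p * p ^ m)`
  obtain ⟨d, hd⟩ := IsAlgClosed.exists_pow_nat_eq c (pow_pos hp.pos m)
  have hcharL : CharP (LaurentSeries (IsLocalRing.ResidueField A)) p :=
    charP_of_injective_algebraMap
      (algebraMap (IsLocalRing.ResidueField A)
        (LaurentSeries (IsLocalRing.ResidueField A))).injective p
  have hinj : ∀ a b : LaurentSeries (IsLocalRing.ResidueField A), a ^ (p ^ m) = b ^ (p ^ m) →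
      a = b := by
    intro a b hab
    have h2 : (a - b) ^ (p ^ m) = 0 := by
      rw [sub_pow_char_pow, hab, sub_self]
    exact sub_eq_zero.mp (pow_eq_zero_iff (pow_ne_zero m hp.ne_zero) |>.mp h2)
  have h3 : r = algebraMap _ _ d * t ^ p := by
    apply hinj
    rw [hc, mul_pow, ← map_pow, hd, ← pow_mul]
  obtain ⟨d', hd'⟩ := IsAlgClosed.exists_pow_nat_eq d hp.pos
  refine ⟨algebraMap _ _ d' * t, ?_⟩
  rw [mul_pow, ← map_pow, hd', ← h3]
  exact hr

/-! ### The set of classes whose Kummer functions have good reductions -/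

variable (A) in
/-- all Kummer functions of `x` have reductions which are `p`-th powers -/
def Good (p : ℕ) (x : JZero N) : Prop :=
  p • x = 0 ∧ ∀ f : H99.FX Qb N, IsKum p x f →
    ∃ ω, Red A (IsLocalRing.residue A) (f : LaurentSeries Qb) (ω ^ p)

theorem Good.of_one {x : JZero N} {f : H99.FX Qb N} (hf : IsKum p x f)
    {ω : LaurentSeries (IsLocalRing.ResidueField A)}
    (hω : Red A (IsLocalRing.residue A) (f : LaurentSeries Qb) (ω ^ p)) : Good A p x := by
  have hp : p.Prime := Fact.out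
  have hFX : H94.FunField Qb (H99.FX Qb N) := funFieldFX N
  refine ⟨hf.nsmul_eq_zero, fun g hg => ?_⟩
  obtain ⟨h, hh0, hh⟩ := hg.unique hp.ne_zero hf
  obtain ⟨t, ht⟩ := exists_red (A := A) IsLocalRing.residue_surjective N
    (f := (h : LaurentSeries Qb)) (by rw [← H99.FX_eq]; exact h.2)
    (fun h' => hh0 (Subtype.ext h'))
  refine ⟨ω * t, ?_⟩
  have e1 : (g : LaurentSeries Qb) = (f : LaurentSeries Qb) * (h : LaurentSeries Qb) ^ p :=
    congrArg Subtype.val hh
  rw [e1, mul_pow]
  exact hω.mul (ht.pow p)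

theorem Good.zero : Good A p (0 : JZero N) := by
  refine Good.of_one (f := 1) (IsKum.one Qb) (ω := 1) ?_
  rw [one_pow]
  exact red_one

theorem Good.add {x y : JZero N} (hx : Good A p x) (hy : Good A p y) : Good A p (x + y) := by
  obtain ⟨f, hf⟩ := IsKum.exists_of_nsmul hx.1
  obtain ⟨g, hg⟩ := IsKum.exists_of_nsmul hy.1
  obtain ⟨ω, hω⟩ := hx.2 f hf
  obtain ⟨ω', hω'⟩ := hy.2 g hg
  refine Good.of_one (hf.mul hg) (ω := ω * ω') ?_
  rw [mul_pow]
  exact hω.mul hω'

theorem Good.neg {x : JZero N} (hx : Good A p x) : Good A p (-x) := by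
  obtain ⟨f, hf⟩ := IsKum.exists_of_nsmul hx.1
  obtain ⟨ω, hω⟩ := hx.2 f hf
  refine Good.of_one hf.inv (ω := ω⁻¹) ?_
  rw [inv_pow]
  exact hω.inv

open H30

/-- `p`-torsion classes coming from the Tate module -/
theorem good_of_tate (hA : A.LiesOverPrime p) {y : TateMod p (JZero N)} {m : ℕ} {ι : Type*}
    (s : Finset ι) (σ : ι → Gq) (hσ : ∀ i ∈ s, σ i ∈ A.inertiaSubgroupIn ℚ)
    (Y : ι → TateMod p (JZero N))
    (hy : p ^ m • y = ∑ i ∈ s, (galTate p (JZero N) (σ i) (Y i) - Y i)) :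
    Good A p (TateMod.proj 1 y) := by
  refine ⟨by simpa using TateMod.pow_smul_proj y 1, fun f hf => ?_⟩
  refine red_of_coinv hA (m := m) s σ hσ (fun i => TateMod.proj (1 + m) (Y i)) ?_ ?_ f hf
  · intro i _
    have h := TateMod.pow_smul_proj (Y i) (1 + m)
    rwa [pow_add, pow_one] at h
  · have h1 : TateMod.proj (1 + m) (p ^ m • y) = TateMod.proj 1 y := by
      rw [map_nsmul]
      exact TateMod.pow_smul_proj_add y 1 m
    rw [← h1, hy, map_sum]
    refine Finset.sum_congr rfl fun i _ => ?_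
    rw [map_sub, proj_galTate]

end Fermat.Agent.H33
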