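import Fermat.Agent.H33CaseN
import Fermat.Agent.H33Delta
import Fermat.Agent.H33Cyclo
import Fermat.Agent.H84SSp
import Fermat.Agent.H44Kum
import Fermat.Agent.H39WeilDet

/-!
# `p`-new classes and inertia coinvariants (helper33, for S39 / S40)

`X ⊂ J₀(Mp)[p]` finite, `p ∤ M`, stable under Galois and `w_p`, killed by `α_*`. The inertia group
at `p` acts on the subgroup generated by all `σ x - x` through the cyclotomic character
(`smul_eq_of_closure`). Hence `E[p]` cannot be embedded in the `p`-new part if it is generated by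
the elements `σ x - x` (e.g. supersingular reduction): `false_of_newEmb`.

No auxiliary level, no condition on `M` except `p ∤ M`, all odd `p`.
-/

set_option autoImplicit false
set_option linter.unusedSectionVars false
set_option linter.style.haveILetI false

open ModularCurve AlgebraicCurve

namespace Fermat.Agent.H33C

open Fermat.Agent.H33

local notation "Qb" => AlgebraicClosure ℚ
local notation "Gq" => AlgebraicClosure ℚ ≃ₐ[ℚ] AlgebraicClosure ℚ

section Good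

variable {p : ℕ} [Fact p.Prime] [NeZero p] {N : ℕ} [NeZero N] {A : ValuationSubring Qb}

/-- the Kummer functions of `σ x - x`, `σ` in inertia, reduce to `p`-th powers -/
theorem good_smul_sub (hA : A.LiesOverPrime p) {σ : Gq} (hσ : σ ∈ A.inertiaSubgroupIn ℚ)
    {x : JZero N} (hx : p • x = 0) : Good A p (σ • x - x) := by
  refine ⟨?_, fun f hf => ?_⟩
  · have h1 : p • σ • x = σ • (p • x) := (map_nsmul (DistribSMul.toAddMonoidHom (JZero N) σ) p x).symm
    rw [nsmul_sub, h1, hx]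
    exact (sub_zero _).trans (map_zero (DistribSMul.toAddMonoidHom (JZero N) σ))
  · refine red_of_coinv hA (m := 0) (ι := Unit) {()} (fun _ => σ) (fun _ _ => hσ) (fun _ => x)
      (fun _ _ => ?_) (by simp) f hf
    rw [pow_zero, mul_one]
    exact hx

end Good

section New

variable {p : ℕ} [Fact p.Prime] [NeZero p] {M : ℕ} [NeZero M] [NeZero (M * p)]
  {A : ValuationSubring Qb}

/-- **Inertia acts on the subgroup generated by all `σ x - x` through the cyclotomic character.** -/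
theorem smul_eq_of_closure (hA : A.LiesOverPrime p) (hpM : ¬ p ∣ M) (w : H99.AL Qb M p)
    (hw' : ∀ (σ : Gq) (x : JZero (M * p)), H67.pushP w.W.toAlgHom (σ • x) =
      σ • H67.pushP w.W.toAlgHom x)
    {X : AddSubgroup (JZero (M * p))} (hfin : Finite X) (hpX : ∀ x ∈ X, p • x = 0)
    (hI : ∀ σ ∈ A.inertiaSubgroupIn ℚ, ∀ x ∈ X, σ • x ∈ X)
    (hw : ∀ x ∈ X, H67.pushP w.W.toAlgHom x ∈ X)
    (hα : ∀ x ∈ X, H67.pushP (heckeAlphaBar Qb M p) x = 0)
    {ζ : Qb} (hζ : IsPrimitiveRoot ζ p) {σ : Gq} (hσ : σ ∈ A.inertiaSubgroupIn ℚ) {a : ℕ}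
    (hσζ : σ ζ = ζ ^ a) {x : JZero (M * p)}
    (hx : x ∈ AddSubgroup.closure {y | ∃ τ ∈ A.inertiaSubgroupIn ℚ, ∃ z ∈ X, y = τ • z - z}) :
    σ • x = a • x := by
  have hp : p.Prime := Fact.out
  set D := AddSubgroup.closure {y : JZero (M * p) |
    ∃ τ ∈ A.inertiaSubgroupIn ℚ, ∃ z ∈ X, y = τ • z - z} with hD
  have hDX : D ≤ X := by
    rw [hD, AddSubgroup.closure_le]
    rintro y ⟨τ, hτ, z, hz, rfl⟩
    exact X.sub_mem (hI τ hτ z hz) hz
  have hstab : ∀ f : JZero (M * p) →+ JZero (M * p),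
      (∀ τ ∈ A.inertiaSubgroupIn ℚ, ∀ z ∈ X, f (τ • z - z) ∈ D) → ∀ y ∈ D, f y ∈ D := by
    intro f hf y hy
    induction hy using AddSubgroup.closure_induction with
    | mem y hy =>
      obtain ⟨τ, hτ, z, hz, rfl⟩ := hy
      exact hf τ hτ z hz
    | zero => rw [map_zero]; exact D.zero_mem
    | add y z _ _ h1 h2 => rw [map_add]; exact D.add_mem h1 h2
    | neg y _ h1 => rw [map_neg]; exact D.neg_mem h1
  have hgood : ∀ y ∈ D, Good A p y := by
    intro y hy
    induction hy using AddSubgroup.closure_induction with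
    | mem y hy =>
      obtain ⟨τ, hτ, z, hz, rfl⟩ := hy
      exact good_smul_sub hA hτ (hpX z hz)
    | zero => exact Good.zero
    | add y z _ _ h1 h2 => exact h1.add h2
    | neg y _ h1 => exact h1.neg
  have hfinD : Finite D := by
    have h1 : (X : Set (JZero (M * p))).Finite := Set.toFinite _
    exact (h1.subset hDX).to_subtype
  refine case_N hA hpM w (H84.ss2p hp hpM hA w) hfinD (fun y hy => (hgood y hy).1) ?_ ?_
    (fun y hy => hα y (hDX hy)) (fun y hy => (hgood y hy).2) hζ hσ hσζ hx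
  · intro τ hτ y hy
    refine hstab (DistribSMul.toAddMonoidHom _ τ) (fun τ' hτ' z hz => ?_) y hy
    refine AddSubgroup.subset_closure ⟨τ * τ' * τ⁻¹, mul_mem (mul_mem hτ hτ') (inv_mem hτ),
      τ • z, hI τ hτ z hz, ?_⟩
    rw [DistribSMul.toAddMonoidHom_apply, smul_sub, mul_smul, mul_smul, inv_smul_smul]
  · refine hstab (H67.pushP w.W.toAlgHom) (fun τ' hτ' z hz => ?_)
    refine AddSubgroup.subset_closure ⟨τ', hτ', H67.pushP w.W.toAlgHom z, hw z hz, ?_⟩
    rw [map_sub, hw']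

end New

section Weil

open WeierstrassCurve
open Fermat.Agent.H39 (Tor GQb)

variable {W : WeierstrassCurve ℤ} {p : ℕ}

/-- Inertia at `p` does not act on `E[p]` through the cyclotomic character, `p` odd. -/
theorem false_of_scalar_tor (hp : p.Prime) (hp2 : p ≠ 2) (hΔ : W.Δ ≠ 0)
    {A : ValuationSubring Qb} (hA : A.LiesOverPrime p) {ζ : Qb} (hζ : IsPrimitiveRoot ζ p)
    (h : ∀ σ ∈ A.inertiaSubgroupIn ℚ, ∀ a : ℕ, σ ζ = ζ ^ a → ∀ x : Tor W p, σ • x = a • x) :
    False := by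
  have hfact := Fact.mk hp
  have hp3 : 3 ≤ p := by have := hp.two_le; omega
  have hΔQ : (W.map (Int.castRingHom ℚ)).Δ ≠ 0 := by
    rw [WeierstrassCurve.map_Δ]
    simpa using hΔ
  have hΔK := H87.EC.algebraMap_Δ_ne_zero hΔQ
  have hpK : (p : Qb) ≠ 0 := Nat.cast_ne_zero.mpr hp.ne_zero
  obtain ⟨b⟩ := H87.EC.exists_basis_torsionBy (K := Qb) (W.map (Int.castRingHom ℚ)) hΔK hpK
  obtain ⟨e, hadd, hadd', hself, hpow, hprim, hequiv⟩ :=
    H39.exists_weilPairing (S := ℚ) (K := Qb) (W.map (Int.castRingHom ℚ)) hΔK hp3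
  have hω := hprim b
  have hne : ∀ u v, e u v ≠ 0 := fun u v h0 => by
    have := hpow u v
    rw [h0, zero_pow hp.ne_zero] at this
    exact zero_ne_one this
  have hnsmul : ∀ (n : ℕ) u v, e (n • u) v = e u v ^ n := by
    intro n u v
    induction n with
    | zero =>
      rw [zero_smul, pow_zero]
      have h1 := hadd 0 0 v
      rw [add_zero] at h1
      exact (mul_eq_left₀ (hne 0 v)).mp h1.symm
    | succ n ih => rw [succ_nsmul, hadd, ih, pow_succ]
  have hnsmul' : ∀ (n : ℕ) u v, e u (n • v) = e u v ^ n := by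
    intro n u v
    induction n with
    | zero =>
      rw [zero_smul, pow_zero]
      have h1 := hadd' u 0 0
      rw [add_zero] at h1
      exact (mul_eq_left₀ (hne u 0)).mp h1.symm
    | succ n ih => rw [succ_nsmul, hadd', ih, pow_succ]
  obtain ⟨σ, hσ, hσμ⟩ := exists_inertia_cyclo hA 2 (fun h2 => hp2 ((Nat.prime_dvd_prime_iff_eq hp
    Nat.prime_two).mp h2))
  have h1 : e (σ • b 0) (σ • b 1) = e (b 0) (b 1) ^ (2 * 2) := by
    rw [h σ hσ 2 (hσμ ζ hζ.pow_eq_one), h σ hσ 2 (hσμ ζ hζ.pow_eq_one), hnsmul, hnsmul', ← pow_mul]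
  have h2 : e (σ • b 0) (σ • b 1) = e (b 0) (b 1) ^ 2 := by
    rw [hequiv σ (b 0) (b 1), hσμ _ (hpow _ _)]
  have h3 : e (b 0) (b 1) ^ 2 = 1 := by
    have h4 : e (b 0) (b 1) ^ 2 * e (b 0) (b 1) ^ 2 = e (b 0) (b 1) ^ 2 * 1 := by
      rw [mul_one, ← pow_add]
      exact (h1.symm.trans h2)
    exact mul_left_cancel₀ (pow_ne_zero 2 (hne _ _)) h4
  have h4 := hω.dvd_of_pow_eq_one 2 h3
  have h5 := Nat.le_of_dvd (by norm_num) h4
  omega

end Weil

section Final

open WeierstrassCurve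
open Fermat.Agent.H39 (Tor GQb)
open Fermat.Agent.H61.L5 (NewEmb)

variable {W : WeierstrassCurve ℤ} {p : Nat.Primes} {M : ℕ} [NeZero M] [NeZero (M * p)]
  {S : Set ℕ}

/-- On a `p`-new copy of `E[p]` in `J₀(Mp)` inertia acts through the cyclotomic character on the
subgroup generated by the `σ x - x`, `σ` in inertia. -/
theorem smul_eq_of_newEmb (E : NewEmb W p M S) {A : ValuationSubring Qb}
    (hA : A.LiesOverPrime p) {ζ : Qb} (hζ : IsPrimitiveRoot ζ (p : ℕ)) {σ : Gq}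
    (hσ : σ ∈ A.inertiaSubgroupIn ℚ) {a : ℕ} (hσζ : σ ζ = ζ ^ a) {x : Tor W p}
    (hx : x ∈ AddSubgroup.closure {y : Tor W p | ∃ τ ∈ A.inertiaSubgroupIn ℚ, ∃ z, y = τ • z - z}) :
    σ • x = a • x := by
  haveI : Fact (p : ℕ).Prime := ⟨p.2⟩
  haveI : NeZero (p : ℕ) := ⟨p.2.ne_zero⟩
  have hpM : ¬ (p : ℕ) ∣ M := (Nat.Prime.coprime_iff_not_dvd p.2).mp E.hc.symm
  obtain ⟨w⟩ := H99.nonempty_AL (L := Qb) H67.embQbar E.hc
  apply E.inj
  rw [E.galois, map_nsmul]
  refine smul_eq_of_closure (X := E.ι.range) hA hpM w ?_ ?_ ?_ ?_ ?_ ?_ hζ hσ hσζ ?_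
  · exact (H34.Two.isAL w p.2 hpM).pushP_smul
  · have h1 : (E.ι.range : Set (JZero (M * p))).Finite := by
      refine (H90.finite_jzero (N := M * p) p.2.ne_zero).subset ?_
      rintro _ ⟨y, rfl⟩
      exact E.nsmul_ι y
    exact h1.to_subtype
  · rintro _ ⟨y, rfl⟩
    exact E.nsmul_ι y
  · rintro τ - _ ⟨y, rfl⟩
    exact ⟨τ • y, E.galois τ y⟩
  · rintro _ ⟨y, rfl⟩
    rw [H44K.pushP_W_eq E.hc w, E.w]
    exact E.ι.range.zsmul_mem ⟨y, rfl⟩ _
  · rintro _ ⟨y, rfl⟩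
    rw [H44K.pushP_alpha_eq (mul_dvd_mul_left _ (one_dvd _)), E.push_one]
  · induction hx using AddSubgroup.closure_induction with
    | mem y hy =>
      obtain ⟨τ, hτ, z, rfl⟩ := hy
      refine AddSubgroup.subset_closure ⟨τ, hτ, E.ι z, ⟨z, rfl⟩, ?_⟩
      rw [map_sub, E.galois]
    | zero => rw [map_zero]; exact AddSubgroup.zero_mem _
    | add y z _ _ h1 h2 => rw [map_add]; exact AddSubgroup.add_mem _ h1 h2
    | neg y _ h1 => rw [map_neg]; exact AddSubgroup.neg_mem _ h1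

/-- **`E[p]` is not `p`-new if it is generated by the elements `σ x - x`, `σ` in inertia.** -/
theorem false_of_newEmb (E : NewEmb W p M S) (hp2 : (p : ℕ) ≠ 2) (hΔ : W.Δ ≠ 0)
    {A : ValuationSubring Qb} (hA : A.LiesOverPrime p)
    (hcl : AddSubgroup.closure
      {y : Tor W p | ∃ τ ∈ A.inertiaSubgroupIn ℚ, ∃ z, y = τ • z - z} = ⊤) : False := by
  haveI : NeZero (((p : ℕ) : Qb)) := ⟨Nat.cast_ne_zero.mpr p.2.ne_zero⟩
  obtain ⟨ζ, hζ⟩ := HasEnoughRootsOfUnity.exists_primitiveRoot Qb (p : ℕ)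
  exact false_of_scalar_tor p.2 hp2 hΔ hA hζ fun σ hσ a hσζ x =>
    smul_eq_of_newEmb E hA hζ hσ hσζ (by rw [hcl]; exact AddSubgroup.mem_top x)

/-- The closure condition from transitivity of inertia on the nonzero elements. -/
theorem closure_eq_top_of_transitive (hp : (p : ℕ).Prime) (hΔ : W.Δ ≠ 0)
    {A : ValuationSubring Qb}
    (htr : ∀ x y : Tor W p, x ≠ 0 → y ≠ 0 → ∃ σ ∈ A.inertiaSubgroupIn ℚ, σ • x = y) :
    AddSubgroup.closure
      {y : Tor W p | ∃ τ ∈ A.inertiaSubgroupIn ℚ, ∃ z, y = τ • z - z} = ⊤ := by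
  have hfact := Fact.mk hp
  have hΔQ : (W.map (Int.castRingHom ℚ)).Δ ≠ 0 := by
    rw [WeierstrassCurve.map_Δ]
    simpa using hΔ
  have hΔK := H87.EC.algebraMap_Δ_ne_zero hΔQ
  have hpK : (((p : ℕ) : ℕ) : Qb) ≠ 0 := Nat.cast_ne_zero.mpr hp.ne_zero
  obtain ⟨b⟩ := H87.EC.exists_basis_torsionBy (K := Qb) (W.map (Int.castRingHom ℚ)) hΔK hpK
  rw [eq_top_iff]
  intro x _
  by_cases hx : x = 0
  · rw [hx]; exact AddSubgroup.zero_mem _
  -- a nonzero element of the closure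
  have h01 : b 0 ≠ b 1 := fun h => by
    have := b.injective h
    exact absurd this (by decide)
  obtain ⟨τ, hτ, h1⟩ := htr (b 0) (b 1) (b.ne_zero 0) (b.ne_zero 1)
  have hd : b 1 - b 0 ≠ 0 := sub_ne_zero.mpr h01.symm
  obtain ⟨σ, hσ, h2⟩ := htr (b 1 - b 0) x hd hx
  refine AddSubgroup.subset_closure ⟨σ * τ * σ⁻¹, mul_mem (mul_mem hσ hτ) (inv_mem hσ), σ • b 0, ?_⟩
  rw [mul_smul, mul_smul, inv_smul_smul, h1, ← smul_sub, h2]

/-- **Supersingular case**: if inertia is transitive on the nonzero `p`-torsion points then `E[p]`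
is not `p`-new. -/
theorem false_of_transitive (E : NewEmb W p M S) (hp2 : (p : ℕ) ≠ 2) (hΔ : W.Δ ≠ 0)
    {A : ValuationSubring Qb} (hA : A.LiesOverPrime p)
    (htr : ∀ x y : Tor W p, x ≠ 0 → y ≠ 0 → ∃ σ ∈ A.inertiaSubgroupIn ℚ, σ • x = y) : False :=
  false_of_newEmb E hp2 hΔ hA (closure_eq_top_of_transitive p.2 hΔ htr)

end Final

end Fermat.Agent.H33C
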