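import Fermat.Agent.H47ES

/-!
# The structure of the `p`-torsion at a prime `p` of good reduction (`H31C.GoodSide`)
-/

set_option autoImplicit false

open WeierstrassCurve WeierstrassCurve.Affine

namespace Fermat.Agent.H47.ES

open Fermat.Agent.H44E

local notation "Qb" => AlgebraicClosure ℚ

/-- The statement `Fermat.Agent.H31C.GoodSide`, unfolded. -/
theorem good_side : ∀ {W : WeierstrassCurve ℤ} {p : ℕ}, p.Prime → p ≠ 2 → W.Δ ≠ 0 →
    ¬ (p : ℤ) ∣ W.Δ → ∀ {A : ValuationSubring Qb}, A.LiesOverPrime p →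
      (∃ V : AddSubgroup (PtQ W), LineAtP p A (PtQ W) V) ∨
        ∀ x y : PtQ W, p • x = 0 → p • y = 0 → x ≠ 0 → y ≠ 0 →
          ∃ σ : A.inertiaSubgroupIn ℚ, σ • x = y := by
  intro W p hp hp2 hΔ hgood A hA
  rcases card_V1_good hp hp2 hA hgood with h | ⟨-, h⟩
  · exact Or.inl ⟨_, lineAtP_of_ordinary hp hp2 hA hgood h⟩
  · refine Or.inr fun x y hx hy hx0 hy0 => ?_
    obtain ⟨σ, hσ, hxy⟩ := V1_transitive hp hp2 hA hΔ (h x hx) hx0 (h y hy) hy0
    exact ⟨⟨σ, hσ⟩, hxy⟩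

end Fermat.Agent.H47.ES
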