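import Fermat.Agent.S39
import Fermat.Agent.S40
import Fermat.Agent.H31C7
import Fermat.Agent.H47ESGS
import Fermat.Agent.H33CNew

/-!
# Guide: lowering the level at `p` in general (statements S39, S40)

**What is proved.** Let `W` be a Weierstrass equation over `ℤ` with `Δ ≠ 0`, `p` an odd prime, `W[p]`
irreducible and modular of level `M p`, `p ∤ M`, and suppose that `W` has good reduction at `p` (S40), or
multiplicative reduction with `p ∣ ord_p Δ` (S39, which includes S40).  Then `W[p]` is modular of level `M`.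
There is no condition on `W` and `M` away from `p`, and `p = 3` is allowed.  In the literature this is
proved with the Néron model of `J₀(M p)` and finite flat group schemes (Mazur, Ribet); here only
functions on `X₀(M p)`, their expansions, and points of the reduced curves occur.  The Frey curve (S44,
`p ≥ 5`, squarefree level, used for S01) is treated in `GuideLevelsS44`, which should be read first.

**How it is proved** (reading order = order of the theorems; `A` is a place of `ℚ̄` above `p`).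
0. Vocabulary: function fields of `X₀(N)` over any field as fields of Laurent series, the two maps
   `α, β : X₀(N ℓ) → X₀(N)`, the relation `U_p + w_p = β^* α_*`, `p`-new embeddings of `W[p]` in `J₀(M p)`
   (`nonempty_newEmb_iff`), Kummer functions, reduction of expansions.
1. Either `W[p]` is already modular of level `M`, or there is a `p`-new embedding `ι`
   (`residual_dichotomy`); `M` can be multiplied by `2` or `4` to get `4 ∣ M` (`exists_aux`).
2. The curve at `p`: `W[p]` contains a line `V` with trivial action of inertia on `W[p] / V`, and a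
   wild extension is as little ramified as possible (`LineAtP`); or inertia is transitive on the nonzero
   points (good supersingular reduction), and this is impossible in the `p`-new part.
3. The modular curve at `p` (`GuideLevelsS44`, sections 4 and 5): the Kummer function of `ι z`, `z` outside
   `V`, has a reduction `g` on the first component of the fibre at `p` of `X₀(M p)`.  It is a function on
   `X₀(M)` over the residue field, not a `p`-th power, whose orders are divisible by `p` outside the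
   supersingular points (the nodes) and congruent to each other modulo `p` at these.
4. `T_ℓ (div g) = a_ℓ(W) div g + p div h` (`exists_hecke_relation`).  The sum of the supersingular points
   is an eigenvector of `T_ℓ` modulo `p` with eigenvalue `ℓ + 1`, and `W[p]` is irreducible, so all the
   orders of `g` on `X₀(M)`, `4 ∣ M`, are divisible by `p` (`dvd_ord_of_hecke`).  This replaces the
   logarithmic derivative of S44.
5. Back to the given level `M₀` (`M = 2^a M₀`): for `p ≥ 5` the degree of `X₀(M) → X₀(M₀)` is prime to `p`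
   (`divisibility_descends`); for `p = 3` the points with `3 ∤ ord j` need the elliptic points of order `3`
   (`descent_three`).
6. `(1/p) div g` is a point of order `p` of `J₀(M₀)` in characteristic `p`, which lifts to characteristic
   `0` with its Hecke eigenvalues: `isResiduallyModularOfLevel_of_function`.

**Files** 1: `H61L5B`, `H61C1`, `H61C2`. 2: `H44EGlob` (points which reduce to zero), `H47ESProd`,
`H47ESGood`, `H47ESOrd`, `H47ESGS`, `H33CNew`. 4: `H17HkDeg`, `H17HkAbs`, `H17Hk`, `H17HkMain` (degeneracy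
maps and reduction), `H17C1`, `H17C2`, `H16C7A`, `H16C7P`. 5: `H31C3`, `H98CJ3`, `H98CT3`, `H8CEll`,
`H26CEll`, `H8CThree`, `H31C7`; the expansions of `H18C2Final`. 6: `H18CRedA`, `H18CRedB`, `H18CRed`;
assembly `H40CDef`, `H31Kum2`, `H31C2`, `H31C5`, `H31C6`.

**Serves** S39 and S40.  What is cited here is not used for S01, except in section 0 (but not
`coe_alpha_beta`), `mem_V1`, `wildConst_iff`, `lineAtP_fields` and `line_of_multiplicative`.  Related files:
`GuideLevels` (overview, S43, S38), `GuideLevelsMazur`, `GuideLevelsS44`; step by step: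
`GuideLevelsAtPSteps` (steps 1, 4, 5, 6), `GuideOrderPPoints` (section 2), `GuideKernel` (section 4),
`GuideLevelThree` and `GuideEllipticPoints` (section 5, `p = 3`).

**Notes** Section 3.5; [330], [334] (overview), [321] (1), [316], [314], [290] (2), [325], [331] (4), [326],
[332], [340] (5), [328], [335] (6), [336] (referee report).  Written by helper5, helper31, helper47; theorems
of helper8, 16, 17, 18, 26, 31, 33, 44, 47, 61, 98.
-/

set_option autoImplicit false
set_option synthInstance.maxHeartbeats 200000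

noncomputable section

namespace Fermat.Agent.Guide.LevelsAtP

open AlgebraicCurve ModularCurve WeierstrassCurve WeierstrassCurve.Affine
open Fermat.Agent.H44E

/- Only to make the file faster to check: prefer the obvious `k`-algebra structure on a subfield of
`k((q))`. -/
attribute [-instance] IsLocalRing.ResidueField.algebra
attribute [local instance 5000] SubalgebraClass.toAlgebra

/-- The field of algebraic numbers. -/
local notation "Qb" => AlgebraicClosure ℚ

/-- The absolute Galois group of `ℚ`. -/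
local notation "GQ" => (AlgebraicClosure ℚ ≃ₐ[ℚ] AlgebraicClosure ℚ)

/-- The residue field of a place `A` of `ℚ̄`; algebraically closed of characteristic `p` if `A` lies
over `p` (`A.LiesOverPrime p`). -/
local notation "κ" => IsLocalRing.ResidueField

/-- The function field of `X₀(N)` over an arbitrary field `k`, see `functionField_eq`. -/
local notation "FC" => modularFunctionFieldFullC

/-- The function `j` on `X₀(N)` over a field `k` (an element of `FC k N`). -/
local notation "jX" => Fermat.Agent.H8.jC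

/-- The series `Δ = q ∏ (1 - q^n)^24` over a ring `k`. -/
local notation "Δq" => Fermat.Agent.H28.deltaL

/-! ### 0. Vocabulary -/

/-- The function field of `X₀(N)` over an arbitrary field `k` (`modularFunctionFieldFullC k N`, frozen
Prelude; notation `FC k N` below) is the subfield of the field of Laurent series `k((q))` generated
over `k` by the expansions of the `j(q^d)`, `d ∣ N`.  The places of the function field over `k` are
the points of the curve, `w.ord f` is the order of `f` at `w`. -/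
theorem functionField_eq (k : Type*) [Field k] (N : ℕ) :
    modularFunctionFieldFullC k N = IntermediateField.adjoin k
      {x | ∃ (d : ℕ) (_ : NeZero d), d ∣ N ∧ x = qExpand k d (jqModC k)} :=
  rfl

/-- The two maps `α, β : X₀(N ℓ) → X₀(N)` over `k`, as inclusions of function fields: `α` is the
identity of series (it forgets the subgroup of order `ℓ`) and `β` is `f(q) ↦ f(q^ℓ)`.  The Hecke
correspondence `T_ℓ` on divisors in characteristic `p` is `α_* β^*`
(`Divisor.correspondence β α`).  Defined in `H17HkDeg`. -/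
theorem coe_alpha_beta (k : Type*) [Field k] (N ℓ : ℕ) [NeZero N] [NeZero ℓ] (x : FC k N) :
    ((H17.alphaC k N ℓ x : FC k (N * ℓ)) : LaurentSeries k) = (x : LaurentSeries k) ∧
      ((H17.betaC k N ℓ x : FC k (N * ℓ)) : LaurentSeries k) = qExpand k ℓ (x : LaurentSeries k) :=
  ⟨H17.coe_alphaC k N ℓ x, H17.coe_betaC k N ℓ x⟩

/-- **`U_p + w_p = β^* α_*`** on `J₀(M p)`, `p ∤ M`: the relation between the Atkin-Lehner involution
and the degeneracy maps.  `degPush d`, `degPull d` are the push forward and the pull back of divisor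
classes along the map `X₀(N) → X₀(M)` which is `f(q) ↦ f(q^d)` on functions (`M d ∣ N`); `d = 1` is
`α`, `d = p` is `β`.  Proved in `H67J`. -/
theorem heckeOperator_add_wJ (q : Nat.Primes) [NeZero (q : ℕ)] (M : ℕ) [NeZero M]
    [NeZero (M * q)] (hqM : ¬ (q : ℕ) ∣ M) (hc : M.Coprime q) (h1 : M * 1 ∣ M * q)
    (h2 : M * q ∣ M * q) (x : JZero (M * q)) :
    heckeOperatorBar (M * q) q x + H67.wJ M q rfl hc x = H67.degPull q h2 (H67.degPush 1 h1 x) :=
  H67.heckeOperatorBar_add_wJ q hqM hc h1 h2 x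

/-- **New embeddings.**  `NewEmb W p M S` is the type of the Galois equivariant embeddings `ι` of `E[p]`
into `J₀(M p)`, `p ∤ M`, on which `T_ℓ` acts by `a_ℓ(W)` for all the primes `ℓ ∉ S` (`ℓ ≠ p` if
`p ∈ S`), the involution `w_p` by a sign `ε` and `U_p` by `-ε` (so the image is killed by the two
push forwards to `J₀(M)`: it is `p`-new).  `H39.Tor W p` is `E[p]`, `JZero N` is `J₀(N)(ℚ̄)` (degree
`0` divisor classes of the function field of `X₀(N)` over `ℚ̄`), `H67.wJ M p` is the Atkin-Lehner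
involution `w_p`. -/
theorem nonempty_newEmb_iff (W : WeierstrassCurve ℤ) (p : Nat.Primes) (M : ℕ) [NeZero (M * p)]
    (S : Set ℕ) :
    Nonempty (H61.L5.NewEmb W p M S) ↔
      ∃ (hc : M.Coprime p) (ι : H39.Tor W p →+ JZero (M * p)), Function.Injective ι ∧
        (∀ (σ : GQ) (x : H39.Tor W p), ι (σ • x) = σ • ι x) ∧
        (∀ ℓ : Nat.Primes, (ℓ : ℕ) ∉ S → ∀ x : H39.Tor W p,
          heckeOperatorBar (M * p) ℓ (ι x) = W.apOfModel (ℓ : ℕ) • ι x) ∧
        ∃ ε : ℤ, (ε = 1 ∨ ε = -1) ∧ (∀ x, H67.wJ M p rfl hc (ι x) = ε • ι x) ∧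
          ∀ x, heckeOperatorBar (M * p) p (ι x) = (-ε) • ι x :=
  ⟨fun ⟨E⟩ => ⟨E.hc, E.ι, E.inj, E.galois, E.hecke, E.ε, E.hε, E.w, E.U⟩,
    fun ⟨hc, ι, h1, h2, h3, ε, h4, h5, h6⟩ => ⟨⟨hc, ι, h1, h2, h3, ε, h4, h5, h6⟩⟩⟩

/-- **Kummer functions.**  `J₀(N)(ℚ̄)` is the group `Pic⁰` of divisor classes of degree `0` of the
function field of `X₀(N)`.  `f` is a Kummer function of level `n` for the class `x` if `f ≠ 0` and
`div f = n D` for a divisor `D` of class `x`; then `n x = 0`. -/
theorem isKum_iff {K F : Type*} [Field K] [Field F] [Algebra K F] (n : ℕ) (x : Pic0 K F) (f : F) :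
    H33.IsKum n x f ↔ f ≠ 0 ∧ ∃ D : Divisor.degZero (K := K) (F := F), Pic0.mk D = x ∧
      ∀ v : Place K F, (n : ℤ) * (D : Divisor K F) v = v.ord f :=
  Iff.rfl

/-- **Gauss reduction of expansions.**  `A` a valuation ring of `L`, `π` a homomorphism from `A` to a
field `k`.  The series `fb` over `k` is the reduction of the series `f` over `L` if `f = y / z`,
`fb = π y / π z` with `y`, `z` series with coefficients in `A` and `π z ≠ 0`.  (So `f` need not have
coefficients in `A`, and `fb` is unique.) -/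
theorem red_iff {L : Type*} [Field L] (A : ValuationSubring L) {k : Type*} [Field k] (π : A →+* k)
    (f : LaurentSeries L) (fb : LaurentSeries k) :
    H38.Mz.Red A π f fb ↔ ∃ y z : LaurentSeries A, coeffMap π z ≠ 0 ∧
      f * coeffMap A.subtype z = coeffMap A.subtype y ∧ fb * coeffMap π z = coeffMap π y :=
  Iff.rfl

/-! ### 1. From modularity to a `p`-new embedding -/

/-- **The dichotomy.**  `W[p]` irreducible, `p` odd, `p ∤ M`, modular of level `M p`: then it is modular
of level `M`, or there is a `p`-new embedding (`NewEmb`, see `nonempty_newEmb_iff`) with good behaviour at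
all the primes not dividing `M p Δ`.  Idea: the congruence gives an embedding of `W[p]` in `J₀(M p)`
compatible with the `T_ℓ` (S29).  If a class of order `p` of `J₀(M p)` with the eigenvalues `a_ℓ(W)` has a
nonzero image in `J₀(M)` then `W[p]` is modular of level `M`; otherwise `U_p = -w_p` on these classes,
and one of `w_p ι ± ι` is a `p`-new embedding.  Proved in `H61L5B`, `H61C1`; in the closure of S39, S40. -/
theorem residual_dichotomy (W : WeierstrassCurve ℤ) (hΔ : W.Δ ≠ 0) (p : Nat.Primes)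
    (hp2 : (p : ℕ) ≠ 2) (hirr : W.ModRepIsIrreducible p) (M : ℕ) [NeZero M] [NeZero (M * p)]
    (hpM : ¬ (p : ℕ) ∣ M) (hmod : W.IsResiduallyModularOfLevel p (M * p)) :
    W.IsResiduallyModularOfLevel p M ∨
      Nonempty (H61.L5.NewEmb W p M (((M * p * W.Δ.natAbs).primeFactors : Finset ℕ) : Set ℕ)) :=
  H61C.residual_dichotomy hΔ hp2 hirr hpM hmod

/-- **The auxiliary level.**  For every odd `p` (also `p = 3`) a `p`-new embedding of level `M₀ p`
gives one of level `M p` with `M = 2^a M₀`, `4 ∣ M ∣ 4 M₀`, by pull back of divisor classes (the first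
map `α` only, repeated).  `4 ∣ M` makes `X₀(M)` free of elliptic points, so that the orders of
`Δ^(p-1)` at the supersingular points in characteristic `p` are all `-12` as a function.  Proved in
`H61C2`; the injectivity on `E[p]` uses that a `p`-th root of a function of level `R` which exists at
level `2 R` exists at level `R`. -/
theorem exists_aux {W : WeierstrassCurve ℤ} {p : Nat.Primes} {S : Set ℕ} [NeZero (p : ℕ)] {M₀ : ℕ}
    [NeZero M₀] [NeZero (M₀ * p)] (E : H61.L5.NewEmb W p M₀ S) (hp2 : (p : ℕ) ≠ 2) :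
    ∃ M : ℕ, M₀ ∣ M ∧ 4 ∣ M ∧ M ∣ 4 * M₀ ∧ (∃ a : ℕ, M = M₀ * 2 ^ a) ∧ ¬ (p : ℕ) ∣ M ∧
      ∃ (_ : NeZero M) (_ : NeZero (M * p)) (h : M₀ * p * 1 ∣ M * p)
        (E' : H61.L5.NewEmb W p M (S ∪ {2})),
        E'.ε = E.ε ∧ ∀ x, E'.ι x = H67.degPull 1 h (E.ι x) :=
  H61C.exists_aux E hp2

/-! ### 2. The points of order `p` of the curve at `p` (proofs: `GuideOrderPPoints`) -/

/-! `PtQ W` are the points of `W` over `ℚ̄`, `TorQ W p = H39.Tor W p` its `p`-torsion, `A.valuation`
the (multiplicative) valuation of the place `A` above `p`, `A.inertiaSubgroupIn ℚ` its inertia group. -/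

/-- The subgroup `V1 W p A` of the points of `W` over the algebraic closure: the `p`-torsion points
whose reduction at the place `A` (a valuation ring of the algebraic closure above `p`) is zero
(`Red0 W A P`). A point `(x, y)` reduces to zero if `x` is not `A`-integral. -/
theorem mem_V1 (W : WeierstrassCurve ℤ) (p : ℕ) (A : ValuationSubring Qb) (P : PtQ W) :
    P ∈ V1 W p A ↔ p • P = 0 ∧ Red0 W A P := Iff.rfl

/-- **Inertia is transitive on the kernel of reduction.** Let `W` be a Weierstrass curve over `ℤ`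
with nonzero discriminant, `p` an odd prime and `A` a place above `p`. Any two nonzero `p`-torsion
points which reduce to zero are conjugate under the inertia group of `A` (no assumption on the
reduction type). Proof: the product of `v(x/y)` over all nonzero points `(x, y)` which reduce to zero is
`≥ v(p)` (the division polynomial has leading coefficient `p`), and over one orbit of inertia it is
`≤ v(p)` (the product is fixed by inertia, and the fixed field of inertia is unramified at `p`); two orbits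
would give `v(p) ≤ v(p)²`. This replaces the theory of formal groups and of the fundamental characters.
File H47ESProd. -/
theorem inertia_transitive_on_kernel_of_reduction {W : WeierstrassCurve ℤ} (hΔ : W.Δ ≠ 0) {p : ℕ}
    (hp : p.Prime) (hp2 : p ≠ 2) {A : ValuationSubring Qb} (hA : A.LiesOverPrime p)
    {T T' : PtQ W} (hT : T ∈ V1 W p A) (hT0 : T ≠ 0) (hT' : T' ∈ V1 W p A) (hT'0 : T' ≠ 0) :
    ∃ σ ∈ A.inertiaSubgroupIn ℚ, σ • T = T' :=
  H47.ES.V1_transitive hp hp2 hA hΔ hT hT0 hT' hT'0

/-- **The constants `WildConst`** (H44EFrey). `Hx` is the stabiliser of a point `x` in the inertia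
group of `A`, and `τ` is an element of inertia which moves `x`. There is `ε ≠ 0` with `v(ε) < 1`
such that every element `a` fixed by `Hx` with `v(a) < 1` is divisible by `ε²`, integral elements
`a` fixed by `Hx` satisfy `τ a ≡ a` modulo `ε²`, and for every `a ≠ 0` fixed by `Hx` one has
`v(a)^p = v(p)^n` for an integer `n` and `τ(a)/a ≡ 1 + n ε` modulo `ε²`; the first property also
holds for the stabilisers `H` singled out by `Hy`. So the field of `x` is ramified of degree `p` and
as little ramified as possible. (`v` is multiplicative.) -/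
theorem wildConst_iff (p : ℕ) (A : ValuationSubring Qb) (Hx : Subgroup (A.inertiaSubgroupIn ℚ))
    (Hy : Subgroup (A.inertiaSubgroupIn ℚ) → Prop) (τ : A.inertiaSubgroupIn ℚ) :
    WildConst p A Hx Hy τ ↔ ∃ ε : Qb, ε ≠ 0 ∧ A.valuation ε < 1 ∧
      (∀ a : Qb, (∀ σ ∈ Hx, σ • a = a) → A.valuation a < 1 →
        A.valuation a ≤ A.valuation ε ^ 2) ∧
      (∀ a : Qb, (∀ σ ∈ Hx, σ • a = a) → A.valuation a ≤ 1 →
        A.valuation (τ • a - a) ≤ A.valuation ε ^ 2) ∧
      (∀ a : Qb, a ≠ 0 → (∀ σ ∈ Hx, σ • a = a) →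
        ∃ n : ℤ, A.valuation a ^ p = A.valuation (p : Qb) ^ n ∧
          A.valuation ((τ • a) / a - 1 - n * ε) ≤ A.valuation ε ^ 2) ∧
      (∀ H : Subgroup (A.inertiaSubgroupIn ℚ), Hy H → ∀ a : Qb, (∀ σ ∈ H, σ • a = a) →
        A.valuation a < 1 → A.valuation a ≤ A.valuation ε ^ 2) := Iff.rfl

/-- **The structure `LineAtP` unfolded** (H44EFrey): local structure at a place `A` above `p` of
the `p`-torsion of a Galois module `M` with a line `V` of order `p`. Inertia stabilises `V`, acts
trivially on `M[p] / V` and nontrivially on every nonzero element of `V`; the stabilisers of the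
elements `y ≠ 0` of `V` have index at most `p - 1`; and if inertia has no fixed point on a
coset `x + V` (the wild case) then it is transitive on it, the stabiliser of `x` has index `p`,
and the constants `WildConst` exist. -/
theorem lineAtP_fields {p : ℕ} {A : ValuationSubring Qb} {M : Type*} [AddCommGroup M]
    [DistribMulAction GQ M] {V : AddSubgroup M} (h : LineAtP p A M V) :
    Nat.card V = p ∧ (∀ T ∈ V, p • T = 0) ∧
    (∀ (σ : A.inertiaSubgroupIn ℚ), ∀ T ∈ V, σ • T ∈ V) ∧
    (∀ (σ : A.inertiaSubgroupIn ℚ) (x : M), p • x = 0 → σ • x - x ∈ V) ∧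
    (∀ T ∈ V, T ≠ 0 → ∃ σ : A.inertiaSubgroupIn ℚ, σ • T ≠ T) ∧
    (∀ y ∈ V, y ≠ 0 → (MulAction.stabilizer (A.inertiaSubgroupIn ℚ) y).index ≠ 0 ∧
      (MulAction.stabilizer (A.inertiaSubgroupIn ℚ) y).index ≤ p - 1) ∧
    (∀ x : M, p • x = 0 → x ∉ V →
      (∀ T ∈ V, ∃ σ : A.inertiaSubgroupIn ℚ, σ • (x + T) ≠ x + T) →
      (∀ T ∈ V, ∃ σ : A.inertiaSubgroupIn ℚ, σ • x = x + T) ∧
      (MulAction.stabilizer (A.inertiaSubgroupIn ℚ) x).index = p ∧
      ∀ τ : A.inertiaSubgroupIn ℚ, τ • x ≠ x →
        WildConst p A (MulAction.stabilizer (A.inertiaSubgroupIn ℚ) x)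
          (fun H => ∃ y ∈ V, y ≠ 0 ∧ H = MulAction.stabilizer (A.inertiaSubgroupIn ℚ) y) τ) :=
  ⟨h.card, h.tors, h.smul_mem, h.smul_sub_mem, h.exists_ne, h.index_y, h.wild⟩

/-- **Multiplicative reduction at `p`, `p ∣ ord_p Δ`** (S44, S39).  The `p`-torsion points which reduce
to zero form a line in the sense of `LineAtP` (unfolded above).  No Tate curve: `|V| = p` by counting;
with `ξ = x - x₀`, `x₀` the `x`-coordinate of the critical point of the equation which reduces to the node
(both partial derivatives vanish: `H13.NodeData`), `v(ξ(P + T) - ξ(P))^(p-1) = v(ξ(P))^(p-1) v(p)` for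
`0 ≠ T ∈ V`, `P ∉ V`, and this gives the uniformiser of a wild extension.  Proved in `H44EMain`,
`H44EWild`, `H44EFrey` (helper44). -/
theorem line_of_multiplicative {W : WeierstrassCurve ℤ} {p : ℕ} (hp : p.Prime) (hp2 : p ≠ 2)
    (hbad : (p : ℤ) ∣ W.Δ) (hΔ : W.Δ ≠ 0) (hc : ¬ (p : ℤ) ∣ W.c₄) (hdvd : p ∣ padicValInt p W.Δ)
    {A : ValuationSubring Qb} (hA : A.LiesOverPrime p) : LineAtP p A (PtQ W) (V1 W p A) :=
  lineAtP_of_multiplicative hp hp2 hbad hΔ hc hdvd hA

/-- **Good reduction at `p`** (S39, S40): either there is a line in the sense of `LineAtP` (ordinary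
reduction; it is the kernel of reduction), or inertia is transitive on the nonzero `p`-torsion points
(supersingular reduction: then all of them reduce to zero).  In the ordinary case
`v(x(P + T) - x(P))^(p-1) = v(p)` for `0 ≠ T ∈ V`, `P ∉ V`, which gives the uniformiser of a wild extension
as in `line_of_multiplicative`.  Proved in `H47ESOrd`, `H47ESGS` (helper47). -/
theorem line_or_transitive_of_good {W : WeierstrassCurve ℤ} {p : ℕ} (hp : p.Prime) (hp2 : p ≠ 2)
    (hΔ : W.Δ ≠ 0) (hgood : ¬ (p : ℤ) ∣ W.Δ) {A : ValuationSubring Qb} (hA : A.LiesOverPrime p) :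
    (∃ V : AddSubgroup (PtQ W), LineAtP p A (PtQ W) V) ∨
      ∀ x y : PtQ W, p • x = 0 → p • y = 0 → x ≠ 0 → y ≠ 0 →
        ∃ σ : A.inertiaSubgroupIn ℚ, σ • x = y :=
  H47.ES.good_side hp hp2 hΔ hgood hA

/-- **Inertia on a `p`-new copy of `W[p]`** (helper33, H33CNew). A `NewEmb W p M S` is a Galois
equivariant embedding of `W[p]` in `J₀(Mp)`, `p ∤ M`, compatible with `T_ℓ` for `ℓ` outside `S`, on
which `w_p` acts by a sign `ε` and `U_p` by `-ε`. On the subgroup of `W[p]` generated by the
elements `τ z - z`, `τ` in inertia at a place above `p`, inertia acts through the cyclotomic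
character. Proof: the Kummer functions of these elements reduce to `p`-th powers; since the trace to
level `M` is zero, they are, up to `p`-th powers, congruent to `1` modulo `(ζ - 1)^p 𝔪` on both
components of the special fibre of `X₀(Mp)` (H33CaseN); the two `p`-th roots are then compared at
the supersingular points (H84SSp). -/
theorem inertia_cyclotomic_of_newEmb {W : WeierstrassCurve ℤ} {p : Nat.Primes} {M : ℕ} [NeZero M]
    [NeZero (M * p)] {S : Set ℕ} (E : H61.L5.NewEmb W p M S) {A : ValuationSubring Qb}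
    (hA : A.LiesOverPrime p) {ζ : Qb} (hζ : IsPrimitiveRoot ζ (p : ℕ)) {σ : GQ}
    (hσ : σ ∈ A.inertiaSubgroupIn ℚ) {a : ℕ} (hσζ : σ ζ = ζ ^ a) {x : TorQ W p}
    (hx : x ∈ AddSubgroup.closure
      {y : TorQ W p | ∃ τ ∈ A.inertiaSubgroupIn ℚ, ∃ z, y = τ • z - z}) :
    σ • x = a • x :=
  H33C.smul_eq_of_newEmb E hA hζ hσ hσζ hx

/-- **The supersingular alternative cannot occur in the `p`-new part** (helper33, H33CNew). If
inertia were transitive on the nonzero `p`-torsion points, the subgroup generated by the `τ z - z`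
would be `W[p]`, and inertia would act on `W[p]` by the scalars `χ_p`; but the determinant is `χ_p`
(Weil pairing), so `χ_p² = χ_p`, which is false for `p` odd. -/
theorem not_transitive_of_newEmb {W : WeierstrassCurve ℤ} {p : Nat.Primes} {M : ℕ} [NeZero M]
    [NeZero (M * p)] [NeZero (p : ℕ)] {S : Set ℕ} (E : H61.L5.NewEmb W p M S) (hp2 : (p : ℕ) ≠ 2)
    (hΔ : W.Δ ≠ 0) {A : ValuationSubring Qb} (hA : A.LiesOverPrime p)
    (htr : ∀ x y : TorQ W p, x ≠ 0 → y ≠ 0 → ∃ σ ∈ A.inertiaSubgroupIn ℚ, σ • x = y) : False :=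
  H33C.false_of_transitive E hp2 hΔ hA htr

/-! (Step 3 is in `GuideLevelsS44`, sections 4 and 5, and in `GuideNodeAnalysis`.) -/

/-! ### 4. Characteristic `p`: the Hecke relation and the supersingular points -/

/-- **The Hecke relation in characteristic `p`** (step 4).  `u` is the Kummer function of a class `x`
of order `p` in `J₀(M p)` with `T_ℓ x = a x`, and `g` is the reduction of a multiple of `u` along the
expansion at the cusp `∞`; it is a function on `X₀(M)` over the residue field.  Then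
`T_ℓ (div g) = a div g + p div h` for a function `h`.  Proved in `H17C1` (with `H17HkDeg`, `H17HkAbs`,
`H17Hk`: reduction commutes with the two maps; no integral model of `X₀(M p)` is used). -/
theorem exists_hecke_relation {A : ValuationSubring Qb} {M p : ℕ} [NeZero M] [NeZero (M * p)]
    (hp : p.Prime) (hpM : ¬ p ∣ M) (hA : A.LiesOverPrime p) {ℓ : ℕ} [NeZero ℓ] (hℓ : ℓ.Prime)
    (hℓN : ¬ ℓ ∣ M * p) [IsAlgClosed (κ A)] [H94.FunField (κ A) (FC (κ A) M)]
    [H94.FunField (κ A) (FC (κ A) (M * ℓ))]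
    (hα : (H17.alphaC (κ A) M ℓ).toRingHom.IsIntegral)
    (hβ : (H17.betaC (κ A) M ℓ).toRingHom.IsIntegral)
    {D : Divisor.degZero (K := Qb) (F := modularFunctionFieldBar (M * p))}
    {u : modularFunctionFieldBar (M * p)} (hu : u ≠ 0)
    (hord : ∀ v : Place Qb (modularFunctionFieldBar (M * p)),
      v.ord u = (p : ℤ) * (D : Divisor Qb (modularFunctionFieldBar (M * p))) v)
    {a : ℤ} (hT : heckeOperatorBar (M * p) ⟨ℓ, hℓ⟩ (Pic0.mk D) =
      a • (Pic0.mk D : Pic0 Qb (modularFunctionFieldBar (M * p))))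
    {c : Qb} {g : FC (κ A) M} (hg : g ≠ 0)
    (hred : H38.Mz.Red A (IsLocalRing.residue A)
      (algebraMap Qb (LaurentSeries Qb) c * (u : LaurentSeries Qb)) (g : LaurentSeries (κ A))) :
    ∃ h : FC (κ A) M, h ≠ 0 ∧ ∀ D : Divisor (κ A) (FC (κ A) M), (∀ w, D w = w.ord g) →
      ∀ w, Divisor.correspondence (H17.betaC (κ A) M ℓ) (H17.alphaC (κ A) M ℓ) hβ hα D w =
        a * w.ord g + p * w.ord h :=
  H17C.exists_hrel hp hpM hA hℓ hℓN hα hβ hu hord hT hg hred

/-- **Supersingular points.**  `4 ∣ M`, `p ∤ M`.  If `Δ^(p-1)` is (the expansion of) a function `ub`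
on `X₀(M)` in characteristic `p` (it is: the reduction of the modular unit `Δ(q^p)/Δ(q)`, `modular_unit` in
`GuideLevelsS44`; classically `Δ^(p-1) / A^12`, where `A` is the Hasse invariant, with expansion `1`), then
at a point where `j` is finite it has order `-12` or `0`.
The points with order `-12` are the supersingular points.  Proved in `H16C7A` from the nodes of the
reduction of `X₀(M p)`. -/
theorem ord_delta_cases {p : ℕ} [Fact p.Prime] {A : ValuationSubring Qb} (hA : A.LiesOverPrime p)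
    {M : ℕ} [NeZero M] (h4M : 4 ∣ M) (hpM : ¬ p ∣ M) {ub : FC (κ A) M}
    (hub : (ub : LaurentSeries (κ A)) = Δq (κ A) ^ (p - 1)) (x : Place (κ A) (FC (κ A) M))
    (hx : 0 ≤ x.ord (jX (κ A) M)) : x.ord ub = -12 ∨ x.ord ub = 0 :=
  H16.C7.ord_ubar_cases hA h4M hpM hub x hx

/-- **`T_ℓ` preserves the supersingular points.**  If `t` is a point of `X₀(M ℓ)` in characteristic
`p` (`4 ∣ M`, `p ∤ M ℓ`) whose image under `α` is supersingular, then `α` and `β` are unramified at
`t` and the image under `β` is supersingular too.  Proved in `H16C7A` (orders of `Δ^(p-1)`, no moduli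
problem). -/
theorem supersingular_beta_of_alpha {p : ℕ} [Fact p.Prime] {A : ValuationSubring Qb}
    (hA : A.LiesOverPrime p) {M ℓ : ℕ} [NeZero M] [NeZero ℓ] [NeZero (M * ℓ)] (hℓ : ℓ.Prime)
    (h4M : 4 ∣ M) (hpM : ¬ p ∣ M) (hℓp : ℓ ≠ p)
    {ub : FC (κ A) M} (hub : (ub : LaurentSeries (κ A)) = Δq (κ A) ^ (p - 1))
    (hα : (H17.alphaC (κ A) M ℓ).toRingHom.IsIntegral)
    (hβ : (H17.betaC (κ A) M ℓ).toRingHom.IsIntegral) (t : Place (κ A) (FC (κ A) (M * ℓ)))
    (hj : 0 ≤ (t.restrictAlong (H17.alphaC (κ A) M ℓ) hα).ord (jX (κ A) M))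
    (hs : (t.restrictAlong (H17.alphaC (κ A) M ℓ) hα).ord ub ≠ 0) :
    t.ramificationIndexAlong (H17.alphaC (κ A) M ℓ) = 1 ∧
    t.ramificationIndexAlong (H17.betaC (κ A) M ℓ) = 1 ∧
    0 ≤ (t.restrictAlong (H17.betaC (κ A) M ℓ) hβ).ord (jX (κ A) M) ∧
    (t.restrictAlong (H17.betaC (κ A) M ℓ) hβ).ord ub = -12 :=
  H16.C7.ubar_beta_of_alpha hA hℓ h4M hpM hℓp hub hα hβ t hj hs

/-- **The supersingular divisor is Eisenstein** (step 4).  Let `g` be a function on `X₀(M)`, `4 ∣ M`,
in characteristic `p ∤ M`, whose orders are divisible by `p` outside the supersingular points and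
congruent modulo `p` to each other at the supersingular points, and assume
`T_ℓ (div g) = a div g + p div h` with `a ≢ ℓ + 1` modulo `p`.  Then all the orders of `g` are
divisible by `p`.  Idea: modulo `p` the divisor of `g` is `c` times the sum of the supersingular
points, on which `T_ℓ` acts by `ℓ + 1`.  Proved in `H16C7P`. -/
theorem dvd_ord_of_hecke {p : ℕ} [Fact p.Prime] {A : ValuationSubring Qb}
    (hA : A.LiesOverPrime p) {M ℓ : ℕ} [NeZero M] [NeZero ℓ] (h4M : 4 ∣ M)
    (hpM : ¬ p ∣ M) (hℓ : ℓ.Prime) (hℓM : ¬ ℓ ∣ M) (hℓp : ℓ ≠ p)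
    [IsAlgClosed (κ A)] [H94.FunField (κ A) (FC (κ A) M)]
    [HasPrincipalDivisors (κ A) (FC (κ A) (M * ℓ))]
    (hα : (H17.alphaC (κ A) M ℓ).toRingHom.IsIntegral)
    (hβ : (H17.betaC (κ A) M ℓ).toRingHom.IsIntegral)
    {g : FC (κ A) M} {D : Divisor (κ A) (FC (κ A) M)} (hD : ∀ v, D v = v.ord g)
    {ub : FC (κ A) M} (hub : (ub : LaurentSeries (κ A)) = Δq (κ A) ^ (p - 1))
    (hsm : ∀ s : Place (κ A) (FC (κ A) M),
      ¬ (0 ≤ s.ord (jX (κ A) M) ∧ s.ord ub ≠ 0) → (p : ℤ) ∣ s.ord g)
    (hss : ∀ s s' : Place (κ A) (FC (κ A) M),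
      0 ≤ s.ord (jX (κ A) M) → s.ord ub ≠ 0 → 0 ≤ s'.ord (jX (κ A) M) → s'.ord ub ≠ 0 →
        (p : ℤ) ∣ s.ord g - s'.ord g)
    {a : ℤ} {h : FC (κ A) M}
    (hrel : ∀ s, Divisor.correspondence (H17.betaC (κ A) M ℓ) (H17.alphaC (κ A) M ℓ) hβ hα D s =
      a * s.ord g + p * s.ord h)
    (ha : ¬ (p : ℤ) ∣ a - (ℓ + 1)) (s : Place (κ A) (FC (κ A) M)) : (p : ℤ) ∣ s.ord g :=
  H16.C7.dvd_ord_of_hecke hA h4M hpM hℓ hℓM hℓp hα hβ hD hub hsm hss hrel ha s

/-! ### 5. Descent to the given level -/

/-- **Descent of the divisibility, `p ≥ 5`** (`H31C3`): if the characteristic does not divide `M`, the index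
of `Γ_0(M)` in `Γ_0(M₀)` is prime to `p` (ratio of the Dedekind `ψ` functions) and all orders on `X₀(M)` of
the function `g₀` of `X₀(M₀)` are divisible by `p`, then so are its orders on `X₀(M₀)`. (`H46.P2.incl`: the
inclusion of the function fields.) -/
theorem divisibility_descends {k : Type*} [Field k] [IsAlgClosed k] {p M₀ M : ℕ} [NeZero M₀]
    [NeZero M] (hp : p.Prime) (hdvd : M₀ ∣ M) (hk : ((M : ℕ) : k) ≠ 0)
    [H3RR.IsFF k (modularFunctionFieldFullC k M₀)] [H3RR.IsFF k (modularFunctionFieldFullC k M)]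
    (hn : ∀ n, dedekindPsi M₀ * n = dedekindPsi M → ¬ p ∣ n)
    {g₀ : modularFunctionFieldFullC k M₀}
    (h : ∀ s : Place k (modularFunctionFieldFullC k M),
      (p : ℤ) ∣ s.ord (H46.P2.incl (k := k) M₀ M hdvd g₀))
    (v : Place k (modularFunctionFieldFullC k M₀)) : (p : ℤ) ∣ v.ord g₀ :=
  H31C.dvd_ord_base_of_not_dvd hp hdvd hk hn h v

/-- **`p = 3`: descent from `X₀(M)` to `X₀(M₀)` outside `j = 0`.**  `M₀ ∣ M ∣ 4 M₀`, `4 ∣ M`,
`3 ∤ M`; `g₀` a function on `X₀(M₀)` in characteristic `3` and `g` the same function on `X₀(M)`.  If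
all the orders of `g` are divisible by `3`, so is the order of `g₀` at every point where the order of
`j` is `≤ 0` or divisible by `3`.  Idea: the ramification index of some point above is prime to `3`.  (For
`p ≥ 5` the degree is prime to `p` and `divisibility_descends` is enough.)  Proved in `H98CT3`. -/
theorem three_dvd_ord {A : ValuationSubring Qb} (hA : A.LiesOverPrime 3) {M₀ M : ℕ} [NeZero M₀]
    [NeZero M] (hdvd : M₀ ∣ M) (h4 : 4 ∣ M) (hM4 : M ∣ 4 * M₀) (h3 : ¬ 3 ∣ M)
    {g₀ : FC (κ A) M₀} {g : FC (κ A) M}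
    (hg : (g : LaurentSeries (κ A)) = (g₀ : LaurentSeries (κ A)))
    (hdiv : ∀ s : Place (κ A) (FC (κ A) M), (3 : ℤ) ∣ s.ord g) (w : Place (κ A) (FC (κ A) M₀))
    (hw : 0 < w.ord (jX (κ A) M₀) → (3 : ℤ) ∣ w.ord (jX (κ A) M₀)) : (3 : ℤ) ∣ w.ord g₀ :=
  H98C.three_dvd_ord hA hdvd h4 hM4 h3 hg hdiv w hw

/-- **Elliptic points of order `3` and the two maps.**  In characteristic `0`, a point of `X₀(M ℓ)`
at which `j` has a simple zero has the same image in `X₀(M)` under `α` and `β`: if the subgroup of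
order `ℓ` is stable under `ℤ[ω]` then it is the kernel of an element of norm `ℓ` and the quotient is
again `E`, with the same level structure.  Proved in `H8CEll` by computing at the point `ω` of the upper
half plane (no moduli problem). -/
theorem restrict_alpha_eq_beta (K : Type*) [Field K] [Algebra K ℂ] [IsAlgClosed K] (M ℓ : ℕ)
    [NeZero M] [NeZero ℓ] (hℓ : ℓ.Prime) (hα : (H17.alphaC K M ℓ).toRingHom.IsIntegral)
    (hβ : (H17.betaC K M ℓ).toRingHom.IsIntegral) (v : Place K (FC K (M * ℓ)))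
    (hv : v.ord (jX K (M * ℓ)) = 1) :
    v.restrictAlong (H17.alphaC K M ℓ) hα = v.restrictAlong (H17.betaC K M ℓ) hβ :=
  H8C.restrictAlong_alpha_eq_beta K M ℓ hℓ hα hβ v hv

/-- **The exceptional points are Eisenstein.**  `s` a point of `X₀(M)` in characteristic `q ∤ M ℓ`
with `j` finite and `3 ∤ ord_s j`.  Then `T_ℓ s ≡ (ℓ + 1) s` modulo `3`.  Idea: `s` is the reduction
of an elliptic point `P` of order `3` (`H98CJ3`), the points of `X₀(M ℓ)` above `P` are ramified of
index `3` or elliptic, and the latter map to `P` under both maps.  Proved in `H26CEll`. -/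
theorem three_dvd_hecke_single {A : ValuationSubring Qb} {M ℓ : ℕ} [NeZero M] [NeZero ℓ]
    (hℓ : ℓ.Prime) (hℓM : ¬ ℓ ∣ M) {q : ℕ} (hq : q.Prime) (hA : A.LiesOverPrime q)
    (hqM : ¬ q ∣ M * ℓ) [IsAlgClosed (κ A)] [H94.FunField (κ A) (FC (κ A) M)]
    [H94.FunField (κ A) (FC (κ A) (M * ℓ))] [HasPrincipalDivisors (κ A) (FC (κ A) (M * ℓ))]
    (hα : (H17.alphaC (κ A) M ℓ).toRingHom.IsIntegral)
    (hβ : (H17.betaC (κ A) M ℓ).toRingHom.IsIntegral) (s : Place (κ A) (FC (κ A) M))
    (hs0 : 0 ≤ s.ord (jX (κ A) M)) (hs : ¬ (3 : ℤ) ∣ s.ord (jX (κ A) M))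
    (w : Place (κ A) (FC (κ A) M)) :
    (3 : ℤ) ∣ Divisor.correspondence (H17.betaC (κ A) M ℓ) (H17.alphaC (κ A) M ℓ) hβ hα
        (Finsupp.single s 1) w -
      ((ℓ : ℤ) + 1) * (Finsupp.single s (1 : ℤ) : Divisor (κ A) (FC (κ A) M)) w :=
  H26C.dvd_TC_single hℓ hℓM hq hA hqM hα hβ s hs0 hs w

/-- **The Eisenstein step, in general.**  `T` an additive map on the divisors of a curve, `D` a
divisor with `T D ≡ a D` modulo `p`, such that `T s ≡ d s` for all the points `s` with `p ∤ D(s)`.  If
`a ≢ d` then `D ≡ 0` modulo `p`.  Proved in `H8CThree`. -/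
theorem dvd_of_eisenstein {K F : Type*} [Field K] [Field F] [Algebra K F] {p : ℕ} (hp : p.Prime)
    (T : Divisor K F →+ Divisor K F) {a d : ℤ} (had : ¬ (p : ℤ) ∣ a - d) (D : Divisor K F)
    (hT : ∀ s : Place K F, ¬ (p : ℤ) ∣ D s → ∀ w : Place K F,
      (p : ℤ) ∣ T (Finsupp.single s 1) w - d * (Finsupp.single s (1 : ℤ) : Divisor K F) w)
    (hN : ∀ w : Place K F, (p : ℤ) ∣ T D w - a * D w) (w : Place K F) : (p : ℤ) ∣ D w :=
  H8C.dvd_ord_of_eisenstein hp T had D hT hN w

/-- **The descent at `p = 3`**, complete: `g₀` on `X₀(M₀)` in characteristic `3` is a Hecke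
eigenfunction modulo cubes (`T_ℓ (div g₀) = a_ℓ div g₀ + 3 div h`) for almost all `ℓ`, not Eisenstein;
if all its orders become divisible by `3` on `X₀(M)` they were divisible by `3` on `X₀(M₀)`.  The
four previous theorems together.  Proved in `H31C7`. -/
theorem descent_three {A : ValuationSubring Qb} (hA : A.LiesOverPrime 3)
    (M₀ M : ℕ) [NeZero M₀] [NeZero M] (hdvd : M₀ ∣ M) (h4 : 4 ∣ M) (hM4 : M ∣ 4 * M₀)
    (h3 : ¬ 3 ∣ M) (g₀ : FC (κ A) M₀) (hg₀ : g₀ ≠ 0) (g : FC (κ A) M)
    (hg : (g : LaurentSeries (κ A)) = (g₀ : LaurentSeries (κ A)))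
    (hdiv : ∀ s : Place (κ A) (FC (κ A) M), (3 : ℤ) ∣ s.ord g)
    (S : Set ℕ) (hS : S.Finite) (a : ℕ → ℤ)
    (hrel : ∀ (ℓ : ℕ) [NeZero ℓ], ℓ.Prime → ℓ ∉ S → ¬ ℓ ∣ M₀ * 3 →
      ∃ h : FC (κ A) M₀, h ≠ 0 ∧ ∀ [HasPrincipalDivisors (κ A) (FC (κ A) (M₀ * ℓ))]
        (hβ : (H17.betaC (κ A) M₀ ℓ).toRingHom.IsIntegral)
        (hα : (H17.alphaC (κ A) M₀ ℓ).toRingHom.IsIntegral) (D : Divisor (κ A) (FC (κ A) M₀)),
        (∀ w, D w = w.ord g₀) → ∀ w,
          Divisor.correspondence (H17.betaC (κ A) M₀ ℓ) (H17.alphaC (κ A) M₀ ℓ) hβ hα D w =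
            a ℓ * w.ord g₀ + ((3 : ℕ) : ℤ) * w.ord h)
    (hne : ∃ ℓ : ℕ, ℓ.Prime ∧ ℓ ∉ S ∧ ¬ ℓ ∣ M₀ * 3 ∧ ¬ (3 : ℤ) ∣ a ℓ - (ℓ + 1))
    (w : Place (κ A) (FC (κ A) M₀)) : (3 : ℤ) ∣ w.ord g₀ :=
  H31C.inT3 A hA M₀ M hdvd h4 hM4 h3 g₀ hg₀ g hg hdiv S hS a hrel hne w

/-! ### 6. Back to modular forms, and the results -/

/-- **Back to modular forms** (step 6).  `x = [D]` a class of order `p` in `J₀(M p)`, `p ∤ M`, with
Kummer function `u` (`div u = p D`) and Hecke eigenvalues `a_ℓ(W)`; the reduction `g` of a multiple of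
`u` is not a `p`-th power and has all its orders divisible by `p`.  Then `W` is residually modular of
level `M`.  Idea: `(1/p) div g` is a class of order `p` in `J₀(M)` over the residue field; it lifts to
`J₀(M)(ℚ̄)[p]` modulo the kernel of reduction, whence a Hecke eigenvector in `J₀(M)[p]`, then a
cusp form.  Proved in `H18CRed`. -/
theorem isResiduallyModularOfLevel_of_function {M p : ℕ} [NeZero M] [Fact p.Prime] (hpM : ¬ p ∣ M)
    {A : ValuationSubring Qb} (hA : A.LiesOverPrime p) {W : WeierstrassCurve ℤ}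
    {D : Divisor.degZero (K := Qb) (F := modularFunctionFieldBar (M * p))}
    {u : modularFunctionFieldBar (M * p)} (hu : u ≠ 0)
    (hord : ∀ v : Place Qb (modularFunctionFieldBar (M * p)),
      v.ord u = (p : ℤ) * (D : Divisor Qb (modularFunctionFieldBar (M * p))) v)
    (hT : ∀ (ℓ : ℕ) (hℓ : ℓ.Prime), ¬ (ℓ : ℤ) ∣ W.Δ → ¬ ℓ ∣ M → ℓ ≠ p →
      heckeOperatorBar (M * p) ⟨ℓ, hℓ⟩ (Pic0.mk D) =
        W.apOfModel ℓ • (Pic0.mk D : Pic0 Qb (modularFunctionFieldBar (M * p))))
    {c : Qb} {g : FC (κ A) M} (hg : g ≠ 0)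
    (hred : H38.Mz.Red A (IsLocalRing.residue A)
      (algebraMap Qb (LaurentSeries Qb) c * (u : LaurentSeries Qb)) (g : LaurentSeries (κ A)))
    (hpow : ∀ h : FC (κ A) M, h ^ p ≠ g)
    (hdiv : ∀ w : Place (κ A) (FC (κ A) M), (p : ℤ) ∣ w.ord g) :
    W.IsResiduallyModularOfLevel p M :=
  H18.CR.isResiduallyModularOfLevel_of_fun hpM hA hu hord hT hg hred hpow hdiv

/-- **A `p`-new embedding gives modularity of level `M`** (`H31C5`), for every odd prime `p`; `W` is
semistable and peu ramifiée at `p` (`p ∣ v_p(Δ)`). The three cases: multiplicative reduction (line at `p`),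
good ordinary reduction (line at `p`), good supersingular reduction (impossible). -/
theorem modular_of_newEmb {W : WeierstrassCurve ℤ} {p : Nat.Primes} [NeZero (p : ℕ)]
    (hp2 : (p : ℕ) ≠ 2) (hΔ : W.Δ ≠ 0)
    (hsemi : ((p : ℕ) : ℤ) ∣ W.Δ → ¬ ((p : ℕ) : ℤ) ∣ W.c₄)
    (hirr : W.ModRepIsIrreducible p)
    (hfin : (W.map (Int.castRingHom ℚ)).IsPeuRamifieeAt p p)
    {M : ℕ} [NeZero M] [NeZero (M * p)] {S : Set ℕ}
    (hS : ∀ ℓ : ℕ, ℓ.Prime → W.IsGoodPrimeFor ℓ → ¬ ℓ ∣ M → ℓ ≠ p → ℓ ∉ S)
    (E : H61.L5.NewEmb W p M S) : W.IsResiduallyModularOfLevel p M :=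
  H31C.resModular_of_newEmb_all H47.ES.good_side (H31C.coreStep4 H31C.inT3 p hp2) hp2 hΔ hsemi
    hirr hfin hS E

/-- **S39**: level lowering at an odd prime `p`, `p ∥ M`, when `W` has good or multiplicative reduction
at `p` (`p ∣ Δ → p ∤ c₄`) and `W[p]` is *peu ramifiée* at `p`: `p` divides the exponent of `p` in the
discriminant.  `W.IsResiduallyModularOfLevel p M` is explained in `GuideLevels`. -/
theorem level_lowering_peu_ramifiee (W : WeierstrassCurve ℤ) (hΔ : W.Δ ≠ 0) {p : ℕ} (hp : p.Prime)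
    (hp2 : p ≠ 2) (hsemi : (p : ℤ) ∣ W.Δ → ¬ (p : ℤ) ∣ W.c₄) (hirr : W.ModRepIsIrreducible p)
    (hfin : (p : ℤ) ∣ padicValRat p (W.map (Int.castRingHom ℚ)).Δ)
    {M : ℕ} (hM : 0 < M) (hpM : p ∣ M) (hp2M : ¬ p ^ 2 ∣ M)
    (hmod : W.IsResiduallyModularOfLevel p M) : W.IsResiduallyModularOfLevel p (M / p) :=
  S39.result W hΔ hp hp2 hsemi hirr hfin hM hpM hp2M hmod

/-- **S40**: the case of good reduction at `p`. -/
theorem level_lowering_good (W : WeierstrassCurve ℤ) (hΔ : W.Δ ≠ 0) {p : ℕ} (hp : p.Prime)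
    (hp2 : p ≠ 2) (hgood : ¬ (p : ℤ) ∣ W.Δ) (hirr : W.ModRepIsIrreducible p)
    {M : ℕ} (hM : 0 < M) (hpM : p ∣ M) (hp2M : ¬ p ^ 2 ∣ M)
    (hmod : W.IsResiduallyModularOfLevel p M) : W.IsResiduallyModularOfLevel p (M / p) :=
  S40.result W hΔ hp hp2 hgood hirr hM hpM hp2M hmod

end Fermat.Agent.Guide.LevelsAtP
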