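import Fermat.Agent.H31C7

/-!
# Guide: level lowering at `p`, step by step

(helper31; library files by helper9, helper16, helper17, helper18, helper31, helper38, helper44,
helper46, helper61, helper67, helper89)

Companion of `GuideLevelsAtP` (statements S39 and S40): the intermediate steps of its steps 1, 4, 5
and 6.  Elsewhere: step 2 (the curve at `p`) in `GuideOrderPPoints`; step 3 (the Kummer functions on
the model of `X_0(Mp)` at `p`) in `GuideLevelsS44`, `GuideNodeAnalysis` and `GuideTwoSheets`; the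
kernel of reduction and the Hecke correspondences on divisors in `GuideKernel`; step 5 for `p = 3`
in `GuideEllipticPoints` and `GuideLevelThree`; the non-Eisenstein primes in `GuideNonEisenstein`.
NOTES.md: Section 3.5; [330], [334], [336] (the whole proof), [321] (section 1), [325] (section 2),
[331] (section 3), [328] (section 5).

**The situation.**  `W` is an elliptic curve over `ℚ` with `W[p]` irreducible, `p` odd, and
`ι : W[p] → J_0(M₀ p)`, `p ∤ M₀`, an embedding which is new at `p` (`GuideLevelsAtP.nonempty_newEmb_iff`).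
One takes a point `z` of `W[p]`, a function `u₀` on `X_0(M₀ p)` with `div u₀ = p D`, `[D] = ι z`, and a
place `A` of `ℚ̄` above `p`.  A multiple `u` of `u₀` has a reduction `g₀` on the first component of
`X_0(M₀ p)` in characteristic `p`, which is `X_0(M₀)`; in terms of expansions at `∞`, `g₀` is the
reduction of `u`.  If the divisor of `g₀` is divisible by `p` and `g₀` is not a `p`-th power, then the
class of `(1/p) div g₀` on `X_0(M₀)` in characteristic `p` has order `p`, and its Hecke eigenvalues are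
those of `ι z`.  It remains to find a class in characteristic `0` with the same eigenvalues.

**Why another level.**  The divisibility is first proved at a level `M` divisible by `4`, with
`M₀ ∣ M ∣ 4 M₀`.  At this level there are no elliptic points, the model of `X_0(M p)` at `p` has the
local equation `z z' = p u`, `u` a unit, at all its nodes, and `Δ^(p-1)` has the same order at all
supersingular points.  The Kummer functions are the same series at both levels; only the points of the curve
change.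

**The order of the arguments.**
1. The pull back `J_0(M₀ p) → J_0(M p)` is injective on the `p`-torsion, also for `p = 3`, and
   compatible with everything (section 1).
2. The divisor of `g`, the reduction of `u` at level `M`, is an eigenvector of `T_ℓ` modulo `p` with
   eigenvalue `a_ℓ(W)` (section 2).
3. By the node analysis it is, modulo `p`, a multiple of the sum of the supersingular points; this
   sum is an eigenvector of `T_ℓ` with eigenvalue `ℓ + 1` (section 3).
4. There is a prime `ℓ` with `a_ℓ(W) ≢ ℓ + 1`; so the divisor of `g` is divisible by `p` at level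
   `M`, and then at level `M₀` (section 4).
5. From the class of `(1/p) div g₀` one gets an eigenvector in `J_0(M₀)[p]` (section 5).
6. Assembly (section 6).

**Serves** S39 and S40.  The following theorems also serve S44, and so S01, S03, S43, S45:
`injective_of_ne_zero`, `push_forward_eq_zero`, `degree_prime`, `kummer_function_of_pull_back`,
`hecke_transform`, `power_of_principal`, `reduction_of_hecke_transform`, `reduction_of_a_root`,
`reduction_is_of_level_M`, `delta_ratio_is_a_unit`, `index_prime_to_p`; of these, `degree_prime` and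
`power_of_principal` also serve S04, S06, S35, S38, S46, S50, S58, S59 and S60.
`point_above_prime_to_p` and `degree_over_second_j` also serve S38, and S01, S03, S04, S06, S43,
S45, S46, S50, S59, S60; `poles_of_second_j`, `sum_of_ramification_indices`, `degree_of_beta`,
`degree_over_second_j` also serve S15, and S01, S03, S09, S12.  (In S44 the last steps are
different: logarithmic derivatives of the same functions, `GuideDlog`.)

**Conventions.**  As in `GuideLevelsAtP`: `FC k N` is the function field of `X_0(N)` over `k`, a field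
of Laurent series; `FB N` is the one over `ℚ̄`; `α`, `β` are the two maps
`X_0(N ℓ) → X_0(N)`, on functions the inclusion and `f(q) ↦ f(q^ℓ)`; `H38.Mz.Red A π f fb` means
that the series `fb` is the reduction of the series `f` (`GuideLevelsAtP.red_iff`).  `H39.Tor W p`
and `H44E.TorQ W p` are two notations for the module `W[p]`, `H44E.PtQ W` is `W(ℚ̄)`, and
`H44E.LineAtP` is explained in `GuideLevelsAtP.lineAtP_fields`.  The hypotheses on the model of
`X_0(M p)` at `p` are those of `GuideReduction.sheets_data`: `w.W` is the Atkin-Lehner involution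
(`w : H99.AL Qb M p`), `Arch A` says that `b` divides a power of `a` if `a`, `b ≠ 0` are in `A` and
`a` is not a unit, `H42.modReductionData` is the reduction of the function field of `X_0(M)` (a
`H40.ReductionData`), and `r` the reduction of places (`hr1`, and `hr2` with `H34.GR.DivCompat`).
-/

set_option autoImplicit false
set_option synthInstance.maxHeartbeats 200000

noncomputable section

open AlgebraicCurve ModularCurve
open Fermat.Agent Fermat.Agent.H97 Fermat.Agent.H34.Two

namespace Fermat.Agent.Guide.LevelsAtPSteps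

/- Only to make the file faster to check: prefer the obvious `k`-algebra structure on a subfield of
`k((q))`. -/
attribute [-instance] IsLocalRing.ResidueField.algebra
attribute [local instance 5000] SubalgebraClass.toAlgebra

/-- The field of algebraic numbers. -/
local notation "Qb" => AlgebraicClosure ℚ

/-- The residue field of a place of `ℚ̄`. -/
local notation "κ" => IsLocalRing.ResidueField

/-- The function field of `X_0(N)` over a field. -/
local notation "FC" => modularFunctionFieldFullC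

/-- The function field of `X_0(N)` over `ℚ̄`. -/
local notation "FB" => modularFunctionFieldBar

/-- The function `j` on `X_0(N)` over a field. -/
local notation "jX" => Fermat.Agent.H8.jC

/-- The series `Δ = q ∏ (1 - q^n)^24` over a ring. -/
local notation "Δq" => Fermat.Agent.H28.deltaL

/-! ## 1. The auxiliary level -/

/-- **The primes to avoid** (`H61C1`): `badSet W p N` is the set of the primes dividing `N p Δ`. -/
theorem primes_to_avoid {W : WeierstrassCurve ℤ} (hΔ : W.Δ ≠ 0) {p N : ℕ} (hp : p.Prime)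
    (hN : N ≠ 0) {ℓ : ℕ} (hℓ : ℓ.Prime) :
    ℓ ∉ H61C.badSet W p N ↔ ¬ (ℓ : ℤ) ∣ W.Δ ∧ ¬ ℓ ∣ N ∧ ℓ ≠ p :=
  H61C.not_mem_badSet hΔ hp hN hℓ

/-- **Irreducible modules embed** (`H61L5B`): if `W[p]` is irreducible, a nonzero homomorphism on
`W[p]` which commutes with the Galois group `H39.GQb` of `ℚ` is injective. -/
theorem injective_of_ne_zero {W : WeierstrassCurve ℤ} {p : ℕ} (hirr : W.ModRepIsIrreducible p)
    {J : Type*} [AddCommGroup J] [DistribMulAction H39.GQb J] (ι : H39.Tor W p →+ J)
    (hι : ∀ (σ : H39.GQb) (x : H39.Tor W p), ι (σ • x) = σ • ι x) (h0 : ∃ x, ι x ≠ 0) :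
    Function.Injective ι :=
  H61.L5.injective_of_exists_ne_zero hirr ι hι h0

/-- **New at `p`** (`H61L5B`): the push forward to level `M` kills the image of a new embedding.
Proof: `U_p + w_p = β^* α_*` (`GuideLevelsAtP.heckeOperator_add_wJ`) is zero on the image; apply
`β_*`: `β_* β^*` is the multiplication by the degree `p + 1`, which is invertible on `p`-torsion. -/
theorem push_forward_eq_zero {W : WeierstrassCurve ℤ} {p : Nat.Primes} {M : ℕ} [NeZero M]
    [NeZero (M * p)] [NeZero (p : ℕ)] {S : Set ℕ} (E : H61.L5.NewEmb W p M S)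
    (h1 : M * 1 ∣ M * p) (x : H39.Tor W p) : H67.degPush 1 h1 (E.ι x) = 0 :=
  E.push_one h1 x

/-- **The degree** (`H67Deg`) of `X_0(M q) → X_0(M)`, `q` prime, is `q` if `q ∣ M` and `q + 1` if not,
for all the maps `f(q) ↦ f(q^d)` on functions (`H67.dg`).  So the only odd prime which divides the
degree for `q = 2` is `3`, and only if `M` is odd. -/
theorem degree_prime {M N q : ℕ} [NeZero M] [NeZero N] (hq : q.Prime) (d : ℕ) [NeZero d]
    (h : M * d ∣ N) (hN : N = M * q) :
    finrankAlong Qb (H67.dg Qb d h) = if q ∣ M then q else q + 1 :=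
  H67.finrank_dg_prime H67.embQbar hq d h hN

/-- **Functions whose transform is a series in `q²`** (`H61C2`).  Let `m` be odd and `w.W` the
Atkin-Lehner involution of `X_0(2 m)` at `2`.  If the series `w.W y` is a series in `q²`, then `y` is a
function on `X_0(m)`.  Proof: these `y` form a subring which contains the function field of `X_0(m)`,
and there is no ring between the two function fields, because the degree `3` is prime; but for
`y = w.W j` the series `w.W y = j` is not a series in `q²`. -/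
theorem series_in_q_squared {m : ℕ} [NeZero m] (h2m : ¬ 2 ∣ m) (w : H99.AL Qb m 2)
    {y : H99.FX Qb (m * 2)} (hy : ∃ z : LaurentSeries Qb,
      ((w.W y : H99.FX Qb (m * 2)) : LaurentSeries Qb) = qExpand Qb 2 z) :
    ∃ x, heckeAlphaBar Qb m 2 x = y :=
  H61C.mem_range_alpha h2m w hy

/-- **Roots descend from level `2 m` to level `m`**, `m` odd, for every exponent, in particular for
`3`, which is the degree (`H61C2`).  Proof: if `u = f^n`, `u` of level `m`, then
`(w.W f)^n = w.W u = u(q²) = f(q²)^n`, so `w.W f` is `f(q²)` times a root of unity; use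
`series_in_q_squared`. -/
theorem roots_descend_at_two {m : ℕ} [NeZero m] (h2m : ¬ 2 ∣ m) {u : H99.FX Qb m}
    {f : H99.FX Qb (m * 2)} {n : ℕ} (hn : 0 < n) (h : heckeAlphaBar Qb m 2 u = f ^ n) :
    ∃ g, u = g ^ n :=
  H61C.cube_descends h2m hn h

/-- **`p`-th roots descend** from level `2^a R` to level `R`, for every odd prime `p` (`H61C2`): one
factor `2` at a time, by `GuideNodeAnalysis.root_descends` (take norms) if the degree `2` or `3` is
prime to `p`, and by `roots_descend_at_two` otherwise. -/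
theorem roots_descend {p : ℕ} (hp : p.Prime) (hp2 : p ≠ 2) (a : ℕ) {R N : ℕ} [NeZero R] [NeZero N]
    (hN : N = R * 2 ^ a) (h : R * 1 ∣ N) {u : H99.FX Qb R} {f : H99.FX Qb N}
    (huf : H67.dg Qb 1 h u = f ^ p) : ∃ g, u = g ^ p :=
  H61C.root_descends hp hp2 a hN h huf

/-- **Kummer functions and pull back** (`H44Kum`): if `f` is a Kummer function of the class `x`, its
pull back is a Kummer function of the pull back of `x`. -/
theorem kummer_function_of_pull_back {K F F' : Type*} [Field K] [Field F] [Field F'] [Algebra K F]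
    [Algebra K F'] [CharZero K] [IsAlgClosed K] [H94.FunField K F] [H94.FunField K F'] {n : ℕ}
    {x : Pic0 K F} {f : F} (φ : F →ₐ[K] F') (hf : H33.IsKum n x f) : H33.IsKum n (H67.pullP φ x) (φ f) :=
  H44K.isKum_pullP φ hf

/-- **The pull back is injective on `p`-torsion** (`H61C2`), from level `R` to level `2^a R`, `p` odd:
if `p x = 0` and the pull back of `x` is zero, the Kummer function of `x` becomes a `p`-th power at
level `2^a R`, so it is a `p`-th power by `roots_descend`, and `x = 0`. -/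
theorem pull_back_injective {p : ℕ} (hp : p.Prime) (hp2 : p ≠ 2) (a : ℕ) {R N : ℕ} [NeZero R]
    [NeZero N] (hN : N = R * 2 ^ a) (h : R * 1 ∣ N) {x : JZero R} (hx : p • x = 0)
    (h0 : H67.degPull 1 h x = 0) : x = 0 :=
  H61C.degPull_injOn hp hp2 a hN h hx h0

/-- **New embeddings of higher level** (`H61C2`): a new embedding of level `M` gives one of level
`2^(k+1) M`, with the same sign, by pull back along `α`.  (The pull back commutes with the Galois
group, with `T_ℓ`, `ℓ ≠ 2`, with `w_p` and with `U_p`.) -/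
theorem new_embedding_of_higher_level {W : WeierstrassCurve ℤ} {p : Nat.Primes} {M : ℕ} [NeZero M]
    [NeZero (M * p)] [NeZero (p : ℕ)] {S : Set ℕ} (E : H61.L5.NewEmb W p M S)
    (hp2 : (p : ℕ) ≠ 2) (k : ℕ) [NeZero (M * 2 ^ (k + 1) * p)]
    (h : M * p * 1 ∣ M * 2 ^ (k + 1) * p) :
    ∃ E' : H61.L5.NewEmb W p (M * 2 ^ (k + 1)) (S ∪ {2}), E'.ε = E.ε ∧
      ∀ x, E'.ι x = H67.degPull 1 h (E.ι x) :=
  H61C.exists_two_pow E hp2 k h

/-- **The same series at the higher level** (`H31C3`).  Let `M₀ ∣ M ∣ 4 M₀` and let `u₀` be a Kummer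
function of `ι z` at level `M₀ p`.  The same series is a Kummer function of a class `y` of level `M p`
with the same eigenvalues of the `T_ℓ`, `ℓ ∉ S`, `ℓ ≠ 2`. -/
theorem same_series_at_higher_level {W : WeierstrassCurve ℤ} {p : Nat.Primes} [NeZero (p : ℕ)]
    (hp2 : (p : ℕ) ≠ 2) {M₀ M : ℕ} [NeZero M₀] [NeZero M] [NeZero (M₀ * p)] [NeZero (M * p)]
    (hdvd : M₀ ∣ M) (h4 : M ∣ 4 * M₀) {S : Set ℕ} (E₀ : H61.L5.NewEmb W p M₀ S)
    {z : H39.Tor W p} {u₀ : H99.FX Qb (M₀ * p)} (hu₀ : H33.IsKum p (E₀.ι z) u₀) :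
    ∃ (y : JZero (M * p)) (u' : H99.FX Qb (M * p)), H33.IsKum p y u' ∧
      (u' : LaurentSeries Qb) = (u₀ : LaurentSeries Qb) ∧
      ∀ ℓ : Nat.Primes, (ℓ : ℕ) ∉ S → (ℓ : ℕ) ≠ 2 →
        heckeOperatorBar (M * p) ℓ y = W.apOfModel (ℓ : ℕ) • y :=
  H31C.exists_kum_aux hp2 hdvd h4 E₀ hu₀

/-! ## 2. The Hecke relation

`π : A → k` is a homomorphism to a field, in the applications the residue map.  `H38.Mz.Th N ℓ f` is
the Hecke transform of the function `f` on `X_0(N)` over `ℚ̄`: the norm along `α` of `β^* f`. -/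

/-- **The Hecke transform** (`H38MzTheta`).  Its expansion: the series `Th N ℓ f (q^ℓ)` is
`H60.normSeries ℓ ζ f = f(q^(ℓ²)) ∏_{i < ℓ} f(ζ^i q)`, `ζ` a primitive `ℓ`-th root of unity, `ℓ ∤ N`.
Its divisor: if `div f = d D`, then `div (Th N ℓ f) = d D'`, where `D'` is in the class `T_ℓ [D]`. -/
theorem hecke_transform {N ℓ : ℕ} [NeZero N] [NeZero ℓ] (hℓ : ℓ.Prime) {f : FB N} (hf : f ≠ 0) :
    (∀ (_ : ¬ ℓ ∣ N) {ζ : Qbˣ} (_ : IsPrimitiveRoot ζ ℓ),
      qExpand Qb ℓ ((H38.Mz.Th N ℓ f : FB N) : LaurentSeries Qb) =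
        H60.normSeries ℓ ζ (f : LaurentSeries Qb)) ∧
      ∀ (d : ℕ) (D : Divisor.degZero (K := Qb) (F := FB N)),
        (∀ v : Place Qb (FB N), v.ord f = d * (D : Divisor Qb (FB N)) v) →
        ∃ D' : Divisor.degZero (K := Qb) (F := FB N),
          Pic0.mk D' = heckeOperatorBar N ⟨ℓ, hℓ⟩ (Pic0.mk D : Pic0 Qb (FB N)) ∧
          ∀ v : Place Qb (FB N), v.ord (H38.Mz.Th N ℓ f) = d * (D' : Divisor Qb (FB N)) v :=
  ⟨fun hN _ hζ => H38.Mz.qExpand_Th hℓ hN hζ f, fun _ _ h => H38.Mz.exists_div_Th hℓ hf h⟩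

/-- **Powers** (`H89SS10`).  Over an algebraically closed field: if `div f = d E` with `E` principal,
then `f` is a `d`-th power.  Hence, if `[D'] = a [D]` for the divisors in `hecke_transform`, then
`Th N ℓ f = f^a h^d` for some `h`. -/
theorem power_of_principal {K F : Type*} [Field K] [Field F] [Algebra K F] [IsAlgClosed K]
    [H94.FunField K F] {d : ℕ} (hd : d ≠ 0) {f : F} (hf : f ≠ 0) {E : Divisor K F}
    (hE : E ∈ Divisor.principal (K := K) (F := F)) (h : ∀ v : Place K F, v.ord f = d * E v) :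
    ∃ g : F, g ≠ 0 ∧ f = g ^ d :=
  H89SS.exists_eq_pow hd hf hE h

/-- **The reduction of the Hecke transform** (`H38MzComp`): if `fb ≠ 0` is the reduction of the
function `f`, the Hecke transform of `f` has a reduction `tb`, given by the same formula. -/
theorem reduction_of_hecke_transform {A : ValuationSubring Qb} {k : Type*} [Field k] {π : A →+* k}
    [IsLocalHom π] {N ℓ : ℕ} [NeZero N] [NeZero ℓ] (hℓ : ℓ.Prime) (hℓN : ¬ ℓ ∣ N) {ζ : Aˣ}
    (hζ : IsPrimitiveRoot (Units.map (A.subtype : A →* Qb) ζ) ℓ) {f : FB N}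
    {fb : LaurentSeries k} (hfb : fb ≠ 0) (hf : H38.Mz.Red A π (f : LaurentSeries Qb) fb) :
    ∃ tb : LaurentSeries k, tb ≠ 0 ∧
      H38.Mz.Red A π ((H38.Mz.Th N ℓ f : FB N) : LaurentSeries Qb) tb ∧
      qExpand k ℓ tb = H60.normSeries ℓ (Units.map (π : A →* k) ζ) fb :=
  H38.Mz.red_Th hℓ hℓN hζ hfb hf

/-- **Roots reduce** (`H38MzComp`): if the power `h^n`, `n ≠ 0`, has a reduction `s ≠ 0`, then `h` has
a reduction, and its `n`-th power is `s`. -/
theorem reduction_of_a_root {A : ValuationSubring Qb} {k : Type*} [Field k] {π : A →+* k}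
    [IsLocalHom π] {N : ℕ} [NeZero N] {h : FB N} {n : ℕ} (hn : n ≠ 0) {s : LaurentSeries k}
    (hs : s ≠ 0) (hr : H38.Mz.Red A π ((h : LaurentSeries Qb) ^ n) s) :
    ∃ hb : LaurentSeries k, H38.Mz.Red A π (h : LaurentSeries Qb) hb ∧ hb ^ n = s :=
  H38.Mz.red_of_pow hn hs hr

/-- **The first component is `X_0(M)`** (`H38MzComp2`): the reduction of a function on `X_0(M p)`,
`p ∤ M`, is a function on `X_0(M)` over the residue field. -/
theorem reduction_is_of_level_M {M p : ℕ} [NeZero M] [Fact p.Prime] (hpM : ¬ p ∣ M)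
    {A : ValuationSubring Qb} (hA : A.LiesOverPrime p) {f : FB (M * p)} {fb : LaurentSeries (κ A)}
    (h : H38.Mz.Red A (IsLocalRing.residue A) (f : LaurentSeries Qb) fb) : fb ∈ FC (κ A) M :=
  H38.Mz.mem_full_of_red hpM hA h

/-- **Good reduction and expansions** (`H18CRedB`).  `S` is the good reduction of `X_0(M)` at a place
whose residue characteristic does not divide `M` (`GuideKernel.situation_X0`): a ring `S.B` of
functions with a reduction `S.ρ`, and a map `S.r` on the points.  The reduction `S.ρ x` is the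
reduction of the expansion of `x`. -/
theorem good_reduction_by_expansions {M : ℕ} [NeZero M] {A : ValuationSubring Qb}
    (hdeg : H42.DegLE Qb (κ A) M) (S : H19.GoodRed Qb (FB M) (κ A) (FC (κ A) M))
    (hS : S.toReductionData = H42.modRed hdeg) (x : S.B) :
    H38.Mz.Red A (IsLocalRing.residue A) ((x : FB M) : LaurentSeries Qb)
      (S.ρ x : LaurentSeries (κ A)) :=
  H18.CR.red_ρ hdeg S hS x

/-- **The divisor of the reduction is the reduction of the divisor** (`H18CRedB`), at level `M`: if
`s ≠ 0` is the reduction of `G`, then `div s` is the image of `div G` under `S.r`. -/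
theorem divisor_of_the_reduction {M : ℕ} [NeZero M] {A : ValuationSubring Qb}
    (hdeg : H42.DegLE Qb (κ A) M) (S : H19.GoodRed Qb (FB M) (κ A) (FC (κ A) M))
    (hS : S.toReductionData = H42.modRed hdeg) {G : FB M} (hG : G ≠ 0) {D : Divisor Qb (FB M)}
    (hD : ∀ v, D v = v.ord G) {s : FC (κ A) M} (hs : s ≠ 0)
    (hred : H38.Mz.Red A (IsLocalRing.residue A) (G : LaurentSeries Qb) (s : LaurentSeries (κ A)))
    (w : Place (κ A) (FC (κ A) M)) : Finsupp.mapDomain S.r D w = w.ord s :=
  H18.CR.mapDomain_div_of_red hdeg S hS hG hD hs hred w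

/-- **Functions lift** (`H38MzComp2`): every function on `X_0(M)` over the residue field is the
reduction of a function over `ℚ̄`. -/
theorem functions_lift (M : ℕ) [NeZero M] (A : ValuationSubring Qb) (g : FC (κ A) M) :
    ∃ f : FB M, H38.Mz.Red A (IsLocalRing.residue A) (f : LaurentSeries Qb)
      (g : LaurentSeries (κ A)) :=
  H38.Mz.exists_red_eq M A g.2

/-- **The divisor of the Hecke transform in characteristic `p`** (`H17C1`): if `tb` is the Hecke
transform of `g`, given by the formula of `hecke_transform`, then `T_ℓ (div g) = div tb`.  Here `T_ℓ` is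
the correspondence on divisors given by `β` and `α`.  Proof: lift `g` to characteristic `0`; there
the divisor is known, and the reduction of divisors commutes with `T_ℓ`
(`GuideKernel.hecke_reduction`).  Together with `GuideKernel.hecke_transform`, which says
`tb = g^a h^p`, this gives `GuideLevelsAtP.exists_hecke_relation`. -/
theorem hecke_of_a_divisor {A : ValuationSubring Qb} {M p : ℕ} [NeZero M] (hp : p.Prime)
    (hpM : ¬ p ∣ M) (hA : A.LiesOverPrime p) {ℓ : ℕ} [NeZero ℓ] (hℓ : ℓ.Prime) (hℓM : ¬ ℓ ∣ M)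
    (hℓp : ℓ ≠ p) [IsAlgClosed (κ A)] [H94.FunField (κ A) (FC (κ A) M)]
    [H94.FunField (κ A) (FC (κ A) (M * ℓ))]
    (hα : (H17.alphaC (κ A) M ℓ).toRingHom.IsIntegral)
    (hβ : (H17.betaC (κ A) M ℓ).toRingHom.IsIntegral) {g tb : FC (κ A) M} (hg : g ≠ 0) {ζ : Aˣ}
    (hζ : IsPrimitiveRoot (Units.map (A.subtype : A →* Qb) ζ) ℓ)
    (htb : qExpand (κ A) ℓ (tb : LaurentSeries (κ A)) =
      H60.normSeries ℓ (Units.map (IsLocalRing.residue A : A →* κ A) ζ) (g : LaurentSeries (κ A)))
    {D : Divisor (κ A) (FC (κ A) M)} (hD : ∀ w, D w = w.ord g) (w : Place (κ A) (FC (κ A) M)) :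
    Divisor.correspondence (H17.betaC (κ A) M ℓ) (H17.alphaC (κ A) M ℓ) hβ hα D w = w.ord tb :=
  H17C.correspondence_div hp hpM hA hℓ hℓM hℓp hα hβ hg hζ htb hD w

/-! ## 3. The supersingular points

`ub` is the function on `X_0(M)` in characteristic `p` with the expansion `Δ^(p-1)` (classically
`Δ^(p-1) / A^12`, where `A` is the Hasse invariant, a form of weight `p - 1` with expansion `1`).  Where
`j` is finite its order is `-12` or `0` (`GuideLevelsAtP.ord_delta_cases`); the points with `-12` are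
the supersingular points.  The two results are `GuideLevelsAtP.supersingular_beta_of_alpha` and
`GuideLevelsAtP.dvd_ord_of_hecke`. -/

/-- **The nodes are the supersingular points** (`H16C7A`).  `4 ∣ M`, `p ∤ M`; `H97.sheets …` is the
model of `X_0(M p)` at `p` (`GuideReduction.sheets_data`, `GuideTwoSheets`), whose nodes are points of
`X_0(M)` in characteristic `p`.  A point is a node exactly if `j` is finite and `Δ^(p-1)` has a
nonzero order there.  (The order of `Δ^(p-1)` at a node is computed with the local equation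
`z z' = p u` of the model: `GuideLevelsS44.special_fibre` and `order_at_node`; for the functions `z`,
`z'` see `GuideNodeParameters`.) -/
theorem nodes_are_supersingular {A : ValuationSubring Qb} {M p : ℕ} [NeZero M] [NeZero p]
    [Fact p.Prime] [CharP (κ A) p] [IsAlgClosed (κ A)] [Infinite (κ A)] (w : H99.AL Qb M p)
    (hπ : Function.Surjective (IsLocalRing.residue A)) (hdeg : H42.DegLE Qb (κ A) M)
    (hpM : ¬ p ∣ M) (arch : Arch A) (r : Place Qb (H99.FX Qb M) → Place (κ A) (FC (κ A) M)) {c : ℕ}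
    (hr1 : ∀ D : Divisor Qb (H99.FX Qb M), (c : ℤ) < Divisor.degree D →
      (H42.modReductionData A (IsLocalRing.residue A) M hπ hdeg).IsRed D (Finsupp.mapDomain r D))
    (hr2 : H34.GR.DivCompat (H42.modReductionData A (IsLocalRing.residue A) M hπ hdeg) r)
    [H3RR.IsFF Qb (H99.FX Qb M)] [H3RR.IsFF Qb (H99.FX Qb (M * p))]
    [H3RR.IsFF (κ A) (FC (κ A) M)] [H94.FunField Qb (H99.FX Qb M)]
    [H94.FunField Qb (H99.FX Qb (M * p))] (h4M : 4 ∣ M) {ub : FC (κ A) M}
    (hub : (ub : LaurentSeries (κ A)) = Δq (κ A) ^ (p - 1)) (x : Place (κ A) (FC (κ A) M)) :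
    (sheets w hπ hdeg hpM arch r hr1 hr2).Node x ↔ 0 ≤ x.ord (jX (κ A) M) ∧ x.ord ub ≠ 0 :=
  H16.C7.node_iff w hπ hdeg hpM arch r hr1 hr2 h4M hub x

/-- **The poles of `j(q^ℓ)` on `X_0(ℓ)`** (`H9Hecke`), in characteristic different from the prime `ℓ`,
are at the two cusps `∞` (`H9.infPl`) and `0` (`H9.zeroPl`, its image under the Atkin-Lehner
involution).  (This is known for `j`, and the involution exchanges `j` and `j(q^ℓ)`.) -/
theorem poles_of_second_j {K : Type*} [Field K] [IsAlgClosed K] {ℓ : ℕ} [Fact ℓ.Prime]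
    (hℓ : (ℓ : K) ≠ 0) {v : Place K (FC K ℓ)} (hv : v.ord (H9.jₚ K ℓ) < 0) :
    v = H9.infPl K ℓ ∨ v = H9.zeroPl K ℓ hℓ :=
  H9.eq_cusp_of_ord_jₚ_neg K ℓ hℓ hv

/-- **`j(q^ℓ)` is finite where `j` is finite** (`H16C7A`), at the places of every field which contains
the function field of `X_0(ℓ)`: at the cusps of `X_0(ℓ)` both functions have poles. -/
theorem j_finite_at_both {K : Type*} [Field K] [IsAlgClosed K] {ℓ : ℕ} [NeZero ℓ] [Fact ℓ.Prime]
    {F : IntermediateField K (LaurentSeries K)} [H94.FunField K F] (hℓ : (ℓ : K) ≠ 0)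
    (hF : FC K ℓ ≤ F) (v : Place K F) {j j' : F} (hj : (j : LaurentSeries K) = jqModC K)
    (hj' : (j' : LaurentSeries K) = qExpand K ℓ (jqModC K)) (hv : 0 ≤ v.ord j) : 0 ≤ v.ord j' :=
  H16.C7.ord_jl_nonneg hℓ hF v hj hj' hv

/-- **`Δ(q^ℓ)/Δ(q)` is a unit outside the cusps** (`H38DvA`; the series is `H9.deltaRatio K ℓ`), in
characteristic different from the prime `ℓ`. -/
theorem delta_ratio_is_a_unit {K : Type*} [Field K] [IsAlgClosed K] {ℓ : ℕ} [NeZero ℓ]
    [Fact ℓ.Prime] {F : IntermediateField K (LaurentSeries K)} [H94.FunField K F]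
    (hℓ : (ℓ : K) ≠ 0) (v : Place K F) {j f : F} (hj : (j : LaurentSeries K) = jqModC K)
    (hf : (f : LaurentSeries K) = qExpand K ℓ (Δq K) / Δq K) (hv : 0 ≤ v.ord j) : v.ord f = 0 :=
  H38.Dv.ord_unit hℓ v hj (hf.trans (H9.deltaRatio_eq_div (K := K) ℓ).symm) hv

/-- **The first map and the supersingular points** (`H16C7A`).  `ub` is a function of level `M`, `ub'`
the same function at level `M ℓ`, and at both levels its order is `n ≠ 0` or `0` where `j` is finite.
Let `v` be a point of level `M ℓ` where `j` is finite.  Then `j` is finite at `α(v)`, the orders of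
`ub` at `α(v)` and of `ub'` at `v` agree, and if they are not zero, `α` is unramified at `v`: the
ramification index `e` satisfies `n = e n`.  (No modular interpretation is used.) -/
theorem first_map {K : Type*} [Field K] [IsAlgClosed K] {M ℓ : ℕ} [NeZero M] [NeZero ℓ]
    [Fact ℓ.Prime] [H94.FunField K (FC K M)] [H94.FunField K (FC K (M * ℓ))] {n : ℤ} (hn : n ≠ 0)
    {ub : FC K M} {ub' : FC K (M * ℓ)} (hub : (ub' : LaurentSeries K) = ub)
    (hM : ∀ x : Place K (FC K M), 0 ≤ x.ord (jX K M) → x.ord ub = n ∨ x.ord ub = 0)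
    (hMl : ∀ x : Place K (FC K (M * ℓ)), 0 ≤ x.ord (jX K (M * ℓ)) →
      x.ord ub' = n ∨ x.ord ub' = 0)
    (hα : (H17.alphaC K M ℓ).toRingHom.IsIntegral) (v : Place K (FC K (M * ℓ)))
    (hv : 0 ≤ v.ord (jX K (M * ℓ))) :
    0 ≤ (v.restrictAlong (H17.alphaC K M ℓ) hα).ord (jX K M) ∧
      (v.restrictAlong (H17.alphaC K M ℓ) hα).ord ub = v.ord ub' ∧
      (v.ord ub' ≠ 0 → v.ramificationIndexAlong (H17.alphaC K M ℓ) = 1) :=
  H16.C7.ord_ubar_alpha hn hub hM hMl hα v hv

/-- **The second map** (`H16C7A`): the same for `β` if `ub` has the expansion `Δ^d`, because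
`β^* ub = Δ(q^ℓ)^d` is `ub'` times a unit (`delta_ratio_is_a_unit`). -/
theorem second_map {K : Type*} [Field K] [IsAlgClosed K] {M ℓ : ℕ} [NeZero M] [NeZero ℓ]
    [Fact ℓ.Prime] [H94.FunField K (FC K M)] [H94.FunField K (FC K (M * ℓ))]
    (hℓ : (ℓ : K) ≠ 0) {n : ℤ} (hn : n ≠ 0) {d : ℕ} {ub : FC K M} {ub' : FC K (M * ℓ)}
    (hub : (ub : LaurentSeries K) = Δq K ^ d) (hub' : (ub' : LaurentSeries K) = Δq K ^ d)
    (hM : ∀ x : Place K (FC K M), 0 ≤ x.ord (jX K M) → x.ord ub = n ∨ x.ord ub = 0)
    (hMl : ∀ x : Place K (FC K (M * ℓ)), 0 ≤ x.ord (jX K (M * ℓ)) →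
      x.ord ub' = n ∨ x.ord ub' = 0)
    (hβ : (H17.betaC K M ℓ).toRingHom.IsIntegral) (v : Place K (FC K (M * ℓ)))
    (hv : 0 ≤ v.ord (jX K (M * ℓ))) :
    0 ≤ (v.restrictAlong (H17.betaC K M ℓ) hβ).ord (jX K M) ∧
      (v.restrictAlong (H17.betaC K M ℓ) hβ).ord ub = v.ord ub' ∧
      (v.ord ub' ≠ 0 → v.ramificationIndexAlong (H17.betaC K M ℓ) = 1) :=
  H16.C7.ord_ubar_beta hℓ hn hub hub' hM hMl hβ v hv

/-- **The push forward of a divisor** (`H16C7P`): its value at `s` is the sum of the values at the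
points above `s` (all points have degree `1`). -/
theorem value_of_push_forward {K F F' : Type*} [Field K] [Field F] [Field F'] [Algebra K F]
    [Algebra K F'] [HasPrincipalDivisors K F'] (ψ : F →ₐ[K] F') (hψ : ψ.toRingHom.IsIntegral)
    (hdeg : ∀ w : Place K F', w.deg = 1) (E : Divisor K F') (s : Place K F) :
    Divisor.pushforwardAlong ψ hψ E s = ∑ w ∈ Place.fiberAlong ψ hψ s, E w :=
  H16.C7.pushforwardAlong_apply_fiber ψ hψ hdeg E s

/-- **The sum of the ramification indices** (`H9Hecke`) at the points above a point is the degree, if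
all points have degree `1`. -/
theorem sum_of_ramification_indices {K F F' : Type*} [Field K] [Field F] [Field F'] [Algebra K F]
    [Algebra K F'] [HasPrincipalDivisors K F'] (φ : F →ₐ[K] F') (hφ : φ.toRingHom.IsIntegral)
    (hFI : FundamentalIdentityAlong K φ hφ) (hdeg : ∀ w : Place K F', w.deg = 1) (v : Place K F)
    (hv : v.deg = 1) :
    ∑ w ∈ Place.fiberAlong φ hφ v, (w.ramificationIndexAlong φ : ℤ) = finrankAlong K φ :=
  H9.sum_ramificationIndexAlong φ hφ hFI hdeg v hv

/-- **A correspondence modulo `p`** (`H16C7P`).  Let `φ, ψ : X' → X` be unramified at the points above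
`s` (under `ψ`), and let `D` be congruent to `c` modulo `p` at the images of these points under `φ`.
Then the value of `ψ_* φ^* D` at `s` is congruent to `deg(ψ) c`. -/
theorem correspondence_modulo_p {K F F' : Type*} [Field K] [Field F] [Field F'] [Algebra K F]
    [Algebra K F'] [HasPrincipalDivisors K F'] (φ ψ : F →ₐ[K] F') (hφ : φ.toRingHom.IsIntegral)
    (hψ : ψ.toRingHom.IsIntegral) (hFI : FundamentalIdentityAlong K ψ hψ)
    (hdeg : ∀ w : Place K F', w.deg = 1) {p c : ℤ} (D : Divisor K F) (s : Place K F)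
    (hs : s.deg = 1)
    (h : ∀ y : Place K F', y.restrictAlong ψ hψ = s →
      y.ramificationIndexAlong ψ = 1 ∧ y.ramificationIndexAlong φ = 1 ∧
        p ∣ D (y.restrictAlong φ hφ) - c) :
    p ∣ Divisor.correspondence φ ψ hφ hψ D s - (finrankAlong K ψ : ℤ) * c :=
  H16.C7.corr_congr φ ψ hφ hψ hFI hdeg D s hs h

/-- **The degrees over the two functions `j`** (`H9Beta`): the function field of `X_0(N ℓ)` has the same
degree over `K(j)` and over `K(j(q^ℓ))` (`H66.J K ℓ` is the series `j(q^ℓ)`).  For `N = 1` use the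
Atkin-Lehner involution; then multiply by the degree over the function field of `X_0(ℓ)`. -/
theorem degree_over_second_j {K : Type*} [Field K] [IsAlgClosed K] {ℓ : ℕ} [Fact ℓ.Prime]
    (hℓ : (ℓ : K) ≠ 0) (N : ℕ) [NeZero N] :
    IntermediateField.relfinrank (IntermediateField.adjoin K {H66.J K ℓ}) (FC K (N * ℓ)) =
      IntermediateField.relfinrank (IntermediateField.adjoin K {jqModC K}) (FC K (N * ℓ)) :=
  H9.relfinrank_J_p_full K ℓ hℓ N

/-- **The degree of the second map** (`H9Beta`) `β : X_0(N ℓ) → X_0(N)` in characteristic `0` is the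
index, `ψ(N ℓ) / ψ(N)`.  (For characteristic `p`: `GuideKernel.degeneracy_degrees`; that the degrees
are the same is used to prove that reduction commutes with the two maps.) -/
theorem degree_of_beta (N ℓ : ℕ) [NeZero N] [Fact ℓ.Prime] :
    dedekindPsi N * finrankAlong Qb (heckeBetaBar Qb N ℓ) = dedekindPsi (N * ℓ) :=
  H9.psi_mul_finrank_beta Qb N ℓ

/-- **The degree of `α`** (`H16C7P`), in characteristic prime to `M ℓ`, `ℓ ∤ M`, is `ℓ + 1`; it is
the degree of `T_ℓ`. -/
theorem degree_of_alpha {K : Type*} [Field K] [IsAlgClosed K] {M ℓ : ℕ} [NeZero M] [NeZero ℓ]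
    (hℓ : ℓ.Prime) (hℓM : ¬ ℓ ∣ M) (h0 : ((M * ℓ : ℕ) : K) ≠ 0) :
    finrankAlong K (H17.alphaC K M ℓ) = ℓ + 1 :=
  H16.C7.finrank_alphaC_eq hℓ hℓM h0

/-! ## 4. The orders of the reduction

The hypotheses of the theorems of `section Core`.  `M₀ ∣ M ∣ 4 M₀`, `4 ∣ M`, `p ∤ M`, and `A` is a place
above `p`; `E₀` is a new embedding of level `M₀`, with eigenvalues `a_ℓ(W)` for all primes `ℓ ∤ M₀ p` of
good reduction; `w`, `hπ`, …, `hr2` are the data of the model `sheets …` of `X_0(M p)`
(`GuideLevelsS44.special_fibre`); `u₀` is a Kummer function at level `M₀ p` of a point in the image of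
`E₀`, and `u = a u₀` is the same function at level `M p` times a constant, of absolute value `1` on the
first component.  Its reduction on this component is `g = (sheets …).ρ false u`, a function on
`X_0(M)` over the residue field. -/

section Core

variable {W : WeierstrassCurve ℤ} {A : ValuationSubring Qb} {p : Nat.Primes}
  [Fact (p : ℕ).Prime] [NeZero (p : ℕ)] (hA : A.LiesOverPrime p)
  {M₀ M : ℕ} [NeZero M₀] [NeZero M] [NeZero (M₀ * p)] [NeZero (M * p)]
  (hdvd : M₀ ∣ M) (h4 : M ∣ 4 * M₀) (h4M : 4 ∣ M) (hpM : ¬ (p : ℕ) ∣ M) {S : Set ℕ}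
  (hS : ∀ ℓ : ℕ, ℓ.Prime → W.IsGoodPrimeFor ℓ → ¬ ℓ ∣ M₀ → ℓ ≠ p → ℓ ∉ S)
  (E₀ : H61.L5.NewEmb W p M₀ S)
  [CharP (κ A) p] [IsAlgClosed (κ A)] [Infinite (κ A)] (w : H99.AL Qb M p)
  (hπ : Function.Surjective (IsLocalRing.residue A)) (hdeg : H42.DegLE Qb (κ A) M) (arch : Arch A)
  (r : Place Qb (H99.FX Qb M) → Place (κ A) (FC (κ A) M)) {c : ℕ}
  (hr1 : ∀ D : Divisor Qb (H99.FX Qb M), (c : ℤ) < Divisor.degree D →
    (H42.modReductionData A (IsLocalRing.residue A) M hπ hdeg).IsRed D (Finsupp.mapDomain r D))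
  (hr2 : H34.GR.DivCompat (H42.modReductionData A (IsLocalRing.residue A) M hπ hdeg) r)
  [H3RR.IsFF Qb (H99.FX Qb M)] [H3RR.IsFF Qb (H99.FX Qb (M * p))] [H3RR.IsFF (κ A) (FC (κ A) M)]
  [H94.FunField Qb (H99.FX Qb M)] [H94.FunField Qb (H99.FX Qb (M * p))]
  {z : H39.Tor W p} {u₀ : H99.FX Qb (M₀ * p)} (hu₀ : H33.IsKum p (E₀.ι z) u₀) {a : Qb}
  {u : H99.FX Qb (M * p)}
  (hu : (u : LaurentSeries Qb) = algebraMap Qb (LaurentSeries Qb) a * (u₀ : LaurentSeries Qb))
  (hv : (sheets w hπ hdeg hpM arch r hr1 hr2).v false u = 1)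

include hu hv in
/-- **The reduction in terms of expansions** (`H31C3`): `g ≠ 0`, and `g` is the reduction of the series
`a u₀`.  So `g` only depends on the series, not on the level. -/
theorem reduction_of_the_series : (sheets w hπ hdeg hpM arch r hr1 hr2).ρ false u ≠ 0 ∧
    H38.Mz.Red A (IsLocalRing.residue A)
      (algebraMap Qb (LaurentSeries Qb) a * (u₀ : LaurentSeries Qb))
      (((sheets w hπ hdeg hpM arch r hr1 hr2).ρ false u : FC (κ A) M) : LaurentSeries (κ A)) :=
  ⟨H31C.g_ne_zero hpM w hπ hdeg arch r hr1 hr2 hv, H31C.red_g hpM w hπ hdeg arch r hr1 hr2 hu hv⟩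

include hA hdvd h4 h4M hS hu₀ hu hv in
/-- **Divisibility at level `M`** (`H31C3`).  Suppose that the orders of `g` are congruent to each
other modulo `p` at the nodes and divisible by `p` at the other points (this is the result of the node
analysis).  Then all the orders of `g` are divisible by `p`.  Proof: since `W[p]` is irreducible,
there is a prime `ℓ` with `a_ℓ(W) ≢ ℓ + 1` modulo `p` (`GuideNonEisenstein`); use
`same_series_at_higher_level`, `nodes_are_supersingular` and the theorems
`exists_hecke_relation`, `dvd_ord_of_hecke` of `GuideLevelsAtP` for this `ℓ`. -/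
theorem divisible_at_level_M (hp2 : (p : ℕ) ≠ 2) (hΔ : W.Δ ≠ 0) (hirr : W.ModRepIsIrreducible p)
    (hnode : ∀ s s', (sheets w hπ hdeg hpM arch r hr1 hr2).Node s →
      (sheets w hπ hdeg hpM arch r hr1 hr2).Node s' →
        ((p : ℕ) : ℤ) ∣ s.ord ((sheets w hπ hdeg hpM arch r hr1 hr2).ρ false u) -
          s'.ord ((sheets w hπ hdeg hpM arch r hr1 hr2).ρ false u))
    (hsm : ∀ s, ¬ (sheets w hπ hdeg hpM arch r hr1 hr2).Node s →
      ((p : ℕ) : ℤ) ∣ s.ord ((sheets w hπ hdeg hpM arch r hr1 hr2).ρ false u))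
    (s : Place (κ A) (FC (κ A) M)) :
    ((p : ℕ) : ℤ) ∣ s.ord ((sheets w hπ hdeg hpM arch r hr1 hr2).ρ false u) :=
  H31C.dvd_ord_top hA hdvd h4 h4M hpM hS E₀ w hπ hdeg arch r hr1 hr2 hu₀ hu hv hp2 hΔ hirr hnode
    hsm s

include hA hdvd hS hu₀ hu hv in
/-- **Divisibility at level `M₀` is enough** (`H31C3`).  `g` is also a function `g₀` on `X_0(M₀)`, by
`reduction_is_of_level_M` at level `M₀`.  If `g` is not a `p`-th power (again a result of the node
analysis) and all the orders of `g₀` on `X_0(M₀)` are divisible by `p`, then `W` is residually modular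
of level `M₀`.  (`H46.P2.incl M₀ M hdvd` is the inclusion of the function field of level `M₀` in that
of level `M`.)  Proof: `GuideLevelsAtP.isResiduallyModularOfLevel_of_function`, see section 5. -/
theorem modular_of_divisibility_at_level_M₀
    (hpow : ∀ h : FC (κ A) M, (sheets w hπ hdeg hpM arch r hr1 hr2).ρ false u ≠ h ^ (p : ℕ))
    (hbase : ∀ g₀ : FC (κ A) M₀, g₀ ≠ 0 →
      (g₀ : LaurentSeries (κ A)) =
        (((sheets w hπ hdeg hpM arch r hr1 hr2).ρ false u : FC (κ A) M) : LaurentSeries (κ A)) →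
      H46.P2.incl (k := κ A) M₀ M hdvd g₀ = (sheets w hπ hdeg hpM arch r hr1 hr2).ρ false u →
      ∀ v : Place (κ A) (FC (κ A) M₀), ((p : ℕ) : ℤ) ∣ v.ord g₀) :
    W.IsResiduallyModularOfLevel p M₀ :=
  H31C.resModular_of_base hA hdvd hpM hS E₀ w hπ hdeg arch r hr1 hr2 hu₀ hu hv hpow hbase

include hA hdvd h4 h4M hS hu₀ hu hv in
/-- **From the node analysis to modularity** (`H31C3`, `H31C6`, `H31C7`; `H31C.CoreStep4 p` is this
statement): if the orders of `g` are congruent modulo `p` at the nodes and divisible by `p` elsewhere,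
and `g` is not a `p`-th power, then `W` is residually modular of level `M₀`.  Proof: the two preceding
theorems; between them, the divisibility descends from level `M` to level `M₀` by
`GuideLevelsAtP.divisibility_descends` if `p ≥ 5` and by `GuideLevelsAtP.descent_three` if
`p = 3`. -/
theorem modular_of_node_analysis (hp2 : (p : ℕ) ≠ 2) (hΔ : W.Δ ≠ 0)
    (hirr : W.ModRepIsIrreducible p)
    (hnode : ∀ s s', (sheets w hπ hdeg hpM arch r hr1 hr2).Node s →
      (sheets w hπ hdeg hpM arch r hr1 hr2).Node s' →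
        ((p : ℕ) : ℤ) ∣ s.ord ((sheets w hπ hdeg hpM arch r hr1 hr2).ρ false u) -
          s'.ord ((sheets w hπ hdeg hpM arch r hr1 hr2).ρ false u))
    (hsm : ∀ s, ¬ (sheets w hπ hdeg hpM arch r hr1 hr2).Node s →
      ((p : ℕ) : ℤ) ∣ s.ord ((sheets w hπ hdeg hpM arch r hr1 hr2).ρ false u))
    (hpow : ∀ h : FC (κ A) M, (sheets w hπ hdeg hpM arch r hr1 hr2).ρ false u ≠ h ^ (p : ℕ)) :
    W.IsResiduallyModularOfLevel p M₀ :=
  H31C.coreStep4 H31C.inT3 p hp2 hA hΔ hirr hdvd h4 h4M hpM hS E₀ w hπ hdeg arch r hr1 hr2 hu₀ hu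
    hv hnode hsm hpow

end Core

/-- **The index is prime to `p ≥ 5`** (`H38DvD`): if `M₀ ∣ M ∣ 4 M₀`, the index of `Γ_0(M)` in
`Γ_0(M₀)` is not divisible by `p`.  (It is a product of factors `2` and `3`.) -/
theorem index_prime_to_p {p M₀ M : ℕ} (hp : p.Prime) (hp5 : 5 ≤ p) [NeZero M₀] (h : M₀ ∣ M)
    (h4 : M ∣ 4 * M₀) (n : ℕ) (hn : dedekindPsi M₀ * n = dedekindPsi M) : ¬ p ∣ n :=
  H38.Dv.not_dvd_of_psi hp hp5 h h4 n hn

/-- **A point with ramification index prime to `p`** (`H46P2`).  If the index of `Γ_0(M)` in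
`Γ_0(M₀)` is prime to `p`, above every point `s` of `X_0(M₀)` there is a point of `X_0(M)` whose
ramification index `e` is prime to `p` (the sum of the ramification indices is the index).  This is
`GuideLevelsAtP.divisibility_descends`: `e ord_s(g₀)` is divisible by `p`. -/
theorem point_above_prime_to_p {k : Type*} [Field k] [IsAlgClosed k] (M₀ M : ℕ) [NeZero M₀]
    [NeZero M] (h : M₀ ∣ M) (hk : ((M : ℕ) : k) ≠ 0) [H3RR.IsFF k (FC k M₀)]
    [H3RR.IsFF k (FC k M)] {p : ℕ} (hp : ∀ n, dedekindPsi M₀ * n = dedekindPsi M → ¬ p ∣ n)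
    (s : Place k (FC k M₀)) :
    ∃ (s' : Place k (FC k M)) (e : ℕ), 0 < e ∧ ¬ p ∣ e ∧
      ∀ f : FC k M₀, s'.ord (H46.P2.incl (k := k) M₀ M h f) = e * s.ord f :=
  H46.P2.exists_above_full_of_not_dvd M₀ M h hk hp s

/-- **The Hecke relations at level `M₀`** (`H31C6`, from `H17C2`), needed for `p = 3`
(`GuideLevelsAtP.descent_three`): `T_ℓ (div g₀) = a_ℓ(W) div g₀ + p div h` for all good primes
`ℓ ∤ M₀ p`. -/
theorem hecke_relations_at_level_M₀ {W : WeierstrassCurve ℤ} {A : ValuationSubring Qb}
    {p : Nat.Primes} (hA : A.LiesOverPrime p) {M₀ : ℕ} [NeZero M₀] [NeZero (M₀ * p)]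
    (hpM₀ : ¬ (p : ℕ) ∣ M₀) {S : Set ℕ}
    (hS : ∀ ℓ : ℕ, ℓ.Prime → W.IsGoodPrimeFor ℓ → ¬ ℓ ∣ M₀ → ℓ ≠ p → ℓ ∉ S)
    (E₀ : H61.L5.NewEmb W p M₀ S) {z : H39.Tor W p} {u₀ : H99.FX Qb (M₀ * p)}
    (hu₀ : H33.IsKum p (E₀.ι z) u₀) {a : Qb} {g₀ : FC (κ A) M₀} (hg₀ : g₀ ≠ 0)
    (hred : H38.Mz.Red A (IsLocalRing.residue A)
      (algebraMap Qb (LaurentSeries Qb) a * (u₀ : LaurentSeries Qb)) (g₀ : LaurentSeries (κ A)))
    (ℓ : ℕ) [NeZero ℓ] (hℓ : ℓ.Prime) (hgood : W.IsGoodPrimeFor ℓ) (hℓN : ¬ ℓ ∣ M₀ * p) :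
    ∃ h : FC (κ A) M₀, h ≠ 0 ∧ ∀ [HasPrincipalDivisors (κ A) (FC (κ A) (M₀ * ℓ))]
      (hβ : (H17.betaC (κ A) M₀ ℓ).toRingHom.IsIntegral)
      (hα : (H17.alphaC (κ A) M₀ ℓ).toRingHom.IsIntegral) (D : Divisor (κ A) (FC (κ A) M₀)),
      (∀ w, D w = w.ord g₀) → ∀ w,
        Divisor.correspondence (H17.betaC (κ A) M₀ ℓ) (H17.alphaC (κ A) M₀ ℓ) hβ hα D w =
          W.apOfModel ℓ * w.ord g₀ + (p : ℕ) * w.ord h :=
  H31C.hrel_base hA hpM₀ hS E₀ hu₀ hg₀ hred ℓ hℓ hgood hℓN

/-! ## 5. Back to characteristic zero -/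

/-- **An eigenvector from an eigenvector modulo a submodule** (`H18CRedA`).  Let `N` be a module with
finitely many elements over a commutative ring, `N₀` a submodule, `I` an ideal.  If there is `x ∉ N₀`
with `I x ⊆ N₀`, there is `y ≠ 0` with `I y = 0`.  Proof: the sequence `I^n N` becomes stationary, so
there is `r ≡ 1` modulo `I` with `r I^n N = 0` (Nakayama).  As `r x ≡ x` modulo `N₀`, `r x ≠ 0`.
Take the smallest `m` with `I^m r x = 0` and `y ≠ 0` in `I^(m-1) r x`. -/
theorem eigenvector_of_quotient {R N : Type*} [CommRing R] [AddCommGroup N] [Module R N] [Finite N]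
    (I : Ideal R) (N₀ : Submodule R N) {x : N} (hx : x ∉ N₀) (hI : ∀ t ∈ I, t • x ∈ N₀) :
    ∃ y : N, y ≠ 0 ∧ ∀ t ∈ I, t • y = 0 :=
  H18.CR.exists_killed I N₀ hx hI

/-- **Eigenclasses lift** (`H18CRedA`).  `H15.KJ N A` is the kernel of the reduction of `J_0(N)` at the
place `A` above `p ∤ N`.  If the reduction of `x` is not zero, of order `p`, and an eigenvector of the
operators `T_ℓ`, `ℓ ∈ S`, with eigenvalues `a_ℓ`, there is an eigenvector of order `p` in `J_0(N)`
with the same eigenvalues.  (It need not reduce to `x`.)  Proof: the kernel is divisible by `p`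
(`GuideKernel.kernel_divisible`), so one may assume `p x = 0`; it is stable under the Hecke operators
(`GuideHeckeReduction`); and `J_0(N)[p]` is finite.  Apply `eigenvector_of_quotient` to
`J_0(N)[p]` as a module over the Hecke ring and the ideal generated by the `T_ℓ - a_ℓ`. -/
theorem eigenclasses_lift {N p : ℕ} [NeZero N] {A : ValuationSubring Qb} (hp : p.Prime)
    (hpN : ¬ p ∣ N) (hA : A.LiesOverPrime p) {x : JZero N} (hx : x ∉ H15.KJ N A)
    (hpx : p • x ∈ H15.KJ N A) (a : ℕ → ℤ) (S : Set Nat.Primes)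
    (hT : ∀ ℓ ∈ S, heckeOperatorBar N ℓ x - a ℓ • x ∈ H15.KJ N A) :
    ∃ y : JZero N, y ≠ 0 ∧ p • y = 0 ∧ ∀ ℓ ∈ S, heckeOperatorBar N ℓ y = a ℓ • y :=
  H18.CR.exists_eigenvector_of_red hp hpN hA hx hpx a S hT

/-- **Modularity from a function in characteristic `p`** (`H18CRed`).  `g` is a function on `X_0(M)`,
`p ∤ M`, over the residue field of a place `A` above `p`; it is not a `p`-th power, all its orders are
divisible by `p`, and for all good primes `ℓ ∤ M p` its Hecke transform `tb` (formula of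
`hecke_transform`) is `g^{a_ℓ(W)}` times a `p`-th power.  Then `W` is residually modular of level `M`.

Proof.  Let `div g = p E`, and let `D` be a divisor of degree `0` in characteristic `0` which reduces
to `E`, `x = [D]`.  The reduction of `x` is not zero: if `E` were principal, `g` would be a `p`-th
power (`power_of_principal`).  It is killed by `p`.  And `T_ℓ E - a_ℓ E` is principal, because `p`
times it is `div (tb g^{-a_ℓ}) = p div h` (`hecke_of_a_divisor`).  So `eigenclasses_lift` gives an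
eigenclass of order `p` in `J_0(M)`; use `GuideLevels.isResiduallyModular_of_eigenvector`.

For the reduction of a Kummer function the hypothesis on the Hecke transforms is
`GuideKernel.hecke_transform`; this gives
`GuideLevelsAtP.isResiduallyModularOfLevel_of_function`. -/
theorem modular_of_function_in_characteristic_p {M p : ℕ} [NeZero M] [Fact p.Prime]
    (hpM : ¬ p ∣ M) {A : ValuationSubring Qb} (hA : A.LiesOverPrime p) {W : WeierstrassCurve ℤ}
    {g : FC (κ A) M} (hg : g ≠ 0) (hpow : ∀ h : FC (κ A) M, h ^ p ≠ g)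
    (hdiv : ∀ w : Place (κ A) (FC (κ A) M), (p : ℤ) ∣ w.ord g)
    (hrel : ∀ (ℓ : ℕ) [NeZero ℓ], ℓ.Prime → W.IsGoodPrimeFor ℓ → ¬ ℓ ∣ M → ℓ ≠ p →
      ∃ (ζ : Aˣ) (tb hb : FC (κ A) M),
        IsPrimitiveRoot (Units.map (A.subtype : A →* Qb) ζ) ℓ ∧ hb ≠ 0 ∧
        qExpand (κ A) ℓ (tb : LaurentSeries (κ A)) =
          H60.normSeries ℓ (Units.map (IsLocalRing.residue A : A →* κ A) ζ)
            (g : LaurentSeries (κ A)) ∧
        tb = g ^ (W.apOfModel ℓ) * hb ^ p) :
    W.IsResiduallyModularOfLevel p M :=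
  H18.CR.isResiduallyModularOfLevel_of_ord hpM hA hg hpow hdiv hrel

/-! ## 6. Assembly -/

/-- **From the line to the node analysis** (`H31C5`): if the points of order `p` of `W` contain a line
in the sense of `GuideLevelsAtP.lineAtP_fields`, the data `H40.ESide` needed for the node analysis
(`GuideLevelsS44.node_congruence`) exist. -/
theorem curve_side {W : WeierstrassCurve ℤ} {p : ℕ} (hp : p.Prime) (hp2 : p ≠ 2) (hΔ : W.Δ ≠ 0)
    {A : ValuationSubring Qb}
    (h : ∃ V : AddSubgroup (H44E.PtQ W), H44E.LineAtP p A (H44E.PtQ W) V) {ζ : Qb}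
    (hζ : IsPrimitiveRoot ζ p) :
    Nonempty (H40.ESide (G := A.inertiaSubgroupIn ℚ) A.valuation p (H44E.TorQ W p) ζ) :=
  H31C.eSide_of_line hp hp2 hΔ h hζ

/-- **A new embedding and a line** (`H31C2`).  Let `p` be odd and `W[p]` irreducible, and suppose that
`W` has a line at every place above `p`.  If there is a new embedding of level `M₀` with the
eigenvalues `a_ℓ(W)` for all good primes, then `W` is residually modular of level `M₀`.

Proof.  Pass to the auxiliary level (`GuideLevelsAtP.exists_aux`), choose a place `A` above `p`, and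
Kummer functions of the points `ι x` which are fixed by the stabiliser of `x` in inertia.  For the
point `z` outside the line, divide the Kummer function by a constant to get absolute value `1` on
the first component.  Its orders at the nodes are congruent (`GuideLevelsS44.node_congruence`), the
others are divisible by `p` (`GuideLevelsS44.order_at_smooth_point`), and its reduction is not a
`p`-th power (`GuideLevelsS44.reduction_ne_pow`).  Use `modular_of_node_analysis`. -/
theorem modular_of_line {W : WeierstrassCurve ℤ} {p : Nat.Primes} [NeZero (p : ℕ)]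
    (hp2 : (p : ℕ) ≠ 2) (hΔ : W.Δ ≠ 0) (hirr : W.ModRepIsIrreducible p) {M₀ : ℕ} [NeZero M₀]
    [NeZero (M₀ * p)] {S : Set ℕ}
    (hS : ∀ ℓ : ℕ, ℓ.Prime → W.IsGoodPrimeFor ℓ → ¬ ℓ ∣ M₀ → ℓ ≠ p → ℓ ∉ S)
    (E₀ : H61.L5.NewEmb W p M₀ S)
    (hline : ∀ A : ValuationSubring Qb, A.LiesOverPrime p →
      ∃ V : AddSubgroup (H44E.PtQ W), H44E.LineAtP p A (H44E.PtQ W) V) :
    W.IsResiduallyModularOfLevel p M₀ :=
  H31C.resModular_of_newEmb4 (H31C.coreStep4 H31C.inT3 p hp2) hΔ hirr hS E₀ hp2
    fun A hA _ hζ => H31C.eSide_of_line p.2 hp2 hΔ (hline A hA) hζ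

/-- **Transitivity** (`H31C5`): if inertia is transitive on the nonzero points of order `p`, it is
transitive on the nonzero elements of the module `W[p]` (two forms of the same statement; then
`GuideLevelsAtP.not_transitive_of_newEmb` applies). -/
theorem transitive_on_torsion {W : WeierstrassCurve ℤ} {p : ℕ} {A : ValuationSubring Qb}
    (h : ∀ x y : H44E.PtQ W, p • x = 0 → p • y = 0 → x ≠ 0 → y ≠ 0 →
      ∃ σ : A.inertiaSubgroupIn ℚ, σ • x = y) (x y : H39.Tor W p) (hx : x ≠ 0) (hy : y ≠ 0) :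
    ∃ σ ∈ A.inertiaSubgroupIn ℚ, σ • x = y :=
  H31C.transitive_tor h x y hx hy

/-- **From new embeddings to levels** (`H61C1`).  Suppose that, for all `M'` prime to `p`, a new
embedding of level `M'` gives residual modularity of level `M'`.  Then residual modularity of a level
`M`, divisible by `p` exactly once, gives residual modularity of level `M / p`.  (Write `M = M' p`
and use `GuideLevelsAtP.residual_dichotomy`.)  The hypothesis is
`GuideLevelsAtP.modular_of_newEmb`; it follows from `modular_of_line`, because in the cases of S39 and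
S40 there is a line at `p` (`line_of_multiplicative`, `line_or_transitive_of_good`) or a contradiction
(`not_transitive_of_newEmb`). -/
theorem level_lowering_of_new_embeddings {p : ℕ} (hp : p.Prime) (hp2 : p ≠ 2)
    (W : WeierstrassCurve ℤ) (hΔ : W.Δ ≠ 0) (hirr : W.ModRepIsIrreducible p)
    (key : ∀ (M' : ℕ) [NeZero M'] [NeZero (M' * p)], ¬ p ∣ M' →
      Nonempty (H61.L5.NewEmb W ⟨p, hp⟩ M' (↑(H61C.badSet W p M') : Set ℕ)) →
        W.IsResiduallyModularOfLevel p M')
    {M : ℕ} (hM : 0 < M) (hpM : p ∣ M) (hp2M : ¬ p ^ 2 ∣ M)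
    (hmod : W.IsResiduallyModularOfLevel p M) : W.IsResiduallyModularOfLevel p (M / p) :=
  H61C.level_lowering_of hp hp2 W hΔ hirr key hM hpM hp2M hmod

end Fermat.Agent.Guide.LevelsAtPSteps
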