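import Fermat.Agent.H70Lev4
import Fermat.Agent.H35Abs

/-!
# Descending relations between Hecke operators to divisors of the level (helper21)

* `evHA_desc`, `evZ_desc` : a relation between the `T_ℓ` at level `L` also holds at level `L' ∣ L`.
* `exists_hecke_act_desc` : the local Hecke algebra at level `L` acts on the localised module at
  level `M` with `M * N ∣ L`.
-/

set_option autoImplicit false
set_option linter.style.haveILetI false

open Matrix CongruenceSubgroup IsLocalRing CuspForm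
open scoped MatrixGroups TensorProduct

namespace Fermat.Agent.H21M

open Fermat.Agent.H70.Coh Fermat.Agent.H70.Mod Fermat.Agent.H59 Fermat.Agent.H37.Rank
  Fermat.Agent.H30

section Desc

variable {L' L : ℕ} [NeZero L'] [NeZero L] (hLL : L' ∣ L) {S : Set ℕ} (hSL : Adm S L)
  (hSL' : Adm S L')

theorem levelIncl_evHA (P : MvPolynomial (Pr S) ℤ) (f : CuspForm (Gamma0 L') 2) :
    H58.levelIncl 2 hLL ((evHA hSL' P).1 f) = (evHA hSL P).1 (H58.levelIncl 2 hLL f) := by
  induction P using MvPolynomial.induction_on generalizing f with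
  | C a =>
    rw [evHA_C, evHA_C]
    have h1 : ∀ (K : ℕ) [NeZero K] (g : CuspForm (Gamma0 K) 2),
        ((a : CuspForm.heckeAlgebra K 2 S)).1 g = a • g := by
      intro K _ g
      have h2 : ((a : CuspForm.heckeAlgebra K 2 S)).1 = (a : Module.End ℂ (CuspForm (Gamma0 K) 2)) :=
        rfl
      rw [h2, Module.End.intCast_apply]
    rw [h1, h1, map_zsmul]
  | add P Q hP hQ =>
    have h1 : (evHA hSL' (P + Q)).1 f = (evHA hSL' P).1 f + (evHA hSL' Q).1 f := by
      rw [map_add]; rfl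
    have h2 : (evHA hSL (P + Q)).1 (H58.levelIncl 2 hLL f) =
        (evHA hSL P).1 (H58.levelIncl 2 hLL f) + (evHA hSL Q).1 (H58.levelIncl 2 hLL f) := by
      rw [map_add]; rfl
    rw [h1, h2, map_add, hP, hQ]
  | mul_X P a hP =>
    have h1 : (evHA hSL' (P * MvPolynomial.X a)).1 f =
        (evHA hSL' P).1 ((evHA hSL' (MvPolynomial.X a)).1 f) := by
      rw [map_mul]; rfl
    have h2 : (evHA hSL (P * MvPolynomial.X a)).1 (H58.levelIncl 2 hLL f) =
        (evHA hSL P).1 ((evHA hSL (MvPolynomial.X a)).1 (H58.levelIncl 2 hLL f)) := by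
      rw [map_mul]; rfl
    rw [h1, h2, hP, evHA_X, evHA_X]
    congr 1

include hLL in
/-- **Relations descend to divisors of the level.** -/
theorem evHA_desc {P : MvPolynomial (Pr S) ℤ} (hP : evHA hSL P = 0) : evHA hSL' P = 0 := by
  apply Subtype.ext
  apply LinearMap.ext
  intro f
  have h1 := levelIncl_evHA hLL hSL hSL' P f
  rw [hP] at h1
  have h2 : H58.levelIncl 2 hLL ((evHA hSL' P).1 f) = 0 := h1
  apply DFunLike.coe_injective
  have h3 := congrArg (fun F : CuspForm (Gamma0 L) 2 => (⇑F : UpperHalfPlane → ℂ)) h2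
  exact h3

end Desc

section Act

set_option synthInstance.maxHeartbeats 400000
set_option maxHeartbeats 1000000

variable {N M L : ℕ} [NeZero N] [NeZero M] [NeZero L] (hM : N ∣ M) {S : Set ℕ} (hS : Away M S)
  (hSL : ∀ q : ℕ, q.Prime → q ∣ L → q ∈ S)
  {O : Type} [CommRing O] [IsDomain O] [IsDiscreteValuationRing O]
  [IsAdicComplete (maximalIdeal O) O] [CharZero O]
  {Δ : Type} [CommGroup Δ] [Finite Δ] {ψ η : (ZMod N)ˣ →* (MonoidAlgebra O Δ)ˣ}
  (θ : heckeAlgebra L 2 S →+* ResidueField O) {e : MvPolynomial (Idx S) O}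

/-- **The local Hecke algebra at level `L` acts on the localised module at level `M`**, when
`M * N ∣ L`. -/
theorem exists_hecke_act_desc (hsq : Squarefree N)
    (hex : ∀ q : ℕ, q.Prime → q ∣ N → ¬ q * q ∣ M) (hL : M * N ∣ L)
    (hψ : ψ = η ^ 2) {m : ℕ} (hm : Odd m) (hη : η ^ m = 1)
    (hgΛ : Good M (MonoidAlgebra O Δ)) (hψ1 : ψ (-1) = 1)
    (hgL : Good (M * N) O)
    (heΛ : IsLocIdem (tw hM hS ψ η) (tw_comm hM hS ψ η) (thetaPoly L S hSL O θ) e)
    (he : ∀ (L' : ℕ) (hL' : Adm S L'), L' ∣ L →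
      IsLocIdem (TT O hL') (TT_comm hL') (thetaPoly L S hSL O θ) e)
    [Module.Free O (MLoc hM hS ψ η e)]
    (i₀ : Idx S) (hi₀1 : (L : ℤ) ∣ (i₀.1 : ℤ) - 1)
    (hi₀ : θ (TIdx L S hSL i₀) ≠ 1 + (i₀.1 : ResidueField O)) :
    ∃ Φ : heckeLocal L S O θ →ₐ[O] Module.End O (MLoc hM hS ψ η e),
      ∀ P, Φ (toLocal L S hSL O θ P) = mactO hM hS ψ η e P := by
  have hL'S : Adm S (M * N) := fun q hq hd => hSL q hq (hd.trans hL)
  haveI : NeZero (M * N) := ⟨mul_ne_zero (NeZero.ne M) (NeZero.ne N)⟩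
  obtain ⟨Φ, hΦ⟩ := exists_loc_heckeLocal L S hSL O θ heΛ (by
    intro P₀ hP₀ x hx
    exact act_rel_eq_zero hM hS hL'S hsq hex rfl hψ hm hη hgΛ hψ1 hgL heΛ
      (he _ hL'S hL) i₀ ((Int.natCast_dvd_natCast.mpr hL).trans hi₀1)
      (by rw [thetaPoly_X]; exact hi₀)
      (evHA_desc hL hSL hL'S ((evHA_eq_evZ hSL P₀).trans hP₀)) hx)
  refine ⟨(endRes O (MonoidAlgebra O Δ) (MLoc hM hS ψ η e)).comp Φ, fun P => ?_⟩
  rw [AlgHom.comp_apply, hΦ P]
  rfl

end Act

end Fermat.Agent.H21M
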