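import Fermat.Agent.H59Fin43
import Fermat.Agent.S43
import Fermat.Agent.H69NoPatchMv
import Fermat.Agent.H69C1
import Fermat.Agent.H53TWL3
import Fermat.Agent.H53GalPt
import Fermat.Agent.H21JIter
import Fermat.Agent.H21MDesc

/-!
# Guide: level lowering by Ihara avoidance (theorem `LL`; inner part of S43 and S38)

**What is proved.** Theorem `LL` of `GuideLevels`: `p ≥ 5`, `W[p]` is flat at `p` and modular of a squarefree
level `M` prime to `p`, every unramified prime `t ∣ M` (the set `T`) satisfies `t ≡ 1` modulo `p` and has a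
scalar Frobenius `± 1`; then `W[p]` is modular of level `M / t₀` for every `t₀ ∈ T`.  Ribet's proof uses
Shimura curves; here it is a Taylor-Wiles argument on the modular curves `X₀(M N)`.

**How it is proved.** Suppose that `W[p]` is not modular of level `M / t₀`.
1. `exists_coefficient_ring`: a complete discrete valuation ring `O` containing the values of characters
   `χ_t` of order `p` of `(ℤ/t)ˣ`, for all `t ∈ T`.
2. Galois side, for every `n`: `3 #T + k` Taylor-Wiles primes `≡ 1` modulo `p^(n+1)`, and a presentation of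
   the universal deformation ring (unrestricted at the primes of `T`) by `6 #T + k` variables, six for each
   `t ∈ T`: the entries of the traceless parts of a tame generator `Σ_t` and of a Frobenius `Φ_t`
   (`generators_by_counting_cocycles`, `selmer_bound`, `exists_galois_level`, `galois_level_primes`,
   `galois_level_presentation`).
3. Hecke side, for every `n` (`exists_hecke_level`, `full_level_module`): the part of `H¹(Γ₀(M N), Λ(ψ²))` at
   the residual eigensystem of `W[p]`, with the operators `ψ(ℓ)⁻¹ T_ℓ`.  Here `Λ` is the group ring of the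
   diamond operators over `O` and `ψ` the product of all `χ_t` and of the universal characters at the
   Taylor-Wiles primes; the module is free over `Λ`.  The character is non trivial at all `t ∈ T`: so only
   the component "`Σ_t` has eigenvalues `ζ, ζ⁻¹`, `ζ ≠ 1`" of the local deformation ring occurs, and it is
   irreducible (`comm_of_tame`, `chi_component_irreducible`).  Modulo the uniformiser the `χ_t` disappear,
   and since `W[p]` is not modular of level `M / t₀`, all forms are new at `t₀`: `(tr Φ)² - (t₀ + 1)²`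
   vanishes modulo the uniformiser.  Tools: `twist_embedding`, `norm_trick`.
4. Patching (`patching_without_target`, `exists_large_component`, `exists_test_prime`, `endgame`,
   `no_patching`): in the limit the support of the module contains the whole component, also modulo the
   uniformiser; but the component contains a point with `Σ = 1` and general `Φ`, which is not new.  This is
   the contradiction.  No comparison with a ring or module "at level one" is needed.
5. (`level_over_quotient`, `no_patching_marks`) the variant for S38 with three more variables (marks) at `p`.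

**Files** 1: `H55CoeffRing`. 2: `H53Gen1`, `H53Gen2`, `H53Gen3`, `H53Tangent`, `H53Uni`, `H53Uni2`
(generators), `H53TW2`, `H53TW3`, `H53TW4` (primes and Selmer bound), `H53Level`, `H53TWL1`, `H53TWL2`,
`H53TWL3` (the levels). 3: cohomology with characters `H70Psi`, `H70Base`, `H70HeckeRel`, `H70DC`,
`H70Lift`, `H70Pres`, `H70Free`, `H70Chars`, `H70Trace`, `H37TrFam`, `H37TrRel`; localised modules `H70Mod`,
`H70Mod2`, `H70Pt`, `H70HH`, `H70Eig`, `H70Grp`, `H70Char`, `H70Lev1` to `H70Lev11`; their ranks `H37Rank`,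
`H37NoNew`, `H37RankTW`, `H37NNGal`; points and Galois representations `H4EACore`, `H4EAJ`, `H4EATr`,
`H4EAPE`, `H4EANE`, `H4EA`, `H94BRUse`, `H94BRE`, `H59Eigen`, `H59ES`, `H68TwTame`, `H68TwAtt`,
`H68TwLevel`, `H68TwGlue`, `H68TwGal`; twist `H21JBase`, `H21JAbs`, `H21JCrt`, `H21JTw`, `H21JInj`, `H21JEq`,
`H21JNew`, `H21JRes`, `H21JW`, `H21JAL`, `H21JEmb`, `H21JIter`; assembly `H59Norm`, `H59LL1` to `H59LL7`.
4, 5: `H69Tame`, `H57TameDim`, `H57TameRees`, `H57TameStep`, `H57TameCone`, `H57TameConeB`, `H57TameConeC`,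
`H57TameMulti`, `H57TameAll`, `H57PSEval`, `H57AdicLimit`, `H68Regular` (the component), `H69TWMod`,
`H69KFrame`, `H69KRank`, `H69KLift`, `H69KLimit`, `H69KPatch`, `H69KFree` (patching), `H69Endgame`,
`H69NoPatch`, `H69NoPatchMv`.

**More details**, also for the more general levels of S59: `GuideLiftingGalois` (Galois side),
`GuideTaylorWiles`, `GuideTWChoice` (choice of the Taylor-Wiles primes), `GuideCohomology`,
`GuideTwistEmbedding` (cohomology with characters), `GuideTWModules`, `GuideEigensystems`,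
`GuideLiftingHecke` (localised modules, eigenvectors, action of deformation rings), `GuideBoundedRank` (ranks
at Taylor-Wiles levels), `GuideEigen`, `GuideEigenSteps`, `GuideLevelsPoints` (Galois representations at
eigenclasses), `GuidePatching`, `GuidePatchingSteps`, `GuideLiftingAlgebra` (patching), `GuideTameRings` (the
local rings at `T`).

**Serves** S43 (and with it S03, S45, S01) and S38.  `exists_galois_level` and `exists_hecke_level` are the
versions for S43; `generators_by_counting_cocycles`, `selmer_bound`, `relation_descends` are in the form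
used for S38, S59, S60 (`GuideLifting`), where the same patching is used with more marks.

**Notes** [244], [247], [176], [139] (S43), [320], [322] (S38).  Written by helper59, helper69, helper53,
helper21, edited by helper5; theorems of helper59, 69, 53, 55, 57, 70, 4, 21.
-/

set_option autoImplicit false

noncomputable section

namespace Fermat.Agent.Guide.LevelsIhara

open WeierstrassCurve
open CuspForm ModularFormClass UpperHalfPlane CongruenceSubgroup
open Polynomial IsLocalRing GaloisRep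

/-- The field of algebraic numbers. -/
local notation "Qb" => AlgebraicClosure ℚ

/-- The absolute Galois group of `ℚ`. -/
local notation "GQ" => (AlgebraicClosure ℚ ≃ₐ[ℚ] AlgebraicClosure ℚ)

/-- The residual representation on `W[p]`, over the field with `p` elements; it exists if `Δ ≠ 0`. -/
local notation "resZ" => Fermat.Agent.H87.Glue.resZ

/-! ### 1. The coefficient ring -/

/-- **The coefficient ring of LL.** `T` the set of degenerate primes. There is a complete discrete
valuation ring `O` of characteristic zero, uniformiser `ϖ`, with finite residue field `k` of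
characteristic `p`, containing a primitive `p^a`-th root of unity `ζ`, where `p^a` is at least the
`p`-part of `t - 1` for all `t ∈ T`, and such that all polynomials `X² - tX + d` with integral `t, d`
split over `k` (`H55CoeffRing`: the integral closure of `ℤ_p` in `ℚ_p(ω)`, `ω` of order `p^a (p² - 1)`). -/
theorem exists_coefficient_ring (p : ℕ) [Fact p.Prime] (T : Finset ℕ) :
    ∃ (O : Type) (_ : CommRing O) (_ : IsDomain O) (_ : IsDiscreteValuationRing O) (ϖ : O) (a : ℕ)
      (ζ : O), IsAdicComplete (maximalIdeal O) O ∧ CharZero O ∧ Finite (ResidueField O) ∧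
      CharP (ResidueField O) p ∧ (p : O) ∈ maximalIdeal O ∧ maximalIdeal O = Ideal.span {ϖ} ∧
      (∀ t d : ℤ, ∃ α β : ResidueField O, α + β = t ∧ α * β = d) ∧
      IsPrimitiveRoot ζ (p ^ a) ∧ 1 ≤ a ∧ ∀ t ∈ T, padicValNat p (t - 1) ≤ a :=
  let ⟨O, i, j, l, ϖ, a, ζ, h⟩ := H59.exists_coeffChoice p T
  ⟨O, i, j, l, ϖ, a, ζ, h.adic, h.char0, h.finite, h.charp, h.mem, h.unif, h.roots, h.prim,
    h.one_le, h.le⟩

/-! ### 2. The Galois side of a level -/

section GaloisSide

open Fermat.Agent.H53 (GalLevel PlaceData toMat mapMat M2 MCont ofMatrix)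
open Fermat.Agent.H56 (redM coc cob GWIneq LocalBound GoodLift DetCyc FinLev)

/-! Notation: `M2 R` is the ring of `2 × 2` matrices over `R`; `toMat ρ b` is the matrix form of `ρ` in the
basis `b`, `mapMat f` applies the ring homomorphism `f`, `ofMatrix` is the inverse of `toMat`, `MCont` is
continuity, `redM` the reduction of matrices over the dual numbers.  A lift of `r` to the dual numbers is
`R(σ) = (1 + ε c(σ)) r(σ)` with the cocycle `c = coc R`; `cob r X` is the coboundary
`σ ↦ r(σ) X r(σ)⁻¹ - X`.  `DetCyc`: the determinant is the cyclotomic character; `FinLev`: `r` is trivial on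
the Galois group of a finite extension; `GoodLift r R`: `R` is a continuous lift of `r` with the same
determinant; `LocalBound p r q N C`: the cocycles at `q` of the lifts with the property `C` are in a group
of order at most `#k ^ N`; `H56.Iq q`, `H56.Dq q`: inertia and decomposition group at `q`; `PlaceData p q`: a
place above `q` with a Frobenius element `φ` and a generator `σ` of tame inertia; `GWIneq p`: the
inequality of Greenberg and Wiles for Selmer groups modulo `p`. -/

/-- **Generators of a deformation ring, by counting cocycles.** `R` is the universal ring of the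
deformation condition `D` (`U : DeformationRingData`), `r₁` the matrix form of the universal
representation, `y_i` finitely many elements of its maximal ideal (the *marks*). To a homomorphism `f`
from `R` to the dual numbers belongs the function `coc (f ∘ r₁) : G_ℚ → M₂(k)` (a cocycle in the adjoint
representation). If all these functions, for the `f` which kill the marks, lie in a finite set `Z`
stable under adding coboundaries with `#Z ≤ #k^(N+3)`, then `R` is a quotient of
`O[[X_i, Z_1, .., Z_N]]` with `X_i ↦ y_i`. (The `3` counts the coboundaries: `hcent` says that they come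
freely from the trace-free matrices. `H69.algDual O`: the dual numbers over the residue field as an
`O`-algebra.) No relative tangent spaces, no framed deformations. (`H53Gen4`.) -/
theorem generators_by_counting_cocycles {O : Type} [CommRing O] [IsDomain O]
    [IsDiscreteValuationRing O] [IsAdicComplete (maximalIdeal O) O] [Finite (ResidueField O)]
    (ρbar : ResidualGaloisRep (ResidueField O))
    (D : ∀ ⦃A : Type⦄ [CommRing A] [IsLocalRing A] [Algebra O A], GaloisRepAdic A → Prop)
    (hD : IsDeformationCondition O D) (b : Module.Basis (Fin 2) (ResidueField O) ρbar.V)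
    (hcent : ∀ X : M2 (ResidueField O), X.trace = 0 →
      (∀ σ, toMat ρbar.ρ b σ * X = X * toMat ρbar.ρ b σ) → X = 0)
    (U : DeformationRingData O ρbar D) (b₁ : Module.Basis (Fin 2) U.R U.ρ.V)
    (hb₁ : mapMat (residue U.R) (toMat U.ρ.ρ b₁) =
      mapMat (ResidueField.map (algebraMap O U.R)) (toMat ρbar.ρ b))
    (N : ℕ) (Z : Set (GQ → M2 (ResidueField O))) (hZfin : Z.Finite)
    (hcard : Z.ncard ≤ Nat.card (ResidueField O) ^ (N + 3))
    (hcob : ∀ c ∈ Z, ∀ X : M2 (ResidueField O), X.trace = 0 → c + cob (toMat ρbar.ρ b) X ∈ Z)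
    {ι : Type} [Finite ι] (y : ι → U.R) (hy : ∀ i, y i ∈ maximalIdeal U.R)
    (hZ : ∀ (f : U.R →+* DualNumber (ResidueField O)) (_ : IsLocalHom f)
      (_ : ∀ c, f (algebraMap O U.R c) = TrivSqZeroExt.inl (residue O c)) (_ : ∀ i, f (y i) = 0)
      (h : MCont _ (mapMat f (toMat U.ρ.ρ b₁))),
      (∀ σ, redM _ (mapMat f (toMat U.ρ.ρ b₁) σ) = toMat ρbar.ρ b σ) →
      (letI := H69.algDual O; D (ofMatrix (mapMat f (toMat U.ρ.ρ b₁)) h)) →
      coc (mapMat f (toMat U.ρ.ρ b₁)) ∈ Z) :
    ∃ β : MvPowerSeries (ι ⊕ Fin N) O →ₐ[O] U.R, Function.Surjective β ∧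
      ∀ i, β (MvPowerSeries.X (Sum.inl i)) = y i :=
  H53.exists_beta_gen ρbar D hD b hcent U b₁ hb₁ N Z hZfin hcard hcob y hy hZ

/-- **Taylor-Wiles primes and the Selmer bound, with weights.** `p` odd, `r` the matrix form of an
absolutely irreducible `rhobar` with cyclotomic determinant, ramified exactly at the primes of `A`
(unipotently) and possibly at `p`, `hTW`: absolutely irreducible over every subgroup of index two. `T` is a
finite set of primes where the coboundaries of the decomposition group have dimension at most `3 - w(t)`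
(`w = 3` if `rhobar` is scalar there, `w = 1` if it is unramified with non-scalar Frobenius), `Condp` a
condition at `p` with local bound `Np`. Then for all large `d`, every `n` and every finite `S` there are
`d` primes `q_i ≡ 1` modulo `p^(n+1)` outside `S`, at which `rhobar` is unramified with determinant one
and distinct eigenvalues of Frobenius, such that the cocycles of the lifts to the dual numbers which
are unipotent at `A`, unramified outside `A, T, p, q_i`, satisfy `Condp` and are coboundaries at `T` lie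
in a finite set `Z`, stable under coboundaries, with at most `#k^(d + Np - 1 - Σ w(t))` elements.
Input: the Wiles inequality `GWIneq p` (proved for odd `p`: theorem `H75.gwIneq`, `H75EC4`). (`H53SelmerB`,
with `H51Dual`, `H6TWKill`; see also `GuideTaylorWiles`, `GuideTWChoice`.) -/
theorem selmer_bound {p : ℕ} [Fact p.Prime] {k : Type} [Field k] [Finite k] [Algebra (ZMod p) k]
    (hp2 : p ≠ 2) (GW : GWIneq p) (ρbar : ResidualGaloisRep k)
    (habs : ρbar.IsAbsolutelyIrreducible)
    (hdet : (GaloisRepAdic.ofResidualGaloisRep ρbar).DetIsCyclotomic p)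
    (hsplit : ∀ σ : GQ, ∃ α β : k, LinearMap.charpoly (ρbar.ρ σ) = (X - C α) * (X - C β))
    (hTW : ∀ (K : Type) [Field K] [Algebra k K] (G : Subgroup GQ), G.index = 2 →
      ∀ V : Submodule K (ρbar.baseChange K).V,
        (∀ σ ∈ G, ∀ x ∈ V, (ρbar.baseChange K).ρ σ x ∈ V) → V = ⊥ ∨ V = ⊤)
    (b : Module.Basis (Fin 2) k ρbar.V) {r : GQ →* M2 k}
    (hr : ∀ σ, r σ = LinearMap.toMatrix b b (ρbar.ρ σ)) (hrdet : DetCyc p r) (hfl : FinLev r)
    (A T : Finset Nat.Primes) (hpT : ExtCitation.pPrime p ∉ T)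
    (hAram : ∀ q ∈ A, ∃ σ ∈ H56.Iq q, r σ ≠ 1)
    (hAunip : ∀ q ∈ A, ∀ σ ∈ H56.Iq q, (r σ).charpoly = (X - 1) ^ 2)
    (hur : ∀ q, q ∉ A → q ≠ ExtCitation.pPrime p → ∀ σ ∈ H56.Iq q, r σ = 1)
    (w : Nat.Primes → ℕ)
    (hT : ∀ t ∈ T, Module.finrank (ZMod p) (H55.B1 (H56.rhoD (H56.ad p r) t)) +
      w t * Module.finrank (ZMod p) k ≤ 3 * Module.finrank (ZMod p) k)
    (Condp : (GQ →* M2 (DualNumber k)) → Prop) (Np : ℕ) (hNp : 1 ≤ Np)
    (hp : LocalBound p r (ExtCitation.pPrime p) Np Condp) :
    ∃ s : ℕ, ∀ d, s ≤ d → ∀ (n : ℕ) (S : Finset ℕ), ∃ qv : Fin d → Nat.Primes,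
      Function.Injective qv ∧
      (∀ i, ((qv i : Nat.Primes) : ℕ) ∉ S ∧ p ^ (n + 1) ∣ ((qv i : Nat.Primes) : ℕ) - 1) ∧
      (∀ i, qv i ∉ A ∧ qv i ∉ T ∧ qv i ≠ ExtCitation.pPrime p) ∧
      (∀ i, ρbar.IsUnramifiedAt (qv i)) ∧
      (∀ i, ∀ P : ValuationSubring Qb, P.LiesOverPrime (qv i) →
        ∀ φ : GQ, P.IsFrobeniusAt φ (qv i) → LinearMap.det (ρbar.ρ φ) = 1 ∧
          ∃ α β : k, α ≠ β ∧ LinearMap.charpoly (ρbar.ρ φ) = (X - C α) * (X - C β)) ∧
      ∃ Z : Set (GQ → M2 k), Z.Finite ∧
        Z.ncard ≤ Nat.card k ^ (d + (Np - 1) - ∑ t ∈ T, w t) ∧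
        (∀ c ∈ Z, ∀ X : M2 k, X.trace = 0 → c + cob r X ∈ Z) ∧
        ∀ R : GQ →* M2 (DualNumber k), GoodLift r R → Condp R →
          (∀ q ∈ A, ∀ σ ∈ H56.Iq q, (R σ).charpoly = (X - 1) ^ 2) →
          (∀ q, q ∉ A → q ∉ T → q ≠ ExtCitation.pPrime p → (∀ i, q ≠ qv i) →
            ∀ σ ∈ H56.Iq q, R σ = 1) →
          (∀ t ∈ T, ∃ X : M2 k, X.trace = 0 ∧ ∀ σ ∈ H56.Dq t, coc R σ = cob r X σ) →
            coc R ∈ Z :=
  H53.selmer_bound_gen hp2 GW ρbar habs hdet hsplit hTW b hr hrdet hfl A T hpT hAram hAunip hur w hT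
    Condp Np hNp hp

variable {𝒪 : Type} [CommRing 𝒪] [IsDomain 𝒪] [IsDiscreteValuationRing 𝒪]
  [IsAdicComplete (maximalIdeal 𝒪) 𝒪] {p : ℕ} [Fact p.Prime]

/-- **Existence of the Galois side.** (The coefficient ring `𝒪` of the section is a complete discrete
valuation ring.) `ρbar` is an absolutely irreducible representation over its residue field: cyclotomic
determinant, all characteristic polynomials split, irreducible over all quadratic fields after any
extension of scalars (`hTW`), flat at `p`, ramified exactly at the primes of `A` and possibly at `p`,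
unipotent at `A`. The primes `qT t` are `1` modulo `p`, unramified, with scalar Frobenius `u t = ±1`;
`pl t` is a choice of a place above `qT t`, a Frobenius element `φ` and a tame generator `σ`. Then there is
`k₀` such that for all `k ≥ k₀`, all `n` and all finite sets `S` of primes there is a level `GalLevel`
(next theorems): a set of `3·#T + k` Taylor-Wiles primes `q ≡ 1 mod p^(n+1)` outside of `S` and a
presentation of the universal deformation ring. Inputs: the inequality of Greenberg and Wiles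
(`H75.gwIneq`) and the local deformation problem at `p` (`H64.statementF`). (`H53TWL3`.) -/
theorem exists_galois_level [Finite (ResidueField 𝒪)] (hp2 : p ≠ 2)
    (hp𝒪 : (p : 𝒪) ∈ maximalIdeal 𝒪)
    (ρbar : ResidualGaloisRep (ResidueField 𝒪)) (habs : ρbar.IsAbsolutelyIrreducible)
    (hdet : (GaloisRepAdic.ofResidualGaloisRep ρbar).DetIsCyclotomic p)
    (hsplit : ∀ σ : GQ, ∃ α β : ResidueField 𝒪,
      LinearMap.charpoly (ρbar.ρ σ) = (X - C α) * (X - C β))
    (hTW : ∀ (K : Type) [Field K] [Algebra (ResidueField 𝒪) K] (G : Subgroup GQ), G.index = 2 →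
      ∀ V : Submodule K (ρbar.baseChange K).V,
        (∀ σ ∈ G, ∀ x ∈ V, (ρbar.baseChange K).ρ σ x ∈ V) → V = ⊥ ∨ V = ⊤)
    (b : Module.Basis (Fin 2) (ResidueField 𝒪) ρbar.V)
    (hflat : (GaloisRepAdic.ofResidualGaloisRep ρbar).IsFlatAt p) (A : Finset ℕ)
    (hAp : ∀ q ∈ A, q.Prime ∧ q ≠ p)
    (hAram : ∀ q ∈ A, ¬ (GaloisRepAdic.ofResidualGaloisRep ρbar).IsUnramifiedAt q)
    (hAu : ∀ q ∈ A, (GaloisRepAdic.ofResidualGaloisRep ρbar).IsUnipotentOnInertiaAt q)
    (hunr : ∀ q, q.Prime → q ≠ p → q ∉ A →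
      (GaloisRepAdic.ofResidualGaloisRep ρbar).IsUnramifiedAt q)
    {τ : Type} [Fintype τ] (qT : τ → ℕ) (hqT : ∀ t, (qT t).Prime)
    (hqinj : Function.Injective qT) (hqp : ∀ t, p ∣ qT t - 1) (hqA : ∀ t, qT t ∉ A)
    (u : τ → 𝒪) (hu : ∀ t, u t ^ 2 = 1) (pl : ∀ t, PlaceData p (qT t))
    (hpl : ∀ t, (pl t).P = ExtCitation.primeLocalPlace ⟨qT t, hqT t⟩)
    (hφ : ∀ t, toMat ρbar.ρ b (pl t).φ = residue 𝒪 (u t) • (1 : M2 (ResidueField 𝒪))) :
    ∃ k₀ : ℕ, ∀ k, k₀ ≤ k → ∀ (n : ℕ) (S : Finset ℕ),
      Nonempty (GalLevel p ρbar b A qT pl u k n S) :=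
  H53.exists_galLevel hp2 hp𝒪 (H75.gwIneq hp2) (H64.statementF hp2) ρbar habs hdet hsplit hTW b
    hflat A hAp hAram hAu hunr qT hqT hqinj hqp hqA u hu pl hpl hφ

/-- **What a level is, first part: the Taylor-Wiles primes.** They are pairwise different primes
`qv i ≡ 1 mod p^(n+1)`, not in `S`, not in `A`, not among the `qT t`, unramified in `ρbar`, and their
Frobenius elements have two different eigenvalues in the residue field, with product 1. (`H53TWL3`.) -/
theorem galois_level_primes {ρbar : ResidualGaloisRep (ResidueField 𝒪)}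
    {b : Module.Basis (Fin 2) (ResidueField 𝒪) ρbar.V} {A : Finset ℕ} {τ : Type} [Fintype τ]
    {qT : τ → ℕ} {pl : ∀ t, PlaceData p (qT t)} {u : τ → 𝒪} {k n : ℕ} {S : Finset ℕ}
    (E : GalLevel p ρbar b A qT pl u k n S) :
    Function.Injective E.qv ∧ ∀ i, (E.qv i).Prime ∧ E.qv i ∉ S ∧ E.qv i ∉ A ∧
      (∀ t, E.qv i ≠ qT t) ∧ E.qv i ≠ p ∧ p ^ (n + 1) ∣ E.qv i - 1 ∧
      ρbar.IsUnramifiedAt (E.qv i) ∧
      ∀ P : ValuationSubring Qb, P.LiesOverPrime (E.qv i) → ∀ φ : GQ,
        P.IsFrobeniusAt φ (E.qv i) → LinearMap.det (ρbar.ρ φ) = 1 ∧ ∃ α β : ResidueField 𝒪,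
          α ≠ β ∧ LinearMap.charpoly (ρbar.ρ φ) = (X - C α) * (X - C β) :=
  ⟨E.inj, fun i => ⟨E.prime i, E.not_mem_S i, E.not_mem_A i, E.ne_qT i, E.ne_p i, E.dvd i,
    E.unram i, E.frob i⟩⟩

/-- **What a level is, second part: the deformation ring.** `E.D.R` is the universal deformation ring
(determinant cyclotomic, flat at `p`, unipotent at `A`, unrestricted at the `qT t` and at the
Taylor-Wiles primes, unramified elsewhere), `E.D.ρ` the universal representation. It is a quotient,
through `E.β`, of the power series ring in `6·#T + k` variables; the six variables at `t` go to the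
entries of the traceless parts of `ρ(σ_t)` (0, 1, 2) and of `ρ(φ_t)` (3, 4, 5), where `σ_t` is a tame
generator and `φ_t` a Frobenius element at `qT t`; they satisfy the relation of tame inertia
`φ σ φ⁻¹ = σ^q`. (The diamond variable of the `i`-th Taylor-Wiles prime goes to `χ_1(σ_i) - 1`, the value of
the first inertia character of the splitting `E.s i` at the tame generator: field `E.φ_X`.) (`H53TWL3`.) -/
theorem galois_level_presentation {ρbar : ResidualGaloisRep (ResidueField 𝒪)}
    {b : Module.Basis (Fin 2) (ResidueField 𝒪) ρbar.V} {A : Finset ℕ} {τ : Type} [Fintype τ]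
    {qT : τ → ℕ} {pl : ∀ t, PlaceData p (qT t)} {u : τ → 𝒪} {k n : ℕ} {S : Finset ℕ}
    (E : GalLevel p ρbar b A qT pl u k n S) :
    Function.Surjective (E.β : MvPowerSeries ((τ × Fin 6) ⊕ Fin k) 𝒪 → E.D.R) ∧
    (∀ t, 2 * E.β (MvPowerSeries.X (Sum.inl (t, 0))) =
      toMat E.D.ρ.ρ E.b₁ (pl t).σ 0 0 - toMat E.D.ρ.ρ E.b₁ (pl t).σ 1 1) ∧
    (∀ t, E.β (MvPowerSeries.X (Sum.inl (t, 1))) = toMat E.D.ρ.ρ E.b₁ (pl t).σ 0 1) ∧
    (∀ t, E.β (MvPowerSeries.X (Sum.inl (t, 2))) = toMat E.D.ρ.ρ E.b₁ (pl t).σ 1 0) ∧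
    (∀ t, 2 * E.β (MvPowerSeries.X (Sum.inl (t, 3))) =
      toMat E.D.ρ.ρ E.b₁ (pl t).φ 0 0 - toMat E.D.ρ.ρ E.b₁ (pl t).φ 1 1) ∧
    (∀ t, E.β (MvPowerSeries.X (Sum.inl (t, 4))) = toMat E.D.ρ.ρ E.b₁ (pl t).φ 0 1) ∧
    (∀ t, E.β (MvPowerSeries.X (Sum.inl (t, 5))) = toMat E.D.ρ.ρ E.b₁ (pl t).φ 1 0) ∧
    ∀ t, toMat E.D.ρ.ρ E.b₁ (pl t).φ * toMat E.D.ρ.ρ E.b₁ (pl t).σ =
      toMat E.D.ρ.ρ E.b₁ (pl t).σ ^ qT t * toMat E.D.ρ.ρ E.b₁ (pl t).φ :=
  ⟨E.β_surj, E.hX0, E.hX1, E.hX2, E.hX3, E.hX4, E.hX5, E.tame⟩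

end GaloisSide

/-! ### 3. The Hecke side of a level -/

/-- **The Hecke side of a level.** `W[p]`, `p ≥ 5`, as in LL; `O ⊃ ζ` a coefficient ring as above.
Suppose that `W[p]` is modular of level `M` but *not* of level `M / t₀`. Then for every `k` there is a
bound `D` such that every Galois level (section 2, for the representation `W[p] ⊗ ResidueField O`; `n`
arbitrary) can be completed to a full level `TWLevel` (`full_level_module`) of rank at most `D`. The
module is the summand at the residual eigensystem of `W[p]` of `H¹(Γ₀(M·N), Λ(ψ²))` with the operators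
`ψ(ℓ)⁻¹ T_ℓ`, where `N` is the product of the Taylor-Wiles primes, `Λ` the group ring of the diamond
operators, and `ψ` the product of a character of order `p` at *every* `t ∈ T` and of the universal
`p`-power characters at the Taylor-Wiles primes. (`H45.HasTv`: two transvections as in `Levels.LL`;
`H59.ResHyp`: the hypotheses on `A` and `T` of `Levels.LL`; `H59.CoeffChoice`: the list of
`exists_coefficient_ring`; `H55.ntRoots O p m`: the nontrivial `p^m`-th roots of unity.) Inputs: S29, S32,
S34, and facts on eigenclasses with character (`H4.geomInputs`; see `GuideEigen`). (`H59LL6`, `H70Lev11`.) -/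
theorem exists_hecke_level (W : WeierstrassCurve ℤ) (hΔ : W.Δ ≠ 0) {p : ℕ} [Fact p.Prime]
    (h5 : 5 ≤ p) (hTv : H45.HasTv (resZ W hΔ p).ρ)
    {M : ℕ} (hM : Squarefree M) (hpM : ¬ p ∣ M) (hmod : W.IsResiduallyModularOfLevel p M)
    {A T : Finset ℕ} (H : H59.ResHyp W hΔ p A T)
    (hAT : ∀ q : ℕ, q.Prime → (q ∣ M ↔ q ∈ A ∨ q ∈ T)) (t₀ : {t : ℕ // t ∈ T})
    (hnot : ¬ W.IsResiduallyModularOfLevel p (M / t₀.1))
    (S₀ : Finset ℕ) (hpS₀ : p ∈ S₀) (hMS₀ : ∀ q : ℕ, q.Prime → q ∣ M → q ∈ S₀)
    (hWS₀ : ∀ q : ℕ, q.Prime → q ∉ S₀ → W.IsGoodPrimeFor q)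
    (O : Type) [CommRing O] [IsDomain O] [IsDiscreteValuationRing O]
    [IsAdicComplete (maximalIdeal O) O] [CharZero O] [Finite (ResidueField O)]
    [CharP (ResidueField O) p] [Algebra (ZMod p) (ResidueField O)] (ϖ : O) (a : ℕ) (ζ : O)
    (hO : H59.CoeffChoice p T O ϖ a ζ)
    (b : Module.Basis (Fin 2) (ResidueField O) ((resZ W hΔ p).baseChange (ResidueField O)).V)
    (pl : ∀ t : {t : ℕ // t ∈ T}, H53.PlaceData p t.1) (u : {t : ℕ // t ∈ T} → O)
    (hu : ∀ t, u t ^ 2 = 1)
    (hφ : ∀ t, H53.toMat ((resZ W hΔ p).baseChange (ResidueField O)).ρ b (pl t).φ =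
      residue O (u t) • (1 : H53.M2 (ResidueField O))) (k : ℕ) :
    ∃ D : ℕ, ∀ n, H53.GalLevel p ((resZ W hΔ p).baseChange (ResidueField O)) b A
        (fun t : {t : ℕ // t ∈ T} => t.1) pl u k n S₀ →
      Nonempty (H69.EG.TWLevel O ϖ p (3 * Nat.card {t : ℕ // t ∈ T} + k) n D
        (MvPowerSeries (({t : ℕ // t ∈ T} × Fin 6) ⊕ Fin k) O)
        (fun t i => MvPowerSeries.X (Sum.inl (t, i))) (fun t : {t : ℕ // t ∈ T} => t.1) u
        (fun t => H55.ntRoots O p (padicValNat p (t.1 - 1))) t₀) :=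
  H59.inner h5 hTv S29.result S32.result S34.result (H4.geomInputs Fact.out) hM hpM hmod H hAT t₀
    hnot S₀ hpS₀ hMS₀ hWS₀ O ϖ a ζ hO b pl u hu hφ k

section Twist

/-! Notation of the library (`H70HeckeAbs`, `H70HeckeConc`, `H70Psi`): `gam N M h : Γ₀(M) →* DN N` for
`N ∣ M`, where `DN N` is the monoid of integral matrices `(a b; c d)` with positive determinant, `N ∣ c` and
`a` prime to `N`; `psiRep ψ W` is the module `W` on which such a matrix acts by `ψ(a)`, for a character `ψ` of
`(ℤ/N)ˣ`; `H1 (gam N M h) ρ` is the first cohomology of `Γ₀(M)`; `tFam`, `uFam` give the Hecke operators `T_ℓ`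
(`ℓ ∤ M` prime) and `U_n` (`n ∣ M`) on it. -/

open Fermat.Agent.H70.Coh (DN gam H1 psiRep tFam uFam)

/-- **The twist embedding.** `K` a field of characteristic zero, `N` squarefree, `N ∣ M`, no prime
divisor of `N` divides `M` twice, `χ` a character of `(ℤ/N)ˣ` of odd order, `W` a `K`-vector
space. Then `H¹(Γ₀(M), W_{χ²})` embeds in `H¹(Γ₀(M N), W)` with trivial character, in such a way
that `E (T_ℓ x) = χ(ℓ) T_ℓ (E x)` and `E (U_n x) = χ(n) U_n (E x)` for `ℓ`, `n` prime to `N`
("twisting a form with character `χ²` by `χ⁻¹`"). No modular forms with character are used.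
Proved in `H21JIter` (with `H21JBase` to `H21JCrt`; steps in `GuideTwistEmbedding`); used in `H70Lev2`,
`H65TQ2`, `H4EA`. -/
theorem twist_embedding {K : Type*} [Field K] [CharZero K] {W : Type*} [AddCommGroup W]
    [Module K W] {N M L : ℕ} (hsq : Squarefree N) (hM0 : 0 < M)
    (hex : ∀ q : ℕ, q.Prime → q ∣ N → ¬ q * q ∣ M) (hM : N ∣ M) (hL : L = M * N)
    (χ : (ZMod N)ˣ →* Kˣ) {m : ℕ} (hm : Odd m) (hχ : χ ^ m = 1) :
    ∃ E : H1 (gam N M hM) (psiRep (χ ^ 2) W) →ₗ[K]
        H1 (gam 1 L (one_dvd L)) (psiRep (1 : (ZMod 1)ˣ →* Kˣ) W),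
      Function.Injective E ∧
      (∀ {ℓ : ℕ} (hℓ : ℓ.Prime) (hℓM : ¬ ℓ ∣ M) (hℓL : ¬ ℓ ∣ L) (hc : ℓ.Coprime N)
        (x : H1 (gam N M hM) (psiRep (χ ^ 2) W)),
        E ((tFam hM hℓ hℓM).opH (psiRep (χ ^ 2) W) x) =
          ((χ (ZMod.unitOfCoprime ℓ hc) : Kˣ) : K) •
            (tFam (one_dvd L) hℓ hℓL).opH (psiRep 1 W) (E x)) ∧
      ∀ {n : ℕ} (hn : 0 < n) (hnM : n ∣ M) (hnL : n ∣ L) (hc : n.Coprime N)
        (x : H1 (gam N M hM) (psiRep (χ ^ 2) W)),
        E ((uFam hM hn hnM).opH (psiRep (χ ^ 2) W) x) =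
          ((χ (ZMod.unitOfCoprime n hc) : Kˣ) : K) •
            (uFam (one_dvd L) hn hnL).opH (psiRep 1 W) (E x) := by
  obtain ⟨E, hE⟩ := H21J.exists_twist_embedding (W := W) hsq hM0 hex hM hL χ hm hχ
  exact ⟨E, hE.inj, hE.T, hE.U⟩

/-- **Relations descend.** If a polynomial `P` in the `T_ℓ` (`ℓ` prime, `ℓ ∉ S`) vanishes on
`S₂(Γ₀(L))`, it vanishes on `S₂(Γ₀(L'))` for every `L' ∣ L` (`H59.evHA` = evaluation of `P` in the
Hecke algebra). Together with the twist embedding this makes one Hecke algebra of trivial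
character, at the top level, act on all cohomology groups with character of the Taylor-Wiles
method (`H21M.exists_hecke_act_desc`). Proved in `H21MDesc`. -/
theorem relation_descends {L' L : ℕ} [NeZero L'] [NeZero L] (hLL : L' ∣ L) {S : Set ℕ}
    (hSL : ∀ ℓ : ℕ, ℓ.Prime → ℓ ∣ L → ℓ ∈ S) (hSL' : ∀ ℓ : ℕ, ℓ.Prime → ℓ ∣ L' → ℓ ∈ S)
    {P : MvPolynomial {ℓ : ℕ // ℓ.Prime ∧ ℓ ∉ S} ℤ}
    (hP : H59.evHA hSL P = 0) : H59.evHA hSL' P = 0 :=
  H21M.evHA_desc hLL hSL hSL' hP

end Twist

/-- **The norm trick.** An `O`-module `M` (`O` local with finite residue field of characteristic `p`)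
carries two actions `Ψ`, `ψ` of a finite `p`-group `Δ` with the same norm `∑ Ψ g = ∑ ψ g`. If it is free
over `O[Δ]` for `Ψ`, then also for `ψ`, with the same generators. Used to pass from the diamond
operators on cohomology (for which freeness is easy) to the ones coming from the deformation ring,
without local-global compatibility (`H59Norm`). -/
theorem norm_trick {O : Type} [CommRing O] [IsLocalRing O] [Finite (ResidueField O)] {p : ℕ}
    [Fact p.Prime] [CharP (ResidueField O) p] {Δ : Type} [Group Δ] [Fintype Δ] {M : Type}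
    [AddCommGroup M] [Module O M] (hΔ : IsPGroup p Δ) (Ψ ψ : Δ →* Module.End O M) {d : ℕ}
    (b : Module.Basis (Fin d × Δ) O M) (hb : ∀ i g, b (i, g) = Ψ g (b (i, 1)))
    (hN : ∀ x : M, ∑ g, Ψ g x = ∑ g, ψ g x) :
    ∃ b' : Module.Basis (Fin d × Δ) O M, ∀ i g, b' (i, g) = ψ g (b (i, 1)) :=
  H59.exists_basis_of_norm hΔ Ψ ψ b hb hN

section Patching

open Fermat.Agent.H69.EG

attribute [local instance] TWLevel.instCommRing TWLevel.instLocal TWLevel.instAlgebra
attribute [local instance] TWLevel.instAddCommGroup TWLevel.instModule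

/-- **What a full level is.** `L.R` is the deformation ring, a quotient of the power series ring `B`
through `L.β`; `L.Sg t`, `L.Ph t` are the matrices of a tame generator and of a Frobenius element at
`q t`; the traceless parts of their entries are the images of the variables `X t 0, …, X t 5`. `L.M` is a
module over it with the following properties. (a) Through `L.φ` (diamond operators) it is free of rank
`d`, `0 < d ≤ D`, over `O⟦X_1, …, X_r⟧ / ((1 + X_j)^(p^e_j) - 1)`, all `e_j ≥ n`. (b) `∏ (tr σ_t - ζ - ζ⁻¹)`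
kills it, the product over the nontrivial roots of unity `ζ ∈ Z t`: the eigenforms in it have a nontrivial
character of `p`-power order at `q t`. (c) `(tr φ)² - (q t₀ + 1)²` maps it into `ϖ L.M`: modulo `ϖ` the
character disappears, and since `W[p]` is not modular of level `M / t₀` everything is new at `t₀`.
(`H69NoPatch`.) -/
theorem full_level_module {O : Type} [CommRing O] [IsLocalRing O] {ϖ : O} {p r n D : ℕ} {T : Type}
    {B : Type} [CommRing B] [Algebra O B] {X : T → Fin 6 → B} {q : T → ℕ} {v : T → O}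
    {Z : T → Finset Oˣ} {t₀ : T} (L : TWLevel O ϖ p r n D B X q v Z t₀) :
    Function.Surjective L.β ∧ (∀ t, (L.Sg t).det = 1 ∧ (L.Ph t).det = (q t : L.R)) ∧
    (∀ t, L.Ph t * L.Sg t = L.Sg t ^ q t * L.Ph t) ∧
    (∀ t, 2 * L.β (X t 0) = L.Sg t 0 0 - L.Sg t 1 1 ∧ L.β (X t 1) = L.Sg t 0 1 ∧
      L.β (X t 2) = L.Sg t 1 0 ∧ 2 * L.β (X t 3) = L.Ph t 0 0 - L.Ph t 1 1 ∧
      L.β (X t 4) = L.Ph t 0 1 ∧ L.β (X t 5) = L.Ph t 1 0) ∧
    0 < L.d ∧ L.d ≤ D ∧ (∀ j, n ≤ L.e j) ∧
    (∀ x : L.M, ∃ c : Fin L.d → MvPowerSeries (Fin r) O, x = ∑ i, L.φ (c i) • L.b i) ∧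
    (∀ c : Fin L.d → MvPowerSeries (Fin r) O, ∑ i, L.φ (c i) • L.b i = 0 ↔
      ∀ i, c i ∈ Ideal.span (Set.range fun j : Fin r => (1 + MvPowerSeries.X j) ^ p ^ L.e j - 1)) ∧
    (∀ t (x : L.M), (∏ ζ ∈ Z t, (L.Sg t 0 0 + L.Sg t 1 1 -
      algebraMap O L.R ((ζ : O) + (ζ⁻¹ : Oˣ)))) • x = 0) ∧
    ∀ x : L.M, ∃ y : L.M,
      ((L.Ph t₀ 0 0 + L.Ph t₀ 1 1) ^ 2 - ((q t₀ : L.R) + 1) ^ 2) • x = algebraMap O L.R ϖ • y := by
  refine ⟨L.β_surj, fun t => ⟨?_, ?_⟩, L.tame, fun t => ⟨L.hX0 t, L.hX1 t, L.hX2 t, L.hX3 t, L.hX4 t,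
    L.hX5 t⟩, L.d_pos, L.d_le, L.le_e, L.b_span, L.b_rel, L.prod_smul, L.h_smul⟩
  · rw [Matrix.det_fin_two]; exact L.det_Sg t
  · rw [Matrix.det_fin_two]; exact L.det_Ph t

/-! ### 4. The component with non-trivial characters -/

/-- **The tame relation with a non-trivial character** (`H69Tame`).  In a domain with `2 ≠ 0` let
`Σ = (s + x, y; z, s - x)` have determinant `1` and trace `ζ + ζ⁻¹` with `ζ ≠ ζ⁻¹` and
`ζ ^ (q - 1) = 1`, and let `Φ Σ = Σ ^ q Φ`.  Then `Φ` and `Σ` commute (three equations between the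
entries).  This is why the local deformation ring with non-trivial characters has only one
component. -/
theorem comm_of_tame {A : Type*} [CommRing A] [IsDomain A] (h2 : (2 : A) ≠ 0)
    {x y z a b c s u ζ ζ' : A} {q : ℕ}
    (hq : 1 ≤ q) (h1 : ζ * ζ' = 1) (hne : ζ ≠ ζ') (hpow : ζ ^ (q - 1) = 1)
    (hs : s ^ 2 = 1 + (x ^ 2 + y * z)) (hs2 : 2 * s = ζ + ζ')
    (htame : (!![u + a, b; c, u - a] : Matrix (Fin 2) (Fin 2) A) * !![s + x, y; z, s - x] =
      !![s + x, y; z, s - x] ^ q * !![u + a, b; c, u - a]) :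
    x * b = y * a ∧ x * c = z * a ∧ y * c = z * b :=
  H69.EG.comm_of_tame h2 hq h1 hne hpow hs hs2 htame

/-- **The geometry at the degenerate primes.** At a prime of the support of the limit module one factor of
(b) in `full_level_module` vanishes for every `t`, say the one of `ζ_t`. Write `Σ_t = s_t + N_t` with `N_t`
traceless; since `ζ_t ≠ 1`, `N_t² = κ_t²` with `κ_t = (ζ_t - ζ_t⁻¹) / 2 ≠ 0`, and `N_t` and the traceless
part of `φ_t` are proportional (`comm_of_tame`). This theorem: there is a *prime* ideal `J` of the power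
series ring `B` in `6·#T + k` variables, with `dim B/J ≤ 3·#T + k + 1`, contained in every ideal which
contains these equations; so a component of the support which has this dimension is the whole of `V(J)`.
(Prime: `H57TameAll`; dimension: `H57TameDim`; `H69NoPatchMv`.) -/
theorem chi_component_irreducible {O : Type} [CommRing O] [IsDomain O] [IsDiscreteValuationRing O]
    [IsAdicComplete (maximalIdeal O) O] {ϖ : O} (hϖ : maximalIdeal O = Ideal.span {ϖ})
    (h2 : (2 : O) ≠ 0) (T : Type) [Finite T] (k : ℕ) (κ : T → O) (hκ0 : ∀ t, κ t ≠ 0)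
    (hκ : ∀ t, κ t ∈ maximalIdeal O) :
    ∃ J : Ideal (MvPowerSeries ((T × Fin 6) ⊕ Fin k) O), J.IsPrime ∧
      ringKrullDim (MvPowerSeries ((T × Fin 6) ⊕ Fin k) O ⧸ J) ≤
        ((1 + 3 * Nat.card T + k : ℕ) : WithBot ℕ∞) ∧
      ∀ P : Ideal (MvPowerSeries ((T × Fin 6) ⊕ Fin k) O),
        let x : T → Fin 6 → MvPowerSeries ((T × Fin 6) ⊕ Fin k) O :=
          fun t i => MvPowerSeries.X (Sum.inl (t, i))
        (∀ t, x t 0 ^ 2 + x t 1 * x t 2 - algebraMap O _ (κ t) ^ 2 ∈ P) →
        (∀ t, x t 0 * x t 4 - x t 1 * x t 3 ∈ P) → (∀ t, x t 0 * x t 5 - x t 2 * x t 3 ∈ P) →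
        (∀ t, x t 1 * x t 5 - x t 2 * x t 4 ∈ P) → J ≤ P :=
  domHyp hϖ h2 T k κ hκ0 hκ

/-- **The test prime.** The support of the patched module modulo `ϖ` contains the prime ideal at which
all `N_t` vanish and the traceless part of `φ_{t₀}` is generic: there the element `x₃² + x₄ x₅` (minus the
determinant of this traceless part, a quarter of `(tr φ)² - 4 det φ`) does not vanish. Since
`4 det φ ≡ 4 ≡ (q t₀ + 1)²` modulo `ϖ`, this contradicts property (c) of the levels. (`H69NoPatchMv`.) -/
theorem exists_test_prime {O : Type} [CommRing O] [IsDomain O] [IsDiscreteValuationRing O]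
    [IsAdicComplete (maximalIdeal O) O] (T : Type) [Finite T] (k : ℕ) (t₀ : T) :
    ∃ Q : Ideal (MvPowerSeries ((T × Fin 6) ⊕ Fin k) O), Q.IsPrime ∧
      (∀ a ∈ maximalIdeal O, MvPowerSeries.C a ∈ Q) ∧
      (∀ t, MvPowerSeries.X (Sum.inl (t, 0)) ∈ Q) ∧ (∀ t, MvPowerSeries.X (Sum.inl (t, 1)) ∈ Q) ∧
      (∀ t, MvPowerSeries.X (Sum.inl (t, 2)) ∈ Q) ∧
      MvPowerSeries.X (Sum.inl (t₀, 3)) ^ 2 +
        MvPowerSeries.X (Sum.inl (t₀, 4)) * MvPowerSeries.X (Sum.inl (t₀, 5)) ∉ Q :=
  exists_testPrime T k t₀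

/-! ### 5. Patching and the contradiction -/

/-- **Patching without a ground level** (`H69KFree`; used for S43 and S38).
`S` (power series in the diamond variables) and `B` (patched deformation ring) are complete
noetherian local rings with finite residue fields.  Level `n` is a `B`-module `N n` which is free
of rank `d` over `S / I n` through a ring homomorphism `φ n : S → B`, with `I n ≤ m_S ^ n`.  Then
there is a limit module `N'` which is free of rank `d` over `S` itself, through some
`φ' : S → B`; the values of `φ n` which do not depend on `n` are kept, and so are the relations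
`f N ⊆ K N` (`K` an ideal of `S`, `f ∈ B`) which hold at all levels.  No module "at level one" and
no comparison with it is needed. -/
theorem patching_without_target {S B : Type} [CommRing S] [CommRing B]
    [IsLocalRing S] [IsNoetherianRing S] [IsAdicComplete (maximalIdeal S) S]
    [Finite (ResidueField S)]
    [IsLocalRing B] [IsNoetherianRing B] [IsAdicComplete (maximalIdeal B) B]
    [Finite (ResidueField B)]
    {I : ℕ → Ideal S} (hI : ∀ n, I n ≤ maximalIdeal S ^ n) {d : ℕ}
    (N : ℕ → Type) [∀ n, AddCommGroup (N n)] [∀ n, Module B (N n)]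
    (φ : ℕ → S →+* B) (b : ∀ n, Fin d → N n)
    (hspan : ∀ n (x : N n), ∃ c : Fin d → S, x = ∑ i, φ n (c i) • b n i)
    (hrel : ∀ n (c : Fin d → S), ∑ i, φ n (c i) • b n i = 0 ↔ ∀ i, c i ∈ I n) :
    ∃ (N' : Type) (_ : AddCommGroup N') (_ : Module B N') (φ' : S →+* B) (b' : Fin d → N'),
      (∀ x : N', ∃ c : Fin d → S, x = ∑ i, φ' (c i) • b' i) ∧
      (∀ c : Fin d → S, ∑ i, φ' (c i) • b' i = 0 ↔ ∀ i, c i = 0) ∧
      (∀ s f, (∀ n, φ n s = f) → φ' s = f) ∧
      (∀ (K : Ideal S) (f : B),
        (∀ n (x : N n), f • x ∈ (K.map (φ n) • ⊤ : Submodule B (N n))) →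
        ∀ x : N', f • x ∈ (K.map φ' • ⊤ : Submodule B N')) := by
  obtain ⟨L, h1, h2, -⟩ := H69.KP.exists_free_limit (ι := Unit) (d := fun _ => d) hI
    fun n => ⟨fun _ => N n, φ n, fun _ => b n, fun _ => hspan n, fun _ => hrel n⟩
  exact ⟨L.N (), inferInstance, inferInstance, L.φ, L.b (), L.b_span (),
    fun c => (L.b_rel () c).trans (forall_congr' fun _ => Submodule.mem_bot S), h1, h2 ()⟩

/-- **A large component of the support** (`H69Endgame`).  Let `S` be a noetherian domain and `N` a
module over the noetherian ring `B` with a nonempty finite `S`-basis.  Then there is a prime `P`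
of `B` containing the annihilator of `N`, with `P ∩ S = 0` and `dim S ≤ dim B / P`. -/
theorem exists_large_component {S B : Type} [CommRing S] [CommRing B] [IsDomain S]
    [IsNoetherianRing S] [IsNoetherianRing B] (φ : S →+* B)
    {N : Type} [AddCommGroup N] [Module B N] {d : ℕ} (hd : 0 < d) (b : Fin d → N)
    (hspan : ∀ x : N, ∃ c : Fin d → S, x = ∑ i, φ (c i) • b i)
    (hrel : ∀ c : Fin d → S, ∑ i, φ (c i) • b i = 0 → ∀ i, c i = 0) :
    ∃ P : Ideal B, P.IsPrime ∧ (∀ f : B, (∀ x : N, f • x = 0) → f ∈ P) ∧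
      (∀ s : S, φ s ∈ P → s = 0) ∧ ringKrullDim S ≤ ringKrullDim (B ⧸ P) :=
  H69.EG.exists_prime φ hd b hspan hrel

/-- **The endgame of level lowering by Ihara avoidance** (`H69Endgame`; used for S43 and S38).
`N₁` is the patched module with NON-TRIVIAL tame characters, with an `S`-basis, `S` a noetherian
domain of dimension at least `n`; `h ∈ B` (in the application `(tr Φ)² - (q + 1)²` at the prime to
be removed) maps `N₁` into `K N₁` (`K` generated by the uniformiser).  If `q ⊇ K` is a prime not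
containing `h`, and if every prime `P` of the support of `N₁` with `P ∩ S = 0` contains a prime
`J ≤ q` with `dim B / J ≤ n` (the local deformation ring with non-trivial characters is a domain of
this dimension: "one component"), one gets a contradiction: `J = P` for the large component `P`,
and Cayley-Hamilton gives `h ∈ q`. -/
theorem endgame {S B : Type} [CommRing S] [CommRing B] [IsDomain S] [IsNoetherianRing S]
    [IsNoetherianRing B] (φ : S →+* B)
    {N₁ : Type} [AddCommGroup N₁] [Module B N₁]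
    {d : ℕ} (hd : 0 < d) (b : Fin d → N₁)
    (hspan : ∀ x : N₁, ∃ c : Fin d → S, x = ∑ i, φ (c i) • b i)
    (hrel : ∀ c : Fin d → S, ∑ i, φ (c i) • b i = 0 → ∀ i, c i = 0)
    {n : ℕ} (hn : (n : WithBot ℕ∞) ≤ ringKrullDim S)
    (K : Ideal B) (h : B) (hh : ∀ x : N₁, h • x ∈ (K • ⊤ : Submodule B N₁))
    (q : Ideal B) (hq : q.IsPrime) (hKq : K ≤ q) (hhq : h ∉ q)
    (hJ : ∀ P : Ideal B, P.IsPrime → (∀ f : B, (∀ x : N₁, f • x = 0) → f ∈ P) →
      (∀ s : S, φ s ∈ P → s = 0) →
      ∃ J : Ideal B, J.IsPrime ∧ J ≤ P ∧ J ≤ q ∧ ringKrullDim (B ⧸ J) ≤ n) : False :=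
  H69.EG.endgame' φ hd b hspan hrel hn K h hh q hq hKq hhq hJ

/-- **No patching.** There is no family of full levels, one for every `n`, with a common bound `D` of
the ranks. (Patching gives a module over the power series ring `B`, free over
`O⟦X_1, …, X_r⟧`, `r = 3·#T + k`, whose support contains the set `V(J)` of `chi_component_irreducible`, for
some choice of the `ζ_t ∈ Z t`; `exists_test_prime` contradicts (c) of `full_level_module`: this is
`endgame` applied to the module of `patching_without_target`.) (`H69NoPatch`, `H69NoPatchMv`.) -/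
theorem no_patching {O : Type} [CommRing O] [IsDomain O] [IsDiscreteValuationRing O]
    [IsAdicComplete (maximalIdeal O) O] [Finite (ResidueField O)]
    {ϖ : O} (hϖ : maximalIdeal O = Ideal.span {ϖ}) {p k D : ℕ}
    (hpO : (p : O) ∈ maximalIdeal O) (h2 : IsUnit (2 : O))
    {T : Type} [Finite T]
    {q : T → ℕ} (hq0 : ∀ t, 1 ≤ q t) (hq : ∀ t, (q t : O) - 1 ∈ maximalIdeal O)
    {v : T → O} (hv : ∀ t, v t ^ 2 - 1 ∈ maximalIdeal O)
    {Z : T → Finset Oˣ} (hZ1 : ∀ t, ∀ ζ ∈ Z t, ζ ≠ 1) (hZ2 : ∀ t, ∀ ζ ∈ Z t, ζ ^ (q t - 1) = 1)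
    (hZ3 : ∀ t, ∀ ζ ∈ Z t, (ζ : O) - 1 ∈ maximalIdeal O) {t₀ : T}
    (L : ∀ n, Nonempty (TWLevel O ϖ p (3 * Nat.card T + k) n D
      (MvPowerSeries ((T × Fin 6) ⊕ Fin k) O) (fun t i => MvPowerSeries.X (Sum.inl (t, i)))
      q v Z t₀)) : False :=
  no_patching_mv hϖ hpO h2 hq0 hq hv hZ1 hZ2 hZ3 L

/-! ### 6. The variant with marks at `p` (S38) -/

/-- **A level over a quotient of the deformation ring** (`H69C1`).  If a proper ideal `I` of the
deformation ring `L.R` kills the module of the level `L`, and `β'` is a presentation of `L.R / I` whose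
variables `X' t j` have the same images as the `X t j`, then there is a level with `B'` instead of `B`. -/
theorem level_over_quotient {O : Type} [CommRing O] [IsLocalRing O] {ϖ : O}
    {p r n D : ℕ} {T B B' : Type} [CommRing B] [Algebra O B] [CommRing B'] [Algebra O B']
    {X : T → Fin 6 → B} {X' : T → Fin 6 → B'} {q : T → ℕ} {v : T → O} {Z : T → Finset Oˣ} {t₀ : T}
    (L : TWLevel O ϖ p r n D B X q v Z t₀) (I : Ideal L.R) (hI : I ≤ maximalIdeal L.R)
    (hIM : ∀ a ∈ I, ∀ x : L.M, a • x = 0)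
    (β' : B' →ₐ[O] L.R ⧸ I) (hβ' : Function.Surjective β')
    (hX : ∀ t j, β' (X' t j) = Ideal.Quotient.mk I (L.β (X t j))) :
    Nonempty (TWLevel O ϖ p r n D B' X' q v Z t₀) :=
  H69C.nonempty_twQuot L I hI hIM β' hβ' hX

/-- **No patching, with marks which kill the modules** (`H69C1`).  Used for S38 if `p ∣ M`, `W` is
multiplicative at `p`, `W[p]` is trivial at the test element of inertia and not modular of level
`M / p`.  Here the deformation condition at `p` ("ordinary") is presented by three variables (marks)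
`t = X (…, 0)`, `y = X (…, 1)`, `z = X (…, 2)` for every `e : ε'` (one element in the application) with one
relation, and the count of cocycles asks for `#ε'` more Taylor-Wiles primes: `r = 3 #T + #ε' + k`.
Since all forms in question are new at `p`, the marks `t` and `z` kill the module of every level
(hypothesis on `L n`).  So one can divide the deformation rings by them (`level_over_quotient`); the
relation disappears, `y` becomes a free variable, and `no_patching` applies with `#ε' + k` instead of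
`k`.  (The index type `ι` of the marks of raising steps is empty here; it is used for S59.) -/
theorem no_patching_marks {O : Type} [CommRing O] [IsDomain O] [IsDiscreteValuationRing O]
    [IsAdicComplete (maximalIdeal O) O] [Finite (ResidueField O)]
    {ϖ : O} (hϖ : maximalIdeal O = Ideal.span {ϖ}) {p r k D : ℕ}
    (hpO : (p : O) ∈ maximalIdeal O) (h2 : IsUnit (2 : O))
    {T ι ε' : Type} [Finite T] [IsEmpty ι] [Finite ε']
    (hr : r = 3 * Nat.card T + Nat.card (ι ⊕ ε') + k)
    {q : T → ℕ} (hq0 : ∀ t, 1 ≤ q t) (hq : ∀ t, (q t : O) - 1 ∈ maximalIdeal O)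
    {v : T → O} (hv : ∀ t, v t ^ 2 - 1 ∈ maximalIdeal O)
    {Z : T → Finset Oˣ} (hZ1 : ∀ t, ∀ ζ ∈ Z t, ζ ≠ 1) (hZ2 : ∀ t, ∀ ζ ∈ Z t, ζ ^ (q t - 1) = 1)
    (hZ3 : ∀ t, ∀ ζ ∈ Z t, (ζ : O) - 1 ∈ maximalIdeal O) {t₀ : T}
    (L : ∀ n, ∃ L : TWLevel O ϖ p r n D
      (MvPowerSeries (((T × Fin 6) ⊕ ((ι ⊕ ε') × Fin 3)) ⊕ Fin k) O)
      (fun t j => MvPowerSeries.X (Sum.inl (Sum.inl (t, j)))) q v Z t₀,
      (∀ (e : ε') (x : L.M),
        L.β (MvPowerSeries.X (Sum.inl (Sum.inr (Sum.inr e, 0)))) • x = 0) ∧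
      (∀ (e : ε') (x : L.M),
        L.β (MvPowerSeries.X (Sum.inl (Sum.inr (Sum.inr e, 2)))) • x = 0)) : False :=
  H69C.no_patching_marks hϖ hpO h2 hr hq0 hq hv hZ1 hZ2 hZ3 L

end Patching

end Fermat.Agent.Guide.LevelsIhara
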