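import Fermat.Agent.H2Mz
import Fermat.Agent.H89Inst
import Fermat.Agent.H69RedMz
import Fermat.Agent.H8MazurOdd
import Fermat.Agent.S29

/-!
# Level lowering: all the cases that do not need the torsion of a bigger level

* `lower_of_trace`: `q ∤ M`, `W[p]` irreducible and unramified at `q ≠ p`, of level `M q`, and the square
  of the trace of Frobenius at `q` is not `(q + 1)²`: then `W[p]` has level `M`.
* `lower_nonscalar`: Mazur's principle for semistable curves and all odd primes.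
-/

set_option autoImplicit false
set_option linter.style.haveILetI false

noncomputable section

open WeierstrassCurve CuspForm ModularCurve Fermat.Agent.H31 Fermat.Agent.H39 Fermat.Agent.H67
open Fermat.Agent.H35

namespace Fermat.Agent.H2C

local notation "Qb" => AlgebraicClosure ℚ

section trace

variable {p : ℕ} [hp : Fact p.Prime]

/-- Cayley-Hamilton for a Frobenius on `W[p]`. -/
theorem sq_sub_trace {W : WeierstrassCurve ℤ} (hΔ : W.Δ ≠ 0) {q : ℕ} (hq : q.Prime) (hqp : q ≠ p)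
    {A : ValuationSubring Qb} (hA : A.LiesOverPrime q) {φ : Qb ≃ₐ[ℚ] Qb}
    (hφ : A.IsFrobeniusAt φ q) (x : Tor W p) :
    φ • (φ • x) - (LinearMap.trace (ZMod p) _ (WeierstrassCurve.Affine.Point.galoisRepModuleEnd
      (K := AlgebraicClosure ℚ) ℚ (W.map (Int.castRingHom ℚ)) p φ)) • (φ • x) + q • x = 0 := by
  have hp1 : p.Prime := hp.out
  have hW0 : (W.map (Int.castRingHom ℚ)).Δ ≠ 0 := by
    rw [WeierstrassCurve.map_Δ, eq_intCast]
    exact_mod_cast hΔ
  obtain ⟨b⟩ := H87.EC.exists_basis_torsionBy (K := AlgebraicClosure ℚ)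
    (W.map (Int.castRingHom ℚ)) (H87.EC.algebraMap_Δ_ne_zero hW0)
    (n := p) (Nat.cast_ne_zero.mpr hp1.ne_zero)
  have hn : ¬ q ∣ p := fun h => hqp ((Nat.prime_dvd_prime_iff_eq hq hp1).mp h)
  have hr : Nat.card (rootsOfUnity p Qb) = p := HasEnoughRootsOfUnity.natCard_rootsOfUnity Qb p
  have hdet := H39.det_galoisRepModuleEnd_rat (W.map (Int.castRingHom ℚ)) hW0 hr φ
  rw [H62.modularCyclotomicCharacter_frob (S := ℚ) hq hn hA hφ hr] at hdet
  have hr2 : Module.finrank (ZMod p) (Tor W p) = 2 := by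
    rw [Module.finrank_eq_card_basis b]; simp
  have : Module.Finite (ZMod p) (Tor W p) := Module.Finite.of_basis b
  have : Module.Free (ZMod p) (Tor W p) := Module.Free.of_basis b
  have h1 := LinearMap.aeval_self_charpoly (WeierstrassCurve.Affine.Point.galoisRepModuleEnd
      (K := AlgebraicClosure ℚ) ℚ (W.map (Int.castRingHom ℚ)) p φ)
  rw [H32.charpoly_eq_of_basis b, hdet] at h1
  have h2 := LinearMap.congr_fun h1 x
  simp only [map_add, map_sub, map_mul, map_pow, Polynomial.aeval_X, Polynomial.aeval_C] at h2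
  rw [LinearMap.add_apply, LinearMap.sub_apply, pow_two, Module.End.mul_apply,
    Module.End.mul_apply, Module.algebraMap_end_apply, Module.algebraMap_end_apply,
    LinearMap.zero_apply, Nat.cast_smul_eq_nsmul] at h2
  exact h2

/-- A relation `φ² + c φ + q = 0` on the irreducible `W[p]`, `c ∈ ℤ`, gives `trace φ = - c` unless
`φ` is a scalar; in all cases `trace² = c²` if `c = ± (q + 1)`. -/
theorem trace_sq_of_star {W : WeierstrassCurve ℤ} (hΔ : W.Δ ≠ 0)
    (hnt : Nontrivial (Tor W p)) {q : ℕ} (hq : q.Prime) (hqp : q ≠ p)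
    {A : ValuationSubring Qb} (hA : A.LiesOverPrime q) {φ : Qb ≃ₐ[ℚ] Qb}
    (hφ : A.IsFrobeniusAt φ q) {c : ℤ}
    (h : ∀ x : Tor W p, φ • (φ • x) + c • (φ • x) + q • x = 0) :
    LinearMap.trace (ZMod p) _ (WeierstrassCurve.Affine.Point.galoisRepModuleEnd
      (K := AlgebraicClosure ℚ) ℚ (W.map (Int.castRingHom ℚ)) p φ) = -(c : ZMod p) := by
  obtain ⟨x, hx⟩ := exists_ne (0 : Tor W p)
  have h1 := sq_sub_trace hΔ hq hqp hA hφ x
  have h2 := h x
  set t := LinearMap.trace (ZMod p) _ (WeierstrassCurve.Affine.Point.galoisRepModuleEnd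
      (K := AlgebraicClosure ℚ) ℚ (W.map (Int.castRingHom ℚ)) p φ)
  have h3 : (t + (c : ZMod p)) • (φ • x) = 0 := by
    rw [add_smul, Int.cast_smul_eq_zsmul]
    calc t • φ • x + c • φ • x = (φ • (φ • x) + c • (φ • x) + q • x) -
        (φ • (φ • x) - t • (φ • x) + q • x) := by abel
      _ = 0 := by rw [h1, h2, sub_zero]
  rcases smul_eq_zero.mp h3 with h4 | h4
  · exact eq_neg_of_add_eq_zero_left h4
  · exfalso
    apply hx
    have h5 : φ⁻¹ • φ • x = φ⁻¹ • (0 : Tor W p) := by rw [h4]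
    rwa [inv_smul_smul, smul_zero] at h5

/-- **Level lowering by the Steinberg relation**: `W[p]` irreducible, unramified at `q`, and of level
`M q`; if the trace of Frobenius at `q` is not `± (q + 1)` then `W[p]` has level `M`. -/
theorem lower_of_trace {q M : ℕ} [NeZero M] (hp2 : p ≠ 2)
    {W : WeierstrassCurve ℤ} (hΔ : W.Δ ≠ 0) (hirr : W.ModRepIsIrreducible p)
    (hq : q.Prime) (hqp : q ≠ p) (hqM : ¬ q ∣ M)
    {A : ValuationSubring Qb} (hA : A.LiesOverPrime q) {φ : Qb ≃ₐ[ℚ] Qb}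
    (hφ : A.IsFrobeniusAt φ q)
    (htr : LinearMap.trace (ZMod p) _ (WeierstrassCurve.Affine.Point.galoisRepModuleEnd
      (K := AlgebraicClosure ℚ) ℚ (W.map (Int.castRingHom ℚ)) p φ) ^ 2 ≠ ((q : ZMod p) + 1) ^ 2)
    (hmod : W.IsResiduallyModularOfLevel p (M * q)) :
    W.IsResiduallyModularOfLevel p M := by
  have hp1 : p.Prime := hp.out
  haveI : NeZero q := ⟨hq.ne_zero⟩
  haveI : NeZero (M * q) := ⟨mul_ne_zero (NeZero.ne M) hq.ne_zero⟩
  have hc : M.Coprime q := ((Nat.Prime.coprime_iff_not_dvd hq).mpr hqM).symm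
  have hne : p * (M * q) * W.Δ.natAbs ≠ 0 :=
    mul_ne_zero (mul_ne_zero hp1.ne_zero (NeZero.ne (M * q))) (Int.natAbs_ne_zero.mpr hΔ)
  have hpS : p ∈ (p * (M * q) * W.Δ.natAbs).primeFactors :=
    Nat.mem_primeFactors.mpr ⟨hp1, (dvd_mul_right p _).mul_right _, hne⟩
  have hNS : ∀ r : ℕ, r.Prime → r ∣ M * q → r ∈ (p * (M * q) * W.Δ.natAbs).primeFactors :=
    fun r hr h => Nat.mem_primeFactors.mpr ⟨hr, (h.mul_left p).mul_right _, hne⟩
  have hΔS : ∀ r : ℕ, r.Prime → (r : ℤ) ∣ W.Δ → r ∈ (p * (M * q) * W.Δ.natAbs).primeFactors :=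
    fun r hr h => Nat.mem_primeFactors.mpr ⟨hr, (Int.natCast_dvd.mp h).mul_left _, hne⟩
  obtain ⟨f, 𝔪, hf, h𝔪, hp𝔪, hcong⟩ := hmod
  have hcomm := H67.heckeOperatorsCommuteBar (M * q)
  obtain ⟨ι, h1, h2, h3⟩ := exists_embedding_JZero (H31.jzeroInputs (M * q)) hcomm
    (S := (p * (M * q) * W.Δ.natAbs).primeFactors) hp2 hpS hNS hΔ hΔS
    hirr hf h𝔪 hp𝔪 (fun ℓ hℓ hℓS => hcong ℓ hℓ
      (fun h => hℓS (Nat.mem_primeFactors.mpr ⟨hℓ, (Int.natCast_dvd.mp h).mul_left _, hne⟩))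
      (fun h => hℓS (hNS ℓ hℓ h))
      (fun h => hℓS (Nat.mem_primeFactors.mpr
        ⟨hℓ, by rw [h]; exact (dvd_mul_right p _).mul_right _, hne⟩)))
  obtain ⟨ι', ε, hε, h1', h2', hw, h3'⟩ := H2Mz.exists_w_embedding hp2 hirr ι h1 h2
    (wJ M q rfl hc) (wJ_wJ rfl hc) (wJ_galois rfl hc)
    (I := {ℓ : Nat.Primes // (ℓ : ℕ) ∉ (p * (M * q) * W.Δ.natAbs).primeFactors})
    (fun ℓ => heckeOperatorBar (M * q) ℓ.1)
    (fun ℓ x => wJ_hecke rfl hc ℓ.1 ((Nat.Prime.coprime_iff_not_dvd ℓ.1.2).mpr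
      (fun h => ℓ.2 (hNS _ ℓ.1.2 (h.mul_left M)))) x)
    (fun ℓ => W.apOfModel (ℓ.1 : ℕ)) (fun ℓ x => h3 ℓ.1 ℓ.2 x)
  have htor : ∀ x : Tor W p, (p : ℕ) • x = 0 := by
    intro x
    have := x.2
    rw [Submodule.mem_torsionBy_iff] at this
    rw [← natCast_zsmul]
    exact Subtype.ext this
  by_cases hδ : ∀ x, degPush (M := M) (N := M * q) 1 (by simp) (ι' x) = 0
  · exfalso
    have hstar := H89J.starInput' (m := M) hq hqM hp1 (Ne.symm hqp) hc A hA φ hφ
    have key : ∀ x : Tor W p, φ • (φ • x) + (ε * ((q : ℤ) + 1)) • (φ • x) + q • x = 0 := by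
      intro x
      have h5 := hstar (ι' x) ⟨1, by rw [pow_one, ← map_nsmul, htor, map_zero]⟩
        (by rw [hδ, map_zero]) (by rw [hw, map_zsmul, hδ, smul_zero, map_zero])
      apply h1'
      have hzs : ∀ (σ : Qb ≃ₐ[ℚ] Qb) (y : JZero (M * q)) (n : ℤ), σ • (n • y) = n • (σ • y) := by
        intro σ y n
        rw [← DistribSMul.toAddMonoidHom_apply (JZero (M * q)) σ (n • y), map_zsmul,
          DistribSMul.toAddMonoidHom_apply]
      rw [map_add, map_add, map_zsmul, map_nsmul, h2', h2', map_zero]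
      rw [hw, hzs] at h5
      rw [← h2' φ x, hw, h2' φ x] at h5
      rw [← h5, mul_add, mul_one, add_zsmul, mul_comm ε, mul_zsmul, natCast_zsmul]
      abel
    have h6 := trace_sq_of_star hΔ hirr.1 hq hqp hA hφ key
    apply htr
    rw [h6]
    push_cast
    have hε2 : (ε : ZMod p) ^ 2 = 1 := by
      rcases hε with rfl | rfl <;> norm_num
    calc (-((ε : ZMod p) * ((q : ZMod p) + 1))) ^ 2 = (ε : ZMod p) ^ 2 * ((q : ZMod p) + 1) ^ 2 := by
          ring
      _ = _ := by rw [hε2, one_mul]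
  · push Not at hδ
    obtain ⟨x, hx⟩ := hδ
    refine H2Mz.isResiduallyModular_of_eigen (p := p) hpS
      (fun r hr h => hNS r hr (h.mul_right q)) hΔ hΔS hx
      (by rw [← map_nsmul, ← map_nsmul, htor, map_zero, map_zero]) (fun ℓ hℓ => ?_)
    have hℓq : (ℓ : ℕ) ≠ q := fun h => hℓ (hNS ℓ ℓ.2 (h ▸ dvd_mul_left q M))
    have h8 : heckeOperatorBar (M * q) ℓ (ι' x) = W.apOfModel (ℓ : ℕ) • ι' x := h3' ⟨ℓ, hℓ⟩ x
    rw [← degPush_hecke hq (Or.inl rfl) (by simp) ℓ hℓq, h8, map_zsmul]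

/-- The same at a good prime `q`. -/
theorem lower_of_ap {q M : ℕ} [NeZero M] (hp2 : p ≠ 2)
    {W : WeierstrassCurve ℤ} (hΔ : W.Δ ≠ 0) (hirr : W.ModRepIsIrreducible p)
    (hq : q.Prime) (hqp : q ≠ p) (hqM : ¬ q ∣ M) (hg : W.IsGoodPrimeFor q)
    (hap : ((W.apOfModel q : ℤ) : ZMod p) ^ 2 ≠ ((q : ZMod p) + 1) ^ 2)
    (hmod : W.IsResiduallyModularOfLevel p (M * q)) :
    W.IsResiduallyModularOfLevel p M := by
  obtain ⟨A, hA⟩ := H54.exists_liesOverPrime hq
  obtain ⟨φ, hφ⟩ := H54.exists_isFrobeniusAt hq hA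
  refine lower_of_trace hp2 hΔ hirr hq hqp hqM hA hφ ?_ hmod
  rwa [(H2Mz.trace_det_smul (p := p) (W := W) hq hg hqp hA hφ).1]

end trace

section nonscalar

open Fermat.Agent.H87.Glue

variable {W : WeierstrassCurve ℤ} {hΔ : W.Δ ≠ 0} {p : ℕ} [hp : Fact p.Prime]

/-- **Removal of a good prime with `a_s² ≠ (s + 1)²`**. -/
theorem remove_aux {s N : ℕ} (hN : 0 < N) (hp2 : p ≠ 2) (hΔ : W.Δ ≠ 0)
    (hirr : W.ModRepIsIrreducible p) (hs : s.Prime) (hsp : s ≠ p) (hsN : ¬ s ∣ N)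
    (hg : W.IsGoodPrimeFor s)
    (hap : ((W.apOfModel s : ℤ) : ZMod p) ^ 2 ≠ ((s : ZMod p) + 1) ^ 2)
    (h : W.IsResiduallyModularOfLevel p (N * s)) : W.IsResiduallyModularOfLevel p N := by
  haveI : NeZero N := ⟨hN.ne'⟩
  exact lower_of_ap hp2 hΔ hirr hs hsp hsN hg hap h

/-- the auxiliary prime for `p = 3` satisfies `a_s² ≠ (s + 1)²` -/
theorem aux_ap {s : ℕ} (hs3 : s % 3 = 2) (ha : ¬ (3 : ℤ) ∣ W.apOfModel s) :
    ((W.apOfModel s : ℤ) : ZMod 3) ^ 2 ≠ ((s : ZMod 3) + 1) ^ 2 := by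
  have h1 : ((s : ZMod 3) + 1) = 0 := by
    have : ((s + 1 : ℕ) : ZMod 3) = 0 := by
      rw [ZMod.natCast_eq_zero_iff]
      omega
    simpa using this
  rw [h1]
  intro h
  have h2 : ((W.apOfModel s : ℤ) : ZMod 3) = 0 := by
    have h3 : ((W.apOfModel s : ℤ) : ZMod 3) ^ 2 = 0 := by rw [h]; ring
    exact pow_eq_zero_iff (two_ne_zero) |>.mp h3
  exact ha ((ZMod.intCast_zmod_eq_zero_iff_dvd _ 3).mp (by exact_mod_cast h2))

/-- **Mazur's principle, all odd primes, arbitrary level prime to `q`**: `W` semistable with `W[p]`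
irreducible and unramified at `q`, Frobenius at `q` not a scalar `± 1` (or `q ≢ 1`). -/
theorem lower_nonscalar (hp2 : p ≠ 2) (hΔ : W.Δ ≠ 0) (hW : W.IsSemistableModel)
    (hirr : W.ModRepIsIrreducible p) {q M : ℕ} (hq : q.Prime) (hqp : q ≠ p) (hM : 0 < M)
    (hqM : ¬ q ∣ M) (hunr : (resZ W hΔ p).IsUnramifiedAt q)
    (hsc : ¬ H69.Red.ScalarAt W hΔ p q)
    (h : W.IsResiduallyModularOfLevel p (M * q)) : W.IsResiduallyModularOfLevel p M := by
  have hmz : H69.Red.MazurW W hΔ p := H69.Red.mazurW_of_odd H8.mazurOdd hp2 hΔ hirr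
  by_cases h3 : p = 3
  · subst h3
    obtain ⟨s, h1, h2, h3, h4, h5⟩ :=
      H80.Aux.exists_aux_prime W hΔ hW hirr (insert 3 (insert q M.primeFactors))
    rw [Finset.mem_insert, Finset.mem_insert, not_or, not_or, Nat.mem_primeFactors] at h2
    have hsM : ¬ s ∣ M := fun h => h2.2.2 ⟨h1, h, hM.ne'⟩
    have hM' : 0 < M * s := Nat.mul_pos hM h1.pos
    have hqM' : ¬ q ∣ M * s := by
      intro hd
      rcases hq.dvd_mul.mp hd with hd | hd
      · exact hqM hd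
      · exact h2.2.1 ((Nat.prime_dvd_prime_iff_eq hq h1).mp hd).symm
    refine remove_aux hM hp2 hΔ hirr h1 h2.1 hsM h4 (aux_ap h3 h5) ?_
    refine (hmz q (M * s) hq hqp hM' hqM' (fun _ => ⟨s, h1, dvd_mul_left s M, h3⟩) hunr
      ?_).resolve_right hsc
    refine H69.Red.res_of_dvd S29.result hΔ hp.out (Nat.mul_pos hM' hq.pos).ne' ?_ h
    exact ⟨s, by ring⟩
  · exact (hmz q M hq hqp hM hqM (fun h => absurd h h3) hunr h).resolve_right hsc

end nonscalar

end Fermat.Agent.H2C
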