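import Fermat.Agent.H8MazurOdd
import Fermat.Agent.H69RedMz
import Fermat.Agent.H2C38A
import Fermat.Agent.H35LTStep

/-!
# Guide: Mazur's principle (level lowering at a prime `q ≠ p`)

**What is proved.** `W` is an integral Weierstrass equation, `p` odd, `W[p]` irreducible, unramified at the
prime `q ≠ p`, `q ∤ M`, and modular of level `M q`; for `p = 3` let moreover `W` be semistable or let a prime
`s ≡ 2` modulo `3` divide `M`.  Then `W[p]` is modular of level `M`, or `q ≡ 1` modulo `p` and all Frobenius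
elements at `q` act on `W[p]` by one scalar `± 1` (`mazur_principle`, `lower_nonscalar`).
The exceptional case is treated by Ihara avoidance (`GuideLevels`, `GuideLifting`).

**How it is proved.** In the books one uses the Néron model of `J₀(M q)` over `ℤ_q`: component group,
character group of the torus, reduction to `J₀(M)²`.  Here all this is done with functions.  `X₀(N)` is its
function field `FB N`, a field of Laurent series in `q` over `ℚ̄`; `J₀(N)(ℚ̄)` is the group of divisor classes
of degree `0`; a class killed by `d` is represented by a *Kummer function* `u`, `div u = d D`.  `A` is a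
place of `ℚ̄` above `q`, `κ A` its residue field, `w_q` the Atkin-Lehner involution of level `M q`; the Gauss
values of `u` and of `w_q u` are its values on the two components of the fibre of `X₀(M q)` at `q`.  (The
letter `q` is also the variable of the expansions, in `f(q) ↦ f(q^ℓ)`.)
1. `mazurInput_data`: the data used: a map `n` (component group), maps `δ` (reductions on the two
   components), the toric part.
2. `hecke_function_divisor` and the next theorems: the Hecke operator `T_ℓ` on functions.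
3. `exists_gauss_value`, `exists_n`: a function fixed by inertia has Gauss value `q^a`, `a ∈ ℤ`; the map
   `n(x) = b - a` is Eisenstein (`T_ℓ = ℓ + 1` for `ℓ ∤ M q`).
4. `nodeInput_iff`: if `n(x) = 0` the reduction of `u` has all its orders divisible by `d`.  First for levels
   divisible by `4` or `9` (no double point with an extra automorphism), `node_formula_aux`; then for all
   levels if `p ≥ 5`, for even levels if `p = 2` (with a loss), and for levels divisible by a prime `s ≡ 2`
   modulo `3` if `p = 3`.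
5. `exists_lift`, `exists_root_of_reduction`, `relD_iff`: the maps `δ`; `frobenius_toric`: Frobenius on the
   common kernel of the maps `δ`.
6. `mazur_input_odd`, `mazur_input_two`: the geometric input holds.
7. `mazur_principle`, `lower_of_trace`, `lower_nonscalar`: the results; `removal_of_prime`: the abstract
   form, modulo `p^m` and with a loss, used for `p = 2`.

**Files** 2: `H33Laurent`, `H62P1`, `H62P1R`. 3: `H62P4A`, `H46Mz`. 4: `H10_P2a`, `H10_P2d`, `H8Smooth`
(smooth points), `H29Wire1`, `H29Wire2`, `H29Wire3`, `H29Wire4`, `H46MzOdd` (descent to level `M`),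
`H8Kum3`, `H8V3`, `H8Ord3`, `H8Node3`, `H8MazurOdd` (`p = 3`). 5: `H13MzAbs`, `H13MzRed`, `H13MzP3`,
`H35Geo0`, `H35Geo1`, `H35Geo2`, `H89SS8`, `H89SS10`. 6: `H35Geo3`, `H35LTInput`, `H13MzTwo`. 7: `H2Mz`,
`H69Red`, `H69RedMz`, `H59Maz`, `H2C38A`, `H35LTStep`.

**More details** for sections 2 to 7: `GuideLevelsMazurSteps`, `GuideLevelThree` (`p = 3`); on the curve
`X₀(M q)` at `q`: `GuideReduction`, `GuideTwoSheets`, `GuideNodeAnalysis` (the two components and the nodes),
`GuideBadRed` (the glued curve and the toric part).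

**Serves** S38, S43, S59, S60 and what is deduced from them (S03, S04, S06, S45, S46, S50, S01).  S43 uses
`mazur_input_odd`; `lower_of_trace`, `lower_nonscalar` are used for S38 only.  The case `d = 2^m` serves
block LT (`GuideResidual`).

**Notes** Section 3.5 and [222], [76], [241], [156], [132], [178].  Written by helper5, helper36, helper8,
helper62, helper2, helper69, edited by helper5; theorems of helper35, 46, 13, 10, 62, 8, 89, 2, 69.
-/

set_option autoImplicit false
set_option synthInstance.maxHeartbeats 200000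

noncomputable section

namespace Fermat.Agent.Guide.LevelsMazur

open AlgebraicCurve ModularCurve WeierstrassCurve

/- Only to make the file faster to check: prefer the obvious `k`-algebra structure on a subfield of
`k((q))`. -/
attribute [-instance] IsLocalRing.ResidueField.algebra
attribute [local instance 5000] SubalgebraClass.toAlgebra

/-- The field of algebraic numbers. -/
local notation "Qb" => AlgebraicClosure ℚ

/-- The absolute Galois group of `ℚ`. -/
local notation "GQ" => (AlgebraicClosure ℚ ≃ₐ[ℚ] AlgebraicClosure ℚ)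

/-- The residue field of a place `A` of `ℚ̄`. -/
local notation "κ" => IsLocalRing.ResidueField

/-- The function field of `X₀(N)` over an arbitrary field `k` (`FC k N`): the subfield of `k((q))`
generated by the expansions of the `j(q^d)`, `d ∣ N`. -/
local notation "FC" => modularFunctionFieldFullC

/-- The function field of `X₀(N)` over `ℚ̄` (a subfield of the field of Laurent series). -/
local notation "FB" => Fermat.Agent.H67.FB (AlgebraicClosure ℚ)

/-- The residual representation on `W[p]`, over the field with `p` elements. -/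
local notation "resZ" => Fermat.Agent.H87.Glue.resZ

/-! ### 1. What is used from the geometry -/

/-- `fixTors A d J`: the elements of `J` killed by `d` and fixed by the inertia group of the place
`A` of `ℚ̄`.  Here `J = J₀(M q)(ℚ̄)`, `A` above `q`. -/
theorem mem_fixTors {A : ValuationSubring Qb} {d : ℕ} {J : Type*} [AddCommGroup J]
    [DistribMulAction GQ J] {x : J} :
    x ∈ H35.fixTors A d J ↔ d • x = 0 ∧ ∀ σ ∈ A.inertiaSubgroupIn ℚ, σ • x = x :=
  Iff.rfl

/-- **What the geometric input of Mazur's principle is**: `MazurInput d c q M` (`q ∤ M`, `d` prime to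
`q`; `c` is a loss, `c = 1` for `p` odd, and `c = 2^r` with `r` independent of `m`, in fact `c = 2`, for
`d = 2^m`) provides, for every place `A` above `q` and every Frobenius element `φ` at `A`: a homomorphism
`n` on the inertia invariant `d`-torsion of `J₀(M q)` (in classical terms: to the group of components), on
which `T_ℓ` acts as `ℓ + 1`; on the kernel of `n` two homomorphisms `δ false`, `δ true` to `J₀(M)` (the
reductions on the two components), compatible with `T_ℓ` (always `ℓ ∤ M q`); and on the common kernel of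
these (the toric part) `φ = -q w_q`, after multiplication by `c`. Defined in `H35LTInput`. -/
theorem mazurInput_data {d c q M : ℕ} [NeZero M] [NeZero (M * q)] [NeZero q]
    (h : H35.MazurInput d c q M) (hc : M.Coprime q) {A : ValuationSubring Qb}
    (hA : A.LiesOverPrime q) {φ : GQ} (hφ : A.IsFrobeniusAt φ q) :
    ∃ (n : H35.fixTors A d (JZero (M * q)) →+ ZMod d) (δ : Bool → n.ker →+ JZero M),
      (∀ ℓ : Nat.Primes, ¬ (ℓ : ℕ) ∣ M * q → ∀ x x' : H35.fixTors A d (JZero (M * q)),
        (x' : JZero (M * q)) = heckeOperatorBar (M * q) ℓ x → n x' = ((ℓ : ℕ) + 1 : ZMod d) * n x) ∧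
      (∀ (i : Bool) (ℓ : Nat.Primes), ¬ (ℓ : ℕ) ∣ M * q → ∀ x x' : n.ker,
        ((x' : H35.fixTors A d (JZero (M * q))) : JZero (M * q)) =
          heckeOperatorBar (M * q) ℓ (x : H35.fixTors A d (JZero (M * q))) →
          δ i x' = heckeOperatorBar M ℓ (δ i x)) ∧
      ∀ x : n.ker, (∀ i, δ i x = 0) →
        φ • (c • ((x : H35.fixTors A d (JZero (M * q))) : JZero (M * q))) +
          q • H67.wJ M q rfl hc (c • ((x : H35.fixTors A d (JZero (M * q))) : JZero (M * q))) = 0 := by
  let := heckeModuleBar (M * q)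
  let := heckeModuleBar M
  have D := (h hc A hA φ hφ).some
  exact ⟨D.n, D.δ, fun ℓ hℓ x x' hx => D.n_hecke ℓ hℓ x x' (hx.trans
    (heckeModuleBar_heckeGen_smul (H67.heckeOperatorsCommuteBar (M * q)) ℓ _).symm),
    fun i ℓ hℓ x x' hx => (D.δ_hecke i ℓ hℓ x x' (hx.trans
      (heckeModuleBar_heckeGen_smul (H67.heckeOperatorsCommuteBar (M * q)) ℓ _).symm)).trans
      (heckeModuleBar_heckeGen_smul (H67.heckeOperatorsCommuteBar M) ℓ _), D.ker⟩

/-! ### 2. Kummer functions and Hecke operators on functions -/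

/-- **Kummer functions** of inertia invariant classes.  `IsU A d N u`: the function `u ≠ 0` on `X₀(N)`
is fixed by the inertia group of `A`, and all its orders are divisible by `d`.  `Cls d N u x`: `x` is
the class of `(1/d) div u` in `J₀(N)`.  Defined in `H35Geo0`. -/
theorem isU_cls_iff (A : ValuationSubring Qb) (d N : ℕ) [NeZero N] (u : FB N) (x : JZero N) :
    (H35.Geo.IsU A d N u ↔ u ≠ 0 ∧ (∀ σ ∈ A.inertiaSubgroupIn ℚ,
      arithmeticGalois (modularFunctionFieldFull N) σ • u = u) ∧
      ∀ v : Place Qb (FB N), (d : ℤ) ∣ v.ord u) ∧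
    (H35.Geo.Cls d N u x ↔ ∃ D : Divisor.degZero (K := Qb) (F := FB N), Pic0.mk D = x ∧
      ∀ v : Place Qb (FB N), v.ord u = d * (D : Divisor Qb (FB N)) v) :=
  ⟨⟨fun h => ⟨h.ne, h.fix, h.div⟩, fun h => ⟨h.1, h.2.1, h.2.2⟩⟩, Iff.rfl⟩

/-- **The Hecke operator `T_ℓ` on functions** (definition): `H62.hf N ℓ u` is the norm of `β(u)` along
`α`, where `α, β : Q̄(X₀(N)) → Q̄(X₀(Nℓ))` are the two degeneracy embeddings `f(q) ↦ f(q)` and
`f(q) ↦ f(q^ℓ)`. Defined in `H62P1`. -/
theorem hecke_function_def (N ℓ : ℕ) [NeZero N] [NeZero ℓ] (u : FB N) :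
    H62.hf N ℓ u = H60.normAlong (heckeAlphaBar Qb N ℓ) (heckeBetaBar Qb N ℓ u) := rfl

/-- **Divisor of `T_ℓ u`**: if `div u = d D` then `div (T_ℓ u) = d T_ℓ D`, where `T_ℓ D = α_* β^* D`
(`H62.heckeD`). Hence `T_ℓ u` is a Kummer function of `T_ℓ x` if `u` is one of `x`.
Proved in `H62P1`. -/
theorem hecke_function_divisor {N ℓ : ℕ} [NeZero N] [NeZero ℓ] {u : FB N} (hu : u ≠ 0) {d : ℤ}
    {D : Divisor Qb (FB N)} (h : ∀ v : Place Qb (FB N), v.ord u = d * D v)
    (v : Place Qb (FB N)) : v.ord (H62.hf N ℓ u) = d * H62.heckeD N ℓ D v :=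
  H62.ord_hf hu h v

/-- **Expansion of `T_ℓ u`** for a prime `ℓ ∤ N` and a primitive `ℓ`-th root of unity `ζ`: the
expansion of `T_ℓ u` is `u(q^ℓ) P`, where `P` is the Laurent series with
`P(q^ℓ) = u(q) u(ζ q) ⋯ u(ζ^(ℓ-1) q)`. Here `qExpand Q̄ ℓ` is `f(q) ↦ f(q^ℓ)` and `H60.twist z` is
`f(q) ↦ f(z q)`. Proved in `H33Laurent`, `H62P1`. -/
theorem hecke_function_expansion {N ℓ : ℕ} [NeZero N] [NeZero ℓ] [Fact ℓ.Prime] (hℓN : ¬ ℓ ∣ N)
    {ζ : Qbˣ} (hζ : IsPrimitiveRoot ζ ℓ) (u : FB N) :
    ((H62.hf N ℓ u : FB N) : LaurentSeries Qb) =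
        qExpand Qb ℓ (u : LaurentSeries Qb) * H33.normOp ℓ ζ (u : LaurentSeries Qb) ∧
      qExpand Qb ℓ (H33.normOp ℓ ζ (u : LaurentSeries Qb)) =
        ∏ i ∈ Finset.range ℓ, H60.twist (ζ ^ i) (u : LaurentSeries Qb) :=
  ⟨H62.coe_hf hℓN hζ u, H33.qExpand_normOp ℓ hζ _⟩

/-- **`T_ℓ` commutes with the Galois group** (which acts on functions through the coefficients of
their expansions). Proved in `H62P1`. -/
theorem hecke_function_galois {N ℓ : ℕ} [NeZero N] [NeZero ℓ] [Fact ℓ.Prime] (hℓN : ¬ ℓ ∣ N)
    (σ : GQ) (u : FB N) :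
    arithmeticGalois (modularFunctionFieldFull N) σ • H62.hf N ℓ u =
      H62.hf N ℓ (arithmeticGalois (modularFunctionFieldFull N) σ • u) :=
  H62.smul_hf hℓN σ u

/-- **`T_ℓ` commutes with the Atkin-Lehner involution** `w_Q`, `N = B Q` with `B`, `Q` coprime, `ℓ ∤ N`.
(`H67.atkin` is this involution of the function field; `H67.embQbar`, an embedding of `ℚ̄` in `ℂ`, is used
only to construct it.) Proved in `H62P1`. -/
theorem hecke_function_atkinLehner {N ℓ B Q : ℕ} [NeZero N] [NeZero ℓ] [Fact ℓ.Prime]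
    (hN : N = B * Q) (hc : B.Coprime Q) (hℓN : ¬ ℓ ∣ N) (u : FB N) :
    H67.atkin (L := Qb) H67.embQbar B Q hN hc (H62.hf N ℓ u) =
      H62.hf N ℓ (H67.atkin (L := Qb) H67.embQbar B Q hN hc u) :=
  H62.W_hf (H67.isAL_atkin (L := Qb) H67.embQbar B Q hN hc) hN hc hℓN u

/-! ### 3. Gauss values and the map `n` -/

/-- **Gauss values.**  `HasG π f c r` for a Laurent series `f` over `ℚ̄`: `f = c g` where `g` is a
quotient of two series with coefficients in `A` and nonzero reductions, and `r` is the reduction of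
`g`.  So `v(c)` is the Gauss value of `f`, and `r` the reduction of `f / c`. -/
theorem hasG_iff {L : Type*} [Field L] {A : ValuationSubring L} {k : Type*} [Field k] (π : A →+* k)
    (f : LaurentSeries L) (c : L) (r : LaurentSeries k) :
    H97.HasG π f c r ↔ ∃ y z : LaurentSeries A, coeffMap π y ≠ 0 ∧ coeffMap π z ≠ 0 ∧
      f * coeffMap A.subtype z = algebraMap L (LaurentSeries L) c * coeffMap A.subtype y ∧
      r * coeffMap π z = coeffMap π y :=
  Iff.rfl

/-- **Gauss values of inertia invariant functions** are powers of `q`: so `u = q^a g` with `g` a Gauss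
unit.  (The Galois group acts on the coefficients of the expansions.)  Proved in `H62P4A`, `H46Mz`. -/
theorem exists_gauss_value {q : ℕ} (hq : q.Prime) {A : ValuationSubring Qb} (hA : A.LiesOverPrime q)
    (N : ℕ) [NeZero N] (u : FB N) (hu : u ≠ 0)
    (hfix : ∀ σ ∈ A.inertiaSubgroupIn ℚ, arithmeticGalois (modularFunctionFieldFull N) σ • u = u) :
    ∃ (a : ℤ) (r : LaurentSeries (κ A)),
      H97.HasG (IsLocalRing.residue A) (u : LaurentSeries Qb) ((q : Qb) ^ a) r :=
  H46.Mz.valInput hq hA N u hu hfix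

/-- **The map `n`.**  Let `u` be a Kummer function of the inertia invariant class `x` killed by `d`; if
`u` has the Gauss value `q^a` and `w_q u` the Gauss value `q^b` then `n(x) = b - a` modulo `d`: the
difference of the values of `u` on the two components of the fibre at `q` of `X₀(M q)`.  `n` is a
homomorphism, `T_ℓ` acts on it as `ℓ + 1`, and `w_q` as `-1`.  No condition on `q` and `d ≥ 1`.
(`H67.atkin ... hc` is the Atkin-Lehner automorphism `w_q` of the function field.)  Proved in
`H62P4A`, `H46Mz`. -/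
theorem exists_n {q : ℕ} (hq : q.Prime) {A : ValuationSubring Qb} (hA : A.LiesOverPrime q)
    (M : ℕ) [NeZero M] [NeZero (M * q)] {d : ℕ} (hd : d ≠ 0) (hc : M.Coprime q) :
    ∃ n : H35.fixTors A d (JZero (M * q)) →+ ZMod d,
      (∀ (x : H35.fixTors A d (JZero (M * q))) (u : FB (M * q)) (a b : ℤ)
        (r s : LaurentSeries (κ A)),
        H35.Geo.IsU A d (M * q) u → H35.Geo.Cls d (M * q) u (x : JZero (M * q)) →
        H97.HasG (IsLocalRing.residue A) (u : LaurentSeries Qb) ((q : Qb) ^ a) r →
        H97.HasG (IsLocalRing.residue A)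
          ((H67.atkin (L := Qb) H67.embQbar M q rfl hc u : FB (M * q)) : LaurentSeries Qb)
          ((q : Qb) ^ b) s → n x = ((b - a : ℤ) : ZMod d)) ∧
      (∀ ℓ : Nat.Primes, ¬ (ℓ : ℕ) ∣ M * q → ∀ x x' : H35.fixTors A d (JZero (M * q)),
        (x' : JZero (M * q)) = heckeOperatorBar (M * q) ℓ (x : JZero (M * q)) →
        n x' = ((ℓ : ℕ) + 1 : ZMod d) * n x) ∧
      ∀ x x' : H35.fixTors A d (JZero (M * q)),
        (x' : JZero (M * q)) = H67.wJ M q rfl hc (x : JZero (M * q)) → n x' = - n x :=
  H46.Mz.nInput hq hA M hd hc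

/-! ### 4. The node formula -/

/-- **The node formula with loss `c`** (definition).  `u` a Kummer function on `X₀(M q)` fixed by inertia
(`IsU`), with Gauss value `q^a` and reduction `r` on the first component, and `w_q u` with Gauss value
`q^b`, where `d` divides `b - a` (that is, `n = 0`).  Then `d` divides `c` times every order of the function
`r` on the curve `X₀(M)` over the residue field.  Defined in `H35Geo0`. -/
theorem nodeInput_iff {d c q M : ℕ} [NeZero M] [NeZero (M * q)] {A : ValuationSubring Qb}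
    {k : Type} [Field k] {π : A →+* k} :
    H35.Geo.NodeInput d c q M A π ↔
      ∀ hc : M.Coprime q, ∀ u : FB (M * q), H35.Geo.IsU A d (M * q) u →
        ∀ (a b : ℤ) (r s : LaurentSeries k),
          H97.HasG π (u : LaurentSeries Qb) ((q : Qb) ^ a) r →
          H97.HasG π ((H67.atkin (L := Qb) H67.embQbar M q rfl hc u : FB (M * q)) :
            LaurentSeries Qb) ((q : Qb) ^ b) s → (d : ℤ) ∣ b - a →
          ∀ r' : FC k M, (r' : LaurentSeries k) = r → ∀ P : Place k (FC k M), (d : ℤ) ∣ c * P.ord r' :=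
  Iff.rfl

/-- **The node formula without loss** at the levels `m` divisible by `4` or `9`, `q ∤ m`, any `d ≠ 0`.  At
these levels the double points have no automorphisms except `± 1`, so the two components cross with
parameters `z`, `z'`, `z z' = q` times a unit.  Idea: near a double point `u = q^a z^n g^d` up to a unit,
where `n` is the order of `r`; the value on the second component gives `n ≡ ± (b - a)`.  Away from the
double points the fibre is smooth and the residue class of a point is a disc, on which the divisor of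
`u` has degree `≡ 0`; this gives `n ≡ 0`.  Proved in `H10_P2d` (with `H10_P2a`, `H29Wire3`, `H31EqL`). -/
theorem node_formula_aux {m q : ℕ} [NeZero m] [NeZero q] [NeZero (m * q)] (hq : q.Prime) {e : ℕ}
    (he : e = 4 ∨ e = 9) (hem : e ∣ m) (hqm : ¬ q ∣ m) {A : ValuationSubring Qb}
    (hA : A.LiesOverPrime q) {d : ℕ} (hd : d ≠ 0) :
    H35.Geo.NodeInput d 1 q m A (IsLocalRing.residue A) :=
  H10.P2.nodeInput_aux hq he hem hqm hA hd

/-- **The node formula modulo a prime `p ≥ 5`, no loss**: the degree of the level `4 M` or `9 M` over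
the level `M` is made of factors `2` and `3`, which are invertible modulo `p`.
Proved in `H46MzOdd`. -/
theorem node_formula_ge_five {q M p : ℕ} [NeZero M] [NeZero q] [NeZero (M * q)] (hp : p.Prime)
    (hp5 : 5 ≤ p) (hq : q.Prime) (hqM : ¬ q ∣ M) {A : ValuationSubring Qb}
    (hA : A.LiesOverPrime q) : H35.Geo.NodeInput p 1 q M A (IsLocalRing.residue A) :=
  H46.Mz.nodeInput_ge5 H13.Mz.nodeAux hp hp5 hq hqM hA

/-- **The node formula at even levels, loss `2`**, by pulling functions back to level `2 M`: the degree of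
level `2 M` over level `M` is `2` for `2 ∣ M`, so an order divisible by `d` above gives twice the order
divisible by `d` below.  Proved in `H46MzOdd` (with `H29Wire4`). -/
theorem node_formula_two {q M d : ℕ} [NeZero M] [NeZero q] [NeZero (M * q)] (hd : d ≠ 0)
    (hq : q.Prime) (hq2 : q ≠ 2) (h2M : 2 ∣ M) (hqM : ¬ q ∣ M) {A : ValuationSubring Qb}
    (hA : A.LiesOverPrime q) : H35.Geo.NodeInput d 2 q M A (IsLocalRing.residue A) :=
  H46.Mz.nodeInput_two H13.Mz.nodeAux hd hq hq2 h2M hqM hA

/-! For `p = 3` the descent to a level `M` not divisible by `9` needs, over every place, a place with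
ramification index prime to `3`; the next theorems provide it.  `H8.jC k M` is the function `j` on `X₀(M)`
over `k`. -/

/-- **Kummer step.** `F ⊆ F₂` function fields over an algebraically closed field of characteristic
different from 3, `γ ∈ F₂` with `γ³ = a ∈ F`, `a` not a cube in `F`, `[F₂ : F]` not divisible by 9.
Over every place `w` of `F` with `3 ∣ ord_w(a)` there is a place of `F₂` whose ramification index `e`
is prime to 3. Proof: `F(γ) / F` is unramified over `w` and `[F₂ : F(γ)]` is prime to 3.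
Proved in `H8Kum3`. -/
theorem exists_place_of_cube_root {K F F₂ : Type*} [Field K] [IsAlgClosed K] [Field F] [Field F₂]
    [Algebra K F] [Algebra K F₂] [Algebra F F₂] [IsScalarTower K F F₂] [Module.Finite F F₂]
    [H3RR.IsFF K F] (h3 : (3 : K) ≠ 0) {γ : F₂} {a : F} (hγ : γ ^ 3 = algebraMap F F₂ a)
    (ha : a ≠ 0) (hcube : ∀ b : F, b ^ 3 ≠ a) (hdeg : ¬ 9 ∣ Module.finrank F F₂)
    (w : Place K F) (hw : (3 : ℤ) ∣ w.ord a) :
    ∃ w₂ : Place K F₂, ∃ e : ℕ, w₂.restrict F = w ∧ ¬ 3 ∣ e ∧
      ∀ f : F, w₂.ord (algebraMap F F₂ f) = e * w.ord f :=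
  H8.exists_place_three h3 hγ ha hcube hdeg w hw

/-- **`j(3 τ)` is a cube in level `9`, `j` is not a cube.**  For `m` divisible by `9` the series `j(q³)` is
the cube of an element of the function field of `X₀(m)` (Weber's function `γ₂(3 τ)`, a rational function
of the Hauptmodul of `X₀(9)`), in every characteristic different from `3`; but `j` is not a cube in the
function field of `X₀(M)`, since its pole at the cusp `∞` is simple.  Proved in `H8V3`. -/
theorem cube_root_of_j {k : Type*} [Field k] [IsAlgClosed k] (h3 : (3 : k) ≠ 0) {m : ℕ}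
    [NeZero m] (h9 : 9 ∣ m) (M : ℕ) :
    (∃ g : LaurentSeries k, g ∈ FC k m ∧ g ^ 3 = qExpand k 3 (jqModC k)) ∧
      ∀ b : FC k M, b ^ 3 ≠ H8.jC k M :=
  ⟨⟨H8.gam k, H8.gam_mem h3 h9, H8.gam_cube⟩, H8.not_cube_jC⟩

/-- **Ramification of the embedding `f(τ) ↦ f(3 τ)`** of level `M` in level `m = 9 M'`, where `M = M'` or
`M = 3 M'` and `3 ∤ M'`: over a place `P` with `3 ∣ ord_P(j)` there is a place `P'` with ramification
index `e` prime to `3`.  Previous two theorems; the degree `ψ(m) / ψ(M)` is `12` or `3`.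
Proved in `H8V3`. -/
theorem exists_place_level_nine {k : Type*} [Field k] [IsAlgClosed k] {M m M' : ℕ} [NeZero M]
    [NeZero m] (h3k : (3 : k) ≠ 0) (h3 : ¬ 3 ∣ M') (hM : M = M' ∨ M = 3 * M') (hm : m = 9 * M')
    (hmk : (m : k) ≠ 0) (P : Place k (FC k M)) (hP : (3 : ℤ) ∣ P.ord (H8.jC k M)) :
    ∃ (P' : Place k (FC k m)) (e : ℕ), ¬ 3 ∣ e ∧ ∀ (f : FC k M) (f' : FC k m),
      (f' : LaurentSeries k) = qExpand k 3 (f : LaurentSeries k) → P'.ord f' = e * P.ord f :=
  H8.exists_place_V3 h3k h3 hM hm hmk P hP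

/-- **Orders of `j` in characteristic `q`.**  If a prime `s ≡ 2` modulo `3` divides `M` then `X₀(M)` has no
elliptic points of order `3` (`nuThree M = 0`: the polynomial `x² + x + 1` has no root modulo `M`), and
`3 ∣ ord_Q(j)` at every place `Q` of `X₀(M)` over the algebraically closed field `k` (characteristic prime to
`M`) which is not a pole of `j`.  Idea: in characteristic `0` all zeros of `j` are triple, and the divisor
of `j` is compatible with the reduction of places `r`.  Proved in `H8Ord3`. -/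
theorem three_dvd_ord_j {A : ValuationSubring Qb} {M : ℕ} [NeZero M] {k : Type*} [Field k]
    [IsAlgClosed k] (hM : (M : k) ≠ 0) {s : ℕ} (hs : s.Prime) (hs3 : s % 3 = 2) (hsM : s ∣ M)
    {π : A →+* k} {r : Place Qb (FB M) → Place k (FC k M)} (hr : IsPlaceReductionAlong A π M r)
    (Q : Place k (FC k M)) (hQ : 0 ≤ Q.ord (H8.jC k M)) :
    nuThree M = 0 ∧ (3 : ℤ) ∣ Q.ord (H8.jC k M) :=
  have h := H8.nuThree_eq_zero hs hs3 hsM
  ⟨h, H8.three_dvd_ord_j hM h hr Q hQ⟩

/-- **The node formula modulo `3`, no loss**, if a prime `s ≡ 2` modulo `3` divides `M`, `q ∤ 3 M`.  If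
`9 ∣ M` it is `node_formula_aux`; otherwise pull `u` back to level `9 M'` by `f(τ) ↦ f(3 τ)`, use the
formula there, and divide by the ramification index prime to `3` (`exists_place_level_nine`).  Places over
the cusps are treated directly: they are smooth points of the reduction.  Proved in `H8Node3`,
`H8MazurOdd`. -/
theorem node_formula_three {q M : ℕ} [NeZero M] [NeZero (M * q)] [NeZero q] (hq : q.Prime)
    (hq3 : q ≠ 3) (hqM : ¬ q ∣ M) (hs : ∃ s : ℕ, s.Prime ∧ s % 3 = 2 ∧ s ∣ M)
    {A : ValuationSubring Qb} (hA : A.LiesOverPrime q) :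
    H35.Geo.NodeInput 3 1 q M A (IsLocalRing.residue A) :=
  H8.nodeInput_three_of_aux H13.Mz.nodeAux q M hq hq3 hqM hs A hA

/-! ### 5. The maps `δ` and the toric part -/

/-- **`δ` exists: torsion classes of `X₀(M)` over the residue field lift.**  A function `r` on `X₀(M)`
over the residue field, `q ∤ M`, with all orders divisible by `d`, is, up to a `d`-th power, the
reduction of a function on `X₀(M)` over `ℚ̄` with the same property.  Proved in `H13MzP3`, from
`H13MzAbs` (for any good reduction of function fields) and `H13MzRed` (for `X₀(M)`). -/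
theorem exists_lift {q : ℕ} (hq : q.Prime) {A : ValuationSubring Qb} (hA : A.LiesOverPrime q)
    (M : ℕ) [NeZero M] (hqM : ¬ q ∣ M) {d : ℕ} (hd : d ≠ 0)
    (r : FC (κ A) M) (hr : r ≠ 0) (hdiv : ∀ P : Place (κ A) (FC (κ A) M), (d : ℤ) ∣ P.ord r) :
    ∃ g : FB M, g ≠ 0 ∧ (∀ v : Place Qb (FB M), (d : ℤ) ∣ v.ord g) ∧
      ∃ c : FC (κ A) M, c ≠ 0 ∧
        H33.Red A (IsLocalRing.residue A) (g : LaurentSeries Qb)
          ((r * c ^ d : FC (κ A) M) : LaurentSeries (κ A)) :=
  H13.Mz.liftInput hq hA M hqM hd r hr hdiv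

/-- **`δ` is unique: reduction is injective on the torsion prime to `q`.**  A function on `X₀(M)` over
`ℚ̄`, `q ∤ M d`, with all orders divisible by `d`, whose reduction is a `d`-th power is a `d`-th power.
Proved in `H13MzP3`, from `H13MzAbs` and `H13MzRed`. -/
theorem exists_root_of_reduction {q : ℕ} (hq : q.Prime) {A : ValuationSubring Qb}
    (hA : A.LiesOverPrime q) (M : ℕ) [NeZero M] (hqM : ¬ q ∣ M) {d : ℕ} (hqd : ¬ q ∣ d)
    (g : FB M) (hg : g ≠ 0) (hdiv : ∀ v : Place Qb (FB M), (d : ℤ) ∣ v.ord g)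
    (c : FC (κ A) M) (hred : H33.Red A (IsLocalRing.residue A) (g : LaurentSeries Qb)
      ((c ^ d : FC (κ A) M) : LaurentSeries (κ A))) : ∃ h : FB M, g = h ^ d :=
  H13.Mz.injInput hq hA M hqM hqd g hg hdiv c hred

/-- **The relation between `x` and `δ x`**: `RelD π d d M q x y` says that some inertia invariant Kummer
function `u` of `x` and some Kummer function `g` of `y ∈ J₀(M)` have, up to a `d`-th power `s^d` in
characteristic `q`, the same reduction.  On the kernel of `n` it is the graph of the homomorphism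
`δ false` (`exists_delta` of `GuideLevelsMazurSteps`), and `δ true x = δ false (w_q x)`.
(`H33.Red A π f r`: the reduction of a suitable multiple `c f`, `c ∈ ℚ̄`, is `r ≠ 0`.) -/
theorem relD_iff {A : ValuationSubring Qb} {k : Type} [Field k] (π : A →+* k) (d M q : ℕ)
    [NeZero M] [NeZero (M * q)] (x : JZero (M * q)) (y : JZero M) :
    H35.Geo.RelD π d d M q x y ↔
      ∃ (u : FB (M * q)) (r : FC k M) (g : FB M) (s : FC k M),
        H35.Geo.IsU A d (M * q) u ∧ H35.Geo.Cls d (M * q) u x ∧
        H33.Red A π (u : LaurentSeries Qb) (r : LaurentSeries k) ∧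
        g ≠ 0 ∧ H35.Geo.Cls d M g y ∧ s ≠ 0 ∧
        H33.Red A π (g : LaurentSeries Qb) ((r * s ^ d : FC k M) : LaurentSeries k) :=
  Iff.rfl

/-- **The toric part.**  Let `x` be an inertia invariant class killed by `d`, `q ∤ d`, with a Kummer
function `u` such that the reductions of `u` and of `w_q u` are `d`-th powers (this is the case if
`δ false x = δ true x = 0`).  Then `φ x = - q w_q x` for every Frobenius element `φ` at `A`.  Idea: up to
`d`-th powers, `u` is `1` on both components.  Such a class is described by a `d`-th root of unity `ζ_v`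
for each double point `v` (the ratio of the values on the two components of functions with poles
bounded by `D`, `d D = div u`), and it is `0` if all of them are `1`; `φ` raises them to the power `q`, and
`w_q` inverts them (both permute the points).  Proved in `H35Geo2`, `H89SS8`, `H89SS10`. -/
theorem frobenius_toric {q M d : ℕ} [NeZero M] [NeZero q] [NeZero (M * q)] (hq : q.Prime)
    (hqM : ¬ q ∣ M) (hqd : ¬ q ∣ d) (hc : M.Coprime q) {A : ValuationSubring Qb}
    (hA : A.LiesOverPrime q) {φ : GQ} (hφ : A.IsFrobeniusAt φ q) {x : JZero (M * q)}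
    {u : FB (M * q)} (hu : H35.Geo.IsU A d (M * q) u) (hx : H35.Geo.Cls d (M * q) u x)
    {e e' : FC (κ A) M} (he : e ≠ 0) (he' : e' ≠ 0)
    (h : H33.Red A (IsLocalRing.residue A) (u : LaurentSeries Qb)
      ((e ^ d : FC (κ A) M) : LaurentSeries (κ A)))
    (h' : H33.Red A (IsLocalRing.residue A)
      ((H67.atkin (L := Qb) H67.embQbar M q rfl hc u : FB (M * q)) : LaurentSeries Qb)
      ((e' ^ d : FC (κ A) M) : LaurentSeries (κ A))) :
    φ • x + q • H67.wJ M q rfl hc x = 0 := by
  have : Fact q.Prime := ⟨hq⟩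
  have : CharP (κ A) q := H05.charP_residueField hq hA
  have : IsAlgClosed (κ A) := H18.isAlgClosed_residueField A
  obtain ⟨D⟩ := H89J.nonempty_modTwo hq hqM A hA
  have hdk : (d : κ A) ≠ 0 := by
    rwa [Ne, CharP.cast_eq_zero_iff (κ A) q]
  have key : ∀ {y : JZero (M * q)} {v : FB (M * q)} {f : FC (κ A) M},
      H35.Geo.IsU A d (M * q) v → H35.Geo.Cls d (M * q) v y → f ≠ 0 →
      H33.Red A (IsLocalRing.residue A) (v : LaurentSeries Qb)
        ((f ^ d : FC (κ A) M) : LaurentSeries (κ A)) →
      H35.Geo.RelD (IsLocalRing.residue A) d d M q y 0 := by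
    intro y v f hv hy hf hr
    refine ⟨v, _, 1, f⁻¹, hv, hy, hr, one_ne_zero, ⟨0, rfl, fun w => by simp⟩, inv_ne_zero hf, ?_⟩
    rw [← mul_pow, mul_inv_cancel₀ hf, one_pow]
    exact H33.red_one
  have h1 := H35.Geo.kernel_rel (c := 1) IsLocalRing.residue_surjective (H89Arch.arch' hq hA)
    (H42.funField_res hq hA hqM) hc D (one_mul d).symm hdk (H35.Geo.exists_lift' hq hA)
    (key hu hx he h) (key (hu.atkin hc) (hx.atkin hc) he' h') hφ
  simpa only [one_smul] using h1

/-! ### 6. The geometric input -/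

/-- **The geometric input of Mazur's principle holds for all odd primes `p`** (`d = p`, no loss); if `p = 3`
the level `M` must be divisible by a prime `s ≡ 2` modulo `3`, so that `X₀(M)` has no elliptic points of
order `3`.
Proved in `H46MzOdd`, `H8MazurOdd`. -/
theorem mazur_input_odd (p q M : ℕ) [NeZero M] [NeZero (M * q)] [NeZero q] (hp : p.Prime)
    (hp2 : p ≠ 2) (hq : q.Prime) (hqp : q ≠ p) (hqM : ¬ q ∣ M)
    (h3 : p = 3 → ∃ s : ℕ, s.Prime ∧ s % 3 = 2 ∧ s ∣ M) : H35.MazurInput p 1 q M :=
  H8.mazurOdd p q M hp hp2 hq hqp hqM h3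

/-- **The geometric input for `p = 2`**: modulo `2^m`, with a bounded loss `2^r`, at even levels; used
in block LT (`GuideResidual`).  It follows from `node_formula_two`: `geometric_input_with_loss` of
`GuideLevelsMazurSteps`.  Proved in `H35Geo3`, `H46MzOdd`, `H13MzTwo`. -/
theorem mazur_input_two : ∃ r : ℕ, ∀ (q M m : ℕ) [NeZero M] [NeZero (M * q)] [NeZero q],
    q.Prime → q ≠ 2 → 2 ∣ M → ¬ q ∣ M → H35.MazurInput (2 ^ m) (2 ^ r) q M :=
  H13.Mz.mazurTwo

/-! ### 7. Mazur's principle -/

/-- **Mazur's principle for `W[p]`**, `p` odd: `W[p]` irreducible, unramified at the prime `q ≠ p`,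
`q ∤ M`, and modular of level `M q`.  Then it is modular of level `M`, or `q ≡ 1` modulo `p` and all the
Frobenius elements at `q` act on `W[p]` by one scalar `± 1`.  For `p = 3` the level contains an
auxiliary prime `s ≡ 2` modulo `3`.  (`resZ W hΔ p` is `W[p]` as a residual representation.)  Idea: an
embedding of `W[p]` in `J₀(M q)` with `w_q = ε` lands in the inertia invariant part; `n` vanishes on it
because `a_ℓ ≢ ℓ + 1` for some `ℓ`; if some `δ i` is not zero on it, the level is `M`; otherwise Frobenius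
is the scalar `-q ε`, and `det = q` gives `q ≡ 1`.  Proved in `H2Mz`, `H69RedMz`. -/
theorem mazur_principle {W : WeierstrassCurve ℤ} (hΔ : W.Δ ≠ 0) {p : ℕ} [Fact p.Prime]
    (hp2 : p ≠ 2) (hirr : W.ModRepIsIrreducible p) {q M : ℕ} (hq : q.Prime) (hqp : q ≠ p)
    (hM : 0 < M) (hqM : ¬ q ∣ M) (h3 : p = 3 → ∃ s, s.Prime ∧ s ∣ M ∧ s % 3 = 2)
    (hunr : (resZ W hΔ p).IsUnramifiedAt q) (h : W.IsResiduallyModularOfLevel p (M * q)) :
    W.IsResiduallyModularOfLevel p M ∨
      (p ∣ q - 1 ∧ ∃ u : ℤ, u ^ 2 = 1 ∧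
        ∀ P : ValuationSubring Qb, P.LiesOverPrime q →
          ∀ φ : GQ, P.IsFrobeniusAt φ q →
            (resZ W hΔ p).ρ φ = (u : ZMod p) • 1) :=
  H69.Red.mazurW_of_odd H8.mazurOdd hp2 hΔ hirr q M hq hqp hM hqM h3 hunr h

/-- **Lowering by the Steinberg relation.** Let `W[p]` be irreducible, `p` odd, and modular of level `M q`,
`q ∤ M p`. If a Frobenius element at `q` on `W[p]` has a trace different from `± (q + 1)`, then `W[p]` is
modular of level `M`: in the new part of level `M q` Frobenius satisfies `φ ^ 2 ± (q + 1) φ + q = 0`.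
Proved in `H2C38A`; used to remove the auxiliary prime for `p = 3` in `S38`. -/
theorem lower_of_trace {p : ℕ} [Fact p.Prime] {q M : ℕ} [NeZero M] (hp2 : p ≠ 2)
    {W : WeierstrassCurve ℤ} (hΔ : W.Δ ≠ 0) (hirr : W.ModRepIsIrreducible p)
    (hq : q.Prime) (hqp : q ≠ p) (hqM : ¬ q ∣ M)
    {A : ValuationSubring Qb} (hA : A.LiesOverPrime q)
    {φ : GQ} (hφ : A.IsFrobeniusAt φ q)
    (htr : LinearMap.trace (ZMod p) _ (WeierstrassCurve.Affine.Point.galoisRepModuleEnd
      (K := AlgebraicClosure ℚ) ℚ (W.map (Int.castRingHom ℚ)) p φ) ^ 2 ≠ ((q : ZMod p) + 1) ^ 2)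
    (hmod : W.IsResiduallyModularOfLevel p (M * q)) : W.IsResiduallyModularOfLevel p M :=
  H2C.lower_of_trace hp2 hΔ hirr hq hqp hqM hA hφ htr hmod

/-- **Mazur's principle for all odd `p` and all levels prime to `q`.** Let `W` be semistable, `W[p]`
irreducible, unramified at `q ≠ p` and modular of level `M q`, `q ∤ M`. Assume that it is not true that
`q ≡ 1` modulo `p` and all Frobenius elements at `q` act on `W[p]` by one scalar `± 1`. Then `W[p]` is
modular of level `M`. From `mazurOdd` (two-component reduction of `X₀(M q)` at `q`); for `p = 3` an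
auxiliary prime `s ≡ 2` modulo 3 is added and removed by `lower_of_trace`. Proved in `H2C38A`. -/
theorem lower_nonscalar {p : ℕ} [Fact p.Prime] {W : WeierstrassCurve ℤ} (hp2 : p ≠ 2)
    (hΔ : W.Δ ≠ 0) (hW : W.IsSemistableModel) (hirr : W.ModRepIsIrreducible p) {q M : ℕ}
    (hq : q.Prime) (hqp : q ≠ p) (hM : 0 < M) (hqM : ¬ q ∣ M)
    (hunr : (resZ W hΔ p).IsUnramifiedAt q)
    (hsc : ¬ (p ∣ q - 1 ∧ ∃ u : ℤ, u ^ 2 = 1 ∧
      ∀ P : ValuationSubring Qb, P.LiesOverPrime q →
        ∀ φ : GQ, P.IsFrobeniusAt φ q →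
          (resZ W hΔ p).ρ φ = (u : ZMod p) • 1))
    (h : W.IsResiduallyModularOfLevel p (M * q)) : W.IsResiduallyModularOfLevel p M :=
  H2C.lower_nonscalar hp2 hΔ hW hirr hq hqp hM hqM hunr hsc h

/-- **Removal of the prime `q` from the level** (Mazur's principle, abstract form). `J` and `J₁` are as
in `mazurInput_data`, with commuting Galois and Hecke actions, the Eichler-Shimura relation
(`FrobeniusQuadratic`) and finite torsion fields (`FiniteLevel`), and `D` (`H35.MazurData`) are geometric
data: maps `n`, `δ` with the properties listed in `mazurInput_data`, for `d = p^m` and loss `c = p^r`,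
`r < m`. Let `ρ` be a continuous representation to `2 × 2` matrices over
`ℤ_p` with characteristic polynomials `X² - a_ℓ X + ℓ` of Frobenius, absolutely irreducible modulo `p`
(`hspan`), unramified at `q`, with non-scalar Frobenius at `q` modulo `p`, and not Eisenstein (`hEis`).
If `y ∈ J` has exact order `p^m` and is an eigenvector of `w` and of `T_ℓ` with eigenvalues `a_ℓ`, then
there is such an eigenvector `y'` of the `T_ℓ` in `J₁`, of order at least `p^(m-r)`. Proof: in the group
generated by the Galois orbit of `y` there is a copy of `ρ` modulo `p^m` (`embedding_in_orbit` of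
`GuideResidualSteps`, `quadratic_on_orbit` of `GuideLevelsMazurSteps`); it is fixed by inertia, `n` vanishes
on it (not Eisenstein), and if both `δ` nearly vanished, Frobenius would be a scalar. Proved in `H35LTStep`;
used in `H35LTDown` (block LT). -/
theorem removal_of_prime {p : ℕ} [Fact p.Prime] {J J₁ : Type*} [AddCommGroup J]
    [Module HeckeAlg J] [DistribMulAction GQ J] [SMulCommClass GQ HeckeAlg J] [AddCommGroup J₁]
    [Module HeckeAlg J₁] {m r q R₀ R : ℕ} (hrm : r < m) (hR : R₀ ∣ R)
    {A : ValuationSubring Qb} {φ : GQ} {w : J →+ J} (hw : ∀ (σ : GQ) (x : J), w (σ • x) = σ • w x)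
    (D : H35.MazurData (p ^ m) (p ^ r) q R₀ A φ J J₁ w)
    {S : Finset ℕ} (hpS : p ∈ S) (hRS : ∀ q : ℕ, q.Prime → q ∣ R → q ∈ S)
    (hF : FrobeniusQuadratic (K := ℚ) (L := Qb) R₀ p J) (hlev : H31.FiniteLevel p J)
    {ρ : GQ →* Matrix (Fin 2) (Fin 2) ℤ_[p]} (hρ : H53.MCont ℤ_[p] ρ)
    (hspan : Submodule.span (ZMod p) (Set.range (H53.mapMat PadicInt.toZMod ρ)) = ⊤) (a : ℕ → ℤ)
    (hfrob : ∀ ℓ : ℕ, ℓ.Prime → ℓ ∉ S → ∀ A : ValuationSubring Qb, A.LiesOverPrime ℓ →
      ∀ φ : GQ, A.IsFrobeniusAt φ ℓ →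
        (ρ φ).trace = ((a ℓ : ℤ) : ℤ_[p]) ∧ (ρ φ).det = (ℓ : ℤ_[p]))
    (hunr : ∀ σ ∈ A.inertiaSubgroupIn ℚ, ρ σ = 1)
    (hns : ∀ c : ZMod p, H53.mapMat PadicInt.toZMod ρ φ ≠ c • 1)
    (hEis : ∃ ℓ : ℕ, ℓ.Prime ∧ ℓ ∉ S ∧ ¬ (p : ℤ) ∣ a ℓ - (ℓ + 1))
    {y : J} (hy : p ^ m • y = 0) (hy' : p ^ (m - 1) • y ≠ 0) {ε : ℤ} (hwy : w y = ε • y)
    (hT : ∀ ℓ : Nat.Primes, ¬ (ℓ : ℕ) ∣ R → heckeGen ℓ • y = a ℓ • y) :
    ∃ y' : J₁, p ^ m • y' = 0 ∧ p ^ (m - 1 - r) • y' ≠ 0 ∧
      ∀ ℓ : Nat.Primes, ¬ (ℓ : ℕ) ∣ R → heckeGen ℓ • y' = a ℓ • y' :=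
  H35.exists_removal hrm hR hw D hpS hRS hF hlev hρ hspan a hfrob hunr hns hEis hy hy' hwy hT

end Fermat.Agent.Guide.LevelsMazur
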