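import Fermat.Agent.H13MzTwo
import Fermat.Agent.H29Wire4
import Fermat.Agent.H35LTStep

/-!
# Guide: Mazur's principle, steps: functions, Gauss values, the node formula, the maps `δ`

**What this is.** A companion of `GuideLevelsMazur` (sections 2 to 7 there): the steps between its theorems.
Read that file first.  Notation as there: `X₀(N)` is its function field `FB N` over `ℚ̄`, `A` a place of `ℚ̄`
above the prime `q`, `q ∤ M`, `w_q` the Atkin-Lehner involution of level `M q`.

1. Hecke operators on series and divisors: `hecke_series_def`, `hecke_series_rules`,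
   `hecke_series_coefficients`, `exists_root_of_unity`, `hecke_series_reduction`, `hecke_class`.
2. Gauss values (a series is `c g`, where `g` has a nonzero reduction; `v(c)` is its Gauss value):
   `gauss_rules`, `gauss_unique`, `gauss_congr`, `gauss_operations`.
3. Torsion classes and their Kummer functions: `exists_kummer_function` (an inertia invariant class has an
   inertia invariant function), `class_rules`, `class_of_function`, `class_operators`.
4. The map `n`: for a function `u` fixed by inertia let `q^a`, `q^b` be the Gauss values of `u` and `w_q u`.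
   The number `t = b - a` (`nval_iff`, `nval_exists_unique`) is additive, `w_q` changes its sign
   (`nval_rules`), `T_ℓ` multiplies it by `ℓ + 1` (`nval_hecke`), and `d ∣ t` if `u` is a `d`-th power
   (`nval_power`).  So `t` modulo `d` depends only on the class: this is `exists_n` of `GuideLevelsMazur`.
5. The node formula at the levels `m` divisible by `4` or `9`: `order_of_reduction` (abstract),
   `node_formula_values`, `value_of_gauss`, `node_formula_of_values`.
6. Descent to other levels: `pull_back`, `node_formula_descent`, `places_above`, `place_above_two`,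
   `node_formula_twice` (`p = 2`), `degree_four_nine` (`p ≥ 5`).  For `p = 3` see `GuideLevelThree`.
7. The map `δ` on the kernel of `n`: the relation `RelD` between classes of level `M q` and of level `M`
   (`reduction_iff`, `reductions_of_level`) is additive (`relation_additive`), total on the kernel of
   `n` (`relation_exists`), single valued (`relation_unique`), compatible with `T_ℓ` (`relation_hecke`); so
   it is a homomorphism (`exists_delta`).  Frobenius on its kernel: `congruent_to_one`,
   `frobenius_of_class`.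
8. The geometric input: `data_of_maps`, `geometric_input_with_loss`, `geometric_input` (the node formula is
   all that is needed).
9. A representation inside `J₀(M q)`, modulo `p^m`: `reduction_spans`, `quadratic_on_orbit`.

**Files** 1: `H9LogT`, `H62P1`, `H62P1R`. 2: `H97MdH`, `H62P4A`. 3: `H35Geo0`. 4: `H62P4A`. 5: `H10_P2a`,
`H10_P2d`, `H29Wire3`. 6: `H29Wire1`, `H29Wire2`, `H29Wire4`, `H46MzOdd`. 7: `H35Geo1`, `H35Geo2`,
`H35Geo3`, `H13MzP3`. 8: `H35Geo3`, `H46MzOdd`. 9: `H35LTSpan`, `H35LTRel`.

**Serves** S38, S43, S59, S60 and what is deduced from them (S03, S04, S06, S45, S46, S50, S01); the case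
`p = 2` (`places_above`, `place_above_two`, `node_formula_twice`, second half of `geometric_input_with_loss`)
and section 9 not S43.

**Notes** Section 3.5 and [241], [156], [220].  Written by helper5; theorems of helper62, helper97, helper35,
helper10, helper29, helper46, helper13, helper9.
-/

set_option autoImplicit false
set_option synthInstance.maxHeartbeats 200000

noncomputable section

namespace Fermat.Agent.Guide.LevelsMazurSteps

open AlgebraicCurve ModularCurve

/- Only to make the file faster to check: prefer the obvious `k`-algebra structure on a subfield of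
`k((q))`. -/
attribute [-instance] IsLocalRing.ResidueField.algebra
attribute [local instance 5000] SubalgebraClass.toAlgebra

/-- The field of algebraic numbers. -/
local notation "Qb" => AlgebraicClosure ℚ

/-- The absolute Galois group of `ℚ`. -/
local notation "GQ" => (AlgebraicClosure ℚ ≃ₐ[ℚ] AlgebraicClosure ℚ)

/-- The residue field of a place `A` of `ℚ̄`. -/
local notation "κ" => IsLocalRing.ResidueField

/-- The function field of `X₀(N)` over an arbitrary field `k` (`FC k N`): the subfield of `k((q))`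
generated by the expansions of the `j(q^d)`, `d ∣ N`. -/
local notation "FC" => modularFunctionFieldFullC

/-- The function field of `X₀(N)` over `ℚ̄` (a subfield of the field of Laurent series). -/
local notation "FB" => Fermat.Agent.H67.FB (AlgebraicClosure ℚ)

/-! ### 1. Hecke operators on series and divisors -/

/-- **The Hecke operator `T_ℓ` on Laurent series** (definition): `f(q^ℓ)` times the series `P` with
`P(q^ℓ) = f(q) f(ζ q) ⋯ f(ζ^(ℓ-1) q)`.  For `ℓ ∤ N` it is the norm of `β(u)` along `α` on the functions of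
level `N` (`hecke_function_expansion` of `GuideLevelsMazur`).  `qExpand R ℓ` is `f(q) ↦ f(q^ℓ)` and
`H60.twist z` is `f(q) ↦ f(z q)`.  Defined in `H9LogT`. -/
theorem hecke_series_def {R : Type*} [CommRing R] [IsDomain R] (ℓ : ℕ) [NeZero ℓ] {ζ : Rˣ}
    (hζ : IsPrimitiveRoot ζ ℓ) (f : LaurentSeries R) :
    H9.Tmul ℓ ζ f = qExpand R ℓ f * H33.normOp ℓ ζ f ∧
      qExpand R ℓ (H33.normOp ℓ ζ f) = ∏ i ∈ Finset.range ℓ, H60.twist (ζ ^ i) f :=
  ⟨rfl, H33.qExpand_normOp ℓ hζ f⟩

/-- **Rules for `T_ℓ` on series**: it is multiplicative, not zero on nonzero series, and maps a constant `c`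
to `c^(ℓ+1)`.  Proved in `H62P1`. -/
theorem hecke_series_rules {R : Type*} [Field R] (ℓ : ℕ) [NeZero ℓ] {ζ : Rˣ}
    (hζ : IsPrimitiveRoot ζ ℓ) (f g : LaurentSeries R) (n : ℕ) (c : R) :
    H9.Tmul ℓ ζ (f * g) = H9.Tmul ℓ ζ f * H9.Tmul ℓ ζ g ∧
      H9.Tmul ℓ ζ (f ^ n) = H9.Tmul ℓ ζ f ^ n ∧
      (f ≠ 0 → H9.Tmul ℓ ζ f ≠ 0) ∧
      H9.Tmul ℓ ζ (HahnSeries.C c : LaurentSeries R) = HahnSeries.C (c ^ (ℓ + 1)) :=
  ⟨H62.Tmul_mul ℓ hζ f g, H62.Tmul_pow ℓ hζ f n, H62.Tmul_ne_zero ℓ hζ, H62.Tmul_C ℓ hζ c⟩

/-- **`T_ℓ` and the coefficients**: for a homomorphism `g` of rings, applied to the coefficients,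
`g(T_ℓ f) = T_ℓ (g f)`, with the roots of unity `ζ` and `g(ζ)`.  (Applied to Galois automorphisms and to
reductions.)  Proved in `H62P1`. -/
theorem hecke_series_coefficients {R S : Type*} [CommRing R] [CommRing S] (ℓ : ℕ) [NeZero ℓ]
    (g : R →+* S) (ζ : Rˣ) (f : LaurentSeries R) :
    coeffMap g (H9.Tmul ℓ ζ f) = H9.Tmul ℓ (Units.map (g : R →* S) ζ) (coeffMap g f) :=
  H62.coeffMap_Tmul ℓ g ζ f

/-- **Roots of unity.** If the prime `ℓ` is not `0` in `k` there is a primitive `ℓ`-th root of unity in the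
place `A` whose image in `k` is a primitive `ℓ`-th root of unity.  Proved in `H62P1R`. -/
theorem exists_root_of_unity {L : Type*} [Field L] [IsAlgClosed L] [CharZero L]
    {A : ValuationSubring L} {k : Type*} [Field k] (π : A →+* k) (ℓ : ℕ) [Fact ℓ.Prime]
    (hk : (ℓ : k) ≠ 0) :
    ∃ ζ : Aˣ, IsPrimitiveRoot (Units.map (A.subtype : A →* L) ζ) ℓ ∧
      IsPrimitiveRoot (Units.map (π : A →* k) ζ) ℓ :=
  H62.exists_zeta π ℓ hk

/-- **Reduction of `T_ℓ f`.** `H34.Two.locL A π` is the ring of the quotients `y / z` of series with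
coefficients in `A`, `z` with nonzero reduction, and `H34.Two.resL` its reduction map to the series over `k`.
If `f` is in this ring, with reduction `r`, then so is `T_ℓ f`, with reduction `T_ℓ r`.
Proved in `H62P1R`. -/
theorem hecke_series_reduction {L : Type*} [Field L] {A : ValuationSubring L} {k : Type*} [Field k]
    {π : A →+* k} {ℓ : ℕ} [NeZero ℓ] {ζ : Aˣ}
    (h1 : IsPrimitiveRoot (Units.map (A.subtype : A →* L) ζ) ℓ)
    (h2 : IsPrimitiveRoot (Units.map (π : A →* k) ζ) ℓ) {f : LaurentSeries L}
    (hf : f ∈ H34.Two.locL A π) :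
    ∃ h : H9.Tmul ℓ (Units.map (A.subtype : A →* L) ζ) f ∈ H34.Two.locL A π,
      H34.Two.resL A π ⟨_, h⟩ =
        H9.Tmul ℓ (Units.map (π : A →* k) ζ) (H34.Two.resL A π ⟨f, hf⟩) :=
  H62.Tmul_mem_locL h1 h2 hf

/-- **`T_ℓ` on divisors and classes.** `T_ℓ D = α_* β^* D` (`H62.heckeD`, definition; `H67.pushD` and
`H67.pullD` are push forward and pull back of divisors) has degree `0` if `D` has degree `0`, and its class
is `T_ℓ` of the class of `D` in `J₀(N)(ℚ̄)`.  Proved in `H62P1`. -/
theorem hecke_class {N ℓ : ℕ} [NeZero N] [NeZero ℓ] [NeZero (N * ℓ)]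
    (D : Divisor.degZero (K := Qb) (F := FB N)) :
    H62.heckeD N ℓ D = H67.pushD (heckeAlphaBar Qb N ℓ) (H67.pullD (heckeBetaBar Qb N ℓ) D) ∧
      heckeOperatorAlong Qb N ℓ (Pic0.mk D) = Pic0.mk ⟨H62.heckeD N ℓ D, H62.degree_heckeD D.2⟩ :=
  ⟨rfl, H62.heckeOperatorAlong_mk D⟩

/-! ### 2. Gauss values

`H97.HasG π f c r` (`hasG_iff` of `GuideLevelsMazur`) says: `f = c g`, where `g` is a quotient of two
series with coefficients in `A` and nonzero reductions, and `r` is the reduction of `g`.  `v(c)` is the Gauss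
value of `f`. -/

section

variable {L : Type*} [Field L] {A : ValuationSubring L} {k : Type*} [Field k] {π : A →+* k}
  {f g : LaurentSeries L} {c d : L} {r s : LaurentSeries k}

/-- **Rules for Gauss values**: they are multiplicative; the reduction is not zero; a constant `c` has value
`c` and reduction `1`.  Proved in `H97MdH`, `H62P4A`. -/
theorem gauss_rules (hf : H97.HasG π f c r) (hg : H97.HasG π g d s) (n : ℕ) :
    H97.HasG π (f * g) (c * d) (r * s) ∧ H97.HasG π (f ^ n) (c ^ n) (r ^ n) ∧
      (c ≠ 0 → H97.HasG π f⁻¹ c⁻¹ r⁻¹) ∧ r ≠ 0 ∧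
      H97.HasG π (algebraMap L (LaurentSeries L) c) c 1 :=
  ⟨hf.mul hg, H62.hasG_pow hf n, fun hc => H62.hasG_inv hc hf, hf.ne_zero, H62.hasG_const c⟩

/-- **The Gauss value is unique**: `f = c g = d h` as above implies `v(c) = v(d)`; and for `c = d` the
reductions are the same.  (`IsLocalHom π`: the kernel of `π` is the maximal ideal of `A`.)
Proved in `H97MdH`. -/
theorem gauss_unique [IsLocalHom π] (hc : c ≠ 0) (hd : d ≠ 0) (h : H97.HasG π f c r)
    (h' : H97.HasG π f d s) :
    A.valuation c = A.valuation d ∧ ∀ t : LaurentSeries k, H97.HasG π f c t → t = r :=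
  ⟨h.val_eq hc hd h', fun _ ht => h.unique hc ht⟩

/-- **Change of the constant** by an element of the same value: the reduction is multiplied by a constant of
`k`.  Proved in `H62P4A`. -/
theorem gauss_congr [IsLocalHom π] (hd : d ≠ 0) (h : H97.HasG π f c r)
    (hv : A.valuation c = A.valuation d) :
    ∃ e : k, e ≠ 0 ∧ H97.HasG π f d (algebraMap k (LaurentSeries k) e * r) :=
  H62.hasG_congr hd h hv

/-- **Gauss values and operations on series**: `f(q) ↦ f(q^n)` does not change the value, `T_ℓ` raises it to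
the power `ℓ + 1`; the reductions are transformed in the same way.  Proved in `H97MdH`, `H62P4A`. -/
theorem gauss_operations (h : H97.HasG π f c r) (n : ℕ) [NeZero n] {ℓ : ℕ} [NeZero ℓ] {ζ : Aˣ}
    (h1 : IsPrimitiveRoot (Units.map (A.subtype : A →* L) ζ) ℓ)
    (h2 : IsPrimitiveRoot (Units.map (π : A →* k) ζ) ℓ) :
    H97.HasG π (qExpand L n f) c (qExpand k n r) ∧
      H97.HasG π (H9.Tmul ℓ (Units.map (A.subtype : A →* L) ζ) f) (c ^ (ℓ + 1))
        (H9.Tmul ℓ (Units.map (π : A →* k) ζ) r) :=
  ⟨h.qExpand n, H62.hasG_Tmul h h1 h2⟩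

end

/-! ### 3. Torsion classes and their Kummer functions

`H35.Geo.IsU A d N u`: the function `u ≠ 0` of level `N` is fixed by the inertia group of `A`, and all its
orders are divisible by `d`.  `H35.Geo.Cls d N u x`: `x` is the class of `(1/d) div u` (`isU_cls_iff` of
`GuideLevelsMazur`).  (Kummer functions in other parts of the proof: `GuideS44Steps`, `GuideFixedFunctions`,
`GuideKummerFunctions`.) -/

/-- **Inertia invariant classes have inertia invariant functions.** Let `x ∈ J₀(N)(ℚ̄)` be killed by `d` and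
fixed by the inertia group of `A`.  Then there is a function `u` with leading coefficient `1`, fixed by the
inertia group, with `div u = d D`, `D` of class `x`.  Idea: the class `x` contains a distinguished divisor `D`
(`D + n ∞ ≥ 0` with `n` minimal), which is fixed by all automorphisms fixing `x`; the function `u` with
leading coefficient `1` and `div u = d D` is unique, therefore fixed too (`fixed_kummer_function` of
`GuideS44Steps`).  Proved in `H38MzRep`, `H35Geo0`. -/
theorem exists_kummer_function {A : ValuationSubring Qb} {d N : ℕ} [NeZero N] (x : JZero N)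
    (hx : x ∈ H35.fixTors A d (JZero N)) :
    ∃ u : FB N, H35.Geo.IsU A d N u ∧ H35.Geo.Cls d N u x ∧
      (u : LaurentSeries Qb).leadingCoeff = 1 :=
  H35.Geo.exists_isU x hx

/-- **Rules for classes**: the class of a product is the sum, the class of `1/u` is the negative, and the
class of a `d`-th power is `0`.  Proved in `H35Geo0`. -/
theorem class_rules {d N : ℕ} [NeZero N] {u u' h : FB N} {x x' : JZero N} (hu : u ≠ 0)
    (hu' : u' ≠ 0) (hh : h ≠ 0) (H : H35.Geo.Cls d N u x) (H' : H35.Geo.Cls d N u' x') :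
    H35.Geo.Cls d N (u * u') (x + x') ∧ H35.Geo.Cls d N u⁻¹ (-x) ∧
      H35.Geo.Cls d N (h ^ d) 0 :=
  ⟨H.mul hu hu' H', H.inv, H35.Geo.Cls.pow_self hh⟩

/-- **The class of a function** with orders divisible by `d ≠ 0` exists and is unique; it is `0` only if the
function is a `d`-th power.  Proved in `H35Geo0`. -/
theorem class_of_function {d N : ℕ} [NeZero N] {u : FB N} (hd : d ≠ 0) (hu : u ≠ 0)
    (hdiv : ∀ v : Place Qb (FB N), (d : ℤ) ∣ v.ord u) :
    (∃ x : JZero N, H35.Geo.Cls d N u x) ∧
      (∀ x y : JZero N, H35.Geo.Cls d N u x → H35.Geo.Cls d N u y → x = y) ∧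
      (H35.Geo.Cls d N u 0 → ∃ g : FB N, g ≠ 0 ∧ u = g ^ d) :=
  ⟨H35.Geo.exists_cls_of_dvd hd hu hdiv, fun _ _ hx hy => H35.Geo.Cls.unique hd hx hy,
    fun h => H35.Geo.Cls.exists_root hd hu h⟩

/-- **Hecke operators and `w_q`**: if `u` is a Kummer function of `x` then `T_ℓ u` is one of `T_ℓ x` and
`w_q u` is one of `w_q x`; inertia invariance is preserved.  (`H62.hf`: `T_ℓ` on functions, `H67.atkin`: `w_q`
on functions, `H67.wJ`: `w_q` on classes; `H67.embQbar`: an embedding of `ℚ̄` in `ℂ`, used only to construct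
`w_q`.)  Proved in `H35Geo0`. -/
theorem class_operators {A : ValuationSubring Qb} {d M q : ℕ} [NeZero (M * q)] (hc : M.Coprime q)
    {u : FB (M * q)} {x : JZero (M * q)} (hu : H35.Geo.IsU A d (M * q) u)
    (h : H35.Geo.Cls d (M * q) u x) (ℓ : Nat.Primes) [NeZero (ℓ : ℕ)] [Fact (ℓ : ℕ).Prime]
    (hℓ : ¬ (ℓ : ℕ) ∣ M * q) :
    (H35.Geo.IsU A d (M * q) (H62.hf (M * q) ℓ u) ∧
      H35.Geo.Cls d (M * q) (H62.hf (M * q) ℓ u) (heckeOperatorBar (M * q) ℓ x)) ∧
    (H35.Geo.IsU A d (M * q) (H67.atkin (L := Qb) H67.embQbar M q rfl hc u) ∧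
      H35.Geo.Cls d (M * q) (H67.atkin (L := Qb) H67.embQbar M q rfl hc u)
        (H67.wJ M q rfl hc x)) :=
  ⟨⟨hu.hecke ℓ hℓ, h.hecke hu.ne ℓ⟩, hu.atkin hc, h.atkin hc⟩

/-! ### 4. The map `n` -/

/-- **The number `t = b - a`** (definition): `u` has the Gauss value `q^a` and `w_q u` the Gauss value
`q^b`.  Defined in `H62P4A`. -/
theorem nval_iff {q : ℕ} {A : ValuationSubring Qb} {k : Type*} [Field k] {π : A →+* k} {M : ℕ}
    [NeZero (M * q)] {hc : M.Coprime q} (u : FB (M * q)) (t : ℤ) :
    H62.NVal π hc u t ↔ ∃ (a b : ℤ) (r s : LaurentSeries k),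
      H97.HasG π (u : LaurentSeries Qb) ((q : Qb) ^ a) r ∧
      H97.HasG π ((H67.atkin (L := Qb) H67.embQbar M q rfl hc u : FB (M * q)) : LaurentSeries Qb)
        ((q : Qb) ^ b) s ∧ t = b - a :=
  Iff.rfl

section

variable {q : ℕ} [Fact q.Prime] {A : ValuationSubring Qb} {k : Type*} [Field k] {π : A →+* k}
  {M : ℕ} [NeZero (M * q)] {hc : M.Coprime q}

/-- **Existence and uniqueness**: `t` is defined for every function `u ≠ 0` fixed by the inertia group of `A`,
because the Gauss values of `u` and `w_q u` are powers of `q` (`exists_gauss_value` of `GuideLevelsMazur`);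
and different powers of `q` have different values.  Proved in `H62P4A`. -/
theorem nval_exists_unique [IsLocalHom π] (hA : A.LiesOverPrime q) (hπ : Function.Surjective π)
    {u : FB (M * q)} (hu0 : u ≠ 0) (hu : ∀ σ ∈ A.inertiaSubgroupIn ℚ,
      arithmeticGalois (modularFunctionFieldFull (M * q)) σ • u = u) :
    (∃ t, H62.NVal π hc u t) ∧ ∀ s t : ℤ, H62.NVal π hc u s → H62.NVal π hc u t → s = t :=
  ⟨H62.exists_nval hA hπ hu0 hu, fun _ _ h h' => h.unique hA h'⟩

/-- **Rules for `t`**: it is additive, and `w_q` changes the sign.  Proved in `H62P4A`. -/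
theorem nval_rules {u v : FB (M * q)} {s t : ℤ} (hu : H62.NVal π hc u s)
    (hv : H62.NVal π hc v t) (n : ℕ) :
    H62.NVal π hc (u * v) (s + t) ∧ H62.NVal π hc u⁻¹ (-s) ∧ H62.NVal π hc (u ^ n) (n * s) ∧
      H62.NVal π hc (H67.atkin (L := Qb) H67.embQbar M q rfl hc u) (-s) :=
  ⟨hu.mul hv, hu.inv, hu.pow n, hu.atkin⟩

/-- **`T_ℓ` multiplies `t` by `ℓ + 1`**, `ℓ ∤ M q` a prime: `T_ℓ` raises Gauss values to the power `ℓ + 1` and
commutes with `w_q`.  This is the reason for which `n` is Eisenstein.  Proved in `H62P4A`. -/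
theorem nval_hecke {u : FB (M * q)} {t : ℤ} (hu : H62.NVal π hc u t) {ℓ : ℕ} [Fact ℓ.Prime]
    [NeZero ℓ] (hℓ : ¬ ℓ ∣ M * q) (hk : (ℓ : k) ≠ 0) :
    H62.NVal π hc (H62.hf (M * q) ℓ u) ((ℓ + 1) * t) :=
  hu.hf hℓ hk

/-- **`t` modulo `d` depends only on the class**: if `u` is fixed by inertia and its class is `0` (so
`u = g^d`) then `d ∣ t`.  Proof: let `c` be the leading coefficient of `g`.  The constant `c^d`, the leading
coefficient of `u`, is fixed by inertia and has `t = 0`; and `g / c` is fixed by inertia, because a function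
is determined by its `d`-th power and its leading coefficient.  Proved in `H62P4A`. -/
theorem nval_power [IsLocalHom π] (hA : A.LiesOverPrime q) (hπ : Function.Surjective π) {d : ℕ}
    (hd : d ≠ 0) {u : FB (M * q)} {t : ℤ} (hu : H35.Geo.IsU A d (M * q) u)
    (hcls : H35.Geo.Cls d (M * q) u 0) (ht : H62.NVal π hc u t) : (d : ℤ) ∣ t :=
  H62.NVal.dvd hA hπ hd hu hcls ht

end

/-! ### 5. The node formula at levels divisible by `4` or `9` -/

/-- **The order of the reduction at ALL points** (abstract).  `D : H31.MP.Data …` is a curve `F` over `K` with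
two components and double points over the residue field (`GuideLevelsS44`, `GuideNodeAnalysis`); `D.M.v false`
and `D.M.ρ false` are the valuation and the reduction of the first component, `D.M.v true` the valuation of
the second one.  Let `u` be fixed by the group `H` (`H31.MP.Fix H u`) and all its orders be divisible by `e`,
with the values `1` on the first and `|p|^n` on the second component, `e ∣ n`.  If the constants fixed by
`H` have values in
`|p|^ℤ` (`hH`) then `e` divides all orders of the reduction of `u` on the first component.  Proof: at a smooth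
point the order is the degree of `div u` on the residue class; at a double point it is `≡ n` modulo `e`
(`slope_congruence` of `GuideNodeAnalysis`).  Proved in `H10_P2a`. -/
theorem order_of_reduction {K F k Fb Γ ν G : Type*} [Field K] [Field F] [Algebra K F] [Field k]
    [Field Fb] [Algebra k Fb] [LinearOrderedCommGroupWithZero Γ] [Group G] [MulSemiringAction G K]
    [MulSemiringAction G F] {p : ℕ} (D : H31.MP.Data K F k Fb Γ ν G p) [IsAlgClosed K]
    [H3RR.IsFF K F] [IsAlgClosed k] [H3RR.IsFF k Fb] {e : ℕ} (he : e ≠ 0) {H : Subgroup G} {u : F}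
    (hu : H31.MP.Fix H u) (hu0 : u ≠ 0) (hdiv : ∀ P : Place K F, (e : ℤ) ∣ P.ord u)
    (hvu : D.M.v false u = 1)
    (hH : ∀ c : K, c ≠ 0 → H31.MP.Fix H c → ∃ m : ℤ, D.M.vK c = D.M.vK (p : K) ^ m)
    (hp0 : (p : K) ≠ 0) (hp1 : D.M.vK (p : K) < 1) {n : ℤ}
    (hn : D.M.v true u = D.M.vK (p : K) ^ n) (hne : (e : ℤ) ∣ n) (x : Place k Fb) :
    (e : ℤ) ∣ x.ord (D.M.ρ false u) :=
  H10.P2.dvd_ord D he hu hu0 hdiv hvu hH hp0 hp1 hn hne x

/-- **The node formula at level `m` in terms of the two valuations.** `4 ∣ m` or `9 ∣ m`, `q ∤ m`.  `v1`, `v2`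
and `comp1` are the Gauss valuations of `X₀(m q)` and the reduction on the first component (`components` in
`GuideGaussSeries`; for `hdeg` see `degrees` there), `w : H99.AL Qb m q` is the involution `w_q`, `arch`
(`H97.Arch A`) says that the place `A` has rank one, and `r` is a reduction of places of `X₀(m)` compatible
with divisors (`H34.GR.DivCompat`: the divisor of the reduction of an integral function is the image of its
divisor).
Let `u` be fixed by the inertia group, with all orders divisible by `d` and with the values `1` and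
`|q|^n`, `d ∣ n`: then `d` divides all orders of the reduction of `u`.  From `order_of_reduction`.
Proved in `H10_P2d`. -/
theorem node_formula_values {m q : ℕ} [NeZero m] [NeZero q] [Fact q.Prime] {A : ValuationSubring Qb}
    {k : Type} [Field k] {π : A →+* k} [CharP k q] [IsAlgClosed k] [Infinite k] (w : H99.AL Qb m q)
    (hπ : Function.Surjective π) (hdeg : H42.DegLE Qb k m) (hqm : ¬ q ∣ m) [IsLocalHom π] {e : ℕ}
    (he : e = 4 ∨ e = 9) (hem : e ∣ m) (arch : H97.Arch A)
    (r : Place Qb (H99.FX Qb m) → Place k (FC k m)) {c : ℕ}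
    (hr1 : ∀ D : Divisor Qb (H99.FX Qb m), (c : ℤ) < Divisor.degree D →
      (H42.modReductionData A π m hπ hdeg).IsRed D (Finsupp.mapDomain r D))
    (hr2 : H34.GR.DivCompat (H42.modReductionData A π m hπ hdeg) r) (hA : A.LiesOverPrime q) {d : ℕ}
    (hd : d ≠ 0) {u : H99.FX Qb (m * q)} (hu0 : u ≠ 0)
    (hu : ∀ σ ∈ A.inertiaSubgroupIn ℚ,
      arithmeticGalois (modularFunctionFieldFull (m * q)) σ • u = u)
    (hdiv : ∀ P : Place Qb (H99.FX Qb (m * q)), (d : ℤ) ∣ P.ord u)
    (h1 : H97.v1 A π w hπ (H42.degreeFact Qb) hdeg hqm u = 1) {n : ℤ}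
    (h2 : H97.v2 A π w hπ (H42.degreeFact Qb) hdeg hqm u = A.valuation (q : Qb) ^ n)
    (hdn : (d : ℤ) ∣ n) (x : Place k (FC k m)) :
    (d : ℤ) ∣ x.ord ((H34.Two.comp1 A π w hπ (H42.degreeFact Qb) hdeg hqm).red u) :=
  H10.P2.slope_v w hπ hdeg hqm he hem arch r hr1 hr2 hA hd hu0 hu hdiv h1 h2 hdn x

/-- **The two languages**: if `f` has the Gauss value `c` then `v1 f = v(c)`; and if `c = 1` the reduction of
`f` on the first component is `r`.  (`hD : H67.DegreeFact Qb`: `X₀(M)` has the degree `ψ(M)` over the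
`j`-line for all `M`; this is a theorem, `H42.degreeFact`.)  Proved in `H29Wire3`. -/
theorem value_of_gauss {m q : ℕ} [NeZero m] [NeZero q] [NeZero (m * q)] [Fact q.Prime]
    {A : ValuationSubring Qb} {k : Type} [Field k] [CharP k q] [Infinite k] {π : A →+* k}
    [IsLocalHom π] (w : H99.AL Qb m q) (hπ : Function.Surjective π) (hD : H67.DegreeFact Qb)
    (hdeg : H42.DegLE Qb k m) (hqm : ¬ q ∣ m) {f : FB (m * q)} (hf : f ≠ 0) {c : Qb} (hc : c ≠ 0)
    {r : LaurentSeries k} :
    (H97.HasG π (f : LaurentSeries Qb) c r →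
      H97.v1 A π w hπ hD hdeg hqm f = A.valuation c) ∧
    (H97.HasG π (f : LaurentSeries Qb) 1 r →
      ((H34.Two.comp1 A π w hπ hD hdeg hqm).red f : LaurentSeries k) = r) :=
  ⟨H29.Wire.v1_of_hasG w hπ hD hdeg hqm hf hc, H29.Wire.red1_of_hasG_one w hπ hD hdeg hqm⟩

/-- **From the valuations to the node formula**: the formula for functions with `v1 u = 1` implies the node
formula without loss (`nodeInput_iff` of `GuideLevelsMazur`).  Proof: divide `u` by the power `q^a`, which is
fixed by all automorphisms.  Proved in `H29Wire3`. -/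
theorem node_formula_of_values {m q : ℕ} [NeZero m] [NeZero q] [NeZero (m * q)] [Fact q.Prime]
    {A : ValuationSubring Qb} {k : Type} [Field k] [CharP k q] [Infinite k] {π : A →+* k}
    [IsLocalHom π] (w : H99.AL Qb m q) (hπ : Function.Surjective π) (hD : H67.DegreeFact Qb)
    (hdeg : H42.DegLE Qb k m) (hqm : ¬ q ∣ m) {d : ℕ}
    (hslope : ∀ hc : m.Coprime q, ∀ u : FB (m * q), H35.Geo.IsU A d (m * q) u →
      H97.v1 A π w hπ hD hdeg hqm u = 1 → ∀ n : ℤ,
      H97.v1 A π w hπ hD hdeg hqm (H67.atkin (L := Qb) H67.embQbar m q rfl hc u) =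
        A.valuation (q : Qb) ^ n →
      (d : ℤ) ∣ n → ∀ x : Place k (FC k m),
        (d : ℤ) ∣ x.ord ((H34.Two.comp1 A π w hπ hD hdeg hqm).red u)) :
    H35.Geo.NodeInput d 1 q m A π :=
  H29.Wire.nodeInput_of_slope w hπ hD hdeg hqm hslope

/-! ### 6. Descent to other levels -/

/-- **Pull back of functions.** For `M e ∣ N` the embedding `f(q) ↦ f(q^e)` (`H67.dg`) of level `M` in level
`N` maps inertia invariant functions with orders divisible by `d` to such functions.  Over any field `k` it
maps the function field of level `M` to that of level `N`.  Proved in `H29Wire1`. -/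
theorem pull_back {A : ValuationSubring Qb} {d M N : ℕ} [NeZero M] [NeZero N] (e : ℕ) [NeZero e]
    (h : M * e ∣ N) {u : FB M} (hu : H35.Geo.IsU A d M u) :
    H35.Geo.IsU A d N (H67.dg Qb e h u) ∧
      ∀ (k : Type) [Field k] (x : LaurentSeries k), x ∈ FC k M → qExpand k e x ∈ FC k N :=
  ⟨H29.Wire.isU_dg e h hu, fun k _ _ hx => H29.Wire.qExpand_mem_fullC k (NeZero.ne N) h hx⟩

/-- **Descent of the node formula** from level `m` to level `M`, `M e ∣ m`, along `f(q) ↦ f(q^e)`: over every
place `P` of level `M` over `k` there must be a place `P'` of level `m` whose ramification index `e'` has the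
property that the greatest common divisor of `c' e'` and `d` divides `c`.  Then the loss `c'` at level `m`
becomes the loss `c` at level `M`.  Proof: `d` divides `c'` times the order of the reduction of the function
pulled back, that is, `c' e'` times the order of the reduction of `u`.  Proved in `H29Wire1`. -/
theorem node_formula_descent {d c c' q M m : ℕ} [NeZero M] [NeZero m] [NeZero (M * q)]
    [NeZero (m * q)] (e : ℕ) [NeZero e] (hMm : M * e ∣ m) (hmq : m.Coprime q)
    {A : ValuationSubring Qb} {k : Type} [Field k] {π : A →+* k}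
    (h : H35.Geo.NodeInput d c' q m A π)
    (hram : ∀ P : Place k (FC k M), ∃ (P' : Place k (FC k m)) (e' : ℕ), Nat.gcd (c' * e') d ∣ c ∧
      ∀ (f : FC k M) (f' : FC k m),
        (f' : LaurentSeries k) = qExpand k e (f : LaurentSeries k) → P'.ord f' = e' * P.ord f) :
    H35.Geo.NodeInput d c q M A π :=
  H29.Wire.nodeInput_descend e hMm hmq h hram

/-- **Places above.** Let `M ∣ m`, `m ≠ 0` in the algebraically closed field `k`.  Over every place `P` of
`X₀(M)` over `k` there is a finite set of places of `X₀(m)`, with positive ramification indices the sum of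
which is the degree `ψ(m) / ψ(M)`, where `ψ` (`dedekindPsi`) is the index of `Γ₀`.  Proved in `H29Wire2`. -/
theorem places_above {k : Type*} [Field k] [IsAlgClosed k] {M m : ℕ} (hdvd : M ∣ m)
    (hk : (m : k) ≠ 0) (P : Place k (FC k M)) :
    ∃ (S : Finset (Place k (FC k m))) (e : Place k (FC k m) → ℕ),
      (∀ P' ∈ S, 0 < e P' ∧ ∀ (f : FC k M) (f' : FC k m), (f' : LaurentSeries k) = f →
        P'.ord f' = e P' * P.ord f) ∧
      (∑ P' ∈ S, e P') * dedekindPsi M = dedekindPsi m :=
  H29.Wire.exists_places_above hdvd hk P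

/-- **The case `2 ∣ M`, `m = 2 M`**: the degree is `2`, so the ramification index is `1` or `2`.
Proved in `H29Wire2`. -/
theorem place_above_two {k : Type*} [Field k] [IsAlgClosed k] {M m : ℕ} (hm : m = 2 * M)
    (h2 : 2 ∣ M) (hk : (m : k) ≠ 0) (P : Place k (FC k M)) :
    ∃ (P' : Place k (FC k m)) (e : ℕ), (e = 1 ∨ e = 2) ∧
      ∀ (f : FC k M) (f' : FC k m), (f' : LaurentSeries k) = f → P'.ord f' = e * P.ord f :=
  H29.Wire.exists_place_above_two hm h2 hk P

/-- **From level `2 M` to the even level `M`** the formula without loss becomes the formula with loss `2`; at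
the level `2 M`, divisible by `4`, there is the formula without loss (section 5).
Proved in `H29Wire4`. -/
theorem node_formula_twice {d q M m : ℕ} [NeZero M] [NeZero m] [NeZero (M * q)] [NeZero (m * q)]
    (hm : m = 2 * M) (h2 : 2 ∣ M) (hmq : m.Coprime q) {A : ValuationSubring Qb} {k : Type}
    [Field k] [IsAlgClosed k] (hk : (m : k) ≠ 0) {π : A →+* k}
    (h : H35.Geo.NodeInput d 1 q m A π) : H35.Geo.NodeInput d 2 q M A π :=
  H29.Wire.nodeInput_two_of hm h2 hmq hk h

/-- **Degrees of the auxiliary levels.** `ψ(4 M) / ψ(M)` is `4` or `6`, and `ψ(9 M) / ψ(M)` is `9` or `12`: so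
no prime `p ≥ 5` divides these degrees, and over every place of level `M` there is a place of the level `4 M`
(`9 M` if `q = 2`) with a ramification index prime to `p`.  Proved in `H46MzOdd`. -/
theorem degree_four_nine {M n : ℕ} [NeZero M] :
    (dedekindPsi M * n = dedekindPsi (4 * M) → n = 4 ∨ n = 6) ∧
      (dedekindPsi M * n = dedekindPsi (9 * M) → n = 9 ∨ n = 12) ∧
      ∀ p c : ℕ, (c = 4 ∨ c = 9) → p.Prime → 5 ≤ p → dedekindPsi M * n = dedekindPsi (c * M) →
        ¬ p ∣ n :=
  ⟨H46.Mz.psi_four, H46.Mz.psi_nine, fun _ _ hc hp hp5 h => H46.Mz.not_dvd_psi hc hp hp5 h⟩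

/-! ### 7. The relation behind `δ`

`RelD π d d' M q x y` (`relD_iff` of `GuideLevelsMazur`, there for `d' = d`): some inertia invariant Kummer
function `u` of `x ∈ J₀(M q)` (for `d`) and some Kummer function `g` of `y ∈ J₀(M)` (for `d'`) have, up to a
`d'`-th power in characteristic `q`, the same reduction.  Here `d = c d'`, where `c` is the loss of the node
formula: if `d` divides `c` times the orders of the reduction of `u`, then `d'` divides these orders.  The
relation gives the map `δ false`; and `δ true x = δ false (w_q x)`. -/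

/-- **Reductions up to constants.**  `H33.Red A π f r`: `r ≠ 0`, and `c f` has the reduction `r` for some
constant `c ≠ 0` (`H33.cst c`: the constant series; `locL`, `resL` as in `hecke_series_reduction`).  This is
so if `f` has a Gauss value `c ≠ 0` with reduction `r`.  Proved in `H35Geo1`. -/
theorem reduction_iff {L : Type*} [Field L] {A : ValuationSubring L} {k : Type*} [Field k]
    {π : A →+* k} {f : LaurentSeries L} {r : LaurentSeries k} :
    (H33.Red A π f r ↔ r ≠ 0 ∧ ∃ c : L, c ≠ 0 ∧
      ∃ h : H33.cst c * f ∈ H34.Two.locL A π, H34.Two.resL A π ⟨_, h⟩ = r) ∧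
    ∀ c : L, c ≠ 0 → H97.HasG π f c r → H33.Red A π f r :=
  ⟨H35.Geo.red_iff_locL, fun _ hc h => H35.Geo.red_of_hasG hc h⟩

/-- **Reduction and lifting of functions.**  A function `u ≠ 0` of level `M q` has, up to constants, a
reduction on the first component which is a function of level `M` over the residue field; and every nonzero
function there is such a reduction (even the reduction of a function of level `M`).  The first statement is
proved in `H35Geo1` from the two-component reduction (`exists_modTwo` of `GuideBadRed`), the second one in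
`H35Geo3` by lifting at level `M` over a discretely valued field (`H33.exists_discFld`). -/
theorem reductions_of_level {q M : ℕ} [NeZero M] [NeZero q] [NeZero (M * q)] (hq : q.Prime)
    (hqM : ¬ q ∣ M) {A : ValuationSubring Qb} (hA : A.LiesOverPrime q) :
    (∀ u : FB (M * q), u ≠ 0 → ∃ r : FC (κ A) M, r ≠ 0 ∧
      H33.Red A (IsLocalRing.residue A) (u : LaurentSeries Qb) (r : LaurentSeries (κ A))) ∧
    ∀ r : FC (κ A) M, r ≠ 0 → ∃ u : FB (M * q),
      H33.Red A (IsLocalRing.residue A) (u : LaurentSeries Qb) (r : LaurentSeries (κ A)) := by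
  obtain ⟨D⟩ := H89J.nonempty_modTwo hq hqM A hA
  exact ⟨fun _ hu => H35.Geo.exists_red D hu, H35.Geo.exists_lift' hq hA⟩

/-- **The relation is additive** (multiply the functions).  Proved in `H35Geo1`. -/
theorem relation_additive {M q d d' : ℕ} [NeZero M] [NeZero (M * q)] {A : ValuationSubring Qb}
    {k : Type} [Field k] {π : A →+* k} {x x' : JZero (M * q)} {y y' : JZero M}
    (h : H35.Geo.RelD π d d' M q x y) (h' : H35.Geo.RelD π d d' M q x' y') :
    H35.Geo.RelD π d d' M q (x + x') (y + y') ∧ H35.Geo.RelD π d d' M q (-x) (-y) :=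
  ⟨h.add h', h.neg⟩

section Relation

variable {q M c d d' : ℕ} [NeZero M] [NeZero q] [NeZero (M * q)] {A : ValuationSubring Qb}

/-- **Existence of `y`**: if `d'` divides the orders of the reductions of all inertia invariant Kummer
functions of `x`, then `x` is related to some `y`: torsion classes of `X₀(M)` over the residue field lift
(`exists_lift` of `GuideLevelsMazur`).  Proved in `H35Geo1`. -/
theorem relation_exists (hq : q.Prime) (hqM : ¬ q ∣ M) (hA : A.LiesOverPrime q) (hd' : d' ≠ 0)
    {x : JZero (M * q)} (hx : x ∈ H35.fixTors A d (JZero (M * q)))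
    (H : ∀ u : FB (M * q), H35.Geo.IsU A d (M * q) u → H35.Geo.Cls d (M * q) u x →
      ∀ r : FC (κ A) M,
        H33.Red A (IsLocalRing.residue A) (u : LaurentSeries Qb) (r : LaurentSeries (κ A)) →
        ∀ P : Place (κ A) (FC (κ A) M), (d' : ℤ) ∣ P.ord r) :
    ∃ y, H35.Geo.RelD (IsLocalRing.residue A) d d' M q x y := by
  have : IsAlgClosed (κ A) := H18.isAlgClosed_residueField A
  obtain ⟨D⟩ := H89J.nonempty_modTwo hq hqM A hA
  exact H35.Geo.exists_relD D hd' (H13.Mz.liftInput hq hA M hqM hd') hx H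

/-- **Uniqueness of `y`**: `0` is related to `0` only.  If `u` is a `d`-th power, so is its reduction; hence
the reduction of `g` is a `d'`-th power, and so is `g` (`exists_root_of_reduction` of `GuideLevelsMazur`).
Proved in `H35Geo1`. -/
theorem relation_unique (hq : q.Prime) (hqM : ¬ q ∣ M) (hA : A.LiesOverPrime q) (hd : d = c * d')
    (hd0 : d ≠ 0) (hqd : ¬ q ∣ d') {y : JZero M}
    (h : H35.Geo.RelD (IsLocalRing.residue A) d d' M q 0 y) : y = 0 := by
  have : IsAlgClosed (κ A) := H18.isAlgClosed_residueField A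
  obtain ⟨D⟩ := H89J.nonempty_modTwo hq hqM A hA
  exact h.eq_zero IsLocalRing.residue_surjective D hd hd0 (H13.Mz.injInput hq hA M hqM hqd)

/-- **The relation is compatible with `T_ℓ`**, `ℓ ∤ M q`: apply `T_ℓ` to all the functions
(`hecke_series_reduction`); it maps the function field of `X₀(M)` over the residue field to itself, because
all its functions are reductions.  Proved in `H35Geo1`. -/
theorem relation_hecke (hq : q.Prime) (hqM : ¬ q ∣ M) (hA : A.LiesOverPrime q) {x : JZero (M * q)}
    {y : JZero M} (h : H35.Geo.RelD (IsLocalRing.residue A) d d' M q x y) (ℓ : Nat.Primes)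
    (hℓ : ¬ (ℓ : ℕ) ∣ M * q) :
    H35.Geo.RelD (IsLocalRing.residue A) d d' M q (heckeOperatorBar (M * q) ℓ x)
      (heckeOperatorBar M ℓ y) := by
  obtain ⟨D⟩ := H89J.nonempty_modTwo hq hqM A hA
  have : CharP (κ A) q := H05.charP_residueField hq hA
  refine h.hecke D ℓ hℓ (fun h0 => hℓ ?_) (H35.Geo.exists_lift' hq hA)
  rw [CharP.cast_eq_zero_iff (κ A) q] at h0
  rw [← (Nat.prime_dvd_prime_iff_eq hq ℓ.2).mp h0]
  exact dvd_mul_left _ _

/-- **The homomorphism `δ`.**  Suppose the node formula with loss `c` (`nodeInput_iff` of `GuideLevelsMazur`),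
`d = c d' ≠ 0`, `q ∤ d'`, and let `n` be the map of `exists_n` of `GuideLevelsMazur`.  Then the relation is
the graph of a homomorphism `δ : ker n → J₀(M)`.  Proved in `H35Geo3`. -/
theorem exists_delta (hq : q.Prime) (hqM : ¬ q ∣ M) (hA : A.LiesOverPrime q) (hc : M.Coprime q)
    (hd : d = c * d') (hd0 : d ≠ 0) (hqd : ¬ q ∣ d')
    (hnode : H35.Geo.NodeInput d c q M A (IsLocalRing.residue A))
    (n : H35.fixTors A d (JZero (M * q)) →+ ZMod d)
    (hn : ∀ (x : H35.fixTors A d (JZero (M * q))) (u : FB (M * q)) (a b : ℤ)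
      (r s : LaurentSeries (κ A)),
      H35.Geo.IsU A d (M * q) u → H35.Geo.Cls d (M * q) u (x : JZero (M * q)) →
      H97.HasG (IsLocalRing.residue A) (u : LaurentSeries Qb) ((q : Qb) ^ a) r →
      H97.HasG (IsLocalRing.residue A)
        ((H67.atkin (L := Qb) H67.embQbar M q rfl hc u : FB (M * q)) : LaurentSeries Qb)
        ((q : Qb) ^ b) s → n x = ((b - a : ℤ) : ZMod d)) :
    ∃ δ : n.ker →+ JZero M, ∀ (x : n.ker) (y : JZero M),
      H35.Geo.RelD (IsLocalRing.residue A) d d' M q
        ((x : H35.fixTors A d (JZero (M * q))) : JZero (M * q)) y ↔ δ x = y :=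
  H35.Geo.exists_delta hq hA hqM hc hd hd0 (H46.Mz.valInput hq hA (M * q)) hnode
    (H13.Mz.liftInput hq hA M hqM fun h => hd0 (by rw [hd, h, mul_zero]))
    (H13.Mz.injInput hq hA M hqM hqd) n hn

/-- **From reductions to congruences.**  `D : H89J.ModTwo …` is the two-component reduction of `X₀(M q)`.  If
the reduction of `u` on the first component is a `d'`-th power `e^{d'}` (up to a constant), then
`u h₁^{d'} ≡ 1` on the first component for some function `h₁ ≠ 0` (`D.T.Eq1 f`: `f` is in the valuation ring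
of the component and reduces to `1`).  Proved in `H35Geo2`. -/
theorem congruent_to_one (hq : q.Prime) (hA : A.LiesOverPrime q)
    (D : H89J.ModTwo M q A (κ A) (IsLocalRing.residue A)) (hd' : d' ≠ 0) {u : FB (M * q)}
    {e : FC (κ A) M} (he : e ≠ 0)
    (h : H33.Red A (IsLocalRing.residue A) (u : LaurentSeries Qb)
      ((e ^ d' : FC (κ A) M) : LaurentSeries (κ A))) :
    ∃ h₁ : FB (M * q), h₁ ≠ 0 ∧ D.T.Eq1 (u * h₁ ^ d') :=
  H35.Geo.exists_eq1 D hd' (H35.Geo.exists_lift' hq hA) he h

end Relation

/-- **Frobenius on the toric part** (abstract).  `T` is a two-component reduction (`H89SS.TwoComp`;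
`twoComp`, `swap_iff`, `compat_iff` of `GuideBadRed`), `w` exchanges the components, `φ` acts through the
Frobenius `fr` on both of them; `div u = c d' E₀`, and `u`, `w u` are congruent to `d'`-th powers on the
first component, so `u` is congruent to `d'`-th powers on both.  Then `φ x = - q w x` for the class
`x = c [E₀]`: it is the class of a unit pair, given by `d'`-th roots of unity at the double points
(`GuideBadRed`, the toric part); `d'` is prime to the residue characteristic.  Proved in `H35Geo2`. -/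
theorem frobenius_of_class {K F k κ' : Type*} [Field K] [Field F] [Algebra K F] [Field k] [Field κ']
    [Algebra k κ'] {A : ValuationSubring K} {π : A →+* k} {q : ℕ}
    {T : H89SS.TwoComp K F k κ' A π q} (hπ : Function.Surjective π) [IsAlgClosed K] [H3RR.IsFF K F]
    [IsAlgClosed k] [H3RR.IsFF k κ'] [IsLocalHom π] [CharZero K] [Fact q.Prime] [CharP k q]
    (arch : ∀ a b : A, π a = 0 → b ≠ 0 → ∃ n, b ∣ a ^ n) {d' c : ℕ} (hd : (d' : k) ≠ 0)
    {w : F ≃ₐ[K] F} (hw : T.Swap w) {φ : SemilinearAut K F} (hφ : T.Compat φ T.fr) {u h₁ h₂ : F}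
    (hu : u ≠ 0) (hh₁ : h₁ ≠ 0) (hh₂ : h₂ ≠ 0) (heq₁ : T.Eq1 (u * h₁ ^ d'))
    (heq₂ : T.Eq1 (w u * h₂ ^ d')) (E₀ : Divisor.degZero (K := K) (F := F))
    (hE₀ : ∀ v : Place K F, v.ord u = (c * d' : ℕ) * (E₀ : Divisor K F) v) :
    φ • (c • Pic0.mk E₀) + q • (SemilinearAut.ofAlgAut w • (c • Pic0.mk E₀)) = 0 :=
  H35.Geo.frobenius_class hπ arch hd hw hφ hu hh₁ hh₂ heq₁ heq₂ E₀ hE₀

/-! ### 8. The geometric input -/

/-- **From `n` and one map `δ` to the data of Mazur's principle** (`H35.MazurData`, see `mazurInput_data` of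
`GuideLevelsMazur`).  `T`, `T₁` are the Hecke operators on `J`, `J₁`, and `w` commutes with `T` and with the
Galois group.  Put `δ false = δ` and `δ true x = δ (w x)`, which is possible since `n (w x) = - n x`.
`hker` is the relation `φ (c x) = - q w (c x)` for the classes with `δ x = δ (w x) = 0`; it comes from
`frobenius_of_class`.  Proved in `H35Geo3`. -/
theorem data_of_maps {d c q R : ℕ} {A : ValuationSubring Qb} {φ : GQ} {J J₁ : Type*}
    [AddCommGroup J] [Module HeckeAlg J] [DistribMulAction GQ J] [AddCommGroup J₁]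
    [Module HeckeAlg J₁] {w : J →+ J} (T : Nat.Primes → J → J) (T₁ : Nat.Primes → J₁ → J₁)
    (hT : ∀ ℓ x, (heckeGen ℓ : HeckeAlg) • x = T ℓ x)
    (hT₁ : ∀ ℓ x, (heckeGen ℓ : HeckeAlg) • x = T₁ ℓ x)
    (hwT : ∀ ℓ : Nat.Primes, ¬ (ℓ : ℕ) ∣ R → ∀ x, w (T ℓ x) = T ℓ (w x))
    (hwG : ∀ (σ : GQ) (x : J), w (σ • x) = σ • w x) (n : H35.fixTors A d J →+ ZMod d)
    (hn : ∀ ℓ : Nat.Primes, ¬ (ℓ : ℕ) ∣ R → ∀ x x' : H35.fixTors A d J, (x' : J) = T ℓ (x : J) →
      n x' = ((ℓ : ℕ) + 1 : ZMod d) * n x)
    (hw : ∀ x x' : H35.fixTors A d J, (x' : J) = w (x : J) → n x' = - n x) (δ : n.ker →+ J₁)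
    (hδ : ∀ ℓ : Nat.Primes, ¬ (ℓ : ℕ) ∣ R → ∀ x x' : n.ker,
      ((x' : H35.fixTors A d J) : J) = T ℓ ((x : H35.fixTors A d J) : J) → δ x' = T₁ ℓ (δ x))
    (hker : ∀ x y : n.ker, ((y : H35.fixTors A d J) : J) = w ((x : H35.fixTors A d J) : J) →
      δ x = 0 → δ y = 0 → φ • (c • ((x : H35.fixTors A d J) : J)) +
        q • w (c • ((x : H35.fixTors A d J) : J)) = 0) :
    Nonempty (H35.MazurData d c q R A φ J J₁ w) :=
  H35.Geo.mazurData_mk T T₁ hT hT₁ hwT hwG n hn hw δ hδ hker

/-- **The node formula with loss `c` gives the geometric input with loss `c`**, `d = c d'`, `q ∤ M d`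
(`H35.MazurInput`); and the input is trivial if `d ∣ c`.  For `p = 2`: `d = 2^m`, `c = 2` (`mazur_input_two`
of `GuideLevelsMazur`).  Proved in `H35Geo3`. -/
theorem geometric_input_with_loss {d c q M : ℕ} [NeZero M] [NeZero q] [NeZero (M * q)] :
    (∀ d' : ℕ, q.Prime → ¬ q ∣ M → d = c * d' → ¬ q ∣ d →
      (∀ A : ValuationSubring Qb, A.LiesOverPrime q →
        H35.Geo.NodeInput d c q M A (IsLocalRing.residue A)) → H35.MazurInput d c q M) ∧
      (d ∣ c → H35.MazurInput d c q M) := by
  refine ⟨fun d' hq hqM hd hqd H => ?_, H35.Geo.mazurInput_of_dvd⟩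
  have hd0 : d ≠ 0 := fun h => hqd (h ▸ dvd_zero q)
  have hqd' : ¬ q ∣ d' := fun h => hqd (hd ▸ h.mul_left c)
  have hd'0 : d' ≠ 0 := fun h => hd0 (by rw [hd, h, mul_zero])
  exact H35.Geo.mazurInput_of hq hqM hd hqd (fun A hA => H46.Mz.nInput hq hA M hd0)
    (fun A hA => H46.Mz.valInput hq hA (M * q)) H
    (fun A hA => H13.Mz.liftInput hq hA M hqM hd'0) (fun A hA => H13.Mz.injInput hq hA M hqM hqd')

/-- **The node formula is all that is needed**: if it holds for `p`, without loss and for all places above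
`q`, then the geometric input of Mazur's principle (`H35.MazurInput`; `mazurInput_data` of
`GuideLevelsMazur`) holds for `p`, `q`, `M`.  The other parts (the map `n`, lifting and injectivity of the
reduction for torsion classes, the toric part) hold without further conditions.  Proved in `H46MzOdd` (with
`H35Geo3`). -/
theorem geometric_input {p q M : ℕ} [NeZero M] [NeZero q] [NeZero (M * q)] (hp : p.Prime)
    (hq : q.Prime) (hqp : q ≠ p) (hqM : ¬ q ∣ M)
    (H : ∀ A : ValuationSubring Qb, A.LiesOverPrime q →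
      H35.Geo.NodeInput p 1 q M A (IsLocalRing.residue A)) : H35.MazurInput p 1 q M :=
  H46.Mz.mazurInput_of_node hp hq hqp hqM H

/-! ### 9. A representation inside `J₀(M q)` modulo `p^m`

In `removal_of_prime` of `GuideLevelsMazur` the group generated by the Galois orbit of the point `y`
(`H35.orb GQ y`) contains the representation `ρ` modulo `p^m`: this is `embedding_in_orbit` of
`GuideResidualSteps`, and its two hypotheses are proved here.  `H35.redRep ρ m` is `ρ` modulo `p^m`, acting
on column vectors. -/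

/-- **The image of `ρ` modulo `p^m` spans the matrix algebra** over `ℤ/p^m` if it does so modulo `p`
(successive approximation).  Proved in `H35LTSpan`. -/
theorem reduction_spans {p : ℕ} [Fact p.Prime] {ρ : GQ →* Matrix (Fin 2) (Fin 2) ℤ_[p]}
    (h : Submodule.span (ZMod p) (Set.range (H53.mapMat PadicInt.toZMod ρ)) = ⊤) (m : ℕ) :
    Submodule.span (ZMod (p ^ m)) (Set.range (H35.redRep ρ m)) = ⊤ :=
  H35.span_redRep h m

/-- **The characteristic equations hold on the orbit.**  Let `p^m y = 0`, `T_ℓ y = a_ℓ y` for `ℓ ∉ S`, and let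
`ρ` be continuous with trace `a_ℓ` and determinant `ℓ` at the Frobenius elements, `ℓ ∉ S`.  Then for every
`g` in the Galois group `g² - t g + d = 0` on the group generated by the orbit of `y`, where `t`, `d` are
integers congruent to the trace and the determinant of `ρ(g)` modulo `p^m`.  Proof: for Frobenius elements
this is the relation of Eichler and Shimura (`hF`); on a finite extension of `ℚ` every `g` is a power of a
Frobenius element, and the relation is inherited by powers.  Proved in `H35LTRel`. -/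
theorem quadratic_on_orbit {p : ℕ} [Fact p.Prime] {J : Type*} [AddCommGroup J] [Module HeckeAlg J]
    [DistribMulAction GQ J] [SMulCommClass GQ HeckeAlg J] {N : ℕ} {S : Finset ℕ} (hpS : p ∈ S)
    (hNS : ∀ q : ℕ, q.Prime → q ∣ N → q ∈ S)
    (hF : FrobeniusQuadratic (K := ℚ) (L := Qb) N p J) (hlev : H31.FiniteLevel p J)
    {ρ : GQ →* Matrix (Fin 2) (Fin 2) ℤ_[p]} (hρ : H53.MCont ℤ_[p] ρ) (a : ℕ → ℤ)
    (hfrob : ∀ ℓ : ℕ, ℓ.Prime → ℓ ∉ S → ∀ A : ValuationSubring Qb, A.LiesOverPrime ℓ →
      ∀ φ : GQ, A.IsFrobeniusAt φ ℓ →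
        (ρ φ).trace = ((a ℓ : ℤ) : ℤ_[p]) ∧ (ρ φ).det = (ℓ : ℤ_[p]))
    {m : ℕ} {y : J} (hy : p ^ m • y = 0)
    (hT : ∀ ℓ : Nat.Primes, (ℓ : ℕ) ∉ S → heckeGen ℓ • y = a ℓ • y) (g : GQ) :
    ∃ t d : ℤ, LinearMap.trace (ZMod (p ^ m)) _ (H35.redRep ρ m g) = t ∧
      LinearMap.det (H35.redRep ρ m g) = d ∧
        ∀ x ∈ H35.orb GQ y, g • (g • x) - t • (g • x) + d • x = 0 :=
  H35.quadratic_orb hpS hNS hF hlev hρ a hfrob hy hT g

end Fermat.Agent.Guide.LevelsMazurSteps
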