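import Mathlib
import Fermat.Agent.H53TWL3
import Fermat.Agent.H69TWMod
import Fermat.Agent.H55CoeffRing

/-!
# From the Galois side and the module part to the Taylor-Wiles-Kisin level (helper68)
-/

set_option autoImplicit false
set_option linter.style.haveILetI false
set_option linter.unusedSectionVars false

noncomputable section

open IsLocalRing Polynomial GaloisRep
open Fermat.Agent.H53 Fermat.Agent.H55 Fermat.Agent.H69.EG Fermat.Agent.H57.Tame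

namespace Fermat.Agent.H68.Tw

variable {𝒪 : Type} [CommRing 𝒪] [IsDomain 𝒪] [IsDiscreteValuationRing 𝒪]
    [IsAdicComplete (maximalIdeal 𝒪) 𝒪]
  {p : ℕ} [Fact p.Prime] {ρbar : ResidualGaloisRep (ResidueField 𝒪)}
  {b : Module.Basis (Fin 2) (ResidueField 𝒪) ρbar.V} {A : Finset ℕ} {τ : Type} [Fintype τ]
  {qT : τ → ℕ} {pl : ∀ t, PlaceData p (qT t)} {u : τ → 𝒪} {k n : ℕ} {S₀ : Finset ℕ}

/-- the element which has to kill the module at the prime `qT t` -/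
abbrev prodElt (E : GalLevel p ρbar b A qT pl u k n S₀) (Z : τ → Finset 𝒪ˣ) (t : τ) : E.D.R :=
  ∏ ζ ∈ Z t, (E.r (pl t).σ 0 0 + E.r (pl t).σ 1 1 - algebraMap 𝒪 E.D.R ((ζ : 𝒪) + (ζ⁻¹ : 𝒪ˣ)))

/-- the element which has to kill the module modulo `ϖ` -/
abbrev hElt (E : GalLevel p ρbar b A qT pl u k n S₀) (t₀ : τ) : E.D.R :=
  (E.r (pl t₀).φ 0 0 + E.r (pl t₀).φ 1 1) ^ 2 - ((qT t₀ : E.D.R) + 1) ^ 2

/-- **Galois side + module part = Taylor-Wiles-Kisin level** -/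
theorem nonempty_twLevel (E : GalLevel p ρbar b A qT pl u k n S₀) {ϖ : 𝒪} {D : ℕ}
    {Z : τ → Finset 𝒪ˣ} {t₀ : τ}
    (h : Nonempty (TWModPart 𝒪 ϖ p (3 * Nat.card τ + k) n D E.D.R (prodElt E Z) (hElt E t₀))) :
    Nonempty (TWLevel 𝒪 ϖ p (3 * Nat.card τ + k) n D (BRing 𝒪 τ k) (bVar 𝒪 k) qT u Z t₀) := by
  obtain ⟨mp⟩ := h
  exact ⟨mp.toLevel (B := BRing 𝒪 τ k) (X := bVar 𝒪 k) (v := u) E.β E.β_surj
    (fun t => E.r (pl t).σ) (fun t => E.r (pl t).φ) E.det_Sg E.det_Ph E.tame E.tr_Sg E.tr_Ph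
    E.hX0 E.hX1 E.hX2 E.hX3 E.hX4 E.hX5⟩

end Fermat.Agent.H68.Tw
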