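import Fermat.Agent.H68TwGlue
import Fermat.Agent.H68TwLevel

/-!
# Guide: points of the Hecke algebra and of the deformation ring at a level

(helper68; library files by helper68, `H53*` by helper53, `H4EA` by helper4, `H69TWMod` by helper69)

Companion of `GuideLevelsIhara` (section 3, the Hecke side of a level) and of `GuideLifting`. As in
the other guides there is no new mathematics: every theorem is written out in full and proved by
citing the library. Sections 1 and 2 are in the proof terms of S38, S43, S45, S46, S50, S59, S60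
(and S03, S04, S06, S01), sections 3 to 5 in those of S43, S45, S03 and S01. Notes: [139], [244].

**What it is about.** In the proof of theorem `LL` (level lowering by Ihara avoidance) one needs for
every level a module `M` over the deformation ring `R`. It is a localisation of the cohomology group
`H¹(Γ₀(M₁), O)`, where `Γ₀(M₁)` acts on the coefficients by a character, and `R` acts through a map
`π` from `R` to the Hecke algebra `T` with trivial character of a large level. Three facts are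
needed. (a) At every eigenvector in `M` the diamond operators of the `j`-th Taylor-Wiles prime are
trivial if and only if the element `1 + c_j` of `R` acts as `1` (so that the two actions of the
group of diamond operators have the same norm, see `norm_trick` in `GuideLevelsIhara`). (b) For each
prime `q_t` of the set `T` the product of the `tr r(σ_t) - (z + z⁻¹)`, over all `z ≠ 1` of `p`-power
order dividing `q_t - 1`, kills the module whose character is ramified at `q_t`. (c) For one chosen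
prime `q_t` of `T` the element `(tr r(φ_t))² - (q_t + 1)²` kills the classes which are new at `q_t`.

**How this is proved.** The module has no torsion and `T` is reduced, so it is enough to check (b)
and (c) at the eigenvectors `x` of `M ⊗ O'`, where `O'` is a finite extension of `O`. Such an `x`
defines a homomorphism `lam : T → O'` and, by composition with `π`, a representation over `O'`. All
three facts become statements on the restriction of this representation to the decomposition group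
of one prime `q`. They follow from three theorems of section 4 of `GuideEigen` (file `H4EA`):
`not_unipotent_of_ramified` (if the character of `x` is ramified at `q`, the representation is not
unipotent on inertia at `q`), `unipotent_of_trivial` (if it is unramified at `q`, the representation
is unipotent) and `steinberg_of_traces_zero` (if `x` is killed by both traces to level `M₁ / q`,
Frobenius has the eigenvalues `v` and `v q`, `v = ± 1`). For (b) one needs in addition the *tame
alternative*: at a prime `q ≡ 1` modulo `p` a representation which is residually unramified is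
unipotent on inertia, or a tame generator has the eigenvalues `z` and `z⁻¹` with `z ≠ 1` of
`p`-power order.

Order: (1) the tame alternative; (2) the representation at a point; (3) points of the Galois side of
a level; (4) eigenvectors in the cohomology with character; (5) the two sides of a level.
-/

set_option autoImplicit false

open IsLocalRing Polynomial CuspForm GaloisRep
open Fermat.Agent.H53 Fermat.Agent.H30 Fermat.Agent.H55 Fermat.Agent.H4 Fermat.Agent.H70.Coh
open Fermat.Agent.H94.BR Fermat.Agent.H70.Mod Fermat.Agent.H68.Tw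

noncomputable section

namespace Fermat.Agent.Guide.LevelsPoints

/-- The absolute Galois group of `ℚ`. -/
local notation "GQ" => (AlgebraicClosure ℚ ≃ₐ[ℚ] AlgebraicClosure ℚ)

/-! ## 1. The tame alternative

`M2 B` is the ring of `2 × 2` matrices over `B`; `Cong I M` says that `M ≡ 1` modulo the ideal `I`;
`MCont B r` says that `r` is continuous: for every `n` one has `r σ ≡ 1` modulo the `n`-th power of
the maximal ideal on the Galois group of a finite extension. `piSys p q 1` is a `p`-th root of `q`. -/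

/-- **The notions**, unfolded. `ntRoots O p a` is the finite set of the units `z ≠ 1` of `O` with
`z ^ (p ^ a) = 1`. Files: `H53Matrix`, `H53Tame5`, `H53Tame1`, `H55CoeffRing`. -/
theorem notions {B O : Type} [CommRing B] [IsLocalRing B] [CommRing O] [IsDomain O] (p : ℕ)
    [Fact p.Prime] (q a : ℕ) (r : GQ →* M2 B) (I : Ideal B) (M : M2 B) (z : Oˣ) :
    (MCont B r ↔ ∀ n : ℕ, ∃ L : IntermediateField ℚ (AlgebraicClosure ℚ),
      FiniteDimensional ℚ L ∧ ∀ σ : GQ, (∀ x ∈ L, σ x = x) →
        ∀ i j, r σ i j - (1 : M2 B) i j ∈ maximalIdeal B ^ n) ∧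
    (Cong I M ↔ ∀ i j, M i j - (1 : M2 B) i j ∈ I) ∧
    (z ∈ ntRoots O p a ↔ z ^ p ^ a = 1 ∧ z ≠ 1) ∧ piSys p q 1 ^ p ^ 1 = q :=
  ⟨Iff.rfl, Iff.rfl, mem_ntRoots, piSys_pow' p q 1⟩

/-- **The eigenvalue.** `A` is a local domain, `p` an odd prime in its maximal ideal, `q - 1 = p^a m`
with `p ∤ m`, `a > 0`. Let `z w = 1`, `z ≡ 1` modulo the maximal ideal and `z^q + w^q = z + w`. Then
`z = 1` or `z^(p^a) = 1`. Proof: the equation says that `z^(q-1) = 1` or `z^(q+1) = 1`, and
`1 + z + ... + z^(n-1)` is a unit if `p ∤ n`; apply this to `n = q + 1 ≡ 2`, respectively to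
`z^(p^a)` and `n = m`. File: `H68TwTame`. -/
theorem eigenvalue_alternative {A : Type*} [CommRing A] [IsDomain A] [IsLocalRing A] {p : ℕ}
    (hp : p.Prime) (hp2 : p ≠ 2) (hpA : (p : A) ∈ maximalIdeal A) {q a m : ℕ}
    (hq : 0 < q) (hqa : q - 1 = p ^ a * m) (hm : ¬ p ∣ m) (ha : 0 < a) {z w : A} (hzw : z * w = 1)
    (hz : z - 1 ∈ maximalIdeal A) (h : z ^ q + w ^ q = z + w) :
    z = 1 ∨ z ^ p ^ a = 1 :=
  eq_one_or_pow hp hp2 hpA hq hqa hm ha hzw hz h

/-- **Traces of powers.** If `det S = 1` and the trace of `S` is `z + w`, `z w = 1`, the trace of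
`S^n` is `z^n + w^n`. File: `H68TwTame`. -/
theorem trace_of_power {B : Type*} [CommRing B] [Nontrivial B] (S : Matrix (Fin 2) (Fin 2) B)
    (hdet : S.det = 1) {K : Type*} [CommRing K] (f : B →+* K) {z w : K} (hzw : z * w = 1)
    (hT : f S.trace = z + w) (n : ℕ) : f (S ^ n).trace = z ^ n + w ^ n :=
  trace_pow_eq S hdet f hzw hT n

/-- **The tame alternative for two matrices.** `B` is a local domain, `p`, `q`, `a`, `m` as above.
Let `Ph Sg = Sg^q Ph` (`Ph` is the matrix of Frobenius, `Sg` that of a tame generator), `det Sg = 1`,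
`det Ph ≠ 0` and `tr Sg ≡ 2` modulo the maximal ideal. Then `tr Sg = 2`, or `tr Sg = z + z⁻¹` for a
root of unity `z ≠ 1` in an algebraic closure with `z^(p^a) = 1`. Proof: the traces of `Sg` and
`Sg^q` are equal; apply the previous two theorems in the localisation of `B[z]` at a maximal ideal.
File: `H68TwTame`. -/
theorem tame_alternative {B : Type} [CommRing B] [IsDomain B] [IsLocalRing B] {p : ℕ}
    (hp : p.Prime) (hp2 : p ≠ 2) (hpB : (p : B) ∈ maximalIdeal B) {q a m : ℕ} (hq : 0 < q)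
    (hqa : q - 1 = p ^ a * m) (hm : ¬ p ∣ m) (ha : 0 < a)
    {Sg Ph : Matrix (Fin 2) (Fin 2) B} (hdS : Sg.det = 1) (hdP : Ph.det ≠ 0)
    (hrel : Ph * Sg = Sg ^ q * Ph) (htr : Sg.trace - 2 ∈ maximalIdeal B) :
    Sg.trace = 2 ∨ ∃ z w : AlgebraicClosure (FractionRing B), z * w = 1 ∧ z ≠ 1 ∧
      z ^ p ^ a = 1 ∧ algebraMap B (AlgebraicClosure (FractionRing B)) Sg.trace = z + w :=
  tame_alt hp hp2 hpB hq hqa hm ha hdS hdP hrel htr

/-- **The same with roots of unity in the coefficients**: if `O ⊂ B` contains a primitive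
`p^a`-th root of unity, then `tr Sg = 2` or `tr Sg = z + z⁻¹` with `z ≠ 1`, `z^(p^a) = 1` in `O`.
File: `H68TwTame`. -/
theorem tame_alternative_roots {O B : Type} [CommRing O] [IsDomain O] [CommRing B] [IsDomain B]
    [IsLocalRing B] [Algebra O B] (hinj : Function.Injective (algebraMap O B)) {p : ℕ}
    [Fact p.Prime] (hp2 : p ≠ 2) (hpB : (p : B) ∈ maximalIdeal B) {q a m : ℕ} (hq : 0 < q)
    (hqa : q - 1 = p ^ a * m) (hm : ¬ p ∣ m) (ha : 0 < a) {ζ : O}
    (hζ : IsPrimitiveRoot ζ (p ^ a))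
    {Sg Ph : Matrix (Fin 2) (Fin 2) B} (hdS : Sg.det = 1) (hdP : Ph.det ≠ 0)
    (hrel : Ph * Sg = Sg ^ q * Ph) (htr : Sg.trace - 2 ∈ maximalIdeal B) :
    Sg.trace = 2 ∨ ∃ z ∈ ntRoots O p a, Sg.trace = algebraMap O B ((z : O) + (z⁻¹ : Oˣ)) :=
  tame_alt_ntRoots hinj hp2 hpB hq hqa hm ha hζ hdS hdP hrel htr

/-- **One tame generator decides.** `r` is a continuous matrix representation over a local ring `B`,
separated for the adic topology (`hH`), `p ≠ q`, inertia above `q` acts modulo the maximal ideal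
through a `p`-group (`hI`), and the determinant is `1` on inertia (`hdet`). If `σ₀` is in the inertia
group of one place above `q`, moves a `p`-th root of `q`, and `tr r(σ₀) = 2`, then all inertia groups
above `q` act with the characteristic polynomial `(X - 1)²`. Proof: modulo each power of the maximal
ideal the image of inertia is generated by `r(σ₀)` (`H53Tame5`); then use the traces of powers.
File: `H68TwTame`. -/
theorem unipotent_of_generator {P : ValuationSubring (AlgebraicClosure ℚ)} {q p : ℕ}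
    [Fact p.Prime] {B : Type} [CommRing B] [IsLocalRing B] {r : GQ →* M2 B} (hq : q.Prime)
    (hP : P.LiesOverPrime q) (hpq : p ≠ q) (hH : ∀ x : B, (∀ n, x ∈ maximalIdeal B ^ n) → x = 0)
    (hpB : (p : B) ∈ maximalIdeal B) (hr : MCont B r)
    (hI : ∀ τ ∈ P.inertiaSubgroupIn ℚ, ∃ n, Cong (maximalIdeal B) (r τ ^ p ^ n))
    (hdet : ∀ τ ∈ P.inertiaSubgroupIn ℚ, (r τ).det = 1)
    {σ₀ : GQ} (hσ₀ : σ₀ ∈ P.inertiaSubgroupIn ℚ) (hne : σ₀ (piSys p q 1) ≠ piSys p q 1)
    (htr : (r σ₀).trace = 2) :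
    ∀ P' : ValuationSubring (AlgebraicClosure ℚ), P'.LiesOverPrime q →
      ∀ σ ∈ P'.inertiaSubgroupIn ℚ, (r σ).charpoly = (X - 1) ^ 2 :=
  H68.Tw.unipotent_of_generator hq hP hpq hH hpB hr hI hdet hσ₀ hne htr

/-- **The tame alternative for representations.** `r`, `P` and `σ₀` are as in the previous theorem
(`B` separated, inertia a `p`-group modulo the maximal ideal, determinant `1`), `B` is a local
domain, `q - 1 = p^a m` as above, `O ⊂ B` contains a primitive `p^a`-th root of unity, `φ` is an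
element with `r(φ) r(σ₀) = r(σ₀)^q r(φ)` (a Frobenius element), and `tr r(σ₀) ≡ 2`. Then `r` is
unipotent on all inertia groups above `q`, or `tr r(σ₀) = z + z⁻¹` with `z ≠ 1`, `z^(p^a) = 1`.
File: `H68TwTame`. -/
theorem unipotent_or_trace {P : ValuationSubring (AlgebraicClosure ℚ)} {q p : ℕ}
    [Fact p.Prime] {B : Type} [CommRing B] [IsLocalRing B] {r : GQ →* M2 B}
    {O : Type} [CommRing O] [IsDomain O] [IsDomain B] [Algebra O B]
    (hinj : Function.Injective (algebraMap O B)) (hp2 : p ≠ 2) (hq : q.Prime)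
    (hP : P.LiesOverPrime q) (hpB : (p : B) ∈ maximalIdeal B)
    (hH : ∀ x : B, (∀ n, x ∈ maximalIdeal B ^ n) → x = 0)
    {a m : ℕ} (hqa : q - 1 = p ^ a * m) (hm : ¬ p ∣ m) (ha : 0 < a) {ζ : O}
    (hζ : IsPrimitiveRoot ζ (p ^ a)) (hr : MCont B r)
    (hI : ∀ τ ∈ P.inertiaSubgroupIn ℚ, ∃ n, Cong (maximalIdeal B) (r τ ^ p ^ n))
    (hdet : ∀ τ ∈ P.inertiaSubgroupIn ℚ, (r τ).det = 1)
    {σ₀ φ : GQ} (hσ₀ : σ₀ ∈ P.inertiaSubgroupIn ℚ) (hne : σ₀ (piSys p q 1) ≠ piSys p q 1)
    (hrel : r φ * r σ₀ = r σ₀ ^ q * r φ) (htr : (r σ₀).trace - 2 ∈ maximalIdeal B) :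
    (∀ P' : ValuationSubring (AlgebraicClosure ℚ), P'.LiesOverPrime q →
      ∀ σ ∈ P'.inertiaSubgroupIn ℚ, (r σ).charpoly = (X - 1) ^ 2) ∨
    ∃ z ∈ ntRoots O p a, (r σ₀).trace = algebraMap O B ((z : O) + (z⁻¹ : Oˣ)) :=
  H68.Tw.unipotent_or_trace hinj hp2 hq hP hpB hH hqa hm ha hζ hr hI hdet hσ₀ hne hrel htr

/-! ## 2. The representation at a point

`D : DeformationRingData O ρbar 𝒟` is a deformation ring with universal representation `D.ρ` over
`D.R`. A point is a local homomorphism `f : D.R → O'` of `O`-algebras; the representation at the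
point is `D.ρ.baseChangeAlong f`. `toMat` is the matrix form of a representation in a basis and
`mapMat f` applies `f` to the entries. (The structure `DeformationRingData` contains the condition
that `ρbar` is absolutely irreducible, field `absIrr`.) -/

/-- **Residual irreducibility is kept by extensions of the coefficient field**, because an absolutely
irreducible representation spans the matrix algebra (Burnside). File: `H68TwAtt`. -/
theorem irreducible_of_extension {k k' : Type} [Field k] [Field k'] (φ : k →+* k')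
    (ρ : ResidualGaloisRep k) (h : ρ.IsAbsolutelyIrreducible) :
    (ρ.baseChangeAlong φ).IsIrreducible :=
  isIrreducible_baseChangeAlong φ ρ h

/-- **The representation at a point is residually irreducible.** File: `H68TwAtt`. -/
theorem point_irreducible {O : Type} [CommRing O] [IsDomain O] [IsDiscreteValuationRing O]
    [IsAdicComplete (maximalIdeal O) O]
    {ρbar : ResidualGaloisRep (ResidueField O)}
    {𝒟 : ∀ ⦃A : Type⦄ [CommRing A] [IsLocalRing A] [Algebra O A], GaloisRepAdic A → Prop}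
    (D : DeformationRingData O ρbar 𝒟) {O' : Type} [CommRing O'] [IsLocalRing O'] [Algebra O O']
    [IsLocalHom (algebraMap O O')] (f : D.R →ₐ[O] O') (hf : IsLocalHom (f : D.R →+* O')) :
    (D.ρ.baseChangeAlong (f : D.R →+* O') hf).residual.IsIrreducible :=
  ptRep_residual_irreducible D f hf

/-- **Matrices at a point.** Characteristic polynomials, and unipotence on inertia at `q`, of the
representation at `f` can be read off from the matrices `mapMat f (toMat D.ρ.ρ b₁)`.
File: `H68TwAtt`. -/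
theorem point_matrices {O : Type} [CommRing O] [IsDomain O] [IsDiscreteValuationRing O]
    [IsAdicComplete (maximalIdeal O) O]
    {ρbar : ResidualGaloisRep (ResidueField O)}
    {𝒟 : ∀ ⦃A : Type⦄ [CommRing A] [IsLocalRing A] [Algebra O A], GaloisRepAdic A → Prop}
    (D : DeformationRingData O ρbar 𝒟) {O' : Type} [CommRing O'] [IsLocalRing O'] [Algebra O O']
    [IsLocalHom (algebraMap O O')] (f : D.R →ₐ[O] O') (hf : IsLocalHom (f : D.R →+* O'))
    (b₁ : Module.Basis (Fin 2) D.R D.ρ.V) (q : ℕ) :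
    (∀ σ : GQ, LinearMap.charpoly ((D.ρ.baseChangeAlong (f : D.R →+* O') hf).ρ σ) =
      (mapMat (f : D.R →+* O') (toMat D.ρ.ρ b₁) σ).charpoly) ∧
    ((D.ρ.baseChangeAlong (f : D.R →+* O') hf).IsUnipotentOnInertiaAt q ↔
      ∀ P : ValuationSubring (AlgebraicClosure ℚ), P.LiesOverPrime q →
        ∀ σ ∈ P.inertiaSubgroupIn ℚ,
          (mapMat (f : D.R →+* O') (toMat D.ρ.ρ b₁) σ).charpoly = (X - 1) ^ 2) :=
  ⟨ptRep_charpoly D f hf b₁, ptRep_isUnipotent_iff D f hf b₁ q⟩

/-- **Attached representations.** `D` a deformation ring, `b₁` a basis of its universal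
representation, `T` the localised Hecke algebra of level `N` (operators `T_ℓ`, `ℓ ∉ S`) with its
Galois representation (`H`), `π : D.R → T` the map such that the matrices of the two
representations correspond (`hb₂`). For a homomorphism `lam : T → O'` of `O`-algebras the
specialisation of the universal representation at `lam ∘ π` has for every `ℓ ∉ S` and every
Frobenius element `φ` at `ℓ` the characteristic polynomial `X² - lam(T_ℓ) X + ℓ` (`aOf lam ℓ` is
`lam(T_ℓ)`, see the next theorem). File: `H68TwAtt`. -/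
theorem point_isAttached {N : ℕ} [NeZero N] {S : Finset ℕ}
    {O : Type} [CommRing O] [IsDomain O] [IsDiscreteValuationRing O]
    [IsAdicComplete (maximalIdeal O) O] [Finite (ResidueField O)] [CharZero O]
    {θ : heckeAlgebra N 2 (↑S : Set ℕ) →+* ResidueField O} {ρbar : ResidualGaloisRep (ResidueField O)}
    {𝒟 : ∀ ⦃A : Type⦄ [CommRing A] [IsLocalRing A] [Algebra O A], GaloisRepAdic A → Prop}
    (D : DeformationRingData O ρbar 𝒟)
    {O' : Type} [CommRing O'] [IsLocalRing O'] [Algebra O O'] [IsLocalHom (algebraMap O O')]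
    (hNS : ∀ q : ℕ, q.Prime → q ∣ N → q ∈ S)
    {H : HeckeGaloisRepDatum N (↑S : Set ℕ) O θ (heckeLocal N (↑S : Set ℕ) O θ)}
    (hH : H.π = heckeLocal.π N (↑S : Set ℕ) O θ)
    (b₁ : Module.Basis (Fin 2) D.R D.ρ.V)
    (b₂ : Module.Basis (Fin 2) (heckeLocal N (↑S : Set ℕ) O θ) H.ρ.V)
    (π : D.R →ₐ[O] heckeLocal N (↑S : Set ℕ) O θ)
    (hb₂ : toMat H.ρ.ρ b₂ = mapMat (π : D.R →+* heckeLocal N (↑S : Set ℕ) O θ) (toMat D.ρ.ρ b₁))
    (lam : heckeLocal N (↑S : Set ℕ) O θ →ₐ[O] O')
    (hf : IsLocalHom ((lam.comp π : D.R →ₐ[O] O') : D.R →+* O')) :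
    ∀ ℓ : ℕ, ℓ.Prime → ℓ ∉ S → ∀ A : ValuationSubring (AlgebraicClosure ℚ), A.LiesOverPrime ℓ →
      ∀ φ : AlgebraicClosure ℚ ≃ₐ[ℚ] AlgebraicClosure ℚ, A.IsFrobeniusAt φ ℓ →
        LinearMap.charpoly
            ((D.ρ.baseChangeAlong ((lam.comp π : D.R →ₐ[O] O') : D.R →+* O') hf).ρ φ) =
          X ^ 2 - C (aOf lam ℓ) * X + C ((ℓ : O')) :=
  ptRep_isAttached D hNS hH b₁ b₂ π hb₂ lam hf

/-- **The eigenvalues**: `aOf lam ℓ = lam(T_ℓ)` for every prime `ℓ` outside `S` not dividing the
level. File: `H68TwAtt`. -/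
theorem aOf_eq {N : ℕ} [NeZero N] {S : Finset ℕ}
    {O : Type} [CommRing O] [IsDomain O] [IsDiscreteValuationRing O]
    [IsAdicComplete (maximalIdeal O) O] [Finite (ResidueField O)] [CharZero O]
    {θ : heckeAlgebra N 2 (↑S : Set ℕ) →+* ResidueField O}
    {O' : Type} [CommRing O'] [IsLocalRing O'] [Algebra O O'] [IsLocalHom (algebraMap O O')]
    (lam : heckeLocal N (↑S : Set ℕ) O θ →ₐ[O] O') {ℓ : ℕ} (hℓ : ℓ.Prime)
    (hℓN : ¬ ℓ ∣ N) (hℓS : ℓ ∉ (↑S : Set ℕ)) :
    aOf lam ℓ = lam (heckeLocal.π N (↑S : Set ℕ) O θ (heckeAlgebra.T hℓ hℓN hℓS)) :=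
  H68.Tw.aOf_eq lam hℓ hℓN hℓS

/-! ## 3. Points of the Galois side of a level

`E : GalLevel p ρbar b A qT pl u k n S₀` (file `H53TWL3`; `exists_galois_level`,
`galois_level_primes` and `galois_level_presentation` in `GuideLevelsIhara`) is the Galois side of a
level: Taylor-Wiles primes `E.qv j` with `E.qv j ≡ 1` modulo `p ^ (n + 1)` and different eigenvalues
of Frobenius, and the universal deformation ring `E.D.R`, where, in addition to `p` (flat) and the
primes of `A` (unipotent on inertia), ramification is allowed at the `E.qv j` and at the primes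
`qT t`. `E.r` is the matrix form of the universal representation; `pl t : PlaceData p (qT t)` is a
place above `qT t` with a Frobenius element `(pl t).φ` and a tame generator `(pl t).σ` (an element
of the inertia group which moves `piSys p (qT t) 1`). At `E.qv j` the universal representation is
the sum of two characters, and `E.c j` is the value of the first one at the tame generator,
minus `1`. -/

section Level

variable {𝒪 : Type} [CommRing 𝒪] [IsDomain 𝒪] [IsDiscreteValuationRing 𝒪]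
  [IsAdicComplete (maximalIdeal 𝒪) 𝒪] {p : ℕ} [Fact p.Prime]
  {ρbar : ResidualGaloisRep (ResidueField 𝒪)}
  {b : Module.Basis (Fin 2) (ResidueField 𝒪) ρbar.V} {A : Finset ℕ} {τ : Type} [Fintype τ]
  {qT : τ → ℕ} {pl : ∀ t, PlaceData p (qT t)} {u : τ → 𝒪} {k n : ℕ} {S₀ : Finset ℕ}
  (E : GalLevel p ρbar b A qT pl u k n S₀)

section Point

variable {O' : Type} [CommRing O'] [IsDomain O'] [IsLocalRing O']
  [IsAdicComplete (maximalIdeal O') O'] [Algebra 𝒪 O'] [IsLocalHom (algebraMap 𝒪 O')]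

/-- **At the Taylor-Wiles primes** the representation at the point `f` is unipotent on inertia if
and only if `f (c_j) = 0`: the two characters are `χ` and `χ⁻¹` on inertia, and `χ(σ)` is congruent
to `1`. File: `H68TwGal`. -/
theorem unipotent_iff_diamond (f : E.D.R →ₐ[𝒪] O') (hf : IsLocalHom (f : E.D.R →+* O'))
    (j : Fin (3 * Nat.card τ + k)) :
    (E.D.ρ.baseChangeAlong (f : E.D.R →+* O') hf).IsUnipotentOnInertiaAt (E.qv j) ↔
      f (E.c j) = 0 :=
  isUnipotent_iff E f hf j

/-- **At the primes of `T`** (`ρbar` is unramified there, `qT t - 1 = p^a m`): if the representation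
at the point `f` is not unipotent on inertia at `qT t`, its trace at the tame generator is
`z + z⁻¹` with `z ≠ 1`, `z^(p^a) = 1`. This is the tame alternative of section 1. File: `H68TwGal`. -/
theorem trace_of_not_unipotent (hinj : Function.Injective (algebraMap 𝒪 O')) (hp2 : p ≠ 2)
    (f : E.D.R →ₐ[𝒪] O') (hf : IsLocalHom (f : E.D.R →+* O')) {t : τ}
    (hqT : (qT t).Prime) (hunr : ρbar.IsUnramifiedAt (qT t))
    {a m : ℕ} (hqa : qT t - 1 = p ^ a * m) (hm : ¬ p ∣ m) (ha : 0 < a) {ζ : 𝒪}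
    (hζ : IsPrimitiveRoot ζ (p ^ a))
    (h : ¬ (E.D.ρ.baseChangeAlong (f : E.D.R →+* O') hf).IsUnipotentOnInertiaAt (qT t)) :
    ∃ z ∈ ntRoots 𝒪 p a, f (E.r (pl t).σ).trace = algebraMap 𝒪 O' ((z : 𝒪) + (z⁻¹ : 𝒪ˣ)) :=
  trace_eq_of_not_unipotent E hinj hp2 f hf hqT hunr hqa hm ha hζ h

/-- **The product.** Hence the product of the `tr r(σ) - (z + z⁻¹)` over all these `z` vanishes at
`f`. File: `H68TwGal`. -/
theorem product_eq_zero (hinj : Function.Injective (algebraMap 𝒪 O')) (hp2 : p ≠ 2)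
    (f : E.D.R →ₐ[𝒪] O') (hf : IsLocalHom (f : E.D.R →+* O')) {t : τ}
    (hqT : (qT t).Prime) (hunr : ρbar.IsUnramifiedAt (qT t))
    {a m : ℕ} (hqa : qT t - 1 = p ^ a * m) (hm : ¬ p ∣ m) (ha : 0 < a) {ζ : 𝒪}
    (hζ : IsPrimitiveRoot ζ (p ^ a))
    (h : ¬ (E.D.ρ.baseChangeAlong (f : E.D.R →+* O') hf).IsUnipotentOnInertiaAt (qT t)) :
    f (∏ z ∈ ntRoots 𝒪 p a, (E.r (pl t).σ 0 0 + E.r (pl t).σ 1 1 -
      algebraMap 𝒪 E.D.R ((z : 𝒪) + (z⁻¹ : 𝒪ˣ)))) = 0 :=
  prodElt_eq_zero E hinj hp2 f hf hqT hunr hqa hm ha hζ h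

/-- **Steinberg points.** If Frobenius at `q = qT t` has the eigenvalues `v`, `v q` with `v = ± 1`,
then `(tr r(φ))² - (q + 1)²` vanishes at the point. File: `H68TwGal`. -/
theorem steinberg_eq_zero (f : E.D.R →ₐ[𝒪] O') (hf : IsLocalHom (f : E.D.R →+* O')) {t : τ}
    {v : O'} (hv : v = 1 ∨ v = -1)
    (h : LinearMap.charpoly ((E.D.ρ.baseChangeAlong (f : E.D.R →+* O') hf).ρ (pl t).φ) =
      (X - C v) * (X - C (v * (qT t : O')))) :
    f ((E.r (pl t).φ 0 0 + E.r (pl t).φ 1 1) ^ 2 - ((qT t : E.D.R) + 1) ^ 2) = 0 :=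
  hElt_eq_zero E f hf hv h

end Point

/-! ## 4. Eigenvectors in the cohomology with character

`gam N M h` is the group `Γ₀(M)` for `N ∣ M`, acting through the upper left entry modulo `N`, and
`H1 (gam N M h) (psiRep ψ O')` its first cohomology with values in `O'`, where the group acts by the
character `ψ` of `(ℤ/N)ˣ` (file `H70Psi`). `tw h hS ψ η i` is the Hecke operator `T_ℓ`, `ℓ` the
prime outside `S` with index `i`, multiplied by `η(ℓ)⁻¹`; `Away M S` says that the prime divisors of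
`M` are in `S` (file `H70Mod`). For `ψ = η²` the eigenvalues of these operators are those of a form
with trivial character (the twist by `η⁻¹`). `π : E.D.R → T` is the map to the localised Hecke
algebra `T` of level `L` and `lam : T → O'` is a homomorphism. -/

section Eigen

variable [Finite (ResidueField 𝒪)] [CharZero 𝒪] {L : ℕ} [NeZero L] {S : Finset ℕ} (hpS : p ∈ S)
  (hLS : ∀ q : ℕ, q.Prime → q ∣ L → q ∈ S)
  {θ : heckeAlgebra L 2 (↑S : Set ℕ) →+* ResidueField 𝒪}
  (π : E.D.R →ₐ[𝒪] heckeLocal L (↑S : Set ℕ) 𝒪 θ) (hπ : Function.Surjective π)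
  {H : HeckeGaloisRepDatum L (↑S : Set ℕ) 𝒪 θ (heckeLocal L (↑S : Set ℕ) 𝒪 θ)}
  (hH : H.π = heckeLocal.π L (↑S : Set ℕ) 𝒪 θ)
  (b₂ : Module.Basis (Fin 2) (heckeLocal L (↑S : Set ℕ) 𝒪 θ) H.ρ.V)
  (hb₂ : toMat H.ρ.ρ b₂ =
    mapMat (π : E.D.R →+* heckeLocal L (↑S : Set ℕ) 𝒪 θ) (toMat E.D.ρ.ρ E.b₁))
  {O' : Type} [CommRing O'] [IsDomain O'] [IsDiscreteValuationRing O']
  [IsAdicComplete (maximalIdeal O') O'] [Finite (ResidueField O')] [CharZero O']
  [Algebra 𝒪 O'] [Module.Finite 𝒪 O'] [IsLocalHom (algebraMap 𝒪 O')]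

include hpS hLS hπ hH hb₂

/-- **Eigenvectors with ramified characters.** Let `x` be an eigenvector, not a torsion element, of
the `T_ℓ / η(ℓ)` in the cohomology with character `η²`, with eigenvalues `lam(T_ℓ)`; `η` of odd order
does not factor through `(ℤ/(N1/qT t))ˣ` for any `t` (it is ramified at all primes of `T`). Then
`lam ∘ π` kills the product of theorem `product_eq_zero` for every `t`; and at a Taylor-Wiles prime
`η` is unramified if and only if `lam(π(1 + c_j)) = 1`. (`GeomInputs p` are three facts on `J₀(N)`,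
proved in `H4.geomInputs`, see `geometric_inputs` in `GuideEigen`.) File: `H68TwGlue`. -/
theorem eigenvector_ramified (hp2 : p ≠ 2) (hp𝒪 : (p : 𝒪) ∈ maximalIdeal 𝒪) (G : GeomInputs p)
    {N1 M : ℕ} (hsq : Squarefree N1) (hM0 : 0 < M)
    (hex : ∀ r : ℕ, r.Prime → r ∣ N1 → ¬ r * r ∣ M) (hM : N1 ∣ M) (hS : Away M (↑S : Set ℕ))
    (hQN : ∀ j, E.qv j ∣ N1)
    (hqT : ∀ t, (qT t).Prime) (hunr : ∀ t, ρbar.IsUnramifiedAt (qT t))
    {a m : τ → ℕ} (hqa : ∀ t, qT t - 1 = p ^ a t * m t) (hm : ∀ t, ¬ p ∣ m t)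
    (ha : ∀ t, 0 < a t) {ζ : τ → 𝒪} (hζ : ∀ t, IsPrimitiveRoot (ζ t) (p ^ a t))
    (hinj : Function.Injective (algebraMap 𝒪 O'))
    (lam : heckeLocal L (↑S : Set ℕ) 𝒪 θ →ₐ[𝒪] O') (η : (ZMod N1)ˣ →* O'ˣ)
    (x : H1 (gam N1 M hM) (psiRep (η ^ 2) O')) (hη : ∃ m, Odd m ∧ η ^ m = 1)
    (hT : ∀ t, ¬ ∀ (N₁ : ℕ) (h : N1 = N₁ * qT t) (v : (ZMod N1)ˣ),
      ZMod.unitsMap (h ▸ Dvd.intro (qT t) rfl) v = (1 : (ZMod N₁)ˣ) → η v = 1)
    (hx : ∀ c : O', c ≠ 0 → c • x ≠ 0)
    (hlam : ∀ i : Idx (↑S : Set ℕ), tw hM hS (η ^ 2) η i x =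
      lam (heckeLocal.π L (↑S : Set ℕ) 𝒪 θ (TIdx L (↑S : Set ℕ) hLS i)) • x) :
    (∀ t, lam (π (∏ z ∈ ntRoots 𝒪 p (a t), (E.r (pl t).σ 0 0 + E.r (pl t).σ 1 1 -
      algebraMap 𝒪 E.D.R ((z : 𝒪) + (z⁻¹ : 𝒪ˣ))))) = 0) ∧
    ∀ j, ((∀ (N₁ : ℕ) (h : N1 = N₁ * E.qv j) (v : (ZMod N1)ˣ),
      ZMod.unitsMap (h ▸ Dvd.intro (E.qv j) rfl) v = (1 : (ZMod N₁)ˣ) → η v = 1) ↔
        lam (π (1 + E.c j)) = 1) :=
  hA E hpS hLS π hπ hH b₂ hb₂ hp2 hp𝒪 G hsq hM0 hex hM hS hQN hqT hunr hqa hm ha hζ hinj lam η x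
    hη hT hx hlam

/-- **New eigenvectors.** If an eigenvector `x` of level `M₀ q`, `q = qT t₀`, is killed by the two
traces `trFam`, `nuFam` to level `M₀`, then `lam ∘ π` kills `(tr r(φ))² - (q + 1)²`. Here the
character `η` is unramified at `q`. File: `H68TwGlue`. -/
theorem eigenvector_new (hp2 : p ≠ 2) (hp𝒪 : (p : 𝒪) ∈ maximalIdeal 𝒪) (G : GeomInputs p) {t₀ : τ}
    (hqT : (qT t₀).Prime) (hqp : qT t₀ ≠ p)
    {N2 M₀ : ℕ} [NeZero M₀] [NeZero (qT t₀)] (hsq : Squarefree N2)
    (hex : ∀ r : ℕ, r.Prime → r ∣ N2 → ¬ r * r ∣ M₀) (hM : N2 ∣ M₀)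
    (hS : Away (M₀ * qT t₀) (↑S : Set ℕ)) (hqM : ¬ qT t₀ ∣ M₀)
    (lam : heckeLocal L (↑S : Set ℕ) 𝒪 θ →ₐ[𝒪] O') (η : (ZMod N2)ˣ →* O'ˣ)
    (x : H1 (gam N2 (M₀ * qT t₀) (dvd_mul_q hM)) (psiRep (η ^ 2) O'))
    (hη : ∃ m, Odd m ∧ η ^ m = 1) (hx : ∀ c : O', c ≠ 0 → c • x ≠ 0)
    (hlam : ∀ i : Idx (↑S : Set ℕ), tw (dvd_mul_q hM) hS (η ^ 2) η i x =
      lam (heckeLocal.π L (↑S : Set ℕ) 𝒪 θ (TIdx L (↑S : Set ℕ) hLS i)) • x)
    (h1 : (trFam hM).opH (psiRep (η ^ 2) O') x = 0)
    (h2 : (nuFam hM hqT).opH (psiRep (η ^ 2) O') x = 0) :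
    lam (π ((E.r (pl t₀).φ 0 0 + E.r (pl t₀).φ 1 1) ^ 2 - ((qT t₀ : E.D.R) + 1) ^ 2)) = 0 :=
  hA3 E hpS hLS π hπ hH b₂ hb₂ hp2 hp𝒪 G hqT hqp hsq hex hM hS hqM lam η x hη hx hlam h1 h2

end Eigen

/-! ## 5. The two sides of a level -/

/-- **The module part and the level.** `H69.EG.TWModPart` (file `H69TWMod`) is the module `M` over
the deformation ring: it is free over the group ring of the diamond operators, which act through the
elements `1 + c_j` (this uses (a)); the products of (b) kill it; the element of (c) maps it into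
`ϖ M` (modulo `ϖ` the characters at the primes of `T` disappear, and all classes are new at
`q_(t₀)`). The fields are listed in `module_part_fields` in `GuidePatching`. The module is
constructed in `H70Lev11` from the theorems of section 4. Together with the Galois side it is a
level of the patching argument, with the matrices of Frobenius and of the tame generators at the
primes of `T` (`full_level_module` in `GuideLevelsIhara` lists the properties of `TWLevel`). File:
`H68TwLevel`. -/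
theorem level_of_modPart {ϖ : 𝒪} {D : ℕ} {Z : τ → Finset 𝒪ˣ} {t₀ : τ}
    (h : Nonempty (H69.EG.TWModPart 𝒪 ϖ p (3 * Nat.card τ + k) n D E.D.R
      (fun t => ∏ ζ ∈ Z t, (E.r (pl t).σ 0 0 + E.r (pl t).σ 1 1 -
        algebraMap 𝒪 E.D.R ((ζ : 𝒪) + (ζ⁻¹ : 𝒪ˣ))))
      ((E.r (pl t₀).φ 0 0 + E.r (pl t₀).φ 1 1) ^ 2 - ((qT t₀ : E.D.R) + 1) ^ 2))) :
    Nonempty (H69.EG.TWLevel 𝒪 ϖ p (3 * Nat.card τ + k) n D
      (MvPowerSeries ((τ × Fin 6) ⊕ Fin k) 𝒪) (fun t i => MvPowerSeries.X (Sum.inl (t, i)))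
      qT u Z t₀) :=
  nonempty_twLevel E h

end Level

end Fermat.Agent.Guide.LevelsPoints
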