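import Mathlib

/-!
# Commutative algebra for level raising (helper41)
-/

set_option autoImplicit false

namespace Fermat.Agent.H41

section Basic

variable {T : Type*} [CommRing T] {M : Type*} [AddCommGroup M] [Module T M]

/-- Elements of `1 + 𝔪`. -/
def OnePlus (𝔪 : Ideal T) (r : T) : Prop := r - 1 ∈ 𝔪

lemma OnePlus.mul {𝔪 : Ideal T} {r s : T} (hr : OnePlus 𝔪 r) (hs : OnePlus 𝔪 s) :
    OnePlus 𝔪 (r * s) := by
  have : r * s - 1 = r * (s - 1) + (r - 1) := by ring
  show r * s - 1 ∈ 𝔪
  rw [this]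
  exact 𝔪.add_mem (𝔪.mul_mem_left _ hs) hr

/-- A finite module without `𝔪`-socle is killed by an element of `1 + 𝔪`. -/
theorem exists_onePlus_of_socle [Finite M] (𝔪 : Ideal T)
    (h : ∀ d : M, (∀ t ∈ 𝔪, t • d = 0) → d = 0) : ∃ r, OnePlus 𝔪 r ∧ ∀ d : M, r • d = 0 := by
  have key : ∀ W : Submodule T M, ∃ r, OnePlus 𝔪 r ∧ ∀ d ∈ W, r • d = 0 := by
    intro W
    induction W using WellFoundedLT.induction with
    | ind W ih =>
      by_cases hW : W ≤ 𝔪 • W
      · obtain ⟨r, hr, hrW⟩ := Submodule.exists_sub_one_mem_and_smul_eq_zero_of_fg_of_le_smul 𝔪 W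
          (IsNoetherian.noetherian W) hW
        exact ⟨r, hr, hrW⟩
      · have hlt : 𝔪 • W < W := lt_of_le_of_ne Submodule.smul_le_right (fun h => hW h.ge)
        obtain ⟨r, hr, hrW⟩ := ih _ hlt
        refine ⟨r, hr, ?_⟩
        set x : T := 1 - r with hx
        have hxm : x ∈ 𝔪 := by
          have := 𝔪.neg_mem hr
          rwa [neg_sub] at this
        -- `x` acts as the identity on `𝔪 W`
        have hx1 : ∀ d ∈ 𝔪 • W, x • d = d := by
          intro d hd
          rw [hx, sub_smul, one_smul, hrW d hd, sub_zero]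
        -- `x` is injective on `W`
        have hinj : ∀ d ∈ W, x • d = 0 → d = 0 := by
          intro d hd hxd
          apply h
          intro t ht
          have h1 : t • d ∈ 𝔪 • W := Submodule.smul_mem_smul ht hd
          rw [← hx1 _ h1, smul_comm, hxd, smul_zero]
        intro d hd
        have h1 : x • d ∈ 𝔪 • W := Submodule.smul_mem_smul hxm hd
        have h2 : x • (x • d - d) = 0 := by rw [smul_sub, hx1 _ h1, sub_self]
        have h3 := hinj _ (W.sub_mem (W.smul_mem _ hd) hd) h2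
        have h4 : r = 1 - x := by rw [hx]; ring
        rw [h4, sub_smul, one_smul, ← neg_sub, h3, neg_zero]
  obtain ⟨r, hr, h1⟩ := key ⊤
  exact ⟨r, hr, fun d => h1 d trivial⟩

omit [CommRing T] [Module T M] in
theorem exists_functional_aux {p : ℕ} [Fact p.Prime] [Module (ZMod p) M] {v : M} (hv : v ≠ 0) :
    ∃ f : M →+ ZMod p, f v ≠ 0 := by
  by_contra hcon
  push Not at hcon
  exact hv ((Module.forall_dual_apply_eq_zero_iff (ZMod p) v).mp
    (fun φ => hcon (LinearMap.toAddMonoidHom φ)))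

omit [CommRing T] [Module T M] in
/-- A nonzero element of an elementary abelian `p`-group is detected by a functional. -/
theorem exists_functional {p : ℕ} [Fact p.Prime] (hp : ∀ x : M, p • x = 0) {v : M} (hv : v ≠ 0) :
    ∃ f : M →+ ZMod p, f v ≠ 0 :=
  @exists_functional_aux M _ p _ (AddCommGroup.zmodModule hp) v hv

/-- If there is no eigenfunctional then `𝔪 M = M`. -/
theorem le_smul_of_no_functional {p : ℕ} [Fact p.Prime] (χ : T →+* ZMod p)
    (h : ∀ lam : M →+ ZMod p, (∀ (t : T) (m : M), lam (t • m) = χ t * lam m) → lam = 0) :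
    (⊤ : Submodule T M) ≤ RingHom.ker χ • (⊤ : Submodule T M) := by
  classical
  by_contra hne
  set W : Submodule T M := RingHom.ker χ • (⊤ : Submodule T M) with hW
  obtain ⟨m₀, -, hm₀⟩ := Set.not_subset.mp hne
  have hp : ∀ x : M ⧸ W, p • x = 0 := by
    intro x
    induction x using Submodule.Quotient.induction_on with
    | _ x =>
      rw [← Submodule.Quotient.mk_smul, Submodule.Quotient.mk_eq_zero, ← Nat.cast_smul_eq_nsmul T]
      exact Submodule.smul_mem_smul (by rw [RingHom.mem_ker, map_natCast, ZMod.natCast_self]) trivial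
  have hx : (Submodule.Quotient.mk m₀ : M ⧸ W) ≠ 0 := by
    rw [Ne, Submodule.Quotient.mk_eq_zero]; exact hm₀
  obtain ⟨f, hf⟩ := exists_functional hp hx
  apply hf
  have h1 := h (f.comp W.mkQ.toAddMonoidHom) ?_
  · have := DFunLike.congr_fun h1 m₀
    exact this
  · intro t m
    show f (Submodule.Quotient.mk (t • m)) = χ t * f (Submodule.Quotient.mk m)
    have h2 : (Submodule.Quotient.mk (t • m) : M ⧸ W) =
        (χ t).val • (Submodule.Quotient.mk m : M ⧸ W) := by
      rw [← Submodule.Quotient.mk_smul, Submodule.Quotient.eq, ← Nat.cast_smul_eq_nsmul T,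
        ← sub_smul]
      refine Submodule.smul_mem_smul ?_ trivial
      rw [RingHom.mem_ker, map_sub, map_natCast, ZMod.natCast_zmod_val, sub_self]
    rw [h2, map_nsmul, nsmul_eq_mul, ZMod.natCast_zmod_val]

end Basic

section Lattice

/-- An injective endomorphism of a finitely generated torsion free group has finite cokernel. -/
theorem exists_smul_mem_range {M : Type*} [AddCommGroup M] [Module.Finite ℤ M]
    [Module.IsTorsionFree ℤ M] (φ : M →+ M) (hφ : Function.Injective φ) :
    ∃ c : ℕ, c ≠ 0 ∧ ∀ m : M, ∃ n : M, φ n = c • m := by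
  let f : M →ₗ[ℤ] M := φ.toIntLinearMap
  have hf : Function.Injective f := hφ
  have h1 : Module.finrank ℤ (LinearMap.range f) = Module.finrank ℤ M :=
    (LinearEquiv.ofInjective f hf).finrank_eq.symm
  have h2 : Finite (M ⧸ LinearMap.range f) :=
    (Submodule.finiteQuotient_iff _).mpr h1
  refine ⟨Nat.card (M ⧸ LinearMap.range f), Nat.card_pos.ne', fun m => ?_⟩
  have h3 : Nat.card (M ⧸ LinearMap.range f) • (Submodule.Quotient.mk m : M ⧸ LinearMap.range f) = 0 :=
    card_nsmul_eq_zero'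
  rw [← Submodule.Quotient.mk_smul, Submodule.Quotient.mk_eq_zero] at h3
  obtain ⟨n, hn⟩ := h3
  exact ⟨n, hn⟩

lemma nsmul_eq_zero_iff' {M : Type*} [AddCommGroup M] [Module.IsTorsionFree ℤ M] {n : ℕ}
    (hn : n ≠ 0) {x : M} (h : n • x = 0) : x = 0 := by
  rw [← natCast_zsmul] at h
  exact (smul_eq_zero.mp h).resolve_left (by exact_mod_cast hn)

end Lattice

section Core

variable {T : Type*} [CommRing T]

lemma finite_quotient_smul {V : Type*} [AddCommGroup V] [Module T V] [Module.Finite ℤ V]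
    (W : Submodule T V) {c : ℕ} (hc : c ≠ 0) (h : ∀ v : V, c • v ∈ W) : Finite (V ⧸ W) := by
  have h1 : Module.Finite ℤ (V ⧸ W) :=
    Module.Finite.of_surjective (W.mkQ.toAddMonoidHom.toIntLinearMap) W.mkQ_surjective
  refine Module.finite_of_fg_torsion (V ⧸ W) ?_
  intro x
  induction x using Submodule.Quotient.induction_on with
  | _ x =>
    refine ⟨⟨(c : ℤ), mem_nonZeroDivisors_of_ne_zero (by exact_mod_cast hc)⟩, ?_⟩
    show (c : ℤ) • (Submodule.Quotient.mk x : V ⧸ W) = 0
    rw [natCast_zsmul, ← Submodule.Quotient.mk_smul, Submodule.Quotient.mk_eq_zero]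
    exact h x

/-- `T`-submodules of finite `ℤ`-modules are finite over `ℤ`. -/
lemma finite_int_submodule {V : Type*} [AddCommGroup V] [Module T V] [Module.Finite ℤ V]
    (W : Submodule T V) : Module.Finite ℤ W :=
  Module.Finite.of_injective W.subtype.toAddMonoidHom.toIntLinearMap W.subtype_injective

/-- `T`-submodules of finite `ℤ`-modules are finitely generated over `T`. -/
lemma fg_of_finite_int {V : Type*} [AddCommGroup V] [Module T V] [Module.Finite ℤ V]
    (W : Submodule T V) : W.FG := by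
  have h1 : IsNoetherian ℤ V := isNoetherian_of_isNoetherianRing_of_finite ℤ V
  have h2 : (W.toAddSubgroup.toIntSubmodule).FG := h1.noetherian _
  obtain ⟨s, hs⟩ := h2
  have h3 : W.toAddSubgroup.toIntSubmodule ≤
      (Submodule.span T (s : Set V)).toAddSubgroup.toIntSubmodule := by
    rw [← hs, Submodule.span_le]
    exact fun x hx => Submodule.subset_span hx
  refine ⟨s, le_antisymm ?_ (fun x hx => h3 hx)⟩
  rw [Submodule.span_le]
  intro x hx
  have : x ∈ W.toAddSubgroup.toIntSubmodule := hs ▸ Submodule.subset_span hx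
  exact this

variable {L L' : Type*} [AddCommGroup L] [Module T L]
  [AddCommGroup L'] [Module T L'] [Module.Finite ℤ L] [Module.Finite ℤ L']
  [Module.IsTorsionFree ℤ L] [Module.IsTorsionFree ℤ L']

omit [Module.Finite ℤ L'] [Module.IsTorsionFree ℤ L] in
/-- The kernel of `i` is killed by an element of `1 + 𝔪`. -/
theorem core_ker {p : ℕ} [hp : Fact p.Prime] (χ : T →+* ZMod p) (i : (L × L) →ₗ[T] L')
    (hI : ∀ z : L × L, (∃ w : L', i z = p • w) → (∀ t ∈ RingHom.ker χ, ∃ z', t • z = p • z') →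
      ∃ z', z = p • z') :
    ∃ r, OnePlus (RingHom.ker χ) r ∧ ∀ z, i z = 0 → r • z = 0 := by
  have hp0 : p ≠ 0 := hp.out.ne_zero
  have hpm : ((p : ℕ) : T) ∈ RingHom.ker χ := by
    rw [RingHom.mem_ker, map_natCast, ZMod.natCast_self]
  set K : Submodule T (L × L) := LinearMap.ker i with hK
  have : Module.Finite ℤ K := finite_int_submodule K
  let W : Submodule T K := LinearMap.range (LinearMap.lsmul T K (p : T))
  have hfin : Finite (K ⧸ W) := finite_quotient_smul W hp0 (fun v => ⟨v, by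
    rw [LinearMap.lsmul_apply, Nat.cast_smul_eq_nsmul]⟩)
  obtain ⟨r, hr, hrW⟩ := exists_onePlus_of_socle (M := K ⧸ W) (RingHom.ker χ) (by
    intro d
    induction d using Submodule.Quotient.induction_on with
    | _ k =>
      intro hd
      rw [Submodule.Quotient.mk_eq_zero]
      obtain ⟨z', hz'⟩ := hI k.1 ⟨0, by
        rw [smul_zero]; exact k.2⟩ (fun t ht => by
          have h1 := hd t ht
          rw [← Submodule.Quotient.mk_smul, Submodule.Quotient.mk_eq_zero] at h1
          obtain ⟨k', hk'⟩ := h1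
          refine ⟨k'.1, ?_⟩
          have h2 := congrArg Subtype.val hk'
          rw [LinearMap.lsmul_apply, Nat.cast_smul_eq_nsmul] at h2
          exact h2.symm)
      have hz'K : z' ∈ K := by
        have h1 : i k.1 = 0 := k.2
        rw [hz', map_nsmul] at h1
        exact nsmul_eq_zero_iff' hp0 h1
      refine ⟨⟨z', hz'K⟩, Subtype.ext ?_⟩
      rw [LinearMap.lsmul_apply, Nat.cast_smul_eq_nsmul]
      exact hz'.symm)
  have hKm : K ≤ RingHom.ker χ • K := by
    intro k hk
    have h1 := hrW (Submodule.Quotient.mk ⟨k, hk⟩)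
    rw [← Submodule.Quotient.mk_smul, Submodule.Quotient.mk_eq_zero] at h1
    obtain ⟨k', hk'⟩ := h1
    have h2 := congrArg Subtype.val hk'
    rw [LinearMap.lsmul_apply] at h2
    have h3 : (p : T) • (k' : L × L) = r • k := h2
    have h4 : k = (p : T) • (k' : L × L) - (r - 1) • k := by rw [h3, sub_smul, one_smul]; abel
    rw [h4]
    exact Submodule.sub_mem _ (Submodule.smul_mem_smul hpm k'.2) (Submodule.smul_mem_smul hr hk)
  obtain ⟨s, hs, hsK⟩ := Submodule.exists_sub_one_mem_and_smul_eq_zero_of_fg_of_le_smul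
    (RingHom.ker χ) K (fg_of_finite_int K) hKm
  exact ⟨s, hs, fun z hz => hsK z hz⟩

/-- The torsion of the cokernel of `i` is killed by an element of `1 + 𝔪`. -/
theorem core_tors {p : ℕ} [hp : Fact p.Prime] (χ : T →+* ZMod p) (i : (L × L) →ₗ[T] L')
    (hI : ∀ z : L × L, (∃ w : L', i z = p • w) → (∀ t ∈ RingHom.ker χ, ∃ z', t • z = p • z') →
      ∃ z', z = p • z') {c : ℕ} (hc : c ≠ 0) :
    ∃ r, OnePlus (RingHom.ker χ) r ∧ ∀ v, (∃ z, i z = c • v) → ∃ z, i z = r • v := by
  have hp0 : p ≠ 0 := hp.out.ne_zero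
  have hpm : ((p : ℕ) : T) ∈ RingHom.ker χ := by
    rw [RingHom.mem_ker, map_natCast, ZMod.natCast_self]
  obtain ⟨rK, hrK, hrK0⟩ := core_ker χ i hI
  let V : Submodule T L' := (LinearMap.range i).comap (LinearMap.lsmul T L' (c : T))
  have hV : ∀ v, v ∈ V ↔ ∃ z, i z = c • v := by
    intro v
    rw [Submodule.mem_comap, LinearMap.lsmul_apply, Nat.cast_smul_eq_nsmul]
    rfl
  have : Module.Finite ℤ V := finite_int_submodule V
  let W : Submodule T V := (LinearMap.range i).comap V.subtype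
  have hfin : Finite (V ⧸ W) := finite_quotient_smul W hc (fun v => by
    obtain ⟨z, hz⟩ := (hV v.1).mp v.2
    exact ⟨z, hz⟩)
  obtain ⟨r, hr, hrW⟩ := exists_onePlus_of_socle (M := V ⧸ W) (RingHom.ker χ) (by
    intro d
    induction d using Submodule.Quotient.induction_on with
    | _ v =>
      intro hd
      rw [Submodule.Quotient.mk_eq_zero]
      have h1 : ∀ t ∈ RingHom.ker χ, ∃ z, i z = t • v.1 := by
        intro t ht
        have h2 := hd t ht
        rw [← Submodule.Quotient.mk_smul, Submodule.Quotient.mk_eq_zero] at h2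
        exact h2
      obtain ⟨z0, hz0⟩ := h1 _ hpm
      have h3 : ∀ t ∈ RingHom.ker χ, ∃ z', t • (rK • z0) = p • z' := by
        intro t ht
        obtain ⟨zt, hzt⟩ := h1 t ht
        refine ⟨rK • zt, ?_⟩
        have h4 : i (t • z0 - (p : T) • zt) = 0 := by
          rw [map_sub, map_smul, map_smul, hz0, hzt, smul_comm, sub_self]
        have h5 := hrK0 _ h4
        rw [smul_sub, sub_eq_zero] at h5
        rw [smul_comm t rK, h5, smul_comm rK, Nat.cast_smul_eq_nsmul]
      have h6 : i (rK • z0) = p • (rK • v.1) := by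
        rw [map_smul, hz0, smul_comm, Nat.cast_smul_eq_nsmul]
      obtain ⟨z', hz'⟩ := hI _ ⟨_, h6⟩ h3
      rw [hz', map_nsmul] at h6
      have h7 : i z' = rK • v.1 := by
        have : p • (i z' - rK • v.1) = 0 := by rw [smul_sub, h6, sub_self]
        exact sub_eq_zero.mp (nsmul_eq_zero_iff' hp0 this)
      obtain ⟨z'', hz''⟩ := h1 _ hrK
      refine ⟨z' - z'', ?_⟩
      rw [map_sub, h7, hz'', sub_smul, one_smul]
      show rK • v.1 - (rK • v.1 - v.1) = v.1
      abel)
  refine ⟨r, hr, fun v hv => ?_⟩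
  have h1 := hrW (Submodule.Quotient.mk ⟨v, (hV v).mpr hv⟩)
  rw [← Submodule.Quotient.mk_smul, Submodule.Quotient.mk_eq_zero] at h1
  exact h1

/-- **Algebraic core of level raising.** -/
theorem core {p : ℕ} [hp : Fact p.Prime] (χ : T →+* ZMod p) (i : (L × L) →ₗ[T] L')
    (j : L' →ₗ[T] (L × L)) (tq : L →ₗ[T] L) (q : ℕ)
    (hji : ∀ x y, j (i (x, y)) = ((q + 1) • x + tq y, tq x + (q + 1) • y))
    (hI : ∀ z : L × L, (∃ w : L', i z = p • w) → (∀ t ∈ RingHom.ker χ, ∃ z', t • z = p • z') →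
      ∃ z', z = p • z')
    (hE : ∀ lam : (L × L) →+ ZMod p, (∀ (t : T) (z : L × L), lam (t • z) = χ t * lam z) →
      (∀ v, lam (j v) = 0) → lam = 0)
    (η : T) (hη : χ η ≠ 0)
    (hΔ : ∀ x : L, ((q + 1) ^ 2) • (η • x) = tq (tq (η • x)) → η • x = 0)
    (lam : L →+ ZMod p) (hlamT : ∀ (t : T) (x : L), lam (t • x) = χ t * lam x) (ε : ZMod p)
    (hε : ε ^ 2 = 1) (hlamq : ∀ x, lam (tq x) = ε * (q + 1) * lam x) (hlam : lam ≠ 0) :
    ∃ μ : LinearMap.ker j →+ ZMod p, (∀ (t : T) (m : LinearMap.ker j), μ (t • m) = χ t * μ m) ∧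
      μ ≠ 0 := by
  by_contra hcon
  push Not at hcon
  -- the kernel of j is killed
  obtain ⟨r₂, hr₂, hr₂0⟩ : ∃ r, OnePlus (RingHom.ker χ) r ∧ ∀ v, j v = 0 → r • v = 0 := by
    have : Module.Finite ℤ (LinearMap.ker j) := finite_int_submodule _
    obtain ⟨s, hs, hsK⟩ := Submodule.exists_sub_one_mem_and_smul_eq_zero_of_fg_of_le_smul
      (RingHom.ker χ) (⊤ : Submodule T (LinearMap.ker j)) (fg_of_finite_int _)
      (le_smul_of_no_functional χ hcon)
    exact ⟨s, hs, fun v hv => congrArg Subtype.val (hsK ⟨v, hv⟩ trivial)⟩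
  -- the cokernel of j is killed
  obtain ⟨r₁, hr₁, hr₁0⟩ : ∃ r, OnePlus (RingHom.ker χ) r ∧ ∀ z, ∃ v, j v = r • z := by
    have hfin : Module.Finite ℤ ((L × L) ⧸ LinearMap.range j) :=
      Module.Finite.of_surjective ((LinearMap.range j).mkQ.toAddMonoidHom.toIntLinearMap)
        (LinearMap.range j).mkQ_surjective
    obtain ⟨s, hs, hsK⟩ := Submodule.exists_sub_one_mem_and_smul_eq_zero_of_fg_of_le_smul
      (RingHom.ker χ) (⊤ : Submodule T ((L × L) ⧸ LinearMap.range j)) (fg_of_finite_int _)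
      (le_smul_of_no_functional χ (fun f hf => by
        have h1 := hE (f.comp (LinearMap.range j).mkQ.toAddMonoidHom)
          (fun t z => by
            show f (Submodule.Quotient.mk (t • z)) = χ t * f (Submodule.Quotient.mk z)
            rw [Submodule.Quotient.mk_smul, hf])
          (fun v => by
            show f (Submodule.Quotient.mk (j v)) = 0
            have : (Submodule.Quotient.mk (j v) : (L × L) ⧸ LinearMap.range j) = 0 := by
              rw [Submodule.Quotient.mk_eq_zero]; exact ⟨v, rfl⟩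
            rw [this, map_zero])
        ext x
        induction x using Submodule.Quotient.induction_on with
        | _ z => exact DFunLike.congr_fun h1 z))
    refine ⟨s, hs, fun z => ?_⟩
    have h2 := hsK (Submodule.Quotient.mk z) trivial
    rw [← Submodule.Quotient.mk_smul, Submodule.Quotient.mk_eq_zero] at h2
    exact h2
  -- the operator Δ on η L
  let W : Submodule T L := LinearMap.range (LinearMap.lsmul T L η)
  have : Module.Finite ℤ W := finite_int_submodule W
  let Δ : L →ₗ[T] L := ((((q + 1) ^ 2 : ℕ) : T)) • LinearMap.id - tq ∘ₗ tq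
  have hΔap : ∀ x, Δ x = ((q + 1) ^ 2) • x - tq (tq x) := by
    intro x
    show (((q + 1) ^ 2 : ℕ) : T) • x - tq (tq x) = _
    rw [Nat.cast_smul_eq_nsmul]
  have hΔW : ∀ w ∈ W, Δ w ∈ W := by
    rintro _ ⟨x, rfl⟩
    exact ⟨Δ x, by rw [LinearMap.lsmul_apply, LinearMap.lsmul_apply, map_smul]⟩
  let ΔW : W →+ W := (Δ.restrict hΔW).toAddMonoidHom
  have hinj : Function.Injective ΔW := by
    rw [injective_iff_map_eq_zero]
    rintro ⟨_, x, rfl⟩ hw
    have h1 : Δ (η • x) = 0 := congrArg Subtype.val hw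
    rw [hΔap, sub_eq_zero] at h1
    apply Subtype.ext
    exact hΔ x h1
  obtain ⟨c, hc, hcW⟩ := exists_smul_mem_range ΔW hinj
  obtain ⟨r₃, hr₃, hr₃0⟩ := core_tors χ i hI hc
  have hmain : ∀ v : L', ∃ z, i z = r₃ • (r₂ • (η • v)) := by
    intro v
    apply hr₃0
    obtain ⟨a', ha'⟩ := hcW ⟨η • (j v).1, (j v).1, rfl⟩
    obtain ⟨b', hb'⟩ := hcW ⟨η • (j v).2, (j v).2, rfl⟩
    have ha : Δ a'.1 = c • (η • (j v).1) := congrArg Subtype.val ha'
    have hb : Δ b'.1 = c • (η • (j v).2) := congrArg Subtype.val hb'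
    rw [hΔap] at ha hb
    set z : L × L := ((q + 1) • a'.1 - tq b'.1, (q + 1) • b'.1 - tq a'.1) with hz
    have h1 : j (i z) = c • (η • j v) := by
      rw [hz, hji]
      have e1 : (q + 1) • ((q + 1) • a'.1 - tq b'.1) + tq ((q + 1) • b'.1 - tq a'.1) =
          c • (η • (j v).1) := by
        rw [← ha, map_sub, map_nsmul, smul_sub, smul_smul, ← pow_two]; abel
      have e2 : tq ((q + 1) • a'.1 - tq b'.1) + (q + 1) • ((q + 1) • b'.1 - tq a'.1) =
          c • (η • (j v).2) := by
        rw [← hb, map_sub, map_nsmul, smul_sub, smul_smul, ← pow_two]; abel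
      rw [e1, e2]
      rfl
    refine ⟨r₂ • z, ?_⟩
    have h2 : j (i z - c • (η • v)) = 0 := by
      rw [map_sub, map_nsmul, map_smul, h1, sub_self]
    have h3 := hr₂0 _ h2
    rw [smul_sub, sub_eq_zero] at h3
    rw [map_smul, h3, smul_comm]
  -- conclusion
  obtain ⟨u, hu⟩ : ∃ u, lam u ≠ 0 := by
    by_contra h
    push Not at h
    exact hlam (AddMonoidHom.ext h)
  obtain ⟨v, hv⟩ := hr₁0 (u, 0)
  obtain ⟨⟨x, y⟩, hxy⟩ := hmain v
  have h1 : j (i (x, y)) = r₃ • (r₂ • (η • (r₁ • (u, 0)))) := by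
    rw [hxy, map_smul, map_smul, map_smul, hv]
  rw [hji] at h1
  have h2 := congrArg (fun z : L × L => lam z.1) h1
  have h3 := congrArg (fun z : L × L => lam z.2) h1
  simp only [Prod.smul_fst, Prod.smul_snd, smul_zero, map_zero, map_add, map_nsmul, hlamT, hlamq,
    nsmul_eq_mul] at h2 h3
  push_cast at h2 h3
  have hχ : ∀ r, OnePlus (RingHom.ker χ) r → χ r = 1 := by
    intro r hr
    have : χ (r - 1) = 0 := hr
    rw [map_sub, map_one, sub_eq_zero] at this
    exact this
  rw [hχ _ hr₁, hχ _ hr₂, hχ _ hr₃, one_mul, one_mul, one_mul] at h2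
  have h4 : χ η * lam u = 0 := by
    linear_combination -h2 + ε * h3 + (-(q + 1) * lam x) * hε
  rcases mul_eq_zero.mp h4 with h5 | h5
  · exact hη h5
  · exact hu h5

end Core

end Fermat.Agent.H41
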