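import Mathlib
import Fermat.Agent.H41Alg

/-!
# The algebraic core of level raising in terms of commuting operators (helper41)
-/

set_option autoImplicit false

namespace Fermat.Agent.H41

section PolyAct

variable {ι : Type*} {M : Type*} [AddCommGroup M]

open scoped IsMulCommutative in
theorem exists_polyAct (t : ι → M →+ M) (h : ∀ i j m, t i (t j m) = t j (t i m)) :
    ∃ θ : MvPolynomial ι ℤ →+* AddMonoid.End M, ∀ i m, θ (MvPolynomial.X i) m = t i m := by
  classical
  let t' : ι → AddMonoid.End M := t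
  let A : Subalgebra ℤ (AddMonoid.End M) := Algebra.adjoin ℤ (Set.range t')
  have hcomm : IsMulCommutative A := Algebra.isMulCommutative_adjoin ℤ (by
    rintro _ ⟨s, rfl⟩ _ ⟨u, rfl⟩
    exact AddMonoidHom.ext fun m => h s u m)
  let g : ι → A := fun i => ⟨t' i, Algebra.subset_adjoin ⟨i, rfl⟩⟩
  let ψ : MvPolynomial ι ℤ →ₐ[ℤ] A := MvPolynomial.aeval g
  refine ⟨(A.val : A →+* AddMonoid.End M).comp (ψ : MvPolynomial ι ℤ →+* A), fun i m => ?_⟩
  have h1 : ψ (MvPolynomial.X i) = g i := MvPolynomial.aeval_X _ _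
  show (ψ (MvPolynomial.X i)).1 m = t i m
  rw [h1]
  rfl

/-- The polynomial ring acts through commuting operators. -/
noncomputable def polyAct (t : ι → M →+ M) (h : ∀ i j m, t i (t j m) = t j (t i m)) :
    MvPolynomial ι ℤ →+* AddMonoid.End M := (exists_polyAct t h).choose

lemma polyAct_X (t : ι → M →+ M) (h : ∀ i j m, t i (t j m) = t j (t i m)) (i : ι) (m : M) :
    polyAct t h (MvPolynomial.X i) m = t i m := (exists_polyAct t h).choose_spec i m

/-- The module structure over the polynomial ring. -/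
noncomputable abbrev polyModule (t : ι → M →+ M) (h : ∀ i j m, t i (t j m) = t j (t i m)) :
    Module (MvPolynomial ι ℤ) M := Module.compHom M (polyAct t h)

variable {M' : Type*} [AddCommGroup M']

/-- Additive maps commuting with the operators commute with polynomials. -/
lemma polyAct_comm (t : ι → M →+ M) (h : ∀ i j m, t i (t j m) = t j (t i m)) (t' : ι → M' →+ M')
    (h' : ∀ i j m, t' i (t' j m) = t' j (t' i m)) (f : M →+ M')
    (hf : ∀ i m, f (t i m) = t' i (f m)) (P : MvPolynomial ι ℤ) (m : M) :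
    f (polyAct t h P m) = polyAct t' h' P (f m) := by
  induction P using MvPolynomial.induction_on generalizing m with
  | C a =>
    have e1 : (MvPolynomial.C a : MvPolynomial ι ℤ) = (a : MvPolynomial ι ℤ) := by simp
    rw [e1, map_intCast, map_intCast]
    show f (a • m) = a • f m
    rw [map_zsmul]
  | add P Q hP hQ =>
    rw [map_add, map_add]
    show f (polyAct t h P m + polyAct t h Q m) = polyAct t' h' P (f m) + polyAct t' h' Q (f m)
    rw [map_add, hP, hQ]
  | mul_X P i hP =>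
    rw [map_mul, map_mul]
    show f (polyAct t h P (polyAct t h (MvPolynomial.X i) m)) =
      polyAct t' h' P (polyAct t' h' (MvPolynomial.X i) (f m))
    rw [hP, polyAct_X, polyAct_X, hf]

/-- Eigenfunctionals for the operators are eigenfunctionals for polynomials. -/
lemma polyAct_functional {p : ℕ} (t : ι → M →+ M) (h : ∀ i j m, t i (t j m) = t j (t i m))
    (a : ι → ZMod p) (lam : M →+ ZMod p) (hl : ∀ i m, lam (t i m) = a i * lam m)
    (P : MvPolynomial ι ℤ) (m : M) :
    lam (polyAct t h P m) = MvPolynomial.eval₂Hom (Int.castRingHom (ZMod p)) a P * lam m := by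
  induction P using MvPolynomial.induction_on generalizing m with
  | C c =>
    have e1 : (MvPolynomial.C c : MvPolynomial ι ℤ) = (c : MvPolynomial ι ℤ) := by simp
    rw [e1, map_intCast, map_intCast]
    show lam (c • m) = (c : ZMod p) * lam m
    rw [map_zsmul, zsmul_eq_mul]
  | add P Q hP hQ =>
    rw [map_add, map_add]
    show lam (polyAct t h P m + polyAct t h Q m) = _
    rw [map_add, hP, hQ, add_mul]
  | mul_X P i hP =>
    rw [map_mul, map_mul]
    show lam (polyAct t h P (polyAct t h (MvPolynomial.X i) m)) = _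
    rw [hP, polyAct_X, hl, MvPolynomial.eval₂Hom_X']
    ring

end PolyAct

section Core

variable {ι : Type*} {L L' : Type*} [AddCommGroup L] [AddCommGroup L'] [Module.Finite ℤ L]
  [Module.Finite ℤ L'] [Module.IsTorsionFree ℤ L] [Module.IsTorsionFree ℤ L']

/-- The algebraic core of level raising for commuting operators. -/
theorem core_ops {p : ℕ} [hp : Fact p.Prime] (a : ι → ZMod p)
    (t : ι → L →+ L) (ht : ∀ i j m, t i (t j m) = t j (t i m))
    (t' : ι → L' →+ L') (ht' : ∀ i j m, t' i (t' j m) = t' j (t' i m))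
    (i₁ i₂ : L →+ L') (j₁ j₂ : L' →+ L) (tq : L →+ L)
    (hi₁ : ∀ i m, i₁ (t i m) = t' i (i₁ m)) (hi₂ : ∀ i m, i₂ (t i m) = t' i (i₂ m))
    (hj₁ : ∀ i m, j₁ (t' i m) = t i (j₁ m)) (hj₂ : ∀ i m, j₂ (t' i m) = t i (j₂ m))
    (htq : ∀ i m, tq (t i m) = t i (tq m)) (q : ℕ)
    (hji₁ : ∀ x y, j₁ (i₁ x + i₂ y) = (q + 1) • x + tq y)
    (hji₂ : ∀ x y, j₂ (i₁ x + i₂ y) = tq x + (q + 1) • y)
    (hI : ∀ x y : L, (∃ w : L', i₁ x + i₂ y = p • w) →
      (∀ i, ∃ x' y', t i x - (a i).val • x = p • x' ∧ t i y - (a i).val • y = p • y') →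
      ∃ x' y', x = p • x' ∧ y = p • y')
    (hE : ∀ lam₁ lam₂ : L →+ ZMod p, (∀ i m, lam₁ (t i m) = a i * lam₁ m) →
      (∀ i m, lam₂ (t i m) = a i * lam₂ m) → (∀ v, lam₁ (j₁ v) + lam₂ (j₂ v) = 0) →
      lam₁ = 0 ∧ lam₂ = 0)
    (i₀ : ι) (e : ℕ) (he : a i₀ ≠ (e : ZMod p))
    (hΔ : ∀ x y : L, y = t i₀ x - e • x → ((q + 1) ^ 2) • y = tq (tq y) → y = 0)
    (lam : L →+ ZMod p) (hlamT : ∀ i x, lam (t i x) = a i * lam x) (ε : ZMod p)
    (hε : ε ^ 2 = 1) (hlamq : ∀ x, lam (tq x) = ε * (q + 1) * lam x) (hlam : lam ≠ 0)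
    (K : AddSubgroup L') (hK : ∀ v, v ∈ K ↔ j₁ v = 0 ∧ j₂ v = 0) :
    ∃ μ : K →+ ZMod p, (∀ i (m m' : K), m'.1 = t' i m.1 → μ m' = a i * μ m) ∧ μ ≠ 0 := by
  letI : Module (MvPolynomial ι ℤ) L := polyModule t ht
  letI : Module (MvPolynomial ι ℤ) L' := polyModule t' ht'
  have hsL : ∀ (P : MvPolynomial ι ℤ) (x : L), P • x = polyAct t ht P x := fun _ _ => rfl
  have hsL' : ∀ (P : MvPolynomial ι ℤ) (x : L'), P • x = polyAct t' ht' P x := fun _ _ => rfl
  set χ : MvPolynomial ι ℤ →+* ZMod p := MvPolynomial.eval₂Hom (Int.castRingHom (ZMod p)) a with hχ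
  let i : (L × L) →ₗ[MvPolynomial ι ℤ] L' :=
    { toFun := fun z => i₁ z.1 + i₂ z.2
      map_add' := fun z w => by
        show i₁ (z.1 + w.1) + i₂ (z.2 + w.2) = _
        rw [map_add, map_add]; abel
      map_smul' := fun P z => by
        show i₁ (polyAct t ht P z.1) + i₂ (polyAct t ht P z.2) =
          polyAct t' ht' P (i₁ z.1 + i₂ z.2)
        rw [map_add, polyAct_comm t ht t' ht' i₁ hi₁, polyAct_comm t ht t' ht' i₂ hi₂] }
  let j : L' →ₗ[MvPolynomial ι ℤ] (L × L) :=
    { toFun := fun v => (j₁ v, j₂ v)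
      map_add' := fun z w => by rw [map_add, map_add]; rfl
      map_smul' := fun P z => by
        show (j₁ (polyAct t' ht' P z), j₂ (polyAct t' ht' P z)) =
          (polyAct t ht P (j₁ z), polyAct t ht P (j₂ z))
        rw [polyAct_comm t' ht' t ht j₁ hj₁, polyAct_comm t' ht' t ht j₂ hj₂] }
  let tq' : L →ₗ[MvPolynomial ι ℤ] L :=
    { toFun := tq
      map_add' := fun z w => map_add tq z w
      map_smul' := fun P z => polyAct_comm t ht t ht tq htq P z }
  have hXC : ∀ k, (MvPolynomial.X k - (((a k).val : ℕ) : MvPolynomial ι ℤ)) ∈ RingHom.ker χ := by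
    intro k
    rw [RingHom.mem_ker, map_sub, map_natCast, ZMod.natCast_zmod_val, hχ,
      MvPolynomial.eval₂Hom_X', sub_self]
  have hXCs : ∀ k (x : L), (MvPolynomial.X k - (((a k).val : ℕ) : MvPolynomial ι ℤ)) • x =
      t k x - (a k).val • x := by
    intro k x
    rw [sub_smul, Nat.cast_smul_eq_nsmul, hsL, polyAct_X]
  obtain ⟨μ, hμ, hμ0⟩ := core (L := L) (L' := L') χ i j tq' q
    (fun x y => Prod.ext (hji₁ x y) (hji₂ x y))
    (by
      rintro ⟨x, y⟩ hw hz
      obtain ⟨x', y', hx', hy'⟩ := hI x y hw (fun k => by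
        obtain ⟨⟨x', y'⟩, h1⟩ := hz _ (hXC k)
        have h2 := congrArg Prod.fst h1
        have h3 := congrArg Prod.snd h1
        rw [Prod.smul_mk] at h2 h3
        exact ⟨x', y', (hXCs k x).symm.trans h2, (hXCs k y).symm.trans h3⟩)
      exact ⟨(x', y'), Prod.ext hx' hy'⟩)
    (by
      intro f hf hfj
      have e1 : ∀ z : L × L, f z = f (z.1, 0) + f (0, z.2) := by
        intro z; rw [← map_add]; simp
      obtain ⟨h1, h2⟩ := hE (f.comp (AddMonoidHom.inl L L)) (f.comp (AddMonoidHom.inr L L))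
        (fun k m => by
          have h1 := hf (MvPolynomial.X k) (m, 0)
          rw [hχ, MvPolynomial.eval₂Hom_X', Prod.smul_mk, smul_zero, hsL, polyAct_X] at h1
          exact h1)
        (fun k m => by
          have h1 := hf (MvPolynomial.X k) (0, m)
          rw [hχ, MvPolynomial.eval₂Hom_X', Prod.smul_mk, smul_zero, hsL, polyAct_X] at h1
          exact h1)
        (fun v => by
          have h1 := hfj v
          rw [e1] at h1
          exact h1)
      refine AddMonoidHom.ext fun z => ?_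
      have h3 : f (z.1, 0) = 0 := DFunLike.congr_fun h1 z.1
      have h4 : f (0, z.2) = 0 := DFunLike.congr_fun h2 z.2
      rw [e1, h3, h4, add_zero, AddMonoidHom.zero_apply])
    (MvPolynomial.X i₀ - ((e : ℕ) : MvPolynomial ι ℤ))
    (by
      rw [map_sub, map_natCast, hχ, MvPolynomial.eval₂Hom_X']
      exact sub_ne_zero.mpr he)
    (by
      intro x hx
      have h1 : (MvPolynomial.X i₀ - ((e : ℕ) : MvPolynomial ι ℤ)) • x = t i₀ x - e • x := by
        rw [sub_smul, Nat.cast_smul_eq_nsmul, hsL, polyAct_X]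
      exact hΔ x _ h1 hx)
    lam (fun P x => polyAct_functional t ht a lam hlamT P x) ε hε hlamq hlam
  have hKj : ∀ v : K, v.1 ∈ LinearMap.ker j := by
    rintro ⟨v, hv⟩
    obtain ⟨h1, h2⟩ := (hK v).mp hv
    exact Prod.ext h1 h2
  have hjK : ∀ v : LinearMap.ker j, v.1 ∈ K := by
    rintro ⟨v, hv⟩
    exact (hK v).mpr ⟨congrArg Prod.fst hv, congrArg Prod.snd hv⟩
  let κ : K →+ LinearMap.ker j :=
    { toFun := fun v => ⟨v.1, hKj v⟩
      map_zero' := rfl
      map_add' := fun _ _ => rfl }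
  refine ⟨μ.comp κ, ?_, ?_⟩
  · intro k m m' h
    have h1 := hμ (MvPolynomial.X k) (κ m)
    rw [hχ, MvPolynomial.eval₂Hom_X'] at h1
    show μ (κ m') = a k * μ (κ m)
    rw [← h1]
    congr 1
    apply Subtype.ext
    show m'.1 = polyAct t' ht' (MvPolynomial.X k) m.1
    rw [polyAct_X, h]
  · intro h
    apply hμ0
    ext v
    have h1 := DFunLike.congr_fun h ⟨v.1, hjK v⟩
    exact h1

end Core

end Fermat.Agent.H41
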