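import Mathlib
import Fermat.Agent.H71Lift

/-!
# Deligne–Serre lifting for lattices with an eigenfunctional (helper41)
-/

set_option autoImplicit false

namespace Fermat.Agent.H41

open scoped IsMulCommutative in
/-- A mod `p` eigenfunctional on a lattice stable under commuting operators lifts to a
characteristic zero eigenvector with congruent eigenvalues. -/
theorem exists_eigenvector_of_functional {p : ℕ} [hp : Fact p.Prime] {ι : Type*} {E : Type*}
    [AddCommGroup E] [Module ℂ E] (t : ι → E →ₗ[ℂ] E) {K : Type*} [AddCommGroup K]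
    [Module.Finite ℤ K] [Module.IsTorsionFree ℤ K] (c : K →+ E) (hc : Function.Injective c)
    (tK : ι → K →+ K) (ht : ∀ i m, t i (c m) = c (tK i m))
    (hcomm : ∀ i j m, tK i (tK j m) = tK j (tK i m)) (a : ι → ZMod p) (μ : K →+ ZMod p)
    (hμ : ∀ i m, μ (tK i m) = a i * μ m) (hμ0 : μ ≠ 0) :
    ∃ (α : ι → integralClosure ℤ ℂ) (v : E) (𝔪 : Ideal (integralClosure ℤ ℂ)),
      v ≠ 0 ∧ v ∈ Submodule.span ℂ (Set.range c) ∧ 𝔪.IsMaximal ∧
      ((p : ℕ) : integralClosure ℤ ℂ) ∈ 𝔪 ∧ (∀ i, t i v = (α i : ℂ) • v) ∧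
      ∀ i, α i - (((a i).val : ℕ) : integralClosure ℤ ℂ) ∈ 𝔪 := by
  classical
  set V : Submodule ℂ E := Submodule.span ℂ (Set.range c) with hV
  have hcV : ∀ m, c m ∈ V := fun m => Submodule.subset_span ⟨m, rfl⟩
  -- finite dimensionality
  have hfd : FiniteDimensional ℂ V := by
    obtain ⟨s, hs⟩ := (Module.Finite.fg_top : (⊤ : Submodule ℤ K).FG)
    have h1 : V = Submodule.span ℂ (c '' (s : Set K)) := by
      apply le_antisymm
      · rw [hV, Submodule.span_le]
        rintro _ ⟨m, rfl⟩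
        have hm : m ∈ Submodule.span ℤ (s : Set K) := by rw [hs]; trivial
        induction hm using Submodule.span_induction with
        | mem x hx => exact Submodule.subset_span ⟨x, hx, rfl⟩
        | zero => rw [map_zero]; exact Submodule.zero_mem _
        | add x y _ _ hx hy => rw [map_add]; exact Submodule.add_mem _ hx hy
        | smul n x _ hx => rw [map_zsmul]; exact Submodule.smul_of_tower_mem _ n hx
      · rw [Submodule.span_le]
        rintro _ ⟨m, -, rfl⟩
        exact hcV m
    rw [h1]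
    exact FiniteDimensional.span_of_finite ℂ (s.finite_toSet.image c)
  have hstab : ∀ i, ∀ v ∈ V, t i v ∈ V := by
    intro i v hv
    rw [hV] at hv ⊢
    induction hv using Submodule.span_induction with
    | mem x hx =>
      obtain ⟨m, rfl⟩ := hx
      rw [ht]; exact hcV _
    | zero => rw [map_zero]; exact Submodule.zero_mem _
    | add x y _ _ hx hy => rw [map_add]; exact Submodule.add_mem _ hx hy
    | smul n x _ hx => rw [map_smul]; exact Submodule.smul_mem _ n hx
  let tV : ι → Module.End ℂ V := fun i => (t i).restrict (hstab i)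
  let cV : K →+ V :=
    { toFun := fun m => ⟨c m, hcV m⟩
      map_zero' := Subtype.ext (map_zero c)
      map_add' := fun x y => Subtype.ext (map_add c x y) }
  have htV : ∀ i m, tV i (cV m) = cV (tK i m) := fun i m => Subtype.ext (ht i m)
  have hspan : ∀ (f g : Module.End ℂ V), (∀ m, f (cV m) = g (cV m)) → f = g := by
    intro f g h
    ext ⟨v, hv⟩
    congr 1
    have hv' := hv
    rw [hV] at hv'
    induction hv' using Submodule.span_induction with
    | mem x hx =>
      obtain ⟨m, rfl⟩ := hx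
      exact h m
    | zero =>
      have : (⟨0, hv⟩ : V) = 0 := rfl
      rw [this, map_zero, map_zero]
    | add x y hx hy hx' hy' =>
      have : (⟨x + y, hv⟩ : V) = ⟨x, hx⟩ + ⟨y, hy⟩ := rfl
      rw [this, map_add, map_add, hx' hx, hy' hy]
    | smul n x hx hx' =>
      have : (⟨n • x, hv⟩ : V) = n • ⟨x, hx⟩ := rfl
      rw [this, map_smul, map_smul, hx' hx]
  let A : Subalgebra ℤ (Module.End ℂ V) := Algebra.adjoin ℤ (Set.range tV)
  have hcommA : IsMulCommutative A := Algebra.isMulCommutative_adjoin ℤ (by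
    rintro _ ⟨i, rfl⟩ _ ⟨j, rfl⟩
    apply hspan
    intro m
    show tV i (tV j (cV m)) = tV j (tV i (cV m))
    rw [htV, htV, htV, htV, hcomm])
  -- A preserves the lattice and the kernel of μ
  have hA : ∀ x ∈ A, (∀ m, ∃ m', x (cV m) = cV m') ∧
      (∀ m, μ m = 0 → ∃ m', x (cV m) = cV m' ∧ μ m' = 0) := by
    intro x hx
    induction hx using Algebra.adjoin_induction with
    | mem x hx =>
      obtain ⟨i, rfl⟩ := hx
      refine ⟨fun m => ⟨_, htV i m⟩, fun m hm => ⟨_, htV i m, ?_⟩⟩
      rw [hμ, hm, mul_zero]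
    | algebraMap r =>
      have h1 : ∀ m, (algebraMap ℤ (Module.End ℂ V) r) (cV m) = cV (r • m) := by
        intro m
        rw [map_zsmul]
        simp
      refine ⟨fun m => ⟨_, h1 m⟩, fun m hm => ⟨_, h1 m, ?_⟩⟩
      rw [map_zsmul, hm, smul_zero]
    | add x y _ _ hx hy =>
      refine ⟨fun m => ?_, fun m hm => ?_⟩
      · obtain ⟨m₁, h₁⟩ := hx.1 m
        obtain ⟨m₂, h₂⟩ := hy.1 m
        exact ⟨m₁ + m₂, by rw [LinearMap.add_apply, h₁, h₂, map_add]⟩
      · obtain ⟨m₁, h₁, h₁'⟩ := hx.2 m hm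
        obtain ⟨m₂, h₂, h₂'⟩ := hy.2 m hm
        exact ⟨m₁ + m₂, by rw [LinearMap.add_apply, h₁, h₂, map_add], by
          rw [map_add, h₁', h₂', add_zero]⟩
    | mul x y _ _ hx hy =>
      refine ⟨fun m => ?_, fun m hm => ?_⟩
      · obtain ⟨m₁, h₁⟩ := hy.1 m
        obtain ⟨m₂, h₂⟩ := hx.1 m₁
        exact ⟨m₂, by rw [Module.End.mul_apply, h₁, h₂]⟩
      · obtain ⟨m₁, h₁, h₁'⟩ := hy.2 m hm
        obtain ⟨m₂, h₂, h₂'⟩ := hx.2 m₁ h₁'
        exact ⟨m₂, by rw [Module.End.mul_apply, h₁, h₂], h₂'⟩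
  -- A is finite over ℤ
  let Λ : Submodule ℤ V := LinearMap.range cV.toIntLinearMap
  have hΛfin : Module.Finite ℤ Λ := Module.Finite.range _
  have hAfin : Module.Finite ℤ A := by
    let F : A →ₗ[ℤ] (K →ₗ[ℤ] Λ) :=
      { toFun := fun x =>
          { toFun := fun m => ⟨x.1 (cV m), by
              obtain ⟨m', hm'⟩ := (hA x.1 x.2).1 m
              rw [hm']; exact ⟨m', rfl⟩⟩
            map_add' := fun m m' => Subtype.ext (by
              show x.1 (cV (m + m')) = x.1 (cV m) + x.1 (cV m')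
              rw [map_add, map_add])
            map_smul' := fun n m => Subtype.ext (by
              show x.1 (cV (n • m)) = n • x.1 (cV m)
              rw [map_zsmul, map_zsmul]) }
        map_add' := fun x y => rfl
        map_smul' := fun n x => by
          ext m
          show (((n • x : A) : Module.End ℂ V) (cV m) : V).1 = (n • (x.1 (cV m)) : V).1
          rfl }
    refine Module.Finite.of_injective F ?_
    intro x y hxy
    apply Subtype.ext
    apply hspan
    intro m
    have := congrArg (fun f : K →ₗ[ℤ] Λ => (f m : V)) hxy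
    exact this
  let g : ι → A := fun i => ⟨tV i, Algebra.subset_adjoin ⟨i, rfl⟩⟩
  let I : Ideal A := Ideal.span ({((p : ℕ) : A)} ∪ Set.range (fun i => g i - (((a i).val : ℕ) : A)))
  have hIker : ∀ x ∈ I, ∀ m, ∃ m', x.1 (cV m) = cV m' ∧ μ m' = 0 := by
    intro x hx
    induction hx using Submodule.span_induction with
    | mem x hx =>
      intro m
      rcases hx with hx | ⟨i, rfl⟩
      · rw [Set.mem_singleton_iff] at hx
        refine ⟨p • m, ?_, ?_⟩
        · rw [hx, map_nsmul]
          show (((p : ℕ) : Module.End ℂ V)) (cV m) = _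
          simp
        · rw [map_nsmul, nsmul_eq_mul, ZMod.natCast_self, zero_mul]
      · refine ⟨tK i m - (a i).val • m, ?_, ?_⟩
        · show (tV i - ((((a i).val : ℕ) : Module.End ℂ V))) (cV m) = _
          rw [LinearMap.sub_apply, htV, map_sub, map_nsmul, Module.End.natCast_apply]
        · rw [map_sub, hμ, map_nsmul, nsmul_eq_mul, ZMod.natCast_zmod_val, sub_self]
    | zero =>
      intro m
      exact ⟨0, by rw [map_zero]; rfl, map_zero μ⟩
    | add x y _ _ hx hy =>
      intro m
      obtain ⟨m₁, h₁, h₁'⟩ := hx m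
      obtain ⟨m₂, h₂, h₂'⟩ := hy m
      refine ⟨m₁ + m₂, ?_, by rw [map_add, h₁', h₂', add_zero]⟩
      show x.1 (cV m) + y.1 (cV m) = _
      rw [h₁, h₂, map_add]
    | smul y x _ hx =>
      intro m
      obtain ⟨m₁, h₁, h₁'⟩ := hx m
      obtain ⟨m₂, h₂, h₂'⟩ := (hA y.1 y.2).2 m₁ h₁'
      refine ⟨m₂, ?_, h₂'⟩
      show y.1 (x.1 (cV m)) = _
      rw [h₁, h₂]
  have hI : I ≠ ⊤ := by
    intro h
    apply hμ0
    ext m
    have h1 : (1 : A) ∈ I := by rw [h]; trivial
    obtain ⟨m', h2, h3⟩ := hIker 1 h1 m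
    have h4 : cV m = cV m' := h2
    have h5 : m = m' := hc (congrArg Subtype.val h4)
    rw [h5, h3]; rfl
  obtain ⟨χ, v, 𝔪, hv, h𝔪, hχ, hχI⟩ := Fermat.Agent.H71.exists_eigenvector_lift (T := A)
    (A.val : A →+* Module.End ℂ V) Subtype.val_injective I hI
  refine ⟨fun i => χ (g i), v.1, 𝔪, fun h => hv (Subtype.ext h), v.2, h𝔪, ?_, ?_, ?_⟩
  · have h1 := hχI _ (Ideal.subset_span (Or.inl rfl))
    rwa [map_natCast] at h1
  · intro i
    exact congrArg Subtype.val (hχ (g i))
  · intro i
    have h1 := hχI _ (Ideal.subset_span (Or.inr ⟨i, rfl⟩))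
    set x : A := (fun i => g i - (((a i).val : ℕ) : A)) i with hx
    have e : g i = x + (((a i).val : ℕ) : A) := by
      apply Subtype.ext
      show tV i = (tV i - (((a i).val : ℕ) : Module.End ℂ V)) + (((a i).val : ℕ) : Module.End ℂ V)
      rw [sub_add_cancel]
    have h2 : χ (g i) = χ x + (((a i).val : ℕ) : integralClosure ℤ ℂ) := by
      rw [e]
      exact (RingHom.map_add χ _ _).trans (congrArg _ (map_natCast χ _))
    show χ (g i) - _ ∈ 𝔪
    rw [h2, add_sub_cancel_right]
    exact h1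

end Fermat.Agent.H41
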