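import Mathlib

/-!
# Germs of homomorphisms on `S`-arithmetic congruence subgroups (helper41)

`A = ℤ[1/q]`.  `GamA q M` is the principal congruence subgroup of level `M` of `SL₂(A)`, realised
inside `GL₂(ℚ)`.
-/

set_option autoImplicit false

namespace Fermat.Agent.H41

open Matrix

section GL2

/-- The matrix `[a,b;c,d]` as an element of `GL₂(ℚ)`. -/
noncomputable def mk2 (a b c d : ℚ) (h : a * d - b * c ≠ 0) : GL (Fin 2) ℚ :=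
  Matrix.GeneralLinearGroup.mkOfDetNeZero !![a, b; c, d] (by rwa [Matrix.det_fin_two_of])

@[simp] lemma mk2_00 (a b c d : ℚ) (h) : (mk2 a b c d h) 0 0 = a := rfl
@[simp] lemma mk2_01 (a b c d : ℚ) (h) : (mk2 a b c d h) 0 1 = b := rfl
@[simp] lemma mk2_10 (a b c d : ℚ) (h) : (mk2 a b c d h) 1 0 = c := rfl
@[simp] lemma mk2_11 (a b c d : ℚ) (h) : (mk2 a b c d h) 1 1 = d := rfl

lemma gl_ext {g h : GL (Fin 2) ℚ} (h00 : g 0 0 = h 0 0) (h01 : g 0 1 = h 0 1)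
    (h10 : g 1 0 = h 1 0) (h11 : g 1 1 = h 1 1) : g = h := by
  apply Matrix.GeneralLinearGroup.ext
  intro i j
  fin_cases i <;> fin_cases j <;> assumption

lemma mul_00 (g h : GL (Fin 2) ℚ) : (g * h) 0 0 = g 0 0 * h 0 0 + g 0 1 * h 1 0 := by
  simp [Matrix.mul_apply, Fin.sum_univ_two]
lemma mul_01 (g h : GL (Fin 2) ℚ) : (g * h) 0 1 = g 0 0 * h 0 1 + g 0 1 * h 1 1 := by
  simp [Matrix.mul_apply, Fin.sum_univ_two]
lemma mul_10 (g h : GL (Fin 2) ℚ) : (g * h) 1 0 = g 1 0 * h 0 0 + g 1 1 * h 1 0 := by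
  simp [Matrix.mul_apply, Fin.sum_univ_two]
lemma mul_11 (g h : GL (Fin 2) ℚ) : (g * h) 1 1 = g 1 0 * h 0 1 + g 1 1 * h 1 1 := by
  simp [Matrix.mul_apply, Fin.sum_univ_two]

@[simp] lemma one_00 : (1 : GL (Fin 2) ℚ) 0 0 = 1 := by simp
@[simp] lemma one_01 : (1 : GL (Fin 2) ℚ) 0 1 = 0 := by simp
@[simp] lemma one_10 : (1 : GL (Fin 2) ℚ) 1 0 = 0 := by simp
@[simp] lemma one_11 : (1 : GL (Fin 2) ℚ) 1 1 = 1 := by simp

/-- determinant as a rational number -/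
def dt (g : GL (Fin 2) ℚ) : ℚ := g 0 0 * g 1 1 - g 0 1 * g 1 0

lemma dt_eq_det (g : GL (Fin 2) ℚ) : dt g = (g.det : ℚ) := by
  rw [Matrix.GeneralLinearGroup.val_det_apply, Matrix.det_fin_two]; rfl

lemma dt_ne_zero (g : GL (Fin 2) ℚ) : dt g ≠ 0 := by
  rw [dt_eq_det]; exact Units.ne_zero _

lemma dt_mul (g h : GL (Fin 2) ℚ) : dt (g * h) = dt g * dt h := by
  simp only [dt_eq_det, map_mul, Units.val_mul]

@[simp] lemma dt_one : dt 1 = 1 := by simp [dt]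

lemma dt_inv (g : GL (Fin 2) ℚ) : dt g⁻¹ = (dt g)⁻¹ := by
  have : dt (g⁻¹ * g) = 1 := by rw [inv_mul_cancel, dt_one]
  rw [dt_mul] at this
  exact eq_inv_of_mul_eq_one_left this

/-- explicit inverse -/
lemma inv_eq (g : GL (Fin 2) ℚ) :
    g⁻¹ = mk2 (g 1 1 / dt g) (-g 0 1 / dt g) (-g 1 0 / dt g) (g 0 0 / dt g) (by
      have h := dt_ne_zero g
      have : g 1 1 / dt g * (g 0 0 / dt g) - -g 0 1 / dt g * (-g 1 0 / dt g) = (dt g)⁻¹ := by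
        field_simp
        simp only [dt]; ring
      rw [this]; exact inv_ne_zero h) := by
  have h := dt_ne_zero g
  symm
  apply eq_inv_of_mul_eq_one_left
  apply gl_ext
  · rw [mul_00]; simp only [mk2_00, mk2_01, one_00]
    field_simp; simp only [dt]; ring
  · rw [mul_01]; simp only [mk2_00, mk2_01, one_01]
    field_simp; ring
  · rw [mul_10]; simp only [mk2_10, mk2_11, one_10]
    field_simp; ring
  · rw [mul_11]; simp only [mk2_10, mk2_11, one_11]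
    field_simp; simp only [dt]; ring

lemma inv_00 (g : GL (Fin 2) ℚ) : g⁻¹ 0 0 = g 1 1 / dt g := by rw [inv_eq g, mk2_00]
lemma inv_01 (g : GL (Fin 2) ℚ) : g⁻¹ 0 1 = -g 0 1 / dt g := by rw [inv_eq g, mk2_01]
lemma inv_10 (g : GL (Fin 2) ℚ) : g⁻¹ 1 0 = -g 1 0 / dt g := by rw [inv_eq g, mk2_10]
lemma inv_11 (g : GL (Fin 2) ℚ) : g⁻¹ 1 1 = g 0 0 / dt g := by rw [inv_eq g, mk2_11]

/-- upper unipotent -/
noncomputable def Um (t : ℚ) : GL (Fin 2) ℚ := mk2 1 t 0 1 (by simp)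
/-- lower unipotent -/
noncomputable def Lm (t : ℚ) : GL (Fin 2) ℚ := mk2 1 0 t 1 (by simp)
/-- diagonal -/
noncomputable def Dm (u : ℚ) (hu : u ≠ 0) : GL (Fin 2) ℚ := mk2 u 0 0 u⁻¹ (by simp [hu])

lemma Um_smul (t : ℚ) : Um t • (OnePoint.infty : OnePoint ℚ) = OnePoint.infty := by
  rw [OnePoint.smul_infty_eq_self_iff]; rfl

lemma Lm_smul (t : ℚ) : Lm t • ((0 : ℚ) : OnePoint ℚ) = ((0 : ℚ) : OnePoint ℚ) := by
  rw [OnePoint.smul_some_eq_ite]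
  simp [Lm]

end GL2

section IdealA

variable (q : ℕ)

/-- The ideal `M·ℤ[1/q]` of `ℤ[1/q]`, as an additive subgroup of `ℚ`. -/
def JA (M : ℕ) : AddSubgroup ℚ where
  carrier := {x | ∃ (n : ℕ) (z : ℤ), x * (q : ℚ) ^ n = (M : ℚ) * z}
  zero_mem' := ⟨0, 0, by simp⟩
  add_mem' := by
    rintro x y ⟨n, z, hx⟩ ⟨m, w, hy⟩
    refine ⟨n + m, z * (q : ℤ) ^ m + w * (q : ℤ) ^ n, ?_⟩
    push_cast
    rw [pow_add]
    linear_combination (q : ℚ) ^ m * hx + (q : ℚ) ^ n * hy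
  neg_mem' := by
    rintro x ⟨n, z, hx⟩
    refine ⟨n, -z, ?_⟩
    push_cast
    linear_combination -hx

variable {q}

lemma mem_JA {M : ℕ} {x : ℚ} : x ∈ JA q M ↔ ∃ (n : ℕ) (z : ℤ), x * (q : ℚ) ^ n = (M : ℚ) * z :=
  Iff.rfl

lemma JA_le_one {M : ℕ} {x : ℚ} (hx : x ∈ JA q M) : x ∈ JA q 1 := by
  obtain ⟨n, z, h⟩ := hx
  exact ⟨n, M * z, by rw [h]; push_cast; ring⟩

lemma JA_mul {M : ℕ} {x y : ℚ} (hx : x ∈ JA q 1) (hy : y ∈ JA q M) : x * y ∈ JA q M := by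
  obtain ⟨n, z, h⟩ := hx
  obtain ⟨m, w, h'⟩ := hy
  refine ⟨n + m, z * w, ?_⟩
  push_cast at h ⊢
  rw [pow_add]
  calc x * y * ((q : ℚ) ^ n * (q : ℚ) ^ m) = (x * (q : ℚ) ^ n) * (y * (q : ℚ) ^ m) := by ring
    _ = (M : ℚ) * (z * w) := by rw [h, h']; ring

lemma JA_mul' {M : ℕ} {x y : ℚ} (hx : x ∈ JA q M) (hy : y ∈ JA q 1) : x * y ∈ JA q M := by
  rw [mul_comm]; exact JA_mul hy hx

lemma int_mem_JA (z : ℤ) : (z : ℚ) ∈ JA q 1 := ⟨0, z, by simp⟩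

lemma one_mem_JA : (1 : ℚ) ∈ JA q 1 := ⟨0, 1, by simp⟩

lemma natCast_mem_JA (M : ℕ) : (M : ℚ) ∈ JA q M := ⟨0, 1, by simp⟩

lemma mul_int_mem_JA (M : ℕ) (z : ℤ) : (M : ℚ) * z ∈ JA q M := ⟨0, z, by simp⟩

lemma JA_mono {M M' : ℕ} (h : M ∣ M') {x : ℚ} (hx : x ∈ JA q M') : x ∈ JA q M := by
  obtain ⟨n, z, hx⟩ := hx
  obtain ⟨c, rfl⟩ := h
  exact ⟨n, c * z, by rw [hx]; push_cast; ring⟩

lemma zpow_mem_JA (hq : q ≠ 0) (i : ℤ) : ((q : ℚ) ^ i) ∈ JA q 1 := by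
  have hq' : (q : ℚ) ≠ 0 := by exact_mod_cast hq
  rcases Int.eq_nat_or_neg i with ⟨n, rfl | rfl⟩
  · exact ⟨0, (q : ℤ) ^ n, by push_cast; simp⟩
  · exact ⟨n, 1, by
      rw [_root_.zpow_neg, zpow_natCast]
      push_cast
      rw [mul_one, inv_mul_cancel₀ (pow_ne_zero _ hq')]⟩

end IdealA

section GamA

variable (q M : ℕ)

/-- Principal congruence subgroup of level `M` of `SL₂(ℤ[1/q])` inside `GL₂(ℚ)`. -/
def GamA : Subgroup (GL (Fin 2) ℚ) where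
  carrier := {g | dt g = 1 ∧ g 0 0 - 1 ∈ JA q M ∧ g 0 1 ∈ JA q M ∧ g 1 0 ∈ JA q M ∧
    g 1 1 - 1 ∈ JA q M}
  one_mem' := by
    refine ⟨dt_one, ?_, ?_, ?_, ?_⟩ <;> simp [(JA q M).zero_mem]
  mul_mem' := by
    rintro g h ⟨hg, hg00, hg01, hg10, hg11⟩ ⟨hh, hh00, hh01, hh10, hh11⟩
    refine ⟨by rw [dt_mul, hg, hh, one_mul], ?_, ?_, ?_, ?_⟩
    · rw [mul_00]
      have : g 0 0 * h 0 0 + g 0 1 * h 1 0 - 1
        = (g 0 0 - 1) * (h 0 0 - 1) + (g 0 0 - 1) + (h 0 0 - 1) + g 0 1 * h 1 0 := by ring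
      rw [this]
      exact (JA q M).add_mem ((JA q M).add_mem ((JA q M).add_mem
        (JA_mul (JA_le_one hg00) hh00) hg00) hh00) (JA_mul (JA_le_one hg01) hh10)
    · rw [mul_01]
      have : g 0 0 * h 0 1 + g 0 1 * h 1 1
        = (g 0 0 - 1) * h 0 1 + h 0 1 + g 0 1 * (h 1 1 - 1) + g 0 1 := by ring
      rw [this]
      exact (JA q M).add_mem ((JA q M).add_mem ((JA q M).add_mem
        (JA_mul (JA_le_one hg00) hh01) hh01) (JA_mul (JA_le_one hg01) hh11)) hg01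
    · rw [mul_10]
      have : g 1 0 * h 0 0 + g 1 1 * h 1 0
        = g 1 0 * (h 0 0 - 1) + g 1 0 + (g 1 1 - 1) * h 1 0 + h 1 0 := by ring
      rw [this]
      exact (JA q M).add_mem ((JA q M).add_mem ((JA q M).add_mem
        (JA_mul (JA_le_one hg10) hh00) hg10) (JA_mul (JA_le_one hg11) hh10)) hh10
    · rw [mul_11]
      have : g 1 0 * h 0 1 + g 1 1 * h 1 1 - 1
        = (g 1 1 - 1) * (h 1 1 - 1) + (g 1 1 - 1) + (h 1 1 - 1) + g 1 0 * h 0 1 := by ring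
      rw [this]
      exact (JA q M).add_mem ((JA q M).add_mem ((JA q M).add_mem
        (JA_mul (JA_le_one hg11) hh11) hg11) hh11) (JA_mul (JA_le_one hg10) hh01)
  inv_mem' := by
    rintro g ⟨hg, hg00, hg01, hg10, hg11⟩
    refine ⟨by rw [dt_inv, hg, inv_one], ?_, ?_, ?_, ?_⟩
    · rw [inv_00, hg, div_one]; exact hg11
    · rw [inv_01, hg, div_one]; exact (JA q M).neg_mem hg01
    · rw [inv_10, hg, div_one]; exact (JA q M).neg_mem hg10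
    · rw [inv_11, hg, div_one]; exact hg00

variable {q M}

lemma mem_GamA {g : GL (Fin 2) ℚ} : g ∈ GamA q M ↔ dt g = 1 ∧ g 0 0 - 1 ∈ JA q M ∧
    g 0 1 ∈ JA q M ∧ g 1 0 ∈ JA q M ∧ g 1 1 - 1 ∈ JA q M := Iff.rfl

lemma Um_mem {t : ℚ} (ht : t ∈ JA q M) : Um t ∈ GamA q M := by
  refine ⟨by simp [dt, Um], ?_, ht, ?_, ?_⟩ <;> simp [Um, (JA q M).zero_mem]

lemma Lm_mem {t : ℚ} (ht : t ∈ JA q M) : Lm t ∈ GamA q M := by
  refine ⟨by simp [dt, Lm], ?_, ?_, ht, ?_⟩ <;> simp [Lm, (JA q M).zero_mem]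

lemma GamA_mono {M M' : ℕ} (h : M ∣ M') : GamA q M' ≤ GamA q M := by
  rintro g ⟨h0, h1, h2, h3, h4⟩
  exact ⟨h0, JA_mono h h1, JA_mono h h2, JA_mono h h3, JA_mono h h4⟩

/-- `D(u)` normalises `Γ(M)` when `u` is a unit of `ℤ[1/q]`. -/
lemma conj_Dm_mem {u : ℚ} (hu : u ≠ 0) (h1 : u ∈ JA q 1) (h2 : u⁻¹ ∈ JA q 1)
    {x : GL (Fin 2) ℚ} (hx : x ∈ GamA q M) : Dm u hu * x * (Dm u hu)⁻¹ ∈ GamA q M := by
  obtain ⟨h0, h00, h01, h10, h11⟩ := hx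
  have hD : dt (Dm u hu) = 1 := by simp [dt, Dm, hu]
  refine ⟨by rw [dt_mul, dt_mul, dt_inv, h0, hD]; simp, ?_, ?_, ?_, ?_⟩
  · have : (Dm u hu * x * (Dm u hu)⁻¹) 0 0 - 1 = x 0 0 - 1 := by
      rw [mul_00, mul_00, mul_01, inv_00, inv_10, hD]; simp [Dm]; field_simp
    rw [this]; exact h00
  · have : (Dm u hu * x * (Dm u hu)⁻¹) 0 1 = u * (u * x 0 1) := by
      rw [mul_01, mul_00, mul_01, inv_01, inv_11, hD]; simp [Dm]; ring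
    rw [this]; exact JA_mul h1 (JA_mul h1 h01)
  · have : (Dm u hu * x * (Dm u hu)⁻¹) 1 0 = u⁻¹ * (u⁻¹ * x 1 0) := by
      rw [mul_10, mul_10, mul_11, inv_00, inv_10, hD]; simp [Dm]; ring
    rw [this]; exact JA_mul h2 (JA_mul h2 h10)
  · have : (Dm u hu * x * (Dm u hu)⁻¹) 1 1 - 1 = x 1 1 - 1 := by
      rw [mul_11, mul_10, mul_11, inv_01, inv_11, hD]; simp [Dm]; field_simp
    rw [this]; exact h11

end GamA


section Germ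

variable {k : Type*} [AddCommGroup k]

/-- `φ` restricts to a homomorphism on `Γ(M)` which kills every element fixing a point of
`P¹(ℚ)`. -/
structure IsGerm (q M : ℕ) (φ : GL (Fin 2) ℚ → k) : Prop where
  map_mul : ∀ x ∈ GamA q M, ∀ y ∈ GamA q M, φ (x * y) = φ x + φ y
  fix : ∀ x ∈ GamA q M, ∀ r : OnePoint ℚ, x • r = r → φ x = 0

variable {q M : ℕ} {φ : GL (Fin 2) ℚ → k}

lemma IsGerm.mono {M' : ℕ} (h : IsGerm q M φ) (hM : M ∣ M') : IsGerm q M' φ :=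
  ⟨fun x hx y hy => h.map_mul x (GamA_mono hM hx) y (GamA_mono hM hy),
   fun x hx r hr => h.fix x (GamA_mono hM hx) r hr⟩

lemma IsGerm.conj (h : IsGerm q M φ) {M' : ℕ} (g : GL (Fin 2) ℚ)
    (hg : ∀ x ∈ GamA q M', g * x * g⁻¹ ∈ GamA q M) :
    IsGerm q M' (fun x => φ (g * x * g⁻¹)) := by
  refine ⟨fun x hx y hy => ?_, fun x hx r hr => ?_⟩
  · have : g * (x * y) * g⁻¹ = (g * x * g⁻¹) * (g * y * g⁻¹) := by group
    show φ (g * (x * y) * g⁻¹) = _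
    rw [this, h.map_mul _ (hg x hx) _ (hg y hy)]
  · refine h.fix _ (hg x hx) (g • r) ?_
    rw [mul_smul, mul_smul, inv_smul_smul, hr]

lemma IsGerm.kill_Um (h : IsGerm q M φ) {t : ℚ} (ht : t ∈ JA q M) : φ (Um t) = 0 :=
  h.fix _ (Um_mem ht) _ (Um_smul t)

lemma IsGerm.kill_Lm (h : IsGerm q M φ) {t : ℚ} (ht : t ∈ JA q M) : φ (Lm t) = 0 :=
  h.fix _ (Lm_mem ht) _ (Lm_smul t)

/-- Key computation: conjugation by `D(u)` with `a ∣ u² - 1`. -/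
lemma IsGerm.conj_Dm_key (h : IsGerm q M φ) {x : GL (Fin 2) ℚ} (hx : x ∈ GamA q M)
    {u : ℚ} (hu : u ≠ 0) (h2 : u⁻¹ ∈ JA q 1)
    (ha : x 0 0 ≠ 0) (hdiv : (u ^ 2 - 1) / x 0 0 ∈ JA q 1) :
    φ (Dm u hu * x * (Dm u hu)⁻¹) = φ x := by
  obtain ⟨h0, h00, h01, h10, h11⟩ := id hx
  have hD : dt (Dm u hu) = 1 := by simp [dt, Dm, hu]
  set t : ℚ := (u ^ 2 - 1) / x 0 0 * x 0 1 with ht
  set s : ℚ := -(u⁻¹ * (u⁻¹ * ((u ^ 2 - 1) / x 0 0 * x 1 0))) with hs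
  have htJ : t ∈ JA q M := JA_mul hdiv h01
  have hsJ : s ∈ JA q M := (JA q M).neg_mem (JA_mul h2 (JA_mul h2 (JA_mul hdiv h10)))
  have hdet : x 0 0 * x 1 1 - x 0 1 * x 1 0 = 1 := h0
  have key : Dm u hu * x * (Dm u hu)⁻¹ = Lm s * (x * Um t) := by
    have e00 : (Dm u hu * x * (Dm u hu)⁻¹) 0 0 = x 0 0 := by
      rw [mul_00, mul_00, mul_01, inv_00, inv_10, hD]; simp [Dm]; field_simp
    have e01 : (Dm u hu * x * (Dm u hu)⁻¹) 0 1 = u * (u * x 0 1) := by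
      rw [mul_01, mul_00, mul_01, inv_01, inv_11, hD]; simp [Dm]; ring
    have e10 : (Dm u hu * x * (Dm u hu)⁻¹) 1 0 = u⁻¹ * (u⁻¹ * x 1 0) := by
      rw [mul_10, mul_10, mul_11, inv_00, inv_10, hD]; simp [Dm]; ring
    have e11 : (Dm u hu * x * (Dm u hu)⁻¹) 1 1 = x 1 1 := by
      rw [mul_11, mul_10, mul_11, inv_01, inv_11, hD]; simp [Dm]; field_simp
    apply gl_ext
    · rw [e00, mul_00, mul_00, mul_10]; simp [Lm, Um]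
    · rw [e01, mul_01, mul_01, mul_11]; simp only [Lm, Um, mk2_00, mk2_01, mk2_11, ht]
      field_simp; ring
    · rw [e10, mul_10, mul_00, mul_10]; simp only [Lm, Um, mk2_00, mk2_10, mk2_11, hs]
      field_simp; ring
    · rw [e11, mul_11, mul_01, mul_11]
      simp only [Lm, Um, mk2_01, mk2_10, mk2_11, ht, hs]
      have hx11 : x 1 1 = (1 + x 0 1 * x 1 0) / x 0 0 := by
        field_simp; linear_combination hdet
      rw [hx11]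
      field_simp; ring
  rw [key, h.map_mul _ (Lm_mem hsJ) _ ((GamA q M).mul_mem hx (Um_mem htJ)),
    h.map_mul _ hx _ (Um_mem htJ), h.kill_Um htJ, h.kill_Lm hsJ, zero_add, add_zero]

/-- The set of `i` such that conjugation by `D(q^i)` fixes the value at `x` of all germs of
level `M`. -/
def Iset (k : Type*) [AddCommGroup k] (q M : ℕ) (hq : q ≠ 0) (x : GL (Fin 2) ℚ) :
    AddSubgroup ℤ where
  carrier := {i | ∀ ψ : GL (Fin 2) ℚ → k, IsGerm q M ψ →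
    ψ ((Dm ((q : ℚ) ^ i) (zpow_ne_zero _ (by exact_mod_cast hq))) * x *
      (Dm ((q : ℚ) ^ i) (zpow_ne_zero _ (by exact_mod_cast hq)))⁻¹) = ψ x}
  zero_mem' := by
    intro ψ _
    have : Dm ((q : ℚ) ^ (0 : ℤ)) (zpow_ne_zero _ (by exact_mod_cast hq)) = 1 := by
      apply gl_ext <;> simp [Dm]
    rw [this]; simp
  add_mem' := by
    intro i j hi hj ψ hψ
    have hq' : (q : ℚ) ≠ 0 := by exact_mod_cast hq
    have hmul : Dm ((q : ℚ) ^ (i + j)) (zpow_ne_zero _ hq') =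
        Dm ((q : ℚ) ^ i) (zpow_ne_zero _ hq') * Dm ((q : ℚ) ^ j) (zpow_ne_zero _ hq') := by
      apply gl_ext
      · rw [mul_00]; simp [Dm, zpow_add₀ hq']
      · rw [mul_01]; simp [Dm]
      · rw [mul_10]; simp [Dm]
      · rw [mul_11]; simp [Dm, zpow_add₀ hq', mul_comm]
    have hconj := hψ.conj (M' := M) (Dm ((q : ℚ) ^ i) (zpow_ne_zero _ hq'))
      (fun y hy => conj_Dm_mem _ (zpow_mem_JA hq i)
        (by rw [← _root_.zpow_neg]; exact zpow_mem_JA hq (-i)) hy)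
    have h1 := hj _ hconj
    have h2 := hi ψ hψ
    rw [hmul]
    rw [← h2, ← h1]
    congr 1
    group
  neg_mem' := by
    intro i hi ψ hψ
    have hq' : (q : ℚ) ≠ 0 := by exact_mod_cast hq
    have hinv : Dm ((q : ℚ) ^ (-i)) (zpow_ne_zero _ hq') =
        (Dm ((q : ℚ) ^ i) (zpow_ne_zero _ hq'))⁻¹ := by
      apply eq_inv_of_mul_eq_one_left
      have hne : (q : ℚ) ^ i ≠ 0 := zpow_ne_zero _ hq'
      apply gl_ext
      · rw [mul_00]; simp [Dm, inv_mul_cancel₀ hne]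
      · rw [mul_01]; simp [Dm]
      · rw [mul_10]; simp [Dm]
      · rw [mul_11]; simp [Dm, mul_inv_cancel₀ hne]
    have hconj := hψ.conj (M' := M) (Dm ((q : ℚ) ^ (-i)) (zpow_ne_zero _ hq'))
      (fun y hy => conj_Dm_mem _ (zpow_mem_JA hq (-i))
        (by rw [← _root_.zpow_neg]; exact zpow_mem_JA hq (- -i)) hy)
    have h1 := hi _ hconj
    simp only [hinv] at h1 ⊢
    rw [← h1]
    congr 1
    group

/-- Multiplying `x` by an element fixing a cusp does not change `Iset`. -/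
lemma mem_Iset_mul {hq : q ≠ 0} {x y : GL (Fin 2) ℚ} (hx : x ∈ GamA q M) (hy : y ∈ GamA q M)
    {r : OnePoint ℚ} (hr : y • r = r) {i : ℤ} (h : i ∈ Iset k q M hq (x * y)) :
    i ∈ Iset k q M hq x := by
  have hq' : (q : ℚ) ≠ 0 := by exact_mod_cast hq
  intro ψ hψ
  set D := Dm ((q : ℚ) ^ i) (zpow_ne_zero _ hq') with hD
  have hnorm : ∀ z ∈ GamA q M, D * z * D⁻¹ ∈ GamA q M := fun z hz =>
    conj_Dm_mem _ (zpow_mem_JA hq i) (by rw [← _root_.zpow_neg]; exact zpow_mem_JA hq (-i)) hz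
  have h1 := h ψ hψ
  rw [← hD] at h1
  have h2 : D * (x * y) * D⁻¹ = (D * x * D⁻¹) * (D * y * D⁻¹) := by group
  rw [h2, hψ.map_mul _ (hnorm x hx) _ (hnorm y hy), hψ.map_mul _ hx _ hy,
    hψ.fix y hy r hr, (hψ.conj D hnorm).fix y hy r hr, add_zero, add_zero] at h1
  exact h1

/-- If `a = ε ℓ / q^s` then `(ℓ-1)/2 ∈ Iset`. -/
lemma mem_Iset_of_prime {hq : q ≠ 0} {x : GL (Fin 2) ℚ} (hx : x ∈ GamA q M) (hqp : q.Prime)
    {ℓ : ℕ} (hℓ : ℓ.Prime) (hℓq : ℓ ≠ q) {ε : ℚ} (hε : ε = 1 ∨ ε = -1) {s : ℕ}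
    (ha : x 0 0 = ε * ℓ / (q : ℚ) ^ s) {i : ℕ} (hi : 2 * i = ℓ - 1) :
    (i : ℤ) ∈ Iset k q M hq x := by
  have hq' : (q : ℚ) ≠ 0 := by exact_mod_cast hq
  intro ψ hψ
  have hε0 : ε ≠ 0 := by rcases hε with rfl | rfl <;> norm_num
  have hεi : ε⁻¹ = ε := by rcases hε with rfl | rfl <;> norm_num
  have hℓ0 : (ℓ : ℚ) ≠ 0 := by exact_mod_cast hℓ.ne_zero
  have ha0 : x 0 0 ≠ 0 := by
    rw [ha]; exact div_ne_zero (mul_ne_zero hε0 hℓ0) (pow_ne_zero _ hq')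
  refine hψ.conj_Dm_key hx (zpow_ne_zero _ hq')
    (by rw [← _root_.zpow_neg]; exact zpow_mem_JA hq (-(i:ℤ))) ha0 ?_
  -- `ℓ ∣ q^(2i) - 1`
  have hdvd : (ℓ : ℤ) ∣ (q : ℤ) ^ (2 * i) - 1 := by
    have : Fact ℓ.Prime := ⟨hℓ⟩
    have hqz : (q : ZMod ℓ) ≠ 0 := by
      intro h0
      rw [ZMod.natCast_eq_zero_iff] at h0
      exact hℓq ((Nat.prime_dvd_prime_iff_eq hℓ hqp).mp h0)
    have := ZMod.pow_card_sub_one_eq_one hqz
    rw [← hi] at this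
    rw [← ZMod.intCast_zmod_eq_zero_iff_dvd]
    push_cast
    rw [this, sub_self]
  obtain ⟨z, hz⟩ := hdvd
  have hzq : ((q : ℚ) ^ i) ^ 2 - 1 = (ℓ : ℚ) * z := by
    have := congrArg (fun t : ℤ => (t : ℚ)) hz
    push_cast at this
    rw [← pow_mul, mul_comm i 2]
    exact this
  rw [zpow_natCast, hzq, ha]
  have : (ℓ : ℚ) * z / (ε * ℓ / (q : ℚ) ^ s) = (ε * (z : ℚ)) * (q : ℚ) ^ (s : ℤ) := by
    rw [zpow_natCast]
    rcases hε with rfl | rfl <;> field_simp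
  rw [this]
  refine JA_mul ?_ (zpow_mem_JA hq s)
  rcases hε with rfl | rfl
  · rw [one_mul]; exact int_mem_JA z
  · rw [neg_one_mul]; exact (JA q 1).neg_mem (int_mem_JA z)

/-- Moving the upper left entry: if `ε ℓ ≡ a₀ (mod B₁ M)` then `(ℓ-1)/2 ∈ Iset`. -/
lemma mem_Iset_of_modEq {hq : q ≠ 0} {x : GL (Fin 2) ℚ} (hx : x ∈ GamA q M) (hqp : q.Prime)
    {s β B₁ : ℕ} {a₀ σ : ℤ} (hσ : σ = 1 ∨ σ = -1)
    (ha : x 0 0 * (q : ℚ) ^ s = a₀) (hb : x 0 1 * (q : ℚ) ^ s = σ * (q : ℚ) ^ β * B₁)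
    {ℓ : ℕ} (hℓ : ℓ.Prime) (hℓq : ℓ ≠ q) {ε : ℤ} (hε : ε = 1 ∨ ε = -1) {n : ℤ}
    (hn : ε * ℓ - a₀ = B₁ * M * n) {i : ℕ} (hi : 2 * i = ℓ - 1) :
    (i : ℤ) ∈ Iset k q M hq x := by
  have hq' : (q : ℚ) ≠ 0 := by exact_mod_cast hq
  have hqs : (q : ℚ) ^ s ≠ 0 := pow_ne_zero _ hq'
  have hqβ : (q : ℚ) ^ β ≠ 0 := pow_ne_zero _ hq'
  set t : ℚ := ((q : ℚ) ^ (-(β : ℤ))) * ((M : ℚ) * ((n * σ : ℤ) : ℚ)) with ht
  have htJ : t ∈ JA q M := JA_mul (zpow_mem_JA hq _) (mul_int_mem_JA M (n * σ))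
  refine mem_Iset_mul hx (Lm_mem htJ) (Lm_smul t) ?_
  have hε' : (ε : ℚ) = 1 ∨ (ε : ℚ) = -1 := by rcases hε with rfl | rfl <;> simp
  refine mem_Iset_of_prime ((GamA q M).mul_mem hx (Lm_mem htJ)) hqp hℓ hℓq hε' (s := s) ?_ hi
  rw [mul_00]
  simp only [Lm, mk2_00, mk2_10]
  rw [eq_div_iff hqs]
  have hnQ : (ε : ℚ) * ℓ - a₀ = B₁ * M * n := by exact_mod_cast hn
  have hσ2 : (σ : ℚ) * σ = 1 := by rcases hσ with rfl | rfl <;> simp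
  have h1 : x 0 1 * t * (q : ℚ) ^ s = B₁ * M * n := by
    rw [ht, _root_.zpow_neg, zpow_natCast]
    push_cast
    calc x 0 1 * (((q : ℚ) ^ β)⁻¹ * (M * (n * σ))) * (q : ℚ) ^ s
        = (x 0 1 * (q : ℚ) ^ s) * (((q : ℚ) ^ β)⁻¹ * (M * (n * σ))) := by ring
      _ = (σ * σ) * (B₁ * M * n) * ((q : ℚ) ^ β * ((q : ℚ) ^ β)⁻¹) := by rw [hb]; ring
      _ = B₁ * M * n := by rw [hσ2, mul_inv_cancel₀ hqβ]; ring
  linear_combination ha + h1 - hnQ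

theorem one_mem_Iset_of_ne {hq : q ≠ 0} (hqp : q.Prime) (hM : M ≠ 0) (hqM : ¬ q ∣ M)
    {x : GL (Fin 2) ℚ} (hx : x ∈ GamA q M) (hb0 : x 0 1 ≠ 0) : (1 : ℤ) ∈ Iset k q M hq x := by
  have hq' : (q : ℚ) ≠ 0 := by exact_mod_cast hq
  obtain ⟨h0, h00, h01, h10, h11⟩ := id hx
  -- clear denominators
  obtain ⟨n₀, z₀, hz₀⟩ := h00
  obtain ⟨n₁, z₁, hz₁⟩ := h01
  obtain ⟨n₂, z₂, hz₂⟩ := h10
  obtain ⟨n₃, z₃, hz₃⟩ := h11
  set a₀ : ℤ := ((q : ℤ) ^ n₀ + M * z₀) * (q : ℤ) ^ n₁ with ha₀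
  set b₀ : ℤ := (M * z₁) * (q : ℤ) ^ n₀ with hb₀
  set c₀ : ℤ := (M * z₂) * (q : ℤ) ^ n₃ with hc₀
  set d₀ : ℤ := ((q : ℤ) ^ n₃ + M * z₃) * (q : ℤ) ^ n₂ with hd₀
  set s : ℕ := n₀ + n₁ with hs
  have ha : x 0 0 * (q : ℚ) ^ s = a₀ := by
    rw [ha₀, hs, pow_add]; push_cast; linear_combination (q : ℚ) ^ n₁ * hz₀
  have hb : x 0 1 * (q : ℚ) ^ s = b₀ := by
    rw [hb₀, hs, pow_add]; push_cast; linear_combination (q : ℚ) ^ n₀ * hz₁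
  have hc : x 1 0 * (q : ℚ) ^ (n₂ + n₃) = c₀ := by
    rw [hc₀, pow_add]; push_cast; linear_combination (q : ℚ) ^ n₃ * hz₂
  have hd : x 1 1 * (q : ℚ) ^ (n₂ + n₃) = d₀ := by
    rw [hd₀, pow_add]; push_cast; linear_combination (q : ℚ) ^ n₂ * hz₃
  have hdetZ : a₀ * d₀ - b₀ * c₀ = (q : ℤ) ^ (s + (n₂ + n₃)) := by
    have : (a₀ : ℚ) * d₀ - b₀ * c₀ = (q : ℚ) ^ (s + (n₂ + n₃)) := by
      rw [← ha, ← hb, ← hc, ← hd, pow_add]
      have hdet : x 0 0 * x 1 1 - x 0 1 * x 1 0 = 1 := h0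
      linear_combination (q : ℚ) ^ s * (q : ℚ) ^ (n₂ + n₃) * hdet
    exact_mod_cast this
  have hb₀ne : b₀ ≠ 0 := by
    intro h
    rw [h] at hb
    simp only [Int.cast_zero, mul_eq_zero] at hb
    rcases hb with hb | hb
    · exact hb0 hb
    · exact pow_ne_zero _ hq' hb
  obtain ⟨β, B₁, hB₁q, hB₁⟩ := Nat.exists_eq_pow_mul_and_not_dvd
    (Int.natAbs_ne_zero.mpr hb₀ne) q hqp.ne_one
  have hB₁0 : B₁ ≠ 0 := fun h => hB₁q (h ▸ dvd_zero q)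
  obtain ⟨σ, hσ, hσb⟩ : ∃ σ : ℤ, (σ = 1 ∨ σ = -1) ∧ b₀ = σ * ((q : ℤ) ^ β * B₁) := by
    have hab : ((b₀.natAbs : ℕ) : ℤ) = (q : ℤ) ^ β * B₁ := by rw [hB₁]; push_cast; ring
    rcases Int.natAbs_eq b₀ with h | h
    · exact ⟨1, Or.inl rfl, by rw [one_mul, ← hab]; exact h⟩
    · exact ⟨-1, Or.inr rfl, by rw [neg_one_mul, ← hab]; exact h⟩
  have hbσ : x 0 1 * (q : ℚ) ^ s = σ * (q : ℚ) ^ β * B₁ := by
    rw [hb, hσb]; push_cast; ring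
  -- coprimality
  have hcop : Nat.Coprime a₀.natAbs (B₁ * M) := by
    refine Nat.Coprime.mul_right ?_ ?_
    · by_contra hnc
      obtain ⟨r, hr, hra, hrB⟩ := Nat.Prime.not_coprime_iff_dvd.mp hnc
      have h1 : (r : ℤ) ∣ a₀ := Int.natCast_dvd.mpr hra
      have h2 : (r : ℤ) ∣ b₀ := by
        rw [hσb]
        exact Dvd.dvd.mul_left (Dvd.dvd.mul_left (Int.natCast_dvd_natCast.mpr hrB) _) _
      have h3 : (r : ℤ) ∣ (q : ℤ) ^ (s + (n₂ + n₃)) := by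
        rw [← hdetZ]
        exact dvd_sub (Dvd.dvd.mul_right h1 _) (Dvd.dvd.mul_right h2 _)
      have h4 : r ∣ q ^ (s + (n₂ + n₃)) := by exact_mod_cast h3
      have h5 := (Nat.prime_dvd_prime_iff_eq hr hqp).mp (hr.dvd_of_dvd_pow h4)
      exact hB₁q (h5 ▸ hrB)
    · by_contra hnc
      obtain ⟨r, hr, hra, hrM⟩ := Nat.Prime.not_coprime_iff_dvd.mp hnc
      have h1 : (r : ℤ) ∣ a₀ := Int.natCast_dvd.mpr hra
      have h2 : (r : ℤ) ∣ (M : ℤ) := Int.natCast_dvd_natCast.mpr hrM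
      have h3 : (r : ℤ) ∣ (q : ℤ) ^ (n₀ + n₁) := by
        have : (q : ℤ) ^ (n₀ + n₁) = a₀ - M * (z₀ * (q : ℤ) ^ n₁) := by rw [ha₀, pow_add]; ring
        rw [this]
        exact dvd_sub h1 (Dvd.dvd.mul_right h2 _)
      have h4 : r ∣ q ^ (n₀ + n₁) := by exact_mod_cast h3
      have h5 := (Nat.prime_dvd_prime_iff_eq hr hqp).mp (hr.dvd_of_dvd_pow h4)
      exact hqM (h5 ▸ hrM)
  have hBM0 : B₁ * M ≠ 0 := mul_ne_zero hB₁0 hM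
  have : NeZero (B₁ * M) := ⟨hBM0⟩
  have hunit : IsUnit ((a₀ : ℤ) : ZMod (B₁ * M)) := by
    rw [ZMod.coe_int_isUnit_iff_isCoprime]
    rw [Int.isCoprime_iff_gcd_eq_one]
    have := hcop
    rw [Nat.coprime_comm] at this
    show Nat.gcd (((B₁ * M : ℕ) : ℤ)).natAbs a₀.natAbs = 1
    rw [Int.natAbs_natCast]; exact this
  -- first prime
  obtain ⟨ℓ₁, hℓ₁gt, hℓ₁, hℓ₁mod⟩ := Nat.forall_exists_prime_gt_and_eq_mod hunit
    (max (B₁ * M) (max q 2))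
  have hℓ₁B : B₁ * M < ℓ₁ := lt_of_le_of_lt (le_max_left _ _) hℓ₁gt
  have hℓ₁q : q < ℓ₁ := lt_of_le_of_lt ((le_max_left _ _).trans (le_max_right _ _)) hℓ₁gt
  have hℓ₁2 : 2 < ℓ₁ := lt_of_le_of_lt ((le_max_right _ _).trans (le_max_right _ _)) hℓ₁gt
  obtain ⟨m₁, hm₁⟩ : ((B₁ * M : ℕ) : ℤ) ∣ (ℓ₁ : ℤ) - a₀ := by
    rw [← ZMod.intCast_zmod_eq_zero_iff_dvd]
    push_cast
    rw [sub_eq_zero]
    exact_mod_cast hℓ₁mod
  -- second prime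
  have hcop2 : Nat.Coprime ℓ₁ (B₁ * M * (ℓ₁ - 1)) := by
    refine Nat.Coprime.mul_right ?_ ?_
    · exact (Nat.Prime.coprime_iff_not_dvd hℓ₁).mpr
        (fun h => absurd (Nat.le_of_dvd (Nat.pos_of_ne_zero hBM0) h) (not_le.mpr hℓ₁B))
    · exact (Nat.Prime.coprime_iff_not_dvd hℓ₁).mpr
        (fun h => absurd (Nat.le_of_dvd (by omega) h) (by omega))
  have : NeZero (B₁ * M * (ℓ₁ - 1)) := ⟨mul_ne_zero hBM0 (by omega)⟩
  have hunit2 : IsUnit (-(ℓ₁ : ZMod (B₁ * M * (ℓ₁ - 1)))) :=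
    IsUnit.neg ((ZMod.isUnit_iff_coprime _ _).mpr hcop2)
  obtain ⟨ℓ₂, hℓ₂gt, hℓ₂, hℓ₂mod⟩ := Nat.forall_exists_prime_gt_and_eq_mod hunit2
    (max q 2)
  have hℓ₂q : q < ℓ₂ := lt_of_le_of_lt (le_max_left _ _) hℓ₂gt
  have hℓ₂2 : 2 < ℓ₂ := lt_of_le_of_lt (le_max_right _ _) hℓ₂gt
  obtain ⟨m₂, hm₂⟩ : ((B₁ * M * (ℓ₁ - 1) : ℕ) : ℤ) ∣ (ℓ₂ : ℤ) + ℓ₁ := by
    rw [← ZMod.intCast_zmod_eq_zero_iff_dvd]
    push_cast
    rw [hℓ₂mod]; ring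
  -- halves
  obtain ⟨i₁, hi₁⟩ : ∃ i : ℕ, 2 * i = ℓ₁ - 1 := by
    obtain ⟨m, hm⟩ := hℓ₁.odd_of_ne_two (by omega)
    exact ⟨m, by omega⟩
  obtain ⟨i₂, hi₂⟩ : ∃ i : ℕ, 2 * i = ℓ₂ - 1 := by
    obtain ⟨m, hm⟩ := hℓ₂.odd_of_ne_two (by omega)
    exact ⟨m, by omega⟩
  have hI₁ : (i₁ : ℤ) ∈ Iset k q M hq x := by
    refine mem_Iset_of_modEq hx hqp hσ ha hbσ hℓ₁ (by omega) (ε := 1) (Or.inl rfl)
      (n := m₁) ?_ hi₁
    rw [one_mul, hm₁]; push_cast; ring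
  have hI₂ : (i₂ : ℤ) ∈ Iset k q M hq x := by
    refine mem_Iset_of_modEq hx hqp hσ ha hbσ hℓ₂ (by omega) (ε := -1) (Or.inr rfl)
      (n := m₁ - (ℓ₁ - 1 : ℕ) * m₂) ?_ hi₂
    have e1 : (ℓ₁ : ℤ) - a₀ = B₁ * M * m₁ := by rw [hm₁]; push_cast; ring
    have e2 : (ℓ₂ : ℤ) + ℓ₁ = B₁ * M * ((ℓ₁ - 1 : ℕ) : ℤ) * m₂ := by rw [hm₂]; push_cast; ring
    linear_combination e1 - e2
  -- `i₁ ∣ i₂ + 1`
  have hdiv : ∃ c : ℤ, (i₂ : ℤ) + 1 = c * i₁ := by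
    refine ⟨B₁ * M * m₂ - 1, ?_⟩
    have e2 : (ℓ₂ : ℤ) + ℓ₁ = B₁ * M * ((ℓ₁ - 1 : ℕ) : ℤ) * m₂ := by rw [hm₂]; push_cast; ring
    have e3 : ((ℓ₁ - 1 : ℕ) : ℤ) = 2 * i₁ := by exact_mod_cast hi₁.symm
    have e4 : (ℓ₁ : ℤ) = 2 * i₁ + 1 := by omega
    have e5 : (ℓ₂ : ℤ) = 2 * i₂ + 1 := by omega
    rw [e3, e4, e5] at e2
    have : 2 * ((i₂ : ℤ) + 1) = 2 * ((B₁ * M * m₂ - 1) * i₁) := by linear_combination e2
    exact mul_left_cancel₀ two_ne_zero this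
  obtain ⟨c, hc⟩ := hdiv
  have h6 : (i₂ : ℤ) + 1 ∈ Iset k q M hq x := by
    rw [hc, ← smul_eq_mul]
    exact (Iset k q M hq x).zsmul_mem hI₁ c
  have h7 := (Iset k q M hq x).sub_mem h6 hI₂
  simpa using h7

/-- Conjugation by `D(q)` fixes all germs. -/
theorem IsGerm.conj_Dq (hqp : q.Prime) (hM : M ≠ 0) (hqM : ¬ q ∣ M) (h : IsGerm q M φ)
    {x : GL (Fin 2) ℚ} (hx : x ∈ GamA q M) (hq0 : (q : ℚ) ≠ 0) :
    φ (Dm (q : ℚ) hq0 * x * (Dm (q : ℚ) hq0)⁻¹) = φ x := by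
  have hq : q ≠ 0 := hqp.ne_zero
  have key : (1 : ℤ) ∈ Iset k q M hq x := by
    by_cases hb : x 0 1 = 0
    · refine mem_Iset_mul hx (Um_mem (natCast_mem_JA M)) (Um_smul _) ?_
      refine one_mem_Iset_of_ne hqp hM hqM
        ((GamA q M).mul_mem hx (Um_mem (natCast_mem_JA M))) ?_
      rw [mul_01]
      simp only [Um, mk2_01, mk2_11, hb, mul_one, add_zero]
      have hdet : x 0 0 * x 1 1 - x 0 1 * x 1 0 = 1 := hx.1
      rw [hb] at hdet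
      intro h0
      rcases mul_eq_zero.mp h0 with h1 | h1
      · rw [h1] at hdet; norm_num at hdet
      · exact hM (by exact_mod_cast h1)
    · exact one_mem_Iset_of_ne hqp hM hqM hx hb
  have := key φ h
  simpa using this

end Germ

end Fermat.Agent.H41
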