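import Mathlib
import Fermat.Agent.H41Germs

/-!
# Modular symbols over a `GL₂(ℚ)`-set, Hecke operators, traces (helper41)

For a `G`-set `X` and an abelian group `A`, `Symb R X A` is the `R`-module of functions
`m : X → X → A` with `m x y + m y z = m x z` (i.e. `Fun(X,A)/A`).  With `X = P¹(ℚ)` these are
modular symbols, with `X = ℍ` primitives of weight two forms, with `X = GL₂(ℚ)` everything.
-/

set_option autoImplicit false

namespace Fermat.Agent.H41

open Matrix Matrix.SpecialLinearGroup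
open scoped MatrixGroups

section Symb

variable {G : Type*} [Group G] (R : Type*) (X : Type*) (A : Type*)
  [CommRing R] [AddCommGroup A] [Module R A] [MulAction G X]

/-- additive two-variable functions -/
def Symb : Submodule R (X → X → A) where
  carrier := {m | ∀ x y z, m x y + m y z = m x z}
  zero_mem' := by intro x y z; simp
  add_mem' := by
    intro m n hm hn x y z
    simp only [Pi.add_apply]
    rw [← hm x y z, ← hn x y z]; abel
  smul_mem' := by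
    intro c m hm x y z
    simp only [Pi.smul_apply]
    rw [← smul_add, hm x y z]

variable {R X A}

lemma Symb.add (m : Symb R X A) (x y z : X) : m.1 x y + m.1 y z = m.1 x z := m.2 x y z

@[simp] lemma Symb.self (m : Symb R X A) (x : X) : m.1 x x = 0 := by
  have := m.2 x x x
  simpa using this

lemma Symb.symm (m : Symb R X A) (x y : X) : m.1 x y = - m.1 y x := by
  have := m.2 x y x
  rw [Symb.self] at this
  exact eq_neg_of_add_eq_zero_left this

@[ext] lemma Symb.ext {m n : Symb R X A} (h : ∀ x y, m.1 x y = n.1 x y) : m = n :=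
  Subtype.ext (funext fun x => funext fun y => h x y)

/-- The right action of `g`: `(m|g)(x,y) = m(gx,gy)`. -/
def slash (g : G) : Symb R X A →ₗ[R] Symb R X A where
  toFun m := ⟨fun x y => m.1 (g • x) (g • y), fun x y z => m.2 _ _ _⟩
  map_add' m n := rfl
  map_smul' c m := rfl

@[simp] lemma slash_apply (g : G) (m : Symb R X A) (x y : X) :
    (slash g m).1 x y = m.1 (g • x) (g • y) := rfl

lemma slash_mul (g h : G) (m : Symb R X A) : slash (g * h) m = slash h (slash g m) := by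
  ext x y; simp [mul_smul]

@[simp] lemma slash_one (m : Symb R X A) : slash (1 : G) m = m := by
  ext x y; simp

/-- Invariants under a subgroup. -/
def inv (R : Type*) (X : Type*) (A : Type*)
    [CommRing R] [AddCommGroup A] [Module R A] [MulAction G X] (Γ : Subgroup G) :
    Submodule R (Symb R X A) where
  carrier := {m | ∀ g ∈ Γ, slash g m = m}
  zero_mem' := fun g _ => by simp
  add_mem' := fun {m n} hm hn g hg => by rw [map_add, hm g hg, hn g hg]
  smul_mem' := fun c m hm g hg => by rw [map_smul, hm g hg]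

lemma mem_inv {Γ : Subgroup G} {m : Symb R X A} :
    m ∈ inv R X A Γ ↔ ∀ g ∈ Γ, slash g m = m := Iff.rfl

lemma inv_apply {Γ : Subgroup G} {m : Symb R X A} (hm : m ∈ inv R X A Γ) {g : G} (hg : g ∈ Γ)
    (x y : X) : m.1 (g • x) (g • y) = m.1 x y := by
  have := hm g hg
  exact congrFun (congrFun (congrArg Subtype.val this) x) y

lemma inv_mono {Γ Γ' : Subgroup G} (h : Γ' ≤ Γ) : inv R X A Γ ≤ inv R X A Γ' :=
  fun _ hm g hg => hm g (h hg)

/-- The period `m(γx, x)` of an invariant symbol does not depend on `x`. -/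
lemma per_indep {Γ : Subgroup G} {m : Symb R X A} (hm : m ∈ inv R X A Γ) {g : G} (hg : g ∈ Γ)
    (x y : X) : m.1 (g • x) x = m.1 (g • y) y := by
  have h1 : m.1 (g • x) x = m.1 (g • x) (g • y) + m.1 (g • y) y + m.1 y x := by
    rw [m.2, m.2]
  rw [h1, inv_apply hm hg, Symb.symm m y x]; abel

lemma per_mul {Γ : Subgroup G} {m : Symb R X A} (hm : m ∈ inv R X A Γ) {g h : G} (hg : g ∈ Γ)
    (x : X) : m.1 ((g * h) • x) x = m.1 (g • x) x + m.1 (h • x) x := by
  rw [mul_smul, ← m.2 (g • h • x) (g • x) x, inv_apply hm hg, add_comm]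

end Symb

/-- The group `Γ₀(N)` inside `GL₂(ℚ)`. -/
noncomputable def G0 (N : ℕ) : Subgroup (GL (Fin 2) ℚ) :=
  (CongruenceSubgroup.Gamma0 N).map (mapGL ℚ)

/-- `SL₂(ℤ)` inside `GL₂(ℚ)`. -/
lemma mapGL_mem_G0 {N : ℕ} {g : SL(2, ℤ)} (hg : (N : ℤ) ∣ g 1 0) :
    (mapGL ℚ g : GL (Fin 2) ℚ) ∈ G0 N :=
  Subgroup.mem_map_of_mem _ (CongruenceSubgroup.Gamma0_mem.mpr
    ((ZMod.intCast_zmod_eq_zero_iff_dvd _ _).mpr hg))

lemma mem_G0 {N : ℕ} {g : GL (Fin 2) ℚ} :
    g ∈ G0 N ↔ ∃ γ : SL(2, ℤ), (N : ℤ) ∣ γ 1 0 ∧ mapGL ℚ γ = g := by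
  constructor
  · rintro ⟨γ, hγ, rfl⟩
    exact ⟨γ, (ZMod.intCast_zmod_eq_zero_iff_dvd _ _).mp (CongruenceSubgroup.Gamma0_mem.mp hγ), rfl⟩
  · rintro ⟨γ, hγ, rfl⟩
    exact mapGL_mem_G0 hγ

lemma G0_mono {N M : ℕ} (h : N ∣ M) : G0 M ≤ G0 N := by
  intro g hg
  obtain ⟨γ, hγ, rfl⟩ := mem_G0.mp hg
  exact mapGL_mem_G0 (dvd_trans (Int.natCast_dvd_natCast.mpr h) hγ)

lemma mapGL_apply (g : SL(2, ℤ)) (i j : Fin 2) :
    (mapGL ℚ g : GL (Fin 2) ℚ) i j = ((g i j : ℤ) : ℚ) := by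
  simp

lemma sl_det (g : SL(2, ℤ)) : g 0 0 * g 1 1 - g 0 1 * g 1 0 = 1 := by
  have h := g.det_coe
  rwa [Matrix.det_fin_two] at h

/-- Build an element of `SL₂(ℤ)`. -/
def sl (a b c d : ℤ) (h : a * d - b * c = 1) : SL(2, ℤ) :=
  ⟨!![a, b; c, d], by rw [Matrix.det_fin_two_of]; exact h⟩

@[simp] lemma sl_00 (a b c d : ℤ) (h) : (sl a b c d h) 0 0 = a := rfl
@[simp] lemma sl_01 (a b c d : ℤ) (h) : (sl a b c d h) 0 1 = b := rfl
@[simp] lemma sl_10 (a b c d : ℤ) (h) : (sl a b c d h) 1 0 = c := rfl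
@[simp] lemma sl_11 (a b c d : ℤ) (h) : (sl a b c d h) 1 1 = d := rfl

/-- Hecke matrix `[1,j;0,ℓ]`. -/
noncomputable def hm (ℓ j : ℕ) : GL (Fin 2) ℚ :=
  if h : ℓ = 0 then 1 else mk2 1 j 0 ℓ (by simpa using h)

/-- Hecke matrix `[ℓ,0;0,1]`. -/
noncomputable def hd (ℓ : ℕ) : GL (Fin 2) ℚ :=
  if h : ℓ = 0 then 1 else mk2 ℓ 0 0 1 (by simpa using h)

lemma hm_eq {ℓ : ℕ} (hℓ : ℓ ≠ 0) (j : ℕ) : hm ℓ j = mk2 1 j 0 ℓ (by simpa using hℓ) := by
  simp [hm, hℓ]

lemma hd_eq {ℓ : ℕ} (hℓ : ℓ ≠ 0) : hd ℓ = mk2 ℓ 0 0 1 (by simpa using hℓ) := by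
  simp [hd, hℓ]

section Comm

variable {p : ℕ} (hp : p ≠ 0)
include hp

lemma hm_mul_of_eq (g : SL(2, ℤ)) (j j' : ℕ) (e : ℤ)
    (he : g 0 1 + j * g 1 1 = j' * (g 0 0 + j * g 1 0) + p * e) :
    ∃ g' : SL(2, ℤ), g' 1 0 = p * g 1 0 ∧ hm p j * mapGL ℚ g = mapGL ℚ g' * hm p j' := by
  have hdet := sl_det g
  refine ⟨sl (g 0 0 + j * g 1 0) e (p * g 1 0) (g 1 1 - g 1 0 * j') ?_, rfl, ?_⟩
  · linear_combination hdet + (g 1 0) * he
  · have he' := congrArg (Int.cast : ℤ → ℚ) he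
    push_cast at he'
    rw [hm_eq hp, hm_eq hp]
    apply gl_ext
    · simp only [mul_00, mapGL_apply, mk2_00, mk2_01, mk2_10, sl_00, sl_01]; push_cast; ring
    · simp only [mul_01, mapGL_apply, mk2_00, mk2_01, mk2_11, sl_00, sl_01]; push_cast
      linear_combination he'
    · simp only [mul_10, mapGL_apply, mk2_00, mk2_10, mk2_11, sl_10, sl_11]; push_cast; ring
    · simp only [mul_11, mapGL_apply, mk2_10, mk2_01, mk2_11, sl_10, sl_11]; push_cast
      ring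

lemma hm_mul_of_eq' (g : SL(2, ℤ)) (j : ℕ) (e : ℤ) (he : g 0 0 + j * g 1 0 = p * e) :
    ∃ g' : SL(2, ℤ), g' 1 0 = g 1 0 ∧ hm p j * mapGL ℚ g = mapGL ℚ g' * hd p := by
  have hdet := sl_det g
  refine ⟨sl e (g 0 1 + j * g 1 1) (g 1 0) (p * g 1 1) ?_, rfl, ?_⟩
  · linear_combination hdet - (g 1 1) * he
  · have he' := congrArg (Int.cast : ℤ → ℚ) he
    push_cast at he'
    rw [hm_eq hp, hd_eq hp]
    apply gl_ext
    · simp only [mul_00, mapGL_apply, mk2_00, mk2_01, mk2_10, sl_00, sl_01]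
      linear_combination he'
    · simp only [mul_01, mapGL_apply, mk2_00, mk2_01, mk2_11, sl_00, sl_01]; push_cast
      ring
    · simp only [mul_10, mapGL_apply, mk2_00, mk2_10, mk2_11, sl_10, sl_11]; ring
    · simp only [mul_11, mapGL_apply, mk2_10, mk2_01, mk2_11, sl_10, sl_11]; push_cast
      ring

lemma hd_mul_of_eq (g : SL(2, ℤ)) (j' : ℕ) (e : ℤ) (he : g 1 1 = g 1 0 * j' + p * e) :
    ∃ g' : SL(2, ℤ), g' 1 0 = g 1 0 ∧ hd p * mapGL ℚ g = mapGL ℚ g' * hm p j' := by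
  have hdet := sl_det g
  refine ⟨sl (p * g 0 0) (g 0 1 - g 0 0 * j') (g 1 0) e ?_, rfl, ?_⟩
  · linear_combination hdet - (g 0 0) * he
  · have he' := congrArg (Int.cast : ℤ → ℚ) he
    push_cast at he'
    rw [hm_eq hp, hd_eq hp]
    apply gl_ext
    · simp only [mul_00, mapGL_apply, mk2_00, mk2_01, mk2_10, sl_00, sl_01]; push_cast; ring
    · simp only [mul_01, mapGL_apply, mk2_00, mk2_01, mk2_11, sl_00, sl_01]; push_cast
      ring
    · simp only [mul_10, mapGL_apply, mk2_00, mk2_10, mk2_11, sl_10, sl_11]; ring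
    · simp only [mul_11, mapGL_apply, mk2_10, mk2_01, mk2_11, sl_10, sl_11]
      linear_combination he'

lemma hd_mul_of_eq' (g : SL(2, ℤ)) (e : ℤ) (he : g 1 0 = p * e) :
    ∃ g' : SL(2, ℤ), g' 1 0 = e ∧ hd p * mapGL ℚ g = mapGL ℚ g' * hd p := by
  have hdet := sl_det g
  refine ⟨sl (g 0 0) (p * g 0 1) e (g 1 1) ?_, rfl, ?_⟩
  · linear_combination hdet + (g 0 1) * he
  · have he' := congrArg (Int.cast : ℤ → ℚ) he
    push_cast at he'
    rw [hd_eq hp]
    apply gl_ext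
    · simp only [mul_00, mapGL_apply, mk2_00, mk2_01, mk2_10, sl_00, sl_01]; ring
    · simp only [mul_01, mapGL_apply, mk2_00, mk2_01, mk2_11, sl_00, sl_01]; push_cast
      ring
    · simp only [mul_10, mapGL_apply, mk2_00, mk2_10, mk2_11, sl_10, sl_11]
      linear_combination he'
    · simp only [mul_11, mapGL_apply, mk2_10, mk2_01, mk2_11, sl_10, sl_11]; ring

end Comm

section Rep

variable {p : ℕ}

/-- Representatives of `Γ₀(N)\Γ₀(N)diag(p,1)Γ₀(N)` indexed by `P¹(𝔽_p)`. -/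
noncomputable def hrep (p : ℕ) (x : OnePoint (ZMod p)) : GL (Fin 2) ℚ :=
  x.elim (hd p) (fun j ↦ hm p j.val)

@[simp] lemma hrep_infty : hrep p OnePoint.infty = hd p := rfl

@[simp] lemma hrep_coe (j : ZMod p) : hrep p j = hm p j.val := rfl

variable [hpf : Fact p.Prime]

variable (p) in
/-- `g = [a,b;c,d] ↦ [d,b;c,a] mod p`, an anti-homomorphism. -/
noncomputable def red (g : SL(2, ℤ)) : GL (Fin 2) (ZMod p) :=
  Matrix.GeneralLinearGroup.mkOfDetNeZero
    !![((g 1 1 : ℤ) : ZMod p), ((g 0 1 : ℤ) : ZMod p); ((g 1 0 : ℤ) : ZMod p), ((g 0 0 : ℤ) : ZMod p)]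
    (by
      have := congrArg (Int.cast : ℤ → ZMod p) (sl_det g)
      push_cast at this
      rw [Matrix.det_fin_two_of,
        show ((g 1 1 : ℤ) : ZMod p) * ((g 0 0 : ℤ) : ZMod p) - ((g 0 1 : ℤ) : ZMod p) * ((g 1 0 : ℤ) : ZMod p)
          = 1 by linear_combination this]
      exact one_ne_zero)

@[simp] lemma red_00 (g : SL(2, ℤ)) : red p g 0 0 = ((g 1 1 : ℤ) : ZMod p) := by simp [red]
@[simp] lemma red_01 (g : SL(2, ℤ)) : red p g 0 1 = ((g 0 1 : ℤ) : ZMod p) := by simp [red]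
@[simp] lemma red_10 (g : SL(2, ℤ)) : red p g 1 0 = ((g 1 0 : ℤ) : ZMod p) := by simp [red]
@[simp] lemma red_11 (g : SL(2, ℤ)) : red p g 1 1 = ((g 0 0 : ℤ) : ZMod p) := by simp [red]

/-- The core coset computation. -/
theorem hrep_mul {N : ℕ} (hpN : ¬ p ∣ N) (g : SL(2, ℤ)) (hg : (N : ℤ) ∣ g 1 0)
    (x : OnePoint (ZMod p)) :
    ∃ g' : SL(2, ℤ), (N : ℤ) ∣ g' 1 0 ∧
      hrep p x * mapGL ℚ g = mapGL ℚ g' * hrep p (red p g • x) := by
  have hp : p ≠ 0 := (Fact.out : p.Prime).ne_zero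
  induction x using OnePoint.rec with
  | infty =>
    rw [OnePoint.smul_infty_eq_ite]
    by_cases hc : ((g 1 0 : ℤ) : ZMod p) = 0
    · rw [if_pos (by simpa using hc), hrep_infty]
      obtain ⟨e, he⟩ := (ZMod.intCast_zmod_eq_zero_iff_dvd _ _).mp hc
      obtain ⟨g', hg', hmul⟩ := hd_mul_of_eq' hp g e he
      refine ⟨g', ?_, hmul⟩
      rw [hg']
      have hcop : IsCoprime (N : ℤ) (p : ℤ) :=
        Nat.isCoprime_iff_coprime.mpr ((Nat.Prime.coprime_iff_not_dvd Fact.out).mpr hpN).symm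
      exact hcop.dvd_of_dvd_mul_left (he ▸ hg)
    · rw [if_neg (by simpa using hc), hrep_infty, hrep_coe]
      set y : ZMod p := red p g 0 0 / red p g 1 0 with hy
      obtain ⟨e, he⟩ : (p : ℤ) ∣ g 1 1 - g 1 0 * y.val := by
        rw [← ZMod.intCast_zmod_eq_zero_iff_dvd]
        push_cast
        rw [ZMod.natCast_zmod_val, hy, red_00, red_10,
          mul_div_cancel₀ _ hc, sub_self]
      obtain ⟨g', hg', hmul⟩ := hd_mul_of_eq hp g y.val e (by linear_combination he)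
      exact ⟨g', hg' ▸ hg, hmul⟩
  | coe j =>
    rw [OnePoint.smul_some_eq_ite]
    by_cases h : red p g 1 0 * j + red p g 1 1 = 0
    · rw [if_pos h, hrep_infty, hrep_coe]
      rw [red_10, red_11] at h
      obtain ⟨e, he⟩ : (p : ℤ) ∣ g 0 0 + j.val * g 1 0 := by
        rw [← ZMod.intCast_zmod_eq_zero_iff_dvd]
        push_cast
        rw [ZMod.natCast_zmod_val]
        linear_combination h
      obtain ⟨g', hg', hmul⟩ := hm_mul_of_eq' hp g j.val e he
      exact ⟨g', hg' ▸ hg, hmul⟩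
    · rw [if_neg h, hrep_coe, hrep_coe]
      set y : ZMod p := (red p g 0 0 * j + red p g 0 1) / (red p g 1 0 * j + red p g 1 1) with hy
      obtain ⟨e, he⟩ : (p : ℤ) ∣ g 0 1 + j.val * g 1 1 - y.val * (g 0 0 + j.val * g 1 0) := by
        rw [← ZMod.intCast_zmod_eq_zero_iff_dvd]
        push_cast
        rw [ZMod.natCast_zmod_val, ZMod.natCast_zmod_val,
          show ((g 0 0 : ℤ) : ZMod p) + j * ((g 1 0 : ℤ) : ZMod p)
            = red p g 1 0 * j + red p g 1 1 by rw [red_10, red_11]; ring,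
          hy, div_mul_cancel₀ _ h, red_00, red_01]
        ring
      obtain ⟨g', hg', hmul⟩ := hm_mul_of_eq hp g j.val y.val e (by linear_combination he)
      exact ⟨g', hg' ▸ dvd_mul_of_dvd_right hg _, hmul⟩

end Rep

section Hecke

variable {R : Type*} {X : Type*} {A : Type*}
  [CommRing R] [AddCommGroup A] [Module R A] [MulAction (GL (Fin 2) ℚ) X]

/-- The operator `U_ℓ m = ∑_j m|[1,j;0,ℓ]`. -/
noncomputable def hU (ℓ : ℕ) : Symb R X A →ₗ[R] Symb R X A :=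
  ∑ j ∈ Finset.range ℓ, slash (hm ℓ j)

/-- The operator `T_ℓ m = ∑_j m|[1,j;0,ℓ] + m|[ℓ,0;0,1]`. -/
noncomputable def hT (ℓ : ℕ) : Symb R X A →ₗ[R] Symb R X A :=
  hU ℓ + slash (hd ℓ)

lemma hU_apply (ℓ : ℕ) (m : Symb R X A) :
    hU ℓ m = ∑ j ∈ Finset.range ℓ, slash (hm ℓ j) m := by
  simp [hU]

lemma hT_apply (ℓ : ℕ) (m : Symb R X A) :
    hT ℓ m = (∑ j ∈ Finset.range ℓ, slash (hm ℓ j) m) + slash (hd ℓ) m := by
  simp [hT, hU]

lemma sum_range_eq_sum_zmod {p : ℕ} [NeZero p] {M : Type*} [AddCommMonoid M] (F : ℕ → M) :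
    ∑ j ∈ Finset.range p, F j = ∑ x : ZMod p, F x.val := by
  refine Finset.sum_nbij' (fun j : ℕ ↦ (j : ZMod p)) (fun x : ZMod p ↦ x.val)
    (fun _ _ ↦ Finset.mem_univ _)
    (fun x _ ↦ Finset.mem_range.mpr x.val_lt) (fun j hj ↦ ?_) (fun x _ ↦ ?_) (fun j hj ↦ ?_)
  · exact ZMod.val_cast_of_lt (Finset.mem_range.mp hj)
  · exact ZMod.natCast_zmod_val x
  · rw [ZMod.val_cast_of_lt (Finset.mem_range.mp hj)]

lemma hT_eq_sum {p : ℕ} [NeZero p] (m : Symb R X A) :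
    hT p m = ∑ x : OnePoint (ZMod p), slash (hrep p x) m := by
  rw [hT_apply, sum_range_eq_sum_zmod, add_comm]
  exact (Fintype.sum_option (fun x : OnePoint (ZMod p) ↦ slash (hrep p x) m)).symm

/-- `T_p` preserves `Γ₀(N)`-invariants for `p ∤ N`. -/
theorem hT_mem_inv {p : ℕ} (hp : p.Prime) {N : ℕ} (hpN : ¬ p ∣ N) {m : Symb R X A}
    (hm : m ∈ inv R X A (G0 N)) : hT p m ∈ inv R X A (G0 N) := by
  have : Fact p.Prime := ⟨hp⟩
  have : NeZero p := ⟨hp.ne_zero⟩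
  intro γ hγ
  obtain ⟨g, hg, rfl⟩ := mem_G0.mp hγ
  rw [hT_eq_sum, map_sum]
  calc ∑ x : OnePoint (ZMod p), slash (mapGL ℚ g) (slash (hrep p x) m)
      = ∑ x : OnePoint (ZMod p), slash (hrep p (red p g • x)) m := by
        refine Finset.sum_congr rfl fun x _ ↦ ?_
        obtain ⟨g', hg', hmul⟩ := hrep_mul hpN g hg x
        rw [← slash_mul, hmul, slash_mul, hm _ (mapGL_mem_G0 hg')]
    _ = ∑ x : OnePoint (ZMod p), slash (hrep p x) m :=
        Equiv.sum_comp (MulAction.toPerm (red p g)) (fun x ↦ slash (hrep p x) m)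

end Hecke

end Fermat.Agent.H41
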