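import Mathlib
import Fermat.Agent.H41Defs

/-!
# Trace from level `N q` to level `N`, Atkin–Lehner operator at `q` (helper41)
-/

set_option autoImplicit false

namespace Fermat.Agent.H41

open Matrix Matrix.SpecialLinearGroup
open scoped MatrixGroups

section Rho

variable (N q : ℕ)

/-- Representatives of `Γ₀(Nq)\Γ₀(N)` indexed by `P¹(𝔽_q)`. -/
def rho (x : OnePoint (ZMod q)) : SL(2, ℤ) :=
  x.elim 1 (fun j => sl 1 ((j - (N : ZMod q)⁻¹).val : ℤ) N (1 + N * ((j - (N : ZMod q)⁻¹).val : ℤ))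
    (by ring))

lemma rho_infty : rho N q OnePoint.infty = 1 := rfl

lemma rho_coe (j : ZMod q) : rho N q (j : OnePoint (ZMod q)) =
    sl 1 ((j - (N : ZMod q)⁻¹).val : ℤ) N (1 + N * ((j - (N : ZMod q)⁻¹).val : ℤ)) (by ring) := rfl

lemma rho_dvd (x : OnePoint (ZMod q)) : (N : ℤ) ∣ (rho N q x) 1 0 := by
  induction x using OnePoint.rec with
  | infty => simp [rho_infty]
  | coe j => simp [rho_coe]

variable {N q}

variable [hqf : Fact q.Prime]

lemma red_smul_infty (g : SL(2, ℤ)) : red q g • (OnePoint.infty : OnePoint (ZMod q)) =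
    if ((g 1 0 : ℤ) : ZMod q) = 0 then OnePoint.infty
    else ((((g 1 1 : ℤ) : ZMod q) / ((g 1 0 : ℤ) : ZMod q) : ZMod q) : OnePoint (ZMod q)) := by
  rw [OnePoint.smul_infty_eq_ite, red_10, red_00]

lemma red_rho_smul (hqN : ¬ q ∣ N) (x : OnePoint (ZMod q)) :
    red q (rho N q x) • (OnePoint.infty : OnePoint (ZMod q)) = x := by
  have hN : (N : ZMod q) ≠ 0 := by
    rw [Ne, ZMod.natCast_eq_zero_iff]; exact hqN
  induction x using OnePoint.rec with
  | infty => rw [red_smul_infty, rho_infty]; simp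
  | coe j =>
    rw [red_smul_infty, rho_coe]
    simp only [sl_10, sl_11]
    push_cast
    rw [if_neg hN, ZMod.natCast_zmod_val]
    congr 1
    field_simp
    ring

/-- `red` is an anti-homomorphism. -/
lemma red_mul (g h : SL(2, ℤ)) : red q (g * h) = red q h * red q g := by
  apply Matrix.GeneralLinearGroup.ext
  intro i j
  fin_cases i <;> fin_cases j <;>
    simp [Matrix.mul_apply, Fin.sum_univ_two] <;> ring

lemma dvd_of_red_eq (hqN : ¬ q ∣ N) {g g' : SL(2, ℤ)} (hg : (N : ℤ) ∣ g 1 0)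
    (hg' : (N : ℤ) ∣ g' 1 0)
    (h : red q g • (OnePoint.infty : OnePoint (ZMod q)) = red q g' • OnePoint.infty) :
    ((N * q : ℕ) : ℤ) ∣ (g * g'⁻¹) 1 0 := by
  have e : (g * g'⁻¹) 1 0 = g 1 0 * g' 1 1 - g 1 1 * g' 1 0 := by
    rw [Matrix.SpecialLinearGroup.coe_mul, Matrix.SpecialLinearGroup.coe_inv,
      Matrix.adjugate_fin_two, Matrix.mul_apply, Fin.sum_univ_two]
    simp
    ring
  have h1 : (N : ℤ) ∣ (g * g'⁻¹) 1 0 := by
    rw [e]; exact dvd_sub (Dvd.dvd.mul_right hg _) (Dvd.dvd.mul_left hg' _)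
  have h2 : (q : ℤ) ∣ (g * g'⁻¹) 1 0 := by
    rw [e, ← ZMod.intCast_zmod_eq_zero_iff_dvd]
    push_cast
    rw [red_smul_infty, red_smul_infty] at h
    by_cases h3 : ((g 1 0 : ℤ) : ZMod q) = 0
    · rw [if_pos h3] at h
      by_cases h4 : ((g' 1 0 : ℤ) : ZMod q) = 0
      · rw [h3, h4]; ring
      · rw [if_neg h4] at h
        exact absurd h (OnePoint.infty_ne_coe _)
    · rw [if_neg h3] at h
      by_cases h4 : ((g' 1 0 : ℤ) : ZMod q) = 0
      · rw [if_pos h4] at h
        exact absurd h (OnePoint.coe_ne_infty _)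
      · rw [if_neg h4, OnePoint.coe_eq_coe, div_eq_div_iff h3 h4] at h
        linear_combination -h
  have hcop : IsCoprime (N : ℤ) (q : ℤ) :=
    Nat.isCoprime_iff_coprime.mpr ((Nat.Prime.coprime_iff_not_dvd Fact.out).mpr hqN).symm
  push_cast
  exact hcop.mul_dvd h1 h2

end Rho

section Trace

variable {R : Type*} {X : Type*} {A : Type*}
  [CommRing R] [AddCommGroup A] [Module R A] [MulAction (GL (Fin 2) ℚ) X]

/-- Trace from level `N q` to level `N`. -/
noncomputable def tr (N q : ℕ) [NeZero q] : Symb R X A →ₗ[R] Symb R X A :=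
  ∑ x : OnePoint (ZMod q), slash (mapGL ℚ (rho N q x) : GL (Fin 2) ℚ)

lemma tr_apply (N q : ℕ) [NeZero q] (m : Symb R X A) :
    tr N q m = ∑ x : OnePoint (ZMod q), slash (mapGL ℚ (rho N q x) : GL (Fin 2) ℚ) m := by
  simp [tr]

variable {N q : ℕ} [NeZero q]


omit [NeZero q] in
lemma slash_eq_of_red (hq : q.Prime) (hqN : ¬ q ∣ N) {m : Symb R X A}
    (hm : m ∈ inv R X A (G0 (N * q))) {g g' : SL(2, ℤ)}
    (hg : (N : ℤ) ∣ g 1 0) (hg' : (N : ℤ) ∣ g' 1 0)
    (h : (haveI : Fact q.Prime := ⟨hq⟩; red q g • (OnePoint.infty : OnePoint (ZMod q)) =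
      red q g' • OnePoint.infty)) :
    slash (mapGL ℚ g : GL (Fin 2) ℚ) m = slash (mapGL ℚ g' : GL (Fin 2) ℚ) m := by
  have : Fact q.Prime := ⟨hq⟩
  have h1 : g = (g * g'⁻¹) * g' := by group
  rw [h1, map_mul, slash_mul, hm _ (mapGL_mem_G0 (dvd_of_red_eq hqN hg hg' h))]

lemma mul_dvd_10 {g h : SL(2, ℤ)} (hg : (N : ℤ) ∣ g 1 0) (hh : (N : ℤ) ∣ h 1 0) :
    (N : ℤ) ∣ (g * h) 1 0 := by
  have e : (g * h) 1 0 = g 1 0 * h 0 0 + g 1 1 * h 1 0 := by
    simp [Matrix.mul_apply, Fin.sum_univ_two]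
  rw [e]
  exact dvd_add (Dvd.dvd.mul_right hg _) (Dvd.dvd.mul_left hh _)

/-- Any system of representatives computes the trace. -/
lemma tr_eq_of_reps (hq : q.Prime) (hqN : ¬ q ∣ N) {m : Symb R X A}
    (hm : m ∈ inv R X A (G0 (N * q))) (g : OnePoint (ZMod q) → SL(2, ℤ))
    (hg : ∀ x, (N : ℤ) ∣ (g x) 1 0) (σ : Equiv.Perm (OnePoint (ZMod q)))
    (h : ∀ x, (haveI : Fact q.Prime := ⟨hq⟩;
      red q (g x) • (OnePoint.infty : OnePoint (ZMod q)) = σ x)) :
    tr N q m = ∑ x, slash (mapGL ℚ (g x) : GL (Fin 2) ℚ) m := by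
  have : Fact q.Prime := ⟨hq⟩
  rw [tr_apply, ← Equiv.sum_comp σ]
  refine Finset.sum_congr rfl fun x _ => ?_
  exact slash_eq_of_red hq hqN hm (rho_dvd N q _) (hg x) (by rw [red_rho_smul hqN, h x])

theorem tr_mem_inv (hq : q.Prime) (hqN : ¬ q ∣ N) {m : Symb R X A}
    (hm : m ∈ inv R X A (G0 (N * q))) : tr N q m ∈ inv R X A (G0 N) := by
  have : Fact q.Prime := ⟨hq⟩
  intro γ hγ
  obtain ⟨g, hg, rfl⟩ := mem_G0.mp hγ
  rw [tr_eq_of_reps hq hqN hm (fun x => rho N q x * g) (fun x => mul_dvd_10 (rho_dvd N q x) hg)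
    (MulAction.toPerm (red q g)) (fun x => by
      rw [red_mul, mul_smul, red_rho_smul hqN]; rfl)]
  conv_lhs => rw [← tr_eq_of_reps hq hqN hm (fun x => rho N q x * g)
    (fun x => mul_dvd_10 (rho_dvd N q x) hg)
    (MulAction.toPerm (red q g)) (fun x => by
      rw [red_mul, mul_smul, red_rho_smul hqN]; rfl), tr_apply, map_sum]
  refine Finset.sum_congr rfl fun x _ => ?_
  rw [map_mul, slash_mul]

theorem tr_of_mem {m : Symb R X A} (hm : m ∈ inv R X A (G0 N)) :
    tr N q m = (q + 1) • m := by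
  rw [tr_apply, Finset.sum_congr rfl (fun x _ => hm _ (mapGL_mem_G0 (rho_dvd N q x))),
    Finset.sum_const, Finset.card_univ]
  congr 1
  have : Fintype.card (OnePoint (ZMod q)) = Fintype.card (ZMod q) + 1 := Fintype.card_option
  rw [this, ZMod.card]

/-- `tr (m|δ_q) = T_q m`. -/
theorem tr_slash_hd (hq : q.Prime) (hqN : ¬ q ∣ N) {m : Symb R X A}
    (hm : m ∈ inv R X A (G0 N)) : tr N q (slash (hd q) m) = hT q m := by
  have : Fact q.Prime := ⟨hq⟩
  rw [tr_apply, hT_eq_sum]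
  refine Finset.sum_congr rfl fun x _ => ?_
  obtain ⟨g', hg', hmul⟩ := hrep_mul hqN (rho N q x) (rho_dvd N q x) OnePoint.infty
  rw [red_rho_smul hqN, hrep_infty] at hmul
  rw [← slash_mul, hmul, slash_mul, hm _ (mapGL_mem_G0 hg')]

end Trace

section AL

variable (N q : ℕ)

/-- Bezout coefficients: `q w - N z = 1`. -/
def bw : ℤ := Nat.gcdA q N
/-- Bezout coefficients: `q w - N z = 1`. -/
def bz : ℤ := - Nat.gcdB q N

variable {N q}

lemma bezout (h : Nat.Coprime q N) : (q : ℤ) * bw N q - N * bz N q = 1 := by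
  have := Nat.gcd_eq_gcd_ab q N
  rw [h] at this
  simp only [bw, bz]
  push_cast at this
  linear_combination -this

/-- The element `g₀ = [1,1;Nz,qw]` of `Γ₀(N)`. -/
def g0 (h : Nat.Coprime q N) : SL(2, ℤ) :=
  sl 1 1 (N * bz N q) (q * bw N q) (by linear_combination bezout h)

/-- The Atkin–Lehner matrix `W = g₀ · diag(q,1) = [q,1;Nqz,qw]`. -/
noncomputable def alW (h : Nat.Coprime q N) : GL (Fin 2) ℚ :=
  mapGL ℚ (g0 h) * hd q

variable {R : Type*} {X : Type*} {A : Type*}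
  [CommRing R] [AddCommGroup A] [Module R A] [MulAction (GL (Fin 2) ℚ) X]

lemma slash_alW_of_mem (h : Nat.Coprime q N) {m : Symb R X A} (hm : m ∈ inv R X A (G0 N)) :
    slash (alW h) m = slash (hd q) m := by
  rw [alW, slash_mul, hm]
  exact mapGL_mem_G0 (by simp [g0])

lemma alW_00 (h : Nat.Coprime q N) (hq : q ≠ 0) : (alW h) 0 0 = q := by
  rw [alW, mul_00, hd_eq hq]; simp only [mapGL_apply, g0, sl_00, sl_01, mk2_00, mk2_10]; push_cast; ring
lemma alW_01 (h : Nat.Coprime q N) (hq : q ≠ 0) : (alW h) 0 1 = 1 := by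
  rw [alW, mul_01, hd_eq hq]; simp only [mapGL_apply, g0, sl_00, sl_01, mk2_01, mk2_11]; push_cast; ring
lemma alW_10 (h : Nat.Coprime q N) (hq : q ≠ 0) : (alW h) 1 0 = N * q * bz N q := by
  rw [alW, mul_10, hd_eq hq]; simp only [mapGL_apply, g0, sl_10, sl_11, mk2_00, mk2_10]; push_cast; ring
lemma alW_11 (h : Nat.Coprime q N) (hq : q ≠ 0) : (alW h) 1 1 = q * bw N q := by
  rw [alW, mul_11, hd_eq hq]; simp only [mapGL_apply, g0, sl_10, sl_11, mk2_01, mk2_11]; push_cast; ring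

/-- `W` normalises `Γ₀(Nq)` -/
lemma alW_conj (h : Nat.Coprime q N) (hq : q ≠ 0) {g : SL(2, ℤ)} (hg : ((N * q : ℕ) : ℤ) ∣ g 1 0) :
    ∃ g' : SL(2, ℤ), ((N * q : ℕ) : ℤ) ∣ g' 1 0 ∧ alW h * mapGL ℚ g = mapGL ℚ g' * alW h := by
  obtain ⟨e, he⟩ := hg
  push_cast at he
  have hdet := sl_det g
  rw [he] at hdet
  have hb := bezout h
  set w := bw N q with hw
  set z := bz N q with hz
  -- g' = W g W⁻¹, with W = [q,1;Nqz,qw]
  refine ⟨sl ((g 0 0 + N * e) * (q * w) - (q * g 0 1 + g 1 1) * (N * z))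
    (- (g 0 0 + N * e) + (q * g 0 1 + g 1 1))
    ((N * q) * (z * g 0 0 + q * w * e) * w * 1 - (N * q) * (N * z * g 0 1 + w * g 1 1) * z)
    (- N * (z * g 0 0 + q * w * e) + (N * q * z * g 0 1 + q * w * g 1 1)) ?_, ?_, ?_⟩
  · linear_combination ((g 0 0 * g 1 1 - N * q * e * g 0 1) * (q * w - N * z + 1)) * hb + hdet
  · simp only [sl_10]
    push_cast
    exact ⟨(z * g 0 0 + q * w * e) * w * 1 - (N * z * g 0 1 + w * g 1 1) * z, by ring⟩
  · have hb' : (q : ℚ) * w - N * z = 1 := by exact_mod_cast hb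
    have he' : ((g 1 0 : ℤ) : ℚ) = N * q * e := by rw [he]; push_cast; ring
    apply gl_ext
    · rw [mul_00, mul_00, alW_00 h hq, alW_01 h hq, alW_10 h hq]
      simp only [mapGL_apply, sl_00, sl_01, he']
      push_cast
      linear_combination (-(q * (g 0 0 + N * e)) : ℚ) * hb'
    · rw [mul_01, mul_01, alW_00 h hq, alW_01 h hq, alW_11 h hq]
      simp only [mapGL_apply, sl_00, sl_01]
      push_cast
      linear_combination (-(q * g 0 1 + g 1 1) : ℚ) * hb'
    · rw [mul_10, mul_10, alW_00 h hq, alW_10 h hq, alW_11 h hq]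
      simp only [mapGL_apply, sl_10, sl_11, he']
      push_cast
      linear_combination (-(N * q * (z * g 0 0 + q * w * e)) : ℚ) * hb'
    · rw [mul_11, mul_11, alW_01 h hq, alW_10 h hq, alW_11 h hq]
      simp only [mapGL_apply, sl_10, sl_11]
      push_cast
      linear_combination (-(N * q * z * g 0 1 + q * w * g 1 1) : ℚ) * hb'

/-- Scalar matrices act trivially. -/
class SclTriv (X : Type*) [MulAction (GL (Fin 2) ℚ) X] : Prop where
  smul_eq : ∀ g : GL (Fin 2) ℚ, g 0 1 = 0 → g 1 0 = 0 → g 0 0 = g 1 1 → ∀ x : X, g • x = x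

lemma slash_scalar [SclTriv X] (m : Symb R X A) (g : GL (Fin 2) ℚ) (h1 : g 0 1 = 0)
    (h2 : g 1 0 = 0) (h3 : g 0 0 = g 1 1) : slash g m = m := by
  ext x y
  rw [slash_apply, SclTriv.smul_eq g h1 h2 h3, SclTriv.smul_eq g h1 h2 h3]

instance : SclTriv (OnePoint ℚ) where
  smul_eq := by
    intro g h1 h2 h3 x
    have h4 : g 1 1 ≠ 0 := by
      intro h
      have := dt_ne_zero g
      apply this
      simp [dt, h1, h, h3]
    cases x using OnePoint.rec with
    | infty => rw [OnePoint.smul_infty_eq_self_iff]; exact h2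
    | coe r =>
      rw [OnePoint.smul_some_eq_ite, h1, h2, h3, zero_mul, zero_add, if_neg h4, add_zero,
        mul_div_cancel_left₀ _ h4]

/-- The homogeneous space `PGL₂(ℚ)` used to encode group cohomology. -/
abbrev PG : Type := GL (Fin 2) ℚ ⧸ Subgroup.center (GL (Fin 2) ℚ)

instance : SclTriv PG where
  smul_eq := by
    intro g h1 h2 h3 x
    induction x using QuotientGroup.induction_on with
    | H x =>
      have hc : g ∈ Subgroup.center (GL (Fin 2) ℚ) := by
        rw [Subgroup.mem_center_iff]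
        intro h
        apply gl_ext
        · rw [mul_00, mul_00, h1, h2, h3]; ring
        · rw [mul_01, mul_01, h1, h3]; ring
        · rw [mul_10, mul_10, h2, h3]; ring
        · rw [mul_11, mul_11, h1, h2]; ring
      change ((g * x : GL (Fin 2) ℚ) : PG) = (x : PG)
      rw [QuotientGroup.eq]
      have : (g * x)⁻¹ * x = g⁻¹ := by
        have := (Subgroup.mem_center_iff.mp hc) x
        rw [← this]; group
      rw [this]
      exact Subgroup.inv_mem _ hc

lemma slash_alW_mem (h : Nat.Coprime q N) (hq : q ≠ 0) {m : Symb R X A}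
    (hm : m ∈ inv R X A (G0 (N * q))) : slash (alW h) m ∈ inv R X A (G0 (N * q)) := by
  intro γ hγ
  obtain ⟨g, hg, rfl⟩ := mem_G0.mp hγ
  obtain ⟨g', hg', hmul⟩ := alW_conj h hq hg
  rw [← slash_mul, hmul, slash_mul, hm _ (mapGL_mem_G0 hg')]

/-- `W` is an involution. -/
lemma slash_alW_alW [SclTriv X] (h : Nat.Coprime q N) (hq : q ≠ 0) {m : Symb R X A}
    (hm : m ∈ inv R X A (G0 (N * q))) : slash (alW h) (slash (alW h) m) = m := by
  have hb := bezout h
  have hbQ : (q : ℚ) * bw N q - N * bz N q = 1 := by exact_mod_cast hb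
  have hq' : (q : ℚ) ≠ 0 := by exact_mod_cast hq
  set w := bw N q with hw
  set z := bz N q with hz
  let g1 : SL(2, ℤ) := sl (q + N * z) (1 + w) (N * q * z * (1 + w)) (N * z + q * w ^ 2) (by
    have hNz : (N : ℤ) * z = q * w - 1 := by linear_combination -hb
    have : (q + N * z) * (N * z + q * w ^ 2) - (1 + w) * (N * q * z * (1 + w)) =
      (q + N * z) * (N * z + q * w ^ 2) - (1 + w) * (N * z) * q * (1 + w) := by ring
    rw [this, hNz]; ring)
  have e : alW h * alW h = mapGL ℚ g1 * mk2 q 0 0 q (by simp [hq']) := by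
    apply gl_ext
    · rw [mul_00, mul_00, alW_00 h hq, alW_01 h hq, alW_10 h hq]
      simp only [mapGL_apply, g1, sl_00, sl_01, mk2_00, mk2_10]; push_cast; ring
    · rw [mul_01, mul_01, alW_00 h hq, alW_01 h hq, alW_11 h hq]
      simp only [mapGL_apply, g1, sl_00, sl_01, mk2_01, mk2_11]; push_cast; ring
    · rw [mul_10, mul_10, alW_00 h hq, alW_10 h hq, alW_11 h hq]
      simp only [mapGL_apply, g1, sl_10, sl_11, mk2_00, mk2_10]; push_cast; ring
    · rw [mul_11, mul_11, alW_01 h hq, alW_10 h hq, alW_11 h hq]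
      simp only [mapGL_apply, g1, sl_10, sl_11, mk2_01, mk2_11]; push_cast; ring
  rw [← slash_mul, e, slash_mul, slash_scalar _ _ (by simp) (by simp) (by simp)]
  refine hm _ (mapGL_mem_G0 ?_)
  simp only [g1, sl_10]
  push_cast
  exact ⟨z * (1 + w), by ring⟩

/-- `tr m = m + U_q (m|W)`. -/
theorem tr_eq_add [NeZero q] [SclTriv X] (h : Nat.Coprime q N) (hq : q.Prime)
    {m : Symb R X A} (hm : m ∈ inv R X A (G0 (N * q))) :
    tr N q m = m + hU q (slash (alW h) m) := by
  have : Fact q.Prime := ⟨hq⟩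
  have hqN : ¬ q ∣ N := (Nat.Prime.coprime_iff_not_dvd hq).mp h
  have hb := bezout h
  have hbq : (N : ZMod q) * (bz N q : ZMod q) = -1 := by
    have := congrArg (Int.cast : ℤ → ZMod q) hb
    push_cast at this
    rw [ZMod.natCast_self, zero_mul, zero_sub] at this
    rw [← this]; ring
  let g : OnePoint (ZMod q) → SL(2, ℤ) := fun x => x.elim 1 (fun j =>
    sl 1 (1 + (j.val : ℤ)) (N * bz N q) (N * bz N q * (j.val : ℤ) + q * bw N q)
      (by linear_combination hb))
  have hgdvd : ∀ x, (N : ℤ) ∣ (g x) 1 0 := by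
    intro x
    induction x using OnePoint.rec with
    | infty => simp [g]
    | coe j => simp [g]
  have hgred : ∀ x, red q (g x) • (OnePoint.infty : OnePoint (ZMod q)) =
      (Equiv.refl (OnePoint (ZMod q))) x := by
    intro x
    induction x using OnePoint.rec with
    | infty => rw [red_smul_infty]; simp [g]
    | coe j =>
      rw [red_smul_infty]
      simp only [g, OnePoint.elim_some, sl_10, sl_11, Equiv.refl_apply]
      push_cast
      rw [ZMod.natCast_self, zero_mul, add_zero, ZMod.natCast_zmod_val, hbq,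
        if_neg (by simp)]
      congr 1
      field_simp
  rw [tr_eq_of_reps hq hqN hm g hgdvd (Equiv.refl _) hgred, hU_apply, sum_range_eq_sum_zmod]
  have hsum : ∑ x : OnePoint (ZMod q), slash (mapGL ℚ (g x) : GL (Fin 2) ℚ) m =
      slash (mapGL ℚ (g OnePoint.infty) : GL (Fin 2) ℚ) m +
        ∑ j : ZMod q, slash (mapGL ℚ (g (j : OnePoint (ZMod q))) : GL (Fin 2) ℚ) m :=
    Fintype.sum_option (fun x : OnePoint (ZMod q) => slash (mapGL ℚ (g x) : GL (Fin 2) ℚ) m)
  rw [hsum]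
  congr 1
  · have : (mapGL ℚ (g OnePoint.infty) : GL (Fin 2) ℚ) = 1 := by
      simp only [g, OnePoint.elim_infty, map_one]
    rw [this, slash_one]
  · refine Finset.sum_congr rfl fun j _ => ?_
    have hq' : (q : ℚ) ≠ 0 := by exact_mod_cast hq.ne_zero
    have e : alW h * Fermat.Agent.H41.hm q j.val = mapGL ℚ (g (j : OnePoint (ZMod q))) *
        mk2 q 0 0 q (by simp [hq']) := by
      rw [hm_eq hq.ne_zero]
      apply gl_ext
      · rw [mul_00, mul_00, alW_00 h hq.ne_zero, alW_01 h hq.ne_zero]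
        simp only [mapGL_apply, g, OnePoint.elim_some, sl_00, sl_01, mk2_00, mk2_10]
        push_cast; ring
      · rw [mul_01, mul_01, alW_00 h hq.ne_zero, alW_01 h hq.ne_zero]
        simp only [mapGL_apply, g, OnePoint.elim_some, sl_00, sl_01, mk2_01, mk2_11]
        push_cast; ring
      · rw [mul_10, mul_10, alW_10 h hq.ne_zero, alW_11 h hq.ne_zero]
        simp only [mapGL_apply, g, OnePoint.elim_some, sl_10, sl_11, mk2_00, mk2_10]
        push_cast; ring
      · rw [mul_11, mul_11, alW_10 h hq.ne_zero, alW_11 h hq.ne_zero]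
        simp only [mapGL_apply, g, OnePoint.elim_some, sl_10, sl_11, mk2_01, mk2_11]
        push_cast; ring
    rw [← slash_mul, e, slash_mul]
    exact (slash_scalar _ _ (by simp) (by simp) (by simp)).symm

end AL

end Fermat.Agent.H41
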