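import Mathlib
import Fermat.Agent.H41Trace

/-!
# Ihara's lemma for modular symbols, elementary form (helper41)

If `m₁ + m₂|diag(q,1) = 0` with `m₁, m₂` modular symbols for `Γ₀(N)`, `q ∤ N`, then
`T_ℓ² m₁ ≡ (ℓ+1)² m₁` modulo boundary symbols.
-/

set_option autoImplicit false

namespace Fermat.Agent.H41

open Matrix Matrix.SpecialLinearGroup
open scoped MatrixGroups

section Stab

variable {G : Type*} [Group G] {R : Type*} {X : Type*} {A : Type*}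
  [CommRing R] [AddCommGroup A] [Module R A] [MulAction G X]

/-- The stabiliser of a symbol. -/
def stab (m : Symb R X A) : Subgroup G where
  carrier := {g | slash g m = m}
  one_mem' := slash_one m
  mul_mem' := by
    intro g h hg hh
    show slash (g * h) m = m
    rw [slash_mul, show slash g m = m from hg, show slash h m = m from hh]
  inv_mem' := by
    intro g hg
    show slash g⁻¹ m = m
    conv_lhs => rw [← show slash g m = m from hg]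
    rw [← slash_mul, mul_inv_cancel, slash_one]

lemma mem_stab {m : Symb R X A} {g : G} : g ∈ stab m ↔ slash g m = m := Iff.rfl

lemma mem_inv_iff_le_stab {m : Symb R X A} {Γ : Subgroup G} : m ∈ inv R X A Γ ↔ Γ ≤ stab m :=
  Iff.rfl

end Stab

section Gen

variable {q N : ℕ} {S : Subgroup (GL (Fin 2) ℚ)}

lemma Um_add (s t : ℚ) : Um (s + t) = Um s * Um t := by
  apply gl_ext
  · rw [mul_00]; simp [Um]
  · rw [mul_01]; simp [Um]; ring
  · rw [mul_10]; simp [Um]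
  · rw [mul_11]; simp [Um]

lemma Um_int (z : ℤ) : Um z ∈ G0 N := by
  have : Um z = mapGL ℚ (sl 1 z 0 1 (by ring)) := by
    apply gl_ext <;> rw [mapGL_apply] <;> simp [Um]
  rw [this]
  exact mapGL_mem_G0 (by simp)

lemma dt_mapGL (g : SL(2, ℤ)) : dt (mapGL ℚ g : GL (Fin 2) ℚ) = 1 := by
  have h := sl_det g
  simp only [dt, mapGL_apply]
  exact_mod_cast h

lemma Dm_conj_Um (u : ℚ) (hu : u ≠ 0) (b : ℚ) :
    (Dm u hu)⁻¹ * Um b * Dm u hu = Um (b / u ^ 2) := by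
  have hD : dt (Dm u hu) = 1 := by simp [dt, Dm, hu]
  apply gl_ext
  · rw [mul_00, mul_00, mul_01, inv_00, inv_01, hD]; simp [Dm, Um, hu]
  · rw [mul_01, mul_00, mul_01, inv_00, inv_01, hD]; simp [Dm, Um]; field_simp
  · rw [mul_10, mul_10, mul_11, inv_10, inv_11, hD]; simp [Dm, Um]
  · rw [mul_11, mul_10, mul_11, inv_10, inv_11, hD]; simp [Dm, Um, hu]

lemma Dm_mem_of (hq : q ≠ 0) (hc : Nat.Coprime q N) (h1 : G0 N ≤ S)
    (h2 : ∀ g ∈ G0 N, (hd q)⁻¹ * g * hd q ∈ S) (hq0 : (q : ℚ) ≠ 0) : Dm q hq0 ∈ S := by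
  have hb := bezout hc
  set w := bw N q with hw
  set z := bz N q with hz
  have hbQ : (q : ℚ) * w - N * z = 1 := by exact_mod_cast hb
  have hg1 : (hd q)⁻¹ * mapGL ℚ (sl q z N w (by linear_combination hb)) * hd q ∈ S :=
    h2 _ (mapGL_mem_G0 (by simp))
  have hg2 : (mapGL ℚ (sl 1 0 (-N) 1 (by ring)) : GL (Fin 2) ℚ) ∈ S :=
    h1 (mapGL_mem_G0 (by simp))
  have hg3 : Um (((-z : ℤ)) : ℚ) ∈ S := h1 (Um_int _)
  have hD : dt (hd q) = q := by rw [hd_eq hq]; simp [dt]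
  have : Dm q hq0 = Um (((-z : ℤ)) : ℚ) * (mapGL ℚ (sl 1 0 (-N) 1 (by ring)) *
      ((hd q)⁻¹ * mapGL ℚ (sl q z N w (by linear_combination hb)) * hd q)) := by
    apply gl_ext <;>
      simp only [mul_00, mul_10, mul_01, mul_11, inv_00, inv_01, inv_10, inv_11, hD, mapGL_apply] <;>
      rw [hd_eq hq] <;>
      simp only [Dm, Um, mk2_00, mk2_01, mk2_10, mk2_11, sl_00, sl_01, sl_10, sl_11] <;>
      push_cast <;> field_simp
    · ring
    · linear_combination (z : ℚ) * hbQ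
    · ring
    · linear_combination -hbQ
  rw [this]
  exact S.mul_mem hg3 (S.mul_mem hg2 hg1)

lemma Um_mem_of_Dm (hq0 : (q : ℚ) ≠ 0) (hD : Dm q hq0 ∈ S) (hU : ∀ z : ℤ, Um (z : ℚ) ∈ S) (n : ℕ) :
    ∀ b : ℚ, (∃ z : ℤ, b * (q : ℚ) ^ n = z) → Um b ∈ S := by
  induction n with
  | zero =>
    rintro b ⟨z, hz⟩
    rw [pow_zero, mul_one] at hz
    rw [hz]; exact hU z
  | succ n ih =>
    rintro b ⟨z, hz⟩
    have h1 : Um (b * (q : ℚ) ^ 2) ∈ S := ih _ ⟨z * q, by push_cast; rw [← hz]; ring⟩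
    have h2 := S.mul_mem (S.mul_mem (S.inv_mem hD) h1) hD
    rw [Dm_conj_Um, mul_div_assoc, div_self (pow_ne_zero 2 hq0), mul_one] at h2
    exact h2

lemma Dm_mul (u v : ℚ) (hu : u ≠ 0) (hv : v ≠ 0) :
    Dm u hu * Dm v hv = Dm (u * v) (mul_ne_zero hu hv) := by
  apply gl_ext
  · rw [mul_00]; simp [Dm]
  · rw [mul_01]; simp [Dm]
  · rw [mul_10]; simp [Dm]
  · rw [mul_11]; simp [Dm, mul_comm]

lemma Dm_inv (u : ℚ) (hu : u ≠ 0) : (Dm u hu)⁻¹ = Dm u⁻¹ (inv_ne_zero hu) := by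
  have hD : dt (Dm u hu) = 1 := by simp [dt, Dm, hu]
  apply gl_ext
  · rw [inv_00, hD]; simp [Dm]
  · rw [inv_01, hD]; simp [Dm]
  · rw [inv_10, hD]; simp [Dm]
  · rw [inv_11, hD]; simp [Dm]

lemma Dm_congr {u v : ℚ} (hu : u ≠ 0) (h : u = v) : Dm u hu = Dm v (h ▸ hu) := by
  subst h; rfl

lemma Dm_zpow_mem (hq0 : (q : ℚ) ≠ 0) (hD : Dm q hq0 ∈ S) (k : ℤ) :
    Dm ((q : ℚ) ^ k) (zpow_ne_zero _ hq0) ∈ S := by
  induction k using Int.induction_on with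
  | zero =>
    have : Dm ((q : ℚ) ^ (0 : ℤ)) (zpow_ne_zero _ hq0) = 1 := by
      apply gl_ext <;> simp [Dm]
    rw [this]; exact S.one_mem
  | succ n ih =>
    have := S.mul_mem ih hD
    rw [Dm_mul] at this
    rwa [Dm_congr _ (zpow_add_one₀ hq0 _)]
  | pred n ih =>
    have := S.mul_mem ih (S.inv_mem hD)
    rw [Dm_inv, Dm_mul] at this
    rwa [Dm_congr _ (zpow_sub_one₀ hq0 _)]

/-- `Γ₀(N; ℤ[1/q])` is generated by `Γ₀(N)` and its conjugate by `diag(q,1)`. -/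
theorem gen_mem (hq : q.Prime) (hc : Nat.Coprime q N) (h1 : G0 N ≤ S)
    (h2 : ∀ g ∈ G0 N, (hd q)⁻¹ * g * hd q ∈ S) {x : GL (Fin 2) ℚ} (hx : dt x = 1)
    (h00 : x 0 0 ∈ JA q 1) (h01 : x 0 1 ∈ JA q 1) (h10 : x 1 0 ∈ JA q N)
    (h11 : x 1 1 ∈ JA q 1) : x ∈ S := by
  have hq0 : (q : ℚ) ≠ 0 := by exact_mod_cast hq.ne_zero
  have hD : Dm q hq0 ∈ S := Dm_mem_of hq.ne_zero hc h1 h2 hq0
  have hU : ∀ b ∈ JA q 1, Um b ∈ S := by
    rintro b ⟨n, z, hz⟩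
    exact Um_mem_of_Dm hq0 hD (fun z => h1 (Um_int z)) n b ⟨z, by rw [hz]; push_cast; ring⟩
  -- common denominators
  obtain ⟨n0, a0, ha0⟩ := h00
  obtain ⟨n1, b0, hb0⟩ := id h01
  obtain ⟨n2, c0, hc0⟩ := h10
  obtain ⟨n3, d0, hd0⟩ := id h11
  set n := n0 + n1 + n2 + n3 with hn
  set a : ℤ := a0 * q ^ (n1 + n2 + n3) with ha
  set b : ℤ := b0 * q ^ (n0 + n2 + n3) with hb
  set c : ℤ := c0 * q ^ (n0 + n1 + n3) with hcc
  set d : ℤ := d0 * q ^ (n0 + n1 + n2) with hdd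
  have ea : x 0 0 * (q : ℚ) ^ n = a := by
    rw [ha, hn]; push_cast at ha0 ⊢
    rw [one_mul] at ha0
    rw [← ha0]; ring
  have eb : x 0 1 * (q : ℚ) ^ n = b := by
    rw [hb, hn]; push_cast at hb0 ⊢
    rw [one_mul] at hb0
    rw [← hb0]; ring
  have ec : x 1 0 * (q : ℚ) ^ n = N * c := by
    rw [hcc, hn]; push_cast
    calc x 1 0 * (q : ℚ) ^ (n0 + n1 + n2 + n3) = (x 1 0 * (q : ℚ) ^ n2) * q ^ (n0 + n1 + n3) := by ring
      _ = _ := by rw [hc0]; ring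
  have ed : x 1 1 * (q : ℚ) ^ n = d := by
    rw [hdd, hn]; push_cast at hd0 ⊢
    rw [one_mul] at hd0
    rw [← hd0]; ring
  have hdet : x 0 0 * x 1 1 - x 0 1 * x 1 0 = 1 := hx
  have edet : a * d - b * (N * c) = (q : ℤ) ^ (2 * n) := by
    have : ((a * d - b * (N * c) : ℤ) : ℚ) = (((q : ℤ) ^ (2 * n) : ℤ) : ℚ) := by
      push_cast
      rw [← ea, ← eb, ← ec, ← ed]
      linear_combination ((q : ℚ) ^ (2 * n)) * hdet
    exact_mod_cast this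
  -- gcd is a power of q
  have hgcd : Int.gcd a (N * c) ∣ q ^ (2 * n) := by
    have : ((Int.gcd a (N * c) : ℕ) : ℤ) ∣ (q : ℤ) ^ (2 * n) := by
      rw [← edet]
      exact dvd_sub (Dvd.dvd.mul_right (Int.gcd_dvd_left _ _) _)
        (Dvd.dvd.mul_left (Int.gcd_dvd_right _ _) _)
    exact_mod_cast this
  obtain ⟨j, -, hj⟩ := (Nat.dvd_prime_pow hq).mp hgcd
  obtain ⟨u, hu⟩ : ((q : ℤ) ^ j) ∣ a := by
    have := Int.gcd_dvd_left a (N * c); rw [hj] at this; exact_mod_cast this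
  obtain ⟨v, hv⟩ : ((q : ℤ) ^ j) ∣ N * c := by
    have := Int.gcd_dvd_right a (N * c); rw [hj] at this; exact_mod_cast this
  have hqj : ((q : ℤ) ^ j) ≠ 0 := pow_ne_zero _ (by exact_mod_cast hq.ne_zero)
  have huv : IsCoprime u v := by
    have h3 := Int.gcd_eq_gcd_ab a (N * c)
    rw [hj, hu] at h3
    conv at h3 => rhs; rw [show (N : ℤ) * c * Int.gcdB (↑q ^ j * u) (↑N * c)
      = (q : ℤ) ^ j * v * Int.gcdB (↑q ^ j * u) (↑N * c) by rw [← hv]]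
    push_cast at h3
    refine ⟨Int.gcdA (↑q ^ j * u) (↑N * c), Int.gcdB (↑q ^ j * u) (↑N * c), ?_⟩
    apply mul_left_cancel₀ hqj
    linear_combination -h3
  have hNv : (N : ℤ) ∣ v := by
    have h3 : (N : ℤ) ∣ (q : ℤ) ^ j * v := ⟨c, hv.symm⟩
    have h4 : IsCoprime (N : ℤ) ((q : ℤ) ^ j) :=
      IsCoprime.pow_right (Nat.isCoprime_iff_coprime.mpr hc.symm)
    exact h4.dvd_of_dvd_mul_left h3
  obtain ⟨s, t, hst⟩ := huv
  -- γ = [u,-t;v,s]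
  have hγ : (mapGL ℚ (sl u (-t) v s (by linear_combination hst)) : GL (Fin 2) ℚ) ∈ S :=
    h1 (mapGL_mem_G0 (by simpa using hNv))
  set γ : GL (Fin 2) ℚ := mapGL ℚ (sl u (-t) v s (by linear_combination hst)) with hγdef
  have hqn : ((q : ℚ) ^ n) ≠ 0 := pow_ne_zero _ hq0
  set k : ℤ := (j : ℤ) - n with hk
  have hqk : (q : ℚ) ^ k * (q : ℚ) ^ n = (q : ℚ) ^ j := by
    rw [hk, zpow_sub₀ hq0, zpow_natCast, zpow_natCast]; field_simp
  have hqk0 : (q : ℚ) ^ k ≠ 0 := zpow_ne_zero _ hq0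
  have e00 : x 0 0 = q ^ k * u := by
    apply mul_right_cancel₀ hqn
    rw [ea, hu]; push_cast
    linear_combination -(u : ℚ) * hqk
  have e10 : x 1 0 = q ^ k * v := by
    apply mul_right_cancel₀ hqn
    rw [ec]
    have : ((N * c : ℤ) : ℚ) = (q : ℚ) ^ j * v := by rw [hv]; push_cast; ring
    push_cast at this
    rw [this]
    linear_combination -(v : ℚ) * hqk
  have hstQ : (s : ℚ) * u + t * v = 1 := by exact_mod_cast hst
  -- x = γ * Dm (q^k) * Um β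
  set β : ℚ := ((q : ℚ) ^ k)⁻¹ * (s * x 0 1 + t * x 1 1) with hβ
  have hβJ : β ∈ JA q 1 := by
    rw [hβ, ← _root_.zpow_neg]
    refine JA_mul (zpow_mem_JA hq.ne_zero _) ((JA q 1).add_mem ?_ ?_)
    · exact JA_mul (int_mem_JA _) h01
    · exact JA_mul (int_mem_JA _) h11
  have hxe : x = γ * (Dm ((q : ℚ) ^ k) (zpow_ne_zero _ hq0) * Um β) := by
    apply gl_ext
    · rw [mul_00, mul_00, mul_10, e00, hγdef]
      simp only [mapGL_apply, sl_00, sl_01]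
      simp [Dm, Um]; ring
    · rw [mul_01, mul_01, mul_11, hγdef]
      simp only [mapGL_apply, sl_00, sl_01]
      simp only [Dm, Um, mk2_00, mk2_01, mk2_11, mk2_10, hβ]
      push_cast
      have h5 : (q : ℚ) ^ k * (u * x 1 1 - v * x 0 1) = 1 := by
        rw [e00, e10] at hdet; linear_combination hdet
      have h6 : ((q : ℚ) ^ k)⁻¹ = u * x 1 1 - v * x 0 1 := by
        field_simp; linear_combination -h5
      simp only [zero_mul, zero_add, mul_one, add_zero]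
      rw [mul_inv_cancel_left₀ hqk0, h6]
      linear_combination (-x 0 1) * hstQ
    · rw [mul_10, mul_00, mul_10, e10, hγdef]
      simp only [mapGL_apply, sl_10, sl_11]
      simp [Dm, Um]; ring
    · rw [mul_11, mul_01, mul_11, hγdef]
      simp only [mapGL_apply, sl_10, sl_11]
      simp only [Dm, Um, mk2_00, mk2_01, mk2_11, mk2_10, hβ]
      have h5 : (q : ℚ) ^ k * (u * x 1 1 - v * x 0 1) = 1 := by
        rw [e00, e10] at hdet; linear_combination hdet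
      have h6 : ((q : ℚ) ^ k)⁻¹ = u * x 1 1 - v * x 0 1 := by
        field_simp; linear_combination -h5
      simp only [zero_mul, zero_add, mul_one, add_zero]
      rw [mul_inv_cancel_left₀ hqk0, h6]
      linear_combination (-x 1 1) * hstQ
  rw [hxe]
  exact S.mul_mem hγ (S.mul_mem (Dm_zpow_mem hq0 hD k) (hU β hβJ))

theorem GamA_le_of (hq : q.Prime) (hc : Nat.Coprime q N) (h1 : G0 N ≤ S)
    (h2 : ∀ g ∈ G0 N, (hd q)⁻¹ * g * hd q ∈ S) : GamA q N ≤ S := by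
  rintro x ⟨h0, h00, h01, h10, h11⟩
  refine gen_mem hq hc h1 h2 h0 ?_ (JA_le_one h01) h10 ?_
  · have := (JA q 1).add_mem (JA_le_one h00) one_mem_JA
    simpa using this
  · have := (JA q 1).add_mem (JA_le_one h11) one_mem_JA
    simpa using this

end Gen

section Conj

variable {q : ℕ}

/-- denominators prime to `q` -/
lemma exists_den (hq : q.Prime ∨ q = 1) (r : ℚ) :
    ∃ D : ℕ, D ≠ 0 ∧ Nat.Coprime q D ∧ (D : ℚ) * r ∈ JA q 1 := by
  have hd0 : (r.den : ℚ) ≠ 0 := by exact_mod_cast r.den_ne_zero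
  have hr : (r.den : ℚ) * r = r.num := by
    rw [mul_comm]; exact Rat.mul_den_eq_num r
  rcases hq with hq | rfl
  · obtain ⟨n, D, hD, hn⟩ := Nat.exists_eq_pow_mul_and_not_dvd r.den_ne_zero q hq.ne_one
    refine ⟨D, ?_, (Nat.Prime.coprime_iff_not_dvd hq).mpr hD, n, r.num, ?_⟩
    · rintro rfl; exact hD (dvd_zero _)
    · rw [← hr, hn]; push_cast; ring
  · exact ⟨r.den, r.den_ne_zero, Nat.coprime_one_left _, 0, r.num, by rw [hr]; simp⟩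

lemma JA_mul_nat {D : ℕ} {x : ℚ} (h : x ∈ JA q 1) : (D : ℚ) * x ∈ JA q 1 := by
  have := int_mem_JA (q := q) D
  push_cast at this
  exact JA_mul this h

lemma exists_den_gl (hq : q.Prime ∨ q = 1) (g : GL (Fin 2) ℚ) :
    ∃ D : ℕ, D ≠ 0 ∧ Nat.Coprime q D ∧ ∀ i j, (D : ℚ) * g i j ∈ JA q 1 := by
  obtain ⟨D0, h0, h0', h0''⟩ := exists_den hq (g 0 0)
  obtain ⟨D1, h1, h1', h1''⟩ := exists_den hq (g 0 1)
  obtain ⟨D2, h2, h2', h2''⟩ := exists_den hq (g 1 0)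
  obtain ⟨D3, h3, h3', h3''⟩ := exists_den hq (g 1 1)
  refine ⟨D0 * D1 * D2 * D3, by positivity, ?_, ?_⟩
  · exact Nat.Coprime.mul_right (Nat.Coprime.mul_right (Nat.Coprime.mul_right h0' h1') h2') h3'
  · intro i j
    fin_cases i <;> fin_cases j
    · have := JA_mul_nat (D := D1 * D2 * D3) h0''
      have e : ((D0 * D1 * D2 * D3 : ℕ) : ℚ) * g 0 0 = ((D1 * D2 * D3 : ℕ) : ℚ) * ((D0 : ℚ) * g 0 0) := by
        push_cast; ring
      show ((D0 * D1 * D2 * D3 : ℕ) : ℚ) * g 0 0 ∈ _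
      rw [e]; exact this
    · have := JA_mul_nat (D := D0 * D2 * D3) h1''
      have e : ((D0 * D1 * D2 * D3 : ℕ) : ℚ) * g 0 1 = ((D0 * D2 * D3 : ℕ) : ℚ) * ((D1 : ℚ) * g 0 1) := by
        push_cast; ring
      show ((D0 * D1 * D2 * D3 : ℕ) : ℚ) * g 0 1 ∈ _
      rw [e]; exact this
    · have := JA_mul_nat (D := D0 * D1 * D3) h2''
      have e : ((D0 * D1 * D2 * D3 : ℕ) : ℚ) * g 1 0 = ((D0 * D1 * D3 : ℕ) : ℚ) * ((D2 : ℚ) * g 1 0) := by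
        push_cast; ring
      show ((D0 * D1 * D2 * D3 : ℕ) : ℚ) * g 1 0 ∈ _
      rw [e]; exact this
    · have := JA_mul_nat (D := D0 * D1 * D2) h3''
      have e : ((D0 * D1 * D2 * D3 : ℕ) : ℚ) * g 1 1 = ((D0 * D1 * D2 : ℕ) : ℚ) * ((D3 : ℚ) * g 1 1) := by
        push_cast; ring
      show ((D0 * D1 * D2 * D3 : ℕ) : ℚ) * g 1 1 ∈ _
      rw [e]; exact this

lemma JA_sandwich {M D D' : ℕ} {a y b : ℚ} (ha : (D : ℚ) * a ∈ JA q 1)
    (hy : y ∈ JA q (M * D * D')) (hb : (D' : ℚ) * b ∈ JA q 1) : a * y * b ∈ JA q M := by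
  obtain ⟨n, z, hz⟩ := ha
  obtain ⟨m, w, hw⟩ := hy
  obtain ⟨l, v, hv⟩ := hb
  refine ⟨n + m + l, z * w * v, ?_⟩
  push_cast at hz hw hv ⊢
  rw [pow_add, pow_add]
  rw [one_mul] at hz hv
  calc a * y * b * ((q : ℚ) ^ n * q ^ m * q ^ l)
      = a * q ^ n * (y * q ^ m) * (b * q ^ l) := by ring
    _ = M * ((D * a * q ^ n) * w * (D' * b * q ^ l)) := by rw [hw]; ring
    _ = M * (z * w * v) := by rw [hz, hv]

/-- Conjugation by an element of `GL₂(ℚ)` maps a deep enough congruence subgroup into a given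
one. -/
theorem conj_level (hq : q.Prime ∨ q = 1) (g : GL (Fin 2) ℚ) {M : ℕ} (hM : M ≠ 0)
    (hqM : Nat.Coprime q M) :
    ∃ M' : ℕ, M' ≠ 0 ∧ Nat.Coprime q M' ∧ M ∣ M' ∧ ∀ x ∈ GamA q M', g * x * g⁻¹ ∈ GamA q M := by
  obtain ⟨D, hD, hqD, hgD⟩ := exists_den_gl hq g
  obtain ⟨D', hD', hqD', hgD'⟩ := exists_den_gl hq g⁻¹
  refine ⟨M * D * D', by positivity, Nat.Coprime.mul_right (Nat.Coprime.mul_right hqM hqD) hqD',
    ⟨D * D', by ring⟩, ?_⟩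
  rintro x ⟨h0, h00, h01, h10, h11⟩
  have hgg : g * g⁻¹ = 1 := mul_inv_cancel g
  refine ⟨by rw [dt_mul, dt_mul, dt_inv, h0, mul_one, mul_inv_cancel₀ (dt_ne_zero g)], ?_, ?_, ?_, ?_⟩
  · have e : (g * g⁻¹) 0 0 = 1 := by rw [hgg, one_00]
    rw [mul_00] at e
    have : (g * x * g⁻¹) 0 0 - 1 = g 0 0 * (x 0 0 - 1) * g⁻¹ 0 0 + g 0 0 * x 0 1 * g⁻¹ 1 0
        + g 0 1 * x 1 0 * g⁻¹ 0 0 + g 0 1 * (x 1 1 - 1) * g⁻¹ 1 0 := by
      rw [mul_00, mul_00, mul_01]; linear_combination e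
    rw [this]
    exact (JA q M).add_mem ((JA q M).add_mem ((JA q M).add_mem
      (JA_sandwich (hgD _ _) h00 (hgD' _ _)) (JA_sandwich (hgD _ _) h01 (hgD' _ _)))
      (JA_sandwich (hgD _ _) h10 (hgD' _ _))) (JA_sandwich (hgD _ _) h11 (hgD' _ _))
  · have e : (g * g⁻¹) 0 1 = 0 := by rw [hgg, one_01]
    rw [mul_01] at e
    have : (g * x * g⁻¹) 0 1 = g 0 0 * (x 0 0 - 1) * g⁻¹ 0 1 + g 0 0 * x 0 1 * g⁻¹ 1 1
        + g 0 1 * x 1 0 * g⁻¹ 0 1 + g 0 1 * (x 1 1 - 1) * g⁻¹ 1 1 := by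
      rw [mul_01, mul_00, mul_01]; linear_combination e
    rw [this]
    exact (JA q M).add_mem ((JA q M).add_mem ((JA q M).add_mem
      (JA_sandwich (hgD _ _) h00 (hgD' _ _)) (JA_sandwich (hgD _ _) h01 (hgD' _ _)))
      (JA_sandwich (hgD _ _) h10 (hgD' _ _))) (JA_sandwich (hgD _ _) h11 (hgD' _ _))
  · have e : (g * g⁻¹) 1 0 = 0 := by rw [hgg, one_10]
    rw [mul_10] at e
    have : (g * x * g⁻¹) 1 0 = g 1 0 * (x 0 0 - 1) * g⁻¹ 0 0 + g 1 0 * x 0 1 * g⁻¹ 1 0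
        + g 1 1 * x 1 0 * g⁻¹ 0 0 + g 1 1 * (x 1 1 - 1) * g⁻¹ 1 0 := by
      rw [mul_10, mul_10, mul_11]; linear_combination e
    rw [this]
    exact (JA q M).add_mem ((JA q M).add_mem ((JA q M).add_mem
      (JA_sandwich (hgD _ _) h00 (hgD' _ _)) (JA_sandwich (hgD _ _) h01 (hgD' _ _)))
      (JA_sandwich (hgD _ _) h10 (hgD' _ _))) (JA_sandwich (hgD _ _) h11 (hgD' _ _))
  · have e : (g * g⁻¹) 1 1 = 1 := by rw [hgg, one_11]
    rw [mul_11] at e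
    have : (g * x * g⁻¹) 1 1 - 1 = g 1 0 * (x 0 0 - 1) * g⁻¹ 0 1 + g 1 0 * x 0 1 * g⁻¹ 1 1
        + g 1 1 * x 1 0 * g⁻¹ 0 1 + g 1 1 * (x 1 1 - 1) * g⁻¹ 1 1 := by
      rw [mul_11, mul_10, mul_11]; linear_combination e
    rw [this]
    exact (JA q M).add_mem ((JA q M).add_mem ((JA q M).add_mem
      (JA_sandwich (hgD _ _) h00 (hgD' _ _)) (JA_sandwich (hgD _ _) h01 (hgD' _ _)))
      (JA_sandwich (hgD _ _) h10 (hgD' _ _))) (JA_sandwich (hgD _ _) h11 (hgD' _ _))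

end Conj

section KK

variable (k : Type*) [AddCommGroup k] (q : ℕ)

/-- The elements `g` of `GL₂(ℚ)` acting trivially on germs of homomorphisms. -/
def KK (hq : q.Prime) : Subgroup (GL (Fin 2) ℚ) where
  carrier := {g | ∀ (M : ℕ) (φ : GL (Fin 2) ℚ → k), M ≠ 0 → Nat.Coprime q M → IsGerm q M φ →
    ∃ M' : ℕ, M' ≠ 0 ∧ Nat.Coprime q M' ∧ M ∣ M' ∧
      ∀ x ∈ GamA q M', g * x * g⁻¹ ∈ GamA q M ∧ φ (g * x * g⁻¹) = φ x}
  one_mem' := by
    intro M φ hM hqM hφ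
    exact ⟨M, hM, hqM, dvd_rfl, fun x hx => by
      rw [one_mul, inv_one, mul_one]; exact ⟨hx, rfl⟩⟩
  mul_mem' := by
    intro g h hg hh M φ hM hqM hφ
    obtain ⟨M₁, hM₁, hqM₁, hd₁, h₁⟩ := hg M φ hM hqM hφ
    obtain ⟨M₂, hM₂, hqM₂, hd₂, h₂⟩ := hh M₁ φ hM₁ hqM₁ (hφ.mono hd₁)
    refine ⟨M₂, hM₂, hqM₂, hd₁.trans hd₂, fun x hx => ?_⟩
    have e : g * h * x * (g * h)⁻¹ = g * (h * x * h⁻¹) * g⁻¹ := by group
    rw [e]
    obtain ⟨h3, h4⟩ := h₂ x hx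
    obtain ⟨h5, h6⟩ := h₁ _ h3
    exact ⟨h5, h6.trans h4⟩
  inv_mem' := by
    intro g hg M φ hM hqM hφ
    obtain ⟨M₁, hM₁, hqM₁, hd₁, h₁⟩ := conj_level (Or.inl hq) g⁻¹ hM hqM
    obtain ⟨M₂, hM₂, hqM₂, hd₂, h₂⟩ := hg M₁ _ hM₁ hqM₁ (hφ.conj g⁻¹ h₁)
    refine ⟨M₂, hM₂, hqM₂, hd₁.trans hd₂, fun x hx => ?_⟩
    obtain ⟨h3, h4⟩ := h₂ x hx
    have e : g⁻¹ * (g * x * g⁻¹) * g⁻¹⁻¹ = x := by group
    simp only [e] at h4
    exact ⟨h₁ x (GamA_mono hd₂ hx), h4.symm⟩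

variable {k q}

lemma conj_mem_KK (hq : q.Prime) {g : GL (Fin 2) ℚ} (hg : g ∈ KK k q hq) (h : GL (Fin 2) ℚ) :
    h * g * h⁻¹ ∈ KK k q hq := by
  intro M φ hM hqM hφ
  obtain ⟨M₁, hM₁, hqM₁, hd₁, h₁⟩ := conj_level (Or.inl hq) h hM hqM
  obtain ⟨M₂, hM₂, hqM₂, hd₂, h₂⟩ := hg M₁ _ hM₁ hqM₁ (hφ.conj h h₁)
  obtain ⟨M₃, hM₃, hqM₃, hd₃, h₃⟩ := conj_level (Or.inl hq) h⁻¹ hM₂ hqM₂
  refine ⟨M₃, hM₃, hqM₃, (hd₁.trans hd₂).trans hd₃, fun y hy => ?_⟩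
  have h4 := h₃ y hy
  obtain ⟨h5, h6⟩ := h₂ _ h4
  have h7 := h₁ _ h5
  have e : h * (g * (h⁻¹ * y * h⁻¹⁻¹) * g⁻¹) * h⁻¹ = h * g * h⁻¹ * y * (h * g * h⁻¹)⁻¹ := by group
  have e' : h * (h⁻¹ * y * h⁻¹⁻¹) * h⁻¹ = y := by group
  simp only [e, e'] at h6
  rw [e] at h7
  exact ⟨h7, h6⟩

lemma Dm_mem_KK (hq : q.Prime) (hq0 : (q : ℚ) ≠ 0) : Dm (q : ℚ) hq0 ∈ KK k q hq := by
  intro M φ hM hqM hφ
  refine ⟨M, hM, hqM, dvd_rfl, fun x hx => ⟨?_, ?_⟩⟩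
  · refine conj_Dm_mem hq0 ?_ ?_ hx
    · simpa using zpow_mem_JA (q := q) hq.ne_zero 1
    · simpa using zpow_mem_JA (q := q) hq.ne_zero (-1)
  · exact hφ.conj_Dq hq hM ((Nat.Prime.coprime_iff_not_dvd hq).mp hqM) hx hq0

lemma Um_inv (t : ℚ) : (Um t)⁻¹ = Um (-t) := by
  have hD : dt (Um t) = 1 := by simp [dt, Um]
  apply gl_ext
  · rw [inv_00, hD]; simp [Um]
  · rw [inv_01, hD]; simp [Um]
  · rw [inv_10, hD]; simp [Um]
  · rw [inv_11, hD]; simp [Um]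

lemma Um_mem_KK (hq : q.Prime) (s : ℚ) : Um s ∈ KK k q hq := by
  have hq0 : (q : ℚ) ≠ 0 := by exact_mod_cast hq.ne_zero
  have hq1 : (1 : ℚ) < q := by exact_mod_cast hq.one_lt
  have hq2 : (1 - (q : ℚ) ^ 2) ≠ 0 := by nlinarith
  have h1 := conj_mem_KK hq (Dm_mem_KK (k := k) hq hq0) (Um (s / (1 - (q : ℚ) ^ 2)))
  have h2 := (KK k q hq).mul_mem h1 ((KK k q hq).inv_mem (Dm_mem_KK (k := k) hq hq0))
  have e : Um s = Um (s / (1 - (q : ℚ) ^ 2)) * Dm (q : ℚ) hq0 * (Um (s / (1 - (q : ℚ) ^ 2)))⁻¹ *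
      (Dm (q : ℚ) hq0)⁻¹ := by
    have hD : dt (Dm (q : ℚ) hq0) = 1 := by simp [dt, Dm, hq0]
    rw [Um_inv]
    apply gl_ext <;>
      simp only [mul_00, mul_01, mul_10, mul_11, inv_00, inv_01, inv_10, inv_11, hD] <;>
      simp only [Um, Dm, mk2_00, mk2_01, mk2_10, mk2_11] <;> field_simp <;> ring
  rw [e]; exact h2

lemma Lm_mem_KK (hq : q.Prime) (s : ℚ) : Lm s ∈ KK k q hq := by
  set w : GL (Fin 2) ℚ := mk2 0 1 (-1) 0 (by norm_num) with hw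
  have h1 := conj_mem_KK hq (Um_mem_KK (k := k) hq (-s)) w
  have hD : dt w = 1 := by simp [dt, hw]
  have e : Lm s = w * Um (-s) * w⁻¹ := by
    apply gl_ext <;>
      simp only [mul_00, mul_01, mul_10, mul_11, inv_00, inv_01, inv_10, inv_11, hD] <;>
      simp only [Um, Lm, hw, mk2_00, mk2_01, mk2_10, mk2_11] <;> ring
  rw [e]; exact h1

theorem SL_le_KK (hq : q.Prime) {g : GL (Fin 2) ℚ} (hg : dt g = 1) : g ∈ KK k q hq := by
  have key : ∀ h : GL (Fin 2) ℚ, dt h = 1 → h 1 0 ≠ 0 → h ∈ KK k q hq := by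
    intro h hh hc
    have hdet : h 0 0 * h 1 1 - h 0 1 * h 1 0 = 1 := hh
    have e : h = Um ((h 0 0 - 1) / h 1 0) * Lm (h 1 0) * Um ((h 1 1 - 1) / h 1 0) := by
      apply gl_ext <;>
      · simp only [mul_00, mul_01, mul_10, mul_11, Um, Lm, mk2_00, mk2_01, mk2_10, mk2_11]
        field_simp
        try linear_combination -hdet
        try ring
    rw [e]
    exact (KK k q hq).mul_mem ((KK k q hq).mul_mem (Um_mem_KK hq _) (Lm_mem_KK hq _))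
      (Um_mem_KK hq _)
  by_cases hc : g 1 0 = 0
  · have h1 : g * Lm 1 ∈ KK k q hq := by
      apply key
      · rw [dt_mul, hg]; simp [dt, Lm]
      · rw [mul_10]
        simp only [Lm, mk2_00, mk2_10, hc]
        intro h
        have hdet : g 0 0 * g 1 1 - g 0 1 * g 1 0 = 1 := hg
        have h' : g 1 1 = 0 := by linear_combination h
        rw [hc, h'] at hdet
        norm_num at hdet
    have h2 := (KK k q hq).mul_mem h1 ((KK k q hq).inv_mem (Lm_mem_KK hq 1))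
    rwa [mul_inv_cancel_right] at h2
  · exact key g hg hc

end KK

end Fermat.Agent.H41
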