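import Mathlib
import Fermat.Agent.H41Ihara

/-!
# Boundary symbols and the conclusion of Ihara's lemma (helper41)
-/

set_option autoImplicit false

namespace Fermat.Agent.H41

open Matrix Matrix.SpecialLinearGroup
open scoped MatrixGroups

section Cong

variable {q M : ℕ}

/-- Entrywise congruence modulo `M ℤ[1/q]`. -/
def MCong (q M : ℕ) (P Q : Matrix (Fin 2) (Fin 2) ℚ) : Prop := ∀ i j, P i j - Q i j ∈ JA q M

/-- Entries in `ℤ[1/q]`. -/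
def MInt (q : ℕ) (P : Matrix (Fin 2) (Fin 2) ℚ) : Prop := ∀ i j, P i j ∈ JA q 1

lemma MCong.symm {P Q : Matrix (Fin 2) (Fin 2) ℚ} (h : MCong q M P Q) : MCong q M Q P := by
  intro i j
  have := (JA q M).neg_mem (h i j)
  rwa [neg_sub] at this

lemma MCong.trans {P Q S : Matrix (Fin 2) (Fin 2) ℚ} (h : MCong q M P Q) (h' : MCong q M Q S) :
    MCong q M P S := by
  intro i j
  have := (JA q M).add_mem (h i j) (h' i j)
  rwa [sub_add_sub_cancel] at this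

lemma MCong.mul_left {P Q S : Matrix (Fin 2) (Fin 2) ℚ} (hS : MInt q S) (h : MCong q M P Q) :
    MCong q M (S * P) (S * Q) := by
  intro i j
  rw [Matrix.mul_apply, Matrix.mul_apply, Fin.sum_univ_two, Fin.sum_univ_two]
  have : S i 0 * P 0 j + S i 1 * P 1 j - (S i 0 * Q 0 j + S i 1 * Q 1 j) =
    S i 0 * (P 0 j - Q 0 j) + S i 1 * (P 1 j - Q 1 j) := by ring
  rw [this]
  exact (JA q M).add_mem (JA_mul (hS _ _) (h _ _)) (JA_mul (hS _ _) (h _ _))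

lemma MCong.mul_right {P Q S : Matrix (Fin 2) (Fin 2) ℚ} (hS : MInt q S) (h : MCong q M P Q) :
    MCong q M (P * S) (Q * S) := by
  intro i j
  rw [Matrix.mul_apply, Matrix.mul_apply, Fin.sum_univ_two, Fin.sum_univ_two]
  have : P i 0 * S 0 j + P i 1 * S 1 j - (Q i 0 * S 0 j + Q i 1 * S 1 j) =
    (P i 0 - Q i 0) * S 0 j + (P i 1 - Q i 1) * S 1 j := by ring
  rw [this]
  exact (JA q M).add_mem (JA_mul' (h _ _) (hS _ _)) (JA_mul' (h _ _) (hS _ _))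

lemma MCong.refl (P : Matrix (Fin 2) (Fin 2) ℚ) : MCong q M P P := by
  intro i j; rw [sub_self]; exact (JA q M).zero_mem

lemma mem_GamA_iff {g : GL (Fin 2) ℚ} :
    g ∈ GamA q M ↔ dt g = 1 ∧ MCong q M (g : Matrix (Fin 2) (Fin 2) ℚ) 1 := by
  constructor
  · rintro ⟨h0, h00, h01, h10, h11⟩
    refine ⟨h0, ?_⟩
    intro i j
    fin_cases i <;> fin_cases j
    · simpa using h00
    · simpa using h01
    · simpa using h10
    · simpa using h11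
  · rintro ⟨h0, h⟩
    refine ⟨h0, ?_, ?_, ?_, ?_⟩
    · simpa using h 0 0
    · simpa using h 0 1
    · simpa using h 1 0
    · simpa using h 1 1

lemma MInt_mapGL (g : SL(2, ℤ)) : MInt q ((mapGL ℚ g : GL (Fin 2) ℚ) : Matrix (Fin 2) (Fin 2) ℚ) := by
  intro i j
  rw [mapGL_apply]
  exact int_mem_JA _

lemma MInt_Um_int (z : ℤ) : MInt q ((Um (z : ℚ) : GL (Fin 2) ℚ) : Matrix (Fin 2) (Fin 2) ℚ) := by
  intro i j
  fin_cases i <;> fin_cases j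
  · show (Um (z : ℚ)) 0 0 ∈ _
    simp only [Um, mk2_00]; exact one_mem_JA
  · show (Um (z : ℚ)) 0 1 ∈ _
    simp only [Um, mk2_01]; exact int_mem_JA _
  · show (Um (z : ℚ)) 1 0 ∈ _
    simp only [Um, mk2_10]; exact (JA q 1).zero_mem
  · show (Um (z : ℚ)) 1 1 ∈ _
    simp only [Um, mk2_11]; exact one_mem_JA

lemma mul_inv_mem_GamA {P Q : GL (Fin 2) ℚ} (hP : dt P = 1) (hQ : dt Q = 1)
    (hQi : MInt q ((Q⁻¹ : GL (Fin 2) ℚ) : Matrix (Fin 2) (Fin 2) ℚ))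
    (h : MCong q M (P : Matrix (Fin 2) (Fin 2) ℚ) Q) : P * Q⁻¹ ∈ GamA q M := by
  rw [mem_GamA_iff]
  refine ⟨by rw [dt_mul, dt_inv, hP, hQ]; simp, ?_⟩
  have h1 := h.mul_right hQi
  have e : (Q : Matrix (Fin 2) (Fin 2) ℚ) * ((Q⁻¹ : GL (Fin 2) ℚ) : Matrix (Fin 2) (Fin 2) ℚ) = 1 := by
    rw [← Units.val_mul, mul_inv_cancel, Units.val_one]
  rw [e] at h1
  rwa [Units.val_mul]

end Cong

section Hrep

variable {ℓ : ℕ}

/-- the integer `j` for the representative `[1,j;0,ℓ]`, `0` for `[ℓ,0;0,1]` -/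
def jj (x : OnePoint (ZMod ℓ)) : ℤ := x.elim 0 (fun j => (j.val : ℤ))

lemma hrep_cong [hl : Fact ℓ.Prime] {M : ℕ} (hM : (M : ℤ) ∣ (ℓ : ℤ) - 1) (x : OnePoint (ZMod ℓ)) :
    MCong 1 M (hrep ℓ x : Matrix (Fin 2) (Fin 2) ℚ) (Um (jj x : ℚ) : GL (Fin 2) ℚ) := by
  have hℓ : ℓ ≠ 0 := hl.out.ne_zero
  obtain ⟨c, hc⟩ := hM
  have hcQ : (ℓ : ℚ) - 1 = M * c := by exact_mod_cast hc
  have key : (ℓ : ℚ) - 1 ∈ JA 1 M := by rw [hcQ]; exact mul_int_mem_JA _ _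
  have z : ∀ a : ℚ, a - a ∈ JA 1 M := fun a => by rw [sub_self]; exact (JA 1 M).zero_mem
  induction x using OnePoint.rec with
  | infty =>
    rw [hrep_infty, hd_eq hℓ]
    intro i j
    fin_cases i <;> fin_cases j
    · show (mk2 _ _ _ _ _) 0 0 - (Um _) 0 0 ∈ _
      simpa [Um] using key
    · show (mk2 _ _ _ _ _) 0 1 - (Um _) 0 1 ∈ _
      simp [Um, jj]
    · show (mk2 _ _ _ _ _) 1 0 - (Um _) 1 0 ∈ _
      simpa [Um] using z 0
    · show (mk2 _ _ _ _ _) 1 1 - (Um _) 1 1 ∈ _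
      simpa [Um] using z 0
  | coe a =>
    rw [hrep_coe, hm_eq hℓ]
    intro i j
    fin_cases i <;> fin_cases j
    · show (mk2 _ _ _ _ _) 0 0 - (Um _) 0 0 ∈ _
      simpa [Um] using z 0
    · show (mk2 _ _ _ _ _) 0 1 - (Um _) 0 1 ∈ _
      simp [Um, jj]
    · show (mk2 _ _ _ _ _) 1 0 - (Um _) 1 0 ∈ _
      simpa [Um] using z 0
    · show (mk2 _ _ _ _ _) 1 1 - (Um _) 1 1 ∈ _
      simpa [Um] using key

lemma hrep_smul_infty [hl : Fact ℓ.Prime] (x : OnePoint (ZMod ℓ)) :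
    hrep ℓ x • (OnePoint.infty : OnePoint ℚ) = OnePoint.infty := by
  have hℓ : ℓ ≠ 0 := hl.out.ne_zero
  rw [OnePoint.smul_infty_eq_self_iff]
  induction x using OnePoint.rec with
  | infty => rw [hrep_infty, hd_eq hℓ]; rfl
  | coe a => rw [hrep_coe, hm_eq hℓ]; rfl

/-- For `ℓ ≡ 1 mod M` the Hecke representatives act on `Γ(M)`-orbits of cusps like powers
of `T`. -/
theorem hrep_smul_eq [hl : Fact ℓ.Prime] {M : ℕ} (hM : (M : ℤ) ∣ (ℓ : ℤ) - 1)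
    (x : OnePoint (ZMod ℓ)) (r : OnePoint ℚ) :
    ∃ y ∈ GamA 1 M, hrep ℓ x • r = y • (Um (jj x : ℚ) • r) := by
  obtain ⟨γ, rfl⟩ := OnePoint.exists_mem_SL2 ℤ r
  obtain ⟨g', -, hmul⟩ := hrep_mul (N := 1) (p := ℓ) (by
    intro h; exact hl.out.one_lt.ne' (Nat.dvd_one.mp h)) γ (by simp) x
  set x' := red ℓ γ • x with hx'
  set P : GL (Fin 2) ℚ := mapGL ℚ g' * Um (jj x' : ℚ) with hP
  set Q : GL (Fin 2) ℚ := Um (jj x : ℚ) * mapGL ℚ γ with hQ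
  have hPd : dt P = 1 := by rw [hP, dt_mul, dt_mapGL]; simp [dt, Um]
  have hQd : dt Q = 1 := by rw [hQ, dt_mul, dt_mapGL]; simp [dt, Um]
  have hmul' : (hrep ℓ x : Matrix (Fin 2) (Fin 2) ℚ) * (mapGL ℚ γ : GL (Fin 2) ℚ) =
      (mapGL ℚ g' : GL (Fin 2) ℚ) * (hrep ℓ x' : Matrix (Fin 2) (Fin 2) ℚ) := by
    have := congrArg (fun g : GL (Fin 2) ℚ => (g : Matrix (Fin 2) (Fin 2) ℚ)) hmul
    simpa only [Units.val_mul] using this
  have hcong : MCong 1 M (P : Matrix (Fin 2) (Fin 2) ℚ) Q := by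
    have h1 := (hrep_cong hM x').symm.mul_left (MInt_mapGL (q := 1) g')
    have h2 := (hrep_cong hM x).mul_right (MInt_mapGL (q := 1) γ)
    rw [hmul'] at h2
    have h3 := h1.trans h2
    rw [hP, hQ, Units.val_mul, Units.val_mul]
    exact h3
  have hQi : MInt 1 ((Q⁻¹ : GL (Fin 2) ℚ) : Matrix (Fin 2) (Fin 2) ℚ) := by
    have e : Q⁻¹ = mapGL ℚ γ⁻¹ * Um ((-jj x : ℤ) : ℚ) := by
      rw [hQ, _root_.mul_inv_rev, Um_inv, map_inv]; push_cast; rfl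
    rw [e, Units.val_mul]
    intro i j
    rw [Matrix.mul_apply, Fin.sum_univ_two]
    exact (JA 1 1).add_mem (JA_mul (MInt_mapGL _ _ _) (MInt_Um_int _ _ _))
      (JA_mul (MInt_mapGL _ _ _) (MInt_Um_int _ _ _))
  refine ⟨P * Q⁻¹, mul_inv_mem_GamA hPd hQd hQi hcong, ?_⟩
  rw [← mul_smul, ← mul_smul, ← mul_smul, hmul, mul_smul, hrep_smul_infty]
  have : P * Q⁻¹ * Um (jj x : ℚ) * mapGL ℚ γ = P := by rw [hQ]; group
  rw [this, hP, mul_smul, Um_smul]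

end Hrep

section Bdry

variable {R : Type*} {A : Type*} [CommRing R] [AddCommGroup A] [Module R A]

variable (R A) in
/-- Boundary symbols: `b(xr,r) = 0` for all `x` in some principal congruence subgroup. -/
def Bdry : Submodule R (Symb R (OnePoint ℚ) A) where
  carrier := {b | ∃ M : ℕ, M ≠ 0 ∧ ∀ x ∈ GamA 1 M, ∀ r : OnePoint ℚ, b.1 (x • r) r = 0}
  zero_mem' := ⟨1, one_ne_zero, fun _ _ _ => rfl⟩
  add_mem' := by
    rintro b c ⟨M, hM, hb⟩ ⟨M', hM', hc⟩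
    refine ⟨M * M', mul_ne_zero hM hM', fun x hx r => ?_⟩
    show b.1 (x • r) r + c.1 (x • r) r = 0
    rw [hb x (GamA_mono (Dvd.intro _ rfl) hx), hc x (GamA_mono (Dvd.intro_left _ rfl) hx), add_zero]
  smul_mem' := by
    rintro c b ⟨M, hM, hb⟩
    refine ⟨M, hM, fun x hx r => ?_⟩
    show c • b.1 (x • r) r = 0
    rw [hb x hx, smul_zero]

lemma mem_Bdry {b : Symb R (OnePoint ℚ) A} : b ∈ Bdry R A ↔
    ∃ M : ℕ, M ≠ 0 ∧ ∀ x ∈ GamA 1 M, ∀ r : OnePoint ℚ, b.1 (x • r) r = 0 := Iff.rfl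

lemma slash_mem_Bdry {b : Symb R (OnePoint ℚ) A} (hb : b ∈ Bdry R A) (h : GL (Fin 2) ℚ) :
    slash h b ∈ Bdry R A := by
  obtain ⟨M, hM, hb⟩ := hb
  obtain ⟨M', hM', -, -, h'⟩ := conj_level (q := 1) (Or.inr rfl) h hM (Nat.coprime_one_left _)
  refine ⟨M', hM', fun x hx r => ?_⟩
  rw [slash_apply]
  have : h • x • r = (h * x * h⁻¹) • (h • r) := by
    rw [← mul_smul, ← mul_smul]; congr 1; group
  rw [this]
  exact hb _ (h' x hx) _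

lemma hT_mem_Bdry {b : Symb R (OnePoint ℚ) A} (hb : b ∈ Bdry R A) (ℓ : ℕ) :
    hT ℓ b ∈ Bdry R A := by
  rw [hT_apply]
  exact (Bdry R A).add_mem (Submodule.sum_mem _ fun j _ => slash_mem_Bdry hb _)
    (slash_mem_Bdry hb _)

lemma GamA_one_le {q M : ℕ} : GamA 1 M ≤ GamA q M := by
  have key : ∀ {x : ℚ}, x ∈ JA 1 M → x ∈ JA q M := by
    rintro x ⟨n, z, hz⟩
    refine ⟨0, z, ?_⟩
    simpa using hz
  rintro x ⟨h0, h1, h2, h3, h4⟩
  exact ⟨h0, key h1, key h2, key h3, key h4⟩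

/-- The germ attached to a symbol invariant under `Γ(N; ℤ[1/q])`. -/
lemma isGerm_of_symb {q N : ℕ} {m : Symb R (OnePoint ℚ) A} (hm : GamA q N ≤ stab m) :
    IsGerm q N (fun x => m.1 (x • OnePoint.infty) OnePoint.infty) := by
  refine ⟨fun x hx y hy => per_mul (Γ := GamA q N) hm hx _, fun x hx r hr => ?_⟩
  show m.1 (x • OnePoint.infty) OnePoint.infty = 0
  rw [per_indep (Γ := GamA q N) hm hx OnePoint.infty r, hr, Symb.self]

/-- `SL₂(ℚ)` acts trivially modulo boundary symbols on symbols invariant under a congruence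
subgroup of `SL₂(ℤ[1/q])`. -/
theorem slash_sub_mem_Bdry {q N : ℕ} (hq : q.Prime) (hN : N ≠ 0) (hc : Nat.Coprime q N)
    {m : Symb R (OnePoint ℚ) A} (hm : GamA q N ≤ stab m) {g : GL (Fin 2) ℚ} (hg : dt g = 1) :
    slash g m - m ∈ Bdry R A := by
  obtain ⟨M, hM, -, hNM, h⟩ := SL_le_KK (k := A) hq hg N _ hN hc (isGerm_of_symb hm)
  refine ⟨M, hM, fun x hx r => ?_⟩
  obtain ⟨h1, h2⟩ := h x (GamA_one_le hx)
  show m.1 (g • x • r) (g • r) - m.1 (x • r) r = 0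
  have e : g • x • r = (g * x * g⁻¹) • (g • r) := by
    rw [← mul_smul, ← mul_smul]; congr 1; group
  rw [e, per_indep (Γ := GamA q N) hm h1 (g • r) OnePoint.infty,
    per_indep (Γ := GamA q N) hm (GamA_mono hNM (GamA_one_le hx)) r OnePoint.infty]
  exact sub_eq_zero.mpr h2

/-- Two elements of `GL₂(ℚ)` of the same determinant act the same way modulo boundary symbols. -/
theorem slash_sub_slash_mem_Bdry {q N : ℕ} (hq : q.Prime) (hN : N ≠ 0) (hc : Nat.Coprime q N)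
    {m : Symb R (OnePoint ℚ) A} (hm : GamA q N ≤ stab m) {g h : GL (Fin 2) ℚ} (hg : dt g = dt h) :
    slash g m - slash h m ∈ Bdry R A := by
  have h1 : dt (g * h⁻¹) = 1 := by rw [dt_mul, dt_inv, hg, mul_inv_cancel₀ (dt_ne_zero h)]
  have h2 := slash_mem_Bdry (slash_sub_mem_Bdry hq hN hc hm h1) h
  rw [map_sub, ← slash_mul, inv_mul_cancel_right] at h2
  exact h2

lemma dt_hm {ℓ : ℕ} (hℓ : ℓ ≠ 0) (j : ℕ) : dt (hm ℓ j) = ℓ := by
  rw [hm_eq hℓ]; simp [dt]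

lemma dt_hd {ℓ : ℕ} (hℓ : ℓ ≠ 0) : dt (hd ℓ) = ℓ := by
  rw [hd_eq hℓ]; simp [dt]

/-- `T_ℓ² m ≡ (ℓ+1)² m` modulo boundary symbols. -/
theorem hT_hT_sub_mem_Bdry {q N : ℕ} (hq : q.Prime) (hN : N ≠ 0) (hc : Nat.Coprime q N)
    {m : Symb R (OnePoint ℚ) A} (hm : GamA q N ≤ stab m) {ℓ : ℕ} (hℓ : ℓ ≠ 0) :
    hT ℓ (hT ℓ m) - ((ℓ + 1) ^ 2) • m ∈ Bdry R A := by
  -- T m ≡ (ℓ+1) m|hd
  have h1 : hT ℓ m - (ℓ + 1) • slash (hd ℓ) m ∈ Bdry R A := by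
    rw [hT_apply]
    have : (∑ j ∈ Finset.range ℓ, slash (Fermat.Agent.H41.hm ℓ j) m) + slash (hd ℓ) m
        - (ℓ + 1) • slash (hd ℓ) m =
        ∑ j ∈ Finset.range ℓ, (slash (Fermat.Agent.H41.hm ℓ j) m - slash (hd ℓ) m) := by
      rw [Finset.sum_sub_distrib, Finset.sum_const, Finset.card_range, add_smul, one_smul]
      abel
    rw [this]
    exact Submodule.sum_mem _ fun j _ => slash_sub_slash_mem_Bdry hq hN hc hm
      (by rw [dt_hm hℓ, dt_hd hℓ])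
  -- scalar
  set sc : GL (Fin 2) ℚ := mk2 ℓ 0 0 ℓ (by simp [hℓ]) with hsc
  have hscd : dt sc = ℓ * ℓ := by simp [dt, hsc]
  have h2 : hT ℓ (slash (hd ℓ) m) - (ℓ + 1) • m ∈ Bdry R A := by
    rw [hT_apply]
    have hs : m = slash sc m := (slash_scalar _ _ (by simp [hsc]) (by simp [hsc])
      (by simp [hsc])).symm
    have e : (∑ j ∈ Finset.range ℓ, slash (Fermat.Agent.H41.hm ℓ j) (slash (hd ℓ) m))
        + slash (hd ℓ) (slash (hd ℓ) m) - (ℓ + 1) • slash sc m =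
        ∑ j ∈ Finset.range ℓ, (slash (hd ℓ * Fermat.Agent.H41.hm ℓ j) m - slash sc m)
        + (slash (hd ℓ * hd ℓ) m - slash sc m) := by
      rw [Finset.sum_sub_distrib, Finset.sum_const, Finset.card_range, add_smul, one_smul,
        slash_mul]
      simp only [slash_mul]
      abel
    have e2 : (∑ j ∈ Finset.range ℓ, slash (Fermat.Agent.H41.hm ℓ j) (slash (hd ℓ) m))
        + slash (hd ℓ) (slash (hd ℓ) m) - (ℓ + 1) • m =
        (∑ j ∈ Finset.range ℓ, slash (Fermat.Agent.H41.hm ℓ j) (slash (hd ℓ) m))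
        + slash (hd ℓ) (slash (hd ℓ) m) - (ℓ + 1) • slash sc m := by
      rw [← hs]
    rw [e2, e]
    refine (Bdry R A).add_mem (Submodule.sum_mem _ fun j _ => ?_) ?_
    · exact slash_sub_slash_mem_Bdry hq hN hc hm (by rw [dt_mul, dt_hm hℓ, dt_hd hℓ, hscd])
    · exact slash_sub_slash_mem_Bdry hq hN hc hm (by rw [dt_mul, dt_hd hℓ, hscd])
  have h3 := hT_mem_Bdry h1 ℓ
  rw [map_sub, map_nsmul] at h3
  have h4 := (Bdry R A).smul_mem ((ℓ + 1 : ℕ) : R) h2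
  have h5 := (Bdry R A).add_mem h3 h4
  rw [Nat.cast_smul_eq_nsmul, smul_sub, sub_add_sub_cancel, ← mul_smul, ← pow_two] at h5
  exact h5

/-- On boundary symbols invariant under `Γ₀(N)`, `T_ℓ = ℓ + 1` for `ℓ ≡ 1 mod M`. -/
theorem hT_of_bdry {b : Symb R (OnePoint ℚ) A} {N : ℕ} (hb : b ∈ inv R (OnePoint ℚ) A (G0 N))
    {M : ℕ} (hM : ∀ x ∈ GamA 1 M, ∀ r : OnePoint ℚ, b.1 (x • r) r = 0) {ℓ : ℕ} (hℓ : ℓ.Prime)
    (h1 : (M : ℤ) ∣ (ℓ : ℤ) - 1) : hT ℓ b = (ℓ + 1) • b := by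
  have : Fact ℓ.Prime := ⟨hℓ⟩
  have : NeZero ℓ := ⟨hℓ.ne_zero⟩
  have key : ∀ x : OnePoint (ZMod ℓ), slash (hrep ℓ x) b = b := by
    intro x
    ext r s
    rw [slash_apply]
    obtain ⟨y, hy, ey⟩ := hrep_smul_eq h1 x r
    obtain ⟨z, hz, ez⟩ := hrep_smul_eq h1 x s
    rw [ey, ez]
    have e1 : b.1 (y • Um (jj x : ℚ) • r) (z • Um (jj x : ℚ) • s) =
        b.1 (y • Um (jj x : ℚ) • r) (Um (jj x : ℚ) • r) + b.1 (Um (jj x : ℚ) • r) (Um (jj x : ℚ) • s)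
          - b.1 (z • Um (jj x : ℚ) • s) (Um (jj x : ℚ) • s) := by
      rw [b.2, Symb.symm b (z • Um (jj x : ℚ) • s) (Um (jj x : ℚ) • s), sub_neg_eq_add, b.2]
    rw [e1, hM y hy, hM z hz, zero_add, sub_zero]
    exact inv_apply hb (Um_int (N := N) (jj x)) r s
  rw [hT_eq_sum, Finset.sum_congr rfl (fun x _ => key x), Finset.sum_const, Finset.card_univ]
  congr 1
  have : Fintype.card (OnePoint (ZMod ℓ)) = Fintype.card (ZMod ℓ) + 1 := Fintype.card_option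
  rw [this, ZMod.card]

end Bdry

section Ihara

variable {R : Type*} {A : Type*} [CommRing R] [AddCommGroup A] [Module R A]

/-- If `m₁ + m₂|diag(q,1) = 0` then `m₁` is invariant under `Γ(N;ℤ[1/q])`. -/
theorem GamA_le_stab {q N : ℕ} (hq : q.Prime) (hc : Nat.Coprime q N)
    {m₁ m₂ : Symb R (OnePoint ℚ) A} (h₁ : m₁ ∈ inv R (OnePoint ℚ) A (G0 N))
    (h₂ : m₂ ∈ inv R (OnePoint ℚ) A (G0 N)) (h : m₁ + slash (hd q) m₂ = 0) :
    GamA q N ≤ stab m₁ := by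
  refine GamA_le_of hq hc (mem_inv_iff_le_stab.mp h₁) ?_
  intro g hg
  rw [mem_stab, eq_neg_of_add_eq_zero_left h, map_neg, ← slash_mul]
  have : hd q * ((hd q)⁻¹ * g * hd q) = g * hd q := by group
  rw [this, slash_mul, h₂ g hg]

/-- **Ihara's lemma** (eigenvector form): non-Eisenstein eigenvectors do not occur in the kernel
of `(m₁, m₂) ↦ m₁ + m₂|diag(q,1)`. -/
theorem ihara_eigen {F : Type*} [Field F] [Module F A] {q N : ℕ} (hq : q.Prime) (hN : N ≠ 0)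
    (hc : Nat.Coprime q N)
    {m₁ m₂ : Symb F (OnePoint ℚ) A} (h₁ : m₁ ∈ inv F (OnePoint ℚ) A (G0 N))
    (h₂ : m₂ ∈ inv F (OnePoint ℚ) A (G0 N)) (h : m₁ + slash (hd q) m₂ = 0)
    (S : Set ℕ) (hS : ∀ ℓ ∈ S, ℓ.Prime) (a : ℕ → F) (hT₁ : ∀ ℓ ∈ S, hT ℓ m₁ = a ℓ • m₁)
    (hNE1 : ∃ ℓ ∈ S, (a ℓ) ^ 2 ≠ ((ℓ : F) + 1) ^ 2)
    (hNE2 : ∀ M : ℕ, M ≠ 0 → ∃ ℓ ∈ S, (M : ℤ) ∣ (ℓ : ℤ) - 1 ∧ a ℓ ≠ (ℓ : F) + 1) :
    m₁ = 0 ∧ m₂ = 0 := by
  have hst := GamA_le_stab hq hc h₁ h₂ h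
  obtain ⟨ℓ, hℓS, hℓ⟩ := hNE1
  have hb := hT_hT_sub_mem_Bdry hq hN hc hst (hS ℓ hℓS).ne_zero
  rw [hT₁ ℓ hℓS, map_smul, hT₁ ℓ hℓS, ← mul_smul, ← Nat.cast_smul_eq_nsmul F, ← sub_smul] at hb
  have hb2 : m₁ ∈ Bdry F A := by
    have h3 : a ℓ * a ℓ - (((ℓ + 1) ^ 2 : ℕ) : F) ≠ 0 := by
      intro h4; apply hℓ; push_cast at h4; linear_combination h4
    exact (Submodule.smul_mem_iff _ h3).mp hb
  obtain ⟨M, hM, hbM⟩ := hb2
  obtain ⟨ℓ', hℓ'S, hℓ'M, hℓ'⟩ := hNE2 M hM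
  have h4 := hT_of_bdry h₁ hbM (hS ℓ' hℓ'S) hℓ'M
  rw [hT₁ ℓ' hℓ'S, ← Nat.cast_smul_eq_nsmul F] at h4
  have h4' : (a ℓ' - ((ℓ' + 1 : ℕ) : F)) • m₁ = 0 := by
    have h6 := sub_smul (a ℓ') (((ℓ' + 1 : ℕ)) : F) m₁
    rw [h4, sub_self] at h6
    exact h6
  have hm₁ : m₁ = 0 := by
    rcases smul_eq_zero.mp h4' with h5 | h5
    · exact absurd (by push_cast at h5; linear_combination h5) hℓ'
    · exact h5
  refine ⟨hm₁, ?_⟩
  rw [hm₁, zero_add] at h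
  have : m₂ = slash (hd q)⁻¹ (slash (hd q) m₂) := by rw [← slash_mul, mul_inv_cancel, slash_one]
  rw [this, h, map_zero]

end Ihara

end Fermat.Agent.H41
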