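import Mathlib
import Fermat.Agent.H41Bdry

/-!
# Manin's trick, finiteness of symbols, integral symbols span complex symbols (helper41)
-/

set_option autoImplicit false

namespace Fermat.Agent.H41

open Matrix Matrix.SpecialLinearGroup CongruenceSubgroup
open scoped MatrixGroups

/-- The two-variable function with values in an additive subgroup. -/
theorem manin {A : Type*} [AddCommGroup A] (m : OnePoint ℚ → OnePoint ℚ → A)
    (hm : ∀ x y z, m x y + m y z = m x z) (H : AddSubgroup A)
    (hH : ∀ g : SL(2, ℤ), m ((mapGL ℚ g : GL (Fin 2) ℚ) • OnePoint.infty)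
      ((mapGL ℚ g : GL (Fin 2) ℚ) • ((0 : ℚ) : OnePoint ℚ)) ∈ H) (x y : OnePoint ℚ) :
    m x y ∈ H := by
  have hself : ∀ x, m x x = 0 := by
    intro x
    have := hm x x x
    simpa using this
  have hsymm : ∀ x y, m x y = - m y x := by
    intro x y
    have := hm x y x
    rw [hself] at this
    exact eq_neg_of_add_eq_zero_left this
  let K : Subgroup SL(2, ℤ) :=
    { carrier := {k | ∀ g : SL(2, ℤ), m ((mapGL ℚ (g * k) : GL (Fin 2) ℚ) • OnePoint.infty)
        ((mapGL ℚ g : GL (Fin 2) ℚ) • OnePoint.infty) ∈ H}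
      one_mem' := by
        intro g
        rw [mul_one, hself]; exact H.zero_mem
      mul_mem' := by
        intro a b ha hb g
        rw [← hm _ ((mapGL ℚ (g * a) : GL (Fin 2) ℚ) • OnePoint.infty) _]
        refine H.add_mem ?_ (ha g)
        rw [← mul_assoc]
        exact hb (g * a)
      inv_mem' := by
        intro a ha g
        have h1 := ha (g * a⁻¹)
        rw [inv_mul_cancel_right] at h1
        rw [hsymm]
        exact H.neg_mem h1 }
  have hK : K = ⊤ := by
    rw [eq_top_iff, ← SpecialLinearGroup.SL2Z_generators, Subgroup.closure_le]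
    intro k hk
    simp only [Set.mem_insert_iff, Set.mem_singleton_iff] at hk
    rcases hk with rfl | rfl
    · intro g
      rw [map_mul, mul_smul]
      have : (mapGL ℚ ModularGroup.S : GL (Fin 2) ℚ) • (OnePoint.infty : OnePoint ℚ) =
          ((0 : ℚ) : OnePoint ℚ) := by
        rw [OnePoint.smul_infty_eq_ite]
        simp [ModularGroup.S]
      rw [this, hsymm]
      exact H.neg_mem (hH g)
    · intro g
      rw [map_mul, mul_smul]
      have : (mapGL ℚ ModularGroup.T : GL (Fin 2) ℚ) • (OnePoint.infty : OnePoint ℚ) =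
          OnePoint.infty := by
        rw [OnePoint.smul_infty_eq_self_iff]
        simp [ModularGroup.T]
      rw [this, hself]
      exact H.zero_mem
  have key : ∀ x : OnePoint ℚ, m x OnePoint.infty ∈ H := by
    intro x
    obtain ⟨g, rfl⟩ := OnePoint.exists_mem_SL2 ℤ x
    have h1 : g ∈ K := by rw [hK]; trivial
    have h2 := h1 1
    simpa using h2
  rw [← hm x OnePoint.infty y, hsymm OnePoint.infty y]
  exact H.add_mem (key x) (H.neg_mem (key y))

section Eval

variable {R : Type*} {A : Type*} [CommRing R] [AddCommGroup A] [Module R A]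

/-- values of a symbol at the Manin pairs -/
def manval (m : Symb R (OnePoint ℚ) A) (g : SL(2, ℤ)) : A :=
  m.1 ((mapGL ℚ g : GL (Fin 2) ℚ) • OnePoint.infty)
    ((mapGL ℚ g : GL (Fin 2) ℚ) • ((0 : ℚ) : OnePoint ℚ))

lemma manval_mul {N : ℕ} {m : Symb R (OnePoint ℚ) A} (hm : m ∈ inv R (OnePoint ℚ) A (G0 N))
    {γ : SL(2, ℤ)} (hγ : γ ∈ Gamma0 N) (g : SL(2, ℤ)) : manval m (γ * g) = manval m g := by
  unfold manval
  rw [map_mul, mul_smul, mul_smul]
  exact inv_apply hm (Subgroup.mem_map_of_mem _ hγ) _ _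

lemma manval_eq_of_mk_eq {N : ℕ} {m : Symb R (OnePoint ℚ) A}
    (hm : m ∈ inv R (OnePoint ℚ) A (G0 N)) {g h : SL(2, ℤ)}
    (h1 : (QuotientGroup.mk g : SL(2, ℤ) ⧸ Gamma0 N) = QuotientGroup.mk h) :
    manval m g⁻¹ = manval m h⁻¹ := by
  rw [QuotientGroup.eq] at h1
  have h2 : g⁻¹ = (g⁻¹ * h) * h⁻¹ := by group
  rw [h2, manval_mul hm h1]

variable (R A) in
/-- evaluation at the Manin pairs of coset representatives -/
noncomputable def manEv (N : ℕ) : inv R (OnePoint ℚ) A (G0 N) →ₗ[R] (SL(2, ℤ) ⧸ Gamma0 N → A) where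
  toFun m := fun x => manval m.1 (x.out)⁻¹
  map_add' m n := rfl
  map_smul' c m := rfl

lemma manEv_mk {N : ℕ} (m : inv R (OnePoint ℚ) A (G0 N)) (g : SL(2, ℤ)) :
    manEv R A N m (QuotientGroup.mk g) = manval m.1 g⁻¹ :=
  manval_eq_of_mk_eq m.2 (QuotientGroup.out_eq' _)

lemma manEv_injective (N : ℕ) : Function.Injective (manEv R A N) := by
  rw [injective_iff_map_eq_zero]
  intro m hm
  apply Subtype.ext
  ext x y
  have : m.1.1 x y ∈ (⊥ : AddSubgroup A) := by
    refine manin m.1.1 m.1.2 ⊥ (fun g => ?_) x y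
    have h1 := congrFun hm (QuotientGroup.mk g⁻¹)
    rw [manEv_mk, inv_inv] at h1
    rw [AddSubgroup.mem_bot]
    exact h1
  simpa using this

instance instFiniteInv (N : ℕ) [NeZero N] [IsNoetherianRing R] [Module.Finite R A] :
    Module.Finite R (inv R (OnePoint ℚ) A (G0 N)) := by
  have : Finite (SL(2, ℤ) ⧸ Gamma0 N) := Subgroup.finite_quotient_of_finiteIndex
  exact Module.Finite.of_injective (manEv R A N) (manEv_injective N)

end Eval

section Map

variable {G : Type*} [Group G] {X : Type*} [MulAction G X]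
variable {R R' A B : Type*} [CommRing R] [CommRing R'] [AddCommGroup A] [AddCommGroup B]
  [Module R A] [Module R' B]

variable (R R') in
/-- change of coefficients -/
def smap (f : A →+ B) : Symb R X A →+ Symb R' X B where
  toFun m := ⟨fun x y => f (m.1 x y), fun x y z => by rw [← map_add, m.2]⟩
  map_zero' := by ext x y; exact map_zero f
  map_add' m n := by ext x y; exact map_add f _ _

@[simp] lemma smap_apply (f : A →+ B) (m : Symb R X A) (x y : X) :
    (smap R R' f m).1 x y = f (m.1 x y) := rfl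

lemma smap_slash (f : A →+ B) (g : G) (m : Symb R X A) :
    smap R R' f (slash g m) = slash g (smap R R' f m) := rfl

lemma smap_mem_inv (f : A →+ B) {Γ : Subgroup G} {m : Symb R X A} (hm : m ∈ inv R X A Γ) :
    smap R R' f m ∈ inv R' X B Γ := by
  intro g hg
  rw [← smap_slash, hm g hg]

end Map

section MapHecke

variable {X : Type*} [MulAction (GL (Fin 2) ℚ) X]
variable {R R' A B : Type*} [CommRing R] [CommRing R'] [AddCommGroup A] [AddCommGroup B]
  [Module R A] [Module R' B]

lemma smap_hU (f : A →+ B) (ℓ : ℕ) (m : Symb R X A) :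
    smap R R' f (hU ℓ m) = hU ℓ (smap R R' f m) := by
  rw [hU_apply, hU_apply, map_sum]
  rfl

lemma smap_hT (f : A →+ B) (ℓ : ℕ) (m : Symb R X A) :
    smap R R' f (hT ℓ m) = hT ℓ (smap R R' f m) := by
  rw [hT_apply, hT_apply, map_add, map_sum]
  rfl

lemma smap_tr (f : A →+ B) (N q : ℕ) [NeZero q] (m : Symb R X A) :
    smap R R' f (tr N q m) = tr N q (smap R R' f m) := by
  rw [tr_apply, tr_apply, map_sum]
  rfl

omit [MulAction (GL (Fin 2) ℚ) X] in
lemma smap_injective {f : A →+ B} (hf : Function.Injective f) :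
    Function.Injective (smap R R' (X := X) f) := by
  intro m n h
  ext x y
  apply hf
  have := congrArg (fun s : Symb R' X B => s.1 x y) h
  simpa using this

end MapHecke

section Span

/-- the inclusion of integral symbols in complex symbols -/
def toC {X : Type*} : Symb ℤ X ℤ →+ Symb ℂ X ℂ := smap ℤ ℂ (Int.castAddHom ℂ)

lemma toC_injective {X : Type*} : Function.Injective (toC (X := X)) :=
  smap_injective Int.cast_injective

/-- Invariant complex symbols are spanned by invariant integral symbols. -/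
theorem mem_span_toC {N : ℕ} [NeZero N] {m : Symb ℂ (OnePoint ℚ) ℂ}
    (hm : m ∈ inv ℂ (OnePoint ℚ) ℂ (G0 N)) :
    m ∈ Submodule.span ℂ ((fun n => toC n) '' (inv ℤ (OnePoint ℚ) ℤ (G0 N) :
      Set (Symb ℤ (OnePoint ℚ) ℤ))) := by
  classical
  have hfin : Finite (SL(2, ℤ) ⧸ Gamma0 N) := Subgroup.finite_quotient_of_finiteIndex
  let H : Submodule ℤ ℂ := Submodule.span ℤ (Set.range (manEv ℂ ℂ N ⟨m, hm⟩))
  have hHfin : Module.Finite ℤ H := Module.Finite.span_of_finite ℤ (Set.finite_range _)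
  have hHfree : Module.Free ℤ H := inferInstance
  have hmH : ∀ x y, m.1 x y ∈ H := by
    intro x y
    refine manin m.1 m.2 H.toAddSubgroup (fun g => ?_) x y
    have : manval m g ∈ H := by
      apply Submodule.subset_span
      exact ⟨QuotientGroup.mk g⁻¹, by rw [manEv_mk, inv_inv]⟩
    exact this
  let b := Module.Free.chooseBasis ℤ H
  let c : Module.Free.ChooseBasisIndex ℤ H → Symb ℤ (OnePoint ℚ) ℤ := fun i =>
    ⟨fun x y => b.repr ⟨m.1 x y, hmH x y⟩ i, fun x y z => by
      have : (⟨m.1 x y, hmH x y⟩ : H) + ⟨m.1 y z, hmH y z⟩ = ⟨m.1 x z, hmH x z⟩ :=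
        Subtype.ext (m.2 x y z)
      show b.repr ⟨m.1 x y, hmH x y⟩ i + b.repr ⟨m.1 y z, hmH y z⟩ i =
        b.repr ⟨m.1 x z, hmH x z⟩ i
      rw [← this, map_add]; rfl⟩
  have hc : ∀ i, c i ∈ inv ℤ (OnePoint ℚ) ℤ (G0 N) := by
    intro i g hg
    ext x y
    show b.repr ⟨m.1 (g • x) (g • y), _⟩ i = b.repr ⟨m.1 x y, _⟩ i
    congr 3
    exact inv_apply hm hg x y
  have hsum : m = ∑ i, (b i : ℂ) • toC (c i) := by
    ext x y
    have h1 := congrArg (Subtype.val) (b.sum_repr ⟨m.1 x y, hmH x y⟩)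
    refine Eq.trans (show m.1 x y = _ from h1.symm) ?_
    rw [AddSubmonoidClass.coe_finsetSum, AddSubmonoidClass.coe_finsetSum, Finset.sum_apply,
      Finset.sum_apply]
    refine Finset.sum_congr rfl fun i _ => ?_
    show ((b.repr ⟨m.1 x y, hmH x y⟩ i • b i : H) : ℂ) = (b i : ℂ) *
      ((b.repr ⟨m.1 x y, hmH x y⟩ i : ℤ) : ℂ)
    rw [Submodule.coe_smul, zsmul_eq_mul, mul_comm]
  rw [hsum]
  exact Submodule.sum_mem _ fun i _ => Submodule.smul_mem _ _
    (Submodule.subset_span ⟨c i, hc i, rfl⟩)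

end Span

end Fermat.Agent.H41
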