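import Mathlib
import Fermat.Agent.H41Trace

/-!
# Commutation relations for Hecke, trace and Atkin–Lehner operators on symbols (S41 [COMM])
-/

set_option autoImplicit false

namespace Fermat.Agent.H61.Comm

open Fermat.Agent.H41 Matrix Matrix.SpecialLinearGroup
open scoped MatrixGroups

variable {R : Type*} {X : Type*} {A : Type*}
  [CommRing R] [AddCommGroup A] [Module R A] [MulAction (GL (Fin 2) ℚ) X]

/-- Invariance under integral translations. -/
def TInv (m : Symb R X A) : Prop :=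
  ∀ b : ℤ, slash (mapGL ℚ (sl 1 b 0 1 (by ring)) : GL (Fin 2) ℚ) m = m

theorem tinv_of_mem {N : ℕ} {m : Symb R X A} (hm : m ∈ inv R X A (G0 N)) : TInv m :=
  fun b => hm _ (mapGL_mem_G0 (by simp))

theorem ne0 {n : ℕ} (hn : n ≠ 0) : (n : ℚ) ≠ 0 := by exact_mod_cast hn

/-! ### Products of upper triangular Hecke matrices -/

theorem hm_mul_hm {r s : ℕ} (hr : r ≠ 0) (hs : s ≠ 0) (i j : ℕ) :
    hm r i * hm s j = hm (r * s) (j + s * i) := by
  rw [hm_eq hr, hm_eq hs, hm_eq (Nat.mul_ne_zero hr hs)]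
  apply gl_ext
  · rw [mul_00]; simp
  · rw [mul_01]; simp only [mk2_00, mk2_01, mk2_11]; push_cast; ring
  · rw [mul_10]; simp
  · rw [mul_11]; simp

theorem sum_range_mul {M : Type*} [AddCommMonoid M] (r s : ℕ) (F : ℕ → M) :
    ∑ i ∈ Finset.range r, ∑ j ∈ Finset.range s, F (j + s * i) = ∑ k ∈ Finset.range (r * s), F k := by
  rcases Nat.eq_zero_or_pos s with rfl | hs
  · simp
  rw [← Finset.sum_product']
  refine Finset.sum_nbij' (fun x => x.2 + s * x.1) (fun k => (k / s, k % s)) ?_ ?_ ?_ ?_ ?_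
  · rintro ⟨i, j⟩ h
    simp only [Finset.mem_product, Finset.mem_range] at h ⊢
    calc j + s * i < s + s * i := by omega
      _ = s * (i + 1) := by ring
      _ ≤ s * r := Nat.mul_le_mul_left s h.1
      _ = r * s := mul_comm _ _
  · intro k hk
    simp only [Finset.mem_product, Finset.mem_range] at hk ⊢
    exact ⟨(Nat.div_lt_iff_lt_mul hs).mpr hk, Nat.mod_lt _ hs⟩
  · rintro ⟨i, j⟩ h
    simp only [Finset.mem_product, Finset.mem_range] at h
    simp only [Prod.mk.injEq]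
    constructor
    · rw [Nat.add_mul_div_left _ _ hs, Nat.div_eq_of_lt h.2, zero_add]
    · rw [Nat.add_mul_mod_self_left, Nat.mod_eq_of_lt h.2]
  · intro k _
    exact Nat.mod_add_div k s
  · rintro ⟨i, j⟩ _
    rfl

/-- `U_r U_s = U_{rs}`. -/
theorem hU_hU {r s : ℕ} (hr : r ≠ 0) (hs : s ≠ 0) (m : Symb R X A) :
    hU r (hU s m) = hU (s * r) m := by
  rw [hU_apply, hU_apply, hU_apply]
  simp only [map_sum, ← slash_mul, hm_mul_hm hs hr]
  rw [Finset.sum_comm]
  exact sum_range_mul s r fun k => slash (hm (s * r) k) m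

theorem hU_hU_comm {r s : ℕ} (hr : r ≠ 0) (hs : s ≠ 0) (m : Symb R X A) :
    hU r (hU s m) = hU s (hU r m) := by
  rw [hU_hU hr hs, hU_hU hs hr, mul_comm]

/-- A translation-invariant symbol, slashed with `[a, b; 0, d]`, depends only on `b mod d`. -/
theorem slash_upper_congr {m : Symb R X A} (hm : TInv m) {a b b' d : ℤ}
    (h : (a : ℚ) * d - b * 0 ≠ 0) (h' : (a : ℚ) * d - b' * 0 ≠ 0) (hbb : d ∣ b - b') :
    slash (mk2 a b 0 d h) m = slash (mk2 a b' 0 d h') m := by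
  obtain ⟨e, he⟩ := hbb
  have heq : mk2 (a : ℚ) b 0 d h = (mapGL ℚ (sl 1 e 0 1 (by ring)) : GL (Fin 2) ℚ) *
      mk2 a b' 0 d h' := by
    have he' : (b : ℚ) - b' = d * e := by exact_mod_cast congrArg (Int.cast : ℤ → ℚ) he
    apply gl_ext
    · rw [mul_00]; simp only [mapGL_apply, sl_00, sl_01, mk2_00, mk2_10]; push_cast; ring
    · rw [mul_01]; simp only [mapGL_apply, sl_00, sl_01, mk2_01, mk2_11]; push_cast
      linear_combination he'
    · rw [mul_10]; simp only [mapGL_apply, sl_10, sl_11, mk2_00, mk2_10]; push_cast; ring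
    · rw [mul_11]; simp only [mapGL_apply, sl_10, sl_11, mk2_01, mk2_11]; push_cast; ring
  rw [heq, slash_mul, hm e]

/-- `U_r (m|δ_q) = (U_r m)|δ_q` for coprime `r`, `q`. -/
theorem hU_slash_hd {r q : ℕ} (hr : r ≠ 0) (hq : q ≠ 0) (hrq : Nat.Coprime r q)
    {m : Symb R X A} (hm : TInv m) :
    hU r (slash (hd q) m) = slash (hd q) (hU r m) := by
  have : NeZero r := ⟨hr⟩
  rw [hU_apply, hU_apply, map_sum, sum_range_eq_sum_zmod, sum_range_eq_sum_zmod]
  simp only [← slash_mul]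
  have hqr : IsUnit (q : ZMod r) := (ZMod.isUnit_iff_coprime q r).mpr hrq.symm
  let σ : Equiv.Perm (ZMod r) := hqr.unit.mulLeft
  rw [← Equiv.sum_comp σ (fun x : ZMod r => slash (Fermat.Agent.H41.hm r x.val * hd q) m)]
  refine Finset.sum_congr rfl fun x _ => ?_
  have hq' := ne0 hq
  have hr' := ne0 hr
  have e1 : hd q * Fermat.Agent.H41.hm r x.val = mk2 (q : ℤ) (q * x.val : ℤ) 0 (r : ℤ)
      (by push_cast; simp [hq', hr']) := by
    rw [hd_eq hq, hm_eq hr]
    apply gl_ext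
    · rw [mul_00]; simp
    · rw [mul_01]; simp
    · rw [mul_10]; simp
    · rw [mul_11]; simp
  have e2 : Fermat.Agent.H41.hm r (σ x).val * hd q = mk2 (q : ℤ) ((σ x).val : ℤ) 0 (r : ℤ)
      (by push_cast; simp [hq', hr']) := by
    rw [hd_eq hq, hm_eq hr]
    apply gl_ext
    · rw [mul_00]; simp
    · rw [mul_01]; simp
    · rw [mul_10]; simp
    · rw [mul_11]; simp
  rw [e1, e2]
  refine slash_upper_congr hm _ _ ?_
  rw [← ZMod.intCast_zmod_eq_zero_iff_dvd]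
  push_cast
  rw [ZMod.natCast_zmod_val, ZMod.natCast_zmod_val]
  simp [σ]

theorem hd_mul_hd {r s : ℕ} (hr : r ≠ 0) (hs : s ≠ 0) : hd r * hd s = hd s * hd r := by
  rw [hd_eq hr, hd_eq hs]
  apply gl_ext
  · rw [mul_00, mul_00]; simp; ring
  · rw [mul_01, mul_01]; simp
  · rw [mul_10, mul_10]; simp
  · rw [mul_11, mul_11]; simp

theorem hT_eq (ℓ : ℕ) (m : Symb R X A) : hT ℓ m = hU ℓ m + slash (hd ℓ) m := rfl

/-- `T_ℓ (m|δ_q) = (T_ℓ m)|δ_q`. -/
theorem hT_slash_hd {ℓ q : ℕ} (hℓ : ℓ ≠ 0) (hq : q ≠ 0) (hℓq : Nat.Coprime ℓ q)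
    {m : Symb R X A} (hm : TInv m) :
    hT ℓ (slash (hd q) m) = slash (hd q) (hT ℓ m) := by
  rw [hT_eq, hT_eq, hU_slash_hd hℓ hq hℓq hm, map_add, ← slash_mul, ← slash_mul, hd_mul_hd hℓ hq]

/-- `T_ℓ T_ℓ' = T_ℓ' T_ℓ`. -/
theorem hT_hT_comm {ℓ ℓ' : ℕ} (hℓ : ℓ ≠ 0) (hℓ' : ℓ' ≠ 0) (h : Nat.Coprime ℓ ℓ')
    {m : Symb R X A} (hm : TInv m) :
    hT ℓ (hT ℓ' m) = hT ℓ' (hT ℓ m) := by
  simp only [hT_eq, map_add]
  rw [hU_hU_comm hℓ hℓ' m, hU_slash_hd hℓ hℓ' h hm, hU_slash_hd hℓ' hℓ h.symm hm,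
    ← slash_mul, ← slash_mul, hd_mul_hd hℓ hℓ']
  abel

/-- `T_ℓ U_r = U_r T_ℓ`. -/
theorem hT_hU_comm {ℓ r : ℕ} (hℓ : ℓ ≠ 0) (hr : r ≠ 0) (h : Nat.Coprime ℓ r)
    {m : Symb R X A} (hm : TInv m) :
    hT ℓ (hU r m) = hU r (hT ℓ m) := by
  rw [hT_eq, hT_eq, map_add, hU_hU_comm hℓ hr m, hU_slash_hd hr hℓ h.symm hm]

/-! ### Systems of representatives -/

/-- Integral matrices of determinant `r` with lower left entry divisible by `N`. -/
def IntMat (N : ℕ) (r : ℤ) (M : GL (Fin 2) ℚ) : Prop :=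
  ∃ a b c d : ℤ, M 0 0 = a ∧ M 0 1 = b ∧ M 1 0 = c ∧ M 1 1 = d ∧ a * d - b * c = r ∧ (N : ℤ) ∣ c

theorem exists_hm_of_dvd {N : ℕ} {p : ℕ} (hp : p ≠ 0) {M : GL (Fin 2) ℚ} {a b c d : ℤ}
    (h00 : M 0 0 = a) (h01 : M 0 1 = b) (h10 : M 1 0 = c) (h11 : M 1 1 = d)
    (hdet : a * d - b * c = p) (hN : (N : ℤ) ∣ c) {j : ℕ} (h1 : (p : ℤ) ∣ b - a * j)
    (h2 : (p : ℤ) ∣ d - c * j) : ∃ γ ∈ G0 N, M = γ * Fermat.Agent.H41.hm p j := by
  obtain ⟨e, he⟩ := h1
  obtain ⟨f, hf⟩ := h2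
  have hp' : (p : ℤ) ≠ 0 := by exact_mod_cast hp
  have hd : a * f - e * c = 1 := by
    apply mul_left_cancel₀ hp'
    linear_combination hdet - a * hf + c * he
  refine ⟨mapGL ℚ (sl a e c f hd), mapGL_mem_G0 (by rw [sl_10]; exact hN), ?_⟩
  have he' : (b : ℚ) - a * j = p * e := by exact_mod_cast congrArg (Int.cast : ℤ → ℚ) he
  have hf' : (d : ℚ) - c * j = p * f := by exact_mod_cast congrArg (Int.cast : ℤ → ℚ) hf
  rw [hm_eq hp]
  apply gl_ext
  · rw [mul_00, h00]; simp only [mapGL_apply, sl_00, sl_01, mk2_00, mk2_10]; ring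
  · rw [mul_01, h01]; simp only [mapGL_apply, sl_00, sl_01, mk2_01, mk2_11]
    linear_combination he'
  · rw [mul_10, h10]; simp only [mapGL_apply, sl_10, sl_11, mk2_00, mk2_10]; ring
  · rw [mul_11, h11]; simp only [mapGL_apply, sl_10, sl_11, mk2_01, mk2_11]
    linear_combination hf'

/-- Decomposition of integral matrices of prime determinant `ℓ ∤ N`. -/
theorem exists_hrep {N : ℕ} {p : ℕ} [hpf : Fact p.Prime] (hpN : ¬ p ∣ N) {M : GL (Fin 2) ℚ}
    (hM : IntMat N p M) : ∃ x : OnePoint (ZMod p), ∃ γ ∈ G0 N, M = γ * hrep p x := by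
  obtain ⟨a, b, c, d, h00, h01, h10, h11, hdet, hN⟩ := hM
  have hp : p ≠ 0 := hpf.out.ne_zero
  have hp' : (p : ℤ) ≠ 0 := by exact_mod_cast hp
  have hdetp : (a : ZMod p) * d - b * c = 0 := by
    have := congrArg (Int.cast : ℤ → ZMod p) hdet
    push_cast at this
    rwa [ZMod.natCast_self] at this
  have fin : ∀ j : ZMod p, (b : ZMod p) = a * j → (d : ZMod p) = c * j →
      ∃ x : OnePoint (ZMod p), ∃ γ ∈ G0 N, M = γ * hrep p x := by
    intro j hb hd
    obtain ⟨γ, hγ, h⟩ := exists_hm_of_dvd (j := j.val) hp h00 h01 h10 h11 hdet hN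
      (by rw [← ZMod.intCast_zmod_eq_zero_iff_dvd]; push_cast
          rw [ZMod.natCast_zmod_val, hb, sub_self])
      (by rw [← ZMod.intCast_zmod_eq_zero_iff_dvd]; push_cast
          rw [ZMod.natCast_zmod_val, hd, sub_self])
    exact ⟨(j : OnePoint (ZMod p)), γ, hγ, by rw [hrep_coe]; exact h⟩
  by_cases ha : (a : ZMod p) = 0
  · by_cases hc : (c : ZMod p) = 0
    · -- the point at infinity
      obtain ⟨a', ha'⟩ := (ZMod.intCast_zmod_eq_zero_iff_dvd _ _).mp ha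
      obtain ⟨c', hc'⟩ := (ZMod.intCast_zmod_eq_zero_iff_dvd _ _).mp hc
      have hcop : IsCoprime (N : ℤ) (p : ℤ) :=
        Nat.isCoprime_iff_coprime.mpr ((Nat.Prime.coprime_iff_not_dvd Fact.out).mpr hpN).symm
      refine ⟨OnePoint.infty, _, mapGL_mem_G0 (g := sl a' b c' d ?_) ?_, ?_⟩
      · apply mul_left_cancel₀ hp'
        linear_combination hdet - d * ha' + b * hc'
      · rw [sl_10]
        exact hcop.dvd_of_dvd_mul_left (hc' ▸ hN)
      · have ha'' : (a : ℚ) = p * a' := by exact_mod_cast congrArg (Int.cast : ℤ → ℚ) ha'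
        have hc'' : (c : ℚ) = p * c' := by exact_mod_cast congrArg (Int.cast : ℤ → ℚ) hc'
        rw [hrep_infty, hd_eq hp]
        apply gl_ext
        · rw [mul_00, h00]; simp only [mapGL_apply, sl_00, sl_01, mk2_00, mk2_10]
          linear_combination ha''
        · rw [mul_01, h01]; simp only [mapGL_apply, sl_00, sl_01, mk2_01, mk2_11]; ring
        · rw [mul_10, h10]; simp only [mapGL_apply, sl_10, sl_11, mk2_00, mk2_10]
          linear_combination hc''
        · rw [mul_11, h11]; simp only [mapGL_apply, sl_10, sl_11, mk2_01, mk2_11]; ring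
    · refine fin (d / c) ?_ ?_
      · rw [ha, zero_mul]
        rw [ha, zero_mul, zero_sub, neg_eq_zero, mul_eq_zero] at hdetp
        exact hdetp.resolve_right hc
      · field_simp
  · refine fin (b / a) ?_ ?_
    · field_simp
    · field_simp
      linear_combination hdetp

/-- Decomposition of integral matrices of prime determinant `r ∣ N`. -/
theorem exists_hm {N : ℕ} {p : ℕ} [hpf : Fact p.Prime] {M : GL (Fin 2) ℚ}
    (hM : IntMat N p M) (ha : ∀ a : ℤ, M 0 0 = a → ¬ (p : ℤ) ∣ a) :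
    ∃ x : ZMod p, ∃ γ ∈ G0 N, M = γ * Fermat.Agent.H41.hm p x.val := by
  obtain ⟨a, b, c, d, h00, h01, h10, h11, hdet, hN⟩ := hM
  have hp : p ≠ 0 := hpf.out.ne_zero
  have hdetp : (a : ZMod p) * d - b * c = 0 := by
    have := congrArg (Int.cast : ℤ → ZMod p) hdet
    push_cast at this
    rwa [ZMod.natCast_self] at this
  have ha' : (a : ZMod p) ≠ 0 := fun h =>
    ha a h00 ((ZMod.intCast_zmod_eq_zero_iff_dvd _ _).mp h)
  obtain ⟨γ, hγ, h⟩ := exists_hm_of_dvd (j := ((b : ZMod p) / a).val) hp h00 h01 h10 h11 hdet hN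
      (by rw [← ZMod.intCast_zmod_eq_zero_iff_dvd]; push_cast
          rw [ZMod.natCast_zmod_val]; field_simp; ring)
      (by rw [← ZMod.intCast_zmod_eq_zero_iff_dvd]; push_cast
          rw [ZMod.natCast_zmod_val]; field_simp; linear_combination hdetp)
  exact ⟨_, γ, hγ, h⟩

/-- Any system of representatives computes `T_ℓ`. -/
theorem hT_eq_of_reps {N : ℕ} {ℓ : ℕ} [hℓ : Fact ℓ.Prime] (hℓN : ¬ ℓ ∣ N) {m : Symb R X A}
    (hm : m ∈ inv R X A (G0 N)) (M : OnePoint (ZMod ℓ) → GL (Fin 2) ℚ)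
    (hM : ∀ i, IntMat N ℓ (M i)) (hinj : ∀ i j, M i * (M j)⁻¹ ∈ G0 N → i = j) :
    hT ℓ m = ∑ i, slash (M i) m := by
  choose x γ hγ hx using fun i => exists_hrep hℓN (hM i)
  have hxinj : Function.Injective x := by
    intro i j hij
    apply hinj
    rw [hx i, hx j, hij]
    have : γ i * hrep ℓ (x j) * (γ j * hrep ℓ (x j))⁻¹ = γ i * (γ j)⁻¹ := by group
    rw [this]
    exact mul_mem (hγ i) (inv_mem (hγ j))
  have hbij : Function.Bijective x := (Fintype.bijective_iff_injective_and_card x).mpr ⟨hxinj, rfl⟩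
  rw [hT_eq_sum, ← hbij.sum_comp]
  refine Finset.sum_congr rfl fun i _ => ?_
  rw [hx i, slash_mul, hm _ (hγ i)]

/-- Any system of representatives computes `U_r`, `r ∣ N`. -/
theorem hU_eq_of_reps {N : ℕ} {r : ℕ} [hr : Fact r.Prime] {m : Symb R X A}
    (hm : m ∈ inv R X A (G0 N)) (M : ZMod r → GL (Fin 2) ℚ)
    (hM : ∀ i, IntMat N r (M i)) (ha : ∀ i, ∀ a : ℤ, M i 0 0 = a → ¬ (r : ℤ) ∣ a)
    (hinj : ∀ i j, M i * (M j)⁻¹ ∈ G0 N → i = j) :
    hU r m = ∑ i, slash (M i) m := by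
  choose x γ hγ hx using fun i => exists_hm (hM i) (ha i)
  have hxinj : Function.Injective x := by
    intro i j hij
    apply hinj
    rw [hx i, hx j, hij]
    have : γ i * Fermat.Agent.H41.hm r (x j).val * (γ j * Fermat.Agent.H41.hm r (x j).val)⁻¹ =
      γ i * (γ j)⁻¹ := by group
    rw [this]
    exact mul_mem (hγ i) (inv_mem (hγ j))
  have hbij : Function.Bijective x := (Fintype.bijective_iff_injective_and_card x).mpr ⟨hxinj, rfl⟩
  rw [hU_apply, sum_range_eq_sum_zmod, ← hbij.sum_comp]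
  refine Finset.sum_congr rfl fun i _ => ?_
  rw [hx i, slash_mul, hm _ (hγ i)]

/-- Inequivalence of the standard representatives. -/
theorem hrep_inj {N ℓ : ℕ} [hℓ : Fact ℓ.Prime] {x y : OnePoint (ZMod ℓ)}
    (h : hrep ℓ x * (hrep ℓ y)⁻¹ ∈ G0 N) : x = y := by
  have hp : ℓ ≠ 0 := hℓ.out.ne_zero
  have hp' := ne0 hp
  obtain ⟨g, -, hg⟩ := mem_G0.mp h
  have hg' : hrep ℓ x = mapGL ℚ g * hrep ℓ y := by rw [hg]; group
  have hnd : ¬ (ℓ : ℤ) ∣ 1 := by
    intro h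
    have := Int.le_of_dvd one_pos h
    have := hℓ.out.one_lt
    omega
  -- compare columns
  have e00 := congrArg (fun M : GL (Fin 2) ℚ => M 0 0) hg'
  have e01 := congrArg (fun M : GL (Fin 2) ℚ => M 0 1) hg'
  have e10 := congrArg (fun M : GL (Fin 2) ℚ => M 1 0) hg'
  have e11 := congrArg (fun M : GL (Fin 2) ℚ => M 1 1) hg'
  simp only [mul_00, mul_01, mul_10, mul_11, mapGL_apply] at e00 e01 e10 e11
  have hdet := sl_det g
  induction x using OnePoint.rec with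
  | infty =>
    induction y using OnePoint.rec with
    | infty => rfl
    | coe j =>
      exfalso
      rw [hrep_infty, hrep_coe, hd_eq hp, hm_eq hp] at e00 e01 e10 e11
      simp only [mk2_00, mk2_01, mk2_10, mk2_11] at e00 e01 e10 e11
      have h1 : g 0 0 = ℓ := by
        have : (ℓ : ℚ) = g 0 0 := by linear_combination e00
        exact_mod_cast this.symm
      have h2 : g 1 0 = 0 := by
        have : (0 : ℚ) = g 1 0 := by linear_combination e10
        exact_mod_cast this.symm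
      rw [h1, h2] at hdet
      exact hnd ⟨g 1 1, by linear_combination -hdet⟩
  | coe i =>
    induction y using OnePoint.rec with
    | infty =>
      exfalso
      rw [hrep_infty, hrep_coe, hd_eq hp, hm_eq hp] at e00 e01 e10 e11
      simp only [mk2_00, mk2_01, mk2_10, mk2_11] at e00 e01 e10 e11
      apply hnd
      refine ⟨g 0 0, ?_⟩
      have : (1 : ℚ) = ℓ * g 0 0 := by linear_combination e00
      exact_mod_cast this
    | coe j =>
      rw [hrep_coe, hrep_coe, hm_eq hp, hm_eq hp] at e00 e01 e10 e11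
      simp only [mk2_00, mk2_01, mk2_10, mk2_11] at e00 e01 e10 e11
      have h1 : g 0 0 = 1 := by
        have : (1 : ℚ) = g 0 0 := by linear_combination e00
        exact_mod_cast this.symm
      have h2 : (i.val : ℤ) = j.val + ℓ * g 0 1 := by
        have : (i.val : ℚ) = j.val + ℓ * g 0 1 := by
          rw [e01, h1]; push_cast; ring
        exact_mod_cast this
      have h3 := congrArg (Int.cast : ℤ → ZMod ℓ) h2
      push_cast at h3
      rw [ZMod.natCast_zmod_val, ZMod.natCast_zmod_val, ZMod.natCast_self, zero_mul,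
        add_zero] at h3
      rw [h3]

/-! ### Conjugation by the Atkin–Lehner matrix -/

theorem hT_conj {N ℓ : ℕ} [hℓ : Fact ℓ.Prime] (hℓN : ¬ ℓ ∣ N) {m : Symb R X A}
    (hm : m ∈ inv R X A (G0 N)) (δ : GL (Fin 2) ℚ)
    (h1 : ∀ i, IntMat N ℓ (δ * hrep ℓ i * δ⁻¹))
    (h2 : ∀ g, δ * g * δ⁻¹ ∈ G0 N → g ∈ G0 N) :
    hT ℓ (slash δ m) = slash δ (hT ℓ m) := by
  rw [hT_eq_of_reps hℓN hm (fun i => δ * hrep ℓ i * δ⁻¹) h1, hT_eq_sum, map_sum]
  · refine Finset.sum_congr rfl fun i _ => ?_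
    rw [← slash_mul, ← slash_mul, inv_mul_cancel_right]
  · intro i j hij
    have : δ * hrep ℓ i * δ⁻¹ * (δ * hrep ℓ j * δ⁻¹)⁻¹ = δ * (hrep ℓ i * (hrep ℓ j)⁻¹) * δ⁻¹ := by
      group
    rw [this] at hij
    exact hrep_inj (h2 _ hij)

theorem hU_conj {N r : ℕ} [hr : Fact r.Prime] {m : Symb R X A}
    (hm : m ∈ inv R X A (G0 N)) (δ : GL (Fin 2) ℚ)
    (h1 : ∀ i : ZMod r, IntMat N r (δ * Fermat.Agent.H41.hm r i.val * δ⁻¹))
    (ha : ∀ i : ZMod r, ∀ a : ℤ, (δ * Fermat.Agent.H41.hm r i.val * δ⁻¹) 0 0 = a → ¬ (r : ℤ) ∣ a)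
    (h2 : ∀ g, δ * g * δ⁻¹ ∈ G0 N → g ∈ G0 N) :
    hU r (slash δ m) = slash δ (hU r m) := by
  rw [hU_eq_of_reps hm (fun i => δ * Fermat.Agent.H41.hm r i.val * δ⁻¹) h1 ha, hU_apply,
    sum_range_eq_sum_zmod, map_sum]
  · refine Finset.sum_congr rfl fun i _ => ?_
    rw [← slash_mul, ← slash_mul, inv_mul_cancel_right]
  · intro i j hij
    have : δ * Fermat.Agent.H41.hm r i.val * δ⁻¹ * (δ * Fermat.Agent.H41.hm r j.val * δ⁻¹)⁻¹ =
      δ * (Fermat.Agent.H41.hm r i.val * (Fermat.Agent.H41.hm r j.val)⁻¹) * δ⁻¹ := by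
      group
    rw [this] at hij
    have h3 := h2 _ hij
    have h4 : hrep r (i : OnePoint (ZMod r)) * (hrep r (j : OnePoint (ZMod r)))⁻¹ ∈ G0 N := by
      rw [hrep_coe, hrep_coe]; exact h3
    exact OnePoint.coe_injective (hrep_inj h4)

section AL

variable {N q : ℕ}

theorem alW_det_aux (h : Nat.Coprime q N) (a b d : ℤ) :
    (q * a * bw N q - (q * b + d) * N * bz N q) *
        (-(N * bz N q * a) + N * q * bz N q * b + q * bw N q * d) -
      (-a + q * b + d) * (N * q * bz N q * (a * bw N q - N * bz N q * b - bw N q * d)) = a * d := by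
  linear_combination (a * d * (q * bw N q - N * bz N q + 1)) * bezout h

/-- Conjugating an upper triangular integral matrix by `W`. -/
theorem alW_mul_upper (h : Nat.Coprime q N) (hq : q ≠ 0) (a b d : ℤ)
    (h0 : (a : ℚ) * d - b * 0 ≠ 0)
    (h1 : ((q * a * bw N q - (q * b + d) * N * bz N q : ℤ) : ℚ) *
        ((-(N * bz N q * a) + N * q * bz N q * b + q * bw N q * d : ℤ) : ℚ) -
      ((-a + q * b + d : ℤ) : ℚ) *
        ((N * q * bz N q * (a * bw N q - N * bz N q * b - bw N q * d) : ℤ) : ℚ) ≠ 0) :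
    alW h * mk2 a b 0 d h0 = mk2 ((q * a * bw N q - (q * b + d) * N * bz N q : ℤ) : ℚ)
      ((-a + q * b + d : ℤ) : ℚ)
      ((N * q * bz N q * (a * bw N q - N * bz N q * b - bw N q * d) : ℤ) : ℚ)
      ((-(N * bz N q * a) + N * q * bz N q * b + q * bw N q * d : ℤ) : ℚ) h1 * alW h := by
  have hb : (q : ℚ) * bw N q - N * bz N q = 1 := by exact_mod_cast bezout h
  apply gl_ext
  · rw [mul_00, mul_00, alW_00 h hq, alW_01 h hq, alW_10 h hq]
    simp only [mk2_00, mk2_01, mk2_10]; push_cast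
    linear_combination (-(q * a) : ℚ) * hb
  · rw [mul_01, mul_01, alW_00 h hq, alW_01 h hq, alW_11 h hq]
    simp only [mk2_00, mk2_01, mk2_11]; push_cast
    linear_combination (-(q * b + d) : ℚ) * hb
  · rw [mul_10, mul_10, alW_00 h hq, alW_10 h hq, alW_11 h hq]
    simp only [mk2_00, mk2_10, mk2_11]; push_cast
    linear_combination (-(q * N * bz N q * a) : ℚ) * hb
  · rw [mul_11, mul_11, alW_01 h hq, alW_10 h hq, alW_11 h hq]
    simp only [mk2_01, mk2_10, mk2_11]; push_cast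
    linear_combination (-(N * bz N q * q * b + q * bw N q * d) : ℚ) * hb

theorem intMat_alW_conj (h : Nat.Coprime q N) (hq : q ≠ 0) (a b d : ℤ)
    (h0 : (a : ℚ) * d - b * 0 ≠ 0) :
    IntMat (N * q) (a * d) (alW h * mk2 a b 0 d h0 * (alW h)⁻¹) ∧
      (alW h * mk2 a b 0 d h0 * (alW h)⁻¹) 0 0 =
        ((q * a * bw N q - (q * b + d) * N * bz N q : ℤ) : ℚ) := by
  have hdet := alW_det_aux (N := N) (q := q) h a b d
  have h1 : ((q * a * bw N q - (q * b + d) * N * bz N q : ℤ) : ℚ) *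
        ((-(N * bz N q * a) + N * q * bz N q * b + q * bw N q * d : ℤ) : ℚ) -
      ((-a + q * b + d : ℤ) : ℚ) *
        ((N * q * bz N q * (a * bw N q - N * bz N q * b - bw N q * d) : ℤ) : ℚ) ≠ 0 := by
    intro h3
    apply h0
    have h4 : ((a * d : ℤ) : ℚ) = 0 := by
      rw [← hdet]
      push_cast
      push_cast at h3
      exact h3
    push_cast at h4
    rw [h4]
    simp
  rw [alW_mul_upper h hq a b d h0 h1, mul_inv_cancel_right]
  refine ⟨⟨_, _, _, _, mk2_00 _ _ _ _ _, mk2_01 _ _ _ _ _, mk2_10 _ _ _ _ _, mk2_11 _ _ _ _ _,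
    hdet, ?_⟩, mk2_00 _ _ _ _ _⟩
  push_cast
  exact ⟨bz N q * (a * bw N q - N * bz N q * b - bw N q * d), by ring⟩

theorem mem_G0_of_alW_conj (h : Nat.Coprime q N) (hq : q ≠ 0) {g : GL (Fin 2) ℚ}
    (hg : alW h * g * (alW h)⁻¹ ∈ G0 (N * q)) : g ∈ G0 (N * q) := by
  obtain ⟨x, ⟨e, he⟩, hx⟩ := mem_G0.mp hg
  have hg' : alW h * g = mapGL ℚ x * alW h := by rw [hx]; group
  push_cast at he
  have hdet := sl_det x
  rw [he] at hdet
  have hb := bezout h
  have hbQ : (q : ℚ) * bw N q - N * bz N q = 1 := by exact_mod_cast hb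
  have he' : ((x 1 0 : ℤ) : ℚ) = N * q * e := by rw [he]; push_cast; ring
  set w := bw N q with hw
  set z := bz N q with hz
  have hdet' : (q * w * x 0 0 - N * q * e + N * q * z * w * x 0 1 - N * z * x 1 1) *
      ((-(N * z * x 0 0) + N * q * e) + (-(N * z * x 0 1) + x 1 1) * (q * w)) -
      (w * x 0 0 - N * e + q * w ^ 2 * x 0 1 - w * x 1 1) *
      (N * q * (-(z * x 0 0) + q * e + z * x 1 1 - N * z ^ 2 * x 0 1)) = 1 := by
    linear_combination (q * w - N * z) ^ 2 * hdet + (q * w - N * z + 1) * hb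
  have key : alW h * mapGL ℚ (sl _ _ _ _ hdet') = mapGL ℚ x * alW h := by
    apply gl_ext
    · rw [mul_00, mul_00, alW_00 h hq, alW_01 h hq, alW_10 h hq]
      simp only [mapGL_apply, sl_00, sl_10]
      push_cast
      linear_combination (q * x 0 0 + N * q * z * x 0 1 : ℚ) * hbQ
    · rw [mul_01, mul_01, alW_00 h hq, alW_01 h hq, alW_11 h hq]
      simp only [mapGL_apply, sl_01, sl_11]
      push_cast
      linear_combination (x 0 0 + q * w * x 0 1 : ℚ) * hbQ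
    · rw [mul_10, mul_10, alW_00 h hq, alW_10 h hq, alW_11 h hq]
      simp only [mapGL_apply, sl_00, sl_10, he']
      push_cast
      linear_combination (N * q ^ 2 * e + N * q * z * x 1 1 : ℚ) * hbQ
    · rw [mul_11, mul_11, alW_01 h hq, alW_10 h hq, alW_11 h hq]
      simp only [mapGL_apply, sl_01, sl_11, he']
      push_cast
      linear_combination (N * q * e + q * w * x 1 1 : ℚ) * hbQ
  rw [← hg'] at key
  rw [← mul_left_cancel key]
  refine mapGL_mem_G0 ?_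
  rw [sl_10]
  push_cast
  exact ⟨-(z * x 0 0) + q * e + z * x 1 1 - N * z ^ 2 * x 0 1, by ring⟩

/-- `T_ℓ` commutes with the Atkin–Lehner operator at `q`. -/
theorem hT_alW (h : Nat.Coprime q N) (hq : q ≠ 0) {ℓ : ℕ} (hℓ : ℓ.Prime) (hℓN : ¬ ℓ ∣ N * q)
    {m : Symb R X A} (hm : m ∈ inv R X A (G0 (N * q))) :
    hT ℓ (slash (alW h) m) = slash (alW h) (hT ℓ m) := by
  have : Fact ℓ.Prime := ⟨hℓ⟩
  have hℓ0 := hℓ.ne_zero
  have hℓ' := ne0 hℓ0
  refine hT_conj hℓN hm (alW h) (fun i => ?_) (fun g hg => mem_G0_of_alW_conj h hq hg)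
  induction i using OnePoint.rec with
  | infty =>
    have h1 := (intMat_alW_conj h hq (ℓ : ℤ) 0 1 (by push_cast; simp [hℓ'])).1
    rw [mul_one] at h1
    have e : hrep ℓ (OnePoint.infty : OnePoint (ZMod ℓ)) = mk2 ((ℓ : ℤ) : ℚ) ((0 : ℤ) : ℚ) 0
        ((1 : ℤ) : ℚ) (by push_cast; simp [hℓ']) := by
      rw [hrep_infty, hd_eq hℓ0]
      apply gl_ext <;> simp
    rw [e]
    exact h1
  | coe j =>
    have h1 := (intMat_alW_conj h hq 1 (j.val : ℤ) (ℓ : ℤ) (by push_cast; simp [hℓ'])).1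
    rw [one_mul] at h1
    have e : hrep ℓ (j : OnePoint (ZMod ℓ)) = mk2 ((1 : ℤ) : ℚ) ((j.val : ℤ) : ℚ) 0
        ((ℓ : ℤ) : ℚ) (by push_cast; simp [hℓ']) := by
      rw [hrep_coe, hm_eq hℓ0]
      apply gl_ext <;> simp
    rw [e]
    exact h1

/-- `U_r` (`r ∣ N`) commutes with the Atkin–Lehner operator at `q ∤ N`. -/
theorem hU_alW (h : Nat.Coprime q N) (hq : q ≠ 0) {r : ℕ} (hr : r.Prime) (hrN : r ∣ N)
    {m : Symb R X A} (hm : m ∈ inv R X A (G0 (N * q))) :
    hU r (slash (alW h) m) = slash (alW h) (hU r m) := by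
  have : Fact r.Prime := ⟨hr⟩
  have hr0 := hr.ne_zero
  have hr' := ne0 hr0
  have e : ∀ i : ZMod r, Fermat.Agent.H41.hm r i.val = mk2 ((1 : ℤ) : ℚ) ((i.val : ℤ) : ℚ) 0
        ((r : ℤ) : ℚ) (by push_cast; simp [hr']) := by
    intro i
    rw [hm_eq hr0]
    apply gl_ext <;> simp
  refine hU_conj hm (alW h) (fun i => ?_) (fun i a ha => ?_)
    (fun g hg => mem_G0_of_alW_conj h hq hg)
  · have h1 := (intMat_alW_conj h hq 1 (i.val : ℤ) (r : ℤ) (by push_cast; simp [hr'])).1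
    rw [one_mul] at h1
    rw [e]
    exact h1
  · have h1 := (intMat_alW_conj h hq 1 (i.val : ℤ) (r : ℤ) (by push_cast; simp [hr'])).2
    rw [e, h1] at ha
    have h2 : (q * 1 * bw N q - (q * (i.val : ℤ) + r) * N * bz N q : ℤ) = a := by exact_mod_cast ha
    rw [← h2]
    intro h3
    obtain ⟨s, hs⟩ := hrN
    have h4 : (r : ℤ) ∣ 1 := by
      obtain ⟨t, ht⟩ := h3
      refine ⟨t - s * bz N q + (q * (i.val : ℤ) + r) * s * bz N q, ?_⟩
      have hb := bezout h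
      have hs' : (N : ℤ) = r * s := by exact_mod_cast hs
      rw [← hb]
      linear_combination ht + (-(bz N q) + (q * (i.val : ℤ) + r) * bz N q) * hs'
    have h5 := Int.le_of_dvd one_pos h4
    have h6 := hr.one_lt
    omega

end AL

/-- `U_r` preserves `Γ₀(N)`-invariants for `r ∣ N`. -/
theorem hU_mem_inv {N r : ℕ} (hr : r.Prime) (hrN : r ∣ N) {m : Symb R X A}
    (hm : m ∈ inv R X A (G0 N)) : hU r m ∈ inv R X A (G0 N) := by
  have : Fact r.Prime := ⟨hr⟩
  have hr0 := hr.ne_zero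
  intro γ hγ
  obtain ⟨g, hg, rfl⟩ := mem_G0.mp hγ
  have hdet := sl_det g
  have hrg : (r : ℤ) ∣ g 1 0 := (Int.natCast_dvd_natCast.mpr hrN).trans hg
  have key := hU_eq_of_reps hm
    (fun i : ZMod r => Fermat.Agent.H41.hm r i.val * mapGL ℚ g) (fun i => ?_) (fun i a ha => ?_)
    (fun i j hij => ?_)
  · conv_rhs => rw [key]
    rw [hU_apply, sum_range_eq_sum_zmod, map_sum]
    exact Finset.sum_congr rfl fun i _ => (slash_mul _ _ _).symm
  · refine ⟨g 0 0 + i.val * g 1 0, g 0 1 + i.val * g 1 1, r * g 1 0, r * g 1 1, ?_, ?_, ?_, ?_,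
      by linear_combination (r : ℤ) * hdet, Dvd.dvd.mul_left hg _⟩
    · rw [hm_eq hr0, mul_00]; simp only [mapGL_apply, mk2_00, mk2_01]; push_cast; ring
    · rw [hm_eq hr0, mul_01]; simp only [mapGL_apply, mk2_00, mk2_01]; push_cast; ring
    · rw [hm_eq hr0, mul_10]; simp only [mapGL_apply, mk2_10, mk2_11]; push_cast; ring
    · rw [hm_eq hr0, mul_11]; simp only [mapGL_apply, mk2_10, mk2_11]; push_cast; ring
  · rw [hm_eq hr0, mul_00] at ha
    simp only [mapGL_apply, mk2_00, mk2_01] at ha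
    have h2 : g 0 0 + i.val * g 1 0 = a := by
      have : ((g 0 0 + i.val * g 1 0 : ℤ) : ℚ) = a := by rw [← ha]; push_cast; ring
      exact_mod_cast this
    rw [← h2]
    intro h3
    have h4 : (r : ℤ) ∣ g 0 0 := (dvd_add_left (Dvd.dvd.mul_left hrg _)).mp h3
    have h5 : (r : ℤ) ∣ 1 := by
      rw [← hdet]
      exact dvd_sub (Dvd.dvd.mul_right h4 _) (Dvd.dvd.mul_left hrg _)
    have h6 := Int.le_of_dvd one_pos h5
    have h7 := hr.one_lt
    omega
  · have : Fermat.Agent.H41.hm r i.val * mapGL ℚ g *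
        (Fermat.Agent.H41.hm r j.val * mapGL ℚ g)⁻¹ =
        hrep r (i : OnePoint (ZMod r)) * (hrep r (j : OnePoint (ZMod r)))⁻¹ := by
      rw [hrep_coe, hrep_coe]; group
    rw [this] at hij
    exact OnePoint.coe_injective (hrep_inj hij)

section Trace

variable {N q : ℕ}

/-- `T_ℓ` commutes with the trace from level `N q` to level `N`. -/
theorem hT_tr [NeZero q] [SclTriv X] (hq : q.Prime) (hqN : ¬ q ∣ N) {ℓ : ℕ} (hℓ : ℓ.Prime)
    (hℓN : ¬ ℓ ∣ N * q) {m : Symb R X A} (hm : m ∈ inv R X A (G0 (N * q))) :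
    hT ℓ (tr N q m) = tr N q (hT ℓ m) := by
  have h : Nat.Coprime q N := (Nat.Prime.coprime_iff_not_dvd hq).mpr hqN
  have hℓq : Nat.Coprime ℓ q := (Nat.Prime.coprime_iff_not_dvd hℓ).mpr fun h1 =>
    hℓN (Dvd.dvd.mul_left h1 N)
  have hTm := hT_mem_inv hℓ hℓN hm
  have hWm := slash_alW_mem h hq.ne_zero hm
  rw [tr_eq_add h hq hm, tr_eq_add h hq hTm, map_add,
    hT_hU_comm hℓ.ne_zero hq.ne_zero hℓq (tinv_of_mem hWm), hT_alW h hq.ne_zero hℓ hℓN hm]

/-- `U_r` (`r ∣ N`) commutes with the trace from level `N q` to level `N`. -/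
theorem hU_tr [NeZero q] [SclTriv X] (hq : q.Prime) (hqN : ¬ q ∣ N) {r : ℕ} (hr : r.Prime)
    (hrN : r ∣ N) {m : Symb R X A} (hm : m ∈ inv R X A (G0 (N * q))) :
    hU r (tr N q m) = tr N q (hU r m) := by
  have h : Nat.Coprime q N := (Nat.Prime.coprime_iff_not_dvd hq).mpr hqN
  have hUm := hU_mem_inv hr (Dvd.dvd.mul_right hrN q) hm
  rw [tr_eq_add h hq hm, tr_eq_add h hq hUm, map_add,
    hU_hU_comm hr.ne_zero hq.ne_zero, hU_alW h hq.ne_zero hr hrN hm]

end Trace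

end Fermat.Agent.H61.Comm
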