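import Fermat.Agent.H41Trace

/-!
# Bridge, part A: periods of Hecke transforms of symbols
-/

set_option autoImplicit false

namespace Fermat.Agent.H77.BR

open Fermat.Agent.H41 Matrix Matrix.SpecialLinearGroup
open scoped MatrixGroups

section Abstract

variable {G : Type*} [Group G] {R : Type*} {X Y : Type*} {A : Type*}
  [CommRing R] [AddCommGroup A] [Module R A] [MulAction G X] [MulAction G Y]

/-- period of a transformed symbol -/
theorem per_sum {Γ : Subgroup G} {ι : Type*} [Fintype ι] (η : ι → G) {g : G}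
    (σ : Equiv.Perm ι) (g' : ι → G) (hg' : ∀ i, g' i ∈ Γ) (hmul : ∀ i, η i * g = g' i * η (σ i))
    {m : Symb R X A} (hm : m ∈ inv R X A Γ) (x : X) (y : ι → X) :
    (∑ i, slash (η i) m).1 (g • x) x = ∑ i, m.1 (g' i • y i) (y i) := by
  have h1 : (∑ i, slash (η i) m).1 (g • x) x = ∑ i, m.1 (η i • g • x) (η i • x) := by
    rw [AddSubmonoidClass.coe_finsetSum, Finset.sum_apply, Finset.sum_apply]
    rfl
  rw [h1]
  have h2 : ∀ i, m.1 (η i • g • x) (η i • x) =
      m.1 (g' i • y i) (y i) + (m.1 (η (σ i) • x) x - m.1 (η i • x) x) := by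
    intro i
    rw [smul_smul, hmul, mul_smul, ← per_indep hm (hg' i) (η (σ i) • x) (y i)]
    rw [← m.2 (g' i • η (σ i) • x) (η (σ i) • x) (η i • x)]
    congr 1
    rw [← m.2 (η (σ i) • x) x (η i • x), Symb.symm m x]
    abel
  rw [Finset.sum_congr rfl fun i _ => h2 i, Finset.sum_add_distrib, Finset.sum_sub_distrib,
    Equiv.sum_comp σ (fun i => m.1 (η i • x) x), sub_self, add_zero]

/-- coset structure for a family of representatives -/
def IsHeckeFam (Γ : Subgroup G) {ι : Type*} (η : ι → G) : Prop :=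
  ∀ g ∈ Γ, ∃ (σ : Equiv.Perm ι) (g' : ι → G), (∀ i, g' i ∈ Γ) ∧ ∀ i, η i * g = g' i * η (σ i)

theorem per_sum_congr {Γ : Subgroup G} {ι : Type*} [Fintype ι] {η : ι → G}
    (hη : IsHeckeFam Γ η) {m : Symb R X A} (hm : m ∈ inv R X A Γ) {n : Symb R Y A}
    (hn : n ∈ inv R Y A Γ) (x : X) (y : Y) (h : ∀ g ∈ Γ, m.1 (g • x) x = n.1 (g • y) y)
    {g : G} (hg : g ∈ Γ) :
    (∑ i, slash (η i) m).1 (g • x) x = (∑ i, slash (η i) n).1 (g • y) y := by
  obtain ⟨σ, g', hg', hmul⟩ := hη g hg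
  rw [per_sum η σ g' hg' hmul hm x (fun _ => x), per_sum η σ g' hg' hmul hn y (fun _ => y)]
  exact Finset.sum_congr rfl fun i _ => h _ (hg' i)

theorem sum_slash_mem_inv {Γ : Subgroup G} {ι : Type*} [Fintype ι] {η : ι → G}
    (hη : IsHeckeFam Γ η) {m : Symb R X A} (hm : m ∈ inv R X A Γ) :
    (∑ i, slash (η i) m) ∈ inv R X A Γ := by
  intro g hg
  obtain ⟨σ, g', hg', hmul⟩ := hη g hg
  rw [map_sum, ← Equiv.sum_comp σ (fun i => slash (η i) m)]
  refine Finset.sum_congr rfl fun i _ => ?_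
  rw [← slash_mul, hmul, slash_mul, hm _ (hg' i)]

end Abstract

section Fam

theorem isHeckeFam_T {p : ℕ} (hp : p.Prime) {N : ℕ} (hpN : ¬ p ∣ N) :
    IsHeckeFam (G0 N) (hrep p) := by
  have : Fact p.Prime := ⟨hp⟩
  intro γ hγ
  obtain ⟨g, hg, rfl⟩ := mem_G0.mp hγ
  choose g' hg' hmul using hrep_mul hpN g hg
  exact ⟨MulAction.toPerm (red p g), fun x => mapGL ℚ (g' x), fun x => mapGL_mem_G0 (hg' x), hmul⟩

/-- representatives for `U_p` -/
noncomputable def urep (p : ℕ) (j : ZMod p) : GL (Fin 2) ℚ := hm p j.val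

theorem isHeckeFam_U {p : ℕ} [NeZero p] {N : ℕ} (hpN : p ∣ N) : IsHeckeFam (G0 N) (urep p) := by
  have hp : p ≠ 0 := NeZero.ne p
  intro γ hγ
  obtain ⟨g, hg, rfl⟩ := mem_G0.mp hγ
  have hc : ((g 1 0 : ℤ) : ZMod p) = 0 := by
    rw [ZMod.intCast_zmod_eq_zero_iff_dvd]
    exact dvd_trans (Int.natCast_dvd_natCast.mpr hpN) hg
  have had : ((g 0 0 : ℤ) : ZMod p) * ((g 1 1 : ℤ) : ZMod p) = 1 := by
    have := congrArg (Int.cast : ℤ → ZMod p) (sl_det g)
    push_cast at this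
    rw [hc, mul_zero, sub_zero] at this
    exact this
  set a : ZMod p := ((g 0 0 : ℤ) : ZMod p) with ha
  set b : ZMod p := ((g 0 1 : ℤ) : ZMod p) with hb
  set d : ZMod p := ((g 1 1 : ℤ) : ZMod p) with hd'
  let σ : Equiv.Perm (ZMod p) :=
    { toFun := fun j => (b + j * d) * d
      invFun := fun k => (k * a - b) * a
      left_inv := fun j => by linear_combination ((b + j * d) * a + j) * had
      right_inv := fun k => by linear_combination ((k * a - b) * d + k) * had }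
  have key : ∀ j : ZMod p, ∃ g' : GL (Fin 2) ℚ, g' ∈ G0 N ∧
      urep p j * mapGL ℚ g = g' * urep p (σ j) := by
    intro j
    obtain ⟨e, he⟩ : (p : ℤ) ∣ g 0 1 + j.val * g 1 1 - (σ j).val * (g 0 0 + j.val * g 1 0) := by
      rw [← ZMod.intCast_zmod_eq_zero_iff_dvd]
      push_cast
      rw [ZMod.natCast_zmod_val, ZMod.natCast_zmod_val, hc, ← ha, ← hb, ← hd']
      show b + j * d - (b + j * d) * d * (a + j * 0) = 0
      linear_combination -(b + j * d) * had
    obtain ⟨g', hg', hmul⟩ := hm_mul_of_eq hp g j.val (σ j).val e (by linear_combination he)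
    exact ⟨mapGL ℚ g', mapGL_mem_G0 (hg' ▸ dvd_mul_of_dvd_right hg _), hmul⟩
  choose g' hg' hmul using key
  exact ⟨σ, g', hg', hmul⟩

variable {R : Type*} {X : Type*} {A : Type*}
  [CommRing R] [AddCommGroup A] [Module R A] [MulAction (GL (Fin 2) ℚ) X]

theorem hU_eq_sum {p : ℕ} [NeZero p] (m : Symb R X A) :
    hU p m = ∑ x : ZMod p, slash (urep p x) m := by
  rw [hU_apply, sum_range_eq_sum_zmod]
  rfl

end Fam

/-! ### The involution -/

section Eps

/-- `diag(1, -1)` -/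
noncomputable def eps : GL (Fin 2) ℚ := mk2 1 0 0 (-1) (by norm_num)

theorem eps_eps : eps * eps = 1 := by
  apply gl_ext
  · rw [mul_00]; simp [eps]
  · rw [mul_01]; simp [eps]
  · rw [mul_10]; simp [eps]
  · rw [mul_11]; simp [eps]

/-- conjugation by `eps` -/
def jc (g : SL(2, ℤ)) : SL(2, ℤ) :=
  sl (g 0 0) (-g 0 1) (-g 1 0) (g 1 1) (by linear_combination sl_det g)

theorem eps_mul (g : SL(2, ℤ)) : eps * mapGL ℚ g = mapGL ℚ (jc g) * eps := by
  apply gl_ext
  · rw [mul_00, mul_00]; simp only [mapGL_apply]; simp [eps, jc]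
  · rw [mul_01, mul_01]; simp only [mapGL_apply]; simp [eps, jc]
  · rw [mul_10, mul_10]; simp only [mapGL_apply]; simp [eps, jc]
  · rw [mul_11, mul_11]; simp only [mapGL_apply]; simp [eps, jc]

theorem eps_hd {p : ℕ} (hp : p ≠ 0) : eps * hd p = hd p * eps := by
  apply gl_ext
  · rw [mul_00, mul_00]; simp [eps, hd_eq hp]
  · rw [mul_01, mul_01]; simp [eps, hd_eq hp]
  · rw [mul_10, mul_10]; simp [eps, hd_eq hp]
  · rw [mul_11, mul_11]; simp [eps, hd_eq hp]

theorem eps_hm {p : ℕ} (hp : p ≠ 0) (j j' : ℕ) (e : ℤ) (h : (j : ℤ) + j' = p * e) :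
    eps * hm p j' = mapGL ℚ (sl 1 (-e) 0 1 (by ring)) * hm p j * eps := by
  have h' : (j : ℚ) + j' = p * e := by exact_mod_cast h
  apply gl_ext
  · rw [mul_00, mul_00, mul_00, mul_01]; simp only [mapGL_apply]; simp [eps, hm_eq hp]
  · rw [mul_01, mul_01, mul_00, mul_01]; simp only [mapGL_apply]; simp [eps, hm_eq hp]
    linear_combination h'
  · rw [mul_10, mul_10, mul_10, mul_11]; simp only [mapGL_apply]; simp [eps, hm_eq hp]
  · rw [mul_11, mul_11, mul_10, mul_11]; simp only [mapGL_apply]; simp [eps, hm_eq hp]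

variable {R : Type*} {X : Type*} {A : Type*}
  [CommRing R] [AddCommGroup A] [Module R A] [MulAction (GL (Fin 2) ℚ) X]

theorem slash_eps_mem {N : ℕ} {m : Symb R X A} (hm : m ∈ inv R X A (G0 N)) :
    slash eps m ∈ inv R X A (G0 N) := by
  intro γ hγ
  obtain ⟨g, hg, rfl⟩ := mem_G0.mp hγ
  rw [← slash_mul, eps_mul, slash_mul, hm]
  exact mapGL_mem_G0 (by simpa [jc] using hg)

theorem sum_hm_eps {N : ℕ} {p : ℕ} [NeZero p] {m : Symb R X A} (hm : m ∈ inv R X A (G0 N)) :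
    ∑ x : ZMod p, slash (urep p x) (slash eps m) = slash eps (∑ x : ZMod p, slash (urep p x) m) := by
  have hp : p ≠ 0 := NeZero.ne p
  rw [map_sum, ← Equiv.sum_comp (Equiv.neg (ZMod p)) (fun x => slash (urep p x) (slash eps m))]
  refine Finset.sum_congr rfl fun x _ => ?_
  rw [← slash_mul, ← slash_mul]
  obtain ⟨e, he⟩ : (p : ℤ) ∣ (x.val : ℤ) + ((-x : ZMod p).val : ℤ) := by
    rw [← ZMod.intCast_zmod_eq_zero_iff_dvd]
    push_cast
    rw [ZMod.natCast_zmod_val, ZMod.natCast_zmod_val, add_neg_cancel]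
  have h1 : eps * urep p (Equiv.neg (ZMod p) x) =
      mapGL ℚ (sl 1 (-e) 0 1 (by ring)) * (urep p x * eps) := by
    rw [← mul_assoc]
    exact eps_hm hp x.val (-x : ZMod p).val e he
  rw [h1, slash_mul, hm]
  exact mapGL_mem_G0 (by simp)

theorem hU_eps {N : ℕ} {p : ℕ} [NeZero p] {m : Symb R X A} (hm : m ∈ inv R X A (G0 N)) :
    hU p (slash eps m) = slash eps (hU p m) := by
  rw [hU_eq_sum, hU_eq_sum, sum_hm_eps hm]

theorem hT_eps {N : ℕ} {p : ℕ} [NeZero p] {m : Symb R X A} (hm : m ∈ inv R X A (G0 N)) :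
    hT p (slash eps m) = slash eps (hT p m) := by
  have h1 : ∀ n : Symb R X A, hT p n = hU p n + slash (hd p) n := fun n => by
    simp [hT]
  rw [h1, h1, hU_eps hm, map_add, ← slash_mul, ← slash_mul, eps_hd (NeZero.ne p)]

end Eps

end Fermat.Agent.H77.BR
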