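import Mathlib
import Fermat.Agent.H41Bdry
import Fermat.Agent.H61Comm
import Fermat.Agent.H77BrA

/-!
# Periods on cusp stabilisers, lifting parabolic homomorphisms to symbols (helper41)
-/

set_option autoImplicit false

namespace Fermat.Agent.H41

open Matrix Matrix.SpecialLinearGroup CongruenceSubgroup
open scoped MatrixGroups

section Lift

variable {G : Type*} [Group G] {X : Type*} [MulAction G X] {R A : Type*} [CommRing R]
  [AddCommGroup A] [Module R A]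

/-- A homomorphism killing stabilisers of points of `X` is the period homomorphism of a symbol. -/
theorem exists_symb_of_hom (R : Type*) [CommRing R] [Module R A] (Γ : Subgroup G) (φ : G → A)
    (hφ : ∀ g ∈ Γ, ∀ h ∈ Γ, φ (g * h) = φ g + φ h)
    (hfix : ∀ g ∈ Γ, ∀ x : X, g • x = x → φ g = 0) :
    ∃ m ∈ inv R X A Γ, ∀ g ∈ Γ, ∀ x : X, m.1 (g • x) x = φ g := by
  classical
  have hφ1 : φ 1 = 0 := by
    have := hφ 1 Γ.one_mem 1 Γ.one_mem
    rw [mul_one] at this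
    simpa using this
  have hinv : ∀ g ∈ Γ, φ g⁻¹ = - φ g := by
    intro g hg
    have := hφ g hg g⁻¹ (Γ.inv_mem hg)
    rw [mul_inv_cancel, hφ1] at this
    exact (neg_eq_of_add_eq_zero_right this.symm).symm
  let rp : X → X := fun x => (Quotient.mk (MulAction.orbitRel Γ X) x).out
  have hrp : ∀ x, ∃ g ∈ Γ, g • rp x = x := by
    intro x
    have h1 : MulAction.orbitRel Γ X (rp x) x := Quotient.mk_out (s := MulAction.orbitRel Γ X) x
    rw [MulAction.orbitRel_apply, MulAction.mem_orbit_iff] at h1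
    obtain ⟨g, hg⟩ := h1
    refine ⟨(g : G)⁻¹, Γ.inv_mem g.2, ?_⟩
    rw [inv_smul_eq_iff]
    exact hg.symm
  choose c hc hcx using hrp
  have hrpγ : ∀ g ∈ Γ, ∀ x, rp (g • x) = rp x := by
    intro g hg x
    show (Quotient.mk (MulAction.orbitRel Γ X) (g • x)).out =
      (Quotient.mk (MulAction.orbitRel Γ X) x).out
    congr 1
    apply Quotient.sound
    show MulAction.orbitRel Γ X (g • x) x
    rw [MulAction.orbitRel_apply]
    exact ⟨⟨g, hg⟩, rfl⟩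
  have key : ∀ g ∈ Γ, ∀ x, φ (c (g • x)) = φ g + φ (c x) := by
    intro g hg x
    have h1 : ((g * c x)⁻¹ * c (g • x)) • rp x = rp x := by
      rw [mul_smul, ← hrpγ g hg x, hcx, inv_smul_eq_iff, mul_smul, hrpγ g hg x, hcx]
    have hm1 : g * c x ∈ Γ := Γ.mul_mem hg (hc x)
    have h2 := hfix _ (Γ.mul_mem (Γ.inv_mem hm1) (hc _)) _ h1
    rw [hφ _ (Γ.inv_mem hm1) _ (hc _), hinv _ hm1, hφ g hg _ (hc x)] at h2
    have h3 : φ (c (g • x)) = φ g + φ (c x) := by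
      rw [← sub_eq_zero, ← h2]; abel
    exact h3
  refine ⟨⟨fun x y => φ (c x) - φ (c y), fun x y z => by
    show φ (c x) - φ (c y) + (φ (c y) - φ (c z)) = φ (c x) - φ (c z)
    abel⟩, ?_, ?_⟩
  · intro g hg
    ext x y
    show φ (c (g • x)) - φ (c (g • y)) = φ (c x) - φ (c y)
    rw [key g hg, key g hg]; abel
  · intro g hg x
    show φ (c (g • x)) - φ (c x) = φ g
    rw [key g hg]; abel

end Lift

section Cusp

variable {R : Type*} {X : Type*} {A : Type*}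
  [CommRing R] [AddCommGroup A] [Module R A] [MulAction (GL (Fin 2) ℚ) X]

open Fermat.Agent.H61.Comm Fermat.Agent.H77.BR

lemma intMat_of_mCong {N ℓ : ℕ} {M : GL (Fin 2) ℚ}
    (h : MCong 1 N (M : Matrix (Fin 2) (Fin 2) ℚ) 1) (hdet : dt M = ℓ) : IntMat N ℓ M := by
  have key : ∀ x : ℚ, x ∈ JA 1 N → ∃ z : ℤ, x = ((N * z : ℤ) : ℚ) := by
    rintro x ⟨n, z, hz⟩
    refine ⟨z, ?_⟩
    push_cast
    simpa using hz
  obtain ⟨a, ha⟩ := key _ (h 0 0)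
  obtain ⟨b, hb⟩ := key _ (h 0 1)
  obtain ⟨c, hc⟩ := key _ (h 1 0)
  obtain ⟨d, hd⟩ := key _ (h 1 1)
  have ha' : M 0 0 = ((N * a + 1 : ℤ) : ℚ) := by
    rw [Int.cast_add, ← ha]; simp
  have hb' : M 0 1 = ((N * b : ℤ) : ℚ) := by
    rw [← hb]; simp
  have hc' : M 1 0 = ((N * c : ℤ) : ℚ) := by
    rw [← hc]; simp
  have hd' : M 1 1 = ((N * d + 1 : ℤ) : ℚ) := by
    rw [Int.cast_add, ← hd]; simp
  refine ⟨N * a + 1, N * b, N * c, N * d + 1, ha', hb', hc', hd', ?_, ⟨c, rfl⟩⟩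
  have h1 : dt M = ((N * a + 1) * (N * d + 1) - (N * b) * (N * c) : ℤ) := by
    rw [dt, ha', hb', hc', hd']; push_cast; ring
  rw [hdet] at h1
  exact_mod_cast h1.symm

lemma Um_conj_mem {N : ℕ} (g : SL(2, ℤ)) (t : ℤ) :
    (mapGL ℚ g : GL (Fin 2) ℚ) * Um ((N : ℚ) * t) * (mapGL ℚ g)⁻¹ ∈ G0 N := by
  have hdet := sl_det g
  have e : (mapGL ℚ g : GL (Fin 2) ℚ) * Um ((N : ℚ) * t) * (mapGL ℚ g)⁻¹ =
      mapGL ℚ (g * sl 1 (N * t) 0 1 (by ring) * g⁻¹) := by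
    rw [map_mul, map_mul, map_inv]
    congr 2
    apply gl_ext <;> rw [mapGL_apply] <;> simp [Um]
  rw [e]
  apply mapGL_mem_G0
  have : (g * sl 1 (N * t) 0 1 (by ring) * g⁻¹) 1 0 = N * (-(t * g 1 0 ^ 2)) := by
    rw [Matrix.SpecialLinearGroup.coe_mul, Matrix.SpecialLinearGroup.coe_mul,
      Matrix.SpecialLinearGroup.coe_inv, Matrix.adjugate_fin_two]
    simp [Matrix.mul_apply, Fin.sum_univ_two, sl]
    ring
  rw [this]
  exact ⟨_, rfl⟩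

/-- the permutation `j ↦ j + k` fixing `∞` -/
def shiftPerm (ℓ : ℕ) (k : ℤ) : Equiv.Perm (OnePoint (ZMod ℓ)) :=
  Equiv.optionCongr (Equiv.addRight (k : ZMod ℓ))

lemma shiftPerm_infty (ℓ : ℕ) (k : ℤ) : shiftPerm ℓ k OnePoint.infty = OnePoint.infty := rfl

lemma shiftPerm_coe (ℓ : ℕ) (k : ℤ) (j : ZMod ℓ) :
    shiftPerm ℓ k (j : OnePoint (ZMod ℓ)) = ((j + k : ZMod ℓ) : OnePoint (ZMod ℓ)) := rfl

lemma exists_shift {ℓ : ℕ} [hl : Fact ℓ.Prime] (k : ℤ) :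
    ∃ b : OnePoint (ZMod ℓ) → ℤ,
      (∀ x, hrep ℓ x * Um (k : ℚ) = Um (b x : ℚ) * hrep ℓ (shiftPerm ℓ k x)) ∧
      (∀ x, (ℓ : ℤ) * b x = ℓ * b x) ∧
      (∀ j : ZMod ℓ, (j.val : ℤ) + k = ((j + k : ZMod ℓ).val : ℤ) + ℓ * b (j : OnePoint (ZMod ℓ))) ∧
      b OnePoint.infty = ℓ * k ∧
      ∑ x, b x = (ℓ + 1) * k := by
  have hℓ : ℓ ≠ 0 := hl.out.ne_zero
  have hℓ' : (ℓ : ℤ) ≠ 0 := by exact_mod_cast hℓ
  have h1 : ∀ j : ZMod ℓ, ∃ b : ℤ, (j.val : ℤ) + k = ((j + k : ZMod ℓ).val : ℤ) + ℓ * b := by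
    intro j
    obtain ⟨b, hb⟩ : (ℓ : ℤ) ∣ (j.val : ℤ) + k - ((j + k : ZMod ℓ).val : ℤ) := by
      rw [← ZMod.intCast_zmod_eq_zero_iff_dvd]
      push_cast
      rw [ZMod.natCast_zmod_val, ZMod.natCast_zmod_val, sub_self]
    exact ⟨b, by linear_combination hb⟩
  choose b hb using h1
  refine ⟨fun x => x.elim (ℓ * k) b, ?_, fun _ => rfl, hb, rfl, ?_⟩
  · intro x
    induction x using OnePoint.rec with
    | infty =>
      rw [shiftPerm_infty, hrep_infty, hd_eq hℓ]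
      apply gl_ext
      · rw [mul_00, mul_00]; simp [Um]
      · rw [mul_01, mul_01]; simp [Um]
      · rw [mul_10, mul_10]; simp [Um]
      · rw [mul_11, mul_11]; simp [Um]
    | coe j =>
      rw [shiftPerm_coe, hrep_coe, hrep_coe, hm_eq hℓ, hm_eq hℓ]
      have hbQ : ((j.val : ℕ) : ℚ) + k = ((j + k : ZMod ℓ).val : ℚ) + ℓ * b j := by
        exact_mod_cast congrArg (Int.cast : ℤ → ℚ) (hb j)
      apply gl_ext
      · rw [mul_00, mul_00]; simp [Um]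
      · rw [mul_01, mul_01]
        simp only [Um, mk2_00, mk2_01, mk2_11, OnePoint.elim_some]
        linear_combination hbQ
      · rw [mul_10, mul_10]; simp [Um]
      · rw [mul_11, mul_11]; simp [Um]
  · have hsum : ∑ x : OnePoint (ZMod ℓ), (x.elim (ℓ * k) b : ℤ) =
        (ℓ * k) + ∑ j : ZMod ℓ, b j :=
      Fintype.sum_option (fun x : OnePoint (ZMod ℓ) => (x.elim (ℓ * k) b : ℤ))
    rw [hsum]
    have h2 : ∑ j : ZMod ℓ, ((j.val : ℤ) + k) =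
        ∑ j : ZMod ℓ, (((j + k : ZMod ℓ).val : ℤ) + ℓ * b j) :=
      Finset.sum_congr rfl fun j _ => hb j
    have h5 : ∑ x : ZMod ℓ, ((x + k : ZMod ℓ).val : ℤ) = ∑ x : ZMod ℓ, (x.val : ℤ) :=
      Equiv.sum_comp (Equiv.addRight (k : ZMod ℓ)) (fun j : ZMod ℓ => (j.val : ℤ))
    rw [Finset.sum_add_distrib, Finset.sum_add_distrib, h5,
      Finset.sum_const, Finset.card_univ, ZMod.card, ← Finset.mul_sum, add_right_inj,
      nsmul_eq_mul] at h2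
    have h3 : k = ∑ j : ZMod ℓ, b j := mul_left_cancel₀ hℓ' (by push_cast at h2 ⊢; exact h2)
    rw [← h3]; ring

lemma sum_jj_shift {ℓ : ℕ} [hl : Fact ℓ.Prime] (k : ℤ) :
    ∑ x : OnePoint (ZMod ℓ), (jj (shiftPerm ℓ k x) - jj x) = 0 := by
  rw [Finset.sum_sub_distrib, Equiv.sum_comp (shiftPerm ℓ k) (fun x => jj x), sub_self]

/-- For `ℓ ≡ 1 mod N`, `T_ℓ - (ℓ+1)` kills the unipotent elements. -/
theorem hT_per_of_unip {N ℓ : ℕ} (hN : N ≠ 0) (hℓ : ℓ.Prime) (hℓN : ¬ ℓ ∣ N)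
    (h1 : (N : ℤ) ∣ (ℓ : ℤ) - 1) {n : Symb R X A} (hn : n ∈ inv R X A (G0 N))
    (g : SL(2, ℤ)) (k : ℤ) (hγ : (mapGL ℚ g : GL (Fin 2) ℚ) * Um (k : ℚ) * (mapGL ℚ g)⁻¹ ∈ G0 N)
    (o : X) :
    (hT ℓ n).1 (((mapGL ℚ g : GL (Fin 2) ℚ) * Um (k : ℚ) * (mapGL ℚ g)⁻¹) • o) o =
      (ℓ + 1) • n.1 (((mapGL ℚ g : GL (Fin 2) ℚ) * Um (k : ℚ) * (mapGL ℚ g)⁻¹) • o) o := by
  have : Fact ℓ.Prime := ⟨hℓ⟩
  set γ : GL (Fin 2) ℚ := mapGL ℚ g with hgdef
  -- representatives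
  let M : OnePoint (ZMod ℓ) → GL (Fin 2) ℚ := fun x => γ * Um ((-jj x : ℤ) : ℚ) * hrep ℓ x * γ⁻¹
  have hUcast : ∀ x : OnePoint (ZMod ℓ), Um ((-jj x : ℤ) : ℚ) * Um (jj x : ℚ) = 1 := by
    intro x
    rw [← Um_add]
    push_cast
    rw [neg_add_cancel]
    apply gl_ext <;> simp [Um]
  have hM : ∀ x, IntMat N ℓ (M x) := by
    intro x
    apply intMat_of_mCong
    · have h2 := (hrep_cong h1 x).mul_left (MInt_Um_int (q := 1) (-jj x))
      have h3 := (h2.mul_left (MInt_mapGL (q := 1) g))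
      have h4 := h3.mul_right (MInt_mapGL (q := 1) g⁻¹)
      rw [map_inv] at h4
      have e1 : ((mapGL ℚ g : GL (Fin 2) ℚ) : Matrix (Fin 2) (Fin 2) ℚ) *
          ((Um ((-jj x : ℤ) : ℚ) : GL (Fin 2) ℚ) * (hrep ℓ x : Matrix (Fin 2) (Fin 2) ℚ)) *
          (((mapGL ℚ g)⁻¹ : GL (Fin 2) ℚ) : Matrix (Fin 2) (Fin 2) ℚ) =
          ((M x : GL (Fin 2) ℚ) : Matrix (Fin 2) (Fin 2) ℚ) := by
        rw [← Units.val_mul, ← Units.val_mul, ← Units.val_mul]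
        simp only [M]
        rw [← hgdef]
        exact congrArg _ (by group)
      have e2 : ((mapGL ℚ g : GL (Fin 2) ℚ) : Matrix (Fin 2) (Fin 2) ℚ) *
          ((Um ((-jj x : ℤ) : ℚ) : GL (Fin 2) ℚ) *
            ((Um (jj x : ℚ) : GL (Fin 2) ℚ) : Matrix (Fin 2) (Fin 2) ℚ)) *
          (((mapGL ℚ g)⁻¹ : GL (Fin 2) ℚ) : Matrix (Fin 2) (Fin 2) ℚ) = 1 := by
        rw [← Units.val_mul, hUcast, Units.val_one, mul_one, ← Units.val_mul, mul_inv_cancel,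
          Units.val_one]
      rw [e1, e2] at h4
      exact h4
    · simp only [M]
      rw [dt_mul, dt_mul, dt_mul, dt_inv]
      have hd1 : dt (hrep ℓ x) = ℓ := by
        induction x using OnePoint.rec with
        | infty => rw [hrep_infty, dt_hd hℓ.ne_zero]
        | coe j => rw [hrep_coe, dt_hm hℓ.ne_zero]
      rw [hd1]
      have hd2 : dt (Um ((-jj x : ℤ) : ℚ)) = 1 := by simp [dt, Um]
      rw [hd2, mul_one, mul_right_comm, mul_inv_cancel₀ (dt_ne_zero γ), one_mul]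
  have hinj : ∀ x y, M x * (M y)⁻¹ ∈ G0 N → x = y := by
    intro x y hxy
    have h2 := G0_mono (one_dvd N) hxy
    have h3 : hrep ℓ x * (hrep ℓ y)⁻¹ = (Um ((-jj x : ℤ) : ℚ))⁻¹ * (γ⁻¹ * (M x * (M y)⁻¹) * γ) *
        Um ((-jj y : ℤ) : ℚ) := by
      simp only [M]; group
    apply hrep_inj (N := 1)
    rw [h3]
    have hγ1 : γ ∈ G0 1 := mapGL_mem_G0 (by simp)
    refine Subgroup.mul_mem _ (Subgroup.mul_mem _ (Subgroup.inv_mem _ (Um_int _)) ?_) (Um_int _)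
    exact Subgroup.mul_mem _ (Subgroup.mul_mem _ (Subgroup.inv_mem _ hγ1) h2) hγ1
  obtain ⟨b, hb, -, hbj, hbinf, hbsum⟩ := exists_shift (ℓ := ℓ) k
  let a : OnePoint (ZMod ℓ) → ℤ := fun x => b x + (jj (shiftPerm ℓ k x) - jj x)
  have hasum : ∑ x, a x = (ℓ + 1) * k := by
    simp only [a]
    rw [Finset.sum_add_distrib, sum_jj_shift, hbsum, add_zero]
  have ha : ∀ x, ∃ t : ℤ, a x = k + N * t := by
    intro x
    obtain ⟨c, hc⟩ := h1
    induction x using OnePoint.rec with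
    | infty =>
      refine ⟨c * k, ?_⟩
      simp only [a, shiftPerm_infty, hbinf, sub_self, add_zero]
      linear_combination k * hc
    | coe j =>
      refine ⟨-c * b (j : OnePoint (ZMod ℓ)), ?_⟩
      have hj := hbj j
      have e1 : jj (shiftPerm ℓ k (j : OnePoint (ZMod ℓ))) = ((j + k : ZMod ℓ).val : ℤ) := by
        rw [shiftPerm_coe]; rfl
      have e2 : jj (j : OnePoint (ZMod ℓ)) = (j.val : ℤ) := rfl
      simp only [a]
      rw [e1, e2]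
      linear_combination -hj - b (j : OnePoint (ZMod ℓ)) * hc
  choose t ht using ha
  -- the homomorphism t ↦ φ(g T^{N t} g⁻¹)
  have hmemN : ∀ t : ℤ, γ * Um ((N : ℚ) * t) * γ⁻¹ ∈ G0 N := fun t => Um_conj_mem g t
  let F : ℤ →+ A := AddMonoidHom.mk' (fun t => n.1 ((γ * Um ((N : ℚ) * t) * γ⁻¹) • o) o) (by
    intro s t
    rw [← per_mul hn (hmemN s)]
    congr 2
    push_cast
    rw [mul_add, Um_add]; group)
  have hg' : ∀ x, γ * Um (a x : ℚ) * γ⁻¹ = (γ * Um (k : ℚ) * γ⁻¹) * (γ * Um ((N : ℚ) * t x) * γ⁻¹) := by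
    intro x
    rw [ht x]
    push_cast
    rw [Um_add]; group
  have hg'mem : ∀ x, γ * Um (a x : ℚ) * γ⁻¹ ∈ G0 N := by
    intro x
    rw [hg' x]
    exact Subgroup.mul_mem _ hγ (hmemN _)
  have hmul : ∀ x, M x * (γ * Um (k : ℚ) * γ⁻¹) =
      (γ * Um (a x : ℚ) * γ⁻¹) * M (shiftPerm ℓ k x) := by
    intro x
    have e1 : M x * (γ * Um (k : ℚ) * γ⁻¹) =
        γ * Um ((-jj x : ℤ) : ℚ) * (hrep ℓ x * Um (k : ℚ)) * γ⁻¹ := by
      simp only [M]; group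
    have e2 : (γ * Um (a x : ℚ) * γ⁻¹) * M (shiftPerm ℓ k x) =
        γ * (Um (a x : ℚ) * Um ((-jj (shiftPerm ℓ k x) : ℤ) : ℚ)) * hrep ℓ (shiftPerm ℓ k x) * γ⁻¹ := by
      simp only [M]; group
    rw [e1, e2, hb x, ← Um_add]
    have e3 : ((a x : ℤ) : ℚ) + ((-jj (shiftPerm ℓ k x) : ℤ) : ℚ) =
        ((-jj x : ℤ) : ℚ) + (b x : ℚ) := by
      simp only [a]; push_cast; ring
    rw [e3, Um_add]; group
  rw [hT_eq_of_reps hℓN hn M hM hinj,
    per_sum M (shiftPerm ℓ k) (fun x => γ * Um (a x : ℚ) * γ⁻¹) hg'mem hmul hn o (fun _ => o)]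
  have hterm : ∀ x, n.1 ((γ * Um (a x : ℚ) * γ⁻¹) • o) o =
      n.1 ((γ * Um (k : ℚ) * γ⁻¹) • o) o + t x • F 1 := by
    intro x
    rw [hg' x, per_mul hn hγ]
    congr 1
    show F (t x) = t x • F 1
    rw [← map_zsmul, smul_eq_mul, mul_one]
  rw [Finset.sum_congr rfl (fun x _ => hterm x), Finset.sum_add_distrib, Finset.sum_const,
    ← Finset.sum_smul]
  have hcard : (Finset.univ : Finset (OnePoint (ZMod ℓ))).card = ℓ + 1 := by
    rw [Finset.card_univ]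
    have : Fintype.card (OnePoint (ZMod ℓ)) = Fintype.card (ZMod ℓ) + 1 := Fintype.card_option
    rw [this, ZMod.card]
  have hts : ∑ x, t x = 0 := by
    have h2 : ∑ x, a x = ∑ x : OnePoint (ZMod ℓ), (k + N * t x) :=
      Finset.sum_congr rfl fun x _ => ht x
    rw [hasum, Finset.sum_add_distrib, Finset.sum_const, hcard, ← Finset.mul_sum] at h2
    have hN' : (N : ℤ) ≠ 0 := by exact_mod_cast hN
    apply mul_left_cancel₀ hN'
    rw [nsmul_eq_mul] at h2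
    push_cast at h2
    linear_combination -h2
  rw [hts, zero_smul, add_zero, hcard]

/-- For `ℓ ≡ 1 mod N`, `T_ℓ - (ℓ+1)` kills the elements fixing a cusp. -/
theorem hT_per_of_fix [SclTriv X] {N ℓ : ℕ} (hN : N ≠ 0) (hℓ : ℓ.Prime) (hℓN : ¬ ℓ ∣ N)
    (h1 : (N : ℤ) ∣ (ℓ : ℤ) - 1) {n : Symb R X A} (hn : n ∈ inv R X A (G0 N))
    {γ : GL (Fin 2) ℚ} (hγ : γ ∈ G0 N) {r : OnePoint ℚ} (hr : γ • r = r) (o : X) :
    (hT ℓ n).1 (γ • o) o = (ℓ + 1) • n.1 (γ • o) o := by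
  obtain ⟨g, rfl⟩ := OnePoint.exists_mem_SL2 ℤ r
  obtain ⟨γ₁, hγ₁N, rfl⟩ := mem_G0.mp hγ
  set g1 : SL(2, ℤ) := g⁻¹ * γ₁ * g with hg1
  have h2 : (mapGL ℚ g1 : GL (Fin 2) ℚ) • (OnePoint.infty : OnePoint ℚ) = OnePoint.infty := by
    rw [hg1, map_mul, map_mul, mul_smul, mul_smul, hr, ← mul_smul, map_inv, inv_mul_cancel,
      one_smul]
  have h3 : g1 1 0 = 0 := by
    rw [OnePoint.smul_infty_eq_self_iff, mapGL_apply] at h2
    exact_mod_cast h2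
  have hdet := sl_det g1
  rw [h3, mul_zero, sub_zero] at hdet
  have hγ₁ : γ₁ = g * g1 * g⁻¹ := by rw [hg1]; group
  rcases Int.mul_eq_one_iff_eq_one_or_neg_one.mp hdet with ⟨ha, hd⟩ | ⟨ha, hd⟩
  · have e : (mapGL ℚ γ₁ : GL (Fin 2) ℚ) =
        (mapGL ℚ g : GL (Fin 2) ℚ) * Um ((g1 0 1 : ℤ) : ℚ) * (mapGL ℚ g)⁻¹ := by
      rw [hγ₁, map_mul, map_mul, map_inv]
      congr 2
      apply gl_ext <;> rw [mapGL_apply] <;> simp [Um, ha, hd, h3]
    rw [e] at hγ ⊢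
    exact hT_per_of_unip hN hℓ hℓN h1 hn g _ hγ o
  · -- the element is `-1` times a unipotent
    set s : GL (Fin 2) ℚ := mk2 (-1) 0 0 (-1) (by norm_num) with hs
    have hscl : ∀ x : X, s • x = x := fun x =>
      SclTriv.smul_eq s (by simp [hs]) (by simp [hs]) (by simp [hs]) x
    have hsc : ∀ y : GL (Fin 2) ℚ, s * y = y * s := by
      intro y
      apply gl_ext
      · rw [mul_00, mul_00]; simp [hs]
      · rw [mul_01, mul_01]; simp [hs]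
      · rw [mul_10, mul_10]; simp [hs]
      · rw [mul_11, mul_11]; simp [hs]
    have e : (mapGL ℚ γ₁ : GL (Fin 2) ℚ) =
        ((mapGL ℚ g : GL (Fin 2) ℚ) * Um ((-g1 0 1 : ℤ) : ℚ) * (mapGL ℚ g)⁻¹) * s := by
      rw [hγ₁, map_mul, map_mul, map_inv]
      have e1 : (mapGL ℚ g1 : GL (Fin 2) ℚ) = Um ((-g1 0 1 : ℤ) : ℚ) * s := by
        apply gl_ext
        · rw [mapGL_apply, mul_00]; simp [Um, hs, ha]
        · rw [mapGL_apply, mul_01]; simp [Um, hs]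
        · rw [mapGL_apply, mul_10]; simp [Um, hs, h3]
        · rw [mapGL_apply, mul_11]; simp [Um, hs, hd]
      rw [e1]
      calc (mapGL ℚ g : GL (Fin 2) ℚ) * (Um ((-g1 0 1 : ℤ) : ℚ) * s) * (mapGL ℚ g : GL (Fin 2) ℚ)⁻¹
          = (mapGL ℚ g : GL (Fin 2) ℚ) * Um ((-g1 0 1 : ℤ) : ℚ) *
            (s * (mapGL ℚ g : GL (Fin 2) ℚ)⁻¹) := by group
        _ = (mapGL ℚ g : GL (Fin 2) ℚ) * Um ((-g1 0 1 : ℤ) : ℚ) *
            ((mapGL ℚ g : GL (Fin 2) ℚ)⁻¹ * s) := by rw [hsc]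
        _ = _ := by group
    have hsmem : s ∈ G0 N := by
      have : s = mapGL ℚ (sl (-1) 0 0 (-1) (by ring)) := by
        apply gl_ext <;> rw [mapGL_apply] <;> simp [hs]
      rw [this]
      exact mapGL_mem_G0 (by simp)
    have hmem : (mapGL ℚ g : GL (Fin 2) ℚ) * Um ((-g1 0 1 : ℤ) : ℚ) * (mapGL ℚ g)⁻¹ ∈ G0 N := by
      have := Subgroup.mul_mem _ hγ (Subgroup.inv_mem _ hsmem)
      rwa [e, mul_inv_cancel_right] at this
    rw [e, mul_smul, hscl]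
    exact hT_per_of_unip hN hℓ hℓN h1 hn g _ hmem o

end Cusp

end Fermat.Agent.H41
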