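import Mathlib
import Fermat.Agent.H41Parab
import Fermat.Agent.H41Manin

/-!
# Ihara's lemma for homomorphisms `Γ₀(N) → F` (helper41)
-/

set_option autoImplicit false

namespace Fermat.Agent.H41

open Matrix Matrix.SpecialLinearGroup CongruenceSubgroup
open scoped MatrixGroups
open Fermat.Agent.H61.Comm Fermat.Agent.H77.BR

/-- `Γ(M) ≤ Γ₀(M)` inside `GL₂(ℚ)`. -/
lemma GamA_one_le_G0 (M : ℕ) : GamA 1 M ≤ G0 M := by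
  intro x hx
  have key : ∀ y : ℚ, y ∈ JA 1 M → ∃ z : ℤ, y = ((M * z : ℤ) : ℚ) := by
    rintro y ⟨n, z, hz⟩
    refine ⟨z, ?_⟩
    push_cast
    simpa using hz
  obtain ⟨h0, h00, h01, h10, h11⟩ := hx
  obtain ⟨a, ha⟩ := key _ h00
  obtain ⟨b, hb⟩ := key _ h01
  obtain ⟨c, hc⟩ := key _ h10
  obtain ⟨d, hd⟩ := key _ h11
  have ha' : x 0 0 = ((M * a + 1 : ℤ) : ℚ) := by rw [Int.cast_add, ← ha]; simp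
  have hd' : x 1 1 = ((M * d + 1 : ℤ) : ℚ) := by rw [Int.cast_add, ← hd]; simp
  have hdet : (M * a + 1) * (M * d + 1) - (M * b) * (M * c) = (1 : ℤ) := by
    have h1 : dt x = ((M * a + 1) * (M * d + 1) - (M * b) * (M * c) : ℤ) := by
      rw [dt, ha', hb, hc, hd']; push_cast; ring
    rw [h0] at h1
    exact_mod_cast h1.symm
  have e : x = mapGL ℚ (sl (M * a + 1) (M * b) (M * c) (M * d + 1) hdet) := by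
    apply gl_ext <;> rw [mapGL_apply]
    · rw [ha', sl_00]
    · rw [hb, sl_01]
    · rw [hc, sl_10]
    · rw [hd', sl_11]
  rw [e]
  exact mapGL_mem_G0 (by rw [sl_10]; exact ⟨c, rfl⟩)

section

variable {R A : Type*} [CommRing R] [AddCommGroup A] [Module R A]

/-- An invariant symbol with zero periods is a boundary symbol, on which `T_ℓ = ℓ+1` for
`ℓ ≡ 1 mod N`. -/
lemma hT_of_per_zero {N ℓ : ℕ} {b : Symb R (OnePoint ℚ) A} (hb : b ∈ inv R (OnePoint ℚ) A (G0 N))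
    (hper : ∀ γ ∈ G0 N, ∀ r : OnePoint ℚ, b.1 (γ • r) r = 0) (hℓ : ℓ.Prime)
    (h1 : (N : ℤ) ∣ (ℓ : ℤ) - 1) : hT ℓ b = (ℓ + 1) • b :=
  hT_of_bdry hb (fun x hx r => hper x (GamA_one_le_G0 N hx) r) hℓ h1

end

/-- Ihara's lemma for homomorphisms, field coefficients. -/
theorem ihara_hom_field {F : Type*} [Field F] {q N : ℕ} (hq : q.Prime) (hN : N ≠ 0)
    (hc : Nat.Coprime q N) {n₁ n₂ : Symb F PG F} (hn₁ : n₁ ∈ inv F PG F (G0 N))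
    (hn₂ : n₂ ∈ inv F PG F (G0 N)) (o : PG)
    (hper : ∀ γ ∈ G0 (N * q), n₁.1 (γ • o) o + (slash (hd q) n₂).1 (γ • o) o = 0)
    (S : Set ℕ) (hS : ∀ ℓ ∈ S, ℓ.Prime ∧ ¬ ℓ ∣ N * q) (a : ℕ → F)
    (hT₁ : ∀ ℓ ∈ S, ∀ γ ∈ G0 N, (hT ℓ n₁).1 (γ • o) o = a ℓ * n₁.1 (γ • o) o)
    (hT₂ : ∀ ℓ ∈ S, ∀ γ ∈ G0 N, (hT ℓ n₂).1 (γ • o) o = a ℓ * n₂.1 (γ • o) o)
    (hNE1 : ∃ ℓ ∈ S, (a ℓ) ^ 2 ≠ ((ℓ : F) + 1) ^ 2)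
    (hNE2 : ∀ M : ℕ, M ≠ 0 → ∃ ℓ ∈ S, (M : ℤ) ∣ (ℓ : ℤ) - 1 ∧ a ℓ ≠ (ℓ : F) + 1) :
    ∀ γ ∈ G0 N, n₁.1 (γ • o) o = 0 ∧ n₂.1 (γ • o) o = 0 := by
  have hSN : ∀ ℓ ∈ S, ¬ ℓ ∣ N := fun ℓ hℓ h => (hS ℓ hℓ).2 (Dvd.dvd.mul_right h q)
  have hSq : ∀ ℓ ∈ S, Nat.Coprime ℓ q := fun ℓ hℓ =>
    (Nat.Prime.coprime_iff_not_dvd (hS ℓ hℓ).1).mpr fun h => (hS ℓ hℓ).2 (Dvd.dvd.mul_left h N)
  obtain ⟨ℓ₀, hℓ₀S, hℓ₀1, hℓ₀a⟩ := hNE2 (N * q) (mul_ne_zero hN hq.ne_zero)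
  have hℓ₀p := (hS ℓ₀ hℓ₀S).1
  have hℓ₀N : (N : ℤ) ∣ (ℓ₀ : ℤ) - 1 := dvd_trans ⟨q, by push_cast; ring⟩ hℓ₀1
  have hca : a ℓ₀ - ((ℓ₀ : F) + 1) ≠ 0 := sub_ne_zero.mpr hℓ₀a
  -- periods vanish on cusp stabilisers
  have hfix : ∀ n : Symb F PG F, n ∈ inv F PG F (G0 N) →
      (∀ ℓ ∈ S, ∀ γ ∈ G0 N, (hT ℓ n).1 (γ • o) o = a ℓ * n.1 (γ • o) o) →
      ∀ γ ∈ G0 N, ∀ r : OnePoint ℚ, γ • r = r → n.1 (γ • o) o = 0 := by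
    intro n hn hTn γ hγ r hr
    have h1 := hT_per_of_fix hN hℓ₀p (hSN ℓ₀ hℓ₀S) hℓ₀N hn hγ hr o
    rw [hTn ℓ₀ hℓ₀S γ hγ, nsmul_eq_mul] at h1
    push_cast at h1
    have h2 : (a ℓ₀ - ((ℓ₀ : F) + 1)) * n.1 (γ • o) o = 0 := by linear_combination h1
    exact (mul_eq_zero.mp h2).resolve_left hca
  -- lift to modular symbols
  have hlift : ∀ n : Symb F PG F, n ∈ inv F PG F (G0 N) →
      (∀ ℓ ∈ S, ∀ γ ∈ G0 N, (hT ℓ n).1 (γ • o) o = a ℓ * n.1 (γ • o) o) →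
      ∃ m ∈ inv F (OnePoint ℚ) F (G0 N), ∀ γ ∈ G0 N, ∀ r : OnePoint ℚ,
        m.1 (γ • r) r = n.1 (γ • o) o := by
    intro n hn hTn
    exact exists_symb_of_hom F (G0 N) (fun γ => n.1 (γ • o) o)
      (fun g hg h hh => per_mul hn hg o) (fun g hg r hr => hfix n hn hTn g hg r hr)
  obtain ⟨m₁, hm₁, hmn₁⟩ := hlift n₁ hn₁ hT₁
  obtain ⟨m₂, hm₂, hmn₂⟩ := hlift n₂ hn₂ hT₂
  -- periods of Hecke translates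
  have hTper : ∀ (m : Symb F (OnePoint ℚ) F) (n : Symb F PG F), m ∈ inv F (OnePoint ℚ) F (G0 N) →
      n ∈ inv F PG F (G0 N) → (∀ γ ∈ G0 N, ∀ r : OnePoint ℚ, m.1 (γ • r) r = n.1 (γ • o) o) →
      (∀ ℓ ∈ S, ∀ γ ∈ G0 N, (hT ℓ n).1 (γ • o) o = a ℓ * n.1 (γ • o) o) →
      ∀ ℓ ∈ S, ∀ γ ∈ G0 N, ∀ r : OnePoint ℚ, (hT ℓ m).1 (γ • r) r = a ℓ * m.1 (γ • r) r := by
    intro m n hm hn hmn hTn ℓ hℓ γ hγ r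
    have : Fact ℓ.Prime := ⟨(hS ℓ hℓ).1⟩
    have : NeZero ℓ := ⟨(hS ℓ hℓ).1.ne_zero⟩
    rw [hmn γ hγ r, ← hTn ℓ hℓ γ hγ, hT_eq_sum, hT_eq_sum]
    exact per_sum_congr (isHeckeFam_T (hS ℓ hℓ).1 (hSN ℓ hℓ)) hm hn r o
      (fun g hg => hmn g hg r) hγ
  -- the boundary symbol
  set b : Symb F (OnePoint ℚ) F := m₁ + slash (hd q) m₂ with hbdef
  have hδ : ∀ g ∈ G0 (N * q), hd q * g * (hd q)⁻¹ ∈ G0 N := by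
    intro g hg
    obtain ⟨g', ⟨e, he⟩, rfl⟩ := mem_G0.mp hg
    push_cast at he
    obtain ⟨g'', hg'', hmul⟩ := hd_mul_of_eq' hq.ne_zero g' (N * e) (by rw [he]; ring)
    rw [hmul, mul_inv_cancel_right]
    exact mapGL_mem_G0 (by rw [hg'']; exact ⟨e, rfl⟩)
  have hb : b ∈ inv F (OnePoint ℚ) F (G0 (N * q)) := by
    refine Submodule.add_mem _ (inv_mono (G0_mono (Dvd.intro _ rfl)) hm₁) ?_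
    intro g hg
    have : hd q * g = (hd q * g * (hd q)⁻¹) * hd q := by group
    rw [← slash_mul, this, slash_mul, hm₂ _ (hδ g hg)]
  have hbper : ∀ γ ∈ G0 (N * q), ∀ r : OnePoint ℚ, b.1 (γ • r) r = 0 := by
    intro γ hγ r
    have hγN := G0_mono (Dvd.intro _ rfl : N ∣ N * q) hγ
    have e1 : b.1 (γ • r) r = m₁.1 (γ • r) r + m₂.1 (hd q • γ • r) (hd q • r) := rfl
    have e2 : hd q • γ • r = (hd q * γ * (hd q)⁻¹) • hd q • r := by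
      rw [← mul_smul, ← mul_smul]; congr 1; group
    rw [e1, e2, hmn₁ γ hγN, hmn₂ _ (hδ γ hγ), ← hper γ hγ]
    congr 1
    rw [slash_apply, per_indep hn₂ (hδ γ hγ) o (hd q • o), ← mul_smul, ← mul_smul]
    congr 2
    group
  have hDb : hT ℓ₀ b = (ℓ₀ + 1) • b := hT_of_per_zero hb hbper hℓ₀p hℓ₀1
  -- corrected symbols
  have hTm : ∀ m : Symb F (OnePoint ℚ) F, m ∈ inv F (OnePoint ℚ) F (G0 N) →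
      hT ℓ₀ m - (ℓ₀ + 1) • m ∈ inv F (OnePoint ℚ) F (G0 N) := by
    intro m hm
    exact Submodule.sub_mem _ (hT_mem_inv hℓ₀p (hSN ℓ₀ hℓ₀S) hm)
      (Submodule.smul_of_tower_mem _ _ hm)
  have heig : ∀ m : Symb F (OnePoint ℚ) F, m ∈ inv F (OnePoint ℚ) F (G0 N) →
      (∀ ℓ ∈ S, ∀ γ ∈ G0 N, ∀ r : OnePoint ℚ, (hT ℓ m).1 (γ • r) r = a ℓ * m.1 (γ • r) r) →
      ∀ ℓ ∈ S, hT ℓ (hT ℓ₀ m - (ℓ₀ + 1) • m) = a ℓ • (hT ℓ₀ m - (ℓ₀ + 1) • m) := by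
    intro m hm hTm' ℓ hℓ
    have hcomm : hT ℓ (hT ℓ₀ m) = hT ℓ₀ (hT ℓ m) := by
      by_cases h : ℓ = ℓ₀
      · rw [h]
      · exact hT_hT_comm (hS ℓ hℓ).1.ne_zero hℓ₀p.ne_zero
          ((Nat.coprime_primes (hS ℓ hℓ).1 hℓ₀p).mpr h) (tinv_of_mem hm)
    have h1 : hT ℓ₀ (hT ℓ m - a ℓ • m) = (ℓ₀ + 1) • (hT ℓ m - a ℓ • m) := by
      refine hT_of_per_zero (N := N) (Submodule.sub_mem _ (hT_mem_inv (hS ℓ hℓ).1 (hSN ℓ hℓ) hm)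
        (Submodule.smul_mem _ _ hm)) (fun γ hγ r => ?_) hℓ₀p hℓ₀N
      show (hT ℓ m).1 (γ • r) r - a ℓ • m.1 (γ • r) r = 0
      rw [hTm' ℓ hℓ γ hγ r, smul_eq_mul, sub_self]
    rw [map_sub, map_smul] at h1
    rw [map_sub, map_nsmul, hcomm, smul_sub, smul_comm (a ℓ) (ℓ₀ + 1) m]
    rw [smul_sub] at h1
    rw [sub_eq_iff_eq_add] at h1
    rw [h1]
    abel
  have hsum : (hT ℓ₀ m₁ - (ℓ₀ + 1) • m₁) + slash (hd q) (hT ℓ₀ m₂ - (ℓ₀ + 1) • m₂) = 0 := by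
    rw [map_sub, map_nsmul, ← hT_slash_hd hℓ₀p.ne_zero hq.ne_zero (hSq ℓ₀ hℓ₀S) (tinv_of_mem hm₂)]
    have : hT ℓ₀ b = hT ℓ₀ m₁ + hT ℓ₀ (slash (hd q) m₂) := by rw [hbdef, map_add]
    rw [hDb, hbdef, smul_add] at this
    rw [sub_add_sub_comm, ← this, sub_self]
  obtain ⟨hz₁, hz₂⟩ := ihara_eigen (A := F) hq hN hc (hTm m₁ hm₁) (hTm m₂ hm₂) hsum S
    (fun ℓ hℓ => (hS ℓ hℓ).1) a (heig m₁ hm₁ (hTper m₁ n₁ hm₁ hn₁ hmn₁ hT₁)) hNE1 hNE2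
  have hfin : ∀ (m : Symb F (OnePoint ℚ) F) (n : Symb F PG F), m ∈ inv F (OnePoint ℚ) F (G0 N) →
      (∀ ℓ ∈ S, ∀ γ ∈ G0 N, ∀ r : OnePoint ℚ, (hT ℓ m).1 (γ • r) r = a ℓ * m.1 (γ • r) r) →
      hT ℓ₀ m - (ℓ₀ + 1) • m = 0 → ∀ γ ∈ G0 N, ∀ r : OnePoint ℚ, m.1 (γ • r) r = 0 := by
    intro m n hm hTm' hz γ hγ r
    have h1 : (hT ℓ₀ m - (ℓ₀ + 1) • m).1 (γ • r) r = 0 := by rw [hz]; rfl
    have h2 : (hT ℓ₀ m).1 (γ • r) r - (ℓ₀ + 1) • m.1 (γ • r) r = 0 := h1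
    rw [hTm' ℓ₀ hℓ₀S γ hγ r, nsmul_eq_mul] at h2
    push_cast at h2
    have h3 : (a ℓ₀ - ((ℓ₀ : F) + 1)) * m.1 (γ • r) r = 0 := by linear_combination h2
    exact (mul_eq_zero.mp h3).resolve_left hca
  intro γ hγ
  refine ⟨?_, ?_⟩
  · rw [← hmn₁ γ hγ OnePoint.infty]
    exact hfin m₁ n₁ hm₁ (hTper m₁ n₁ hm₁ hn₁ hmn₁ hT₁) hz₁ γ hγ _
  · rw [← hmn₂ γ hγ OnePoint.infty]
    exact hfin m₂ n₂ hm₂ (hTper m₂ n₂ hm₂ hn₂ hmn₂ hT₂) hz₂ γ hγ _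

/-- Ihara's lemma for homomorphisms `Γ₀(N) → ℤ/p`. -/
theorem ihara_hom {p : ℕ} [Fact p.Prime] {q N : ℕ} (hq : q.Prime) (hN : N ≠ 0)
    (hc : Nat.Coprime q N) {n₁ n₂ : Symb ℤ PG (ZMod p)} (hn₁ : n₁ ∈ inv ℤ PG (ZMod p) (G0 N))
    (hn₂ : n₂ ∈ inv ℤ PG (ZMod p) (G0 N)) (o : PG)
    (hper : ∀ γ ∈ G0 (N * q), n₁.1 (γ • o) o + (slash (hd q) n₂).1 (γ • o) o = 0)
    (S : Set ℕ) (hS : ∀ ℓ ∈ S, ℓ.Prime ∧ ¬ ℓ ∣ N * q) (a : ℕ → ZMod p)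
    (hT₁ : ∀ ℓ ∈ S, ∀ γ ∈ G0 N, (hT ℓ n₁).1 (γ • o) o = a ℓ * n₁.1 (γ • o) o)
    (hT₂ : ∀ ℓ ∈ S, ∀ γ ∈ G0 N, (hT ℓ n₂).1 (γ • o) o = a ℓ * n₂.1 (γ • o) o)
    (hNE1 : ∃ ℓ ∈ S, (a ℓ) ^ 2 ≠ ((ℓ : ZMod p) + 1) ^ 2)
    (hNE2 : ∀ M : ℕ, M ≠ 0 → ∃ ℓ ∈ S, (M : ℤ) ∣ (ℓ : ℤ) - 1 ∧ a ℓ ≠ (ℓ : ZMod p) + 1) :
    ∀ γ ∈ G0 N, n₁.1 (γ • o) o = 0 ∧ n₂.1 (γ • o) o = 0 := by
  have h1 : ∀ n : Symb ℤ PG (ZMod p), ∀ ℓ : ℕ, ∀ γ : GL (Fin 2) ℚ,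
      (hT ℓ (smap ℤ (ZMod p) (AddMonoidHom.id _) n)).1 (γ • o) o = (hT ℓ n).1 (γ • o) o := by
    intro n ℓ γ
    rw [← smap_hT]; rfl
  exact ihara_hom_field hq hN hc (n₁ := smap ℤ (ZMod p) (AddMonoidHom.id _) n₁)
    (n₂ := smap ℤ (ZMod p) (AddMonoidHom.id _) n₂) (smap_mem_inv _ hn₁) (smap_mem_inv _ hn₂) o
    hper S hS a (fun ℓ hℓ γ hγ => (h1 n₁ ℓ γ).trans (hT₁ ℓ hℓ γ hγ))
    (fun ℓ hℓ γ hγ => (h1 n₂ ℓ γ).trans (hT₂ ℓ hℓ γ hγ)) hNE1 hNE2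

end Fermat.Agent.H41
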