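import Mathlib
import Fermat.Prelude.Def_ModularForm_HeckeOperatorForms

set_option autoImplicit false

/-!
# The elementary bound `|a_q| < q + 1` for weight two cusp forms
-/

noncomputable section

namespace Fermat.Agent.H61.Bound

open UpperHalfPlane Filter Topology MatrixGroups Matrix.SpecialLinearGroup
open scoped Modular

/-- A continuous function on `ℍ`, invariant under a finite index subgroup of `SL(2, ℤ)`, tending
to zero at all cusps and positive somewhere attains its maximum. -/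
theorem exists_isMax {f : ℍ → ℝ} (hc : Continuous f) {Γ : Subgroup SL(2, ℤ)} [Γ.FiniteIndex]
    (hinv : ∀ g ∈ Γ, ∀ τ, f (g • τ) = f τ)
    (h0 : ∀ g : SL(2, ℤ), Tendsto (fun τ => f (g • τ)) atImInfty (𝓝 0))
    (hpos : ∃ τ, 0 < f τ) : ∃ τ₀, 0 < f τ₀ ∧ ∀ τ, f τ ≤ f τ₀ := by
  classical
  obtain ⟨t, ht⟩ := hpos
  have : Finite (SL(2, ℤ) ⧸ Γ) := Subgroup.finite_quotient_of_finiteIndex
  -- values on the fundamental domain
  have key : ∀ τ : ℍ, ∃ (x : SL(2, ℤ) ⧸ Γ) (w : ℍ), w ∈ 𝒟 ∧ f τ = f ((x.out)⁻¹ • w) := by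
    intro τ
    obtain ⟨g, hg⟩ := ModularGroup.exists_smul_mem_fd τ
    obtain ⟨h, hh⟩ := QuotientGroup.mk_out_eq_mul Γ g
    refine ⟨QuotientGroup.mk g, g • τ, hg, ?_⟩
    rw [hh, mul_inv_rev, mul_smul, inv_smul_smul, hinv _ (inv_mem h.2)]
  have hlarge : ∀ x : SL(2, ℤ) ⧸ Γ, ∃ y : ℝ, ∀ w : ℍ, y ≤ w.im → f ((x.out)⁻¹ • w) < f t := by
    intro x
    have h1 := (h0 (x.out)⁻¹).eventually (gt_mem_nhds ht)
    rw [atImInfty, eventually_comap, eventually_atTop] at h1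
    obtain ⟨y, hy⟩ := h1
    exact ⟨y, fun w hw => hy _ hw w rfl⟩
  choose y hy using hlarge
  have := Fintype.ofFinite (SL(2, ℤ) ⧸ Γ)
  obtain ⟨Y, hY⟩ : ∃ Y : ℝ, ∀ x, y x ≤ Y :=
    ⟨∑ x, |y x|, fun x => (le_abs_self _).trans
      (Finset.single_le_sum (fun i _ => abs_nonneg (y i)) (Finset.mem_univ x))⟩
  -- the point `t` gives a point of the truncated domain
  have hK : ∀ τ : ℍ, f t ≤ f τ → ∃ (x : SL(2, ℤ) ⧸ Γ) (w : ℍ),
      w ∈ ModularGroup.truncatedFundamentalDomain Y ∧ f τ = f ((x.out)⁻¹ • w) := by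
    intro τ hτ
    obtain ⟨x, w, hw, hx⟩ := key τ
    refine ⟨x, w, ⟨hw, ?_⟩, hx⟩
    by_contra hlt
    push Not at hlt
    have := hy x w ((hY x).trans hlt.le)
    rw [← hx] at this
    exact absurd this (not_lt.mpr hτ)
  obtain ⟨x₀, w₀, hw₀, -⟩ := hK t le_rfl
  have hmax : ∀ x : SL(2, ℤ) ⧸ Γ, ∃ w ∈ ModularGroup.truncatedFundamentalDomain Y,
      ∀ w' ∈ ModularGroup.truncatedFundamentalDomain Y, f ((x.out)⁻¹ • w') ≤ f ((x.out)⁻¹ • w) := by
    intro x
    have hcx : Continuous fun τ : ℍ => f ((x.out)⁻¹ • τ) := by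
      simp only [ModularGroup.sl_moeb]
      fun_prop
    obtain ⟨w, hw, hw'⟩ := (ModularGroup.isCompact_truncatedFundamentalDomain Y).exists_isMaxOn
      ⟨w₀, hw₀⟩ hcx.continuousOn
    exact ⟨w, hw, fun w' h => hw' h⟩
  choose w hw hwmax using hmax
  have : Nonempty (SL(2, ℤ) ⧸ Γ) := ⟨x₀⟩
  obtain ⟨x₁, hx₁⟩ := Finite.exists_max fun x => f ((x.out)⁻¹ • w x)
  have hbd : ∀ τ, f t ≤ f τ → f τ ≤ f ((x₁.out)⁻¹ • w x₁) := by
    intro τ hτ
    obtain ⟨x, w', hw', hx⟩ := hK τ hτ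
    rw [hx]
    exact (hwmax x w' hw').trans (hx₁ x)
  refine ⟨(x₁.out)⁻¹ • w x₁, ht.trans_le (hbd t le_rfl), fun τ => ?_⟩
  rcases le_total (f t) (f τ) with h | h
  · exact hbd τ h
  · exact h.trans (hbd t le_rfl)

/-- The invariant function `|f| y` of a weight two form. -/
def phi (f : ℍ → ℂ) (τ : ℍ) : ℝ := ‖f τ‖ * τ.im

theorem phi_nonneg (f : ℍ → ℂ) (τ : ℍ) : 0 ≤ phi f τ := by
  unfold phi; have := τ.im_pos; positivity

theorem phi_sq (f : ℍ → ℂ) (τ : ℍ) : phi f τ ^ 2 = ‖petersson 2 f f τ‖ := by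
  rw [petersson, norm_mul, norm_mul, Complex.norm_conj, phi, norm_zpow, Complex.norm_real,
    Real.norm_of_nonneg τ.im_pos.le]
  ring_nf
  norm_cast

open ConjAct Pointwise in
theorem tendsto_petersson {Γ : Subgroup (GL (Fin 2) ℝ)} [Γ.IsArithmetic] (k : ℤ)
    (f : CuspForm Γ k) (g : SL(2, ℤ)) :
    Tendsto (fun τ => ‖petersson k f f (g • τ)‖) atImInfty (𝓝 0) := by
  rw [← tendsto_zero_iff_norm_tendsto_zero]
  simp_rw [← UpperHalfPlane.petersson_slash_SL]
  have : ((toConjAct (g : GL (Fin 2) ℝ)⁻¹) • Γ).IsArithmetic := by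
    simpa [(show Rat.castHom ℝ = algebraMap ℚ ℝ by rfl), map_inv, map_mapGL]
      using! Subgroup.IsArithmetic.conj Γ (mapGL ℚ g)⁻¹
  exact (CuspFormClass.zero_at_infty <| CuspForm.translate f g).petersson_isZeroAtImInfty_left k _
    (ModularForm.translate f g)

theorem tendsto_phi {Γ : Subgroup (GL (Fin 2) ℝ)} [Γ.IsArithmetic]
    (f : CuspForm Γ 2) (g : SL(2, ℤ)) :
    Tendsto (fun τ => phi f (g • τ)) atImInfty (𝓝 0) := by
  have h := (Real.continuous_sqrt.tendsto 0).comp (tendsto_petersson 2 f g)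
  rw [Real.sqrt_zero] at h
  refine h.congr fun τ => ?_
  rw [Function.comp_apply, ← phi_sq, Real.sqrt_sq (phi_nonneg _ _)]

theorem phi_smul {Γ : Subgroup (GL (Fin 2) ℝ)} [Γ.IsArithmetic] (f : CuspForm Γ 2)
    {g : GL (Fin 2) ℝ} (hg : g ∈ Γ) (τ : ℍ) : phi f (g • τ) = phi f τ := by
  have h := SlashInvariantFormClass.norm_petersson_smul (f := f) (f' := f) (τ := τ) hg
  rw [← phi_sq, ← phi_sq] at h
  exact (pow_left_inj₀ (phi_nonneg _ _) (phi_nonneg _ _) two_ne_zero).mp h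

theorem continuous_phi {Γ : Subgroup (GL (Fin 2) ℝ)} (f : CuspForm Γ 2) :
    Continuous (phi f) := by
  unfold phi
  have : Continuous (f : ℍ → ℂ) := (CuspFormClass.holo f).continuous
  exact this.norm.mul continuous_im

/-- The maximum of `|f| y` is attained. -/
theorem exists_max_phi {N : ℕ} [NeZero N] (f : CuspForm (CongruenceSubgroup.Gamma0 N) 2)
    (hf : f ≠ 0) : ∃ τ₀, 0 < phi f τ₀ ∧ ∀ τ, phi f τ ≤ phi f τ₀ := by
  refine exists_isMax (continuous_phi f) (Γ := CongruenceSubgroup.Gamma0 N)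
    (fun g hg τ => phi_smul f (g := mapGL ℝ g) ⟨g, hg, rfl⟩ τ) (tendsto_phi f) ?_
  by_contra h
  push Not at h
  apply hf
  ext τ
  have h1 := le_antisymm (h τ) (phi_nonneg f τ)
  rw [phi, mul_eq_zero] at h1
  rcases h1 with h1 | h1
  · simpa using h1
  · exact absurd h1 τ.im_pos.ne'

theorem im_heckeMatrix_smul {p : ℕ} (hp : p ≠ 0) (j : ℕ) (τ : ℍ) :
    (ModularForm.heckeMatrix p j • τ : ℍ).im = τ.im / p := by
  rw [← coe_im, ModularForm.coe_heckeMatrix_smul hp]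
  rw [Complex.div_natCast_im]
  simp

theorem im_heckeDiagMatrix_smul {p : ℕ} (hp : p ≠ 0) (τ : ℍ) :
    (ModularForm.heckeDiagMatrix p • τ : ℍ).im = p * τ.im := by
  rw [← coe_im, ModularForm.coe_heckeDiagMatrix_smul hp]
  simp

/-- `|a| φ(τ) ≤ ∑ φ(η_j τ) + φ(q τ)` for an eigenform. -/
theorem norm_mul_phi_le {q : ℕ} (hq : q ≠ 0) {f : ℍ → ℂ} {a : ℂ}
    (h : ModularForm.heckeT 2 q f = a • f) (τ : ℍ) :
    ‖a‖ * phi f τ ≤ ∑ j ∈ Finset.range q, phi f (ModularForm.heckeMatrix q j • τ) +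
      phi f (ModularForm.heckeDiagMatrix q • τ) := by
  have hq0 : (0 : ℝ) < q := by exact_mod_cast Nat.pos_of_ne_zero hq
  have h1 : a * f τ = (q : ℂ)⁻¹ * ∑ j ∈ Finset.range q, f (ModularForm.heckeMatrix q j • τ)
      + (q : ℂ) ^ (2 - 1 : ℤ) * f (ModularForm.heckeDiagMatrix q • τ) := by
    rw [← ModularForm.heckeT_apply 2 hq, h]
    rfl
  have h2 : ‖a‖ * phi f τ = ‖a * f τ‖ * τ.im := by rw [norm_mul, phi, mul_assoc]
  rw [h2, h1]
  have h3 : ∀ j, phi f (ModularForm.heckeMatrix q j • τ) =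
      (q : ℝ)⁻¹ * ‖f (ModularForm.heckeMatrix q j • τ)‖ * τ.im := fun j => by
    rw [phi, im_heckeMatrix_smul hq]; field_simp
  have h4 : phi f (ModularForm.heckeDiagMatrix q • τ) =
      q * ‖f (ModularForm.heckeDiagMatrix q • τ)‖ * τ.im := by
    rw [phi, im_heckeDiagMatrix_smul hq]; ring
  simp only [h3, h4]
  rw [← Finset.sum_mul, ← Finset.mul_sum, ← add_mul]
  refine mul_le_mul_of_nonneg_right ?_ τ.im_pos.le
  refine (norm_add_le _ _).trans (add_le_add ?_ ?_)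
  · rw [norm_mul, norm_inv, Complex.norm_natCast]
    exact mul_le_mul_of_nonneg_left (norm_sum_le _ _) (by positivity)
  · rw [norm_mul, show (2 - 1 : ℤ) = 1 from rfl, zpow_one, Complex.norm_natCast]

/-- **Elementary bound** for the eigenvalues of `T_q` on weight two cusp forms. -/
theorem norm_eigenvalue_lt {N : ℕ} {q : ℕ} (hq : q.Prime) (hqN : ¬ q ∣ N)
    (f : CuspForm (CongruenceSubgroup.Gamma0 N) 2) (hf : f ≠ 0) (a : ℂ)
    (h : CuspForm.heckeTLin 2 hq hqN f = a • f) : ‖a‖ < q + 1 := by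
  have hN : NeZero N := ⟨fun h => hqN (h ▸ dvd_zero q)⟩
  have hq0 := hq.ne_zero
  obtain ⟨τ₀, hτ₀, hmax⟩ := exists_max_phi f hf
  have hT : ModularForm.heckeT 2 q (f : ℍ → ℂ) = a • (f : ℍ → ℂ) := by
    have := congrArg (fun g : CuspForm (CongruenceSubgroup.Gamma0 N) 2 => (g : ℍ → ℂ)) h
    exact this
  by_contra hlt
  push Not at hlt
  -- maximal points are stable under multiplication by `q`
  have hstep : ∀ τ, phi f τ = phi f τ₀ → phi f (ModularForm.heckeDiagMatrix q • τ) = phi f τ₀ := by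
    intro τ hτ
    refine le_antisymm (hmax _) ?_
    have h1 := norm_mul_phi_le hq0 hT τ
    have h2 : ∑ j ∈ Finset.range q, phi f (ModularForm.heckeMatrix q j • τ) ≤ q * phi f τ₀ := by
      refine (Finset.sum_le_sum fun j _ => hmax _).trans ?_
      simp
    have h3 : ((q : ℝ) + 1) * phi f τ₀ ≤ ‖a‖ * phi f τ := by
      rw [hτ]
      exact mul_le_mul_of_nonneg_right hlt hτ₀.le
    linarith
  set D : ℕ → ℍ := fun n => (ModularForm.heckeDiagMatrix q) ^ n • τ₀ with hD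
  have hDphi : ∀ n, phi f (D n) = phi f τ₀ := by
    intro n
    induction n with
    | zero => simp [hD]
    | succ n ih =>
      have : D (n + 1) = ModularForm.heckeDiagMatrix q • D n := by
        simp only [hD, pow_succ', mul_smul]
      rw [this]
      exact hstep _ ih
  have hDim : ∀ n, (D n).im = q ^ n * τ₀.im := by
    intro n
    induction n with
    | zero => simp [hD]
    | succ n ih =>
      have : D (n + 1) = ModularForm.heckeDiagMatrix q • D n := by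
        simp only [hD, pow_succ', mul_smul]
      rw [this, im_heckeDiagMatrix_smul hq0, ih]
      ring
  have hDtend : Tendsto D atTop atImInfty := by
    rw [atImInfty, tendsto_comap_iff]
    have : (UpperHalfPlane.im ∘ D) = fun n : ℕ => (q : ℝ) ^ n * τ₀.im := funext hDim
    rw [this]
    exact (tendsto_pow_atTop_atTop_of_one_lt (by exact_mod_cast hq.one_lt)).atTop_mul_const
      τ₀.im_pos
  have h5 := (tendsto_phi f 1).comp hDtend
  have h6 : ((fun τ : ℍ => phi f ((1 : SL(2, ℤ)) • τ)) ∘ D) = fun _ => phi f τ₀ := by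
    funext n
    simp only [Function.comp_apply, one_smul, hDphi]
  rw [h6] at h5
  have := tendsto_nhds_unique h5 tendsto_const_nhds
  exact absurd this.symm hτ₀.ne'

/-- `T_q - c` is injective on weight two cusp forms for `‖c‖ ≥ q + 1`. -/
theorem eq_zero_of_heckeT_eq_smul {N : ℕ} {q : ℕ} (hq : q.Prime) (hqN : ¬ q ∣ N)
    (f : CuspForm (CongruenceSubgroup.Gamma0 N) 2) (c : ℂ) (hc : (q : ℝ) + 1 ≤ ‖c‖)
    (h : CuspForm.heckeTLin 2 hq hqN f = c • f) : f = 0 := by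
  by_contra hf
  exact absurd (norm_eigenvalue_lt hq hqN f hf c h) (not_lt.mpr hc)

/-- `T_q² - (q+1)²` is injective on weight two cusp forms. -/
theorem eq_zero_of_heckeT_sq {N : ℕ} {q : ℕ} (hq : q.Prime) (hqN : ¬ q ∣ N)
    (f : CuspForm (CongruenceSubgroup.Gamma0 N) 2)
    (h : CuspForm.heckeTLin 2 hq hqN (CuspForm.heckeTLin 2 hq hqN f) = ((q : ℂ) + 1) ^ 2 • f) :
    f = 0 := by
  have hnorm : ‖(q : ℂ) + 1‖ = (q : ℝ) + 1 := by
    have : ((q : ℂ) + 1) = (((q : ℝ) + 1 : ℝ) : ℂ) := by push_cast; rfl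
    rw [this, Complex.norm_real, Real.norm_of_nonneg (by positivity)]
  set T := CuspForm.heckeTLin 2 hq hqN
  have h1 : T f + ((q : ℂ) + 1) • f = 0 := by
    refine eq_zero_of_heckeT_eq_smul hq hqN _ ((q : ℂ) + 1) hnorm.ge ?_
    change T (T f + ((q : ℂ) + 1) • f) = _
    rw [map_add, map_smul, h, smul_add, smul_smul, ← pow_two, add_comm]
  refine eq_zero_of_heckeT_eq_smul hq hqN f (-((q : ℂ) + 1)) (by rw [norm_neg]; exact hnorm.ge) ?_
  have h2 : T f = -(((q : ℂ) + 1) • f) := eq_neg_of_add_eq_zero_left h1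
  exact h2.trans (neg_smul ((q : ℂ) + 1) f).symm

end Fermat.Agent.H61.Bound
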