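import Mathlib
import Fermat.Agent.H49HeckeBasic
import Fermat.Agent.H49DeligneSerre

set_option autoImplicit false

noncomputable section

namespace Fermat.Agent.H61.Eig

open CongruenceSubgroup ModularFormClass

open Fermat.Agent.H49

/-- The eigen-equations of a normalised eigenform. -/
theorem eigen_of_isNormalizedEigenform {N : ℕ} [NeZero N] {g : CuspForm (Gamma0 N) 2}
    (hg : g.IsNormalizedEigenform) :
    (∀ (ℓ : ℕ) (hℓ : ℓ.Prime) (hN : ¬ ℓ ∣ N), CuspForm.heckeTLin 2 hℓ hN g = qCoeff g ℓ • g) ∧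
    (∀ (r : ℕ) (_ : r.Prime) (hrN : r ∣ N), CuspForm.heckeULin 2 hrN g = qCoeff g r • g) :=
  have h := hg.isHeckeEigenvector_H49
  ⟨h.T, h.U⟩

/-- A nonzero Hecke stable subspace of `S_2(Γ₀(N))` contains a normalised eigenform. -/
theorem exists_eigenform {N : ℕ} [NeZero N] (V : Submodule ℂ (CuspForm (Gamma0 N) 2))
    (hV : V ≠ ⊥)
    (hT : ∀ (ℓ : ℕ) (hℓ : ℓ.Prime) (hN : ¬ ℓ ∣ N), V ≤ V.comap (CuspForm.heckeTLin 2 hℓ hN))
    (hU : ∀ (r : ℕ) (_ : r.Prime) (hrN : r ∣ N), V ≤ V.comap (CuspForm.heckeULin 2 hrN)) :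
    ∃ g ∈ V, g.IsNormalizedEigenform ∧
      (∀ (ℓ : ℕ) (hℓ : ℓ.Prime) (hN : ¬ ℓ ∣ N), CuspForm.heckeTLin 2 hℓ hN g = qCoeff g ℓ • g) ∧
      (∀ (r : ℕ) (_ : r.Prime) (hrN : r ∣ N), CuspForm.heckeULin 2 hrN g = qCoeff g r • g) := by
  have : FiniteDimensional ℂ (CuspForm (Gamma0 N) 2) := finiteDimensional_cuspForm N 2
  obtain ⟨v, hvV, hv0, χ, hχ⟩ := exists_common_eigenvector (CuspForm.heckeGenerators N 2 ∅)
    (fun s hs t ht => CuspForm.commute_of_mem_heckeGenerators hs ht) V hV (by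
      rintro t (⟨ℓ, hℓ, hℓN, -, rfl⟩ | ⟨q, hqN, hq, -, rfl⟩) v hv
      · exact hT ℓ hℓ hℓN hv
      · exact hU q hq hqN hv)
  obtain ⟨c, hc⟩ := IsHeckeEigenvector.of_generators (f := v) fun t ht => ⟨χ t, hχ t ht⟩
  obtain ⟨g, -, hg, -, hgv⟩ := hc.exists_normalized hv0
  have h := eigen_of_isNormalizedEigenform hg
  exact ⟨g, hgv ▸ V.smul_mem _ hvV, hg, h.1, h.2⟩

end Fermat.Agent.H61.Eig
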