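import Fermat.Agent.H71Dual

/-!
# Duality mod `p` for degeneracy maps (helper71)
-/

set_option autoImplicit false

namespace Fermat.Agent.H71

open ModularGroup Matrix.SpecialLinearGroup CongruenceSubgroup
open scoped MatrixGroups
open Fermat.Agent.H41 (Symb inv slash dt PG G0 tr rho alW hT hd)

section Lin

variable {R' : Type*} [CommRing R'] [IsAddTorsionFree R'] {N : ℕ} [NeZero N]

lemma gp_add_right {m : Symb R' (OnePoint ℚ) R'} {f g : Symb R' PG R'}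
    (hm : m ∈ inv R' (OnePoint ℚ) R' (G0 N)) (hf : f ∈ inv R' PG R' (G0 N))
    (hg : g ∈ inv R' PG R' (G0 N)) (hfg : f + g ∈ inv R' PG R' (G0 N)) :
    gp N hm hfg = gp N hm hf + gp N hm hg := by
  have e2 : perHom (Gamma0 N) o hfg = perHom (Gamma0 N) o hf + perHom (Gamma0 N) o hg :=
    DFunLike.ext _ _ fun γ => rfl
  unfold gp
  rw [e2]
  exact dpair_add_right _ _ _

lemma gp_sub_right {m : Symb R' (OnePoint ℚ) R'} {f g : Symb R' PG R'}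
    (hm : m ∈ inv R' (OnePoint ℚ) R' (G0 N)) (hf : f ∈ inv R' PG R' (G0 N))
    (hg : g ∈ inv R' PG R' (G0 N)) (c : R') (hfg : f - c • g ∈ inv R' PG R' (G0 N)) :
    gp N hm hfg = gp N hm hf - c * gp N hm hg := by
  have e2 : perHom (Gamma0 N) o hfg = perHom (Gamma0 N) o hf - c • perHom (Gamma0 N) o hg :=
    DFunLike.ext _ _ fun γ => rfl
  unfold gp
  rw [e2]
  exact (dpair_sub_right _ _ _).trans (congrArg _ (dpair_smul_right _ _ _))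

end Lin

section Key

/-- value of the period homomorphism -/
def pv {A : Type*} [AddCommGroup A] (f : Symb ℤ PG A) (γ : GL (Fin 2) ℚ) : A := f.1 (γ • o) o

lemma exists_hom_div {Γ : Subgroup SL(2, ℤ)} {p : ℕ} (hp : p ≠ 0) (φ : Additive Γ →+ ℤ)
    (h : ∀ γ : Γ, (p : ℤ) ∣ φ (Additive.ofMul γ)) : ∃ ψ : Additive Γ →+ ℤ, φ = (p : ℤ) • ψ := by
  have hp0 : (p : ℤ) ≠ 0 := by exact_mod_cast hp
  choose k hk using h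
  have hadd : ∀ s t : Γ, k (s * t) = k s + k t := by
    intro s t
    have h1 : (p : ℤ) * k (s * t) = p * (k s + k t) := by
      rw [← hk, mul_add, ← hk, ← hk, ofMul_mul, map_add]
    exact mul_left_cancel₀ hp0 h1
  refine ⟨AddMonoidHom.mk' (fun γ => k γ.toMul) (fun s t => hadd s.toMul t.toMul), ?_⟩
  exact DFunLike.ext _ _ fun γ => hk γ.toMul

variable {p N q : ℕ}

/-- representation of functionals with values in `ZMod p` -/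
def Rep (p N : ℕ) [NeZero N] (lam : inv ℤ (OnePoint ℚ) ℤ (G0 N) →+ ZMod p) (f : Symb ℤ PG ℤ)
    (hf : f ∈ inv ℤ PG ℤ (G0 N)) : Prop :=
  ∀ m (hm : m ∈ inv ℤ (OnePoint ℚ) ℤ (G0 N)), ∃ k : ℤ, gp N hm hf = 2 * k ∧
    ((k : ℤ) : ZMod p) = lam ⟨m, hm⟩

lemma exists_rep (p N : ℕ) [NeZero N] (lam : inv ℤ (OnePoint ℚ) ℤ (G0 N) →+ ZMod p) :
    ∃ f : Symb ℤ PG ℤ, ∃ hf : f ∈ inv ℤ PG ℤ (G0 N), Rep p N lam f hf := by
  have := finite_symb (R' := ℤ) (Γ := Gamma0 N)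
  have := free_symb (R' := ℤ) (Γ := Gamma0 N)
  let lamL : inv ℤ (OnePoint ℚ) ℤ ((Gamma0 N).map (mapGL ℚ)) →ₗ[ℤ] ZMod p := lam.toIntLinearMap
  let c : ℤ →ₗ[ℤ] ZMod p := (Int.castAddHom (ZMod p)).toIntLinearMap
  have hcs : Function.Surjective c := ZMod.intCast_surjective
  obtain ⟨μ, hμ⟩ := Module.projective_lifting_property c lamL hcs
  obtain ⟨φ, hφ⟩ := exists_hom_repr (neg_one_mem_gamma0 N) μ
  obtain ⟨f, hf, hfφ⟩ := exists_symb_PG (R' := ℤ) φ (by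
    rintro γ (h | h)
    · have : γ = 1 := Subtype.ext h
      rw [this, ofMul_one, map_zero]
    · refine hom_eq_zero_of_pow φ (n := 2) (by norm_num) ?_
      apply Subtype.ext
      rw [Subgroup.coe_pow, h]
      simp)
  refine ⟨f, hf, fun m hm => ⟨μ ⟨m, hm⟩, ?_, ?_⟩⟩
  · have e : perHom (Gamma0 N) o hf = φ := DFunLike.ext _ _ fun γ => hfφ γ.toMul
    have e2 := hφ ⟨m, hm⟩
    rw [← e] at e2
    exact e2
  · exact congrArg (fun L : inv ℤ (OnePoint ℚ) ℤ ((Gamma0 N).map (mapGL ℚ)) →ₗ[ℤ] ZMod p =>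
      L ⟨m, hm⟩) hμ

lemma period_of_pair [NeZero N] {f : Symb ℤ PG ℤ} (hf : f ∈ inv ℤ PG ℤ (G0 N)) {d : ℤ}
    (h : ∀ m (hm : m ∈ inv ℤ (OnePoint ℚ) ℤ (G0 N)), 2 * d ∣ gp N hm hf) :
    ∀ γ ∈ G0 N, d ∣ pv f γ := by
  rintro _ ⟨γ, hγ, rfl⟩
  obtain ⟨m, hm⟩ := exists_symb_ev (R' := ℤ) (neg_one_mem_gamma0 N) ⟨γ, hγ⟩
  have h1 := h m.1 m.2
  have h2 : gp N m.2 hf = 2 * pv f (mapGL ℚ γ) := hm (perHom (Gamma0 N) o hf)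
  rw [h2] at h1
  exact Int.dvd_of_mul_dvd_mul_left (by norm_num) h1

lemma Rep.eq_zero [NeZero N] (hp : p ≠ 0) {lam : inv ℤ (OnePoint ℚ) ℤ (G0 N) →+ ZMod p}
    {f : Symb ℤ PG ℤ} {hf : f ∈ inv ℤ PG ℤ (G0 N)} (H : Rep p N lam f hf)
    (hz : ∀ γ ∈ G0 N, (p : ℤ) ∣ pv f γ) : lam = 0 := by
  obtain ⟨ψ, hψ⟩ := exists_hom_div hp (perHom (Gamma0 N) o hf)
    (fun γ => hz _ (Subgroup.mem_map_of_mem (mapGL ℚ) γ.2))
  refine DFunLike.ext _ _ fun m => ?_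
  obtain ⟨j, hj, hj'⟩ := H m.1 m.2
  obtain ⟨i, hi⟩ := even_dpair (neg_one_mem_gamma0 N) m ψ
  have h2 : gp N m.2 hf = p * (2 * i) := by
    unfold gp
    rw [hψ, ← hi]
    exact dpair_smul_right _ _ _
  have h3 : j = p * i := by
    have : 2 * j = 2 * (p * i) := by rw [← hj, h2]; ring
    exact mul_left_cancel₀ (by norm_num) this
  show lam ⟨m.1, m.2⟩ = 0
  rw [← hj', h3]
  push_cast
  rw [ZMod.natCast_self, zero_mul]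

lemma dvd_pv_iff {f : Symb ℤ PG ℤ} {γ : GL (Fin 2) ℚ} :
    (p : ℤ) ∣ pv f γ ↔ pv (redSymb p f) γ = 0 :=
  (ZMod.intCast_zmod_eq_zero_iff_dvd _ _).symm

lemma Rep.hecke [NeZero N] {lam : inv ℤ (OnePoint ℚ) ℤ (G0 N) →+ ZMod p}
    {f : Symb ℤ PG ℤ} {hf : f ∈ inv ℤ PG ℤ (G0 N)} (H : Rep p N lam f hf)
    {ℓ : ℕ} (hℓ : ℓ.Prime) (hℓN : ¬ ℓ ∣ N) {a : ZMod p}
    (hlam : ∀ m (hm : m ∈ inv ℤ (OnePoint ℚ) ℤ (G0 N))
      (h : hT ℓ m ∈ inv ℤ (OnePoint ℚ) ℤ (G0 N)), lam ⟨hT ℓ m, h⟩ = a * lam ⟨m, hm⟩) :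
    ∀ γ ∈ G0 N, pv (hT ℓ (redSymb p f)) γ = a * pv (redSymb p f) γ := by
  obtain ⟨a', ha⟩ := ZMod.intCast_surjective a
  have hTf : hT ℓ f ∈ inv ℤ PG ℤ (G0 N) := Fermat.Agent.H41.hT_mem_inv hℓ hℓN hf
  have hg : hT ℓ f - a' • f ∈ inv ℤ PG ℤ (G0 N) :=
    Submodule.sub_mem _ hTf (Submodule.smul_mem _ _ hf)
  have hdiv := period_of_pair (d := (p : ℤ)) hg (by
    intro m hm
    have hTm : hT ℓ m ∈ inv ℤ (OnePoint ℚ) ℤ (G0 N) := Fermat.Agent.H41.hT_mem_inv hℓ hℓN hm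
    obtain ⟨k, hk, hk'⟩ := H _ hTm
    obtain ⟨k', hk1, hk1'⟩ := H _ hm
    have e3 := gp_hT hℓ hℓN hm hTm hf hTf
    rw [gp_sub_right hm hTf hf a' hg, ← e3, hk, hk1]
    have e4 : ((k - a' * k' : ℤ) : ZMod p) = 0 := by
      push_cast
      rw [hk', hk1', hlam m hm hTm, ha, sub_self]
    rw [ZMod.intCast_zmod_eq_zero_iff_dvd] at e4
    obtain ⟨j, hj⟩ := e4
    exact ⟨j, by linear_combination 2 * hj⟩)
  intro γ hγ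
  have h1 := hdiv γ hγ
  have h3 : pv (hT ℓ f - a' • f) γ = pv (hT ℓ f) γ - a' * pv f γ := rfl
  rw [h3, ← ZMod.intCast_zmod_eq_zero_iff_dvd] at h1
  push_cast at h1
  have h4 : ∀ g : Symb ℤ PG ℤ, ((pv g γ : ℤ) : ZMod p) = pv (redSymb p g) γ := fun g => rfl
  rw [h4, h4, ha, redSymb_hT] at h1
  exact sub_eq_zero.mp h1

/-- **Duality mod `p`** for the two degeneracy maps at `q`. -/
theorem dual_key (p : ℕ) [Fact p.Prime] (N : ℕ) [NeZero N] (q : ℕ) (hq : q.Prime) [NeZero q]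
    (hc : Nat.Coprime q N)
    (lam₁ lam₂ : inv ℤ (OnePoint ℚ) ℤ (G0 N) →+ ZMod p)
    (hrel : ∀ m (_ : m ∈ inv ℤ (OnePoint ℚ) ℤ (G0 (N * q)))
      (h₁ : tr N q m ∈ inv ℤ (OnePoint ℚ) ℤ (G0 N))
      (h₂ : tr N q (slash (alW hc) m) ∈ inv ℤ (OnePoint ℚ) ℤ (G0 N)),
      lam₁ ⟨tr N q m, h₁⟩ + lam₂ ⟨tr N q (slash (alW hc) m), h₂⟩ = 0)
    (S : Set ℕ) (hS : ∀ ℓ ∈ S, ℓ.Prime ∧ ¬ ℓ ∣ N * q) (a : ℕ → ZMod p)
    (hT₁ : ∀ ℓ ∈ S, ∀ m (hm : m ∈ inv ℤ (OnePoint ℚ) ℤ (G0 N))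
      (h : hT ℓ m ∈ inv ℤ (OnePoint ℚ) ℤ (G0 N)), lam₁ ⟨hT ℓ m, h⟩ = a ℓ * lam₁ ⟨m, hm⟩)
    (hT₂ : ∀ ℓ ∈ S, ∀ m (hm : m ∈ inv ℤ (OnePoint ℚ) ℤ (G0 N))
      (h : hT ℓ m ∈ inv ℤ (OnePoint ℚ) ℤ (G0 N)), lam₂ ⟨hT ℓ m, h⟩ = a ℓ * lam₂ ⟨m, hm⟩)
    (hne : lam₁ ≠ 0 ∨ lam₂ ≠ 0) :
    ∃ n₁ ∈ inv ℤ PG (ZMod p) (G0 N), ∃ n₂ ∈ inv ℤ PG (ZMod p) (G0 N),
      (∃ γ ∈ G0 N, n₁.1 (γ • o) o ≠ 0 ∨ n₂.1 (γ • o) o ≠ 0) ∧
      (∀ γ ∈ G0 (N * q), n₁.1 (γ • o) o + (slash (hd q) n₂).1 (γ • o) o = 0) ∧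
      (∀ ℓ ∈ S, ∀ γ ∈ G0 N, (hT ℓ n₁).1 (γ • o) o = a ℓ * n₁.1 (γ • o) o ∧
        (hT ℓ n₂).1 (γ • o) o = a ℓ * n₂.1 (γ • o) o) := by
  have hp : p.Prime := Fact.out
  have hqN : ¬ q ∣ N := (Nat.Prime.coprime_iff_not_dvd hq).mp hc
  obtain ⟨f₁, hf₁, H₁⟩ := exists_rep p N lam₁
  obtain ⟨f₂, hf₂, H₂⟩ := exists_rep p N lam₂
  have hred : ∀ {f : Symb ℤ PG ℤ}, f ∈ inv ℤ PG ℤ (G0 N) →
      redSymb p f ∈ inv ℤ PG (ZMod p) (G0 N) := by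
    intro f hf g hg
    rw [← redSymb_slash, hf g hg]
  refine ⟨redSymb p f₁, hred hf₁, redSymb p f₂, hred hf₂, ?_, ?_, ?_⟩
  · -- non vanishing
    by_contra hcon
    push Not at hcon
    rcases hne with h | h
    · exact h (H₁.eq_zero hp.ne_zero fun γ hγ => dvd_pv_iff.mpr (hcon γ hγ).1)
    · exact h (H₂.eq_zero hp.ne_zero fun γ hγ => dvd_pv_iff.mpr (hcon γ hγ).2)
  · -- the relation at level `N q`
    have hf₁N : f₁ ∈ inv ℤ PG ℤ (G0 (N * q)) :=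
      Fermat.Agent.H41.inv_mono (Fermat.Agent.H41.G0_mono (Dvd.intro _ rfl)) hf₁
    have hf₂N : f₂ ∈ inv ℤ PG ℤ (G0 (N * q)) :=
      Fermat.Agent.H41.inv_mono (Fermat.Agent.H41.G0_mono (Dvd.intro _ rfl)) hf₂
    have hf₂d : slash (hd q) f₂ ∈ inv ℤ PG ℤ (G0 (N * q)) := by
      rw [← Fermat.Agent.H41.slash_alW_of_mem hc hf₂]
      exact Fermat.Agent.H41.slash_alW_mem hc hq.ne_zero hf₂N
    have hg : f₁ + slash (hd q) f₂ ∈ inv ℤ PG ℤ (G0 (N * q)) := Submodule.add_mem _ hf₁N hf₂d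
    have hdiv := period_of_pair (d := (p : ℤ)) hg (by
      intro m hm
      have hmW := Fermat.Agent.H41.slash_alW_mem hc hq.ne_zero hm
      have ht₁ : tr N q m ∈ inv ℤ (OnePoint ℚ) ℤ (G0 N) := Fermat.Agent.H41.tr_mem_inv hq hqN hm
      have ht₂ : tr N q (slash (alW hc) m) ∈ inv ℤ (OnePoint ℚ) ℤ (G0 N) :=
        Fermat.Agent.H41.tr_mem_inv hq hqN hmW
      obtain ⟨k, hk, hk'⟩ := H₁ _ ht₁
      obtain ⟨j, hj, hj'⟩ := H₂ _ ht₂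
      rw [gp_add_right hm hf₁N hf₂d hg, ← gp_tr_left hq hqN hm ht₁ hf₁ hf₁N,
        ← gp_tr_alW_left hq hc hm ht₂ hf₂ hf₂d, hk, hj]
      have e4 : ((k + j : ℤ) : ZMod p) = 0 := by
        push_cast
        rw [hk', hj']
        exact hrel m hm ht₁ ht₂
      rw [ZMod.intCast_zmod_eq_zero_iff_dvd] at e4
      obtain ⟨i, hi⟩ := e4
      exact ⟨i, by linear_combination 2 * hi⟩)
    intro γ hγ
    have h1 := hdiv γ hγ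
    have h3 : pv (f₁ + slash (hd q) f₂) γ = pv f₁ γ + pv (slash (hd q) f₂) γ := rfl
    rw [h3, ← ZMod.intCast_zmod_eq_zero_iff_dvd] at h1
    push_cast at h1
    exact h1
  · intro ℓ hℓ γ hγ
    obtain ⟨hℓp, hℓNq⟩ := hS ℓ hℓ
    have hℓN : ¬ ℓ ∣ N := fun h => hℓNq (Dvd.dvd.mul_right h q)
    exact ⟨H₁.hecke hℓp hℓN (hT₁ ℓ hℓ) γ hγ, H₂.hecke hℓp hℓN (hT₂ ℓ hℓ) γ hγ⟩

end Key

end Fermat.Agent.H71
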