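import Fermat.Statements.S21
import Fermat.Agent.H21Inj
import Fermat.Agent.H77ParGenus
import Fermat.Agent.H80S20

set_option autoImplicit false
open ModularCurve

namespace Fermat.Agent.S21

theorem result (N : ℕ) [NeZero N] :
    Function.Injective (ModularCurve.periodHomPair N)
      ∧ LinearMap.range (ModularCurve.periodHomPair N)
          = ModularCurve.Period.parabolicHoms ℂ (CongruenceSubgroup.Gamma0 N) ℂ := by
  apply Fermat.Agent.H21.eichlerShimura_of_le
  have h1 := Fermat.Agent.H77.finrank_parabolicHoms_le N
  have h2 := Fermat.Agent.H80.finrank_eq_genusFormula N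
  rw [← h2] at h1
  exact_mod_cast h1

end Fermat.Agent.S21
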