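import Fermat.Agent.H77Bridge
import Fermat.Agent.S21

/-!
# Bridge between symbols and pairs of weight two cusp forms, unconditionally
-/

set_option autoImplicit false

namespace Fermat.Agent.H77.BR

open Fermat.Agent.H41
open CongruenceSubgroup

theorem exists_bridge (N : ℕ) [NeZero N] :
    ∃ Φ : inv ℂ (OnePoint ℚ) ℂ (G0 N) →ₗ[ℂ]
        (CuspForm (Gamma0 N) 2 × CuspForm (Gamma0 N) 2),
      Function.Surjective Φ ∧
      (∀ m, Φ m = 0 ↔ ∀ γ ∈ G0 N, ∀ x, m.1.1 (γ • x) x = 0) ∧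
      (∀ ℓ (hℓ : ℓ.Prime) (hN : ¬ ℓ ∣ N) m (m' : inv ℂ (OnePoint ℚ) ℂ (G0 N)),
        m'.1 = hT ℓ m.1 → Φ m' = (CuspForm.heckeTLin 2 hℓ hN (Φ m).1,
          CuspForm.heckeTLin 2 hℓ hN (Φ m).2)) ∧
      (∀ r (_ : r.Prime) (hrN : r ∣ N) m (m' : inv ℂ (OnePoint ℚ) ℂ (G0 N)),
        m'.1 = hU r m.1 → Φ m' = (CuspForm.heckeULin 2 hrN (Φ m).1,
          CuspForm.heckeULin 2 hrN (Φ m).2)) :=
  exists_bridge_of N (Fermat.Agent.S21.result N)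

end Fermat.Agent.H77.BR
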