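import Mathlib
import Fermat.Agent.H41AlgOps
import Fermat.Agent.H41DS
import Fermat.Agent.H41IharaHom
import Fermat.Agent.H71Key
import Fermat.Agent.H77BridgeS21
import Fermat.Agent.H61Eig
import Fermat.Agent.H61Bound
import Fermat.Prelude.Def_FLTPrelim_ModularRep

/-!
# Level raising, abstract non-Eisenstein version (helper41)
-/

set_option autoImplicit false

namespace Fermat.Agent.H41

open Matrix Matrix.SpecialLinearGroup CongruenceSubgroup
open scoped MatrixGroups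
open Fermat.Agent.H61.Comm Fermat.Agent.H77.BR ModularFormClass

section Ops

variable {R A : Type*} [CommRing R] [AddCommGroup A] [Module R A]

variable (R A) in
/-- `T_ℓ` as an operator on invariant symbols -/
noncomputable def tOp (M ℓ : ℕ) (hℓ : ℓ.Prime) (hM : ¬ ℓ ∣ M) :
    inv R (OnePoint ℚ) A (G0 M) →ₗ[R] inv R (OnePoint ℚ) A (G0 M) :=
  (hT ℓ).restrict (fun _ hm => hT_mem_inv hℓ hM hm)

@[simp] lemma tOp_coe {M ℓ : ℕ} (hℓ : ℓ.Prime) (hM : ¬ ℓ ∣ M)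
    (m : inv R (OnePoint ℚ) A (G0 M)) : (tOp R A M ℓ hℓ hM m).1 = hT ℓ m.1 := rfl

lemma tOp_comm {M ℓ ℓ' : ℕ} (hℓ : ℓ.Prime) (hM : ¬ ℓ ∣ M) (hℓ' : ℓ'.Prime) (hM' : ¬ ℓ' ∣ M)
    (m : inv R (OnePoint ℚ) A (G0 M)) :
    tOp R A M ℓ hℓ hM (tOp R A M ℓ' hℓ' hM' m) = tOp R A M ℓ' hℓ' hM' (tOp R A M ℓ hℓ hM m) := by
  apply Subtype.ext
  rw [tOp_coe, tOp_coe, tOp_coe, tOp_coe]
  by_cases h : ℓ = ℓ'
  · subst h; rfl
  · exact hT_hT_comm hℓ.ne_zero hℓ'.ne_zero ((Nat.coprime_primes hℓ hℓ').mpr h) (tinv_of_mem m.2)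

end Ops

/-- integral invariant symbols form a finite torsion free group (for the canonical structure) -/
lemma finite_int (M : ℕ) [NeZero M] :
    @Module.Finite ℤ (inv ℤ (OnePoint ℚ) ℤ (G0 M)) _ _ (AddCommGroup.toIntModule _) := by
  have h := (instFiniteInv (R := ℤ) (A := ℤ) M)
  convert h

lemma torsionFree_int (M : ℕ) :
    @Module.IsTorsionFree ℤ (inv ℤ (OnePoint ℚ) ℤ (G0 M)) _ _ (AddCommGroup.toIntModule _) := by
  have h : Module.IsTorsionFree ℤ (inv ℤ (OnePoint ℚ) ℤ (G0 M)) := inferInstance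
  convert h

instance instFiniteInt (M : ℕ) [NeZero M] :
    @Module.Finite ℤ (inv ℤ (OnePoint ℚ) ℤ (G0 M)) _ _ (AddCommGroup.toIntModule _) := finite_int M

instance instTFInt (M : ℕ) :
    @Module.IsTorsionFree ℤ (inv ℤ (OnePoint ℚ) ℤ (G0 M)) _ _ (AddCommGroup.toIntModule _) :=
  torsionFree_int M

/-- integral to complex, on invariants -/
def cInv (M : ℕ) : inv ℤ (OnePoint ℚ) ℤ (G0 M) →+ inv ℂ (OnePoint ℚ) ℂ (G0 M) where
  toFun x := ⟨toC x.1, smap_mem_inv _ x.2⟩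
  map_zero' := Subtype.ext (map_zero _)
  map_add' _ _ := Subtype.ext (map_add _ _ _)

lemma cInv_coe (M : ℕ) (x : inv ℤ (OnePoint ℚ) ℤ (G0 M)) : (cInv M x).1 = toC x.1 := rfl

lemma cInv_injective (M : ℕ) : Function.Injective (cInv M) := by
  intro x y h
  exact Subtype.ext (toC_injective (congrArg Subtype.val h))

lemma cInv_tOp {M ℓ : ℕ} (hℓ : ℓ.Prime) (hM : ¬ ℓ ∣ M) (x : inv ℤ (OnePoint ℚ) ℤ (G0 M)) :
    cInv M (tOp ℤ ℤ M ℓ hℓ hM x) = tOp ℂ ℂ M ℓ hℓ hM (cInv M x) := by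
  apply Subtype.ext
  show toC (hT ℓ x.1) = hT ℓ (toC x.1)
  exact smap_hT _ _ _

lemma span_cInv (M : ℕ) [NeZero M] : Submodule.span ℂ (Set.range (cInv M)) = ⊤ := by
  rw [eq_top_iff]
  rintro ⟨m, hm⟩ -
  have h1 := mem_span_toC hm
  have h2 : (fun n : Symb ℤ (OnePoint ℚ) ℤ => toC n) '' (inv ℤ (OnePoint ℚ) ℤ (G0 M) :
      Set (Symb ℤ (OnePoint ℚ) ℤ)) = (inv ℂ (OnePoint ℚ) ℂ (G0 M)).subtype '' Set.range (cInv M) := by
    ext y
    constructor
    · rintro ⟨n, hn, rfl⟩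
      exact ⟨cInv M ⟨n, hn⟩, ⟨_, rfl⟩, rfl⟩
    · rintro ⟨_, ⟨n, rfl⟩, rfl⟩
      exact ⟨n.1, n.2, rfl⟩
  rw [h2, ← Submodule.map_span, Submodule.mem_map] at h1
  obtain ⟨m', hm', h3⟩ := h1
  have : m' = ⟨m, hm⟩ := Subtype.ext h3
  rwa [← this]

section Functional

lemma cast_sub_val_mem {p : ℕ} [hp : Fact p.Prime] {𝔪 : Ideal (integralClosure ℤ ℂ)}
    (hpm : ((p : ℕ) : integralClosure ℤ ℂ) ∈ 𝔪) (n : ℤ) :
    ((n : ℤ) : integralClosure ℤ ℂ) - ((((n : ℤ) : ZMod p).val : ℕ) : integralClosure ℤ ℂ) ∈ 𝔪 := by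
  obtain ⟨k, hk⟩ : (p : ℤ) ∣ n - (((n : ℤ) : ZMod p).val : ℤ) := by
    rw [← ZMod.intCast_zmod_eq_zero_iff_dvd]
    push_cast
    rw [ZMod.natCast_zmod_val, sub_self]
  have h1 : ((n : ℤ) : integralClosure ℤ ℂ) - ((((n : ℤ) : ZMod p).val : ℕ) : integralClosure ℤ ℂ) =
      (k : integralClosure ℤ ℂ) * ((p : ℕ) : integralClosure ℤ ℂ) := by
    have := congrArg (Int.cast : ℤ → integralClosure ℤ ℂ) hk
    rw [Int.cast_sub, Int.cast_mul, Int.cast_natCast, Int.cast_natCast] at this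
    rw [this, mul_comm]
  rw [h1]
  exact 𝔪.mul_mem_left _ hpm

/-- An eigenform gives an eigenfunctional on integral symbols. -/
theorem exists_functional_of_form {p N q : ℕ} [hp : Fact p.Prime] [NeZero N] (hq : q.Prime)
    (hqN : ¬ q ∣ N) (S : Set ℕ) (hS : ∀ ℓ ∈ S, ℓ.Prime ∧ ¬ ℓ ∣ N)
    (f : CuspForm (Gamma0 N) 2) (hf : f.IsNormalizedEigenform)
    (𝔪 : Ideal (integralClosure ℤ ℂ)) (hmax : 𝔪.IsMaximal)
    (hpm : ((p : ℕ) : integralClosure ℤ ℂ) ∈ 𝔪) (a : ℕ → ZMod p)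
    (hcong : ∀ ℓ ∈ S, ∃ b : integralClosure ℤ ℂ, (b : ℂ) = qCoeff f ℓ ∧
      b - (((a ℓ).val : ℕ) : integralClosure ℤ ℂ) ∈ 𝔪)
    (hLR : ∃ b : integralClosure ℤ ℂ, (b : ℂ) = qCoeff f q ∧
      b ^ 2 - ((q : integralClosure ℤ ℂ) + 1) ^ 2 ∈ 𝔪) :
    ∃ (ε : ZMod p) (lam : inv ℤ (OnePoint ℚ) ℤ (G0 N) →+ ZMod p), ε ^ 2 = 1 ∧ lam ≠ 0 ∧
      (∀ (ℓ : ℕ) (h : ℓ ∈ S) (x : inv ℤ (OnePoint ℚ) ℤ (G0 N)),
        lam (tOp ℤ ℤ N ℓ (hS ℓ h).1 (hS ℓ h).2 x) = a ℓ * lam x) ∧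
      ∀ x, lam (tOp ℤ ℤ N q hq hqN x) = ε * (q + 1) * lam x := by
  classical
  -- the sign
  obtain ⟨bq, hbq, hbq2⟩ := hLR
  obtain ⟨ε, hε, hεm⟩ : ∃ ε : ZMod p, ε ^ 2 = 1 ∧
      bq - (((ε * (q + 1)).val : ℕ) : integralClosure ℤ ℂ) ∈ 𝔪 := by
    have h1 : (bq - ((q : integralClosure ℤ ℂ) + 1)) * (bq + ((q : integralClosure ℤ ℂ) + 1)) ∈ 𝔪 := by
      have : (bq - ((q : integralClosure ℤ ℂ) + 1)) * (bq + ((q : integralClosure ℤ ℂ) + 1)) =
        bq ^ 2 - ((q : integralClosure ℤ ℂ) + 1) ^ 2 := by ring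
      rw [this]; exact hbq2
    rcases hmax.isPrime.mem_or_mem h1 with h2 | h2
    · refine ⟨1, one_pow 2, ?_⟩
      have h3 := cast_sub_val_mem hpm (q + 1)
      have h4 := 𝔪.add_mem h2 h3
      push_cast at h4
      rw [one_mul]
      convert h4 using 1
      ring
    · refine ⟨-1, by ring, ?_⟩
      have h3 := cast_sub_val_mem hpm (-(q + 1))
      have h4 := 𝔪.add_mem h2 h3
      push_cast at h4
      rw [neg_one_mul]
      convert h4 using 1
      rw [neg_add_rev]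
      ring
  choose b hb hbm using hcong
  let ι := Option S
  let pr : ι → ℕ := fun i => i.elim q (fun ℓ => ℓ.1)
  have hpr : ∀ i, (pr i).Prime := by
    rintro (_ | ℓ)
    · exact hq
    · exact (hS _ ℓ.2).1
  have hprN : ∀ i, ¬ (pr i) ∣ N := by
    rintro (_ | ℓ)
    · exact hqN
    · exact (hS _ ℓ.2).2
  let t : ι → inv ℤ (OnePoint ℚ) ℤ (G0 N) →+ inv ℤ (OnePoint ℚ) ℤ (G0 N) := fun i =>
    (tOp ℤ ℤ N (pr i) (hpr i) (hprN i)).toAddMonoidHom
  let tc : ι → inv ℂ (OnePoint ℚ) ℂ (G0 N) →+ inv ℂ (OnePoint ℚ) ℂ (G0 N) := fun i =>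
    (tOp ℂ ℂ N (pr i) (hpr i) (hprN i)).toAddMonoidHom
  have ht : ∀ i j m, t i (t j m) = t j (t i m) := fun i j m =>
    tOp_comm (hpr i) (hprN i) (hpr j) (hprN j) m
  have htc : ∀ i j m, tc i (tc j m) = tc j (tc i m) := fun i j m =>
    tOp_comm (hpr i) (hprN i) (hpr j) (hprN j) m
  let A : ι → ZMod p := fun i => i.elim (ε * (q + 1)) (fun ℓ => a ℓ.1)
  let B : ι → integralClosure ℤ ℂ := fun i => i.elim bq (fun ℓ => b ℓ.1 ℓ.2)
  have hB : ∀ i, (B i : ℂ) = qCoeff f (pr i) := by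
    rintro (_ | ℓ)
    · exact hbq
    · exact hb _ ℓ.2
  have hBm : ∀ i, B i - (((A i).val : ℕ) : integralClosure ℤ ℂ) ∈ 𝔪 := by
    rintro (_ | ℓ)
    · exact hεm
    · exact hbm _ ℓ.2
  -- suppose there is no functional
  by_contra hcon
  letI : Module (MvPolynomial ι ℤ) (inv ℤ (OnePoint ℚ) ℤ (G0 N)) := polyModule t ht
  set χ : MvPolynomial ι ℤ →+* ZMod p := MvPolynomial.eval₂Hom (Int.castRingHom (ZMod p)) A with hχ
  have hno : ∀ lam : inv ℤ (OnePoint ℚ) ℤ (G0 N) →+ ZMod p,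
      (∀ (P : MvPolynomial ι ℤ) (m : inv ℤ (OnePoint ℚ) ℤ (G0 N)),
        lam (P • m) = χ P * lam m) → lam = 0 := by
    intro lam hlam
    by_contra h0
    have h1 : ∀ i m, lam (t i m) = A i * lam m := by
      intro i m
      have := hlam (MvPolynomial.X i) m
      rw [hχ, MvPolynomial.eval₂Hom_X'] at this
      rw [← this]
      congr 1
      exact (polyAct_X t ht i m).symm
    exact hcon ⟨ε, lam, hε, h0, fun ℓ hℓ x => h1 (some ⟨ℓ, hℓ⟩) x, fun x => h1 none x⟩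
  obtain ⟨r, hr, hr0⟩ := Submodule.exists_sub_one_mem_and_smul_eq_zero_of_fg_of_le_smul
    (RingHom.ker χ) (⊤ : Submodule (MvPolynomial ι ℤ) (inv ℤ (OnePoint ℚ) ℤ (G0 N)))
    (fg_of_finite_int _) (le_smul_of_no_functional χ hno)
  have hr1 : ∀ x, polyAct t ht r x = 0 := fun x => hr0 x trivial
  -- r kills complex symbols
  have hr2 : ∀ m, polyAct tc htc r m = 0 := by
    intro m
    have hm : m ∈ Submodule.span ℂ (Set.range (cInv N)) := by rw [span_cInv]; trivial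
    induction hm using Submodule.span_induction with
    | mem x hx =>
      obtain ⟨n, rfl⟩ := hx
      rw [← polyAct_comm t ht tc htc (cInv N) (fun i m => cInv_tOp (hpr i) (hprN i) m), hr1,
        map_zero]
    | zero => rw [map_zero]
    | add x y _ _ hx hy => rw [map_add, hx, hy, add_zero]
    | smul z x _ hx =>
      have h1 := polyAct_comm tc htc tc htc (DistribSMul.toAddMonoidHom _ z)
        (fun i m => (map_smul (tOp ℂ ℂ N (pr i) (hpr i) (hprN i)) z m).symm) r x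
      have h2 : polyAct tc htc r (z • x) = z • polyAct tc htc r x := h1.symm
      rw [h2, hx, smul_zero]
  -- the bridge
  obtain ⟨Φ, hΦs, -, hΦT, -⟩ := exists_bridge N
  obtain ⟨hfT, -⟩ := Fermat.Agent.H61.Eig.eigen_of_isNormalizedEigenform hf
  set ev : MvPolynomial ι ℤ →+* integralClosure ℤ ℂ :=
    MvPolynomial.eval₂Hom (Int.castRingHom (integralClosure ℤ ℂ)) B with hev
  have hind : ∀ (P : MvPolynomial ι ℤ) (m : inv ℂ (OnePoint ℚ) ℂ (G0 N)) (c : ℂ),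
      (Φ m).1 = c • f → (Φ (polyAct tc htc P m)).1 = ((ev P : ℂ) * c) • f := by
    intro P
    induction P using MvPolynomial.induction_on with
    | C k =>
      intro m c hm
      have e1 : (MvPolynomial.C k : MvPolynomial ι ℤ) = (k : MvPolynomial ι ℤ) := by simp
      rw [e1, map_intCast, map_intCast]
      have h9 : ((k : AddMonoid.End (inv ℂ (OnePoint ℚ) ℂ (G0 N))) m) = (k : ℂ) • m :=
        (Int.cast_smul_eq_zsmul ℂ k m).symm
      rw [h9, map_smul, Prod.smul_fst, hm, smul_smul]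
      rfl
    | add P Q hP hQ =>
      intro m c hm
      rw [map_add, map_add]
      show (Φ (polyAct tc htc P m + polyAct tc htc Q m)).1 = _
      rw [map_add, Prod.fst_add, hP m c hm, hQ m c hm, ← add_smul]
      congr 1
      push_cast
      ring
    | mul_X P i hP =>
      intro m c hm
      rw [map_mul, map_mul]
      show (Φ (polyAct tc htc P (polyAct tc htc (MvPolynomial.X i) m))).1 = _
      have h1 : (Φ (polyAct tc htc (MvPolynomial.X i) m)).1 = ((B i : ℂ) * c) • f := by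
        have h2 := hΦT (pr i) (hpr i) (hprN i) m (polyAct tc htc (MvPolynomial.X i) m) (by
          rw [polyAct_X]; rfl)
        rw [h2]
        show CuspForm.heckeTLin 2 (hpr i) (hprN i) (Φ m).1 = _
        rw [hm, map_smul, hfT, ← hB, smul_smul, mul_comm]
      rw [hP _ _ h1, hev, MvPolynomial.eval₂Hom_X']
      congr 1
      push_cast
      ring
  obtain ⟨m, hm⟩ := hΦs (f, 0)
  have h1 := hind r m 1 (by rw [hm, one_smul])
  rw [hr2, map_zero, mul_one] at h1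
  have h2 : (ev r : ℂ) = 0 := (smul_eq_zero.mp h1.symm).resolve_right hf.ne_zero
  have h3 : ev r = 0 := Subtype.ext h2
  -- compare modulo 𝔪
  have hprime := hmax.isPrime
  have hpz : ((p : ℕ) : integralClosure ℤ ℂ ⧸ 𝔪) = 0 := by
    have := Ideal.Quotient.eq_zero_iff_mem.mpr hpm
    rwa [map_natCast] at this
  have hchar : CharP (integralClosure ℤ ℂ ⧸ 𝔪) p := (CharP.charP_iff_prime_eq_zero hp.out).mpr hpz
  have hκ : (Ideal.Quotient.mk 𝔪).comp ev =
      (ZMod.castHom dvd_rfl (integralClosure ℤ ℂ ⧸ 𝔪)).comp χ := by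
    apply MvPolynomial.ringHom_ext
    · intro k
      have e1 : (MvPolynomial.C k : MvPolynomial ι ℤ) = (k : MvPolynomial ι ℤ) := by simp
      rw [e1, map_intCast, map_intCast]
    · intro i
      rw [RingHom.comp_apply, RingHom.comp_apply, hev, hχ, MvPolynomial.eval₂Hom_X',
        MvPolynomial.eval₂Hom_X']
      have h4 := Ideal.Quotient.eq_zero_iff_mem.mpr (hBm i)
      rw [map_sub, map_natCast, sub_eq_zero] at h4
      rw [h4]
      conv_rhs => rw [← ZMod.natCast_zmod_val (A i)]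
      rw [map_natCast]
  have h4 := congrArg (fun g : MvPolynomial ι ℤ →+* integralClosure ℤ ℂ ⧸ 𝔪 => g r) hκ
  have h5 : χ r = 1 := by
    have : χ (r - 1) = 0 := hr
    rw [map_sub, map_one, sub_eq_zero] at this
    exact this
  simp only [RingHom.comp_apply] at h4
  rw [h3, h5, map_zero, map_one] at h4
  exact zero_ne_one h4

end Functional

end Fermat.Agent.H41
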