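import Mathlib
import Fermat.Agent.H41Final

/-!
# Level raising, abstract non-Eisenstein version (helper41)
-/

set_option autoImplicit false

namespace Fermat.Agent.H41

open Matrix Matrix.SpecialLinearGroup CongruenceSubgroup
open scoped MatrixGroups
open Fermat.Agent.H61.Comm Fermat.Agent.H77.BR ModularFormClass

/-- `(q+1)² - T_q²` is injective on the image of `T_{ℓ₀} - (ℓ₀+1)`. -/
theorem delta_inj {N q ℓ₀ : ℕ} [NeZero N] (hq : q.Prime) (hqN : ¬ q ∣ N) (hℓ₀ : ℓ₀.Prime)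
    (hℓ₀N : ¬ ℓ₀ ∣ N) (h1 : (N : ℤ) ∣ (ℓ₀ : ℤ) - 1) (x y : inv ℤ (OnePoint ℚ) ℤ (G0 N))
    (hy : y = tOp ℤ ℤ N ℓ₀ hℓ₀ hℓ₀N x - (ℓ₀ + 1) • x)
    (h : ((q + 1) ^ 2) • y = tOp ℤ ℤ N q hq hqN (tOp ℤ ℤ N q hq hqN y)) : y = 0 := by
  obtain ⟨Φ, -, hΦ0, hΦT, -⟩ := exists_bridge N
  set X := cInv N x with hX
  set Y := cInv N y with hY
  have hYX : Y = tOp ℂ ℂ N ℓ₀ hℓ₀ hℓ₀N X - ((ℓ₀ : ℂ) + 1) • X := by
    rw [hY, hy, map_sub (cInv N) (tOp ℤ ℤ N ℓ₀ hℓ₀ hℓ₀N x) ((ℓ₀ + 1) • x), cInv_tOp, map_nsmul,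
      ← Nat.cast_smul_eq_nsmul ℂ]
    push_cast
    rfl
  have hYq : ((q : ℂ) + 1) ^ 2 • Y = tOp ℂ ℂ N q hq hqN (tOp ℂ ℂ N q hq hqN Y) := by
    have h2 := congrArg (cInv N) h
    rw [map_nsmul, cInv_tOp, cInv_tOp, ← Nat.cast_smul_eq_nsmul ℂ] at h2
    push_cast at h2
    exact h2
  have e1 := hΦT q hq hqN Y (tOp ℂ ℂ N q hq hqN Y) rfl
  have e2 := hΦT q hq hqN _ (tOp ℂ ℂ N q hq hqN (tOp ℂ ℂ N q hq hqN Y)) rfl
  rw [← hYq, map_smul, e1] at e2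
  have hz1 : (Φ Y).1 = 0 := Fermat.Agent.H61.Bound.eq_zero_of_heckeT_sq hq hqN _
    (congrArg Prod.fst e2).symm
  have hz2 : (Φ Y).2 = 0 := Fermat.Agent.H61.Bound.eq_zero_of_heckeT_sq hq hqN _
    (congrArg Prod.snd e2).symm
  have e3 := hΦT ℓ₀ hℓ₀ hℓ₀N X (tOp ℂ ℂ N ℓ₀ hℓ₀ hℓ₀N X) rfl
  have e4 : Φ Y = Φ (tOp ℂ ℂ N ℓ₀ hℓ₀ hℓ₀N X) - ((ℓ₀ : ℂ) + 1) • Φ X := by
    rw [hYX, map_sub Φ (tOp ℂ ℂ N ℓ₀ hℓ₀ hℓ₀N X) (((ℓ₀ : ℂ) + 1) • X), map_smul]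
  rw [e3] at e4
  have e5 := congrArg Prod.fst e4
  have e6 := congrArg Prod.snd e4
  rw [hz1] at e5
  rw [hz2] at e6
  have hnorm : ((ℓ₀ : ℝ) + 1) ≤ ‖((ℓ₀ : ℂ) + 1)‖ := by
    have : ((ℓ₀ : ℂ) + 1) = (((ℓ₀ : ℝ) + 1 : ℝ) : ℂ) := by push_cast; rfl
    rw [this, Complex.norm_real, Real.norm_of_nonneg (by positivity)]
  have hx1 : (Φ X).1 = 0 := Fermat.Agent.H61.Bound.eq_zero_of_heckeT_eq_smul hℓ₀ hℓ₀N _
    ((ℓ₀ : ℂ) + 1) hnorm (sub_eq_zero.mp e5.symm)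
  have hx2 : (Φ X).2 = 0 := Fermat.Agent.H61.Bound.eq_zero_of_heckeT_eq_smul hℓ₀ hℓ₀N _
    ((ℓ₀ : ℂ) + 1) hnorm (sub_eq_zero.mp e6.symm)
  have hper := (hΦ0 X).mp (Prod.ext hx1 hx2)
  have hTX : hT ℓ₀ X.1 = (ℓ₀ + 1) • X.1 := hT_of_per_zero X.2 hper hℓ₀ h1
  have hY0 : Y = 0 := by
    rw [hYX]
    apply Subtype.ext
    show hT ℓ₀ X.1 - ((ℓ₀ : ℂ) + 1) • X.1 = 0
    rw [hTX, ← Nat.cast_smul_eq_nsmul ℂ]
    push_cast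
    rw [sub_self]
  exact cInv_injective N (hY0.trans (map_zero _).symm)

section Maps

variable (N q : ℕ)

/-- inclusion of level `N` in level `N q` -/
def incl : inv ℤ (OnePoint ℚ) ℤ (G0 N) →+ inv ℤ (OnePoint ℚ) ℤ (G0 (N * q)) where
  toFun x := ⟨x.1, inv_mono (G0_mono (Dvd.intro _ rfl)) x.2⟩
  map_zero' := rfl
  map_add' _ _ := rfl

variable {N q}

/-- `x ↦ x|W` from level `N` to level `N q` -/
noncomputable def inclW (h : Nat.Coprime q N) (hq : q ≠ 0) :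
    inv ℤ (OnePoint ℚ) ℤ (G0 N) →+ inv ℤ (OnePoint ℚ) ℤ (G0 (N * q)) where
  toFun x := ⟨slash (alW h) x.1, slash_alW_mem h hq (inv_mono (G0_mono (Dvd.intro _ rfl)) x.2)⟩
  map_zero' := Subtype.ext (map_zero _)
  map_add' _ _ := Subtype.ext (map_add _ _ _)

/-- the trace -/
noncomputable def trA [NeZero q] (hq : q.Prime) (hqN : ¬ q ∣ N) :
    inv ℤ (OnePoint ℚ) ℤ (G0 (N * q)) →+ inv ℤ (OnePoint ℚ) ℤ (G0 N) where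
  toFun x := ⟨tr N q x.1, tr_mem_inv hq hqN x.2⟩
  map_zero' := Subtype.ext (map_zero _)
  map_add' _ _ := Subtype.ext (map_add _ _ _)

/-- the trace composed with `W` -/
noncomputable def trW [NeZero q] (hq : q.Prime) (hqN : ¬ q ∣ N) (h : Nat.Coprime q N) :
    inv ℤ (OnePoint ℚ) ℤ (G0 (N * q)) →+ inv ℤ (OnePoint ℚ) ℤ (G0 N) where
  toFun x := ⟨tr N q (slash (alW h) x.1), tr_mem_inv hq hqN (slash_alW_mem h hq.ne_zero x.2)⟩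
  map_zero' := Subtype.ext (by
    show tr N q (slash (alW h) 0) = 0
    rw [map_zero, map_zero])
  map_add' x y := Subtype.ext (by
    show tr N q (slash (alW h) (x.1 + y.1)) = _
    rw [map_add, map_add]; rfl)

end Maps

/-- If the reduction mod `p` of an integral invariant symbol vanishes, the symbol is divisible
by `p`. -/
lemma exists_smul_of_smap_zero {p N : ℕ} [hp : Fact p.Prime] (x : inv ℤ (OnePoint ℚ) ℤ (G0 N))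
    (h : smap ℤ (ZMod p) (Int.castAddHom (ZMod p)) x.1 = 0) :
    ∃ x' : inv ℤ (OnePoint ℚ) ℤ (G0 N), x = p • x' := by
  have hp0 : (p : ℤ) ≠ 0 := by exact_mod_cast hp.out.ne_zero
  have h1 : ∀ r s, ∃ z : ℤ, x.1.1 r s = p * z := by
    intro r s
    have h2 : ((x.1.1 r s : ℤ) : ZMod p) = 0 := by
      have := congrArg (fun m : Symb (ZMod p) (OnePoint ℚ) (ZMod p) => m.1 r s) h
      exact this
    exact (ZMod.intCast_zmod_eq_zero_iff_dvd _ _).mp h2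
  choose z hz using h1
  refine ⟨⟨⟨z, fun r s u => ?_⟩, ?_⟩, ?_⟩
  · apply mul_left_cancel₀ hp0
    rw [mul_add, ← hz, ← hz, ← hz, x.1.2]
  · intro g hg
    ext r s
    show z (g • r) (g • s) = z r s
    apply mul_left_cancel₀ hp0
    rw [← hz, ← hz]
    exact inv_apply x.2 hg r s
  · apply Subtype.ext
    ext r s
    show x.1.1 r s = p • z r s
    rw [hz, nsmul_eq_mul]

/-- The existence of a `q`-new eigenfunctional. -/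
theorem exists_new_functional {p N q : ℕ} [hp : Fact p.Prime] [NeZero N] [NeZero q] (hq : q.Prime)
    (hqN : ¬ q ∣ N) (hc : Nat.Coprime q N) (S : Set ℕ) (hS : ∀ ℓ ∈ S, ℓ.Prime ∧ ¬ ℓ ∣ N * q)
    (a : ℕ → ZMod p)
    (hNE1 : ∃ ℓ ∈ S, (a ℓ) ^ 2 ≠ ((ℓ : ZMod p) + 1) ^ 2)
    (hNE2 : ∀ M : ℕ, M ≠ 0 → ∃ ℓ ∈ S, (M : ℤ) ∣ (ℓ : ℤ) - 1 ∧ a ℓ ≠ (ℓ : ZMod p) + 1)
    (f : CuspForm (Gamma0 N) 2) (hf : f.IsNormalizedEigenform)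
    (𝔪 : Ideal (integralClosure ℤ ℂ)) (hmax : 𝔪.IsMaximal)
    (hpm : ((p : ℕ) : integralClosure ℤ ℂ) ∈ 𝔪)
    (hcong : ∀ ℓ ∈ S, ∃ b : integralClosure ℤ ℂ, (b : ℂ) = qCoeff f ℓ ∧
      b - (((a ℓ).val : ℕ) : integralClosure ℤ ℂ) ∈ 𝔪)
    (hLR : ∃ b : integralClosure ℤ ℂ, (b : ℂ) = qCoeff f q ∧
      b ^ 2 - ((q : integralClosure ℤ ℂ) + 1) ^ 2 ∈ 𝔪)
    (K : AddSubgroup (inv ℤ (OnePoint ℚ) ℤ (G0 (N * q))))
    (hK : ∀ v, v ∈ K ↔ trA hq hqN v = 0 ∧ trW hq hqN hc v = 0) :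
    ∃ μ : K →+ ZMod p, (∀ (ℓ : ℕ) (hℓ : ℓ ∈ S) (m m' : K),
      m'.1 = tOp ℤ ℤ (N * q) ℓ (hS ℓ hℓ).1 (hS ℓ hℓ).2 m.1 → μ m' = a ℓ * μ m) ∧ μ ≠ 0 := by
  have hSN : ∀ ℓ ∈ S, ¬ ℓ ∣ N := fun ℓ hℓ h => (hS ℓ hℓ).2 (Dvd.dvd.mul_right h q)
  have hN0 : N ≠ 0 := NeZero.ne N
  have : NeZero (N * q) := ⟨mul_ne_zero hN0 hq.ne_zero⟩
  obtain ⟨ε, lam, hε, hlam, hlamT, hlamq⟩ := exists_functional_of_form hq hqN S
    (fun ℓ hℓ => ⟨(hS ℓ hℓ).1, hSN ℓ hℓ⟩) f hf 𝔪 hmax hpm a hcong hLR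
  obtain ⟨ℓ₀, hℓ₀S, hℓ₀1, hℓ₀a⟩ := hNE2 N hN0
  let t : S → inv ℤ (OnePoint ℚ) ℤ (G0 N) →+ inv ℤ (OnePoint ℚ) ℤ (G0 N) := fun ℓ =>
    (tOp ℤ ℤ N ℓ.1 (hS ℓ.1 ℓ.2).1 (hSN ℓ.1 ℓ.2)).toAddMonoidHom
  let t' : S → inv ℤ (OnePoint ℚ) ℤ (G0 (N * q)) →+ inv ℤ (OnePoint ℚ) ℤ (G0 (N * q)) := fun ℓ =>
    (tOp ℤ ℤ (N * q) ℓ.1 (hS ℓ.1 ℓ.2).1 (hS ℓ.1 ℓ.2).2).toAddMonoidHom
  have hmemq : ∀ x : inv ℤ (OnePoint ℚ) ℤ (G0 N), x.1 ∈ inv ℤ (OnePoint ℚ) ℤ (G0 (N * q)) :=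
    fun x => inv_mono (G0_mono (Dvd.intro _ rfl)) x.2
  have htcomm : ∀ i j m, t i (t j m) = t j (t i m) := fun i j m =>
    tOp_comm (hS i.1 i.2).1 (hSN i.1 i.2) (hS j.1 j.2).1 (hSN j.1 j.2) m
  have htcomm' : ∀ i j m, t' i (t' j m) = t' j (t' i m) := fun i j m =>
    tOp_comm (hS i.1 i.2).1 (hS i.1 i.2).2 (hS j.1 j.2).1 (hS j.1 j.2).2 m
  obtain ⟨μ, hμ, hμ0⟩ := core_ops (p := p) (fun ℓ : S => a ℓ.1) t htcomm t' htcomm'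
    (incl N q) (inclW hc hq.ne_zero) (trA hq hqN) (trW hq hqN hc)
    (tOp ℤ ℤ N q hq hqN).toAddMonoidHom
    (fun i m => rfl)
    (fun i m => Subtype.ext (hT_alW hc hq.ne_zero (hS i.1 i.2).1 (hS i.1 i.2).2 (hmemq m)).symm)
    (fun i m => Subtype.ext (hT_tr hq hqN (hS i.1 i.2).1 (hS i.1 i.2).2 m.2).symm)
    (fun i m => Subtype.ext (by
      show tr N q (slash (alW hc) (hT i.1 m.1)) = hT i.1 (tr N q (slash (alW hc) m.1))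
      rw [← hT_alW hc hq.ne_zero (hS i.1 i.2).1 (hS i.1 i.2).2 m.2,
        hT_tr hq hqN (hS i.1 i.2).1 (hS i.1 i.2).2 (slash_alW_mem hc hq.ne_zero m.2)]))
    (fun i m => tOp_comm hq hqN (hS i.1 i.2).1 (hSN i.1 i.2) m) q
    (fun x y => Subtype.ext (by
      show tr N q (x.1 + slash (alW hc) y.1) = (q + 1) • x.1 + hT q y.1
      rw [map_add, tr_of_mem x.2, slash_alW_of_mem hc y.2, tr_slash_hd hq hqN y.2]))
    (fun x y => Subtype.ext (by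
      show tr N q (slash (alW hc) (x.1 + slash (alW hc) y.1)) = hT q x.1 + (q + 1) • y.1
      rw [map_add, slash_alW_alW hc hq.ne_zero (hmemq y), map_add, tr_of_mem y.2,
        slash_alW_of_mem hc x.2, tr_slash_hd hq hqN x.2]))
    (by
      -- Ihara mod p
      rintro x y ⟨w, hw⟩ hxy
      have hsum : smap ℤ (ZMod p) (Int.castAddHom (ZMod p)) x.1 +
          slash (hd q) (smap ℤ (ZMod p) (Int.castAddHom (ZMod p)) y.1) = 0 := by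
        have h1 : x.1 + slash (alW hc) y.1 = p • w.1 := congrArg Subtype.val hw
        rw [slash_alW_of_mem hc y.2] at h1
        have h2 := congrArg (smap ℤ (ZMod p) (Int.castAddHom (ZMod p))) h1
        rw [map_add, map_nsmul, smap_slash] at h2
        rw [h2]
        ext r s
        show p • ((w.1.1 r s : ℤ) : ZMod p) = 0
        rw [nsmul_eq_mul, ZMod.natCast_self, zero_mul]
      have heig : ∀ ℓ ∈ S, hT ℓ (smap ℤ (ZMod p) (Int.castAddHom (ZMod p)) x.1) =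
          a ℓ • smap ℤ (ZMod p) (Int.castAddHom (ZMod p)) x.1 := by
        intro ℓ hℓ
        obtain ⟨x', -, hx', -⟩ := hxy ⟨ℓ, hℓ⟩
        have h1 : hT ℓ x.1 - (a ℓ).val • x.1 = p • x'.1 := congrArg Subtype.val hx'
        have h2 := congrArg (smap ℤ (ZMod p) (Int.castAddHom (ZMod p))) h1
        rw [map_sub, map_nsmul, map_nsmul, smap_hT] at h2
        ext r s
        have h3 := congrArg (fun m : Symb (ZMod p) (OnePoint ℚ) (ZMod p) => m.1 r s) h2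
        have h4 : (hT ℓ (smap ℤ (ZMod p) (Int.castAddHom (ZMod p)) x.1)).1 r s -
            (a ℓ).val • ((x.1.1 r s : ℤ) : ZMod p) = p • ((x'.1.1 r s : ℤ) : ZMod p) := h3
        rw [nsmul_eq_mul, nsmul_eq_mul, ZMod.natCast_zmod_val, ZMod.natCast_self, zero_mul,
          sub_eq_zero] at h4
        exact h4
      obtain ⟨h1, h2⟩ := ihara_eigen (A := ZMod p) hq hN0 hc (smap_mem_inv _ x.2)
        (smap_mem_inv _ y.2) hsum S (fun ℓ hℓ => (hS ℓ hℓ).1) a heig hNE1 hNE2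
      obtain ⟨x', hx'⟩ := exists_smul_of_smap_zero x h1
      obtain ⟨y', hy'⟩ := exists_smul_of_smap_zero y h2
      exact ⟨x', y', hx', hy'⟩)
    (by
      -- duality and Ihara for homomorphisms
      intro lam₁ lam₂ h₁ h₂ hrel
      by_contra hne
      rw [not_and_or] at hne
      obtain ⟨n₁, hn₁, n₂, hn₂, ⟨γ, hγ, hγne⟩, hper, hTn⟩ := Fermat.Agent.H71.dual_key p N q hq hc
        lam₁ lam₂ (fun m hm _ _ => hrel ⟨m, hm⟩) S hS a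
        (fun ℓ hℓ m hm _ => h₁ ⟨ℓ, hℓ⟩ ⟨m, hm⟩) (fun ℓ hℓ m hm _ => h₂ ⟨ℓ, hℓ⟩ ⟨m, hm⟩) hne
      have := ihara_hom hq hN0 hc hn₁ hn₂ _ hper S hS a (fun ℓ hℓ γ hγ => (hTn ℓ hℓ γ hγ).1)
        (fun ℓ hℓ γ hγ => (hTn ℓ hℓ γ hγ).2) hNE1 hNE2 γ hγ
      rcases hγne with h | h
      · exact h this.1
      · exact h this.2)
    ⟨ℓ₀, hℓ₀S⟩ (ℓ₀ + 1) (by push_cast; exact hℓ₀a)
    (fun x y hy h => delta_inj hq hqN (hS ℓ₀ hℓ₀S).1 (hSN ℓ₀ hℓ₀S) hℓ₀1 x y hy h)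
    lam (fun i x => hlamT i.1 i.2 x) ε hε hlamq hlam K hK
  exact ⟨μ, fun ℓ hℓ m m' h => hμ ⟨ℓ, hℓ⟩ m m' h, hμ0⟩

end Fermat.Agent.H41
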