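import Mathlib
import Fermat.Agent.H41Raise

/-!
# Level raising: descent to cusp forms (helper41)
-/

set_option autoImplicit false

namespace Fermat.Agent.H41

open Matrix Matrix.SpecialLinearGroup CongruenceSubgroup
open scoped MatrixGroups
open Fermat.Agent.H61.Comm Fermat.Agent.H77.BR ModularFormClass

lemma natCast_eq_of_sub_mem {p : ℕ} [hp : Fact p.Prime] {𝔪 : Ideal (integralClosure ℤ ℂ)}
    (hmax : 𝔪.IsMaximal) (hpm : ((p : ℕ) : integralClosure ℤ ℂ) ∈ 𝔪) (x y : ℕ)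
    (h : (x : integralClosure ℤ ℂ) - (y : integralClosure ℤ ℂ) ∈ 𝔪) : (x : ZMod p) = y := by
  have hpz : ((p : ℕ) : integralClosure ℤ ℂ ⧸ 𝔪) = 0 := by
    have := Ideal.Quotient.eq_zero_iff_mem.mpr hpm
    rwa [map_natCast] at this
  have hprime := hmax.isPrime
  have hchar : CharP (integralClosure ℤ ℂ ⧸ 𝔪) p := (CharP.charP_iff_prime_eq_zero hp.out).mpr hpz
  have h1 := Ideal.Quotient.eq_zero_iff_mem.mpr h
  rw [map_sub, map_natCast, map_natCast, sub_eq_zero] at h1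
  have h2 := (CharP.natCast_eq_natCast (integralClosure ℤ ℂ ⧸ 𝔪) p).mp h1
  exact (ZMod.natCast_eq_natCast_iff _ _ _).mpr h2

/-- The space of `q`-new complex symbols with given eigenvalues. -/
def newEig (N q : ℕ) [NeZero q] (hc : Nat.Coprime q N) (S : Set ℕ) (α : S → ℂ) :
    Submodule ℂ (inv ℂ (OnePoint ℚ) ℂ (G0 (N * q))) where
  carrier := {m | tr N q m.1 = 0 ∧ tr N q (slash (alW hc) m.1) = 0 ∧
    ∀ ℓ : S, hT ℓ.1 m.1 = α ℓ • m.1}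
  zero_mem' := by
    refine ⟨map_zero _, ?_, fun ℓ => ?_⟩
    · show tr N q (slash (alW hc) 0) = 0
      rw [map_zero, map_zero]
    · show hT ℓ.1 0 = α ℓ • 0
      rw [map_zero, smul_zero]
  add_mem' := by
    rintro x y ⟨hx1, hx2, hx3⟩ ⟨hy1, hy2, hy3⟩
    refine ⟨?_, ?_, fun ℓ => ?_⟩
    · show tr N q (x.1 + y.1) = 0
      rw [map_add, hx1, hy1, add_zero]
    · show tr N q (slash (alW hc) (x.1 + y.1)) = 0
      rw [map_add, map_add, hx2, hy2, add_zero]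
    · show hT ℓ.1 (x.1 + y.1) = α ℓ • (x.1 + y.1)
      rw [map_add, hx3, hy3, smul_add]
  smul_mem' := by
    rintro c x ⟨hx1, hx2, hx3⟩
    refine ⟨?_, ?_, fun ℓ => ?_⟩
    · show tr N q (c • x.1) = 0
      rw [map_smul, hx1, smul_zero]
    · show tr N q (slash (alW hc) (c • x.1)) = 0
      rw [map_smul, map_smul, hx2, smul_zero]
    · show hT ℓ.1 (c • x.1) = α ℓ • (c • x.1)
      rw [map_smul, hx3, smul_comm]

section Stab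

variable {N q : ℕ} [NeZero N] [NeZero q] (hq : q.Prime) (hqN : ¬ q ∣ N) (hc : Nat.Coprime q N)
  {S : Set ℕ} (hS : ∀ ℓ ∈ S, ℓ.Prime ∧ ¬ ℓ ∣ N * q) (α : S → ℂ)

include hq hqN hS in
/-- `T_ℓ` preserves the space. -/
lemma newEig_T {ℓ : ℕ} (hℓ : ℓ.Prime) (hℓN : ¬ ℓ ∣ N * q)
    {m : inv ℂ (OnePoint ℚ) ℂ (G0 (N * q))} (hm : m ∈ newEig N q hc S α) :
    tOp ℂ ℂ (N * q) ℓ hℓ hℓN m ∈ newEig N q hc S α := by
  obtain ⟨h1, h2, h3⟩ := hm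
  refine ⟨?_, ?_, fun ℓ' => ?_⟩
  · rw [tOp_coe, ← hT_tr hq hqN hℓ hℓN m.2, h1, map_zero]
  · rw [tOp_coe, ← hT_alW hc hq.ne_zero hℓ hℓN m.2,
      ← hT_tr hq hqN hℓ hℓN (slash_alW_mem hc hq.ne_zero m.2), h2, map_zero]
  · have h4 := congrArg Subtype.val (tOp_comm (R := ℂ) (A := ℂ) (hS ℓ'.1 ℓ'.2).1 (hS ℓ'.1 ℓ'.2).2 hℓ hℓN m)
    rw [tOp_coe, tOp_coe, tOp_coe, tOp_coe] at h4
    rw [tOp_coe, h4, h3, map_smul]

/-- `U_r` as operator -/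
noncomputable def uOp (M r : ℕ) (hr : r.Prime) (hrM : r ∣ M) :
    inv ℂ (OnePoint ℚ) ℂ (G0 M) →ₗ[ℂ] inv ℂ (OnePoint ℚ) ℂ (G0 M) :=
  (hU r).restrict (fun _ hm => hU_mem_inv hr hrM hm)

lemma uOp_coe {M r : ℕ} (hr : r.Prime) (hrM : r ∣ M) (m : inv ℂ (OnePoint ℚ) ℂ (G0 M)) :
    (uOp M r hr hrM m).1 = hU r m.1 := rfl

include hq hqN hS in
lemma newEig_U {r : ℕ} (hr : r.Prime) (hrN : r ∣ N)
    {m : inv ℂ (OnePoint ℚ) ℂ (G0 (N * q))} (hm : m ∈ newEig N q hc S α) :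
    uOp (N * q) r hr (Dvd.dvd.mul_right hrN q) m ∈ newEig N q hc S α := by
  obtain ⟨h1, h2, h3⟩ := hm
  refine ⟨?_, ?_, fun ℓ' => ?_⟩
  · rw [uOp_coe, ← hU_tr hq hqN hr hrN m.2, h1, map_zero]
  · rw [uOp_coe, ← hU_alW hc hq.ne_zero hr hrN m.2,
      ← hU_tr hq hqN hr hrN (slash_alW_mem hc hq.ne_zero m.2), h2, map_zero]
  · have hcop : Nat.Coprime ℓ'.1 r := (Nat.coprime_primes (hS _ ℓ'.2).1 hr).mpr (fun h =>
      (hS _ ℓ'.2).2 (by rw [h]; exact Dvd.dvd.mul_right hrN q))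
    rw [uOp_coe, hT_hU_comm (hS _ ℓ'.2).1.ne_zero hr.ne_zero hcop (tinv_of_mem m.2), h3, map_smul]

include hq in
/-- On the new space `U_q m = - m|W`. -/
lemma newEig_Uq {m : inv ℂ (OnePoint ℚ) ℂ (G0 (N * q))} (hm : m ∈ newEig N q hc S α) :
    hU q m.1 = - slash (alW hc) m.1 := by
  obtain ⟨h1, h2, h3⟩ := hm
  have h4 := tr_eq_add hc hq (slash_alW_mem hc hq.ne_zero m.2)
  rw [h2, slash_alW_alW hc hq.ne_zero m.2] at h4
  exact (neg_eq_of_add_eq_zero_right h4.symm).symm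

include hq in
lemma newEig_UqUq {m : inv ℂ (OnePoint ℚ) ℂ (G0 (N * q))} (hm : m ∈ newEig N q hc S α) :
    hU q (hU q m.1) = m.1 := by
  rw [newEig_Uq hq hc α hm, map_neg]
  obtain ⟨h1, h2, h3⟩ := hm
  have h4 := tr_eq_add hc hq m.2
  rw [h1] at h4
  rw [neg_eq_iff_eq_neg]
  exact (neg_eq_of_add_eq_zero_right h4.symm).symm

include hq hS in
lemma newEig_U_q {m : inv ℂ (OnePoint ℚ) ℂ (G0 (N * q))} (hm : m ∈ newEig N q hc S α) :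
    uOp (N * q) q hq (Dvd.intro_left N rfl) m ∈ newEig N q hc S α := by
  have hUq := newEig_Uq hq hc α hm
  obtain ⟨h1, h2, h3⟩ := hm
  refine ⟨?_, ?_, fun ℓ' => ?_⟩
  · rw [uOp_coe, hUq, map_neg, h2, neg_zero]
  · rw [uOp_coe, hUq, map_neg, slash_alW_alW hc hq.ne_zero m.2, map_neg, h1, neg_zero]
  · rw [uOp_coe, hUq, map_neg, hT_alW hc hq.ne_zero (hS _ ℓ'.2).1 (hS _ ℓ'.2).2 m.2, h3, map_smul,
      smul_neg]

end Stab

/-- From a nonzero new eigen-symbol with non-Eisenstein eigenvalues to an eigenform. -/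
theorem exists_eigenform_of_newEig {N q : ℕ} [NeZero N] [NeZero q] (hq : q.Prime) (hqN : ¬ q ∣ N)
    (hc : Nat.Coprime q N) {S : Set ℕ} (hS : ∀ ℓ ∈ S, ℓ.Prime ∧ ¬ ℓ ∣ N * q) (α : S → ℂ)
    {v : inv ℂ (OnePoint ℚ) ℂ (G0 (N * q))} (hv : v ∈ newEig N q hc S α) (hv0 : v ≠ 0)
    (ℓ₀ : S) (hℓ₀ : ((N * q : ℕ) : ℤ) ∣ (ℓ₀.1 : ℤ) - 1) (hαne : α ℓ₀ ≠ (ℓ₀.1 : ℂ) + 1) :
    ∃ g : CuspForm (Gamma0 (N * q)) 2, g.IsNormalizedEigenform ∧ (∀ ℓ : S, qCoeff g ℓ.1 = α ℓ) ∧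
      qCoeff g q ^ 2 = 1 := by
  have : NeZero (N * q) := ⟨mul_ne_zero (NeZero.ne N) hq.ne_zero⟩
  obtain ⟨Φ, -, hΦ0, hΦT, hΦU⟩ := exists_bridge (N * q)
  -- Φ v ≠ 0
  have hΦv : Φ v ≠ 0 := by
    intro h
    have hper := (hΦ0 v).mp h
    have h1 := hT_of_per_zero v.2 hper (hS _ ℓ₀.2).1 hℓ₀
    rw [hv.2.2 ℓ₀, ← Nat.cast_smul_eq_nsmul ℂ] at h1
    have h2 : (α ℓ₀ - ((ℓ₀.1 + 1 : ℕ) : ℂ)) • v.1 = 0 := by
      have h6 := sub_smul (α ℓ₀) (((ℓ₀.1 + 1 : ℕ)) : ℂ) v.1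
      rw [h1, sub_self] at h6
      exact h6
    rcases smul_eq_zero.mp h2 with h3 | h3
    · exact hαne (by push_cast at h3; exact sub_eq_zero.mp h3)
    · exact hv0 (Subtype.ext h3)
  -- the general statement for a projection
  have key : ∀ (π : (CuspForm (Gamma0 (N * q)) 2 × CuspForm (Gamma0 (N * q)) 2) →ₗ[ℂ]
      CuspForm (Gamma0 (N * q)) 2)
      (_ : ∀ (A : CuspForm (Gamma0 (N * q)) 2 →ₗ[ℂ] CuspForm (Gamma0 (N * q)) 2) z,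
        π (A z.1, A z.2) = A (π z)), π (Φ v) ≠ 0 →
      ∃ g : CuspForm (Gamma0 (N * q)) 2, g.IsNormalizedEigenform ∧ (∀ ℓ : S, qCoeff g ℓ.1 = α ℓ) ∧
      qCoeff g q ^ 2 = 1 := by
    intro π hπ hne
    let V : Submodule ℂ (CuspForm (Gamma0 (N * q)) 2) := (newEig N q hc S α).map (π ∘ₗ Φ)
    have hV : V ≠ ⊥ := by
      intro h
      have : π (Φ v) ∈ V := ⟨v, hv, rfl⟩
      rw [h, Submodule.mem_bot] at this
      exact hne this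
    have hT' : ∀ ℓ (hℓ : ℓ.Prime) (hN : ¬ ℓ ∣ N * q) (m : inv ℂ (OnePoint ℚ) ℂ (G0 (N * q))),
        CuspForm.heckeTLin 2 hℓ hN (π (Φ m)) = π (Φ (tOp ℂ ℂ (N * q) ℓ hℓ hN m)) := by
      intro ℓ hℓ hN m
      rw [hΦT ℓ hℓ hN m (tOp ℂ ℂ (N * q) ℓ hℓ hN m) rfl, hπ]
    have hU' : ∀ r (hr : r.Prime) (hrN : r ∣ N * q) (m : inv ℂ (OnePoint ℚ) ℂ (G0 (N * q))),
        CuspForm.heckeULin 2 hrN (π (Φ m)) = π (Φ (uOp (N * q) r hr hrN m)) := by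
      intro r hr hrN m
      rw [hΦU r hr hrN m (uOp (N * q) r hr hrN m) rfl, hπ]
    obtain ⟨g, ⟨m, hm, hgm⟩, hg, hgT, hgU⟩ := Fermat.Agent.H61.Eig.exists_eigenform V hV
      (by
        rintro ℓ hℓ hN _ ⟨m, hm, rfl⟩
        rw [Submodule.mem_comap]
        refine ⟨_, newEig_T hq hqN hc hS α hℓ hN hm, ?_⟩
        exact (hT' ℓ hℓ hN m).symm)
      (by
        rintro r hr hrN _ ⟨m, hm, rfl⟩
        rw [Submodule.mem_comap]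
        rcases (Nat.Prime.dvd_mul hr).mp hrN with h | h
        · refine ⟨_, newEig_U hq hqN hc hS α hr h hm, ?_⟩
          exact (hU' r hr hrN m).symm
        · have hrq : r = q := (Nat.prime_dvd_prime_iff_eq hr hq).mp h
          subst hrq
          refine ⟨_, newEig_U_q hq hc hS α hm, ?_⟩
          exact (hU' r hr hrN m).symm)
    have hgm' : g = π (Φ m) := hgm.symm
    have hg0 : g ≠ 0 := hg.ne_zero
    refine ⟨g, hg, fun ℓ => ?_, ?_⟩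
    · have h1 := hT' ℓ.1 (hS _ ℓ.2).1 (hS _ ℓ.2).2 m
      have h2 : tOp ℂ ℂ (N * q) ℓ.1 (hS _ ℓ.2).1 (hS _ ℓ.2).2 m = α ℓ • m := Subtype.ext (hm.2.2 ℓ)
      rw [h2, map_smul, map_smul, ← hgm', hgT] at h1
      have h3 : (qCoeff g ℓ.1 - α ℓ) • g = 0 := by rw [sub_smul, h1, sub_self]
      exact sub_eq_zero.mp ((smul_eq_zero.mp h3).resolve_right hg0)
    · have hqd : q ∣ N * q := Dvd.intro_left N rfl
      have h1 := hU' q hq hqd m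
      rw [← hgm', hgU q hq hqd] at h1
      have h2 := hU' q hq hqd (uOp (N * q) q hq hqd m)
      have h3 : uOp (N * q) q hq hqd (uOp (N * q) q hq hqd m) = m :=
        Subtype.ext (newEig_UqUq hq hc α hm)
      rw [h3, ← hgm', ← h1, map_smul, hgU q hq hqd, smul_smul] at h2
      have h4 : (qCoeff g q ^ 2 - 1) • g = 0 := by
        rw [sub_smul, pow_two, h2, one_smul, sub_self]
      exact sub_eq_zero.mp ((smul_eq_zero.mp h4).resolve_right hg0)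
  by_cases h1 : (Φ v).1 = 0
  · have h2 : (Φ v).2 ≠ 0 := fun h => hΦv (Prod.ext h1 h)
    exact key (LinearMap.snd ℂ _ _) (fun A z => rfl) h2
  · exact key (LinearMap.fst ℂ _ _) (fun A z => rfl) h1

/-- **Level raising** for an abstract non-Eisenstein system of eigenvalues mod `p`. -/
theorem level_raising {p N q : ℕ} [hp : Fact p.Prime] (hN : 0 < N) (hq : q.Prime)
    (hqN : ¬ q ∣ N) (S : Set ℕ) (hS : ∀ ℓ ∈ S, ℓ.Prime ∧ ¬ ℓ ∣ N * q)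
    (a : ℕ → ZMod p)
    (hNE1 : ∃ ℓ ∈ S, (a ℓ) ^ 2 ≠ ((ℓ : ZMod p) + 1) ^ 2)
    (hNE2 : ∀ M : ℕ, M ≠ 0 → ∃ ℓ ∈ S, (M : ℤ) ∣ (ℓ : ℤ) - 1 ∧ a ℓ ≠ (ℓ : ZMod p) + 1)
    (f : CuspForm (Gamma0 N) 2) (hf : f.IsNormalizedEigenform)
    (𝔪 : Ideal (integralClosure ℤ ℂ)) (hmax : 𝔪.IsMaximal)
    (hpm : ((p : ℕ) : integralClosure ℤ ℂ) ∈ 𝔪)
    (hcong : ∀ ℓ ∈ S, ∃ b : integralClosure ℤ ℂ, (b : ℂ) = qCoeff f ℓ ∧
      b - (((a ℓ).val : ℕ) : integralClosure ℤ ℂ) ∈ 𝔪)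
    (hLR : ∃ b : integralClosure ℤ ℂ, (b : ℂ) = qCoeff f q ∧
      b ^ 2 - ((q : integralClosure ℤ ℂ) + 1) ^ 2 ∈ 𝔪) :
    ∃ (g : CuspForm (Gamma0 (N * q)) 2) (𝔪' : Ideal (integralClosure ℤ ℂ)),
      g.IsNormalizedEigenform ∧ 𝔪'.IsMaximal ∧ ((p : ℕ) : integralClosure ℤ ℂ) ∈ 𝔪' ∧
      (∀ ℓ ∈ S, ∃ b : integralClosure ℤ ℂ, (b : ℂ) = qCoeff g ℓ ∧
        b - (((a ℓ).val : ℕ) : integralClosure ℤ ℂ) ∈ 𝔪') ∧ qCoeff g q ^ 2 = 1 := by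
  have hN0 : NeZero N := ⟨hN.ne'⟩
  have hq0 : NeZero q := ⟨hq.ne_zero⟩
  have hNq0 : NeZero (N * q) := ⟨mul_ne_zero hN.ne' hq.ne_zero⟩
  have hc : Nat.Coprime q N := (Nat.Prime.coprime_iff_not_dvd hq).mpr hqN
  let K : AddSubgroup (inv ℤ (OnePoint ℚ) ℤ (G0 (N * q))) :=
    (trA hq hqN).ker ⊓ (trW hq hqN hc).ker
  have hK : ∀ v, v ∈ K ↔ trA hq hqN v = 0 ∧ trW hq hqN hc v = 0 := fun v => Iff.rfl
  obtain ⟨μ, hμ, hμ0⟩ := exists_new_functional hq hqN hc S hS a hNE1 hNE2 f hf 𝔪 hmax hpm hcong hLR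
    K hK
  -- operators on K
  have hKT : ∀ (ℓ : S) (m : K), tOp ℤ ℤ (N * q) ℓ.1 (hS _ ℓ.2).1 (hS _ ℓ.2).2 m.1 ∈ K := by
    intro ℓ m
    obtain ⟨h1, h2⟩ := (hK m.1).mp m.2
    refine (hK _).mpr ⟨Subtype.ext ?_, Subtype.ext ?_⟩
    · show tr N q (hT ℓ.1 m.1.1) = 0
      have h1' : tr N q m.1.1 = 0 := congrArg Subtype.val h1
      rw [← hT_tr hq hqN (hS _ ℓ.2).1 (hS _ ℓ.2).2 m.1.2, h1', map_zero]
    · show tr N q (slash (alW hc) (hT ℓ.1 m.1.1)) = 0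
      have h2' : tr N q (slash (alW hc) m.1.1) = 0 := congrArg Subtype.val h2
      rw [← hT_alW hc hq.ne_zero (hS _ ℓ.2).1 (hS _ ℓ.2).2 m.1.2,
        ← hT_tr hq hqN (hS _ ℓ.2).1 (hS _ ℓ.2).2 (slash_alW_mem hc hq.ne_zero m.1.2), h2', map_zero]
  let tK : S → K →+ K := fun ℓ =>
    { toFun := fun m => ⟨tOp ℤ ℤ (N * q) ℓ.1 (hS _ ℓ.2).1 (hS _ ℓ.2).2 m.1, hKT ℓ m⟩
      map_zero' := Subtype.ext (map_zero _)
      map_add' := fun _ _ => Subtype.ext (map_add _ _ _) }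
  have hKfin : Module.Finite ℤ K :=
    Module.Finite.of_injective K.subtype.toIntLinearMap K.subtype_injective
  have hKtf : Module.IsTorsionFree ℤ K :=
    Function.Injective.moduleIsTorsionFree (N := inv ℤ (OnePoint ℚ) ℤ (G0 (N * q)))
      K.subtype K.subtype_injective (fun r m => map_zsmul K.subtype r m)
  let c : K →+ Symb ℂ (OnePoint ℚ) ℂ :=
    (toC.comp (inv ℤ (OnePoint ℚ) ℤ (G0 (N * q))).subtype.toAddMonoidHom).comp K.subtype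
  have hcinj : Function.Injective c := by
    intro x y h
    exact Subtype.ext (Subtype.ext (toC_injective h))
  obtain ⟨α, v, 𝔪', hv0, hvspan, hmax', hpm', hvT, hαm⟩ := exists_eigenvector_of_functional
    (p := p) (fun ℓ : S => (hT ℓ.1 : Symb ℂ (OnePoint ℚ) ℂ →ₗ[ℂ] Symb ℂ (OnePoint ℚ) ℂ)) c hcinj tK
    (fun ℓ m => (smap_hT _ _ _).symm)
    (fun i j m => Subtype.ext (tOp_comm (hS _ i.2).1 (hS _ i.2).2 (hS _ j.2).1 (hS _ j.2).2 m.1))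
    (fun ℓ : S => a ℓ.1) μ (fun ℓ m => hμ ℓ.1 ℓ.2 m (tK ℓ m) rfl) hμ0
  -- v is new
  have hvprop : ∀ w ∈ Submodule.span ℂ (Set.range c), w ∈ inv ℂ (OnePoint ℚ) ℂ (G0 (N * q)) ∧
      tr N q w = 0 ∧ tr N q (slash (alW hc) w) = 0 := by
    intro w hw
    induction hw using Submodule.span_induction with
    | mem x hx =>
      obtain ⟨m, rfl⟩ := hx
      obtain ⟨h1, h2⟩ := (hK m.1).mp m.2
      have h1' : tr N q m.1.1 = 0 := congrArg Subtype.val h1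
      have h2' : tr N q (slash (alW hc) m.1.1) = 0 := congrArg Subtype.val h2
      refine ⟨smap_mem_inv _ m.1.2, ?_, ?_⟩
      · show tr N q (toC m.1.1) = 0
        rw [toC, ← smap_tr, h1', map_zero]
      · show tr N q (slash (alW hc) (toC m.1.1)) = 0
        rw [toC, ← smap_slash, ← smap_tr, h2', map_zero]
    | zero => exact ⟨Submodule.zero_mem _, map_zero _, by rw [map_zero, map_zero]⟩
    | add x y _ _ hx hy =>
      exact ⟨Submodule.add_mem _ hx.1 hy.1, by rw [map_add, hx.2.1, hy.2.1, add_zero],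
        by rw [map_add, map_add, hx.2.2, hy.2.2, add_zero]⟩
    | smul z x _ hx =>
      exact ⟨Submodule.smul_mem _ _ hx.1, by rw [map_smul, hx.2.1, smul_zero],
        by rw [map_smul, map_smul, hx.2.2, smul_zero]⟩
  replace hvprop := hvprop v hvspan
  obtain ⟨ℓ₀, hℓ₀S, hℓ₀1, hℓ₀a⟩ := hNE2 (N * q) (NeZero.ne _)
  obtain ⟨g, hg, hgα, hgq⟩ := exists_eigenform_of_newEig hq hqN hc hS (fun ℓ => (α ℓ : ℂ))
    (v := ⟨v, hvprop.1⟩) ⟨hvprop.2.1, hvprop.2.2, hvT⟩ (fun h => hv0 (congrArg Subtype.val h))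
    ⟨ℓ₀, hℓ₀S⟩ hℓ₀1 (by
      intro h
      have h1 : α ⟨ℓ₀, hℓ₀S⟩ = ((ℓ₀ + 1 : ℕ) : integralClosure ℤ ℂ) := by
        apply Subtype.ext
        rw [h]
        push_cast
        rfl
      have h2 := hαm ⟨ℓ₀, hℓ₀S⟩
      rw [h1] at h2
      have h3 := natCast_eq_of_sub_mem hmax' hpm' _ _ h2
      rw [ZMod.natCast_zmod_val] at h3
      push_cast at h3
      exact hℓ₀a h3.symm)
  exact ⟨g, 𝔪', hg, hmax', hpm', fun ℓ hℓ => ⟨α ⟨ℓ, hℓ⟩, (hgα ⟨ℓ, hℓ⟩).symm, hαm ⟨ℓ, hℓ⟩⟩, hgq⟩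

end Fermat.Agent.H41
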