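import Fermat.Statements.S41
import Fermat.Agent.H41Char0
import Fermat.Agent.H62NE

set_option autoImplicit false
open WeierstrassCurve WeierstrassCurve.Affine WeierstrassCurve.Affine.Point
open scoped CongruenceSubgroup
open WeierstrassCurve

namespace Fermat.Agent.S41

theorem result
    (E : WeierstrassCurve ℚ) [E.IsElliptic] {W : WeierstrassCurve ℤ} (hW : W.IsIntegralModelOf E)
    {p N q' : ℕ} (hp : p.Prime) (hp2 : p ≠ 2) (hN : 0 < N) (hq' : q'.Prime) (hq'N : ¬ q' ∣ N) (hq'p : q' ≠ p)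
    (hirr : GaloisRepIsIrreducible (K := AlgebraicClosure ℚ) ℚ E p)
    (f : CuspForm (CongruenceSubgroup.Gamma0 N) 2) (𝔪 : Ideal (integralClosure ℤ ℂ))
    (hf : f.IsNormalizedEigenform) (hmax : 𝔪.IsMaximal) (hpm : (p : integralClosure ℤ ℂ) ∈ 𝔪)
    (hcong : ∀ ℓ : ℕ, ℓ.Prime → W.IsGoodPrimeFor ℓ → ¬ ℓ ∣ N → ℓ ≠ p →
      ∃ a : integralClosure ℤ ℂ, (a : ℂ) = ModularFormClass.qCoeff f ℓ ∧
        a - ((W.apOfModel ℓ : ℤ) : integralClosure ℤ ℂ) ∈ 𝔪)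
    (hLR : ∃ a : integralClosure ℤ ℂ, (a : ℂ) = ModularFormClass.qCoeff f q' ∧
      a ^ 2 - ((q' : integralClosure ℤ ℂ) + 1) ^ 2 ∈ 𝔪) :
    ∃ (g : CuspForm (CongruenceSubgroup.Gamma0 (N * q')) 2) (𝔪' : Ideal (integralClosure ℤ ℂ)),
      g.IsNormalizedEigenform ∧ 𝔪'.IsMaximal ∧ (p : integralClosure ℤ ℂ) ∈ 𝔪' ∧
      (∀ ℓ : ℕ, ℓ.Prime → W.IsGoodPrimeFor ℓ → ¬ ℓ ∣ N * q' → ℓ ≠ p →
        ∃ a : integralClosure ℤ ℂ, (a : ℂ) = ModularFormClass.qCoeff g ℓ ∧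
          a - ((W.apOfModel ℓ : ℤ) : integralClosure ℤ ℂ) ∈ 𝔪') ∧
      g.IsNewAt q' := by
  haveI : Fact p.Prime := ⟨hp⟩
  have hΔ : E.Δ ≠ 0 := E.isUnit_Δ.ne_zero
  have hB : 0 < N * q' := Nat.mul_pos hN hq'.pos
  obtain ⟨g, 𝔪', hg, hmax', hpm', hgc, hgq⟩ := Fermat.Agent.H41.level_raising (p := p) hN hq' hq'N
    {ℓ | ℓ.Prime ∧ W.IsGoodPrimeFor ℓ ∧ ¬ ℓ ∣ N * q' ∧ ℓ ≠ p}
    (fun ℓ hℓ => ⟨hℓ.1, hℓ.2.2.1⟩) (fun ℓ => ((W.apOfModel ℓ : ℤ) : ZMod p))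
    (by
      obtain ⟨ℓ, h1, h2, h3, h4, h5⟩ := Fermat.Agent.H62.not_eisenstein1 hΔ hW hp2 hirr hB
      exact ⟨ℓ, ⟨h1, h2, h3, h4⟩, h5⟩)
    (by
      intro M hM
      obtain ⟨ℓ, h1, h2, h3, h4, h5, h6⟩ := Fermat.Agent.H62.not_eisenstein2 hΔ hW hp2 hirr hB
        (Nat.pos_of_ne_zero hM)
      refine ⟨ℓ, ⟨h1, h2, h3, h4⟩, ?_, h6⟩
      rw [← ZMod.intCast_zmod_eq_zero_iff_dvd]
      push_cast
      rw [h5, sub_self])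
    f hf 𝔪 hmax hpm
    (by
      rintro ℓ ⟨h1, h2, h3, h4⟩
      obtain ⟨b, hb, hbm⟩ := hcong ℓ h1 h2 (fun h => h3 (Dvd.dvd.mul_right h q')) h4
      refine ⟨b, hb, ?_⟩
      have h5 := 𝔪.add_mem hbm (Fermat.Agent.H41.cast_sub_val_mem hpm (W.apOfModel ℓ))
      rwa [sub_add_sub_cancel] at h5)
    hLR
  refine ⟨g, 𝔪', hg, hmax', hpm', ?_, hgq⟩
  intro ℓ h1 h2 h3 h4
  obtain ⟨b, hb, hbm⟩ := hgc ℓ ⟨h1, h2, h3, h4⟩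
  refine ⟨b, hb, ?_⟩
  have h5 := 𝔪'.sub_mem hbm (Fermat.Agent.H41.cast_sub_val_mem hpm' (W.apOfModel ℓ))
  rwa [sub_sub_sub_cancel_right] at h5

end Fermat.Agent.S41
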