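import Mathlib
import Fermat.Agent.S41

/-!
# Guide, level raising (statement S41)

Written by helper41 (with helper71). The other files on the change of the level are `GuideLevels`
(overview, S43, S38), `GuideLevelsMazur`, `GuideLevelsIhara`, `GuideLevelsS44` and `GuideLevelsAtP` (S39,
S40).

**What is proved.** Let `W[p]` be irreducible, `p` odd, and modular of level `N` by an eigenform `f` (modulo
a maximal ideal `𝔪` of the ring of all algebraic integers, `p ∈ 𝔪`), and let `q` be a prime, `q ∤ N p`, with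
`a_q(f)² ≡ (q + 1)² mod 𝔪`. Then `W[p]` is modular of level `N q` by an eigenform `g` with `a_q(g)² = 1`,
that is by a form which is new at `q`. This is `levelRaising` below (= S41).

**How it is proved** (reading order = order of the theorems).
1. Modular symbols of level `N` with coefficients in any abelian group `A`: functions of two cusps
   (`mem_symb_iff`, `mem_inv_iff`, `hecke_apply`, `hecke_matrices`). For `A = ℤ` they form a finitely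
   generated group, and over `ℂ` they are pairs of cusp forms up to boundary symbols (`manin_symbols`,
   `symbols_cuspForms`).
2. Two degeneracy maps from level `N` to level `N q` and two traces back; the composition is the matrix
   `(q+1, T_q; T_q, q+1)` (`degeneracy_trace`, `atkinLehner_symbols`). Its determinant `(q+1)² - T_q²` is
   congruent to 0 at `f` by assumption, but injective on non-Eisenstein symbols (`norm_eigenvalue_lt`).
3. Ihara's lemma modulo `p`: the two degeneracy maps are jointly injective on symbols modulo `p` whose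
   system of eigenvalues is not Eisenstein (`ihara_symbols`), and so are the dual maps on homomorphisms
   (`ihara_homs`, `perfect_duality`, `duality`). The group theory behind it is `generation` and
   `SL2Q_mod_boundary`.
4. Algebra (`congruence_module`): if the system of `f` did not occur modulo `p` in the kernel of the two
   traces (the symbols that are new at `q`), 3. would make the degeneracy maps and the traces, and so the
   matrix in 2., bijective near this system, but its determinant vanishes there by assumption.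
5. `form_to_functional` gives the functional needed in 4., `newSymbol_to_form` returns to cusp forms (on the
   new symbols `U_q² = 1`). Result: `level_raising_abstract`.
6. For an elliptic curve with irreducible `W[p]` the system `a_ℓ(W) mod p` is not Eisenstein
   (`not_eisenstein`), which gives `levelRaising`.

**Files** Symbols: `H41Defs`, `H41Manin`, `H41Trace`, `H61Comm`, `H61Eig`, `H41Parab`, `H77BrA`, `H77BrB`,
`H77Bridge`, `H77BridgeS21`. Ihara's lemma: `H41Germs`, `H41Ihara`, `H41Bdry`, `H41IharaHom`. Duality: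
`H71PSL2`, `H71Ext`, `H71Cosum`, `H71Cusp`, `H71Pot`, `H71Nat`, `H71Perf`, `H71Adj`, `H71Dual`, `H71Key`.
Algebra and conclusion: `H41Alg`, `H41AlgOps`, `H41DS`, `H41Char0`, `H41Raise`, `H41Final`. The same for
localised modules over Hecke and deformation rings (S59, S60): `H71RBr`, `H71RInj`, `H71RDual`, `H71RSurj`,
`H71REig`, `H71RModK`, `H71RMod`, `H71RGrp`, `H41Step`, `H41FullX`.

**More details** in `GuideIharaSteps` (the steps of Ihara's lemma and of the argument for level raising),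
`GuideRaisingSteps` (Hecke operators and traces on symbols, new eigenspaces, the bound for `T_q`) and
`GuideSymbolDuality` (symbols and homomorphisms, perfect duality, Ihara's lemma with coefficients).

**Serves** S41. The operators, degeneracy maps and traces, `generation`, `SL2Q_mod_boundary`,
`ihara_symbols` (Ihara's lemma) and `not_eisenstein` are also in the closure of S01 (level lowering and
modularity lifting, where the coefficient rings are Hecke and deformation rings), `norm_eigenvalue_lt`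
through S15; `manin_symbols`, `symbols_cuspForms`, `ihara_homs`, `perfect_duality`, `duality` and the
argument for level raising are used for S41 only (S01 uses the pairing and its adjoints with other
coefficients, see `GuideSymbolDuality`).

**Notes** NOTES-S41 [203], NOTES-S41-DUAL, NOTES-S41-DINV. Modules `H41*`, `H71*`, `H77Bridge*`, `H61Bound`.
-/

set_option autoImplicit false

namespace Fermat.Agent.Guide.LevelsRaising

open CongruenceSubgroup Matrix.SpecialLinearGroup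
open scoped MatrixGroups

/-! ### Symbols, Hecke operators, degeneracy maps -/

/-- **Symbols.** For a set `X` (always with an action of `GL₂(ℚ)`) and an `R`-module `A`, `H41.Symb R X A`
is the `R`-module of the functions `m` on `X × X` with `m(x,y) + m(y,z) = m(x,z)`. For the set of cusps
`X = P¹(ℚ)` (`OnePoint ℚ`) these are modular symbols: `m(x,y)` is the value of `m` on the path from the cusp
`x` to the cusp `y`. For `X = GL₂(ℚ)/center` (`H41.PG`) they describe homomorphisms on subgroups of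
`GL₂(ℚ)`: `γ ↦ m(γo, o)`. -/
theorem mem_symb_iff {R X A : Type*} [CommRing R] [AddCommGroup A] [Module R A] (m : X → X → A) :
    m ∈ H41.Symb R X A ↔ ∀ x y z : X, m x y + m y z = m x z := Iff.rfl

/-- **Invariant symbols**: `m(gx, gy) = m(x, y)` for all `g` in the subgroup `Γ`. With `X = P¹(ℚ)` and
`Γ = H41.G0 N = Γ₀(N)` these are the modular symbols of level `N` with coefficients in `A`. For any `g`,
`m|g = H41.slash g m` is the symbol `(x, y) ↦ m(gx, gy)`. -/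
theorem mem_inv_iff {G R X A : Type*} [Group G] [CommRing R] [AddCommGroup A] [Module R A] [MulAction G X]
    (Γ : Subgroup G) (m : H41.Symb R X A) :
    m ∈ H41.inv R X A Γ ↔ ∀ g ∈ Γ, ∀ x y : X, m.1 (g • x) (g • y) = m.1 x y :=
  ⟨fun h _ hg x y => H41.inv_apply h hg x y, fun h g hg => H41.Symb.ext (h g hg)⟩

/-- **The groups** used below, all inside `GL₂(ℚ)`: `H41.G0 N = Γ₀(N)`, and `H41.GamA q N`, the matrices of
determinant 1 over `ℤ[1/q]` that are congruent to 1 modulo `N ℤ[1/q]`; here `H41.JA q N = N ℤ[1/q]`, and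
`H41.GamA 1 N = Γ(N)`. -/
theorem mem_groups_iff (q N : ℕ) (g : GL (Fin 2) ℚ) :
    (g ∈ H41.G0 N ↔ ∃ γ : SL(2, ℤ), (N : ℤ) ∣ γ 1 0 ∧ (mapGL ℚ γ : GL (Fin 2) ℚ) = g) ∧
    (g ∈ H41.GamA q N ↔ g 0 0 * g 1 1 - g 0 1 * g 1 0 = 1 ∧ g 0 0 - 1 ∈ H41.JA q N ∧
      g 0 1 ∈ H41.JA q N ∧ g 1 0 ∈ H41.JA q N ∧ g 1 1 - 1 ∈ H41.JA q N) ∧
    ∀ x : ℚ, x ∈ H41.JA q N ↔ ∃ (n : ℕ) (z : ℤ), x * (q : ℚ) ^ n = (N : ℚ) * z :=
  ⟨H41.mem_G0, Iff.rfl, fun _ => Iff.rfl⟩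

/-- **Hecke operators** on symbols: `(T_ℓ m)(x,y) = ∑_j m(h_j x, h_j y) + m(δ x, δ y)`, `0 ≤ j < ℓ`, where
`h_j = H41.hm ℓ j = (1 j; 0 ℓ)` and `δ = H41.hd ℓ = (ℓ 0; 0 1)`; `U_ℓ` is the first sum. -/
theorem hecke_apply {R X A : Type*} [CommRing R] [AddCommGroup A] [Module R A]
    [MulAction (GL (Fin 2) ℚ) X] (ℓ : ℕ) (m : H41.Symb R X A) :
    (∀ x y : X, (H41.hU ℓ m).1 x y =
      ∑ j ∈ Finset.range ℓ, m.1 (H41.hm ℓ j • x) (H41.hm ℓ j • y)) ∧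
    ∀ x y : X, (H41.hT ℓ m).1 x y = (H41.hU ℓ m).1 x y + m.1 (H41.hd ℓ • x) (H41.hd ℓ • y) := by
  refine ⟨fun x y => ?_, fun x y => by rw [H41.hT_apply, H41.hU_apply]; rfl⟩
  rw [H41.hU_apply, AddSubmonoidClass.coe_finsetSum, Finset.sum_apply, Finset.sum_apply]; rfl

/-- The matrices in `hecke_apply` (`H41Defs`). -/
theorem hecke_matrices (ℓ j : ℕ) (hℓ : ℓ ≠ 0) :
    (H41.hm ℓ j : Matrix (Fin 2) (Fin 2) ℚ) = !![1, (j : ℚ); 0, (ℓ : ℚ)] ∧
    (H41.hd ℓ : Matrix (Fin 2) (Fin 2) ℚ) = !![(ℓ : ℚ), 0; 0, 1] := by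
  rw [H41.hm_eq hℓ, H41.hd_eq hℓ]; exact ⟨rfl, rfl⟩

/-- **Manin's trick**: if the values `m(g∞, g0)`, `g ∈ SL₂(ℤ)`, of a symbol lie in a subgroup `H` of `A`,
all values do (continued fractions). So a symbol of level `N` is determined by one value for each coset of
`Γ₀(N)` in `SL₂(ℤ)`: over a noetherian ring the symbols of level `N` are a finitely generated module, and
those with complex coefficients are spanned by those with integral coefficients (`H41.toC`: an integral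
symbol as a complex one). Proved in `H41Manin`. -/
theorem manin_symbols (N : ℕ) [NeZero N] :
    (∀ (A : Type) [AddCommGroup A] (m : H41.Symb ℤ (OnePoint ℚ) A) (H : AddSubgroup A),
      (∀ g : SL(2, ℤ), m.1 ((mapGL ℚ g : GL (Fin 2) ℚ) • OnePoint.infty)
        ((mapGL ℚ g : GL (Fin 2) ℚ) • ((0 : ℚ) : OnePoint ℚ)) ∈ H) → ∀ x y, m.1 x y ∈ H) ∧
    (∀ (R : Type) [CommRing R] [IsNoetherianRing R],
      Module.Finite R (H41.inv R (OnePoint ℚ) R (H41.G0 N))) ∧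
    ∀ m ∈ H41.inv ℂ (OnePoint ℚ) ℂ (H41.G0 N),
      m ∈ Submodule.span ℂ ((fun n => H41.toC n) '' (H41.inv ℤ (OnePoint ℚ) ℤ (H41.G0 N) :
        Set (H41.Symb ℤ (OnePoint ℚ) ℤ))) :=
  ⟨fun _ _ m H h => H41.manin m.1 m.2 H h, fun _ _ _ => inferInstance, fun _ h => H41.mem_span_toC h⟩

/-- **The two degeneracy maps and the two traces.** `q` is a prime, `q ∤ N`. Level `N` goes to level `N q`
by the inclusion and by `m ↦ m|W`, where `W = H41.alW` is the Atkin-Lehner matrix at `q` (on level `N` it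
acts as `diag(q,1)`), and `H41.tr N q` is the trace from level `N q` to level `N` (sum over the `q + 1`
cosets). Then `tr(m) = (q+1) m` and `tr(m|W) = T_q m` for `m` of level `N`. So the composition (symbols of
level `N`)² → (level `N q`) → (level `N`)² is the matrix `(q+1, T_q; T_q, q+1)`. (`H41Trace`) -/
theorem degeneracy_trace {R A : Type*} [CommRing R] [AddCommGroup A] [Module R A] {N q : ℕ} [NeZero q]
    (hq : q.Prime) (hqN : ¬ q ∣ N) (hc : Nat.Coprime q N) :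
    (∀ m ∈ H41.inv R (OnePoint ℚ) A (H41.G0 (N * q)),
      H41.tr N q m ∈ H41.inv R (OnePoint ℚ) A (H41.G0 N)) ∧
    ∀ m ∈ H41.inv R (OnePoint ℚ) A (H41.G0 N),
      H41.tr N q m = (q + 1) • m ∧
      H41.slash (H41.alW hc) m = H41.slash (H41.hd q) m ∧
      H41.tr N q (H41.slash (H41.alW hc) m) = H41.hT q m :=
  ⟨fun _ hm => H41.tr_mem_inv hq hqN hm, fun _ hm => ⟨H41.tr_of_mem hm, H41.slash_alW_of_mem hc hm,
    by rw [H41.slash_alW_of_mem hc hm]; exact H41.tr_slash_hd hq hqN hm⟩⟩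

/-- **Atkin-Lehner involution** at `q` on symbols of level `N q`: it preserves the level, is an involution,
and `tr(m) = m + U_q(m|W)`. Hence on the *new* symbols, those with `tr(m) = 0 = tr(m|W)`, the operator `U_q`
is `-W` and `U_q² = 1`. (`H41Trace`) -/
theorem atkinLehner_symbols {R A : Type*} [CommRing R] [AddCommGroup A] [Module R A] {N q : ℕ} [NeZero q]
    (hq : q.Prime) (hc : Nat.Coprime q N) (m : H41.Symb R (OnePoint ℚ) A)
    (hm : m ∈ H41.inv R (OnePoint ℚ) A (H41.G0 (N * q))) :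
    H41.slash (H41.alW hc) m ∈ H41.inv R (OnePoint ℚ) A (H41.G0 (N * q)) ∧
    H41.slash (H41.alW hc) (H41.slash (H41.alW hc) m) = m ∧
    H41.tr N q m = m + H41.hU q (H41.slash (H41.alW hc) m) :=
  ⟨H41.slash_alW_mem hc hq.ne_zero hm, H41.slash_alW_alW hc hq.ne_zero hm, H41.tr_eq_add hc hq hm⟩

/-! ### Symbols and cusp forms -/

/-- **Complex symbols and cusp forms.** There is a surjective linear map `Φ` from the modular symbols of level
`N` over `ℂ` to pairs of cusp forms of weight 2 on `Γ₀(N)`, compatible with all `T_ℓ`, `ℓ ∤ N`, and `U_r`,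
`r ∣ N`; its kernel consists of the boundary symbols `m` (`m(γx, x) = 0` for all `γ ∈ Γ₀(N)`). It is the
Eichler-Shimura isomorphism (S21: the homomorphisms `Γ₀(N) → ℂ` that vanish on parabolic elements are pairs of
cusp forms) applied to the homomorphism `γ ↦ m(γx, x)`. (`H77BrA`, `H77BrB`, `H77Bridge`,
`H77BridgeS21`; the steps: section 8 of `GuideRaisingSteps`.) -/
theorem symbols_cuspForms (N : ℕ) [NeZero N] :
    ∃ Φ : H41.inv ℂ (OnePoint ℚ) ℂ (H41.G0 N) →ₗ[ℂ]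
        (CuspForm (Gamma0 N) 2 × CuspForm (Gamma0 N) 2),
      Function.Surjective Φ ∧
      (∀ m, Φ m = 0 ↔ ∀ γ ∈ H41.G0 N, ∀ x, m.1.1 (γ • x) x = 0) ∧
      (∀ ℓ (hℓ : ℓ.Prime) (hN : ¬ ℓ ∣ N) m (m' : H41.inv ℂ (OnePoint ℚ) ℂ (H41.G0 N)),
        m'.1 = H41.hT ℓ m.1 → Φ m' = (CuspForm.heckeTLin 2 hℓ hN (Φ m).1,
          CuspForm.heckeTLin 2 hℓ hN (Φ m).2)) ∧
      (∀ r (_ : r.Prime) (hrN : r ∣ N) m (m' : H41.inv ℂ (OnePoint ℚ) ℂ (H41.G0 N)),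
        m'.1 = H41.hU r m.1 → Φ m' = (CuspForm.heckeULin 2 hrN (Φ m).1,
          CuspForm.heckeULin 2 hrN (Φ m).2)) :=
  H77.BR.exists_bridge N

/-- **Bound of the eigenvalues**: an eigenvalue `a` of `T_q`, `q ∤ N` prime, on cusp forms of weight 2
satisfies `|a| < q + 1`: evaluate `T_q f = a f` at a point where `|f(τ)| Im(τ)` is maximal. It replaces the
Ramanujan-Petersson conjecture: `(q+1)² - T_q²` is injective on cusp forms. (`H61Bound`) -/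
theorem norm_eigenvalue_lt {N q : ℕ} (hq : q.Prime) (hqN : ¬ q ∣ N) (f : CuspForm (Gamma0 N) 2)
    (hf : f ≠ 0) (a : ℂ) (h : CuspForm.heckeTLin 2 hq hqN f = a • f) : ‖a‖ < q + 1 :=
  H61.Bound.norm_eigenvalue_lt hq hqN f hf a h

/-! ### Ihara's lemma -/

/-- **Generation.** Let `q` be a prime, `q ∤ N`. A subgroup `S` of `GL₂(ℚ)` that contains `Γ₀(N)` and its
conjugate by `diag(q, 1)` contains all matrices of determinant 1 with entries in `ℤ[1/q]` and lower left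
entry in `N ℤ[1/q]` (explicit elementary matrices; no tree). (`H41Ihara`) -/
theorem generation {N q : ℕ} (hq : q.Prime) (hc : Nat.Coprime q N) (S : Subgroup (GL (Fin 2) ℚ))
    (h1 : H41.G0 N ≤ S) (h2 : ∀ g ∈ H41.G0 N, (H41.hd q)⁻¹ * g * H41.hd q ∈ S)
    (x : GL (Fin 2) ℚ) (hx : x 0 0 * x 1 1 - x 0 1 * x 1 0 = 1)
    (h00 : ∃ (n : ℕ) (z : ℤ), x 0 0 * (q : ℚ) ^ n = z) (h01 : ∃ (n : ℕ) (z : ℤ), x 0 1 * (q : ℚ) ^ n = z)
    (h10 : ∃ (n : ℕ) (z : ℤ), x 1 0 * (q : ℚ) ^ n = N * z)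
    (h11 : ∃ (n : ℕ) (z : ℤ), x 1 1 * (q : ℚ) ^ n = z) : x ∈ S :=
  H41.gen_mem hq hc h1 h2 hx (by simpa [H41.mem_JA] using h00) (by simpa [H41.mem_JA] using h01) h10
    (by simpa [H41.mem_JA] using h11)

/-- **`SL₂(ℚ)` acts trivially modulo boundary symbols.** `H41.GamA q N` is the group of the matrices of
determinant 1 over `ℤ[1/q]` which are congruent to 1 modulo `N ℤ[1/q]`; let the symbol `m` be invariant
under it. If `g, h ∈ GL₂(ℚ)` have the same determinant, `b = m|g - m|h` is a boundary symbol: `b(xr, r) = 0`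
for all cusps `r` and all `x` in a principal congruence subgroup `H41.GamA 1 M`. This is the congruence
subgroup property of `SL₂(ℤ[1/q])` in the form which is needed; it is proved with Dirichlet's theorem on
primes in arithmetic progressions and one matrix identity. (`H41Germs.IsGerm.conj_Dq`, `H41Ihara.SL_le_KK`,
`H41Bdry`) -/
theorem SL2Q_mod_boundary {R A : Type*} [CommRing R] [AddCommGroup A] [Module R A] {q N : ℕ} (hq : q.Prime)
    (hN : N ≠ 0) (hc : Nat.Coprime q N) (m : H41.Symb R (OnePoint ℚ) A)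
    (hm : ∀ γ ∈ H41.GamA q N, H41.slash γ m = m) (g h : GL (Fin 2) ℚ)
    (hgh : g 0 0 * g 1 1 - g 0 1 * g 1 0 = h 0 0 * h 1 1 - h 0 1 * h 1 0) :
    ∃ M : ℕ, M ≠ 0 ∧ ∀ x ∈ H41.GamA 1 M, ∀ r : OnePoint ℚ,
      (H41.slash g m - H41.slash h m).1 (x • r) r = 0 :=
  H41.slash_sub_slash_mem_Bdry hq hN hc hm hgh

/-- **Ihara's lemma for modular symbols.** `F` is any field, `q ∤ N` a prime, `m₁, m₂` symbols of level `N`
with values in an `F`-vector space with `m₁ + m₂|diag(q,1) = 0`, `m₁` an eigenvector of `T_ℓ`, `ℓ ∈ S`, with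
eigenvalues `a_ℓ` that are not Eisenstein: `a_ℓ² ≠ (ℓ+1)²` for some `ℓ ∈ S`, and for every `M` there is
`ℓ ∈ S`, `ℓ ≡ 1 mod M`, with `a_ℓ ≠ ℓ + 1`. Then `m₁ = m₂ = 0`. Proof: by `generation` `m₁` is invariant
under `GamA q N`; by `SL2Q_mod_boundary` `T_ℓ² m₁ = (ℓ+1)² m₁` modulo boundary symbols, so `m₁` is a boundary
symbol, and on these `T_ℓ = ℓ + 1` for all `ℓ ≡ 1 mod M`. (`H41Bdry`) -/
theorem ihara_symbols {F A : Type*} [Field F] [AddCommGroup A] [Module F A] {q N : ℕ} (hq : q.Prime)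
    (hN : N ≠ 0) (hc : Nat.Coprime q N) (m₁ m₂ : H41.Symb F (OnePoint ℚ) A)
    (h₁ : m₁ ∈ H41.inv F (OnePoint ℚ) A (H41.G0 N)) (h₂ : m₂ ∈ H41.inv F (OnePoint ℚ) A (H41.G0 N))
    (h : m₁ + H41.slash (H41.hd q) m₂ = 0) (S : Set ℕ) (hS : ∀ ℓ ∈ S, ℓ.Prime) (a : ℕ → F)
    (hT : ∀ ℓ ∈ S, H41.hT ℓ m₁ = a ℓ • m₁)
    (hNE1 : ∃ ℓ ∈ S, a ℓ ^ 2 ≠ ((ℓ : F) + 1) ^ 2)
    (hNE2 : ∀ M : ℕ, M ≠ 0 → ∃ ℓ ∈ S, (M : ℤ) ∣ (ℓ : ℤ) - 1 ∧ a ℓ ≠ (ℓ : F) + 1) :
    m₁ = 0 ∧ m₂ = 0 :=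
  H41.ihara_eigen hq hN hc h₁ h₂ h S hS a hT hNE1 hNE2

/-- **Ihara's lemma for homomorphisms.** The same for `Hom(Γ₀(N), ℤ/p)`. A homomorphism `φ` with `φ(-1) = 0`
is written as `γ ↦ n(γo, o)` with an invariant symbol `n` on `H41.PG = GL₂(ℚ)/center` and a base point `o`;
so the Hecke operators on homomorphisms are given by the formula `hecke_apply`. (`H41IharaHom`) -/
theorem ihara_homs {p : ℕ} [Fact p.Prime] {q N : ℕ} (hq : q.Prime) (hN : N ≠ 0) (hc : Nat.Coprime q N)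
    (n₁ n₂ : H41.Symb ℤ H41.PG (ZMod p)) (hn₁ : n₁ ∈ H41.inv ℤ H41.PG (ZMod p) (H41.G0 N))
    (hn₂ : n₂ ∈ H41.inv ℤ H41.PG (ZMod p) (H41.G0 N)) (o : H41.PG)
    (hker : ∀ γ ∈ H41.G0 (N * q), n₁.1 (γ • o) o + (H41.slash (H41.hd q) n₂).1 (γ • o) o = 0)
    (S : Set ℕ) (hS : ∀ ℓ ∈ S, ℓ.Prime ∧ ¬ ℓ ∣ N * q) (a : ℕ → ZMod p)
    (hT₁ : ∀ ℓ ∈ S, ∀ γ ∈ H41.G0 N, (H41.hT ℓ n₁).1 (γ • o) o = a ℓ * n₁.1 (γ • o) o)
    (hT₂ : ∀ ℓ ∈ S, ∀ γ ∈ H41.G0 N, (H41.hT ℓ n₂).1 (γ • o) o = a ℓ * n₂.1 (γ • o) o)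
    (hNE1 : ∃ ℓ ∈ S, a ℓ ^ 2 ≠ ((ℓ : ZMod p) + 1) ^ 2)
    (hNE2 : ∀ M : ℕ, M ≠ 0 → ∃ ℓ ∈ S, (M : ℤ) ∣ (ℓ : ℤ) - 1 ∧ a ℓ ≠ (ℓ : ZMod p) + 1) :
    ∀ γ ∈ H41.G0 N, n₁.1 (γ • o) o = 0 ∧ n₂.1 (γ • o) o = 0 :=
  H41.ihara_hom hq hN hc hn₁ hn₂ o hker S hS a hT₁ hT₂ hNE1 hNE2

/-- **Perfect duality.** There is a bilinear pairing with even integral values between the integral modular
symbols of level `N` and the homomorphisms `Γ₀(N) → ℤ` such that one half of it is perfect: every functional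
on the symbols is given by a homomorphism, every evaluation `φ ↦ φ(γ)` by a symbol. It is written down with
explicit potentials; the operators `T_ℓ`, `ℓ ∤ N`, are self-adjoint, and the traces are adjoint to the
degeneracy maps. (`H71Pot`, `H71Dual`, `H71Adj`) -/
theorem perfect_duality (N : ℕ) [NeZero N] :
    ∃ B : H41.inv ℤ (OnePoint ℚ) ℤ (H41.G0 N) →ₗ[ℤ] (Additive (Gamma0 N) →+ ℤ) →ₗ[ℤ] ℤ,
      (∀ m φ, ∃ k : ℤ, B m φ = 2 * k) ∧
      (∀ μ : H41.inv ℤ (OnePoint ℚ) ℤ (H41.G0 N) →ₗ[ℤ] ℤ, ∃ φ, ∀ m, B m φ = 2 * μ m) ∧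
      ∀ γ : Gamma0 N, ∃ m, ∀ φ, B m φ = 2 * φ (Additive.ofMul γ) :=
  have h := H71.neg_one_mem_gamma0 N
  ⟨H71.dpair ℤ (Gamma0 N), H71.even_dpair h, H71.exists_hom_repr h, H71.exists_symb_ev h⟩

/-- **Consequence of the duality** modulo `p`, for a prime `q ∤ N`: if `λ₁(tr m) + λ₂(tr(m|W)) = 0` for all
symbols `m` of level `N q`, with eigenfunctionals `λ₁, λ₂` modulo `p` that are not both 0, then there are
homomorphisms `n₁, n₂` modulo `p` with the same eigenvalues, not both 0, in the kernel of the two degeneracy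
maps; this contradicts `ihara_homs`. (`H71Key`, `H71Dual`; the steps: end of section 4 of
`GuideSymbolDuality`.) -/
theorem duality (p : ℕ) [Fact p.Prime] (N : ℕ) [NeZero N] (q : ℕ) (hq : q.Prime) [NeZero q]
    (hc : Nat.Coprime q N) (lam₁ lam₂ : H41.inv ℤ (OnePoint ℚ) ℤ (H41.G0 N) →+ ZMod p)
    (hrel : ∀ m (_ : m ∈ H41.inv ℤ (OnePoint ℚ) ℤ (H41.G0 (N * q)))
      (h₁ : H41.tr N q m ∈ H41.inv ℤ (OnePoint ℚ) ℤ (H41.G0 N))
      (h₂ : H41.tr N q (H41.slash (H41.alW hc) m) ∈ H41.inv ℤ (OnePoint ℚ) ℤ (H41.G0 N)),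
      lam₁ ⟨H41.tr N q m, h₁⟩ + lam₂ ⟨H41.tr N q (H41.slash (H41.alW hc) m), h₂⟩ = 0)
    (S : Set ℕ) (hS : ∀ ℓ ∈ S, ℓ.Prime ∧ ¬ ℓ ∣ N * q) (a : ℕ → ZMod p)
    (hT₁ : ∀ ℓ ∈ S, ∀ m (hm : m ∈ H41.inv ℤ (OnePoint ℚ) ℤ (H41.G0 N))
      (h : H41.hT ℓ m ∈ H41.inv ℤ (OnePoint ℚ) ℤ (H41.G0 N)), lam₁ ⟨H41.hT ℓ m, h⟩ = a ℓ * lam₁ ⟨m, hm⟩)
    (hT₂ : ∀ ℓ ∈ S, ∀ m (hm : m ∈ H41.inv ℤ (OnePoint ℚ) ℤ (H41.G0 N))
      (h : H41.hT ℓ m ∈ H41.inv ℤ (OnePoint ℚ) ℤ (H41.G0 N)), lam₂ ⟨H41.hT ℓ m, h⟩ = a ℓ * lam₂ ⟨m, hm⟩)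
    (hne : lam₁ ≠ 0 ∨ lam₂ ≠ 0) :
    ∃ n₁ ∈ H41.inv ℤ H41.PG (ZMod p) (H41.G0 N), ∃ n₂ ∈ H41.inv ℤ H41.PG (ZMod p) (H41.G0 N), ∃ o : H41.PG,
      (∃ γ ∈ H41.G0 N, n₁.1 (γ • o) o ≠ 0 ∨ n₂.1 (γ • o) o ≠ 0) ∧
      (∀ γ ∈ H41.G0 (N * q), n₁.1 (γ • o) o + (H41.slash (H41.hd q) n₂).1 (γ • o) o = 0) ∧
      (∀ ℓ ∈ S, ∀ γ ∈ H41.G0 N, (H41.hT ℓ n₁).1 (γ • o) o = a ℓ * n₁.1 (γ • o) o ∧
        (H41.hT ℓ n₂).1 (γ • o) o = a ℓ * n₂.1 (γ • o) o) := by
  obtain ⟨n₁, h₁, n₂, h₂, h⟩ := H71.dual_key p N q hq hc lam₁ lam₂ hrel S hS a hT₁ hT₂ hne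
  exact ⟨n₁, h₁, n₂, h₂, _, h⟩

/-! ### The argument for level raising -/

/-- **Algebraic core** of level raising. `L`, `L'` (symbols of level `N`, `N q`) are finite free groups with
commuting operators `t_i`, `t'_i`; `i₁, i₂ : L → L'` and `j₁, j₂ : L' → L` commute with them, and the
composition is the matrix `(q+1, t_q; t_q, q+1)`. `χ = (a_i)` is a system of eigenvalues modulo `p`. Suppose
* `hI` : `(i₁, i₂)` is injective modulo `p` on the elements with eigenvalues `χ` (Ihara's lemma);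
* `hE` : no eigenfunctional modulo `p` with eigenvalues `χ` vanishes on the image of `(j₁, j₂)` (duality);
* `hΔ` : `(q+1)² - t_q²` is injective on the image of `t_{i₀} - e`, where `e ≠ a_{i₀}` modulo `p`;
* there is an eigenfunctional `λ ≠ 0` modulo `p` on `L` with eigenvalues `χ` and `t_q = ε (q+1)`, `ε² = 1`.
Then there is a functional `≠ 0` modulo `p` with eigenvalues `χ` on the new part `K = ker j₁ ∩ ker j₂`. (If
not, `(j₁, j₂)` is bijective near `χ` by `hE`, and `(i₁, i₂)` by `hI` and `hΔ`; but the functional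
`(x, y) ↦ λ(x) - ε λ(y)` vanishes on the image of the composition.) (`H41Alg`, `H41AlgOps`) -/
theorem congruence_module {ι L L' : Type*} [AddCommGroup L] [AddCommGroup L'] [Module.Finite ℤ L]
    [Module.Finite ℤ L'] [Module.IsTorsionFree ℤ L] [Module.IsTorsionFree ℤ L'] {p : ℕ} [Fact p.Prime]
    (a : ι → ZMod p) (t : ι → L →+ L) (ht : ∀ i j m, t i (t j m) = t j (t i m))
    (t' : ι → L' →+ L') (ht' : ∀ i j m, t' i (t' j m) = t' j (t' i m))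
    (i₁ i₂ : L →+ L') (j₁ j₂ : L' →+ L) (tq : L →+ L)
    (hi₁ : ∀ i m, i₁ (t i m) = t' i (i₁ m)) (hi₂ : ∀ i m, i₂ (t i m) = t' i (i₂ m))
    (hj₁ : ∀ i m, j₁ (t' i m) = t i (j₁ m)) (hj₂ : ∀ i m, j₂ (t' i m) = t i (j₂ m))
    (htq : ∀ i m, tq (t i m) = t i (tq m)) (q : ℕ)
    (hji₁ : ∀ x y, j₁ (i₁ x + i₂ y) = (q + 1) • x + tq y)
    (hji₂ : ∀ x y, j₂ (i₁ x + i₂ y) = tq x + (q + 1) • y)
    (hI : ∀ x y : L, (∃ w : L', i₁ x + i₂ y = p • w) →
      (∀ i, ∃ x' y', t i x - (a i).val • x = p • x' ∧ t i y - (a i).val • y = p • y') →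
      ∃ x' y', x = p • x' ∧ y = p • y')
    (hE : ∀ lam₁ lam₂ : L →+ ZMod p, (∀ i m, lam₁ (t i m) = a i * lam₁ m) →
      (∀ i m, lam₂ (t i m) = a i * lam₂ m) → (∀ v, lam₁ (j₁ v) + lam₂ (j₂ v) = 0) →
      lam₁ = 0 ∧ lam₂ = 0)
    (i₀ : ι) (e : ℕ) (he : a i₀ ≠ (e : ZMod p))
    (hΔ : ∀ x y : L, y = t i₀ x - e • x → ((q + 1) ^ 2) • y = tq (tq y) → y = 0)
    (lam : L →+ ZMod p) (hlamT : ∀ i x, lam (t i x) = a i * lam x) (ε : ZMod p) (hε : ε ^ 2 = 1)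
    (hlamq : ∀ x, lam (tq x) = ε * (q + 1) * lam x) (hlam : lam ≠ 0) :
    ∃ μ : (j₁.ker ⊓ j₂.ker : AddSubgroup L') →+ ZMod p,
      (∀ i (m m' : (j₁.ker ⊓ j₂.ker : AddSubgroup L')), m'.1 = t' i m.1 → μ m' = a i * μ m) ∧ μ ≠ 0 :=
  H41.core_ops a t ht t' ht' i₁ i₂ j₁ j₂ tq hi₁ hi₂ hj₁ hj₂ htq q hji₁ hji₂ hI hE i₀ e he hΔ lam hlamT ε
    hε hlamq hlam (j₁.ker ⊓ j₂.ker) fun _ => Iff.rfl

/-- **From an eigenform to a functional modulo `p`.** A normalised eigenform `f` of level `N` with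
`a_ℓ(f) ≡ a_ℓ mod 𝔪` for `ℓ ∈ S` and `a_q(f)² ≡ (q+1)² mod 𝔪` gives a nonzero functional modulo `p` on the
integral symbols of level `N` with the eigenvalues `a_ℓ` for `T_ℓ` and `± (q+1)` for `T_q`
(`H41.tOp ℤ ℤ N ℓ` is the operator `H41.hT ℓ` on symbols of level `N`). (`H41Final`) -/
theorem form_to_functional {p N q : ℕ} [Fact p.Prime] [NeZero N] (hq : q.Prime) (hqN : ¬ q ∣ N)
    (S : Set ℕ) (hS : ∀ ℓ ∈ S, ℓ.Prime ∧ ¬ ℓ ∣ N) (f : CuspForm (Gamma0 N) 2)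
    (hf : f.IsNormalizedEigenform) (𝔪 : Ideal (integralClosure ℤ ℂ)) (hmax : 𝔪.IsMaximal)
    (hpm : ((p : ℕ) : integralClosure ℤ ℂ) ∈ 𝔪) (a : ℕ → ZMod p)
    (hcong : ∀ ℓ ∈ S, ∃ b : integralClosure ℤ ℂ, (b : ℂ) = ModularFormClass.qCoeff f ℓ ∧
      b - (((a ℓ).val : ℕ) : integralClosure ℤ ℂ) ∈ 𝔪)
    (hLR : ∃ b : integralClosure ℤ ℂ, (b : ℂ) = ModularFormClass.qCoeff f q ∧
      b ^ 2 - ((q : integralClosure ℤ ℂ) + 1) ^ 2 ∈ 𝔪) :
    ∃ (ε : ZMod p) (lam : H41.inv ℤ (OnePoint ℚ) ℤ (H41.G0 N) →+ ZMod p), ε ^ 2 = 1 ∧ lam ≠ 0 ∧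
      (∀ (ℓ : ℕ) (h : ℓ ∈ S) (x : H41.inv ℤ (OnePoint ℚ) ℤ (H41.G0 N)),
        lam (H41.tOp ℤ ℤ N ℓ (hS ℓ h).1 (hS ℓ h).2 x) = a ℓ * lam x) ∧
      ∀ x, lam (H41.tOp ℤ ℤ N q hq hqN x) = ε * (q + 1) * lam x :=
  H41.exists_functional_of_form hq hqN S hS f hf 𝔪 hmax hpm a hcong hLR

/-- **From a new symbol to an eigenform.** Let `v ≠ 0` be a complex symbol of level `N q` which is new at `q`
(both traces vanish) and an eigenvector of `T_ℓ`, `ℓ ∈ S`, with eigenvalues `α_ℓ`, not Eisenstein in the sense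
that `α_ℓ ≠ ℓ + 1` for one `ℓ ≡ 1 mod N q`. Then there is a normalised eigenform `g` of level `N q` with
`a_ℓ(g) = α_ℓ` for `ℓ ∈ S` and `a_q(g)² = 1`. (`H41Char0`) -/
theorem newSymbol_to_form {N q : ℕ} [NeZero N] [NeZero q] (hq : q.Prime) (hqN : ¬ q ∣ N)
    (hc : Nat.Coprime q N) {S : Set ℕ} (hS : ∀ ℓ ∈ S, ℓ.Prime ∧ ¬ ℓ ∣ N * q) (α : S → ℂ)
    (v : H41.inv ℂ (OnePoint ℚ) ℂ (H41.G0 (N * q))) (hv0 : v ≠ 0)
    (h1 : H41.tr N q v.1 = 0) (h2 : H41.tr N q (H41.slash (H41.alW hc) v.1) = 0)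
    (h3 : ∀ ℓ : S, H41.hT ℓ.1 v.1 = α ℓ • v.1)
    (ℓ₀ : S) (hℓ₀ : ((N * q : ℕ) : ℤ) ∣ (ℓ₀.1 : ℤ) - 1) (hα : α ℓ₀ ≠ (ℓ₀.1 : ℂ) + 1) :
    ∃ g : CuspForm (Gamma0 (N * q)) 2, g.IsNormalizedEigenform ∧
      (∀ ℓ : S, ModularFormClass.qCoeff g ℓ.1 = α ℓ) ∧ ModularFormClass.qCoeff g q ^ 2 = 1 :=
  H41.exists_eigenform_of_newEig hq hqN hc hS α ⟨h1, h2, h3⟩ hv0 ℓ₀ hℓ₀ hα

/-- **Level raising for any system of eigenvalues modulo `p` which is not Eisenstein** (no elliptic curve,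
no Galois representation; `p = 2` allowed). `a : ℕ → ℤ/p` is the system, `S` the set of primes where it is
considered, `hNE1`, `hNE2` are the two non-Eisenstein conditions of `ihara_symbols`. If an eigenform `f` of
level `N` has the system `a` modulo `𝔪` and `a_q(f)² ≡ (q+1)² mod 𝔪`, there is an eigenform `g` of level
`N q` with the same system modulo some `𝔪'` and `a_q(g)² = 1`. (`H41Char0`) -/
theorem level_raising_abstract {p N q : ℕ} [Fact p.Prime] (hN : 0 < N) (hq : q.Prime)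
    (hqN : ¬ q ∣ N) (S : Set ℕ) (hS : ∀ ℓ ∈ S, ℓ.Prime ∧ ¬ ℓ ∣ N * q) (a : ℕ → ZMod p)
    (hNE1 : ∃ ℓ ∈ S, a ℓ ^ 2 ≠ ((ℓ : ZMod p) + 1) ^ 2)
    (hNE2 : ∀ M : ℕ, M ≠ 0 → ∃ ℓ ∈ S, (M : ℤ) ∣ (ℓ : ℤ) - 1 ∧ a ℓ ≠ (ℓ : ZMod p) + 1)
    (f : CuspForm (Gamma0 N) 2) (hf : f.IsNormalizedEigenform)
    (𝔪 : Ideal (integralClosure ℤ ℂ)) (hmax : 𝔪.IsMaximal)
    (hpm : ((p : ℕ) : integralClosure ℤ ℂ) ∈ 𝔪)
    (hcong : ∀ ℓ ∈ S, ∃ b : integralClosure ℤ ℂ, (b : ℂ) = ModularFormClass.qCoeff f ℓ ∧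
      b - (((a ℓ).val : ℕ) : integralClosure ℤ ℂ) ∈ 𝔪)
    (hLR : ∃ b : integralClosure ℤ ℂ, (b : ℂ) = ModularFormClass.qCoeff f q ∧
      b ^ 2 - ((q : integralClosure ℤ ℂ) + 1) ^ 2 ∈ 𝔪) :
    ∃ (g : CuspForm (Gamma0 (N * q)) 2) (𝔪' : Ideal (integralClosure ℤ ℂ)),
      g.IsNormalizedEigenform ∧ 𝔪'.IsMaximal ∧ ((p : ℕ) : integralClosure ℤ ℂ) ∈ 𝔪' ∧
      (∀ ℓ ∈ S, ∃ b : integralClosure ℤ ℂ, (b : ℂ) = ModularFormClass.qCoeff g ℓ ∧
        b - (((a ℓ).val : ℕ) : integralClosure ℤ ℂ) ∈ 𝔪') ∧ ModularFormClass.qCoeff g q ^ 2 = 1 :=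
  H41.level_raising hN hq hqN S hS a hNE1 hNE2 f hf 𝔪 hmax hpm hcong hLR

/-- **`a_ℓ(W) mod p` is not Eisenstein** if `W[p]` is irreducible and `p` odd: there is a good prime
`ℓ ∤ B p` with `a_ℓ(W)² ≢ (ℓ+1)² mod p`, and for every `M ≥ 1` a good prime `ℓ ≡ 1 mod M`, `ℓ ∤ B p`, with
`a_ℓ(W) ≢ ℓ + 1 mod p`. Proof: the image of Galois in `GL₂(𝔽_p)` contains elements with `tr² ≠ (1 + det)²`,
and the image of the subgroup fixing the `M`-th roots of unity contains elements with `tr ≠ 1 + det`; every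
element of a finite Galois group generates the same subgroup as some Frobenius element. (`H62NE`; integral
model and rational curve: `H62VarChange`.) -/
theorem not_eisenstein {p : ℕ} [Fact p.Prime] {W : WeierstrassCurve ℤ} (hΔ : W.Δ ≠ 0) (hp2 : p ≠ 2)
    (hirr : W.ModRepIsIrreducible p) {B : ℕ} (hB : 0 < B) :
    (∃ ℓ, ℓ.Prime ∧ W.IsGoodPrimeFor ℓ ∧ ¬ ℓ ∣ B ∧ ℓ ≠ p ∧
      (W.apOfModel ℓ : ZMod p) ^ 2 ≠ ((ℓ : ZMod p) + 1) ^ 2) ∧
    ∀ M : ℕ, 0 < M → ∃ ℓ, ℓ.Prime ∧ W.IsGoodPrimeFor ℓ ∧ ¬ ℓ ∣ B ∧ ℓ ≠ p ∧ (ℓ : ZMod M) = 1 ∧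
      (W.apOfModel ℓ : ZMod p) ≠ (ℓ : ZMod p) + 1 :=
  ⟨H62.ne1 hΔ hp2 hirr hB, fun _ hM => H62.ne2 hΔ hp2 hirr hB hM⟩

/-- **S41, level raising for elliptic curves.** `E` is an elliptic curve over `ℚ` with integral model `W`,
`p` an odd prime, `E[p]` irreducible, `f` a normalised eigenform of level `N` with `a_ℓ(f) ≡ a_ℓ(W)` modulo
the maximal ideal `𝔪 ∋ p` for all good `ℓ ∤ N p`, and `q ≠ p` a prime, `q ∤ N`, with
`a_q(f)² ≡ (q+1)² mod 𝔪`. Then there are a normalised eigenform `g` of level `N q` and a maximal ideal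
`𝔪' ∋ p` with `a_ℓ(g) ≡ a_ℓ(W) mod 𝔪'` for all good `ℓ ∤ N q p` and `a_q(g)² = 1` (`IsNewAt`). -/
theorem levelRaising (E : WeierstrassCurve ℚ) [E.IsElliptic] {W : WeierstrassCurve ℤ}
    (hW : W.IsIntegralModelOf E) {p N q : ℕ} (hp : p.Prime) (hp2 : p ≠ 2) (hN : 0 < N) (hq : q.Prime)
    (hqN : ¬ q ∣ N) (hqp : q ≠ p)
    (hirr : WeierstrassCurve.Affine.Point.GaloisRepIsIrreducible (K := AlgebraicClosure ℚ) ℚ E p)
    (f : CuspForm (Gamma0 N) 2) (𝔪 : Ideal (integralClosure ℤ ℂ)) (hf : f.IsNormalizedEigenform)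
    (hmax : 𝔪.IsMaximal) (hpm : (p : integralClosure ℤ ℂ) ∈ 𝔪)
    (hcong : ∀ ℓ : ℕ, ℓ.Prime → W.IsGoodPrimeFor ℓ → ¬ ℓ ∣ N → ℓ ≠ p →
      ∃ a : integralClosure ℤ ℂ, (a : ℂ) = ModularFormClass.qCoeff f ℓ ∧
        a - ((W.apOfModel ℓ : ℤ) : integralClosure ℤ ℂ) ∈ 𝔪)
    (hLR : ∃ a : integralClosure ℤ ℂ, (a : ℂ) = ModularFormClass.qCoeff f q ∧
      a ^ 2 - ((q : integralClosure ℤ ℂ) + 1) ^ 2 ∈ 𝔪) :
    ∃ (g : CuspForm (Gamma0 (N * q)) 2) (𝔪' : Ideal (integralClosure ℤ ℂ)),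
      g.IsNormalizedEigenform ∧ 𝔪'.IsMaximal ∧ (p : integralClosure ℤ ℂ) ∈ 𝔪' ∧
      (∀ ℓ : ℕ, ℓ.Prime → W.IsGoodPrimeFor ℓ → ¬ ℓ ∣ N * q → ℓ ≠ p →
        ∃ a : integralClosure ℤ ℂ, (a : ℂ) = ModularFormClass.qCoeff g ℓ ∧
          a - ((W.apOfModel ℓ : ℤ) : integralClosure ℤ ℂ) ∈ 𝔪') ∧
      ModularFormClass.qCoeff g q ^ 2 = 1 :=
  S41.result E hW hp hp2 hN hq hqN hqp hirr f 𝔪 hf hmax hpm hcong hLR

end Fermat.Agent.Guide.LevelsRaising
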