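import Fermat.Agent.S44
import Fermat.Agent.H38S44B
import Fermat.Agent.H73GeoX

/-!
# Guide: lowering the level at `p` for the Frey curve (statement S44)

**What is proved.** `P` is a Frey package with exponent `p ≥ 5`, `N = M₀ p` a squarefree conductor level,
`E` the Frey curve, `W` an integral model of `E`.  Suppose that `E[p]` is irreducible and modular of level
`M₀ p`; S44 says that it is modular of level `M₀`.  The classical proof (Ribet, Mazur's principle at `p`)
uses the Néron model of `J₀(M₀ p)` at `p` and the theorem of Raynaud on finite flat group schemes.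
Here only functions are used.

**How it is proved** (reading order = order of the theorems).
1. `dichotomy`: either the theorem is true or `E[p]` embeds into `J₀(M₀ p)` as a *new* module (`NewEmb`):
   `T_ℓ = a_ℓ(E)`, `w_p = ε`, `U_p = -ε`.
2. `kummer_functions`: a point `x` of `E[p]` is represented by a function `u_x` on `X₀(M₀ p)` with divisor
   `p D_x`, unique up to constants and `p`-th powers, fixed by the stabiliser of `x` in the Galois group.
3. `frey_inertia_at_p`: the action of inertia at `p` on `E[p]`: there is a line `V₋` on which inertia acts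
   by the cyclotomic character and modulo which it acts trivially; the wild part is described by one
   constant `ε`.
4. The semistable model of `X₀(M p)` at `p` in the language of valuations: two Gauss valuations of the
   function field (at the cusp `∞` and at `w_p ∞`), both with residue field the function field of `X₀(M)`
   in characteristic `p`; double points (nodes); at a node there is a function `z` with `z z' = p · unit`;
   functions on the special fibre lift to inertia invariant functions (for all this the level is raised to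
   `M = 2^i M₀` with `4 ∣ M`, `auxiliary_level`).
5. `orders_at_nodes_congruent_tame`, `orders_at_nodes_congruent_wild`, `splitting` (with its steps
   `norm_operator_contracts`, `contraction_steps`, `weak_approximation`, `close_to_one`),
   `trivial_reduction_iff` (with `common_subgroup`, `congruent_to_power`, `cyclotomic_action`),
   `order_at_smooth_point`, `node_congruence` (with `representative_near_one`), `reduction_ne_pow`: for the
   point `z ∉ V₋` of 3 the reduction `ū` of `u_z` on the first component is not a `p`-th power, its orders at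
   the points which are not nodes are divisible by `p`, and the orders at any two nodes are congruent modulo
   `p`.  (This is Mazur's principle at `p`, by bookkeeping of `p`-th powers; no Néron model.)
6. `modular_unit`, `order_at_node`, `special_fibre`: the function `Δ̄^{p-1}` on `X₀(M)` in
   characteristic `p` has order `-12` at the nodes and `0` at the other non-cuspidal points, so
   `12 div ū + n div Δ̄^{p-1}` is divisible by `p` away from the cusps.
7. `hecke_dlog`, `exists_span_of_dlog`, `modular_of_reduction`: the logarithmic derivative of `ū` gives a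
   mod `p` eigenform of weight 2 and level `M₀`.
8. `residually_modular_of_newEmb` and `level_lowering_at_p`: assembly.

**Files** 1: `H61L5A`, `H61L5B`, `H61L5C`, `H67Uq`. 2: `H44Kum`. 3: `H44EGlob`, `H44ETor` (points which
reduce to zero), `H44ENode`, `H44EXi` (near the node), `H44EAlg`, `H44EConst`, `H44EGrp`, `H44EWild`,
`H44EMain`, `H44EFrey` (with `H62VarChange`), `H44ESide`. 4: `H97MdA`, `H97MdB`, `H97MdC`, `H97MdD`, `H97MdF`,
`H97MdG`, `H97MdK` (two sheets), `H31Eq1`, `H31Eq2`, `H31Eq3`, `H31EqI`, `H31EqJ`, `H31EqK`, `H31EqL`,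
`H31Scale` (with inertia), `H31Pivot`, `H31Lift`, `H73Lift`, `H73Geo`, `H73GeoX` (inertia invariant
functions). 5:
`H31MPBase`, `H31MPParams`, `H31MPGen`, `H31MPNode`, `H31MPNodeConst` (local generators, nodes), `H40NOp`,
`H40LemA`, `H40Inj`, `H40SS`, `H84SSp`, `H84Vv`, `H40Fin`, `H40Book`, `H40Node`. 6: `H45NdA`, `H45NdB`,
`H45NdC`, `H45NdD`, `H45NdE`, `H45NdF`, `H45NdG` (node parameters), `H38DvA`, `H38DvB`, `H38DvC`, `H38DvD`.
7: `H38MzRed`, `H38MzTheta`, `H38MzComp`, `H38MzComp2`, `H38MzHecke` (functions, Hecke operators,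
reduction), `H39Hecke`, `H39DerMod`, `H39DerRed`, `H39Poles`, `H39Forms`, `H39Span`, `H39Lat`, `H39End`,
`H39Core`, `H61EisInd` (Eisenstein series). 8: `H38S44A`, `H38S44B`.

**More details** in `GuideOrderPPoints` (section 3), `GuideReduction`, `GuideTwoSheets`,
`GuideNodeParameters`, `GuideNodeAnalysis` (sections 4 and 5: the two components, the semistable model, the
nodes, step by step), `GuideS44Classes` (section 5: Kummer functions and the norm operator), `GuideFrames`
and `GuideDlog` (section 7), `GuideS44Steps` (sections 2, 6, 7, 8 step by step: Kummer functions, reduction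
of functions and of Hecke operators, the modular unit, assembly).

**Serves** S44, and through it S43, S03, S45 and S01.  Steps 2, 4, 5 and the order of `Δ̄^{p-1}` are also used
in S39, S40 (`GuideLevelsAtP`).  The definition of residual modularity is written out in `GuideLevels`.

**Notes** Section 3.5 and [114], [143], [89], [290], [235], [252].  Written by helper38, helper31,
helper73, edited by helper5; theorems of helper31, 38, 39, 40, 44, 45, 61, 73.
-/

set_option autoImplicit false
set_option linter.unusedSectionVars false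
set_option synthInstance.maxHeartbeats 200000

noncomputable section

open AlgebraicCurve ModularCurve CuspForm WithZero WeierstrassCurve.Affine.Point
open Fermat.Agent Fermat.Agent.H97 Fermat.Agent.H31
open Fermat.Agent.H39 (Tor GQb)
open Fermat.Agent.H67 (wJ degPull dg)
open Fermat.Agent.H61.L5 (NewEmb)

namespace Fermat.Agent.Guide.LevelsS44

/- Only to make the file faster to check: prefer the obvious `k`-algebra structure on a subfield of
`k((q))`. -/
attribute [-instance] IsLocalRing.ResidueField.algebra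
attribute [local instance 5000] SubalgebraClass.toAlgebra

/-- The field of algebraic numbers. -/
local notation "Qb" => AlgebraicClosure ℚ

/-- The residue field of a place `A` of `ℚ̄`. -/
local notation "κ" => IsLocalRing.ResidueField

/-- The function field of `X₀(N)` over an arbitrary field `k` (`FC k N`): the subfield of `k((q))`
generated by the expansions of the `j(q^d)`, `d ∣ N`. -/
local notation "FC" => modularFunctionFieldFullC

/-! ### 1. Modularity of level `M p` and new embeddings -/

/-- What a `NewEmb W p M S` is: an injective additive map `ι : E[p] → J₀(M p)`, equivariant for the Galois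
group `GQb` of `ℚ̄` over `ℚ` (`Tor W p` is the `p`-torsion of the curve `W` over `ℚ̄`, `JZero N` the group of
divisor classes of degree zero of `X₀(N)` over it), on whose image `T_ℓ` is
multiplication by `a_ℓ(W)` for the primes `ℓ ∉ S`, the Atkin-Lehner involution `w_p` is a sign `ε`, and
`U_p` is `-ε`; `p ∤ M`.  Defined in `H61L5B`. -/
theorem newEmb_iff (W : WeierstrassCurve ℤ) (p : Nat.Primes) (M : ℕ) [NeZero (M * p)] (S : Set ℕ) :
    Nonempty (NewEmb W p M S) ↔ ∃ (hc : M.Coprime p) (ι : Tor W p →+ JZero (M * p)) (ε : ℤ),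
      Function.Injective ι ∧ (∀ (σ : GQb) (x : Tor W p), ι (σ • x) = σ • ι x) ∧
      (∀ ℓ : Nat.Primes, (ℓ : ℕ) ∉ S → ∀ x : Tor W p,
        heckeOperatorBar (M * p) ℓ (ι x) = W.apOfModel (ℓ : ℕ) • ι x) ∧
      (ε = 1 ∨ ε = -1) ∧ (∀ x, wJ M p rfl hc (ι x) = ε • ι x) ∧
      ∀ x, heckeOperatorBar (M * p) p (ι x) = (-ε) • ι x := by
  constructor
  · rintro ⟨E⟩
    exact ⟨E.hc, E.ι, E.ε, E.inj, E.galois, E.hecke, E.hε, E.w, E.U⟩
  · rintro ⟨hc, ι, ε, h1, h2, h3, h4, h5, h6⟩
    exact ⟨⟨hc, ι, h1, h2, h3, ε, h4, h5, h6⟩⟩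

/-- **The dichotomy** (helper61, `H61L5C`).  If the irreducible module `E[p]` of the Frey curve is modular
of level `M p`, `p ∤ M`, then it is modular of level `M`, or it embeds into `J₀(M p)` as a new module.
Idea: an eigenform gives an embedding of `E[p]` into `J₀(M p)[p]` (Eichler-Shimura relation and
irreducibility); the two degeneracy maps to `J₀(M)` are zero on the image or give modularity of level `M`;
if they are zero, `U_p = -w_p`. -/
theorem dichotomy (P : FreyPackage) {M : ℕ} [NeZero M] [NeZero (M * P.p)] [NeZero P.p]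
    (hpM : ¬ P.p ∣ M)
    (hirr : GaloisRepIsIrreducible (K := AlgebraicClosure ℚ) ℚ P.freyCurve P.p)
    (hmod : P.ModularRepOfLevel (M * P.p)) :
    P.ModularRepOfLevel M ∨ ∃ (W : WeierstrassCurve ℤ) (S : Finset ℕ),
      W.IsIntegralModelOf P.freyCurve ∧ W.Δ ≠ 0 ∧ W.ModRepIsIrreducible P.p ∧
      (∀ q : ℕ, q.Prime → (q ∈ S ↔ q ∣ M ∨ q = P.p ∨ (q : ℤ) ∣ W.Δ)) ∧
      Nonempty (NewEmb W ⟨P.p, P.pp⟩ M (↑S : Set ℕ)) :=
  H61.L5.frey_dichotomy P hpM hirr hmod

/-- **Auxiliary level** (helper61, `H61L5C`).  A new embedding of level `M₀ p`, `p ≥ 5`, gives one of level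
`M p` by pull back, where `M` is `M₀`, `2 M₀` or `4 M₀` and is divisible by `4`.  At level `M` the
supersingular points have no extra automorphisms, which makes all nodes of the model ordinary double
points of thickness one. -/
theorem auxiliary_level {W : WeierstrassCurve ℤ} {p : Nat.Primes} {M₀ : ℕ} [NeZero M₀]
    [NeZero (M₀ * p)] [NeZero (p : ℕ)] {S : Set ℕ} (E : NewEmb W p M₀ S) (hp5 : 5 ≤ (p : ℕ)) :
    ∃ M : ℕ, M₀ ∣ M ∧ 4 ∣ M ∧ M ∣ 4 * M₀ ∧ ¬ (p : ℕ) ∣ M ∧ ∃ (_ : NeZero M) (_ : NeZero (M * p))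
      (h : M₀ * p * 1 ∣ M * p) (E' : NewEmb W p M (S ∪ {2})), E'.ε = E.ε ∧
        ∀ x, E'.ι x = degPull 1 h (E.ι x) :=
  E.exists_aux hp5

/-! ### 2. Kummer functions -/

/-- **Kummer functions** (helper44, `H44Kum`).  For an embedding `ι` of `E[p]` into `J₀(M p)` there are
functions `U x` on `X₀(M p)`, `x ∈ E[p]`, with divisor `p D`, `[D] = ι x` (this is `H33.IsKum`), which are
fixed by every Galois automorphism that fixes `x` (the Galois group acts on the coefficients of
`q`-expansions). -/
theorem kummer_functions {W : WeierstrassCurve ℤ} {p : Nat.Primes} {M : ℕ} [NeZero M]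
    [NeZero (p : ℕ)] [NeZero (M * p)] {S : Set ℕ} (E : NewEmb W p M S) :
    ∃ U : Tor W p → H99.FX Qb (M * p), (∀ x, U x ≠ 0 ∧
        ∃ D : Divisor.degZero (K := Qb) (F := H99.FX Qb (M * p)), Pic0.mk D = E.ι x ∧
          ∀ v, ((p : ℕ) : ℤ) * (D : Divisor Qb (H99.FX Qb (M * p))) v = v.ord (U x)) ∧
      ∀ (x : Tor W p) (σ : GQb), σ • x = x →
        arithmeticGalois (modularFunctionFieldFull (M * p)) σ • U x = U x :=
  H44K.exists_kum_functions E

/-! ### 3. The curve at `p` (proofs: `GuideOrderPPoints`) -/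

/-- **Inertia at `p` on `E[p]` for the Frey curve, `p ∣ abc`** (helper44, helper39, `H44ESide`).  Let `A` be
a place of `Qb` over `p` with inertia group `I` and `ζ` a primitive `p`-th root of unity.  There are a line
`V ⊂ E[p]`, on which `I` acts by the cyclotomic character, with trivial action on `E[p]/V`, and a point
`z ∉ V` such that either `I` fixes `z` or there are `τ ∈ I` and a constant `ε` with `|ε| < 1`, such that:
the constants fixed by the stabiliser of `z` or by the stabiliser of `τ z - z` take no absolute values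
between `|ε|²` and `1`, and `τ a / a = 1 + n ε + O(ε²)` for the constants `a` fixed by the stabiliser of
`z`, where `|a|^p = |p|^n`.  (The wild case: the
extension generated by `z` has degree `p` and a uniformiser `θ`, `|θ|^p = |p|`, with
`|τ θ - θ|^(p-1) = |p|`, and `ε = τ θ / θ - 1`, so `|ε|^(p(p-1)) = |p|`.  Model: `z` corresponds to `u^{1/p}`,
`u` a unit of the inertia field, not to `p^{1/p}`; this is where `p ∣ v_p(Δ)` is used.)  Proof: the equation
of the curve near its node and valuations of the coordinates of torsion points; no Tate curve. -/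
theorem frey_inertia_at_p (P : FreyPackage) (h : (P.p : ℤ) ∣ P.a * P.b * P.c) {W : WeierstrassCurve ℤ}
    (hW : W.IsIntegralModelOf P.freyCurve) (hΔ : W.Δ ≠ 0) {A : ValuationSubring Qb}
    (hA : A.LiesOverPrime P.p) {ζ : Qb} (hζ : IsPrimitiveRoot ζ P.p) :
    ∃ (V : AddSubgroup (Tor W P.p)) (z : Tor W P.p),
      (∀ (σ : A.inertiaSubgroupIn ℚ) (x : Tor W P.p), σ • x - x ∈ V) ∧
      (∀ y ∈ V, ∀ (σ : A.inertiaSubgroupIn ℚ) (a : ℕ), σ • ζ = ζ ^ a → σ • y = a • y) ∧
      (∃ y ∈ V, y ≠ 0) ∧ (∀ y ∈ V, y ≠ 0 → ∀ y' ∈ V, ∃ n : ℕ, y' = n • y) ∧ z ∉ V ∧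
      ((∀ σ : A.inertiaSubgroupIn ℚ, σ • z = z) ∨
        ∃ (τ : A.inertiaSubgroupIn ℚ) (ε : Qb), τ • z ≠ z ∧ ε ≠ 0 ∧ A.valuation ε < 1 ∧
          (∀ a : Qb, (∀ σ : A.inertiaSubgroupIn ℚ, σ • z = z → σ • a = a) →
            A.valuation a < 1 → A.valuation a ≤ A.valuation ε ^ 2) ∧
          (∀ a : Qb, a ≠ 0 → (∀ σ : A.inertiaSubgroupIn ℚ, σ • z = z → σ • a = a) →
            ∃ n : ℤ, A.valuation a ^ P.p = A.valuation (P.p : Qb) ^ n ∧
              A.valuation ((τ • a) / a - 1 - n * ε) ≤ A.valuation ε ^ 2) ∧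
          (∀ a : Qb, (∀ σ : A.inertiaSubgroupIn ℚ, σ • (τ • z - z) = τ • z - z → σ • a = a) →
            A.valuation a < 1 → A.valuation a ≤ A.valuation ε ^ 2)) :=
  let ⟨E⟩ := H44E.frey_eSide P h hW hΔ hA hζ
  ⟨E.Vm, E.z, E.sub_mem, E.char, E.exists_ne, E.line, E.z_notMem, E.main⟩

/-! ### 4. The special fibre of `X₀(M p)` at `p` and inertia -/

section Model

variable {K F k Fb Γ ν G : Type*} [Field K] [Field F] [Algebra K F] [Field k] [Field Fb]
  [Algebra k Fb] [LinearOrderedCommGroupWithZero Γ] [Group G] [MulSemiringAction G K]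
  [MulSemiringAction G F] {p : ℕ}

/-! In this section `F` is the function field of `X₀(M p)` over the algebraically closed field
`K = ℚ̄`, `Fb` the function field of `X₀(M)` over the residue field `k`, and `G` an inertia group at `p`
(announced variables). -/

/-- The setting of the node analysis (`MP.Data`, file `H31MPBase`). `F` is the function field of
`X₀(Mp)` over the algebraically closed field `K = ℚ̄`, `Fb` the function field of `X₀(M)` over the
residue field `k`, `G` an inertia group at `p`. There are two Gauss valuations `D.M.v i` of `F`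
(`i = false, true`, the two components of the fibre at `p`), each with a reduction map `D.M.ρ i`
to `Fb`; `D.M.vK` is the valuation of `K`. The group `G` preserves the two valuations, and it acts
trivially on the two reductions. -/
theorem inertia_acts_trivially_on_the_fibre (D : MP.Data K F k Fb Γ ν G p) (i : Bool) (σ : G) :
    (∀ f, D.M.v i (σ • f) = D.M.v i f) ∧ ∀ f, D.M.v i f ≤ 1 → D.M.ρ i (σ • f) = D.M.ρ i f :=
  ⟨D.v_smul i σ, D.ρ_smul i σ⟩

/-- `ν` is the set of the double points of the fibre (the supersingular points): the double point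
`n` lies on the two components, at the places `D.pt false n` and `D.pt true n` of `Fb`. At every
double point there is a `G`-invariant parameter `z`: it is a unit on the first component, with
reduction of order `1` at `n`; it has the size of `p` on the second component; it has no zero and
no pole on the class of the points of `X₀(Mp)` which reduce to `n`. This is the equation
`z z' = p` (times a unit), i.e. regularity of the model at `n`. (`H31MPBase`; for `X₀(M p)`: `H31EqL`.) -/
theorem node_parameter (D : MP.Data K F k Fb Γ ν G p) (n : ν) :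
    (∀ σ : G, σ • D.z n = D.z n) ∧ D.M.v false (D.z n) = 1 ∧
      (D.pt false n).ord (D.M.ρ false (D.z n)) = 1 ∧ D.M.v true (D.z n) = D.M.vK p ∧
      ∀ P, D.M.sp P = Sum.inr n → P.ord (D.z n) = 0 :=
  ⟨fun σ => D.z_fix n σ trivial, D.z_false n, D.z_ord n, D.z_true n, D.z_unit n⟩

/-- `D.Disc H ϖ`: the constants fixed by `H` are discretely valued, with uniformiser `ϖ`. (`H31MPGen`.) -/
theorem disc_iff (D : MP.Data K F k Fb Γ ν G p) (H : Subgroup G) (ϖ : K) :
    D.Disc H ϖ ↔ ϖ ≠ 0 ∧ (∀ σ ∈ H, σ • ϖ = ϖ) ∧ D.M.vK ϖ < 1 ∧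
      ∀ c : K, c ≠ 0 → (∀ σ ∈ H, σ • c = c) → ∃ n : ℤ, D.M.vK c = D.M.vK ϖ ^ n :=
  ⟨fun h => ⟨h.ne, h.fix, h.lt, h.gen⟩, fun h => ⟨h.1, h.2.1, h.2.2.1, h.2.2.2⟩⟩

variable [IsAlgClosed K] [H3RR.IsFF K F] [IsAlgClosed k] [H3RR.IsFF k Fb]
  [Fact p.Prime] [CharP k p] [CharP Fb p]

/-- `D.HasGenOne H w`: on every residue class of points of `X₀(Mp)` (smooth points of the fibre
and double points) the divisor of `w` is `p` times the divisor of an `H`-invariant function `g`
which is congruent to `1` on the components through the point. -/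
theorem hasGenOne_iff (D : MP.Data K F k Fb Γ ν G p) (H : Subgroup G) (w : F) :
    D.HasGenOne H w ↔
      (∀ x : Bool × Place k Fb, (∀ n, x ∉ D.M.br n) → ∃ g : F, g ≠ 0 ∧
        (∀ σ ∈ H, σ • g = g) ∧ (∀ P, D.M.sp P = Sum.inl x → P.ord w = p * P.ord g) ∧ D.M.v x.1 (g - 1) < 1) ∧
      (∀ s, ∃ g : F, g ≠ 0 ∧ (∀ σ ∈ H, σ • g = g) ∧
        (∀ P, D.M.sp P = Sum.inr s → P.ord w = p * P.ord g) ∧ ∀ i, D.M.v i (g - 1) < 1) :=
  Iff.rfl

/-- `H40.Geo`, the geometric input of the level lowering argument at `p`, unfolded. `D` is the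
two-component model with inertia group `G`, `W` the Atkin-Lehner involution, `N` the Hecke norm
operator, `ζ` a primitive `p`-th root of unity: lifts at points and nodes; a function `w` with divisor
divisible by `p` and `|w - 1| < |ζ - 1|^p` on both components satisfies `σ w = w^a` up to `p`-th
powers, where `σ ζ = ζ^a`; the norm operator; a separating pair; inertia-fixed lifts; stabilisers
of finite index; the fixed constants have valuation in the group generated by `v(p)`; `ζ` itself (for the
three structures `H40.NOp`, `H40.Sep`, `H40.Zeta` see section 5).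
Proved for `X₀(m p)` in `H73.GeoX.geoX`. File `H40Book`. -/
theorem geo_iff {K F k Fb Γ ν G : Type*} [Field K] [Field F] [Algebra K F] [Field k] [Field Fb]
    [Algebra k Fb] [LinearOrderedCommGroupWithZero Γ] [Group G] [MulSemiringAction G K]
    [MulSemiringAction G F] {p : ℕ} (D : MP.Data K F k Fb Γ ν G p) (W : F ≃ₐ[K] F) (N : F →* F)
    (ζ : K) :
    H40.Geo D W N ζ ↔ D.Lifts ∧
      (∀ (σ : G) (a : ℕ), σ • ζ = ζ ^ a → ∀ w : F, w ≠ 0 → (∀ P : Place K F, (p : ℤ) ∣ P.ord w) →
        (∀ i, D.M.v i (w - 1) < D.M.vK (ζ - 1) ^ p) → ∃ φ : F, φ ≠ 0 ∧ σ • w = w ^ a * φ ^ p) ∧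
      H40.NOp D W N ∧ (∃ z z' : F, H40.Sep D z z') ∧
      (∀ (i : Bool) (a : Fb), ∃ b : F, MP.Fix (⊤ : Subgroup G) b ∧ D.M.v i b ≤ 1 ∧
        D.M.ρ i b = a) ∧
      (∀ f : F, (MulAction.stabilizer G f).FiniteIndex) ∧ D.Disc (⊤ : Subgroup G) (p : K) ∧
      H40.Zeta D (MulAction.stabilizer G ζ) ζ :=
  ⟨fun h => ⟨h.1, h.2, h.3, h.4, h.5, h.6, h.7, h.8⟩,
    fun ⟨h1, h2, h3, h4, h5, h6, h7, h8⟩ => ⟨h1, h2, h3, h4, h5, h6, h7, h8⟩⟩

end Model

section FixedLifts

/-! Announced hypotheses of this section. `S : Sheets K F₀ F k κF Γ q` is the two-component model of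
the modular curve of level `m q` over that of level `m`: `F₀ ⊂ F` (through `S.φ`) are the function
fields over the algebraically closed field `K` of characteristic zero, `κF` is the function field of
level `m` over the residue field `k`; `S.v false`, `S.v true` are the two Gauss-type valuations of
`F` with residue maps `S.ρ false`, `S.ρ true : F → κF`, and `S.v₀`, `S.ρ₀` those of `F₀`. `G` is the
inertia group, `W` the Atkin-Lehner involution, which exchanges the two components and commutes with
`G`; all this is `E : H31.Eq.Equi S G W P₀`. -/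

variable {K F₀ F k κF Γ : Type*} [Field K] [Field F₀] [Field F] [Algebra K F₀] [Algebra K F]
  [Field k] [Field κF] [Algebra k κF] [LinearOrderedCommGroupWithZero Γ] {q : ℕ}
  {S : Sheets K F₀ F k κF Γ q}
  [IsAlgClosed K] [CharZero K] [H3RR.IsFF K F₀] [H3RR.IsFF K F]
  [IsAlgClosed k] [H3RR.IsFF k κF] [H94.FunField K F₀] [H94.FunField K F]
  {G : Type*} [Group G] [MulSemiringAction G K] [MulSemiringAction G F₀]
  [MulSemiringAction G F] {W : F ≃ₐ[K] F} {P₀ : Place K F₀}

/-- **Inertia-fixed lifts**: every function on a component of the special fibre is the reduction of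
a function on the generic fibre which is fixed by inertia. File `H73Geo`. -/
theorem exists_fixed_lift (E : H31.Eq.Equi S G W P₀) (i : Bool) (a : κF) :
    ∃ b : F, (∀ σ ∈ (⊤ : Subgroup G), σ • b = b) ∧ S.v i b ≤ 1 ∧ S.ρ i b = a :=
  H73.Geo.exists_surj E i a

/-- **Separating the two components**: there are inertia-fixed functions `z`, `z'` such that `z` is
a unit on the first component and zero on the second, and `z'` the other way round. With lifts `b` of
`a` and `c` of `Φ(a)` take `z' = W(b) - c`, `z = W(z')`: by Kronecker's congruence `z'` vanishes on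
the first component, and on the second its reduction is `a - Φ(Φ(a)) ≠ 0` for `a` which is not a `q`-th
power. (`Φ = S.Φ` is the relative Frobenius `t ↦ t^q` of expansions; with the Frobenius `S.σ` on
coefficients, `Φ(σ h) = h^q`.) File `H73Geo`. -/
theorem exists_separating_pair (E : H31.Eq.Equi S G W P₀) (hq : 1 < q) :
    ∃ z z' : F, (∀ σ ∈ (⊤ : Subgroup G), σ • z = z) ∧ (∀ σ ∈ (⊤ : Subgroup G), σ • z' = z') ∧
      S.v false z = 1 ∧ S.v true z < 1 ∧ S.v false z' < 1 ∧ S.v true z' = 1 :=
  H73.Geo.exists_sep E hq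

end FixedLifts

/-! ### 5. The node analysis -/

section NodeAnalysis

variable {K F k Fb Γ ν G : Type*} [Field K] [Field F] [Algebra K F] [Field k] [Field Fb]
  [Algebra k Fb] [LinearOrderedCommGroupWithZero Γ] [Group G] [MulSemiringAction G K]
  [MulSemiringAction G F] {p : ℕ} [IsAlgClosed K] [H3RR.IsFF K F] [IsAlgClosed k] [H3RR.IsFF k Fb]
  [Fact p.Prime] [CharP k p] [CharP Fb p]

/-! The variables are the same as in section 4. -/

/-- **The tame case of the node analysis** (`H31MPNodeConst`). Let `u` be a function on `X₀(Mp)`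
all of whose orders are divisible by `p`, invariant under inertia, with Gauss norm `1` on the first
component, and let `p` be a uniformiser of the inertia-invariant constants. Then the orders of the
reduction of `u` at the double points are all congruent modulo `p`.
Idea: near the double point `t` the divisor of `u` is `p` times that of an inertia-invariant function `g`
with `|g| = 1` on the first component; hence `|u|` on the second component is `|p|^m |A|^p`, where `m` is
the order of the reduction at `t` and `A` is an inertia-invariant constant (so `|A|` is a power of `|p|`);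
the left side does not depend on `t`. -/
theorem orders_at_nodes_congruent_tame (D : MP.Data K F k Fb Γ ν G p)
    (hd : D.Disc (⊤ : Subgroup G) (p : K)) {u : F} (hu : ∀ σ : G, σ • u = u) (hu0 : u ≠ 0)
    (hdiv : ∀ P : Place K F, (p : ℤ) ∣ P.ord u) (hvu : D.M.v false u = 1) (s s' : ν) :
    (p : ℤ) ∣ (D.pt false s).ord (D.M.ρ false u) - (D.pt false s').ord (D.M.ρ false u) :=
  D.node_const_tame hd (fun σ _ => hu σ) hu0 hdiv hvu s s'

/-- **The wild case of the node analysis** (`H31MPNodeConst`). Here `u` is invariant only under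
`Hx` (the stabiliser in inertia of the torsion point `x`), and an element `τ` of inertia moves it:
`τ u = u w f^p`, where `w` is the Kummer function of the torsion point `y = τ x - x`. `ε` is a
constant which measures the ramification: `τ` moves the `Hx`-invariant integral functions by
`O(ε²)`, and `(τ a) / a = 1 + n ε + O(ε²)` for an `Hx`-invariant constant `a` with `|a|^p = |p|^n`; and
the `Hy`-invariant functions of absolute value `< 1` have absolute value `≤ |ε|²` (`Hy` the stabiliser of
`y`). Then the orders of the reduction of `u` at the double points are congruent modulo `p`. -/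
theorem orders_at_nodes_congruent_wild (D : MP.Data K F k Fb Γ ν G p)
    {Hx Hy : Subgroup G} {τ : G} {u w f : F} {ε : K}
    (hu : ∀ σ ∈ Hx, σ • u = u) (hu0 : u ≠ 0) (hudiv : ∀ P : Place K F, (p : ℤ) ∣ P.ord u)
    (hvu : D.M.v false u = 1) (hw0 : w ≠ 0) (hw : ∀ σ ∈ Hy, σ • w = w)
    (hw1 : ∀ i, D.M.v i (w - 1) < 1) (hgw : D.HasGenOne Hy w) (hf0 : f ≠ 0)
    (hτu : τ • u = u * w * f ^ p) (hε0 : ε ≠ 0) (hε1 : D.M.vK ε < 1)
    (hτ : ∀ i (g : F), (∀ σ ∈ Hx, σ • g = g) → D.M.v i g ≤ 1 →
      D.M.v i (τ • g - g) ≤ D.M.vK ε ^ 2)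
    (hval : ∀ a : K, a ≠ 0 → (∀ σ ∈ Hx, σ • a = a) →
      ∃ n : ℤ, D.M.vK a ^ p = D.M.vK (p : K) ^ n ∧
        D.M.vK ((τ • a) / a - 1 - n * ε) ≤ D.M.vK ε ^ 2)
    (hy : ∀ i (g : F), (∀ σ ∈ Hy, σ • g = g) → D.M.v i g < 1 → D.M.v i g ≤ D.M.vK ε ^ 2)
    (hp1 : D.M.vK (p : K) < 1) (hp0 : (p : K) ≠ 0) (s s' : ν) :
    (p : ℤ) ∣ (D.pt false s).ord (D.M.ρ false u) - (D.pt false s').ord (D.M.ρ false u) :=
  D.node_const_wild hu hu0 hudiv hvu hw0 hw hw1 hgw hf0 hτu hε0 hε1 hτ hval hy hp1 hp0 s s'

/-- **What a family of Kummer functions is** (`H40.Kum K G p V W N`, file `H40Book`; `V` is the module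
`E[p]`, `W` the Atkin-Lehner involution `w_p`, `N` the norm operator which represents `U_p`): functions
`U x ≠ 0`, `x ∈ V`, whose orders are divisible by `p`, fixed by the stabiliser of `x`, compatible with
addition and with the group `G` up to `p`-th powers; `U x` is a `p`-th power only for `x = 0`; and
`U x · N (W (U x))`, `W (U x) · N (U x)` are `p`-th powers, which is `U_p = -w_p` (the classes are new);
`W` acts on the classes by an integer `e` (a sign in the application). -/
theorem kum_fields {V : Type*} [AddCommGroup V] [DistribMulAction G V] {W : F ≃ₐ[K] F} {N : F →* F}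
    (Q : H40.Kum K G p V W N) :
    (∀ x, Q.U x ≠ 0) ∧ (∀ x (P : Place K F), (p : ℤ) ∣ P.ord (Q.U x)) ∧
      (∀ x (σ : G), σ • x = x → σ • Q.U x = Q.U x) ∧
      (∀ x y, ∃ f, f ≠ 0 ∧ Q.U (x + y) = Q.U x * Q.U y * f ^ p) ∧
      (∀ (σ : G) x, ∃ f, f ≠ 0 ∧ σ • Q.U x = Q.U (σ • x) * f ^ p) ∧
      (∀ x f, Q.U x = f ^ p → x = 0) ∧ (∀ x, ∃ B, B ≠ 0 ∧ Q.U x * N (W (Q.U x)) = B ^ p) ∧
      (∀ x, ∃ B, B ≠ 0 ∧ W (Q.U x) * N (Q.U x) = B ^ p) ∧
      ∃ e : ℤ, ∀ x, ∃ f, f ≠ 0 ∧ W (Q.U x) = Q.U x ^ e * f ^ p :=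
  ⟨Q.ne, Q.dvd, Q.fix, Q.add, Q.smul, Q.inj, Q.rel, Q.rel', Q.W_rel⟩

end NodeAnalysis

/-- The fields of `H40.NOp D W N` (a part of `H40.Geo`), the properties of the Atkin-Lehner involution `W` and
of the norm operator `N f (q) = ∏ f (ζ^i q^{1/p})`: `W` exchanges the two components, is an involution and
commutes with `G`; `N` (multiplicative) commutes with `G`; if `|f - 1| ≤ r` on the first component,
`0 < r < 1`, then `|N f - 1| < r` there (`norm_operator_contracts`).  For `X₀(M p)`: `H40NOp`. -/
theorem norm_operator_iff {K F k Fb Γ ν G : Type*} [Field K] [Field F] [Algebra K F] [Field k]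
    [Field Fb] [Algebra k Fb] [LinearOrderedCommGroupWithZero Γ] [Group G] [MulSemiringAction G K]
    [MulSemiringAction G F] {p : ℕ} (D : MP.Data K F k Fb Γ ν G p) (W : F ≃ₐ[K] F) (N : F →* F) :
    H40.NOp D W N ↔ (∀ f, D.M.v true f = D.M.v false (W f)) ∧ (∀ f, W (W f) = f) ∧
      (∀ (σ : G) (f : F), σ • W f = W (σ • f)) ∧ (∀ (σ : G) (f : F), σ • N f = N (σ • f)) ∧
      ∀ (f : F) (r : Γ), 0 < r → r < 1 → D.M.v false (f - 1) ≤ r → D.M.v false (N f - 1) < r :=
  ⟨fun h => ⟨h.1, h.2, h.3, h.4, h.5⟩, fun ⟨h1, h2, h3, h4, h5⟩ => ⟨h1, h2, h3, h4, h5⟩⟩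

/-- A separating pair (`H40.Sep D z z'`, a part of `H40.Geo`): `G`-invariant functions `z`, `z'`, where `z`
has absolute value `1` on the first and `< 1` on the second component, and `z'` vice versa.  File `H40LemA`;
existence for `X₀(M p)`: `exists_separating_pair`. -/
theorem separating_pair_iff {K F k Fb Γ ν G : Type*} [Field K] [Field F] [Algebra K F] [Field k]
    [Field Fb] [Algebra k Fb] [LinearOrderedCommGroupWithZero Γ] [Group G] [MulSemiringAction G K]
    [MulSemiringAction G F] {p : ℕ} (D : MP.Data K F k Fb Γ ν G p) (z z' : F) :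
    H40.Sep D z z' ↔ (∀ σ ∈ (⊤ : Subgroup G), σ • z = z) ∧ (∀ σ ∈ (⊤ : Subgroup G), σ • z' = z') ∧
      D.M.v false z = 1 ∧ D.M.v true z < 1 ∧ D.M.v false z' < 1 ∧ D.M.v true z' = 1 :=
  ⟨fun h => ⟨h.1, h.2, h.3, h.4, h.5, h.6⟩, fun ⟨h1, h2, h3, h4, h5, h6⟩ => ⟨h1, h2, h3, h4, h5, h6⟩⟩

/-- The root of unity in `H40.Geo`: `H40.Zeta D H ζ` says that `ζ` is a `p`-th root of unity in `K`, not `1`,
fixed by `H`, with `|ζ - 1| < 1`, and that `p ≠ 0` in `K`.  File `H40SS`. -/
theorem root_of_unity_iff {K F k Fb Γ ν G : Type*} [Field K] [Field F] [Algebra K F] [Field k]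
    [Field Fb] [Algebra k Fb] [LinearOrderedCommGroupWithZero Γ] [Group G] [MulSemiringAction G K]
    [MulSemiringAction G F] {p : ℕ} (D : MP.Data K F k Fb Γ ν G p) [IsAlgClosed K] [H3RR.IsFF K F]
    [IsAlgClosed k] [H3RR.IsFF k Fb] [Fact p.Prime] [CharP k p] [CharP Fb p] (H : Subgroup G) (ζ : K) :
    H40.Zeta D H ζ ↔ ζ ^ p = 1 ∧ ζ ≠ 1 ∧ (∀ σ ∈ H, σ • ζ = ζ) ∧ D.M.vK (ζ - 1) < 1 ∧ (p : K) ≠ 0 :=
  ⟨fun h => ⟨h.1, h.2, h.3, h.4, h.5⟩, fun ⟨h1, h2, h3, h4, h5⟩ => ⟨h1, h2, h3, h4, h5⟩⟩

/-- **The norm operator is a contraction near `1`** (helper40, `H40NOp`).  `H97.v1` is the Gauss valuation of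
`X₀(M p)` at the cusp `∞` (the first component), with respect to a place of `ℚ̄` above `p` (valuation ring
`A`, residue map `π`); `H40.Nrm.nOp` is the norm operator `N f (q) = ∏ f (ζ^i q^{1/p})` on the function field
of `X₀(M p)` (`w`, `hD`, `hdeg`: the Atkin-Lehner involution and the degrees of the function fields, for the
model).  If `|f - 1| ≤ r`, `0 < r < 1`, then `|N f - 1| < r`.  Idea: write `f = 1 + c g` with
`|c| = |f - 1|` and `g` integral; then `N f (q^p) = ∏ (1 + c g(ζ^i q)) = 1 + c ∑ g(ζ^i q) + c² e`, `e`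
integral, and since `ζ` reduces to `1` the sum reduces to `p` times the reduction of `g`, that is to `0`. -/
theorem norm_operator_contracts {p : ℕ} [Fact p.Prime] [NeZero p] {M : ℕ} [NeZero M]
    {A : ValuationSubring Qb} {k : Type*} [Field k] {π : A →+* k} [CharP k p] [Infinite k]
    (w : H99.AL Qb M p) (hπ : Function.Surjective π) (hD : H67.DegreeFact Qb)
    (hdeg : H42.DegLE Qb k M) (hpM : ¬ p ∣ M) [IsLocalHom π] {ζ : Qbˣ} (hζ : IsPrimitiveRoot ζ p)
    (f : H99.FX Qb (M * p)) (r : A.ValueGroup) (hr0 : 0 < r) (hr1 : r < 1)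
    (hf : v1 A π w hπ hD hdeg hpM (f - 1) ≤ r) :
    v1 A π w hπ hD hdeg hpM (H40.Nrm.nOp hpM hζ f - 1) < r :=
  H40.Nrm.nOp_close w hπ hD hdeg hpM hζ f r hr0 hr1 hf

/-- **The step from `u` to `W u` and back** (helper40, `H40LemA`).  `u false`, `u true` are two functions (in
the application `u` and `W u`), fixed by `H`, such that `u b · N (u (not b))` is the `p`-th power of a
function fixed by `H`, and both are congruent to `p`-th powers of `H`-fixed functions on the first component
(`|u b U^p - 1| < 1`).  Then they are congruent to such `p`-th powers modulo `ϖ^{m+1}` for every `m`, `ϖ` a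
uniformiser of the constants fixed by `H`.  Induction: if `u (not b) U^p` is congruent to `1` modulo
`ϖ^{m+1}`, then its transform under `N` is congruent to `1` modulo `ϖ^{m+2}` (last property of
`norm_operator_iff`; absolute values of functions fixed by `H` are powers of `|ϖ|`), and it is `1 / u b` up to
the `p`-th power of an `H`-fixed function. -/
theorem contraction_steps {K F k Fb Γ ν G : Type*} [Field K] [Field F] [Algebra K F] [Field k]
    [Field Fb] [Algebra k Fb] [LinearOrderedCommGroupWithZero Γ] [Group G] [MulSemiringAction G K]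
    [MulSemiringAction G F] {p : ℕ} {D : MP.Data K F k Fb Γ ν G p} [IsAlgClosed K]
    [H3RR.IsFF K F] [IsAlgClosed k] [H3RR.IsFF k Fb] [Fact p.Prime] [CharP k p] [CharP Fb p]
    {W : F ≃ₐ[K] F} {N : F →* F} (hN : H40.NOp D W N) {H : Subgroup G} {ϖ : K} (hd : D.Disc H ϖ)
    (u : Bool → F) (hu : ∀ b, ∀ σ ∈ H, σ • u b = u b) (B : Bool → F) (hB : ∀ b, ∀ σ ∈ H, σ • B b = B b)
    (hB0 : ∀ b, B b ≠ 0) (hrel : ∀ b, u b * N (u (!b)) = B b ^ p)
    (h1 : ∀ b, ∃ U, (∀ σ ∈ H, σ • U = U) ∧ U ≠ 0 ∧ D.M.v false (u b * U ^ p - 1) < 1) (m : ℕ) (b : Bool) :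
    ∃ U, (∀ σ ∈ H, σ • U = U) ∧ U ≠ 0 ∧ D.M.v false (u b * U ^ p - 1) ≤ D.M.vK ϖ ^ (m + 1) :=
  H40.close_pair hN hd u hu B hB hB0 hrel h1 m b

/-- **Weak approximation for functions fixed by `H`** (helper40, `H40LemA`): given `H`-fixed functions `U₁`,
`U₂` there is an `H`-fixed function close to `U₁` on the first and to `U₂` on the second component.  (It is
`(z^j U₁ + z'^j U₂) / (z^j + z'^j)` with a separating pair `z`, `z'` and large `j`.) -/
theorem weak_approximation {K F k Fb Γ ν G : Type*} [Field K] [Field F] [Algebra K F] [Field k]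
    [Field Fb] [Algebra k Fb] [LinearOrderedCommGroupWithZero Γ] [Group G] [MulSemiringAction G K]
    [MulSemiringAction G F] {p : ℕ} {D : MP.Data K F k Fb Γ ν G p} {z z' : F} (hz : H40.Sep D z z')
    {H : Subgroup G} {ϖ : K} (hd : D.Disc H ϖ) {U₁ U₂ : F} (h1 : ∀ σ ∈ H, σ • U₁ = U₁)
    (h2 : ∀ σ ∈ H, σ • U₂ = U₂) (m : ℕ) :
    ∃ h : F, (∀ σ ∈ H, σ • h = h) ∧ D.M.v false (h - U₁) ≤ D.M.vK ϖ ^ m ∧
      D.M.v true (h - U₂) ≤ D.M.vK ϖ ^ m :=
  H40.exists_approx hz hd h1 h2 m

/-- **A new class with trivial reduction is close to `1`** (helper40, `H40LemA`, "Lemma A").  `u` is fixed by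
`H`, `u · N (W u)` and `W u · N u` are `p`-th powers of `H`-fixed functions, and `u`, `W u` are congruent to
`p`-th powers of `H`-fixed functions on the first component (so `u` on both components).  Then for every `m`
there is one `H`-fixed function `h` with `|u h^p - 1| ≤ |ϖ|^m` on both components.  Proof:
`contraction_steps` for `u`, `W u`, then `weak_approximation`. -/
theorem close_to_one {K F k Fb Γ ν G : Type*} [Field K] [Field F] [Algebra K F] [Field k]
    [Field Fb] [Algebra k Fb] [LinearOrderedCommGroupWithZero Γ] [Group G] [MulSemiringAction G K]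
    [MulSemiringAction G F] {p : ℕ} {D : MP.Data K F k Fb Γ ν G p} [IsAlgClosed K]
    [H3RR.IsFF K F] [IsAlgClosed k] [H3RR.IsFF k Fb] [Fact p.Prime] [CharP k p] [CharP Fb p]
    {W : F ≃ₐ[K] F} {N : F →* F} (hN : H40.NOp D W N) {z z' : F} (hz : H40.Sep D z z')
    {H : Subgroup G} {ϖ : K} (hd : D.Disc H ϖ) {u B B' : F} (hu : ∀ σ ∈ H, σ • u = u)
    (hB : ∀ σ ∈ H, σ • B = B) (hB' : ∀ σ ∈ H, σ • B' = B') (hB0 : B ≠ 0) (hB'0 : B' ≠ 0)
    (hrel : u * N (W u) = B ^ p) (hrel' : W u * N u = B' ^ p)
    (h1 : ∃ U, (∀ σ ∈ H, σ • U = U) ∧ U ≠ 0 ∧ D.M.v false (u * U ^ p - 1) < 1)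
    (h1' : ∃ U, (∀ σ ∈ H, σ • U = U) ∧ U ≠ 0 ∧ D.M.v false (W u * U ^ p - 1) < 1) (m : ℕ) :
    ∃ h, (∀ σ ∈ H, σ • h = h) ∧ h ≠ 0 ∧ ∀ i, D.M.v i (u * h ^ p - 1) ≤ D.M.vK ϖ ^ m :=
  H40.lemA hN hz hd hu hB hB' hB0 hB'0 hrel hrel' h1 h1' m

/-- **Splitting** (helper40, `H40Book`).  `D` is a semistable model of a curve with two components with a
group `G` (inertia) acting trivially on the special fibre, `W` the Atkin-Lehner involution, `N` the norm
operator `N f (q) = ∏ f (ζ^i q^{1/p})` (`H40.Geo` lists their properties; they are proved for `X₀(M p)` in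
`H73GeoX`, with `H40NOp` on the operator `N` and `H73Geo`, `H73Lift` on lifting).
Let `u` be a function with divisor divisible by `p`, fixed by a subgroup `H` whose fixed constants are
discretely valued with uniformiser `ϖ`, such that `u · N (W u)` and `W u · N u` are `p`-th powers of
`H`-fixed functions (this is `U_p = -w_p`).  If `u` is congruent to `p`-th powers on both components
(`h1`, `h1'`), then `σ u = u^a` up to a `p`-th power for `σ ζ = ζ^a`: the class of `u` spans a cyclotomic
line.  Proof: by the relation (`N` is a contraction near `1`) `u` can be changed by `p`-th powers of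
functions fixed by `H` step by step until `|u - 1| < |ζ - 1|^p` on both components (`close_to_one`); a
function with divisor divisible by `p` which is that close to `1` is multiplied by inertia as stated (field
`ss2` of `H40.Geo`, helper84). -/
theorem splitting {K F k Fb Γ ν G : Type*} [Field K] [Field F] [Algebra K F] [Field k]
    [Field Fb] [Algebra k Fb] [LinearOrderedCommGroupWithZero Γ] [Group G] [MulSemiringAction G K]
    [MulSemiringAction G F] {p : ℕ} {D : H31.MP.Data K F k Fb Γ ν G p} [IsAlgClosed K]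
    [H3RR.IsFF K F] [IsAlgClosed k] [H3RR.IsFF k Fb] [Fact p.Prime] [CharP k p] [CharP Fb p]
    {W : F ≃ₐ[K] F} {N : F →* F} {ζ : K} (R : H40.Geo D W N ζ) {H : Subgroup G} {ϖ : K}
    (hd : D.Disc H ϖ) {d : ℕ} (hζϖ : D.M.vK (ζ - 1) = D.M.vK ϖ ^ d) {u B B' : F}
    (hu : ∀ σ ∈ H, σ • u = u) (hdiv : ∀ P : Place K F, (p : ℤ) ∣ P.ord u)
    (hB : ∀ σ ∈ H, σ • B = B) (hB' : ∀ σ ∈ H, σ • B' = B') (hB0 : B ≠ 0) (hB'0 : B' ≠ 0)
    (hrel : u * N (W u) = B ^ p) (hrel' : W u * N u = B' ^ p)
    (h1 : ∃ U, (∀ σ ∈ H, σ • U = U) ∧ U ≠ 0 ∧ D.M.v false (u * U ^ p - 1) < 1)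
    (h1' : ∃ U, (∀ σ ∈ H, σ • U = U) ∧ U ≠ 0 ∧ D.M.v false (W u * U ^ p - 1) < 1)
    {σ : G} {a : ℕ} (hσ : σ • ζ = ζ ^ a) : ∃ φ : F, φ ≠ 0 ∧ σ • u = u ^ a * φ ^ p :=
  R.split hd hζϖ hu hdiv hB hB' hB0 hB'0 hrel hrel' h1 h1' hσ

/-- **Constants fixed by a subgroup of finite index** (helper40, `H40Fin`): if the constants fixed by `G` are
discretely valued, so are those fixed by a subgroup `H` of finite index; and a constant `c ≠ 0` fixed by `H`
with `|c| < 1` has the absolute value `|ϖ|^d`, `d ≥ 1`, for a uniformiser `ϖ`.  (Norm from `H` to `G`.) -/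
theorem discrete_constants {K F k Fb Γ ν G : Type*} [Field K] [Field F] [Algebra K F] [Field k]
    [Field Fb] [Algebra k Fb] [LinearOrderedCommGroupWithZero Γ] [Group G] [MulSemiringAction G K]
    [MulSemiringAction G F] {p : ℕ} {D : MP.Data K F k Fb Γ ν G p} :
    (∀ π : K, D.Disc (⊤ : Subgroup G) π → ∀ (H : Subgroup G) [H.FiniteIndex], ∃ ϖ : K, D.Disc H ϖ) ∧
      ∀ (H : Subgroup G) (ϖ : K), D.Disc H ϖ → ∀ c : K, c ≠ 0 → (∀ σ ∈ H, σ • c = c) → D.M.vK c < 1 →
        ∃ d : ℕ, D.M.vK c = D.M.vK ϖ ^ d ∧ 1 ≤ d :=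
  ⟨fun _ hd H _ => H40.disc_of_finiteIndex hd H, fun _ _ hd _ h0 hf h1 => H40.exists_nat_pow hd h0 hf h1⟩

/-- **A common subgroup** (helper40, `H40Book`): for finitely many functions there is a subgroup `H` fixing
them and `ζ`, whose fixed constants are discretely valued with a uniformiser `ϖ`, and `|ζ - 1| = |ϖ|^d`,
`d ≥ 1`.  (Intersection of the stabilisers, which have finite index.) -/
theorem common_subgroup {K F k Fb Γ ν G : Type*} [Field K] [Field F] [Algebra K F] [Field k]
    [Field Fb] [Algebra k Fb] [LinearOrderedCommGroupWithZero Γ] [Group G] [MulSemiringAction G K]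
    [MulSemiringAction G F] {p : ℕ} {D : MP.Data K F k Fb Γ ν G p} [IsAlgClosed K]
    [H3RR.IsFF K F] [IsAlgClosed k] [H3RR.IsFF k Fb] [Fact p.Prime] [CharP k p] [CharP Fb p]
    {W : F ≃ₐ[K] F} {N : F →* F} {ζ : K} (R : H40.Geo D W N ζ) (T : Finset F) :
    ∃ (H : Subgroup G) (ϖ : K) (d : ℕ), (∀ f ∈ T, ∀ σ ∈ H, σ • f = f) ∧ D.Disc H ϖ ∧
      H40.Zeta D H ζ ∧ D.M.vK (ζ - 1) = D.M.vK ϖ ^ d ∧ 1 ≤ d :=
  R.exists_fin T

/-- **Functions congruent to `p`-th powers** (helper40, `H40Book`).  `H40.TrivAt D i f` says that `f` is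
congruent to a `p`-th power on the component `i`: `|f h^p - 1| < 1` for some `h ≠ 0`.  These functions are
closed under products and inverses; `p`-th powers and constants are among them, and so are the quotients
`σ f / f`, `σ ∈ G`, because `G` acts trivially on the reductions. -/
theorem congruent_to_power {K F k Fb Γ ν G : Type*} [Field K] [Field F] [Algebra K F] [Field k]
    [Field Fb] [Algebra k Fb] [LinearOrderedCommGroupWithZero Γ] [Group G] [MulSemiringAction G K]
    [MulSemiringAction G F] {p : ℕ} {D : MP.Data K F k Fb Γ ν G p} [IsAlgClosed K] [Fact p.Prime]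
    (i : Bool) :
    (∀ f, H40.TrivAt D i f ↔ ∃ h : F, h ≠ 0 ∧ D.M.v i (f * h ^ p - 1) < 1) ∧
      (∀ f g, H40.TrivAt D i f → H40.TrivAt D i g → H40.TrivAt D i (f * g)) ∧
      (∀ f, H40.TrivAt D i f → H40.TrivAt D i f⁻¹) ∧ (∀ f : F, f ≠ 0 → H40.TrivAt D i (f ^ p)) ∧
      (∀ c : K, c ≠ 0 → H40.TrivAt D i (algebraMap K F c)) ∧
      ∀ (σ : G) (f : F), f ≠ 0 → H40.TrivAt D i (σ • f / f) :=
  ⟨fun _ => Iff.rfl, fun _ _ h h' => h.mul h', fun _ h => h.inv, fun _ h => H40.trivAt_pow h,
    fun _ h => H40.trivAt_const h, fun σ _ h => H40.trivAt_smul_div σ h⟩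

/-- **The reduction is a `p`-th power** (helper40, `H40Node`): a function `f` with `|f| = 1` on the component
`i` is congruent to a `p`-th power there exactly if its reduction is a `p`-th power of a function `≠ 0`; and
then `|f b^p - 1| < 1` with a function `b` fixed by `G` (the surjectivity in `H40.Geo`). -/
theorem congruent_iff_reduction {K F k Fb Γ ν G : Type*} [Field K] [Field F] [Algebra K F] [Field k]
    [Field Fb] [Algebra k Fb] [LinearOrderedCommGroupWithZero Γ] [Group G] [MulSemiringAction G K]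
    [MulSemiringAction G F] {p : ℕ} {D : MP.Data K F k Fb Γ ν G p} [IsAlgClosed K]
    [H3RR.IsFF K F] [IsAlgClosed k] [H3RR.IsFF k Fb] [Fact p.Prime] [CharP k p] [CharP Fb p]
    {W : F ≃ₐ[K] F} {N : F →* F} {ζ : K} (R : H40.Geo D W N ζ) {i : Bool} {f : F}
    (hv : D.M.v i f = 1) :
    (H40.TrivAt D i f ↔ ∃ g : Fb, g ≠ 0 ∧ D.M.ρ i f = g ^ p) ∧
      ∀ g : Fb, D.M.ρ i f = g ^ p → ∃ b : F, (∀ σ ∈ (⊤ : Subgroup G), σ • b = b) ∧ D.M.v i b = 1 ∧
        D.M.v i (f * b ^ p - 1) < 1 :=
  ⟨⟨fun h => h.exists_pow hv, fun ⟨_, _, h⟩ => R.trivAt_of_eq_pow hv h⟩, fun _ h => R.exists_root hv h⟩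

/-- **Cyclotomic action on the classes with trivial reduction** (helper40, `H40Book`).  If the Kummer function
of `y` is congruent to a `p`-th power on the first component, then `σ y = a y` for `σ ζ = ζ^a`.  From
`splitting` with the subgroup of `common_subgroup`: by the relation `W (U y) = U y ^ e` (up to a `p`-th
power) it is also congruent to a `p`-th power on the second component. -/
theorem cyclotomic_action {K F k Fb Γ ν G : Type*} [Field K] [Field F] [Algebra K F] [Field k]
    [Field Fb] [Algebra k Fb] [LinearOrderedCommGroupWithZero Γ] [Group G] [MulSemiringAction G K]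
    [MulSemiringAction G F] {p : ℕ} {D : MP.Data K F k Fb Γ ν G p} [IsAlgClosed K]
    [H3RR.IsFF K F] [IsAlgClosed k] [H3RR.IsFF k Fb] [Fact p.Prime] [CharP k p] [CharP Fb p]
    {W : F ≃ₐ[K] F} {N : F →* F} {ζ : K} (R : H40.Geo D W N ζ) {V : Type*} [AddCommGroup V]
    [DistribMulAction G V] (Q : H40.Kum K G p V W N) {y : V} (hy : H40.TrivAt D false (Q.U y)) {σ : G}
    {a : ℕ} (hσ : σ • ζ = ζ ^ a) : σ • y = a • y :=
  H40.smul_eq_of_triv R Q hy hσ

/-- **The classes with trivial reduction** (helper40, `H40Book`).  `Q.U x`, `x ∈ V`, are the Kummer functions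
of a `G`-module `V` of `p`-torsion classes (`H40.Kum`: additive and equivariant up to `p`-th powers, fixed by
the stabiliser of `x`, `U_p = -w_p`), and `E` (`H40.ESide`) is the description of the action of `G` on `V` of
`frey_inertia_at_p`.  The Kummer function of `x` is congruent to a `p`-th power on the first component
exactly if `x` lies in the cyclotomic line `E.Vm`.  Proof: if the class `x` has trivial reduction, then
`σ x = a x` for `σ ζ = ζ^a` (`cyclotomic_action`); with `σ x - x ∈ E.Vm` and a `σ` with `a ≢ 1` this gives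
`x ∈ E.Vm`.  Conversely inertia acts trivially on the special fibre, so the classes `σ y - y` have trivial
reduction (`congruent_to_power`); for `y` in the line they are `(a - 1) y` and span it. -/
theorem trivial_reduction_iff {K F k Fb Γ ν G : Type*} [Field K] [Field F] [Algebra K F] [Field k]
    [Field Fb] [Algebra k Fb] [LinearOrderedCommGroupWithZero Γ] [Group G] [MulSemiringAction G K]
    [MulSemiringAction G F] {p : ℕ} {D : H31.MP.Data K F k Fb Γ ν G p} [IsAlgClosed K]
    [H3RR.IsFF K F] [IsAlgClosed k] [H3RR.IsFF k Fb] [Fact p.Prime] [CharP k p] [CharP Fb p]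
    {W : F ≃ₐ[K] F} {N : F →* F} {ζ : K} (R : H40.Geo D W N ζ) {V : Type*} [AddCommGroup V]
    [DistribMulAction G V] (Q : H40.Kum K G p V W N) (E : H40.ESide (G := G) D.M.vK p V ζ) (x : V) :
    (∃ h : F, h ≠ 0 ∧ D.M.v false (Q.U x * h ^ p - 1) < 1) ↔ x ∈ E.Vm :=
  H40.triv_iff R Q E x

/-- **Orders at smooth points** (helper40, `H40Node`): if the divisor of `u` is divisible by `p`, so are the
orders of its reduction on a component at the points which are not nodes.  (The residue class of a smooth
point is a disc.) -/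
theorem order_at_smooth_point {K F k Fb Γ ν G : Type*} [Field K] [Field F] [Algebra K F] [Field k]
    [Field Fb] [Algebra k Fb] [LinearOrderedCommGroupWithZero Γ] [Group G] [MulSemiringAction G K]
    [MulSemiringAction G F] {p : ℕ} {D : H31.MP.Data K F k Fb Γ ν G p} [IsAlgClosed K]
    [H3RR.IsFF K F] [IsAlgClosed k] [H3RR.IsFF k Fb] [Fact p.Prime] [CharP k p] [CharP Fb p]
    {u : F} (hu0 : u ≠ 0) (hdiv : ∀ P : Place K F, (p : ℤ) ∣ P.ord u) {i : Bool} (hv : D.M.v i u = 1)
    {P : Place k Fb} (hP : ∀ n, (i, P) ∉ D.M.br n) : (p : ℤ) ∣ P.ord (D.M.ρ i u) :=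
  H40.dvd_ord_smooth hu0 hdiv hv hP

/-- **A representative close to `1` on both components** (helper40, `H40Node`): for a class `y` with trivial
reduction, fixed by `H` (the constants fixed by `H` are discretely valued), the function `U y` divided by a
constant and multiplied by a `p`-th power, both fixed by `H`, is congruent to `1` on both components.  (At a
node `s` one sees that the absolute value of the function on the second component is the `p`-th power of that
of a constant fixed by `H`; then `weak_approximation`.)  This is the function `w` in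
`orders_at_nodes_congruent_wild`. -/
theorem representative_near_one {K F k Fb Γ ν G : Type*} [Field K] [Field F] [Algebra K F] [Field k]
    [Field Fb] [Algebra k Fb] [LinearOrderedCommGroupWithZero Γ] [Group G] [MulSemiringAction G K]
    [MulSemiringAction G F] {p : ℕ} {D : MP.Data K F k Fb Γ ν G p} [IsAlgClosed K]
    [H3RR.IsFF K F] [IsAlgClosed k] [H3RR.IsFF k Fb] [Fact p.Prime] [CharP k p] [CharP Fb p]
    {W : F ≃ₐ[K] F} {N : F →* F} {ζ : K} (R : H40.Geo D W N ζ) {V : Type*} [AddCommGroup V]
    [DistribMulAction G V] (Q : H40.Kum K G p V W N) {y : V} {H : Subgroup G} (hH : ∀ σ ∈ H, σ • y = y)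
    {ϖ : K} (hd : D.Disc H ϖ) (hy : H40.TrivAt D false (Q.U y)) (s : ν) :
    ∃ (a : K) (h : F), a ≠ 0 ∧ h ≠ 0 ∧ (∀ σ ∈ H, σ • a = a) ∧ (∀ σ ∈ H, σ • h = h) ∧
      ∀ i, D.M.v i (Q.U y / algebraMap K F a * h ^ p - 1) < 1 :=
  H40.exists_one_rep R Q hH hd hy s

/-- **The stabiliser of a point `≠ 0` of the cyclotomic line** is that of `ζ` (helper40, `H40Node`). -/
theorem stabiliser_in_line {K F k Fb Γ ν G : Type*} [Field K] [Field F] [Algebra K F] [Field k]
    [Field Fb] [Algebra k Fb] [LinearOrderedCommGroupWithZero Γ] [Group G] [MulSemiringAction G K]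
    [MulSemiringAction G F] {p : ℕ} {D : MP.Data K F k Fb Γ ν G p} [IsAlgClosed K]
    [H3RR.IsFF K F] [IsAlgClosed k] [H3RR.IsFF k Fb] [Fact p.Prime] [CharP k p] [CharP Fb p]
    {W : F ≃ₐ[K] F} {N : F →* F} {ζ : K} (R : H40.Geo D W N ζ) {V : Type*} [AddCommGroup V]
    [DistribMulAction G V] (E : H40.ESide (G := G) D.M.vK p V ζ) {y : V} (hy : y ∈ E.Vm) (hy0 : y ≠ 0) :
    MulAction.stabilizer G y = MulAction.stabilizer G ζ :=
  H40.stab_eq R E hy hy0

/-- **Congruence of the orders at the nodes** (helper40, `H40Node`; Mazur's principle at `p` in the language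
of functions).  Situation of `trivial_reduction_iff`; `D.M.v i` are the Gauss valuations, `D.M.ρ i` the
reductions, `ν` is the set of nodes, `D.pt i s` the point of the component `i` at the node `s`.  Conclusion:
the reduction on the first component of the Kummer function of the point `E.z` outside the cyclotomic line
(normalised by a constant `c`) has orders at the nodes which are congruent to each other modulo `p`.
Proof: if inertia fixes `z` this is `orders_at_nodes_congruent_tame`; otherwise
`orders_at_nodes_congruent_wild` with `y = τ z - z` in the line (`trivial_reduction_iff`), `w` a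
representative near `1` of the class `y` (`representative_near_one`) and `Hy` the stabiliser of `y`
(`stabiliser_in_line`, `discrete_constants`); its local generators are those of `generator_at_smooth_point`
and `generator_at_double_point` of `GuideNodeAnalysis`. -/
theorem node_congruence {K F k Fb Γ ν G : Type*} [Field K] [Field F] [Algebra K F] [Field k]
    [Field Fb] [Algebra k Fb] [LinearOrderedCommGroupWithZero Γ] [Group G] [MulSemiringAction G K]
    [MulSemiringAction G F] {p : ℕ} {D : H31.MP.Data K F k Fb Γ ν G p} [IsAlgClosed K]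
    [H3RR.IsFF K F] [IsAlgClosed k] [H3RR.IsFF k Fb] [Fact p.Prime] [CharP k p] [CharP Fb p]
    {W : F ≃ₐ[K] F} {N : F →* F} {ζ : K} (R : H40.Geo D W N ζ) {V : Type*} [AddCommGroup V]
    [DistribMulAction G V] (Q : H40.Kum K G p V W N) (E : H40.ESide (G := G) D.M.vK p V ζ) {c : K}
    (hc : D.M.v false (Q.U E.z / algebraMap K F c) = 1) (s s' : ν) :
    (p : ℤ) ∣ (D.pt false s).ord (D.M.ρ false (Q.U E.z / algebraMap K F c)) -
      (D.pt false s').ord (D.M.ρ false (Q.U E.z / algebraMap K F c)) :=
  H40.node_congr R Q E hc s s'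

/-- In the situation of `node_congruence` the reduction of the Kummer function of the point `E.z` is not a
`p`-th power (helper40, `H40Node`).  By `congruent_iff_reduction` and `trivial_reduction_iff`. -/
theorem reduction_ne_pow {K F k Fb Γ ν G : Type*} [Field K] [Field F] [Algebra K F] [Field k]
    [Field Fb] [Algebra k Fb] [LinearOrderedCommGroupWithZero Γ] [Group G] [MulSemiringAction G K]
    [MulSemiringAction G F] {p : ℕ} {D : H31.MP.Data K F k Fb Γ ν G p} [IsAlgClosed K]
    [H3RR.IsFF K F] [IsAlgClosed k] [H3RR.IsFF k Fb] [Fact p.Prime] [CharP k p] [CharP Fb p]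
    {W : F ≃ₐ[K] F} {N : F →* F} {ζ : K} (R : H40.Geo D W N ζ) {V : Type*} [AddCommGroup V]
    [DistribMulAction G V] (Q : H40.Kum K G p V W N) (E : H40.ESide (G := G) D.M.vK p V ζ) {c : K}
    (hc : D.M.v false (Q.U E.z / algebraMap K F c) = 1) (g : Fb) :
    D.M.ρ false (Q.U E.z / algebraMap K F c) ≠ g ^ p :=
  H40.ne_pow R Q E hc g

/-! ### 6. The divisor of `Δ̄^(p-1)` -/

/-- **The modular unit** (helper38, `H38DvA`).  The Laurent series `Δ(t^q)/Δ(t)` belongs to the function field
of `X₀(m q)` over `L`, and its product with its transform under the Atkin-Lehner automorphism `w_q` is the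
constant `q^{-12}`. -/
theorem modular_unit {L : Type*} [Field L] [CharZero L] [Algebra ℚ L] [IsAlgClosed L] {m q : ℕ}
    [NeZero m] [NeZero q] [Fact q.Prime] (w : H99.AL L m q) :
    ∃ V : H99.FX L (m * q), (V : LaurentSeries L) = H9.deltaRatio L q ∧
      V * w.W V = algebraMap L _ ((q : L) ^ 12)⁻¹ :=
  H38.Dv.exists_unit w

/-- **Order of a reduction at a node** (helper38, `H38DvB`).  `S` is a two-sheeted model (`H97.Sheets`) of
`F/K` over a curve with good reduction; `x` a node with local parameters `z z' = q · unit`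
(`H31.Eq.NodePar`).  A function `V` which is a unit on the annulus of the node, with `|V| = 1` on the first
and `|V| = |q|^n` on the second component, has a reduction of order `n` at `x`. -/
theorem order_at_node {K F₀ F k κF Γ : Type*} [Field K] [Field F₀] [Field F] [Algebra K F₀]
    [Algebra K F] [Field k] [Field κF] [Algebra k κF] [LinearOrderedCommGroupWithZero Γ] {q : ℕ}
    (S : Sheets K F₀ F k κF Γ q) [IsAlgClosed K] [CharZero K] [H3RR.IsFF K F₀] [H3RR.IsFF K F]
    [IsAlgClosed k] [H3RR.IsFF k κF] [H94.FunField K F₀] [H94.FunField K F] {x : Place k κF}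
    {z z' u : F} (h : H31.Eq.NodePar S x z z' u) (hq : q ≠ 0) {V : F} {n : ℤ}
    (hV1 : S.v false V = 1) (hV2 : S.v true V = S.vK q ^ n)
    (hord : ∀ P, S.red P = x → P.ord V = 0) : x.ord (S.ρ false V) = n :=
  H38.Dv.ord_node S h hq hV1 hV2 hord

/-- **The special fibre of `X₀(m q)` in characteristic `q`** (helper45, helper61, `H45NdG`; helper38,
`H38DvC`).  `L` is an algebraically closed field of characteristic `0` (with an embedding `ι` in `ℂ`) with an
archimedean valuation ring `A` (`H97.Arch A`) and a map `π : A → k` onto an algebraically closed field of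
characteristic `q`; `q ∤ m`, and `e ∣ m` with `e = 4` or `e = 9`; `w` (`H99.AL L m q`) is the Atkin-Lehner
involution `w_q` of the function field `H99.FX L (m q)` of `X₀(m q)`; `hdeg` says that `X₀(m)` has a function
field of the right degree in characteristic `q`, and `r`, `hr1`, `hr2` is the reduction map on the places of
`X₀(m)` (`H34.GR.DivCompat`: it is compatible with the reduction of functions).  `S` is the
two-sheeted model of `X₀(m q)` over `X₀(m)` (`S.v false`, `S.v true` the Gauss valuations at `∞` and `w_q ∞`,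
`S.ρ` the reductions); a place `x` of `X₀(m)` in characteristic `q` is a node (`S.Node x`) if the two
points over it coincide (this happens at the supersingular points). `ub` is the function with expansion
`Δ^{q-1}`, the reduction of the modular unit `Δ(t^q)/Δ(t)`, and `jk k m` is the modular invariant;
`0 ≤ x.ord j` says that `x` is not a cusp.  Then
1. (local equation) at a node `x` there are functions with `z z' = q u`, `u` a unit on the annulus of the
   node (`S.InR`), `z` reducing to a local parameter at `x` on the first component and `z'` to a local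
   parameter at the conjugate point `S.tw x` on the second (`z = X - X(t^q)^q`, `z' = X(t^q) - X^q` for a
   Hauptmodul `X` of level `4` or `9`);
2. `Δ̄^{q-1}` has order `-12` at the nodes;
3. `Δ̄^{q-1}` has order `0` at the points which are neither nodes nor cusps;
4. if the orders of `g` are congruent to each other modulo `q` at the nodes and divisible by `q` at the
   other points, there is `n` with `q ∣ 12 ord_x g + n ord_x Δ̄^{q-1}` at all non-cuspidal points `x`. -/
theorem special_fibre {L : Type*} [Field L] [Algebra ℚ L] {A : ValuationSubring L} {k : Type*}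
    [Field k] {π : A →+* k} {m q : ℕ} [NeZero m] [NeZero q] [Fact q.Prime] [CharP k q]
    [IsAlgClosed k] [Infinite k] (w : H99.AL L m q) (hπ : Function.Surjective π)
    (hdeg : H42.DegLE L k m) (hqm : ¬ q ∣ m) [IsAlgClosed L] [CharZero L] [IsLocalHom π]
    (ι : L →+* ℂ) {e : ℕ} (he : e = 4 ∨ e = 9) (hem : e ∣ m) (arch : Arch A)
    (r : Place L (H99.FX L m) → Place k (modularFunctionFieldFullC k m)) {c : ℕ}
    (hr1 : ∀ D : Divisor L (H99.FX L m), (c : ℤ) < Divisor.degree D →
      (H42.modReductionData A π m hπ hdeg).IsRed D (Finsupp.mapDomain r D))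
    (hr2 : H34.GR.DivCompat (H42.modReductionData A π m hπ hdeg) r)
    [H3RR.IsFF L (H99.FX L m)] [H3RR.IsFF L (H99.FX L (m * q))]
    [H3RR.IsFF k (modularFunctionFieldFullC k m)] [H94.FunField L (H99.FX L m)]
    [H94.FunField L (H99.FX L (m * q))]
    {S : Sheets L (H99.FX L m) (H99.FX L (m * q)) k (modularFunctionFieldFullC k m) A.ValueGroup q}
    (hS : S = sheets w hπ hdeg hqm arch r hr1 hr2) {ub : modularFunctionFieldFullC k m}
    (hub : (ub : LaurentSeries k) = H28.deltaL k ^ (q - 1)) :
    (∀ x, S.Node x → ∃ z z' u, S.InR x z ∧ S.InR x z' ∧ S.InR x u ∧ S.InR x u⁻¹ ∧ z * z' = q * u ∧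
      S.v false z = 1 ∧ S.v true z' = 1 ∧ x.ord (S.ρ false z) = 1 ∧
      (S.tw x).ord (S.ρ true z') = 1) ∧
    (∀ x, S.Node x → x.ord ub = -12) ∧
    (∀ x, ¬ S.Node x → 0 ≤ x.ord (H34.Two.jk k m) → x.ord ub = 0) ∧
    ∀ g, (∀ s s', S.Node s → S.Node s' → (q : ℤ) ∣ s.ord g - s'.ord g) →
      (∀ s, ¬ S.Node s → (q : ℤ) ∣ s.ord g) →
      ∃ n : ℤ, ∀ x : Place k (modularFunctionFieldFullC k m), 0 ≤ x.ord (H34.Two.jk k m) →
        (q : ℤ) ∣ 12 * x.ord g + n * x.ord ub := by
  subst hS
  refine ⟨fun x hx => ?_, fun x hx => H38.Dv.ord_ubar_node w hπ hdeg hqm ι he hem arch r hr1 hr2 hx hub,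
    fun x hx hj => H38.Dv.ord_ubar_smooth w hπ hdeg hqm arch r hr1 hr2 hx hj hub, fun g hn hs =>
      H38.Dv.exists_dvd_ord w hπ hdeg hqm ι he hem arch r hr1 hr2 hn hs hub⟩
  have h := H45.Nd.nodePar w hπ hdeg hqm ι he hem arch r hr1 hr2 hx
  exact ⟨_, _, _, h.hz, h.hz', h.hu, h.hui, h.mul, h.v_z, h.v_z', h.ord_z, h.ord_z'⟩

/-! ### 7. The logarithmic derivative -/

/-- **Hecke relation for the logarithmic derivative** (helper39, `H39Hecke`).  Let `u` be a Kummer function
of the class `[D]` of level `N`, `T_ℓ [D] = a [D]`, and `g` its reduction.  The coefficients of `θ g / g`,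
`θ = q d/dq`, satisfy `c(n ℓ) + ℓ c(n / ℓ) = a c(n)`.  Idea: `T_ℓ u = u^a w^p`; the product formula for
`T_ℓ` on `q`-expansions goes over to the reduction, and the logarithmic derivative forgets `p`-th powers.
No model of `X₀(N)` in characteristic `p` is used, and `p` may divide `N`. -/
theorem hecke_dlog {A : ValuationSubring Qb} {k : Type*} [Field k] {π : A →+* k} [IsLocalHom π]
    {N p : ℕ} [NeZero N] [Fact p.Prime] [CharP k p] {ℓ : ℕ} (hℓ : ℓ.Prime) (hℓN : ¬ ℓ ∣ N)
    (hℓp : ℓ ≠ p) {a : ℤ} {D : Divisor.degZero (K := Qb) (F := modularFunctionFieldBar N)}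
    {u : modularFunctionFieldBar N} (hu : u ≠ 0)
    (hord : ∀ v : Place Qb (modularFunctionFieldBar N),
      v.ord u = (p : ℤ) * (D : Divisor Qb (modularFunctionFieldBar N)) v)
    (hT : heckeOperatorBar N ⟨ℓ, hℓ⟩ (Pic0.mk D) =
      a • (Pic0.mk D : Pic0 Qb (modularFunctionFieldBar N)))
    {g : LaurentSeries k} (hg : g ≠ 0) (hred : H38.Mz.Red A π (u : LaurentSeries Qb) g) (n : ℕ) :
    (H61.theta g / g).coeff ((n * ℓ : ℕ) : ℤ) +
        (if ℓ ∣ n then (ℓ : k) * (H61.theta g / g).coeff ((n / ℓ : ℕ) : ℤ) else 0) =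
      (a : k) * (H61.theta g / g).coeff (n : ℤ) := by
  have h := H39.heckeCoeffTwo_dl_red (M := 1) hℓ hℓN hℓ.not_dvd_one hℓp hu hord hT hg hred n
  simpa only [H49.heckeCoeffTwo, if_neg hℓ.not_dvd_one, H39.dl] using h

/-- **The span theorem** (helper39, `H39Span`).  `N` squarefree and prime to `p`, `A` a place of `ℚ̄` above
`p`.  If the divisor of a function `g` on `X₀(N)` over the residue field is divisible by `p` away from the
cusps (the poles of `j`), then the coefficients of `θ g / g` are a linear combination of reductions of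
integral `q`-expansions of modular forms of weight 2 for `Γ₀(N)`.  Idea: the quotient of `θ g / g` by
`θ j` (that is, `dg/g` divided by `dj`) is in the Riemann-Roch space of `div(dj) + cusps`, because
`dg/g` has no pole where `p` divides the order of `g`; the dimension of this space is
`genus + cusps - 1` in both characteristics, so the reductions of `F / θ j`, `F` of weight 2, fill it. -/
theorem exists_span_of_dlog {N p : ℕ} [NeZero N] [Fact p.Prime] (hN : Squarefree N)
    (hpN : ¬ p ∣ N) {A : ValuationSubring Qb} (hA : A.LiesOverPrime p) {g : FC (κ A) N}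
    (hg0 : g ≠ 0) (hdiv : ∀ w : Place (κ A) (FC (κ A) N), 0 ≤ w.ord (H34.Two.jk (κ A) N) →
      (p : ℤ) ∣ w.ord g) :
    ∃ (r : ℕ) (b : Fin r → ℕ → ℤ) (c : Fin r → κ A),
      (∀ i, ∃ F : ModularForm (CongruenceSubgroup.Gamma0 N) 2, ∀ n,
        ModularFormClass.qCoeff F n = (b i n : ℂ)) ∧
      ∀ n : ℕ, (H61.theta (g : LaurentSeries (κ A)) / (g : LaurentSeries (κ A))).coeff (n : ℤ) =
        ∑ i, c i * (b i n : κ A) := by
  have : CharP (κ A) p := H60.charP_residue Fact.out hA
  have : IsAlgClosed (κ A) := H18.isAlgClosed_residueField A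
  obtain ⟨r, b, c, h1, h2⟩ := H39.exists_span_of_log A (IsLocalRing.residue A) N
    IsLocalRing.residue_surjective (H18.degLE_of_not_dvd N hpN A hA) (H88.genusFFEq N hpN A hA) hN
    hg0 hdiv
  exact ⟨r, b, c, fun i => let ⟨_, hx⟩ := h1 i; ⟨_, fun n => congrFun hx n⟩, h2⟩

/-- **From the reduction to a modular form of level `M₀`** (helper39, `H39Core`).  `x = [D]` a class of
order `p` in `J₀(M₀ p)` with eigenvalues `a_ℓ(W)` and Kummer function `u` (`div u = p D`), `g` the reduction
of a multiple of `u` as a function on `X₀(M)` in characteristic `p`, where `M₀ ∣ M` and the index of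
`Γ₀(M)` in `Γ₀(M₀)` is prime to `p`.  Suppose that `g` is not a `p`-th power, that `a div g + b div Δ̄^(p-1)`
is divisible by `p` away from the cusps for some `a` prime to `p`, and that the eigenvalues are not
Eisenstein.  Then `W` is residually modular of level `M₀`.  Idea: `g` is already a
function of level `M₀`; apply the span theorem to `g^a Δ̄^(b (p-1))` and use the Hecke relation; `θ g ≠ 0`
since a function killed by `θ` is a `p`-th power; the Eisenstein part is removed with `hE`, and
eigenvalues lift (Deligne-Serre).  `H38.Mz.Red` is the reduction of expansions: `f = y / z`, `fb = ȳ / z̄`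
for series `y`, `z` with coefficients in `A`, `z̄ ≠ 0`. -/
theorem modular_of_reduction {p : ℕ} [Fact p.Prime] {A : ValuationSubring Qb}
    (hA : A.LiesOverPrime p) {W : WeierstrassCurve ℤ} {M₀ M : ℕ} [NeZero M₀] [NeZero M]
    (hM₀ : Squarefree M₀) (hdvd : M₀ ∣ M) (hpM : ¬ p ∣ M) {d : ℕ}
    (hd : dedekindPsi M = d * dedekindPsi M₀) (hpd : ¬ p ∣ d)
    {D : Divisor.degZero (K := Qb) (F := modularFunctionFieldBar (M₀ * p))}
    {u : modularFunctionFieldBar (M₀ * p)} (hu : u ≠ 0)
    (hord : ∀ v : Place Qb (modularFunctionFieldBar (M₀ * p)),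
      v.ord u = (p : ℤ) * (D : Divisor Qb (modularFunctionFieldBar (M₀ * p))) v)
    (hT : ∀ (ℓ : ℕ) (hℓ : ℓ.Prime), W.IsGoodPrimeFor ℓ → ¬ ℓ ∣ M₀ → ℓ ≠ p →
      heckeOperatorBar (M₀ * p) ⟨ℓ, hℓ⟩ (Pic0.mk D) =
        W.apOfModel ℓ • (Pic0.mk D : Pic0 Qb (modularFunctionFieldBar (M₀ * p))))
    {c : Qb} {g : FC (κ A) M} (hg : g ≠ 0)
    (hred : H38.Mz.Red A (IsLocalRing.residue A)
      (algebraMap Qb (LaurentSeries Qb) c * (u : LaurentSeries Qb)) (g : LaurentSeries (κ A)))
    (hpow : ∀ h : FC (κ A) M, h ^ p ≠ g) {ub : FC (κ A) M}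
    (hub : (ub : LaurentSeries (κ A)) = H28.deltaL (κ A) ^ (p - 1)) {a b : ℤ} (ha : ¬ (p : ℤ) ∣ a)
    (hdiv : ∀ w : Place (κ A) (FC (κ A) M), 0 ≤ w.ord (H34.Two.jk (κ A) M) →
      (p : ℤ) ∣ a * w.ord g + b * w.ord ub)
    (hE : ∃ ℓ : ℕ, ℓ.Prime ∧ W.IsGoodPrimeFor ℓ ∧ ¬ ℓ ∣ M₀ ∧ ℓ ≠ p ∧
      (W.apOfModel ℓ : ZMod p) ≠ (ℓ : ZMod p) + 1) : W.IsResiduallyModularOfLevel p M₀ :=
  H39.isResiduallyModularOfLevel_of_gbar hA hM₀ hdvd hpM hd hpd hu hord hT hg hred hpow hub ha hdiv hE

/-! ### 8. Assembly -/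

/-- **Residual modularity of level `M₀` from a new embedding of level `M₀ p`** (helper38, `H38S44B`): the
node analysis (`node_congruence`, `reduction_ne_pow`) at the auxiliary level `M`, the divisor of the
reduction (`special_fibre`), descent to level `M₀` and the logarithmic derivative
(`H39.isResiduallyModularOfLevel_of_gbar`, helper39).  `hE` is the input from the elliptic curve
(`frey_inertia_at_p` for the Frey curve). -/
theorem residually_modular_of_newEmb {W : WeierstrassCurve ℤ} {p : Nat.Primes} [NeZero (p : ℕ)]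
    (hp5 : 5 ≤ (p : ℕ)) (hΔ : W.Δ ≠ 0) (hirr : W.ModRepIsIrreducible p)
    {M₀ : ℕ} [NeZero M₀] [NeZero (M₀ * p)] (hM₀ : Squarefree M₀) {S : Set ℕ}
    (hS : ∀ ℓ : ℕ, ℓ.Prime → W.IsGoodPrimeFor ℓ → ¬ ℓ ∣ M₀ → ℓ ≠ p → ℓ ∉ S)
    (E₀ : NewEmb W p M₀ S)
    (hE : ∀ A : ValuationSubring Qb, A.LiesOverPrime p → ∀ ζ : Qb, IsPrimitiveRoot ζ (p : ℕ) →
      Nonempty (H40.ESide (G := A.inertiaSubgroupIn ℚ) A.valuation p (Tor W p) ζ)) :
    W.IsResiduallyModularOfLevel p M₀ :=
  H38.S44.resModular_of_newEmb hp5 hΔ hirr hM₀ hS E₀ hE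

/-- **S44. Level lowering at `p`** (helper38, `H38S44B`): if `E[p]` is irreducible and modular of the
conductor level `N` and `p ∣ N`, it is modular of a level `M ∣ N` prime to `p` (namely `M = N / p`). -/
theorem level_lowering_at_p (P : FreyPackage) {N : ℕ} (hcond : P.IsConductorLevel N)
    (hpN : P.p ∣ N) (hirr : GaloisRepIsIrreducible (K := AlgebraicClosure ℚ) ℚ P.freyCurve P.p)
    (hmod : P.ModularRepOfLevel N) :
    ∃ M : ℕ, M ∣ N ∧ ¬ P.p ∣ M ∧ P.ModularRepOfLevel M :=
  S44.result P hcond hpN hirr hmod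

end Fermat.Agent.Guide.LevelsS44
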