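import Fermat.Agent.H42XRoot

/-!
# `S45` and `S59` from `LTEvenSq`, `LiftSq 3`, `LiftSq 5` (and `S43`, `S44`)
-/

set_option autoImplicit false

open WeierstrassCurve WeierstrassCurve.Affine WeierstrassCurve.Affine.Point
open CuspForm ModularFormClass UpperHalfPlane
open Fermat.Agent.H42X
open Fermat.Agent.H88.LTW (T12 T43 T44)

namespace Fermat.Agent.H23W

/-- `S59` -/
theorem S59_final (hLT : LTEvenSq) (h3 : LiftSq 3) (h5 : LiftSq 5) (p : ℕ) (_hp : p = 3 ∨ p = 5)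
    (W : WeierstrassCurve ℤ) (hΔ : W.Δ ≠ 0) (hW : W.IsSemistableModel)
    (_hirr : W.ModRepIsIrreducible p)
    (M₀ : ℕ) [NeZero M₀] (_hres₀ : W.IsResiduallyModularOfLevel p M₀)
    (_hM₀ : ¬ p ^ 2 ∣ M₀)
    (_hM₀3 : ∀ q : ℕ, q.Prime → q ≠ p → ¬ q ^ 3 ∣ M₀) :
    Mlc1IsModularModelOfExactConductorLevel W :=
  exact_final hLT h3 h5 W hΔ hW

/-- `S45` -/
theorem S45_final (hE : EvenExact) (h43 : T43) (h44 : T44) (P : FreyPackage)
    (hmod : P.freyCurve.IsModular)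
    (hirr : GaloisRepIsIrreducible (K := AlgebraicClosure ℚ) ℚ P.freyCurve P.p) :
    ∃ f : CuspForm (CongruenceSubgroup.Gamma0 2) 2, f ≠ 0 :=
  Fermat.Agent.H3Wiring.S45_of Fermat.Agent.S05.result (S06_of_even hE) h43 h44
    Fermat.Agent.S08.result P hmod hirr

end Fermat.Agent.H23W
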