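import Fermat.Agent.S58
import Fermat.Agent.S59
import Fermat.Agent.S60

/-!
# Reader's guide: modularity lifting (S58, S59SQ, S59, S60). Part 1: statements and frame

`W` is a Weierstrass equation with integral coefficients and discriminant `W.Δ ≠ 0`; it is semistable if
no prime divides both `Δ` and `c₄`. The theorem `squarefree_lifting` below (called **S59SQ** in NOTES.md)
says: let `p = 3` or `5`, `W` semistable, `W[p]` irreducible and congruent modulo `p` to an eigenform of
weight two and squarefree level `M₀`, with `p ∤ M₀` if `W` is good at `p`. Then `W` is modular, of level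
the product of its bad primes. It is used for `p = 3` and `p = 5` in the 3-5 switch; so it is in the
closures of S01, S03, S04, S06, S38, S45, S46, S50, S59 and S60.

**The proof** is by contradiction and uses one patching argument, without reduction to a minimal level:

1. (this file) Mazur's principle and S29 bring the residual level to the form `M = ∏ (A ∪ T) * s` or
   `M p` (theorem `initial_reduction`). The primes other than `p` are partitioned: `A` = ramified primes of
   `W[p]`, `T` = unramified primes with scalar Frobenius `± 1` and `q ≡ 1` modulo `p`, `B` = the other bad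
   primes; `s` is an auxiliary prime for `p = 3`.
2. (`GuideLiftingGalois`) The deformation rings of the levels: Taylor-Wiles primes; six coordinates at every
   prime of `T`, three coordinates (*marks*) `t, y, z` at every prime of `B` and, in the types `Pα` and `Pβ`
   of multiplicative reduction at `p` (section 4), also at `p`.
3. (`GuideLiftingHecke`, `GuideLiftingComposition`; with `GuideCohomology`, `GuideEigen`, `GuideHeckeRings`,
   `GuideUnitRoot`, `GuideTWModules`) The Hecke modules of the levels are group cohomology of `Γ₀` with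
   characters. At `T` one compares the trivial character with non-trivial characters (*Ihara avoidance*), at
   `B` (and, in type `Pα`, at `p`) the level is raised one prime after the other, with an integral Ihara
   lemma. The *witness*: if `W` is not modular there is an integral polynomial relation between the Hecke
   operators of the top level which the `a_ℓ(W)` do not satisfy.
4. (`GuideLiftingAlgebra`, `GuideTameRings`) The levels of depth `n` for all `n` are patched; the support of
   the limit contains every component needed, in particular the point of `W`, so the witness would vanish at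
   `W`.

What is different from the published proofs (Wiles, Taylor-Wiles, Kisin, Taylor): no minimal level and no
numerical criterion, no ground level in the patching limit, no local models, no Hecke algebras as targets
of an isomorphism `R = T`, no modular forms with character (only group cohomology), no `p`-adic Hodge
theory at `p` (the marks are explicit matrix entries), no Jacquet-Langlands.

This file: section 1 the notions of the statements, section 2 the initial reduction, section 3 the frame
of the argument by contradiction (statement of what steps 2 and 3 have to provide), section 4 the four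
types of behaviour at `p` and the theorem, section 5 the statements S58, S59, S60.

More details: `GuideGaloisPoints` for step 2, `GuideLiftingSteps` and `GuideRaisingSteps` for step 3,
`GuidePatching` and `GuidePatchingSteps` for the steps 3 and 4. References: NOTES.md section 3.7 and Appendix
A.11, in particular [213] (composition), [165] (endgame), [247] (Galois side), [184] (Hecke modules), [214]
(witness), [277] (S59 from S59SQ), and in Appendix A.1 [194] (S58), [229] (final wiring, S60).
-/

set_option autoImplicit false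

noncomputable section

namespace Fermat.Agent.Guide.Lifting

open IsLocalRing WeierstrassCurve ExtCitation
open Fermat.Agent.H87.Glue (resZ tateZ)
open Fermat.Agent.H69.Red (Partition ScalarAt baseLevel)
open Fermat.Agent.H53 (PlaceData PData GalLevelB toMat M2)
open Fermat.Agent.H59 (CoeffChoice Tset Zset)
open Fermat.Agent.H57.S59 (ResHypB InnerFull InnerBeta)
open Fermat.Agent.H57.Full (FullLevel)
open Fermat.Agent.H73LT (nodeSign)

attribute [local instance] H57.NM.RPart.instCommRing H57.NM.RPart.instLocal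
  H57.NM.RPart.instAlgebra
attribute [local instance] FullLevel.instAddCommGroup FullLevel.instModule

/-- The absolute Galois group of the rational numbers. -/
local notation "Gq" => (AlgebraicClosure ℚ ≃ₐ[ℚ] AlgebraicClosure ℚ)

/-! ### 1. The notions of the statements -/

/-- Semistable models and good primes, unfolded (definitions of `Fermat.Prelude`): a model is semistable
if every bad prime (prime divisor of `Δ`) is prime to `c₄`; `conductorLevel` is the product of the bad
primes. -/
theorem semistable_iff (W : WeierstrassCurve ℤ) :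
    (W.IsSemistableModel ↔ ∀ q : ℕ, q.Prime → (q : ℤ) ∣ W.Δ → ¬ (q : ℤ) ∣ W.c₄) ∧
    (∀ q : ℕ, W.IsGoodPrimeFor q ↔ ¬ (q : ℤ) ∣ W.Δ) ∧
    W.conductorLevel = UniqueFactorizationMonoid.radical W.Δ.natAbs :=
  ⟨Iff.rfl, fun _ => Iff.rfl, rfl⟩

/-- **Residually modular of level `M`**, unfolded: for some eigenform `f` of weight two on `Γ₀(M)`,
normalised by `a₁(f) = 1`, and some maximal ideal `𝔪` of the ring of algebraic integers containing `p`, the
coefficients `a_ℓ(f)` are algebraic integers congruent to `a_ℓ(W) = ℓ + 1 - #W(𝔽_ℓ)` modulo `𝔪`, for all good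
primes `ℓ` which do not divide `M p`. -/
theorem residually_modular_iff (W : WeierstrassCurve ℤ) (p M : ℕ) :
    W.IsResiduallyModularOfLevel p M ↔
      ∃ (f : CuspForm (CongruenceSubgroup.Gamma0 M) 2) (𝔪 : Ideal (integralClosure ℤ ℂ)),
        f.IsNormalizedEigenform ∧ 𝔪.IsMaximal ∧ (p : integralClosure ℤ ℂ) ∈ 𝔪 ∧
        ∀ ℓ : ℕ, ℓ.Prime → W.IsGoodPrimeFor ℓ → ¬ ℓ ∣ M → ℓ ≠ p →
          ∃ a : integralClosure ℤ ℂ, (a : ℂ) = ModularFormClass.qCoeff f ℓ ∧
            a - ((W.apOfModel ℓ : ℤ) : integralClosure ℤ ℂ) ∈ 𝔪 :=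
  Iff.rfl

/-- **Modular of exact conductor level**, unfolded: for some squarefree `N` whose prime divisors are
exactly the bad primes of `W` there is a normalised eigenform `f` of weight two on `Γ₀(N)` with
`a_ℓ(f) = a_ℓ(W)` for all good primes `ℓ` (which are then prime to `N`). -/
theorem exact_level_iff (W : WeierstrassCurve ℤ) :
    Mlc1IsModularModelOfExactConductorLevel W ↔
      ∃ N : ℕ, 0 < N ∧ Squarefree N ∧ (∀ q : ℕ, q.Prime → (q ∣ N ↔ (q : ℤ) ∣ W.Δ)) ∧
        ∃ f : CuspForm (CongruenceSubgroup.Gamma0 N) 2, f.IsNormalizedEigenform ∧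
          ∀ ℓ : ℕ, ℓ.Prime → W.IsGoodPrimeFor ℓ → ¬ ℓ ∣ N →
            ModularFormClass.qCoeff f ℓ = (W.apOfModel ℓ : ℂ) :=
  Iff.rfl

/-- **The Galois representations of `W`.** `tateZ W hΔ p` is the `p`-adic Tate module and `resZ W hΔ p`
the representation on `W[p]` over `𝔽_p`. For `W` semistable (modules `H87Glue`, `H87Glue2`; Frobenius,
multiplicative primes and finite flat models are in `GuideCurves`, `GuideCurvesTate`, `GuideCurvesLocal`): the
determinant is the cyclotomic character, Frobenius at a good `ℓ ≠ p` has characteristic polynomial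
`X² - a_ℓ X + ℓ`, inertia acts unipotently at all `q ≠ p`; at `p` the Tate module is flat if `W` is good
at `p ≠ 2` and strictly ordinary if `W` is bad at `p` (there is a line, stable under the decomposition
group, with unramified quotient of character `z`, on which the group acts by `z` times the cyclotomic
character; then `z² = 1`). -/
theorem tate_module {W : WeierstrassCurve ℤ} (hΔ : W.Δ ≠ 0) (hW : W.IsSemistableModel) (p : ℕ)
    [Fact p.Prime] :
    (tateZ W hΔ p).DetIsCyclotomic p ∧
    (∀ ℓ : ℕ, ℓ.Prime → ℓ ≠ p → W.IsGoodPrimeFor ℓ → (tateZ W hΔ p).IsUnramifiedAt ℓ ∧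
      ∀ P : ValuationSubring (AlgebraicClosure ℚ), P.LiesOverPrime ℓ →
        ∀ φ : Gq, P.IsFrobeniusAt φ ℓ → LinearMap.charpoly ((tateZ W hΔ p).ρ φ) =
          Polynomial.X ^ 2 - Polynomial.C (W.apOfModel ℓ : ℤ_[p]) * Polynomial.X +
            Polynomial.C (ℓ : ℤ_[p])) ∧
    (∀ q : ℕ, q.Prime → q ≠ p → (tateZ W hΔ p).IsUnipotentOnInertiaAt q) ∧
    (p ≠ 2 → W.IsGoodPrimeFor p → (tateZ W hΔ p).IsFlatAt p) ∧
    (¬ W.IsGoodPrimeFor p → (tateZ W hΔ p).IsStrictOrdinaryAt p) :=
  ⟨H87.Glue.detIsCyclotomic W hΔ p,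
    fun _ hℓ hℓp hg => ⟨H87.Glue.isUnramifiedAt_of_good W hΔ p hℓ hℓp hg,
      fun _ hP _ hφ => H87.Glue.charpoly_frob W hΔ p hℓ hℓp hg hP hφ⟩,
    fun _ hq hqp => H87.Glue.isUnipotentOnInertiaAt_of_semistable W hΔ p hW hq hqp,
    H87.Glue.isFlatAt_of_good W hΔ p,
    fun hb => H87.Glue.isStrictOrdinaryAt_of_mult W hΔ p (not_not.mp hb)
      (hW p Fact.out (not_not.mp hb))⟩

/-! ### 2. The initial reduction -/

/-- Scalar primes, unfolded: `q ≡ 1` modulo `p`, and all Frobenius elements at all places above `q` act on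
`W[p]` by one and the same sign `u = ± 1` (module `H69Red`). -/
theorem scalarAt_iff (W : WeierstrassCurve ℤ) (hΔ : W.Δ ≠ 0) (p : ℕ) [Fact p.Prime] (q : ℕ) :
    ScalarAt W hΔ p q ↔ p ∣ q - 1 ∧ ∃ u : ℤ, u ^ 2 = 1 ∧
      ∀ P : ValuationSubring (AlgebraicClosure ℚ), P.LiesOverPrime q →
        ∀ φ : Gq, P.IsFrobeniusAt φ q → (resZ W hΔ p).ρ φ = (u : ZMod p) • 1 :=
  Iff.rfl

/-- **Mazur's principle for `W[p]`.** `p` odd, `W[p]` irreducible, unramified at the prime `q ≠ p`, `q ∤ M`,
and modular of level `M q`: then it is modular of level `M`, or `q` is a scalar prime. For `p = 3` the level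
must contain a prime `≡ 2` modulo `3`. (Modules `H69RedMz`, `H2Mz`; the geometric part, component group of
`J_0(M q)` without Néron models, is `H8MazurOdd`; this theorem with all its parts is in
`GuideLevelsMazur`.) -/
theorem mazur_principle {W : WeierstrassCurve ℤ} (hΔ : W.Δ ≠ 0) {p : ℕ} [Fact p.Prime]
    (hp2 : p ≠ 2) (hirr : W.ModRepIsIrreducible p) {q M : ℕ} (hq : q.Prime) (hqp : q ≠ p)
    (hM : 0 < M) (hqM : ¬ q ∣ M) (h3 : p = 3 → ∃ s, s.Prime ∧ s ∣ M ∧ s % 3 = 2)
    (hunr : (resZ W hΔ p).IsUnramifiedAt q) (h : W.IsResiduallyModularOfLevel p (M * q)) :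
    W.IsResiduallyModularOfLevel p M ∨ ScalarAt W hΔ p q :=
  H69.Red.mazurW_of_odd H8.mazurOdd hp2 hΔ hirr q M hq hqp hM hqM h3 hunr h

/-- **The auxiliary prime** (`p = 3`). `W` semistable with `W[3]` irreducible, `F` a finite set: there is a
prime `s ∉ F` of good reduction with `s ≡ 2` modulo `3` and `3 ∤ a_s(W)`. Idea: otherwise all elements of
determinant `-1` in the image of `W[3]` have trace `0`, so complex conjugation inverts the kernel of the
determinant, which is then commutative, but `W[3]` is absolutely irreducible on subgroups of index two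
(`H73TW`); then density of Frobenius. With `s` in the level `Γ₀(N s)` has no elements of order three.
(Module `H80AuxPrime`.) -/
theorem exists_auxiliary_prime (W : WeierstrassCurve ℤ) (hΔ : W.Δ ≠ 0) (hW : W.IsSemistableModel)
    (hirr : W.ModRepIsIrreducible 3) (F : Finset ℕ) :
    ∃ s : ℕ, s.Prime ∧ s ∉ F ∧ s % 3 = 2 ∧ W.IsGoodPrimeFor s ∧ ¬ (3 : ℤ) ∣ W.apOfModel s :=
  H80.Aux.exists_aux_prime W hΔ hW hirr F

/-- **The auxiliary prime adds no ramification**: `A` a local ring separated for the topology of its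
maximal ideal, `ρ` over `A` with cyclotomic determinant, unipotent on inertia at the prime `q ≠ p`; if
`q - 1` and `(q + 1)² - (tr ρ(Frob_q))²` are units then `ρ` is unramified at `q`. (Module `H80AuxUnr`.) -/
theorem unramified_of_unipotent {A : Type} [CommRing A] [IsLocalRing A] {p : ℕ} [Fact p.Prime]
    (hH : ∀ x : A, (∀ n, x ∈ maximalIdeal A ^ n) → x = 0)
    {q : ℕ} (hq : q.Prime) (hpq : p ≠ q) (ρ : GaloisRepAdic A) (hdet : ρ.DetIsCyclotomic p)
    (huni : ρ.IsUnipotentOnInertiaAt q) (hq1 : IsUnit ((q : A) - 1))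
    {P : ValuationSubring (AlgebraicClosure ℚ)} (hP : P.LiesOverPrime q)
    {φ : Gq} (hφ : P.IsFrobeniusAt φ q)
    (htr : IsUnit (((q : A) + 1) ^ 2 - (LinearMap.trace A ρ.V (ρ.ρ φ)) ^ 2)) :
    ρ.IsUnramifiedAt q :=
  H80.Aux.isUnramifiedAt_of_unipotent hH hq hpq ρ hdet huni hq1 hP hφ htr

/-- **The partition of the primes**, unfolded (module `H69Red`). `A`: ramified primes; `T`: unramified
scalar primes (good or bad for `W`); `B`: bad unramified primes which are not scalar; every bad prime other
than `p` is in one of the three sets, which are disjoint; `s` is an auxiliary prime for `p = 3` and `1` for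
`p ≠ 3`. -/
theorem partition_iff {W : WeierstrassCurve ℤ} {hΔ : W.Δ ≠ 0} {p : ℕ} [Fact p.Prime]
    {A T B : Finset ℕ} {s : ℕ} :
    Partition W hΔ p A T B s ↔
    (∀ q ∈ A, q.Prime ∧ q ≠ p ∧ (q : ℤ) ∣ W.Δ ∧ ¬ (resZ W hΔ p).IsUnramifiedAt q) ∧
    (∀ q ∈ T, q.Prime ∧ q ≠ p ∧ (resZ W hΔ p).IsUnramifiedAt q ∧ ScalarAt W hΔ p q) ∧
    (∀ q ∈ B, q.Prime ∧ q ≠ p ∧ (q : ℤ) ∣ W.Δ ∧ (resZ W hΔ p).IsUnramifiedAt q ∧
      ¬ ScalarAt W hΔ p q) ∧
    (Disjoint A T ∧ Disjoint A B ∧ Disjoint T B) ∧
    (∀ q : ℕ, q.Prime → q ≠ p → (q : ℤ) ∣ W.Δ → q ∈ A ∨ q ∈ T ∨ q ∈ B) ∧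
    (p = 3 → s.Prime ∧ s % 3 = 2 ∧ W.IsGoodPrimeFor s ∧ ¬ (3 : ℤ) ∣ W.apOfModel s) ∧
    (p ≠ 3 → s = 1) ∧ (s ≠ p ∧ s ∉ A ∧ s ∉ T ∧ s ∉ B) :=
  ⟨fun P => ⟨fun q h => ⟨P.A_prime q h, P.A_ne q h, P.A_bad q h, P.A_ram q h⟩,
    fun q h => ⟨P.T_prime q h, P.T_ne q h, P.T_unr q h, P.T_scalar q h⟩,
    fun q h => ⟨P.B_prime q h, P.B_ne q h, P.B_bad q h, P.B_unr q h, P.B_not q h⟩,
    ⟨P.disj_AT, P.disj_AB, P.disj_TB⟩, P.cover, P.aux_three, P.aux_other,
    ⟨P.s_ne, P.s_notMem_A, P.s_notMem_T, P.s_notMem_B⟩⟩,
  fun ⟨hA, hT, hB, ⟨d1, d2, d3⟩, c, a3, a1, ⟨s1, s2, s3, s4⟩⟩ =>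
    ⟨fun q h => (hA q h).1, fun q h => (hA q h).2.1, fun q h => (hA q h).2.2.1,
      fun q h => (hA q h).2.2.2, fun q h => (hT q h).1, fun q h => (hT q h).2.1,
      fun q h => (hT q h).2.2.2.1, fun q h => (hT q h).2.2.1, fun q h => (hT q h).2.2.2,
      fun q h => (hB q h).1, fun q h => (hB q h).2.1, fun q h => (hB q h).2.2.1,
      fun q h => (hB q h).2.2.2.1, fun q h => (hB q h).2.2.2.2, d1, d2, d3, c, a3, a1, s1, s2, s3,
      s4⟩⟩

/-- **The initial reduction** (module `H69Red`, with Mazur's principle and S29). Let `W` be semistable, `p`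
odd, `W[p]` irreducible and residually modular of squarefree level `M₀`, prime to `p` if `W` has good
reduction at `p`. Then there is a partition such that `W[p]` is residually modular of level
`M = ∏ (A ∪ T) * s`, or `W` is bad at `p`, and `W[p]` is residually modular of level `M p` and minimal at
`p` (not modular of any level `M ∏ B'` with `B' ⊆ B`). Idea: raise `M₀` trivially by `s` and the missing
primes, then remove superfluous primes by Mazur's principle. -/
theorem initial_reduction {W : WeierstrassCurve ℤ} (hΔ : W.Δ ≠ 0)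
    (hW : W.IsSemistableModel) {p : ℕ} [Fact p.Prime] (hp2 : p ≠ 2)
    (hirr : W.ModRepIsIrreducible p) {M₀ : ℕ} (hsq : Squarefree M₀)
    (hgood : W.IsGoodPrimeFor p → ¬ p ∣ M₀) (hres : W.IsResiduallyModularOfLevel p M₀) :
    ∃ (A T B : Finset ℕ) (s : ℕ), Partition W hΔ p A T B s ∧
      (W.IsResiduallyModularOfLevel p ((∏ q ∈ A ∪ T, q) * s) ∨
        (¬ W.IsGoodPrimeFor p ∧ W.IsResiduallyModularOfLevel p ((∏ q ∈ A ∪ T, q) * s * p) ∧
          ∀ B' ⊆ B, ¬ W.IsResiduallyModularOfLevel p ((∏ q ∈ A ∪ T, q) * s * ∏ q ∈ B', q))) :=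
  H69.Red.exists_partition S29.result hΔ hW hirr (H69.Red.mazurW_of_odd H8.mazurOdd hp2 hΔ hirr) hsq
    hgood hres

/-- **The residual representation at the primes of the partition** (modules `H57S59Part`, `H30PT`, with
helper73's analysis of the node; steps: `GuideLiftingSteps`, section 9): on `W[p]` inertia at `q ∈ A` is
unipotent; Frobenius at `q ∈ B` is not scalar and has trace `w (q + 1)`, where the sign `w = nodeSign W q` is
`1` for split and `-1` for non-split multiplicative reduction. -/
theorem residual_at_partition {W : WeierstrassCurve ℤ} {hΔ : W.Δ ≠ 0} {p : ℕ} [Fact p.Prime]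
    {A T B : Finset ℕ} (h35 : p = 3 ∨ p = 5) (hW : W.IsSemistableModel) {s : ℕ}
    (P : Partition W hΔ p A T B s) :
    (∀ q ∈ A, ∀ V : ValuationSubring (AlgebraicClosure ℚ), V.LiesOverPrime q →
      ∀ σ ∈ V.inertiaSubgroupIn ℚ,
        LinearMap.charpoly ((resZ W hΔ p).ρ σ) = (Polynomial.X - 1) ^ 2) ∧
    (∀ q ∈ B, ∀ V : ValuationSubring (AlgebraicClosure ℚ), V.LiesOverPrime q →
      ∀ φ : Gq, V.IsFrobeniusAt φ q →
        (∀ c : ZMod p, (resZ W hΔ p).ρ φ ≠ c • 1) ∧
        LinearMap.trace (ZMod p) _ ((resZ W hΔ p).ρ φ) =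
          (nodeSign W q : ZMod p) * ((q : ZMod p) + 1)) :=
  have H := H57.S59.resHypB_of_partition h35 hW P
  ⟨H.A_unip, fun q hq V hV φ hφ => ⟨H.B_nonscalar q hq V hV φ hφ, H.B_trace q hq V hV φ hφ⟩⟩

/-! ### 3. The frame: what has to be provided at every level

The objects of this section are explained in the companions: `PlaceData p q` (a place of `Q̄` above `q`, a
Frobenius element `φ` and a generator `σ` of tame inertia there), `PData p ρbar b` (a local condition for
deformations at `p` with its set `ε` of marks), `GalLevelB` (Galois side of a level: `GuideLiftingGalois`,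
theorem `galLevel_fields`), `FullLevel` (complete level: `GuideLiftingAlgebra`, theorems `ring_of_level` to
`point_of_level`; its modules are numbered by `MIdx s`: `chi`, `mod i`, `new i`), `Zset O p T t` (the
non-trivial roots of unity of order a power of `p` dividing `t - 1`). `Tset T` is the type of the elements of
`T`. `ResHypB W hΔ p A T B sB` are the residual hypotheses on the sets of primes: on `W[p]` the primes of `A`
are ramified and unipotent, all others different from `p` unramified; those of `T` are `1` modulo `p` with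
Frobenius `± 1`; at `q ∈ B` Frobenius is not scalar and has trace `sB q (q + 1)`. For a partition they are
proved in `H57S59Part` (`residual_at_partition`), with `sB = nodeSign W`. -/

/-- **The coefficients** (`CoeffChoice`, module `H59LL2`), unfolded: a complete discrete valuation ring of
characteristic zero with uniformiser `ϖ` and finite residue field of characteristic `p`, over which the
integral quadratic polynomials split, and a primitive root of unity `ζ` of order `p ^ a`, large enough for
the tame characters of `p`-power order at the primes of `T`. -/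
theorem coeffChoice_iff (p : ℕ) [Fact p.Prime] (T : Finset ℕ) (O : Type) [CommRing O] [IsDomain O]
    [IsDiscreteValuationRing O] (ϖ : O) (a : ℕ) (ζ : O) :
    CoeffChoice p T O ϖ a ζ ↔
      IsAdicComplete (maximalIdeal O) O ∧ CharZero O ∧ Finite (ResidueField O) ∧
      CharP (ResidueField O) p ∧ (p : O) ∈ maximalIdeal O ∧ maximalIdeal O = Ideal.span {ϖ} ∧
      (∀ t d : ℤ, ∃ α β : ResidueField O, α + β = t ∧ α * β = d) ∧
      IsPrimitiveRoot ζ (p ^ a) ∧ 1 ≤ a ∧ ∀ t ∈ T, padicValNat p (t - 1) ≤ a :=
  ⟨fun h => ⟨h.adic, h.char0, h.finite, h.charp, h.mem, h.unif, h.roots, h.prim, h.one_le, h.le⟩,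
    fun ⟨h1, h2, h3, h4, h5, h6, h7, h8, h9, h10⟩ => ⟨h1, h2, h3, h4, h5, h6, h7, h8, h9, h10⟩⟩

/-- **The Galois sides of all levels exist** (module `H57S59Out`, using `exists_coeffChoice`,
`exists_stdPlace`, the Greenberg-Wiles inequality `H75.gwIneq` and the Taylor-Wiles primes (`H53`; the
Taylor-Wiles condition for `W[p]` is in `H73TW`)). In continuation form: to prove a proposition `C` one may
assume given coefficients, a basis of `W[p]` over the residue field of `O`, places and Frobenius elements at
all primes of `T` and `B`, signs `u t` such that the chosen Frobenius element at `t` acts as the scalar `u t`,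
and for every local condition `pd` at `p` a number `k` such that for all `n` and all finite sets `S₀` a Galois
side `GalLevelB … k n S₀` exists: `3 |T| + |B ∪ pd.ε| + k` Taylor-Wiles primes `≡ 1` modulo `p ^ (n + 1)`
outside `S₀` and a universal ring presented by `6 |T| + 3 |B ∪ pd.ε| + k` variables. -/
theorem galois_sides_exist {W : WeierstrassCurve ℤ} {hΔ : W.Δ ≠ 0} {p : ℕ} [Fact p.Prime]
    {A T B : Finset ℕ} {sB : ℕ → ℤ} (h35 : p = 3 ∨ p = 5) (hW : W.IsSemistableModel)
    (hirr : W.ModRepIsIrreducible p) (H : ResHypB W hΔ p A T B sB) {C : Prop}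
    (K : ∀ (O : Type) [CommRing O] [IsDomain O] [IsDiscreteValuationRing O]
      [IsAdicComplete (maximalIdeal O) O] [CharZero O] [Finite (ResidueField O)]
      [CharP (ResidueField O) p] [Algebra (ZMod p) (ResidueField O)] (ϖ : O) (a : ℕ) (ζ : O)
      (_ : CoeffChoice p T O ϖ a ζ)
      (b : Module.Basis (Fin 2) (ResidueField O) ((resZ W hΔ p).baseChange (ResidueField O)).V)
      (pl : ∀ t : Tset T, PlaceData p t.1)
      (_ : ∀ (t : Tset T) (ht : t.1.Prime), (pl t).P = primeLocalPlace ⟨t.1, ht⟩)
      (u : Tset T → O) (_ : ∀ t, u t ^ 2 = 1)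
      (_ : ∀ t, toMat ((resZ W hΔ p).baseChange (ResidueField O)).ρ b (pl t).φ =
        residue O (u t) • (1 : M2 (ResidueField O)))
      (plB : ∀ i : Tset B, PlaceData p i.1)
      (_ : ∀ (i : Tset B) (hi : i.1.Prime), (plB i).P = primeLocalPlace ⟨i.1, hi⟩),
      (∀ pd : PData p ((resZ W hΔ p).baseChange (ResidueField O)) b, ∃ k : ℕ,
        ∀ (n : ℕ) (S₀ : Finset ℕ),
          Nonempty (GalLevelB p ((resZ W hΔ p).baseChange (ResidueField O)) b pd A
            (fun t : Tset T => t.1) pl u (fun i : Tset B => i.1) plB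
            (fun i => (sB i.1 : O)) k n S₀)) → C) : C :=
  H57.S59.outer h35 hW hirr H K

/-- **The inner statement** `InnerFull` (module `H57S59Out`), written out: for all coefficients, places and
signs there is a local condition `pd` at `p` such that for all `k` there are numbers `D, m, s` and
constants `cb ≠ 0`, `c' ≠ 0` with the following property: for every `n` there is a finite set `S₀`
such that every Galois side `GalLevelB … k n S₀` can be completed by Hecke modules to a level
`FullLevel … n D m s` (`D, m, s` do not depend on `n`: this is what the patching needs). The number of diamond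
variables is `3 #T + #(B ⊔ ε) + k`, the presentation has `6 #T + 3 #(B ⊔ ε) + k` variables. -/
theorem innerFull_iff (W : WeierstrassCurve ℤ) (hΔ : W.Δ ≠ 0) (p : ℕ) [Fact p.Prime]
    (A T B : Finset ℕ) (sB : ℕ → ℤ) :
    InnerFull W hΔ p A T B sB ↔
    ∀ (O : Type) [CommRing O] [IsDomain O] [IsDiscreteValuationRing O]
      [IsAdicComplete (maximalIdeal O) O] [CharZero O] [Finite (ResidueField O)]
      [CharP (ResidueField O) p] [Algebra (ZMod p) (ResidueField O)] (ϖ : O) (a : ℕ) (ζ : O)
      (_ : CoeffChoice p T O ϖ a ζ)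
      (b : Module.Basis (Fin 2) (ResidueField O) ((resZ W hΔ p).baseChange (ResidueField O)).V)
      (pl : ∀ t : Tset T, PlaceData p t.1)
      (_ : ∀ (t : Tset T) (ht : t.1.Prime), (pl t).P = primeLocalPlace ⟨t.1, ht⟩)
      (u : Tset T → O) (_ : ∀ t, u t ^ 2 = 1)
      (_ : ∀ t, toMat ((resZ W hΔ p).baseChange (ResidueField O)).ρ b (pl t).φ =
        residue O (u t) • (1 : M2 (ResidueField O)))
      (plB : ∀ i : Tset B, PlaceData p i.1)
      (_ : ∀ (i : Tset B) (hi : i.1.Prime), (plB i).P = primeLocalPlace ⟨i.1, hi⟩),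
      ∃ pd : PData p ((resZ W hΔ p).baseChange (ResidueField O)) b,
        ∀ k : ℕ, ∃ (D m s : ℕ) (ε : Fin s ≃ Tset B ⊕ pd.ε) (cb : Fin s → O) (c' : O),
          (∀ i, cb i ≠ 0) ∧ c' ≠ 0 ∧ ∀ n : ℕ, ∃ S₀ : Finset ℕ,
          ∀ _ : GalLevelB p ((resZ W hΔ p).baseChange (ResidueField O)) b pd A
            (fun t : Tset T => t.1) pl u (fun i : Tset B => i.1) plB
            (fun i => (sB i.1 : O)) k n S₀,
            Nonempty (FullLevel O ϖ c' p
              (3 * Nat.card (Tset T) + Nat.card (Tset B ⊕ pd.ε) + k) n D m s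
              (MvPowerSeries (((Tset T × Fin 6) ⊕ ((Tset B ⊕ pd.ε) × Fin 3)) ⊕ Fin k) O)
              (fun t j => MvPowerSeries.X (Sum.inl (Sum.inl (t, j))))
              (fun i j => MvPowerSeries.X (Sum.inl (Sum.inr (ε i, j))))
              (fun t : Tset T => t.1) u (Zset O p T) cb) :=
  Iff.rfl

/-- **The inner statement of type `Pβ`**, `InnerBeta` (module `H57S59Out`), written out: there is exactly
one mark `j₀` at `p`; only the primes of `B` are raised, and the elements `t`, `z` of the mark at `p` kill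
all the modules and vanish at the point (all levels are divisible by `p` exactly once and every form in them
is new at `p`). -/
theorem innerBeta_iff (W : WeierstrassCurve ℤ) (hΔ : W.Δ ≠ 0) (p : ℕ) [Fact p.Prime]
    (A T B : Finset ℕ) (sB : ℕ → ℤ) :
    InnerBeta W hΔ p A T B sB ↔
    ∀ (O : Type) [CommRing O] [IsDomain O] [IsDiscreteValuationRing O]
      [IsAdicComplete (maximalIdeal O) O] [CharZero O] [Finite (ResidueField O)]
      [CharP (ResidueField O) p] [Algebra (ZMod p) (ResidueField O)] (ϖ : O) (a : ℕ) (ζ : O)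
      (_ : CoeffChoice p T O ϖ a ζ)
      (b : Module.Basis (Fin 2) (ResidueField O) ((resZ W hΔ p).baseChange (ResidueField O)).V)
      (pl : ∀ t : Tset T, PlaceData p t.1)
      (_ : ∀ (t : Tset T) (ht : t.1.Prime), (pl t).P = primeLocalPlace ⟨t.1, ht⟩)
      (u : Tset T → O) (_ : ∀ t, u t ^ 2 = 1)
      (_ : ∀ t, toMat ((resZ W hΔ p).baseChange (ResidueField O)).ρ b (pl t).φ =
        residue O (u t) • (1 : M2 (ResidueField O)))
      (plB : ∀ i : Tset B, PlaceData p i.1)
      (_ : ∀ (i : Tset B) (hi : i.1.Prime), (plB i).P = primeLocalPlace ⟨i.1, hi⟩),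
      ∃ (pd : PData p ((resZ W hΔ p).baseChange (ResidueField O)) b) (j₀ : pd.ε),
        (∀ j, j = j₀) ∧
        ∀ k : ℕ, ∃ (D m s : ℕ) (ε : Fin s ≃ Tset B) (cb : Fin s → O) (c' : O),
          (∀ i, cb i ≠ 0) ∧ c' ≠ 0 ∧ ∀ n : ℕ, ∃ S₀ : Finset ℕ,
          ∀ _ : GalLevelB p ((resZ W hΔ p).baseChange (ResidueField O)) b pd A
            (fun t : Tset T => t.1) pl u (fun i : Tset B => i.1) plB
            (fun i => (sB i.1 : O)) k n S₀,
            ∃ L : FullLevel O ϖ c' p
              (3 * Nat.card (Tset T) + Nat.card (Tset B ⊕ pd.ε) + k) n D m s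
              (MvPowerSeries (((Tset T × Fin 6) ⊕ ((Tset B ⊕ pd.ε) × Fin 3)) ⊕ Fin k) O)
              (fun t j => MvPowerSeries.X (Sum.inl (Sum.inl (t, j))))
              (fun i j => MvPowerSeries.X (Sum.inl (Sum.inr (Sum.inl (ε i), j))))
              (fun t : Tset T => t.1) u (Zset O p T) cb,
              (∀ τ (x : L.N τ),
                L.β (MvPowerSeries.X (Sum.inl (Sum.inr (Sum.inr j₀, 0)))) • x = 0) ∧
              (∀ τ (x : L.N τ),
                L.β (MvPowerSeries.X (Sum.inl (Sum.inr (Sum.inr j₀, 2)))) • x = 0) ∧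
              L.pt (L.β (MvPowerSeries.X (Sum.inl (Sum.inr (Sum.inr j₀, 0))))) = 0 ∧
              L.pt (L.β (MvPowerSeries.X (Sum.inl (Sum.inr (Sum.inr j₀, 2))))) = 0 :=
  Iff.rfl

/-- **Contradiction from the inner statement** (module `H57S59Out`): the Galois sides, the inner statement
and the endgame (`GuideLiftingAlgebra`, theorem `endgame`) are incompatible. -/
theorem contradiction {W : WeierstrassCurve ℤ} {hΔ : W.Δ ≠ 0} {p : ℕ} [Fact p.Prime]
    {A T B : Finset ℕ} {sB : ℕ → ℤ} (h35 : p = 3 ∨ p = 5) (hW : W.IsSemistableModel)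
    (hirr : W.ModRepIsIrreducible p) (H : ResHypB W hΔ p A T B sB)
    (inner : InnerFull W hΔ p A T B sB) : False :=
  H57.S59.no_full h35 hW hirr H inner

/-- The same for the inner statement of type `Pβ` (modules `H57S59Out`, `H69PBeta`): first the mark at `p`
is removed (`GuideLiftingAlgebra`, theorem `removal_of_mark`). -/
theorem contradiction_beta {W : WeierstrassCurve ℤ} {hΔ : W.Δ ≠ 0} {p : ℕ} [Fact p.Prime]
    {A T B : Finset ℕ} {sB : ℕ → ℤ} (h35 : p = 3 ∨ p = 5) (hW : W.IsSemistableModel)
    (hirr : W.ModRepIsIrreducible p) (H : ResHypB W hΔ p A T B sB)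
    (inner : InnerBeta W hΔ p A T B sB) : False :=
  H57.S59.no_full_beta h35 hW hirr H inner

/-! ### 4. The four types at `p`, and the theorem -/

/-- **Frobenius and the element `σ₀` of inertia at `p`** exist for every odd `p`. `MarkElts p φ σ₀` says that
`φ` is a Frobenius element and `σ₀` an element of inertia at the distinguished place above `p` which moves
the `p`-th roots of `p` and fixes the `p`-power roots of the units of the maximal unramified extension
(written out in `GuideLiftingGalois`, theorem `markElts_iff`; module `H75PLocal`). -/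
theorem exists_markElts {p : ℕ} [Fact p.Prime] (hp2 : p ≠ 2) : ∃ φ σ₀ : Gq, H75P.MarkElts p φ σ₀ :=
  H75P.exists_markElts p hp2

/-- **Type `F`** (module `H65TyF`): good reduction at `p`, residually modular of a level prime to `p`; the
condition at `p` is "flat", there is no mark at `p`. A counterexample with these properties satisfies
the inner statement. -/
theorem inner_type_F (W : WeierstrassCurve ℤ) (hΔ : W.Δ ≠ 0) (p : ℕ) [Fact p.Prime]
    (A T B : Finset ℕ) (s : ℕ) (h35 : p = 3 ∨ p = 5) (ss : W.IsSemistableModel)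
    (irr : W.ModRepIsIrreducible p) (part : Partition W hΔ p A T B s)
    (not_exact : ¬ Mlc1IsModularModelOfExactConductorLevel W) (good : W.IsGoodPrimeFor p)
    (res : W.IsResiduallyModularOfLevel p ((∏ q ∈ A ∪ T, q) * s)) :
    InnerFull W hΔ p A T B (nodeSign W) :=
  H65.InF.typeF W hΔ p A T B s ⟨h35, ss, irr, part, not_exact⟩ good res

/-- **Type `Pα`** (module `H85InA`): multiplicative reduction at `p`, residually modular of a level prime to
`p`. The condition at `p` is "ordinary" with the marks `t`, `y`; `p` is one of the raised primes. -/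
theorem inner_type_alpha (W : WeierstrassCurve ℤ) (hΔ : W.Δ ≠ 0) (p : ℕ) [Fact p.Prime]
    (A T B : Finset ℕ) (s : ℕ) (h35 : p = 3 ∨ p = 5) (ss : W.IsSemistableModel)
    (irr : W.ModRepIsIrreducible p) (part : Partition W hΔ p A T B s)
    (not_exact : ¬ Mlc1IsModularModelOfExactConductorLevel W) (bad : ¬ W.IsGoodPrimeFor p)
    (res : W.IsResiduallyModularOfLevel p ((∏ q ∈ A ∪ T, q) * s)) :
    InnerFull W hΔ p A T B (nodeSign W) :=
  H85.InA.typeAlpha W hΔ p A T B s ⟨h35, ss, irr, part, not_exact⟩ bad res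

/-- **Type `O`** (modules `H20TypeO`, `H20InO`): bad (hence multiplicative) reduction at `p`, residually
modular of level `M p` but of no level `M ∏ B'`, `B' ⊆ B`, and `σ₀` acts non-trivially on `W[p]`. The
condition at `p` is "strictly ordinary", without marks. -/
theorem inner_type_O (W : WeierstrassCurve ℤ) (hΔ : W.Δ ≠ 0) (p : ℕ) [Fact p.Prime]
    (A T B : Finset ℕ) (s : ℕ) (h35 : p = 3 ∨ p = 5) (ss : W.IsSemistableModel)
    (irr : W.ModRepIsIrreducible p) (part : Partition W hΔ p A T B s)
    (not_exact : ¬ Mlc1IsModularModelOfExactConductorLevel W) (bad : ¬ W.IsGoodPrimeFor p)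
    (res : W.IsResiduallyModularOfLevel p ((∏ q ∈ A ∪ T, q) * s * p))
    (min : ∀ B' ⊆ B, ¬ W.IsResiduallyModularOfLevel p ((∏ q ∈ A ∪ T, q) * s * ∏ q ∈ B', q))
    (φ σ₀ : Gq) (hm : H75P.MarkElts p φ σ₀) (h1 : (resZ W hΔ p).ρ σ₀ ≠ 1) :
    InnerFull W hΔ p A T B (nodeSign W) :=
  H20.InO.typeO W hΔ p A T B s ⟨h35, ss, irr, part, not_exact⟩ bad res min φ σ₀ hm h1

/-- **Type `Pβ`** (modules `H35InB`, `H35InB1`, `H35InB2`, `H35Rk`): as type `O`, but `σ₀` acts trivially on
`W[p]`. The condition at `p` is "ordinary" with marks. All levels of the chain contain `p` exactly once and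
there is no raising step at `p`: since `W[p]` is modular of no level `M ∏ B'`, all forms of the levels
`M p ∏ B' ∏ Q` in the class of `W[p]` are new at `p` (the localised modules of level prime to `p` vanish, by
S29 and the comparison of ranks at Taylor-Wiles primes), so they are Steinberg at `p` and `t`, `z` act as `0`
on all the modules. -/
theorem inner_type_beta (W : WeierstrassCurve ℤ) (hΔ : W.Δ ≠ 0) (p : ℕ) [Fact p.Prime]
    (A T B : Finset ℕ) (s : ℕ) (h35 : p = 3 ∨ p = 5) (ss : W.IsSemistableModel)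
    (irr : W.ModRepIsIrreducible p) (part : Partition W hΔ p A T B s)
    (not_exact : ¬ Mlc1IsModularModelOfExactConductorLevel W) (bad : ¬ W.IsGoodPrimeFor p)
    (res : W.IsResiduallyModularOfLevel p ((∏ q ∈ A ∪ T, q) * s * p))
    (min : ∀ B' ⊆ B, ¬ W.IsResiduallyModularOfLevel p ((∏ q ∈ A ∪ T, q) * s * ∏ q ∈ B', q))
    (φ σ₀ : Gq) (hm : H75P.MarkElts p φ σ₀) (h1 : (resZ W hΔ p).ρ σ₀ = 1) :
    InnerBeta W hΔ p A T B (nodeSign W) :=
  H35.InB.typeBeta S29.result S32.result S33.result S34.result S35.result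
    (fun hp => H4.geomInputs hp) W hΔ p A T B s ⟨h35, ss, irr, part, not_exact⟩ bad res min φ σ₀
    hm h1

/-- **Modularity lifting at `3` and `5` for semistable curves, squarefree level (S59SQ)**
(modules `H57S59Fin`, `H57S59sq`): initial reduction, choice of the type, inner statement,
contradiction. -/
theorem squarefree_lifting (p : ℕ) (h35 : p = 3 ∨ p = 5) (W : WeierstrassCurve ℤ) (hΔ : W.Δ ≠ 0)
    (hW : W.IsSemistableModel) (hirr : W.ModRepIsIrreducible p) (M₀ : ℕ) (hsq : Squarefree M₀)
    (hgood : W.IsGoodPrimeFor p → ¬ p ∣ M₀) (hres : W.IsResiduallyModularOfLevel p M₀) :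
    Mlc1IsModularModelOfExactConductorLevel W :=
  H57.S59.s59sq p h35 W hΔ hW hirr M₀ hsq hgood hres

/-! ### 5. The statements `S58`, `S59`, `S60` -/

/-- **S58, good primes** (module `H87S58`). `g` is a newform of level `M ∣ N` with `a_ℓ(g) = a_ℓ(W)` for all
primes `ℓ ∤ N`. A good prime `ℓ` of `W` does not divide `M` exactly once, and if `ℓ ∤ M` then
`a_ℓ(g) = a_ℓ(W)`. Proof with S35: for a prime `λ > ℓ` the `λ`-adic representation of `g` has the traces of
the Tate module of `W`, which is unramified at `ℓ`; if `ℓ` divided `M` exactly once then `a_ℓ(W)` would be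
`± (ℓ + 1)`, against the Hasse bound. -/
theorem conductor_good_prime {W : WeierstrassCurve ℤ} (hΔ : W.Δ ≠ 0) {N : ℕ} (hN0 : N ≠ 0)
    {M : ℕ} [NeZero M] (hMN : M ∣ N) {g : CuspForm (CongruenceSubgroup.Gamma0 M) 2}
    (hg : g.IsNewform)
    (hgW : ∀ ℓ : ℕ, ℓ.Prime → ¬ ℓ ∣ N → ModularFormClass.qCoeff g ℓ = (W.apOfModel ℓ : ℂ))
    {ℓ : ℕ} (hℓ : ℓ.Prime) (hgood : W.IsGoodPrimeFor ℓ) :
    ¬ (ℓ ∣ M ∧ ¬ ℓ ^ 2 ∣ M) ∧ (¬ ℓ ∣ M → ModularFormClass.qCoeff g ℓ = (W.apOfModel ℓ : ℂ)) :=
  H87.S58.good_prime hΔ hN0 hMN hg hgW (@S35.result) hℓ hgood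

/-- **S58, squares** (module `H87S58`): if moreover `W` is semistable and `W[p]` irreducible, `p` odd, then
no prime `q ≠ p` divides `M` exactly twice. Proof with S36 (Carayol's theorem): the `p`-adic representation
of `g` would not be unipotent on inertia at `q`, but the Tate module of `W` is. -/
theorem conductor_no_square {W : WeierstrassCurve ℤ} (hss : W.IsSemistableModel) (hΔ : W.Δ ≠ 0)
    {N : ℕ} (hN0 : N ≠ 0) {M : ℕ} [NeZero M] (hMN : M ∣ N)
    {g : CuspForm (CongruenceSubgroup.Gamma0 M) 2} (hg : g.IsNewform)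
    (hgW : ∀ ℓ : ℕ, ℓ.Prime → ¬ ℓ ∣ N → ModularFormClass.qCoeff g ℓ = (W.apOfModel ℓ : ℂ))
    {p : ℕ} [Fact p.Prime] (hp2 : p ≠ 2) (hirr : W.ModRepIsIrreducible p) {q : ℕ} (hq : q.Prime)
    (hqp : q ≠ p) : M.factorization q ≠ 2 :=
  H87.S58.factorization_ne_two hss hΔ hN0 hMN hg hgW (@S36.result) hp2 hirr hq hqp

/-- **S58.** A semistable model which is modular of a level `N`, cube free, divisible by all bad primes and
not divisible by `p ^ 2` for an odd prime `p` with `W[p]` irreducible, is modular of the conductor level: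
the level of the associated newform is a product of bad primes (the two theorems above), and the form is
transported to the product of all of them. (Modules `H87S58`, `S35`, `S36`.) -/
theorem conductor_level (W : WeierstrassCurve ℤ) (hss : W.IsSemistableModel) (N : ℕ)
    (p : ℕ) [Fact p.Prime] (hp2 : p ≠ 2) (hirr : W.ModRepIsIrreducible p)
    (hp2N : ¬ p ^ 2 ∣ N)
    (hN : W.IsModularModelOfLevel N) (hbad : ∀ ℓ : ℕ, ℓ.Prime → (ℓ : ℤ) ∣ W.Δ → ℓ ∣ N)
    (hN3 : ∀ q : ℕ, q.Prime → ¬ q ^ 3 ∣ N) :
    W.IsModularModelOfLevel W.conductorLevel :=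
  S58.result W hss N p hp2 hirr hp2N hN hbad hN3

/-- **All semistable curves from three inputs** (modules `H42XFinal`, `H42XMain`; see `GuideEndgame`):
(1) for even discriminant and `W[3]` irreducible, residual modularity modulo `3` of a squarefree level,
prime to `3` if `3 ∤ Δ` (block LT, `GuideResidual`); (2), (3) lifting for squarefree levels at `3` and `5`
(the previous section). Proof by switching between `3` and `5` and to a curve of even discriminant. (For S01
the variant for even discriminant is used, `H42X.S01_of_even`.) -/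
theorem exact_of_inputs
    (hLT : ∀ W : WeierstrassCurve ℤ, W.Δ ≠ 0 → W.IsSemistableModel → (2 : ℤ) ∣ W.Δ →
      W.ModRepIsIrreducible 3 →
      ∃ M : ℕ, 0 < M ∧ Squarefree M ∧ (3 ∣ M → (3 : ℤ) ∣ W.Δ) ∧ W.IsResiduallyModularOfLevel 3 M)
    (h3 : ∀ W : WeierstrassCurve ℤ, W.Δ ≠ 0 → W.IsSemistableModel → W.ModRepIsIrreducible 3 →
      ∀ (M₀ : ℕ) [NeZero M₀], Squarefree M₀ → W.IsResiduallyModularOfLevel 3 M₀ →
      (W.IsGoodPrimeFor 3 → ¬ 3 ∣ M₀) → Mlc1IsModularModelOfExactConductorLevel W)
    (h5 : ∀ W : WeierstrassCurve ℤ, W.Δ ≠ 0 → W.IsSemistableModel → W.ModRepIsIrreducible 5 →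
      ∀ (M₀ : ℕ) [NeZero M₀], Squarefree M₀ → W.IsResiduallyModularOfLevel 5 M₀ →
      (W.IsGoodPrimeFor 5 → ¬ 5 ∣ M₀) → Mlc1IsModularModelOfExactConductorLevel W)
    (W : WeierstrassCurve ℤ) (hΔ : W.Δ ≠ 0) (hW : W.IsSemistableModel) :
    Mlc1IsModularModelOfExactConductorLevel W :=
  H42X.exact_final hLT h3 h5 W hΔ hW

/-- **S59.** Modularity lifting at `3` and `5` in the form of the milestone: the residual level `M₀` is not
divisible by `p ^ 2` nor by the cube of another prime. In this library S59 is deduced from the theorem that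
ALL semistable curves are modular (`exact_of_inputs` with its three inputs proved), so its residual hypotheses
are not used; the lifting theorem itself is `squarefree_lifting`. (Modules `H23Wire`, `H42Last`.) -/
theorem lifting_three_five (p : ℕ) (hp : p = 3 ∨ p = 5)
    (W : WeierstrassCurve ℤ) (hΔ : W.Δ ≠ 0) (hW : W.IsSemistableModel)
    (hirr : W.ModRepIsIrreducible p) (M₀ : ℕ) [NeZero M₀]
    (hres₀ : W.IsResiduallyModularOfLevel p M₀) (hM₀ : ¬ p ^ 2 ∣ M₀)
    (hM₀3 : ∀ q : ℕ, q.Prime → q ≠ p → ¬ q ^ 3 ∣ M₀) :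
    Mlc1IsModularModelOfExactConductorLevel W :=
  S59.result p hp W hΔ hW hirr M₀ hres₀ hM₀ hM₀3

/-- **S60.** Every semistable elliptic curve over `ℚ` is modular. -/
theorem semistable_modular (W : WeierstrassCurve ℤ) (hΔ : W.Δ ≠ 0) (hW : W.IsSemistableModel) :
    (W.map (Int.castRingHom ℚ)).IsModular :=
  S60.result W hΔ hW

end Fermat.Agent.Guide.Lifting

end
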