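import Fermat.Agent.H57FullIdx
import Fermat.Agent.H69PBeta

/-!
# Reader's guide: modularity lifting (S59SQ). Part 4: commutative algebra, patching, endgame

This file lists the key theorems of the purely algebraic part of the modularity lifting theorem
(`GuideLifting.squarefree_lifting`): no Galois group and no modular form occurs in it. All theorems are used
in the closures of S01, S03, S04, S06, S38, S45, S46, S50, S59 and S60 (through `H57.S59.no_full`); that the
local rings of section (A) are domains of bounded dimension is used also for S43 (through `H69NoPatchMv`; see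
`GuideLevelsIhara`).

**What is proved.** A *level* of depth `n` (structure `FullLevel`, section E) consists of a deformation ring
`R`, given as a quotient of one fixed power series ring `B`, and of finitely many `R`-modules which are free
over the group ring `O[Δ]` of the diamond operators `Δ = ∏ ℤ/p^(e_j)`, `e_j ≥ n`, connected by the
comparison "trivial against non-trivial characters modulo `ϖ`" at the scalar primes and by the raising steps
at the other primes; the ring has a point `pt : R → O` (the elliptic curve) and a *witness* `f ∈ R`, which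
kills the last module modulo the diamond variables but does not vanish at the point modulo `ϖ ^ m`. The
theorem `endgame` says that such levels cannot exist for all `n` with bounded ranks and fixed `m`, if the
numbers of variables satisfy `r = 3 #T + #κ + k` against `6 #T + 3 #κ + k`.

**Idea.** In the limit (section C) the modules are free over `O⟦S_1, …, S_r⟧`; so every component of their
support has dimension `1 + r`. The components of the ambient ring are explicit (sections A, B): at every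
scalar prime a ring in six coordinates of one of the types `nr`, `st`, `chi`, at every raising prime a ring
in the coordinates `(t, y, z)`; they are domains of dimension at most `1 + r`. Ihara avoidance: the ring of
type `chi` is a domain whose reduction modulo `ϖ` contains the reductions of all components of the unipotent
level, so every such component is in the support (`support_of_unipotent_module`). Raising: step by step the
component `t = z = 0` of the point enters the support (`raising_in_limit`). In particular the point is in the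
support, and the witness `f` would be zero there.

Compared with the literature (Kisin, Taylor, Khare-Wintenberger): no framed deformations, no local models,
no ground level, no multiplicity statements; the local rings are treated by explicit equations (iterated
cones and Rees algebras), the patching limit is one compactness theorem for families of matrices.

Sections: (A) local rings at the scalar primes, (B) components at the raising primes, (C) the patching limit,
(D) commutative algebra of the limit, (E) the levels and the endgame. The details of the proofs of sections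
(A), (B), (D) and of the endgame are in `GuideTameRings`; for (C) and for the removal of the mark at `p` see
also `GuidePatching` and `GuidePatchingSteps`. References: NOTES.md Appendix A.11 [165]. Author of the library
files and of the text: helper57 (`H57*`), with helper69 (`H69K*`, `H69Full`, `H69Quot`, `H69PBeta`).
-/

set_option autoImplicit false

open IsLocalRing

namespace Fermat.Agent.Guide.LiftingAlgebra

open Fermat.Agent Fermat.Agent.H57.Tame Fermat.Agent.H57.Full Fermat.Agent.H57.NM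
open Fermat.Agent.H57 (IsULim)
open Fermat.Agent.H69.KP (FLevel Θ)

/-! ### (A) The local rings at the scalar primes

At a prime `t` of the set `T` (`t = 1` modulo `p`, the residual Frobenius is a scalar `± 1`) the
deformations are described by two matrices, `Σ` = image of a generator of tame inertia and
`Φ` = image of a Frobenius, with `Φ Σ = Σ ^ t Φ`. After subtracting scalars they have trace zero:
`N = (x, y; z, -x)`, `F = (a, b; c, -a)`. The six coordinates `x, y, z, a, b, c` are written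
`d 0, …, d 5`. Files: `H57TameCone`, `H57TameConeB`, `H57TameConeC` (the quadric cone
`β γ = α (ε - α)` over a complete noetherian local domain is a domain), `H57TameRees` (Rees algebras of
regular sequences), `H57TameStep` (one prime), `H57TameMulti`, `H57TameAll` (all primes), `H57TameDim`
(dimension), `H57TameUni`, `H57NMLocal` (consequences of the relations of the matrices in domains). -/

/-- The relations `TRel κ η d τ` of the three types `τ : Typ` of tame pairs (module `H57TameStep`): `nr`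
unramified (`N = 0`), `st` Steinberg (`N (η + F) = 0 = (η - F) N`, `N ^ 2 = 0` and `det (η + F) = 0`; for
`q = 1 + 2 η` and `Φ = 1 + η + F` this means `N Φ = N`, `Φ N = q N`, `det Φ = q`), `chi` principal series
with the tame characters `χ, χ⁻¹` (`det N = - κ ^ 2` with `κ = (χ - χ⁻¹) / 2`, `F` proportional to `N`). -/
theorem tame_types {D : Type} [CommRing D] (κ η : D) (d : Fin 6 → D) :
    (TRel κ η d .nr ↔ d 0 = 0 ∧ d 1 = 0 ∧ d 2 = 0) ∧
    (TRel κ η d .st ↔
      (η + d 3) * (η - d 3) = d 4 * d 5 ∧ (η + d 3) * d 2 = d 5 * d 0 ∧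
      (η + d 3) * d 0 + d 5 * d 1 = 0 ∧ d 4 * d 2 = (η - d 3) * d 0 ∧
      d 4 * d 0 + (η - d 3) * d 1 = 0 ∧ d 0 ^ 2 + d 1 * d 2 = 0) ∧
    (TRel κ η d .chi ↔
      d 0 ^ 2 + d 1 * d 2 = κ ^ 2 ∧ d 0 * d 4 = d 1 * d 3 ∧ d 0 * d 5 = d 2 * d 3 ∧
      d 1 * d 5 = d 2 * d 4) :=
  ⟨Iff.rfl, Iff.rfl, Iff.rfl⟩

/-- The ideal `relIdeal k κ η τ` of the power series ring in the `6 |T|` coordinates and `k` free
variables is generated by the relations of the types `τ t`: a homomorphism kills it if and only if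
the images of the coordinates satisfy the relations of type `τ t` at every `t`
(module `H57TameAll`). -/
theorem relations_of_type {O : Type} [CommRing O] {T : Type} {k : ℕ} {D : Type} [CommRing D]
    (κ η : T → O) (τ : T → Typ) (f : MvPowerSeries ((T × Fin 6) ⊕ Fin k) O →+* D) :
    relIdeal k κ η τ ≤ RingHom.ker f ↔
      ∀ t, TRel (f (MvPowerSeries.C (κ t))) (f (MvPowerSeries.C (η t)))
        (fun j => f (MvPowerSeries.X (Sum.inl (t, j)))) (τ t) :=
  relIdeal_le_ker_iff κ η τ f

/-- **The local deformation rings of all types are domains.** For a complete noetherian local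
domain `O` and arbitrary types `τ t`, the completed tensor product of the local rings at `t ∈ T`
(with `k` free variables) is a domain, when the `κ t`, `η t` are in the maximal ideal and
`2 κ t ≠ 0 ≠ 2 η t`. Proved by iterated cones and Rees algebras, without any classification of
local models (module `H57TameAll`). -/
theorem tame_ring_is_domain {O : Type} [CommRing O] [IsLocalRing O] [IsNoetherianRing O]
    [IsAdicComplete (maximalIdeal O) O] [IsDomain O] {T : Type} [Finite T] (k : ℕ) {κ η : T → O}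
    (hκ : ∀ t, κ t + κ t ≠ 0) (hη : ∀ t, η t + η t ≠ 0) (hκm : ∀ t, κ t ∈ maximalIdeal O)
    (hηm : ∀ t, η t ∈ maximalIdeal O) (τ : T → Typ) : (relIdeal k κ η τ).IsPrime :=
  relIdeal_isPrime k hκ hη hκm hηm τ

/-- **Dimension of the local deformation rings**: at most `1 + 3 |T| + k` when the maximal ideal
of `O` is principal, for every choice of the types (module `H57TameDim`). -/
theorem tame_ring_dimension_le {O : Type} [CommRing O] [IsLocalRing O] [IsNoetherianRing O]
    {T : Type} [Finite T] (k : ℕ) {ϖ : O} (hϖ : maximalIdeal O = Ideal.span {ϖ}) {κ η : T → O}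
    (hκm : ∀ t, κ t ∈ maximalIdeal O) (hηm : ∀ t, η t ∈ maximalIdeal O) (τ : T → Typ) :
    ringKrullDim (MvPowerSeries ((T × Fin 6) ⊕ Fin k) O ⧸ relIdeal k κ η τ) ≤
      ((1 + 3 * Nat.card T + k : ℕ) : WithBot ℕ∞) :=
  ringKrullDim_quot_relIdeal_le k hϖ hκm hηm τ

/-- **A ramified unipotent pair is Steinberg.** In a domain let `N ^ 2 = 0`, `Φ N = q N Φ` and
`det Φ = q` with `Φ = s + F`. If `N` has the upper right entry `y = d 1 ≠ 0` then the Steinberg
relations hold, provided `q = 1 + 2 η` with `η ≠ 0`, `2 ≠ 0`, `q ≠ 0`, `1 + q ≠ 0` and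
`tr Φ ≠ -(1 + q)` (module `H57TameUni`). -/
theorem ramified_unipotent_is_steinberg {D : Type} [CommRing D] [IsDomain D] {q s η : D}
    {d : Fin 6 → D} (hdet : s ^ 2 = q + (d 3 ^ 2 + d 4 * d 5)) (hN : d 0 ^ 2 + d 1 * d 2 = 0)
    (h00 : (s + d 3) * d 0 + d 4 * d 2 = q * (d 0 * (s + d 3) + d 1 * d 5))
    (h01 : (s + d 3) * d 1 - d 4 * d 0 = q * (d 0 * d 4 + d 1 * (s - d 3)))
    (h10 : d 5 * d 0 + (s - d 3) * d 2 = q * (d 2 * (s + d 3) - d 0 * d 5))
    (h11 : d 5 * d 1 - (s - d 3) * d 0 = q * (d 2 * d 4 - d 0 * (s - d 3)))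
    (hη : q = 1 + 2 * η) (h2 : (2 : D) ≠ 0) (hη0 : η ≠ 0) (hq : q ≠ 0) (hq1 : 1 + q ≠ 0)
    (hs : 2 * s + (1 + q) ≠ 0) (hy : d 1 ≠ 0) (κ : D) : TRel κ η d .st :=
  URel.st ⟨hdet, hN, h00, h01, h10, h11⟩ hη h2 hη0 hq hq1 hs hy κ

/-- **A unipotent pair with general trace is unramified.** In a domain let `N ^ 2 = 0`,
`Φ N = q N Φ` and `det Φ = q` with `Φ = s + F`. If `F ^ 2 ≠ η ^ 2`, where `q = 1 + 2 η` (the
eigenvalues of `Φ` are not `± (1, q)`), then `N = 0` (module `H57TameUni`). -/
theorem general_unipotent_is_unramified {D : Type} [CommRing D] [IsDomain D] {q s η : D}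
    {d : Fin 6 → D} (hdet : s ^ 2 = q + (d 3 ^ 2 + d 4 * d 5)) (hN : d 0 ^ 2 + d 1 * d 2 = 0)
    (h00 : (s + d 3) * d 0 + d 4 * d 2 = q * (d 0 * (s + d 3) + d 1 * d 5))
    (h01 : (s + d 3) * d 1 - d 4 * d 0 = q * (d 0 * d 4 + d 1 * (s - d 3)))
    (h10 : d 5 * d 0 + (s - d 3) * d 2 = q * (d 2 * (s + d 3) - d 0 * d 5))
    (h11 : d 5 * d 1 - (s - d 3) * d 0 = q * (d 2 * d 4 - d 0 * (s - d 3)))
    (hη : q = 1 + 2 * η) (h2 : (2 : D) ≠ 0) (hη0 : η ≠ 0) (hq : q ≠ 0)
    (hh : d 3 ^ 2 + d 4 * d 5 - η ^ 2 ≠ 0) : d 0 = 0 ∧ d 1 = 0 ∧ d 2 = 0 :=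
  URel.nr ⟨hdet, hN, h00, h01, h10, h11⟩ hη h2 hη0 hq hh 0

/-! ### (B) The components at the raising primes

At a prime `b` with non-scalar residual Frobenius three coordinates `(t, y, z)` suffice, and the
relations of the unipotent level are `y t = 0`, `z (t + c) = 0`. -/

/-- The relations `CRel c v γ` of the components at a raising prime, of type `γ : CTyp` (module
`H57FullGeo`): `nr` unramified (`y = z = 0`), `su` the Steinberg component through the point (`t = z = 0`),
`sm` the other Steinberg component (`t + c = 0 = y`), and `zz` the intersection of the first two. -/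
theorem raising_types {D : Type} [CommRing D] (c : D) (v : Fin 3 → D) :
    (CRel c v .nr ↔ v 1 = 0 ∧ v 2 = 0) ∧ (CRel c v .su ↔ v 0 = 0 ∧ v 2 = 0) ∧
    (CRel c v .sm ↔ v 0 + c = 0 ∧ v 1 = 0) ∧ (CRel c v .zz ↔ v 0 = 0 ∧ v 1 = 0 ∧ v 2 = 0) :=
  ⟨Iff.rfl, Iff.rfl, Iff.rfl, Iff.rfl⟩

/-- `compIdeal k κ η τ cb γ` is generated by the relations of type `τ t` at the scalar primes and
of type `γ b` at the `s` raising primes (module `H57FullGeo`). -/
theorem relations_of_component {O : Type} [CommRing O] {T : Type} {s k : ℕ} {D : Type}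
    [CommRing D] (κ η : T → O) (τ : T → Typ) (cb : Fin s → O) (γ : Fin s → CTyp)
    (f : MvPowerSeries ((T × Fin 6) ⊕ ((Fin s × Fin 3) ⊕ Fin k)) O →+* D) :
    compIdeal k κ η τ cb γ ≤ RingHom.ker f ↔
      (∀ t, TRel (f (MvPowerSeries.C (κ t))) (f (MvPowerSeries.C (η t)))
        (fun j => f (MvPowerSeries.X (Sum.inl (t, j)))) (τ t)) ∧
      ∀ b, CRel (f (MvPowerSeries.C (cb b)))
        (fun j => f (MvPowerSeries.X (Sum.inr (Sum.inl (b, j))))) (γ b) :=
  compIdeal_le_ker_iff κ η τ cb γ f

/-- **The components are irreducible**: the ideal of a component with mixed types at the scalar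
primes and at the raising primes is prime (module `H57FullGeo`). -/
theorem component_is_prime {O : Type} [CommRing O] [IsLocalRing O] [IsNoetherianRing O]
    [IsAdicComplete (maximalIdeal O) O] [IsDomain O] {T : Type} [Finite T] {s : ℕ} (k : ℕ)
    {κ η : T → O} (hκ : ∀ t, κ t + κ t ≠ 0) (hη : ∀ t, η t + η t ≠ 0)
    (hκm : ∀ t, κ t ∈ maximalIdeal O) (hηm : ∀ t, η t ∈ maximalIdeal O) (τ : T → Typ)
    (cb : Fin s → O) (γ : Fin s → CTyp) (hγ : ∀ b, γ b = .sm → cb b ∈ maximalIdeal O) :
    (compIdeal k κ η τ cb γ).IsPrime :=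
  compIdeal_isPrime k hκ hη hκm hηm τ cb γ hγ

/-- **Dimension of the components**: at most `1 + 3 |T| + s + k`, if none of the types `γ b` is the
intersection `zz` (module `H57FullGeo`). The diamond operators give a ring `O⟦S_1, …, S_r⟧` with
`r = 3 |T| + s + k`, of dimension exactly `1 + r`: this is the numerical coincidence of the patching
method. -/
theorem component_dimension_le {O : Type} [CommRing O] [IsLocalRing O] [IsNoetherianRing O]
    [IsAdicComplete (maximalIdeal O) O] [IsDomain O] {T : Type} [Finite T] {s : ℕ} (k : ℕ) {ϖ : O}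
    (hϖ : maximalIdeal O = Ideal.span {ϖ}) {κ η : T → O} (hκm : ∀ t, κ t ∈ maximalIdeal O)
    (hηm : ∀ t, η t ∈ maximalIdeal O) (τ : T → Typ) (cb : Fin s → O) (γ : Fin s → CTyp)
    (hγ : ∀ b, γ b = .sm → cb b ∈ maximalIdeal O) (hzz : ∀ b, γ b ≠ .zz) :
    ringKrullDim (MvPowerSeries ((T × Fin 6) ⊕ ((Fin s × Fin 3) ⊕ Fin k)) O ⧸
      compIdeal k κ η τ cb γ) ≤ ((1 + 3 * Nat.card T + (s + k) : ℕ) : WithBot ℕ∞) :=
  ringKrullDim_quot_compIdeal_le k hϖ hκm hηm τ cb γ hγ hzz

/-- **Test homomorphisms** (module `H57FullGeo`): for given types there is a homomorphism of the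
ambient ring to a power series ring over the residue field, with one variable `w` for every prime,
which sends the coordinate `a = d 3` (type `nr`) resp. `y = d 1` (type `st`) at `t`, and `t`
(type `nr`), `y` (type `su`), `z` (type `sm`) at `b`, to `w` and the other coordinates at these
primes to `0`. It is used to distinguish the components modulo the maximal ideal of `O`. -/
theorem test_homomorphism {O : Type} [CommRing O] [IsLocalRing O] {T : Type} [Finite T] {s : ℕ}
    (k : ℕ) (σ : T → Typ) (γ : Fin s → CTyp) :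
    ∃ θ : MvPowerSeries ((T × Fin 6) ⊕ ((Fin s × Fin 3) ⊕ Fin k)) O →+*
        MvPowerSeries (T ⊕ Fin s) (ResidueField O),
      (∀ a, θ (MvPowerSeries.C a) = MvPowerSeries.C (residue O a)) ∧
      (∀ t j, θ (MvPowerSeries.X (Sum.inl (t, j))) =
        match σ t, j with
        | .nr, j => if j = 3 then MvPowerSeries.X (Sum.inl t) else 0
        | .st, j => if j = 1 then MvPowerSeries.X (Sum.inl t) else 0
        | .chi, _ => 0) ∧
      (∀ b j, θ (MvPowerSeries.X (Sum.inr (Sum.inl (b, j)))) =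
        match γ b, j with
        | .nr, j => if j = 0 then MvPowerSeries.X (Sum.inr b) else 0
        | .su, j => if j = 1 then MvPowerSeries.X (Sum.inr b) else 0
        | .sm, j => if j = 2 then MvPowerSeries.X (Sum.inr b) else 0
        | .zz, _ => 0) :=
  exists_test2 k σ γ

/-! ### (C) The patching limit

A level `L : FLevel S B d I` (module `H69KFree`) consists of `B`-modules `L.N τ`, one for each
index `τ`, of a homomorphism `L.φ : S → B` and of elements `L.b τ i`, `i < d τ`. Files: `H69KPatch`,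
`H69KLimit` (limits of matrices along an ultrafilter), `H69KFree`, `H69KRank`, `H57FreeLimit`,
`H57FullLimit`. -/

/-- The modules of a level are free over `S / I` with basis `L.b τ i` (module `H69KFree`). -/
theorem level_is_free {S B : Type} [CommRing S] [CommRing B] {ι : Type} {d : ι → ℕ}
    {I : Ideal S} (L : FLevel S B d I) (τ : ι) :
    (∀ x : L.N τ, ∃ c : Fin (d τ) → S, x = ∑ i, L.φ (c i) • L.b τ i) ∧
    ∀ c : Fin (d τ) → S, ∑ i, L.φ (c i) • L.b τ i = 0 ↔ ∀ i, c i ∈ I :=
  ⟨L.b_span τ, L.b_rel τ⟩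

/-- `Θ L τ f i j` are entries of a matrix of `f` in the basis of `L.N τ`
(modules `H69KPatch`, `H69KFree`). -/
theorem matrix_of_action {S B : Type} [CommRing S] [CommRing B] {ι : Type} {d : ι → ℕ}
    {I : Ideal S} (L : FLevel S B d I) (τ : ι) (f : B) (j : Fin (d τ)) :
    f • L.b τ j = ∑ i, L.φ (Θ L.toK τ f i j) • L.b τ i :=
  H69.KP.Θ_spec L.toK τ f j

/-- **Patching limit without target** (module `H57FreeLimit`). For levels `L n` which are free
over `S / I n` with `I n ≤ 𝔪 ^ n`, `S` and `B` complete noetherian local rings with finite residue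
fields, and for a non-principal ultrafilter `U`, there is a limit `L'` whose modules are free over
`S` itself; the structure maps and the matrices of all elements of `B` converge along `U`. No
maps between the levels and no fixed target are needed. -/
theorem patching_limit {S B : Type} [CommRing S] [CommRing B] {ι : Type} {d : ι → ℕ}
    [IsLocalRing S] [IsNoetherianRing S] [IsAdicComplete (maximalIdeal S) S]
    [Finite (ResidueField S)] [IsLocalRing B] [IsNoetherianRing B]
    [IsAdicComplete (maximalIdeal B) B] [Finite (ResidueField B)]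
    {I : ℕ → Ideal S} (hI : ∀ n, I n ≤ maximalIdeal S ^ n) (L : ∀ n, FLevel S B d (I n))
    (U : Ultrafilter ℕ) (hU : ∀ k, ∀ᶠ n in (U : Filter ℕ), k ≤ n) :
    ∃ L' : FLevel S B d (⊥ : Ideal S),
      (∀ s, ∀ k, ∀ᶠ n in (U : Filter ℕ),
        (L n).φ s - L'.φ s ∈ (maximalIdeal B ^ k • ⊤ : Submodule B B)) ∧
      (∀ τ f i j, ∀ k, ∀ᶠ n in (U : Filter ℕ),
        Θ (L n).toK τ f i j - Θ L'.toK τ f i j ∈ (maximalIdeal S ^ k • ⊤ : Submodule S S)) :=
  exists_free_ulimit hI L U hU

/-- **Limits of points** (module `H57FreeLimit`): local homomorphisms `x n : B → O` converge along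
`U` to a homomorphism `x'`, and `x n (f n)` converges to `x' f'` if `f n` converges to `f'`. -/
theorem limit_of_points {B O : Type} [CommRing B] [IsLocalRing B] [CommRing O] [IsLocalRing O]
    [IsNoetherianRing O] [IsAdicComplete (maximalIdeal O) O] [Finite (ResidueField O)]
    (U : Ultrafilter ℕ) (x : ℕ → B →+* O)
    (hx : ∀ n, maximalIdeal B ≤ (maximalIdeal O).comap (x n)) :
    ∃ x' : B →+* O, ∀ (f : ℕ → B) (f' : B), IsULim (maximalIdeal B) U f f' →
      IsULim (maximalIdeal O) U (fun n => x n (f n)) (x' f') :=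
  exists_point_ulimit U x hx

/-- **Annihilators in the limit** (module `H57FullLimit`). If at every level `g N τ ⊆ K N τ`
implies `c g N τ' ⊆ K N τ'` for all ideals `K ≥ I n`, then in the limit `g N τ = 0` implies
`c g N τ' = 0`. -/
theorem annihilators_in_limit {S B : Type} [CommRing S] [CommRing B] {ι : Type} {d : ι → ℕ}
    [IsLocalRing S] [IsNoetherianRing S] [IsAdicComplete (maximalIdeal S) S]
    [Finite (ResidueField S)] [IsLocalRing B] [IsNoetherianRing B]
    [IsAdicComplete (maximalIdeal B) B] [Finite (ResidueField B)]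
    {I : ℕ → Ideal S} (hI : ∀ n, I n ≤ maximalIdeal S ^ n) (L : ∀ n, FLevel S B d (I n))
    (U : Ultrafilter ℕ) (hU : ∀ k, ∀ᶠ n in (U : Filter ℕ), k ≤ n) (L' : FLevel S B d (⊥ : Ideal S))
    (hΘ : ∀ τ f i j, IsULim (maximalIdeal S) U (fun n => Θ (L n).toK τ f i j)
      (Θ L'.toK τ f i j)) (τ τ' : ι) (c : B)
    (h : ∀ n (K : Ideal S) (g : B), I n ≤ K →
      (∀ x : (L n).N τ, g • x ∈ (K.map (L n).φ • ⊤ : Submodule B ((L n).N τ))) →
      ∀ x : (L n).N τ', (c * g) • x ∈ (K.map (L n).φ • ⊤ : Submodule B ((L n).N τ')))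
    {g : B} (hg : ∀ x : L'.N τ, g • x = 0) (x : L'.N τ') : (c * g) • x = 0 :=
  kills_of_ulimit hI L U hU L' hΘ τ τ' c h hg x

/-- **Divisibility in the limit** (module `H57FullLimit`). If at every level `g N τ ⊆ K N τ`
implies `c g N τ' ⊆ t N τ' + K N τ'` for all ideals `K ≥ I n`, then in the limit `g N τ = 0`
implies `c g N τ' ⊆ t N τ'` (approximate solutions of linear equations and Krull). -/
theorem divisibility_in_limit {S B : Type} [CommRing S] [CommRing B] {ι : Type} {d : ι → ℕ}
    [IsLocalRing S] [IsNoetherianRing S] [IsAdicComplete (maximalIdeal S) S]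
    [Finite (ResidueField S)] [IsLocalRing B] [IsNoetherianRing B]
    [IsAdicComplete (maximalIdeal B) B] [Finite (ResidueField B)]
    {I : ℕ → Ideal S} (hI : ∀ n, I n ≤ maximalIdeal S ^ n) (L : ∀ n, FLevel S B d (I n))
    (U : Ultrafilter ℕ) (hU : ∀ k, ∀ᶠ n in (U : Filter ℕ), k ≤ n) (L' : FLevel S B d (⊥ : Ideal S))
    (hΘ : ∀ τ f i j, IsULim (maximalIdeal S) U (fun n => Θ (L n).toK τ f i j)
      (Θ L'.toK τ f i j)) (τ τ' : ι) (c t : B)
    (h : ∀ n (K : Ideal S) (g : B), I n ≤ K →
      (∀ x : (L n).N τ, g • x ∈ (K.map (L n).φ • ⊤ : Submodule B ((L n).N τ))) →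
      ∀ a : (L n).N τ', ∃ a' : (L n).N τ',
        (c * g) • a - t • a' ∈ (K.map (L n).φ • ⊤ : Submodule B ((L n).N τ')))
    {g : B} (hg : ∀ x : L'.N τ, g • x = 0) (a : L'.N τ') :
    (c * g) • a ∈ (Ideal.span {t} • ⊤ : Submodule B (L'.N τ')) :=
  div_of_ulimit hI L U hU L' hΘ τ τ' c t h hg a

/-! ### (D) Commutative algebra of the limit -/

/-- **Dimension of associated primes** (module `H57Endgame`). Let `N` be a `B`-module which is
free of finite rank over `S` through `φ : S → B`. If `P` is the annihilator of a nonzero element of `N`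
then `S → B / P` is injective and `dim S ≤ dim B / P`. -/
theorem dimension_of_associated_prime {S B : Type} [CommRing S] [CommRing B] [IsDomain S]
    [IsNoetherianRing S] [IsNoetherianRing B] (φ : S →+* B)
    {N : Type} [AddCommGroup N] [Module B N] {d : ℕ} (b : Fin d → N)
    (hspan : ∀ x : N, ∃ c : Fin d → S, x = ∑ i, φ (c i) • b i)
    (hrel : ∀ c : Fin d → S, ∑ i, φ (c i) • b i = 0 → ∀ i, c i = 0)
    (P : Ideal B) (hP : P ≠ ⊤) (x : N) (hmem : ∀ f : B, f ∈ P ↔ f • x = 0) :
    (∀ s : S, φ s ∈ P → s = 0) ∧ ringKrullDim S ≤ ringKrullDim (B ⧸ P) :=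
  dim_of_ann φ b hspan hrel P hP x hmem

/-- **Support of the unipotent module** (change of types, module `H57FullAlg`). Two modules `N₀`
(ramified characters at `T`) and `N₁` (unipotent at `T`), both free over `S`, are isomorphic
modulo `K`. Every prime `P ⊇ Ann N₀` with `P ∩ S = 0` contains a prime `J` with
`dim B / J ≤ n ≤ dim S` which is contained in a prime `q ⊇ K`, `g ∉ q` (`hchi`); every prime
`P ⊇ Ann N₁` with `P ∩ S = 0` and `g ∉ P` contains the prime `J₁`, `dim B / J₁ ≤ n` (`huni`).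
Then `Ann N₁ ≤ J₁`: the component `J₁` is in the support of the unipotent module. -/
theorem support_of_unipotent_module {S B : Type} [CommRing S] [CommRing B] [IsDomain S]
    [IsNoetherianRing S] [IsNoetherianRing B] (φ : S →+* B)
    {N₀ N₁ : Type} [AddCommGroup N₀] [Module B N₀] [AddCommGroup N₁] [Module B N₁]
    {d₀ d₁ : ℕ} (hd₀ : 0 < d₀)
    (b₀ : Fin d₀ → N₀) (hspan₀ : ∀ x : N₀, ∃ c : Fin d₀ → S, x = ∑ i, φ (c i) • b₀ i)
    (hrel₀ : ∀ c : Fin d₀ → S, ∑ i, φ (c i) • b₀ i = 0 → ∀ i, c i = 0)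
    (b₁ : Fin d₁ → N₁) (hspan₁ : ∀ x : N₁, ∃ c : Fin d₁ → S, x = ∑ i, φ (c i) • b₁ i)
    (hrel₁ : ∀ c : Fin d₁ → S, ∑ i, φ (c i) • b₁ i = 0 → ∀ i, c i = 0)
    {n : ℕ} (hn : (n : WithBot ℕ∞) ≤ ringKrullDim S) (K : Ideal B)
    (e : (N₀ ⧸ (K • ⊤ : Submodule B N₀)) ≃ₗ[B] (N₁ ⧸ (K • ⊤ : Submodule B N₁))) (g : B)
    (hchi : ∀ P : Ideal B, P.IsPrime → (∀ f : B, (∀ x : N₀, f • x = 0) → f ∈ P) →
      (∀ s : S, φ s ∈ P → s = 0) → ∃ J : Ideal B, J.IsPrime ∧ J ≤ P ∧
        ringKrullDim (B ⧸ J) ≤ (n : WithBot ℕ∞) ∧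
        ∃ (q : Ideal B), q.IsPrime ∧ J ≤ q ∧ K ≤ q ∧ g ∉ q)
    {J₁ : Ideal B} (hJ₁ : J₁.IsPrime) (hJ₁d : ringKrullDim (B ⧸ J₁) ≤ (n : WithBot ℕ∞))
    (huni : ∀ P : Ideal B, P.IsPrime → (∀ f : B, (∀ x : N₁, f • x = 0) → f ∈ P) →
      (∀ s : S, φ s ∈ P → s = 0) → g ∉ P → J₁ ≤ P)
    (f : B) (hf : ∀ x : N₁, f • x = 0) : f ∈ J₁ :=
  ann_le_abs φ hd₀ b₀ hspan₀ hrel₀ b₁ hspan₁ hrel₁ hn K e g hchi hJ₁ hJ₁d huni f hf

/-- **Raising the level in the limit** (module `H57FullAlg`). `A` is the module of the old level,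
`Xn` the new quotient of the module of the raised level, free over `S`; `𝔮` is the generic point
of the intersection of the old component with the component `Pn` of newforms. If `Ann A ≤ 𝔮`
(`hA`), every prime `P` with `Ann Xn ≤ P ≤ 𝔮`, `P ∩ S = 0` and `dim B / P ≥ n` is contained in
`Pn` (`hX`), and the annihilator of `Xn`, multiplied by `c' ∉ 𝔮`, maps `A` to `t A` with `t ∈ 𝔮`
(`hIII`), then `Ann Xn ≤ Pn`. -/
theorem raising_in_limit {S B : Type} [CommRing S] [CommRing B] [IsDomain S]
    [IsNoetherianRing S] [IsNoetherianRing B] (φ : S →+* B)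
    {A Xn : Type} [AddCommGroup A] [Module B A] [Module.Finite B A]
    [AddCommGroup Xn] [Module B Xn] {d : ℕ} (b : Fin d → Xn)
    (hspan : ∀ x : Xn, ∃ c : Fin d → S, x = ∑ i, φ (c i) • b i)
    (hrel : ∀ c : Fin d → S, ∑ i, φ (c i) • b i = 0 → ∀ i, c i = 0)
    {n : ℕ} (hn : (n : WithBot ℕ∞) ≤ ringKrullDim S)
    {𝔮 Pn : Ideal B} (h𝔮 : 𝔮.IsPrime) {t c' : B} (ht : t ∈ 𝔮) (hc' : c' ∉ 𝔮)
    (hA : ∀ f : B, (∀ a : A, f • a = 0) → f ∈ 𝔮)
    (hX : ∀ P : Ideal B, P.IsPrime → (∀ f : B, (∀ x : Xn, f • x = 0) → f ∈ P) →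
      (∀ s : S, φ s ∈ P → s = 0) → (n : WithBot ℕ∞) ≤ ringKrullDim (B ⧸ P) → P ≤ 𝔮 → P ≤ Pn)
    (hIII : ∀ g : B, (∀ x : Xn, g • x = 0) →
      ∀ a : A, (c' * g) • a ∈ (Ideal.span {t} • ⊤ : Submodule B A))
    (f : B) (hf : ∀ x : Xn, f • x = 0) : f ∈ Pn :=
  raise_abs φ b hspan hrel hn h𝔮 ht hc' hA hX hIII f hf

/-! ### (E) The levels of the patching argument and the endgame

A level `L : FullLevel O ϖ c' p r n D m s B X Y q v Z cb` (module `H57FullLevel`) is a
deformation ring `L.R` with a presentation `L.β : B → L.R` (together the ring part, a structure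
`RPart O B X q v`) and modules `L.N τ`, `τ : MIdx s`: `τ = chi` (non-trivial characters at `T`),
`τ = mod i` (unipotent at `T` and at the first `i` raising primes) and `τ = new i` (new quotient of the
`i`-th raising step). `H69Full` constructs the module part of
a level from the Hecke modules, `H69Quot` passes to quotients of the deformation ring. -/

section Levels

attribute [local instance] RPart.instCommRing RPart.instLocal RPart.instAlgebra
  FullLevel.instAddCommGroup FullLevel.instModule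

/-- **The ring of a level** (`RPart`, module `H57NMLift`): a local `O`-algebra `R`, a surjection
`β : B → R`, matrices `Σ t` (tame inertia) and `Φ t` (Frobenius) with `det Σ = 1`, `det Φ = q`,
`Φ Σ = Σ ^ q Φ`, with traces congruent to `2` and `2 v t`; the six coordinates `X t j` of the
presentation are mapped to the coordinates of the trace zero parts of `Σ t` and `Φ t`. -/
theorem ring_of_level {O : Type} [CommRing O] [IsLocalRing O] {T : Type} {B : Type} [CommRing B]
    [Algebra O B] {X : T → Fin 6 → B} {q : T → ℕ} {v : T → O} (L : RPart O B X q v) :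
    Function.Surjective L.β ∧ ∀ t,
      (L.Sg t 0 0 * L.Sg t 1 1 - L.Sg t 0 1 * L.Sg t 1 0 = 1 ∧
        L.Ph t 0 0 * L.Ph t 1 1 - L.Ph t 0 1 * L.Ph t 1 0 = q t ∧
        L.Ph t * L.Sg t = L.Sg t ^ q t * L.Ph t) ∧
      (L.Sg t 0 0 + L.Sg t 1 1 - 2 ∈ maximalIdeal L.R ∧
        L.Ph t 0 0 + L.Ph t 1 1 - 2 * algebraMap O L.R (v t) ∈ maximalIdeal L.R) ∧
      (2 * L.β (X t 0) = L.Sg t 0 0 - L.Sg t 1 1 ∧ L.β (X t 1) = L.Sg t 0 1 ∧
        L.β (X t 2) = L.Sg t 1 0) ∧
      (2 * L.β (X t 3) = L.Ph t 0 0 - L.Ph t 1 1 ∧ L.β (X t 4) = L.Ph t 0 1 ∧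
        L.β (X t 5) = L.Ph t 1 0) :=
  ⟨L.β_surj, fun t => ⟨⟨L.det_Sg t, L.det_Ph t, L.tame t⟩, ⟨L.tr_Sg t, L.tr_Ph t⟩,
    ⟨L.hX0 t, L.hX1 t, L.hX2 t⟩, ⟨L.hX3 t, L.hX4 t, L.hX5 t⟩⟩⟩

/-- **The modules of a level** (module `H57FullLevel`): `N τ` is free of rank `d τ ≤ D` over
`O⟦S_1, …, S_r⟧ / ((1 + S_j) ^ (p ^ e j) - 1)` with `e j ≥ n`, and `d chi > 0`; the traces of
`Σ t` are `ζ + ζ⁻¹`, `ζ ∈ Z t`, on `N chi` and `2` on `N (mod i)`; the two modules `N chi` and
`N (mod 0)` are isomorphic modulo `ϖ`. -/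
theorem modules_of_level {O : Type} [CommRing O] [IsLocalRing O] {ϖ c' : O}
    {p r n D m s : ℕ} {T B : Type} [CommRing B] [Algebra O B] {X : T → Fin 6 → B}
    {Y : Fin s → Fin 3 → B} {q : T → ℕ} {v : T → O} {Z : T → Finset Oˣ} {cb : Fin s → O}
    (L : FullLevel O ϖ c' p r n D m s B X Y q v Z cb) :
    (0 < L.d .chi ∧ (∀ τ, L.d τ ≤ D) ∧ ∀ j, n ≤ L.e j) ∧
    (∀ τ (x : L.N τ), ∃ c : Fin (L.d τ) → MvPowerSeries (Fin r) O,
      x = ∑ i, L.φ (c i) • L.b τ i) ∧
    (∀ τ (c : Fin (L.d τ) → MvPowerSeries (Fin r) O),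
      ∑ i, L.φ (c i) • L.b τ i = 0 ↔ ∀ i, c i ∈ Ideal.span (Set.range fun j =>
        ((1 + MvPowerSeries.X j) ^ (p ^ L.e j) - 1 : MvPowerSeries (Fin r) O))) ∧
    (∀ t (x : L.N .chi), (∏ ζ ∈ Z t,
      (L.Sg t 0 0 + L.Sg t 1 1 - algebraMap O L.R ((ζ : O) + (ζ⁻¹ : Oˣ)))) • x = 0) ∧
    (∀ i t (x : L.N (.mod i)), (L.Sg t 0 0 + L.Sg t 1 1 - 2) • x = 0) ∧
    Nonempty ((L.N .chi ⧸ (Ideal.span {algebraMap O L.R ϖ} • ⊤ : Submodule L.R (L.N .chi))) ≃ₗ[L.R]
      (L.N (.mod 0) ⧸ (Ideal.span {algebraMap O L.R ϖ} • ⊤ : Submodule L.R (L.N (.mod 0))))) :=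
  ⟨⟨L.d_pos, L.d_le, L.le_e⟩, L.b_span, L.b_rel, L.prod_smul, L.uni_smul, L.iso⟩

/-- **The raising primes in a level** (module `H57FullLevel`). With the coordinates
`Y j = (t, y, z)` at the `j`-th raising prime: `y = z = 0` on `N chi` and on `N (mod i)` for
`i ≤ j`; `y t = 0 = z (t + c)` on `N (mod i)` for `j < i`; `(t (t + c)) ^ 2 = 0` on the new
quotient `N (new j)`. There are a surjection `quo : N (mod (j + 1)) → N (new j)` and a map
`low : N (mod (j + 1)) → N (mod j)` whose image contains `c' N (mod j)` and which maps the kernel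
of `quo` into `t N (mod j)`. -/
theorem raising_primes_of_level {O : Type} [CommRing O] [IsLocalRing O] {ϖ c' : O}
    {p r n D m s : ℕ} {T B : Type} [CommRing B] [Algebra O B] {X : T → Fin 6 → B}
    {Y : Fin s → Fin 3 → B} {q : T → ℕ} {v : T → O} {Z : T → Finset Oˣ} {cb : Fin s → O}
    (L : FullLevel O ϖ c' p r n D m s B X Y q v Z cb) :
    (∀ j (x : L.N .chi), L.β (Y j 1) • x = 0 ∧ L.β (Y j 2) • x = 0) ∧
    (∀ (i : Fin (s + 1)) (j : Fin s), (i : ℕ) ≤ j → ∀ x : L.N (.mod i),
      L.β (Y j 1) • x = 0 ∧ L.β (Y j 2) • x = 0) ∧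
    (∀ (i : Fin (s + 1)) (j : Fin s), (j : ℕ) < i → ∀ x : L.N (.mod i),
      L.β (Y j 1 * Y j 0) • x = 0 ∧ L.β (Y j 2 * (Y j 0 + algebraMap O B (cb j))) • x = 0) ∧
    (∀ (j : Fin s) (x : L.N (.new j)),
      L.β ((Y j 0 * (Y j 0 + algebraMap O B (cb j))) ^ 2) • x = 0) ∧
    (∀ j, Function.Surjective (L.quo j)) ∧
    (∀ (j : Fin s) (a : L.N (.mod j.castSucc)), ∃ y, L.low j y = algebraMap O L.R c' • a) ∧
    (∀ j y, L.quo j y = 0 → ∃ a, L.low j y = L.β (Y j 0) • a) :=
  ⟨L.chi_nr, L.mod_nr, L.mod_uni, L.new_smul, L.quo_surj, L.low_surj, L.low_old⟩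

/-- **The point of a level** (module `H57FullLevel`): the representation which is to be proved
modular is a homomorphism `pt : R → O` which is trivial on the diamond operators, unipotent at `T`
and Steinberg (`t = z = 0`) at the raising primes. The witness of non-modularity is an element
`f ∈ R` which annihilates `N (mod s)` modulo the diamond variables and whose value at the point is
not divisible by `ϖ ^ m`. -/
theorem point_of_level {O : Type} [CommRing O] [IsLocalRing O] {ϖ c' : O}
    {p r n D m s : ℕ} {T B : Type} [CommRing B] [Algebra O B] {X : T → Fin 6 → B}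
    {Y : Fin s → Fin 3 → B} {q : T → ℕ} {v : T → O} {Z : T → Finset Oˣ} {cb : Fin s → O}
    (L : FullLevel O ϖ c' p r n D m s B X Y q v Z cb) :
    (∀ j, L.pt (L.φ (MvPowerSeries.X j)) = 0) ∧ (∀ t, L.pt (L.Sg t 0 0 + L.Sg t 1 1) = 2) ∧
    (∀ i, L.pt (L.β (Y i 0)) = 0) ∧ (∀ i, L.pt (L.β (Y i 2)) = 0) ∧
    (∀ x : L.N (.mod (Fin.last s)), L.f • x ∈
      (Ideal.span (Set.range fun j => L.φ (MvPowerSeries.X j)) • ⊤ :
        Submodule L.R (L.N (.mod (Fin.last s))))) ∧
    L.pt L.f ∉ Ideal.span {ϖ ^ m} :=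
  ⟨L.pt_φ, L.pt_uni, L.pt_t, L.pt_z, L.f_smul, L.f_pt⟩

/-- **The endgame** (modules `H57FullMain`, `H57FullIdx`). Let `O` be a complete discrete valuation ring with
finite residue field, `p` in its maximal ideal and `2` a unit. It is impossible that levels exist
for all `n = 0, 1, 2, …` (with fixed bounds `D` for the ranks and `m` for the witness) with
`r = 3 |T| + |κ| + k` diamond variables and presentations in `6 |T| + 3 |κ| + k` variables, when
`q t ≡ 1`, `q t ≠ 1`, `v t ^ 2 = 1` at the scalar primes, the `ζ ∈ Z t` are congruent to `1`,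
non-trivial and of order dividing `q t - 1`, and `cb ≠ 0`, `c' ≠ 0`. -/
theorem endgame {O : Type} [CommRing O] [IsDomain O] [IsDiscreteValuationRing O]
    [IsAdicComplete (maximalIdeal O) O] [Finite (ResidueField O)]
    {ϖ c' : O} (hϖ : maximalIdeal O = Ideal.span {ϖ}) (hc' : c' ≠ 0)
    {p k D m s r : ℕ} (hpO : (p : O) ∈ maximalIdeal O) (h2 : IsUnit (2 : O))
    {T κ : Type} [Finite T] [Finite κ] (ε : Fin s ≃ κ)
    (hr : r = 3 * Nat.card T + Nat.card κ + k)
    {q : T → ℕ} (hq0 : ∀ t, 1 ≤ q t) (hq : ∀ t, (q t : O) - 1 ∈ maximalIdeal O)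
    (hq1 : ∀ t, (q t : O) ≠ 1) {v : T → O} (hv : ∀ t, v t * v t = 1)
    {Z : T → Finset Oˣ} (hZ1 : ∀ t, ∀ ζ ∈ Z t, ζ ≠ 1) (hZ2 : ∀ t, ∀ ζ ∈ Z t, ζ ^ (q t - 1) = 1)
    (hZ3 : ∀ t, ∀ ζ ∈ Z t, (ζ : O) - 1 ∈ maximalIdeal O)
    {cb : Fin s → O} (hcb : ∀ i, cb i ≠ 0)
    (L : ∀ n, Nonempty (FullLevel O ϖ c' p r n D m s
      (MvPowerSeries (((T × Fin 6) ⊕ (κ × Fin 3)) ⊕ Fin k) O)
      (fun t j => MvPowerSeries.X (Sum.inl (Sum.inl (t, j))))
      (fun i j => MvPowerSeries.X (Sum.inl (Sum.inr (ε i, j)))) q v Z cb)) : False :=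
  no_full_levels_idx hϖ hc' hpO h2 ε hr hq0 hq hq1 hv hZ1 hZ2 hZ3 hcb L

/-- **Removal of a mark (type `Pβ`)** (module `H69PBeta`). If the elements `t` and `z` of one mark (the
index `default : ε'`, at `p`) kill all the modules of a level and vanish at the point, then there is a level
with the same numbers `r, n, D, m, s` over the power series ring in which the three coordinates of this mark
are replaced by one free variable: the deformation ring becomes `R / (t, z)` and `y` is the new variable. So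
the endgame applies with `k + 1` free variables. -/
theorem removal_of_mark {O : Type} [CommRing O] [IsDomain O] [IsDiscreteValuationRing O]
    [IsAdicComplete (maximalIdeal O) O] {ϖ c' : O} {p r n D m s k : ℕ} {T ι ε' : Type} [Finite T]
    [Finite ι] [Unique ε'] {q : T → ℕ} {v : T → O} {Z : T → Finset Oˣ} {cb : Fin s → O}
    (ε : Fin s → ι)
    (L : FullLevel O ϖ c' p r n D m s
      (MvPowerSeries (((T × Fin 6) ⊕ ((ι ⊕ ε') × Fin 3)) ⊕ Fin k) O)
      (fun t j => MvPowerSeries.X (Sum.inl (Sum.inl (t, j))))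
      (fun i j => MvPowerSeries.X (Sum.inl (Sum.inr (Sum.inl (ε i), j)))) q v Z cb)
    (ht : ∀ τ (x : L.N τ),
      L.β (MvPowerSeries.X (Sum.inl (Sum.inr (Sum.inr default, 0)))) • x = 0)
    (hz : ∀ τ (x : L.N τ),
      L.β (MvPowerSeries.X (Sum.inl (Sum.inr (Sum.inr default, 2)))) • x = 0)
    (hpt : L.pt (L.β (MvPowerSeries.X (Sum.inl (Sum.inr (Sum.inr default, 0))))) = 0)
    (hpz : L.pt (L.β (MvPowerSeries.X (Sum.inl (Sum.inr (Sum.inr default, 2))))) = 0) :
    Nonempty (FullLevel O ϖ c' p r n D m s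
      (MvPowerSeries (((T × Fin 6) ⊕ (ι × Fin 3)) ⊕ Fin (k + 1)) O)
      (fun t j => MvPowerSeries.X (Sum.inl (Sum.inl (t, j))))
      (fun i j => MvPowerSeries.X (Sum.inl (Sum.inr (ε i, j)))) q v Z cb) :=
  H69.Quot.nonempty_remove ε L ht hz hpt hpz

end Levels

end Fermat.Agent.Guide.LiftingAlgebra
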