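import Fermat.Agent.H57S59sq

/-!
# Reader's guide: modularity lifting (S59SQ). Part 5: composition of the levels

This file lists the theorems which put the Galois side (`GuideLiftingGalois`) and the Hecke side
(`GuideLiftingHecke`) of a level together, up to the inner statements of `GuideLifting` (`innerFull_iff`). All
theorems are used in the closures of S01, S03, S04, S06, S38, S45, S46, S50, S59 and S60.

**The way to a level.** Let `G` be the Galois side of a level with universal ring `R = G.D.R`. The top level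
`L` of the Hecke side is the product of the base level `∏ (A ∪ T) * s * δ` (`δ = 1`, or `p` in the types `O`
and `Pβ`), the Taylor-Wiles primes, all raising primes, and once more the primes of the characters (the
Taylor-Wiles primes and `T`; for the twist).
`𝕋 = heckeLocal L S O θ` is the Hecke algebra of level `L` (operators `T_ℓ`, `ℓ ∉ S`), completed at the
eigensystem `θ` of `W[p]`; there is a surjection `π : R → 𝕋` compatible with the Galois representations
(`heckeSide_iff`; existence in `GuideHeckeRings`). Everything that the patching needs to know about the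
modules is an equality `lam (π a) = 0` of elements of `R` at *points* `lam : 𝕋 → O'` which occur in the
cohomology of the levels between the base level and the top level:

* the *local facts*: the values of the marks, of the elements at `T` and of the diamond parameters at the
  points (`markFacts_fields`, `tFacts_fields`). They say that the representation at the point is unramified at
  `q` if the level is prime to `q`; unipotent if `q` divides the level and the character is trivial at `q`,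
  with the eigenvalues `ζ, ζ⁻¹` of tame inertia otherwise; and Steinberg if the class is new;
* the *witness*: an integral relation between the Hecke operators of the top level without Taylor-Wiles
  primes which the numbers `a_ℓ(W)` do not satisfy (`dichotomy`); it exists if `W` is not modular. The
  element `trElt r P` of `R` vanishes at all points without character (`witness_at_point`), but not at the
  point of `W`;
* at `p`: the hypotheses `PHyp` (`hypotheses_at_p_iff`), proved for each of the types `F`, `O`, `Pα`, `Pβ`; in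
  type `Pβ` all points are new at `p` (`beta_kills`).

`inner_level` is the result: the Galois side is completed to a `FullLevel` (`GuideLiftingAlgebra`).

Other names in the statements: `GalLevelB` is the Galois side of a level (`GuideLiftingGalois`,
`galLevel_fields`), `GLev` the same for the residual representation of `W`; `Tset T` the type of the
elements of `T`, `PlaceData p q` a place above `q` with a Frobenius element `φ` and a tame generator `σ`,
`Zset` the roots of unity for `T` (`GuideLifting`, section 3); `MIdx s` numbers the modules of a level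
(`chi`, `mod i`, `new i`); `Away M S` says that all prime divisors of `M` are in `S`; `cj g r` is the
conjugate `g⁻¹ r g`; `bnd` is the bound of the ranks (`GuideLiftingSteps`, section 5).

Order: (1) the witness, (2) points and local facts, (3) the Hecke side and the hypotheses at `p`, (4) new
points and type `Pβ`, (5) the levels. The steps are in `GuideLiftingSteps`; those behind section 2
(eigenclasses and their representations) also in `GuideEigenSteps`, and for the points of the deformation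
rings in `GuideGaloisPoints`. References: NOTES.md Appendix A.11 [213], [214], [205], [295], [299].
Authors of the files: helper86 (`H86In*`, `H86FM*`), helper79 (`H79Pt*`), helper85 (`H85In*`), helper75
(`H75R*`), helper35 (`H35In*`, `H35Rk`), helper65 (`H65TyF`, `H65InF`), helper20 (`H20TypeO`, `H20InO`),
helper73 (`H73PNew`), helper21 (`H21M*`), helper69 (`H69Fin`, `H69Pt`), helper30 (`H30Lev`, `H30S59b`).
-/

set_option autoImplicit false
set_option linter.style.haveILetI false

open IsLocalRing Module Polynomial GaloisRep CuspForm CongruenceSubgroup Matrix WeierstrassCurve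
open scoped MatrixGroups TensorProduct

namespace Fermat.Agent.Guide.LiftingComposition

open Fermat.Agent.H53 (GQ M2 toMat mapMat PData PlaceData GalLevelB)
open Fermat.Agent.H70.Coh Fermat.Agent.H70.Mod Fermat.Agent.H37.Rank Fermat.Agent.H30
open Fermat.Agent.H59 (act IsLocIdem Loc)
open Fermat.Agent.H86.In (MarkFacts TFacts TWFacts VanishAt PHyp HSide GLev)

/-! ### 1. The witness -/

/-- **Dichotomy** (module `H69Fin`, from S35). Let `L` be squarefree and `S` a finite set containing the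
primes of `L`. Either `W` is modular of exact conductor level, or there is an integral polynomial `P` in
variables `T_ℓ`, `ℓ ∉ S`, which vanishes in the Hecke algebra of weight two and level `Γ₀(L)` (`evZ` is the
evaluation) but not at the numbers `a_ℓ(W)`. -/
theorem dichotomy (W : WeierstrassCurve ℤ) (hΔ : W.Δ ≠ 0)
    {L : ℕ} [NeZero L] (hL : Squarefree L) (S : Finset ℕ)
    (hNS : ∀ q : ℕ, q.Prime → q ∣ L → q ∈ (↑S : Set ℕ)) :
    Mlc1IsModularModelOfExactConductorLevel W ∨
      ∃ P : MvPolynomial {ℓ : ℕ // ℓ.Prime ∧ ℓ ∉ (↑S : Set ℕ)} ℤ,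
        H30.evZ L (↑S : Set ℕ) hNS P = 0 ∧
          MvPolynomial.aeval (fun i => W.apOfModel i.1) P ≠ (0 : ℤ) :=
  H69.Fin.exact_or_exists S35.result W hΔ hL S hNS

/-- **The witness element** (module `H69Pt`). `r` is the matrix form of a representation of `G_ℚ` over `R`;
`trElt r P` is the value of `P` at the traces of `r` at the (chosen) Frobenius elements `frobElt ℓ`. -/
theorem witness_element {R : Type} [CommRing R] (r : GQ →* M2 R) {S : Set ℕ}
    (P : MvPolynomial {ℓ : ℕ // ℓ.Prime ∧ ℓ ∉ S} ℤ) :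
    H69.Pt.trElt r P = MvPolynomial.aeval
      (fun i => r (H69.Pt.frobElt i.1) 0 0 + r (H69.Pt.frobElt i.1) 1 1) P :=
  rfl

/-- **The witness vanishes at the points without character** (module `H86FM2`). `P` is a relation between
the Hecke operators of level `N₀` not involving primes of `S`; `Q` is a set of Taylor-Wiles primes
(`p ∣ q - 1`, distinct eigenvalues of Frobenius), `lam : 𝕋 → O'` a point with an eigenclass `x` of level
`M = N₀ ∏ Q` and trivial character. Then `trElt r P` vanishes at `lam`. (By helper4's analysis the point is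
unramified at the primes of `Q`: a Steinberg point at `q ∈ Q` would have Frobenius eigenvalues `u`, `u q`,
equal modulo `p`. So the eigensystem occurs at level `N₀`, where `P = 0`.) -/
theorem witness_at_point {O : Type} [CommRing O] [IsDomain O] [IsDiscreteValuationRing O]
    [IsAdicComplete (maximalIdeal O) O] [Finite (ResidueField O)] [CharZero O]
    {p : ℕ} [Fact p.Prime] {rhobar : ResidualGaloisRep (ResidueField O)}
    {𝒟 : ∀ ⦃A : Type⦄ [CommRing A] [IsLocalRing A] [Algebra O A], GaloisRepAdic A → Prop}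
    (D : DeformationRingData O rhobar 𝒟) (b₁ : Module.Basis (Fin 2) D.R D.ρ.V)
    {L : ℕ} [NeZero L] {S : Finset ℕ} (hpS : p ∈ S) (hLS : ∀ q : ℕ, q.Prime → q ∣ L → q ∈ S)
    {θ : heckeAlgebra L 2 (↑S : Set ℕ) →+* ResidueField O}
    (π : D.R →ₐ[O] heckeLocal L (↑S : Set ℕ) O θ) (hπ : Function.Surjective π)
    {H : HeckeGaloisRepDatum L (↑S : Set ℕ) O θ (heckeLocal L (↑S : Set ℕ) O θ)}
    (hH : H.π = heckeLocal.π L (↑S : Set ℕ) O θ)
    (b₂ : Module.Basis (Fin 2) (heckeLocal L (↑S : Set ℕ) O θ) H.ρ.V)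
    (hb₂ : toMat H.ρ.ρ b₂ =
      mapMat (π : D.R →+* heckeLocal L (↑S : Set ℕ) O θ) (toMat D.ρ.ρ b₁))
    {O' : Type} [CommRing O'] [IsDomain O'] [IsDiscreteValuationRing O']
    [IsAdicComplete (maximalIdeal O') O'] [Finite (ResidueField O')] [CharZero O']
    [Algebra O O'] [Module.Finite O O'] [IsLocalHom (algebraMap O O')]
    (hp2 : p ≠ 2) (hpO : (p : O) ∈ maximalIdeal O)
    {N₀ : ℕ} [NeZero N₀] {S₀ : Set ℕ} (hS₀ : ∀ q : ℕ, q.Prime → q ∣ N₀ → q ∈ S₀)
    (hSS : ∀ ℓ ∈ S₀, ℓ ∈ S) (P : MvPolynomial {ℓ : ℕ // ℓ.Prime ∧ ℓ ∉ S₀} ℤ)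
    (hP : H30.evZ N₀ S₀ hS₀ P = 0) (hvars : ∀ i ∈ P.vars, i.1 ∉ S)
    (Q : Finset ℕ)
    (hQ : ∀ q ∈ Q, q.Prime ∧ p ∣ q - 1 ∧ ¬ q ∣ N₀ ∧
      ∀ P : ValuationSubring (AlgebraicClosure ℚ), P.LiesOverPrime q → ∀ φ : GQ, P.IsFrobeniusAt φ q →
        ∃ α β : ResidueField O, α ≠ β ∧ LinearMap.charpoly (rhobar.ρ φ) = (X - C α) * (X - C β))
    {M : ℕ} (hM : M = N₀ * ∏ q ∈ Q, q) {N' : ℕ} (hN' : N' ∣ M) (hS : Away M (↑S : Set ℕ))
    (lam : heckeLocal L (↑S : Set ℕ) O θ →ₐ[O] O') (η : (ZMod N')ˣ →* O'ˣ) (hη : η = 1)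
    (x : H1 (gam N' M hN') (psiRep (η ^ 2) O')) (hx : ∀ c : O', c ≠ 0 → c • x ≠ 0)
    (hlam : ∀ i : Idx (↑S : Set ℕ), tw hN' hS (η ^ 2) η i x =
      lam (heckeLocal.π L (↑S : Set ℕ) O θ (TIdx L (↑S : Set ℕ) hLS i)) • x) :
    lam (π (H69.Pt.trElt (toMat D.ρ.ρ b₁) P)) = 0 :=
  H86.FM.fm_point D b₁ hpS hLS π hπ hH b₂ hb₂ hp2 hpO (H4.geomInputs Fact.out) hS₀ hSS P hP hvars Q hQ
    hM hN' hS lam η hη x hx hlam

/-! ### 2. Points and local facts -/

/-- **Unfolding of `IsPt`** (a point in terms of cohomology classes). Here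
`H1 (gam N M hM) (psiRep (η ^ 2) O')` is the first cohomology group of `Γ₀(M)` with values in `O'`
on which `Γ₀(M)` acts through the character `η²` of `(ℤ/N)ˣ`, `N ∣ M`, and
`tw hM hS (η ^ 2) η i = η(ℓ)⁻¹ T_ℓ` for the prime `i = ℓ ∉ S`. The class `y` is a point with
eigensystem `lam` if it is not a torsion element and `η(ℓ)⁻¹ T_ℓ y = lam(ℓ) y` for all `ℓ ∉ S`. -/
theorem isPt_iff {N M : ℕ} (hM : N ∣ M) {S : Set ℕ} (hS : Away M S) {O' : Type} [CommRing O']
    (η : (ZMod N)ˣ →* O'ˣ) (lam : Idx S → O') (y : H1 (gam N M hM) (psiRep (η ^ 2) O')) :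
    IsPt hM hS η lam y ↔
      (∀ c : O', c ≠ 0 → c • y ≠ 0) ∧ ∀ i, tw hM hS (η ^ 2) η i y = lam i • y :=
  ⟨fun h => ⟨h.smul_ne, h.eigen⟩, fun h => ⟨h.1, h.2⟩⟩

/-- `TrivAt N q η`: the character `η` of `(ℤ/N)ˣ` is trivial on the component at `q`, i.e. it factors
through `(ℤ/N₁)ˣ`, `N = N₁ q` (no condition if `q` does not divide `N`). -/
theorem trivAt_iff {A : Type*} [Monoid A] (N q : ℕ) (η : (ZMod N)ˣ →* A) :
    TrivAt N q η ↔ ∀ (N₁ : ℕ) (h : N = N₁ * q) (u : (ZMod N)ˣ),
      ZMod.unitsMap (h ▸ Dvd.intro q rfl) u = (1 : (ZMod N₁)ˣ) → η u = 1 :=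
  Iff.rfl

/-- **Points lie in the local summand.** Let `lam` be a point of the local Hecke algebra
`heckeLocal L S O θ` (level `L`, residual eigensystem `θ`) with values in `O'`, realised by the
class `x` of level `M`. Then the local idempotent `e` at `θ` acts as the identity on `x`: `e` is a
unit of the local ring `heckeLocal L S O θ` (its residue is one), so its image in the domain `O'` is
a unit `u` with `u² = u`, i.e. `u = 1`. File `H73PNew`. -/
theorem idempotent_fixes_point {O : Type} [CommRing O] [IsDomain O] [IsDiscreteValuationRing O]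
    [IsAdicComplete (maximalIdeal O) O] [Finite (ResidueField O)] [CharZero O]
    {L : ℕ} [NeZero L] {S : Set ℕ} (hSL : ∀ q : ℕ, q.Prime → q ∣ L → q ∈ S)
    {θ : heckeAlgebra L 2 S →+* ResidueField O}
    {O' : Type} [CommRing O'] [IsDomain O'] [IsLocalRing O'] [Algebra O O']
    {N M : ℕ} (hM : N ∣ M) (hS : Away M S) {η : (ZMod N)ˣ →* O'ˣ}
    (lam : heckeLocal L S O θ →ₐ[O] O') {x : H1 (gam N M hM) (psiRep (η ^ 2) O')}
    (hx : IsPt hM hS η (fun i => lam (heckeLocal.π L S O θ (TIdx L S hSL i))) x)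
    {e : MvPolynomial (Idx S) O}
    (he : IsLocIdem (tw hM hS (η ^ 2) η) (tw_comm hM hS (η ^ 2) η) (thetaPoly L S hSL O θ) e) :
    act (tw hM hS (η ^ 2) η) (tw_comm hM hS (η ^ 2) η) e x = x :=
  H73.PNew.act_idem_of_isPt hSL hM hS lam hx he

/-- **The local facts at a raising prime** (`MarkFacts`, module `H86InFa`), written out. `π : R → 𝕋` is a
map of the deformation ring to the localised Hecke algebra; `t, y, z ∈ R` are the marks at `q`, `c` the
constant of the relation `z (t + c) = 0`, `τ ∈ R` the candidate for the eigenvalue of `T_q`. For all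
points of squarefree levels `M` with characters of `p`-power order: (nr) at the levels prime to `q`
`y = z = 0`; (un) at the levels divisible by `q`, if `q` does not divide the modulus `N` of the character,
`y t = 0` and `z (t + c) = 0`; (tr) `τ² - (q + 1)²` is a unit times `t (t + c)`; (frob) at the levels prime
to `q` the eigenvalue of `η(q)⁻¹ T_q` is `τ`; (new) at a class of level `M q` with both traces to level `M`
zero `t (t + c) = 0`. These facts are all that is used about the primes `q` in the Hecke modules. -/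
theorem markFacts_fields {O : Type} [CommRing O] [IsDomain O] [IsDiscreteValuationRing O]
    [IsAdicComplete (maximalIdeal O) O] [Finite (ResidueField O)] [CharZero O]
    {p : ℕ} {R : Type} [CommRing R] [Algebra O R] {L : ℕ} [NeZero L] {S : Set ℕ}
    {hSL : ∀ q : ℕ, q.Prime → q ∣ L → q ∈ S}
    {θ : heckeAlgebra L 2 S →+* ResidueField O} {π : R →ₐ[O] heckeLocal L S O θ}
    {q : ℕ} {t y z : R} {c : O} {τ : R} (h : MarkFacts p hSL π q t y z c τ)
    (O' : Type) [CommRing O'] [IsDomain O'] [IsDiscreteValuationRing O']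
    [IsAdicComplete (maximalIdeal O') O'] [Finite (ResidueField O')] [CharZero O']
    [Algebra O O'] [Module.Finite O O'] [IsLocalHom (algebraMap O O')]
    (hinj : Function.Injective (algebraMap O O')) :
    (∀ {N M : ℕ} (hN : N ∣ M) (hS : Away M S) (_ : Squarefree M)
      (lam : heckeLocal L S O θ →ₐ[O] O') (η : (ZMod N)ˣ →* O'ˣ)
      (x : H1 (gam N M hN) (psiRep (η ^ 2) O')), (∃ k, η ^ p ^ k = 1) →
      IsPt hN hS η (fun i => lam (heckeLocal.π L S O θ (TIdx L S hSL i))) x →
      ¬ q ∣ M → lam (π y) = 0 ∧ lam (π z) = 0) ∧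
    (∀ {N M : ℕ} (hN : N ∣ M) (hS : Away M S) (_ : Squarefree M)
      (lam : heckeLocal L S O θ →ₐ[O] O') (η : (ZMod N)ˣ →* O'ˣ)
      (x : H1 (gam N M hN) (psiRep (η ^ 2) O')), (∃ k, η ^ p ^ k = 1) →
      IsPt hN hS η (fun i => lam (heckeLocal.π L S O θ (TIdx L S hSL i))) x →
      q ∣ M → ¬ q ∣ N →
      lam (π y) * lam (π t) = 0 ∧ lam (π z) * (lam (π t) + algebraMap O O' c) = 0) ∧
    (∃ v : R, IsUnit v ∧ τ ^ 2 - ((q : R) + 1) ^ 2 = v * (t * (t + algebraMap O R c))) ∧
    (∀ {N M : ℕ} (hN : N ∣ M) (hS : Away M S) (_ : Squarefree M) (hq : q.Prime)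
      (hqM : ¬ q ∣ M) (hqN : q.Coprime N) (lam : heckeLocal L S O θ →ₐ[O] O')
      (η : (ZMod N)ˣ →* O'ˣ) (x : H1 (gam N M hN) (psiRep (η ^ 2) O')), (∃ k, η ^ p ^ k = 1) →
      IsPt hN hS η (fun i => lam (heckeLocal.π L S O θ (TIdx L S hSL i))) x → ∀ μ : O',
      (tFam hN hq hqM).opH (psiRep (η ^ 2) O') x =
        (((η (ZMod.unitOfCoprime q hqN) : O'ˣ) : O') * μ) • x → lam (π τ) = μ) ∧
    (∀ [NeZero q] {N M : ℕ} [NeZero M] (hN : N ∣ M) (hS : Away (M * q) S)
      (_ : Squarefree (M * q)) (hq : q.Prime) (_ : ¬ q ∣ M)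
      (lam : heckeLocal L S O θ →ₐ[O] O') (η : (ZMod N)ˣ →* O'ˣ)
      (x : H1 (gam N (M * q) (hN.mul_right q)) (psiRep (η ^ 2) O')), (∃ k, η ^ p ^ k = 1) →
      IsPt (hN.mul_right q) hS η
        (fun i => lam (heckeLocal.π L S O θ (TIdx L S hSL i))) x →
      (trFam hN).opH (psiRep (η ^ 2) O') x = 0 →
      (nuFam hN hq).opH (psiRep (η ^ 2) O') x = 0 →
      lam (π (t * (t + algebraMap O R c))) = 0) :=
  ⟨fun hN hS hsq => h.nr O' hinj hN hS hsq, fun hN hS hsq => h.un O' hinj hN hS hsq, h.tr,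
    fun hN hS hsq => h.frob O' hinj hN hS hsq, fun hN hS hsq => h.new O' hinj hN hS hsq⟩

/-- **The local facts at a raising prime `q ≠ p`** (modules `H79PtB`, `H79PtFa`). `E` is a Galois
side, `π : R → 𝕋` a surjection to a localised Hecke algebra which carries the universal representation to the
representation over `𝕋`. The five facts hold for the marks `t, y, z` of `E` at `q = qB i`, the constant
`c = u (q + 1)` and `τ` = trace of Frobenius at `q`. (nr) at levels prime to `q` the point is unramified, so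
`y = z = 0`; (un) at levels divisible once by `q` it is unipotent at `q`; (new) it is Steinberg at `q`. -/
theorem markFacts_at_q {O : Type} [CommRing O] [IsDomain O] [IsDiscreteValuationRing O]
    [IsAdicComplete (maximalIdeal O) O] [Finite (ResidueField O)] [CharZero O]
    {p : ℕ} [Fact p.Prime] {rhobar : ResidualGaloisRep (ResidueField O)}
    {b : Module.Basis (Fin 2) (ResidueField O) rhobar.V} {pd : PData p rhobar b} {A : Finset ℕ}
    {T B : Type} [Fintype T] [Fintype B] {qT : T → ℕ} {pl : ∀ t, PlaceData p (qT t)} {u : T → O}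
    {qB : B → ℕ} {plB : ∀ i, PlaceData p (qB i)} {uB : B → O} {k n : ℕ} {S₀ : Finset ℕ}
    (E : GalLevelB p rhobar b pd A qT pl u qB plB uB k n S₀)
    {L : ℕ} [NeZero L] {S : Finset ℕ} (hpS : p ∈ S) (hLS : ∀ q : ℕ, q.Prime → q ∣ L → q ∈ S)
    {θ : heckeAlgebra L 2 (↑S : Set ℕ) →+* ResidueField O}
    (π : E.D.R →ₐ[O] heckeLocal L (↑S : Set ℕ) O θ) (hπ : Function.Surjective π)
    {H : HeckeGaloisRepDatum L (↑S : Set ℕ) O θ (heckeLocal L (↑S : Set ℕ) O θ)}
    (hH : H.π = heckeLocal.π L (↑S : Set ℕ) O θ)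
    (b₂ : Module.Basis (Fin 2) (heckeLocal L (↑S : Set ℕ) O θ) H.ρ.V)
    (hb₂ : toMat H.ρ.ρ b₂ =
      mapMat (π : E.D.R →+* heckeLocal L (↑S : Set ℕ) O θ) (toMat E.D.ρ.ρ E.b₁))
    (hp2 : p ≠ 2) (i : B) (hqB : (qB i).Prime) (hqp : qB i ≠ p) :
    MarkFacts p hLS π (qB i) (E.mB (Sum.inl i) 0) (E.mB (Sum.inl i) 1)
      (E.mB (Sum.inl i) 2) (uB i * ((qB i : O) + 1))
      (E.r (plB i).φ 0 0 + E.r (plB i).φ 1 1) :=
  H79.PtB.markFacts E hpS hLS π hπ hH b₂ hb₂ hp2 (H4.geomInputs Fact.out) i hqB hqp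

/-- **The local facts hold at `p`** (modules `H75R1` - `H75R6`). Let `E` be a Galois side of a level of
ordinary type with marks `t, y` at `p` (and `z = 0`), `π : R → 𝕋` a surjection to a localised Hecke algebra
which carries the universal representation to the representation over `𝕋`. Then the five facts hold for
`q = p`, every unit `c` (here `t + c` is a unit, so the relations are `y t = 0`, `z = 0`) and
`τ = (w + t) + p (w + t)⁻¹` (`tauR p (w + t)`), `w + t` = eigenvalue of Frobenius on the unramified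
quotient: at points of level prime to `p` the representation is flat, so `y = 0`, and the eigenvalue of
`η(p)⁻¹ T_p` is `τ`; at `p`-new points `(w + t)² = 1`, so `t = 0`; and `(p + 1)² - τ²` is `t` times a unit.
(The facts about points one by one: `GuideUnitRoot`, section 6.) -/
theorem markFacts_at_p {O : Type} [CommRing O] [IsDomain O] [IsDiscreteValuationRing O]
    [IsAdicComplete (maximalIdeal O) O] [Finite (ResidueField O)] [CharZero O] {p : ℕ} [Fact p.Prime]
    (hp2 : p ≠ 2) {ρbar : ResidualGaloisRep (ResidueField O)}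
    {b : Module.Basis (Fin 2) (ResidueField O) ρbar.V}
    (hdet : (GaloisRepAdic.ofResidualGaloisRep ρbar).DetIsCyclotomic p)
    (hord : (GaloisRepAdic.ofResidualGaloisRep ρbar).IsOrdinaryAt p)
    {φ σ₀ : AlgebraicClosure ℚ ≃ₐ[ℚ] AlgebraicClosure ℚ} (hm : H75P.MarkElts p φ σ₀)
    (hr0 : toMat ρbar.ρ b σ₀ = 1) (w : ℤ) (hw : w ^ 2 = 1) {g₀ : (M2 (ResidueField O))ˣ}
    (hg₀ : H75P.OrdI p (H75P.cj g₀ (toMat ρbar.ρ b)))
    (hu : H75P.cj g₀ (toMat ρbar.ρ b) φ 1 1 = (w : ResidueField O)) {A : Finset ℕ}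
    {T B : Type} [Fintype T] [Fintype B] {qT : T → ℕ} {pl : ∀ t, PlaceData p (qT t)} {u : T → O}
    {qB : B → ℕ} {plB : ∀ i, PlaceData p (qB i)} {uB : B → O} {k n : ℕ} {S₀ : Finset ℕ}
    (E : GalLevelB p ρbar b (PData.ord hp2 ρbar b hdet hord hm hr0 w hw hg₀ hu) A qT pl u qB plB
      uB k n S₀)
    {L : ℕ} [NeZero L] {S : Finset ℕ} (hpS : p ∈ S) (hLS : ∀ q : ℕ, q.Prime → q ∣ L → q ∈ S)
    {θ : heckeAlgebra L 2 (↑S : Set ℕ) →+* ResidueField O}
    (π : E.D.R →ₐ[O] heckeLocal L (↑S : Set ℕ) O θ) (hπ : Function.Surjective π)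
    {H : HeckeGaloisRepDatum L (↑S : Set ℕ) O θ (heckeLocal L (↑S : Set ℕ) O θ)}
    (hH : H.π = heckeLocal.π L (↑S : Set ℕ) O θ)
    (b₂ : Module.Basis (Fin 2) (heckeLocal L (↑S : Set ℕ) O θ) H.ρ.V)
    (hb₂ : toMat H.ρ.ρ b₂ =
      mapMat (π : E.D.R →+* heckeLocal L (↑S : Set ℕ) O θ) (toMat E.D.ρ.ρ E.b₁))
    {c : O} (hc : IsUnit c) :
    MarkFacts p hLS π p (E.mB (Sum.inr ()) 0) (E.mB (Sum.inr ()) 1) (E.mB (Sum.inr ()) 2) c
      (H75R.tauR p ((w : E.D.R) + E.mB (Sum.inr ()) 0)) :=
  H75R.markFacts_p' hp2 hdet hord hm hr0 w hw hg₀ hu E hpS hLS π hπ hH b₂ hb₂ rfl hc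

/-- **The local facts at a scalar prime `q ∈ T` and at a Taylor-Wiles prime** (`TFacts`, `TWFacts`, module
`H86InFa`), consequences: for every point of a squarefree level `M` with character of `p`-power order of
`(ℤ/N)ˣ`: if `q ∣ N` and `η` is non-trivial at `q`, then `a = 0` (`a` is the product of `tr r(σ) - (ζ + ζ⁻¹)`
over the non-trivial `ζ`); if `q ∣ M`, `q ∤ N`, then `b = 0` (`b = tr r(σ) - 2`, `σ` a tame generator). At a
Taylor-Wiles prime `q ∣ N` the character `η` is trivial at `q` if and only if `1 + c` is `1` at the point. -/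
theorem tFacts_fields {O : Type} [CommRing O] [IsDomain O] [IsDiscreteValuationRing O]
    [IsAdicComplete (maximalIdeal O) O] [Finite (ResidueField O)] [CharZero O]
    {p : ℕ} {R : Type} [CommRing R] [Algebra O R] {L : ℕ} [NeZero L] {S : Set ℕ}
    {hSL : ∀ q : ℕ, q.Prime → q ∣ L → q ∈ S}
    {θ : heckeAlgebra L 2 S →+* ResidueField O} {π : R →ₐ[O] heckeLocal L S O θ}
    {q : ℕ} {a b : R} (h : TFacts p hSL π q a b) {q' : ℕ} {c : R} (h' : TWFacts p hSL π q' c)
    (O' : Type) [CommRing O'] [IsDomain O'] [IsDiscreteValuationRing O']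
    [IsAdicComplete (maximalIdeal O') O'] [Finite (ResidueField O')] [CharZero O']
    [Algebra O O'] [Module.Finite O O'] [IsLocalHom (algebraMap O O')]
    (hinj : Function.Injective (algebraMap O O'))
    {N M : ℕ} (hN : N ∣ M) (hS : Away M S) (hsq : Squarefree M)
    (lam : heckeLocal L S O θ →ₐ[O] O') (η : (ZMod N)ˣ →* O'ˣ)
    (x : H1 (gam N M hN) (psiRep (η ^ 2) O')) (hη : ∃ k, η ^ p ^ k = 1)
    (hx : IsPt hN hS η (fun i => lam (heckeLocal.π L S O θ (TIdx L S hSL i))) x) :
    (q ∣ N → ¬ TrivAt N q η → lam (π a) = 0) ∧ (q ∣ M → ¬ q ∣ N → lam (π b) = 0) ∧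
      (q' ∣ N → (TrivAt N q' η ↔ lam (π (1 + c)) = 1)) :=
  ⟨h.prod O' hinj hN hS hsq lam η x hη hx, h.uni O' hinj hN hS hsq lam η x hη hx,
    h' O' hinj hN hS hsq lam η x hη hx⟩

/-- **These facts hold** for a scalar prime `q = qT t ≡ 1` modulo `p` at which `rhobar` is unramified, with
`a = ∏ (tr r(σ) - (ζ + ζ⁻¹))` over the `ζ ≠ 1` of order dividing the `p`-part of `q - 1`, and for the
Taylor-Wiles primes `E.qv j` with the diamond parameters `E.c j`. `O` is supposed to contain the needed roots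
of unity (`ha`, `hζ`). (Module `H79PtFa`; `ntRoots O p a` are the
`ζ ∈ Oˣ`, `ζ ≠ 1`, `ζ^(p^a) = 1`.) -/
theorem tFacts_at_level {O : Type} [CommRing O] [IsDomain O] [IsDiscreteValuationRing O]
    [IsAdicComplete (maximalIdeal O) O] [Finite (ResidueField O)] [CharZero O]
    {p : ℕ} [Fact p.Prime] {rhobar : ResidualGaloisRep (ResidueField O)}
    {b : Module.Basis (Fin 2) (ResidueField O) rhobar.V} {pd : PData p rhobar b} {A : Finset ℕ}
    {T B : Type} [Fintype T] [Fintype B] {qT : T → ℕ} {pl : ∀ t, PlaceData p (qT t)} {u : T → O}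
    {qB : B → ℕ} {plB : ∀ i, PlaceData p (qB i)} {uB : B → O} {k n : ℕ} {S₀ : Finset ℕ}
    (E : GalLevelB p rhobar b pd A qT pl u qB plB uB k n S₀)
    {L : ℕ} [NeZero L] {S : Finset ℕ} (hpS : p ∈ S) (hLS : ∀ q : ℕ, q.Prime → q ∣ L → q ∈ S)
    {θ : heckeAlgebra L 2 (↑S : Set ℕ) →+* ResidueField O}
    (π : E.D.R →ₐ[O] heckeLocal L (↑S : Set ℕ) O θ) (hπ : Function.Surjective π)
    {H : HeckeGaloisRepDatum L (↑S : Set ℕ) O θ (heckeLocal L (↑S : Set ℕ) O θ)}
    (hH : H.π = heckeLocal.π L (↑S : Set ℕ) O θ)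
    (b₂ : Module.Basis (Fin 2) (heckeLocal L (↑S : Set ℕ) O θ) H.ρ.V)
    (hb₂ : toMat H.ρ.ρ b₂ =
      mapMat (π : E.D.R →+* heckeLocal L (↑S : Set ℕ) O θ) (toMat E.D.ρ.ρ E.b₁))
    (hp2 : p ≠ 2) {t : T} (hqT : (qT t).Prime) (hdvd : p ∣ qT t - 1)
    (hunr : rhobar.IsUnramifiedAt (qT t)) {a : ℕ} {ζ : O} (ha : padicValNat p (qT t - 1) ≤ a)
    (hζ : IsPrimitiveRoot ζ (p ^ a)) :
    TFacts p hLS π (qT t)
      (∏ z ∈ H55.ntRoots O p (padicValNat p (qT t - 1)),
        (E.r (pl t).σ 0 0 + E.r (pl t).σ 1 1 - algebraMap O E.D.R ((z : O) + (z⁻¹ : Oˣ))))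
      (E.r (pl t).σ 0 0 + E.r (pl t).σ 1 1 - 2) ∧
    ∀ j, TWFacts p hLS π (E.qv j) (E.c j) :=
  ⟨H79.PtB.tFacts' E hpS hLS π hπ hH b₂ hb₂ hp2 (H4.geomInputs Fact.out) hqT hdvd hunr ha hζ,
    H79.PtB.twFacts E hpS hLS π hπ hH b₂ hb₂ hp2 (H4.geomInputs Fact.out)⟩

/-! ### 3. The Hecke side and the hypotheses at `p` -/

section AtP

open Fermat.Agent.H59 (Tset CoeffChoice)
open Fermat.Agent.H87.Glue (resZ)
open Fermat.Agent.H87.S58 (tO)
open Fermat.Agent.H73LT (nodeSign)
open Fermat.Agent.H69.Red (Partition baseLevel)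
open Fermat.Agent.H21M (lvl)
open ExtCitation
open Fermat.Agent.H57.Full (FullLevel)
open Fermat.Agent.H86.In (bq cq bfun)

attribute [local instance] H57.NM.RPart.instCommRing H57.NM.RPart.instLocal
  H57.NM.RPart.instAlgebra
attribute [local instance] FullLevel.instAddCommGroup FullLevel.instModule

/-- *The Hecke side of a level* (`H86.In.HSide`, written out). `D` is a universal deformation ring
over `O` with universal representation `D.ρ` and a basis `b₁`; `heckeLocal L S O θ` is the
completion at `θ` of the Hecke algebra of weight 2 and level `L` generated by the `T_ℓ`, `ℓ ∉ S`.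
The homomorphism `π : R → 𝕋` is surjective and carries the universal representation to the
representation `H.ρ` over the Hecke ring. -/
theorem heckeSide_iff {O : Type} [CommRing O] [IsDomain O] [IsDiscreteValuationRing O]
    [IsAdicComplete (maximalIdeal O) O] (p : ℕ) {ρbar : ResidualGaloisRep (ResidueField O)}
    {𝒟 : ∀ ⦃A : Type⦄ [CommRing A] [IsLocalRing A] [Algebra O A], GaloisRepAdic A → Prop}
    (D : DeformationRingData O ρbar 𝒟) (b₁ : Module.Basis (Fin 2) D.R D.ρ.V)
    {L : ℕ} [NeZero L] {S : Finset ℕ} {θ : heckeAlgebra L 2 (↑S : Set ℕ) →+* ResidueField O}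
    (π : D.R →ₐ[O] heckeLocal L (↑S : Set ℕ) O θ) :
    HSide p D b₁ π ↔ p ∈ S ∧ (∀ q : ℕ, q.Prime → q ∣ L → q ∈ (↑S : Set ℕ)) ∧
      Function.Surjective π ∧
      ∃ (H : HeckeGaloisRepDatum L (↑S : Set ℕ) O θ (heckeLocal L (↑S : Set ℕ) O θ))
        (b₂ : Module.Basis (Fin 2) (heckeLocal L (↑S : Set ℕ) O θ) H.ρ.V),
        H.π = heckeLocal.π L (↑S : Set ℕ) O θ ∧
          toMat H.ρ.ρ b₂ = mapMat (π : D.R →+* heckeLocal L (↑S : Set ℕ) O θ) (toMat D.ρ.ρ b₁) :=
  ⟨fun h => ⟨h.hpS, h.hLS, h.surj, h.datum⟩, fun h => ⟨h.1, h.2.1, h.2.2.1, h.2.2.2⟩⟩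

/-- *The residual representation of the Tate module.* `tO W` is the `p`-adic Tate module of `W` with
coefficients extended to the coefficient ring `O`; its residual representation is `W[p]` (written
`resZ W hΔ p`) with coefficients extended to the residue field of `O`. (`H85InA1`.) -/
theorem residual_of_tate_module {W : WeierstrassCurve ℤ} (hΔ : W.Δ ≠ 0) {p : ℕ} [Fact p.Prime]
    {O : Type} [CommRing O] [IsDomain O] [IsDiscreteValuationRing O]
    [IsAdicComplete (maximalIdeal O) O] [Finite (ResidueField O)] [CharZero O]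
    [Algebra (ZMod p) (ResidueField O)] (hpO : (p : O) ∈ maximalIdeal O) :
    (tO W hΔ hpO).residual.IsEquiv ((resZ W hΔ p).baseChange (ResidueField O)) :=
  H85.InA.residual_tO_baseChange hΔ hpO

/-- *Multiplicative reduction at `p` is strictly ordinary.* If the semistable model `W` has bad
reduction at `p`, then `W[p]` (over the residue field of `O`) is strictly ordinary at `p`: at every
place above `p` there is a line, invariant under the decomposition group, such that inertia acts
trivially on the quotient and the character on the line is the character on the quotient times the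
cyclotomic character. (`H85InA1`; `GaloisRepAdic.IsStrictOrdinaryAt` is a definition of the frozen
statements.) -/
theorem residual_strictly_ordinary {W : WeierstrassCurve ℤ} (hΔ : W.Δ ≠ 0) {p : ℕ} [Fact p.Prime]
    {O : Type} [CommRing O] [IsDomain O] [IsDiscreteValuationRing O]
    [IsAdicComplete (maximalIdeal O) O] [Finite (ResidueField O)] [CharZero O]
    [Algebra (ZMod p) (ResidueField O)] (hpO : (p : O) ∈ maximalIdeal O)
    (hss : W.IsSemistableModel) (hbad : (p : ℤ) ∣ W.Δ) :
    (GaloisRepAdic.ofResidualGaloisRep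
      ((resZ W hΔ p).baseChange (ResidueField O))).IsStrictOrdinaryAt p :=
  H85.InA.residual_isStrictOrdinaryAt hΔ hpO hss hbad

/-- **The mark elements in type `Pα`.** Let `p` be odd, let the semistable model `W` have bad
reduction at `p`, and let `W[p]` be irreducible and residually modular of a level `M` prime to `p`.
Then there are a Frobenius element `φ` at the distinguished place above `p` and an element `σ₀` of
its inertia group (the mark elements, `H75P.MarkElts`) such that `σ₀` acts trivially on `W[p]`, and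
in a suitable basis of `W[p]` the decomposition group is upper triangular, inertia acts trivially on
the quotient, and `φ` acts on the quotient by a sign `w`. (`H85InA1`. The point is `ρ(σ₀) = 1`: a
representation which is modular of level prime to `p` is flat at `p`; basis and sign:
`residual_ordinary_basis` of `GuideHeckeRings`.) -/
theorem exists_marks_at_p {W : WeierstrassCurve ℤ} (hΔ : W.Δ ≠ 0) {p : ℕ} [Fact p.Prime]
    (hp2 : p ≠ 2) {O : Type} [CommRing O] [IsDomain O] [IsDiscreteValuationRing O]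
    [IsAdicComplete (maximalIdeal O) O] [Finite (ResidueField O)] [CharZero O]
    [Algebra (ZMod p) (ResidueField O)] (hpO : (p : O) ∈ maximalIdeal O)
    (hss : W.IsSemistableModel) (hirr : (resZ W hΔ p).IsIrreducible) (hbad : (p : ℤ) ∣ W.Δ)
    {M : ℕ} (hM : 0 < M) (hpM : ¬ p ∣ M) (hmod : W.IsResiduallyModularOfLevel p M)
    (b : Module.Basis (Fin 2) (ResidueField O)
      ((resZ W hΔ p).baseChange (ResidueField O)).V) :
    ∃ φ σ₀ : GQ, H75P.MarkElts p φ σ₀ ∧
      toMat ((resZ W hΔ p).baseChange (ResidueField O)).ρ b σ₀ = 1 ∧ ∃ w : ℤ, w ^ 2 = 1 ∧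
      ∃ g₀ : (M2 (ResidueField O))ˣ,
        (∀ σ ∈ (padicPlace p).decompositionSubgroup ℚ, ((↑g₀⁻¹ : M2 (ResidueField O)) *
          toMat ((resZ W hΔ p).baseChange (ResidueField O)).ρ b σ * g₀) 1 0 = 0) ∧
        (∀ σ ∈ (padicPlace p).inertiaSubgroupIn ℚ, ((↑g₀⁻¹ : M2 (ResidueField O)) *
          toMat ((resZ W hΔ p).baseChange (ResidueField O)).ρ b σ * g₀) 1 1 = 1) ∧
        ((↑g₀⁻¹ : M2 (ResidueField O)) *
          toMat ((resZ W hΔ p).baseChange (ResidueField O)).ρ b φ * g₀) 1 1 =
            (w : ResidueField O) := by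
  obtain ⟨φ, σ₀, hm, h1, w, hw, g₀, hg, hu⟩ :=
    H85.InA.exists_ordData_alpha hΔ hpO hss hp2 S30.result S32.result hirr hbad hM hpM hmod b
  exact ⟨φ, σ₀, hm, h1, w, hw, g₀, hg.1, hg.2, hu⟩

/-- **What has to be known at `p`** (`H86.In.PHyp`, written out). `pd` is a local condition at `p`
with marks `t, y, z` (the elements `G.mB (Sum.inr j) i`, `i = 0, 1, 2`, of the deformation ring),
one triple for each `j : pd.ε` (at most one in the applications), and `inc` is the proposition "`p`
divides the level". (1) The Tate module of the curve satisfies the condition. (2) The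
representations over the Hecke rings of level `L` (`p² ∤ L`, and `p ∣ L` iff `inc`) satisfy it. (3)
The marks have the properties `MarkFacts` over the Hecke rings (needed for raising the level at
`p`). (4) At the point of the deformation ring given by the curve the marks `t` and `z` vanish. -/
theorem hypotheses_at_p_iff {W : WeierstrassCurve ℤ} (hΔ : W.Δ ≠ 0) {p : ℕ} [Fact p.Prime]
    {O : Type} [CommRing O] [IsDomain O] [IsDiscreteValuationRing O]
    [IsAdicComplete (maximalIdeal O) O] [CharZero O] [Finite (ResidueField O)]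
    [Algebra (ZMod p) (ResidueField O)] (hpO : (p : O) ∈ maximalIdeal O)
    {b : Module.Basis (Fin 2) (ResidueField O) ((resZ W hΔ p).baseChange (ResidueField O)).V}
    (pd : PData p ((resZ W hΔ p).baseChange (ResidueField O)) b) (A : Finset ℕ) {T B : Finset ℕ}
    (pl : ∀ t : Tset T, PlaceData p t.1) (u : Tset T → O) (plB : ∀ i : Tset B, PlaceData p i.1)
    (inc : Prop) :
    PHyp hΔ hpO pd A pl u plB inc ↔
      pd.𝒟p (tO W hΔ hpO) ∧
      (∀ {L : ℕ} [NeZero L] {S : Finset ℕ}, p ∈ S → (∀ q : ℕ, q.Prime → q ∣ L → q ∈ S) →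
        ¬ p ^ 2 ∣ L → (p ∣ L ↔ inc) → ∀ {θ : heckeAlgebra L 2 (↑S : Set ℕ) →+* ResidueField O}
        (H : HeckeGaloisRepDatum L (↑S : Set ℕ) O θ (heckeLocal L (↑S : Set ℕ) O θ)),
        H.ρ.residual.IsEquiv (((resZ W hΔ p).baseChange (ResidueField O)).baseChangeAlong
          (ResidueField.map (algebraMap O (heckeLocal L (↑S : Set ℕ) O θ)))) → pd.𝒟p H.ρ) ∧
      (∀ {k n : ℕ} {S₀ : Finset ℕ} (G : GLev hΔ pd A pl u plB k n S₀) {L : ℕ} [NeZero L]
        {S : Finset ℕ} {θ : heckeAlgebra L 2 (↑S : Set ℕ) →+* ResidueField O}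
        (π : G.D.R →ₐ[O] heckeLocal L (↑S : Set ℕ) O θ) (hs : HSide p G.D G.b₁ π) (j : pd.ε),
        ∃ τ : G.D.R, MarkFacts p hs.hLS π p (G.mB (Sum.inr j) 0) (G.mB (Sum.inr j) 1)
          (G.mB (Sum.inr j) 2) (1 : O) τ) ∧
      (∀ {k n : ℕ} {S₀ : Finset ℕ} (G : GLev hΔ pd A pl u plB k n S₀) (f : G.D.R →ₐ[O] O)
        (_ : IsLocalHom (f : G.D.R →+* O)) (b' : Module.Basis (Fin 2) O (tO W hΔ hpO).V),
        toMat (tO W hΔ hpO).ρ b' = mapMat (f : G.D.R →+* O) G.r →
        ∀ j : pd.ε, f (G.mB (Sum.inr j) 0) = 0 ∧ f (G.mB (Sum.inr j) 2) = 0) :=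
  ⟨fun h => ⟨h.𝒟tO, h.𝒟H, h.marks, h.pt⟩, fun h => ⟨h.1, h.2.1, h.2.2.1, h.2.2.2⟩⟩

/-- **The hypotheses at `p` for the ordinary type with marks** (types `Pα` and `Pβ`). Let `p` be odd
and let the semistable model `W` have bad reduction at `p`. For the local condition "ordinary at
`p`, with marks at `φ, σ₀`" (`PData.ord`), where `φ, σ₀` are mark elements with `ρ(σ₀) = 1` and `w = ± 1` is
the value of the unramified quotient at `φ`, the four hypotheses hold. (`H85InA2`; from S32: the Hecke
representation is flat at `p` if the level is prime to `p`, and S33: it is ordinary at `p` if the level is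
exactly divisible by `p` and the residual representation is ordinary.) -/
theorem hypotheses_at_p_ordinary {W : WeierstrassCurve ℤ} (hΔ : W.Δ ≠ 0) {p : ℕ} [Fact p.Prime]
    {O : Type} [CommRing O] [IsDomain O] [IsDiscreteValuationRing O]
    [IsAdicComplete (maximalIdeal O) O] [CharZero O] [Finite (ResidueField O)]
    [Algebra (ZMod p) (ResidueField O)] (hpO : (p : O) ∈ maximalIdeal O)
    {b : Module.Basis (Fin 2) (ResidueField O) ((resZ W hΔ p).baseChange (ResidueField O)).V}
    (A : Finset ℕ) {T B : Finset ℕ} (pl : ∀ t : Tset T, PlaceData p t.1) (u : Tset T → O)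
    (plB : ∀ i : Tset B, PlaceData p i.1) (hp2 : p ≠ 2)
    (hdet : (GaloisRepAdic.ofResidualGaloisRep
      ((resZ W hΔ p).baseChange (ResidueField O))).DetIsCyclotomic p)
    (hord : (GaloisRepAdic.ofResidualGaloisRep
      ((resZ W hΔ p).baseChange (ResidueField O))).IsOrdinaryAt p)
    {φ σ₀ : GQ} (hm : H75P.MarkElts p φ σ₀)
    (hr0 : toMat ((resZ W hΔ p).baseChange (ResidueField O)).ρ b σ₀ = 1) (w : ℤ) (hw : w ^ 2 = 1)
    {g₀ : (M2 (ResidueField O))ˣ}
    (hg₀ : H75P.OrdI p (H75P.cj g₀ (toMat ((resZ W hΔ p).baseChange (ResidueField O)).ρ b)))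
    (hu : H75P.cj g₀ (toMat ((resZ W hΔ p).baseChange (ResidueField O)).ρ b) φ 1 1 =
      (w : ResidueField O))
    (hss : W.IsSemistableModel) (hbad : (p : ℤ) ∣ W.Δ) (inc : Prop) :
    PHyp hΔ hpO (PData.ord hp2 ((resZ W hΔ p).baseChange (ResidueField O)) b hdet hord hm hr0 w
      hw hg₀ hu) A pl u plB inc :=
  H85.InA.pHyp_ord hΔ hpO A pl u plB hp2 hdet hord hm hr0 w hw hg₀ hu S32.result S33.result hss
    hbad inc

/-! ### 4. New points and type `Pβ` -/

/-- **Points are `q`-new if the residual eigensystem does not occur at lower level.** Let `x` be a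
class of level `M q` (`q ∤ M` prime) which realises a point `lam` of the local Hecke algebra of
level `L`, residually non-Eisenstein (`hi₀`: `θ(T_ℓ) ≠ 1 + ℓ` for one prime `ℓ`; `η` has `p`-power
order), and suppose that the residual eigensystem `θ` does NOT occur in the cohomology of level `M`
(`h0`: the local summand has rank zero). Then both traces `H¹(Γ₀(Mq)) → H¹(Γ₀(M))` kill `x`:
`trFam` (the transfer) and `nuFam` (the double coset operator of `diag(1, q)`, the adjoint of `V_q`). Idea: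
the traces commute with the operators, the local idempotent `e` fixes `x`, and the local summand of level `M`
with the twisted coefficients is zero because its reduction is the same as for trivial coefficients. This is
used in type `Pβ` with `q = p` (`beta_kills`). In the raising steps nothing like this is needed: there the
common kernel of the two traces is used directly (`raising_step` of `GuideLiftingHecke`). File `H73PNew`. -/
theorem traces_eq_zero_of_vanish {O : Type} [CommRing O] [IsDomain O] [IsDiscreteValuationRing O]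
    [IsAdicComplete (maximalIdeal O) O] [Finite (ResidueField O)] [CharZero O]
    {L : ℕ} [NeZero L] {S : Set ℕ} (hSL : ∀ q : ℕ, q.Prime → q ∣ L → q ∈ S)
    {θ : heckeAlgebra L 2 S →+* ResidueField O}
    {O' : Type} [CommRing O'] [IsDomain O'] [IsLocalRing O'] [Algebra O O'] [Module.Finite O O']
    {p : ℕ} (hp : p.Prime) (hpO' : (p : O') ∈ maximalIdeal O')
    {N M q : ℕ} [NeZero M] [NeZero q] [NeZero (M * q)] (hM : N ∣ M) (hS : Away (M * q) S)
    (hq : q.Prime) (hqM : ¬ q ∣ M)
    (hgO : Good M O) (hgO' : Good M O') (hgO'q : Good (M * q) O')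
    (i₀ : Idx S) (hi₀ : θ (TIdx L S hSL i₀) ≠ 1 + (i₀.1 : ResidueField O))
    (h0 : ∀ e : MvPolynomial (Idx S) O,
      IsLocIdem (TT O hS.left) (TT_comm hS.left) (thetaPoly L S hSL O θ) e →
        Module.finrank O (Loc (TT O hS.left) (TT_comm hS.left) e) = 0)
    {η : (ZMod N)ˣ →* O'ˣ} {k : ℕ} (hη : η ^ p ^ k = 1)
    (lam : heckeLocal L S O θ →ₐ[O] O')
    {x : H1 (gam N (M * q) (hM.mul_right q)) (psiRep (η ^ 2) O')}
    (hx : IsPt (hM.mul_right q) hS η
      (fun i => lam (heckeLocal.π L S O θ (TIdx L S hSL i))) x) :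
    (trFam hM).opH (psiRep (η ^ 2) O') x = 0 ∧ (nuFam hM hq).opH (psiRep (η ^ 2) O') x = 0 :=
  H73.PNew.traces_eq_zero_of_vanish hSL hp hpO' hM hS hq hqM hgO hgO' hgO'q i₀ hi₀ h0 hη lam hx

/-- `VanishAt M a` (module `H86InFa`), written out: the element `a` of the deformation ring vanishes at all
points of level `M` with characters of `p`-power order and of modulus prime to `p`. -/
theorem vanishAt_iff {O : Type} [CommRing O] [IsDomain O] [IsDiscreteValuationRing O]
    [IsAdicComplete (maximalIdeal O) O] [Finite (ResidueField O)] [CharZero O]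
    (p : ℕ) {R : Type} [CommRing R] [Algebra O R] {L : ℕ} [NeZero L] {S : Set ℕ}
    (hSL : ∀ q : ℕ, q.Prime → q ∣ L → q ∈ S)
    {θ : heckeAlgebra L 2 S →+* ResidueField O} (π : R →ₐ[O] heckeLocal L S O θ) (M : ℕ) (a : R) :
    VanishAt p hSL π M a ↔
      ∀ (O' : Type) [CommRing O'] [IsDomain O'] [IsDiscreteValuationRing O']
      [IsAdicComplete (maximalIdeal O') O'] [Finite (ResidueField O')] [CharZero O']
      [Algebra O O'] [Module.Finite O O'] [IsLocalHom (algebraMap O O')],
      Function.Injective (algebraMap O O') → ∀ {N : ℕ} (hN : N ∣ M) (_ : ¬ p ∣ N) (hS : Away M S)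
      (lam : heckeLocal L S O θ →ₐ[O] O') (η : (ZMod N)ˣ →* O'ˣ)
      (x : H1 (gam N M hN) (psiRep (η ^ 2) O')), (∃ k, η ^ p ^ k = 1) →
      IsPt hN hS η (fun i => lam (heckeLocal.π L S O θ (TIdx L S hSL i))) x → lam (π a) = 0 :=
  Iff.rfl

/-- **Type `Pβ`: the marks `t` and `z` at `p` kill all the modules** (modules `H35InB1`, `H35InB2`, `H35Rk`).
If `W[p]` is modular of no level `M ∏ B'`, `M` the base level (`baseLevel A T s`), `B' ⊆ B` (`hno`), then `t`
and `z` vanish at all points of the levels `M p ∏ B1 ∏ Q`, `B1 ⊆ B`, `Q` the Taylor-Wiles primes: the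
eigensystem does not occur at the levels prime to `p` (S29 and comparison of ranks), so the traces of the
classes vanish (`traces_eq_zero_of_vanish`), the points are new at `p` and have `t = 0`. -/
theorem beta_kills {W : WeierstrassCurve ℤ} {hΔ : W.Δ ≠ 0} {p : ℕ} [hp : Fact p.Prime]
    {O : Type} [CommRing O] [IsDomain O] [IsDiscreteValuationRing O]
    [IsAdicComplete (maximalIdeal O) O] [CharZero O] [Finite (ResidueField O)]
    [Algebra (ZMod p) (ResidueField O)]
    {b : Module.Basis (Fin 2) (ResidueField O) ((resZ W hΔ p).baseChange (ResidueField O)).V}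
    {A T B : Finset ℕ} {s : ℕ} (hpO : (p : O) ∈ maximalIdeal O) [CharP (ResidueField O) p]
    (hp2 : p ≠ 2)
    (hdet : (GaloisRepAdic.ofResidualGaloisRep
      ((resZ W hΔ p).baseChange (ResidueField O))).DetIsCyclotomic p)
    (hord : (GaloisRepAdic.ofResidualGaloisRep
      ((resZ W hΔ p).baseChange (ResidueField O))).IsOrdinaryAt p)
    {φ σ₀ : GQ} (hm : H75P.MarkElts p φ σ₀)
    (hr0 : toMat ((resZ W hΔ p).baseChange (ResidueField O)).ρ b σ₀ = 1) (w : ℤ) (hw : w ^ 2 = 1)
    {g₀ : (M2 (ResidueField O))ˣ}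
    (hg₀ : H75P.OrdI p (H75P.cj g₀ (toMat ((resZ W hΔ p).baseChange (ResidueField O)).ρ b)))
    (hu : H75P.cj g₀ (toMat ((resZ W hΔ p).baseChange (ResidueField O)).ρ b) φ 1 1 =
      (w : ResidueField O))
    (P : Partition W hΔ p A T B s) (hirr : W.ModRepIsIrreducible p)
    (hirrk : ((resZ W hΔ p).baseChange (ResidueField O)).IsIrreducible)
    (hno : ∀ B' ⊆ B, ¬ W.IsResiduallyModularOfLevel p (baseLevel A T s * ∏ q ∈ B', q))
    {pl : ∀ t : Tset T, PlaceData p t.1} {u : Tset T → O} {plB : ∀ i : Tset B, PlaceData p i.1}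
    {k n : ℕ} {S₀ : Finset ℕ}
    (G : GLev hΔ (PData.ord hp2 ((resZ W hΔ p).baseChange (ResidueField O)) b hdet hord hm hr0 w hw
      hg₀ hu) A pl u plB k n S₀)
    {L : ℕ} [NeZero L] {S : Finset ℕ}
    {θ : heckeAlgebra L 2 (↑S : Set ℕ) →+* ResidueField O}
    (π : G.D.R →ₐ[O] heckeLocal L (↑S : Set ℕ) O θ) (hs : HSide p G.D G.b₁ π)
    (hSW : ∀ ℓ : ℕ, ℓ.Prime → ℓ ∉ S → W.IsGoodPrimeFor ℓ)
    (hθ : ∀ i : H37.Rank.Pr (↑S : Set ℕ), θ (TIdx L (↑S : Set ℕ) hs.hLS i) =
      ((W.apOfModel i.1 : ℤ) : ResidueField O))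
    {B1 : Finset ℕ} (hB1 : B1 ⊆ B) :
    VanishAt p hs.hLS π (baseLevel A T s * p * (∏ q ∈ B1, q) * ∏ j, G.qv j)
        (G.mB (Sum.inr ()) 0) ∧
      VanishAt p hs.hLS π (baseLevel A T s * p * (∏ q ∈ B1, q) * ∏ j, G.qv j)
        (G.mB (Sum.inr ()) 2) :=
  H35.InB.hU_beta hpO S29.result hp2 hdet hord hm hr0 w hw hg₀ hu P hirr hirrk hno G π hs hSW hθ hB1

/-! ### 5. The levels -/

/-- The raising primes `bq p ε i`, the constants `cq O W ε i` and the levels of `inner_level`: the `i`-th
raising prime is `q ∈ B` or `p`, the constant is `u_q (q + 1)`, `u_q` the sign of the node of `W` at `q`,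
respectively `1`; `bfun` extends the family `bq` to all natural numbers; `lvl M₀ b i = M₀ b₀ ⋯ b_{i-1}`. -/
theorem raising_data (p : ℕ) (O : Type) [CommRing O] (W : WeierstrassCurve ℤ) {B : Finset ℕ} {E : Type}
    {s : ℕ} (ε : Fin s → Tset B ⊕ E) (M₀ : ℕ) (b : ℕ → ℕ) (k : ℕ) :
    (∀ i, bq p ε i = Sum.elim (fun q : Tset B => q.1) (fun _ => p) (ε i)) ∧
    (∀ i, cq O W ε i =
      Sum.elim (fun q : Tset B => (nodeSign W q.1 : O) * ((q.1 : O) + 1)) (fun _ => 1) (ε i)) ∧
    (∀ i : Fin s, bfun (bq p ε) i = bq p ε i) ∧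
    lvl M₀ b 0 = M₀ ∧ lvl M₀ b (k + 1) = lvl M₀ b k * b k :=
  ⟨fun _ => rfl, fun _ => rfl, fun i => H86.In.bfun_fin _ i, rfl, rfl⟩

/-- **A level: the Galois side is completed by the Hecke side** (module `H86In3`; the modules of the chain of
levels are constructed in `H21MChain`). `ε` numbers the raising primes (`B`, and `p` in type `Pα`), `δ = p` in
the types `O` and `Pβ`; `P₀` is the witness for the level `lvl … s` (`dichotomy`), with `P₀(a_ℓ(W)) ∉ (ϖ^m)`;
`G` is a Galois side whose Taylor-Wiles primes are outside of `S₁` and of the primes in `P₀`. `U` is a set of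
elements of the deformation ring which vanish at all points of the levels `lvl … i`, `i ≤ s`, over the base
level times `δ` and the Taylor-Wiles primes (`hU`). Then there is a
`FullLevel` over the power series ring which presents `G.D.R`, on whose modules `U` acts by zero; the marks
`t`, `z` at `p` vanish at its point. (S34 gives `R → 𝕋`: the Hecke representation has the required type at the
primes of the level; the geometric inputs `H4GeomIn` give the local facts at the points.) The steps are in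
`GuideLiftingSteps`, sections 1, 4, 7, 10 (modules `H21MLvl`, `H86In1`, `H21MPt`, `H21MUni`, `H86In2`,
`H10NE`), and `GuidePatchingSteps`, section 5 (`H69Cong`). -/
theorem inner_level {W : WeierstrassCurve ℤ} (hΔ : W.Δ ≠ 0) {p : ℕ} [hp : Fact p.Prime]
    {O : Type} [CommRing O] [IsDomain O] [IsDiscreteValuationRing O]
    [IsAdicComplete (maximalIdeal O) O] [CharZero O] [Finite (ResidueField O)]
    [CharP (ResidueField O) p] [Algebra (ZMod p) (ResidueField O)]
    (hp2 : p ≠ 2) (hW : W.IsSemistableModel) (hirrp : W.ModRepIsIrreducible p)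
    (hirr : ((resZ W hΔ p).baseChange (ResidueField O)).IsIrreducible)
    {A T B : Finset ℕ} {s' : ℕ} {ϖ : O} {a : ℕ} {ζ : O} (hO : CoeffChoice p T O ϖ a ζ)
    (P : Partition W hΔ p A T B s')
    {b : Module.Basis (Fin 2) (ResidueField O) ((resZ W hΔ p).baseChange (ResidueField O)).V}
    {pd : PData p ((resZ W hΔ p).baseChange (ResidueField O)) b}
    {pl : ∀ t : Tset T, PlaceData p t.1} {u : Tset T → O} {plB : ∀ i : Tset B, PlaceData p i.1}
    {inc : Prop} (ph : PHyp hΔ hO.mem pd A pl u plB inc)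
    {δ : ℕ} (hδ : δ = 1 ∨ δ = p) (hmod : W.IsResiduallyModularOfLevel p (baseLevel A T s' * δ))
    {s : ℕ} (ε : Fin s → Tset B ⊕ pd.ε) (hε : Function.Injective ε)
    (hsub : ∀ j j' : pd.ε, j = j') (hε1 : ∀ i j, ε i = Sum.inr j → δ = 1)
    (hinc : inc ↔ (δ = p ∨ ∃ i j, ε i = Sum.inr j))
    {S₁ : Finset ℕ} (hpS₁ : p ∈ S₁) [NeZero (lvl (baseLevel A T s' * δ) (bfun (bq p ε)) s)]
    (hNS₁ : ∀ q : ℕ, q.Prime → q ∣ lvl (baseLevel A T s' * δ) (bfun (bq p ε)) s →
      q ∈ (↑S₁ : Set ℕ))
    (hWS₁ : ∀ q : ℕ, q.Prime → (q : ℤ) ∣ W.Δ → q ∈ S₁)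
    (P₀ : MvPolynomial {ℓ : ℕ // ℓ.Prime ∧ ℓ ∉ (↑S₁ : Set ℕ)} ℤ)
    (hP₀ : evZ (lvl (baseLevel A T s' * δ) (bfun (bq p ε)) s) (↑S₁ : Set ℕ) hNS₁ P₀ = 0)
    {m : ℕ} (hm : ((MvPolynomial.aeval (fun i => W.apOfModel i.1) P₀ : ℤ) : O) ∉
      Ideal.span {ϖ ^ m})
    {k n : ℕ} (G : GLev hΔ pd A pl u plB k n (S₁ ∪ P₀.vars.image fun i => i.1))
    (U : Set G.D.R)
    (hU : ∀ {L : ℕ} [NeZero L] {S : Finset ℕ} {θ : heckeAlgebra L 2 (↑S : Set ℕ) →+* ResidueField O}
      (π : G.D.R →ₐ[O] heckeLocal L (↑S : Set ℕ) O θ) (hs : HSide p G.D G.b₁ π)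
      (_ : ∀ ℓ : ℕ, ℓ.Prime → ℓ ∉ S → W.IsGoodPrimeFor ℓ)
      (_ : ∀ i : Idx (↑S : Set ℕ), θ (TIdx L (↑S : Set ℕ) hs.hLS i) =
        ((W.apOfModel i.1 : ℤ) : ResidueField O)),
      ∀ a ∈ U, ∀ i, i ≤ s → VanishAt p hs.hLS π
        (lvl (baseLevel A T s' * δ * ∏ j, G.qv j) (bfun (bq p ε)) i) a) :
    ∃ FL : FullLevel O ϖ (∏ i, ((bq p ε i : O) + 1)) p
      (3 * Nat.card (Tset T) + Nat.card (Tset B ⊕ pd.ε) + k) n
      (H35.Rk.bnd O (3 * Nat.card (Tset T) + Nat.card (Tset B ⊕ pd.ε) + k)
        (lvl (baseLevel A T s' * δ) (bfun (bq p ε)) s)) m s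
      (MvPowerSeries (((Tset T × Fin 6) ⊕ ((Tset B ⊕ pd.ε) × Fin 3)) ⊕ Fin k) O)
      (fun t j => MvPowerSeries.X (Sum.inl (Sum.inl (t, j))))
      (fun i j => MvPowerSeries.X (Sum.inl (Sum.inr (ε i, j))))
      (fun t : Tset T => t.1) u (H59.Zset O p T) (cq O W ε),
      (∀ v, G.β v ∈ U → ∀ τ (x : FL.N τ), FL.β v • x = 0) ∧
      ∀ j : pd.ε, FL.pt (FL.β (MvPowerSeries.X (Sum.inl (Sum.inr (Sum.inr j, 0))))) = 0 ∧
        FL.pt (FL.β (MvPowerSeries.X (Sum.inl (Sum.inr (Sum.inr j, 2))))) = 0 :=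
  H86.In.inner_level hΔ hp2 hW hirrp hirr S34.result (H4.geomInputs Fact.out) hO P ph hδ hmod ε hε hsub
    hε1 hinc hpS₁ hNS₁ hWS₁ P₀ hP₀ hm G U hU

/-- **The inner statement from the hypotheses at `p`** (types `F`, `Pα`, `O`). `St` is the situation (`Setup`)
of S59: `p = 3, 5`, `W` semistable, `W[p]` irreducible, a partition (`A` bad and ramified in `W[p]`, `T`
scalar primes, `B` the remaining bad primes, all `≠ p`), and `W` not modular of exact conductor level. Let
`W[p]` be residually modular of level `(base level) * δ`, `δ = 1` or `p`, and let there be, for all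
coefficient rings and places, a local condition `pd` at `p` with at most one triple of marks, none if `δ = p`,
which satisfies `PHyp`; here `inc` is the statement "`p` divides the top level" (`δ = p` or `pd` has a mark).
Then the inner statement holds: every Galois level is completed by Hecke modules. (`H85InL`, from
`H85.InL.levels`; uses S34, S35 and the geometric inputs `H4GeomIn` for the local facts at the points.) -/
theorem inner_of_hypotheses_at_p {W : WeierstrassCurve ℤ} {hΔ : W.Δ ≠ 0} {p : ℕ} [Fact p.Prime]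
    {A T B : Finset ℕ} {s₁ : ℕ} (St : H57.S59.Setup W hΔ p A T B s₁) {δ : ℕ} (hδ : δ = 1 ∨ δ = p)
    (hmod : W.IsResiduallyModularOfLevel p (baseLevel A T s₁ * δ))
    (hP : ∀ (O : Type) [CommRing O] [IsDomain O] [IsDiscreteValuationRing O]
      [IsAdicComplete (maximalIdeal O) O] [CharZero O] [Finite (ResidueField O)]
      [CharP (ResidueField O) p] [Algebra (ZMod p) (ResidueField O)] (ϖ : O) (a : ℕ) (ζ : O)
      (hO : CoeffChoice p T O ϖ a ζ)
      (b : Module.Basis (Fin 2) (ResidueField O) ((resZ W hΔ p).baseChange (ResidueField O)).V)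
      (pl : ∀ t : Tset T, PlaceData p t.1)
      (_ : ∀ (t : Tset T) (ht : t.1.Prime), (pl t).P = primeLocalPlace ⟨t.1, ht⟩)
      (u : Tset T → O) (_ : ∀ t, u t ^ 2 = 1)
      (_ : ∀ t, toMat ((resZ W hΔ p).baseChange (ResidueField O)).ρ b (pl t).φ =
        residue O (u t) • (1 : M2 (ResidueField O)))
      (plB : ∀ i : Tset B, PlaceData p i.1)
      (_ : ∀ (i : Tset B) (hi : i.1.Prime), (plB i).P = primeLocalPlace ⟨i.1, hi⟩),
      ∃ (pd : PData p ((resZ W hΔ p).baseChange (ResidueField O)) b) (inc : Prop),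
        (∀ j j' : pd.ε, j = j') ∧ (∀ _ : pd.ε, δ = 1) ∧ (inc ↔ (δ = p ∨ Nonempty pd.ε)) ∧
          PHyp hΔ hO.mem pd A pl u plB inc) :
    H57.S59.InnerFull W hΔ p A T B (nodeSign W) :=
  H85.InL.innerFull_of S34.result S35.result
    (H4.geomInputs (Fact.out : p.Prime)) St hδ hmod hP

end AtP

end Fermat.Agent.Guide.LiftingComposition
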