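import Fermat.Agent.H57S59sq

/-!
# Reader's guide: modularity lifting (S59SQ). Part 2: the Galois side of the levels

This file lists the key theorems about deformation rings in the proof of `GuideLifting.squarefree_lifting`.
All theorems are used in the closures of S01, S03, S04, S06, S38, S45, S46, S50, S59 and S60.

**What is proved.** Fix coefficients `O`, a residual representation `rhobar` (in the application `W[p]` over
the residue field of `O`) and local data `pd` at `p`. For all large `k`, every depth `n` and every finite set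
`S` there is a *Galois side of a level* (structure `GalLevelB`, theorems `galois_side_raising` and
`galLevel_fields`): `3 #T + #(B ⊔ ε) + k` Taylor-Wiles primes `≡ 1` modulo `p ^ (n + 1)` outside `S`; the
universal deformation ring `R` for the lifts with cyclotomic determinant, the condition `pd` at `p`, unipotent
at `A` and at the raising primes `B`, unramified outside `p, A, T, B` and the Taylor-Wiles primes; and a
presentation of `R` as a quotient of the power series ring in `6 #T + 3 #(B ⊔ ε) + k` variables which puts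
the matrices of Frobenius and of tame inertia at `T`, and the three *marks* `t, y, z` at every raising prime
(and at `p`, if `pd` has a mark) in explicit coordinates.

**The marks.** At a raising prime `q` (non-scalar Frobenius of trace `± (q + 1)`): `t` measures the distance
of the trace of Frobenius from `± (q + 1)`, `y` and `z` the tame generator; the unramified points have
`y = z = 0`, the Steinberg points `t = z = 0` (Frobenius trace `u (q + 1)`) or `t = -u (q + 1)`, `y = 0`
(Frobenius trace `-u (q + 1)`, only for `q ≡ -1` modulo `p`). At `p`, in the types `Pα` and `Pβ`, the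
deformations are ordinary; `t` is the distance of the unramified quotient character at Frobenius from `± 1`,
`y` the upper right entry of the matrix of ONE explicit element `σ₀` of inertia; the flat points have `y = 0`,
the semistable points have `t = 0`, and `t y = 0` always. Up to units `(q + 1)² - T_q²` is `t (t ± (q + 1))`
at `q ≠ p`, and `(p + 1)² - T_p²` is `t` at `p`: this is the level raising element (`raising_step` of
`GuideLiftingHecke`; `tau_sq` of `GuideUnitRoot`). The map `R → 𝕋` to the Hecke ring is in `GuideHeckeRings`.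

**Method.** No relative tangent spaces and no framed deformations: generators of `R` are found by counting
cocycles of lifts to the dual numbers (`generators_by_counting_cocycles`), the count is the Wiles formula
with weights (`selmer_bound`; the Greenberg-Wiles inequality `GWIneq` is `greenberg_wiles` of
`GuideEulerChar`). Kisin's numerical coincidence `3 #T + ...` against `6 #T + ...` appears as `3 = 6 - 3`.

Order: (1) local conditions and types, (2) marks at the raising primes, (3) marks at `p`, (4) generators and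
Taylor-Wiles primes, (5) the Galois side of a level and its points. The steps behind sections 2 to 5 are in
`GuideGaloisPoints`, the local bounds in `GuideLocalBounds` and `GuideStrictOrdinary` (ordinary lifts, also
with a mark at `p`). References: NOTES.md Appendix A.11 [247] (helper53), [299] (helper75), [151] (helper23).
Authors of the files: helper53 (`H53*`), helper75 (`H75*`), helper23 (`H23FlatOrd`), helper65 (`H65InF`), with
helper54, 55, 56, 64, 7, 20 for the local bounds.
-/

set_option autoImplicit false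

open IsLocalRing GaloisRep Polynomial
open Fermat.Agent.H53 (M2 toMat mapMat MCont ofMatrix PlaceData TWSplit NonScalar Cong GalLevelB PData)
open Fermat.Agent.H56 (redM coc cob GWIneq StatementF StatementO LocalBound GoodLift DetCyc FinLev)

namespace Fermat.Agent.Guide.LiftingGalois

/-- The absolute Galois group of the rational numbers. -/
local notation "GQ" => (AlgebraicClosure ℚ ≃ₐ[ℚ] AlgebraicClosure ℚ)

/-! ### 1. Local conditions and types of deformations

`toMat ρ.ρ b : GQ →* M2 A` is the matrix form of a representation `ρ : GaloisRepAdic A` in the basis `b`,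
`mapMat f r` its image under a ring homomorphism `f`, `ofMatrix r h` the representation given by the
matrices `r` with continuity `h : MCont A r` (modulo every power of the maximal ideal `r` is trivial on an
open subgroup). `FinLev r`: `r` factors through a finite quotient; `DetCyc p r`, `DetC p r`: the determinant
is the cyclotomic character modulo `p`, respectively modulo all powers of `p`; `NonScalar`: not a scalar
matrix; `cob r X` is the coboundary `σ ↦ r(σ) X r(σ)⁻¹ - X`; `redM` the reduction of a matrix over the dual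
numbers, `algDual O` their structure of an `O`-algebra; `Dq q`, `Iq q`, `Dlev q` the decomposition group and
the inertia group at `q` and the open subgroups of `Dq q`; `PlaceData p q` a place above `q` with a
Frobenius element `φ` and a generator `σ` of tame inertia (`σD`: `σ` in the decomposition group). -/

/-- The local conditions of the Prelude, unfolded. Unipotent at `q`: characteristic polynomial `(X - 1)²` on
inertia. Ordinary at `p`: a line `L`, direct summand, stable under the decomposition group, with trivial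
action of inertia on the quotient. Strictly ordinary: moreover an element `σ` of the decomposition group acts
on `L` by `x` and on the quotient by `z` with `x = ε(σ) z`, `ε` the cyclotomic character (stated modulo
`p ^ n` through the action on roots of unity; `p` is required to be in the maximal ideal). -/
theorem local_conditions {A : Type} [CommRing A] [IsLocalRing A] (ρ : GaloisRepAdic A) (p q : ℕ) :
    (ρ.IsUnipotentOnInertiaAt q ↔ ∀ P : ValuationSubring (AlgebraicClosure ℚ), P.LiesOverPrime q →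
      ∀ σ ∈ P.inertiaSubgroupIn ℚ, LinearMap.charpoly (ρ.ρ σ) = (X - 1) ^ 2) ∧
    (ρ.IsOrdinaryAt p ↔ ∀ P : ValuationSubring (AlgebraicClosure ℚ), P.LiesOverPrime p →
      ∃ L : Submodule A ρ.V, (∃ b : Module.Basis (Fin 2) A ρ.V, L = Submodule.span A {b 0}) ∧
        (∀ σ ∈ P.decompositionSubgroup ℚ, ∀ v ∈ L, ρ.ρ σ v ∈ L) ∧
        (∀ σ ∈ P.inertiaSubgroupIn ℚ, ∀ v : ρ.V, ρ.ρ σ v - v ∈ L)) ∧
    (ρ.IsStrictOrdinaryAt p ↔ (p : A) ∈ maximalIdeal A ∧
      ∀ P : ValuationSubring (AlgebraicClosure ℚ), P.LiesOverPrime p →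
      ∃ L : Submodule A ρ.V, (∃ b : Module.Basis (Fin 2) A ρ.V, L = Submodule.span A {b 0}) ∧
        (∀ σ ∈ P.decompositionSubgroup ℚ, ∀ v ∈ L, ρ.ρ σ v ∈ L) ∧
        (∀ σ ∈ P.inertiaSubgroupIn ℚ, ∀ v : ρ.V, ρ.ρ σ v - v ∈ L) ∧
        (∀ σ ∈ P.decompositionSubgroup ℚ, ∃ x z : A,
          (∀ w ∈ L, ρ.ρ σ w = x • w) ∧ (∀ v : ρ.V, ρ.ρ σ v - z • v ∈ L) ∧
          ∀ (n a : ℕ), (∀ μ : AlgebraicClosure ℚ, μ ^ p ^ n = 1 → σ μ = μ ^ a) →
            x - (a : A) * z ∈ Ideal.span {((p ^ n : ℕ) : A)})) :=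
  ⟨Iff.rfl, Iff.rfl, Iff.rfl⟩

/-- **Flat and residually ordinary implies ordinary** (module `H23FlatOrd`). Let `p ≠ 2`, `A` a noetherian
local ring (not assumed complete, reduced or a domain), `ρ` over `A` with cyclotomic determinant and flat at
`p`; if its residual representation is ordinary at `p`, then so is `ρ`. The submodule generated by the
`(σ - 1) v`, `σ` in inertia, consists of connected points; a point which is étale and connected is `0`
(helper64's elementary lemma for `p ≥ 3`, no theorem of Raynaud). -/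
theorem ordinary_of_flat {p : ℕ} [Fact p.Prime] {A : Type} [CommRing A] [IsLocalRing A]
    [IsNoetherianRing A] (hp2 : p ≠ 2) (ρ : GaloisRepAdic A) (hdet : ρ.DetIsCyclotomic p)
    (hflat : ρ.IsFlatAt p) (hres : (GaloisRepAdic.ofResidualGaloisRep ρ.residual).IsOrdinaryAt p) :
    ρ.IsOrdinaryAt p :=
  H23.isOrdinaryAt_of_isFlatAt hp2 ρ hdet hflat hres

/-- **Residual flatness** (module `H65InF`). `W` semistable, `p` odd. If `W[p]` is irreducible and residually
modular of the base level `∏ (A ∪ T) * s` of a partition of the primes (a level prime to `p`), then `k ⊗ W[p]`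
is flat at `p` for every finite field `k` of characteristic `p`; good reduction of `W` is not assumed. Proof:
the Galois representation of the Hecke algebra (S30) is flat at `p` (S32) and has the same traces. -/
theorem residual_flat {W : WeierstrassCurve ℤ} (hΔ : W.Δ ≠ 0) {p : ℕ} [Fact p.Prime]
    (hss : W.IsSemistableModel) (hirr : W.ModRepIsIrreducible p) (hp2 : p ≠ 2)
    {A T B : Finset ℕ} {s : ℕ} (P : H69.Red.Partition W hΔ p A T B s)
    (hres : W.IsResiduallyModularOfLevel p ((∏ q ∈ A ∪ T, q) * s))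
    (k : Type) [Field k] [Finite k] [Algebra (ZMod p) k] :
    (GaloisRepAdic.ofResidualGaloisRep ((H87.Glue.resZ W hΔ p).baseChange k)).IsFlatAt p :=
  H65.InF.residual_flat hΔ hss hirr hp2 P hres k

/-- **Local bounds**, unfolded (module `H56Defs`). `r : GQ →* M2 k` is a residual representation, `k` finite,
`R` runs through the lifts to the dual numbers `k[ε]` with constant determinant (`GoodLift`) satisfying
`Cond`; `coc R` is the cocycle `c` with `R σ = (1 + ε c(σ)) r σ`. `LocalBound p r q N Cond`: on the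
decomposition group `Dq q` of the distinguished place above `q` these cocycles (with values in the trace-free
matrices) lie in a group `L` of cocycles which contains the coboundaries and has at most `#k ^ N` elements. -/
theorem localBound_iff {p : ℕ} [Fact p.Prime] {k : Type} [Field k] [Finite k] [Algebra (ZMod p) k]
    (r : GQ →* M2 k) (q : Nat.Primes) (N : ℕ) (Cond : (GQ →* M2 (DualNumber k)) → Prop) :
    LocalBound p r q N Cond ↔ ∃ L : Submodule (ZMod p) (H56.Dq q → H56.SL p k),
      H55.B1 (H56.rhoD (H56.ad p r) q) ≤ L ∧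
      L ≤ H55.Z1 (H56.Dlev q) (H56.rhoD (H56.ad p r) q) ∧ Finite L ∧ Nat.card L ≤ Nat.card k ^ N ∧
      ∀ R : GQ →* M2 (DualNumber k), GoodLift r R → Cond R →
        ∀ c : H56.Dq q → H56.SL p k, (∀ σ, (c σ : M2 k) = coc R (σ : GQ)) → c ∈ L :=
  Iff.rfl

/-- **Local data at `p`** (structure `PData`, module `H53TWB1`): the fields. `𝒟p` is a condition at `p` on
representations over local rings, satisfied by `rhobar`, such that for all finite sets `S`, `U` "cyclotomic
determinant, `𝒟p`, unramified outside `S`, unipotent on inertia at `U`" is a deformation condition; `ε` is a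
finite set of marks (empty or one element in the applications); the lifts to the dual numbers with condition
`Condp` satisfy the local bound `4 - #ε`; every deformation `ρ` of type `𝒟p` has marks `m e 0, m e 1, m e 2`
in the maximal ideal, characterised by `Mark`, such that the tangent vectors which kill the marks satisfy
`Condp`. Each element of `ε` costs one in the local bound and is paid by one more Taylor-Wiles prime. -/
theorem pData_fields {O : Type} [CommRing O] [IsDomain O] [IsDiscreteValuationRing O]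
    [IsAdicComplete (maximalIdeal O) O] [Finite (ResidueField O)] {p : ℕ} [Fact p.Prime]
    {ρbar : ResidualGaloisRep (ResidueField O)}
    {b : Module.Basis (Fin 2) (ResidueField O) ρbar.V} (pd : PData p ρbar b) :
    (∀ S U : Finset ℕ, IsDeformationCondition O (H53.GType O p pd.𝒟p S U)) ∧
    pd.𝒟p (GaloisRepAdic.ofResidualGaloisRep ρbar) ∧ Nat.card pd.ε ≤ 3 ∧
    (∀ [Algebra (ZMod p) (ResidueField O)],
      LocalBound p (toMat ρbar.ρ b) (ExtCitation.pPrime p) (4 - Nat.card pd.ε) pd.Condp) ∧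
    ∀ (A : Type) [CommRing A] [IsLocalRing A] [IsNoetherianRing A]
      [IsAdicComplete (maximalIdeal A) A] [Algebra O A] [IsLocalHom (algebraMap O A)]
      (ρ : GaloisRepAdic A) (b₁ : Module.Basis (Fin 2) A ρ.V), ρ.DetIsCyclotomic p → pd.𝒟p ρ →
      mapMat (residue A) (toMat ρ.ρ b₁) =
        mapMat (ResidueField.map (algebraMap O A)) (toMat ρbar.ρ b) →
      ∃ m : pd.ε → Fin 3 → A, (∀ e j, m e j ∈ maximalIdeal A) ∧ pd.Mark ρ b₁ m ∧
        ∀ (f : A →+* DualNumber (ResidueField O)), IsLocalHom f →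
          (∀ c, f (algebraMap O A c) = TrivSqZeroExt.inl (residue O c)) →
          (∀ e j, f (m e j) = 0) →
          ∀ h : MCont (DualNumber (ResidueField O)) (mapMat f (toMat ρ.ρ b₁)),
            pd.𝒟p (ofMatrix (mapMat f (toMat ρ.ρ b₁)) h) → pd.Condp (mapMat f (toMat ρ.ρ b₁)) :=
  ⟨pd.isDef, pd.residual, pd.card_le, pd.bound, pd.mark⟩

/-- **The types `F` and `O`**: the data `PData.flat` (condition "flat at `p`") and `PData.strict` (condition
"strictly ordinary at `p`") have no marks. The local bounds `StatementF`, `StatementO` (dimension 4) are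
`flat_local_bound` of `GuideFlatBound` and `local_bound_strictOrdinary` of `GuideLocalBounds`. (Module
`H53TWB1`.) -/
theorem pData_without_marks {O : Type} [CommRing O] [IsDomain O] [IsDiscreteValuationRing O]
    [IsAdicComplete (maximalIdeal O) O] [Finite (ResidueField O)] {p : ℕ} [Fact p.Prime]
    (hp2 : p ≠ 2) (ρbar : ResidualGaloisRep (ResidueField O))
    (b : Module.Basis (Fin 2) (ResidueField O) ρbar.V)
    (F : ∀ [Algebra (ZMod p) (ResidueField O)], StatementF (k := ResidueField O) p)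
    (St : ∀ [Algebra (ZMod p) (ResidueField O)], StatementO (k := ResidueField O) p)
    (hdet : (GaloisRepAdic.ofResidualGaloisRep ρbar).DetIsCyclotomic p)
    (hsplit : ∀ σ : GQ, ∃ α β : ResidueField O,
      LinearMap.charpoly (ρbar.ρ σ) = (X - C α) * (X - C β)) :
    ((GaloisRepAdic.ofResidualGaloisRep ρbar).IsFlatAt p →
      ∃ pd : PData p ρbar b, IsEmpty pd.ε ∧
        ∀ (A : Type) [CommRing A] [IsLocalRing A] (ρ : GaloisRepAdic A), pd.𝒟p ρ ↔ ρ.IsFlatAt p) ∧
    ((GaloisRepAdic.ofResidualGaloisRep ρbar).IsStrictOrdinaryAt p →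
      ∃ pd : PData p ρbar b, IsEmpty pd.ε ∧
        ∀ (A : Type) [CommRing A] [IsLocalRing A] (ρ : GaloisRepAdic A),
          pd.𝒟p ρ ↔ ρ.IsStrictOrdinaryAt p) :=
  ⟨fun h => ⟨PData.flat ρbar b F hdet hsplit h, inferInstanceAs (IsEmpty Empty),
      fun _ _ _ _ => Iff.rfl⟩,
    fun h => ⟨PData.strict hp2 ρbar b St hdet h, inferInstanceAs (IsEmpty Empty),
      fun _ _ _ _ => Iff.rfl⟩⟩

/-- **The types `Pα` and `Pβ`**: if `rhobar` is ordinary at `p` and `σ₀` acts trivially, the condition
"ordinary at `p`" has one mark `(t, y, 0)`: the elements `t, y` of section 3. `OrdI`, `OrdMark` are unfolded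
in `ordI_iff`, `ordMark_iff`; `cj g₀ r = g₀⁻¹ r g₀`. (`PData.ord`, module `H53POrd`.) -/
theorem pData_ordinary {O : Type} [CommRing O] [IsDomain O] [IsDiscreteValuationRing O]
    [IsAdicComplete (maximalIdeal O) O] [Finite (ResidueField O)] {p : ℕ} [Fact p.Prime]
    (hp2 : p ≠ 2) (ρbar : ResidualGaloisRep (ResidueField O))
    (b : Module.Basis (Fin 2) (ResidueField O) ρbar.V)
    (hdet : (GaloisRepAdic.ofResidualGaloisRep ρbar).DetIsCyclotomic p)
    (hord : (GaloisRepAdic.ofResidualGaloisRep ρbar).IsOrdinaryAt p)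
    {φ σ₀ : GQ} (hm : H75P.MarkElts p φ σ₀) (hr0 : toMat ρbar.ρ b σ₀ = 1) (w : ℤ) (hw : w ^ 2 = 1)
    {g₀ : (M2 (ResidueField O))ˣ} (hg₀ : H75P.OrdI p (H75P.cj g₀ (toMat ρbar.ρ b)))
    (hu : H75P.cj g₀ (toMat ρbar.ρ b) φ 1 1 = (w : ResidueField O)) :
    ∃ (pd : PData p ρbar b) (e : pd.ε), (∀ e', e' = e) ∧
      ∀ (A : Type) [CommRing A] [IsLocalRing A] (ρ : GaloisRepAdic A),
        (pd.𝒟p ρ ↔ ρ.IsOrdinaryAt p) ∧
        ∀ (b₁ : Module.Basis (Fin 2) A ρ.V) (m : pd.ε → Fin 3 → A), pd.Mark ρ b₁ m ↔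
          H75P.OrdMark p (toMat ρ.ρ b₁) (w : A) φ σ₀ (m e 0) (m e 1) ∧ m e 2 = 0 :=
  ⟨PData.ord hp2 ρbar b hdet hord hm hr0 w hw hg₀ hu, (), fun _ => rfl,
    fun _ _ _ _ => ⟨Iff.rfl, fun _ _ => Iff.rfl⟩⟩

/-! ### 2. Marks at the raising primes -/

/-- **Marks at a raising prime.** `q` is a prime where the residual representation is unramified with
non-scalar Frobenius of trace `u(q + 1)`, `u² = 1`; `Ph`, `Sg` are the matrices of a Frobenius and of a tame
generator in a lift over the complete local ring `A`. There are `t, y, z` in the maximal ideal with: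
`tr(Ph)² - (q+1)² = unit * t (t + u(q+1))`; unramified points have `y = z = 0`; unipotent points (in
domains of characteristic zero) satisfy `y t = 0`, `z (t + u(q+1)) = 0`, `y z = 0`; points with trace
`u(q+1)` have `t = 0`; a tangent vector killing the marks is trivial at the tame generator and has
constant trace at Frobenius. (Two constructions: `q ≢ 1` and `q ≡ 1` modulo `p`; `H53MarkB`.) -/
theorem exists_marks {A : Type} [CommRing A] [IsLocalRing A] [IsAdicComplete (maximalIdeal A) A]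
    {q : ℕ} {u : A} (hu : u ^ 2 = 1) (h2 : IsUnit (2 : A)) {Ph Sg : M2 A}
    (htame : Ph * Sg = Sg ^ q * Ph) (hdet : Ph.det = q) (hdetS : Sg.det = 1)
    (hSg : Cong (maximalIdeal A) Sg) (htr : Ph.trace - u * (q + 1) ∈ maximalIdeal A) (hq1 : 1 < q)
    (hqu : IsUnit (q : A)) (hns : NonScalar (Ph.map (residue A))) :
    ∃ t y z : A, t ∈ maximalIdeal A ∧ y ∈ maximalIdeal A ∧ z ∈ maximalIdeal A ∧
      (∃ v : A, IsUnit v ∧ Ph.trace ^ 2 - (q + 1) ^ 2 = v * (t * (t + u * (q + 1)))) ∧
      (∀ {B : Type} [CommRing B] (g : A →+* B), Sg.map g = 1 → g y = 0 ∧ g z = 0) ∧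
      (∀ {B : Type} [CommRing B] [IsDomain B] [CharZero B] (g : A →+* B), (Sg.map g - 1) ^ 2 = 0 →
        g y * g t = 0 ∧ g z * (g t + g u * (q + 1)) = 0 ∧ g y * g z = 0) ∧
      (∀ {B : Type} [CommRing B] (g : A →+* B), (Ph.map g).trace = g u * (q + 1) → g t = 0) ∧
      ∀ {k : Type} [Field k] (f : A →+* DualNumber k), IsLocalHom f →
        TrivSqZeroExt.snd (f u) = 0 → f t = 0 → f y = 0 → f z = 0 →
          Sg.map f = 1 ∧ TrivSqZeroExt.snd (Ph.map f).trace = 0 := by
  obtain ⟨t, y, z, h⟩ := H53.exists_bMarks hu h2 htame hdet hdetS hSg htr hq1 hqu hns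
  exact ⟨t, y, z, h.t_mem, h.y_mem, h.z_mem, h.h_eq, h.nr, h.uni, h.pt, h.tangent⟩

/-! ### 3. Marks at `p`

`padicPlace p` is the distinguished place of `Q̄` above `p`, `‖padicEmbedding p α‖` its absolute value; `I_p`
and `D_p` are its inertia and decomposition group. -/

/-- **The element `σ₀` of inertia.** For odd `p` and a `p`-th root `π₁` of `p` there is an element `σ`
of `I_p` which moves `π₁` and fixes every `α` of absolute value one such that some power
`α ^ (p ^ n)` is fixed by `I_p` (these are the `p`-power roots of the units of the maximal unramified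
extension; in particular all roots of unity of `p`-power order). Proof inside `Q̄` by infinite Galois
theory, linear independence of characters and a commutator argument; no local fields. H75PSigma. -/
theorem exists_sigma {p : ℕ} [Fact p.Prime] (hp2 : p ≠ 2) {π₁ : AlgebraicClosure ℚ}
    (hπ : π₁ ^ p = p) :
    ∃ σ ∈ (padicPlace p).inertiaSubgroupIn ℚ,
      (∀ α : AlgebraicClosure ℚ, ‖padicEmbedding p α‖ = 1 →
        (∃ n : ℕ, ∀ τ ∈ (padicPlace p).inertiaSubgroupIn ℚ, τ (α ^ p ^ n) = α ^ p ^ n) →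
          σ α = α) ∧
      σ π₁ ≠ π₁ := by
  obtain ⟨σ, h1, h2, h3⟩ := H75P.exists_sigma hp2 hπ
  exact ⟨σ, h1, fun α h4 h5 => h2 α ⟨h4, h5⟩, h3⟩

/-- `MarkElts p φ σ₀` written out: `φ` is a Frobenius element at the distinguished place above `p`,
and `σ₀` is an element of `I_p` as in `exists_sigma`. -/
theorem markElts_iff {p : ℕ} [Fact p.Prime]
    {φ σ₀ : AlgebraicClosure ℚ ≃ₐ[ℚ] AlgebraicClosure ℚ} :
    H75P.MarkElts p φ σ₀ ↔
      (padicPlace p).IsFrobeniusAt φ p ∧ σ₀ ∈ (padicPlace p).inertiaSubgroupIn ℚ ∧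
      (∀ α : AlgebraicClosure ℚ, ‖padicEmbedding p α‖ = 1 ∧
        (∃ n : ℕ, ∀ τ ∈ (padicPlace p).inertiaSubgroupIn ℚ, τ (α ^ p ^ n) = α ^ p ^ n) →
          σ₀ α = α) ∧
      ∃ π₁ : AlgebraicClosure ℚ, π₁ ^ p = p ∧ σ₀ π₁ ≠ π₁ :=
  ⟨fun h => ⟨h.frob, h.inert, h.fix, h.move⟩, fun h => ⟨h.1, h.2.1, h.2.2.1, h.2.2.2⟩⟩

/-- **Frobenius acts on the logarithmic part of a Kummer class by the cyclotomic character.** Let `c`
be a locally constant cocycle of `I_p` with values in the roots of unity of order dividing `p ^ N`.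
Then `c (φ σ₀ φ⁻¹) = φ (c σ₀)` (of `φ` only `φ ∈ D_p` is used; for us it is the Frobenius element).
(Hilbert 90 on `I_p`: `c σ = σ α / α` with
`α = π ^ a w`, `π` a `p ^ N`-th root of `p` and `w` a `p`-power root of a unit.) H75PKum. -/
theorem kummer_conj {p : ℕ} [Fact p.Prime] {φ σ₀ : AlgebraicClosure ℚ ≃ₐ[ℚ] AlgebraicClosure ℚ}
    (hm : H75P.MarkElts p φ σ₀)
    {c : (AlgebraicClosure ℚ ≃ₐ[ℚ] AlgebraicClosure ℚ) → AlgebraicClosure ℚ} {N : ℕ}
    (hcN : ∀ σ ∈ (padicPlace p).inertiaSubgroupIn ℚ, c σ ^ p ^ N = 1)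
    (hc : ∀ σ ∈ (padicPlace p).inertiaSubgroupIn ℚ, ∀ τ ∈ (padicPlace p).inertiaSubgroupIn ℚ,
      c (σ * τ) = σ (c τ) * c σ)
    (hlc : ∃ F : IntermediateField ℚ (AlgebraicClosure ℚ), FiniteDimensional ℚ F ∧
      ∀ σ ∈ (padicPlace p).inertiaSubgroupIn ℚ, ∀ τ ∈ (padicPlace p).inertiaSubgroupIn ℚ,
        (∀ x ∈ F, τ x = x) → c (σ * τ) = c σ) :
    c (φ * σ₀ * φ⁻¹) = φ (c σ₀) :=
  H75P.kummer_conj hm.inert hm.fix hm.dec hcN hc hlc

/-- `OrdI p r` written out: the matrix representation `r` is upper triangular on `D_p` with lower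
right entry `1` on `I_p` (ordinary matrix form; `ψ = r · 1 1` is the unramified quotient). -/
theorem ordI_iff {p : ℕ} [Fact p.Prime] {A : Type} [CommRing A]
    {r : (AlgebraicClosure ℚ ≃ₐ[ℚ] AlgebraicClosure ℚ) →* Matrix (Fin 2) (Fin 2) A} :
    H75P.OrdI p r ↔
      (∀ σ ∈ (padicPlace p).decompositionSubgroup ℚ, r σ 1 0 = 0) ∧
      ∀ σ ∈ (padicPlace p).inertiaSubgroupIn ℚ, r σ 1 1 = 1 :=
  Iff.rfl

/-- `OrdMark p r u φ σ₀ t y` written out: after conjugation by some `g` the representation `r` has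
ordinary matrix form with `ψ(φ) = u + t`, and `y` is the upper right entry of the matrix of `σ₀`. In
the applications `u = ±1` is the residual value of `ψ(φ)`. -/
theorem ordMark_iff {p : ℕ} [Fact p.Prime] {A : Type} [CommRing A]
    {r : (AlgebraicClosure ℚ ≃ₐ[ℚ] AlgebraicClosure ℚ) →* Matrix (Fin 2) (Fin 2) A} {u t y : A}
    {φ σ₀ : AlgebraicClosure ℚ ≃ₐ[ℚ] AlgebraicClosure ℚ} :
    H75P.OrdMark p r u φ σ₀ t y ↔
      ∃ g : (Matrix (Fin 2) (Fin 2) A)ˣ,
        ((∀ σ ∈ (padicPlace p).decompositionSubgroup ℚ,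
            ((↑g⁻¹ : Matrix (Fin 2) (Fin 2) A) * r σ * g) 1 0 = 0) ∧
          ∀ σ ∈ (padicPlace p).inertiaSubgroupIn ℚ,
            ((↑g⁻¹ : Matrix (Fin 2) (Fin 2) A) * r σ * g) 1 1 = 1) ∧
        t = ((↑g⁻¹ : Matrix (Fin 2) (Fin 2) A) * r φ * g) 1 1 - u ∧
        y = ((↑g⁻¹ : Matrix (Fin 2) (Fin 2) A) * r σ₀ * g) 0 1 :=
  Iff.rfl

/-- **Existence of the marks.** Let `ρ` be an ordinary representation over a local ring `A` with
cyclotomic determinant whose reduction is `r₀` (over a field `k`, extended to the residue field of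
`A` by `j`), in the form of `ordI_iff` after conjugation by `g₀`, and let `r₀(σ₀) = 1`. Then `ρ` has marks
`t, y` in the maximal ideal. (`u` is a lift of the residual value `u₀` of `ψ(φ)`.) H75PLocal; used for the
type "ordinary with marks" (H53POrd). -/
theorem exists_ordMark {p : ℕ} [Fact p.Prime] (hp2 : p ≠ 2) {A : Type} [CommRing A] [IsLocalRing A]
    {k : Type} [Field k] {j : k →+* ResidueField A}
    {r₀ : (AlgebraicClosure ℚ ≃ₐ[ℚ] AlgebraicClosure ℚ) →* Matrix (Fin 2) (Fin 2) k}
    {φ σ₀ : AlgebraicClosure ℚ ≃ₐ[ℚ] AlgebraicClosure ℚ} (hm : H75P.MarkElts p φ σ₀)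
    (hr0 : r₀ σ₀ = 1) {g₀ : (Matrix (Fin 2) (Fin 2) k)ˣ} (hg₀ : H75P.OrdI p (H75P.cj g₀ r₀))
    {u₀ : k} (hu₀ : H75P.cj g₀ r₀ φ 1 1 = u₀) {u : A} (hu : residue A u = j u₀)
    {ρ : GaloisRepAdic A} (hdet : ρ.DetIsCyclotomic p) (hord : ρ.IsOrdinaryAt p)
    (b : Module.Basis (Fin 2) A ρ.V)
    (hb : H53.mapMat (residue A) (H53.toMat ρ.ρ b) = H53.mapMat j r₀) :
    ∃ t y : A, t ∈ maximalIdeal A ∧ y ∈ maximalIdeal A ∧
      H75P.OrdMark p (H53.toMat ρ.ρ b) u φ σ₀ t y :=
  H75P.exists_ordMark hp2 hm hr0 hg₀ hu₀ hu hdet hord b hb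

/-- **The relation of the marks.** `(ψ(φ)² - 1) y = 0` for an ordinary representation `r` with
cyclotomic determinant over a separated local ring with finite quotients by the powers of the maximal
ideal (compare `r(φ σ₀ φ⁻¹)` computed in two ways and use `kummer_conj` for all finite quotients).
H75PMark. -/
theorem ordI_rel {p : ℕ} [Fact p.Prime] {A : Type} [CommRing A] [IsLocalRing A]
    (hfin : ∀ n, Finite (A ⧸ maximalIdeal A ^ n)) (hsep : IsHausdorff (maximalIdeal A) A)
    (hpA : (p : A) ∈ maximalIdeal A)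
    {r : (AlgebraicClosure ℚ ≃ₐ[ℚ] AlgebraicClosure ℚ) →* Matrix (Fin 2) (Fin 2) A}
    (hcont : H53.MCont A r) (hdet : H75P.DetC p r) (hr : H75P.OrdI p r)
    {φ σ₀ : AlgebraicClosure ℚ ≃ₐ[ℚ] AlgebraicClosure ℚ} (hm : H75P.MarkElts p φ σ₀) :
    (r φ 1 1 ^ 2 - 1) * r σ₀ 0 1 = 0 :=
  hr.rel hfin hsep hpA hcont hdet hm.inert hm.fix hm.dec

/-- **`t y = 0`** (since `ψ(φ) + u` is a unit). `A` noetherian local and separated with finite
residue field. H75PMark2, H53POrd. -/
theorem ordMark_mul {p : ℕ} [Fact p.Prime] {A : Type} [CommRing A] [IsLocalRing A]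
    [IsNoetherianRing A] [Finite (ResidueField A)] (hp2 : p ≠ 2)
    (hsep : IsHausdorff (maximalIdeal A) A) {φ σ₀ : AlgebraicClosure ℚ ≃ₐ[ℚ] AlgebraicClosure ℚ}
    (hm : H75P.MarkElts p φ σ₀) {w : ℤ} (hw : w ^ 2 = 1) (ρ : GaloisRepAdic A)
    (b : Module.Basis (Fin 2) A ρ.V) {t y : A}
    (h : H75P.OrdMark p (H53.toMat ρ.ρ b) (w : A) φ σ₀ t y)
    (ht : t ∈ maximalIdeal A) (hdet : ρ.DetIsCyclotomic p) : t * y = 0 :=
  H53.ordMark_mul hp2 hsep hm hw ρ b h ht hdet

/-- **Flat points have `y = 0`.** Let `r` be a matrix representation over `R` with marks `t, y` and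
`f : R → A` a homomorphism such that the induced representation is that of a representation `ρ` over
`A` which is flat at `p` and has cyclotomic determinant. Then `f y = 0`; indeed `ρ(σ₀) = 1`, because
for a finite flat group scheme the extension class is given by roots of units. H75PFlat. -/
theorem ordMark_point_flat {p : ℕ} [Fact p.Prime] {R A : Type} [CommRing R] [CommRing A]
    [IsLocalRing A] [IsNoetherianRing A] [Finite (ResidueField A)]
    (hsep : IsHausdorff (maximalIdeal A) A)
    {φ σ₀ : AlgebraicClosure ℚ ≃ₐ[ℚ] AlgebraicClosure ℚ} (hm : H75P.MarkElts p φ σ₀)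
    {r : (AlgebraicClosure ℚ ≃ₐ[ℚ] AlgebraicClosure ℚ) →* Matrix (Fin 2) (Fin 2) R} {w : ℤ} {t y : R}
    (h : H75P.OrdMark p r (w : R) φ σ₀ t y) (f : R →+* A) (ρ : GaloisRepAdic A)
    (b : Module.Basis (Fin 2) A ρ.V) (hb : H53.toMat ρ.ρ b = H53.mapMat f r)
    (hflat : ρ.IsFlatAt p) (hdet : ρ.DetIsCyclotomic p) : f y = 0 :=
  H53.ordMark_point_flat hsep hm h f ρ b hb hflat hdet

/-- **Strictly ordinary points have `t = 0`** (the square of the unramified quotient character is
trivial). H75PMark2. -/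
theorem ordMark_point_strict {p : ℕ} [Fact p.Prime] {R A : Type} [CommRing R] [CommRing A]
    [IsLocalRing A] (hp2 : p ≠ 2) (hsep : IsHausdorff (maximalIdeal A) A)
    {φ σ₀ : AlgebraicClosure ℚ ≃ₐ[ℚ] AlgebraicClosure ℚ} (hm : H75P.MarkElts p φ σ₀)
    {r : (AlgebraicClosure ℚ ≃ₐ[ℚ] AlgebraicClosure ℚ) →* Matrix (Fin 2) (Fin 2) R} {w : ℤ}
    (hw : w ^ 2 = 1) {t y : R} (h : H75P.OrdMark p r (w : R) φ σ₀ t y) (f : R →+* A)
    (hft : f t ∈ maximalIdeal A) (ρ : GaloisRepAdic A) (b : Module.Basis (Fin 2) A ρ.V)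
    (hb : H53.toMat ρ.ρ b = H53.mapMat f r) (hstr : ρ.IsStrictOrdinaryAt p)
    (hdet : ρ.DetIsCyclotomic p) : f t = 0 :=
  H53.ordMark_point_strict hp2 hsep hm hw h f hft ρ b hb hstr hdet

/-- **The local bound.** The lifts `R` of `r` to the dual numbers (with constant determinant) which
are ordinary with both marks zero satisfy `LocalBound … 3`: their cocycles lie in a group of at most
`(#k)³` cocycles of `D_p` with values in the matrices of trace zero, the same number as for trivial
or unramified lifts. (`LocalBound` is written out in `localBound_iff` above.) H75PBound, H75PLocal. -/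
theorem localBound_ordMark {p : ℕ} [Fact p.Prime] {k : Type} [Field k] [Finite k]
    [Algebra (ZMod p) k] (hp2 : p ≠ 2)
    {r : (AlgebraicClosure ℚ ≃ₐ[ℚ] AlgebraicClosure ℚ) →* Matrix (Fin 2) (Fin 2) k}
    (hr : H56.FinLev r) (hdet : H56.DetCyc p r)
    {φ σ₀ : AlgebraicClosure ℚ ≃ₐ[ℚ] AlgebraicClosure ℚ} (hm : H75P.MarkElts p φ σ₀)
    (hr0 : r σ₀ = 1) {u : k} (hu : u ^ 2 = 1) :
    H56.LocalBound p r (ExtCitation.pPrime p) 3
      (fun R => H75P.OrdMark p R (TrivSqZeroExt.inl u) φ σ₀ 0 0) :=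
  H75P.localBound_ordMark hp2 hr hdet hm hr0 hu

/-! ### 4. Generators and Taylor-Wiles primes -/

/-- **Generators of a deformation ring, by counting cocycles.** `R` is the universal ring of the
deformation condition `D` (`U : DeformationRingData`), `r₁` the matrix form of the universal
representation, `y_i` finitely many elements of its maximal ideal (the *marks*). To a homomorphism `f`
from `R` to the dual numbers belongs the function `coc (f ∘ r₁) : G_ℚ → M₂(k)` (a cocycle in the adjoint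
representation). If all these functions, for the `f` which kill the marks, lie in a finite set `Z`
stable under adding coboundaries with `#Z ≤ #k^(N+3)`, then `R` is a quotient of
`O[[X_i, Z_1, .., Z_N]]` with `X_i ↦ y_i`. (The `3` counts the coboundaries: `hcent` says that they come
freely from the trace-free matrices.) No relative tangent spaces, no framed deformations. -/
theorem generators_by_counting_cocycles {O : Type} [CommRing O] [IsDomain O]
    [IsDiscreteValuationRing O] [IsAdicComplete (maximalIdeal O) O] [Finite (ResidueField O)]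
    (ρbar : ResidualGaloisRep (ResidueField O))
    (D : ∀ ⦃A : Type⦄ [CommRing A] [IsLocalRing A] [Algebra O A], GaloisRepAdic A → Prop)
    (hD : IsDeformationCondition O D) (b : Module.Basis (Fin 2) (ResidueField O) ρbar.V)
    (hcent : ∀ X : M2 (ResidueField O), X.trace = 0 →
      (∀ σ, toMat ρbar.ρ b σ * X = X * toMat ρbar.ρ b σ) → X = 0)
    (U : DeformationRingData O ρbar D) (b₁ : Module.Basis (Fin 2) U.R U.ρ.V)
    (hb₁ : mapMat (residue U.R) (toMat U.ρ.ρ b₁) =
      mapMat (ResidueField.map (algebraMap O U.R)) (toMat ρbar.ρ b))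
    (N : ℕ) (Z : Set (GQ → M2 (ResidueField O))) (hZfin : Z.Finite)
    (hcard : Z.ncard ≤ Nat.card (ResidueField O) ^ (N + 3))
    (hcob : ∀ c ∈ Z, ∀ X : M2 (ResidueField O), X.trace = 0 → c + cob (toMat ρbar.ρ b) X ∈ Z)
    {ι : Type} [Finite ι] (y : ι → U.R) (hy : ∀ i, y i ∈ maximalIdeal U.R)
    (hZ : ∀ (f : U.R →+* DualNumber (ResidueField O)) (_ : IsLocalHom f)
      (_ : ∀ c, f (algebraMap O U.R c) = TrivSqZeroExt.inl (residue O c)) (_ : ∀ i, f (y i) = 0)
      (h : MCont _ (mapMat f (toMat U.ρ.ρ b₁))),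
      (∀ σ, redM _ (mapMat f (toMat U.ρ.ρ b₁) σ) = toMat ρbar.ρ b σ) →
      (letI := H69.algDual O; D (ofMatrix (mapMat f (toMat U.ρ.ρ b₁)) h)) →
      coc (mapMat f (toMat U.ρ.ρ b₁)) ∈ Z) :
    ∃ β : MvPowerSeries (ι ⊕ Fin N) O →ₐ[O] U.R, Function.Surjective β ∧
      ∀ i, β (MvPowerSeries.X (Sum.inl i)) = y i :=
  H53.exists_beta_gen ρbar D hD b hcent U b₁ hb₁ N Z hZfin hcard hcob y hy hZ

/-- **Taylor-Wiles primes and the Selmer bound, with weights.** `p` odd, `r` the matrix form of an
absolutely irreducible `rhobar` with cyclotomic determinant, ramified exactly at the primes of `A`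
(unipotently) and possibly at `p`, `hTW`: absolutely irreducible over every subgroup of index two. `T` is a
finite set of primes `t ≠ p` where the coboundaries of the decomposition group have dimension at most
`3 - w(t)` (`w = 3` if `rhobar` is scalar there, `w = 1` if it is unramified with non-scalar Frobenius),
`Condp` a condition at `p` with local bound `Np`. Then for all large `d`, every `n` and every finite `S` there
are `d` primes `q_i ≡ 1` modulo `p^(n+1)` outside `S`, at which `rhobar` is unramified with determinant one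
and distinct eigenvalues of Frobenius, such that the cocycles of the lifts to the dual numbers which are
unipotent at `A`, unramified outside `A, T, p, q_i`, satisfy `Condp` and are coboundaries at `T` lie in a
finite set `Z`, stable under coboundaries, with at most `#k^(d + Np - 1 - Σ w(t))` elements. Input: the Wiles
inequality `GWIneq p` (proved for odd `p`: theorem `H75.gwIneq`, `H75EC4`). (This is `selmer_bound_weights` of
`GuideTaylorWiles`.) -/
theorem selmer_bound {p : ℕ} [Fact p.Prime] {k : Type} [Field k] [Finite k] [Algebra (ZMod p) k]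
    (hp2 : p ≠ 2) (GW : GWIneq p) (ρbar : ResidualGaloisRep k)
    (habs : ρbar.IsAbsolutelyIrreducible)
    (hdet : (GaloisRepAdic.ofResidualGaloisRep ρbar).DetIsCyclotomic p)
    (hsplit : ∀ σ : GQ, ∃ α β : k, LinearMap.charpoly (ρbar.ρ σ) = (X - C α) * (X - C β))
    (hTW : ∀ (K : Type) [Field K] [Algebra k K] (G : Subgroup GQ), G.index = 2 →
      ∀ V : Submodule K (ρbar.baseChange K).V,
        (∀ σ ∈ G, ∀ x ∈ V, (ρbar.baseChange K).ρ σ x ∈ V) → V = ⊥ ∨ V = ⊤)
    (b : Module.Basis (Fin 2) k ρbar.V) {r : GQ →* M2 k}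
    (hr : ∀ σ, r σ = LinearMap.toMatrix b b (ρbar.ρ σ)) (hrdet : DetCyc p r) (hfl : FinLev r)
    (A T : Finset Nat.Primes) (hpT : ExtCitation.pPrime p ∉ T)
    (hAram : ∀ q ∈ A, ∃ σ ∈ H56.Iq q, r σ ≠ 1)
    (hAunip : ∀ q ∈ A, ∀ σ ∈ H56.Iq q, (r σ).charpoly = (X - 1) ^ 2)
    (hur : ∀ q, q ∉ A → q ≠ ExtCitation.pPrime p → ∀ σ ∈ H56.Iq q, r σ = 1)
    (w : Nat.Primes → ℕ)
    (hT : ∀ t ∈ T, Module.finrank (ZMod p) (H55.B1 (H56.rhoD (H56.ad p r) t)) +
      w t * Module.finrank (ZMod p) k ≤ 3 * Module.finrank (ZMod p) k)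
    (Condp : (GQ →* M2 (DualNumber k)) → Prop) (Np : ℕ) (hNp : 1 ≤ Np)
    (hp : LocalBound p r (ExtCitation.pPrime p) Np Condp) :
    ∃ s : ℕ, ∀ d, s ≤ d → ∀ (n : ℕ) (S : Finset ℕ), ∃ qv : Fin d → Nat.Primes,
      Function.Injective qv ∧
      (∀ i, ((qv i : Nat.Primes) : ℕ) ∉ S ∧ p ^ (n + 1) ∣ ((qv i : Nat.Primes) : ℕ) - 1) ∧
      (∀ i, qv i ∉ A ∧ qv i ∉ T ∧ qv i ≠ ExtCitation.pPrime p) ∧
      (∀ i, ρbar.IsUnramifiedAt (qv i)) ∧
      (∀ i, ∀ P : ValuationSubring (AlgebraicClosure ℚ), P.LiesOverPrime (qv i) →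
        ∀ φ : GQ, P.IsFrobeniusAt φ (qv i) → LinearMap.det (ρbar.ρ φ) = 1 ∧
          ∃ α β : k, α ≠ β ∧ LinearMap.charpoly (ρbar.ρ φ) = (X - C α) * (X - C β)) ∧
      ∃ Z : Set (GQ → M2 k), Z.Finite ∧
        Z.ncard ≤ Nat.card k ^ (d + (Np - 1) - ∑ t ∈ T, w t) ∧
        (∀ c ∈ Z, ∀ X : M2 k, X.trace = 0 → c + cob r X ∈ Z) ∧
        ∀ R : GQ →* M2 (DualNumber k), GoodLift r R → Condp R →
          (∀ q ∈ A, ∀ σ ∈ H56.Iq q, (R σ).charpoly = (X - 1) ^ 2) →
          (∀ q, q ∉ A → q ∉ T → q ≠ ExtCitation.pPrime p → (∀ i, q ≠ qv i) →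
            ∀ σ ∈ H56.Iq q, R σ = 1) →
          (∀ t ∈ T, ∃ X : M2 k, X.trace = 0 ∧ ∀ σ ∈ H56.Dq t, coc R σ = cob r X σ) →
            coc R ∈ Z :=
  H53.selmer_bound_gen hp2 GW ρbar habs hdet hsplit hTW b hr hrdet hfl A T hpT hAram hAunip hur w hT
    Condp Np hNp hp

/-! ### 5. The Galois side of a level -/

/-- **The Galois side of the levels with raising primes (S59).** `rhobar` is absolutely irreducible, also over
subgroups of index two (`hTW`), with cyclotomic determinant, ramified exactly at `A` (unipotently) and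
possibly at `p`; `T` are scalar primes. As `exists_galois_level` of `GuideLevelsIhara`, with in addition:
arbitrary local data `pd` at `p` (condition, marks indexed by `ε`, local
bound `4 - #ε`; the three cases are `PData.flat`, `PData.strict`, `PData.ord`) and a finite set of raising
primes `qB_i`, unramified with non-scalar Frobenius of trace `u_i (qB_i + 1)`, `u_i = ±1`. The record
`GalLevelB` (`H53TWB1`) contains `3 #T + #(B ⊔ ε) + k` Taylor-Wiles primes and a presentation by
`6 #T + 3 #(B ⊔ ε) + k` variables, of which `3` at each raising prime (and at `p`) go to the marks `t, y, z`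
of `exists_marks`. -/
theorem galois_side_raising {O : Type} [CommRing O] [IsDomain O] [IsDiscreteValuationRing O]
    [IsAdicComplete (maximalIdeal O) O] [Finite (ResidueField O)] {p : ℕ} [Fact p.Prime]
    (hp2 : p ≠ 2) (hpO : (p : O) ∈ maximalIdeal O) (GW : GWIneq p)
    (ρbar : ResidualGaloisRep (ResidueField O)) (habs : ρbar.IsAbsolutelyIrreducible)
    (hdet : (GaloisRepAdic.ofResidualGaloisRep ρbar).DetIsCyclotomic p)
    (hsplit : ∀ σ : GQ, ∃ α β : ResidueField O,
      LinearMap.charpoly (ρbar.ρ σ) = (X - C α) * (X - C β))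
    (hTW : ∀ (K : Type) [Field K] [Algebra (ResidueField O) K] (G : Subgroup GQ), G.index = 2 →
      ∀ V : Submodule K (ρbar.baseChange K).V,
        (∀ σ ∈ G, ∀ x ∈ V, (ρbar.baseChange K).ρ σ x ∈ V) → V = ⊥ ∨ V = ⊤)
    (b : Module.Basis (Fin 2) (ResidueField O) ρbar.V) (pd : PData p ρbar b) (A : Finset ℕ)
    (hAp : ∀ q ∈ A, q.Prime ∧ q ≠ p)
    (hAram : ∀ q ∈ A, ¬ (GaloisRepAdic.ofResidualGaloisRep ρbar).IsUnramifiedAt q)
    (hAu : ∀ q ∈ A, (GaloisRepAdic.ofResidualGaloisRep ρbar).IsUnipotentOnInertiaAt q)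
    (hunr : ∀ q, q.Prime → q ≠ p → q ∉ A →
      (GaloisRepAdic.ofResidualGaloisRep ρbar).IsUnramifiedAt q)
    {T : Type} [Fintype T] (qT : T → ℕ) (hqT : ∀ t, (qT t).Prime)
    (hqinj : Function.Injective qT) (hqp : ∀ t, p ∣ qT t - 1) (hqA : ∀ t, qT t ∉ A)
    (u : T → O) (hu : ∀ t, u t ^ 2 = 1) (pl : ∀ t, PlaceData p (qT t))
    (hpl : ∀ t, (pl t).P = ExtCitation.primeLocalPlace ⟨qT t, hqT t⟩)
    (hφ : ∀ t, toMat ρbar.ρ b (pl t).φ = residue O (u t) • (1 : M2 (ResidueField O)))
    {B : Type} [Fintype B] (qB : B → ℕ) (hqB : ∀ i, (qB i).Prime)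
    (hqBinj : Function.Injective qB) (hqBp : ∀ i, p ≠ qB i) (hqBA : ∀ i, qB i ∉ A)
    (uB : B → O) (huB : ∀ i, uB i ^ 2 = 1) (plB : ∀ i, PlaceData p (qB i))
    (hplB : ∀ i, (plB i).P = ExtCitation.primeLocalPlace ⟨qB i, hqB i⟩)
    (hφB : ∀ i, NonScalar (toMat ρbar.ρ b (plB i).φ))
    (htrB : ∀ i, (toMat ρbar.ρ b (plB i).φ).trace = residue O (uB i) * ((qB i : ℕ) + 1)) :
    ∃ k₀ : ℕ, ∀ k, k₀ ≤ k → ∀ (n : ℕ) (S : Finset ℕ),
      Nonempty (GalLevelB p ρbar b pd A qT pl u qB plB uB k n S) :=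
  H53.exists_galLevelB hp2 hpO GW ρbar habs hdet hsplit hTW b pd A hAp hAram hAu hunr qT hqT hqinj hqp
    hqA u hu pl hpl hφ qB hqB hqBinj hqBp hqBA uB huB plB hplB hφB htrB

/-- **The type of the deformations of a level**, unfolded (modules `H53TWB1`): cyclotomic determinant, the
condition `𝒟p` at `p`, unramified outside `p`, `A`, the scalar primes `qT t`, the raising primes `qB i` and
the Taylor-Wiles primes `qv i`, unipotent on inertia at `A` and at the raising primes. (At the scalar primes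
and at the Taylor-Wiles primes there is no condition.) -/
theorem level_type_iff {O : Type} [CommRing O] {p : ℕ}
    {𝒟p : ∀ ⦃A : Type⦄ [CommRing A] [IsLocalRing A], GaloisRepAdic A → Prop} {A : Finset ℕ}
    {T B : Type} [Fintype T] [Fintype B] {qT : T → ℕ} {qB : B → ℕ} {r : ℕ} {qv : Fin r → ℕ}
    {R : Type} [CommRing R] [IsLocalRing R] [Algebra O R] (ρ : GaloisRepAdic R) :
    H53.GType O p 𝒟p (H53.levelSetB p A qT qB qv) (H53.uniSet A qB) ρ ↔
      (ρ.DetIsCyclotomic p ∧ 𝒟p ρ ∧
        ∀ q : ℕ, q.Prime → ¬ (q = p ∨ q ∈ A ∨ (∃ t, qT t = q) ∨ (∃ i, qB i = q) ∨ ∃ i, qv i = q) →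
          ρ.IsUnramifiedAt q) ∧
      ∀ q : ℕ, (q ∈ A ∨ ∃ i, qB i = q) → q.Prime → q ≠ p → ρ.IsUnipotentOnInertiaAt q := by
  simp only [H53.GType, H53.mem_levelSetB, H53.mem_uniSet]

/-- **The Galois side of a level** (structure `GalLevelB`, module `H53TWB1`): the main fields. `L.qv i` are
the Taylor-Wiles primes (at which `rhobar` is unramified with determinant one and distinct eigenvalues of
Frobenius), `L.D` the universal deformation ring of the type of `level_type_iff` with universal
representation `L.D.ρ` in the basis `L.b₁`, `L.s i` its splitting into two characters at `L.qv i` with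
`L.φ (X_i) = χ₁(σ_i) - 1`, and `L.β` the presentation: six coordinates at every scalar prime (the trace-free
parts of the matrices of tame inertia and of Frobenius), three coordinates (the marks `L.mB`) at every
raising prime and at `p`, and `k` further variables. -/
theorem galLevel_fields {O : Type} [CommRing O] [IsDomain O] [IsDiscreteValuationRing O]
    [IsAdicComplete (maximalIdeal O) O] [Finite (ResidueField O)] {p : ℕ} [Fact p.Prime]
    {ρbar : ResidualGaloisRep (ResidueField O)}
    {b : Module.Basis (Fin 2) (ResidueField O) ρbar.V} {pd : PData p ρbar b} {A : Finset ℕ}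
    {T B : Type} [Fintype T] [Fintype B] {qT : T → ℕ} {pl : ∀ t, PlaceData p (qT t)} {u : T → O}
    {qB : B → ℕ} {plB : ∀ i, PlaceData p (qB i)} {uB : B → O} {k n : ℕ} {S : Finset ℕ}
    (L : GalLevelB p ρbar b pd A qT pl u qB plB uB k n S) :
    (∀ i, (L.qv i).Prime ∧ L.qv i ∉ S ∧ p ^ (n + 1) ∣ L.qv i - 1 ∧ ρbar.IsUnramifiedAt (L.qv i)) ∧
    (∀ i, ∀ P : ValuationSubring (AlgebraicClosure ℚ), P.LiesOverPrime (L.qv i) →
      ∀ φ : GQ, P.IsFrobeniusAt φ (L.qv i) → LinearMap.det (ρbar.ρ φ) = 1 ∧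
        ∃ α β : ResidueField O, α ≠ β ∧ LinearMap.charpoly (ρbar.ρ φ) = (X - C α) * (X - C β)) ∧
    H53.GType O p pd.𝒟p (H53.levelSetB p A qT qB L.qv) (H53.uniSet A qB) L.D.ρ ∧
    mapMat (residue L.D.R) (toMat L.D.ρ.ρ L.b₁) =
      mapMat (ResidueField.map (algebraMap O L.D.R)) (toMat ρbar.ρ b) ∧
    Function.Surjective L.β ∧
    (∀ t, 2 * L.β (MvPowerSeries.X (Sum.inl (Sum.inl (t, 0)))) =
        toMat L.D.ρ.ρ L.b₁ (pl t).σ 0 0 - toMat L.D.ρ.ρ L.b₁ (pl t).σ 1 1 ∧
      L.β (MvPowerSeries.X (Sum.inl (Sum.inl (t, 1)))) = toMat L.D.ρ.ρ L.b₁ (pl t).σ 0 1 ∧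
      L.β (MvPowerSeries.X (Sum.inl (Sum.inl (t, 2)))) = toMat L.D.ρ.ρ L.b₁ (pl t).σ 1 0 ∧
      2 * L.β (MvPowerSeries.X (Sum.inl (Sum.inl (t, 3)))) =
        toMat L.D.ρ.ρ L.b₁ (pl t).φ 0 0 - toMat L.D.ρ.ρ L.b₁ (pl t).φ 1 1 ∧
      L.β (MvPowerSeries.X (Sum.inl (Sum.inl (t, 4)))) = toMat L.D.ρ.ρ L.b₁ (pl t).φ 0 1 ∧
      L.β (MvPowerSeries.X (Sum.inl (Sum.inl (t, 5)))) = toMat L.D.ρ.ρ L.b₁ (pl t).φ 1 0) ∧
    (∀ t, toMat L.D.ρ.ρ L.b₁ (pl t).φ * toMat L.D.ρ.ρ L.b₁ (pl t).σ =
      toMat L.D.ρ.ρ L.b₁ (pl t).σ ^ qT t * toMat L.D.ρ.ρ L.b₁ (pl t).φ) ∧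
    (∀ x j, L.β (MvPowerSeries.X (Sum.inl (Sum.inr (x, j)))) = L.mB x j) ∧
    pd.Mark L.D.ρ L.b₁ (fun e j => L.mB (Sum.inr e) j) ∧
    ∀ i, L.φ (MvPowerSeries.X i) = ((L.s i).χ₁ (L.plQ i).σD : L.D.R) - 1 :=
  ⟨fun i => ⟨L.prime i, L.not_mem_S i, L.dvd i, L.unram i⟩, L.frob, L.D.isOfType, L.hb₁, L.β_surj,
    fun t => ⟨L.hX0 t, L.hX1 t, L.hX2 t, L.hX3 t, L.hX4 t, L.hX5 t⟩, L.tame, L.β_mB, L.isPMark, L.φ_X⟩

/-- **Points.** A representation `ρ` over `O` (of characteristic zero) with residual representation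
`rhobar`, cyclotomic determinant, the condition of the level at `p`, unramified outside `p, A, T, B`,
unipotent at `A`, `T`, `B` and with trace `u_i (qB_i + 1)` of Frobenius at the raising primes is the
specialisation of the universal representation of every level at a point `pt : R → O`; the point
kills the diamond variables `c_i` and the marks `t`, `z` at the raising primes, and the trace of the
tame generators at `T` goes to `2`. Applied to the Tate module of the elliptic curve
(`exists_point_of_curve` of `GuideHeckeRings`). -/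
theorem point_of_level {O : Type} [CommRing O] [IsDomain O] [IsDiscreteValuationRing O]
    [IsAdicComplete (maximalIdeal O) O] [Finite (ResidueField O)] {p : ℕ} [Fact p.Prime]
    {ρbar : ResidualGaloisRep (ResidueField O)}
    {b : Module.Basis (Fin 2) (ResidueField O) ρbar.V} {pd : PData p ρbar b} {A : Finset ℕ}
    {T B : Type} [Fintype T] [Fintype B] {qT : T → ℕ} {pl : ∀ t, PlaceData p (qT t)} {u : T → O}
    {qB : B → ℕ} {plB : ∀ i, PlaceData p (qB i)} {uB : B → O} {k n : ℕ} {S : Finset ℕ}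
    [CharZero O] (L : GalLevelB p ρbar b pd A qT pl u qB plB uB k n S)
    (huB : ∀ i, uB i ≠ 0) (ρ : GaloisRepAdic O) (hres : ρ.residual.IsEquiv ρbar)
    (hdet : ρ.DetIsCyclotomic p) (hp : pd.𝒟p ρ)
    (hunr : ∀ q, q.Prime → q ≠ p → q ∉ A → (∀ t, qT t ≠ q) → (∀ i, qB i ≠ q) →
      ρ.IsUnramifiedAt q)
    (hA : ∀ q ∈ A, q.Prime → q ≠ p → ρ.IsUnipotentOnInertiaAt q)
    (hT : ∀ t, ρ.IsUnipotentOnInertiaAt (qT t)) (hB : ∀ i, ρ.IsUnipotentOnInertiaAt (qB i))
    (hBtr : ∀ i, LinearMap.trace O ρ.V (ρ.ρ (plB i).φ) = uB i * ((qB i : O) + 1)) :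
    ∃ pt : L.D.R →ₐ[O] O, IsLocalHom (pt : L.D.R →+* O) ∧
      (∃ b' : Module.Basis (Fin 2) O ρ.V, toMat ρ.ρ b' = mapMat (pt : L.D.R →+* O) L.r) ∧
      (∀ σ, pt (L.r σ).trace = LinearMap.trace O ρ.V (ρ.ρ σ)) ∧ (∀ i, pt (L.c i) = 0) ∧
      (∀ t, pt (L.r (pl t).σ).trace = 2) ∧ (∀ i, pt (L.mB (Sum.inl i) 0) = 0) ∧
      (∀ i, pt (L.mB (Sum.inl i) 2) = 0) :=
  L.exists_pt huB ρ hres hdet hp hunr hA hT hB hBtr

end Fermat.Agent.Guide.LiftingGalois
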