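import Fermat.Agent.H21MChain
import Fermat.Agent.H62NE

/-!
# Reader's guide: modularity lifting (S59SQ). Part 3: the Hecke modules

This file lists the key theorems about the Hecke modules of the levels in the proof of
`GuideLifting.squarefree_lifting`: group cohomology of `Γ₀(M)` with characters, the integral Ihara lemma and
its dual, and one raising step. All theorems are used in the closures of S01, S03, S04, S06, S38, S45, S46,
S50, S59 and S60.

**Setting.** `DN N` is the monoid of the integral matrices `(a b; c d)` of positive determinant with `N ∣ c`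
and `a` prime to `N`; `gam N M hM : Γ₀(M) →* DN N` for `N ∣ M`. `psiRep ψ R` is the coefficient system `R_ψ`
of a character `ψ` of `(ℤ/N)ˣ` (a matrix acts on `R` by `ψ(a)`), and `H1 (gam N M hM) (psiRep ψ R)` the
cohomology `H¹(Γ₀(M), R_ψ)` (cocycles modulo coboundaries). On it act the Hecke operators:
`(tFam hM hℓ hℓM).opH _` is `T_ℓ`, `ℓ ∤ M`; `(uFam …).opH _` is `U_n`, `n ∣ M`; `trFam` and `nuFam` give the
two traces `tr`, `ν` from level `M q` to level `M`. For `ℓ ∉ S` (`Idx S` is the type of these primes,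
`Away M S`: all primes dividing `M` are in `S`) the normalised operator is `tw hM hS ψ η ℓ = η(ℓ)⁻¹ T_ℓ`; in
all applications `ψ = η²`, so that the normalised operators look like those of trivial character.

The polynomial ring `MvPolynomial (Idx S) O` acts through the normalised operators. A homomorphism `θ` from
it to the residue field is a residual eigensystem; `IsLocIdem _ _ θ e`: the polynomial `e` acts as the
idempotent which cuts out the part with residual eigensystem `θ`; `MLoc hM hS ψ η e` is this part (see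
`localised_part`). `Good M R`: `2` is a unit of `R` and the elliptic elements of order three of `Γ₀(M)` do not
disturb (true if `3` is a unit of `R`, or if `Γ₀(M)` modulo `±1` has no elements of order three, for `p = 3`
because of the auxiliary prime `s ≡ 2` modulo `3` in the level).

No modular forms with character, no Jacobians with character, no Hecke algebra of level `Γ₁` are used: a
*twist embedding* moves eigenclasses with character `η²` to trivial character at level `M N`, where the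
Eichler-Shimura relation on `J₀` is available; this gives their Galois representations and the local
behaviour at primes `q ≠ p` (`GuideEigen`, section 4) and at `p` (`GuideUnitRoot`).

Order: (1) twist embedding and descent of relations, (2) Ihara's lemma and its dual, (3) Hecke modules over
the group ring of the diamond operators and one raising step, (4) the operators `T_q` at the raising primes.
The algebraic theory of the groups `H¹(Γ₀(M), R_ψ)` is in `GuideCohomology`, of the modules in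
`GuideTWModules`, the Hecke ring `𝕋` and `R → 𝕋` in `GuideHeckeRings`, the composition of all levels in
`GuideLiftingComposition`. More details: `GuideTwistEmbedding` and `GuideEigensystems` for section 1,
`GuideSymbolDuality` and `GuideIharaSteps` for section 2, `GuideIharaSteps` (section 6) and
`GuideRaisingSteps` (sections 6, 7) for the raising step of the localised modules, `GuideBoundedRank` for
their ranks, `GuidePatching` for the way from the modules to the patching argument.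
References: NOTES.md Appendix A.11 [184], [205], [75], [170], [295] and Appendix A.7 [201], [183]. Authors of
the files: helper21 (`H21*`), helper70 (`H70*`), helper71 (`H71R*`), helper41 (`H41*`), helper69 (`H69*`),
helper59 (`H59*`), helper65 (`H65TQ*`), helper62 (`H62*`).
-/

set_option autoImplicit false

open IsLocalRing Module Polynomial CongruenceSubgroup CuspForm TensorProduct
open scoped MatrixGroups TensorProduct
open Fermat.Agent.H70.Coh (DN gam H1 psiRep tFam uFam trFam nuFam)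

namespace Fermat.Agent.Guide.LiftingHecke

/-! ### 1. Twisting, eigenclasses and Galois representations -/

/-- **The twist embedding.** `K` a field of characteristic zero, `N` squarefree, `N ∣ M`, no prime
divisor of `N` divides `M` twice, `χ` a character of `(ℤ/N)ˣ` of odd order, `W` a `K`-vector
space. Then `H¹(Γ₀(M), W_{χ²})` embeds in `H¹(Γ₀(M N), W)` with trivial character, in such a way
that `E (T_ℓ x) = χ(ℓ) T_ℓ (E x)` and `E (U_n x) = χ(n) U_n (E x)` for `ℓ`, `n` prime to `N`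
("twisting a form with character `χ²` by `χ⁻¹`"). No modular forms with character are used.
File `H21JIter` (with `H21JBase` to `H21JCrt`); used in `H70Lev2`, `H65TQ2`, `H4EA` (closures of
S43, S59, S01). -/
theorem twist_embedding {K : Type*} [Field K] [CharZero K] {W : Type*} [AddCommGroup W]
    [Module K W] {N M L : ℕ} (hsq : Squarefree N) (hM0 : 0 < M)
    (hex : ∀ q : ℕ, q.Prime → q ∣ N → ¬ q * q ∣ M) (hM : N ∣ M) (hL : L = M * N)
    (χ : (ZMod N)ˣ →* Kˣ) {m : ℕ} (hm : Odd m) (hχ : χ ^ m = 1) :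
    ∃ E : H1 (gam N M hM) (psiRep (χ ^ 2) W) →ₗ[K]
        H1 (gam 1 L (one_dvd L)) (psiRep (1 : (ZMod 1)ˣ →* Kˣ) W),
      Function.Injective E ∧
      (∀ {ℓ : ℕ} (hℓ : ℓ.Prime) (hℓM : ¬ ℓ ∣ M) (hℓL : ¬ ℓ ∣ L) (hc : ℓ.Coprime N)
        (x : H1 (gam N M hM) (psiRep (χ ^ 2) W)),
        E ((tFam hM hℓ hℓM).opH (psiRep (χ ^ 2) W) x) =
          ((χ (ZMod.unitOfCoprime ℓ hc) : Kˣ) : K) •
            (tFam (one_dvd L) hℓ hℓL).opH (psiRep 1 W) (E x)) ∧
      ∀ {n : ℕ} (hn : 0 < n) (hnM : n ∣ M) (hnL : n ∣ L) (hc : n.Coprime N)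
        (x : H1 (gam N M hM) (psiRep (χ ^ 2) W)),
        E ((uFam hM hn hnM).opH (psiRep (χ ^ 2) W) x) =
          ((χ (ZMod.unitOfCoprime n hc) : Kˣ) : K) •
            (uFam (one_dvd L) hn hnL).opH (psiRep 1 W) (E x) := by
  obtain ⟨E, hE⟩ := H21J.exists_twist_embedding (W := W) hsq hM0 hex hM hL χ hm hχ
  exact ⟨E, hE.inj, hE.T, hE.U⟩

/-- **Relations descend.** If a polynomial `P` in the `T_ℓ` (`ℓ` prime, `ℓ ∉ S`) vanishes on
`S₂(Γ₀(L))`, it vanishes on `S₂(Γ₀(L'))` for every `L' ∣ L` (`H59.evHA` = evaluation of `P` in the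
Hecke algebra). Together with the twist embedding this makes one Hecke algebra of trivial
character, at the top level, act on all cohomology groups with character of the Taylor-Wiles
method (`H21M.exists_hecke_act_desc`, with `localised_module` of `GuideHeckeRings`). File `H21MDesc`. -/
theorem relation_descends {L' L : ℕ} [NeZero L'] [NeZero L] (hLL : L' ∣ L) {S : Set ℕ}
    (hSL : ∀ ℓ : ℕ, ℓ.Prime → ℓ ∣ L → ℓ ∈ S) (hSL' : ∀ ℓ : ℕ, ℓ.Prime → ℓ ∣ L' → ℓ ∈ S)
    {P : MvPolynomial {ℓ : ℕ // ℓ.Prime ∧ ℓ ∉ S} ℤ}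
    (hP : H59.evHA hSL P = 0) : H59.evHA hSL' P = 0 :=
  H21M.evHA_desc hLL hSL hSL' hP

/-! ### 2. Ihara's lemma and its dual -/

open Fermat.Agent.H70.Coh Fermat.Agent.H70.Mod Fermat.Agent.H59 Fermat.Agent.H71.R Fermat.Agent.H37.Rank
  Fermat.Agent.H30

/-- **The localised module** (module `H70Mod`). `MLoc hM hS ψ η e` is the image of the operator
`e(η(ℓ)⁻¹ T_ℓ, ℓ ∉ S)` on `H¹(Γ₀(M), R_ψ)` (`act T _ : O[X_ℓ] → End` is evaluation of polynomials at the
operators `T`). -/
theorem localised_part {N M : ℕ} (hM : N ∣ M) {S : Set ℕ} (hS : Away M S) {R : Type} [CommRing R]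
    (ψ η : (ZMod N)ˣ →* Rˣ) {O : Type} [CommRing O] [Algebra O R] (e : MvPolynomial (Idx S) O)
    (x : H1 (gam N M hM) (psiRep ψ R)) :
    x ∈ MLoc hM hS ψ η e ↔ ∃ y, act (tw hM hS ψ η) (tw_comm hM hS ψ η) e y = x :=
  Iff.rfl

/-- **Local idempotents** (module `H59Loc`). The polynomial `e` is a local idempotent for the residual
eigensystem `θ` if `θ(e) = 1`, `e(T)² = e(T)`, and every polynomial `s` with `θ(s) ≠ 0` is invertible on the
image of `e(T)`: the image is the localisation at the maximal ideal `ker θ`. -/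
theorem isLocIdem_iff {O ι E κ : Type} [CommRing O] [Ring E] [Algebra O E] [Field κ] (T : ι → E)
    (hT : ∀ i j, T i * T j = T j * T i) (θ : MvPolynomial ι O →+* κ) (e : MvPolynomial ι O) :
    IsLocIdem T hT θ e ↔
      θ e = 1 ∧ act T hT e * act T hT e = act T hT e ∧
        ∀ s, θ s ≠ 0 → ∃ s', act T hT (s * s' * e) = act T hT e :=
  ⟨fun h => ⟨h.residue, h.idem, h.inv⟩, fun h => ⟨h.1, h.2.1, h.2.2⟩⟩

/-- **`W[p]` is not Eisenstein.** If `W[p]` is irreducible, `p ≠ 2`, then for every `B > 0` there are a good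
prime `ℓ ∤ B` with `a_ℓ² ≠ (ℓ + 1)²` modulo `p`, and for every `D > 0` a good prime `ℓ ∤ B`, `ℓ ≡ 1` modulo
`D`, with `a_ℓ ≠ ℓ + 1` modulo `p`. File `H62NE` (from Frobenius density and
`det (complex conjugation) = -1`; the steps are in `GuideCurvesTate`, section 5). These are the hypotheses
`hNE1`, `hNE2` of the next theorems. -/
theorem non_eisenstein {p : ℕ} [Fact p.Prime] {W : WeierstrassCurve ℤ} (hΔ : W.Δ ≠ 0) (hp2 : p ≠ 2)
    (hirr : W.ModRepIsIrreducible p) {B : ℕ} (hB : 0 < B) :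
    (∃ ℓ, ℓ.Prime ∧ W.IsGoodPrimeFor ℓ ∧ ¬ ℓ ∣ B ∧ ℓ ≠ p ∧
      ((W.apOfModel ℓ : ZMod p)) ^ 2 ≠ ((ℓ : ZMod p) + 1) ^ 2) ∧
    ∀ D : ℕ, 0 < D → ∃ ℓ, ℓ.Prime ∧ W.IsGoodPrimeFor ℓ ∧ ¬ ℓ ∣ B ∧ ℓ ≠ p ∧ (ℓ : ZMod D) = 1 ∧
      (W.apOfModel ℓ : ZMod p) ≠ (ℓ : ZMod p) + 1 :=
  ⟨H62.ne1 hΔ hp2 hirr hB, fun _ hD => H62.ne2 hΔ hp2 hirr hB hD⟩

/-- **Ihara's lemma, integral form.** `oldM` is the map `(x, y) ↦ res x + V_q y` from two copies of
the localised module of level `M` to the one of level `M q` (`V_q` = slash with `diag(q, 1)`). It has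
an `R`-linear retraction. Proof (`H71RInj`, `H71RMod`): by Nakayama it is enough that the map is
injective over the residue field, where `ψ` and `η` are trivial (`ResTriv`); a nonzero kernel contains an
eigenvector, and this contradicts helper41's form of Ihara's lemma (`H41.ihara_hom_field`). -/
theorem ihara_retraction {N M q : ℕ} (hM : N ∣ M) {S : Set ℕ} (hS : Away M S)
    (hS' : Away (M * q) S) {O : Type} [CommRing O] [IsLocalRing O] {R : Type} [CommRing R]
    [IsLocalRing R] [Algebra O R] (ψ η : (ZMod N)ˣ →* Rˣ)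
    {θ : MvPolynomial (Idx S) O →+* ResidueField O} {e : MvPolynomial (Idx S) O}
    (hOR : Function.Surjective (algebraMap O (ResidueField R)))
    (hθ : ∀ a, θ (MvPolynomial.C a) = residue O a)
    (hg : Good M R) (hg' : Good (M * q) R) (hψ : ψ (-1) = 1) (hψ1 : ResTriv ψ) (hη1 : ResTriv η)
    (he : IsLocIdem (tw hM hS ψ η) (tw_comm hM hS ψ η) θ e)
    (he' : IsLocIdem (tw (dvd_mul_q (q := q) hM) hS' ψ η)
      (tw_comm (dvd_mul_q (q := q) hM) hS' ψ η) θ e)
    (hNE1 : ∃ i : Idx S, (θ (MvPolynomial.X i)) ^ 2 ≠ ((i.1 : ResidueField O) + 1) ^ 2)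
    (hNE2 : ∀ D : ℕ, D ≠ 0 → ∃ i : Idx S, (D : ℤ) ∣ (i.1 : ℤ) - 1 ∧
      θ (MvPolynomial.X i) ≠ (i.1 : ResidueField O) + 1)
    [NeZero M] [NeZero q] (hq : q.Prime) (hqM : ¬ q ∣ M) (hqN : q.Coprime N) :
    ∃ r : MLoc (dvd_mul_q (q := q) hM) hS' ψ η e →ₗ[R] MLoc hM hS ψ η e × MLoc hM hS ψ η e,
      r ∘ₗ oldM hM hS hS' ψ η hq hqN = LinearMap.id :=
  exists_retract_old hM hS hS' ψ η hOR hθ hg hg' hψ hψ1 hη1 he he' hNE1 hNE2 hq hqM hqN

/-- **The dual of Ihara's lemma.** For all `a`, `b` in the localised module of level `M` there is `x` in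
the one of level `M q` with `tr x = a` and `ν x = b` (`tr` = trace; `ν` = double coset operator of
`diag(1, q)`, the adjoint of `V_q`: slash with `diag(1, q)`, then the trace from `Γ₀(M) ∩ Γ⁰(q)` to `Γ₀(M)`).
Here `O` is moreover a principal ideal domain of characteristic zero. Proof (`H71RSurj`, `H71RModK`): by
Nakayama one may work over the residue field `k`; a pair of eigenfunctionals with values in `k` which kills
the image of `(tr, ν)` is represented by modular symbols `m₁, m₂` with values in `O` (integral duality,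
`H71Perf`, `H71Dual`); their reductions are eigensymbols with `m₁ + m₂|diag(q, 1) = 0`, hence vanish by
`H41.ihara_eigen`. -/
theorem trace_pair_surjective {N M q : ℕ} (hM : N ∣ M) {S : Set ℕ} (hS : Away M S)
    (hS' : Away (M * q) S) {O : Type} [CommRing O] [IsLocalRing O] [IsAddTorsionFree O] [IsDomain O]
    [IsPrincipalIdealRing O] {R : Type} [CommRing R]
    [IsLocalRing R] [Algebra O R] (ψ η : (ZMod N)ˣ →* Rˣ)
    {θ : MvPolynomial (Idx S) O →+* ResidueField O} {e : MvPolynomial (Idx S) O}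
    (hOR : Function.Surjective (algebraMap O (ResidueField R)))
    (hθ : ∀ a, θ (MvPolynomial.C a) = residue O a)
    (hg : Good M R) (hg' : Good (M * q) R) (hgO : Good M O) (hψ : ψ (-1) = 1)
    (hψ1 : ResTriv ψ) (hη1 : ResTriv η)
    (he : IsLocIdem (tw hM hS ψ η) (tw_comm hM hS ψ η) θ e)
    (he' : IsLocIdem (tw (dvd_mul_q (q := q) hM) hS' ψ η)
      (tw_comm (dvd_mul_q (q := q) hM) hS' ψ η) θ e)
    (hNE1 : ∃ i : Idx S, (θ (MvPolynomial.X i)) ^ 2 ≠ ((i.1 : ResidueField O) + 1) ^ 2)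
    (hNE2 : ∀ D : ℕ, D ≠ 0 → ∃ i : Idx S, (D : ℤ) ∣ (i.1 : ℤ) - 1 ∧
      θ (MvPolynomial.X i) ≠ (i.1 : ResidueField O) + 1)
    [NeZero M] [NeZero q] (hq : q.Prime) (hqM : ¬ q ∣ M) (a b : MLoc hM hS ψ η e) :
    ∃ x, trM hM hS hS' ψ η e hq hqM x = a ∧ nuM hM hS hS' ψ η e hq hqM x = b :=
  exists_tr_nu_eq hM hS hS' ψ η hOR hθ hg hg' hgO hψ hψ1 hη1 he he' hNE1 hNE2 hq hqM a b

/-- **Hecke relations** between levels `M` and `M q`, `q ∤ M` prime, on the localised modules:
`tr res = q + 1`, `tr V_q = T_q = ν res`, `ν V_q = (q + 1) ψ(q)`. Here `resM = res`, `degM = V_q`, `trM = tr`,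
`nuM = ν`, `tqM = T_q`. File `H71RMod`. -/
theorem hecke_relations {N M q : ℕ} (hM : N ∣ M) {S : Set ℕ} (hS : Away M S) (hS' : Away (M * q) S)
    {R : Type} [CommRing R] (ψ η : (ZMod N)ˣ →* Rˣ) {O : Type} [CommRing O] [Algebra O R]
    {e : MvPolynomial (Idx S) O} [NeZero M] [NeZero q] (hq : q.Prime) (hqM : ¬ q ∣ M)
    (hqN : q.Coprime N) (u : MLoc hM hS ψ η e) :
    trM hM hS hS' ψ η e hq hqM (resM hM hS hS' ψ η e u) = (q + 1) • u ∧
    trM hM hS hS' ψ η e hq hqM (degM hM hS hS' ψ η e hq hqN u) = tqM hM hS ψ η e hq hqM u ∧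
    nuM hM hS hS' ψ η e hq hqM (resM hM hS hS' ψ η e u) = tqM hM hS ψ η e hq hqM u ∧
    nuM hM hS hS' ψ η e hq hqM (degM hM hS hS' ψ η e hq hqN u) =
      (q + 1) • ((ψ (ZMod.unitOfCoprime q hqN) : Rˣ) : R) • u :=
  ⟨trM_resM hM hS hS' ψ η hq hqM u, trM_degM hM hS hS' ψ η hq hqM hqN u,
    nuM_resM hM hS hS' ψ η hq hqM u, nuM_degM hM hS hS' ψ η hq hqM hqN u⟩

/-! ### 3. Hecke modules over the group ring and one raising step -/

section Step

open Fermat.Agent.H69.EG (EMod Dlt)

/-- **The Hecke module of one level.** `Δ = Dlt p e = ∏_j ℤ/p^(e_j)`, `Λ = O[Δ]`, `η : (ℤ/N)ˣ → Λˣ` a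
character of `p`-power order, `N` squarefree, `M N ∣ L`, `θ` a residual eigensystem of level `L` which is
not Eisenstein (`hi₀`). The localised part `MLoc` of `H¹(Γ₀(M), Λ_{η²})` is a Hecke module
`A : EMod O p e 𝕋` over the local Hecke algebra `𝕋 = heckeLocal L S O θ` of *trivial* character and level
`L`: the image in `𝕋` of a polynomial `P` acts as `P(η(ℓ)⁻¹ T_ℓ)` (`mactO … P`), `g ∈ Δ` as multiplication
by `g` (`diam … g`); it is free over `Λ`, of rank the rank of the localised part of `H¹(Γ₀(M), O)`.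
(Freeness: the module of cocycles is projective because of `Good`, and because of `hi₀` the localised part
of `H¹` is a direct summand of it.) `Adm S M`: all prime divisors of `M` are in `S`. File `H21MLev`; an
`EMod` is explained in `compat_iff`; for `toLocal`, `thetaPoly` and the action of `heckeLocal` see
`GuideHeckeRings` (`polynomials`, `localised_module`). -/
theorem hecke_module {N M L : ℕ} [NeZero N] [NeZero M] [NeZero L] (hM : N ∣ M) {S : Set ℕ}
    (hS : Away M S) (hSL : ∀ q : ℕ, q.Prime → q ∣ L → q ∈ S)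
    {O : Type} [CommRing O] [IsDomain O] [IsDiscreteValuationRing O]
    [IsAdicComplete (maximalIdeal O) O] [CharZero O]
    {p : ℕ} [Fact p.Prime] (hp2 : p ≠ 2) (hpO : (p : O) ∈ maximalIdeal O)
    {r : ℕ} {e : Fin r → ℕ} {η : (ZMod N)ˣ →* (MonoidAlgebra O (Dlt p e))ˣ}
    (θ : heckeAlgebra L 2 S →+* ResidueField O) {ee : MvPolynomial (Idx S) O}
    (hsq : Squarefree N) (hex : ∀ q : ℕ, q.Prime → q ∣ N → ¬ q * q ∣ M) (hL : M * N ∣ L)
    {s : ℕ} (hη : η ^ p ^ s = 1)
    (hgΛ : Good M (MonoidAlgebra O (Dlt p e))) (hgM : Good M O) (hgL : Good (M * N) O)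
    (heΛ : IsLocIdem (tw hM hS (η ^ 2) η) (tw_comm hM hS (η ^ 2) η)
      (thetaPoly L S hSL O θ) ee)
    (he : ∀ (L' : ℕ) (hL' : Adm S L'), L' ∣ L →
      IsLocIdem (TT O hL') (TT_comm hL') (thetaPoly L S hSL O θ) ee)
    (i₀ : Idx S) (hi₀1 : (L : ℤ) ∣ (i₀.1 : ℤ) - 1)
    (hi₀ : θ (TIdx L S hSL i₀) ≠ 1 + (i₀.1 : ResidueField O)) (hSM : Adm S M) :
    ∃ (A : EMod O p e (heckeLocal L S O θ)) (ι : A.M ≃ₗ[O] MLoc hM hS (η ^ 2) η ee),
      ((∀ P x, ι (A.Φ (toLocal L S hSL O θ P) x) = mactO hM hS (η ^ 2) η ee P (ι x)) ∧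
        ∀ g x, ι (A.Ψ g x) = diam hM hS (η ^ 2) η ee g (ι x)) ∧
      A.d = Module.finrank O (Loc (TT O hSM) (TT_comm hSM) ee) := by
  exact (H21M.exists_emod hM hS hSL hp2 hpO θ hsq hex hL hη hgΛ hgM hgL heΛ he i₀ hi₀1 hi₀ hSM).imp
    fun _ => Exists.imp fun _ h => ⟨⟨h.1.Φ, h.1.Ψ⟩, h.2⟩

/-- **Eigenvectors** (module `H59Eigen`). `H59.ForallEigen Φ P` says that `P O' λ x` holds for all
eigenvectors `x ≠ 0` of the `O`-algebra `𝕋` acting by `Φ` on the module `M`, with coefficients in any finite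
extension `O'` of `O` which is a complete discrete valuation ring of characteristic 0 with finite residue
field; `λ : 𝕋 → O'` is the eigenvalue. -/
theorem forallEigen_iff {O : Type} [CommRing O] [IsDomain O] [IsDiscreteValuationRing O]
    [IsAdicComplete (maximalIdeal O) O] [Finite (ResidueField O)] [CharZero O]
    {M : Type} [AddCommGroup M] [Module O M] [Module.Finite O M] [Module.Free O M]
    {𝕋 : Type} [CommRing 𝕋] [Algebra O 𝕋] [Module.Finite O 𝕋] (Φ : 𝕋 →ₐ[O] Module.End O M)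
    (P : ∀ (O' : Type) [CommRing O'] [IsDomain O'] [IsDiscreteValuationRing O']
      [IsAdicComplete (maximalIdeal O') O'] [Finite (ResidueField O')] [CharZero O']
      [Algebra O O'] [Module.Finite O O'] [IsLocalHom (algebraMap O O')],
      (𝕋 →ₐ[O] O') → (O' ⊗[O] M) → Prop) :
    ForallEigen Φ P ↔ ∀ (O' : Type) [CommRing O'] [IsDomain O'] [IsDiscreteValuationRing O']
      [IsAdicComplete (maximalIdeal O') O'] [Finite (ResidueField O')] [CharZero O']
      [Algebra O O'] [Module.Finite O O'] [IsLocalHom (algebraMap O O')],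
      Function.Injective (algebraMap O O') → ∀ (lam : 𝕋 →ₐ[O] O') (x : O' ⊗[O] M), x ≠ 0 →
        (∀ t, (Φ t).baseChange O' x = lam t • x) → P O' lam x := Iff.rfl

/-- **Hecke modules with diamond operators.** An `H69.EG.EMod O p e 𝕋` is a module `E.M` over `O` with
commuting actions `E.Φ` of the Hecke ring `𝕋` and `E.Ψ` of the finite group `Δ = ∏_j ℤ/p^(e_j)` (the diamond
operators at the Taylor-Wiles primes), free of rank `E.d` over the group ring `O[Δ]`. The **compatibility**
`E.Compat π c` with elements `c_j` of the deformation ring `R → 𝕋`: on an eigenvector with character `χ` of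
`Δ` and eigenvalue `λ`, `χ = 1` if and only if `λ(1 + c_j) = 1` for all `j`. -/
theorem compat_iff {O : Type} [CommRing O] [IsDomain O] [IsDiscreteValuationRing O]
    [IsAdicComplete (maximalIdeal O) O] [Finite (ResidueField O)] [CharZero O] {p : ℕ} [Fact p.Prime]
    [CharP (ResidueField O) p] {R : Type} [CommRing R] [IsLocalRing R] [Algebra O R]
    {𝕋 : Type} [CommRing 𝕋] [Algebra O 𝕋] [Module.Finite O 𝕋]
    {r : ℕ} {e : Fin r → ℕ} (E : EMod O p e 𝕋) (π : R →ₐ[O] 𝕋) (c : Fin r → R) :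
    E.Compat π c ↔ ForallEigen E.Φ fun O' _ _ _ _ _ _ _ _ _ lam x =>
      ∀ χ : (∀ j, Multiplicative (ZMod (p ^ e j))) →* O',
        (∀ g, (E.Ψ g).baseChange O' x = χ g • x) →
          ((∀ g, χ g = 1) ↔ ∀ j, lam (π (1 + c j)) = 1) := Iff.rfl

/-- **Eigensystems of a quotient** (module `H41FullX`). If `X` is a quotient of the module `M` compatibly with
two commuting actions (of `𝕋` and of a finite commutative group `Δ`), every pair (eigenvalue `λ`, character
`χ`) that occurs in `O' ⊗ X` occurs in `O' ⊗ M`. So properties of all eigensystems pass to quotients. -/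
theorem eigensystems_of_quotient {O : Type} [CommRing O] {M X : Type} [AddCommGroup M] [Module O M]
    [AddCommGroup X] [Module O X] {𝕋 : Type} [CommRing 𝕋] [Algebra O 𝕋] {Δ : Type} [CommGroup Δ]
    [Finite Δ] [Module.Finite O M] [Module.Finite O 𝕋] [Module.Free O X]
    (Φ : 𝕋 →ₐ[O] Module.End O M) (Ψ : Δ →* Module.End O M) (hc : ∀ t g, Φ t * Ψ g = Ψ g * Φ t)
    (Φ' : 𝕋 →ₐ[O] Module.End O X) (Ψ' : Δ →* Module.End O X) (hc' : ∀ t g, Φ' t * Ψ' g = Ψ' g * Φ' t)
    (quo : M →ₗ[O] X) (hq : Function.Surjective quo) (hΦ : ∀ t x, quo (Φ t x) = Φ' t (quo x))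
    (hΨ : ∀ g x, quo (Ψ g x) = Ψ' g (quo x)) (O' : Type) [CommRing O'] [IsDomain O']
    [IsNoetherianRing O'] [Algebra O O'] (lam : 𝕋 →ₐ[O] O') (χ : Δ →* O') (x : O' ⊗[O] X) (hx : x ≠ 0)
    (hl : ∀ t, (Φ' t).baseChange O' x = lam t • x) (hχ : ∀ g, (Ψ' g).baseChange O' x = χ g • x) :
    ∃ y : O' ⊗[O] M, y ≠ 0 ∧ (∀ t, (Φ t).baseChange O' y = lam t • y) ∧
      ∀ g, (Ψ g).baseChange O' y = χ g • y :=
  H41.FX.exists_eigen_lift_char Φ Ψ hc Φ' Ψ' hc' quo hq hΦ hΨ O' lam χ x hx hl hχ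

/-- **The quotient by the old part** (module `H41FullX`). `res, deg : A → B` are the two degeneracy maps and
`ret` is a retraction of `(res, deg)`, equivariant under the diamond operators only (integral form of Ihara's
lemma). Then `X = B/(res A + deg A)` is again a free module over the group ring, of rank `d_B - 2 d_A`. -/
theorem quotient_by_old_part {O : Type} [CommRing O] {p : ℕ} [Fact p.Prime] {𝕋 : Type} [CommRing 𝕋]
    [Algebra O 𝕋] {r : ℕ} {e : Fin r → ℕ} [IsLocalRing O] (hpO : (p : O) ∈ maximalIdeal O)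
    (A B : EMod O p e 𝕋) (res deg : A.M →ₗ[O] B.M)
    (hresΦ : ∀ t x, res (A.Φ t x) = B.Φ t (res x)) (hresΨ : ∀ g x, res (A.Ψ g x) = B.Ψ g (res x))
    (hdegΦ : ∀ t x, deg (A.Φ t x) = B.Φ t (deg x)) (hdegΨ : ∀ g x, deg (A.Ψ g x) = B.Ψ g (deg x))
    (ret : B.M →ₗ[O] A.M × A.M)
    (hretΨ : ∀ g x, ret (B.Ψ g x) = (A.Ψ g (ret x).1, A.Ψ g (ret x).2))
    (hret : ∀ u v, ret (res u + deg v) = (u, v)) :
    ∃ (X : EMod O p e 𝕋) (quo : B.M →ₗ[O] X.M), Function.Surjective quo ∧
      (∀ x, quo x = 0 ↔ ∃ u v, x = res u + deg v) ∧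
      (∀ t x, quo (B.Φ t x) = X.Φ t (quo x)) ∧ (∀ g x, quo (B.Ψ g x) = X.Ψ g (quo x)) ∧
      X.d + 2 * A.d = B.d :=
  H41.FX.exists_quot hpO A B res deg hresΦ hresΨ hdegΦ hdegΨ ret hretΨ hret

/-- **One raising step.** `q` is the prime that is added to the level; `res, deg : A → B` and
`tr, nu : B → A` are the two degeneracy maps and the two traces, `tq` is the operator at `q` on `A`, `dia` the
(invertible) diamond operator; their compositions form the matrix `(q+1, tq; tq, (q+1) dia)`. On the Galois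
side `T2` is the square of the trace of Frobenius at `q` (`hstar`: `tq² = dia · T2`; in the application
`tq = η(q) tb`, `dia = η(q)²`, `T2 = tb²`), and `(q+1)² - T2 = unit * t (t + c)` in the deformation ring `R`
(`hT2`): `t` is the mark at `q`, i.e. the distance of the trace of Frobenius from the Steinberg value (at
`q = p` see `tau_sq` of `GuideUnitRoot`). Hypotheses from modular forms: `(tr, nu)` is surjective and
`(res, deg)` has a retraction (integral Ihara lemma and its dual), and `t (t + c)` kills the common kernel of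
`tr` and `nu` (the part which is new at `q`).

Conclusion: `X = B/(old part)` has rank `d_B - 2 d_A` and the compatibility of `B`, and is killed by
`(t (t + c))²`; there is an equivariant lowering map `low : B → A` with `c' A ⊆ low(B)`, `c'` divisible by
`q + 1`, and `low` of the old part is contained in `t A`. These are the conditions at `q` in the patching
argument without minimality. (`H41FullX`; used in `H41Step`, where `tr`, `nu`, ... are the maps of section 2,
and through it in `H21MChain`.)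

Proof: `low = (q + 1) dia tr - tq nu` is zero on the image of `deg`, and on the image of `res` it is the
determinant `(q + 1)² dia - tq² = dia w t (t + c)` of the matrix above; if `tr x = dia⁻¹ a` and `nu x = 0`,
then `low x = (q + 1) a`. For `y` in `B` the adjugate of the matrix gives an old element with the same `tr`
and `nu` as `w t (t + c) y`; so `t (t + c)` kills the difference, and `(t (t + c))² y` is old. -/
theorem raising_step {O : Type} [CommRing O] [IsDomain O] [IsDiscreteValuationRing O]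
    [IsAdicComplete (maximalIdeal O) O] [Finite (ResidueField O)] [CharZero O] {p : ℕ} [Fact p.Prime]
    {𝕋 : Type} [CommRing 𝕋] [Algebra O 𝕋] [Module.Finite O 𝕋] [IsReduced 𝕋] {r : ℕ} {e : Fin r → ℕ}
    (hpO : (p : O) ∈ maximalIdeal O) {R : Type} [CommRing R] [Algebra O R] (π : R →ₐ[O] 𝕋)
    (A B : EMod O p e 𝕋) (q : ℕ) (res deg : A.M →ₗ[O] B.M) (tr nu : B.M →ₗ[O] A.M)
    (tq dia dia1 : Module.End O A.M)
    (hresΦ : ∀ t x, res (A.Φ t x) = B.Φ t (res x)) (hresΨ : ∀ g x, res (A.Ψ g x) = B.Ψ g (res x))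
    (hdegΦ : ∀ t x, deg (A.Φ t x) = B.Φ t (deg x)) (hdegΨ : ∀ g x, deg (A.Ψ g x) = B.Ψ g (deg x))
    (htrΦ : ∀ t x, tr (B.Φ t x) = A.Φ t (tr x)) (hnuΦ : ∀ t x, nu (B.Φ t x) = A.Φ t (nu x))
    (htqΦ : ∀ t x, tq (A.Φ t x) = A.Φ t (tq x)) (hdiaΦ : ∀ t x, dia (A.Φ t x) = A.Φ t (dia x))
    (hdd : ∀ x, dia (dia1 x) = x) (hdd' : ∀ x, dia1 (dia x) = x) (htqd : ∀ x, tq (dia x) = dia (tq x))
    (htr_res : ∀ x, tr (res x) = ((q : O) + 1) • x) (htr_deg : ∀ x, tr (deg x) = tq x)
    (hnu_res : ∀ x, nu (res x) = tq x) (hnu_deg : ∀ x, nu (deg x) = ((q : O) + 1) • dia x)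
    (hsurj : ∀ a b, ∃ x, tr x = a ∧ nu x = b) (ret : B.M →ₗ[O] A.M × A.M)
    (hretΨ : ∀ g x, ret (B.Ψ g x) = (A.Ψ g (ret x).1, A.Ψ g (ret x).2))
    (hret : ∀ u v, ret (res u + deg v) = (u, v))
    (t T2 w w1 : R) (c c' : O) (hw : w * w1 = 1) (hstar : ∀ x, tq (tq x) = dia (A.Φ (π T2) x))
    (hT2 : ((q : R) + 1) ^ 2 - T2 = w * (t * (t + algebraMap O R c)))
    (hkill : ∀ x, tr x = 0 → nu x = 0 → B.Φ (π (t * (t + algebraMap O R c))) x = 0)
    (hc' : ((q : O) + 1) ∣ c') :
    ∃ (X : EMod O p e 𝕋) (quo : B.M →+ X.M) (low : B.M →+ A.M),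
      X.d + 2 * A.d = B.d ∧
      (∀ {r' : Fin r → R}, B.Compat π r' → X.Compat π r') ∧
      (∀ s x, quo (B.Φ s x) = X.Φ s (quo x)) ∧ Function.Surjective quo ∧
      (∀ s x, low (B.Φ s x) = A.Φ s (low x)) ∧
      (∀ a, ∃ x, low x = c' • a) ∧
      (∀ x, quo x = 0 → ∃ a, low x = A.Φ (π t) a) ∧
      (∀ x : X.M, X.Φ (π ((t * (t + algebraMap O R c)) ^ 2)) x = 0) :=
  H41.FX.exists_newStep_of_kills hpO π A B q res deg tr nu tq dia dia1 hresΦ hresΨ hdegΦ hdegΨ htrΦ
    hnuΦ htqΦ hdiaΦ hdd hdd' htqd htr_res htr_deg hnu_res hnu_deg hsurj ret hretΨ hret t T2 w w1 c c' hw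
    hstar hT2 hkill hc'

end Step

/-! ### 4. The operators `T_q` at the raising primes

The Hecke ring `𝕋 = heckeLocal L S O θ` is generated by the `T_ℓ` with `ℓ ∉ S`, and the primes `q` at which
the level is raised are in `S`. But the raising step uses that `T_q` acts on `MLoc` as an element `η(q) Φ(t)`
with `t ∈ 𝕋` (`t` comes from the trace of a Frobenius element at `q`). For eigenclasses this is the
Eichler-Shimura relation; the passage from eigenclasses to the module is as follows. -/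

/-- **Operators which agree on joint eigenvectors are equal.** `O` a complete discrete valuation ring of
characteristic zero with finite residue field, `M` a finite free `O`-module, `𝕋` a reduced finite `O`-algebra
acting by `Φ`, `Δ` a finite commutative group acting by `Ψ`, and `A` an operator; all commute. Suppose that
`A` is a root of a polynomial `G` without multiple roots, and that `lam(t) = μ` for every `v ≠ 0` in
`O' ⊗ M`, `O'` finite over `O`, which is an eigenvector of `𝕋` (eigenvalues `lam`), of `Δ` (`χ`) and of `A`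
(`μ`). Then `Φ(t) = A`. Proof: the algebra generated by `𝕋`, `Δ` and `A` is reduced, because all its elements
are semisimple over the fraction field; so `M` is spanned by joint eigenvectors over a finite extension.
File `H65TQ1`. -/
theorem eq_of_joint_eigenvectors {O : Type} [CommRing O] [IsDomain O] [IsDiscreteValuationRing O]
    [IsAdicComplete (maximalIdeal O) O] [Finite (ResidueField O)] [CharZero O]
    {M : Type} [AddCommGroup M] [Module O M] [Module.Finite O M] [Module.Free O M]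
    {𝕋 : Type} [CommRing 𝕋] [Algebra O 𝕋] [Module.Finite O 𝕋] [IsReduced 𝕋]
    {Δ : Type} [CommGroup Δ] [Finite Δ] (Φ : 𝕋 →ₐ[O] Module.End O M) (Ψ : Δ →* Module.End O M)
    (hΦΨ : ∀ t g, Φ t * Ψ g = Ψ g * Φ t) (A : Module.End O M) (hAΦ : ∀ t, Φ t * A = A * Φ t)
    (hAΨ : ∀ g, Ψ g * A = A * Ψ g) (G : O[X])
    (hGs : (G.map (algebraMap O (FractionRing O))).Separable) (hGA : aeval A G = 0) (t : 𝕋)
    (h : ∀ (O' : Type) [CommRing O'] [IsDomain O'] [IsDiscreteValuationRing O']
      [IsAdicComplete (maximalIdeal O') O'] [Finite (ResidueField O')] [CharZero O']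
      [Algebra O O'] [Module.Finite O O'] [IsLocalHom (algebraMap O O')],
      Function.Injective (algebraMap O O') → ∀ (lam : 𝕋 →ₐ[O] O') (v : O' ⊗[O] M), v ≠ 0 →
        (∀ t, (Φ t).baseChange O' v = lam t • v) →
        ∀ χ : Δ →* O'ˣ, (∀ g, (Ψ g).baseChange O' v = ((χ g : O'ˣ) : O') • v) →
          ∀ μ : O', A.baseChange O' v = μ • v → lam t = μ) :
    Φ t = A :=
  H65.TQ.eq_of_joint_eigen Φ Ψ hΦΨ A hAΦ hAΨ G hGs hGA t h

/-- **A separable polynomial which annihilates `T_q`.** On the cusp forms of weight two and level `L` the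
Hecke operator `T_q`, `q ∤ L`, satisfies a monic integral polynomial without multiple roots: the Hecke
algebra generated by the `T_ℓ`, `ℓ ∤ L` (`H65.TQ.badP L` is the set of the primes dividing `L`) is finite
over `ℤ` (S22) and reduced (Petersson scalar product). File `H65TQ2`. -/
theorem exists_separable_annihilator (L q : ℕ) [NeZero L] (hq : q.Prime) (hqL : ¬ q ∣ L) :
    ∃ G : ℤ[X], G.Monic ∧ (G.map (algebraMap ℤ ℚ)).Separable ∧
      aeval (heckeAlgebra.T hq hqL (H65.TQ.notMem_badP hqL) :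
        heckeAlgebra L 2 (H65.TQ.badP L)) G = 0 :=
  H65.TQ.exists_ann L q hq hqL

/-- **The same polynomial annihilates `η(q)⁻¹ T_q` on the Hecke modules.** `MLoc`, with coefficients in the
group ring `Λ = O[Δ]` and character `ψ = η²` of odd order; `G` kills `T_q` on the cusp forms of level
`L = M N`. Then `G(η(q)⁻¹ T_q) x = 0` for `x ∈ MLoc`. Proof: `MLoc` is free over `O`, so one may extend the
scalars to an algebraically closed field and decompose under `Δ`; then `twist_embedding` maps the class to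
one of trivial character and level `M N`, where the part belonging to `θ` consists of cusp forms.
File `H65TQ2`. -/
theorem annihilator_on_modules {N M L : ℕ} (hM : N ∣ M) {S : Set ℕ}
    (hS : H70.Mod.Away M S) (hSL : H37.Rank.Adm S L) {O : Type} [CommRing O] [IsDomain O] [CharZero O]
    {Δ : Type} [CommGroup Δ] {ψ η : (ZMod N)ˣ →* (MonoidAlgebra O Δ)ˣ} {κ : Type} [Field κ]
    {θ : MvPolynomial (H70.Mod.Idx S) O →+* κ} {e : MvPolynomial (H70.Mod.Idx S) O} {q : ℕ}
    (hq : q.Prime) (hqM : ¬ q ∣ M) [Finite Δ] [NeZero M] [NeZero L] (hsq : Squarefree N)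
    (hex : ∀ q : ℕ, q.Prime → q ∣ N → ¬ q * q ∣ M) (hL : L = M * N) (hψ : ψ = η ^ 2) {m : ℕ}
    (hm : Odd m) (hη : η ^ m = 1) (hgΛ : H70.Coh.Good M (MonoidAlgebra O Δ)) (hψ1 : ψ (-1) = 1)
    (hgL : H70.Coh.Good L O)
    (heΛ : H59.IsLocIdem (H70.Mod.tw hM hS ψ η) (H70.Mod.tw_comm hM hS ψ η) θ e)
    (he : H59.IsLocIdem (H37.Rank.TT O hSL) (H37.Rank.TT_comm hSL) θ e)
    [Module.Free O (H70.Mod.MLoc hM hS ψ η e)] (i₀ : H70.Mod.Idx S)
    (hi₀1 : (L : ℤ) ∣ (i₀.1 : ℤ) - 1) (hi₀ : θ (MvPolynomial.X i₀) ≠ 1 + (i₀.1 : κ))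
    (hqL : ¬ q ∣ L) {G : ℤ[X]}
    (hG : aeval (heckeAlgebra.T hq hqL (H65.TQ.notMem_badP hqL) :
      heckeAlgebra L 2 (H65.TQ.badP L)) G = 0)
    {x : H1 (gam N M hM) (psiRep ψ (MonoidAlgebra O Δ))} (hx : x ∈ H70.Mod.MLoc hM hS ψ η e) :
    aeval (H65.TQ.ntq hM ψ η hq hqM) G x = 0 :=
  H65.TQ.aeval_ntq_eq_zero hM hS hSL hq hqM hsq hex hL hψ hm hη hgΛ hψ1 hgL heΛ he i₀ hi₀1 hi₀
    hqL hG hx

set_option synthInstance.maxHeartbeats 400000 in
set_option maxHeartbeats 1000000 in
/-- **`T_q` acts as `η(q) Φ(t)`** on the Hecke module `MLoc` (`ψ = η²`, coefficients in `Λ = O[Δ]`), `Φ` the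
action of `𝕋 = heckeLocal L S O θ`, if it does so on eigenclasses: that is, if `lam(t) = μ` (`hpt`) for every
`O'` finite over `O`, every `O'`-valued character `η'` of `p`-power order, and every eigenclass
`z ∈ H¹(Γ₀(M), O'_{η'²})` (`IsPt`: nonzero multiples do not vanish, `η'(ℓ)⁻¹ T_ℓ z = lam(T_ℓ) z` for `ℓ ∉ S`)
with `T_q z = η'(q) μ z`. In the application (`H21MChain`) `t` is given by the trace of a Frobenius element
at `q`, and `hpt` is the Eichler-Shimura relation. File `H65TQ3`, by the three preceding theorems. -/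
theorem t_q_on_modules {N M L : ℕ} [NeZero M] [NeZero L] [NeZero (M * N)] (hM : N ∣ M) {S : Set ℕ}
    (hS : H70.Mod.Away M S) (hSL : ∀ q : ℕ, q.Prime → q ∣ L → q ∈ S)
    (hSMN : H37.Rank.Adm S (M * N)) {O : Type} [CommRing O] [IsDomain O]
    [IsDiscreteValuationRing O] [IsAdicComplete (maximalIdeal O) O] [Finite (ResidueField O)]
    [CharZero O] {p : ℕ} (hp : p.Prime) (hpO : (p : O) ∈ maximalIdeal O) {Δ : Type} [CommGroup Δ]
    [Finite Δ] {η : (ZMod N)ˣ →* (MonoidAlgebra O Δ)ˣ}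
    (θ : heckeAlgebra L 2 S →+* ResidueField O) [Module.Finite O (heckeLocal L S O θ)]
    [IsReduced (heckeLocal L S O θ)] {e : MvPolynomial (H70.Mod.Idx S) O} (hp2 : p ≠ 2)
    (hsq : Squarefree N) (hex : ∀ q : ℕ, q.Prime → q ∣ N → ¬ q * q ∣ M) {s : ℕ}
    (hη : η ^ p ^ s = 1) (hgΛ : H70.Coh.Good M (MonoidAlgebra O Δ)) (hgL : H70.Coh.Good (M * N) O)
    (heΛ : H59.IsLocIdem (H70.Mod.tw hM hS (η ^ 2) η) (H70.Mod.tw_comm hM hS (η ^ 2) η)
      (H30.thetaPoly L S hSL O θ) e)
    (he : H59.IsLocIdem (H37.Rank.TT O hSMN) (H37.Rank.TT_comm hSMN) (H30.thetaPoly L S hSL O θ) e)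
    [Module.Free O (H70.Mod.MLoc hM hS (η ^ 2) η e)]
    [Module.Finite O (H70.Mod.MLoc hM hS (η ^ 2) η e)] (i₀ : H70.Mod.Idx S)
    (hi₀1 : ((M * N : ℕ) : ℤ) ∣ (i₀.1 : ℤ) - 1)
    (hi₀ : θ (H30.TIdx L S hSL i₀) ≠ 1 + (i₀.1 : ResidueField O))
    (Φ : heckeLocal L S O θ →ₐ[O] Module.End O (H70.Mod.MLoc hM hS (η ^ 2) η e))
    (hΦ : ∀ P, Φ (H30.toLocal L S hSL O θ P) = H70.Mod.mactO hM hS (η ^ 2) η e P)
    {q : ℕ} (hq : q.Prime) (hqM : ¬ q ∣ M) (t : heckeLocal L S O θ)
    (hpt : ∀ (O' : Type) [CommRing O'] [IsDomain O'] [IsDiscreteValuationRing O']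
      [IsAdicComplete (maximalIdeal O') O'] [Finite (ResidueField O')] [CharZero O']
      [Algebra O O'] [Module.Finite O O'] [IsLocalHom (algebraMap O O')],
      Function.Injective (algebraMap O O') → ∀ (lam : heckeLocal L S O θ →ₐ[O] O')
      (η' : (ZMod N)ˣ →* O'ˣ) (z : H1 (gam N M hM) (psiRep (η' ^ 2) O')),
      (∃ k, η' ^ p ^ k = 1) →
      H70.Mod.IsPt hM hS η' (fun i => lam (heckeLocal.π L S O θ (H30.TIdx L S hSL i))) z → ∀ μ : O',
      (tFam hM hq hqM).opH (psiRep (η' ^ 2) O') z =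
        (((η' (ZMod.unitOfCoprime q (H70.Coh.coprime_of_not_dvd hq hqM hM)) : O'ˣ) : O') * μ) • z →
      lam t = μ) (x : H70.Mod.MLoc hM hS (η ^ 2) η e) :
    H71.R.tqM hM hS (η ^ 2) η e hq hqM x =
      ((η (ZMod.unitOfCoprime q (H70.Coh.coprime_of_not_dvd hq hqM hM)) : (MonoidAlgebra O Δ)ˣ) :
        MonoidAlgebra O Δ) • Φ t x :=
  H65.TQ.tqM_eq hM hS hSL hSMN hp hpO θ hp2 hsq hex hη hgΛ hgL heΛ he i₀ hi₀1 hi₀ Φ hΦ hq hqM t
    hpt x

end Fermat.Agent.Guide.LiftingHecke
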