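import Fermat.Agent.H57S59sq

/-!
# Reader's guide: modularity lifting (S59SQ), the steps behind `GuideLiftingComposition`

Companion of `GuideLiftingComposition`, which puts the Galois side and the Hecke side of a level together.
This file lists the steps of the proofs which are summarised there: the bookkeeping of the levels, the points
of the deformation ring and of the Hecke ring, the witness, the way from eigenvectors in the modules to
eigenclasses in cohomology, the ranks, the hypotheses at `p` for the types `F` and `O` and the marks in type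
`Pβ`, and the last step (module part, ring part, level). Nothing is proved here: every theorem cites a theorem
of the library. Used in the closures of S01, S03, S04, S06, S38, S45, S46, S50, S59, S60 (sections 8 and
11: see there).

**The line of the argument** (notation of `GuideLiftingComposition`). Fix a Galois side `G` with universal
ring `R`, and let `π : R → 𝕋` be the map to the localised Hecke algebra of the top level.

1. Sections 1, 5: the levels are squarefree numbers `M₀ b_0 ⋯ b_{i-1}` (times the primes of the characters);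
   the ranks of their modules over `O[Δ]` are bounded independently of the Taylor-Wiles primes, and positive.
2. Section 4: a statement `lam (π a) = 0` for all classes ("points") of a level gives a statement about all
   eigenvectors of the module of the level, hence `a` acts as zero on it. In this way the local facts at the
   primes (`GuideLiftingComposition`, section 2) become relations in the modules.
3. Sections 2, 3: the witness. Let `N` be the top level without the Taylor-Wiles primes. An integral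
   polynomial `P` with `P(T_ℓ) = 0` at level `N` and `P(a_ℓ(W)) ≠ 0` gives the element `trElt r P` of `R`: its
   value at the point of `W` is `P(a_ℓ(W))`; its value at a point without character of level `N ∏ Q`, `Q`
   Taylor-Wiles primes, is `0`, because the primes of `Q` can be removed from the level of an eigenclass
   (there are no Steinberg points at Taylor-Wiles primes) and `P(T_ℓ) = 0` holds at level `N`.
4. Section 6: the facts at `p` in the types `F` and `O`, and why the mark `t` vanishes in type `Pβ`.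
5. Section 7: the local facts and the ranks give the module part of a level; together with the Galois side it
   is a level in the sense of `GuideLiftingAlgebra`.
6. Sections 9, 10: what is needed of the curve: its representations at the multiplicative primes, `Good`, and
   that the eigensystem is not Eisenstein. Sections 8, 11: from Frobenius elements to all traces.

**Names in the statements.** `Tset T`: the type of the elements of `T`. `Pr S`, `Idx S`: the primes outside
`S`; `Adm S M`, `Away M S`: all prime divisors of `M` are in `S`. `PlaceData p q`: a place above `q` with a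
Frobenius element `φ` and a generator `σ` of tame inertia. `PData p ρbar b`: a local condition at `p` with
its marks; `pdF`, `pdO` are those of the types `F`, `O`. `GalLevelB`: the Galois side of a level
(`GuideLiftingGalois`, `galLevel_fields`). `VanishAt`, `VanishAt₁`: an element of `R` vanishes at all points
of a level, respectively at those with character `1`. `MarkFacts`, `TFacts`, `TWFacts`: the local facts at
the raising primes, at `T`, at the Taylor-Wiles primes (`GuideLiftingComposition`). `FullLevel`: a complete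
level (`GuideLiftingAlgebra`); `MIdx s` numbers its modules (`chi`, `mod i`, `new i`). `cj g r`: the
conjugate `g⁻¹ r g`. `NonScalar`: not a scalar matrix. `h1Lev`: change of the auxiliary level `N` in
cohomology.

Other companions: `GuideIharaSteps` and `GuideRaisingSteps` (the raising step), `GuidePatching` (the structure
of the module part), `GuideBoundedRank` (why the ranks are bounded), `GuideEigensystems`, `GuideEigenSteps`
(eigenclasses and representations), `GuideLevelsPoints` (points with characters), `GuideGaloisPoints` (points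
of the deformation rings). References: NOTES.md Appendix A.11 [213], [214], [184]. Authors of the files:
helper86 (`H86FM*`, `H86In*`, `H86Charpoly`, `H86Density*`), helper21 (`H21M*`), helper69 (`H69Pt`), helper35
(`H35Rk`, `H35InB1`), helper30 (`H30Lev`, `H30PT`), helper57 (`H57S59Part`, `H57S59Out`), helper10 (`H10NE`),
helper65 (`H65InF`), helper20 (`H20InO`). -/

set_option autoImplicit false
set_option linter.style.haveILetI false

open IsLocalRing Module Polynomial GaloisRep CuspForm CongruenceSubgroup Matrix WeierstrassCurve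
open scoped MatrixGroups TensorProduct

namespace Fermat.Agent.Guide.LiftingSteps

open Fermat.Agent.H53 (GQ M2 toMat mapMat PData PlaceData GalLevelB numB)
open Fermat.Agent.H70.Coh Fermat.Agent.H70.Mod Fermat.Agent.H37.Rank Fermat.Agent.H30
open Fermat.Agent.H59 (act IsLocIdem Loc Tset evHA thetaW)
open Fermat.Agent.H37.NN (IsAtt FrobDist)
open Fermat.Agent.H62 (IsAttached)
open Fermat.Agent.H87.Glue (resZ)
open Fermat.Agent.H87.S58 (tO)
open Fermat.Agent.H73LT (nodeSign)
open Fermat.Agent.H69.Red (Partition baseLevel)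
open Fermat.Agent.H21M (lvl)
open Fermat.Agent.H86.In (bq cq bfun VanishAt HSide PHyp)
open Fermat.Agent.H68.Tw (ptRep aOf)
open Fermat.Agent.H69.Pt (trElt frobElt)

/-! ### 1. The levels -/

/-- **The chain of levels**: `lvl M b i` is the product of `M` and of the first `i` raising primes
`b 0, …, b (i - 1)`. (Definition: `lvl M b 0 = M`, `lvl M b (i + 1) = lvl M b i * b i`; modules `H21MLvl`,
`H35InB1`.) -/
theorem lvl_product (M : ℕ) (b : ℕ → ℕ) (i : ℕ) : lvl M b i = M * ∏ j ∈ Finset.range i, b j :=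
  H35.InB.lvl_eq_prod M b i

/-- A prime divisor of a level of the chain divides the lowest level or one of the raising primes used up
to there. (`H21MLvl`.) -/
theorem prime_dvd_level {M : ℕ} {b : ℕ → ℕ} {q : ℕ} (hq : q.Prime) {i : ℕ} (h : q ∣ lvl M b i) :
    q ∣ M ∨ ∃ j, j < i ∧ q ∣ b j :=
  H21M.prime_dvd_lvl hq h

/-- If the lowest level is squarefree and the raising primes are distinct and prime to it, then all levels
of the chain are squarefree. (`H86In1`, for any chain `f (i + 1) = f i * b i`.) -/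
theorem levels_squarefree {f b : ℕ → ℕ} (hs : ∀ i, f (i + 1) = f i * b i) {s : ℕ}
    (hb : ∀ i, i < s → (b i).Prime) (hb0 : ∀ i, i < s → ¬ b i ∣ f 0)
    (hinj : ∀ i, i < s → ∀ j, j < i → b i ≠ b j) (h0 : Squarefree (f 0)) :
    ∀ i, i ≤ s → Squarefree (f i) :=
  H86.In.chain_squarefree hs hb hb0 hinj h0

/-- **The raising primes and their constants.** The raising steps are numbered by a map `κ` (injective in the
application) from `{0, …, s - 1}` to the disjoint union of `B` and of the set `E` of marks at `p` (which has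
at most one element).
The `i`-th raising prime `bq p κ i` is the prime `q ∈ B`, with the constant `cq = w_q (q + 1)`, `w_q = ± 1`
the sign of the node of `W` at `q`; or it is `p`, with the constant `1`. (`H86In3`.) -/
theorem raising_primes (O : Type) [CommRing O] (W : WeierstrassCurve ℤ) (p : ℕ) {B : Finset ℕ} {E : Type}
    {s : ℕ} (κ : Fin s → Tset B ⊕ E) (i : Fin s) :
    (∀ q : Tset B, κ i = Sum.inl q →
      bq p κ i = q.1 ∧ cq O W κ i = (nodeSign W q.1 : O) * ((q.1 : O) + 1)) ∧
    ∀ j : E, κ i = Sum.inr j → bq p κ i = p ∧ cq O W κ i = 1 :=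
  ⟨fun _ h => ⟨H86.In.bq_inl p h, H86.In.cq_inl O W h⟩,
    fun _ h => ⟨H86.In.bq_inr p h, H86.In.cq_inr O W h⟩⟩

/-- **`p` divides the top level** if and only if `δ = p` or one of the raising steps is at `p`. Here the base
level is `∏ (A ∪ T) * s' * δ`, and the top level contains the Taylor-Wiles primes and the primes of `T` once
more. (`H86In3`.) -/
theorem p_dvd_top_iff {W : WeierstrassCurve ℤ} {hΔ : W.Δ ≠ 0} {p : ℕ} [Fact p.Prime]
    {A T B : Finset ℕ} {s' : ℕ} (P : Partition W hΔ p A T B s') {δ : ℕ} (hδ : δ = 1 ∨ δ = p)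
    {E : Type} {s : ℕ} {κ : Fin s → Tset B ⊕ E} (hκ : ∀ i j, κ i = Sum.inr j → δ = 1)
    {r : ℕ} {Q : Fin r → ℕ} (hQ : ∀ j, (Q j).Prime) (hQp : ∀ j, Q j ≠ p) :
    p ∣ lvl (baseLevel A T s' * δ * ∏ j, Q j) (bfun (bq p κ)) s *
      ((∏ j, Q j) * ∏ t : Tset T, t.1) ↔ (δ = p ∨ ∃ i j, κ i = Sum.inr j) :=
  H86.In.p_dvd_top_iff P hδ hκ hQ hQp

/-- **The levels are squarefree** (`H30Lev`), apart from the primes of the characters: the product of the base
level, the Taylor-Wiles primes, the primes of `B` and, for `ε = 1`, `p` is squarefree, if the Taylor-Wiles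
primes `Q_j` are distinct and not in `A`, `T`, `B`, `{s, p}` (`Lev.Away`). -/
theorem squarefree_top {W : WeierstrassCurve ℤ} {hΔ : W.Δ ≠ 0} {p : ℕ} [Fact p.Prime]
    {A T B : Finset ℕ} {s : ℕ} (P : Partition W hΔ p A T B s) {r : ℕ} {Q : Fin r → ℕ}
    (hQ : H30.Lev.Away p A T B s Q) {ε : ℕ} (hε : ε ≤ 1) :
    Squarefree (baseLevel A T s * (∏ j, Q j) * (∏ q ∈ B, q) * p ^ ε) :=
  H30.Lev.squarefree_top P hQ hε

/-- **The prime divisors of the levels** (`H86In3`). (1) A prime divisor of the last level of the chain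
divides the base level `N₀`, or is a Taylor-Wiles prime, or a raising prime. (2) A prime divisor of the level
of the characters is a Taylor-Wiles prime or in `T`. (3) The base level `∏ (A ∪ T) * s' * δ` is squarefree,
and the raising primes do not divide it (if there is a raising step at `p`, then `δ = 1`). -/
theorem prime_divisors {W : WeierstrassCurve ℤ} {hΔ : W.Δ ≠ 0} {p : ℕ} [Fact p.Prime]
    {A T B : Finset ℕ} {s' : ℕ} (P : Partition W hΔ p A T B s') {δ : ℕ} (hδ : δ = 1 ∨ δ = p)
    {E : Type} {s : ℕ} {κ : Fin s → Tset B ⊕ E} (hκ : ∀ i j, κ i = Sum.inr j → δ = 1)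
    {r : ℕ} {Q : Fin r → ℕ} (hQ : ∀ j, (Q j).Prime) {q : ℕ} (hq : q.Prime) :
    (∀ {N₀ : ℕ}, q ∣ lvl (N₀ * ∏ j, Q j) (bfun (bq p κ)) s →
      q ∣ N₀ ∨ (∃ j, Q j = q) ∨ ∃ i, bq p κ i = q) ∧
    (q ∣ (∏ j, Q j) * ∏ t : Tset T, t.1 → (∃ j, Q j = q) ∨ q ∈ T) ∧
    Squarefree (baseLevel A T s' * δ) ∧ ∀ i, ¬ bq p κ i ∣ baseLevel A T s' * δ :=
  ⟨fun h => H86.In.prime_dvd_lvl P hQ hq h, fun h => H86.In.prime_dvd_N1 P hQ hq h,
    H86.In.base_sq P hδ, fun i => H86.In.bq_not_dvd P hδ hκ i⟩

/-! ### 2. Points of deformation rings and of Hecke rings -/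

/-- **The Tate module of `W` over `O`** (`H69Pt`). `tO W hΔ hpO` is the `p`-adic Tate module of `W` with
coefficients in `O`. Its reduction is `W[p]` over the residue field of `O`, and its determinant is the
cyclotomic character. If `W` is semistable with multiplicative reduction at `p`, it is strictly ordinary at
`p`. (Good primes, unipotent inertia, flatness: `GuideCurvesTate`.) -/
theorem tate_module {O : Type} [CommRing O] [IsDomain O] [IsDiscreteValuationRing O]
    [IsAdicComplete (maximalIdeal O) O] (W : WeierstrassCurve ℤ) (hΔ : W.Δ ≠ 0) {p : ℕ}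
    [Fact p.Prime] (hpO : (p : O) ∈ maximalIdeal O) :
    (∀ f : ZMod p →+* ResidueField O,
      (tO W hΔ hpO).residual.IsEquiv ((resZ W hΔ p).baseChangeAlong f)) ∧
    (tO W hΔ hpO).DetIsCyclotomic p ∧
    (W.IsSemistableModel → (p : ℤ) ∣ W.Δ → (tO W hΔ hpO).IsStrictOrdinaryAt p) :=
  ⟨H69.Pt.residual_tO W hΔ hpO, H69.Pt.detIsCyclotomic_tO W hΔ hpO,
    H69.Pt.isStrictOrdinaryAt_tO W hΔ hpO⟩

/-- **Traces at the point of `W`** (`H69Pt`). Let `r` be a matrix representation over `R` and `f : R → O` a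
homomorphism which carries it to the Tate module of `W` (in the application the point `pt` of the universal
deformation ring). Then the trace of Frobenius at a good prime `ℓ ≠ p` has the value `a_ℓ(W)`. -/
theorem trace_at_curve {O : Type} [CommRing O] [IsDomain O] [IsDiscreteValuationRing O]
    [IsAdicComplete (maximalIdeal O) O] {W : WeierstrassCurve ℤ} {hΔ : W.Δ ≠ 0} {p : ℕ}
    [Fact p.Prime] {hpO : (p : O) ∈ maximalIdeal O} {R : Type} [CommRing R] {r : GQ →* M2 R}
    {f : R →+* O} {b₂ : Module.Basis (Fin 2) O (tO W hΔ hpO).V}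
    (h : toMat (tO W hΔ hpO).ρ b₂ = mapMat f r) {ℓ : ℕ} (hℓ : ℓ.Prime) (hℓp : ℓ ≠ p)
    (hW : W.IsGoodPrimeFor ℓ) {P : ValuationSubring (AlgebraicClosure ℚ)} (hP : P.LiesOverPrime ℓ)
    {σ : GQ} (hσ : P.IsFrobeniusAt σ ℓ) : f ((r σ) 0 0 + (r σ) 1 1) = (W.apOfModel ℓ : O) :=
  H69.Pt.map_trace_frob h hℓ hℓp hW hP hσ

/-- **The witness at the point of `W`** (`H69Pt`): the element `trElt r P` (`P` evaluated at the traces of
Frobenius elements, `GuideLiftingComposition.witness_element`) has the value `P(a_ℓ(W))`. If this integer is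
not zero, it is not divisible by `ϖ ^ m` for some `m`: this `m` is the depth of the witness. -/
theorem witness_at_curve {O : Type} [CommRing O] [IsDomain O] [IsDiscreteValuationRing O]
    [IsAdicComplete (maximalIdeal O) O] {W : WeierstrassCurve ℤ} {hΔ : W.Δ ≠ 0} {p : ℕ}
    [Fact p.Prime] {hpO : (p : O) ∈ maximalIdeal O} {R : Type} [CommRing R] {r : GQ →* M2 R}
    {f : R →+* O} {b₂ : Module.Basis (Fin 2) O (tO W hΔ hpO).V}
    (h : toMat (tO W hΔ hpO).ρ b₂ = mapMat f r) {S : Set ℕ} (hpS : p ∈ S)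
    (hS : ∀ q : ℕ, q.Prime → (q : ℤ) ∣ W.Δ → q ∈ S)
    (P : MvPolynomial {ℓ : ℕ // ℓ.Prime ∧ ℓ ∉ S} ℤ) :
    f (trElt r P) = ((MvPolynomial.aeval (fun i => W.apOfModel i.1) P : ℤ) : O) ∧
    ∀ [CharZero O] {ϖ : O} (_ : maximalIdeal O = Ideal.span {ϖ}) {c : ℤ} (_ : c ≠ 0),
      ∃ m : ℕ, (c : O) ∉ Ideal.span {ϖ ^ m} :=
  ⟨H69.Pt.map_trElt_tO h hpS hS P, fun hϖ _ hc => H69.Pt.exists_notMem_pow hϖ hc⟩

section Points

variable {O : Type} [CommRing O] [IsDomain O] [IsDiscreteValuationRing O]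
  [IsAdicComplete (maximalIdeal O) O] {rhobar : ResidualGaloisRep (ResidueField O)}
  {𝒟 : ∀ ⦃A : Type⦄ [CommRing A] [IsLocalRing A] [Algebra O A], GaloisRepAdic A → Prop}
  (D : DeformationRingData O rhobar 𝒟)

/-- **The residual characteristic polynomials do not depend on the point** (`H86FM2`). `ptRep D f hf` is the
representation at the point `f : D.R → O'` of the universal deformation ring (`GuideLevelsPoints`). For every
`σ` the reduction of its characteristic polynomial is the one of `rhobar`. -/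
theorem residual_charpoly {O' : Type} [CommRing O'] [IsLocalRing O'] [Algebra O O']
    [IsLocalHom (algebraMap O O')] (f : D.R →ₐ[O] O') (hf : IsLocalHom (f : D.R →+* O')) (σ : GQ) :
    (LinearMap.charpoly ((ptRep D f hf).ρ σ)).map (residue O') =
      (LinearMap.charpoly (rhobar.ρ σ)).map (ResidueField.map (algebraMap O O')) :=
  H86.FM.charpoly_residual_pt D f hf σ

/-- **Taylor-Wiles primes at a point** (`H86FM2`). Let `p ∣ q - 1` and let the Frobenius elements at `q` have
distinct eigenvalues in `rhobar`. Then `q = 1` in the residue field of `O'`, and for some Frobenius element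
`σ` at `q` the reduction of the characteristic polynomial at the point is not of the form `(X - v)²`. A
Steinberg point at `q` would have the eigenvalues `u` and `u q`, that is, the reduction `(X - v)²`. -/
theorem not_steinberg_at_point {O' : Type} [CommRing O'] [IsDomain O'] [IsDiscreteValuationRing O']
    [Algebra O O'] [IsLocalHom (algebraMap O O')] (f : D.R →ₐ[O] O') (hf : IsLocalHom (f : D.R →+* O'))
    {p q : ℕ} (hpO : (p : O) ∈ maximalIdeal O) (hq : q.Prime) (hpq : p ∣ q - 1)
    (hd : ∀ P : ValuationSubring (AlgebraicClosure ℚ), P.LiesOverPrime q → ∀ φ : GQ,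
      P.IsFrobeniusAt φ q →
        ∃ α β : ResidueField O, α ≠ β ∧ LinearMap.charpoly (rhobar.ρ φ) = (X - C α) * (X - C β)) :
    (q : ResidueField O') = 1 ∧
      ∃ (A : ValuationSubring (AlgebraicClosure ℚ)) (_ : A.LiesOverPrime q) (σ : GQ)
        (_ : A.IsFrobeniusAt σ q), ∀ v : ResidueField O',
          (LinearMap.charpoly ((ptRep D f hf).ρ σ)).map (residue O') ≠ (X - C v) ^ 2 :=
  H86.FM.twAt_pt D f hf hpO hq hpq hd

variable [Finite (ResidueField O)] [CharZero O] (b₁ : Module.Basis (Fin 2) D.R D.ρ.V)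
  {L : ℕ} [NeZero L] {S : Finset ℕ} (hLS : ∀ q : ℕ, q.Prime → q ∣ L → q ∈ S)
  {θ : heckeAlgebra L 2 (↑S : Set ℕ) →+* ResidueField O}
  (π : D.R →ₐ[O] heckeLocal L (↑S : Set ℕ) O θ)
  {H : HeckeGaloisRepDatum L (↑S : Set ℕ) O θ (heckeLocal L (↑S : Set ℕ) O θ)}
  (hH : H.π = heckeLocal.π L (↑S : Set ℕ) O θ)
  (b₂ : Module.Basis (Fin 2) (heckeLocal L (↑S : Set ℕ) O θ) H.ρ.V)
  (hb₂ : toMat H.ρ.ρ b₂ = mapMat (π : D.R →+* heckeLocal L (↑S : Set ℕ) O θ) (toMat D.ρ.ρ b₁))
  {O' : Type} [CommRing O'] [IsDomain O'] [IsDiscreteValuationRing O']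
  [IsAdicComplete (maximalIdeal O') O'] [Finite (ResidueField O')] [CharZero O']
  [Algebra O O'] [Module.Finite O O'] [IsLocalHom (algebraMap O O')]

include hLS hH hb₂ in
/-- **The value of the witness at a point of the Hecke ring** (`H86FM2`): if no prime of `S` occurs in `P`,
the value of `trElt r P` at the point `lam` is `P(lam(T_ℓ))`, because the trace of Frobenius at `ℓ ∉ S` in the
universal representation is mapped to `T_ℓ`. (`aOf lam ℓ = lam(T_ℓ)`.) -/
theorem witness_value (lam : heckeLocal L (↑S : Set ℕ) O θ →ₐ[O] O') {S₀ : Set ℕ}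
    (P : MvPolynomial {ℓ : ℕ // ℓ.Prime ∧ ℓ ∉ S₀} ℤ) (hvars : ∀ i ∈ P.vars, i.1 ∉ S) :
    lam (π (trElt (toMat D.ρ.ρ b₁) P)) = MvPolynomial.aeval (fun i => aOf lam i.1) P :=
  H86.FM.lam_trElt D b₁ hLS π hH b₂ hb₂ lam P hvars

end Points

/-! ### 3. The witness and its values at modular points -/

section Relations

variable {N : ℕ} [NeZero N] {S : Set ℕ} (hS : Adm S N)

/-- **Polynomials in the Hecke operators on an eigenvector** (`H86FM`; `act` is the action of polynomials
through commuting operators): `T_ℓ x = lam_ℓ x` for the primes in `P` implies `P x = P(lam) x`. -/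
theorem polynomial_on_eigenvector {K : Type} [Field K] [CharZero K] (P : MvPolynomial (Pr S) ℤ)
    (lam : Pr S → K) (x : HH K N) (hx : ∀ i ∈ P.vars, TT K hS i x = lam i • x) :
    act (O := ℤ) (TT K hS) (TT_comm hS) P x = MvPolynomial.aeval lam P • x :=
  H86.FM.act_eigen hS P lam x hx

/-- **Relations hold on cohomology away from Eisenstein classes** (`H86FM`). `K` a field of characteristic
zero, `x ≠ 0` in `H¹(Γ₀(N), K)` with `T_ℓ x = lam_ℓ x` for the primes `ℓ` which occur in `P`, and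
`T_i x = μ x` with `μ ≠ 1 + i` for one prime `i ≡ 1` modulo `N`. If `P(T_ℓ) = 0` in the Hecke algebra of
cusp forms, then `P(lam_ℓ) = 0`.

Proof: `x = (T_i - (1 + i)) z` for a multiple `z` of `x`; the operator `T_i - (1 + i)` carries every
homomorphism `Γ₀(N) → K` to one which is zero on the stabilisers of the cusps (`i ≡ 1` modulo `N`), so `x`
comes from the parabolic part, on which the Hecke algebra of cusp forms acts. -/
theorem relation_on_cohomology {K : Type} [Field K] [CharZero K] (P : MvPolynomial (Pr S) ℤ)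
    (hP : evHA hS P = 0) (lam : Pr S → K) (x : HH K N) (hx0 : x ≠ 0)
    (hx : ∀ i ∈ P.vars, TT K hS i x = lam i • x) (i₀ : Pr S) (hi₀1 : (N : ℤ) ∣ (i₀.1 : ℤ) - 1)
    {μ : K} (hμ : TT K hS i₀ x = μ • x) (hi₀ : μ ≠ 1 + (i₀.1 : K)) :
    MvPolynomial.aeval lam P = 0 :=
  H86.FM.aeval_eq_zero hS P hP lam x hx0 hx i₀ hi₀1 hμ hi₀

end Relations

/-- **From a torsion free class over `O'` to an eigenclass over a field** (`H86FM2`). A class `x` with trivial
character `η = 1`, not a torsion element, with `T_ℓ x = lam(ℓ) x` for `ℓ ∉ S`, gives a class `y ≠ 0` in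
`H¹(Γ₀(M), K)`, `K` the field of fractions of `O'`, with the same eigenvalues (`H86.FM.Eig`). -/
theorem eigenclass_over_field {S : Finset ℕ} {O' : Type} [CommRing O'] [IsDomain O']
    [IsDiscreteValuationRing O'] [IsAdicComplete (maximalIdeal O') O'] [Finite (ResidueField O')]
    [CharZero O'] {N' M : ℕ} (hM : N' ∣ M) (hS : Away M (↑S : Set ℕ))
    (η : (ZMod N')ˣ →* O'ˣ) (hη : η = 1) {lam : ℕ → O'}
    {x : H1 (gam N' M hM) (psiRep (η ^ 2) O')} (hx : ∀ c : O', c ≠ 0 → c • x ≠ 0)
    (hT : ∀ i : Idx (↑S : Set ℕ), tw hM hS (η ^ 2) η i x = lam i.1 • x) :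
    ∃ y : HH (FractionRing O') M, y ≠ 0 ∧ H86.FM.Eig S lam y :=
  H86.FM.exists_eig hM hS η hη hx hT

/-- **Eigenclasses and good primes for the descent, written out** (`H86FM`). `Eig S lam y`: the class `y` in
`H¹(Γ₀(M), K₁)` satisfies `T_ℓ y = lam(ℓ) y` for all primes `ℓ ∤ M`, `ℓ ∉ S`. `TWAt ρ q`: `q = 1` in the
residue field and the reduced characteristic polynomial of some Frobenius element at `q` is not `(X - v)²`. -/
theorem eig_and_twAt_iff {O' : Type} [CommRing O'] [IsDomain O'] [IsDiscreteValuationRing O']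
    {K₁ : Type} [Field K₁] [Algebra O' K₁] {M : ℕ} (S : Finset ℕ) (lam : ℕ → O') (y : HH K₁ M)
    (ρ : GaloisRepAdic O') (q : ℕ) :
    (H86.FM.Eig S lam y ↔ ∀ (ℓ : ℕ) (hℓ : ℓ.Prime) (hℓM : ¬ ℓ ∣ M) (_ : ℓ.Coprime 1), ℓ ∉ S →
      (tFam (one_dvd M) hℓ hℓM).opH (psiRep 1 K₁) y = ((1 : K₁) * algebraMap O' K₁ (lam ℓ)) • y) ∧
    (H86.FM.TWAt ρ q ↔ (q : ResidueField O') = 1 ∧
      ∃ (A : ValuationSubring (AlgebraicClosure ℚ)) (_ : A.LiesOverPrime q) (σ : GQ)
        (_ : A.IsFrobeniusAt σ q), ∀ v : ResidueField O',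
          (LinearMap.charpoly (ρ.ρ σ)).map (residue O') ≠ (X - C v) ^ 2) :=
  ⟨Iff.rfl, Iff.rfl⟩

section Descent

variable {p : ℕ} [Fact p.Prime] {S : Finset ℕ} {O' : Type} [CommRing O'] [IsDomain O']
  [IsDiscreteValuationRing O'] [IsAdicComplete (maximalIdeal O') O'] [Finite (ResidueField O')]
  [CharZero O'] {K₁ : Type} [Field K₁] [Algebra O' K₁] [IsFractionRing O' K₁]

/-- **One Taylor-Wiles prime can be removed from the level** (`H86FM`). `ρ` is a representation over `O'` with
irreducible reduction attached to the eigenvalues `lam` (`GuideEigen`), `y ≠ 0` an eigenclass of level `M₀ q`,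
`q ∤ M₀` a prime with `TWAt ρ q`. Then `lam` occurs at level `M₀`: one of the two traces of `y` to level `M₀`
is not zero, since otherwise `y` is new at `q` and the Frobenius elements at `q` have the characteristic
polynomial `(X - u) (X - u q)` (`GuideEigen`), contrary to `TWAt`. -/
theorem remove_taylor_wiles_prime (hp2 : p ≠ 2) (hpS : p ∈ S) (hpO : (p : O') ∈ maximalIdeal O')
    {M₀ q : ℕ} [NeZero M₀] [NeZero q] (hMS : ∀ r : ℕ, r.Prime → r ∣ M₀ * q → r ∈ S)
    {lam : ℕ → O'} (ρ : GaloisRepAdic O') (hρ : IsAttached S lam ρ)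
    (hirr : ρ.residual.IsIrreducible) (hq : q.Prime) (hqp : q ≠ p) (hqM : ¬ q ∣ M₀)
    (hTW : H86.FM.TWAt ρ q) {y : HH K₁ (M₀ * q)} (hy : y ≠ 0) (hT : H86.FM.Eig S lam y) :
    ∃ y₀ : HH K₁ M₀, y₀ ≠ 0 ∧ H86.FM.Eig S lam y₀ :=
  H86.FM.step hp2 hpS hpO (H4.geomInputs Fact.out) hMS ρ hρ hirr hq hqp hqM hTW hy hT

/-- **The relation at the levels with Taylor-Wiles primes** (`H86FM`): if `P(T_ℓ) = 0` in the Hecke algebra of
level `N` and no prime of `S` occurs in `P`, then `P(lam_ℓ) = 0` for every eigensystem `lam` which occurs in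
`H¹(Γ₀(N ∏ Q), K₁)`, `Q` a set of primes with `TWAt` for an attached representation with irreducible
reduction. (Remove the primes of `Q` one after the other and use `relation_on_cohomology`.) With
`witness_value` this proves `GuideLiftingComposition.witness_at_point`. -/
theorem relation_at_taylor_wiles_level (hp2 : p ≠ 2) (hpS : p ∈ S) (hpO : (p : O') ∈ maximalIdeal O')
    {N : ℕ} [NeZero N] {S₀ : Set ℕ} (hS₀ : Adm S₀ N) (hSS : ∀ ℓ ∈ S₀, ℓ ∈ S)
    (P : MvPolynomial (Pr S₀) ℤ) (hP : evHA hS₀ P = 0) (hvars : ∀ i ∈ P.vars, i.1 ∉ S)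
    {lam : ℕ → O'} (ρ : GaloisRepAdic O') (hρ : IsAttached S lam ρ)
    (hirr : ρ.residual.IsIrreducible) (Q : Finset ℕ)
    (hQ : ∀ q ∈ Q, q.Prime ∧ q ≠ p ∧ ¬ q ∣ N ∧ H86.FM.TWAt ρ q) {M : ℕ}
    (hM : M = N * ∏ q ∈ Q, q) (hMS : ∀ r : ℕ, r.Prime → r ∣ M → r ∈ S) (y : HH K₁ M)
    (hy : y ≠ 0) (hT : H86.FM.Eig S lam y) :
    MvPolynomial.aeval (fun i : Pr S₀ => lam i.1) P = 0 :=
  H86.FM.relation hp2 hpS hpO (H4.geomInputs Fact.out) hS₀ hSS P hP hvars ρ hρ hirr Q hQ hM hMS y hy hT

end Descent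

/-! ### 4. From eigenvectors in the modules to eigenclasses in cohomology

`MLoc hM hS ψ η e` is the localised module `e H¹(Γ₀(M), O[Δ]_ψ)` of `GuideLiftingHecke` (`Δ` is the group of
diamond operators of the Taylor-Wiles primes, here `Dlt p e' = ∏ ℤ/p^(e'_j)`); `EMod O p e' 𝕋` is a free
module over `O[Δ]`, given with a basis, the action `Ψ` of `Δ` and an action `Φ` of `𝕋` which commutes with it;
`IsModel` says that `MLoc` is isomorphic to it: `Φ(T_ℓ)` corresponds to the operator `η(ℓ)⁻¹ T_ℓ` (`tw`), and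
`Ψ` to the diamond operators. `ForallEigen A.Φ (fun … lam x => …)` is a statement about all common
eigenvectors `x` with eigensystem `lam : 𝕋 → O'`, over all finite extensions `O'` of `O`. `psiMap (evC χ) η`
is the character `η` of `(ℤ/N)ˣ` with values in `O[Δ]ˣ` specialised at the character `χ` of `Δ`, written `ηχ`
below. -/

section Models

variable {N M L : ℕ} [NeZero M] [NeZero L] {hM : N ∣ M} {S : Set ℕ} {hS : Away M S}
  {hSL : ∀ q : ℕ, q.Prime → q ∣ L → q ∈ S}
  {O : Type} [CommRing O] [IsDomain O] [IsDiscreteValuationRing O]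
  [IsAdicComplete (maximalIdeal O) O] [Finite (ResidueField O)] [CharZero O]
  {p : ℕ} [Fact p.Prime] (hpO : (p : O) ∈ maximalIdeal O)
  {r : ℕ} {e' : Fin r → ℕ} {η : (ZMod N)ˣ →* (MonoidAlgebra O (H69.EG.Dlt p e'))ˣ}
  {θ : heckeAlgebra L 2 S →+* ResidueField O} {e : MvPolynomial (Idx S) O}
  {A : H69.EG.EMod O p e' (heckeLocal L S O θ)} {ι : A.M ≃ₗ[O] MLoc hM hS (η ^ 2) η e}
  (hA : H21M.IsModel hM hS hSL (η ^ 2) η θ e A ι)
  (hg : Good M (MonoidAlgebra O (H69.EG.Dlt p e')))
  (heA : IsLocIdem (tw hM hS (η ^ 2) η) (tw_comm hM hS (η ^ 2) η) (thetaPoly L S hSL O θ) e)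
  (i₀ : Idx S) (hi₀ : θ (TIdx L S hSL i₀) ≠ 1 + (i₀.1 : ResidueField O))
  {k : ℕ} (hη : η ^ p ^ k = 1)

omit [Finite (ResidueField O)] [CharZero O] in
include hpO hA hg heA hi₀ hη in
/-- **Eigenvectors give eigenclasses** (`H21MPt`). Let `x ≠ 0` in `O' ⊗ A` satisfy `t x = lam(t) x` for
`t ∈ 𝕋` and `g x = χ(g) x` for `g ∈ Δ`. Then there is a class `z` of level `M` with the character
`ηχ = psiMap (evC χ) η`, not a torsion element, with `ηχ(ℓ)⁻¹ T_ℓ z = lam(T_ℓ) z` for `ℓ ∉ S` (a point,
`IsPt`), fixed by the local idempotent `e`. (The quotient of `O' ⊗ A` modulo the elements `g a - χ(g) a` is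
`e H¹(Γ₀(M), O')` with the character `(ηχ)²`. The sum of `χ(g)⁻¹ g`, `g ∈ Δ`, is zero on these elements, and
on the part where `Δ` acts through `χ` it is multiplication by `#Δ`; `O' ⊗ A` is free over `O'` and `#Δ ≠ 0`
in `O'`, so the projection to the quotient is injective on this part.) -/
theorem eigenvector_gives_class {O' : Type} [CommRing O'] [IsDomain O'] [IsLocalRing O'] [CharZero O']
    [Algebra O O'] [IsLocalHom (algebraMap O O')] (lam : heckeLocal L S O θ →ₐ[O] O')
    (χ : H69.EG.Dlt p e' →* O'ˣ) (x : TensorProduct O O' A.M) (hx : x ≠ 0)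
    (hlam : ∀ t, (A.Φ t).baseChange O' x = lam t • x)
    (hχ : ∀ g, (A.Ψ g).baseChange O' x = ((χ g : O'ˣ) : O') • x) :
    ∃ z : H1 (gam N M hM) (psiRep ((psiMap (evC (O := O) χ).toRingHom η) ^ 2) O'),
      IsPt hM hS (psiMap (evC (O := O) χ).toRingHom η)
        (fun i => lam (heckeLocal.π L S O θ (TIdx L S hSL i))) z ∧
      act (tw hM hS ((psiMap (evC (O := O) χ).toRingHom η) ^ 2)
        (psiMap (evC (O := O) χ).toRingHom η)) (tw_comm hM hS _ _) e z = z :=
  H21M.exists_pt_of_model hpO hA hg heA i₀ hi₀ hη lam χ x hx hlam hχ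

include hpO hA hg heA hi₀ hη in
/-- **Transfer** (`H21MPt`): an element `t₀` of the Hecke ring which vanishes at all points of level `M` with
character `psiMap (evC χ) η` vanishes on all eigenvectors of the module `A`. (The Hecke ring is reduced, so
`t₀` then kills `A`: `GuideEigensystems`.) -/
theorem vanishing_on_module (t₀ : heckeLocal L S O θ)
    (h : ∀ (O' : Type) [CommRing O'] [IsDomain O'] [IsDiscreteValuationRing O']
      [IsAdicComplete (maximalIdeal O') O'] [Finite (ResidueField O')] [CharZero O']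
      [Algebra O O'] [Module.Finite O O'] [IsLocalHom (algebraMap O O')],
      Function.Injective (algebraMap O O') → ∀ (lam : heckeLocal L S O θ →ₐ[O] O')
      (χ : H69.EG.Dlt p e' →* O'ˣ)
      (z : H1 (gam N M hM) (psiRep ((psiMap (evC (O := O) χ).toRingHom η) ^ 2) O')),
      (psiMap (evC (O := O) χ).toRingHom η) ^ p ^ k = 1 →
      IsPt hM hS (psiMap (evC (O := O) χ).toRingHom η)
        (fun i => lam (heckeLocal.π L S O θ (TIdx L S hSL i))) z → lam t₀ = 0) :
    H59.ForallEigen A.Φ fun _ _ _ _ _ _ _ _ _ _ lam _ => lam t₀ = 0 :=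
  H21M.forallEigen_of_model hpO hA hg heA i₀ hi₀ hη t₀ h

include hpO hA hg heA hi₀ hη in
/-- **The diamond operators on both sides** (`H21MPt`). If at every point of level `M` the character `χ` of
`Δ` is trivial exactly when the values `lam (π (1 + c_j))` of the diamond parameters of the deformation ring
are all `1`, then `A` is compatible with the Galois side (`EMod.Compat`). Only this comparison of trivial
characters is needed, not the equality of the two actions of `Δ`. -/
theorem diamond_compatibility {R : Type} [CommRing R] [Algebra O R] (π : R →ₐ[O] heckeLocal L S O θ)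
    (c : Fin r → R)
    (h : ∀ (O' : Type) [CommRing O'] [IsDomain O'] [IsDiscreteValuationRing O']
      [IsAdicComplete (maximalIdeal O') O'] [Finite (ResidueField O')] [CharZero O']
      [Algebra O O'] [Module.Finite O O'] [IsLocalHom (algebraMap O O')],
      Function.Injective (algebraMap O O') → ∀ (lam : heckeLocal L S O θ →ₐ[O] O')
      (χ : H69.EG.Dlt p e' →* O'ˣ)
      (z : H1 (gam N M hM) (psiRep ((psiMap (evC (O := O) χ).toRingHom η) ^ 2) O')),
      (psiMap (evC (O := O) χ).toRingHom η) ^ p ^ k = 1 →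
      IsPt hM hS (psiMap (evC (O := O) χ).toRingHom η)
        (fun i => lam (heckeLocal.π L S O θ (TIdx L S hSL i))) z →
      ((∀ g, χ g = 1) ↔ ∀ j, lam (π (1 + c j)) = 1)) :
    A.Compat π c :=
  H21M.compat_of_model hpO hA hg heA i₀ hi₀ hη π c h

end Models

/-- **Change of the auxiliary level** (`H21MUni`). If the character `η₁` of `(ℤ/N₁)ˣ` comes from a character
`η₂` of `(ℤ/N₂)ˣ`, `N₂ ∣ N₁ ∣ M`, then a point with character `η₁` is a point with character `η₂`, with the
same eigenvalues. In this way the modules without character at the primes of `T` (`N₁` contains `T`, `N₂` does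
not) are covered by the local facts "character trivial at `q`", which suppose `q ∤ N`. -/
theorem point_change_level {N₁ N₂ M : ℕ} (hN : N₂ ∣ N₁) {hM₁ : N₁ ∣ M} (hM₂ : N₂ ∣ M) {S : Set ℕ}
    {hS : Away M S} {R : Type} [CommRing R] {η₁ : (ZMod N₁)ˣ →* Rˣ} {η₂ : (ZMod N₂)ˣ →* Rˣ}
    (hη : η₁ = η₂.comp (ZMod.unitsMap hN)) {lam : Idx S → R}
    {z : H1 (gam N₁ M hM₁) (psiRep (η₁ ^ 2) R)} (hz : IsPt hM₁ hS η₁ lam z) :
    IsPt hM₂ hS η₂ lam (h1Lev hN hM₁ hM₂ (sq_comp hN hη) R z) :=
  H21M.isPt_lev hN hM₂ hη hz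

section Types

variable {S : Set ℕ} {L : ℕ} [NeZero L] {hSL : ∀ q : ℕ, q.Prime → q ∣ L → q ∈ S}
  {O : Type} [CommRing O] [IsDomain O] [IsDiscreteValuationRing O]
  [IsAdicComplete (maximalIdeal O) O] [Finite (ResidueField O)] [CharZero O]
  {p : ℕ} [Fact p.Prime] (hpO : (p : O) ∈ maximalIdeal O)
  {r : ℕ} {e' : Fin r → ℕ} {Q : Fin r → ℕ}
  {u : ∀ j, (ZMod (Q j))ˣ →* Multiplicative (ZMod (p ^ e' j))}
  {θ : heckeAlgebra L 2 S →+* ResidueField O} {e : MvPolynomial (Idx S) O}
  {A : H69.EG.EMod O p e' (heckeLocal L S O θ)}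

include hpO in
/-- **Transfer for the modules without character at `T`** (`H21MUni`). The character of the module is
`etaL hQN₁ u 1` (`GuideTWModules.universal_character`): on `(ℤ/Q_j)ˣ` a map `u_j` to the `j`-th factor of `Δ`,
trivial at the other primes of `N₁`. It is enough that `t₀` vanishes at the points whose character is a
character of `(ℤ/N₂)ˣ` of `p`-power order; `N₂ ∣ N₁` contains the Taylor-Wiles primes but not the primes of
`T`. -/
theorem vanishing_without_character {N₁ N₂ M : ℕ} [NeZero N₁] [NeZero M] (hN : N₂ ∣ N₁) {hM : N₁ ∣ M}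
    (hM₂ : N₂ ∣ M) {hS : Away M S} {hQN₁ : ∀ j, Q j ∣ N₁} (hQN₂ : ∀ j, Q j ∣ N₂)
    {ι : A.M ≃ₗ[O] MLoc hM hS ((etaL hQN₁ u (1 : (ZMod N₁)ˣ →* Oˣ)) ^ 2)
      (etaL hQN₁ u (1 : (ZMod N₁)ˣ →* Oˣ)) e}
    (hA : H21M.IsModel hM hS hSL ((etaL hQN₁ u (1 : (ZMod N₁)ˣ →* Oˣ)) ^ 2)
      (etaL hQN₁ u (1 : (ZMod N₁)ˣ →* Oˣ)) θ e A ι)
    (hg : Good M (MonoidAlgebra O (H69.EG.Dlt p e')))
    (heA : IsLocIdem (tw hM hS ((etaL hQN₁ u (1 : (ZMod N₁)ˣ →* Oˣ)) ^ 2)
        (etaL hQN₁ u (1 : (ZMod N₁)ˣ →* Oˣ)))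
      (tw_comm hM hS ((etaL hQN₁ u (1 : (ZMod N₁)ˣ →* Oˣ)) ^ 2)
        (etaL hQN₁ u (1 : (ZMod N₁)ˣ →* Oˣ))) (thetaPoly L S hSL O θ) e)
    (i₀ : Idx S) (hi₀ : θ (TIdx L S hSL i₀) ≠ 1 + (i₀.1 : ResidueField O))
    {k : ℕ} (hη : (etaL hQN₁ u (1 : (ZMod N₁)ˣ →* Oˣ)) ^ p ^ k = 1) (t₀ : heckeLocal L S O θ)
    (h : ∀ (O' : Type) [CommRing O'] [IsDomain O'] [IsDiscreteValuationRing O']
      [IsAdicComplete (maximalIdeal O') O'] [Finite (ResidueField O')] [CharZero O']
      [Algebra O O'] [Module.Finite O O'] [IsLocalHom (algebraMap O O')],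
      Function.Injective (algebraMap O O') → ∀ (lam : heckeLocal L S O θ →ₐ[O] O')
      (η : (ZMod N₂)ˣ →* O'ˣ) (z : H1 (gam N₂ M hM₂) (psiRep (η ^ 2) O')),
      (∃ k, η ^ p ^ k = 1) →
      IsPt hM₂ hS η (fun i => lam (heckeLocal.π L S O θ (TIdx L S hSL i))) z → lam t₀ = 0) :
    H59.ForallEigen A.Φ fun _ _ _ _ _ _ _ _ _ _ lam _ => lam t₀ = 0 :=
  H21M.forallEigen_uni hN hM₂ hpO hQN₂ hA hg heA i₀ hi₀ hη t₀ h

include hpO in
/-- **Transfer for the module with characters at `T`** (`H21MUni`). Here the character of the module is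
`etaL hQN u τ`, with a character `τ` of `(ℤ/N)ˣ` of `p`-power order (of order `p` in the application) which is
non-trivial at all primes of `T`. It is enough that `t₀` vanishes at the points whose character is non-trivial
at all primes of `T`. -/
theorem vanishing_with_characters {N M : ℕ} [NeZero N] [NeZero M] {hM : N ∣ M} {hS : Away M S}
    {hQN : ∀ j, Q j ∣ N} {τ : (ZMod N)ˣ →* Oˣ}
    {ι : A.M ≃ₗ[O] MLoc hM hS ((etaL hQN u τ) ^ 2) (etaL hQN u τ) e}
    (hA : H21M.IsModel hM hS hSL ((etaL hQN u τ) ^ 2) (etaL hQN u τ) θ e A ι)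
    (hg : Good M (MonoidAlgebra O (H69.EG.Dlt p e')))
    (heA : IsLocIdem (tw hM hS ((etaL hQN u τ) ^ 2) (etaL hQN u τ))
      (tw_comm hM hS ((etaL hQN u τ) ^ 2) (etaL hQN u τ)) (thetaPoly L S hSL O θ) e)
    (i₀ : Idx S) (hi₀ : θ (TIdx L S hSL i₀) ≠ 1 + (i₀.1 : ResidueField O))
    {k : ℕ} (hη : (etaL hQN u τ) ^ p ^ k = 1)
    {T : Type} {qT : T → ℕ} (hqT : ∀ t, (qT t).Prime) (hQT : ∀ j t, Q j ≠ qT t)
    (hQ : ∀ j, (Q j).Prime) (hτT : ∀ t, ¬ TrivAt N (qT t) τ) (t₀ : heckeLocal L S O θ)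
    (h : ∀ (O' : Type) [CommRing O'] [IsDomain O'] [IsDiscreteValuationRing O']
      [IsAdicComplete (maximalIdeal O') O'] [Finite (ResidueField O')] [CharZero O']
      [Algebra O O'] [Module.Finite O O'] [IsLocalHom (algebraMap O O')],
      Function.Injective (algebraMap O O') → ∀ (lam : heckeLocal L S O θ →ₐ[O] O')
      (η : (ZMod N)ˣ →* O'ˣ) (z : H1 (gam N M hM) (psiRep (η ^ 2) O')),
      (∃ k, η ^ p ^ k = 1) → (∀ t, ¬ TrivAt N (qT t) η) →
      IsPt hM hS η (fun i => lam (heckeLocal.π L S O θ (TIdx L S hSL i))) z → lam t₀ = 0) :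
    H59.ForallEigen A.Φ fun _ _ _ _ _ _ _ _ _ _ lam _ => lam t₀ = 0 :=
  H21M.forallEigen_chi hpO hA hg heA i₀ hi₀ hη hqT hQT hQ hτT t₀ h

end Types

/-! ### 5. Ranks of the modules

The levels of depth `n` for all `n` can be patched only if their ranks over the group ring of the diamond
operators are bounded independently of the Taylor-Wiles primes.
`bnd O r M = 2 ^ r * ∑ (d ∣ M), rank H¹(Γ₀(d), O)` is such a bound (`H35Rk`; why it holds is the subject of
`GuideBoundedRank`). The rank over the group ring is the rank of the localised cohomology of the same level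
without characters (`GuideTWModules`). -/

section Ranks

variable {O : Type} [CommRing O] [IsDomain O] [IsDiscreteValuationRing O]
  [IsAdicComplete (maximalIdeal O) O] [Finite (ResidueField O)] [CharZero O]
  {p : ℕ} [Fact p.Prime] {S : Finset ℕ} (hp2 : p ≠ 2) (hpO : (p : O) ∈ maximalIdeal O) (hpS : p ∈ S)
  {θ : MvPolynomial (Pr (↑S : Set ℕ)) O →+* ResidueField O}
  (hθ : ∀ a : O, θ (MvPolynomial.C a) = residue O a)
  (rhobar : ResidualGaloisRep (ResidueField O)) (hirr : rhobar.IsIrreducible)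
  (hfr : IsAtt S θ rhobar) {e : MvPolynomial (Pr (↑S : Set ℕ)) O}
  {M : ℕ} [NeZero M] {r : ℕ} (Q : Fin r → ℕ) (hQ : ∀ i, (Q i).Prime) (hQM : ∀ i, ¬ Q i ∣ M)
  (hQinj : Function.Injective Q) (hQ1 : ∀ i, p ∣ Q i - 1) (hdist : ∀ i, FrobDist rhobar (Q i))

include hp2 hpO hpS hθ hirr hfr hQ hQM hQinj hQ1 hdist

/-- **The bound** (`H35Rk`): `rhobar` is attached to the residual eigensystem `θ` (`IsAtt`), irreducible, and
the `Q_i` are distinct primes, not dividing `M` and congruent to `1` modulo `p`, at which `rhobar` has two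
different eigenvalues of Frobenius (`FrobDist`). The rank of the summand of
`H¹(Γ₀(X), O)` at `θ` is at most `bnd O r M`, for all `X = M' ∏ Q_i`, `M' ∣ M`: every Taylor-Wiles prime at
most doubles the rank, because nothing is new there. -/
theorem rank_bound {M' X : ℕ} (hM' : M' ∣ M) (hX : X = M' * ∏ i, Q i) (hS : Adm (↑S : Set ℕ) X)
    (he : IsLocIdem (TT O hS) (TT_comm hS) θ e) :
    Module.finrank O (Loc (TT O hS) (TT_comm hS) e) ≤ H35.Rk.bnd O r M :=
  H35.Rk.finrank_le_bnd hp2 hpO hpS hθ rhobar hirr hfr Q hQ hQM hQinj hQ1 hdist hM' hX hS he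

/-- **Zero stays zero** (`H35Rk`): if `θ` does not occur at level `M' ∣ M`, it does not occur at level
`M' ∏ Q_i`. -/
theorem rank_zero {M' X : ℕ} (hM' : M' ∣ M) (hX : X = M' * ∏ i, Q i) (hS : Adm (↑S : Set ℕ) X)
    (he : IsLocIdem (TT O hS) (TT_comm hS) θ e) (hS' : Adm (↑S : Set ℕ) M')
    (h0 : Module.finrank O (Loc (TT O hS') (TT_comm hS') e) = 0) :
    Module.finrank O (Loc (TT O hS) (TT_comm hS) e) = 0 :=
  H35.Rk.finrank_eq_zero hp2 hpO hpS hθ rhobar hirr hfr Q hQ hQM hQinj hQ1 hdist hM' hX hS he hS' h0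

end Ranks

/-- **The modules are not zero** (`H35Rk`). If `W` is residually modular of level `M`, then the residual
eigensystem `T_ℓ ↦ a_ℓ(W)` (`thetaW`) occurs in `H¹(Γ₀(X), O)` for all multiples `X` of `M` which are `Good`,
if it is not Eisenstein (`hi₀`). -/
theorem rank_positive {W : WeierstrassCurve ℤ} {p : ℕ} [Fact p.Prime]
    {O : Type} [CommRing O] [IsDomain O] [IsDiscreteValuationRing O]
    [IsAdicComplete (maximalIdeal O) O] [Finite (ResidueField O)] [CharZero O]
    [Algebra (ZMod p) (ResidueField O)] {M : ℕ} [NeZero M]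
    (h : W.IsResiduallyModularOfLevel p M) {X : ℕ} [NeZero X] (hX : M ∣ X) {S : Set ℕ}
    (hS : Adm S X) (hSW : ∀ ℓ : ℕ, ℓ.Prime → ℓ ∉ S → W.IsGoodPrimeFor ℓ ∧ ℓ ≠ p)
    (hg : Good X O) {e : MvPolynomial (Pr S) O}
    (he : IsLocIdem (TT O hS) (TT_comm hS) (thetaW W S O) e) (i₀ : Pr S)
    (hi₀ : thetaW W S O (MvPolynomial.X i₀) ≠ 1 + (i₀.1 : ResidueField O)) :
    0 < Module.finrank O (Loc (TT O hS) (TT_comm hS) e) :=
  H35.Rk.finrank_pos h hX hS hSW hg he i₀ hi₀

/-- **The modules of the levels which are not levels of `W[p]` are zero** (`H35InB1`). If `W` is NOT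
residually modular of level `M`, the residual eigensystem of `W` does not occur in `H¹(Γ₀(M ∏ Q_i), O)` for
Taylor-Wiles primes `Q_i`. (At level `M` it would give a homomorphism from the Hecke algebra to the residue
field, hence residual modularity, by `S29` and the density of Frobenius elements; then `rank_zero`.) Used in
type `Pβ` for the levels prime to `p`. -/
theorem rank_zero_of_not_modular {W : WeierstrassCurve ℤ} (hΔ : W.Δ ≠ 0) {p : ℕ} [Fact p.Prime]
    {O : Type} [CommRing O] [IsDomain O] [IsDiscreteValuationRing O]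
    [IsAdicComplete (maximalIdeal O) O] [Finite (ResidueField O)] [CharZero O]
    [CharP (ResidueField O) p] (hp2 : p ≠ 2)
    (hpO : (p : O) ∈ maximalIdeal O) {S : Finset ℕ} (hpS : p ∈ S)
    {θ : MvPolynomial (Pr (↑S : Set ℕ)) O →+* ResidueField O}
    (hθC : ∀ a : O, θ (MvPolynomial.C a) = residue O a)
    (hθX : ∀ i, θ (MvPolynomial.X i) = ((W.apOfModel i.1 : ℤ) : ResidueField O))
    (rhobar : ResidualGaloisRep (ResidueField O)) (hirr : rhobar.IsIrreducible)
    (hfr : IsAtt S θ rhobar) {M : ℕ} [NeZero M] (hg : Good M O)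
    (hnot : ¬ W.IsResiduallyModularOfLevel p M)
    (i₀ : Pr (↑S : Set ℕ)) (hi₀1 : (M : ℤ) ∣ (i₀.1 : ℤ) - 1)
    (hi₀ : θ (MvPolynomial.X i₀) ≠ 1 + (i₀.1 : ResidueField O))
    {r : ℕ} (Q : Fin r → ℕ) (hQ : ∀ i, (Q i).Prime) (hQM : ∀ i, ¬ Q i ∣ M)
    (hQinj : Function.Injective Q) (hQ1 : ∀ i, p ∣ Q i - 1) (hdist : ∀ i, FrobDist rhobar (Q i))
    {X : ℕ} (hX : X = M * ∏ i, Q i) (hS : Adm (↑S : Set ℕ) X)
    {e : MvPolynomial (Pr (↑S : Set ℕ)) O} (he : IsLocIdem (TT O hS) (TT_comm hS) θ e) :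
    Module.finrank O (Loc (TT O hS) (TT_comm hS) e) = 0 :=
  H35.InB.finrank_eq_zero_of_not hΔ S29.result hp2 hpO hpS hθC hθX rhobar hirr hfr hg hnot i₀ hi₀1 hi₀
    Q hQ hQM hQinj hQ1 hdist hX hS he

/-! ### 6. The hypotheses at `p` for the types `F` and `O`, and the marks in type `Pβ`

`PHyp` (`GuideLiftingComposition.hypotheses_at_p_iff`) has to be proved for each type; for `Pα` and `Pβ` see
`GuideLiftingComposition.hypotheses_at_p_ordinary`. In the types `F` and `O` there are no marks, and two facts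
remain: the Tate module of `W` has the type, and all representations over the Hecke rings have the type. -/

section AtP

variable {W : WeierstrassCurve ℤ} (hΔ : W.Δ ≠ 0) {p : ℕ} [Fact p.Prime]
  {O : Type} [CommRing O] [IsDomain O] [IsDiscreteValuationRing O]
  [IsAdicComplete (maximalIdeal O) O] [CharZero O] [Finite (ResidueField O)]
  [Algebra (ZMod p) (ResidueField O)] (hpO : (p : O) ∈ maximalIdeal O)
  (b : Module.Basis (Fin 2) (ResidueField O) ((resZ W hΔ p).baseChange (ResidueField O)).V)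

/-- **Type `F`** (`H65InF`): `W` has good reduction at `p` and the levels are prime to `p` (`¬ inc`); the
condition at `p` is flatness (`hflat`: `W[p]` is flat; `hroots`: quadratic polynomials with integral
coefficients split over the residue field). The Tate module is flat by `GuideCurvesTate`, the representations
over the Hecke rings of level prime to `p` by `S32` (`GuideFlat`, `GuideHeckeRings`). -/
theorem hypotheses_flat {hp2 : p ≠ 2}
    {hroots : ∀ t d : ℤ, ∃ α β : ResidueField O, α + β = t ∧ α * β = d}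
    {hflat : (GaloisRepAdic.ofResidualGaloisRep
      ((resZ W hΔ p).baseChange (ResidueField O))).IsFlatAt p}
    (hgood : W.IsGoodPrimeFor p) (A : Finset ℕ) {T B : Finset ℕ}
    (pl : ∀ t : Tset T, PlaceData p t.1) (u : Tset T → O) (plB : ∀ i : Tset B, PlaceData p i.1)
    {inc : Prop} (hinc : ¬ inc) :
    PHyp hΔ hpO (H65.InF.pdF hΔ b hp2 hroots hflat) A pl u plB inc :=
  H65.InF.pHyp_flat hgood hpO A pl u plB hinc

/-- **Type `O`** (`H20InO`): `W` has multiplicative reduction at `p`, the level is divisible by `p` (`inc`)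
and the element `σ₀` does not act trivially on `W[p]`; the condition at `p` is "strictly ordinary". The
representations over the Hecke rings are ordinary by `S33`, and strictly ordinary because `σ₀` is not trivial
in `W[p]` (`GuideHeckeRings`). -/
theorem hypotheses_strict (hp2 : p ≠ 2) (hss : W.IsSemistableModel)
    (hbad : (p : ℤ) ∣ W.Δ) {φ σ₀ : GQ} (hm : H75P.MarkElts p φ σ₀)
    (hne : (resZ W hΔ p).ρ σ₀ ≠ 1) (A : Finset ℕ) {T B : Finset ℕ}
    (pl : ∀ t : Tset T, PlaceData p t.1) (u : Tset T → O) (plB : ∀ i : Tset B, PlaceData p i.1)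
    {inc : Prop} (hinc : inc) :
    PHyp hΔ hpO (H20.InO.pdO hΔ hpO b hp2 hss hbad) A pl u plB inc :=
  H20.InO.pHyp_strict hΔ hpO b S33.result hp2 hss hbad hm hne A pl u plB hinc

end AtP

section Beta

open Fermat.Agent.H75P (MarkElts OrdI cj)

variable {O : Type} [CommRing O] [IsDomain O] [IsDiscreteValuationRing O]
  [IsAdicComplete (maximalIdeal O) O] [Finite (ResidueField O)] [CharZero O]
  {p : ℕ} [Fact p.Prime] (hp2 : p ≠ 2) {rhobar : ResidualGaloisRep (ResidueField O)}
  {b : Module.Basis (Fin 2) (ResidueField O) rhobar.V}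
  (hdet : (GaloisRepAdic.ofResidualGaloisRep rhobar).DetIsCyclotomic p)
  (hord : (GaloisRepAdic.ofResidualGaloisRep rhobar).IsOrdinaryAt p)
  {φ σ₀ : GQ} (hm : MarkElts p φ σ₀) (hr0 : toMat rhobar.ρ b σ₀ = 1) (w : ℤ) (hw : w ^ 2 = 1)
  {g₀ : (M2 (ResidueField O))ˣ} (hg₀ : OrdI p (cj g₀ (toMat rhobar.ρ b)))
  (hu : cj g₀ (toMat rhobar.ρ b) φ 1 1 = (w : ResidueField O)) {A : Finset ℕ}
  {T B : Type} [Fintype T] [Fintype B] {qT : T → ℕ} {pl : ∀ t, PlaceData p (qT t)} {u : T → O}
  {qB : B → ℕ} {plB : ∀ i, PlaceData p (qB i)} {uB : B → O} {k n : ℕ} {S₀ : Finset ℕ}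
  (E : GalLevelB p rhobar b (PData.ord hp2 rhobar b hdet hord hm hr0 w hw hg₀ hu) A qT pl u qB plB uB
    k n S₀)
  {L : ℕ} [NeZero L] {S : Finset ℕ} (hpS : p ∈ S) (hLS : ∀ q : ℕ, q.Prime → q ∣ L → q ∈ S)
  {θ : heckeAlgebra L 2 (↑S : Set ℕ) →+* ResidueField O}
  (π : E.D.R →ₐ[O] heckeLocal L (↑S : Set ℕ) O θ) (hπ : Function.Surjective π)
  {H : HeckeGaloisRepDatum L (↑S : Set ℕ) O θ (heckeLocal L (↑S : Set ℕ) O θ)}
  (hH : H.π = heckeLocal.π L (↑S : Set ℕ) O θ)
  (b₂ : Module.Basis (Fin 2) (heckeLocal L (↑S : Set ℕ) O θ) H.ρ.V)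
  (hb₂ : toMat H.ρ.ρ b₂ =
    mapMat (π : E.D.R →+* heckeLocal L (↑S : Set ℕ) O θ) (toMat E.D.ρ.ρ E.b₁))

/-- The third mark `z` at `p` is zero at all points (in the ordinary case it is zero in the deformation
ring; `H35InB1`). -/
theorem mark_z_vanishes (X : ℕ) : VanishAt p hLS π X (E.mB (Sum.inr ()) 2) :=
  H35.InB.vanishAt_z hp2 hdet hord hm hr0 w hw hg₀ hu E hLS π X

include hπ hH hb₂ hpS in
/-- **In type `Pβ` the mark `t` at `p` vanishes** (`H35InB1`). If the residual eigensystem `θ` does not occur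
at level `M₁` (`h0`), then all points of level `M₁ p` are new at `p`: both traces of an eigenclass to level
`M₁` are zero. So they are Steinberg at `p` (`GuideUnitRoot`, `GuideFrobeniusAtP`), Frobenius acts by `± 1` on
the unramified quotient, and `t`, its distance from `w = ± 1`, is zero (the two signs agree modulo the maximal
ideal, and `p ≠ 2`). With `rank_zero_of_not_modular` this proves `GuideLiftingComposition.beta_kills`. -/
theorem mark_t_vanishes {M₁ : ℕ} [NeZero M₁] (hsq : Squarefree (M₁ * p))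
    (h0 : ∀ (hS : Adm (↑S : Set ℕ) M₁) (e : MvPolynomial (Idx (↑S : Set ℕ)) O),
      IsLocIdem (TT O hS) (TT_comm hS) (thetaPoly L (↑S : Set ℕ) hLS O θ) e →
        Module.finrank O (Loc (TT O hS) (TT_comm hS) e) = 0)
    (hg : Good M₁ O) (hg' : Good (M₁ * p) O) (i₀ : Idx (↑S : Set ℕ))
    (hi₀ : θ (TIdx L (↑S : Set ℕ) hLS i₀) ≠ 1 + (i₀.1 : ResidueField O)) :
    VanishAt p hLS π (M₁ * p) (E.mB (Sum.inr ()) 0) :=
  H35.InB.vanishAt_t hp2 hdet hord hm hr0 w hw hg₀ hu E hpS hLS π hπ hH b₂ hb₂ hsq h0 hg hg' i₀ hi₀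

end Beta

/-! ### 7. The module part of a level and the level -/

section Core

open Fermat.Agent.H86.In (MarkFacts TFacts TWFacts VanishAt₁ bfun)
open Fermat.Agent.H69.EG (FullModPart)
open Fermat.Agent.H57.Full (FullLevel)

/-- **The module part of a level from the local facts** (`H86In2`; `H21MChain` is the same with the facts
about classes as hypotheses). Given:

* the ring `R` with the diamond parameters `c_j`, `(1 + c_j)^(p^(e_j)) = 1`, and a map `π : R → 𝕋`;
* the levels: `N₀` squarefree, divisible by the primes of `T`, which are `≡ 1` modulo `p` (and `O` contains a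
  root of unity `ζ ≠ 1` with `ζ^p = 1`); Taylor-Wiles primes `Q_j ∤ N₀`; raising primes `bb_i`, with
  `bb_i + 1` dividing `c'`; `L` the last level times the Taylor-Wiles primes and the primes of `T` once more;
  the levels are `Good`; the eigensystem `θ` is not Eisenstein (`hNE1`, `hNE2`); the ranks are positive and at
  most `D`;
* the local facts at the raising primes, at `T` and at the Taylor-Wiles primes (`GuideLiftingComposition`);
* a set `U` of elements which vanish at all points of all levels of the chain (`VanishAt`: the points whose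
  character has `p`-power order and a level prime to `p`);
* the point `pt` (with `c_j = 0`, `uniElt_t = 0`, `t_i = z_i = 0`) and the witness `f` (`pt f` not divisible
   by `ϖ ^ m`; `f = 0` at the points without character of the last level).

Conclusion: there is a module part (`FullModPart`: the modules with their bases over the group ring, the
comparison modulo `ϖ`, the raising steps, the witness; see `GuidePatching.modular_inputs`) with the point
`pt`, and all elements of `U` kill its modules. The modules are: with non-trivial characters at `T` at level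
`N₀ ∏ Q_j`, and without characters at `T` at the levels `N₀ ∏ Q_j * bb_0 ⋯ bb_{i-1}`, `i ≤ s`; the raising
steps are those of `GuideIharaSteps` (section 6) and `GuideRaisingSteps` (sections 6, 7). To each raising step
belongs a third kind of module, the new quotient of the module of the higher level. -/
theorem module_part {O : Type} [CommRing O] [IsDomain O] [IsDiscreteValuationRing O]
    [IsAdicComplete (maximalIdeal O) O] [Finite (ResidueField O)] [CharZero O]
    {p : ℕ} [Fact p.Prime] [CharP (ResidueField O) p] (hp2 : p ≠ 2)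
    {R : Type} [CommRing R] [IsLocalRing R] [Algebra O R] [IsAdicComplete (maximalIdeal R) R]
    {L : ℕ} [NeZero L] {S : Set ℕ} (hSL : ∀ q : ℕ, q.Prime → q ∣ L → q ∈ S)
    {θ : heckeAlgebra L 2 S →+* ResidueField O} (π : R →ₐ[O] heckeLocal L S O θ)
    {ϖ c' : O} (hϖ : maximalIdeal O = Ideal.span {ϖ})
    {r n D m s : ℕ} {T : Type} [Fintype T] {prodElt uniElt : T → R}
    {y : Fin s → Fin 3 → R} {cb : Fin s → O}
    (e : Fin r → ℕ) (hne : ∀ j, n ≤ e j) (c : Fin r → R) (hcm : ∀ j, c j ∈ maximalIdeal R)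
    (hc : ∀ j, (1 + c j) ^ (p ^ e j) = 1)
    (Q : Fin r → ℕ) (hQ : ∀ j, (Q j).Prime) (hQinj : Function.Injective Q)
    (hQe : ∀ j, p ^ e j ∣ Q j - 1) (hQp : ∀ j, Q j ≠ p)
    (qT : T → ℕ) (hqT : ∀ t, (qT t).Prime) (hqTinj : Function.Injective qT)
    (hqTp : ∀ t, p ∣ qT t - 1) (ζ : Oˣ) (hζ : ζ ^ p = 1) (hζ1 : ζ ≠ 1)
    {N₀ : ℕ} (hN₀ : Squarefree N₀) (hTN₀ : ∀ t, qT t ∣ N₀) (hQN₀ : ∀ j, ¬ Q j ∣ N₀)
    (bb : Fin s → ℕ) (hbb : ∀ i, (bb i).Prime) (hbinj : Function.Injective bb)
    (hbN₀ : ∀ i, ¬ bb i ∣ N₀) (hbQ : ∀ i j, bb i ≠ Q j) (hbc : ∀ i, ((bb i : O) + 1) ∣ c')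
    (hL : L = lvl (N₀ * ∏ j, Q j) (bfun bb) s * ((∏ j, Q j) * ∏ t, qT t))
    (hg : ∀ M' : ℕ, N₀ ∣ M' → Good M' O)
    (hNE1 : ∃ i : Idx S, (θ (TIdx L S hSL i)) ^ 2 ≠ ((i.1 : ResidueField O) + 1) ^ 2)
    (hNE2 : ∀ D : ℕ, D ≠ 0 → ∃ i : Idx S, (D : ℤ) ∣ (i.1 : ℤ) - 1 ∧
      θ (TIdx L S hSL i) ≠ (i.1 : ResidueField O) + 1)
    (hrk : ∀ e : MvPolynomial (Idx S) O,
      (∀ (L' : ℕ) (hL' : Adm S L'), L' ∣ L →
        IsLocIdem (TT O hL') (TT_comm hL') (thetaPoly L S hSL O θ) e) →
      (∀ h : Adm S (N₀ * ∏ j, Q j), 0 < Module.finrank O (Loc (TT O h) (TT_comm h) e)) ∧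
      ∀ i, i ≤ s → ∀ h : Adm S (lvl (N₀ * ∏ j, Q j) (bfun bb) i),
        Module.finrank O (Loc (TT O h) (TT_comm h) e) ≤ D)
    (tb : Fin s → R) (hM : ∀ i, MarkFacts p hSL π (bb i) (y i 0) (y i 1) (y i 2) (cb i) (tb i))
    (hT : ∀ t, TFacts p hSL π (qT t) (prodElt t) (uniElt t))
    (hTW : ∀ j, TWFacts p hSL π (Q j) (c j))
    (U : Set R) (hU : ∀ a ∈ U, ∀ i, i ≤ s →
      VanishAt p hSL π (lvl (N₀ * ∏ j, Q j) (bfun bb) i) a)
    (pt : R →ₐ[O] O) (hpt : ∀ j, pt (c j) = 0) (hptu : ∀ t, pt (uniElt t) = 0)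
    (hptt : ∀ i, pt (y i 0) = 0) (hptz : ∀ i, pt (y i 2) = 0)
    (f : R) (hf : pt f ∉ Ideal.span {ϖ ^ m})
    (hE : VanishAt₁ hSL π (lvl (N₀ * ∏ j, Q j) (bfun bb) s) f) :
    ∃ mp : FullModPart O ϖ c' p r n D m s R prodElt uniElt y cb,
      mp.pt = pt ∧ letI := mp.instAddCommGroup; letI := mp.instModule;
        ∀ a ∈ U, ∀ τ (x : mp.N τ), a • x = 0 :=
  H86.In.core hp2 hSL π hϖ e hne c hcm hc Q hQ hQinj hQe hQp qT hqT hqTinj hqTp ζ hζ hζ1 hN₀ hTN₀ hQN₀
    bb hbb hbinj hbN₀ hbQ hbc hL hg hNE1 hNE2 hrk tb hM hT hTW U hU pt hpt hptu hptt hptz f hf hE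

attribute [local instance] H57.NM.RPart.instCommRing H57.NM.RPart.instLocal
attribute [local instance] FullLevel.instAddCommGroup FullLevel.instModule
attribute [local instance] FullModPart.instAddCommGroup FullModPart.instModule

/-- **Ring part + module part = level** (`H86In3`). `G` is the Galois side of a level (`GuideLiftingGalois`),
`mp` a module part over the deformation ring `G.D.R`, with the elements of `G` at `T`
(`∏ (tr r(σ) - (ζ + ζ⁻¹))` and `tr r(σ) - 2`) and the marks `G.β (X_{κ i, j})` at the raising primes; `G.β` is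
the presentation of `G.D.R` by the power series ring. The result is a level in the sense of
`GuideLiftingAlgebra`; elements which kill the modules of `mp` kill the modules of the level, and the points
are the same. -/
theorem level_of_parts {O : Type} [CommRing O] [IsDomain O] [IsDiscreteValuationRing O]
    [IsAdicComplete (maximalIdeal O) O] [Finite (ResidueField O)]
    {p : ℕ} [Fact p.Prime] {rhobar : ResidualGaloisRep (ResidueField O)}
    {b : Module.Basis (Fin 2) (ResidueField O) rhobar.V} {pd : PData p rhobar b} {A : Finset ℕ}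
    {T B : Type} [Fintype T] [Fintype B] {qT : T → ℕ} {pl : ∀ t, PlaceData p (qT t)} {u : T → O}
    {qB : B → ℕ} {plB : ∀ i, PlaceData p (qB i)} {uB : B → O} {k n : ℕ} {S₀ : Finset ℕ}
    (G : GalLevelB p rhobar b pd A qT pl u qB plB uB k n S₀)
    {ϖ c' : O} {r' n' D m s : ℕ} {Z : T → Finset Oˣ} {cb : Fin s → O} (κ : Fin s → B ⊕ pd.ε)
    (mp : FullModPart O ϖ c' p r' n' D m s G.D.R
      (fun t => ∏ z ∈ Z t, (G.r (pl t).σ 0 0 + G.r (pl t).σ 1 1 -
        algebraMap O G.D.R ((z : O) + (z⁻¹ : Oˣ))))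
      (fun t => G.r (pl t).σ 0 0 + G.r (pl t).σ 1 1 - 2)
      (fun i j => G.β (MvPowerSeries.X (Sum.inl (Sum.inr (κ i, j))))) cb) :
    ∃ FL : FullLevel O ϖ c' p r' n' D m s
      (MvPowerSeries (((T × Fin 6) ⊕ ((B ⊕ pd.ε) × Fin 3)) ⊕ Fin k) O)
      (fun t j => MvPowerSeries.X (Sum.inl (Sum.inl (t, j))))
      (fun i j => MvPowerSeries.X (Sum.inl (Sum.inr (κ i, j)))) qT u Z cb,
      (∀ v, (∀ τ (x : mp.N τ), G.β v • x = 0) → ∀ τ (x : FL.N τ), FL.β v • x = 0) ∧
      ∀ v, FL.pt (FL.β v) = mp.pt (G.β v) :=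
  H86.In.exists_fullLevel G κ mp

end Core

/-! ### 8. Endomorphisms of a free module of rank two

Linear algebra which is used in the comparison of representations, in particular for the application of the
density theorem (`GuideGalois`, `GuideAbsGal`). Module `H86Charpoly`; closures: the list of the header, S43
and S58, and for some of the theorems also S33, S34, S39, S40, S41, S44. -/

section RankTwo

variable {A V : Type*} [CommRing A] [AddCommGroup V] [Module A V] [Module.Free A V]
  [Module.Finite A V]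

/-- The characteristic polynomial in rank two, and the trace of the powers as a Dickson polynomial of the
trace with the determinant `d` as parameter: `D_0 = 2`, `D_1 = X`, `D_{j+2} = X D_{j+1} - d D_j`. -/
theorem charpoly_rank_two [Nontrivial A] (h : Module.finrank A V = 2) (f : Module.End A V) :
    f.charpoly = X ^ 2 - C (LinearMap.trace A V f) * X + C (LinearMap.det f) ∧
    ∀ j : ℕ, LinearMap.trace A V (f ^ j) =
      (dickson 1 (LinearMap.det f) j).eval (LinearMap.trace A V f) :=
  ⟨H86.charpoly_eq_of_finrank_two h f, fun j => H86.trace_pow_eq_dickson h f j⟩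

/-- If two endomorphisms of free modules of rank two have the same characteristic polynomial, then so have
their `j`-th powers. -/
theorem charpoly_powers [Nontrivial A] {W : Type*} [AddCommGroup W] [Module A W] [Module.Free A W]
    [Module.Finite A W] (hV : Module.finrank A V = 2) (hW : Module.finrank A W = 2)
    {f : Module.End A V} {g : Module.End A W} (h : f.charpoly = g.charpoly) (j : ℕ) :
    (f ^ j).charpoly = (g ^ j).charpoly :=
  H86.charpoly_pow_eq hV hW h j

omit [Module.Free A V] [Module.Finite A V] in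
/-- Endomorphisms which are congruent modulo `I V` have congruent matrices. -/
theorem matrix_congruent {ι : Type*} [Fintype ι] [DecidableEq ι] (b : Module.Basis ι A V)
    (I : Ideal A) (f g : Module.End A V) (h : ∀ v, f v - g v ∈ I • (⊤ : Submodule A V)) :
    (LinearMap.toMatrix b b f).map (Ideal.Quotient.mk I) =
      (LinearMap.toMatrix b b g).map (Ideal.Quotient.mk I) :=
  H86.toMatrix_map_mk_eq b I f g h

/-- Endomorphisms which are congruent modulo `I V` have congruent traces and determinants. So these are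
continuous functions, and two representations with the same characteristic polynomials at the Frobenius
elements have the same characteristic polynomials everywhere. -/
theorem trace_det_congruent (I : Ideal A) (f g : Module.End A V)
    (h : ∀ v, f v - g v ∈ I • (⊤ : Submodule A V)) :
    LinearMap.trace A V f - LinearMap.trace A V g ∈ I ∧ LinearMap.det f - LinearMap.det g ∈ I :=
  ⟨H86.trace_sub_mem I f g h, H86.det_sub_mem I f g h⟩

end RankTwo

/-! ### 9. The curve at the primes of the partition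

The steps of `GuideLifting.residual_at_partition` and, together with `GuideGaloisPoints`, of
`GuideHeckeRings.exists_point_of_curve`. `H30.PT.tMat W hΔ hpO` is the Tate module of `W` over `O` in a
basis which comes from a standard basis of `T_p W`; `resZ W hΔ p` is `W[p]`; `nodeSign W q` is `1` for split
and `-1` for non-split multiplicative reduction (`GuideTwoAdicCurve`). -/

section Curve

variable {W : WeierstrassCurve ℤ} (hΔ : W.Δ ≠ 0) {p : ℕ} [Fact p.Prime] {O : Type} [CommRing O]
  [IsDomain O] [IsDiscreteValuationRing O] [IsAdicComplete (maximalIdeal O) O]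
  [Finite (ResidueField O)] [CharZero O] (hpO : (p : O) ∈ maximalIdeal O)

/-- **The Tate module in matrices** (`H30PT`). `tMat` is the matrix form of `tO`, with the same
characteristic polynomials and determinants; the determinant is `q` at a Frobenius element above `q ≠ p` and
`1` on inertia at `q`. (The determinant is the cyclotomic character modulo `p^n` for all `n`, and `O` is
separated.) -/
theorem tate_matrices :
    toMat (tO W hΔ hpO).ρ (H30.PT.tBasis W hΔ hpO) = H30.PT.tMat W hΔ hpO ∧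
    (∀ σ : GQ, (H30.PT.tMat W hΔ hpO σ).charpoly = LinearMap.charpoly ((tO W hΔ hpO).ρ σ) ∧
      (H30.PT.tMat W hΔ hpO σ).det = LinearMap.det ((tO W hΔ hpO).ρ σ)) ∧
    ∀ {q : ℕ}, q.Prime → q ≠ p → ∀ {P : ValuationSubring (AlgebraicClosure ℚ)}, P.LiesOverPrime q →
      ∀ {σ : GQ}, (P.IsFrobeniusAt σ q → (H30.PT.tMat W hΔ hpO σ).det = q) ∧
        (σ ∈ P.inertiaSubgroupIn ℚ → (H30.PT.tMat W hΔ hpO σ).det = 1) :=
  ⟨H30.PT.toMat_tBasis W hΔ hpO,
    fun σ => ⟨H30.PT.tMat_charpoly W hΔ hpO σ, H30.PT.tMat_det hΔ hpO σ⟩,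
    fun {_} hq hqp {_} hP {_} => ⟨H30.PT.tMat_det_frob hΔ hpO hq hqp hP,
      H30.PT.tMat_det_inertia hΔ hpO hq hqp hP⟩⟩

/-- **The local type at a multiplicative prime** (`H30PT`; the analysis of the node is helper73's, see
`GuideTwoAdicCurve` and `GuideResidualSteps.local_type_multiplicative`). (1) A matrix representation of type
`LocType r P s` (`GuideTwoAdicCurve.locType_iff`) satisfies `tr r(g) = s(g) (det r(g) + 1)` on the
decomposition group. (2) The Tate module has such a type at every multiplicative prime `q` (`q = p` is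
allowed), and `s` is `nodeSign W q` at the Frobenius elements. -/
theorem local_type :
    (∀ {R : Type} [CommRing R] {r : GQ →* Matrix (Fin 2) (Fin 2) R}
      {P : ValuationSubring (AlgebraicClosure ℚ)} {s : GQ → ℤ}, H73LT.LocType r P s →
      ∀ {g : GQ}, g ∈ P.decompositionSubgroup ℚ → (r g).trace = (s g : R) * ((r g).det + 1)) ∧
    ∀ {q : ℕ}, q.Prime → (q : ℤ) ∣ W.Δ → ¬ (q : ℤ) ∣ W.c₄ →
      ∀ P : ValuationSubring (AlgebraicClosure ℚ), P.LiesOverPrime q →
        ∃ s : GQ → ℤ, H73LT.LocType (H30.PT.tMat W hΔ hpO) P s ∧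
          ∀ g, P.IsFrobeniusAt g q → s g = nodeSign W q :=
  ⟨fun h _ hg => H30.PT.LocType.trace_eq h hg, fun hq hb hc => H30.PT.tMat_locType hΔ hpO hq hb hc⟩

/-- **Trace and determinant of the Tate module at `q ≠ p`** (`H30PT`): `w (q + 1)` and `q` for a Frobenius
element at a multiplicative prime, `w = nodeSign W q`; `2` and `1` for inertia, if `W` is semistable. -/
theorem traces_of_tate_module {q : ℕ} (hq : q.Prime) (hqp : q ≠ p)
    {P : ValuationSubring (AlgebraicClosure ℚ)} (hP : P.LiesOverPrime q) {σ : GQ} :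
    ((q : ℤ) ∣ W.Δ → ¬ (q : ℤ) ∣ W.c₄ → P.IsFrobeniusAt σ q →
      (H30.PT.tMat W hΔ hpO σ).trace = (nodeSign W q : O) * (q + 1) ∧
        (H30.PT.tMat W hΔ hpO σ).det = q) ∧
    (W.IsSemistableModel → σ ∈ P.inertiaSubgroupIn ℚ →
      (H30.PT.tMat W hΔ hpO σ).trace = 2 ∧ (H30.PT.tMat W hΔ hpO σ).det = 1) :=
  ⟨fun hb hc hσ => H30.PT.tMat_frob_mult hΔ hpO hq hqp hb hc hP hσ,
    fun hss hσ => H30.PT.tMat_inertia hΔ hpO hss hq hqp hP hσ⟩

/-- **The same for `W[p]`** (`H57S59Part`): the characteristic polynomial is `X² - w (q + 1) X + q` for a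
Frobenius element at a multiplicative prime `q ≠ p`, and `(X - 1)²` for inertia at `q ≠ p`, if `W` is
semistable. -/
theorem residual_charpolys {q : ℕ} (hq : q.Prime) (hqp : q ≠ p)
    {P : ValuationSubring (AlgebraicClosure ℚ)} (hP : P.LiesOverPrime q) {σ : GQ} :
    ((q : ℤ) ∣ W.Δ → ¬ (q : ℤ) ∣ W.c₄ → P.IsFrobeniusAt σ q →
      LinearMap.charpoly ((resZ W hΔ p).ρ σ) =
        X ^ 2 - C ((nodeSign W q : ZMod p) * ((q : ZMod p) + 1)) * X + C (q : ZMod p)) ∧
    (W.IsSemistableModel → σ ∈ P.inertiaSubgroupIn ℚ →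
      LinearMap.charpoly ((resZ W hΔ p).ρ σ) = (X - 1) ^ 2) :=
  ⟨fun hb hc hσ => H57.S59.resZ_charpoly_mult hq hqp hb hc hP hσ,
    fun hss hσ => H57.S59.resZ_charpoly_inertia hss hq hqp hP hσ⟩

/-- **Scalar Frobenius elements.** (1) If a residual representation is unramified at `q` and one Frobenius
element above `q` acts as the scalar `c`, all do (`H57S59Part`; Frobenius elements are conjugate up to
inertia). (2) An element which does not act as a scalar on `W[p]` does not act as a scalar after an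
extension of `ℤ/p` (`H57S59Out`). So at `q ∈ B` Frobenius is not scalar: if it were `c`, then `c² = q` and
`2 c = w (q + 1)`, hence `(q - 1)² = 0`, `q = 1` and `c = w` in `ℤ/p` (`p` odd), and `q` would be a scalar
prime, against the partition. -/
theorem scalar_frobenius {k : Type} [Field k] :
    (∀ {ρ : ResidualGaloisRep k} {q : ℕ}, q.Prime → ρ.IsUnramifiedAt q →
      ∀ {P P' : ValuationSubring (AlgebraicClosure ℚ)}, P.LiesOverPrime q → P'.LiesOverPrime q →
        ∀ {φ φ' : GQ}, P.IsFrobeniusAt φ q → P'.IsFrobeniusAt φ' q →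
          ∀ {c : k}, ρ.ρ φ = c • 1 → ρ.ρ φ' = c • 1) ∧
    ∀ [Algebra (ZMod p) k] (b : Module.Basis (Fin 2) k ((resZ W hΔ p).baseChange k).V) {σ : GQ},
      (∀ c : ZMod p, (resZ W hΔ p).ρ σ ≠ c • 1) →
        H53.NonScalar (toMat ((resZ W hΔ p).baseChange k).ρ b σ) :=
  ⟨fun {_ _} hq hu {_ _} hP hP' {_ _} hφ hφ' {_} h => H57.S59.frob_scalar_of_one hq hu hP hP' hφ hφ' h,
    fun {_} b {_} h => H57.S59.nonScalar_of b h⟩

end Curve

/-! ### 10. The hypotheses `Good` and "not Eisenstein" of the levels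

`Good M R` (`GuideCohomology.good_of`) makes the modules of cocycles projective; `hNE1`, `hNE2` (Ihara's
lemma, `module_part`) and `hi₀` (section 4) say that the eigensystem is not Eisenstein. Module `H10NE`. -/

section Eisenstein

/-- **All levels are good**, `R` a local ring of residue characteristic `p`. For `p ≥ 5` because `2` and `3`
are units; for `p = 3` because `2` is a unit and because of the auxiliary prime `s ≡ 2` modulo `3` in the
base level: `x² - x + 1` has no zero modulo `s`, so `Γ₀(M)` has no element of order three modulo `± 1`. -/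
theorem levels_are_good {W : WeierstrassCurve ℤ} {hΔ : W.Δ ≠ 0} {p : ℕ} [Fact p.Prime]
    {A T B : Finset ℕ} {s : ℕ} (P : Partition W hΔ p A T B s) (hp2 : p ≠ 2) :
    (∀ {s : ℕ}, s.Prime → s % 3 = 2 → ∀ x : ZMod s, x ^ 2 - x + 1 ≠ 0) ∧
    ∀ {R : Type} [CommRing R] [IsLocalRing R] [CharP (ResidueField R) p] (M : ℕ),
      baseLevel A T s ∣ M → Good M R :=
  ⟨fun hs hs3 x => H10.NE.no_root_of_mod hs hs3 x,
    fun M hM => H10.NE.good_of_partition P hp2 M hM⟩

/-- **`W` is not Eisenstein**, if `p` is odd and `W[p]` irreducible, in terms of the numbers `a_ℓ(W)` in a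
field `κ` of characteristic `p`: outside a finite set `S` there is a prime `ℓ` with `a_ℓ² ≠ (ℓ + 1)²`, and
for every `D > 0` a prime `ℓ ≡ 1` modulo `D` with `a_ℓ ≠ ℓ + 1`. (From `not_eisenstein_one` and
`not_eisenstein_two` of `GuideNonEisenstein`.) -/
theorem curve_not_eisenstein {p : ℕ} [Fact p.Prime] {W : WeierstrassCurve ℤ} (hΔ : W.Δ ≠ 0)
    (hp2 : p ≠ 2) (hirr : W.ModRepIsIrreducible p) (S : Finset ℕ) (κ : Type*) [Field κ] [CharP κ p] :
    (∃ i : Pr (↑S : Set ℕ), (((W.apOfModel i.1 : ℤ) : κ)) ^ 2 ≠ ((i.1 : κ) + 1) ^ 2) ∧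
    ∀ D : ℕ, D ≠ 0 → ∃ i : Pr (↑S : Set ℕ), (D : ℤ) ∣ (i.1 : ℤ) - 1 ∧
      ((W.apOfModel i.1 : ℤ) : κ) ≠ (i.1 : κ) + 1 :=
  ⟨H10.NE.ne1 hΔ hp2 hirr S κ, H10.NE.ne2 hΔ hp2 hirr S κ⟩

/-- **The same for the character of the Hecke ring** `θ(T_ℓ) = a_ℓ(W)`: the hypotheses `hNE1`, `hNE2` of
`module_part` and `hi₀` of section 4. -/
theorem eigensystem_not_eisenstein {p : ℕ} [Fact p.Prime] {W : WeierstrassCurve ℤ} (hΔ : W.Δ ≠ 0)
    (hp2 : p ≠ 2) (hirr : W.ModRepIsIrreducible p) {S : Finset ℕ} {κ : Type*} [Field κ] [CharP κ p]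
    {L : ℕ} [NeZero L] {hSL : ∀ q : ℕ, q.Prime → q ∣ L → q ∈ (↑S : Set ℕ)}
    {θ : heckeAlgebra L 2 (↑S : Set ℕ) →+* κ}
    (hθ : ∀ i : Pr (↑S : Set ℕ), θ (TIdx L (↑S : Set ℕ) hSL i) = ((W.apOfModel i.1 : ℤ) : κ)) :
    (∃ i : Pr (↑S : Set ℕ), (θ (TIdx L (↑S : Set ℕ) hSL i)) ^ 2 ≠ ((i.1 : κ) + 1) ^ 2) ∧
    ∀ D : ℕ, D ≠ 0 → (∃ i : Pr (↑S : Set ℕ), (D : ℤ) ∣ (i.1 : ℤ) - 1 ∧
      θ (TIdx L (↑S : Set ℕ) hSL i) ≠ (i.1 : κ) + 1) ∧
      ∃ i₀ : Pr (↑S : Set ℕ), (D : ℤ) ∣ (i₀.1 : ℤ) - 1 ∧
        θ (TIdx L (↑S : Set ℕ) hSL i₀) ≠ 1 + (i₀.1 : κ) :=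
  ⟨H10.NE.hNE1 hΔ hp2 hirr hθ, fun D hD => ⟨H10.NE.hNE2 hΔ hp2 hirr hθ D hD,
    H10.NE.exists_i0_T hΔ hp2 hirr hθ D hD⟩⟩

end Eisenstein

/-! ### 11. The density theorem for representations

The passage from Frobenius' density theorem for number fields (`FrobDensityFinite`, proved in
`GuideGalois.frobenius_density_finite`) to places of `Q̄` and to representations; the results are
`GuideGalois.frobenius_density`, `charpoly_eq_of_frobenius`, `det_cyclotomic`. Modules `H86Density`,
`H86DensityRep`. Besides the statements of the header, the first two theorems are used in 21 others,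
`approximation` in S33, S34, S43, S58, `approximation_two` in S58, `residual_density` in S43, the last one
in S33, S34, S43, S56. -/

section Density

local notation "Qb" => AlgebraicClosure ℚ

/-- **The prime below a place.** For a subfield `M` of `Q̄` and a place `A` of `Q̄`, `centre M A` is the
prime ideal of the integers of `M` which lie in the maximal ideal of `A`; it contains `ℓ` if `A` lies above
`ℓ`. If `M` is normal it is compatible with the Galois action, and a Frobenius element at `A` restricts to a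
Frobenius element at `centre M A`. -/
theorem prime_below_place (M : IntermediateField ℚ Qb) :
    (∀ A : ValuationSubring Qb, (H86.centre M A).IsPrime ∧
      ∀ x : NumberField.RingOfIntegers M, x ∈ H86.centre M A ↔ ((x : M) : Qb) ∈ A.nonunits) ∧
    (∀ {A : ValuationSubring Qb} {ℓ : ℕ}, A.LiesOverPrime ℓ →
      ((ℓ : ℕ) : NumberField.RingOfIntegers M) ∈ H86.centre M A) ∧
    ∀ [Normal ℚ M], (∀ (τ : GQ) (A : ValuationSubring Qb),
        H86.centre M (open Pointwise in τ • A) =
          (open Pointwise in (AlgEquiv.restrictNormalHom M τ) • H86.centre M A)) ∧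
      ∀ {A : ValuationSubring Qb} {ℓ : ℕ} {φ : GQ}, A.IsFrobeniusAt φ ℓ →
        ∀ x : NumberField.RingOfIntegers M,
          (AlgEquiv.restrictNormalHom M φ) • x - x ^ ℓ ∈ H86.centre M A :=
  ⟨fun A => ⟨H86.centre_isPrime M A, H86.mem_centre M A⟩, fun h => H86.natCast_mem_centre M h,
    fun {_} => ⟨H86.centre_smul M, fun {_ _ _} h x => H86.restrict_frobenius M h x⟩⟩

/-- **Frobenius elements at places**: for a finite normal extension `M` of `ℚ`, every `σ` and every finite
set `S` there are a prime `ℓ ∉ S`, a place `A` above `ℓ` such that `centre M A` has trivial inertia group in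
`Gal(M/ℚ)`, and a Frobenius element at `A` which generates the same subgroup of `Gal(M/ℚ)` as `σ`. (Every
prime of `M` above `ℓ` is the centre of a place above `ℓ`: the Galois group permutes the primes above `ℓ`
transitively.) -/
theorem density_at_places (H : H86.FrobDensityFinite) (M : IntermediateField ℚ Qb)
    [FiniteDimensional ℚ M] [Normal ℚ M] (σ : GQ) (S : Finset ℕ) :
    ∃ ℓ : ℕ, ℓ.Prime ∧ ℓ ∉ S ∧ ∃ A : ValuationSubring Qb, A.LiesOverPrime ℓ ∧
      ∃ φ : GQ, A.IsFrobeniusAt φ ℓ ∧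
        (∀ τ : M ≃ₐ[ℚ] M, (∀ x : NumberField.RingOfIntegers M, τ • x - x ∈ H86.centre M A) → τ = 1) ∧
        Subgroup.zpowers (AlgEquiv.restrictNormalHom M φ) =
          Subgroup.zpowers (AlgEquiv.restrictNormalHom M σ) :=
  H86.frobenius_density_aux H M σ S

/-- **Approximation of one representation**: for an adic representation `ρ` and every `σ`, `n` there are a
prime `ℓ ∉ S`, a Frobenius element `φ` above `ℓ` and `j` such that `σ = φ^j` on a given finite extension
`L₀` and `ρ(σ) ≡ ρ(φ)^j` modulo `𝔪^n`. -/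
theorem approximation (H : H86.FrobDensityFinite) {A : Type} [CommRing A] [IsLocalRing A]
    (ρ : GaloisRepAdic A) (n : ℕ) (L₀ : IntermediateField ℚ Qb) [FiniteDimensional ℚ L₀] (σ : GQ)
    (S : Finset ℕ) :
    ∃ ℓ : ℕ, ℓ.Prime ∧ ℓ ∉ S ∧ ∃ P : ValuationSubring Qb, P.LiesOverPrime ℓ ∧
      ∃ φ : GQ, P.IsFrobeniusAt φ ℓ ∧ ∃ j : ℕ, (∀ x ∈ L₀, σ x = (φ ^ j) x) ∧
        ∀ v : ρ.V, ρ.ρ σ v - (ρ.ρ φ ^ j) v ∈ (maximalIdeal A ^ n) • (⊤ : Submodule A ρ.V) :=
  H86.density_adic H ρ n L₀ σ S

/-- **Approximation of two representations** by the same power of the same Frobenius element; the rings may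
be different. With `charpoly_powers` and `trace_det_congruent` this gives
`GuideGalois.charpoly_eq_of_frobenius`: if the characteristic polynomials agree at the Frobenius elements,
those of `ρ₁(σ)` and `ρ₂(σ)` are congruent modulo every power of `𝔪`. -/
theorem approximation_two (H : H86.FrobDensityFinite) {A B : Type} [CommRing A] [IsLocalRing A]
    [CommRing B] [IsLocalRing B] (ρ₁ : GaloisRepAdic A) (ρ₂ : GaloisRepAdic B) (n : ℕ)
    (L₀ : IntermediateField ℚ Qb) [FiniteDimensional ℚ L₀] (σ : GQ) (S : Finset ℕ) :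
    ∃ ℓ : ℕ, ℓ.Prime ∧ ℓ ∉ S ∧ ∃ P : ValuationSubring Qb, P.LiesOverPrime ℓ ∧
      ∃ φ : GQ, P.IsFrobeniusAt φ ℓ ∧ ∃ j : ℕ, (∀ x ∈ L₀, σ x = (φ ^ j) x) ∧
        (∀ v : ρ₁.V, ρ₁.ρ σ v - (ρ₁.ρ φ ^ j) v ∈ (maximalIdeal A ^ n) • (⊤ : Submodule A ρ₁.V)) ∧
        ∀ v : ρ₂.V, ρ₂.ρ σ v - (ρ₂.ρ φ ^ j) v ∈ (maximalIdeal B ^ n) • (⊤ : Submodule B ρ₂.V) :=
  H86.density_adic₂ H ρ₁ ρ₂ n L₀ σ S

/-- **Residual representations.** Given two of them, over fields `k`, `k'`, there is for every `σ` a
Frobenius element `φ` such that their values at `σ` and at `φ` are powers of each other, with the same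
exponents for both; so two representations over `k` with the same characteristic polynomials at the
Frobenius elements outside `S` have the same characteristic polynomials everywhere (`charpoly_powers`). -/
theorem residual_density (H : H86.FrobDensityFinite) {k : Type} [Field k] (ρ₁ : ResidualGaloisRep k)
    (S : Finset ℕ) (σ : GQ) :
    (∀ {k' : Type} [Field k'] (ρ₂ : ResidualGaloisRep k'),
      ∃ ℓ : ℕ, ℓ.Prime ∧ ℓ ∉ S ∧ ∃ P : ValuationSubring Qb, P.LiesOverPrime ℓ ∧
        ∃ φ : GQ, P.IsFrobeniusAt φ ℓ ∧ ∃ j i : ℕ, ρ₁.ρ σ = ρ₁.ρ φ ^ j ∧ ρ₂.ρ σ = ρ₂.ρ φ ^ j ∧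
          ρ₁.ρ φ = ρ₁.ρ σ ^ i ∧ ρ₂.ρ φ = ρ₂.ρ σ ^ i) ∧
    ∀ ρ₂ : ResidualGaloisRep k, (∀ ℓ : ℕ, ℓ.Prime → ℓ ∉ S → ∀ P : ValuationSubring Qb,
      P.LiesOverPrime ℓ → ∀ φ : GQ, P.IsFrobeniusAt φ ℓ →
        (ρ₁.ρ φ).charpoly = (ρ₂.ρ φ).charpoly) → (ρ₁.ρ σ).charpoly = (ρ₂.ρ σ).charpoly :=
  ⟨fun ρ₂ => H86.density_residual₂ H ρ₁ ρ₂ σ S,
    fun ρ₂ h => H86.charpoly_eq_of_frobenius_residual H ρ₁ ρ₂ S h σ⟩

/-- **Frobenius elements and roots of unity.** A Frobenius element above `ℓ` raises the roots of unity of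
order prime to `ℓ` to the power `ℓ`, its `j`-th power raises them to the power `ℓ^j`. With `approximation`
(for `L₀` the field of the `p^n`-th roots of unity) and with the second statement, ideals of a noetherian
local ring are closed, one gets `GuideGalois.det_cyclotomic`: if the determinant is `ℓ` at the Frobenius
elements, it is the cyclotomic character. -/
theorem frobenius_roots_of_unity :
    (∀ {P : ValuationSubring Qb} {ℓ : ℕ}, ℓ.Prime → P.LiesOverPrime ℓ → ∀ {φ : GQ},
      P.IsFrobeniusAt φ ℓ → ∀ {m : ℕ}, ¬ ℓ ∣ m → ∀ {ζ : Qb}, ζ ^ m = 1 →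
        φ ζ = ζ ^ ℓ ∧ ∀ j : ℕ, (φ ^ j) ζ = ζ ^ (ℓ ^ j)) ∧
    ∀ {A : Type*} [CommRing A] [IsLocalRing A] [IsNoetherianRing A] (J : Ideal A) {x : A},
      (∀ N : ℕ, x ∈ J ⊔ maximalIdeal A ^ N) → x ∈ J :=
  ⟨fun {_ _} hℓ hP {_} hφ {_} hm {_} hζ => ⟨H86.frobenius_apply_rootsOfUnity hℓ hP hφ hm hζ,
      fun j => H86.frobenius_pow_apply_rootsOfUnity hℓ hP hφ hm hζ j⟩,
    fun {A} [CommRing A] [IsLocalRing A] [IsNoetherianRing A] J {_} h => H86.mem_of_forall_mem_sup_pow J h⟩

end Density

end Fermat.Agent.Guide.LiftingSteps
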