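import Fermat.Agent.H53Uni

set_option autoImplicit false
set_option linter.style.haveILetI false
set_option linter.unusedSectionVars false

noncomputable section

open scoped TensorProduct
open IsLocalRing GaloisRep

namespace Fermat.Agent.H53

section

variable {𝒪 : Type} [CommRing 𝒪] [IsLocalRing 𝒪]
  {𝒟 : ∀ ⦃A : Type⦄ [CommRing A] [IsLocalRing A] [Algebra 𝒪 A], GaloisRepAdic A → Prop}

lemma exists_lift_unit {A : Type} [CommRing A] [IsLocalRing A] (u : M2 (ResidueField A))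
    (hu : IsUnit u) : ∃ w : M2 A, IsUnit w ∧ w.map (residue A) = u := by
  choose f hf using fun i j => residue_surjective (R := A) (u i j)
  have h : (Matrix.of f : M2 A).map (residue A) = u := by
    ext i j
    exact hf i j
  exact ⟨Matrix.of f, isUnit_of_res (by rw [h]; exact hu), h⟩

/-- a basis lifting a given basis of the residual representation -/
lemma exists_basis_lift (ρbar : ResidualGaloisRep (ResidueField 𝒪))
    (bb : Module.Basis (Fin 2) (ResidueField 𝒪) ρbar.V) {A : Type} [CommRing A]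
    [IsLocalRing A] [Algebra 𝒪 A] [IsLocalHom (algebraMap 𝒪 A)] (ρ : GaloisRepAdic A)
    (h : ρ.residual.IsEquiv (ρbar.baseChangeAlong (ResidueField.map (algebraMap 𝒪 A)))) :
    ∃ b : Module.Basis (Fin 2) A ρ.V, mapMat (residue A) (toMat ρ.ρ b) =
      mapMat (ResidueField.map (algebraMap 𝒪 A)) (toMat ρbar.ρ bb) := by
  obtain ⟨b⟩ := exists_basis ρ
  rw [residual_isEquiv_iff_conj _ _ (resBasis ρ b) (rbcBasis _ ρbar bb)] at h
  obtain ⟨u, hu, huc⟩ := h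
  rw [toMat_resBasis, toMat_rbcBasis] at huc
  obtain ⟨v, rfl⟩ := hu
  obtain ⟨w, hw, hwv⟩ := exists_lift_unit (↑v⁻¹ : M2 (ResidueField A)) v⁻¹.isUnit
  obtain ⟨b', hb'⟩ := exists_basis_conj ρ b w hw
  refine ⟨b', ?_⟩
  apply MonoidHom.ext
  intro σ
  have h1 := congrArg (fun m : M2 A => m.map (residue A)) (hb' σ)
  simp only [Matrix.map_mul, hwv] at h1
  calc mapMat (residue A) (toMat ρ.ρ b') σ
      = (v : M2 (ResidueField A)) * ((↑v⁻¹ : M2 (ResidueField A)) *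
          (toMat ρ.ρ b' σ).map (residue A)) := by
        rw [← mul_assoc, Units.mul_inv, one_mul]; rfl
    _ = (v : M2 (ResidueField A)) * (mapMat (residue A) (toMat ρ.ρ b) σ) *
          (↑v⁻¹ : M2 (ResidueField A)) := by rw [h1, ← mul_assoc]; rfl
    _ = _ := by rw [huc, mul_assoc, Units.mul_inv, mul_one]

/-- matrix form of the residual condition -/
lemma residual_iff_of_basis (ρbar : ResidualGaloisRep (ResidueField 𝒪))
    (bb : Module.Basis (Fin 2) (ResidueField 𝒪) ρbar.V) {A : Type} [CommRing A]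
    [IsLocalRing A] [Algebra 𝒪 A] [IsLocalHom (algebraMap 𝒪 A)] (r : GQ →* M2 A) (hr : MCont A r)
    (h : mapMat (residue A) r = mapMat (ResidueField.map (algebraMap 𝒪 A)) (toMat ρbar.ρ bb)) :
    (ofMatrix r hr).residual.IsEquiv
      (ρbar.baseChangeAlong (ResidueField.map (algebraMap 𝒪 A))) := by
  rw [residual_isEquiv_iff_conj _ _ (resBasis _ (stdBasis r hr)) (rbcBasis _ ρbar bb)]
  refine ⟨1, isUnit_one, fun σ => ?_⟩
  rw [toMat_resBasis, toMat_rbcBasis, toMat_stdBasis, one_mul, mul_one, h]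

end

section

variable {𝒪 : Type} [CommRing 𝒪] [IsDomain 𝒪] [IsDiscreteValuationRing 𝒪]
  [IsAdicComplete (maximalIdeal 𝒪) 𝒪] {ρbar : ResidualGaloisRep (ResidueField 𝒪)}
  {𝒟 𝒟' : ∀ ⦃A : Type⦄ [CommRing A] [IsLocalRing A] [Algebra 𝒪 A], GaloisRepAdic A → Prop}

/-- homomorphisms from the universal ring are determined by the representation -/
lemma DeformationRingData.hom_ext (D : DeformationRingData 𝒪 ρbar 𝒟) {A : Type} [CommRing A]
    [IsLocalRing A] [IsNoetherianRing A] [IsAdicComplete (maximalIdeal A) A] [Algebra 𝒪 A]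
    [IsLocalHom (algebraMap 𝒪 A)]
    (hA : Function.Surjective (IsLocalRing.residue A ∘ algebraMap 𝒪 A))
    (ρA : GaloisRepAdic A) (hρA : 𝒟 ρA)
    (hres : ρA.residual.IsEquiv
      (ρbar.baseChangeAlong (IsLocalRing.ResidueField.map (algebraMap 𝒪 A))))
    {f g : D.R →ₐ[𝒪] A}
    (hf : ∃ h : IsLocalHom (f : D.R →+* A), (D.ρ.baseChangeAlong (f : D.R →+* A) h).IsEquiv ρA)
    (hg : ∃ h : IsLocalHom (g : D.R →+* A), (D.ρ.baseChangeAlong (g : D.R →+* A) h).IsEquiv ρA) :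
    f = g :=
  (D.universal A hA ρA hρA hres).unique hf hg

/-- **Quotients of universal rings.** If `𝒟'` is the condition `𝒟` plus a condition which the
representation over `R / K` satisfies, and `K` is killed in `R'`, then `R' = R / K`. -/
theorem exists_quotient_iso (h𝒟 : IsDeformationCondition 𝒪 𝒟)
    (D : DeformationRingData 𝒪 ρbar 𝒟) (D' : DeformationRingData 𝒪 ρbar 𝒟')
    (hle : ∀ ⦃A : Type⦄ [CommRing A] [IsLocalRing A] [Algebra 𝒪 A] (ρ : GaloisRepAdic A),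
      𝒟' ρ → 𝒟 ρ) (K : Ideal D.R) (hK : K ≤ maximalIdeal D.R)
    (hK' : ∀ (φ : D.R →ₐ[𝒪] D'.R) (hφ : IsLocalHom (φ : D.R →+* D'.R)),
      (D.ρ.baseChangeAlong (φ : D.R →+* D'.R) hφ).IsEquiv D'.ρ → ∀ x ∈ K, φ x = 0)
    (hKD : ∀ (_ : IsLocalRing (D.R ⧸ K)) (h : IsLocalHom (Ideal.Quotient.mk K)),
      IsAdicComplete (maximalIdeal (D.R ⧸ K)) (D.R ⧸ K) →
      𝒟 (D.ρ.baseChangeAlong (Ideal.Quotient.mk K) h) →
        𝒟' (D.ρ.baseChangeAlong (Ideal.Quotient.mk K) h)) :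
    ∃ (φ : D.R →ₐ[𝒪] D'.R) (hφ : IsLocalHom (φ : D.R →+* D'.R)),
      (D.ρ.baseChangeAlong (φ : D.R →+* D'.R) hφ).IsEquiv D'.ρ ∧ Function.Surjective φ ∧
      RingHom.ker φ = K := by
  have hKtop : K ≠ ⊤ := fun h => by
    rw [h, top_le_iff] at hK
    exact Ideal.IsPrime.ne_top inferInstance hK
  haveI : Nontrivial (D.R ⧸ K) := Ideal.Quotient.nontrivial_iff.mpr hKtop
  haveI hloc : IsLocalRing (D.R ⧸ K) :=
    IsLocalRing.of_surjective' (Ideal.Quotient.mk K) Ideal.Quotient.mk_surjective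
  haveI hmk : IsLocalHom (Ideal.Quotient.mk K) :=
    IsLocalHom.of_surjective _ Ideal.Quotient.mk_surjective
  haveI hcomplete : IsAdicComplete (maximalIdeal (D.R ⧸ K)) (D.R ⧸ K) :=
    isAdicComplete_of_surj (Ideal.Quotient.mk K) Ideal.Quotient.mk_surjective
  haveI hlocK : IsLocalHom (algebraMap 𝒪 (D.R ⧸ K)) := by
    have : algebraMap 𝒪 (D.R ⧸ K) = (Ideal.Quotient.mk K).comp (algebraMap 𝒪 D.R) := rfl
    rw [this]
    exact RingHom.isLocalHom_comp _ _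
  have hsurjK : Function.Surjective (residue (D.R ⧸ K) ∘ algebraMap 𝒪 (D.R ⧸ K)) := by
    intro y
    obtain ⟨y', rfl⟩ := residue_surjective y
    obtain ⟨a, rfl⟩ := Ideal.Quotient.mk_surjective y'
    obtain ⟨c, hc⟩ := D.residue_surjective (residue D.R a)
    refine ⟨c, ?_⟩
    have := congrArg (ResidueField.map (Ideal.Quotient.mk K)) hc
    simp only [Function.comp_apply, ResidueField.map_residue] at this
    exact this
  set ρK := D.ρ.baseChangeAlong (Ideal.Quotient.mk K) hmk with hρK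
  have hDK : 𝒟 ρK := type_of_surjective h𝒟 inferInstance D.residue_surjective hlocK hsurjK
    (Ideal.Quotient.mkₐ 𝒪 K) hmk Ideal.Quotient.mk_surjective D.isOfType
  have hDK' : 𝒟' ρK := hKD hloc hmk hcomplete hDK
  have hresK : ρK.residual.IsEquiv
      (ρbar.baseChangeAlong (ResidueField.map (algebraMap 𝒪 (D.R ⧸ K)))) :=
    residual_bc_isEquiv ρbar (Ideal.Quotient.mkₐ 𝒪 K) hmk D.ρ D.residual_isEquiv
  obtain ⟨ψ, ⟨hψl, hψ⟩, -⟩ := D'.universal (D.R ⧸ K) hsurjK ρK hDK' hresK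
  obtain ⟨φ, ⟨hφl, hφ⟩, -⟩ := D.universal D'.R D'.residue_surjective D'.ρ (hle _ D'.isOfType)
    D'.residual_isEquiv
  have hφK : ∀ x ∈ K, φ x = 0 := hK' φ hφl hφ
  -- the composite `R → R' → R / K`
  have hψφl : IsLocalHom ((ψ.comp φ : D.R →ₐ[𝒪] D.R ⧸ K) : D.R →+* D.R ⧸ K) :=
    @RingHom.isLocalHom_comp _ _ _ _ _ _ (ψ : D'.R →+* D.R ⧸ K) (φ : D.R →+* D'.R) hψl hφl
  have h1 : ψ.comp φ = Ideal.Quotient.mkₐ 𝒪 K := by
    refine DeformationRingData.hom_ext D hsurjK ρK hDK hresK ⟨hψφl, ?_⟩ ⟨hmk, ?_⟩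
    · refine isEquiv_trans (bc_bc_isEquiv (φ : D.R →+* D'.R) hφl (ψ : D'.R →+* D.R ⧸ K) hψl hψφl
        D.ρ) (isEquiv_trans (bc_congr _ _ hφ) hψ)
    · exact ⟨GaloisRepAdic.Equiv.refl _⟩
  -- the other composite
  let φ' : D.R ⧸ K →ₐ[𝒪] D'.R := Ideal.Quotient.liftₐ K φ hφK
  have hφ'l : IsLocalHom (φ' : D.R ⧸ K →+* D'.R) := by
    refine ⟨fun x hx => ?_⟩
    obtain ⟨x, rfl⟩ := Ideal.Quotient.mk_surjective x
    have h2 : IsUnit (φ x) := hx
    exact (isUnit_of_map_unit (φ : D.R →+* D'.R) x h2).map _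
  have hφ'ψl : IsLocalHom ((φ'.comp ψ : D'.R →ₐ[𝒪] D'.R) : D'.R →+* D'.R) :=
    @RingHom.isLocalHom_comp _ _ _ _ _ _ (φ' : D.R ⧸ K →+* D'.R) (ψ : D'.R →+* D.R ⧸ K) hφ'l hψl
  have h2 : φ'.comp ψ = AlgHom.id 𝒪 D'.R := by
    refine DeformationRingData.hom_ext D' D'.residue_surjective D'.ρ D'.isOfType
      D'.residual_isEquiv ⟨hφ'ψl, ?_⟩ ⟨⟨fun a ha => ha⟩, ?_⟩
    · refine isEquiv_trans (bc_bc_isEquiv (ψ : D'.R →+* D.R ⧸ K) hψl (φ' : D.R ⧸ K →+* D'.R) hφ'l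
        hφ'ψl D'.ρ) (isEquiv_trans (bc_congr _ _ hψ) ?_)
      exact isEquiv_trans (isEquiv_symm (bc_bc_isEquiv (Ideal.Quotient.mk K) hmk
        (φ' : D.R ⧸ K →+* D'.R) hφ'l hφl D.ρ)) hφ
    · obtain ⟨b⟩ := exists_basis D'.ρ
      rw [isEquiv_iff_conj _ _ (bcBasis _ _ D'.ρ b) b]
      refine ⟨1, isUnit_one, fun σ => ?_⟩
      rw [toMat_bcBasis, one_mul, mul_one]
      rfl
  refine ⟨φ, hφl, hφ, ?_, ?_⟩
  · intro y
    obtain ⟨x, hx⟩ := Ideal.Quotient.mk_surjective (ψ y)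
    refine ⟨x, ?_⟩
    have h3 : φ x = φ' (Ideal.Quotient.mk K x) := rfl
    rw [h3, hx]
    exact AlgHom.congr_fun h2 y
  · ext x
    rw [RingHom.mem_ker]
    constructor
    · intro hx
      have h3 := AlgHom.congr_fun h1 x
      rw [AlgHom.comp_apply, hx, map_zero] at h3
      exact Ideal.Quotient.eq_zero_iff_mem.mp h3.symm
    · exact hφK x

end

end Fermat.Agent.H53
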