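import Fermat.Agent.H53TW3
import Fermat.Agent.H53Uni2

set_option autoImplicit false
set_option linter.style.haveILetI false
set_option linter.unusedSectionVars false

noncomputable section

open IsLocalRing Polynomial GaloisRep
open scoped Pointwise

namespace Fermat.Agent.H53

namespace TWSplit

variable {P : ValuationSubring (AlgebraicClosure ℚ)} {A : Type} [CommRing A]
  {r : GQ →* M2 A}

/-- functoriality of the splitting -/
def map (s : TWSplit P r) {B : Type} [CommRing B] (f : A →+* B) : TWSplit P (mapMat f r) where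
  u := Units.map (f.mapMatrix : M2 A →+* M2 B) s.u
  χ₁ := (Units.map (f : A →* B)).comp s.χ₁
  χ₂ := (Units.map (f : A →* B)).comp s.χ₂
  spec g := by
    have h := congrArg (fun m : M2 A => m.map f) (s.spec g)
    simp only [Matrix.map_mul] at h
    have h2 : (!![(s.χ₁ g : A), 0; 0, (s.χ₂ g : A)]).map f =
        !![f (s.χ₁ g), 0; 0, f (s.χ₂ g)] := by
      ext i j
      fin_cases i <;> fin_cases j <;> simp
    rw [h2] at h
    exact h

lemma det_eq (s : TWSplit P r) (g : P.decompositionSubgroup ℚ) :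
    (r g).det = s.χ₁ g * s.χ₂ g := by
  have h := congrArg Matrix.det (s.spec g)
  rw [Matrix.det_mul, Matrix.det_mul, Matrix.det_fin_two_of, mul_zero, sub_zero, mul_comm] at h
  exact ((Matrix.isUnit_iff_isUnit_det _).mp s.u.isUnit).mul_left_cancel h

lemma trace_eq (s : TWSplit P r) (g : P.decompositionSubgroup ℚ) :
    (r g).trace = s.χ₁ g + s.χ₂ g := by
  have h : r g = s.u * !![(s.χ₁ g : A), 0; 0, (s.χ₂ g : A)] * (↑s.u⁻¹ : M2 A) := by
    rw [← s.spec g, mul_assoc, Units.mul_inv, mul_one]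
  rw [h, Matrix.trace_mul_comm, ← mul_assoc, Units.inv_mul, one_mul, Matrix.trace_fin_two_of]

lemma eq_one_of_eq (s : TWSplit P r) {g : P.decompositionSubgroup ℚ} (h : r g = 1) :
    s.χ₁ g = 1 ∧ s.χ₂ g = 1 := by
  have h1 := s.spec g
  rw [h, one_mul] at h1
  have h2 : (1 : M2 A) = !![(s.χ₁ g : A), 0; 0, (s.χ₂ g : A)] :=
    s.u.isUnit.mul_left_cancel (by rw [mul_one]; exact h1)
  constructor
  · ext
    have := congrFun (congrFun h2 0) 0
    simpa using this.symm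
  · ext
    have := congrFun (congrFun h2 1) 1
    simpa using this.symm

lemma eq_one_of_chi (s : TWSplit P r) {g : P.decompositionSubgroup ℚ} (h1 : s.χ₁ g = 1)
    (h2 : s.χ₂ g = 1) : r g = 1 := by
  have h := s.spec g
  rw [h1, h2, Units.val_one, ← Matrix.one_fin_two, mul_one] at h
  exact s.u.isUnit.mul_right_cancel (by rw [one_mul]; exact h)

lemma chi_sub_one_mem (s : TWSplit P r) (I : Ideal A) {g : P.decompositionSubgroup ℚ}
    (h : Cong I (r g)) : (s.χ₁ g : A) - 1 ∈ I ∧ (s.χ₂ g : A) - 1 ∈ I := by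
  rw [cong_iff_map] at h
  obtain ⟨h1, h2⟩ := (s.map (Ideal.Quotient.mk I)).eq_one_of_eq (g := g) h
  constructor
  · rw [← Ideal.Quotient.eq_zero_iff_mem, map_sub, map_one, sub_eq_zero]
    exact congrArg Units.val h1
  · rw [← Ideal.Quotient.eq_zero_iff_mem, map_sub, map_one, sub_eq_zero]
    exact congrArg Units.val h2

lemma chi_mul_chi (s : TWSplit P r) {g : P.decompositionSubgroup ℚ} (h : (r g).det = 1) :
    s.χ₁ g * s.χ₂ g = 1 := by
  ext
  rw [Units.val_mul, ← s.det_eq, h, Units.val_one]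

end TWSplit

section

variable {P : ValuationSubring (AlgebraicClosure ℚ)} {q : ℕ} (hq : q.Prime) (hP : P.LiesOverPrime q)
  {p : ℕ} [Fact p.Prime] (hpq : p ∣ q - 1) {A : Type} [CommRing A] [IsLocalRing A]
  [IsAdicComplete (maximalIdeal A) A]
  (hpA : (p : A) ∈ maximalIdeal A) {r : GQ →* M2 A} (hr : MCont A r)
  (hI : ∀ τ ∈ P.inertiaSubgroupIn ℚ, Cong (maximalIdeal A) (r τ))

include hq hP hpq hpA hr hI in
/-- the inertia character has `p`-power order dividing `q - 1` -/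
lemma TWSplit.chi_pow_sub_one (s : TWSplit P r) {φ : GQ} (hφ : P.IsFrobeniusAt φ q)
    {τ : P.decompositionSubgroup ℚ} (hτ : (τ : GQ) ∈ P.inertiaSubgroupIn ℚ) :
    s.χ₁ τ ^ (q - 1) = 1 ∧ s.χ₂ τ ^ (q - 1) = 1 := by
  have hH : ∀ x : A, (∀ n, x ∈ maximalIdeal A ^ n) → x = 0 := fun x hx =>
    IsHausdorff.haus (inferInstance : IsHausdorff (maximalIdeal A) A) x fun n => by
      rw [SModEq.zero, smul_eq_mul, Ideal.mul_top]
      exact hx n
  have hI' : ∀ τ ∈ P.inertiaSubgroupIn ℚ, ∃ n, Cong (maximalIdeal A) (r τ ^ p ^ n) :=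
    fun τ hτ => ⟨0, by simpa using hI τ hτ⟩
  have h := frob_rel_eq hq hP (ne_of_dvd_sub_one (Fact.out) hq hpq) hpA hr hI' hH hτ hφ
  set f : P.decompositionSubgroup ℚ := ⟨φ, hφ.mem_decompositionSubgroup⟩ with hf
  have h1 : r ((f * τ * (f⁻¹ * (τ ^ q)⁻¹) : P.decompositionSubgroup ℚ) : GQ) = 1 := by
    have h2 : ((f * τ * (f⁻¹ * (τ ^ q)⁻¹) : P.decompositionSubgroup ℚ) : GQ) =
        φ * τ * (((τ : GQ) ^ q * φ)⁻¹) := by
      rw [hf]; push_cast; group
    have h3 : r (φ * τ) = r ((τ : GQ) ^ q * φ) := by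
      rw [map_mul, map_mul, map_pow, h]
    rw [h2, map_mul, h3, ← map_mul, mul_inv_cancel, map_one]
  obtain ⟨h2, h3⟩ := s.eq_one_of_eq h1
  have h4 : q - 1 + 1 = q := Nat.sub_add_cancel hq.one_lt.le
  have key : ∀ χ : P.decompositionSubgroup ℚ →* Aˣ,
      χ (f * τ * (f⁻¹ * (τ ^ q)⁻¹)) = 1 → χ τ ^ (q - 1) = 1 := by
    intro χ hχ
    have h5 : χ (f * τ * (f⁻¹ * (τ ^ q)⁻¹)) = χ τ * (χ τ ^ q)⁻¹ := by
      rw [map_mul, map_mul, map_mul, map_inv, map_inv, map_pow]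
      rw [mul_comm (χ f) (χ τ), mul_assoc, mul_inv_cancel_left]
    rw [h5, mul_inv_eq_one] at hχ
    have h6 : χ τ ^ (q - 1) * χ τ = 1 * χ τ := by
      rw [← pow_succ, h4, one_mul, ← hχ]
    exact mul_right_cancel h6
  exact ⟨key _ h2, key _ h3⟩

include hq hP hpq hpA hr hI in
/-- the inertia character has order dividing the `p`-part of `q - 1` -/
lemma TWSplit.chi_pow (s : TWSplit P r) {φ : GQ} (hφ : P.IsFrobeniusAt φ q)
    {τ : P.decompositionSubgroup ℚ} (hτ : (τ : GQ) ∈ P.inertiaSubgroupIn ℚ) {v m : ℕ}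
    (hvm : q - 1 = p ^ v * m) (hm : ¬ p ∣ m) :
    s.χ₁ τ ^ p ^ v = 1 ∧ s.χ₂ τ ^ p ^ v = 1 := by
  obtain ⟨h1, h2⟩ := TWSplit.chi_pow_sub_one hq hP hpq hpA hr hI s hφ hτ
  obtain ⟨h3, h4⟩ := s.chi_sub_one_mem (maximalIdeal A) (g := τ) (hI τ hτ)
  have hmu : IsUnit (m : A) := by
    have := isUnit_natCast_of_not_dvd (Fact.out : p.Prime) hpA (a := (m : ℤ))
      (by exact_mod_cast hm)
    simpa using this
  have key : ∀ x : Aˣ, x ^ (q - 1) = 1 → (x : A) - 1 ∈ maximalIdeal A → x ^ p ^ v = 1 := by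
    intro x hx hx1
    ext
    rw [Units.val_pow_eq_pow_val, Units.val_one]
    refine root_of_one_eq_one (m := m) ?_ hmu ?_
    · have h5 : (x : A) ^ p ^ v - 1 = (∑ i ∈ Finset.range (p ^ v), (x : A) ^ i) * (x - 1) :=
        (geom_sum_mul (x : A) (p ^ v)).symm
      rw [h5]
      exact Ideal.mul_mem_left _ _ hx1
    · rw [← pow_mul, ← hvm, ← Units.val_pow_eq_pow_val, hx, Units.val_one]
  exact ⟨key _ h1 h3, key _ h2 h4⟩

end

lemma isUnramifiedAt_of_isEquiv {A : Type} [CommRing A] [IsLocalRing A] {ρ ρ' : GaloisRepAdic A}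
    (h : ρ.IsEquiv ρ') {q : ℕ} (hρ : ρ.IsUnramifiedAt q) : ρ'.IsUnramifiedAt q := by
  rw [isUnramifiedAt_iff] at hρ ⊢
  exact (isMatCondition_plain _).of_isEquiv h hρ

/-- matrix form of unramifiedness at `q`, with one place and one tame generator -/
theorem isUnramifiedAt_of_generator {q : ℕ} (hq : q.Prime)
    {P : ValuationSubring (AlgebraicClosure ℚ)} (hP : P.LiesOverPrime q) {p : ℕ} [Fact p.Prime]
    (hpq : p ≠ q) {A : Type} [CommRing A] [IsLocalRing A]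
    (hA : ∀ x : A, (∀ n, x ∈ maximalIdeal A ^ n) → x = 0)
    (hpA : (p : A) ∈ maximalIdeal A) (ρ : GaloisRepAdic A) (b : Module.Basis (Fin 2) A ρ.V)
    (hI : ∀ τ ∈ P.inertiaSubgroupIn ℚ, ∃ n, Cong (maximalIdeal A) (toMat ρ.ρ b τ ^ p ^ n))
    {σ₀ : GQ} (hσ₀ : σ₀ ∈ P.inertiaSubgroupIn ℚ) (hne : σ₀ (piSys p q 1) ≠ piSys p q 1)
    (h0 : toMat ρ.ρ b σ₀ = 1) : ρ.IsUnramifiedAt q := by
  intro P' hP' σ hσ
  obtain ⟨g, rfl⟩ := exists_smul_eq_place hq hP hP'
  have h1 : g⁻¹ * σ * g ∈ P.inertiaSubgroupIn ℚ := by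
    have := H63.conj_mem_inertiaSubgroupIn (g⁻¹) σ hσ
    rwa [inv_smul_smul, inv_inv] at this
  have h2 := inertia_trivial_of_generator hq hP hpq hpA (mcont_toMat ρ b) hI hA hσ₀ hne h0 h1
  have h3 : toMat ρ.ρ b σ = 1 := by
    have h4 : σ = g * (g⁻¹ * σ * g) * g⁻¹ := by group
    rw [h4, map_mul, map_mul, h2, mul_one, ← map_mul, mul_inv_cancel, map_one]
  exact (toMat_eq_one_iff ρ b σ).mpr h3

section

variable {𝒪 : Type} [CommRing 𝒪] [IsDomain 𝒪] [IsDiscreteValuationRing 𝒪]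
  [IsAdicComplete (maximalIdeal 𝒪) 𝒪] {ρbar : ResidualGaloisRep (ResidueField 𝒪)}
  {𝒟 𝒟' : ∀ ⦃A : Type⦄ [CommRing A] [IsLocalRing A] [Algebra 𝒪 A], GaloisRepAdic A → Prop}

/-- **The augmentation ideal of the inertia characters at the Taylor-Wiles primes cuts out the
universal ring without the Taylor-Wiles primes.** -/
theorem exists_tw_quotient (h𝒟 : IsDeformationCondition 𝒪 𝒟)
    (D : DeformationRingData 𝒪 ρbar 𝒟) (D' : DeformationRingData 𝒪 ρbar 𝒟')
    {ι : Type} (q : ι → ℕ) (hq : ∀ i, (q i).Prime)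
    (h0 : ∀ ⦃A : Type⦄ [CommRing A] [IsLocalRing A] [Algebra 𝒪 A] (ρ : GaloisRepAdic A),
      𝒟' ρ ↔ 𝒟 ρ ∧ ∀ i, ρ.IsUnramifiedAt (q i))
    {p : ℕ} [Fact p.Prime] (hp : (p : 𝒪) ∈ maximalIdeal 𝒪) (hpq : ∀ i, p ≠ q i)
    (P : ι → ValuationSubring (AlgebraicClosure ℚ)) (hP : ∀ i, (P i).LiesOverPrime (q i))
    (b : Module.Basis (Fin 2) D.R D.ρ.V)
    (hI : ∀ i, ∀ τ ∈ (P i).inertiaSubgroupIn ℚ, Cong (maximalIdeal D.R) (toMat D.ρ.ρ b τ))
    (hdet : ∀ i, ∀ τ ∈ (P i).inertiaSubgroupIn ℚ, (toMat D.ρ.ρ b τ).det = 1)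
    (s : ∀ i, TWSplit (P i) (toMat D.ρ.ρ b))
    (σ : ∀ i, (P i).decompositionSubgroup ℚ)
    (hσ : ∀ i, (σ i : GQ) ∈ (P i).inertiaSubgroupIn ℚ)
    (hne : ∀ i, (σ i : GQ) (piSys p (q i) 1) ≠ piSys p (q i) 1) :
    ∃ (φ : D.R →ₐ[𝒪] D'.R) (hφ : IsLocalHom (φ : D.R →+* D'.R)),
      (D.ρ.baseChangeAlong (φ : D.R →+* D'.R) hφ).IsEquiv D'.ρ ∧ Function.Surjective φ ∧
      RingHom.ker φ = Ideal.span (Set.range fun i => ((s i).χ₁ (σ i) : D.R) - 1) := by
  refine exists_quotient_iso h𝒟 D D' (fun _ _ _ _ ρ hρ => ((h0 ρ).mp hρ).1) _ ?_ ?_ ?_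
  · rw [Ideal.span_le]
    rintro _ ⟨i, rfl⟩
    exact ((s i).chi_sub_one_mem _ (hI i _ (hσ i))).1
  · intro φ hφ hequiv x hx
    have hker : Ideal.span (Set.range fun i => ((s i).χ₁ (σ i) : D.R) - 1) ≤
        RingHom.ker (φ : D.R →+* D'.R) := by
      rw [Ideal.span_le]
      rintro _ ⟨i, rfl⟩
      have hun : (D.ρ.baseChangeAlong (φ : D.R →+* D'.R) hφ).IsUnramifiedAt (q i) :=
        isUnramifiedAt_of_isEquiv (isEquiv_symm hequiv) (((h0 D'.ρ).mp D'.isOfType).2 i)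
      have h1 : mapMat (φ : D.R →+* D'.R) (toMat D.ρ.ρ b) (σ i) = 1 := by
        rw [← toMat_bcBasis (φ : D.R →+* D'.R) hφ D.ρ b, ← toMat_eq_one_iff]
        exact hun (P i) (hP i) _ (hσ i)
      have h2 := (((s i).map (φ : D.R →+* D'.R)).eq_one_of_eq h1).1
      rw [SetLike.mem_coe, RingHom.mem_ker, map_sub, map_one, sub_eq_zero]
      exact congrArg Units.val h2
    exact hker hx
  · intro hloc hmk hcomp hDK
    haveI := hloc
    refine (h0 _).mpr ⟨hDK, fun i => ?_⟩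
    set K := Ideal.span (Set.range fun i => ((s i).χ₁ (σ i) : D.R) - 1) with hK
    have hpD : (p : D.R) ∈ maximalIdeal D.R := by
      have := map_nonunit (algebraMap 𝒪 D.R) _ hp
      rwa [map_natCast] at this
    have hpK : (p : D.R ⧸ K) ∈ maximalIdeal (D.R ⧸ K) := by
      have := map_nonunit (Ideal.Quotient.mk K) _ hpD
      rwa [map_natCast] at this
    have hcongK : ∀ τ ∈ (P i).inertiaSubgroupIn ℚ, Cong (maximalIdeal (D.R ⧸ K))
        (toMat (D.ρ.baseChangeAlong (Ideal.Quotient.mk K) hmk).ρ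
          (bcBasis (Ideal.Quotient.mk K) hmk D.ρ b) τ) := by
      intro τ hτ
      rw [toMat_bcBasis]
      intro a c
      have h1 := map_nonunit (Ideal.Quotient.mk K) _ (hI i τ hτ a c)
      have h2 : Ideal.Quotient.mk K (toMat D.ρ.ρ b τ a c - (1 : M2 D.R) a c) =
          mapMat (Ideal.Quotient.mk K) (toMat D.ρ.ρ b) τ a c - (1 : M2 (D.R ⧸ K)) a c := by
        rw [map_sub, mapMat_apply, Matrix.one_apply, Matrix.one_apply]
        split_ifs <;> simp
      rwa [h2] at h1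
    refine isUnramifiedAt_of_generator (hq i) (hP i) (hpq i) (fun x hx => ?_) hpK _
      (bcBasis (Ideal.Quotient.mk K) hmk D.ρ b)
      (fun τ hτ => ⟨0, by simpa using hcongK τ hτ⟩) (hσ i) (hne i) ?_
    · refine IsHausdorff.haus
        (inferInstance : IsHausdorff (maximalIdeal (D.R ⧸ K)) (D.R ⧸ K)) x fun n => ?_
      rw [SModEq.zero, smul_eq_mul, Ideal.mul_top]
      exact hx n
    · rw [toMat_bcBasis]
      have h1 : Ideal.Quotient.mk K ((s i).χ₁ (σ i) : D.R) = 1 := by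
        rw [← sub_eq_zero, ← map_one (Ideal.Quotient.mk K), ← map_sub,
          Ideal.Quotient.eq_zero_iff_mem]
        exact Ideal.subset_span ⟨i, rfl⟩
      have h2 : ((s i).map (Ideal.Quotient.mk K)).χ₁ (σ i) = 1 := by
        ext
        exact h1
      have h3 : ((s i).map (Ideal.Quotient.mk K)).χ₂ (σ i) = 1 := by
        have h4 : ((s i).map (Ideal.Quotient.mk K)).χ₁ (σ i) *
            ((s i).map (Ideal.Quotient.mk K)).χ₂ (σ i) = 1 := by
          refine ((s i).map (Ideal.Quotient.mk K)).chi_mul_chi ?_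
          have h5 := congrArg (Ideal.Quotient.mk K) (hdet i _ (hσ i))
          rw [RingHom.map_det, map_one] at h5
          exact h5
        rwa [h2, one_mul] at h4
      exact ((s i).map (Ideal.Quotient.mk K)).eq_one_of_chi h2 h3

end

end Fermat.Agent.H53
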