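import Fermat.Agent.H56S56
import Fermat.Agent.H53TW4
import Fermat.Agent.H53TWL2
import Fermat.Agent.H53LocB

/-!
# Guide to the proof: Galois representations at one prime, local bounds for S56, S43 and S59

This file is a machine-checked table of contents. Every theorem below is a citation of a theorem of
the library, with its statement written out. Nothing imports this file.

**What the block does.** The deformation theory of S56, S43 and S59 needs, at every prime `q`, a
description of the restriction of a representation to a decomposition group at `q`, and an upper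
bound for the tangent space of the local condition at `q`. There are no local fields in this file
(except in the strictly ordinary bound): the decomposition group, inertia and Frobenius elements are
those of a place of the algebraic numbers, a valuation subring `P` of the algebraic closure of `ℚ`
(see `GuideAbsGal`).

**Primes `q ≠ p`.** The `p`-part of inertia is procyclic, generated by any element `σ₀` moving the
`p`-th root of `q`; a lift is a pair of matrices `(ρ(φ), ρ(σ₀))` with `ρ(φ) ρ(σ₀) = ρ(σ₀)^q ρ(φ)`. If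
inertia acts residually trivially, Frobenius has distinct eigenvalues and `q ≡ 1 mod p`, then the lift is
a sum of two characters.

**Local bounds.** `LocalBound p r q N Cond`: the cocycles of the lifts of `r` to the dual numbers which
satisfy the condition `Cond` at `q` lie in a group with at most `|k|^N` elements. `N = 3` at unramified
and at unipotently ramified primes, `N = 4` at Taylor-Wiles primes and at `p`. Only upper bounds are
needed, and for these bounds no local duality and no local Euler characteristic. At `p` there are two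
conditions: strictly ordinary, a count of Kummer classes over `ℚ_p`; and flat, which has its own file,
`GuideFlatBound`. The hypothesis `hp2` of some theorems says that `p` is odd.

**Order of the file.** 1. Tame structure at `q ≠ p`. 2. Taylor-Wiles primes. 3. Lifts to the dual
numbers and their cocycles. 4. Local bounds away from `p`. 5. The strictly ordinary bound at `p`.

**Where.** NOTES.md, Appendix A.10: [296] (overview of S56), [246], [297], [232] NOTES-S56-ORD; Appendix
A.7: [244] NOTES-MODLIFT-S43; A.12: [256]. Used in S56 (without section 2 and `tame_relation`), S43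
(without section 5), S59 and through them in S01, S03, S04, S06, S38, S45, S46, S50, S60;
`tame_generator_decides`, `finrank_coboundaries_nonScalar` and `cocycle_eq_coboundary` only for S59;
`piSys_pow`, `p_part_procyclic`, `exists_level` and `exists_tame_generator` also in S09, S12, S15. The
steps of section 5 are in `GuideStrictOrdinary`; sections 1 and 2 are continued in `GuideGaloisPoints`.
Authors: helpers 53, 28, 61, 81, 56.
-/

set_option autoImplicit false
set_option maxSynthPendingDepth 3

open scoped Pointwise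

open IsLocalRing GaloisRep Polynomial ExtCitation
open Fermat.Agent.H53 Fermat.Agent.H55 Fermat.Agent.H56 Fermat.Agent.H64

namespace Fermat.Agent.Guide.LocalBounds

/-- The absolute Galois group of the rational numbers. -/
local notation "GQ" => (AlgebraicClosure ℚ ≃ₐ[ℚ] AlgebraicClosure ℚ)

/-! ## 1. Tame structure at a prime `q ≠ p` -/

/-- `H53.piSys p q` is a compatible system of `p^m`-th roots of `q` (`H53Tame1`). -/
theorem piSys_pow (p : ℕ) [Fact p.Prime] (q m : ℕ) :
    H53.piSys p q m ^ p ^ m = (q : AlgebraicClosure ℚ) ∧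
      H53.piSys p q (m + 1) ^ p = H53.piSys p q m :=
  ⟨H53.piSys_pow' p q m, H53.piSys_succ_pow p q m⟩

/-- **The `p`-part of inertia at `q` is procyclic** (`H53Tame1`, `H53Tame2`). `P` is a place of the
algebraic numbers above `q`. If `τ` in the inertia group fixes all `p`-power roots of `q` in the system,
then `τ` fixes every algebraic number fixed by some `τ^(p^n)`. (There is no eigenvector `x` of `τ` for a
root of unity `ζ ≠ 1` of `p`-power order: some power of `x` with exponent prime to `p` is the product
of a power of a `p^m`-th root of `q` and of a unit, and inertia moves units by principal units.) -/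
theorem p_part_procyclic {P : ValuationSubring (AlgebraicClosure ℚ)} {q : ℕ} (hq : q.Prime)
    (hP : P.LiesOverPrime q) {p : ℕ} [Fact p.Prime] (hpq : p ≠ q) {τ : GQ}
    (hτ : τ ∈ P.inertiaSubgroupIn ℚ) (h : ∀ m, τ (H53.piSys p q m) = H53.piSys p q m)
    (n : ℕ) {x : AlgebraicClosure ℚ} (hx : (τ ^ p ^ n) x = x) : τ x = x :=
  H53.apply_eq_of_pow hq hP hpq hτ h n hx

/-- **A finite level suffices** (`H53Tame3`; compactness). `H` an open subgroup such that every element of
inertia at `q` has a `p`-power in `H`. Then for some `m` all elements of inertia fixing the `p^m`-th root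
of `q` lie in `H`. This passes from the preceding theorem to representations. -/
theorem exists_level {p q : ℕ} [Fact p.Prime] {P : ValuationSubring (AlgebraicClosure ℚ)}
    (hq : q.Prime) (hP : P.LiesOverPrime q) (hpq : p ≠ q) {H : Subgroup GQ}
    (hH : IsOpen (H : Set GQ)) (hpow : ∀ τ ∈ P.inertiaSubgroupIn ℚ, ∃ n, τ ^ p ^ n ∈ H) :
    ∃ m, ∀ τ ∈ P.inertiaSubgroupIn ℚ, τ (piSys p q m) = piSys p q m → τ ∈ H :=
  H53.exists_level hq hP hpq hH hpow

/-- There is a tame generator: an element of inertia moving the `p`-th root of `q` (`H53Tame4`). -/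
theorem exists_tame_generator {P : ValuationSubring (AlgebraicClosure ℚ)} {q : ℕ} (hq : q.Prime)
    (hP : P.LiesOverPrime q) {p : ℕ} [Fact p.Prime] (hpq : p ≠ q) :
    ∃ σ ∈ P.inertiaSubgroupIn ℚ, σ (H53.piSys p q 1) ≠ H53.piSys p q 1 :=
  H53.exists_tame_generator hq hP hpq

/-- **The tame relation, exactly** (`H53Tame5`). Let `A` be a separated local ring with `p` in its maximal
ideal, `r` a continuous representation whose restriction to inertia at `q ≠ p` is residually of
`p`-power order. Then `r(φ) r(σ) = r(σ)^q r(φ)` for every `σ` in inertia and every Frobenius `φ`. -/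
theorem tame_relation {P : ValuationSubring (AlgebraicClosure ℚ)} {q : ℕ} (hq : q.Prime)
    (hP : P.LiesOverPrime q) {p : ℕ} [Fact p.Prime] (hpq : p ≠ q) {A : Type} [CommRing A]
    [IsLocalRing A] (hpA : (p : A) ∈ maximalIdeal A) {r : GQ →* Matrix (Fin 2) (Fin 2) A}
    (hr : H53.MCont A r)
    (hI : ∀ τ ∈ P.inertiaSubgroupIn ℚ, ∃ n : ℕ, H53.Cong (maximalIdeal A) (r τ ^ p ^ n))
    (hA : ∀ x : A, (∀ n, x ∈ maximalIdeal A ^ n) → x = 0) {σ φ : GQ}
    (hσ : σ ∈ P.inertiaSubgroupIn ℚ) (hφ : P.IsFrobeniusAt φ q) : r φ * r σ = r σ ^ q * r φ :=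
  H53.frob_rel_eq hq hP hpq hpA hr hI hA hσ hφ

/-- **One tame generator decides** (`H53Tame5`). In the same situation, if `r(σ₀) = 1` for one tame
generator `σ₀`, then `r` is trivial on inertia. So a lift at `q` is a pair of matrices
`(r(φ), r(σ₀))` with one relation; this is the local description of the lifts at the raising primes in
S59. -/
theorem tame_generator_decides {P : ValuationSubring (AlgebraicClosure ℚ)} {q : ℕ} (hq : q.Prime)
    (hP : P.LiesOverPrime q) {p : ℕ} [Fact p.Prime] (hpq : p ≠ q) {A : Type} [CommRing A]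
    [IsLocalRing A] (hpA : (p : A) ∈ maximalIdeal A) {r : GQ →* Matrix (Fin 2) (Fin 2) A}
    (hr : H53.MCont A r)
    (hI : ∀ τ ∈ P.inertiaSubgroupIn ℚ, ∃ n : ℕ, H53.Cong (maximalIdeal A) (r τ ^ p ^ n))
    (hA : ∀ x : A, (∀ n, x ∈ maximalIdeal A ^ n) → x = 0) {σ₀ : GQ}
    (hσ₀ : σ₀ ∈ P.inertiaSubgroupIn ℚ) (hσ₀' : σ₀ (H53.piSys p q 1) ≠ H53.piSys p q 1)
    (h1 : r σ₀ = 1) {σ : GQ} (hσ : σ ∈ P.inertiaSubgroupIn ℚ) : r σ = 1 :=
  H53.inertia_trivial_of_generator hq hP hpq hpA hr hI hA hσ₀ hσ₀' h1 hσ

/-- **Decomposition group, inertia and Frobenius** (`H28FrobGen`, `H61GenFrob`): modulo an open subgroup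
`U` every element of the decomposition group of a place `A` above `q` is a power of `φ` times an element
of inertia, for any Frobenius element `φ` at `A`. Proof at a finite Galois level, where the decomposition
group maps onto the cyclic Galois group of the residue field extension. -/
theorem decomposition_generated {A : ValuationSubring (AlgebraicClosure ℚ)} {q : ℕ} (hq : q.Prime)
    (hA : A.LiesOverPrime q) {φ : AlgebraicClosure ℚ ≃ₐ[ℚ] AlgebraicClosure ℚ}
    (hφ : A.IsFrobeniusAt φ q) {σ : AlgebraicClosure ℚ ≃ₐ[ℚ] AlgebraicClosure ℚ} (hσ : σ • A = A)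
    {U : Subgroup (AlgebraicClosure ℚ ≃ₐ[ℚ] AlgebraicClosure ℚ)} (hU : krullLevels.op U) :
    ∃ n : ℕ, ∃ ι ∈ A.inertiaSubgroupIn ℚ, ∃ u ∈ U, σ = φ ^ n * ι * u :=
  Fermat.Agent.H28.exists_frobenius_mul hq hA hφ hσ hU

/-! ## 2. Taylor-Wiles primes -/

/-- **The computation at Taylor-Wiles primes** (`H53TW2`). `A` local, `q ≡ 1` modulo the maximal ideal, `M`
congruent to `1`, and `α - β` a unit: if `diag(α, β) M = M^q diag(α, β)`, then `M` is diagonal. (`M^q` is a
linear expression `x + y M` with `y ≡ q`, by the theorem of Cayley and Hamilton.) -/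
theorem diag_of_tame {A : Type} [CommRing A] [IsLocalRing A] {M : M2 A} {α β : A} {q : ℕ}
    (hq : (q : A) - 1 ∈ maximalIdeal A) (hM : Cong (maximalIdeal A) M) (hαβ : IsUnit (α - β))
    (h : !![α, 0; 0, β] * M = M ^ q * !![α, 0; 0, β]) : M 0 1 = 0 ∧ M 1 0 = 0 :=
  H53.diag_of_tame hq hM hαβ h

/-- **Splitting at a Taylor-Wiles prime** (`H53TW3`). `q ≡ 1` modulo `p`, `A` complete, `r` residually
trivial on inertia at `q`, and the reduction of `r(φ)` has two distinct eigenvalues `a, b` in the
residue field. Then in a suitable basis `r` restricted to the decomposition group is the sum of two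
characters `χ₁`, `χ₂` with residual values `a`, `b` at `φ` (`TWSplit`). (The tame relation forces `r(σ)` to
be diagonal in the eigenbasis of `r(φ)`.) -/
theorem taylorWiles_splitting {P : ValuationSubring (AlgebraicClosure ℚ)} {q : ℕ} (hq : q.Prime)
    (hP : P.LiesOverPrime q) {p : ℕ} [Fact p.Prime] (hpq : p ∣ q - 1) {A : Type} [CommRing A]
    [IsLocalRing A] [IsAdicComplete (maximalIdeal A) A] (hpA : (p : A) ∈ maximalIdeal A)
    {r : GQ →* Matrix (Fin 2) (Fin 2) A} (hr : H53.MCont A r)
    (hI : ∀ τ ∈ P.inertiaSubgroupIn ℚ, H53.Cong (maximalIdeal A) (r τ)) {φ : GQ}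
    (hφ : P.IsFrobeniusAt φ q) {a b : ResidueField A} (hab : a ≠ b)
    (hcp : ((r φ).map (residue A)).charpoly = (X - C a) * (X - C b)) :
    ∃ s : H53.TWSplit P r,
      residue A (s.χ₁ ⟨φ, hφ.mem_decompositionSubgroup⟩ : A) = a ∧
      residue A (s.χ₂ ⟨φ, hφ.mem_decompositionSubgroup⟩ : A) = b :=
  H53.exists_twSplit hq hP hpq hpA hr hI hφ hab hcp

/-- **The diamond operators** (`H53TW4`): the inertia characters at a Taylor-Wiles prime have order dividing
the `p`-part `p^v` of `q - 1`; so the universal ring is an algebra over the group ring of the `p`-part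
of `(ℤ/q)ˣ`. -/
theorem inertia_character_order {P : ValuationSubring (AlgebraicClosure ℚ)} {q : ℕ} (hq : q.Prime)
    (hP : P.LiesOverPrime q) {p : ℕ} [Fact p.Prime] (hpq : p ∣ q - 1) {A : Type} [CommRing A]
    [IsLocalRing A] [IsAdicComplete (maximalIdeal A) A] (hpA : (p : A) ∈ maximalIdeal A)
    {r : GQ →* Matrix (Fin 2) (Fin 2) A} (hr : H53.MCont A r)
    (hI : ∀ τ ∈ P.inertiaSubgroupIn ℚ, H53.Cong (maximalIdeal A) (r τ)) (s : H53.TWSplit P r)
    {φ : GQ} (hφ : P.IsFrobeniusAt φ q) {τ : P.decompositionSubgroup ℚ}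
    (hτ : (τ : GQ) ∈ P.inertiaSubgroupIn ℚ) {v m : ℕ} (hvm : q - 1 = p ^ v * m) (hm : ¬ p ∣ m) :
    s.χ₁ τ ^ p ^ v = 1 ∧ s.χ₂ τ ^ p ^ v = 1 :=
  H53.TWSplit.chi_pow hq hP hpq hpA hr hI s hφ hτ hvm hm

/-! ## 3. Lifts to the dual numbers and their cocycles

`M2 k` are the `2 × 2` matrices, `SL p k` those of trace zero (as a vector space over `F_p`), `Dq q` and
`Iq q` the decomposition and inertia group of a fixed place above `q`, `Dlev q` the open subgroups of
`Dq q`, `Z1` and `B1` cocycles and coboundaries, `cob r X` the coboundary `σ ↦ r(σ) X r(σ)⁻¹ - X`.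
`FinLev r`: `r` is trivial on an open subgroup; `DetCyc p r`: its determinant is the cyclotomic character
modulo `p`. -/

/-- **The adjoint representation** of `r : G → GL₂(k)` on the trace zero matrices: `σ` acts by
conjugation with `r(σ)` (`H56Defs`). -/
theorem adjoint_apply {p : ℕ} [Fact p.Prime] {k : Type} [Field k] [Algebra (ZMod p) k] {G : Type}
    [Group G] (r : G →* M2 k) (σ : G) (X : SL p k) :
    (ad p r σ X : M2 k) = r σ * X * r σ⁻¹ :=
  coe_ad r σ X

/-- **Lifts with constant determinant and their cocycles** (`H56Defs`). `GoodLift r R`: `R` is a continuous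
representation over the dual numbers `k[ε]` with reduction `r` and determinant that of `r`. Its cocycle
`c = coc R` is given by `R(σ) = (1 + ε c(σ)) r(σ)`, i.e. `c(σ) = R(σ)_ε · R(σ⁻¹)_0` for
`X = X_0 + ε X_ε`. -/
theorem goodLift_iff {k : Type} [Field k] (r : GQ →* M2 k) (R : GQ →* M2 (DualNumber k)) :
    (GoodLift r R ↔ MCont (DualNumber k) R ∧ (∀ σ, (R σ).map TrivSqZeroExt.fst = r σ) ∧
      ∀ σ, (R σ).det = TrivSqZeroExt.inl (r σ).det) ∧
    ∀ σ, coc R σ = (R σ).map TrivSqZeroExt.snd * (R σ⁻¹).map TrivSqZeroExt.fst :=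
  ⟨⟨fun h => ⟨h.cont, h.red, h.det⟩, fun h => ⟨h.1, h.2.1, h.2.2⟩⟩, fun _ => rfl⟩

/-- **Meaning of `LocalBound`** (`H56Defs`). `LocalBound p r q N Cond`: there is a group `L` of continuous
cocycles on `Dq q` with values in `SL p k`, which contains the coboundaries, has at most `|k| ^ N`
elements, and contains the cocycle of every lift `R` of `r` to the dual numbers with constant
determinant that satisfies `Cond`. In terms of dimensions: `h^1_Cond + dim ad⁰ - h^0 ≤ N`. -/
theorem localBound_iff (p : ℕ) [Fact p.Prime] {k : Type} [Field k] [Algebra (ZMod p) k]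
    (r : GQ →* M2 k) (q : Nat.Primes) (N : ℕ)
    (Cond : (GQ →* M2 (DualNumber k)) → Prop) :
    LocalBound p r q N Cond ↔
      ∃ L : Submodule (ZMod p) (Dq q → SL p k),
        B1 (rhoD (ad p r) q) ≤ L ∧ L ≤ Z1 (Dlev q) (rhoD (ad p r) q) ∧
        Finite L ∧ Nat.card L ≤ Nat.card k ^ N ∧
        ∀ R : GQ →* M2 (DualNumber k), GoodLift r R → Cond R →
          ∀ c : Dq q → SL p k, (∀ σ, (c σ : M2 k) = coc R (σ : GQ)) → c ∈ L :=
  Iff.rfl

/-! ## 4. Local bounds away from `p` -/

/-- **A cocycle is determined at Frobenius and on inertia** (`H28LocCoc`). `c` a continuous cocycle on `Dq q`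
with values in a representation `ρ` of `GQ` over `F_p`; `extD c` is its extension by zero to `GQ`. If `c`
vanishes on inertia and at one Frobenius element, then `c = 0`. -/
theorem eq_zero_of_frobenius {p : ℕ} [Fact p.Prime] {M : Type} [AddCommGroup M]
    [Module (ZMod p) M] {ρ : Representation (ZMod p) GQ M} {q : Nat.Primes} {c : Dq q → M}
    (hc : c ∈ Z1 (Dlev q) (rhoD ρ q)) {φ : GQ} (hφ : (primeLocalPlace q).IsFrobeniusAt φ q)
    (hI : ∀ σ ∈ Iq q, H28.extD c σ = 0) (h0 : H28.extD c φ = 0) : c = 0 :=
  H28.eq_zero_of_frobenius hc hφ hI h0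

/-- **... and on inertia by its value at a tame generator** (`H28LocCoc`, from section 1): if `q ≠ p`,
inertia acts trivially on the module and `c(σ₀) = 0` for one tame generator `σ₀`, then `c` vanishes on
inertia. -/
theorem eq_zero_of_tame {p : ℕ} [Fact p.Prime] {M : Type} [AddCommGroup M]
    [Module (ZMod p) M] {ρ : Representation (ZMod p) GQ M} {q : Nat.Primes} {c : Dq q → M}
    (hc : c ∈ Z1 (Dlev q) (rhoD ρ q)) (hqp : (q : ℕ) ≠ p) (hρ : ∀ σ ∈ Iq q, ∀ m, ρ σ m = m)
    {σ₀ : GQ} (hσ₀ : σ₀ ∈ Iq q) (hne : σ₀ (piSys p q 1) ≠ piSys p q 1)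
    (h0 : H28.extD c σ₀ = 0) : ∀ σ ∈ Iq q, H28.extD c σ = 0 :=
  H28.eq_zero_of_tame hc hqp hρ hσ₀ hne h0

/-- **The Frobenius relation for cocycles** (`H28LocCoc`): in the same situation `φ · c(σ) = q c(σ)` for
`σ` in inertia. So the values on inertia lie in the eigenspace of Frobenius for `q`. -/
theorem frobenius_relation {p : ℕ} [Fact p.Prime] {M : Type} [AddCommGroup M]
    [Module (ZMod p) M] {ρ : Representation (ZMod p) GQ M} {q : Nat.Primes} {c : Dq q → M}
    (hc : c ∈ Z1 (Dlev q) (rhoD ρ q)) (hqp : (q : ℕ) ≠ p) (hρ : ∀ σ ∈ Iq q, ∀ m, ρ σ m = m)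
    {φ : GQ} (hφ : (primeLocalPlace q).IsFrobeniusAt φ q) {σ : GQ} (hσ : σ ∈ Iq q) :
    ρ φ (H28.extD c σ) = (q : ℕ) • H28.extD c σ :=
  H28.frob_rel_coc hc hqp hρ hφ hσ

/-- **Unramified primes** (`H28LocUT`): if `r` is unramified at `q` (`q = p` is allowed), the cocycles of
the lifts which are unramified at `q` lie in a group of order at most `|k| ^ 3`: such a cocycle is
determined by its value at a Frobenius element, a trace zero matrix. -/
theorem local_bound_unramified (p : ℕ) [Fact p.Prime] {k : Type} [Field k] [Algebra (ZMod p) k]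
    [Finite k] (r : GQ →* M2 k) (hr : FinLev r) (q : Nat.Primes)
    (hI : ∀ σ ∈ Iq q, r σ = 1) :
    LocalBound p r q 3 (fun R => ∀ σ ∈ Iq q, R σ = 1) :=
  Fermat.Agent.H28.statementU p r hr q hI

/-- **Unipotently ramified primes** (`H61S56S`): if `r` is ramified at `q ≠ p` and inertia is unipotent,
the lifts with unipotent inertia satisfy the bound with `N = 3`. Proof: `L` is the sum of the
coboundaries and of the cocycles vanishing on inertia. If the lift has unipotent inertia, the matrix
`c(σ₀)` at a tame generator satisfies `tr((r(σ₀) - 1) c(σ₀)) = 0`, hence is the value at `σ₀` of a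
coboundary, and inertia acts on the lift through the powers of `R(σ₀)`. A cocycle vanishing on inertia
is determined by its value at Frobenius, a multiple of `r(σ₀) - 1` (`|k|` possibilities), and the
coboundaries of these multiples vanish on inertia, so `L` has at most `|k|³·|k|/|k|` elements. -/
theorem local_bound_unipotent {p : ℕ} [Fact p.Prime] {k : Type} [Field k] [Algebra (ZMod p) k]
    [Finite k] (hp2 : p ≠ 2) (r : GQ →* M2 k) (hr : FinLev r) (q : Nat.Primes)
    (hqp : (q : ℕ) ≠ p) (hram : ∃ σ ∈ Iq q, r σ ≠ 1)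
    (huni : ∀ σ ∈ Iq q, (r σ).charpoly = (X - 1) ^ 2) :
    LocalBound p r q 3 (fun R => ∀ σ ∈ Iq q, (R σ).charpoly = (X - 1) ^ 2) :=
  H61.S56S.statementS hp2 r hr q hqp hram huni

/-- **The cocycles vanishing on inertia** at such a prime (`H61S56S`): there are at most `|k|` of them. -/
theorem card_unramified_cocycles {p : ℕ} [Fact p.Prime] {k : Type} [Field k]
    [Algebra (ZMod p) k] [Finite k] (hp2 : p ≠ 2) {r : GQ →* M2 k} {q : Nat.Primes}
    (huni : ∀ σ ∈ Iq q, (r σ).charpoly = (X - 1) ^ 2) {τ : GQ} (hτ : τ ∈ Iq q) (hne : r τ ≠ 1) :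
    Finite {c : Dq q → SL p k // c ∈ Z1 (Dlev q) (rhoD (ad p r) q) ∧
      ∀ σ : Dq q, (σ : GQ) ∈ Iq q → c σ = 0} ∧
    Nat.card {c : Dq q → SL p k // c ∈ Z1 (Dlev q) (rhoD (ad p r) q) ∧
      ∀ σ : Dq q, (σ : GQ) ∈ Iq q → c σ = 0} ≤ Nat.card k :=
  H61.S56S.card_Lur_le p hp2 huni hτ hne

/-- **Taylor-Wiles primes** (`H28LocUT`): if `q ≡ 1 mod p`, `r` is unramified at `q` and `r φ` has two
different eigenvalues in `k` for some Frobenius element `φ`, then there are at most `|k| ^ 4`
continuous cocycles on the decomposition group with values in the trace zero matrices: a cocycle is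
determined by its value at `φ` (`|k| ^ 3` possibilities) and at one element of inertia which moves
`q ^ (1/p)`, and this second value commutes with `r φ` (at most `|k|` possibilities). -/
theorem local_bound_taylorWiles (p : ℕ) [Fact p.Prime] {k : Type} [Field k] [Algebra (ZMod p) k]
    [Finite k] (r : GQ →* M2 k) (hr : FinLev r) (q : Nat.Primes) (hqp : (q : ℕ) ≠ p)
    (hq1 : p ∣ (q : ℕ) - 1) (hI : ∀ σ ∈ Iq q, r σ = 1)
    (hφ : ∃ φ : GQ, (primeLocalPlace q).IsFrobeniusAt φ q ∧ ∃ α β : k, α ≠ β ∧
      (r φ).charpoly = (Polynomial.X - Polynomial.C α) * (Polynomial.X - Polynomial.C β)) :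
    Finite (Z1 (Dlev q) (rhoD (ad p r) q)) ∧
      Nat.card (Z1 (Dlev q) (rhoD (ad p r) q)) ≤ Nat.card k ^ 4 :=
  Fermat.Agent.H28.statementT p r hr q hqp hq1 hI hφ

/-- **Coboundaries at an auxiliary prime of S59** (`H53LocB`). `NonScalar Φ`: the matrix `Φ` is not scalar.
If `r` is unramified at `t` and the matrix of a Frobenius element is not scalar, then the coboundaries
on `Dq t` have dimension at most `2` over `k`. So such a prime has weight `w(t) = 1` in
`selmer_bound_weights` of `GuideTaylorWiles` (a prime where `r` is scalar has no coboundaries and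
weight `3`). -/
theorem finrank_coboundaries_nonScalar {p : ℕ} [Fact p.Prime] {k : Type} [Field k]
    [Algebra (ZMod p) k] [Finite k] {r : GQ →* M2 k} (hfl : FinLev r) {t : Nat.Primes}
    (hI : ∀ σ ∈ Iq t, r σ = 1) {φ : GQ} (hφ : (primeLocalPlace t).IsFrobeniusAt φ t)
    (hp2 : p ≠ 2) (hΦ : NonScalar (r φ)) :
    Module.finrank (ZMod p) (B1 (rhoD (ad p r) t)) + 1 * Module.finrank (ZMod p) k ≤
      3 * Module.finrank (ZMod p) k :=
  H53.finrank_B1_nonScalar hfl hI hφ hp2 hΦ

/-- **When the cocycle of a lift is a coboundary at `t`** (`H53LocB`; S59). `pl : PlaceData p t` consists of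
the fixed place above `t ≠ p`, a Frobenius element and a tame generator. If `r` is unramified at `t` with
non-scalar Frobenius, the trace of the lift at Frobenius is constant, and the cocycle vanishes at the
tame generator, then the cocycle of the lift is a coboundary on `Dq t`. So the marks `t` (trace of
Frobenius) and `y`, `z` (tame generator) of `GuideLiftingGalois` control the lift at such a prime. -/
theorem cocycle_eq_coboundary {p : ℕ} [Fact p.Prime] {k : Type} [Field k]
    [Algebra (ZMod p) k] [Finite k] {r : GQ →* M2 k} (hfl : FinLev r) (hp2 : p ≠ 2)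
    {R : GQ →* M2 (DualNumber k)} (hR : GoodLift r R)
    {t : Nat.Primes} (htp : p ≠ (t : ℕ)) (pl : PlaceData p (t : ℕ))
    (hpl : pl.P = primeLocalPlace t) (hI : ∀ σ ∈ Iq t, r σ = 1) (hΦ : NonScalar (r pl.φ))
    (h1 : TrivSqZeroExt.snd (R pl.φ).trace = 0) (h2 : coc R pl.σ = 0) :
    ∃ X : M2 k, X.trace = 0 ∧ ∀ σ ∈ Dq t, coc R σ = cob r X σ :=
  H53.coc_eq_cob_D hfl hp2 hR htp pl hpl hI hΦ h1 h2

/-! ## 5. The strictly ordinary bound at `p` -/

/-- For `p` odd the `p`-th powers have index `p²` in `ℚ_pˣ` (`H81Ord1`, from the general index formula of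
`H7LocPowPadic` and the fact that `ℚ_p` contains no primitive `p`-th root of unity). -/
theorem index_pth_powers (p : ℕ) [hp : Fact p.Prime] (hp2 : p ≠ 2) :
    (powMonoidHom p : ℚ_[p]ˣ →* ℚ_[p]ˣ).range.index = p ^ 2 :=
  H81.index_pow_padic p hp2

/-- **Cocycles with values in `μ_p`** (`H81Ord1`, with the preceding theorem): for `p` odd the decomposition
group at `p` has at most `p³` continuous cocycles with values in `μ_p`: by Kummer theory over `ℚ_p` at
most `p²` classes, and at most `p` coboundaries. `chiD p` is the one-dimensional representation on `F_p`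
given by the cyclotomic character modulo `p`. No local class field theory. -/
theorem card_cocycles_mu (p : ℕ) [hp : Fact p.Prime] (hp2 : p ≠ 2) :
    Finite (Z1 (Dlev (pPrime p)) (H81.chiD p)) ∧
      Nat.card (Z1 (Dlev (pPrime p)) (H81.chiD p)) ≤ p ^ 3 :=
  H81.card_Z1_chiD p hp2

/-- **Triangular form of a strictly ordinary lift** (`H81Ord2`): on the decomposition group at `p` the lift
is conjugate, by a matrix `g` over the dual numbers, to `(χ z, t; 0, z)` with `χ` (`H81.chik p k`) the
cyclotomic character modulo `p`, `z ∈ k`, `z² = 1`, and `z = 1` on inertia. -/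
theorem exists_triangular_form {p : ℕ} [Fact p.Prime] {k : Type} [Field k]
    [Algebra (ZMod p) k] (hp2 : p ≠ 2) {r : GQ →* M2 k} (hdet : DetCyc p r)
    {R : GQ →* M2 (DualNumber k)} (hR : GoodLift r R)
    (h : MCont (DualNumber k) R) (hord : (ofMatrix R h).IsStrictOrdinaryAt p) :
    ∃ g : M2 (DualNumber k), IsUnit g ∧ ∀ σ : Dq (pPrime p), ∃ (z : k) (t : DualNumber k),
      z ^ 2 = 1 ∧ R (σ : GQ) * g =
        g * !![TrivSqZeroExt.inl (H81.chik p k σ * z), t; 0, TrivSqZeroExt.inl z] ∧
      ((σ : GQ) ∈ Iq (pPrime p) → z = 1) :=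
  H81.exists_tri p hp2 hdet hR h hord

/-- **The strictly ordinary bound** (`H81Ord3`): for `p` odd and `det r` cyclotomic, the lifts which are
strictly ordinary at `p` satisfy the bound with `N = 4`. In a basis adapted to the stable line the lift
is upper triangular (`exists_triangular_form`; the quotient character is quadratic and unramified, since
the determinant is cyclotomic), and the unknown is one extension class with values in `k(1)`, i.e.
`[k : F_p]` Kummer classes over `ℚ_p`. -/
theorem local_bound_strictOrdinary {p : ℕ} [Fact p.Prime] {k : Type} [Field k]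
    [Algebra (ZMod p) k] [Finite k] (hp2 : p ≠ 2) (r : GQ →* M2 k) (hr : FinLev r)
    (hdet : ∀ σ, (r σ).det = algebraMap (ZMod p) k (cycloChar p σ : ZMod p)) :
    LocalBound p r (pPrime p) 4
      (fun R => ∃ h : MCont (DualNumber k) R, (ofMatrix R h).IsStrictOrdinaryAt p) :=
  H81.statementO p hp2 r hr hdet

end Fermat.Agent.Guide.LocalBounds
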