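import Fermat.Agent.H54Input

/-!
# Guide to the proof: from local to global classes in degree two

This file is a machine-checked table of contents, the companion of `GuideHasseH2`. Every theorem below
is a citation of theorems of the library, with its statement written out. Only `Guide` imports this file.

**What the file shows.** `GuideHasseH2` states the axioms and the results, for odd `p`: a class of order
`p` in `H²` of a number field containing `μ_p` which is trivial at all finite places is trivial
(`GuideHasseH2.hasse_principle`), and no class has exactly one nonzero local component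
(`GuideHasseH2.one_component`); `GuideEulerChar.codim_le_one` adds that the local components satisfy at
most one relation. Here are the steps from the norm theorems for number fields (`GuideLocalNorms`,
`GuideClassField`, `GuideEulerChar.hasse_norm`) to these three statements. There are no idèles, no
Brauer groups and no reciprocity map: a place of a number field `K` inside `ℚ̄` is given by an embedding
of `ℚ̄` in the algebraic closure of `ℚ_q`, the completion of `K` is the field generated by the image of
`K` over `ℚ_q` (`GuideDecomposition`), and everything is said about subgroups of Galois groups and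
2-cocycles.

**The sections.**
 1. Level families: normal closures, Hilbert 90 for the units of a field, cochains with values in `μ_p`.
 2. Extensions of degree `p` in terms of subgroups.
 3. The local groups: the group of `ℚ_q`, embedded by `(q, g)`; the places of `K`; a place is nonsplit
    in `L` if and only if the local group of `K` is not contained in the group of `L`; an element is a
    local norm if and only if it is a norm for the local groups.
 4. Descent along a subgroup of index `p`: the class is given by one element; this element is a local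
    norm where the class is trivial, and conversely; the reduction to a chain of such subgroups.
 5. Cocycles with values in `ℤ/p` and with values in the units.
 6. Unramified places: the local group is cyclic modulo a level; inflated classes die in cyclic towers.
 7. The relation between the local components: the cup product of a character with an element of `Kˣ`
    has, up to a coboundary, values in `μ_p` and level `S`, if the order of the element is divisible
    by `p` at the nonsplit places outside `S`; the element is a local norm where the cup product is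
    trivial; the count.

**Notation.** `Qb` is the algebraic closure of `ℚ`, `GQ` its Galois group. The groups `Additive Qbˣ` and
`Additive (PadicAlgCl q)ˣ` of nonzero elements are written additively; `uval a` is the number
underlying `a`, and `umk x h` the element with the number `x`. For a level family `𝓥 : LevelFam G` (a
family of subgroups, think of the open normal ones): `𝓥.IsConst₁`, `𝓥.IsConst₂` are the locally constant
cochains, `𝓥.Triv₂ f` says that `f` is the coboundary of a locally constant 1-cochain, `𝓥.Smooth A`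
that every element of `A` is fixed by a level, `𝓥.H90 A` that every locally constant 1-cocycle with
values in `A` is of the form `g a - a`; `res₂ U f` is the restriction of `f` to the subgroup `U`, and
`𝓥.restrict U`, `𝓥.comap r` are the families induced on `U`, and on a group with a homomorphism `r`
to `G`. `nrm σ n a` is `∑ σ^k a` and `tinv f σ n` is
`∑ f(σ^k, σ)`, `k < n`; for a cocycle `f` which vanishes as soon as one argument is in `H`
(`Inflated H f`), `G / H` cyclic of order `n` generated by `σ`, this is the element which gives the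
class (`GuideHasseH2.cyclic_quotient`).

**Where.** NOTES.md, Appendix A.10: [209], [263], [282], [169], [206]. Modules `H91Level`, `H91Units`,
`H91GalPair`, `H91Arith`, `H91Hasse`, `H91IsoA`, `H91IsoB`, `H91Iso`, `H91Unram`, `H91CodLoc`; `H54CodDiv`,
`H54CodFam`, `H54Codim`, `H54Input`; `H47LocTriv`. The theorems are used in S55, S56, S43, S59 and through
them in S01, S03, S04, S06, S38, S45, S46, S50, S60. Authors: helpers 91, 54, 47.
-/

set_option autoImplicit false
set_option maxSynthPendingDepth 3

namespace Fermat.Agent.Guide.LocalGlobal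

open groupCohomology (IsCocycle₁ IsCocycle₂)
open Fermat.Agent Fermat.Agent.H54 Fermat.Agent.H55 Fermat.Agent.H7 Fermat.Agent.H91
open ExtCitation IsDedekindDomain NumberField Module IntermediateField LevelFam

attribute [local instance] factNatPrimes

/-! ## 1. Level families -/

/-- **Normal closures** (`H91Level`): the normal closure of a number field unramified outside `S` is
unramified outside `S`. So the groups `Gal(ℚ̄/F)`, `F` unramified outside `S`, form a level family
`ramFam S`; `krullFam` is the family of the groups `Gal(ℚ̄/F)` for all number fields `F`. -/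
theorem normal_closure {S : Finset Nat.Primes} {F : IntermediateField ℚ (AlgebraicClosure ℚ)}
    (hF : F.IsUnramifiedOutside S) :
    ∃ E : IntermediateField ℚ (AlgebraicClosure ℚ), E.IsUnramifiedOutside S ∧ F ≤ E ∧
      E.fixingSubgroup.Normal ∧ E.fixingSubgroup.FiniteIndex :=
  exists_normal_levelS hF

/-- **Hilbert 90** (`H91Units`) for a group `G` acting on a field `Ω`, if every level contains a level
which is the subgroup fixing some subfield of `Ω`. Proof: choose a level `X` on whose cosets the cocycle
`f` is constant, with subfield `F`; the characters `x ↦ g x` of `F`, `g ∈ G/X`, are different, hence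
linearly independent, and so `b = ∑ f(g) g(x)` (a sum in `Ω`) is not zero for some `x` in `F`; but
`g(b) = b / f(g)`. -/
theorem hilbert90 {G Ω : Type*} [Group G] [Field Ω] [MulSemiringAction G Ω] {𝓥 : LevelFam G}
    (h : ∀ V ∈ 𝓥.carrier, ∃ X ∈ 𝓥.carrier, X ≤ V ∧
      ∃ F : Subfield Ω, ∀ g : G, g ∈ X ↔ ∀ x ∈ F, g • x = x)
    (f : G → Additive Ωˣ) (hf : IsCocycle₁ f) (hc : 𝓥.IsConst₁ f) :
    ∃ a : Additive Ωˣ, ∀ g, f g = g • a - a :=
  FaithfulOn.h90 h f hf hc

/-- **Cocycles killed by `p`** (`H91Units`). Suppose that `A` is smooth (every element is fixed by a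
level), divisible by `p` and satisfies Hilbert 90. A coboundary `f` with `p f = 0` is the coboundary of
a cochain `y` with `p y = 0`: if `f` is the coboundary of `x`, then `p x` is a 1-cocycle, hence of the
form `g n' - n'`, `n' = p n`; take `y(g) = x(g) - (g n - n)`. So a class with values in `μ_p` may be
tested with values in the units. -/
theorem torsion_cochain {G A : Type*} [Group G] [AddCommGroup A] [DistribMulAction G A]
    {𝓥 : LevelFam G} (hA : 𝓥.Smooth A) (h90 : 𝓥.H90 A) {p : ℕ} (hdiv : ∀ a : A, ∃ b : A, p • b = a)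
    {f : G × G → A} (hpf : ∀ g h, p • f (g, h) = 0) (ht : 𝓥.Triv₂ f) :
    ∃ y : G → A, 𝓥.IsConst₁ y ∧ (∀ g h, g • y h - y (g * h) + y g = f (g, h)) ∧
      ∀ g, p • y g = 0 :=
  exists_torsion_of_triv₂ hA h90 hdiv hpf ht

/-! ## 2. Extensions of degree `p` and subgroups -/

/-- **Intermediate fields and subgroups** of a Galois extension, possibly infinite (`H91Arith`). -/
theorem fields_and_subgroups {k Ω : Type*} [Field k] [Field Ω] [Algebra k Ω] [IsGalois k Ω]
    (K L : IntermediateField k Ω) (y : Ω) :
    (K ≤ L ↔ L.fixingSubgroup ≤ K.fixingSubgroup) ∧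
      (y ∈ K ↔ ∀ s ∈ K.fixingSubgroup, s y = y) :=
  ⟨⟨fun h => fixingSubgroup_antitone h, le_of_fixingSubgroup_le⟩,
    fun hy s hs => (mem_fixingSubgroup_iff K s).1 hs y hy, mem_of_fixed⟩

/-- **Layers** (`H91GalPair`): for `E ≤ F` inside `Ω` the degree of `F / E` is the index of `Gal(Ω/F)` in
`Gal(Ω/E)`, and `F / E` is Galois if the first group is normal in the second. (`extendScalars hEF`: `F`
as an extension of `E`.) -/
theorem layers {k Ω : Type*} [Field k] [Field Ω] [Algebra k Ω] [IsGalois k Ω]
    {E F : IntermediateField k Ω} (hEF : E ≤ F) :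
    finrank E (extendScalars hEF) = F.fixingSubgroup.relIndex E.fixingSubgroup ∧
      ((F.fixingSubgroup.subgroupOf E.fixingSubgroup).Normal → IsGalois E (extendScalars hEF)) :=
  ⟨finrank_ext hEF, isGalois_ext hEF⟩

/-- **The norm of a layer of degree `p`** (`H91GalPair`) is the product over the powers of any one
automorphism `s` of `Ω` which is trivial on `E` but not on `F`. -/
theorem norm_of_layer {k Ω : Type*} [Field k] [Field Ω] [Algebra k Ω] [IsGalois k Ω]
    {E F : IntermediateField k Ω} (hEF : E ≤ F) {p : ℕ} (hp : p.Prime)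
    (hn : (F.fixingSubgroup.subgroupOf E.fixingSubgroup).Normal)
    (hi : F.fixingSubgroup.relIndex E.fixingSubgroup = p) {s : Ω ≃ₐ[k] Ω}
    (hs : s ∈ E.fixingSubgroup) (hsF : s ∉ F.fixingSubgroup) (b : extendScalars hEF) :
    ((Algebra.norm E b : E) : Ω) = ∏ i ∈ Finset.range p, (s ^ i) (b : Ω) :=
  norm_ext_eq_prod hEF hp hn hi hs hsF b

/-- **Kummer subgroups** (`H91IsoB`): `kumSub U β` is the subgroup of the elements of `U` fixing `β`, the
group `Gal(ℚ̄/K(β))` if `U = Gal(ℚ̄/K)`. If `U` fixes a primitive `p`-th root of unity and `β^p`, but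
not `β`, then this subgroup is normal of index `p` in `U`. -/
theorem kummer_subgroup {p : ℕ} [Fact p.Prime] {U : Subgroup GQ} (hUo : krullFam.IsOpenSubgroup U)
    {ζ : Qb} (hζ : IsPrimitiveRoot ζ p) (hU : ∀ u ∈ U, u ζ = ζ) {β : Qb} (hβ : β ≠ 0)
    (hfix : ∀ u ∈ U, u (β ^ p) = β ^ p) (hne : ∃ u ∈ U, u β ≠ β) :
    (∀ u, u ∈ kumSub U β ↔ u ∈ U ∧ u β = β) ∧ krullFam.IsOpenSubgroup (kumSub U β) ∧
      ((kumSub U β).subgroupOf U).Normal ∧ (kumSub U β).relIndex U = p :=
  ⟨fun _ => Iff.rfl, kumSub_open hUo β, kumSub_normal hζ hU hβ hfix,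
    kumSub_relIndex hζ hU hβ hfix hne⟩

/-! ## 3. The local groups

`primeLocalGaloisGroup q` is the absolute Galois group of `ℚ_q`, `primeLocalToGlobal q` its embedding in
`GQ` (restriction to `ℚ̄`, embedded in `PadicAlgCl q` by `padicEmbedding q`), and `rloc q g` this
embedding followed by conjugation with `g⁻¹`. The pairs `(q, g)` take the place of the places of `ℚ̄`;
`embAt q K g` is the embedding `x ↦ padicEmbedding q (g x)` of `K` and `placeOf` the prime ideal given
by an embedding. `H82.NonSplit L v`: there is exactly one prime of `L` above `v`. `H82.locNorm L v m`: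
the products of a norm from `L` and an element of `Kˣ` which is a unit at `v` and congruent to 1 modulo
`v^m`; *local norms at `v`* are the elements which are in `locNorm L v m` for all `m`. -/

/-- **Equivariance** (`H91Arith`): the embedding `y ↦ padicEmbedding q (g y)` of `ℚ̄` in the algebraic
closure of `ℚ_q` is compatible with `rloc q g`. -/
theorem equivariance (q : Nat.Primes) (g : GQ) (s : primeLocalGaloisGroup q) (y : Qb) :
    padicEmbedding (q : ℕ) (g (rloc q g s y)) = s • padicEmbedding (q : ℕ) (g y) :=
  embComp_rloc q g s y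

/-- **The level family of the local group does not depend on `g`** (`H91IsoB`), because the conjugates of
a number field are number fields. (Its open subgroups are the Galois groups over the finite extensions
of `ℚ_q`: theorem `local_levels` of `GuideDecomposition`.) -/
theorem local_levels (q : Nat.Primes) (g : GQ) :
    krullFam.comap (rloc q g) = krullFam.comap (primeLocalToGlobal q) :=
  comap_rloc_eq q g

/-- **Local layers** (`H91Arith`). `H` normal of index `p` in `U`, `r` a homomorphism from a group `D` such
that `U` contains some `r s` which is not in `H`: then the preimage of `H` is normal of index `p` in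
the preimage of `U`. -/
theorem local_layer {G D : Type*} [Group G] [Group D] (r : D →* G) {p : ℕ} (hp : p.Prime)
    {U H : Subgroup G} (hn : (H.subgroupOf U).Normal) (hi : H.relIndex U = p)
    {s : D} (hsU : r s ∈ U) (hsH : r s ∉ H) :
    ((H.comap r).subgroupOf (U.comap r)).Normal ∧ (H.comap r).relIndex (U.comap r) = p :=
  ⟨normal_comap_subgroupOf r hn, relIndex_comap_eq r hp hn hi hsU hsH⟩

/-- **The places of `K`** (`H91Arith`, `H54Place`, `H54Levels`): every nonzero prime ideal of `K` is given
by a pair `(q, g)`; it consists of the integers whose image under the embedding has absolute value less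
than 1. Two pairs `(q, g)` and `(q, g')` give the same prime if and only if `g` and `g'` are in the same
double coset of the image of `primeLocalToGlobal q` and `Gal(ℚ̄/K)` (`GuideDecomposition`, sections 5
and 6). -/
theorem places (K : IntermediateField ℚ (AlgebraicClosure ℚ)) [NumberField K] :
    (∀ v : HeightOneSpectrum (𝓞 K), ∃ (q : Nat.Primes) (g : GQ), placeOf (embAt (q : ℕ) K g) = v) ∧
    (∀ (q : Nat.Primes) (g : GQ) (x : 𝓞 K),
      x ∈ (placeOf (embAt (q : ℕ) K g)).asIdeal ↔ ‖padicEmbedding (q : ℕ) (g (x : K))‖ < 1) ∧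
    ∀ (q : Nat.Primes) (g g' : GQ), placeOf (embAt (q : ℕ) K g) = placeOf (embAt (q : ℕ) K g') ↔
      place (primeLocalToGlobal q) K.fixingSubgroup g =
        place (primeLocalToGlobal q) K.fixingSubgroup g' :=
  ⟨fun v => (H91.exists_prime_mem v).elim fun q h => ⟨q, exists_placeOf_embAt_eq (q : ℕ) K v h⟩,
    fun _ _ _ => Iff.rfl, fun q g g' => (place_eq_iff_placeOf (q : ℕ) K g g').symm⟩

/-- **Nonsplit places** (`H91Arith`, `H91CodLoc`). `L / K` Galois of degree `p`, `K ∋ ζ`. The place
`(q, g)` of `K` is nonsplit in `L` if and only if some element `s` of the local group is in `Gal(ℚ̄/K)`,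
but not in `Gal(ℚ̄/L)`. Proof: let `E` be the completion of `K`, inside the algebraic closure of `ℚ_q`.
If there is no such `s`, the field `L` embeds in `E`, and then there are `p` places above; if there is
such an `s`, a Kummer generator of `L` is moved by `s`, so it is not in `E`, and the place is nonsplit
(`H65Split`). -/
theorem nonsplit_iff {p : ℕ} [hp : Fact p.Prime] (q : Nat.Primes) (g : GQ)
    {K L : IntermediateField ℚ Qb} [NumberField K] (hKL : K ≤ L) [NumberField (extendScalars hKL)]
    {ζ : Qb} (hζ : IsPrimitiveRoot ζ p) (hζK : ζ ∈ K)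
    (hn : (L.fixingSubgroup.subgroupOf K.fixingSubgroup).Normal)
    (hi : L.fixingSubgroup.relIndex K.fixingSubgroup = p) :
    H82.NonSplit (extendScalars hKL) (placeOf (embAt (q : ℕ) K g)) ↔
      ∃ s, rloc q g s ∈ K.fixingSubgroup ∧ rloc q g s ∉ L.fixingSubgroup :=
  have := isGalois_ext hKL hn
  ⟨exists_of_nonSplit q g hp.out hKL ((finrank_ext hKL).trans hi),
    nonSplit_of_exists hKL q g hζ hζK hn hi⟩

/-- **Local norms in terms of the local group** (`H91Arith`, `H65LocIndex`). `L / K` Galois of degree `p`,
`K ∋ ζ`, and `s` as in the preceding theorem. An element of `Kˣ` is a local norm at the place `(q, g)` if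
and only if its image in the algebraic closure of `ℚ_q` is `∏ s^k b`, `k < p`, for some `b` fixed by the
local group of `L`. -/
theorem local_norm_iff {p : ℕ} (hp : p.Prime) (q : Nat.Primes) (g : GQ)
    {K L : IntermediateField ℚ Qb} [NumberField K] (hKL : K ≤ L) [NumberField (extendScalars hKL)]
    {ζ : Qb} (hζ : IsPrimitiveRoot ζ p) (hζK : ζ ∈ K)
    (hn : (L.fixingSubgroup.subgroupOf K.fixingSubgroup).Normal)
    (hi : L.fixingSubgroup.relIndex K.fixingSubgroup = p) {s : primeLocalGaloisGroup q}
    (hsK : rloc q g s ∈ K.fixingSubgroup) (hsL : rloc q g s ∉ L.fixingSubgroup) (x : Kˣ) :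
    (∀ m, x ∈ H82.locNorm (extendScalars hKL) (placeOf (embAt (q : ℕ) K g)) m) ↔
      ∃ b : Additive (PadicAlgCl (q : ℕ))ˣ,
        (∀ h : primeLocalGaloisGroup q, rloc q g h ∈ L.fixingSubgroup → h • b = b) ∧
        padicEmbedding (q : ℕ) (g (x : K)) = uval (nrm s p b) :=
  mem_locNorm_iff_group q g hp hKL hζ hζK hn hi hsK hsL x

/-! ## 4. Descent

`LocData 𝓥 A`: an abstract family of local groups `D i` with homomorphisms `r i : D i → G`, modules
`B i` and homomorphisms `j i : A → B i` compatible with the actions, such that Hilbert 90 holds for the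
subgroups of `D i`. `𝓓.TrivAt i U f` says that the restriction of the cocycle `f` on `U` to the group
`D i` (more precisely to the preimage of `U`), with values in `B i`, is a coboundary. The number theory
is the case `arithLoc` of the groups of section 3 (`GuideHasseH2.trivAt_iff`).

In the first two theorems `f` is a cocycle on `U` which is changed by the coboundary `dd x` of `x` into a
cocycle inflated from `U / H`, `H` of index `p` (`GuideHasseH2.inflation`), and `σ` is in `U` and not in
`H`. The class is given by the element `tinv (res₂ U f - dd x) σ p` of `A`. The local group of `U` is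
supposed to be larger than the one of `H` (there is `s₀`). -/

/-- **The element is a local norm where the class is trivial** (`H91Hasse`). -/
theorem local_norm {G A : Type*} [Group G] {𝓥 : LevelFam G} [AddCommGroup A] [DistribMulAction G A]
    (𝓓 : LocData 𝓥 A) {p : ℕ} [Fact p.Prime] {U H : Subgroup G} (hle : H ≤ U)
    (hn : (H.subgroupOf U).Normal) (hi : H.relIndex U = p) {f : G × G → A} {x : U → A}
    (hx : (𝓥.restrict U).IsConst₁ x) (hF : Inflated (H.subgroupOf U) (res₂ U f - dd x))
    {σ : U} (hσ : (σ : G) ∉ H) (i : 𝓓.ι) (hit : 𝓓.TrivAt i U f)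
    {s₀ : 𝓓.D i} (hs₀U : 𝓓.r i s₀ ∈ U) (hs₀H : 𝓓.r i s₀ ∉ H) :
    ∃ s : 𝓓.D i, 𝓓.r i s ∈ U ∧ 𝓓.r i s ∉ H ∧ ∃ b : 𝓓.B i,
      (∀ h : 𝓓.D i, 𝓓.r i h ∈ H → h • b = b) ∧
      𝓓.j i (tinv (res₂ U f - dd x) σ p) = nrm s p b :=
  𝓓.local_norm hle hn hi hx hF hσ i hit hs₀U hs₀H

/-- **The class is trivial where the element is a local norm** (`H91IsoA`). -/
theorem trivial_of_local_norm {G A : Type*} [Group G] {𝓥 : LevelFam G} [AddCommGroup A]
    [DistribMulAction G A] (𝓓 : LocData 𝓥 A) {p : ℕ} [Fact p.Prime] {U H : Subgroup G}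
    (hH : 𝓥.IsOpenSubgroup H) (hn : (H.subgroupOf U).Normal) (hi : H.relIndex U = p)
    {f : G × G → A} {x : U → A} (hx : (𝓥.restrict U).IsConst₁ x)
    (hF : Inflated (H.subgroupOf U) (res₂ U f - dd x)) {σ : U} (hσ : (σ : G) ∉ H) (i : 𝓓.ι)
    {s₀ : 𝓓.D i} (hs₀U : 𝓓.r i s₀ ∈ U) (hs₀H : 𝓓.r i s₀ ∉ H)
    (hT : ∀ s : 𝓓.D i, 𝓓.r i s ∈ U → 𝓓.r i s ∉ H → ∃ b : 𝓓.B i,
      (∀ h : 𝓓.D i, 𝓓.r i h ∈ H → h • b = b) ∧
      𝓓.j i (tinv (res₂ U f - dd x) σ p) = nrm s p b) : 𝓓.TrivAt i U f :=
  trivAt_of_norm 𝓓 hH hn hi hx hF hσ i hs₀U hs₀H hT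

/-- **One step of the descent** (`H91Hasse`). `𝓓.HasseNorm p U₀` is the Hasse norm theorem for open
subgroups `H ≤ U ≤ U₀`, `H` normal of index `p` in `U`: an element fixed by `U` is a norm if it is a norm
at all `i` where the local group of `U` is larger than the one of `H`. A locally trivial class on `U`
which dies on `H` is trivial: by `local_norm` the element which gives the class is a norm locally,
hence globally. -/
theorem one_step {G A : Type*} [Group G] {𝓥 : LevelFam G} [AddCommGroup A] [DistribMulAction G A]
    (𝓓 : LocData 𝓥 A) {p : ℕ} [Fact p.Prime] (hA : 𝓥.Smooth A) {U₀ : Subgroup G}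
    (hHN : 𝓓.HasseNorm p U₀) {U H : Subgroup G} (hU₀ : U ≤ U₀) (hU : 𝓥.IsOpenSubgroup U)
    (hH : 𝓥.IsOpenSubgroup H) (hle : H ≤ U) (hn : (H.subgroupOf U).Normal)
    (hi : H.relIndex U = p) (h90 : (𝓥.restrict H).H90 A) {f : G × G → A}
    (hf : IsCocycle₂ (res₂ U f)) (hc : (𝓥.restrict U).IsConst₂ (res₂ U f))
    (ht : (𝓥.restrict H).Triv₂ (res₂ H f)) (hloc : ∀ i, 𝓓.TrivAt i U f) :
    (𝓥.restrict U).Triv₂ (res₂ U f) :=
  𝓓.triv₂_of_index hA hHN hU₀ hU hH hle hn hi h90 hf hc ht hloc

/-- **Chains of subgroups of index `p`** (`H91Hasse`): if `V` is normal in `G` and `[H : V] = p^(k+1)`, then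
`V` is contained in a normal subgroup of `H` of index `p`. -/
theorem exists_index_p {G : Type*} [Group G] {p : ℕ} [Fact p.Prime] {V H : Subgroup G}
    (hVn : V.Normal) (hVH : V ≤ H) {k : ℕ} (hk : V.relIndex H = p ^ (k + 1)) :
    ∃ H₁ : Subgroup G, V ≤ H₁ ∧ H₁ ≤ H ∧ (H₁.subgroupOf H).Normal ∧ H₁.relIndex H = p ∧
      V.relIndex H₁ = p ^ k :=
  LocData.exists_index_p hVn hVH hk

/-- **The abstract Hasse principle** (`H91Hasse`). Let `𝓓` satisfy the Hasse norm theorem for index `p`,
`f` a cocycle on `U` such that `p f` is a coboundary, locally trivial everywhere. Then `f` is trivial.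
Proof: `f` is constant, hence trivial, on a small normal level `V`. With the two preceding theorems it
is trivial on the subgroups `H ≥ V` of `U` with `[H : V]` a power of `p`, for example the preimage of a
`p`-Sylow subgroup of `U / V`, whose index is prime to `p` (`GuideHasseH2.coprime_index`). -/
theorem abstract_hasse_principle {G A : Type*} [Group G] {𝓥 : LevelFam G} [AddCommGroup A]
    [DistribMulAction G A] (𝓓 : LocData 𝓥 A) {p : ℕ} [Fact p.Prime] (hA : 𝓥.Smooth A)
    (h90 : ∀ H : Subgroup G, 𝓥.IsOpenSubgroup H → (𝓥.restrict H).H90 A)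
    {U₀ : Subgroup G} (hHN : 𝓓.HasseNorm p U₀) {U : Subgroup G} (hU₀ : U ≤ U₀)
    (hU : 𝓥.IsOpenSubgroup U) {f : G × G → A} (hf : IsCocycle₂ (res₂ U f))
    (hc : (𝓥.restrict U).IsConst₂ (res₂ U f)) (hpf : (𝓥.restrict U).Triv₂ (p • res₂ U f))
    (hloc : ∀ i, 𝓓.TrivAt i U f) : (𝓥.restrict U).Triv₂ (res₂ U f) :=
  𝓓.triv₂_of_forall_trivAt hA h90 hHN hU₀ hU hf hc hpf hloc

/-! ## 5. Cocycles with values in `ℤ/p` and in the units -/

/-- **The cocycle `ζ^f`** (`H91IsoB`): for a cochain `f` on `U` with values in `ℤ/p` the cochain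
`extz hζ h0 U f` on `GQ` with values in `ℚ̄ˣ` is `ζ^f` on `U` (and 1 elsewhere). -/
theorem unit_cocycle {p : ℕ} [Fact p.Prime] {ζ : Qb} (hζ : IsPrimitiveRoot ζ p) (h0 : ζ ≠ 0)
    (U : Subgroup GQ) (f : U × U → ZMod p) (x y : U) :
    uval (extz hζ h0 U f ((x : GQ), (y : GQ))) = ζ ^ (f (x, y)).val := by
  rw [extz_apply, zi_apply, uval_nsmul, uval_umk]

/-- **The local groups satisfy the class field axioms and have a tower** (`H91Iso`, from
`GuideHasseH2.local_class_field_axioms`, `cyclotomic_tower`): `U` is an open subgroup of the kernel of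
the cyclotomic character modulo `p`, `p` odd. Hence a class of order `p` of the local group of `U`
dies on every open normal subgroup of index `p` (`GuideHasseH2.local_index_p`). -/
theorem local_axioms {p : ℕ} [Fact p.Prime] (hp2 : p ≠ 2) (q : Nat.Primes) (g : GQ)
    {U : Subgroup GQ} (hU : U ≤ (cycloChar p).ker) (hUo : krullFam.IsOpenSubgroup U) :
    CF p (krullFam.comap (rloc q g)) (Additive (PadicAlgCl (q : ℕ))ˣ) ∧
      ∃ τ, Tower p ((krullFam.comap (rloc q g)).restrict (U.comap (rloc q g))) τ :=
  ⟨by rw [comap_rloc_eq]; exact cf_loc q, tower_loc hp2 q hU hUo g⟩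

/-- **Local triviality of `f` and of `ζ^f`** (`H91IsoB`). `U` open, fixing `ζ`; `dec .. U g` is the local
group of `U`, the preimage of `U` under `rloc q g`, `decHom .. U g` its map to `U`, and `B2` the
coboundaries of locally constant cochains with values in `ℤ/p`. The restriction of `f` is in `B2` if
and only if `ζ^f` is trivial at `(q, g)`, by `torsion_cochain`. -/
theorem local_triviality_iff {p : ℕ} [Fact p.Prime] {ζ : Qb} (hζ : IsPrimitiveRoot ζ p) (h0 : ζ ≠ 0)
    {U : Subgroup GQ} (hU : ∀ u ∈ U, u ζ = ζ) (hUo : krullFam.IsOpenSubgroup U) (q : Nat.Primes)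
    (g : GQ) {f : U × U → ZMod p} :
    arithLoc.TrivAt (q, g) U (extz hζ h0 U f) ↔
      (fun x : dec (primeLocalToGlobal q) U g × dec (primeLocalToGlobal q) U g =>
        f (decHom (primeLocalToGlobal q) U g x.1, decHom (primeLocalToGlobal q) U g x.2)) ∈
        B2 ((krullLevels.comap (primeLocalToGlobal q)).onSub (dec (primeLocalToGlobal q) U g))
          (Representation.trivial (ZMod p) (dec (primeLocalToGlobal q) U g) (ZMod p)) :=
  ⟨mem_B2_of_trivAt hζ h0 hU q g hUo (cf_loc q), trivAt_extz hζ h0 hU q g⟩

/-! **How `GuideHasseH2.one_component` is proved** (`H91Iso`). Let `K` be the field fixed by `U`, `w` the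
place of `(v₀, g₀)`, `b` the element of `GuideEulerChar.every_place_contributes` for `w`, and
`L = K(b^{1/p})`, with group `H` (`kummer_subgroup`). The cocycle `ζ^f` is locally trivial on `U` at all
places different from `w` (`local_triviality_iff`; outside `S` by `hL0`), and on `H` everywhere: `w` is
nonsplit in `L` by the choice of `b`, so at the place above `w` the local group of `H` has index `p` in
the one of `U` (`nonsplit_iff`, `local_layer`), and the class dies there (`local_axioms`). By the Hasse
principle `ζ^f` is trivial on `H`, hence given by an element `T` of `Kˣ`. This is a local norm at the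
nonsplit places different from `w` (`local_norm`, `local_norm_iff`), hence also at `w` by the choice of
`b`; so `ζ^f` is trivial at `w` (`trivial_of_local_norm`), and so is `f` (`local_triviality_iff`). -/

/-! ## 6. Unramified places -/

open scoped Pointwise in
/-- **The decomposition group at an unramified place is cyclic** (`H91Unram`): `E` a Galois number field
inside `L`, `A` a valuation ring of `L` above `q` whose inertia group acts trivially on `E`. The
stabiliser in `Gal(E/ℚ)` of the prime of `E` under `A` (`H63.center A`: the prime ideal of the integers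
of `L` given by `A`) injects in the Galois group of a finite field. -/
theorem cyclic_decomposition_group (E : Type*) [Field E] [NumberField E] [IsGalois ℚ E]
    {L : Type*} [Field L] [CharZero L] [IsGalois ℚ L] [Algebra E L] {q : ℕ} (hq : q.Prime)
    (A : ValuationSubring L) (hA : A.LiesOverPrime q)
    (hI : ∀ σ ∈ A.inertiaSubgroupIn ℚ, ∀ x : E, σ (algebraMap E L x) = algebraMap E L x) :
    IsCyclic (MulAction.stabilizer (E ≃ₐ[ℚ] E)
      ((H63.center A).comap (algebraMap (𝓞 E) (𝓞 L)))) :=
  isCyclic_stabilizer E hq A hA hI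

/-- **Local groups at `q ∉ S` are cyclic modulo a level of `ramFam S`** (`H91Unram`): for a subgroup `W` of
the group of `ℚ_q` and a normal level `V` there is `σ ∈ W` such that every element of `W` is a product
`σ^k v` with `v` in the preimage of `V`. -/
theorem cyclic_modulo_level {S : Finset Nat.Primes} {q : Nat.Primes} (hq : q ∉ S) (g : GQ)
    {V : Subgroup GQ} (hV : V ∈ (ramFam S).carrier) (hVn : V.Normal)
    (W : Subgroup (primeLocalGaloisGroup q)) :
    ∃ σ ∈ W, ∀ s ∈ W, ∃ k : ℕ, ∃ v ∈ V.comap (rloc q g), s = σ ^ k * v :=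
  exists_gen_unram hq g hV hVn W

/-- **Inflated classes die in cyclic towers** (`H47LocTriv`). `H₁ ≤ H` normal, `H₁` open, `G / H₁` cyclic
with generator `σ`, `[H : H₁]` divisible by `p`, `p A = 0`: a cocycle inflated from `G / H` is a
coboundary, because its invariant `tinv` for `G / H₁` is `[H : H₁]` times the one for `G / H`. With the
fields obtained by adjoining roots of unity of `p`-power order this gives: classes of level `S` are
trivial at the places outside `S` (`GuideShaTwo.local_triviality`), the hypothesis `hL0` of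
`GuideHasseH2.one_component`. -/
theorem dies_in_cyclic_tower {G A : Type*} [Group G] {𝓥 : LevelFam G} [AddCommGroup A]
    [DistribMulAction G A] {p : ℕ} (hpA : ∀ a : A, p • a = 0) {H H₁ : Subgroup G} [H.Normal]
    [H₁.Normal] (hle : H₁ ≤ H) (hopen : 𝓥.IsOpenSubgroup H₁) {σ : G}
    (hgen : ∀ s : G, ∃ k : ℕ, ∃ v ∈ H₁, s = σ ^ k * v) (hdvd : p ∣ H₁.relIndex H)
    {F : G × G → A} (hF : Inflated H F) : 𝓥.Triv₂ F :=
  H47.triv₂_of_cyclic hpA hle hopen hgen hdvd hF

/-! ## 7. The relation between the local components

`K ∋ ζ` is a number field inside `ℚ̄`, unramified outside `S`, `p ∈ S`; `E` is a number field, a Galois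
extension of `K` with an embedding in `ℚ̄`; the assumption that the inertia groups outside `S` act
trivially on `E` says that it is unramified outside `S`. `Cuts E χ`: the kernel of the character
`χ : Gal(ℚ̄/K) → ℤ/p` is `Gal(ℚ̄/E)`. `unrW S`: the elements of `ℚ̄ˣ` on which the inertia groups at
the primes outside `S` act trivially. `placesS S K`: the primes of `K` above `S`. `ordHom v`: the
additive valuation; `resE E s`: the restriction of `s` to `E`; `smulPlace τ w`: the prime `τ(w)`;
`below K w`: the prime of `K` under `w`. `cc χ a` is the carry cocycle (`GuideHasseH2`, section 3): its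
class is the cup product of `a` with `χ`. -/

/-- **Moving roots of unity** (`H54CodFam`, `p` odd). `ω` a primitive root of order `p^(m+1)`, `g` fixes
`ω^(p^m)`, which has order `p`, but not `ω^p`. Then some power of `g` fixes `ω^p` and not `ω`: if
`g ω = ω^c`, the exponent of `p` in `c - 1` is between `1` and `m - 1`, and it increases by one with
each `p`-th power. -/
theorem moving_roots {p : ℕ} [Fact p.Prime] (hp2 : p ≠ 2) {m : ℕ} {ω : Qb}
    (hω : IsPrimitiveRoot ω (p ^ (m + 1))) {g : GQ} (hg1 : g (ω ^ p ^ m) = ω ^ p ^ m)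
    (hgm : g (ω ^ p) ≠ ω ^ p) : ∃ k : ℕ, (g ^ k) (ω ^ p) = ω ^ p ∧ (g ^ k) ω ≠ ω :=
  exists_pow_move hp2 hω hg1 hgm

/-- **Local elements which move roots of unity** (`H54CodFam`, `H54RootsUnity`): the local group at `q` of
an open subgroup `U` moves all roots of unity of order `p^m`, `m` large, because a local field contains
only finitely many (`GuideDecomposition.few_roots_of_unity`). With `moving_roots` this gives
`GuideEulerChar.exists_family`: for `K = K₀(μ_{p^m})`, `L = K₀(μ_{p^(m+1)})` and large `m` no place above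
`S` splits in `L / K`. -/
theorem local_elements (q : Nat.Primes) {U : Subgroup GQ} (hU : krullLevels.op U) {p : ℕ}
    (hp : p.Prime) : ∃ M : ℕ, ∀ m, M ≤ m → ∀ ω : Qb, IsPrimitiveRoot ω (p ^ m) →
      ∃ s : primeLocalGaloisGroup q, primeLocalToGlobal q s ∈ U ∧ primeLocalToGlobal q s ω ≠ ω :=
  exists_local_move q hU hp

/-- **Roots** (`H54CodDiv`), `p ∈ S`: if at every valuation outside `S` the value of `z ∈ unrW S` is `p`
times the value of some `w ∈ unrW S` (additively), then `z` is `p` times an element of `unrW S`,
because `z / w^p` is a unit at this place, and `p`-th roots of units are unramified where `p` is a unit. -/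
theorem exists_root {S : Finset Nat.Primes} {p : ℕ} [Fact p.Prime]
    (hpS : ∀ q : Nat.Primes, (q : ℕ) = p → q ∈ S) {z : Additive Qbˣ} (hz : z ∈ H47.unrW S)
    (h : ∀ q : Nat.Primes, q ∉ S → ∀ A : ValuationSubring Qb, A.LiesOverPrime (q : ℕ) →
      ∃ w : Additive Qbˣ, w ∈ H47.unrW S ∧ A.valuation (uval z) = A.valuation (uval w) ^ p) :
    ∃ u ∈ H47.unrW S, p • u = z :=
  H54.exists_root hpS hz h

/-- **Norms of divisors** (`H54CodDiv`). Suppose that outside `T` the order of `a ∈ Kˣ` is divisible by
`p` at the primes which are nonsplit in `E`. Then there is a divisor `D` of `E` whose norm is the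
divisor of `a` at all primes `w` of `E` not above `T`: one `p`-th of the order of `a` at `w` if `w` is the
only prime above its restriction, and the order of `a` at one of the primes above a split prime. (The norm
is the sum over elements `s c` of `Gal(ℚ̄/K)` with `χ (s c) = c`, one for each `c` in `ℤ/p`.) -/
theorem exists_divisor {K : IntermediateField ℚ Qb} [NumberField K] {E : Type} [Field E]
    [NumberField E] [Algebra E Qb] [Algebra K E] [IsScalarTower K E Qb] [IsGalois K E] {p : ℕ}
    [Fact p.Prime] {χ : K.fixingSubgroup →* Multiplicative (ZMod p)} (h : Cuts E χ) (a : Kˣ)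
    {T : Set (HeightOneSpectrum (𝓞 K))}
    (ha : ∀ v, v ∉ T → H82.NonSplit E v → (p : ℤ) ∣ H47.ordHom v (Additive.ofMul a)) :
    ∃ D : HeightOneSpectrum (𝓞 E) →₀ ℤ, ∀ (w : HeightOneSpectrum (𝓞 E)), H47.below K w ∉ T →
      ∀ s : ZMod p → K.fixingSubgroup, (∀ c, χ (s c) = Multiplicative.ofAdd c) →
        ∑ c, D (H47.smulPlace (resE E (s c)⁻¹) w) =
          H47.ordHom w (Additive.ofMul (Units.map (algebraMap K E : K →* E) a)) :=
  H54.exists_divisor h a ha

/-- **Cup products with values in `μ_p` and level `S`** (`H54CodDiv`). `CRel S χ hζ a f` says that `f`, with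
values in `ℤ/p`, represents the cup product of `a` with `χ`, in the form: `cc χ a` is `ζ^f` plus the
coboundary of a cochain `y` of level `S` with values in `unrW S`. (`kEmb K a`: `a` in `ℚ̄ˣ`;
`muEmb hζ _ z`: `ζ^z`; `LC1`: locally constant.) -/
theorem cRel_iff {S : Finset Nat.Primes} {K : IntermediateField ℚ Qb} [NumberField K] {p : ℕ}
    [hp : Fact p.Prime] {χ : K.fixingSubgroup →* Multiplicative (ZMod p)} {ζ : Qb}
    (hζ : IsPrimitiveRoot ζ p) (a : Kˣ) (f : K.fixingSubgroup × K.fixingSubgroup → ZMod p) :
    CRel S χ hζ a f ↔ ∃ y : K.fixingSubgroup → Additive Qbˣ,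
      LC1 ((ramLevels S).onSub K.fixingSubgroup) y ∧ (∀ g, y g ∈ H47.unrW S) ∧
      ∀ g h, cc χ (H47.kEmb K a) (g, h) =
        H47.muEmb hζ hp.out.ne_zero (f (g, h)) + (g • y h - y (g * h) + y g) :=
  Iff.rfl

/-- **Existence** (`H54CodDiv`; valuations of `ℚ̄` and orders at the places below them: `H47C1Val`,
`H47C1Div`), if the order of `a` is divisible by `p` at the nonsplit primes outside `S`. Let `D` be the
divisor of `exists_divisor`, `p^n h'` the class number of `E` with `h'` prime to `p`, and `m` a power of
`h'` congruent to 1 modulo `p`. Then `p^n m D` is the divisor of some `β`. Let `z` be a `p^n`-th root of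
`β` in `ℚ̄ˣ`: it is in `unrW S` and takes the place of an element with divisor `m D`. Put
`w = -∑ c s_c(z)`, the sum over `0 ≤ c < p`. For every `g` the values of `χ(g) a + w - g w` outside `S`
are divisible by `p`, so by `exists_root` this is `p y(g)` with `y(g)` in `unrW S`. Then `cc χ a` minus
the coboundary of `y` is killed by `p`. -/
theorem exists_cRel {S : Finset Nat.Primes} {K : IntermediateField ℚ Qb} [NumberField K]
    {E : Type} [Field E] [NumberField E] [Algebra E Qb] [Algebra K E] [IsScalarTower K E Qb]
    [IsGalois K E] {p : ℕ} [Fact p.Prime] {χ : K.fixingSubgroup →* Multiplicative (ZMod p)}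
    {ζ : Qb} (hpS : ∀ q : Nat.Primes, (q : ℕ) = p → q ∈ S) (hζ : IsPrimitiveRoot ζ p) (hζK : ζ ∈ K)
    (hK : K.IsUnramifiedOutside S)
    (hE : ∀ q : Nat.Primes, q ∉ S → ∀ A : ValuationSubring Qb, A.LiesOverPrime (q : ℕ) →
      ∀ σ ∈ A.inertiaSubgroupIn ℚ, ∀ x : E, σ (algebraMap E Qb x) = algebraMap E Qb x)
    (hχ : ((ramLevels S).onSub K.fixingSubgroup).op χ.ker) (hcut : Cuts E χ)
    (hsurj : Function.Surjective χ) (a : Kˣ)
    (ha : ∀ v, v ∉ H64.placesS S K → H82.NonSplit E v →
      (p : ℤ) ∣ H47.ordHom v (Additive.ofMul a)) :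
    ∃ f, CRel S χ hζ a f ∧ f ∈ Z2 ((ramLevels S).onSub K.fixingSubgroup)
      (Representation.trivial (ZMod p) K.fixingSubgroup (ZMod p)) :=
  (H54.exists_cRel hpS hζ hζK hK hE hχ hcut hsurj a ha).imp fun _ h => ⟨h, h.mem_Z2 hζK hK hχ⟩

/-- **Where the cup product is trivial, the element is a local norm** (`H91CodLoc`), by `local_norm` with
`x = -y` and `tinv (cc χ a) σ p = a`, `χ(σ) = 1`. Here the kernel of `χ` is `Gal(ℚ̄/L)` and `(q, g)` is
nonsplit in `L` (hypothesis `hs`). -/
theorem local_norm_of_cRel {S : Finset Nat.Primes} {p : ℕ} [Fact p.Prime]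
    {K L : IntermediateField ℚ Qb} (hKL : K ≤ L) {ζ : Qb} (hζ : IsPrimitiveRoot ζ p)
    (q : Nat.Primes) (g : GQ) [NumberField K] [NumberField (extendScalars hKL)] (hζK : ζ ∈ K)
    {χ : K.fixingSubgroup →* Multiplicative (ZMod p)}
    (hχ : ∀ g : K.fixingSubgroup, χ g = 1 ↔ (g : GQ) ∈ L.fixingSubgroup)
    (hsurj : Function.Surjective χ) (h0 : ζ ≠ 0) {a : Kˣ}
    {f : K.fixingSubgroup × K.fixingSubgroup → ZMod p} (ha : CRel S χ hζ a f)
    (ht : arithLoc.TrivAt (q, g) K.fixingSubgroup (extz hζ h0 K.fixingSubgroup f))
    (hs : ∃ s, rloc q g s ∈ K.fixingSubgroup ∧ rloc q g s ∉ L.fixingSubgroup) (m : ℕ) :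
    a ∈ H82.locNorm (extendScalars hKL) (placeOf (embAt (q : ℕ) K g)) m :=
  mem_locNorm_of_cRel hKL hζ q g hζK hχ hsurj h0 ha ht hs m

/-- **Local norms outside `S`** (`H54Codim`): at a nonsplit prime `v` outside `S`, where `E / K` is
unramified, the order of a local norm is divisible by `p`. -/
theorem dvd_order_of_local_norm {S : Finset Nat.Primes} {K : IntermediateField ℚ Qb}
    [NumberField K] {E : Type} [Field E] [NumberField E] [Algebra E Qb] [Algebra K E]
    [IsScalarTower K E Qb] [IsGalois K E] [IsGalois ℚ E] {p : ℕ} [Fact p.Prime]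
    (hpS : ∀ q : Nat.Primes, (q : ℕ) = p → q ∈ S) {ζ : K} (hζ : IsPrimitiveRoot ζ p)
    (hdeg : finrank K E = p)
    (hE : ∀ q : Nat.Primes, q ∉ S → ∀ A : ValuationSubring Qb, A.LiesOverPrime (q : ℕ) →
      ∀ σ ∈ A.inertiaSubgroupIn ℚ, ∀ x : E, σ (algebraMap E Qb x) = algebraMap E Qb x)
    {v : HeightOneSpectrum (𝓞 K)} (hv : v ∉ H64.placesS S K) (hns : H82.NonSplit E v) {a : Kˣ}
    (ha : a ∈ H82.locNorm E v 1) : (p : ℤ) ∣ H47.ordHom v (Additive.ofMul a) :=
  dvd_ordHom_of_mem_locNorm hpS hζ hdeg hE hv hns ha

/-- **The count** (`H54Codim`): `#S(K) + dim Ш² ≤ dim H²(G_{K,S}, ℤ/p) + 1`, if no prime above `S` splits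
in `E`. For the fields of `GuideEulerChar.exists_family` this is `GuideEulerChar.codim_le_one`
(`H54Input`). Hypothesis `hloc` comes from `local_norm_of_cRel`: if `f` represents the cup product of `a`
and the class of `f` is locally trivial at `S`, then `a` is a local norm at `S`. Let `N` be the group of
the elements of `Kˣ` which are local norms at the nonsplit primes outside `S`, and `M` the group of those
which are local norms at `S`. By `exists_cRel` every `a ∈ N` has a class in `H² / Ш²`, and elements with
the same class are in the same coset of `M`; hence `[N : N ∩ M] ≤ p^(dim H² - dim Ш²)`. On the other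
hand `M` has index `p^#S(K)` and `N M` index `1` or `p` (`GuideEulerChar.at_most_one_relation`). -/
theorem count {S : Finset Nat.Primes} {K : IntermediateField ℚ Qb} [NumberField K]
    {E : Type} [Field E] [NumberField E] [Algebra E Qb] [Algebra K E] [IsScalarTower K E Qb]
    [IsGalois K E] [IsGalois ℚ E] {p : ℕ} [Fact p.Prime] (hp2 : p ≠ 2)
    (hpS : ∀ q : Nat.Primes, (q : ℕ) = p → q ∈ S) {ζ : Qb} (hζ : IsPrimitiveRoot ζ p)
    (hζK : ζ ∈ K) (hK : K.IsUnramifiedOutside S) (hdeg : finrank K E = p)
    (hE : ∀ q : Nat.Primes, q ∉ S → ∀ A : ValuationSubring Qb, A.LiesOverPrime (q : ℕ) →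
      ∀ σ ∈ A.inertiaSubgroupIn ℚ, ∀ x : E, σ (algebraMap E Qb x) = algebraMap E Qb x)
    {χ : K.fixingSubgroup →* Multiplicative (ZMod p)} (hsurj : Function.Surjective χ)
    (hcut : Cuts E χ) (hχ : ((ramLevels S).onSub K.fixingSubgroup).op χ.ker)
    (hns : ∀ v ∈ H64.placesS S K, H82.NonSplit E v)
    (hloc : ∀ (a : Kˣ) (f : K.fixingSubgroup × K.fixingSubgroup → ZMod p) (h : CRel S χ hζ a f),
      H2π ((ramLevels S).onSub K.fixingSubgroup)
        (Representation.trivial (ZMod p) K.fixingSubgroup (ZMod p))
        ⟨f, h.mem_Z2 hζK hK hχ⟩ ∈ (DS S).ShaU2 (ZMod p) K.fixingSubgroup →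
      ∀ v ∈ H64.placesS S K, ∀ m, a ∈ H82.locNorm E v m)
    (hfin : Module.Finite (ZMod p) (H2 ((ramLevels S).onSub K.fixingSubgroup)
      (Representation.trivial (ZMod p) K.fixingSubgroup (ZMod p)))) :
    (DS S).nPlaces K.fixingSubgroup + finrank (ZMod p) ((DS S).ShaU2 (ZMod p) K.fixingSubgroup) ≤
      finrank (ZMod p) (H2 ((ramLevels S).onSub K.fixingSubgroup)
        (Representation.trivial (ZMod p) K.fixingSubgroup (ZMod p))) + 1 :=
  codim_of hp2 hpS hζ hζK hK hdeg hE hsurj hcut hχ hns hloc hfin

end Fermat.Agent.Guide.LocalGlobal
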