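import Fermat.Agent.H64L4

/-!
# Guide to the proof: lattices and their localisations, levels (companion of `GuideSiegel`)

This file is a machine-checked table of contents. Every theorem below is a citation of a theorem of
the library, with its statement written out. Nothing imports this file.

**What it contains.** The steps behind `GuideSiegel.exists_equivariant_map_to_lattices`: the finite part
`X_f` of the space on which `PGL₂(K)` acts in the proof of S47 has an equivariant map with finite fibres to
the set of lattices in `K²` modulo fractional ideals. So the theorems on lattices (finite volume, proper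
discontinuity, cut-offs) hold for every level. `GuideSiegel`, sections 3 and 6, has the definitions.

**The idea.** There are no adeles and no completions. `R` is a Dedekind ring, `K` its field of fractions,
`w` a maximal ideal of `R`; `O_(w)` is the localisation, a subring of `K`. A lattice `Λ` in `K²` is the
intersection of its localisations; conversely, a family of lattices `g_w O_(w)²`, which is `O_(w)²` for
almost all `w`, comes from a lattice. A level consists of open subgroups `U_w` of `PGL₂(K)` (they contain
congruence subgroups), equal to `PGL₂(O_(w))` for almost all `w`, and bounded: `U_w` is contained in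
`c_w PGL₂(O_(w)) c_w⁻¹` for some `c_w`. The point `(g_w U_w)` of `X_f` is sent to the lattice with the
localisations `g_w c_w O_(w)²`. The matrix `g_w` is given by the point only up to a scalar and up to `U_w`,
which changes the localisation by a scalar, that is, `Λ` by a fractional ideal. The fibre over a class is
finite, since at the finitely many places with `U_w ≠ PGL₂(O_(w))` the group `GL₂(O_(w))` is finite modulo a
congruence subgroup.

**Order of the file.** 1. Localisation. 2. The lattices `g O_(w)²`. 3. Gluing. 4. Fractional ideals.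
5. Stabilisers. 6. The class of a point. 7. Finite fibres.

**Where.** NOTES.md, [407], [454]. Used in S47 only. Author: helper64; lattices `Lat`, `LatC`: helper26;
levels and `XF`: helper59.
-/

set_option autoImplicit false

open scoped nonZeroDivisors MatrixGroups
open Matrix IsDedekindDomain HeightOneSpectrum WithZero
open Fermat.Agent.H26Z Fermat.Agent.H59D Fermat.Agent.H59XF Fermat.Agent.H64L

namespace Fermat.Agent.Guide.LocalLattices

variable {R K : Type*} [CommRing R] [IsDedekindDomain R] [Field K] [Algebra R K]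
  [IsFractionRing R K]

/-! ## 1. Localisation

`w.valuation K` is the valuation of the maximal ideal `w`, written multiplicatively, so that `≤ 1` means
integral at `w`. `Lat R K` is the set of lattices: finitely generated `R`-submodules `Λ.M` of `K²` which
span `K²`. -/

/-- **The localisation of a submodule of `K²`** at `w` (`H64L1`): `v` is in it if `r v ∈ M` for some `r` in
`R`, not in `w`. It contains `M` and is stable under the elements of `K` which are integral at `w`. -/
theorem localisation (w : HeightOneSpectrum R) (M : Submodule R (Fin 2 → K)) :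
    (∀ v, v ∈ loc w M ↔ ∃ r : R, r ∉ w.asIdeal ∧ r • v ∈ M) ∧ M ≤ loc w M ∧
      ∀ (v : Fin 2 → K) (x : K), v ∈ loc w M → w.valuation K x ≤ 1 → x • v ∈ loc w M :=
  ⟨fun _ => mem_loc, le_loc w M, fun _ _ hv hx => smul_mem_loc hv hx⟩

/-- **Local-global principle** (`H64L1`): if some multiple `r v`, `r ≠ 0`, is in `M`, and `v` is in all
localisations of `M`, then `v ∈ M`. (The ideal of all `r` with `r v ∈ M` is not zero and not contained in
any nonzero maximal ideal.) -/
theorem local_global {M : Submodule R (Fin 2 → K)} {v : Fin 2 → K}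
    (hM : ∃ r : R, r ≠ 0 ∧ r • v ∈ M) (h : ∀ w : HeightOneSpectrum R, v ∈ loc w M) : v ∈ M :=
  mem_of_forall_mem_loc hM h

/-- **A lattice is the intersection of its localisations** (`H64L1`): every vector has a nonzero multiple
in the lattice, so the local-global principle applies. -/
theorem lattice_local_global (Λ : Lat R K) (v : Fin 2 → K) :
    (∃ r : R, r ≠ 0 ∧ r • v ∈ Λ.M) ∧
      ((∀ w : HeightOneSpectrum R, v ∈ loc w Λ.M) → v ∈ Λ.M) :=
  ⟨exists_smul_mem Λ v, fun h => Lat.mem_of_forall Λ h⟩

/-- **Two lattices have the same localisations at almost all places** (`H64L3`), since `d Λ ⊆ Λ'` for some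
`d ≠ 0` of `R`, and a nonzero element is in finitely many maximal ideals only. -/
theorem almost_all_localisations (Λ Λ' : Lat R K) :
    (∃ d : R, d ≠ 0 ∧ ∀ v ∈ Λ.M, d • v ∈ Λ'.M) ∧ {w | loc w Λ.M ≠ loc w Λ'.M}.Finite :=
  ⟨exists_smul_le Λ Λ', finite_loc_ne Λ Λ'⟩

/-- **Localisation and the group action** (`H64L3`): the localisation of `g Λ` is `g` times the localisation
of `Λ`. -/
theorem localisation_smul {w : HeightOneSpectrum R} {g : GL (Fin 2) K} {Λ : Lat R K}
    {v : Fin 2 → K} :
    v ∈ loc w (g • Λ).M ↔ g⁻¹ • v ∈ loc w Λ.M :=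
  mem_loc_smul

/-! ## 2. The lattices `g O_(w)²` -/

/-- **The lattice `g O_(w)²`** (`H64L1`), written `std w g`: `v` is in it if both coordinates of `g⁻¹ v` are
integral at `w`. It depends on `g` in the obvious way: `g h O_(w)² = g (h O_(w)²)`, and a scalar `c` acts
by multiplication. -/
theorem local_lattice (w : HeightOneSpectrum R) (g h : GL (Fin 2) K) (c : Kˣ) (v : Fin 2 → K) :
    (v ∈ std w g ↔ ∀ i, w.valuation K ((g⁻¹ • v) i) ≤ 1) ∧
      (v ∈ std w (g * h) ↔ g⁻¹ • v ∈ std w h) ∧
      (v ∈ std w (g * GeneralLinearGroup.scalar (Fin 2) c) ↔ ((c⁻¹ : Kˣ) : K) • v ∈ std w g) :=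
  ⟨mem_std, mem_std_mul, mem_std_scalar⟩

/-- **Commensurability, uniformly in the place** (`H64L1`): there is `d ≠ 0` in `R` with
`d g O_(w)² ⊆ g' O_(w)²` for all `w` (a common denominator of the entries of `g'⁻¹ g`). -/
theorem commensurable (g g' : GL (Fin 2) K) :
    ∃ d : R, d ≠ 0 ∧ ∀ w : HeightOneSpectrum R, ∀ v ∈ std w g, d • v ∈ std w g' :=
  exists_smul_std g g'

/-- The same for two families which are `O_(w)²` for almost all `w` (`H64L2`). -/
theorem commensurable_families (h h' : HeightOneSpectrum R → GL (Fin 2) K)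
    (hfin : {w | std w (h w) ≠ std w 1}.Finite) (hfin' : {w | std w (h' w) ≠ std w 1}.Finite) :
    ∃ d : R, d ≠ 0 ∧ ∀ w, ∀ v ∈ std w (h w), d • v ∈ std w (h' w) :=
  exists_smul_family h h' hfin hfin'

/-- **Clearing denominators away from `w`** (`H64L1`): finitely many elements `x_i` of `K` and places
`p_i ≠ w` are given. There is `r` in `R`, not in `w`, such that `r x_i` is integral at `p_i` for all `i`.
(A power of an element of `p_i` which is not in `w`; take the product.) This replaces the strong
approximation theorem. -/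
theorem clear_denominators {ι : Type*} (w : HeightOneSpectrum R) (s : Finset ι)
    (p : ι → HeightOneSpectrum R) (x : ι → K) (hp : ∀ i ∈ s, p i ≠ w) :
    ∃ r : R, r ∉ w.asIdeal ∧ ∀ i ∈ s, (p i).valuation K (algebraMap R K r * x i) ≤ 1 :=
  exists_clear_family w s p x hp

/-! ## 3. Gluing -/

/-- **Finite generation** (`H64L2`): a submodule `M` of `K²` with `d M ⊆ O_(w)²` for all `w`, `d ≠ 0`, is
contained in `d⁻¹ R²`, so it is finitely generated. -/
theorem finitely_generated {M : Submodule R (Fin 2 → K)} {d : R} (hd0 : d ≠ 0)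
    (hd : ∀ v ∈ M, ∀ w : HeightOneSpectrum R, d • v ∈ std w 1) : M.FG :=
  fg_of_forall_smul hd0 hd

/-- **Gluing** (`H64L2`): given matrices `h_w` with `h_w O_(w)² = O_(w)²` for almost all `w`, the
intersection of all `h_w O_(w)²` is a lattice, and its localisation at `w` is `h_w O_(w)²`. (For `v` in
`h_w O_(w)²` the denominators of `v` at the finitely many other places where `v` is not in `h_w' O_(w')²` can
be cleared by an element which is not in `w`.) -/
theorem gluing (h : HeightOneSpectrum R → GL (Fin 2) K)
    (hfin : {w | std w (h w) ≠ std w 1}.Finite) :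
    (∀ v, v ∈ (glue h hfin).M ↔ ∀ w, v ∈ std w (h w)) ∧
      ∀ w, loc w (glue h hfin).M = std w (h w) :=
  ⟨fun _ => mem_glue, loc_glue h hfin⟩

/-! ## 4. Fractional ideals

`LatC R K` is the set of lattices modulo multiplication by fractional ideals, `LatC.mk Λ` the class
of `Λ`. -/

/-- **A fractional ideal with given valuations** (`H64L2`): for `c_w` in `Kˣ`, equal to `1` for almost all
`w`, the `x` in `K` with `x c_w` integral at `w` for all `w` form a nonzero fractional ideal, and at every
`w` it has an element for which `x c_w` is a unit at `w`. -/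
theorem ideal_with_valuations (c : HeightOneSpectrum R → Kˣ) (hc : {w | c w ≠ 1}.Finite) :
    (∀ x : K, x ∈ (glueIdeal c hc : Submodule R K) ↔
      ∀ w : HeightOneSpectrum R, w.valuation K (x * (c w : K)) ≤ 1) ∧
    glueIdeal c hc ≠ 0 ∧
    ∀ w : HeightOneSpectrum R, ∃ x ∈ (glueIdeal c hc : Submodule R K), w.valuation K (x * (c w : K)) = 1 :=
  ⟨fun _ => mem_glueIdeal, glueIdeal_ne_zero c hc, exists_mem_glueIdeal c hc⟩

/-- **Every fractional ideal is locally principal** (`H64L3`): it has an element `a` of maximal valuation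
(multiplicatively written) at `w`. So the localisation of `I Λ` is a multiple of the localisation
of `Λ`. -/
theorem locally_principal (w : HeightOneSpectrum R) (I : (FractionalIdeal R⁰ K)ˣ) :
    (∃ a : Kˣ, (a : K) ∈ ((I : FractionalIdeal R⁰ K) : Submodule R K) ∧
      ∀ x ∈ ((I : FractionalIdeal R⁰ K) : Submodule R K), w.valuation K x ≤ w.valuation K a) ∧
    ∀ Λ : Lat R K, ∃ c : Kˣ, ∀ v, v ∈ loc w (I • Λ).M ↔ (c : K) • v ∈ loc w Λ.M :=
  ⟨exists_local_generator w I, exists_mem_loc_ismul w I⟩

/-- **Lattices which are locally homothetic have the same class** (`H64L2`, `H64L3`): if for every `w` the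
localisations of `Λ` and `Λ'` differ by a scalar, then `Λ = I Λ'` for a fractional ideal `I`. (For almost
all `w` the scalar can be `1`; take the ideal with these valuations.) -/
theorem locally_homothetic {Λ Λ' : Lat R K}
    (h : ∀ w, ∃ c : Kˣ, ∀ v, v ∈ loc w Λ.M ↔ (c : K) • v ∈ loc w Λ'.M) :
    LatC.mk Λ = LatC.mk Λ' :=
  mk_eq_of_loc' h

/-! ## 5. Stabilisers

`GLw w` is the group `GL₂(O_(w))` (entries integral at `w`, determinant a unit at `w`), `U0 w` its image
in `PGL₂(K)`, `GLcong w n` the subgroup of the matrices congruent to `1` modulo `w^n`. -/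

/-- **The stabiliser of a local lattice** (`H64L3`): multiplication by an element of `GL₂(O_(w))` on the right
does not change `g O_(w)²`; conversely, if `g O_(w)² = g' O_(w)²`, then `g⁻¹ g'` is in `GL₂(O_(w))`. -/
theorem stabiliser (w : HeightOneSpectrum R) (g : GL (Fin 2) K) :
    (∀ u ∈ GLw w, std w (g * u) = std w g) ∧
      ∀ g' : GL (Fin 2) K, std w g = std w g' → g⁻¹ * g' ∈ GLw w :=
  ⟨fun _ hu => std_mul_GLw hu, fun _ h => mem_GLw_of_std_eq h⟩

/-- **Matrices in `PGL₂(O_(w))`** (`H64L3`): the class of `g` is in the image of `GL₂(O_(w))` if and only if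
`g` is an element of `GL₂(O_(w))` times a scalar. -/
theorem maximal_compact_iff {w : HeightOneSpectrum R} {g : GL (Fin 2) K} :
    (ProjGenLinGroup.mk g : PGL(2, K)) ∈ U0 w ↔
      ∃ u ∈ GLw w, ∃ z : Kˣ, g = u * GeneralLinearGroup.scalar (Fin 2) z :=
  mem_U0_iff

/-- **The matrix `c_w` of a level** (`H64L3`): `cc L w` conjugates the group `U_w` of the level into
`PGL₂(O_(w))`, and it is `1` if `U_w = PGL₂(O_(w))`. -/
theorem conjugating_matrix (L : Level R K) (w : HeightOneSpectrum R) :
    (L.U w = U0 w → cc L w = 1) ∧ ∀ g ∈ L.U w,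
      (ProjGenLinGroup.mk (cc L w) : PGL(2, K))⁻¹ * g * ProjGenLinGroup.mk (cc L w) ∈ U0 w :=
  ⟨cc_eq_one, fun _ => cc_spec L w⟩

/-- **A coset determines a local lattice up to a scalar** (`H64L3`): if `g U_w = g' U_w`, then
`g' c_w O_(w)² = g c_w z O_(w)²` for some `z` in `Kˣ`. -/
theorem coset_lattice (L : Level R K) (w : HeightOneSpectrum R) {g g' : GL (Fin 2) K}
    (h : ((ProjGenLinGroup.mk g : PGL(2, K)) : PGL(2, K) ⧸ L.fam.U w) =
      ((ProjGenLinGroup.mk g' : PGL(2, K)) : PGL(2, K) ⧸ L.fam.U w)) :
    ∃ z : Kˣ, std w (g' * cc L w) = std w (g * cc L w * GeneralLinearGroup.scalar (Fin 2) z) :=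
  std_of_mk_eq L w h

/-! ## 6. The class of a point

`XF L.fam` is the finite part of the model: families of cosets `x w` in `PGL₂(K) / U_w`, trivial for
almost all `w`. `IsLat L x Λ` says that `Λ` is a lattice which belongs to the point `x`. -/

/-- **The notion** (`H64L3`): at every place `x w` is the coset of a matrix `g` such that the localisation of
`Λ` is `g c_w O_(w)²`. -/
theorem isLat_iff (L : Level R K) (x : XF L.fam) (Λ : Lat R K) :
    IsLat L x Λ ↔ ∀ w, ∃ g : GL (Fin 2) K,
      x w = ((ProjGenLinGroup.mk g : PGL(2, K)) : PGL(2, K) ⧸ L.fam.U w) ∧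
        loc w Λ.M = std w (g * cc L w) :=
  Iff.rfl

/-- **Existence and uniqueness** (`H64L3`): every point `x` has a lattice (by gluing), and two lattices
which belong to `x` have the same class (by `coset_lattice` and `locally_homothetic`). -/
theorem existence_uniqueness (L : Level R K) (x : XF L.fam) :
    (∃ Λ : Lat R K, IsLat L x Λ) ∧
      ∀ Λ Λ' : Lat R K, IsLat L x Λ → IsLat L x Λ' → LatC.mk Λ = LatC.mk Λ' :=
  ⟨exists_isLat L x, fun _ _ h h' => h.mk_eq h'⟩

/-- **Compatibility** (`H64L3`): if `Λ` belongs to `x`, then `g Λ` belongs to `g x`, and `I Λ` belongs to `x`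
for every fractional ideal `I`. -/
theorem compatibility {L : Level R K} {x : XF L.fam} {Λ : Lat R K} (h : IsLat L x Λ) :
    (∀ g : GL (Fin 2) K, IsLat L ((ProjGenLinGroup.mk g : PGL(2, K)) • x) (g • Λ)) ∧
      ∀ I : (FractionalIdeal R⁰ K)ˣ, IsLat L x (I • Λ) :=
  ⟨h.smul, h.ismul⟩

/-- **The map to classes of lattices** (`H64L3`): `lat L x` is the class of the lattices which belong to `x`.
It is equivariant (`GuideSiegel.exists_equivariant_map_to_lattices`). -/
theorem class_of_point {L : Level R K} {x : XF L.fam} {Λ : Lat R K} :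
    lat L x = LatC.mk Λ ↔ IsLat L x Λ :=
  lat_eq_mk_iff

/-! ## 7. Finite fibres -/

/-- **`GL₂(O_(w))` is finite modulo a congruence subgroup** (`H64L4`), if `R / w^m` is finite: a matrix is
determined modulo `w^m` by its entries in `R / w^m`. -/
theorem finite_representatives (w : HeightOneSpectrum R) (m : ℕ) [Finite (R ⧸ w.asIdeal ^ m)] :
    ∃ T : Set (GL (Fin 2) K), T.Finite ∧ ∀ u ∈ GLw (K := K) w, ∃ t ∈ T, t ∈ GLw w ∧
      t⁻¹ * u ∈ GLcong w m :=
  exists_finite_reps w m

/-- **Conjugation of congruence subgroups** (`H64L4`): for every `c` and `n` there is `m` with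
`c Γ(w^m) c⁻¹ ⊆ Γ(w^n)`. -/
theorem congruence_conj (w : HeightOneSpectrum R) (c : GL (Fin 2) K) (n : ℕ) :
    ∃ m : ℕ, ∀ γ ∈ GLcong (K := K) w m, c * γ * c⁻¹ ∈ GLcong w n :=
  exists_conj_le w c n

/-- **The local fibre** (`H64L4`): `fib L w` is the set of the cosets of the matrices `c_w u c_w⁻¹`, `u` in
`GL₂(O_(w))`. It is finite if the quotients `R / w^m` are finite, since `U_w` contains a congruence subgroup;
and it is one point if `U_w = PGL₂(O_(w))`. -/
theorem local_fibre (L : Level R K) (w : HeightOneSpectrum R) :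
    (∀ y, y ∈ fib L w ↔
      ∃ k : GL (Fin 2) K, y = ((ProjGenLinGroup.mk k : PGL(2, K)) : PGL(2, K) ⧸ L.fam.U w) ∧
        ∃ u ∈ GLw w, k = cc L w * u * (cc L w)⁻¹) ∧
    ((∀ m : ℕ, Finite (R ⧸ w.asIdeal ^ m)) → (fib L w).Finite) ∧
    (L.U w = U0 w → fib L w ⊆ {((1 : PGL(2, K)) : PGL(2, K) ⧸ L.fam.U w)}) :=
  ⟨fun _ => Iff.rfl, finite_fib L w, fib_subsingleton⟩

/-- **Two points with the same lattice** (`H64L4`): if `Λ` belongs to `x` and to `x'`, and `x w` is the coset
of `g`, then `x' w = g y` with `y` in the local fibre. -/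
theorem points_with_same_lattice {L : Level R K} {x x' : XF L.fam} {Λ : Lat R K}
    (h : IsLat L x Λ) (h' : IsLat L x' Λ) (w : HeightOneSpectrum R) {g : GL (Fin 2) K}
    (hg : x w = ((ProjGenLinGroup.mk g : PGL(2, K)) : PGL(2, K) ⧸ L.fam.U w)) :
    ∃ y ∈ fib L w, x' w = (ProjGenLinGroup.mk g : PGL(2, K)) • y :=
  mem_fib_of_isLat h h' w hg

/-- **The fibres of the map to classes of lattices are finite** (`H64L4`), if all quotients `R / w^m` are
finite: a point of the fibre is determined by its coordinates at the finitely many places with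
`U_w ≠ PGL₂(O_(w))`, for which there are finitely many possibilities. For the ring of integers of a
number field this is part of `GuideSiegel.exists_equivariant_map_to_lattices`. -/
theorem finite_fibres (L : Level R K) (hfin : ∀ (w : HeightOneSpectrum R) (m : ℕ),
    Finite (R ⧸ w.asIdeal ^ m)) (z : LatC R K) : {x | lat L x = z}.Finite :=
  finite_fiber L hfin z

end Fermat.Agent.Guide.LocalLattices
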