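import Mathlib
import Fermat.Agent.H65Bridge
import Fermat.Agent.H65LocIndex

/-!
# Complete models are locally compact; `v.adicCompletion K` is a complete model
-/

set_option autoImplicit false

open NumberField IsDedekindDomain Module WithZero Filter Topology
open scoped NNReal

namespace Fermat.Agent.H65

open Fermat.Agent.H82 (above aboveSet NonSplit locNorm locPow)

section proper

variable {K : Type*} [Field K] [NumberField K] {v : HeightOneSpectrum (𝓞 K)}

theorem finite_quot_pow (v : HeightOneSpectrum (𝓞 K)) (n : ℕ) : Finite (𝓞 K ⧸ v.asIdeal ^ n) :=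
  Ideal.finiteQuotientOfFreeOfNeBot _ (pow_ne_zero _ v.ne_bot)

theorem totallyBounded_closedBall {E : Type*} [NormedField E] [IsUltrametricDist E]
    [Algebra K E] (h : LocModel (v.valuation K) E) :
    TotallyBounded (Metric.closedBall (0 : E) 1) := by
  rw [Metric.totallyBounded_iff]
  intro ε hε
  obtain ⟨e, he, hE⟩ := h.exists_norm_le_iff
  obtain ⟨m, hm⟩ : ∃ m : ℕ, ∀ x : K, v.valuation K x ≤ exp (-(m : ℤ)) →
      ‖algebraMap K E x‖ < ε := by
    obtain ⟨m, hm⟩ := exists_pow_lt_of_lt_one hε (inv_lt_one_of_one_lt₀ he)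
    refine ⟨m, fun x hx => ?_⟩
    refine lt_of_le_of_lt ((hE x _).2 hx) ?_
    rwa [zpow_neg, zpow_natCast, ← inv_pow]
  have hfin := finite_quot_pow v m
  let g : (𝓞 K ⧸ v.asIdeal ^ m) → E := fun q =>
    algebraMap K E (algebraMap (𝓞 K) K (Quotient.out q))
  refine ⟨Set.range g, Set.finite_range g, fun y hy => ?_⟩
  rw [Metric.mem_closedBall, dist_zero_right] at hy
  obtain ⟨k, hk⟩ := h.exists_close y (lt_min hε one_pos)
  have hk1 : ‖algebraMap K E k‖ ≤ 1 := by
    have : algebraMap K E k = (algebraMap K E k - y) + y := by ring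
    rw [this]
    exact (IsUltrametricDist.norm_add_le_max _ _).trans
      (max_le (hk.le.trans (min_le_right _ _)) hy)
  rw [h.norm_le_one_iff] at hk1
  obtain ⟨a, ha⟩ := HeightOneSpectrum.exists_valuation_sub_lt_of_integer v hk1
    (Units.mk0 (exp (-(m : ℤ))) WithZero.exp_ne_zero)
  replace ha : v.valuation K (algebraMap (𝓞 K) K a - k) < exp (-(m : ℤ)) := ha
  rw [Set.mem_iUnion₂]
  refine ⟨_, ⟨Ideal.Quotient.mk _ a, rfl⟩, ?_⟩
  rw [Metric.mem_ball, dist_eq_norm]
  set r : 𝓞 K := Quotient.out (Ideal.Quotient.mk (v.asIdeal ^ m) a) with hr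
  have hra : a - r ∈ v.asIdeal ^ m := by
    rw [← Ideal.Quotient.eq, hr]
    exact (Quotient.out_eq (Ideal.Quotient.mk (v.asIdeal ^ m) a)).symm
  have h1 : ‖algebraMap K E (algebraMap (𝓞 K) K (a - r))‖ < ε := by
    apply hm
    rw [HeightOneSpectrum.valuation_of_algebraMap]
    exact (HeightOneSpectrum.intValuation_le_pow_iff_mem v _ _).2 hra
  have h2 : ‖algebraMap K E (algebraMap (𝓞 K) K a - k)‖ < ε := hm _ ha.le
  have h3 : y - g (Ideal.Quotient.mk _ a) = -(algebraMap K E k - y) +
      (-(algebraMap K E (algebraMap (𝓞 K) K a - k)) +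
        algebraMap K E (algebraMap (𝓞 K) K (a - r))) := by
    simp only [g, ← hr]
    rw [map_sub, map_sub, map_sub]
    ring
  rw [h3]
  refine lt_of_le_of_lt (IsUltrametricDist.norm_add_le_max _ _) (max_lt ?_ ?_)
  · rw [norm_neg]; exact hk.trans_le (min_le_left _ _)
  · refine lt_of_le_of_lt (IsUltrametricDist.norm_add_le_max _ _) (max_lt ?_ h1)
    rwa [norm_neg]

/-- A complete model of the completion of a number field is a proper space. -/
theorem properSpace_of_locModel {E : Type*} [NontriviallyNormedField E] [CompleteSpace E]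
    [IsUltrametricDist E] [Algebra K E] (h : LocModel (v.valuation K) E) : ProperSpace E := by
  have hcomp : IsCompact (Metric.closedBall (0 : E) 1) := by
    rw [isCompact_iff_totallyBounded_isComplete]
    exact ⟨totallyBounded_closedBall h, Metric.isClosed_closedBall.isComplete⟩
  have : LocallyCompactSpace E := IsCompact.locallyCompactSpace_of_mem_nhds_of_addGroup hcomp
    (Metric.closedBall_mem_nhds 0 zero_lt_one)
  exact .of_nontriviallyNormedField_of_weaklyLocallyCompactSpace E

/-- existence of an element of norm `> 1`. -/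
theorem exists_one_lt_norm {E : Type*} [NormedField E]
    [Algebra K E] (h : LocModel (v.valuation K) E) : ∃ x : E, 1 < ‖x‖ := by
  obtain ⟨π, hπ⟩ := v.valuation_exists_uniformizer K
  refine ⟨algebraMap K E π⁻¹, ?_⟩
  by_contra hcon
  rw [not_lt, h.norm_le_one_iff, map_inv₀, hπ, ← exp_neg, ← exp_zero, exp_le_exp] at hcon
  omega

end proper

section adic

variable {K : Type*} [Field K] [NumberField K] (v : HeightOneSpectrum (𝓞 K))

theorem locModel_adicCompletion : LocModel (v.valuation K) (v.adicCompletion K) where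
  dense := HeightOneSpectrum.denseRange_algebraMap K v
  norm_eq := ⟨_, NumberField.HeightOneSpectrum.one_lt_absNorm_nnreal v, fun x => by
    have := NumberField.FinitePlace.norm_embedding' (K := K) v x
    have h2 : algebraMap K (v.adicCompletion K) x = NumberField.FinitePlace.embedding v x := by
      rw [NumberField.FinitePlace.embedding_apply]
      exact congrFun (HeightOneSpectrum.algebraMap_adicCompletion (R := 𝓞 K) (K := K) (S := K) v) x
    rw [h2, this]⟩

/-- `v.adicCompletion K` as a nontrivially normed field. -/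
noncomputable abbrev nnf : NontriviallyNormedField (v.adicCompletion K) where
  __ := NumberField.HeightOneSpectrum.instNormedFieldValuedAdicCompletion K v
  non_trivial := exists_one_lt_norm (locModel_adicCompletion v)

end adic

section final

variable {K L : Type} [Field K] [NumberField K] [Field L] [NumberField L] [Algebra K L]

/-- unconditional local norm index, completion-free form. -/
theorem index_locNorm_eq [IsGalois K L] {p : ℕ} (hp : p.Prime)
    (hL : finrank K L = p) {ζ : K} (hζ : IsPrimitiveRoot ζ p)
    {v : HeightOneSpectrum (𝓞 K)} (hns : NonSplit L v) :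
    (⨅ m, locNorm L v m : Subgroup Kˣ).index = p := by
  let := nnf v
  have hpE : (p : v.adicCompletion K) ≠ 0 := by
    rw [← map_natCast (algebraMap K (v.adicCompletion K)), ne_eq, map_eq_zero, Nat.cast_eq_zero]
    exact hp.ne_zero
  have hmod : LocModel (v.valuation K) (v.adicCompletion K) := locModel_adicCompletion v
  have : ProperSpace (v.adicCompletion K) := properSpace_of_locModel hmod
  exact index_iInf_locNorm hp hL hζ hmod hpE hns

theorem exists_locNorm_ne_top' [IsGalois K L] {p : ℕ} (hp : p.Prime)
    (hL : finrank K L = p) {ζ : K} (hζ : IsPrimitiveRoot ζ p)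
    {v : HeightOneSpectrum (𝓞 K)} (hns : NonSplit L v) :
    ∃ m₀, ∀ m, m₀ ≤ m → locNorm L v m ≠ ⊤ := by
  let := nnf v
  have hpE : (p : v.adicCompletion K) ≠ 0 := by
    rw [← map_natCast (algebraMap K (v.adicCompletion K)), ne_eq, map_eq_zero, Nat.cast_eq_zero]
    exact hp.ne_zero
  have hmod : LocModel (v.valuation K) (v.adicCompletion K) := locModel_adicCompletion v
  have : ProperSpace (v.adicCompletion K) := properSpace_of_locModel hmod
  exact exists_locNorm_ne_top hp hL hζ hmod hpE hns

open IntermediateField in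
/-- completion-free splitting criterion: `v` is nonsplit in `L = K(β)`, `β ^ p = b`, iff `b` is
not a local `p`-th power at `v`. -/
theorem nonSplit_iff_locPow [IsGalois K L] {p : ℕ} (hp : p.Prime)
    (hL : finrank K L = p) {β : L} {b : Kˣ} (hβ : β ^ p = algebraMap K L b) (hgen : K⟮β⟯ = ⊤)
    {v : HeightOneSpectrum (𝓞 K)} : NonSplit L v ↔ ∃ m, b ∉ locPow p v m := by
  let := nnf v
  have hpE : (p : v.adicCompletion K) ≠ 0 := by
    rw [← map_natCast (algebraMap K (v.adicCompletion K)), ne_eq, map_eq_zero, Nat.cast_eq_zero]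
    exact hp.ne_zero
  have hmod : LocModel (v.valuation K) (v.adicCompletion K) := locModel_adicCompletion v
  rw [nonSplit_iff hp hL hβ hgen hmod hpE, ← forall_mem_locPow_iff hmod hpE, not_forall]

end final

end Fermat.Agent.H65
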