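import Fermat.Agent.H65First
import Fermat.Agent.H65LocIndex
import Fermat.Agent.H65Adic
import Fermat.Agent.H7LocPow

/-!
# Guide: local norms and the Herbrand quotient of the T-units

Companion of `GuideQuadRec` (sections 3 and 5), `GuideEulerChar` and `GuideHasseH2`. Those files contain
the results of the class field theory of this library for extensions of prime degree (the steps of the
second inequality and of the Hasse norm theorem are in `GuideClassField`); this one contains the steps of
the two index computations on which everything rests: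

* (L) `L/K` Galois of prime degree `p`, `ζ_p ∈ K`, `v` a place of `K` with one place of `L` above it: the
  elements of `Kˣ` which are local norms at `v` form a subgroup of index `p`
  (`GuideQuadRec.local_norm_index`; library: `H65.index_locNorm_eq`);
* (U) `L/K` as above (without `ζ_p`), `K` totally complex, `T` finite, containing the ramified places, with
  trivial `T`-class group: `[E_{K,T} : N E_{L,T}] * p = p ^ #{v ∈ T nonsplit}`
  (`GuideQuadRec.first_inequality`; library: `H65.relIndex_norm_mul`).

**Plan of (L).** 1. `[Eˣ : N Fˣ] = [F : E]` for a cyclic extension `F/E` of locally compact nonarchimedean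
fields (section 2, by the lemma of section 1 on Herbrand quotients and a ball around `1` on which
`Ĥ⁰` and `Ĥ⁻¹` vanish). 2. The completion `K_v` is only used through two properties (section 3). 3. If
`L = K(β)`, `β^p = b`, then `v` is nonsplit if and only if `b` is not a `p`-th power in `K_v` (section 4).
4. Then `F = K_v(b^(1/p))` is a cyclic field extension of degree `p` of `K_v`, an element of `Kˣ` is a norm
from `F` if and only if it is in `N(Lˣ) (1 + v^m)` for all `m`, and since all `p`-th powers are norms and
`K_vˣ = Kˣ (K_vˣ)^p`, the index in `Kˣ` is the index in `K_vˣ`, that is `p` (section 5).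

**Plan of (U).** `G = Gal(L/K)` of order `p` acts on `M = E_{L,T}`. `Ĥ⁻¹(G, M) = 0` (Hilbert 90 for
`T`-units), and the Herbrand quotient of `M` is known from `[M : M^p] / #M[p]` and the same number for
`M^G = E_{K,T}` (`herbrand_prime`); these are powers of `p` by the unit theorem, with exponents the ranks,
and the ranks are counted in section 6. No ideles, no completions, no cohomology of ideal groups.

Notation as in `GuideQuadRec`: `above L v`: the places of `L` above `v`; `aboveSet L T`: the places above
`T`; `NonSplit L v`: there is exactly one; `T.unit K`: the group of `T`-units, a subgroup of `Kˣ` (Mathlib);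
`locNorm L v m = N(Lˣ) (1 + v^m)`, a subgroup of `Kˣ`; `ClTrivial T`: the `T`-class group is trivial;
`Gal(F/E)`: the group of the automorphisms of `F` over `E`.

Authors: helper7 (`H7LocHerbrand`, `H7LocLattice`, `H7LocCoh`, `H7LocIndex`, `H7LocPow`), helper54
(`H54HerbrandPrime`), helper47 (`H47TUnits`, `H47TClass`), helper82 (`H82CftDefs`), helper65 (`H65Bridge`,
`H65Split`, `H65LocIndex`, `H65Adic`, `H65FirstA`, `H65FirstB`, `H65First`). Every cited theorem is used in
the proof terms of S01 and S55, and all but `root_near_one` and `index_powers` also in that of S47.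

References: NOTES.md, Appendix A, notes [169] (local part), [289] (section 1), [262], [282], [94];
J.-P. Serre, *Local fields*, VIII §4, §5 (Herbrand quotients, also for groups of prime order);
S. Lang, *Algebraic number theory*, IX, XI.
-/

set_option autoImplicit false

open NumberField IsDedekindDomain Module WithZero Polynomial IntermediateField
open scoped NNReal

namespace Fermat.Agent.Guide.LocalNorms

open Fermat.Agent.H82 (above aboveSet NonSplit locNorm ClTrivial)

/-! ### 1. Herbrand quotients -/

/-- **Herbrand's lemma**, in indices. `A` a commutative group, `f, g : A → A` with `f g = 1 = g f`, `B` a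
subgroup of finite index stable under `f` and `g`. Then `[ker f : im g] / [ker g : im f]` is the same for
`A` and for `B`. The statement is multiplied out (`relIndex H K = [K : H ∩ K]`, with value `0` for an
infinite index), so no finiteness of the four indices is needed. (`H7LocHerbrand`) -/
theorem herbrand_lemma {A : Type*} [CommGroup A] (f g : A →* A) (hfg : ∀ x, f (g x) = 1)
    (hgf : ∀ x, g (f x) = 1) (B : Subgroup A) (hB : B.index ≠ 0) (hfB : B.map f ≤ B)
    (hgB : B.map g ≤ B) :
    g.range.relIndex f.ker * (B.map f).relIndex (g.ker ⊓ B)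
      = (B.map g).relIndex (f.ker ⊓ B) * f.range.relIndex g.ker :=
  H7.herbrand_index f g hfg hgf B hB hfB hgB

/-- **Index of a product of endomorphisms**: `[M : φψM] #ker φ #ker ψ = [M : φM] [M : ψM] #ker φψ` (with
`0` for infinite). In other words `q(φ) = [M : φM] / #ker φ` is multiplicative in `φ`.
(`H54HerbrandPrime`) -/
theorem index_comp_mul {M : Type*} [AddCommGroup M] (φ ψ : M →+ M) :
    (φ.comp ψ).range.index * Nat.card φ.ker * Nat.card ψ.ker
      = φ.range.index * ψ.range.index * Nat.card (φ.comp ψ).ker :=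
  H54.index_comp_mul φ ψ

/-- **The identity behind the next theorem.** With `Φ = 1 + X + ... + X^(p-1)`, `p` prime: in `ℤ[X]`,
`(X - 1)^(p-1) = Φ + p A` with `A` invertible modulo `Φ`. Hence on a module on which `1 + σ + ... +
σ^(p-1)` is zero, `p` and `(σ - 1)^(p-1)` have the same kernel and the same image. (`H54HerbrandPrime`) -/
theorem poly_identity {p : ℕ} (hp : p.Prime) :
    ∃ A U E : ℤ[X], (X - 1) ^ (p - 1) = (∑ i ∈ Finset.range p, X ^ i) + (p : ℤ[X]) * A ∧
      A * U = 1 + (∑ i ∈ Finset.range p, X ^ i) * E :=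
  H54.exists_poly_identity hp

/-- **Herbrand quotient for a group of prime order.** `σ` an endomorphism of the commutative group `G`
with `σ^p = 1`, `Fix` the fixed subgroup, `N x = x σ(x) ... σ^(p-1)(x)`, `D x = σ(x)/x`. Write
`q(H) = [H : H^p] / #H[p]`. If `q(G)` and `q(Fix)` are finite, then
`([Fix : N G] / [ker N : D G])^(p-1) = q(Fix)^p / q(G)`; multiplied out below. (`H54HerbrandPrime`; proof:
the sequence `1 → Fix → G → G/Fix → 1`, on which `q` and the Herbrand quotient are multiplicative; the
action on `Fix` is trivial, and `poly_identity` applies to `G/Fix`, where the norm is trivial) -/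
theorem herbrand_prime {G : Type*} [CommGroup G] {p : ℕ} (hp : p.Prime) (σ : G →* G)
    (hσ : ∀ x, (σ^[p]) x = x) (Fix : Subgroup G) (hFix : ∀ x, x ∈ Fix ↔ σ x = x)
    (N D : G →* G) (hN : ∀ x, N x = ∏ i ∈ Finset.range p, (σ^[i]) x) (hD : ∀ x, D x = σ x / x)
    (h1 : (powMonoidHom p : G →* G).range.index ≠ 0)
    (h2 : Nat.card (powMonoidHom p : G →* G).ker ≠ 0)
    (h3 : (powMonoidHom p : Fix →* Fix).range.index ≠ 0) :
    N.range.relIndex Fix ^ (p - 1) * (powMonoidHom p : G →* G).range.index *
        Nat.card (powMonoidHom p : Fix →* Fix).ker ^ p =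
      D.range.relIndex N.ker ^ (p - 1) * Nat.card (powMonoidHom p : G →* G).ker *
        (powMonoidHom p : Fix →* Fix).range.index ^ p :=
  (H54.herbrand_prime_mul hp σ hσ Fix hFix N D hN hD h1 h2 h3).2.2

/-! ### 2. The norm index of a cyclic extension of local fields

`E` is a locally compact nonarchimedean field of any characteristic (`ProperSpace`: closed balls are
compact), `F/E` a finite Galois extension with a norm which extends that of `E`. -/

section Local

variable (E F : Type) [NontriviallyNormedField E] [IsUltrametricDist E] [ProperSpace E]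
  [NormedField F] [NormedAlgebra E F] [FiniteDimensional E F] [IsGalois E F]

/-- **The norm attached to a normal basis.** `nb x` is the maximum of the norms of the coordinates of `x`
with respect to a normal basis of `F/E`. It is invariant under `Gal(F/E)` and submultiplicative up to a
constant. (The given norm of `F` is not used for the estimates, because its unit ball need not have a normal
basis.) (`H7LocLattice`) -/
theorem lattice_norm :
    (∀ x : F, H7.nb E x = ‖(IsGalois.normalBasis E F).equivFun x‖) ∧
    (∀ (σ : Gal(F/E)) (x : F), H7.nb E (σ x) = H7.nb E x) ∧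
    ∃ C : ℝ, 1 ≤ C ∧ ∀ x y : F, H7.nb E (x * y) ≤ C * H7.nb E x * H7.nb E y :=
  ⟨fun _ => rfl, H7.nb_galois E, H7.exists_nb_mul_le E⟩

/-- **A ball around 1.** For small `ρ > 0` (`H7.Small E F ρ`: `0 ≤ ρ` and `C ρ < 1`, `C` the constant of
`lattice_norm`) the set `V = {u : nb (u - 1) ≤ ρ}` is a subgroup of `Fˣ`. (`H7LocLattice`) -/
theorem ball_around_one :
    (∃ ρ : ℝ, 0 < ρ ∧ H7.Small E F ρ) ∧
    ∀ (ρ : ℝ) (hρ : H7.Small E F ρ) (u : Fˣ), u ∈ H7.V E hρ ↔ H7.nb E ((u : F) - 1) ≤ ρ :=
  ⟨H7.exists_small_pos E, fun _ hρ _ => H7.mem_V E hρ⟩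

/-- **`Ĥ⁰(G, V) = 0`**: every `G`-invariant element of `V` is the norm of an element of `V`. Proof:
`1 + x` invariant, then `x` is the trace of some `y` with `nb y ≤ nb x` (all coordinates of `x` are equal),
and `N(1 + y) = 1 + x + O(nb(x)²)`; iterate and use compactness. (`H7LocCoh`) -/
theorem ball_norm_surjective {ρ : ℝ} (hρ : H7.Small E F ρ) (u : Fˣ) (hu : u ∈ H7.V E hρ)
    (hfix : ∀ σ : Gal(F/E), σ (u : F) = u) :
    ∃ v ∈ H7.V E hρ, ∏ τ : Gal(F/E), τ (v : F) = u :=
  let ⟨v, hv, h⟩ := H7.exists_Nm_eq E hρ u hu hfix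
  ⟨v, hv, by rw [← H7.coe_Nm, h]⟩

/-- **`Ĥ⁻¹(G, V) = 0`** for `G` cyclic with generator `σ`: an element of `V` of norm `1` is `σ(v)/v` with
`v ∈ V`. The same method, with `σ(y) - y` instead of the trace. (`H7LocCoh`) -/
theorem ball_hilbert90 {ρ : ℝ} (hρ : H7.Small E F ρ) (σ : Gal(F/E))
    (hσ : ∀ τ : Gal(F/E), τ ∈ Subgroup.zpowers σ) (u : Fˣ) (hu : u ∈ H7.V E hρ)
    (hN : ∏ τ : Gal(F/E), τ (u : F) = 1) : ∃ v ∈ H7.V E hρ, σ (v : F) / v = u :=
  let ⟨v, hv, h⟩ := H7.exists_Df_eq E hρ σ hσ u hu (Units.ext (by rw [H7.coe_Nm, hN, Units.val_one]))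
  ⟨v, hv, by rw [← H7.coe_Df, h]⟩

end Local

/-- **The norm index of a cyclic extension of local fields**: `[Eˣ : N Fˣ] = [F : E]`. Proof: the subgroup
`B = ⟨π⟩ × V` of `Fˣ` (`π ∈ E`, `|π| < 1`, `V` the ball above) has finite index; its Herbrand quotient is
that of `⟨π⟩` with trivial action, which is `[F : E]`; by `herbrand_lemma` this is the Herbrand quotient of
`Fˣ`; Hilbert 90. (`H7LocIndex`; the norm on `F` is supplied in `H65LocIndex`) -/
theorem norm_index (E F : Type) [NontriviallyNormedField E] [IsUltrametricDist E] [ProperSpace E]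
    [Field F] [Algebra E F] [FiniteDimensional E F] [IsGalois E F] [IsCyclic Gal(F/E)] :
    (Units.map (Algebra.norm E : F →* E)).range.index = Module.finrank E F :=
  H65.index_norm_field E F

/-- **Roots near 1**, with a radius: if `|w - 1| ≤ |n| ρ` with `ρ < 1` and `ρ < |n|`, then `w = v^n` with
`|v - 1| ≤ ρ`. (`H7LocPow`) -/
theorem root_near_one {E : Type*} [NontriviallyNormedField E] [IsUltrametricDist E] [ProperSpace E]
    (n : ℕ) {ρ : ℝ} (hρ0 : 0 ≤ ρ) (hρ : ρ < 1) (hρn : ρ < ‖(n : E)‖) (w : Eˣ)
    (hw : ‖(w : E) - 1‖ ≤ ‖(n : E)‖ * ρ) : ∃ v : Eˣ, ‖(v : E) - 1‖ ≤ ρ ∧ v ^ n = w :=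
  H7.root_exists n hρ0 hρ hρn w hw

/-- **The index of the `n`-th powers**: `[Eˣ : (Eˣ)ⁿ] = #μ_n(E) · n · [O_E : n O_E]` for `n ≠ 0` in `E`
(`H7.Bl E r`: the closed ball of radius `r`, an additive group). Again `herbrand_lemma`, with `f` the
`n`-th power and `g = 1`. (`H7LocPow`; for `E` of degree `d` over `ℚ_p` and `n = p` the last factor is
`p^d`: `H7LocPowPadic`, `GuidePoitouTate.local_power_index_self`) -/
theorem index_powers (E : Type*) [NontriviallyNormedField E] [IsUltrametricDist E] [ProperSpace E]
    (n : ℕ) (hn : (n : E) ≠ 0) :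
    (powMonoidHom n : Eˣ →* Eˣ).range.index = Nat.card (powMonoidHom n : Eˣ →* Eˣ).ker *
      (n * (H7.Bl E ‖(n : E)‖ (norm_nonneg _)).relIndex (H7.Bl E 1 zero_le_one)) :=
  H7.index_pow E n hn

/-! ### 3. Completions through two properties -/

/-- **Models of `K_v`.** `LocModel v E`: `K` is dense in `E`, and the norm of `E` is given on `K` by the
valuation `v` (`|x| = e^(-v(x))` in additive notation, for some `e > 1`). (`H65Bridge`) -/
theorem locModel_iff {K : Type*} [Field K] (v : Valuation K ℤᵐ⁰) (E : Type*) [NormedField E]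
    [Algebra K E] : H65.LocModel v E ↔ DenseRange (algebraMap K E) ∧
      ∃ (e : ℝ≥0) (he : 1 < e), ∀ x : K,
        ‖algebraMap K E x‖ = (WithZeroMulInt.toNNReal he.ne_zero (v x) : ℝ) :=
  ⟨fun h => ⟨h.1, h.2⟩, fun h => ⟨h.1, h.2⟩⟩

section Model

variable {K : Type*} [Field K] [NumberField K] {v : HeightOneSpectrum (𝓞 K)}
  {E : Type*} [NontriviallyNormedField E] [CompleteSpace E] [IsUltrametricDist E] [Algebra K E]

/-- **The completion is a model**: `K_v` of Mathlib with its norm. (`H65Adic`) Another model is the subfield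
`ℚ_q(j(K))` of `ℚ̄_q` for an embedding `j : K → ℚ̄_q` at `v` (`GuideDecomposition.completion_at_embedding`,
`GuideDecomposition.norm_formula`). -/
theorem completion_isModel : H65.LocModel (v.valuation K) (v.adicCompletion K) :=
  H65.locModel_adicCompletion v

/-- **Local compactness.** A complete model of the completion of a number field is locally compact: the
unit ball is totally bounded, because `𝓞 K / v^n` is finite for all `n`. (`H65Adic`) -/
theorem properSpace_of_model (h : H65.LocModel (v.valuation K) E) : ProperSpace E :=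
  H65.properSpace_of_locModel h

omit [IsUltrametricDist E] [Algebra K E] in
/-- **`p`-th powers are open at 1** if `p ≠ 0` in `E` (inverse function theorem). (`H65Bridge`) -/
theorem exists_power_radius {p : ℕ} (hp : (p : E) ≠ 0) :
    ∃ ε : ℝ, 0 < ε ∧ ∀ u : E, ‖u - 1‖ < ε → ∃ y : E, y ^ p = u :=
  H65.exists_pow_radius hp

end Model

/-! ### 4. Splitting and roots -/

section Split

variable {K L : Type*} [Field K] [NumberField K] [Field L] [NumberField L] [Algebra K L]
  {v : HeightOneSpectrum (𝓞 K)}

/-- In a Galois extension of prime degree `p` there is one place above `v`, or there are `p` of them.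
(`H65FirstB`) -/
theorem one_or_p_places [IsGalois K L] {p : ℕ} (hp : p.Prime) (hL : finrank K L = p)
    (v : HeightOneSpectrum (𝓞 K)) : (above L v).ncard = 1 ∨ (above L v).ncard = p :=
  H65.ncard_above_eq_one_or hp hL v

/-- **An embedding `L → K_v` over `K` makes `v` split**: if `L/K` is Galois of degree `p` and embeds in a
model `E` of `K_v`, there are `p` places above `v`. Proof: the prime `P = {x : |τ(x)| < 1}` of `L` lies
above `v`; `e(P) = 1` because `K` and `E` have the same value group, `f(P) = 1` because `K` is dense in `E`;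
`e f g = p`. (`H65Split`) -/
theorem p_places_of_embedding {E : Type*} [NormedField E] [IsUltrametricDist E] [Algebra K E]
    [IsGalois K L] {p : ℕ} (hL : finrank K L = p) (h : H65.LocModel (v.valuation K) E) (τ : L →+* E)
    (hτ : ∀ x : K, τ (algebraMap K L x) = algebraMap K E x) : (above L v).ncard = p :=
  H65.ncard_above_of_embedding hL h τ hτ

/-- **Approximate roots.** If `v` is not nonsplit in `L/K` (Galois of prime degree `p`) and `β^p = b` with
integral `β ∈ L`, `b ∈ K`, then for every `n` there is an integral `a ∈ K` with `b ≡ a^p mod v^n`: choose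
`w` above `v`; `e(w) = f(w) = 1`, so `β` is congruent to an element of `𝓞 K` modulo `w^n`. (`H65Split`) -/
theorem approximate_root [IsGalois K L] {p : ℕ} (hp : p.Prime) (hL : finrank K L = p)
    (hns : ¬ NonSplit L v) {β : 𝓞 L} {b : 𝓞 K} (hβ : β ^ p = algebraMap (𝓞 K) (𝓞 L) b) (n : ℕ) :
    ∃ a : 𝓞 K, v.intValuation (b - a ^ p) ≤ exp (-(n : ℤ)) :=
  H65.exists_approx_root hp hL hns hβ n

/-- **A root in `K_v`.** In the same situation (without integrality) `b` is a `p`-th power in every complete
model `E` of `K_v`: `b / a^p` is close to `1` for a good approximate root `a`. (`H65Split`) -/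
theorem root_of_split {E : Type*} [NontriviallyNormedField E] [CompleteSpace E] [Algebra K E]
    [IsGalois K L] {p : ℕ} (hp : p.Prime) (hL : finrank K L = p) (hns : ¬ NonSplit L v) {β : L} {b : K}
    (hβ : β ^ p = algebraMap K L b) (h : H65.LocModel (v.valuation K) E) (hpE : (p : E) ≠ 0) :
    ∃ y : E, y ^ p = algebraMap K E b :=
  H65.exists_pow_of_not_nonSplit hp hL hns hβ h hpE

/-- **Nonsplit means no root.** `L = K(β)` Galois of prime degree `p`, `β^p = b`: `v` is nonsplit in `L` if
and only if `b` is not a `p`-th power in the complete model `E` of `K_v`. (`H65Split`; one direction is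
`root_of_split`, the other one `embedding_of_root` and `p_places_of_embedding`) -/
theorem nonSplit_iff_no_root {E : Type*} [NontriviallyNormedField E] [CompleteSpace E]
    [IsUltrametricDist E] [Algebra K E] [IsGalois K L] {p : ℕ} (hp : p.Prime) (hL : finrank K L = p)
    {β : L} {b : K} (hβ : β ^ p = algebraMap K L b) (hgen : K⟮β⟯ = ⊤)
    (h : H65.LocModel (v.valuation K) E) (hpE : (p : E) ≠ 0) :
    NonSplit L v ↔ ¬ ∃ y : E, y ^ p = algebraMap K E b :=
  H65.nonSplit_iff hp hL hβ hgen h hpE

end Split

/-- `L = K(β)` of prime degree `p`, `β^p = b`, embeds in every extension field of `K` which contains a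
`p`-th root `y` of `b`, with `β ↦ y`. (`H65Split`) -/
theorem embedding_of_root {K L E : Type*} [Field K] [Field L] [Algebra K L] [Field E] [Algebra K E]
    {p : ℕ} (hp : p.Prime) (hL : finrank K L = p) {β : L} {b : K} (hβ : β ^ p = algebraMap K L b)
    (hgen : K⟮β⟯ = ⊤) {y : E} (hy : y ^ p = algebraMap K E b) : ∃ τ : L →ₐ[K] E, τ β = y :=
  H65.exists_algHom_of_pow hp hL hβ hgen hy

/-! ### 5. Local norms in `Kˣ`

If `L/K` is Galois of prime degree `p` and `ζ_p ∈ K`, then `L = K(β)` with `β^p = b ∈ K` (Mathlib;
`H65.exists_kummer_generator`). -/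

section Norms

variable {K L : Type} [Field K] [NumberField K] [Field L] [NumberField L] [Algebra K L]
  {v : HeightOneSpectrum (𝓞 K)}
  {E : Type} [NontriviallyNormedField E] [CompleteSpace E] [IsUltrametricDist E] [Algebra K E]

omit [NumberField L] in
/-- **Local norms with and without completions.** `L = K(β)` and `F = E(γ)` of degree `p`, `β^p = b = γ^p`,
`E` a complete model of `K_v`. An element `x` of `Kˣ` is in `N(Lˣ) (1 + v^m)` for all `m` if and only if it
is a norm from `F`. (⇒: `1 + v^m` consists of `p`-th powers of `E` for large `m`, and `N_{F/E}(y) = y^p` for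
`y ∈ E`. ⇐: the norm is a polynomial in the coordinates with respect to the powers of `γ`, hence
continuous, and `K` is dense.) (`H65Bridge`, `H65LocIndex`) -/
theorem mem_all_locNorm_iff {F : Type*} [Field F] [Algebra E F] {p : ℕ} (hp : p.Prime)
    (hL : finrank K L = p) {β : L} {b : K} (hβ : β ^ p = algebraMap K L b) (hgen : K⟮β⟯ = ⊤)
    (hF : finrank E F = p) {γ : F} (hγ : γ ^ p = algebraMap E F (algebraMap K E b))
    (hgenF : E⟮γ⟯ = ⊤) (h : H65.LocModel (v.valuation K) E) (hpE : (p : E) ≠ 0) (x : Kˣ) :
    (∀ m : ℕ, x ∈ locNorm L v m) ↔ ∃ z : F, Algebra.norm E z = algebraMap K E x :=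
  H65.forall_mem_locNorm_iff_field hp hL hβ hgen hF hγ hgenF h hpE x

/-- **`K_vˣ = Kˣ (K_vˣ)^p`.** (`H65LocIndex`) -/
theorem exists_mul_power (h : H65.LocModel (v.valuation K) E) {p : ℕ} (hpE : (p : E) ≠ 0) (y : Eˣ) :
    ∃ (x : Kˣ) (z : Eˣ), y = Units.map (algebraMap K E : K →* E) x * z ^ p :=
  H65.exists_mul_pow h hpE y

/-- **Index of a preimage.** A subgroup of `Eˣ` which contains all `p`-th powers has the same index as its
preimage in `Kˣ`. With `norm_index`, `nonSplit_iff_no_root` and `mem_all_locNorm_iff` this gives (L) of the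
header. (`H65LocIndex`) -/
theorem index_of_preimage (h : H65.LocModel (v.valuation K) E) {p : ℕ} (hpE : (p : E) ≠ 0)
    {N : Subgroup Eˣ} (hN : ∀ z : Eˣ, z ^ p ∈ N) :
    (N.comap (Units.map (algebraMap K E : K →* E))).index = N.index :=
  H65.index_comap_of_pow_le h hpE hN

/-- **Not everything is a local norm**: for nonsplit `v` the subgroups `locNorm L v m` are proper for large
`m`. (`H65Adic`; from (L)) -/
theorem locNorm_ne_top [IsGalois K L] {p : ℕ} (hp : p.Prime) (hL : finrank K L = p) {ζ : K}
    (hζ : IsPrimitiveRoot ζ p) (hns : NonSplit L v) : ∃ m₀, ∀ m, m₀ ≤ m → locNorm L v m ≠ ⊤ :=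
  H65.exists_locNorm_ne_top' hp hL hζ hns

end Norms

/-! ### 6. The Herbrand quotient of the T-units -/

/-- **Ranks.** `K` totally complex, `L/K` finite: `rank 𝓞_L^× + 1 = [L : K] (rank 𝓞_K^× + 1)`; indeed
`2 (rank + 1)` is the degree over `ℚ`. (`H65FirstA`) -/
theorem rank_succ (K L : Type*) [Field K] [NumberField K] [Field L] [NumberField L] [Algebra K L]
    [IsTotallyComplex K] : 2 * (NumberField.Units.rank K + 1) = finrank ℚ K ∧
      NumberField.Units.rank L + 1 = finrank K L * (NumberField.Units.rank K + 1) :=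
  ⟨H65.two_mul_rank_succ K, H65.rank_succ_mul K L⟩

/-- **Counting the places above `T`**: `#T_L + (p - 1) #{v ∈ T nonsplit} = p #T`. (`H65FirstB`, from
`one_or_p_places`) -/
theorem count_places {K L : Type*} [Field K] [NumberField K] [Field L] [NumberField L] [Algebra K L]
    [IsGalois K L] {p : ℕ} (hp : p.Prime) (hL : finrank K L = p) {T : Set (HeightOneSpectrum (𝓞 K))}
    (hT : T.Finite) :
    (aboveSet L T).ncard + (p - 1) * {v ∈ T | NonSplit L v}.ncard = p * T.ncard :=
  H65.ncard_aboveSet hp hL hT

/-- **Powers of `T`-units**: `[E_T : E_T^n] / #E_T[n] = n^(r + #T)`, `r` the rank of the units.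
(`H47TUnits`) -/
theorem index_powers_T_units (K : Type*) [Field K] [NumberField K] (T : Set (HeightOneSpectrum (𝓞 K)))
    [Finite T] {n : ℕ} (hn : n ≠ 0) :
    (powMonoidHom n : T.unit K →* T.unit K).range.index =
      n ^ (NumberField.Units.rank K + Nat.card T) *
        Nat.card (powMonoidHom n : T.unit K →* T.unit K).ker :=
  H47.index_range_pow_unit K T hn

/-- **Hilbert 90 for `T`-units.** `L/K` cyclic with generator `g`, unramified outside `T`, the `T`-class
group of `K` trivial. A `T`-unit of `L` of norm `1` is `g(z)/z` with a `T`-unit `z`. Proof: Hilbert 90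
gives `z ∈ Lˣ`; its divisor outside `T` is invariant under `Gal(L/K)`, hence (no ramification) comes from a
divisor of `K`, which is principal outside `T`; divide `z` by a generator. (`H47TClass`) -/
theorem hilbert90_T_units {K L : Type} [Field K] [Field L] [NumberField L] [Algebra K L]
    [NumberField K] [IsGalois K L] [IsCyclic (L ≃ₐ[K] L)] {g : L ≃ₐ[K] L}
    (hg : ∀ x, x ∈ Subgroup.zpowers g) {T : Set (HeightOneSpectrum (𝓞 K))} (hT : ClTrivial T)
    (hunr : ∀ v ∉ T, ∀ w ∈ above L v, v.asIdeal.ramificationIdx' w.asIdeal = 1)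
    {u : Lˣ} (hu : u ∈ (aboveSet L T).unit L) (hN : Algebra.norm K (u : L) = 1) :
    ∃ z ∈ (aboveSet L T).unit L, Units.map (g : L →* L) z / z = u :=
  H47.hilbert90_unit hg hT hunr hu hN

/-- **The arithmetic of (U).** `a, b`: the ranks of the units of `K` and `L`; `t, t'`: the numbers of
places in `T` and above `T`; `ns`: the number of nonsplit places in `T`; `kG, kF`: the numbers of the
`p`-torsion elements. `h1` is `rank_succ`, `h2` is `count_places`, `h` is `herbrand_prime` for
`G = E_{L,T}` with `[ker N : D G] = 1` and `index_powers_T_units`; the conclusion for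
`h0 = [E_{K,T} : N E_{L,T}]` is `h0 p = p^ns`, that is (U) of the header. (`H65First`) -/
theorem arithmetic_of_first_inequality {p a b t t' ns h0 kG kF : ℕ} (hp : 1 < p) (hkG : kG ≠ 0)
    (hkF : kF ≠ 0) (h1 : b + 1 = p * (a + 1)) (h2 : t' + (p - 1) * ns = p * t)
    (h : h0 ^ (p - 1) * (p ^ (b + t') * kG) * kF ^ p =
      1 ^ (p - 1) * kG * (p ^ (a + t) * kF) ^ p) : h0 * p = p ^ ns :=
  H65.arith_final hp hkG hkF h1 h2 h

end Fermat.Agent.Guide.LocalNorms
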