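import Fermat.Agent.H12FCard

set_option autoImplicit false

/-!
# Reader's guide: cusp forms modulo `r` as logarithmic differentials (inputs of S15)

**What this file is.** Every theorem below is *proved by citing the library*; the statement is written out in
full. No other module imports this file. It gives the details of section 1 of `GuideEisenstein`.

**What the block does.** Let `N` and `r ≠ N` be primes, `A` a place of `ℚ̄` above `r` with residue field
`k`, `J = J₀(N)(ℚ̄)`, `K_A` the kernel of the reduction `J → J̄` at `A`, and `W_j` the part of `J[r^j]` killed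
by a power of the Eisenstein ideal; `|W_j| = r^{2tj}`, where `t` is the dimension of the Eisenstein part of
the cusp forms modulo `r`. The theorem is `|W_j ∩ K_A| ≤ r^{tj}` (`kernel_part`: the reduction is ordinary on
the Eisenstein part). In the literature one uses the finite flat group scheme `J[r]` at `r` and the
isomorphism between the `r`-torsion of `J̄` and the logarithmic differentials. Here:
* there are `r^t` forms `f` in the Eisenstein part with `T_r f = f^{(r)}`, that is `a_{rn} = a_n^r`
  (section 1, with Lang's lemma: `GuideEisenstein.lang`);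
* `f dq/q` is a differential `g dj` of the modular function field (section 2) and equals `dh/h` for a modular
  function `h` (section 3; replaces the Cartier operator);
* the divisor of `h` is divisible by `r` (`GuideLogFormTrace`);
* so `div(h)/r` is an `r`-torsion class of `J̄`; it lifts to `J[r]` (`K_A` is divisible), even to `W_1`, and
  different forms give different classes; so `|W_1| ≥ |W_1 ∩ K_A| r^t` (section 4).

Everything is in the closure of S15, S12, S09, S03 and S01. Authors: helper9 (section 1, `theta_norm`),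
helper98 (sections 2, 3), helper12 (section 4). In the NOTES: [82] MAZUR-F1-J2, [103] MAZUR-F1, [227].

**Notation.** `H1.thetaL k` and `H61.theta` are both `θ = q d/dq` on Laurent series; `jqModC k` is the
`q`-expansion of `j` over `k`; `modularFunctionFieldFullC k N` is the field of modular functions of level `N`
over `k`, a subfield of `k((q))` (see `GuideModularCurves`); `JZeroC k N` is the group of divisor classes of
degree zero of this field, `JZero N` that of the field over `ℚ̄`. The space `H15.S2 N k` of cusp forms modulo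
`r` and its Eisenstein part `H15.EisPart N k` are unfolded in `GuideEisenstein` (`S2_eq`, `mem_eisPart_iff`).
-/

namespace Fermat.Agent.Guide.LogForm

open ModularCurve AlgebraicCurve CongruenceSubgroup
open Fermat.Agent.H15 (Qb)

/-! ## Section 1.  Eisenstein forms with `T_r f = f^{(r)}` -/

/-- The operator `H15.Tq k q = T_q` of weight two on power series: `a_n(T_q f) = a_{qn}(f) + q a_{n/q}(f)`. -/
theorem coeff_hecke {k : Type} [Field k] (q : ℕ) (f : PowerSeries k) (n : ℕ) :
    PowerSeries.coeff n (H15.Tq k q f) =
      PowerSeries.coeff (q * n) f + if q ∣ n then (q : k) * PowerSeries.coeff (n / q) f else 0 :=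
  H9.coeff_Tq q n f

/-- In characteristic `r` the operator `T_r` is `a_n ↦ a_{rn}`. So `a_{rn} = a_n^r` for all `n` says that
`T_r f = f^{(r)}`, where `f^{(r)}` is `f` with the `r`-th powers of its coefficients. File `H9F1b`. -/
theorem hecke_eq_frobenius_iff {r : ℕ} [Fact r.Prime] {k : Type} [Field k] [CharP k r]
    (f : PowerSeries k) :
    H15.Tq k r f = PowerSeries.map (frobenius k r) f ↔
      ∀ n : ℕ, PowerSeries.coeff (r * n) f = (PowerSeries.coeff n f) ^ r :=
  H9.Tr_eq_Fr_iff f

/-- The Eisenstein part is stable under the Frobenius of the coefficients: the space `S2` is, because it is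
spanned by reductions of forms with integral coefficients, which are fixed, and the operators `T_q - 1 - q`
commute with it. File `H9F1b`. -/
theorem frobenius_mem_eisPart {N : ℕ} [NeZero N] {r : ℕ} [Fact r.Prime] {k : Type} [Field k] [CharP k r]
    {f : PowerSeries k} (hf : f ∈ H15.EisPart N k) :
    PowerSeries.map (frobenius k r) f ∈ H15.EisPart N k :=
  H9.Fr_mem_EisPart hf

/-- **`T_r` is injective on the Eisenstein part**: if `T_r f = 0`, then `T_r - 1 - r = T_r - 1` acts as `-1`
on `f`, and a power of it kills `f`. With Lang's lemma one gets a basis of forms with `T_r f = f^{(r)}`, hence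
`r^t` such forms: `GuideEisenstein.exists_frobenius_forms`. File `H9F1b`. -/
theorem hecke_injective {N : ℕ} [NeZero N] {r : ℕ} [Fact r.Prime] {k : Type} [Field k] [CharP k r]
    (hrN : r ≠ N) {f : PowerSeries k} (hf : f ∈ H15.EisPart N k) (h0 : H15.Tq k r f = 0) : f = 0 :=
  H9.eq_zero_of_Tr_eq_zero hrN hf h0

/-- Unfolding of `H12F.V0`: the forms `f = ∑ a_n qⁿ` in the Eisenstein part with `a_{rn} = a_n^r` for all
`n`. File `H12FDefs`. -/
theorem mem_V0_iff (N r : ℕ) (k : Type) [Field k] [Fact r.Prime] [CharP k r] (f : PowerSeries k) :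
    f ∈ H12F.V0 N r k ↔ f ∈ H15.EisPart N k ∧
      ∀ n : ℕ, PowerSeries.coeff (r * n) f = (PowerSeries.coeff n f) ^ r :=
  Iff.rfl

/-- The Hecke operators `T_q`, `q ≠ N` (also `q = r`), preserve the group `V0`. File `H9F1b`. -/
theorem hecke_mem_V0 {N : ℕ} [NeZero N] {r : ℕ} [Fact r.Prime] {k : Type} [Field k] [CharP k r]
    (hN : N.Prime) {q : ℕ} (hq : q.Prime) (hqN : q ≠ N) {f : PowerSeries k} (hf : f ∈ H12F.V0 N r k) :
    H15.Tq k q f ∈ H12F.V0 N r k :=
  H9.Tq_mem_V0 hN hq hqN hf

/-! ## Section 2.  Forms modulo `r` are differentials -/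

/-- `θ = q d/dq` on Laurent series, a derivation. File `H1Theta`. -/
theorem theta_coeff {R : Type*} [CommRing R] (x y : LaurentSeries R) (n : ℤ) :
    (H1.thetaL R x).coeff n = n * x.coeff n ∧
      H1.thetaL R (x * y) = H1.thetaL R x * y + x * H1.thetaL R y :=
  ⟨H1.thetaL_coeff x n, H1.thetaL_mul x y⟩

/-- `θj = -q⁻¹ + ...` is a unit in the ring of Laurent series with integral coefficients. So the quotient of
a form with integral coefficients by `θj` has integral coefficients and can be reduced. File `H98Diff`. -/
theorem theta_j_unit : IsUnit (H1.thetaL ℤ (jqModC ℤ)) :=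
  H98.isUnit_thetaL_jqModC_int

/-- **Characteristic zero.** If `F` is a cusp form of weight two on `Γ₀(N)` with integral coefficients, then
the quotient `y = F/θj` is in the field of modular functions of level `N` over `ℚ̄`. (`F/θj` is a modular
function on the upper half plane and its `q`-expansion has algebraic coefficients; `H45FormFun`.) File
`H98Diff`. -/
theorem quotient_char_zero (N : ℕ) [NeZero N] (F : CuspForm (Gamma0 N) 2) (G : PowerSeries ℤ)
    (hG : ∀ n : ℕ, ModularFormClass.qCoeff F n = ((PowerSeries.coeff n G : ℤ) : ℂ))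
    {y : LaurentSeries ℤ} (hy : y * H1.thetaL ℤ (jqModC ℤ) = HahnSeries.ofPowerSeries ℤ ℤ G) :
    coeffMap (Int.castRingHom (AlgebraicClosure ℚ)) y ∈ modularFunctionFieldFullC (AlgebraicClosure ℚ) N :=
  H98.quot_mem_full N F G hG hy

/-- **Reduction.** If a series `y` with integral coefficients is a modular function of level `N` over `ℚ̄`,
then its reduction is a modular function of level `N` over every algebraically closed field of characteristic
`r ∤ N`. (By `GuideReduction.reduction_mem`: the degree over `k(j)` of the reduced field is again the index of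
`Γ₀(N)`.) The last three theorems give `GuideEisenstein.exists_function_of_S2`. File `H98Diff`. -/
theorem quotient_mod_r {r : ℕ} [Fact r.Prime] (k : Type) [Field k] [CharP k r] [IsAlgClosed k]
    (N : ℕ) [NeZero N] (hN : (N : k) ≠ 0) {y : LaurentSeries ℤ}
    (hy : coeffMap (Int.castRingHom (AlgebraicClosure ℚ)) y ∈
      modularFunctionFieldFullC (AlgebraicClosure ℚ) N) :
    coeffMap (Int.castRingHom k) y ∈ modularFunctionFieldFullC k N :=
  H98.quot_mem_full_mod (r := r) k N hN hy

/-! ## Section 3.  Logarithmic forms -/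

/-- The logarithmic derivative of `1 - c Xⁿ` is `-n ∑_{i ≥ 1} cⁱ X^{ni}`. File `H98Log`. -/
theorem log_derivative_factor {k : Type*} [Field k] (n : ℕ) (hn : 0 < n) (c : k) :
    (PowerSeries.mk fun m => if n ∣ m ∧ m ≠ 0 then -(n : k) * c ^ (m / n) else 0) *
        (1 - PowerSeries.C c * PowerSeries.X ^ n) =
      PowerSeries.mk fun m => (m : k) *
        PowerSeries.coeff m (1 - PowerSeries.C c * PowerSeries.X ^ n) :=
  H98.EE_mul n hn c

/-- In characteristic `r` let `f` be a power series with `a_0 = 0` and `a_{rn} = a_n^r` for all `n`. Then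
`f = θH/H` for a power series `H` with constant term `1`. (`H` is an infinite product of factors `1 - c Xⁿ`,
`n` prime to `r`, found coefficient by coefficient; the coefficients of index divisible by `r` are then right
by the hypothesis.) File `H98Log`. -/
theorem exists_log_series {k : Type*} [Field k] (r : ℕ) [Fact r.Prime] [CharP k r] {f : PowerSeries k}
    (h0 : PowerSeries.coeff 0 f = 0)
    (hf : ∀ n : ℕ, PowerSeries.coeff (r * n) f = (PowerSeries.coeff n f) ^ r) :
    ∃ H : PowerSeries k, PowerSeries.constantCoeff H = 1 ∧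
      (PowerSeries.mk fun n => (n : k) * PowerSeries.coeff n H) = f * H :=
  H98.exists_thP_eq r ⟨h0, hf⟩

/-- In characteristic `r` the `r`-th iterate of a derivation is a derivation (the middle binomial
coefficients vanish). File `H98Log`. -/
theorem iterate_derivation {L : Type*} [Field L] (D : L →+ L)
    (hD : ∀ x y, D (x * y) = D x * y + x * D y) (r : ℕ) [Fact r.Prime] [CharP L r] (x y : L) :
    D^[r] (x * y) = D^[r] x * y + x * D^[r] y :=
  H98.iterate_char_mul D hD r x y

/-- A derivation of `k((q))`, `k` perfect of characteristic `r`, which kills an element `j` with `θj ≠ 0` is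
zero. (`k((q))` is the direct sum of the `qⁱ k((q))^r`, `0 ≤ i < r`, so a derivation is determined by its
value at `q`.) File `H98Log`. -/
theorem derivation_eq_zero {k : Type*} [Field k] (r : ℕ) [Fact r.Prime] [NeZero r] [CharP k r]
    [PerfectRing k r] (δ : LaurentSeries k →+ LaurentSeries k)
    (hδ : ∀ x y, δ (x * y) = δ x * y + x * δ y) {j : LaurentSeries k} (hj : δ j = 0)
    (hθ : H1.thetaL k j ≠ 0) (x : LaurentSeries k) : δ x = 0 :=
  H98.der_eq_zero r δ hδ hj hθ x

/-- The derivation `d/dj = (θj)⁻¹ θ` (`H1.ddX j`) satisfies `(d/dj)^r = 0`: its `r`-th iterate is a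
derivation which kills `j`. File `H98Log`. -/
theorem iterate_ddj {k : Type*} [Field k] {r : ℕ} [Fact r.Prime] [NeZero r] [CharP k r] [PerfectRing k r]
    {j : LaurentSeries k} (hθ : H1.thetaL k j ≠ 0) (x : LaurentSeries k) :
    (H1.ddX j)^[r] x = 0 ∧ H1.ddX j x = H1.thetaL k x / H1.thetaL k j :=
  ⟨H98.iterate_ddX_eq_zero hθ x, H1.ddX_apply j x⟩

/-- The modular function field `κ` over an algebraically closed field `k` of characteristic `r ∤ M` is
generated by `κ^r` and `j` (`κ` is separable over `k(j)`). File `H33Sat`. -/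
theorem generated_by_powers {k : Type*} [Field k] (r : ℕ) [Fact r.Prime] [CharP k r] [IsAlgClosed k]
    (M : ℕ) [NeZero M] (hM : (M : k) ≠ 0) :
    (modularFunctionFieldFullC k M).toSubfield ≤ Subfield.closure
      ((fun x => x ^ r) '' ((modularFunctionFieldFullC k M).toSubfield : Set (LaurentSeries k)) ∪
        {jqModC k}) :=
  H33.mem_closure_pow r M hM

/-- **Logarithmic forms** in a subfield `κ` of `k((q))` which is generated by `κ^r` and `j`: if `f = g θj`
with `g ∈ κ` and `a_{rn} = a_n^r`, then `θh = f h` for some `h ≠ 0` in `κ`. Proof: put `D = d/dj` and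
`T(y) = Dy - g y`; both preserve `κ`. With `H` of `exists_log_series`, `T(Hy) = H Dy`, so `T^r = 0` by
`iterate_ddj`; let `h` be the last nonzero one of `1, T(1), T²(1), …`. File `H98Log`. For the modular function
field: `GuideEisenstein.exists_log_form`. -/
theorem exists_log_form_of_subfield {k : Type*} [Field k] (r : ℕ) [Fact r.Prime] [CharP k r]
    (κ : Subfield (LaurentSeries k)) [PerfectRing k r] {j : LaurentSeries k} (hj : j ∈ κ)
    (hθ : H1.thetaL k j ≠ 0)
    (hgen : κ ≤ Subfield.closure ((fun x => x ^ r) '' (κ : Set (LaurentSeries k)) ∪ {j}))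
    {f : PowerSeries k} (h0 : PowerSeries.coeff 0 f = 0)
    (hf : ∀ n, PowerSeries.coeff (r * n) f = PowerSeries.coeff n f ^ r)
    {g : LaurentSeries k} (hg : g ∈ κ) (hfg : HahnSeries.ofPowerSeries ℤ k f = g * H1.thetaL k j) :
    ∃ h ∈ κ, h ≠ 0 ∧ H1.thetaL k h = HahnSeries.ofPowerSeries ℤ k f * h :=
  H98.exists_log_form_aux r κ hj hθ hgen ⟨h0, hf⟩ hg hfg

/-! ## Section 4.  From logarithmic forms to torsion points

`H33.IsKum n y s` says that `s` is a *Kummer function* of the class `y`: `s ≠ 0` has divisor `n D` with `D` in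
the class `y` (unfolded in `rel_iff`). -/

/-- Unfolding of `H12F.RedOf`: the modular function `s` over `k` is a reduction of the modular function `u`
over `ℚ̄`: up to a constant `c` (`H33.cst c` is the constant series), `u` is a quotient of series with
coefficients in `A` and nonzero reductions, and `s` is the quotient of their reductions; these series and
their reductions are modular functions (`H18.IsInt`). File `H12FRed`. -/
theorem redOf_iff {A : ValuationSubring (AlgebraicClosure ℚ)} {k : Type*} [Field k] (π : A →+* k) (N : ℕ)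
    (u : laurentBaseChange (AlgebraicClosure ℚ) (modularFunctionFieldFull N))
    (s : modularFunctionFieldFullC k N) : H12F.RedOf π N u s ↔
      ∃ (c : AlgebraicClosure ℚ) (g h : LaurentSeries A), c ≠ 0 ∧ H18.IsInt π N g ∧ H18.IsInt π N h ∧
        coeffMap π g ≠ 0 ∧ coeffMap π h ≠ 0 ∧
        (u : LaurentSeries (AlgebraicClosure ℚ)) * coeffMap A.subtype h =
          H33.cst c * coeffMap A.subtype g ∧ (s : LaurentSeries k) * coeffMap π h = coeffMap π g :=
  Iff.rfl

/-- **Kummer functions reduce to Kummer functions**: a class `x` with `n x = 0` has a Kummer function `u` with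
a reduction `s` which is a Kummer function of the reduction of `x`. Here `ρ` is the reduction of places
(`GuideMazurJacobian.reduction_exists`), which preserves divisors. File `H12FRed`. -/
theorem exists_kummer_reduction {A : ValuationSubring (AlgebraicClosure ℚ)} {k : Type*} [Field k]
    {π : A →+* k} {N : ℕ}
    {ρ : Place (AlgebraicClosure ℚ) (laurentBaseChange (AlgebraicClosure ℚ) (modularFunctionFieldFull N)) →
      Place k (modularFunctionFieldFullC k N)}
    [H94.FunField (AlgebraicClosure ℚ)
      (laurentBaseChange (AlgebraicClosure ℚ) (modularFunctionFieldFull N))]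
    [HasPrincipalDivisors (AlgebraicClosure ℚ)
      (laurentBaseChange (AlgebraicClosure ℚ) (modularFunctionFieldFull N))]
    (hr : IsPlaceReductionAlong A π N ρ) (hgen : PrincipalGeneratedByIntegral A π N) {n : ℕ}
    {x : Pic0 (AlgebraicClosure ℚ) (laurentBaseChange (AlgebraicClosure ℚ) (modularFunctionFieldFull N))}
    (hx : n • x = 0) :
    ∃ u s, H33.IsKum n x u ∧ H12F.RedOf π N u s ∧ H33.IsKum n (reductionPic0Along ρ hr hgen x) s :=
  H12F.exists_redOf_isKum hr hgen hx

/-- Unfolding of `H12F.Rel`: the form `f` is attached to the class `y` of `J̄` if a function `s` with divisor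
`r D`, `D` in the class `y` (so `r y = 0`), satisfies `θs = f s`. File `H12FRel`. -/
theorem rel_iff {k : Type*} [Field k] {N : ℕ} (r : ℕ) (y : JZeroC k N) (f : LaurentSeries k) :
    H12F.Rel r y f ↔ ∃ s : modularFunctionFieldFullC k N,
      (s ≠ 0 ∧ ∃ D : Divisor.degZero (K := k) (F := modularFunctionFieldFullC k N), Pic0.mk D = y ∧
        ∀ v, (r : ℤ) * (D : Divisor k (modularFunctionFieldFullC k N)) v = v.ord s) ∧
      H61.theta (s : LaurentSeries k) = f * (s : LaurentSeries k) :=
  Iff.rfl

/-- The form attached to a class is unique: the function `s` is unique up to constants and `r`-th powers.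
File `H12FRel`. -/
theorem rel_unique {k : Type*} [Field k] {N : ℕ} {r : ℕ} [Fact r.Prime] [CharP k r] [IsAlgClosed k]
    [H94.FunField k (modularFunctionFieldFullC k N)] {y : JZeroC k N} {f f' : LaurentSeries k}
    (h : H12F.Rel r y f) (h' : H12F.Rel r y f') : f = f' :=
  h.unique h'

/-- A class with form `0` is zero: `θs = 0` means that `s` is an `r`-th power in `k((q))`, and then it is one
in the modular function field (`H33Sat`): `s = t^r`, so `r D = r div(t)`, `D = div(t)` and the class of `D` is
zero. File `H12FRel`. -/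
theorem rel_eq_zero {k : Type*} [Field k] {N : ℕ} {r : ℕ} [Fact r.Prime] [CharP k r] [IsAlgClosed k]
    [NeZero N] (hN : (N : k) ≠ 0) {y : JZeroC k N} (h : H12F.Rel r y 0) : y = 0 :=
  h.eq_zero hN

/-- **The multiplicative Hecke operator** on Laurent series over a domain with a primitive `q`-th root of
unity `ζ`: `H9.Tmul q ζ h = h(x^q) · ∏_{i < q} h(ζⁱ x^{1/q})`. If `θh = f h`, then its logarithmic derivative
is `T_q f` (`H9.TL q f = ∑ (a_{qn} + q a_{n/q}) xⁿ`). File `H9LogT`. -/
theorem theta_norm {R : Type*} [CommRing R] [IsDomain R] (q : ℕ) [NeZero q] (hq : (q : R) ≠ 0)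
    {ζ : Rˣ} (hζ : IsPrimitiveRoot ζ q) {f h : LaurentSeries R} (hf : H61.theta h = f * h) :
    H61.theta (H9.Tmul q ζ h) = H9.TL q f * H9.Tmul q ζ h :=
  H9.theta_Tmul q hq hζ hf

/-- **Hecke operators**: if `f` is attached to the reduction of `x ∈ J[r]`, then `T_q f` is attached to the
reduction of `T_q x`, `q ≠ r`, `q ∤ N`. (If `s` is a Kummer function of `x`, then `H9.Tmul q ζ s`, its norm
along the correspondence `T_q`, is one of `T_q x`; use `theta_norm`.) File `H12FMain`. -/
theorem rel_hecke (N : ℕ) [NeZero N] (r : ℕ) [Fact r.Prime] (A : ValuationSubring Qb) {q : ℕ}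
    (hq : q.Prime) (hqN : ¬ q ∣ N) (hrN : ¬ r ∣ N) (hqr : q ≠ r) (hA : A.LiesOverPrime r)
    [CharP (IsLocalRing.ResidueField A) r] {x : JZero N} (hx : r • x = 0)
    {f : LaurentSeries (IsLocalRing.ResidueField A)} (hf : H12F.Rel r (reductionModL A N x) f) :
    haveI : NeZero q := ⟨hq.ne_zero⟩
    H12F.Rel r (reductionModL A N (heckeOperatorBar N ⟨q, hq⟩ x)) (H9.TL q f) :=
  H12F.rel_hecke N r A hq hqN hrN hqr hA hx hf

/-- **The operator at `r`**: if `f` is attached to the reduction of `x ∈ J[r]`, then `f^{(r)}` is attached to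
that of `T_r x`. (Eichler-Shimura: `T_r = Frob + r Frob⁻¹` on the reduction, which is `Frob` on `r`-torsion.)
For `f ∈ V0` this is again `T_r f`. File `H12FMain`. -/
theorem rel_frobenius (N : ℕ) [NeZero N] (r : ℕ) [Fact r.Prime] (A : ValuationSubring Qb) (hrN : ¬ r ∣ N)
    (hA : A.LiesOverPrime r) [CharP (IsLocalRing.ResidueField A) r] {x : JZero N}
    (hx : r • x = 0) {f : LaurentSeries (IsLocalRing.ResidueField A)}
    (hf : H12F.Rel r (reductionModL A N x) f)
    {τ : IsLocalRing.ResidueField A ≃+* IsLocalRing.ResidueField A} (hτ : ∀ x, τ x = x ^ r) :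
    H12F.Rel r (reductionModL A N (heckeOperatorBar N ⟨r, Fact.out⟩ x))
      (coeffMap (τ : IsLocalRing.ResidueField A →+* IsLocalRing.ResidueField A) f) :=
  H12F.rel_frob N r A hrN hA hx hf hτ

/-- **Lifting**: if `θh = f h` and the divisor of `h` is divisible by `r`, then `f` is attached to the
reduction of a point of `J[r]`. (The class of `div(h)/r` lifts to a class `x'` of `J` with `r x'` in the
kernel of reduction `H15.KJ N A`; this is divisible, `GuideMazurJacobian.kernel_divisible`, so `r x' = r y`
with `y` in the kernel; take `x = x' - y`.) File `H12FMain`. -/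
theorem exists_lift_form (N : ℕ) [NeZero N] (r : ℕ) [Fact r.Prime] (A : ValuationSubring Qb)
    (hrN : ¬ r ∣ N) (hA : A.LiesOverPrime r)
    (hdiv : ∀ x ∈ H15.KJ N A, ∃ y ∈ H15.KJ N A, r • y = x)
    {f : LaurentSeries (IsLocalRing.ResidueField A)}
    {h : modularFunctionFieldFullC (IsLocalRing.ResidueField A) N} (hh : h ≠ 0)
    (hθ : H61.theta (h : LaurentSeries (IsLocalRing.ResidueField A)) = f * h)
    (hd : ∀ v : Place (IsLocalRing.ResidueField A)
      (modularFunctionFieldFullC (IsLocalRing.ResidueField A) N), (r : ℤ) ∣ v.ord h) :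
    ∃ x : JZero N, r • x = 0 ∧ H12F.Rel r (reductionModL A N x) f :=
  H12F.exists_lift_form N r A hrN hA hdiv hh hθ hd

/-- **The count**, for a Hecke module `J`, a homomorphism `red` with kernel `K` and a relation `R` between
classes and forms with the properties above. The points attached to the forms of `V` can be chosen in `W_1`:
apply an idempotent of the Hecke algebra, the projection to the Eisenstein part of `J[r]`; the reduction of
the point does not change, because by `nil` it is killed by a power of the Eisenstein ideal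
(`H15.TEis k q` is `T_q - 1 - q`; `H12F.fitting_pair`). Different forms give different classes modulo `K` by
`uniq`. So `|W_1 ∩ K| · |S| ≤ |W_1|` for every finite set `S ⊆ V`. File `H12FAbs`. -/
theorem card_mul_le {N r : ℕ} {J : Type} [AddCommGroup J] [Module HeckeAlg J] {Y : Type*} [AddCommGroup Y]
    {red : J →+ Y} {k : Type} [Field k] {R : Y → PowerSeries k → Prop} {V : AddSubgroup (PowerSeries k)}
    (zero : R 0 0) (sub : ∀ y y' f f', R y f → R y' f' → R (y - y') (f - f'))
    (uniq : ∀ y f f', R y f → R y f' → f = f') (ker : ∀ y, R y 0 → y = 0)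
    (tq_mem : ∀ q : ℕ, q.Prime → q ≠ N → ∀ f ∈ V, H15.Tq k q f ∈ V)
    (hecke : ∀ q : Nat.Primes, (q : ℕ) ≠ N → ∀ x : J, r • x = 0 → ∀ f ∈ V, R (red x) f →
      R (red (heckeGen q • x)) (H15.Tq k q f))
    (nil : ∀ f ∈ V, ∃ n : ℕ, ∀ l : List ℕ, l.length = n → (∀ q ∈ l, q.Prime ∧ q ≠ N) →
      (l.map (H15.TEis k)).prod f = 0)
    (lift : ∀ f ∈ V, ∃ x : J, r • x = 0 ∧ R (red x) f) (hfin : {x : J | r • x = 0}.Finite)
    (S : Finset (PowerSeries k)) (hS : ∀ f ∈ S, f ∈ V) (K : AddSubgroup J)
    (hK : ∀ x, x ∈ K ↔ red x = 0) (hW : Finite (H15.WSub N r J 1)) :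
    Nat.card (H15.WSub N r J 1 ⊓ K : AddSubgroup J) * S.card ≤ Nat.card (H15.WSub N r J 1) :=
  H12F.RelData.card_mul_le ⟨zero, sub, uniq, ker, tq_mem, hecke, nil, lift⟩ hfin S hS K hK hW

/-- From `W_1` to `W_j`, by induction: the kernel of multiplication by `r` from `W_{j+1} ∩ K` to `W_j ∩ K` is
`W_1 ∩ K`. File `H12FAbs`. -/
theorem card_level {N r : ℕ} {J : Type} [AddCommGroup J] [Module HeckeAlg J] (K : AddSubgroup J)
    (hfin : ∀ j, Finite (H15.WSub N r J j)) {c : ℕ}
    (h1 : Nat.card (H15.WSub N r J 1 ⊓ K : AddSubgroup J) ≤ c) (j : ℕ) :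
    Nat.card (H15.WSub N r J j ⊓ K : AddSubgroup J) ≤ c ^ j :=
  H12F.card_WSub_inf_le K hfin h1 j

attribute [local instance] heckeModuleBar

/-- **The result**: `|W_j ∩ K_A| ≤ r^{tj}` if `|W_j| = r^{2tj}` for all `j` and `t` is the dimension of the
Eisenstein part of the cusp forms modulo `r` (both: `GuideEisenstein.card_W`). Proof: take `S` with `r^t`
elements of `V0` in `card_mul_le`; every `f ∈ S` is `θh/h` (sections 2, 3) with `div(h)` divisible by `r`
(`GuideLogFormTrace.divisor_divisible`), so `exists_lift_form` applies. Files `H12FFinal`, `H12FCard`. -/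
theorem kernel_part {N : ℕ} [NeZero N] (hN : N.Prime) {r : ℕ} (hr : r.Prime) (hrN : r ≠ N) {t : ℕ}
    (hcard : ∀ j : ℕ, Nat.card (H15.WSub N r (JZero N) j) = r ^ (2 * t * j))
    (hfin : ∀ (k : Type) [Field k] [CharP k r], Module.finrank k (H15.EisPart N k) = t)
    {A : ValuationSubring Qb} (hA : A.LiesOverPrime r) (j : ℕ) :
    Nat.card (H15.WSub N r (JZero N) j ⊓ H15.KJ N A : AddSubgroup (JZero N)) ≤ r ^ (t * j) :=
  H12F.cardMult_at H12F.divH H17.divRed hN hr hrN hcard hfin hA j

end Fermat.Agent.Guide.LogForm
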