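import Fermat.Agent.H12FCard

set_option autoImplicit false

/-!
# Reader's guide: if `dh/h` is a cusp form modulo `r`, the divisor of `h` is divisible by `r` (input of S15)

**What this file is.** Every theorem below is *proved by citing the library*; the statement is written out in
full. No other module imports this file. It gives the details of `GuideEisenstein.divisor_divisible` and of
the third step of `GuideLogForm`.

**What the block does.** Let `f` be a cusp form of weight two modulo `r` on `Γ₀(N)`, `N ≠ r` prime, and `h` a
modular function modulo `r` with `θh = f h`, `θ = q d/dq`; that is `f dq/q = dh/h`. The differential `dh/h`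
has a pole at a place if and only if the order of `h` there is prime to `r`; so the divisor of `h` is
divisible by `r` (`divisor_divisible`) if `f dq/q` is holomorphic. Over `ℂ` this is classical for cusp forms,
and usually it is transported to characteristic `r` by the sheaf of relative differentials of a smooth model.
There is no such sheaf here. Instead:
* section 2: write `f dq/q = g dj`. In characteristic zero `Tr(u g)` is a polynomial in `j` for all functions
  `u` integral over the polynomials in `j` (`trace_mem_aff`, `function_of_form`). This property passes to the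
  reduction (`exists_lift`, `trace_reduction`), because the genus and the degree over the field of `j` are
  the same (`mem_holSub_of_S2`);
* section 1: this property excludes simple poles of `g dj = dh/h`, by the formula
  `d(Norm h)/Norm h = Tr(dh/h)`, applied to a function close to `h` at one place and close to `1` at the other
  places above the same place of the `j`-line (`dvd_ord_of_trace`).

Everything is in the closure of S15, S12, S09, S03 and S01. Author: helper72. In the NOTES: [227] MAZUR-F1c.

**Notation.** As in `GuideLogForm`. For a function field `F` in one variable over an algebraically closed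
field `K` and `x ∈ F`, `H88.aff K x` is the ring of functions which are regular where `x` is regular (the
integral closure of `K[x]` if `x` is not constant). `v.adicValuation` is multiplicative: `≤ 1` means regular
at `v`, `exp (-1)` is the value of a uniformiser. `genusFF` is the genus.
-/

namespace Fermat.Agent.Guide.LogFormTrace

open ModularCurve AlgebraicCurve CongruenceSubgroup WithZero IntermediateField Polynomial
open Fermat.Agent.H3RR Fermat.Agent.H40

/-! ## Section 1.  Traces see the simple poles of logarithmic derivatives -/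

/-- **The logarithmic derivative of a norm** is the trace of the logarithmic derivative, for a finite
extension `E'/E` of fields (separable or not) with a derivation `D` of `E'` extending `D₀`. (Jacobi's formula
for the derivative of a determinant.) File `H72F1cLog`. -/
theorem derivation_norm {E E' : Type*} [Field E] [Field E'] [Algebra E E'] [FiniteDimensional E E']
    (D₀ : E →+ E) (hD₀ : ∀ x y, D₀ (x * y) = x * D₀ y + y * D₀ x)
    (D : E' →+ E') (hD : ∀ x y, D (x * y) = x * D y + y * D x)
    (hDD : ∀ x, D (algebraMap E E' x) = algebraMap E E' (D₀ x)) {g : E'} (hg : g ≠ 0) :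
    D₀ (Algebra.norm E g) = Algebra.norm E g * Algebra.trace E E' (D g / g) :=
  H72.derivation_norm D₀ hD₀ D hD hDD hg

/-- **The order of a norm**: if `g` has order `0` at all places `w ≠ w₀` above `v`, the order of its norm at
`v` is the order of `g` at `w₀`. File `H72F1cLoc`. -/
theorem ord_norm {k E E' : Type*} [Field k] [IsAlgClosed k] [Field E] [Field E'] [Algebra k E]
    [Algebra k E'] [Algebra E E'] [IsScalarTower k E E'] [Module.Finite E E'] [IsFF k E] [IsFF k E']
    [Algebra.IsSeparable E E'] (v : Place k E) (w₀ : Place k E') (hw₀ : w₀.restrict E = v) {g : E'}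
    (hg : g ≠ 0) (hgw : ∀ w : Place k E', w.restrict E = v → w ≠ w₀ → w.ord g = 0) :
    v.ord (Algebra.norm E g) = w₀.ord g :=
  H72.ord_norm v w₀ hw₀ hg hgw

/-- The trace of a function which is regular at all places above `v` is regular at `v`. File
`H88Descent`. -/
theorem trace_regular {K F F' : Type*} [Field K] [Field F] [Field F'] [Algebra K F] [Algebra K F']
    [Algebra F F'] [IsScalarTower K F F'] [Module.Finite F F'] [IsFF K F'] [Algebra.IsSeparable F F']
    (v : Place K F) {h : F'} (hh : ∀ w : Place K F', w.restrict F = v → w.adicValuation h ≤ 1) :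
    v.adicValuation (Algebra.trace F F' h) ≤ 1 :=
  H88.trace_le_one v hh

/-- **Strong approximation**: let `S` be a finite set of places at which `x` is regular, `w₀ ∈ S`. There is a
function which is `1` at `w₀` and `0` at the other places of `S`, to any order, and regular where `x` is
regular. File `H72F1cLoc` (from `H93Weil`). -/
theorem exists_approx_one {K F : Type*} [Field K] [Field F] [Algebra K F] [IsAlgClosed K] [IsFF K F]
    {x : F} (hx : Transcendental K x) (w₀ : Place K F) (S : Finset (Place K F)) (hw₀ : w₀ ∈ S)
    (hS : ∀ w ∈ S, w.adicValuation x ≤ 1) (C : ℕ) :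
    ∃ e ∈ H88.aff K x, w₀.adicValuation (e - 1) ≤ exp (-(C : ℤ)) ∧
      ∀ w ∈ S, w ≠ w₀ → w.adicValuation e ≤ exp (-(C : ℤ)) :=
  H72.exists_approx_one hx w₀ S hw₀ hS C

/-- **Traces see simple poles.** Let `v` be a place of `E` where `x` is regular, with a uniformiser `t`,
`D₀ t = 1`, such that `D₀` preserves regularity at `v`, and `w₀` a place of `E'` above `v`. If `Tr(u Dh/h)` is
regular at `v` for all `u` which are regular where `x` is regular, then `r` divides the order of `h` at `w₀`.
Proof: let `e` be the `r`-th power of a function as in `exists_approx_one`, so `De = 0`; the function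
`g = h + (1 - e)(1 - h)` is close to `h` at `w₀` and to `1` at the other places above `v`, and `Dg/g` is close
to `e Dh/h`; so `Tr(Dg/g)`, which is `D₀(Norm g)/Norm g` by `derivation_norm`, is regular at `v`; its residue
is the order of `h` at `w₀` modulo `r` (`ord_norm`). File `H72F1cLoc`. -/
theorem dvd_ord_of_trace {k E E' : Type*} [Field k] [IsAlgClosed k] [Field E] [Field E'] [Algebra k E]
    [Algebra k E'] [Algebra E E'] [IsScalarTower k E E'] [Module.Finite E E'] [IsFF k E] [IsFF k E']
    [Algebra.IsSeparable E E'] (r : ℕ) [Fact r.Prime] [CharP k r]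
    (D₀ : E →+ E) (hD₀ : ∀ x y, D₀ (x * y) = x * D₀ y + y * D₀ x)
    (D : E' →+ E') (hD : ∀ x y, D (x * y) = x * D y + y * D x)
    (hDD : ∀ x, D (algebraMap E E' x) = algebraMap E E' (D₀ x))
    {x : E} (hx : Transcendental k x) {t : E} (v : Place k E)
    (hxv : v.adicValuation x ≤ 1) (ht : v.adicValuation t = exp (-1)) (hDt : D₀ t = 1)
    (hDv : ∀ s, v.adicValuation s ≤ 1 → v.adicValuation (D₀ s) ≤ 1) {h : E'} (hh : h ≠ 0)
    (hT : ∀ u ∈ H88.aff k (algebraMap E E' x),
      v.adicValuation (Algebra.trace E E' (u * (D h / h))) ≤ 1)
    (w₀ : Place k E') (hw₀ : w₀.restrict E = v) : (r : ℤ) ∣ w₀.ord h :=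
  H72.dvd_ord_of_trace r D₀ hD₀ D hD hDD hx v hxv ht hDt hDv hh hT w₀ hw₀

/-- `d/dx` preserves regularity at the finite places of the line: the hypothesis `hDv` of the last theorem
for `E = k(x)`, `t = x - c`. File `H72F1cIncl`. -/
theorem derivative_regular {k E : Type*} [Field k] [IsAlgClosed k] [Field E] [Algebra k E] [IsFF k E]
    (D : Derivation k E E) {x : E} (hx : Transcendental k x) (htop : k⟮x⟯ = ⊤) (hD : D x = 1)
    (v : Place k E) (hv : v.adicValuation x ≤ 1) (s : E) (hs : v.adicValuation s ≤ 1) :
    v.adicValuation (D s) ≤ 1 :=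
  H72.der_le_one D hx htop hD v hv s hs

/-! ## Section 2.  The trace condition -/

/-- Unfolding of `H72.holSub`, the weak form of holomorphy of `g dx`: the functions `g ∈ E'` such that
`Tr_{E'/E}(u g)` is regular where `x` is regular, for all `u ∈ E'` which are regular where `x` is regular.
`E ⊆ E'` are subfields of a big field (of `k((q))`). File `H72F1cIncl`. -/
theorem mem_holSub_iff {k Ω : Type*} [Field k] [Field Ω] [Algebra k Ω] {E E' : IntermediateField k Ω}
    (hE : E ≤ E') {x : E} {g : E'} :
    letI : Algebra E E' := (inclusion hE).toAlgebra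
    g ∈ H72.holSub hE x ↔
      ∀ u ∈ H88.aff k (inclusion hE x), Algebra.trace E E' (u * g) ∈ H88.aff k x :=
  Iff.rfl

/-- **Section 1 for a pair of subfields** `E = k(x) ⊆ E'` of a field `Ω` with a derivation `δ`, `δx = 1`: if
`δh = g h` with `g ∈ holSub`, then `r` divides the order of `h` wherever `x` is finite. It will be applied to
`Ω = k((q))`, `δ = d/dj`, `x = j`. File `H72F1cIncl`. -/
theorem dvd_ord_of_holSub {k Ω : Type*} [Field k] [Field Ω] [Algebra k Ω] {E E' : IntermediateField k Ω}
    (hE : E ≤ E') [IsAlgClosed k] [IsFF k E] [IsFF k E'] (r : ℕ) [Fact r.Prime] [CharP k r]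
    (δ : Ω →+ Ω) (hδ : ∀ x y, δ (x * y) = δ x * y + x * δ y)
    (hδk : ∀ c : k, δ (algebraMap k Ω c) = 0) (hδE : ∀ z ∈ E, δ z ∈ E) (hδE' : ∀ z ∈ E', δ z ∈ E')
    {x : E} (hx : Transcendental k x) (htop : k⟮x⟯ = ⊤) (hδx : δ x = 1)
    (hfin : Module.finrank k⟮inclusion hE x⟯ E' ≠ 0)
    (hsep : Algebra.IsSeparable k⟮inclusion hE x⟯ E') {g : E'} (hg : g ∈ H72.holSub hE x) {h : E'}
    (hh : h ≠ 0) (hδh : δ h = (g : Ω) * h) (w : Place k E')
    (hw : w.adicValuation (inclusion hE x) ≤ 1) : (r : ℤ) ∣ w.ord h :=
  H72.dvd_ord_incl hE r δ hδ hδk hδE hδE' hx htop hδx hfin hsep hg hh hδh w hw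

/-- `d/dj` preserves the modular function fields in characteristic `r ∤ M`. File `H72F1c` (the same argument
in `H98Log`). -/
theorem ddj_mem {k : Type} [Field k] [IsAlgClosed k] (r : ℕ) [Fact r.Prime] [CharP k r] (M : ℕ) [NeZero M]
    (hM : (M : k) ≠ 0) {z : LaurentSeries k} (hz : z ∈ modularFunctionFieldFullC k M) :
    H1.ddX (jqModC k) z ∈ modularFunctionFieldFullC k M :=
  H72.ddX_mem_full r M hM hz

/-- **The trace condition in characteristic zero.** Let `F = K(x)`. If `(x - c) y` vanishes wherever `x = c`,
for all constants `c`, then `Tr(u y)` is a polynomial in `x` for all `u` integral over `K[x]`. File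
`H72F1cRed`. -/
theorem trace_mem_aff {K F F' : Type*} [Field K] [Field F] [Field F'] [Algebra K F] [Algebra K F']
    [Algebra F F'] [IsScalarTower K F F'] [Module.Finite F F'] [IsFF K F'] [IsFF K F] [IsAlgClosed K]
    [Algebra.IsSeparable F F'] {x : F} (hx : Transcendental K x) (htop : K⟮x⟯ = ⊤) {y : F'}
    (hy : ∀ (w : Place K F') (c : K),
      w.adicValuation (algebraMap F F' (x - algebraMap K F c)) < 1 →
      w.adicValuation (algebraMap F F' (x - algebraMap K F c) * y) < 1) {u : F'}
    (hu : u ∈ H88.aff K (algebraMap F F' x)) : Algebra.trace F F' (u * y) ∈ H88.aff K x :=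
  H72.trace_mem_aff hx htop hy hu

/-- **Modular forms in characteristic zero**: if `X` is the `q`-expansion over `K ⊆ ℂ` of a cusp form of
weight two, then `X = y θj` with a modular function `y`, and `(j - c) y` vanishes wherever `j = c`. (Where
`j - c` has order `e > 0` the order of `y` is at least `1 - e`, since `y dj` is holomorphic: `H45FormFun`.)
File `H72F1cMod`. -/
theorem function_of_form {K : Type*} [Field K] [Algebra K ℂ] [IsAlgClosed K] {N : ℕ} [NeZero N]
    {F' : IntermediateField K (LaurentSeries K)} (hF' : F' = modularFunctionFieldFullC K N)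
    (hj : jqModC K ∈ F') (F : CuspForm (Gamma0 N) 2) (X : LaurentSeries K)
    (hX : ∀ n : ℕ, algebraMap K ℂ (X.coeff n) = ModularFormClass.qCoeff F n)
    (hneg : ∀ n < (0 : ℤ), X.coeff n = 0) :
    ∃ y : F', (y : LaurentSeries K) * H61.theta (jqModC K) = X ∧
      ∀ (w : Place K F') (c : K), w.adicValuation (⟨jqModC K, hj⟩ - algebraMap K F' c) < 1 →
        w.adicValuation ((⟨jqModC K, hj⟩ - algebraMap K F' c) * y) < 1 :=
  H72.exists_function_of_form' hF' hj F X hX hneg

/-- **Lifting integral functions.** If a reduction of function fields preserves the genus and the degree over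
the field generated by `x`, then all functions integral over `k[x̄]` are reductions of functions integral over
`K[x]`. (`H40.ReductionData`: a Gauss valuation of `F` extending a valuation of `K`, with residue field `E`;
see `GuideReduction.exists_orthonormal_basis`.) File `H88Descent`. -/
theorem exists_lift {K F k E : Type*} [Field K] [Field F] [Algebra K F] [Field k] [Field E] [Algebra k E]
    [CharZero K] [IsAlgClosed K] [IsAlgClosed k] [IsFF K F] [IsFF k E] (R : ReductionData K F k E) {x : R.B}
    (hx : Transcendental k (R.ρ x))
    (hdeg : Module.finrank K⟮(x : F)⟯ F = Module.finrank k⟮R.ρ x⟯ E)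
    (hg : genusFF K F = genusFF k E) {e : E} (he : e ∈ H88.aff k (R.ρ x)) :
    ∃ b : R.B, R.ρ b = e ∧ (b : F) ∈ H88.aff K (x : F) :=
  H88.exists_lift R hx hdeg hg he

/-- **Reducing integral functions**: the reduction of a function integral over `K[x]` is integral over
`k[x̄]`, if the degree over the field generated by `x` is preserved (equality of the genera is not needed).
File `H88Descent`. -/
theorem reduction_mem_aff {K F k E : Type*} [Field K] [Field F] [Algebra K F] [Field k] [Field E]
    [Algebra k E] [CharZero K] [IsAlgClosed K] [IsAlgClosed k] [IsFF K F] [IsFF k E]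
    (R : ReductionData K F k E) {x : R.B} (hx : Transcendental k (R.ρ x))
    (hdeg : Module.finrank K⟮(x : F)⟯ F = Module.finrank k⟮R.ρ x⟯ E) {b : R.B}
    (hb : (b : F) ∈ H88.aff K (x : F)) : R.ρ b ∈ H88.aff k (R.ρ x) :=
  H88.ρ_mem_aff R hx hdeg hb

/-- **The trace condition passes to reductions**: lift `u` by `exists_lift` and reduce the trace
(`H88.RedCompat`: the reductions of `F` and `F'` are compatible). File `H72F1cRed`. -/
theorem trace_reduction {K F F' k E E' : Type*} [Field K] [Field F] [Field F'] [Algebra K F] [Algebra K F']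
    [Algebra F F'] [Field k] [Field E] [Field E'] [Algebra k E] [Algebra k E'] [Algebra E E']
    [IsScalarTower K F F'] [IsScalarTower k E E'] [CharZero K] [IsAlgClosed K] [IsAlgClosed k]
    [IsFF K F] [IsFF k E] [IsFF K F'] [IsFF k E'] [Module.Finite F F'] [Module.Finite E E']
    {R : ReductionData K F k E} {R' : ReductionData K F' k E'} (C : H88.RedCompat R R') {x : R.B}
    (hx : Transcendental k (R.ρ x))
    (hdeg : Module.finrank K⟮(x : F)⟯ F = Module.finrank k⟮R.ρ x⟯ E)
    (hd : Module.finrank F F' = Module.finrank E E') (hg' : genusFF K F' = genusFF k E')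
    (y : R'.B) (hy : ∀ u ∈ H88.aff K (algebraMap F F' x),
      Algebra.trace F F' (u * (y : F')) ∈ H88.aff K (x : F)) {u : E'}
    (hu : u ∈ H88.aff k (algebraMap E E' (R.ρ x))) :
    Algebra.trace E E' (u * R'.ρ y) ∈ H88.aff k (R.ρ x) :=
  H72.trace_red C hx hdeg hd hg' y hy hu

/-- **Cusp forms modulo `r` satisfy the trace condition**: `f = g θj` with `g ∈ holSub`, for the fields of
modular functions of levels `1` and `N` over `k`. (By the last theorems, for the residue map `π : A → k` of a
valuation ring of an algebraically closed field `L ⊆ ℂ`. The hypothesis `hg`, equality of the genera over `L`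
and `k`, is `GuideReduction.genus_eq`.) File `H72F1c`. -/
theorem mem_holSub_of_S2 {L : Type*} [Field L] [Algebra ℚ L] [IsAlgClosed L] [Algebra L ℂ]
    (A : ValuationSubring L) {k : Type} [Field k] [IsAlgClosed k] (π : A →+* k)
    (hπ : Function.Surjective π) [IsLocalHom π] {N : ℕ} [NeZero N] (hN : (N : k) ≠ 0)
    (hg : H18.GenusFFEq L k N)
    (hEle : modularFunctionFieldFullC k 1 ≤ modularFunctionFieldFullC k N) {f : PowerSeries k}
    (hf : f ∈ H15.S2 N k) :
    ∃ g ∈ H72.holSub hEle ⟨jqModC k, jqModC_mem_full k 1⟩,
      (g : LaurentSeries k) * H61.theta (jqModC k) = HahnSeries.ofPowerSeries ℤ k f :=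
  H72.exists_mem_holSub_of_S2 A π hπ hN hg hEle hf

/-- A cusp form modulo `r` has constant coefficient zero. (With `θh = f h` this gives `n = 0` in `k` for the
order `n` of `h` at the cusp `∞`.) File `H72F1c`. -/
theorem coeff_zero_of_S2 {k : Type} [Field k] {N : ℕ} [NeZero N] {f : PowerSeries k}
    (hf : f ∈ H15.S2 N k) : PowerSeries.coeff 0 f = 0 :=
  H72.coeff_zero_of_S2 hf

set_option synthInstance.maxHeartbeats 400000 in
/-- **The result**: if `f` is a cusp form modulo `r` and `θh = f h`, then `r` divides the order of `h` at all
places `v`. Where `j` is finite by `mem_holSub_of_S2` and `dvd_ord_of_holSub`; at the cusp `∞` by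
`coeff_zero_of_S2`; at the other cusp (`N` is prime, so there are two) because the degree of `div(h)` is
zero. File `H72F1c`. -/
theorem divisor_divisible {N : ℕ} [NeZero N] (hN : N.Prime) {r : ℕ} (hr : r.Prime) (hrN : r ≠ N)
    (A : ValuationSubring (AlgebraicClosure ℚ)) (hA : A.LiesOverPrime r)
    {f : PowerSeries (IsLocalRing.ResidueField A)} (hf : f ∈ H15.S2 N (IsLocalRing.ResidueField A))
    {h : modularFunctionFieldFullC (IsLocalRing.ResidueField A) N} (hh : h ≠ 0)
    (hθ : H61.theta (h : LaurentSeries (IsLocalRing.ResidueField A)) =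
      HahnSeries.ofPowerSeries ℤ _ f * h)
    (v : Place (IsLocalRing.ResidueField A)
      (modularFunctionFieldFullC (IsLocalRing.ResidueField A) N)) : (r : ℤ) ∣ v.ord h :=
  H72.F1c hN hr hrN A hA hf hh hθ v

end Fermat.Agent.Guide.LogFormTrace
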