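/-
H17Val: values of functions at places of a one-variable function field over an algebraically closed field.
-/
import Mathlib
import Fermat.Agent.H3RR_Genus

set_option autoImplicit false

noncomputable section

open AlgebraicCurve WithZero

namespace Fermat.Agent.H17

open Fermat.Agent.H3RR

variable {K F : Type*} [Field K] [Field F] [Algebra K F]

open Classical in
/-- The value of `f` at the place `v`: the constant `c` with `v (f - c) < 1` (`0` if there is none). -/
def val (v : Place K F) (f : F) : K :=
  if h : ∃ c : K, v.adicValuation (f - algebraMap K F c) < 1 then h.choose else 0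

theorem val_unique (v : Place K F) {f : F} {c c' : K}
    (h : v.adicValuation (f - algebraMap K F c) < 1)
    (h' : v.adicValuation (f - algebraMap K F c') < 1) : c = c' := by
  by_contra hne
  have h1 : v.adicValuation (algebraMap K F (c' - c)) < 1 := by
    have : algebraMap K F (c' - c) = (f - algebraMap K F c) - (f - algebraMap K F c') := by
      rw [map_sub]; ring
    rw [this]
    exact (Valuation.map_sub _ _ _).trans_lt (max_lt h h')
  have hc : c' - c ≠ 0 := sub_ne_zero.mpr (Ne.symm hne)
  have h2 : v.adicValuation (algebraMap K F (c' - c)⁻¹) ≤ 1 := v.adicValuation_algebraMap_le_one _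
  have h3 : v.adicValuation (algebraMap K F (c' - c)) * v.adicValuation (algebraMap K F (c' - c)⁻¹) = 1 := by
    rw [← map_mul, ← map_mul, mul_inv_cancel₀ hc, map_one, map_one]
  have h4 : v.adicValuation (algebraMap K F (c' - c)) * v.adicValuation (algebraMap K F (c' - c)⁻¹) < 1 :=
    calc _ ≤ v.adicValuation (algebraMap K F (c' - c)) * 1 := mul_le_mul_right h2 _
      _ < 1 := by rwa [mul_one]
  exact absurd h3 h4.ne

theorem val_eq (v : Place K F) {f : F} {c : K} (h : v.adicValuation (f - algebraMap K F c) < 1) :
    val v f = c := by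
  have hex : ∃ c : K, v.adicValuation (f - algebraMap K F c) < 1 := ⟨c, h⟩
  rw [val, dif_pos hex]
  exact val_unique v hex.choose_spec h

@[simp] theorem val_algebraMap (v : Place K F) (c : K) : val v (algebraMap K F c) = c :=
  val_eq v (by rw [sub_self, map_zero]; exact zero_lt_one)

@[simp] theorem val_zero (v : Place K F) : val v (0 : F) = 0 := by
  simpa using val_algebraMap v (0 : K)

@[simp] theorem val_one (v : Place K F) : val v (1 : F) = 1 := by
  simpa using val_algebraMap v (1 : K)

variable [IsAlgClosed K] [IsFF K F]

theorem val_spec (v : Place K F) {f : F} (hf : f ∈ v.toValuationSubring) :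
    v.adicValuation (f - algebraMap K F (val v f)) < 1 := by
  obtain ⟨c, hc⟩ := exists_const_sub_lt_one v (v.adicValuation_le_one_of_mem hf)
  rw [val_eq v hc]
  exact hc

theorem val_add (v : Place K F) {f g : F} (hf : f ∈ v.toValuationSubring)
    (hg : g ∈ v.toValuationSubring) : val v (f + g) = val v f + val v g := by
  apply val_eq
  have : f + g - algebraMap K F (val v f + val v g)
      = (f - algebraMap K F (val v f)) + (g - algebraMap K F (val v g)) := by
    rw [map_add]; ring
  rw [this]
  exact (Valuation.map_add _ _ _).trans_lt (max_lt (val_spec v hf) (val_spec v hg))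

theorem val_mul (v : Place K F) {f g : F} (hf : f ∈ v.toValuationSubring)
    (hg : g ∈ v.toValuationSubring) : val v (f * g) = val v f * val v g := by
  apply val_eq
  have : f * g - algebraMap K F (val v f * val v g)
      = (f - algebraMap K F (val v f)) * g
        + algebraMap K F (val v f) * (g - algebraMap K F (val v g)) := by
    rw [map_mul]; ring
  rw [this]
  refine (Valuation.map_add _ _ _).trans_lt (max_lt ?_ ?_)
  · rw [map_mul]
    calc _ ≤ v.adicValuation (f - algebraMap K F (val v f)) * 1 :=
          mul_le_mul_right (v.adicValuation_le_one_of_mem hg) _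
      _ < 1 := by rw [mul_one]; exact val_spec v hf
  · rw [map_mul]
    calc _ ≤ 1 * v.adicValuation (g - algebraMap K F (val v g)) :=
          mul_le_mul_left (v.adicValuation_algebraMap_le_one _) _
      _ < 1 := by rw [one_mul]; exact val_spec v hg

/-- evaluation at a place as a ring homomorphism -/
def valHom (v : Place K F) : v.toValuationSubring →+* K where
  toFun f := val v (f : F)
  map_one' := val_one v
  map_zero' := val_zero v
  map_add' f g := val_add v f.2 g.2
  map_mul' f g := val_mul v f.2 g.2

@[simp] theorem valHom_apply (v : Place K F) (f : v.toValuationSubring) :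
    valHom v f = val v (f : F) := rfl

theorem val_smul (v : Place K F) (c : K) {f : F} (hf : f ∈ v.toValuationSubring) :
    val v (c • f) = c * val v f := by
  rw [Algebra.smul_def, val_mul v (v.algebraMap_mem' c) hf, val_algebraMap]

theorem smul_mem_place (v : Place K F) (c : K) {f : F} (hf : f ∈ v.toValuationSubring) :
    c • f ∈ v.toValuationSubring := by
  rw [Algebra.smul_def]; exact mul_mem (v.algebraMap_mem' c) hf

theorem val_neg (v : Place K F) {f : F} (hf : f ∈ v.toValuationSubring) :
    val v (-f) = - val v f := by
  have := (valHom v).map_neg ⟨f, hf⟩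
  simpa using this

theorem val_sub (v : Place K F) {f g : F} (hf : f ∈ v.toValuationSubring)
    (hg : g ∈ v.toValuationSubring) : val v (f - g) = val v f - val v g := by
  have := (valHom v).map_sub ⟨f, hf⟩ ⟨g, hg⟩
  simpa using this

theorem val_pow (v : Place K F) {f : F} (hf : f ∈ v.toValuationSubring) (n : ℕ) :
    val v (f ^ n) = val v f ^ n := by
  have := (valHom v).map_pow ⟨f, hf⟩ n
  simpa using this

theorem val_sum {ι : Type*} (v : Place K F) (s : Finset ι) (f : ι → F)
    (hf : ∀ i ∈ s, f i ∈ v.toValuationSubring) : val v (∑ i ∈ s, f i) = ∑ i ∈ s, val v (f i) := by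
  classical
  induction s using Finset.induction_on with
  | empty => simp
  | insert a s ha ih =>
    rw [Finset.sum_insert ha, Finset.sum_insert ha, val_add v (hf a (Finset.mem_insert_self a s))
      (sum_mem fun i hi => hf i (Finset.mem_insert_of_mem hi)),
      ih fun i hi => hf i (Finset.mem_insert_of_mem hi)]

theorem val_prod {ι : Type*} (v : Place K F) (s : Finset ι) (f : ι → F)
    (hf : ∀ i ∈ s, f i ∈ v.toValuationSubring) : val v (∏ i ∈ s, f i) = ∏ i ∈ s, val v (f i) := by
  classical
  induction s using Finset.induction_on with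
  | empty => simp
  | insert a s ha ih =>
    rw [Finset.prod_insert ha, Finset.prod_insert ha, val_mul v (hf a (Finset.mem_insert_self a s))
      (prod_mem fun i hi => hf i (Finset.mem_insert_of_mem hi)),
      ih fun i hi => hf i (Finset.mem_insert_of_mem hi)]

theorem val_multiset_prod (v : Place K F) (s : Multiset F)
    (hf : ∀ f ∈ s, f ∈ v.toValuationSubring) : val v s.prod = (s.map (val v)).prod := by
  induction s using Multiset.induction_on with
  | empty => simp
  | cons a s ih =>
    rw [Multiset.prod_cons, Multiset.map_cons, Multiset.prod_cons,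
      val_mul v (hf a (Multiset.mem_cons_self a s))
        (multiset_prod_mem _ fun f h => hf f (Multiset.mem_cons_of_mem h)),
      ih fun f h => hf f (Multiset.mem_cons_of_mem h)]

/-- A polynomial with constant coefficients evaluated at a regular function. -/
theorem val_aeval (v : Place K F) {f : F} (hf : f ∈ v.toValuationSubring) (p : Polynomial K) :
    val v (Polynomial.aeval f p) = p.eval (val v f) := by
  rw [Polynomial.aeval_eq_sum_range, Polynomial.eval_eq_sum_range, val_sum v _ _ (fun i _ =>
    smul_mem_place v _ (pow_mem hf i))]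
  exact Finset.sum_congr rfl fun i _ => by rw [val_smul v _ (pow_mem hf i), val_pow v hf]

theorem mem_place_iff_ord (v : Place K F) {f : F} (hf : f ≠ 0) :
    f ∈ v.toValuationSubring ↔ 0 ≤ v.ord f := by
  rw [mem_iff_adicValuation_le_one, v.adicValuation_le_one_iff]
  simp [hf]

theorem val_eq_zero_iff (v : Place K F) {f : F} (hf0 : f ≠ 0) (hf : f ∈ v.toValuationSubring) :
    val v f = 0 ↔ 0 < v.ord f := by
  have h1 := val_spec v hf
  have key : v.adicValuation f < 1 ↔ 0 < v.ord f := by
    rw [v.adicValuation_eq_exp_neg_ord hf0, show (1 : ℤᵐ⁰) = exp 0 from rfl, exp_lt_exp]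
    omega
  constructor
  · intro h
    rw [h, map_zero, sub_zero] at h1
    exact key.mp h1
  · intro h
    exact val_eq v (by rw [map_zero, sub_zero]; exact key.mpr h)

theorem val_ne_zero_iff (v : Place K F) {f : F} (hf0 : f ≠ 0) (hf : f ∈ v.toValuationSubring) :
    val v f ≠ 0 ↔ v.ord f = 0 := by
  rw [ne_eq, val_eq_zero_iff v hf0 hf]
  have := (mem_place_iff_ord v hf0).mp hf
  omega

theorem inv_mem_of_notMem (v : Place K F) {f : F} (hf : f ∉ v.toValuationSubring) :
    f⁻¹ ∈ v.toValuationSubring :=
  (v.toValuationSubring.mem_or_inv_mem f).resolve_left hf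

theorem val_inv_of_notMem (v : Place K F) {f : F} (hf : f ∉ v.toValuationSubring) :
    val v f⁻¹ = 0 := by
  have h0 : f ≠ 0 := fun h => hf (h ▸ zero_mem _)
  rw [val_eq_zero_iff v (inv_ne_zero h0) (inv_mem_of_notMem v hf), v.ord_inv]
  have := (mem_place_iff_ord v h0).not.mp hf
  omega

theorem val_inv (v : Place K F) {f : F} (hf : f ∈ v.toValuationSubring) (h : val v f ≠ 0) :
    f⁻¹ ∈ v.toValuationSubring ∧ val v f⁻¹ = (val v f)⁻¹ := by
  have h0 : f ≠ 0 := fun h' => h (by rw [h', val_zero])
  have h1 : v.ord f = 0 := (val_ne_zero_iff v h0 hf).mp h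
  have h2 : f⁻¹ ∈ v.toValuationSubring := by
    rw [mem_place_iff_ord v (inv_ne_zero h0), v.ord_inv, h1]; simp
  refine ⟨h2, ?_⟩
  have h3 := val_mul v hf h2
  rw [mul_inv_cancel₀ h0, val_one] at h3
  exact eq_inv_of_mul_eq_one_right h3.symm

end Fermat.Agent.H17
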