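/-
H17Defs: sections of N * (pole divisor of x), their normalised values at places, zero multisets,
families of absolute values and M-constants.
-/
import Mathlib
import Fermat.Agent.H17Val

set_option autoImplicit false

noncomputable section

open AlgebraicCurve WithZero

namespace Fermat.Agent.H17

open Fermat.Agent.H3RR

section Sections

variable {K F : Type*} [Field K] [Field F] [Algebra K F]

open Classical in
/-- Local normalising factor of the pole divisor of `x` at `v`: `1` if `x` is regular at `v`, `x⁻¹` otherwise. -/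
def nf (x : F) (v : Place K F) : F := if x ∈ v.toValuationSubring then 1 else x⁻¹

theorem nf_of_mem {x : F} {v : Place K F} (h : x ∈ v.toValuationSubring) : nf x v = 1 := if_pos h

theorem nf_of_notMem {x : F} {v : Place K F} (h : x ∉ v.toValuationSubring) : nf x v = x⁻¹ := if_neg h

theorem nf_mem (x : F) (v : Place K F) : nf x v ∈ v.toValuationSubring := by
  by_cases h : x ∈ v.toValuationSubring
  · rw [nf_of_mem h]; exact one_mem _
  · rw [nf_of_notMem h]; exact (v.toValuationSubring.mem_or_inv_mem x).resolve_left h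

theorem nf_ne_zero {x : F} (hx : x ≠ 0) (v : Place K F) : nf x v ≠ 0 := by
  by_cases h : x ∈ v.toValuationSubring
  · rw [nf_of_mem h]; exact one_ne_zero
  · rw [nf_of_notMem h]; exact inv_ne_zero hx

theorem mul_nf_mem (x : F) (v : Place K F) : x * nf x v ∈ v.toValuationSubring := by
  by_cases h : x ∈ v.toValuationSubring
  · rw [nf_of_mem h, mul_one]; exact h
  · have h0 : x ≠ 0 := fun h' => h (h' ▸ zero_mem _)
    rw [nf_of_notMem h, mul_inv_cancel₀ h0]; exact one_mem _

variable (K) in
/-- `W K x N = L(N D)`, `D` the pole divisor of `x`. -/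
def W (x : F) (N : ℕ) : Submodule K F where
  carrier := {s | ∀ v : Place K F, s * nf x v ^ N ∈ v.toValuationSubring}
  zero_mem' := fun v => by rw [zero_mul]; exact zero_mem _
  add_mem' := fun {s t} hs ht v => by
    show (s + t) * nf x v ^ N ∈ _
    rw [add_mul]; exact add_mem (hs v) (ht v)
  smul_mem' := fun c s hs v => by
    show (c • s) * nf x v ^ N ∈ _
    rw [smul_mul_assoc, Algebra.smul_def]; exact mul_mem (v.algebraMap_mem' c) (hs v)

theorem mem_W {x : F} {N : ℕ} {s : F} :
    s ∈ W K x N ↔ ∀ v : Place K F, s * nf x v ^ N ∈ v.toValuationSubring := Iff.rfl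

theorem one_mem_W (x : F) (N : ℕ) : (1 : F) ∈ W K x N := fun v => by
  rw [one_mul]; exact pow_mem (nf_mem x v) N

theorem self_mem_W (x : F) : x ∈ W K x 1 := fun v => by
  rw [pow_one]; exact mul_nf_mem x v

theorem mul_mem_W {x : F} {N M : ℕ} {s t : F} (hs : s ∈ W K x N) (ht : t ∈ W K x M) :
    s * t ∈ W K x (N + M) := fun v => by
  rw [pow_add, mul_mul_mul_comm]; exact mul_mem (hs v) (ht v)

theorem pow_mem_W {x : F} {N : ℕ} {s : F} (hs : s ∈ W K x N) (m : ℕ) : s ^ m ∈ W K x (m * N) := by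
  induction m with
  | zero => rw [pow_zero, zero_mul]; exact one_mem_W x 0
  | succ m ih => rw [pow_succ, Nat.succ_mul]; exact mul_mem_W ih hs

theorem W_mono {x : F} {N M : ℕ} (h : N ≤ M) : W K x N ≤ W K x M := fun s hs v => by
  obtain ⟨k, rfl⟩ := Nat.exists_eq_add_of_le h
  rw [pow_add, ← mul_assoc]; exact mul_mem (hs v) (pow_mem (nf_mem x v) k)

theorem prod_mem_W {ι : Type*} {x : F} (S : Finset ι) (n : ι → ℕ) (s : ι → F)
    (hs : ∀ i ∈ S, s i ∈ W K x (n i)) : ∏ i ∈ S, s i ∈ W K x (∑ i ∈ S, n i) := by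
  classical
  induction S using Finset.induction_on with
  | empty => simpa using one_mem_W x 0
  | insert a S ha ih =>
    rw [Finset.prod_insert ha, Finset.sum_insert ha]
    exact mul_mem_W (hs a (Finset.mem_insert_self a S))
      (ih fun i hi => hs i (Finset.mem_insert_of_mem hi))

/-- Normalised value at `v` of a section `s` of `N D`. -/
def ev (x : F) (N : ℕ) (v : Place K F) (s : F) : K := val v (s * nf x v ^ N)

theorem ev_of_mem {x : F} {v : Place K F} (h : x ∈ v.toValuationSubring) (N : ℕ) (s : F) :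
    ev x N v s = val v s := by rw [ev, nf_of_mem h, one_pow, mul_one]

theorem ev_of_notMem {x : F} {v : Place K F} (h : x ∉ v.toValuationSubring) (N : ℕ) (s : F) :
    ev x N v s = val v (s * x⁻¹ ^ N) := by rw [ev, nf_of_notMem h]

@[simp] theorem ev_zero (x : F) (N : ℕ) (v : Place K F) : ev x N v (0 : F) = 0 := by
  rw [ev, zero_mul, val_zero]

/-- `A` is the multiset of zeros of the nonzero section `s` of `N D`. -/
def IsZer (x : F) (N : ℕ) (s : F) (A : Multiset (Place K F)) : Prop := by
  classical exact ∀ v : Place K F, ((A.count v : ℕ) : ℤ) = v.ord (s * nf x v ^ N)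

variable [IsAlgClosed K] [IsFF K F]

theorem ev_add {x : F} {N : ℕ} {s t : F} (hs : s ∈ W K x N) (ht : t ∈ W K x N) (v : Place K F) :
    ev x N v (s + t) = ev x N v s + ev x N v t := by
  rw [ev, add_mul, val_add v (hs v) (ht v)]; rfl

theorem ev_smul {x : F} {N : ℕ} {s : F} (hs : s ∈ W K x N) (c : K) (v : Place K F) :
    ev x N v (c • s) = c * ev x N v s := by
  rw [ev, smul_mul_assoc, val_smul v c (hs v)]; rfl

theorem ev_neg {x : F} {N : ℕ} {s : F} (hs : s ∈ W K x N) (v : Place K F) :
    ev x N v (-s) = - ev x N v s := by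
  rw [ev, neg_mul, val_neg v (hs v)]; rfl

theorem ev_sub {x : F} {N : ℕ} {s t : F} (hs : s ∈ W K x N) (ht : t ∈ W K x N) (v : Place K F) :
    ev x N v (s - t) = ev x N v s - ev x N v t := by
  rw [ev, sub_mul, val_sub v (hs v) (ht v)]; rfl

theorem ev_sum {ι : Type*} {x : F} {N : ℕ} (S : Finset ι) (s : ι → F) (hs : ∀ i ∈ S, s i ∈ W K x N)
    (v : Place K F) : ev x N v (∑ i ∈ S, s i) = ∑ i ∈ S, ev x N v (s i) := by
  rw [ev, Finset.sum_mul, val_sum v S _ fun i hi => hs i hi v]; rfl

theorem ev_mul {x : F} {N M : ℕ} {s t : F} (hs : s ∈ W K x N) (ht : t ∈ W K x M) (v : Place K F) :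
    ev x (N + M) v (s * t) = ev x N v s * ev x M v t := by
  rw [ev, pow_add, mul_mul_mul_comm, val_mul v (hs v) (ht v)]; rfl

theorem ev_pow {x : F} {N : ℕ} {s : F} (hs : s ∈ W K x N) (m : ℕ) (v : Place K F) :
    ev x (m * N) v (s ^ m) = ev x N v s ^ m := by
  induction m with
  | zero => rw [pow_zero, zero_mul, pow_zero, ev, pow_zero, mul_one, val_one]
  | succ m ih => rw [pow_succ, Nat.succ_mul, ev_mul (pow_mem_W hs m) hs, ih, pow_succ]

/-- evaluation as a linear map on `W K x N` -/
def evL (x : F) (N : ℕ) (v : Place K F) : W K x N →ₗ[K] K where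
  toFun s := ev x N v (s : F)
  map_add' s t := ev_add s.2 t.2 v
  map_smul' c s := ev_smul s.2 c v

@[simp] theorem evL_apply (x : F) (N : ℕ) (v : Place K F) (s : W K x N) :
    evL x N v s = ev x N v (s : F) := rfl

theorem ev_one_of_mem {x : F} {v : Place K F} (h : x ∈ v.toValuationSubring) (N : ℕ) :
    ev x N v (1 : F) = 1 := by rw [ev_of_mem h, val_one]

theorem ev_one_of_notMem {x : F} {v : Place K F} (h : x ∉ v.toValuationSubring) {N : ℕ} (hN : N ≠ 0) :
    ev x N v (1 : F) = 0 := by
  rw [ev_of_notMem h, one_mul, val_pow v (inv_mem_of_notMem v h), val_inv_of_notMem v h, zero_pow hN]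

theorem ev_self_of_mem {x : F} {v : Place K F} (h : x ∈ v.toValuationSubring) :
    ev x 1 v x = val v x := ev_of_mem h 1 x

theorem ev_self_of_notMem {x : F} {v : Place K F} (h : x ∉ v.toValuationSubring) :
    ev x 1 v x = 1 := by
  have h0 : x ≠ 0 := fun h' => h (h' ▸ zero_mem _)
  rw [ev_of_notMem h, pow_one, mul_inv_cancel₀ h0, val_one]

theorem ev_eq_zero_iff {x : F} (hx : x ≠ 0) {N : ℕ} {s : F} (hs : s ∈ W K x N) (hs0 : s ≠ 0)
    (v : Place K F) : ev x N v s = 0 ↔ 0 < v.ord (s * nf x v ^ N) :=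
  val_eq_zero_iff v (mul_ne_zero hs0 (pow_ne_zero _ (nf_ne_zero hx v))) (hs v)

theorem IsZer.mem_iff {x : F} (hx : x ≠ 0) {N : ℕ} {s : F} (hs : s ∈ W K x N) (hs0 : s ≠ 0)
    {A : Multiset (Place K F)} (hA : IsZer x N s A) (v : Place K F) : v ∈ A ↔ ev x N v s = 0 := by
  classical
  rw [ev_eq_zero_iff hx hs hs0, ← hA v, ← Multiset.count_pos, Nat.cast_pos]

end Sections

section Abs

/-- A family of absolute values on `K` indexed by `V`: all but finitely many nonarchimedean, every nonzero
element has absolute value one at almost all of them, all nontrivial. -/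
structure AbsFam (K : Type*) [Field K] (V : Type*) where
  abv : V → AbsoluteValue K ℝ
  arch : Set V
  arch_finite : arch.Finite
  nonarch : ∀ v, v ∉ arch → IsNonarchimedean (abv v)
  finite_ne_one : ∀ a : K, a ≠ 0 → {v | abv v a ≠ 1}.Finite
  exists_lt_one : ∀ v, ∃ a : K, a ≠ 0 ∧ abv v a < 1

variable {K : Type*} [Field K] {V : Type*}

/-- M-constants: `C v ≥ 1` for all `v` and `C v = 1` for almost all `v`. -/
def IsMC (C : V → ℝ) : Prop := (∀ v, 1 ≤ C v) ∧ {v | C v ≠ 1}.Finite

theorem IsMC.one_le {C : V → ℝ} (h : IsMC C) (v : V) : 1 ≤ C v := h.1 v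
theorem IsMC.pos {C : V → ℝ} (h : IsMC C) (v : V) : 0 < C v := zero_lt_one.trans_le (h.1 v)
theorem IsMC.nonneg {C : V → ℝ} (h : IsMC C) (v : V) : 0 ≤ C v := (h.pos v).le

theorem isMC_one : IsMC (fun _ : V => (1 : ℝ)) := ⟨fun _ => le_rfl, by simp⟩

theorem IsMC.mul {C D : V → ℝ} (hC : IsMC C) (hD : IsMC D) : IsMC (fun v => C v * D v) := by
  refine ⟨fun v => one_le_mul_of_one_le_of_one_le (hC.1 v) (hD.1 v), ?_⟩
  refine (hC.2.union hD.2).subset fun v hv => ?_
  by_contra h
  have h1 : C v = 1 := by by_contra h'; exact h (Or.inl h')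
  have h2 : D v = 1 := by by_contra h'; exact h (Or.inr h')
  exact hv (by show C v * D v = 1; rw [h1, h2, one_mul])

theorem IsMC.pow {C : V → ℝ} (hC : IsMC C) (n : ℕ) : IsMC (fun v => C v ^ n) := by
  refine ⟨fun v => one_le_pow₀ (hC.1 v), hC.2.subset fun v hv h => hv (by simp [h])⟩

theorem IsMC.max {C D : V → ℝ} (hC : IsMC C) (hD : IsMC D) : IsMC (fun v => max (C v) (D v)) := by
  refine ⟨fun v => (hC.1 v).trans (le_max_left _ _), ?_⟩
  refine (hC.2.union hD.2).subset fun v hv => ?_
  by_contra h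
  have h1 : C v = 1 := by by_contra h'; exact h (Or.inl h')
  have h2 : D v = 1 := by by_contra h'; exact h (Or.inr h')
  exact hv (by show Max.max (C v) (D v) = 1; rw [h1, h2, max_self])

theorem IsMC.prod {ι : Type*} (S : Finset ι) {C : ι → V → ℝ} (hC : ∀ i ∈ S, IsMC (C i)) :
    IsMC (fun v => ∏ i ∈ S, C i v) := by
  classical
  induction S using Finset.induction_on with
  | empty => simpa using isMC_one
  | insert a S ha ih =>
    have := (hC a (Finset.mem_insert_self a S)).mul (ih fun i hi => hC i (Finset.mem_insert_of_mem hi))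
    have e : (fun v => ∏ i ∈ insert a S, C i v) = fun v => C a v * ∏ i ∈ S, C i v :=
      funext fun v => Finset.prod_insert ha
    rw [e]; exact this

/-- a single `M`-constant dominating a finite family -/
theorem exists_isMC_forall {ι : Type*} [Finite ι] {C : ι → V → ℝ} (hC : ∀ i, IsMC (C i)) :
    ∃ D, IsMC D ∧ ∀ i v, C i v ≤ D v := by
  classical
  have := Fintype.ofFinite ι
  refine ⟨fun v => ∏ i, C i v, IsMC.prod Finset.univ fun i _ => hC i, fun i v => ?_⟩
  show C i v ≤ ∏ i, C i v
  rw [← Finset.mul_prod_erase Finset.univ (fun i => C i v) (Finset.mem_univ i)]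
  exact le_mul_of_one_le_right (hC i |>.nonneg v)
    (Finset.one_le_prod (fun j _ => (hC j).1 v))

variable (𝔸 : AbsFam K V)

theorem AbsFam.exists_isMC_abv_le (a : K) : ∃ C, IsMC C ∧ ∀ v, 𝔸.abv v a ≤ C v := by
  by_cases ha : a = 0
  · exact ⟨_, isMC_one, fun v => by rw [ha, map_zero]; exact zero_le_one⟩
  refine ⟨fun v => max 1 (𝔸.abv v a), ⟨fun v => le_max_left _ _, ?_⟩, fun v => le_max_right _ _⟩
  exact (𝔸.finite_ne_one a ha).subset fun v hv h => hv (by simp [h])

open Classical in
/-- the constant `n` at archimedean places and `1` elsewhere -/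
def AbsFam.card (n : ℕ) (v : V) : ℝ := if v ∈ 𝔸.arch then max 1 (n : ℝ) else 1

theorem AbsFam.isMC_card (n : ℕ) : IsMC (𝔸.card n) := by
  refine ⟨fun v => ?_, 𝔸.arch_finite.subset fun v hv => ?_⟩
  · rw [AbsFam.card]; split_ifs
    · exact le_max_left _ _
    · exact le_rfl
  · by_contra h
    exact hv (by rw [AbsFam.card, if_neg h])

theorem AbsFam.abv_sum_le {ι : Type*} (S : Finset ι) (f : ι → K) (v : V) {B : ℝ} (hB : 0 ≤ B)
    (h : ∀ i ∈ S, 𝔸.abv v (f i) ≤ B) : 𝔸.abv v (∑ i ∈ S, f i) ≤ 𝔸.card S.card v * B := by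
  classical
  by_cases hv : v ∈ 𝔸.arch
  · rw [AbsFam.card, if_pos hv]
    calc 𝔸.abv v (∑ i ∈ S, f i) ≤ ∑ i ∈ S, 𝔸.abv v (f i) := (𝔸.abv v).sum_le _ _
      _ ≤ ∑ _i ∈ S, B := Finset.sum_le_sum h
      _ = S.card * B := by rw [Finset.sum_const, nsmul_eq_mul]
      _ ≤ _ := mul_le_mul_of_nonneg_right (le_max_right _ _) hB
  · rw [AbsFam.card, if_neg hv, one_mul]
    induction S using Finset.induction_on with
    | empty => simpa using hB
    | insert a S ha ih =>
      rw [Finset.sum_insert ha]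
      exact (𝔸.nonarch v hv _ _).trans (max_le (h a (Finset.mem_insert_self a S))
        (ih fun i hi => h i (Finset.mem_insert_of_mem hi)))

end Abs

section Setup

variable (K F : Type*) [Field K] [Field F] [Algebra K F] (V : Type*)

/-- The data for local height theory: a nonconstant function `x` with pole divisor `D`, bases of all the
spaces `L(N D)`, a family of absolute values; the sections of `D` generate both affine coordinate rings. -/
structure HSetup where
  x : F
  hx : Transcendental K x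
  𝔸 : AbsFam K V
  r : ℕ → ℕ
  b : ∀ N, Module.Basis (Fin (r N)) K (W K x N)
  gen0 : ∀ f : F, (∀ v : Place K F, x ∈ v.toValuationSubring → f ∈ v.toValuationSubring) →
    f ∈ Algebra.adjoin K (W K x 1 : Set F)
  gen1 : ∀ f : F, (∀ v : Place K F, x⁻¹ ∈ v.toValuationSubring → f ∈ v.toValuationSubring) →
    f ∈ Algebra.adjoin K ((fun s => s * x⁻¹) '' (W K x 1 : Set F))

variable {K F V}
variable (S : HSetup K F V)

namespace HSetup

/-- the degree of the pole divisor of `x` -/
def d : ℕ := Module.finrank (IntermediateField.adjoin K {S.x}) F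

open Classical in
/-- sup norm of a section in the chosen basis (junk value `0` outside `W`) -/
def nrm (N : ℕ) (v : V) (s : F) : ℝ :=
  if h : s ∈ W K S.x N then ⨆ i : Fin (S.r N), S.𝔸.abv v ((S.b N).repr ⟨s, h⟩ i) else 0

/-- coordinates of the place `P` -/
def e (P : Place K F) (i : Fin (S.r 1)) : K := ev S.x 1 P ((S.b 1 i : W K S.x 1) : F)

/-- size of the coordinate vector of `P` -/
def w (v : V) (P : Place K F) : ℝ := ⨆ i : Fin (S.r 1), S.𝔸.abv v (S.e P i)

/-- chordal distance of two places -/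
def dist (v : V) (P Q : Place K F) : ℝ :=
  (⨆ ij : Fin (S.r 1) × Fin (S.r 1),
    S.𝔸.abv v (S.e P ij.1 * S.e Q ij.2 - S.e P ij.2 * S.e Q ij.1)) / (S.w v P * S.w v Q)

end HSetup

end Setup

end Fermat.Agent.H17
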