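/-
H87AbsQ: absolute values on the algebraic closure of ℚ extending the standard ones.
-/
import Mathlib
import Fermat.Agent.H17Defs

set_option autoImplicit false

noncomputable section

namespace Fermat.Agent.H87AbsQ

open Fermat.Agent.H17

local notation "Qb" => AlgebraicClosure ℚ

/-- an embedding of the algebraic closure into the complex numbers -/
def toC : Qb →+* ℂ :=
  haveI : Algebra.IsAlgebraic ℚ Qb := AlgebraicClosure.isAlgebraic ℚ
  (IsAlgClosed.lift (R := ℚ) (S := Qb) (M := ℂ)).toRingHom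

/-- an embedding of the algebraic closure into the algebraic closure of the `p`-adic numbers -/
def toP (p : Nat.Primes) : haveI : Fact (p : ℕ).Prime := ⟨p.2⟩; Qb →+* PadicAlgCl (p : ℕ) :=
  haveI : Fact (p : ℕ).Prime := ⟨p.2⟩
  haveI : Algebra.IsAlgebraic ℚ Qb := AlgebraicClosure.isAlgebraic ℚ
  (IsAlgClosed.lift (R := ℚ) (S := Qb) (M := PadicAlgCl (p : ℕ))).toRingHom

/-- absolute value pulled back along a ring homomorphism to a normed field -/
def absOf {L : Type*} [NormedField L] (f : Qb →+* L) : AbsoluteValue Qb ℝ where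
  toFun a := ‖f a‖
  map_mul' a b := by rw [map_mul, norm_mul]
  nonneg' a := norm_nonneg _
  eq_zero' a := by rw [norm_eq_zero, map_eq_zero]
  add_le' a b := by rw [map_add]; exact norm_add_le _ _

theorem absOf_apply {L : Type*} [NormedField L] (f : Qb →+* L) (a : Qb) : absOf f a = ‖f a‖ := rfl

/-- the archimedean absolute value -/
def absInf : AbsoluteValue Qb ℝ := absOf toC

/-- the `p`-adic absolute value -/
def absP (p : Nat.Primes) : AbsoluteValue Qb ℝ :=
  haveI : Fact (p : ℕ).Prime := ⟨p.2⟩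
  absOf (toP p)

theorem absInf_rat (q : ℚ) : absInf (algebraMap ℚ Qb q) = |(q : ℝ)| := by
  rw [absInf, absOf_apply, eq_ratCast, map_ratCast, ← Complex.ofReal_ratCast, Complex.norm_real,
    Real.norm_eq_abs]

theorem absP_rat (p : Nat.Primes) (q : ℚ) :
    absP p (algebraMap ℚ Qb q) = (padicNorm p q : ℝ) := by
  have : Fact (p : ℕ).Prime := ⟨p.2⟩
  have h1 : absP p (algebraMap ℚ Qb q) = ‖toP p (algebraMap ℚ Qb q)‖ := rfl
  have h2 : toP p (algebraMap ℚ Qb q) = algebraMap ℚ_[(p : ℕ)] (PadicAlgCl (p : ℕ)) (q : ℚ_[(p : ℕ)]) := by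
    rw [eq_ratCast, map_ratCast, map_ratCast]
  rw [h1, h2, norm_algebraMap', Padic.eq_padicNorm]

theorem absP_nonarch (p : Nat.Primes) : IsNonarchimedean (absP p) := by
  have : Fact (p : ℕ).Prime := ⟨p.2⟩
  intro a b
  have h := PadicAlgCl.isNonarchimedean (p : ℕ) (toP p a) (toP p b)
  have h1 : absP p (a + b) = ‖toP p a + toP p b‖ := by
    rw [← map_add]; rfl
  rw [h1]; exact h

/-- an integral element has `p`-adic absolute value at most one -/
theorem absP_le_one_of_isIntegral (p : Nat.Primes) {a : Qb} (ha : IsIntegral ℤ a) :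
    absP p a ≤ 1 := by
  have hna := absP_nonarch p
  obtain ⟨f, hf, hfa⟩ := ha
  by_contra hlt
  rw [not_le] at hlt
  -- a ^ n = - sum_{i<n} c_i a^i
  set n := f.natDegree with hn
  have hint : ∀ z : ℤ, absP p (z : Qb) ≤ 1 := by
    intro z
    have := absP_rat p (z : ℚ)
    rw [eq_ratCast, Rat.cast_intCast] at this
    rw [this]
    have : Fact (p : ℕ).Prime := ⟨p.2⟩
    exact_mod_cast padicNorm.of_int z
  have hsum : a ^ n = - ∑ i ∈ Finset.range n, (f.coeff i : Qb) * a ^ i := by
    have h := hfa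
    rw [Polynomial.eval₂_eq_sum_range, Finset.sum_range_succ, ← hn] at h
    have h2 : f.coeff n = 1 := hf
    rw [h2] at h
    simp only [eq_intCast, Int.cast_one, one_mul] at h
    exact (eq_neg_of_add_eq_zero_right h)
  have hn0 : n ≠ 0 := by
    intro h0
    rw [h0, pow_zero, Finset.range_zero, Finset.sum_empty, neg_zero] at hsum
    exact one_ne_zero hsum
  have hle : ∀ m : ℕ, m ≤ n → absP p (∑ i ∈ Finset.range m, (f.coeff i : Qb) * a ^ i) ≤
      absP p a ^ (n - 1) := by
    intro m
    induction m with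
    | zero => intro _; rw [Finset.range_zero, Finset.sum_empty, map_zero]; positivity
    | succ m ih =>
      intro hm
      rw [Finset.sum_range_succ]
      refine (hna _ _).trans (max_le (ih (by omega)) ?_)
      rw [map_mul, map_pow]
      calc absP p (f.coeff m : Qb) * absP p a ^ m ≤ 1 * absP p a ^ m :=
            mul_le_mul_of_nonneg_right (hint _) (by positivity)
        _ = absP p a ^ m := one_mul _
        _ ≤ absP p a ^ (n - 1) := pow_le_pow_right₀ hlt.le (by omega)
  have h1 := hle n le_rfl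
  have h2 : absP p a ^ n ≤ absP p a ^ (n - 1) := by
    calc absP p a ^ n = absP p (a ^ n) := (map_pow _ _ _).symm
      _ = absP p (∑ i ∈ Finset.range n, (f.coeff i : Qb) * a ^ i) := by
          rw [hsum, map_neg_eq_map]
      _ ≤ _ := h1
  have h3 : absP p a ^ (n - 1) < absP p a ^ n := pow_lt_pow_right₀ hlt (by omega)
  exact absurd h2 (not_le.mpr h3)

/-- every algebraic number has a nonzero integer multiple which is integral -/
theorem exists_int_mul_integral (a : Qb) : ∃ m : ℤ, m ≠ 0 ∧ IsIntegral ℤ ((m : Qb) * a) := by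
  have : Algebra.IsAlgebraic ℚ Qb := AlgebraicClosure.isAlgebraic ℚ
  have h : IsAlgebraic ℤ a := by
    have h1 : IsAlgebraic ℚ a := Algebra.IsAlgebraic.isAlgebraic a
    exact (IsFractionRing.isAlgebraic_iff ℤ ℚ Qb).mpr h1
  obtain ⟨m, hm, hint⟩ := h.exists_integral_multiple
  exact ⟨m, hm, by rwa [zsmul_eq_mul] at hint⟩

/-- an integral nonzero algebraic number times an integral inverse: absolute value one outside a finite set -/
theorem finite_absP_ne_one {a : Qb} (ha : a ≠ 0) : {p : Nat.Primes | absP p a ≠ 1}.Finite := by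
  obtain ⟨m, hm, hma⟩ := exists_int_mul_integral a
  obtain ⟨n, hn, hna⟩ := exists_int_mul_integral a⁻¹
  have hmn : m * n ≠ 0 := mul_ne_zero hm hn
  have hfin : {p : ℕ | p ∣ (m * n).natAbs}.Finite :=
    (Nat.divisors (m * n).natAbs).finite_toSet.subset fun p hp => by
      rw [Finset.mem_coe, Nat.mem_divisors]
      exact ⟨hp, Int.natAbs_ne_zero.mpr hmn⟩
  refine (hfin.preimage (f := fun p : Nat.Primes => (p : ℕ))
    (Set.injOn_of_injective Nat.Primes.coe_nat_injective)).subset fun p hp => ?_
  by_contra hdiv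
  apply hp
  have : Fact (p : ℕ).Prime := ⟨p.2⟩
  have hdiv' : ¬ (p : ℕ) ∣ (m * n).natAbs := hdiv
  have hone : ∀ z : ℤ, z ∣ m * n → absP p (z : Qb) = 1 := by
    intro z hz
    have h1 := absP_rat p (z : ℚ)
    rw [eq_ratCast, Rat.cast_intCast] at h1
    rw [h1]
    have h2 : padicNorm p (z : ℚ) = 1 := by
      rw [padicNorm.int_eq_one_iff]
      intro h
      apply hdiv'
      rw [← Int.natCast_dvd_natCast]
      exact (h.trans hz).trans (Int.dvd_natAbs.mpr dvd_rfl)
    rw [h2, Rat.cast_one]
  have h1 := absP_le_one_of_isIntegral p hma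
  have h2 := absP_le_one_of_isIntegral p hna
  rw [map_mul, hone m (Dvd.intro _ rfl), one_mul] at h1
  rw [map_mul, hone n (Dvd.intro_left _ rfl), one_mul, map_inv₀] at h2
  have h3 : 0 < absP p a := (absP p).pos ha
  refine le_antisymm h1 ?_
  exact (inv_le_one₀ h3).mp h2

theorem exists_std : ∃ 𝔸 : AbsFam Qb (Option Nat.Primes),
    (∀ q : ℚ, 𝔸.abv none (algebraMap ℚ Qb q) = |(q : ℝ)|) ∧
    (∀ (p : Nat.Primes) (q : ℚ), 𝔸.abv (some p) (algebraMap ℚ Qb q) = (padicNorm p q : ℝ)) ∧
    (∀ p : Nat.Primes, (some p : Option Nat.Primes) ∉ 𝔸.arch) := by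
  refine ⟨{ abv := fun v => v.elim absInf absP
            arch := {none}
            arch_finite := Set.finite_singleton _
            nonarch := ?_
            finite_ne_one := ?_
            exists_lt_one := ?_ }, absInf_rat, absP_rat, fun p h => by cases h⟩
  · rintro (_ | p) hv
    · exact absurd rfl hv
    · exact absP_nonarch p
  · intro a ha
    have h := (finite_absP_ne_one ha).image (some : Nat.Primes → Option Nat.Primes)
    refine (h.union (Set.finite_singleton none)).subset ?_
    rintro (_ | p) hv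
    · exact Or.inr rfl
    · exact Or.inl ⟨p, hv, rfl⟩
  · rintro (_ | p)
    · refine ⟨algebraMap ℚ Qb (1/2), ?_, ?_⟩
      · rw [Ne, map_eq_zero]; norm_num
      · show absInf _ < 1
        rw [absInf_rat]
        norm_num [abs_of_pos]
    · refine ⟨algebraMap ℚ Qb (p : ℕ), ?_, ?_⟩
      · rw [Ne, map_eq_zero]
        exact_mod_cast p.2.ne_zero
      · show absP p _ < 1
        rw [absP_rat]
        have : Fact (p : ℕ).Prime := ⟨p.2⟩
        have h : padicNorm p ((p : ℕ) : ℚ) < 1 := padicNorm.padicNorm_p_lt_one_of_prime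
        exact_mod_cast h

end Fermat.Agent.H87AbsQ
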