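/-
H17Abs: the standard family of absolute values on the algebraic closure of ℚ
(project S17; statements frozen by helper17, proofs by the job owner; helper lemmas may be added)
-/
import Mathlib
import Fermat.Agent.H17Defs
import Fermat.Agent.H87AbsQ

set_option autoImplicit false

noncomputable section

namespace Fermat.Agent.H17

abbrev Qb := AlgebraicClosure ℚ

/-- places of `ℚ` -/
abbrev V0 := Option Nat.Primes

/-- one extension to `Qb` of each absolute value of `ℚ` -/
theorem exists_stdAbs : ∃ 𝔸 : AbsFam Qb V0,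
    (∀ q : ℚ, 𝔸.abv none (algebraMap ℚ Qb q) = |(q : ℝ)|) ∧
    (∀ (p : Nat.Primes) (q : ℚ), 𝔸.abv (some p) (algebraMap ℚ Qb q) = (padicNorm p q : ℝ)) ∧
    (∀ p : Nat.Primes, (some p : V0) ∉ 𝔸.arch) := H87AbsQ.exists_std

def stdAbs : AbsFam Qb V0 := exists_stdAbs.choose

theorem stdAbs_none (q : ℚ) : stdAbs.abv none (algebraMap ℚ Qb q) = |(q : ℝ)| :=
  exists_stdAbs.choose_spec.1 q

theorem stdAbs_some (p : Nat.Primes) (q : ℚ) :
    stdAbs.abv (some p) (algebraMap ℚ Qb q) = (padicNorm p q : ℝ) := exists_stdAbs.choose_spec.2.1 p q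

theorem some_notMem_arch (p : Nat.Primes) : (some p : V0) ∉ stdAbs.arch :=
  exists_stdAbs.choose_spec.2.2 p

theorem finite_log_abv_ne_zero {a : Qb} (ha : a ≠ 0) :
    (Function.support fun v : V0 => Real.log (stdAbs.abv v a)).Finite := by
  refine (stdAbs.finite_ne_one a ha).subset fun v hv h => hv ?_
  show Real.log (stdAbs.abv v a) = 0
  rw [h, Real.log_one]

theorem sum_log_abv_mul {a b : Qb} (ha : a ≠ 0) (hb : b ≠ 0) :
    ∑ᶠ v : V0, Real.log (stdAbs.abv v (a * b)) =
      ∑ᶠ v : V0, Real.log (stdAbs.abv v a) + ∑ᶠ v : V0, Real.log (stdAbs.abv v b) := by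
  rw [← finsum_add_distrib (finite_log_abv_ne_zero ha) (finite_log_abv_ne_zero hb)]
  refine finsum_congr fun v => ?_
  rw [map_mul, Real.log_mul ((stdAbs.abv v).ne_zero ha) ((stdAbs.abv v).ne_zero hb)]

theorem sum_log_abv_one : ∑ᶠ v : V0, Real.log (stdAbs.abv v (1 : Qb)) = 0 := by
  have h : ∀ v : V0, Real.log (stdAbs.abv v (1 : Qb)) = 0 := fun v => by rw [map_one, Real.log_one]
  rw [finsum_congr h, finsum_zero]

theorem sum_log_abv_neg (a : Qb) : ∑ᶠ v : V0, Real.log (stdAbs.abv v (-a)) =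
    ∑ᶠ v : V0, Real.log (stdAbs.abv v a) := by
  refine finsum_congr fun v => ?_
  rw [AbsoluteValue.map_neg]

theorem sum_log_abv_primes (P : Nat.Primes) :
    ∑ᶠ v : V0, Real.log (stdAbs.abv v (algebraMap ℚ Qb ((P : ℕ) : ℚ))) = 0 := by
  have : Fact (P : ℕ).Prime := ⟨P.2⟩
  have hPn : (none : V0) ≠ some P := (Option.some_ne_none _).symm
  have hsupp : (Function.support fun v : V0 =>
      Real.log (stdAbs.abv v (algebraMap ℚ Qb ((P : ℕ) : ℚ)))) ⊆
      (({none, some P} : Finset V0) : Set V0) := by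
    rintro (_ | q) hv
    · exact Finset.mem_coe.mpr (Finset.mem_insert_self _ _)
    · by_cases hq : q = P
      · rw [hq]
        exact Finset.mem_coe.mpr (Finset.mem_insert_of_mem (Finset.mem_singleton_self _))
      · exfalso
        apply hv
        have hq' : (q : ℕ) ≠ P := fun h => hq (Nat.Primes.coe_nat_injective h)
        have : Fact (q : ℕ).Prime := ⟨q.2⟩
        show Real.log (stdAbs.abv (some q) (algebraMap ℚ Qb ((P : ℕ) : ℚ))) = 0
        rw [stdAbs_some, padicNorm.padicNorm_of_prime_of_ne hq', Rat.cast_one, Real.log_one]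
  rw [finsum_eq_sum_of_support_subset _ hsupp, Finset.sum_pair hPn, stdAbs_none, stdAbs_some]
  have h : padicNorm (P : ℕ) ((P : ℕ) : ℚ) = ((P : ℕ) : ℚ)⁻¹ := padicNorm.padicNorm_p_of_prime
  rw [h, Rat.cast_inv, Real.log_inv, Rat.cast_natCast, Nat.abs_cast, add_neg_cancel]

theorem sum_log_abv_prime {p : ℕ} (hp : p.Prime) :
    ∑ᶠ v : V0, Real.log (stdAbs.abv v (algebraMap ℚ Qb (p : ℚ))) = 0 :=
  sum_log_abv_primes ⟨p, hp⟩

theorem sum_log_abv_nat {n : ℕ} (hn : n ≠ 0) :
    ∑ᶠ v : V0, Real.log (stdAbs.abv v (algebraMap ℚ Qb (n : ℚ))) = 0 := by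
  induction n using induction_on_primes with
  | zero => exact absurd rfl hn
  | one => rw [Nat.cast_one, map_one]; exact sum_log_abv_one
  | prime_mul p a hp ih =>
    have ha : a ≠ 0 := fun h => hn (by rw [h, mul_zero])
    rw [Nat.cast_mul, map_mul, sum_log_abv_mul, sum_log_abv_prime hp, ih ha, add_zero]
    · rw [Ne, map_eq_zero]; exact_mod_cast hp.ne_zero
    · rw [Ne, map_eq_zero]; exact_mod_cast ha

/-- product formula -/
theorem sum_log_abv_eq_zero {a : ℚ} (ha : a ≠ 0) :
    ∑ᶠ v : V0, Real.log (stdAbs.abv v (algebraMap ℚ Qb a)) = 0 := by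
  have hd : a.den ≠ 0 := a.den_nz
  have hn : a.num.natAbs ≠ 0 := Int.natAbs_ne_zero.mpr (Rat.num_ne_zero.mpr ha)
  have ha' : algebraMap ℚ Qb a ≠ 0 := by rw [Ne, map_eq_zero]; exact ha
  have h1 : a * (a.den : ℚ) = a.num := Rat.mul_den_eq_num a
  have h2 := sum_log_abv_mul ha' (b := algebraMap ℚ Qb (a.den : ℚ))
    (by rw [Ne, map_eq_zero]; exact_mod_cast hd)
  rw [← map_mul, h1, sum_log_abv_nat hd, add_zero] at h2
  rw [← h2]
  have h3 := sum_log_abv_nat hn
  rcases Int.natAbs_eq a.num with h | h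
  · rw [h, Int.cast_natCast]; exact h3
  · rw [h, Int.cast_neg, Int.cast_natCast, map_neg, sum_log_abv_neg]; exact h3

/-- elements fixed by the Galois group are rational -/
theorem exists_rat_of_fixed {a : Qb} (h : ∀ σ : Qb ≃ₐ[ℚ] Qb, σ a = a) : ∃ q : ℚ, algebraMap ℚ Qb q = a := by
  have : Algebra.IsAlgebraic ℚ Qb := AlgebraicClosure.isAlgebraic ℚ
  have : IsGalois ℚ Qb := by
    have h1 : Normal ℚ Qb := normal_iff.mpr fun x =>
      ⟨Algebra.IsIntegral.isIntegral x, IsAlgClosed.splits _⟩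
    exact { to_isSeparable := inferInstance, to_normal := h1 }
  have h1 : a ∈ (⊥ : IntermediateField ℚ Qb) := (InfiniteGalois.mem_bot_iff_fixed a).mpr h
  exact IntermediateField.mem_bot.mp h1

theorem sum_log_abv_eq_zero_of_fixed {a : Qb} (ha : a ≠ 0) (h : ∀ σ : Qb ≃ₐ[ℚ] Qb, σ a = a) :
    ∑ᶠ v : V0, Real.log (stdAbs.abv v a) = 0 := by
  obtain ⟨q, rfl⟩ := exists_rat_of_fixed h
  refine sum_log_abv_eq_zero fun hq => ha ?_
  rw [hq, map_zero]

/-- elements fixed up to sign also satisfy the product formula -/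
theorem sum_log_abv_eq_zero_of_sq {a : Qb} (ha : a ≠ 0)
    (h : ∀ σ : Qb ≃ₐ[ℚ] Qb, σ a = a ∨ σ a = - a) :
    ∑ᶠ v : V0, Real.log (stdAbs.abv v a) = 0 := by
  have h1 : ∑ᶠ v : V0, Real.log (stdAbs.abv v (a * a)) = 0 := by
    refine sum_log_abv_eq_zero_of_fixed (mul_ne_zero ha ha) fun σ => ?_
    rw [map_mul]
    rcases h σ with h | h <;> rw [h]
    ring
  rw [sum_log_abv_mul ha ha] at h1
  linarith

/-! ### Northcott -/

theorem log_max_support_finite {a : ℚ} :
    (Function.support fun v : V0 => Real.log (max 1 (stdAbs.abv v (algebraMap ℚ Qb a)))).Finite := by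
  by_cases ha : a = 0
  · subst ha
    convert Set.finite_empty
    ext v
    simp
  · refine (stdAbs.finite_ne_one (algebraMap ℚ Qb a) (by rw [Ne, map_eq_zero]; exact ha)).subset
      fun v hv h => hv ?_
    show Real.log (max 1 (stdAbs.abv v (algebraMap ℚ Qb a))) = 0
    rw [h, max_self, Real.log_one]

/-- lower bounds for the height of a rational number -/
theorem log_den_le_finsum (a : ℚ) :
    Real.log (a.den : ℝ) ≤
      ∑ᶠ v : V0, Real.log (max 1 (stdAbs.abv v (algebraMap ℚ Qb a))) := by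
  -- log den = -∑_p log |den|_p ≤ ∑_p log max(1, |a|_p)
  have hd : a.den ≠ 0 := a.den_nz
  have h0 := sum_log_abv_nat hd
  have hden : (algebraMap ℚ Qb (a.den : ℚ)) ≠ 0 := by rw [Ne, map_eq_zero]; exact_mod_cast hd
  have key : ∀ v : V0, (if v = none then Real.log (a.den : ℝ) else 0) ≤
      Real.log (max 1 (stdAbs.abv v (algebraMap ℚ Qb a))) +
        Real.log (stdAbs.abv v (algebraMap ℚ Qb (a.den : ℚ))) := by
    intro v
    have hpos : 0 < stdAbs.abv v (algebraMap ℚ Qb (a.den : ℚ)) := (stdAbs.abv v).pos hden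
    rcases v with _ | p
    · rw [if_pos rfl, stdAbs_none, stdAbs_none, Rat.cast_natCast, Nat.abs_cast]
      have : 0 ≤ Real.log (max 1 |(a : ℝ)|) := Real.log_nonneg (le_max_left _ _)
      linarith
    · rw [if_neg (by simp)]
      rw [← Real.log_mul (by positivity) hpos.ne']
      refine Real.log_nonneg ?_
      rw [max_mul_of_nonneg _ _ hpos.le, one_mul, ← map_mul, ← map_mul, Rat.mul_den_eq_num]
      rw [stdAbs_some, stdAbs_some]
      have : Fact (p : ℕ).Prime := ⟨p.2⟩
      by_cases hp : ((p : ℕ) : ℤ) ∣ (a.den : ℤ)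
      · -- then p does not divide num
        refine le_max_of_le_right ?_
        have hn : ¬ ((p : ℕ) : ℤ) ∣ a.num := by
          intro hn
          have hc := a.reduced
          have h1 : (p : ℕ) ∣ a.num.natAbs := Int.natCast_dvd.mp hn
          have h2 : (p : ℕ) ∣ a.den := Int.natCast_dvd_natCast.mp hp
          have h3 := Nat.dvd_gcd h1 h2
          rw [Nat.Coprime] at hc
          rw [hc] at h3
          exact p.2.one_lt.ne' (Nat.dvd_one.mp h3)
        rw [(padicNorm.int_eq_one_iff a.num).mpr hn, Rat.cast_one]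
      · refine le_max_of_le_left ?_
        have := (padicNorm.int_eq_one_iff (p := (p : ℕ)) (a.den : ℤ)).mpr hp
        rw [Int.cast_natCast] at this
        rw [this, Rat.cast_one]
  have hf1 : (Function.support fun v : V0 => (if v = none then Real.log (a.den : ℝ) else 0)).Finite := by
    refine (Set.finite_singleton (none : V0)).subset fun v hv => ?_
    by_contra h
    exact hv (if_neg h)
  have h1 := finsum_le_finsum' hf1
    ((log_max_support_finite (a := a)).union (finite_log_abv_ne_zero hden) |>.subset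
      (Function.support_add _ _)) key
  rw [finsum_add_distrib log_max_support_finite (finite_log_abv_ne_zero hden), h0, add_zero] at h1
  have h2 : ∑ᶠ v : V0, (if v = none then Real.log (a.den : ℝ) else 0) = Real.log (a.den : ℝ) := by
    rw [finsum_eq_single _ none (fun v hv => if_neg hv), if_pos rfl]
  rwa [h2] at h1

theorem log_num_le_finsum (a : ℚ) :
    Real.log |(a : ℝ)| ≤
      ∑ᶠ v : V0, Real.log (max 1 (stdAbs.abv v (algebraMap ℚ Qb a))) := by
  by_cases ha : a = 0
  · subst ha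
    rw [Rat.cast_zero, abs_zero, Real.log_zero]
    exact finsum_nonneg fun v => Real.log_nonneg (le_max_left _ _)
  have h1 : Real.log |(a : ℝ)| ≤ Real.log (max 1 (stdAbs.abv none (algebraMap ℚ Qb a))) := by
    rw [stdAbs_none]
    exact Real.log_le_log (by positivity) (le_max_right _ _)
  refine h1.trans ?_
  exact single_le_finsum none log_max_support_finite fun v => Real.log_nonneg (le_max_left _ _)

/-- Northcott for `ℚ` -/
theorem northcott_rat (B : ℝ) :
    {a : ℚ | ∑ᶠ v : V0, Real.log (max 1 (stdAbs.abv v (algebraMap ℚ Qb a))) ≤ B}.Finite := by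
  obtain ⟨N, hN⟩ := exists_nat_ge (Real.exp B)
  -- den ≤ N, |num| ≤ N * N
  have hfin : ((Set.Icc (-(N * N : ℤ)) (N * N)) ×ˢ (Set.Icc 0 N)).Finite :=
    (Set.finite_Icc _ _).prod (Set.finite_Icc (0 : ℕ) N)
  refine (hfin.preimage (f := fun a : ℚ => (a.num, a.den)) (fun a _ b _ h => ?_)).subset fun a ha => ?_
  · simp only [Prod.mk.injEq] at h
    exact Rat.ext h.1 h.2
  · have ha' : ∑ᶠ v : V0, Real.log (max 1 (stdAbs.abv v (algebraMap ℚ Qb a))) ≤ B := ha
    have h1 := (log_den_le_finsum a).trans ha'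
    have h2 := (log_num_le_finsum a).trans ha'
    have hdpos : 0 < (a.den : ℝ) := by exact_mod_cast a.den_pos
    have hden : (a.den : ℝ) ≤ N := by
      rw [Real.log_le_iff_le_exp hdpos] at h1
      exact h1.trans hN
    have habs : |(a : ℝ)| ≤ N := by
      by_cases h0 : a = 0
      · rw [h0, Rat.cast_zero, abs_zero]; exact Nat.cast_nonneg N
      · have : 0 < |(a : ℝ)| := abs_pos.mpr (by exact_mod_cast h0)
        rw [Real.log_le_iff_le_exp this] at h2
        exact h2.trans hN
    have hnum : |(a.num : ℝ)| ≤ N * N := by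
      have e : (a.num : ℝ) = a * a.den := by
        exact_mod_cast (Rat.mul_den_eq_num a).symm
      rw [e, abs_mul, Nat.abs_cast]
      exact mul_le_mul habs hden (Nat.cast_nonneg _) (Nat.cast_nonneg _)
    have hnum' : |a.num| ≤ N * N := by exact_mod_cast hnum
    refine ⟨⟨(abs_le.mp hnum').1, (abs_le.mp hnum').2⟩, ⟨Nat.zero_le _, by exact_mod_cast hden⟩⟩

/-! ### finite-support sums over places -/

theorem IsMC.finite_support_log {C : V0 → ℝ} (hC : IsMC C) :
    (Function.support fun v => Real.log (C v)).Finite := by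
  refine hC.2.subset fun v hv h => hv ?_
  show Real.log (C v) = 0
  rw [h, Real.log_one]

/-- passing from local to global inequalities -/
theorem IsMC.finsum_le {C : V0 → ℝ} (hC : IsMC C) {f g : V0 → ℝ} (hf : (Function.support f).Finite)
    (hg : (Function.support g).Finite) (h : ∀ v, f v ≤ Real.log (C v) + g v) :
    ∑ᶠ v, f v ≤ (∑ᶠ v, Real.log (C v)) + ∑ᶠ v, g v := by
  rw [← finsum_add_distrib hC.finite_support_log hg]
  exact finsum_le_finsum' hf ((hC.finite_support_log.union hg).subset (Function.support_add _ _)) h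

theorem IsMC.finsum_log_nonneg {C : V0 → ℝ} (hC : IsMC C) : 0 ≤ ∑ᶠ v, Real.log (C v) :=
  finsum_nonneg fun v => Real.log_nonneg (hC.1 v)

end Fermat.Agent.H17
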