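/-
H17Zer: zeros of sections (project S17; statements frozen by helper17, proofs by helper14)
-/
import Mathlib
import Fermat.Agent.H17Defs

set_option autoImplicit false

noncomputable section

open AlgebraicCurve WithZero Polynomial

namespace Fermat.Agent.H17

open Fermat.Agent.H3RR

/-! ### L1: zeros of sections (file H17Zer) -/
section Zer

variable {K F : Type*} [Field K] [Field F] [Algebra K F] [IsAlgClosed K] [IsFF K F]

theorem ord_pow_nat (v : Place K F) (f : F) (n : ℕ) : v.ord (f ^ n) = n * v.ord f := by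
  rw [← zpow_natCast, v.ord_zpow]

theorem ord_nf {x : F} (hx : Transcendental K x) (v : Place K F) :
    v.ord (nf x v) = (poleDiv x : Divisor K F) v := by
  have hx0 := transcendental_ne_zero hx
  rw [poleDiv_apply hx0]
  by_cases h : x ∈ v.toValuationSubring
  · rw [nf_of_mem h, v.ord_one]
    have := (mem_place_iff_ord v hx0).mp h
    omega
  · rw [nf_of_notMem h, v.ord_inv]
    have := (mem_place_iff_ord v hx0).not.mp h
    omega

/-- the order of a section in terms of divisors -/
theorem ord_sec {x : F} (hx : Transcendental K x) (N : ℕ) {s : F} (hs0 : s ≠ 0) (v : Place K F) :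
    v.ord (s * nf x v ^ N) = (divOf s + N • (poleDiv x : Divisor K F) : Divisor K F) v := by
  have hx0 := transcendental_ne_zero hx
  rw [v.ord_mul hs0 (pow_ne_zero _ (nf_ne_zero hx0 v)), ord_pow_nat, ord_nf hx, Finsupp.add_apply,
    divOf_apply hs0, Finsupp.smul_apply, nsmul_eq_mul]

theorem mem_W_iff_ord {x : F} (hx : Transcendental K x) (N : ℕ) {s : F} (hs0 : s ≠ 0) :
    s ∈ W K x N ↔ ∀ v : Place K F, 0 ≤ v.ord (s * nf x v ^ N) := by
  have hx0 := transcendental_ne_zero hx
  rw [mem_W]
  exact forall_congr' fun v => mem_place_iff_ord v (mul_ne_zero hs0 (pow_ne_zero _ (nf_ne_zero hx0 v)))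

/-- `W K x N = L(N D)`, `D` the pole divisor of `x` -/
theorem mem_W_iff_mem_L {x : F} (hx : Transcendental K x) (N : ℕ) (s : F) :
    s ∈ W K x N ↔ s ∈ riemannRochSpace (N • (poleDiv x : Divisor K F)) := by
  by_cases hs0 : s = 0
  · rw [hs0]
    exact ⟨fun _ => zero_mem _, fun _ => zero_mem _⟩
  rw [mem_W_iff_ord hx N hs0]
  refine forall_congr' fun v => ?_
  rw [ord_sec hx N hs0, v.adicValuation_eq_exp_neg_ord hs0, exp_le_exp, Finsupp.add_apply,
    divOf_apply hs0]
  constructor <;> intro h <;> linarith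

theorem finite_W {x : F} (hx : Transcendental K x) (N : ℕ) : Module.Finite K (W K x N) := by
  have : W K x N = riemannRochSpace (N • (poleDiv x : Divisor K F)) := by
    ext s; exact mem_W_iff_mem_L hx N s
  rw [this]
  infer_instance

theorem exists_isZer {x : F} (hx : Transcendental K x) {N : ℕ} {s : F} (hs : s ∈ W K x N)
    (hs0 : s ≠ 0) : ∃ A : Multiset (Place K F), IsZer x N s A := by
  classical
  set D : Divisor K F := divOf s + N • (poleDiv x : Divisor K F) with hD
  refine ⟨Finsupp.toMultiset (D.mapRange Int.toNat rfl), fun v => ?_⟩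
  have h1 := (mem_W_iff_ord hx N hs0).mp hs v
  have h2 : Multiset.count v (Finsupp.toMultiset (D.mapRange Int.toNat rfl)) = (D v).toNat := by
    rw [Finsupp.count_toMultiset, Finsupp.mapRange_apply]
  rw [ord_sec hx N hs0] at h1
  have h3 : ((D v).toNat : ℤ) = D v := Int.toNat_of_nonneg h1
  rw [ord_sec hx N hs0, ← hD, ← h3, ← h2]

theorem IsZer.unique {x : F} {N : ℕ} {s : F} {A B : Multiset (Place K F)} (hA : IsZer x N s A)
    (hB : IsZer x N s B) : A = B := by
  classical
  ext v
  have h1 := hA v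
  have h2 := hB v
  have h3 := h1.trans h2.symm
  exact_mod_cast h3

theorem IsZer.count_eq {x : F} (hx : Transcendental K x) {N : ℕ} {s : F} (hs0 : s ≠ 0)
    {A : Multiset (Place K F)} (hA : IsZer x N s A) [DecidableEq (Place K F)] (v : Place K F) :
    ((A.count v : ℕ) : ℤ) = (divOf s + N • (poleDiv x : Divisor K F) : Divisor K F) v := by
  rw [← ord_sec hx N hs0, ← hA v]
  congr!

theorem IsZer.card_eq {x : F} (hx : Transcendental K x) {N : ℕ} {s : F} (hs0 : s ≠ 0)
    {A : Multiset (Place K F)} (hA : IsZer x N s A) :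
    A.card = N * Module.finrank (IntermediateField.adjoin K {x}) F := by
  classical
  set D : Divisor K F := divOf s + N • (poleDiv x : Divisor K F) with hD
  have h1 : Divisor.degree D = N * (Module.finrank (IntermediateField.adjoin K {x}) F : ℤ) := by
    rw [hD, map_add, map_nsmul, degree_divOf hs0, zero_add, degree_poleDiv hx, nsmul_eq_mul]
  have h2 : Divisor.degree D = (A.card : ℤ) := by
    rw [degree_eq_sum, ← Multiset.toFinset_sum_count_eq A, Nat.cast_sum]
    have hsupp : D.support = A.toFinset := by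
      ext v
      rw [Finsupp.mem_support_iff, Multiset.mem_toFinset, ← Multiset.count_ne_zero, hD,
        ← hA.count_eq hx hs0 v]
      exact_mod_cast Iff.rfl
    rw [hsupp]
    exact Finset.sum_congr rfl fun v _ => (hA.count_eq hx hs0 v).symm
  rw [h1] at h2
  exact_mod_cast h2.symm

theorem isZer_iff {x : F} (hx : Transcendental K x) {N : ℕ} {s : F} (hs0 : s ≠ 0)
    {A : Multiset (Place K F)} [DecidableEq (Place K F)] :
    IsZer x N s A ↔ ∀ v, ((A.count v : ℕ) : ℤ) = v.ord s + N * (poleDiv x : Divisor K F) v := by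
  constructor
  · intro hA v
    rw [hA.count_eq hx hs0 v, Finsupp.add_apply, divOf_apply hs0, Finsupp.smul_apply, nsmul_eq_mul]
  · intro h v
    rw [ord_sec hx N hs0, Finsupp.add_apply, divOf_apply hs0, Finsupp.smul_apply, nsmul_eq_mul, ← h v]
    congr!

theorem IsZer.mul {x : F} (hx : Transcendental K x) {N M : ℕ} {s t : F} (hs0 : s ≠ 0) (ht0 : t ≠ 0)
    {A B : Multiset (Place K F)} (hA : IsZer x N s A) (hB : IsZer x M t B) :
    IsZer x (N + M) (s * t) (A + B) := by
  classical
  rw [isZer_iff hx hs0] at hA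
  rw [isZer_iff hx ht0] at hB
  rw [isZer_iff hx (mul_ne_zero hs0 ht0)]
  intro v
  rw [Multiset.count_add, Nat.cast_add, hA v, hB v, v.ord_mul hs0 ht0]
  push_cast
  ring

theorem ord_smul_const (v : Place K F) {c : K} (hc : c ≠ 0) {s : F} (hs0 : s ≠ 0) :
    v.ord (c • s) = v.ord s := by
  have hc' : algebraMap K F c ≠ 0 := (_root_.map_ne_zero _).mpr hc
  have h := adicValuation_algebraMap v hc
  rw [v.adicValuation_eq_exp_neg_ord hc', ← exp_zero, exp_inj] at h
  rw [Algebra.smul_def, v.ord_mul hc' hs0]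
  omega

theorem IsZer.smul {x : F} {N : ℕ} {s : F} (hs0 : s ≠ 0) {c : K} (hc : c ≠ 0)
    {A : Multiset (Place K F)} (hA : IsZer x N s A) : IsZer x N (c • s) A := by
  classical
  intro v
  rw [hA v, smul_mul_assoc]
  by_cases h0 : s * nf x v ^ N = 0
  · rw [h0, smul_zero]
  · rw [ord_smul_const v hc h0]

/-- converse: a nonzero function with a zero multiset is a section -/
theorem IsZer.mem_W {x : F} (hx : Transcendental K x) {N : ℕ} {s : F} (hs0 : s ≠ 0)
    {A : Multiset (Place K F)} (hA : IsZer x N s A) : s ∈ W K x N := by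
  rw [mem_W_iff_ord hx N hs0]
  intro v
  rw [← hA v]
  exact Int.natCast_nonneg _

/-- division of sections -/
theorem exists_eq_mul_of_le {x : F} (hx : Transcendental K x) {N M : ℕ} {s t : F} (hs0 : s ≠ 0)
    (ht0 : t ≠ 0) {A B : Multiset (Place K F)} (hA : IsZer x N s A) (hB : IsZer x (N + M) t B)
    (hAB : A ≤ B) : ∃ u ∈ W K x M, u ≠ 0 ∧ t = s * u ∧ ∃ A', B = A + A' ∧ IsZer x M u A' := by
  classical
  have hu0 : t / s ≠ 0 := div_ne_zero ht0 hs0
  obtain ⟨A', rfl⟩ := Multiset.le_iff_exists_add.mp hAB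
  have hA' : IsZer x M (t / s) A' := by
    rw [isZer_iff hx hs0] at hA
    rw [isZer_iff hx ht0] at hB
    rw [isZer_iff hx hu0]
    intro v
    have h1 := hA v
    have h2 := hB v
    rw [Multiset.count_add, Nat.cast_add, h1] at h2
    have h3 : v.ord (t / s) = v.ord t - v.ord s := by
      rw [div_eq_mul_inv, v.ord_mul ht0 (inv_ne_zero hs0), v.ord_inv]; ring
    rw [h3]
    push_cast at h2
    linarith
  exact ⟨t / s, hA'.mem_W hx hu0, hu0, (mul_div_cancel₀ t hs0).symm, A', rfl, hA'⟩

/-- a product over a multiset of nonzero sections of `D` vanishing at the points of the multiset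
has at least the multiset as zeros -/
theorem exists_isZer_prod {x : F} (hx : Transcendental K x)
    (A : Multiset (Place K F)) (t : Place K F → F)
    (ht : ∀ P ∈ A, t P ∈ W K x 1) (ht' : ∀ P ∈ A, ev x 1 P (t P) = 0) (h0 : ∀ P ∈ A, t P ≠ 0) :
    (A.map t).prod ≠ 0 ∧ ∃ B, A ≤ B ∧ IsZer x A.card (A.map t).prod B := by
  classical
  induction A using Multiset.induction_on with
  | empty =>
    refine ⟨by simp, 0, le_rfl, ?_⟩
    rw [Multiset.map_zero, Multiset.prod_zero, Multiset.card_zero, isZer_iff hx one_ne_zero]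
    intro v
    simp
  | cons P A ih =>
    obtain ⟨hne, B, hAB, hB⟩ := ih (fun Q hQ => ht Q (Multiset.mem_cons_of_mem hQ))
      (fun Q hQ => ht' Q (Multiset.mem_cons_of_mem hQ)) (fun Q hQ => h0 Q (Multiset.mem_cons_of_mem hQ))
    have hP := Multiset.mem_cons_self P A
    obtain ⟨C, hC⟩ := exists_isZer hx (ht P hP) (h0 P hP)
    have hPC : P ∈ C := (hC.mem_iff (transcendental_ne_zero hx) (ht P hP) (h0 P hP) P).mpr (ht' P hP)
    refine ⟨by rw [Multiset.map_cons, Multiset.prod_cons]; exact mul_ne_zero (h0 P hP) hne,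
      C + B, ?_, ?_⟩
    · rw [← Multiset.singleton_add]
      exact add_le_add (Multiset.singleton_le.mpr hPC) hAB
    · rw [Multiset.map_cons, Multiset.prod_cons, Multiset.card_cons, add_comm A.card 1]
      exact hC.mul hx (h0 P hP) hne hB

/-- product over a multiset of sections of `D` vanishing at the points of the multiset -/
theorem exists_eq_mul_prod {x : F} (hx : Transcendental K x) {N M : ℕ} {s : F} (hs0 : s ≠ 0)
    {A : Multiset (Place K F)} (hA : IsZer x N s A) (t : Place K F → F)
    (ht : ∀ P ∈ A, t P ∈ W K x 1) (ht' : ∀ P ∈ A, ev x 1 P (t P) = 0) (hc : A.card = N + M)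
    (h0 : ∀ P ∈ A, t P ≠ 0) : ∃ u ∈ W K x M, u ≠ 0 ∧ (A.map t).prod = s * u := by
  obtain ⟨hne, B, hAB, hB⟩ := exists_isZer_prod hx A t ht ht' h0
  rw [hc] at hB
  obtain ⟨u, hu, hu0, hu1, _⟩ := exists_eq_mul_of_le hx hs0 hne hA hB hAB
  exact ⟨u, hu, hu0, hu1⟩

/-- distinct sections proportional? two sections with the same zeros are proportional -/
theorem IsZer.eq_smul {x : F} (hx : Transcendental K x) {N : ℕ} {s t : F} (hs0 : s ≠ 0) (ht0 : t ≠ 0)
    {A : Multiset (Place K F)} (hA : IsZer x N s A) (hB : IsZer x N t A) :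
    ∃ c : K, c ≠ 0 ∧ t = c • s := by
  classical
  have hu0 : t / s ≠ 0 := div_ne_zero ht0 hs0
  obtain ⟨c, hc⟩ := exists_const_of_forall_le_one (K := K) (f := t / s) (fun v => by
    rw [v.adicValuation_eq_exp_neg_ord hu0, ← exp_zero, exp_le_exp]
    rw [isZer_iff hx hs0] at hA
    rw [isZer_iff hx ht0] at hB
    have h1 := hA v
    have h2 := hB v
    have h3 : v.ord (t / s) = v.ord t - v.ord s := by
      rw [div_eq_mul_inv, v.ord_mul ht0 (inv_ne_zero hs0), v.ord_inv]; ring
    rw [h3]
    linarith)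
  refine ⟨c, ?_, ?_⟩
  · rintro rfl
    rw [map_zero] at hc
    exact hu0 hc.symm
  · rw [Algebra.smul_def, hc, div_mul_cancel₀ t hs0]

/-- the section `ev_P(z) y - ev_P(y) z` of `D` vanishing at `P` -/
def tsec (x y z : F) (P : Place K F) : F := ev x 1 P z • y - ev x 1 P y • z

theorem tsec_mem {x y z : F} (hy : y ∈ W K x 1) (hz : z ∈ W K x 1) (P : Place K F) :
    tsec x y z P ∈ W K x 1 :=
  Submodule.sub_mem _ (Submodule.smul_mem _ _ hy) (Submodule.smul_mem _ _ hz)

theorem ev_tsec {x y z : F} (hy : y ∈ W K x 1) (hz : z ∈ W K x 1) (P Q : Place K F) :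
    ev x 1 Q (tsec x y z P) = ev x 1 P z * ev x 1 Q y - ev x 1 P y * ev x 1 Q z := by
  rw [tsec, ev_sub (Submodule.smul_mem _ _ hy) (Submodule.smul_mem _ _ hz), ev_smul hy, ev_smul hz]

/-- the section `ev_P(1) x - ev_P(x)` whose zero multiset is the fibre of `x` through `P` -/
def fsec (x : F) (P : Place K F) : F := tsec x x 1 P

theorem fsec_ne_zero {x : F} (hx : Transcendental K x) (P : Place K F) : fsec x P ≠ 0 := by
  intro h
  rw [fsec, tsec] at h
  by_cases hP : x ∈ P.toValuationSubring
  · rw [ev_one_of_mem hP, one_smul, sub_eq_zero, ← Algebra.algebraMap_eq_smul_one] at h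
    apply hx
    rw [h]
    exact isAlgebraic_algebraMap _
  · rw [ev_one_of_notMem hP one_ne_zero, zero_smul, zero_sub, neg_eq_zero, ev_self_of_notMem hP,
      one_smul] at h
    exact one_ne_zero h

end Zer

end Fermat.Agent.H17
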