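/-
H17Nrm: norms, weights, distances (project S17; statements frozen by helper17, proofs by the job owner; helper lemmas may be added)
-/
import Mathlib
import Fermat.Agent.H17Zer

set_option autoImplicit false

noncomputable section

open AlgebraicCurve WithZero Polynomial

namespace Fermat.Agent.H17

open Fermat.Agent.H3RR

/-- supremum of a finite family of absolute values: membership -/
theorem le_iSup_fin {ι : Type*} [Finite ι] (f : ι → ℝ) (i : ι) : f i ≤ ⨆ i, f i :=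
  le_ciSup (Set.finite_range f).bddAbove i

namespace HSetup

variable {K F V : Type*} [Field K] [Field F] [Algebra K F] [IsAlgClosed K] [CharZero K] [IsFF K F]
variable (S : HSetup K F V)

/-! ### L2: norms, weights, distances (file H17Nrm) -/

instance (N : ℕ) : Nonempty (Fin (S.r N)) := by
  by_contra h
  rw [not_nonempty_iff] at h
  have h1 : Subsingleton (W K S.x N) := (S.b N).repr.toEquiv.subsingleton
  have h2 : (⟨1, one_mem_W S.x N⟩ : W K S.x N) = 0 := Subsingleton.elim _ _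
  exact one_ne_zero (congrArg Subtype.val h2)

theorem nrm_of_mem {N : ℕ} {s : F} (hs : s ∈ W K S.x N) (v : V) :
    S.nrm N v s = ⨆ i : Fin (S.r N), S.𝔸.abv v ((S.b N).repr ⟨s, hs⟩ i) := dif_pos hs

open Classical in
/-- coordinates of a section (junk value `0` outside `W`) -/
def coord (N : ℕ) (i : Fin (S.r N)) (s : F) : K :=
  if h : s ∈ W K S.x N then (S.b N).repr ⟨s, h⟩ i else 0

theorem coord_of_mem {N : ℕ} {s : F} (hs : s ∈ W K S.x N) (i : Fin (S.r N)) :
    S.coord N i s = (S.b N).repr ⟨s, hs⟩ i := dif_pos hs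

theorem nrm_eq (N : ℕ) (v : V) (s : F) : S.nrm N v s = ⨆ i, S.𝔸.abv v (S.coord N i s) := by
  by_cases h : s ∈ W K S.x N
  · rw [S.nrm_of_mem h]
    exact iSup_congr fun i => by rw [S.coord_of_mem h]
  · rw [nrm, dif_neg h]
    have : ∀ i, S.𝔸.abv v (S.coord N i s) = 0 := fun i => by rw [coord, dif_neg h, map_zero]
    simp only [this]
    exact (ciSup_const).symm

theorem abv_coord_le (N : ℕ) (v : V) (s : F) (i : Fin (S.r N)) :
    S.𝔸.abv v (S.coord N i s) ≤ S.nrm N v s := by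
  rw [nrm_eq]
  exact le_iSup_fin (fun i => S.𝔸.abv v (S.coord N i s)) i

theorem nrm_le {N : ℕ} {v : V} {s : F} {B : ℝ} (h : ∀ i, S.𝔸.abv v (S.coord N i s) ≤ B) :
    S.nrm N v s ≤ B := by
  rw [nrm_eq]
  exact ciSup_le h

theorem coord_sum {ι : Type*} {N : ℕ} (T : Finset ι) (s : ι → F) (hs : ∀ i ∈ T, s i ∈ W K S.x N)
    (j : Fin (S.r N)) : S.coord N j (∑ i ∈ T, s i) = ∑ i ∈ T, S.coord N j (s i) := by
  classical
  induction T using Finset.induction_on with
  | empty =>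
    rw [Finset.sum_empty, Finset.sum_empty, S.coord_of_mem (zero_mem _)]
    have : (⟨0, zero_mem _⟩ : W K S.x N) = 0 := rfl
    rw [this, map_zero]; rfl
  | insert a T ha ih =>
    have h1 := hs a (Finset.mem_insert_self a T)
    have h2 : ∑ i ∈ T, s i ∈ W K S.x N :=
      Submodule.sum_mem _ fun i hi => hs i (Finset.mem_insert_of_mem hi)
    rw [Finset.sum_insert ha, Finset.sum_insert ha, ← ih fun i hi => hs i (Finset.mem_insert_of_mem hi),
      S.coord_of_mem (add_mem h1 h2), S.coord_of_mem h1, S.coord_of_mem h2]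
    have : (⟨s a + ∑ i ∈ T, s i, add_mem h1 h2⟩ : W K S.x N) = ⟨s a, h1⟩ + ⟨_, h2⟩ := rfl
    rw [this, map_add]; rfl

theorem coord_smul {N : ℕ} {s : F} (hs : s ∈ W K S.x N) (c : K) (j : Fin (S.r N)) :
    S.coord N j (c • s) = c * S.coord N j s := by
  rw [S.coord_of_mem (Submodule.smul_mem _ c hs), S.coord_of_mem hs]
  have : (⟨c • s, Submodule.smul_mem _ c hs⟩ : W K S.x N) = c • ⟨s, hs⟩ := rfl
  rw [this, map_smul]; rfl

/-- expansion in the basis -/
theorem sum_coord {N : ℕ} {s : F} (hs : s ∈ W K S.x N) :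
    ∑ i, S.coord N i s • ((S.b N i : W K S.x N) : F) = s := by
  have h := (S.b N).sum_repr ⟨s, hs⟩
  have h' := congrArg (Submodule.subtype _) h
  rw [map_sum] at h'
  simp only [map_smul, Submodule.subtype_apply] at h'
  refine Eq.trans ?_ h'
  exact Finset.sum_congr rfl fun i _ => by rw [S.coord_of_mem hs]

theorem nrm_nonneg (N : ℕ) (v : V) (s : F) : 0 ≤ S.nrm N v s := by
  rw [nrm_eq]
  exact Real.iSup_nonneg fun i => (S.𝔸.abv v).nonneg _

theorem nrm_zero (N : ℕ) (v : V) : S.nrm N v 0 = 0 := by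
  refine le_antisymm (S.nrm_le fun i => ?_) (S.nrm_nonneg N v 0)
  rw [S.coord_of_mem (zero_mem _)]
  have : (⟨0, zero_mem _⟩ : W K S.x N) = 0 := rfl
  rw [this, map_zero]
  exact (map_zero (S.𝔸.abv v)).le

theorem exists_coord_ne_zero {N : ℕ} {s : F} (hs : s ∈ W K S.x N) (hs0 : s ≠ 0) :
    ∃ i, S.coord N i s ≠ 0 := by
  by_contra h
  push Not at h
  apply hs0
  rw [← S.sum_coord hs]
  exact Finset.sum_eq_zero fun i _ => by rw [h i, zero_smul]

theorem nrm_pos {N : ℕ} {s : F} (hs : s ∈ W K S.x N) (hs0 : s ≠ 0) (v : V) : 0 < S.nrm N v s := by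
  obtain ⟨i, hi⟩ := S.exists_coord_ne_zero hs hs0
  exact ((S.𝔸.abv v).pos hi).trans_le (S.abv_coord_le N v s i)

theorem nrm_smul {N : ℕ} {s : F} (hs : s ∈ W K S.x N) (c : K) (v : V) :
    S.nrm N v (c • s) = S.𝔸.abv v c * S.nrm N v s := by
  rw [nrm_eq, nrm_eq, Real.mul_iSup_of_nonneg ((S.𝔸.abv v).nonneg _)]
  exact iSup_congr fun i => by rw [S.coord_smul hs, map_mul]

theorem abv_repr_le {N : ℕ} {s : F} (hs : s ∈ W K S.x N) (v : V) (i : Fin (S.r N)) :
    S.𝔸.abv v ((S.b N).repr ⟨s, hs⟩ i) ≤ S.nrm N v s := by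
  rw [← S.coord_of_mem hs]
  exact S.abv_coord_le N v s i

theorem nrm_sum_le {ι : Type*} {N : ℕ} (T : Finset ι) (s : ι → F) (hs : ∀ i ∈ T, s i ∈ W K S.x N)
    (v : V) {B : ℝ} (hB : 0 ≤ B) (h : ∀ i ∈ T, S.nrm N v (s i) ≤ B) :
    S.nrm N v (∑ i ∈ T, s i) ≤ S.𝔸.card T.card v * B := by
  refine S.nrm_le fun j => ?_
  rw [S.coord_sum T s hs]
  exact S.𝔸.abv_sum_le T _ v hB fun i hi => (S.abv_coord_le N v _ j).trans (h i hi)

/-- for a fixed section -/
theorem exists_nrm_le (N : ℕ) (s : F) : ∃ C, IsMC C ∧ ∀ v, S.nrm N v s ≤ C v := by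
  choose C hC hC' using fun i => S.𝔸.exists_isMC_abv_le (S.coord N i s)
  obtain ⟨D, hD, hD'⟩ := exists_isMC_forall hC
  exact ⟨D, hD, fun v => S.nrm_le fun i => (hC' i v).trans (hD' i v)⟩

theorem exists_le_nrm {N : ℕ} {s : F} (hs : s ∈ W K S.x N) (hs0 : s ≠ 0) :
    ∃ C, IsMC C ∧ ∀ v, 1 ≤ C v * S.nrm N v s := by
  obtain ⟨i, hi⟩ := S.exists_coord_ne_zero hs hs0
  obtain ⟨C, hC, hC'⟩ := S.𝔸.exists_isMC_abv_le (S.coord N i s)⁻¹
  refine ⟨C, hC, fun v => ?_⟩
  calc (1 : ℝ) = S.𝔸.abv v (S.coord N i s)⁻¹ * S.𝔸.abv v (S.coord N i s) := by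
        rw [← map_mul, inv_mul_cancel₀ hi, map_one]
    _ ≤ C v * S.nrm N v s := mul_le_mul (hC' v) (S.abv_coord_le N v s i) ((S.𝔸.abv v).nonneg _)
        (hC.nonneg v)

theorem finite_nrm_ne_one {N : ℕ} {s : F} (hs : s ∈ W K S.x N) (hs0 : s ≠ 0) :
    {v | S.nrm N v s ≠ 1}.Finite := by
  obtain ⟨C, hC, hC'⟩ := S.exists_nrm_le N s
  obtain ⟨D, hD, hD'⟩ := S.exists_le_nrm hs hs0
  refine (hC.2.union hD.2).subset fun v hv => ?_
  by_contra h
  have h1 : C v = 1 := by by_contra h'; exact h (Or.inl h')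
  have h2 : D v = 1 := by by_contra h'; exact h (Or.inr h')
  refine hv (le_antisymm (h1 ▸ hC' v) ?_)
  have := hD' v
  rwa [h2, one_mul] at this

/-- bilinear upper bound -/
theorem exists_nrm_mul_le (N M : ℕ) : ∃ C, IsMC C ∧ ∀ v, ∀ s ∈ W K S.x N, ∀ t ∈ W K S.x M,
    S.nrm (N + M) v (s * t) ≤ C v * (S.nrm N v s * S.nrm M v t) := by
  choose C hC hC' using fun ij : Fin (S.r N) × Fin (S.r M) =>
    S.exists_nrm_le (N + M) (((S.b N ij.1 : W K S.x N) : F) * ((S.b M ij.2 : W K S.x M) : F))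
  obtain ⟨D, hD, hD'⟩ := exists_isMC_forall hC
  refine ⟨fun v => S.𝔸.card (Finset.univ : Finset (Fin (S.r N) × Fin (S.r M))).card v * D v,
    (S.𝔸.isMC_card _).mul hD, fun v s hs t ht => ?_⟩
  have e : s * t = ∑ ij : Fin (S.r N) × Fin (S.r M), (S.coord N ij.1 s * S.coord M ij.2 t) •
      (((S.b N ij.1 : W K S.x N) : F) * ((S.b M ij.2 : W K S.x M) : F)) := by
    conv_lhs => rw [← S.sum_coord hs, ← S.sum_coord ht]
    rw [Finset.sum_mul_sum, ← Finset.univ_product_univ, Finset.sum_product]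
    exact Finset.sum_congr rfl fun i _ => Finset.sum_congr rfl fun j _ => by
      rw [smul_mul_smul_comm]
  rw [e, mul_assoc]
  refine S.nrm_sum_le _ _ (fun ij _ => Submodule.smul_mem _ _ (mul_mem_W (S.b N ij.1).2 (S.b M ij.2).2)) v
    (mul_nonneg (hD.nonneg v) (mul_nonneg (S.nrm_nonneg _ _ _) (S.nrm_nonneg _ _ _))) fun ij _ => ?_
  rw [S.nrm_smul (mul_mem_W (S.b N ij.1).2 (S.b M ij.2).2), map_mul, mul_comm (D v)]
  exact mul_le_mul (mul_le_mul (S.abv_coord_le N v s _) (S.abv_coord_le M v t _) ((S.𝔸.abv v).nonneg _)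
    (S.nrm_nonneg _ _ _)) ((hC' ij v).trans (hD' ij v)) (S.nrm_nonneg _ _ _)
    (mul_nonneg (S.nrm_nonneg _ _ _) (S.nrm_nonneg _ _ _))

theorem multiset_prod_mem_W {A : Multiset F} (hA : ∀ s ∈ A, s ∈ W K S.x 1) :
    A.prod ∈ W K S.x A.card := by
  induction A using Multiset.induction_on with
  | empty => simpa using one_mem_W S.x 0
  | cons a A ih =>
    rw [Multiset.prod_cons, Multiset.card_cons, mul_comm]
    exact mul_mem_W (ih fun s hs => hA s (Multiset.mem_cons_of_mem hs)) (hA a (Multiset.mem_cons_self a A))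

/-- products of `n` sections of `D` -/
theorem exists_nrm_prod_le (n : ℕ) : ∃ C, IsMC C ∧ ∀ v (A : Multiset F), A.card = n →
    (∀ s ∈ A, s ∈ W K S.x 1) → S.nrm n v A.prod ≤ C v * (A.map (S.nrm 1 v)).prod := by
  induction n with
  | zero =>
    obtain ⟨C, hC, hC'⟩ := S.exists_nrm_le 0 1
    refine ⟨C, hC, fun v A hA _ => ?_⟩
    rw [Multiset.card_eq_zero.mp hA]
    simpa using hC' v
  | succ n ih =>
    obtain ⟨C, hC, hC'⟩ := ih
    obtain ⟨D, hD, hD'⟩ := S.exists_nrm_mul_le n 1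
    refine ⟨fun v => D v * C v, hD.mul hC, fun v A hA hA' => ?_⟩
    obtain ⟨a, ha⟩ := Multiset.card_pos_iff_exists_mem.mp (by rw [hA]; exact n.succ_pos)
    obtain ⟨B, rfl⟩ := Multiset.exists_cons_of_mem ha
    rw [Multiset.card_cons, add_left_inj] at hA
    have hB : ∀ s ∈ B, s ∈ W K S.x 1 := fun s hs => hA' s (Multiset.mem_cons_of_mem hs)
    rw [Multiset.prod_cons, Multiset.map_cons, Multiset.prod_cons, mul_comm a]
    have hBm := S.multiset_prod_mem_W hB
    rw [hA] at hBm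
    refine (hD' v _ hBm a (hA' a (Multiset.mem_cons_self a B))).trans ?_
    rw [mul_assoc, mul_comm (S.nrm 1 v a)]
    refine mul_le_mul_of_nonneg_left ?_ (hD.nonneg v)
    rw [← mul_assoc]
    exact mul_le_mul_of_nonneg_right (hC' v B hA hB) (S.nrm_nonneg _ _ _)

/-- evaluation in coordinates -/
theorem ev_eq_sum_coord {s : F} (hs : s ∈ W K S.x 1) (P : Place K F) :
    ev S.x 1 P s = ∑ i, S.coord 1 i s * S.e P i := by
  conv_lhs => rw [← S.sum_coord hs]
  rw [ev_sum _ _ fun i _ => Submodule.smul_mem _ _ (S.b 1 i).2]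
  exact Finset.sum_congr rfl fun i _ => ev_smul (S.b 1 i).2 _ P

theorem e_ne_zero (P : Place K F) : S.e P ≠ 0 := by
  intro h
  have h1 : ∀ s ∈ W K S.x 1, ev S.x 1 P s = 0 := fun s hs => by
    rw [S.ev_eq_sum_coord hs]
    exact Finset.sum_eq_zero fun i _ => by rw [h, Pi.zero_apply, mul_zero]
  by_cases hP : S.x ∈ P.toValuationSubring
  · have := h1 1 (one_mem_W _ _)
    rw [ev_one_of_mem hP] at this
    exact one_ne_zero this
  · have := h1 S.x (self_mem_W _)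
    rw [ev_self_of_notMem hP] at this
    exact one_ne_zero this

theorem abv_e_le (v : V) (P : Place K F) (i : Fin (S.r 1)) : S.𝔸.abv v (S.e P i) ≤ S.w v P :=
  le_iSup_fin (fun i => S.𝔸.abv v (S.e P i)) i

theorem w_pos (v : V) (P : Place K F) : 0 < S.w v P := by
  obtain ⟨i, hi⟩ := Function.ne_iff.mp (S.e_ne_zero P)
  exact ((S.𝔸.abv v).pos hi).trans_le (S.abv_e_le v P i)

theorem finite_w_ne_one (P : Place K F) : {v | S.w v P ≠ 1}.Finite := by
  choose C hC hC' using fun i => S.𝔸.exists_isMC_abv_le (S.e P i)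
  obtain ⟨D, hD, hD'⟩ := exists_isMC_forall hC
  obtain ⟨i, hi⟩ := Function.ne_iff.mp (S.e_ne_zero P)
  refine (hD.2.union (S.𝔸.finite_ne_one (S.e P i) hi)).subset fun v hv => ?_
  by_contra h
  have h1 : D v = 1 := by by_contra h'; exact h (Or.inl h')
  have h2 : S.𝔸.abv v (S.e P i) = 1 := by by_contra h'; exact h (Or.inr h')
  exact hv (le_antisymm (ciSup_le fun i => ((hC' i v).trans (hD' i v)).trans h1.le)
    (h2 ▸ S.abv_e_le v P i))

theorem dist_nonneg (v : V) (P Q : Place K F) : 0 ≤ S.dist v P Q :=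
  div_nonneg (Real.iSup_nonneg fun _ => (S.𝔸.abv v).nonneg _)
    (mul_nonneg (S.w_pos v P).le (S.w_pos v Q).le)

/-- the minors are bounded by the distance -/
theorem abv_minor_le (v : V) (P Q : Place K F) (i j : Fin (S.r 1)) :
    S.𝔸.abv v (S.e P i * S.e Q j - S.e P j * S.e Q i) ≤ S.w v P * S.w v Q * S.dist v P Q := by
  rw [dist, mul_div_cancel₀ _ (mul_pos (S.w_pos v P) (S.w_pos v Q)).ne']
  exact le_iSup_fin (fun ij : Fin (S.r 1) × Fin (S.r 1) =>
    S.𝔸.abv v (S.e P ij.1 * S.e Q ij.2 - S.e P ij.2 * S.e Q ij.1)) (i, j)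

theorem dist_le_of {v : V} {P Q : Place K F} {B : ℝ}
    (h : ∀ i j, S.𝔸.abv v (S.e P i * S.e Q j - S.e P j * S.e Q i) ≤ S.w v P * S.w v Q * B) :
    S.dist v P Q ≤ B := by
  rw [dist, div_le_iff₀ (mul_pos (S.w_pos v P) (S.w_pos v Q)), mul_comm B]
  exact ciSup_le fun ij => h ij.1 ij.2

theorem dist_comm (v : V) (P Q : Place K F) : S.dist v P Q = S.dist v Q P := by
  rw [dist, dist, mul_comm (S.w v P)]
  congr 1
  refine iSup_congr fun ij => ?_
  rw [AbsoluteValue.map_sub]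
  congr 1; ring

theorem dist_self (v : V) (P : Place K F) : S.dist v P P = 0 := by
  refine le_antisymm (S.dist_le_of fun i j => ?_) (S.dist_nonneg v P P)
  rw [mul_comm (S.e P i), sub_self, map_zero, mul_zero]

theorem exists_dist_le : ∃ C, IsMC C ∧ ∀ v (P Q : Place K F), S.dist v P Q ≤ C v := by
  refine ⟨S.𝔸.card (Finset.univ : Finset (Fin 2)).card, S.𝔸.isMC_card _, fun v P Q =>
    S.dist_le_of fun i j => ?_⟩
  have e : S.e P i * S.e Q j - S.e P j * S.e Q i =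
      ∑ k : Fin 2, ![S.e P i * S.e Q j, -(S.e P j * S.e Q i)] k := by
    rw [Fin.sum_univ_two]; simp [sub_eq_add_neg]
  rw [e, mul_comm (S.w v P * S.w v Q)]
  refine S.𝔸.abv_sum_le _ _ v (mul_nonneg (S.w_pos v P).le (S.w_pos v Q).le) fun k _ => ?_
  fin_cases k
  · simp only [Matrix.cons_val_zero, Fin.zero_eta, map_mul]
    exact mul_le_mul (S.abv_e_le v P i) (S.abv_e_le v Q j) ((S.𝔸.abv v).nonneg _) (S.w_pos v P).le
  · simp only [Matrix.cons_val_one, Fin.mk_one, AbsoluteValue.map_neg, map_mul,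
      Matrix.cons_val_fin_one]
    exact mul_le_mul (S.abv_e_le v P j) (S.abv_e_le v Q i) ((S.𝔸.abv v).nonneg _) (S.w_pos v P).le

theorem exists_abv_e_eq (v : V) (P : Place K F) : ∃ i, S.𝔸.abv v (S.e P i) = S.w v P :=
  exists_eq_ciSup_of_finite (f := fun i => S.𝔸.abv v (S.e P i))

theorem exists_dist_triangle : ∃ C, IsMC C ∧ ∀ v (P Q R : Place K F),
    S.dist v P R ≤ C v * max (S.dist v P Q) (S.dist v Q R) := by
  refine ⟨S.𝔸.card (Finset.univ : Finset (Fin 3)).card, S.𝔸.isMC_card _, fun v P Q R => ?_⟩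
  set m := max (S.dist v P Q) (S.dist v Q R) with hm
  have hwP := S.w_pos v P
  have hwQ := S.w_pos v Q
  have hwR := S.w_pos v R
  have hm0 : 0 ≤ m := (S.dist_nonneg v P Q).trans (le_max_left _ _)
  refine S.dist_le_of fun i j => ?_
  obtain ⟨k, hk⟩ := S.exists_abv_e_eq v Q
  have e : S.e Q k * (S.e P i * S.e R j - S.e P j * S.e R i) =
      ∑ l : Fin 3, ![S.e P i * (S.e Q k * S.e R j - S.e Q j * S.e R k),
        -(S.e P j * (S.e Q k * S.e R i - S.e Q i * S.e R k)),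
        S.e R k * (S.e P i * S.e Q j - S.e P j * S.e Q i)] l := by
    rw [Fin.sum_univ_three]
    simp only [Matrix.cons_val_zero, Matrix.cons_val_one, Matrix.cons_val]
    ring
  have h1 : S.w v Q * S.𝔸.abv v (S.e P i * S.e R j - S.e P j * S.e R i) ≤
      S.𝔸.card (Finset.univ : Finset (Fin 3)).card v * (S.w v P * S.w v Q * S.w v R * m) := by
    rw [← hk, ← map_mul, e]
    refine S.𝔸.abv_sum_le _ _ v (by rw [hk]; positivity) fun l _ => ?_
    rw [hk]
    have b1 : ∀ i j, S.𝔸.abv v (S.e P i * (S.e Q k * S.e R j - S.e Q j * S.e R k)) ≤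
        S.w v P * S.w v Q * S.w v R * m := fun i j => by
      rw [map_mul]
      calc _ ≤ S.w v P * (S.w v Q * S.w v R * S.dist v Q R) :=
            mul_le_mul (S.abv_e_le v P i) (S.abv_minor_le v Q R k j) ((S.𝔸.abv v).nonneg _) hwP.le
        _ ≤ S.w v P * (S.w v Q * S.w v R * m) := by
            gcongr
            exact le_max_right _ _
        _ = _ := by ring
    have b2 : S.𝔸.abv v (S.e R k * (S.e P i * S.e Q j - S.e P j * S.e Q i)) ≤
        S.w v P * S.w v Q * S.w v R * m := by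
      rw [map_mul]
      calc _ ≤ S.w v R * (S.w v P * S.w v Q * S.dist v P Q) :=
            mul_le_mul (S.abv_e_le v R k) (S.abv_minor_le v P Q i j) ((S.𝔸.abv v).nonneg _) hwR.le
        _ ≤ S.w v R * (S.w v P * S.w v Q * m) := by
            gcongr
            exact le_max_left _ _
        _ = _ := by ring
    fin_cases l
    · exact b1 i j
    · show S.𝔸.abv v (-(S.e P j * (S.e Q k * S.e R i - S.e Q i * S.e R k))) ≤ _
      rw [AbsoluteValue.map_neg]
      exact b1 j i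
    · exact b2
  have h2 : S.w v Q * S.𝔸.abv v (S.e P i * S.e R j - S.e P j * S.e R i) ≤
      S.w v Q * (S.w v P * S.w v R * (S.𝔸.card (Finset.univ : Finset (Fin 3)).card v * m)) := by
    refine h1.trans (le_of_eq ?_)
    ring
  exact le_of_mul_le_mul_left h2 hwQ

/-- two sections of `D` evaluated at two points -/
theorem exists_minor_le : ∃ C, IsMC C ∧ ∀ v (P Q : Place K F), ∀ y ∈ W K S.x 1, ∀ z ∈ W K S.x 1,
    S.𝔸.abv v (ev S.x 1 P z * ev S.x 1 Q y - ev S.x 1 P y * ev S.x 1 Q z) ≤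
      C v * (S.nrm 1 v y * S.nrm 1 v z * (S.w v P * S.w v Q * S.dist v P Q)) := by
  refine ⟨S.𝔸.card (Finset.univ : Finset (Fin (S.r 1) × Fin (S.r 1))).card, S.𝔸.isMC_card _,
    fun v P Q y hy z hz => ?_⟩
  have e : ev S.x 1 P z * ev S.x 1 Q y - ev S.x 1 P y * ev S.x 1 Q z =
      ∑ ij : Fin (S.r 1) × Fin (S.r 1), (S.coord 1 ij.1 y * S.coord 1 ij.2 z) *
        (S.e P ij.2 * S.e Q ij.1 - S.e P ij.1 * S.e Q ij.2) := by
    rw [S.ev_eq_sum_coord hy, S.ev_eq_sum_coord hy, S.ev_eq_sum_coord hz, S.ev_eq_sum_coord hz,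
      mul_comm (∑ i, S.coord 1 i z * S.e P i), Finset.sum_mul_sum, Finset.sum_mul_sum,
      ← Finset.univ_product_univ, Finset.sum_product, ← Finset.sum_sub_distrib]
    refine Finset.sum_congr rfl fun i _ => ?_
    rw [← Finset.sum_sub_distrib]
    exact Finset.sum_congr rfl fun j _ => by ring
  rw [e]
  have h0 : 0 ≤ S.w v P * S.w v Q * S.dist v P Q :=
    mul_nonneg (mul_nonneg (S.w_pos v P).le (S.w_pos v Q).le) (S.dist_nonneg v P Q)
  refine S.𝔸.abv_sum_le _ _ v (mul_nonneg (mul_nonneg (S.nrm_nonneg _ _ _) (S.nrm_nonneg _ _ _)) h0)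
    fun ij _ => ?_
  rw [map_mul, map_mul]
  exact mul_le_mul (mul_le_mul (S.abv_coord_le 1 v y _) (S.abv_coord_le 1 v z _) ((S.𝔸.abv v).nonneg _)
    (S.nrm_nonneg _ _ _)) (S.abv_minor_le v P Q _ _) ((S.𝔸.abv v).nonneg _)
    (mul_nonneg (S.nrm_nonneg _ _ _) (S.nrm_nonneg _ _ _))

/-- evaluation is bounded -/
theorem exists_ev_le_one : ∃ C, IsMC C ∧ ∀ v (P : Place K F), ∀ y ∈ W K S.x 1,
    S.𝔸.abv v (ev S.x 1 P y) ≤ C v * (S.nrm 1 v y * S.w v P) := by
  refine ⟨S.𝔸.card (Finset.univ : Finset (Fin (S.r 1))).card, S.𝔸.isMC_card _, fun v P y hy => ?_⟩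
  rw [S.ev_eq_sum_coord hy]
  refine S.𝔸.abv_sum_le _ _ v (mul_nonneg (S.nrm_nonneg _ _ _) (S.w_pos v P).le) fun i _ => ?_
  rw [map_mul]
  exact mul_le_mul (S.abv_coord_le 1 v y i) (S.abv_e_le v P i) ((S.𝔸.abv v).nonneg _)
    (S.nrm_nonneg _ _ _)

theorem exists_nrm_tsec_le : ∃ C, IsMC C ∧ ∀ v (P : Place K F), ∀ y ∈ W K S.x 1, ∀ z ∈ W K S.x 1,
    S.nrm 1 v (tsec S.x y z P) ≤ C v * (S.nrm 1 v y * S.nrm 1 v z * S.w v P) := by
  obtain ⟨C, hC, hC'⟩ := S.exists_ev_le_one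
  refine ⟨fun v => S.𝔸.card (Finset.univ : Finset (Fin 2)).card v * C v, (S.𝔸.isMC_card _).mul hC,
    fun v P y hy z hz => ?_⟩
  have e : tsec S.x y z P = ∑ k : Fin 2, ![ev S.x 1 P z • y, (-ev S.x 1 P y) • z] k := by
    rw [Fin.sum_univ_two, tsec]
    simp only [Matrix.cons_val_zero, Matrix.cons_val_one]
    rw [neg_smul, sub_eq_add_neg]
  rw [e, mul_assoc]
  refine S.nrm_sum_le _ _ (fun k _ => ?_) v (mul_nonneg (hC.nonneg v) (mul_nonneg (mul_nonneg
    (S.nrm_nonneg _ _ _) (S.nrm_nonneg _ _ _)) (S.w_pos v P).le)) fun k _ => ?_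
  · fin_cases k
    · exact Submodule.smul_mem _ _ hy
    · exact Submodule.smul_mem _ _ hz
  · fin_cases k
    · show S.nrm 1 v (ev S.x 1 P z • y) ≤ _
      rw [S.nrm_smul hy]
      calc _ ≤ C v * (S.nrm 1 v z * S.w v P) * S.nrm 1 v y :=
            mul_le_mul_of_nonneg_right (hC' v P z hz) (S.nrm_nonneg _ _ _)
        _ = _ := by ring
    · show S.nrm 1 v ((-ev S.x 1 P y) • z) ≤ _
      rw [S.nrm_smul hz, AbsoluteValue.map_neg]
      calc _ ≤ C v * (S.nrm 1 v y * S.w v P) * S.nrm 1 v z :=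
            mul_le_mul_of_nonneg_right (hC' v P y hy) (S.nrm_nonneg _ _ _)
        _ = _ := by ring

end HSetup

end Fermat.Agent.H17
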