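/-
H17GDefs: definitions for the global height theory (project S17)
-/
import Mathlib
import Fermat.Prelude.Def_AlgebraicCurve_BaseChangeGalois
import Fermat.Agent.H17Nrm
import Fermat.Agent.H17Abs

set_option autoImplicit false

noncomputable section

open AlgebraicCurve

namespace Fermat.Agent.H17

open Fermat.Agent.H3RR

/-- A semilinear action of the absolute Galois group of `ℚ` on a function field over `Qb` satisfying Galois
descent for finite-dimensional subspaces, with a rational place. -/
structure GalF (F : Type*) [Field F] [Algebra Qb F] where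
  φ : (Qb ≃ₐ[ℚ] Qb) →* SemilinearAut Qb F
  base : ∀ σ, SemilinearAut.baseAut (φ σ) = σ.toRingEquiv
  descent : ∀ U : Submodule Qb F, Module.Finite Qb U → (∀ σ, ∀ u ∈ U, φ σ • u ∈ U) →
    U ≤ Submodule.span Qb {u : F | u ∈ U ∧ ∀ σ, φ σ • u = u}
  pt : Place Qb F
  pt_fixed : ∀ σ, φ σ • pt = pt

namespace GalF

variable {F : Type*} [Field F] [Algebra Qb F] (Φ : GalF F)

/-- rational functions -/
def RatF (f : F) : Prop := ∀ σ, Φ.φ σ • f = f

/-- rational effective divisors -/
def RatM (A : Multiset (Place Qb F)) : Prop := ∀ σ, A.map (fun P => Φ.φ σ • P) = A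

/-- rational classes -/
def ratPic : AddSubgroup (Pic0 Qb F) where
  carrier := {c | ∀ σ, Φ.φ σ • c = c}
  zero_mem' := fun σ => smul_zero _
  add_mem' := fun {a b} ha hb σ => by rw [smul_add, ha σ, hb σ]
  neg_mem' := fun {a} ha σ => by rw [smul_neg, ha σ]

theorem mem_ratPic {c : Pic0 Qb F} : c ∈ Φ.ratPic ↔ ∀ σ, Φ.φ σ • c = c := Iff.rfl

end GalF

/-- a height setup compatible with the Galois action -/
structure GSetup (F : Type*) [Field F] [Algebra Qb F] extends GalF F, HSetup Qb F V0 where
  std : 𝔸 = stdAbs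
  ratx : ∀ σ, φ σ • x = x
  ratb : ∀ N i σ, φ σ • ((b N i : W Qb x N) : F) = ((b N i : W Qb x N) : F)

namespace GSetup

variable {F : Type*} [Field F] [Algebra Qb F] (Γ : GSetup F)

/-- global height of an effective divisor -/
def hgt (A : Multiset (Place Qb F)) : ℝ := ∑ᶠ v : V0, (A.map fun P => Real.log (Γ.w v P)).sum

/-- global height of a section of `N D` -/
def hs (N : ℕ) (s : F) : ℝ := ∑ᶠ v : V0, Real.log (Γ.nrm N v s)

/-- global pairing of effective divisors with disjoint supports -/
def pair (A B : Multiset (Place Qb F)) : ℝ :=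
  ∑ᶠ v : V0, (A.map fun P => (B.map fun Q => - Real.log (Γ.dist v P Q)).sum).sum

/-- the bilinear form -/
def bil (A B : Multiset (Place Qb F)) : ℝ :=
  (A.card * Γ.hgt B + B.card * Γ.hgt A) / Γ.d - Γ.pair A B

/-- the divisor of a multiset -/
def divM {K F : Type*} [Field K] [Field F] [Algebra K F] (A : Multiset (Place K F)) : Divisor K F :=
  (A.map fun P => Finsupp.single P 1).sum

/-- `A` is an effective divisor whose class is `c + N D` -/
def Rep [IsFF Qb F] (N : ℕ) (c : Pic0 Qb F) (A : Multiset (Place Qb F)) : Prop :=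
  ∃ h : divM A - N • (poleDiv Γ.x : Divisor Qb F) ∈ Divisor.degZero (K := Qb) (F := F),
    Pic0.mk ⟨_, h⟩ = c

end GSetup

end Fermat.Agent.H17
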