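/-
H17Equiv: Galois equivariance of values, sections and zeros (project S17; statements frozen by helper17, proofs by helper79)
-/
import Mathlib
import Fermat.Agent.H17GDefs

set_option autoImplicit false
set_option linter.unusedSectionVars false
set_option linter.unusedVariables false

noncomputable section

open AlgebraicCurve WithZero Polynomial

namespace Fermat.Agent.H79

open Fermat.Agent.H3RR Fermat.Agent.H17

section

open scoped Pointwise

variable {K F : Type*} [Field K] [Field F] [Algebra K F]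

theorem smul_mem_place_iff (g : SemilinearAut K F) (P : Place K F) (f : F) :
    g • f ∈ (g • P).toValuationSubring ↔ f ∈ P.toValuationSubring := by
  rw [SemilinearAut.smul_toValuationSubring]
  exact ValuationSubring.smul_mem_pointwise_smul_iff

theorem adicValuation_smul_smul (g : SemilinearAut K F) (P : Place K F) (f : F) :
    (g • P).adicValuation (g • f) = P.adicValuation f := by
  rcases eq_or_ne f 0 with rfl | hf
  · rw [smul_zero, map_zero, map_zero]
  · have hf' : g • f ≠ 0 := by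
      intro h
      apply hf
      have := congrArg (g⁻¹ • ·) h
      simpa only [inv_smul_smul, smul_zero] using this
    rw [Place.adicValuation_eq_exp_neg_ord _ hf, Place.adicValuation_eq_exp_neg_ord _ hf',
      SemilinearAut.ord_smul]

theorem smul_smul_semilinear (g : SemilinearAut K F) (a : K) (f : F) :
    g • (a • f) = (SemilinearAut.baseAut g a) • (g • f) := by
  rw [Algebra.smul_def, smul_mul', SemilinearAut.smul_algebraMap, Algebra.smul_def]

theorem val_semilinear [IsAlgClosed K] [IsFF K F] (g : SemilinearAut K F) (P : Place K F) {f : F}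
    (hf : f ∈ P.toValuationSubring) :
    val (g • P) (g • f) = SemilinearAut.baseAut g (val P f) := by
  apply val_eq
  rw [← SemilinearAut.smul_algebraMap, ← smul_sub, adicValuation_smul_smul]
  exact val_spec P hf

end

end Fermat.Agent.H79

namespace Fermat.Agent.H17

open Fermat.Agent.H3RR

namespace GSetup

variable {F : Type*} [Field F] [Algebra Qb F] [IsFF Qb F] (Γ : GSetup F)

theorem baseAut_apply (σ : Qb ≃ₐ[ℚ] Qb) (a : Qb) :
    SemilinearAut.baseAut (Γ.φ σ) a = σ a := by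
  rw [Γ.base]; rfl

theorem val_smul_smul (σ : Qb ≃ₐ[ℚ] Qb) (P : Place Qb F) {f : F} (hf : f ∈ P.toValuationSubring) :
    val (Γ.φ σ • P) (Γ.φ σ • f) = σ (val P f) := by
  rw [H79.val_semilinear _ P hf, Γ.baseAut_apply]

theorem smul_mem_iff (σ : Qb ≃ₐ[ℚ] Qb) (P : Place Qb F) (f : F) :
    Γ.φ σ • f ∈ (Γ.φ σ • P).toValuationSubring ↔ f ∈ P.toValuationSubring :=
  H79.smul_mem_place_iff _ P f

theorem nf_smul (σ : Qb ≃ₐ[ℚ] Qb) (P : Place Qb F) : nf Γ.x (Γ.φ σ • P) = Γ.φ σ • nf Γ.x P := by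
  have h := Γ.smul_mem_iff σ P Γ.x
  rw [Γ.ratx] at h
  by_cases hP : Γ.x ∈ P.toValuationSubring
  · rw [nf_of_mem hP, nf_of_mem (h.mpr hP), smul_one]
  · rw [nf_of_notMem hP, nf_of_notMem (fun h' => hP (h.mp h')), SemilinearAut.smul_def, map_inv₀,
      ← SemilinearAut.smul_def, Γ.ratx]

theorem smul_section_mul (σ : Qb ≃ₐ[ℚ] Qb) (P : Place Qb F) (N : ℕ) (s : F) :
    (Γ.φ σ • s) * nf Γ.x (Γ.φ σ • P) ^ N = Γ.φ σ • (s * nf Γ.x P ^ N) := by
  rw [nf_smul, smul_mul', smul_pow']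

theorem smul_mem_W (σ : Qb ≃ₐ[ℚ] Qb) {N : ℕ} {s : F} (hs : s ∈ W Qb Γ.x N) :
    Γ.φ σ • s ∈ W Qb Γ.x N := by
  intro v
  obtain ⟨P, rfl⟩ : ∃ P, v = Γ.φ σ • P := ⟨(Γ.φ σ)⁻¹ • v, (smul_inv_smul _ _).symm⟩
  rw [smul_section_mul, smul_mem_iff]
  exact hs P

theorem ev_smul_smul (σ : Qb ≃ₐ[ℚ] Qb) (P : Place Qb F) {N : ℕ} {s : F} (hs : s ∈ W Qb Γ.x N) :
    ev Γ.x N (Γ.φ σ • P) (Γ.φ σ • s) = σ (ev Γ.x N P s) := by
  rw [ev, smul_section_mul, val_smul_smul _ _ _ (hs P)]; rfl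

theorem IsZer_smul (σ : Qb ≃ₐ[ℚ] Qb) {N : ℕ} {s : F} {A : Multiset (Place Qb F)}
    (hA : IsZer Γ.x N s A) : IsZer Γ.x N (Γ.φ σ • s) (A.map fun P => Γ.φ σ • P) := by
  classical
  intro v
  obtain ⟨P, rfl⟩ : ∃ P, v = Γ.φ σ • P := ⟨(Γ.φ σ)⁻¹ • v, (smul_inv_smul _ _).symm⟩
  rw [smul_section_mul, SemilinearAut.ord_smul, ← hA P]
  congr 1
  have := Multiset.count_map_eq_count' (fun P : Place Qb F => Γ.φ σ • P) A
    (MulAction.injective (Γ.φ σ)) P
  convert this

/-- zeros of a rational section form a rational divisor -/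
theorem ratM_of_ratF {N : ℕ} {s : F} (h : Γ.RatF s) {A : Multiset (Place Qb F)}
    (hA : IsZer Γ.x N s A) : Γ.RatM A := by
  intro σ
  have h1 := Γ.IsZer_smul σ hA
  rw [h σ] at h1
  exact h1.unique hA

/-- a rational divisor which is the zero divisor of a section is the zero divisor of a rational section -/
theorem exists_ratF_of_ratM {N : ℕ} {s : F} (hs : s ∈ W Qb Γ.x N) (hs0 : s ≠ 0)
    {A : Multiset (Place Qb F)} (hA : IsZer Γ.x N s A) (h : Γ.RatM A) :
    ∃ t ∈ W Qb Γ.x N, t ≠ 0 ∧ Γ.RatF t ∧ IsZer Γ.x N t A := by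
  have hstab : ∀ σ, ∀ u ∈ Submodule.span Qb {s}, Γ.φ σ • u ∈ Submodule.span Qb {s} := by
    intro σ u hu
    obtain ⟨a, rfl⟩ := Submodule.mem_span_singleton.mp hu
    rw [H79.smul_smul_semilinear]
    apply Submodule.smul_mem
    have h1 := Γ.IsZer_smul σ hA
    rw [h σ] at h1
    have hs0' : Γ.φ σ • s ≠ 0 := by
      intro h2
      apply hs0
      have := congrArg ((Γ.φ σ)⁻¹ • ·) h2
      simpa only [inv_smul_smul, smul_zero] using this
    obtain ⟨c, -, hc⟩ := IsZer.eq_smul Γ.hx hs0 hs0' hA h1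
    rw [hc]
    exact Submodule.smul_mem _ _ (Submodule.mem_span_singleton_self s)
  have hd := Γ.descent (Submodule.span Qb {s}) inferInstance hstab
  by_contra hcon
  push Not at hcon
  have hzero : {u : F | u ∈ Submodule.span Qb {s} ∧ ∀ σ, Γ.φ σ • u = u} ⊆ ({0} : Set F) := by
    rintro u ⟨hu, hu'⟩
    obtain ⟨a, rfl⟩ := Submodule.mem_span_singleton.mp hu
    by_contra ha
    have ha0 : a ≠ 0 := fun h0 => ha (by rw [h0, zero_smul]; rfl)
    exact hcon (a • s) (Submodule.smul_mem _ _ hs) (smul_ne_zero ha0 hs0) hu'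
      (hA.smul hs0 ha0)
  have h1 : s ∈ Submodule.span Qb ({0} : Set F) :=
    Submodule.span_mono hzero (hd (Submodule.mem_span_singleton_self s))
  rw [Submodule.span_zero_singleton, Submodule.mem_bot] at h1
  exact hs0 h1

theorem RatM_add {A B : Multiset (Place Qb F)} (hA : Γ.RatM A) (hB : Γ.RatM B) : Γ.RatM (A + B) := by
  intro σ
  rw [Multiset.map_add, hA σ, hB σ]

theorem RatM_of_add_left {A B : Multiset (Place Qb F)} (hA : Γ.RatM A) (hB : Γ.RatM (A + B)) :
    Γ.RatM B := by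
  intro σ
  have h := hB σ
  rw [Multiset.map_add, hA σ] at h
  exact add_left_cancel h

theorem RatF_mul {f g : F} (hf : Γ.RatF f) (hg : Γ.RatF g) : Γ.RatF (f * g) := by
  intro σ
  rw [smul_mul', hf σ, hg σ]

/-- coordinates of a rational section are rational -/
theorem repr_rat {N : ℕ} {s : F} (hs : s ∈ W Qb Γ.x N) (h : Γ.RatF s) (i : Fin (Γ.r N)) :
    ∃ q : ℚ, (Γ.b N).repr ⟨s, hs⟩ i = algebraMap ℚ Qb q := by
  obtain ⟨q, hq⟩ := exists_rat_of_fixed (a := (Γ.b N).repr ⟨s, hs⟩ i) (by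
    intro σ
    set c := (Γ.b N).repr ⟨s, hs⟩ with hc
    have hsum : ∑ i, c i • ((Γ.b N i : W Qb Γ.x N) : F) = s := by
      have := congrArg (Subtype.val) ((Γ.b N).sum_repr ⟨s, hs⟩)
      rw [Submodule.coe_sum] at this
      simpa using this
    have hsum' : ∑ i, σ (c i) • ((Γ.b N i : W Qb Γ.x N) : F) = s := by
      conv_rhs => rw [← h σ, ← hsum]
      rw [Finset.smul_sum]
      refine Finset.sum_congr rfl fun i _ => ?_
      rw [H79.smul_smul_semilinear, Γ.ratb, Γ.baseAut_apply]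
    have h0 : ∑ i, (σ (c i) - c i) • (Γ.b N i : W Qb Γ.x N) = 0 := by
      apply Subtype.ext
      rw [Submodule.coe_sum]
      simp only [Submodule.coe_smul, Submodule.coe_zero, sub_smul]
      rw [Finset.sum_sub_distrib, hsum, hsum', sub_self]
    have := Fintype.linearIndependent_iff.mp (Γ.b N).linearIndependent _ h0 i
    exact sub_eq_zero.mp this)
  exact ⟨q, hq.symm⟩

theorem log_abv_multiset_prod (v : V0) (A : Multiset (Place Qb F)) (f : Place Qb F → Qb)
    (h0 : ∀ P ∈ A, f P ≠ 0) :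
    Real.log (stdAbs.abv v (A.map f).prod) = (A.map fun P => Real.log (stdAbs.abv v (f P))).sum := by
  induction A using Multiset.induction_on with
  | empty => simp
  | cons P A ih =>
    have h1 : ∀ P ∈ A, f P ≠ 0 := fun P hP => h0 P (Multiset.mem_cons_of_mem hP)
    have h2 : (A.map f).prod ≠ 0 := by
      apply Multiset.prod_ne_zero
      intro h2
      obtain ⟨P, hP, hP'⟩ := Multiset.mem_map.mp h2
      exact h1 P hP hP'
    rw [Multiset.map_cons, Multiset.prod_cons, Multiset.map_cons, Multiset.sum_cons, map_mul,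
      Real.log_mul ((stdAbs.abv v).ne_zero (h0 P (Multiset.mem_cons_self P A)))
        ((stdAbs.abv v).ne_zero h2), ih h1]

/-- the product of the values of a rational section at a rational divisor is rational:
product formula for such values -/
theorem sum_log_ev_eq_zero {N : ℕ} {s : F} (hs : s ∈ W Qb Γ.x N) (h : Γ.RatF s)
    {A : Multiset (Place Qb F)} (hA : Γ.RatM A) (h0 : ∀ P ∈ A, ev Γ.x N P s ≠ 0) :
    ∑ᶠ v : V0, (A.map fun P => Real.log (stdAbs.abv v (ev Γ.x N P s))).sum = 0 := by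
  have h1 : (A.map fun P => ev Γ.x N P s).prod ≠ 0 := by
    apply Multiset.prod_ne_zero
    intro h2
    obtain ⟨P, hP, hP'⟩ := Multiset.mem_map.mp h2
    exact h0 P hP hP'
  rw [← sum_log_abv_eq_zero_of_fixed h1 (by
    intro σ
    rw [map_multiset_prod, Multiset.map_map]
    conv_rhs => rw [← hA σ, Multiset.map_map]
    congr 1
    refine Multiset.map_congr rfl fun P _ => ?_
    rw [Function.comp_apply, Function.comp_apply, ← Γ.ev_smul_smul σ P hs, h σ])]
  exact finsum_congr fun v => (log_abv_multiset_prod v A _ h0).symm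

theorem fsec_smul (σ : Qb ≃ₐ[ℚ] Qb) (P : Place Qb F) :
    fsec Γ.x (Γ.φ σ • P) = Γ.φ σ • fsec Γ.x P := by
  have h1 : (Γ.φ σ • (1 : F)) = 1 := smul_one _
  rw [fsec, tsec, fsec, tsec, smul_sub, H79.smul_smul_semilinear, H79.smul_smul_semilinear,
    Γ.baseAut_apply, Γ.baseAut_apply, ← Γ.ev_smul_smul σ P (one_mem_W _ _),
    ← Γ.ev_smul_smul σ P (self_mem_W _), Γ.ratx, h1]

open IntermediateField in
theorem smul_mem_adjoin (σ : Qb ≃ₐ[ℚ] Qb) {f : F} (hf : f ∈ Qb⟮Γ.x⟯) : Γ.φ σ • f ∈ Qb⟮Γ.x⟯ := by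
  have key : ∀ p : Qb[X], Γ.φ σ • (aeval Γ.x p) = aeval Γ.x (p.map (σ : Qb →+* Qb)) := by
    intro p
    induction p using Polynomial.induction_on' with
    | add p q hp hq => rw [map_add, smul_add, hp, hq, Polynomial.map_add, map_add]
    | monomial n a =>
      rw [Polynomial.map_monomial, aeval_monomial, aeval_monomial, smul_mul', smul_pow', Γ.ratx,
        SemilinearAut.smul_algebraMap, Γ.baseAut_apply]
      rfl
  obtain ⟨a, b, hab⟩ := (IntermediateField.mem_adjoin_simple_iff Qb f).mp hf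
  rw [hab, div_eq_mul_inv, smul_mul', SemilinearAut.smul_def (Γ.φ σ) (aeval Γ.x b)⁻¹, map_inv₀,
    ← SemilinearAut.smul_def, key, key, ← div_eq_mul_inv]
  exact (IntermediateField.mem_adjoin_simple_iff Qb _).mpr ⟨_, _, rfl⟩

open IntermediateField in
/-- the action on `K(x)` -/
def adjoinEquiv (σ : Qb ≃ₐ[ℚ] Qb) : Qb⟮Γ.x⟯ ≃+* Qb⟮Γ.x⟯ where
  toFun e := ⟨Γ.φ σ • (e : F), Γ.smul_mem_adjoin σ e.2⟩
  invFun e := ⟨Γ.φ σ⁻¹ • (e : F), Γ.smul_mem_adjoin σ⁻¹ e.2⟩
  left_inv e := Subtype.ext (by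
    show Γ.φ σ⁻¹ • (Γ.φ σ • (e : F)) = e
    rw [← mul_smul, ← map_mul, inv_mul_cancel, map_one, one_smul])
  right_inv e := Subtype.ext (by
    show Γ.φ σ • (Γ.φ σ⁻¹ • (e : F)) = e
    rw [← mul_smul, ← map_mul, mul_inv_cancel, map_one, one_smul])
  map_mul' a b := Subtype.ext (smul_mul' _ _ _)
  map_add' a b := Subtype.ext (smul_add _ _ _)

open IntermediateField in
theorem norm_smul (σ : Qb ≃ₐ[ℚ] Qb) (f : F) :
    ((Algebra.norm Qb⟮Γ.x⟯ (Γ.φ σ • f) : Qb⟮Γ.x⟯) : F)
      = Γ.φ σ • ((Algebra.norm Qb⟮Γ.x⟯ f : Qb⟮Γ.x⟯) : F) := by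
  have h := Algebra.norm_eq_of_equiv_equiv (Γ.adjoinEquiv σ) (SemilinearAut.toRingAut (Γ.φ σ))
    (by ext e; rfl) f
  rw [h]
  show _ = ((Γ.adjoinEquiv σ ((Γ.adjoinEquiv σ).symm _) : Qb⟮Γ.x⟯) : F)
  rw [RingEquiv.apply_symm_apply]
  rfl

/-- product formula for the constant in the norm formula `H17Norm.exists_norm_eq` -/
theorem sum_log_norm_const_eq_zero {N : ℕ} {s : F} (hs : s ∈ W Qb Γ.x N) (hs0 : s ≠ 0) (h : Γ.RatF s)
    {A : Multiset (Place Qb F)} (hA : IsZer Γ.x N s A) {c : Qb} (hc : c ≠ 0)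
    (hn : ((Algebra.norm (IntermediateField.adjoin Qb {Γ.x}) s : IntermediateField.adjoin Qb {Γ.x}) : F) =
        c • (A.map (fsec Γ.x)).prod) :
    ∑ᶠ v : V0, Real.log (stdAbs.abv v c) = 0 := by
  apply sum_log_abv_eq_zero_of_fixed hc
  intro σ
  have hP0 : (A.map (fsec Γ.x)).prod ≠ 0 := by
    apply Multiset.prod_ne_zero
    intro h2
    obtain ⟨P, -, hP'⟩ := Multiset.mem_map.mp h2
    exact fsec_ne_zero Γ.hx P hP'
  have h1 := Γ.norm_smul σ s
  have h2 : Γ.φ σ • (A.map (fsec Γ.x)).prod = (A.map (fsec Γ.x)).prod := by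
    rw [SemilinearAut.smul_def, map_multiset_prod, Multiset.map_map]
    conv_rhs => rw [← Γ.ratM_of_ratF h hA σ, Multiset.map_map]
    congr 1
    refine Multiset.map_congr rfl fun P _ => ?_
    rw [Function.comp_apply, Function.comp_apply, fsec_smul, SemilinearAut.smul_def]
  rw [h σ, hn, H79.smul_smul_semilinear, Γ.baseAut_apply, h2, ← sub_eq_zero, ← sub_smul,
    smul_eq_zero] at h1
  rcases h1 with h1 | h1
  · exact (sub_eq_zero.mp h1).symm
  · exact absurd h1 hP0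

end GSetup

end Fermat.Agent.H17
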