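/-
H17Ram: vanishing of h1 in large degree, finite ramification, avoiding points (project S17; statements frozen by helper17, proofs by the job owner; helper lemmas may be added)
-/
import Mathlib
import Fermat.Agent.H17Zer
import Fermat.Agent.H94GenusFF
import Fermat.Agent.H3RR_Special
import Fermat.Agent.H3RR_Bridge

set_option autoImplicit false

noncomputable section

open AlgebraicCurve WithZero Polynomial

namespace Fermat.Agent.H17

open Fermat.Agent.H3RR

section Ram

variable {K F : Type*} [Field K] [Field F] [Algebra K F] [IsAlgClosed K] [IsFF K F]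

/-- `h1` vanishes in large degree -/
theorem exists_h1_eq_zero (K F : Type*) [Field K] [Field F] [Algebra K F] [IsAlgClosed K] [IsFF K F] :
    ∃ n1 : ℤ, ∀ E : Divisor K F, n1 ≤ Divisor.degree E → h1 E = 0 :=
  ⟨2 * (genusFF K F : ℤ) - 1, fun E hE => h1_eq_zero_of_degree_gt (by omega)⟩

/-- Riemann-Roch in large degree: `g` is the genus -/
theorem exists_ell_eq (K F : Type*) [Field K] [Field F] [Algebra K F] [IsAlgClosed K] [IsFF K F] :
    ∃ (g : ℕ) (n1 : ℤ), ∀ E : Divisor K F, n1 ≤ Divisor.degree E → (ell E : ℤ) = Divisor.degree E + 1 - g :=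
  ⟨genusFF K F, 2 * (genusFF K F : ℤ) - 1, fun E hE => ell_of_degree_gt (by omega)⟩

/-- a nonconstant function has only finitely many ramification points (characteristic zero) -/
theorem finite_ramified [CharZero K] {y : F} (hy : Transcendental K y) :
    {P : Place K F | y ∈ P.toValuationSubring ∧ 2 ≤ P.ord (y - algebraMap K F (val P y))}.Finite := by
  classical
  have := IsFF.finiteDimensional (K := K) (F := F) hy
  have hcz : CharZero (IntermediateField.adjoin K {y}) :=
    charZero_of_injective_algebraMap (algebraMap K (IntermediateField.adjoin K {y})).injective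
  have hsep : Algebra.IsSeparable (IntermediateField.adjoin K {y}) F := inferInstance
  by_contra hinf
  obtain ⟨T, hT, hTcard⟩ := (show Set.Infinite _ from hinf).exists_subset_card_eq
    (2 * (genusFF K F : ℤ) - 2 + 2 * Module.finrank (IntermediateField.adjoin K {y}) F + 1).toNat
  have hFF : H94.FunField K F := funField_of_isFF
  have h2 := H88.rh_le (H94.riemann_pkg (K := K) (F := F)) hy (redDiv T) (by
    intro w c hc
    by_cases hw : w ∈ T
    · rw [redDiv_apply_of_mem hw]
      have h3 := hT hw
      have h4 : val w y = c := by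
        have h5 : y - algebraMap K F c ∈ w.toValuationSubring := by
          rw [mem_place_iff_ord w (transcendental_ne_zero (transcendental_sub_const hy c))]
          exact hc.le
        have h6 := (val_eq_zero_iff w (transcendental_ne_zero (transcendental_sub_const hy c)) h5).mpr hc
        rw [val_sub w h3.1 (w.algebraMap_mem' c), val_algebraMap] at h6
        exact sub_eq_zero.mp h6
      have h7 := h3.2
      rw [h4] at h7
      omega
    · rw [redDiv_apply_of_notMem hw]; omega) (by
    intro w hw
    by_cases hwT : w ∈ T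
    · have h3 := (hT hwT).1
      rw [mem_place_iff_ord w (transcendental_ne_zero hy)] at h3
      omega
    · rw [redDiv_apply_of_notMem hwT]; omega)
  rw [degree_redDiv, hTcard] at h2
  omega

/-- every class of degree zero divisors is `E - n ∞` for a unique minimal `n` and a unique effective `E`:
if `D` has degree `0` then there is `n` such that `ell (D + n pt) = 1`, `n ≤ g`. -/
theorem exists_ell_eq_one (pt : Place K F) : ∃ g : ℕ, ∀ D : Divisor K F, Divisor.degree D = 0 →
    ∃ n : ℕ, n ≤ g ∧ ell (D + n • (Finsupp.single pt 1 : Divisor K F)) = 1 := by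
  classical
  refine ⟨genusFF K F, fun D hD => ?_⟩
  have hdeg : ∀ n : ℕ, Divisor.degree (D + n • (Finsupp.single pt 1 : Divisor K F)) = n := by
    intro n
    rw [map_add, hD, map_nsmul, Divisor.degree_single, deg_eq_one]
    simp
  have hex : ∃ n : ℕ, 0 < ell (D + n • (Finsupp.single pt 1 : Divisor K F)) := by
    refine ⟨genusFF K F, ?_⟩
    have h := riemann_inequality (D + genusFF K F • (Finsupp.single pt 1 : Divisor K F))
    rw [hdeg] at h
    omega
  refine ⟨Nat.find hex, Nat.find_min' hex ?_, ?_⟩
  · have h := riemann_inequality (D + genusFF K F • (Finsupp.single pt 1 : Divisor K F))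
    rw [hdeg] at h
    omega
  · have h1 := Nat.find_spec hex
    have h2 := ell_le_sub_add_one (D + Nat.find hex • (Finsupp.single pt 1 : Divisor K F)) pt
    have h3 : ell (D + Nat.find hex • (Finsupp.single pt 1 : Divisor K F) - Finsupp.single pt 1) = 0 := by
      rcases Nat.eq_zero_or_pos (Nat.find hex) with h0 | h0
      · refine ell_eq_zero_of_degree_neg ?_
        rw [map_sub, hdeg, Divisor.degree_single, deg_eq_one, h0]
        norm_num
      · obtain ⟨k, hk⟩ := Nat.exists_eq_succ_of_ne_zero h0.ne'
        have h4 := Nat.find_min hex (m := k) (by omega)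
        rw [hk, Nat.succ_eq_add_one, add_smul, one_smul, ← add_assoc, add_sub_cancel_right]
        omega
    omega

/-- multiplication by the pencil `1, f`, where `f` has pole divisor `m0 • pt`: for `n` large
`L((n+m0) pt) = L(n pt) + f L(n pt)`. -/
theorem exists_pencil (pt : Place K F) {f : F} (hf : Transcendental K f) {m0 : ℕ}
    (hm : (poleDiv f : Divisor K F) = m0 • (Finsupp.single pt 1 : Divisor K F)) :
    ∃ n2 : ℕ, ∀ n, n2 ≤ n → ∀ h ∈ riemannRochSpace ((n + m0) • (Finsupp.single pt 1 : Divisor K F)),
      ∃ a ∈ riemannRochSpace (n • (Finsupp.single pt 1 : Divisor K F)),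
      ∃ b ∈ riemannRochSpace (n • (Finsupp.single pt 1 : Divisor K F)), h = a + f * b := by
  classical
  obtain ⟨g, n1, hg⟩ := exists_ell_eq K F
  have hf0 : f ≠ 0 := transcendental_ne_zero hf
  have hdeg : ∀ n : ℕ, Divisor.degree (n • (Finsupp.single pt 1 : Divisor K F)) = n := by
    intro n
    rw [map_nsmul, Divisor.degree_single, deg_eq_one]
    simp
  have hap : ∀ (n : ℕ) (v : Place K F), (n • (Finsupp.single pt 1 : Divisor K F)) v =
      if v = pt then (n : ℤ) else 0 := by
    intro n v
    rw [Finsupp.smul_apply, Finsupp.single_apply]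
    by_cases h : v = pt
    · rw [if_pos h.symm, if_pos h]; simp
    · rw [if_neg (fun h' => h h'.symm), if_neg h]; simp
  have hord : ∀ v : Place K F, (v = pt → v.ord f = -m0 ∨ m0 = 0) ∧ (v ≠ pt → 0 ≤ v.ord f) ∧ - (m0 : ℤ) ≤ v.ord f := by
    intro v
    have h1 : (poleDiv f : Divisor K F) v = max (- v.ord f) 0 := poleDiv_apply hf0 v
    rw [hm, hap] at h1
    refine ⟨fun h => ?_, fun h => ?_, ?_⟩
    · rw [if_pos h] at h1; omega
    · rw [if_neg h] at h1; omega
    · by_cases h : v = pt
      · rw [if_pos h] at h1; omega
      · rw [if_neg h] at h1; omega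
  refine ⟨m0 + n1.toNat, fun n hn h hh => ?_⟩
  obtain ⟨k, rfl⟩ : ∃ k, n = k + m0 := ⟨n - m0, by omega⟩
  set A : Submodule K F := riemannRochSpace ((k + m0) • (Finsupp.single pt 1 : Divisor K F)) with hA
  set B : Submodule K F := A.map (LinearMap.mulLeft K f) with hB
  set C : Submodule K F := riemannRochSpace ((k + m0 + m0) • (Finsupp.single pt 1 : Divisor K F)) with hC
  set E : Submodule K F := riemannRochSpace (k • (Finsupp.single pt 1 : Divisor K F)) with hE
  have hinj : Function.Injective (LinearMap.mulLeft K f) := fun a b hab => mul_left_cancel₀ hf0 hab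
  have hmem : ∀ (n : ℕ) (a : F), a ∈ riemannRochSpace (n • (Finsupp.single pt 1 : Divisor K F)) ↔
      a = 0 ∨ ∀ v : Place K F, (if v = pt then -(n : ℤ) else 0) ≤ v.ord a := by
    intro n a
    rw [mem_riemannRochSpace_iff]
    by_cases ha : a = 0
    · simp [ha]
    · rw [or_iff_right ha]
      refine forall_congr' fun v => ?_
      rw [or_iff_right ha, hap]
      by_cases h : v = pt
      · rw [if_pos h, if_pos h]
      · rw [if_neg h, if_neg h]; simp
  have hAC : A ≤ C := L_mono fun v => by
    rw [hap, hap]
    by_cases h : v = pt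
    · rw [if_pos h, if_pos h]; push_cast; omega
    · rw [if_neg h, if_neg h]
  have hBC : B ≤ C := by
    rintro _ ⟨b, hb, rfl⟩
    rw [LinearMap.mulLeft_apply]
    rw [SetLike.mem_coe, hA, hmem] at hb
    rw [hC, hmem]
    rcases hb with hb | hb
    · left; rw [hb, mul_zero]
    · by_cases hb0 : b = 0
      · left; rw [hb0, mul_zero]
      · right
        intro v
        have h1 := hb v
        obtain ⟨h2, h3, h4⟩ := hord v
        rw [v.ord_mul hf0 hb0]
        by_cases h : v = pt
        · rw [if_pos h] at h1 ⊢; push_cast at h1 ⊢; omega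
        · rw [if_neg h] at h1 ⊢; have := h3 h; omega
  have hAB : A ⊓ B = E.map (LinearMap.mulLeft K f) := by
    apply le_antisymm
    · rintro _ ⟨ha, b, hb, rfl⟩
      refine ⟨b, ?_, rfl⟩
      rw [LinearMap.mulLeft_apply, SetLike.mem_coe, hA, hmem] at ha
      rw [SetLike.mem_coe, hA, hmem] at hb
      rw [SetLike.mem_coe, hE, hmem]
      by_cases hb0 : b = 0
      · exact Or.inl hb0
      right
      intro v
      have h1 := ha.resolve_left (mul_ne_zero hf0 hb0) v
      have h2 := hb.resolve_left hb0 v
      rw [v.ord_mul hf0 hb0] at h1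
      obtain ⟨h3, h4, h5⟩ := hord v
      by_cases h : v = pt
      · rw [if_pos h] at h1 h2 ⊢; push_cast at h1 h2 ⊢
        rcases h3 h with h3 | h3
        · omega
        · subst h3; push_cast at *; omega
      · rw [if_neg h] at h2 ⊢; exact h2
    · rintro _ ⟨b, hb, rfl⟩
      rw [SetLike.mem_coe, hE, hmem] at hb
      rw [LinearMap.mulLeft_apply]
      refine ⟨?_, b, ?_, rfl⟩
      · rw [SetLike.mem_coe, hA, hmem]
        by_cases hb0 : b = 0
        · left; rw [hb0, mul_zero]
        right
        intro v
        have h2 := hb.resolve_left hb0 v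
        rw [v.ord_mul hf0 hb0]
        obtain ⟨h3, h4, h5⟩ := hord v
        by_cases h : v = pt
        · rw [if_pos h] at h2 ⊢; push_cast; omega
        · rw [if_neg h] at h2 ⊢; have := h4 h; omega
      · rw [SetLike.mem_coe, hA, hmem]
        by_cases hb0 : b = 0
        · exact Or.inl hb0
        right
        intro v
        have h2 := hb.resolve_left hb0 v
        by_cases h : v = pt
        · rw [if_pos h] at h2 ⊢; push_cast; omega
        · rw [if_neg h] at h2 ⊢; exact h2
  have hfinrank_map : ∀ M : Submodule K F, Module.finrank K (M.map (LinearMap.mulLeft K f)) =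
      Module.finrank K M := fun M =>
    (Submodule.equivMapOfInjective _ hinj M).finrank_eq.symm
  have hcount := Submodule.finrank_sup_add_finrank_inf_eq A B
  have hc1 : Module.finrank K (A ⊓ B : Submodule K F) = Module.finrank K E := by
    rw [hAB, hfinrank_map]
  have hc2 : Module.finrank K B = Module.finrank K A := hfinrank_map A
  rw [hc1, hc2] at hcount
  have e1 : (Module.finrank K A : ℤ) = ((k + m0 : ℕ) : ℤ) + 1 - g := by
    have := hg ((k + m0) • (Finsupp.single pt 1 : Divisor K F)) (by rw [hdeg]; push_cast; omega)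
    rw [hdeg] at this
    exact this
  have e2 : (Module.finrank K E : ℤ) = (k : ℤ) + 1 - g := by
    have := hg (k • (Finsupp.single pt 1 : Divisor K F)) (by rw [hdeg]; omega)
    rw [hdeg] at this
    exact this
  have e3 : (Module.finrank K C : ℤ) = ((k + m0 + m0 : ℕ) : ℤ) + 1 - g := by
    have := hg ((k + m0 + m0) • (Finsupp.single pt 1 : Divisor K F)) (by rw [hdeg]; push_cast; omega)
    rw [hdeg] at this
    exact this
  have hsup : A ⊔ B = C := by
    apply Submodule.eq_of_le_of_finrank_eq (sup_le hAC hBC)
    push_cast at e1 e2 e3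
    omega
  have hh' : h ∈ A ⊔ B := by rw [hsup]; exact hh
  obtain ⟨a, ha, _, ⟨b, hb, rfl⟩, hab⟩ := Submodule.mem_sup.mp hh'
  exact ⟨a, ha, b, hb, hab.symm⟩

end Ram

end Fermat.Agent.H17
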