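import Mathlib

/-!
# Constant field extensions (helper26, S26)

`IsCE k k' E E'` : `E'` is the field generated by `E` and `k'`, which are linearly disjoint over
`k`, i.e. `E' = Frac (E ⊗_k k')`.
-/

set_option autoImplicit false

noncomputable section

namespace Fermat.Agent.H26

/-- `E' = Frac (E ⊗_k k')`. -/
class IsCE (k k' E E' : Type*) [Field k] [Field k'] [Field E] [Field E'] [Algebra k k']
    [Algebra k E] [Algebra k' E'] [Algebra E E'] [Algebra k E'] [IsScalarTower k k' E']
    [IsScalarTower k E E'] : Prop where
  linearIndependent_map : ∀ {n : ℕ} (e : Fin n → E), LinearIndependent k e →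
    LinearIndependent k' fun i => algebraMap E E' (e i)
  exists_mul_eq : ∀ x : E', ∃ a ∈ Submodule.span k' (Set.range (algebraMap E E')),
    ∃ b ∈ Submodule.span k' (Set.range (algebraMap E E')), b ≠ 0 ∧ x * b = a

end Fermat.Agent.H26
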