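import Mathlib
import Fermat.Agent.H26CE

/-!
# Tensor products of domains over an algebraically closed field (helper26, S26)
-/

set_option autoImplicit false

noncomputable section

open TensorProduct

namespace Fermat.Agent.H26

universe u

/-- Nullstellensatz: a nonzero element of a finitely generated domain over an algebraically closed
field is nonzero at some rational point. -/
theorem exists_algHom_ne_zero {k B : Type*} [Field k] [IsAlgClosed k] [CommRing B] [IsDomain B]
    [Algebra k B] [Algebra.FiniteType k B] {b : B} (hb : b ≠ 0) : ∃ χ : B →ₐ[k] k, χ b ≠ 0 := by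
  let Bb := Localization.Away b
  have hinj : Function.Injective (algebraMap B Bb) :=
    IsLocalization.injective Bb (powers_le_nonZeroDivisors_of_noZeroDivisors hb)
  have : Nontrivial Bb := hinj.nontrivial
  obtain ⟨m, hm⟩ := Ideal.exists_maximal Bb
  have : Algebra.FiniteType B Bb := IsLocalization.finiteType_of_monoid_fg (Submonoid.powers b) Bb
  have : Algebra.FiniteType k Bb := Algebra.FiniteType.trans (R := k) (S := B) inferInstance this
  let := Ideal.Quotient.field m
  have : Module.Finite k (Bb ⧸ m) := finite_of_finite_type_of_isJacobsonRing k (Bb ⧸ m)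
  have hbij := IsAlgClosed.algebraMap_bijective_of_isIntegral (k := k) (K := Bb ⧸ m)
  let e : k ≃ₐ[k] (Bb ⧸ m) := AlgEquiv.ofBijective (Algebra.ofId k (Bb ⧸ m)) hbij
  refine ⟨(e.symm : (Bb ⧸ m) →ₐ[k] k).comp ((Ideal.Quotient.mkₐ k m).comp
    (IsScalarTower.toAlgHom k B Bb)), ?_⟩
  have hu : IsUnit (algebraMap B Bb b) := IsLocalization.Away.algebraMap_isUnit b
  have hu' := hu.map ((e.symm : (Bb ⧸ m) →ₐ[k] k).comp (Ideal.Quotient.mkₐ k m))
  exact hu'.ne_zero

/-- The tensor product of two domains over an algebraically closed field is a domain. -/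
theorem isDomain_tensor (k E B : Type*) [Field k] [IsAlgClosed k] [CommRing E] [IsDomain E]
    [Algebra k E] [CommRing B] [IsDomain B] [Algebra k B] : IsDomain (E ⊗[k] B) := by
  classical
  have hnt : Nontrivial (E ⊗[k] B) := inferInstance
  have key : ∀ x y : E ⊗[k] B, x * y = 0 → x ≠ 0 → y ≠ 0 → False := by
    intro x y hxy hx hy
    -- coordinates
    let b := Module.Basis.ofVectorSpace k E
    let e : E ⊗[k] B ≃ₗ[k] (_ →₀ B) := TensorProduct.equivFinsuppOfBasisLeft b
    obtain ⟨i, hi⟩ : ∃ i, e x i ≠ 0 := by
      by_contra hcon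
      push Not at hcon
      exact hx (e.injective (by rw [map_zero]; ext i; exact hcon i))
    obtain ⟨j, hj⟩ : ∃ j, e y j ≠ 0 := by
      by_contra hcon
      push Not at hcon
      exact hy (e.injective (by rw [map_zero]; ext i; exact hcon i))
    let S : Finset B := (e x).support.image (e x) ∪ (e y).support.image (e y)
    let B₀ : Subalgebra k B := Algebra.adjoin k (S : Set B)
    have hB₀ : Algebra.FiniteType k B₀ :=
      (Subalgebra.fg_iff_finiteType _).mp (Subalgebra.fg_adjoin_finset S)
    have hx₀ : ∀ i, e x i ∈ B₀ := by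
      intro i
      by_cases h : e x i = 0
      · rw [h]; exact zero_mem _
      · exact Algebra.subset_adjoin (by
          simp only [S, Finset.coe_union, Finset.coe_image, Set.mem_union]
          exact Or.inl ⟨i, by simpa using h, rfl⟩)
    have hy₀ : ∀ i, e y i ∈ B₀ := by
      intro i
      by_cases h : e y i = 0
      · rw [h]; exact zero_mem _
      · exact Algebra.subset_adjoin (by
          simp only [S, Finset.coe_union, Finset.coe_image, Set.mem_union]
          exact Or.inr ⟨i, by simpa using h, rfl⟩)
    let x₀ : E ⊗[k] B₀ := (e x).sum fun i _ => b i ⊗ₜ[k] (⟨e x i, hx₀ i⟩ : B₀)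
    let y₀ : E ⊗[k] B₀ := (e y).sum fun i _ => b i ⊗ₜ[k] (⟨e y i, hy₀ i⟩ : B₀)
    let J : E ⊗[k] B₀ →ₐ[k] E ⊗[k] B := Algebra.TensorProduct.map (AlgHom.id k E) B₀.val
    have hJinj : Function.Injective J := by
      have := Module.Flat.lTensor_preserves_injective_linearMap (M := E) B₀.val.toLinearMap
        Subtype.val_injective
      exact this
    have hJx : J x₀ = x := by
      have h1 : x = e.symm (e x) := (e.symm_apply_apply x).symm
      conv_rhs => rw [h1, TensorProduct.equivFinsuppOfBasisLeft_symm_apply]
      simp only [x₀, Finsupp.sum, map_sum]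
      exact Finset.sum_congr rfl fun i _ => by simp [J]
    have hJy : J y₀ = y := by
      have h1 : y = e.symm (e y) := (e.symm_apply_apply y).symm
      conv_rhs => rw [h1, TensorProduct.equivFinsuppOfBasisLeft_symm_apply]
      simp only [y₀, Finsupp.sum, map_sum]
      exact Finset.sum_congr rfl fun i _ => by simp [J]
    have h0 : x₀ * y₀ = 0 := hJinj (by rw [map_mul, hJx, hJy, hxy, map_zero])
    obtain ⟨χ, hχ⟩ := exists_algHom_ne_zero (k := k) (B := B₀)
      (b := ⟨e x i, hx₀ i⟩ * ⟨e y j, hy₀ j⟩)
      (mul_ne_zero (fun h => hi (congrArg Subtype.val h)) (fun h => hj (congrArg Subtype.val h)))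
    let Φ : E ⊗[k] B₀ →ₐ[k] E :=
      Algebra.TensorProduct.lift (AlgHom.id k E) ((Algebra.ofId k E).comp χ)
        (fun _ _ => Commute.all _ _)
    have hΦx : Φ x₀ = (e x).sum fun i _ => χ ⟨e x i, hx₀ i⟩ • b i := by
      simp only [x₀, Finsupp.sum, map_sum]
      refine Finset.sum_congr rfl fun i _ => ?_
      simp [Φ, Algebra.smul_def, Algebra.ofId_apply, mul_comm]
    have hΦy : Φ y₀ = (e y).sum fun i _ => χ ⟨e y i, hy₀ i⟩ • b i := by
      simp only [y₀, Finsupp.sum, map_sum]
      refine Finset.sum_congr rfl fun i _ => ?_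
      simp [Φ, Algebra.smul_def, Algebra.ofId_apply, mul_comm]
    have hmul : Φ x₀ * Φ y₀ = 0 := by rw [← map_mul, h0, map_zero]
    rw [map_mul] at hχ
    rcases mul_eq_zero.mp hmul with h | h
    · rw [hΦx] at h
      have := (linearIndependent_iff'.mp b.linearIndependent) (e x).support
        (fun i => χ ⟨e x i, hx₀ i⟩) h i (by simpa using hi)
      exact hχ (by rw [this, zero_mul])
    · rw [hΦy] at h
      have := (linearIndependent_iff'.mp b.linearIndependent) (e y).support
        (fun i => χ ⟨e y i, hy₀ i⟩) h j (by simpa using hj)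
      exact hχ (by rw [this, mul_zero])
  have : NoZeroDivisors (E ⊗[k] B) := ⟨fun {x y} hxy => by
    by_contra hcon
    push Not at hcon
    exact key x y hxy hcon.1 hcon.2⟩
  exact NoZeroDivisors.to_isDomain _

end Fermat.Agent.H26
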