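import Mathlib
import Fermat.Agent.H26Tensor

/-!
# Constant field extensions: existence and linear algebra (helper26, S26)
-/

set_option autoImplicit false

noncomputable section

open TensorProduct

namespace Fermat.Agent.H26

universe u

/-! ### Linear algebra -/

namespace IsCE

section lin

variable {k k' E E' : Type*} [Field k] [Field k'] [Field E] [Field E'] [Algebra k k']
    [Algebra k E] [Algebra k' E'] [Algebra E E'] [Algebra k E'] [IsScalarTower k k' E']
    [IsScalarTower k E E']

section
variable [IsCE k k' E E']

theorem linInd {ι : Type*} (e : ι → E) (h : LinearIndependent k e) :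
    LinearIndependent k' fun i => algebraMap E E' (e i) := by
  classical
  rw [linearIndependent_iff_finset_linearIndependent]
  intro s
  have h1 : LinearIndependent k fun i : s => e i := h.comp _ Subtype.val_injective
  let f : Fin (Fintype.card s) ≃ s := (Fintype.equivFin s).symm
  have h2 := IsCE.linearIndependent_map (k := k) (k' := k') (E' := E') (fun i => e (f i))
    (h1.comp f f.injective)
  have h3 := h2.comp f.symm f.symm.injective
  convert h3 using 1
  ext i
  simp

theorem linInd' {ι : Type*} (l : ι → k') (h : LinearIndependent k l) :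
    LinearIndependent E fun i => algebraMap k' E' (l i) := by
  classical
  rw [linearIndependent_iff']
  intro s g hg i hi
  let b := Module.Basis.ofVectorSpace k E
  have hb := linInd (k' := k') (E' := E') b b.linearIndependent
  have hsum : (Finsupp.linearCombination k' fun j => algebraMap E E' (b j))
      (∑ i ∈ s, l i • (b.repr (g i)).mapRange (algebraMap k k') (map_zero _)) = 0 := by
    rw [map_sum, ← hg]
    refine Finset.sum_congr rfl fun i _ => ?_
    rw [map_smul, Finsupp.linearCombination_apply, Finsupp.sum_mapRange_index (by simp)]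
    have h1 : g i = (b.repr (g i)).sum fun j c => c • b j := (b.linearCombination_repr (g i)).symm
    conv_rhs => rw [h1, Algebra.smul_def, Finsupp.sum, map_sum]
    rw [Finsupp.sum, Finset.smul_sum, Finset.sum_mul]
    refine Finset.sum_congr rfl fun j _ => ?_
    rw [Algebra.smul_def, Algebra.smul_def, Algebra.smul_def, map_mul,
      ← IsScalarTower.algebraMap_apply, ← IsScalarTower.algebraMap_apply]
    ring
  have h0 := (linearIndependent_iff.mp hb) _ hsum
  have h2 : b.repr (g i) = 0 := by
    ext j
    have h3 := DFunLike.congr_fun h0 j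
    rw [Finsupp.finsetSum_apply] at h3
    have h4 : ∑ i ∈ s, (b.repr (g i) j) • l i = 0 := by
      rw [Finsupp.coe_zero, Pi.zero_apply] at h3
      rw [← h3]
      refine Finset.sum_congr rfl fun i _ => ?_
      rw [Finsupp.smul_apply, Finsupp.mapRange_apply, smul_eq_mul, Algebra.smul_def, mul_comm]
    exact (linearIndependent_iff'.mp h) s _ h4 i hi
  exact b.repr.injective (by rw [h2, map_zero])

end

/-- the elements of `k'` and `E` generate a ring equal to the `k'`-span of `E` -/
def tens (k k' E E' : Type*) [Field k] [Field k'] [Field E] [Field E'] [Algebra k k']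
    [Algebra k E] [Algebra k' E'] [Algebra E E'] [Algebra k E'] [IsScalarTower k k' E']
    [IsScalarTower k E E'] : Subalgebra k' E' :=
  Algebra.adjoin k' (Set.range (algebraMap E E'))

theorem mem_tens_iff {x : E'} :
    x ∈ tens k k' E E' ↔ x ∈ Submodule.span k' (Set.range (algebraMap E E')) := by
  have h1 : (Submonoid.closure (Set.range (algebraMap E E')) : Set E') =
      Set.range (algebraMap E E') := by
    have : Set.range (algebraMap E E') = (MonoidHom.mrange (algebraMap E E').toMonoidHom : Set E') := by
      ext; simp
    rw [this, Submonoid.closure_eq]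
  rw [tens, ← Subalgebra.mem_toSubmodule, Algebra.adjoin_eq_span, h1]

theorem algebraMap_mem_tens (e : E) : algebraMap E E' e ∈ tens k k' E E' :=
  Algebra.subset_adjoin ⟨e, rfl⟩

/-- the base change to `k'` of a `k`-subspace of `E` -/
def ext (k' E' : Type*) {k E : Type*} [Field k] [Field k'] [Field E] [Field E'] [Algebra k k']
    [Algebra k E] [Algebra k' E'] [Algebra E E'] [Algebra k E'] [IsScalarTower k k' E']
    [IsScalarTower k E E'] (S : Submodule k E) : Submodule k' E' :=
  Submodule.span k' (algebraMap E E' '' S)

theorem algebraMap_mem_ext {S : Submodule k E} {e : E} (he : e ∈ S) :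
    algebraMap E E' e ∈ ext k' E' S := Submodule.subset_span ⟨e, he, rfl⟩

theorem ext_mono {S T : Submodule k E} (h : S ≤ T) : ext k' E' S ≤ ext k' E' T :=
  Submodule.span_mono (Set.image_mono h)

theorem mem_tens_iff_mem_ext {x : E'} : x ∈ tens k k' E E' ↔ x ∈ ext k' E' (⊤ : Submodule k E) := by
  rw [mem_tens_iff, ext]
  congr! 2
  ext; simp

/-- Elements of the span as sums `∑ λ_i e_i` with `λ_i` linearly independent over `k`. -/
theorem exists_rep {S : Submodule k E} {x : E'} (hx : x ∈ ext k' E' S) :
    ∃ (n : ℕ) (l : Fin n → k') (e : Fin n → E), LinearIndependent k l ∧ (∀ i, e i ∈ S) ∧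
      x = ∑ i, algebraMap k' E' (l i) * algebraMap E E' (e i) := by
  classical
  -- first a representation without independence
  obtain ⟨m, c, f, hf, rfl⟩ : ∃ (m : ℕ) (c : Fin m → k') (f : Fin m → E), (∀ j, f j ∈ S) ∧
      x = ∑ j, algebraMap k' E' (c j) * algebraMap E E' (f j) := by
    obtain ⟨m, c, g, hg⟩ := Submodule.mem_span_set'.mp hx
    choose f hf hf' using fun j => (g j).2
    refine ⟨m, c, f, hf, ?_⟩
    rw [← hg]
    refine Finset.sum_congr rfl fun j _ => ?_
    rw [Algebra.smul_def, ← hf' j]
  let W : Submodule k k' := Submodule.span k (Set.range c)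
  have : FiniteDimensional k W := FiniteDimensional.span_of_finite k (Set.finite_range c)
  let b := Module.finBasis k W
  have hc : ∀ j, c j ∈ W := fun j => Submodule.subset_span ⟨j, rfl⟩
  refine ⟨_, fun i => (b i : k'), fun i => ∑ j, b.repr ⟨c j, hc j⟩ i • f j, ?_, ?_, ?_⟩
  · exact b.linearIndependent.map' W.subtype (Submodule.ker_subtype W)
  · intro i
    exact sum_mem fun j _ => S.smul_mem _ (hf j)
  · have h1 : ∀ j, c j = ∑ i, (b.repr ⟨c j, hc j⟩ i) • (b i : k') := by
      intro j
      have h1 := congrArg Subtype.val (b.sum_repr ⟨c j, hc j⟩)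
      rw [AddSubmonoidClass.coe_finsetSum] at h1
      exact h1.symm
    have h2 : ∀ j, algebraMap k' E' (c j) * algebraMap E E' (f j) =
        ∑ i, algebraMap k' E' (b i : k') * algebraMap E E' (b.repr ⟨c j, hc j⟩ i • f j) := by
      intro j
      conv_lhs => rw [h1 j]
      rw [map_sum, Finset.sum_mul]
      refine Finset.sum_congr rfl fun i _ => ?_
      rw [Algebra.smul_def, Algebra.smul_def, map_mul, map_mul, ← IsScalarTower.algebraMap_apply,
        ← IsScalarTower.algebraMap_apply]
      ring
    rw [Finset.sum_congr rfl fun j _ => h2 j, Finset.sum_comm]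
    refine Finset.sum_congr rfl fun i _ => ?_
    rw [map_sum, Finset.mul_sum]

variable [IsCE k k' E E']

/-- uniqueness of coefficients -/
theorem eq_zero_of_sum_eq_zero {n : ℕ} {l : Fin n → k'} (hl : LinearIndependent k l)
    {e : Fin n → E} (h : ∑ i, algebraMap k' E' (l i) * algebraMap E E' (e i) = 0) (i : Fin n) :
    e i = 0 := by
  have h1 := linInd' (E := E) (E' := E') l hl
  rw [Fintype.linearIndependent_iff] at h1
  refine h1 e ?_ i
  rw [← h]
  exact Finset.sum_congr rfl fun i _ => by rw [Algebra.smul_def, mul_comm]

/-- `∑ λ_i e_i` lies in the extension of `S` iff all `e_i ∈ S`. -/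
theorem mem_ext_iff {S : Submodule k E} {n : ℕ} {l : Fin n → k'} (hl : LinearIndependent k l)
    {e : Fin n → E} :
    (∑ i, algebraMap k' E' (l i) * algebraMap E E' (e i)) ∈ ext k' E' S ↔ ∀ i, e i ∈ S := by
  classical
  constructor
  · intro h i
    by_contra hi
    obtain ⟨f, hf, hSf⟩ := Submodule.exists_le_ker_of_notMem hi
    -- extend `f` to a `k'`-linear functional on the span
    obtain ⟨m, c, g, hg, hsum⟩ : ∃ (m : ℕ) (c : Fin m → k') (g : Fin m → E), (∀ j, g j ∈ S) ∧
        (∑ i, algebraMap k' E' (l i) * algebraMap E E' (e i)) =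
          ∑ j, algebraMap k' E' (c j) * algebraMap E E' (g j) := by
      obtain ⟨n, c, g, -, hg, h⟩ := exists_rep h
      exact ⟨n, c, g, hg, h⟩
    -- functional on `E'`-span : use a basis of `E`
    let b := Module.Basis.ofVectorSpace k E
    have hb := linInd (k' := k') (E' := E') b b.linearIndependent
    let F : Submodule.span k' (Set.range fun j => algebraMap E E' (b j)) →ₗ[k'] k' :=
      (Finsupp.linearCombination k' fun j => algebraMap k k' (f (b j))) ∘ₗ hb.repr
    have hmem : ∀ x : E, algebraMap E E' x ∈
        Submodule.span k' (Set.range fun j => algebraMap E E' (b j)) := by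
      intro x
      rw [← b.linearCombination_repr x, Finsupp.linearCombination_apply, Finsupp.sum, map_sum]
      refine sum_mem fun j _ => ?_
      rw [Algebra.smul_def, map_mul, ← IsScalarTower.algebraMap_apply,
        IsScalarTower.algebraMap_apply k k' E', ← Algebra.smul_def]
      exact Submodule.smul_mem _ _ (Submodule.subset_span ⟨j, rfl⟩)
    have hF : ∀ x : E, F ⟨algebraMap E E' x, hmem x⟩ = algebraMap k k' (f x) := by
      intro x
      have h1 : (⟨algebraMap E E' x, hmem x⟩ :
          Submodule.span k' (Set.range fun j => algebraMap E E' (b j))) =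
          (b.repr x).sum fun j a => algebraMap k k' a •
            ⟨algebraMap E E' (b j), Submodule.subset_span ⟨j, rfl⟩⟩ := by
        apply Subtype.ext
        have h0 : algebraMap E E' x = (b.repr x).sum fun j a =>
            algebraMap k k' a • algebraMap E E' (b j) := by
          conv_lhs => rw [← b.linearCombination_repr x]
          rw [Finsupp.linearCombination_apply, Finsupp.sum, map_sum]
          refine Finset.sum_congr rfl fun j _ => ?_
          beta_reduce
          rw [Algebra.smul_def, Algebra.smul_def, map_mul, ← IsScalarTower.algebraMap_apply,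
            ← IsScalarTower.algebraMap_apply]
        change algebraMap E E' x = _
        rw [h0, Finsupp.sum, Finsupp.sum, AddSubmonoidClass.coe_finsetSum]
        rfl
      rw [h1, Finsupp.sum, map_sum]
      conv_rhs => rw [← b.linearCombination_repr x]
      rw [Finsupp.linearCombination_apply, Finsupp.sum, map_sum, map_sum]
      refine Finset.sum_congr rfl fun j _ => ?_
      rw [map_smul, map_smul]
      have h2 : hb.repr ⟨algebraMap E E' (b j), Submodule.subset_span ⟨j, rfl⟩⟩ =
          Finsupp.single j 1 := hb.repr_eq_single j _ rfl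
      simp [F, h2]
    have h3 : F (∑ i, l i • ⟨algebraMap E E' (e i), hmem _⟩) =
        F (∑ j, c j • ⟨algebraMap E E' (g j), hmem _⟩) := by
      congr 1
      apply Subtype.ext
      rw [AddSubmonoidClass.coe_finsetSum, AddSubmonoidClass.coe_finsetSum]
      simpa [Algebra.smul_def] using hsum
    rw [map_sum, map_sum] at h3
    simp only [map_smul, hF] at h3
    have h4 : ∑ i, f (e i) • l i = 0 := by
      have h5 : ∀ j, f (g j) = 0 := fun j => LinearMap.mem_ker.mp (hSf (hg j))
      simp only [h5, map_zero, smul_zero, Finset.sum_const_zero] at h3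
      rw [← h3]
      exact Finset.sum_congr rfl fun i _ => by rw [Algebra.smul_def, smul_eq_mul, mul_comm]
    exact hf (Fintype.linearIndependent_iff.mp hl _ h4 i)
  · intro h
    refine sum_mem fun i _ => ?_
    rw [← Algebra.smul_def]
    exact Submodule.smul_mem _ _ (algebraMap_mem_ext (h i))

theorem finrank_ext (S : Submodule k E) : Module.finrank k' (ext k' E' S) = Module.finrank k S := by
  classical
  let b := Module.Basis.ofVectorSpace k S
  have hb : LinearIndependent k fun i => (b i : E) :=
    b.linearIndependent.map' S.subtype (Submodule.ker_subtype S)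
  have hb' := linInd (k' := k') (E' := E') _ hb
  have hspan : ext k' E' S = Submodule.span k' (Set.range fun i => algebraMap E E' (b i : E)) := by
    refine le_antisymm (Submodule.span_le.mpr ?_) (Submodule.span_le.mpr ?_)
    · rintro _ ⟨x, hx, rfl⟩
      have h1 := congrArg Subtype.val (b.linearCombination_repr ⟨x, hx⟩)
      rw [Finsupp.linearCombination_apply, Finsupp.sum, AddSubmonoidClass.coe_finsetSum] at h1
      have h2 : x = ∑ i ∈ (b.repr ⟨x, hx⟩).support, (b.repr ⟨x, hx⟩) i • (b i : E) := h1.symm
      rw [SetLike.mem_coe, h2, map_sum]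
      refine sum_mem fun j _ => ?_
      rw [Algebra.smul_def, map_mul, ← IsScalarTower.algebraMap_apply,
        IsScalarTower.algebraMap_apply k k' E', ← Algebra.smul_def]
      exact Submodule.smul_mem _ _ (Submodule.subset_span ⟨j, rfl⟩)
    · rintro _ ⟨i, rfl⟩
      exact algebraMap_mem_ext (b i).2
  rw [hspan, Module.finrank_eq_nat_card_basis (Module.Basis.span hb'),
    Module.finrank_eq_nat_card_basis b]

end lin

end IsCE

/-! ### Existence -/

theorem exists_CE_aux (K k k' E : Type u) [Field K] [Field k] [Field k'] [Field E]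
    [Algebra K k] [Algebra K k'] [Algebra K E] [Algebra k k'] [Algebra k E] [IsScalarTower K k k']
    [IsScalarTower K k E] (E' : Type u) [Field E'] [Algebra (E ⊗[k] k') E']
    [IsFractionRing (E ⊗[k] k') E'] :
    ∃ (_ : Algebra K E') (_ : Algebra k E') (_ : Algebra k' E')
      (_ : Algebra E E') (_ : IsScalarTower K k E') (_ : IsScalarTower K k' E')
      (_ : IsScalarTower K E E') (_ : IsScalarTower k k' E') (_ : IsScalarTower k E E'),
      IsCE k k' E E' := by
  classical
  let iE : E →+* E' := (algebraMap (E ⊗[k] k') E').comp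
    (Algebra.TensorProduct.includeLeft (R := k) (S := k) (A := E) (B := k')).toRingHom
  let ik : k' →+* E' := (algebraMap (E ⊗[k] k') E').comp
    (Algebra.TensorProduct.includeRight (R := k) (A := E) (B := k')).toRingHom
  let _ : Algebra E E' := iE.toAlgebra
  let _ : Algebra k' E' := ik.toAlgebra
  let _ : Algebra k E' := (iE.comp (algebraMap k E)).toAlgebra
  let _ : Algebra K E' := (iE.comp (algebraMap K E)).toAlgebra
  have hk : ∀ c : k, ik (algebraMap k k' c) = iE (algebraMap k E c) := by
    intro c
    simp only [ik, iE, RingHom.comp_apply]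
    congr 1
    simp [Algebra.TensorProduct.tmul_one_eq_one_tmul]
  have t1 : IsScalarTower k E E' := IsScalarTower.of_algebraMap_eq fun c => rfl
  have t2 : IsScalarTower k k' E' := IsScalarTower.of_algebraMap_eq fun c => (hk c).symm
  have t3 : IsScalarTower K E E' := IsScalarTower.of_algebraMap_eq fun c => rfl
  have t4 : IsScalarTower K k E' := IsScalarTower.of_algebraMap_eq fun c => by
    change iE (algebraMap K E c) = iE (algebraMap k E (algebraMap K k c))
    rw [← IsScalarTower.algebraMap_apply]
  have t5 : IsScalarTower K k' E' := IsScalarTower.of_algebraMap_eq fun c => by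
    change iE (algebraMap K E c) = ik (algebraMap K k' c)
    rw [IsScalarTower.algebraMap_apply K k k', hk, ← IsScalarTower.algebraMap_apply]
  refine ⟨_, _, _, _, t4, t5, t3, t2, t1, ?_⟩
  refine ⟨?_, ?_⟩
  · intro n e he
    rw [Fintype.linearIndependent_iff]
    intro g hg i
    have h1 : algebraMap (E ⊗[k] k') E' (∑ i, e i ⊗ₜ[k] g i) = 0 := by
      rw [← hg, map_sum]
      refine Finset.sum_congr rfl fun i _ => ?_
      rw [Algebra.smul_def]
      change _ = ik (g i) * iE (e i)
      simp only [ik, iE, RingHom.comp_apply]
      rw [← map_mul]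
      congr 1
      simp
    have h2 : ∑ i, e i ⊗ₜ[k] g i = 0 := (IsFractionRing.injective (E ⊗[k] k') E') (by
      rw [h1, map_zero])
    -- extend `e` to a basis of `E`
    let b := Module.Basis.extend he.linearIndepOn_id
    have hsub : ∀ i, e i ∈ (he.linearIndepOn_id).extend (Set.subset_univ _) := fun i =>
      Module.Basis.subset_extend _ ⟨i, rfl⟩
    have h3 := congrArg (TensorProduct.equivFinsuppOfBasisLeft (N := k') b) h2
    rw [map_sum, map_zero] at h3
    have h4 := DFunLike.congr_fun h3 ⟨e i, hsub i⟩
    rw [Finsupp.finsetSum_apply] at h4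
    have h5 : ∀ j, (TensorProduct.equivFinsuppOfBasisLeft (N := k') b (e j ⊗ₜ[k] g j))
        ⟨e i, hsub i⟩ = if j = i then g j else 0 := by
      intro j
      have hbj : b ⟨e j, hsub j⟩ = e j := by simp [b]
      conv_lhs => rw [← hbj]
      rw [TensorProduct.equivFinsuppOfBasisLeft_apply_tmul_apply, b.repr_self,
        Finsupp.single_apply]
      by_cases hij : j = i
      · subst hij; simp
      · have hne : e j ≠ e i := fun h => hij (he.injective h)
        simp [hij, hne]
    simp only [h5, Finset.sum_ite_eq', Finset.mem_univ, if_true] at h4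
    exact h4
  · intro x
    have hspan : ∀ t : E ⊗[k] k', algebraMap (E ⊗[k] k') E' t ∈
        Submodule.span k' (Set.range (algebraMap E E')) := by
      intro t
      induction t with
      | zero => rw [map_zero]; exact zero_mem _
      | tmul e c =>
        have : algebraMap (E ⊗[k] k') E' (e ⊗ₜ[k] c) = c • algebraMap E E' e := by
          rw [Algebra.smul_def]
          change _ = ik c * iE e
          simp only [ik, iE, RingHom.comp_apply]
          rw [← map_mul]
          congr 1
          simp
        rw [this]
        exact Submodule.smul_mem _ _ (Submodule.subset_span ⟨e, rfl⟩)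
      | add a b ha hb => rw [map_add]; exact add_mem ha hb
    obtain ⟨a, b, hb, rfl⟩ := IsFractionRing.div_surjective (A := E ⊗[k] k') x
    have hb0 : algebraMap (E ⊗[k] k') E' b ≠ 0 :=
      IsFractionRing.to_map_ne_zero_of_mem_nonZeroDivisors hb
    exact ⟨_, hspan a, _, hspan b, hb0, div_mul_cancel₀ _ hb0⟩

/-- constant field extensions exist over an algebraically closed field -/
theorem exists_CE (K k k' E : Type u) [Field K] [Field k] [Field k'] [Field E] [IsAlgClosed k]
    [Algebra K k] [Algebra K k'] [Algebra K E] [Algebra k k'] [Algebra k E] [IsScalarTower K k k']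
    [IsScalarTower K k E] :
    ∃ (E' : Type u) (_ : Field E') (_ : Algebra K E') (_ : Algebra k E') (_ : Algebra k' E')
      (_ : Algebra E E') (_ : IsScalarTower K k E') (_ : IsScalarTower K k' E')
      (_ : IsScalarTower K E E') (_ : IsScalarTower k k' E') (_ : IsScalarTower k E E'),
      IsCE k k' E E' := by
  have hdom : IsDomain (E ⊗[k] k') := isDomain_tensor k E k'
  obtain ⟨a1, a2, a3, a4, h⟩ := exists_CE_aux K k k' E (FractionRing (E ⊗[k] k'))
  exact ⟨FractionRing (E ⊗[k] k'), inferInstance, a1, a2, a3, a4, h⟩

end Fermat.Agent.H26
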