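import Mathlib
import Fermat.Agent.H3RR_FF
import Fermat.Agent.H26CE1

/-!
# Constant field extensions of function fields: degrees (helper26, S26)
-/

set_option autoImplicit false

noncomputable section

open IntermediateField Polynomial

namespace Fermat.Agent.H26

namespace IsCE

variable {k k' E E' : Type*} [Field k] [Field k'] [Field E] [Field E'] [Algebra k k']
    [Algebra k E] [Algebra k' E'] [Algebra E E'] [Algebra k E'] [IsScalarTower k k' E']
    [IsScalarTower k E E'] [IsCE k k' E E']

section
omit [Field k'] [Field E'] [Algebra k k'] [Algebra k' E'] [Algebra E E'] [Algebra k E']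
  [IsScalarTower k k' E'] [IsScalarTower k E E'] [IsCE k k' E E']

theorem linInd_pow {s : E} (hs : Transcendental k s) : LinearIndependent k fun j : ℕ => s ^ j := by
  have h1 := (Polynomial.basisMonomials k).linearIndependent.map' (aeval s).toLinearMap
    (LinearMap.ker_eq_bot.mpr (transcendental_iff_injective.mp hs))
  have h2 : (⇑(aeval s).toLinearMap ∘ ⇑(basisMonomials k)) = fun j : ℕ => s ^ j := by
    funext j
    simp only [Function.comp_apply, coe_basisMonomials, AlgHom.toLinearMap_apply]
    rw [← X_pow_eq_monomial, map_pow, aeval_X]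
  rw [h2] at h1
  exact h1

theorem linInd_monomials {s : E} (hs : Transcendental k s) {n : ℕ} (e : Fin n → E)
    (he : LinearIndependent k⟮s⟯ e) : LinearIndependent k fun p : ℕ × Fin n => s ^ p.1 * e p.2 := by
  have h1 : Transcendental k (AdjoinSimple.gen k s) := by
    intro h
    refine hs ?_
    have := h.algebraMap (A := E)
    simpa using this
  have h3 := linearIndependent_smul (linInd_pow h1) he
  convert h3 using 2 with p
  rw [Algebra.smul_def, map_pow]
  simp

end

theorem poly_independent {s : E} (hs : Transcendental k s) {n : ℕ} (e : Fin n → E)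
    (he : LinearIndependent k⟮s⟯ e) (p : Fin n → k'[X])
    (h : ∑ i, aeval (algebraMap E E' s) (p i) * algebraMap E E' (e i) = 0) : p = 0 := by
  classical
  have h1 := linInd (k' := k') (E' := E') _ (linInd_monomials hs e he)
  rw [linearIndependent_iff'] at h1
  let N := Finset.univ.sup fun i => (p i).natDegree
  have hN : ∀ i, (p i).natDegree < N + 1 := fun i =>
    Nat.lt_succ_of_le (Finset.le_sup (f := fun i => (p i).natDegree) (Finset.mem_univ i))
  have h2 := h1 (Finset.range (N + 1) ×ˢ Finset.univ) (fun q => (p q.2).coeff q.1) (by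
    rw [Finset.sum_product_right, ← h]
    refine Finset.sum_congr rfl fun i _ => ?_
    rw [aeval_eq_sum_range' (hN i), Finset.sum_mul]
    refine Finset.sum_congr rfl fun j _ => ?_
    rw [map_mul, map_pow, smul_mul_assoc])
  funext i
  ext j
  by_cases hj : j < N + 1
  · exact h2 (j, i) (by simp [hj])
  · rw [Polynomial.coeff_eq_zero_of_natDegree_lt ((hN i).trans_le (not_lt.mp hj))]
    simp

theorem transcendental_map {s : E} (hs : Transcendental k s) :
    Transcendental k' (algebraMap E E' s) := by
  rintro ⟨p, hp, h0⟩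
  have h1 : LinearIndependent k⟮s⟯ fun _ : Fin 1 => (1 : E) :=
    LinearIndependent.of_subsingleton 0 one_ne_zero
  have h2 := poly_independent (k' := k') (E' := E') hs _ h1 (fun _ => p) (by simp [h0])
  exact hp (congrFun h2 0)

theorem algebraMap_mem_adjoin {s c : E} (hc : c ∈ k⟮s⟯) :
    algebraMap E E' c ∈ k'⟮algebraMap E E' s⟯ := by
  obtain ⟨r, q, rfl⟩ := (mem_adjoin_simple_iff k c).mp hc
  have h : ∀ r : k[X], algebraMap E E' (aeval s r) ∈ k'⟮algebraMap E E' s⟯ := by
    intro r
    rw [← Polynomial.aeval_algebraMap_apply, ← Polynomial.aeval_map_algebraMap (A := k')]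
    exact (mem_adjoin_simple_iff _ _).mpr ⟨r.map (algebraMap k k'), 1, by simp⟩
  rw [map_div₀]
  exact div_mem (h r) (h q)

/-- A basis of `E` over `k(s)` is a basis of `E'` over `k'(s)`. -/
theorem exists_basis {s : E} (hs : Transcendental k s) {n : ℕ}
    (e : Module.Basis (Fin n) k⟮s⟯ E) :
    ∃ e' : Module.Basis (Fin n) k'⟮algebraMap E E' s⟯ E', ∀ i, e' i = algebraMap E E' (e i) := by
  classical
  set s' := algebraMap E E' s with hs'
  have hs't : Transcendental k' s' := transcendental_map hs
  have hli : LinearIndependent k'⟮s'⟯ fun i => algebraMap E E' (e i) := by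
    apply H3RR.linearIndependent_of_poly hs't
    intro p hp hex
    obtain ⟨i, hi⟩ := hex
    have := poly_independent (k' := k') (E' := E') hs e e.linearIndependent p hp
    rw [this] at hi
    simp at hi
  let A : Subalgebra k'⟮s'⟯ E' := Algebra.adjoin _ (Set.range (algebraMap E E'))
  have hA : ∀ x, x ∈ A ↔ x ∈ Submodule.span k'⟮s'⟯ (Set.range (algebraMap E E')) := by
    intro x
    have h1 : (Submonoid.closure (Set.range (algebraMap E E')) : Set E') =
        Set.range (algebraMap E E') := by
      have : Set.range (algebraMap E E') =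
          (MonoidHom.mrange (algebraMap E E').toMonoidHom : Set E') := by
        ext; simp
      rw [this, Submonoid.closure_eq]
    rw [← Subalgebra.mem_toSubmodule, Algebra.adjoin_eq_span, h1]
  have hspan : Submodule.span k'⟮s'⟯ (Set.range (algebraMap E E')) =
      Submodule.span k'⟮s'⟯ (Set.range fun i => algebraMap E E' (e i)) := by
    refine le_antisymm (Submodule.span_le.mpr ?_) (Submodule.span_mono ?_)
    · rintro _ ⟨x, rfl⟩
      have h1 : x = ∑ i, (e.repr x i : E) * e i := by
        conv_lhs => rw [← e.sum_repr x]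
        exact Finset.sum_congr rfl fun i _ => by rw [Algebra.smul_def]; rfl
      rw [SetLike.mem_coe, h1, map_sum]
      refine sum_mem fun i _ => ?_
      rw [map_mul]
      have h2 := algebraMap_mem_adjoin (k' := k') (E' := E') (e.repr x i).2
      exact Submodule.smul_mem _ (⟨_, h2⟩ : k'⟮s'⟯) (Submodule.subset_span ⟨i, rfl⟩)
    · rintro _ ⟨i, rfl⟩
      exact ⟨_, rfl⟩
  have hfin : Module.Finite k'⟮s'⟯ A := by
    have : (Subalgebra.toSubmodule A).FG := by
      have h1 : Subalgebra.toSubmodule A =
          Submodule.span k'⟮s'⟯ (Set.range fun i => algebraMap E E' (e i)) := by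
        rw [← hspan]
        ext x
        rw [Subalgebra.mem_toSubmodule, hA]
      rw [h1]
      exact Submodule.fg_span (Set.finite_range _)
    exact Module.Finite.iff_fg.mpr this
  have halg : Algebra.IsAlgebraic k'⟮s'⟯ A := Algebra.IsAlgebraic.of_finite _ _
  have hk' : ∀ x ∈ Submodule.span k' (Set.range (algebraMap E E')), x ∈ A := by
    intro x hx
    induction hx using Submodule.span_induction with
    | mem x h => exact Algebra.subset_adjoin h
    | zero => exact zero_mem _
    | add x y _ _ hx hy => exact add_mem hx hy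
    | smul a x _ hx =>
      rw [Algebra.smul_def, IsScalarTower.algebraMap_apply k' k'⟮s'⟯ E']
      exact mul_mem (Subalgebra.algebraMap_mem _ _) hx
  have htop : ∀ x : E', x ∈ A := by
    intro x
    obtain ⟨a, ha, b, hb, hb0, h⟩ := IsCE.exists_mul_eq (k := k) (k' := k') (E := E) x
    have hx : x = a * b⁻¹ := by rw [← h, mul_inv_cancel_right₀ hb0]
    rw [hx]
    refine mul_mem (hk' a ha) ?_
    have h1 : IsAlgebraic k'⟮s'⟯ b := by
      have := (Algebra.IsAlgebraic.isAlgebraic (R := k'⟮s'⟯) (⟨b, hk' b hb⟩ : A)).algebraMap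
        (A := E')
      exact this
    exact A.inv_mem_of_algebraic (x := (⟨b, hk' b hb⟩ : A)) h1
  refine ⟨Module.Basis.mk hli ?_, fun i => Module.Basis.mk_apply _ _ _⟩
  rw [← hspan]
  intro x _
  exact (hA x).mp (htop x)

variable (k k' E E')

theorem isFF [H3RR.IsFF k E] : H3RR.IsFF k' E' := by
  obtain ⟨s, hs, hfd⟩ := H3RR.IsFF.exists_gen (K := k) (F := E)
  obtain ⟨e', he'⟩ := exists_basis (k' := k') (E' := E') hs (Module.finBasis k⟮s⟯ E)
  exact ⟨algebraMap E E' s, transcendental_map hs, Module.Basis.finiteDimensional_of_finite e'⟩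

variable {E}

theorem finrank_adjoin [H3RR.IsFF k E] {s : E} (hs : Transcendental k s) :
    Module.finrank k'⟮algebraMap E E' s⟯ E' = Module.finrank k⟮s⟯ E := by
  have := H3RR.IsFF.finiteDimensional (K := k) hs
  obtain ⟨e', he'⟩ := exists_basis (k' := k') (E' := E') hs (Module.finBasis k⟮s⟯ E)
  rw [Module.finrank_eq_card_basis e', Fintype.card_fin]

end IsCE

end Fermat.Agent.H26
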