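import Mathlib
import Fermat.Agent.H3RR_FF

/-!
# Abstract group varieties through their points (helper26, project S26)

`AV K` packages the functor of points of an integral separated commutative group variety `A`
over a field `K` which is proper, together with its function field `F` and, for every point
`P` with values in a local ring `R`, the local ring `dom P ⊆ F` of the centre of `P` and the local
homomorphism `ev P : dom P → R`.
-/

set_option autoImplicit false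

noncomputable section

namespace Fermat.Agent.H26

universe u

/-- Abstract proper integral commutative group variety. -/
structure AV (K : Type u) [Field K] where
  /-- the function field -/
  F : Type u
  [field : Field F]
  [algebra : Algebra K F]
  /-- the functor of points -/
  Pt : (R : Type u) → [CommRing R] → [Algebra K R] → Type u
  [grp : ∀ (R : Type u) [CommRing R] [Algebra K R], AddCommGroup (Pt R)]
  /-- functoriality -/
  map : ∀ {R S : Type u} [CommRing R] [Algebra K R] [CommRing S] [Algebra K S],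
    (R →ₐ[K] S) → (Pt R →+ Pt S)
  map_id' : ∀ {R : Type u} [CommRing R] [Algebra K R] (P : Pt R), map (AlgHom.id K R) P = P
  map_comp' : ∀ {R S T : Type u} [CommRing R] [Algebra K R] [CommRing S] [Algebra K S]
    [CommRing T] [Algebra K T] (α : R →ₐ[K] S) (β : S →ₐ[K] T) (P : Pt R),
    map (β.comp α) P = map β (map α P)
  /-- the local ring of the centre of a point with values in a local ring -/
  dom : ∀ {R : Type u} [CommRing R] [Algebra K R] [IsLocalRing R], Pt R → Subalgebra K F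
  /-- evaluation of functions at a point -/
  ev : ∀ {R : Type u} [CommRing R] [Algebra K R] [IsLocalRing R] (P : Pt R), dom P →ₐ[K] R
  isUnit_of_ev : ∀ {R : Type u} [CommRing R] [Algebra K R] [IsLocalRing R] (P : Pt R)
    (w : dom P), IsUnit (ev P w) → IsUnit w
  mem_dom_map : ∀ {R S : Type u} [CommRing R] [Algebra K R] [IsLocalRing R] [CommRing S]
    [Algebra K S] [IsLocalRing S] (ι : R →ₐ[K] S) (P : Pt R) (w : F),
    w ∈ dom (map ι P) ↔ ∃ a b : dom P, IsUnit (ι (ev P b)) ∧ w * b = a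
  ev_map : ∀ {R S : Type u} [CommRing R] [Algebra K R] [IsLocalRing R] [CommRing S]
    [Algebra K S] [IsLocalRing S] (ι : R →ₐ[K] S) (P : Pt R) (a : dom P)
    (h : (a : F) ∈ dom (map ι P)), ev (map ι P) ⟨a, h⟩ = ι (ev P a)
  /-- the generic point -/
  η : Pt F
  dom_η : dom η = ⊤
  ev_η : ∀ w : dom η, ev η w = w
  /-- the tautological point of a local ring of the variety -/
  exists_taut : ∀ {R : Type u} [CommRing R] [Algebra K R] [IsLocalRing R] (P : Pt R),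
    ∃ T : Pt (dom P), map (ev P) T = P ∧ map (dom P).val T = η
  ext' : ∀ {R : Type u} [CommRing R] [Algebra K R] [IsLocalRing R] (P Q : Pt R),
    dom P = dom Q → (∀ w (h : w ∈ dom P) (h' : w ∈ dom Q), ev P ⟨w, h⟩ = ev Q ⟨w, h'⟩) → P = Q
  /-- valuative criterion -/
  bij_of_valuation : ∀ {L : Type u} [Field L] [Algebra K L] (V : Subalgebra K L),
    (∀ x : L, x ∈ V ∨ x⁻¹ ∈ V) → Function.Bijective (map V.val)
  /-- points with values in a domain inject into points with values in a field containing it -/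
  map_injective : ∀ {R L : Type u} [CommRing R] [Algebra K R] [Field L] [Algebra K L]
    (ι : R →ₐ[K] L), Function.Injective ι → Function.Injective (map ι)
  essFiniteType_dom : ∀ {R : Type u} [CommRing R] [Algebra K R] [IsLocalRing R] (P : Pt R),
    Algebra.EssFiniteType K (dom P)

attribute [instance] AV.field AV.algebra AV.grp

namespace AV

variable {K : Type u} [Field K] (𝒜 : AV K)

variable {R S T : Type u} [CommRing R] [Algebra K R] [CommRing S] [Algebra K S]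
  [CommRing T] [Algebra K T]

/-- `w` is a unit of the subalgebra `B`. -/
def UnitIn (B : Subalgebra K 𝒜.F) (w : 𝒜.F) : Prop := w ≠ 0 ∧ w ∈ B ∧ w⁻¹ ∈ B

@[simp] theorem map_id (P : 𝒜.Pt R) : 𝒜.map (AlgHom.id K R) P = P := 𝒜.map_id' P

theorem map_map (α : R →ₐ[K] S) (β : S →ₐ[K] T) (P : 𝒜.Pt R) :
    𝒜.map β (𝒜.map α P) = 𝒜.map (β.comp α) P := (𝒜.map_comp' α β P).symm

section val

variable [IsLocalRing R] [IsLocalRing S]

open Classical in
/-- total version of evaluation: junk value `0` outside the domain. -/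
def val (P : 𝒜.Pt R) (w : 𝒜.F) : R := if h : w ∈ 𝒜.dom P then 𝒜.ev P ⟨w, h⟩ else 0

variable {𝒜}

theorem val_eq {P : 𝒜.Pt R} {w : 𝒜.F} (h : w ∈ 𝒜.dom P) : 𝒜.val P w = 𝒜.ev P ⟨w, h⟩ := dif_pos h

theorem val_coe (P : 𝒜.Pt R) (w : 𝒜.dom P) : 𝒜.val P (w : 𝒜.F) = 𝒜.ev P w := val_eq w.2

theorem val_mul {P : 𝒜.Pt R} {v w : 𝒜.F} (hv : v ∈ 𝒜.dom P) (hw : w ∈ 𝒜.dom P) :
    𝒜.val P (v * w) = 𝒜.val P v * 𝒜.val P w := by
  rw [val_eq hv, val_eq hw, val_eq (mul_mem hv hw), ← map_mul]; rfl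

theorem val_add {P : 𝒜.Pt R} {v w : 𝒜.F} (hv : v ∈ 𝒜.dom P) (hw : w ∈ 𝒜.dom P) :
    𝒜.val P (v + w) = 𝒜.val P v + 𝒜.val P w := by
  rw [val_eq hv, val_eq hw, val_eq (add_mem hv hw), ← map_add]; rfl

theorem val_sub {P : 𝒜.Pt R} {v w : 𝒜.F} (hv : v ∈ 𝒜.dom P) (hw : w ∈ 𝒜.dom P) :
    𝒜.val P (v - w) = 𝒜.val P v - 𝒜.val P w := by
  rw [val_eq hv, val_eq hw, val_eq (sub_mem hv hw), ← map_sub]; rfl

theorem val_neg {P : 𝒜.Pt R} {v : 𝒜.F} (hv : v ∈ 𝒜.dom P) : 𝒜.val P (-v) = - 𝒜.val P v := by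
  rw [val_eq hv, val_eq (neg_mem hv), ← map_neg]; rfl

@[simp] theorem val_algebraMap (P : 𝒜.Pt R) (c : K) :
    𝒜.val P (algebraMap K 𝒜.F c) = algebraMap K R c := by
  rw [val_eq (Subalgebra.algebraMap_mem _ c)]
  exact (𝒜.ev P).commutes c

@[simp] theorem val_one (P : 𝒜.Pt R) : 𝒜.val P 1 = 1 := by
  rw [val_eq (one_mem _)]; exact map_one _

@[simp] theorem val_zero (P : 𝒜.Pt R) : 𝒜.val P 0 = 0 := by
  rw [val_eq (zero_mem _)]; exact map_zero _

theorem val_smul {P : 𝒜.Pt R} (c : K) {v : 𝒜.F} (hv : v ∈ 𝒜.dom P) :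
    𝒜.val P (c • v) = c • 𝒜.val P v := by
  rw [Algebra.smul_def, val_mul (Subalgebra.algebraMap_mem _ c) hv, val_algebraMap,
    Algebra.smul_def]

theorem val_pow {P : 𝒜.Pt R} {v : 𝒜.F} (hv : v ∈ 𝒜.dom P) (n : ℕ) :
    𝒜.val P (v ^ n) = 𝒜.val P v ^ n := by
  rw [val_eq hv, val_eq (pow_mem hv n), ← map_pow]; rfl

theorem val_sum {P : 𝒜.Pt R} {ι : Type*} (s : Finset ι) (f : ι → 𝒜.F)
    (h : ∀ i ∈ s, f i ∈ 𝒜.dom P) : 𝒜.val P (∑ i ∈ s, f i) = ∑ i ∈ s, 𝒜.val P (f i) := by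
  classical
  induction s using Finset.induction_on with
  | empty => simp
  | insert a s ha ih =>
    rw [Finset.sum_insert ha, Finset.sum_insert ha,
      val_add (h _ (Finset.mem_insert_self _ _))
        (sum_mem fun i hi => h i (Finset.mem_insert_of_mem hi)),
      ih fun i hi => h i (Finset.mem_insert_of_mem hi)]

theorem val_prod {P : 𝒜.Pt R} {ι : Type*} (s : Finset ι) (f : ι → 𝒜.F)
    (h : ∀ i ∈ s, f i ∈ 𝒜.dom P) : 𝒜.val P (∏ i ∈ s, f i) = ∏ i ∈ s, 𝒜.val P (f i) := by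
  classical
  induction s using Finset.induction_on with
  | empty => simp
  | insert a s ha ih =>
    rw [Finset.prod_insert ha, Finset.prod_insert ha,
      val_mul (h _ (Finset.mem_insert_self _ _))
        (prod_mem fun i hi => h i (Finset.mem_insert_of_mem hi)),
      ih fun i hi => h i (Finset.mem_insert_of_mem hi)]

/-- a function in the domain with unit value is a unit of the domain -/
theorem unitIn_of_isUnit_val {P : 𝒜.Pt R} {w : 𝒜.F} (hw : w ∈ 𝒜.dom P)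
    (h : IsUnit (𝒜.val P w)) : 𝒜.UnitIn (𝒜.dom P) w := by
  rw [val_eq hw] at h
  obtain ⟨⟨u, v, huv, hvu⟩, hu⟩ := 𝒜.isUnit_of_ev P _ h
  have hu' : (u : 𝒜.F) = w := by
    have := congrArg (Subtype.val) hu
    simpa using this
  have h1 : w * v = 1 := by rw [← hu']; exact congrArg Subtype.val huv
  have hw0 : w ≠ 0 := left_ne_zero_of_mul_eq_one h1
  refine ⟨hw0, hw, ?_⟩
  rw [← eq_inv_of_mul_eq_one_right h1]
  exact v.2

theorem isUnit_val_of_unitIn {P : 𝒜.Pt R} {w : 𝒜.F} (h : 𝒜.UnitIn (𝒜.dom P) w) :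
    IsUnit (𝒜.val P w) := by
  obtain ⟨h0, h1, h2⟩ := h
  refine IsUnit.of_mul_eq_one (𝒜.val P w⁻¹) ?_
  rw [← val_mul h1 h2, mul_inv_cancel₀ h0, val_one]

theorem unitIn_iff {P : 𝒜.Pt R} {w : 𝒜.F} :
    𝒜.UnitIn (𝒜.dom P) w ↔ w ∈ 𝒜.dom P ∧ IsUnit (𝒜.val P w) :=
  ⟨fun h => ⟨h.2.1, isUnit_val_of_unitIn h⟩, fun h => unitIn_of_isUnit_val h.1 h.2⟩

theorem mem_dom_map_iff {ι : R →ₐ[K] S} {P : 𝒜.Pt R} {w : 𝒜.F} :
    w ∈ 𝒜.dom (𝒜.map ι P) ↔ ∃ a ∈ 𝒜.dom P, ∃ b ∈ 𝒜.dom P, IsUnit (ι (𝒜.val P b)) ∧ w * b = a := by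
  rw [𝒜.mem_dom_map]
  constructor
  · rintro ⟨a, b, h, e⟩
    exact ⟨a, a.2, b, b.2, by rw [val_coe]; exact h, e⟩
  · rintro ⟨a, ha, b, hb, h, e⟩
    exact ⟨⟨a, ha⟩, ⟨b, hb⟩, by rwa [val_eq hb] at h, e⟩

theorem dom_le_dom_map (ι : R →ₐ[K] S) (P : 𝒜.Pt R) : 𝒜.dom P ≤ 𝒜.dom (𝒜.map ι P) := by
  intro w hw
  rw [mem_dom_map_iff]
  exact ⟨w, hw, 1, one_mem _, by rw [val_one, map_one]; exact isUnit_one, mul_one _⟩

theorem val_map {ι : R →ₐ[K] S} {P : 𝒜.Pt R} {w : 𝒜.F} (hw : w ∈ 𝒜.dom P) :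
    𝒜.val (𝒜.map ι P) w = ι (𝒜.val P w) := by
  rw [val_eq hw, val_eq (dom_le_dom_map ι P hw)]
  exact 𝒜.ev_map ι P ⟨w, hw⟩ _

/-- local homomorphisms do not change the centre -/
theorem dom_map_of_isLocalHom (ι : R →ₐ[K] S) [IsLocalHom ι.toRingHom] (P : 𝒜.Pt R) :
    𝒜.dom (𝒜.map ι P) = 𝒜.dom P := by
  refine le_antisymm ?_ (dom_le_dom_map ι P)
  intro w hw
  obtain ⟨a, ha, b, hb, h, e⟩ := mem_dom_map_iff.mp hw
  have h' : IsUnit (𝒜.val P b) := isUnit_of_map_unit ι.toRingHom _ h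
  obtain ⟨h0, -, h2⟩ := unitIn_of_isUnit_val hb h'
  have : w = a * b⁻¹ := by rw [← e, mul_inv_cancel_right₀ h0]
  rw [this]
  exact mul_mem ha h2

theorem ext_val {P Q : 𝒜.Pt R} (h : 𝒜.dom P = 𝒜.dom Q)
    (h' : ∀ w ∈ 𝒜.dom P, 𝒜.val P w = 𝒜.val Q w) : P = Q := by
  refine 𝒜.ext' P Q h fun w h1 h2 => ?_
  rw [← val_eq h1, ← val_eq h2]
  exact h' w h1

end val

/-! ### Units of a subalgebra -/

section unit

variable {𝒜} {B C : Subalgebra K 𝒜.F} {v w : 𝒜.F}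

theorem UnitIn.mono (h : 𝒜.UnitIn B w) (hBC : B ≤ C) : 𝒜.UnitIn C w :=
  ⟨h.1, hBC h.2.1, hBC h.2.2⟩

theorem UnitIn.mul (h : 𝒜.UnitIn B v) (h' : 𝒜.UnitIn B w) : 𝒜.UnitIn B (v * w) :=
  ⟨mul_ne_zero h.1 h'.1, mul_mem h.2.1 h'.2.1, by
    rw [mul_inv]; exact mul_mem h.2.2 h'.2.2⟩

theorem UnitIn.inv (h : 𝒜.UnitIn B v) : 𝒜.UnitIn B v⁻¹ :=
  ⟨inv_ne_zero h.1, h.2.2, by rw [inv_inv]; exact h.2.1⟩

theorem UnitIn.div (h : 𝒜.UnitIn B v) (h' : 𝒜.UnitIn B w) : 𝒜.UnitIn B (v / w) := by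
  rw [div_eq_mul_inv]; exact h.mul h'.inv

theorem unitIn_one : 𝒜.UnitIn B 1 := ⟨one_ne_zero, one_mem _, by rw [inv_one]; exact one_mem _⟩

theorem UnitIn.pow (h : 𝒜.UnitIn B v) (n : ℕ) : 𝒜.UnitIn B (v ^ n) := by
  induction n with
  | zero => rw [pow_zero]; exact unitIn_one
  | succ n ih => rw [pow_succ]; exact ih.mul h

variable [IsLocalRing R]

theorem val_inv_unitIn {P : 𝒜.Pt R} (h : 𝒜.UnitIn (𝒜.dom P) w) :
    𝒜.val P w * 𝒜.val P w⁻¹ = 1 := by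
  rw [← val_mul h.2.1 h.2.2, mul_inv_cancel₀ h.1, val_one]

end unit

/-! ### Tautological points -/

@[simp] theorem dom_eta : 𝒜.dom 𝒜.η = ⊤ := 𝒜.dom_η

@[simp] theorem val_eta (w : 𝒜.F) : 𝒜.val 𝒜.η w = w := by
  have h : w ∈ 𝒜.dom 𝒜.η := by rw [𝒜.dom_η]; exact Algebra.mem_top
  rw [val_eq h]; exact 𝒜.ev_η _


section taut

variable {𝒜} [IsLocalRing R]

theorem isLocalHom_ev (P : 𝒜.Pt R) : IsLocalHom (𝒜.ev P).toRingHom :=
  ⟨fun w hw => 𝒜.isUnit_of_ev P w hw⟩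

instance isLocalRing_dom (P : 𝒜.Pt R) : IsLocalRing (𝒜.dom P) :=
  have := isLocalHom_ev P
  (𝒜.ev P).toRingHom.domain_isLocalRing

variable (𝒜) in
/-- The tautological point of the local ring `dom P` -/
def taut (P : 𝒜.Pt R) : 𝒜.Pt (𝒜.dom P) := (𝒜.exists_taut P).choose

@[simp] theorem map_ev_taut (P : 𝒜.Pt R) : 𝒜.map (𝒜.ev P) (𝒜.taut P) = P :=
  (𝒜.exists_taut P).choose_spec.1

@[simp] theorem map_val_taut (P : 𝒜.Pt R) : 𝒜.map (𝒜.dom P).val (𝒜.taut P) = 𝒜.η :=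
  (𝒜.exists_taut P).choose_spec.2

@[simp] theorem dom_taut (P : 𝒜.Pt R) : 𝒜.dom (𝒜.taut P) = 𝒜.dom P := by
  have := isLocalHom_ev P
  conv_rhs => rw [← map_ev_taut P]
  exact (dom_map_of_isLocalHom (𝒜.ev P) _).symm

theorem val_taut (P : 𝒜.Pt R) {w : 𝒜.F} (h : w ∈ 𝒜.dom P) : 𝒜.val (𝒜.taut P) w = ⟨w, h⟩ := by
  have h' : w ∈ 𝒜.dom (𝒜.taut P) := by rwa [dom_taut]
  apply Subtype.ext
  have h1 := val_map (ι := (𝒜.dom P).val) h'
  rw [map_val_taut, val_eta] at h1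
  exact h1.symm

/-- the tautological point with values in any subalgebra containing `dom P` -/
theorem map_taut_comp (P : 𝒜.Pt R) [IsLocalRing S] (α : 𝒜.dom P →ₐ[K] S) {w : 𝒜.F}
    (h : w ∈ 𝒜.dom P) : 𝒜.val (𝒜.map α (𝒜.taut P)) w = α ⟨w, h⟩ := by
  rw [val_map (by rwa [dom_taut]), val_taut P h]

end taut

/-! ### Points with values in fields and generic points -/

section generic

variable {𝒜} {L M : Type u} [Field L] [Algebra K L] [Field M] [Algebra K M]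

theorem val_inv {P : 𝒜.Pt L} {w : 𝒜.F} (h : w ∈ 𝒜.dom P) (h0 : 𝒜.val P w ≠ 0) :
    𝒜.val P w⁻¹ = (𝒜.val P w)⁻¹ := by
  have := unitIn_of_isUnit_val h h0.isUnit
  exact eq_inv_of_mul_eq_one_right (val_inv_unitIn this)

theorem val_unitIn_ne_zero {P : 𝒜.Pt L} {w : 𝒜.F} (h : 𝒜.UnitIn (𝒜.dom P) w) :
    𝒜.val P w ≠ 0 := (isUnit_val_of_unitIn h).ne_zero

theorem val_inv' {P : 𝒜.Pt L} {w : 𝒜.F} (h : 𝒜.UnitIn (𝒜.dom P) w) :
    𝒜.val P w⁻¹ = (𝒜.val P w)⁻¹ := val_inv h.2.1 (val_unitIn_ne_zero h)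

theorem val_div {P : 𝒜.Pt L} {v w : 𝒜.F} (h : v ∈ 𝒜.dom P) (h' : 𝒜.UnitIn (𝒜.dom P) w) :
    𝒜.val P (v / w) = 𝒜.val P v / 𝒜.val P w := by
  rw [div_eq_mul_inv, val_mul h h'.2.2, val_inv' h', div_eq_mul_inv]

theorem inv_mem_dom {P : 𝒜.Pt L} {w : 𝒜.F} (h : w ∈ 𝒜.dom P) (h0 : 𝒜.val P w ≠ 0) :
    w⁻¹ ∈ 𝒜.dom P := (unitIn_of_isUnit_val h h0.isUnit).2.2

/-- Extending the field of values does not change the centre. -/
theorem dom_map_field (ι : L →ₐ[K] M) (P : 𝒜.Pt L) : 𝒜.dom (𝒜.map ι P) = 𝒜.dom P := by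
  have : IsLocalHom ι.toRingHom := inferInstance
  exact dom_map_of_isLocalHom ι P

/-- A point is generic if its centre is the generic point. -/
def IsGeneric (P : 𝒜.Pt L) : Prop := 𝒜.dom P = ⊤

/-- the embedding of the function field defined by a generic point -/
def evHom (P : 𝒜.Pt L) (h : IsGeneric P) : 𝒜.F →ₐ[K] L where
  toFun := 𝒜.val P
  map_one' := val_one P
  map_mul' v w := val_mul (by rw [show 𝒜.dom P = ⊤ from h]; exact Algebra.mem_top)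
    (by rw [show 𝒜.dom P = ⊤ from h]; exact Algebra.mem_top)
  map_zero' := val_zero P
  map_add' v w := val_add (by rw [show 𝒜.dom P = ⊤ from h]; exact Algebra.mem_top)
    (by rw [show 𝒜.dom P = ⊤ from h]; exact Algebra.mem_top)
  commutes' c := val_algebraMap P c

@[simp] theorem evHom_apply (P : 𝒜.Pt L) (h : IsGeneric P) (w : 𝒜.F) :
    evHom P h w = 𝒜.val P w := rfl

theorem isGeneric_map (ι : L →ₐ[K] M) {P : 𝒜.Pt L} : IsGeneric (𝒜.map ι P) ↔ IsGeneric P := by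
  rw [IsGeneric, IsGeneric, dom_map_field]

theorem isGeneric_eta : IsGeneric 𝒜.η := 𝒜.dom_η

theorem val_map_field (ι : L →ₐ[K] M) (P : 𝒜.Pt L) (w : 𝒜.F) :
    𝒜.val (𝒜.map ι P) w = ι (𝒜.val P w) := by
  by_cases h : w ∈ 𝒜.dom P
  · exact val_map h
  · have h' : w ∉ 𝒜.dom (𝒜.map ι P) := by rwa [dom_map_field]
    rw [val, dif_neg h', val, dif_neg h, map_zero]

theorem map_evHom_eta (P : 𝒜.Pt L) (h : IsGeneric P) : 𝒜.map (evHom P h) 𝒜.η = P := by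
  refine ext_val ?_ fun w _ => ?_
  · rw [dom_map_field, 𝒜.dom_η]; exact h.symm
  · rw [val_map_field, val_eta, evHom_apply]

theorem isGeneric_map_eta (β : 𝒜.F →ₐ[K] L) : IsGeneric (𝒜.map β 𝒜.η) := by
  rw [isGeneric_map]; exact isGeneric_eta

theorem val_map_eta (β : 𝒜.F →ₐ[K] L) (w : 𝒜.F) : 𝒜.val (𝒜.map β 𝒜.η) w = β w := by
  rw [val_map_field, val_eta]

theorem isGeneric_iff {P : 𝒜.Pt L} :
    IsGeneric P ↔ ∀ w ∈ 𝒜.dom P, 𝒜.val P w = 0 → w = 0 := by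
  constructor
  · intro h w _ h0
    exact (evHom P h).toRingHom.injective (by simpa using h0)
  · intro h
    refine eq_top_iff.mpr fun w _ => ?_
    have hw : w ∈ 𝒜.dom (𝒜.map (𝒜.dom P).val (𝒜.taut P)) := by
      rw [map_val_taut, 𝒜.dom_η]; exact Algebra.mem_top
    obtain ⟨a, ha, b, hb, hu, e⟩ := mem_dom_map_iff.mp hw
    have hle : 𝒜.dom (𝒜.taut P) ≤ 𝒜.dom P := (dom_taut P).le
    have hb0 : b ≠ 0 := by
      rintro rfl
      rw [val_zero, map_zero] at hu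
      exact not_isUnit_zero hu
    have hvb : 𝒜.val P b ≠ 0 := fun h0 => hb0 (h b (hle hb) h0)
    have : w = a * b⁻¹ := by rw [← e, mul_inv_cancel_right₀ hb0]
    rw [this]
    exact mul_mem (hle ha) (inv_mem_dom (hle hb) hvb)

end generic

end AV

end Fermat.Agent.H26
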