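import Mathlib
import Fermat.Agent.H3RR_FF
import Fermat.Agent.H26AV

/-!
# Valuation subalgebras, Cartier data and heights on abstract group varieties (helper26, S26)
-/

set_option autoImplicit false

noncomputable section

open AlgebraicCurve

namespace Fermat.Agent.H26

universe u

/-- A valuation subring of `L` containing `K`, as a subalgebra. -/
structure VSub (K L : Type*) [Field K] [Field L] [Algebra K L] extends Subalgebra K L where
  mem_or_inv' : ∀ x : L, x ∈ carrier ∨ x⁻¹ ∈ carrier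

namespace VSub

variable {K L : Type*} [Field K] [Field L] [Algebra K L] (V : VSub K L)

theorem mem_or_inv_mem (x : L) : x ∈ V.toSubalgebra ∨ x⁻¹ ∈ V.toSubalgebra := V.mem_or_inv' x

/-- the underlying valuation subring -/
def toValuationSubring : ValuationSubring L :=
  { V.toSubalgebra.toSubring with mem_or_inv_mem' := V.mem_or_inv' }

@[simp] theorem mem_toValuationSubring {x : L} :
    x ∈ V.toValuationSubring ↔ x ∈ V.toSubalgebra := Iff.rfl

/-- a valuation subring containing `K` as a `VSub` -/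
def ofValuationSubring (A : ValuationSubring L) (h : ∀ c : K, algebraMap K L c ∈ A) : VSub K L where
  carrier := A
  mul_mem' := A.mul_mem _ _
  add_mem' := A.add_mem _ _
  algebraMap_mem' := h
  mem_or_inv' := A.mem_or_inv_mem

@[simp] theorem mem_ofValuationSubring {A : ValuationSubring L}
    {h : ∀ c : K, algebraMap K L c ∈ A} {x : L} :
    x ∈ (ofValuationSubring A h).toSubalgebra ↔ x ∈ A := Iff.rfl

instance : ValuationRing V.toSubalgebra :=
  inferInstanceAs (ValuationRing V.toValuationSubring)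

instance : IsLocalRing V.toSubalgebra :=
  inferInstanceAs (IsLocalRing V.toValuationSubring)

instance : IsFractionRing V.toSubalgebra L :=
  inferInstanceAs (IsFractionRing V.toValuationSubring L)

theorem isUnit_iff {x : V.toSubalgebra} : IsUnit x ↔ (x : L) ≠ 0 ∧ (x : L)⁻¹ ∈ V.toSubalgebra := by
  constructor
  · rintro ⟨⟨u, v, huv, hvu⟩, rfl⟩
    have h1 : (u : L) * v = 1 := congrArg Subtype.val huv
    refine ⟨left_ne_zero_of_mul_eq_one h1, ?_⟩
    rw [← eq_inv_of_mul_eq_one_right h1]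
    exact v.2
  · rintro ⟨h0, h1⟩
    exact IsUnit.of_mul_eq_one ⟨_, h1⟩ (Subtype.ext (mul_inv_cancel₀ h0))

end VSub

section place

variable (K : Type*) {k E : Type*} [Field K] [Field k] [Field E] [Algebra K k] [Algebra K E]
  [Algebra k E] [IsScalarTower K k E]

/-- The valuation ring of a place of `E/k` as a `VSub` over a smaller field `K`. -/
def plV (v : Place k E) : VSub K E :=
  VSub.ofValuationSubring v.toValuationSubring fun c => by
    rw [IsScalarTower.algebraMap_apply K k E]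
    exact v.algebraMap_mem' _

@[simp] theorem mem_plV {v : Place k E} {x : E} :
    x ∈ (plV K v).toSubalgebra ↔ x ∈ v.toValuationSubring := Iff.rfl

end place

namespace AV

variable {K : Type u} [Field K] (𝒜 : AV K)

section lift

variable {L : Type u} [Field L] [Algebra K L]

/-- The unique extension of an `L`-valued point to a valuation ring of `L`. -/
def lift (V : VSub K L) (X : 𝒜.Pt L) : 𝒜.Pt V.toSubalgebra :=
  ((𝒜.bij_of_valuation V.toSubalgebra V.mem_or_inv').surjective X).choose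

@[simp] theorem map_lift (V : VSub K L) (X : 𝒜.Pt L) :
    𝒜.map V.toSubalgebra.val (𝒜.lift V X) = X :=
  ((𝒜.bij_of_valuation V.toSubalgebra V.mem_or_inv').surjective X).choose_spec

theorem lift_eq_of_map_eq {V : VSub K L} {X : 𝒜.Pt L} {Y : 𝒜.Pt V.toSubalgebra}
    (h : 𝒜.map V.toSubalgebra.val Y = X) : 𝒜.lift V X = Y :=
  (𝒜.bij_of_valuation V.toSubalgebra V.mem_or_inv').injective (by rw [map_lift, h])

theorem lift_add (V : VSub K L) (X Y : 𝒜.Pt L) :
    𝒜.lift V (X + Y) = 𝒜.lift V X + 𝒜.lift V Y :=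
  𝒜.lift_eq_of_map_eq (by rw [map_add, map_lift, map_lift])

theorem lift_neg (V : VSub K L) (X : 𝒜.Pt L) : 𝒜.lift V (-X) = - 𝒜.lift V X :=
  𝒜.lift_eq_of_map_eq (by rw [map_neg, map_lift])

theorem lift_sub (V : VSub K L) (X Y : 𝒜.Pt L) :
    𝒜.lift V (X - Y) = 𝒜.lift V X - 𝒜.lift V Y :=
  𝒜.lift_eq_of_map_eq (by rw [map_sub, map_lift, map_lift])

theorem lift_zero (V : VSub K L) : 𝒜.lift V (0 : 𝒜.Pt L) = 0 :=
  𝒜.lift_eq_of_map_eq (map_zero _)

theorem lift_nsmul (V : VSub K L) (n : ℕ) (X : 𝒜.Pt L) : 𝒜.lift V (n • X) = n • 𝒜.lift V X :=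
  𝒜.lift_eq_of_map_eq (by rw [map_nsmul, map_lift])

variable {𝒜}

theorem dom_lift_le (V : VSub K L) (X : 𝒜.Pt L) : 𝒜.dom (𝒜.lift V X) ≤ 𝒜.dom X := by
  conv_rhs => rw [← map_lift 𝒜 V X]
  exact dom_le_dom_map _ _

theorem val_lift (V : VSub K L) (X : 𝒜.Pt L) {w : 𝒜.F} (h : w ∈ 𝒜.dom (𝒜.lift V X)) :
    ((𝒜.val (𝒜.lift V X) w : V.toSubalgebra) : L) = 𝒜.val X w := by
  conv_rhs => rw [← map_lift 𝒜 V X]
  rw [val_map h]
  rfl

end lift

/-- Cartier data on `𝒜`: a local equation (an element of `F`) for every local ring of `𝒜`,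
compatible with localisation up to units, with a finiteness condition. -/
structure CDiv where
  eqn : Subalgebra K 𝒜.F → 𝒜.F
  eqn_ne_zero : ∀ B, eqn B ≠ 0
  unitIn_map : ∀ {R S : Type u} [CommRing R] [Algebra K R] [IsLocalRing R] [CommRing S]
    [Algebra K S] [IsLocalRing S] (ι : R →ₐ[K] S) (P : 𝒜.Pt R),
    𝒜.UnitIn (𝒜.dom (𝒜.map ι P)) (eqn (𝒜.dom P) / eqn (𝒜.dom (𝒜.map ι P)))
  exists_finset : ∀ {L : Type u} [Field L] [Algebra K L] (P : 𝒜.Pt L), ∃ T : Finset L,
    ∀ V : VSub K L, (∀ t ∈ T, t ∈ V.toSubalgebra) →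
      𝒜.UnitIn (𝒜.dom (𝒜.lift V P)) (eqn (𝒜.dom (𝒜.lift V P)) / eqn (𝒜.dom P))

/-- Global sections of `O(D)`. -/
def CDiv.sections {𝒜 : AV K} (D : 𝒜.CDiv) : Submodule K 𝒜.F where
  carrier := {φ | ∀ {R : Type u} [CommRing R] [Algebra K R] [IsLocalRing R] (P : 𝒜.Pt R),
    φ * D.eqn (𝒜.dom P) ∈ 𝒜.dom P}
  zero_mem' := by
    intro R _ _ _ P
    rw [zero_mul]; exact zero_mem _
  add_mem' := by
    intro a b ha hb R _ _ _ P
    rw [add_mul]; exact add_mem (ha P) (hb P)
  smul_mem' := by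
    intro c a ha R _ _ _ P
    rw [smul_mul_assoc]; exact Subalgebra.smul_mem _ (ha P) c

theorem CDiv.mem_sections {𝒜 : AV K} {D : 𝒜.CDiv} {φ : 𝒜.F} :
    φ ∈ D.sections ↔ ∀ {R : Type u} [CommRing R] [Algebra K R] [IsLocalRing R] (P : 𝒜.Pt R),
    φ * D.eqn (𝒜.dom P) ∈ 𝒜.dom P := Iff.rfl

/-- The geometric input about a `g`-dimensional variety used in the torsion count. -/
structure Good (g : ℕ) : Prop where
  /-- every function is a section of `O(D)` for some effective Cartier divisor -/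
  exists_pole : ∀ φ : 𝒜.F, ∃ D : 𝒜.CDiv, (1 : 𝒜.F) ∈ D.sections ∧ φ ∈ D.sections
  /-- the function field has transcendence degree at least `g` -/
  exists_algInd : ∃ φ : Fin g → 𝒜.F, AlgebraicIndependent K φ
  /-- the local ring of the origin has dimension at most `g` -/
  dim_le : ringKrullDim (𝒜.dom (0 : 𝒜.Pt K)) ≤ g
  /-- for every nonzero function regular at `0` there is a curve through `0` on which it does
  not vanish identically -/
  exists_curve : ∀ φ ∈ 𝒜.dom (0 : 𝒜.Pt K), φ ≠ 0 →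
    ∃ (E : Type u) (_ : Field E) (_ : Algebra K E) (_ : H3RR.IsFF K E) (c : Place K E)
      (f : 𝒜.Pt E) (π : (plV K c).toSubalgebra →ₐ[K] K),
      𝒜.map π (𝒜.lift (plV K c) f) = 0 ∧ 𝒜.val f φ ≠ 0

end AV

end Fermat.Agent.H26
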