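import Mathlib
import Fermat.Agent.H3RR_Degree
import Fermat.Agent.H26CDiv

/-!
# Heights of points over function fields (helper26, S26)

For a one-variable function field `E/k` (`k` algebraically closed, `K → k`), a Cartier datum `D`
and `X : 𝒜.Pt E`: the divisor `D.pull X : Divisor k E` and its degree `D.ht X`.
-/

set_option autoImplicit false

noncomputable section

open AlgebraicCurve WithZero

namespace Fermat.Agent.H26

universe u

section ord

variable {k E : Type*} [Field k] [Field E] [Algebra k E] (v : Place k E)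

theorem mem_iff_ord_nonneg {f : E} (hf : f ≠ 0) : f ∈ v.toValuationSubring ↔ 0 ≤ v.ord f := by
  rw [H3RR.mem_iff_adicValuation_le_one, Place.ord,
    ← WithZero.log_le_log (v.adicValuation_ne_zero hf) one_ne_zero, WithZero.log_one]
  omega

theorem ord_nonneg_of_mem {f : E} (hf : f ∈ v.toValuationSubring) : 0 ≤ v.ord f := by
  by_cases h : f = 0
  · rw [h, Place.ord_zero]
  · exact (mem_iff_ord_nonneg v h).mp hf

theorem isUnit_iff_ord {f : E} (hf : f ≠ 0) :
    (f ∈ v.toValuationSubring ∧ f⁻¹ ∈ v.toValuationSubring) ↔ v.ord f = 0 := by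
  rw [mem_iff_ord_nonneg v hf, mem_iff_ord_nonneg v (inv_ne_zero hf), Place.ord_inv]
  omega

theorem ord_div {f g : E} (hf : f ≠ 0) (hg : g ≠ 0) : v.ord (f / g) = v.ord f - v.ord g := by
  rw [div_eq_mul_inv, Place.ord_mul _ hf (inv_ne_zero hg), Place.ord_inv, sub_eq_add_neg]

theorem ord_algebraMap {c : k} (hc : c ≠ 0) : v.ord (algebraMap k E c) = 0 := by
  have h0 : algebraMap k E c ≠ 0 := (map_ne_zero _).mpr hc
  rw [← isUnit_iff_ord v h0, ← map_inv₀]
  exact ⟨v.algebraMap_mem' _, v.algebraMap_mem' _⟩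

end ord

namespace AV

variable {K : Type u} [Field K] {𝒜 : AV K}

variable {k E : Type u} [Field k] [Field E] [Algebra K k] [Algebra K E] [Algebra k E]
  [IsScalarTower K k E]

/-- the extension of `X` to the place `v` -/
abbrev liftP (X : 𝒜.Pt E) (v : Place k E) : 𝒜.Pt (plV K v).toSubalgebra := 𝒜.lift (plV K v) X

theorem dom_liftP_le (X : 𝒜.Pt E) (v : Place k E) : 𝒜.dom (liftP X v) ≤ 𝒜.dom X :=
  dom_lift_le _ _

theorem val_mem_of_mem_dom_liftP {X : 𝒜.Pt E} {v : Place k E} {w : 𝒜.F}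
    (h : w ∈ 𝒜.dom (liftP X v)) : 𝒜.val X w ∈ v.toValuationSubring := by
  rw [← val_lift _ _ h]
  exact (𝒜.val (liftP X v) w).2

/-- functions invertible at the centre of the reduction have order zero -/
theorem ord_val_eq_zero {X : 𝒜.Pt E} {v : Place k E} {w : 𝒜.F}
    (h : 𝒜.UnitIn (𝒜.dom (liftP X v)) w) : v.ord (𝒜.val X w) = 0 := by
  have h' : 𝒜.UnitIn (𝒜.dom X) w := h.mono (dom_liftP_le X v)
  rw [← isUnit_iff_ord v (val_unitIn_ne_zero h'), ← val_inv' h']
  exact ⟨val_mem_of_mem_dom_liftP h.2.1, val_mem_of_mem_dom_liftP h.inv.2.1⟩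

/-- the local equation of `D` at the reduction of `X` at `v`, as a function on the curve -/
def CDiv.loc (D : 𝒜.CDiv) (X : 𝒜.Pt E) (v : Place k E) : E :=
  𝒜.val X (D.eqn (𝒜.dom (liftP X v)) / D.eqn (𝒜.dom X))

theorem CDiv.unitIn_lift {L : Type u} [Field L] [Algebra K L] (D : 𝒜.CDiv) (X : 𝒜.Pt L)
    (V : VSub K L) :
    𝒜.UnitIn (𝒜.dom X) (D.eqn (𝒜.dom (𝒜.lift V X)) / D.eqn (𝒜.dom X)) := by
  have := D.unitIn_map V.toSubalgebra.val (𝒜.lift V X)
  simpa only [map_lift] using this

theorem CDiv.loc_ne_zero (D : 𝒜.CDiv) (X : 𝒜.Pt E) (v : Place k E) : D.loc X v ≠ 0 :=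
  val_unitIn_ne_zero (D.unitIn_lift X _)

variable [IsAlgClosed k] [H3RR.IsFF k E]

theorem finite_not_mem (t : E) : {v : Place k E | t ∉ v.toValuationSubring}.Finite := by
  by_cases ht : t = 0
  · subst ht
    convert Set.finite_empty
    ext v
    simp [v.toValuationSubring.zero_mem]
  · refine (H3RR.finite_support_ord (K := k) ht).subset fun v hv => ?_
    rw [Set.mem_setOf_eq, mem_iff_ord_nonneg v ht] at hv
    rw [Function.mem_support]
    omega

theorem CDiv.finite_support (D : 𝒜.CDiv) (X : 𝒜.Pt E) :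
    (Function.support fun v : Place k E => v.ord (D.loc X v)).Finite := by
  obtain ⟨T, hT⟩ := D.exists_finset X
  refine (T.finite_toSet.biUnion fun t _ => finite_not_mem (k := k) t).subset fun v hv => ?_
  simp only [Set.mem_iUnion, Set.mem_setOf_eq]
  by_contra hcon
  push Not at hcon
  exact hv (ord_val_eq_zero (hT (plV K v) fun t ht => hcon t ht))

/-- the pull-back divisor of `D` along `X` (normalised by the equation of `D` at the centre
of `X`) -/
def CDiv.pull (k : Type u) [Field k] [Algebra K k] [Algebra k E] [IsScalarTower K k E]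
    [IsAlgClosed k] [H3RR.IsFF k E] (D : 𝒜.CDiv) (X : 𝒜.Pt E) : Divisor k E :=
  Finsupp.ofSupportFinite (fun v => v.ord (D.loc X v)) (D.finite_support X)

@[simp] theorem CDiv.pull_apply (D : 𝒜.CDiv) (X : 𝒜.Pt E) (v : Place k E) :
    D.pull k X v = v.ord (D.loc X v) := rfl

/-- the height -/
def CDiv.ht (k : Type u) [Field k] [Algebra K k] [Algebra k E] [IsScalarTower K k E]
    [IsAlgClosed k] [H3RR.IsFF k E] (D : 𝒜.CDiv) (X : 𝒜.Pt E) : ℤ :=
  Divisor.degree (D.pull k X)

end AV

end Fermat.Agent.H26
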