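import Mathlib
import Fermat.Agent.H3RR_Degree
import Fermat.Agent.H26CE2
import Fermat.Agent.H26Height

/-!
# Constant field extensions of function fields: places (helper26, S26)
-/

set_option autoImplicit false
set_option linter.unusedSectionVars false

noncomputable section

open AlgebraicCurve WithZero Fermat.Agent.H3RR

namespace Fermat.Agent.H26

namespace IsCE

variable {k k' E E' : Type*} [Field k] [Field k'] [Field E] [Field E'] [Algebra k k']
    [Algebra k E] [Algebra k' E'] [Algebra E E'] [Algebra k E'] [IsScalarTower k k' E']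
    [IsScalarTower k E E']

theorem vLe_mono (c : Place k E) {m n : ℤ} (h : m ≤ n) : vLe c m ≤ vLe c n := by
  intro x hx
  rw [mem_vLe] at hx ⊢
  exact hx.trans (by rwa [exp_le_exp])

theorem mul_mem_vLe {c : Place k E} {m n : ℤ} {x y : E} (hx : x ∈ vLe c m) (hy : y ∈ vLe c n) :
    x * y ∈ vLe c (m + n) := by
  rw [mem_vLe] at *
  rw [map_mul, exp_add]
  exact mul_le_mul' hx hy

theorem mul_mem_ext {S T U : Submodule k E} (h : ∀ x ∈ S, ∀ y ∈ T, x * y ∈ U) {x y : E'}
    (hx : x ∈ ext k' E' S) (hy : y ∈ ext k' E' T) : x * y ∈ ext k' E' U := by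
  induction hx using Submodule.span_induction with
  | mem x hx =>
    obtain ⟨x, hx, rfl⟩ := hx
    induction hy using Submodule.span_induction with
    | mem y hy =>
      obtain ⟨y, hy, rfl⟩ := hy
      rw [← map_mul]
      exact algebraMap_mem_ext (h x hx y hy)
    | zero => rw [mul_zero]; exact zero_mem _
    | add y y' _ _ h1 h2 => rw [mul_add]; exact add_mem h1 h2
    | smul a y _ h1 => rw [mul_smul_comm]; exact Submodule.smul_mem _ _ h1
  | zero => rw [zero_mul]; exact zero_mem _
  | add x x' _ _ h1 h2 => rw [add_mul]; exact add_mem h1 h2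
  | smul a x _ h1 => rw [smul_mul_assoc]; exact Submodule.smul_mem _ _ h1

theorem mul_mem_ext_vLe {c : Place k E} {m n : ℤ} {x y : E'} (hx : x ∈ ext k' E' (vLe c m))
    (hy : y ∈ ext k' E' (vLe c n)) : x * y ∈ ext k' E' (vLe c (m + n)) :=
  mul_mem_ext (fun _ h _ h' => mul_mem_vLe h h') hx hy

theorem algebraMap_const_mem_ext (c : Place k E) (a : k') :
    algebraMap k' E' a ∈ ext k' E' (vLe c 0) := by
  have h1 : (1 : E) ∈ vLe c 0 := by rw [mem_vLe, map_one]; simp
  have := (ext k' E' (vLe c 0)).smul_mem a (algebraMap_mem_ext (k' := k') (E' := E') h1)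
  rwa [map_one, Algebra.smul_def, mul_one] at this

variable [IsCE k k' E E']

theorem one_notMem_ext (c : Place k E) {a : k'} (ha : a ≠ 0) :
    algebraMap k' E' a ∉ ext k' E' (vLe c (-1)) := by
  intro h
  have hl : LinearIndependent k fun _ : Fin 1 => a := LinearIndependent.of_subsingleton 0 ha
  have h1 := (mem_ext_iff (k' := k') (E' := E') (S := vLe c (-1)) hl (e := fun _ => (1 : E))).mp
    (by simpa using h) 0
  rw [mem_vLe, map_one, ← exp_zero, exp_le_exp] at h1
  omega

section closed

variable [IsAlgClosed k] [IsFF k E]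

/-- decomposition `O_c ⊗ k' = k' ⊕ m_c ⊗ k'` -/
theorem exists_const_sub_mem (c : Place k E) {x : E'} (hx : x ∈ ext k' E' (vLe c 0)) :
    ∃ a : k', x - algebraMap k' E' a ∈ ext k' E' (vLe c (-1)) := by
  induction hx using Submodule.span_induction with
  | mem x hx =>
    obtain ⟨x, hx, rfl⟩ := hx
    obtain ⟨a, ha⟩ := exists_const_sub_lt_one c (f := x) (by
      have := mem_vLe.mp hx; simpa using this)
    refine ⟨algebraMap k k' a, ?_⟩
    rw [← IsScalarTower.algebraMap_apply, IsScalarTower.algebraMap_apply k E E', ← map_sub]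
    exact algebraMap_mem_ext (mem_vLe.mpr ((adicValuation_lt_one_iff c).mp ha))
  | zero => exact ⟨0, by simp⟩
  | add x y _ _ h1 h2 =>
    obtain ⟨a, ha⟩ := h1
    obtain ⟨b, hb⟩ := h2
    exact ⟨a + b, by rw [map_add, add_sub_add_comm]; exact add_mem ha hb⟩
  | smul t x _ h1 =>
    obtain ⟨a, ha⟩ := h1
    refine ⟨t * a, ?_⟩
    rw [map_mul, ← Algebra.smul_def, ← smul_sub]
    exact Submodule.smul_mem _ _ ha

/-- the extension of the maximal ideal is prime -/
theorem mul_notMem_ext (c : Place k E) {x y : E'} (hx : x ∈ ext k' E' (vLe c 0))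
    (hx' : x ∉ ext k' E' (vLe c (-1))) (hy : y ∈ ext k' E' (vLe c 0))
    (hy' : y ∉ ext k' E' (vLe c (-1))) : x * y ∉ ext k' E' (vLe c (-1)) := by
  intro hxy
  obtain ⟨a, ha⟩ := exists_const_sub_mem c hx
  obtain ⟨b, hb⟩ := exists_const_sub_mem c hy
  have ha0 : a ≠ 0 := by rintro rfl; exact hx' (by simpa using ha)
  have hb0 : b ≠ 0 := by rintro rfl; exact hy' (by simpa using hb)
  refine one_notMem_ext (E := E) (E' := E') c (mul_ne_zero ha0 hb0) ?_
  have h1 : algebraMap k' E' (a * b) = x * y - (x - algebraMap k' E' a) * y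
      - algebraMap k' E' a * (y - algebraMap k' E' b) := by
    rw [map_mul]; ring
  rw [h1]
  refine sub_mem (sub_mem hxy ?_) ?_
  · have := mul_mem_ext_vLe ha hy
    simpa using this
  · have := mul_mem_ext_vLe (algebraMap_const_mem_ext (k' := k') (E' := E') c a) hb
    simpa using this

/-- every nonzero element of `E ⊗ k'` is a power of a uniformizer times a unit at `c` -/
theorem exists_unif_mul (c : Place k E) {x : E'} (hx : x ∈ tens k k' E E') (hx0 : x ≠ 0) :
    ∃ n : ℤ, algebraMap E E' (unif c n) * x ∈ ext k' E' (vLe c 0) ∧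
      algebraMap E E' (unif c n) * x ∉ ext k' E' (vLe c (-1)) := by
  classical
  obtain ⟨m, l, e, hl, -, rfl⟩ := exists_rep (mem_tens_iff_mem_ext.mp hx)
  have hex : ∃ i, e i ≠ 0 := by
    by_contra hcon
    push Not at hcon
    exact hx0 (by simp [hcon])
  obtain ⟨i0, hi0⟩ := hex
  obtain ⟨j, -, hj⟩ := Finset.exists_max_image Finset.univ (fun i => c.adicValuation (e i))
    ⟨i0, Finset.mem_univ _⟩
  have hej : e j ≠ 0 := by
    intro h0
    have := hj i0 (Finset.mem_univ _)
    rw [h0, map_zero, le_zero_iff, Valuation.zero_iff] at this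
    exact hi0 this
  obtain ⟨N, hN⟩ : ∃ N : ℤ, c.adicValuation (e j) = exp N :=
    ⟨_, c.adicValuation_eq_exp_neg_ord hej⟩
  have key : algebraMap E E' (unif c (-N)) * ∑ i, algebraMap k' E' (l i) * algebraMap E E' (e i) =
      ∑ i, algebraMap k' E' (l i) * algebraMap E E' (unif c (-N) * e i) := by
    rw [Finset.mul_sum]
    exact Finset.sum_congr rfl fun i _ => by rw [map_mul]; ring
  refine ⟨-N, ?_, ?_⟩
  · rw [key, mem_ext_iff hl]
    intro i
    rw [mem_vLe, map_mul, adicValuation_unif]
    have := hj i (Finset.mem_univ _)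
    rw [hN] at this
    calc exp (-N) * c.adicValuation (e i) ≤ exp (-N) * exp N := by gcongr
      _ = exp 0 := by rw [← exp_add]; simp
  · rw [key, mem_ext_iff hl]
    push Not
    refine ⟨j, ?_⟩
    rw [mem_vLe, map_mul, adicValuation_unif, hN, ← exp_add, exp_le_exp]
    omega

/-- the valuation ring of `E'` above the place `c` -/
def plRing (k' E' : Type*) {k E : Type*} [Field k] [Field k'] [Field E] [Field E'] [Algebra k k']
    [Algebra k E] [Algebra k' E'] [Algebra E E'] [Algebra k E'] [IsScalarTower k k' E']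
    [IsScalarTower k E E'] [IsCE k k' E E'] [IsAlgClosed k] [IsFF k E] (c : Place k E) :
    ValuationSubring E' where
  carrier := {x | ∃ a ∈ ext k' E' (vLe c 0), ∃ b ∈ ext k' E' (vLe c 0),
    b ∉ ext k' E' (vLe c (-1)) ∧ x * b = a}
  zero_mem' := ⟨0, zero_mem _, 1, by
    simpa using algebraMap_const_mem_ext (k' := k') (E' := E') c 1, by
    simpa using one_notMem_ext (E := E) (k' := k') (E' := E') c one_ne_zero, by simp⟩
  one_mem' := ⟨1, by simpa using algebraMap_const_mem_ext (k' := k') (E' := E') c 1, 1, by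
    simpa using algebraMap_const_mem_ext (k' := k') (E' := E') c 1, by
    simpa using one_notMem_ext (E := E) (k' := k') (E' := E') c one_ne_zero, by simp⟩
  add_mem' := by
    rintro x y ⟨a, ha, b, hb, hb', h⟩ ⟨a', ha', b', hb1, hb1', h'⟩
    refine ⟨a * b' + a' * b, ?_, b * b', ?_, mul_notMem_ext c hb hb' hb1 hb1', ?_⟩
    · have h1 := mul_mem_ext_vLe ha hb1
      have h2 := mul_mem_ext_vLe ha' hb
      rw [add_zero] at h1 h2
      exact add_mem h1 h2
    · have h1 := mul_mem_ext_vLe hb hb1
      rwa [add_zero] at h1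
    · rw [← h, ← h']; ring
  mul_mem' := by
    rintro x y ⟨a, ha, b, hb, hb', h⟩ ⟨a', ha', b', hb1, hb1', h'⟩
    refine ⟨a * a', ?_, b * b', ?_, mul_notMem_ext c hb hb' hb1 hb1', ?_⟩
    · have h1 := mul_mem_ext_vLe ha ha'
      rwa [add_zero] at h1
    · have h1 := mul_mem_ext_vLe hb hb1
      rwa [add_zero] at h1
    · rw [← h, ← h']; ring
  neg_mem' := by
    rintro x ⟨a, ha, b, hb, hb', h⟩
    exact ⟨-a, neg_mem ha, b, hb, hb', by rw [neg_mul, h]⟩
  mem_or_inv_mem' := by
    intro x
    by_cases hx0 : x = 0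
    · left
      rw [hx0]
      exact ⟨0, zero_mem _, 1, by
        simpa using algebraMap_const_mem_ext (k' := k') (E' := E') c 1, by
        simpa using one_notMem_ext (E := E) (k' := k') (E' := E') c one_ne_zero, by simp⟩
    obtain ⟨a, ha, b, hb, hb0, h⟩ := IsCE.exists_mul_eq (k := k) (k' := k') (E := E) x
    have ha0 : a ≠ 0 := by rw [← h]; exact mul_ne_zero hx0 hb0
    obtain ⟨m, hm, hm'⟩ := exists_unif_mul c (mem_tens_iff.mpr ha) ha0
    obtain ⟨n, hn, hn'⟩ := exists_unif_mul c (mem_tens_iff.mpr hb) hb0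
    rcases le_total n m with hnm | hnm
    · left
      refine ⟨algebraMap E E' (unif c n) * a, ?_, _, hn, hn', ?_⟩
      · have h1 : unif c n * (unif c m)⁻¹ ∈ vLe c (n - m) := by
          rw [mem_vLe, map_mul, map_inv₀, adicValuation_unif, adicValuation_unif, ← exp_neg,
            ← exp_add]
          rfl
        have h2 := mul_mem_ext_vLe (algebraMap_mem_ext (k' := k') (E' := E') h1) hm
        have h3 := ext_mono (k' := k') (E' := E') (vLe_mono c (show n - m + 0 ≤ 0 by omega)) h2
        convert h3 using 1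
        rw [map_mul, map_inv₀]
        have := (_root_.map_ne_zero (algebraMap E E')).mpr (unif_ne_zero c m)
        field_simp
      · rw [← h]; ring
    · right
      refine ⟨algebraMap E E' (unif c m) * b, ?_, _, hm, hm', ?_⟩
      · have h1 : unif c m * (unif c n)⁻¹ ∈ vLe c (m - n) := by
          rw [mem_vLe, map_mul, map_inv₀, adicValuation_unif, adicValuation_unif, ← exp_neg,
            ← exp_add]
          rfl
        have h2 := mul_mem_ext_vLe (algebraMap_mem_ext (k' := k') (E' := E') h1) hn
        have h3 := ext_mono (k' := k') (E' := E') (vLe_mono c (show m - n + 0 ≤ 0 by omega)) h2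
        convert h3 using 1
        rw [map_mul, map_inv₀]
        have := (_root_.map_ne_zero (algebraMap E E')).mpr (unif_ne_zero c n)
        field_simp
      · rw [← h]
        field_simp

theorem mem_plRing_iff {c : Place k E} {x : E'} :
    x ∈ plRing k' E' c ↔ ∃ a ∈ ext k' E' (vLe c 0), ∃ b ∈ ext k' E' (vLe c 0),
    b ∉ ext k' E' (vLe c (-1)) ∧ x * b = a := Iff.rfl

theorem mem_plRing_of_mem_ext {c : Place k E} {x : E'} (hx : x ∈ ext k' E' (vLe c 0)) :
    x ∈ plRing k' E' c :=
  ⟨x, hx, 1, by simpa using algebraMap_const_mem_ext (k' := k') (E' := E') c 1, by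
    simpa using one_notMem_ext (E := E) (k' := k') (E' := E') c one_ne_zero, by simp⟩

theorem inv_mem_plRing {c : Place k E} {x : E'} (hx : x ∈ ext k' E' (vLe c 0))
    (hx' : x ∉ ext k' E' (vLe c (-1))) : x⁻¹ ∈ plRing k' E' c := by
  have hx0 : x ≠ 0 := by rintro rfl; exact hx' (zero_mem _)
  exact ⟨1, by simpa using algebraMap_const_mem_ext (k' := k') (E' := E') c 1, x, hx, hx',
    inv_mul_cancel₀ hx0⟩

/-- elements of `m_c ⊗ k'` are not units of the valuation ring -/
theorem inv_notMem_plRing {c : Place k E} {x : E'} (hx : x ∈ ext k' E' (vLe c (-1)))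
    (hx0 : x ≠ 0) : x⁻¹ ∉ plRing k' E' c := by
  rintro ⟨a, ha, b, hb, hb', h⟩
  apply hb'
  have h1 : b = x * a := by rw [← h]; field_simp
  rw [h1]
  have := mul_mem_ext_vLe hx ha
  rwa [add_zero] at this

variable (k' E') in
/-- the place of `E'/k'` above `c` -/
def pl (c : Place k E) : Place k' E' :=
  have := isFF k k' E E'
  placeOf (plRing k' E' c) (fun a => mem_plRing_of_mem_ext (algebraMap_const_mem_ext c a)) (by
    intro h
    have h1 : algebraMap E E' (unif c (-1)) ∈ ext k' E' (vLe c (-1)) :=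
      algebraMap_mem_ext (mem_vLe.mpr (adicValuation_unif c (-1)).le)
    have h2 := inv_notMem_plRing h1 ((_root_.map_ne_zero _).mpr (unif_ne_zero c _))
    rw [h] at h2
    exact h2 (ValuationSubring.mem_top _))

@[simp] theorem pl_toValuationSubring (c : Place k E) :
    (pl k' E' c).toValuationSubring = plRing k' E' c := rfl

theorem ord_eq_zero_of_mem_ext {c : Place k E} {x : E'} (hx : x ∈ ext k' E' (vLe c 0))
    (hx' : x ∉ ext k' E' (vLe c (-1))) : (pl k' E' c).ord x = 0 := by
  have hx0 : x ≠ 0 := by rintro rfl; exact hx' (zero_mem _)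
  rw [← isUnit_iff_ord _ hx0]
  exact ⟨mem_plRing_of_mem_ext hx, inv_mem_plRing hx hx'⟩

theorem algebraMap_mem_plRing_iff {c : Place k E} {e : E} :
    algebraMap E E' e ∈ plRing k' E' c ↔ e ∈ c.toValuationSubring := by
  constructor
  · intro h
    by_contra he
    rw [mem_iff_adicValuation_le_one, not_le] at he
    have he0 : e ≠ 0 := by rintro rfl; simp at he
    have h1 : e⁻¹ ∈ vLe c (-1) := by
      rw [mem_vLe, ← adicValuation_lt_one_iff, map_inv₀]
      exact inv_lt_one_of_one_lt₀ he
    have h2 := inv_notMem_plRing (algebraMap_mem_ext (k' := k') (E' := E') h1)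
      ((_root_.map_ne_zero _).mpr (inv_ne_zero he0))
    rw [← map_inv₀, inv_inv] at h2
    exact h2 h
  · intro h
    refine mem_plRing_of_mem_ext (algebraMap_mem_ext ?_)
    rw [mem_vLe]
    simpa using (mem_iff_adicValuation_le_one c).mp h

theorem pl_injective : Function.Injective (pl k' E' : Place k E → Place k' E') := by
  intro c c' h
  apply Place.ext
  ext e
  rw [← algebraMap_mem_plRing_iff (k' := k') (E' := E'), ← pl_toValuationSubring, h,
    pl_toValuationSubring, algebraMap_mem_plRing_iff]

theorem ord_algebraMap_unit {c : Place k E} {e : E} (he : c.ord e = 0) (he0 : e ≠ 0) :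
    (pl k' E' c).ord (algebraMap E E' e) = 0 := by
  rw [← isUnit_iff_ord _ ((_root_.map_ne_zero _).mpr he0), ← map_inv₀]
  obtain ⟨h1, h2⟩ := (isUnit_iff_ord c he0).mpr he
  exact ⟨algebraMap_mem_plRing_iff.mpr h1, algebraMap_mem_plRing_iff.mpr h2⟩

theorem ord_unif (c : Place k E) (n : ℤ) : c.ord (unif c n) = -n := by
  have h1 := c.adicValuation_eq_exp_neg_ord (unif_ne_zero c n)
  rw [adicValuation_unif] at h1
  have := exp_injective h1
  omega

theorem ord_pl_algebraMap (c : Place k E) (e : E) :
    (pl k' E' c).ord (algebraMap E E' e) = c.ord e := by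
  by_cases he0 : e = 0
  · rw [he0, map_zero, Place.ord_zero, Place.ord_zero]
  set w := pl k' E' c with hw
  -- a uniformizer
  let π : E := unif c (-1)
  have hπ0 : π ≠ 0 := unif_ne_zero c _
  have hπ : c.ord π = 1 := by rw [ord_unif]; rfl
  have hπ'0 : algebraMap E E' π ≠ 0 := (_root_.map_ne_zero _).mpr hπ0
  have h1 : ∀ e : E, e ≠ 0 → w.ord (algebraMap E E' e) = c.ord e * w.ord (algebraMap E E' π) := by
    intro e he
    have h2 : c.ord (e * π ^ (-c.ord e)) = 0 := by
      rw [c.ord_mul he (zpow_ne_zero _ hπ0), c.ord_zpow, hπ]; ring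
    have h3 := ord_algebraMap_unit (k' := k') (E' := E') h2 (mul_ne_zero he (zpow_ne_zero _ hπ0))
    rw [map_mul, map_zpow₀, Place.ord_mul _ ((_root_.map_ne_zero _).mpr he)
      (zpow_ne_zero _ hπ'0), Place.ord_zpow] at h3
    linarith
  have h2 : w.ord (algebraMap E E' π) = 1 := by
    obtain ⟨y, hy0, hy⟩ := adicValuation_surjective_exp w (-1)
    have hyo : w.ord y = 1 := by
      have := w.adicValuation_eq_exp_neg_ord hy0
      rw [hy] at this
      have := exp_injective this
      omega
    obtain ⟨a, ha, b, hb, hb0, h⟩ := IsCE.exists_mul_eq (k := k) (k' := k') (E := E) y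
    have ha0 : a ≠ 0 := by rw [← h]; exact mul_ne_zero hy0 hb0
    obtain ⟨m, hm, hm'⟩ := exists_unif_mul c (mem_tens_iff.mpr ha) ha0
    obtain ⟨n, hn, hn'⟩ := exists_unif_mul c (mem_tens_iff.mpr hb) hb0
    have h3 := ord_eq_zero_of_mem_ext hm hm'
    have h4 := ord_eq_zero_of_mem_ext hn hn'
    rw [Place.ord_mul _ ((_root_.map_ne_zero _).mpr (unif_ne_zero c _)) ha0,
      ← hw, h1 _ (unif_ne_zero c _), ord_unif] at h3
    rw [Place.ord_mul _ ((_root_.map_ne_zero _).mpr (unif_ne_zero c _)) hb0,
      ← hw, h1 _ (unif_ne_zero c _), ord_unif] at h4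
    have h5 : w.ord y + w.ord b = w.ord a := by rw [← h, Place.ord_mul _ hy0 hb0]
    have h6 : (m - n) * w.ord (algebraMap E E' π) = 1 := by
      rw [hyo] at h5
      linarith
    have h7 : 0 ≤ w.ord (algebraMap E E' π) := by
      refine ord_nonneg_of_mem w ?_
      rw [hw, pl_toValuationSubring, algebraMap_mem_plRing_iff, mem_iff_ord_nonneg c hπ0, hπ]
      exact zero_le_one
    rcases Int.isUnit_iff.mp (IsUnit.of_mul_eq_one (m - n) (by rw [mul_comm]; exact h6)) with h8 | h8
    · exact h8
    · omega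
  rw [h1 e he0, h2, mul_one]

/-- the order at `pl c` of elements of `E ⊗ k'` -/
theorem mem_ext_vLe_iff {c : Place k E} {x : E'} (hx : x ∈ tens k k' E E') (hx0 : x ≠ 0) {n : ℤ} :
    x ∈ ext k' E' (vLe c n) ↔ -n ≤ (pl k' E' c).ord x := by
  obtain ⟨m, hm, hm'⟩ := exists_unif_mul c hx hx0
  have h1 := ord_eq_zero_of_mem_ext hm hm'
  rw [Place.ord_mul _ ((_root_.map_ne_zero _).mpr (unif_ne_zero c _)) hx0, ord_pl_algebraMap,
    ord_unif] at h1
  have h2 : (pl k' E' c).ord x = m := by omega
  rw [h2]
  have hinv : (unif c m)⁻¹ ∈ vLe c (-m) := by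
    rw [mem_vLe, map_inv₀, adicValuation_unif, ← exp_neg]
  have h0 : algebraMap E E' (unif c m) ≠ 0 := (_root_.map_ne_zero _).mpr (unif_ne_zero c _)
  constructor
  · intro h
    by_contra hcon
    push Not at hcon
    apply hm'
    have h3 := mul_mem_ext_vLe (algebraMap_mem_ext (k' := k') (E' := E')
      (mem_vLe.mpr (adicValuation_unif c m).le)) h
    exact ext_mono (vLe_mono c (by omega)) h3
  · intro h
    have h3 := mul_mem_ext_vLe (algebraMap_mem_ext (k' := k') (E' := E') hinv) hm
    have h4 : algebraMap E E' (unif c m)⁻¹ * (algebraMap E E' (unif c m) * x) = x := by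
      rw [map_inv₀]; field_simp
    rw [h4] at h3
    exact ext_mono (vLe_mono c (by omega)) h3

/-- Uniqueness of the place above `c`. -/
theorem eq_pl_of_comap {c : Place k E} {w : Place k' E'}
    (h : ∀ e : E, algebraMap E E' e ∈ w.toValuationSubring ↔ e ∈ c.toValuationSubring) :
    w = pl k' E' c := by
  symm
  apply eq_of_le
  have h1 : ∀ x ∈ ext k' E' (vLe c 0), x ∈ w.toValuationSubring := by
    intro x hx
    induction hx using Submodule.span_induction with
    | mem x hx =>
      obtain ⟨x, hx, rfl⟩ := hx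
      rw [h, mem_iff_adicValuation_le_one]
      simpa using mem_vLe.mp hx
    | zero => exact zero_mem _
    | add x y _ _ h1 h2 => exact add_mem h1 h2
    | smul t x _ h1 =>
      rw [Algebra.smul_def]; exact mul_mem (w.algebraMap_mem' _) h1
  have h2 : ∀ x ∈ ext k' E' (vLe c (-1)), w.adicValuation x < 1 := by
    intro x hx
    induction hx using Submodule.span_induction with
    | mem x hx =>
      obtain ⟨x, hx, rfl⟩ := hx
      by_contra hcon
      rw [not_lt] at hcon
      have hx0 : x ≠ 0 := by rintro rfl; simp at hcon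
      have h3 : algebraMap E E' x⁻¹ ∈ w.toValuationSubring := by
        rw [mem_iff_adicValuation_le_one, map_inv₀, map_inv₀]
        exact inv_le_one_of_one_le₀ hcon
      rw [h, mem_iff_adicValuation_le_one, map_inv₀] at h3
      have h4 := mem_vLe.mp hx
      rw [← adicValuation_lt_one_iff] at h4
      have h5 : c.adicValuation x ≠ 0 := c.adicValuation_ne_zero hx0
      exact absurd h3 (not_le.mpr ((one_lt_inv₀ (zero_lt_iff.mpr h5)).mpr h4))
    | zero => simp
    | add x y _ _ h1 h2 => exact lt_of_le_of_lt (Valuation.map_add _ _ _) (max_lt h1 h2)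
    | smul t x _ h1 =>
      rw [Algebra.smul_def, map_mul]
      exact lt_of_le_of_lt (mul_le_of_le_one_left' (w.adicValuation_algebraMap_le_one t)) h1
  rintro x ⟨a, ha, b, hb, hb', hab⟩
  obtain ⟨t, ht⟩ := exists_const_sub_mem c hb
  have ht0 : t ≠ 0 := by rintro rfl; exact hb' (by simpa using ht)
  have hb1 : w.adicValuation b = 1 := by
    have h3 := h2 _ ht
    have h4 : w.adicValuation (algebraMap k' E' t) = 1 := by
      apply le_antisymm (w.adicValuation_algebraMap_le_one t)
      have h1 := w.adicValuation_algebraMap_le_one t⁻¹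
      rw [map_inv₀, map_inv₀] at h1
      have h2 : w.adicValuation (algebraMap k' E' t) ≠ 0 :=
        w.adicValuation_ne_zero (by simpa using ht0)
      exact (inv_le_one₀ (zero_lt_iff.mpr h2)).mp h1
    have h5 : b = (b - algebraMap k' E' t) + algebraMap k' E' t := by ring
    rw [h5, Valuation.map_add_eq_of_lt_right _ (by rw [h4]; exact h3), h4]
  have hb0 : b ≠ 0 := by rintro rfl; simp at hb1
  have hx : x = a * b⁻¹ := by rw [← hab]; field_simp
  rw [hx]
  refine mul_mem (h1 a ha) ?_
  rw [mem_iff_adicValuation_le_one, map_inv₀, hb1, inv_one]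

/-- A place of `E'/k'` is either trivial on `E` or the place above some `c`. -/
theorem generic_or_eq_pl (w : Place k' E') :
    (∀ e : E, algebraMap E E' e ∈ w.toValuationSubring) ∨ ∃ c : Place k E, w = pl k' E' c := by
  by_cases h : w.toValuationSubring.comap (algebraMap E E') = ⊤
  · left
    intro e
    have : e ∈ w.toValuationSubring.comap (algebraMap E E') := by
      rw [h]; exact ValuationSubring.mem_top e
    exact this
  · right
    refine ⟨placeOf (w.toValuationSubring.comap (algebraMap E E')) (fun a => ?_) h, ?_⟩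
    · rw [ValuationSubring.mem_comap, ← IsScalarTower.algebraMap_apply,
        IsScalarTower.algebraMap_apply k k' E']
      exact w.algebraMap_mem' _
    · exact eq_pl_of_comap fun e => Iff.rfl

theorem generic_ne_pl {w : Place k' E'} (h : ∀ e : E, algebraMap E E' e ∈ w.toValuationSubring)
    (c : Place k E) : w ≠ pl k' E' c := by
  rintro rfl
  have h1 := h (unif c 1)
  rw [pl_toValuationSubring, algebraMap_mem_plRing_iff, mem_iff_ord_nonneg c (unif_ne_zero c _),
    ord_unif] at h1
  omega

theorem ord_generic {w : Place k' E'} (h : ∀ e : E, algebraMap E E' e ∈ w.toValuationSubring)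
    (e : E) : w.ord (algebraMap E E' e) = 0 := by
  by_cases he : e = 0
  · rw [he, map_zero, Place.ord_zero]
  · rw [← isUnit_iff_ord _ ((_root_.map_ne_zero _).mpr he), ← map_inv₀]
    exact ⟨h _, h _⟩

/-- extension of divisors -/
def con (k' E' : Type*) {k E : Type*} [Field k] [Field k'] [Field E] [Field E'] [Algebra k k']
    [Algebra k E] [Algebra k' E'] [Algebra E E'] [Algebra k E'] [IsScalarTower k k' E']
    [IsScalarTower k E E'] [IsCE k k' E E'] [IsAlgClosed k] [IsFF k E] :
    Divisor k E →+ Divisor k' E' := Finsupp.mapDomain.addMonoidHom (pl k' E')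

@[simp] theorem con_pl (D : Divisor k E) (c : Place k E) : con k' E' D (pl k' E' c) = D c :=
  Finsupp.mapDomain_apply pl_injective _ _

theorem con_generic (D : Divisor k E) {w : Place k' E'}
    (h : ∀ e : E, algebraMap E E' e ∈ w.toValuationSubring) : con k' E' D w = 0 :=
  Finsupp.mapDomain_of_notMem_range _ _ (by rintro ⟨c, hc⟩; exact generic_ne_pl h c hc.symm)

theorem con_single (c : Place k E) (n : ℤ) :
    con k' E' (Finsupp.single c n) = Finsupp.single (pl k' E' c) n :=
  Finsupp.mapDomain_single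

theorem con_injective : Function.Injective (con k' E' : Divisor k E →+ Divisor k' E') :=
  Finsupp.mapDomain_injective pl_injective

theorem con_mono {D D' : Divisor k E} (h : D ≤ D') : con k' E' D ≤ con k' E' D' := by
  rw [Finsupp.le_def] at h ⊢
  intro w
  rcases generic_or_eq_pl (k := k) (E := E) w with hw | ⟨c, rfl⟩
  · rw [con_generic _ hw, con_generic _ hw]
  · rw [con_pl, con_pl]; exact h c

theorem degree_con [IsAlgClosed k'] (D : Divisor k E) :
    Divisor.degree (con k' E' D) = Divisor.degree D := by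
  have := isFF k k' E E'
  have h : (Divisor.degree (K := k') (F := E')).comp (con k' E' : Divisor k E →+ Divisor k' E') =
      Divisor.degree (K := k) (F := E) := by
    ext c
    simp [con_single, deg_eq_one]
  exact DFunLike.congr_fun h D

theorem divOf_algebraMap [IsAlgClosed k'] [IsFF k' E'] {e : E} (he : e ≠ 0) :
    (divOf (algebraMap E E' e) : Divisor k' E') = con k' E' (divOf e : Divisor k E) := by
  ext w
  rw [divOf_apply ((_root_.map_ne_zero _).mpr he)]
  rcases generic_or_eq_pl (k := k) (E := E) w with hw | ⟨c, rfl⟩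
  · rw [con_generic _ hw, ord_generic hw]
  · rw [con_pl, ord_pl_algebraMap, divOf_apply he]

end closed

end IsCE

end Fermat.Agent.H26
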