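import Mathlib
import Fermat.Agent.H26CE3

/-!
# Constant field extensions: elements regular at the generic places lie in `E ⊗ k'`
(helper26, S26)
-/

set_option autoImplicit false
set_option linter.unusedSectionVars false

noncomputable section

open AlgebraicCurve WithZero Fermat.Agent.H3RR IntermediateField Polynomial

namespace Fermat.Agent.H26

theorem essFiniteType_of_isFF (k E : Type*) [Field k] [Field E] [Algebra k E]
    [IsFF k E] : Algebra.EssFiniteType k E := by
  obtain ⟨x, hx, hfd⟩ := IsFF.exists_gen (K := k) (F := E)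
  have h1 : Algebra.EssFiniteType k k⟮x⟯ := IntermediateField.essFiniteType_iff.mpr
    (IntermediateField.fg_adjoin_of_finite (Set.finite_singleton x))
  have h2 : Algebra.EssFiniteType k⟮x⟯ E := inferInstance
  exact Algebra.EssFiniteType.comp k k⟮x⟯ E

open scoped IntermediateField.algebraAdjoinAdjoin in
/-- separating elements exist over perfect fields -/
theorem exists_separating (k E : Type*) [Field k] [Field E] [Algebra k E] [PerfectField k]
    [IsFF k E] : ∃ s : E, Transcendental k s ∧ Algebra.IsSeparable k⟮s⟯ E := by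
  classical
  obtain ⟨x, hx, hfd⟩ := IsFF.exists_gen (K := k) (F := E)
  -- finitely generated
  have hess := essFiniteType_of_isFF k E
  obtain ⟨S, hS, hsep⟩ := exists_isTranscendenceBasis_and_isSeparable_of_perfectField k E
  have halg : Algebra.IsAlgebraic (Algebra.adjoin k {x}) E := by
    have : Algebra.IsAlgebraic k⟮x⟯ E := inferInstance
    exact (IsFractionRing.comap_isAlgebraic_iff (A := Algebra.adjoin k {x}) (K := k⟮x⟯)
      (C := E)).mpr this
  have h1 : Algebra.trdeg k E ≤ 1 := by
    have := Algebra.IsAlgebraic.trdeg_le_cardinalMk k ({x} : Set E)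
    simpa using this
  have hcard : Fintype.card S = 1 := by
    rw [← hS.cardinalMk_eq_trdeg] at h1
    have h2 : Fintype.card S ≤ 1 := by
      have h3 := Cardinal.mk_fintype S
      rw [h3] at h1
      exact_mod_cast h1
    have h3 : Fintype.card S ≠ 0 := by
      intro h0
      have hemp : IsEmpty S := Fintype.card_eq_zero_iff.mp h0
      have := hS.isEmpty_iff_isAlgebraic.mp hemp
      exact hx (Algebra.IsAlgebraic.isAlgebraic x)
    omega
  obtain ⟨⟨s, hsS⟩, hs⟩ := Fintype.card_eq_one_iff.mp hcard
  have hSs : (S : Set E) = {s} := by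
    ext y
    constructor
    · intro hy
      exact congrArg Subtype.val (hs ⟨y, hy⟩)
    · rintro rfl
      exact hsS
  rw [hSs] at hsep
  refine ⟨s, ?_, hsep⟩
  exact hS.1.transcendental ⟨s, hsS⟩

namespace IsCE

variable {k k' E E' : Type*} [Field k] [Field k'] [Field E] [Field E'] [Algebra k k']
    [Algebra k E] [Algebra k' E'] [Algebra E E'] [Algebra k E'] [IsScalarTower k k' E']
    [IsScalarTower k E E'] [IsCE k k' E E'] [IsAlgClosed k] [IsFF k E] [IsAlgClosed k']

/-- P1: clearing the poles at finite places by a polynomial with coefficients in `k` -/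
theorem exists_clear (s : E) {x : E'}
    (hx : ∀ w : Place k' E', (∀ e : E, algebraMap E E' e ∈ w.toValuationSubring) →
      x ∈ w.toValuationSubring) :
    ∃ q : k[X], q ≠ 0 ∧ ∀ w : Place k' E', algebraMap E E' s ∈ w.toValuationSubring →
      algebraMap E E' (aeval s q) * x ∈ w.toValuationSubring := by
  classical
  have hFF : IsFF k' E' := isFF k k' E E'
  by_cases hx0 : x = 0
  · exact ⟨1, one_ne_zero, fun w _ => by rw [hx0, mul_zero]; exact zero_mem _⟩
  have hfin := finite_support_ord (K := k') hx0
  -- the constants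
  have hconst : ∀ w : Place k' E', ∃ a : k, (∀ e : E, algebraMap E E' e ∈ w.toValuationSubring) ∨
      (algebraMap E E' s ∈ w.toValuationSubring → w.adicValuation (algebraMap E E' (s - algebraMap k E a)) < 1) := by
    intro w
    rcases generic_or_eq_pl (k := k) (E := E) w with hw | ⟨c, rfl⟩
    · exact ⟨0, Or.inl hw⟩
    · by_cases hs : s ∈ c.toValuationSubring
      · obtain ⟨a, ha⟩ := exists_const_sub_lt_one c ((mem_iff_adicValuation_le_one c).mp hs)
        refine ⟨a, Or.inr fun _ => ?_⟩
        by_cases h0 : s - algebraMap k E a = 0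
        · rw [h0, map_zero, map_zero]; exact zero_lt_one
        · rw [Place.adicValuation_eq_exp_neg_ord _ ((_root_.map_ne_zero _).mpr h0),
            ord_pl_algebraMap, ← Place.adicValuation_eq_exp_neg_ord _ h0]
          exact ha
      · refine ⟨0, Or.inr fun h => ?_⟩
        rw [pl_toValuationSubring, algebraMap_mem_plRing_iff] at h
        exact absurd h hs
  choose a ha using hconst
  let N : Place k' E' → ℕ := fun w => (w.ord x).natAbs
  let q : k[X] := ∏ w ∈ hfin.toFinset, (X - C (a w)) ^ N w
  have hq0 : q ≠ 0 := Finset.prod_ne_zero_iff.mpr fun w _ => pow_ne_zero _ (X_sub_C_ne_zero _)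
  refine ⟨q, hq0, fun w hsw => ?_⟩
  have hfac : ∀ w', algebraMap E E' (s - algebraMap k E (a w')) ∈ w.toValuationSubring := by
    intro w'
    rw [map_sub]
    refine sub_mem hsw ?_
    rw [← IsScalarTower.algebraMap_apply, IsScalarTower.algebraMap_apply k k' E']
    exact w.algebraMap_mem' _
  have hqval : algebraMap E E' (aeval s q) =
      ∏ w' ∈ hfin.toFinset, (algebraMap E E' (s - algebraMap k E (a w'))) ^ N w' := by
    simp only [q, map_prod, map_pow, map_sub, aeval_X, aeval_C]
  by_cases hxw : x ∈ w.toValuationSubring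
  · refine mul_mem ?_ hxw
    rw [hqval]
    exact prod_mem fun w' _ => pow_mem (hfac w') _
  · have hngen : ¬ ∀ e : E, algebraMap E E' e ∈ w.toValuationSubring := fun h => hxw (hx w h)
    have hlt := (ha w).resolve_left hngen hsw
    have hord : w.ord x < 0 := by
      by_contra hcon
      exact hxw ((mem_iff_ord_nonneg w hx0).mpr (not_lt.mp hcon))
    have hwmem : w ∈ hfin.toFinset := by
      rw [Set.Finite.mem_toFinset, Function.mem_support]
      omega
    rw [hqval, ← Finset.prod_erase_mul _ _ hwmem, mul_assoc]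
    refine mul_mem (prod_mem fun w' _ => pow_mem (hfac w') _) ?_
    rw [mem_iff_adicValuation_le_one, map_mul, map_pow, w.adicValuation_eq_exp_neg_ord hx0]
    have h1 := (adicValuation_lt_one_iff w).mp hlt
    calc w.adicValuation (algebraMap E E' (s - algebraMap k E (a w))) ^ N w * exp (-w.ord x)
        ≤ exp (-1 : ℤ) ^ N w * exp (-w.ord x) := by gcongr
      _ = exp (-(N w : ℤ) - w.ord x) := by
          rw [← exp_nsmul, ← exp_add]
          congr 1
          simp; ring
      _ ≤ 1 := by
          rw [← exp_zero, exp_le_exp]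
          simp only [N]
          omega

/-- P2: integrality over `k'[y]` -/
theorem isIntegral_adjoin_of_places [IsFF k' E'] (y x : E')
    (hx : ∀ w : Place k' E', y ∈ w.toValuationSubring → x ∈ w.toValuationSubring) :
    IsIntegral (Algebra.adjoin k' {y}) x := by
  have h1 : x ∈ (⨅ V : {V : ValuationSubring E' //
      ((Algebra.adjoin k' {y} : Subalgebra k' E') : Set E') ⊆ V.toSubring}, V.1.toSubring) := by
    rw [Subring.mem_iInf]
    rintro ⟨V, hV⟩
    change x ∈ V
    by_cases hVtop : V = ⊤
    · rw [hVtop]; exact ValuationSubring.mem_top x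
    · have hc : ∀ a : k', algebraMap k' E' a ∈ V := fun a =>
        hV (Subalgebra.algebraMap_mem _ a)
      exact hx (placeOf V hc hVtop) (hV (Algebra.subset_adjoin rfl))
  rw [iInf_valuationSubring_superset] at h1
  have h2 : IsIntegral (Subring.closure
      ((Algebra.adjoin k' {y} : Subalgebra k' E') : Set E')) x :=
    h1
  let φ : Subring.closure ((Algebra.adjoin k' {y} : Subalgebra k' E') : Set E') →+*
      Algebra.adjoin k' {y} :=
    (Subring.subtype _).codRestrict _ fun z =>
      (Subring.closure_le (t := (Algebra.adjoin k' {y}).toSubring)).mpr (fun _ h => h) z.2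
  exact IsIntegral.map_of_comp_eq φ (RingHom.id E') rfl h2

open scoped IntermediateField.algebraAdjoinAdjoin in
omit [IsCE k k' E E'] [IsAlgClosed k] [IsFF k E] [IsAlgClosed k'] in
/-- P3: elements of `k'(y)` integral over `k'[y]` lie in `k'[y]`, `y` transcendental -/
theorem exists_poly_of_isIntegral {y : E'} (hy : Transcendental k' y) (a : k'⟮y⟯)
    (ha : IsIntegral (Algebra.adjoin k' {y}) (a : E')) : ∃ p : k'[X], aeval y p = (a : E') := by
  have e : Algebra.adjoin k' {y} ≃ₐ[k'] k'[X] :=
    ((AlgEquiv.ofInjective (aeval y) (transcendental_iff_injective.mp hy)).trans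
      (Subalgebra.equivOfEq _ _ (Algebra.adjoin_singleton_eq_range_aeval k' y).symm)).symm
  have hic : IsIntegrallyClosed (Algebra.adjoin k' {y}) :=
    IsIntegrallyClosed.of_equiv e.symm.toRingEquiv
  have ha' : IsIntegral (Algebra.adjoin k' {y}) a :=
    (isIntegral_algebraMap_iff (B := E') (algebraMap k'⟮y⟯ E').injective).mp ha
  obtain ⟨b, hb⟩ := (IsIntegrallyClosed.isIntegral_iff (K := k'⟮y⟯)).mp ha'
  obtain ⟨p, hp⟩ := (Algebra.adjoin_singleton_eq_range_aeval k' y).le b.2
  refine ⟨p, ?_⟩
  rw [← hb]
  exact hp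

omit [IsAlgClosed k] [IsFF k E] [IsAlgClosed k'] in
theorem repr_algebraMap {s : E} {n : ℕ} (e : Module.Basis (Fin n) k⟮s⟯ E)
    (e' : Module.Basis (Fin n) k'⟮algebraMap E E' s⟯ E') (he' : ∀ i, e' i = algebraMap E E' (e i))
    (y : E) (i : Fin n) :
    ((e'.repr (algebraMap E E' y) i : k'⟮algebraMap E E' s⟯) : E') =
      algebraMap E E' ((e.repr y i : k⟮s⟯) : E) := by
  have h1 : algebraMap E E' y = ∑ j, (⟨algebraMap E E' ((e.repr y j : k⟮s⟯) : E),
      algebraMap_mem_adjoin (k' := k') (E' := E') (e.repr y j).2⟩ : k'⟮algebraMap E E' s⟯) • e' j := by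
    conv_lhs => rw [← e.sum_repr y, map_sum]
    refine Finset.sum_congr rfl fun j _ => ?_
    rw [he', Algebra.smul_def, Algebra.smul_def, map_mul]
    rfl
  rw [h1, e'.repr_sum_self]

omit [IsAlgClosed k] [IsFF k E] [IsAlgClosed k'] in
theorem trace_algebraMap {s : E} {n : ℕ} (e : Module.Basis (Fin n) k⟮s⟯ E)
    (e' : Module.Basis (Fin n) k'⟮algebraMap E E' s⟯ E') (he' : ∀ i, e' i = algebraMap E E' (e i))
    (y : E) :
    ((Algebra.trace k'⟮algebraMap E E' s⟯ E' (algebraMap E E' y) : k'⟮algebraMap E E' s⟯) : E') =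
      algebraMap E E' ((Algebra.trace k⟮s⟯ E y : k⟮s⟯) : E) := by
  classical
  rw [Algebra.trace_eq_matrix_trace e', Algebra.trace_eq_matrix_trace e, Matrix.trace,
    Matrix.trace, AddSubmonoidClass.coe_finsetSum, AddSubmonoidClass.coe_finsetSum, map_sum]
  refine Finset.sum_congr rfl fun i _ => ?_
  rw [Matrix.diag_apply, Matrix.diag_apply, Algebra.leftMulMatrix_eq_repr_mul,
    Algebra.leftMulMatrix_eq_repr_mul, he', ← map_mul, repr_algebraMap e e' he']

open scoped IntermediateField.algebraAdjoinAdjoin in
/-- **Elements regular at all places trivial on `E` lie in `E ⊗ k'`.** -/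
theorem mem_tens_of_generic {x : E'}
    (hx : ∀ w : Place k' E', (∀ e : E, algebraMap E E' e ∈ w.toValuationSubring) →
      x ∈ w.toValuationSubring) : x ∈ tens k k' E E' := by
  classical
  have hFF : IsFF k' E' := isFF k k' E E'
  obtain ⟨s, hs, hsep⟩ := exists_separating k E
  have hfd := IsFF.finiteDimensional (K := k) hs
  have hs' : Transcendental k' (algebraMap E E' s) := transcendental_map hs
  have hfd' := IsFF.finiteDimensional (K := k') hs'
  let b := Module.finBasis k⟮s⟯ E
  let bd := b.traceDual
  obtain ⟨b', hb'⟩ := exists_basis (k' := k') (E' := E') hs b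
  obtain ⟨bd', hbd'⟩ := exists_basis (k' := k') (E' := E') hs bd
  -- coordinates with respect to the dual basis are traces
  have hcoord : ∀ (z : E') (i), bd'.repr z i =
      Algebra.trace k'⟮algebraMap E E' s⟯ E' (z * b' i) := by
    intro z i
    have h1 : (Finsupp.lapply i ∘ₗ bd'.repr.toLinearMap : E' →ₗ[k'⟮algebraMap E E' s⟯] _) =
        (Algebra.trace k'⟮algebraMap E E' s⟯ E') ∘ₗ
          (LinearMap.mulRight k'⟮algebraMap E E' s⟯ (b' i)) := by
      apply bd'.ext
      intro j
      simp only [LinearMap.coe_comp, Function.comp_apply, LinearEquiv.coe_coe, Module.Basis.repr_self,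
        Finsupp.lapply_apply, LinearMap.mulRight_apply]
      apply Subtype.ext
      rw [hbd', hb', ← map_mul, trace_algebraMap b b' hb', Module.Basis.trace_traceDual_mul,
        Finsupp.single_apply]
      by_cases hij : i = j
      · subst hij; simp
      · rw [if_neg hij, if_neg (fun h => hij h.symm)]; simp
    exact LinearMap.congr_fun h1 z
  rw [← bd'.sum_repr x]
  refine sum_mem fun i _ => ?_
  rw [hcoord, hbd', Algebra.smul_def]
  refine mul_mem ?_ (algebraMap_mem_tens _)
  -- the trace
  have hxi : ∀ w : Place k' E', (∀ e : E, algebraMap E E' e ∈ w.toValuationSubring) →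
      x * b' i ∈ w.toValuationSubring := fun w hw => mul_mem (hx w hw) (by rw [hb']; exact hw _)
  obtain ⟨q, hq0, hq⟩ := exists_clear (k := k) s hxi
  have hint := isIntegral_adjoin_of_places _ _ hq
  have hq' : algebraMap E E' (aeval s q) ∈ k'⟮algebraMap E E' s⟯ := by
    refine algebraMap_mem_adjoin (k := k) ?_
    exact (mem_adjoin_simple_iff _ _).mpr ⟨q, 1, by simp⟩
  have htr : Algebra.trace k'⟮algebraMap E E' s⟯ E' (algebraMap E E' (aeval s q) * (x * b' i)) =
      (⟨_, hq'⟩ : k'⟮algebraMap E E' s⟯) *
        Algebra.trace k'⟮algebraMap E E' s⟯ E' (x * b' i) := by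
    have h0 : algebraMap E E' (aeval s q) * (x * b' i) =
        (⟨_, hq'⟩ : k'⟮algebraMap E E' s⟯) • (x * b' i) := by
      rw [Algebra.smul_def]; rfl
    rw [h0, map_smul, smul_eq_mul]
  have hint2 : IsIntegral (Algebra.adjoin k' {algebraMap E E' s})
      ((Algebra.trace k'⟮algebraMap E E' s⟯ E' (algebraMap E E' (aeval s q) * (x * b' i)) :
        k'⟮algebraMap E E' s⟯) : E') :=
    (Algebra.isIntegral_trace (L := k'⟮algebraMap E E' s⟯) hint).algebraMap (B := E')
  obtain ⟨p, hp⟩ := exists_poly_of_isIntegral hs' _ hint2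
  rw [htr] at hp
  have hqne : algebraMap E E' (aeval s q) ≠ 0 := by
    rw [Ne, map_eq_zero]
    exact fun h => hq0 (transcendental_iff.mp hs q h)
  have h1 : algebraMap k'⟮algebraMap E E' s⟯ E'
      (Algebra.trace k'⟮algebraMap E E' s⟯ E' (x * b' i)) =
      aeval (algebraMap E E' s) p * algebraMap E E' (aeval s q)⁻¹ := by
    rw [hp, map_inv₀]
    change _ = algebraMap E E' (aeval s q) * _ * _
    rw [mul_comm (algebraMap E E' (aeval s q)), mul_assoc, mul_inv_cancel₀ hqne, mul_one]
    rfl
  rw [h1]
  refine mul_mem ?_ (algebraMap_mem_tens _)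
  have h2 : aeval (algebraMap E E' s) p ∈ Algebra.adjoin k' {algebraMap E E' s} := by
    rw [Algebra.adjoin_singleton_eq_range_aeval]; exact ⟨p, rfl⟩
  have h3 : ({algebraMap E E' s} : Set E') ⊆ Set.range (algebraMap E E') :=
    Set.singleton_subset_iff.mpr (Set.mem_range_self s)
  exact Algebra.adjoin_mono h3 h2

end IsCE

end Fermat.Agent.H26
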