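import Mathlib
import Fermat.Agent.H3RR_Duality
import Fermat.Agent.H40RRBasic
import Fermat.Agent.H26CE4

/-!
# Constant field extensions: Riemann-Roch spaces and genus (helper26, S26)
-/

set_option autoImplicit false
set_option linter.unusedSectionVars false

noncomputable section

open AlgebraicCurve WithZero Fermat.Agent.H3RR

namespace Fermat.Agent.H26

/-! ### Linear equivalence -/

section linEquiv

variable {k E : Type*} [Field k] [Field E] [Algebra k E] [IsAlgClosed k] [IsFF k E]

/-- linear equivalence of divisors -/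
def LinEq (D D' : Divisor k E) : Prop := ∃ f : E, f ≠ 0 ∧ D = D' + divOf f

theorem LinEq.refl (D : Divisor k E) : LinEq D D := ⟨1, one_ne_zero, by
  ext v; rw [Finsupp.add_apply, divOf_apply one_ne_zero, Place.ord_one, add_zero]⟩

theorem divOf_mul {f g : E} (hf : f ≠ 0) (hg : g ≠ 0) :
    (divOf (f * g) : Divisor k E) = divOf f + divOf g := by
  ext v
  rw [Finsupp.add_apply, divOf_apply (mul_ne_zero hf hg), divOf_apply hf, divOf_apply hg,
    v.ord_mul hf hg]

theorem divOf_inv {f : E} (hf : f ≠ 0) : (divOf f⁻¹ : Divisor k E) = - divOf f := by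
  ext v
  rw [Finsupp.neg_apply, divOf_apply (inv_ne_zero hf), divOf_apply hf, v.ord_inv]

theorem divOf_div {f g : E} (hf : f ≠ 0) (hg : g ≠ 0) :
    (divOf (f / g) : Divisor k E) = divOf f - divOf g := by
  rw [div_eq_mul_inv, divOf_mul hf (inv_ne_zero hg), divOf_inv hg, sub_eq_add_neg]

theorem divOf_algebraMap_const {c : k} (hc : c ≠ 0) :
    (divOf (algebraMap k E c) : Divisor k E) = 0 := by
  ext v
  rw [divOf_apply ((_root_.map_ne_zero _).mpr hc), ord_algebraMap v hc]
  rfl

theorem LinEq.symm {D D' : Divisor k E} (h : LinEq D D') : LinEq D' D := by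
  obtain ⟨f, hf, rfl⟩ := h
  exact ⟨f⁻¹, inv_ne_zero hf, by rw [divOf_inv hf]; abel⟩

theorem LinEq.trans {D₁ D₂ D₃ : Divisor k E} (h : LinEq D₁ D₂) (h' : LinEq D₂ D₃) :
    LinEq D₁ D₃ := by
  obtain ⟨f, hf, rfl⟩ := h
  obtain ⟨g, hg, rfl⟩ := h'
  exact ⟨g * f, mul_ne_zero hg hf, by rw [divOf_mul hg hf]; abel⟩

theorem LinEq.add {D₁ D₂ D₃ D₄ : Divisor k E} (h : LinEq D₁ D₂) (h' : LinEq D₃ D₄) :
    LinEq (D₁ + D₃) (D₂ + D₄) := by
  obtain ⟨f, hf, rfl⟩ := h
  obtain ⟨g, hg, rfl⟩ := h'
  exact ⟨f * g, mul_ne_zero hf hg, by rw [divOf_mul hf hg]; abel⟩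

theorem LinEq.neg {D₁ D₂ : Divisor k E} (h : LinEq D₁ D₂) : LinEq (-D₁) (-D₂) := by
  obtain ⟨f, hf, rfl⟩ := h
  exact ⟨f⁻¹, inv_ne_zero hf, by rw [divOf_inv hf]; abel⟩

theorem LinEq.sub {D₁ D₂ D₃ D₄ : Divisor k E} (h : LinEq D₁ D₂) (h' : LinEq D₃ D₄) :
    LinEq (D₁ - D₃) (D₂ - D₄) := by
  rw [sub_eq_add_neg, sub_eq_add_neg]; exact h.add h'.neg

theorem LinEq.degree_eq {D₁ D₂ : Divisor k E} (h : LinEq D₁ D₂) :
    Divisor.degree D₁ = Divisor.degree D₂ := by
  obtain ⟨f, hf, rfl⟩ := h
  rw [map_add, degree_divOf hf, add_zero]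

theorem LinEq.ell_eq {D₁ D₂ : Divisor k E} (h : LinEq D₁ D₂) : ell D₁ = ell D₂ := by
  obtain ⟨f, hf, rfl⟩ := h
  exact ell_add_divOf hf _

theorem linEq_divOf {f : E} (hf : f ≠ 0) : LinEq (divOf f : Divisor k E) 0 := ⟨f, hf, by simp⟩

/-- an effective divisor in the class of `D` exists iff `ell D > 0` -/
theorem exists_effective {D : Divisor k E} (h : 0 < ell D) :
    ∃ D' : Divisor k E, 0 ≤ D' ∧ LinEq D' D := by
  obtain ⟨f, hf, hfL⟩ := exists_mem_L_of_ell_pos h
  refine ⟨D + divOf f, ?_, f, hf, rfl⟩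
  have := le_add_divOf_of_mem (D := 0) (E := D) hf (by rwa [sub_zero])
  exact this

/-- uniqueness of effective divisors in a class with `ell = 1` -/
theorem eq_of_linEq_of_ell_le_one {D₁ D₂ : Divisor k E} (h₁ : 0 ≤ D₁) (h₂ : 0 ≤ D₂)
    (h : LinEq D₁ D₂) (hell : ell D₂ ≤ 1) : D₁ = D₂ := by
  obtain ⟨f, hf, rfl⟩ := h
  have h1 : (1 : E) ∈ riemannRochSpace D₂ := by
    rw [mem_riemannRochSpace_iff]
    intro v
    right
    rw [Place.ord_one]
    have := h₂ v
    simp only [Finsupp.coe_zero, Pi.zero_apply] at this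
    omega
  have h2 : f ∈ riemannRochSpace D₂ := by
    rw [mem_riemannRochSpace_iff]
    intro v
    right
    have := h₁ v
    rw [Finsupp.add_apply, divOf_apply hf] at this
    simp only [Finsupp.coe_zero, Pi.zero_apply] at this
    omega
  have hfr : Module.finrank k (riemannRochSpace D₂) ≤ 1 := hell
  obtain ⟨⟨u, hu⟩, huall⟩ := finrank_le_one_iff.mp hfr
  obtain ⟨a, ha⟩ := huall ⟨1, h1⟩
  obtain ⟨b, hb⟩ := huall ⟨f, h2⟩
  have ha' : a • u = 1 := congrArg Subtype.val ha
  have hb' : b • u = f := congrArg Subtype.val hb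
  have ha0 : a ≠ 0 := by rintro rfl; simp at ha'
  have hf' : f = algebraMap k E (b / a) := by
    rw [← hb', map_div₀, ← mul_one (algebraMap k E b / algebraMap k E a), ← ha',
      Algebra.smul_def, Algebra.smul_def]
    have : algebraMap k E a ≠ 0 := (_root_.map_ne_zero _).mpr ha0
    field_simp
  have hba : b / a ≠ 0 := by
    intro h0
    rw [h0, map_zero] at hf'
    exact hf hf'
  rw [hf', divOf_algebraMap_const hba, add_zero]

end linEquiv

namespace IsCE

variable {k k' E E' : Type*} [Field k] [Field k'] [Field E] [Field E'] [Algebra k k']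
    [Algebra k E] [Algebra k' E'] [Algebra E E'] [Algebra k E'] [IsScalarTower k k' E']
    [IsScalarTower k E E'] [IsCE k k' E E'] [IsAlgClosed k] [IsFF k E] [IsAlgClosed k']

theorem mem_riemannRochSpace_iff_vLe {D : Divisor k E} {e : E} :
    e ∈ riemannRochSpace D ↔ ∀ c, e ∈ vLe c (D c) := Iff.rfl

/-- **Riemann-Roch spaces commute with constant field extension.** -/
theorem riemannRochSpace_con (D : Divisor k E) :
    riemannRochSpace (con k' E' D) = ext k' E' (riemannRochSpace D) := by
  apply le_antisymm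
  · intro x hx
    by_cases hx0 : x = 0
    · rw [hx0]; exact zero_mem _
    have hx1 := H40.mem_L hx0 |>.mp hx
    have hxt : x ∈ tens k k' E E' := by
      apply mem_tens_of_generic
      intro w hw
      rw [mem_iff_ord_nonneg w hx0]
      have := hx1 w
      rw [con_generic _ hw] at this
      simpa using this
    obtain ⟨n, l, e, hl, -, rfl⟩ := exists_rep (mem_tens_iff_mem_ext.mp hxt)
    rw [mem_ext_iff hl]
    intro i
    rw [mem_riemannRochSpace_iff_vLe]
    intro c
    have h1 := hx1 (pl k' E' c)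
    rw [con_pl] at h1
    exact (mem_ext_iff hl).mp ((mem_ext_vLe_iff hxt hx0).mpr h1) i
  · refine Submodule.span_le.mpr ?_
    rintro _ ⟨e, he, rfl⟩
    rw [SetLike.mem_coe, mem_riemannRochSpace_iff]
    intro w
    by_cases he0 : e = 0
    · left; rw [he0, map_zero]
    right
    rcases generic_or_eq_pl (k := k) (E := E) w with hw | ⟨c, rfl⟩
    · rw [con_generic _ hw, ord_generic hw]; simp
    · rw [con_pl, ord_pl_algebraMap]
      exact (H40.mem_L he0).mp he c

variable (k' E') in
theorem ell_con (D : Divisor k E) : ell (con k' E' D) = ell D := by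
  rw [ell, riemannRochSpace_con, finrank_ext, ell]

theorem con_nonneg {D : Divisor k E} (h : 0 ≤ D) : 0 ≤ con k' E' D := by
  have := con_mono (k' := k') (E' := E') h
  rwa [map_zero] at this

/-- principal divisors descend -/
theorem linEq_zero_of_con [IsFF k' E'] {D : Divisor k E} (h : LinEq (con k' E' D) 0) :
    LinEq D 0 := by
  have h1 : Divisor.degree D = 0 := by
    rw [← degree_con (k' := k') (E' := E'), h.degree_eq, map_zero]
  have h2 : 0 < ell (-D) := by
    rw [← ell_con k' E', map_neg, h.neg.ell_eq, neg_zero,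
      (finite_and_ell_zero (K := k') (F := E')).2]
    exact one_pos
  obtain ⟨D', hD', hlin⟩ := exists_effective h2
  have h3 : Divisor.degree D' = 0 := by rw [hlin.degree_eq, map_neg, h1, neg_zero]
  have h4 : D' = 0 := by
    by_contra hne
    have hpos : 0 < Divisor.degree D' := by
      rw [degree_eq_sum]
      apply Finset.sum_pos
      · intro v hv
        have := hD' v
        rw [Finsupp.coe_zero, Pi.zero_apply] at this
        rw [Finsupp.mem_support_iff] at hv
        omega
      · exact Finsupp.support_nonempty_iff.mpr hne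
    omega
  rw [h4] at hlin
  have := hlin.symm.neg
  rwa [neg_neg, neg_zero] at this

theorem linEq_of_con [IsFF k' E'] {D D' : Divisor k E} (h : LinEq (con k' E' D) (con k' E' D')) :
    LinEq D D' := by
  have h1 : LinEq (con k' E' (D - D')) 0 := by
    rw [map_sub]
    have := h.sub (LinEq.refl (con k' E' D'))
    rwa [sub_self] at this
  have h2 := (linEq_zero_of_con (k := k) (E := E) h1).add (LinEq.refl D')
  simpa using h2

theorem con_linEq [IsFF k' E'] {D D' : Divisor k E} (h : LinEq D D') :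
    LinEq (con k' E' D) (con k' E' D') := by
  obtain ⟨f, hf, rfl⟩ := h
  refine ⟨algebraMap E E' f, (_root_.map_ne_zero _).mpr hf, ?_⟩
  rw [divOf_algebraMap (k := k) hf, map_add]

variable (k k' E E') in
/-- the genus does not change -/
theorem genus_eq [IsFF k' E'] : genusFF k' E' = genusFF k E := by
  obtain ⟨c⟩ := exists_place k E
  set N : ℤ := 2 * (genusFF k' E' : ℤ) + 2 * genusFF k E with hN
  have hd : Divisor.degree (Finsupp.single c N : Divisor k E) = N := by
    rw [Divisor.degree_single, deg_eq_one]; simp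
  have h1 := ell_of_degree_gt (K := k) (F := E) (D := Finsupp.single c N) (by rw [hd]; omega)
  have h2 := ell_of_degree_gt (K := k') (F := E') (D := con k' E' (Finsupp.single c N)) (by
    rw [degree_con, hd]; omega)
  rw [ell_con, degree_con] at h2
  omega

/-- Riemann's theorem, as used by helper40's reduction theory -/
theorem riemannFor (k E : Type*) [Field k] [Field E] [Algebra k E] [IsAlgClosed k] [IsFF k E]
    {c : ℤ} (hc : 2 * (genusFF k E : ℤ) - 2 < c) : H40.RiemannFor k E (genusFF k E) c := by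
  intro D hD
  exact ⟨inferInstance, ell_of_degree_gt (by omega)⟩

end IsCE

end Fermat.Agent.H26
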