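/-
H17Div: descent of divisibility of `Pic0` from an algebraically closed extension of the constant field
with finite torsion (helper17)
-/
import Mathlib
import Fermat.Prelude.Def_ModularCurve_ArithmeticGalois
import Fermat.Agent.H26CE5
import Fermat.Agent.H90Descent
import Fermat.Agent.H17Ram
import Fermat.Agent.H17Equiv

set_option autoImplicit false
set_option linter.unusedSectionVars false

noncomputable section

open AlgebraicCurve

namespace Fermat.Agent.H17

open Fermat.Agent.H3RR Fermat.Agent.H26 Fermat.Agent.H26.IsCE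

section Mk

variable {K F : Type*} [Field K] [Field F] [Algebra K F] [IsAlgClosed K] [IsFF K F]

theorem isPrincipal_iff_linEq {D : Divisor K F} : Divisor.IsPrincipal D ↔ LinEq D 0 := by
  constructor
  · rintro ⟨f, hf, h⟩
    refine ⟨f, hf, ?_⟩
    ext v
    rw [h v, zero_add, divOf_apply hf]
  · rintro ⟨f, hf, h⟩
    refine ⟨f, hf, fun v => ?_⟩
    rw [h, zero_add, divOf_apply hf]

theorem mk_eq_mk_iff {D D' : Divisor.degZero (K := K) (F := F)} :
    Pic0.mk D = Pic0.mk D' ↔ LinEq (D : Divisor K F) (D' : Divisor K F) := by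
  have h : Pic0.mk D = Pic0.mk D' ↔ (-D + D') ∈ (Divisor.principal (K := K) (F := F)).addSubgroupOf
      (Divisor.degZero (K := K) (F := F)) := QuotientAddGroup.eq
  rw [h, AddSubgroup.mem_addSubgroupOf, Divisor.mem_principal, isPrincipal_iff_linEq]
  have e : ((-D + D' : Divisor.degZero (K := K) (F := F)) : Divisor K F) =
    -(D : Divisor K F) + (D' : Divisor K F) := rfl
  rw [e]
  constructor
  · intro h
    have := (h.add (LinEq.refl (D : Divisor K F))).symm
    simpa using this
  · intro h
    have := (h.sub (LinEq.refl (D : Divisor K F))).symm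
    rw [sub_self] at this
    have h2 : -(D : Divisor K F) + (D' : Divisor K F) = (D' : Divisor K F) - (D : Divisor K F) := by abel
    rw [h2]
    exact this

theorem nsmul_mk (n : ℕ) (D : Divisor.degZero (K := K) (F := F)) : n • Pic0.mk D = Pic0.mk (n • D) := rfl

end Mk

section Semi

variable {K F : Type*} [Field K] [Field F] [Algebra K F] [IsAlgClosed K] [IsFF K F]

theorem LinEq_smul (g : SemilinearAut K F) {D D' : Divisor K F} (h : LinEq D D') :
    LinEq (g • D) (g • D') := by
  obtain ⟨f, hf, rfl⟩ := h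
  have hf' : g • f ≠ 0 := by
    intro h
    apply hf
    have := congrArg (g⁻¹ • ·) h
    simpa only [inv_smul_smul, smul_zero] using this
  refine ⟨g • f, hf', ?_⟩
  rw [smul_add]
  congr 1
  ext v
  rw [divOf_apply hf', SemilinearAut.divisor_smul_apply, divOf_apply hf,
    ← SemilinearAut.ord_smul g, smul_inv_smul]

theorem smul_nonneg' (g : SemilinearAut K F) {D : Divisor K F} (h : 0 ≤ D) : 0 ≤ g • D := by
  rw [Finsupp.le_def] at h ⊢
  intro v
  rw [SemilinearAut.divisor_smul_apply]
  exact h _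

end Semi

section Fix

variable {k k' E E' : Type*} [Field k] [Field k'] [Field E] [Field E'] [Algebra k k']
    [Algebra k E] [Algebra k' E'] [Algebra E E'] [Algebra k E'] [IsScalarTower k k' E']
    [IsScalarTower k E E'] [IsCE k k' E E'] [IsAlgClosed k] [IsAlgClosed k'] [CharZero k']
    [IsFF k E] [IsFF k' E']
variable (φ : (k' ≃ₐ[k] k') →* SemilinearAut k' E')
  (hφ : ∀ σ a, SemilinearAut.baseAut (φ σ) a = σ a)
  (hfix : ∀ σ (e : E), φ σ • algebraMap E E' e = algebraMap E E' e)

include hφ hfix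

theorem smul_pl (σ : k' ≃ₐ[k] k') (c : Place k E) : φ σ • pl k' E' c = pl k' E' c := by
  apply eq_pl_of_comap
  intro e
  have h := H79.smul_mem_place_iff (φ σ) (pl k' E' c) (algebraMap E E' e)
  rw [hfix] at h
  rw [h, pl_toValuationSubring, algebraMap_mem_plRing_iff]

theorem exists_pl_of_finiteIndex (w : Place k' E') (H : Subgroup (k' ≃ₐ[k] k')) [H.FiniteIndex]
    (hw : ∀ σ ∈ H, φ σ • w = w) : ∃ c : Place k E, w = pl k' E' c := by
  rcases generic_or_eq_pl (k := k) (E := E) w with h | h
  swap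
  · exact h
  exfalso
  obtain ⟨e, he, -⟩ := (inferInstance : IsFF k E).exists_gen
  have hfixa : ∀ σ ∈ H, σ (val w (algebraMap E E' e)) = val w (algebraMap E E' e) := by
    intro σ hσ
    have := H79.val_semilinear (φ σ) w (h e)
    rw [hw σ hσ, hfix, hφ] at this
    exact this.symm
  obtain ⟨b, hb⟩ := H90.mem_range_of_finiteIndex H hfixa
  have hne : e - algebraMap k E b ≠ 0 := by
    intro h0
    apply he
    rw [sub_eq_zero.mp h0]
    exact isAlgebraic_algebraMap b
  have hne' : algebraMap E E' (e - algebraMap k E b) ≠ 0 := (_root_.map_ne_zero _).mpr hne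
  have h1 := ord_generic h (e - algebraMap k E b)
  have h2 : val w (algebraMap E E' (e - algebraMap k E b)) = 0 := by
    rw [map_sub, val_sub w (h e) (h _), ← IsScalarTower.algebraMap_apply,
      IsScalarTower.algebraMap_apply k k' E', val_algebraMap, hb, sub_self]
  rw [val_eq_zero_iff w hne' (h _)] at h2
  omega

/-- a divisor fixed by a subgroup of finite index is extended from the small field -/
theorem exists_con_of_finiteIndex (D : Divisor k' E') (H : Subgroup (k' ≃ₐ[k] k')) [H.FiniteIndex]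
    (hD : ∀ σ ∈ H, φ σ • D = D) : ∃ D₀ : Divisor k E, con k' E' D₀ = D := by
  classical
  have key : ∀ w : Place k' E', D w ≠ 0 → ∃ c : Place k E, w = pl k' E' c := by
    intro w hw
    -- the action on places
    letI act : MulAction (k' ≃ₐ[k] k') (Place k' E') := MulAction.compHom _ φ
    have hact : ∀ (σ : k' ≃ₐ[k] k') (P : Place k' E'), σ • P = φ σ • P := fun _ _ => rfl
    have hsub : MulAction.orbit H w ⊆ (D.support : Set (Place k' E')) := by
      rintro _ ⟨σ, rfl⟩
      rw [Finset.mem_coe, Finsupp.mem_support_iff]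
      show D (φ (σ : k' ≃ₐ[k] k') • w) ≠ 0
      have h1 := congrArg (fun D' : Divisor k' E' => D' (φ (σ : k' ≃ₐ[k] k') • w)) (hD σ σ.2)
      simp only [SemilinearAut.divisor_smul_apply_smul] at h1
      rw [← h1]; exact hw
    have hfin : Finite (MulAction.orbit H w) :=
      Set.Finite.to_subtype (Set.Finite.subset (Finset.finite_toSet _) hsub)
    have hSt : Finite (H ⧸ MulAction.stabilizer H w) :=
      Finite.of_equiv _ (MulAction.orbitEquivQuotientStabilizer H w)
    have hStf : (MulAction.stabilizer H w).FiniteIndex := Subgroup.finiteIndex_of_finite_quotient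
    let H' : Subgroup (k' ≃ₐ[k] k') := (MulAction.stabilizer H w).map H.subtype
    have hH' : H'.FiniteIndex := by
      refine ⟨?_⟩
      rw [Subgroup.index_map_subtype]
      exact mul_ne_zero hStf.index_ne_zero (Subgroup.FiniteIndex.index_ne_zero)
    refine exists_pl_of_finiteIndex φ hφ hfix w H' ?_
    rintro _ ⟨σ, hσ, rfl⟩
    exact hσ
  refine ⟨D.comapDomain (pl k' E') (pl_injective.injOn), ?_⟩
  ext w
  by_cases hw : ∃ c : Place k E, w = pl k' E' c
  · obtain ⟨c, rfl⟩ := hw
    rw [con_pl, Finsupp.comapDomain_apply]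
  · have h0 : D w = 0 := by
      by_contra h
      exact hw (key w h)
    rw [h0]
    rcases generic_or_eq_pl (k := k) (E := E) w with h | h
    · exact con_generic _ h
    · exact absurd h hw

/-- **Descent of division points.** -/
theorem exists_nsmul_eq_of_ext {n : ℕ} (hfin : {y : Pic0 k' E' | n • y = 0}.Finite)
    (hdiv : ∀ z : Pic0 k' E', ∃ y, n • y = z) (z : Pic0 k E) : ∃ y : Pic0 k E, n • y = z := by
  classical
  obtain ⟨⟨Dz, hDz⟩, rfl⟩ := Pic0.mk_surjective z
  have hDz0 : Divisor.degree Dz = 0 := Divisor.mem_degZero.mp hDz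
  have hDz' : Divisor.degree (con k' E' Dz) = 0 := by rw [degree_con, hDz0]
  obtain ⟨y, hy⟩ := hdiv (Pic0.mk ⟨con k' E' Dz, Divisor.mem_degZero.mpr hDz'⟩)
  obtain ⟨⟨Dy, hDy⟩, rfl⟩ := Pic0.mk_surjective y
  have hDy0 : Divisor.degree Dy = 0 := Divisor.mem_degZero.mp hDy
  have hlin : LinEq (n • Dy) (con k' E' Dz) := by
    rw [nsmul_mk, mk_eq_mk_iff] at hy
    exact hy
  obtain ⟨c₀⟩ := exists_place k E
  obtain ⟨g, hg⟩ := exists_ell_eq_one (pl k' E' c₀)
  obtain ⟨m, -, hm⟩ := hg Dy hDy0
  obtain ⟨A, hA0, hA⟩ := exists_effective (D := Dy + m • (Finsupp.single (pl k' E' c₀) 1)) (by omega)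
  -- the stabiliser
  letI act : MulAction (k' ≃ₐ[k] k') (Pic0 k' E') := MulAction.compHom _ φ
  set Y : Pic0 k' E' := Pic0.mk ⟨Dy, hDy⟩ with hY
  let H : Subgroup (k' ≃ₐ[k] k') := MulAction.stabilizer (k' ≃ₐ[k] k') Y
  have hconfix : ∀ (σ : k' ≃ₐ[k] k') (D : Divisor k E), φ σ • con k' E' D = con k' E' D := by
    intro σ D
    induction D using Finsupp.induction with
    | zero => rw [map_zero, smul_zero]
    | single_add c a D _ _ ih =>
      rw [map_add, smul_add, ih, con_single, SemilinearAut.smul_single, smul_pl φ hφ hfix]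
  have hsm : ∀ σ : k' ≃ₐ[k] k', n • (φ σ • Y - Y) = 0 := by
    intro σ
    have h1 : n • (φ σ • Y) = φ σ • (n • Y) :=
      (map_nsmul (DistribSMul.toAddMonoidHom (Pic0 k' E') (φ σ)) n Y).symm
    rw [nsmul_sub, h1, hy, SemilinearAut.pic0_smul_mk, sub_eq_zero]
    congr 1
    apply Subtype.ext
    rw [SemilinearAut.coe_degZeroSMulHom]
    exact hconfix σ Dz
  have hH : H.FiniteIndex := by
    have hfin' : Finite (MulAction.orbit (k' ≃ₐ[k] k') Y) := by
      refine Set.Finite.to_subtype (Set.Finite.subset (hfin.image (fun t => t + Y)) ?_)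
      rintro _ ⟨σ, rfl⟩
      exact ⟨φ σ • Y - Y, hsm σ, sub_add_cancel _ _⟩
    have : Finite ((k' ≃ₐ[k] k') ⧸ H) :=
      Finite.of_equiv _ (MulAction.orbitEquivQuotientStabilizer (k' ≃ₐ[k] k') Y)
    exact Subgroup.finiteIndex_of_finite_quotient
  have hfixA : ∀ σ ∈ H, φ σ • A = A := by
    intro σ hσ
    have h1 : φ σ • Y = Y := hσ
    rw [hY, SemilinearAut.pic0_smul_mk, mk_eq_mk_iff, SemilinearAut.coe_degZeroSMulHom] at h1
    refine eq_of_linEq_of_ell_le_one (smul_nonneg' _ hA0) hA0 ?_ ?_
    · refine (LinEq_smul (φ σ) hA).trans (LinEq.trans ?_ hA.symm)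
      rw [smul_add]
      refine h1.add ?_
      have h2 : φ σ • (m • (Finsupp.single (pl k' E' c₀) 1 : Divisor k' E')) =
          m • (Finsupp.single (pl k' E' c₀) 1 : Divisor k' E') := by
        have h3 := map_nsmul (DistribSMul.toAddMonoidHom (Divisor k' E') (φ σ)) m
          (Finsupp.single (pl k' E' c₀) 1)
        rw [DistribSMul.toAddMonoidHom_apply, DistribSMul.toAddMonoidHom_apply,
          SemilinearAut.smul_single, smul_pl φ hφ hfix] at h3
        exact h3
      rw [h2]
      exact LinEq.refl _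
    · rw [hA.ell_eq, hm]
  obtain ⟨A₀, hA₀⟩ := exists_con_of_finiteIndex φ hφ hfix A H hfixA
  have hDyA : LinEq Dy (con k' E' (A₀ - m • (Finsupp.single c₀ 1 : Divisor k E))) := by
    rw [map_sub, map_nsmul, con_single, hA₀]
    have := (hA.sub (LinEq.refl (m • (Finsupp.single (pl k' E' c₀) 1 : Divisor k' E')))).symm
    simpa using this
  have hdeg : Divisor.degree (A₀ - m • (Finsupp.single c₀ 1 : Divisor k E)) = 0 := by
    rw [← degree_con (k' := k') (E' := E'), ← hDyA.degree_eq, hDy0]
  refine ⟨Pic0.mk ⟨A₀ - m • (Finsupp.single c₀ 1 : Divisor k E), Divisor.mem_degZero.mpr hdeg⟩, ?_⟩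
  rw [nsmul_mk, mk_eq_mk_iff]
  apply linEq_of_con (k' := k') (E' := E')
  have h3 : LinEq (con k' E' (n • (A₀ - m • (Finsupp.single c₀ 1 : Divisor k E)))) (n • Dy) := by
    rw [map_nsmul]
    clear hlin hy hsm hdiv hfin hfixA hH
    induction n with
    | zero => simpa using LinEq.refl _
    | succ n ih => rw [succ_nsmul, succ_nsmul]; exact ih.add hDyA.symm
  exact h3.trans hlin

end Fix

end Fermat.Agent.H17
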