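/-
H27Val: values of functions at places (`K` algebraically closed, `F/K` a function field).
-/
import Mathlib
import Fermat.Agent.H3RR_FF

set_option autoImplicit false

open AlgebraicCurve WithZero Polynomial

namespace Fermat.Agent.H27

open Fermat.Agent.H3RR

section EE

variable {K : Type*} [Field K]

/-- Evaluation of a bivariate polynomial at `(x, y)`. -/
noncomputable def ee {S : Type*} [CommRing S] [Algebra K S] (x y : S) : K[X][X] →+* S :=
  Polynomial.eval₂RingHom (Polynomial.aeval x : K[X] →ₐ[K] S).toRingHom y

theorem ee_apply {S : Type*} [CommRing S] [Algebra K S] (x y : S) (a : K[X][X]) :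
    ee (K := K) x y a = Polynomial.eval₂ (Polynomial.aeval x : K[X] →ₐ[K] S).toRingHom y a := rfl

@[simp] theorem ee_C {S : Type*} [CommRing S] [Algebra K S] (x y : S) (p : K[X]) :
    ee x y (C p) = aeval x p := by
  rw [ee_apply, eval₂_C]; rfl

@[simp] theorem ee_X {S : Type*} [CommRing S] [Algebra K S] (x y : S) :
    ee (K := K) x y X = y := by
  rw [ee_apply, eval₂_X]

theorem ee_map {S T : Type*} [CommRing S] [Algebra K S] [CommRing T] [Algebra K T]
    (φ : S →ₐ[K] T) (x y : S) (a : K[X][X]) : φ (ee x y a) = ee (φ x) (φ y) a := by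
  have : (φ : S →+* T).comp (ee (K := K) x y) = ee (φ x) (φ y) := by
    apply Polynomial.ringHom_ext
    · intro p
      simp only [RingHom.comp_apply, ee_C, RingHom.coe_coe]
      exact (Polynomial.aeval_algHom_apply φ x p).symm
    · simp
  exact DFunLike.congr_fun this a

end EE

variable {K F : Type*} [Field K] [Field F] [Algebra K F] [IsAlgClosed K] [IsFF K F]

/-- The value of `f` at `v` (junk value `0` if `f` has a pole at `v`). -/
noncomputable def val (v : Place K F) (f : F) : K :=
  open Classical in
  if h : v.adicValuation f ≤ 1 then (exists_const_sub_lt_one v h).choose else 0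

theorem sub_val_lt_one (v : Place K F) {f : F} (hf : v.adicValuation f ≤ 1) :
    v.adicValuation (f - algebraMap K F (val v f)) < 1 := by
  unfold val
  rw [dif_pos hf]
  exact (exists_const_sub_lt_one v hf).choose_spec

theorem eq_of_sub_lt_one (v : Place K F) {f : F} {c d : K}
    (hc : v.adicValuation (f - algebraMap K F c) < 1)
    (hd : v.adicValuation (f - algebraMap K F d) < 1) : c = d := by
  by_contra hne
  have h1 : v.adicValuation (algebraMap K F (d - c)) < 1 := by
    have : algebraMap K F (d - c) = (f - algebraMap K F c) - (f - algebraMap K F d) := by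
      rw [map_sub]; ring
    rw [this]
    exact (Valuation.map_sub _ _ _).trans_lt (max_lt hc hd)
  rw [adicValuation_algebraMap v (sub_ne_zero.2 (Ne.symm hne))] at h1
  exact lt_irrefl _ h1

theorem le_one_of_sub_lt_one (v : Place K F) {f : F} {c : K}
    (hc : v.adicValuation (f - algebraMap K F c) < 1) : v.adicValuation f ≤ 1 := by
  have : f = (f - algebraMap K F c) + algebraMap K F c := by ring
  rw [this]
  exact (Valuation.map_add _ _ _).trans (max_le hc.le (v.adicValuation_algebraMap_le_one c))

theorem val_eq_of_lt (v : Place K F) {f : F} {c : K}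
    (hc : v.adicValuation (f - algebraMap K F c) < 1) : val v f = c :=
  eq_of_sub_lt_one v (sub_val_lt_one v (le_one_of_sub_lt_one v hc)) hc

@[simp] theorem val_algebraMap (v : Place K F) (c : K) : val v (algebraMap K F c) = c :=
  val_eq_of_lt v (by rw [sub_self, map_zero]; exact zero_lt_one)

@[simp] theorem val_zero (v : Place K F) : val v (0 : F) = 0 := by
  have := val_algebraMap v (0 : K)
  rwa [map_zero] at this

@[simp] theorem val_one (v : Place K F) : val v (1 : F) = 1 := by
  have := val_algebraMap v (1 : K)
  rwa [map_one] at this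

theorem val_add (v : Place K F) {f g : F} (hf : v.adicValuation f ≤ 1)
    (hg : v.adicValuation g ≤ 1) : val v (f + g) = val v f + val v g := by
  apply val_eq_of_lt
  rw [map_add, add_sub_add_comm]
  exact (Valuation.map_add _ _ _).trans_lt (max_lt (sub_val_lt_one v hf) (sub_val_lt_one v hg))

theorem val_neg (v : Place K F) {f : F} (hf : v.adicValuation f ≤ 1) :
    val v (-f) = - val v f := by
  apply val_eq_of_lt
  rw [map_neg, ← neg_sub', Valuation.map_neg]
  exact sub_val_lt_one v hf

theorem val_sub (v : Place K F) {f g : F} (hf : v.adicValuation f ≤ 1)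
    (hg : v.adicValuation g ≤ 1) : val v (f - g) = val v f - val v g := by
  rw [sub_eq_add_neg, val_add v hf (by rwa [Valuation.map_neg]), val_neg v hg, sub_eq_add_neg]

theorem le_one_add (v : Place K F) {f g : F} (hf : v.adicValuation f ≤ 1)
    (hg : v.adicValuation g ≤ 1) : v.adicValuation (f + g) ≤ 1 :=
  (Valuation.map_add _ _ _).trans (max_le hf hg)

theorem le_one_mul (v : Place K F) {f g : F} (hf : v.adicValuation f ≤ 1)
    (hg : v.adicValuation g ≤ 1) : v.adicValuation (f * g) ≤ 1 := by
  rw [map_mul]; exact mul_le_one' hf hg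

theorem val_mul (v : Place K F) {f g : F} (hf : v.adicValuation f ≤ 1)
    (hg : v.adicValuation g ≤ 1) : val v (f * g) = val v f * val v g := by
  apply val_eq_of_lt
  have e : f * g - algebraMap K F (val v f * val v g) =
      (f - algebraMap K F (val v f)) * g + algebraMap K F (val v f) *
        (g - algebraMap K F (val v g)) := by
    rw [map_mul]; ring
  rw [e]
  refine (Valuation.map_add _ _ _).trans_lt (max_lt ?_ ?_)
  · rw [map_mul]
    exact (mul_le_mul' le_rfl hg).trans_lt (by rw [mul_one]; exact sub_val_lt_one v hf)
  · rw [map_mul]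
    exact (mul_le_mul' (v.adicValuation_algebraMap_le_one _) le_rfl).trans_lt
      (by rw [one_mul]; exact sub_val_lt_one v hg)

theorem val_smul (v : Place K F) {f : F} (c : K) (hf : v.adicValuation f ≤ 1) :
    val v (c • f) = c * val v f := by
  rw [Algebra.smul_def, val_mul v (v.adicValuation_algebraMap_le_one c) hf, val_algebraMap]

theorem le_one_smul (v : Place K F) {f : F} (c : K) (hf : v.adicValuation f ≤ 1) :
    v.adicValuation (c • f) ≤ 1 := by
  rw [Algebra.smul_def]; exact le_one_mul v (v.adicValuation_algebraMap_le_one c) hf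

/-- For a regular function, the value vanishes iff the function is in the maximal ideal. -/
theorem val_eq_zero_iff (v : Place K F) {f : F} (hf : v.adicValuation f ≤ 1) :
    val v f = 0 ↔ v.adicValuation f < 1 := by
  constructor
  · intro h
    have := sub_val_lt_one v hf
    rwa [h, map_zero, sub_zero] at this
  · intro h
    apply val_eq_of_lt
    rwa [map_zero, sub_zero]

theorem val_ne_zero_iff (v : Place K F) {f : F} (hf : v.adicValuation f ≤ 1) :
    val v f ≠ 0 ↔ v.adicValuation f = 1 := by
  rw [Ne, val_eq_zero_iff v hf, not_lt]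
  exact ⟨fun h => le_antisymm hf h, fun h => h.ge⟩

theorem val_inv (v : Place K F) {f : F} (hf : v.adicValuation f = 1) :
    val v f⁻¹ = (val v f)⁻¹ := by
  have h0 : f ≠ 0 := by
    rintro rfl; rw [map_zero] at hf; exact zero_ne_one hf
  have hi : v.adicValuation f⁻¹ ≤ 1 := by rw [map_inv₀, hf, inv_one]
  have h1 : val v (f * f⁻¹) = 1 := by rw [mul_inv_cancel₀ h0, val_one]
  rw [val_mul v hf.le hi] at h1
  exact (inv_eq_of_mul_eq_one_right h1).symm

theorem val_pow (v : Place K F) {f : F} (hf : v.adicValuation f ≤ 1) (n : ℕ) :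
    val v (f ^ n) = val v f ^ n := by
  induction n with
  | zero => simp
  | succ n ih =>
    rw [pow_succ, val_mul v (by rw [map_pow]; exact pow_le_one' hf n) hf, ih, pow_succ]

theorem le_one_sum {ι : Type*} (s : Finset ι) (v : Place K F) (f : ι → F)
    (hf : ∀ i ∈ s, v.adicValuation (f i) ≤ 1) : v.adicValuation (∑ i ∈ s, f i) ≤ 1 := by
  classical
  induction s using Finset.induction_on with
  | empty => simp
  | insert a s ha ih =>
    rw [Finset.sum_insert ha]
    exact le_one_add v (hf a (Finset.mem_insert_self a s))
      (ih fun i hi => hf i (Finset.mem_insert_of_mem hi))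

theorem val_sum {ι : Type*} (s : Finset ι) (v : Place K F) (f : ι → F)
    (hf : ∀ i ∈ s, v.adicValuation (f i) ≤ 1) :
    val v (∑ i ∈ s, f i) = ∑ i ∈ s, val v (f i) := by
  classical
  induction s using Finset.induction_on with
  | empty => simp
  | insert a s ha ih =>
    rw [Finset.sum_insert ha, Finset.sum_insert ha, val_add v (hf a (Finset.mem_insert_self a s))
      (le_one_sum s v f fun i hi => hf i (Finset.mem_insert_of_mem hi)),
      ih fun i hi => hf i (Finset.mem_insert_of_mem hi)]

/-- Ring of regular functions at `v`, as a subalgebra, and evaluation as an algebra hom. -/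
noncomputable def valHom (v : Place K F) : v.toValuationSubring →ₐ[K] K where
  toFun f := val v (f : F)
  map_one' := val_one v
  map_mul' f g := val_mul v (v.adicValuation_le_one_of_mem f.2) (v.adicValuation_le_one_of_mem g.2)
  map_zero' := val_zero v
  map_add' f g := val_add v (v.adicValuation_le_one_of_mem f.2) (v.adicValuation_le_one_of_mem g.2)
  commutes' c := val_algebraMap v c

theorem valHom_apply (v : Place K F) (f : v.toValuationSubring) : valHom v f = val v (f : F) := rfl

theorem ee_mem (v : Place K F) {x y : F} (hx : v.adicValuation x ≤ 1)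
    (hy : v.adicValuation y ≤ 1) (a : K[X][X]) : v.adicValuation (ee x y a) ≤ 1 := by
  have hx' := mem_of_adicValuation_le_one v hx
  have hy' := mem_of_adicValuation_le_one v hy
  have h := ee_map (IsScalarTower.toAlgHom K v.toValuationSubring F)
    (⟨x, hx'⟩ : v.toValuationSubring) ⟨y, hy'⟩ a
  have h2 : ee x y a = ((ee (⟨x, hx'⟩ : v.toValuationSubring) ⟨y, hy'⟩ a :
      v.toValuationSubring) : F) := h.symm
  rw [h2]
  exact v.adicValuation_le_one_of_mem (SetLike.coe_mem _)

theorem val_ee (v : Place K F) {x y : F} (hx : v.adicValuation x ≤ 1)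
    (hy : v.adicValuation y ≤ 1) (a : K[X][X]) :
    val v (ee x y a) = ee (val v x) (val v y) a := by
  have hx' := mem_of_adicValuation_le_one v hx
  have hy' := mem_of_adicValuation_le_one v hy
  have h := ee_map (IsScalarTower.toAlgHom K v.toValuationSubring F)
    (⟨x, hx'⟩ : v.toValuationSubring) ⟨y, hy'⟩ a
  have h2 : ee x y a = ((ee (⟨x, hx'⟩ : v.toValuationSubring) ⟨y, hy'⟩ a :
      v.toValuationSubring) : F) := h.symm
  rw [h2, ← valHom_apply, ee_map (valHom v)]
  rfl

end Fermat.Agent.H27
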