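/-
H27DiscDef: analytic discs in the space of places of a function field over `ℂ` (interface).
-/
import Mathlib
import Fermat.Agent.H27Val

set_option autoImplicit false

open AlgebraicCurve WithZero Polynomial Topology Filter

namespace Fermat.Agent.H27

open Fermat.Agent.H3RR

variable {F : Type*} [Field F] [Algebra ℂ F] [IsFF ℂ F]

/-- An analytic disc in the space of places, centred at `P`. -/
structure AnDisc (P : Place ℂ F) where
  /-- the parametrisation -/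
  σ : ℂ → Place ℂ F
  /-- the radius -/
  r : ℝ
  r_pos : 0 < r
  σ_zero : σ 0 = P
  /-- the coordinate function -/
  t : F
  t_mem : ∀ z : ℂ, ‖z‖ < r → (σ z).adicValuation t ≤ 1
  val_t : ∀ z : ℂ, ‖z‖ < r → val (σ z) t = z
  ord_t : ∀ z : ℂ, ‖z‖ < r → (σ z).ord (t - algebraMap ℂ F z) = 1
  /-- functions regular at `σ z₀` are regular and analytic nearby -/
  regular : ∀ z₀ : ℂ, ‖z₀‖ < r → ∀ f : F, (σ z₀).adicValuation f ≤ 1 →
    (∀ᶠ z in 𝓝 z₀, (σ z).adicValuation f ≤ 1) ∧ AnalyticAt ℂ (fun z => val (σ z) f) z₀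
  /-- the disc is a neighbourhood of `P` -/
  nhds : ∀ ε : ℝ, 0 < ε → ∃ (S : Finset F) (δ : ℝ), 0 < δ ∧
    (∀ s ∈ S, P.adicValuation s ≤ 1) ∧
    ∀ Q : Place ℂ F, (∀ s ∈ S, Q.adicValuation s ≤ 1 ∧ ‖val Q s - val P s‖ < δ) →
      ∃ z : ℂ, ‖z‖ < ε ∧ ‖z‖ < r ∧ σ z = Q

namespace AnDisc

variable {P : Place ℂ F} (D : AnDisc P)

theorem σ_inj {z w : ℂ} (hz : ‖z‖ < D.r) (hw : ‖w‖ < D.r) (h : D.σ z = D.σ w) : z = w := by
  rw [← D.val_t z hz, ← D.val_t w hw, h]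

end AnDisc

end Fermat.Agent.H27
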