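/-
H27Implicit: the analytic implicit function for a bivariate complex polynomial.
-/
import Mathlib
import Fermat.Agent.H27Val

set_option autoImplicit false

open Polynomial Topology Filter

namespace Fermat.Agent.H27

theorem contDiff_ee (H : ℂ[X][X]) : ContDiff ℂ ⊤ (fun p : ℂ × ℂ => ee p.1 p.2 H) := by
  induction H using Polynomial.induction_on' with
  | add p q hp hq =>
    simp only [map_add]
    exact hp.add hq
  | monomial n a =>
    have : (fun p : ℂ × ℂ => ee p.1 p.2 (monomial n a)) =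
        fun p : ℂ × ℂ => a.eval p.1 * p.2 ^ n := by
      funext p
      rw [← C_mul_X_pow_eq_monomial, map_mul, map_pow, ee_C, ee_X]
      rfl
    rw [this]
    refine ContDiff.mul ?_ ?_
    · have h1 : ContDiff ℂ ⊤ (fun z : ℂ => a.eval z) := Polynomial.contDiff_aeval a ⊤
      exact h1.comp contDiff_fst
    · exact contDiff_snd.pow n

theorem hasDerivAt_ee (H : ℂ[X][X]) (z w : ℂ) :
    HasDerivAt (fun w => ee z w H) (ee z w (derivative H)) w := by
  have h1 : ∀ (G : ℂ[X][X]) (w : ℂ), ee z w G =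
      eval w (G.map (aeval z : ℂ[X] →ₐ[ℂ] ℂ).toRingHom) := by
    intro G w
    rw [ee_apply, Polynomial.eval₂_eq_eval_map]
  simp only [h1]
  rw [← Polynomial.derivative_map]
  exact Polynomial.hasDerivAt _ _

theorem exists_implicit (H : ℂ[X][X]) (u₀ : ℂ) (h0 : ee 0 u₀ H = 0)
    (h1 : ee 0 u₀ (derivative H) ≠ 0) :
    ∃ η : ℂ → ℂ, AnalyticAt ℂ η 0 ∧ η 0 = u₀ ∧
      ∀ᶠ p : ℂ × ℂ in 𝓝 (0, u₀), (ee p.1 p.2 H = 0 ↔ η p.1 = p.2) := by
  set f : ℂ × ℂ → ℂ × ℂ := fun p => (p.1, ee p.1 p.2 H) with hf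
  have hfc : ContDiff ℂ ⊤ f := contDiff_fst.prodMk (contDiff_ee H)
  have hfa : ContDiffAt ℂ ⊤ f (0, u₀) := hfc.contDiffAt
  set g : ℂ × ℂ → ℂ := fun p => ee p.1 p.2 H with hg
  have hgd : DifferentiableAt ℂ g (0, u₀) :=
    ((contDiff_ee H).differentiable (by simp)).differentiableAt
  set g' := fderiv ℂ g (0, u₀) with hg'
  have hgh : HasFDerivAt g g' (0, u₀) := hgd.hasFDerivAt
  set c := ee 0 u₀ (derivative H) with hc
  have hgc : ∀ y : ℂ, g' (0, y) = c * y := by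
    intro y
    have h2 : HasDerivAt (fun w => ((0 : ℂ), w)) ((0 : ℂ), (1 : ℂ)) u₀ :=
      (hasDerivAt_const u₀ (0:ℂ)).prodMk (hasDerivAt_id u₀)
    have h3 : HasDerivAt (fun w => g (0, w)) (g' (0, 1)) u₀ :=
      HasFDerivAt.comp_hasDerivAt (x := u₀) (l := g) (l' := g') (f := fun w => ((0 : ℂ), w))
        (f' := ((0 : ℂ), (1 : ℂ))) hgh h2
    have h4 : g' (0, 1) = c := h3.unique (hasDerivAt_ee H 0 u₀)
    have h5 : ((0 : ℂ), y) = y • ((0 : ℂ), (1 : ℂ)) := by simp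
    rw [h5, map_smul, h4, smul_eq_mul, mul_comm]
  set cu : ℂ ≃L[ℂ] ℂ := ContinuousLinearEquiv.smulLeft (Units.mk0 c h1) with hcu
  set e : (ℂ × ℂ) ≃L[ℂ] (ℂ × ℂ) :=
    ContinuousLinearEquiv.skewProd (ContinuousLinearEquiv.refl ℂ ℂ) cu
      (g'.comp (ContinuousLinearMap.inl ℂ ℂ ℂ)) with he
  have hef : HasFDerivAt f (e : ℂ × ℂ →L[ℂ] ℂ × ℂ) (0, u₀) := by
    have h2 : HasFDerivAt f ((ContinuousLinearMap.fst ℂ ℂ ℂ).prod g') (0, u₀) :=
      hasFDerivAt_fst.prodMk hgh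
    convert h2 using 1
    ext
    · simp [he]
    · simp [he]
    · simp [he]
    · simp [he, hcu, hgc]
  have htop : (⊤ : WithTop ℕ∞) ≠ 0 := by simp
  set L := hfa.localInverse hef htop with hL
  have hLc : ContDiffAt ℂ ⊤ L (f (0, u₀)) := hfa.to_localInverse hef htop
  have hf0 : f (0, u₀) = (0, 0) := by simp [hf, h0]
  have hL0 : L (0, 0) = (0, u₀) := by
    rw [← hf0]; exact hfa.localInverse_apply_image hef htop
  have hstrict := hfa.hasStrictFDerivAt' hef htop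
  have hleft : ∀ᶠ p in 𝓝 ((0 : ℂ), u₀), L (f p) = p := hstrict.eventually_left_inverse
  have hright : ∀ᶠ q in 𝓝 (f (0, u₀)), f (L q) = q := hstrict.eventually_right_inverse
  rw [hf0] at hright hLc
  have hcur : ContDiffAt ℂ ⊤ (fun z : ℂ => (z, (0 : ℂ))) 0 :=
    contDiffAt_id.prodMk contDiffAt_const
  refine ⟨fun z => (L (z, 0)).2, ?_, ?_, ?_⟩
  · have : ContDiffAt ℂ ⊤ (fun z : ℂ => (L (z, 0)).2) 0 := by
      have h2 : ContDiffAt ℂ ⊤ (L ∘ (fun z : ℂ => (z, (0 : ℂ)))) 0 :=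
        ContDiffAt.comp (x := (0 : ℂ)) (g := L) (f := fun z : ℂ => (z, (0 : ℂ))) hLc hcur
      exact contDiffAt_snd.comp (0 : ℂ) h2
    rw [← contDiffWithinAt_univ] at this
    exact analyticWithinAt_univ.1 (contDiffWithinAt_omega_iff_analyticWithinAt.1 this)
  · simp [hL0]
  · have ht : Tendsto (fun p : ℂ × ℂ => (p.1, (0 : ℂ))) (𝓝 (0, u₀)) (𝓝 (0, 0)) := by
      have : Continuous (fun p : ℂ × ℂ => (p.1, (0 : ℂ))) := by fun_prop
      have h2 := this.tendsto (0, u₀)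
      exact h2
    filter_upwards [hleft, ht.eventually hright] with p hp1 hp2
    constructor
    · intro hp
      have h2 : f p = (p.1, 0) := by
        have : f p = (p.1, ee p.1 p.2 H) := rfl
        rw [this, hp]
      rw [h2] at hp1
      rw [hp1]
    · intro hp
      have hp3 : f (L (p.1, 0)) = (p.1, 0) := hp2
      have h2 : (L (p.1, 0)).1 = p.1 := by
        have h4 : (f (L (p.1, 0))).1 = p.1 := by rw [hp3]
        exact h4
      have h3 : ee (L (p.1, 0)).1 (L (p.1, 0)).2 H = 0 := by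
        have h4 : (f (L (p.1, 0))).2 = 0 := by rw [hp3]
        exact h4
      rw [h2, hp] at h3
      exact h3

end Fermat.Agent.H27
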