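/-
H27Newton: formal (Hensel) approximation of roots of bivariate polynomials, in a local-type ring with
uniformiser `τ`; comparison of vanishing orders in two such rings.
-/
import Mathlib
import Fermat.Agent.H27Val

set_option autoImplicit false

open AlgebraicCurve WithZero Polynomial Topology Filter

namespace Fermat.Agent.H27

section Abstract

variable {K : Type*} [Field K]

/-- Formal approximations of the root of `H` with constant term `u0`. -/
noncomputable def approx (H : K[X][X]) (u0 : K) : ℕ → K[X]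
  | 0 => C u0
  | (M + 1) => approx H u0 M -
      C ((eval (approx H u0 M) H).coeff (M + 1) / ee (0 : K) u0 (derivative H)) * X ^ (M + 1)

theorem approx_eval_zero (H : K[X][X]) (u0 : K) (M : ℕ) : (approx H u0 M).eval 0 = u0 := by
  induction M with
  | zero => simp [approx]
  | succ M ih => simp [approx, ih]

variable {S : Type*} [CommRing S] [Algebra K S]

/-- `τ` is a uniformiser with residue map `ev`. -/
structure IsUnif (τ : S) (ev : S →ₐ[K] K) : Prop where
  ker : ∀ s, ev s = 0 → ∃ s', s = τ * s'
  ev_τ : ev τ = 0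
  reg : ∀ s, τ * s = 0 → s = 0

namespace IsUnif

variable {τ : S} {ev : S →ₐ[K] K} (h : IsUnif τ ev)
include h

theorem reg_pow (n : ℕ) (s : S) (hs : τ ^ n * s = 0) : s = 0 := by
  induction n with
  | zero => simpa using hs
  | succ n ih =>
    apply ih
    apply h.reg
    rw [← mul_assoc, ← pow_succ']
    exact hs

theorem ev_aeval (p : K[X]) : ev (aeval τ p) = p.eval 0 := by
  rw [← Polynomial.aeval_algHom_apply, h.ev_τ]
  simp [Polynomial.aeval_def, Polynomial.eval₂_eq_eval_map]

theorem X_pow_dvd_of_dvd (p : K[X]) (M : ℕ) (hd : τ ^ M ∣ aeval τ p) : X ^ M ∣ p := by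
  induction M generalizing p with
  | zero => simp
  | succ M ih =>
    obtain ⟨s, hs⟩ := hd
    have h0 : p.eval 0 = 0 := by
      rw [← h.ev_aeval, hs, map_mul, map_pow, h.ev_τ]
      simp
    have hX : X ∣ p := by
      rw [Polynomial.X_dvd_iff, Polynomial.coeff_zero_eq_eval_zero, h0]
    obtain ⟨p1, rfl⟩ := hX
    have h1 : aeval τ p1 = τ ^ M * s := by
      have : τ * (aeval τ p1 - τ ^ M * s) = 0 := by
        rw [map_mul, aeval_X] at hs
        rw [mul_sub, hs, pow_succ']
        ring
      exact sub_eq_zero.1 (h.reg _ this)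
    obtain ⟨q, hq⟩ := ih p1 ⟨s, h1⟩
    exact ⟨q, by rw [hq, pow_succ']; ring⟩

theorem X_pow_dvd_iff (p : K[X]) (M : ℕ) : X ^ M ∣ p ↔ τ ^ M ∣ aeval τ p := by
  constructor
  · rintro ⟨q, rfl⟩
    rw [map_mul, map_pow, aeval_X]
    exact Dvd.intro _ rfl
  · exact h.X_pow_dvd_of_dvd p M

theorem ev_ee (x : S) (a : K[X][X]) : ev (ee τ x a) = ee 0 (ev x) a := by
  rw [ee_map, h.ev_τ]

theorem approx_spec {H : K[X][X]} {x : S} (hx : ee τ x H = 0)
    (hc : ee (0 : K) (ev x) (derivative H) ≠ 0) (M : ℕ) :
    τ ^ (M + 1) ∣ x - aeval τ (approx H (ev x) M) := by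
  induction M with
  | zero =>
    obtain ⟨s, hs⟩ := h.ker (x - aeval τ (approx H (ev x) 0)) (by simp [approx])
    exact ⟨s, by rw [hs]; ring⟩
  | succ M ih =>
    obtain ⟨x', hx'⟩ := ih
    set q := approx H (ev x) M with hq
    set φ : K[X] →+* S := (aeval τ : K[X] →ₐ[K] S).toRingHom with hφ
    have hφa : ∀ p, φ p = aeval τ p := fun p => rfl
    have hxe : x = φ q + τ ^ (M + 1) * x' := by rw [hφa, ← hx']; ring
    obtain ⟨k, hk⟩ := Polynomial.binomExpansion (H.map φ) (φ q) (τ ^ (M + 1) * x')
    rw [← hxe] at hk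
    have e1 : eval x (H.map φ) = 0 := by
      rw [← hx, ee_apply, Polynomial.eval₂_eq_eval_map]
    have e2 : eval (φ q) (H.map φ) = φ (eval q H) := by
      rw [Polynomial.eval_map, Polynomial.eval₂_hom]
    have e3 : eval (φ q) (derivative (H.map φ)) = φ (eval q (derivative H)) := by
      rw [Polynomial.derivative_map, Polynomial.eval_map, Polynomial.eval₂_hom]
    rw [e1, e2, e3] at hk
    have hdvd : X ^ (M + 1) ∣ eval q H := by
      apply h.X_pow_dvd_of_dvd
      rw [← hφa]
      have : φ (eval q H) = τ ^ (M + 1) * (-(φ (eval q (derivative H)) * x') -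
          k * x' * (τ ^ (M + 1) * x')) := by
        linear_combination -hk
      rw [this]
      exact Dvd.intro _ rfl
    obtain ⟨b, hb⟩ := hdvd
    have hb0 : b.eval 0 = (eval q H).coeff (M + 1) := by
      rw [hb, ← Polynomial.coeff_zero_eq_eval_zero]
      have := Polynomial.coeff_X_pow_mul b (M + 1) 0
      rw [zero_add] at this
      exact this.symm
    have h1 : aeval τ b + φ (eval q (derivative H)) * x' + k * τ ^ (M + 1) * x' ^ 2 = 0 := by
      apply h.reg_pow (M + 1)
      have : φ (eval q H) = τ ^ (M + 1) * aeval τ b := by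
        rw [hφa, hb, map_mul, map_pow, aeval_X]
      rw [this] at hk
      linear_combination -hk
    have h2 := congrArg ev h1
    rw [map_add, map_add, map_mul, map_mul, map_mul, map_pow, h.ev_aeval, h.ev_τ, map_zero,
      hφa, h.ev_aeval] at h2
    have h3 : eval 0 (eval q (derivative H)) = ee (0 : K) (ev x) (derivative H) := by
      rw [ee_apply, ← approx_eval_zero H (ev x) M, ← hq]
      have : (aeval (0 : K) : K[X] →ₐ[K] K).toRingHom = Polynomial.evalRingHom 0 := by
        ext p <;> simp
      rw [this, show eval 0 q = Polynomial.evalRingHom 0 q from rfl, Polynomial.eval₂_hom]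
      rfl
    rw [h3, hb0] at h2
    simp only [ne_eq, Nat.succ_ne_zero, not_false_eq_true, zero_pow, mul_zero, zero_mul,
      add_zero] at h2
    have h4 : ev x' = -((eval q H).coeff (M + 1) / ee (0 : K) (ev x) (derivative H)) := by
      field_simp
      linear_combination h2
    obtain ⟨s, hs⟩ := h.ker (x' + algebraMap K S ((eval q H).coeff (M + 1) /
      ee (0 : K) (ev x) (derivative H))) (by rw [map_add, h4, AlgHom.commutes]; simp)
    refine ⟨s, ?_⟩
    have : approx H (ev x) (M + 1) = q - C ((eval q H).coeff (M + 1) /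
      ee (0 : K) (ev x) (derivative H)) * X ^ (M + 1) := by rw [hq]; rfl
    rw [this, map_sub, map_mul, aeval_C, map_pow, aeval_X, pow_succ τ (M + 1), mul_assoc, ← hs]
    rw [hxe, hφa]
    ring

/-- The order of vanishing of `a(τ, x)` only depends on formal data. -/
theorem dvd_iff {H : K[X][X]} {x : S} (hx : ee τ x H = 0)
    (hc : ee (0 : K) (ev x) (derivative H) ≠ 0) (a : K[X][X]) (M : ℕ) :
    τ ^ M ∣ ee τ x a ↔ X ^ M ∣ eval (approx H (ev x) M) a := by
  rw [h.X_pow_dvd_iff]
  set φ : K[X] →+* S := (aeval τ : K[X] →ₐ[K] S).toRingHom with hφ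
  have hφa : ∀ p, φ p = aeval τ p := fun p => rfl
  have h1 : τ ^ M ∣ ee τ x a - aeval τ (eval (approx H (ev x) M) a) := by
    have e2 : eval (φ (approx H (ev x) M)) (a.map φ) = aeval τ (eval (approx H (ev x) M) a) := by
      rw [Polynomial.eval_map, Polynomial.eval₂_hom, hφa]
    have e1 : ee τ x a = eval x (a.map φ) := by
      rw [ee_apply, Polynomial.eval₂_eq_eval_map]
    rw [← e2, e1]
    refine dvd_trans ?_ (Polynomial.sub_dvd_eval_sub _ _ _)
    refine dvd_trans (pow_dvd_pow τ (Nat.le_succ M)) ?_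
    exact h.approx_spec hx hc M
  constructor
  · intro h2
    have := dvd_sub h2 h1
    rwa [sub_sub_cancel] at this
  · intro h2
    have := dvd_add h1 h2
    rwa [sub_add_cancel] at this

end IsUnif

end Abstract

end Fermat.Agent.H27
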