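/-
H27Simple: near every place a function field of characteristic zero is generated by a uniformiser `t` and a
function `u` satisfying an equation `H(t,u)=0` with `H_u ≠ 0` at the place.
-/
import Mathlib
import Fermat.Agent.H27Newton

set_option autoImplicit false

open AlgebraicCurve WithZero Polynomial Topology Filter

namespace Fermat.Agent.H27

open Fermat.Agent.H3RR

section Abstract

variable {K : Type*} [Field K] {S : Type*} [CommRing S] [Algebra K S]
  {τ : S} {ev : S →ₐ[K] K} (h : IsUnif τ ev)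
include h

theorem IsUnif.exists_poly (n : ℕ) (f : S) : ∃ p : K[X], τ ^ n ∣ f - aeval τ p := by
  induction n generalizing f with
  | zero => exact ⟨0, by simp⟩
  | succ n ih =>
    obtain ⟨f1, hf1⟩ := h.ker (f - algebraMap K S (ev f)) (by simp)
    obtain ⟨p, s, hs⟩ := ih f1
    refine ⟨C (ev f) + X * p, s, ?_⟩
    rw [map_add, aeval_C, map_mul, aeval_X, pow_succ']
    linear_combination hf1 + τ * hs

theorem IsUnif.sub_dvd (x y : S) (a : K[X][X]) : x - y ∣ ee τ x a - ee τ y a := by
  rw [ee_apply, ee_apply, Polynomial.eval₂_eq_eval_map, Polynomial.eval₂_eq_eval_map]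
  exact Polynomial.sub_dvd_eval_sub _ _ _

omit h in
theorem ee_aeval (τ : S) (p : K[X]) (a : K[X][X]) :
    ee τ (aeval τ p) a = aeval τ (eval p a) := by
  rw [ee_apply]
  exact Polynomial.eval₂_hom (aeval τ : K[X] →ₐ[K] S).toRingHom p

/-- Newton/Hensel trick. -/
theorem IsUnif.exists_newton (y : S) (hpoly : K[X][X]) (hy : ee τ y hpoly = 0) (k : ℕ)
    (hk : τ ^ k ∣ ee τ y (derivative hpoly)) (hk' : ¬ τ ^ (k + 1) ∣ ee τ y (derivative hpoly)) :
    ∃ (p : K[X]) (u : S) (H : K[X][X]), y = aeval τ p + τ ^ (k + 1) * u ∧ ee τ u H = 0 ∧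
      ee (0 : K) (ev u) (derivative H) ≠ 0 := by
  obtain ⟨p, u, hu⟩ := h.exists_poly (k + 1) y
  have hy' : y = aeval τ p + τ ^ (k + 1) * u := by rw [← hu]; ring
  -- expansion in K[X][X]
  obtain ⟨κ, hκ⟩ := Polynomial.binomExpansion (hpoly.map (C : K[X] →+* K[X][X])) (C p)
    (C (X ^ (k + 1)) * X)
  have e2 : eval (C p) (hpoly.map (C : K[X] →+* K[X][X])) = C (eval p hpoly) := by
    rw [Polynomial.eval_map, Polynomial.eval₂_hom]
  have e3 : eval (C p) (derivative (hpoly.map (C : K[X] →+* K[X][X]))) =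
      C (eval p (derivative hpoly)) := by
    rw [Polynomial.derivative_map, Polynomial.eval_map, Polynomial.eval₂_hom]
  rw [e2, e3] at hκ
  have e1 : ee τ u (eval (C p + C (X ^ (k + 1)) * X) (hpoly.map (C : K[X] →+* K[X][X]))) = 0 := by
    rw [Polynomial.eval_map, Polynomial.hom_eval₂]
    have c1 : (ee (K := K) τ u).comp (C : K[X] →+* K[X][X]) =
        (aeval τ : K[X] →ₐ[K] S).toRingHom := by
      ext <;> simp
    have c2 : ee (K := K) τ u (C p + C (X ^ (k + 1)) * X) = y := by
      rw [map_add, map_mul, ee_C, ee_C, ee_X, hy', map_pow, aeval_X]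
    rw [c1, c2, ← ee_apply, hy]
  rw [hκ] at e1
  simp only [map_add, map_mul, map_pow, ee_C, ee_X, aeval_X] at e1
  -- the derivative
  have hd1 : τ ^ (k + 1) ∣ ee τ y (derivative hpoly) - aeval τ (eval p (derivative hpoly)) := by
    rw [← ee_aeval]
    refine dvd_trans ?_ (h.sub_dvd _ _ _)
    exact ⟨u, hu⟩
  have hXk : X ^ k ∣ eval p (derivative hpoly) := by
    apply h.X_pow_dvd_of_dvd
    have := dvd_sub hk (dvd_trans (pow_dvd_pow τ (Nat.le_succ k)) hd1)
    rwa [sub_sub_cancel] at this
  obtain ⟨c, hc⟩ := hXk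
  have hc0 : c.eval 0 ≠ 0 := by
    intro h0
    apply hk'
    have hX : X ∣ c := by
      rw [Polynomial.X_dvd_iff, Polynomial.coeff_zero_eq_eval_zero, h0]
    have h1 : X ^ (k + 1) ∣ eval p (derivative hpoly) := by
      rw [hc, pow_succ]
      exact mul_dvd_mul_left _ hX
    have h2 := (h.X_pow_dvd_iff _ _).1 h1
    have := dvd_add hd1 h2
    rwa [sub_add_cancel] at this
  have hXa : X ^ (2 * k + 1) ∣ eval p hpoly := by
    apply h.X_pow_dvd_of_dvd
    rw [hc, map_mul, map_pow, aeval_X] at e1
    have : aeval τ (eval p hpoly) = τ ^ (2 * k + 1) * (-(aeval τ c * u) -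
        ee τ u κ * τ * u ^ 2) := by
      linear_combination e1
    rw [this]
    exact Dvd.intro _ rfl
  obtain ⟨a, ha⟩ := hXa
  refine ⟨p, u, C a + C c * X + κ * C X * X ^ 2, hy', ?_, ?_⟩
  · apply h.reg_pow (2 * k + 1)
    rw [hc, ha] at e1
    simp only [map_add, map_mul, map_pow, ee_C, ee_X, aeval_X] at e1 ⊢
    linear_combination e1
  · have : derivative (C a + C c * X + κ * C X * X ^ 2) =
        C c + C X * derivative (κ * X ^ 2) := by
      simp only [derivative_add, derivative_mul, derivative_C, derivative_X, derivative_X_pow]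
      ring
    rw [this, map_add, map_mul, ee_C, ee_C, aeval_X, zero_mul, add_zero]
    simpa [Polynomial.aeval_def, Polynomial.eval₂_eq_eval_map] using hc0

end Abstract

section Place

variable {K F : Type*} [Field K] [Field F] [Algebra K F] [IsAlgClosed K] [IsFF K F]

theorem exp_neg_one_lt_one : (exp (-1 : ℤ) : ℤᵐ⁰) < 1 := by
  rw [← exp_zero, exp_lt_exp]; omega

/-- the uniformiser as an element of the valuation ring -/
noncomputable def unifElt (P : Place K F) (t : F) (ht : P.adicValuation t = exp (-1 : ℤ)) :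
    P.toValuationSubring :=
  ⟨t, mem_of_adicValuation_le_one P (by rw [ht]; exact exp_neg_one_lt_one.le)⟩

theorem isUnif_place (P : Place K F) (t : F) (ht : P.adicValuation t = exp (-1 : ℤ)) :
    IsUnif (unifElt P t ht) (valHom P) where
  ker := by
    intro s hs
    rw [valHom_apply, val_eq_zero_iff P (P.adicValuation_le_one_of_mem s.2),
      adicValuation_lt_one_iff] at hs
    have ht0 : t ≠ 0 := by
      rintro rfl
      rw [map_zero] at ht
      exact exp_ne_zero ht.symm
    refine ⟨⟨(s : F) / t, mem_of_adicValuation_le_one P ?_⟩, ?_⟩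
    · rw [map_div₀, ht]
      refine (div_le_one₀ (by rw [← ht]; exact zero_lt_iff.2 (P.adicValuation_ne_zero ht0))).2 hs
    · apply Subtype.ext
      show (s : F) = t * ((s : F) / t)
      field_simp
  ev_τ := by
    rw [valHom_apply, val_eq_zero_iff P (P.adicValuation_le_one_of_mem (unifElt P t ht).2)]
    show P.adicValuation t < 1
    rw [ht]
    exact exp_neg_one_lt_one
  reg := by
    intro s hs
    have ht0 : unifElt P t ht ≠ 0 := by
      intro h0
      have : t = 0 := congrArg Subtype.val h0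
      rw [this, map_zero] at ht
      exact exp_ne_zero ht.symm
    exact (mul_eq_zero.1 hs).resolve_left ht0

theorem unifElt_pow_dvd_iff (P : Place K F) (t : F) (ht : P.adicValuation t = exp (-1 : ℤ))
    (M : ℕ) (f : P.toValuationSubring) :
    unifElt P t ht ^ M ∣ f ↔ P.adicValuation (f : F) ≤ exp (-(M : ℤ)) := by
  have htM : P.adicValuation (t ^ M) = exp (-(M : ℤ)) := by
    rw [map_pow, ht, ← exp_nsmul]
    simp
  have ht0 : t ≠ 0 := by
    rintro rfl
    rw [map_zero] at ht
    exact exp_ne_zero ht.symm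
  constructor
  · rintro ⟨s, rfl⟩
    show P.adicValuation (t ^ M * (s : F)) ≤ _
    rw [map_mul, htM]
    exact mul_le_of_le_one_right' (P.adicValuation_le_one_of_mem s.2)
  · intro hf
    refine ⟨⟨(f : F) / t ^ M, mem_of_adicValuation_le_one P ?_⟩, ?_⟩
    · rw [map_div₀, htM]
      have hpos : (0 : ℤᵐ⁰) < exp (-(M : ℤ)) := by
        rw [← htM]
        exact zero_lt_iff.2 (P.adicValuation_ne_zero (pow_ne_zero _ ht0))
      exact (div_le_one₀ hpos).2 hf
    · apply Subtype.ext
      show (f : F) = t ^ M * ((f : F) / t ^ M)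
      field_simp

theorem coe_ee (P : Place K F) (x y : P.toValuationSubring) (a : K[X][X]) :
    ((ee x y a : P.toValuationSubring) : F) = ee (x : F) (y : F) a :=
  ee_map (IsScalarTower.toAlgHom K P.toValuationSubring F) x y a

omit [IsAlgClosed K] [IsFF K F] in
theorem aeval_mem_intermediate (E : IntermediateField K F) {x : F} (hx : x ∈ E) (p : K[X]) :
    aeval x p ∈ E := by
  rw [Polynomial.aeval_eq_sum_range]
  exact sum_mem fun i _ => E.smul_mem (pow_mem hx i)

theorem transcendental_unif (P : Place K F) (t : F) (ht : P.adicValuation t = exp (-1 : ℤ)) :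
    Transcendental K t := by
  have ht0 : t ≠ 0 := by
    rintro rfl
    rw [map_zero] at ht
    exact exp_ne_zero ht.symm
  intro halg
  obtain ⟨c, hc⟩ := exists_const_of_isAlgebraic halg
  by_cases hc0 : c = 0
  · rw [hc0, map_zero] at hc
    exact ht0 hc.symm
  · have := adicValuation_algebraMap P hc0
    rw [hc, ht] at this
    exact absurd this (ne_of_lt exp_neg_one_lt_one)

theorem mem_range_ee (t y : F) {f : F} (hf : f ∈ Algebra.adjoin K {t, y}) :
    ∃ a : K[X][X], f = ee t y a := by
  induction hf using Algebra.adjoin_induction with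
  | mem x hx =>
    rcases hx with rfl | hx
    · exact ⟨C X, by simp⟩
    · rw [Set.mem_singleton_iff] at hx
      exact ⟨X, by simp [hx]⟩
  | algebraMap r => exact ⟨C (C r), by simp⟩
  | add x y _ _ hx hy =>
    obtain ⟨a, rfl⟩ := hx
    obtain ⟨b, rfl⟩ := hy
    exact ⟨a + b, by rw [map_add]⟩
  | mul x y _ _ hx hy =>
    obtain ⟨a, rfl⟩ := hx
    obtain ⟨b, rfl⟩ := hy
    exact ⟨a * b, by rw [map_mul]⟩

theorem exists_frac (t y : F) (hgen : IntermediateField.adjoin K {t, y} = ⊤) (f : F) :
    ∃ a b : K[X][X], ee t y b ≠ 0 ∧ f * ee t y b = ee t y a := by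
  have hf : f ∈ IntermediateField.adjoin K {t, y} := by rw [hgen]; trivial
  rw [IntermediateField.mem_adjoin_iff_div] at hf
  obtain ⟨r, hr, s, hs, rfl⟩ := hf
  obtain ⟨a, rfl⟩ := mem_range_ee t y hr
  obtain ⟨b, rfl⟩ := mem_range_ee t y hs
  by_cases hb : ee t y b = 0
  · exact ⟨0, 1, by simp, by simp [hb]⟩
  · exact ⟨a, b, hb, by field_simp⟩

open scoped IntermediateField.algebraAdjoinAdjoin in
theorem exists_nonzero_rel (t y : F) (ht : Transcendental K t) :
    ∃ h : K[X][X], h ≠ 0 ∧ ee t y h = 0 := by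
  have hfin := IsFF.finiteDimensional (K := K) (F := F) ht
  have halg : IsAlgebraic (IntermediateField.adjoin K {t}) y := Algebra.IsAlgebraic.isAlgebraic y
  have halg2 : IsAlgebraic (Algebra.adjoin K {t}) y :=
    (IsFractionRing.isAlgebraic_iff (Algebra.adjoin K {t}) (IntermediateField.adjoin K {t}) F).2 halg
  obtain ⟨p, hp0, hp⟩ := halg2
  set φ : K[X] →+* Algebra.adjoin K {t} :=
    ((aeval t : K[X] →ₐ[K] F).codRestrict (Algebra.adjoin K {t}) (fun q => by
      rw [Algebra.adjoin_singleton_eq_range_aeval]; exact ⟨q, rfl⟩)).toRingHom with hφ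
  have hφs : Function.Surjective φ := by
    rintro ⟨x, hx⟩
    rw [Algebra.adjoin_singleton_eq_range_aeval] at hx
    obtain ⟨q, hq⟩ := hx
    exact ⟨q, Subtype.ext hq⟩
  obtain ⟨h, rfl⟩ := Polynomial.map_surjective φ hφs p
  refine ⟨h, ?_, ?_⟩
  · rintro rfl
    exact hp0 (by simp)
  · rw [aeval_def, Polynomial.eval₂_map] at hp
    exact hp

theorem exists_separable_rel [CharZero K] (t y : F) (ht : Transcendental K t) :
    ∃ h : K[X][X], ee t y h = 0 ∧ ee t y (derivative h) ≠ 0 := by
  classical
  have hex : ∃ n : ℕ, ∃ h : K[X][X], h ≠ 0 ∧ ee t y h = 0 ∧ h.natDegree = n := by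
    obtain ⟨h, h1, h2⟩ := exists_nonzero_rel (K := K) t y ht
    exact ⟨_, h, h1, h2, rfl⟩
  obtain ⟨h, h0, h1, h2⟩ := Nat.find_spec hex
  refine ⟨h, h1, ?_⟩
  intro hd
  by_cases hdeg : h.natDegree = 0
  · rw [Polynomial.natDegree_eq_zero] at hdeg
    obtain ⟨p, rfl⟩ := hdeg
    rw [ee_C] at h1
    apply h0
    have : p = 0 := by
      by_contra hp
      exact ht ⟨p, hp, h1⟩
    rw [this, map_zero]
  · have hd0 : derivative h ≠ 0 := by
      intro h3
      exact hdeg (Polynomial.natDegree_eq_zero_of_derivative_eq_zero h3)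
    have hlt : (derivative h).natDegree < h.natDegree := Polynomial.natDegree_derivative_lt hdeg
    rw [h2] at hlt
    exact Nat.find_min hex hlt ⟨derivative h, hd0, hd, rfl⟩

/-- Main statement of this file. -/
theorem exists_simple [CharZero K] (P : Place K F) (t : F)
    (ht : P.adicValuation t = exp (-1 : ℤ)) :
    ∃ (u : F) (H : K[X][X]), P.adicValuation u ≤ 1 ∧ ee t u H = 0 ∧
      ee (0 : K) (val P u) (derivative H) ≠ 0 ∧
      ∀ f : F, ∃ a b : K[X][X], ee t u b ≠ 0 ∧ f * ee t u b = ee t u a := by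
  have ht0 : t ≠ 0 := by
    rintro rfl
    rw [map_zero] at ht
    exact exp_ne_zero ht.symm
  have htr := transcendental_unif P t ht
  have hfin := IsFF.finiteDimensional (K := K) (F := F) htr
  obtain ⟨y0, hy0⟩ := Field.exists_primitive_element (IntermediateField.adjoin K {t}) F
  have hgen0 : IntermediateField.adjoin K {t, y0} = ⊤ := by
    have := IntermediateField.adjoin_simple_adjoin_simple K t y0
    rw [← this, hy0]
    rfl
  -- make y regular
  obtain ⟨N, hN⟩ : ∃ N : ℕ, P.adicValuation (t ^ N * y0) ≤ 1 := by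
    by_cases hy : y0 = 0
    · exact ⟨0, by rw [hy]; simp⟩
    · refine ⟨(-P.ord y0).toNat, ?_⟩
      rw [map_mul, map_pow, ht, P.adicValuation_eq_exp_neg_ord hy, ← exp_nsmul, ← exp_add,
        ← exp_zero, exp_le_exp]
      simp only [smul_eq_mul, nsmul_eq_mul]
      have := Int.self_le_toNat (-P.ord y0)
      linarith
  set y := t ^ N * y0 with hy
  have hgen : IntermediateField.adjoin K {t, y} = ⊤ := by
    rw [eq_top_iff, ← hgen0]
    apply IntermediateField.adjoin_le_iff.2
    have m1 : t ∈ IntermediateField.adjoin K {t, y} :=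
      IntermediateField.subset_adjoin K _ (Set.mem_insert _ _)
    have m2 : y ∈ IntermediateField.adjoin K {t, y} :=
      IntermediateField.subset_adjoin K _ (Set.mem_insert_of_mem _ rfl)
    rintro x (rfl | hx)
    · exact m1
    · rw [Set.mem_singleton_iff] at hx
      have : x = y / t ^ N := by rw [hx, hy]; field_simp
      rw [this]
      exact div_mem m2 (pow_mem m1 N)
  obtain ⟨h, h1, h2⟩ := exists_separable_rel (K := K) t y htr
  -- transfer to the valuation ring
  set U := isUnif_place P t ht with hU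
  set τ := unifElt P t ht with hτ
  set yy : P.toValuationSubring := ⟨y, mem_of_adicValuation_le_one P hN⟩ with hyy
  have e1 : ee τ yy h = 0 := by
    apply Subtype.ext
    rw [coe_ee]
    exact h1
  obtain ⟨k, hk⟩ : ∃ k : ℕ, P.adicValuation (ee t y (derivative h)) = exp (-(k : ℤ)) := by
    have hle : P.adicValuation (ee t y (derivative h)) ≤ 1 := ee_mem P
      (by rw [ht]; exact exp_neg_one_lt_one.le) hN _
    rw [P.adicValuation_eq_exp_neg_ord h2] at hle ⊢
    rw [← exp_zero, exp_le_exp] at hle
    refine ⟨(P.ord (ee t y (derivative h))).toNat, ?_⟩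
    congr 1
    have := Int.toNat_of_nonneg (a := P.ord (ee t y (derivative h))) (by linarith)
    linarith
  have k1 : τ ^ k ∣ ee τ yy (derivative h) := by
    rw [unifElt_pow_dvd_iff, coe_ee]
    exact hk.le
  have k2 : ¬ τ ^ (k + 1) ∣ ee τ yy (derivative h) := by
    rw [unifElt_pow_dvd_iff, coe_ee]
    show ¬ P.adicValuation (ee t y (derivative h)) ≤ _
    rw [hk, exp_le_exp]
    push_cast
    linarith
  obtain ⟨p, u, H, hyu, hH, hc⟩ := U.exists_newton yy h e1 k k1 k2
  refine ⟨u, H, P.adicValuation_le_one_of_mem u.2, ?_, hc, ?_⟩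
  · have := congrArg (Subtype.val) hH
    rwa [coe_ee] at this
  · have hyu' : y = aeval t p + t ^ (k + 1) * (u : F) := by
      have := congrArg Subtype.val hyu
      have e : ((aeval τ p : P.toValuationSubring) : F) = aeval t p :=
        (Polynomial.aeval_algHom_apply (IsScalarTower.toAlgHom K P.toValuationSubring F) τ p).symm
      rw [← e]
      exact this
    have hgen2 : IntermediateField.adjoin K {t, (u : F)} = ⊤ := by
      rw [eq_top_iff, ← hgen]
      apply IntermediateField.adjoin_le_iff.2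
      have m1 : t ∈ IntermediateField.adjoin K {t, (u : F)} :=
        IntermediateField.subset_adjoin K _ (Set.mem_insert _ _)
      have m2 : (u : F) ∈ IntermediateField.adjoin K {t, (u : F)} :=
        IntermediateField.subset_adjoin K _ (Set.mem_insert_of_mem _ rfl)
      rintro x (rfl | hx)
      · exact m1
      · rw [Set.mem_singleton_iff] at hx
        rw [hx, hyu']
        exact add_mem (aeval_mem_intermediate _ m1 p) (mul_mem (pow_mem m1 _) m2)
    exact exists_frac t u hgen2

end Place

end Fermat.Agent.H27
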