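/-
H27Branch: construction of analytic discs around every place of a function field over `ℂ`.
-/
import Mathlib
import Fermat.Agent.H27DiscDef
import Fermat.Agent.H27Simple
import Fermat.Agent.H27Implicit

set_option autoImplicit false

open AlgebraicCurve WithZero Polynomial Topology Filter Metric

namespace Fermat.Agent.H27

open Fermat.Agent.H3RR

section Descent

variable {K : Type*} [Field K]

/-- Quotient of the division of `H` by `Y - w`. -/
noncomputable def gg (H : K[X][X]) (w : K) : K[X][X] := H /ₘ (X - C (C w))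

theorem ee_eq_eval_eval (z w : K) (a : K[X][X]) : ee z w a = eval z (eval (C w) a) := by
  rw [ee_apply]
  have h1 : (aeval z : K[X] →ₐ[K] K).toRingHom = Polynomial.evalRingHom z := by
    ext p <;> simp
  rw [h1]
  have h2 : eval z (eval (C w) a) = Polynomial.evalRingHom z (eval (C w) a) := rfl
  rw [h2, ← Polynomial.eval₂_hom]
  congr 1
  simp

theorem div_eq (a : K[X][X]) (w : K) : a = C (eval (C w) a) + (X - C (C w)) * gg a w := by
  have h := Polynomial.modByMonic_add_div a (X - C (C w))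
  rw [Polynomial.modByMonic_X_sub_C_eq_C_eval] at h
  exact h.symm

theorem ee_gg (H : K[X][X]) (z w : K) : ee z w (gg H w) = ee z w (derivative H) := by
  conv_rhs => rw [div_eq H w]
  simp [derivative_mul, ee_eq_eval_eval]

theorem descent (H a : K[X][X]) (z w : K) (hH : ee z w H = 0) (ha : ee z w a = 0) :
    ∃ a₁ q : K[X][X], a * gg H w = C (X - C z) * a₁ + H * q := by
  rw [ee_eq_eval_eval] at hH ha
  obtain ⟨h₁, hh₁⟩ := Polynomial.dvd_iff_isRoot.2 hH
  obtain ⟨a₀, ha₀⟩ := Polynomial.dvd_iff_isRoot.2 ha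
  refine ⟨C a₀ * gg H w - gg a w * C h₁, gg a w, ?_⟩
  have e1 := div_eq a w
  have e2 := div_eq H w
  rw [ha₀, C_mul] at e1
  rw [hh₁, C_mul] at e2
  linear_combination (gg H w) * e1 - (gg a w) * e2

end Descent

variable {F : Type*} [Field F] [Algebra ℂ F] [IsFF ℂ F]

/-- An analytic branch parametrising a neighbourhood of a place. -/
structure Branch (P : Place ℂ F) where
  t : F
  u : F
  H : ℂ[X][X]
  η : ℂ → ℂ
  ρ : ℝ
  ρ_pos : 0 < ρ
  t_unif : P.adicValuation t = exp (-1 : ℤ)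
  u_reg : P.adicValuation u ≤ 1
  gen : ∀ f : F, ∃ a b : ℂ[X][X], ee t u b ≠ 0 ∧ f * ee t u b = ee t u a
  rel : ee t u H = 0
  η_an : ∀ z : ℂ, ‖z‖ < ρ → AnalyticAt ℂ η z
  η_zero : η 0 = val P u
  η_rel : ∀ z : ℂ, ‖z‖ < ρ → ee z (η z) H = 0
  η_der : ∀ z : ℂ, ‖z‖ < ρ → ee z (η z) (derivative H) ≠ 0
  η_uniq : ∀ᶠ p : ℂ × ℂ in 𝓝 (0, val P u), ee p.1 p.2 H = 0 → η p.1 = p.2

theorem analyticAt_ee (a : ℂ[X][X]) {η : ℂ → ℂ} {z : ℂ} (h : AnalyticAt ℂ η z) :
    AnalyticAt ℂ (fun z => ee z (η z) a) z := by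
  have h1 : AnalyticAt ℂ (fun p : ℂ × ℂ => ee p.1 p.2 a) (z, η z) :=
    contDiff_omega_iff_analyticOnNhd.1 (contDiff_ee a) _ (Set.mem_univ _)
  have h2 : AnalyticAt ℂ (fun z => (z, η z)) z := analyticAt_id.prod h
  exact AnalyticAt.comp (g := fun p : ℂ × ℂ => ee p.1 p.2 a) (f := fun z => (z, η z)) h1 h2

theorem exists_branch (P : Place ℂ F) : Nonempty (Branch P) := by
  obtain ⟨t, ht0, ht⟩ := adicValuation_surjective_exp P (-1)
  obtain ⟨u, H, hu, hH, hd, hgen⟩ := exists_simple P t ht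
  have htr : P.adicValuation t ≤ 1 := by rw [ht]; exact exp_neg_one_lt_one.le
  have htv : val P t = 0 := (val_eq_zero_iff P htr).2 (by rw [ht]; exact exp_neg_one_lt_one)
  have h0 : ee (0 : ℂ) (val P u) H = 0 := by
    have := val_ee P htr hu H
    rw [hH, val_zero, htv] at this
    exact this.symm
  obtain ⟨η, h1, h2, h3⟩ := exists_implicit H (val P u) h0 hd
  have hz : ∀ᶠ z : ℂ in 𝓝 0, AnalyticAt ℂ η z ∧ ee z (η z) H = 0 ∧
      ee z (η z) (derivative H) ≠ 0 := by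
    refine h1.eventually_analyticAt.and (Eventually.and ?_ ?_)
    · have hc : Tendsto (fun z => (z, η z)) (𝓝 0) (𝓝 (0, val P u)) := by
        have hc2 : ContinuousAt (fun z => (z, η z)) 0 := continuousAt_id.prodMk h1.continuousAt
        have := hc2.tendsto
        rw [h2] at this
        exact this
      filter_upwards [hc.eventually h3] with z hz
      exact hz.2 rfl
    · have hc := (analyticAt_ee (derivative H) h1).continuousAt
      refine hc.eventually_ne ?_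
      show ee 0 (η 0) _ ≠ 0
      rw [h2]; exact hd
  obtain ⟨ρ, hρ, hρ2⟩ := Metric.eventually_nhds_iff.1 hz
  have hρ3 : ∀ z : ℂ, ‖z‖ < ρ → _ := fun z hz => hρ2 (y := z) (by rwa [dist_zero_right])
  exact ⟨{ t := t, u := u, H := H, η := η, ρ := ρ, ρ_pos := hρ, t_unif := ht, u_reg := hu,
           gen := hgen, rel := hH, η_an := fun z hz => (hρ3 z hz).1, η_zero := h2,
           η_rel := fun z hz => (hρ3 z hz).2.1, η_der := fun z hz => (hρ3 z hz).2.2,
           η_uniq := h3.mono fun p hp => hp.1 }⟩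

namespace Branch

variable {P : Place ℂ F} (B : Branch P)

/-- The analytic function defined by a bivariate polynomial along the branch. -/
noncomputable def til (a : ℂ[X][X]) : ℂ → ℂ := fun z => ee z (B.η z) a

theorem til_an (a : ℂ[X][X]) {z : ℂ} (hz : ‖z‖ < B.ρ) : AnalyticAt ℂ (B.til a) z :=
  analyticAt_ee a (B.η_an z hz)

theorem t_reg : P.adicValuation B.t ≤ 1 := by rw [B.t_unif]; exact exp_neg_one_lt_one.le

theorem t_lt : P.adicValuation B.t < 1 := by rw [B.t_unif]; exact exp_neg_one_lt_one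

theorem t_val : val P B.t = 0 := (val_eq_zero_iff P B.t_reg).2 B.t_lt

theorem t_ne_zero : B.t ≠ 0 := by
  intro h
  have := B.t_unif
  rw [h, map_zero] at this
  exact exp_ne_zero this.symm

/-- The multiplier used in the descent at `z₀`. -/
noncomputable def G (z₀ : ℂ) : ℂ[X][X] := gg B.H (B.η z₀)

theorem til_G {z₀ : ℂ} (hz : ‖z₀‖ < B.ρ) : B.til (B.G z₀) z₀ ≠ 0 := by
  unfold til G
  rw [ee_gg]
  exact B.η_der z₀ hz

theorem step {z₀ : ℂ} (hz : ‖z₀‖ < B.ρ) {a : ℂ[X][X]} (ha : B.til a z₀ = 0) :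
    ∃ a₁ : ℂ[X][X],
      ee B.t B.u a * ee B.t B.u (B.G z₀) = (B.t - algebraMap ℂ F z₀) * ee B.t B.u a₁ ∧
      ∀ z : ℂ, ‖z‖ < B.ρ → B.til a z * B.til (B.G z₀) z = (z - z₀) * B.til a₁ z := by
  obtain ⟨a₁, q, h⟩ := descent B.H a z₀ (B.η z₀) (B.η_rel z₀ hz) ha
  refine ⟨a₁, ?_, ?_⟩
  · have := congrArg (ee B.t B.u) h
    rw [map_mul, map_add, map_mul, map_mul, B.rel, zero_mul, add_zero, ee_C, map_sub, aeval_X,
      aeval_C] at this
    exact this
  · intro z hz'
    have := congrArg (ee z (B.η z)) h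
    rw [map_mul, map_add, map_mul, map_mul, B.η_rel z hz', zero_mul, add_zero, ee_C, map_sub,
      aeval_X, aeval_C] at this
    exact this

theorem eq_zero_on_of_eventually {a : ℂ[X][X]} {z₀ : ℂ} (hz : ‖z₀‖ < B.ρ)
    (h : ∀ᶠ z in 𝓝 z₀, B.til a z = 0) : ∀ z : ℂ, ‖z‖ < B.ρ → B.til a z = 0 := by
  have h1 : AnalyticOnNhd ℂ (B.til a) (ball 0 B.ρ) := fun z hz =>
    B.til_an a (by rwa [mem_ball_zero_iff] at hz)
  have h2 := h1.eqOn_zero_of_preconnected_of_eventuallyEq_zero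
    (convex_ball (0:ℂ) B.ρ).isPreconnected (by rwa [mem_ball_zero_iff]) h
  intro z hz
  exact h2 (by rwa [mem_ball_zero_iff])

/-- If the analytic function vanishes identically, so does the element of `F`. -/
theorem ee_eq_zero_of_til {a : ℂ[X][X]} (ha : ∀ z : ℂ, ‖z‖ < B.ρ → B.til a z = 0) :
    ee B.t B.u a = 0 := by
  have key : ∀ m : ℕ, ∀ a : ℂ[X][X], (∀ z : ℂ, ‖z‖ < B.ρ → B.til a z = 0) →
      P.adicValuation (ee B.t B.u a) ≤ exp (-(m : ℤ)) := by
    intro m
    induction m with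
    | zero =>
      intro a _
      simpa using ee_mem P B.t_reg B.u_reg a
    | succ m ih =>
      intro a ha
      have h0 : ‖(0:ℂ)‖ < B.ρ := by simpa using B.ρ_pos
      obtain ⟨a₁, h1, h2⟩ := B.step h0 (ha 0 h0)
      have h3 : ∀ z : ℂ, ‖z‖ < B.ρ → B.til a₁ z = 0 := by
        have h4 : ∀ z : ℂ, ‖z‖ < B.ρ → z ≠ 0 → B.til a₁ z = 0 := by
          intro z hz hz0
          have := h2 z hz
          rw [ha z hz, zero_mul, sub_zero] at this
          exact (mul_eq_zero.1 this.symm).resolve_left hz0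
        have hρ : ((B.ρ / 2 : ℝ) : ℂ) ≠ 0 := by
          have := B.ρ_pos
          exact_mod_cast (by positivity : B.ρ / 2 ≠ 0)
        have hρ' : ‖((B.ρ / 2 : ℝ) : ℂ)‖ < B.ρ := by
          have := B.ρ_pos
          rw [Complex.norm_real, Real.norm_of_nonneg (by positivity)]
          linarith
        refine B.eq_zero_on_of_eventually hρ' ?_
        have e1 : ∀ᶠ z : ℂ in 𝓝 ((B.ρ / 2 : ℝ) : ℂ), ‖z‖ < B.ρ :=
          (continuous_norm.tendsto _).eventually (gt_mem_nhds hρ')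
        filter_upwards [e1, isOpen_ne.mem_nhds hρ] with z hz hz0
        exact h4 z hz hz0
      have h5 := ih a₁ h3
      have h6 : P.adicValuation (ee B.t B.u (B.G 0)) = 1 := by
        have h7 := ee_mem P B.t_reg B.u_reg (B.G 0)
        have h8 : val P (ee B.t B.u (B.G 0)) ≠ 0 := by
          rw [val_ee P B.t_reg B.u_reg, B.t_val, ← B.η_zero]
          exact B.til_G h0
        exact (val_ne_zero_iff P h7).1 h8
      have h9 := congrArg P.adicValuation h1
      rw [map_mul, map_mul, h6, mul_one, map_zero, sub_zero, B.t_unif] at h9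
      rw [h9]
      calc exp (-1 : ℤ) * P.adicValuation (ee B.t B.u a₁) ≤ exp (-1 : ℤ) * exp (-(m : ℤ)) :=
            mul_le_mul_right h5 _
        _ = exp (-((m + 1 : ℕ) : ℤ)) := by
            rw [← exp_add]; congr 1; push_cast; ring
  by_contra hne
  have h1 := P.adicValuation_eq_exp_neg_ord hne
  have h2 := key (P.ord (ee B.t B.u a)).toNat.succ a ha
  rw [h1, exp_le_exp] at h2
  have := Int.self_le_toNat (P.ord (ee B.t B.u a))
  push_cast at h2
  linarith

/-- Order bookkeeping in the descent. -/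
theorem order_step {z₀ : ℂ} (hz : ‖z₀‖ < B.ρ) {a a₁ : ℂ[X][X]}
    (h : ∀ z : ℂ, ‖z‖ < B.ρ → B.til a z * B.til (B.G z₀) z = (z - z₀) * B.til a₁ z) :
    analyticOrderAt (B.til a) z₀ = analyticOrderAt (B.til a₁) z₀ + 1 := by
  have hev : ∀ᶠ z : ℂ in 𝓝 z₀, ‖z‖ < B.ρ := (continuous_norm.tendsto _).eventually (gt_mem_nhds hz)
  have e1 : (B.til a * B.til (B.G z₀)) =ᶠ[𝓝 z₀] ((fun z => z - z₀) * B.til a₁) := by
    filter_upwards [hev] with z hz'
    exact h z hz'
  have e2 := analyticOrderAt_congr e1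
  have hsub : AnalyticAt ℂ (fun z : ℂ => z - z₀) z₀ := analyticAt_id.sub analyticAt_const
  rw [analyticOrderAt_mul (B.til_an a hz) (B.til_an _ hz),
    analyticOrderAt_mul hsub (B.til_an a₁ hz)] at e2
  have e3 : analyticOrderAt (B.til (B.G z₀)) z₀ = 0 :=
    (B.til_an _ hz).analyticOrderAt_eq_zero.2 (B.til_G hz)
  have e4 : analyticOrderAt (fun z : ℂ => z - z₀) z₀ = 1 := by
    have := (hsub.analyticOrderAt_eq_natCast (n := 1)).2 ⟨fun _ => 1, analyticAt_const, one_ne_zero, by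
      filter_upwards with z
      simp⟩
    simpa using this
  rw [e3, e4, add_zero] at e2
  rw [e2, add_comm]

theorem ee_ne_zero_of_order (n : ℕ) : ∀ a : ℂ[X][X], analyticOrderAt (B.til a) 0 = n →
    ee B.t B.u a ≠ 0 := by
  have h0 : ‖(0:ℂ)‖ < B.ρ := by simpa using B.ρ_pos
  induction n with
  | zero =>
    intro a ha hea
    have h1 : B.til a 0 ≠ 0 := (B.til_an a h0).analyticOrderAt_eq_zero.1 (by simpa using ha)
    apply h1
    have := val_ee P B.t_reg B.u_reg a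
    rw [hea, val_zero, B.t_val, ← B.η_zero] at this
    exact this.symm
  | succ n ih =>
    intro a ha hea
    have h1 : B.til a 0 = 0 := by
      by_contra h
      have := (B.til_an a h0).analyticOrderAt_eq_zero.2 h
      rw [this] at ha
      exact absurd ha.symm (by simp)
    obtain ⟨a₁, e1, e2⟩ := B.step h0 h1
    have e3 := B.order_step h0 e2
    have e4 : analyticOrderAt (B.til a₁) 0 = n := by
      rw [e3, Nat.cast_succ] at ha
      exact (ENat.add_left_injective_of_ne_top ENat.one_ne_top) ha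
    apply ih a₁ e4
    rw [hea, zero_mul, map_zero, sub_zero] at e1
    exact (mul_eq_zero.1 e1.symm).resolve_left B.t_ne_zero

/-- The element of `F` vanishes iff the analytic function vanishes identically. -/
theorem ee_eq_zero_iff (a : ℂ[X][X]) :
    ee B.t B.u a = 0 ↔ ∀ z : ℂ, ‖z‖ < B.ρ → B.til a z = 0 := by
  refine ⟨fun h => ?_, B.ee_eq_zero_of_til⟩
  have h0 : ‖(0:ℂ)‖ < B.ρ := by simpa using B.ρ_pos
  by_contra hne
  have h1 : analyticOrderAt (B.til a) 0 ≠ ⊤ := by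
    intro h2
    rw [analyticOrderAt_eq_top] at h2
    exact hne (B.eq_zero_on_of_eventually h0 h2)
  obtain ⟨n, hn⟩ := ENat.ne_top_iff_exists.1 h1
  exact B.ee_ne_zero_of_order n a hn.symm h

theorem order_ne_top {a : ℂ[X][X]} (ha : ee B.t B.u a ≠ 0) {z₀ : ℂ} (hz : ‖z₀‖ < B.ρ) :
    analyticOrderAt (B.til a) z₀ ≠ ⊤ := by
  intro h
  rw [analyticOrderAt_eq_top] at h
  exact ha ((B.ee_eq_zero_iff a).2 (B.eq_zero_on_of_eventually hz h))

theorem ee_ne_zero_of_til {b : ℂ[X][X]} {z₀ : ℂ} (hz : ‖z₀‖ < B.ρ) (hb : B.til b z₀ ≠ 0) :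
    ee B.t B.u b ≠ 0 := fun h => hb ((B.ee_eq_zero_iff b).1 h z₀ hz)

theorem til_eq_of_ee_eq {a b : ℂ[X][X]} (h : ee B.t B.u a = ee B.t B.u b) {z : ℂ}
    (hz : ‖z‖ < B.ρ) : B.til a z = B.til b z := by
  have h1 : ee B.t B.u (a - b) = 0 := by rw [map_sub, h, sub_self]
  have h2 := (B.ee_eq_zero_iff _).1 h1 z hz
  unfold til at h2 ⊢
  rw [map_sub] at h2
  exact sub_eq_zero.1 h2

@[simp] theorem til_mul (a b : ℂ[X][X]) (z : ℂ) : B.til (a * b) z = B.til a z * B.til b z := by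
  unfold til; rw [map_mul]

@[simp] theorem til_add (a b : ℂ[X][X]) (z : ℂ) : B.til (a + b) z = B.til a z + B.til b z := by
  unfold til; rw [map_add]

@[simp] theorem til_sub (a b : ℂ[X][X]) (z : ℂ) : B.til (a - b) z = B.til a z - B.til b z := by
  unfold til; rw [map_sub]

@[simp] theorem til_one (z : ℂ) : B.til 1 z = 1 := by
  unfold til; rw [map_one]

@[simp] theorem til_const (c z : ℂ) : B.til (C (C c)) z = c := by
  unfold til; simp

/-- Any `f` or its inverse can be written with a denominator not vanishing at `z₀`. -/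
theorem dichotomy {z₀ : ℂ} (hz : ‖z₀‖ < B.ρ) (n : ℕ) : ∀ (f : F) (a b : ℂ[X][X]),
    ee B.t B.u b ≠ 0 → f * ee B.t B.u b = ee B.t B.u a → analyticOrderAt (B.til b) z₀ = n →
    (∃ a b : ℂ[X][X], B.til b z₀ ≠ 0 ∧ f * ee B.t B.u b = ee B.t B.u a) ∨
    (∃ a b : ℂ[X][X], B.til b z₀ ≠ 0 ∧ f⁻¹ * ee B.t B.u b = ee B.t B.u a) := by
  induction n with
  | zero =>
    intro f a b _ hf hb
    exact Or.inl ⟨a, b, (B.til_an b hz).analyticOrderAt_eq_zero.1 (by simpa using hb), hf⟩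
  | succ n ih =>
    intro f a b hb0 hf hb
    by_cases ha : B.til a z₀ = 0
    · have hbz : B.til b z₀ = 0 := by
        by_contra h
        have := (B.til_an b hz).analyticOrderAt_eq_zero.2 h
        rw [this] at hb
        exact absurd hb.symm (by simp)
      obtain ⟨a₁, e1, e2⟩ := B.step hz ha
      obtain ⟨b₁, e3, e4⟩ := B.step hz hbz
      have hG := B.ee_ne_zero_of_til hz (B.til_G hz)
      have hb1 : ee B.t B.u b₁ ≠ 0 := by
        intro h
        rw [h, mul_zero] at e3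
        exact (mul_ne_zero hb0 hG) e3
      have ht : B.t - algebraMap ℂ F z₀ ≠ 0 := by
        intro h
        rw [h, zero_mul] at e3
        exact (mul_ne_zero hb0 hG) e3
      refine ih f a₁ b₁ hb1 ?_ ?_
      · apply mul_left_cancel₀ ht
        rw [← e1, ← hf]
        linear_combination (-f) * e3
      · have e5 := B.order_step hz e4
        rw [e5, Nat.cast_succ] at hb
        exact (ENat.add_left_injective_of_ne_top ENat.one_ne_top) hb
    · right
      refine ⟨b, a, ha, ?_⟩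
      have hf0 : f ≠ 0 := by
        rintro rfl
        rw [zero_mul] at hf
        exact B.ee_ne_zero_of_til hz ha hf.symm
      rw [← hf, inv_mul_cancel_left₀ hf0]

/-- The valuation ring at the point `z₀` of the branch. -/
noncomputable def A {z₀ : ℂ} (hz : ‖z₀‖ < B.ρ) : ValuationSubring F where
  carrier := {f | ∃ a b : ℂ[X][X], B.til b z₀ ≠ 0 ∧ f * ee B.t B.u b = ee B.t B.u a}
  mul_mem' := by
    rintro f g ⟨a, b, hb, hf⟩ ⟨c, d, hd, hg⟩
    refine ⟨a * c, b * d, ?_, ?_⟩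
    · rw [til_mul]; exact mul_ne_zero hb hd
    · rw [map_mul, map_mul, ← hf, ← hg]; ring
  one_mem' := ⟨1, 1, by simp, by simp⟩
  add_mem' := by
    rintro f g ⟨a, b, hb, hf⟩ ⟨c, d, hd, hg⟩
    refine ⟨a * d + c * b, b * d, ?_, ?_⟩
    · rw [til_mul]; exact mul_ne_zero hb hd
    · rw [map_mul, map_add, map_mul, map_mul, ← hf, ← hg]; ring
  zero_mem' := ⟨0, 1, by simp, by simp⟩
  neg_mem' := by
    rintro f ⟨a, b, hb, hf⟩
    exact ⟨-a, b, hb, by rw [map_neg, ← hf]; ring⟩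
  mem_or_inv_mem' := by
    intro f
    obtain ⟨a, b, hb, hf⟩ := B.gen f
    obtain ⟨n, hn⟩ := ENat.ne_top_iff_exists.1 (B.order_ne_top hb hz)
    exact B.dichotomy hz n f a b hb hf hn.symm

theorem mem_A {z₀ : ℂ} (hz : ‖z₀‖ < B.ρ) (f : F) :
    f ∈ B.A hz ↔ ∃ a b : ℂ[X][X], B.til b z₀ ≠ 0 ∧ f * ee B.t B.u b = ee B.t B.u a := Iff.rfl

theorem ee_mem_A {z₀ : ℂ} (hz : ‖z₀‖ < B.ρ) (a : ℂ[X][X]) : ee B.t B.u a ∈ B.A hz :=
  ⟨a, 1, by simp, by simp⟩

theorem algebraMap_mem_A {z₀ : ℂ} (hz : ‖z₀‖ < B.ρ) (c : ℂ) : algebraMap ℂ F c ∈ B.A hz := by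
  have := B.ee_mem_A hz (C (C c))
  rwa [ee_C, aeval_C] at this

/-- Elements with vanishing numerator are non-units. -/
theorem inv_not_mem_A {z₀ : ℂ} (hz : ‖z₀‖ < B.ρ) {f : F} (hf0 : f ≠ 0) {a b : ℂ[X][X]}
    (hf : f * ee B.t B.u b = ee B.t B.u a) (ha : B.til a z₀ = 0)
    (hb : B.til b z₀ ≠ 0) : f⁻¹ ∉ B.A hz := by
  rintro ⟨c, d, hd, hg⟩
  have h1 : ee B.t B.u (d * b) = ee B.t B.u (c * a) := by
    rw [map_mul, map_mul, ← hf, ← hg]
    field_simp
  have h2 := B.til_eq_of_ee_eq h1 hz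
  rw [til_mul, til_mul, ha, mul_zero] at h2
  exact (mul_ne_zero hd hb) h2

theorem t_sub_eq (z₀ : ℂ) : B.t - algebraMap ℂ F z₀ = ee B.t B.u (C (X - C z₀)) := by simp

theorem til_t_sub (z₀ z : ℂ) : B.til (C (X - C z₀)) z = z - z₀ := by
  unfold til; simp

theorem t_sub_ne_zero (z₀ : ℂ) : B.t - algebraMap ℂ F z₀ ≠ 0 := by
  rw [B.t_sub_eq]
  intro h
  have h2 := (B.ee_eq_zero_iff _).1 h
  have h0 : ‖(0:ℂ)‖ < B.ρ := by simpa using B.ρ_pos
  have h3 := h2 0 h0
  have hρ' : ‖((B.ρ / 2 : ℝ) : ℂ)‖ < B.ρ := by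
    have := B.ρ_pos
    rw [Complex.norm_real, Real.norm_of_nonneg (by positivity)]
    linarith
  have h4 := h2 _ hρ'
  rw [til_t_sub] at h3 h4
  have h5 : ((B.ρ / 2 : ℝ) : ℂ) = 0 := by linear_combination h4 - h3
  have h6 : B.ρ / 2 = 0 := by exact_mod_cast h5
  have := B.ρ_pos
  linarith

theorem A_ne_top {z₀ : ℂ} (hz : ‖z₀‖ < B.ρ) : B.A hz ≠ ⊤ := by
  intro h
  have h1 : (B.t - algebraMap ℂ F z₀)⁻¹ ∉ B.A hz := by
    refine B.inv_not_mem_A hz (B.t_sub_ne_zero z₀) (a := C (X - C z₀)) (b := 1) ?_ ?_ (by simp)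
    · simp
    · rw [til_t_sub, sub_self]
  rw [h] at h1
  exact h1 trivial

open Classical in
/-- The parametrisation. -/
noncomputable def σ (z : ℂ) : Place ℂ F :=
  if hz : ‖z‖ < B.ρ then placeOf (B.A hz) (B.algebraMap_mem_A hz) (B.A_ne_top hz) else P

theorem σ_toValuationSubring {z : ℂ} (hz : ‖z‖ < B.ρ) : (B.σ z).toValuationSubring = B.A hz := by
  unfold σ
  rw [dif_pos hz]
  rfl

theorem σ_le_one_iff {z : ℂ} (hz : ‖z‖ < B.ρ) (f : F) :
    (B.σ z).adicValuation f ≤ 1 ↔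
      ∃ a b : ℂ[X][X], B.til b z ≠ 0 ∧ f * ee B.t B.u b = ee B.t B.u a := by
  rw [← mem_iff_adicValuation_le_one, B.σ_toValuationSubring hz, mem_A]

theorem σ_ee_le {z : ℂ} (hz : ‖z‖ < B.ρ) (a : ℂ[X][X]) :
    (B.σ z).adicValuation (ee B.t B.u a) ≤ 1 :=
  (B.σ_le_one_iff hz _).2 (B.ee_mem_A hz a)

theorem σ_lt_one {z : ℂ} (hz : ‖z‖ < B.ρ) {f : F} {a b : ℂ[X][X]}
    (hf : f * ee B.t B.u b = ee B.t B.u a) (ha : B.til a z = 0)
    (hb : B.til b z ≠ 0) : (B.σ z).adicValuation f < 1 := by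
  by_cases hf0 : f = 0
  · rw [hf0, map_zero]; exact zero_lt_one
  by_contra h
  rw [not_lt] at h
  apply B.inv_not_mem_A hz hf0 hf ha hb
  rw [← B.σ_toValuationSubring hz, mem_iff_adicValuation_le_one, map_inv₀]
  exact inv_le_one_of_one_le₀ h

theorem val_σ_ee {z : ℂ} (hz : ‖z‖ < B.ρ) (a : ℂ[X][X]) :
    val (B.σ z) (ee B.t B.u a) = B.til a z := by
  apply val_eq_of_lt
  refine B.σ_lt_one hz (a := a - C (C (B.til a z))) (b := 1) ?_ ?_ (by simp)
  · simp
  · simp

theorem val_σ_of_frac {z : ℂ} (hz : ‖z‖ < B.ρ) {f : F} {a b : ℂ[X][X]}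
    (hf : f * ee B.t B.u b = ee B.t B.u a) (hb : B.til b z ≠ 0) :
    (B.σ z).adicValuation f ≤ 1 ∧ val (B.σ z) f = B.til a z / B.til b z := by
  have h1 : (B.σ z).adicValuation f ≤ 1 := (B.σ_le_one_iff hz f).2 ⟨a, b, hb, hf⟩
  refine ⟨h1, ?_⟩
  have h2 := val_mul (B.σ z) h1 (B.σ_ee_le hz b)
  rw [hf, B.val_σ_ee hz, B.val_σ_ee hz] at h2
  rw [h2]
  field_simp

/-- A place with the right values of `t` and `u` is on the branch. -/
theorem eq_σ {z : ℂ} (hz : ‖z‖ < B.ρ) (Q : Place ℂ F) (ht : Q.adicValuation B.t ≤ 1)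
    (hu : Q.adicValuation B.u ≤ 1) (htv : val Q B.t = z) (huv : val Q B.u = B.η z) :
    B.σ z = Q := by
  apply eq_of_le
  intro f hf
  rw [B.σ_toValuationSubring hz] at hf
  obtain ⟨a, b, hb, hf⟩ := hf
  rw [mem_iff_adicValuation_le_one]
  have h1 : val Q (ee B.t B.u b) = B.til b z := by
    rw [val_ee Q ht hu, htv, huv]; rfl
  have h2 : Q.adicValuation (ee B.t B.u b) = 1 :=
    (val_ne_zero_iff Q (ee_mem Q ht hu b)).1 (by rw [h1]; exact hb)
  have h3 := congrArg Q.adicValuation hf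
  rw [map_mul, h2, mul_one] at h3
  rw [h3]
  exact ee_mem Q ht hu a

theorem t_eq_ee : ee B.t B.u (C X : ℂ[X][X]) = B.t := by simp

theorem u_eq_ee : ee B.t B.u (X : ℂ[X][X]) = B.u := by simp

theorem ord_t {z : ℂ} (hz : ‖z‖ < B.ρ) : (B.σ z).ord (B.t - algebraMap ℂ F z) = 1 := by
  have h1 : (B.σ z).adicValuation (B.t - algebraMap ℂ F z) < 1 := by
    refine B.σ_lt_one hz (a := C (X - C z)) (b := 1) ?_ ?_ (by simp)
    · simp
    · rw [til_t_sub, sub_self]
  obtain ⟨f, hf0, hf⟩ := adicValuation_surjective_exp (B.σ z) (-1)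
  have hf1 : (B.σ z).adicValuation f ≤ 1 := by rw [hf]; exact exp_neg_one_lt_one.le
  obtain ⟨a, b, hb, hfe⟩ := (B.σ_le_one_iff hz f).1 hf1
  have hval := (B.val_σ_of_frac hz hfe hb).2
  have hval0 : val (B.σ z) f = 0 := (val_eq_zero_iff _ hf1).2 (by rw [hf]; exact exp_neg_one_lt_one)
  have ha : B.til a z = 0 := by
    rw [hval0] at hval
    rcases div_eq_zero_iff.1 hval.symm with h | h
    · exact h
    · exact absurd h hb
  obtain ⟨a₁, e1, -⟩ := B.step hz ha
  have hG := B.til_G hz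
  have e2 : (B.σ z).adicValuation (ee B.t B.u (b * B.G z)) = 1 := by
    apply (val_ne_zero_iff _ (B.σ_ee_le hz _)).1
    rw [B.val_σ_ee hz, til_mul]
    exact mul_ne_zero hb hG
  have e3 : f * ee B.t B.u (b * B.G z) = (B.t - algebraMap ℂ F z) * ee B.t B.u a₁ := by
    rw [map_mul, ← mul_assoc, hfe, e1]
  have e4 := congrArg (B.σ z).adicValuation e3
  rw [map_mul, e2, mul_one, map_mul, hf] at e4
  have e5 : exp (-1 : ℤ) ≤ (B.σ z).adicValuation (B.t - algebraMap ℂ F z) := by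
    rw [e4]
    exact mul_le_of_le_one_right' (B.σ_ee_le hz a₁)
  have e6 := (adicValuation_lt_one_iff (B.σ z)).1 h1
  have e7 := le_antisymm e6 e5
  rw [(B.σ z).adicValuation_eq_exp_neg_ord (B.t_sub_ne_zero z), exp_inj] at e7
  linarith

/-- The disc defined by a branch. -/
noncomputable def toAnDisc : AnDisc P where
  σ := B.σ
  r := B.ρ
  r_pos := B.ρ_pos
  σ_zero := B.eq_σ (by simpa using B.ρ_pos) P B.t_reg B.u_reg B.t_val B.η_zero.symm
  t := B.t
  t_mem z hz := by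
    have := B.σ_ee_le hz (C X)
    rwa [B.t_eq_ee] at this
  val_t z hz := by
    have := B.val_σ_ee hz (C X)
    rw [B.t_eq_ee] at this
    rw [this]
    simp [til]
  ord_t z hz := B.ord_t hz
  regular z₀ hz f hf := by
    obtain ⟨a, b, hb, hfe⟩ := (B.σ_le_one_iff hz f).1 hf
    have h1 : ∀ᶠ z : ℂ in 𝓝 z₀, ‖z‖ < B.ρ := (continuous_norm.tendsto _).eventually (gt_mem_nhds hz)
    have h2 : ∀ᶠ z : ℂ in 𝓝 z₀, B.til b z ≠ 0 := (B.til_an b hz).continuousAt.eventually_ne hb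
    refine ⟨?_, ?_⟩
    · filter_upwards [h1, h2] with z h3 h4
      exact (B.val_σ_of_frac h3 hfe h4).1
    · have h5 : AnalyticAt ℂ (fun z => B.til a z / B.til b z) z₀ :=
        (B.til_an a hz).div (B.til_an b hz) hb
      refine h5.congr ?_
      filter_upwards [h1, h2] with z h3 h4
      exact (B.val_σ_of_frac h3 hfe h4).2.symm
  nhds ε hε := by
    classical
    have h0 : ‖(0:ℂ)‖ < B.ρ := by simpa using B.ρ_pos
    obtain ⟨δ, hδ, hδ2⟩ := Metric.eventually_nhds_iff.1 B.η_uniq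
    refine ⟨{B.t, B.u}, min δ (min ε B.ρ), lt_min hδ (lt_min hε B.ρ_pos), ?_, ?_⟩
    · intro s hs
      simp only [Finset.mem_insert, Finset.mem_singleton] at hs
      rcases hs with rfl | rfl
      · exact B.t_reg
      · exact B.u_reg
    · intro Q hQ
      have ht := hQ B.t (by simp)
      have hu := hQ B.u (by simp)
      rw [B.t_val, sub_zero] at ht
      have e1 : ‖val Q B.t‖ < ε := ht.2.trans_le ((min_le_right _ _).trans (min_le_left _ _))
      have e2 : ‖val Q B.t‖ < B.ρ := ht.2.trans_le ((min_le_right _ _).trans (min_le_right _ _))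
      refine ⟨val Q B.t, e1, e2, ?_⟩
      refine B.eq_σ e2 Q ht.1 hu.1 rfl ?_
      have e3 : dist ((val Q B.t, val Q B.u) : ℂ × ℂ) (0, val P B.u) < δ := by
        rw [Prod.dist_eq, max_lt_iff]
        constructor
        · rw [dist_zero_right]
          exact ht.2.trans_le (min_le_left _ _)
        · rw [dist_eq_norm]
          exact hu.2.trans_le (min_le_left _ _)
      refine (hδ2 e3 ?_).symm
      show ee (val Q B.t) (val Q B.u) B.H = 0
      rw [← val_ee Q ht.1 hu.1, B.rel, val_zero]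

end Branch

/-- Every place is the centre of an analytic disc. -/
theorem nonempty_anDisc (P : Place ℂ F) : Nonempty (AnDisc P) :=
  ⟨(exists_branch P).some.toAnDisc⟩

end Fermat.Agent.H27
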