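import Mathlib

/-! Abstract logarithm / exponential for a commutative group with a `C^2` local chart. -/

set_option autoImplicit false

open Filter Topology Metric Set

namespace Fermat.Agent.H27

section Analysis

variable {V W : Type*} [NormedAddCommGroup V] [NormedSpace ℝ V]
  [NormedAddCommGroup W] [NormedSpace ℝ W]

theorem exists_quadratic_lipschitz (f : V → W) (hf : ContDiffAt ℝ 2 f 0)
    (hf' : fderiv ℝ f 0 = 0) :
    ∃ C r : ℝ, 0 < r ∧ 0 ≤ C ∧ ∀ x ∈ ball (0 : V) r, ∀ y ∈ ball (0 : V) r,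
      ‖f x - f y‖ ≤ C * max ‖x‖ ‖y‖ * ‖x - y‖ := by
  obtain ⟨K, t, ht, hK⟩ := (hf.fderiv_right (m := 1) (by norm_num)).exists_lipschitzOnWith
  have hd : ∀ᶠ x in 𝓝 (0 : V), DifferentiableAt ℝ f x := by
    have := hf.eventually (by simp)
    exact this.mono fun x hx => hx.differentiableAt (by norm_num)
  obtain ⟨r, hr, hrt⟩ := Metric.mem_nhds_iff.1 (Filter.inter_mem ht hd)
  refine ⟨K, r, hr, K.2, fun x hx y hy => ?_⟩
  have hsub : closedBall (0 : V) (max ‖x‖ ‖y‖) ⊆ ball 0 r := by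
    intro z hz
    rw [mem_closedBall_zero_iff] at hz
    rw [mem_ball_zero_iff] at hx hy ⊢
    exact lt_of_le_of_lt hz (max_lt hx hy)
  have key := Convex.norm_image_sub_le_of_norm_fderiv_le (𝕜 := ℝ) (f := f)
    (s := closedBall (0 : V) (max ‖x‖ ‖y‖)) (C := K * max ‖x‖ ‖y‖) (x := y) (y := x)
    (fun z hz => (hrt (hsub hz)).2)
    (fun z hz => by
      have h0 : (0 : V) ∈ t := (hrt (mem_ball_self hr)).1
      have := hK.dist_le_mul z (hrt (hsub hz)).1 0 h0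
      rw [hf', dist_zero_right, dist_zero_right] at this
      refine this.trans ?_
      exact mul_le_mul_of_nonneg_left (by simpa using hz) K.2)
    (convex_closedBall _ _) (by simp) (by simp)
  exact key

theorem exists_bilinear_remainder (M : V × V → V) (hM : ContDiffAt ℝ 2 M 0)
    (h1 : ∀ᶠ x in 𝓝 (0 : V), M (x, 0) = x) (h2 : ∀ᶠ y in 𝓝 (0 : V), M (0, y) = y) :
    ∃ C r : ℝ, 0 < r ∧ 0 ≤ C ∧ ∀ x y : V, ‖x‖ < r → ‖y‖ < r →
      ‖M (x, y) - x - y‖ ≤ C * ‖x‖ * ‖y‖ := by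
  obtain ⟨K, t, ht, hK⟩ := (hM.fderiv_right (m := 1) (by norm_num)).exists_lipschitzOnWith
  have hd : ∀ᶠ x in 𝓝 (0 : V × V), DifferentiableAt ℝ M x := by
    have := hM.eventually (by simp)
    exact this.mono fun x hx => hx.differentiableAt (by norm_num)
  obtain ⟨r, hr, hrt⟩ := Metric.mem_nhds_iff.1 (Filter.inter_mem ht hd)
  obtain ⟨r1, hr1, hrt1⟩ := Metric.mem_nhds_iff.1 (Filter.inter_mem h1 h2)
  refine ⟨K, min r r1, lt_min hr hr1, K.2, fun x y hx hy => ?_⟩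
  have hmem : ∀ z w : V, ‖z‖ < r → ‖w‖ < r → (z, w) ∈ ball (0 : V × V) r := by
    intro z w hz hw
    rw [mem_ball_zero_iff]
    exact max_lt hz hw
  have hxr : ‖x‖ < r := lt_of_lt_of_le hx (min_le_left _ _)
  have hyr : ‖y‖ < r := lt_of_lt_of_le hy (min_le_left _ _)
  have hxr1 : ‖x‖ < r1 := lt_of_lt_of_le hx (min_le_right _ _)
  have hyr1 : ‖y‖ < r1 := lt_of_lt_of_le hy (min_le_right _ _)
  have h0r : ‖(0 : V)‖ < r := by simpa using hr
  set g : V → V := fun z => M (z, y) - M (z, 0) with hg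
  have hgd : ∀ z ∈ ball (0 : V) r, HasFDerivWithinAt g
      (((fderiv ℝ M (z, y)) - (fderiv ℝ M (z, 0))).comp (ContinuousLinearMap.inl ℝ V V))
      (ball (0 : V) r) z := by
    intro z hz
    rw [mem_ball_zero_iff] at hz
    have e1 : HasFDerivAt (fun z => M (z, y)) ((fderiv ℝ M (z, y)).comp
        (ContinuousLinearMap.inl ℝ V V)) z := by
      have hdz : DifferentiableAt ℝ M (z, y) := (hrt (hmem z y hz hyr)).2
      exact hdz.hasFDerivAt.comp z (hasFDerivAt_prodMk_left z y)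
    have e2 : HasFDerivAt (fun z => M (z, (0 : V))) ((fderiv ℝ M (z, 0)).comp
        (ContinuousLinearMap.inl ℝ V V)) z := by
      have hdz : DifferentiableAt ℝ M (z, 0) := (hrt (hmem z 0 hz h0r)).2
      exact hdz.hasFDerivAt.comp z (hasFDerivAt_prodMk_left z 0)
    have := (e1.sub e2).hasFDerivWithinAt (s := ball (0 : V) r)
    rw [ContinuousLinearMap.sub_comp]
    exact this
  have key := Convex.norm_image_sub_le_of_norm_hasFDerivWithin_le (f := g)
    (s := ball (0 : V) r) (C := K * ‖y‖) (x := 0) (y := x) hgd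
    (fun z hz => by
      rw [mem_ball_zero_iff] at hz
      have := hK.dist_le_mul (z, y) (hrt (hmem z y hz hyr)).1 (z, 0) (hrt (hmem z 0 hz h0r)).1
      rw [dist_eq_norm] at this
      have hdist : dist (z, y) (z, (0 : V)) = ‖y‖ := by
        rw [dist_eq_norm]
        simp [Prod.norm_def]
      rw [hdist] at this
      calc ‖((fderiv ℝ M (z, y)) - (fderiv ℝ M (z, 0))).comp (ContinuousLinearMap.inl ℝ V V)‖
          ≤ ‖(fderiv ℝ M (z, y)) - (fderiv ℝ M (z, 0))‖ * ‖ContinuousLinearMap.inl ℝ V V‖ :=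
            ContinuousLinearMap.opNorm_comp_le _ _
        _ ≤ ‖(fderiv ℝ M (z, y)) - (fderiv ℝ M (z, 0))‖ * 1 :=
            mul_le_mul_of_nonneg_left (ContinuousLinearMap.norm_inl_le_one ℝ V V) (norm_nonneg _)
        _ ≤ K * ‖y‖ := by rw [mul_one]; exact this)
    (convex_ball _ _) (mem_ball_self hr) (by simpa using hxr)
  have e0 : g x - g 0 = M (x, y) - x - y := by
    have a1 : M (x, 0) = x := (hrt1 (by simpa using hxr1)).1
    have a2 : M (0, y) = y := (hrt1 (a := y) (by simpa using hyr1)).2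
    have a3 : M (0, 0) = 0 := (hrt1 (a := 0) (mem_ball_self hr1)).1
    simp only [hg, a1, a2, a3]
    abel
  rw [e0, sub_zero] at key
  calc ‖M (x, y) - x - y‖ ≤ K * ‖y‖ * ‖x‖ := key
    _ = K * ‖x‖ * ‖y‖ := by ring

/-- Iteration of a map which is `1/2` up to a quadratically small error. -/
theorem exists_log (H : V → V) [CompleteSpace V] (C r : ℝ) (hr : 0 < r) (hC : 0 ≤ C)
    (hCr : C * r ≤ 1 / 64) (H0 : H 0 = 0)
    (hH : ∀ x ∈ closedBall (0 : V) r, ∀ y ∈ closedBall (0 : V) r,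
      ‖H x - H y - (2 : ℝ)⁻¹ • (x - y)‖ ≤ C * max ‖x‖ ‖y‖ * ‖x - y‖) :
    (∀ x ∈ closedBall (0 : V) r, ∀ k : ℕ, ‖H^[k] x‖ ≤ (3 / 4) ^ k * ‖x‖) ∧
    (∀ x ∈ closedBall (0 : V) r, ∀ k : ℕ, 2 ^ k * ‖H^[k] x‖ ≤ 2 * ‖x‖) ∧
    ∃ L : V → V, (∀ x ∈ closedBall (0 : V) r,
        Tendsto (fun k : ℕ => (2 : ℝ) ^ k • H^[k] x) atTop (𝓝 (L x))) ∧
      (∀ x ∈ closedBall (0 : V) r, ∀ y ∈ closedBall (0 : V) r,
        ‖L x - L y - (x - y)‖ ≤ (1 / 4) * ‖x - y‖) := by
  -- basic bound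
  have hmap : ∀ x ∈ closedBall (0 : V) r, ‖H x‖ ≤ (3 / 4) * ‖x‖ := by
    intro x hx
    have h := hH x hx 0 (by simp [hr.le])
    simp only [H0, sub_zero, norm_zero] at h
    rw [max_eq_left (norm_nonneg x)] at h
    have hx' : ‖x‖ ≤ r := by simpa using hx
    have h2 : ‖H x‖ ≤ ‖H x - (2 : ℝ)⁻¹ • x‖ + ‖(2 : ℝ)⁻¹ • x‖ := by
      simpa using norm_add_le (H x - (2 : ℝ)⁻¹ • x) ((2 : ℝ)⁻¹ • x)
    rw [norm_smul, Real.norm_eq_abs, abs_of_pos (by norm_num : (0 : ℝ) < 2⁻¹)] at h2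
    have h3 : C * ‖x‖ * ‖x‖ ≤ 1 / 64 * ‖x‖ :=
      mul_le_mul_of_nonneg_right ((mul_le_mul_of_nonneg_left hx' hC).trans hCr) (norm_nonneg _)
    linarith [norm_nonneg x]
  have hiter : ∀ x ∈ closedBall (0 : V) r, ∀ k : ℕ, ‖H^[k] x‖ ≤ (3 / 4) ^ k * ‖x‖ := by
    intro x hx k
    induction k with
    | zero => simp
    | succ k ih =>
      rw [Function.iterate_succ_apply']
      have hx' : ‖x‖ ≤ r := by simpa using hx
      have hk : H^[k] x ∈ closedBall (0 : V) r := by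
        rw [mem_closedBall_zero_iff]
        refine ih.trans (le_trans ?_ hx')
        exact mul_le_of_le_one_left (norm_nonneg _) (pow_le_one₀ (by norm_num) (by norm_num))
      calc ‖H (H^[k] x)‖ ≤ (3 / 4) * ‖H^[k] x‖ := hmap _ hk
        _ ≤ (3 / 4) * ((3 / 4) ^ k * ‖x‖) := by gcongr
        _ = (3 / 4) ^ (k + 1) * ‖x‖ := by ring
  have hiterr : ∀ x ∈ closedBall (0 : V) r, ∀ k : ℕ, ‖H^[k] x‖ ≤ (3 / 4) ^ k * r := by
    intro x hx k
    refine (hiter x hx k).trans ?_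
    have hx' : ‖x‖ ≤ r := by simpa using hx
    gcongr
  have hmem : ∀ x ∈ closedBall (0 : V) r, ∀ k : ℕ, H^[k] x ∈ closedBall (0 : V) r := by
    intro x hx k
    rw [mem_closedBall_zero_iff]
    refine (hiterr x hx k).trans ?_
    exact mul_le_of_le_one_left hr.le (pow_le_one₀ (by norm_num) (by norm_num))
  -- step estimate
  have hstep : ∀ x ∈ closedBall (0 : V) r, ∀ y ∈ closedBall (0 : V) r, ∀ k : ℕ,
      ‖H^[k+1] x - H^[k+1] y - (2 : ℝ)⁻¹ • (H^[k] x - H^[k] y)‖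
        ≤ (1 / 64) * (3 / 4) ^ k * ‖H^[k] x - H^[k] y‖ := by
    intro x hx y hy k
    rw [Function.iterate_succ_apply', Function.iterate_succ_apply']
    refine (hH _ (hmem x hx k) _ (hmem y hy k)).trans ?_
    have hm : max ‖H^[k] x‖ ‖H^[k] y‖ ≤ (3 / 4) ^ k * r := max_le (hiterr x hx k) (hiterr y hy k)
    have : C * max ‖H^[k] x‖ ‖H^[k] y‖ ≤ (1 / 64) * (3 / 4) ^ k := by
      calc C * max ‖H^[k] x‖ ‖H^[k] y‖ ≤ C * ((3 / 4) ^ k * r) := by gcongr
        _ = (C * r) * (3 / 4) ^ k := by ring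
        _ ≤ (1 / 64) * (3 / 4) ^ k := by gcongr
    gcongr
  -- Lipschitz estimate of iterates
  have hlip : ∀ x ∈ closedBall (0 : V) r, ∀ y ∈ closedBall (0 : V) r, ∀ k : ℕ,
      2 ^ k * ‖H^[k] x - H^[k] y‖ ≤ (1 + (1 / 4) * (1 - (3 / 4) ^ k)) * ‖x - y‖ := by
    intro x hx y hy k
    induction k with
    | zero => simp
    | succ k ih =>
      have h := hstep x hx y hy k
      set d := ‖H^[k] x - H^[k] y‖ with hd
      have hd0 : 0 ≤ d := norm_nonneg _
      have h2 : ‖H^[k+1] x - H^[k+1] y‖ ≤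
          ‖H^[k+1] x - H^[k+1] y - (2 : ℝ)⁻¹ • (H^[k] x - H^[k] y)‖ +
            ‖(2 : ℝ)⁻¹ • (H^[k] x - H^[k] y)‖ := by
        simpa using norm_add_le (H^[k+1] x - H^[k+1] y - (2 : ℝ)⁻¹ • (H^[k] x - H^[k] y))
          ((2 : ℝ)⁻¹ • (H^[k] x - H^[k] y))
      rw [norm_smul, Real.norm_eq_abs, abs_of_pos (by norm_num : (0 : ℝ) < 2⁻¹)] at h2
      have h3 : ‖H^[k+1] x - H^[k+1] y‖ ≤ (2⁻¹ + (1 / 64) * (3 / 4) ^ k) * d := by
        rw [← hd] at h2; linarith
      have hp : (0 : ℝ) ≤ (3 / 4) ^ k := by positivity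
      have hp1 : ((3 : ℝ) / 4) ^ k ≤ 1 := pow_le_one₀ (by norm_num) (by norm_num)
      have hq : (0 : ℝ) ≤ 2 ^ k * d := by positivity
      have hxy : 0 ≤ ‖x - y‖ := norm_nonneg _
      calc 2 ^ (k + 1) * ‖H^[k+1] x - H^[k+1] y‖
          ≤ 2 ^ (k + 1) * ((2⁻¹ + (1 / 64) * (3 / 4) ^ k) * d) := by gcongr
        _ = (1 + (1 / 32) * (3 / 4) ^ k) * (2 ^ k * d) := by ring
        _ ≤ (1 + (1 / 32) * (3 / 4) ^ k) * ((1 + (1 / 4) * (1 - (3 / 4) ^ k)) * ‖x - y‖) := by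
            gcongr
        _ ≤ (1 + (1 / 4) * (1 - (3 / 4) ^ (k + 1))) * ‖x - y‖ := by
            rw [← mul_assoc]
            apply mul_le_mul_of_nonneg_right _ hxy
            rw [pow_succ]
            nlinarith
  have hlip2 : ∀ x ∈ closedBall (0 : V) r, ∀ y ∈ closedBall (0 : V) r, ∀ k : ℕ,
      2 ^ k * ‖H^[k] x - H^[k] y‖ ≤ 2 * ‖x - y‖ := by
    intro x hx y hy k
    refine (hlip x hx y hy k).trans ?_
    have hp : (0 : ℝ) ≤ (3 / 4) ^ k := by positivity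
    have hxy : 0 ≤ ‖x - y‖ := norm_nonneg _
    apply mul_le_mul_of_nonneg_right _ hxy
    linarith
  have hiter0 : ∀ k : ℕ, H^[k] 0 = 0 := by
    intro k
    induction k with
    | zero => rfl
    | succ k ih => rw [Function.iterate_succ_apply', ih, H0]
  have h0mem : (0 : V) ∈ closedBall (0 : V) r := by simp [hr.le]
  have hbd : ∀ x ∈ closedBall (0 : V) r, ∀ k : ℕ, 2 ^ k * ‖H^[k] x‖ ≤ 2 * ‖x‖ := by
    intro x hx k
    have := hlip2 x hx 0 h0mem k
    simpa [hiter0] using this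
  refine ⟨hiter, hbd, ?_⟩
  -- differences of the approximations
  have hdiff : ∀ x ∈ closedBall (0 : V) r, ∀ y ∈ closedBall (0 : V) r, ∀ k : ℕ,
      dist (((2 : ℝ) ^ k • H^[k] x - (2 : ℝ) ^ k • H^[k] y))
        (((2 : ℝ) ^ (k + 1) • H^[k + 1] x - (2 : ℝ) ^ (k + 1) • H^[k + 1] y))
        ≤ ((1 / 16) * ‖x - y‖) * (3 / 4) ^ k := by
    intro x hx y hy k
    rw [dist_comm, dist_eq_norm]
    have e : ((2 : ℝ) ^ (k + 1) • H^[k + 1] x - (2 : ℝ) ^ (k + 1) • H^[k + 1] y) -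
        ((2 : ℝ) ^ k • H^[k] x - (2 : ℝ) ^ k • H^[k] y) =
        (2 : ℝ) ^ (k + 1) • (H^[k+1] x - H^[k+1] y - (2 : ℝ)⁻¹ • (H^[k] x - H^[k] y)) := by
      rw [smul_sub ((2 : ℝ) ^ (k + 1)) _ ((2 : ℝ)⁻¹ • _), smul_smul, smul_sub, smul_sub]
      have : (2 : ℝ) ^ (k + 1) * 2⁻¹ = 2 ^ k := by
        rw [pow_succ]; field_simp
      rw [this]
    rw [e, norm_smul, Real.norm_eq_abs, abs_of_pos (by positivity : (0 : ℝ) < 2 ^ (k + 1))]
    have hp : (0 : ℝ) ≤ (3 / 4) ^ k := by positivity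
    calc (2 : ℝ) ^ (k + 1) * ‖H^[k+1] x - H^[k+1] y - (2 : ℝ)⁻¹ • (H^[k] x - H^[k] y)‖
        ≤ 2 ^ (k + 1) * ((1 / 64) * (3 / 4) ^ k * ‖H^[k] x - H^[k] y‖) := by
          gcongr; exact hstep x hx y hy k
      _ = (1 / 32) * (3 / 4) ^ k * (2 ^ k * ‖H^[k] x - H^[k] y‖) := by ring
      _ ≤ (1 / 32) * (3 / 4) ^ k * (2 * ‖x - y‖) :=
          mul_le_mul_of_nonneg_left (hlip2 x hx y hy k) (by positivity)
      _ = ((1 / 16) * ‖x - y‖) * (3 / 4) ^ k := by ring
  have hcauchy : ∀ x ∈ closedBall (0 : V) r, ∃ l, Tendsto (fun k : ℕ => (2 : ℝ) ^ k • H^[k] x)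
      atTop (𝓝 l) := by
    intro x hx
    have : CauchySeq (fun k : ℕ => (2 : ℝ) ^ k • H^[k] x) := by
      refine cauchySeq_of_le_geometric (3 / 4) ((1 / 16) * ‖x‖) (by norm_num) ?_
      intro k
      simpa [hiter0] using hdiff x hx 0 h0mem k
    exact cauchySeq_tendsto_of_complete this
  classical
  choose! L hL using hcauchy
  refine ⟨L, hL, ?_⟩
  intro x hx y hy
  have ht : Tendsto (fun k : ℕ => (2 : ℝ) ^ k • H^[k] x - (2 : ℝ) ^ k • H^[k] y) atTop
      (𝓝 (L x - L y)) := (hL x hx).sub (hL y hy)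
  have := dist_le_of_le_geometric_of_tendsto₀ (3 / 4) ((1 / 16) * ‖x - y‖) (by norm_num)
    (hdiff x hx y hy) ht
  rw [dist_comm, dist_eq_norm] at this
  simp only [pow_zero, one_smul, Function.iterate_zero, id_eq] at this
  refine this.trans (le_of_eq ?_)
  ring

end Analysis

section Extend

variable {V A : Type*} [NormedAddCommGroup V] [NormedSpace ℝ V] [AddCommGroup A]

/-- A locally additive map extends to an additive map. -/
theorem exists_extend (f : V → A) (ε : ℝ) (hε : 0 < ε)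
    (hf : ∀ v w : V, ‖v‖ < ε → ‖w‖ < ε → f (v + w) = f v + f w) :
    ∃ e : V →+ A, ∀ v : V, ‖v‖ < ε → e v = f v := by
  have hdouble : ∀ (n : ℕ) (v : V), ‖v‖ < ε → f v = 2 ^ n • f (((2 : ℝ) ^ n)⁻¹ • v) := by
    intro n
    induction n with
    | zero => intro v _; simp
    | succ n ih =>
      intro v hv
      rw [ih v hv]
      have hv' : ‖((2 : ℝ) ^ (n + 1))⁻¹ • v‖ < ε := by
        rw [norm_smul, norm_inv, norm_pow, Real.norm_eq_abs, abs_two]
        refine lt_of_le_of_lt ?_ hv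
        refine mul_le_of_le_one_left (norm_nonneg _) ?_
        exact inv_le_one_of_one_le₀ (one_le_pow₀ (by norm_num))
      have e1 : ((2 : ℝ) ^ n)⁻¹ • v = ((2 : ℝ) ^ (n + 1))⁻¹ • v + ((2 : ℝ) ^ (n + 1))⁻¹ • v := by
        rw [← add_smul]
        congr 1
        rw [pow_succ]
        field_simp
        norm_num
      rw [e1, hf _ _ hv' hv', ← two_nsmul, smul_smul, ← pow_succ]
  -- the number of halvings
  have hex : ∀ v : V, ∃ n : ℕ, ‖((2 : ℝ) ^ n)⁻¹ • v‖ < ε := by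
    intro v
    obtain ⟨n, hn⟩ := pow_unbounded_of_one_lt (‖v‖ / ε) (by norm_num : (1 : ℝ) < 2)
    refine ⟨n, ?_⟩
    rw [norm_smul, norm_inv, norm_pow, Real.norm_eq_abs, abs_two]
    rw [div_lt_iff₀ hε] at hn
    have h2 : (0 : ℝ) < 2 ^ n := by positivity
    rw [inv_mul_lt_iff₀ h2]
    exact hn
  choose N hN using hex
  have hmono : ∀ (v : V) (m n : ℕ), ‖((2 : ℝ) ^ m)⁻¹ • v‖ < ε → m ≤ n →
      ‖((2 : ℝ) ^ n)⁻¹ • v‖ < ε := by
    intro v m n hm hmn
    refine lt_of_le_of_lt ?_ hm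
    rw [norm_smul, norm_smul]
    refine mul_le_mul_of_nonneg_right ?_ (norm_nonneg _)
    rw [norm_inv, norm_inv, norm_pow, norm_pow, Real.norm_eq_abs, abs_two]
    exact inv_anti₀ (by positivity) (pow_le_pow_right₀ (by norm_num) hmn)
  have hindep : ∀ (v : V) (m n : ℕ), ‖((2 : ℝ) ^ m)⁻¹ • v‖ < ε → m ≤ n →
      2 ^ m • f (((2 : ℝ) ^ m)⁻¹ • v) = 2 ^ n • f (((2 : ℝ) ^ n)⁻¹ • v) := by
    intro v m n hm hmn
    obtain ⟨k, rfl⟩ := Nat.exists_eq_add_of_le hmn
    rw [hdouble k _ hm, smul_smul, smul_smul, ← pow_add]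
    congr 3
    rw [pow_add, mul_inv, mul_comm]
  have hindep' : ∀ (v : V) (m n : ℕ), ‖((2 : ℝ) ^ m)⁻¹ • v‖ < ε → ‖((2 : ℝ) ^ n)⁻¹ • v‖ < ε →
      2 ^ m • f (((2 : ℝ) ^ m)⁻¹ • v) = 2 ^ n • f (((2 : ℝ) ^ n)⁻¹ • v) := by
    intro v m n hm hn
    rcases le_total m n with h | h
    · exact hindep v m n hm h
    · exact (hindep v n m hn h).symm
  refine ⟨AddMonoidHom.mk' (fun v => 2 ^ (N v) • f (((2 : ℝ) ^ (N v))⁻¹ • v)) ?_, ?_⟩
  · intro v w
    set n := max (N v) (max (N w) (N (v + w))) with hn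
    have h1 : ‖((2 : ℝ) ^ n)⁻¹ • v‖ < ε := hmono v _ n (hN v) (le_max_left _ _)
    have h2 : ‖((2 : ℝ) ^ n)⁻¹ • w‖ < ε :=
      hmono w _ n (hN w) ((le_max_left _ _).trans (le_max_right _ _))
    have h3 : ‖((2 : ℝ) ^ n)⁻¹ • (v + w)‖ < ε :=
      hmono _ _ n (hN (v + w)) ((le_max_right _ _).trans (le_max_right _ _))
    rw [hindep' v _ n (hN v) h1, hindep' w _ n (hN w) h2, hindep' (v + w) _ n (hN (v + w)) h3,
      smul_add, hf _ _ h1 h2, smul_add]
  · intro v hv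
    have h0 : ‖((2 : ℝ) ^ 0)⁻¹ • v‖ < ε := by simpa using hv
    have := hindep' v (N v) 0 (hN v) h0
    simpa using this

end Extend

section Main

variable {V A : Type*} [NormedAddCommGroup V] [NormedSpace ℝ V] [CompleteSpace V]
  [AddCommGroup A]

/-- **Abstract exponential map.** -/
theorem exists_exp (Φ : V → A) (M : V × V → V) (hM : ContDiffAt ℝ 2 M 0)
    (hM1 : ∀ᶠ x in 𝓝 (0 : V), M (x, 0) = x) (hM2 : ∀ᶠ y in 𝓝 (0 : V), M (0, y) = y)
    (hinj : ∃ ε > 0, InjOn Φ (ball (0 : V) ε))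
    (hadd : ∀ᶠ p in 𝓝 (0 : V × V), Φ p.1 + Φ p.2 = Φ (M p)) :
    ∃ e : V →+ A, (∃ ε > 0, InjOn e (ball (0 : V) ε)) ∧
      ∀ δ > 0, ∀ᶠ x in 𝓝 (0 : V), ∃ v : V, ‖v‖ < δ ∧ e v = Φ x := by
  obtain ⟨ε1, hε1, hinj⟩ := hinj
  obtain ⟨C4, r4, hr4, hC4, hrem⟩ := exists_bilinear_remainder M hM hM1 hM2
  have M00 : M 0 = 0 := hM1.self_of_nhds
  -- the doubling map
  set D : V → V := fun x => M (x, x) with hD
  have D0 : D 0 = 0 := M00
  have hDc : ContDiffAt ℝ 2 D 0 := by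
    have : ContDiffAt ℝ 2 (fun x : V => (x, x)) 0 := contDiffAt_id.prodMk contDiffAt_id
    exact ContDiffAt.comp (0 : V) (by exact hM) this
  set two : V ≃L[ℝ] V := ContinuousLinearEquiv.smulLeft (Units.mk0 (2 : ℝ) two_ne_zero) with htwo
  have two_apply : ∀ x : V, two x = (2 : ℝ) • x := fun x => rfl
  have hDd : HasFDerivAt D (two : V →L[ℝ] V) 0 := by
    have hMd : HasFDerivAt M (fderiv ℝ M 0) 0 := (hM.differentiableAt (by norm_num)).hasFDerivAt
    have i1 : (fderiv ℝ M 0).comp (ContinuousLinearMap.inl ℝ V V) = ContinuousLinearMap.id ℝ V := by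
      have e1 : HasFDerivAt (fun z => M (z, (0 : V))) ((fderiv ℝ M 0).comp
          (ContinuousLinearMap.inl ℝ V V)) 0 :=
        HasFDerivAt.comp (0 : V) (by exact hMd) (hasFDerivAt_prodMk_left 0 0)
      have e2 : HasFDerivAt (fun z => M (z, (0 : V))) (ContinuousLinearMap.id ℝ V) 0 :=
        (hasFDerivAt_id (0 : V)).congr_of_eventuallyEq hM1
      exact e1.unique e2
    have i2 : (fderiv ℝ M 0).comp (ContinuousLinearMap.inr ℝ V V) = ContinuousLinearMap.id ℝ V := by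
      have e1 : HasFDerivAt (fun z => M ((0 : V), z)) ((fderiv ℝ M 0).comp
          (ContinuousLinearMap.inr ℝ V V)) 0 :=
        HasFDerivAt.comp (0 : V) (by exact hMd) (hasFDerivAt_prodMk_right 0 0)
      have e2 : HasFDerivAt (fun z => M ((0 : V), z)) (ContinuousLinearMap.id ℝ V) 0 :=
        (hasFDerivAt_id (0 : V)).congr_of_eventuallyEq hM2
      exact e1.unique e2
    have e3 : HasFDerivAt D ((fderiv ℝ M 0).comp
        ((ContinuousLinearMap.id ℝ V).prod (ContinuousLinearMap.id ℝ V))) 0 :=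
      HasFDerivAt.comp (0 : V) (by exact hMd) ((hasFDerivAt_id (0 : V)).prodMk (hasFDerivAt_id 0))
    convert e3 using 1
    ext v
    have j1 := DFunLike.congr_fun i1 v
    have j2 := DFunLike.congr_fun i2 v
    simp only [ContinuousLinearMap.comp_apply, ContinuousLinearMap.inl_apply,
      ContinuousLinearMap.inr_apply, ContinuousLinearMap.id_apply] at j1 j2
    simp only [ContinuousLinearEquiv.coe_coe, two_apply, ContinuousLinearMap.comp_apply,
      ContinuousLinearMap.prod_apply, ContinuousLinearMap.id_apply]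
    have : ((v, v) : V × V) = (v, 0) + (0, v) := by simp
    rw [this, map_add, j1, j2, two_smul]
  have hDs : HasStrictFDerivAt D (two : V →L[ℝ] V) 0 := hDc.hasStrictFDerivAt' hDd (by norm_num)
  set H : V → V := hDs.localInverse D two 0 with hHdef
  have hHc : ContDiffAt ℝ 2 H 0 := by
    have := hDc.to_localInverse hDd (by norm_num)
    rw [D0] at this
    exact this
  have hHD : ∀ᶠ x in 𝓝 (0 : V), H (D x) = x := hDs.eventually_left_inverse
  have hDH : ∀ᶠ x in 𝓝 (0 : V), D (H x) = x := by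
    have := hDs.eventually_right_inverse
    rwa [D0] at this
  have H0 : H 0 = 0 := by
    have := hHD.self_of_nhds
    rwa [D0] at this
  have hHd : HasFDerivAt H (two.symm : V →L[ℝ] V) 0 := by
    have := hDs.to_localInverse.hasFDerivAt
    rw [D0] at this
    exact this
  -- eta = H - 1/2
  have hηc : ContDiffAt ℝ 2 (fun x => H x - (2 : ℝ)⁻¹ • x) 0 :=
    hHc.sub (contDiffAt_id.const_smul _)
  have two_symm_apply : ∀ x : V, two.symm x = (2 : ℝ)⁻¹ • x := by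
    intro x
    rw [ContinuousLinearEquiv.symm_apply_eq, two_apply, smul_smul]
    norm_num
  have hηd : fderiv ℝ (fun x => H x - (2 : ℝ)⁻¹ • x) 0 = 0 := by
    have : HasFDerivAt (fun x : V => H x - (2 : ℝ)⁻¹ • x)
        ((two.symm : V →L[ℝ] V) - (2 : ℝ)⁻¹ • ContinuousLinearMap.id ℝ V) 0 :=
      hHd.sub ((hasFDerivAt_id (0 : V)).const_smul _)
    rw [this.fderiv]
    ext v
    simp [two_symm_apply]
  obtain ⟨C5, r5, hr5, hC5, hη⟩ := exists_quadratic_lipschitz _ hηc hηd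
  -- collect radii
  have hMcont : ContinuousAt M 0 := hM.continuousAt
  have hMtend : Tendsto M (𝓝 0) (𝓝 0) := by
    have := hMcont.tendsto; rwa [M00] at this
  have hDtend : Tendsto D (𝓝 0) (𝓝 0) := by
    have := hDc.continuousAt.tendsto; rwa [D0] at this
  have hHtend : Tendsto H (𝓝 0) (𝓝 0) := by
    have := hHc.continuousAt.tendsto; rwa [H0] at this
  -- commutation of H with M
  have hprod : (𝓝 (0 : V × V)) = 𝓝 (0 : V) ×ˢ 𝓝 (0 : V) := by
    rw [← nhds_prod_eq]; rfl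
  have hcomm : ∀ᶠ p in 𝓝 (0 : V × V), H (M p) = M (H p.1, H p.2) := by
    have t1 : Tendsto (fun p : V × V => p.1) (𝓝 0) (𝓝 0) := continuous_fst.tendsto _
    have t2 : Tendsto (fun p : V × V => p.2) (𝓝 0) (𝓝 0) := continuous_snd.tendsto _
    have tH : Tendsto (fun p : V × V => (H p.1, H p.2)) (𝓝 0) (𝓝 0) := by
      rw [show (0 : V × V) = (0, 0) from rfl]
      exact (hHtend.comp t1).prodMk_nhds (hHtend.comp t2)
    have tMH : Tendsto (fun p : V × V => M (H p.1, H p.2)) (𝓝 0) (𝓝 0) := hMtend.comp tH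
    have tdiag : Tendsto (fun x : V => (x, x)) (𝓝 0) (𝓝 (0 : V × V)) := by
      have : Tendsto (fun x : V => (x, x)) (𝓝 0) (𝓝 ((0 : V), (0 : V))) :=
        tendsto_id.prodMk_nhds tendsto_id
      exact this
    have a1 : ∀ᶠ p in 𝓝 (0 : V × V), H (D (M (H p.1, H p.2))) = M (H p.1, H p.2) :=
      tMH.eventually hHD
    have a2 : ∀ᶠ p in 𝓝 (0 : V × V), D (H p.1) = p.1 := t1.eventually hDH
    have a3 : ∀ᶠ p in 𝓝 (0 : V × V), D (H p.2) = p.2 := t2.eventually hDH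
    have a4 : ∀ᶠ p in 𝓝 (0 : V × V), D (M (H p.1, H p.2)) ∈ ball (0 : V) ε1 :=
      (hDtend.comp tMH).eventually (ball_mem_nhds _ hε1)
    have a5 : ∀ᶠ p in 𝓝 (0 : V × V), M p ∈ ball (0 : V) ε1 :=
      hMtend.eventually (ball_mem_nhds _ hε1)
    have a6 : ∀ᶠ p in 𝓝 (0 : V × V),
        Φ (M (H p.1, H p.2)) + Φ (M (H p.1, H p.2)) = Φ (D (M (H p.1, H p.2))) :=
      (tdiag.comp tMH).eventually hadd
    have a7 : ∀ᶠ p in 𝓝 (0 : V × V), Φ (H p.1) + Φ (H p.2) = Φ (M (H p.1, H p.2)) :=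
      tH.eventually hadd
    have a8 : ∀ᶠ p in 𝓝 (0 : V × V), Φ (H p.1) + Φ (H p.1) = Φ (D (H p.1)) :=
      ((tdiag.comp hHtend).comp t1).eventually hadd
    have a9 : ∀ᶠ p in 𝓝 (0 : V × V), Φ (H p.2) + Φ (H p.2) = Φ (D (H p.2)) :=
      ((tdiag.comp hHtend).comp t2).eventually hadd
    filter_upwards [a1, a2, a3, a4, a5, a6, a7, a8, a9, hadd] with p a1 a2 a3 a4 a5 a6 a7 a8 a9 a10
    rw [← a1]
    congr 1
    apply (hinj a4 a5 ?_).symm
    rw [← a6, ← a7, ← a10]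
    rw [a2] at a8
    rw [a3] at a9
    rw [← a8, ← a9]
    abel
  obtain ⟨r6, hr6, hcomm⟩ := Metric.eventually_nhds_iff_ball.1 hcomm
  -- the radius r
  obtain ⟨r, hr, hrr⟩ : ∃ r : ℝ, 0 < r ∧ (r < r5 ∧ C5 * r ≤ 1 / 64 ∧ r < r4 ∧ r < r6 ∧ r < ε1) := by
    refine ⟨min (min (r5 / 2) (1 / (64 * (C5 + 1)))) (min (r4 / 2) (min (r6 / 2) (ε1 / 2))),
      by positivity, ?_, ?_, ?_, ?_, ?_⟩
    · exact lt_of_le_of_lt ((min_le_left _ _).trans (min_le_left _ _)) (by linarith)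
    · have h1 : min (min (r5 / 2) (1 / (64 * (C5 + 1)))) (min (r4 / 2) (min (r6 / 2) (ε1 / 2)))
          ≤ 1 / (64 * (C5 + 1)) := (min_le_left _ _).trans (min_le_right _ _)
      calc C5 * _ ≤ C5 * (1 / (64 * (C5 + 1))) := mul_le_mul_of_nonneg_left h1 hC5
        _ = (C5 / (C5 + 1)) * (1 / 64) := by field_simp
        _ ≤ 1 * (1 / 64) := by
          apply mul_le_mul_of_nonneg_right _ (by norm_num)
          rw [div_le_one (by linarith)]
          linarith
        _ = 1 / 64 := by norm_num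
    · exact lt_of_le_of_lt ((min_le_right _ _).trans (min_le_left _ _)) (by linarith)
    · exact lt_of_le_of_lt ((min_le_right _ _).trans ((min_le_right _ _).trans (min_le_left _ _)))
        (by linarith)
    · exact lt_of_le_of_lt ((min_le_right _ _).trans ((min_le_right _ _).trans (min_le_right _ _)))
        (by linarith)
  obtain ⟨hrr5, hCr, hrr4, hrr6, hrε1⟩ := hrr
  have hcb : ∀ x ∈ closedBall (0 : V) r, ‖x‖ ≤ r := fun x hx => by simpa using hx
  obtain ⟨hit, hbd, L, hL, hLip⟩ := exists_log H C5 r hr hC5 hCr H0 (by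
    intro x hx y hy
    have := hη x (by rw [mem_ball_zero_iff]; exact lt_of_le_of_lt (hcb x hx) hrr5) y
      (by rw [mem_ball_zero_iff]; exact lt_of_le_of_lt (hcb y hy) hrr5)
    refine le_trans (le_of_eq ?_) this
    congr 1
    rw [smul_sub]; abel)
  have hit' : ∀ x ∈ closedBall (0 : V) r, ∀ k : ℕ, ‖H^[k] x‖ ≤ r := by
    intro x hx k
    refine (hit x hx k).trans ((mul_le_of_le_one_left (norm_nonneg _) ?_).trans (hcb x hx))
    exact pow_le_one₀ (by norm_num) (by norm_num)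
  have hcomm' : ∀ x ∈ closedBall (0 : V) r, ∀ y ∈ closedBall (0 : V) r,
      H (M (x, y)) = M (H x, H y) := by
    intro x hx y hy
    refine hcomm (x, y) ?_
    rw [mem_ball_zero_iff, Prod.norm_mk]
    exact lt_of_le_of_lt (max_le (hcb x hx) (hcb y hy)) hrr6
  have hcommk : ∀ x ∈ closedBall (0 : V) r, ∀ y ∈ closedBall (0 : V) r, ∀ k : ℕ,
      H^[k] (M (x, y)) = M (H^[k] x, H^[k] y) := by
    intro x hx y hy k
    induction k with
    | zero => rfl
    | succ k ih =>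
      rw [Function.iterate_succ_apply', ih, Function.iterate_succ_apply',
        Function.iterate_succ_apply']
      exact hcomm' _ (by simpa using hit' x hx k) _ (by simpa using hit' y hy k)
  -- additivity of L
  have hLadd : ∀ x ∈ closedBall (0 : V) r, ∀ y ∈ closedBall (0 : V) r,
      M (x, y) ∈ closedBall (0 : V) r → L (M (x, y)) = L x + L y := by
    intro x hx y hy hxy
    have t1 := hL _ hxy
    have t2 : Tendsto (fun k : ℕ => (2 : ℝ) ^ k • H^[k] x + (2 : ℝ) ^ k • H^[k] y) atTop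
        (𝓝 (L x + L y)) := (hL x hx).add (hL y hy)
    have t3 : Tendsto (fun k : ℕ => (2 : ℝ) ^ k • H^[k] (M (x, y)) -
        ((2 : ℝ) ^ k • H^[k] x + (2 : ℝ) ^ k • H^[k] y)) atTop (𝓝 0) := by
      have hb : Tendsto (fun k : ℕ => (C4 * (2 * ‖x‖) * ‖y‖) * ((3 : ℝ) / 4) ^ k) atTop (𝓝 0) := by
        have := (tendsto_pow_atTop_nhds_zero_of_lt_one (r := (3 : ℝ) / 4) (by norm_num)
          (by norm_num)).const_mul (C4 * (2 * ‖x‖) * ‖y‖)
        simpa using this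
      refine squeeze_zero_norm (fun k => ?_) hb
      rw [hcommk x hx y hy k]
      have e : (2 : ℝ) ^ k • M (H^[k] x, H^[k] y) -
          ((2 : ℝ) ^ k • H^[k] x + (2 : ℝ) ^ k • H^[k] y) =
          (2 : ℝ) ^ k • (M (H^[k] x, H^[k] y) - H^[k] x - H^[k] y) := by
        rw [smul_sub, smul_sub]; abel
      rw [e, norm_smul, norm_pow, Real.norm_eq_abs, abs_two]
      have h1 := hrem (H^[k] x) (H^[k] y) (lt_of_le_of_lt (hit' x hx k) hrr4)
        (lt_of_le_of_lt (hit' y hy k) hrr4)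
      calc (2 : ℝ) ^ k * ‖M (H^[k] x, H^[k] y) - H^[k] x - H^[k] y‖
          ≤ 2 ^ k * (C4 * ‖H^[k] x‖ * ‖H^[k] y‖) := by gcongr
        _ = C4 * (2 ^ k * ‖H^[k] x‖) * ‖H^[k] y‖ := by ring
        _ ≤ C4 * (2 * ‖x‖) * ((3 / 4) ^ k * ‖y‖) := by
            have h2 := hbd x hx k
            have h3 := hit y hy k
            gcongr
        _ = (C4 * (2 * ‖x‖) * ‖y‖) * (3 / 4) ^ k := by ring
    have t4 := t1.sub t2
    have := tendsto_nhds_unique t3 t4
    exact (sub_eq_zero.1 this.symm)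
  -- surjectivity
  have h0mem : (0 : V) ∈ closedBall (0 : V) r := by simp [hr.le]
  have L0 : L 0 = 0 := by
    have t1 := hL 0 h0mem
    have hi0 : ∀ k : ℕ, H^[k] 0 = 0 := by
      intro k
      induction k with
      | zero => rfl
      | succ k ih => rw [Function.iterate_succ_apply', ih, H0]
    simp only [hi0, smul_zero] at t1
    exact (tendsto_nhds_unique t1 tendsto_const_nhds)
  have hLinj : ∀ x ∈ closedBall (0 : V) r, ∀ y ∈ closedBall (0 : V) r, L x = L y → x = y := by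
    intro x hx y hy h
    have h1 := hLip x hx y hy
    rw [h, sub_self, zero_sub, norm_neg] at h1
    have : ‖x - y‖ = 0 := by
      have := norm_nonneg (x - y)
      linarith
    exact sub_eq_zero.1 (norm_eq_zero.1 this)
  have hLnorm : ∀ x ∈ closedBall (0 : V) r, ‖L x‖ ≤ (5 / 4) * ‖x‖ := by
    intro x hx
    have h1 := hLip x hx 0 h0mem
    rw [L0, sub_zero, sub_zero] at h1
    have h2 : ‖L x‖ ≤ ‖L x - x‖ + ‖x‖ := by simpa using norm_add_le (L x - x) x
    linarith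
  have happ : ApproximatesLinearOn L (ContinuousLinearEquiv.refl ℝ V : V →L[ℝ] V)
      (closedBall (0 : V) r) (1 / 4) := by
    intro x hx y hy
    have := hLip x hx y hy
    simpa using this
  have hsurj : ∀ v : V, ‖v‖ ≤ (3 / 4) * r → ∃ x : V, ‖x‖ ≤ (4 / 3) * ‖v‖ ∧ L x = v := by
    intro v hv
    have hs := happ.surjOn_closedBall_of_nonlinearRightInverse
      (ContinuousLinearMap.NonlinearRightInverse.mk id 1 (by simp) (by simp))
      (ε := (4 / 3) * ‖v‖) (b := 0) (by positivity)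
      (closedBall_subset_closedBall (by linarith))
    have hv' : v ∈ closedBall (L 0) ((((1 : NNReal) : ℝ)⁻¹ - ((1 / 4 : NNReal) : ℝ)) *
        ((4 / 3) * ‖v‖)) := by
      rw [L0, mem_closedBall_zero_iff]
      push_cast
      apply le_of_eq
      ring
    obtain ⟨x, hx, hxv⟩ := hs hv'
    exact ⟨x, by simpa using hx, hxv⟩
  choose! E hE1 hE2 using hsurj
  have hEmem : ∀ v : V, ‖v‖ ≤ (3 / 4) * r → E v ∈ closedBall (0 : V) r := by
    intro v hv
    rw [mem_closedBall_zero_iff]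
    refine (hE1 v hv).trans ?_
    linarith
  -- radius rho
  have hev : ∀ᶠ p in 𝓝 (0 : V × V), M p ∈ closedBall (0 : V) r ∧ Φ p.1 + Φ p.2 = Φ (M p) :=
    (hMtend.eventually (closedBall_mem_nhds _ hr)).and hadd
  obtain ⟨ρ, hρ, hρM⟩ := Metric.eventually_nhds_iff_ball.1 hev
  have hρM' : ∀ x y : V, ‖x‖ < ρ → ‖y‖ < ρ → M (x, y) ∈ closedBall (0 : V) r ∧
      Φ x + Φ y = Φ (M (x, y)) := by
    intro x y hx hy
    refine hρM (x, y) ?_
    rw [mem_ball_zero_iff, Prod.norm_mk]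
    exact max_lt hx hy
  set ε : ℝ := min ((3 / 8) * r) ((3 / 4) * ρ) with hεdef
  have hε : 0 < ε := by positivity
  have hεr : ε ≤ (3 / 8) * r := min_le_left _ _
  have hερ : ε ≤ (3 / 4) * ρ := min_le_right _ _
  obtain ⟨e, he⟩ := exists_extend (fun v => Φ (E v)) ε hε (by
    intro v w hv hw
    have hv1 : ‖v‖ ≤ (3 / 4) * r := by linarith
    have hw1 : ‖w‖ ≤ (3 / 4) * r := by linarith
    have hvw : ‖v + w‖ ≤ (3 / 4) * r := by
      have := norm_add_le v w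
      linarith
    have hEv : ‖E v‖ < ρ := by
      have := hE1 v hv1
      linarith
    have hEw : ‖E w‖ < ρ := by
      have := hE1 w hw1
      linarith
    obtain ⟨m1, m2⟩ := hρM' (E v) (E w) hEv hEw
    have hLM := hLadd (E v) (hEmem v hv1) (E w) (hEmem w hw1) m1
    rw [hE2 v hv1, hE2 w hw1, ← hE2 (v + w) hvw] at hLM
    have := hLinj _ m1 _ (hEmem _ hvw) hLM
    show Φ (E (v + w)) = Φ (E v) + Φ (E w)
    rw [m2, this])
  refine ⟨e, ⟨ε, hε, ?_⟩, ?_⟩
  · intro v hv w hw hvw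
    rw [mem_ball_zero_iff] at hv hw
    rw [he v hv, he w hw] at hvw
    have hv1 : ‖v‖ ≤ (3 / 4) * r := by linarith
    have hw1 : ‖w‖ ≤ (3 / 4) * r := by linarith
    have h1 : E v = E w := by
      refine hinj ?_ ?_ hvw
      · rw [mem_ball_zero_iff]
        exact lt_of_le_of_lt (hcb _ (hEmem v hv1)) hrε1
      · rw [mem_ball_zero_iff]
        exact lt_of_le_of_lt (hcb _ (hEmem w hw1)) hrε1
    rw [← hE2 v hv1, ← hE2 w hw1, h1]
  · intro δ hδ
    have : ∀ᶠ x in 𝓝 (0 : V), x ∈ ball (0 : V) (min r (min (δ / 2) (ε / 2))) :=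
      ball_mem_nhds _ (by positivity)
    filter_upwards [this] with x hx
    rw [mem_ball_zero_iff] at hx
    have hxr : ‖x‖ < r := lt_of_lt_of_le hx (min_le_left _ _)
    have hxδ : ‖x‖ < δ / 2 := lt_of_lt_of_le hx ((min_le_right _ _).trans (min_le_left _ _))
    have hxε : ‖x‖ < ε / 2 := lt_of_lt_of_le hx ((min_le_right _ _).trans (min_le_right _ _))
    have hxm : x ∈ closedBall (0 : V) r := by simpa using hxr.le
    have hLn := hLnorm x hxm
    have h0 := norm_nonneg x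
    refine ⟨L x, by linarith, ?_⟩
    have hLε : ‖L x‖ < ε := by linarith
    rw [he _ hLε]
    have hLr : ‖L x‖ ≤ (3 / 4) * r := by linarith
    have := hLinj _ (hEmem _ hLr) _ hxm (hE2 _ hLr)
    show Φ (E (L x)) = Φ x
    rw [this]

end Main

end Fermat.Agent.H27
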