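/-
H27Anal: analytic implicit function in one unknown; analytic dependence of solutions of linear
systems.
-/
import Mathlib

set_option autoImplicit false

open Topology Filter

namespace Fermat.Agent.H27

theorem exists_implicit_gen {E : Type*} [NormedAddCommGroup E] [NormedSpace ℂ E] [CompleteSpace E]
    (G : E × ℂ → ℂ) (hG : ContDiffAt ℂ ⊤ G 0) (h0 : G 0 = 0) (c : ℂ) (hc : c ≠ 0)
    (hd : HasDerivAt (fun w => G (0, w)) c 0) :
    ∃ U : E → ℂ, ContDiffAt ℂ ⊤ U 0 ∧ U 0 = 0 ∧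
      ∀ᶠ p : E × ℂ in 𝓝 0, (G p = 0 ↔ U p.1 = p.2) := by
  set f : E × ℂ → E × ℂ := fun p => (p.1, G p) with hf
  have hfa : ContDiffAt ℂ ⊤ f 0 := contDiffAt_fst.prodMk hG
  have htop : (⊤ : WithTop ℕ∞) ≠ 0 := by simp
  have hgd : DifferentiableAt ℂ G 0 := hG.differentiableAt htop
  set g' := fderiv ℂ G 0 with hg'
  have hgh : HasFDerivAt G g' 0 := hgd.hasFDerivAt
  have hgc : ∀ y : ℂ, g' (0, y) = c * y := by
    intro y
    have h2 : HasDerivAt (fun w => ((0 : E), w)) ((0 : E), (1 : ℂ)) (0 : ℂ) :=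
      (hasDerivAt_const (0 : ℂ) (0 : E)).prodMk (hasDerivAt_id (0 : ℂ))
    have h3 : HasDerivAt (fun w => G (0, w)) (g' (0, 1)) (0 : ℂ) :=
      HasFDerivAt.comp_hasDerivAt (x := (0 : ℂ)) (l := G) (l' := g') (f := fun w => ((0 : E), w))
        (f' := ((0 : E), (1 : ℂ))) hgh h2
    have h4 : g' (0, 1) = c := h3.unique hd
    have h5 : ((0 : E), y) = y • ((0 : E), (1 : ℂ)) := by simp
    rw [h5, map_smul, h4, smul_eq_mul, mul_comm]
  set cu : ℂ ≃L[ℂ] ℂ := ContinuousLinearEquiv.smulLeft (Units.mk0 c hc) with hcu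
  set e : (E × ℂ) ≃L[ℂ] (E × ℂ) :=
    ContinuousLinearEquiv.skewProd (ContinuousLinearEquiv.refl ℂ E) cu
      (g'.comp (ContinuousLinearMap.inl ℂ E ℂ)) with he
  have hef : HasFDerivAt f (e : E × ℂ →L[ℂ] E × ℂ) 0 := by
    have h2 : HasFDerivAt f ((ContinuousLinearMap.fst ℂ E ℂ).prod g') 0 :=
      hasFDerivAt_fst.prodMk hgh
    convert h2 using 1
    ext
    · simp [he]
    · simp [he]
    · simp [he]
    · simp [he, hcu, hgc]
  set L := hfa.localInverse hef htop with hL
  have hLc : ContDiffAt ℂ ⊤ L (f 0) := hfa.to_localInverse hef htop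
  have hf0 : f 0 = 0 := by simp [hf, h0]
  have hL0 : L 0 = 0 := by
    have := hfa.localInverse_apply_image hef htop
    rw [hf0] at this
    exact this
  have hstrict := hfa.hasStrictFDerivAt' hef htop
  have hleft : ∀ᶠ p in 𝓝 (0 : E × ℂ), L (f p) = p := hstrict.eventually_left_inverse
  have hright : ∀ᶠ q in 𝓝 (f 0), f (L q) = q := hstrict.eventually_right_inverse
  rw [hf0] at hright hLc
  have hcur : ContDiffAt ℂ ⊤ (fun z : E => (z, (0 : ℂ))) 0 :=
    contDiffAt_id.prodMk contDiffAt_const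
  refine ⟨fun z => (L (z, 0)).2, ?_, ?_, ?_⟩
  · have h2 : ContDiffAt ℂ ⊤ (L ∘ (fun z : E => (z, (0 : ℂ)))) 0 :=
      ContDiffAt.comp (x := (0 : E)) (g := L) (f := fun z : E => (z, (0 : ℂ))) hLc hcur
    exact contDiffAt_snd.comp (0 : E) h2
  · have : L ((0 : E), (0 : ℂ)) = 0 := hL0
    simp [this]
  · have ht : Tendsto (fun p : E × ℂ => (p.1, (0 : ℂ))) (𝓝 0) (𝓝 0) := by
      have : Continuous (fun p : E × ℂ => (p.1, (0 : ℂ))) := by fun_prop
      have h2 := this.tendsto 0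
      exact h2
    filter_upwards [hleft, ht.eventually hright] with p hp1 hp2
    constructor
    · intro hp
      have h2 : f p = (p.1, 0) := by
        have : f p = (p.1, G p) := rfl
        rw [this, hp]
      rw [h2] at hp1
      rw [hp1]
    · intro hp
      have hp3 : f (L (p.1, 0)) = (p.1, 0) := hp2
      have h2 : (L (p.1, 0)).1 = p.1 := by
        have h4 : (f (L (p.1, 0))).1 = p.1 := by rw [hp3]
        exact h4
      have h3 : G (L (p.1, 0)) = 0 := by
        have h4 : (f (L (p.1, 0))).2 = 0 := by rw [hp3]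
        exact h4
      have h5 : L (p.1, 0) = p := Prod.ext h2 hp
      rw [h5] at h3
      exact h3

section Linear

variable {E : Type*} [NormedAddCommGroup E] [NormedSpace ℂ E] {ι : Type*} [Fintype ι]
  [DecidableEq ι]

theorem contDiffAt_det {A : E → Matrix ι ι ℂ} {x : E}
    (h : ∀ i j, ContDiffAt ℂ ⊤ (fun z => A z i j) x) :
    ContDiffAt ℂ ⊤ (fun z => (A z).det) x := by
  simp only [Matrix.det_apply]
  apply ContDiffAt.sum
  intro σ _
  have h1 : ContDiffAt ℂ ⊤ (fun z => ∏ i, A z (σ i) i) x := contDiffAt_prod fun i _ => h _ _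
  have h2 : (fun z => Equiv.Perm.sign σ • ∏ i, A z (σ i) i) =
      fun z => ((Equiv.Perm.sign σ : ℤ) : ℂ) * ∏ i, A z (σ i) i := by
    funext z
    rw [Units.smul_def, zsmul_eq_mul]
  rw [h2]
  exact contDiffAt_const.mul h1

/-- Solutions of linear systems depend analytically on parameters. -/
theorem exists_solution {A : E → Matrix ι ι ℂ} {b : E → ι → ℂ} {x : E}
    (hA : ∀ i j, ContDiffAt ℂ ⊤ (fun z => A z i j) x)
    (hb : ∀ i, ContDiffAt ℂ ⊤ (fun z => b z i) x) (hdet : (A x).det ≠ 0) :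
    ∃ c : E → ι → ℂ, (∀ i, ContDiffAt ℂ ⊤ (fun z => c z i) x) ∧
      (∀ᶠ z in 𝓝 x, (A z).det ≠ 0 ∧ (A z).mulVec (c z) = b z) := by
  have hdetA : ContDiffAt ℂ ⊤ (fun z => (A z).det) x := contDiffAt_det hA
  refine ⟨fun z => (A z).det⁻¹ • (A z).adjugate.mulVec (b z), ?_, ?_⟩
  · intro i
    have h1 : (fun z => ((A z).det⁻¹ • (A z).adjugate.mulVec (b z)) i) =
        fun z => (A z).det⁻¹ * ∑ j, (A z).adjugate i j * b z j := by
      funext z
      simp [Matrix.mulVec, dotProduct]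
    rw [h1]
    refine (hdetA.inv hdet).mul (ContDiffAt.sum fun j _ => ContDiffAt.mul ?_ (hb j))
    simp only [Matrix.adjugate_apply]
    apply contDiffAt_det
    intro k l
    by_cases hk : k = j
    · subst hk
      simp only [Matrix.updateRow_self]
      exact contDiffAt_const
    · simp only [Matrix.updateRow_ne hk]
      exact hA k l
  · have h1 : ∀ᶠ z in 𝓝 x, (A z).det ≠ 0 := hdetA.continuousAt.eventually_ne hdet
    filter_upwards [h1] with z hz
    refine ⟨hz, ?_⟩
    rw [Matrix.mulVec_smul, Matrix.mulVec_mulVec, Matrix.mul_adjugate, Matrix.smul_mulVec,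
      Matrix.one_mulVec, smul_smul, inv_mul_cancel₀ hz, one_smul]

end Linear

end Fermat.Agent.H27
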