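/-
H27Pts: moving points in discs, reduced divisors, separation.
-/
import Mathlib
import Fermat.Agent.H27DiscDef
import Fermat.Agent.H3RR_Special

set_option autoImplicit false

open AlgebraicCurve WithZero Polynomial Topology Filter Metric

namespace Fermat.Agent.H27

open Fermat.Agent.H3RR

set_option linter.unusedSectionVars false

variable {F : Type*} [Field F] [Algebra ℂ F] [IsFF ℂ F]

/-- Two different places are separated by a function. -/
theorem exists_sep {P Q : Place ℂ F} (h : P ≠ Q) : ∃ f : F, f ≠ 0 ∧ P.adicValuation f < 1 ∧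
    Q.adicValuation f⁻¹ < 1 := by
  obtain ⟨f, hf2, hf1⟩ := exists_lt_one_lt h.symm
  refine ⟨f, ?_, hf1, ?_⟩
  · rintro rfl
    rw [map_zero] at hf2
    exact absurd hf2 (by simp)
  · rw [map_inv₀]
    exact inv_lt_one_of_one_lt₀ hf2

namespace AnDisc

variable {P P' : Place ℂ F} (D : AnDisc P) (D' : AnDisc P')

theorem eventually_regular {f : F} (hf : P.adicValuation f ≤ 1) :
    ∀ᶠ z in 𝓝 (0 : ℂ), (D.σ z).adicValuation f ≤ 1 :=
  (D.regular 0 (by simpa using D.r_pos) f (by rwa [D.σ_zero])).1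

theorem analyticAt_val {f : F} (hf : P.adicValuation f ≤ 1) :
    AnalyticAt ℂ (fun z => val (D.σ z) f) 0 :=
  (D.regular 0 (by simpa using D.r_pos) f (by rwa [D.σ_zero])).2

theorem tendsto_val {f : F} (hf : P.adicValuation f ≤ 1) :
    Tendsto (fun z => val (D.σ z) f) (𝓝 0) (𝓝 (val P f)) := by
  have h := (D.analyticAt_val hf).continuousAt.tendsto
  rw [D.σ_zero] at h
  exact h

theorem eventually_lt : ∀ᶠ z in 𝓝 (0 : ℂ), ‖z‖ < D.r := by
  have h0 : ‖(0:ℂ)‖ < D.r := by simpa using D.r_pos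
  exact (continuous_norm.tendsto _).eventually (gt_mem_nhds h0)

/-- Points on different discs are different. -/
theorem eventually_ne (h : P ≠ P') :
    ∀ᶠ p : ℂ × ℂ in 𝓝 (0, 0), D.σ p.1 ≠ D'.σ p.2 := by
  obtain ⟨f, hf0, hf1, hf2⟩ := exists_sep h
  have hv1 : val P f = 0 := (val_eq_zero_iff P hf1.le).2 hf1
  have hv2 : val P' f⁻¹ = 0 := (val_eq_zero_iff P' hf2.le).2 hf2
  have h1 := D.tendsto_val hf1.le
  have h2 := D'.tendsto_val hf2.le
  rw [hv1] at h1
  rw [hv2] at h2
  have e1 : ∀ᶠ z in 𝓝 (0 : ℂ), ‖val (D.σ z) f‖ < 1 := by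
    have := h1.norm
    rw [norm_zero] at this
    exact this.eventually (gt_mem_nhds zero_lt_one)
  have e2 : ∀ᶠ z in 𝓝 (0 : ℂ), ‖val (D'.σ z) f⁻¹‖ < 1 := by
    have := h2.norm
    rw [norm_zero] at this
    exact this.eventually (gt_mem_nhds zero_lt_one)
  have e3 := D.eventually_regular hf1.le
  have e4 := D'.eventually_regular hf2.le
  have e5 := (e1.and e3).prod_nhds (e2.and e4)
  filter_upwards [e5] with p hp heq
  obtain ⟨⟨h3, h4⟩, h5, h6⟩ := hp
  rw [← heq] at h5 h6
  have h7 : val (D.σ p.1) f⁻¹ * val (D.σ p.1) f = 1 := by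
    rw [← val_mul _ h6 h4, inv_mul_cancel₀ hf0, val_one]
  have h8 : ‖val (D.σ p.1) f⁻¹‖ * ‖val (D.σ p.1) f‖ = 1 := by rw [← norm_mul, h7, norm_one]
  have h9 : ‖val (D.σ p.1) f⁻¹‖ * ‖val (D.σ p.1) f‖ < 1 := by
    have := mul_lt_mul'' h5 h3 (norm_nonneg _) (norm_nonneg _)
    rwa [one_mul] at this
  linarith

/-- A function of order one at the centre has a simple zero in the parameter. -/
theorem hasDerivAt_val_of_ord_one {h : F} (hh : P.adicValuation h = exp (-1 : ℤ)) :
    ∃ c : ℂ, c ≠ 0 ∧ HasDerivAt (fun z => val (D.σ z) h) c 0 := by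
  have h0 : ‖(0:ℂ)‖ < D.r := by simpa using D.r_pos
  have ht := D.ord_t 0 h0
  rw [map_zero, sub_zero, D.σ_zero] at ht
  have ht0 : D.t ≠ 0 := by
    intro h1
    rw [h1, Place.ord_zero] at ht
    exact absurd ht (by norm_num)
  have hh0 : h ≠ 0 := by
    rintro rfl
    rw [map_zero] at hh
    exact exp_ne_zero hh.symm
  have htv : P.adicValuation D.t = exp (-1 : ℤ) := by
    rw [P.adicValuation_eq_exp_neg_ord ht0, ht]
  set e := h / D.t with he
  have he1 : P.adicValuation e = 1 := by
    rw [he, map_div₀, hh, htv, div_self exp_ne_zero]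
  have heh : h = D.t * e := by rw [he]; field_simp
  have hev := D.analyticAt_val he1.le
  have hev0 : val P e ≠ 0 := (val_ne_zero_iff P he1.le).2 he1
  refine ⟨val P e, hev0, ?_⟩
  have h1 : HasDerivAt (fun z : ℂ => z * val (D.σ z) e) (val P e) 0 := by
    have h2 := (hasDerivAt_id (0:ℂ)).mul hev.differentiableAt.hasDerivAt
    simp only [id, one_mul, zero_mul, add_zero, D.σ_zero] at h2
    exact h2
  refine h1.congr_of_eventuallyEq ?_
  filter_upwards [D.eventually_regular he1.le, D.eventually_lt] with z h3 h4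
  have h5 : val (D.σ z) h = val (D.σ z) D.t * val (D.σ z) e := by
    rw [← val_mul _ (D.t_mem z h4) h3, ← heh]
  rw [h5, D.val_t z h4]

theorem eventually_ne_center : ∀ᶠ z in 𝓝 (0 : ℂ), z ≠ 0 → D.σ z ≠ P := by
  filter_upwards [D.eventually_lt] with z hz hz0 h
  apply hz0
  exact D.σ_inj hz (by simpa using D.r_pos) (h.trans D.σ_zero.symm)

end AnDisc

section Multi

variable {m : Type*} [Fintype m] {Q : m → Place ℂ F} (D : ∀ k, AnDisc (Q k))

/-- Moving points. -/
noncomputable def pt (p : m → ℂ) (k : m) : Place ℂ F := (D k).σ (p k)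

/-- The sum of the moving points. -/
noncomputable def dd (p : m → ℂ) : Divisor ℂ F := ∑ k, Finsupp.single (pt D p k) 1

theorem pt_zero (k : m) : pt D 0 k = Q k := (D k).σ_zero

theorem dd_zero : dd D 0 = ∑ k, Finsupp.single (Q k) 1 := by
  unfold dd
  simp only [pt_zero]

theorem dd_nonneg (p : m → ℂ) : 0 ≤ dd D p :=
  Finset.sum_nonneg fun v _ => by rw [Finsupp.single_nonneg]; norm_num

theorem degree_dd (p : m → ℂ) : Divisor.degree (dd D p) = Fintype.card m := by
  unfold dd
  rw [map_sum]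
  simp [Divisor.degree_single, deg_eq_one]

theorem sum_single_apply_of_injective {P : m → Place ℂ F} (hP : Function.Injective P) (k : m) :
    (∑ l, Finsupp.single (P l) 1 : Divisor ℂ F) (P k) = 1 := by
  classical
  rw [Finsupp.finsetSum_apply, Finset.sum_eq_single k]
  · exact Finsupp.single_eq_same
  · intro l _ hl
    exact Finsupp.single_eq_of_ne (fun h => hl (hP h).symm)
  · intro h
    exact absurd (Finset.mem_univ k) h

theorem sum_single_apply_of_forall_ne {P : m → Place ℂ F} {v : Place ℂ F} (h : ∀ l, P l ≠ v) :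
    (∑ l, Finsupp.single (P l) 1 : Divisor ℂ F) v = 0 := by
  classical
  rw [Finsupp.finsetSum_apply]
  apply Finset.sum_eq_zero
  intro l _
  exact Finsupp.single_eq_of_ne (fun h' => h l h'.symm)

theorem le_sum_single_apply {P : m → Place ℂ F} (k : m) :
    1 ≤ (∑ l, Finsupp.single (P l) 1 : Divisor ℂ F) (P k) := by
  classical
  rw [Finsupp.finsetSum_apply]
  calc (1 : ℤ) = (Finsupp.single (P k) 1 : Divisor ℂ F) (P k) := Finsupp.single_eq_same.symm
    _ ≤ _ := Finset.single_le_sum (f := fun l => (Finsupp.single (P l) 1 : Divisor ℂ F) (P k))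
        (fun l _ => by
          have : (0 : Divisor ℂ F) ≤ Finsupp.single (P l) 1 := by
            rw [Finsupp.single_nonneg]; norm_num
          exact Finsupp.le_def.mp this (P k)) (Finset.mem_univ k)

theorem tendsto_apply (k : m) : Tendsto (fun p : m → ℂ => p k) (𝓝 0) (𝓝 0) :=
  (continuous_apply k).tendsto 0

/-- For small parameters the moving points stay distinct. -/
theorem eventually_injective (hQ : Function.Injective Q) :
    ∀ᶠ p : m → ℂ in 𝓝 0, Function.Injective (pt D p) := by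
  have h1 : ∀ k l : m, k ≠ l → ∀ᶠ p : m → ℂ in 𝓝 0, pt D p k ≠ pt D p l := by
    intro k l hkl
    have h2 : Tendsto (fun p : m → ℂ => (p k, p l)) (𝓝 0) (𝓝 (0, 0)) :=
      (tendsto_apply k).prodMk_nhds (tendsto_apply l)
    exact h2.eventually ((D k).eventually_ne (D l) (fun h => hkl (hQ h)))
  have h2 : ∀ᶠ p : m → ℂ in 𝓝 0, ∀ k l : m, k ≠ l → pt D p k ≠ pt D p l := by
    rw [Filter.eventually_all]
    intro k
    rw [Filter.eventually_all]
    intro l
    by_cases hkl : k = l
    · filter_upwards with p h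
      exact absurd hkl h
    · filter_upwards [h1 k l hkl] with p hp _
      exact hp
  filter_upwards [h2] with p hp k l hkl
  by_contra hne
  exact hp k l hne hkl

end Multi

end Fermat.Agent.H27
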