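/-
H27Residual: the residual lemma (moving points in a linear system).
-/
import Mathlib
import Fermat.Agent.H27Pts
import Fermat.Agent.H27Anal

set_option autoImplicit false
set_option linter.unusedSectionVars false

open AlgebraicCurve WithZero Polynomial Topology Filter Metric

namespace Fermat.Agent.H27

open Fermat.Agent.H3RR

variable {F : Type*} [Field F] [Algebra ℂ F] [IsFF ℂ F]

section Basis

variable {ι κ : Type*} [Fintype ι] [Fintype κ] {Q : ι ⊕ κ → Place ℂ F}

/-- A function with simple zeros at finitely many given places. -/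
theorem exists_simple_zeros {m : Type*} [Fintype m] (Q : m → Place ℂ F) :
    ∃ h : F, ∀ k, (Q k).adicValuation h = exp (-1 : ℤ) := by
  classical
  have h1 : ∀ v : Place ℂ F, ∃ f : F, v.adicValuation f = exp (-1 : ℤ) := fun v =>
    ⟨_, (adicValuation_surjective_exp v (-1)).choose_spec.2⟩
  choose a ha using h1
  obtain ⟨f, hf⟩ := weak_approximation (Finset.univ.image Q) a (fun _ => -2)
  refine ⟨f, fun k => ?_⟩
  have h2 := hf (Q k) (Finset.mem_image_of_mem Q (Finset.mem_univ k))
  have h3 : (Q k).adicValuation (f - a (Q k)) < (Q k).adicValuation (a (Q k)) := by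
    rw [ha]
    refine lt_of_le_of_lt h2 ?_
    rw [exp_lt_exp]; norm_num
  have h4 := Valuation.map_add_eq_of_lt_right (Q k).adicValuation h3
  rw [sub_add_cancel, ha] at h4
  exact h4

theorem mul_regular {h : F} {v : Place ℂ F} (hh : v.adicValuation h = exp (-1 : ℤ))
    {E : Divisor ℂ F} (hE : E v = 1) {f : F} (hf : f ∈ riemannRochSpace E) :
    v.adicValuation (h * f) ≤ 1 := by
  have h1 := hf v
  rw [hE] at h1
  rw [map_mul, hh]
  calc exp (-1 : ℤ) * v.adicValuation f ≤ exp (-1 : ℤ) * exp (1 : ℤ) := mul_le_mul_right h1 _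
    _ = 1 := by rw [← exp_add, neg_add_cancel, exp_zero]

theorem degree_sum_single {n : Type*} [Fintype n] (P : n → Place ℂ F) :
    Divisor.degree (∑ k, Finsupp.single (P k) 1 : Divisor ℂ F) = Fintype.card n := by
  rw [map_sum]
  simp [Divisor.degree_single, deg_eq_one]

theorem exists_basis [DecidableEq ι] (hQ : Function.Injective Q)
    (hcard : Fintype.card κ = genusFF ℂ F)
    (hell : ell (∑ j, Finsupp.single (Q (Sum.inr j)) 1 : Divisor ℂ F) = 1)
    {h : F} (hh : ∀ k, (Q k).adicValuation h = exp (-1 : ℤ)) :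
    ∃ s : ι → F, (∀ i, s i ∈ riemannRochSpace (∑ k, Finsupp.single (Q k) 1 : Divisor ℂ F)) ∧
      (∀ i i', val (Q (Sum.inl i')) (h * s i) = if i' = i then 1 else 0) ∧
      ∀ f ∈ riemannRochSpace (∑ k, Finsupp.single (Q k) 1 : Divisor ℂ F),
        ∃ a : ℂ, f = algebraMap ℂ F a + ∑ i, val (Q (Sum.inl i)) (h * f) • s i := by
  classical
  set E : Divisor ℂ F := ∑ k, Finsupp.single (Q k) 1 with hE
  set E' : Divisor ℂ F := ∑ j, Finsupp.single (Q (Sum.inr j)) 1 with hE'
  have hEk : ∀ k, E (Q k) = 1 := fun k => sum_single_apply_of_injective hQ k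
  have hreg : ∀ k, ∀ f ∈ riemannRochSpace E, (Q k).adicValuation (h * f) ≤ 1 :=
    fun k f hf => mul_regular (hh k) (hEk k) hf
  have hEE : E = (∑ i, Finsupp.single (Q (Sum.inl i)) 1) + E' := by
    rw [hE, Fintype.sum_sum_type]
  have hE'nn : 0 ≤ E' := Finset.sum_nonneg fun v _ => by rw [Finsupp.single_nonneg]; norm_num
  have hE'E : E' ≤ E := by
    rw [hEE]
    have : (0 : Divisor ℂ F) ≤ ∑ i, Finsupp.single (Q (Sum.inl i)) 1 :=
      Finset.sum_nonneg fun v _ => by rw [Finsupp.single_nonneg]; norm_num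
    exact le_add_of_nonneg_left this
  have hh1' : h1 E' = 0 := by
    have h1 := riemann_roch_weak E'
    rw [hell, hE', degree_sum_single, ← hE', hcard] at h1
    push_cast at h1
    omega
  have hh1 : h1 E = 0 := by
    have := h1_anti hE'E
    omega
  have hellE : ell E = Fintype.card ι + 1 := by
    have h1 := riemann_roch_weak E
    rw [hh1, hE, degree_sum_single, ← hE, Fintype.card_sum, hcard] at h1
    push_cast at h1
    omega
  -- the evaluation map
  let ev : riemannRochSpace E →ₗ[ℂ] (ι → ℂ) :=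
    { toFun := fun f i => val (Q (Sum.inl i)) (h * (f : F))
      map_add' := by
        intro f g
        funext i
        have h1 : h * ((f + g : riemannRochSpace E) : F) = h * (f : F) + h * (g : F) := by
          rw [Submodule.coe_add, mul_add]
        rw [h1, val_add _ (hreg _ _ f.2) (hreg _ _ g.2)]
        rfl
      map_smul' := by
        intro c f
        funext i
        have h1 : h * ((c • f : riemannRochSpace E) : F) = c • (h * (f : F)) := by
          rw [Submodule.coe_smul, mul_smul_comm]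
        rw [h1, val_smul _ _ (hreg _ _ f.2)]
        rfl }
  have hev : ∀ f i, ev f i = val (Q (Sum.inl i)) (h * (f : F)) := fun f i => rfl
  have hker : ∀ f : riemannRochSpace E, ev f = 0 → ∃ c : ℂ, algebraMap ℂ F c = (f : F) := by
    intro f hf
    apply exists_const_of_mem_L hE'nn hell
    intro v
    by_cases hv : ∃ i, Q (Sum.inl i) = v
    · obtain ⟨i, rfl⟩ := hv
      have h1 : val (Q (Sum.inl i)) (h * (f : F)) = 0 := by rw [← hev, hf]; rfl
      have h2 := (val_eq_zero_iff _ (hreg _ _ f.2)).1 h1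
      rw [adicValuation_lt_one_iff, map_mul, hh] at h2
      have h3 : (Q (Sum.inl i)).adicValuation (f : F) ≤ 1 := by
        have h4 : exp (1 : ℤ) * (exp (-1 : ℤ) * (Q (Sum.inl i)).adicValuation (f : F)) ≤
            exp (1 : ℤ) * exp (-1 : ℤ) := mul_le_mul_right h2 _
        rw [← mul_assoc, ← exp_add, add_neg_cancel, exp_zero, one_mul] at h4
        exact h4
      refine h3.trans ?_
      rw [← exp_zero, exp_le_exp]
      exact Finsupp.le_def.mp hE'nn _
    · push Not at hv
      have h1 := f.2 v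
      have h2 : E v = E' v := by
        rw [hEE, Finsupp.add_apply, sum_single_apply_of_forall_ne hv, zero_add]
      rwa [h2] at h1
  have hrange : LinearMap.range ev = ⊤ := by
    apply Submodule.eq_top_of_finrank_eq
    have h1 := LinearMap.finrank_range_add_finrank_ker ev
    have h2 : Module.finrank ℂ (LinearMap.ker ev) ≤ 1 := by
      have hone : (1 : F) ∈ riemannRochSpace E := by
        intro v
        rw [map_one, ← exp_zero, exp_le_exp]
        exact Finsupp.le_def.mp (hE'nn.trans hE'E) v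
      by_cases hk : (⟨1, hone⟩ : riemannRochSpace E) ∈ LinearMap.ker ev
      · apply finrank_le_one (⟨⟨1, hone⟩, hk⟩ : LinearMap.ker ev)
        intro w
        obtain ⟨c, hc⟩ := hker w.1 w.2
        refine ⟨c, ?_⟩
        apply Subtype.ext
        apply Subtype.ext
        show c • (1 : F) = _
        rw [← hc, Algebra.smul_def, mul_one]
      · -- impossible but harmless: then the kernel is zero
        have : LinearMap.ker ev = ⊥ := by
          rw [eq_bot_iff]
          intro w hw
          obtain ⟨c, hc⟩ := hker w hw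
          rw [Submodule.mem_bot]
          by_contra hw0
          apply hk
          have hc0 : c ≠ 0 := by
            rintro rfl
            rw [map_zero] at hc
            exact hw0 (Subtype.ext hc.symm)
          have h3 : (⟨1, hone⟩ : riemannRochSpace E) = c⁻¹ • w := by
            apply Subtype.ext
            show (1 : F) = c⁻¹ • (w : F)
            rw [← hc, Algebra.smul_def, ← map_mul, inv_mul_cancel₀ hc0, map_one]
          rw [h3]
          exact Submodule.smul_mem _ _ hw
        rw [this]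
        simp
    have h3 : Module.finrank ℂ (riemannRochSpace E) = Fintype.card ι + 1 := hellE
    have h4 : Module.finrank ℂ (LinearMap.range ev) ≤ Module.finrank ℂ (ι → ℂ) :=
      Submodule.finrank_le _
    rw [Module.finrank_fintype_fun_eq_card] at h4 ⊢
    omega
  have hsurj : Function.Surjective ev := LinearMap.range_eq_top.1 hrange
  choose s hs using fun i : ι => hsurj (Pi.single i 1)
  refine ⟨fun i => (s i : F), fun i => (s i).2, ?_, ?_⟩
  · intro i i'
    rw [← hev, hs, Pi.single_apply]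
  · intro f hf
    have h1 : ev (⟨f, hf⟩ - ∑ i, ev ⟨f, hf⟩ i • s i) = 0 := by
      rw [map_sub, map_sum]
      simp only [map_smul, hs]
      funext i
      simp [Finset.sum_apply, Pi.single_apply]
    obtain ⟨a, ha⟩ := hker _ h1
    refine ⟨a, ?_⟩
    rw [ha]
    simp only [Submodule.coe_sub, Submodule.coe_sum, Submodule.coe_smul, hev]
    ring

end Basis

section Principal

theorem eq_zero_of_degree_zero {E : Divisor ℂ F} (hE : 0 ≤ E) (hd : Divisor.degree E = 0) :
    E = 0 := by
  rw [degree_eq_sum] at hd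
  have h1 := (Finset.sum_eq_zero_iff_of_nonneg (fun v _ => Finsupp.le_def.mp hE v)).1 hd
  ext v
  by_cases hv : v ∈ E.support
  · exact h1 v hv
  · rw [Finsupp.notMem_support_iff.mp hv]; rfl

variable {m : Type*} [Fintype m] {Q : m → Place ℂ F} (D : ∀ k, AnDisc (Q k))

theorem principal_of_vanish {h : F} (hh0 : h ≠ 0) {p : m → ℂ}
    (hinj : Function.Injective (pt D p)) (hord : ∀ k, (pt D p k).ord h = dd D 0 (pt D p k))
    {S : F} (hS0 : S ≠ 0) (hSL : S ∈ riemannRochSpace (dd D 0))
    (hlt : ∀ k, (pt D p k).adicValuation (h * S) < 1) :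
    dd D p - dd D 0 ∈ Divisor.principal (K := ℂ) (F := F) := by
  have hnn : 0 ≤ dd D 0 + divOf S - dd D p := by
    rw [Finsupp.le_def]
    intro v
    rw [Finsupp.sub_apply, Finsupp.add_apply, divOf_apply hS0]
    by_cases hv : ∃ k, pt D p k = v
    · obtain ⟨k, rfl⟩ := hv
      have h1 : dd D p (pt D p k) = 1 := sum_single_apply_of_injective hinj k
      have h2 := ord_pos_of_lt_one (mul_ne_zero hh0 hS0) (hlt k)
      rw [Place.ord_mul _ hh0 hS0, hord k] at h2
      rw [h1]
      show (0 : ℤ) ≤ _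
      omega
    · push Not at hv
      have h1 : dd D p v = 0 := sum_single_apply_of_forall_ne hv
      have h2 := (v.adicValuation_le_exp_iff.1 (hSL v)).resolve_left hS0
      rw [h1]
      show (0 : ℤ) ≤ _
      omega
  have hz := eq_zero_of_degree_zero hnn (by
    rw [map_sub, map_add, degree_divOf hS0, degree_dd, degree_dd]; ring)
  refine ⟨S, hS0, fun v => ?_⟩
  have h1 : dd D p - dd D 0 = divOf S := by
    have := sub_eq_zero.1 hz
    rw [← this]; abel
  rw [h1, divOf_apply hS0]

theorem vanish_of_principal {h : F} (hh0 : h ≠ 0) {p : m → ℂ}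
    (hord : ∀ k, (pt D p k).ord h = dd D 0 (pt D p k))
    {S : F} (hS0 : S ≠ 0) (hdiv : ∀ v : Place ℂ F, (dd D p - dd D 0) v = v.ord S) :
    S ∈ riemannRochSpace (dd D 0) ∧ ∀ k, (pt D p k).adicValuation (h * S) < 1 := by
  constructor
  · intro v
    rw [v.adicValuation_le_exp_iff]
    right
    rw [← hdiv v, Finsupp.sub_apply]
    have : 0 ≤ dd D p v := Finsupp.le_def.mp (dd_nonneg D p) v
    omega
  · intro k
    have h1 : 1 ≤ dd D p (pt D p k) := le_sum_single_apply k
    have h2 : 1 ≤ (pt D p k).ord (h * S) := by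
      rw [Place.ord_mul _ hh0 hS0, hord k, ← hdiv, Finsupp.sub_apply]
      omega
    rw [(pt D p k).adicValuation_eq_exp_neg_ord (mul_ne_zero hh0 hS0), ← exp_zero, exp_lt_exp]
    omega

/-- The order of `h` along the discs. -/
theorem eventually_ord (hQ : Function.Injective Q) {h : F}
    (hh : ∀ k, (Q k).adicValuation h = exp (-1 : ℤ)) (k : m) :
    ∀ᶠ z in 𝓝 (0 : ℂ), ((D k).σ z).ord h = dd D 0 ((D k).σ z) := by
  have hh1 : (Q k).adicValuation h ≤ 1 := by rw [hh]; rw [← exp_zero, exp_le_exp]; norm_num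
  have hh0 : h ≠ 0 := by
    rintro rfl
    have := hh k
    rw [map_zero] at this
    exact exp_ne_zero this.symm
  have hzero : ((D k).σ 0).ord h = dd D 0 ((D k).σ 0) := by
    rw [(D k).σ_zero, dd_zero, sum_single_apply_of_injective hQ k]
    have := hh k
    rw [(Q k).adicValuation_eq_exp_neg_ord hh0, exp_inj] at this
    omega
  obtain ⟨c, hc, hd⟩ := (D k).hasDerivAt_val_of_ord_one (hh k)
  have h1 := hd.eventually_ne hc (c := 0)
  rw [eventually_nhdsWithin_iff] at h1
  have h2 : ∀ l, ∀ᶠ z in 𝓝 (0 : ℂ), z ≠ 0 → (D k).σ z ≠ Q l := by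
    intro l
    by_cases hkl : k = l
    · subst hkl
      exact (D k).eventually_ne_center
    · have h3 : Tendsto (fun z : ℂ => (z, (0 : ℂ))) (𝓝 0) (𝓝 (0, 0)) :=
        tendsto_id.prodMk_nhds tendsto_const_nhds
      have h4 := h3.eventually ((D k).eventually_ne (D l) (fun h => hkl (hQ h)))
      filter_upwards [h4] with z hz _ hzl
      exact hz (hzl.trans (D l).σ_zero.symm)
  rw [← Filter.eventually_all] at h2
  filter_upwards [h1, h2, (D k).eventually_regular hh1] with z e1 e2 e3
  by_cases hz : z = 0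
  · rw [hz]; exact hzero
  · have e4 : ((D k).σ z).adicValuation h = 1 := (val_ne_zero_iff _ e3).1 (e1 hz)
    have e5 : ((D k).σ z).ord h = 0 := by
      rw [((D k).σ z).adicValuation_eq_exp_neg_ord hh0, ← exp_zero, exp_inj] at e4
      omega
    rw [e5, dd_zero, sum_single_apply_of_forall_ne fun l h => e2 l hz h.symm]

end Principal

section Main

variable {ι κ : Type*} [Fintype ι] [Fintype κ] {Q : ι ⊕ κ → Place ℂ F} (D : ∀ k, AnDisc (Q k))

/-- The linear combinations used in the residual lemma. -/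
noncomputable def comb (s : ι → F) (a : ℂ) (c : ι → ℂ) : F := algebraMap ℂ F a + ∑ i, c i • s i

theorem val_comb {v : Place ℂ F} {h : F} {s : ι → F} (h1 : v.adicValuation h ≤ 1)
    (h2 : ∀ i, v.adicValuation (h * s i) ≤ 1) (a : ℂ) (c : ι → ℂ) :
    v.adicValuation (h * comb s a c) ≤ 1 ∧
      val v (h * comb s a c) = a * val v h + ∑ i, c i * val v (h * s i) := by
  have e1 : h * comb s a c = a • h + ∑ i, c i • (h * s i) := by
    unfold comb
    rw [mul_add, Finset.mul_sum, Algebra.smul_def, mul_comm h (algebraMap ℂ F a)]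
    simp only [mul_smul_comm]
  rw [e1]
  have h3 : ∀ i ∈ (Finset.univ : Finset ι), v.adicValuation (c i • (h * s i)) ≤ 1 :=
    fun i _ => le_one_smul v _ (h2 i)
  refine ⟨le_one_add v (le_one_smul v _ h1) (le_one_sum _ v _ h3), ?_⟩
  rw [val_add v (le_one_smul v _ h1) (le_one_sum _ v _ h3), val_smul v _ h1, val_sum _ v _ h3]
  congr 1
  apply Finset.sum_congr rfl
  intro i _
  rw [val_smul v _ (h2 i)]

theorem tendsto_elim {E : Type*} [TopologicalSpace E] {l : Filter E} {f : E → ι → ℂ}
    {g : E → κ → ℂ} (hf : Tendsto f l (𝓝 0)) (hg : Tendsto g l (𝓝 0)) :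
    Tendsto (fun e => Sum.elim (f e) (g e)) l (𝓝 (0 : ι ⊕ κ → ℂ)) := by
  rw [tendsto_pi_nhds]
  intro k
  cases k with
  | inl i => exact ((tendsto_pi_nhds.1 hf) i)
  | inr j => exact ((tendsto_pi_nhds.1 hg) j)

/-- **Residual lemma**. -/
theorem residual (hQ : Function.Injective Q) (hcard : Fintype.card κ = genusFF ℂ F)
    (hell : ell (∑ j, Finsupp.single (Q (Sum.inr j)) 1 : Divisor ℂ F) = 1) :
    ∃ U : (ι → ℂ) → (κ → ℂ), ContDiffAt ℂ ⊤ U 0 ∧ U 0 = 0 ∧
      (∀ᶠ z in 𝓝 (0 : ι → ℂ), dd D (Sum.elim z (U z)) - dd D 0 ∈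
        Divisor.principal (K := ℂ) (F := F)) ∧
      (∀ᶠ p in 𝓝 (0 : (ι → ℂ) × (κ → ℂ)), dd D (Sum.elim p.1 p.2) - dd D 0 ∈
        Divisor.principal (K := ℂ) (F := F) → p.2 = U p.1) := by
  classical
  obtain ⟨h, hh⟩ := exists_simple_zeros Q
  have hh0 : ∀ k : ι ⊕ κ, h ≠ 0 := by
    rintro k rfl
    have := hh k
    rw [map_zero] at this
    exact exp_ne_zero this.symm
  obtain ⟨s, hsL, hsv, hsp⟩ := exists_basis hQ hcard hell hh
  have hhlt : ∀ k, (Q k).adicValuation h < 1 := fun k => by
    rw [hh, ← exp_zero, exp_lt_exp]; norm_num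
  have hhreg : ∀ k, (Q k).adicValuation h ≤ 1 := fun k => (hhlt k).le
  have hsreg : ∀ k i, (Q k).adicValuation (h * s i) ≤ 1 := fun k i =>
    mul_regular (hh k) (sum_single_apply_of_injective hQ k) (hsL i)
  have hhv : ∀ k, val (Q k) h = 0 := fun k => (val_eq_zero_iff _ (hhreg k)).2 (hhlt k)
  -- coordinate functions
  have hb_an : ∀ k, ContDiffAt ℂ ⊤ (fun z => val ((D k).σ z) h) 0 := fun k =>
    ((D k).analyticAt_val (hhreg k)).contDiffAt
  have hA_an : ∀ k i, ContDiffAt ℂ ⊤ (fun z => val ((D k).σ z) (h * s i)) 0 := fun k i =>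
    ((D k).analyticAt_val (hsreg k i)).contDiffAt
  have hcoord : ∀ i : ι, ContDiffAt ℂ ⊤ (fun z : ι → ℂ => z i) 0 := fun i =>
    (contDiff_apply ℂ ℂ i).contDiffAt
  set A : (ι → ℂ) → Matrix ι ι ℂ := fun z => Matrix.of fun i' i =>
    val ((D (Sum.inl i')).σ (z i')) (h * s i) with hA
  set b : (ι → ℂ) → ι → ℂ := fun z i' => - val ((D (Sum.inl i')).σ (z i')) h with hb
  have hA0 : A 0 = 1 := by
    ext i' i
    simp only [hA, Matrix.of_apply, Pi.zero_apply, (D (Sum.inl i')).σ_zero, hsv, Matrix.one_apply]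
  obtain ⟨c, hc_an, hc⟩ := exists_solution (A := A) (b := b) (x := 0)
    (fun i' i => ContDiffAt.comp (x := (0 : ι → ℂ))
      (g := fun z : ℂ => val ((D (Sum.inl i')).σ z) (h * s i))
      (f := fun z : ι → ℂ => z i') (hA_an (Sum.inl i') i) (hcoord i'))
    (fun i' => (ContDiffAt.comp (x := (0 : ι → ℂ))
      (g := fun z : ℂ => val ((D (Sum.inl i')).σ z) h)
      (f := fun z : ι → ℂ => z i') (hb_an (Sum.inl i')) (hcoord i')).neg)
    (by rw [hA0]; simp)
  have hc0 : c 0 = 0 := by
    have h1 := hc.self_of_nhds.2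
    rw [hA0, Matrix.one_mulVec] at h1
    rw [h1]
    funext i'
    simp only [hb, Pi.zero_apply, (D (Sum.inl i')).σ_zero, hhv, neg_zero]
  -- implicit functions
  set G : κ → (ι → ℂ) × ℂ → ℂ := fun j p =>
    val ((D (Sum.inr j)).σ p.2) h + ∑ i, c p.1 i * val ((D (Sum.inr j)).σ p.2) (h * s i) with hG
  have hGex : ∀ j, ∃ U : (ι → ℂ) → ℂ, ContDiffAt ℂ ⊤ U 0 ∧ U 0 = 0 ∧
      ∀ᶠ p : (ι → ℂ) × ℂ in 𝓝 0, (G j p = 0 ↔ U p.1 = p.2) := by
    intro j
    obtain ⟨d, hd0, hd⟩ := (D (Sum.inr j)).hasDerivAt_val_of_ord_one (hh (Sum.inr j))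
    refine exists_implicit_gen (G j) ?_ ?_ d hd0 ?_
    · refine ContDiffAt.add ?_ (ContDiffAt.sum fun i _ => ContDiffAt.mul ?_ ?_)
      · exact ContDiffAt.comp (x := (0 : (ι → ℂ) × ℂ))
          (g := fun z : ℂ => val ((D (Sum.inr j)).σ z) h)
          (f := fun p : (ι → ℂ) × ℂ => p.2) (hb_an (Sum.inr j)) contDiffAt_snd
      · exact ContDiffAt.comp (x := (0 : (ι → ℂ) × ℂ)) (g := fun z : ι → ℂ => c z i)
          (f := fun p : (ι → ℂ) × ℂ => p.1) (hc_an i) contDiffAt_fst
      · exact ContDiffAt.comp (x := (0 : (ι → ℂ) × ℂ))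
          (g := fun z : ℂ => val ((D (Sum.inr j)).σ z) (h * s i))
          (f := fun p : (ι → ℂ) × ℂ => p.2) (hA_an (Sum.inr j) i) contDiffAt_snd
    · simp only [hG, Prod.fst_zero, Prod.snd_zero, hc0, Pi.zero_apply, zero_mul,
        Finset.sum_const_zero, add_zero, (D (Sum.inr j)).σ_zero, hhv]
    · have : (fun w => G j (0, w)) = fun w => val ((D (Sum.inr j)).σ w) h := by
        funext w
        simp only [hG, hc0, Pi.zero_apply, zero_mul, Finset.sum_const_zero, add_zero]
      rw [this]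
      exact hd
  choose U hU_an hU0 hU using hGex
  have hUc : ContDiffAt ℂ ⊤ (fun z j => U j z) (0 : ι → ℂ) := contDiffAt_pi.2 fun j => hU_an j
  have hU0' : (fun j => U j 0) = (0 : κ → ℂ) := funext fun j => hU0 j
  have hUt : Tendsto (fun (z : ι → ℂ) (j : κ) => U j z) (𝓝 0) (𝓝 0) := by
    have := hUc.continuousAt.tendsto
    simp only [hU0] at this
    exact this
  -- good configurations
  have hgood : ∀ᶠ p in 𝓝 (0 : ι ⊕ κ → ℂ), Function.Injective (pt D p) ∧
      (∀ k, (pt D p k).ord h = dd D 0 (pt D p k)) ∧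
      (∀ k, (pt D p k).adicValuation h ≤ 1) ∧
      ∀ k i, (pt D p k).adicValuation (h * s i) ≤ 1 := by
    refine (eventually_injective D hQ).and (Eventually.and ?_ (Eventually.and ?_ ?_))
    · rw [Filter.eventually_all]
      intro k
      exact (tendsto_apply k).eventually (eventually_ord D hQ hh k)
    · rw [Filter.eventually_all]
      intro k
      exact (tendsto_apply k).eventually ((D k).eventually_regular (hhreg k))
    · rw [Filter.eventually_all]
      intro k
      rw [Filter.eventually_all]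
      intro i
      exact (tendsto_apply k).eventually ((D k).eventually_regular (hsreg k i))
  have hcombL : ∀ a c, comb s a c ∈ riemannRochSpace (dd D 0) := by
    intro a c
    rw [dd_zero]
    refine Submodule.add_mem _ ?_ (Submodule.sum_mem _ fun i _ => Submodule.smul_mem _ _ (hsL i))
    intro v
    refine (v.adicValuation_algebraMap_le_one a).trans ?_
    rw [← exp_zero, exp_le_exp, ← dd_zero D]
    exact Finsupp.le_def.mp (dd_nonneg D 0) v
  have hcomb0 : ∀ a c, comb s a c = 0 → c = 0 ∧ a = 0 := by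
    intro a c h0
    have h1 : c = 0 := by
      funext i'
      have h2 := (val_comb (v := Q (Sum.inl i')) (hhreg _) (hsreg (Sum.inl i')) a c).2
      rw [h0, mul_zero, val_zero, hhv, mul_zero, zero_add] at h2
      simp only [hsv, mul_ite, mul_one, mul_zero, Finset.sum_ite_eq, Finset.mem_univ, if_true]
        at h2
      exact h2.symm
    refine ⟨h1, ?_⟩
    rw [comb, h1] at h0
    simp only [Pi.zero_apply, zero_smul, Finset.sum_const_zero, add_zero] at h0
    exact (map_eq_zero _).1 h0
  refine ⟨fun z j => U j z, hUc, hU0', ?_, ?_⟩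
  · -- existence
    have hE1 := (tendsto_elim (tendsto_id (α := ι → ℂ)) hUt).eventually hgood
    simp only [id_eq] at hE1
    have hE2 : ∀ᶠ z in 𝓝 (0 : ι → ℂ), ∀ j, G j (z, U j z) = 0 := by
      rw [Filter.eventually_all]
      intro j
      have h1 : Tendsto (fun z : ι → ℂ => (z, U j z)) (𝓝 0) (𝓝 0) := by
        have h2 := (hU_an j).continuousAt.tendsto
        rw [hU0 j] at h2
        exact tendsto_id.prodMk_nhds h2
      filter_upwards [h1.eventually (hU j)] with z hz
      exact hz.2 rfl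
    filter_upwards [hE1, hE2, hc] with z hz1 hz2 hz3
    obtain ⟨g1, g2, g3, g4⟩ := hz1
    set p : ι ⊕ κ → ℂ := Sum.elim z (fun j => U j z) with hp
    set S := comb s 1 (c z) with hS
    have hS0 : S ≠ 0 := fun h0 => one_ne_zero (hcomb0 _ _ h0).2
    rcases isEmpty_or_nonempty (ι ⊕ κ) with hem | ⟨⟨k0⟩⟩
    · have : dd D p = dd D 0 := by
        unfold dd
        simp
      show dd D p - dd D 0 ∈ _
      rw [this, sub_self]
      exact zero_mem _
    refine principal_of_vanish D (hh0 k0) g1 g2 hS0 (hcombL _ _) ?_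
    intro k
    obtain ⟨r1, r2⟩ := val_comb (g3 k) (g4 k) 1 (c z)
    rw [← val_eq_zero_iff _ r1, r2, one_mul]
    cases k with
    | inl i' =>
      have h1 := congrFun hz3.2 i'
      simp only [hA, hb, Matrix.mulVec, dotProduct, Matrix.of_apply] at h1
      have h2 : pt D p (Sum.inl i') = (D (Sum.inl i')).σ (z i') := rfl
      rw [h2]
      have h3 : ∑ i, c z i * val ((D (Sum.inl i')).σ (z i')) (h * s i) =
          ∑ i, val ((D (Sum.inl i')).σ (z i')) (h * s i) * c z i :=
        Finset.sum_congr rfl fun i _ => mul_comm _ _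
      rw [h3, h1]
      ring
    | inr j => exact hz2 j
  · -- uniqueness
    have hF1 : ∀ᶠ q in 𝓝 (0 : (ι → ℂ) × (κ → ℂ)), Function.Injective (pt D (Sum.elim q.1 q.2)) ∧
        (∀ k, (pt D (Sum.elim q.1 q.2) k).ord h = dd D 0 (pt D (Sum.elim q.1 q.2) k)) ∧
        (∀ k, (pt D (Sum.elim q.1 q.2) k).adicValuation h ≤ 1) ∧
        ∀ k i, (pt D (Sum.elim q.1 q.2) k).adicValuation (h * s i) ≤ 1 :=
      (tendsto_elim (continuous_fst.tendsto' _ _ rfl) (continuous_snd.tendsto' _ _ rfl)).eventually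
        hgood
    have hF2 : ∀ᶠ q in 𝓝 (0 : (ι → ℂ) × (κ → ℂ)), ∀ j, (G j (q.1, q.2 j) = 0 ↔ U j q.1 = q.2 j) := by
      rw [Filter.eventually_all]
      intro j
      have h1 : Tendsto (fun q : (ι → ℂ) × (κ → ℂ) => (q.1, q.2 j)) (𝓝 0) (𝓝 0) := by
        have : Continuous (fun q : (ι → ℂ) × (κ → ℂ) => (q.1, q.2 j)) := by fun_prop
        exact this.tendsto' _ _ rfl
      exact h1.eventually (hU j)
    have hF3 : ∀ᶠ q in 𝓝 (0 : (ι → ℂ) × (κ → ℂ)), (A q.1).det ≠ 0 ∧
        (A q.1).mulVec (c q.1) = b q.1 :=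
      (continuous_fst.tendsto' (0 : (ι → ℂ) × (κ → ℂ)) 0 rfl).eventually hc
    filter_upwards [hF1, hF2, hF3] with q hz1 hz2 hz3
    obtain ⟨g1, g2, g3, g4⟩ := hz1
    set p : ι ⊕ κ → ℂ := Sum.elim q.1 q.2 with hp
    rintro ⟨S, hS0, hdiv⟩
    rcases isEmpty_or_nonempty (ι ⊕ κ) with hem | ⟨⟨k0⟩⟩
    · funext j
      exact (hem.false (Sum.inr j)).elim
    obtain ⟨hSL, hlt⟩ := vanish_of_principal D (hh0 k0) g2 hS0 hdiv
    rw [dd_zero] at hSL
    obtain ⟨a, ha⟩ := hsp S hSL
    set e : ι → ℂ := fun i => val (Q (Sum.inl i)) (h * S) with he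
    have hSe : S = comb s a e := ha
    have hval : ∀ k, a * val (pt D p k) h + ∑ i, e i * val (pt D p k) (h * s i) = 0 := by
      intro k
      obtain ⟨r1, r2⟩ := val_comb (g3 k) (g4 k) a e
      rw [← r2, ← hSe, val_eq_zero_iff _ (by rw [hSe]; exact r1)]
      exact hlt k
    have hlin : (A q.1).mulVec (e - a • c q.1) = 0 := by
      rw [Matrix.mulVec_sub, Matrix.mulVec_smul, hz3.2]
      funext i'
      have h1 := hval (Sum.inl i')
      have h2 : pt D p (Sum.inl i') = (D (Sum.inl i')).σ (q.1 i') := rfl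
      rw [h2] at h1
      simp only [hA, hb, Matrix.mulVec, dotProduct, Matrix.of_apply, Pi.sub_apply, Pi.smul_apply,
        smul_eq_mul, Pi.zero_apply]
      have h3 : ∑ i, val ((D (Sum.inl i')).σ (q.1 i')) (h * s i) * e i =
          ∑ i, e i * val ((D (Sum.inl i')).σ (q.1 i')) (h * s i) :=
        Finset.sum_congr rfl fun i _ => mul_comm _ _
      rw [h3]
      linear_combination h1
    have hea : e = a • c q.1 := sub_eq_zero.1 (Matrix.eq_zero_of_mulVec_eq_zero hz3.1 hlin)
    have ha0 : a ≠ 0 := by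
      rintro rfl
      rw [zero_smul] at hea
      apply hS0
      rw [hSe, hea, comb]
      simp
    funext j
    refine (((hz2 j).1 ?_)).symm
    have h1 := hval (Sum.inr j)
    have h2 : pt D p (Sum.inr j) = (D (Sum.inr j)).σ (q.2 j) := rfl
    rw [h2, hea] at h1
    simp only [hG]
    apply mul_left_cancel₀ ha0
    rw [mul_zero, mul_add, Finset.mul_sum, ← h1]
    congr 1
    apply Finset.sum_congr rfl
    intro i _
    rw [Pi.smul_apply, smul_eq_mul]
    ring

end Main

end Fermat.Agent.H27
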