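/-
H27Chart: the local group law on symmetric products of discs; local exponential map for `Pic0`.
-/
import Mathlib
import Fermat.Agent.H27Residual
import Fermat.Agent.H27Branch
import Fermat.Agent.H27LogExp

set_option autoImplicit false
set_option linter.unusedSectionVars false

open AlgebraicCurve WithZero Polynomial Topology Filter Metric

namespace Fermat.Agent.H27

open Fermat.Agent.H3RR

variable {F : Type*} [Field F] [Algebra ℂ F] [IsFF ℂ F]

/-- A choice of discs. -/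
noncomputable def disc (P : Place ℂ F) : AnDisc P := (nonempty_anDisc P).some

/-- Moving divisors for a family of places. -/
noncomputable def mv {m : Type*} [Fintype m] (Q : m → Place ℂ F) (p : m → ℂ) : Divisor ℂ F :=
  dd (fun k => disc (Q k)) p

theorem degree_mv {m : Type*} [Fintype m] (Q : m → Place ℂ F) (p : m → ℂ) :
    Divisor.degree (mv Q p) = Fintype.card m := degree_dd _ p

theorem mv_elim {ι κ : Type*} [Fintype ι] [Fintype κ] (Q₁ : ι → Place ℂ F) (Q₂ : κ → Place ℂ F)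
    (z : ι → ℂ) (w : κ → ℂ) : mv (Sum.elim Q₁ Q₂) (Sum.elim z w) = mv Q₁ z + mv Q₂ w := by
  unfold mv dd
  rw [Fintype.sum_sum_type]
  rfl

theorem elim_zero {ι κ : Type*} : Sum.elim (0 : ι → ℂ) (0 : κ → ℂ) = 0 := by
  funext k; cases k <;> rfl

theorem mv_elim_zero {ι κ : Type*} [Fintype ι] [Fintype κ] (Q₁ : ι → Place ℂ F)
    (Q₂ : κ → Place ℂ F) : mv (Sum.elim Q₁ Q₂) 0 = mv Q₁ 0 + mv Q₂ 0 := by
  rw [← mv_elim, elim_zero]

/-- Residual lemma for a pair of families. -/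
theorem residual' {ι κ : Type*} [Fintype ι] [Fintype κ] (Q₁ : ι → Place ℂ F)
    (Q₂ : κ → Place ℂ F) (hQ : Function.Injective (Sum.elim Q₁ Q₂))
    (hcard : Fintype.card κ = genusFF ℂ F)
    (hell : ell (∑ j, Finsupp.single (Q₂ j) 1 : Divisor ℂ F) = 1) :
    ∃ U : (ι → ℂ) → (κ → ℂ), ContDiffAt ℂ ⊤ U 0 ∧ U 0 = 0 ∧
      (∀ᶠ z in 𝓝 (0 : ι → ℂ), (mv Q₁ z + mv Q₂ (U z)) - (mv Q₁ 0 + mv Q₂ 0) ∈
        Divisor.principal (K := ℂ) (F := F)) ∧
      (∀ᶠ p in 𝓝 (0 : (ι → ℂ) × (κ → ℂ)), (mv Q₁ p.1 + mv Q₂ p.2) - (mv Q₁ 0 + mv Q₂ 0) ∈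
        Divisor.principal (K := ℂ) (F := F) → p.2 = U p.1) := by
  obtain ⟨U, h1, h2, h3, h4⟩ := residual (Q := Sum.elim Q₁ Q₂)
    (fun k => disc (Sum.elim Q₁ Q₂ k)) hQ hcard hell
  refine ⟨U, h1, h2, ?_, ?_⟩
  · filter_upwards [h3] with z hz
    rw [← mv_elim, ← mv_elim_zero]
    exact hz
  · filter_upwards [h4] with p hp
    rw [← mv_elim, ← mv_elim_zero]
    exact hp

/-- Nonspecial families. -/
theorem exists_family (S : Finset (Place ℂ F)) :
    ∃ Q : Fin (genusFF ℂ F) → Place ℂ F, Function.Injective Q ∧ (∀ j, Q j ∉ S) ∧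
      ell (∑ j, Finsupp.single (Q j) 1 : Divisor ℂ F) = 1 := by
  obtain ⟨R, hR1, hR2, -, hR4⟩ := exists_nonspecial (K := ℂ) (F := F) S
  let e := R.equivFinOfCardEq hR1
  refine ⟨fun j => (e.symm j : Place ℂ F), ?_, ?_, ?_⟩
  · intro i j hij
    exact e.symm.injective (Subtype.ext hij)
  · intro j hj
    exact Finset.disjoint_left.mp hR2 (e.symm j).2 hj
  · rw [← hR4]
    congr 1
    rw [redDiv, ← Finset.sum_coe_sort R]
    exact Equiv.sum_comp e.symm (fun v : R => (Finsupp.single (v : Place ℂ F) 1 : Divisor ℂ F))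

theorem elim_injective {ι κ : Type*} {Q₁ : ι → Place ℂ F} {Q₂ : κ → Place ℂ F}
    (h1 : Function.Injective Q₁) (h2 : Function.Injective Q₂) (h : ∀ i j, Q₁ i ≠ Q₂ j) :
    Function.Injective (Sum.elim Q₁ Q₂) := by
  rw [Sum.elim_injective]
  exact ⟨h1, h2, h⟩

/-- The class of a degree-zero divisor; junk value `0` otherwise. -/
noncomputable def cls (X : Divisor ℂ F) : Pic0 ℂ F :=
  open Classical in if h : Divisor.degree X = 0 then Pic0.mk ⟨X, h⟩ else 0

theorem cls_of {X : Divisor ℂ F} (h : Divisor.degree X = 0) : cls X = Pic0.mk ⟨X, h⟩ := by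
  unfold cls
  rw [dif_pos h]

theorem cls_add {X Y : Divisor ℂ F} (hX : Divisor.degree X = 0) (hY : Divisor.degree Y = 0) :
    cls (X + Y) = cls X + cls Y := by
  rw [cls_of hX, cls_of hY, cls_of (X := X + Y) (by rw [map_add, hX, hY, add_zero]), ← Pic0.mk_add]
  rfl

theorem cls_eq_iff {X Y : Divisor ℂ F} (hX : Divisor.degree X = 0) (hY : Divisor.degree Y = 0) :
    cls X = cls Y ↔ X - Y ∈ Divisor.principal (K := ℂ) (F := F) := by
  rw [cls_of hX, cls_of hY]
  unfold Pic0.mk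
  rw [QuotientAddGroup.eq, AddSubgroup.mem_addSubgroupOf]
  constructor
  · intro h
    have h2 := neg_mem h
    convert h2 using 1
    simp only [AddSubgroup.coe_add, AddSubgroup.coe_neg]
    abel
  · intro h
    have h2 := neg_mem h
    convert h2 using 1
    simp only [AddSubgroup.coe_add, AddSubgroup.coe_neg]
    abel

theorem cls_surjective (a : Pic0 ℂ F) : ∃ X : Divisor ℂ F, Divisor.degree X = 0 ∧ cls X = a := by
  obtain ⟨⟨X, hX⟩, rfl⟩ := Pic0.mk_surjective a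
  exact ⟨X, hX, cls_of hX⟩

theorem degree_point_sub (P P' : Place ℂ F) :
    Divisor.degree (Finsupp.single P 1 - Finsupp.single P' 1 : Divisor ℂ F) = 0 := by
  rw [map_sub, Divisor.degree_single, Divisor.degree_single, deg_eq_one, deg_eq_one, sub_self]

/-- The class of the difference of two points. -/
noncomputable def pp (P P' : Place ℂ F) : Pic0 ℂ F :=
  cls (Finsupp.single P 1 - Finsupp.single P' 1)

theorem pp_add (P P' P'' : Place ℂ F) : pp P P' + pp P' P'' = pp P P'' := by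
  unfold pp
  rw [← cls_add (degree_point_sub _ _) (degree_point_sub _ _)]
  congr 1
  abel

variable (F)

/-- **Local exponential map for `Pic0`.** -/
theorem exists_exp_pic0 :
    ∃ e : (Fin (genusFF ℂ F) → ℂ) →+ Pic0 ℂ F,
      (∃ ε > 0, Set.InjOn e (ball (0 : Fin (genusFF ℂ F) → ℂ) ε)) ∧
      ∀ P : Place ℂ F, ∀ δ > 0, ∀ᶠ z in 𝓝 (0 : ℂ), ∃ v : Fin (genusFF ℂ F) → ℂ,
        ‖v‖ < δ ∧ e v = pp ((disc P).σ z) P := by
  classical
  set g := genusFF ℂ F with hg
  obtain ⟨Q, hQi, -, hQe⟩ := exists_family (F := F) ∅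
  obtain ⟨T, hTi, hTQ, hTe⟩ := exists_family (F := F) (Finset.univ.image Q)
  obtain ⟨T', hTi', hTQ', hTe'⟩ := exists_family (F := F)
    (Finset.univ.image Q ∪ Finset.univ.image T)
  have d1 : ∀ i j, Q i ≠ T j := fun i j h => hTQ j (Finset.mem_image.2 ⟨i, Finset.mem_univ _, h⟩)
  have d2 : ∀ i j, Q i ≠ T' j := fun i j h => hTQ' j (Finset.mem_union_left _
    (Finset.mem_image.2 ⟨i, Finset.mem_univ _, h⟩))
  have d3 : ∀ i j, T i ≠ T' j := fun i j h => hTQ' j (Finset.mem_union_right _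
    (Finset.mem_image.2 ⟨i, Finset.mem_univ _, h⟩))
  obtain ⟨U1, a1, b1, c1, u1⟩ := residual' Q T' (elim_injective hQi hTi' d2)
    (Fintype.card_fin _) hTe'
  obtain ⟨U3, a3, b3, c3, u3⟩ := residual' Q T (elim_injective hQi hTi d1)
    (Fintype.card_fin _) hTe
  obtain ⟨U4, a4, b4, c4, u4⟩ := residual' (Sum.elim T T') Q
    (elim_injective (elim_injective hTi hTi' d3) hQi (by
      rintro (i | i) j h
      · exact d1 j i h.symm
      · exact d2 j i h.symm)) (Fintype.card_fin _) hQe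
  rw [mv_elim_zero] at c4 u4
  set Φ : (Fin g → ℂ) → Pic0 ℂ F := fun z => cls (mv Q z - mv Q 0) with hΦ
  have hdeg : ∀ z, Divisor.degree (mv Q z - mv Q 0) = 0 := fun z => by
    rw [map_sub, degree_mv, degree_mv, sub_self]
  set W : (Fin g → ℂ) × (Fin g → ℂ) → (Fin g ⊕ Fin g → ℂ) :=
    fun p => Sum.elim (U3 p.1) (U1 p.2) with hW
  have hW0 : W 0 = 0 := by
    show Sum.elim (U3 0) (U1 0) = 0
    rw [b3, b1, elim_zero]
  have hWc : ContDiffAt ℂ ⊤ W 0 := by
    rw [contDiffAt_pi]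
    intro k
    cases k with
    | inl i =>
      exact (contDiffAt_pi.1 (ContDiffAt.comp (x := (0 : (Fin g → ℂ) × (Fin g → ℂ))) (g := U3)
        (f := Prod.fst) a3 contDiffAt_fst)) i
    | inr i =>
      exact (contDiffAt_pi.1 (ContDiffAt.comp (x := (0 : (Fin g → ℂ) × (Fin g → ℂ))) (g := U1)
        (f := Prod.snd) a1 contDiffAt_snd)) i
  set M : (Fin g → ℂ) × (Fin g → ℂ) → (Fin g → ℂ) := fun p => U4 (W p) with hM
  have hMc : ContDiffAt ℂ ⊤ M 0 := ContDiffAt.comp (x := (0 : (Fin g → ℂ) × (Fin g → ℂ)))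
    (g := U4) (f := W) (by rw [hW0]; exact a4) hWc
  have hWt : Tendsto W (𝓝 0) (𝓝 0) := by
    have := hWc.continuousAt.tendsto
    rwa [hW0] at this
  -- uniqueness in a convenient form
  have hu : ∀ᶠ q in 𝓝 (0 : ((Fin g → ℂ) × (Fin g → ℂ)) × (Fin g → ℂ)),
      (mv T (U3 q.1.1) + mv T' (U1 q.1.2) + mv Q q.2) - (mv T 0 + mv T' 0 + mv Q 0) ∈
        Divisor.principal (K := ℂ) (F := F) → q.2 = M q.1 := by
    have h1 : Tendsto (fun q : ((Fin g → ℂ) × (Fin g → ℂ)) × (Fin g → ℂ) => (W q.1, q.2))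
        (𝓝 0) (𝓝 0) := by
      have h2 : Tendsto (fun q : ((Fin g → ℂ) × (Fin g → ℂ)) × (Fin g → ℂ) => W q.1) (𝓝 0)
          (𝓝 0) := hWt.comp (continuous_fst.tendsto' 0 0 rfl)
      have h3 : Tendsto (fun q : ((Fin g → ℂ) × (Fin g → ℂ)) × (Fin g → ℂ) => q.2) (𝓝 0)
          (𝓝 0) := continuous_snd.tendsto' 0 0 rfl
      exact h2.prodMk_nhds h3
    filter_upwards [h1.eventually u4] with q hq hq2
    apply hq
    have : mv (Sum.elim T T') (W q.1) = mv T (U3 q.1.1) + mv T' (U1 q.1.2) := mv_elim _ _ _ _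
    rw [this]
    exact hq2
  -- M (x, 0) = x
  have hx3 : ∀ᶠ x in 𝓝 (0 : Fin g → ℂ), (mv T (U3 x) + mv T' (U1 0) + mv Q x) -
      (mv T 0 + mv T' 0 + mv Q 0) ∈ Divisor.principal (K := ℂ) (F := F) := by
    filter_upwards [c3] with x hx
    rw [b1]
    convert hx using 1
    abel
  have hy1 : ∀ᶠ y in 𝓝 (0 : Fin g → ℂ), (mv T (U3 0) + mv T' (U1 y) + mv Q y) -
      (mv T 0 + mv T' 0 + mv Q 0) ∈ Divisor.principal (K := ℂ) (F := F) := by
    filter_upwards [c1] with x hx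
    rw [b3]
    convert hx using 1
    abel
  have hM1 : ∀ᶠ x in 𝓝 (0 : Fin g → ℂ), M (x, 0) = x := by
    have h1 : Tendsto (fun x : Fin g → ℂ => ((x, (0 : Fin g → ℂ)), x)) (𝓝 0) (𝓝 0) := by
      have : Continuous (fun x : Fin g → ℂ => ((x, (0 : Fin g → ℂ)), x)) := by fun_prop
      exact this.tendsto' 0 0 rfl
    filter_upwards [h1.eventually hu, hx3] with x h2 h3
    exact (h2 h3).symm
  have hM2 : ∀ᶠ y in 𝓝 (0 : Fin g → ℂ), M (0, y) = y := by
    have h1 : Tendsto (fun x : Fin g → ℂ => (((0 : Fin g → ℂ), x), x)) (𝓝 0) (𝓝 0) := by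
      have : Continuous (fun x : Fin g → ℂ => (((0 : Fin g → ℂ), x), x)) := by fun_prop
      exact this.tendsto' 0 0 rfl
    filter_upwards [h1.eventually hu, hy1] with x h2 h3
    exact (h2 h3).symm
  have hinj : ∃ ε > 0, Set.InjOn Φ (ball (0 : Fin g → ℂ) ε) := by
    have h1 : Tendsto (fun p : (Fin g → ℂ) × (Fin g → ℂ) => ((p.1, (0 : Fin g → ℂ)), p.2))
        (𝓝 0) (𝓝 0) := by
      have : Continuous (fun p : (Fin g → ℂ) × (Fin g → ℂ) =>
        ((p.1, (0 : Fin g → ℂ)), p.2)) := by fun_prop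
      exact this.tendsto' 0 0 rfl
    have h2 : ∀ᶠ p in 𝓝 (0 : (Fin g → ℂ) × (Fin g → ℂ)), Φ p.1 = Φ p.2 → p.1 = p.2 := by
      have h3 := (continuous_fst.tendsto' (0 : (Fin g → ℂ) × (Fin g → ℂ)) 0 rfl).eventually
        (hM1.and hx3)
      filter_upwards [h1.eventually hu, h3] with p h4 h5 h6
      rw [hΦ] at h6
      rw [cls_eq_iff (hdeg _) (hdeg _)] at h6
      have h7 := h4 (by
        convert sub_mem h5.2 h6 using 1
        abel)
      have h8 : p.2 = M (p.1, 0) := h7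
      rw [h5.1] at h8
      exact h8.symm
    obtain ⟨ε, hε, h3⟩ := Metric.eventually_nhds_iff.1 h2
    refine ⟨ε, hε, fun x hx y hy hxy => ?_⟩
    refine h3 (y := (x, y)) ?_ hxy
    rw [dist_zero_right, Prod.norm_def, max_lt_iff]
    rw [mem_ball_zero_iff] at hx hy
    exact ⟨hx, hy⟩
  have hadd : ∀ᶠ p in 𝓝 (0 : (Fin g → ℂ) × (Fin g → ℂ)), Φ p.1 + Φ p.2 = Φ (M p) := by
    have h1 := (continuous_fst.tendsto' (0 : (Fin g → ℂ) × (Fin g → ℂ)) 0 rfl).eventually c3
    have h2 := (continuous_snd.tendsto' (0 : (Fin g → ℂ) × (Fin g → ℂ)) 0 rfl).eventually c1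
    filter_upwards [h1, h2, hWt.eventually c4] with p h3 h4 h5
    show cls _ + cls _ = cls _
    rw [← cls_add (hdeg _) (hdeg _), cls_eq_iff (by rw [map_add, hdeg, hdeg, add_zero]) (hdeg _)]
    have h6 : mv (Sum.elim T T') (W p) = mv T (U3 p.1) + mv T' (U1 p.2) := mv_elim _ _ _ _
    rw [h6] at h5
    convert sub_mem (add_mem h3 h4) h5 using 1
    abel
  have hMr : ContDiffAt ℝ 2 M 0 := (hMc.restrict_scalars ℝ).of_le (by simp)
  obtain ⟨e, he1, he2⟩ := exists_exp Φ M hMr hM1 hM2 hinj hadd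
  refine ⟨e, he1, ?_⟩
  intro P δ hδ
  -- auxiliary family avoiding `P` and `Q`
  obtain ⟨R, hRi, hRQ, hRe⟩ := exists_family (F := F) (insert P (Finset.univ.image Q))
  have d4 : ∀ i j, (fun _ : Unit => P) i ≠ R j := fun i j h =>
    hRQ j (by rw [← h]; exact Finset.mem_insert_self _ _)
  have d5 : ∀ i j, R i ≠ Q j := fun i j h =>
    hRQ i (Finset.mem_insert_of_mem (Finset.mem_image.2 ⟨j, Finset.mem_univ _, h.symm⟩))
  obtain ⟨U6, a6, b6, c6, -⟩ := residual' (fun _ : Unit => P) R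
    (elim_injective (Function.injective_of_subsingleton _) hRi d4) (Fintype.card_fin _) hRe
  obtain ⟨U5, a5, b5, c5, -⟩ := residual' R Q (elim_injective hRi hQi d5)
    (Fintype.card_fin _) hQe
  have ht : Tendsto (fun z : ℂ => (fun _ : Unit => z)) (𝓝 0) (𝓝 0) := by
    have : Continuous (fun z : ℂ => (fun _ : Unit => z)) := by fun_prop
    exact this.tendsto' 0 0 rfl
  have ht6 : Tendsto (fun z : ℂ => U6 (fun _ : Unit => z)) (𝓝 0) (𝓝 0) := by
    have h1 := a6.continuousAt.tendsto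
    rw [b6] at h1
    exact h1.comp ht
  have ht5 : Tendsto (fun z : ℂ => U5 (U6 (fun _ : Unit => z))) (𝓝 0) (𝓝 0) := by
    have h1 := a5.continuousAt.tendsto
    rw [b5] at h1
    exact h1.comp ht6
  filter_upwards [ht.eventually c6, ht6.eventually c5, ht5.eventually (he2 δ hδ)] with z h1 h2 h3
  obtain ⟨v, hv1, hv2⟩ := h3
  refine ⟨v, hv1, ?_⟩
  rw [hv2]
  show cls _ = cls _
  rw [cls_eq_iff (hdeg _) (degree_point_sub _ _)]
  have e1 : ∀ w : ℂ, mv (fun _ : Unit => P) (fun _ : Unit => w) =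
      Finsupp.single ((disc P).σ w) 1 := by
    intro w
    unfold mv dd pt
    simp
  have e2 : mv (fun _ : Unit => P) (0 : Unit → ℂ) = Finsupp.single P 1 := by
    have := e1 0
    rw [(disc P).σ_zero] at this
    exact this
  rw [e1, e2] at h1
  convert sub_mem h2 h1 using 1
  abel

end Fermat.Agent.H27
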