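/-
H27Compact: compactness of the space of places of a function field over `ℂ`.
-/
import Mathlib
import Fermat.Agent.H27DiscDef

set_option autoImplicit false

open AlgebraicCurve WithZero Polynomial Topology Filter Metric

namespace Fermat.Agent.H27

open Fermat.Agent.H3RR

variable {F : Type*} [Field F] [Algebra ℂ F] [IsFF ℂ F]

section Limit

variable (U : Ultrafilter (Place ℂ F))

theorem val_inv_mul (Q : Place ℂ F) {f : F} (hf0 : f ≠ 0) (hf : Q.adicValuation f ≤ 1)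
    (hg : Q.adicValuation f⁻¹ ≤ 1) : val Q f⁻¹ * val Q f = 1 := by
  rw [← val_mul Q hg hf, inv_mul_cancel₀ hf0, val_one]

/-- An element tending to `0` along the ultrafilter has no bounded inverse. -/
theorem not_bounded_inv {f : F} (hf0 : f ≠ 0) (hf : ∀ᶠ Q in (U : Filter (Place ℂ F)), Q.adicValuation f ≤ 1)
    (hlim : Tendsto (fun Q : Place ℂ F => val Q f) U (𝓝 0)) :
    ¬ ∃ B : ℝ, ∀ᶠ Q in (U : Filter (Place ℂ F)), Q.adicValuation f⁻¹ ≤ 1 ∧ ‖val Q f⁻¹‖ ≤ B := by
  rintro ⟨B, hB⟩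
  have h1 : ∀ᶠ Q in (U : Filter (Place ℂ F)), ‖val Q f‖ < 1 / (|B| + 1) := by
    have h2 : Tendsto (fun Q : Place ℂ F => ‖val Q f‖) U (𝓝 0) := by
      have := hlim.norm
      rwa [norm_zero] at this
    exact h2.eventually (gt_mem_nhds (by positivity))
  obtain ⟨Q, hQ1, ⟨hQ2, hQ3⟩, hQ4⟩ := ((hf.and (hB.and h1))).exists
  have h3 := val_inv_mul Q hf0 hQ1 hQ2
  have h4 : ‖val Q f⁻¹‖ * ‖val Q f‖ = 1 := by rw [← norm_mul, h3, norm_one]
  have h5 : ‖val Q f⁻¹‖ * ‖val Q f‖ ≤ |B| * (1 / (|B| + 1)) := by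
    apply mul_le_mul (hQ3.trans (le_abs_self B)) hQ4.le (norm_nonneg _) (abs_nonneg _)
  rw [h4] at h5
  have h6 : |B| * (1 / (|B| + 1)) < 1 := by
    rw [mul_one_div, div_lt_one (by positivity)]
    linarith
  linarith

/-- The ring of functions bounded along the ultrafilter. -/
noncomputable def limRing : ValuationSubring F where
  carrier := {f | ∃ B : ℝ, ∀ᶠ Q in (U : Filter (Place ℂ F)), Q.adicValuation f ≤ 1 ∧ ‖val Q f‖ ≤ B}
  mul_mem' := by
    rintro f g ⟨B, hB⟩ ⟨C, hC⟩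
    refine ⟨B * C, ?_⟩
    filter_upwards [hB, hC] with Q h1 h2
    refine ⟨le_one_mul Q h1.1 h2.1, ?_⟩
    rw [val_mul Q h1.1 h2.1, norm_mul]
    exact mul_le_mul h1.2 h2.2 (norm_nonneg _) ((norm_nonneg _).trans h1.2)
  one_mem' := ⟨1, by
    filter_upwards with Q
    exact ⟨by rw [map_one], by rw [val_one, norm_one]⟩⟩
  add_mem' := by
    rintro f g ⟨B, hB⟩ ⟨C, hC⟩
    refine ⟨B + C, ?_⟩
    filter_upwards [hB, hC] with Q h1 h2
    refine ⟨le_one_add Q h1.1 h2.1, ?_⟩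
    rw [val_add Q h1.1 h2.1]
    exact (norm_add_le _ _).trans (add_le_add h1.2 h2.2)
  zero_mem' := ⟨0, by
    filter_upwards with Q
    exact ⟨by rw [map_zero]; exact zero_le_one, by rw [val_zero, norm_zero]⟩⟩
  neg_mem' := by
    rintro f ⟨B, hB⟩
    refine ⟨B, ?_⟩
    filter_upwards [hB] with Q h1
    refine ⟨by rw [Valuation.map_neg]; exact h1.1, ?_⟩
    rw [val_neg Q h1.1, norm_neg]; exact h1.2
  mem_or_inv_mem' := by
    intro f
    by_cases h : ∀ᶠ Q in (U : Filter (Place ℂ F)), Q.adicValuation f ≤ 1 ∧ ‖val Q f‖ ≤ 1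
    · exact Or.inl ⟨1, h⟩
    · right
      rw [← Ultrafilter.eventually_not] at h
      refine ⟨1, ?_⟩
      filter_upwards [h] with Q h1
      by_cases hf : Q.adicValuation f ≤ 1
      · have h2 : 1 < ‖val Q f‖ := by
          by_contra h3
          exact h1 ⟨hf, not_lt.1 h3⟩
        have h3 : val Q f ≠ 0 := by
          intro h4
          rw [h4, norm_zero] at h2
          linarith
        have h4 : Q.adicValuation f = 1 := (val_ne_zero_iff Q hf).1 h3
        refine ⟨by rw [map_inv₀, h4, inv_one], ?_⟩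
        rw [val_inv Q h4, norm_inv]
        exact inv_le_one_of_one_le₀ h2.le
      · rw [not_le] at hf
        have h5 : Q.adicValuation f⁻¹ < 1 := by
          rw [map_inv₀]
          exact inv_lt_one_of_one_lt₀ hf
        refine ⟨h5.le, ?_⟩
        rw [(val_eq_zero_iff Q h5.le).2 h5, norm_zero]
        exact zero_le_one

theorem mem_limRing {f : F} : f ∈ limRing U ↔
    ∃ B : ℝ, ∀ᶠ Q in (U : Filter (Place ℂ F)), Q.adicValuation f ≤ 1 ∧ ‖val Q f‖ ≤ B := Iff.rfl

theorem exists_lim {f : F} (hf : f ∈ limRing U) : ∃ c : ℂ, Tendsto (fun Q : Place ℂ F => val Q f) U (𝓝 c) := by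
  obtain ⟨B, hB⟩ := hf
  have hK : IsCompact (closedBall (0 : ℂ) B) := isCompact_closedBall 0 B
  have h1 : (U.map (fun Q : Place ℂ F => val Q f) : Filter ℂ) ≤ 𝓟 (closedBall (0 : ℂ) B) := by
    rw [le_principal_iff, Ultrafilter.coe_map, mem_map]
    filter_upwards [hB] with Q hQ
    simpa using hQ.2
  obtain ⟨c, -, hc⟩ := hK.ultrafilter_le_nhds (U.map (fun Q : Place ℂ F => val Q f)) h1
  exact ⟨c, hc⟩

theorem sub_tendsto {f : F} {c : ℂ} (hf : f ∈ limRing U) (hc : Tendsto (fun Q : Place ℂ F => val Q f) U (𝓝 c)) :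
    (∀ᶠ Q in (U : Filter (Place ℂ F)), Q.adicValuation (f - algebraMap ℂ F c) ≤ 1) ∧
      Tendsto (fun Q : Place ℂ F => val Q (f - algebraMap ℂ F c)) U (𝓝 0) := by
  obtain ⟨B, hB⟩ := hf
  constructor
  · filter_upwards [hB] with Q hQ
    exact (Valuation.map_sub _ _ _).trans (max_le hQ.1 (Q.adicValuation_algebraMap_le_one c))
  · have h1 : Tendsto (fun Q : Place ℂ F => val Q f - c) U (𝓝 0) := by
      have := hc.sub_const c
      rwa [sub_self] at this
    refine h1.congr' ?_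
    filter_upwards [hB] with Q hQ
    rw [val_sub Q hQ.1 (Q.adicValuation_algebraMap_le_one c), val_algebraMap]

theorem algebraMap_mem_limRing (c : ℂ) : algebraMap ℂ F c ∈ limRing U :=
  ⟨‖c‖, by
    filter_upwards with Q
    exact ⟨Q.adicValuation_algebraMap_le_one c, by rw [val_algebraMap]⟩⟩

theorem inv_not_mem_limRing {f : F} {c : ℂ} (hf : f ∈ limRing U)
    (hc : Tendsto (fun Q : Place ℂ F => val Q f) U (𝓝 c)) (hne : f ≠ algebraMap ℂ F c) :
    (f - algebraMap ℂ F c)⁻¹ ∉ limRing U := by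
  obtain ⟨h1, h2⟩ := sub_tendsto U hf hc
  exact not_bounded_inv U (sub_ne_zero.2 hne) h1 h2

theorem limRing_ne_top : limRing U ≠ ⊤ := by
  intro htop
  obtain ⟨v⟩ : Nonempty (Place ℂ F) := exists_place ℂ F
  obtain ⟨x, hx0, hx⟩ := adicValuation_surjective_exp v (-1)
  have hxm : x ∈ limRing U := by rw [htop]; trivial
  obtain ⟨c, hc⟩ := exists_lim U hxm
  by_cases hne : x = algebraMap ℂ F c
  · have hc0 : c ≠ 0 := by
      rintro rfl
      rw [map_zero] at hne
      exact hx0 hne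
    rw [hne, adicValuation_algebraMap v hc0] at hx
    have := exp_injective (hx.symm.trans exp_zero.symm)
    norm_num at this
  · apply inv_not_mem_limRing U hxm hc hne
    rw [htop]; trivial

/-- The limit of the ultrafilter. -/
noncomputable def lim : Place ℂ F :=
  placeOf (limRing U) (algebraMap_mem_limRing U) (limRing_ne_top U)

theorem lim_spec {f : F} (hf : (lim U).adicValuation f ≤ 1) :
    (∀ᶠ Q in (U : Filter (Place ℂ F)), Q.adicValuation f ≤ 1) ∧
      Tendsto (fun Q : Place ℂ F => val Q f) U (𝓝 (val (lim U) f)) := by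
  have hm : f ∈ limRing U := mem_of_adicValuation_le_one (lim U) hf
  obtain ⟨c, hc⟩ := exists_lim U hm
  have hv : val (lim U) f = c := by
    apply val_eq_of_lt
    by_contra h
    rw [not_lt] at h
    by_cases hne : f = algebraMap ℂ F c
    · rw [hne, sub_self, map_zero] at h
      exact absurd h (by simp)
    · apply inv_not_mem_limRing U hm hc hne
      apply mem_of_adicValuation_le_one (lim U)
      rw [map_inv₀]
      exact inv_le_one_of_one_le₀ h
  rw [hv]
  obtain ⟨B, hB⟩ := hm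
  exact ⟨hB.mono fun Q hQ => hQ.1, hc⟩

end Limit

/-- Compactness of the space of places. -/
theorem exists_finite_cover (D : ∀ P : Place ℂ F, AnDisc P) (r' : Place ℂ F → ℝ)
    (hr' : ∀ P, 0 < r' P) :
    ∃ S : Finset (Place ℂ F), ∀ Q : Place ℂ F, ∃ P ∈ S, ∃ z : ℂ, ‖z‖ < r' P ∧ ‖z‖ < (D P).r ∧
      (D P).σ z = Q := by
  classical
  by_contra hcon
  push Not at hcon
  set W : Place ℂ F → Set (Place ℂ F) := fun P =>
    {Q | ∃ z : ℂ, ‖z‖ < r' P ∧ ‖z‖ < (D P).r ∧ (D P).σ z = Q} with hW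
  obtain ⟨U, hU⟩ := Ultrafilter.exists_ultrafilter_of_finite_inter_nonempty
    (Set.range fun P => (W P)ᶜ) (by
      intro T hT
      obtain ⟨S, hS⟩ : ∃ S : Finset (Place ℂ F), ∀ A ∈ T, ∃ P ∈ S, A = (W P)ᶜ := by
        refine ⟨T.attach.image fun A => (hT A.2).choose, ?_⟩
        intro A hA
        refine ⟨(hT hA).choose, Finset.mem_image.2 ⟨⟨A, hA⟩, Finset.mem_attach _ _, rfl⟩, ?_⟩
        exact (hT hA).choose_spec.symm
      obtain ⟨Q, hQ⟩ := hcon S
      refine ⟨Q, ?_⟩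
      intro A hA
      obtain ⟨P, hP, rfl⟩ := hS A hA
      rintro ⟨z, h1, h2, h3⟩
      exact hQ P hP z h1 h2 h3)
  set P := lim U with hP
  have h1 : (W P)ᶜ ∈ U := hU ⟨P, rfl⟩
  obtain ⟨S, δ, hδ, hS, hnb⟩ := (D P).nhds (r' P) (hr' P)
  have h2 : ∀ᶠ Q in (U : Filter (Place ℂ F)), ∀ s ∈ S, Q.adicValuation s ≤ 1 ∧
      ‖val Q s - val P s‖ < δ := by
    rw [Filter.eventually_all_finset]
    intro s hs
    obtain ⟨h3, h4⟩ := lim_spec U (hS s hs)
    have h5 : ∀ᶠ Q : Place ℂ F in (U : Filter (Place ℂ F)), ‖val Q s - val P s‖ < δ := by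
      have := h4.eventually (Metric.ball_mem_nhds _ hδ)
      filter_upwards [this] with Q hQ
      rwa [dist_eq_norm] at hQ
    exact h3.and h5
  obtain ⟨Q, hQ1, hQ2⟩ := (h2.and h1).exists
  exact hQ2 (hnb Q hQ1)

end Fermat.Agent.H27
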