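import Mathlib

/-! Counting torsion in `V / Λ`. -/

set_option autoImplicit false

open Filter Topology Metric Set

namespace Fermat.Agent.H27

theorem natCard_torsion_of_exp {V A : Type*} [NormedAddCommGroup V] [NormedSpace ℝ V]
    [FiniteDimensional ℝ V] [AddCommGroup A] (e : V →+ A)
    (hinj : ∃ ε > 0, InjOn e (ball (0 : V) ε)) (R : ℝ)
    (hR : ∀ a : A, ∃ v : V, ‖v‖ ≤ R ∧ e v = a) (n : ℕ) (hn : n ≠ 0) :
    Nat.card {a : A // n • a = 0} = n ^ Module.finrank ℝ V := by
  have : NeZero n := ⟨hn⟩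
  obtain ⟨ε, hε, hinj⟩ := hinj
  set L : Submodule ℤ V := LinearMap.ker e.toIntLinearMap with hL
  have memL : ∀ v : V, v ∈ L ↔ e v = 0 := fun v => Iff.rfl
  have hdisc : DiscreteTopology L := by
    rw [discreteTopology_iff_isOpen_singleton_zero]
    refine Metric.isOpen_singleton_iff.2 ⟨ε, hε, ?_⟩
    rintro ⟨y, hy⟩ hd
    apply Subtype.ext
    have hy' : ‖y‖ < ε := by
      have : dist (⟨y, hy⟩ : L) 0 = ‖y‖ := by
        rw [Subtype.dist_eq]; simp
      rwa [this] at hd
    exact hinj (by simpa using hy') (mem_ball_self hε) (by rw [(memL y).1 hy]; simp)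
  have hlat : IsZLattice ℝ L := by
    constructor
    by_contra hne
    obtain ⟨φ, hφ0, hφ⟩ := Submodule.exists_le_ker_of_lt_top _ (lt_top_iff_ne_top.2 hne)
    apply hφ0
    ext v
    simp only [LinearMap.zero_apply]
    -- φ v is bounded independent of scaling
    set φc : V →L[ℝ] ℝ := LinearMap.toContinuousLinearMap φ with hφc
    have hb : ∀ w : V, |φ w| ≤ ‖φc‖ * R := by
      intro w
      obtain ⟨u, hu, hue⟩ := hR (e w)
      have h1 : w - u ∈ L := by rw [memL, map_sub, hue, sub_self]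
      have h2 : φ (w - u) = 0 := hφ (Submodule.subset_span h1)
      rw [map_sub, sub_eq_zero] at h2
      rw [h2]
      calc |φ u| = ‖φc u‖ := rfl
        _ ≤ ‖φc‖ * ‖u‖ := φc.le_opNorm u
        _ ≤ ‖φc‖ * R := by gcongr
    by_contra hv
    have hpos : 0 < |φ v| := abs_pos.2 hv
    obtain ⟨m, hm⟩ := exists_nat_gt ((‖φc‖ * R) / |φ v|)
    rw [div_lt_iff₀ hpos] at hm
    have := hb ((m : ℝ) • v)
    rw [map_smul, smul_eq_mul, abs_mul, Nat.abs_cast] at this
    linarith
  have : Module.Free ℤ L := ZLattice.module_free ℝ L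
  have : Module.Finite ℤ L := ZLattice.module_finite ℝ L
  have hrank : Module.finrank ℤ L = Module.finrank ℝ V := ZLattice.rank ℝ L
  rw [← hrank, ← ModN.natCard_eq (L : Type _) n]
  -- the map L → A[n], λ ↦ e (λ / n)
  have hnR : (n : ℝ) ≠ 0 := by exact_mod_cast hn
  have hnsmul : ∀ v : V, n • ((n : ℝ)⁻¹ • v) = v := by
    intro v
    rw [← Nat.cast_smul_eq_nsmul ℝ n, smul_smul, mul_inv_cancel₀ hnR, one_smul]
  let f : L →ₗ[ℤ] A :=
    (e.comp ((DistribSMul.toAddMonoidHom V ((n : ℝ)⁻¹)).comp L.subtype.toAddMonoidHom)).toIntLinearMap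
  have f_apply : ∀ l : L, f l = e ((n : ℝ)⁻¹ • (l : V)) := fun l => rfl
  have hker : LinearMap.ker f = LinearMap.range (LinearMap.lsmul ℤ L n) := by
    ext l
    rw [LinearMap.mem_ker, LinearMap.mem_range, f_apply]
    constructor
    · intro h
      refine ⟨⟨(n : ℝ)⁻¹ • (l : V), h⟩, ?_⟩
      apply Subtype.ext
      simp only [LinearMap.lsmul_apply, Submodule.coe_smul]
      rw [natCast_zsmul]
      exact hnsmul _
    · rintro ⟨l', rfl⟩
      simp only [LinearMap.lsmul_apply, Submodule.coe_smul]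
      rw [natCast_zsmul, ← Nat.cast_smul_eq_nsmul ℝ n, smul_smul, inv_mul_cancel₀ hnR, one_smul]
      exact l'.2
  have hrange : ∀ a : A, a ∈ LinearMap.range f ↔ n • a = 0 := by
    intro a
    constructor
    · rintro ⟨l, rfl⟩
      rw [f_apply, ← map_nsmul, hnsmul]
      exact l.2
    · intro h
      obtain ⟨v, -, rfl⟩ := hR a
      rw [← map_nsmul] at h
      refine ⟨⟨n • v, h⟩, ?_⟩
      rw [f_apply]
      show e ((n : ℝ)⁻¹ • (n • v)) = e v
      rw [← Nat.cast_smul_eq_nsmul ℝ n, smul_smul, inv_mul_cancel₀ hnR, one_smul]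
  have e1 : (L ⧸ LinearMap.ker f) ≃ₗ[ℤ] LinearMap.range f := f.quotKerEquivRange
  have e2 : (L ⧸ LinearMap.ker f) ≃ₗ[ℤ] ModN (L : Type _) n := Submodule.quotEquivOfEq _ _ hker
  refine Nat.card_congr (Equiv.trans ?_ (e1.symm.trans e2).toEquiv)
  exact Equiv.subtypeEquivRight (fun a => (hrange a).symm)

end Fermat.Agent.H27
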