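/-
H27Global: global uniformisation of `Pic0` of a function field over `ℂ`; torsion count.
-/
import Mathlib
import Fermat.Agent.H27Chart
import Fermat.Agent.H27Compact
import Fermat.Agent.H27Lattice

set_option autoImplicit false
set_option linter.unusedSectionVars false

open AlgebraicCurve WithZero Polynomial Topology Filter Metric

namespace Fermat.Agent.H27

open Fermat.Agent.H3RR

variable {F : Type*} [Field F] [Algebra ℂ F] [IsFF ℂ F]

theorem lim_nhds (U : Ultrafilter (Place ℂ F)) (D : AnDisc (lim U)) {ε : ℝ} (hε : 0 < ε) :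
    ∀ᶠ Q in (U : Filter (Place ℂ F)), ∃ z : ℂ, ‖z‖ < ε ∧ ‖z‖ < D.r ∧ D.σ z = Q := by
  obtain ⟨S, δ, hδ, hS, hnb⟩ := D.nhds ε hε
  have h2 : ∀ᶠ Q in (U : Filter (Place ℂ F)), ∀ s ∈ S, Q.adicValuation s ≤ 1 ∧
      ‖val Q s - val (lim U) s‖ < δ := by
    rw [Filter.eventually_all_finset]
    intro s hs
    obtain ⟨h3, h4⟩ := lim_spec U (hS s hs)
    have h5 : ∀ᶠ Q : Place ℂ F in (U : Filter (Place ℂ F)), ‖val Q s - val (lim U) s‖ < δ := by
      have := h4.eventually (Metric.ball_mem_nhds _ hδ)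
      filter_upwards [this] with Q hQ
      rwa [dist_eq_norm] at hQ
    exact h3.and h5
  filter_upwards [h2] with Q hQ
  exact hnb Q hQ

/-- A nonconstant function with a pole only at `P₀`. -/
theorem exists_nonconst (P₀ : Place ℂ F) : ∃ f : F, (∀ c : ℂ, f ≠ algebraMap ℂ F c) ∧
    ∀ P, P ≠ P₀ → P.adicValuation f ≤ 1 := by
  set D : Divisor ℂ F := Finsupp.single P₀ ((genusFF ℂ F : ℤ) + 1) with hD
  have h1 := riemann_inequality D
  rw [hD, Divisor.degree_single, deg_eq_one, ← hD] at h1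
  have h2 : 2 ≤ ell D := by push_cast at h1; omega
  by_contra hcon
  push Not at hcon
  have h3 : ∀ f ∈ riemannRochSpace D, ∃ c : ℂ, f = algebraMap ℂ F c := by
    intro f hf
    by_contra h4
    push Not at h4
    obtain ⟨P, hP, hP2⟩ := hcon f h4
    have h5 := hf P
    rw [hD, Finsupp.single_eq_of_ne hP, exp_zero] at h5
    exact absurd h5 (not_le.2 hP2)
  have hone : (1 : F) ∈ riemannRochSpace D := by
    intro v
    rw [map_one, ← exp_zero, exp_le_exp]
    have : (0 : Divisor ℂ F) ≤ D := by rw [hD, Finsupp.single_nonneg]; positivity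
    exact Finsupp.le_def.mp this v
  have h6 : ell D ≤ 1 := by
    apply finrank_le_one (⟨1, hone⟩ : riemannRochSpace D)
    intro w
    obtain ⟨c, hc⟩ := h3 w w.2
    refine ⟨c, Subtype.ext ?_⟩
    show c • (1 : F) = w
    rw [hc, Algebra.smul_def, mul_one]
  omega

theorem pp_self (P : Place ℂ F) : pp P P = 0 := by
  have := pp_add P P P
  exact left_eq_add.1 this.symm

theorem pp_symm (P P' : Place ℂ F) : pp P P' = - pp P' P := by
  have := pp_add P P' P
  rw [pp_self] at this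
  exact eq_neg_of_add_eq_zero_left this

/-- Connectedness: an "open" subgroup of `Pic0` contains all differences of points. -/
theorem pp_mem_of_open (H : AddSubgroup (Pic0 ℂ F))
    (hH : ∀ P : Place ℂ F, ∀ᶠ z in 𝓝 (0 : ℂ), pp ((disc P).σ z) P ∈ H) (P₁ P₀ : Place ℂ F) :
    pp P₁ P₀ ∈ H := by
  by_contra hcon
  obtain ⟨f, hf, hfreg⟩ := exists_nonconst P₀
  set C : Set (Place ℂ F) := {Q | pp Q P₁ ∈ H} with hC
  have hC1 : P₁ ∈ C := by
    show pp P₁ P₁ ∈ H
    rw [pp_self]; exact zero_mem _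
  have hC0 : P₀ ∉ C := by
    intro h
    apply hcon
    rw [pp_symm]
    exact neg_mem h
  have hCreg : ∀ Q ∈ C, Q.adicValuation f ≤ 1 := fun Q hQ => hfreg Q (by
    rintro rfl; exact hC0 hQ)
  -- the maximum is attained
  have hmax : ∃ Qm ∈ C, ∀ Q ∈ C, ‖val Q f‖ ≤ ‖val Qm f‖ := by
    by_contra hno
    push Not at hno
    obtain ⟨U, hU⟩ := Ultrafilter.exists_ultrafilter_of_finite_inter_nonempty
      (Set.range fun Q : C => {Q' : Place ℂ F | Q' ∈ C ∧ ‖val (Q : Place ℂ F) f‖ < ‖val Q' f‖}) (by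
        classical
        intro T hT
        obtain ⟨S, hS⟩ : ∃ S : Finset (Place ℂ F), (∀ Q ∈ S, Q ∈ C) ∧ ∀ A ∈ T, ∃ Q ∈ S,
            A = {Q' : Place ℂ F | Q' ∈ C ∧ ‖val Q f‖ < ‖val Q' f‖} := by
          refine ⟨T.attach.image fun A => ((hT A.2).choose : Place ℂ F), ?_, ?_⟩
          · intro Q hQ
            rw [Finset.mem_image] at hQ
            obtain ⟨A, -, rfl⟩ := hQ
            exact (hT A.2).choose.2
          · intro A hA
            refine ⟨(hT hA).choose, Finset.mem_image.2 ⟨⟨A, hA⟩, Finset.mem_attach _ _, rfl⟩, ?_⟩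
            exact (hT hA).choose_spec.symm
        obtain ⟨hS1, hS2⟩ := hS
        -- pick the largest
        obtain ⟨Q, hQ, hQ2⟩ : ∃ Q ∈ C, ∀ Q' ∈ S, ‖val Q' f‖ ≤ ‖val Q f‖ := by
          rcases S.eq_empty_or_nonempty with rfl | hne
          · exact ⟨P₁, hC1, by simp⟩
          · obtain ⟨Q, hQ, hQ2⟩ := Finset.exists_max_image S (fun Q => ‖val Q f‖) hne
            exact ⟨Q, hS1 Q hQ, hQ2⟩
        obtain ⟨Q', hQ', hQ'2⟩ := hno Q hQ
        refine ⟨Q', ?_⟩
        intro A hA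
        obtain ⟨Q'', hQ'', rfl⟩ := hS2 A hA
        exact ⟨hQ', (hQ2 Q'' hQ'').trans_lt hQ'2⟩)
    have hUQ : ∀ Q ∈ C, ∀ᶠ Q' in (U : Filter (Place ℂ F)), Q' ∈ C ∧ ‖val Q f‖ < ‖val Q' f‖ :=
      fun Q hQ => hU ⟨⟨Q, hQ⟩, rfl⟩
    set P := lim U with hP
    have hPC : P ∈ C := by
      obtain ⟨ε, hε, hε2⟩ := Metric.eventually_nhds_iff.1 (hH P)
      have h1 := lim_nhds U (disc P) hε
      obtain ⟨Q, ⟨hQ1, -⟩, z, hz1, hz2, rfl⟩ := ((hUQ P₁ hC1).and h1).exists
      have h2 : pp ((disc P).σ z) P ∈ H := hε2 (by rwa [dist_zero_right])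
      have h3 : pp P P₁ = pp ((disc P).σ z) P₁ - pp ((disc P).σ z) P := by
        rw [← pp_add ((disc P).σ z) P P₁]; abel
      show pp P P₁ ∈ H
      rw [h3]
      exact sub_mem hQ1 h2
    obtain ⟨-, hlim⟩ := lim_spec U (hCreg P hPC)
    obtain ⟨Q, hQ, hQ2⟩ := hno P hPC
    have h4 : ‖val Q f‖ ≤ ‖val P f‖ :=
      ge_of_tendsto hlim.norm ((hUQ Q hQ).mono fun Q' h => h.2.le)
    linarith
  obtain ⟨P, hP, hPmax⟩ := hmax
  have hfP := hCreg P hP
  set φ : ℂ → ℂ := fun z => val ((disc P).σ z) f with hφ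
  have hφa : AnalyticAt ℂ φ 0 := (disc P).analyticAt_val hfP
  have hφ0 : φ 0 = val P f := by
    show val ((disc P).σ 0) f = _
    rw [(disc P).σ_zero]
  have hloc : IsLocalMax (norm ∘ φ) 0 := by
    filter_upwards [hH P] with z hz
    show ‖φ z‖ ≤ ‖φ 0‖
    rw [hφ0]
    apply hPmax
    show pp _ P₁ ∈ H
    rw [← pp_add _ P P₁]
    exact add_mem hz hP
  have hconst : ∀ᶠ z in 𝓝 (0 : ℂ), φ z = φ 0 :=
    Complex.eventually_eq_of_isLocalMax_norm
      (hφa.eventually_analyticAt.mono fun z hz => hz.differentiableAt) hloc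
  -- infinitely many zeros
  have hne : f - algebraMap ℂ F (φ 0) ≠ 0 := sub_ne_zero.2 (hf _)
  have hfin := finite_support_ord (K := ℂ) hne
  have hev : ∀ᶠ z in 𝓝 (0 : ℂ), ‖z‖ < (disc P).r ∧ φ z = φ 0 ∧
      ((disc P).σ z).adicValuation f ≤ 1 :=
    (disc P).eventually_lt.and (hconst.and ((disc P).eventually_regular hfP))
  have hinf : {z : ℂ | ‖z‖ < (disc P).r ∧ φ z = φ 0 ∧
      ((disc P).σ z).adicValuation f ≤ 1}.Infinite := infinite_of_mem_nhds 0 hev
  refine (Set.infinite_of_injOn_mapsTo (f := (disc P).σ) ?_ ?_ hinf) hfin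
  · intro z hz w hw hzw
    exact (disc P).σ_inj hz.1 hw.1 hzw
  · intro z hz
    rw [Function.mem_support]
    have h1 := sub_val_lt_one ((disc P).σ z) hz.2.2
    have h2 : val ((disc P).σ z) f = φ 0 := hz.2.1
    rw [h2] at h1
    have := ord_pos_of_lt_one hne h1
    omega

theorem cls_effective {V : Type*} [NormedAddCommGroup V] (e : V →+ Pic0 ℂ F) (P₀ : Place ℂ F)
    (B : ℝ) (hB : ∀ Q, ∃ v : V, ‖v‖ ≤ B ∧ e v = pp Q P₀) (n : ℕ) :
    ∀ E : Divisor ℂ F, 0 ≤ E → Divisor.degree E = n →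
      ∃ v : V, ‖v‖ ≤ n * B ∧ e v = cls (E - Finsupp.single P₀ (n : ℤ)) := by
  have hcls0 : cls (0 : Divisor ℂ F) = 0 := by
    have h0 : Divisor.degree (0 : Divisor ℂ F) = 0 := map_zero _
    have := cls_add h0 h0
    rw [add_zero] at this
    exact left_eq_add.1 this
  induction n with
  | zero =>
    intro E hE hd
    have h0 := eq_zero_of_degree_zero hE (by simpa using hd)
    refine ⟨0, by simp, ?_⟩
    rw [map_zero, h0]
    simp only [Nat.cast_zero, Finsupp.single_zero, sub_zero]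
    exact hcls0.symm
  | succ n ih =>
    intro E hE hd
    obtain ⟨Q, hQ⟩ : ∃ Q, 1 ≤ E Q := by
      by_contra hno
      push Not at hno
      have : E = 0 := by
        ext Q
        have h1 := hno Q
        have h2 : 0 ≤ E Q := Finsupp.le_def.mp hE Q
        show E Q = 0
        omega
      rw [this, map_zero] at hd
      push_cast at hd
      omega
    have hE' : 0 ≤ E - Finsupp.single Q 1 := by
      classical
      rw [Finsupp.le_def]
      intro v
      rw [Finsupp.sub_apply]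
      by_cases hv : v = Q
      · subst hv
        rw [Finsupp.single_eq_same]
        show (0 : ℤ) ≤ _
        omega
      · rw [Finsupp.single_eq_of_ne hv, sub_zero]
        exact Finsupp.le_def.mp hE v
    have hd' : Divisor.degree (E - Finsupp.single Q 1) = n := by
      rw [map_sub, hd, Divisor.degree_single, deg_eq_one]
      push_cast
      ring
    obtain ⟨v, hv1, hv2⟩ := ih _ hE' hd'
    obtain ⟨w, hw1, hw2⟩ := hB Q
    refine ⟨v + w, ?_, ?_⟩
    · calc ‖v + w‖ ≤ ‖v‖ + ‖w‖ := norm_add_le _ _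
        _ ≤ n * B + B := add_le_add hv1 hw1
        _ = ((n + 1 : ℕ) : ℝ) * B := by push_cast; ring
    · rw [map_add, hv2, hw2]
      unfold pp
      rw [← cls_add _ (degree_point_sub _ _)]
      · congr 1
        have : (Finsupp.single P₀ ((n + 1 : ℕ) : ℤ) : Divisor ℂ F) =
            Finsupp.single P₀ (n : ℤ) + Finsupp.single P₀ 1 := by
          rw [← Finsupp.single_add]; push_cast; rfl
        rw [this]
        abel
      · rw [map_sub, hd', Divisor.degree_single, deg_eq_one]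
        simp

variable (F)

/-- **Uniformisation** of the divisor class group of degree zero over `ℂ`. -/
theorem exists_uniformisation :
    ∃ e : (Fin (genusFF ℂ F) → ℂ) →+ Pic0 ℂ F,
      (∃ ε > 0, Set.InjOn e (ball (0 : Fin (genusFF ℂ F) → ℂ) ε)) ∧
      ∃ R : ℝ, ∀ a : Pic0 ℂ F, ∃ v, ‖v‖ ≤ R ∧ e v = a := by
  classical
  obtain ⟨e, he1, he2⟩ := exists_exp_pic0 F
  refine ⟨e, he1, ?_⟩
  obtain ⟨P₀⟩ : Nonempty (Place ℂ F) := exists_place ℂ F
  have hopen : ∀ P : Place ℂ F, ∀ᶠ z in 𝓝 (0 : ℂ), pp ((disc P).σ z) P ∈ e.range := by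
    intro P
    filter_upwards [he2 P 1 one_pos] with z hz
    obtain ⟨v, -, hv⟩ := hz
    exact ⟨v, hv⟩
  have hall : ∀ P : Place ℂ F, ∃ w, e w = pp P P₀ := fun P => pp_mem_of_open e.range hopen P P₀
  choose w hw using hall
  choose r hr hr2 using fun P : Place ℂ F => Metric.eventually_nhds_iff.1 (he2 P 1 one_pos)
  obtain ⟨S, hS⟩ := exists_finite_cover (F := F) disc r hr
  set B : ℝ := 1 + ∑ P ∈ S, ‖w P‖ with hB
  have hB2 : ∀ Q, ∃ v : Fin (genusFF ℂ F) → ℂ, ‖v‖ ≤ B ∧ e v = pp Q P₀ := by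
    intro Q
    obtain ⟨P, hP, z, hz1, hz2, rfl⟩ := hS Q
    obtain ⟨v, hv1, hv2⟩ := hr2 P (y := z) (by rwa [dist_zero_right])
    refine ⟨v + w P, ?_, ?_⟩
    · calc ‖v + w P‖ ≤ ‖v‖ + ‖w P‖ := norm_add_le _ _
        _ ≤ 1 + ∑ P ∈ S, ‖w P‖ := add_le_add hv1.le
          (Finset.single_le_sum (f := fun P => ‖w P‖) (fun _ _ => norm_nonneg _) hP)
    · rw [map_add, hv2, hw, pp_add]
  refine ⟨(genusFF ℂ F : ℕ) * B, fun a => ?_⟩
  obtain ⟨X, hX, rfl⟩ := cls_surjective a
  have hE0 : Divisor.degree (Finsupp.single P₀ (genusFF ℂ F : ℤ) : Divisor ℂ F) =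
      genusFF ℂ F := by
    rw [Divisor.degree_single, deg_eq_one]; simp
  obtain ⟨f, hf, E, hE, hEd, hXE⟩ := exists_effective_sub hX hE0
  obtain ⟨v, hv1, hv2⟩ := cls_effective e P₀ B hB2 _ E hE hEd
  refine ⟨v, hv1, ?_⟩
  rw [hv2, ← hXE, cls_eq_iff (by rw [map_add, hX, degree_divOf hf, add_zero]) hX]
  refine ⟨f, hf, fun u => ?_⟩
  rw [add_sub_cancel_left, divOf_apply hf]

/-- **Torsion of `Pic0` over `ℂ`.** -/
theorem natCard_torsion_complex (n : ℕ) (hn : n ≠ 0) :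
    Nat.card {a : Pic0 ℂ F // n • a = 0} = n ^ (2 * genusFF ℂ F) := by
  obtain ⟨e, he1, R, hR⟩ := exists_uniformisation F
  rw [natCard_torsion_of_exp e he1 R hR n hn]
  congr 1
  rw [Module.finrank_pi_fintype]
  simp [Complex.finrank_real_complex, mul_comm]

end Fermat.Agent.H27
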