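/-
H17DivMod: `J_0(N)(Qbar)` is divisible (helper17)
-/
import Mathlib
import Fermat.Agent.H17Div
import Fermat.Agent.H90Exist
import Fermat.Agent.H90Field
import Fermat.Agent.H27Global
import Fermat.Agent.H42Inputs

set_option autoImplicit false
set_option linter.unusedSectionVars false

noncomputable section

open AlgebraicCurve ModularCurve HahnSeries IntermediateField

namespace Fermat.Agent.H17

open Fermat.Agent.H3RR Fermat.Agent.H26

section CE

variable (L0 L1 : Type*) [Field L0] [Field L1] [Algebra L0 L1] [Algebra ℚ L0] [Algebra ℚ L1]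
variable (F₀ : IntermediateField ℚ (LaurentSeries ℚ))

/-- algebra structures -/
@[reducible] def algBC : Algebra (laurentBaseChange L0 F₀) (laurentBaseChange L1 F₀) :=
  (H90.baseIncl L0 L1 F₀).toAlgebra

@[reducible] def algKC : Algebra L0 (laurentBaseChange L1 F₀) :=
  ((algebraMap L1 (laurentBaseChange L1 F₀)).comp (algebraMap L0 L1)).toAlgebra

theorem tower1 : letI := algKC L0 L1 F₀; IsScalarTower L0 L1 (laurentBaseChange L1 F₀) :=
  letI := algKC L0 L1 F₀
  IsScalarTower.of_algebraMap_eq fun _ => rfl

theorem tower2 : letI := algKC L0 L1 F₀; letI := algBC L0 L1 F₀;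
    IsScalarTower L0 (laurentBaseChange L0 F₀) (laurentBaseChange L1 F₀) :=
  letI := algKC L0 L1 F₀
  letI := algBC L0 L1 F₀
  IsScalarTower.of_algebraMap_eq fun a => Subtype.ext (H90.coeffMap_algebraMap' a).symm

theorem coeff_algebraMap_mul (L : Type*) [Field L] (c : L) (f : LaurentSeries L) (m : ℤ) :
    (algebraMap L (LaurentSeries L) c * f).coeff m = c * f.coeff m := by
  rw [algebraMap_laurentSeries_eq_single, coeff_single_zero_mul]

/-- linear independence is preserved by extension of constants -/
theorem linInd_coeffMap {n : ℕ} (e : Fin n → LaurentSeries L0)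
    (he : ∀ a : Fin n → L0, ∑ i, algebraMap L0 (LaurentSeries L0) (a i) * e i = 0 → ∀ i, a i = 0)
    (c : Fin n → L1)
    (hc : ∑ i, algebraMap L1 (LaurentSeries L1) (c i) * coeffMap (algebraMap L0 L1) (e i) = 0) :
    ∀ i, c i = 0 := by
  classical
  -- basis of the span of the coefficients
  let M : Submodule L0 L1 := Submodule.span L0 (Set.range c)
  have hM : Module.Finite L0 M := Module.Finite.span_of_finite L0 (Set.finite_range c)
  let B := Module.finBasis L0 M
  have hcM : ∀ i, c i ∈ M := fun i => Submodule.subset_span ⟨i, rfl⟩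
  have hci : ∀ i, c i = ∑ j, B.repr ⟨c i, hcM i⟩ j • (B j : L1) := by
    intro i
    have h1 := congrArg (Submodule.subtype M) (B.sum_repr ⟨c i, hcM i⟩)
    rw [map_sum] at h1
    simp only [map_smul, Submodule.subtype_apply] at h1
    exact h1.symm
  have hBind : LinearIndependent L0 fun j => (B j : L1) := by
    have := B.linearIndependent.map' M.subtype (Submodule.ker_subtype M)
    exact this
  have key : ∀ j, ∑ i, algebraMap L0 (LaurentSeries L0) (B.repr ⟨c i, hcM i⟩ j) * e i = 0 := by
    intro j
    ext m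
    have h1 := congrArg (fun x : LaurentSeries L1 => x.coeff m) hc
    simp only [HahnSeries.coeff_sum, coeff_algebraMap_mul, coeffMap_coeff, HahnSeries.coeff_zero] at h1
    have h2 : ∑ j, (∑ i, B.repr ⟨c i, hcM i⟩ j * (e i).coeff m) • (B j : L1) = 0 := by
      rw [← h1]
      simp_rw [Finset.sum_smul]
      rw [Finset.sum_comm]
      refine Finset.sum_congr rfl fun i _ => ?_
      conv_rhs => rw [hci i, Finset.sum_mul]
      refine Finset.sum_congr rfl fun j _ => ?_
      rw [Algebra.smul_def, Algebra.smul_def, map_mul]; ring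
    have h3 := Fintype.linearIndependent_iff.mp hBind _ h2 j
    rw [HahnSeries.coeff_sum]
    simpa only [coeff_algebraMap_mul, HahnSeries.coeff_zero] using h3
  intro i
  rw [hci i]
  have h0 : ∀ j, B.repr ⟨c i, hcM i⟩ j = 0 := fun j => he _ (key j) i
  simp [h0]

theorem isCE : letI := algKC L0 L1 F₀; letI := algBC L0 L1 F₀; haveI := tower1 L0 L1 F₀;
    haveI := tower2 L0 L1 F₀;
    IsCE L0 L1 (laurentBaseChange L0 F₀) (laurentBaseChange L1 F₀) := by
  let _ := algKC L0 L1 F₀
  let _ := algBC L0 L1 F₀
  have _ := tower1 L0 L1 F₀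
  have _ := tower2 L0 L1 F₀
  refine ⟨fun {n} e he => ?_, ?_⟩
  · rw [Fintype.linearIndependent_iff] at he ⊢
    intro c hc
    refine linInd_coeffMap L0 L1 (fun i => ((e i : laurentBaseChange L0 F₀) : LaurentSeries L0)) ?_ c ?_
    · intro a ha
      apply he
      apply Subtype.ext
      refine Eq.trans ?_ ha
      push_cast
      refine Finset.sum_congr rfl fun i _ => ?_
      rw [Algebra.smul_def]
    · have h := congrArg Subtype.val hc
      push_cast at h
      rw [← h]
      refine Finset.sum_congr rfl fun i _ => ?_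
      rw [Algebra.smul_def]
      rfl
  · intro x
    -- the span is a subring
    let T : Subalgebra L1 (laurentBaseChange L1 F₀) :=
      Algebra.adjoin L1 (Set.range (algebraMap (laurentBaseChange L0 F₀) (laurentBaseChange L1 F₀)))
    have hT : ∀ a ∈ T, a ∈ Submodule.span L1
        (Set.range (algebraMap (laurentBaseChange L0 F₀) (laurentBaseChange L1 F₀))) := by
      intro a ha
      have h := Algebra.adjoin_eq_span (R := L1)
        (s := Set.range (algebraMap (laurentBaseChange L0 F₀) (laurentBaseChange L1 F₀)))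
      have hcl : ((Submonoid.closure (Set.range (algebraMap (laurentBaseChange L0 F₀)
          (laurentBaseChange L1 F₀))) : Submonoid (laurentBaseChange L1 F₀)) :
          Set (laurentBaseChange L1 F₀)) =
          Set.range (algebraMap (laurentBaseChange L0 F₀) (laurentBaseChange L1 F₀)) := by
        apply Set.Subset.antisymm
        · intro y hy
          have : y ∈ MonoidHom.mrange ((algebraMap (laurentBaseChange L0 F₀)
              (laurentBaseChange L1 F₀)).toMonoidHom) := by
            refine (Submonoid.closure_le.mpr ?_) hy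
            rintro _ ⟨z, rfl⟩
            exact ⟨z, rfl⟩
          obtain ⟨z, hz⟩ := this
          exact ⟨z, hz⟩
        · exact Submonoid.subset_closure
      rw [hcl] at h
      have ha' : a ∈ Subalgebra.toSubmodule T := ha
      rwa [h] at ha'
    suffices h : ∃ a ∈ T, ∃ b ∈ T, b ≠ 0 ∧ x * b = a by
      obtain ⟨a, ha, b, hb, hb0, h⟩ := h
      exact ⟨a, hT a ha, b, hT b hb, hb0, h⟩
    have hx : (x : LaurentSeries L1) ∈ laurentBaseChange L1 F₀ := x.2
    -- the fractions form a subfield
    have main : ∀ y : LaurentSeries L1, y ∈ Subfield.closure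
        (Set.range (algebraMap L1 (LaurentSeries L1)) ∪
          (⇑(coeffEmb L1) '' (F₀ : Set (LaurentSeries ℚ)))) →
        ∃ a ∈ T, ∃ b ∈ T, b ≠ 0 ∧ y * (b : LaurentSeries L1) = a := by
      intro y hy
      induction hy using Subfield.closure_induction with
      | mem y hy =>
        rcases hy with ⟨c, rfl⟩ | ⟨z, hz, rfl⟩
        · exact ⟨algebraMap L1 _ c, T.algebraMap_mem c, 1, one_mem _, one_ne_zero, by
            simp⟩
        · refine ⟨algebraMap (laurentBaseChange L0 F₀) (laurentBaseChange L1 F₀)
            ⟨coeffEmb L0 z, coeffEmb_mem_laurentBaseChange L0 hz⟩,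
            Algebra.subset_adjoin ⟨_, rfl⟩, 1, one_mem _, one_ne_zero, ?_⟩
          have : ((algebraMap (laurentBaseChange L0 F₀) (laurentBaseChange L1 F₀)
            ⟨coeffEmb L0 z, coeffEmb_mem_laurentBaseChange L0 hz⟩ : laurentBaseChange L1 F₀) :
            LaurentSeries L1) = coeffMap (algebraMap L0 L1) (coeffEmb L0 z) := rfl
          rw [this, H90.coeffMap_coeffEmb']
          simp
      | one => exact ⟨1, one_mem _, 1, one_mem _, one_ne_zero, by simp⟩
      | add y z _ _ hy hz =>
        obtain ⟨a, ha, b, hb, hb0, h⟩ := hy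
        obtain ⟨a', ha', b', hb', hb0', h'⟩ := hz
        refine ⟨a * b' + a' * b, add_mem (mul_mem ha hb') (mul_mem ha' hb), b * b', mul_mem hb hb',
          mul_ne_zero hb0 hb0', ?_⟩
        push_cast
        rw [← h, ← h']; ring
      | neg y _ hy =>
        obtain ⟨a, ha, b, hb, hb0, h⟩ := hy
        refine ⟨-a, neg_mem ha, b, hb, hb0, ?_⟩
        push_cast
        rw [← h]; ring
      | inv y _ hy =>
        obtain ⟨a, ha, b, hb, hb0, h⟩ := hy
        by_cases ha0 : a = 0
        · have hb0' : (b : LaurentSeries L1) ≠ 0 := by exact_mod_cast hb0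
          have hy0 : y = 0 := by
            rw [ha0] at h
            simpa [hb0'] using h
          exact ⟨0, zero_mem _, 1, one_mem _, one_ne_zero, by simp [hy0]⟩
        · refine ⟨b, hb, a, ha, ha0, ?_⟩
          have ha0' : (a : LaurentSeries L1) ≠ 0 := by exact_mod_cast ha0
          have hy0 : y ≠ 0 := by
            rintro rfl
            rw [zero_mul] at h
            exact ha0' h.symm
          rw [← h, ← mul_assoc, inv_mul_cancel₀ hy0, one_mul]
      | mul y z _ _ hy hz =>
        obtain ⟨a, ha, b, hb, hb0, h⟩ := hy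
        obtain ⟨a', ha', b', hb', hb0', h'⟩ := hz
        refine ⟨a * a', mul_mem ha ha', b * b', mul_mem hb hb', mul_ne_zero hb0 hb0', ?_⟩
        push_cast
        rw [← h, ← h']; ring
    obtain ⟨a, ha, b, hb, hb0, h⟩ := main _ (mem_laurentBaseChange_iff.mp hx)
    exact ⟨a, ha, b, hb, hb0, Subtype.ext h⟩

end CE

section JZero

variable (N : ℕ) [NeZero N]

/-- `J_0(N)(Qbar)` is divisible. -/
theorem jzero_divisible {n : ℕ} (hn : n ≠ 0) (z : JZero N) : ∃ y : JZero N, n • y = z := by
  let _ := H90.algQbarC
  let _ := algKC (AlgebraicClosure ℚ) ℂ (modularFunctionFieldFull N)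
  let _ := algBC (AlgebraicClosure ℚ) ℂ (modularFunctionFieldFull N)
  have _ := tower1 (AlgebraicClosure ℚ) ℂ (modularFunctionFieldFull N)
  have _ := tower2 (AlgebraicClosure ℚ) ℂ (modularFunctionFieldFull N)
  have _ := isCE (AlgebraicClosure ℚ) ℂ (modularFunctionFieldFull N)
  have h1 : IsFF (AlgebraicClosure ℚ) (laurentBaseChange (AlgebraicClosure ℚ) (modularFunctionFieldFull N)) :=
    inferInstance
  have h2 : IsFF ℂ (laurentBaseChange ℂ (modularFunctionFieldFull N)) := inferInstance
  obtain ⟨e, -, R, hR⟩ := H27.exists_uniformisation (laurentBaseChange ℂ (modularFunctionFieldFull N))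
  have hfin : {y : Pic0 ℂ (laurentBaseChange ℂ (modularFunctionFieldFull N)) | n • y = 0}.Finite := by
    have h3 := H27.natCard_torsion_complex (laurentBaseChange ℂ (modularFunctionFieldFull N)) n hn
    have h4 : Nat.card {a : Pic0 ℂ (laurentBaseChange ℂ (modularFunctionFieldFull N)) // n • a = 0} ≠ 0 := by
      rw [h3]; exact pow_ne_zero _ hn
    exact Set.finite_coe_iff.mp (Nat.finite_of_card_ne_zero h4)
  refine exists_nsmul_eq_of_ext (k' := ℂ)
    (E' := laurentBaseChange ℂ (modularFunctionFieldFull N))
    ((arithmeticGalois (modularFunctionFieldFull N)).comp (AlgEquiv.restrictScalarsHom ℚ)) ?_ ?_ hfin ?_ z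
  · intro σ a; rfl
  · intro σ x
    apply Subtype.ext
    show coeffMap _ (coeffMap _ _) = coeffMap _ _
    rw [coeffMap_coeffMap]
    apply coeffMap_congr
    ext a
    exact σ.commutes a
  · intro z'
    obtain ⟨v, -, hv⟩ := hR z'
    refine ⟨e ((n : ℝ)⁻¹ • v), ?_⟩
    rw [← map_nsmul, ← hv]
    congr 1
    rw [← Nat.cast_smul_eq_nsmul ℝ, smul_smul, mul_inv_cancel₀ (by exact_mod_cast hn), one_smul]

end JZero

end Fermat.Agent.H17
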