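import Mathlib
import Fermat.Agent.H19Setting

/-!
# S19: closure properties of algebras of analytic functions on finite sets (helper19)
-/

set_option autoImplicit false

noncomputable section

namespace Fermat.Agent.H19

namespace IsAnAlg

variable {K : Type*} [Field K] {A : ValuationSubring K} {ι S : Type*} [Finite S]
  {σ : ι → K ≃+* K} {τ : ι → S → S} {H : Subring (S → K)}

omit [Finite S] in
theorem τ_injective (h : IsAnAlg A σ τ H) (i : ι) : Function.Injective (τ i) := by
  intro s t hst
  refine h.sep _ _ fun f hf => (σ i).injective ?_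
  rw [← h.equiv f hf, ← h.equiv f hf, hst]

theorem τ_surjective (h : IsAnAlg A σ τ H) (i : ι) : Function.Surjective (τ i) :=
  Finite.surjective_of_injective (h.τ_injective i)

/-- the `K`-span of `H` is the space of all functions -/
theorem span_eq_top (h : IsAnAlg A σ τ H) : Submodule.span K (H : Set (S → K)) = ⊤ := by
  classical
  have := Fintype.ofFinite S
  set U := Submodule.span K (H : Set (S → K)) with hU
  have h1 : (1 : S → K) ∈ U := Submodule.subset_span H.one_mem
  have hmul : ∀ f ∈ U, ∀ g ∈ U, f * g ∈ U := by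
    intro f hf g hg
    induction hf using Submodule.span_induction with
    | mem f hf =>
      induction hg using Submodule.span_induction with
      | mem g hg => exact Submodule.subset_span (H.mul_mem hf hg)
      | zero => rw [mul_zero]; exact U.zero_mem
      | add a b _ _ ha hb => rw [mul_add]; exact U.add_mem ha hb
      | smul c a _ ha => rw [mul_smul_comm]; exact U.smul_mem _ ha
    | zero => rw [zero_mul]; exact U.zero_mem
    | add a b _ _ ha hb => rw [add_mul]; exact U.add_mem ha hb
    | smul c a _ ha => rw [smul_mul_assoc]; exact U.smul_mem _ ha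
  have hprod : ∀ (T : Finset S) (f : S → S → K), (∀ t ∈ T, f t ∈ U) → ∏ t ∈ T, f t ∈ U := by
    intro T f
    induction T using Finset.induction_on with
    | empty => intro _; rw [Finset.prod_empty]; exact h1
    | insert a T ha ih =>
      intro hf
      rw [Finset.prod_insert ha]
      exact hmul _ (hf a (Finset.mem_insert_self _ _)) _
        (ih fun t ht => hf t (Finset.mem_insert_of_mem ht))
  -- functions separating `s` and `t`
  have hst : ∀ s t : S, s ≠ t → ∃ f ∈ U, f s = 1 ∧ f t = 0 := by
    intro s t hne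
    have : ∃ f ∈ H, f s ≠ f t := by
      by_contra hcon
      push Not at hcon
      exact hne (h.sep s t hcon)
    obtain ⟨f, hf, hfst⟩ := this
    refine ⟨(f s - f t)⁻¹ • (f - f t • 1), ?_, ?_, ?_⟩
    · exact U.smul_mem _ (U.sub_mem (Submodule.subset_span hf) (U.smul_mem _ h1))
    · simp [inv_mul_cancel₀ (sub_ne_zero.mpr hfst)]
    · simp
  choose! f hfU hfs hft using hst
  have hsingle : ∀ s : S, (Pi.single s 1 : S → K) ∈ U := by
    intro s
    have h2 : (Pi.single s 1 : S → K) = ∏ t ∈ Finset.univ.erase s, f s t := by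
      funext u
      rw [Finset.prod_apply]
      by_cases hus : u = s
      · subst hus
        rw [Pi.single_eq_same]
        refine (Finset.prod_eq_one fun t ht => ?_).symm
        exact hfs u t (Finset.ne_of_mem_erase ht).symm
      · rw [Pi.single_eq_of_ne hus]
        refine (Finset.prod_eq_zero (Finset.mem_erase.mpr ⟨hus, Finset.mem_univ u⟩) ?_).symm
        exact hft s u (Ne.symm hus)
    rw [h2]
    exact hprod _ _ fun t ht => hfU s t (Finset.ne_of_mem_erase ht).symm
  rw [eq_top_iff]
  intro g _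
  rw [show g = ∑ s, g s • (Pi.single s 1 : S → K) by
    funext u
    rw [Finset.sum_apply, Finset.sum_eq_single u]
    · simp
    · intro b _ hb
      simp [Pi.single_eq_of_ne (Ne.symm hb)]
    · intro hu; exact absurd (Finset.mem_univ u) hu]
  exact U.sum_mem fun s _ => U.smul_mem _ (hsingle s)

/-- **Closure lemma**: a fixed power of `ϖ` multiplies all equivariant integral functions
into `H`. -/
theorem exists_pow_mul_mem (h : IsAnAlg A σ τ H) {ϖ : K} (hϖA : ϖ ∈ A) (hϖσ : ∀ i, σ i ϖ = ϖ)
    (hrank : ∀ x : K, ∃ n : ℕ, ϖ ^ n * x ∈ A) :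
    ∃ n : ℕ, ∀ φ : S → K, (∀ s, φ s ∈ A) → (∀ i s, φ (τ i s) = σ i (φ s)) →
      (fun s => ϖ ^ n * φ s) ∈ H := by
  classical
  have := Fintype.ofFinite S
  obtain ⟨b, hbH, hbspan, hblin⟩ := exists_linearIndependent K (H : Set (S → K))
  rw [h.span_eq_top] at hbspan
  have hbfin : Finite b := hblin.finite
  have := Fintype.ofFinite b
  let B : Module.Basis b K (S → K) := Module.Basis.mk hblin (by rw [Subtype.range_coe, hbspan])
  have hB : ∀ x : b, B x = (x : S → K) := fun x => by simp [B]
  -- a common exponent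
  have hex : ∃ n : ℕ, ∀ (x : b) (s : S), ϖ ^ n * B.repr (Pi.single s 1) x ∈ A := by
    choose n hn using fun (p : b × S) => hrank (B.repr (Pi.single p.2 1) p.1)
    refine ⟨∑ p, n p, fun x s => ?_⟩
    have h1 : n (x, s) ≤ ∑ p, n p :=
      Finset.single_le_sum (f := n) (fun _ _ => Nat.zero_le _) (Finset.mem_univ (x, s))
    obtain ⟨m, hm⟩ := Nat.exists_eq_add_of_le h1
    rw [hm, add_comm, pow_add, mul_assoc]
    exact mul_mem (pow_mem hϖA m) (hn (x, s))
  obtain ⟨n, hn⟩ := hex
  refine ⟨n, fun φ hφA hφσ => ?_⟩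
  have hφ : φ = ∑ s, φ s • (Pi.single s 1 : S → K) := by
    funext u
    rw [Finset.sum_apply, Finset.sum_eq_single u]
    · simp
    · intro b _ hb
      simp [Pi.single_eq_of_ne (Ne.symm hb)]
    · intro hu; exact absurd (Finset.mem_univ u) hu
  have hcA : ∀ x : b, ϖ ^ n * B.repr φ x ∈ A := by
    intro x
    conv_rhs => rw [hφ]
    rw [map_sum, Finsupp.finsetSum_apply, Finset.mul_sum]
    refine sum_mem fun s _ => ?_
    rw [map_smul, Finsupp.smul_apply, smul_eq_mul, mul_left_comm]
    exact mul_mem (hφA s) (hn x s)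
  -- the coefficients are fixed
  have hcσ : ∀ (i : ι) (x : b), σ i (B.repr φ x) = B.repr φ x := by
    intro i x
    have h1 : ∑ y : b, σ i (B.repr φ y) • B y = φ := by
      funext s
      obtain ⟨t, rfl⟩ := h.τ_surjective i s
      rw [hφσ, Finset.sum_apply]
      conv_rhs => rw [← B.sum_repr φ, Finset.sum_apply, map_sum]
      refine Finset.sum_congr rfl fun y _ => ?_
      rw [Pi.smul_apply, Pi.smul_apply, smul_eq_mul, smul_eq_mul, map_mul, hB]
      rw [h.equiv _ (hbH y.2)]
    have h2 := congrArg (fun g => B.repr g x) h1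
    simp only [map_sum, map_smul, B.repr_self, Finsupp.finsetSum_apply, Finsupp.smul_apply,
      smul_eq_mul] at h2
    rw [Finset.sum_eq_single x] at h2
    · simpa using h2
    · intro y _ hy
      rw [Finsupp.single_eq_of_ne (Ne.symm hy), mul_zero]
    · intro hx; exact absurd (Finset.mem_univ x) hx
  have h3 : (fun s => ϖ ^ n * φ s) = ∑ x : b, (fun _ => ϖ ^ n * B.repr φ x) * (B x) := by
    funext s
    rw [Finset.sum_apply]
    conv_lhs => rw [← B.sum_repr φ, Finset.sum_apply, Finset.mul_sum]
    refine Finset.sum_congr rfl fun x _ => ?_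
    rw [Pi.smul_apply, Pi.mul_apply, smul_eq_mul, mul_assoc]
  rw [h3]
  refine sum_mem fun x _ => mul_mem (h.const _ (hcA x) fun i => ?_) (by rw [hB]; exact hbH x.2)
  rw [map_mul, map_pow, hϖσ, hcσ]

/-- `H` is closed for the `ϖ`-adic topology. -/
theorem mem_of_approx (h : IsAnAlg A σ τ H) {ϖ : K} (hϖ0 : ϖ ≠ 0) (hϖA : ϖ ∈ A)
    (hϖσ : ∀ i, σ i ϖ = ϖ) (hrank : ∀ x : K, ∃ n : ℕ, ϖ ^ n * x ∈ A) {φ : S → K}
    (hφσ : ∀ i s, φ (τ i s) = σ i (φ s))
    (happ : ∀ n : ℕ, ∃ f ∈ H, ∀ s, ∃ a ∈ A, φ s - f s = ϖ ^ n * a) : φ ∈ H := by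
  obtain ⟨n, hn⟩ := h.exists_pow_mul_mem hϖA hϖσ hrank
  obtain ⟨f, hf, hfa⟩ := happ n
  choose a haA ha using hfa
  have h0 : ϖ ^ n ≠ 0 := pow_ne_zero n hϖ0
  have h1 : (fun s => ϖ ^ n * a s) ∈ H := by
    refine hn a haA fun i s => ?_
    apply mul_left_cancel₀ h0
    rw [← ha, hφσ, h.equiv f hf, ← map_sub, ha, map_mul, map_pow, hϖσ]
  have h2 : φ = f + fun s => ϖ ^ n * a s := by
    funext s
    rw [Pi.add_apply, ← ha]
    ring
  rw [h2]
  exact H.add_mem hf h1

/-- equivariant functions with unit values are invertible in `H` -/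
theorem inv_mem (h : IsAnAlg A σ τ H) {f : S → K} (hf : f ∈ H) (hu : ∀ s, (f s)⁻¹ ∈ A)
    (h0 : ∀ s, f s ≠ 0) : (fun s => (f s)⁻¹) ∈ H := by
  classical
  have := Fintype.ofFinite S
  -- the polynomial `∏ (X - f s)`
  let P : Polynomial K := ∏ s, (Polynomial.X - Polynomial.C (f s))
  have hPA : ∀ n, P.coeff n ∈ A := by
    have h1 : ∀ (T : Finset S) (n : ℕ), (∏ s ∈ T, (Polynomial.X - Polynomial.C (f s))).coeff n ∈ A := by
      intro T
      induction T using Finset.induction_on with
      | empty =>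
        intro n
        rw [Finset.prod_empty, Polynomial.coeff_one]
        split_ifs
        · exact A.one_mem
        · exact A.zero_mem
      | insert a T ha ih =>
        intro n
        rw [Finset.prod_insert ha, sub_mul, Polynomial.coeff_sub, Polynomial.coeff_C_mul]
        refine sub_mem ?_ (mul_mem (h.int f hf a) (ih n))
        cases n with
        | zero => rw [Polynomial.coeff_X_mul_zero]; exact A.zero_mem
        | succ n => rw [Polynomial.coeff_X_mul]; exact ih n
    exact h1 _
  have hPσ : ∀ i n, σ i (P.coeff n) = P.coeff n := by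
    intro i n
    have h1 : P.map (σ i : K →+* K) = P := by
      simp only [P, Polynomial.map_prod, Polynomial.map_sub, Polynomial.map_X, Polynomial.map_C]
      have e : S ≃ S := Equiv.ofBijective (τ i) ⟨h.τ_injective i, h.τ_surjective i⟩
      rw [← Equiv.prod_comp (Equiv.ofBijective (τ i) ⟨h.τ_injective i, h.τ_surjective i⟩)
        (fun s => Polynomial.X - Polynomial.C (f s))]
      refine Finset.prod_congr rfl fun s _ => ?_
      rw [Equiv.ofBijective_apply, h.equiv f hf]
      rfl
    conv_rhs => rw [← h1]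
    rw [Polynomial.coeff_map]
    rfl
  have hroot : ∀ s, P.eval (f s) = 0 := by
    intro s
    simp only [P, Polynomial.eval_prod]
    exact Finset.prod_eq_zero (Finset.mem_univ s) (by simp)
  have hP0 : P.coeff 0 ≠ 0 := by
    rw [Polynomial.coeff_zero_eq_eval_zero]
    simp only [P, Polynomial.eval_prod]
    exact Finset.prod_ne_zero_iff.mpr fun s _ => by simpa using h0 s
  have hP0inv : (P.coeff 0)⁻¹ ∈ A := by
    rw [Polynomial.coeff_zero_eq_eval_zero]
    simp only [P, Polynomial.eval_prod, Polynomial.eval_sub, Polynomial.eval_X,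
      Polynomial.eval_C, zero_sub]
    rw [← Finset.prod_inv_distrib]
    refine prod_mem fun s _ => ?_
    rw [inv_neg]
    exact neg_mem (hu s)
  -- `f⁻¹ = - P(0)⁻¹ (P(f) - P(0))/f`
  have h3 : (fun s => (f s)⁻¹) = (fun _ => -(P.coeff 0)⁻¹) *
      ∑ n ∈ Finset.range P.natDegree, (fun _ => P.coeff (n + 1)) * f ^ n := by
    funext s
    rw [Pi.mul_apply, Finset.sum_apply]
    have h4 := hroot s
    rw [Polynomial.eval_eq_sum_range, Finset.sum_range_succ'] at h4
    have h5 : (∑ n ∈ Finset.range P.natDegree, P.coeff (n + 1) * f s ^ n) * f s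
        = - P.coeff 0 := by
      rw [Finset.sum_mul, eq_neg_iff_add_eq_zero, ← h4]
      congr 1
      · exact Finset.sum_congr rfl fun n _ => by ring
      · simp
    have h6 : f s ≠ 0 := h0 s
    have h7 : ∑ c ∈ Finset.range P.natDegree, ((fun _ => P.coeff (c + 1)) * f ^ c : S → K) s =
        ∑ n ∈ Finset.range P.natDegree, P.coeff (n + 1) * f s ^ n :=
      Finset.sum_congr rfl fun n _ => rfl
    have h8 : ∑ n ∈ Finset.range P.natDegree, P.coeff (n + 1) * f s ^ n
        = - P.coeff 0 * (f s)⁻¹ := by rw [← h5, mul_assoc, mul_inv_cancel₀ h6, mul_one]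
    rw [h7, h8]
    field_simp
  rw [h3]
  refine mul_mem (h.const _ (neg_mem hP0inv) fun i => ?_)
    (sum_mem fun n _ => mul_mem (h.const _ (hPA _) fun i => hPσ i _) (pow_mem hf n))
  rw [map_neg, map_inv₀, hPσ]

end IsAnAlg

end Fermat.Agent.H19
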