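import Mathlib
import Fermat.Agent.H19Disc
import Fermat.Agent.H19Closure

/-!
# S19: the addition lemma for analytic functions on residue discs (helper19)
-/

set_option autoImplicit false

noncomputable section

open AlgebraicCurve WithZero

namespace Fermat.Agent.H19

open Fermat.Agent.H40 Fermat.Agent.H94 GoodRed

/-! ### Constants -/

section Const

variable {K F : Type*} [Field K] [Field F] [Algebra K F]

theorem eq_const_of_regular [IsAlgClosed K] [FunField K F] [HasPrincipalDivisors K F] {f : F}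
    (h : ∀ v : Place K F, 0 ≤ v.ord f) {P : Place K F} {c : K} (hc : HasVal P f c) :
    f = algebraMap K F c := by
  rcases hc with hc | hc
  · exact sub_eq_zero.mp hc
  exfalso
  have hne : f - algebraMap K F c ≠ 0 := ne_zero_of_ord_ne_zero (P := P) (by omega)
  obtain ⟨D, hD, hD0⟩ := exists_div (K := K) hne
  have hnn : 0 ≤ D := by
    rw [Finsupp.le_def]
    intro v
    rw [hD v]
    exact mem_iff_ord.mp (sub_mem (mem_iff_ord.mpr (h v)) (v.algebraMap_mem' c))
  have h1 := apply_le_degree (fun v => deg_eq_one v) hnn P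
  rw [hD0, hD P] at h1
  omega

theorem hasVal_one_of_eq {P : Place K F} {f : F} (h : f = 1) : HasVal P f 1 := by
  rw [h, ← map_one (algebraMap K F)]
  exact hasVal_const P 1

/-- two functions with the same divisor and the same nonzero value at a place are equal -/
theorem eq_of_ord_eq [IsAlgClosed K] [FunField K F] [HasPrincipalDivisors K F] {f f' : F}
    (hf : f ≠ 0) (hf' : f' ≠ 0)
    (h : ∀ v : Place K F, v.ord f = v.ord f') {P : Place K F} {c : K} (hc0 : c ≠ 0)
    (hc : HasVal P f c) (hc' : HasVal P f' c) : f = f' := by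
  have h1 : ∀ v : Place K F, 0 ≤ v.ord (f / f') := fun v => by
    rw [div_eq_mul_inv, v.ord_mul hf (inv_ne_zero hf'), v.ord_inv, h v]
    omega
  obtain ⟨d, hd⟩ := exists_hasVal (mem_iff_ord.mpr (h1 P))
  have h2 := eq_const_of_regular h1 hd
  have h3 := hd.mul hc'
  rw [div_mul_cancel₀ _ hf'] at h3
  have h4 : d * c = 1 * c := by rw [one_mul]; exact h3.eq hc
  have h5 : d = 1 := mul_right_cancel₀ hc0 h4
  rw [h5, map_one, div_eq_one_iff_eq hf'] at h2
  exact h2

end Const

variable {K F k E : Type*} [Field K] [Field F] [Algebra K F] [Field k] [Field E] [Algebra k E]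

/-! ### Rank one -/

/-- hypotheses on the constants: the valuation has rank one and there is an invariant
pseudouniformizer -/
structure RankOne (S : GoodRed K F k E) (Γ : Subgroup (SemilinearAut K F)) where
  ϖ : K
  ne_zero : ϖ ≠ 0
  mem : ϖ ∈ S.A
  fixed : ∀ γ ∈ Γ, SemilinearAut.baseAut γ ϖ = ϖ
  rank : ∀ x : K, ∃ n : ℕ, ϖ ^ n * x ∈ S.A
  small : ∀ t : K, S.IsSmall t → ∃ (m : ℕ), ∃ a ∈ S.A, t ^ m = ϖ * a

section Theta

variable {S : GoodRed K F k E}

theorem isSmall_zero : S.IsSmall 0 := ⟨S.A.zero_mem, map_zero _⟩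

/-- finitely many small constants are multiples of one -/
theorem exists_theta {α : Type*} [Finite α] (u : α → K) (hu : ∀ x, S.IsSmall (u x)) :
    ∃ θ : K, S.IsSmall θ ∧ ∀ x, ∃ a ∈ S.A, u x = θ * a := by
  classical
  have := Fintype.ofFinite α
  by_cases hne : ∃ x, u x ≠ 0
  · obtain ⟨x0, hx0⟩ := hne
    obtain ⟨y, -, hy⟩ := Finset.exists_max_image Finset.univ (fun x => S.A.valuation (u x))
      ⟨x0, Finset.mem_univ x0⟩
    have hy0 : u y ≠ 0 := by
      intro h
      have := hy x0 (Finset.mem_univ _)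
      rw [h, map_zero] at this
      exact hx0 ((Valuation.zero_iff _).mp (le_zero_iff.mp this))
    refine ⟨u y, hu y, fun x => ⟨u x / u y, ?_, ?_⟩⟩
    · rw [← S.A.valuation_le_one_iff, map_div₀]
      exact div_le_one_of_le₀ (hy x (Finset.mem_univ x)) zero_le
    · rw [mul_div_cancel₀ _ hy0]
  · push Not at hne
    exact ⟨0, isSmall_zero, fun x => ⟨0, S.A.zero_mem, by rw [hne, mul_zero]⟩⟩

end Theta

/-! ### Disc systems -/

/-- A system of residue discs with invariant coordinates -/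
structure DSys (S : GoodRed K F k E) {Γ : Subgroup (SemilinearAut K F)} (I : InertiaAction S Γ)
    (ι : Type*) where
  Q : ι → Place k E
  Q_inj : Function.Injective Q
  ne_inf : ∀ i, Q i ≠ S.r I.Pinf
  C : ∀ i, Coord S (Q i)
  smul_P0 : ∀ γ ∈ Γ, ∀ i, γ • (C i).P0 = (C i).P0
  smul_z : ∀ γ ∈ Γ, ∀ i, γ • (C i).z = (C i).z

section AddLemma

variable {S : GoodRed K F k E} {Γ : Subgroup (SemilinearAut K F)} {I : InertiaAction S Γ}
variable {X : Type*} [Finite X] {act : Γ → X → X} {H : Subring (X → K)}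

/-- the `θ`-adic form of the closure lemma -/
theorem mem_of_approx_theta (R1 : RankOne S Γ)
    (hH : IsAnAlg S.A (fun γ : Γ => SemilinearAut.baseAut (γ : SemilinearAut K F)) act H)
    {φ : X → K} (hφ : ∀ γ s, φ (act γ s) = SemilinearAut.baseAut (γ : SemilinearAut K F) (φ s))
    {θ : K} (hθ : S.IsSmall θ)
    (happ : ∀ m : ℕ, ∃ f ∈ H, ∀ s, ∃ a ∈ S.A, φ s - f s = θ ^ m * a) : φ ∈ H := by
  obtain ⟨l, b, hb, hl⟩ := R1.small θ hθ
  refine hH.mem_of_approx R1.ne_zero R1.mem (fun γ => R1.fixed γ γ.2) R1.rank hφ fun n => ?_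
  obtain ⟨f, hf, hfa⟩ := happ (l * n)
  refine ⟨f, hf, fun s => ?_⟩
  obtain ⟨a, ha, hfs⟩ := hfa s
  refine ⟨b ^ n * a, mul_mem (pow_mem hb n) ha, ?_⟩
  rw [hfs, pow_mul, hl, mul_pow, mul_assoc]

variable [IsAlgClosed K] [FunField K F]

/-- **(Ev)** values of invariant functions along analytic families of points are analytic -/
theorem pval_mem_of_coord (R1 : RankOne S Γ)
    (hH : IsAnAlg S.A (fun γ : Γ => SemilinearAut.baseAut (γ : SemilinearAut K F)) act H)
    {Q : Place k E} (C : Coord S Q) (hP0 : ∀ γ ∈ Γ, γ • C.P0 = C.P0) (hz : ∀ γ ∈ Γ, γ • C.z = C.z)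
    {P : X → Place K F} (hP : ∀ s, S.r (P s) = Q)
    (hPe : ∀ (γ : Γ) s, P (act γ s) = (γ : SemilinearAut K F) • P s)
    (ht : (fun s => pval (P s) C.z) ∈ H) {h : F} (hh : h ∈ S.discRing Q)
    (hhΓ : ∀ γ ∈ Γ, γ • h = h) : (fun s => pval (P s) h) ∈ H := by
  classical
  obtain ⟨θ, hθ, hθa⟩ := exists_theta (S := S) (fun s => pval (P s) C.z)
    (fun s => C.isSmall (hP s) (Coord.hasVal_of_disc C.hz (hP s)))
  refine mem_of_approx_theta R1 hH (fun γ s => ?_) hθ fun m => ?_
  · rw [hPe]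
    conv_lhs => rw [← hhΓ γ γ.2]
    exact pval_smul_aut (hh.2 _ (hP s)) γ
  · refine ⟨∑ n ∈ Finset.range m, (fun _ => C.coeff h n) * (fun s => pval (P s) C.z) ^ n,
      sum_mem fun n _ => mul_mem (hH.const _ (C.coeff_mem hh n) fun γ => ?_) (pow_mem ht n),
      fun s => ?_⟩
    · exact C.baseAut_coeff (hP0 γ γ.2) (hz γ γ.2) hh (hhΓ γ γ.2) n
    · obtain ⟨a, ha, hexp⟩ := C.exists_expansion_pval hh m (hP s)
      obtain ⟨b, hb, hbs⟩ := hθa s
      refine ⟨b ^ m * a, mul_mem (pow_mem hb m) ha, ?_⟩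
      rw [hexp, Finset.sum_apply]
      simp only [Pi.mul_apply, Pi.pow_apply]
      rw [add_sub_cancel_left]
      have hbs' : pval (P s) C.z = θ * b := hbs
      rw [hbs', mul_pow, mul_assoc]

/-- **Third point**: a small value satisfying `t = - Σ s_j h_j(t)` is analytic. -/
theorem coord_mem_of_eq (R1 : RankOne S Γ)
    (hH : IsAnAlg S.A (fun γ : Γ => SemilinearAut.baseAut (γ : SemilinearAut K F)) act H)
    {Q : Place k E} (C : Coord S Q) (hP0 : ∀ γ ∈ Γ, γ • C.P0 = C.P0) (hz : ∀ γ ∈ Γ, γ • C.z = C.z)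
    {P : X → Place K F} (hP : ∀ s, S.r (P s) = Q)
    (hPe : ∀ (γ : Γ) s, P (act γ s) = (γ : SemilinearAut K F) • P s)
    {n : ℕ} {h : Fin n → F} (hh : ∀ j, h j ∈ S.discRing Q) (hhΓ : ∀ j, ∀ γ ∈ Γ, γ • h j = h j)
    {σ : Fin n → X → K} (hσ : ∀ j, σ j ∈ H) (hσs : ∀ j s, S.IsSmall (σ j s))
    (heq : ∀ s, pval (P s) C.z + ∑ j, σ j s * pval (P s) (h j) = 0) :
    (fun s => pval (P s) C.z) ∈ H := by
  classical
  obtain ⟨θ, hθ, hθa⟩ := exists_theta (S := S) (fun x : Fin n × X => σ x.1 x.2)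
    (fun x => hσs x.1 x.2)
  have hdvd : ∀ s, ∃ a ∈ S.A, pval (P s) C.z = θ * a := by
    intro s
    choose a ha hσa using fun j => hθa (j, s)
    refine ⟨-∑ j, a j * pval (P s) (h j), neg_mem (sum_mem fun j _ =>
      mul_mem (ha j) (Coord.pval_mem (hh j) (hP s))), ?_⟩
    rw [eq_neg_of_add_eq_zero_left (heq s), mul_neg, Finset.mul_sum]
    congr 1
    refine Finset.sum_congr rfl fun j _ => ?_
    have : σ j s = θ * a j := hσa j
    rw [this, mul_assoc]
  refine mem_of_approx_theta R1 hH (fun γ s => ?_) hθ fun m => ?_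
  · rw [hPe]
    conv_lhs => rw [← hz γ γ.2]
    exact pval_smul_aut (C.hz.2 _ (hP s)) γ
  -- approximations
  induction m with
  | zero =>
    exact ⟨0, H.zero_mem, fun s => ⟨pval (P s) C.z, Coord.pval_mem C.hz (hP s), by simp⟩⟩
  | succ m ih =>
    obtain ⟨f, hf, hfa⟩ := ih
    refine ⟨-∑ j, σ j * ∑ i ∈ Finset.range m, (fun _ => C.coeff (h j) i) * f ^ i,
      neg_mem (sum_mem fun j _ => mul_mem (hσ j) (sum_mem fun i _ =>
        mul_mem (hH.const _ (C.coeff_mem (hh j) i) fun γ => ?_) (pow_mem hf i))), fun s => ?_⟩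
    · exact C.baseAut_coeff (hP0 γ γ.2) (hz γ γ.2) (hh j) (hhΓ j γ γ.2) i
    · obtain ⟨a, ha, hta⟩ := hfa s
      obtain ⟨b, hb, hbs⟩ := hdvd s
      choose e he hexp using fun j => C.exists_expansion_pval (hh j) m (hP s)
      choose w hw hσw using fun j => hθa (j, s)
      simp only at hσw
      have hfA : f s ∈ S.A := hH.int f hf s
      have htA : pval (P s) C.z ∈ S.A := Coord.pval_mem C.hz (hP s)
      -- difference of powers
      have hpow : ∀ i : ℕ, ∃ q ∈ S.A, pval (P s) C.z ^ i - f s ^ i = θ ^ m * q := by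
        intro i
        induction i with
        | zero => exact ⟨0, S.A.zero_mem, by simp⟩
        | succ i ih =>
          obtain ⟨q, hq, hqs⟩ := ih
          refine ⟨q * pval (P s) C.z + f s ^ i * a,
            add_mem (mul_mem hq htA) (mul_mem (pow_mem hfA i) ha), ?_⟩
          rw [pow_succ, pow_succ]
          have : pval (P s) C.z ^ i * pval (P s) C.z - f s ^ i * f s =
            (pval (P s) C.z ^ i - f s ^ i) * pval (P s) C.z + f s ^ i * (pval (P s) C.z - f s) := by
            ring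
          rw [this, hqs, hta]
          ring
      choose q hq hqs using hpow
      refine ⟨-∑ j, w j * (∑ i ∈ Finset.range m, C.coeff (h j) i * q i + b ^ m * e j),
        neg_mem (sum_mem fun j _ => mul_mem (hw j) (add_mem (sum_mem fun i _ =>
          mul_mem (C.coeff_mem (hh j) i) (hq i)) (mul_mem (pow_mem hb m) (he j)))), ?_⟩
      rw [eq_neg_of_add_eq_zero_left (heq s), Pi.neg_apply, Finset.sum_apply, mul_neg,
        Finset.mul_sum, neg_sub_neg, ← neg_sub, ← Finset.sum_sub_distrib]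
      congr 1
      refine Finset.sum_congr rfl fun j _ => ?_
      rw [Pi.mul_apply, Finset.sum_apply, hexp j, ← mul_sub]
      simp only [Pi.mul_apply, Pi.pow_apply]
      have h1 : ∑ i ∈ Finset.range m, C.coeff (h j) i * pval (P s) C.z ^ i +
          pval (P s) C.z ^ m * e j - ∑ i ∈ Finset.range m, C.coeff (h j) i * f s ^ i =
          θ ^ m * (∑ i ∈ Finset.range m, C.coeff (h j) i * q i + b ^ m * e j) := by
        rw [add_sub_right_comm, ← Finset.sum_sub_distrib, mul_add, Finset.mul_sum]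
        congr 1
        · refine Finset.sum_congr rfl fun i _ => ?_
          rw [← mul_sub, hqs]
          ring
        · rw [hbs, mul_pow]
          ring
      rw [h1, hσw j, pow_succ]
      ring

end AddLemma

end Fermat.Agent.H19
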