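import Fermat.Agent.H19GoodRed
import Fermat.Agent.H23RedPic
import Fermat.Agent.H19Add
import Fermat.Agent.H18S18

/-!
# S19: the decomposition group is compatible with the reduction of the modular function field
(helper19)
-/

set_option autoImplicit false
set_option linter.unusedSectionVars false
set_option linter.unusedVariables false

noncomputable section

open AlgebraicCurve ModularCurve WithZero
open scoped Pointwise

namespace Fermat.Agent.H19

open Fermat.Agent.H40 Fermat.Agent.H94 Fermat.Agent.H23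

local notation "Qb" => AlgebraicClosure ℚ
local notation "Gq" => AlgebraicClosure ℚ ≃ₐ[ℚ] AlgebraicClosure ℚ

variable {A : ValuationSubring Qb}

theorem apply_mem_of_dec {σ : Gq} (hσ : σ • A = A) {a : Qb} (ha : a ∈ A) : σ a ∈ A := by
  have h : σ • a ∈ σ • A := ValuationSubring.smul_mem_pointwise_smul σ a A ha
  rwa [hσ] at h

theorem inv_dec {σ : Gq} (hσ : σ • A = A) : σ⁻¹ • A = A := by
  rw [inv_smul_eq_iff, hσ]

/-- the automorphism of `A` given by an element of the decomposition group -/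
def decRingEquiv {σ : Gq} (hσ : σ • A = A) : A ≃+* A where
  toFun a := ⟨σ a, apply_mem_of_dec hσ a.2⟩
  invFun a := ⟨σ⁻¹ a, apply_mem_of_dec (inv_dec hσ) a.2⟩
  left_inv a := Subtype.ext (σ.symm_apply_apply _)
  right_inv a := Subtype.ext (σ.apply_symm_apply _)
  map_mul' a b := Subtype.ext (map_mul σ _ _)
  map_add' a b := Subtype.ext (map_add σ _ _)

theorem residue_decRingEquiv_eq_zero {σ : Gq} (hσ : σ • A = A) (a : A) :
    IsLocalRing.residue A (decRingEquiv hσ a) = 0 ↔ IsLocalRing.residue A a = 0 := by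
  rw [IsLocalRing.residue_eq_zero_iff, IsLocalRing.residue_eq_zero_iff, IsLocalRing.mem_maximalIdeal,
    IsLocalRing.mem_maximalIdeal, mem_nonunits_iff, mem_nonunits_iff, MulEquiv.isUnit_map]

theorem coeffMap_dec {σ : Gq} (hσ : σ • A = A) (y : LaurentSeries A) :
    coeffMap A.subtype (coeffMap (decRingEquiv hσ : A →+* A) y) =
      coeffMap (σ : Qb →+* Qb) (coeffMap A.subtype y) := by
  rw [coeffMap_coeffMap, coeffMap_coeffMap]
  exact coeffMap_congr (RingHom.ext fun _ => rfl) _

theorem coeffMap_residue_dec_ne_zero {σ : Gq} (hσ : σ • A = A) {y : LaurentSeries A}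
    (hy : coeffMap (IsLocalRing.residue A) y ≠ 0) :
    coeffMap (IsLocalRing.residue A) (coeffMap (decRingEquiv hσ : A →+* A) y) ≠ 0 := by
  intro h
  apply hy
  ext n
  have h1 := congrArg (fun z => z.coeff n) h
  simp only [coeffMap_coeff, HahnSeries.coeff_zero] at h1 ⊢
  exact (residue_decRingEquiv_eq_zero hσ _).mp h1

variable {N : ℕ} [NeZero N]

theorem mem_modRed_B (hdeg : H42.DegLE Qb (IsLocalRing.ResidueField A) N)
    {f : modularFunctionFieldBar N} :
    f ∈ (H42.modRed hdeg).B ↔ ∃ y z : LaurentSeries A,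
      coeffMap A.subtype z ∈ modularFunctionFieldBar N ∧
      coeffMap (IsLocalRing.residue A) z ≠ 0 ∧
      (f : LaurentSeries Qb) * coeffMap A.subtype z = coeffMap A.subtype y := by
  constructor
  · intro hf
    obtain ⟨⟨y, y', hy'⟩, ⟨z, z', hz'⟩, hz, hfz⟩ := hf
    have hz'' : coeffMap A.subtype z' = (z : LaurentSeries Qb) := hz'
    have hy'' : coeffMap A.subtype y' = (y : LaurentSeries Qb) := hy'
    have hzF : coeffMap A.subtype z' ∈ modularFunctionFieldBar N := by rw [hz'']; exact z.2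
    refine ⟨y', z', hzF, ?_, ?_⟩
    · intro h0
      apply hz
      apply Subtype.ext
      have h1 := H42.coe_modGauss_ρ A (IsLocalRing.residue A) N IsLocalRing.residue_surjective
        hdeg z' hzF
      have h2 : (⟨⟨coeffMap A.subtype z', hzF⟩, ⟨z', rfl⟩⟩ :
          (H42.modGauss A (IsLocalRing.residue A) N IsLocalRing.residue_surjective hdeg).B) =
          ⟨z, z', hz'⟩ := Subtype.ext (Subtype.ext hz'')
      rw [h2, h0] at h1
      exact h1
    · rw [hz'', hy'']
      exact congrArg Subtype.val hfz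
  · rintro ⟨y, z, hzF, hz, hfz⟩
    have hyF : coeffMap A.subtype y ∈ modularFunctionFieldBar N := by
      rw [← hfz]
      exact mul_mem f.2 hzF
    refine ⟨⟨⟨coeffMap A.subtype y, hyF⟩, ⟨y, rfl⟩⟩, ⟨⟨coeffMap A.subtype z, hzF⟩, ⟨z, rfl⟩⟩,
      fun h0 => hz ?_, Subtype.ext hfz⟩
    have h1 := H42.coe_modGauss_ρ A (IsLocalRing.residue A) N IsLocalRing.residue_surjective
        hdeg z hzF
    rw [← h1, h0]
    rfl

theorem dec_smul_mem (hdeg : H42.DegLE Qb (IsLocalRing.ResidueField A) N) {σ : Gq}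
    (hσ : σ • A = A) {f : modularFunctionFieldBar N} (hf : f ∈ (H42.modRed hdeg).B) :
    arithmeticGalois (modularFunctionFieldFull N) σ • f ∈ (H42.modRed hdeg).B := by
  rw [mem_modRed_B] at hf ⊢
  obtain ⟨y, z, hzF, hz, hfz⟩ := hf
  refine ⟨coeffMap (decRingEquiv hσ : A →+* A) y, coeffMap (decRingEquiv hσ : A →+* A) z, ?_,
    coeffMap_residue_dec_ne_zero hσ hz, ?_⟩
  · rw [coeffMap_dec]
    exact coeffMap_mem_laurentBaseChange σ hzF
  · rw [coeffMap_dec, coeffMap_dec, ← hfz, map_mul]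
    rfl

/-- elements of the decomposition group are compatible with the reduction -/
theorem compat_dec (hdeg : H42.DegLE Qb (IsLocalRing.ResidueField A) N)
    {S : GoodRed Qb (modularFunctionFieldBar N) (IsLocalRing.ResidueField A)
      (modularFunctionFieldFullC (IsLocalRing.ResidueField A) N)}
    (hS : S.toReductionData = H42.modRed hdeg) {σ : Gq} (hσ : σ • A = A) :
    Compat S (arithmeticGalois (modularFunctionFieldFull N) σ) := by
  refine ⟨fun f => ?_⟩
  rw [hS]
  refine ⟨fun h => ?_, fun h => dec_smul_mem hdeg hσ h⟩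
  have h1 := dec_smul_mem hdeg (inv_dec hσ) h
  rwa [map_inv, inv_smul_smul] at h1

theorem S_A_eq (hdeg : H42.DegLE Qb (IsLocalRing.ResidueField A) N)
    {S : GoodRed Qb (modularFunctionFieldBar N) (IsLocalRing.ResidueField A)
      (modularFunctionFieldFullC (IsLocalRing.ResidueField A) N)}
    (hS : S.toReductionData = H42.modRed hdeg) : S.A = A := by
  rw [hS]
  rfl

/-- the rank one hypotheses, with uniformizer `ℓ` -/
def rankOne (hdeg : H42.DegLE Qb (IsLocalRing.ResidueField A) N)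
    {S : GoodRed Qb (modularFunctionFieldBar N) (IsLocalRing.ResidueField A)
      (modularFunctionFieldFullC (IsLocalRing.ResidueField A) N)}
    (hS : S.toReductionData = H42.modRed hdeg) {ℓ : ℕ} (hℓ : ℓ.Prime) (hA : A.LiesOverPrime ℓ) :
    RankOne S (inertiaSL A N) where
  ϖ := (ℓ : Qb)
  ne_zero := Nat.cast_ne_zero.mpr hℓ.ne_zero
  mem := natCast_mem _ _
  fixed := by
    rintro _ ⟨σ, -, rfl⟩
    exact map_natCast _ _
  rank x := by
    rw [S_A_eq hdeg hS]
    rcases A.mem_or_inv_mem x with hx | hx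
    · exact ⟨0, by simpa using hx⟩
    by_cases hx0 : x = 0
    · exact ⟨0, by rw [hx0, mul_zero]; exact A.zero_mem⟩
    -- `ℓ` is a nonunit
    have hnu : ¬ IsUnit (⟨(ℓ : Qb), natCast_mem _ _⟩ : A) := by
      have h1 : (ℓ : Qb) ∈ A.nonunits := hA
      rw [ValuationSubring.mem_nonunits_iff_exists_mem_maximalIdeal] at h1
      obtain ⟨h2, h3⟩ := h1
      exact (IsLocalRing.mem_maximalIdeal _).mp h3
    obtain ⟨n, b, hb⟩ := H18.dvd_pow_of_algebraicClosure A ⟨x⁻¹, hx⟩ ⟨(ℓ : Qb), natCast_mem _ _⟩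
      (fun h => hx0 (by simpa using congrArg Subtype.val h)) hnu
    refine ⟨n, ?_⟩
    have h1 : (ℓ : Qb) ^ n = x⁻¹ * b := congrArg Subtype.val hb
    rw [h1, mul_comm x⁻¹, mul_assoc, inv_mul_cancel₀ hx0, mul_one]
    exact b.2
  small t ht := by
    obtain ⟨h1, h2⟩ := ht
    have hnu : ¬ IsUnit (⟨t, h1⟩ : S.A) := (S.π_eq_zero _).mp h2
    have hSA := S_A_eq hdeg hS
    have hnu' : ¬ IsUnit (⟨t, hSA ▸ h1⟩ : A) := by
      intro hu
      apply hnu
      rw [isUnit_iff_exists_inv] at hu ⊢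
      obtain ⟨⟨b, hb⟩, hb'⟩ := hu
      have h5 : t * b = 1 := congrArg (fun y : A => (y : Qb)) hb'
      exact ⟨⟨b, hSA.symm ▸ hb⟩, Subtype.ext h5⟩
    obtain ⟨n, b, hb⟩ := H18.dvd_pow_of_algebraicClosure A ⟨(ℓ : Qb), natCast_mem _ _⟩
      ⟨t, hSA ▸ h1⟩ (fun h => Nat.cast_ne_zero.mpr hℓ.ne_zero (congrArg Subtype.val h)) hnu'
    exact ⟨n, b, hSA.symm ▸ b.2, congrArg Subtype.val hb⟩

end Fermat.Agent.H19
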