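import Fermat.Agent.H17SurjRed
import Fermat.Agent.H17Unr
import Fermat.Agent.H17DivMod
import Fermat.Agent.H19Compat
import Fermat.Agent.H31Level
import Fermat.Agent.H31Inputs
import Fermat.Agent.S18

/-!
# MZ-J1: general facts about `J₀(N)` (helper17)
-/

set_option autoImplicit false

noncomputable section

open AlgebraicCurve ModularCurve
open scoped Pointwise

namespace Fermat.Agent.H17

open Fermat.Agent.H40 Fermat.Agent.H94 Fermat.Agent.H19 Fermat.Agent.H23

local notation "Qb" => AlgebraicClosure ℚ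
local notation "Gq" => AlgebraicClosure ℚ ≃ₐ[ℚ] AlgebraicClosure ℚ

theorem smooth_jzero (N : ℕ) [NeZero N] (x : JZero N) : IsOpen {σ : Gq | σ • x = x} := by
  have halg : Algebra.IsAlgebraic ℚ Qb := AlgebraicClosure.isAlgebraic ℚ
  obtain ⟨K', hK', h⟩ := H31.openly_smul_pic0 x
  have h1 : IsOpen (K'.fixingSubgroup : Set Gq) := IntermediateField.fixingSubgroup_isOpen K'
  have h2 : K'.fixingSubgroup ≤ MulAction.stabilizer Gq x := fun σ hσ =>
    h σ fun a ha => (IntermediateField.mem_fixingSubgroup_iff K' _).mp hσ a ha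
  exact Subgroup.isOpen_mono h2 h1

set_option synthInstance.maxHeartbeats 400000 in
set_option maxHeartbeats 4000000 in
/-- Eichler–Shimura for the reduction map of the Prelude -/
theorem exists_core_modL (N : ℕ) [NeZero N] {ℓ : ℕ} (hℓ : ℓ.Prime) (hℓN : ¬ ℓ ∣ N)
    (A : ValuationSubring Qb) (hA : A.LiesOverPrime ℓ) :
    ∃ F : JZeroC (IsLocalRing.ResidueField A) N →+ JZeroC (IsLocalRing.ResidueField A) N,
      (∀ σ : Gq, A.IsFrobeniusAt σ ℓ → ∀ x : JZero N,
        reductionModL A N (σ • x) = F (reductionModL A N x)) ∧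
      ∀ x : JZero N, F (F (reductionModL A N x)) -
        F (reductionModL A N (heckeOperatorBar N ⟨ℓ, hℓ⟩ x)) + ℓ • reductionModL A N x = 0 := by
  haveI : NeZero ℓ := ⟨hℓ.ne_zero⟩
  haveI : Fact ℓ.Prime := ⟨hℓ⟩
  haveI : CharP (IsLocalRing.ResidueField A) ℓ := H60.charP_residue hℓ hA
  have hR := H42.riemannBound Qb (modularFunctionFieldBar N)
  have hdeg := H42.deg_bar N
  have hred := reductionInputs N hℓ hℓN A hA
  have hH := H42.heckeData N ℓ hℓ hℓN
  obtain ⟨τ, hτ⟩ := H60.exists_frobAut hℓ hA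
  obtain ⟨ζ, hζ, hζ1⟩ := H60.exists_zeta hℓ hA
  obtain ⟨w, hw⟩ := hH.swap
  have hr := hred.choose_spec.1
  have hgen := hred.choose_spec.2
  have hs : reductionModL A N = reductionPic0Along hred.choose hr hgen := reductionAlong_eq hred
  refine ⟨DistribSMul.toAddMonoidHom _ (H60.coeffAut N τ), ?_, ?_⟩
  · rintro σ ⟨hσ, hσx⟩ x
    have hc := H60.compat_of_mem (A := A) hσ τ (fun x => (hσx x).trans (hτ x).symm)
    rw [hs]
    exact H60.reductionPic0Along_smul hR hdeg hr hgen hc x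
  · intro x
    obtain ⟨hα, hβ, hPD, hfin, hFI, hNF⟩ := hH.inputs
    have hop : heckeOperatorBar N ⟨ℓ, hℓ⟩ x = heckePic0Bar hα hβ hFI hfin hNF x := by
      exact (heckeOperatorBar_apply N (⟨ℓ, hℓ⟩ : Nat.Primes) x).trans
        (DFunLike.congr_fun (heckeOperatorAlong_eq hα hβ hFI hfin hNF) x)
    rw [hop, hs, H60.reductionPic0Along_heckePic0Bar hw hζ hζ1 hα hβ hFI hfin hNF hH.degree_le hR
      hdeg hr hgen hτ x]
    set y : JZeroC (IsLocalRing.ResidueField A) N := reductionPic0Along hred.choose hr hgen x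
    show H60.coeffAut N τ • (H60.coeffAut N τ • y) -
      H60.coeffAut N τ • (H60.coeffAut N τ • y + (ℓ : ℤ) • ((H60.coeffAut N τ)⁻¹ • y)) + ℓ • y = 0
    rw [smul_add, SemilinearAut.smul_zsmul, smul_inv_smul, natCast_zsmul]
    abel

attribute [local instance] heckeModuleBar

/-- **MZ-J1** -/
theorem basic : H15.T_basic := by
  intro N _
  have hcomm := H67.heckeOperatorsCommuteBar N
  have hsc := H31.smulCommClass N
  refine ⟨smooth_jzero N, fun m hm => H90.finite_jzero N hm,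
    fun m hm x => jzero_divisible N hm x, ?_, ?_, ?_, ?_⟩
  · intro ℓ hℓ hℓN A hA σ hσ x
    rw [H15.KJ, AddMonoidHom.mem_ker, map_sub, reductionModL_inertia N hℓ hℓN A hA hσ x, sub_self]
  · intro ℓ hℓ hℓN A hA σ hσ x
    obtain ⟨F, hF1, hF2⟩ := exists_core_modL N hℓ hℓN A hA
    have h1 : heckeGen ⟨ℓ, hℓ⟩ • σ • x = σ • heckeGen ⟨ℓ, hℓ⟩ • x := (smul_comm σ _ x).symm
    rw [H15.KJ, AddMonoidHom.mem_ker, map_add, map_sub, h1, hF1 σ hσ, hF1 σ hσ, hF1 σ hσ,
      map_nsmul, heckeModuleBar_heckeGen_smul hcomm]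
    exact hF2 x
  · intro ℓ hℓ hℓN A hA σ hσ x hx
    have hff := H42.funField_right (L := Qb) N (H42.degLE_place hℓ hA hℓN)
    obtain ⟨T⟩ := exists_setup N hℓ hℓN A hA
    rw [H15.KJ, AddMonoidHom.mem_ker, ← T.red] at hx ⊢
    exact (compat_dec _ T.hS hσ).redPic0_smul_eq_zero hx
  · intro ℓ hℓ hℓN A hA m hm x hx hmx
    haveI : Fact ℓ.Prime := ⟨hℓ⟩
    exact S18.result N hℓN A hA (reductionInputs N hℓ hℓN A hA) m hm x hmx hx

end Fermat.Agent.H17
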