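import Fermat.Agent.H33Field
import Fermat.Agent.H91Inertia
import Fermat.Agent.H31Level
import Fermat.Agent.H14Kummer
import Mathlib.FieldTheory.Galois.Basic

/-!
# Discretely valued fields inside `ℚ̄` from inertia groups (helper33)
-/

set_option autoImplicit false

open ModularCurve AlgebraicCurve ExtCitation
open scoped Pointwise

namespace Fermat.Agent.H33

local notation "Qb" => AlgebraicClosure ℚ
local notation "Gq" => AlgebraicClosure ℚ ≃ₐ[ℚ] AlgebraicClosure ℚ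

/-- The two facts on the inertia field: value group generated by `p`, full residue field. -/
structure InertiaFacts (p : ℕ) (A : ValuationSubring Qb) : Prop where
  val : ∀ a : Qb, a ≠ 0 → (∀ σ ∈ A.inertiaSubgroupIn ℚ, σ a = a) →
    ∃ m : ℤ, A.valuation a = A.valuation (p : Qb) ^ m
  res : ∀ c : IsLocalRing.ResidueField A, ∃ a : A,
    (∀ σ ∈ A.inertiaSubgroupIn ℚ, σ (a : Qb) = a) ∧ IsLocalRing.residue A a = c

section Val

variable {A : ValuationSubring Qb}

theorem inertia_mem {σ : Gq} (hσ : σ ∈ A.inertiaSubgroupIn ℚ) {a : Qb} (ha : a ∈ A) : σ a ∈ A := by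
  rw [H91.mem_inertiaSubgroupIn_iff] at hσ
  have h : σ • a ∈ σ • A := ValuationSubring.smul_mem_pointwise_smul σ a A ha
  rw [hσ.1] at h
  exact h

theorem inertia_res {σ : Gq} (hσ : σ ∈ A.inertiaSubgroupIn ℚ) (a : A) :
    IsLocalRing.residue A ⟨σ a, inertia_mem hσ a.2⟩ = IsLocalRing.residue A a := by
  have h := (H91.mem_inertiaSubgroupIn_iff A σ).mp hσ
  have h2 := h.2 a a.2
  rw [← sub_eq_zero, ← map_sub, IsLocalRing.residue_eq_zero_iff]
  rw [ValuationSubring.mem_nonunits_iff_exists_mem_maximalIdeal] at h2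
  obtain ⟨h3, h4⟩ := h2
  exact h4

theorem inertia_valuation {σ : Gq} (hσ : σ ∈ A.inertiaSubgroupIn ℚ) (a : Qb) :
    A.valuation (σ a) = A.valuation a := by
  have key : ∀ {σ : Gq}, σ ∈ A.inertiaSubgroupIn ℚ → ∀ a : Qb, A.valuation (σ a) ≤ A.valuation a := by
    intro σ hσ a
    rcases eq_or_ne a 0 with rfl | ha
    · simp
    -- `σ a / a` is integral: write `b = σ a / a`; otherwise `b⁻¹` in the maximal ideal
    by_contra hlt
    push Not at hlt
    have hσa : σ a ≠ 0 := (map_ne_zero σ).mpr ha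
    -- infinite descent is impossible: use finite order of the orbit
    obtain ⟨n, hn, hfix⟩ : ∃ n : ℕ, 0 < n ∧ (σ ^ n) a = a := by
      have hfin : (Set.range fun n : ℕ => (σ ^ n) a).Finite := by
        have : Algebra.IsAlgebraic ℚ Qb := AlgebraicClosure.isAlgebraic ℚ
        refine ((minpoly ℚ a).rootSet_finite Qb).subset ?_
        rintro _ ⟨n, rfl⟩
        rw [Polynomial.mem_rootSet]
        refine ⟨minpoly.ne_zero (Algebra.IsIntegral.isIntegral a), ?_⟩
        have := Polynomial.aeval_algHom_apply ((σ ^ n : Gq) : Qb →ₐ[ℚ] Qb) a (minpoly ℚ a)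
        rw [minpoly.aeval, map_zero] at this
        exact this
      have hni : ¬ Function.Injective (fun n : ℕ => (σ ^ n) a) := by
        intro hinj
        exact Set.infinite_range_of_injective hinj hfin
      rw [Function.Injective] at hni
      push Not at hni
      obtain ⟨i, j, hij, hne⟩ := hni
      rcases lt_or_gt_of_ne hne with hlt' | hlt'
      · refine ⟨j - i, by omega, ?_⟩
        have h1 : (σ ^ i) ((σ ^ (j - i)) a) = (σ ^ i) a := by
          rw [← AlgEquiv.mul_apply, ← pow_add, Nat.add_sub_cancel' hlt'.le]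
          exact hij.symm
        exact (σ ^ i).injective h1
      · refine ⟨i - j, by omega, ?_⟩
        have h1 : (σ ^ j) ((σ ^ (i - j)) a) = (σ ^ j) a := by
          rw [← AlgEquiv.mul_apply, ← pow_add, Nat.add_sub_cancel' hlt'.le]
          exact hij
        exact (σ ^ j).injective h1
    -- `a / σ a` is in the maximal ideal and so are all its conjugates
    have hmono : ∀ {x y : Qb}, y ≠ 0 → A.valuation x < A.valuation y →
        A.valuation (σ x) < A.valuation (σ y) := by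
      intro x y hy hxy
      have h1 : A.valuation (x / y) < 1 := by
        rw [map_div₀]
        exact (div_lt_one₀ ((A.valuation.pos_iff).mpr hy)).mpr hxy
      have hmem : x / y ∈ A := (A.valuation_le_one_iff _).mp h1.le
      have h2 : A.valuation (σ (x / y)) < 1 := by
        have h3 := inertia_res hσ ⟨x / y, hmem⟩
        have h4 : IsLocalRing.residue A ⟨x / y, hmem⟩ = 0 := by
          rw [IsLocalRing.residue_eq_zero_iff]
          exact (A.valuation_lt_one_iff ⟨x / y, hmem⟩).mpr h1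
        rw [h4, IsLocalRing.residue_eq_zero_iff] at h3
        exact (A.valuation_lt_one_iff _).mp h3
      rw [map_div₀, map_div₀] at h2
      exact (div_lt_one₀ ((A.valuation.pos_iff).mpr ((map_ne_zero σ).mpr hy))).mp h2
    have hchain : ∀ m : ℕ, A.valuation a < A.valuation ((σ ^ (m + 1)) a) := by
      intro m
      induction m with
      | zero => simpa using hlt
      | succ m ih =>
        have h1 : A.valuation (σ a) < A.valuation (σ ((σ ^ (m + 1)) a)) :=
          hmono ((map_ne_zero (σ ^ (m + 1))).mpr ha) ih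
        rw [pow_succ', AlgEquiv.mul_apply]
        exact hlt.trans h1
    obtain ⟨m, rfl⟩ : ∃ m, n = m + 1 := ⟨n - 1, by omega⟩
    have := hchain m
    rw [hfix] at this
    exact lt_irrefl _ this
  apply le_antisymm (key hσ a)
  have h1 := key (inv_mem hσ) (σ a)
  have h2 : σ⁻¹ (σ a) = a := by rw [← AlgEquiv.mul_apply, inv_mul_cancel]; rfl
  rwa [h2] at h1

end Val

section Index

variable {p : ℕ} {A : ValuationSubring Qb}

theorem exists_pow_valuation_aux (I : Subgroup Gq)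
    (hval : ∀ σ ∈ I, ∀ a, A.valuation (σ a) = A.valuation a)
    (hF : ∀ a : Qb, a ≠ 0 → (∀ σ ∈ I, σ a = a) → ∃ m : ℤ, A.valuation a = A.valuation (p : Qb) ^ m)
    (H : Subgroup I) [H.FiniteIndex] {a : Qb} (ha : a ≠ 0)
    (hH : ∀ σ : I, σ ∈ H → (σ : Gq) a = a) :
    ∃ m : ℤ, A.valuation a ^ H.index = A.valuation (p : Qb) ^ m := by
  classical
  have hle : H ≤ MulAction.stabilizer I a := fun σ hσ => hH σ hσ
  have hfi : (MulAction.stabilizer I a).FiniteIndex := Subgroup.finiteIndex_of_le hle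
  have hidx := MulAction.index_stabilizer I a
  have hfin : (MulAction.orbit I a).Finite := by
    apply Set.finite_of_ncard_ne_zero
    rw [← hidx]
    exact hfi.index_ne_zero
  set s := hfin.toFinset with hs
  have hmem : ∀ x, x ∈ s ↔ x ∈ MulAction.orbit I a := fun x => hfin.mem_toFinset
  have hne : ∀ x ∈ s, x ≠ 0 := by
    intro x hx
    rw [hmem] at hx
    obtain ⟨σ, rfl⟩ := hx
    exact (map_ne_zero (σ : Gq)).mpr ha
  have hfix : ∀ σ ∈ I, σ (∏ x ∈ s, x) = ∏ x ∈ s, x := by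
    intro σ hσ
    rw [map_prod]
    refine Finset.prod_nbij (fun x => σ x) ?_ ?_ ?_ (fun _ _ => rfl)
    · intro x hx
      rw [hmem] at hx ⊢
      obtain ⟨τ, rfl⟩ := hx
      exact ⟨⟨σ, hσ⟩ * τ, rfl⟩
    · exact (σ.injective).injOn
    · intro x hx
      rw [Finset.mem_coe, hmem] at hx
      obtain ⟨τ, rfl⟩ := hx
      refine ⟨((⟨σ, hσ⟩ : I)⁻¹ * τ) • a, ?_, ?_⟩
      · rw [Finset.mem_coe, hmem]
        exact ⟨_, rfl⟩
      · show σ (((⟨σ, hσ⟩ : I)⁻¹ * τ) • a) = τ • a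
        have : (⟨σ, hσ⟩ : I) • (((⟨σ, hσ⟩ : I)⁻¹ * τ) • a) = τ • a := by
          rw [← mul_smul, mul_inv_cancel_left]
        exact this
  obtain ⟨m, hm⟩ := hF _ (Finset.prod_ne_zero_iff.mpr hne) hfix
  have hv : A.valuation (∏ x ∈ s, x) = A.valuation a ^ s.card := by
    rw [map_prod, ← Finset.prod_const]
    refine Finset.prod_congr rfl fun x hx => ?_
    rw [hmem] at hx
    obtain ⟨σ, rfl⟩ := hx
    exact hval σ σ.2 a
  have hcard : s.card = (MulAction.stabilizer I a).index := by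
    rw [hidx, hs, Set.ncard_eq_toFinset_card _ hfin]
  obtain ⟨e, he⟩ := Subgroup.index_dvd_of_le hle
  refine ⟨m * e, ?_⟩
  rw [he, pow_mul, ← hcard, ← hv, hm, zpow_mul, zpow_natCast]

/-- The valuation of an element fixed by a finite index subgroup of inertia. -/
theorem exists_pow_valuation (F : InertiaFacts p A) (H : Subgroup (A.inertiaSubgroupIn ℚ))
    [H.FiniteIndex] {a : Qb} (ha : a ≠ 0)
    (hH : ∀ σ : A.inertiaSubgroupIn ℚ, σ ∈ H → (σ : Gq) a = a) :
    ∃ m : ℤ, A.valuation a ^ H.index = A.valuation (p : Qb) ^ m :=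
  exists_pow_valuation_aux _ (fun _ hσ a => inertia_valuation hσ a) F.val H ha hH

end Index

section Lam

/-- `p = ε (ζ - 1)^(p-1)` with `ε ≡ -1`. -/
theorem exists_eps {K : Type*} [Field K] (A : ValuationSubring K) {k : Type*} [Field k]
    (π : A →+* k) {p : ℕ} (hp : p.Prime) {ζ : K} (hζ : IsPrimitiveRoot ζ p)
    (hζA : ζ - 1 ∈ A) (hζ1 : π ⟨ζ - 1, hζA⟩ = 0) (hπ : Function.Surjective π) :
    ∃ ε : A, π ε = -1 ∧ (p : K) = ε * (ζ - 1) ^ (p - 1) := by
  set lam : A := ⟨ζ - 1, hζA⟩ with hlam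
  have hlam0 : lam ≠ 0 := by
    intro h
    have h1 : ζ - 1 = 0 := congrArg Subtype.val h
    exact hζ.ne_one hp.one_lt (sub_eq_zero.mp h1)
  obtain ⟨s, hs⟩ := one_add_pow_prime hp lam
  have h1 : (1 + lam) ^ p = 1 := by
    apply Subtype.ext
    show (1 + (ζ - 1)) ^ p = 1
    rw [add_sub_cancel]
    exact hζ.pow_eq_one
  rw [h1] at hs
  obtain ⟨q, hq⟩ : ∃ q, p = q + 1 := ⟨p - 1, by have := hp.two_le; omega⟩
  have h2 : lam ^ q + (p : A) * (1 + lam * s) = 0 := by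
    apply mul_left_cancel₀ hlam0
    rw [mul_zero, mul_add, ← pow_succ', ← hq]
    linear_combination -hs
  have hu : π (1 + lam * s) = 1 := by rw [map_add, map_mul, hζ1, map_one, zero_mul, add_zero]
  obtain ⟨u, hu'⟩ := isUnit_of_map_ne hπ (a := 1 + lam * s) (by rw [hu]; exact one_ne_zero)
  refine ⟨-((u⁻¹ : Aˣ) : A), ?_, ?_⟩
  · have h3 : π (u : A) * π ((u⁻¹ : Aˣ) : A) = 1 := by
      rw [← map_mul, Units.mul_inv, map_one]
    rw [hu', hu, one_mul] at h3
    rw [map_neg, h3]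
  · have h3 : (p : A) = -((u⁻¹ : Aˣ) : A) * lam ^ q := by
      have h4 : lam ^ q = -((p : A) * u) := by rw [hu']; linear_combination h2
      rw [h4]
      have h5 : (u : A) * ((u⁻¹ : Aˣ) : A) = 1 := Units.mul_inv u
      linear_combination (-(p : A)) * h5
    have h4 := congrArg Subtype.val h3
    rw [show p - 1 = q by omega]
    push_cast at h4
    exact h4

end Lam

section FixL

variable (A : ValuationSubring Qb) (H' : Subgroup Gq)

/-- the elements fixed by `I ∩ H'` -/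
noncomputable def fixL : Subfield Qb :=
  (IntermediateField.fixedField (A.inertiaSubgroupIn ℚ ⊓ H')).toSubfield

variable {A H'}

theorem mem_fixL {a : Qb} : a ∈ fixL A H' ↔ ∀ σ ∈ A.inertiaSubgroupIn ℚ, σ ∈ H' → σ a = a := by
  have h : a ∈ fixL A H' ↔ a ∈ IntermediateField.fixedField (A.inertiaSubgroupIn ℚ ⊓ H') := Iff.rfl
  rw [h, IntermediateField.mem_fixedField_iff]
  exact ⟨fun h σ h1 h2 => h σ ⟨h1, h2⟩, fun h σ hσ => h σ hσ.1 hσ.2⟩

variable {p : ℕ}

theorem natCast_mem_fixL (n : ℕ) : (n : Qb) ∈ fixL A H' := natCast_mem _ n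

theorem valuation_p_lt_one (hA : A.LiesOverPrime p) : A.valuation (p : Qb) < 1 :=
  (A.mem_nonunits_iff).mp hA

theorem exists_discFld (F : InertiaFacts p A) (hA : A.LiesOverPrime p) (hp : p.Prime)
    [H'.FiniteIndex] : ∃ ϖ : Qb, DiscFld A (IsLocalRing.residue A) (fixL A H') ϖ := by
  classical
  set H : Subgroup (A.inertiaSubgroupIn ℚ) := H'.subgroupOf _ with hH
  have : H.FiniteIndex := inferInstance
  have hn : H.index ≠ 0 := Subgroup.FiniteIndex.index_ne_zero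
  have hval : ∀ a ∈ fixL A H', a ≠ 0 →
      ∃ m : ℤ, A.valuation a ^ H.index = A.valuation (p : Qb) ^ m := by
    intro a ha ha0
    refine exists_pow_valuation F H ha0 fun σ hσ => ?_
    exact mem_fixL.mp ha σ σ.2 (Subgroup.mem_subgroupOf.mp hσ)
  have hp0 : (p : Qb) ≠ 0 := by exact_mod_cast hp.ne_zero
  have hvp0 : A.valuation (p : Qb) ≠ 0 := (A.valuation.ne_zero_iff).mpr hp0
  have hvp1 := valuation_p_lt_one hA
  -- the group of exponents
  let Γ : AddSubgroup ℤ :=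
    { carrier := {m | ∃ a ∈ fixL A H', a ≠ 0 ∧
        A.valuation a ^ H.index = A.valuation (p : Qb) ^ m}
      zero_mem' := ⟨1, one_mem _, one_ne_zero, by simp⟩
      add_mem' := by
        rintro m n ⟨a, ha, ha0, ham⟩ ⟨b, hb, hb0, hbn⟩
        exact ⟨a * b, mul_mem ha hb, mul_ne_zero ha0 hb0, by
          rw [map_mul, mul_pow, ham, hbn, zpow_add₀ hvp0]⟩
      neg_mem' := by
        rintro m ⟨a, ha, ha0, ham⟩
        exact ⟨a⁻¹, inv_mem ha, inv_ne_zero ha0, by
          rw [map_inv₀, inv_pow, ham, zpow_neg]⟩ }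
  obtain ⟨d, hd⟩ := Int.subgroup_cyclic Γ
  have hd' : ∀ m, m ∈ Γ ↔ d ∣ m := by
    intro m
    rw [hd, ← AddSubgroup.zmultiples_eq_closure, Int.mem_zmultiples_iff]
  have hnΓ : (H.index : ℤ) ∈ Γ := ⟨p, natCast_mem_fixL p, hp0, by rw [zpow_natCast]⟩
  have hd0 : d ≠ 0 := by
    rintro rfl
    rw [hd', zero_dvd_iff] at hnΓ
    exact hn (by exact_mod_cast hnΓ)
  have hdΓ : |d| ∈ Γ := by rw [hd']; exact self_dvd_abs d
  obtain ⟨ϖ, hϖL, hϖ0, hϖv⟩ := hdΓ
  have hdpos : 0 < |d| := abs_pos.mpr hd0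
  have hvϖ : A.valuation ϖ < 1 := by
    by_contra hge
    push Not at hge
    have h1 : 1 ≤ A.valuation ϖ ^ H.index := one_le_pow₀ hge
    rw [hϖv] at h1
    obtain ⟨e, he⟩ : ∃ e : ℕ, |d| = e + 1 := ⟨(|d| - 1).toNat, by omega⟩
    rw [he] at h1
    have h2 : A.valuation (p : Qb) ^ ((e : ℤ) + 1) < 1 := by
      have : A.valuation (p : Qb) ^ ((e : ℤ) + 1) = A.valuation (p : Qb) ^ (e + 1) := by
        rw [← zpow_natCast]; norm_cast
      rw [this]
      exact pow_lt_one₀ zero_le hvp1 (by omega)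
    exact absurd h1 (not_le.mpr h2)
  have hvϖ0 : A.valuation ϖ ≠ 0 := (A.valuation.ne_zero_iff).mpr hϖ0
  have hϖA : ϖ ∈ A := (A.valuation_le_one_iff ϖ).mp hvϖ.le
  refine ⟨ϖ, ⟨hϖL, hϖ0, hϖA, ?_, ?_, ?_⟩⟩
  · rw [IsLocalRing.residue_eq_zero_iff]
    exact (A.valuation_lt_one_iff ⟨ϖ, hϖA⟩).mpr hvϖ
  · intro a ha ha0
    obtain ⟨m, hm⟩ := hval a ha ha0
    have hmΓ : m ∈ Γ := ⟨a, ha, ha0, hm⟩
    rw [hd', ← abs_dvd] at hmΓ
    obtain ⟨m', rfl⟩ := hmΓ
    have h1 : A.valuation a = A.valuation ϖ ^ m' := by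
      apply (pow_left_inj₀ zero_le zero_le hn).mp
      have h3 : (A.valuation ϖ ^ m') ^ H.index = (A.valuation ϖ ^ H.index) ^ m' := by
        rw [← zpow_natCast, ← zpow_mul, mul_comm m', zpow_mul, zpow_natCast]
      rw [hm, h3, hϖv, ← zpow_mul]
    have h2 : A.valuation (ϖ ^ (-m') * a) = 1 := by
      rw [map_mul, map_zpow₀, h1, zpow_neg, inv_mul_cancel₀ (zpow_ne_zero _ hvϖ0)]
    have hmem : ϖ ^ (-m') * a ∈ A := (A.valuation_le_one_iff _).mp h2.le
    refine ⟨-m', hmem, ?_⟩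
    intro h0
    rw [IsLocalRing.residue_eq_zero_iff] at h0
    have h3 := (A.valuation_lt_one_iff ⟨_, hmem⟩).mp h0
    exact absurd h3 (by rw [h2]; exact lt_irrefl _)
  · intro c
    obtain ⟨a, haI, hac⟩ := F.res c
    exact ⟨a, mem_fixL.mpr fun σ hσ _ => haI σ hσ, a.2, hac⟩

theorem discr_of_valuation {ϖ : Qb} (hϖ0 : ϖ ≠ 0) {a : Qb} {m : ℤ}
    (h1 : A.valuation a = A.valuation ϖ ^ m) :
    ∃ m : ℤ, ∃ h : ϖ ^ m * a ∈ A, IsLocalRing.residue A ⟨_, h⟩ ≠ 0 := by
  have hvϖ0 : A.valuation ϖ ≠ 0 := (A.valuation.ne_zero_iff).mpr hϖ0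
  have h2 : A.valuation (ϖ ^ (-m) * a) = 1 := by
    rw [map_mul, map_zpow₀, h1, zpow_neg, inv_mul_cancel₀ (zpow_ne_zero _ hvϖ0)]
  have hmem : ϖ ^ (-m) * a ∈ A := (A.valuation_le_one_iff _).mp h2.le
  refine ⟨-m, hmem, ?_⟩
  intro h0
  rw [IsLocalRing.residue_eq_zero_iff] at h0
  have h3 := (A.valuation_lt_one_iff ⟨_, hmem⟩).mp h0
  exact absurd h3 (by rw [h2]; exact lt_irrefl _)

theorem valuation_eq_one_of_residue_ne {a : A} (h : IsLocalRing.residue A a ≠ 0) :
    A.valuation (a : Qb) = 1 := by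
  have h1 : IsUnit a := by
    by_contra hu
    exact h ((IsLocalRing.residue_eq_zero_iff a).mpr hu)
  exact (A.valuation_eq_one_iff a).mp h1

variable [Fact p.Prime]

/-- Case C: the field fixed by `I ∩ Stab(ζ)` has uniformizer `ζ - 1`. -/
theorem discFld_zeta (F : InertiaFacts p A)
    {ζ : Qb} (hζ : IsPrimitiveRoot ζ p) (hζA : ζ - 1 ∈ A)
    (hζ1 : IsLocalRing.residue A ⟨ζ - 1, hζA⟩ = 0) :
    DiscFld A (IsLocalRing.residue A) (fixL A (MulAction.stabilizer Gq ζ)) (ζ - 1) := by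
  have hp : p.Prime := Fact.out
  have hlam0 : ζ - 1 ≠ 0 := sub_ne_zero.mpr (hζ.ne_one hp.one_lt)
  obtain ⟨ε, hε, hpε⟩ := exists_eps A (IsLocalRing.residue A) hp hζ hζA hζ1
    IsLocalRing.residue_surjective
  have hvε : A.valuation (ε : Qb) = 1 := by
    apply valuation_eq_one_of_residue_ne
    rw [hε]
    exact neg_ne_zero.mpr one_ne_zero
  have hvp : A.valuation (p : Qb) = A.valuation (ζ - 1) ^ (p - 1) := by
    rw [hpε, map_mul, hvε, one_mul, map_pow]
  set H : Subgroup (A.inertiaSubgroupIn ℚ) := (MulAction.stabilizer Gq ζ).subgroupOf _ with hH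
  let f : A.inertiaSubgroupIn ℚ →* (ZMod p)ˣ :=
    (cycloChar p).comp (A.inertiaSubgroupIn ℚ).subtype
  have hker : f.ker = H := by
    ext σ
    rw [MonoidHom.mem_ker, hH, Subgroup.mem_subgroupOf, MulAction.mem_stabilizer_iff]
    constructor
    · intro h
      have := H14.apply_root_of_cycloChar_eq hζ.pow_eq_one (σ : Gq) 1 (by
        have h1 : cycloChar p (σ : Gq) = 1 := h
        rw [h1]; simp)
      rwa [pow_one] at this
    · intro h
      have := H14.cycloChar_eq hζ (σ : Gq) 1 (by rw [pow_one]; exact h)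
      apply Units.ext
      show ((cycloChar p (σ : Gq) : (ZMod p)ˣ) : ZMod p) = 1
      rw [this]; simp
  have hdvd : H.index ∣ p - 1 := by
    rw [← hker, Subgroup.index_ker]
    have h1 := Subgroup.card_subgroup_dvd_card f.range
    rwa [Nat.card_eq_fintype_card (α := (ZMod p)ˣ), ZMod.card_units] at h1
  have hn : H.index ≠ 0 := by
    intro h0
    rw [h0, zero_dvd_iff] at hdvd
    have := hp.two_le
    omega
  have : H.FiniteIndex := ⟨hn⟩
  refine ⟨?_, hlam0, hζA, hζ1, ?_, ?_⟩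
  · refine sub_mem (mem_fixL.mpr fun σ _ hσ => ?_) (one_mem _)
    exact hσ
  · intro a ha ha0
    obtain ⟨m, hm⟩ := exists_pow_valuation F H ha0 fun σ hσ =>
      mem_fixL.mp ha σ σ.2 (Subgroup.mem_subgroupOf.mp hσ)
    obtain ⟨e, he⟩ := hdvd
    apply discr_of_valuation hlam0 (m := m * e)
    apply (pow_left_inj₀ zero_le zero_le (show p - 1 ≠ 0 by have := hp.two_le; omega)).mp
    have h3 : (A.valuation (ζ - 1) ^ (m * e)) ^ (p - 1) =
        (A.valuation (ζ - 1) ^ (p - 1)) ^ (m * e) := by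
      rw [← zpow_natCast, ← zpow_mul, mul_comm (m * (e : ℤ)), zpow_mul, zpow_natCast]
    rw [h3, ← hvp, he, pow_mul, hm, zpow_mul, zpow_natCast]
  · intro c
    obtain ⟨a, haI, hac⟩ := F.res c
    exact ⟨a, mem_fixL.mpr fun σ hσ _ => haI σ hσ, a.2, hac⟩

end FixL

section E0

variable {K : Type*} [Field K] {A : ValuationSubring K} {k : Type*} [Field k] {π : A →+* k}
  {L : Subfield K} {ϖ : K}

theorem DiscFld.exists_e0 (D : DiscFld A π L ϖ) (hπ : Function.Surjective π) {p : ℕ}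
    (hp : p.Prime) {ζ : K} (hζ : IsPrimitiveRoot ζ p)
    (hζA : ζ - 1 ∈ A) (hζ1 : π ⟨ζ - 1, hζA⟩ = 0) (hζL : ζ ∈ L) :
    ∃ e₀ : ℕ, 0 < e₀ ∧ (∃ ε ∈ A, (p : K) = ε * ϖ ^ ((p - 1) * e₀)) ∧
      ∃ η ∈ A, ϖ ^ e₀ = η * (ζ - 1) := by
  have hlam0 : ζ - 1 ≠ 0 := sub_ne_zero.mpr (hζ.ne_one hp.one_lt)
  obtain ⟨ε, hε, hpε⟩ := exists_eps A π hp hζ hζA hζ1 hπ
  obtain ⟨m, hm, hm0⟩ := D.discr (ζ - 1) (sub_mem hζL (one_mem _)) hlam0
  have hm1 : m < 0 := by
    by_contra hge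
    push Not at hge
    obtain ⟨n, rfl⟩ := Int.eq_ofNat_of_zero_le hge
    apply hm0
    have h1 : (⟨ϖ ^ (n : ℤ) * (ζ - 1), hm⟩ : A) = ⟨ϖ, D.mem_A⟩ ^ n * ⟨ζ - 1, hζA⟩ := by
      apply Subtype.ext
      show ϖ ^ (n : ℤ) * (ζ - 1) = ϖ ^ n * (ζ - 1)
      rw [zpow_natCast]
    rw [h1, map_mul, hζ1, mul_zero]
  obtain ⟨e, he⟩ : ∃ e : ℕ, m = -(e : ℤ) := ⟨(-m).toNat, by omega⟩
  have he0 : 0 < e := by omega
  obtain ⟨u, hu⟩ := isUnit_of_map_ne hπ hm0
  have hu1 : ((u : A) : K) = ϖ ^ m * (ζ - 1) := congrArg Subtype.val hu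
  have hu2 : ((u : A) : K) * (((u⁻¹ : Aˣ) : A) : K) = 1 := by
    have : (((u : A) * ((u⁻¹ : Aˣ) : A) : A) : K) = 1 := by rw [Units.mul_inv]; rfl
    exact this
  have hϖe : ϖ ^ e ≠ 0 := pow_ne_zero e D.ne
  have hu3 : ζ - 1 = ((u : A) : K) * ϖ ^ e := by
    rw [hu1, he, zpow_neg, zpow_natCast]
    field_simp
  refine ⟨e, he0, ⟨((ε * (u : A) ^ (p - 1) : A) : K), SetLike.coe_mem _, ?_⟩, ((u⁻¹ : Aˣ) : A),
    SetLike.coe_mem _, ?_⟩
  · rw [hpε, hu3, mul_pow, ← pow_mul, mul_comm e]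
    push_cast
    ring
  · rw [hu3, ← mul_assoc, mul_comm _ ((u : A) : K), hu2, one_mul]

end E0

end Fermat.Agent.H33
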