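import Fermat.Agent.H17SurjRed
import Fermat.Agent.H17DivMod
import Fermat.Agent.H33Inertia
import Fermat.Agent.H44EDisc
import Fermat.Agent.H63Cyclo

/-!
# MZ-J5: the kernel of reduction is divisible (helper17)
-/

set_option autoImplicit false

noncomputable section

open AlgebraicCurve ModularCurve

namespace Fermat.Agent.H17

open Fermat.Agent.H40 Fermat.Agent.H94 Fermat.Agent.H19 Fermat.Agent.H23

local notation "Qb" => AlgebraicClosure ℚ
local notation "Gq" => AlgebraicClosure ℚ ≃ₐ[ℚ] AlgebraicClosure ℚ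

theorem inertiaFacts {ℓ : ℕ} (hℓ : ℓ.Prime) {A : ValuationSubring Qb}
    (hA : A.LiesOverPrime ℓ) : H33.InertiaFacts ℓ A where
  val a ha h := by
    have : IsGalois ℚ Qb := H63.isGalois_Qb
    exact H44E.exists_valuation_eq_zpow hℓ hA ha h
  res c := by
    haveI : Fact ℓ.Prime := ⟨hℓ⟩
    exact H1.exists_const_inertia A hA (IsLocalRing.residue A) IsLocalRing.residue_surjective c

section

variable {A : ValuationSubring Qb} {N : ℕ} [NeZero N]
    {hdeg : H42.DegLE Qb (IsLocalRing.ResidueField A) N}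
    [H94.FunField (IsLocalRing.ResidueField A)
      (modularFunctionFieldFullC (IsLocalRing.ResidueField A) N)]
    (T : Setup A N hdeg)

include T in
theorem Setup.isSmall_iff (a : Qb) : T.S.IsSmall a ↔ A.valuation a < 1 := by
  have h1 : T.S.IsSmall a ↔ T.S.A.valuation a < 1 := by
    rw [← ValuationSubring.mem_nonunits_iff, ValuationSubring.mem_nonunits_iff_exists_mem_maximalIdeal]
    refine exists_congr fun h => ?_
    rw [T.S.π_eq_zero, IsLocalRing.mem_maximalIdeal]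
    rfl
  rw [h1, ← ValuationSubring.mem_nonunits_iff, ← ValuationSubring.mem_nonunits_iff,
    S_A_eq hdeg T.hS]

include T in
theorem Setup.exists_unif {ℓ : ℕ} (hℓ : ℓ.Prime) (hA : A.LiesOverPrime ℓ)
    {P : Gq → Prop} (hP : H31.Openly P) :
    ∃ H : Subgroup Gq, H ≤ A.inertiaSubgroupIn ℚ ∧ (∀ σ ∈ H, P σ) ∧
      ∃ ϖ, Unif T.S (H.map (arithmeticGalois (modularFunctionFieldFull N))) ϖ := by
  obtain ⟨K', hK', h⟩ := hP
  have : IsGalois ℚ Qb := H63.isGalois_Qb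
  set H' : Subgroup Gq := K'.fixingSubgroup with hH'
  have hfin : H'.FiniteIndex := ⟨by
    rw [← IntermediateField.finrank_eq_fixingSubgroup_index]
    exact Module.finrank_pos.ne'⟩
  obtain ⟨ϖ, hϖ⟩ := H33.exists_discFld (inertiaFacts hℓ hA) hA hℓ (H' := H')
  have hvϖ0 : A.valuation ϖ ≠ 0 := (A.valuation.ne_zero_iff).mpr hϖ.ne
  have hvϖ : A.valuation ϖ < 1 := by
    have h1 := hϖ.map_eq
    rw [IsLocalRing.residue_eq_zero_iff] at h1
    exact (A.valuation_lt_one_iff ⟨ϖ, hϖ.mem_A⟩).mp h1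
  refine ⟨A.inertiaSubgroupIn ℚ ⊓ H', inf_le_left, fun σ hσ => h σ fun a ha => ?_, ϖ, ?_⟩
  · exact (IntermediateField.mem_fixingSubgroup_iff K' σ).mp hσ.2 a ha
  refine ⟨hϖ.ne, ?_, (T.isSmall_iff ϖ).mpr hvϖ, ?_⟩
  · rintro γ ⟨σ, hσ, rfl⟩
    rw [baseAut_arithmeticGalois]
    exact H33.mem_fixL.mp hϖ.mem_L σ hσ.1 hσ.2
  · intro a ha hsm
    rw [T.isSmall_iff] at hsm
    rw [S_A_eq hdeg T.hS, ← A.valuation_le_one_iff]
    rcases eq_or_ne a 0 with rfl | ha0
    · simp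
    have haL : a ∈ H33.fixL A H' := by
      rw [H33.mem_fixL]
      intro σ h1 h2
      have h3 := ha (arithmeticGalois (modularFunctionFieldFull N) σ) ⟨σ, ⟨h1, h2⟩, rfl⟩
      rw [baseAut_arithmeticGalois] at h3
      exact h3
    obtain ⟨m, hm, hm0⟩ := hϖ.discr a haL ha0
    have h4 := H33.valuation_eq_one_of_residue_ne hm0
    have h5 : A.valuation a = A.valuation ϖ ^ (-m) := by
      have h6 : A.valuation ϖ ^ m * A.valuation a = 1 := by
        rw [← map_zpow₀, ← map_mul]; exact h4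
      rw [zpow_neg, eq_inv_of_mul_eq_one_right h6]
    rw [map_div₀, h5, div_eq_mul_inv, ← zpow_sub_one₀ hvϖ0]
    rw [h5] at hsm
    have h7 : 0 < -m := by
      by_contra hcon
      push Not at hcon
      have h8 : (1 : ValuationSubring.ValueGroup A) ≤ A.valuation ϖ ^ (-m) := by
        obtain ⟨n, hn⟩ : ∃ n : ℕ, -m = -(n : ℤ) := ⟨m.toNat, by omega⟩
        rw [hn, zpow_neg, zpow_natCast]
        exact (one_le_inv₀ (pow_pos (zero_lt_iff.mpr hvϖ0) _)).mpr (pow_le_one₀ zero_le hvϖ.le)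
      exact absurd hsm (not_lt.mpr h8)
    obtain ⟨n, hn⟩ : ∃ n : ℕ, -m - 1 = (n : ℤ) := ⟨(-m - 1).toNat, by omega⟩
    rw [hn, zpow_natCast]
    exact pow_le_one₀ zero_le hvϖ.le

include T in
theorem Setup.hU {ℓ : ℕ} (hℓ : ℓ.Prime) (hA : A.LiesOverPrime ℓ)
    (U : Finset (modularFunctionFieldBar N)) (D : Divisor Qb (modularFunctionFieldBar N)) :
    ∃ H : Subgroup (SemilinearAut Qb (modularFunctionFieldBar N)), H ≤ inertiaSL A N ∧
      (∀ γ ∈ H, (∀ f ∈ U, γ • f = f) ∧ γ • D = D) ∧ ∃ ϖ, Unif T.S H ϖ := by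
  have : Algebra.IsAlgebraic ℚ Qb := AlgebraicClosure.isAlgebraic ℚ
  obtain ⟨H, hH, h1, ϖ, hϖ⟩ := T.exists_unif hℓ hA
    ((H31.openly_forall_finset U _ fun f _ => H31.openly_smul_fun f).and
      (H31.openly_smul_divisor D))
  refine ⟨H.map _, Subgroup.map_mono hH, ?_, ϖ, hϖ⟩
  rintro _ ⟨σ, hσ, rfl⟩
  exact h1 σ hσ

end

/-- **MZ-J5** -/
theorem divRed : H15.T_divRed := by
  intro N _ ℓ hℓ hℓN A hA p hp x hx
  have hff := H42.funField_right (L := Qb) N (H42.degLE_place hℓ hA hℓN)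
  obtain ⟨T⟩ := exists_setup N hℓ hℓN A hA
  rw [H15.KJ, AddMonoidHom.mem_ker, ← T.red] at hx
  obtain ⟨n, hn1, hn2⟩ : ∃ n : ℕ, 0 < n ∧ T.S.c < n :=
    ⟨(T.S.c).toNat + 1, by omega, by have := Int.self_le_toNat T.S.c; push_cast; omega⟩
  have hm : T.S.c < ((p * n : ℕ) : ℤ) := by
    have : n ≤ p * n := Nat.le_mul_of_pos_left n hp.pos
    omega
  obtain ⟨ξ, U, γ, hξ, hU, hγ, hsum⟩ := exists_orbit_sum T.I (T.hU hℓ hA) x hx (p * n) hm
    (Nat.mul_pos hp.pos hn1)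
  obtain ⟨η, hη⟩ := jzero_divisible N hp.ne_zero ξ
  refine ⟨∑ i ∈ U, γ i • η, ?_, ?_⟩
  · rw [H15.KJ, AddMonoidHom.mem_ker, ← T.red, map_sum]
    have h1 : ∀ i ∈ U, redPic0 T.S (γ i • η) = redPic0 T.S η := fun i _ =>
      redPic0_smul T.I (hγ i) η
    rw [Finset.sum_congr rfl h1, Finset.sum_const, hU, mul_comm, mul_smul, ← map_nsmul, hη, hξ,
      smul_zero]
  · rw [hsum, Finset.smul_sum]
    refine Finset.sum_congr rfl fun i _ => ?_
    rw [← hη, smul_comm]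

end Fermat.Agent.H17
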