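import Fermat.Agent.H15Defs
import Fermat.Agent.H70Frob

/-!
# Hecke stability of the kernels of reduction: reduction to the generators (helper18)
-/

set_option autoImplicit false

noncomputable section

namespace Fermat.Agent.H18

open ModularCurve H15

section Abstract

variable {N : ℕ} {J : Type} [AddCommGroup J] [Module HeckeAlg J] [DistribMulAction H15.GQ J]
  {K : ValuationSubring H15.Qb → AddSubgroup J}

/-- `T_ℓ` at a place above `ℓ`, from the Eichler-Shimura relation -/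
theorem heckeGen_smul_mem_of_basic (hb : BasicInputs N J K) {ℓ : ℕ} (hℓ : ℓ.Prime)
    (hℓN : ¬ ℓ ∣ N) {A : ValuationSubring H15.Qb} (hA : A.LiesOverPrime ℓ) {x : J}
    (hx : x ∈ K A) : heckeGen ⟨ℓ, hℓ⟩ • x ∈ K A := by
  obtain ⟨σ, hσ⟩ := H70.exists_frobenius A hℓ hA
  have hd := hσ.mem_decompositionSubgroup
  have h1 := hb.frob ℓ hℓ hℓN A hA σ hσ (σ⁻¹ • x)
  have h2 : σ • σ⁻¹ • x = x := smul_inv_smul σ x
  rw [h2] at h1
  have h3 := hb.galois ℓ hℓ hℓN A hA σ hd x hx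
  have h4 := hb.galois ℓ hℓ hℓN A hA σ⁻¹ (inv_mem hd) x hx
  have h5 : heckeGen ⟨ℓ, hℓ⟩ • x = σ • x + ℓ • σ⁻¹ • x -
      (σ • x - heckeGen ⟨ℓ, hℓ⟩ • x + ℓ • σ⁻¹ • x) := by abel
  rw [h5]
  exact sub_mem (add_mem h3 ((K A).nsmul_mem h4 ℓ)) h1

/-- **Reduction to the generators** -/
theorem heckeRed_of_basic (hb : BasicInputs N J K)
    (h : ∀ ℓ : ℕ, ℓ.Prime → ¬ ℓ ∣ N → ∀ A : ValuationSubring H15.Qb, A.LiesOverPrime ℓ →
      ∀ q : Nat.Primes, (q : ℕ) ≠ ℓ → ∀ x ∈ K A, heckeGen q • x ∈ K A) :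
    HeckeRed N J K := by
  intro ℓ hℓ hℓN A hA t
  have hgen : ∀ q : Nat.Primes, ∀ x ∈ K A, heckeGen q • x ∈ K A := by
    intro q x hx
    by_cases hq : (q : ℕ) = ℓ
    · obtain rfl : q = ⟨ℓ, hℓ⟩ := Subtype.ext hq
      exact heckeGen_smul_mem_of_basic hb hℓ hℓN hA hx
    · exact h ℓ hℓ hℓN A hA q hq x hx
  induction t using MvPolynomial.induction_on with
  | C n =>
    intro x hx
    have e : (MvPolynomial.C n : HeckeAlg) • x = n • x := by
      have e1 : (MvPolynomial.C n : HeckeAlg) = ((n : ℤ) : HeckeAlg) := by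
        simp
      rw [e1, Int.cast_smul_eq_zsmul]
    rw [e]
    exact (K A).zsmul_mem hx n
  | add p p' hp hp' =>
    intro x hx
    rw [add_smul]
    exact add_mem (hp x hx) (hp' x hx)
  | mul_X p q hp =>
    intro x hx
    rw [mul_smul]
    exact hp _ (hgen q x hx)

end Abstract

end Fermat.Agent.H18
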