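import Fermat.Agent.H17Basic
import Fermat.Agent.H18HkGen0

/-!
# Hecke stability of the kernels of reduction of `J₀(N)`: reduction to the generators (helper18)
-/

set_option autoImplicit false

noncomputable section

namespace Fermat.Agent.H18

open ModularCurve H15

attribute [local instance] heckeModuleBar

/-- **Reduction of `T_heckeRed` to the Hecke operators `T_q` at the places not above `q`** -/
theorem heckeRed_of_gens (N : ℕ) [NeZero N]
    (h : ∀ ℓ : ℕ, ℓ.Prime → ¬ ℓ ∣ N → ∀ A : ValuationSubring H15.Qb, A.LiesOverPrime ℓ →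
      ∀ q : Nat.Primes, (q : ℕ) ≠ ℓ → ∀ x ∈ KJ N A, heckeGen q • x ∈ KJ N A) :
    HeckeRed N (JZero N) (KJ N) :=
  heckeRed_of_basic (H17.basic N) h

/-- The same, with the Hecke operators instead of the module structure. -/
theorem t_heckeRed_of_gens
    (h : ∀ (N : ℕ) [NeZero N] (ℓ : ℕ), ℓ.Prime → ¬ ℓ ∣ N → ∀ A : ValuationSubring H15.Qb,
      A.LiesOverPrime ℓ → ∀ q : Nat.Primes, (q : ℕ) ≠ ℓ → ∀ x ∈ KJ N A,
        heckeOperatorBar N q x ∈ KJ N A) :
    T_heckeRed := by
  intro N _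
  refine heckeRed_of_gens N fun ℓ hℓ hℓN A hA q hq x hx => ?_
  rw [heckeModuleBar_heckeGen_smul (H67.heckeOperatorsCommuteBar N)]
  exact h N ℓ hℓ hℓN A hA q hq x hx

end Fermat.Agent.H18
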