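import Fermat.Agent.H12GKer
import Fermat.Agent.H17DivRed
import Fermat.Agent.H18HkGen

/-!
# MZ-J2: the kernels of reduction are Hecke stable (helper12, helper18)
-/

set_option autoImplicit false

noncomputable section

namespace Fermat.Agent.H18

open ModularCurve AlgebraicCurve H15 Fermat.Agent.H67

/-- divisibility by all positive integers -/
theorem exists_nsmul_of_divRed {N : ℕ} {J : Type} [AddCommGroup J]
    {K : ValuationSubring H15.Qb → AddSubgroup J} (h : DivRed N J K) {ℓ : ℕ} (hℓ : ℓ.Prime)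
    (hℓN : ¬ ℓ ∣ N) {A : ValuationSubring H15.Qb} (hA : A.LiesOverPrime ℓ) {n : ℕ} (hn : 0 < n) :
    ∀ x ∈ K A, ∃ y ∈ K A, n • y = x := by
  induction n using Nat.recOnMul with
  | zero => exact absurd hn (lt_irrefl 0)
  | one => exact fun x hx => ⟨x, hx, one_smul _ _⟩
  | prime p hp => exact fun x hx => h ℓ hℓ hℓN A hA p hp x hx
  | mul a b ha hb =>
    intro x hx
    obtain ⟨y, hy, rfl⟩ := ha (Nat.pos_of_mul_pos_right hn) x hx
    obtain ⟨z, hz, rfl⟩ := hb (Nat.pos_of_mul_pos_left hn) y hy
    exact ⟨z, hz, mul_smul a b z⟩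

set_option synthInstance.maxHeartbeats 400000 in
set_option maxHeartbeats 4000000 in
/-- **MZ-J2** -/
theorem heckeRed : H15.T_heckeRed := by
  refine t_heckeRed_of_gens ?_
  intro N _ ℓ hℓ hℓN A hA q hq x hx
  haveI : NeZero (q : ℕ) := ⟨q.2.ne_zero⟩
  haveI : Fact ℓ.Prime := ⟨hℓ⟩
  haveI : CharP (IsLocalRing.ResidueField A) ℓ := H60.charP_residue hℓ hA
  haveI := hasPrincipalDivisors_FB H15.Qb (N * q)
  haveI := hasPrincipalDivisors_FB H15.Qb N
  have hdeg := H42.degLE_place hℓ hA hℓN
  haveI := H42.funField_left (k := IsLocalRing.ResidueField A) N hdeg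
  haveI := H42.funField_right (L := H15.Qb) N hdeg
  have hred := H17.reductionInputs N hℓ hℓN A hA
  have hr := hred.choose_spec.1
  have hgen := hred.choose_spec.2
  have hs : reductionModL A N = reductionPic0Along hred.choose hr hgen := reductionAlong_eq hred
  have hx' : reductionPic0Along hred.choose hr hgen x = 0 := by
    rw [← hs]; exact hx
  have hop : heckeOperatorBar N q x = heckePic0Bar
      (integral_FB H15.Qb (heckeAlphaBar H15.Qb N q))
      (integral_FB H15.Qb (heckeBetaBar H15.Qb N q)) (fundamentalIdentityAlong_FB H15.Qb _ _)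
      (finiteAlong_FB H15.Qb _) (normFormulaAlong_FB H15.Qb _ _) x := by
    exact (heckeOperatorBar_apply N q x).trans
      (DFunLike.congr_fun (heckeOperatorAlong_eq _ _ _ _ _) x)
  have key := H12G.hecke_stable (q := q) (π := IsLocalRing.residue A)
    IsLocalRing.residue_surjective (by
      rw [Nat.cast_mul]
      refine mul_ne_zero ?_ ?_
      · exact fun h0 => hℓN ((CharP.cast_eq_zero_iff _ ℓ _).mp h0)
      · exact fun h0 => hq ((Nat.prime_dvd_prime_iff_eq hℓ q.2).mp
          ((CharP.cast_eq_zero_iff _ ℓ _).mp h0)).symm) hr hgen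
    (integral_FB H15.Qb (heckeAlphaBar H15.Qb N q))
      (integral_FB H15.Qb (heckeBetaBar H15.Qb N q)) (fundamentalIdentityAlong_FB H15.Qb _ _)
      (finiteAlong_FB H15.Qb _) (normFormulaAlong_FB H15.Qb _ _)
    (fun y hy n hn => by
      obtain ⟨z, hz, hzy⟩ := exists_nsmul_of_divRed (H17.divRed N) hℓ hℓN hA hn y (by
        show reductionModL A N y = 0
        rw [hs]; exact hy)
      refine ⟨z, ?_, hzy⟩
      rw [← hs]; exact hz) hx'
  show reductionModL A N _ = 0
  rw [hop, hs]
  exact key

end Fermat.Agent.H18
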