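import Mathlib
import Fermat.Agent.H70Reduced
import Fermat.Agent.H35Kill
import Fermat.Agent.H90Kappa

/-!
# Separable integral polynomials killing the torsion of `J₀(N)` (MZ-G2, piece D)
-/

set_option autoImplicit false
set_option linter.style.haveILetI false

noncomputable section

namespace Fermat.Agent.H54Mz

open CuspForm ModularCurve Fermat.Agent.H31 Polynomial

attribute [local instance] heckeModuleBar

/-- Each `T_ℓ`, `ℓ ∤ N`, satisfies on the torsion of `J₀(N)` a monic integral polynomial which is separable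
over `ℚ`. -/
theorem exists_poly {N : ℕ} [NeZero N] (ℓ : Nat.Primes) (h : ¬ (ℓ : ℕ) ∣ N) :
    ∃ P : Polynomial ℤ, P.Monic ∧ (P.map (Int.castRingHom ℚ)).Separable ∧
      ∀ x : JZero N, (∃ m : ℕ, m ≠ 0 ∧ m • x = 0) →
        (Polynomial.aeval (heckeGen ℓ : HeckeAlg) P) • x = 0 := by
  classical
  let S : Set ℕ := ↑(N.primeFactors)
  have hNS : ∀ q : ℕ, q.Prime → q ∣ N → q ∈ S := fun q hq hqN =>
    Finset.mem_coe.mpr (Nat.mem_primeFactors.mpr ⟨hq, hqN, NeZero.ne N⟩)
  have hℓS : (ℓ : ℕ) ∉ S := fun hmem => h (Nat.dvd_of_mem_primeFactors (Finset.mem_coe.mp hmem))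
  haveI h1 : IsReduced (heckeAlgebra N 2 S) := H70.isReduced_heckeAlgebra hNS
  haveI h2 : Module.Finite ℤ (heckeAlgebra N 2 S) := Fermat.Agent.S22.result N 2 S
  let t : heckeAlgebra N 2 S := heckeAlgebra.T ℓ.2 h hℓS
  obtain ⟨G, hG, hGs, hGt⟩ := H70.exists_monic_squarefree_aeval_eq_zero
    (Algebra.IsIntegral.isIntegral (R := ℤ) t)
  refine ⟨G, hG, hGs, ?_⟩
  rintro x ⟨m, hm, hx⟩
  let a : GoodPrimes N S := ⟨ℓ, h, hℓS⟩
  let P : MvPolynomial (GoodPrimes N S) ℤ := aeval (MvPolynomial.X a) G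
  have hP : H35.evEnd N dvd_rfl S P = 0 := by
    have h3 : H35.evEnd N dvd_rfl S = ((heckeAlgebra N 2 S).val.toRingHom.comp (evHecke N S)) := by
      refine MvPolynomial.ringHom_ext (fun z => by simp) fun a => ?_
      rw [H35.evEnd_X, RingHom.comp_apply, evHecke_X]
      rfl
    rw [h3, RingHom.comp_apply]
    have h4 : evHecke N S P = 0 := by
      show evHecke N S (aeval (MvPolynomial.X a) G) = 0
      rw [← hGt, aeval_def, aeval_def, hom_eval₂]
      congr 1
      · exact RingHom.ext_int _ _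
      · exact evHecke_X N S a
    rw [h4, map_zero]
  have h5 : inclHecke N S P = aeval (heckeGen ℓ : HeckeAlg) G := by
    show inclHecke N S (aeval (MvPolynomial.X a) G) = _
    rw [← aeval_algHom_apply, inclHecke_X]
  rw [← h5]
  letI := H90.algQbarC
  exact H35.smul_eq_zero_of_evEnd dvd_rfl S (fun n c χ hn hr => hr.isPE hn) P hP m hm x hx

end Fermat.Agent.H54Mz
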