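import Mathlib
import Fermat.Prelude.Def_ModularCurve_HeckeModule
import Fermat.Prelude.Def_ModularCurve_ArithmeticGalois
import Fermat.Prelude.Def_ModularCurve_ReductionModL
import Fermat.Prelude.Def_ModularCurve_ModularUnit
import Fermat.Prelude.Def_CuspForm_IntegralLattice
import Fermat.Prelude.Def_EllipticCurve_ZeroComponentAt
import Fermat.Prelude.Def_FLTPrelim_Ramification

/-!
# MAZUR project (S15, S12): interfaces

`TheoremX` (no rational point of `X₀(N)` reduces to one cusp at `2, 3` and to the other one at `ℓ`),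
`TheoremY` (elliptic curves with a rational `N`-subgroup give rational points of `X₀(N)`),
`CoreInputs` (what is needed from `J₀(N)` for the proof of `TheoremX`).
-/

set_option autoImplicit false

noncomputable section

namespace Fermat.Agent.H15

open ModularCurve AlgebraicCurve WeierstrassCurve
open scoped WeierstrassCurve.Affine

abbrev Qb : Type := AlgebraicClosure ℚ
abbrev GQ : Type := Qb ≃ₐ[ℚ] Qb

/-- `(a, b)` is a point of the affine plane model of `X₀(N)`: every polynomial relation between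
`j` and `j_N` holds at `(a, b)`. -/
def ModRel (N : ℕ) [NeZero N] (a b : ℚ) : Prop :=
  ∀ P : MvPolynomial (Fin 2) ℚ,
    MvPolynomial.aeval ![jq, qExpand ℚ N jq] P = 0 → MvPolynomial.aeval ![a, b] P = 0

/-- THEOREM X. -/
def TheoremX : Prop :=
  ∀ (N : ℕ) [NeZero N], N.Prime → 1 < eisensteinNumerator N → ∀ a b : ℚ, ModRel N a b →
    padicValRat 2 a < 0 → padicValRat 2 b = N * padicValRat 2 a →
    padicValRat 3 a < 0 → padicValRat 3 b = N * padicValRat 3 a →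
    ∀ ℓ : ℕ, ℓ.Prime → ℓ ≠ N → padicValRat ℓ a < 0 → padicValRat ℓ b = N * padicValRat ℓ a

/-- THEOREM Y. -/
def TheoremY : Prop :=
  ∀ (N : ℕ) [NeZero N], N.Prime → N ≠ 2 → ∀ (W : WeierstrassCurve ℤ), W.Δ ≠ 0 →
    ∀ C : AddSubgroup ((W.map (Int.castRingHom ℚ))⁄Qb).Point, Nat.card C = N →
    (∀ σ : GQ, ∀ P ∈ C, σ • P ∈ C) →
    ∃ b : ℚ, ModRel N ((W.c₄ : ℚ) ^ 3 / W.Δ) b ∧
      ∀ ℓ : ℕ, ℓ.Prime → ℓ ≠ N → (ℓ : ℤ) ∣ W.Δ → ¬ (ℓ : ℤ) ∣ W.c₄ →
      ∀ A : ValuationSubring Qb, A.LiesOverPrime ℓ →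
        ((∀ P ∈ C, W.InZeroComponentAt A P) →
          padicValRat ℓ b = N * padicValRat ℓ ((W.c₄ : ℚ) ^ 3 / W.Δ)) ∧
        ((∃ P ∈ C, ¬ W.InZeroComponentAt A P) →
          N * padicValRat ℓ b = padicValRat ℓ ((W.c₄ : ℚ) ^ 3 / W.Δ))

section Cusps

variable (N : ℕ) [NeZero N]

/-- `j` as an element of the function field. -/
def jB : modularFunctionFieldBar N :=
  ⟨coeffEmb (L := Qb) (qExpand ℚ 1 jq), coeffEmb_mem_laurentBaseChange _
    (jqd_mem_full N (one_dvd N))⟩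

/-- `j_N` as an element of the function field. -/
def jNB : modularFunctionFieldBar N :=
  ⟨coeffEmb (L := Qb) (qExpand ℚ N jq), coeffEmb_mem_laurentBaseChange _
    (jqd_mem_full N dvd_rfl)⟩

/-- the cusp `∞` -/
def IsCuspInf (v : Place Qb (modularFunctionFieldBar N)) : Prop :=
  v.ord (jB N) = -1 ∧ v.ord (jNB N) = -(N : ℤ)

/-- the cusp `0` -/
def IsCuspZero (v : Place Qb (modularFunctionFieldBar N)) : Prop :=
  v.ord (jB N) = -(N : ℤ) ∧ v.ord (jNB N) = -1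

/-- `z` is the class of `[x] - [y]` -/
def IsDiffClass (x y : Place Qb (modularFunctionFieldBar N)) (z : JZero N) : Prop :=
  ∃ h : (Finsupp.single x 1 - Finsupp.single y 1 : Divisor Qb (modularFunctionFieldBar N)) ∈
    Divisor.degZero, z = Pic0.mk ⟨_, h⟩

/-- the kernel of reduction at the place `A` -/
def KJ (A : ValuationSubring Qb) : AddSubgroup (JZero N) := (reductionModL A N).ker

end Cusps

section Abstract

variable (N r : ℕ)

/-- the Eisenstein ideal above `r` (only the Hecke operators `T_q`, `q ≠ N`, are used) -/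
def eisP : Ideal HeckeAlg :=
  Ideal.span ({(r : HeckeAlg)} ∪
    {t | ∃ q : Nat.Primes, (q : ℕ) ≠ N ∧ t = heckeGen q - MvPolynomial.C (1 + (q : ℤ))})

variable (J : Type) [AddCommGroup J] [Module HeckeAlg J] [DistribMulAction GQ J]

/-- `W[r^k]`: the `r^k`-torsion points killed by a power of the Eisenstein ideal -/
def WSub (k : ℕ) : AddSubgroup J where
  carrier := {x | (r ^ k : ℕ) • x = 0 ∧ ∃ n : ℕ, ∀ t ∈ (eisP N r) ^ n, t • x = 0}
  zero_mem' := ⟨smul_zero _, 0, fun t _ => smul_zero t⟩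
  add_mem' := by
    rintro x y ⟨hx, n, hn⟩ ⟨hy, m, hm⟩
    refine ⟨by rw [smul_add, hx, hy, add_zero], n + m, fun t ht => ?_⟩
    rw [smul_add, hn t (Ideal.pow_le_pow_right (by omega) ht),
      hm t (Ideal.pow_le_pow_right (by omega) ht), add_zero]
  neg_mem' := by
    rintro x ⟨hx, n, hn⟩
    exact ⟨by rw [smul_neg, hx, neg_zero], n, fun t ht => by rw [smul_neg, hn t ht, neg_zero]⟩

/-- general facts about `J = J₀(N)(ℚ̄)` and the kernels of reduction `K A` -/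
structure BasicInputs (K : ValuationSubring Qb → AddSubgroup J) : Prop where
  /-- every point is defined over a number field -/
  smooth : ∀ x : J, IsOpen {σ : GQ | σ • x = x}
  torsion_finite : ∀ m : ℕ, m ≠ 0 → {x : J | m • x = 0}.Finite
  divisible : ∀ m : ℕ, m ≠ 0 → ∀ x : J, ∃ y : J, m • y = x
  /-- inertia acts trivially on the reduction -/
  inertia : ∀ ℓ : ℕ, ℓ.Prime → ¬ ℓ ∣ N → ∀ A : ValuationSubring Qb, A.LiesOverPrime ℓ →
    ∀ σ ∈ A.inertiaSubgroupIn ℚ, ∀ x : J, σ • x - x ∈ K A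
  /-- Eichler-Shimura -/
  frob : ∀ ℓ : ℕ, (hℓ : ℓ.Prime) → ¬ ℓ ∣ N → ∀ A : ValuationSubring Qb, A.LiesOverPrime ℓ →
    ∀ σ : GQ, A.IsFrobeniusAt σ ℓ → ∀ x : J,
      σ • σ • x - heckeGen ⟨ℓ, hℓ⟩ • σ • x + ℓ • x ∈ K A
  galois : ∀ ℓ : ℕ, ℓ.Prime → ¬ ℓ ∣ N → ∀ A : ValuationSubring Qb, A.LiesOverPrime ℓ →
    ∀ σ ∈ A.decompositionSubgroup ℚ, ∀ x ∈ K A, σ • x ∈ K A
  /-- injectivity of reduction on prime-to-`ℓ` torsion -/
  torsion_inj : ∀ ℓ : ℕ, ℓ.Prime → ¬ ℓ ∣ N → ∀ A : ValuationSubring Qb, A.LiesOverPrime ℓ →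
    ∀ m : ℕ, ¬ ℓ ∣ m → ∀ x ∈ K A, m • x = 0 → x = 0

/-- the kernels of reduction are Hecke stable -/
def HeckeRed (K : ValuationSubring Qb → AddSubgroup J) : Prop :=
  ∀ ℓ : ℕ, ℓ.Prime → ¬ ℓ ∣ N → ∀ A : ValuationSubring Qb, A.LiesOverPrime ℓ →
    ∀ t : HeckeAlg, ∀ x ∈ K A, t • x ∈ K A

/-- points of the reduction lift to inertia invariant points -/
def SurjRed (K : ValuationSubring Qb → AddSubgroup J) : Prop :=
  ∀ ℓ : ℕ, ℓ.Prime → ¬ ℓ ∣ N → ∀ A : ValuationSubring Qb, A.LiesOverPrime ℓ →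
    ∀ x : J, ∃ y : J, (∀ σ ∈ A.inertiaSubgroupIn ℚ, σ • y = y) ∧ x - y ∈ K A

/-- the reduction is a torsion group (class groups over finite fields are finite) -/
def TorsRed (K : ValuationSubring Qb → AddSubgroup J) : Prop :=
  ∀ ℓ : ℕ, ℓ.Prime → ¬ ℓ ∣ N → ∀ A : ValuationSubring Qb, A.LiesOverPrime ℓ →
    ∀ x : J, ∃ m : ℕ, m ≠ 0 ∧ m • x ∈ K A

/-- the kernels of reduction are divisible -/
def DivRed (K : ValuationSubring Qb → AddSubgroup J) : Prop :=
  ∀ ℓ : ℕ, ℓ.Prime → ¬ ℓ ∣ N → ∀ A : ValuationSubring Qb, A.LiesOverPrime ℓ →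
    ∀ p : ℕ, p.Prime → ∀ x ∈ K A, ∃ y ∈ K A, p • y = x

/-- `1 + q - T_q` is invertible rationally (`|a_q| < q + 1`) -/
def NoEis : Prop :=
  ∀ q : Nat.Primes, ¬ (q : ℕ) ∣ N → ∃ (t : HeckeAlg) (m : ℕ), m ≠ 0 ∧
    ∀ x : J, (∃ d : ℕ, d ≠ 0 ∧ d • x = 0) →
      t • ((1 + (q : ℕ)) • x - heckeGen q • x) = m • x

/-- semistability at `N` (SS'), `N` prime -/
def SSN : Prop :=
  ∀ A : ValuationSubring Qb, A.LiesOverPrime N → ∀ σ ∈ A.inertiaSubgroupIn ℚ,
    ∀ τ ∈ A.inertiaSubgroupIn ℚ, ∀ d : ℕ, ¬ N ∣ d → ∀ R : J,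
      (∀ ρ ∈ A.inertiaSubgroupIn ℚ, ρ • (d • R) = d • R) →
      τ • (σ • R - R) = σ • R - R

def CardW (t : ℕ) : Prop := ∀ k : ℕ, Nat.card (WSub N r J k) = r ^ (2 * t * k)

/-- (F1) -/
def CardMult (K : ValuationSubring Qb → AddSubgroup J) (t : ℕ) : Prop :=
  ∃ C : ℕ, ∀ A : ValuationSubring Qb, A.LiesOverPrime r → ∀ k : ℕ,
    Nat.card (WSub N r J k ⊓ K A : AddSubgroup J) ≤ C * r ^ (t * k)

/-- (F3) -/
def CardN (t : ℕ) : Prop :=
  ∃ C : ℕ, ∀ A : ValuationSubring Qb, A.LiesOverPrime N → ∀ k : ℕ,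
    Nat.card {x : WSub N r J k // ∀ σ ∈ A.inertiaSubgroupIn ℚ, σ • (x : J) = x}
      ≤ C * r ^ (t * k)

/-- (F2): inertia at `r` acts by the cyclotomic character on `W ∩ K A` -/
def MultChar (K : ValuationSubring Qb → AddSubgroup J) : Prop :=
  ∀ A : ValuationSubring Qb, A.LiesOverPrime r → ∀ k : ℕ, ∀ σ ∈ A.inertiaSubgroupIn ℚ,
    ∀ n : ℕ, (∀ ζ : Qb, ζ ^ (r ^ k) = 1 → σ ζ = ζ ^ n) →
      ∀ x ∈ WSub N r J k ⊓ K A, σ • x = n • x

/-- (R3): the Kummer classes cut out at `r` are units -/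
def UnitR (K : ValuationSubring Qb → AddSubgroup J) : Prop :=
  ∀ A : ValuationSubring Qb, A.LiesOverPrime r → ∀ k : ℕ,
    ∀ (ψ : (WSub N r J k ⊓ K A : AddSubgroup J) →+ Additive Qbˣ) (R : J) (κ : Qbˣ),
      (∀ σ ∈ A.inertiaSubgroupIn ℚ, σ • ((r ^ k : ℕ) • R) = (r ^ k : ℕ) • R) →
      (∀ (σ : GQ), σ ∈ A.inertiaSubgroupIn ℚ → ∃ h : σ • R - R ∈ WSub N r J k ⊓ K A,
        ((ψ ⟨_, h⟩).toMul : Qb) * κ = σ (κ : Qb)) →
      ∃ m : ℤ, A.valuation (κ : Qb) = A.valuation (r : Qb) ^ m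

/-- Everything needed from `J = J₀(N)(ℚ̄)`; `K A` is the kernel of reduction at the place `A`
(only used for `A` above a prime `≠ N`). -/
structure CoreInputs (K : ValuationSubring Qb → AddSubgroup J) : Prop
    extends BasicInputs N J K where
  hecke : HeckeRed N J K
  tors : TorsRed N J K
  div : DivRed N J K
  noEis : NoEis N J
  ss : SSN N J
  card : ∃ t : ℕ, CardW N r J t ∧ CardMult N r J K t ∧ CardN N r J t
  mult : MultChar N r J K
  unit_r : UnitR N r J K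

/-- The abstract core: the inputs exclude a rational class `z` which is `0` at `2` and `3` and is
the cuspidal class `c` at a place above `ℓ ≥ 5`. -/
def AbstractCore : Prop :=
  ∀ (N r : ℕ), N.Prime → 5 ≤ N → r.Prime → r ≠ N →
  ∀ (J : Type) [AddCommGroup J] [Module HeckeAlg J] [DistribMulAction GQ J]
    [SMulCommClass GQ HeckeAlg J] (K : ValuationSubring Qb → AddSubgroup J),
    CoreInputs N r J K →
    ∀ (c z : J) (n : ℕ), n ≠ 0 → n • c = 0 → (∀ m : ℕ, m • c = 0 → r ∣ m) →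
      (∀ q : Nat.Primes, (q : ℕ) ≠ N → heckeGen q • c = (1 + (q : ℕ)) • c) →
      (∀ σ : GQ, σ • c = c) → (∀ σ : GQ, σ • z = z) →
      ∀ (A₂ A₃ A : ValuationSubring Qb), A₂.LiesOverPrime 2 → A₃.LiesOverPrime 3 →
      ∀ ℓ : ℕ, ℓ.Prime → ℓ ≠ N → ℓ ≠ 2 → ℓ ≠ 3 → A.LiesOverPrime ℓ →
      z ∈ K A₂ → z ∈ K A₃ → z - c ∈ K A → False

end Abstract

section ModR

variable (N : ℕ) [NeZero N] (k : Type) [Field k]

/-- the Hecke operator `T_q` (`q ≠ N`) in weight two on `q`-expansions -/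
def Tq (q : ℕ) : PowerSeries k →ₗ[k] PowerSeries k where
  toFun f := PowerSeries.mk fun n =>
    PowerSeries.coeff (q * n) f + if q ∣ n then (q : k) * PowerSeries.coeff (n / q) f else 0
  map_add' f g := by
    ext n
    simp only [PowerSeries.coeff_mk, map_add]
    split_ifs <;> ring
  map_smul' c f := by
    ext n
    simp only [PowerSeries.coeff_mk, map_smul, smul_eq_mul, RingHom.id_apply]
    split_ifs <;> ring

/-- the mod `r` cusp forms of weight two on `Γ₀(N)`: the span of the reductions of integral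
`q`-expansions of cusp forms -/
def S2 : Submodule k (PowerSeries k) :=
  Submodule.span k {f | ∃ (F : CuspForm (CongruenceSubgroup.Gamma0 N) 2) (G : PowerSeries ℤ),
    (∀ n : ℕ, ModularFormClass.qCoeff F n = ((PowerSeries.coeff n G : ℤ) : ℂ)) ∧
      f = G.map (Int.castRingHom k)}

/-- `T_q - 1 - q` -/
def TEis (q : ℕ) : Module.End k (PowerSeries k) := Tq k q - (1 + (q : k)) • LinearMap.id

/-- its Eisenstein part (killed by a power of the ideal generated by the `T_q - 1 - q`) -/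
def EisPart : Submodule k (PowerSeries k) where
  carrier := {f | f ∈ S2 N k ∧ ∃ n : ℕ, ∀ l : List ℕ, l.length = n →
    (∀ q ∈ l, q.Prime ∧ q ≠ N) → (l.map (TEis k)).prod f = 0}
  zero_mem' := ⟨zero_mem _, 0, fun l _ _ => map_zero _⟩
  add_mem' := by
    rintro f g ⟨hf, n, hn⟩ ⟨hg, m, hm⟩
    refine ⟨add_mem hf hg, n + m, fun l hl hq => ?_⟩
    have h1 : (l.map (TEis k)).prod f = 0 := by
      rw [← List.take_append_drop m l, List.map_append, List.prod_append, Module.End.mul_apply,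
        hn (l.drop m) (by simp; omega) fun q h => hq q (List.mem_of_mem_drop h), map_zero]
    have h2 : (l.map (TEis k)).prod g = 0 := by
      rw [← List.take_append_drop n l, List.map_append, List.prod_append, Module.End.mul_apply,
        hm (l.drop n) (by simp; omega) fun q h => hq q (List.mem_of_mem_drop h), map_zero]
    rw [map_add, h1, h2, add_zero]
  smul_mem' := by
    rintro c f ⟨hf, n, hn⟩
    exact ⟨Submodule.smul_mem _ c hf, n, fun l hl hq => by rw [map_smul, hn l hl hq, smul_zero]⟩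

end ModR

section Targets

attribute [local instance] heckeModuleBar

/-- target: general facts for `J₀(N)` -/
def T_basic : Prop := ∀ (N : ℕ) [NeZero N], BasicInputs N (JZero N) (KJ N)
def T_heckeRed : Prop := ∀ (N : ℕ) [NeZero N], HeckeRed N (JZero N) (KJ N)
def T_surjRed : Prop := ∀ (N : ℕ) [NeZero N], SurjRed N (JZero N) (KJ N)
def T_torsRed : Prop := ∀ (N : ℕ) [NeZero N], TorsRed N (JZero N) (KJ N)
def T_divRed : Prop := ∀ (N : ℕ) [NeZero N], DivRed N (JZero N) (KJ N)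
def T_noEis : Prop := ∀ (N : ℕ) [NeZero N], N.Prime → NoEis N (JZero N)
def T_ss : Prop := ∀ (N : ℕ) [NeZero N], N.Prime → SSN N (JZero N)
/-- ranks: `W` is a divisible group of even corank `2t`, where `t` is the dimension of the Eisenstein
part of the mod `r` cusp forms -/
def T_cardW : Prop := ∀ (N : ℕ) [NeZero N], N.Prime → ∀ r : ℕ, r.Prime → r ≠ N →
  ∃ t : ℕ, CardW N r (JZero N) t ∧
    ∀ (k : Type) [Field k] [CharP k r], Module.finrank k (EisPart N k) = t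
/-- (F1), ordinarity -/
def T_cardMult : Prop := ∀ (N : ℕ) [NeZero N], N.Prime → ∀ r : ℕ, r.Prime → r ≠ N →
  ∀ t : ℕ, CardW N r (JZero N) t → CardMult N r (JZero N) (KJ N) t
/-- (F3) -/
def T_cardN : Prop := ∀ (N : ℕ) [NeZero N], N.Prime → ∀ r : ℕ, r.Prime → r ≠ N →
  ∀ t : ℕ, CardW N r (JZero N) t → CardN N r (JZero N) t
/-- (F2) -/
def T_mult : Prop := ∀ (N : ℕ) [NeZero N], N.Prime → ∀ r : ℕ, r.Prime → r ≠ N →
  MultChar N r (JZero N) (KJ N)
/-- (R3) -/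
def T_unitR : Prop := ∀ (N : ℕ) [NeZero N], N.Prime → ∀ r : ℕ, r.Prime → r ≠ N →
  UnitR N r (JZero N) (KJ N)
/-- the cuspidal class -/
def T_cusp : Prop := ∀ (N : ℕ) [NeZero N], N.Prime → 5 ≤ N →
  ∃ x₀ x₁ : Place Qb (modularFunctionFieldBar N), IsCuspZero N x₀ ∧ IsCuspInf N x₁ ∧
    ∀ c : JZero N, IsDiffClass N x₀ x₁ c →
      eisensteinNumerator N • c = 0 ∧ (∀ m : ℕ, m • c = 0 → eisensteinNumerator N ∣ m) ∧
      (∀ σ : GQ, σ • c = c) ∧
      (∀ q : Nat.Primes, (q : ℕ) ≠ N → heckeGen q • c = (1 + (q : ℕ)) • c)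
/-- rational points of `X₀(N)` from points of the plane model, and their reductions -/
def T_place : Prop := ∀ (N : ℕ) [NeZero N], N.Prime → 5 ≤ N → ∀ a b : ℚ, ModRel N a b →
  padicValRat 2 a < 0 →
  ∃ x : Place Qb (modularFunctionFieldBar N),
    (∀ σ : GQ, arithmeticGalois (modularFunctionFieldFull N) σ • x = x) ∧
    ∀ x₀ x₁ : Place Qb (modularFunctionFieldBar N), IsCuspZero N x₀ → IsCuspInf N x₁ →
    ∀ ℓ : ℕ, ℓ.Prime → ℓ ≠ N → ∀ A : ValuationSubring Qb, A.LiesOverPrime ℓ →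
      padicValRat ℓ a < 0 →
      (padicValRat ℓ b = N * padicValRat ℓ a → ∀ z : JZero N, IsDiffClass N x x₁ z → z ∈ KJ N A) ∧
      (N * padicValRat ℓ b = padicValRat ℓ a → ∀ z : JZero N, IsDiffClass N x x₀ z → z ∈ KJ N A)
/-- elementary dichotomy for points of the plane model -/
def T_dichotomy : Prop := ∀ (N : ℕ) [NeZero N], N.Prime → ∀ a b : ℚ, ModRel N a b →
  ModRel N b a ∧ ∀ ℓ : ℕ, ℓ.Prime → ℓ ≠ N → padicValRat ℓ a < 0 →
    padicValRat ℓ b = N * padicValRat ℓ a ∨ N * padicValRat ℓ b = padicValRat ℓ a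

end Targets

end Fermat.Agent.H15
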