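import Mathlib
import Fermat.Agent.H15Defs

/-!
# MAZUR project: the count theorem (statement) and final shapes
-/

set_option autoImplicit false

noncomputable section

namespace Fermat.Agent.H15

open ModularCurve AlgebraicCurve WeierstrassCurve
open scoped WeierstrassCurve.Affine

section Count

variable (N r : ℕ) (J : Type) [AddCommGroup J] [Module HeckeAlg J] [DistribMulAction GQ J]

/-- the Selmer-type set of cocycles with values in `G` (a subgroup of the `r^k`-torsion) -/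
def ZStar (k : ℕ) (G : AddSubgroup J) : Set (GQ → J) :=
  {ξ | (∀ σ, ξ σ ∈ G) ∧ (∀ σ τ : GQ, ξ (σ * τ) = ξ σ + σ • ξ τ) ∧ IsLocallyConstant ξ ∧
    (∀ q : ℕ, q.Prime → q ≠ r → q ≠ N → ∀ A : ValuationSubring Qb, A.LiesOverPrime q →
      ∀ σ ∈ A.inertiaSubgroupIn ℚ, ξ σ = 0) ∧
    (∀ A : ValuationSubring Qb, A.LiesOverPrime N → ∀ σ ∈ A.inertiaSubgroupIn ℚ,
      ∀ τ ∈ A.inertiaSubgroupIn ℚ, τ • ξ σ = ξ σ) ∧
    (∀ A : ValuationSubring Qb, A.LiesOverPrime r → ∃ R : J,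
      (∀ σ ∈ A.inertiaSubgroupIn ℚ, σ • ((r ^ k : ℕ) • R) = (r ^ k : ℕ) • R) ∧
      ∀ σ ∈ A.inertiaSubgroupIn ℚ, ξ σ = σ • R - R)}

/-- the count theorem -/
def CountThm : Prop :=
  ∀ (N r : ℕ), N.Prime → 5 ≤ N → r.Prime → r ≠ N →
  ∀ (J : Type) [AddCommGroup J] [Module HeckeAlg J] [DistribMulAction GQ J]
    [SMulCommClass GQ HeckeAlg J] (K : ValuationSubring Qb → AddSubgroup J),
    CoreInputs N r J K → ∀ k : ℕ,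
    ∀ (AN Ar : ValuationSubring Qb), AN.LiesOverPrime N → Ar.LiesOverPrime r →
    (ZStar N r J k (WSub N r J k)).Finite ∧
    (ZStar N r J k (WSub N r J k)).ncard ≤
      Nat.card {x : WSub N r J k // ∀ σ ∈ AN.inertiaSubgroupIn ℚ, σ • (x : J) = x} *
        Nat.card (WSub N r J k ⊓ K Ar : AddSubgroup J)

/-- (A1) simple constituents of `W_k` -/
def Constituents : Prop :=
  ∀ (N r : ℕ), N.Prime → 5 ≤ N → r.Prime → r ≠ N →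
  ∀ (J : Type) [AddCommGroup J] [Module HeckeAlg J] [DistribMulAction GQ J]
    [SMulCommClass GQ HeckeAlg J] (K : ValuationSubring Qb → AddSubgroup J),
    BasicInputs N J K → ∀ k : ℕ, ∀ G' G'' : AddSubgroup J, G' ≤ WSub N r J k → G'' < G' →
    (∀ σ : GQ, ∀ x ∈ G', σ • x ∈ G') → (∀ σ : GQ, ∀ x ∈ G'', σ • x ∈ G'') →
    (∀ H : AddSubgroup J, G'' ≤ H → H ≤ G' → (∀ σ : GQ, ∀ x ∈ H, σ • x ∈ H) →
      H = G'' ∨ H = G') →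
    Nat.card G' = r * Nat.card G'' ∧
    ((∀ σ : GQ, ∀ x ∈ G', σ • x - x ∈ G'') ∨
      (∀ σ : GQ, ∀ n : ℕ, (∀ ζ : Qb, ζ ^ r = 1 → σ ζ = ζ ^ n) → ∀ x ∈ G', σ • x - n • x ∈ G''))

/-- (A2) characters of order `r` unramified outside `N` -/
def CharCount : Prop :=
  ∀ (N r : ℕ), N.Prime → 5 ≤ N → r.Prime → r ≠ N →
  ∀ A : ValuationSubring Qb, A.LiesOverPrime N →
    {c : GQ → ZMod r | (∀ σ τ, c (σ * τ) = c σ + c τ) ∧ IsLocallyConstant c ∧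
      ∀ q : ℕ, q.Prime → q ≠ N → ∀ B : ValuationSubring Qb, B.LiesOverPrime q →
        ∀ σ ∈ B.inertiaSubgroupIn ℚ, c σ = 0}.Finite ∧
    {c : GQ → ZMod r | (∀ σ τ, c (σ * τ) = c σ + c τ) ∧ IsLocallyConstant c ∧
      ∀ q : ℕ, q.Prime → q ≠ N → ∀ B : ValuationSubring Qb, B.LiesOverPrime q →
        ∀ σ ∈ B.inertiaSubgroupIn ℚ, c σ = 0}.ncard ≤ r ∧
    ∀ c : GQ → ZMod r, (∀ σ τ, c (σ * τ) = c σ + c τ) → IsLocallyConstant c →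
      (∀ q : ℕ, q.Prime → q ≠ N → ∀ B : ValuationSubring Qb, B.LiesOverPrime q →
        ∀ σ ∈ B.inertiaSubgroupIn ℚ, c σ = 0) →
      (∀ σ ∈ A.inertiaSubgroupIn ℚ, c σ = 0) → c = 0

/-- the Kummer cocycle of `β` -/
def kumCoc (β : Qbˣ) (σ : GQ) : Qb := σ (β : Qb) / (β : Qb)

/-- (A3) Kummer cocycles -/
def KummerCount : Prop :=
  ∀ (N r : ℕ), N.Prime → 5 ≤ N → r.Prime → r ≠ N →
    ({ξ : GQ → Qb | ∃ (β : Qbˣ) (b : ℚ), (b : Qb) = (β : Qb) ^ r ∧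
        (∀ q : ℕ, q.Prime → q ≠ N → (r : ℤ) ∣ padicValRat q b) ∧ ξ = kumCoc β}.Finite ∧
      {ξ : GQ → Qb | ∃ (β : Qbˣ) (b : ℚ), (b : Qb) = (β : Qb) ^ r ∧
        (∀ q : ℕ, q.Prime → q ≠ N → (r : ℤ) ∣ padicValRat q b) ∧ ξ = kumCoc β}.ncard ≤ r ^ 2) ∧
    ({ξ : GQ → Qb | ∃ (β : Qbˣ) (b : ℚ), (b : Qb) = (β : Qb) ^ r ∧
        (∀ q : ℕ, q.Prime → (r : ℤ) ∣ padicValRat q b) ∧ ξ = kumCoc β}.ncard ≤ r) ∧
    (∀ ξ : GQ → Qb, (∀ σ, ξ σ ^ r = 1) → (∀ σ τ : GQ, ξ (σ * τ) = ξ σ * σ (ξ τ)) →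
      IsLocallyConstant ξ →
      ∃ (β : Qbˣ) (b : ℚ), (b : Qb) = (β : Qb) ^ r ∧ ξ = kumCoc β) ∧
    (∀ (β : Qbˣ) (b : ℚ), (b : Qb) = (β : Qb) ^ r → ∀ q : ℕ, q.Prime →
      ∀ A : ValuationSubring Qb, A.LiesOverPrime q →
      (q ≠ r → (∀ σ ∈ A.inertiaSubgroupIn ℚ, kumCoc β σ = 1) → (r : ℤ) ∣ padicValRat q b) ∧
      ((∃ m : ℤ, A.valuation (β : Qb) = A.valuation (q : Qb) ^ m) → (r : ℤ) ∣ padicValRat q b))

end Count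

section Final

attribute [local instance] heckeModuleBar

/-- the cuspidal class (final shape) -/
def T_cusp2 : Prop := ∀ (N : ℕ) [NeZero N], N.Prime → N ∉ ({2, 3, 5, 7, 13} : Finset ℕ) →
  ∃ (r : ℕ) (x₀ x₁ : Place Qb (modularFunctionFieldBar N)) (c : JZero N),
    r.Prime ∧ r ≠ N ∧ IsCuspZero N x₀ ∧ IsCuspInf N x₁ ∧ IsDiffClass N x₀ x₁ c ∧
      (N - 1) • c = 0 ∧ (∀ m : ℕ, m • c = 0 → r ∣ m) ∧ (∀ σ : GQ, σ • c = c) ∧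
      (∀ q : Nat.Primes, (q : ℕ) ≠ N → heckeGen q • c = (1 + (q : ℕ)) • c)

/-- the moduli point (final shape) -/
def T_modPlace : Prop := ∀ (N : ℕ) [NeZero N], N.Prime → N ∉ ({2, 3, 5, 7, 13} : Finset ℕ) →
  ∀ (W : WeierstrassCurve ℤ), W.Δ ≠ 0 →
  ∀ Q : ((W.map (Int.castRingHom ℚ))⁄Qb).Point, (∀ σ : GQ, σ • Q = Q) → addOrderOf Q = N →
  ∃ x : Place Qb (modularFunctionFieldBar N),
    (∀ σ : GQ, arithmeticGalois (modularFunctionFieldFull N) σ • x = x) ∧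
    ∀ x₀ x₁ : Place Qb (modularFunctionFieldBar N), IsCuspZero N x₀ → IsCuspInf N x₁ →
    ∀ ℓ : ℕ, ℓ.Prime → ℓ ≠ N → (ℓ : ℤ) ∣ W.Δ → ¬ (ℓ : ℤ) ∣ W.c₄ →
    ∀ A : ValuationSubring Qb, A.LiesOverPrime ℓ →
      (¬ W.InZeroComponentAt A Q → ∀ z : JZero N, IsDiffClass N x x₀ z → z ∈ KJ N A) ∧
      (W.InZeroComponentAt A Q → ∀ z : JZero N, IsDiffClass N x x₁ z → z ∈ KJ N A)

/-- all inputs for `J₀(N)` -/
def T_core : Prop := ∀ (N : ℕ) [NeZero N], N.Prime → 5 ≤ N → ∀ r : ℕ, r.Prime → r ≠ N →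
  CoreInputs N r (JZero N) (KJ N)

end Final

end Fermat.Agent.H15
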