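import Mathlib
import Fermat.Agent.H15Core

/-!
# Fitting idempotents for the Eisenstein part
-/

set_option autoImplicit false
set_option linter.unusedSectionVars false

noncomputable section

namespace Fermat.Agent.H15

open ModularCurve

section Fit

variable {R M : Type*} [CommRing R] [AddCommGroup M] [Module R M]

/-- Fitting's lemma for an ideal acting on a finite module. -/
theorem exists_fitting [Finite M] (P : Ideal R) :
    ∃ e : R, (∀ x : M, ∃ n : ℕ, ∀ t ∈ P ^ n, t • (e • x) = 0) ∧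
      ∀ x : M, (∃ n : ℕ, ∀ t ∈ P ^ n, t • x = 0) → e • x = x := by
  classical
  -- a uniform exponent on the torsion part
  have h1 : ∃ n : ℕ, ∀ x : M, (∃ m : ℕ, ∀ t ∈ P ^ m, t • x = 0) → ∀ t ∈ P ^ n, t • x = 0 := by
    have : Fintype M := Fintype.ofFinite M
    let f : M → ℕ := fun x => if h : ∃ m : ℕ, ∀ t ∈ P ^ m, t • x = 0 then h.choose else 0
    refine ⟨Finset.univ.sup f, fun x hx t ht => ?_⟩
    have hf : f x = hx.choose := dif_pos hx
    refine hx.choose_spec t (Ideal.pow_le_pow_right ?_ ht)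
    rw [← hf]
    exact Finset.le_sup (Finset.mem_univ x)
  obtain ⟨n₁, hn₁⟩ := h1
  -- the descending chain stabilises
  have h2 : ∃ n : ℕ, ∀ m ≥ n, P ^ m • (⊤ : Submodule R M) = P ^ n • (⊤ : Submodule R M) := by
    have hfin : Finite (Submodule R M) := Finite.of_injective (fun N => (N : Set M))
      SetLike.coe_injective
    obtain ⟨n, hn⟩ := WellFoundedGT.monotone_chain_condition
      (⟨fun n => OrderDual.toDual (P ^ n • (⊤ : Submodule R M)), fun a b hab =>
        Submodule.smul_mono_left (Ideal.pow_le_pow_right hab)⟩ : ℕ →o (Submodule R M)ᵒᵈ)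
    exact ⟨n, fun m hm => (congrArg OrderDual.ofDual (hn m hm)).symm⟩
  obtain ⟨n₂, hn₂⟩ := h2
  set m := max n₁ n₂ with hm
  have h3 : P • (P ^ m • (⊤ : Submodule R M)) = P ^ m • (⊤ : Submodule R M) := by
    rw [← mul_smul, ← pow_succ', hn₂ (m + 1) (by omega), hn₂ m (by omega)]
  have hnoeth : IsNoetherian R M := isNoetherian_of_finite R M
  obtain ⟨a, haP, ha⟩ := Submodule.exists_mem_and_smul_eq_self_of_fg_of_le_smul P
    (P ^ m • (⊤ : Submodule R M)) (IsNoetherian.noetherian _) h3.ge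
  · refine ⟨1 - a ^ m, fun x => ⟨m, fun t ht => ?_⟩, fun x hx => ?_⟩
    · rw [smul_comm, sub_smul, one_smul]
      have hy : t • x ∈ P ^ m • (⊤ : Submodule R M) := Submodule.smul_mem_smul ht trivial
      have h4 : ∀ i : ℕ, a ^ i • (t • x) = t • x := by
        intro i
        induction i with
        | zero => rw [pow_zero, one_smul]
        | succ i ih => rw [pow_succ, mul_smul, ha _ hy, ih]
      rw [h4, sub_self]
    · rw [sub_smul, one_smul, hn₁ x hx (a ^ m)
        (Ideal.pow_le_pow_right (le_max_left _ _) (Ideal.pow_mem_pow haP m)), sub_zero]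

end Fit

section Eps

variable {N r : ℕ} {J : Type} [AddCommGroup J] [Module HeckeAlg J] [DistribMulAction GQ J]

theorem mem_WSub {k : ℕ} {x : J} : x ∈ WSub N r J k ↔
    (r ^ k : ℕ) • x = 0 ∧ ∃ n : ℕ, ∀ t ∈ (eisP N r) ^ n, t • x = 0 := Iff.rfl

theorem hecke_mem_WSub {k : ℕ} (t : HeckeAlg) {x : J} (hx : x ∈ WSub N r J k) :
    t • x ∈ WSub N r J k := by
  obtain ⟨h1, n, h2⟩ := hx
  refine ⟨?_, n, fun s hs => ?_⟩
  · rw [← Nat.cast_smul_eq_nsmul HeckeAlg, smul_comm, Nat.cast_smul_eq_nsmul HeckeAlg, h1,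
      smul_zero]
  · rw [smul_comm, h2 s hs, smul_zero]

theorem galois_mem_WSub [SMulCommClass GQ HeckeAlg J] {k : ℕ} (σ : GQ) {x : J}
    (hx : x ∈ WSub N r J k) : σ • x ∈ WSub N r J k := by
  obtain ⟨h1, n, h2⟩ := hx
  refine ⟨?_, n, fun s hs => ?_⟩
  · rw [← smul_comm, h1, smul_zero]
  · rw [← smul_comm, h2 s hs, smul_zero]

/-- the idempotent projecting `J[r^k]` to `W_k` -/
theorem exists_eps (hr : r ≠ 0) (hfin : ∀ m : ℕ, m ≠ 0 → {x : J | m • x = 0}.Finite) (k : ℕ) :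
    ∃ ε : HeckeAlg, (∀ x : J, (r ^ k : ℕ) • x = 0 → ε • x ∈ WSub N r J k) ∧
      ∀ x ∈ WSub N r J k, ε • x = x := by
  let M : Submodule HeckeAlg J :=
    { carrier := {x | (r ^ k : ℕ) • x = 0}
      add_mem' := fun {a b} ha hb => by
        show (r ^ k : ℕ) • (a + b) = 0
        rw [smul_add, ha, hb, add_zero]
      zero_mem' := smul_zero _
      smul_mem' := fun t x hx => by
        show (r ^ k : ℕ) • (t • x) = 0
        rw [← Nat.cast_smul_eq_nsmul HeckeAlg, smul_comm, Nat.cast_smul_eq_nsmul HeckeAlg]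
        rw [show (r ^ k : ℕ) • x = 0 from hx, smul_zero] }
  have hM : Finite M := (hfin (r ^ k) (pow_ne_zero _ hr)).to_subtype
  obtain ⟨ε, h1, h2⟩ := exists_fitting (M := M) (eisP N r)
  refine ⟨ε, fun x hx => ⟨?_, ?_⟩, fun x hx => ?_⟩
  · exact (ε • (⟨x, hx⟩ : M)).2
  · obtain ⟨n, hn⟩ := h1 ⟨x, hx⟩
    exact ⟨n, fun t ht => congrArg Subtype.val (hn t ht)⟩
  · obtain ⟨n, hn⟩ := hx.2
    exact congrArg Subtype.val (h2 ⟨x, hx.1⟩ ⟨n, fun t ht => Subtype.ext (hn t ht)⟩)

theorem WSub_finite (hr : r ≠ 0) (hfin : ∀ m : ℕ, m ≠ 0 → {x : J | m • x = 0}.Finite) (k : ℕ) :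
    (WSub N r J k : Set J).Finite :=
  (hfin (r ^ k) (pow_ne_zero _ hr)).subset fun _ hx => hx.1

end Eps

end Fermat.Agent.H15
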