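import Fermat.Agent.H76G1e

/-!
# MAZUR G1: the local lemmas (E1), (E2), (E3) for two-dimensional Eisenstein representations
(helper76)
-/

set_option autoImplicit false

noncomputable section

open IsLocalRing ExtCitation Module
open scoped Pointwise

namespace Fermat.Agent.H76G

local instance isAlgebraicQbar_g1 : Algebra.IsAlgebraic ℚ (AlgebraicClosure ℚ) :=
  AlgebraicClosure.isAlgebraic ℚ
local instance isAlgClosureQbar_g1 : IsAlgClosure ℚ (AlgebraicClosure ℚ) :=
  ⟨inferInstance, inferInstance⟩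
local instance normalQbar_g1 : Normal ℚ (AlgebraicClosure ℚ) :=
  IsAlgClosure.normal ℚ (AlgebraicClosure ℚ)
local instance galQbar_g1 : IsGalois ℚ (AlgebraicClosure ℚ) := ⟨⟩

/-- A representation of the absolute Galois group on an `O`-module `Λ`, unramified outside `N r`,
with Eichler–Shimura relations for a system `a` which is Eisenstein modulo the maximal ideal but
not Eisenstein, unipotent at `N`. -/
structure EisRep (N r : ℕ) (O : Type) [CommRing O] [IsLocalRing O] (a : ℕ → O)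
    (Λ : Type) [AddCommGroup Λ] [Module O Λ] (ρ : GQ →* Module.End O Λ) : Prop where
  cont : ∀ n : ℕ, ∃ L : IntermediateField ℚ Qb, FiniteDimensional ℚ L ∧
    ∀ σ : GQ, (∀ x ∈ L, σ x = x) → ∀ v : Λ, ρ σ v - v ∈ (maximalIdeal O ^ n) • (⊤ : Submodule O Λ)
  a_mem : ∀ q : ℕ, q.Prime → q ≠ N → q ≠ r → a q - (1 + (q : O)) ∈ maximalIdeal O
  frob : ∀ q : ℕ, q.Prime → q ≠ N → q ≠ r → ∀ B : ValuationSubring Qb, B.LiesOverPrime q →
    ∀ φ : GQ, B.IsFrobeniusAt φ q → ∀ v : Λ, ρ φ (ρ φ v) - a q • ρ φ v + (q : O) • v = 0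
  unr : ∀ q : ℕ, q.Prime → q ≠ N → q ≠ r → ∀ B : ValuationSubring Qb, B.LiesOverPrime q →
    ∀ σ ∈ B.inertiaSubgroupIn ℚ, ∀ v : Λ, ρ σ v = v
  ss : ∀ B : ValuationSubring Qb, B.LiesOverPrime N → ∀ σ ∈ B.inertiaSubgroupIn ℚ,
    ∀ v : Λ, ρ σ (ρ σ v - v) = ρ σ v - v
  nonEis : ∃ q : ℕ, q.Prime ∧ q ≠ N ∧ q ≠ r ∧ a q ≠ 1 + (q : O)

/-- The multiplicative part at a place `A` above `r`. -/
structure MultAt (r : ℕ) {O : Type} [CommRing O] {Λ : Type} [AddCommGroup Λ] [Module O Λ]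
    (ρ : GQ →* Module.End O Λ) (A : ValuationSubring Qb) (Λm : Submodule O Λ) : Prop where
  liesOver : A.LiesOverPrime r
  stable : ∀ σ ∈ A.decompositionSubgroup ℚ, ∀ v ∈ Λm, ρ σ v ∈ Λm
  quot : ∀ σ ∈ A.inertiaSubgroupIn ℚ, ∀ v : Λ, ρ σ v - v ∈ Λm
  sat : ∀ (c : O) (v : Λ), c ≠ 0 → c • v ∈ Λm → v ∈ Λm

section basis

variable {O : Type} [CommRing O] [IsDomain O] {Λ : Type} [AddCommGroup Λ] [Module O Λ]

theorem basis_expand {R : Type*} [CommRing R] {V : Type*} [AddCommGroup V] [Module R V]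
    (e : Basis (Fin 2) R V) (v : V) : v = e.repr v 0 • e 0 + e.repr v 1 • e 1 := by
  conv_lhs => rw [← e.sum_repr v, Fin.sum_univ_two]

/-- change of basis `b₀ = e i + t e j`, `b₁ = e j` -/
theorem exists_basis_of (e : Basis (Fin 2) O Λ) (t : O) (b₀ : Λ) (i j : Fin 2) (hij : i ≠ j)
    (hb : b₀ = e i + t • e j) : ∃ b : Basis (Fin 2) O Λ, b 0 = b₀ ∧ b 1 = e j := by
  have hli : LinearIndependent O ![b₀, e j] := by
    rw [LinearIndependent.pair_iff]
    intro s u hsu
    rw [hb] at hsu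
    have h1 : s • e i + (s * t + u) • e j = 0 := by
      rw [← hsu]; module
    have h2 := e.linearIndependent
    have h3 : LinearIndependent O ![e i, e j] := by
      have h4 := h2.comp ![i, j] (by
        intro x y hxy
        fin_cases x <;> fin_cases y
        · rfl
        · exact absurd hxy hij
        · exact absurd hxy.symm hij
        · rfl)
      convert h4 using 1
      funext x
      fin_cases x <;> rfl
    rw [LinearIndependent.pair_iff] at h3
    obtain ⟨h4, h5⟩ := h3 _ _ h1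
    rw [h4, zero_mul, zero_add] at h5
    exact ⟨h4, h5⟩
  have hsp : ⊤ ≤ Submodule.span O (Set.range ![b₀, e j]) := by
    have h0 : b₀ ∈ Submodule.span O (Set.range ![b₀, e j]) :=
      Submodule.subset_span ⟨0, rfl⟩
    have h1 : e j ∈ Submodule.span O (Set.range ![b₀, e j]) :=
      Submodule.subset_span ⟨1, rfl⟩
    have h2 : e i ∈ Submodule.span O (Set.range ![b₀, e j]) := by
      have h3 : e i = b₀ - t • e j := by rw [hb]; abel
      rw [h3]
      exact Submodule.sub_mem _ h0 (Submodule.smul_mem _ _ h1)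
    rw [← e.span_eq, Submodule.span_le]
    rintro _ ⟨x, rfl⟩
    have h3 : x = i ∨ x = j := by
      fin_cases x <;> fin_cases i <;> fin_cases j <;> simp_all
    rcases h3 with rfl | rfl
    · exact h2
    · exact h1
  exact ⟨Basis.mk hli hsp, by rw [Basis.mk_apply]; rfl, by rw [Basis.mk_apply]; rfl⟩

theorem exists_adapted_basis [ValuationRing O] (e : Basis (Fin 2) O Λ) (Λm : Submodule O Λ)
    (hsat : ∀ (c : O) (v : Λ), c ≠ 0 → c • v ∈ Λm → v ∈ Λm) (hbot : Λm ≠ ⊥) (htop : Λm ≠ ⊤) :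
    ∃ b : Basis (Fin 2) O Λ, b 0 ∈ Λm ∧ ∀ w ∈ Λm, b.repr w 1 = 0 := by
  obtain ⟨v, hv, hv0⟩ := Submodule.exists_mem_ne_zero_of_ne_bot hbot
  have hexp := basis_expand e v
  obtain ⟨b, hb0⟩ : ∃ b : Basis (Fin 2) O Λ, b 0 ∈ Λm := by
    rcases ValuationRing.dvd_total (e.repr v 0) (e.repr v 1) with ⟨t, ht⟩ | ⟨t, ht⟩
    · have hne : e.repr v 0 ≠ 0 := by
        intro h
        rw [h, zero_mul] at ht
        rw [h, ht, zero_smul, zero_smul, add_zero] at hexp
        exact hv0 hexp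
      obtain ⟨b, hb, -⟩ := exists_basis_of e t (e 0 + t • e 1) 0 1 (by decide) rfl
      refine ⟨b, hsat (e.repr v 0) _ hne ?_⟩
      rw [hb, smul_add, smul_smul, ← ht, ← hexp]
      exact hv
    · have hne : e.repr v 1 ≠ 0 := by
        intro h
        rw [h, zero_mul] at ht
        rw [h, ht, zero_smul, zero_smul, add_zero] at hexp
        exact hv0 hexp
      obtain ⟨b, hb, -⟩ := exists_basis_of e t (e 1 + t • e 0) 1 0 (by decide) rfl
      refine ⟨b, hsat (e.repr v 1) _ hne ?_⟩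
      rw [hb, smul_add, smul_smul, ← ht, add_comm, ← hexp]
      exact hv
  refine ⟨b, hb0, fun w hw => ?_⟩
  by_contra hne
  apply htop
  have h1 : b 1 ∈ Λm := by
    refine hsat _ _ hne ?_
    have h2 : b.repr w 1 • b 1 = w - b.repr w 0 • b 0 := by
      conv_rhs => rw [basis_expand b w]
      simp
    rw [h2]
    exact Submodule.sub_mem _ hw (Submodule.smul_mem _ _ hb0)
  rw [eq_top_iff, ← b.span_eq, Submodule.span_le]
  rintro _ ⟨x, rfl⟩
  fin_cases x
  · exact hb0
  · exact h1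

end basis

section

variable {N r : ℕ} [Fact r.Prime] {O : Type} [CommRing O] [IsDomain O]
  [IsDiscreteValuationRing O] {a : ℕ → O} {Λ : Type} [AddCommGroup Λ] [Module O Λ]
  {ρ : GQ →* Module.End O Λ}

omit [IsDomain O] [IsDiscreteValuationRing O] in
theorem toMat_entry {R : Type} [CommRing R] {V : Type} [AddCommGroup V] [Module R V]
    (ρ : GQ →* Module.End R V) (b : Basis (Fin 2) R V) (σ : GQ) (i j : Fin 2) :
    H53.toMat ρ b σ i j = b.repr (ρ σ (b j)) i := by
  rw [H53.toMat_apply, LinearMap.toMatrix_apply]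

theorem EisRep.toMat (H : EisRep N r O a Λ ρ) (b : Basis (Fin 2) O Λ) :
    EisMat N r O a (H53.toMat ρ b) where
  cont := by
    intro n
    obtain ⟨L, hL, h⟩ := H.cont n
    refine ⟨L, hL, fun σ hσ i j => ?_⟩
    have h2 : ∀ w ∈ (maximalIdeal O ^ n) • (⊤ : Submodule O Λ), b.repr w i ∈ maximalIdeal O ^ n := by
      intro w hw
      refine Submodule.smul_induction_on (p := fun w => b.repr w i ∈ maximalIdeal O ^ n) hw ?_ ?_
      · intro c hc x _
        rw [map_smul, Finsupp.smul_apply, smul_eq_mul]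
        exact Ideal.mul_mem_right _ _ hc
      · intro x y hx hy
        rw [map_add, Finsupp.add_apply]
        exact Ideal.add_mem _ hx hy
    have h3 := h2 _ (h σ hσ (b j))
    rw [map_sub, Finsupp.sub_apply] at h3
    rw [toMat_entry]
    convert h3 using 2
    rw [Basis.repr_self, Matrix.one_apply, Finsupp.single_apply]
    simp only [eq_comm]
  a_mem := H.a_mem
  frob q hq hqN hqr B hB φ hφ := by
    have h := H.frob q hq hqN hqr B hB φ hφ
    have h1 : ρ φ * ρ φ - a q • ρ φ + (q : O) • (1 : Module.End O Λ) = 0 := LinearMap.ext h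
    have h2 := congrArg (LinearMap.toMatrixAlgEquiv b) h1
    rw [map_add, map_sub, map_mul, map_smul, map_smul, map_one, map_zero] at h2
    exact h2
  unr q hq hqN hqr B hB σ hσ := by
    have h1 : ρ σ = 1 := LinearMap.ext (H.unr q hq hqN hqr B hB σ hσ)
    change LinearMap.toMatrixAlgEquiv b (ρ σ) = 1
    rw [h1, map_one]
  ss B hB σ hσ := by
    have h1 : (ρ σ - 1) * (ρ σ - 1) = 0 := by
      ext v
      have h2 := H.ss B hB σ hσ v
      change ρ σ (ρ σ v - v) - (ρ σ v - v) = 0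
      rw [h2, sub_self]
    have h2 := congrArg (LinearMap.toMatrixAlgEquiv b) h1
    rw [map_mul, map_sub, map_one, map_zero] at h2
    exact h2
  nonEis := H.nonEis

variable [IsAdicComplete (maximalIdeal O) O] (hr : (r : O) ∈ maximalIdeal O)

include hr in
/-- existence of nonscalar elements -/
theorem EisRep.exists_not_isScal (H : EisRep N r O a Λ ρ) (hN : N.Prime)
    {A : ValuationSubring Qb} {Λm : Submodule O Λ} (hm : MultAt r ρ A Λm) (htop : Λm ≠ ⊤)
    (b : Basis (Fin 2) O Λ) : ∃ τ, ¬ IsScal (H53.toMat ρ b τ) := by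
  refine (H.toMat b).exists_not_isScal hm.liesOver hN fun σ hσ hsc => ?_
  obtain ⟨v, hv⟩ : ∃ v, v ∉ Λm := by
    by_contra h
    push Not at h
    exact htop (eq_top_iff.mpr fun v _ => h v)
  by_contra hne
  apply hv
  refine hm.sat (H53.toMat ρ b σ 0 0 - 1) v (sub_ne_zero.mpr hne) ?_
  have h1 : ρ σ = (H53.toMat ρ b σ 0 0) • (1 : Module.End O Λ) := by
    apply (LinearMap.toMatrixAlgEquiv b).injective
    rw [map_smul, map_one]
    ext i j
    change H53.toMat ρ b σ i j = _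
    fin_cases i <;> fin_cases j
    · simp
    · simpa using hsc.1
    · simpa using hsc.2.1
    · simpa using hsc.2.2.symm
  have h2 := hm.quot σ hσ v
  have h3 : ρ σ v = (H53.toMat ρ b σ 0 0) • v := by
    conv_lhs => rw [h1]
    rfl
  rw [h3] at h2
  rw [sub_smul, one_smul]
  exact h2

/-- the determinant is the cyclotomic character -/
theorem EisRep.det_eq (H : EisRep N r O a Λ ρ) (hN : N.Prime)
    {A : ValuationSubring Qb} {Λm : Submodule O Λ} (hm : MultAt r ρ A Λm) (htop : Λm ≠ ⊤)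
    (b : Basis (Fin 2) O Λ) (σ : GQ) : LinearMap.det (ρ σ) = H35.cyc O hr σ := by
  rw [← (H.toMat b).det_eq hr (H.exists_not_isScal hr hN hm htop b) σ]
  exact (LinearMap.det_toMatrix b (ρ σ)).symm

include hr in
/-- **(E1)** -/
theorem EisRep.E1 [CharZero O] (H : EisRep N r O a Λ ρ) (hN : N.Prime)
    {A : ValuationSubring Qb} {Λm : Submodule O Λ} (hm : MultAt r ρ A Λm)
    (b : Basis (Fin 2) O Λ) : Λm ≠ ⊥ := by
  rintro rfl
  have htop : (⊥ : Submodule O Λ) ≠ ⊤ := by
    intro h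
    have h1 : b 0 ∈ (⊥ : Submodule O Λ) := by rw [h]; trivial
    exact b.ne_zero 0 ((Submodule.mem_bot O).mp h1)
  obtain ⟨σ, hσ, hne⟩ := exists_cyc_ne_one O hr hm.liesOver
  apply hne
  rw [← H.det_eq hr hN hm htop b σ]
  have h1 : ρ σ = LinearMap.id := by
    ext v
    have := hm.quot σ hσ v
    rw [Submodule.mem_bot, sub_eq_zero] at this
    exact this
  rw [h1, LinearMap.det_id]

/-- **(E2)** -/
theorem EisRep.E2 (H : EisRep N r O a Λ ρ) (hN : N.Prime)
    {A : ValuationSubring Qb} {Λm : Submodule O Λ} (hm : MultAt r ρ A Λm) (htop : Λm ≠ ⊤)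
    (e : Basis (Fin 2) O Λ) {σ : GQ} (hσ : σ ∈ A.inertiaSubgroupIn ℚ) {v : Λ} (hv : v ∈ Λm) :
    ρ σ v = H35.cyc O hr σ • v := by
  by_cases hv0 : v = 0
  · rw [hv0, map_zero, smul_zero]
  have hbot : Λm ≠ ⊥ := by
    rintro rfl
    exact hv0 ((Submodule.mem_bot O).mp hv)
  obtain ⟨b, hb0, hb1⟩ := exists_adapted_basis e Λm hm.sat hbot htop
  have hdet := (H.toMat b).det_eq hr (H.exists_not_isScal hr hN hm htop b) σ
  have h10 : H53.toMat ρ b σ 1 0 = 0 := by
    rw [toMat_entry]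
    exact hb1 _ (hm.stable σ (mem_decomp_of_inertia hσ) _ hb0)
  have h11 : H53.toMat ρ b σ 1 1 = 1 := by
    rw [toMat_entry]
    have h1 := hb1 _ (hm.quot σ hσ (b 1))
    rw [map_sub, Finsupp.sub_apply, Basis.repr_self, Finsupp.single_eq_same, sub_eq_zero] at h1
    exact h1
  rw [Matrix.det_fin_two, h10, h11, mul_one, mul_zero, sub_zero] at hdet
  have hσb : ρ σ (b 0) = H35.cyc O hr σ • b 0 := by
    rw [basis_expand b (ρ σ (b 0)), ← toMat_entry, ← toMat_entry, h10, hdet, zero_smul, add_zero]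
  rw [basis_expand b v, hb1 v hv, zero_smul, add_zero, map_smul, hσb, smul_comm]

include hr in
/-- **(E3)** -/
theorem EisRep.E3 [CharZero O] (H : EisRep N r O a Λ ρ) (hN : N.Prime)
    {A : ValuationSubring Qb} {Λm : Submodule O Λ} (hm : MultAt r ρ A Λm) (htop : Λm ≠ ⊤)
    (e : Basis (Fin 2) O Λ) {B : ValuationSubring Qb} (hB : B.LiesOverPrime N) :
    ∃ σ ∈ B.inertiaSubgroupIn ℚ, ∃ v : Λ, ρ σ v ≠ v := by
  by_contra hcon
  push Not at hcon
  have hbot : Λm ≠ ⊥ := H.E1 hr hN hm e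
  obtain ⟨b, hb0, hb1⟩ := exists_adapted_basis e Λm hm.sat hbot htop
  obtain ⟨ϖ, hϖ⟩ := IsDiscreteValuationRing.exists_irreducible O
  refine (H.toMat b).false_of_unramified hr hϖ.ne_zero hϖ.maximalIdeal_eq
    ((H.toMat b).det_eq hr (H.exists_not_isScal hr hN hm htop b)) ?_ hm.liesOver ?_ ?_
  · intro B' hB' _ σ hσ
    obtain ⟨τ, rfl⟩ := H54.exists_smul_eq hN hB hB'
    have h1 : τ⁻¹ * σ * τ ∈ B.inertiaSubgroupIn ℚ := by
      have h2 := H63.conj_mem_inertiaSubgroupIn τ⁻¹ σ hσ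
      rw [inv_inv, inv_smul_smul] at h2
      exact h2
    have h3 : ρ (τ⁻¹ * σ * τ) = 1 := LinearMap.ext (hcon _ h1)
    have h4 : ρ σ = 1 := by
      have h5 : σ = τ * (τ⁻¹ * σ * τ) * τ⁻¹ := by group
      rw [h5, map_mul, map_mul, h3, mul_one, ← map_mul, mul_inv_cancel, map_one]
    change LinearMap.toMatrixAlgEquiv b (ρ σ) = 1
    rw [h4, map_one]
  · intro σ hσ
    rw [toMat_entry]
    exact hb1 _ (hm.stable σ hσ _ hb0)
  · intro σ hσ
    rw [toMat_entry]
    have h1 := hb1 _ (hm.quot σ hσ (b 1))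
    rw [map_sub, Finsupp.sub_apply, Basis.repr_self, Finsupp.single_eq_same, sub_eq_zero] at h1
    exact h1

end

end Fermat.Agent.H76G
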