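import Mathlib

/-!
# MAZUR G2, part 1: linear algebra over a field (simultaneous eigenspaces, dimensions)
(helper76)
-/

set_option autoImplicit false

open Module Polynomial

namespace Fermat.Agent.H76M

section Field

variable {K V : Type*} [Field K] [AddCommGroup V] [Module K V]

theorem ker_prod_le (f : Module.End K V) (s : Finset K) :
    LinearMap.ker (aeval f (∏ μ ∈ s, (X - C μ))) ≤ ⨆ μ, f.eigenspace μ := by
  classical
  induction s using Finset.induction with
  | empty =>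
    rw [Finset.prod_empty, map_one]
    intro x hx
    rw [LinearMap.mem_ker, Module.End.one_apply] at hx
    rw [hx]
    exact zero_mem _
  | insert a s ha ih =>
    have hco : IsCoprime (X - C a) (∏ μ ∈ s, (X - C μ)) :=
      IsCoprime.prod_right fun i hi =>
        isCoprime_X_sub_C_of_isUnit_sub (sub_ne_zero.mpr (by rintro rfl; exact ha hi)).isUnit
    rw [Finset.prod_insert ha, ← sup_ker_aeval_eq_ker_aeval_mul_of_coprime f hco]
    refine sup_le ?_ ih
    refine le_trans ?_ (le_iSup _ a)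
    intro x hx
    rw [LinearMap.mem_ker, map_sub, aeval_X, aeval_C, LinearMap.sub_apply,
      Module.algebraMap_end_apply, sub_eq_zero] at hx
    exact Module.End.mem_eigenspace_iff.mpr hx

theorem iSup_eigenspace_eq_top (f : Module.End K V) (s : Finset K)
    (h : aeval f (∏ μ ∈ s, (X - C μ)) = 0) : ⨆ μ, f.eigenspace μ = ⊤ := by
  rw [eq_top_iff]
  refine le_trans ?_ (ker_prod_le f s)
  rw [h, LinearMap.ker_zero]

theorem isSemisimple_of_prod (f : Module.End K V) (s : Finset K)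
    (h : aeval f (∏ μ ∈ s, (X - C μ)) = 0) : f.IsSemisimple := by
  refine Module.End.isSemisimple_of_squarefree_aeval_eq_zero (p := ∏ μ ∈ s, (X - C μ)) ?_ h
  exact ((separable_prod_X_sub_C_iff' (f := fun μ : K => μ) (s := s)).mpr
    fun x _ y _ hxy => hxy).squarefree

/-- simultaneous eigenspaces -/
def W {ι : Type*} (f : ι → Module.End K V) (χ : ι → K) : Submodule K V :=
  ⨅ i, (f i).eigenspace (χ i)

theorem mem_W {ι : Type*} {f : ι → Module.End K V} {χ : ι → K} {x : V} :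
    x ∈ W f χ ↔ ∀ i, f i x = χ i • x := by
  simp only [W, Submodule.mem_iInf, Module.End.mem_eigenspace_iff]

variable [FiniteDimensional K V]

theorem family {ι : Type*} (f : ι → Module.End K V) (hc : ∀ i j, Commute (f i) (f j))
    (s : ι → Finset K) (h : ∀ i, aeval (f i) (∏ μ ∈ s i, (X - C μ)) = 0) :
    iSupIndep (W f) ∧ ⨆ χ, W f χ = ⊤ := by
  have hW : W f = fun χ : ι → K => ⨅ i, (f i).maxGenEigenspace (χ i) := by
    funext χ
    refine iInf_congr fun i => ?_
    rw [Module.End.IsFinitelySemisimple.maxGenEigenspace_eq_eigenspace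
      (isSemisimple_of_prod (f i) (s i) (h i)).isFinitelySemisimple]
  have hm : ∀ (i j : ι) (φ : K), Set.MapsTo (f i) ((f j).maxGenEigenspace φ)
      ((f j).maxGenEigenspace φ) := fun i j φ =>
    Module.End.mapsTo_maxGenEigenspace_of_comm (hc j i) φ
  rw [hW]
  refine ⟨Module.End.independent_iInf_maxGenEigenspace_of_forall_mapsTo f hm, ?_⟩
  refine Module.End.iSup_iInf_maxGenEigenspace_eq_top_of_forall_mapsTo f hm fun i => ?_
  have h1 := iSup_eigenspace_eq_top (f i) (s i) (h i)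
  have h2 : (fun μ => (f i).maxGenEigenspace μ) = fun μ => (f i).eigenspace μ := by
    funext μ
    rw [Module.End.IsFinitelySemisimple.maxGenEigenspace_eq_eigenspace
      (isSemisimple_of_prod (f i) (s i) (h i)).isFinitelySemisimple]
  rw [h2]
  exact h1

theorem finrank_biSup {κ : Type*} (U : κ → Submodule K V) (h : iSupIndep U) (s : Finset κ) :
    finrank K ↥(⨆ χ ∈ s, U χ) = ∑ χ ∈ s, finrank K (U χ) := by
  classical
  induction s using Finset.induction with
  | empty => simp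
  | insert a s ha ih =>
    rw [Finset.sum_insert ha, ← ih, Finset.iSup_insert]
    have h1 := Submodule.finrank_sup_add_finrank_inf_eq (U a) (⨆ χ ∈ s, U χ)
    have h2 : U a ⊓ (⨆ χ ∈ s, U χ) = ⊥ := by
      refine (disjoint_iff.mp ?_)
      exact h.disjoint_biSup (by simpa using ha)
    rw [h2, finrank_bot, add_zero] at h1
    exact h1

omit [FiniteDimensional K V] in
/-- If `U` is the fixed space of a family of endomorphisms commuting with the decomposition,
then `U` is the sum of its intersections with the pieces. -/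
theorem fixed_le {κ ι : Type*} (U : κ → Submodule K V) (h : iSupIndep U) (s : Finset κ)
    (htop : ⨆ χ ∈ s, U χ = ⊤) (g : ι → Module.End K V)
    (hg : ∀ i χ, ∀ x ∈ U χ, g i x ∈ U χ) (F : Submodule K V)
    (hF : ∀ x, x ∈ F ↔ ∀ i, g i x = x) : F ≤ ⨆ χ ∈ s, F ⊓ U χ := by
  classical
  intro x hx
  have h1 : x ∈ ⨆ χ ∈ s, U χ := by rw [htop]; trivial
  rw [Submodule.mem_iSup_finset_iff_exists_sum] at h1
  obtain ⟨v, hv⟩ := h1
  have h2 : ∀ i, ∀ χ ∈ s, g i (v χ) = v χ := by
    intro i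
    have h3 := (iSupIndep_iff_finsetSum_eq_zero_imp_eq_zero U).mp h s
      (fun χ => g i (v χ : V) - v χ) (fun χ _ => (U χ).sub_mem (hg i χ _ (v χ).2) (v χ).2)
      (by
        rw [Finset.sum_sub_distrib, ← map_sum, hv, (hF x).mp hx i, sub_self])
    exact fun χ hχ => sub_eq_zero.mp (h3 χ hχ)
  rw [← hv]
  refine Submodule.sum_mem _ fun χ hχ => ?_
  refine Submodule.mem_iSup_of_mem χ (Submodule.mem_iSup_of_mem hχ ?_)
  exact ⟨(hF _).mpr fun i => h2 i χ hχ, (v χ).2⟩

theorem exists_finset {κ : Type*} (U : κ → Submodule K V) (h : iSupIndep U)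
    (htop : ⨆ χ, U χ = ⊤) : ∃ s : Finset κ, (∀ χ, χ ∈ s ↔ U χ ≠ ⊥) ∧ ⨆ χ ∈ s, U χ = ⊤ := by
  classical
  have hfin : {χ | U χ ≠ ⊥}.Finite := WellFoundedGT.finite_ne_bot_of_iSupIndep h
  refine ⟨hfin.toFinset, fun χ => by simp, ?_⟩
  rw [eq_top_iff, ← htop]
  refine iSup_le fun χ => ?_
  by_cases hχ : U χ = ⊥
  · rw [hχ]; exact bot_le
  · exact le_iSup₂_of_le χ (by simpa using hχ) le_rfl

end Field

/-- the numerical argument -/
theorem numerics {κ : Type*} (s : Finset κ) (d m : κ → ℕ) (t : ℕ) (hd : ∑ χ ∈ s, d χ = 2 * t)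
    (hm : ∑ χ ∈ s, m χ ≤ t) (hd2 : ∀ χ ∈ s, d χ ≤ 2) (hm1 : ∀ χ ∈ s, 1 ≤ m χ) :
    (∀ χ ∈ s, d χ = 2) ∧ (∀ χ ∈ s, m χ = 1) ∧ s.card = t := by
  have h1 : s.card ≤ ∑ χ ∈ s, m χ := by
    rw [Finset.card_eq_sum_ones]
    exact Finset.sum_le_sum hm1
  have h2 : ∑ χ ∈ s, d χ ≤ ∑ _χ ∈ s, 2 := Finset.sum_le_sum hd2
  have h3 : ∑ _χ ∈ s, 2 = 2 * s.card := by rw [Finset.sum_const, smul_eq_mul, mul_comm]
  have h4 : s.card = t := by omega
  refine ⟨?_, ?_, h4⟩
  · have h5 : ∑ χ ∈ s, d χ = ∑ _χ ∈ s, 2 := by omega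
    exact (Finset.sum_eq_sum_iff_of_le hd2).mp h5
  · have h6 : ∑ _χ ∈ s, 1 = ∑ χ ∈ s, m χ := by
      rw [← Finset.card_eq_sum_ones]; omega
    exact fun χ hχ => ((Finset.sum_eq_sum_iff_of_le hm1).mp h6 χ hχ).symm

end Fermat.Agent.H76M
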