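import Mathlib
import Fermat.Agent.H76M1
import Fermat.Agent.H76G1

/-!
# MAZUR G2, part 2: lattices in `L ⊗ T`
(helper76)
-/

set_option autoImplicit false

noncomputable section

open IsLocalRing Module

namespace Fermat.Agent.H76M

open Fermat.Agent.H76G

/-- The structure of the `r`-adic Tate module of the Eisenstein part of `J₀(N)`. -/
structure TateSys (N r : ℕ) [Fact r.Prime] (T : Type) [AddCommGroup T] [Module ℤ_[r] T] where
  τ : ℕ → Module.End ℤ_[r] T
  ρ : GQ →* Module.End ℤ_[r] T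
  comm_τ : ∀ q q', Commute (τ q) (τ q')
  comm_ρ : ∀ q σ, Commute (τ q) (ρ σ)
  cont : ∀ n : ℕ, ∃ L : IntermediateField ℚ Qb, FiniteDimensional ℚ L ∧
    ∀ σ : GQ, (∀ x ∈ L, σ x = x) → ∀ v : T, ∃ w, (ρ σ - 1) v = (r : ℤ_[r]) ^ n • w
  nilp : ∀ q : ℕ, q.Prime → q ≠ N → ∃ k : ℕ, ∀ v : T, ∃ w,
    ((τ q - (1 + (q : ℤ_[r])) • (1 : Module.End ℤ_[r] T)) ^ k) v = (r : ℤ_[r]) • w
  frob : ∀ q : ℕ, q.Prime → q ≠ N → q ≠ r → ∀ B : ValuationSubring Qb, B.LiesOverPrime q →
    ∀ φ : GQ, B.IsFrobeniusAt φ q →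
      ρ φ * ρ φ - τ q * ρ φ + (q : ℤ_[r]) • (1 : Module.End ℤ_[r] T) = 0
  unr : ∀ q : ℕ, q.Prime → q ≠ N → q ≠ r → ∀ B : ValuationSubring Qb, B.LiesOverPrime q →
    ∀ σ ∈ B.inertiaSubgroupIn ℚ, ρ σ = 1
  ss : ∀ B : ValuationSubring Qb, B.LiesOverPrime N → ∀ σ ∈ B.inertiaSubgroupIn ℚ,
    ρ σ * (ρ σ - 1) = ρ σ - 1
  nonEis : ∀ q : ℕ, q.Prime → q ≠ N → ∃ (t : Module.End ℤ_[r] T) (m : ℕ), m ≠ 0 ∧
    t * ((1 + (q : ℤ_[r])) • (1 : Module.End ℤ_[r] T) - τ q) =
      (m : ℤ_[r]) • (1 : Module.End ℤ_[r] T)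

/-- `V = L ⊗ T` -/
structure TExt (r : ℕ) [Fact r.Prime] (T : Type) [AddCommGroup T] [Module ℤ_[r] T]
    (L : Type) [Field L] [Algebra ℤ_[r] L] (V : Type) [AddCommGroup V] [Module L V] where
  i : T →+ V
  i_smul : ∀ (c : ℤ_[r]) (x : T), i (c • x) = algebraMap ℤ_[r] L c • i x
  bc : Module.End ℤ_[r] T →+* Module.End L V
  bc_apply : ∀ (f : Module.End ℤ_[r] T) (x : T), bc f (i x) = i (f x)
  bc_smul : ∀ (c : ℤ_[r]) (f : Module.End ℤ_[r] T), bc (c • f) = algebraMap ℤ_[r] L c • bc f
  span : Submodule.span L (Set.range i) = ⊤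

section Lattice

variable {r : ℕ} [Fact r.Prime] {T : Type} [AddCommGroup T] [Module ℤ_[r] T]
variable (O : Type) [CommRing O] [IsDomain O] [Algebra ℤ_[r] O]
variable {L : Type} [Field L] [Algebra O L] [IsFractionRing O L] [Algebra ℤ_[r] L]
  [IsScalarTower ℤ_[r] O L]
variable {V : Type} [AddCommGroup V] [Module L V] [Module O V] [IsScalarTower O L V]
variable (E : TExt r T L V)

namespace TExt

/-- the standard lattice -/
def M₀ : Submodule O V := Submodule.span O (Set.range E.i)

variable {O}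

omit [IsDomain O] [Algebra ℤ_[r] O] [IsFractionRing O L] [IsScalarTower ℤ_[r] O L]
  [IsScalarTower O L V] in
theorem i_mem (x : T) : E.i x ∈ E.M₀ O := Submodule.subset_span ⟨x, rfl⟩

omit [IsDomain O] [Algebra ℤ_[r] O] [IsFractionRing O L] [IsScalarTower ℤ_[r] O L] in
theorem bc_smul_O (f : Module.End ℤ_[r] T) (c : O) (v : V) :
    E.bc f (c • v) = c • E.bc f v := by
  rw [← algebraMap_smul L c v, map_smul, algebraMap_smul]

omit [Algebra ℤ_[r] O] [IsScalarTower ℤ_[r] O L] in
theorem exists_smul_mem (x : V) : ∃ c : O, c ≠ 0 ∧ c • x ∈ E.M₀ O := by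
  have hx : x ∈ Submodule.span L (Set.range E.i) := by rw [E.span]; trivial
  induction hx using Submodule.span_induction with
  | zero => exact ⟨1, one_ne_zero, by rw [smul_zero]; exact zero_mem _⟩
  | mem x hx => exact ⟨1, one_ne_zero, by rw [one_smul]; exact Submodule.subset_span hx⟩
  | smul l x _ hx =>
    obtain ⟨c, hc, hcx⟩ := hx
    obtain ⟨a, b, hb, rfl⟩ := IsFractionRing.div_surjective (A := O) l
    have hb0 : b ≠ 0 := nonZeroDivisors.ne_zero hb
    refine ⟨c * b, mul_ne_zero hc hb0, ?_⟩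
    have h1 : (c * b) • ((algebraMap O L a / algebraMap O L b) • x) = a • (c • x) := by
      rw [← algebraMap_smul L (c * b), ← algebraMap_smul L a, ← algebraMap_smul L c, smul_smul,
        smul_smul, map_mul]
      congr 1
      have h2 : algebraMap O L b ≠ 0 := by
        rw [ne_eq, map_eq_zero_iff _ (IsFractionRing.injective O L)]
        exact hb0
      field_simp
    rw [h1]
    exact Submodule.smul_mem _ _ hcx
  | add x y _ _ hx hy =>
    obtain ⟨c, hc, hcx⟩ := hx
    obtain ⟨d, hd, hdy⟩ := hy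
    refine ⟨c * d, mul_ne_zero hc hd, ?_⟩
    rw [smul_add]
    refine Submodule.add_mem _ ?_ ?_
    · rw [mul_comm, mul_smul]; exact Submodule.smul_mem _ _ hcx
    · rw [mul_smul]; exact Submodule.smul_mem _ _ hdy

omit [IsDomain O] [IsFractionRing O L] in
/-- a property "divisible by `c`" passes to the lattice -/
theorem exists_of_forall (f : Module.End ℤ_[r] T) (c : ℤ_[r]) (h : ∀ x, ∃ w, f x = c • w)
    {v : V} (hv : v ∈ E.M₀ O) :
    ∃ w ∈ E.M₀ O, E.bc f v = (algebraMap ℤ_[r] O c) • w := by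
  induction hv using Submodule.span_induction with
  | mem v hv =>
    obtain ⟨x, rfl⟩ := hv
    obtain ⟨w, hw⟩ := h x
    refine ⟨E.i w, E.i_mem w, ?_⟩
    rw [E.bc_apply, hw, E.i_smul, ← algebraMap_smul L (algebraMap ℤ_[r] O c),
      ← IsScalarTower.algebraMap_apply]
  | zero => exact ⟨0, zero_mem _, by rw [map_zero, smul_zero]⟩
  | add x y _ _ hx hy =>
    obtain ⟨w, hw, e⟩ := hx
    obtain ⟨w', hw', e'⟩ := hy
    exact ⟨w + w', add_mem hw hw', by rw [map_add, e, e', smul_add]⟩
  | smul a x _ hx =>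
    obtain ⟨w, hw, e⟩ := hx
    exact ⟨a • w, Submodule.smul_mem _ _ hw, by rw [bc_smul_O, e, smul_comm]⟩

omit [IsDomain O] [IsFractionRing O L] in
theorem bc_mem (f : Module.End ℤ_[r] T) {v : V} (hv : v ∈ E.M₀ O) : E.bc f v ∈ E.M₀ O := by
  obtain ⟨w, hw, e⟩ := E.exists_of_forall (O := O) f 1 (fun x => ⟨f x, by rw [one_smul]⟩) hv
  rw [e, map_one, one_smul]
  exact hw

omit [IsDomain O] [IsFractionRing O L] in
theorem finite_M₀ [Module.Finite ℤ_[r] T] : Module.Finite O (E.M₀ O) := by
  classical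
  obtain ⟨s, hs⟩ := (Module.Finite.fg_top : (⊤ : Submodule ℤ_[r] T).FG)
  have h1 : E.M₀ O = Submodule.span O ((s.image E.i : Finset _) : Set V) := by
    apply le_antisymm
    · rw [M₀, Submodule.span_le]
      rintro _ ⟨x, rfl⟩
      have hx : x ∈ Submodule.span ℤ_[r] (s : Set T) := by rw [hs]; trivial
      rw [SetLike.mem_coe]
      induction hx using Submodule.span_induction with
      | mem x hx =>
        apply Submodule.subset_span
        rw [Finset.coe_image]
        exact ⟨x, hx, rfl⟩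
      | zero => rw [map_zero]; exact zero_mem _
      | add x y _ _ hx hy =>
        rw [map_add]
        exact add_mem hx hy
      | smul a x _ hx =>
        rw [E.i_smul, IsScalarTower.algebraMap_apply ℤ_[r] O L, algebraMap_smul]
        exact Submodule.smul_mem _ _ hx
    · apply Submodule.span_mono
      rw [Finset.coe_image]
      rintro _ ⟨x, -, rfl⟩
      exact ⟨x, rfl⟩
  exact Module.Finite.iff_fg.mpr ⟨_, h1.symm⟩

/-- the lattice in a subspace `U` -/
def Lam (O : Type) [CommRing O] [Algebra O L] [Module O V] [IsScalarTower O L V]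
    (E : TExt r T L V) (U : Submodule L V) : Submodule O V :=
  U.restrictScalars O ⊓ E.M₀ O

omit [IsDomain O] [Algebra ℤ_[r] O] [IsFractionRing O L] [IsScalarTower ℤ_[r] O L] in
theorem mem_Lam {U : Submodule L V} {v : V} : v ∈ E.Lam O U ↔ v ∈ U ∧ v ∈ E.M₀ O := Iff.rfl

section DVR

variable [IsDiscreteValuationRing O] [Module.Finite ℤ_[r] T]

omit [IsFractionRing O L] in
theorem finite_Lam (U : Submodule L V) : Module.Finite O (E.Lam O U) := by
  have h : E.Lam O U ≤ E.M₀ O := inf_le_right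
  have hf : Module.Finite O (E.M₀ O) := E.finite_M₀
  exact Module.Finite.of_injective (Submodule.inclusion h) (Submodule.inclusion_injective h)

theorem isTorsionFree_V (O : Type) [CommRing O] [IsDomain O] (L : Type) [Field L] [Algebra O L]
    [IsFractionRing O L] (V : Type) [AddCommGroup V] [Module L V] [Module O V]
    [IsScalarTower O L V] : Module.IsTorsionFree O V := by
  refine ⟨fun c hc x y hxy => ?_⟩
  have hc0 : algebraMap O L c ≠ 0 := by
    rw [ne_eq, map_eq_zero_iff _ (IsFractionRing.injective O L)]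
    exact hc.ne_zero
  have h1 : algebraMap O L c • x = algebraMap O L c • y := by
    rw [algebraMap_smul, algebraMap_smul]; exact hxy
  exact smul_right_injective _ hc0 h1

theorem free_Lam (U : Submodule L V) : Module.Free O (E.Lam O U) := by
  have h0 : Module.IsTorsionFree O V := isTorsionFree_V O L V
  have h1 : Module.IsTorsionFree O (E.Lam O U) := inferInstance
  have h2 : Module.Finite O (E.Lam O U) := E.finite_Lam U
  exact inferInstance

theorem finrank_Lam (U : Submodule L V) : finrank O (E.Lam O U) = finrank L U := by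
  let ι : E.Lam O U →ₗ[O] U :=
    { toFun := fun v => ⟨v.1, v.2.1⟩
      map_add' := fun _ _ => rfl
      map_smul' := fun _ _ => rfl }
  have : IsLocalizedModule (nonZeroDivisors O) ι := by
    constructor
    · intro c
      have hc : algebraMap O L (c : O) ≠ 0 := by
        rw [ne_eq, map_eq_zero_iff _ (IsFractionRing.injective O L)]
        exact nonZeroDivisors.coe_ne_zero c
      rw [Module.End.isUnit_iff]
      constructor
      · intro x y hxy
        have h2 : (c : O) • x = (c : O) • y := hxy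
        have h3 : algebraMap O L (c : O) • x = algebraMap O L (c : O) • y := by
          rw [algebraMap_smul, algebraMap_smul]; exact h2
        exact smul_right_injective _ hc h3
      · intro x
        refine ⟨(algebraMap O L (c : O))⁻¹ • x, ?_⟩
        show (c : O) • ((algebraMap O L (c : O))⁻¹ • x) = x
        rw [← algebraMap_smul L (c : O), smul_smul, mul_inv_cancel₀ hc, one_smul]
    · intro x
      obtain ⟨c, hc, hcx⟩ := E.exists_smul_mem (O := O) (x : V)
      refine ⟨⟨⟨c • (x : V), ?_, hcx⟩, ⟨c, mem_nonZeroDivisors_of_ne_zero hc⟩⟩, rfl⟩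
      have h2 : algebraMap O L c • (x : V) ∈ U := U.smul_mem _ x.2
      rwa [algebraMap_smul] at h2
    · intro x y hxy
      refine ⟨1, ?_⟩
      rw [one_smul, one_smul]
      exact Subtype.ext (congrArg (fun z : U => (z : V)) hxy)
  have h5 : finrank O U = finrank O (E.Lam O U) :=
    IsLocalizedModule.finrank_eq (nonZeroDivisors O) ι le_rfl
  have h6 : finrank L U = finrank O U :=
    IsLocalization.finrank_eq (R := O) L (N := U) (nonZeroDivisors O) le_rfl
  rw [h6, h5]

end DVR

end TExt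

end Lattice

end Fermat.Agent.H76M
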