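import Mathlib
import Fermat.Agent.H76M2

/-!
# MAZUR G2, part 3: the pieces of `L ⊗ T` and the lemmas (E1), (E2), (E3)
(helper76)
-/

set_option autoImplicit false

noncomputable section

open IsLocalRing Module

namespace Fermat.Agent.H76M

open Fermat.Agent.H76G

/-- the multiplicative part of `T` at `A` -/
structure MultT {N r : ℕ} [Fact r.Prime] {T : Type} [AddCommGroup T] [Module ℤ_[r] T]
    (S : TateSys N r T) (A : ValuationSubring Qb) (Tm : Submodule ℤ_[r] T) : Prop where
  liesOver : A.LiesOverPrime r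
  stable : ∀ σ ∈ A.decompositionSubgroup ℚ, ∀ x ∈ Tm, S.ρ σ x ∈ Tm
  quot : ∀ σ ∈ A.inertiaSubgroupIn ℚ, ∀ x : T, S.ρ σ x - x ∈ Tm

section

variable {N r : ℕ} [Fact r.Prime] {T : Type} [AddCommGroup T] [Module ℤ_[r] T]
  (S : TateSys N r T)
variable (O : Type) [CommRing O] [IsDomain O] [Algebra ℤ_[r] O]
variable {L : Type} [Field L] [Algebra O L] [IsFractionRing O L] [Algebra ℤ_[r] L]
  [IsScalarTower ℤ_[r] O L]
variable {V : Type} [AddCommGroup V] [Module L V] [Module O V] [IsScalarTower O L V]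
variable (E : TExt r T L V) (U : Submodule L V) (hU : ∀ σ, ∀ v ∈ U, E.bc (S.ρ σ) v ∈ U)

/-- the representation on the lattice -/
def rhoLam : GQ →* Module.End O (E.Lam O U) where
  toFun σ :=
    { toFun := fun v => ⟨E.bc (S.ρ σ) v, hU σ v v.2.1, E.bc_mem _ v.2.2⟩
      map_add' := fun v w => Subtype.ext (map_add _ _ _)
      map_smul' := fun c v => Subtype.ext (E.bc_smul_O _ c _) }
  map_one' := by
    ext v
    show E.bc (S.ρ 1) (v : V) = v
    rw [map_one, map_one, Module.End.one_apply]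
  map_mul' σ τ := by
    ext v
    show E.bc (S.ρ (σ * τ)) (v : V) = E.bc (S.ρ σ) (E.bc (S.ρ τ) v)
    rw [map_mul, map_mul, Module.End.mul_apply]

variable {O}

theorem coe_rhoLam (σ : GQ) (v : E.Lam O U) :
    ((rhoLam S O E U hU σ v : E.Lam O U) : V) = E.bc (S.ρ σ) v := rfl

variable [IsDiscreteValuationRing O] [IsAdicComplete (maximalIdeal O) O] [CharZero O]
  (hr : (r : O) ∈ maximalIdeal O) [Module.Finite ℤ_[r] T]

omit [IsAdicComplete (maximalIdeal O) O] [Module.Finite ℤ_[r] T] in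
theorem mem_of_smul_mem {n : ℕ} {w : V} (h : (algebraMap ℤ_[r] O ((r : ℤ_[r]) ^ n)) • w ∈ U) :
    w ∈ U := by
  have h0 : algebraMap O L (algebraMap ℤ_[r] O ((r : ℤ_[r]) ^ n)) ≠ 0 := by
    rw [map_pow, map_natCast, map_pow, map_natCast]
    haveI : CharZero L := charZero_of_injective_algebraMap (IsFractionRing.injective O L)
    exact pow_ne_zero _ (Nat.cast_ne_zero.mpr (Fact.out : r.Prime).ne_zero)
  have h1 : (algebraMap O L (algebraMap ℤ_[r] O ((r : ℤ_[r]) ^ n)))⁻¹ •
      (algebraMap O L (algebraMap ℤ_[r] O ((r : ℤ_[r]) ^ n)) • w) ∈ U := by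
    refine U.smul_mem _ ?_
    rw [algebraMap_smul]
    exact h
  rwa [smul_smul, inv_mul_cancel₀ h0, one_smul] at h1

include hr in
theorem eisRep (hUne : U ≠ ⊥) (a : ℕ → O)
    (ha : ∀ q : ℕ, q.Prime → q ≠ N → ∀ v ∈ U, E.bc (S.τ q) v = a q • v) :
    EisRep N r O a (E.Lam O U) (rhoLam S O E U hU) where
  cont n := by
    obtain ⟨F, hF, h⟩ := S.cont n
    refine ⟨F, hF, fun σ hσ v => ?_⟩
    obtain ⟨w, hw, e⟩ := E.exists_of_forall (O := O) (S.ρ σ - 1) ((r : ℤ_[r]) ^ n) (h σ hσ) v.2.2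
    have hwU : w ∈ U := by
      apply mem_of_smul_mem (O := O) (n := n) (r := r)
      rw [← e, map_sub, map_one, LinearMap.sub_apply]
      exact U.sub_mem (hU σ _ v.2.1) v.2.1
    have h1 : rhoLam S O E U hU σ v - v = ((r : O) ^ n) • (⟨w, hwU, hw⟩ : E.Lam O U) := by
      apply Subtype.ext
      show E.bc (S.ρ σ) (v : V) - v = ((r : O) ^ n) • w
      rw [map_sub, map_one, LinearMap.sub_apply, Module.End.one_apply] at e
      rw [e, map_pow, map_natCast]
    rw [h1]
    exact Submodule.smul_mem_smul (Ideal.pow_mem_pow hr n) trivial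
  a_mem q hq hqN _ := by
    obtain ⟨k, hk⟩ := S.nilp q hq hqN
    have hfin : Module.Finite O (E.Lam O U) := E.finite_Lam U
    have hfree : Module.Free O (E.Lam O U) := E.free_Lam U
    obtain ⟨u, hu, hu0⟩ := Submodule.exists_mem_ne_zero_of_ne_bot hUne
    obtain ⟨c, hc, hcu⟩ := E.exists_smul_mem (O := O) u
    have hΛ : Nontrivial (E.Lam O U) := by
      refine ⟨⟨⟨c • u, ?_, hcu⟩, 0, fun h => ?_⟩⟩
      · show c • u ∈ U
        rw [← algebraMap_smul L c u]
        exact U.smul_mem _ hu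
      · have h1 : c • u = 0 := congrArg Subtype.val h
        rw [← algebraMap_smul L c u, smul_eq_zero,
          map_eq_zero_iff _ (IsFractionRing.injective O L)] at h1
        exact h1.elim hc hu0
    let b := Module.Free.chooseBasis O (E.Lam O U)
    obtain ⟨i⟩ := b.index_nonempty
    obtain ⟨w, hw, e⟩ := E.exists_of_forall (O := O) _ ((r : ℤ_[r])) hk (b i).2.2
    have hpow : ∀ (k : ℕ) (v : V), v ∈ U →
        E.bc ((S.τ q - (1 + (q : ℤ_[r])) • (1 : Module.End ℤ_[r] T)) ^ k) v =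
          (a q - (1 + (q : O))) ^ k • v := by
      intro k
      induction k with
      | zero => intro v _; rw [pow_zero, pow_zero, map_one, one_smul, Module.End.one_apply]
      | succ k ih =>
        intro v hv
        have h1 : E.bc (S.τ q - (1 + (q : ℤ_[r])) • (1 : Module.End ℤ_[r] T)) v =
            (a q - (1 + (q : O))) • v := by
          rw [map_sub, E.bc_smul, map_one, LinearMap.sub_apply, ha q hq hqN v hv, sub_smul,
            LinearMap.smul_apply, Module.End.one_apply, map_add, map_one, map_natCast,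
            ← algebraMap_smul L (1 + (q : O)), map_add, map_one, map_natCast]
        rw [pow_succ, map_mul, Module.End.mul_apply, h1, E.bc_smul_O, ih v hv, smul_smul,
          pow_succ, mul_comm]
    rw [hpow k _ (b i).2.1, map_natCast] at e
    have hwU : w ∈ U := by
      apply mem_of_smul_mem (O := O) (n := 1) (r := r)
      rw [pow_one, map_natCast, ← e, ← algebraMap_smul L]
      exact U.smul_mem _ (b i).2.1
    have e' : (a q - (1 + (q : O))) ^ k • b i = (r : O) • (⟨w, hwU, hw⟩ : E.Lam O U) :=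
      Subtype.ext e
    have h2 := congrArg (fun z => b.repr z i) e'
    simp only [map_smul, Finsupp.smul_apply, Basis.repr_self, Finsupp.single_eq_same, smul_eq_mul,
      mul_one] at h2
    have h3 : (a q - (1 + (q : O))) ^ k ∈ maximalIdeal O := by
      rw [h2]
      exact Ideal.mul_mem_right _ _ hr
    exact Ideal.IsPrime.mem_of_pow_mem inferInstance k h3
  frob q hq hqN hqr B hB φ hφ v := by
    have h := congrArg E.bc (S.frob q hq hqN hqr B hB φ hφ)
    rw [map_zero, map_add, map_sub, map_mul, map_mul, E.bc_smul, map_one] at h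
    have h1 := LinearMap.congr_fun h (v : V)
    apply Subtype.ext
    show E.bc (S.ρ φ) (E.bc (S.ρ φ) v) - a q • E.bc (S.ρ φ) v + (q : O) • (v : V) = 0
    rw [← ha q hq hqN _ (hU φ _ v.2.1)]
    rw [LinearMap.add_apply, LinearMap.sub_apply, Module.End.mul_apply, Module.End.mul_apply,
      LinearMap.smul_apply, Module.End.one_apply, LinearMap.zero_apply, map_natCast] at h1
    rw [← algebraMap_smul L (q : O), map_natCast]
    exact h1
  unr q hq hqN hqr B hB σ hσ v := by
    apply Subtype.ext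
    show E.bc (S.ρ σ) (v : V) = v
    rw [S.unr q hq hqN hqr B hB σ hσ, map_one, Module.End.one_apply]
  ss B hB σ hσ v := by
    have h := congrArg E.bc (S.ss B hB σ hσ)
    rw [map_mul, map_sub, map_one] at h
    have h1 := LinearMap.congr_fun h (v : V)
    rw [Module.End.mul_apply, LinearMap.sub_apply, Module.End.one_apply] at h1
    exact Subtype.ext h1
  nonEis := by
    obtain ⟨q, hq1, hq⟩ := Nat.exists_infinite_primes (N + r + 1)
    refine ⟨q, hq, by omega, by omega, fun hcon => ?_⟩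
    obtain ⟨t, m, hm, ht⟩ := S.nonEis q hq (by omega)
    obtain ⟨u, hu, hu0⟩ := Submodule.exists_mem_ne_zero_of_ne_bot hUne
    have h := congrArg E.bc ht
    rw [map_mul, map_sub, E.bc_smul, E.bc_smul, map_one] at h
    have h1 := LinearMap.congr_fun h u
    rw [Module.End.mul_apply, LinearMap.sub_apply, LinearMap.smul_apply, LinearMap.smul_apply,
      Module.End.one_apply, ha q hq (by omega) u hu, hcon, map_add, map_one, map_natCast,
      ← algebraMap_smul L (1 + (q : O)), map_add, map_one, map_natCast, sub_self, map_zero] at h1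
    have h2 := smul_eq_zero.mp h1.symm
    rcases h2 with h2 | h2
    · haveI : CharZero L := charZero_of_injective_algebraMap (IsFractionRing.injective O L)
      rw [map_natCast, Nat.cast_eq_zero] at h2
      exact hm h2
    · exact hu0 h2

/-- the `L`-span of `Tm` -/
def Vm (E : TExt r T L V) (Tm : Submodule ℤ_[r] T) : Submodule L V :=
  Submodule.span L (E.i '' (Tm : Set T))

omit [IsDomain O] [IsFractionRing O L] [IsDiscreteValuationRing O] [CharZero O]
  [IsAdicComplete (maximalIdeal O) O] [Module.Finite ℤ_[r] T] [Algebra O L]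
  [IsScalarTower ℤ_[r] O L] [Module O V] [IsScalarTower O L V] [Algebra ℤ_[r] O] [CommRing O] in
theorem Vm_stable {A : ValuationSubring Qb} {Tm : Submodule ℤ_[r] T} (hT : MultT S A Tm)
    {σ : GQ} (hσ : σ ∈ A.decompositionSubgroup ℚ) {v : V} (hv : v ∈ Vm E Tm) :
    E.bc (S.ρ σ) v ∈ Vm E Tm := by
  induction hv using Submodule.span_induction with
  | mem v hv =>
    obtain ⟨x, hx, rfl⟩ := hv
    rw [E.bc_apply]
    exact Submodule.subset_span ⟨_, hT.stable σ hσ x hx, rfl⟩
  | zero => rw [map_zero]; exact zero_mem _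
  | add x y _ _ hx hy => rw [map_add]; exact add_mem hx hy
  | smul c x _ hx => rw [map_smul]; exact Submodule.smul_mem _ _ hx

omit [IsDomain O] [IsFractionRing O L] [IsDiscreteValuationRing O] [CharZero O]
  [IsAdicComplete (maximalIdeal O) O] [Module.Finite ℤ_[r] T] [Algebra O L]
  [IsScalarTower ℤ_[r] O L] [Module O V] [IsScalarTower O L V] [Algebra ℤ_[r] O] [CommRing O] in
theorem Vm_quot {A : ValuationSubring Qb} {Tm : Submodule ℤ_[r] T} (hT : MultT S A Tm)
    {σ : GQ} (hσ : σ ∈ A.inertiaSubgroupIn ℚ) (v : V) :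
    E.bc (S.ρ σ) v - v ∈ Vm E Tm := by
  have hv : v ∈ Submodule.span L (Set.range E.i) := by rw [E.span]; trivial
  induction hv using Submodule.span_induction with
  | mem v hv =>
    obtain ⟨x, rfl⟩ := hv
    rw [E.bc_apply, ← map_sub]
    exact Submodule.subset_span ⟨_, hT.quot σ hσ x, rfl⟩
  | zero => rw [map_zero, sub_zero]; exact zero_mem _
  | add x y _ _ hx hy =>
    rw [map_add, add_sub_add_comm]; exact add_mem hx hy
  | smul c x _ hx => rw [map_smul, ← smul_sub]; exact Submodule.smul_mem _ _ hx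

variable (O) in
/-- `Λ ∩ Vm` as a submodule of `Λ` -/
def LamM (E : TExt r T L V) (U : Submodule L V) (Tm : Submodule ℤ_[r] T) :
    Submodule O (E.Lam O U) :=
  ((Vm E Tm).restrictScalars O).comap (E.Lam O U).subtype

omit [IsDomain O] [Algebra ℤ_[r] O] [IsFractionRing O L] [IsScalarTower ℤ_[r] O L]
  [IsDiscreteValuationRing O] [IsAdicComplete (maximalIdeal O) O] [CharZero O]
  [Module.Finite ℤ_[r] T] in
theorem mem_LamM {Tm : Submodule ℤ_[r] T} {v : E.Lam O U} :
    v ∈ LamM O E U Tm ↔ (v : V) ∈ Vm E Tm := Iff.rfl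

omit [IsAdicComplete (maximalIdeal O) O] [Module.Finite ℤ_[r] T] [IsDiscreteValuationRing O]
  [CharZero O] in
theorem multAt {A : ValuationSubring Qb} {Tm : Submodule ℤ_[r] T} (hT : MultT S A Tm) :
    MultAt r (rhoLam S O E U hU) A (LamM O E U Tm) where
  liesOver := hT.liesOver
  stable σ hσ v hv := Vm_stable S E hT hσ hv
  quot σ hσ v := Vm_quot S E hT hσ (v : V)
  sat c v hc hcv := by
    have h1 : c • (v : V) ∈ Vm E Tm := hcv
    rw [← algebraMap_smul L c (v : V)] at h1
    have hc' : algebraMap O L c ≠ 0 := by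
      rw [ne_eq, map_eq_zero_iff _ (IsFractionRing.injective O L)]
      exact hc
    have h2 := (Vm E Tm).smul_mem (algebraMap O L c)⁻¹ h1
    rw [smul_smul, inv_mul_cancel₀ hc', one_smul] at h2
    exact h2

omit [IsAdicComplete (maximalIdeal O) O] [CharZero O] in
theorem exists_basis_Lam (h2 : finrank L U = 2) : Nonempty (Basis (Fin 2) O (E.Lam O U)) := by
  have hfin : Module.Finite O (E.Lam O U) := E.finite_Lam U
  have hfree : Module.Free O (E.Lam O U) := E.free_Lam U
  exact ⟨Module.finBasisOfFinrankEq O (E.Lam O U) (by rw [E.finrank_Lam U, h2])⟩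

include hr hU in
/-- **(E1)** in dimension one -/
theorem E1_one (h1 : finrank L U = 1) (hN : N.Prime) (a : ℕ → O)
    (ha : ∀ q : ℕ, q.Prime → q ≠ N → ∀ v ∈ U, E.bc (S.τ q) v = a q • v)
    {A : ValuationSubring Qb} {Tm : Submodule ℤ_[r] T} (hT : MultT S A Tm) :
    U ⊓ Vm E Tm ≠ ⊥ := by
  intro hcon
  have hUne : U ≠ ⊥ := by
    rintro rfl
    rw [finrank_bot] at h1
    exact zero_ne_one h1
  have hfin : Module.Finite O (E.Lam O U) := E.finite_Lam U
  have hfree : Module.Free O (E.Lam O U) := E.free_Lam U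
  have H := eisRep (O := O) S E U hU hr hUne a ha
  let b : Basis (Fin 1) O (E.Lam O U) :=
    Module.finBasisOfFinrankEq O (E.Lam O U) (by rw [E.finrank_Lam U, h1])
  have hex : ∀ v : E.Lam O U, v = b.repr v 0 • b 0 := by
    intro v
    conv_lhs => rw [← b.sum_repr v, Fin.sum_univ_one]
  -- the character
  let ψ : GQ →* O :=
    { toFun := fun σ => b.repr (rhoLam S O E U hU σ (b 0)) 0
      map_one' := by
        rw [map_one, Module.End.one_apply, Basis.repr_self, Finsupp.single_eq_same]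
      map_mul' := fun σ τ => by
        rw [map_mul, Module.End.mul_apply]
        conv_lhs => rw [hex (rhoLam S O E U hU τ (b 0))]
        rw [map_smul, map_smul, Finsupp.smul_apply, smul_eq_mul, mul_comm] }
  have hψ : ∀ σ, rhoLam S O E U hU σ (b 0) = ψ σ • b 0 := fun σ => hex _
  have hψ1 : ∀ σ, rhoLam S O E U hU σ (b 0) = b 0 → ψ σ = 1 := by
    intro σ h
    show b.repr (rhoLam S O E U hU σ (b 0)) 0 = 1
    rw [h, Basis.repr_self, Finsupp.single_eq_same]
  have hcont : H35.CharCont O ψ := by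
    intro n
    obtain ⟨F, hF, h⟩ := H.cont n
    refine ⟨F, hF, fun σ hσ => ?_⟩
    have h3 : ∀ w ∈ (maximalIdeal O ^ n) • (⊤ : Submodule O (E.Lam O U)),
        b.repr w 0 ∈ maximalIdeal O ^ n := by
      intro w hw
      refine Submodule.smul_induction_on (p := fun w => b.repr w 0 ∈ maximalIdeal O ^ n) hw ?_ ?_
      · intro c hc x _
        rw [map_smul, Finsupp.smul_apply, smul_eq_mul]
        exact Ideal.mul_mem_right _ _ hc
      · intro x y hx hy
        rw [map_add, Finsupp.add_apply]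
        exact Ideal.add_mem _ hx hy
    have h4 := h3 _ (h σ hσ (b 0))
    rw [map_sub, Finsupp.sub_apply, Basis.repr_self, Finsupp.single_eq_same] at h4
    exact h4
  have hA : ∀ σ ∈ A.inertiaSubgroupIn ℚ, ψ σ = 1 := by
    intro σ hσ
    apply hψ1
    have h3 : ((rhoLam S O E U hU σ (b 0) - b 0 : E.Lam O U) : V) ∈ U ⊓ Vm E Tm :=
      ⟨(rhoLam S O E U hU σ (b 0) - b 0).2.1, Vm_quot S E hT hσ _⟩
    rw [hcon, Submodule.mem_bot] at h3
    exact sub_eq_zero.mp (Subtype.ext h3)
  have hall : ∀ σ, ψ σ = 1 := by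
    refine char_eq_one ψ hcont fun q hq => ?_
    by_cases hqr : q = r
    · subst hqr
      exact ⟨A, hT.liesOver, hA⟩
    by_cases hqN : q = N
    · subst hqN
      obtain ⟨B, hB⟩ := H54.exists_liesOverPrime hN
      refine ⟨B, hB, fun σ hσ => ?_⟩
      have h3 := congrArg (fun z => b.repr z 0) (H.ss B hB σ hσ (b 0))
      have h4 : rhoLam S O E U hU σ (b 0) - b 0 = (ψ σ - 1) • b 0 := by
        rw [hψ, sub_smul, one_smul]
      rw [h4] at h3
      simp only [map_smul, hψ, Finsupp.smul_apply, Basis.repr_self, Finsupp.single_eq_same,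
        smul_eq_mul, mul_one] at h3
      have h5 : (ψ σ - 1) * (ψ σ - 1) = 0 := by
        rw [mul_sub, mul_one, h3, sub_self]
      exact sub_eq_zero.mp (mul_self_eq_zero.mp h5)
    · obtain ⟨B, hB⟩ := H54.exists_liesOverPrime hq
      exact ⟨B, hB, fun σ hσ => hψ1 σ (H.unr q hq hqN hqr B hB σ hσ _)⟩
  obtain ⟨q, hq, hqN, hqr, hne⟩ := H.nonEis
  obtain ⟨B, hB⟩ := H54.exists_liesOverPrime hq
  obtain ⟨φ, hφ⟩ := H54.exists_isFrobeniusAt hq hB
  have h3 := congrArg (fun z => b.repr z 0) (H.frob q hq hqN hqr B hB φ hφ (b 0))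
  simp only [hψ, hall, one_smul, map_add, map_sub, map_smul, Finsupp.add_apply, Finsupp.sub_apply,
    Finsupp.smul_apply, Basis.repr_self, Finsupp.single_eq_same, smul_eq_mul, mul_one,
    map_zero, Finsupp.zero_apply] at h3
  apply hne
  linear_combination -h3

include hr hU in
/-- **(E1)** -/
theorem E1_all (h1 : U ≠ ⊥) (h2 : finrank L U ≤ 2) (hfd : FiniteDimensional L V)
    (hN : N.Prime) (a : ℕ → O)
    (ha : ∀ q : ℕ, q.Prime → q ≠ N → ∀ v ∈ U, E.bc (S.τ q) v = a q • v)
    {A : ValuationSubring Qb} {Tm : Submodule ℤ_[r] T} (hT : MultT S A Tm) :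
    U ⊓ Vm E Tm ≠ ⊥ := by
  have h0 : finrank L U ≠ 0 := fun h => h1 (Submodule.finrank_eq_zero.mp h)
  have h3 : finrank L U = 1 ∨ finrank L U = 2 := by omega
  rcases h3 with h3 | h3
  · exact E1_one (O := O) S E U hU hr h3 hN a ha hT
  · obtain ⟨b⟩ := exists_basis_Lam (O := O) E U h3
    have H := eisRep (O := O) S E U hU hr h1 a ha
    have h4 := H.E1 hr hN (multAt (O := O) S E U hU hT) b
    intro hcon
    apply h4
    rw [eq_bot_iff]
    intro v hv
    have h5 : (v : V) ∈ U ⊓ Vm E Tm := ⟨v.2.1, hv⟩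
    rw [hcon, Submodule.mem_bot] at h5
    exact (Submodule.mem_bot O).mpr (Subtype.ext h5)

include hU in
theorem LamM_ne_top {Tm : Submodule ℤ_[r] T} (hle : ¬ U ≤ Vm E Tm) : LamM O E U Tm ≠ ⊤ := by
  intro h
  apply hle
  intro u hu
  obtain ⟨c, hc, hcu⟩ := E.exists_smul_mem (O := O) u
  have hcU : c • u ∈ U := by
    rw [← algebraMap_smul L c u]
    exact U.smul_mem _ hu
  have h1 : (⟨c • u, hcU, hcu⟩ : E.Lam O U) ∈ LamM O E U Tm := by rw [h]; trivial
  have h2 : c • u ∈ Vm E Tm := h1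
  rw [← algebraMap_smul L c u] at h2
  have hc' : algebraMap O L c ≠ 0 := by
    rw [ne_eq, map_eq_zero_iff _ (IsFractionRing.injective O L)]
    exact hc
  have h3 := (Vm E Tm).smul_mem (algebraMap O L c)⁻¹ h2
  rwa [smul_smul, inv_mul_cancel₀ hc', one_smul] at h3

include hU in
/-- **(E2)** -/
theorem E2_all (h2 : finrank L U = 2)
    (hN : N.Prime) (a : ℕ → O)
    (ha : ∀ q : ℕ, q.Prime → q ≠ N → ∀ v ∈ U, E.bc (S.τ q) v = a q • v)
    {A : ValuationSubring Qb} {Tm : Submodule ℤ_[r] T} (hT : MultT S A Tm)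
    (hle : ¬ U ≤ Vm E Tm) {σ : GQ} (hσ : σ ∈ A.inertiaSubgroupIn ℚ) {v : V}
    (hv : v ∈ U ⊓ Vm E Tm) : E.bc (S.ρ σ) v = H35.cyc O hr σ • v := by
  have h1 : U ≠ ⊥ := by
    rintro rfl
    rw [finrank_bot] at h2
    exact absurd h2 (by norm_num)
  obtain ⟨b⟩ := exists_basis_Lam (O := O) E U h2
  have H := eisRep (O := O) S E U hU hr h1 a ha
  obtain ⟨c, hc, hcv⟩ := E.exists_smul_mem (O := O) v
  have hcU : c • v ∈ U := by
    rw [← algebraMap_smul L c v]
    exact U.smul_mem _ hv.1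
  have hcm : c • v ∈ Vm E Tm := by
    rw [← algebraMap_smul L c v]
    exact (Vm E Tm).smul_mem _ hv.2
  have h3 := H.E2 hr hN (multAt (O := O) S E U hU hT) (LamM_ne_top (O := O) S E U hU hle) b hσ
    (v := ⟨c • v, hcU, hcv⟩) hcm
  have h4 : E.bc (S.ρ σ) (c • v) = H35.cyc O hr σ • (c • v) := congrArg Subtype.val h3
  rw [E.bc_smul_O, smul_comm, ← algebraMap_smul L c, ← algebraMap_smul L c] at h4
  have hc' : algebraMap O L c ≠ 0 := by
    rw [ne_eq, map_eq_zero_iff _ (IsFractionRing.injective O L)]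
    exact hc
  exact smul_right_injective _ hc' h4

include hU hr in
/-- **(E3)** -/
theorem E3_all (h2 : finrank L U = 2)
    (hN : N.Prime) (a : ℕ → O)
    (ha : ∀ q : ℕ, q.Prime → q ≠ N → ∀ v ∈ U, E.bc (S.τ q) v = a q • v)
    {A : ValuationSubring Qb} {Tm : Submodule ℤ_[r] T} (hT : MultT S A Tm)
    (hle : ¬ U ≤ Vm E Tm) {B : ValuationSubring Qb} (hB : B.LiesOverPrime N) :
    ∃ σ ∈ B.inertiaSubgroupIn ℚ, ∃ v ∈ U, E.bc (S.ρ σ) v ≠ v := by
  have h1 : U ≠ ⊥ := by
    rintro rfl
    rw [finrank_bot] at h2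
    exact absurd h2 (by norm_num)
  obtain ⟨b⟩ := exists_basis_Lam (O := O) E U h2
  have H := eisRep (O := O) S E U hU hr h1 a ha
  obtain ⟨σ, hσ, v, hv⟩ := H.E3 hr hN (multAt (O := O) S E U hU hT)
    (LamM_ne_top (O := O) S E U hU hle) b hB
  exact ⟨σ, hσ, v, v.2.1, fun h => hv (Subtype.ext h)⟩

end

end Fermat.Agent.H76M
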