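import Mathlib
import Fermat.Agent.H76M3
import Fermat.Agent.H15Defs
import Fermat.Agent.H30Tate

/-!
# MAZUR G2: the Tate module of the Eisenstein part: definitions
(helper76)
-/

set_option autoImplicit false

noncomputable section

open Module Fermat.Agent.H15 Fermat.Agent.H30 ModularCurve

namespace Fermat.Agent.H76M



variable (N r : ℕ) (J : Type) [AddCommGroup J] [Module HeckeAlg J] [DistribMulAction GQ J]

/-- `W = ⋃ W[r^k]` -/
def Winf : AddSubgroup J where
  carrier := {x | ∃ k, x ∈ WSub N r J k}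
  zero_mem' := ⟨0, zero_mem _⟩
  add_mem' := by
    rintro x y ⟨k, hk⟩ ⟨l, hl⟩
    refine ⟨k + l, ?_⟩
    have h1 : x ∈ WSub N r J (k + l) :=
      ⟨by rw [pow_add, mul_comm, mul_smul, hk.1, smul_zero], hk.2⟩
    have h2 : y ∈ WSub N r J (k + l) := ⟨by rw [pow_add, mul_smul, hl.1, smul_zero], hl.2⟩
    exact add_mem h1 h2
  neg_mem' := by
    rintro x ⟨k, hk⟩
    exact ⟨k, neg_mem hk⟩

variable [Fact r.Prime]

/-- the Tate module of `W` -/
abbrev TW : Type := TateMod r (Winf N r J)

/-- the elements of the Tate module with all components in `K` (multiplicative part for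
`K = K_A`) -/
def TK (K : AddSubgroup J) : Submodule ℤ_[r] (TW N r J) where
  carrier := {x | ∀ n, ((TateMod.proj n x : Winf N r J) : J) ∈ K}
  zero_mem' := fun n => by
    rw [map_zero]
    exact K.zero_mem
  add_mem' := by
    intro x y hx hy n
    rw [map_add]
    exact K.add_mem (hx n) (hy n)
  smul_mem' := by
    intro c x hx n
    rw [TateMod.proj_smul]
    exact K.nsmul_mem (hx n) _

/-- The data extracted from `J` (everything that the algebraic part needs). -/
structure TateData (t : ℕ) where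
  S : TateSys N r (TW N r J)
  ρ_apply : ∀ (σ : GQ) (x : TW N r J) (n : ℕ),
    ((TateMod.proj n (S.ρ σ x) : Winf N r J) : J) = σ • ((TateMod.proj n x : Winf N r J) : J)
  τ_apply : ∀ (q : ℕ) (hq : q.Prime), q ≠ N → ∀ (x : TW N r J) (n : ℕ),
    ((TateMod.proj n (S.τ q x) : Winf N r J) : J) =
      heckeGen ⟨q, hq⟩ • ((TateMod.proj n x : Winf N r J) : J)
  finite : Module.Finite ℤ_[r] (TW N r J)
  free : Module.Free ℤ_[r] (TW N r J)
  finrank_eq : finrank ℤ_[r] (TW N r J) = 2 * t
  surj : ∀ k, ∀ x ∈ WSub N r J k, ∃ y : TW N r J, ((TateMod.proj k y : Winf N r J) : J) = x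

variable {N r J}

/-- fixed vectors of the inertia group at `B` in the Tate module -/
def fixT (S : TateSys N r (TW N r J)) (B : ValuationSubring Qb) : Submodule ℤ_[r] (TW N r J) where
  carrier := {x | ∀ σ ∈ B.inertiaSubgroupIn ℚ, S.ρ σ x = x}
  zero_mem' := fun σ _ => map_zero _
  add_mem' := by
    intro x y hx hy σ hσ
    rw [map_add, hx σ hσ, hy σ hσ]
  smul_mem' := by
    intro c x hx σ hσ
    rw [map_smul, hx σ hσ]

end Fermat.Agent.H76M
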