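import Mathlib
import Fermat.Agent.H76M0
import Fermat.Agent.H35Cyclo

/-!
# MAZUR G2: statements of the three pieces E (Tate data), F (counting), M (MultChar)
(helper76)
-/

set_option autoImplicit false

noncomputable section

open Module Fermat.Agent.H15 Fermat.Agent.H30 ModularCurve IsLocalRing

namespace Fermat.Agent.H76M

/-- Piece E: the Tate module of `W`. -/
def PieceE : Prop :=
  ∀ (N r : ℕ) [Fact r.Prime] (_ : N.Prime) (_ : r ≠ N)
    (J : Type) [AddCommGroup J] [Module HeckeAlg J] [DistribMulAction GQ J]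
    [SMulCommClass GQ HeckeAlg J] (K : ValuationSubring Qb → AddSubgroup J)
    (_ : BasicInputs N J K) (_ : NoEis N J) (_ : SSN N J) (t : ℕ) (_ : CardW N r J t),
    Nonempty (TateData N r J t)

/-- Piece F: from the rank of the inertia invariants to the counting statement. -/
def PieceF : Prop :=
  ∀ (N r : ℕ) [Fact r.Prime] (_ : N.Prime) (_ : r ≠ N)
    (J : Type) [AddCommGroup J] [Module HeckeAlg J] [DistribMulAction GQ J]
    [SMulCommClass GQ HeckeAlg J] (K : ValuationSubring Qb → AddSubgroup J)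
    (_ : BasicInputs N J K) (t : ℕ) (_ : CardW N r J t) (D : TateData N r J t),
    (∀ B : ValuationSubring Qb, B.LiesOverPrime N → finrank ℤ_[r] (fixT D.S B) ≤ t) →
    CardN N r J t

/-- Piece M: from the action of inertia on the Tate module to `MultChar`. -/
def PieceM : Prop :=
  ∀ (N r : ℕ) [Fact r.Prime] (_ : N.Prime) (_ : r ≠ N)
    (J : Type) [AddCommGroup J] [Module HeckeAlg J] [DistribMulAction GQ J]
    [SMulCommClass GQ HeckeAlg J] (K : ValuationSubring Qb → AddSubgroup J)
    (_ : BasicInputs N J K) (_ : HeckeRed N J K) (_ : DivRed N J K)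
    (t : ℕ) (_ : CardW N r J t) (D : TateData N r J t)
    (hp : (r : ℤ_[r]) ∈ maximalIdeal ℤ_[r]),
    (∀ A : ValuationSubring Qb, A.LiesOverPrime r → ∀ σ ∈ A.inertiaSubgroupIn ℚ,
      ∀ x ∈ TK N r J (K A), D.S.ρ σ x = H35.cyc ℤ_[r] hp σ • x) →
    MultChar N r J K

end Fermat.Agent.H76M
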