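import Mathlib
import Fermat.Agent.H76MStmt
import Fermat.Agent.H15Fit

/-!
# MAZUR G2, piece M: `MultChar` from the action of inertia on the Tate module
-/

set_option autoImplicit false
set_option linter.unusedSectionVars false

noncomputable section

open Module Fermat.Agent.H15 Fermat.Agent.H30 ModularCurve IsLocalRing

namespace Fermat.Agent.H54Mz

variable {N r : ℕ} {J : Type} [AddCommGroup J] [Module HeckeAlg J] [DistribMulAction GQ J]

theorem WSub_mono {k l : ℕ} (h : k ≤ l) {x : J} (hx : x ∈ WSub N r J k) : x ∈ WSub N r J l := by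
  obtain ⟨m, rfl⟩ := Nat.exists_eq_add_of_le h
  exact ⟨by rw [pow_add, mul_comm, mul_smul, hx.1, smul_zero], hx.2⟩

/-- `W ∩ K_A` is `r`-divisible. -/
theorem exists_smul_eq_of_mem (hr : r.Prime) {K : AddSubgroup J}
    (hfin : ∀ m : ℕ, m ≠ 0 → {x : J | m • x = 0}.Finite)
    (hH : ∀ t : HeckeAlg, ∀ x ∈ K, t • x ∈ K) (hD : ∀ x ∈ K, ∃ y ∈ K, r • y = x)
    {l : ℕ} {x : J} (hx : x ∈ WSub N r J l) (hxK : x ∈ K) :
    ∃ y ∈ WSub N r J (l + 1), y ∈ K ∧ r • y = x := by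
  obtain ⟨z, hzK, hz⟩ := hD x hxK
  obtain ⟨ε, h1, h2⟩ := exists_eps (N := N) hr.ne_zero hfin (l + 1)
  have hz' : (r ^ (l + 1) : ℕ) • z = 0 := by
    rw [pow_succ, mul_smul, hz]
    exact hx.1
  refine ⟨ε • z, h1 z hz', hH ε z hzK, ?_⟩
  rw [← Nat.cast_smul_eq_nsmul HeckeAlg, smul_comm, Nat.cast_smul_eq_nsmul HeckeAlg, hz]
  exact h2 x (WSub_mono (Nat.le_succ l) hx)

/-- Points of `W_k ∩ K_A` lift to the multiplicative part of the Tate module. -/
theorem exists_lift_TK [Fact r.Prime] {K : AddSubgroup J}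
    (hfin : ∀ m : ℕ, m ≠ 0 → {x : J | m • x = 0}.Finite)
    (hH : ∀ t : HeckeAlg, ∀ x ∈ K, t • x ∈ K) (hD : ∀ x ∈ K, ∃ y ∈ K, r • y = x)
    (k : ℕ) {x : J} (hx : x ∈ WSub N r J k) (hxK : x ∈ K) :
    ∃ t ∈ H76M.TK N r J K, ((TateMod.proj k t : H76M.Winf N r J) : J) = x := by
  have hr : r.Prime := Fact.out
  let W : AddSubgroup J := H76M.Winf N r J ⊓ K
  have hdiv : ∀ y ∈ (Set.univ : Set W), ∃ z ∈ (Set.univ : Set W), r • z = y := by
    rintro ⟨y, ⟨l, hl⟩, hyK⟩ -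
    obtain ⟨z, hz, hzK, hzy⟩ := exists_smul_eq_of_mem hr hfin hH hD hl hyK
    exact ⟨⟨z, ⟨l + 1, hz⟩, hzK⟩, trivial, Subtype.ext hzy⟩
  obtain ⟨t, ht⟩ := TateMod.exists_of_divisible (p := r) Set.univ hdiv k
    ⟨x, ⟨k, hx⟩, hxK⟩ trivial (Subtype.ext hx.1)
  let t' : H76M.TW N r J := TateMod.mk
    (fun n => (⟨((TateMod.proj n t : W) : J), (TateMod.proj n t).2.1⟩ : H76M.Winf N r J))
    (Subtype.ext (by
      show ((TateMod.proj 0 t : W) : J) = 0
      rw [TateMod.proj_zero]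
      rfl))
    (fun n => Subtype.ext (by
      show r • ((TateMod.proj (n + 1) t : W) : J) = ((TateMod.proj n t : W) : J)
      rw [← TateMod.smul_proj_succ t n]
      rfl))
  refine ⟨t', fun n => (TateMod.proj n t).2.2, ?_⟩
  show ((TateMod.proj k t : W) : J) = x
  rw [ht]

/-- **Piece M.** -/
theorem pieceM : H76M.PieceM := by
  intro N r _ hN hrN J _ _ _ _ K hB hH hD t hW D hp hmult A hA k σ hσ n hn x hx
  have hr : r.Prime := Fact.out
  have hrN' : ¬ r ∣ N := fun h => hrN ((Nat.prime_dvd_prime_iff_eq hr hN).mp h)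
  obtain ⟨y, hy, hyx⟩ := exists_lift_TK hB.torsion_finite (hH r hr hrN' A hA)
    (hD r hr hrN' A hA r hr) k hx.1 hx.2
  have h1 := D.ρ_apply σ y k
  rw [hmult A hA σ hσ y hy, hyx] at h1
  rw [← h1]
  have h2 : PadicInt.toZModPow k (H35.cyc ℤ_[r] hp σ) = (n : ZMod (r ^ k)) := by
    have h3 := H35.cyc_sub_mem ℤ_[r] hp σ k n hn
    rw [PadicInt.maximalIdeal_eq_span_p, Ideal.span_singleton_pow, ← PadicInt.ker_toZModPow,
      RingHom.mem_ker, map_sub, map_natCast, sub_eq_zero] at h3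
    exact h3
  rw [TateMod.proj_smul_eq _ y k n h2]
  show n • ((TateMod.proj k y : H76M.Winf N r J) : J) = n • x
  rw [hyx]

end Fermat.Agent.H54Mz
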