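import Mathlib

/-!
# MAZUR, job 181 (C): algebraic extensions of `ℚ_r` embed into `ℂ`
-/

set_option autoImplicit false

open Cardinal

namespace Fermat.Agent.H6.Mz

theorem mk_padic_le (r : ℕ) [Fact r.Prime] : #ℚ_[r] ≤ 𝔠 := by
  have h1 : #(CauSeq ℚ (padicNorm r)) ≤ #(ℕ → ℚ) :=
    Cardinal.mk_le_of_injective (f := fun s : CauSeq ℚ (padicNorm r) => (s : ℕ → ℚ))
      Subtype.val_injective
  have h2 : #(ℕ → ℚ) = 𝔠 := by
    rw [← Cardinal.power_def, Cardinal.mk_denumerable ℚ, Cardinal.mk_denumerable ℕ,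
      Cardinal.aleph0_power_aleph0]
  have h3 : #ℚ_[r] ≤ #(CauSeq ℚ (padicNorm r)) :=
    Cardinal.mk_le_of_surjective (f := fun s : CauSeq ℚ (padicNorm r) => (Padic.mk s : ℚ_[r]))
      (fun x => Quotient.exists_rep x)
  exact (h3.trans h1).trans h2.le

theorem mk_padic (r : ℕ) [Fact r.Prime] : #ℚ_[r] = 𝔠 :=
  le_antisymm (mk_padic_le r) (continuum_le_cardinal_of_nontriviallyNormedField ℚ_[r])

/-- An algebraic extension of `ℚ_r` embeds into `ℂ`. -/
theorem exists_embedding (r : ℕ) [Fact r.Prime] (K : Type) [Field K] [Algebra ℚ_[r] K]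
    [Algebra.IsAlgebraic ℚ_[r] K] : Nonempty (K →+* ℂ) := by
  let L := AlgebraicClosure ℚ_[r]
  have : CharZero L := charZero_of_injective_algebraMap (algebraMap ℚ_[r] L).injective
  have hL : #L = 𝔠 := by
    apply le_antisymm
    · have h := Algebra.IsAlgebraic.cardinalMk_le_max ℚ_[r] L
      rw [mk_padic] at h
      exact h.trans (max_le le_rfl Cardinal.aleph0_le_continuum)
    · rw [← mk_padic r]
      exact Cardinal.mk_le_of_injective (algebraMap ℚ_[r] L).injective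
  have hLC : Nonempty (L ≃ ℂ) := by
    rw [← Cardinal.eq, hL, Cardinal.mk_complex]
  obtain ⟨e⟩ := IsAlgClosed.ringEquiv_of_equiv_of_charZero (K := L) (L := ℂ)
    (by rw [hL]; exact Cardinal.aleph0_lt_continuum) hLC
  exact ⟨(e : L →+* ℂ).comp ((IsAlgClosed.lift (M := L) (R := ℚ_[r]) (S := K)).toRingHom)⟩

end Fermat.Agent.H6.Mz
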