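import Mathlib
import Fermat.Agent.S08
import Fermat.Agent.H44AtkinLehner
import Fermat.Agent.H49HeckeBasic
import Fermat.Prelude.Sol.S_UpperHalfPlane_qCoeff_heckeT

/-!
# Forms of prime level with vanishing coprime coefficients (MZ-G2, piece A)

A cusp form of weight 2 on `Γ₀(N)`, `N` prime, whose coefficients of index prime to `N` vanish is zero.
-/

set_option autoImplicit false
set_option linter.style.haveILetI false

noncomputable section

open Matrix.SpecialLinearGroup UpperHalfPlane ModularForm CongruenceSubgroup ModularFormClass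
open scoped MatrixGroups ModularForm

namespace Fermat.Agent.H54Mz

/-- `f(z) = g(Nz)` for `g = U_N f`. -/
theorem heckeU_slash_diag {N : ℕ} [NeZero N] (hN : N.Prime) (f : CuspForm (Gamma0 N) 2)
    (h : ∀ n : ℕ, n.Coprime N → qCoeff f n = 0) :
    ⇑(CuspForm.heckeULin 2 (dvd_refl N) f) ∣[(2 : ℤ)] heckeDiagMatrix N = (N : ℂ) • ⇑f := by
  have hΓ : (1 : ℝ) ∈ (Gamma0 N : Subgroup (GL (Fin 2) ℝ)).strictPeriods := by
    rw [strictPeriods_Gamma0]; exact AddSubgroup.mem_zmultiples _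
  haveI : Fact (IsCusp OnePoint.infty (Gamma0 N : Subgroup (GL (Fin 2) ℝ))) :=
    ⟨Subgroup.isCusp_of_mem_strictPeriods one_pos hΓ⟩
  set g : CuspForm (Gamma0 N) 2 := CuspForm.heckeULin 2 (dvd_refl N) f with hg
  funext τ
  have h2 := P2MW.S_UpperHalfPlane_qCoeff_heckeT.M4cP1W2.hasSum_diag hN.ne_zero
    (SlashInvariantFormClass.periodic_comp_ofComplex g hΓ) (holo g) (bdd_at_infty g) 2 τ
  have h3 := (P2MW.S_UpperHalfPlane_qCoeff_heckeT.M4cP1W2.hasSum_qCoeff f hΓ τ).const_smul (N : ℂ)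
  rw [slash_heckeDiagMatrix_apply 2 hN.ne_zero, Pi.smul_apply]
  refine h2.unique ?_
  convert h3 using 1
  funext n
  split_ifs with hn
  · obtain ⟨m, rfl⟩ := hn
    rw [Nat.mul_div_cancel_left _ hN.pos, hg, H49.qCoeff_heckeULin hN.ne_zero (dvd_refl N)]
    simp only [smul_eq_mul]
    norm_num
    ring_nf
  · have h4 : n.Coprime N := ((Nat.Prime.coprime_iff_not_dvd hN).mpr hn).symm
    rw [h n h4]
    simp

/-- matrices conjugating `Γ⁰(N)` to `Γ₀(N)` -/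
theorem slash_of_dvd {N : ℕ} [NeZero N] (f : CuspForm (Gamma0 N) 2) (g : ℍ → ℂ) (c : ℂ)
    (hg : g ∣[(2 : ℤ)] heckeDiagMatrix N = c • ⇑f) (γ : SL(2, ℤ)) (hγ : (N : ℤ) ∣ γ 0 1) :
    g ∣[(2 : ℤ)] (mapGL ℝ γ : GL (Fin 2) ℝ) = g := by
  have hN0 : N ≠ 0 := NeZero.ne N
  obtain ⟨b, hb⟩ := hγ
  have hdet : γ 0 0 * γ 1 1 - γ 0 1 * γ 1 0 = 1 := by
    have := γ.2
    rwa [Matrix.det_fin_two] at this
  let γ' : SL(2, ℤ) := ⟨!![γ 0 0, b; γ 1 0 * N, γ 1 1], by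
    rw [Matrix.det_fin_two_of]; rw [hb] at hdet; linear_combination hdet⟩
  have hγ' : γ' ∈ Gamma0 N := by
    rw [Gamma0_mem]
    show ((γ 1 0 * N : ℤ) : ZMod N) = 0
    simp
  have hmul : (mapGL ℝ γ : GL (Fin 2) ℝ) * heckeDiagMatrix N =
      heckeDiagMatrix N * (mapGL ℝ γ' : GL (Fin 2) ℝ) := by
    apply Units.ext
    have hb' : ((γ 0 1 : ℤ) : ℝ) = N * b := by rw [hb]; push_cast; ring
    ext i j
    rw [Units.val_mul, Units.val_mul, val_heckeDiagMatrix hN0]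
    fin_cases i <;> fin_cases j <;>
      simp [Matrix.mul_apply, Fin.sum_univ_two, hb', γ'] <;> ring_nf
  have h1 : (g ∣[(2 : ℤ)] (mapGL ℝ γ : GL (Fin 2) ℝ)) ∣[(2 : ℤ)] heckeDiagMatrix N =
      g ∣[(2 : ℤ)] heckeDiagMatrix N := by
    rw [← SlashAction.slash_mul, hmul, SlashAction.slash_mul, hg, ModularForm.smul_slash]
    have hinv : ⇑f ∣[(2 : ℤ)] (mapGL ℝ γ' : GL (Fin 2) ℝ) = ⇑f :=
      SlashInvariantFormClass.slash_action_eq f _ (Subgroup.mem_map_of_mem _ hγ')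
    rw [hinv]
    congr 1
    have hdet : 0 < ((mapGL ℝ γ' : GL (Fin 2) ℝ).det : ℝ) := by simp
    rw [UpperHalfPlane.σ, if_pos hdet]
    rfl
  have h2 := congrArg (fun φ : ℍ → ℂ => φ ∣[(2 : ℤ)] (heckeDiagMatrix N)⁻¹) h1
  simp only [← SlashAction.slash_mul, mul_inv_cancel_right, mul_inv_cancel,
    SlashAction.slash_one] at h2
  exact h2

/-- **(A)** -/
theorem eq_zero_of_qCoeff_coprime {N : ℕ} [NeZero N] (hN : N.Prime)
    (f : CuspForm (CongruenceSubgroup.Gamma0 N) 2)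
    (h : ∀ n : ℕ, n.Coprime N → ModularFormClass.qCoeff f n = 0) : f = 0 := by
  set g : CuspForm (Gamma0 N) 2 := CuspForm.heckeULin 2 (dvd_refl N) f with hg
  have hd := heckeU_slash_diag hN f h
  rw [← hg] at hd
  have hb : ∀ γ : SL(2, ℤ), (N : ℤ) ∣ γ 0 1 → ⇑g ∣[(2 : ℤ)] (mapGL ℝ γ : GL (Fin 2) ℝ) = ⇑g :=
    fun γ hγ => slash_of_dvd f ⇑g _ hd γ hγ
  have hc : ∀ γ : SL(2, ℤ), γ ∈ Gamma0 N → ⇑g ∣[(2 : ℤ)] (mapGL ℝ γ : GL (Fin 2) ℝ) = ⇑g :=
    fun γ hγ => SlashInvariantFormClass.slash_action_eq g _ (Subgroup.mem_map_of_mem _ hγ)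
  -- the translations
  let T (j : ℤ) : SL(2, ℤ) := ⟨!![1, j; 0, 1], by simp [Matrix.det_fin_two_of]⟩
  have hT : ∀ j, T j ∈ Gamma0 N := fun j => by
    rw [Gamma0_mem]; show ((0 : ℤ) : ZMod N) = 0; simp
  have hTinv : ∀ j : ℤ, (T j)⁻¹ ∈ Gamma0 N := fun j => inv_mem (hT j)
  -- case `N ∤ γ 0 0`
  have key : ∀ γ : SL(2, ℤ), ¬ (N : ℤ) ∣ γ 0 0 →
      ⇑g ∣[(2 : ℤ)] (mapGL ℝ γ : GL (Fin 2) ℝ) = ⇑g := by
    intro γ hγ
    have hcop : IsCoprime (γ 0 0) (N : ℤ) :=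
      ((Nat.prime_iff_prime_int.mp hN).coprime_iff_not_dvd.mpr hγ).symm
    obtain ⟨u, v, huv⟩ := hcop
    have hmem : (N : ℤ) ∣ (γ * T (-(u * γ 0 1))) 0 1 := by
      have h1 : (γ * T (-(u * γ 0 1))) 0 1 = γ 0 0 * (-(u * γ 0 1)) + γ 0 1 := by
        rw [Matrix.SpecialLinearGroup.coe_mul, Matrix.mul_apply, Fin.sum_univ_two]
        show γ 0 0 * (-(u * γ 0 1)) + γ 0 1 * 1 = _
        ring
      rw [h1]
      exact ⟨v * γ 0 1, by linear_combination (γ 0 1) * (-huv)⟩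
    have h1 := hb _ hmem
    rw [map_mul, SlashAction.slash_mul] at h1
    have h2 := congrArg (fun φ : ℍ → ℂ => φ ∣[(2 : ℤ)]
      (mapGL ℝ (T (-(u * γ 0 1)))⁻¹ : GL (Fin 2) ℝ)) h1
    beta_reduce at h2
    rw [hc _ (hTinv _), ← SlashAction.slash_mul, ← map_mul, mul_inv_cancel, map_one,
      SlashAction.slash_one] at h2
    exact h2
  have hall : ∀ γ ∈ Gamma0 1, ⇑g ∣[(2 : ℤ)] (mapGL ℝ γ : GL (Fin 2) ℝ) = ⇑g := by
    intro γ _
    by_cases h0 : (N : ℤ) ∣ γ 0 0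
    · have h1 : ¬ (N : ℤ) ∣ (T 1 * γ) 0 0 := by
        have h2 : (T 1 * γ) 0 0 = γ 0 0 + γ 1 0 := by
          rw [Matrix.SpecialLinearGroup.coe_mul, Matrix.mul_apply, Fin.sum_univ_two]
          show 1 * γ 0 0 + 1 * γ 1 0 = _
          ring
        rw [h2]
        intro h3
        have h4 : (N : ℤ) ∣ γ 1 0 := (dvd_add_right h0).mp h3
        have hdet : γ 0 0 * γ 1 1 - γ 0 1 * γ 1 0 = 1 := by
          have := γ.2
          rwa [Matrix.det_fin_two] at this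
        have h5 : (N : ℤ) ∣ 1 := by
          rw [← hdet]
          exact dvd_sub (h0.mul_right _) (h4.mul_left _)
        exact (Nat.prime_iff_prime_int.mp hN).not_isUnit (isUnit_of_dvd_one h5)
      have h2 := key _ h1
      rw [map_mul, SlashAction.slash_mul, hc _ (hT 1)] at h2
      exact h2
    · exact key γ h0
  have hg0 : g = 0 := by
    have h1 : H44.lowerCusp (M' := 1) 2 g hall = 0 := Fermat.Agent.S08.result _
    apply DFunLike.coe_injective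
    exact congrArg (fun φ : CuspForm (Gamma0 1) 2 => (⇑φ : ℍ → ℂ)) h1
  rw [hg0] at hd
  have h3 : (N : ℂ) • (⇑f : ℍ → ℂ) = 0 := by
    rw [← hd]
    show ((0 : ℍ → ℂ)) ∣[(2 : ℤ)] heckeDiagMatrix N = 0
    simp
  apply DFunLike.coe_injective
  rcases smul_eq_zero.mp h3 with h4 | h4
  · exact absurd (Nat.cast_eq_zero.mp h4) hN.ne_zero
  · exact h4

end Fermat.Agent.H54Mz
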