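import Mathlib
import Fermat.Agent.H4Periods
import Fermat.Agent.H8ShimMain
import Fermat.Agent.H80S20
import Fermat.Agent.H49HeckeBasic

/-!
# MAZUR, job 181 (B): Hecke eigenspaces on `Hom_PE(Γ₀(N), ℂ)` have dimension at most two

`N` prime. Every `φ` killing parabolic and elliptic elements is uniquely `per a + conj (per b)`.
-/

set_option autoImplicit false
set_option linter.unusedSectionVars false

noncomputable section

open CongruenceSubgroup UpperHalfPlane ModularForm ModularCurve ModularFormClass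
open scoped MatrixGroups

namespace Fermat.Agent.H6.Mz

open Fermat.Agent.H4 (IsPE heckeHom heckeHom_comp heckeHom_smul periodMap_heckeTLin periodMap_add'
  periodMap_smul' periodMap_zero')

variable {N : ℕ} [NeZero N]

/-- complex conjugation as additive map -/
def cj : ℂ →+ ℂ := (starRingEnd ℂ).toAddMonoidHom

@[simp] theorem cj_apply (z : ℂ) : cj z = starRingEnd ℂ z := rfl

/-- `per a + conj (per b)` -/
def pp (a b : CuspForm (Gamma0 N) 2) : Additive (Gamma0 N) →+ ℂ :=
  periodMap N a + cj.comp (periodMap N b)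

theorem pp_apply (a b : CuspForm (Gamma0 N) 2) (γ : Additive (Gamma0 N)) :
    pp a b γ = periodMap N a γ + starRingEnd ℂ (periodMap N b γ) := rfl

theorem pp_add (a b a' b' : CuspForm (Gamma0 N) 2) :
    pp (a + a') (b + b') = pp a b + pp a' b' := by
  refine AddMonoidHom.ext fun γ => ?_
  rw [AddMonoidHom.add_apply, pp_apply, pp_apply, pp_apply, periodMap_add', periodMap_add',
    AddMonoidHom.add_apply, AddMonoidHom.add_apply, map_add]
  ring

theorem pp_smul (c : ℂ) (a b : CuspForm (Gamma0 N) 2) :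
    pp (c • a) (starRingEnd ℂ c • b) = c • pp a b := by
  refine AddMonoidHom.ext fun γ => ?_
  rw [AddMonoidHom.smul_apply, pp_apply, pp_apply, periodMap_smul', periodMap_smul',
    AddMonoidHom.smul_apply, AddMonoidHom.smul_apply, smul_eq_mul, smul_eq_mul, smul_eq_mul,
    map_mul, Complex.conj_conj]
  ring

/-- the bundled map (real-linear; only additivity is used) -/
def ppHom : CuspForm (Gamma0 N) 2 × CuspForm (Gamma0 N) 2 →+ (Additive (Gamma0 N) →+ ℂ) where
  toFun x := pp x.1 x.2
  map_zero' := by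
    refine AddMonoidHom.ext fun γ => ?_
    change pp (0 : CuspForm (Gamma0 N) 2) 0 γ = 0
    rw [pp_apply, periodMap_zero']
    simp
  map_add' x y := pp_add _ _ _ _

/-- If all real parts of the periods vanish, the form vanishes. -/
theorem eq_zero_of_re (f : CuspForm (Gamma0 N) 2)
    (h : ∀ γ, (periodMap N f γ).re = 0) : f = 0 := by
  apply H8.realPeriod_injective N
  rw [map_zero]
  apply Subtype.ext
  rw [H8.realPeriod_coe]
  refine AddMonoidHom.ext fun γ => ?_
  exact h γ

theorem eq_zero_of_pp (a b : CuspForm (Gamma0 N) 2) (h : pp a b = 0) : a = 0 ∧ b = 0 := by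
  have h1 : a + b = 0 := by
    apply eq_zero_of_re
    intro γ
    have := congrArg Complex.re (DFunLike.congr_fun h γ)
    rw [pp_apply, Complex.add_re, Complex.conj_re] at this
    rw [periodMap_add', AddMonoidHom.add_apply, Complex.add_re]
    simpa using this
  have hb : b = -a := by rw [← add_eq_zero_iff_neg_eq.mp h1]
  have h2 : Complex.I • a = 0 := by
    apply eq_zero_of_re
    intro γ
    have := congrArg Complex.im (DFunLike.congr_fun h γ)
    have h3 : periodMap N b = (-1 : ℂ) • periodMap N a := by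
      rw [← periodMap_smul', hb]; simp
    rw [pp_apply, Complex.add_im, Complex.conj_im, h3, AddMonoidHom.smul_apply, smul_eq_mul,
      neg_one_mul, Complex.neg_im, neg_neg, AddMonoidHom.zero_apply, Complex.zero_im] at this
    rw [periodMap_smul', AddMonoidHom.smul_apply, smul_eq_mul, Complex.I_mul_re]
    linarith
  have h3 : a = 0 := (smul_eq_zero.mp h2).resolve_left Complex.I_ne_zero
  exact ⟨h3, by rw [hb, h3, neg_zero]⟩

theorem pp_injective {a b a' b' : CuspForm (Gamma0 N) 2} (h : pp a b = pp a' b') :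
    a = a' ∧ b = b' := by
  have h1 : ppHom (a - a', b - b') = (0 : Additive (Gamma0 N) →+ ℂ) := by
    have : ppHom ((a, b) - (a', b')) = (0 : Additive (Gamma0 N) →+ ℂ) := by
      rw [map_sub]
      exact sub_eq_zero.mpr h
    exact this
  obtain ⟨h2, h3⟩ := eq_zero_of_pp _ _ h1
  exact ⟨sub_eq_zero.mp h2, sub_eq_zero.mp h3⟩

/-- **Every class killing parabolic and elliptic elements is `per a + conj (per b)`.** -/
theorem exists_pp (φ : Additive (Gamma0 N) →+ ℂ) (hφ : IsPE φ) :
    ∃ a b : CuspForm (Gamma0 N) 2, pp a b = φ := by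
  obtain ⟨f, hf⟩ := (H8.realPeriod_surjective (H80.finrank_eq_genusFormula N)).1
    ⟨Complex.reAddGroupHom.comp φ, fun γ hγ => by
      rw [AddMonoidHom.comp_apply, hφ γ hγ, map_zero]⟩
  obtain ⟨g, hg⟩ := (H8.realPeriod_surjective (H80.finrank_eq_genusFormula N)).1
    ⟨Complex.imAddGroupHom.comp φ, fun γ hγ => by
      rw [AddMonoidHom.comp_apply, hφ γ hγ, map_zero]⟩
  have hf' : ∀ γ, (periodMap N f γ).re = (φ γ).re := fun γ =>
    DFunLike.congr_fun (congrArg Subtype.val hf) γ
  have hg' : ∀ γ, (periodMap N g γ).re = (φ γ).im := fun γ =>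
    DFunLike.congr_fun (congrArg Subtype.val hg) γ
  refine ⟨(2 : ℂ)⁻¹ • (f + Complex.I • g), (2 : ℂ)⁻¹ • (f + (-Complex.I) • g), ?_⟩
  refine AddMonoidHom.ext fun γ => ?_
  rw [pp_apply, periodMap_smul', periodMap_smul', periodMap_add', periodMap_add', periodMap_smul',
    periodMap_smul']
  simp only [AddMonoidHom.smul_apply, AddMonoidHom.add_apply, smul_eq_mul, map_mul, map_add,
    map_neg, Complex.conj_I, map_inv₀, Complex.conj_ofNat]
  apply Complex.ext
  · simp only [Complex.add_re, Complex.mul_re, Complex.inv_re, Complex.inv_im, Complex.add_im,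
      Complex.mul_im, Complex.I_re, Complex.I_im, Complex.neg_re, Complex.neg_im, Complex.conj_re,
      Complex.conj_im, Complex.re_ofNat, Complex.im_ofNat, ← hf' γ]
    norm_num
    ring
  · simp only [Complex.add_re, Complex.mul_re, Complex.inv_re, Complex.inv_im, Complex.add_im,
      Complex.mul_im, Complex.I_re, Complex.I_im, Complex.neg_re, Complex.neg_im, Complex.conj_re,
      Complex.conj_im, Complex.re_ofNat, Complex.im_ofNat, ← hg' γ]
    norm_num
    ring

theorem heckeHom_pp {ℓ : ℕ} [Fact ℓ.Prime] (hℓN : ¬ ℓ ∣ N) (a b : CuspForm (Gamma0 N) 2) :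
    heckeHom hℓN (pp a b) = pp (CuspForm.heckeTLin 2 (Fact.out : ℓ.Prime) hℓN a)
      (CuspForm.heckeTLin 2 (Fact.out : ℓ.Prime) hℓN b) := by
  rw [pp, map_add, heckeHom_comp, ← periodMap_heckeTLin, ← periodMap_heckeTLin]
  rfl

/-- an eigenform away from `N` with `a₁ = 0` has all `aₙ = 0`, `(n, N) = 1` -/
theorem qCoeff_eq_zero (f : CuspForm (Gamma0 N) 2) (χ : ℕ → ℂ)
    (hf : ∀ (ℓ : ℕ) (hℓ : ℓ.Prime) (hℓN : ¬ ℓ ∣ N), CuspForm.heckeTLin 2 hℓ hℓN f = χ ℓ • f)
    (h1 : qCoeff f 1 = 0) (n : ℕ) (hn : n.Coprime N) : qCoeff f n = 0 := by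
  induction n using Nat.strong_induction_on with
  | _ n ih =>
    by_cases hn0 : n = 0
    · subst hn0
      exact H49.qCoeff_zero_eq_zero f
    by_cases hn1 : n = 1
    · rw [hn1, h1]
    obtain ⟨ℓ, hℓ, m, rfl⟩ := Nat.exists_prime_and_dvd hn1
    have hm0 : m ≠ 0 := by rintro rfl; exact hn0 (mul_zero _)
    have hℓN : ¬ ℓ ∣ N := by
      intro h
      have := Nat.Coprime.coprime_dvd_left (Dvd.intro m rfl) hn
      rw [Nat.Prime.coprime_iff_not_dvd hℓ] at this
      exact this h
    have hmN : m.Coprime N := Nat.Coprime.coprime_dvd_left (Dvd.intro_left ℓ rfl) hn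
    have hmlt : m < ℓ * m := by
      have := hℓ.two_le
      nlinarith [Nat.pos_of_ne_zero hm0]
    have key := H49.qCoeff_heckeTLin hℓ hℓN f m
    rw [hf ℓ hℓ hℓN, H49.qCoeff_smul, ih m hmlt hmN, mul_zero, mul_comm m ℓ] at key
    rw [eq_comm] at key
    split_ifs at key with hd
    · have h2 : m / ℓ < ℓ * m := lt_of_le_of_lt (Nat.div_le_self _ _) hmlt
      have h3 : (m / ℓ).Coprime N := Nat.Coprime.coprime_dvd_left (Nat.div_dvd_of_dvd hd) hmN
      rw [ih _ h2 h3, mul_zero, add_zero] at key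
      exact key
    · rw [add_zero] at key
      exact key

/-- A Hecke eigenspace in `Hom_PE(Γ₀(N), ℂ)` has dimension at most `2`; here (A) is an input. -/
theorem not_linearIndependent_three_of
    (hA : ∀ f : CuspForm (Gamma0 N) 2, (∀ n : ℕ, n.Coprime N → qCoeff f n = 0) → f = 0)
    (χ : ℕ → ℂ) (φ : Fin 3 → (Additive (Gamma0 N) →+ ℂ)) (hPE : ∀ i, IsPE (φ i))
    (hφ : ∀ i (ℓ : ℕ) [Fact ℓ.Prime] (hℓN : ¬ ℓ ∣ N), heckeHom hℓN (φ i) = χ ℓ • φ i) :
    ¬ LinearIndependent ℂ φ := by
  intro hli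
  choose a b hab using fun i => exists_pp (φ i) (hPE i)
  have key : ∀ i (ℓ : ℕ) (hℓ : ℓ.Prime) (hℓN : ¬ ℓ ∣ N),
      CuspForm.heckeTLin 2 hℓ hℓN (a i) = χ ℓ • a i ∧
        CuspForm.heckeTLin 2 hℓ hℓN (b i) = starRingEnd ℂ (χ ℓ) • b i := by
    intro i ℓ hℓ hℓN
    have : Fact ℓ.Prime := ⟨hℓ⟩
    have h := hφ i ℓ hℓN
    rw [← hab i, heckeHom_pp, ← pp_smul] at h
    exact pp_injective h
  -- two linear conditions on three unknowns
  obtain ⟨c, hc0, hc1, hc2⟩ : ∃ c : Fin 3 → ℂ, c ≠ 0 ∧ ∑ i, c i * qCoeff (a i) 1 = 0 ∧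
      ∑ i, c i * starRingEnd ℂ (qCoeff (b i) 1) = 0 := by
    let F : (Fin 3 → ℂ) →ₗ[ℂ] (Fin 2 → ℂ) :=
      LinearMap.pi ![∑ i, (qCoeff (a i) 1) • LinearMap.proj i,
        ∑ i, (starRingEnd ℂ (qCoeff (b i) 1)) • LinearMap.proj i]
    have hF : ¬ Function.Injective F := by
      intro hinj
      have := LinearMap.finrank_le_finrank_of_injective hinj
      simp at this
    rw [injective_iff_map_eq_zero] at hF
    push Not at hF
    obtain ⟨c, hc, hc0⟩ := hF
    refine ⟨c, hc0, ?_, ?_⟩
    · have := congrFun hc 0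
      simpa [F, LinearMap.pi_apply, LinearMap.sum_apply, mul_comm] using this
    · have := congrFun hc 1
      simpa [F, LinearMap.pi_apply, LinearMap.sum_apply, mul_comm] using this
  have hf : ∑ i, c i • a i = 0 := by
    apply hA
    apply qCoeff_eq_zero _ χ
    · intro ℓ hℓ hℓN
      rw [map_sum, Finset.smul_sum]
      refine Finset.sum_congr rfl fun i _ => ?_
      rw [map_smul, (key i ℓ hℓ hℓN).1, smul_comm]
    · rw [H49.qCoeff_sum]
      simp only [H49.qCoeff_smul]
      exact hc1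
  have hg : ∑ i, starRingEnd ℂ (c i) • b i = 0 := by
    apply hA
    apply qCoeff_eq_zero _ (fun ℓ => starRingEnd ℂ (χ ℓ))
    · intro ℓ hℓ hℓN
      rw [map_sum, Finset.smul_sum]
      refine Finset.sum_congr rfl fun i _ => ?_
      rw [map_smul, (key i ℓ hℓ hℓN).2, smul_comm]
    · rw [H49.qCoeff_sum]
      simp only [H49.qCoeff_smul]
      have := congrArg (starRingEnd ℂ) hc2
      rw [map_sum, map_zero] at this
      simpa using this
  apply hc0
  have hsum : ∑ i, c i • φ i = 0 := by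
    have h1 : ∑ i, c i • φ i = ppHom (∑ i, (c i • a i, starRingEnd ℂ (c i) • b i)) := by
      rw [map_sum]
      refine Finset.sum_congr rfl fun i _ => ?_
      rw [← hab i, ← pp_smul]
      rfl
    rw [h1]
    have h2 : ∑ i, (c i • a i, starRingEnd ℂ (c i) • b i) =
        ((0 : CuspForm (Gamma0 N) 2), (0 : CuspForm (Gamma0 N) 2)) := by
      apply Prod.ext
      · rw [Prod.fst_sum]; exact hf
      · rw [Prod.snd_sum]; exact hg
    rw [h2]
    exact ppHom.map_zero
  rw [Fintype.linearIndependent_iff] at hli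
  exact funext (hli c hsum)

end Fermat.Agent.H6.Mz

end
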