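import Mathlib
import Fermat.Agent.H6MzThree
import Fermat.Agent.H54MzA

/-!
# MAZUR, job 181 (B), final form
-/

set_option autoImplicit false

noncomputable section

open CongruenceSubgroup UpperHalfPlane ModularForm ModularCurve ModularFormClass
open scoped MatrixGroups

namespace Fermat.Agent.H6.Mz

/-- (B): Hecke eigenspaces on `Hom_PE(Γ₀(N), ℂ)`, `N` prime, have dimension at most `2`. -/
theorem not_linearIndependent_three {N : ℕ} [NeZero N] (hN : N.Prime) (χ : ℕ → ℂ)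
    (φ : Fin 3 → (Additive (Gamma0 N) →+ ℂ)) (hPE : ∀ i, Fermat.Agent.H4.IsPE (φ i))
    (hφ : ∀ i (ℓ : ℕ) [Fact ℓ.Prime] (hℓN : ¬ ℓ ∣ N),
      Fermat.Agent.H4.heckeHom hℓN (φ i) = χ ℓ • φ i) :
    ¬ LinearIndependent ℂ φ :=
  not_linearIndependent_three_of
    (fun f hf => Fermat.Agent.H54Mz.eq_zero_of_qCoeff_coprime hN f hf) χ φ hPE hφ

end Fermat.Agent.H6.Mz

end
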