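import Fermat.Agent.H94BRJ
import Fermat.Agent.H6MzEmb
import Fermat.Agent.H6MzThreeB

/-!
# MAZUR, job 181 (H): Hecke eigenspaces in `L ⊗ T_r J₀(N)` have dimension at most two
-/

set_option autoImplicit false
set_option linter.unusedSectionVars false

noncomputable section

namespace Fermat.Agent.H58.Mz

open CongruenceSubgroup ModularCurve Fermat.Agent.H30 Fermat.Agent.H35 Fermat.Agent.H4
open Fermat.Agent.H94.BR
open scoped TensorProduct MatrixGroups

/-- The map `L ⊗ T → C ⊗ T`. -/
def chg (Z L C T : Type*) [CommRing Z] [Field L] [Field C] [AddCommGroup T] [Module Z T]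
    [Algebra Z L] [Algebra L C] [Algebra Z C] [IsScalarTower Z L C] :
    L ⊗[Z] T →ₗ[Z] C ⊗[Z] T :=
  LinearMap.rTensor T ((IsScalarTower.toAlgHom Z L C).toLinearMap)

section Chg

variable {Z L C T : Type*} [CommRing Z] [Field L] [Field C] [AddCommGroup T] [Module Z T]
    [Algebra Z L] [Algebra L C] [Algebra Z C] [IsScalarTower Z L C]

theorem chg_tmul (l : L) (t : T) : chg Z L C T (l ⊗ₜ t) = algebraMap L C l ⊗ₜ t := rfl

theorem chg_smul (l : L) (x : L ⊗[Z] T) :
    chg Z L C T (l • x) = algebraMap L C l • chg Z L C T x := by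
  induction x using TensorProduct.induction_on with
  | zero => simp
  | tmul a t => rw [TensorProduct.smul_tmul', smul_eq_mul, chg_tmul, chg_tmul, map_mul,
      TensorProduct.smul_tmul', smul_eq_mul]
  | add x y hx hy => rw [smul_add, map_add, hx, hy, map_add, smul_add]

theorem chg_baseChange (f : T →ₗ[Z] T) (x : L ⊗[Z] T) :
    f.baseChange C (chg Z L C T x) = chg Z L C T (f.baseChange L x) := by
  induction x using TensorProduct.induction_on with
  | zero => simp
  | tmul a t => rw [chg_tmul, LinearMap.baseChange_tmul, LinearMap.baseChange_tmul, chg_tmul]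
  | add x y hx hy => rw [map_add, map_add, hx, hy, map_add, map_add]

theorem chg_eq (x : L ⊗[Z] T) :
    TensorProduct.AlgebraTensorModule.cancelBaseChange Z L C C T ((1 : C) ⊗ₜ[L] x) =
      chg Z L C T x := by
  induction x using TensorProduct.induction_on with
  | zero => rw [TensorProduct.tmul_zero, map_zero, map_zero]
  | tmul a t =>
    rw [TensorProduct.AlgebraTensorModule.cancelBaseChange_tmul, chg_tmul, Algebra.smul_def,
      mul_one]
  | add x y hx hy => rw [TensorProduct.tmul_add, map_add, hx, hy, map_add]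

/-- extension of scalars preserves linear independence -/
theorem linearIndependent_chg {κ : Type*} {v : κ → L ⊗[Z] T} (hv : LinearIndependent L v) :
    LinearIndependent C fun i => chg Z L C T (v i) := by
  have h1 : LinearIndependent C fun i => ((1 : C) ⊗ₜ[L] v i : C ⊗[L] (L ⊗[Z] T)) := by
    let b := Module.Basis.extend hv.linearIndepOn_id
    have h2 := (b.baseChange C).linearIndependent
    have h3 : ∀ i, v i ∈ hv.linearIndepOn_id.extend (Set.subset_univ (Set.range v)) := fun i =>
      hv.linearIndepOn_id.subset_extend (Set.subset_univ _) ⟨i, rfl⟩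
    have h4 := h2.comp (fun i => (⟨v i, h3 i⟩ :
      hv.linearIndepOn_id.extend (Set.subset_univ (Set.range v)))) (fun i j hij =>
        hv.injective (congrArg Subtype.val hij))
    convert! h4 using 1
    ext i
    rw [Function.comp_apply, Module.Basis.baseChange_apply, Module.Basis.extend_apply_self]
  have h5 := h1.map' (TensorProduct.AlgebraTensorModule.cancelBaseChange Z L C C T).toLinearMap
    (LinearEquiv.ker _)
  convert! h5 using 1
  ext i
  exact (chg_eq _).symm

end Chg

/-- (H): Hecke eigenspaces in `L ⊗ T_r J₀(N)`, `N` prime, have dimension at most `2`. -/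
theorem pieceH {N : ℕ} [NeZero N] (hN : N.Prime) {r : ℕ} [Fact r.Prime] (L : Type) [Field L]
    [Algebra ℚ_[r] L] [FiniteDimensional ℚ_[r] L] [Algebra ℤ_[r] L] [IsScalarTower ℤ_[r] ℚ_[r] L]
    (χ : ℕ → L) (v : Fin 3 → L ⊗[ℤ_[r]] TateMod r (JZero N))
    (h : ∀ (i : Fin 3) (q : ℕ) (hq : q.Prime), q ≠ N →
      (tateMap (heckeOperatorBar N ⟨q, hq⟩).toAddMonoidHom).baseChange L (v i) = χ q • v i) :
    ¬ LinearIndependent L v := by
  intro hli
  have halg : Algebra.IsAlgebraic ℚ_[r] L := Algebra.IsAlgebraic.of_finite ℚ_[r] L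
  obtain ⟨e⟩ := Fermat.Agent.H6.Mz.exists_embedding r L
  let a1 : Algebra L ℂ := e.toAlgebra
  let a2 : Algebra ℤ_[r] ℂ := (e.comp (algebraMap ℤ_[r] L)).toAlgebra
  have t1 : IsScalarTower ℤ_[r] L ℂ := IsScalarTower.of_algebraMap_eq fun _ => rfl
  have hinj : Function.Injective (algebraMap ℤ_[r] ℂ) := by
    have h1 : Function.Injective (algebraMap ℤ_[r] L) := by
      rw [IsScalarTower.algebraMap_eq ℤ_[r] ℚ_[r] L]
      exact (algebraMap ℚ_[r] L).injective.comp (IsFractionRing.injective ℤ_[r] ℚ_[r])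
    exact e.injective.comp h1
  let w : Fin 3 → ℂ ⊗[ℤ_[r]] TateMod r (JZero N) := fun i => chg ℤ_[r] L ℂ _ (v i)
  have hw : LinearIndependent ℂ w := linearIndependent_chg hli
  have hw2 : LinearIndependent ℂ fun i => (thetaJ N hinj (w i)).1 := by
    have h1 := hw.map' (thetaJ N hinj).toLinearMap (LinearEquiv.ker _)
    exact h1.map' (Submodule.subtype _) (Submodule.ker_subtype _)
  refine Fermat.Agent.H6.Mz.not_linearIndependent_three hN (fun q => e (χ q))
    (fun i => (thetaJ N hinj (w i)).1) (fun i => (thetaJ N hinj (w i)).2) ?_ hw2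
  intro i ℓ hℓ hℓN
  have hne : ℓ ≠ N := by
    rintro rfl
    exact hℓN dvd_rfl
  rw [← thetaJ_hecke hinj hℓN]
  have h1 : (tateMap (heckeOperatorBar N ⟨ℓ, hℓ.out⟩).toAddMonoidHom).baseChange ℂ (w i) =
      e (χ ℓ) • w i := by
    show (tateMap (heckeOperatorBar N ⟨ℓ, hℓ.out⟩).toAddMonoidHom).baseChange ℂ
      (chg ℤ_[r] L ℂ _ (v i)) = _
    rw [chg_baseChange, h i ℓ hℓ.out hne, chg_smul]
    rfl
  rw [h1, map_smul]
  rfl

end Fermat.Agent.H58.Mz

end
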