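import Mathlib
import Fermat.Agent.H76MStmt
import Fermat.Agent.H54Frobenius
import Fermat.Agent.H63Minkowski

/-!
# MAZUR G2, piece F: from the rank of the inertia invariants to the counting statement
-/

set_option autoImplicit false
set_option linter.unusedSectionVars false

noncomputable section

open Module Fermat.Agent.H15 Fermat.Agent.H30 ModularCurve IsLocalRing Fermat.Agent.H76M
open scoped Pointwise

namespace Fermat.Agent.H6.Mz

/-- Artin--Rees: if `f y` is divisible by `a ^ k` then `y` is congruent to an element of the kernel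
modulo `a ^ (k - c)`. -/
theorem exists_bound {R T M : Type*} [CommRing R] [IsNoetherianRing R] [AddCommGroup T] [Module R T]
    [AddCommGroup M] [Module R M] [Module.Finite R M] (a : R) (f : T →ₗ[R] M) :
    ∃ c : ℕ, ∀ k, c ≤ k → ∀ y, (∃ m, f y = a ^ k • m) →
      ∃ z, y - a ^ (k - c) • z ∈ LinearMap.ker f := by
  obtain ⟨c, hc⟩ := (Ideal.span {a}).exists_pow_inf_eq_pow_smul (LinearMap.range f)
  refine ⟨c, fun k hk y hy => ?_⟩
  obtain ⟨m, hm⟩ := hy
  have h1 : f y ∈ (Ideal.span {a}) ^ k • (⊤ : Submodule R M) ⊓ LinearMap.range f := by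
    refine ⟨?_, LinearMap.mem_range_self f y⟩
    rw [hm, Ideal.span_singleton_pow]
    exact Submodule.smul_mem_smul (Ideal.mem_span_singleton_self _) trivial
  rw [hc k hk] at h1
  have h2 : f y ∈ (Ideal.span {a}) ^ (k - c) • LinearMap.range f :=
    Submodule.smul_mono le_rfl inf_le_right h1
  rw [Ideal.span_singleton_pow, Submodule.ideal_span_singleton_smul] at h2
  obtain ⟨n, ⟨z, rfl⟩, hz⟩ := (Submodule.mem_smul_pointwise_iff_exists _ _ _).mp h2
  refine ⟨z, ?_⟩
  rw [LinearMap.mem_ker, map_sub, map_smul, hz, sub_self]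

/-- finitely many operators have the same common kernel -/
theorem exists_finset_ker {R T ι : Type*} [CommRing R] [IsNoetherianRing R] [AddCommGroup T]
    [Module R T] [IsNoetherian R (Module.End R T)] (φ : ι → Module.End R T) (I : Set ι) :
    ∃ s : Finset ι, (↑s : Set ι) ⊆ I ∧ ∀ y, (∀ i ∈ s, φ i y = 0) → ∀ i ∈ I, φ i y = 0 := by
  classical
  have h1 : (Submodule.span R (φ '' I)).FG := IsNoetherian.noetherian _
  obtain ⟨s', hs', hspan⟩ := (Submodule.fg_span_iff_fg_span_finset_subset _).mp h1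
  obtain ⟨s, hs, rfl⟩ := Finset.subset_set_image_iff.mp hs'
  refine ⟨s, hs, fun y hy i hi => ?_⟩
  have h2 : φ i ∈ Submodule.span R (↑(s.image φ) : Set (Module.End R T)) := by
    rw [← hspan]
    exact Submodule.subset_span ⟨i, hi, rfl⟩
  have h3 : Submodule.span R (↑(s.image φ) : Set (Module.End R T)) ≤
      LinearMap.ker (LinearMap.applyₗ y : Module.End R T →ₗ[R] T) := by
    rw [Submodule.span_le]
    intro ψ hψ
    obtain ⟨j, hj, rfl⟩ := Finset.mem_image.mp (Finset.mem_coe.mp hψ)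
    exact hy j hj
  exact h3 h2

section

variable {N r : ℕ} [Fact r.Prime] {J : Type} [AddCommGroup J] [Module HeckeAlg J]
  [DistribMulAction GQ J]

theorem mem_WSub_of_Winf {c : ℕ} {x : J} (hx : x ∈ Winf N r J) (h : (r ^ c : ℕ) • x = 0) :
    x ∈ WSub N r J c := by
  obtain ⟨k, hk⟩ := hx
  exact ⟨h, hk.2⟩

theorem finite_WSub {t : ℕ} (h : CardW N r J t) (k : ℕ) : Finite (WSub N r J k) := by
  have h1 := h k
  have h2 : Nat.card (WSub N r J k) ≠ 0 := by
    rw [h1]
    exact pow_ne_zero _ (Fact.out : r.Prime).ne_zero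
  exact Nat.finite_of_card_ne_zero h2

/-- the counting statement at one place -/
theorem exists_card_le {t : ℕ} (hW : CardW N r J t) (D : TateData N r J t)
    (B : ValuationSubring Qb) (hB : finrank ℤ_[r] (fixT D.S B) ≤ t) :
    ∃ C : ℕ, ∀ k : ℕ,
      Nat.card {x : WSub N r J k // ∀ σ ∈ B.inertiaSubgroupIn ℚ, σ • (x : J) = x}
        ≤ C * r ^ (t * k) := by
  have hfin : Module.Finite ℤ_[r] (TW N r J) := D.finite
  have hfree : Module.Free ℤ_[r] (TW N r J) := D.free
  obtain ⟨s, hsI, hs⟩ := exists_finset_ker (R := ℤ_[r]) (fun σ : GQ => D.S.ρ σ - 1)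
    (B.inertiaSubgroupIn ℚ : Set GQ)
  let f : TW N r J →ₗ[ℤ_[r]] (s → TW N r J) := LinearMap.pi fun σ => D.S.ρ σ - 1
  obtain ⟨c, hc⟩ := exists_bound (r : ℤ_[r]) f
  have hr1 : 1 ≤ r := (Fact.out : r.Prime).one_le
  refine ⟨r ^ (2 * t * c), fun k => ?_⟩
  have hWk := finite_WSub hW k
  have hWc := finite_WSub hW c
  rcases lt_or_ge k c with hkc | hkc
  · -- small `k`
    calc Nat.card {x : WSub N r J k // ∀ σ ∈ B.inertiaSubgroupIn ℚ, σ • (x : J) = x}
        ≤ Nat.card (WSub N r J k) := Nat.card_le_card_of_injective _ Subtype.val_injective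
      _ = r ^ (2 * t * k) := hW k
      _ ≤ r ^ (2 * t * c) := Nat.pow_le_pow_right hr1 (Nat.mul_le_mul_left _ hkc.le)
      _ ≤ r ^ (2 * t * c) * r ^ (t * k) := Nat.le_mul_of_pos_right _ (by positivity)
  -- the basis of the fixed part
  let b := Module.finBasis ℤ_[r] (fixT D.S B)
  let Φ : (Fin (finrank ℤ_[r] (fixT D.S B)) → ZMod (r ^ k)) × WSub N r J c → J := fun p =>
    (∑ i, (p.1 i).val • ((TateMod.proj k (b i : TW N r J) : Winf N r J) : J)) + (p.2 : J)
  have hne : NeZero (r ^ k) := ⟨pow_ne_zero _ (Fact.out : r.Prime).ne_zero⟩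
  have key : ∀ x : {x : WSub N r J k // ∀ σ ∈ B.inertiaSubgroupIn ℚ, σ • (x : J) = x},
      ∃ p, Φ p = ((x : WSub N r J k) : J) := by
    rintro ⟨⟨x, hx⟩, hxI⟩
    obtain ⟨y, hy⟩ := D.surj k x hx
    have h1 : ∀ σ : s, ∃ m, (D.S.ρ σ - 1) y = (r : ℤ_[r]) ^ k • m := by
      intro σ
      rw [TateMod.mem_pow_smul_iff]
      apply Subtype.ext
      rw [LinearMap.sub_apply, Module.End.one_apply, map_sub, AddSubgroup.coe_sub, D.ρ_apply, hy,
        hxI σ (hsI σ.2), sub_self]
      rfl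
    choose m hm using h1
    obtain ⟨z, hz⟩ := hc k hkc y ⟨m, funext fun σ => hm σ⟩
    have hF : y - (r : ℤ_[r]) ^ (k - c) • z ∈ fixT D.S B := by
      intro σ hσ
      have h2 := hs _ (fun τ hτ => congrFun (LinearMap.mem_ker.mp hz) ⟨τ, hτ⟩) σ hσ
      rw [LinearMap.sub_apply, Module.End.one_apply, sub_eq_zero] at h2
      exact h2
    set yF : fixT D.S B := ⟨_, hF⟩ with hyF
    have hw : (r ^ (k - c) : ℕ) • ((TateMod.proj k z : Winf N r J) : J) ∈ WSub N r J c := by
      refine mem_WSub_of_Winf (AddSubgroup.nsmul_mem _ (TateMod.proj k z).2 _) ?_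
      rw [← mul_smul, ← pow_add, show c + (k - c) = k by omega]
      have h3 := TateMod.pow_smul_proj z k
      rw [← AddSubgroup.coe_nsmul, h3]
      rfl
    refine ⟨⟨fun i => PadicInt.toZModPow k (b.repr yF i), ⟨_, hw⟩⟩, ?_⟩
    have h5 : y = (∑ i, b.repr yF i • (b i : TW N r J)) + (r : ℤ_[r]) ^ (k - c) • z := by
      have h6 := congrArg (Subtype.val : fixT D.S B → TW N r J) (b.sum_repr yF)
      rw [AddSubmonoidClass.coe_finsetSum] at h6
      simp only [Submodule.coe_smul] at h6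
      rw [h6]
      exact (sub_add_cancel _ _).symm
    have h7 : x = (∑ i, (PadicInt.toZModPow k (b.repr yF i)).val •
        ((TateMod.proj k (b i : TW N r J) : Winf N r J) : J)) +
        (r ^ (k - c) : ℕ) • ((TateMod.proj k z : Winf N r J) : J) := by
      rw [← hy]
      conv_lhs => rw [h5]
      rw [map_add, map_sum, ← Nat.cast_pow, TateMod.natCast_smul, map_nsmul, AddSubgroup.coe_add,
        AddSubmonoidClass.coe_finsetSum, AddSubgroup.coe_nsmul]
      rfl
    exact h7.symm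
  choose g hg using key
  have hginj : Function.Injective g := by
    intro x x' h
    apply Subtype.ext
    apply Subtype.ext
    rw [← hg x, ← hg x', h]
  calc Nat.card {x : WSub N r J k // ∀ σ ∈ B.inertiaSubgroupIn ℚ, σ • (x : J) = x}
      ≤ Nat.card ((Fin (finrank ℤ_[r] (fixT D.S B)) → ZMod (r ^ k)) × WSub N r J c) :=
        Nat.card_le_card_of_injective g hginj
    _ = (r ^ k) ^ (finrank ℤ_[r] (fixT D.S B)) * r ^ (2 * t * c) := by
        rw [Nat.card_prod, Nat.card_fun, Nat.card_zmod, Nat.card_fin, hW c]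
    _ ≤ r ^ (2 * t * c) * r ^ (t * k) := by
        rw [mul_comm, ← pow_mul]
        refine Nat.mul_le_mul_left _ (Nat.pow_le_pow_right hr1 ?_)
        rw [mul_comm t k]
        exact Nat.mul_le_mul_left _ hB

/-- the number of inertia invariants does not depend on the place -/
theorem card_conj [SMulCommClass GQ HeckeAlg J] {B B' : ValuationSubring Qb} (g : GQ)
    (hg : g • B = B') (k : ℕ) [Finite (WSub N r J k)] :
    Nat.card {x : WSub N r J k // ∀ σ ∈ B'.inertiaSubgroupIn ℚ, σ • (x : J) = x} ≤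
      Nat.card {x : WSub N r J k // ∀ σ ∈ B.inertiaSubgroupIn ℚ, σ • (x : J) = x} := by
  have hmem : ∀ x ∈ WSub N r J k, g⁻¹ • x ∈ WSub N r J k := by
    rintro x ⟨h1, n, h2⟩
    refine ⟨?_, n, fun t ht => ?_⟩
    · have h3 := map_nsmul (DistribSMul.toAddMonoidHom J g⁻¹) (r ^ k) x
      rw [h1, map_zero] at h3
      exact h3.symm
    · rw [← smul_comm, h2 t ht, smul_zero]
  refine Nat.card_le_card_of_injective
    (fun x => (⟨⟨g⁻¹ • ((x : WSub N r J k) : J), hmem _ x.1.2⟩, ?_⟩ :
      {x : WSub N r J k // ∀ σ ∈ B.inertiaSubgroupIn ℚ, σ • (x : J) = x})) ?_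
  · intro σ hσ
    have h1 : g * σ * g⁻¹ ∈ B'.inertiaSubgroupIn ℚ := by
      rw [← hg]
      have hgal : IsGalois ℚ Qb := by
        have : CharZero (AlgebraicClosure ℚ) := inferInstance
        have : Algebra.IsAlgebraic ℚ (AlgebraicClosure ℚ) := AlgebraicClosure.isAlgebraic ℚ
        have : IsAlgClosure ℚ (AlgebraicClosure ℚ) := ⟨inferInstance, inferInstance⟩
        have : Normal ℚ (AlgebraicClosure ℚ) := IsAlgClosure.normal ℚ (AlgebraicClosure ℚ)
        exact ⟨⟩
      exact H63.conj_mem_inertiaSubgroupIn g σ hσ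
    have h2 := x.2 _ h1
    change σ • (g⁻¹ • ((x : WSub N r J k) : J)) = g⁻¹ • ((x : WSub N r J k) : J)
    conv_rhs => rw [← h2]
    rw [← mul_smul, ← mul_smul]
    congr 1
    group
  · intro x x' h
    have h1 : g⁻¹ • ((x : WSub N r J k) : J) = g⁻¹ • ((x' : WSub N r J k) : J) :=
      congrArg (fun z => ((z.1 : WSub N r J k) : J)) h
    apply Subtype.ext
    apply Subtype.ext
    exact smul_left_cancel _ h1

end

/-- **Piece F** of MAZUR G2. -/
theorem pieceF : PieceF := by
  intro N r _ hN hrN J _ _ _ _ K hBI t hW D hfix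
  by_cases h : ∃ B : ValuationSubring Qb, B.LiesOverPrime N
  · obtain ⟨B, hB⟩ := h
    obtain ⟨C, hC⟩ := exists_card_le hW D B (hfix B hB)
    refine ⟨C, fun B' hB' k => ?_⟩
    obtain ⟨g, hg⟩ := H54.exists_smul_eq hN hB hB'
    have := finite_WSub hW k
    exact (card_conj g hg k).trans (hC k)
  · refine ⟨0, fun B' hB' k => absurd ⟨B', hB'⟩ h⟩

end Fermat.Agent.H6.Mz

end
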