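import Mathlib
import Fermat.Agent.H76M3

/-!
# MAZUR G2, part 4: the coefficient field and the decomposition
(helper76)
-/

set_option autoImplicit false

noncomputable section

open IsLocalRing Module Polynomial

namespace Fermat.Agent.H76M

open Fermat.Agent.H76G

/-- a family of elements of a noetherian algebra generates the same subalgebra as a finite
subfamily -/
theorem exists_finset_adjoin {R A ι : Type*} [CommRing R] [Ring A] [Algebra R A]
    [IsNoetherian R A] (f : ι → A) :
    ∃ F : Finset ι, ∀ i, f i ∈ Algebra.adjoin R (f '' (F : Set ι)) := by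
  classical
  obtain ⟨M, ⟨F, rfl⟩, hM⟩ := set_has_maximal_iff_noetherian.mpr (inferInstance : IsNoetherian R A)
    (Set.range fun F : Finset ι => Subalgebra.toSubmodule (Algebra.adjoin R (f '' (F : Set ι))))
    ⟨_, ∅, rfl⟩
  refine ⟨F, fun i => ?_⟩
  have h1 : Algebra.adjoin R (f '' (F : Set ι)) ≤ Algebra.adjoin R (f '' ((insert i F : Finset ι) : Set ι)) :=
    Algebra.adjoin_mono (Set.image_mono (by simp))
  have h2 : ¬ Subalgebra.toSubmodule (Algebra.adjoin R (f '' (F : Set ι))) <
      Subalgebra.toSubmodule (Algebra.adjoin R (f '' ((insert i F : Finset ι) : Set ι))) :=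
    hM _ ⟨insert i F, rfl⟩
  have h3 : Subalgebra.toSubmodule (Algebra.adjoin R (f '' ((insert i F : Finset ι) : Set ι))) ≤
      Subalgebra.toSubmodule (Algebra.adjoin R (f '' (F : Set ι))) := by
    by_contra h4
    exact h2 (lt_of_le_not_ge (fun x hx => h1 hx) h4)
  exact h3 (Algebra.subset_adjoin ⟨i, by simp, rfl⟩)

/-- a splitting field over `ℚ_r` with the structure of an extension of `ℤ_r` -/
theorem exists_splitting (r : ℕ) [Fact r.Prime] (G : ℚ_[r][X]) :
    ∃ (L : Type) (_ : Field L) (_ : Algebra ℚ_[r] L) (_ : Algebra ℤ_[r] L)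
      (_ : IsScalarTower ℤ_[r] ℚ_[r] L) (_ : FiniteDimensional ℚ_[r] L),
      (G.map (algebraMap ℚ_[r] L)).Splits := by
  exact ⟨G.SplittingField, inferInstance, inferInstance, inferInstance, inferInstance,
    inferInstance, SplittingField.splits G⟩

/-- a separable polynomial which splits is the product over the finite set of its roots -/
theorem exists_finset_roots {L : Type*} [Field L] (P : L[X]) (hm : P.Monic) (hs : P.Separable)
    (hsp : P.Splits) : ∃ s : Finset L, P = ∏ μ ∈ s, (X - C μ) ∧ ∀ μ ∈ s, P.IsRoot μ := by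
  classical
  refine ⟨P.roots.toFinset, ?_, ?_⟩
  · have h1 := hsp.eq_prod_roots
    rw [hm.leadingCoeff, map_one, one_mul] at h1
    conv_lhs => rw [h1]
    have h2 : P.roots.Nodup := nodup_roots hs
    rw [Finset.prod_eq_multiset_prod, Multiset.toFinset_val, Multiset.dedup_eq_self.mpr h2]
  · intro μ hμ
    rw [Multiset.mem_toFinset] at hμ
    exact (mem_roots'.mp hμ).2

section Decomp

variable {N r : ℕ} [Fact r.Prime] {T : Type} [AddCommGroup T] [Module ℤ_[r] T]
  [Module.Finite ℤ_[r] T] (S : TateSys N r T)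
variable {O : Type} [CommRing O] [IsDomain O] [Algebra ℤ_[r] O]
variable {L : Type} [Field L] [Algebra O L] [IsFractionRing O L] [Algebra ℤ_[r] L]
  [IsScalarTower ℤ_[r] O L]
variable {V : Type} [AddCommGroup V] [Module L V] [Module O V] [IsScalarTower O L V]
variable (E : TExt r T L V)

/-- the index type of the Hecke operators -/
abbrev Idx (N : ℕ) := {q : ℕ // q.Prime ∧ q ≠ N}

/-- scalars of elements of the Hecke algebra on a simultaneous eigenspace -/
theorem exists_scalar (F : Finset (Idx N)) (χ : F → L)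
    (hint : ∀ j, ∃ c : O, algebraMap O L c = χ j) (g : Module.End ℤ_[r] T)
    (hg : g ∈ Algebra.adjoin ℤ_[r] ((fun q : Idx N => S.τ q) '' (F : Set (Idx N)))) :
    ∃ c : O, ∀ v ∈ W (fun j : F => E.bc (S.τ j)) χ, E.bc g v = c • v := by
  induction hg using Algebra.adjoin_induction with
  | mem g hg =>
    obtain ⟨q, hq, rfl⟩ := hg
    obtain ⟨c, hc⟩ := hint ⟨q, hq⟩
    refine ⟨c, fun v hv => ?_⟩
    have h1 : E.bc (S.τ q) v = χ ⟨q, hq⟩ • v := mem_W.mp hv ⟨q, hq⟩
    rw [h1, ← hc, algebraMap_smul]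
  | algebraMap c =>
    refine ⟨algebraMap ℤ_[r] O c, fun v _ => ?_⟩
    rw [Algebra.algebraMap_eq_smul_one, E.bc_smul, map_one, LinearMap.smul_apply,
      Module.End.one_apply, IsScalarTower.algebraMap_apply ℤ_[r] O L, algebraMap_smul]
  | add x y _ _ hx hy =>
    obtain ⟨c, hc⟩ := hx
    obtain ⟨d, hd⟩ := hy
    exact ⟨c + d, fun v hv => by rw [map_add, LinearMap.add_apply, hc v hv, hd v hv, add_smul]⟩
  | mul x y _ _ hx hy =>
    obtain ⟨c, hc⟩ := hx
    obtain ⟨d, hd⟩ := hy
    exact ⟨c * d, fun v hv => by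
      rw [map_mul, Module.End.mul_apply, hd v hv, E.bc_smul_O, hc v hv, smul_smul, mul_comm]⟩

theorem W_stable (F : Finset (Idx N)) (χ : F → L) (σ : GQ) {v : V}
    (hv : v ∈ W (fun j : F => E.bc (S.τ j)) χ) :
    E.bc (S.ρ σ) v ∈ W (fun j : F => E.bc (S.τ j)) χ := by
  rw [mem_W]
  intro j
  have h1 : E.bc (S.τ j) * E.bc (S.ρ σ) = E.bc (S.ρ σ) * E.bc (S.τ j) := by
    rw [← map_mul, ← map_mul, (S.comm_ρ j σ).eq]
  have h2 := LinearMap.congr_fun h1 v
  rw [Module.End.mul_apply, Module.End.mul_apply] at h2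
  have h3 : E.bc (S.τ j) v = χ j • v := mem_W.mp hv j
  rw [h2, h3, map_smul]

end Decomp

section Cyc

variable {r : ℕ} [Fact r.Prime]

instance adicComplete_padic : IsAdicComplete (maximalIdeal ℤ_[r]) ℤ_[r] := inferInstance

theorem natCast_mem_padic : (r : ℤ_[r]) ∈ maximalIdeal ℤ_[r] := by
  rw [PadicInt.maximalIdeal_eq_span_p]
  exact Ideal.mem_span_singleton_self _

end Cyc

end Fermat.Agent.H76M
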