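import Mathlib
import Fermat.Agent.H76M4

/-!
# MAZUR G2, part 5: the decomposition and its consequences over `L`
(helper76)
-/

set_option autoImplicit false

noncomputable section

open IsLocalRing Module Polynomial

namespace Fermat.Agent.H76M

open Fermat.Agent.H76G

section Main

variable {N r : ℕ} [Fact r.Prime] {T : Type} [AddCommGroup T] [Module ℤ_[r] T]
  [Module.Finite ℤ_[r] T] (S : TateSys N r T)
variable {O : Type} [CommRing O] [IsDomain O] [Algebra ℤ_[r] O]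
variable {L : Type} [Field L] [Algebra O L] [IsFractionRing O L] [Algebra ℤ_[r] L]
  [IsScalarTower ℤ_[r] O L]
variable {V : Type} [AddCommGroup V] [Module L V] [Module O V] [IsScalarTower O L V]
variable [IsDiscreteValuationRing O] [IsAdicComplete (maximalIdeal O) O] [CharZero O]
  (hr : (r : O) ∈ maximalIdeal O)
variable (E : TExt r T L V) [FiniteDimensional L V]

/-- The result of the decomposition. -/
structure Decomp (O : Type) [CommRing O] {N r : ℕ} [Fact r.Prime] {T : Type} [AddCommGroup T]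
    [Module ℤ_[r] T] (S : TateSys N r T) {L : Type} [Field L] [Algebra ℤ_[r] L]
    {V : Type} [AddCommGroup V] [Module L V] [Module O V] (E : TExt r T L V)
    (Tm : Submodule ℤ_[r] T) (t : ℕ) where
  κ : Type
  s : Finset κ
  U : κ → Submodule L V
  indep : iSupIndep U
  top : ⨆ χ ∈ s, U χ = ⊤
  stable : ∀ χ σ, ∀ v ∈ U χ, E.bc (S.ρ σ) v ∈ U χ
  two : ∀ χ ∈ s, finrank L (U χ) = 2
  one : ∀ χ ∈ s, finrank L (U χ ⊓ Vm E Tm : Submodule L V) = 1
  scalar : ∀ χ ∈ s, ∃ a : ℕ → O, ∀ q : ℕ, q.Prime → q ≠ N → ∀ v ∈ U χ,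
    E.bc (S.τ q) v = a q • v
  card : s.card = t

include hr in
theorem exists_decomp (hN : N.Prime) (t : ℕ) (hV : finrank L V = 2 * t)
    (F : Finset (Idx N))
    (hF : ∀ q : Idx N, S.τ q ∈
      Algebra.adjoin ℤ_[r] ((fun q : Idx N => S.τ q) '' (F : Set (Idx N))))
    (hs : ∀ j : F, ∃ s : Finset L, aeval (E.bc (S.τ j)) (∏ μ ∈ s, (X - C μ)) = 0 ∧
      ∀ μ ∈ s, ∃ c : O, algebraMap O L c = μ)
    (hdim : ∀ (χ : ℕ → L) (v : Fin 3 → V),
      (∀ i (q : ℕ), q.Prime → q ≠ N → E.bc (S.τ q) (v i) = χ q • v i) →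
      ¬ LinearIndependent L v)
    {A : ValuationSubring Qb} {Tm : Submodule ℤ_[r] T} (hT : MultT S A Tm)
    (hm : finrank L (Vm E Tm) ≤ t) : Nonempty (Decomp O S E Tm t) := by
  classical
  choose s hs1 hs2 using hs
  obtain ⟨hind, htop⟩ := family (fun j : F => E.bc (S.τ j))
    (fun i j => (S.comm_τ i j).map E.bc) s hs1
  obtain ⟨c, hc, hctop⟩ := exists_finset _ hind htop
  -- the eigenvalues are integral
  have hint : ∀ χ ∈ c, ∀ j : F, ∃ x : O, algebraMap O L x = χ j := by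
    intro χ hχ j
    obtain ⟨v, hv, hv0⟩ := Submodule.exists_mem_ne_zero_of_ne_bot ((hc χ).mp hχ)
    have h1 : E.bc (S.τ j) v = χ j • v := mem_W.mp hv j
    have h2 : aeval (E.bc (S.τ j)) (∏ μ ∈ s j, (X - C μ)) v =
        (∏ μ ∈ s j, (X - C μ)).eval (χ j) • v :=
      Module.End.aeval_apply_of_hasEigenvector
        ⟨Module.End.mem_eigenspace_iff.mpr h1, hv0⟩
    rw [hs1 j, LinearMap.zero_apply] at h2
    have h3 := (smul_eq_zero.mp h2.symm).resolve_right hv0
    rw [eval_prod, Finset.prod_eq_zero_iff] at h3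
    obtain ⟨μ, hμ, h4⟩ := h3
    rw [eval_sub, eval_X, eval_C, sub_eq_zero] at h4
    rw [h4]
    exact hs2 j μ hμ
  have hscal : ∀ χ ∈ c, ∃ a : ℕ → O, ∀ q : ℕ, q.Prime → q ≠ N →
      ∀ v ∈ W (fun j : F => E.bc (S.τ j)) χ, E.bc (S.τ q) v = a q • v := by
    intro χ hχ
    have h1 : ∀ q : ℕ, ∃ a : O, q.Prime → q ≠ N →
        ∀ v ∈ W (fun j : F => E.bc (S.τ j)) χ, E.bc (S.τ q) v = a • v := by
      intro q
      by_cases hq : q.Prime ∧ q ≠ N
      · obtain ⟨a, ha⟩ := exists_scalar S E F χ (hint χ hχ) (S.τ q) (hF ⟨q, hq⟩)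
        exact ⟨a, fun _ _ => ha⟩
      · exact ⟨0, fun h2 h3 => absurd ⟨h2, h3⟩ hq⟩
    choose a ha using h1
    exact ⟨a, ha⟩
  have hle2 : ∀ χ ∈ c, finrank L (W (fun j : F => E.bc (S.τ j)) χ) ≤ 2 := by
    intro χ hχ
    by_contra hcon
    push Not at hcon
    obtain ⟨v, hv⟩ := exists_linearIndependent_of_le_finrank (n := 3) hcon
    obtain ⟨a, ha⟩ := hscal χ hχ
    refine hdim (fun q => algebraMap O L (a q)) (fun i => (v i : V)) ?_ ?_
    · intro i q hq hqN
      rw [ha q hq hqN _ (v i).2, algebraMap_smul]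
    · exact hv.map' (Submodule.subtype _) (Submodule.ker_subtype _)
  have hne : ∀ χ ∈ c, W (fun j : F => E.bc (S.τ j)) χ ⊓ Vm E Tm ≠ ⊥ := by
    intro χ hχ
    obtain ⟨a, ha⟩ := hscal χ hχ
    exact E1_all (O := O) S E _ (fun σ v hv => W_stable S E F χ σ hv) hr ((hc χ).mp hχ)
      (hle2 χ hχ) inferInstance hN a ha hT
  have hsum : ∑ χ ∈ c, finrank L (W (fun j : F => E.bc (S.τ j)) χ) = 2 * t := by
    rw [← finrank_biSup _ hind c, hctop, finrank_top, hV]
  have hindm : iSupIndep fun χ : F → L => W (fun j : F => E.bc (S.τ j)) χ ⊓ Vm E Tm :=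
    hind.mono fun χ => inf_le_left
  have hsumm : ∑ χ ∈ c, finrank L (W (fun j : F => E.bc (S.τ j)) χ ⊓ Vm E Tm : Submodule L V) ≤
      t := by
    rw [← finrank_biSup _ hindm c]
    refine le_trans (Submodule.finrank_mono ?_) hm
    exact iSup₂_le fun χ _ => inf_le_right
  obtain ⟨h1, h2, h3⟩ := numerics c _ _ t hsum hsumm hle2 fun χ hχ =>
    Nat.one_le_iff_ne_zero.mpr fun h => hne χ hχ (Submodule.finrank_eq_zero.mp h)
  exact ⟨{ κ := F → L
           s := c
           U := W (fun j : F => E.bc (S.τ j))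
           indep := hind
           top := hctop
           stable := fun χ σ v hv => W_stable S E F χ σ hv
           two := h1
           one := h2
           scalar := hscal
           card := h3 }⟩

namespace Decomp

variable {S E}
variable {Tm : Submodule ℤ_[r] T} {t : ℕ}

theorem not_le (D : Decomp O S E Tm t) {χ : D.κ} (hχ : χ ∈ D.s) : ¬ D.U χ ≤ Vm E Tm := by
  intro h
  have h1 := D.one χ hχ
  rw [inf_eq_left.mpr h, D.two χ hχ] at h1
  exact absurd h1 (by norm_num)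

/-- **(C1)** over `L` -/
theorem C1 (D : Decomp O S E Tm t) (hN : N.Prime) (hm : finrank L (Vm E Tm) ≤ t)
    {A : ValuationSubring Qb} (hT : MultT S A Tm) {σ : GQ} (hσ : σ ∈ A.inertiaSubgroupIn ℚ)
    {v : V} (hv : v ∈ Vm E Tm) : E.bc (S.ρ σ) v = H35.cyc O hr σ • v := by
  classical
  have hindm : iSupIndep fun χ => D.U χ ⊓ Vm E Tm := D.indep.mono fun χ => inf_le_left
  have h1 : (⨆ χ ∈ D.s, D.U χ ⊓ Vm E Tm) = Vm E Tm := by
    refine Submodule.eq_of_le_of_finrank_le (iSup₂_le fun χ _ => inf_le_right) ?_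
    rw [finrank_biSup _ hindm D.s, Finset.sum_congr rfl D.one, Finset.sum_const, smul_eq_mul,
      mul_one, D.card]
    exact hm
  let K : Submodule L V :=
    LinearMap.ker (E.bc (S.ρ σ) - algebraMap O L (H35.cyc O hr σ) • (1 : Module.End L V))
  have hK : ∀ v, v ∈ K ↔ E.bc (S.ρ σ) v = H35.cyc O hr σ • v := by
    intro v
    rw [LinearMap.mem_ker, LinearMap.sub_apply, LinearMap.smul_apply, Module.End.one_apply,
      algebraMap_smul, sub_eq_zero]
  rw [← hK]
  have h2 : Vm E Tm ≤ K := by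
    rw [← h1]
    refine iSup₂_le fun χ hχ w hw => (hK w).mpr ?_
    obtain ⟨a, ha⟩ := D.scalar χ hχ
    exact E2_all (O := O) S E _ (D.stable χ) hr (D.two χ hχ) hN a ha hT (D.not_le hχ) hσ hw
  exact h2 hv

include hr in
/-- **(C2)** over `L` -/
theorem C2 (D : Decomp O S E Tm t) (hN : N.Prime)
    {A : ValuationSubring Qb} (hT : MultT S A Tm) {B : ValuationSubring Qb}
    (hB : B.LiesOverPrime N) (G : Submodule L V)
    (hG : ∀ x, x ∈ G ↔ ∀ σ : B.inertiaSubgroupIn ℚ, E.bc (S.ρ σ) x = x) :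
    finrank L G ≤ t := by
  classical
  have h1 : G ≤ ⨆ χ ∈ D.s, G ⊓ D.U χ :=
    fixed_le D.U D.indep D.s D.top (fun σ : B.inertiaSubgroupIn ℚ => E.bc (S.ρ σ))
      (fun σ χ x hx => D.stable χ σ x hx) G hG
  have h2 : iSupIndep fun χ => G ⊓ D.U χ := D.indep.mono fun χ => inf_le_right
  refine le_trans (Submodule.finrank_mono h1) ?_
  rw [finrank_biSup _ h2 D.s]
  have h3 : ∀ χ ∈ D.s, finrank L (G ⊓ D.U χ : Submodule L V) ≤ 1 := by
    intro χ hχ
    obtain ⟨a, ha⟩ := D.scalar χ hχ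
    obtain ⟨σ, hσ, v, hv, hne⟩ := E3_all (O := O) S E _ (D.stable χ) hr (D.two χ hχ) hN a ha hT
      (D.not_le hχ) hB
    have h4 : G ⊓ D.U χ < D.U χ := by
      refine lt_of_le_of_ne inf_le_right fun h => hne ?_
      have h5 : v ∈ G ⊓ D.U χ := by rw [h]; exact hv
      exact (hG v).mp h5.1 ⟨σ, hσ⟩
    have h5 := Submodule.finrank_lt_finrank_of_lt h4
    rw [D.two χ hχ] at h5
    omega
  refine le_trans (Finset.sum_le_sum h3) ?_
  rw [Finset.sum_const, smul_eq_mul, mul_one, D.card]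

end Decomp

end Main

end Fermat.Agent.H76M
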