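import Mathlib
import Fermat.Agent.H76M5
import Fermat.Agent.H35DVR

/-!
# MAZUR G2, part 6: conclusions over `ℤ_r`
(helper76)
-/

set_option autoImplicit false

noncomputable section

open IsLocalRing Module Polynomial TensorProduct

namespace Fermat.Agent.H76M

open Fermat.Agent.H76G

section Cyc

variable {r : ℕ} [Fact r.Prime]

theorem padic_hom_ext {O : Type} [CommRing O] [IsLocalRing O] [IsHausdorff (maximalIdeal O) O]
    (hr : (r : O) ∈ maximalIdeal O) (f g : ℤ_[r] →+* O) : f = g := by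
  ext x
  rw [← sub_eq_zero]
  refine IsHausdorff.haus (I := maximalIdeal O) inferInstance _ fun n => ?_
  rw [SModEq.zero, smul_eq_mul, Ideal.mul_top]
  obtain ⟨c, hc⟩ := Ideal.mem_span_singleton.mp (PadicInt.appr_spec n x)
  have h1 : f x = (x.appr n : O) + (r : O) ^ n * f c := by
    have h := congrArg f (sub_eq_iff_eq_add.mp hc)
    rw [map_add, map_mul, map_pow, map_natCast, map_natCast] at h
    rw [h, add_comm]
  have h2 : g x = (x.appr n : O) + (r : O) ^ n * g c := by
    have h := congrArg g (sub_eq_iff_eq_add.mp hc)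
    rw [map_add, map_mul, map_pow, map_natCast, map_natCast] at h
    rw [h, add_comm]
  have h3 : f x - g x = (r : O) ^ n * (f c - g c) := by rw [h1, h2]; ring
  rw [h3]
  exact Ideal.mul_mem_right _ _ (Ideal.pow_mem_pow hr n)

theorem cyc_algebraMap {O : Type} [CommRing O] [IsLocalRing O] [Algebra ℤ_[r] O]
    [IsAdicComplete (maximalIdeal O) O] (hr : (r : O) ∈ maximalIdeal O)
    (hp : (r : ℤ_[r]) ∈ maximalIdeal ℤ_[r]) (σ : GQ) :
    H35.cyc O hr σ = algebraMap ℤ_[r] O (H35.cyc ℤ_[r] hp σ) := by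
  have h1 : (algebraMap ℤ_[r] O).comp (H35.padicToAdic ℤ_[r] hp) = H35.padicToAdic O hr :=
    padic_hom_ext hr _ _
  exact (RingHom.congr_fun h1 _).symm

end Cyc

section Inst

variable {N r : ℕ} [Fact r.Prime] {T : Type} [AddCommGroup T] [Module ℤ_[r] T]

/-- the standard extension of scalars -/
def stdExt (T : Type) [AddCommGroup T] [Module ℤ_[r] T] (L : Type) [Field L] [Algebra ℤ_[r] L] :
    TExt r T L (L ⊗[ℤ_[r]] T) where
  i := (TensorProduct.mk ℤ_[r] L T 1).toAddMonoidHom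
  i_smul c x := by
    show (1 : L) ⊗ₜ[ℤ_[r]] (c • x) = algebraMap ℤ_[r] L c • ((1 : L) ⊗ₜ[ℤ_[r]] x)
    rw [TensorProduct.tmul_smul, algebraMap_smul]
  bc := (Module.End.baseChangeHom ℤ_[r] L T).toRingHom
  bc_apply f x := rfl
  bc_smul c f := by
    show (c • f).baseChange L = algebraMap ℤ_[r] L c • f.baseChange L
    rw [LinearMap.baseChange_smul, algebraMap_smul]
  span := by
    rw [eq_top_iff]
    intro z _
    induction z using TensorProduct.induction_on with
    | zero => exact zero_mem _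
    | add x y hx hy => exact add_mem (hx trivial) (hy trivial)
    | tmul l x =>
      have h1 : l ⊗ₜ[ℤ_[r]] x = l • ((1 : L) ⊗ₜ[ℤ_[r]] x) := by
        rw [TensorProduct.smul_tmul', smul_eq_mul, mul_one]
      rw [h1]
      exact Submodule.smul_mem _ _ (Submodule.subset_span ⟨x, rfl⟩)

theorem stdExt_bc (L : Type) [Field L] [Algebra ℤ_[r] L] (f : Module.End ℤ_[r] T) :
    (stdExt T L).bc f = f.baseChange L := rfl

theorem stdExt_i (L : Type) [Field L] [Algebra ℤ_[r] L] (x : T) :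
    (stdExt T L).i x = (1 : L) ⊗ₜ[ℤ_[r]] x := rfl

theorem finrank_Vm_le [Module.Finite ℤ_[r] T] [Module.Free ℤ_[r] T]
    (L : Type) [Field L] [Algebra ℤ_[r] L] (Tm : Submodule ℤ_[r] T) :
    finrank L (Vm (stdExt T L) Tm) ≤ finrank ℤ_[r] Tm := by
  have : Module.Finite ℤ_[r] Tm := inferInstance
  have : Module.Free ℤ_[r] Tm := inferInstance
  have h1 : Vm (stdExt T L) Tm ≤ LinearMap.range (Tm.subtype.baseChange L) := by
    rw [Vm, Submodule.span_le]
    rintro _ ⟨x, hx, rfl⟩
    exact ⟨(1 : L) ⊗ₜ[ℤ_[r]] ⟨x, hx⟩, rfl⟩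
  refine le_trans (Submodule.finrank_mono h1) ?_
  refine le_trans (LinearMap.finrank_range_le _) ?_
  rw [Module.finrank_baseChange]

theorem flat_L (L : Type) [Field L] [Algebra ℚ_[r] L] [Algebra ℤ_[r] L]
    [IsScalarTower ℤ_[r] ℚ_[r] L] : Module.Flat ℤ_[r] L := by
  have : Module.Flat ℤ_[r] ℚ_[r] := IsLocalization.flat ℚ_[r] (nonZeroDivisors ℤ_[r])
  exact Module.Flat.trans ℤ_[r] ℚ_[r] L

theorem finrank_le_of_fixed [Module.Finite ℤ_[r] T] [Module.Free ℤ_[r] T]
    (L : Type) [Field L] [Algebra ℚ_[r] L] [Algebra ℤ_[r] L]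
    [IsScalarTower ℤ_[r] ℚ_[r] L] (F : Submodule ℤ_[r] T) (G : Submodule L (L ⊗[ℤ_[r]] T))
    (h : ∀ z : L ⊗[ℤ_[r]] F, F.subtype.baseChange L z ∈ G) :
    finrank ℤ_[r] F ≤ finrank L G := by
  have : Module.Finite ℤ_[r] F := inferInstance
  have : Module.Free ℤ_[r] F := inferInstance
  have := flat_L (r := r) L
  have e : finrank L (L ⊗[ℤ_[r]] F) = finrank ℤ_[r] F := Module.finrank_baseChange
  rw [← e]
  refine LinearMap.finrank_le_finrank_of_injective (f := (F.subtype.baseChange L).codRestrict G h) ?_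
  intro x y hxy
  have h1 : F.subtype.baseChange L x = F.subtype.baseChange L y := congrArg Subtype.val hxy
  exact Module.Flat.lTensor_preserves_injective_linearMap (M := L) F.subtype
    F.injective_subtype h1

theorem injective_i [Module.Free ℤ_[r] T] (L : Type) [Field L] [Algebra ℚ_[r] L]
    [Algebra ℤ_[r] L] [IsScalarTower ℤ_[r] ℚ_[r] L] : Function.Injective (stdExt (r := r) T L).i := by
  have h0 : Function.Injective (algebraMap ℤ_[r] L) := by
    rw [IsScalarTower.algebraMap_eq ℤ_[r] ℚ_[r] L]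
    exact (algebraMap ℚ_[r] L).injective.comp (IsFractionRing.injective ℤ_[r] ℚ_[r])
  rw [injective_iff_map_eq_zero]
  intro x hx
  let b := Module.Free.chooseBasis ℤ_[r] T
  have h1 : ∀ j, b.repr x j = 0 := by
    intro j
    have h2 := congrArg (fun z => (b.baseChange L).repr z j) hx
    simp only [stdExt_i, map_zero, Finsupp.zero_apply] at h2
    rw [Basis.baseChange_repr_tmul, ← algebraMap_smul L, smul_eq_mul, mul_one] at h2
    exact (map_eq_zero_iff _ h0).mp h2
  exact b.repr.injective (by ext j; rw [h1 j, map_zero, Finsupp.zero_apply])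

/-- The hypotheses of the final statement of the linear algebra part. -/
structure MainHyp (N r : ℕ) [Fact r.Prime] {T : Type} [AddCommGroup T] [Module ℤ_[r] T]
    (S : TateSys N r T) (t : ℕ) : Prop where
  finite : Module.Finite ℤ_[r] T
  free : Module.Free ℤ_[r] T
  finrank_eq : finrank ℤ_[r] T = 2 * t
  poly : ∀ q : ℕ, q.Prime → q ≠ N → ∃ P : ℤ[X], P.Monic ∧
    (P.map (Int.castRingHom ℚ)).Separable ∧ aeval (S.τ q) P = 0
  dim : ∀ (L : Type) [Field L] [Algebra ℚ_[r] L] [FiniteDimensional ℚ_[r] L] [Algebra ℤ_[r] L]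
    [IsScalarTower ℤ_[r] ℚ_[r] L] (χ : ℕ → L) (v : Fin 3 → L ⊗[ℤ_[r]] T),
    (∀ i (q : ℕ), q.Prime → q ≠ N → (S.τ q).baseChange L (v i) = χ q • v i) →
      ¬ LinearIndependent L v

theorem poly_facts {R : Type} [Field R] [CharZero R] {P : ℤ[X]} (hm : P.Monic)
    (hs : (P.map (Int.castRingHom ℚ)).Separable) :
    (P.map (Int.castRingHom R)).Monic ∧ (P.map (Int.castRingHom R)).Separable := by
  refine ⟨hm.map _, ?_⟩
  have h1 : P.map (Int.castRingHom R) = (P.map (Int.castRingHom ℚ)).map (algebraMap ℚ R) := by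
    rw [Polynomial.map_map]
    congr 1
    exact Subsingleton.elim _ _
  rw [h1]
  exact hs.map

theorem main {S : TateSys N r T} {t : ℕ} (H : MainHyp N r S t) (hN : N.Prime)
    {A : ValuationSubring Qb} {Tm : Submodule ℤ_[r] T} (hT : MultT S A Tm)
    (hm : finrank ℤ_[r] Tm ≤ t) (hp : (r : ℤ_[r]) ∈ maximalIdeal ℤ_[r]) :
    (∀ σ ∈ A.inertiaSubgroupIn ℚ, ∀ x ∈ Tm, S.ρ σ x = H35.cyc ℤ_[r] hp σ • x) ∧
    (∀ B : ValuationSubring Qb, B.LiesOverPrime N → ∀ F : Submodule ℤ_[r] T,
      (∀ x ∈ F, ∀ σ ∈ B.inertiaSubgroupIn ℚ, S.ρ σ x = x) → finrank ℤ_[r] F ≤ t) := by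
  classical
  have := H.finite
  have := H.free
  obtain ⟨F, hF⟩ := exists_finset_adjoin (R := ℤ_[r]) (A := Module.End ℤ_[r] T)
    (fun q : Idx N => S.τ q)
  choose P hPm hPs hP0 using fun q : Idx N => H.poly q q.2.1 q.2.2
  obtain ⟨L, _, _, _, _, _, hsplit⟩ := exists_splitting r
    (∏ q ∈ F, (P q).map (Int.castRingHom ℚ_[r]))
  have : CharZero L := charZero_of_injective_algebraMap (algebraMap ℚ_[r] L).injective
  let O := integralClosure ℤ_[r] L
  have i1 : IsLocalRing O := H35.isLocalRing_integralClosure ℤ_[r] ℚ_[r] L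
  have i2 : IsDiscreteValuationRing O := H35.isDiscreteValuationRing_integralClosure ℤ_[r] ℚ_[r] L
  have i3 : IsAdicComplete (maximalIdeal O) O :=
    H35.isAdicComplete_integralClosure ℤ_[r] ℚ_[r] L
  have i4 : IsLocalHom (algebraMap ℤ_[r] O) := H35.isLocalHom_integralClosure ℤ_[r] ℚ_[r] L
  have i5 : IsFractionRing O L :=
    integralClosure.isFractionRing_of_finite_extension ℚ_[r] L
  have i6 : CharZero O := by
    refine ⟨fun a b hab => ?_⟩
    have := congrArg (algebraMap O L) hab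
    rwa [map_natCast, map_natCast, Nat.cast_inj] at this
  have hr : (r : O) ∈ maximalIdeal O := by
    have h1 : (r : O) = algebraMap ℤ_[r] O (r : ℤ_[r]) := (map_natCast _ _).symm
    rw [h1, mem_maximalIdeal, mem_nonunits_iff, isUnit_map_iff]
    exact (mem_maximalIdeal _).mp hp
  have hV : finrank L (L ⊗[ℤ_[r]] T) = 2 * t := by
    rw [Module.finrank_baseChange, H.finrank_eq]
  have hmL : finrank L (Vm (stdExt T L) Tm) ≤ t := le_trans (finrank_Vm_le L Tm) hm
  have hs : ∀ j : F, ∃ s : Finset L, aeval ((stdExt T L).bc (S.τ j)) (∏ μ ∈ s, (X - C μ)) = 0 ∧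
      ∀ μ ∈ s, ∃ c : O, algebraMap O L c = μ := by
    intro j
    obtain ⟨hm1, hs1⟩ := poly_facts (R := L) (hPm j) (hPs j)
    have hsp : ((P j).map (Int.castRingHom L)).Splits := by
      have h1 : ((P j).map (Int.castRingHom L)) ∣
          (∏ q ∈ F, (P q).map (Int.castRingHom ℚ_[r])).map (algebraMap ℚ_[r] L) := by
        have h2 := Polynomial.map_dvd (algebraMap ℚ_[r] L)
          (Finset.dvd_prod_of_mem (fun q => (P q).map (Int.castRingHom ℚ_[r])) j.2)
        rw [Polynomial.map_map] at h2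
        have h3 : (algebraMap ℚ_[r] L).comp (Int.castRingHom ℚ_[r]) = Int.castRingHom L :=
          Subsingleton.elim _ _
        rwa [h3] at h2
      refine hsplit.of_dvd ?_ h1
      rw [Ne, Polynomial.map_eq_zero]
      exact (monic_prod_of_monic _ _ fun q _ => (hPm q).map _).ne_zero
    obtain ⟨s, hs2, hs3⟩ := exists_finset_roots _ hm1 hs1 hsp
    refine ⟨s, ?_, fun μ hμ => ?_⟩
    · rw [← hs2]
      have h4 : (P j).map (Int.castRingHom L) = (P j).map (algebraMap ℤ L) := rfl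
      rw [h4, aeval_map_algebraMap]
      have h5 := Polynomial.hom_eval₂ (P j) (algebraMap ℤ (Module.End ℤ_[r] T))
        (stdExt T L).bc (S.τ j)
      have h6 : (P j).eval₂ (algebraMap ℤ (Module.End ℤ_[r] T)) (S.τ j) = 0 := hP0 j
      rw [h6, map_zero] at h5
      rw [aeval_def, h5]
      congr 1
      exact Subsingleton.elim _ _
    · have h4 : IsIntegral ℤ μ := ⟨P j, hPm j, by
        have h5 := hs3 μ hμ
        rw [IsRoot.def, eval_map] at h5
        exact h5⟩
      exact ⟨⟨μ, h4.tower_top⟩, rfl⟩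
  obtain ⟨D⟩ := exists_decomp (O := O) S hr (stdExt T L) hN t hV F hF hs
    (fun χ v hv => H.dim L χ v hv) hT hmL
  refine ⟨fun σ hσ x hx => ?_, fun B hB F' hF' => ?_⟩
  · have h1 := D.C1 hr hN hmL hT hσ (v := (stdExt T L).i x) (Submodule.subset_span ⟨x, hx, rfl⟩)
    rw [(stdExt T L).bc_apply, cyc_algebraMap hr hp, ← algebraMap_smul L,
      ← IsScalarTower.algebraMap_apply, ← (stdExt T L).i_smul] at h1
    exact injective_i L h1
  · let G : Submodule L (L ⊗[ℤ_[r]] T) :=
      ⨅ σ : B.inertiaSubgroupIn ℚ, LinearMap.ker ((stdExt T L).bc (S.ρ σ) - 1)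
    have hG : ∀ x, x ∈ G ↔ ∀ σ : B.inertiaSubgroupIn ℚ, (stdExt T L).bc (S.ρ σ) x = x := by
      intro x
      simp only [G, Submodule.mem_iInf, LinearMap.mem_ker, LinearMap.sub_apply,
        Module.End.one_apply, sub_eq_zero]
    refine le_trans (finrank_le_of_fixed L F' G fun z => (hG _).mpr fun σ => ?_)
      (D.C2 hr hN hT hB G hG)
    have h1 : (S.ρ σ) ∘ₗ F'.subtype = F'.subtype := by
      ext x
      exact hF' x x.2 σ σ.2
    have h2 := congrArg (fun g => LinearMap.baseChange L g z) h1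
    simp only [LinearMap.baseChange_comp] at h2
    exact h2

end Inst

end Fermat.Agent.H76M
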