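import Mathlib
import Fermat.Agent.H76M6
import Fermat.Agent.H76MStmt
import Fermat.Agent.H35S35

/-!
# MAZUR G2, part 7: the group `J`
(helper76)
-/

set_option autoImplicit false

noncomputable section

open Module Fermat.Agent.H15 Fermat.Agent.H30 ModularCurve IsLocalRing Polynomial TensorProduct

namespace Fermat.Agent.H76M

section Abs

variable {N r : ℕ} [Fact r.Prime] {J : Type} [AddCommGroup J] [Module HeckeAlg J]
  [DistribMulAction GQ J] {K : ValuationSubring Qb → AddSubgroup J}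

theorem multT (hB : BasicInputs N J K) (hrN : ¬ r ∣ N) {t : ℕ} (D : TateData N r J t)
    {A : ValuationSubring Qb} (hA : A.LiesOverPrime r) : MultT D.S A (TK N r J (K A)) where
  liesOver := hA
  stable σ hσ x hx n := by
    rw [D.ρ_apply]
    exact hB.galois r Fact.out hrN A hA σ hσ _ (hx n)
  quot σ hσ x n := by
    rw [map_sub, AddSubgroup.coe_sub, D.ρ_apply]
    exact hB.inertia r Fact.out hrN A hA σ hσ _

theorem proj_mem_WSub (x : TW N r J) (k : ℕ) :
    ((TateMod.proj k x : Winf N r J) : J) ∈ WSub N r J k := by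
  obtain ⟨k', h⟩ := (TateMod.proj k x : Winf N r J).2
  refine ⟨?_, h.2⟩
  rw [← AddSubgroup.coe_nsmul, TateMod.pow_smul_proj]
  rfl

theorem exists_div_TK {K₀ : AddSubgroup J} {x : TW N r J} (hx : x ∈ TK N r J K₀) {k : ℕ}
    (h : TateMod.proj k x = 0) : ∃ y ∈ TK N r J K₀, x = (r : ℤ_[r]) ^ k • y := by
  obtain ⟨y, hy⟩ := (TateMod.mem_pow_smul_iff k x).mpr h
  refine ⟨y, fun n => ?_, hy⟩
  have h1 : TateMod.proj (n + k) x = TateMod.proj n y := by
    rw [hy, ← Nat.cast_pow, TateMod.natCast_smul, map_nsmul, TateMod.pow_smul_proj_add]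
  rw [← h1]
  exact hx _

theorem le_of_pow_le {m t C : ℕ} (hr : 1 < r) (h : ∀ k : ℕ, r ^ (m * k) ≤ C * r ^ (t * k)) :
    m ≤ t := by
  by_contra hcon
  push Not at hcon
  have h1 : r ^ C * r ^ (t * C) ≤ C * r ^ (t * C) := by
    refine le_trans ?_ (h C)
    rw [← pow_add]
    refine Nat.pow_le_pow_right (by omega) ?_
    calc C + t * C = (t + 1) * C := by ring
      _ ≤ m * C := Nat.mul_le_mul_right _ hcon
  have h2 : 0 < r ^ (t * C) := pow_pos (by omega) _
  have h3 := Nat.le_of_mul_le_mul_right h1 h2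
  exact absurd (Nat.lt_pow_self hr) (not_lt.mpr h3)

theorem finrank_TK_le (hB : BasicInputs N J K) {t : ℕ} (D : TateData N r J t)
    {A : ValuationSubring Qb} {C : ℕ}
    (hC : ∀ k, Nat.card (WSub N r J k ⊓ K A : AddSubgroup J) ≤ C * r ^ (t * k)) :
    finrank ℤ_[r] (TK N r J (K A)) ≤ t := by
  have := D.finite
  have := D.free
  have hr1 : 1 < r := (Fact.out : r.Prime).one_lt
  set m := finrank ℤ_[r] (TK N r J (K A)) with hm
  let b : Basis (Fin m) ℤ_[r] (TK N r J (K A)) := Module.finBasis ℤ_[r] _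
  refine le_of_pow_le (C := C) hr1 fun k => le_trans ?_ (hC k)
  let X : (Fin m → Fin (r ^ k)) → TK N r J (K A) := fun c => ∑ i, ((c i : ℕ) : ℤ_[r]) • b i
  let φ : (Fin m → Fin (r ^ k)) → (WSub N r J k ⊓ K A : AddSubgroup J) := fun c =>
    ⟨((TateMod.proj k ((X c : TK N r J (K A)) : TW N r J) : Winf N r J) : J),
      proj_mem_WSub _ k, (X c).2 k⟩
  have hφ : Function.Injective φ := by
    intro c c' hcc
    have h1 : ((TateMod.proj k ((X c : TK N r J (K A)) : TW N r J) : Winf N r J) : J) =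
        ((TateMod.proj k ((X c' : TK N r J (K A)) : TW N r J) : Winf N r J) : J) :=
      congrArg (fun z : (WSub N r J k ⊓ K A : AddSubgroup J) => (z : J)) hcc
    have h2 : TateMod.proj k ((X c - X c' : TK N r J (K A)) : TW N r J) = 0 := by
      rw [Submodule.coe_sub, map_sub, sub_eq_zero]
      exact Subtype.ext h1
    obtain ⟨y, hy, h3⟩ := exists_div_TK (X c - X c').2 h2
    have h4 : X c - X c' = (r : ℤ_[r]) ^ k • (⟨y, hy⟩ : TK N r J (K A)) := Subtype.ext h3
    have hX : ∀ (c : Fin m → Fin (r ^ k)) (i : Fin m), b.repr (X c) i = ((c i : ℕ) : ℤ_[r]) := by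
      intro c i
      exact b.repr_sum_self _ ▸ rfl
    funext i
    have h5 := congrArg (fun z => b.repr z i) h4
    simp only [map_sub, Finsupp.sub_apply, map_smul, Finsupp.smul_apply, smul_eq_mul] at h5
    rw [hX, hX] at h5
    have h6 := congrArg (PadicInt.toZModPow k) h5
    have h7 : (PadicInt.toZModPow k) ((r : ℤ_[r]) ^ k) = 0 := by
      rw [map_pow, map_natCast, ← Nat.cast_pow, ZMod.natCast_self]
    rw [map_mul, h7, zero_mul, map_sub, map_natCast, map_natCast, sub_eq_zero,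
      ZMod.natCast_eq_natCast_iff', Nat.mod_eq_of_lt (c i).2, Nat.mod_eq_of_lt (c' i).2] at h6
    exact Fin.ext h6
  have hfin : Finite (WSub N r J k ⊓ K A : AddSubgroup J) := by
    have h1 := hB.torsion_finite (r ^ k) (pow_ne_zero _ (by omega))
    exact (h1.subset fun x (hx : x ∈ (WSub N r J k ⊓ K A : AddSubgroup J)) => hx.1.1).to_subtype
  have h8 := Nat.card_le_card_of_injective φ hφ
  rw [Nat.card_fun, Nat.card_eq_fintype_card, Nat.card_eq_fintype_card, Fintype.card_fin,
    Fintype.card_fin, ← pow_mul, mul_comm k m] at h8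
  exact h8

theorem proj_aeval {t : ℕ} (D : TateData N r J t) {q : ℕ} (hq : q.Prime) (hqN : q ≠ N)
    (P : ℤ[X]) (n : ℕ) : ∀ x : TW N r J,
    ((TateMod.proj n (aeval (D.S.τ q) P x) : Winf N r J) : J) =
      (aeval (heckeGen ⟨q, hq⟩ : HeckeAlg) P) • ((TateMod.proj n x : Winf N r J) : J) := by
  induction P using Polynomial.induction_on with
  | C a =>
    intro x
    rw [aeval_C, aeval_C, eq_intCast, eq_intCast, Module.End.intCast_apply, map_zsmul,
      AddSubgroup.coe_zsmul, Int.cast_smul_eq_zsmul]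
  | add P Q hP hQ =>
    intro x
    rw [map_add, map_add, LinearMap.add_apply, map_add, AddSubgroup.coe_add, hP, hQ, add_smul]
  | monomial k a h =>
    intro x
    have e : (aeval (heckeGen ⟨q, hq⟩ : HeckeAlg)) (C a * X ^ (k + 1)) =
        (aeval (heckeGen ⟨q, hq⟩ : HeckeAlg)) (C a * X ^ k) * heckeGen ⟨q, hq⟩ := by
      rw [pow_succ, ← mul_assoc, map_mul, aeval_X]
    rw [e, pow_succ, ← mul_assoc, map_mul, aeval_X, Module.End.mul_apply, h,
      D.τ_apply q hq hqN, mul_smul]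

end Abs

/-- Piece H: multiplicity two. -/
def PieceH : Prop :=
  ∀ (N r : ℕ) [NeZero N] [Fact r.Prime] (_ : N.Prime) (L : Type) [Field L] [Algebra ℚ_[r] L]
    [FiniteDimensional ℚ_[r] L] [Algebra ℤ_[r] L] [IsScalarTower ℤ_[r] ℚ_[r] L] (χ : ℕ → L)
    (v : Fin 3 → L ⊗[ℤ_[r]] TateMod r (JZero N)),
    (∀ i (q : ℕ) (hq : q.Prime), q ≠ N →
      (H35.tateMap (p := r) (heckeOperatorBar N ⟨q, hq⟩).toAddMonoidHom).baseChange L (v i) =
        χ q • v i) →
    ¬ LinearIndependent L v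

end Fermat.Agent.H76M
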