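import Mathlib
import Fermat.Agent.H76MStmt

/-!
# MAZUR G2, piece E: the Tate module of the Eisenstein part (helper92)
-/

set_option autoImplicit false
set_option linter.unusedSectionVars false

noncomputable section

open Module Fermat.Agent.H15 Fermat.Agent.H30 ModularCurve IsLocalRing

namespace Fermat.Agent.H92.MzE

open Fermat.Agent.H76M

section Stable

variable {N r : ℕ} {J : Type} [AddCommGroup J] [Module HeckeAlg J] [DistribMulAction GQ J]

theorem hecke_mem {k : ℕ} (t : HeckeAlg) {x : J} (hx : x ∈ WSub N r J k) :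
    t • x ∈ WSub N r J k := by
  obtain ⟨h1, n, hn⟩ := hx
  refine ⟨?_, n, fun s hs => ?_⟩
  · rw [smul_comm, h1, smul_zero]
  · rw [smul_comm, hn s hs, smul_zero]

theorem gal_mem [SMulCommClass GQ HeckeAlg J] {k : ℕ} (σ : GQ) {x : J} (hx : x ∈ WSub N r J k) :
    σ • x ∈ WSub N r J k := by
  obtain ⟨h1, n, hn⟩ := hx
  refine ⟨?_, n, fun s hs => ?_⟩
  · rw [smul_comm, h1, smul_zero]
  · rw [← smul_comm σ s x, hn s hs, smul_zero]

theorem mem_of_pow {k : ℕ} {x : J} (hx : x ∈ Winf N r J) (h : (r ^ k : ℕ) • x = 0) :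
    x ∈ WSub N r J k := by
  obtain ⟨l, -, hl⟩ := hx
  exact ⟨h, hl⟩

variable (N r J) in
/-- Hecke operators on `W` -/
def hEnd : HeckeAlg →+* AddMonoid.End (Winf N r J) where
  toFun t :=
    { toFun := fun x => ⟨t • (x : J), by
        obtain ⟨k, hk⟩ := x.2
        exact ⟨k, hecke_mem t hk⟩⟩
      map_zero' := Subtype.ext (smul_zero _)
      map_add' := fun x y => Subtype.ext (smul_add _ _ _) }
  map_one' := by
    ext x
    exact one_smul _ _
  map_mul' s t := by
    ext x
    exact mul_smul _ _ _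
  map_zero' := by
    ext x
    exact zero_smul _ _
  map_add' s t := by
    ext x
    exact add_smul _ _ _

@[simp] theorem coe_hEnd (t : HeckeAlg) (x : Winf N r J) :
    ((hEnd N r J t x : Winf N r J) : J) = t • (x : J) := rfl

variable (N r J) in
/-- Galois action on `W` -/
def gEnd [SMulCommClass GQ HeckeAlg J] : GQ →* AddMonoid.End (Winf N r J) where
  toFun σ :=
    { toFun := fun x => ⟨σ • (x : J), by
        obtain ⟨k, hk⟩ := x.2
        exact ⟨k, gal_mem σ hk⟩⟩
      map_zero' := Subtype.ext (smul_zero _)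
      map_add' := fun x y => Subtype.ext (smul_add _ _ _) }
  map_one' := by
    ext x
    exact one_smul _ _
  map_mul' s t := by
    ext x
    exact mul_smul _ _ _

@[simp] theorem coe_gEnd [SMulCommClass GQ HeckeAlg J] (σ : GQ) (x : Winf N r J) :
    ((gEnd N r J σ x : Winf N r J) : J) = σ • (x : J) := rfl

theorem proj_mem [Fact r.Prime] (x : TW N r J) (n : ℕ) :
    ((TateMod.proj n x : Winf N r J) : J) ∈ WSub N r J n := by
  refine mem_of_pow (TateMod.proj n x).2 ?_
  exact congrArg (Subtype.val : Winf N r J → J) (TateMod.pow_smul_proj x n)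

end Stable

section Tate

variable (N r : ℕ) [hr : Fact r.Prime] (J : Type) [AddCommGroup J] [Module HeckeAlg J]
  [DistribMulAction GQ J]

/-- the Hecke operators on the Tate module -/
def tH : HeckeAlg →+* Module.End ℤ_[r] (TW N r J) := TateMod.map.comp (hEnd N r J)

variable {N r J} in
@[simp] theorem coe_proj_tH (t : HeckeAlg) (x : TW N r J) (n : ℕ) :
    ((TateMod.proj n (tH N r J t x) : Winf N r J) : J) =
      t • ((TateMod.proj n x : Winf N r J) : J) := rfl

/-- the Galois action on the Tate module -/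
def tG [SMulCommClass GQ HeckeAlg J] : GQ →* Module.End ℤ_[r] (TW N r J) :=
  (TateMod.map : AddMonoid.End (Winf N r J) →+* _).toMonoidHom.comp (gEnd N r J)

variable {N r J} in
@[simp] theorem coe_proj_tG [SMulCommClass GQ HeckeAlg J] (σ : GQ) (x : TW N r J) (n : ℕ) :
    ((TateMod.proj n (tG N r J σ x) : Winf N r J) : J) =
      σ • ((TateMod.proj n x : Winf N r J) : J) := rfl

/-- the generator `T_q` (junk `0` if `q` is not a prime) -/
def gen (q : ℕ) : HeckeAlg := if h : q.Prime then heckeGen ⟨q, h⟩ else 0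

theorem gen_of_prime {q : ℕ} (h : q.Prime) : gen q = heckeGen ⟨q, h⟩ := dif_pos h

variable {N r J} in
theorem tw_ext {x y : TW N r J} (h : ∀ n, ((TateMod.proj n x : Winf N r J) : J) =
    ((TateMod.proj n y : Winf N r J) : J)) : x = y :=
  TateMod.ext fun n => Subtype.ext (h n)

variable {N r J} in
theorem pow_smul_of_proj {x : TW N r J} {n : ℕ} (h : ((TateMod.proj n x : Winf N r J) : J) = 0) :
    ∃ w, x = (r : ℤ_[r]) ^ n • w :=
  (TateMod.mem_pow_smul_iff n x).2 (Subtype.ext h)

variable {N r J}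

theorem tH_natCast (m : ℕ) : tH N r J (m : HeckeAlg) = (m : ℤ_[r]) • (1 : Module.End ℤ_[r] (TW N r J)) := by
  rw [map_natCast, Nat.cast_smul_eq_nsmul, nsmul_one]

end Tate

section Finite

variable {N r : ℕ} [hr : Fact r.Prime] {J : Type} [AddCommGroup J] [Module HeckeAlg J]
  [DistribMulAction GQ J] {K : ValuationSubring Qb → AddSubgroup J}

theorem finite_WSub (hB : BasicInputs N J K) (k : ℕ) : (WSub N r J k : Set J).Finite :=
  (hB.torsion_finite (r ^ k) (pow_ne_zero _ hr.out.ne_zero)).subset fun _ hx => hx.1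

theorem finite_torsion (hB : BasicInputs N J K) : {x : Winf N r J | r • x = 0}.Finite := by
  refine Set.Finite.of_finite_image (f := (Subtype.val : Winf N r J → J)) ?_
    Subtype.val_injective.injOn
  refine (hB.torsion_finite r hr.out.ne_zero).subset ?_
  rintro _ ⟨x, hx, rfl⟩
  have h := congrArg (Subtype.val : Winf N r J → J) (show r • x = 0 from hx)
  simpa using h

/-- continuity -/
theorem cont [SMulCommClass GQ HeckeAlg J] (hB : BasicInputs N J K) (n : ℕ) :
    ∃ L : IntermediateField ℚ Qb, FiniteDimensional ℚ L ∧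
      ∀ σ : GQ, (∀ x ∈ L, σ x = x) → ∀ v : TW N r J, ∃ w,
        (tG N r J σ - 1) v = (r : ℤ_[r]) ^ n • w := by
  have hU : (⋂ x ∈ (WSub N r J n : Set J), {σ : GQ | σ • x = x}) ∈ nhds (1 : GQ) := by
    rw [Filter.biInter_mem (finite_WSub hB n)]
    intro x _
    exact (hB.smooth x).mem_nhds (one_smul _ _)
  obtain ⟨L, hL, hLU⟩ := (krullTopology_mem_nhds_one_iff ℚ Qb _).1 hU
  refine ⟨L, hL, fun σ hσ v => pow_smul_of_proj ?_⟩
  have h1 : σ ∈ (L.fixingSubgroup : Set GQ) := by
    rw [SetLike.mem_coe, IntermediateField.mem_fixingSubgroup_iff]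
    exact hσ
  have h2 := hLU h1
  simp only [Set.mem_iInter] at h2
  have h3 := h2 _ (proj_mem v n)
  have h3' : σ • ((TateMod.proj n v : Winf N r J) : J) = ((TateMod.proj n v : Winf N r J) : J) := h3
  rw [LinearMap.sub_apply, map_sub, AddSubgroup.coe_sub, coe_proj_tG, h3', Module.End.one_apply,
    sub_self]

/-- topological nilpotence of `T_q - 1 - q` -/
theorem nilp (hB : BasicInputs N J K) (q : ℕ) (hq : q.Prime) (hqN : q ≠ N) :
    ∃ k : ℕ, ∀ v : TW N r J, ∃ w,
      ((tH N r J (gen q) - (1 + (q : ℤ_[r])) • (1 : Module.End ℤ_[r] (TW N r J))) ^ k) v =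
        (r : ℤ_[r]) • w := by
  classical
  -- a uniform exponent on the finite set `W[r]`
  have h1 : ∀ x ∈ (finite_WSub (r := r) hB 1).toFinset, ∃ n : ℕ, ∀ t ∈ (eisP N r) ^ n, t • x = 0 := by
    intro x hx
    exact ((finite_WSub (r := r) hB 1).mem_toFinset.1 hx).2
  choose! f hf using h1
  let n := (finite_WSub (r := r) hB 1).toFinset.sup f
  have hn : ∀ x ∈ WSub N r J 1, ∀ t ∈ (eisP N r) ^ n, t • x = 0 := by
    intro x hx t ht
    have hx' : x ∈ (finite_WSub (r := r) hB 1).toFinset :=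
      (finite_WSub (r := r) hB 1).mem_toFinset.2 hx
    exact hf x hx' t (Ideal.pow_le_pow_right (Finset.le_sup hx') ht)
  refine ⟨n, fun v => ?_⟩
  have h2 : tH N r J (gen q) - (1 + (q : ℤ_[r])) • (1 : Module.End ℤ_[r] (TW N r J)) =
      tH N r J (gen q - ((1 + q : ℕ) : HeckeAlg)) := by
    rw [map_sub, tH_natCast, Nat.cast_add, Nat.cast_one]
  have h3 : gen q - ((1 + q : ℕ) : HeckeAlg) ∈ eisP N r := by
    refine Ideal.subset_span (Or.inr ⟨⟨q, hq⟩, hqN, ?_⟩)
    rw [gen_of_prime hq]
    congr 1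
  rw [h2, ← map_pow]
  have h4 := pow_smul_of_proj (n := 1) (x := tH N r J ((gen q - ((1 + q : ℕ) : HeckeAlg)) ^ n) v) (by
    rw [coe_proj_tH]
    exact hn _ (proj_mem v 1) _ (Ideal.pow_mem_pow h3 n))
  simpa using h4

theorem zero_of_mem (hB : BasicInputs N J K) {q : ℕ} (hq : q.Prime) (hqN : ¬ q ∣ N) (hqr : q ≠ r)
    {B : ValuationSubring Qb} (hBq : B.LiesOverPrime q) {n : ℕ} {x : J} (hx : x ∈ K B)
    (hxn : (r ^ n : ℕ) • x = 0) : x = 0 :=
  hB.torsion_inj q hq hqN B hBq (r ^ n) (fun h => hqr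
    ((Nat.prime_dvd_prime_iff_eq hq hr.out).1 (hq.dvd_of_dvd_pow h))) x hx hxn

end Finite

section Card

variable {N r : ℕ} [hr : Fact r.Prime] {J : Type} [AddCommGroup J] [Module HeckeAlg J]
  [DistribMulAction GQ J] {K : ValuationSubring Qb → AddSubgroup J} {t : ℕ}

/-- `W` is divisible -/
theorem exists_div (hB : BasicInputs N J K) (hC : CardW N r J t) {k : ℕ} {x : J}
    (hx : x ∈ WSub N r J k) : ∃ y ∈ WSub N r J (k + 1), r • y = x := by
  have hr0 := hr.out.pos
  have f1 : Finite (WSub N r J (k + 1)) := (finite_WSub hB (k + 1)).to_subtype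
  have f2 : Finite (WSub N r J k) := (finite_WSub hB k).to_subtype
  -- multiplication by `r`
  have hmem : ∀ y : WSub N r J (k + 1), r • (y : J) ∈ WSub N r J k := by
    rintro ⟨y, h1, n, hn⟩
    refine ⟨?_, n, fun s hs => ?_⟩
    · show (r ^ k : ℕ) • (r • y) = 0
      rw [← mul_smul, ← pow_succ]
      exact h1
    · show s • (r • y) = 0
      rw [smul_comm, hn s hs, smul_zero]
  let φ : WSub N r J (k + 1) →+ WSub N r J k :=
    { toFun := fun y => ⟨r • (y : J), hmem y⟩
      map_zero' := Subtype.ext (smul_zero _)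
      map_add' := fun a b => Subtype.ext (smul_add _ _ _) }
  have hker : Nat.card φ.ker = r ^ (2 * t * 1) := by
    rw [← hC 1]
    refine Nat.card_congr
      { toFun := fun y => ⟨((y : WSub N r J (k + 1)) : J), ?_⟩
        invFun := fun y => ⟨⟨(y : J), ?_⟩, ?_⟩
        left_inv := fun y => rfl
        right_inv := fun y => rfl }
    · have h1 : r • (((y : WSub N r J (k + 1)) : J)) = 0 := congrArg Subtype.val y.2
      refine ⟨?_, (y : WSub N r J (k + 1)).2.2⟩
      rw [pow_one]
      exact h1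
    · refine ⟨?_, y.2.2⟩
      have h1 : (r ^ 1 : ℕ) • (y : J) = 0 := y.2.1
      rw [pow_one] at h1
      rw [pow_succ, mul_smul, h1, smul_zero]
    · apply Subtype.ext
      have h1 : (r ^ 1 : ℕ) • (y : J) = 0 := y.2.1
      rw [pow_one] at h1
      exact h1
  have hcard := AddSubgroup.card_eq_card_quotient_mul_card_addSubgroup φ.ker
  have hrange : Nat.card φ.range = Nat.card (WSub N r J k) := by
    rw [hC k]
    have e : Nat.card (WSub N r J (k + 1) ⧸ φ.ker) = Nat.card φ.range :=
      Nat.card_congr (QuotientAddGroup.quotientKerEquivRange φ).toEquiv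
    rw [e, hker, hC (k + 1)] at hcard
    have h2 : r ^ (2 * t * (k + 1)) = r ^ (2 * t * k) * r ^ (2 * t * 1) := by
      rw [← pow_add]
      congr 1
      ring
    rw [h2] at hcard
    exact (Nat.eq_of_mul_eq_mul_right (pow_pos hr0 _) hcard).symm
  have htop : φ.range = ⊤ := by
    have h := AddSubgroup.eq_top_of_card_eq φ.range hrange
    exact h
  have hx' : (⟨x, hx⟩ : WSub N r J k) ∈ φ.range := by
    rw [htop]
    exact AddSubgroup.mem_top _
  obtain ⟨y, hy⟩ := hx'
  exact ⟨y, y.2, congrArg Subtype.val hy⟩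

/-- every element of `W[r^k]` lifts -/
theorem surj (hB : BasicInputs N J K) (hC : CardW N r J t) (k : ℕ) (x : J)
    (hx : x ∈ WSub N r J k) : ∃ y : TW N r J, ((TateMod.proj k y : Winf N r J) : J) = x := by
  obtain ⟨y, hy⟩ := TateMod.exists_of_divisible (p := r) (J := Winf N r J) Set.univ
    (fun z _ => by
      obtain ⟨l, hl⟩ := z.2
      obtain ⟨w, hw, hw'⟩ := exists_div hB hC hl
      exact ⟨⟨w, l + 1, hw⟩, trivial, Subtype.ext hw'⟩) k ⟨x, k, hx⟩ trivial (Subtype.ext hx.1)
  exact ⟨y, congrArg Subtype.val hy⟩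

theorem finrank_eq (hB : BasicInputs N J K) (hC : CardW N r J t) :
    finrank ℤ_[r] (TW N r J) = 2 * t := by
  have hfin : Module.Finite ℤ_[r] (TW N r J) := TateMod.finite_of_finite_torsion (finite_torsion hB)
  have hfree : Module.Free ℤ_[r] (TW N r J) := TateMod.free_of_finite_torsion (finite_torsion hB)
  have hmax : maximalIdeal ℤ_[r] = Ideal.span {(r : ℤ_[r])} := PadicInt.maximalIdeal_eq_span_p
  have hcardk : Nat.card (ResidueField ℤ_[r]) = r := by
    rw [Nat.card_congr (PadicInt.residueField (p := r)).toEquiv, Nat.card_zmod]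
  have hfk : Finite (ResidueField ℤ_[r]) := Nat.finite_of_card_ne_zero (by
    rw [hcardk]; exact hr.out.ne_zero)
  have e1 : Nat.card (TensorProduct ℤ_[r] (ResidueField ℤ_[r]) (TW N r J)) =
      Nat.card (TW N r J ⧸ (maximalIdeal ℤ_[r] • (⊤ : Submodule ℤ_[r] (TW N r J)))) :=
    Nat.card_congr (TensorProduct.quotTensorEquivQuotSMul (TW N r J) (maximalIdeal ℤ_[r])).toEquiv
  have hker : (maximalIdeal ℤ_[r] • (⊤ : Submodule ℤ_[r] (TW N r J))).toAddSubgroup =
      (TateMod.proj 1 : TW N r J →+ Winf N r J).ker := by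
    ext x
    have h := TateMod.mem_smul_top_iff 1 x
    rw [pow_one, ← hmax] at h
    exact h
  have hq : Nat.card (TW N r J ⧸ (maximalIdeal ℤ_[r] • (⊤ : Submodule ℤ_[r] (TW N r J)))) =
      r ^ (2 * t) := by
    have e2 : Nat.card (TW N r J ⧸ (TateMod.proj 1 : TW N r J →+ Winf N r J).ker) =
        Nat.card (TateMod.proj 1 : TW N r J →+ Winf N r J).range :=
      Nat.card_congr (QuotientAddGroup.quotientKerEquivRange _).toEquiv
    have e3 : Nat.card (TateMod.proj 1 : TW N r J →+ Winf N r J).range =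
        Nat.card (WSub N r J 1) := by
      refine Nat.card_congr
        { toFun := fun y => ⟨((y : Winf N r J) : J), ?_⟩
          invFun := fun y => ⟨⟨(y : J), 1, y.2⟩, ?_⟩
          left_inv := fun y => rfl
          right_inv := fun y => rfl }
      · obtain ⟨z, hz⟩ := y.2
        rw [← hz]
        exact proj_mem z 1
      · obtain ⟨z, hz⟩ := surj hB hC 1 (y : J) y.2
        exact ⟨z, Subtype.ext hz⟩
    have e4 : Nat.card (TW N r J ⧸ (maximalIdeal ℤ_[r] • (⊤ : Submodule ℤ_[r] (TW N r J)))) =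
        Nat.card (TW N r J ⧸ (TateMod.proj 1 : TW N r J →+ Winf N r J).ker) := by
      rw [← hker]
      rfl
    rw [e4, e2, e3, hC 1, mul_one]
  rw [← e1, Module.natCard_eq_pow_finrank (K := ResidueField ℤ_[r]), hcardk] at hq
  have h5 : finrank (ResidueField ℤ_[r]) (TensorProduct ℤ_[r] (ResidueField ℤ_[r]) (TW N r J)) =
      finrank ℤ_[r] (TW N r J) := Module.finrank_baseChange
  have h6 := Nat.pow_right_injective hr.out.two_le hq
  rw [← h5]
  exact h6

end Card

/-- **Piece E.** -/
theorem pieceE : PieceE := by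
  intro N r _ hN hrN J _ _ _ _ K hB hE hS t hC
  have hr : Fact r.Prime := inferInstance
  have hdvd : ∀ q : ℕ, q.Prime → q ≠ N → ¬ q ∣ N := fun q hq hqN h =>
    hqN ((Nat.prime_dvd_prime_iff_eq hq hN).1 h)
  have hpow : ∀ (x : TW N r J) (n : ℕ),
      (r ^ n : ℕ) • ((TateMod.proj n x : Winf N r J) : J) = 0 := fun x n => (proj_mem x n).1
  refine ⟨{
    S := {
      τ := fun q => tH N r J (gen q)
      ρ := tG N r J
      comm_τ := fun q q' => by
        show tH N r J (gen q) * tH N r J (gen q') = tH N r J (gen q') * tH N r J (gen q)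
        rw [← map_mul, ← map_mul, mul_comm]
      comm_ρ := fun q σ => by
        refine LinearMap.ext fun x => tw_ext fun n => ?_
        show (gen q) • σ • ((TateMod.proj n x : Winf N r J) : J) = σ • (gen q) • _
        rw [smul_comm σ (gen q)]
      cont := fun n => cont hB n
      nilp := fun q hq hqN => nilp hB q hq hqN
      frob := fun q hq hqN hqr B hBq φ hφ => ?_
      unr := fun q hq hqN hqr B hBq σ hσ => ?_
      ss := fun B hBN σ hσ => ?_
      nonEis := fun q hq hqN => ?_ }
    ρ_apply := fun σ x n => rfl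
    τ_apply := fun q hq _ x n => by
      show ((TateMod.proj n (tH N r J (gen q) x) : Winf N r J) : J) = _
      rw [coe_proj_tH, gen_of_prime hq]
    finite := TateMod.finite_of_finite_torsion (finite_torsion hB)
    free := TateMod.free_of_finite_torsion (finite_torsion hB)
    finrank_eq := finrank_eq hB hC
    surj := fun k x hx => surj hB hC k x hx }⟩
  · refine LinearMap.ext fun x => tw_ext fun n => ?_
    have h1 : ((TateMod.proj n ((tG N r J φ * tG N r J φ - tH N r J (gen q) * tG N r J φ +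
        (q : ℤ_[r]) • (1 : Module.End ℤ_[r] (TW N r J))) x) : Winf N r J) : J) =
        φ • φ • ((TateMod.proj n x : Winf N r J) : J) -
          heckeGen ⟨q, hq⟩ • φ • ((TateMod.proj n x : Winf N r J) : J) +
          q • ((TateMod.proj n x : Winf N r J) : J) := by
      rw [LinearMap.add_apply, LinearMap.sub_apply, map_add, map_sub, AddSubgroup.coe_add,
        AddSubgroup.coe_sub, Module.End.mul_apply, Module.End.mul_apply, coe_proj_tG, coe_proj_tG,
        coe_proj_tH, coe_proj_tG, gen_of_prime hq, LinearMap.smul_apply, Module.End.one_apply,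
        TateMod.natCast_smul, map_nsmul]
      rfl
    rw [h1, LinearMap.zero_apply, map_zero]
    refine zero_of_mem hB hq (hdvd q hq hqN) hqr hBq (n := n)
      (hB.frob q hq (hdvd q hq hqN) B hBq φ hφ _) ?_
    rw [smul_add, smul_sub, smul_comm _ φ, smul_comm _ φ, hpow, smul_zero, smul_zero,
      smul_comm _ (heckeGen ⟨q, hq⟩), smul_comm _ φ, hpow, smul_zero, smul_zero, smul_comm _ q, hpow,
      smul_zero, sub_zero, add_zero]
  · refine LinearMap.ext fun x => tw_ext fun n => ?_
    rw [coe_proj_tG, Module.End.one_apply]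
    rw [← sub_eq_zero]
    refine zero_of_mem hB hq (hdvd q hq hqN) hqr hBq (n := n)
      (hB.inertia q hq (hdvd q hq hqN) B hBq σ hσ _) ?_
    rw [smul_sub, smul_comm _ σ, hpow, smul_zero, sub_zero]
  · refine LinearMap.ext fun x => tw_ext fun n => ?_
    rw [Module.End.mul_apply, coe_proj_tG, LinearMap.sub_apply, map_sub, AddSubgroup.coe_sub,
      coe_proj_tG, Module.End.one_apply]
    refine hS B hBN σ hσ σ hσ (r ^ n) (fun h => hrN
      ((Nat.prime_dvd_prime_iff_eq hN hr.out).1 (hN.dvd_of_dvd_pow h)).symm) _ fun ρ' _ => ?_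
    rw [hpow, smul_zero]
  · obtain ⟨s, m, hm, h⟩ := hE ⟨q, hq⟩ (hdvd q hq hqN)
    refine ⟨tH N r J s, m, hm, ?_⟩
    refine LinearMap.ext fun x => tw_ext fun n => ?_
    have h1 : (1 + (q : ℤ_[r])) • (1 : Module.End ℤ_[r] (TW N r J)) - tH N r J (gen q) =
        tH N r J (((1 + q : ℕ) : HeckeAlg) - gen q) := by
      rw [map_sub, tH_natCast, Nat.cast_add, Nat.cast_one]
    rw [h1, ← map_mul, coe_proj_tH, mul_smul, sub_smul, gen_of_prime hq, LinearMap.smul_apply,
      Module.End.one_apply, TateMod.natCast_smul, map_nsmul, AddSubgroup.coe_nsmul,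
      Nat.cast_smul_eq_nsmul]
    exact h _ ⟨r ^ n, pow_ne_zero _ hr.out.ne_zero, hpow x n⟩

end Fermat.Agent.H92.MzE

end
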