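import Mathlib
import Fermat.Agent.H76M7
import Fermat.Agent.H54MzD
import Fermat.Agent.H58MzH
import Fermat.Agent.H92MzE
import Fermat.Agent.H6MzF
import Fermat.Agent.H54MzM
import Fermat.Agent.H31Inputs

/-!
# MAZUR G2, part 8: final theorems `T_cardN`, `T_mult`
(helper76)
-/

set_option autoImplicit false

noncomputable section

open Module Fermat.Agent.H15 Fermat.Agent.H30 ModularCurve IsLocalRing Polynomial TensorProduct

namespace Fermat.Agent.H76M

attribute [local instance] heckeModuleBar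

section

variable {N r : ℕ} [NeZero N] [Fact r.Prime]

/-- the inclusion of Tate modules -/
def inclTW (N r : ℕ) [NeZero N] [Fact r.Prime] :
    TW N r (JZero N) →ₗ[ℤ_[r]] TateMod r (JZero N) :=
  H35.tateMap (p := r) (Winf N r (JZero N)).subtype

theorem inclTW_injective : Function.Injective (inclTW N r) := by
  intro x y hxy
  refine TateMod.ext fun n => ?_
  have h := congrArg (TateMod.proj n) hxy
  exact Subtype.ext h

theorem inclTW_comm {t : ℕ} (D : TateData N r (JZero N) t) {q : ℕ} (hq : q.Prime) (hqN : q ≠ N) :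
    (H35.tateMap (p := r) (heckeOperatorBar N ⟨q, hq⟩).toAddMonoidHom) ∘ₗ inclTW N r =
      inclTW N r ∘ₗ D.S.τ q := by
  refine LinearMap.ext fun x => TateMod.ext fun n => ?_
  show heckeOperatorBar N ⟨q, hq⟩ ((TateMod.proj n x : Winf N r (JZero N)) : JZero N) =
    ((TateMod.proj n (D.S.τ q x) : Winf N r (JZero N)) : JZero N)
  rw [D.τ_apply q hq hqN, heckeModuleBar_heckeGen_smul (H67.heckeOperatorsCommuteBar N)]

theorem mainHyp (hN : N.Prime) {t : ℕ} (D : TateData N r (JZero N) t) : MainHyp N r D.S t where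
  finite := D.finite
  free := D.free
  finrank_eq := D.finrank_eq
  poly q hq hqN := by
    have hqN' : ¬ q ∣ N := fun h => hqN ((Nat.prime_dvd_prime_iff_eq hq hN).mp h)
    obtain ⟨P, hP1, hP2, hP3⟩ := H54Mz.exists_poly (N := N) ⟨q, hq⟩ hqN'
    refine ⟨P, hP1, hP2, ?_⟩
    refine LinearMap.ext fun x => TateMod.ext fun n => Subtype.ext ?_
    rw [proj_aeval D hq hqN P n x]
    refine (hP3 _ ⟨r ^ n, pow_ne_zero _ (Fact.out : r.Prime).ne_zero, ?_⟩).trans ?_
    · exact (proj_mem_WSub x n).1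
    · rw [LinearMap.zero_apply, map_zero]; rfl
  dim := by
    intro L _ _ _ _ _ χ v h hli
    have hflat := flat_L (r := r) L
    refine H58.Mz.pieceH hN (r := r) L χ (fun i => (inclTW N r).baseChange L (v i))
      (fun i q hq hqN => ?_) (hli.map' ((inclTW N r).baseChange L) ?_)
    · have h1 := congrArg (fun g => LinearMap.baseChange L g (v i)) (inclTW_comm D hq hqN)
      simp only [LinearMap.baseChange_comp] at h1
      rw [← map_smul, ← h i q hq hqN]
      exact h1
    · rw [LinearMap.ker_eq_bot]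
      exact Module.Flat.lTensor_preserves_injective_linearMap (M := L) (inclTW N r)
        inclTW_injective

end

theorem exists_data (h1 : T_basic) (h5 : T_noEis) (h6 : T_ss)
    (N : ℕ) [NeZero N] (hN : N.Prime) (r : ℕ) [Fact r.Prime] (hrN : r ≠ N) (t : ℕ)
    (hW : CardW N r (JZero N) t) : Nonempty (TateData N r (JZero N) t) := by
  haveI := H31.smulCommClass N
  exact H92.MzE.pieceE N r hN hrN (JZero N) (KJ N) (h1 N) (h5 N hN) (h6 N hN) t hW

theorem conclusions (h1 : T_basic) (h8 : T_cardMult)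
    (N : ℕ) [NeZero N] (hN : N.Prime) (r : ℕ) [Fact r.Prime] (hrN : r ≠ N) (t : ℕ)
    (hW : CardW N r (JZero N) t) (D : TateData N r (JZero N) t)
    {A : ValuationSubring Qb} (hA : A.LiesOverPrime r)
    (hp : (r : ℤ_[r]) ∈ maximalIdeal ℤ_[r]) :
    (∀ σ ∈ A.inertiaSubgroupIn ℚ, ∀ x ∈ TK N r (JZero N) (KJ N A),
      D.S.ρ σ x = H35.cyc ℤ_[r] hp σ • x) ∧
    (∀ B : ValuationSubring Qb, B.LiesOverPrime N → finrank ℤ_[r] (fixT D.S B) ≤ t) := by
  have hr : r.Prime := Fact.out
  have hrN' : ¬ r ∣ N := fun h => hrN ((Nat.prime_dvd_prime_iff_eq hr hN).mp h)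
  obtain ⟨C, hC⟩ := h8 N hN r hr hrN t hW
  have h := main (mainHyp hN D) hN (multT (h1 N) hrN' D hA)
    (finrank_TK_le (h1 N) D (hC A hA)) hp
  exact ⟨h.1, fun B hB => h.2 B hB (fixT D.S B) fun x hx σ hσ => hx σ hσ⟩

/-- **MAZUR, T_cardN** -/
theorem t_cardN (h1 : T_basic) (h5 : T_noEis) (h6 : T_ss) (h8 : T_cardMult) : T_cardN := by
  intro N _ hN r hr hrN t hW
  haveI : Fact r.Prime := ⟨hr⟩
  haveI := H31.smulCommClass N
  obtain ⟨D⟩ := exists_data h1 h5 h6 N hN r hrN t hW
  obtain ⟨A, hA⟩ := H54.exists_liesOverPrime hr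
  exact H6.Mz.pieceF N r hN hrN (JZero N) (KJ N) (h1 N) t hW D
    (conclusions h1 h8 N hN r hrN t hW D hA natCast_mem_padic).2

/-- **MAZUR, T_mult** -/
theorem t_mult (h1 : T_basic) (h2 : T_heckeRed) (h3 : T_divRed) (h5 : T_noEis) (h6 : T_ss)
    (h7 : T_cardW) (h8 : T_cardMult) : T_mult := by
  intro N _ hN r hr hrN
  haveI : Fact r.Prime := ⟨hr⟩
  haveI := H31.smulCommClass N
  obtain ⟨t, hW, -⟩ := h7 N hN r hr hrN
  obtain ⟨D⟩ := exists_data h1 h5 h6 N hN r hrN t hW
  exact H54Mz.pieceM N r hN hrN (JZero N) (KJ N) (h1 N) (h2 N) (h3 N) t hW D natCast_mem_padic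
    fun A hA => (conclusions h1 h8 N hN r hrN t hW D hA natCast_mem_padic).1

end Fermat.Agent.H76M
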