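import Fermat.Agent.H15Main2
import Fermat.Agent.H17Basic
import Fermat.Agent.H76M8
import Fermat.Agent.H18HkTop

/-!
# MAZUR: final assembly
-/

set_option autoImplicit false

namespace Fermat.Agent.H15

theorem mult_uncond : T_mult :=
  H76M.t_mult H17.basic H18.heckeRed H17.divRed H94.NE.noEis H80.SS.ss H9.cardW cardMult_uncond

theorem core_uncond : T_core :=
  core_of' H17.basic H18.heckeRed (H76M.t_cardN H17.basic H94.NE.noEis H80.SS.ss cardMult_uncond)
    mult_uncond

theorem s15 : H12.S15Statement := s15_of_core core_uncond

end Fermat.Agent.H15
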