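import Fermat.Agent.S09
import Fermat.Agent.S12
import Fermat.Agent.S15

/-!
# Reader's guide: Mazur's theorem for Frey curves (S09, S12, S15)

Every theorem of this file is a citation of a theorem of the library, with its statement written out in
full; the docstrings explain the notions and the ideas in ordinary mathematical language.

**What the block does.**  Let `P` be a Frey package (`p ≥ 5` prime, `a^p + b^p = c^p`, `a ≡ 3 mod 4`, `b`
even, coprime, nonzero) and `E : y² = x (x - a^p) (x + b^p)` its Frey curve.  S09 says that the mod `p`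
representation `E[p]` of the absolute Galois group of `ℚ` is irreducible.  It is used in the proof of S03
(see `GuideEndgame`), together with the modularity of `E` and level lowering.

The proof of S09:
* S13 (file `GuideFrey`): if `E[p]` is reducible, there is a Galois stable line `C ⊂ E[p]` with trivial
  action on `E[p]/C` ("cofixed line"); the other possibility, a line with trivial action, is excluded at `2`.
* S10, S11 (file `GuideFermatSmall`): there is no cofixed line for `p = 5, 7, 13` and `p = 11`, because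
  Fermat's Last Theorem is proved directly for these exponents.
* S12 (this file, sections 2 and 3): there is no cofixed line for `p ≥ 17`, by S15.
* S15 (this file, sections 4-6, and the files named below): a rational point `Q` of prime order
  `p ∉ {2, 3, 5, 7, 13}` on a Weierstrass curve `W` over `ℤ` with multiplicative reduction at `2` and
  at `3` which is not in the zero component at `2` and at `3`, is at no prime `ℓ ≠ p` of multiplicative
  reduction in the zero component.  This is "step 3" of Mazur's proof: `(W, Q)` gives a rational point `x`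
  of the modular curve `X₀(p)`; the class of `x - 0` in `J₀(p)` reduces to zero at `2` and `3`; by the
  Eisenstein descent such a class cannot reduce to the cuspidal class at any other place.

**Reading order.**  Section 1: the statements.  Section 2: S09 and the pieces of S12 = S15 ⇒ S12 (quotient
curve, normalisation, counting, the end).  Section 3: S12.  Section 4: the cusps and the cuspidal class.
Section 5: from `(W, Q)` to a place of the function field of `X₀(p)`.  Section 6: S15.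
The abstract descent is explained in `GuideMazurDescent`, the general facts on `J₀(N)` in
`GuideMazurJacobian`, its Eisenstein part in `GuideEisenstein`; more on section 2 in `GuideMazurSteps`, on
section 4 in `GuideCuspidalSteps` and `GuideCuspidalHecke`, on section 5 in `GuideModuliPoint` and
`GuideModuliSteps`.  The index of the Eisenstein ideal (S16, not used for S15) is in `GuideEisensteinIndex`.
NOTES [129] (overview), [81] (S12), [100] (cuspidal class), [243] (moduli point).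

Everything cited here is used in the proof of S01, except `S09.result` and `S15.result` themselves: S01 uses
`H42X.S09_of` and `H15.s15_of` (`s15_of` below), from which they are deduced.
-/

set_option autoImplicit false

namespace Fermat.Agent.Guide.Mazur

open WeierstrassCurve WeierstrassCurve.Affine WeierstrassCurve.Affine.Point
open ModularCurve AlgebraicCurve
open Fermat.Agent.H15 (Qb GQ)

/-! ## Section 1.  The statements -/

/-- **S09** (Mazur for Frey curves).  The representation `E[p]` of the Frey curve is irreducible: it is not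
zero, and the only submodules stable under all automorphisms `σ` of `ℚ̄` are `0` and `E[p]`.
Here `(P.freyCurve⁄ℚ̄).Point` is the group of points over `ℚ̄`, `torsionBy ℤ _ P.p` its `p`-torsion.
(The frozen statement says `GaloisRepIsIrreducible`, which unfolds to this.)  File `S09`. -/
theorem irreducible (P : FreyPackage) :
    Nontrivial (Submodule.torsionBy ℤ (P.freyCurve⁄(AlgebraicClosure ℚ)).Point P.p) ∧
    ∀ N : Submodule (ZMod P.p) (Submodule.torsionBy ℤ (P.freyCurve⁄(AlgebraicClosure ℚ)).Point P.p),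
      (∀ σ : AlgebraicClosure ℚ ≃ₐ[ℚ] AlgebraicClosure ℚ, ∀ x ∈ N, σ • x ∈ N) → N = ⊥ ∨ N = ⊤ :=
  S09.result P

/-- **S12**.  For `p ≥ 17` the `p`-torsion of the Frey curve has no Galois stable line `N` such that Galois
acts trivially on the quotient `E[p]/N`.  (The frozen statement says `¬ HasGaloisStableCofixedLine`.)
File `S12`; deduced from S15 in `H12Final`. -/
theorem no_cofixed_line (P : FreyPackage) (hp : 17 ≤ P.p) :
    ¬ ∃ N : Submodule (ZMod P.p) (Submodule.torsionBy ℤ (P.freyCurve⁄(AlgebraicClosure ℚ)).Point P.p),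
      (∀ σ : AlgebraicClosure ℚ ≃ₐ[ℚ] AlgebraicClosure ℚ, ∀ x ∈ N, σ • x ∈ N) ∧ N ≠ ⊥ ∧ N ≠ ⊤ ∧
      ∀ σ : AlgebraicClosure ℚ ≃ₐ[ℚ] AlgebraicClosure ℚ,
        ∀ x : Submodule.torsionBy ℤ (P.freyCurve⁄(AlgebraicClosure ℚ)).Point P.p, σ • x - x ∈ N :=
  S12.result P hp

/-- **S15** (step 3 of Mazur's proof).  Let `Q` be a rational point of prime order `p ∉ {2, 3, 5, 7, 13}` of
a Weierstrass curve `W` over `ℤ`, with multiplicative reduction at `2` and `3` (`2, 3 ∣ Δ`, `2, 3 ∤ c₄`)
such that `Q` is not in the zero component at the places above `2` and `3`.  Then `Q` is not in the zero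
component at any place above a prime `ℓ ≠ p` of multiplicative reduction.  File `S15`, section 6 below. -/
theorem not_in_zero_component {p : ℕ} (hp : p.Prime) (hp' : p ∉ ({2, 3, 5, 7, 13} : Finset ℕ))
    (W : WeierstrassCurve ℤ) (hΔ : W.Δ ≠ 0)
    (Q : ((W.map (Int.castRingHom ℚ))⁄(AlgebraicClosure ℚ)).Point)
    (hQfix : ∀ σ : AlgebraicClosure ℚ ≃ₐ[ℚ] AlgebraicClosure ℚ, σ • Q = Q)
    (hQord : addOrderOf Q = p)
    (h2Δ : (2 : ℤ) ∣ W.Δ) (h2c₄ : ¬ (2 : ℤ) ∣ W.c₄)
    (h2 : ∀ A : ValuationSubring (AlgebraicClosure ℚ), A.LiesOverPrime 2 → ¬ W.InZeroComponentAt A Q)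
    (h3Δ : (3 : ℤ) ∣ W.Δ) (h3c₄ : ¬ (3 : ℤ) ∣ W.c₄)
    (h3 : ∀ A : ValuationSubring (AlgebraicClosure ℚ), A.LiesOverPrime 3 → ¬ W.InZeroComponentAt A Q)
    {ℓ : ℕ} (hℓ : ℓ.Prime) (hℓp : ℓ ≠ p) (hℓΔ : (ℓ : ℤ) ∣ W.Δ) (hℓc₄ : ¬ (ℓ : ℤ) ∣ W.c₄)
    (A : ValuationSubring (AlgebraicClosure ℚ)) (hA : A.LiesOverPrime ℓ) :
    ¬ W.InZeroComponentAt A Q :=
  S15.result hp hp' W hΔ Q hQfix hQord h2Δ h2c₄ h2 h3Δ h3c₄ h3 hℓ hℓp hℓΔ hℓc₄ A hA

/-- Unfolding of `InZeroComponentAt`: a point `P` over `ℚ̄` is in the zero component at the place `A` (a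
valuation ring of `ℚ̄`) if it is `0`, or if its `x`-coordinate is not integral (it reduces to `0`), or if
both coordinates are integral and their residues form a nonsingular point of the reduced equation. -/
theorem inZeroComponentAt_iff (W : WeierstrassCurve ℤ) (A : ValuationSubring (AlgebraicClosure ℚ))
    (P : ((W.map (Int.castRingHom ℚ))⁄(AlgebraicClosure ℚ)).Point) :
    W.InZeroComponentAt A P ↔ P = 0 ∨ ∃ (x y : AlgebraicClosure ℚ)
      (h : ((W.map (Int.castRingHom ℚ))⁄(AlgebraicClosure ℚ)).toAffine.Nonsingular x y),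
      P = .some x y h ∧ (x ∉ A ∨ ∃ (hx : x ∈ A) (hy : y ∈ A),
        (W.map (Int.castRingHom (IsLocalRing.ResidueField A))).toAffine.Nonsingular
          (IsLocalRing.residue A ⟨x, hx⟩) (IsLocalRing.residue A ⟨y, hy⟩)) :=
  Iff.rfl

/-- Unfolding of `LiesOverPrime`: a valuation ring `A` of `ℚ̄` lies over `q` if `q` is a non-unit of `A`.
(`ℚ̄` itself is excluded automatically.)  The inertia group `A.inertiaSubgroupIn ℚ` is the subgroup of the
decomposition group acting trivially on the residue field. -/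
theorem liesOverPrime_iff (A : ValuationSubring (AlgebraicClosure ℚ)) (q : ℕ) :
    A.LiesOverPrime q ↔ (q : AlgebraicClosure ℚ) ∈ A.nonunits :=
  Iff.rfl

/-- **S09 from S10, S11, S12, S13** (pure logic; `p ≥ 5` prime is `5`, `7`, `11`, `13` or `≥ 17`).  File
`H3Wiring`. -/
theorem s09_of
    (S10 : ∀ (P : FreyPackage) (_ : P.p = 5 ∨ P.p = 7 ∨ P.p = 13),
      ¬ HasGaloisStableCofixedLine (K := AlgebraicClosure ℚ) ℚ P.freyCurve P.p)
    (S11 : ∀ (P : FreyPackage) (_ : P.p = 11),
      ¬ HasGaloisStableCofixedLine (K := AlgebraicClosure ℚ) ℚ P.freyCurve P.p)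
    (S12 : ∀ (P : FreyPackage) (_ : 17 ≤ P.p),
      ¬ HasGaloisStableCofixedLine (K := AlgebraicClosure ℚ) ℚ P.freyCurve P.p)
    (S13 : ∀ (P : FreyPackage)
      (_ : ¬ GaloisRepIsIrreducible (K := AlgebraicClosure ℚ) ℚ P.freyCurve P.p),
      HasGaloisStableCofixedLine (K := AlgebraicClosure ℚ) ℚ P.freyCurve P.p)
    (P : FreyPackage) : GaloisRepIsIrreducible (K := AlgebraicClosure ℚ) ℚ P.freyCurve P.p :=
  H3Wiring.S09_of S10 S11 S12 S13 P

/-! ## Section 2.  The pieces of S15 ⇒ S12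

`H12.Xc A B` is the curve `y² = x (x - A) (x + B)` over `ℚ`, and `H12.Mc A B` its minimal model
`y² + xy = x³ + (B-1-A)/4 x² - AB/16 x` over `ℤ`, for integers with `H12.Good A B`: `A ≡ -1 mod 4`,
`32 ∣ B`, coprime, `A, B, A + B ≠ 0`.  A line `N ⊂ E[p]` is represented by the finite set of its points. -/

/-- Unfolding of `H12.Cof`: `N` is a Galois stable subgroup of order `p` of `E(ℚ̄)[p]`, and `T ∉ N` is a
`p`-torsion point which is rational modulo `N`. -/
theorem cof_iff (p : ℕ) (E : WeierstrassCurve ℚ) (N : Finset (E⁄(AlgebraicClosure ℚ)).Point)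
    (T : (E⁄(AlgebraicClosure ℚ)).Point) :
    H12.Cof p E N T ↔ (0 ∈ N ∧ (∀ a ∈ N, ∀ b ∈ N, a + b ∈ N) ∧ (∀ a ∈ N, -a ∈ N) ∧ N.card = p ∧
      (∀ a ∈ N, p • a = 0) ∧
      (∀ (σ : AlgebraicClosure ℚ ≃ₐ[ℚ] AlgebraicClosure ℚ), ∀ a ∈ N, σ • a ∈ N)) ∧
      p • T = 0 ∧ T ∉ N ∧ ∀ σ : AlgebraicClosure ℚ ≃ₐ[ℚ] AlgebraicClosure ℚ, σ • T - T ∈ N :=
  ⟨fun h => ⟨⟨h.1, h.2, h.3, h.4, h.5, h.6⟩, h.7, h.8, h.9⟩,
    fun h => ⟨h.1.1, h.1.2.1, h.1.2.2.1, h.1.2.2.2.1, h.1.2.2.2.2.1, h.1.2.2.2.2.2, h.2.1, h.2.2.1, h.2.2.2⟩⟩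

/-- A cofixed line gives such a pair `(N, T)` (the `p`-torsion has rank two over `ℤ/p`, so a proper nonzero
submodule has `p` elements; any `T` outside will do).  File `H12Cof`. -/
theorem exists_cof {p : ℕ} (hp : p.Prime) (E : WeierstrassCurve ℚ) (hΔ : E.Δ ≠ 0)
    (h : HasGaloisStableCofixedLine (K := AlgebraicClosure ℚ) ℚ E p) :
    ∃ (N : Finset (E⁄(AlgebraicClosure ℚ)).Point) (T : (E⁄(AlgebraicClosure ℚ)).Point),
      H12.Cof p E N T :=
  H12.exists_cof hp E hΔ h

/-- **The quotient by `N`** (Vélu).  For `W : y² = (x - e) (x - f) (x - g)` and a finite subgroup `N` of odd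
order (all this is `H12.Setup W e f g N`), put `H_e = ∏_{ν ∈ N, ν ≠ 0} (x(ν) - e)`.  The quotient is
`Y² = X (X - E_f) (X - E_g)` with `E_f = (f - e)^#N H_g²`, `E_g = (g - e)^#N H_f²`; the theorem is the
relation `E_g - E_f = (g - f)^#N H_e²` between the root differences, valid as soon as there is a point `Q`
with `2Q ∉ N`.  File `H12Velu`. -/
theorem quotient_relation {K : Type*} [Field K] [DecidableEq K] {W : Affine K} {e f g : K}
    {N : Finset W.Point} (h : H12.Setup W e f g N) {Q : W.Point} (hQ : Q + Q ∉ N) :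
    (g - f) ^ N.card * (∏ ν ∈ N.erase 0, (H72.xN ν - e)) ^ 2 =
      (g - e) ^ N.card * (∏ ν ∈ N.erase 0, (H72.xN ν - f)) ^ 2 -
        (f - e) ^ N.card * (∏ ν ∈ N.erase 0, (H72.xN ν - g)) ^ 2 :=
  h.EE_rel hQ

/-- The point `φ(P) = (H_f H_g ∏_{ν ∈ N} (x(P+ν) - e), H_e H_f H_g ∏_{ν ∈ N} y(P+ν))` of the quotient curve
is a nonsingular point of `Y² = X (X - E_f) (X - E_g)`, for every `P ∉ N` (`H72.xN`, `H12.yN` are the
coordinates of a point).  File `H12Velu`. -/
theorem quotient_point {K : Type*} [Field K] [DecidableEq K] {W : Affine K} {e f g : K}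
    {N : Finset W.Point} (h : H12.Setup W e f g N) (h2 : (2 : K) ≠ 0) {Q : W.Point} (hQ : Q + Q ∉ N)
    (P : W.Point) (hP : P ∉ N) :
    ∃ ns, h.phi h2 hQ P hP = Point.some (W' := h.W')
      ((∏ ν ∈ N.erase 0, (H72.xN ν - f)) * (∏ ν ∈ N.erase 0, (H72.xN ν - g)) *
        ∏ ν ∈ N, (H72.xN (P + ν) - e))
      ((∏ ν ∈ N.erase 0, (H72.xN ν - e)) * (∏ ν ∈ N.erase 0, (H72.xN ν - f)) *
        (∏ ν ∈ N.erase 0, (H72.xN ν - g)) * ∏ ν ∈ N, H12.yN (P + ν)) ns :=
  ⟨_, rfl⟩

/-- If `p • a ∈ N` but `n • a ∉ N` for `1 ≤ n < p`, then `φ(a)` has order `p` on the quotient curve.  With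
`a = T` this is the rational point of order `p` to which S15 is applied.  File `H12Velu`. -/
theorem order_quotient_point {K : Type*} [Field K] [DecidableEq K] {W : Affine K} {e f g : K}
    {N : Finset W.Point} (h : H12.Setup W e f g N) (h2 : (2 : K) ≠ 0) {Q : W.Point} (hQ : Q + Q ∉ N)
    {p : ℕ} (hp : 5 ≤ p) (hpp : p.Prime) {a : W.Point} (ha : ∀ n, 1 ≤ n → n < p → n • a ∉ N)
    (hpa : p • a ∈ N) (ha1 : a ∉ N) : addOrderOf (h.phi h2 hQ a ha1) = p :=
  h.addOrderOf_phi h2 hQ hp hpp ha hpa ha1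

/-- **The line is in the zero component at `2`**: for `B = b^p` all nonzero points of `N` have
`|x| = |4|` at every place above `2`.  A subgroup of prime order lies in the zero component or meets it only
in `0`; in the second case the rational number `∏ x(ν)` would have a `2`-adic valuation which is
incompatible modulo `p` with `B = b^p`.  File `H12Two` (the general analysis at a node: `H12Node`). -/
theorem val_x_two {A B b : ℤ} {p : ℕ} (hp : p.Prime) (hp5 : 5 ≤ p) (hG : H12.Good A B)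
    {N : Finset ((H12.Xc A B)⁄(AlgebraicClosure ℚ)).Point}
    {T : ((H12.Xc A B)⁄(AlgebraicClosure ℚ)).Point} (hN : H12.Cof p (H12.Xc A B) N T) (hb : B = b ^ p)
    {V : ValuationSubring (AlgebraicClosure ℚ)} (hV : V.LiesOverPrime 2) :
    ∀ a ∈ N, a ≠ 0 → V.valuation (H72.xN a) = V.valuation (4 : AlgebraicClosure ℚ) :=
  H12.val_x_two hp hp5 hG hN hb hV

/-- **Normalisation of the quotient.**  From `A^p h₃² + B^p h₂² = (A + B)^p h₁²` with rational `hᵢ` and the
two-adic sizes of `h₂, h₃`, there are coprime integers `A₁, B₁` of the same type and a rational `u` with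
`A^p h₃² = u² A₁`, `B^p h₂² = u² B₁`: so the quotient curve is `y² = x (x - A₁) (x + B₁)` up to scaling,
and semistable.  File `H12Norm`. -/
theorem exists_norm {A B b : ℤ} {p : ℕ} (hp : p.Prime) (hp5 : 5 ≤ p) (hG : H12.Good A B)
    (hb : B = b ^ p) (hb2 : (2 : ℤ) ∣ b) {h₁ h₂ h₃ : ℚ} (hh1 : h₁ ≠ 0) (hh2 : h₂ ≠ 0) (hh3 : h₃ ≠ 0)
    (hrel : (A : ℚ) ^ p * h₃ ^ 2 + (B : ℚ) ^ p * h₂ ^ 2 = ((A : ℚ) + B) ^ p * h₁ ^ 2)
    {V : ValuationSubring (AlgebraicClosure ℚ)} (hV : V.LiesOverPrime 2)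
    (hv2 : V.valuation (algebraMap ℚ (AlgebraicClosure ℚ) h₂) = 1)
    (hv3 : V.valuation (algebraMap ℚ (AlgebraicClosure ℚ) h₃) =
      V.valuation (4 : AlgebraicClosure ℚ) ^ (p - 1)) :
    ∃ (A₁ B₁ : ℤ) (u : ℚ), u ≠ 0 ∧ H12.Good A₁ B₁ ∧ (A : ℚ) ^ p * h₃ ^ 2 = u ^ 2 * A₁ ∧
      (B : ℚ) ^ p * h₂ ^ 2 = u ^ 2 * B₁ :=
  H12.exists_norm hp hp5 hG hb hb2 hh1 hh2 hh3 hrel hV hv2 hv3

/-- **Counting.**  A rational point `Q` of prime order `p > q² + 1` does not reduce modulo a place above `q`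
to a nonsingular point of the reduced equation (a Weierstrass equation over `𝔽_q` has at most `q² + 1`
points, and prime-to-`q` torsion injects).  For `q = 2, 3` and `p ≥ 17` this gives: bad reduction at `3`, and
`Q` is not in the zero component at `2` and `3`.  File `H12Zero`. -/
theorem not_reduces {V : ValuationSubring (AlgebraicClosure ℚ)} {q p : ℕ} (hp : p.Prime) (hq : q.Prime)
    (hpq : q ^ 2 + 1 < p) (hV : V.LiesOverPrime q) {W : WeierstrassCurve ℤ}
    {Q : ((W.map (Int.castRingHom ℚ))⁄(AlgebraicClosure ℚ)).Point}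
    (hfix : ∀ σ : AlgebraicClosure ℚ ≃ₐ[ℚ] AlgebraicClosure ℚ, σ • Q = Q) (hord : addOrderOf Q = p)
    (P' : (W.map (Int.castRingHom (IsLocalRing.ResidueField V))).toAffine.Point)
    (hred : H59.Reduces V (IsLocalRing.residue V) Q P') : False :=
  H12.not_reduces hp hq hpq hV hfix hord P' hred

/-- **The end of S12.**  By S15 the rational point of the quotient is not in the zero component at any odd
`ℓ ≠ p`; hence `N` lies in the zero component at every prime (at `p` by the action of inertia), and the three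
rational numbers `H_0`, `4^(p-1) H_A`, `H_{-B}` are equal up to sign.  The relation of the root differences
becomes `16^(p-1) A^p + B^p = 16^(p-1) (A + B)^p`, which is impossible: `(A + B)^p - A^p` is `B` times an odd
number, so `B^(p-1) = 16^(p-1) · odd`, while `32 ∣ B`.  File `H12Final`. -/
theorem final_parity {A B : ℤ} {p : ℕ} (hp : p.Prime) (hp2 : p ≠ 2) (hG : H12.Good A B)
    (h : 16 ^ (p - 1) * A ^ p + B ^ p = 16 ^ (p - 1) * (A + B) ^ p) : False :=
  H12.final_parity hp hp2 hG h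

/-! ## Section 3.  S12 -/

/-- **S15 ⇒ S12.**  Suppose that for every prime `p ∉ {2, 3, 5, 7, 13}`, every Weierstrass curve `W` over
`ℤ` and every rational point `Q` of order `p` the conclusion of S15 holds.  Then for `p ≥ 17` the Frey curve
has no cofixed line.  File `H12Final`; steps in `GuideMazurSteps`, sections 1 to 3. -/
theorem s12_of_s15
    (h15 : ∀ {p : ℕ} (_ : p.Prime) (_ : p ∉ ({2, 3, 5, 7, 13} : Finset ℕ))
      (W : WeierstrassCurve ℤ) (_ : W.Δ ≠ 0)
      (Q : ((W.map (Int.castRingHom ℚ))⁄(AlgebraicClosure ℚ)).Point)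
      (_ : ∀ σ : AlgebraicClosure ℚ ≃ₐ[ℚ] AlgebraicClosure ℚ, σ • Q = Q)
      (_ : addOrderOf Q = p)
      (_ : (2 : ℤ) ∣ W.Δ) (_ : ¬ (2 : ℤ) ∣ W.c₄)
      (_ : ∀ A : ValuationSubring (AlgebraicClosure ℚ), A.LiesOverPrime 2 → ¬ W.InZeroComponentAt A Q)
      (_ : (3 : ℤ) ∣ W.Δ) (_ : ¬ (3 : ℤ) ∣ W.c₄)
      (_ : ∀ A : ValuationSubring (AlgebraicClosure ℚ), A.LiesOverPrime 3 → ¬ W.InZeroComponentAt A Q)
      {ℓ : ℕ} (_ : ℓ.Prime) (_ : ℓ ≠ p) (_ : (ℓ : ℤ) ∣ W.Δ) (_ : ¬ (ℓ : ℤ) ∣ W.c₄)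
      (A : ValuationSubring (AlgebraicClosure ℚ)) (_ : A.LiesOverPrime ℓ),
      ¬ W.InZeroComponentAt A Q)
    (P : FreyPackage) (hp : 17 ≤ P.p) :
    ¬ HasGaloisStableCofixedLine (K := AlgebraicClosure ℚ) ℚ P.freyCurve P.p :=
  H12.S12_of_S15 h15 P hp

/-! ## Section 4.  The cusps of `X₀(N)` and the cuspidal class

`modularFunctionFieldBar N` is the field of modular functions of level `N` over `ℚ̄`, as a subfield of the
Laurent series `ℚ̄((q))`: it is generated over `ℚ̄` by the series `j(q^d)`, `d ∣ N`.  A `Place` of a function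
field is a discrete valuation ring of the field containing the constants, `v.ord f` the order of `f` at `v`;
`JZero N` is the group of divisor classes of degree zero (`Pic⁰`).  The Galois group of `ℚ` acts through the
coefficients of the Laurent series (`arithmeticGalois`).

The polynomial ring `HeckeAlg = ℤ[X_ℓ]` acts on `JZero N`, the variable `heckeGen ℓ` as the Hecke
correspondence `T_ℓ`; this is the module structure `heckeModuleBar N` of the Prelude, which is not a global
instance and is made a local instance here, as well as the theorem that it commutes with the Galois group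
(see `GuideMazurJacobian`). -/

attribute [local instance] heckeModuleBar H67.smulCommClass_heckeAlg

/-- Unfolding of `H15.IsCuspInf` and `H15.IsCuspZero`: at the cusp `∞` the functions `j(q)` and `j(q^N)`
(`H15.jB N`, `H15.jNB N`) have poles of orders `1` and `N`, at the cusp `0` of orders `N` and `1`. -/
theorem isCusp_iff (N : ℕ) [NeZero N] (v : Place Qb (modularFunctionFieldBar N)) :
    (H15.IsCuspInf N v ↔ v.ord (H15.jB N) = -1 ∧ v.ord (H15.jNB N) = -(N : ℤ)) ∧
      (H15.IsCuspZero N v ↔ v.ord (H15.jB N) = -(N : ℤ) ∧ v.ord (H15.jNB N) = -1) :=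
  ⟨Iff.rfl, Iff.rfl⟩

/-- Unfolding of `H15.IsDiffClass`: `z` is the class of the divisor `(x) - (y)`, which has degree zero. -/
theorem isDiffClass_iff (N : ℕ) [NeZero N] (x y : Place Qb (modularFunctionFieldBar N)) (z : JZero N) :
    H15.IsDiffClass N x y z ↔
      ∃ h : (Finsupp.single x 1 - Finsupp.single y 1 : Divisor Qb (modularFunctionFieldBar N)) ∈
        Divisor.degZero, z = Pic0.mk ⟨_, h⟩ :=
  Iff.rfl

/-- **The cusps** for `N` prime: there are exactly two places where `j` has a pole; they are the cusps `∞`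
and `0` and both are rational.  Files `H9Spec`, `H9JZero`. -/
theorem two_cusps (N : ℕ) [NeZero N] [Fact N.Prime] :
    ∃ i z : Place Qb (modularFunctionFieldBar N), H15.IsCuspInf N i ∧ H15.IsCuspZero N z ∧ i ≠ z ∧
      (∀ v, v.ord (H15.jB N) < 0 → v = i ∨ v = z) ∧
      ∀ σ : GQ, arithmeticGalois (modularFunctionFieldFull N) σ • i = i ∧
        arithmeticGalois (modularFunctionFieldFull N) σ • z = z := by
  obtain ⟨i, z, S⟩ := H9.exists_cuspSpecBar N
  exact ⟨i, z, S.isCuspInf, S.isCuspZero, S.ne, fun v h => S.cusp v _ (H9.coe_jB N) h, S.smul_cusp⟩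

/-- `(θ j)⁶ = j⁴ (j - 1728)³ Δ` with `θ = q d/dq`, over every commutative ring.  Together with the same
identity for `j(q^p)` it shows that `Δ(q^p)/Δ(q)` is `(θ j(q^p) / θ j(q))⁶` times a rational function of
`j(q)` and `j(q^p)`, hence a function on `X₀(p)`, in every characteristic `≠ p`.  File `H9Theta`. -/
theorem theta_j_pow_six {R : Type*} [CommRing R] :
    H61.theta (jqModC R) ^ 6 = jqModC R ^ 4 * (jqModC R - 1728) ^ 3 * H28.deltaL R :=
  H9.theta_jqModC_pow_six

/-- **The modular unit**: the divisor of `Δ(q^p)/Δ(q)` on `X₀(p)` is `(p - 1) ((∞) - (0))`, over every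
algebraically closed field of characteristic `≠ p`.  File `H9Cuspidal`. -/
theorem div_modular_unit (K : Type*) [Field K] [IsAlgClosed K] (p : ℕ) [Fact p.Prime] (hp0 : (p : K) ≠ 0)
    (v : Place K (modularFunctionFieldFullC K p)) :
    v.ord (H9.ratio K p hp0) = (-((p : ℤ) - 1) •
      (Finsupp.single (H9.zeroPl K p hp0) 1 - Finsupp.single (H9.infPl K p) 1 : Divisor K _)) v :=
  H9.ord_ratio K p hp0 v

/-- **Roots of the modular unit.**  If a modular function `h` of level `p` with rational coefficients has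
`h^k = Δ(q^p)/Δ(q)`, then `k ∣ 24`.  (`h` and `1/h` have coefficients in every localisation of `ℤ` at a
prime, so the `q`-coefficient `n` of `θh/h` is an integer, and `k n = 24`.)  File `H9Order`. -/
theorem root_modular_unit {p : ℕ} [Fact p.Prime] {k : ℕ} (hk : 0 < k) {h : LaurentSeries ℚ}
    (hh : h ∈ modularFunctionFieldFull p) (hpow : h ^ k = H9.deltaRatio ℚ p) : k ∣ 24 :=
  H9.dvd_of_pow_eq_rat hk hh hpow

/-- **The cuspidal class** `c = [(0) - (∞)]`, `N` prime: it is killed by `N - 1` (`div_modular_unit`); if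
`m c = 0` then `N - 1 ∣ 24 m` (`root_modular_unit`); it is rational; `T_q c = (1 + q) c` for `q ≠ N`, and
`U_N c = c`.  File `H9Core`. -/
theorem cuspidal_class (N : ℕ) [NeZero N] (hN : N.Prime) :
    ∃ x₀ x₁ : Place Qb (modularFunctionFieldBar N), H15.IsCuspZero N x₀ ∧ H15.IsCuspInf N x₁ ∧
    ∀ c : JZero N, H15.IsDiffClass N x₀ x₁ c →
      (N - 1) • c = 0 ∧ (∀ m : ℕ, m • c = 0 → N - 1 ∣ 24 * m) ∧ (∀ σ : GQ, σ • c = c) ∧
      (∀ q : Nat.Primes, (q : ℕ) ≠ N → heckeGen q • c = (1 + (q : ℕ)) • c) ∧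
      (∀ q : Nat.Primes, (q : ℕ) = N → heckeGen q • c = c) :=
  H9.cusp_class N hN

/-- **The prime `r`.**  For `N ∉ {2, 3, 5, 7, 13}` there is a prime `r ≠ N` dividing the order of the
cuspidal class `c` (the numerator of `(N - 1)/12` is not `1`; `r = 2` is possible).  The descent is made
with the `r`-primary torsion.  File `H9Core` (`cusp2`). -/
theorem cuspidal_prime (N : ℕ) [NeZero N] (hN : N.Prime) (hN' : N ∉ ({2, 3, 5, 7, 13} : Finset ℕ)) :
    ∃ (r : ℕ) (x₀ x₁ : Place Qb (modularFunctionFieldBar N)) (c : JZero N),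
      r.Prime ∧ r ≠ N ∧ H15.IsCuspZero N x₀ ∧ H15.IsCuspInf N x₁ ∧ H15.IsDiffClass N x₀ x₁ c ∧
      (N - 1) • c = 0 ∧ (∀ m : ℕ, m • c = 0 → r ∣ m) ∧ (∀ σ : GQ, σ • c = c) ∧
      (∀ q : Nat.Primes, (q : ℕ) ≠ N → heckeGen q • c = (1 + (q : ℕ)) • c) :=
  H9.cusp2 N hN hN'

/-! ## Section 5.  From an elliptic curve with a point of order `N` to a place of `X₀(N)` -/

/-- **The quotient of discriminants at a node, I.**  `H05.veluQ W C = ∏_{R ∈ C, R ≠ 0} ψ₂(R)⁴ / Δ^(#C - 1)`,
`ψ₂ = 2y + a₁x + a₃`; this is `Δ(E)/Δ(E/C)`.  If `Q` has odd prime order `p` and is not in the zero component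
at a place `A` above a prime `ℓ` of multiplicative reduction, then `Δ(E)/Δ(E/⟨Q⟩)` is a nonzero non-unit at
`A`.  (`H05.WQ W` is `W` over `ℚ̄`.)  File `H05_VeluInt` (component map of the node: `H05_CompHom`). -/
theorem velu_node {W : WeierstrassCurve ℤ} {A : ValuationSubring (AlgebraicClosure ℚ)} {ℓ p : ℕ}
    (hℓ : ℓ.Prime) (hA : A.LiesOverPrime ℓ) (hΔ : W.Δ ≠ 0) (hℓΔ : (ℓ : ℤ) ∣ W.Δ) (hℓc : ¬ (ℓ : ℤ) ∣ W.c₄)
    {Q : ((W.map (Int.castRingHom ℚ))⁄(AlgebraicClosure ℚ)).Point} (hp : p.Prime) (hp2 : p ≠ 2)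
    (hQ : addOrderOf Q = p) (hz : ¬ W.InZeroComponentAt A Q) :
    H05.veluQ (H05.WQ W) (AddSubgroup.zmultiples Q) ≠ 0 ∧
      H05.veluQ (H05.WQ W) (AddSubgroup.zmultiples Q) ∈ A.nonunits :=
  H05.veluQ_node_int hℓ hA hΔ hℓΔ hℓc hp hp2 hQ hz

/-- **The quotient of discriminants at a node, II.**  If `Q` is in the zero component and `ℓ ≠ p`, the
inverse `Δ(E/⟨Q⟩)/Δ(E)` is a non-unit at `A`.  File `H05_VeluInt`. -/
theorem velu_zero {W : WeierstrassCurve ℤ} {A : ValuationSubring (AlgebraicClosure ℚ)} {ℓ p : ℕ}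
    (hℓ : ℓ.Prime) (hA : A.LiesOverPrime ℓ) (hΔ : W.Δ ≠ 0) (hℓΔ : (ℓ : ℤ) ∣ W.Δ) (hℓc : ¬ (ℓ : ℤ) ∣ W.c₄)
    {Q : ((W.map (Int.castRingHom ℚ))⁄(AlgebraicClosure ℚ)).Point} (hp : p.Prime) (hp2 : p ≠ 2)
    (hQ : addOrderOf Q = p) (hpℓ : ℓ ≠ p) (hz : W.InZeroComponentAt A Q) :
    H05.veluQ (H05.WQ W) (AddSubgroup.zmultiples Q) ≠ 0 ∧
      (H05.veluQ (H05.WQ W) (AddSubgroup.zmultiples Q))⁻¹ ∈ A.nonunits :=
  H05.veluQ_zero_int hℓ hA hΔ hℓΔ hℓc hp hp2 hQ hpℓ hz

/-- **The place attached to `(W, Q)`.**  Let `c₄ c₆ ≠ 0` (otherwise there is no prime of multiplicative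
reduction) and `Q` rational of odd prime order `p`.  There is a Galois invariant place `x` of the function
field of `X₀(p)` at which the modular unit `u = Δ(q)/Δ(q^p)` takes the value `a = p¹² Δ(E)/Δ(E/⟨Q⟩) ≠ 0`; by
`velu_node`, `velu_zero` the size of `a` at `A` decides whether `Q` is in the zero component.  The moduli
interpretation is used only in this form: the `q`-expansions are evaluated at a transcendental point of the
upper half plane and specialised; see `GuideModuliPoint`.  File `H05_PlaceB`. -/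
theorem exists_place {p : ℕ} [NeZero p] (hp : p.Prime) (hp2 : p ≠ 2)
    (W : WeierstrassCurve ℤ) (hΔ : W.Δ ≠ 0) (hc4 : W.c₄ ≠ 0) (hc6 : W.c₆ ≠ 0)
    (Q : ((W.map (Int.castRingHom ℚ))⁄(AlgebraicClosure ℚ)).Point)
    (hQfix : ∀ σ : AlgebraicClosure ℚ ≃ₐ[ℚ] AlgebraicClosure ℚ, σ • Q = Q) (hQord : addOrderOf Q = p) :
    ∃ (x : Place Qb (modularFunctionFieldBar p)) (a : Qb),
      (∀ σ : GQ, arithmeticGalois (modularFunctionFieldFull p) σ • x = x) ∧
      (∀ u : modularFunctionFieldBar p, (u : LaurentSeries Qb) = coeffEmb Qb (modularUnitSeries p) →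
        u - algebraMap Qb (modularFunctionFieldBar p) a ∈ x.toValuationSubring.nonunits) ∧
      a ≠ 0 ∧
      ∀ (ℓ : ℕ) (A : ValuationSubring Qb), ℓ.Prime → ℓ ≠ p → A.LiesOverPrime ℓ →
        (ℓ : ℤ) ∣ W.Δ → ¬ (ℓ : ℤ) ∣ W.c₄ →
          (¬ W.InZeroComponentAt A Q → a ∈ A.nonunits) ∧ (W.InZeroComponentAt A Q → a⁻¹ ∈ A.nonunits) :=
  H05.exists_place_int' hp hp2 (H05.b1Inputs hp hp2) W hΔ hc4 hc6 Q hQfix hQord

/-- **The moduli point** (the input of S15).  Let `N ∉ {2, 3, 5, 7, 13}` be prime and `Q` a rational point of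
order `N` of `W`.  There is a Galois invariant place `x` of the function field of `X₀(N)` such that for every
prime `ℓ ≠ N` of multiplicative reduction and every place `A` above `ℓ`: if `Q` is not in the zero component
at `A`, the class of `(x) - (0)` is in the kernel `KJ N A` of the reduction of `J₀(N)` at `A`; if `Q` is in
the zero component, the class of `(x) - (∞)` is in this kernel.  File `H05_ModPlace`. -/
theorem moduli_point (N : ℕ) [NeZero N] (hN : N.Prime) (hN' : N ∉ ({2, 3, 5, 7, 13} : Finset ℕ))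
    (W : WeierstrassCurve ℤ) (hΔ : W.Δ ≠ 0)
    (Q : ((W.map (Int.castRingHom ℚ))⁄(AlgebraicClosure ℚ)).Point)
    (hQfix : ∀ σ : AlgebraicClosure ℚ ≃ₐ[ℚ] AlgebraicClosure ℚ, σ • Q = Q) (hQord : addOrderOf Q = N) :
    ∃ x : Place Qb (modularFunctionFieldBar N),
      (∀ σ : GQ, arithmeticGalois (modularFunctionFieldFull N) σ • x = x) ∧
      ∀ x₀ x₁ : Place Qb (modularFunctionFieldBar N), H15.IsCuspZero N x₀ → H15.IsCuspInf N x₁ →
      ∀ ℓ : ℕ, ℓ.Prime → ℓ ≠ N → (ℓ : ℤ) ∣ W.Δ → ¬ (ℓ : ℤ) ∣ W.c₄ →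
      ∀ A : ValuationSubring Qb, A.LiesOverPrime ℓ →
        (¬ W.InZeroComponentAt A Q → ∀ z : JZero N, H15.IsDiffClass N x x₀ z → z ∈ H15.KJ N A) ∧
        (W.InZeroComponentAt A Q → ∀ z : JZero N, H15.IsDiffClass N x x₁ z → z ∈ H15.KJ N A) :=
  H05.modPlace N hN hN' W hΔ Q hQfix hQord

/-! ## Section 6.  S15 -/

/-- **The abstract core, in the form used for S15** (`GuideMazurDescent.abstract_core` has the general
statement; the list `H15.CoreInputs` of the facts used is explained there and proved for `J₀(N)` in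
`GuideMazurJacobian` and `GuideEisenstein`).  Let `c` be a rational torsion class with `T_q c = (1 + q) c`
for `q ≠ N` (for instance the cuspidal class or its negative) and `r ≠ N` a prime dividing its order.  There
is no rational class `z` in `J₀(N)` which reduces to `0` at `2` and `3` and to the class `c` at a place above
a prime `ℓ ∉ {2, 3, N}`.  Files `H15Abs`, `H15Main1`, `H15Main`. -/
theorem no_such_class (N r : ℕ) [NeZero N] (hN : N.Prime) (hN5 : 5 ≤ N) (hr : r.Prime) (hrN : r ≠ N)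
    (c z : JZero N) (n : ℕ) (hn : n ≠ 0) (hnc : n • c = 0) (hrc : ∀ m : ℕ, m • c = 0 → r ∣ m)
    (hTc : ∀ q : Nat.Primes, (q : ℕ) ≠ N → heckeGen q • c = (1 + (q : ℕ)) • c)
    (hc : ∀ σ : GQ, σ • c = c) (hz : ∀ σ : GQ, σ • z = z)
    (A₂ A₃ A : ValuationSubring Qb) (h2 : A₂.LiesOverPrime 2) (h3 : A₃.LiesOverPrime 3)
    (ℓ : ℕ) (hℓ : ℓ.Prime) (hℓN : ℓ ≠ N) (hℓ2 : ℓ ≠ 2) (hℓ3 : ℓ ≠ 3) (hA : A.LiesOverPrime ℓ)
    (hz2 : z ∈ H15.KJ N A₂) (hz3 : z ∈ H15.KJ N A₃) (hzc : z - c ∈ H15.KJ N A) : False :=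
  H15.abstractCore_uncond N r hN hN5 hr hrN (JZero N) (H15.KJ N) (H15.core_uncond N hN hN5 r hr hrN)
    c z n hn hnc hrc hTc hc hz A₂ A₃ A h2 h3 ℓ hℓ hℓN hℓ2 hℓ3 hA hz2 hz3 hzc

/-- **S15 from its three inputs**: the abstract core, the facts on `J₀(N)`, the moduli point; they are the
definitions `H15.AbstractCore`, `H15.T_core` (written out in `GuideMazurDescent`) and `H15.T_modPlace`
(= `moduli_point` above); `H12.S15Statement` is the statement of S15.  With `x` the place of `(W, Q)`, the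
class `z = [(x) - (0)]` is rational, in the kernel of reduction at `2` and `3`; if `Q` were in the zero
component at `A`, then `[(x) - (∞)] = z + c = z - (-c)` would be in the kernel at `A`: this contradicts
`no_such_class`, which is used with `-c` in place of `c` (its hypotheses do not depend on the sign).  File
`H15Glue`. -/
theorem s15_of (hA : H15.AbstractCore) (hJ : H15.T_core) (hP : H15.T_modPlace) : H12.S15Statement :=
  H15.s15_of hA hJ hP

end Fermat.Agent.Guide.Mazur
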