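import Fermat.Agent.S15

/-!
# Reader's guide: the Eisenstein descent (the abstract core of S15)

Every theorem of this file is a citation of a theorem of the library with its statement written out.

**What the block does.**  S15 (see `GuideMazur`) is reduced to a statement on `J = J₀(N)(ℚ̄)`, `N` prime:
if `c` is the cuspidal class and `r` a prime dividing its order, there is no rational class `z` of `J` which
reduces to `0` at `2` and `3` and to `c` at a place above a prime `≠ 2, 3, N`.  This file contains the proof,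
from a list of properties of `J` (the structure `H15.CoreInputs`), for an *abstract* abelian group `J` with
* an action of the Galois group `GQ` of `ℚ` and of the Hecke algebra `HeckeAlg = ℤ[X_ℓ]`, commuting;
* a family of subgroups `K A`, `A` a place of `ℚ̄` above a prime `≠ N` (the kernels of reduction).
`GuideMazurJacobian` and `GuideEisenstein` state the properties for `J₀(N)`.

**The idea.**  Let `W_k` be the points of `J[r^k]` killed by a power of the Eisenstein ideal
`(r, T_q - 1 - q)`.  The Galois cocycles `G → W_k` with natural local conditions are counted: at most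
`|W_k^{I_N}| · |W_k ∩ K A|` (`A` above `r`).  Both factors are at most a constant times `r^{tk}`, while the
coboundaries number about `|W_k| = r^{2tk}`: so the classes of such cocycles are killed by a fixed power of
`r`.  Apply this to the cocycles `σ ↦ ε (σR - R)`, `r^k R = z`, `ε` the projector of `J[r^k]` onto `W_k`: it
follows that `ε z` is divisible by `r^{k-B}` in the group of rational points, up to an element killed by
`r^B`; the latter is zero as `z` reduces to zero at `2` or `3`.  On the other hand the `r`-part of the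
reduction of a rational point is bounded.  So the Eisenstein part of `z` reduces to zero at every place, but
that of `c` does not.  There are no cohomology groups, no flat cohomology, no Néron models, no class field
theory: only sets of cocycles, Minkowski's theorem and unique factorisation in `ℤ`.

**Reading order.**  Section 1: definitions, `core_inputs_iff`.  Section 2: the three arithmetic inputs and
the count.  Section 3: the bounds.  Section 4: the descent and the end.  Files `H15Defs`, `H15Core`,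
`H15Fit`, `H15Bound`, `H15Final`, `H75Cnt`; steps of sections 1 and 2: `GuideMazurSteps`; NOTES [129],
[187], [301].  Everything is in the closure of S15, S12, S09, S03, S01.
-/

set_option autoImplicit false

namespace Fermat.Agent.Guide.MazurDescent

open ModularCurve
open Fermat.Agent.H15 (Qb GQ)

/-! ## Section 1.  The Eisenstein part of the torsion and the list of inputs

`Qb = ℚ̄`, `GQ` its automorphism group.  A place of `ℚ̄` is a valuation ring `A : ValuationSubring Qb`;
`A.LiesOverPrime q` says that `q` is a non-unit of `A`. -/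

/-- The Eisenstein ideal of the Hecke algebra above `r`: generated by `r` and the `T_q - (1 + q)`, `q ≠ N`
(`U_N` is not used).  Definition of `H15.eisP`. -/
theorem eisP_eq (N r : ℕ) : H15.eisP N r = Ideal.span ({(r : HeckeAlg)} ∪
    {t | ∃ q : Nat.Primes, (q : ℕ) ≠ N ∧ t = heckeGen q - MvPolynomial.C (1 + (q : ℤ))}) :=
  rfl

/-- The group `W_k = H15.WSub N r J k`: the points killed by `r^k` and by a power of the Eisenstein ideal. -/
theorem mem_W_iff (N r : ℕ) (J : Type) [AddCommGroup J] [Module HeckeAlg J] [DistribMulAction GQ J]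
    (k : ℕ) (x : J) : x ∈ H15.WSub N r J k ↔
      (r ^ k : ℕ) • x = 0 ∧ ∃ n : ℕ, ∀ t ∈ (H15.eisP N r) ^ n, t • x = 0 :=
  Iff.rfl

/-- **The projector.**  If all torsion subgroups `J[m]` are finite, there is for every `k` an element `ε` of
the Hecke algebra which maps `J[r^k]` to `W_k` and acts on `W_k` as the identity (Fitting's lemma).
File `H15Fit`. -/
theorem exists_projector (N r : ℕ) (J : Type) [AddCommGroup J] [Module HeckeAlg J]
    [DistribMulAction GQ J] (hr : r ≠ 0) (hfin : ∀ m : ℕ, m ≠ 0 → {x : J | m • x = 0}.Finite) (k : ℕ) :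
    ∃ ε : HeckeAlg, (∀ x : J, (r ^ k : ℕ) • x = 0 → ε • x ∈ H15.WSub N r J k) ∧
      ∀ x ∈ H15.WSub N r J k, ε • x = x :=
  H15.exists_eps hr hfin k

/-- **The list of inputs** `H15.CoreInputs N r J K`.  General properties (`BasicInputs`: smoothness, finite
torsion, divisibility, inertia, Eichler-Shimura, stability under decomposition groups, injectivity on
prime-to-`ℓ` torsion); `K A` is Hecke stable (`HeckeRed`) and divisible (`DivRed`), and `J/K A` is torsion
(`TorsRed`); `1 + q - T_q` is almost invertible (`NoEis`); inertia at `N` (`SSN`); the sizes of `W_k`, of its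
part in `K A` (`A` above `r`) and of its invariants under inertia at `N`; inertia at `r` acts on `W_k ∩ K A`
through the cyclotomic character (`MultChar`) and the Kummer classes at `r` are units (`UnitR`).  Each of them
is written out, for `J = J₀(N)`, in `GuideMazurJacobian` or in `GuideEisenstein`. -/
theorem core_inputs_iff (N r : ℕ) (J : Type) [AddCommGroup J] [Module HeckeAlg J]
    [DistribMulAction GQ J] (K : ValuationSubring Qb → AddSubgroup J) :
    H15.CoreInputs N r J K ↔ H15.BasicInputs N J K ∧ H15.HeckeRed N J K ∧ H15.TorsRed N J K ∧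
      H15.DivRed N J K ∧ H15.NoEis N J ∧ H15.SSN N J ∧
      (∃ t : ℕ, H15.CardW N r J t ∧ H15.CardMult N r J K t ∧ H15.CardN N r J t) ∧
      H15.MultChar N r J K ∧ H15.UnitR N r J K :=
  ⟨fun h => ⟨h.1, h.2, h.3, h.4, h.5, h.6, h.7, h.8, h.9⟩,
    fun h => ⟨h.1, h.2.1, h.2.2.1, h.2.2.2.1, h.2.2.2.2.1, h.2.2.2.2.2.1, h.2.2.2.2.2.2.1,
      h.2.2.2.2.2.2.2.1, h.2.2.2.2.2.2.2.2⟩⟩

/-- **The three sizes** (with one number `t`): `|W_k| = r^{2tk}` for all `k`; `|W_k ∩ K A| ≤ C r^{tk}` for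
the places `A` above `r`; `|W_k^{I}| ≤ C r^{tk}` for the inertia groups `I` at the places above `N`. -/
theorem sizes_iff (N r : ℕ) (J : Type) [AddCommGroup J] [Module HeckeAlg J] [DistribMulAction GQ J]
    (K : ValuationSubring Qb → AddSubgroup J) (t : ℕ) :
    (H15.CardW N r J t ↔ ∀ k : ℕ, Nat.card (H15.WSub N r J k) = r ^ (2 * t * k)) ∧
    (H15.CardMult N r J K t ↔ ∃ C : ℕ, ∀ A : ValuationSubring Qb, A.LiesOverPrime r → ∀ k : ℕ,
      Nat.card (H15.WSub N r J k ⊓ K A : AddSubgroup J) ≤ C * r ^ (t * k)) ∧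
    (H15.CardN N r J t ↔ ∃ C : ℕ, ∀ A : ValuationSubring Qb, A.LiesOverPrime N → ∀ k : ℕ,
      Nat.card {x : H15.WSub N r J k // ∀ σ ∈ A.inertiaSubgroupIn ℚ, σ • (x : J) = x} ≤
        C * r ^ (t * k)) :=
  ⟨Iff.rfl, Iff.rfl, Iff.rfl⟩

/-! ## Section 2.  Constituents, characters, Kummer classes, and the count of cocycles -/

/-- **(A1) Constituents.**  Let `G'' < G' ≤ W_k` be Galois stable with no stable subgroup strictly in between.
Then `G'/G''` has order `r`, and Galois acts trivially on it or through the cyclotomic character (`σ x ≡ n x`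
if `σ ζ = ζ^n` on `μ_r`).  From the Eichler-Shimura relation `(σ - 1)(σ - χ(σ)) = 0` on the constituent,
first for Frobenius elements, then for all `σ` by density.  Files `H85JH`,
`H85JH2` (density: `H86DensityFinal`). -/
theorem constituents (N r : ℕ) (hN : N.Prime) (hN5 : 5 ≤ N) (hr : r.Prime) (hrN : r ≠ N)
    (J : Type) [AddCommGroup J] [Module HeckeAlg J] [DistribMulAction GQ J] [SMulCommClass GQ HeckeAlg J]
    (K : ValuationSubring Qb → AddSubgroup J) (h : H15.BasicInputs N J K) (k : ℕ)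
    (G' G'' : AddSubgroup J) (hW : G' ≤ H15.WSub N r J k) (hlt : G'' < G')
    (h' : ∀ σ : GQ, ∀ x ∈ G', σ • x ∈ G') (h'' : ∀ σ : GQ, ∀ x ∈ G'', σ • x ∈ G'')
    (hsimple : ∀ H : AddSubgroup J, G'' ≤ H → H ≤ G' → (∀ σ : GQ, ∀ x ∈ H, σ • x ∈ H) →
      H = G'' ∨ H = G') :
    Nat.card G' = r * Nat.card G'' ∧
    ((∀ σ : GQ, ∀ x ∈ G', σ • x - x ∈ G'') ∨
      (∀ σ : GQ, ∀ n : ℕ, (∀ ζ : Qb, ζ ^ r = 1 → σ ζ = ζ ^ n) → ∀ x ∈ G', σ • x - n • x ∈ G'')) :=
  H85.constituents_prop N r hN hN5 hr hrN J K h k G' G'' hW hlt h' h'' hsimple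

/-- **(A2) Characters.**  The continuous characters `c : G → ℤ/r` unramified outside `N` are at most `r`; such
a character which is also unramified at one place `A` above `N` is zero (Minkowski: `ℚ` has no unramified
extension; tame inertia at `N` is procyclic).  File `H8CharCount`. -/
theorem char_count (N r : ℕ) (hN : N.Prime) (hN5 : 5 ≤ N) (hr : r.Prime) (hrN : r ≠ N)
    (A : ValuationSubring Qb) (hA : A.LiesOverPrime N) :
    {c : GQ → ZMod r | (∀ σ τ, c (σ * τ) = c σ + c τ) ∧ IsLocallyConstant c ∧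
      ∀ q : ℕ, q.Prime → q ≠ N → ∀ B : ValuationSubring Qb, B.LiesOverPrime q →
        ∀ σ ∈ B.inertiaSubgroupIn ℚ, c σ = 0}.Finite ∧
    {c : GQ → ZMod r | (∀ σ τ, c (σ * τ) = c σ + c τ) ∧ IsLocallyConstant c ∧
      ∀ q : ℕ, q.Prime → q ≠ N → ∀ B : ValuationSubring Qb, B.LiesOverPrime q →
        ∀ σ ∈ B.inertiaSubgroupIn ℚ, c σ = 0}.ncard ≤ r ∧
    ∀ c : GQ → ZMod r, (∀ σ τ, c (σ * τ) = c σ + c τ) → IsLocallyConstant c →
      (∀ q : ℕ, q.Prime → q ≠ N → ∀ B : ValuationSubring Qb, B.LiesOverPrime q →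
        ∀ σ ∈ B.inertiaSubgroupIn ℚ, c σ = 0) →
      (∀ σ ∈ A.inertiaSubgroupIn ℚ, c σ = 0) → c = 0 :=
  H8.charCount N r hN hN5 hr hrN A hA

/-- **(A3) Kummer classes, counting.**  The cocycles `σ ↦ σβ/β` with `β^r = b` rational and all valuations of
`b` at primes `≠ N` divisible by `r` are at most `r²`; those with all valuations of `b` divisible by `r` are
at most `r` (`b = ± N^i d^r`, resp. `b = ± d^r`).  File `H47KummerCount`. -/
theorem kummer_count (N r : ℕ) (hN : N.Prime) (hN5 : 5 ≤ N) (hr : r.Prime) (hrN : r ≠ N) :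
    ({ξ : GQ → Qb | ∃ (β : Qbˣ) (b : ℚ), (b : Qb) = (β : Qb) ^ r ∧
        (∀ q : ℕ, q.Prime → q ≠ N → (r : ℤ) ∣ padicValRat q b) ∧
        ξ = fun σ => σ (β : Qb) / (β : Qb)}.Finite ∧
      {ξ : GQ → Qb | ∃ (β : Qbˣ) (b : ℚ), (b : Qb) = (β : Qb) ^ r ∧
        (∀ q : ℕ, q.Prime → q ≠ N → (r : ℤ) ∣ padicValRat q b) ∧
        ξ = fun σ => σ (β : Qb) / (β : Qb)}.ncard ≤ r ^ 2) ∧
    {ξ : GQ → Qb | ∃ (β : Qbˣ) (b : ℚ), (b : Qb) = (β : Qb) ^ r ∧
        (∀ q : ℕ, q.Prime → (r : ℤ) ∣ padicValRat q b) ∧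
        ξ = fun σ => σ (β : Qb) / (β : Qb)}.ncard ≤ r :=
  ⟨(H47.kummerCount N r hN hN5 hr hrN).1, (H47.kummerCount N r hN hN5 hr hrN).2.1⟩

/-- **(A3) Kummer classes, existence and ramification.**  Every locally constant cocycle with values in `μ_r`
is `σ ↦ σβ/β` with `β^r` rational (Hilbert 90).  If it is trivial on the inertia group at a place above
`q ≠ r`, or if `β` has at a place above `q` the valuation of a power of `q`, then `r ∣ v_q(b)`.  File
`H47KummerCount`. -/
theorem kummer_exists (N r : ℕ) (hN : N.Prime) (hN5 : 5 ≤ N) (hr : r.Prime) (hrN : r ≠ N) :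
    (∀ ξ : GQ → Qb, (∀ σ, ξ σ ^ r = 1) → (∀ σ τ : GQ, ξ (σ * τ) = ξ σ * σ (ξ τ)) →
      IsLocallyConstant ξ →
      ∃ (β : Qbˣ) (b : ℚ), (b : Qb) = (β : Qb) ^ r ∧ ξ = fun σ => σ (β : Qb) / (β : Qb)) ∧
    (∀ (β : Qbˣ) (b : ℚ), (b : Qb) = (β : Qb) ^ r → ∀ q : ℕ, q.Prime →
      ∀ A : ValuationSubring Qb, A.LiesOverPrime q →
      (q ≠ r → (∀ σ ∈ A.inertiaSubgroupIn ℚ, σ (β : Qb) / (β : Qb) = 1) → (r : ℤ) ∣ padicValRat q b) ∧
      ((∃ m : ℤ, A.valuation (β : Qb) = A.valuation (q : Qb) ^ m) → (r : ℤ) ∣ padicValRat q b)) :=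
  ⟨(H47.kummerCount N r hN hN5 hr hrN).2.2.1, (H47.kummerCount N r hN hN5 hr hrN).2.2.2⟩

/-- **The cocycles which are counted**: `H15.ZStar N r J k G` is the set of locally constant cocycles with
values in `G`, trivial on inertia at the primes `≠ r, N`, with values on inertia at `N` fixed by inertia
at `N`, and at the places above `r` of the form `σ ↦ σR - R` on inertia, where `r^k R` is fixed by inertia. -/
theorem mem_cocycles_iff (N r : ℕ) (J : Type) [AddCommGroup J] [Module HeckeAlg J]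
    [DistribMulAction GQ J] (k : ℕ) (G : AddSubgroup J) (ξ : GQ → J) :
    ξ ∈ H15.ZStar N r J k G ↔
    (∀ σ, ξ σ ∈ G) ∧ (∀ σ τ : GQ, ξ (σ * τ) = ξ σ + σ • ξ τ) ∧ IsLocallyConstant ξ ∧
    (∀ q : ℕ, q.Prime → q ≠ r → q ≠ N → ∀ A : ValuationSubring Qb, A.LiesOverPrime q →
      ∀ σ ∈ A.inertiaSubgroupIn ℚ, ξ σ = 0) ∧
    (∀ A : ValuationSubring Qb, A.LiesOverPrime N → ∀ σ ∈ A.inertiaSubgroupIn ℚ,
      ∀ τ ∈ A.inertiaSubgroupIn ℚ, τ • ξ σ = ξ σ) ∧
    (∀ A : ValuationSubring Qb, A.LiesOverPrime r → ∃ R : J,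
      (∀ σ ∈ A.inertiaSubgroupIn ℚ, σ • ((r ^ k : ℕ) • R) = (r ^ k : ℕ) • R) ∧
      ∀ σ ∈ A.inertiaSubgroupIn ℚ, ξ σ = σ • R - R) :=
  Iff.rfl

/-- **The count theorem.**  The cocycles with values in `W_k` number at most
`|W_k^{I_N}| · |W_k ∩ K A|`, `A` above `r`.  Proof by induction on `|G|` for the Galois stable `G ≤ W_k`: take
`G'' < G` stable and maximal (of index `r` by A1) and an additive `Φ : G → ℤ/r` with kernel `G''`; from `G''`
to `G` the number of cocycles grows at most by the number of the functions `Φ ∘ ξ`.  If `G ∩ K A ≤ G''`, the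
action on `G/G''` is trivial and the `Φ ∘ ξ` are characters unramified outside `N` (A2): at most `r`, and only
`0` if no element of `G` outside `G''` is fixed by inertia at `N`.  Otherwise the action is cyclotomic and the
`Φ ∘ ξ` are Kummer cocycles (A3, with `UnitR`): at most `r²`, and at most `r` if no element outside `G''` is
fixed by inertia at `N`.  The bound `|G^{I_N}| · |G ∩ K A|` grows at least by the same factor.  File
`H75Cnt`. -/
theorem count_theorem (N r : ℕ) (hN : N.Prime) (hN5 : 5 ≤ N) (hr : r.Prime) (hrN : r ≠ N)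
    (J : Type) [AddCommGroup J] [Module HeckeAlg J] [DistribMulAction GQ J] [SMulCommClass GQ HeckeAlg J]
    (K : ValuationSubring Qb → AddSubgroup J) (h : H15.CoreInputs N r J K) (k : ℕ)
    (AN Ar : ValuationSubring Qb) (hAN : AN.LiesOverPrime N) (hAr : Ar.LiesOverPrime r) :
    (H15.ZStar N r J k (H15.WSub N r J k)).Finite ∧
    (H15.ZStar N r J k (H15.WSub N r J k)).ncard ≤
      Nat.card {x : H15.WSub N r J k // ∀ σ ∈ AN.inertiaSubgroupIn ℚ, σ • (x : J) = x} *
        Nat.card (H15.WSub N r J k ⊓ K Ar : AddSubgroup J) :=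
  H15.countThm_uncond N r hN hN5 hr hrN J K h k AN Ar hAN hAr

/-! ## Section 3.  The bounds -/

/-- The cocycles used: if `r^k R` is rational and `ε (σR - R) ∈ W_k` for all `σ`, then `σ ↦ ε (σR - R)` is one
of the cocycles counted (`H15.kc ε R`).  The condition at `N` is the property `SSN`.  File `H15Bound`. -/
theorem kummer_cocycle_mem {N r : ℕ} {J : Type} [AddCommGroup J] [Module HeckeAlg J]
    [DistribMulAction GQ J] [SMulCommClass GQ HeckeAlg J] {K : ValuationSubring Qb → AddSubgroup J}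
    (h : H15.CoreInputs N r J K) (hr : r.Prime) (hN : N.Prime) (hrN : r ≠ N) (k : ℕ) (ε : HeckeAlg) (R : J)
    (hR : ∀ σ : GQ, σ • ((r ^ k : ℕ) • R) = (r ^ k : ℕ) • R)
    (hW : ∀ σ : GQ, ε • (σ • R - R) ∈ H15.WSub N r J k) :
    (fun σ : GQ => ε • (σ • R - R)) ∈ H15.ZStar N r J k (H15.WSub N r J k) :=
  H15.kc_mem h hr hN hrN k ε R hR hW

/-- **Rational points of `W_k`** are killed by an integer `m ≠ 0` independent of `k` (Eichler-Shimura at one
prime `q`: `1 + q - T_q` kills them, and divides an integer by `NoEis`).  File `H15Bound`. -/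
theorem bound_rational {N r : ℕ} {J : Type} [AddCommGroup J] [Module HeckeAlg J] [DistribMulAction GQ J]
    [SMulCommClass GQ HeckeAlg J] {K : ValuationSubring Qb → AddSubgroup J}
    (h : H15.CoreInputs N r J K) (hr : r.Prime) (hN : N.Prime) :
    ∃ m : ℕ, m ≠ 0 ∧ ∀ k : ℕ, ∀ x ∈ H15.WSub N r J k, (∀ σ : GQ, σ • x = x) → m • x = 0 :=
  H15.exists_bound_fixed h hr hN

/-- **Cocycles are almost coboundaries**: there is `B`, independent of `k`, such that for every `ξ` in
`ZStar N r J k W_k` the cocycle `r^B ξ` is the coboundary of an element of `W_k` (the number of cocycles is at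
most `C r^{2tk}` and the number of coboundaries is at least `r^{2tk}/C'`).  File `H15Bound`. -/
theorem exists_kill {N r : ℕ} {J : Type} [AddCommGroup J] [Module HeckeAlg J] [DistribMulAction GQ J]
    [SMulCommClass GQ HeckeAlg J] {K : ValuationSubring Qb → AddSubgroup J}
    (h : H15.CoreInputs N r J K) (hr : r.Prime) (hN : N.Prime) (hN5 : 5 ≤ N) (hrN : r ≠ N) :
    ∃ B : ℕ, ∀ k : ℕ, ∀ ξ ∈ H15.ZStar N r J k (H15.WSub N r J k), ∃ g ∈ H15.WSub N r J k,
      ∀ σ : GQ, (r ^ B : ℕ) • ξ σ = σ • g - g :=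
  H15.exists_kill H15.countThm_uncond h hr hN hN5 hrN

/-- **Bounded reduction**: for a place `A` above a prime `ℓ ∤ N` there is `c` such that for every rational `R`
some `m' r^c R`, `r ∤ m'`, is in `K A`: Frobenius fixes `R`, so `1 + ℓ - T_ℓ` kills its reduction.  File
`H15Final`. -/
theorem bounded_reduction {N r : ℕ} {J : Type} [AddCommGroup J] [Module HeckeAlg J]
    [DistribMulAction GQ J] [SMulCommClass GQ HeckeAlg J] {K : ValuationSubring Qb → AddSubgroup J}
    (h : H15.CoreInputs N r J K) (hr : r.Prime) {ℓ : ℕ} (hℓ : ℓ.Prime) (hℓN : ¬ ℓ ∣ N)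
    {A : ValuationSubring Qb} (hA : A.LiesOverPrime ℓ) :
    ∃ c : ℕ, ∀ R : J, (∀ σ : GQ, σ • R = R) → ∃ m' : ℕ, ¬ r ∣ m' ∧ (m' * r ^ c) • R ∈ K A :=
  H15.exists_frob_bound h hr hℓ hℓN hA

/-! ## Section 4.  The descent and the end -/

/-- **The descent.**  Let `z` be rational and in `K A₀` for a place `A₀` above a prime `q ∤ N`, `q ≠ r`.  Then
there is `B` such that for all `k ≥ B` and every `ε` mapping `J[r^k]` to `W_k`, the class `ε z` is
`r^{k-B}` times a rational class.  (Used with `q = 2`, or `q = 3` if `r = 2`.)  File `H15Final`. -/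
theorem eisenstein_part_divisible {N r : ℕ} {J : Type} [AddCommGroup J] [Module HeckeAlg J]
    [DistribMulAction GQ J] [SMulCommClass GQ HeckeAlg J] {K : ValuationSubring Qb → AddSubgroup J}
    (h : H15.CoreInputs N r J K) (hr : r.Prime) (hN : N.Prime) (hN5 : 5 ≤ N) (hrN : r ≠ N)
    (z : J) (hz : ∀ σ : GQ, σ • z = z) {q : ℕ} (hq : q.Prime) (hqN : ¬ q ∣ N) (hqr : q ≠ r)
    {A₀ : ValuationSubring Qb} (hA₀ : A₀.LiesOverPrime q) (hz₀ : z ∈ K A₀) :
    ∃ B : ℕ, ∀ k : ℕ, B ≤ k → ∀ ε : HeckeAlg,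
      (∀ x : J, (r ^ k : ℕ) • x = 0 → ε • x ∈ H15.WSub N r J k) →
      ∃ R : J, (∀ σ : GQ, σ • R = R) ∧ ε • z = (r ^ (k - B) : ℕ) • R :=
  H15.core_aux H15.countThm_uncond h hr hN hN5 hrN z hz hq hqN hqr hA₀ hz₀

/-- For the case `ℓ = r` of the end: at a place above `r ≥ 3` some element of inertia acts on `μ_{r^k}` as
`ζ ↦ ζ^n` with `n - 1` prime to `r` (the cyclotomic character is totally ramified).  File `H15Final`. -/
theorem inertia_exponent {r : ℕ} (hr : r.Prime) (hr3 : 3 ≤ r) {A : ValuationSubring Qb}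
    (hA : A.LiesOverPrime r) {k : ℕ} (hk : k ≠ 0) :
    ∃ σ ∈ A.inertiaSubgroupIn ℚ, ∃ n : ℕ, (∀ ζ : Qb, ζ ^ (r ^ k) = 1 → σ ζ = ζ ^ n) ∧
      ∃ b : ℕ, (n - 1 : ℤ) = b ∧ b.Coprime r :=
  H15.exists_inertia_exponent hr hr3 hA hk

/-- **The abstract core** (`H15.AbstractCore`).  Let `N ≥ 5` and `r ≠ N` be primes and let `(J, K)` have the
properties `CoreInputs`.  Let `c` be a rational torsion class with `T_q c = (1 + q) c` (`q ≠ N`) whose order
is divisible by `r`, and `z` a rational class with `z ∈ K A₂`, `z ∈ K A₃` for places above `2` and `3`.  Then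
`z - c ∉ K A` for every place `A` above a prime `ℓ ∉ {2, 3, N}`.  (Otherwise, by the descent and bounded
reduction, a nonzero multiple of `c` of `r`-power order lies in `K A`: impossible for `ℓ ≠ r` by injectivity
on torsion, for `ℓ = r` because inertia acts on `W_k ∩ K A` through the cyclotomic character.)  Files
`H15Final`, `H15Abs`. -/
theorem abstract_core (N r : ℕ) (hN : N.Prime) (hN5 : 5 ≤ N) (hr : r.Prime) (hrN : r ≠ N)
    (J : Type) [AddCommGroup J] [Module HeckeAlg J] [DistribMulAction GQ J] [SMulCommClass GQ HeckeAlg J]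
    (K : ValuationSubring Qb → AddSubgroup J) (h : H15.CoreInputs N r J K)
    (c z : J) (n : ℕ) (hn : n ≠ 0) (hnc : n • c = 0) (hrc : ∀ m : ℕ, m • c = 0 → r ∣ m)
    (hTc : ∀ q : Nat.Primes, (q : ℕ) ≠ N → heckeGen q • c = (1 + (q : ℕ)) • c)
    (hc : ∀ σ : GQ, σ • c = c) (hz : ∀ σ : GQ, σ • z = z)
    (A₂ A₃ A : ValuationSubring Qb) (h2 : A₂.LiesOverPrime 2) (h3 : A₃.LiesOverPrime 3)
    (ℓ : ℕ) (hℓ : ℓ.Prime) (hℓN : ℓ ≠ N) (hℓ2 : ℓ ≠ 2) (hℓ3 : ℓ ≠ 3) (hA : A.LiesOverPrime ℓ)
    (hz2 : z ∈ K A₂) (hz3 : z ∈ K A₃) (hzc : z - c ∈ K A) : False :=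
  H15.abstractCore_uncond N r hN hN5 hr hrN J K h c z n hn hnc hrc hTc hc hz A₂ A₃ A h2 h3 ℓ hℓ hℓN hℓ2
    hℓ3 hA hz2 hz3 hzc

end Fermat.Agent.Guide.MazurDescent
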