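import Fermat.Agent.S12

/-!
# Reader's guide: details for `GuideMazur`, `GuideMazurDescent` and `GuideEisenstein`

Every theorem of this file is a citation of a theorem of the library with its statement written out.
It contains the steps inside proofs which are only summarised in `GuideMazur` (section 2),
`GuideMazurDescent` (sections 1 and 2) and `GuideEisenstein` (sections 2 and 3); it is not needed for the main
line.

* Section 1: **the group of a curve near a node**, by two identities between `x`-coordinates only (used for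
  `GuideMazur.val_x_two` and at every odd prime of multiplicative reduction).
* Section 2: **the quotient curve** `E/N` (the proofs of `GuideMazur.quotient_relation` and
  `GuideMazur.order_quotient_point`).
* Section 3: **the arithmetic of S15 ⇒ S12**: the minimal model, rationality, the action of inertia at `p`,
  the normalisation, the zero component, rational numbers which are units at all places.
* Section 4: **dévissage**: simple constituents, the constant and the multiplicative step of the count.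
* Section 5: **characters and Kummer theory over `ℚ`**.
* Section 6: **periods of prime level** (for `GuideEisenstein.multiplicity_le_two`).
* Section 7: **the Tate module of the Eisenstein part** (for `GuideEisenstein.tate_module`).
* Section 8: **the Hecke correspondences commute** (for `GuideMazurJacobian.heckeGen_smul`).

Files `H12*`, `H15Fit`, `H85JH`, `H75Cnt`, `H8CharCount`, `H47KummerCount`, `H6MzThree`, `H54MzA`, `H92MzE`,
`H67Square`, `H67Comm`; NOTES [81], [129], [187], [301].  Everything cited is in the closure of S12, S09, S03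
and S01 (sections 4 to 8 also of S15).
-/

set_option autoImplicit false

namespace Fermat.Agent.Guide.MazurSteps

open WeierstrassCurve WeierstrassCurve.Affine WeierstrassCurve.Affine.Point
open ModularCurve Polynomial
open Fermat.Agent.H15 (Qb GQ)
open Fermat.Agent.H72 (xN)

/-! ## Section 1.  Points near a node

Let `y² = (x - e) (x - f) (x - g)` with `|f - e| < 1 = |g - e|` for a valuation `v`: the reduced curve has a
node at `x = e`.  Put the node at `x = 0`; then with `m = (f - e) (g - e)`, `b = -4 ((f - e) + (g - e))` the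
`x`-coordinates satisfy the relations of `nod_relations`.  The structure `H12.Nod G K b m` is an abelian group
`G` with functions `N, D : G → K` (numerator and denominator of `x`; `x = N/D` is `κ.x`, `D P = 0` only for
`P = 0`) and these relations in homogeneous form.  No reduction map, component group or Tate curve is used.

At a place above `2` the coordinate `(x - e)/4` is used instead: then `b` is a unit again, and `|m| < 1` by
`32 ∣ B`.

`P` is in `E₀` (its reduction is not the node) if `|D P| ≤ |N P|`, that is `1 ≤ |x(P)|` or `P = 0`. -/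

/-- The relations: `x(P+Q) x(P-Q) (x(P) - x(Q))² = (x(P) x(Q) - m)²` and
`(x(P+Q) + x(P-Q)) (x(P) - x(Q))² = 2 (x(P) + x(Q)) (x(P) x(Q) + m) + b x(P) x(Q)`.  File `H12Node`. -/
theorem nod_relations {G K : Type*} [AddCommGroup G] [Field K] {b m : K} (κ : H12.Nod G K b m) {P Q : G}
    (hP : P ≠ 0) (hQ : Q ≠ 0) (hS : P + Q ≠ 0) (hD : P - Q ≠ 0) :
    κ.x P ≠ κ.x Q ∧
    κ.x (P + Q) * κ.x (P - Q) * (κ.x P - κ.x Q) ^ 2 = (κ.x P * κ.x Q - m) ^ 2 ∧
    (κ.x (P + Q) + κ.x (P - Q)) * (κ.x P - κ.x Q) ^ 2 =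
      2 * (κ.x P + κ.x Q) * (κ.x P * κ.x Q + m) + b * (κ.x P * κ.x Q) :=
  κ.x_rel hP hQ hS hD

/-- **`E₀` is a subgroup** (all residue characteristics).  File `H12Node`. -/
theorem e0_add_sub {G K : Type*} [AddCommGroup G] [Field K] {b m : K} (κ : H12.Nod G K b m)
    {Γ₀ : Type*} [LinearOrderedCommGroupWithZero Γ₀] {v : Valuation K Γ₀} (hm : v m < 1) (hb : v b ≤ 1)
    {P Q : G} (hP : v (κ.D P) ≤ v (κ.N P)) (hQ : v (κ.D Q) ≤ v (κ.N Q)) :
    v (κ.D (P + Q)) ≤ v (κ.N (P + Q)) ∧ v (κ.D (P - Q)) ≤ v (κ.N (P - Q)) :=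
  κ.e0_add_sub hm hb hP hQ

/-- The duplication formula `x(2P) x(P) (4 x(P)² + b x(P) + 4m) = (x(P)² - m)²`; the factor of `x(2P)` is not
zero if `2P ≠ 0`.  File `H12Node`. -/
theorem duplication {G K : Type*} [AddCommGroup G] [Field K] {b m : K} (κ : H12.Nod G K b m) {P : G}
    (hP : P ≠ 0) (h2 : P + P ≠ 0) :
    κ.x (P + P) * (κ.x P * (4 * κ.x P ^ 2 + b * κ.x P + 4 * m)) = (κ.x P ^ 2 - m) ^ 2 ∧
      κ.x P * (4 * κ.x P ^ 2 + b * κ.x P + 4 * m) ≠ 0 :=
  κ.x_dup hP h2

/-- **Multiples of a torsion point outside `E₀`**: if `p P = 0` and `n` is prime to `p`, then `n P` is not in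
`E₀` either (`P` is a multiple of `n P`); and if `P` and `2P` are not in `E₀`, then `|m| < |x(P)| < 1` (by
`duplication`).  File `H12Node`. -/
theorem multiples_outside_e0 {G K : Type*} [AddCommGroup G] [Field K] {b m : K} (κ : H12.Nod G K b m)
    {Γ₀ : Type*} [LinearOrderedCommGroupWithZero Γ₀] {v : Valuation K Γ₀} (hm0 : m ≠ 0) (hm : v m < 1)
    (hb : v b ≤ 1) {P : G} (hP : v (κ.N P) < v (κ.D P)) :
    (∀ p : ℕ, 1 < p → p • P = 0 → ∀ n : ℕ, n.Coprime p → v (κ.N (n • P)) < v (κ.D (n • P))) ∧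
      (v (κ.N (P + P)) < v (κ.D (P + P)) → v m < v (κ.x P) ∧ v (κ.x P) < 1) :=
  ⟨fun _ hp hpP _ hn => κ.not_e0_nsmul hm hb hp hpP hP hn,
    fun h2 => ⟨κ.lt_x_of_not_e0 hm0 hm hb hP h2, κ.x_lt_one_of_not_e0 hP⟩⟩

/-- **The size of `x` at a torsion point outside `E₀`**: `|m| < |x(P)| < 1` and `|x(P)|^p = |m|^(2k)` for
an integer `k` (the component of `P`).  Only the relations at the multiples of `P` are used: the additive
sizes of the `x(n P)` (`H72Ord`) satisfy the hypotheses of `GuideFrey.ordered_group_lemma`.  File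
`H12Node`. -/
theorem val_x_of_torsion {G K : Type*} [AddCommGroup G] [Field K] {b m : K} (κ : H12.Nod G K b m)
    {Γ₀ : Type*} [LinearOrderedCommGroupWithZero Γ₀] {v : Valuation K Γ₀}
    (hm0 : m ≠ 0) (hm : v m < 1) (hb : v b = 1) {p : ℕ} (hp : p.Prime) (hp2 : p ≠ 2) {P : G}
    (hpP : p • P = 0) (hP : v (κ.N P) < v (κ.D P)) :
    κ.x P ≠ 0 ∧ v m < v (κ.x P) ∧ v (κ.x P) < 1 ∧ ∃ k : ℕ, v (κ.x P) ^ p = v m ^ (2 * k) :=
  κ.main hm0 hm hb hp hp2 hpP hP

/-- **Two points of the same size**: then `P + Q` or `P - Q` is in `E₀`.  File `H12Node`. -/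
theorem e0_of_same_size {G K : Type*} [AddCommGroup G] [Field K] {b m : K} (κ : H12.Nod G K b m)
    {Γ₀ : Type*} [LinearOrderedCommGroupWithZero Γ₀] {v : Valuation K Γ₀} (hb : v b = 1) {P Q : G}
    (hQ1 : v (κ.x P) < 1) (hmP : v m < v (κ.x P)) (hPQ : v (κ.x P) = v (κ.x Q)) (hP : P ≠ 0) (hQ : Q ≠ 0)
    (hS : P + Q ≠ 0) (hD : P - Q ≠ 0) :
    1 ≤ v (κ.x (P + Q)) ∨ 1 ≤ v (κ.x (P - Q)) :=
  κ.e0_of_eq hb hQ1 hmP hPQ hP hQ hS hD

/-- A subgroup `N` of prime order is contained in `E₀` or meets it only in `0`.  File `H12NodeFin`. -/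
theorem miss_or_in {G K : Type*} [AddCommGroup G] [Field K] {b m : K} (κ : H12.Nod G K b m)
    {Γ₀ : Type*} [LinearOrderedCommGroupWithZero Γ₀] {v : Valuation K Γ₀} [DecidableEq G] {N : Finset G}
    {p : ℕ} (hm : v m < 1) (hb : v b ≤ 1) (hp : p.Prime)
    (zero_mem : (0 : G) ∈ N) (add_mem : ∀ a ∈ N, ∀ c ∈ N, a + c ∈ N)
    (card : N.card = p) (tors : ∀ a ∈ N, p • a = 0) :
    (∀ a ∈ N, a ≠ 0 → v (κ.N a) < v (κ.D a)) ∨ (∀ a ∈ N, v (κ.D a) ≤ v (κ.N a)) :=
  κ.miss_or_in hm hb hp zero_mem add_mem card tors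

/-- Unfolding of `Missing`: `N` is a subgroup of odd prime order `p` which meets `E₀` only in `0` (together
with the conditions `m ≠ 0`, `|m| < 1 = |b|`).  File `H12NodeFin`. -/
theorem missing_iff {G K : Type*} [AddCommGroup G] [Field K] {b m : K} (κ : H12.Nod G K b m)
    {Γ₀ : Type*} [LinearOrderedCommGroupWithZero Γ₀] (v : Valuation K Γ₀) (N : Finset G) (p : ℕ) :
    κ.Missing N p v ↔ (m ≠ 0 ∧ v m < 1 ∧ v b = 1 ∧ p.Prime ∧ p ≠ 2) ∧
      ((0 : G) ∈ N ∧ (∀ a ∈ N, ∀ c ∈ N, a + c ∈ N) ∧ (∀ a ∈ N, -a ∈ N) ∧ N.card = p ∧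
        ∀ a ∈ N, p • a = 0) ∧ ∀ a ∈ N, a ≠ 0 → v (κ.N a) < v (κ.D a) :=
  ⟨fun h => ⟨⟨h.hm0, h.hm, h.hb, h.hp, h.hp2⟩, ⟨h.zero_mem, h.add_mem, h.neg_mem, h.card, h.tors⟩, h.miss⟩,
    fun h => ⟨h.1.1, h.1.2.1, h.1.2.2.1, h.1.2.2.2.1, h.1.2.2.2.2, h.2.1.1, h.2.1.2.1, h.2.1.2.2.1,
      h.2.1.2.2.2.1, h.2.1.2.2.2.2, h.2.2⟩⟩

/-- **The product of the sizes on a subgroup `N` which misses `E₀`**: its `p`-th power is
`|m|^((p² - 1)/2)`.  Proof: `|x(a)|^p = |m|^(2 k(a))` by `val_x_of_torsion`, and each of the values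
`1, …, (p-1)/2` of `k` is taken by exactly two points `a, -a`, by `e0_of_same_size`.  In the application the
product is the size of a rational number; modulo `p` this gives a contradiction at `2`.  File `H12NodeFin`. -/
theorem sizes_of_missing {G K : Type*} [AddCommGroup G] [Field K] {b m : K} {κ : H12.Nod G K b m}
    {Γ₀ : Type*} [LinearOrderedCommGroupWithZero Γ₀] {v : Valuation K Γ₀} [DecidableEq G] {N : Finset G}
    {p : ℕ} (h : κ.Missing N p v) :
    (∏ a ∈ N.erase 0, v (κ.x a)) ^ p = v m ^ ((p ^ 2 - 1) / 2) :=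
  h.prod_val

/-- **Every coset of `N` in the `p`-torsion meets `E₀`** if `N` misses `E₀`: some point `a ∈ N` has the same
size as `P`, and `e0_of_same_size` applies to `P` and `a`.  File `H12NodeFin`. -/
theorem coset_meets_e0 {G K : Type*} [AddCommGroup G] [Field K] {b m : K} {κ : H12.Nod G K b m}
    {Γ₀ : Type*} [LinearOrderedCommGroupWithZero Γ₀] {v : Valuation K Γ₀} [DecidableEq G] {N : Finset G}
    {p : ℕ} (h : κ.Missing N p v) {P : G} (hP : p • P = 0) (hPN : P ∉ N) :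
    ∃ a ∈ N, v (κ.D (P + a)) ≤ v (κ.N (P + a)) :=
  h.exists_e0 hP hPN

/-! ## Section 2.  The quotient curve

`H12.Rts W e f g` says that `W` is `y² = (x - e) (x - f) (x - g)`; `H12.Setup W e f g N` adds `e, f, g`
distinct and `N` a finite subgroup of odd order without `2`-torsion.  Notation: `xN P` is the `x`-coordinate,
`h.T = (e, 0)`, `H12.Rp N e P = ∏_{ν ∈ N} (x(P+ν) - e)`, `H12.Hp N e = ∏_{ν ∈ N, ν ≠ 0} (x(ν) - e)`. -/

/-- The product formula for `x`-coordinates with respect to the root `e`.  File `H12Curve`. -/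
theorem product_formula {F : Type*} [Field F] [DecidableEq F] {W : Affine F} {e f g : F}
    (h : H12.Rts W e f g) {P Q : W.Point} (hP : P ≠ 0) (hQ : Q ≠ 0) (hS : P + Q ≠ 0) (hD : P - Q ≠ 0) :
    xN P ≠ xN Q ∧ (xN (P + Q) - e) * (xN (P - Q) - e) * (xN P - xN Q) ^ 2 =
      ((xN P - e) * (xN Q - e) - (e - f) * (e - g)) ^ 2 :=
  h.prod_formula hP hQ hS hD

/-- Translation by `T = (e, 0)`: `(x(P+T) - e) (x(P) - e) = (e - f) (e - g)`.  File `H12Curve`. -/
theorem translation_by_T {F : Type*} [Field F] [DecidableEq F] {W : Affine F} {e f g : F}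
    (h : H12.Rts W e f g) (hT : W.Nonsingular e 0) {P : W.Point} (hP : P ≠ 0)
    (hPT : P ≠ Point.some e 0 hT) :
    (xN (P + Point.some e 0 hT) - e) * (xN P - e) = (e - f) * (e - g) :=
  h.x_add_T hT hP hPT

/-- **`∏_ν (x(P+ν) - e)` as a rational function of `x(P)`**: it is
`H_e (x - e) ∏_{ν ≠ 0} (x - x(ν + T)) / ∏_{ν ≠ 0} (x - x(ν))`; the product formula, applied to the pairs
`ν, -ν`.  File `H12Velu`. -/
theorem rational_function {K : Type*} [Field K] [DecidableEq K] {W : Affine K} {e f g : K}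
    {N : Finset W.Point} (h : H12.Setup W e f g N) {P : W.Point} (hP : P ∉ N) :
    H12.Rp N e P * ∏ ν ∈ N.erase 0, (xN P - xN ν) =
      H12.Hp N e * ((xN P - e) * ∏ ν ∈ N.erase 0, (xN P - xN (ν + h.T))) :=
  h.formulaA hP

/-- Counting zeros: the values `x(Q+ν)`, `ν ∈ N`, are distinct if `2Q ∉ N`; so a polynomial of degree
`< #N` which vanishes there is zero.  This proves the identities between the functions above, without
differentials and without function fields.  File `H12Velu`. -/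
theorem polynomial_eq_zero {K : Type*} [Field K] [DecidableEq K] {W : Affine K} {e f g : K}
    {N : Finset W.Point} (h : H12.Setup W e f g N) {Q : W.Point} (hQ : Q + Q ∉ N) (p : K[X])
    (hdeg : p.degree < N.card) (hv : ∀ ν ∈ N, p.eval (xN (Q + ν)) = 0) : p = 0 :=
  h.count hQ p hdeg hv

/-- **The roots of the quotient**: the functions `H_f H_g ∏ (x(P+ν) - e)` and `H_e H_g ∏ (x(P+ν) - f)`
differ by the constant `E_f = (f - e)^#N H_g²`.  File `H12Velu`. -/
theorem difference_of_roots {K : Type*} [Field K] [DecidableEq K] {W : Affine K} {e f g : K}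
    {N : Finset W.Point} (h : H12.Setup W e f g N) {Q : W.Point} (hQ : Q + Q ∉ N) {P : W.Point}
    (hP : P ∉ N) :
    H12.Hp N f * H12.Hp N g * H12.Rp N e P - H12.Hp N e * H12.Hp N g * H12.Rp N f P =
      (f - e) ^ N.card * H12.Hp N g ^ 2 :=
  h.XX_sub hQ hP

/-- **The product formula on the quotient**: `X(P) = H_f H_g ∏ (x(P+ν) - e)` (which is `h.XX P`) satisfies
the product formula of the curve `Y² = X (X - E_f) (X - E_g)`; here `E_f = h.EE`, `E_g = h.swap'.EE`.  File
`H12Velu`. -/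
theorem quotient_product_formula {K : Type*} [Field K] [DecidableEq K] {W : Affine K} {e f g : K}
    {N : Finset W.Point} (h : H12.Setup W e f g N) {P Q : W.Point} (hP : P ∉ N) (hQ : Q + Q ∉ N)
    (hS : P + Q ∉ N) (hD : P - Q ∉ N) :
    h.XX (P + Q) * h.XX (P - Q) * (h.XX P - h.XX Q) ^ 2 =
      (h.XX P * h.XX Q - h.EE * h.swap'.EE) ^ 2 :=
  h.XX_prod hP hQ hS hD

/-- **The quotient map respects the addition**, in terms of `x`-coordinates: the points `φ(P) ± φ(Q)` have
the same `x`-coordinates as `φ(P + Q)`, `φ(P - Q)`, as an unordered pair.  By induction `φ(n T) = ± n φ(T)`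
for `1 ≤ n < p`, and `φ((p - 1) T) = -φ(T)`: so `(p - 1) φ(T) = ± φ(T)`, the plus sign is excluded by
`φ((p - 2) T) ≠ 0`, and `φ(T)` has order `p` (`GuideMazur.order_quotient_point`).  That `φ` is a
homomorphism is not needed.  File `H12Velu`. -/
theorem sum_and_difference {K : Type*} [Field K] [DecidableEq K] {W : Affine K} {e f g : K}
    {N : Finset W.Point} (h : H12.Setup W e f g N) (h2 : (2 : K) ≠ 0) {Q₀ : W.Point}
    (hQ₀ : Q₀ + Q₀ ∉ N) {P Q : W.Point} (hP : P ∉ N) (hQ : Q + Q ∉ N) (hS : P + Q ∉ N)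
    (hD : P - Q ∉ N) :
    h.phi h2 hQ₀ P hP + h.phi h2 hQ₀ Q (h.not_mem_of_two hQ) ≠ 0 ∧
    h.phi h2 hQ₀ P hP - h.phi h2 hQ₀ Q (h.not_mem_of_two hQ) ≠ 0 ∧
    xN (h.phi h2 hQ₀ P hP + h.phi h2 hQ₀ Q (h.not_mem_of_two hQ)) +
      xN (h.phi h2 hQ₀ P hP - h.phi h2 hQ₀ Q (h.not_mem_of_two hQ)) = h.XX (P + Q) + h.XX (P - Q) ∧
    xN (h.phi h2 hQ₀ P hP + h.phi h2 hQ₀ Q (h.not_mem_of_two hQ)) *
      xN (h.phi h2 hQ₀ P hP - h.phi h2 hQ₀ Q (h.not_mem_of_two hQ)) = h.XX (P + Q) * h.XX (P - Q) :=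
  h.pairs h2 hQ₀ hP hQ hS hD

/-- **The quotient at a node missed by `N`**: if `|f - e| < 1 = |g - e|` and `N` meets `E₀` only in `0`, then
the quotient has a node at `X = 0` as well (`|E_f| < |E_g|`) and the images of the `p`-torsion points
`P ∉ N` are in its zero component (`|E_g| ≤ |X(P)|`).  File `H12Quot`. -/
theorem quotient_at_node {F : Type*} [Field F] [DecidableEq F] {W : Affine F} {e f g : F}
    {N : Finset W.Point} (h : H12.Setup W e f g N)
    {Γ₀ : Type*} [LinearOrderedCommGroupWithZero Γ₀] {v : Valuation F Γ₀} {p : ℕ}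
    (hmiss : (H12.nodOf h.rts 1 one_ne_zero).Missing N p v) (hfe : v (f - e) < 1)
    (hge : v (g - e) = 1) {P : W.Point} (hP : p • P = 0) (hPN : P ∉ N) :
    v h.EE < v h.swap'.EE ∧ v h.swap'.EE ≤ v (h.XX P) :=
  h.quot_local hmiss hfe hge hP hPN

/-! ## Section 3.  The arithmetic of S15 ⇒ S12

Notation of `GuideMazur`, section 2: `N ⊂ E[p]` is a cofixed line of `y² = x (x - A) (x + B)` (the curve
`H12.Xc A B`), `T ∉ N` a `p`-torsion point rational modulo `N`; all this is `H12.Cof`.  `H12.Good A B` says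
`A ≡ -1 mod 4`, `32 ∣ B`, `A` and `B` coprime, `A, B, A + B ≠ 0`.  The quotient is normalised to
`y² = x (x - A₁) (x + B₁)` with `Q` the image of `T`.  `H12.nodOf h 1 _` is the structure of section 1 with
`x(P) - e` in the place of `x`.  Claim: at every place above an odd prime `q` all nonzero points of `N`
satisfy `1 ≤ |x - e|`, for the three roots.  Then `|x| = |x - A| = |x + B|`, and the three products
`H_0, H_A, H_{-B}` have the same size at `q`. -/

/-- **The minimal model** `Mc A B`: its invariants are `c₄ = A² + AB + B²` and `256 Δ = (AB(A + B))²`; over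
`ℚ` it is `y² = x (x - A) (x + B)` after the change of variables `H12.cM` (`u = 2`, `r = t = 0`, `s = 1`); the
primes dividing `Δ` are those which divide `AB(A + B)`, `2` is one of them, and they do not divide `c₄`.
Files `H12Frey`, `H12Final`. -/
theorem minimal_model {A B : ℤ} (h : H12.Good A B) :
    ((H12.Mc A B).c₄ = A ^ 2 + A * B + B ^ 2 ∧ 256 * (H12.Mc A B).Δ = (A * B * (A + B)) ^ 2) ∧
      (H12.Mc A B).map (Int.castRingHom ℚ) = H12.cM • H12.Xc A B ∧
      (∀ q : ℕ, q.Prime → (q : ℤ) ∣ (H12.Mc A B).Δ → (q : ℤ) ∣ A * B * (A + B)) ∧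
      (∀ q : ℕ, q.Prime → q ≠ 2 → (q : ℤ) ∣ A * B * (A + B) → (q : ℤ) ∣ (H12.Mc A B).Δ) ∧
      (2 : ℤ) ∣ (H12.Mc A B).Δ ∧
      ∀ q : ℕ, q.Prime → (q : ℤ) ∣ A * B * (A + B) → ¬ (q : ℤ) ∣ (H12.Mc A B).c₄ :=
  ⟨⟨h.c₄_eq, h.Δ_eq⟩, h.map_eq, fun _ hq hd => h.dvd_of_dvd_Δ hq hd,
    fun _ hq hq2 hd => h.dvd_Δ hq hq2 hd, h.two_dvd_Δ, fun _ hq hd => h.not_dvd_c₄ hq hd⟩

/-- The isomorphism `H12.ptM` between the groups of points is `(x, y) ↦ (4x, 8y + 4x)`.  File `H12Frey`. -/
theorem points_of_minimal_model {A B : ℤ} (h : H12.Good A B) {x y : Qb}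
    (hxy : (((H12.Mc A B).map (Int.castRingHom ℚ))⁄Qb).toAffine.Nonsingular x y) :
    ∃ h', H12.ptM h (.some x y hxy) = .some (4 * x) (8 * y + 4 * x) h' :=
  H12.ptM_some h hxy

/-- **The data of section 2 for a cofixed line**: the roots are `0`, `A`, `-B`, and `n T ∉ N` for
`1 ≤ n < p`.  File `H12Frey`. -/
theorem setup_of_cofixed_line {p : ℕ} (hp : p.Prime) (hp2 : p ≠ 2) {A B : ℤ} (hA : A ≠ 0) (hB : B ≠ 0)
    (hC : A + B ≠ 0) {N : Finset ((H12.Xc A B)⁄Qb).Point} {T : ((H12.Xc A B)⁄Qb).Point}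
    (hN : H12.Cof p (H12.Xc A B) N T) :
    H12.Setup ((H12.Xc A B)⁄Qb) 0 (A : Qb) (-(B : Qb)) N ∧ ∀ n : ℕ, 1 ≤ n → n < p → n • T ∉ N :=
  ⟨hN.setup hp hp2 hA hB hC, fun _ h1 h2 => hN.nsmul_notMem hp h1 h2⟩

/-- **Rationality**: if the root `e` is rational, so is `H_e`, because the Galois group permutes the points of
`N`; and the coordinates `X(T)`, `Y(T)` of the image of `T` in the quotient are fixed by the Galois group,
because they depend only on `T` modulo `N`.  Files `H12Frey`, `H12Final`. -/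
theorem rationality {p : ℕ} {A B : ℤ} {N : Finset ((H12.Xc A B)⁄Qb).Point}
    {T : ((H12.Xc A B)⁄Qb).Point} (hN : H12.Cof p (H12.Xc A B) N T) {e f g : Qb}
    (hset : H12.Setup ((H12.Xc A B)⁄Qb) e f g N) (he : ∀ σ : Qb ≃ₐ[ℚ] Qb, σ e = e)
    (hf : ∀ σ : Qb ≃ₐ[ℚ] Qb, σ f = f) (hg : ∀ σ : Qb ≃ₐ[ℚ] Qb, σ g = g) :
    (∃ r : ℚ, algebraMap ℚ Qb r = H12.Hp N e) ∧
      ∀ σ : Qb ≃ₐ[ℚ] Qb, σ (hset.XX T) = hset.XX T ∧ σ (hset.YY T) = hset.YY T :=
  ⟨hN.Hp_rat he, fun σ => ⟨H12.XX_fixed hN hset he hf hg σ, H12.YY_fixed hN hset he hf hg σ⟩⟩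

/-- The claim at a prime of good reduction: a point of odd order does not reduce to a point of order two.
File `H12Odd`. -/
theorem good_reduction {V : ValuationSubring Qb} {p : ℕ} {E : WeierstrassCurve ℚ}
    {N : Finset (E⁄Qb).Point} {T : (E⁄Qb).Point} (hp : p.Prime) (hp2 : p ≠ 2) (hN : H12.Cof p E N T)
    {e f g : Qb} (hset : H12.Setup (E⁄Qb) e f g N) (hfe : V.valuation (f - e) = 1)
    (hge : V.valuation (g - e) = 1) (hgf : V.valuation (g - f) = 1) :
    ∀ a ∈ N, a ≠ 0 → 1 ≤ V.valuation (xN a - e) ∧ 1 ≤ V.valuation (xN a - f) ∧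
      1 ≤ V.valuation (xN a - g) :=
  H12.odd_good hp hp2 hN hset hfe hge hgf

/-- **The alternative at an odd prime of multiplicative reduction** (node at `x = e`): `N` meets `E₀` only in
`0`, or the claim holds.  File `H12Odd`. -/
theorem odd_alternative {V : ValuationSubring Qb} {p : ℕ} {E : WeierstrassCurve ℚ}
    {N : Finset (E⁄Qb).Point} {T : (E⁄Qb).Point} (hp : p.Prime) (hp2 : p ≠ 2) (hN : H12.Cof p E N T)
    {e f g : Qb} (hset : H12.Setup (E⁄Qb) e f g N) (h4 : V.valuation (4 : Qb) = 1)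
    (hfe : V.valuation (f - e) < 1) (hge : V.valuation (g - e) = 1) :
    (H12.nodOf hset.rts 1 one_ne_zero).Missing N p V.valuation ∨
      ∀ a ∈ N, a ≠ 0 → 1 ≤ V.valuation (xN a - e) ∧ 1 ≤ V.valuation (xN a - f) ∧
        1 ≤ V.valuation (xN a - g) :=
  H12.odd_alt hp hp2 hN hset h4 hfe hge

/-- **At `q ≠ p` the first case contradicts S15**: if `N` misses `E₀` at the node, the rational point `Q` of
the quotient is in the zero component (`quotient_at_node`), and `q` divides the discriminant of the quotient.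
File `H12Final`. -/
theorem inZero_of_missing {p : ℕ} {A B : ℤ} {N : Finset ((H12.Xc A B)⁄Qb).Point}
    {T : ((H12.Xc A B)⁄Qb).Point} (hN : H12.Cof p (H12.Xc A B) N T)
    {A₁ B₁ : ℤ} (hG₁ : H12.Good A₁ B₁) {q : ℕ} (hq : q.Prime) (hq2 : q ≠ 2)
    {V : ValuationSubring Qb} (hV : V.LiesOverPrime q) {e f g e₁ f₁ g₁ : ℤ}
    (hset : H12.Setup ((H12.Xc A B)⁄Qb) (e : Qb) (f : Qb) (g : Qb) N)
    (hrts₁ : H12.Rts ((H12.Xc A₁ B₁)⁄Qb) (e₁ : Qb) (f₁ : Qb) (g₁ : Qb))
    {u : Qb} (hu : u ≠ 0) (hEf : hset.EE = u ^ 2 * ((f₁ : Qb) - e₁))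
    (hEg : hset.swap'.EE = u ^ 2 * ((g₁ : Qb) - e₁)) (hcop : IsCoprime (f₁ - e₁) (g₁ - e₁))
    {Q : (((H12.Mc A₁ B₁).map (Int.castRingHom ℚ))⁄Qb).Point} (hQ0 : Q ≠ 0)
    (hQ : xN (H12.ptM hG₁ Q) - e₁ = hset.XX T / u ^ 2)
    (hfe : V.valuation ((f : Qb) - e) < 1) (hge : V.valuation ((g : Qb) - e) = 1)
    (hmiss : (H12.nodOf hset.rts 1 one_ne_zero).Missing N p V.valuation) :
    (H12.Mc A₁ B₁).InZeroComponentAt V Q ∧ (q : ℤ) ∣ f₁ - e₁ :=
  H12.inZero_of_missing hN hG₁ hq hq2 hV hset hrts₁ hu hEf hEg hcop hQ0 hQ hfe hge hmiss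

/-- **At `q = p` the first case is impossible**, by `inertia_signs` and `exists_inertia`.  (If `N` misses
`E₀` at one place above `p`, then at all of them, by `odd_alternative`: `H_e` is a rational number, so its
size is `< 1` at all of them.)  File `H12Odd`. -/
theorem not_missing_p {p : ℕ} {V : ValuationSubring Qb} {E : WeierstrassCurve ℚ} (hΔ : E.Δ ≠ 0)
    {N : Finset (E⁄Qb).Point} {T : (E⁄Qb).Point} (hp : p.Prime) (hp5 : 5 ≤ p) (hN : H12.Cof p E N T)
    {e f g : ℤ} (hset : H12.Setup (E⁄Qb) (e : Qb) (f : Qb) (g : Qb) N)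
    (hpf : (p : ℤ) ∣ f - e) (hpg : ¬ (p : ℤ) ∣ g - e) (hV : V.LiesOverPrime p) :
    ¬ (H12.nodOf hset.rts 1 one_ne_zero).Missing N p V.valuation :=
  H12.not_missing_p hΔ hp hp5 hN hset hpf hpg hV

/-- If `N` misses `E₀` at a place `V`, the inertia group of `V` acts on `N` by signs: the size of
`x(a) - e` determines `a` up to sign, and inertia preserves it.  File `H12Odd`. -/
theorem inertia_signs {p : ℕ} {V : ValuationSubring Qb} {E : WeierstrassCurve ℚ}
    {N : Finset (E⁄Qb).Point} {T : (E⁄Qb).Point} (hN : H12.Cof p E N T) {e f g : Qb}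
    (hset : H12.Setup (E⁄Qb) e f g N) (he : ∀ σ : Qb ≃ₐ[ℚ] Qb, σ e = e)
    (hf : ∀ σ : Qb ≃ₐ[ℚ] Qb, σ f = f) (hg : ∀ σ : Qb ≃ₐ[ℚ] Qb, σ g = g)
    (hmiss : (H12.nodOf hset.rts 1 one_ne_zero).Missing N p V.valuation)
    {σ : Qb ≃ₐ[ℚ] Qb} (hσ : σ ∈ V.inertiaSubgroupIn ℚ) : ∀ a ∈ N, σ • a = a ∨ σ • a = -a :=
  H12.inertia_signs hN hset he hf hg hmiss hσ

/-- **Inertia at `p` does not act by signs on `N`**: there are a place `V` above `p` and `σ` in its inertia
group with `σ a ≠ ± a` for some `a ∈ N`.  Proof: otherwise every inertia group fixes `ζ + ζ⁻¹`, where `ζ` is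
the primitive `p`-th root of unity of `zeta_of_line`; by Minkowski's theorem `ζ + ζ⁻¹` is rational, which
contradicts `trace_not_rational`.  File `H12Gal`. -/
theorem exists_inertia {p : ℕ} (hp : p.Prime) (hp5 : 5 ≤ p) {E : WeierstrassCurve ℚ} (hΔ : E.Δ ≠ 0)
    {N : Finset (E⁄Qb).Point} {T : (E⁄Qb).Point} (hN : H12.Cof p E N T) :
    ∃ V : ValuationSubring Qb, V.LiesOverPrime p ∧ ∃ σ ∈ V.inertiaSubgroupIn ℚ,
      ¬ ∀ a ∈ N, σ • a = a ∨ σ • a = -a :=
  hN.exists_inertia hp hp5 hΔ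

/-- The Weil pairing of a generator of `N` with `T` is a primitive `p`-th root of unity `ζ`; if `σ` acts on
`N` by signs then `σ ζ = ζ^(±1)`, as `σ T - T ∈ N`.  File `H12Gal`. -/
theorem zeta_of_line {p : ℕ} (hp : p.Prime) (hp3 : 3 ≤ p) {E : WeierstrassCurve ℚ} (hΔ : E.Δ ≠ 0)
    {N : Finset (E⁄Qb).Point} {T : (E⁄Qb).Point} (hN : H12.Cof p E N T) :
    ∃ ζ : Qb, IsPrimitiveRoot ζ p ∧ ∀ σ : Qb ≃ₐ[ℚ] Qb, (∀ a ∈ N, σ • a = a ∨ σ • a = -a) →
      σ ζ = ζ ∨ σ ζ * ζ = 1 :=
  hN.zeta hp hp3 hΔ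

/-- For `p ≥ 5` the number `ζ + ζ⁻¹` is not rational.  File `H12Gal`. -/
theorem trace_not_rational {p : ℕ} (hp : p.Prime) (hp5 : 5 ≤ p) {ζ : Qb}
    (hζ : IsPrimitiveRoot ζ p) {r : ℚ} (hr : ζ + ζ⁻¹ = algebraMap ℚ Qb r) : False :=
  H12.false_of_trace_rat hp hp5 hζ hr

/-- **The zero component in terms of the roots**, at an odd prime: a point `P` of the minimal model `Mc A B`
is in the zero component if `1 ≤ |x - e|` and `1 ≤ |x - f|` for two of the three roots, in the coordinates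
of `y² = x (x - A) (x + B)`, to which `H12.ptM` transports `P`.  File `H12Zero`. -/
theorem inZero_of {V : ValuationSubring Qb} {q : ℕ} {A B : ℤ} (hG : H12.Good A B) (hq : q.Prime)
    (hq2 : q ≠ 2) (hV : V.LiesOverPrime q)
    {P : (((H12.Mc A B).map (Int.castRingHom ℚ))⁄Qb).Point} {e f g : Qb}
    (hrts : H12.Rts ((H12.Xc A B)⁄Qb) e f g) (hP : P ≠ 0)
    (he : V.valuation e ≤ 1) (hf : V.valuation f ≤ 1) (hg : V.valuation g ≤ 1)
    (h1 : 1 ≤ V.valuation (xN (H12.ptM hG P) - e)) (h2 : 1 ≤ V.valuation (xN (H12.ptM hG P) - f)) :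
    (H12.Mc A B).InZeroComponentAt V P :=
  H12.inZero_of hG hq hq2 hV hrts hP he hf hg h1 h2

/-- **The greatest common divisor of the root differences is a square** (step of `GuideMazur.exists_norm`,
after clearing denominators): its valuation is even at every prime.  File `H12Norm`. -/
theorem gcd_is_square {A B m₁ m₂ m₃ : ℤ} {p : ℕ} (hcop : IsCoprime A B) (hA : A ≠ 0) (hB : B ≠ 0)
    (hC : A + B ≠ 0) (h1 : m₁ ≠ 0) (h2 : m₂ ≠ 0) (h3 : m₃ ≠ 0)
    (hrel : A ^ p * m₃ ^ 2 + B ^ p * m₂ ^ 2 = (A + B) ^ p * m₁ ^ 2) :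
    ∃ g : ℕ, g ≠ 0 ∧ Int.gcd (A ^ p * m₃ ^ 2) (B ^ p * m₂ ^ 2) = g ^ 2 :=
  H12.gcd_isSquare hcop hA hB hC h1 h2 h3 hrel

/-- **Rational numbers which are units at every place of `ℚ̄` are `±1`.**  Applied at the end of the proof
of S12 to the quotients of `H_0`, `4^(p-1) H_A`, `H_{-B}`.  File `H12Final`. -/
theorem units_everywhere {r : ℚ} (h : ∀ (q : ℕ) (_ : q.Prime) (V : ValuationSubring Qb),
    V.LiesOverPrime q → V.valuation (algebraMap ℚ Qb r) = 1) : r ^ 2 = 1 :=
  H12.eq_one_or_neg_one h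

/-- **The core of S12**: if S15 holds (`H12.S15Statement`), then for a prime `p ≥ 17` and `H12.Good A B`
with `B = b^p`, `b` even, the curve `y² = x (x - A) (x + B)` has no cofixed line.  For the Frey curve
`A = a^p`, `B = b^p`; the line is transported from its minimal model to this equation.  File `H12Final`. -/
theorem core_of_s12 (h15 : H12.S15Statement) {A B b : ℤ} {p : ℕ} (hp : p.Prime) (hp17 : 17 ≤ p)
    (hG : H12.Good A B) (hb : B = b ^ p) (hb2 : (2 : ℤ) ∣ b) {N : Finset ((H12.Xc A B)⁄Qb).Point}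
    {T : ((H12.Xc A B)⁄Qb).Point} (hN : H12.Cof p (H12.Xc A B) N T) : False :=
  H12.main_aux h15 hp hp17 hG hb hb2 hN

/-! ## Section 4.  Dévissage of the Eisenstein part -/

/-- **Fitting's lemma** for an ideal `P` acting on a finite module `M`: some `e` maps `M` into the part of
`M` killed by a power of `P`, and is the identity there (`P^n M` is stationary; determinant trick).  File
`H15Fit`. -/
theorem exists_fitting {R M : Type*} [CommRing R] [AddCommGroup M] [Module R M] [Finite M]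
    (P : Ideal R) :
    ∃ e : R, (∀ x : M, ∃ n : ℕ, ∀ t ∈ P ^ n, t • (e • x) = 0) ∧
      ∀ x : M, (∃ n : ℕ, ∀ t ∈ P ^ n, t • x = 0) → e • x = x :=
  H15.exists_fitting P

/-- **Simple modules** (behind `GuideMazurDescent.constituents`).  Let a group `Γ` act on a finite nonzero
group `S` of exponent `r` without proper nonzero invariant subgroups, `c : Γ → 𝔽_r^×` a character, and
`(σ - 1) (σ - c(σ)) = 0` on `S` for all `σ`.  Then `S` has order `r`, and `Γ` acts trivially or through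
`c`.  (The relation comes from Eichler-Shimura and Frobenius' density theorem.)  File `H85JH`. -/
theorem simple_module {Γ : Type*} [Group Γ] {S : Type*} [AddCommGroup S]
    [Finite S] [Nontrivial S] (a : Γ →* AddMonoid.End S) (r : ℕ) [Fact r.Prime] (hr : ∀ s : S, r • s = 0)
    (hsimple : ∀ H : AddSubgroup S, (∀ σ : Γ, ∀ s ∈ H, a σ s ∈ H) → H = ⊥ ∨ H = ⊤)
    (c : Γ →* (ZMod r)ˣ)
    (hq : ∀ σ : Γ, ∀ s : S, a σ (a σ s - (c σ : ZMod r).val • s) = a σ s - (c σ : ZMod r).val • s) :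
    Nat.card S = r ∧ ((∀ (σ : Γ) (s : S), a σ s = s) ∨
      ∀ (σ : Γ) (s : S), a σ s = (c σ : ZMod r).val • s) :=
  H85.simple_const a r hr hsimple c hq

/-- A nonzero finite Galois module `G` has a maximal proper Galois stable subgroup `G''`; then `G/G''` is
simple and `GuideMazurDescent.constituents` applies: the count (`GuideMazurDescent.count_theorem`) is an
induction over such steps.  File `H75Cnt`. -/
theorem exists_max_stable {J : Type} [AddCommGroup J] [DistribMulAction GQ J] {G : AddSubgroup J}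
    (hfin : Finite G) (hne : G ≠ ⊥) : ∃ G'' : AddSubgroup J, G'' < G ∧
      (∀ σ : GQ, ∀ x ∈ G'', σ • x ∈ G'') ∧
      ∀ H : AddSubgroup J, G'' ≤ H → H ≤ G → (∀ σ : GQ, ∀ x ∈ H, σ • x ∈ H) → H = G'' ∨ H = G :=
  H75.exists_max_stable hfin hne

/-- If `T` is additive on `Z'` with values in a finite set `R` and with kernel in `Z''`, then
`|Z'| ≤ |Z''| |R|`.  Here `Z'`, `Z''` are the groups of cocycles of `G'` and `G''`, and `T` is composition
with `Φ : G' → G'/G'' = ℤ/r`.  File `H75Cnt`. -/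
theorem card_le_of_map {A B : Type*} [AddCommGroup A] [AddCommGroup B] {Z' Z'' : AddSubgroup A}
    (T : A → B) (hsub : ∀ x ∈ Z', ∀ y ∈ Z', T (x - y) = T x - T y)
    (hker : ∀ x ∈ Z', T x = 0 → x ∈ Z'') (hfin : Finite Z'') {R : Set B} (hR : R.Finite)
    (hT : ∀ x ∈ Z', T x ∈ R) : Finite Z' ∧ Nat.card Z' ≤ Nat.card Z'' * R.ncard :=
  H75.card_le_of_map T hsub hker hfin hR hT

/-- Growth of the local factors: if `H` (the invariants of inertia at `N`, or the kernel of reduction at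
`r`) contains an element of `G'` outside `G''`, then `r |G'' ∩ H| ≤ |G' ∩ H|`.  File `H75Cnt`. -/
theorem card_inf_mul_le {J : Type} [AddCommGroup J] {r : ℕ} (hr : r.Prime) {G' G'' : AddSubgroup J}
    (hle : G'' ≤ G') (hfin : Finite G') {Φ : J → ZMod r}
    (hadd : ∀ x ∈ G', ∀ y ∈ G', Φ (x + y) = Φ x + Φ y) (hker : ∀ x ∈ G', Φ x = 0 ↔ x ∈ G'')
    (H : AddSubgroup J) {x₀ : J} (hx₀ : x₀ ∈ G') (hx₀H : x₀ ∈ H) (hx₀' : x₀ ∉ G'') :
    Nat.card (G'' ⊓ H : AddSubgroup J) * r ≤ Nat.card (G' ⊓ H : AddSubgroup J) :=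
  have : Fact r.Prime := ⟨hr⟩
  H75.card_inf_mul_le hle hfin ⟨hadd, hker⟩ H hx₀ hx₀H hx₀'

/-- **The constant constituent.**  If Galois acts trivially on `G'/G''` and `G' ∩ K_A ⊆ G''` for a place
`A ∣ r`, then for every cocycle `ξ` of `G'` (`H15.ZStar`, see `GuideMazurDescent.mem_cocycles_iff`) the
function `Φ ∘ ξ` is a locally constant homomorphism unramified outside `N`; there are at most `r` of them
(`GuideMazurDescent.char_count`).  File `H75Cnt`. -/
theorem constant_step {N r : ℕ} (hr : r.Prime) {J : Type} [AddCommGroup J] [Module HeckeAlg J]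
    [DistribMulAction GQ J] {k : ℕ} {G' G'' : AddSubgroup J} {Φ : J → ZMod r}
    (hadd : ∀ x ∈ G', ∀ y ∈ G', Φ (x + y) = Φ x + Φ y) (hker : ∀ x ∈ G', Φ x = 0 ↔ x ∈ G'')
    (hG' : ∀ σ : GQ, ∀ x ∈ G', σ • x ∈ G') (htriv : ∀ σ : GQ, ∀ x ∈ G', σ • x - x ∈ G'')
    {K : AddSubgroup J} {A : ValuationSubring Qb} (hA : A.LiesOverPrime r)
    (hin : ∀ σ ∈ A.inertiaSubgroupIn ℚ, ∀ x : J, σ • x - x ∈ K)
    (hK : ∀ x ∈ G', x ∈ K → x ∈ G'') {ξ : GQ → J} (hξ : ξ ∈ H15.ZStar N r J k G') :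
    (∀ σ τ, Φ (ξ (σ * τ)) = Φ (ξ σ) + Φ (ξ τ)) ∧ IsLocallyConstant (fun σ => Φ (ξ σ)) ∧
      ∀ q : ℕ, q.Prime → q ≠ N → ∀ B : ValuationSubring Qb, B.LiesOverPrime q →
        ∀ σ ∈ B.inertiaSubgroupIn ℚ, Φ (ξ σ) = 0 :=
  have : Fact r.Prime := ⟨hr⟩
  H75.step_et ⟨hadd, hker⟩ hG' htriv hA hin hK hξ

/-- **The multiplicative constituent.**  If Galois acts on `G'/G''` through the cyclotomic character, then
`σ ↦ Z^(Φ(ξ σ))` (`Z` a primitive `r`-th root of unity) is the Kummer cocycle `σ ↦ σβ/β` of an `r`-th root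
`β` of a rational number `b` whose valuations outside `N` are divisible by `r`; the valuation at `N` is
divisible by `r` too, if the elements of `G'` fixed by inertia at `N` are in `G''`.  The condition at `r` is
the input `H15.UnitR` of `H15.CoreInputs`.  File `H75Cnt`. -/
theorem multiplicative_step {N r : ℕ} {J : Type} [AddCommGroup J] [Module HeckeAlg J]
    [DistribMulAction GQ J] (hr : r.Prime) {Z : Qb} (hN : N.Prime) (hN5 : 5 ≤ N) (hrN : r ≠ N)
    (hZ : IsPrimitiveRoot Z r) {k : ℕ} {G' G'' : AddSubgroup J} {Φ : J → ZMod r}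
    (hadd : ∀ x ∈ G', ∀ y ∈ G', Φ (x + y) = Φ x + Φ y) (hker : ∀ x ∈ G', Φ x = 0 ↔ x ∈ G'')
    (hG' : ∀ σ : GQ, ∀ x ∈ G', σ • x ∈ G') (hW : G' ≤ H15.WSub N r J k)
    (hcyc : ∀ σ : GQ, ∀ n : ℕ, (∀ ζ : Qb, ζ ^ r = 1 → σ ζ = ζ ^ n) → ∀ x ∈ G', σ • x - n • x ∈ G'')
    {K : ValuationSubring Qb → AddSubgroup J} (hU : H15.UnitR N r J K)
    {Ar AN : ValuationSubring Qb} (hAr : Ar.LiesOverPrime r) (hAN : AN.LiesOverPrime N)
    (hin : ∀ σ ∈ Ar.inertiaSubgroupIn ℚ, ∀ x : J, σ • x - x ∈ K Ar)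
    {ξ : GQ → J} (hξ : ξ ∈ H15.ZStar N r J k G') :
    (∃ (β : Qbˣ) (b : ℚ), (b : Qb) = (β : Qb) ^ r ∧
      (∀ q : ℕ, q.Prime → q ≠ N → (r : ℤ) ∣ padicValRat q b) ∧
      (fun σ => Z ^ (Φ (ξ σ)).val) = H15.kumCoc β) ∧
    ((∀ x ∈ G', (∀ σ ∈ AN.inertiaSubgroupIn ℚ, σ • x = x) → x ∈ G'') →
      ∃ (β : Qbˣ) (b : ℚ), (b : Qb) = (β : Qb) ^ r ∧
        (∀ q : ℕ, q.Prime → (r : ℤ) ∣ padicValRat q b) ∧
        (fun σ => Z ^ (Φ (ξ σ)).val) = H15.kumCoc β) :=
  have : Fact r.Prime := ⟨hr⟩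
  H75.step_mu hN hN5 hrN H47.kummerCount hZ ⟨hadd, hker⟩ hG' hW hcyc hU hAr hAN hin hξ

/-- The multiplicative group of `ℚ̄` is an injective abelian group: so the homomorphism
`x ↦ Z^(Φ x)` on `G' ∩ K_A` extends to `W_k ∩ K_A`, as the input `unit_r` requires.  File `H75Cnt`. -/
theorem units_injective : Module.Baer ℤ (Additive Qbˣ) :=
  H75.baer_units

/-! ## Section 5.  Characters and Kummer theory over `ℚ` -/

/-- **Minkowski's theorem for characters**: a locally constant homomorphism `G_ℚ → ℤ/r` which vanishes on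
the inertia groups above the primes `q ≠ N` and on one inertia group above `N` is zero.  With the tame
inertia group at `N` it gives the bound `r` of `GuideMazurDescent.char_count`.  File `H8CharCount`. -/
theorem unramified_character {N r : ℕ} {A : ValuationSubring Qb} (hA : A.LiesOverPrime N)
    (c : GQ → ZMod r) (hc : ∀ σ τ, c (σ * τ) = c σ + c τ) (hl : IsLocallyConstant c)
    (h : ∀ q : ℕ, q.Prime → q ≠ N → ∀ B : ValuationSubring Qb, B.LiesOverPrime q →
      ∀ σ ∈ B.inertiaSubgroupIn ℚ, c σ = 0)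
    (hN : ∀ σ ∈ A.inertiaSubgroupIn ℚ, c σ = 0) : c = 0 :=
  H8.char_eq_zero hA c hc hl h hN

/-- **Hilbert 90**: a locally constant cocycle with values in the `r`-th roots of unity is
`H15.kumCoc β : σ ↦ σβ/β` for an `r`-th root `β` of a rational number.  File `H47KummerCount`. -/
theorem hilbert_90 {r : ℕ} (hr : 0 < r) {ξ : GQ → Qb} (h1 : ∀ σ, ξ σ ^ r = 1)
    (h2 : ∀ σ τ : GQ, ξ (σ * τ) = ξ σ * σ (ξ τ)) (h3 : IsLocallyConstant ξ) :
    ∃ (β : Qbˣ) (b : ℚ), (b : Qb) = (β : Qb) ^ r ∧ ξ = H15.kumCoc β :=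
  H47.exists_kumCoc hr h1 h2 h3

/-- **Unique factorisation**: a nonzero rational number whose valuations outside `N` are divisible by `r` is
`± N^j c^r` with `0 ≤ j < r`.  This replaces units and class groups.  File `H47KummerCount`. -/
theorem rational_numbers {N r : ℕ} (hN : N.Prime) (hr : 0 < r) {b : ℚ} (hb : b ≠ 0)
    (h : ∀ q : ℕ, q.Prime → q ≠ N → (r : ℤ) ∣ padicValRat q b) :
    ∃ (c : ℚ) (j : ℕ), c ≠ 0 ∧ j < r ∧ (b = N ^ j * c ^ r ∨ b = -(N ^ j * c ^ r)) :=
  H47.rat_exists_eq_mul_pow hN hr hb h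

/-- The `r`-th roots of `±1` modulo rational numbers have at most `r` representatives; so there are at most
`r²`, respectively `r`, Kummer cocycles in `GuideMazurDescent.kummer_count`.  File `H47KummerCount`. -/
theorem roots_of_one {r : ℕ} (hr : r.Prime) : ∃ T : Finset Qbˣ, T.card ≤ r ∧
    ∀ x : Qbˣ, (x : Qb) ^ r = 1 ∨ (x : Qb) ^ r = -1 → ∃ t ∈ T, ∃ s : ℚ, s ≠ 0 ∧ (x : Qb) = s * t :=
  H47.exists_root_reps hr

/-! ## Section 6.  Periods of prime level

`periodMap N f : Γ₀(N) → ℂ` is the period homomorphism of a cusp form `f` of weight two (Prelude), and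
`H6.Mz.pp a b` the homomorphism `per a + conj (per b)`.  `H4.IsPE φ`: `φ` kills the parabolic and elliptic
elements.  `H4.heckeHom` is `T_ℓ` on homomorphisms `Γ₀(N) → ℂ` (the transfer), `ℓ ∤ N`. -/

/-- **Eichler-Shimura over `ℂ`**: every homomorphism which kills the parabolic and elliptic elements is
`per a + conj (per b)` for exactly one pair `(a, b)` of cusp forms.  Proof:
`GuidePeriods.real_eichler_shimura` for the real and the imaginary part.  File `H6MzThree`. -/
theorem period_pairs {N : ℕ} [NeZero N] :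
    (∀ (a b : CuspForm (CongruenceSubgroup.Gamma0 N) 2) (γ : Additive (CongruenceSubgroup.Gamma0 N)),
      H6.Mz.pp a b γ = periodMap N a γ + starRingEnd ℂ (periodMap N b γ)) ∧
    (∀ φ : Additive (CongruenceSubgroup.Gamma0 N) →+ ℂ, H4.IsPE φ → ∃ a b, H6.Mz.pp a b = φ) ∧
    ∀ a b a' b' : CuspForm (CongruenceSubgroup.Gamma0 N) 2, H6.Mz.pp a b = H6.Mz.pp a' b' →
      a = a' ∧ b = b' :=
  ⟨H6.Mz.pp_apply, H6.Mz.exists_pp, fun _ _ _ _ h => H6.Mz.pp_injective h⟩

/-- **Hecke operators on pairs**: `T_ℓ` acts on both forms, and the scalar `c` as `(c a, c̄ b)`.  So if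
`per a + conj (per b)` is an eigenvector with eigenvalues `χ(ℓ)`, then `a` is one with eigenvalues `χ(ℓ)` and
`b` one with the conjugate eigenvalues.  File `H6MzThree`. -/
theorem hecke_on_pairs {N : ℕ} [NeZero N] (a b : CuspForm (CongruenceSubgroup.Gamma0 N) 2) :
    (∀ (ℓ : ℕ) [Fact ℓ.Prime] (hℓN : ¬ ℓ ∣ N), H4.heckeHom hℓN (H6.Mz.pp a b) =
      H6.Mz.pp (CuspForm.heckeTLin 2 (Fact.out : ℓ.Prime) hℓN a)
        (CuspForm.heckeTLin 2 (Fact.out : ℓ.Prime) hℓN b)) ∧
    ∀ c : ℂ, H6.Mz.pp (c • a) (starRingEnd ℂ c • b) = c • H6.Mz.pp a b :=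
  ⟨fun _ _ hℓN => H6.Mz.heckeHom_pp hℓN a b, fun c => H6.Mz.pp_smul c a b⟩

/-- **Coefficients of index prime to the level**: for an eigenform of the `T_ℓ`, `ℓ ∤ N`, with `a₁ = 0` they
all vanish.  File `H6MzThree`. -/
theorem coprime_coefficients {N : ℕ} [NeZero N] (f : CuspForm (CongruenceSubgroup.Gamma0 N) 2) (χ : ℕ → ℂ)
    (hf : ∀ (ℓ : ℕ) (hℓ : ℓ.Prime) (hℓN : ¬ ℓ ∣ N), CuspForm.heckeTLin 2 hℓ hℓN f = χ ℓ • f)
    (h1 : ModularFormClass.qCoeff f 1 = 0) (n : ℕ) (hn : n.Coprime N) :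
    ModularFormClass.qCoeff f n = 0 :=
  H6.Mz.qCoeff_eq_zero f χ hf h1 n hn

/-- **A cusp form of weight two and prime level whose coefficients of index prime to the level vanish is
zero.**  Proof: then `f(z) = g(Nz)` with `g = U_N f`, so `g` is invariant under `Γ₀(N)` and under its
transpose, which generate `SL₂(ℤ)`; there is no cusp form of weight two and level one (S08).  File
`H54MzA`. -/
theorem form_of_prime_level {N : ℕ} [NeZero N] (hN : N.Prime)
    (f : CuspForm (CongruenceSubgroup.Gamma0 N) 2)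
    (h : ∀ n : ℕ, n.Coprime N → ModularFormClass.qCoeff f n = 0) : f = 0 :=
  H54Mz.eq_zero_of_qCoeff_coprime hN f h

/-! ## Section 7.  The Tate module of the Eisenstein part

Notation of `GuideEisenstein`, section 3: `W_k = H15.WSub N r J k` is the group of the elements of `J` killed
by `r^k` and by a power of the Eisenstein ideal, `T = H76M.TW N r J` the Tate module of their union
`H76M.Winf N r J`, and `H30.TateMod.proj n x ∈ W_n` the component `n` of `x ∈ T`.  `H15.CardW N r J t` says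
`|W_k| = r^(2tk)`; `H15.BasicInputs N J K` is the list of the general properties of `J` and of the kernels of
reduction `K A` (see `core_inputs_iff` in `GuideMazurDescent`). -/

/-- **`W` is divisible**: every `x ∈ W_k` is `r y` with `y ∈ W_(k+1)`.  Proof by counting: the kernel of
`r : W_(k+1) → W_k` is `W_1`, and `|W_(k+1)| = |W_1| |W_k|`.  Hence every element of `W_k` is the component
`k` of an element of `T`.  File `H92MzE`. -/
theorem divisibility {N r : ℕ} [Fact r.Prime] {J : Type} [AddCommGroup J] [Module HeckeAlg J]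
    [DistribMulAction GQ J] {K : ValuationSubring Qb → AddSubgroup J} {t : ℕ}
    (hB : H15.BasicInputs N J K) (hC : H15.CardW N r J t) {k : ℕ} {x : J} (hx : x ∈ H15.WSub N r J k) :
    (∃ y ∈ H15.WSub N r J (k + 1), r • y = x) ∧
      ∃ y : H76M.TW N r J, ((H30.TateMod.proj k y : H76M.Winf N r J) : J) = x :=
  ⟨H92.MzE.exists_div hB hC hx, H92.MzE.surj hB hC k x hx⟩

/-- **The rank** of `T` is `2t`: `T/rT` is `W_1`.  File `H92MzE`. -/
theorem tate_rank {N r : ℕ} [Fact r.Prime] {J : Type} [AddCommGroup J] [Module HeckeAlg J]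
    [DistribMulAction GQ J] {K : ValuationSubring Qb → AddSubgroup J} {t : ℕ}
    (hB : H15.BasicInputs N J K) (hC : H15.CardW N r J t) :
    Module.finrank ℤ_[r] (H76M.TW N r J) = 2 * t :=
  H92.MzE.finrank_eq hB hC

/-- **Identities are checked on components**: an element of `T` is determined by its components, is divisible
by `r^n` if its component `n` is zero, and its component `n` is in `W_n`.  File `H92MzE`. -/
theorem components {N r : ℕ} [Fact r.Prime] {J : Type} [AddCommGroup J] [Module HeckeAlg J]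
    [DistribMulAction GQ J] :
    (∀ x y : H76M.TW N r J, (∀ n, ((H30.TateMod.proj n x : H76M.Winf N r J) : J) =
      ((H30.TateMod.proj n y : H76M.Winf N r J) : J)) → x = y) ∧
    (∀ (x : H76M.TW N r J) (n : ℕ), ((H30.TateMod.proj n x : H76M.Winf N r J) : J) = 0 →
      ∃ w, x = (r : ℤ_[r]) ^ n • w) ∧
    ∀ (x : H76M.TW N r J) (n : ℕ),
      ((H30.TateMod.proj n x : H76M.Winf N r J) : J) ∈ H15.WSub N r J n :=
  ⟨fun _ _ h => H92.MzE.tw_ext h, fun _ _ h => H92.MzE.pow_smul_of_proj h, H92.MzE.proj_mem⟩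

/-- **Error terms vanish**: an `r`-power torsion element of the kernel of reduction at a place above
`q ∤ rN` is zero.  So the relation of Eichler-Shimura and the triviality of inertia, which hold modulo the
kernel of reduction, are exact on the `W_k`.  File `H92MzE`. -/
theorem error_terms {N r : ℕ} [Fact r.Prime] {J : Type} [AddCommGroup J] [Module HeckeAlg J]
    [DistribMulAction GQ J] {K : ValuationSubring Qb → AddSubgroup J} (hB : H15.BasicInputs N J K) {q : ℕ}
    (hq : q.Prime) (hqN : ¬ q ∣ N) (hqr : q ≠ r) {B : ValuationSubring Qb} (hBq : B.LiesOverPrime q) {n : ℕ}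
    {x : J} (hx : x ∈ K B) (hxn : (r ^ n : ℕ) • x = 0) : x = 0 :=
  H92.MzE.zero_of_mem hB hq hqN hqr hBq hx hxn

/-- **Continuity and nilpotence.**  An automorphism which fixes a certain number field acts trivially on `T`
modulo `r^n`; and a power of `T_q - (1 + q)` is divisible by `r` on `T`, because it kills `W_1`, which is
finite.  (`H92.MzE.tG`, `H92.MzE.tH` are the actions of the Galois group and of the Hecke algebra on `T`, and
`H92.MzE.gen q` is `T_q`.)  File `H92MzE`. -/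
theorem continuity_and_nilpotence {N r : ℕ} [Fact r.Prime] {J : Type} [AddCommGroup J] [Module HeckeAlg J]
    [DistribMulAction GQ J] [SMulCommClass GQ HeckeAlg J] {K : ValuationSubring Qb → AddSubgroup J}
    (hB : H15.BasicInputs N J K) :
    (∀ n : ℕ, ∃ L : IntermediateField ℚ Qb, FiniteDimensional ℚ L ∧
      ∀ σ : GQ, (∀ x ∈ L, σ x = x) → ∀ v : H76M.TW N r J, ∃ w,
        (H92.MzE.tG N r J σ - 1) v = (r : ℤ_[r]) ^ n • w) ∧
    ∀ q : ℕ, q.Prime → q ≠ N → ∃ k : ℕ, ∀ v : H76M.TW N r J, ∃ w,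
      ((H92.MzE.tH N r J (H92.MzE.gen q) -
        (1 + (q : ℤ_[r])) • (1 : Module.End ℤ_[r] (H76M.TW N r J))) ^ k) v = (r : ℤ_[r]) • w :=
  ⟨H92.MzE.cont hB, H92.MzE.nilp hB⟩

/-! ## Section 8.  The Hecke correspondences commute

The steps of `GuideHecke.hecke_commute`.  `H67.FB L N` is the function field of `X₀(N)` over `L`;
`heckeAlphaBar L N ℓ`, `heckeBetaBar L N ℓ` are the maps `f ↦ f` and `f ↦ f(q^ℓ)` from level `N` to level
`N ℓ`, and `H67.alphaTwo`, `H67.betaTwo` the same maps from level `N ℓ'` to level `N ℓ ℓ'`. -/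

/-- **Norms in a square of fields** `A ⊂ B`, `C ⊂ D`: if `[D : C] = [B : A]` and `B` generates `D` over `C`,
then the norms from `D` to `C` and from `B` to `A` agree on `B`, since a basis of `B` over `A` is one of `D`
over `C`.  File `H67Square`. -/
theorem norm_in_square {A B C D : Type*} [Field A] [Field B] [Field C] [Field D] [Algebra A B]
    [Algebra A C] [Algebra B D] [Algebra C D] [Algebra A D] [IsScalarTower A B D] [IsScalarTower A C D]
    [Module.Finite A B] [Module.Finite C D] (hdeg : Module.finrank C D = Module.finrank A B)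
    (hgen : IntermediateField.adjoin C (Set.range (algebraMap B D)) = ⊤) (x : B) :
    Algebra.norm C (algebraMap B D x) = algebraMap A C (Algebra.norm A x) :=
  H67.norm_compat hdeg hgen x

/-- **Base change for divisors.**  If the norms agree as in `norm_in_square`, pull back from `A` to `C` after
push forward from `B` to `A` is push forward from `D` to `C` after pull back from `B` to `D`.  (Take the
orders of the norms of a function in `B` with order one at one place and order zero at the other places with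
the same restriction to `A`.)  File `H67Square`. -/
theorem base_change_of_norms {K A B C D : Type*} [Field K] [Field A] [Field B] [Field C] [Field D]
    [Algebra K A] [Algebra K B] [Algebra K C] [Algebra K D] [Algebra A B] [Algebra A C] [Algebra B D]
    [Algebra C D] [Algebra A D] [IsScalarTower K A B] [IsScalarTower K A C] [IsScalarTower K B D]
    [IsScalarTower K C D] [IsScalarTower K A D] [IsScalarTower A B D] [IsScalarTower A C D]
    [Module.Finite A B] [Module.Finite A C] [Module.Finite B D] [Module.Finite C D] [Module.Finite A D]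
    [CharZero K] [AlgebraicCurve.HasPrincipalDivisors K C] [AlgebraicCurve.HasPrincipalDivisors K D]
    (hnorm : ∀ b : B, Algebra.norm C (algebraMap B D b) = algebraMap A C (Algebra.norm A b))
    (E : AlgebraicCurve.Divisor K B) :
    AlgebraicCurve.Divisor.pullback C (AlgebraicCurve.Divisor.pushforward A E) =
      AlgebraicCurve.Divisor.pushforward C (AlgebraicCurve.Divisor.pullback D E) :=
  H67.pullback_pushforward hnorm E

/-- **The four squares** formed by the degeneracy maps between the levels `N`, `N ℓ`, `N ℓ'`, `N ℓ ℓ'`, and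
generation of the function field of level `N ℓ ℓ'` in the two squares in which base change is used.  File
`H67Comm`. -/
theorem hecke_squares (L : Type*) [Field L] [Algebra ℚ L] [IsAlgClosed L] [CharZero L] (N ℓ ℓ' : ℕ)
    [NeZero N] [NeZero ℓ] [NeZero ℓ'] :
    ((H67.alphaTwo L N ℓ ℓ').comp (heckeBetaBar L N ℓ') =
        (heckeBetaBar L (N * ℓ) ℓ').comp (heckeAlphaBar L N ℓ) ∧
      (heckeAlphaBar L (N * ℓ) ℓ').comp (heckeBetaBar L N ℓ) =
        (H67.betaTwo L N ℓ ℓ').comp (heckeAlphaBar L N ℓ') ∧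
      (H67.alphaTwo L N ℓ ℓ').comp (heckeAlphaBar L N ℓ') =
        (heckeAlphaBar L (N * ℓ) ℓ').comp (heckeAlphaBar L N ℓ) ∧
      (H67.betaTwo L N ℓ ℓ').comp (heckeBetaBar L N ℓ') =
        (heckeBetaBar L (N * ℓ) ℓ').comp (heckeBetaBar L N ℓ)) ∧
    (ℓ.Prime → ℓ'.Prime →
      Subfield.closure (Set.range (H67.alphaTwo L N ℓ ℓ') ∪
        Set.range (heckeBetaBar L (N * ℓ) ℓ')) = ⊤ ∧
      Subfield.closure (Set.range (heckeAlphaBar L (N * ℓ) ℓ') ∪
        Set.range (H67.betaTwo L N ℓ ℓ')) = ⊤) :=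
  ⟨⟨H67.square1 L N ℓ ℓ', H67.square2 L N ℓ ℓ', H67.square3 L N ℓ ℓ', H67.square4 L N ℓ ℓ'⟩,
    fun h h' => ⟨H67.gen1 L N ℓ ℓ' h h', H67.gen2 L N ℓ ℓ' h h'⟩⟩

/-- **Commutation on divisors**: `T_ℓ = α_* β^*` on divisors, so `T_ℓ' T_ℓ` and `T_ℓ T_ℓ'` are both, by base
change in the first two squares, push forward after pull back through level `N ℓ ℓ'`; the other two squares
show that these are the same maps.  File `H67Comm`. -/
theorem correspondences_commute (L : Type*) [Field L] [Algebra ℚ L] [IsAlgClosed L] [CharZero L]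
    {N ℓ ℓ' : ℕ} [NeZero N] [NeZero ℓ] [NeZero ℓ'] (hℓ : ℓ.Prime) (hℓ' : ℓ'.Prime) (hne : ℓ ≠ ℓ')
    [AlgebraicCurve.HasPrincipalDivisors L (H67.FB L (N * ℓ))]
    [AlgebraicCurve.HasPrincipalDivisors L (H67.FB L (N * ℓ'))]
    (iα : HeckeAlphaBarIntegral L N ℓ) (iβ : HeckeBetaBarIntegral L N ℓ)
    (iα' : HeckeAlphaBarIntegral L N ℓ') (iβ' : HeckeBetaBarIntegral L N ℓ')
    (E : AlgebraicCurve.Divisor L (H67.FB L N)) :
    heckeDivBar iα' iβ' (heckeDivBar iα iβ E) = heckeDivBar iα iβ (heckeDivBar iα' iβ' E) :=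
  H67.heckeDivBar_comm L hℓ hℓ' hne iα iβ iα' iβ' E

end Fermat.Agent.Guide.MazurSteps
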