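import Mathlib

/-! Finite dimensionality from a uniform degree bound (helper78; the separating element argument is
adapted from helper24's `H24Degree`). -/

set_option autoImplicit false

namespace Fermat.Agent.H78.FF

open IntermediateField Polynomial

theorem finrank_le_of_degree_bound' {K E L : Type*} [Field K] [Infinite K] [Field E] [Field L]
    [Algebra K E] [Algebra E L] [Algebra K L] [IsScalarTower K E L]
    [FiniteDimensional E L] [Algebra.IsSeparable E L]
    (A : Subalgebra K L) (hA : ∀ z : L, ∃ a ∈ A, ∃ b ∈ A, z = a / b) (n : ℕ)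
    (hdeg : ∀ a ∈ A, ∃ q : Polynomial E, q.Monic ∧ q.natDegree = n ∧ aeval a q = 0) :
    Module.finrank E L ≤ n := by
  classical
  let Ω := AlgebraicClosure E
  let T := L →ₐ[E] Ω
  have hT : Fintype.card T = Module.finrank E L := AlgHom.card E L Ω
  rw [← hT]
  have hsep : ∃ a ∈ A, ∀ σ σ' : T, σ a = σ' a → σ = σ' := by
    by_contra hcon
    push Not at hcon
    let W : {p : T × T // p.1 ≠ p.2} → Subspace K A := fun p =>
      LinearMap.ker (((p.1.1.restrictScalars K).toLinearMap - (p.1.2.restrictScalars K).toLinearMap).comp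
        A.val.toLinearMap)
    have hcover : ⋃ i, (W i : Set A) = Set.univ := by
      refine Set.eq_univ_of_forall fun a => ?_
      obtain ⟨σ, σ', h1, h2⟩ := hcon a a.2
      refine Set.mem_iUnion.mpr ⟨⟨(σ, σ'), h2⟩, ?_⟩
      simp only [W, SetLike.mem_coe, LinearMap.mem_ker, LinearMap.comp_apply, LinearMap.sub_apply]
      exact sub_eq_zero.mpr h1
    obtain ⟨⟨⟨σ, σ'⟩, hne⟩, htop⟩ := Subspace.exists_eq_top_of_iUnion_eq_univ hcover
    apply hne
    have hag : ∀ a ∈ A, σ a = σ' a := fun a ha => by
      have : (⟨a, ha⟩ : A) ∈ W ⟨(σ, σ'), hne⟩ := by rw [htop]; trivial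
      simp only [W, LinearMap.mem_ker, LinearMap.comp_apply, LinearMap.sub_apply] at this
      exact sub_eq_zero.mp this
    refine AlgHom.ext fun z => ?_
    obtain ⟨a, ha, b, hb, rfl⟩ := hA z
    rw [map_div₀, map_div₀, hag a ha, hag b hb]
  obtain ⟨a, ha, hsep⟩ := hsep
  obtain ⟨q, hq, hqn, hqa⟩ := hdeg a ha
  have hinj : Function.Injective (fun σ : T => σ a) := fun σ σ' h => hsep σ σ' h
  have hq0 : q.map (algebraMap E Ω) ≠ 0 := (hq.map _).ne_zero
  have hsub : (Finset.univ.image (fun σ : T => σ a)) ⊆ (q.map (algebraMap E Ω)).roots.toFinset := by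
    intro y hy
    rw [Finset.mem_image] at hy
    obtain ⟨σ, -, rfl⟩ := hy
    rw [Multiset.mem_toFinset, mem_roots hq0, IsRoot.def, eval_map_algebraMap]
    rw [aeval_algHom_apply, hqa, map_zero]
  calc Fintype.card T = (Finset.univ.image (fun σ : T => σ a)).card := by
        rw [Finset.card_image_of_injective _ hinj, Finset.card_univ]
    _ ≤ (q.map (algebraMap E Ω)).roots.toFinset.card := Finset.card_le_card hsub
    _ ≤ Multiset.card (q.map (algebraMap E Ω)).roots := Multiset.toFinset_card_le _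
    _ ≤ (q.map (algebraMap E Ω)).natDegree := card_roots' _
    _ = n := by rw [(hq.natDegree_map _), hqn]

theorem finiteDimensional_of_degree_bound {K F : Type*} [Field K] [Infinite K] [Field F]
    [Algebra K F] (j : F) [Algebra.IsAlgebraic K⟮j⟯ F] [Algebra.IsSeparable K⟮j⟯ F]
    (A : Subalgebra K F) (hj : j ∈ A) (hA : ∀ z : F, ∃ a ∈ A, ∃ b ∈ A, z = a / b) (n : ℕ)
    (hdeg : ∀ a ∈ A, ∃ q : Polynomial K⟮j⟯, q.Monic ∧ q.natDegree = n ∧ aeval a q = 0) :
    FiniteDimensional K⟮j⟯ F := by
  classical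
  by_contra hcon
  have hrank : ((n + 1 : ℕ) : Cardinal) ≤ Module.rank K⟮j⟯ F := by
    have : Cardinal.aleph0 ≤ Module.rank K⟮j⟯ F := by
      by_contra h
      exact hcon (Module.rank_lt_aleph0_iff.mp (not_le.mp h))
    exact (Cardinal.natCast_lt_aleph0.le).trans this
  obtain ⟨s, hs, hli⟩ := exists_finset_linearIndependent_of_le_rank hrank
  choose num hnum den hden heq using hA
  -- common denominator
  let b : F := ∏ x ∈ s, if den x = 0 then 1 else den x
  have hb : b ∈ A := A.prod_mem fun x _ => by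
    split_ifs
    · exact one_mem A
    · exact hden x
  have hb0 : b ≠ 0 := Finset.prod_ne_zero_iff.mpr fun x _ => by split_ifs with h <;> simp [h]
  have hbx : ∀ x ∈ s, b * x ∈ A := by
    intro x hx
    by_cases h : den x = 0
    · have : x = 0 := by rw [heq x, h, div_zero]
      rw [this, mul_zero]; exact zero_mem A
    · have hsplit : b = den x * ∏ y ∈ s.erase x, (if den y = 0 then 1 else den y) := by
        show (∏ x ∈ s, if den x = 0 then 1 else den x) = _
        rw [← Finset.mul_prod_erase s _ hx, if_neg h]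
      have : b * x = (∏ y ∈ s.erase x, (if den y = 0 then 1 else den y)) * num x := by
        have h3 : den x * x = num x := by
          have h4 := heq x
          rw [eq_div_iff h] at h4
          rw [mul_comm]; exact h4
        rw [hsplit, ← h3]; ring
      rw [this]
      refine A.mul_mem (A.prod_mem fun y _ => ?_) (hnum x)
      split_ifs
      · exact one_mem A
      · exact hden y
  let S : Set F := (fun x => b * x) '' (s : Set F)
  have hSA : S ⊆ A := by
    rintro _ ⟨x, hx, rfl⟩
    exact hbx x hx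
  have hSfin : S.Finite := (s.finite_toSet).image _
  let L := adjoin K⟮j⟯ S
  have hLfin : FiniteDimensional K⟮j⟯ L := by
    have : Finite S := hSfin.to_subtype
    exact finiteDimensional_adjoin fun x _ =>
      (Algebra.IsAlgebraic.isAlgebraic x).isIntegral
  have hLsep : Algebra.IsSeparable K⟮j⟯ L := inferInstance
  have hle : Module.finrank K⟮j⟯ L ≤ n := by
    let f : L →ₐ[K] F := L.val.restrictScalars K
    have hfval : ∀ z : L, f z = (z : F) := fun _ => rfl
    refine finrank_le_of_degree_bound' (K := K) (A.comap f) ?_ n ?_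
    · intro z
      have hz : (z : F) ∈ adjoin K ({j} ∪ S) := by
        rw [← adjoin_adjoin_left]
        exact z.2
      obtain ⟨r, hr, t, ht, hrt⟩ := mem_adjoin_iff_div.mp hz
      have hsub : Algebra.adjoin K ({j} ∪ S) ≤ A := Algebra.adjoin_le (by
        rintro x (rfl | hx)
        · exact hj
        · exact hSA hx)
      have hsub2 : (Algebra.adjoin K ({j} ∪ S) : Set F) ⊆ L := by
        intro x hx
        have : x ∈ adjoin K ({j} ∪ S) := algebra_adjoin_le_adjoin K _ hx
        rw [← adjoin_adjoin_left] at this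
        exact this
      refine ⟨⟨r, hsub2 hr⟩, hsub hr, ⟨t, hsub2 ht⟩, hsub ht, ?_⟩
      apply Subtype.ext
      exact hrt
    · intro a ha
      obtain ⟨q, hq, hqn, hqa⟩ := hdeg (a : F) ha
      refine ⟨q, hq, hqn, ?_⟩
      have : (L.val) (aeval a q) = 0 := by
        rw [← aeval_algHom_apply]; exact hqa
      exact (map_eq_zero L.val).mp this
  have hli' : LinearIndependent K⟮j⟯ (fun x : s => (⟨b * x, subset_adjoin _ _ ⟨x, x.2, rfl⟩⟩ : L)) := by
    have h1 : LinearIndependent K⟮j⟯ (fun x : s => b * (x : F)) := by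
      have h2 : LinearIndependent K⟮j⟯ (fun x : s => (x : F)) := hli
      have h3 := h2.map' (LinearMap.mulLeft K⟮j⟯ b) (by
        rw [LinearMap.ker_eq_bot]
        exact mul_right_injective₀ hb0)
      exact h3
    exact LinearIndependent.of_comp L.val.toLinearMap h1
  have := hli'.fintype_card_le_finrank
  rw [Fintype.card_coe, hs] at this
  omega


/-- From relations over `K[j]` of bounded degree for the elements of `A`. -/
theorem finiteDimensional_and_finrank_le {K F : Type*} [Field K] [CharZero K] [Field F]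
    [Algebra K F] (j : F) (A : Subalgebra K F) (hj : j ∈ A)
    (hA : ∀ z : F, ∃ a ∈ A, ∃ b ∈ A, z = a / b) (n : ℕ)
    (hdeg : ∀ a ∈ A, ∃ p : ℕ → Polynomial K,
      a ^ n + ∑ i ∈ Finset.range n, aeval j (p i) * a ^ i = 0) :
    FiniteDimensional K⟮j⟯ F ∧ Module.finrank K⟮j⟯ F ≤ n := by
  have hmonic : ∀ a ∈ A, ∃ q : Polynomial K⟮j⟯, q.Monic ∧ q.natDegree = n ∧ aeval a q = 0 := by
    intro a ha
    obtain ⟨p, hp⟩ := hdeg a ha
    let j' : K⟮j⟯ := AdjoinSimple.gen K j
    have hd : (∑ i ∈ Finset.range n, C (aeval j' (p i)) * X ^ i : Polynomial K⟮j⟯).degree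
        < n := by
      refine (degree_sum_le _ _).trans_lt ?_
      rw [Finset.sup_lt_iff (by exact_mod_cast WithBot.bot_lt_coe n)]
      intro i hi
      refine (degree_C_mul_X_pow_le _ _).trans_lt ?_
      exact_mod_cast Finset.mem_range.mp hi
    refine ⟨X ^ n + ∑ i ∈ Finset.range n, C (aeval j' (p i)) * X ^ i, monic_X_pow_add hd, ?_, ?_⟩
    · rw [natDegree_eq_of_degree_eq_some]
      rw [degree_add_eq_left_of_degree_lt, degree_X_pow]
      rwa [degree_X_pow]
    · have h1 : ∀ i, algebraMap K⟮j⟯ F (aeval j' (p i)) = aeval j (p i) := fun i => by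
        rw [← Polynomial.aeval_algebraMap_apply]; rfl
      simp only [map_add, map_sum, map_mul, map_pow, aeval_X, aeval_C, h1]
      exact hp
  have halgA : ∀ a ∈ A, IsIntegral K⟮j⟯ a := by
    intro a ha
    obtain ⟨q, hq, -, hqx⟩ := hmonic a ha
    exact ⟨q, hq, hqx⟩
  have h1 : Algebra.IsAlgebraic K⟮j⟯ F := ⟨fun z => by
    obtain ⟨a, ha, b, hb, rfl⟩ := hA z
    rw [div_eq_mul_inv]
    exact IsAlgebraic.mul (halgA a ha).isAlgebraic (halgA b hb).isAlgebraic.inv⟩
  have h2 : FiniteDimensional K⟮j⟯ F := finiteDimensional_of_degree_bound j A hj hA n hmonic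
  exact ⟨h2, finrank_le_of_degree_bound' A hA n hmonic⟩

theorem relation_of_map {K F L : Type*} [Field K] [Field F] [Field L] [Algebra K F] [Algebra K L]
    (v : F →ₐ[K] L) (j a : F) (p : ℕ → Polynomial K) (n : ℕ)
    (h : (v a) ^ n + ∑ i ∈ Finset.range n, aeval (v j) (p i) * (v a) ^ i = 0) :
    a ^ n + ∑ i ∈ Finset.range n, aeval j (p i) * a ^ i = 0 := by
  apply (map_eq_zero v).mp
  rw [map_add, map_sum, map_pow]
  simp only [map_mul, map_pow, ← Polynomial.aeval_algHom_apply]
  exact h

/-- Distinct embeddings agreeing on `j` bound the degree from below. -/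
theorem card_le_finrank_of_embeddings {K F C : Type*} [Field K] [Field F] [Field C]
    [Algebra K F] [Algebra K C] (j : F) [FiniteDimensional K⟮j⟯ F] {ι : Type*} [Finite ι]
    [Nonempty ι] (s : ι → (F →ₐ[K] C)) (hs : Function.Injective s) {y : C} (hy : ∀ i, s i j = y) :
    Nat.card ι ≤ Module.finrank K⟮j⟯ F := by
  obtain ⟨i₀⟩ := ‹Nonempty ι›
  let : Algebra K⟮j⟯ C := ((s i₀).comp K⟮j⟯.val).toRingHom.toAlgebra
  have hres : ∀ g, (s g).comp K⟮j⟯.val = (s i₀).comp K⟮j⟯.val := by
    intro g
    apply adjoin_algHom_ext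
    intro x hx
    obtain rfl : x = j := hx
    show s g x = s i₀ x
    rw [hy, hy]
  let t : ι → (F →ₐ[K⟮j⟯] C) := fun g =>
    { (s g : F →+* C) with
      commutes' := fun c => AlgHom.congr_fun (hres g) c }
  have ht : Function.Injective t := fun g g' h => by
    apply hs
    ext1 x
    exact congrArg (fun f => f x) h
  have h1 := card_algHom_le_finrank K⟮j⟯ F C
  refine le_trans ?_ h1
  exact Nat.card_le_card_of_injective t ht

end Fermat.Agent.H78.FF
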