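import Mathlib
import Fermat.Agent.H24Rel
import Fermat.Agent.H24Degree

/-! # The ring of modular functions for an arbitrary subgroup `Γ ≤ SL₂(ℤ)` (helper78)

Generalises `H24Ring`/`H24Rel` (helper24) from `Γ₀(N)` to any `Γ` containing `T` and all conjugates
of `T ^ M`. -/

set_option autoImplicit false

namespace Fermat.Agent.H78.FF

open UpperHalfPlane hiding I
open Complex MatrixGroups ModularGroup Fermat.Agent.H61 ModularCurve Fermat.Agent.H24 Polynomial
open scoped Manifold Real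

noncomputable section

local notation "𝕢" => Function.Periodic.qParam

section K

variable (K : Type*) [Field K] [Algebra K ℂ] (Γ : Subgroup SL(2, ℤ)) (M : ℕ) [NeZero M]

/-- the good elements: expansions of `Γ`-invariant functions, holomorphic on `ℍ` and meromorphic
at the cusps -/
structure Good (x : LaurentSeries K) : Prop where
  conv : IsConv (incl K x)
  hol : ev K x ∈ Hol
  exp : ∀ γ : SL(2, ℤ), compHom γ (ev K x) ∈ ExpAlg (chart_qParam M)
  inv : ∀ γ ∈ Γ, compHom γ (ev K x) = ev K x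

/-- the subalgebra of good series -/
def GoodAlg : Subalgebra K (LaurentSeries K) where
  carrier := {x | Good K Γ M x}
  mul_mem' {x y} hx hy := by
    refine ⟨by rw [map_mul]; exact hx.conv.mul hy.conv, ?_, fun γ => ?_, fun γ hγ => ?_⟩
    · rw [ev_mul K hx.conv hy.conv]; exact Hol.mul_mem hx.hol hy.hol
    · rw [ev_mul K hx.conv hy.conv, map_mul]; exact Subalgebra.mul_mem _ (hx.exp γ) (hy.exp γ)
    · rw [ev_mul K hx.conv hy.conv, map_mul, hx.inv γ hγ, hy.inv γ hγ]
  add_mem' {x y} hx hy := by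
    refine ⟨by rw [map_add]; exact hx.conv.add hy.conv, ?_, fun γ => ?_, fun γ hγ => ?_⟩
    · rw [ev_add K hx.conv hy.conv]; exact Hol.add_mem hx.hol hy.hol
    · rw [ev_add K hx.conv hy.conv, map_add]; exact Subalgebra.add_mem _ (hx.exp γ) (hy.exp γ)
    · rw [ev_add K hx.conv hy.conv, map_add, hx.inv γ hγ, hy.inv γ hγ]
  algebraMap_mem' c := by
    refine ⟨?_, ?_, fun γ => ?_, fun γ hγ => ?_⟩
    · rw [incl_algebraMap, algebraMap_eq_single]; exact isConv_single _ _
    · rw [ev_algebraMap]; exact Subalgebra.algebraMap_mem _ _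
    · rw [ev_algebraMap, AlgHom.commutes]; exact Subalgebra.algebraMap_mem _ _
    · rw [ev_algebraMap, AlgHom.commutes]

variable {K Γ M}

theorem mem_GoodAlg {x : LaurentSeries K} : x ∈ GoodAlg K Γ M ↔ Good K Γ M x := Iff.rfl

theorem good_of_mem {x : LaurentSeries K} (hx : x ∈ GoodAlg K Γ M) : Good K Γ M x := hx

theorem good_mono {Γ' : Subgroup SL(2, ℤ)} (h : Γ ≤ Γ') {x : LaurentSeries K}
    (hx : Good K Γ' M x) : Good K Γ M x :=
  ⟨hx.conv, hx.hol, hx.exp, fun γ hγ => hx.inv γ (h hγ)⟩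

variable (K Γ M)

theorem good_jqModC : Good K Γ M (jqModC K) := by
  have hev : ev K (jqModC K) = jInv := funext fun τ => ev_jqModC K τ
  have hcomp : ∀ γ : SL(2, ℤ), compHom γ jInv = jInv := fun γ =>
    funext fun τ => jInv_smul γ τ
  have hincl : incl K (jqModC K) = jqModC ℂ := by rw [incl, coeffMap_jqModC]
  refine ⟨by rw [hincl]; exact isConv_jqModC, ?_, fun γ => ?_, fun γ _ => ?_⟩
  · rw [hev]; exact jInv_mdiff
  · rw [hev, hcomp]
    exact ⟨qExpand ℂ M (jqModC ℂ), isConv_qExpand M isConv_jqModC,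
      fun τ _ => evalAt_qExpand_J isConv_jqModC evalAt_jqModC M τ⟩
  · rw [hev, hcomp]

theorem jqModC_mem : jqModC K ∈ GoodAlg K Γ M := good_jqModC K Γ M

/-- a chart in which all conjugates of the elements of `GoodAlg K Γ M` have expansions -/
structure GoodChart (z : ℍ → ℂ) : Prop where
  chart : Chart z
  exp : ∀ x ∈ GoodAlg K Γ M, ∀ γ : SL(2, ℤ), compHom γ (ev K x) ∈ ExpAlg chart

theorem goodChart_qParam : GoodChart K Γ M (fun τ : ℍ => 𝕢 (M : ℝ) τ) where
  chart := chart_qParam M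
  exp _ hx γ := (good_of_mem hx).exp γ

theorem goodChart_cayley (τ₀ : ℍ) : GoodChart K Γ M (cayley τ₀) where
  chart := chart_cayley τ₀
  exp _ hx γ := Hol_le_ExpAlg_cayley τ₀ (compHom_mem_Hol γ (good_of_mem hx).hol)

variable {K Γ M} {z : ℍ → ℂ} (hz : GoodChart K Γ M z)

/-- the embedding `x ↦ expansion of x ∘ γ` -/
def phi (γ : SL(2, ℤ)) : GoodAlg K Γ M →ₐ[K] LaurentSeries ℂ where
  toFun x := expHom hz.chart ⟨compHom γ (ev K x), hz.exp x x.2 γ⟩
  map_one' := by
    apply expHom_eq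
    refine ⟨isConv_one, fun τ _ => ?_⟩
    have := congrFun (ev_algebraMap K 1) (γ • τ)
    simp only [map_one] at this
    show evalAt (z τ) 1 = ev K ((1 : GoodAlg K Γ M) : LaurentSeries K) (γ • τ)
    rw [OneMemClass.coe_one, this, evalAt_one]; rfl
  map_mul' x y := by
    rw [← map_mul]
    congr 1
    apply Subtype.ext
    show compHom γ (ev K ((x : LaurentSeries K) * y)) = compHom γ (ev K x) * compHom γ (ev K y)
    rw [ev_mul K (good_of_mem x.2).conv (good_of_mem y.2).conv, map_mul]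
  map_zero' := by
    apply expHom_eq
    refine ⟨by simpa using isConv_single 0 0, fun τ _ => ?_⟩
    have := congrFun (ev_algebraMap K 0) (γ • τ)
    simp only [map_zero] at this
    show evalAt (z τ) 0 = ev K ((0 : GoodAlg K Γ M) : LaurentSeries K) (γ • τ)
    rw [ZeroMemClass.coe_zero, this]; simp [evalAt]
  map_add' x y := by
    rw [← map_add]
    congr 1
    apply Subtype.ext
    show compHom γ (ev K ((x : LaurentSeries K) + y)) = compHom γ (ev K x) + compHom γ (ev K y)
    rw [ev_add K (good_of_mem x.2).conv (good_of_mem y.2).conv, map_add]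
  commutes' c := by
    apply expHom_eq
    have h1 : algebraMap K (LaurentSeries ℂ) c = HahnSeries.single 0 (algebraMap K ℂ c) := by
      rw [HahnSeries.algebraMap_apply', PowerSeries.algebraMap_apply]
      simp
    rw [h1]
    refine ⟨isConv_single _ _, fun τ _ => ?_⟩
    have := congrFun (ev_algebraMap K c) (γ • τ)
    show evalAt (z τ) _ = ev K (algebraMap K (LaurentSeries K) c) (γ • τ)
    rw [this, evalAt_single]; simp

theorem phi_spec (γ : SL(2, ℤ)) (x : GoodAlg K Γ M) :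
    HasExpC z (fun τ => ev K x (γ • τ)) (phi hz γ x) :=
  expHom_spec hz.chart ⟨compHom γ (ev K x), hz.exp x x.2 γ⟩

theorem phi_eq {γ : SL(2, ℤ)} {x : GoodAlg K Γ M} {F : LaurentSeries ℂ}
    (h : HasExpC z (fun τ => ev K x (γ • τ)) F) : phi hz γ x = F :=
  (phi_spec hz γ x).unique hz.chart h

theorem phi_eq_phi_iff (γ γ' : SL(2, ℤ)) (x y : GoodAlg K Γ M) :
    phi hz γ x = phi hz γ' y ↔ ∀ τ, ev K x (γ • τ) = ev K y (γ' • τ) := by
  constructor
  · intro h τ
    have := expHom_injOn (f := ⟨compHom γ (ev K x), hz.exp x x.2 γ⟩)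
      (g := ⟨compHom γ' (ev K y), hz.exp y y.2 γ'⟩) hz.chart
      (compHom_mem_Hol γ (good_of_mem x.2).hol) (compHom_mem_Hol γ' (good_of_mem y.2).hol) h
    exact congrFun this τ
  · intro h
    apply phi_eq
    have := phi_spec hz γ' y
    convert! this using 1
    exact funext h

theorem phi_injective (γ : SL(2, ℤ)) : Function.Injective (phi hz γ) := by
  intro x y h
  rw [phi_eq_phi_iff] at h
  apply Subtype.ext
  refine ev_injective_of_conv K (good_of_mem x.2).conv (good_of_mem y.2).conv ?_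
  ext τ
  have := h (γ⁻¹ • τ)
  rwa [smul_inv_smul] at this

theorem phi_eq_of_mem {γ γ' : SL(2, ℤ)} (h : γ' * γ⁻¹ ∈ Γ) :
    phi hz γ = phi hz γ' := by
  ext1 x
  rw [phi_eq_phi_iff]
  intro τ
  have := congrFun ((good_of_mem x.2).inv _ h) (γ • τ)
  simp only [compHom_apply] at this
  rw [← this, ← mul_smul, inv_mul_cancel_right]

variable (K Γ M) in
/-- the elements of `GoodAlg K Γ M` separate the cosets of `Γ` -/
def Sep : Prop := ∀ γ : SL(2, ℤ), (∀ x ∈ GoodAlg K Γ M, compHom γ (ev K x) = ev K x) → γ ∈ Γ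

theorem mem_of_phi_eq (hsep : Sep K Γ M) {γ γ' : SL(2, ℤ)} (h : phi hz γ = phi hz γ') :
    γ' * γ⁻¹ ∈ Γ := by
  apply hsep
  intro x hx
  have h1 := congrArg (fun f => f ⟨x, hx⟩) h
  simp only [phi_eq_phi_iff] at h1
  ext τ
  have h2 := h1 (γ⁻¹ • τ)
  rw [smul_inv_smul] at h2
  rw [compHom_apply, mul_smul, h2]

/-- the embedding attached to a coset -/
def sA (g : SL(2, ℤ) ⧸ Γ) : GoodAlg K Γ M →ₐ[K] LaurentSeries ℂ :=
  phi hz (Quotient.out g)⁻¹

theorem sA_mk (γ : SL(2, ℤ)) : sA hz (QuotientGroup.mk γ) = phi hz γ⁻¹ := by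
  apply phi_eq_of_mem
  rw [inv_inv]
  have : (QuotientGroup.mk (Quotient.out (QuotientGroup.mk γ : SL(2, ℤ) ⧸ Γ)) : SL(2, ℤ) ⧸ Γ) =
    QuotientGroup.mk γ := Quotient.out_eq _
  exact (QuotientGroup.eq.mp this.symm)

theorem sA_injective (hsep : Sep K Γ M) : Function.Injective (sA hz) := by
  intro g g' h
  induction g using QuotientGroup.induction_on with
  | H γ =>
    induction g' using QuotientGroup.induction_on with
    | H γ' =>
      rw [sA_mk, sA_mk] at h
      have := mem_of_phi_eq hz hsep h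
      rw [inv_inv] at this
      exact (QuotientGroup.eq.mpr this).symm

/-! ### conjugates and the characteristic polynomial -/

/-- conjugate of the function attached to `x` by a coset -/
def conj (x : GoodAlg K Γ M) (g : SL(2, ℤ) ⧸ Γ) : ℍ → ℂ :=
  compHom (Quotient.out g)⁻¹ (ev K x)

theorem compHom_eq_of_mem (x : GoodAlg K Γ M) {γ γ' : SL(2, ℤ)} (h : γ' * γ⁻¹ ∈ Γ) :
    compHom γ (ev K x) = compHom γ' (ev K x) := by
  ext τ
  have := congrFun ((good_of_mem x.2).inv _ h) (γ • τ)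
  simp only [compHom_apply] at this ⊢
  rw [← this, ← mul_smul, inv_mul_cancel_right]

theorem conj_mk (x : GoodAlg K Γ M) (γ : SL(2, ℤ)) :
    conj x (QuotientGroup.mk γ) = compHom γ⁻¹ (ev K x) := by
  apply compHom_eq_of_mem
  rw [inv_inv]
  have : (QuotientGroup.mk (Quotient.out (QuotientGroup.mk γ : SL(2, ℤ) ⧸ Γ)) :
    SL(2, ℤ) ⧸ Γ) = QuotientGroup.mk γ := Quotient.out_eq _
  exact QuotientGroup.eq.mp this.symm

theorem compHom_conj (x : GoodAlg K Γ M) (γ : SL(2, ℤ)) (g : SL(2, ℤ) ⧸ Γ) :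
    compHom γ (conj x g) = conj x (γ⁻¹ • g) := by
  induction g using QuotientGroup.induction_on with
  | H γ' =>
    rw [conj_mk, compHom_mul]
    have : γ⁻¹ • (QuotientGroup.mk γ' : SL(2, ℤ) ⧸ Γ) =
      QuotientGroup.mk (γ⁻¹ * γ') := rfl
    rw [this, conj_mk, mul_inv_rev, inv_inv]

variable [Fintype (SL(2, ℤ) ⧸ Γ)]

/-- the characteristic polynomial -/
def charP (x : GoodAlg K Γ M) : Polynomial (ℍ → ℂ) := ∏ g, (X - C (conj x g))

theorem charP_monic (x : GoodAlg K Γ M) : (charP x).Monic :=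
  monic_prod_of_monic _ _ fun _ _ => monic_X_sub_C _

theorem charP_natDegree (x : GoodAlg K Γ M) :
    (charP x).natDegree = Fintype.card (SL(2, ℤ) ⧸ Γ) := by
  rw [charP, natDegree_prod_of_monic _ _ fun _ _ => monic_X_sub_C _]
  simp

theorem charP_eval (x : GoodAlg K Γ M) : (charP x).eval (ev K x) = 0 := by
  rw [charP, eval_prod]
  refine Finset.prod_eq_zero (Finset.mem_univ (QuotientGroup.mk 1)) ?_
  rw [conj_mk, inv_one]
  simp only [eval_sub, eval_X, eval_C]
  ext τ
  simp

theorem charP_map (x : GoodAlg K Γ M) (γ : SL(2, ℤ)) :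
    (charP x).map (compHom γ : (ℍ → ℂ) →+* (ℍ → ℂ)) = charP x := by
  rw [charP, Polynomial.map_prod]
  refine Fintype.prod_equiv (MulAction.toPerm γ⁻¹) _ _ fun g => ?_
  rw [Polynomial.map_sub, Polynomial.map_X, Polynomial.map_C]
  congr 2
  exact compHom_conj x γ g

theorem charP_coeff_inv (x : GoodAlg K Γ M) (n : ℕ) (γ : SL(2, ℤ)) (τ : ℍ) :
    (charP x).coeff n (γ • τ) = (charP x).coeff n τ := by
  have := congrArg (fun p => p.coeff n) (charP_map x γ)
  simp only [coeff_map] at this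
  exact congrFun this τ

theorem charP_coeff_mem (x : GoodAlg K Γ M) (n : ℕ) :
    (charP x).coeff n ∈ Hol ⊓ ExpAlg (chart_qParam M) := by
  refine coeff_prod_mem _ _ _ (fun g _ => ?_) n
  exact ⟨compHom_mem_Hol _ (good_of_mem x.2).hol, (good_of_mem x.2).exp _⟩

theorem charP_coeff_eq (x : GoodAlg K Γ M) (n : ℕ) :
    ∃ p : Polynomial ℂ, ∀ τ, (charP x).coeff n τ = p.eval (jInv τ) := by
  obtain ⟨h1, F, hF⟩ := charP_coeff_mem x n
  exact exists_poly_of_invariant isConv_jqModC order_jqModC evalAt_jqModC M h1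
    (charP_coeff_inv x n) hF.1 fun τ => hF.2 τ (Function.Periodic.qParam_ne_zero _)

/-- relation over `ℂ[j]` -/
theorem exists_relation_complex (x : GoodAlg K Γ M) :
    ∃ p : ℕ → Polynomial ℂ,
      (incl K x) ^ (Fintype.card (SL(2, ℤ) ⧸ Γ)) +
        ∑ i ∈ Finset.range (Fintype.card (SL(2, ℤ) ⧸ Γ)),
          aeval (jqModC ℂ) (p i) * (incl K x) ^ i = 0 := by
  choose p hp using charP_coeff_eq x
  refine ⟨p, ?_⟩
  set n := Fintype.card (SL(2, ℤ) ⧸ Γ) with hn
  have hx := (good_of_mem x.2).conv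
  have hconvP : ∀ q : Polynomial ℂ, IsConv (aeval (jqModC ℂ) q) := fun q => by
    have : aeval (jqModC ℂ) q ∈ Algebra.adjoin ℂ {jqModC ℂ} := aeval_mem_adjoin_singleton ℂ _
    have h2 : Algebra.adjoin ℂ {jqModC ℂ} ≤ Conv := Algebra.adjoin_le (by
      rintro _ rfl; exact isConv_jqModC)
    exact h2 this
  have hevalP : ∀ (q : Polynomial ℂ) (τ : ℍ), evalAt (𝕢 (1 : ℝ) τ) (aeval (jqModC ℂ) q) =
      q.eval (jInv τ) := fun q τ => by
    have h := Polynomial.aeval_algHom_apply
      (evalHom (𝕢 (1 : ℝ) τ) (Function.Periodic.qParam_ne_zero _) (norm_qParam_one τ))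
      ⟨jqModC ℂ, isConv_jqModC⟩ q
    rw [evalHom_apply, evalAt_jqModC] at h
    rw [← Polynomial.coe_aeval_eq_eval, h, evalHom_apply]
    congr 1
    have h3 := Polynomial.aeval_algHom_apply Conv.val ⟨jqModC ℂ, isConv_jqModC⟩ q
    exact h3
  have hsum : ∀ m : ℕ, IsConv (∑ i ∈ Finset.range m, aeval (jqModC ℂ) (p i) * (incl K x) ^ i) ∧
      ∀ τ : ℍ, evalAt (𝕢 (1 : ℝ) τ)
        (∑ i ∈ Finset.range m, aeval (jqModC ℂ) (p i) * (incl K x) ^ i) =
        ∑ i ∈ Finset.range m, (p i).eval (jInv τ) * (ev K x τ) ^ i := by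
    intro m
    induction m with
    | zero =>
      refine ⟨by simpa using isConv_single 0 0, fun τ => by simp [evalAt]⟩
    | succ m ih =>
      have hterm : IsConv (aeval (jqModC ℂ) (p m) * (incl K x) ^ m) :=
        (hconvP _).mul (isConv_pow hx m)
      refine ⟨?_, fun τ => ?_⟩
      · rw [Finset.sum_range_succ]
        exact ih.1.add hterm
      · rw [Finset.sum_range_succ, Finset.sum_range_succ,
          evalAt_add ih.1 hterm (Function.Periodic.qParam_ne_zero _) (norm_qParam_one τ), ih.2,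
          evalAt_mul (hconvP _) (isConv_pow hx m) (Function.Periodic.qParam_ne_zero _)
            (norm_qParam_one τ), hevalP,
          evalAt_pow hx m (Function.Periodic.qParam_ne_zero _) (norm_qParam_one τ)]
        rfl
  have hzero : IsConv (0 : LaurentSeries ℂ) := by simpa using isConv_single 0 0
  refine eq_of_evalAt_qParam_eq 1 ((isConv_pow hx n).add (hsum n).1) hzero fun τ => ?_
  rw [Nat.cast_one, evalAt_add (isConv_pow hx n) (hsum n).1 (Function.Periodic.qParam_ne_zero _)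
    (norm_qParam_one τ), (hsum n).2,
    evalAt_pow hx n (Function.Periodic.qParam_ne_zero _) (norm_qParam_one τ)]
  have h0 := charP_eval x
  rw [(charP_monic x).as_sum, charP_natDegree, ← hn] at h0
  have h1 := congrFun h0 τ
  simp only [eval_add, eval_pow, eval_X, eval_C, eval_finsetSum, eval_mul, Pi.add_apply,
    Pi.pow_apply, Finset.sum_apply, Pi.mul_apply, Pi.zero_apply, hp] at h1
  simp only [evalAt, HahnSeries.coeff_zero, zero_mul, tsum_zero]
  exact h1

/-- relation over `K[j]` -/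
theorem exists_relation (x : GoodAlg K Γ M) :
    ∃ p : ℕ → Polynomial K,
      (x : LaurentSeries K) ^ (Fintype.card (SL(2, ℤ) ⧸ Γ)) +
        ∑ i ∈ Finset.range (Fintype.card (SL(2, ℤ) ⧸ Γ)),
          aeval (jqModC K) (p i) * (x : LaurentSeries K) ^ i = 0 := by
  obtain ⟨ρ, hρ⟩ := LinearMap.exists_leftInverse_of_injective (Algebra.linearMap K ℂ)
    (LinearMap.ker_eq_bot.mpr (algebraMap K ℂ).injective)
  have hρ1 : ∀ a : K, ρ (algebraMap K ℂ a) = a := fun a => LinearMap.congr_fun hρ a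
  have hρ2 : ∀ (c : ℂ) (a : K), ρ (c * algebraMap K ℂ a) = ρ c * a := fun c a => by
    rw [mul_comm c, ← Algebra.smul_def, map_smul, smul_eq_mul, mul_comm]
  obtain ⟨p, hp⟩ := exists_relation_complex x
  set n := Fintype.card (SL(2, ℤ) ⧸ Γ) with hn
  refine ⟨fun i => ∑ m ∈ Finset.range ((p i).natDegree + 1), C (ρ ((p i).coeff m)) * X ^ m, ?_⟩
  have hJ : incl K (jqModC K) = jqModC ℂ := by
    rw [incl, coeffMap_jqModC]
  have hterm : ∀ i, aeval (jqModC ℂ) (p i) * (incl K x) ^ i =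
      ∑ m ∈ Finset.range ((p i).natDegree + 1),
        algebraMap ℂ (LaurentSeries ℂ) ((p i).coeff m) *
          incl K (jqModC K ^ m * (x : LaurentSeries K) ^ i) := fun i => by
    rw [aeval_eq_sum_range, Finset.sum_mul]
    refine Finset.sum_congr rfl fun m _ => ?_
    rw [map_mul, map_pow, map_pow, hJ, Algebra.smul_def, mul_assoc]
  have hterm2 : ∀ i, aeval (jqModC K)
      (∑ m ∈ Finset.range ((p i).natDegree + 1), C (ρ ((p i).coeff m)) * X ^ m) *
        (x : LaurentSeries K) ^ i =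
      ∑ m ∈ Finset.range ((p i).natDegree + 1),
        algebraMap K (LaurentSeries K) (ρ ((p i).coeff m)) *
          (jqModC K ^ m * (x : LaurentSeries K) ^ i) := fun i => by
    rw [map_sum, Finset.sum_mul]
    refine Finset.sum_congr rfl fun m _ => ?_
    rw [map_mul, aeval_C, map_pow, aeval_X, mul_assoc]
  have hp' : incl K ((x : LaurentSeries K) ^ n) + ∑ i ∈ Finset.range n,
      ∑ m ∈ Finset.range ((p i).natDegree + 1),
        algebraMap ℂ (LaurentSeries ℂ) ((p i).coeff m) *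
          incl K (jqModC K ^ m * (x : LaurentSeries K) ^ i) = 0 := by
    rw [← hp, map_pow]
    congr 1
    exact Finset.sum_congr rfl fun i _ => (hterm i).symm
  ext ℓ
  have h := congrArg (fun F : LaurentSeries ℂ => ρ (F.coeff ℓ)) hp'
  simp only [hterm2]
  simp only [HahnSeries.coeff_add, HahnSeries.coeff_sum, coeff_algebraMap_mul, incl_coeff, map_add,
    map_sum, hρ1, hρ2, HahnSeries.coeff_zero, map_zero] at h ⊢
  exact h

end K

end

end Fermat.Agent.H78.FF
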