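import Mathlib
import Fermat.Agent.H78FFRing
import Fermat.Agent.H78FFDeg
import Fermat.Agent.H24Field
import Fermat.Agent.H94Genus

/-! # The function field of an arbitrary `Γ`, its embeddings and its degree over `K(j)` (helper78)

Generalises helper24's `H24Field`. -/

set_option autoImplicit false

namespace Fermat.Agent.H78.FF

open UpperHalfPlane hiding I
open Complex MatrixGroups ModularGroup Fermat.Agent.H61 ModularCurve Fermat.Agent.H24 Polynomial
open scoped Manifold Real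

noncomputable section

local notation "𝕢" => Function.Periodic.qParam

section

variable (K : Type*) [Field K] [Algebra K ℂ] (Γ : Subgroup SL(2, ℤ)) (M : ℕ) [NeZero M]

/-- The field of (q-expansions of) modular functions for `Γ` with coefficients in `K`. -/
def FF : IntermediateField K (LaurentSeries K) :=
  IntermediateField.adjoin K (GoodAlg K Γ M : Set (LaurentSeries K))

instance (priority := 10000) towerKKL : IsScalarTower K K (LaurentSeries K) :=
  IsScalarTower.left K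

set_option synthInstance.maxHeartbeats 400000 in
instance (priority := 10000) instAlgFF : Algebra K (FF K Γ M) := inferInstance

instance (priority := 10000) towerKKF : IsScalarTower K K (FF K Γ M) := IsScalarTower.left K

section
variable {K Γ M}

set_option synthInstance.maxHeartbeats 400000 in
instance (priority := 10000) instAlgIF (E : IntermediateField K (FF K Γ M)) : Algebra K E :=
  inferInstance

set_option synthInstance.maxHeartbeats 400000 in
instance (priority := 10000) instAlgEF (E : IntermediateField K (FF K Γ M)) :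
    Algebra E (FF K Γ M) := inferInstance

set_option synthInstance.maxHeartbeats 400000 in
instance (priority := 10000) instModEF (E : IntermediateField K (FF K Γ M)) :
    Module E (FF K Γ M) := inferInstance

set_option synthInstance.maxHeartbeats 400000 in
instance (priority := 10000) instTowerEF (E : IntermediateField K (FF K Γ M)) :
    IsScalarTower K E (FF K Γ M) := inferInstance

end

theorem goodAlg_le_FF : GoodAlg K Γ M ≤ (FF K Γ M).toSubalgebra := fun _ hx =>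
  IntermediateField.subset_adjoin K _ hx

/-- The algebra structure of the function field over `GoodAlg K Γ M`. -/
instance algGF : Algebra (GoodAlg K Γ M) (FF K Γ M) :=
  (Subalgebra.inclusion (goodAlg_le_FF K Γ M)).toAlgebra

theorem coe_algGF (x : GoodAlg K Γ M) :
    ((algebraMap (GoodAlg K Γ M) (FF K Γ M) x : FF K Γ M) : LaurentSeries K) = x := rfl

instance towerGF : IsScalarTower K (GoodAlg K Γ M) (FF K Γ M) :=
  IsScalarTower.of_algebraMap_eq fun _ => rfl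

theorem mem_FF_iff {x : LaurentSeries K} :
    x ∈ FF K Γ M ↔ ∃ a ∈ GoodAlg K Γ M, ∃ b ∈ GoodAlg K Γ M, x = a / b := by
  rw [FF, IntermediateField.mem_adjoin_iff_div, Algebra.adjoin_eq]

instance fracGF : IsFractionRing (GoodAlg K Γ M) (FF K Γ M) :=
  letI : FaithfulSMul (GoodAlg K Γ M) (FF K Γ M) :=
    (faithfulSMul_iff_algebraMap_injective _ _).mpr fun x y h => by
      apply Subtype.ext
      exact congrArg (fun f : FF K Γ M => (f : LaurentSeries K)) h
  .of_field _ _ fun ⟨_, h⟩ ↦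
    have ⟨x, hx, y, hy, eq⟩ := (mem_FF_iff K Γ M).mp h
    ⟨⟨x, hx⟩, ⟨y, hy⟩, Subtype.ext eq⟩

/-- `j` as an element of the function field. -/
def jFF : FF K Γ M := ⟨jqModC K, goodAlg_le_FF K Γ M (jqModC_mem K Γ M)⟩

/-- `j` as an element of `GoodAlg K Γ M`. -/
def jG : GoodAlg K Γ M := ⟨jqModC K, jqModC_mem K Γ M⟩

theorem algebraMap_jG : algebraMap (GoodAlg K Γ M) (FF K Γ M) (jG K Γ M) = jFF K Γ M :=
  rfl

end

section

variable {K : Type*} [Field K] [Algebra K ℂ] {Γ : Subgroup SL(2, ℤ)} {M : ℕ} [NeZero M]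
  {z : ℍ → ℂ} (hz : GoodChart K Γ M z)

theorem sA_inj (g : SL(2, ℤ) ⧸ Γ) : Function.Injective (sA hz g) :=
  phi_injective hz _

/-- the embedding of the function field attached to a coset -/
def sFF (g : SL(2, ℤ) ⧸ Γ) : FF K Γ M →ₐ[K] LaurentSeries ℂ :=
  IsFractionRing.liftAlgHom (A := GoodAlg K Γ M) (g := sA hz g) (sA_inj hz g)

theorem sFF_algebraMap (g : SL(2, ℤ) ⧸ Γ) (x : GoodAlg K Γ M) :
    sFF hz g (algebraMap (GoodAlg K Γ M) _ x) = sA hz g x :=
  IsFractionRing.lift_algebraMap (g := (sA hz g : GoodAlg K Γ M →+* LaurentSeries ℂ))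
    (sA_inj hz g) x

theorem sFF_injective (hsep : Sep K Γ M) : Function.Injective (sFF hz) := by
  intro g g' h
  apply sA_injective hz hsep
  ext1 x
  rw [← sFF_algebraMap, ← sFF_algebraMap, h]

theorem sFF_jFF (g : SL(2, ℤ) ⧸ Γ) {y : LaurentSeries ℂ}
    (hy : HasExpC z jInv y) : sFF hz g (jFF K Γ M) = y := by
  rw [← algebraMap_jG, sFF_algebraMap]
  apply phi_eq
  refine ⟨hy.1, fun τ hτ => ?_⟩
  rw [hy.2 τ hτ]
  show jInv τ = ev K (jqModC K) _
  rw [ev_jqModC, jInv_smul]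

theorem phi_mul_twist {γ₀ : SL(2, ℤ)} {ζ : ℂˣ} (hζ : ‖(ζ : ℂ)‖ = 1)
    (hγ₀ : ∀ τ, z (γ₀ • τ) = ζ * z τ) (γ : SL(2, ℤ)) (x : GoodAlg K Γ M) :
    phi hz (γ * γ₀) x = twist ζ (phi hz γ x) := by
  apply phi_eq
  obtain ⟨h1, h2⟩ := phi_spec hz γ x
  refine ⟨isConv_twist hζ h1, fun τ hτ => ?_⟩
  have h3 : z (γ₀ • τ) ≠ 0 := by
    rw [hγ₀]; exact mul_ne_zero ζ.ne_zero hτ
  rw [evalAt_twist, ← hγ₀, h2 _ h3]
  simp only [mul_smul]

theorem sA_smul {γ₀ : SL(2, ℤ)} {ζ : ℂˣ} (hζ : ‖(ζ : ℂ)‖ = 1) (hγ₀ : ∀ τ, z (γ₀ • τ) = ζ * z τ)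
    (g : SL(2, ℤ) ⧸ Γ) (x : GoodAlg K Γ M) :
    sA hz (γ₀⁻¹ • g) x = twist ζ (sA hz g x) := by
  induction g using QuotientGroup.induction_on with
  | H γ =>
    have : γ₀⁻¹ • (QuotientGroup.mk γ : SL(2, ℤ) ⧸ Γ) =
      QuotientGroup.mk (γ₀⁻¹ * γ) := rfl
    rw [this, sA_mk, sA_mk, mul_inv_rev, inv_inv, phi_mul_twist hz hζ hγ₀]

/-- action of a stabiliser on the embeddings -/
theorem sFF_smul {γ₀ : SL(2, ℤ)} {ζ : ℂˣ} (hζ : ‖(ζ : ℂ)‖ = 1) (hγ₀ : ∀ τ, z (γ₀ • τ) = ζ * z τ)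
    (g : SL(2, ℤ) ⧸ Γ) (f : FF K Γ M) :
    sFF hz (γ₀⁻¹ • g) f = twist ζ (sFF hz g f) := by
  have : (sFF hz (γ₀⁻¹ • g) : FF K Γ M →+* LaurentSeries ℂ) =
      (twist ζ).comp (sFF hz g : FF K Γ M →+* LaurentSeries ℂ) := by
    apply IsFractionRing.ringHom_ext (A := GoodAlg K Γ M)
    intro x
    show sFF hz (γ₀⁻¹ • g) (algebraMap _ _ x) = twist ζ (sFF hz g (algebraMap _ _ x))
    rw [sFF_algebraMap, sFF_algebraMap, sA_smul hz hζ hγ₀]
  exact RingHom.congr_fun this f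

theorem sFF_smul_coeff {γ₀ : SL(2, ℤ)} {ζ : ℂˣ} (hζ : ‖(ζ : ℂ)‖ = 1)
    (hγ₀ : ∀ τ, z (γ₀ • τ) = ζ * z τ)
    (g : SL(2, ℤ) ⧸ Γ) (f : FF K Γ M) (n : ℤ) :
    (sFF hz (γ₀⁻¹ • g) f).coeff n = (ζ : ℂ) ^ n * (sFF hz g f).coeff n := by
  rw [sFF_smul hz hζ hγ₀, twist_coeff, Units.val_zpow_eq_zpow_val]

/-! ### the degree -/

variable (K Γ M) in
theorem transcendental_jFF : Transcendental K (jFF K Γ M) := by
  intro h
  exact transcendental_jqModC (K := K) (h.algHom (FF K Γ M).val)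

open IntermediateField

theorem exists_div (z : FF K Γ M) : ∃ a ∈ (GoodAlg K Γ M).comap (FF K Γ M).val,
    ∃ b ∈ (GoodAlg K Γ M).comap (FF K Γ M).val, z = a / b := by
  obtain ⟨a, b, -, hab⟩ := IsFractionRing.div_surjective (A := GoodAlg K Γ M) z
  exact ⟨algebraMap _ _ a, a.2, algebraMap _ _ b, b.2, hab.symm⟩

theorem exists_relation_FF [Fintype (SL(2, ℤ) ⧸ Γ)] (a : FF K Γ M)
    (ha : a ∈ (GoodAlg K Γ M).comap (FF K Γ M).val) :
    ∃ p : ℕ → Polynomial K, a ^ Fintype.card (SL(2, ℤ) ⧸ Γ) +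
      ∑ i ∈ Finset.range (Fintype.card (SL(2, ℤ) ⧸ Γ)), aeval (jFF K Γ M) (p i) * a ^ i = 0 := by
  obtain ⟨p, hp⟩ := exists_relation (⟨(a : LaurentSeries K), ha⟩ : GoodAlg K Γ M)
  exact ⟨p, relation_of_map (FF K Γ M).val (jFF K Γ M) a p _ hp⟩

theorem finite_and_finrank_le [Fintype (SL(2, ℤ) ⧸ Γ)] :
    FiniteDimensional K⟮jFF K Γ M⟯ (FF K Γ M) ∧
      Module.finrank K⟮jFF K Γ M⟯ (FF K Γ M) ≤ Fintype.card (SL(2, ℤ) ⧸ Γ) :=
  have : CharZero K := charZero_of_algebra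
  finiteDimensional_and_finrank_le (jFF K Γ M) ((GoodAlg K Γ M).comap (FF K Γ M).val)
    (jqModC_mem K Γ M) exists_div _ exists_relation_FF

variable (K Γ M) in
theorem finiteDimensional_jFF [Γ.FiniteIndex] :
    FiniteDimensional K⟮jFF K Γ M⟯ (FF K Γ M) :=
  have : Fintype (SL(2, ℤ) ⧸ Γ) := Fintype.ofFinite _
  finite_and_finrank_le.1

theorem hasExpC_jInv : HasExpC z jInv (phi hz 1 (jG K Γ M)) := by
  have h := phi_spec hz 1 (jG K Γ M)
  refine ⟨h.1, fun τ hτ => ?_⟩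
  rw [h.2 τ hτ]
  show ev K (jqModC K) _ = _
  rw [ev_jqModC, one_smul]

theorem finrank_eq [Γ.FiniteIndex] (hsep : Sep K Γ M) :
    Module.finrank K⟮jFF K Γ M⟯ (FF K Γ M) = Nat.card (SL(2, ℤ) ⧸ Γ) := by
  have : Fintype (SL(2, ℤ) ⧸ Γ) := Fintype.ofFinite _
  have hz := goodChart_qParam K Γ M
  have := finiteDimensional_jFF K Γ M
  refine le_antisymm ?_ ?_
  · rw [Nat.card_eq_fintype_card]; exact finite_and_finrank_le.2
  · exact card_le_finrank_of_embeddings (jFF K Γ M) (sFF hz) (sFF_injective hz hsep)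
      fun g => sFF_jFF hz g (hasExpC_jInv hz)

variable (K Γ M) in
theorem funField_FF [Γ.FiniteIndex] : Fermat.Agent.H94.FunField K (FF K Γ M) :=
  ⟨jFF K Γ M, transcendental_jFF K Γ M, finiteDimensional_jFF K Γ M⟩

end

end

end Fermat.Agent.H78.FF
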