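import Mathlib

/-!
# Commutative algebra for the Igusa reduction
-/

set_option autoImplicit false

noncomputable section

open Polynomial

namespace Fermat.Agent.H28

theorem minpoly_smul_eq {K L : Type*} [Field K] [Field L] [Algebra K L] {c : K} (hc : c ≠ 0)
    {g : L} (hg : IsIntegral K g) :
    minpoly K (c • g) = (minpoly K g).scaleRoots c := by
  have hcg : IsIntegral K (c • g) := hg.smul c
  have h1 : minpoly K (c • g) ∣ (minpoly K g).scaleRoots c := by
    apply minpoly.dvd
    rw [Algebra.smul_def]
    exact scaleRoots_aeval_eq_zero (minpoly.aeval K g)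
  have h2 : minpoly K g ∣ (minpoly K (c • g)).scaleRoots c⁻¹ := by
    apply minpoly.dvd
    have := scaleRoots_aeval_eq_zero (r := c⁻¹) (minpoly.aeval K (c • g))
    rwa [← Algebra.smul_def, smul_smul, inv_mul_cancel₀ hc, one_smul] at this
  have hm1 : ((minpoly K g).scaleRoots c).Monic := (monic_scaleRoots_iff c).2 (minpoly.monic hg)
  have hm2 : ((minpoly K (c • g)).scaleRoots c⁻¹).Monic :=
    (monic_scaleRoots_iff _).2 (minpoly.monic hcg)
  refine (Polynomial.eq_of_monic_of_dvd_of_natDegree_le (minpoly.monic hcg) hm1 h1 ?_).symm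
  rw [natDegree_scaleRoots]
  have := natDegree_le_of_dvd h2 hm2.ne_zero
  rwa [natDegree_scaleRoots] at this

/-- If `π g` and `D g` are integral over the integrally closed domain `A`, `π` a prime element not
dividing `D`, then `g` is integral over `A`. -/
theorem isIntegral_of_prime_smul {A L : Type*} [CommRing A] [IsDomain A] [IsIntegrallyClosed A]
    [Field L] [Algebra A L] [FaithfulSMul A L] {π D : A} (hπ : Prime π) (hD : ¬ π ∣ D) {g : L}
    (h1 : IsIntegral A (π • g)) (h2 : IsIntegral A (D • g)) : IsIntegral A g := by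
  let _ : Algebra (FractionRing A) L := FractionRing.liftAlgebra A L
  have _ : IsScalarTower A (FractionRing A) L := FractionRing.isScalarTower_liftAlgebra A L
  set K := FractionRing A with hK
  have hπ0 : algebraMap A K π ≠ 0 := by
    simpa using hπ.ne_zero
  have hD0' : D ≠ 0 := fun h => hD (h ▸ dvd_zero _)
  have hD0 : algebraMap A K D ≠ 0 := by
    simpa using hD0'
  have e1 : π • g = (algebraMap A K π) • g := by rw [algebraMap_smul]
  have e2 : D • g = (algebraMap A K D) • g := by rw [algebraMap_smul]
  have hg : IsIntegral K g := by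
    have h3 : IsIntegral K ((algebraMap A K π) • g) := by
      rw [← e1]; exact h1.tower_top
    have h4 := h3.smul (algebraMap A K π)⁻¹
    rwa [smul_smul, inv_mul_cancel₀ hπ0, one_smul] at h4
  have m1 : (minpoly K g).scaleRoots (algebraMap A K π) =
      (minpoly A (π • g)).map (algebraMap A K) := by
    rw [← minpoly_smul_eq hπ0 hg, ← e1]
    exact minpoly.isIntegrallyClosed_eq_field_fractions' K h1
  have m2 : (minpoly K g).scaleRoots (algebraMap A K D) =
      (minpoly A (D • g)).map (algebraMap A K) := by
    rw [← minpoly_smul_eq hD0 hg, ← e2]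
    exact minpoly.isIntegrallyClosed_eq_field_fractions' K h2
  -- the coefficients of `minpoly K g` lie in `A`
  have key : ∀ i, ∃ a : A, algebraMap A K a = (minpoly K g).coeff i := by
    intro i
    set k := (minpoly K g).natDegree - i with hk
    obtain ⟨a, ha⟩ : ∃ a : A, algebraMap A K a = (minpoly K g).coeff i * algebraMap A K π ^ k := by
      refine ⟨(minpoly A (π • g)).coeff i, ?_⟩
      have := congrArg (fun p => p.coeff i) m1
      simp only [coeff_scaleRoots, coeff_map] at this
      exact this.symm
    obtain ⟨b, hb⟩ : ∃ b : A, algebraMap A K b = (minpoly K g).coeff i * algebraMap A K D ^ k := by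
      refine ⟨(minpoly A (D • g)).coeff i, ?_⟩
      have := congrArg (fun p => p.coeff i) m2
      simp only [coeff_scaleRoots, coeff_map] at this
      exact this.symm
    have hab : a * D ^ k = b * π ^ k := by
      apply IsFractionRing.injective A K
      rw [map_mul, map_mul, ha, hb, map_pow, map_pow]
      ring
    have hdvd : π ^ k ∣ a := by
      have h5 : π ^ k ∣ a * D ^ k := hab ▸ dvd_mul_left _ _
      exact (hπ.pow_dvd_of_dvd_mul_right k (fun h => hD (hπ.dvd_of_dvd_pow h)) h5)
    obtain ⟨c, hc⟩ := hdvd
    refine ⟨c, ?_⟩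
    rw [hc, map_mul, map_pow, mul_comm] at ha
    exact mul_right_cancel₀ (pow_ne_zero k hπ0) ha
  have hl : minpoly K g ∈ lifts (algebraMap A K) := by
    rw [lifts_iff_coeff_lifts]
    exact fun i => key i
  obtain ⟨q, hq, -, hqm⟩ := lifts_and_natDegree_eq_and_monic hl (minpoly.monic hg)
  refine ⟨q, hqm, ?_⟩
  have h6 := minpoly.aeval K g
  rw [← hq, aeval_map_algebraMap] at h6
  exact h6

end Fermat.Agent.H28
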