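import Mathlib
import Fermat.Prelude.Def_ModularCurve_IgusaScheme
import Fermat.Prelude.Def_ModularCurve_X0ModL
import Fermat.Agent.H28Algebra
import Fermat.Agent.H68IgusaCoeff

/-!
# Reduction of the chart algebras modulo `ℓ`
-/

set_option autoImplicit false

noncomputable section

open Polynomial ModularCurve ModularCurve.IgusaScheme

namespace Fermat.Agent.H28

section RatLoc

variable (ℓ : ℕ)

local notation "𝒪" => GaloisRep.ratLocalizedAt ℓ

theorem mem_ratLoc_iff {x : ℚ} : x ∈ 𝒪 ↔ x.den.Coprime ℓ := Iff.rfl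

variable [hℓ : Fact ℓ.Prime]

theorem inv_mem_ratLoc_of_num {x : ℚ} (hx : ¬ (ℓ : ℤ) ∣ x.num) : x⁻¹ ∈ 𝒪 := by
  rw [mem_ratLoc_iff]
  have hx0 : x ≠ 0 := by
    rintro rfl; simp at hx
  rw [Rat.den_inv_of_ne_zero hx0, Nat.coprime_comm, hℓ.out.coprime_iff_not_dvd]
  intro h
  exact hx (Int.natCast_dvd.2 h)

theorem mem_ratLoc_of_num {x : ℚ} (hx : (ℓ : ℤ) ∣ x.num) : x ∈ 𝒪 := by
  rw [mem_ratLoc_iff]
  exact (x.reduced.coprime_dvd_left (Int.natCast_dvd.1 hx)).symm

theorem mem_or_inv_mem_ratLoc (x : ℚ) : x ∈ 𝒪 ∨ x⁻¹ ∈ 𝒪 := by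
  by_cases h : (ℓ : ℤ) ∣ x.num
  · exact .inl (mem_ratLoc_of_num ℓ h)
  · exact .inr (inv_mem_ratLoc_of_num ℓ h)

theorem dvd_ratLoc_iff (x : 𝒪) : (ℓ : 𝒪) ∣ x ↔ (ℓ : ℤ) ∣ (x : ℚ).num := by
  constructor
  · rintro ⟨y, hy⟩
    have h1 : (x : ℚ) = ℓ * (y : ℚ) := by rw [hy]; rfl
    have h2 : (x : ℚ) * ((y : ℚ).den : ℚ) = ℓ * (y : ℚ).num := by
      rw [h1, mul_assoc, Rat.mul_den_eq_num]
    have h3 : ((x : ℚ).num : ℚ) * ((y : ℚ).den : ℚ) = ℓ * (y : ℚ).num * (x : ℚ).den := by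
      rw [← h2, ← Rat.mul_den_eq_num (x : ℚ)]
      ring
    have h4 : (x : ℚ).num * ((y : ℚ).den : ℤ) = ℓ * ((y : ℚ).num * (x : ℚ).den) := by
      have : (((x : ℚ).num * ((y : ℚ).den : ℤ) : ℤ) : ℚ) = ((ℓ * ((y : ℚ).num * (x : ℚ).den) : ℤ) : ℚ) := by
        push_cast
        rw [h3]; ring
      exact_mod_cast this
    have h5 : (ℓ : ℤ) ∣ (x : ℚ).num * ((y : ℚ).den : ℤ) := h4 ▸ dvd_mul_right _ _
    have h6 : IsCoprime (ℓ : ℤ) ((y : ℚ).den : ℤ) :=
      Nat.isCoprime_iff_coprime.2 (Nat.Coprime.symm y.2)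
    exact h6.dvd_of_dvd_mul_right h5
  · rintro ⟨m, hm⟩
    have hmem : (m : ℚ) / ((x : ℚ).den : ℚ) ∈ 𝒪 := by
      have h1 : (((x : ℚ).den : ℚ))⁻¹ ∈ 𝒪 := by
        apply inv_mem_ratLoc_of_num
        rw [Rat.num_natCast]
        intro h
        have h2 : ℓ ∣ (x : ℚ).den := by exact_mod_cast h
        have h3 : (x : ℚ).den.Coprime ℓ := x.2
        exact (hℓ.out.coprime_iff_not_dvd.1 h3.symm) h2
      rw [div_eq_mul_inv]
      exact mul_mem (intCast_mem _ m) h1
    refine ⟨⟨_, hmem⟩, ?_⟩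
    apply Subtype.ext
    show (x : ℚ) = ((ℓ : 𝒪) : ℚ) * ((m : ℚ) / ((x : ℚ).den : ℚ))
    conv_lhs => rw [← Rat.num_div_den (x : ℚ), hm]
    push_cast
    ring

theorem isUnit_ratLoc_of_not_dvd {x : 𝒪} (hx : ¬ (ℓ : 𝒪) ∣ x) : IsUnit x := by
  rw [dvd_ratLoc_iff] at hx
  refine .of_mul_eq_one ⟨_, inv_mem_ratLoc_of_num ℓ hx⟩ (Subtype.ext ?_)
  have : (x : ℚ) ≠ 0 := by
    intro h; rw [h] at hx; simp at hx
  exact mul_inv_cancel₀ this

theorem not_isUnit_ratLoc : ¬ IsUnit (ℓ : 𝒪) := by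
  intro h
  have h1 : (ℓ : 𝒪) ∣ 1 := h.dvd
  rw [dvd_ratLoc_iff] at h1
  have h2 : (ℓ : ℤ) ∣ 1 := by simpa using h1
  have h3 : ℓ ∣ 1 := by exact_mod_cast h2
  exact hℓ.out.one_lt.ne' (Nat.dvd_one.1 h3)

theorem isMaximal_span_ratLoc : (Ideal.span {(ℓ : 𝒪)}).IsMaximal := by
  refine ⟨⟨?_, ?_⟩⟩
  · rw [Ne, Ideal.span_singleton_eq_top]
    exact not_isUnit_ratLoc ℓ
  · intro J hJ
    obtain ⟨x, hx, hx'⟩ := Set.exists_of_ssubset hJ
    refine Ideal.eq_top_of_isUnit_mem J hx (isUnit_ratLoc_of_not_dvd ℓ ?_)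
    intro h
    exact hx' (Ideal.mem_span_singleton.2 h)

theorem prime_ratLoc : Prime (ℓ : 𝒪) := by
  have h0 : (ℓ : 𝒪) ≠ 0 := by
    intro h
    have : ((ℓ : 𝒪) : ℚ) = 0 := by rw [h]; rfl
    have h2 : (ℓ : ℚ) = 0 := by simpa using this
    exact hℓ.out.ne_zero (by exact_mod_cast h2)
  exact (Ideal.span_singleton_prime h0).1 (isMaximal_span_ratLoc ℓ).isPrime

theorem valuationRing_ratLoc : ValuationRing 𝒪 := by
  refine { cond' := fun a b => ?_ }
  by_cases hb : b = 0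
  · exact ⟨0, .inl (by simp [hb])⟩
  by_cases ha : a = 0
  · exact ⟨0, .inr (by simp [ha])⟩
  have hb' : (b : ℚ) ≠ 0 := fun h => hb (Subtype.ext h)
  have ha' : (a : ℚ) ≠ 0 := fun h => ha (Subtype.ext h)
  rcases mem_or_inv_mem_ratLoc ℓ ((a : ℚ) / b) with h | h
  · refine ⟨⟨_, h⟩, .inr (Subtype.ext ?_)⟩
    show (b : ℚ) * ((a : ℚ) / b) = a
    field_simp
  · refine ⟨⟨_, h⟩, .inl (Subtype.ext ?_)⟩
    show (a : ℚ) * ((a : ℚ) / b)⁻¹ = b
    field_simp

theorem isIntegrallyClosed_ratLoc : IsIntegrallyClosed 𝒪 := by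
  have := valuationRing_ratLoc ℓ
  infer_instance

/-- Normalise a nonzero finite family of rationals so that it is `ℓ`-integral with an entry `1`. -/
theorem exists_div_mem_ratLoc {ι : Type*} (s : Finset ι) (v : ι → ℚ) (h : ∃ i ∈ s, v i ≠ 0) :
    ∃ i₀ ∈ s, v i₀ ≠ 0 ∧ ∀ i ∈ s, v i / v i₀ ∈ 𝒪 := by
  classical
  induction s using Finset.induction_on with
  | empty => simp at h
  | insert a t ha ih =>
    by_cases ht : ∃ i ∈ t, v i ≠ 0
    · obtain ⟨i₁, hi₁, hne, hall⟩ := ih ht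
      rcases mem_or_inv_mem_ratLoc ℓ (v a / v i₁) with h1 | h1
      · refine ⟨i₁, Finset.mem_insert_of_mem hi₁, hne, fun i hi => ?_⟩
        rcases Finset.mem_insert.1 hi with rfl | hi
        · exact h1
        · exact hall i hi
      · by_cases hva : v a = 0
        · refine ⟨i₁, Finset.mem_insert_of_mem hi₁, hne, fun i hi => ?_⟩
          rcases Finset.mem_insert.1 hi with rfl | hi
          · rw [hva, zero_div]; exact zero_mem _
          · exact hall i hi
        · refine ⟨a, Finset.mem_insert_self _ _, hva, fun i hi => ?_⟩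
          rcases Finset.mem_insert.1 hi with rfl | hi
          · rw [div_self hva]; exact one_mem _
          · have : v i / v a = (v i / v i₁) * (v a / v i₁)⁻¹ := by
              field_simp
            rw [this]
            exact mul_mem (hall i hi) h1
    · obtain ⟨i, hi, hne⟩ := h
      rcases Finset.mem_insert.1 hi with rfl | hi
      · refine ⟨i, Finset.mem_insert_self _ _, hne, fun k hk => ?_⟩
        rcases Finset.mem_insert.1 hk with rfl | hk
        · rw [div_self hne]; exact one_mem _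
        · have : v k = 0 := by
            by_contra hk'
            exact ht ⟨k, hk, hk'⟩
          rw [this, zero_div]; exact zero_mem _
      · exact absurd ⟨i, hi, hne⟩ ht

end RatLoc

section EvJ

/-- Evaluation of polynomials at the series `j`. -/
def evJ (R : Type*) [CommRing R] : R[X] →+* LaurentSeries R :=
  eval₂RingHom HahnSeries.C (jqModC R)

variable {R S : Type*} [CommRing R] [CommRing S]

theorem evJ_X : evJ R X = jqModC R := by simp [evJ]

theorem evJ_C (r : R) : evJ R (C r) = HahnSeries.C r := by simp [evJ]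

theorem coeffMap_evJ (f : R →+* S) (P : R[X]) : coeffMap f (evJ R P) = evJ S (P.map f) := by
  have h : (coeffMap f).comp (evJ R) = (evJ S).comp (mapRingHom f) := by
    refine Polynomial.ringHom_ext ?_ ?_
    · intro r
      simp only [RingHom.comp_apply, evJ_C, coe_mapRingHom, map_C]
      exact coeffMap_single f 0 r
    · simp only [RingHom.comp_apply, evJ_X, coe_mapRingHom, map_X]
      exact coeffMap_jqModC f
  exact congrArg (fun g => g P) h

theorem evJ_ne_zero {P : R[X]} (hP : P ≠ 0) : evJ R P ≠ 0 := by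
  intro h
  have h1 := congrArg (fun f : LaurentSeries R => f.coeff (-(P.natDegree : ℤ))) h
  simp only [HahnSeries.coeff_zero] at h1
  rw [evJ, coe_eval₂RingHom, eval₂_eq_sum_range, HahnSeries.coeff_sum,
    Finset.sum_range_succ] at h1
  rw [Finset.sum_eq_zero, zero_add] at h1
  · rw [HahnSeries.C_mul_eq_smul, HahnSeries.coeff_smul, coeff_jqModC_pow_self, smul_eq_mul,
      mul_one] at h1
    exact hP (leadingCoeff_eq_zero.1 h1)
  · intro i hi
    rw [HahnSeries.C_mul_eq_smul, HahnSeries.coeff_smul, coeff_jqModC_pow_of_lt, smul_zero]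
    have := Finset.mem_range.1 hi
    omega

theorem evJ_injective : Function.Injective (evJ R) := by
  rw [injective_iff_map_eq_zero]
  intro P hP
  by_contra h
  exact evJ_ne_zero h hP

end EvJ

section Main

variable (N : ℕ) [NeZero N] (ℓ : ℕ) [hℓ : Fact ℓ.Prime]

set_option quotPrecheck false in
local notation "𝒪" => ↥(GaloisRep.ratLocalizedAt ℓ)
set_option quotPrecheck false in
local notation "F" => ↥(modularFunctionFieldFull N)

/-- Normalise a nonzero finite family of rational polynomials. -/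
theorem exists_normalized {κ : Type*} [Fintype κ] (E : κ → ℚ[X]) (hE : ∃ k, E k ≠ 0) :
    ∃ (c : ℚ) (E' : κ → 𝒪[X]), c ≠ 0 ∧
      (∀ k, (E' k).map (GaloisRep.ratLocalizedAt ℓ).subtype = C c * E k) ∧
      ∃ k m, (E' k).coeff m = 1 := by
  classical
  set M : ℕ := Finset.univ.sup (fun k => (E k).natDegree) with hM
  let v : κ × ℕ → ℚ := fun x => (E x.1).coeff x.2
  have hex : ∃ i ∈ (Finset.univ : Finset κ) ×ˢ Finset.range (M + 1), v i ≠ 0 := by
    obtain ⟨k, hk⟩ := hE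
    refine ⟨(k, (E k).natDegree), ?_, ?_⟩
    · simp only [Finset.mem_product, Finset.mem_univ, true_and, Finset.mem_range]
      exact Nat.lt_succ_of_le (Finset.le_sup (f := fun k => (E k).natDegree) (Finset.mem_univ k))
    · exact fun h => hk (leadingCoeff_eq_zero.1 h)
  obtain ⟨⟨k₀, m₀⟩, -, hne, hall⟩ := exists_div_mem_ratLoc ℓ _ v hex
  have hmem : ∀ k m, (v (k₀, m₀))⁻¹ * (E k).coeff m ∈ GaloisRep.ratLocalizedAt ℓ := by
    intro k m
    by_cases hm : m ∈ Finset.range (M + 1)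
    · have := hall (k, m) (by simp only [Finset.mem_product, Finset.mem_univ, true_and]; exact hm)
      rw [div_eq_mul_inv, mul_comm] at this
      exact this
    · have h0 : (E k).coeff m = 0 := by
        apply coeff_eq_zero_of_natDegree_lt
        have h1 : (E k).natDegree ≤ M :=
          Finset.le_sup (f := fun k => (E k).natDegree) (Finset.mem_univ k)
        have h2 : M < m := by
          rw [Finset.mem_range] at hm; omega
        omega
      rw [h0, mul_zero]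
      exact zero_mem _
  have hsub : ∀ k, (↑(C (v (k₀, m₀))⁻¹ * E k).coeffs : Set ℚ) ⊆ GaloisRep.ratLocalizedAt ℓ := by
    intro k x hx
    rw [Finset.mem_coe, Polynomial.mem_coeffs_iff] at hx
    obtain ⟨m, -, rfl⟩ := hx
    rw [coeff_C_mul]
    exact hmem k m
  refine ⟨(v (k₀, m₀))⁻¹, fun k => (C (v (k₀, m₀))⁻¹ * E k).toSubring _ (hsub k),
    inv_ne_zero hne, fun k => ?_, k₀, m₀, ?_⟩
  · exact map_toSubring _ _ _
  · apply Subtype.ext
    rw [coeff_toSubring, coeff_C_mul]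
    exact inv_mul_cancel₀ hne

variable {N ℓ}

/-- The algebra structure `𝒪[X] → F`, `X ↦ j`. -/
abbrev algJ : Algebra (𝒪[X]) F := (aeval (jFull N)).toAlgebra

theorem coe_algebraMap_F (z : 𝒪) : ((algebraMap 𝒪 F z : F) : LaurentSeries ℚ) =
    HahnSeries.C (z : ℚ) := by
  have h1 : (algebraMap 𝒪 F z : F) = algebraMap ℚ F (z : ℚ) := rfl
  have h2 : (HahnSeries.C (z : ℚ) : LaurentSeries ℚ) = HahnSeries.single 0 (z : ℚ) := rfl
  rw [h1, h2, ← algebraMap_apply_eq_single, eq_ratCast, eq_ratCast]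
  exact map_ratCast (algebraMap F (LaurentSeries ℚ)) (z : ℚ)

theorem coe_aeval_jFull (P : 𝒪[X]) :
    ((aeval (jFull N) P : F) : LaurentSeries ℚ) =
      evJ ℚ (P.map (GaloisRep.ratLocalizedAt ℓ).subtype) := by
  have h : (algebraMap F (LaurentSeries ℚ)).comp (aeval (R := 𝒪) (jFull N)).toRingHom =
      (evJ ℚ).comp (mapRingHom (GaloisRep.ratLocalizedAt ℓ).subtype) := by
    refine Polynomial.ringHom_ext ?_ ?_
    · intro z
      simp only [RingHom.comp_apply, AlgHom.toRingHom_eq_coe, RingHom.coe_coe, aeval_C,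
        coe_mapRingHom, map_C, evJ_C]
      exact coe_algebraMap_F (N := N) z
    · simp only [RingHom.comp_apply, AlgHom.toRingHom_eq_coe, RingHom.coe_coe, aeval_X,
        coe_mapRingHom, map_X, evJ_X]
      rfl
  exact congrArg (fun g => g P) h

theorem evJ_map_eq_coeffMap (P : 𝒪[X]) :
    evJ ℚ (P.map (GaloisRep.ratLocalizedAt ℓ).subtype) =
      coeffMap (GaloisRep.ratLocalizedAt ℓ).subtype (evJ 𝒪 P) :=
  (coeffMap_evJ _ _).symm

/-- Key step: an element `g` of the function field with `ℓ`-integral `q`-expansion has a multiple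
`D(j) g`, `D` nonzero modulo `ℓ`, which is integral over `ℤ_(ℓ)[j]`. -/
theorem exists_smul_isIntegral {ι : Type*} [Fintype ι] [Nonempty ι]
    (β : ι → LaurentSeries ℤ)
    (hβ : ∀ i, coeffMap (Int.castRingHom ℚ) (β i) ∈ modularFunctionFieldFull N)
    {K : Type*} [Field K] (r : 𝒪 →+* K) (hr0 : r (ℓ : 𝒪) = 0)
    (H1 : ∀ P : ι → K[X], ∑ i, evJ K (P i) * coeffMap (Int.castRingHom K) (β i) = 0 →
      ∀ i, P i = 0)
    (H2 : ∀ f ∈ modularFunctionFieldFull N, ∃ (D : ℚ[X]) (E : ι → ℚ[X]),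
      (D ≠ 0 ∨ ∃ i, E i ≠ 0) ∧
      evJ ℚ D * f = ∑ i, evJ ℚ (E i) * coeffMap (Int.castRingHom ℚ) (β i))
    (g : F) (hg : ∀ n : ℤ, (g : LaurentSeries ℚ).coeff n ∈ GaloisRep.ratLocalizedAt ℓ) :
    ∃ D : 𝒪[X], ¬ (C (ℓ : 𝒪)) ∣ D ∧ IsIntegral (Algebra.adjoin 𝒪 {jFull N}) (aeval (jFull N) D * g) := by
  classical
  -- the elements `b i` of `F`
  let b : ι → F := fun i => ⟨coeffMap (Int.castRingHom ℚ) (β i), hβ i⟩
  -- normalised relations
  have hrel : ∀ f : F, (∀ n : ℤ, (f : LaurentSeries ℚ).coeff n ∈ GaloisRep.ratLocalizedAt ℓ) →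
      ∃ (D : 𝒪[X]) (E : ι → 𝒪[X]), ¬ (C (ℓ : 𝒪)) ∣ D ∧
        aeval (jFull N) D * f = ∑ i, aeval (jFull N) (E i) * b i := by
    intro f hf
    obtain ⟨D, E, hne, hDE⟩ := H2 f f.2
    let E₀ : Option ι → ℚ[X] := fun o => o.elim D E
    have hE₀ : ∃ k, E₀ k ≠ 0 := by
      rcases hne with h | ⟨i, h⟩
      · exact ⟨none, h⟩
      · exact ⟨some i, h⟩
    obtain ⟨c, E', hc, hE', k₁, m₁, h1⟩ := exists_normalized ℓ E₀ hE₀
    -- the relation over `𝒪`
    have hrel0 : evJ ℚ ((E' none).map (GaloisRep.ratLocalizedAt ℓ).subtype) * (f : LaurentSeries ℚ) =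
        ∑ i, evJ ℚ ((E' (some i)).map (GaloisRep.ratLocalizedAt ℓ).subtype) *
          coeffMap (Int.castRingHom ℚ) (β i) := by
      rw [hE']
      simp_rw [hE']
      simp only [map_mul, mul_assoc, ← Finset.mul_sum]
      exact congrArg _ hDE
    obtain ⟨f', hf'⟩ := (H68.mem_coeffSubring_iff _ _).2 hf
    have hrelO : evJ 𝒪 (E' none) * f' =
        ∑ i, evJ 𝒪 (E' (some i)) * coeffMap (Int.castRingHom 𝒪) (β i) := by
      apply H68.coeffMap_injective (GaloisRep.ratLocalizedAt ℓ).subtype Subtype.val_injective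
      rw [map_mul, map_sum, hf', ← evJ_map_eq_coeffMap, hrel0]
      refine Finset.sum_congr rfl fun i _ => ?_
      rw [map_mul, ← evJ_map_eq_coeffMap, coeffMap_coeffMap]
      congr 2
    have hndvd : ¬ (C (ℓ : 𝒪)) ∣ E' none := by
      intro hdvd
      have h2 : (E' none).map r = 0 := by
        obtain ⟨Q, hQ⟩ := hdvd
        rw [hQ, Polynomial.map_mul, map_C, hr0, map_zero, zero_mul]
      have h3 := congrArg (coeffMap r) hrelO
      rw [map_mul, map_sum, coeffMap_evJ, h2, map_zero, zero_mul] at h3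
      have h4 : ∑ i, evJ K ((E' (some i)).map r) * coeffMap (Int.castRingHom K) (β i) = 0 := by
        rw [h3]
        refine Finset.sum_congr rfl fun i _ => ?_
        rw [map_mul, coeffMap_evJ, coeffMap_coeffMap]
        congr 2
        exact congrArg coeffMap (RingHom.ext_int _ _)
      have h5 := H1 _ h4
      have h6 : ∀ k, (E' k).map r = 0 := by
        intro k
        cases k with
        | none => exact h2
        | some i => exact h5 i
      have h7 := congrArg (fun P => P.coeff m₁) (h6 k₁)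
      simp only [coeff_map, h1, map_one, coeff_zero] at h7
      exact one_ne_zero h7
    refine ⟨E' none, fun i => E' (some i), hndvd, ?_⟩
    apply Subtype.ext
    have h8 : ((∑ i, aeval (jFull N) (E' (some i)) * b i : F) : LaurentSeries ℚ) =
        ∑ i, ((aeval (jFull N) (E' (some i)) : F) : LaurentSeries ℚ) * (b i : LaurentSeries ℚ) := by
      rw [← IntermediateField.coe_val, map_sum]
      rfl
    rw [h8]
    show ((aeval (jFull N) (E' none) : F) : LaurentSeries ℚ) * (f : LaurentSeries ℚ) = _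
    rw [coe_aeval_jFull, hrel0]
    refine Finset.sum_congr rfl fun i _ => ?_
    rw [coe_aeval_jFull]
  -- apply it to `g * b k`
  have hgb : ∀ k, ∀ n : ℤ, ((g * b k : F) : LaurentSeries ℚ).coeff n ∈
      GaloisRep.ratLocalizedAt ℓ := by
    intro k
    rw [← H68.mem_coeffSubring_iff]
    refine mul_mem ((H68.mem_coeffSubring_iff _ _).2 hg) ((H68.mem_coeffSubring_iff _ _).2 ?_)
    intro n
    show (coeffMap (Int.castRingHom ℚ) (β k)).coeff n ∈ _
    rw [coeffMap_coeff]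
    exact intCast_mem _ _
  choose D E hD hDE using fun k => hrel (g * b k) (hgb k)
  refine ⟨∏ k, D k, ?_, ?_⟩
  · have hp : Prime (C (ℓ : 𝒪)) := Polynomial.prime_C_iff.2 (prime_ratLoc ℓ)
    rw [hp.dvd_finsetProd_iff]
    rintro ⟨k, -, hk⟩
    exact hD k hk
  · set A := Algebra.adjoin 𝒪 {jFull N} with hA
    have haev : ∀ P : 𝒪[X], aeval (jFull N) P ∈ A := fun P => by
      rw [hA, Algebra.adjoin_singleton_eq_range_aeval]
      exact ⟨P, rfl⟩
    let M : Submodule A F := Submodule.span A (Set.range b)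
    have hsmul : ∀ (P : 𝒪[X]) (x : F), x ∈ M → aeval (jFull N) P * x ∈ M := by
      intro P x hx
      exact M.smul_mem ⟨_, haev P⟩ hx
    refine isIntegral_of_smul_mem_submodule M ?_ ?_ _ ?_
    · intro hM
      obtain ⟨k⟩ := (inferInstance : Nonempty ι)
      have hbk : b k = 0 := by
        have : b k ∈ M := Submodule.subset_span ⟨k, rfl⟩
        rw [hM] at this
        exact this
      have hβk : β k = 0 := by
        apply H68.coeffMap_injective (Int.castRingHom ℚ) Int.cast_injective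
        rw [map_zero]
        exact congrArg Subtype.val hbk
      have h10 := H1 (Pi.single k 1) (by
        refine Finset.sum_eq_zero fun i _ => ?_
        by_cases hik : i = k
        · subst hik; rw [hβk, map_zero, mul_zero]
        · rw [Pi.single_eq_of_ne hik, map_zero, zero_mul]) k
      rw [Pi.single_eq_same] at h10
      exact one_ne_zero h10
    · exact Submodule.fg_span (Set.finite_range b)
    · intro x hx
      rw [smul_eq_mul]
      induction hx using Submodule.span_induction with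
      | mem x hx =>
        obtain ⟨k, rfl⟩ := hx
        have h9 : aeval (jFull N) (∏ k, D k) * g * b k =
            aeval (jFull N) (∏ k' ∈ Finset.univ.erase k, D k') *
              (∑ i, aeval (jFull N) (E k i) * b i) := by
          rw [← hDE k, ← Finset.mul_prod_erase Finset.univ D (Finset.mem_univ k), map_mul]
          ring
        rw [h9]
        exact hsmul _ _ (Submodule.sum_mem _ fun i _ =>
          hsmul _ _ (Submodule.subset_span ⟨i, rfl⟩))
      | zero => rw [mul_zero]; exact zero_mem _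
      | add x y _ _ hx hy => rw [mul_add]; exact add_mem hx hy
      | smul a x _ hx =>
        have : aeval (jFull N) (∏ k, D k) * g * (a • x) =
            a • (aeval (jFull N) (∏ k, D k) * g * x) := by
          rw [mul_smul_comm]
        rw [this]
        exact M.smul_mem a hx

theorem aeval_jFull_injective : Function.Injective (aeval (R := 𝒪) (jFull N)) := by
  intro P Q h
  have h1 := congrArg (fun x : F => (x : LaurentSeries ℚ)) h
  simp only [coe_aeval_jFull] at h1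
  exact map_injective _ Subtype.val_injective (evJ_injective h1)

theorem aeval_jFull_inv_injective : Function.Injective (aeval (R := 𝒪) (jFull N)⁻¹) := by
  rw [← transcendental_iff_injective]
  have h : Transcendental 𝒪 (jFull N) := transcendental_iff_injective.2 aeval_jFull_injective
  exact fun h' => h (IsAlgebraic.inv_iff.1 h')

/-- `ℤ_(ℓ)[s]` for `s` transcendental. -/
def adjEquiv (s : F) (hs : Function.Injective (aeval (R := 𝒪) s)) :
    𝒪[X] ≃ₐ[𝒪] Algebra.adjoin 𝒪 {s} :=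
  (AlgEquiv.ofInjective (aeval (R := 𝒪) s) hs).trans
    (Subalgebra.equivOfEq _ _ (Algebra.adjoin_singleton_eq_range_aeval 𝒪 s).symm)

theorem coe_adjEquiv (s : F) (hs : Function.Injective (aeval (R := 𝒪) s)) (P : 𝒪[X]) :
    ((adjEquiv s hs P : Algebra.adjoin 𝒪 {s}) : F) = aeval s P := rfl

theorem isIntegral_of_mul (s : F) (hs : Function.Injective (aeval (R := 𝒪) s)) {g : F}
    {D : 𝒪[X]} (hD : ¬ (C (ℓ : 𝒪)) ∣ D)
    (h1 : IsIntegral (Algebra.adjoin 𝒪 {s}) ((ℓ : F) * g))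
    (h2 : IsIntegral (Algebra.adjoin 𝒪 {s}) (aeval s D * g)) :
    IsIntegral (Algebra.adjoin 𝒪 {s}) g := by
  have := isIntegrallyClosed_ratLoc ℓ
  have hIC : IsIntegrallyClosed (Algebra.adjoin 𝒪 {s}) :=
    IsIntegrallyClosed.of_equiv (adjEquiv s hs).toRingEquiv
  have hp : Prime (adjEquiv s hs (C (ℓ : 𝒪))) :=
    (MulEquiv.prime_iff (adjEquiv s hs)).2 (Polynomial.prime_C_iff.2 (prime_ratLoc ℓ))
  have hnd : ¬ adjEquiv s hs (C (ℓ : 𝒪)) ∣ adjEquiv s hs D := by
    intro h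
    exact hD ((map_dvd_iff (adjEquiv s hs)).1 h)
  refine isIntegral_of_prime_smul hp hnd ?_ ?_
  · rw [Algebra.smul_def]
    show IsIntegral _ (((adjEquiv s hs (C (ℓ : 𝒪)) : Algebra.adjoin 𝒪 {s}) : F) * g)
    rw [coe_adjEquiv, aeval_C, map_natCast]
    exact h1
  · rw [Algebra.smul_def]
    exact h2

/-- The hypothesis package: a degree theorem in a form convenient for the reduction. -/
structure DegreeData (N : ℕ) [NeZero N] (ℓ : ℕ) [Fact ℓ.Prime] where
  ι : Type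
  [fin : Fintype ι]
  [ne : Nonempty ι]
  β : ι → LaurentSeries ℤ
  hβ : ∀ i, coeffMap (Int.castRingHom ℚ) (β i) ∈ modularFunctionFieldFull N
  K : Type
  [fieldK : Field K]
  r : ↥(GaloisRep.ratLocalizedAt ℓ) →+* K
  hr0 : r (ℓ : ↥(GaloisRep.ratLocalizedAt ℓ)) = 0
  H1 : ∀ P : ι → K[X], ∑ i, evJ K (P i) * coeffMap (Int.castRingHom K) (β i) = 0 → ∀ i, P i = 0
  H2 : ∀ f ∈ modularFunctionFieldFull N, ∃ (D : ℚ[X]) (E : ι → ℚ[X]),
    (D ≠ 0 ∨ ∃ i, E i ≠ 0) ∧
    evJ ℚ D * f = ∑ i, evJ ℚ (E i) * coeffMap (Int.castRingHom ℚ) (β i)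

theorem DegreeData.exists_smul (dd : DegreeData N ℓ)
    (g : F) (hg : ∀ n : ℤ, (g : LaurentSeries ℚ).coeff n ∈ GaloisRep.ratLocalizedAt ℓ) :
    ∃ D : 𝒪[X], ¬ (C (ℓ : 𝒪)) ∣ D ∧
      IsIntegral (Algebra.adjoin 𝒪 {jFull N}) (aeval (jFull N) D * g) := by
  let _ := dd.fin
  have := dd.ne
  let _ := dd.fieldK
  exact exists_smul_isIntegral dd.β dd.hβ dd.r dd.hr0 dd.H1 dd.H2 g hg

theorem exists_mul_of_coeff (f : F) (hf : ∀ n : ℤ, ∃ w ∈ GaloisRep.ratLocalizedAt ℓ,
    (f : LaurentSeries ℚ).coeff n = (ℓ : ℚ) * w) :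
    ∃ g : F, f = (ℓ : F) * g ∧
      ∀ n : ℤ, (g : LaurentSeries ℚ).coeff n ∈ GaloisRep.ratLocalizedAt ℓ := by
  have hℓ0 : (ℓ : F) ≠ 0 := by exact_mod_cast hℓ.out.ne_zero
  refine ⟨(ℓ : F)⁻¹ * f, by rw [← mul_assoc, mul_inv_cancel₀ hℓ0, one_mul], fun n => ?_⟩
  obtain ⟨w, hw, hfw⟩ := hf n
  have h1 : ((((ℓ : F)⁻¹ * f : F)) : LaurentSeries ℚ).coeff n = w := by
    have h2 : (f : LaurentSeries ℚ) = HahnSeries.C (ℓ : ℚ) * (((ℓ : F)⁻¹ * f : F) : LaurentSeries ℚ) := by
      have h3 : (HahnSeries.C (ℓ : ℚ) : LaurentSeries ℚ) = ((ℓ : F) : LaurentSeries ℚ) := by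
        rw [map_natCast]; rfl
      rw [h3, ← IntermediateField.coe_mul, ← mul_assoc, mul_inv_cancel₀ hℓ0, one_mul]
    rw [h2, HahnSeries.C_mul_eq_smul, HahnSeries.coeff_smul, smul_eq_mul] at hfw
    have hℓ1 : (ℓ : ℚ) ≠ 0 := by exact_mod_cast hℓ.out.ne_zero
    exact mul_left_cancel₀ hℓ1 hfw
  rw [h1]; exact hw

theorem hdivF (dd : DegreeData N ℓ) : ∀ f ∈ chartAlgFin N ℓ,
    (∀ n : ℤ, ∃ w ∈ GaloisRep.ratLocalizedAt ℓ, (f : LaurentSeries ℚ).coeff n = (ℓ : ℚ) * w) →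
    ∃ g ∈ chartAlgFin N ℓ, f = (ℓ : F) * g := by
  intro f hf hcoeff
  obtain ⟨g, hfg, hg⟩ := exists_mul_of_coeff f hcoeff
  refine ⟨g, ?_, hfg⟩
  obtain ⟨D, hD, hDg⟩ := dd.exists_smul g hg
  rw [mem_chartAlg_iff] at hf ⊢
  rw [hfg] at hf
  exact isIntegral_of_mul (jFull N) aeval_jFull_injective hD hf hDg

theorem hdivI (dd : DegreeData N ℓ) : ∀ f ∈ chartAlgInf N ℓ,
    (∀ n : ℤ, ∃ w ∈ GaloisRep.ratLocalizedAt ℓ, (f : LaurentSeries ℚ).coeff n = (ℓ : ℚ) * w) →
    ∃ g ∈ chartAlgInf N ℓ, f = (ℓ : F) * g := by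
  intro f hf hcoeff
  obtain ⟨g, hfg, hg⟩ := exists_mul_of_coeff f hcoeff
  refine ⟨g, ?_, hfg⟩
  have hℓ0 : (ℓ : F) ≠ 0 := by exact_mod_cast hℓ.out.ne_zero
  -- move to the finite chart
  have hmid : f ∈ chartAlg N ℓ (insert (jFull N)⁻¹ {jFull N}) := by
    refine chartAlg_mono N ℓ ?_ hf
    rw [Set.singleton_subset_iff]
    exact Set.mem_insert _ _
  obtain ⟨n, hn⟩ := exists_pow_mul_mem_chartAlg (Set.mem_singleton _) (jFull_ne_zero N) hmid
  have hjn : ∀ m : ℤ, ((jFull N ^ n * g : F) : LaurentSeries ℚ).coeff m ∈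
      GaloisRep.ratLocalizedAt ℓ := by
    rw [← H68.mem_coeffSubring_iff]
    refine mul_mem (pow_mem ?_ n) ((H68.mem_coeffSubring_iff _ _).2 hg)
    refine ⟨jqModC 𝒪, ?_⟩
    rw [coeffMap_jqModC]
    rfl
  have h1 : jFull N ^ n * f = (ℓ : F) * (jFull N ^ n * g) := by rw [hfg]; ring
  obtain ⟨h, hh, hfh⟩ := hdivF dd (jFull N ^ n * f) hn (by
    intro m
    refine ⟨_, hjn m, ?_⟩
    rw [h1]
    have h3 : (((ℓ : F) * (jFull N ^ n * g) : F) : LaurentSeries ℚ) =
        HahnSeries.C (ℓ : ℚ) * ((jFull N ^ n * g : F) : LaurentSeries ℚ) := by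
      rw [map_natCast]; rfl
    rw [h3, HahnSeries.C_mul_eq_smul, HahnSeries.coeff_smul, smul_eq_mul])
  have hhg : h = jFull N ^ n * g := by
    rw [h1] at hfh
    exact (mul_left_cancel₀ hℓ0 hfh).symm
  -- move back to the infinite chart
  have hmid2 : h ∈ chartAlg N ℓ (insert ((jFull N)⁻¹)⁻¹ {(jFull N)⁻¹}) := by
    refine chartAlg_mono N ℓ ?_ hh
    rw [inv_inv, Set.singleton_subset_iff]
    exact Set.mem_insert _ _
  obtain ⟨M, hM⟩ := exists_pow_mul_mem_chartAlg (Set.mem_singleton _)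
    (inv_ne_zero (jFull_ne_zero N)) hmid2
  have hD : (jFull N)⁻¹ ^ M * g ∈ chartAlgInf N ℓ := by
    have h4 : (jFull N)⁻¹ ^ M * g = (jFull N)⁻¹ ^ n * ((jFull N)⁻¹ ^ M * h) := by
      have h6 : (jFull N)⁻¹ ^ n * jFull N ^ n = 1 := by
        rw [← mul_pow, inv_mul_cancel₀ (jFull_ne_zero N), one_pow]
      calc (jFull N)⁻¹ ^ M * g = ((jFull N)⁻¹ ^ n * jFull N ^ n) * ((jFull N)⁻¹ ^ M * g) := by
            rw [h6, one_mul]
        _ = (jFull N)⁻¹ ^ n * ((jFull N)⁻¹ ^ M * h) := by rw [hhg]; ring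
    rw [h4]
    exact mul_mem (pow_mem (subset_chartAlg N ℓ _ (Set.mem_singleton _)) n) hM
  rw [mem_chartAlg_iff] at hf hD ⊢
  rw [hfg] at hf
  have hX : ¬ (C (ℓ : 𝒪)) ∣ (X ^ M : 𝒪[X]) := by
    intro h
    have h5 := (C_dvd_iff_dvd_coeff _ _).1 h M
    rw [coeff_X_pow_self] at h5
    exact not_isUnit_ratLoc ℓ (isUnit_of_dvd_one h5)
  have hD' : IsIntegral (Algebra.adjoin 𝒪 {(jFull N)⁻¹})
      (aeval (jFull N)⁻¹ (X ^ M : 𝒪[X]) * g) := by
    rw [map_pow, aeval_X]
    exact hD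
  exact isIntegral_of_mul (jFull N)⁻¹ aeval_jFull_inv_injective hX hf hD'

end Main

end Fermat.Agent.H28
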