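import Mathlib
import Fermat.Agent.H28Reduction

/-!
# From the degree theorem to `DegreeData`
-/

set_option autoImplicit false

noncomputable section

open Polynomial ModularCurve IntermediateField

namespace Fermat.Agent.H28

section Mono

variable (N : ℕ)

/-- monomials in the `j(q^d)`, `d ∣ N` -/
def monoJ (R : Type*) [CommRing R] : Submonoid (LaurentSeries R) :=
  Submonoid.closure {x | ∃ (d : ℕ) (_ : NeZero d), d ∣ N ∧ x = qExpand R d (jqModC R)}

theorem map_monoJ {R S : Type*} [CommRing R] [CommRing S] (f : R →+* S) :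
    (monoJ N R).map (coeffMap f : LaurentSeries R →* LaurentSeries S) = monoJ N S := by
  rw [monoJ, monoJ, MonoidHom.map_mclosure]
  congr 1
  ext x
  constructor
  · rintro ⟨y, ⟨d, hd0, hd, rfl⟩, rfl⟩
    refine ⟨d, hd0, hd, ?_⟩
    show coeffMap f _ = _
    rw [coeffMap_qExpand, coeffMap_jqModC]
  · rintro ⟨d, hd0, hd, rfl⟩
    refine ⟨qExpand R d (jqModC R), ⟨d, hd0, hd, rfl⟩, ?_⟩
    show coeffMap f _ = _
    rw [coeffMap_qExpand, coeffMap_jqModC]

theorem exists_int_of_mem_monoJ {R : Type*} [CommRing R] {x : LaurentSeries R}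
    (hx : x ∈ monoJ N R) : ∃ β ∈ monoJ N ℤ, coeffMap (Int.castRingHom R) β = x := by
  rw [← map_monoJ N (Int.castRingHom R)] at hx
  obtain ⟨β, hβ, rfl⟩ := hx
  exact ⟨β, hβ, rfl⟩

theorem coeffMap_mem_monoJ {R S : Type*} [CommRing R] [CommRing S] (f : R →+* S)
    {x : LaurentSeries R} (hx : x ∈ monoJ N R) : coeffMap f x ∈ monoJ N S := by
  rw [← map_monoJ N f]
  exact ⟨x, hx, rfl⟩

theorem monoJ_le (K : Type*) [Field K] {x : LaurentSeries K} (hx : x ∈ monoJ N K) :
    x ∈ modularFunctionFieldFullC K N := by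
  rw [monoJ] at hx
  induction hx using Submonoid.closure_induction with
  | mem x hx => exact subset_adjoin K _ hx
  | one => exact one_mem _
  | mul x y _ _ hx hy => exact mul_mem hx hy

end Mono

section Field

variable (N : ℕ) (K : Type) [Field K]

theorem adjoin_jqModC_le : K⟮jqModC K⟯ ≤ modularFunctionFieldFullC K N := by
  rw [adjoin_simple_le_iff]
  exact jqModC_mem_full K N

/-- the full function field as an extension of `K(j)` -/
abbrev extJ : IntermediateField K⟮jqModC K⟯ (LaurentSeries K) :=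
  extendScalars (adjoin_jqModC_le N K)

variable {N K}

theorem not_linearIndependent {n : ℕ} (hn : 0 < n)
    (h : relfinrank K⟮jqModC K⟯ (modularFunctionFieldFullC K N) = n)
    {ι : Type*} [Fintype ι] (v : ι → LaurentSeries K)
    (hv : ∀ i, v i ∈ modularFunctionFieldFullC K N) (hcard : n < Fintype.card ι) :
    ¬ LinearIndependent K⟮jqModC K⟯ v := by
  intro hli
  rw [relfinrank_eq_finrank_of_le (adjoin_jqModC_le N K)] at h
  have hfr : Module.finrank K⟮jqModC K⟯ (extJ N K) = n := h
  have : FiniteDimensional K⟮jqModC K⟯ (extJ N K) :=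
    FiniteDimensional.of_finrank_pos (by rw [hfr]; exact hn)
  let v' : ι → extJ N K := fun i => ⟨v i, hv i⟩
  have hli' : LinearIndependent K⟮jqModC K⟯ v' :=
    LinearIndependent.of_comp (extJ N K).val.toLinearMap hli
  have := hli'.fintype_card_le_finrank
  omega

theorem exists_monomial_basis {n : ℕ} (hn : 0 < n)
    (h : relfinrank K⟮jqModC K⟯ (modularFunctionFieldFullC K N) = n) :
    ∃ b : Set (LaurentSeries K), b ⊆ monoJ N K ∧ Nat.card b = n ∧
      LinearIndependent K⟮jqModC K⟯ ((↑) : b → LaurentSeries K) := by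
  rw [relfinrank_eq_finrank_of_le (adjoin_jqModC_le N K)] at h
  have hfr : Module.finrank K⟮jqModC K⟯ (extJ N K) = n := h
  have hfin : FiniteDimensional K⟮jqModC K⟯ (extJ N K) :=
    FiniteDimensional.of_finrank_pos (by rw [hfr]; exact hn)
  have halg : Algebra.IsAlgebraic K⟮jqModC K⟯ (extJ N K) :=
    Algebra.IsAlgebraic.of_finite _ _
  obtain ⟨b, hb, hspan, hli⟩ := exists_linearIndependent K⟮jqModC K⟯
    (monoJ N K : Set (LaurentSeries K))
  refine ⟨b, hb, ?_, hli⟩
  -- the span of the monomials is the whole field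
  have h1 : Submodule.span K⟮jqModC K⟯ (monoJ N K : Set (LaurentSeries K)) =
      Subalgebra.toSubmodule (extJ N K).toSubalgebra := by
    have h2 : ∀ x ∈ divisorExpansionsC K N, IsAlgebraic K⟮jqModC K⟯ x := by
      intro x hx
      have hx' : x ∈ extJ N K := subset_adjoin K _ hx
      have h3 : IsAlgebraic K⟮jqModC K⟯ (⟨x, hx'⟩ : extJ N K) :=
        halg.isAlgebraic _
      exact h3.algebraMap
    have h4 := adjoin_toSubalgebra_of_isAlgebraic h2
    have h5 : IntermediateField.adjoin K⟮jqModC K⟯ (divisorExpansionsC K N) = extJ N K := by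
      apply le_antisymm
      · rw [adjoin_le_iff]
        exact fun x hx => subset_adjoin K _ hx
      · rw [extendScalars_le_iff]
        rw [modularFunctionFieldFullC, adjoin_le_iff]
        exact fun x hx => subset_adjoin K⟮jqModC K⟯ _ hx
    have h6 : Submodule.span K⟮jqModC K⟯ (monoJ N K : Set (LaurentSeries K)) =
        Subalgebra.toSubmodule (Algebra.adjoin K⟮jqModC K⟯ (divisorExpansionsC K N)) := by
      rw [Algebra.adjoin_eq_span]
      rfl
    rw [h6, ← h4, h5]
  have h7 := Module.finrank_eq_nat_card_basis (Module.Basis.span hli)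
  rw [Subtype.range_coe_subtype, Set.ofPred_mem_eq, hspan, h1] at h7
  rw [← h7]
  exact hfr

theorem evJ_eq_aeval (P : K[X]) : evJ K P = aeval (jqModC K) P := by
  rw [evJ, coe_eval₂RingHom, aeval_def]
  congr 1
  ext1 r
  rw [algebraMap_laurentSeries_eq_single]
  rfl

theorem evJ_mem (P : K[X]) : evJ K P ∈ K⟮jqModC K⟯ := by
  rw [evJ_eq_aeval]
  exact algebra_adjoin_le_adjoin K _ (aeval_mem_adjoin_singleton K (jqModC K))

theorem eq_zero_of_sum_evJ {ι : Type*} [Fintype ι] {v : ι → LaurentSeries K}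
    (hv : LinearIndependent K⟮jqModC K⟯ v) (P : ι → K[X])
    (h : ∑ i, evJ K (P i) * v i = 0) (i : ι) : P i = 0 := by
  have h1 := (Fintype.linearIndependent_iff.1 hv) (fun i => ⟨evJ K (P i), evJ_mem (P i)⟩) h i
  have h2 : evJ K (P i) = 0 := congrArg Subtype.val h1
  by_contra h3
  exact evJ_ne_zero h3 h2

theorem exists_sum_evJ_of_not_linearIndependent {ι : Type*} [Fintype ι]
    {v : ι → LaurentSeries K} (hv : ¬ LinearIndependent K⟮jqModC K⟯ v) :
    ∃ P : ι → K[X], (∃ i, P i ≠ 0) ∧ ∑ i, evJ K (P i) * v i = 0 := by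
  classical
  rw [Fintype.not_linearIndependent_iff] at hv
  obtain ⟨g, hg, i₀, hi₀⟩ := hv
  have h1 : ∀ i, ∃ r s : K[X], ((g i : K⟮jqModC K⟯) : LaurentSeries K) =
      aeval (jqModC K) r / aeval (jqModC K) s := fun i => (mem_adjoin_simple_iff K _).1 (g i).2
  choose r s hrs using h1
  -- replace a zero denominator by one
  let s' : ι → K[X] := fun i => if s i = 0 then 1 else s i
  let r' : ι → K[X] := fun i => if s i = 0 then 0 else r i
  have hs' : ∀ i, s' i ≠ 0 := by
    intro i
    simp only [s']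
    split_ifs with h
    · exact one_ne_zero
    · exact h
  have hrs' : ∀ i, ((g i : K⟮jqModC K⟯) : LaurentSeries K) * evJ K (s' i) = evJ K (r' i) := by
    intro i
    simp only [s', r']
    split_ifs with h
    · rw [hrs i, h, map_zero, div_zero, zero_mul, map_zero]
    · rw [hrs i, evJ_eq_aeval, evJ_eq_aeval, div_mul_cancel₀]
      rw [← evJ_eq_aeval]
      exact evJ_ne_zero h
  refine ⟨fun i => r' i * ∏ k ∈ Finset.univ.erase i, s' k, ⟨i₀, ?_⟩, ?_⟩
  · refine mul_ne_zero ?_ (Finset.prod_ne_zero_iff.2 fun k _ => hs' k)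
    intro h
    have h2 := hrs' i₀
    rw [h, map_zero, mul_eq_zero] at h2
    rcases h2 with h2 | h2
    · exact hi₀ (Subtype.ext h2)
    · exact evJ_ne_zero (hs' i₀) h2
  · have h3 : ∀ i, evJ K (r' i * ∏ k ∈ Finset.univ.erase i, s' k) * v i =
        evJ K (∏ k, s' k) * (((g i : K⟮jqModC K⟯) : LaurentSeries K) * v i) := by
      intro i
      rw [← Finset.mul_prod_erase Finset.univ s' (Finset.mem_univ i), map_mul, map_mul, ← hrs' i]
      ring
    rw [Finset.sum_congr rfl fun i _ => h3 i, ← Finset.mul_sum]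
    have h4 : ∑ i, ((g i : K⟮jqModC K⟯) : LaurentSeries K) * v i = 0 := hg
    rw [h4, mul_zero]

end Field

section Descent

/-- apply an additive functional to all coefficients of a polynomial -/
def mapFun {K L : Type*} [Semiring K] [Semiring L] (s : K →+ L) (p : K[X]) : L[X] :=
  ∑ i ∈ Finset.range (p.natDegree + 1), monomial i (s (p.coeff i))

theorem coeff_mapFun {K L : Type*} [Semiring K] [Semiring L] (s : K →+ L) (p : K[X]) (n : ℕ) :
    (mapFun s p).coeff n = s (p.coeff n) := by
  rw [mapFun, finsetSum_coeff]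
  simp only [coeff_monomial]
  rw [Finset.sum_ite_eq']
  split_ifs with h
  · rfl
  · rw [coeff_eq_zero_of_natDegree_lt, map_zero]
    rw [Finset.mem_range] at h
    omega

variable {L : Type*} [Field L] [Algebra ℚ L]

/-- coefficientwise application of a functional -/
theorem map_evJ_mul (s : L →ₗ[ℚ] ℚ) (p : L[X]) (u : LaurentSeries ℚ) :
    (evJ L p * coeffMap (algebraMap ℚ L) u).map s = evJ ℚ (mapFun s.toAddMonoidHom p) * u := by
  have h1 : evJ L p = ∑ i ∈ Finset.range (p.natDegree + 1),
      HahnSeries.C (p.coeff i) * jqModC L ^ i := by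
    rw [evJ, coe_eval₂RingHom, eval₂_eq_sum_range]
  have h2 : evJ ℚ (mapFun s.toAddMonoidHom p) = ∑ i ∈ Finset.range (p.natDegree + 1),
      HahnSeries.C (s (p.coeff i)) * jqModC ℚ ^ i := by
    rw [mapFun, map_sum]
    refine Finset.sum_congr rfl fun i _ => ?_
    rw [← C_mul_X_pow_eq_monomial, map_mul, map_pow, evJ_X, evJ_C]
    rfl
  rw [h1, h2]
  ext n
  rw [HahnSeries.map_coeff, Finset.sum_mul, Finset.sum_mul, HahnSeries.coeff_sum,
    HahnSeries.coeff_sum, map_sum]
  refine Finset.sum_congr rfl fun i _ => ?_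
  rw [mul_assoc, mul_assoc, HahnSeries.C_mul_eq_smul, HahnSeries.C_mul_eq_smul,
    HahnSeries.coeff_smul, HahnSeries.coeff_smul, smul_eq_mul, smul_eq_mul]
  have h3 : jqModC L ^ i * coeffMap (algebraMap ℚ L) u =
      coeffMap (algebraMap ℚ L) (jqModC ℚ ^ i * u) := by
    rw [map_mul, map_pow, coeffMap_jqModC]
  rw [h3, coeffMap_coeff, mul_comm, ← Algebra.smul_def, map_smul, smul_eq_mul, mul_comm]

/-- Descent of polynomial relations from `L` to `ℚ`. -/
theorem exists_descent {ι : Type*} [Fintype ι] (v : ι → LaurentSeries ℚ) (P : ι → L[X])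
    (hP : ∃ i, P i ≠ 0)
    (h : ∑ i, evJ L (P i) * coeffMap (algebraMap ℚ L) (v i) = 0) :
    ∃ Q : ι → ℚ[X], (∃ i, Q i ≠ 0) ∧ ∑ i, evJ ℚ (Q i) * v i = 0 := by
  obtain ⟨i₀, hi₀⟩ := hP
  have hc : (P i₀).leadingCoeff ≠ 0 := leadingCoeff_ne_zero.2 hi₀
  obtain ⟨s, hs⟩ : ∃ s : L →ₗ[ℚ] ℚ, s (P i₀).leadingCoeff ≠ 0 := by
    by_contra hcon
    push Not at hcon
    exact hc ((Module.forall_dual_apply_eq_zero_iff ℚ _).1 hcon)
  refine ⟨fun i => mapFun s.toAddMonoidHom (P i), ⟨i₀, fun h0 => ?_⟩, ?_⟩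
  · have := congrArg (fun p => p.coeff (P i₀).natDegree) h0
    simp only [coeff_mapFun, coeff_zero] at this
    exact hs this
  · simp_rw [← map_evJ_mul]
    have h5 : ((∑ i, evJ L (P i) * coeffMap (algebraMap ℚ L) (v i)).map s : LaurentSeries ℚ) =
        ∑ i, (evJ L (P i) * coeffMap (algebraMap ℚ L) (v i)).map s := by
      ext n
      rw [HahnSeries.map_coeff, HahnSeries.coeff_sum, HahnSeries.coeff_sum, map_sum]
      rfl
    rw [← h5, h]
    ext n
    simp

theorem coeffMap_mem_fullC {N : ℕ} {f : LaurentSeries ℚ} (hf : f ∈ modularFunctionFieldFull N) :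
    coeffMap (algebraMap ℚ L) f ∈ modularFunctionFieldFullC L N := by
  rw [modularFunctionFieldFull] at hf
  induction hf using IntermediateField.adjoin_induction with
  | mem x hx =>
    obtain ⟨d, hd0, hd, rfl⟩ := hx
    have h1 : coeffMap (algebraMap ℚ L) (qExpand ℚ d jq) = qExpand L d (jqModC L) := by
      rw [coeffMap_qExpand, ← jqModC_rat, coeffMap_jqModC]
    rw [h1]
    exact jqModCd_mem_full L N hd
  | algebraMap x =>
    have h1 : coeffMap (algebraMap ℚ L) (algebraMap ℚ (LaurentSeries ℚ) x) =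
        algebraMap L (LaurentSeries L) (algebraMap ℚ L x) := by
      rw [ModularCurve.algebraMap_apply_eq_single, algebraMap_laurentSeries_eq_single,
        coeffMap_single]
    rw [h1]
    exact (modularFunctionFieldFullC L N).algebraMap_mem _
  | add x y _ _ hx hy => rw [map_add]; exact add_mem hx hy
  | inv x _ hx => rw [map_inv₀]; exact inv_mem hx
  | mul x y _ _ hx hy => rw [map_mul]; exact mul_mem hx hy

end Descent

section DD

variable {N : ℕ} [NeZero N] {ℓ : ℕ} [hℓ : Fact ℓ.Prime]

/-- **From the degree theorem to the reduction data.** -/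
theorem nonempty_degreeData {n : ℕ} (hn : 0 < n) (K : Type) [Field K]
    (r : ↥(GaloisRep.ratLocalizedAt ℓ) →+* K) (hr0 : r (ℓ : ↥(GaloisRep.ratLocalizedAt ℓ)) = 0)
    (hK : relfinrank K⟮jqModC K⟯ (modularFunctionFieldFullC K N) = n)
    (L : Type) [Field L] [Algebra ℚ L]
    (hL : relfinrank L⟮jqModC L⟯ (modularFunctionFieldFullC L N) = n) :
    Nonempty (DegreeData N ℓ) := by
  classical
  obtain ⟨b, hb, hcard, hli⟩ := exists_monomial_basis hn hK
  have hfin : Finite b := Nat.finite_of_card_ne_zero (by omega)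
  have hne : Nonempty b := (Nat.card_pos_iff.1 (by omega)).1
  let _ : Fintype b := Fintype.ofFinite b
  choose β hβ hβx using fun x : b => exists_int_of_mem_monoJ N (hb x.2)
  have hβQ : ∀ i, coeffMap (Int.castRingHom ℚ) (β i) ∈ modularFunctionFieldFull N := by
    intro i
    rw [← modularFunctionFieldFullC_rat]
    exact monoJ_le N ℚ (coeffMap_mem_monoJ N _ (hβ i))
  refine ⟨⟨b, β, hβQ, K, r, hr0, ?_, ?_⟩⟩
  · intro P h
    refine eq_zero_of_sum_evJ hli P ?_
    rw [← h]
    refine Finset.sum_congr rfl fun i _ => ?_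
    rw [hβx i]
  · intro f hf
    let v : Option b → LaurentSeries ℚ :=
      fun o => o.elim f (fun i => coeffMap (Int.castRingHom ℚ) (β i))
    have hv : ∀ o, v o ∈ modularFunctionFieldFull N := by
      intro o
      cases o with
      | none => exact hf
      | some i => exact hβQ i
    have hcard2 : n < Fintype.card (Option b) := by
      rw [Fintype.card_option, ← Nat.card_eq_fintype_card, hcard]
      omega
    have h1 := not_linearIndependent hn hL (fun o => coeffMap (algebraMap ℚ L) (v o))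
      (fun o => coeffMap_mem_fullC (hv o)) hcard2
    obtain ⟨P, hP, hsum⟩ := exists_sum_evJ_of_not_linearIndependent h1
    obtain ⟨Q, ⟨o, hQ⟩, hsum2⟩ := exists_descent v P hP hsum
    refine ⟨Q none, fun i => - Q (some i), ?_, ?_⟩
    · cases o with
      | none => exact .inl hQ
      | some i => exact .inr ⟨i, neg_ne_zero.2 hQ⟩
    · rw [Fintype.sum_option] at hsum2
      simp only [map_neg, neg_mul, Finset.sum_neg_distrib]
      exact eq_neg_of_add_eq_zero_left hsum2

end DD

end Fermat.Agent.H28
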