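import Fermat.Agent.H68IgusaHint

/-!
# S28 from `ℓ`-saturation alone: `hint` is discharged by `H68IgusaHint`.
-/

set_option autoImplicit false

open CategoryTheory CategoryTheory.Limits AlgebraicGeometry ModularCurve ModularCurve.IgusaScheme

noncomputable section

namespace Fermat.Agent.H68

set_option maxHeartbeats 4000000 in
set_option synthInstance.maxHeartbeats 400000 in
/-- The S28 conclusion from the two `ℓ`-saturation statements only. -/
theorem isIntegral_pullback_igusaTo_of_div (N : ℕ) [NeZero N] (ℓ : ℕ) [Fact ℓ.Prime]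
    (hdivF : ∀ f ∈ chartAlgFin N ℓ,
      (∀ n : ℤ, ∃ w ∈ GaloisRep.ratLocalizedAt ℓ, (f : LaurentSeries ℚ).coeff n = (ℓ : ℚ) * w) →
        ∃ g ∈ chartAlgFin N ℓ, f = (ℓ : ↥(modularFunctionFieldFull N)) * g)
    (hdivI : ∀ f ∈ chartAlgInf N ℓ,
      (∀ n : ℤ, ∃ w ∈ GaloisRep.ratLocalizedAt ℓ, (f : LaurentSeries ℚ).coeff n = (ℓ : ℚ) * w) →
        ∃ g ∈ chartAlgInf N ℓ, f = (ℓ : ↥(modularFunctionFieldFull N)) * g)
    (K : Type) [Field K] [CharP K ℓ] [Algebra ↥(GaloisRep.ratLocalizedAt ℓ) K] :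
    IsIntegral ↑(pullback (igusaTo N ℓ)
      (Spec.map (CommRingCat.ofHom (algebraMap ↥(GaloisRep.ratLocalizedAt ℓ) K)))) :=
  isIntegral_pullback_igusaTo_of_coeff N ℓ (hintF N ℓ) hdivF (hintI N ℓ) hdivI K

end Fermat.Agent.H68
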