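import Mathlib
import Fermat.Agent.H28Degree
import Fermat.Agent.H68IgusaFinal

/-!
# S28 from the degree theorem
-/

set_option autoImplicit false

noncomputable section

open Polynomial ModularCurve ModularCurve.IgusaScheme IntermediateField
open AlgebraicGeometry CategoryTheory CategoryTheory.Limits

namespace Fermat.Agent.H28

theorem dedekindPsi_pos (N : ℕ) [NeZero N] : 0 < dedekindPsi N := by
  rw [dedekindPsi]
  refine Finset.sum_pos' (fun _ _ => Nat.zero_le _) ⟨1, ?_, ?_⟩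
  · simp [NeZero.ne N]
  · simpa using Nat.pos_of_ne_zero (NeZero.ne N)

/-- The degree theorem (to be supplied). -/
def DegreeTheorem (N : ℕ) : Prop :=
  ∀ (K : Type) [Field K] [IsAlgClosed K], (N : K) ≠ 0 →
    relfinrank K⟮jqModC K⟯ (modularFunctionFieldFullC K N) = dedekindPsi N

theorem nonempty_degreeData_of_degreeTheorem (N : ℕ) [NeZero N] (ℓ : ℕ) [hℓ : Fact ℓ.Prime]
    (hℓN : ¬ ℓ ∣ N) (h : DegreeTheorem N) : Nonempty (DegreeData N ℓ) := by
  have := isMaximal_span_ratLoc ℓ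
  let k := ↥(GaloisRep.ratLocalizedAt ℓ) ⧸ Ideal.span {(ℓ : ↥(GaloisRep.ratLocalizedAt ℓ))}
  let _ : Field k := Ideal.Quotient.field _
  let K := AlgebraicClosure k
  let r : ↥(GaloisRep.ratLocalizedAt ℓ) →+* K :=
    (algebraMap k K).comp (Ideal.Quotient.mk _)
  have hr : ∀ z, r z = 0 → (ℓ : ↥(GaloisRep.ratLocalizedAt ℓ)) ∣ z := by
    intro z hz
    have h1 : Ideal.Quotient.mk (Ideal.span {(ℓ : ↥(GaloisRep.ratLocalizedAt ℓ))}) z = 0 := by
      apply (algebraMap k K).injective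
      rw [map_zero]
      exact hz
    rw [Ideal.Quotient.eq_zero_iff_mem, Ideal.mem_span_singleton] at h1
    exact h1
  have hr0 : r (ℓ : ↥(GaloisRep.ratLocalizedAt ℓ)) = 0 := by
    have h1 : Ideal.Quotient.mk (Ideal.span {(ℓ : ↥(GaloisRep.ratLocalizedAt ℓ))})
        (ℓ : ↥(GaloisRep.ratLocalizedAt ℓ)) = 0 := by
      rw [Ideal.Quotient.eq_zero_iff_mem]
      exact Ideal.mem_span_singleton_self _
    show (algebraMap k K) _ = 0
    rw [h1, map_zero]
  have hN : (N : K) ≠ 0 := by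
    intro h0
    have h1 : r (N : ↥(GaloisRep.ratLocalizedAt ℓ)) = 0 := by rw [map_natCast]; exact h0
    have h2 := (dvd_ratLoc_iff ℓ _).1 (hr _ h1)
    apply hℓN
    have h3 : (((N : ↥(GaloisRep.ratLocalizedAt ℓ)) : ℚ)).num = (N : ℤ) := by
      have : ((N : ↥(GaloisRep.ratLocalizedAt ℓ)) : ℚ) = (N : ℚ) := rfl
      rw [this, Rat.num_natCast]
    rw [h3] at h2
    exact_mod_cast h2
  exact nonempty_degreeData (dedekindPsi_pos N) K r hr0 (h K hN) ℂ
    (h ℂ (by exact_mod_cast NeZero.ne N))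

/-- **S28 from the degree theorem.** -/
theorem isIntegral_pullback_of_degreeTheorem (N : ℕ) [NeZero N] (ℓ : ℕ) [Fact ℓ.Prime]
    (hℓN : ¬ ℓ ∣ N) (h : DegreeTheorem N)
    (K : Type) [Field K] [CharP K ℓ] [Algebra ↥(GaloisRep.ratLocalizedAt ℓ) K] :
    AlgebraicGeometry.IsIntegral ↑(pullback (igusaTo N ℓ)
      (Spec.map (CommRingCat.ofHom (algebraMap ↥(GaloisRep.ratLocalizedAt ℓ) K)))) := by
  obtain ⟨dd⟩ := nonempty_degreeData_of_degreeTheorem N ℓ hℓN h
  exact H68.isIntegral_pullback_igusaTo_of_div N ℓ (hdivF dd) (hdivI dd) K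

end Fermat.Agent.H28
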