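import Fermat.Agent.S24
import Fermat.Agent.S28
import Fermat.Agent.H23HauptL
import Fermat.Agent.H94Export
import Fermat.Agent.H78FFField

/-!
# Reader's guide: the function field of `X₀(N)` (S24, S28)

This file contains no new mathematics. Every theorem below is proved by citing a theorem of the
library; the statements are written out, so that a reader can see what has been proved without
trusting the prose of NOTES.md (there: Appendix A.4, documents [179], [125], [239], [116], [136],
[150]). Only `Guide` imports it. Modular forms are the subject of `GuideModularForms`, general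
theorems on function fields in one variable that of `GuideFunctionField`, the comparison of `J₀(N)`
with characters of `Γ₀(N)` that of `GuideBridge`. The steps of the proofs are in the companion files
`GuideCusps` (expansions of modular functions at points and cusps, the modular polynomial over `ℤ`),
`GuideRamification` (places, differentials, Riemann-Hurwitz, the two genera), `GuideProjectiveLine`
(cosets and cusps of `Γ₀(N)`), `GuideModularEquation` (degree of `j` in every characteristic),
`GuideIgusaModel` and `GuideSaturation` (S28).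

## What the block does

The modular curve `X₀(N)` never appears as a Riemann surface or as a moduli space: it is the
function field `K(j(q^d) : d ∣ N)` inside `K((q))`, over any field `K`. The block proves, for all
`N` at once,

* over subfields of `ℂ`: the degree of `j` is the index `ψ(N)` of `Γ₀(N)`, the ramification of `j` is
  given by the orbits of `T`, `S`, `S T` on the cosets of `Γ₀(N)`, and the genus is
  `1 + ψ(N)/12 - ν₂/4 - ν₃/3 - c/2` (S24); the same method works for other subgroups of `SL(2, ℤ)`
  (used for `Γ₁(M)` in S48);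
* over algebraically closed fields of characteristic prime to `N`: the degree of `j` is `ψ(N)`;
  therefore the fibre of the Igusa model of `X₀(N)` at a prime not dividing `N` is geometrically
  integral (S28);
* explicit equations for `X₀(2)` and `X₀(3)` over every ring.

## Reading order

1. characteristic zero; 2. other subgroups; 3. all characteristics; 4. explicit functions. The
sections are independent of each other.

## Notation

`Gamma0 N` is the group `Γ₀(N)`, `ψ(N) = dedekindPsi N = N ∏_{p ∣ N} (1 + 1/p)` its index,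
`ν₂ = nuTwo N`, `ν₃ = nuThree N` the numbers of solutions of `x² + 1 = 0`, resp. `x² + x + 1 = 0`, in
`ℤ/N`, and `c = cuspCount N = ∑_{d ∣ N} φ(gcd(d, N/d))` the number of cusps. `LaurentSeries K` is
`K((q))`, `qExpand K d` is the substitution `q ↦ q^d`, and `jqModC K` is the series
`j(q) = 1/q + 744 + 196884 q + ...` with coefficients in the commutative ring `K`.
-/

set_option autoImplicit false

open UpperHalfPlane ModularForm MatrixGroups CongruenceSubgroup Module
open ModularCurve AlgebraicCurve
open scoped Manifold Topology IntermediateField TensorProduct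

noncomputable section

namespace Fermat.Agent.Guide.ModularCurves

/-! ## 1. The function field of `X₀(N)` over a subfield of `ℂ`

`modularFunctionFieldFullC K N` is the subfield of `K((q))` generated over `K` by the series
`j(q^d)`, `d ∣ N`, and `H24.jF K N` is its element `j(q)`. `Place K F` is the set of places of the
function field `F` over `K`, `v.ord` the normalised valuation, `genusFF K F` the genus of the
Riemann-Roch theorem (the dimension of `H¹(0)`, in terms of repartitions); these are definitions
of the Prelude. -/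

/-- The field `F_N = K(j(q^d) : d ∣ N)` inside `K((q))`. Definition of the Prelude. -/
theorem functionField_eq (K : Type*) [Field K] (N : ℕ) :
    modularFunctionFieldFullC K N = IntermediateField.adjoin K
      {x : LaurentSeries K | ∃ (d : ℕ) (_ : NeZero d), d ∣ N ∧ x = qExpand K d (jqModC K)} :=
  rfl

/-- Function fields in one variable (`H94.FunField K F`): `F` is a finite extension of `K(x)` for
some transcendental element `x`. Defined in `H94FunField`. -/
theorem funField_iff (K F : Type*) [Field K] [Field F] [Algebra K F] :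
    H94.FunField K F ↔ ∃ x : F, Transcendental K x ∧ FiniteDimensional K⟮x⟯ F :=
  ⟨fun h => h.1, fun h => ⟨h⟩⟩

/-- **Places from expansions** (numerical form of the Riemann existence theorem). Let `K` be
algebraically closed of characteristic zero, `F/K` a function field in one variable and `x ∈ F`
transcendental of degree `n = [F : K(x)]`. Let `s_i`, `i ∈ ι`, `|ι| = n`, be distinct embeddings of
`F` into one field `C((t))` with `s_i(x) = y` of order `e > 0` for all `i`, and suppose that the
substitution `t ↦ ζ t`, `ζ` a primitive `e`-th root of unity, permutes the embeddings by `π`. Then the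
zeros of `x` are in bijection with the cycles of `π`, and the order of `x` at a zero is the length of
the cycle. (The number `n` of embeddings is the point: because of it there are no further zeros.)
Proved in `H94Orbits`, `H94OrbitCount`; used for `x = j - j(z)` and `x = 1/j` with the expansions at
`z` and at `i∞` of the translates `f(g τ)` (`H24Field`, `H24Final`): in `H94Genus` (S24), in
`H94Export` (next theorems) and in `H45FormFunA` (divisor of a cusp form). -/
theorem places_of_expansions (K F C ι : Type*) [Field K] [Field F] [Algebra K F] [Field C]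
    [Algebra K C] [Fintype ι] [CharZero K] [IsAlgClosed K] [H94.FunField K F] (x : F)
    (hx : Transcendental K x) (s : ι → (F →ₐ[K] LaurentSeries C)) (hs : Function.Injective s)
    (hcard : Fintype.card ι = finrank K⟮x⟯ F) (y : LaurentSeries C) (hy : ∀ i, s i x = y)
    (e : ℕ) (he : 0 < e) (hye : y.order = e) (ζ : C) (hζ : IsPrimitiveRoot ζ e)
    (π : Equiv.Perm ι) (hπ : ∀ i f (n : ℤ), (s (π i) f).coeff n = ζ ^ n * (s i f).coeff n) :
    ∃ V : ι → Place K F, (∀ v : Place K F, 0 < v.ord x ↔ ∃ i, V i = v) ∧
      (∀ i j, V i = V j ↔ π.SameCycle i j) ∧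
      ∀ i, (V i).ord x = Function.minimalPeriod π i := by
  obtain ⟨V, _, h2, h3, h4, h5, _⟩ := H94.exists_places_orbits hx s hs hcard hy he hye hζ hπ
  exact ⟨V, fun v => ⟨h3 v, fun ⟨i, hi⟩ => hi ▸ h2 i⟩, h4, h5⟩

/-- **Riemann-Hurwitz** for a function `x : X → P¹` of degree `n = [F : K(x)]` which is unramified
outside the finite set `S` and `∞`, over an algebraically closed field of characteristic zero:
`2 g - 2 = ∑_{a ∈ S} (n - #{x = a}) - n - #{poles of x}`. Proved in `H94RiemannHurwitz` (degree of
the divisor of `dx`: this is the form used in S24) and `H94GenusFF` (Kähler genus = Riemann-Roch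
genus); the statement below is used in S18 (`H18Inst`) and in the closure of S01. -/
theorem riemann_hurwitz (K F : Type*) [Field K] [Field F] [Algebra K F] [CharZero K]
    [IsAlgClosed K] [H94.FunField K F] (x : F) (hx : Transcendental K x) (S : Finset K)
    (hS : ∀ a ∉ S, ∀ v : Place K F, 0 < v.ord (x - algebraMap K F a) →
      v.ord (x - algebraMap K F a) = 1) :
    2 * (genusFF K F : ℤ) - 2 = ∑ a ∈ S, ((finrank K⟮x⟯ F : ℤ) -
        Nat.card {v : Place K F // 0 < v.ord (x - algebraMap K F a)}) -
      finrank K⟮x⟯ F - Nat.card {v : Place K F // 0 < v.ord x⁻¹} :=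
  H94.two_mul_genusFF hx S hS

/-- **The degree of `j` on `X₀(N)`**: for every subfield `K` of `ℂ` one has
`[F_N : K(j)] = [SL(2, ℤ) : Γ₀(N)] = ψ(N)`. Upper bound: every element of `K[j(dτ)]` is a root of the
polynomial of its `SL(2, ℤ)`-conjugates, and the primitive element theorem; lower bound: the
expansions of `f(g τ)` are distinct embeddings. Proved in `H24Field`; used in `H24Final` (S24),
`H94Export` and `H96Chart`. -/
theorem degree_of_j (K : Type*) [Field K] [Algebra K ℂ] (N : ℕ) [NeZero N] :
    finrank K⟮H24.jF K N⟯ (modularFunctionFieldFullC K N) = dedekindPsi N := by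
  classical
  have : Fintype (SL(2, ℤ) ⧸ Gamma0 N) := Fintype.ofFinite _
  rw [H24.finrank_eq, ← Nat.card_eq_fintype_card]; exact H45.index_Gamma0 N

/-- **Ramification of `j` on `X₀(N)`** (`K` an algebraically closed subfield of `ℂ`): `j` has
`cuspCount N` poles, of orders dividing `N`; the number of its zeros is the number of orbits of
`S T` on `SL(2, ℤ) / Γ₀(N)`, and their orders divide 3; the same for `j - 1728`, the orbits of `S`
and orders dividing 2; all other values are unramified. Proved in `H94Export`, where these facts and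
the genus are collected in a structure `H94.X0PlaceData`; in this form they are used in `H18Inst`
(S18), `H39Poles`, `H8Ord3`, `H1HauptDer`, `H26CEll`, `H98CJ3`. -/
theorem ramification_of_j (K : Type*) [Field K] [Algebra K ℂ] [IsAlgClosed K] (N : ℕ) [NeZero N] :
    Nat.card {v : Place K (modularFunctionFieldFullC K N) // v.ord (H24.jF K N) < 0} =
      cuspCount N ∧
    (∀ v : Place K (modularFunctionFieldFullC K N), v.ord (H24.jF K N) < 0 →
      v.ord (H24.jF K N) ∣ (N : ℤ)) ∧
    Nat.card {v : Place K (modularFunctionFieldFullC K N) // 0 < v.ord (H24.jF K N)} =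
      Nat.card (MulAction.orbitRel.Quotient
        (Subgroup.zpowers (ModularGroup.S * ModularGroup.T)) (SL(2, ℤ) ⧸ Gamma0 N)) ∧
    (∀ v : Place K (modularFunctionFieldFullC K N), 0 < v.ord (H24.jF K N) →
      v.ord (H24.jF K N) ∣ 3) ∧
    Nat.card {v : Place K (modularFunctionFieldFullC K N) //
        0 < v.ord (H24.jF K N - algebraMap K _ 1728)} =
      Nat.card (MulAction.orbitRel.Quotient
        (Subgroup.zpowers ModularGroup.S) (SL(2, ℤ) ⧸ Gamma0 N)) ∧
    (∀ v : Place K (modularFunctionFieldFullC K N), 0 < v.ord (H24.jF K N - algebraMap K _ 1728) →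
      v.ord (H24.jF K N - algebraMap K _ 1728) ∣ 2) ∧
    ∀ a : K, a ≠ 0 → a ≠ 1728 → ∀ v : Place K (modularFunctionFieldFullC K N),
      0 < v.ord (H24.jF K N - algebraMap K _ a) → v.ord (H24.jF K N - algebraMap K _ a) = 1 :=
  ⟨H94.card_poles_jF, H94.ord_jF_cusp_dvd, H94.card_zeros_jF, H94.ord_jF_dvd,
    H94.card_zeros_jF_sub, H94.ord_jF_sub_dvd, fun _ h0 h1 => H94.ord_jF_sub_eq_one h0 h1⟩

/-- **The genus formula is a natural number.** Its double is `|X| + 2` minus the numbers of orbits of
`S`, `S T` and `T` on the finite set `X = SL(2, ℤ) / Γ₀(N)` (`H45P1Genus`, `H45P1Cusps`). This number is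
even: the sign of a permutation of `X` with `c` orbits is `(-1) ^ (|X| - c)` (`H45PermSign`), and the
sign of `S T` is the product of the signs of `S` and `T`. It is not negative: it bounds the dimension of
the space of parabolic homomorphisms `Γ₀(N) → ℂ` (`H50Parab`; compare `parabolic_bound` in
`GuidePeriods`). Proved in `H50ParabGamma0`; used in `H94S24` (S24). -/
theorem genusFormula_natural (N : ℕ) [NeZero N] :
    2 * genusFormula N = (dedekindPsi N : ℚ) + 2 - Nat.card (MulAction.orbitRel.Quotient
        (Subgroup.zpowers ModularGroup.S) (SL(2, ℤ) ⧸ Gamma0 N)) -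
      Nat.card (MulAction.orbitRel.Quotient
        (Subgroup.zpowers (ModularGroup.S * ModularGroup.T)) (SL(2, ℤ) ⧸ Gamma0 N)) -
      cuspCount N ∧
    ∃ g : ℕ, (g : ℚ) = genusFormula N :=
  ⟨H45.two_mul_genusFormula N, H50.exists_nat_genusFormula N⟩

/-- **The genus of `X₀(N)`**, Riemann-Roch genus: for every algebraically closed subfield `K` of
`ℂ` the genus of `F_N` over `K` is `1 + ψ(N)/12 - ν₂/4 - ν₃/3 - c/2`. Proved in `H94Export`; used (as
a part of `H94.X0PlaceData`) in `H39Poles`, in the closure of S01. -/
theorem genus_of_functionField (K : Type*) [Field K] [Algebra K ℂ] [IsAlgClosed K] (N : ℕ)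
    [NeZero N] : (genusFF K (modularFunctionFieldFullC K N) : ℚ) =
      1 + (dedekindPsi N : ℚ) / 12 - (nuTwo N : ℚ) / 4 - (nuThree N : ℚ) / 3
        - (cuspCount N : ℚ) / 2 :=
  H94.genusFF_fullC

/-- **The genus of `X₀(N)` (statement S24)**: the same formula (`genusFormula N` is the right side of
the previous theorem, by definition) for the genus defined by the degree of a canonical divisor,
over the algebraic closure of `ℚ`. Proved in `H24Final`. -/
theorem genus_of_X0 (N : ℕ) [NeZero N]
    [HasCanonicalDivisor (K := AlgebraicClosure ℚ) (F := ↥(modularFunctionFieldBar N))] :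
    (genus (AlgebraicClosure ℚ) ↥(modularFunctionFieldBar N) : ℚ) = genusFormula N :=
  S24.result N

/-- **Both genera agree** for every function field in one variable over an algebraically closed
field of characteristic zero: (degree of the divisor of a differential + 2) / 2 is the genus of the
Riemann-Roch theorem, and divisors of differentials exist. No Serre duality: in the Riemann-Hurwitz
formula `deg R = 2 g - 2 + 2 n` for the genus `g` of the Riemann-Roch theorem (`R` the ramification
divisor over `K(x)`, `n = [F : K(x)]`) the inequality `≤` is proved in `H88RH`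
(`riemann_hurwitz_inequality` in `GuideIgusa`) and `≥` in `H94GF1`, `H94GF2`, with the dual basis for
the trace form (`riemann_hurwitz_reverse` in `GuideRamification`). Proved in `H94GenusFF`; used in
`H94Export` and (existence of divisors of differentials) in `H39Poles`. -/
theorem genus_eq_genusFF (K F : Type*) [Field K] [Field F] [Algebra K F] [CharZero K]
    [IsAlgClosed K] [H94.FunField K F] : ∃ _ : HasCanonicalDivisor (K := K) (F := F),
      genus K F = genusFF K F :=
  ⟨H94.hasCanonicalDivisor K F, let _ := H94.hasCanonicalDivisor K F; H94.genus_eq_genusFF⟩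

/-! ## 2. Function fields of other subgroups

For a subgroup `Γ` and a width `M` the ring `H78.FF.GoodAlg K Γ M` replaces `K[j(dτ)]`; its field of
fractions is `H78.FF.FF K Γ M ⊂ K((q))`, and `H78.FF.jFF K Γ M` is its element `j(q)`. Used for
`Γ₁(M) ∩ Γ₀(r)` in S48 (see `GuideGaloisAction`). Here `qParam M τ = exp(2πiτ/M)`. -/

open Function.Periodic in
/-- The function on the upper half plane attached to a Laurent series with coefficients in a
subfield `K` of `ℂ` (`H24.ev K x`): `τ ↦ ∑ x_n q^n`, `q = exp(2πiτ)`. Defined in `H24Ring`. -/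
theorem ev_apply (K : Type*) [Field K] [Algebra K ℂ] (x : LaurentSeries K) (τ : ℍ) :
    H24.ev K x τ = ∑' n : ℤ, algebraMap K ℂ (x.coeff n) * qParam 1 (τ : ℂ) ^ n :=
  rfl

open Function.Periodic in
/-- The good functions for `Γ` and the width `M`: series `x ∈ K((q))` (`K ⊂ ℂ`) which converge
absolutely for `0 < |q| < 1`, whose function `x(τ)` is holomorphic, such that all translates `x(γ τ)`,
`γ ∈ SL(2, ℤ)`, have (absolutely convergent) Laurent expansions in `exp(2πiτ/M)`, and with
`x(γ τ) = x(τ)` for `γ ∈ Γ`. Defined in `H78FFRing`. -/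
theorem mem_goodAlg_iff (K : Type*) [Field K] [Algebra K ℂ] (Γ : Subgroup SL(2, ℤ)) (M : ℕ)
    [NeZero M] (x : LaurentSeries K) : x ∈ H78.FF.GoodAlg K Γ M ↔
      (∀ r : ℝ, 0 < r → r < 1 → Summable fun n : ℤ => ‖algebraMap K ℂ (x.coeff n)‖ * r ^ n) ∧
      MDiff (H24.ev K x) ∧
      (∀ γ : SL(2, ℤ), ∃ F : LaurentSeries ℂ,
        (∀ r : ℝ, 0 < r → r < 1 → Summable fun n : ℤ => ‖F.coeff n‖ * r ^ n) ∧
        ∀ τ : ℍ, qParam M (τ : ℂ) ≠ 0 →
          ∑' n : ℤ, F.coeff n * qParam M (τ : ℂ) ^ n = H24.ev K x (γ • τ)) ∧
      ∀ γ ∈ Γ, (fun τ => H24.ev K x (γ • τ)) = H24.ev K x :=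
  ⟨fun h => ⟨h.1, h.2, h.3, h.4⟩, fun h => ⟨h.1, h.2.1, h.2.2.1, h.2.2.2⟩⟩

/-- **Degree of `j`** on the curve of `Γ`: if the good functions separate `Γ` (an element of
`SL(2, ℤ)` which fixes all of them is in `Γ`), then `[FF : K(j)] = [SL(2, ℤ) : Γ]`. The proof is the
one of `degree_of_j`. Proved in `H78FFField`; used in S48 (`H50EmbC`). -/
theorem degree_of_j_of_subgroup (K : Type*) [Field K] [Algebra K ℂ] (Γ : Subgroup SL(2, ℤ))
    [Γ.FiniteIndex] (M : ℕ) [NeZero M] (hsep : ∀ γ : SL(2, ℤ), (∀ x ∈ H78.FF.GoodAlg K Γ M,
      (fun τ => H24.ev K x (γ • τ)) = H24.ev K x) → γ ∈ Γ) :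
    finrank K⟮H78.FF.jFF K Γ M⟯ (H78.FF.FF K Γ M) = Nat.card (SL(2, ℤ) ⧸ Γ) :=
  H78.FF.finrank_eq hsep

/-! ## 3. All characteristics: the degree of `j` and the fibres of the Igusa model

Here `K` is a field of any characteristic in which `N ≠ 0`. Nothing is used about elliptic curves
over `K`: identities of power series over `ℤ[ζ]` are transferred from `ℂ` to `K`. -/

/-- The substitution `q ↦ u q` on Laurent series (`H66.tw u`), for a unit `u` of the coefficient
ring. Defined in `H66Twist`. -/
theorem coeff_tw (A : Type*) [CommRing A] (u : Aˣ) (f : LaurentSeries A) (n : ℤ) :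
    (H66.tw u f).coeff n = ((u ^ n : Aˣ) : A) * f.coeff n :=
  H66.tw_coeff u f n

/-- **Level one.** A modular form of level one and weight `12 n`, divided by `Δ^n`, is a polynomial in
`j` (as a formal series; `H28.deltaInvL ℂ` is the series `1/Δ(q)`). Proved in `H66Level1`; used to
compute traces: the conjugates of a polynomial in `j(pτ)` have power sums which are polynomials in
`j` by the Hecke operator `T_p` (`H66Trace`). -/
theorem levelOne_div_discriminant (n : ℕ) (F : ModularForm 𝒮ℒ ((12 * n : ℕ) : ℤ)) :
    ∃ P : Polynomial ℂ, HahnSeries.ofPowerSeries ℤ ℂ (qExpansion 1 F) * H28.deltaInvL ℂ ^ n =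
      Polynomial.aeval (jqModC ℂ) P :=
  H66.IsMF.exists_aeval n ⟨F, rfl⟩

open Polynomial in
/-- **The modular polynomial** of a prime `p` over every field `K` with a primitive `p`-th root of
unity `ζ` (so `p ≠ 0` in `K`): there is a monic `Φ(Y, X)` of degree `p + 1` in `X` with
`Φ(j(t^p), X) = (X - j(t^(p²))) ∏_{i mod p} (X - j(ζ^i t))`; with `t = q^(1/p)` these are the
conjugates `j(pτ)` and `j((τ + i)/p)`. Proof: over `ℂ` the traces are computed with the Hecke
operator `T_p` in level one; then descent to `ℤ[ζ]` and reduction. Proved in `H66Trace`,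
`H66Modular`, `H66Descend`, `H66Field`; used in `degree_of_j_full`. -/
theorem exists_modular_polynomial (K : Type*) [Field K] (p : ℕ) [Fact p.Prime] (ζ : Kˣ)
    (hζ : IsPrimitiveRoot ζ p) : ∃ Φ : K[X][X], Φ.Monic ∧ Φ.natDegree = p + 1 ∧
      Φ.map (aeval (qExpand K p (jqModC K)) : K[X] →ₐ[K] LaurentSeries K).toRingHom =
        (X - C (qExpand K p (qExpand K p (jqModC K)))) *
          ∏ i : Fin p, (X - C (H66.tw (ζ ^ (i : ℕ)) (jqModC K))) := by
  obtain ⟨Φ, h1, h2, h3⟩ := H66.exists_poly _ (H66.modEq_field K p ζ hζ).phi
  rw [H66.phiAt, H66.J_eq, Fintype.prod_option, H66.jf_none] at h3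
  exact ⟨Φ, h1, h2, h3⟩

/-- `j(q^p)` is not a rational function of `j(q)`, over every field with a primitive `p`-th root of
unity. Proof (it replaces the irreducibility of the modular polynomial): otherwise the `p`-th power
of `p^12 Δ(q^p)/Δ(q)` is in `K(j)` and integral over `K[j]`, hence a polynomial in `j`; but it has a
zero at the cusp. Proved in `H66NotMem`; used in `degree_of_j_full` and in `H9Swap` (closure of
S01). -/
theorem j_p_notMem (K : Type*) [Field K] (p : ℕ) [Fact p.Prime] (ζ : Kˣ)
    (hζ : IsPrimitiveRoot ζ p) (hp : (p : K) ≠ 0) : qExpand K p (jqModC K) ∉ K⟮jqModC K⟯ :=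
  H66.J_eq K p ▸ H66.J_notMem (H66.modEq_field K p ζ hζ) hp

/-- **The degree theorem in all characteristics**: `[K(j(q^d) : d ∣ N) : K(j(q))] = ψ(N)` for every
algebraically closed field `K` of characteristic prime to `N` (primitive `p`-th roots of unity for
all primes `p` different from the characteristic are enough: `H66.relfinrank_full_of_hasRoots`).
Proof by induction on `N` (one prime factor `p` at a time: the degree is multiplied by `p + 1` if
`p` does not divide `N`, by `p` if it does), from the modular polynomials, `j_p_notMem` and the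
orders of the conjugates at the cusp; separability is not used, `2` and `3` are not special. Proved in
`H66Degree`; it is the only source of this degree in characteristic `ℓ`: used in S28, S18 (`H18Inst`)
and in about 20 other modules on the reduction of `X₀(N)` and on the congruence relation (`H67Gen`,
`H39Core`, `H42Inputs`, `H60Bridge`, ...). -/
theorem degree_of_j_full (K : Type*) [Field K] [IsAlgClosed K] (N : ℕ) [NeZero N]
    (hN : (N : K) ≠ 0) :
    IntermediateField.relfinrank K⟮jqModC K⟯ (modularFunctionFieldFullC K N) = dedekindPsi N :=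
  H66.relfinrank_full K N hN

/-- The chart rings of the Igusa model: `chartAlg N ℓ S` is the integral closure of `ℤ_(ℓ)[S]` in
`F_N = ℚ(j(q^d) : d ∣ N)` (`S = {j}` and `S = {1/j}` for the two charts). Definition of the
Prelude. -/
theorem mem_chartAlg_iff (N : ℕ) [NeZero N] (ℓ : ℕ) [Fact ℓ.Prime]
    (S : Set (modularFunctionFieldFull N)) (f : modularFunctionFieldFull N) :
    f ∈ IgusaScheme.chartAlg N ℓ S ↔
      IsIntegral (Algebra.adjoin (GaloisRep.ratLocalizedAt ℓ) S) f :=
  Iff.rfl

/-- **Functions on the charts have `ℓ`-integral coefficients.** Let `s = j` or `s = 1/j`. The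
coefficients of an element `f` of `F_N` which is integral over `ℤ_(ℓ)[s]` are in `ℤ_(ℓ)`. Idea: `f` is
almost integral over the ring of Laurent series with coefficients in `ℤ_(ℓ)`, because it is integral
over it and a quotient of two of its elements. Proved in `H68IgusaHint`; used in S28. -/
theorem coeff_mem_ratLocalizedAt (N : ℕ) [NeZero N] (ℓ : ℕ) [Fact ℓ.Prime]
    (s f : modularFunctionFieldFull N)
    (hs : s = IgusaScheme.jFull N ∨ s = (IgusaScheme.jFull N)⁻¹)
    (hf : f ∈ IgusaScheme.chartAlg N ℓ {s}) (n : ℤ) :
    (f : LaurentSeries ℚ).coeff n ∈ GaloisRep.ratLocalizedAt ℓ := by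
  obtain rfl | rfl := hs
  exacts [H68.hintF N ℓ f hf n, H68.hintI N ℓ f hf n]

/-- **Saturation.** Let `ℓ` be a prime not dividing `N`, `s = j` or `s = 1/j`, and let `f ∈ F_N` be
integral over `ℤ_(ℓ)[s]`. If all coefficients of `f` are divisible by `ℓ` in `ℤ_(ℓ)`, then `f = ℓ g`
with `g` integral over `ℤ_(ℓ)[s]`. Idea: monomials in the `j(q^d)` which form a basis modulo `ℓ` form
a basis in characteristic zero, because the degrees agree (`degree_of_j_full` for `ℂ` and for the
algebraic closure of `ℤ/ℓ`). Proved in `H28Degree`, `H28Reduction`, `H28Final`; used in S28. -/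
theorem saturation (N : ℕ) [NeZero N] (ℓ : ℕ) [Fact ℓ.Prime] (hℓN : ¬ ℓ ∣ N)
    (s f : modularFunctionFieldFull N)
    (hs : s = IgusaScheme.jFull N ∨ s = (IgusaScheme.jFull N)⁻¹)
    (hf : f ∈ IgusaScheme.chartAlg N ℓ {s})
    (h : ∀ n : ℤ, ∃ w ∈ GaloisRep.ratLocalizedAt ℓ, (f : LaurentSeries ℚ).coeff n = (ℓ : ℚ) * w) :
    ∃ g ∈ IgusaScheme.chartAlg N ℓ {s}, f = (ℓ : modularFunctionFieldFull N) * g := by
  obtain ⟨dd⟩ := H28.nonempty_degreeData_of_degreeTheorem N ℓ hℓN fun K _ _ => H66.relfinrank_full K N
  obtain rfl | rfl := hs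
  exacts [H28.hdivF dd f hf h, H28.hdivI dd f hf h]

/-- **Reduction of `q`-expansions.** Let every element of the ring `Z` be an integer plus a multiple
of the prime `ℓ`, let `A` be a `Z`-algebra with an expansion map `c : A → Z((q))` over `Z` such that
an element of `A` whose coefficients are all divisible by `ℓ` is `ℓ` times an element of `A`, and
let `K` be a field of characteristic `ℓ` over `Z`. Then `A ⊗ K` is an integral domain: it embeds
into `K((q))`. Proved in `H68TensorLaurent`; used in S28 (`Z = ℤ_(ℓ)`, `A` a chart ring). -/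
theorem isDomain_of_saturated (Z A K : Type) [CommRing Z] [CommRing A] [Algebra Z A] [Field K]
    [Algebra Z K] (ℓ : ℕ) [Fact ℓ.Prime] [CharP K ℓ]
    (hZ : ∀ z : Z, ∃ (m : ℤ) (w : Z), z = m + (ℓ : Z) * w) (c : A →+* LaurentSeries Z)
    (hc : ∀ z : Z, c (algebraMap Z A z) = HahnSeries.single 0 z)
    (hdiv : ∀ a : A, (∀ n : ℤ, ∃ w : Z, (c a).coeff n = (ℓ : Z) * w) → ∃ b : A, a = (ℓ : A) * b) :
    IsDomain (A ⊗[Z] K) :=
  H68.isDomain_tensor ℓ hZ c hc hdiv

open AlgebraicGeometry in
/-- **Two integral charts.** A scheme which is covered by two integral open subschemes whose images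
meet is integral. Proved in `H68TwoCharts`; used in S28. -/
theorem isIntegral_of_two_charts (X U V : Scheme) (f : U ⟶ X) (g : V ⟶ X) [IsOpenImmersion f]
    [IsOpenImmersion g] [IsIntegral U] [IsIntegral V]
    (hcov : ∀ x : X, x ∈ Set.range f ∨ x ∈ Set.range g)
    (hne : (Set.range f ∩ Set.range g).Nonempty) : IsIntegral X :=
  H68.isIntegral_of_two_charts f g hcov hne

open AlgebraicGeometry CategoryTheory CategoryTheory.Limits in
/-- **Geometric integrality of the fibre at `ℓ` (statement S28)**: for a prime `ℓ` not dividing `N`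
and every field `K` of characteristic `ℓ` (a `ℤ_(ℓ)`-algebra) the base change to `K` of the Igusa
model of `X₀(N)` over `ℤ_(ℓ)`, glued from the spectra of the two chart rings, is an integral scheme.
Proved in `H68IgusaFinal`, `H28Final` from the four previous theorems. Classical proofs: Igusa;
Deligne-Rapoport; Katz-Mazur (moduli). -/
theorem isIntegral_fibre (N : ℕ) [NeZero N] (ℓ : ℕ) [Fact ℓ.Prime] (hℓN : ¬ ℓ ∣ N)
    (K : Type) [Field K] [CharP K ℓ] [Algebra ↥(GaloisRep.ratLocalizedAt ℓ) K] :
    AlgebraicGeometry.IsIntegral ↑(pullback (IgusaScheme.igusaTo N ℓ)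
      (Spec.map (CommRingCat.ofHom (algebraMap ↥(GaloisRep.ratLocalizedAt ℓ) K)))) :=
  S28.result N ℓ hℓN K

/-! ## 4. The series `Δ` and `j`, and explicit functions on `X₀(2)` and `X₀(3)` over every ring

`H28.deltaL K` is the series `Δ(q) = q ∏ (1 - q^n)^24` and `H28.deltaInvL K` is its inverse, with
coefficients in `K`. -/

/-- `Δ(q)` is a unit of `K((q))` with inverse `H28.deltaInvL K`; over `ℂ` it is the expansion of the
discriminant: `Δ(τ) = ∑ c_n q^n` for all `τ` in the upper half plane. Proved in `H28Jq`. -/
theorem delta_series (K : Type*) [CommRing K] : H28.deltaL K * H28.deltaInvL K = 1 ∧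
    ∀ τ : ℍ, HasSum (fun n : ℤ =>
      (H28.deltaL ℂ).coeff n * Function.Periodic.qParam 1 (τ : ℂ) ^ n) (discriminant τ) :=
  ⟨H28.deltaL_mul_deltaInvL K, H28.hasExp_discriminant⟩

/-- The series `j(q)` over `ℂ` is the expansion of the function `j = E₄³/Δ`: for all `τ` in the upper
half plane `j(τ) = ∑ c_n q^n`. Proved in `H28Jq` (product formula of `Δ`); used in `H24Ring` (so in
every module which evaluates functions on `X₀(N)`) and `H42Swap`. -/
theorem expansion_of_j (τ : ℍ) :
    HasSum (fun n : ℤ => (jqModC ℂ).coeff n * Function.Periodic.qParam 1 (τ : ℂ) ^ n)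
      (E₄ τ ^ 3 / discriminant τ) :=
  H28.hasExp_jqModC τ

/-- **Level 2.** For `t = Δ(q)/Δ(q²)`: `(t + 256)³ = j(q) t²` and `(t + 16)³ = j(q²) t`, over every
commutative ring. Proved in `H23HauptL` from Sturm's bound (17 coefficients, computed in the
kernel); used in `H18Inst`, `H1Haupt` (closure of S01), `H98CT3` (S39, S40) and `H50HauptA`,
`H50EmbB` (S47, S48). -/
theorem level_two (K : Type*) [CommRing K] (t : LaurentSeries K)
    (ht : t = H28.deltaL K * qExpand K 2 (H28.deltaInvL K)) :
    (t + 256) ^ 3 = jqModC K * t ^ 2 ∧ (t + 16) ^ 3 = qExpand K 2 (jqModC K) * t := by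
  subst ht; exact ⟨H23.Haupt.t2_E1 K, H23.Haupt.t2_E2 K⟩

/-- **Level 3.** There is a unit `t = 1/q - 12 + ...` of `K((q))` with `t² = Δ(q)/Δ(q³)`,
`(t + 27)(t + 243)³ = j(q) t³` and `(t + 27)(t + 3)³ = j(q³) t`, over every commutative ring
(`t = (η(q)/η(q³))^12`). Proved in `H23HauptL`; used in `H18Inst`, `H1Haupt` and `H50HauptA`,
`H50EmbB` (S47, S48). -/
theorem level_three (K : Type*) [CommRing K] : ∃ t : LaurentSeries K, IsUnit t ∧
    t ^ 2 = H28.deltaL K * qExpand K 3 (H28.deltaInvL K) ∧
    (t + 27) * (t + 243) ^ 3 = jqModC K * t ^ 3 ∧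
    (t + 27) * (t + 3) ^ 3 = qExpand K 3 (jqModC K) * t :=
  ⟨H23.Haupt.t3 K, H23.Haupt.isUnit_t3 K, H23.Haupt.t3_sq K, H23.Haupt.t3_E3 K,
    H23.Haupt.t3_E4 K⟩

end Fermat.Agent.Guide.ModularCurves
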