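import Fermat.Agent.H66Degree

/-!
# Reader's guide: the degree of `X₀(N)` over the `j`-line in every characteristic

Companion of `GuideModularCurves` (section 3, `degree_of_j_full`), where the result is stated; this
file contains the steps of its proof.  It contains no new mathematics and nothing imports it: all
theorems are proved by citing theorems of the library.  Editor: helper66 (library files `H66Lead`,
`H66Twist`, `H66Level1`, `H66Trace`, `H66Modular`, `H66Descend`, `H66Field`, `H66Divisor`,
`H66Factor`, `H66Min`, `H66NotMem`, `H66Tower`, `H66Gen`, `H66Degree`).  In prose: NOTES.md,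
Appendix A.4, [116].

**The result.**  Let `K` be a field of any characteristic which contains primitive roots of unity of
all prime orders different from the characteristic, and let `N ≠ 0` in `K`.  The field
`F_N = K(j(q^d) : d ∣ N)` inside `K((q))` has degree `ψ(N) = N ∏_{p ∣ N} (1 + 1/p)` over `K(j(q))`.

**Where it is used.**  Every cited theorem is in the proof terms of S01, S03, S04, S06, S09, S12, S15,
S17 - S19, S28 - S40, S42 - S46, S50, S58 - S60 (in characteristic zero S24 has another proof, see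
`GuideCusps`).  In characteristic `ℓ` it is the only source of the degree: for the geometric
irreducibility of the fibre of `X₀(N)` at `ℓ` (S28), for the equality of the genera (`GuideIgusa`)
and for the degrees of the degeneracy maps (`GuideHecke`).

**The idea.**  Elliptic curves over `K`, reduction, Galois groups and separability do not occur.

1. Let `t = q^(1/p)`.  The `p + 1` conjugates of `j(p τ)` over `K(j)` are the Laurent series
   `j(t^(p²))` and `j(u^i t)`, `i mod p`, `u` a primitive `p`-th root of unity.  Over `ℂ` symmetric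
   functions of such conjugates are computed by the Hecke operator `T_p` in level one: they are
   polynomials in `j` (sections 1, 2).
2. These are identities between Laurent series with coefficients in `ℤ[u]`.  Since `j = 1/q + ...` has
   leading coefficient `1`, the polynomials have coefficients in `ℤ[u]` as well, and the identities
   can be reduced to every field `K` (section 3).  This is the only transfer from `ℂ` to `K`.
3. The rest is algebra over `K` with the orders of the series at the cusp `q = 0`: the modular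
   polynomial `Φ_p` and its roots (section 4); `j(p τ)` is not in `K(j)` (section 5); degrees of
   `j(p d τ)` over fields between `K(j)` and `K((q))` (section 6); induction on `N` (section 7).

Step 3 replaces the irreducibility of `Φ_p` over `K(j)` by the following remark: a factor of
`∏ (X - j_a)` with coefficients in `K((t^p))` contains all or none of the `p` conjugates of order `-1`
(`factor_dichotomy`).

**Notation.**  `jqModC K` is the series `j(q) = 1/q + 744 + ...` over the commutative ring `K`,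
`qExpand K d` the substitution `q ↦ q^d`, `H66.J K d` the series `j(q^d)`, `H66.tw u` the substitution
`q ↦ u q` for a unit `u`, `coeffMap φ` the application of the ring homomorphism `φ` to the coefficients.
`H28.deltaL K` and `H28.deltaInvL K` are the series `Δ(q) = q ∏ (1 - q^n)^24` and `1/Δ(q)`.
`modularFunctionFieldFullC K N` is `F_N`, `dedekindPsi N` is `ψ(N)`, and `relfinrank A B` is the degree of
`B` over `A` for two fields `A ⊂ B` inside `K((q))`.
-/

set_option autoImplicit false

open Polynomial IntermediateField ModularCurve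

noncomputable section

namespace Fermat.Agent.Guide.ModularEquation

/-! ## 1. Laurent series: leading terms and substitutions -/

/-- **Leading terms.**  `HasLead x n c` says that `x = c t^n + (terms of higher order)`; `c = 0` is
allowed.  Leading terms are multiplicative, `t ↦ t^d` multiplies the order by `d`, and `t ↦ u t`
multiplies the leading coefficient by `u^n`.  In `H66Lead`. -/
theorem leading_terms (A : Type*) [CommRing A] (x y : LaurentSeries A) (n m : ℤ) (c c' : A)
    (u : Aˣ) (d : ℕ) [NeZero d] :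
    (H66.HasLead x n c ↔ x.coeff n = c ∧ ∀ m < n, x.coeff m = 0) ∧
    (H66.HasLead x n c → H66.HasLead y m c' → H66.HasLead (x * y) (n + m) (c * c')) ∧
    (H66.HasLead x n c → H66.HasLead (qExpand A d x) (d * n) c) ∧
    (H66.HasLead x n c → H66.HasLead (H66.tw u x) n (((u ^ n : Aˣ) : A) * c)) :=
  ⟨Iff.rfl, fun hx hy => hx.mul hy, fun hx => hx.qExpand d, fun hx => hx.tw u⟩

/-- **Polynomials in a series with a pole.**  If `x = t^(-n) + ...` with `n > 0`, then
`P(x) = a t^(-n deg P) + ...`, `a` the leading coefficient of `P`.  In particular (`n = 1`, `x = j`)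
a polynomial in `j` over a field has no zero at the cusp, unless it is `0`.  In `H66Lead`. -/
theorem polynomial_leading_term (A : Type*) [CommRing A] (x : LaurentSeries A) (n : ℤ)
    (hn : 0 < n) (hx : H66.HasLead x (-n) 1) (P : A[X]) :
    H66.HasLead (P.eval₂ HahnSeries.C x) (-(P.natDegree * n)) P.leadingCoeff :=
  hx.eval₂ hn P

/-- **The expansions of `j` and `Δ`** over a commutative ring `A`: `j = 1/q + ...`, `Δ = q + ...`,
`1/Δ = 1/q + ...`; a ring homomorphism `A → B` maps the series over `A` to those over `B` (they come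
from `ℤ`).  In `H66Lead`. -/
theorem expansions_of_j_and_delta (A B : Type*) [CommRing A] [CommRing B] (φ : A →+* B) :
    (H66.HasLead (jqModC A) (-1) 1 ∧ H66.HasLead (H28.deltaL A) 1 1 ∧
      H66.HasLead (H28.deltaInvL A) (-1) 1) ∧
    coeffMap φ (H28.deltaL A) = H28.deltaL B ∧ coeffMap φ (H28.deltaInvL A) = H28.deltaInvL B :=
  ⟨⟨H66.HasLead.jqModC, H66.hasLead_deltaL A, H66.hasLead_deltaInvL A⟩, H66.coeffMap_deltaL φ,
    H66.coeffMap_deltaInvL φ⟩

/-- **Averages.**  The substitution `t ↦ u t` multiplies the coefficient of `t^n` by `u^n`.  If `A` is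
a domain and `u` a primitive `p`-th root of unity, the coefficient of `t^n` in `∑_{i mod p} f(u^i t)`
is `p` times that of `f` if `p ∣ n`, and `0` otherwise.  In `H66Twist`. -/
theorem averages (A : Type*) [CommRing A] [IsDomain A] (p : ℕ) [NeZero p] (u : Aˣ)
    (hu : IsPrimitiveRoot u p) (f : LaurentSeries A) (n : ℤ) :
    (H66.tw u f).coeff n = ((u ^ n : Aˣ) : A) * f.coeff n ∧
    (∑ i : Fin p, H66.tw (u ^ (i : ℕ)) f).coeff n =
      if (p : ℤ) ∣ n then (p : A) * f.coeff n else 0 :=
  ⟨H66.tw_coeff u f n, H66.coeff_sum_tw p u hu f n⟩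

/-- **The conjugates, and polynomials in `j`.**  `J K d` is the series `j(q^d)` (for `d ≠ 0`).
`InJ A p x` says that the Laurent series `x` in `t = q^(1/p)` is a polynomial in `j(t^p) = j(q)` with
coefficients in `A`.  The `p + 1` conjugates of `j(p τ)` are `jf none = j(t^(p²))` and `jf i = j(u^i t)`,
`i mod p`; those of `v = (p^12 Δ(p τ) / Δ(τ))^p` are `vf none = (p^12 Δ(t^(p²)) / Δ(t^p))^p` and
`vf i = (Δ(u^i t) / Δ(t^p))^p`.  In `H66Field`, `H66Trace`, `H66Modular`. -/
theorem conjugate_notions (A : Type*) [CommRing A] (p : ℕ) [NeZero p] (u : Aˣ) (i : Fin p)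
    (x : LaurentSeries A) (K : Type*) [Field K] (d : ℕ) [NeZero d] :
    H66.J K d = qExpand K d (jqModC K) ∧
    (H66.InJ A p x ↔ ∃ P : A[X], P.eval₂ HahnSeries.C (qExpand A p (jqModC A)) = x) ∧
    H66.jf A p u none = HahnSeries.C 1 * qExpand A p (qExpand A p (jqModC A)) ∧
    H66.jf A p u (some i) = H66.tw (u ^ (i : ℕ)) (jqModC A) ∧
    H66.vf A p u none = (HahnSeries.C ((p : A) ^ 12) * qExpand A p (qExpand A p (H28.deltaL A)) *
      qExpand A p (H28.deltaInvL A)) ^ p ∧
    H66.vf A p u (some i) =
      (H66.tw (u ^ (i : ℕ)) (H28.deltaL A) * qExpand A p (H28.deltaInvL A)) ^ p :=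
  ⟨H66.J_eq K d, Iff.rfl, rfl, rfl, rfl, rfl⟩

/-! ## 2. Over `ℂ`: traces by the Hecke operator in level one -/

open UpperHalfPlane MatrixGroups in
/-- **Forms of level one.**  `IsMF k f` says that the power series `f` is the expansion of a modular
form of weight `k` for `SL₂(ℤ)`.  Forms of weight `0` are constant, and a form `f` of weight `k`
without constant term is `Δ g`, `g` of weight `k - 12`; the series `H66.dl` and `H66.e4` are the
expansions of `Δ` and of the Eisenstein series `E₄ = 1 + 240 q + …`.  (By induction, `f / Δ^n` is a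
polynomial in `j = E₄³ / Δ` if `f` has weight `12 n`: `levelOne_div_discriminant` in
`GuideModularCurves`.)  In `H66Level1`. -/
theorem level_one_forms (k : ℤ) (f : PowerSeries ℂ) :
    (H66.IsMF k f ↔ ∃ F : ModularForm 𝒮ℒ k, qExpansion 1 F = f) ∧
    (H66.IsMF 0 f → ∃ c : ℂ, f = PowerSeries.C c) ∧
    (H66.IsMF k f → f.coeff 0 = 0 → ∃ g, H66.IsMF (k - 12) g ∧ f = H66.dl * g) ∧
    HahnSeries.ofPowerSeries ℤ ℂ H66.dl = H28.deltaL ℂ ∧
    jqModC ℂ = HahnSeries.ofPowerSeries ℤ ℂ H66.e4 ^ 3 * H28.deltaInvL ℂ :=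
  ⟨Iff.rfl, H66.IsMF.zero_weight, H66.IsMF.exists_eq, H66.ofPowerSeries_dl, H66.jqModC_eq⟩

open UpperHalfPlane MatrixGroups in
/-- **Hecke operators in level one.**  If `∑ a_n q^n` is the expansion of a form of level one and
weight `k`, then so is `∑ (a_{pn} + p^(k-1) a_{n/p}) q^n`.  In `H66Level1` (from the Hecke operators
of the Prelude, level `Γ₀(1)`). -/
theorem hecke_level_one (k : ℤ) (F : ModularForm 𝒮ℒ k) (p : ℕ) (hp : p.Prime) :
    ∃ G : ModularForm 𝒮ℒ k, qExpansion 1 G = PowerSeries.mk fun n =>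
      (qExpansion 1 F).coeff (n * p) +
        if p ∣ n then (p : ℂ) ^ (k - 1) * (qExpansion 1 F).coeff (n / p) else 0 :=
  H66.IsMF.hecke ⟨F, rfl⟩ hp

/-- **The sum of the `p + 1` conjugates is the Hecke operator.**  For a power series `f = ∑ a_n q^n`
and `k ∈ ℤ`: `p^k f(t^(p²)) + ∑_{i mod p} f(u^i t) = p g(t^p)`, `g = ∑ (a_{pn} + p^(k-1) a_{n/p}) q^n`.
It follows from `averages`.  In `H66Trace`. -/
theorem sum_of_conjugates (k : ℤ) (f : PowerSeries ℂ) (p : ℕ) [Fact p.Prime] (u : ℂˣ)
    (hu : IsPrimitiveRoot u p) :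
    HahnSeries.C ((p : ℂ) ^ k) * qExpand ℂ p (qExpand ℂ p (HahnSeries.ofPowerSeries ℤ ℂ f)) +
        ∑ i : Fin p, H66.tw (u ^ (i : ℕ)) (HahnSeries.ofPowerSeries ℤ ℂ f) =
      qExpand ℂ p (HahnSeries.C (p : ℂ) * HahnSeries.ofPowerSeries ℤ ℂ
        (PowerSeries.mk fun n => f.coeff (n * p) +
          if p ∣ n then (p : ℂ) ^ (k - 1) * f.coeff (n / p) else 0)) :=
  (Fintype.sum_option _).symm.trans (H66.sum_fam p u hu)

open UpperHalfPlane MatrixGroups in
/-- **Traces.**  For a form `F` of level one and weight `12 n` the sum of the `p + 1` conjugates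
`p^(12 n) F(p τ) / Δ(τ)^n` and `F((τ + i)/p) / Δ(τ)^n`, `i mod p`, is a polynomial in `j`: by
`sum_of_conjugates` it is `p T_p F / Δ^n`, `T_p F` has level one (`hecke_level_one`), and
`levelOne_div_discriminant` (`GuideModularCurves`) applies.  In `H66Trace`. -/
theorem trace_of_conjugates (p : ℕ) [Fact p.Prime] (u : ℂˣ) (hu : IsPrimitiveRoot u p) (n : ℕ)
    (F : ModularForm 𝒮ℒ ((12 * n : ℕ) : ℤ)) :
    ∃ P : ℂ[X], P.eval₂ HahnSeries.C (qExpand ℂ p (jqModC ℂ)) =
      HahnSeries.C ((p : ℂ) ^ (12 * n)) * qExpand ℂ p (qExpand ℂ p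
          (HahnSeries.ofPowerSeries ℤ ℂ (qExpansion 1 F))) * qExpand ℂ p (H28.deltaInvL ℂ) ^ n +
        ∑ i : Fin p, H66.tw (u ^ (i : ℕ)) (HahnSeries.ofPowerSeries ℤ ℂ (qExpansion 1 F)) *
          qExpand ℂ p (H28.deltaInvL ℂ) ^ n :=
  (H66.inJ_trace p u hu n ⟨F, rfl⟩).imp fun _ h => h.trans (Fintype.sum_option _)

/-- **Newton's identities.**  If all power sums of a finite family `z` of Laurent series are
polynomials in `j`, then so are the coefficients of `∏ (X - z_a)`.  In `H66Trace`. -/
theorem coefficients_of_power_sums (p : ℕ) [NeZero p] (σ : Type*) [Fintype σ]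
    (z : σ → LaurentSeries ℂ) (h : ∀ m, 0 < m → H66.InJ ℂ p (∑ a, z a ^ m)) (k : ℕ) :
    H66.InJ ℂ p ((∏ a, (X - C (z a))).coeff k) :=
  H66.inJ_coeff_prod z h k

/-- **Orders in place of cusps.**  (i) A polynomial in `j` of the form `c + (terms of positive order)`
is the constant `c`.  (ii) So the product of the `p + 1` conjugates of `Δ`, divided by `Δ^(p + 1)`, is
the constant `p^12 ∏ u^i`; the statement is its leading term.  In `H66Modular`. -/
theorem constants (A : Type*) [CommRing A] (p : ℕ) [Fact p.Prime] (x : LaurentSeries A) (c : A)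
    (u : ℂˣ) :
    (H66.InJ A p x → H66.HasLead x 0 c → x = HahnSeries.C c) ∧
    H66.HasLead (HahnSeries.C ((p : ℂ) ^ 12) * qExpand ℂ p (qExpand ℂ p (H28.deltaL ℂ)) *
        qExpand ℂ p (H28.deltaInvL ℂ) *
      ∏ i : Fin p, (H66.tw (u ^ (i : ℕ)) (H28.deltaL ℂ) * qExpand ℂ p (H28.deltaInvL ℂ))) 0
      ((p : ℂ) ^ 12 * ∏ i : Fin p, ((u ^ (i : ℕ) : ℂˣ) : ℂ)) :=
  ⟨fun h hx => h.eq_C hx, by
    simpa only [Fintype.prod_option, H66.fam_none, H66.fam_some] using H66.hasLead_prod_delta p u⟩

/-- **Coefficients from values.**  If all values `F(x)`, `x ∈ ℂ`, of a polynomial `F` with coefficients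
in `ℂ((t))` lie in a complex subspace `W`, then so do its coefficients.  In `H66Modular`; used for
`F = ∏ (X - j_a)`, whose value at `x` is, up to a constant, the product of the conjugates of the form
`x Δ - E₄³` of weight `12` divided by `Δ^(p + 1)`. -/
theorem coefficients_of_values (W : Submodule ℂ (LaurentSeries ℂ)) (F : (LaurentSeries ℂ)[X])
    (h : ∀ x : ℂ, F.eval (HahnSeries.C x) ∈ W) (n : ℕ) : F.coeff n ∈ W :=
  H66.coeff_mem_of_eval_mem W F h n

/-- **The modular equations over `ℂ`.**  Polynomials in `j` are: the coefficients of `∏ (X - j_a)` and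
those of `∏ (X - v_a)`, and the mixed traces `∑ j_a^i v_a` for `i ≤ p`.  The last two are
`trace_of_conjugates` for the forms `Δ^(p m)` and `E₄^(3 i) Δ^(p - i)`.  In `H66Modular`. -/
theorem modular_equations_complex (p : ℕ) [Fact p.Prime] (u : ℂˣ) (hu : IsPrimitiveRoot u p) :
    (∀ k, H66.InJ ℂ p ((∏ a, (X - C (H66.jf ℂ p u a))).coeff k)) ∧
    (∀ k, H66.InJ ℂ p ((∏ a, (X - C (H66.vf ℂ p u a))).coeff k)) ∧
    ∀ i ≤ p, H66.InJ ℂ p (∑ a, H66.jf ℂ p u a ^ i * H66.vf ℂ p u a) :=
  ⟨H66.phi_complex p u hu, H66.hp_complex p u hu, H66.tr_complex p u hu⟩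

/-! ## 3. From `ℂ` to every field -/

/-- **Change of the ring of coefficients.**  A ring homomorphism `A → B` maps the conjugates of `j` and
of `v` over `A` to those over `B`, and polynomials in `j` over `A` to polynomials in `j` over `B`.
In `H66Descend`. -/
theorem change_of_ring (A B : Type*) [CommRing A] [CommRing B] (p : ℕ) [NeZero p] (φ : A →+* B)
    (u : Aˣ) (a : Option (Fin p)) (x : LaurentSeries A) :
    coeffMap φ (H66.jf A p u a) = H66.jf B p (Units.map φ.toMonoidHom u) a ∧
    coeffMap φ (H66.vf A p u a) = H66.vf B p (Units.map φ.toMonoidHom u) a ∧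
    (H66.InJ A p x → H66.InJ B p (coeffMap φ x)) :=
  ⟨H66.coeffMap_jf φ u a, H66.coeffMap_vf φ u a, fun h => h.map φ⟩

/-- **Descent of the ring of coefficients.**  If `A ⊂ B` and a Laurent series over `A` is a polynomial
in `j(t^p)` over `B`, then it is one over `A`: compare leading terms, `j = 1/q + ...` has coefficients
in `ℤ`.  Applied to `ℤ[u] ⊂ ℂ`, the quotient of `ℤ[X]` by the `p`-th cyclotomic polynomial.  In
`H66Descend`. -/
theorem descend (A B : Type*) [CommRing A] [CommRing B] [Nontrivial B] (p : ℕ) [NeZero p]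
    (φ : A →+* B) (hφ : Function.Injective φ) (x : LaurentSeries A)
    (hx : H66.InJ B p (coeffMap φ x)) : H66.InJ A p x :=
  H66.InJ.descend hφ hx

/-- **The modular equations over every field** `K` with a primitive `p`-th root of unity `u` (of any
characteristic, necessarily different from `p`): over `ℂ` by `modular_equations_complex`, over the
quotient of `ℤ[X]` by the `p`-th cyclotomic polynomial by `descend`, and then over `K` by
`change_of_ring` for `X ↦ u`.  In `H66Descend`. -/
theorem modular_equations (K : Type*) [Field K] (p : ℕ) [Fact p.Prime] (u : Kˣ)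
    (hu : IsPrimitiveRoot u p) :
    (∀ k, H66.InJ K p ((∏ a, (X - C (H66.jf K p u a))).coeff k)) ∧
    (∀ k, H66.InJ K p ((∏ a, (X - C (H66.vf K p u a))).coeff k)) ∧
    ∀ i ≤ p, H66.InJ K p (∑ a, H66.jf K p u a ^ i * H66.vf K p u a) :=
  let h := H66.modEq_field K p u hu
  ⟨h.phi, h.hp, h.tr⟩

/-! ## 4. The modular polynomial `Φ_p` over `K` and its roots

`phiAt K Φ y` is the polynomial `Φ(y, X)` for `Φ ∈ K[Y][X]` and a Laurent series `y`.  In the statements
`Φ` is a monic polynomial with `Φ(j(t^p), X) = ∏ (X - j_a)`; it exists by `modular_equations` and the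
first theorem, and it is the modular polynomial `Φ_p`.  The name of the variable of the Laurent series
(`q` or `t`) has no meaning in the library; `J K d` is `j(q^d)` or `j(t^d)`, as needed. -/

/-- **The modular polynomial.**  Let `f_a` be `p + 1` series such that the coefficients of
`∏ (X - f_a)` are polynomials in `j(t^p)`.  There is a monic `Φ ∈ K[Y][X]` of degree `p + 1` with
`Φ(j(t^p), X) = ∏ (X - f_a)`.  Applied to `f = jf` and to `f = vf`.  In `H66Field`. -/
theorem modular_polynomial (K : Type*) [Field K] (p : ℕ) [Fact p.Prime]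
    (f : Option (Fin p) → LaurentSeries K)
    (hf : ∀ k, H66.InJ K p ((∏ a, (X - C (f a))).coeff k)) :
    ∃ Φ : K[X][X], Φ.Monic ∧ Φ.natDegree = p + 1 ∧
      Φ.map (aeval (H66.J K p) : K[X] →ₐ[K] LaurentSeries K).toRingHom = ∏ a, (X - C (f a)) :=
  H66.exists_poly f hf

/-- **Two roots in `K((q))`.**  `j(q^(p d))` is a root of `Φ_p(j(q^d), X)`, and `j(q^d)` is a root of
`Φ_p(j(q^(p d)), X)`: for `d = 1` they are the conjugates `j(t^(p²))` and `j(t)`.  (This is the only form
of the symmetry of `Φ_p` which is used.)  In `H66Min`. -/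
theorem two_roots (K : Type*) [Field K] (p : ℕ) [Fact p.Prime] (u : Kˣ) (Φ : K[X][X])
    (hΦ : H66.phiAt K Φ (H66.J K p) = ∏ a, (X - C (H66.jf K p u a))) (d : ℕ) [NeZero d] :
    (H66.phiAt K Φ (H66.J K d)).eval (H66.J K (p * d)) = 0 ∧
      (H66.phiAt K Φ (H66.J K (p * d))).eval (H66.J K d) = 0 :=
  ⟨H66.eval_root1 hΦ d, H66.eval_root2 hΦ d⟩

/-- **All roots and their orders.**  `Φ_p(j(t^(p d)), X) = ∏ (X - j_a(t^d))`; the first conjugate is
`t^(-p²) + ...`, the others are `u^(-i) t^(-1) + ...`.  In `H66Min` and `H66Factor`. -/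
theorem all_roots (K : Type*) [Field K] (p : ℕ) [Fact p.Prime] (u : Kˣ) (Φ : K[X][X])
    (hΦ : H66.phiAt K Φ (H66.J K p) = ∏ a, (X - C (H66.jf K p u a))) (d : ℕ) [NeZero d] :
    H66.phiAt K Φ (H66.J K (p * d)) = ∏ a, (X - C (qExpand K d (H66.jf K p u a))) ∧
    H66.HasLead (H66.jf K p u none) (-(p * p)) 1 ∧
    ∀ i : Fin p, H66.HasLead (H66.jf K p u (some i)) (-1) (((u ^ (i : ℕ)) ^ (-1 : ℤ) : Kˣ) : K) :=
  ⟨H66.phiAt_mul hΦ d, H66.hasLead_jf_none p u, H66.hasLead_jf_some p u⟩

/-- **Minimal polynomials divide.**  Let `F` be a field between `K` and `K((q))`, `y ∈ F`, and `x` a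
root of `Φ(y, X)`, `Φ ∈ K[Y][X]` monic.  Then `x` is algebraic over `F`, its minimal polynomial divides
`Φ(y, X)`, and its degree is at most that of `Φ`.  In `H66Min`. -/
theorem minpoly_divides (K : Type*) [Field K] (Φ : K[X][X]) (hmon : Φ.Monic)
    (F : IntermediateField K (LaurentSeries K)) (x y : LaurentSeries K) (hy : y ∈ F)
    (hx : (H66.phiAt K Φ y).eval x = 0) :
    IsIntegral F x ∧
    (minpoly F x).map (algebraMap F (LaurentSeries K)) ∣ H66.phiAt K Φ y ∧
    (minpoly F x).natDegree ≤ Φ.natDegree :=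
  ⟨H66.isIntegral_of_root hmon F hy hx, H66.minpoly_dvd_phiAt hmon F hy hx,
    H66.natDegree_minpoly_le hmon F hy hx⟩

/-! ## 5. `j(p τ)` is not in `K(j)`

This is `j_p_notMem` in `GuideModularCurves`; here are the steps of its proof.  (Over `ℂ` one would
use that `Γ₀(p)` has two cusps.  The modular unit `v` plays this role.) -/

/-- **The modular unit.**  `v = (p^12 Δ(q^p)/Δ(q))^p` has a zero at the cusp, and its leading
coefficient is not `0` in `K` if `p ≠ 0` in `K`: `v = p^(12 p) q^(p(p-1)) + ...`.  In `H66NotMem`. -/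
theorem unit_leading_term (K : Type*) [Field K] (p : ℕ) [Fact p.Prime] :
    let v := (HahnSeries.C ((p : K) ^ 12) * qExpand K p (H28.deltaL K) * H28.deltaInvL K) ^ p
    v.coeff ((p : ℤ) * (p - 1)) = ((p : K) ^ 12) ^ p ∧ ∀ m < (p : ℤ) * (p - 1), v.coeff m = 0 :=
  H66.hasLead_vv (K := K) (p := p)

/-- **If `j(q^p)` were in `K(j)`, then `v` would be in `K(j)`:** one would have
`Φ_p(j, X) = (X - j(q^p)) Q(X)` with `Q` over `K(j)`, and `v Q(j(q^p)) = ∑_k Q_k (∑_a j_a^k v_a)`,
because the other conjugates of `j(q^p)` are roots of `Q`; the mixed traces are in `K(j)`, and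
`Q(j(q^p)) ≠ 0` by the orders of the roots.  `vv` is the series `v` of `unit_leading_term`.  In
`H66NotMem`. -/
theorem unit_in_field (K : Type*) [Field K] (p : ℕ) [Fact p.Prime] (u : Kˣ)
    (hu : IsPrimitiveRoot u p) (Φ : K[X][X]) (hmon : Φ.Monic) (hdeg : Φ.natDegree = p + 1)
    (hΦ : H66.phiAt K Φ (H66.J K p) = ∏ a, (X - C (H66.jf K p u a)))
    (hJ : H66.J K p ∈ K⟮jqModC K⟯) : H66.vv K p ∈ K⟮jqModC K⟯ :=
  H66.vv_mem (H66.modEq_field K p u hu) hmon hΦ hdeg hJ

/-- **An element of `K(j)` which is integral over `K[j]` is in `K[j]`.**  Applied to `v`, which is a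
root of `∏ (X - v_a)`.  A polynomial in `j` has no zero at the cusp (`polynomial_leading_term`), but
`v` has one: this contradiction proves `j_p_notMem`.  In `H66NotMem`. -/
theorem integral_is_polynomial (K : Type*) [Field K] (v : LaurentSeries K) (hv : v ∈ K⟮jqModC K⟯)
    (H : K[X][X]) (hH : H.Monic)
    (hroot : (H.map (aeval (jqModC K) : K[X] →ₐ[K] LaurentSeries K).toRingHom).eval v = 0) :
    ∃ P : K[X], v = aeval (jqModC K) P :=
  H66.exists_aeval_of_isIntegral hv hH hroot

/-! ## 6. Degrees over fields between `K(j)` and `K((q))` -/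

/-- **Monic divisors** of a product of linear factors over a field are the products over the subsets
of the set of factors.  In `H66Divisor`. -/
theorem monic_divisors (L σ : Type*) [Field L] [Fintype σ] (a : σ → L) (f : L[X]) (hf : f.Monic)
    (h : f ∣ ∏ i, (X - C (a i))) : ∃ T : Finset σ, f = ∏ i ∈ T, (X - C (a i)) :=
  H66.exists_finset_of_dvd_prod a hf h

/-- **All or none.**  `p ∤ d`.  A monic divisor of `∏_a (X - j_a(t^d))` whose constant term is a series
in `t^p` contains all or none of the `p` factors with `a = i mod p`: the orders of the roots at the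
cusp are `-d p²` (once) and `-d` (`p` times), and the order of the constant term is divisible by `p`.
This replaces Galois theory.  In `H66Factor`. -/
theorem factor_dichotomy (K : Type*) [Field K] (p : ℕ) [Fact p.Prime] (u : Kˣ) (d : ℕ) [NeZero d]
    (hd : ¬ p ∣ d) (f : (LaurentSeries K)[X]) (hf : f.Monic)
    (hdvd : f ∣ ∏ a, (X - C (qExpand K d (H66.jf K p u a))))
    (h0 : ∃ y, f.coeff 0 = qExpand K p y) :
    ∃ T : Finset (Option (Fin p)), f = ∏ a ∈ T, (X - C (qExpand K d (H66.jf K p u a))) ∧
      ((∀ i : Fin p, some i ∉ T) ∨ ∀ i : Fin p, some i ∈ T) :=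
  H66.factor_dichotomy p u d hd hf hdvd h0

/-- **Degrees in a tower.**  `F` a field between `K` and `K((q))`, `K` with a primitive `p`-th root of
unity.  (i) If `p ∤ d` and `F` contains `j(dτ)` but not `j(p d τ)`, then `j(p d τ)` has degree `p + 1`
over `F` (`factor_dichotomy`).  (ii) If `F ⊂ K((q^p))` contains `j(p τ)`, then `j(τ)` has degree at
least `p` over `F`.  (iii) If `F` contains `j(e τ)` and `j(p e τ)`, then `j(p² e τ)` has degree at
most `p` over `F` (divide the modular equation by the root `j(e τ)`).  In `H66Tower`. -/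
theorem tower_degrees (K : Type*) [Field K] (p : ℕ) [Fact p.Prime] (u : Kˣ)
    (hu : IsPrimitiveRoot u p) (F : IntermediateField K (LaurentSeries K)) :
    (∀ (d : ℕ) (_ : NeZero d), ¬ p ∣ d → H66.J K d ∈ F → H66.J K (p * d) ∉ F →
      (minpoly F (H66.J K (p * d))).natDegree = p + 1) ∧
    ((∀ z ∈ F, ∃ y, z = qExpand K p y) → H66.J K p ∈ F →
      p ≤ (minpoly F (H66.J K 1)).natDegree) ∧
    ∀ (e : ℕ) (_ : NeZero e), H66.J K (p * e) ∈ F → H66.J K e ∈ F →
      (minpoly F (H66.J K (p * (p * e)))).natDegree ≤ p :=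
  let ⟨_, h1, h2, h3⟩ := H66.exists_poly _ (H66.modEq_field K p u hu).phi
  ⟨fun d _ hd hJ hx => H66.natDegree_minpoly_eq h1 h3 F d hd hJ hx,
    fun hF hJ => H66.le_natDegree_minpoly h1 h3 F hF hJ,
    fun e _ hJ hJ2 => H66.natDegree_minpoly_le_p h1 h2 h3 F e hJ hJ2⟩

/-- **One common root.**  Let `x` be algebraic over `F`, and let the image of its minimal polynomial
under a field homomorphism `V` divide `∏ (X - a_i)` and `∏ (X - b_j)`.  If `a_i ≠ b_j` for all `i`
except one, then `x ∈ F`: the minimal polynomial has degree `1`.  In `H66Min`. -/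
theorem mem_of_common_root (K : Type*) [Field K] (F : IntermediateField K (LaurentSeries K))
    (x : LaurentSeries K) (hx : IsIntegral F x) (V : LaurentSeries K →+* LaurentSeries K)
    (σ τ : Type*) [Fintype σ] [Fintype τ] (a : Option σ → LaurentSeries K)
    (b : Option τ → LaurentSeries K)
    (h1 : ((minpoly F x).map (algebraMap F (LaurentSeries K))).map V ∣ ∏ i, (X - C (a i)))
    (h2 : ((minpoly F x).map (algebraMap F (LaurentSeries K))).map V ∣ ∏ i, (X - C (b i)))
    (hne : ∀ (i : σ) (j : Option τ), a (some i) ≠ b j) : x ∈ F :=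
  H66.mem_of_common_root F hx V a b h1 h2 hne

/-- **Two modular equations have one common root.**  `p ≠ r` primes different from the characteristic.
A field which contains `j(r e τ)` and `j(p e τ)` contains `j(p r e τ)`, by `mem_of_common_root` for
the modular equations of levels `p` and `r` at these two elements; `a_i ≠ b_j` by the orders at the
cusp.  In `H66Gen`; `hK`: `K` contains primitive roots of unity of all prime orders different from
the characteristic. -/
theorem common_root (K : Type*) [Field K]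
    (hK : ∀ p : ℕ, p.Prime → (p : K) ≠ 0 → ∃ u : Kˣ, IsPrimitiveRoot u p)
    (F : IntermediateField K (LaurentSeries K)) (p r e : ℕ) [Fact p.Prime] [Fact r.Prime]
    (hpr : p ≠ r) (hp0 : (p : K) ≠ 0) (hr0 : (r : K) ≠ 0) [NeZero e]
    (h1 : H66.J K (r * e) ∈ F) (h2 : H66.J K (p * e) ∈ F) : H66.J K (p * (r * e)) ∈ F :=
  H66.J_mem_step hK F hpr hp0 hr0 h1 h2

/-- **One generator.**  `F_{pN}` is generated over `F_N` by the single element `j(p^(a+1) τ)`, where
`N = p^a m`, `p ∤ m`.  By induction from `common_root`.  In `H66Gen`. -/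
theorem one_generator (K : Type*) [Field K]
    (hK : ∀ p : ℕ, p.Prime → (p : K) ≠ 0 → ∃ u : Kˣ, IsPrimitiveRoot u p)
    (F : IntermediateField K (LaurentSeries K)) (p a m : ℕ) [Fact p.Prime] (hm : ¬ p ∣ m)
    (hm0 : (m : K) ≠ 0) (hp0 : (p : K) ≠ 0)
    (hF : modularFunctionFieldFullC K (p ^ a * m) ≤ F) (hJ : H66.J K (p ^ (a + 1)) ∈ F) :
    modularFunctionFieldFullC K (p ^ (a + 1) * m) ≤ F :=
  H66.J_mem_of hK F hm hm0 hp0 hF hJ

/-! ## 7. Induction on the level -/

/-- **The fields `F_N`.**  `F_1 = K(j)`, `F_N ⊂ F_M` if `N ∣ M`, and `F_N ⊂ F` if and only if `F`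
contains `j(q^d)` for all `d ∣ N`.  In `H66Gen`, `H66Degree`. -/
theorem fields (K : Type*) [Field K] (N M : ℕ) (hN : N ≠ 0) (hM : M ≠ 0)
    (F : IntermediateField K (LaurentSeries K)) :
    modularFunctionFieldFullC K 1 = K⟮jqModC K⟯ ∧
    (N ∣ M → modularFunctionFieldFullC K N ≤ modularFunctionFieldFullC K M) ∧
    (modularFunctionFieldFullC K N ≤ F ↔ ∀ d, d ∣ N → H66.J K d ∈ F) :=
  ⟨H66.full_one K, H66.full_mono K hN hM, H66.full_le_iff hN F⟩

/-- **Degree of a simple extension.**  `A ⊂ B` fields between `K` and `L`, `x ∈ B` algebraic over `A`,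
and every field which contains `A` and `x` contains `B`.  Then the degree of `B` over `A` is the degree
of the minimal polynomial of `x` over `A`.  In `H66Degree`. -/
theorem degree_of_generator (K L : Type*) [Field K] [Field L] [Algebra K L]
    (A B : IntermediateField K L) (h : A ≤ B) (x : L) (hx : x ∈ B)
    (hgen : ∀ F : IntermediateField K L, A ≤ F → x ∈ F → B ≤ F) (hint : IsIntegral A x) :
    relfinrank A B = (minpoly A x).natDegree :=
  H66.relfinrank_eq_natDegree h hx hgen hint

/-- **Induction step.**  `N = p^a m`, `p ∤ m`, `p` and `m` different from `0` in `K`.  The degree of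
`F_{pN}` over `K(j)` is the degree of `F_N` times `p + 1` if `a = 0` and times `p` if `a > 0`.  Proof:
the substitution `q ↦ q^p` embeds `F_N` in `F_{pN}`, so `p [F_N : K(j)] ≤ [F_{pN} : K(j(pτ))]` by
`tower_degrees` (ii), and `[F_{pN} : K(j(pτ))] ≤ [F_{pN} : K(j)]` because `j` has degree at most
`p + 1` over `K(j(pτ))`, and `j(pτ)` has degree `p + 1` over `K(j)` by (i) and `j_p_notMem`.  So the
generator of `one_generator` has degree at least `p` over `F_N`.  If `a > 0`, its degree is at most
`p` by (iii); if `a = 0`, it is not in `F_N` and has degree `p + 1` by (i).  In `H66Degree`. -/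
theorem induction_step (K : Type*) [Field K]
    (hK : ∀ p : ℕ, p.Prime → (p : K) ≠ 0 → ∃ u : Kˣ, IsPrimitiveRoot u p) (p a m : ℕ)
    [Fact p.Prime] (hm : ¬ p ∣ m) (hm0 : (m : K) ≠ 0) (hp0 : (p : K) ≠ 0)
    (hpos : relfinrank K⟮jqModC K⟯ (modularFunctionFieldFullC K (p ^ a * m)) ≠ 0) :
    relfinrank K⟮jqModC K⟯ (modularFunctionFieldFullC K (p ^ (a + 1) * m)) =
      (if a = 0 then p + 1 else p) *
        relfinrank K⟮jqModC K⟯ (modularFunctionFieldFullC K (p ^ a * m)) :=
  H66.relfinrank_step hK hm hm0 hp0 hpos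

/-- **The function `ψ`** has the same recursion: `ψ(1) = 1`, `ψ(p N) = (p + 1) ψ(N)` if `p ∤ N`, and
`ψ(p N) = p ψ(N)` if `p ∣ N`.  In `H45P1Index`. -/
theorem psi_recursion (p N : ℕ) (hp : p.Prime) (hN : N ≠ 0) :
    dedekindPsi 1 = 1 ∧ (¬ p ∣ N → dedekindPsi (p * N) = (p + 1) * dedekindPsi N) ∧
      (p ∣ N → dedekindPsi (p * N) = p * dedekindPsi N) :=
  ⟨dedekindPsi_one, H45.dedekindPsi_mul_of_not_dvd hp hN, H45.dedekindPsi_mul_of_dvd hp hN⟩

/-- **The degree theorem** for every field `K` which contains primitive roots of unity of all prime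
orders different from its characteristic: `[F_N : K(j)] = ψ(N)` if `N ≠ 0` in `K`.  In
`H66Degree`. -/
theorem degree_of_roots (K : Type*) [Field K]
    (hK : ∀ p : ℕ, p.Prime → (p : K) ≠ 0 → ∃ u : Kˣ, IsPrimitiveRoot u p) (N : ℕ)
    (hN : (N : K) ≠ 0) :
    relfinrank K⟮jqModC K⟯ (modularFunctionFieldFullC K N) = dedekindPsi N ∧
      dedekindPsi N ≠ 0 :=
  H66.relfinrank_full_of_hasRoots hK N hN

/-- **An algebraically closed field** has these roots of unity.  This gives `degree_of_j_full` in
`GuideModularCurves`.  In `H66Gen`. -/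
theorem roots_of_unity (K : Type*) [Field K] [IsAlgClosed K] (p : ℕ) (hp : p.Prime)
    (hp0 : (p : K) ≠ 0) : ∃ u : Kˣ, IsPrimitiveRoot u p :=
  H66.hasRoots_of_isAlgClosed K p hp hp0

end Fermat.Agent.Guide.ModularEquation
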