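import Fermat.Agent.S07
import Fermat.Agent.S08
import Fermat.Agent.S20
import Fermat.Agent.S23

/-!
# Reader's guide: modular forms (S07, S08, S20, S23)

This file contains no new mathematics. Every theorem below is proved by citing a theorem of the
library; the statements are written out, so that a reader can see what has been proved without
trusting the prose of NOTES.md (there: Appendix A.4, documents [159], [210], [147], [122], [239]).
Only `Guide` imports it. Two companion files: `GuidePeriods` (Eichler-Shimura isomorphism, Hecke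
algebras: S21, S22) and `GuideModularCurves` (the function field of `X₀(N)`: S24, S28). The steps of
the proofs of section 1 are in `GuideVectorForms` and, as far as they concern the cosets of `Γ₀(N)`, in
`GuideProjectiveLine`; those of section 2 are in `GuideIntegralForms`.

## What the block does

It provides the classical facts on cusp forms on `Γ₀(N)` which the proof of Fermat's Last Theorem
needs, for all levels `N` at once and without Riemann surfaces, moduli problems or numerical
tables:

* there is no cusp form of weight two and level 1 or 2 (S08, S07), where the proof of Fermat's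
  Last Theorem ends;
* the dimension of `S₂(Γ₀(N))` is given by the classical formula `1 + ψ(N)/12 - ν₂/4 - ν₃/3 - c/2`
  (S20);
* spaces of cusp forms are spanned by forms with integral `q`-expansion (S23), and ring
  endomorphisms of `ℂ` act on them through the coefficients.

## Reading order

1. vector valued modular forms of level one and the dimension formula; 2. rationality and
integrality. The two sections are independent of each other.

## Notation

`Gamma0 N` is the group `Γ₀(N)`; `𝒮ℒ` is the image of `SL(2, ℤ)` in `GL(2, ℝ)`; `f ∣[k] g` is the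
action of weight `k`; `MDiff f` says that `f : ℍ → ℂ` is holomorphic; `E₄`, `E₆` are the Eisenstein
series with constant term 1 and `discriminant` is `Δ`.
-/

set_option autoImplicit false

open UpperHalfPlane ModularForm MatrixGroups CongruenceSubgroup Module
open ModularCurve
open scoped Manifold Topology

noncomputable section

namespace Fermat.Agent.Guide.ModularForms

/-! ## 1. Vector valued modular forms of level one and the dimension formula

Let `X` be a finite set on which `SL(2, ℤ)` acts. Instead of forms of level `N` one studies families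
`F_x : ℍ → ℂ`, `x ∈ X`, of holomorphic functions which are permuted by the action of `SL(2, ℤ)`.
For `X = SL(2, ℤ) / Γ₀(N)` these are the same as modular forms on `Γ₀(N)` (the component at the base
point). All results hold for general `X`, except `exists_separating_form` and the five theorems at
the end of the section, which are about `Γ₀(N)`. -/

/-- Modular forms of weight `k` and level one as plain functions (`H20.IsL1`): invariance under
`SL(2, ℤ)`, holomorphy, boundedness at `i∞`. Defined in `H20VMF`. -/
theorem isL1_iff (k : ℤ) (G : ℍ → ℂ) : H20.IsL1 k G ↔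
    (∀ g : SL(2, ℤ), G ∣[k] g = G) ∧ MDiff G ∧ IsBoundedAtImInfty G :=
  ⟨fun h => ⟨h.1, h.2, h.3⟩, fun h => ⟨h.1, h.2.1, h.2.2⟩⟩

/-- Every modular form of level one and weight `k ≠ 0` is `E₄ A + E₆ B` with `A`, `B` of level one
(weights `k - 4`, `k - 6`): the ideal of forms of positive weight is generated by `E₄` and `E₆`.
Proof: subtract a multiple of a monomial of weight `k` in `E₄` and `E₆`, divide by `Δ`, and use
`1728 Δ = E₄³ - E₆²`. Proved in `H80Level1`; used in `H80Free`, S20. -/
theorem levelOne_generation (k : ℤ) (G : ℍ → ℂ) (hG : H20.IsL1 k G) (hk : k ≠ 0) :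
    ∃ A B : ℍ → ℂ, H20.IsL1 (k - 4) A ∧ H20.IsL1 (k - 6) B ∧ G = E₄ * A + E₆ * B :=
  H80.l1_generation hG hk

/-- Vector valued modular forms of weight `k` on the finite `SL(2, ℤ)`-set `X` (`H20.IsVMF`):
`F_x ∣[k] g = F_{g⁻¹ x}`, every `F_x` is holomorphic and bounded at `i∞`. Defined in `H20VMF`. -/
theorem isVMF_iff (X : Type*) [MulAction SL(2, ℤ) X] (k : ℤ) (F : X → ℍ → ℂ) :
    H20.IsVMF X k F ↔ (∀ (g : SL(2, ℤ)) (x : X), F x ∣[k] g = F (g⁻¹ • x)) ∧
      (∀ x, MDiff (F x)) ∧ (∀ x, IsBoundedAtImInfty (F x)) :=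
  ⟨fun h => ⟨h.1, h.2, h.3⟩, fun h => ⟨h.1, h.2.1, h.2.2⟩⟩

/-- Vector valued cusp forms (`H20.IsVCF`): the same, with the value zero at `i∞`. Defined in
`H20VMF`. -/
theorem isVCF_iff (X : Type*) [MulAction SL(2, ℤ) X] (k : ℤ) (F : X → ℍ → ℂ) :
    H20.IsVCF X k F ↔ (∀ (g : SL(2, ℤ)) (x : X), F x ∣[k] g = F (g⁻¹ • x)) ∧
      (∀ x, MDiff (F x)) ∧ (∀ x, IsZeroAtImInfty (F x)) :=
  ⟨fun h => ⟨h.1, h.2, h.3⟩, fun h => ⟨h.1, h.2.1, h.2.2⟩⟩

/-- A homogeneous basis of the vector valued forms over the ring of forms of level one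
(`H20.IsFreeBasis`): `F i` has weight `k i`, every form `H` of weight `w` is `∑ i, G i * F i` with
`G i` of level one and weight `w - k i`, and the matrix `(F i x (τ))` is invertible for some `τ`
(independence). The index set of the basis is again `X`. Defined in `H20VMF`. -/
theorem isFreeBasis_iff (X : Type*) [MulAction SL(2, ℤ) X] [Fintype X] [DecidableEq X] (k : X → ℤ)
    (F : X → X → ℍ → ℂ) : H20.IsFreeBasis X k F ↔ (∀ i, H20.IsVMF X (k i) (F i)) ∧
      (∀ (w : ℤ) (H : X → ℍ → ℂ), H20.IsVMF X w H →
        ∃ G : X → ℍ → ℂ, (∀ i, H20.IsL1 (w - k i) (G i)) ∧ ∀ x, H x = ∑ i, G i * F i x) ∧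
      ∃ τ : ℍ, (Matrix.of fun x i => F i x τ).det ≠ 0 :=
  ⟨fun h => ⟨h.1, h.2, h.3⟩, fun h => ⟨h.1, h.2.1, h.2.2⟩⟩

/-- **Freeness.** If some vector valued form `H` separates the points of `X` (`H x ≠ H y` for
`x ≠ y`), then there is a homogeneous basis with exactly `|X|` members. Idea: `E₄, E₆` is a regular
sequence, so a maximal family which is linearly independent over `ℂ` modulo `(E₄, E₆)` is
independent over the forms of level one and spans; the number of its members is determined with
Gram determinants against the powers of `H` (Vandermonde). Proved in `H80Free`; used in S20 and for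
the twisted forms of S48 (`H22TwDual`). -/
theorem exists_freeBasis (X : Type*) [MulAction SL(2, ℤ) X] [Fintype X] [DecidableEq X]
    (hsep : ∃ (w : ℤ) (H : X → ℍ → ℂ), H20.IsVMF X w H ∧ ∀ x y, H x = H y → x = y) :
    ∃ (k : X → ℤ) (F : X → X → ℍ → ℂ), H20.IsFreeBasis X k F :=
  H80.exists_freeBasis X hsep

/-- The hypothesis of `exists_freeBasis` holds for `X = SL(2, ℤ) / Γ₀(N)`: the translates of the form
`Δ(Nτ)` of weight 12 separate the cosets, because its stabiliser in `SL(2, ℤ)` is `Γ₀(N)` (Hermite
normal form and the growth of `Δ` at `i∞`, `H80Stab`). Proved in `H80Gamma0X`; used in S20. -/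
theorem exists_separating_form (N : ℕ) [NeZero N] :
    ∃ (w : ℤ) (H : SL(2, ℤ) ⧸ Gamma0 N → ℍ → ℂ),
      H20.IsVMF (SL(2, ℤ) ⧸ Gamma0 N) w H ∧ ∀ x y, H x = H y → x = y :=
  H80.gamma0_sep N

/-- **The determinant of a basis** satisfies `det¹² = c Δ^(∑ k i)` with `c ≠ 0`; in particular it has
no zero in the upper half plane. Idea: the Serre derivative maps the members of the basis to
combinations of the members, and the diagonal coefficients are zero (they have level one and weight
two), so the logarithmic derivative of the determinant is a multiple of `E₂`. Proved in `H80Det`;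
used in the next theorem and in `exists_dual`. -/
theorem det_freeBasis (X : Type*) [MulAction SL(2, ℤ) X] [Fintype X] [DecidableEq X] (k : X → ℤ)
    (F : X → X → ℍ → ℂ) (h : H20.IsFreeBasis X k F) :
    (∃ c : ℂ, c ≠ 0 ∧ ∀ τ : ℍ, (Matrix.of fun x i => F i x τ).det ^ 12 =
      c * discriminant τ ^ (∑ i, k i)) ∧ ∀ τ : ℍ, (Matrix.of fun x i => F i x τ).det ≠ 0 :=
  ⟨H80.det_pow_twelve h, h.det_ne_zero⟩

/-- **Behaviour at `i∞`.** If `-1` acts trivially on `X`, the sum of the weights of a basis is
`6 (|X| - c)`, where `c` is the number of orbits of `T = (1, 1; 0, 1)` on `X` (the cusps). Idea: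
`det² / Δ^(|X| - c)` and its inverse are forms of level one, because the leading coefficients at
`i∞` form an invertible matrix. Proved in `H20Mat` (the projectors to the eigenspaces of `T`),
`H20Inf`, `H20Inf2`; used in `card_weight_ten`. -/
theorem sum_weights (X : Type*) [MulAction SL(2, ℤ) X] [Fintype X] [DecidableEq X] (k : X → ℤ)
    (F : X → X → ℍ → ℂ) (h : H20.IsFreeBasis X k F) (hneg : ∀ x : X, (-1 : SL(2, ℤ)) • x = x) :
    ∑ i, k i = 6 * ((Fintype.card X : ℤ) -
      Nat.card (MulAction.orbitRel.Quotient (Subgroup.zpowers ModularGroup.T) X)) :=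
  H20.weight_sum h h.det_ne_zero hneg

/-- **Elliptic points.** If `g τ = τ`, the number of fixed points of `g` on `X` is
`∑ i, (c τ + d)^(-k i)`, where `(c, d)` is the lower row of `g`: the permutation matrix of `g` is
conjugate, through the matrix of the basis at `τ`, to this diagonal matrix. Proved in `H80Count`;
used in `card_weight_ten` for `τ = i` and for the fixed point of `S T`. -/
theorem card_fixedBy (X : Type*) [MulAction SL(2, ℤ) X] [Fintype X] [DecidableEq X] (k : X → ℤ)
    (F : X → X → ℍ → ℂ) (h : H20.IsFreeBasis X k F) (g : SL(2, ℤ)) (τ : ℍ) (hg : g • τ = τ) :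
    (Nat.card (MulAction.fixedBy X g) : ℂ) = ∑ i, denom (g : GL (Fin 2) ℝ) τ ^ (-(k i)) :=
  H80.trace_fixed h hg

/-- **Duality.** If `-1` acts trivially on `X`, there are vector valued cusp forms `F'_i` of weight
`12 - k i` (the rows of `Δ` times the inverse matrix of the basis) with
`∑ x, F'_i(x) F_j(x) = Δ` if `i = j` and `0` otherwise. Proved in `H80Dual`; used in S20; the forms
`F'_i` (without the pairing) are also used for the twisted forms of S48 (`H22TwDual`). -/
theorem exists_dual (X : Type*) [MulAction SL(2, ℤ) X] [Fintype X] [DecidableEq X] (k : X → ℤ)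
    (F : X → X → ℍ → ℂ) (h : H20.IsFreeBasis X k F) (hneg : ∀ x : X, (-1 : SL(2, ℤ)) • x = x) :
    ∃ F' : X → X → ℍ → ℂ, (∀ i, H20.IsVCF X (12 - k i) (F' i)) ∧
      ∀ (τ : ℍ) (i j : X), ∑ x, F' i x τ * F j x τ = if i = j then discriminant τ else 0 :=
  ⟨H80.dualF F, H80.dual_isVCF h hneg, H80.dual_pairing h⟩

/-- **Count.** If `-1` acts trivially and `SL(2, ℤ)` acts transitively on `X`, then all weights of a
basis are between 0 and 10 (and even, since `-1` acts trivially) and the number of `i` with `k i = 10`
is `1 + |X|/12 - Fix(S)/4 - Fix(S T)/3 - c/2`. Idea: exactly one weight is 0, and five linear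
equations (number, sum of the weights, one at `i`, two at the fixed point of `S T`) determine the
other five multiplicities. Proved in `H80Count` and `H80Dual`; used in S20. -/
theorem card_weight_ten (X : Type*) [MulAction SL(2, ℤ) X] [Fintype X] [DecidableEq X]
    [MulAction.IsPretransitive SL(2, ℤ) X] (x₀ : X) (k : X → ℤ)
    (F : X → X → ℍ → ℂ) (h : H20.IsFreeBasis X k F) (hneg : ∀ x : X, (-1 : SL(2, ℤ)) • x = x) :
    (∀ i, 0 ≤ k i ∧ k i ≤ 10) ∧
    (((Finset.univ.filter fun i => k i = 10).card : ℕ) : ℚ) = 1 + (Nat.card X : ℚ) / 12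
      - (Nat.card (MulAction.fixedBy X ModularGroup.S) : ℚ) / 4
      - (Nat.card (MulAction.fixedBy X (ModularGroup.S * ModularGroup.T)) : ℚ) / 3
      - (Nat.card (MulAction.orbitRel.Quotient (Subgroup.zpowers ModularGroup.T) X) : ℚ) / 2 :=
  ⟨fun i => ⟨H80.weight_nonneg h i, H80.weight_le h hneg i⟩, H80.count_ten h hneg
    (H80.weight_nonneg h) (H80.weight_le h hneg) (H80.wt_zero h x₀)⟩

/-- **Cusp forms of weight two and members of weight ten.** For a basis on `X = SL(2, ℤ) / Γ₀(N)` the
dimension of `S₂(Γ₀(N))` is the number of members of weight 10: a cusp form of weight 2 is a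
combination of the duals `F'_i` (`exists_dual`) with coefficients of level one and weight
`2 - (12 - k i)`, which are constant for `k i = 10` and zero otherwise. Proved in `H80S20`; used in
S20. -/
theorem finrank_eq_card_weight_ten (N : ℕ) [NeZero N] (k : SL(2, ℤ) ⧸ Gamma0 N → ℤ)
    (F : SL(2, ℤ) ⧸ Gamma0 N → SL(2, ℤ) ⧸ Gamma0 N → ℍ → ℂ)
    (h : H20.IsFreeBasis (SL(2, ℤ) ⧸ Gamma0 N) k F) :
    finrank ℂ (CuspForm (Gamma0 N) 2) = (Finset.univ.filter fun i => k i = 10).card :=
  H80.finrank_eq_wt h

/-- **The numbers of the genus formula for `Γ₀(N)`**: the index is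
`ψ(N) = N ∏_{p ∣ N} (1 + 1/p)` (`dedekindPsi N`, defined as the sum of `N/d` over the squarefree
divisors `d`), the numbers of fixed points of `S` and `S T` on `SL(2, ℤ) / Γ₀(N)` are the numbers of
solutions of `x² + 1 = 0`, resp. `x² + x + 1 = 0`, in `ℤ/N` (`nuTwo N`, `nuThree N`), and the number of
orbits of `T` is `∑_{d ∣ N} φ(gcd(d, N/d))` (`cuspCount N`). Proved in
`H45P1Index` (projective line over `ℤ/N`), `H50Fixed`, `H50Cusps`; used in S20 (the index also in
`GuideModularCurves`). -/
theorem gamma0_numbers (N : ℕ) [NeZero N] : (Gamma0 N).index = dedekindPsi N ∧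
    Nat.card (MulAction.fixedBy (SL(2, ℤ) ⧸ Gamma0 N) ModularGroup.S) = nuTwo N ∧
    Nat.card (MulAction.fixedBy (SL(2, ℤ) ⧸ Gamma0 N) (ModularGroup.S * ModularGroup.T)) =
      nuThree N ∧
    Nat.card (MulAction.orbitRel.Quotient (Subgroup.zpowers ModularGroup.T)
      (SL(2, ℤ) ⧸ Gamma0 N)) = cuspCount N :=
  ⟨H45.index_Gamma0 N, H50.card_fixedBy_S N, H50.card_fixedBy_ST N, H50.card_orbits_T (NeZero.ne N)⟩

/-- **The dimension formula (statement S20)**: `dim S₂(Γ₀(N)) = 1 + ψ(N)/12 - ν₂/4 - ν₃/3 - c/2`,
from `exists_freeBasis`, `card_weight_ten`, `finrank_eq_card_weight_ten` and `gamma0_numbers`.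
Proved in `H80S20`; used in S21 and in the closure of S01: through the real Eichler-Shimura
isomorphism (see `GuidePeriods`), and in `H39Poles` (the genus of `X₀(N)` is `dim S₂(Γ₀(N))`). -/
theorem finrank_cuspForm (N : ℕ) [NeZero N] :
    (finrank ℂ (CuspForm (Gamma0 N) 2) : ℚ) = 1 + (dedekindPsi N : ℚ) / 12 - (nuTwo N : ℚ) / 4
      - (nuThree N : ℚ) / 3 - (cuspCount N : ℚ) / 2 :=
  H80.finrank_eq_genusFormula N

/-- **No cusp forms of weight two and level 1 or 2 (statements S08 and S07).** Proved in the files
`S08`, `S07`. Level 1: Sturm's bound (next theorem), a form of level one and weight two is zero if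
its constant coefficient is zero. Level 2: the norm to level one of such a form has weight at most 8
(the index is at most 4) and vanishes at `i∞`. This is the contradiction at the end of the proof of
Fermat's Last Theorem (`H42XRoot`); level 1 is also used in `H54MzA` (Mazur) and `H23Wire` (S45). -/
theorem no_forms_of_level_one_and_two :
    (∀ f : CuspForm (Gamma0 1) 2, f = 0) ∧ (∀ f : CuspForm (Gamma0 2) 2, f = 0) :=
  ⟨S08.result, S07.result⟩

/-- **Sturm's bound** (a theorem of the Prelude): a modular form of weight `k` on `Γ₀(N)` is zero if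
its first `k [SL(2, ℤ) : Γ₀(N)] / 12 + 1` coefficients are zero. Used in S08, S16 (`H16Lower`), S23
(`H23Final`), for the finite dimension of `S_k(Γ₀(N))` (`H49HeckeBasic`) and for the explicit
identities on `X₀(2)` and `X₀(3)` (`H23Haupt`; see `GuideModularCurves`). -/
theorem sturm_bound (N : ℕ) [NeZero N] (k : ℤ) (f : ModularForm (Gamma0 N) k)
    (h : ∀ n ≤ (k * (Gamma0 N).index).toNat / 12, (qExpansion 1 f).coeff n = 0) : f = 0 :=
  ModularForm.sturm_bound_Gamma0 N f h

/-! ## 2. Rationality and integrality of `q`-expansions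

`qExpansion 1 f` is the power series `∑ a_n q^n`, `q = exp(2πiτ)`, and `qCoeff f n` is `a_n`. All
theorems hold for every level and every weight. No model of the modular curve is used. -/

/-- The space of modular forms of level one and any weight is spanned by forms with integral
`q`-expansion (monomials in `E₄`, `E₆`, `Δ`). Proved in `H23LevelOne`; used in S23. -/
theorem levelOne_span_integral (k : ℤ) :
    Submodule.span ℂ {F : ModularForm 𝒮ℒ k | ∀ n, ∃ m : ℤ, (qExpansion 1 F).coeff n = (m : ℂ)} = ⊤ :=
  H23.levelOne_span k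

/-- Hence ring endomorphisms `σ` of `ℂ` act on modular forms of level one: the series `∑ σ(a_n) q^n`
is again a modular form of level one. Proved in `H23LevelOne`; used for `exists_conjugate` and, in
the case of other groups, in `H50Arith`, `H50Diamond` (S47, S48). -/
theorem levelOne_conjugate (σ : ℂ →+* ℂ) (k : ℤ) (f : ModularForm 𝒮ℒ k) :
    ∃ f' : ModularForm 𝒮ℒ k, qExpansion 1 f' = (qExpansion 1 f).map σ :=
  H23.levelOne_conj σ f

/-- **(B1) Integrality over level one.** Every cusp form `f` of weight `k` on `Γ₀(N)` satisfies an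
equation `f^n + c₁ f^(n-1) + ... + c_n = 0` where `c_i` is a cusp form of level one and weight
`i k` (the symmetric functions of the conjugates `f ∣ γ`). Proved in `H78Coset`, `H78EisN`; used
in S23. -/
theorem integral_over_levelOne (N : ℕ) [NeZero N] (k : ℤ) (f : CuspForm (Gamma0 N) k) :
    ∃ n : ℕ, 0 < n ∧ ∃ c : (i : ℕ) → CuspForm 𝒮ℒ ((i : ℤ) * k),
      ∀ τ, f τ ^ n + ∑ i ∈ Finset.Icc 1 n, c i τ * f τ ^ (n - i) = 0 :=
  H78.cuspForm_integral_Gamma0 N f

/-- **The form `E₄(Nτ)`** (`H78.E4N N`, of weight 4 on `Γ₀(N)`) has an integral `q`-expansion, and its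
stabiliser in `SL(2, ℤ)` is `Γ₀(N)`. (`heckeDiagMatrix N` is `(N, 0; 0, 1)`; `mapGL ℝ γ` is `γ` as a
real matrix.) Proved in `H78EisN`; used for (B2) and in `H50Prim1` (S48). -/
theorem eisenstein_of_level_N (N : ℕ) [NeZero N] :
    (∀ τ : ℍ, H78.E4N N τ = E₄ (heckeDiagMatrix N • τ)) ∧
    (∀ m, ∃ z : ℤ, (qExpansion 1 (H78.E4N N)).coeff m = z) ∧
    ∀ γ : SL(2, ℤ), (H78.E4N N : ℍ → ℂ) ∣[(4 : ℤ)] (Matrix.SpecialLinearGroup.mapGL ℝ γ) =
      H78.E4N N → γ ∈ Gamma0 N :=
  ⟨fun _ => rfl, H78.E4N_integral N, H78.E4N_stab N⟩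

/-- **Lagrange interpolation** (pure algebra): let `x`, `y` be families in a field with the finite
index set `ι` and `P = ∏ (X - x_q)`. Then `P'(x_{q₀}) y_{q₀}` is a polynomial in `x_{q₀}` whose
coefficients are symmetric in the pairs `(x_q, y_q)`. It is applied to the conjugates `x_q` of
`E₄(Nτ)` and the conjugates `y_q` of a form `f`. Proved in `H78Lagrange`; used for (B2). -/
theorem lagrange_interpolation (K ι : Type*) [Field K] [Fintype ι] (x y : ι → K) (q₀ : ι)
    (P : Polynomial K) (hP : P = ∏ q, (Polynomial.X - Polynomial.C (x q))) :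
    P.derivative.eval (x q₀) * y q₀ = ∑ i ∈ Finset.range (Fintype.card ι),
      (∑ l ∈ Finset.Ico (i + 1) (Fintype.card ι + 1), P.coeff l * ∑ q, y q * x q ^ (l - 1 - i)) *
        x q₀ ^ i := by
  subst hP; exact H78.lagrange_identity x y q₀

/-- **(B2) A primitive element with a common denominator.** There are a modular form `g` on `Γ₀(N)`
with integral `q`-expansion (`g = E₄(Nτ)`) and a form `D ≠ 0` such that `D` and, for EVERY weight
`k` and EVERY form `f` of weight `k` on `Γ₀(N)`, also `D f` is a polynomial of degree `< n` in `g`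
with coefficients of level one. Here `n` is the number of cosets and `D` the value at `g` of the
derivative of `∏ (X - g ∣ γ)`. Proved in `H78Lagrange`, `H78EisN` from the two previous theorems;
used in S23. -/
theorem exists_primitive_form (N : ℕ) [NeZero N] :
    ∃ (w : ℤ) (n : ℕ) (g : ModularForm (Gamma0 N) w)
      (D : ModularForm (Gamma0 N) (w * ((n : ℤ) - 1))),
      (∀ m, ∃ z : ℤ, (qExpansion 1 g).coeff m = z) ∧ D ≠ 0 ∧
      (∃ G : (i : ℕ) → ModularForm 𝒮ℒ (w * ((n : ℤ) - 1 - i)),
        ∀ τ, D τ = ∑ i ∈ Finset.range n, G i τ * g τ ^ i) ∧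
      ∀ (k : ℤ) (f : ModularForm (Gamma0 N) k),
        ∃ G : (i : ℕ) → ModularForm 𝒮ℒ (k + w * ((n : ℤ) - 1 - i)),
          ∀ τ, D τ * f τ = ∑ i ∈ Finset.range n, G i τ * g τ ^ i :=
  H78.lagrange_Gamma0 N

/-- **Integral quotients are cusp forms.** If `A ≠ 0` and `B` are modular forms on a subgroup of
finite index and `B / A` satisfies an equation as in (B1) (multiplied by `A^n`), then `B / A` is a
cusp form. Proved in `H79GalStab`; used for `exists_conjugate`. -/
theorem integral_quotient (Γ : Subgroup SL(2, ℤ)) [Γ.FiniteIndex] (k w : ℤ) (A : ModularForm Γ w)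
    (hA : A ≠ 0) (B : ModularForm Γ (w + k)) (n : ℕ) (c : (i : ℕ) → CuspForm 𝒮ℒ ((i : ℤ) * k))
    (h : ∀ τ : ℍ, B τ ^ n + ∑ i ∈ Finset.Icc 1 n, c i τ * A τ ^ i * B τ ^ (n - i) = 0) :
    ∃ F : CuspForm Γ k, ∀ τ, A τ * F τ = B τ :=
  H79.exists_cuspForm_mul_eq Γ A hA B c h

/-- **Conjugation.** For every ring endomorphism `σ` of `ℂ` and every cusp form `f` on `Γ₀(N)` the
series `∑ σ(a_n) q^n` is again a cusp form on `Γ₀(N)`: by (B2) and `levelOne_conjugate` it is a
quotient of modular forms, and by (B1) this quotient is integral over level one. Proved in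
`H79Conj`, `H23Final`; used in S23 (and, for other groups, in S48). -/
theorem exists_conjugate (N : ℕ) [NeZero N] (k : ℤ) (σ : ℂ →+* ℂ) (f : CuspForm (Gamma0 N) k) :
    ∃ f' : CuspForm (Gamma0 N) k, qExpansion 1 f' = (qExpansion 1 f).map σ :=
  H23.conj_of N k (H23.propB1 N k) (H23.propB2 N) σ f

/-- **Descent.** Let `W` be a finite dimensional complex vector space with linear forms `c_i` which
separate points, such that for every ring endomorphism `σ` of `ℂ` and every `w ∈ W` there is
`w' ∈ W` with `c_i(w') = σ(c_i(w))`. Then `W` is spanned by the `w` with all `c_i(w)` rational.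
(ENDOmorphisms are enough and easier to construct than automorphisms: a complex number fixed by all
of them is rational.) Proved in `H23Descent`; used in S23 and in `H50Arith` (S48). -/
theorem descent_to_rational (W : Type*) [AddCommGroup W] [Module ℂ W] [FiniteDimensional ℂ W]
    (ι : Type*) (c : ι → W →ₗ[ℂ] ℂ) (hc : ∀ w, (∀ i, c i w = 0) → w = 0)
    (hσ : ∀ (σ : ℂ →+* ℂ) (w : W), ∃ w', ∀ i, c i w' = σ (c i w)) :
    Submodule.span ℂ {w : W | ∀ i, ∃ q : ℚ, c i w = (q : ℂ)} = ⊤ :=
  H23.descent c hc hσ

/-- `ℤ[[q]]` is completely integrally closed in `ℚ[[q]]`: if all powers of the power series `g` with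
rational coefficients have a common denominator in `ℤ[[q]]`, then the coefficients of `g` are
integers. Proved in `H23Denom`; used in the next theorem. -/
theorem coeff_of_almostIntegral (g : PowerSeries ℚ) (h : IsAlmostIntegral (PowerSeries ℤ) g)
    (n : ℕ) : ∃ z : ℤ, g.coeff n = z :=
  H23.int_of_almostIntegral h n

/-- **Rational forms span, with bounded denominators.** `S_k(Γ₀(N))` is spanned by forms with
rational `q`-expansion, and a form with rational coefficients has bounded denominators (by (B1)
and (B2) a multiple of its expansion is almost integral). Proved in `H23Final`, `H23Denom`; used in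
S23. -/
theorem rational_forms (N : ℕ) [NeZero N] (k : ℤ) :
    Submodule.span ℂ {f : CuspForm (Gamma0 N) k |
      ∀ n, ∃ q : ℚ, ModularFormClass.qCoeff f n = (q : ℂ)} = ⊤ ∧
    ∀ f : CuspForm (Gamma0 N) k, (∀ n, ∃ q : ℚ, ModularFormClass.qCoeff f n = (q : ℂ)) →
      ∃ D : ℤ, D ≠ 0 ∧ ∀ n, ∃ z : ℤ, (D : ℂ) * ModularFormClass.qCoeff f n = z :=
  ⟨H23.rational_span_of N k (H23.propB1 N k) (H23.propB2 N),
    H23.bddDen_cuspForm_of N k (H23.propB1 N k) (H23.propB2 N)⟩

/-- **Integral structure (statement S23 for `k = 2`)**: for every level and weight the space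
`S_k(Γ₀(N))` is spanned by forms with integral `q`-expansion. Proved in `H23Main`; used in the
closure of S01 (`H9J9D`, `H30Main`, `H35Abs`, `H39Conv`, `H39Forms`, `H47LL2`, `H59Occ`) and in S46
(`H71C46`). -/
theorem integral_forms_span (N : ℕ) [NeZero N] (k : ℤ) :
    Submodule.span ℂ {f : CuspForm (Gamma0 N) k |
      ∀ n : ℕ, ∃ m : ℤ, ModularFormClass.qCoeff f n = (m : ℂ)} = ⊤ :=
  (Submodule.span_span_of_tower ℤ ℂ _).symm.trans (H23.hasIntegralStructure N k)

end Fermat.Agent.Guide.ModularForms
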