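import Fermat.Agent.H05_ModPlace

/-!
# Reader's guide: from an elliptic curve with a point of order `p` to a place of `X₀(p)`

This file gives the details of section 5 of `GuideMazur` (input of S15, hence of S12, S09, S03, S01): a
Weierstrass curve `W` over `ℤ` with `j ≠ 0, 1728` and a rational point `Q` of odd prime order `p` defines
a Galois invariant place `x` of the function field of `X₀(p)`, and the reduction of `x` at a prime `≠ p`
of multiplicative reduction of `W` is one of the two cusps, according to the component of `Q`.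

There is no moduli theory in the library: `X₀(p)` is a field of `q`-expansions. The bridge is made as follows.

* Section 1: the Weierstrass function of a lattice gives an injective homomorphism `ℂ/L → E(ℂ)`; two
  classical identities compute `g₂` and `Δ` of the lattice `(1/p)ℤ + ℤτ` from the values of `℘` and `℘'` at
  `a/p`.
* Section 2: algebraic formulas `veluJ`, `veluQ` for the invariant `j(E/C)` and for `Δ(E)/Δ(E/C)`; so for a
  complex curve with invariant `j(τ)` and the subgroup `C` generated by `1/p` these are `j(pτ)` and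
  `Δ(τ)/Δ(pτ)` up to `p^12`.
* Section 3: the valuation of `veluQ` at a place of multiplicative reduction (component homomorphism of the
  node, for arbitrary valuations and residue characteristics; no Tate curve).
* Section 4: `q`-expansions are evaluated at a `τ` with `j(τ)` transcendental; this gives a point of order `p`
  on the generic curve, whose conjugates are all points of order `p` up to multiples; specialisation of the
  generic curve to `W` gives the place.
* Section 5: the place and its reduction.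

Everything is in the closure of S15, S12, S09, S03 and S01 (module `H05_ModPlace` and its imports; authors'
prefixes `H05_`, `H72WP`, `H4WPEis`, `H72B5`). In the NOTES see [243] MAZUR-MODPLACE, [226] MAZUR-B. For the
last step, the descent in `J₀(p)`, see `GuideMazur`, `GuideMazurDescent`. All hypotheses are written out in
every theorem.
-/

set_option autoImplicit false

noncomputable section

namespace Fermat.Agent.Guide.ModuliPoint

open ModularCurve AlgebraicCurve UpperHalfPlane
open scoped WeierstrassCurve.Affine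
open Fermat.Agent.H05 (wpCurve latT latT' veluQ veluC4 veluJ psi2 q2 lg tateW TateCoeffs)

/-! ## Section 1.  Weierstrass functions -/

/-- The notations. `L` is a lattice of `ℂ` with a basis (Mathlib's `PeriodPair`); `wpCurve L` is
the Weierstrass curve `y² = x³ - (g₂/4) x - g₃/4` of `L`; its discriminant is `g₂³ - 27 g₃²`;
`latT τ` is the lattice `ℤ + ℤτ` and `latT' p τ` is `(1/p)ℤ + ℤτ`. File `H05_WPDefs`. -/
theorem lattice_notation (L : PeriodPair) (p : ℕ) [NeZero p] (τ : ℍ) :
    wpCurve L = ⟨0, 0, 0, -(L.g₂ / 4), -(L.g₃ / 4)⟩ ∧ (wpCurve L).Δ = L.g₂ ^ 3 - 27 * L.g₃ ^ 2 ∧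
      ((latT τ).ω₁ = 1 ∧ (latT τ).ω₂ = τ) ∧ ((latT' p τ).ω₁ = 1 / (p : ℂ) ∧ (latT' p τ).ω₂ = τ) :=
  ⟨rfl, H05.wpCurve_Δ L, ⟨rfl, rfl⟩, rfl, rfl⟩

/-- `℘'' = 6℘² - g₂/2` outside the lattice (`L.derivWeierstrassP` is `℘'`). Proof: differentiate
`℘'² = 4℘³ - g₂℘ - g₃` (Mathlib) and divide by `℘'` (identity theorem). File `H72WPBasic`. -/
theorem wp_second_derivative (L : PeriodPair) {z : ℂ} (hz : z ∉ L.lattice) :
    deriv L.derivWeierstrassP z = 6 * L.weierstrassP z ^ 2 - L.g₂ / 2 :=
  H72.deriv_deriv_wp L hz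

/-- **The addition theorem.** If the discriminant of the lattice is nonzero, then
`z ↦ (℘(z), ℘'(z)/2)` is a homomorphism from `ℂ` to the group of points of `wpCurve L` with kernel
`L`. Proof without Liouville's theorem or a count of zeros: for fixed `w` the coordinates of
`Ψ(z + w) - Ψ(z)` have derivative zero outside a countable set, whose complement is connected. So
this difference is a constant `C(w)`, and `C(w) = ± Ψ(w)` by letting `z → 0`; the sign follows from
the additivity of `C` and from the half period `ω₁/2`, where both signs agree. File `H72WPAdd`. -/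
theorem wp_homomorphism [DecidableEq ℂ] (L : PeriodPair) (hΔ : (wpCurve L).Δ ≠ 0) :
    ∃ Ψ : ℂ →+ (wpCurve L).toAffine.Point, (∀ z, Ψ z = 0 ↔ z ∈ L.lattice) ∧
      ∀ z, z ∉ L.lattice → ∃ h, Ψ z = .some (L.weierstrassP z) (L.derivWeierstrassP z / 2) h :=
  H72.exists_wp_hom L hΔ

/-- `℘(z) = ℘(w)` only if `z ≡ ±w` modulo the lattice. File `H72WPDup`. -/
theorem wp_injective {L : PeriodPair} (hΔ : (wpCurve L).Δ ≠ 0) {z w : ℂ} (hz : z ∉ L.lattice)
    (hw : w ∉ L.lattice) (h : L.weierstrassP z = L.weierstrassP w) :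
    z - w ∈ L.lattice ∨ z + w ∈ L.lattice :=
  H72.wp_eq_imp hΔ hz hw h

/-- **The product of `℘'` over the translates by the half periods is the discriminant**:
`℘'(z) ℘'(z + w₁) ℘'(z + w₂) ℘'(z + w₃) = g₂³ - 27 g₃²` for the three half periods `w_i`. It
reduces `discriminant_of_quotient` to a product formula for `℘'`. File `H72WPDup`. -/
theorem wp_half_period_product {L : PeriodPair} (hΔ : (wpCurve L).Δ ≠ 0) {w₁ w₂ w₃ z : ℂ}
    (h₁ : w₁ ∉ L.lattice) (h₂ : w₂ ∉ L.lattice) (h₃ : w₃ ∉ L.lattice) (d₁ : 2 * w₁ ∈ L.lattice)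
    (d₂ : 2 * w₂ ∈ L.lattice) (d₃ : 2 * w₃ ∈ L.lattice) (h₁₂ : w₁ + w₂ ∉ L.lattice)
    (h₁₃ : w₁ + w₃ ∉ L.lattice) (h₂₃ : w₂ + w₃ ∉ L.lattice) (hz : z ∉ L.lattice)
    (z₁ : z + w₁ ∉ L.lattice) (z₂ : z + w₂ ∉ L.lattice) (z₃ : z + w₃ ∉ L.lattice) :
    L.derivWeierstrassP z * (L.derivWeierstrassP (z + w₁) * L.derivWeierstrassP (z + w₂) *
      L.derivWeierstrassP (z + w₃)) = (wpCurve L).Δ :=
  H72.prod_half hΔ h₁ h₂ h₃ d₁ d₂ d₃ h₁₂ h₁₃ h₂₃ hz z₁ z₂ z₃

/-- **`g₂` of the quotient by the subgroup generated by `1/p`**: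
`g₂((1/p)ℤ + ℤτ) = g₂(ℤ + ℤτ) + 10 Σ_{0<a<p} ℘''(a/p)`. Proof: decompose the lattice
`(1/p)ℤ + ℤτ` into the cosets of `ℤ + ℤτ`. File `H72WPG2`. -/
theorem g2_of_quotient (p : ℕ) [NeZero p] (τ : ℍ) :
    (latT' p τ).g₂ = (latT τ).g₂ + 10 * ∑ a ∈ Finset.Ico 1 p,
      (6 * (latT τ).weierstrassP (a / p) ^ 2 - (latT τ).g₂ / 2) :=
  H72.B1b p τ

/-- **The discriminant of the quotient**: `Δ' Π_{0<a<p} ℘'(a/p)⁴ = Δ^p` for odd `p`, where
`Δ`, `Δ'` are the discriminants of `ℤ + ℤτ` and `(1/p)ℤ + ℤτ`. Proof: the quotient of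
`Π_a ℘'(z - a/p)` by the `℘'` of the big lattice is constant (its logarithmic derivative
vanishes); evaluate the constant at `z → 0` and multiply over the half periods with
`wp_half_period_product`. File `H72WPDisc`. -/
theorem discriminant_of_quotient (p : ℕ) [NeZero p] (hp : Odd p) (τ : ℍ) :
    (wpCurve (latT' p τ)).Δ * ∏ a ∈ Finset.Ico 1 p, (latT τ).derivWeierstrassP (a / p) ^ 4 =
      (wpCurve (latT τ)).Δ ^ p :=
  H72.B1d p hp τ

/-- `c₄ = (2π)⁴ E₄(τ)` and `Δ = (2π)¹² Δ(τ)` for the curve of `ℤ + ℤτ`, and the homogeneity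
relating `(1/p)ℤ + ℤτ` to `ℤ + ℤpτ`. File `H4WPEis`. -/
theorem c4_and_discriminant (p : ℕ) [NeZero p] (τ τ' : ℍ) (h : (τ' : ℂ) = p * τ) :
    ((wpCurve (latT τ)).c₄ = (2 * Real.pi) ^ 4 * ModularForm.E₄ τ ∧
      (wpCurve (latT τ)).Δ = (2 * Real.pi) ^ 12 * ModularForm.discriminant τ) ∧
    ((wpCurve (latT' p τ)).c₄ = (p : ℂ) ^ 4 * (wpCurve (latT τ')).c₄ ∧
      (wpCurve (latT' p τ)).Δ = (p : ℂ) ^ 12 * (wpCurve (latT τ')).Δ) :=
  ⟨H4.B1c τ, H4.B1c' p τ τ' h⟩

/-! ## Section 2.  The invariants of the quotient of a curve by a finite subgroup -/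

/-- `ψ₂ = 2y + a₁x + a₃` and `q₂ = 6x² + b₂x + b₄` as functions on the points, with the values `1` and
`0` at the origin. File `H05_Velu`. -/
theorem psi2_q2 {K : Type*} [Field K] (W : WeierstrassCurve K) :
    (psi2 W 0 = 1 ∧ ∀ (x y : K) (h : W.toAffine.Nonsingular x y),
      psi2 W (.some x y h) = 2 * y + W.a₁ * x + W.a₃) ∧
    (q2 W 0 = 0 ∧ ∀ (x y : K) (h : W.toAffine.Nonsingular x y),
      q2 W (.some x y h) = 6 * x ^ 2 + W.b₂ * x + W.b₄) :=
  ⟨⟨rfl, fun _ _ _ => rfl⟩, rfl, fun _ _ _ => rfl⟩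

/-- **The invariants of Velu's quotient**, without constructing the quotient: for a finite subgroup
`C` of odd order, `veluQ W C = Π_{R∈C} ψ₂(R)⁴ / Δ^(#C-1)` is `Δ(W)/Δ(W/C)`,
`veluC4 W C = c₄ + 120 Σ_{R∈C} q₂(R)` is `c₄(W/C)` and `veluJ W C = veluC4³ veluQ / Δ` is `j(W/C)`.
The library uses only the formulas. File `H05_Velu`. -/
theorem velu_invariants {K : Type*} [Field K] [DecidableEq K] (W : WeierstrassCurve K)
    (C : AddSubgroup W.toAffine.Point) :
    veluQ W C = (∏ᶠ R ∈ (C : Set W.toAffine.Point), psi2 W R) ^ 4 / W.Δ ^ (Nat.card C - 1) ∧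
    veluC4 W C = W.c₄ + 120 * ∑ᶠ R ∈ (C : Set W.toAffine.Point), q2 W R ∧
    veluJ W C = veluC4 W C ^ 3 * veluQ W C / W.Δ :=
  ⟨rfl, rfl, rfl⟩

/-- They depend only on the isomorphism class of the pair (curve, subgroup): `C • W` is the image of
`W` under a change of variables `C` and `H74.pointEquiv W C` the bijection of points.
File `H05_Velu`. -/
theorem velu_isomorphism {K : Type*} [Field K] [DecidableEq K] {W : WeierstrassCurve K}
    (C : WeierstrassCurve.VariableChange K) (hΔ : W.Δ ≠ 0) {P : (C • W).toAffine.Point} {n : ℕ}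
    (hn : 0 < n) (hP : addOrderOf P = n) :
    veluQ W (AddSubgroup.zmultiples (H74.pointEquiv W C P)) =
        veluQ (C • W) (AddSubgroup.zmultiples P) ∧
      veluJ W (AddSubgroup.zmultiples (H74.pointEquiv W C P)) =
        veluJ (C • W) (AddSubgroup.zmultiples P) :=
  ⟨H05.veluQ_pointEquiv C hΔ hn hP, H05.veluJ_pointEquiv C hΔ hn hP⟩

/-- **The analytic subgroup.** Let `τ' = pτ`. Every complex Weierstrass curve with invariant `j(τ)`
has a point `R` of order `p` such that the quotient by `⟨R⟩` has invariant `j(pτ)` and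
`p^12 Δ(W)/Δ(W/⟨R⟩) = Δ(τ)/Δ(pτ)`. So the pair (`j(pτ)`, modular unit) is computed by algebraic
formulas on the curve. Proof: `R` corresponds to `1/p` under `wp_homomorphism`; use
`g2_of_quotient`, `discriminant_of_quotient`, `c4_and_discriminant`. (`H61.jInv` is
`j = E₄³/Δ` on the upper half plane.) File `H05_AnaPoint`. -/
theorem analytic_subgroup {p : ℕ} [NeZero p] (hp : p.Prime) (hp2 : p ≠ 2) (τ τ' : ℍ)
    (hτ' : (τ' : ℂ) = p * τ) (W : WeierstrassCurve ℂ) (hΔ : W.Δ ≠ 0)
    (hj : W.c₄ ^ 3 = H61.jInv τ * W.Δ) : ∃ R : W.toAffine.Point, addOrderOf R = p ∧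
      veluJ W (AddSubgroup.zmultiples R) = H61.jInv τ' ∧
      (p : ℂ) ^ 12 * veluQ W (AddSubgroup.zmultiples R) =
        ModularForm.discriminant τ / ModularForm.discriminant τ' :=
  H05.exists_point_complex hp (H05.b1Inputs hp hp2) τ τ' hτ' W hΔ hj

/-! ## Section 3.  The node

`A` is an arbitrary valuation ring of a field `K`; `lg A x` is the class of the valuation of `x ≠ 0` in
the value group, written additively, so that `lg` of a product is the sum, and `x` is in the maximal
ideal if and only if `lg A x < 0`. -/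

/-- The properties of `lg`. File `H05_Log`. -/
theorem lg_properties {K : Type*} [Field K] {A : ValuationSubring K} {x y : K} (hx : x ≠ 0)
    (hy : y ≠ 0) : (lg A x ≤ lg A y ↔ A.valuation x ≤ A.valuation y) ∧
      lg A (x * y) = lg A x + lg A y ∧ (lg A x < 0 ↔ x ∈ A.nonunits) :=
  ⟨H05.lg_le_iff hx hy, H05.lg_mul hx hy, H05.lg_neg_iff hx⟩

/-- **The normal form at a node** `tateW a₄ a₆ : y² + xy = x³ + a₄x + a₆`, with `a₆ ≠ 0` in the
maximal ideal and `|a₄| ≤ |a₆|` (`TateCoeffs A a₄ a₆`). Every Weierstrass curve with integral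
coefficients, discriminant `≠ 0` in the maximal ideal and `c₄` a unit is isomorphic to one of these
by an integral change of variables with invertible `u`, over a separably closed field.
File `H05_VeluMult`. -/
theorem normal_form {K : Type*} [Field K] {A : ValuationSubring K} [IsSepClosed K]
    {W : WeierstrassCurve K} (h₁ : W.a₁ ∈ A) (h₂ : W.a₂ ∈ A) (h₃ : W.a₃ ∈ A) (h₄ : W.a₄ ∈ A)
    (h₆ : W.a₆ ∈ A) (hΔ : W.Δ ≠ 0) (hΔA : W.Δ ∈ A.nonunits) (hc : W.c₄ ∉ A.nonunits) :
    ∃ (C : WeierstrassCurve.VariableChange K) (a₄ a₆ : K), TateCoeffs A a₄ a₆ ∧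
      C • W = tateW a₄ a₆ ∧ (C.u : K) ∈ A ∧ (C.u : K) ∉ A.nonunits ∧
      C.r ∈ A ∧ C.s ∈ A ∧ C.t ∈ A :=
  H05.exists_vc_tateW ⟨h₁, h₂, h₃, h₄, h₆⟩ hΔ hΔA hc

/-- `TateCoeffs`, written out. File `H05_Comp`. -/
theorem tateCoeffs_iff {K : Type*} [Field K] {A : ValuationSubring K} {a₄ a₆ : K} :
    TateCoeffs A a₄ a₆ ↔ a₆ ≠ 0 ∧ lg A a₆ < 0 ∧ (a₄ = 0 ∨ lg A a₄ ≤ lg A a₆) :=
  ⟨fun h => ⟨h.ne, h.lt, h.bd⟩, fun h => ⟨h.1, h.2.1, h.2.2⟩⟩

/-- **The component homomorphism.** The points of `y² + xy = x³ + a₄x + a₆` have a homomorphism to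
`Γ/ℤ lg(a₆)`, `Γ` the value group, which is trivial exactly on the points not reducing to the node
`(0, 0)`, and is the class of `lg(y + x)` or `-lg(y)` for a point reducing to the node according to
which of the two factors of `y (y + x)` is larger. If both have the same value, then `2 lg(y) = lg(a₆)`
and the class is that of `lg(y)`, of order two. (For the Tate curve this is the valuation of the
parameter modulo that of `q`.) Proof: three points on a line, a case distinction on the valuations of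
slope and intercept. Files `H05_Line` (three points on a line), `H05_Comp`, `H05_CompHom`. -/
theorem component_homomorphism {K : Type*} [Field K] [DecidableEq K] {A : ValuationSubring K}
    {a₄ a₆ : K} (hT : TateCoeffs A a₄ a₆) :
    ∃ c : (tateW a₄ a₆).Point →+ H05.VG A ⧸ AddSubgroup.zmultiples (lg A a₆),
      ∀ (x y : K) (h : (tateW a₄ a₆).Nonsingular x y),
        (c (.some x y h) = 0 ↔ x ∉ A.nonunits) ∧
        (x ∈ A.nonunits → y + x ≠ 0 → (y = 0 ∨ lg A y < lg A (y + x)) →
          c (.some x y h) = QuotientAddGroup.mk (lg A (y + x))) ∧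
        (x ∈ A.nonunits → y ≠ 0 → (y + x = 0 ∨ lg A (y + x) < lg A y) →
          c (.some x y h) = QuotientAddGroup.mk (-lg A y)) ∧
        (x ∈ A.nonunits → y ≠ 0 → y + x ≠ 0 → lg A y = lg A (y + x) →
          c (.some x y h) = QuotientAddGroup.mk (lg A y)) :=
  ⟨H05.compHom hT, fun _ _ h => ⟨H05.compHom_eq_zero_iff hT h, fun hx h1 h2 =>
    H05.compHom_some hT h (.pos hx h1 h2), fun hx h1 h2 => H05.compHom_some hT h (.neg hx h1 h2),
    fun hx h1 h2 h3 => H05.compHom_some hT h (.mid hx h1 h2 h3)⟩⟩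

/-- **The quotient of discriminants if `P` reduces to the node**: for `P` of odd prime order `p` on a
curve with multiplicative reduction at `A`, `Δ(W)/Δ(W/⟨P⟩)` is a nonzero element of the maximal
ideal. `ZeroComp A W P` says: if `P` is an integral affine point, its reduction is nonsingular.
Proof: normal form; `Σ_i min(i, p - i)` over the components of the multiples of `P`.
Files `H05_VeluLocal`, `H05_VeluMult`. -/
theorem velu_node {K : Type*} [Field K] [DecidableEq K] {A : ValuationSubring K} [IsSepClosed K]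
    {W : WeierstrassCurve K} (h₁ : W.a₁ ∈ A) (h₂ : W.a₂ ∈ A) (h₃ : W.a₃ ∈ A) (h₄ : W.a₄ ∈ A)
    (h₆ : W.a₆ ∈ A) (hΔ : W.Δ ≠ 0) (hΔA : W.Δ ∈ A.nonunits) (hc : W.c₄ ∉ A.nonunits)
    {P : W.toAffine.Point} {p : ℕ} (hp : p.Prime) (hp2 : p ≠ 2) (hP : addOrderOf P = p)
    (hz : ¬ H05.ZeroComp A W P) :
    veluQ W (AddSubgroup.zmultiples P) ≠ 0 ∧ veluQ W (AddSubgroup.zmultiples P) ∈ A.nonunits :=
  H05.veluQ_mem_nonunits ⟨h₁, h₂, h₃, h₄, h₆⟩ hΔ hΔA hc hp hp2 hP hz

/-- **... and if it does not**: the inverse is in the maximal ideal, if `p` is a unit at `A`.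
Files `H05_VeluLocal`, `H05_VeluMult`. -/
theorem velu_zero {K : Type*} [Field K] [DecidableEq K] {A : ValuationSubring K} [IsSepClosed K]
    {W : WeierstrassCurve K} (h₁ : W.a₁ ∈ A) (h₂ : W.a₂ ∈ A) (h₃ : W.a₃ ∈ A) (h₄ : W.a₄ ∈ A)
    (h₆ : W.a₆ ∈ A) (hΔ : W.Δ ≠ 0) (hΔA : W.Δ ∈ A.nonunits) (hc : W.c₄ ∉ A.nonunits)
    {P : W.toAffine.Point} {p : ℕ} (hp : p.Prime) (hp2 : p ≠ 2) (hP : addOrderOf P = p)
    (hpA : (p : IsLocalRing.ResidueField A) ≠ 0) (hz : H05.ZeroComp A W P) :
    veluQ W (AddSubgroup.zmultiples P) ≠ 0 ∧ (veluQ W (AddSubgroup.zmultiples P))⁻¹ ∈ A.nonunits :=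
  H05.inv_veluQ_mem_nonunits ⟨h₁, h₂, h₃, h₄, h₆⟩ hΔ hΔA hc hp hp2 hP hpA hz

/-! ## Section 4.  The generic point and its specialisation -/

/-- **Evaluation of `q`-expansions.** `modularFunctionFieldFullC K N` is the field generated over `K`
by the Laurent series `j(q^d)`, `d ∣ N`. If `j(τ₀)` is transcendental over `K ⊂ ℂ`, evaluation at
`τ₀` is an embedding of this field into `ℂ` with the values `j(τ₀)`, `j(Nτ₀)` and `Δ(τ₀)/Δ(Nτ₀)`
at `j(q)`, `j(q^N)` and the modular unit `Δ(q)/Δ(q^N)`. (`H24.jF` is `j(q)` as an element of the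
field, `H05.uSer` the modular unit, `H24.scale N τ₀` is `Nτ₀`.) Files `H05_Unit`, `H05_EvalEmb`. -/
theorem evaluation_embedding {K : Type*} [Field K] [Algebra K ℂ] {N : ℕ} [NeZero N] {τ₀ : ℍ}
    (h : Transcendental K (H61.jInv τ₀)) : ∃ θ : modularFunctionFieldFullC K N →ₐ[K] ℂ,
      θ (H24.jF K N) = H61.jInv τ₀ ∧
      (∀ x : modularFunctionFieldFullC K N, (x : LaurentSeries K) = qExpand K N (jqModC K) →
        θ x = H61.jInv (H24.scale N τ₀)) ∧
      (∀ x : modularFunctionFieldFullC K N, (x : LaurentSeries K) = H05.uSer K N →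
        θ x = ModularForm.discriminant τ₀ / ModularForm.discriminant (H24.scale N τ₀)) :=
  ⟨H05.evF h, H05.evF_jF h, H05.evF_jN h, H05.evF_u h⟩

/-- Such a `τ₀` exists if `K` is countable (`j` is surjective). File `H05_EvalEmb`. -/
theorem exists_generic_tau (K : Type*) [Field K] [Countable K] [Algebra K ℂ] :
    ∃ τ₀ : ℍ, Transcendental K (H61.jInv τ₀) :=
  H05.exists_transcendental_jInv K

/-- **The family** `SF g t`: a short Weierstrass equation with `c₄ = t(t-1728)g²`,
`c₆ = t(t-1728)²g³`, hence invariant `t`. File `H05_Moduli`. -/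
theorem family_invariants {L : Type*} [Field L] [CharZero L] (g t : L) :
    (H05.SF g t).c₄ = t * (t - 1728) * g ^ 2 ∧ (H05.SF g t).c₆ = t * (t - 1728) ^ 2 * g ^ 3 ∧
      (H05.SF g t).Δ = t ^ 2 * (t - 1728) ^ 3 * g ^ 6 :=
  ⟨H05.SF_c₄ g t, H05.SF_c₆ g t, H05.SF_Δ g t⟩

/-- **The generic point.** Let `F` be a field extension of `K` with elements `t` (transcendental), `tp`,
`u` and an embedding `θ : F → ℂ` with `θ(t, tp, u) = (j(τ), j(pτ), Δ(τ)/Δ(pτ))`. Then the curve
`SF g t` over the algebraic closure `Ω` of `F` has a point `R` of order `p` with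
`veluJ = tp` and `p^12 veluQ = u`: `analytic_subgroup`, and torsion points are algebraic.
File `H05_GenInst`. -/
theorem generic_point {K F Ω : Type*} [Field K] [CharZero K] [Field F] [Algebra K F]
    [Field Ω] [Algebra K Ω] [Algebra F Ω] [IsScalarTower K F Ω] [IsAlgClosure F Ω]
    [DecidableEq Ω] {p : ℕ} [NeZero p] (hp : p.Prime) (hp2 : p ≠ 2) {t tp u : F}
    (ht : Transcendental K t) {τ τ' : ℍ} (hτ : (τ' : ℂ) = p * τ) (θ : F →+* ℂ)
    (h1 : θ t = H61.jInv τ) (h2 : θ tp = H61.jInv τ')
    (h3 : θ u = ModularForm.discriminant τ / ModularForm.discriminant τ') {g : K} (hg : g ≠ 0) :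
    ∃ R : (H05.SF (algebraMap K Ω g) (algebraMap F Ω t)).toAffine.Point,
      addOrderOf R = p ∧ veluJ _ (AddSubgroup.zmultiples R) = algebraMap F Ω tp ∧
        (p : Ω) ^ 12 * veluQ _ (AddSubgroup.zmultiples R) = algebraMap F Ω u :=
  H05.exists_generic_point hp (H05.b1Inputs hp hp2) ht hτ θ h1 h2 h3 hg

/-- **Transitivity.** `E` is a curve over the algebraic closure `Ω` of `K₀` fixed by the Galois group,
`R` a point of prime order `p` such that `veluJ(⟨R⟩)` has degree `p + 1` over `K₀`. Then every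
subgroup of order `p` is conjugate to `⟨R⟩`: there are `p + 1` subgroups and `p + 1` conjugate
values. (`H05.mapPt σ` applies `σ` to the coordinates.) It is applied with `K₀ = K(j)`, where the
degree of `j(q^p)` is `p + 1`. File `H05_Trans`. -/
theorem subgroups_conjugate {K₀ Ω : Type*} [Field K₀] [CharZero K₀] [Field Ω] [IsAlgClosed Ω]
    [Algebra K₀ Ω] [Algebra.IsAlgebraic K₀ Ω] [DecidableEq Ω] {E : WeierstrassCurve Ω}
    (hE : ∀ σ : Ω ≃ₐ[K₀] Ω, E.map (σ : Ω →+* Ω) = E) (hΔ : E.Δ ≠ 0) {p : ℕ} (hp : p.Prime) {tp : Ω}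
    (hdeg : (minpoly K₀ tp).natDegree = p + 1) {R : E.toAffine.Point} (hR : addOrderOf R = p)
    (hRj : veluJ E (AddSubgroup.zmultiples R) = tp) (P : E.toAffine.Point)
    (hP : addOrderOf P = p) :
    ∃ σ : Ω ≃ₐ[K₀] Ω, AddSubgroup.zmultiples (H05.mapPt (σ : Ω →+* Ω) (hE σ) R) =
      AddSubgroup.zmultiples P :=
  H05.exists_mapPt_mem hE hΔ hp hdeg hR hRj P hP

/-- **Specialisation of torsion points.** `V` is a valuation ring of `Ω` containing the constants
`ι(k)`, `W` a curve over `Ω` whose coefficients are congruent to those of `W₀` over `k`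
(`H05.CoeffCong`). Every torsion point of `W₀` is the specialisation (`H05.Cong`) of a torsion point
of `W` of the same exponent. Proof: injectivity of the specialisation on torsion (`H59RedTors`: no
torsion prime to the residue characteristic in the kernel of reduction) and the number of torsion points
(`H42TorsionFinal`). File `H05_CongRed`. -/
theorem torsion_lifts {k Ω : Type*} [Field k] [Field Ω] {V : ValuationSubring Ω} {ι : k →+* Ω}
    {W : WeierstrassCurve Ω} {W₀ : WeierstrassCurve k} [CharZero k] [DecidableEq k]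
    [DecidableEq Ω] [IsAlgClosed k] [IsAlgClosed Ω] (hc : H05.CoeffCong V ι W W₀)
    (hΔ : W₀.Δ ≠ 0) {n : ℕ} (hn : n ≠ 0) {P₀ : W₀.toAffine.Point} (hP₀ : n • P₀ = 0) :
    ∃ P : W.toAffine.Point, n • P = 0 ∧ H05.Cong V ι P P₀ :=
  hc.exists_lift hΔ hn hP₀

/-! ## Section 5.  The place and its reduction -/

/-- **The place of a rational point of order `p`.** `W` is a Weierstrass curve over `ℤ` with
`Δ c₄ c₆ ≠ 0` and `Q` a Galois-invariant point of prime order `p ≠ 2` over the algebraic closure of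
`ℚ`. There are a place `x` of the function field of `X₀(p)` over the algebraic closure of `ℚ`
(`modularFunctionFieldBar p`) fixed by the arithmetic Galois action and a value `a ≠ 0` of the
modular unit `Δ(q)/Δ(q^p)` at `x` such that for every place `A` above a prime `ℓ ≠ p` of
multiplicative reduction: `a` is in the maximal ideal if `Q` is not on the component of zero
(`W.InZeroComponentAt`, Prelude), and `a⁻¹` is if it is. Here `a = p^12 Δ(W)/Δ(W/⟨Q⟩)`, see
`velu_node`, `velu_zero`. Files `H05_PlaceB`, `H05_Moduli`, `H05_ValConj` (two valuation rings with the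
same trace on the base field are conjugate: this moves the specialisation to the given point). -/
theorem place_of_rational_point {p : ℕ} [NeZero p] (hp : p.Prime) (hp2 : p ≠ 2)
    (W : WeierstrassCurve ℤ) (hΔ : W.Δ ≠ 0) (hc4 : W.c₄ ≠ 0) (hc6 : W.c₆ ≠ 0)
    (Q : ((W.map (Int.castRingHom ℚ))⁄(AlgebraicClosure ℚ)).Point)
    (hQfix : ∀ σ : AlgebraicClosure ℚ ≃ₐ[ℚ] AlgebraicClosure ℚ, σ • Q = Q)
    (hQord : addOrderOf Q = p) :
    ∃ (x : Place (AlgebraicClosure ℚ) (modularFunctionFieldBar p)) (a : AlgebraicClosure ℚ),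
      (∀ σ : AlgebraicClosure ℚ ≃ₐ[ℚ] AlgebraicClosure ℚ,
        arithmeticGalois (modularFunctionFieldFull p) σ • x = x) ∧
      (∀ u : modularFunctionFieldBar p,
        (u : LaurentSeries (AlgebraicClosure ℚ)) =
            coeffEmb (AlgebraicClosure ℚ) (modularUnitSeries p) →
          u - algebraMap (AlgebraicClosure ℚ) (modularFunctionFieldBar p) a ∈
            x.toValuationSubring.nonunits) ∧
      a ≠ 0 ∧
      ∀ (ℓ : ℕ) (A : ValuationSubring (AlgebraicClosure ℚ)), ℓ.Prime → ℓ ≠ p →
        A.LiesOverPrime ℓ → (ℓ : ℤ) ∣ W.Δ → ¬ (ℓ : ℤ) ∣ W.c₄ →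
          (¬ W.InZeroComponentAt A Q → a ∈ A.nonunits) ∧
          (W.InZeroComponentAt A Q → a⁻¹ ∈ A.nonunits) :=
  H05.exists_place_int' hp hp2 (H05.b1Inputs hp hp2) W hΔ hc4 hc6 Q hQfix hQord

/-- **The two cusps** of `X₀(p)`, `p` prime, over an algebraically closed field of characteristic
`≠ p` (`H9.CuspSpec`, here its fields which are used below): the order at `i = ∞` is the order of the
`q`-expansion, at `z = 0` the functions `j(q)` and `j(q^p)` have poles of order `p` and `1`, all
poles of `j(q)` are among them, and the divisor of `Δ(q^p)/Δ(q)` is `(p-1)((∞) - (0))`.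
File `H9Spec`. -/
theorem cusps {K : Type*} [Field K] [IsAlgClosed K] (p : ℕ) [Fact p.Prime] (hp0 : (p : K) ≠ 0) :
    ∃ i z : Place K (modularFunctionFieldFullC K p),
      H9.CuspSpec K p (modularFunctionFieldFullC K p) i z ∧
      (∀ f : modularFunctionFieldFullC K p, i.ord f = (f : LaurentSeries K).order) ∧
      (∀ x : modularFunctionFieldFullC K p, (x : LaurentSeries K) = H66.J K 1 → z.ord x = -p) ∧
      (∀ x : modularFunctionFieldFullC K p, (x : LaurentSeries K) = H66.J K p → z.ord x = -1) ∧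
      (∀ (v : Place K (modularFunctionFieldFullC K p)) (x : modularFunctionFieldFullC K p),
        (x : LaurentSeries K) = H66.J K 1 → v.ord x < 0 → v = i ∨ v = z) ∧
      ∃ U : modularFunctionFieldFullC K p, (U : LaurentSeries K) = H9.deltaRatio K p ∧
        ∀ v : Place K (modularFunctionFieldFullC K p),
          v.ord U = (-((p : ℤ) - 1) • (Finsupp.single z 1 - Finsupp.single i 1 :
            Divisor K (modularFunctionFieldFullC K p))) v := by
  obtain ⟨i, z, S⟩ := H9.exists_cuspSpec K p hp0 _ rfl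
  exact ⟨i, z, S, S.inf_ord, S.zero_J₁, S.zero_Jₚ, S.cusp, S.ratio⟩

/-- **Reduction of places**, the notion of the Prelude written out: a map `r` on places preserving
degrees such that for every Laurent series `y` over `A` which is a function on `X₀(N)` over `L` and
whose reduction is a nonzero function over `k`, the divisor of the reduction is the image under
`r` of the divisor of `y`. -/
theorem isPlaceReductionAlong_iff {L : Type*} [Field L] [Algebra ℚ L] {A : ValuationSubring L}
    {k : Type*} [Field k] {π : A →+* k} {N : ℕ}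
    {r : Place L (laurentBaseChange L (modularFunctionFieldFull N)) →
      Place k (modularFunctionFieldFullC k N)} :
    IsPlaceReductionAlong A π N r ↔ (∀ P, (r P).deg = P.deg) ∧
      ∀ (y : LaurentSeries A)
        (hy : coeffMap A.subtype y ∈ laurentBaseChange L (modularFunctionFieldFull N))
        (hyk : coeffMap π y ∈ modularFunctionFieldFullC k N), coeffMap π y ≠ 0 →
        ∀ D : Divisor L (laurentBaseChange L (modularFunctionFieldFull N)),
          (∀ P, D P = P.ord (⟨coeffMap A.subtype y, hy⟩ :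
            laurentBaseChange L (modularFunctionFieldFull N))) →
          ∀ Q, Finsupp.mapDomain r D Q = Q.ord (⟨coeffMap π y, hyk⟩ :
            modularFunctionFieldFullC k N) :=
  Iff.rfl

/-- **To which cusp does the place reduce?** `A` is a valuation ring of an algebraically closed
field `L` of characteristic zero, `π : A → k` a ring homomorphism killing the maximal ideal, `r` a
reduction map on the places of `X₀(p)` compatible with the reduction of `q`-expansions
(`IsPlaceReductionAlong`, Prelude), `i`, `z` the two cusps of `X₀(p)` (`H9.CuspSpec`: `i` is `∞`).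
If the modular unit `u = Δ(q)/Δ(q^p)` takes the value `a` at `x`, then `x` reduces to the
reduction of the cusp `0` if `|a| < 1`, and to that of the cusp `∞` if `|a| > 1`. Proof: the divisor
of `u` is `(p-1)((0) - (∞))`; if `|a| < 1`, then `u - a` and `u` have the same reduction, so the
effective divisor `div(u - a) + (p-1)(∞)`, which contains `x`, reduces to `p - 1` times the
reduction of `0`. Files `H72PlaceRed`, `H72B5`. -/
theorem reduction_to_cusp {p : ℕ} [Fact p.Prime] {L : Type*} [Field L] [Algebra ℚ L]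
    [IsAlgClosed L] [H3RR.IsFF L (laurentBaseChange L (modularFunctionFieldFull p))]
    {A : ValuationSubring L} {k : Type*} [Field k] {π : A →+* k}
    (hπ : ∀ a : A, (a : L) ∈ A.nonunits → π a = 0)
    (hk : H9.deltaRatio k p ∈ modularFunctionFieldFullC k p)
    {r : Place L (laurentBaseChange L (modularFunctionFieldFull p)) →
      Place k (modularFunctionFieldFullC k p)}
    (hr : IsPlaceReductionAlong A π p r)
    {i z : Place L (laurentBaseChange L (modularFunctionFieldFull p))}
    (S : H9.CuspSpec L p (laurentBaseChange L (modularFunctionFieldFull p)) i z)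
    (u : laurentBaseChange L (modularFunctionFieldFull p))
    (hu : (u : LaurentSeries L) = coeffEmb L (modularUnitSeries p))
    (x : Place L (laurentBaseChange L (modularFunctionFieldFull p))) (a : L)
    (hx : u - algebraMap L _ a ∈ x.toValuationSubring.nonunits) :
    (a ∈ A.nonunits → r x = r z) ∧ (a⁻¹ ∈ A.nonunits → a ≠ 0 → r x = r i) :=
  H72.B5 hπ hk hr S u hu x a hx

end Fermat.Agent.Guide.ModuliPoint
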