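import Fermat.Agent.H05_ModPlace

/-!
# Reader's guide: the place of `X₀(p)` of a curve with a point of order `p`, step by step

Companion of `GuideModuliPoint`, sections 4 and 5 (inputs of S15, hence of S12, S09, S03, S01). There is no
moduli theory in the library; `X₀(p)` is a field of `q`-expansions. A Weierstrass curve `W` over `ℤ` and a
rational point `Q` of odd prime order `p` give a place of this field, as follows.

1. (Section 1.) The modular unit `Δ(q)/Δ(q^p)` is in the field.
2. (Section 2.) The analytic point: the curve of the lattice `ℤ + ℤτ` and the point `℘(1/p)`. It descends to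
   the family `SF g t`, `t = j(q)`, over the algebraic closure `Ω` of the function field
   `F = ℚ̄(j(q), j(q^p))`. (`SF g t` is `y² = x³ - (c₄/48) x - c₆/864` with `c₄ = t (t - 1728) g²`,
   `c₆ = t (t - 1728)² g³`; its invariant `j` is `t`.)
3. (Section 3.) Counting: the `p + 1` subgroups of order `p` of the generic curve are conjugate over `ℚ̄(j)`,
   and `veluJ` separates them.
4. (Section 4.) Specialisation of torsion points along a valuation ring `V` of `Ω` with `j ≡ j(W)`.
5. (Section 5.) Two valuation rings of `Ω` with the same trace on `ℚ̄(j)` are conjugate.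
6. (Section 6.) Hence one can choose `V` such that the analytic point `R` specialises to a multiple of `Q`
   which is not zero; the trace of `V` on `F` is the place. It is invariant under the Galois group because
   `Q` is, and the value of the modular unit is `p^12 veluQ W ⟨Q⟩`.
7. (Section 7.) The reduction of this place at a prime of multiplicative reduction is a cusp.

Authors: helper5 (`H05_*`), helper72 (`H72PlaceRed`, `H72B5`). NOTES: [243] MAZUR-MODPLACE, [226] MAZUR-B.
All theorems are in the term closure of S15, S12, S09, S03 and S01. For `veluQ`, `veluJ`, `psi2` see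
`GuideModuliPoint.velu_invariants` and `GuideVelu`.
-/

set_option autoImplicit false

noncomputable section

namespace Fermat.Agent.Guide.ModuliSteps

open ModularCurve AlgebraicCurve UpperHalfPlane Polynomial
open scoped WeierstrassCurve.Affine MatrixGroups
open Fermat.Agent.H05 (wpCurve latT latT' veluQ veluC4 veluJ psi2 q2 uSer uFun mapPt SF CE Cong
  CoeffCong LiesOverVal)

/-! ## 1. The modular unit

(`H24.Good K N x`: the series `x` over `K ⊂ ℂ` converges to a holomorphic function on the upper half plane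
which is invariant under `Γ₀(N)` and meromorphic at all cusps, see `GuideBridge.good_iff`;
`H24.ev K x` is this function. `H61.jInv τ` is `j(τ)`, `H24.scale N τ` the point `N τ` and
`H24.affine a b e τ` the point `(a τ + b)/e`.) -/

/-- **The series** `uSer K N` is `Δ(q)/Δ(q^N)` with coefficients in `K`; it is compatible with ring
homomorphisms and equals the series of the Prelude. File `H05_Unit`. -/
theorem modular_unit_series {K L : Type*} [Field K] [Field L] (f : K →+* L) (N : ℕ) [NeZero N] :
    uSer K N = H28.deltaL K * qExpand K N (H28.deltaInvL K) ∧ coeffMap f (uSer K N) = uSer L N ∧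
      modularUnitSeries N = uSer ℚ N :=
  ⟨rfl, H05.coeffMap_uSer f N, H05.modularUnitSeries_eq N⟩

/-- **Its value** at `τ` is `Δ(τ)/Δ(Nτ)`, and this function is invariant under `Γ₀(N)`. File `H05_Unit`. -/
theorem modular_unit_function (K : Type*) [Field K] [Algebra K ℂ] (N : ℕ) [NeZero N] :
    (∀ τ : ℍ, uFun N τ =
      ModularForm.discriminant τ * (ModularForm.discriminant (H24.scale N τ))⁻¹) ∧
      H24.ev K (uSer K N) = uFun N ∧
      ∀ γ ∈ CongruenceSubgroup.Gamma0 N, ∀ τ : ℍ, uFun N (γ • τ) = uFun N τ :=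
  ⟨fun _ => rfl, H05.ev_uSer K N, fun _ hγ τ => congrFun (H05.uFun_inv N hγ) τ⟩

/-- **The cusps.** Every `γ ∈ SL₂(ℤ)` is moved into an affine map by a matrix `M ∈ SL₂(ℤ)`:
`M (N · γτ) = (aτ + b)/e`, `ae = N`. Then the product of the automorphy factors of `γ` and `M` is constant,
so `Δ(γτ)/Δ(Nγτ)` is a constant times `Δ(τ)/Δ((aτ + b)/e)` and has an expansion in `q^(1/N)`.
File `H05_Unit`. -/
theorem modular_unit_at_cusps (N : ℕ) [NeZero N] (γ : SL(2, ℤ)) :
    (∀ (M : SL(2, ℤ)) (a e : ℕ) (b : ℤ) [NeZero a] [NeZero e],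
      (∀ τ : ℍ, M • H24.scale N (γ • τ) = H24.affine a b e τ) →
      ∃ t : ℂ, ∀ τ : ℍ, denom γ τ * denom M (H24.scale N (γ • τ)) = t) ∧
      ∃ F : LaurentSeries ℂ, H24.IsConv F ∧ ∀ τ : ℍ, Function.Periodic.qParam (N : ℝ) τ ≠ 0 →
        H24.evalAt (Function.Periodic.qParam (N : ℝ) τ) F = uFun N (γ • τ) :=
  ⟨fun M a e b _ _ h => H05.exists_const_denom N γ M a e b h, H05.uFun_mem_ExpAlg N γ⟩

/-- **So the modular unit is a modular function**, for `K ⊂ ℂ` algebraically closed. File `H05_Unit`. -/
theorem modular_unit_mem (K : Type*) [Field K] [Algebra K ℂ] (N : ℕ) [NeZero N]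
    [IsAlgClosed K] : H24.Good K N (uSer K N) ∧ uSer K N ∈ modularFunctionFieldFullC K N :=
  ⟨H05.good_uSer K N, H05.uSer_mem_full K N⟩

/-! ## 2. The analytic point on the generic curve -/

/-- **Evaluation at `τ₀`** on the ring `A = K[j(q^d) : d ∣ N]` is injective if `j(τ₀)` is transcendental over
`K`: a monic relation of a nonzero `x ∈ A` over `K[j]`, divided by a power of `x`, has a nonzero constant
term, which does not vanish at `τ₀`. So the evaluation extends to the field. File `H05_EvalEmb`. -/
theorem evaluation_injective {K : Type*} [Field K] [Algebra K ℂ] {N : ℕ} [NeZero N] {τ₀ : ℍ}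
    (h : Transcendental K (H61.jInv τ₀)) :
    Function.Injective (fun x : H24.A K N => H24.ev K (x : LaurentSeries K) τ₀) :=
  H05.evA_injective h

/-- **The point on the curve of the lattice** (`p` odd): `R = (℘(1/p), ℘'(1/p)/2)` has order `p`, because
`a/p` is in `ℤ + ℤτ` if and only if `p ∣ a`; the invariants of the quotient by `⟨R⟩` are those of
`(1/p)ℤ + ℤτ`, a lattice homothetic to `ℤ + ℤpτ`. (`H05.B1Inputs p` are the facts on the Weierstrass
function, proved in `H05.b1Inputs`, see `GuideWeierstrass`.) File `H05_AnaPoint`. -/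
theorem point_of_lattice {p : ℕ} [NeZero p] (hp : p.Prime) (hp2 : p ≠ 2) (τ τ' : ℍ)
    (hτ' : (τ' : ℂ) = p * τ) :
    (∀ a : ℕ, (a : ℂ) / p ∈ (latT τ).lattice ↔ p ∣ a) ∧
      ∃ R : (wpCurve (latT τ)).toAffine.Point, addOrderOf R = p ∧
        veluJ _ (AddSubgroup.zmultiples R) = H61.jInv τ' ∧
        (p : ℂ) ^ 12 * veluQ _ (AddSubgroup.zmultiples R) =
          ModularForm.discriminant τ / ModularForm.discriminant τ' :=
  ⟨H05.div_mem_latT_iff hp τ, H05.exists_point_wp hp (H05.b1Inputs hp hp2) τ τ' hτ'⟩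

/-- **Points and field homomorphisms**: `mapPt σ h` applies `σ` to the coordinates of the points of `W`; it is
an injective homomorphism of groups with values in the points of `W' = σ(W)`. File `H05_MapPt`. -/
theorem map_points {K L : Type*} [Field K] [Field L] [DecidableEq K] [DecidableEq L]
    (σ : K →+* L) {W : WeierstrassCurve K} {W' : WeierstrassCurve L} (h : W.map σ = W') :
    Function.Injective (mapPt σ h) ∧
      ∀ (x y : K) (hns : W.toAffine.Nonsingular x y),
        ∃ h', mapPt σ h (.some x y hns) = .some (σ x) (σ y) h' :=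
  ⟨H05.mapPt_injective h, fun _ _ hns => ⟨_, H05.mapPt_some h hns⟩⟩

/-- **Velu's invariants are compatible with field homomorphisms.** File `H05_MapPt`. -/
theorem map_invariants {K L : Type*} [Field K] [Field L] [DecidableEq K] [DecidableEq L]
    {σ : K →+* L} {W : WeierstrassCurve K} {W' : WeierstrassCurve L} (h : W.map σ = W')
    {P : W.toAffine.Point} {n : ℕ} (hn : 0 < n) (hP : addOrderOf P = n) :
    addOrderOf (mapPt σ h P) = addOrderOf P ∧
      veluQ W' (AddSubgroup.zmultiples (mapPt σ h P)) = σ (veluQ W (AddSubgroup.zmultiples P)) ∧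
      veluJ W' (AddSubgroup.zmultiples (mapPt σ h P)) = σ (veluJ W (AddSubgroup.zmultiples P)) :=
  ⟨H05.addOrderOf_mapPt h P, H05.veluQ_mapPt h hn hP, H05.veluJ_mapPt h hn hP⟩

/-- **Torsion points are algebraic**: for an embedding `σ : L → M` of algebraically closed fields of
characteristic zero every torsion point of `σ(W)` is the image of a torsion point of `W` (both curves have
`n²` points killed by `n`). File `H05_GenInst`. -/
theorem torsion_descends {L M : Type*} [Field L] [Field M] [DecidableEq L] [DecidableEq M]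
    [CharZero L] [IsAlgClosed L] [IsAlgClosed M] (σ : L →+* M) {W : WeierstrassCurve L}
    {W' : WeierstrassCurve M} (h : W.map σ = W') (hΔ : W.Δ ≠ 0) {n : ℕ} (hn : n ≠ 0)
    {P' : W'.toAffine.Point} (hP' : n • P' = 0) :
    ∃ P : W.toAffine.Point, n • P = 0 ∧ mapPt σ h P = P' :=
  H05.exists_mapPt_eq σ h hΔ hn hP'

/-- **The function field.** In the field `F` of `X₀(p)` over a countable algebraically closed field `K ⊂ ℂ`
let `t = j(q)`, `t' = j(q^p)` and `u = Δ(q)/Δ(q^p)`. Then `t` is transcendental, `F = K(t, t')`, the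
degree of `t'` over `K(t)` is `p + 1`, and there is an embedding `θ : F → ℂ` with
`θ(t, t', u) = (j(τ), j(pτ), Δ(τ)/Δ(pτ))` for some `τ`. File `H05_GenInst`. -/
theorem function_field_data {K : Type*} [Field K] [Algebra K ℂ] [IsAlgClosed K] {p : ℕ}
    [NeZero p] (hp : p.Prime) [Countable K] (F : IntermediateField K (LaurentSeries K))
    (hF : F = modularFunctionFieldFullC K p) (t t' u : F) (ht : (t : LaurentSeries K) = jqModC K)
    (ht' : (t' : LaurentSeries K) = qExpand K p (jqModC K))
    (hu : (u : LaurentSeries K) = uSer K p) :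
    Transcendental K t ∧
      IntermediateField.adjoin (IntermediateField.adjoin K {t}) {t'} = ⊤ ∧
      (minpoly (IntermediateField.adjoin K {t}) t').natDegree = p + 1 ∧
      ∃ (τ : ℍ) (θ : F →+* ℂ), θ t = H61.jInv τ ∧ θ t' = H61.jInv (H24.scale p τ) ∧
        θ u = ModularForm.discriminant τ / ModularForm.discriminant (H24.scale p τ) :=
  H05.basics hp F hF t t' u ht ht' hu

/-! ## 3. The subgroups of order `p` -/

/-- **Numbers**: a nonsingular Weierstrass curve over an algebraically closed field of characteristic zero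
has `(p + 1)(p - 1)` points of order `p` (`p` prime), and each of its subgroups `⟨P⟩` of order `p` contains
`p - 1` of them. File `H05_Trans`. -/
theorem number_of_points {Ω : Type*} [Field Ω] [CharZero Ω] [IsAlgClosed Ω] [DecidableEq Ω]
    {E : WeierstrassCurve Ω} {p : ℕ} (hΔ : E.Δ ≠ 0) (hp : p.Prime) :
    {P : E.toAffine.Point | addOrderOf P = p}.ncard = (p + 1) * (p - 1) ∧
      ∀ P : E.toAffine.Point, addOrderOf P = p →
        ((AddSubgroup.zmultiples P : Set E.toAffine.Point) \ {0}).ncard = p - 1 :=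
  ⟨H05.ncard_ptsOrd hΔ hp, fun _ hP => H05.ncard_zmultiples_diff hP⟩

/-- **Counting**: let `f` be a function on the points of order `p` which depends only on the subgroup
generated. If it takes (at least) the `p + 1` values in `S`, then these are all values, and `f` separates
the subgroups. File `H05_Trans`. -/
theorem separation_by_counting {Ω : Type*} [Field Ω] [CharZero Ω] [IsAlgClosed Ω]
    [DecidableEq Ω] {E : WeierstrassCurve Ω} {p : ℕ} {C : Type*} [DecidableEq C] (hΔ : E.Δ ≠ 0)
    (hp : p.Prime) (f : E.toAffine.Point → C)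
    (hf : ∀ P Q, addOrderOf P = p → Q ∈ AddSubgroup.zmultiples P → Q ≠ 0 → f Q = f P)
    (S : Finset C) (hS : S.card = p + 1) (hS' : ∀ c ∈ S, ∃ P, addOrderOf P = p ∧ f P = c) :
    (∀ P, addOrderOf P = p → f P ∈ S) ∧
      ∀ P Q, addOrderOf P = p → addOrderOf Q = p → f P = f Q →
        AddSubgroup.zmultiples P = AddSubgroup.zmultiples Q :=
  H05.fiber_count hΔ hp f hf S hS hS'

/-- **`veluJ` separates the subgroups** of order `p`, and all its values are conjugate to `veluJ ⟨R⟩`, if this
value has degree `p + 1` over `K₀`; here `Ω` is an algebraic closure of `K₀` and `E` is defined over `K₀`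
(`hE`). Apply the last theorem to `f = veluJ` and the set of conjugates. Consequence:
`GuideModuliPoint.subgroups_conjugate`. File `H05_Trans`. -/
theorem veluJ_separates {K₀ Ω : Type*} [Field K₀] [CharZero K₀] [Field Ω] [IsAlgClosed Ω]
    [Algebra K₀ Ω] [Algebra.IsAlgebraic K₀ Ω] [DecidableEq Ω] {E : WeierstrassCurve Ω}
    (hE : ∀ σ : Ω ≃ₐ[K₀] Ω, E.map (σ : Ω →+* Ω) = E) (hΔ : E.Δ ≠ 0) {p : ℕ} (hp : p.Prime)
    {tp : Ω} (hdeg : (minpoly K₀ tp).natDegree = p + 1) {R : E.toAffine.Point}
    (hR : addOrderOf R = p) (hRj : veluJ E (AddSubgroup.zmultiples R) = tp) :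
    (∀ P : E.toAffine.Point, addOrderOf P = p →
      ∃ σ : Ω ≃ₐ[K₀] Ω, σ tp = veluJ E (AddSubgroup.zmultiples P)) ∧
    ∀ P Q : E.toAffine.Point, addOrderOf P = p → addOrderOf Q = p →
      veluJ E (AddSubgroup.zmultiples P) = veluJ E (AddSubgroup.zmultiples Q) →
        AddSubgroup.zmultiples P = AddSubgroup.zmultiples Q :=
  H05.veluJ_injective_and hE hΔ hp hdeg hR hRj

/-! ## 4. Specialisation of torsion points

`V` is a valuation ring of `Ω` which contains the image of `ι : k → Ω` (the constants). -/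

/-- **Congruences**: `CE V ι x c` means `x ≡ ι c` modulo the maximal ideal of `V`; these relations may be
added, multiplied and divided by units. File `H05_CongRed`. -/
theorem congruence_rules {k Ω : Type*} [Field k] [Field Ω] {V : ValuationSubring Ω}
    {ι : k →+* Ω} {x y : Ω} {c d : k} (h : ∀ c, ι c ∈ V) :
    (CE V ι x c ↔ x - ι c ∈ V.nonunits) ∧
      (CE V ι x c → CE V ι y d → CE V ι (x + y) (c + d) ∧ CE V ι (x * y) (c * d)) ∧
      (CE V ι x c → CE V ι y d → d ≠ 0 → CE V ι (x / y) (c / d)) :=
  ⟨Iff.rfl, fun hx hy => ⟨hx.add hy, H05.CE.mul h hx hy⟩, fun hx hy hd => H05.CE.div h hx hy hd⟩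

/-- **Curves and points**: `CoeffCong V ι W W₀` says that the coefficients of `W` are congruent to those of
`W₀` (and that `V` contains the constants); `Cong V ι P P₀` says that `P` specialises to `P₀`: both are
zero, or both are affine with congruent coordinates, or `P₀ = 0` and `x(P) ∉ V`. File `H05_CongRed`. -/
theorem cong_iff {k Ω : Type*} [Field k] [Field Ω] {V : ValuationSubring Ω} {ι : k →+* Ω}
    {W : WeierstrassCurve Ω} {W₀ : WeierstrassCurve k} :
    (CoeffCong V ι W W₀ ↔ (∀ c, ι c ∈ V) ∧ CE V ι W.a₁ W₀.a₁ ∧ CE V ι W.a₂ W₀.a₂ ∧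
      CE V ι W.a₃ W₀.a₃ ∧ CE V ι W.a₄ W₀.a₄ ∧ CE V ι W.a₆ W₀.a₆) ∧
    (∀ (x y : Ω) (h : W.toAffine.Nonsingular x y) (x₀ y₀ : k)
      (h₀ : W₀.toAffine.Nonsingular x₀ y₀),
      (Cong V ι (.some x y h : W.toAffine.Point) (.some x₀ y₀ h₀ : W₀.toAffine.Point) ↔
        CE V ι x x₀ ∧ CE V ι y y₀) ∧
      (Cong V ι (.some x y h : W.toAffine.Point) (0 : W₀.toAffine.Point) ↔ x ∉ V)) :=
  ⟨⟨fun h => ⟨h.mem, h.a₁, h.a₂, h.a₃, h.a₄, h.a₆⟩, fun ⟨a, b, c, d, e, f⟩ => ⟨a, b, c, d, e, f⟩⟩,
    fun _ _ _ _ _ _ => ⟨Iff.rfl, Iff.rfl⟩⟩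

/-- **Specialisation is compatible with multiples, and lifts of torsion points are unique** (no torsion in
the kernel of reduction, `GuideVelu.torsion_integral`; the residue field has characteristic zero).
File `H05_CongRed`. -/
theorem specialisation_properties {k Ω : Type*} [Field k] [Field Ω] {V : ValuationSubring Ω}
    {ι : k →+* Ω} {W : WeierstrassCurve Ω} {W₀ : WeierstrassCurve k} [CharZero k]
    [DecidableEq k] [DecidableEq Ω] (hc : CoeffCong V ι W W₀) {P Q : W.toAffine.Point}
    {P₀ : W₀.toAffine.Point} (hP : Cong V ι P P₀) :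
    (∀ n : ℕ, Cong V ι (n • P) (n • P₀)) ∧
      ∀ n : ℕ, n ≠ 0 → Cong V ι Q P₀ → n • P = 0 → n • Q = 0 → P = Q := by
  classical
  exact ⟨fun n => hc.nsmul hP n, fun _ hn hQ h1 h2 => hc.inj hn hP hQ h1 h2⟩

/-- **Every torsion point specialises to a torsion point over `k`**: the reduced curve is defined over `k`,
and its torsion points are, by counting. With the uniqueness of lifts one gets
`GuideModuliPoint.torsion_lifts`, again by counting. File `H05_CongRed`. -/
theorem torsion_specialises {k Ω : Type*} [Field k] [Field Ω] {V : ValuationSubring Ω}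
    {ι : k →+* Ω} {W : WeierstrassCurve Ω} {W₀ : WeierstrassCurve k} [CharZero k]
    [DecidableEq k] [DecidableEq Ω] [IsAlgClosed k] [IsAlgClosed Ω] (hc : CoeffCong V ι W W₀)
    (hΔ : W₀.Δ ≠ 0) {n : ℕ} (hn : n ≠ 0) {P : W.toAffine.Point} (hP : n • P = 0) :
    ∃ P₀ : W₀.toAffine.Point, n • P₀ = 0 ∧ Cong V ι P P₀ :=
  hc.exists_red hΔ hn hP

/-- **The quotient of discriminants specialises**, too: `veluQ W ⟨P⟩ ≡ veluQ W₀ ⟨P₀⟩` if `P` and `P₀` have
the same order. File `H05_CongRed`. -/
theorem veluQ_specialises {k Ω : Type*} [Field k] [Field Ω] {V : ValuationSubring Ω}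
    {ι : k →+* Ω} {W : WeierstrassCurve Ω} {W₀ : WeierstrassCurve k} [DecidableEq k]
    [DecidableEq Ω] (hc : CoeffCong V ι W W₀) (hΔ : W₀.Δ ≠ 0) {n : ℕ} (hn : 0 < n)
    {P : W.toAffine.Point} {P₀ : W₀.toAffine.Point} (hP : Cong V ι P P₀)
    (h1 : addOrderOf P = n) (h2 : addOrderOf P₀ = n) :
    CE V ι (veluQ W (AddSubgroup.zmultiples P)) (veluQ W₀ (AddSubgroup.zmultiples P₀)) :=
  hc.ce_veluQ hΔ hn hP h1 h2

/-- **The family** `SF g t` specialises to `SF g a` if `t ≡ a`. File `H05_Moduli`. -/
theorem family_specialises {k Ω : Type*} [Field k] [Field Ω] [CharZero k]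
    {V : ValuationSubring Ω} {ι : k →+* Ω} (h : ∀ c, ι c ∈ V) {g a : k} {t : Ω}
    (ht : CE V ι t a) : CoeffCong V ι (SF (ι g) t) (SF g a) :=
  H05.coeffCong_SF h ht (by norm_num) (by norm_num)

/-- **Transport**: an automorphism `τ` of `Ω`, inducing `τ₀` on the constants, maps points specialising to
`P₀` along `V` to points specialising to `τ₀(P₀)` along `τ(V)`. File `H05_Moduli`. -/
theorem transport_of_specialisation {k Ω : Type*} [Field k] [Field Ω] {V V' : ValuationSubring Ω}
    {ι : k →+* Ω} [DecidableEq k] [DecidableEq Ω] {τ : Ω →+* Ω} {τ₀ : k →+* k}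
    (hι : ∀ c, τ (ι c) = ι (τ₀ c)) (hV : ∀ x, x ∈ V ↔ τ x ∈ V') {W W' : WeierstrassCurve Ω}
    {W₀ W₀' : WeierstrassCurve k} (hW : W.map τ = W') (hW₀ : W₀.map τ₀ = W₀')
    {P : W.toAffine.Point} {P₀ : W₀.toAffine.Point} :
    Cong V ι P P₀ ↔ Cong V' ι (mapPt τ hW P) (mapPt τ₀ hW₀ P₀) :=
  H05.cong_map_iff hι hV hW hW₀

/-! ## 5. Valuation rings -/

/-- **Existence**: for `t` transcendental over `K` and `a ∈ K` there is a valuation ring of `Ω` which contains
`K` and in which `t ≡ a`. File `H05_Moduli`. -/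
theorem exists_valuation_ring {K Ω : Type*} [Field K] [Field Ω] [Algebra K Ω] {t : Ω}
    (ht : Transcendental K t) (a : K) : ∃ V : ValuationSubring Ω,
      (∀ c : K, algebraMap K Ω c ∈ V) ∧ CE V (algebraMap K Ω) t a :=
  H05.exists_val ht a

/-- **Uniqueness on `K(t)`**: two such rings contain the same rational functions of `t`, namely those which
are regular at `a`. File `H05_Moduli`. -/
theorem trace_on_rational_functions {K Ω : Type*} [Field K] [Field Ω] [Algebra K Ω]
    {V V' : ValuationSubring Ω} (hV : ∀ c : K, algebraMap K Ω c ∈ V) {t : Ω} {a : K}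
    (ht : CE V (algebraMap K Ω) t a) (hV' : ∀ c : K, algebraMap K Ω c ∈ V')
    (ht' : CE V' (algebraMap K Ω) t a) {f g : K[X]} (hg : aeval t g ≠ 0) :
    (IsCoprime f g → (aeval t f / aeval t g ∈ V ↔ g.eval a ≠ 0)) ∧
      (aeval t f / aeval t g ∈ V ↔ aeval t f / aeval t g ∈ V') :=
  ⟨fun h => H05.mem_iff_of_coprime hV ht h hg, H05.mem_iff_of_quot hV ht hV' ht' hg⟩

/-- **A valuation ring `V` above `B₀` is a localisation of the integral closure `B` of `B₀`** (`Ω` algebraic
over `K₀`): every `x ∈ V` is a quotient `b/s` with `s ∈ B` outside the maximal ideal of `V`. No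
finiteness assumption; the valuations need not be discrete. File `H05_ValConj`. -/
theorem valuation_ring_is_localisation {K₀ Ω : Type*} [Field K₀] [Field Ω] [Algebra K₀ Ω]
    [Algebra.IsAlgebraic K₀ Ω] {B₀ : ValuationSubring K₀} {V : ValuationSubring Ω}
    (hV : LiesOverVal B₀ V) {x : Ω} (hx : x ∈ V) :
    ∃ s b : integralClosure B₀ Ω, (s : Ω) ∉ V.nonunits ∧ (s : Ω) * x = b := by
  obtain ⟨s, b, hs, h⟩ := H05.exists_mul_eq' hV hx
  exact ⟨s, b, fun h' => hs ((H05.mem_primeOf hV).mpr h'), h⟩

/-- **Conjugacy**: two valuation rings of a Galois extension `Ω` of `K₀` (of any degree) with the same trace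
on `K₀` are conjugate. From the last theorem and the transitivity of the Galois group on the primes of the
integral closure above a given prime (Mathlib, for profinite groups). `LiesOverVal B₀ V` says
`V ∩ K₀ = B₀`. File `H05_ValConj`. -/
theorem valuation_rings_conjugate {K₀ Ω : Type*} [Field K₀] [Field Ω] [Algebra K₀ Ω]
    [IsGalois K₀ Ω] {B₀ : ValuationSubring K₀} {V V' : ValuationSubring Ω}
    (hV : ∀ x : K₀, x ∈ B₀ ↔ algebraMap K₀ Ω x ∈ V)
    (hV' : ∀ x : K₀, x ∈ B₀ ↔ algebraMap K₀ Ω x ∈ V') :
    ∃ σ : Ω ≃ₐ[K₀] Ω, ∀ x : Ω, x ∈ V ↔ σ x ∈ V' :=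
  H05.exists_conj hV hV'

/-! ## 6. The place -/

/-- **The generic input**: `GenInput K Ω p t tp u` says that `t, tp, u` are as in `function_field_data` and
that every curve `SF g t` of the family, over the algebraic closure `Ω` of `F`, has a point `R` of order `p`
with `veluJ ⟨R⟩ = tp` and `p^12 veluQ ⟨R⟩ = u` (`GuideModuliPoint.generic_point`). File `H05_Moduli`. -/
theorem genInput_iff (K : Type*) {F : Type*} (Ω : Type*) [Field K] [Field F] [Algebra K F]
    [Field Ω] [Algebra K Ω] [Algebra F Ω] [DecidableEq Ω] (p : ℕ) (t tp u : F) :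
    H05.GenInput K Ω p t tp u ↔ Transcendental K t ∧
      IntermediateField.adjoin (IntermediateField.adjoin K {t}) {tp} = ⊤ ∧
      (minpoly (IntermediateField.adjoin K {t}) tp).natDegree = p + 1 ∧
      ∀ g : K, g ≠ 0 → ∃ R : (SF (algebraMap K Ω g) (algebraMap F Ω t)).toAffine.Point,
        addOrderOf R = p ∧ veluJ _ (AddSubgroup.zmultiples R) = algebraMap F Ω tp ∧
        (p : Ω) ^ 12 * veluQ _ (AddSubgroup.zmultiples R) = algebraMap F Ω u :=
  ⟨fun h => ⟨h.trans, h.gen, h.deg, h.point⟩, fun ⟨a, b, c, d⟩ => ⟨a, b, c, d⟩⟩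

/-- **The place of a pair (curve, point)**, abstract form: `Q` is a point of order `p` on `SF g a`,
`a ≠ 0, 1728`. There is a place `v` of `F` with `t(v) = a` and `u(v) = p^12 veluQ ⟨Q⟩`, and `v` is invariant
under every automorphism `s` of `F` which fixes `t` and `tp` and induces on `K` an automorphism `s₀`
fixing `a`, `g` and the point `Q`. Proof: lift `Q` to the generic curve along some `V`
(`GuideModuliPoint.torsion_lifts`); the lift generates a conjugate of `⟨R⟩` (`veluJ_separates`), so after
replacing `V` by a conjugate `R` specialises to a multiple of `Q`. The invariance: extend `s` to `Ω`; by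
`valuation_rings_conjugate` an automorphism `τ` over `K(t)` maps `V` to `s(V)`, and `τ(R) = s(R)` by the
uniqueness of lifts; so `τ` fixes `tp = veluJ ⟨R⟩`, hence `F`. File `H05_Moduli`. -/
theorem place_of_pair {K F Ω : Type*} [Field K] [Field F] [Algebra K F] [Field Ω] [Algebra K Ω]
    [Algebra F Ω] [DecidableEq Ω] [CharZero K] [IsAlgClosed K] [H94.FunField K F]
    [IsScalarTower K F Ω] [IsAlgClosure F Ω] [DecidableEq K] {p : ℕ} (hp : p.Prime)
    {t tp u : F} (h : H05.GenInput K Ω p t tp u) {g a : K} (hg : g ≠ 0) (ha0 : a ≠ 0)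
    (ha1 : a ≠ 1728) {Q : (SF g a).toAffine.Point} (hQ : addOrderOf Q = p) :
    ∃ v : Place K F, t - algebraMap K F a ∈ v.toValuationSubring.nonunits ∧
      u - algebraMap K F ((p : K) ^ 12 * veluQ _ (AddSubgroup.zmultiples Q)) ∈
        v.toValuationSubring.nonunits ∧
      ∀ (s : F ≃+* F) (s₀ : K ≃+* K),
        (∀ c, s (algebraMap K F c) = algebraMap K F (s₀ c)) → s t = t → s tp = tp → s₀ a = a →
        s₀ g = g → (∀ h' : (SF g a).map (s₀ : K →+* K) = SF g a,
          mapPt (s₀ : K →+* K) h' Q = Q) →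
        ∀ x, x ∈ v.toValuationSubring ↔ s x ∈ v.toValuationSubring :=
  H05.exists_place_moduli hp h hg ha0 ha1 hQ

/-- **From a general Weierstrass curve to the family**: a curve with `c₄ c₆ Δ ≠ 0` is isomorphic to
`SF g a` with `g = Δ/(c₄c₆)` and `a = c₄³/Δ`, by an explicit change of variables. File `H05_PlaceB`. -/
theorem short_form {L : Type*} [Field L] [CharZero L] (E : WeierstrassCurve L) (h4 : E.c₄ ≠ 0)
    (h6 : E.c₆ ≠ 0) (hΔ : E.Δ ≠ 0) : H05.vcShort E • E =
      SF (E.Δ / (E.c₄ * E.c₆)) (E.c₄ ^ 3 / E.Δ) :=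
  H05.vcShort_smul E h4 h6 hΔ

/-- Two facts used for the final form: `veluQ ⟨Q⟩ ≠ 0` for `Q` of odd prime order, and a place whose valuation
ring is mapped to itself by a (semilinear) automorphism is fixed by it. File `H05_PlaceB`. -/
theorem final_facts {K F : Type*} [Field K] [Field F] [Algebra K F] [DecidableEq K] :
    (∀ (E : WeierstrassCurve K), E.Δ ≠ 0 → ∀ p : ℕ, p.Prime → p ≠ 2 →
      ∀ Q : E.toAffine.Point, addOrderOf Q = p → veluQ E (AddSubgroup.zmultiples Q) ≠ 0) ∧
      ∀ (g : SemilinearAut K F) (v : Place K F),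
        (∀ x, x ∈ v.toValuationSubring ↔ g • x ∈ v.toValuationSubring) → g • v = v :=
  ⟨fun _ hΔ _ hp hp2 _ hQ => H05.veluQ_ne_zero hΔ hp hp2 hQ, H05.smul_place_eq⟩

/-! ## 7. The reduction of the place -/

/-- **A divisor argument.** `r` is the reduction map on the places of `X₀(N)` over `L` (`A` a valuation ring
of `L`, `π : A → k`, see `GuideModuliPoint.isPlaceReductionAlong_iff`). Let `y` be a function with
coefficients in `A`, `div(y) = n (P₀ - P₁)`, `n > 0`, and nonzero reduction. If `y` takes at the place `x` a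
value `a ∈ A` with `π(a) = 0`, then `x` and `P₀` have the same reduction: `y` and `y - a` have the same
reduction, so the effective divisor `div(y - a) + n P₁`, which contains `x`, and `n P₀` have the same image
under `r`. File `H72PlaceRed`. -/
theorem place_of_small_value {L : Type*} [Field L] [Algebra ℚ L] [IsAlgClosed L]
    {A : ValuationSubring L} {k : Type*} [Field k] {π : A →+* k} {N : ℕ}
    {r : Place L (laurentBaseChange L (modularFunctionFieldFull N)) →
      Place k (modularFunctionFieldFullC k N)}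
    [H3RR.IsFF L (laurentBaseChange L (modularFunctionFieldFull N))] [DecidableEq
      (Place L (laurentBaseChange L (modularFunctionFieldFull N)))]
    (hr : IsPlaceReductionAlong A π N r) (y : LaurentSeries A)
    (hy : coeffMap A.subtype y ∈ laurentBaseChange L (modularFunctionFieldFull N))
    (hyk : coeffMap π y ∈ modularFunctionFieldFullC k N) (hne : coeffMap π y ≠ 0)
    (P₀ P₁ : Place L (laurentBaseChange L (modularFunctionFieldFull N))) (hP : P₀ ≠ P₁)
    (n : ℤ) (hn : 0 < n)
    (hdiv : ∀ P : Place L (laurentBaseChange L (modularFunctionFieldFull N)),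
      P.ord (⟨coeffMap A.subtype y, hy⟩ : laurentBaseChange L (modularFunctionFieldFull N)) =
        (if P = P₀ then n else 0) - (if P = P₁ then n else 0))
    (a : A) (ha : π a = 0) (x : Place L (laurentBaseChange L (modularFunctionFieldFull N)))
    (hx : (⟨coeffMap A.subtype y, hy⟩ : laurentBaseChange L (modularFunctionFieldFull N)) -
      algebraMap L _ (a : L) ∈ x.toValuationSubring.nonunits) : r x = r P₀ := by
  refine H72.place_eq_of_small hr y hy hyk hne P₀ P₁ hP n hn (fun P => ?_) a ha x hx
  rw [hdiv P]; congr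

/-- **The kernel of reduction**: if two places of `X₀(N)` have the same reduction at `A`, then the class `z`
of their difference is in the kernel `H15.KJ N A` of the reduction of `J₀(N)`. Together with
`GuideModuliPoint.reduction_to_cusp` this gives the final statement `H05.modPlace`, cited in
`GuideMazur`. (If `c₄ c₆ = 0`, no prime `ℓ ∤ c₄` divides `Δ`, and one takes a cusp as the place.)
File `H05_ModPlace`. -/
theorem difference_in_kernel {N : ℕ} [NeZero N] {A : ValuationSubring (AlgebraicClosure ℚ)}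
    (h : ReductionInputsModL A N)
    {x y : Place (AlgebraicClosure ℚ) (modularFunctionFieldBar N)}
    (hxy : placeReductionModL h x = placeReductionModL h y) (z : JZero N)
    (hz : H15.IsDiffClass N x y z) : z ∈ H15.KJ N A :=
  H05.mem_KJ_of_eq h hxy z hz

end Fermat.Agent.Guide.ModuliSteps
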