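import Fermat.Agent.S17

/-!
# Reader's guide: the theorem of Mordell and Weil for `J₀(N)` (S17)

Every theorem of this file is proved by citing a theorem of the library; nothing here is used by any
other file. Editor: helper10, with texts of helper23 (fibre identity), helper65 (Siegel's lemma),
helper77 (Nullstellensatz). Prerequisites: section 1 of the guide FunctionField (places, divisors,
`Pic⁰`, Riemann-Roch).

**Statement S17.** `JZero N` is `Pic⁰` of the field of modular functions of level `N` over `ℚ̄`. The
group of its elements fixed by `Gal(ℚ̄/ℚ)` is finitely generated (in S17 for primes `N ≥ 5`; here for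
all `N`). S17 is not used for other statements. But section 1 (without `isOpen_stabilizer_jzero`)
also serves S03, S04, S06, S09, S12, S15, S38-S40, S43, S45, S46, S50, S59, S60 and S01
(`finite_torsion_jzero` and the first half of `fixed_by_finite_index` moreover S29-S36, S42, S44,
S58), and `hermite` serves S03, S04, S06, S38, S43, S45, S46, S50, S59, S60 and S01. Everything else
is only for S17.

**Proof.**
1. *Complex uniformisation.* `Pic⁰` of a function field over `ℂ` is a quotient of `ℂ^g` by a
   lattice; this is deduced from the group law, without integrals. So `J₀(N)(ℚ̄)` is divisible.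
2. *Weak theorem.* Division points of rational points are unramified outside `2N` by S18, and there
   are only finitely many number fields of bounded degree unramified outside `2N` (Hermite).
3. *Local heights.* On any function field in one variable: for a section `s` of `N D` with zeros `P`,
   `|s(Q)| = ‖s‖ w(Q)^N ∏ dist(P, Q)` up to constants, for all absolute values at the same time.
4. *Global heights.* The product formula turns this into a height on rational divisor classes with
   the parallelogram law; its positivity is proved with Vandermonde determinants and Siegel's lemma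
   (no theta functions), and Northcott's theorem is proved for divisors.
5. *Descent* (Mathlib).

Details: the guides Uniformisation (section 1 step by step), Heights, HeightsSteps and HeightsGlobal
(helper17: the proofs of sections 3 and 4), RedPic (helper23: proof of the fibre identity); NOTES.md,
Appendix A.3, notes [152], [149], [123], [196], [155], and for section 1 note [83]. Reference for the
classical proof: J.-P. Serre, *Lectures on the Mordell-Weil theorem*.
-/

set_option autoImplicit false

namespace Fermat.Agent.Guide.MordellWeil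

open AlgebraicCurve ModularCurve Filter Topology
open Fermat.Agent.H3RR (IsFF)

/-! ## 1. Complex uniformisation, torsion, divisibility

`IsFF K F`: `F` is a function field in one variable over `K`; `genusFF K F` is its genus and
`Pic0 K F` its group of divisor classes of degree zero. -/

section ComplexUniformisation

/-- **Analytic discs.** Every place `P` of a function field `F/ℂ` is the centre of a disc of places
`σ z`, `‖z‖ < r`, with a coordinate function `t` (`t(σ z) = z`); functions regular at a point of the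
disc are regular and analytic near it, and the disc is a neighbourhood of `P` for the topology of
pointwise convergence of values. (`val Q f` is the value of `f` at `Q`.) Files `H27Branch`,
`H27DiscDef` (Newton approximation and the implicit function theorem). -/
theorem exists_analytic_disc (F : Type*) [Field F] [Algebra ℂ F] [IsFF ℂ F] (P : Place ℂ F) :
    ∃ (σ : ℂ → Place ℂ F) (r : ℝ) (t : F), 0 < r ∧ σ 0 = P ∧
      (∀ z : ℂ, ‖z‖ < r → H27.val (σ z) t = z ∧ (σ z).ord (t - algebraMap ℂ F z) = 1) ∧
      (∀ z₀ : ℂ, ‖z₀‖ < r → ∀ f : F, (σ z₀).adicValuation f ≤ 1 →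
        (∀ᶠ z in 𝓝 z₀, (σ z).adicValuation f ≤ 1) ∧
          AnalyticAt ℂ (fun z => H27.val (σ z) f) z₀) ∧
      ∀ ε : ℝ, 0 < ε → ∃ (S : Finset F) (δ : ℝ), 0 < δ ∧ (∀ s ∈ S, P.adicValuation s ≤ 1) ∧
        ∀ Q : Place ℂ F,
          (∀ s ∈ S, Q.adicValuation s ≤ 1 ∧ ‖H27.val Q s - H27.val P s‖ < δ) →
            ∃ z : ℂ, ‖z‖ < ε ∧ ‖z‖ < r ∧ σ z = Q := by
  obtain ⟨D⟩ := H27.nonempty_anDisc P
  exact ⟨D.σ, D.r, D.t, D.r_pos, D.σ_zero, fun z hz => ⟨D.val_t z hz, D.ord_t z hz⟩, D.regular,
    D.nhds⟩

/-- **Compactness.** Every ultrafilter on the set of places of `F/ℂ` has a limit: the functions which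
are bounded along the ultrafilter form a valuation ring. File `H27Compact`. -/
theorem exists_limit_place (F : Type*) [Field F] [Algebra ℂ F] [IsFF ℂ F]
    (U : Ultrafilter (Place ℂ F)) :
    ∃ P : Place ℂ F, ∀ f : F, P.adicValuation f ≤ 1 →
      (∀ᶠ Q in (U : Filter (Place ℂ F)), Q.adicValuation f ≤ 1) ∧
        Tendsto (fun Q : Place ℂ F => H27.val Q f) U (𝓝 (H27.val P f)) :=
  ⟨H27.lim U, fun _ hf => H27.lim_spec U hf⟩

/-- **Abstract exponential map.** `V` a Banach space, `A` an abelian group, `Φ : V → A` injective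
near `0` with `Φ(x) + Φ(y) = Φ(M(x, y))` for a `C²` map `M` with `M(x, 0) = x`, `M(0, y) = y`. Then
there is a homomorphism `e : V → A`, injective near `0`, which reaches all `Φ(x)`, `x` small, from
small vectors. (`e⁻¹ Φ x` is the limit of `2^n` times the `n`-th half of `x`.) File `H27LogExp`. -/
theorem abstract_exponential {V A : Type*} [NormedAddCommGroup V] [NormedSpace ℝ V]
    [CompleteSpace V] [AddCommGroup A] (Φ : V → A) (M : V × V → V) (hM : ContDiffAt ℝ 2 M 0)
    (hM1 : ∀ᶠ x in 𝓝 (0 : V), M (x, 0) = x) (hM2 : ∀ᶠ y in 𝓝 (0 : V), M (0, y) = y)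
    (hinj : ∃ ε > 0, Set.InjOn Φ (Metric.ball (0 : V) ε))
    (hadd : ∀ᶠ p in 𝓝 (0 : V × V), Φ p.1 + Φ p.2 = Φ (M p)) :
    ∃ e : V →+ A, (∃ ε > 0, Set.InjOn e (Metric.ball (0 : V) ε)) ∧
      ∀ δ > 0, ∀ᶠ x in 𝓝 (0 : V), ∃ v : V, ‖v‖ < δ ∧ e v = Φ x :=
  H27.exists_exp Φ M hM hM1 hM2 hinj hadd

/-- **Complex uniformisation.** For a function field `F/ℂ` of genus `g` there is a homomorphism from
`ℂ^g` to `Pic⁰`, injective near `0`, such that every class is the image of a vector of bounded norm.
So `Pic⁰` is the quotient of `ℂ^g` by a lattice. Proof: near a nonspecial divisor of degree `g` the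
addition of classes is analytic in the coordinates of the discs (`H27Residual`, `H27Chart`), so there
is an exponential map; it is onto by the maximum principle and compactness. File `H27Global`. -/
theorem exists_uniformisation (F : Type*) [Field F] [Algebra ℂ F] [IsFF ℂ F] :
    ∃ e : (Fin (genusFF ℂ F) → ℂ) →+ Pic0 ℂ F,
      (∃ ε > 0, Set.InjOn e (Metric.ball (0 : Fin (genusFF ℂ F) → ℂ) ε)) ∧
      ∃ R : ℝ, ∀ a : Pic0 ℂ F, ∃ v, ‖v‖ ≤ R ∧ e v = a :=
  H27.exists_uniformisation F

/-- **Torsion over `ℂ`**: `#Pic⁰[n] = n^{2g}` for every `n ≠ 0` (a second proof of S27 for `ℂ`, for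
all `n`). File `H27Global` (and `H27Lattice`). -/
theorem card_torsion_complex (F : Type*) [Field F] [Algebra ℂ F] [IsFF ℂ F] (n : ℕ) (hn : n ≠ 0) :
    Nat.card {a : Pic0 ℂ F // n • a = 0} = n ^ (2 * genusFF ℂ F) :=
  H27.natCard_torsion_complex F n hn

/-- **`J₀(N)(ℚ̄)[n]` is finite.** Proof: if `n D = div f` then an `n`-th root of `f` on the upper half
plane is multiplied by a homomorphism from `Γ₀(N)` to the roots of unity, which determines the class
(`H90Exist`). -/
theorem finite_torsion_jzero (N : ℕ) [NeZero N] {n : ℕ} (hn : n ≠ 0) :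
    {x : JZero N | n • x = 0}.Finite :=
  H90.finite_jzero N hn

/-- **Objects fixed by a group of finite index.** `k ⊂ k'` are algebraically closed fields of
characteristic zero, `E'/k'` is the extension of constants of the function field `E/k`
(`H26.IsCE k k' E E'`, explained in `GuideAbelianTools`; `con D` is the divisor of `E'` given by a
divisor `D` of `E`), and `φ` is the action of `Aut(k'/k)` on `E'` which fixes `E`. An element of `k'`
fixed by a subgroup `H` of finite index of `Aut(k'/k)` is in `k`, and a divisor of `E'` fixed by `H`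
comes from `E`. Proof of the second statement: the places of such a divisor are fixed by subgroups
of finite index, so the values of the functions `e ∈ E` at them are in `k` (or `∞`); but at a place
which does not come from `E` no nonconstant `e ∈ E` has a value in `k ∪ {∞}`. Files
`H90DescentLin`, `H17Div`. -/
theorem fixed_by_finite_index {k k' E E' : Type*} [Field k] [Field k'] [Field E] [Field E']
    [Algebra k k'] [Algebra k E] [Algebra k' E'] [Algebra E E'] [Algebra k E']
    [IsScalarTower k k' E'] [IsScalarTower k E E'] [H26.IsCE k k' E E'] [IsAlgClosed k]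
    [IsAlgClosed k'] [CharZero k'] [IsFF k E] [IsFF k' E'] (φ : (k' ≃ₐ[k] k') →* SemilinearAut k' E')
    (hφ : ∀ σ a, SemilinearAut.baseAut (φ σ) a = σ a)
    (hfix : ∀ σ (e : E), φ σ • algebraMap E E' e = algebraMap E E' e)
    (H : Subgroup (k' ≃ₐ[k] k')) [H.FiniteIndex] :
    (∀ a : k', (∀ σ ∈ H, σ a = a) → ∃ b : k, algebraMap k k' b = a) ∧
      ∀ D : Divisor k' E', (∀ σ ∈ H, φ σ • D = D) → ∃ D₀ : Divisor k E, H26.IsCE.con k' E' D₀ = D :=
  ⟨fun _ ha => H90.mem_range_of_finiteIndex H ha,
    fun D hD => H17.exists_con_of_finiteIndex φ hφ hfix D H hD⟩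

/-- **Descent of division points.** Situation of `fixed_by_finite_index`. If `Pic⁰(E')` has finitely
many `n`-torsion elements and is divisible by `n`, then `Pic⁰(E)` is divisible by `n`. Proof: let
`n y = z` with `z` from `E`. The conjugates of `y` under `Aut(k'/k)` differ from `y` by `n`-torsion, so
the stabiliser of `y` has finite index. For a place `c` of `E` and a suitable `m` the class
`y + m c` contains exactly one effective divisor (`dim L = 1`), which is therefore fixed by the
stabiliser and comes from `E`; and divisors of `E` which are equivalent on `E'` are equivalent on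
`E`. File `H17Div`. -/
theorem division_points_descend {k k' E E' : Type*} [Field k] [Field k'] [Field E] [Field E']
    [Algebra k k'] [Algebra k E] [Algebra k' E'] [Algebra E E'] [Algebra k E']
    [IsScalarTower k k' E'] [IsScalarTower k E E'] [H26.IsCE k k' E E'] [IsAlgClosed k]
    [IsAlgClosed k'] [CharZero k'] [IsFF k E] [IsFF k' E'] (φ : (k' ≃ₐ[k] k') →* SemilinearAut k' E')
    (hφ : ∀ σ a, SemilinearAut.baseAut (φ σ) a = σ a)
    (hfix : ∀ σ (e : E), φ σ • algebraMap E E' e = algebraMap E E' e) {n : ℕ}
    (hfin : {y : Pic0 k' E' | n • y = 0}.Finite) (hdiv : ∀ z : Pic0 k' E', ∃ y, n • y = z)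
    (z : Pic0 k E) : ∃ y : Pic0 k E, n • y = z :=
  H17.exists_nsmul_eq_of_ext φ hφ hfix hfin hdiv z

/-- **Extension of constants for modular functions**: for fields `L₀ ⊂ L₁` of characteristic zero the
function field of `X₀(N)` over `L₁` is the extension of constants of the one over `L₀` (here for any
field `F₀` of Laurent series over `ℚ`): linearly independent series stay independent when the
constants are extended, and `L₁ · F₀(L₀)` has quotient field `F₀(L₁)`. (`algKC` and `algBC` are the
inclusions.) File `H17DivMod`. -/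
theorem extension_of_constants (L₀ L₁ : Type*) [Field L₀] [Field L₁] [Algebra L₀ L₁] [Algebra ℚ L₀]
    [Algebra ℚ L₁] (F₀ : IntermediateField ℚ (LaurentSeries ℚ)) :
    letI := H17.algKC L₀ L₁ F₀
    letI := H17.algBC L₀ L₁ F₀
    haveI := H17.tower1 L₀ L₁ F₀
    haveI := H17.tower2 L₀ L₁ F₀
    H26.IsCE L₀ L₁ (laurentBaseChange L₀ F₀) (laurentBaseChange L₁ F₀) :=
  H17.isCE L₀ L₁ F₀

/-- **`J₀(N)(ℚ̄)` is divisible.** Over `ℂ` this is clear from `exists_uniformisation`, and the torsion
is finite by `card_torsion_complex`. So the two theorems before, for `ℚ̄ ⊂ ℂ` and the action of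
`Aut(ℂ/ℚ̄)` on the coefficients of `q`-expansions, give the assertion. File `H17DivMod`. -/
theorem jzero_divisible (N : ℕ) [NeZero N] {n : ℕ} (hn : n ≠ 0) (z : JZero N) :
    ∃ y : JZero N, n • y = z :=
  H17.jzero_divisible N hn z

/-- **Elements of `J₀(N)(ℚ̄)` are defined over number fields**: stabilizers are open. File `H17Weak`
(from `H31Level`). -/
theorem isOpen_stabilizer_jzero (N : ℕ) [NeZero N] (a : JZero N) :
    IsOpen (MulAction.stabilizer (AlgebraicClosure ℚ ≃ₐ[ℚ] AlgebraicClosure ℚ) a :
      Set (AlgebraicClosure ℚ ≃ₐ[ℚ] AlgebraicClosure ℚ)) :=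
  H17.isOpen_stabilizer_jzero N a

end ComplexUniformisation

/-! ## 2. The weak theorem of Mordell and Weil -/

section WeakMordellWeil

open Pointwise

/-- **Division points are unramified outside `2N`.** If `2a` is rational, `σ` in the inertia group of
a place above a prime `q ∤ 2N`, then `σ a = a`: indeed `σ a - a` is killed by `2` and has reduction
`0`, so S18 applies. File `H17Unr`. -/
theorem inertia_fixes_half (N : ℕ) [NeZero N] {q : ℕ} (hq : q.Prime) (hqN : ¬ q ∣ 2 * N)
    (V : ValuationSubring (AlgebraicClosure ℚ)) (hV : V.LiesOverPrime q)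
    (σ : AlgebraicClosure ℚ ≃ₐ[ℚ] AlgebraicClosure ℚ) (hσ : σ ∈ V.inertiaSubgroupIn ℚ)
    (a : JZero N) (ha : ∀ g : AlgebraicClosure ℚ ≃ₐ[ℚ] AlgebraicClosure ℚ, g • (2 • a) = 2 • a) :
    σ • a = a :=
  H17.inertia_fix N hq hqN V hV σ hσ a ha

/-- **Theorem of Hermite**: a Galois extension `L/ℚ` contains only finitely many Galois extensions of
`ℚ` of degree `≤ d` unramified outside a finite set `S` of primes. (Bound for the discriminant and
Mathlib's finiteness theorem.) File `H63Hermite`. -/
theorem hermite {L : Type*} [Field L] [CharZero L] [IsGalois ℚ L] (S : Finset ℕ)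
    (hS : ∀ p ∈ S, p.Prime) (d : ℕ) :
    {F : IntermediateField ℚ L | FiniteDimensional ℚ F ∧ Normal ℚ F ∧ Module.finrank ℚ F ≤ d ∧
      ∀ q : ℕ, q.Prime → q ∉ S → ∀ A : ValuationSubring L, A.LiesOverPrime q →
        A.inertiaSubgroupIn ℚ ≤ F.fixingSubgroup}.Finite :=
  H63.finite_galois_unramified_outside S hS d

/-- **Weak theorem of Mordell and Weil, abstract form.** `A` a `Gal(L/ℚ)`-module with open
stabilizers, `A[n]` finite, rational elements divisible by `n` in `A`, and every `a` with `n a`
rational unramified outside `S`. Then there are finitely many rational elements which represent the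
rational elements modulo `n` times rational elements. File `H63WeakMW`. -/
theorem weak_mordell_weil {L : Type*} [Field L] [CharZero L] [IsGalois ℚ L] {A : Type*}
    [AddCommGroup A] [DistribMulAction (L ≃ₐ[ℚ] L) A] (n : ℕ)
    (hstab : ∀ a : A, IsOpen (MulAction.stabilizer (L ≃ₐ[ℚ] L) a : Set (L ≃ₐ[ℚ] L)))
    (htor : {a : A | n • a = 0}.Finite)
    (hdiv : ∀ a : A, (∀ g : L ≃ₐ[ℚ] L, g • a = a) → ∃ b : A, n • b = a)
    (S : Finset ℕ) (hS : ∀ p ∈ S, p.Prime)
    (hur : ∀ q : ℕ, q.Prime → q ∉ S → ∀ V : ValuationSubring L, V.LiesOverPrime q →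
      ∀ σ ∈ V.inertiaSubgroupIn ℚ, ∀ a : A, (∀ g : L ≃ₐ[ℚ] L, g • (n • a) = n • a) → σ • a = a) :
    ∃ s : Set A, s.Finite ∧ (∀ a ∈ s, ∀ g : L ≃ₐ[ℚ] L, g • a = a) ∧
      ∀ a : A, (∀ g : L ≃ₐ[ℚ] L, g • a = a) →
        ∃ b ∈ s, ∃ c : A, (∀ g : L ≃ₐ[ℚ] L, g • c = c) ∧ a = b + n • c :=
  H63.weak_mordell_weil n hstab htor hdiv S hS hur

end WeakMordellWeil

/-! ## 3. Local height theory: sections and distances

`F/K` a function field, `K` algebraically closed of characteristic zero. A set-up `S : HSetup K F V`
consists of a transcendental function `S.x` with pole divisor `D` of degree `S.d`, bases `S.b N` of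
the spaces `W K x N = L(N D)`, and a family `S.𝔸` of absolute values of `K` indexed by `V` (finitely
many archimedean, `|a|_v = 1` for almost all `v`, for every `a ≠ 0`); the functions in `L(D)` generate
the two affine coordinate rings of the curve over the line. "Constants" are functions `C : V → ℝ`
with `C ≥ 1` and `C v = 1` for almost all `v`. `IsZer x N s A`: the multiset `A` of places is the
divisor of zeros of the section `s` of `N D`. -/

section Heights

open Fermat.Agent.H17 (HSetup GSetup GalF IsZer)

/-- **Notions of the local theory.** `L(N D)` is described by normalised values (`nf x v = 1` or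
`x⁻¹`); `ev x N v s` is the value at `v` of the section `s`; `S.w v P` is the size of the vector
`e P` of the values at `P` of the basis of `L(D)`; `S.dist v P Q` is the chordal distance of `P` and
`Q` in the projective space of `L(D)`. -/
theorem local_notions {K F V : Type*} [Field K] [Field F] [Algebra K F] (S : HSetup K F V) (N : ℕ)
    (v : V) (P Q : Place K F) (s : F) :
    (s ∈ H17.W K S.x N ↔ ∀ P : Place K F, s * H17.nf S.x P ^ N ∈ P.toValuationSubring) ∧
      H17.ev S.x N P s = H17.val P (s * H17.nf S.x P ^ N) ∧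
      S.w v P = ⨆ i, S.𝔸.abv v (S.e P i) ∧
      S.dist v P Q = (⨆ ij : Fin (S.r 1) × Fin (S.r 1),
        S.𝔸.abv v (S.e P ij.1 * S.e Q ij.2 - S.e P ij.2 * S.e Q ij.1)) / (S.w v P * S.w v Q) :=
  ⟨Iff.rfl, rfl, rfl, rfl⟩

/-- **Fibre identity** (helper23). There are finitely many functions `y_k`, `b_{k,j}`, regular
wherever `x` is, such that for every `a ∈ K` with fibre `x⁻¹(a) = {P}` (a multiset of places) and
every place `Q` at which `x` is regular
`a - x(Q) = ∑_k (∑_j b_{k,j}(Q) a^j) ∏_P (y_k(Q) - y_k(P))`.
It bounds `|a - x(Q)|` by the product of the distances of `Q` to the points of the fibre.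
File `H23FibMain`. -/
theorem fibre_identity {K F : Type*} [Field K] [Field F] [Algebra K F] [IsAlgClosed K] [CharZero K]
    [IsFF K F] {x : F} (hx : Transcendental K x) :
    ∃ (n m : ℕ) (y : Fin n → F) (b : Fin n → ℕ → F),
      (∀ k, ∀ v : Place K F, x ∈ v.toValuationSubring → y k ∈ v.toValuationSubring) ∧
      (∀ k j, ∀ v : Place K F, x ∈ v.toValuationSubring → b k j ∈ v.toValuationSubring) ∧
      ∀ (a : K) (A : Multiset (Place K F)), IsZer x 1 (x - algebraMap K F a) A →
        ∀ Q : Place K F, x ∈ Q.toValuationSubring → a - H17.val Q x =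
          ∑ k, (∑ j ∈ Finset.range m, H17.val Q (b k j) * a ^ j) *
            (A.map fun P : Place K F => H17.val Q (y k) - H17.val P (y k)).prod :=
  H23.Fib.exists_fib_identity hx

/-- **Section formula.** For a section `s ≠ 0` of `N D` with zeros `A` (`S.nrm N v s` = maximum of its
coordinates), uniformly in `s`, `Q` and `v`,
`|s(Q)|_v = ‖s‖_v · w_v(Q)^N · ∏_{P ∈ A} dist_v(P, Q)` up to constants. Files `H17Low`, `H17Up` (with
`H17Fibre`, `H17Nrm`). Together with the product formula it gives all properties of heights. -/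
theorem section_formula {K F V : Type*} [Field K] [Field F] [Algebra K F] [IsAlgClosed K]
    [CharZero K] [IsFF K F] (S : HSetup K F V) (N : ℕ) :
    ∃ C C' : V → ℝ, ((∀ v, 1 ≤ C v) ∧ {v | C v ≠ 1}.Finite) ∧
      ((∀ v, 1 ≤ C' v) ∧ {v | C' v ≠ 1}.Finite) ∧
      ∀ (s : F) (A : Multiset (Place K F)), s ∈ H17.W K S.x N → s ≠ 0 → IsZer S.x N s A →
        ∀ (v : V) (Q : Place K F),
          S.nrm N v s * S.w v Q ^ N * (A.map fun P => S.dist v P Q).prod ≤
            C v * S.𝔸.abv v (H17.ev S.x N Q s) ∧
          S.𝔸.abv v (H17.ev S.x N Q s) ≤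
            C' v * (S.nrm N v s * S.w v Q ^ N * (A.map fun P => S.dist v P Q).prod) := by
  obtain ⟨C, hC, h⟩ := S.exists_lower N
  obtain ⟨C', hC', h'⟩ := S.exists_upper N
  exact ⟨C, C', hC, hC', fun s A h1 h2 h3 v Q => ⟨h s A h1 h2 h3 v Q, h' s A h1 h2 h3 v Q⟩⟩

/-- **Vandermonde estimate.** For `k ≤ N` the largest maximal minor `S.wedge N v P` of the matrix of
the values of the basis of `L(N D)` at `k` places `P_1, ..., P_k` is, up to constants,
`∏ w_v(P_i)^N · ∏_{i < j} dist_v(P_i, P_j)`. File `H17Vdm`. -/
theorem vandermonde_estimate {K F V : Type*} [Field K] [Field F] [Algebra K F] [IsAlgClosed K]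
    [CharZero K] [IsFF K F] (S : HSetup K F V) (N k : ℕ) (hk : k ≤ N) :
    ∃ C C' : V → ℝ, ((∀ v, 1 ≤ C v) ∧ {v | C v ≠ 1}.Finite) ∧
      ((∀ v, 1 ≤ C' v) ∧ {v | C' v ≠ 1}.Finite) ∧ ∀ (v : V) (P : Fin k → Place K F),
        (∏ i, S.w v (P i)) ^ N * ∏ i, ∏ j ∈ Finset.Ioi i, S.dist v (P i) (P j) ≤
          C v * S.wedge N v P ∧
        S.wedge N v P ≤
          C' v * ((∏ i, S.w v (P i)) ^ N * ∏ i, ∏ j ∈ Finset.Ioi i, S.dist v (P i) (P j)) := by
  obtain ⟨C, hC, h⟩ := S.exists_wedge_lower N k hk
  obtain ⟨C', hC', h'⟩ := S.exists_wedge_upper N k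
  exact ⟨C, C', hC, hC', fun v P => ⟨h v P, h' v P⟩⟩

/-! ## 4. Global heights

`Φ : GalF F` (`F/ℚ̄` a function field): a semilinear action of `Gal(ℚ̄/ℚ)` on `F` with Galois descent
for finite dimensional stable subspaces and with a fixed place; `Φ.ratPic`: the fixed classes;
`Γ : GSetup F`: such an action together with a rational set-up for one extension to `ℚ̄` of every
absolute value of `ℚ`. `Γ.RatM A`: the effective divisor `A` is fixed by the Galois group;
`Γ.Rep N c A`: the class of `A - N D` is `c`. -/

/-- **The function field of `X₀(N)`** with the action of `Gal(ℚ̄/ℚ)` on coefficients is an example (the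
fixed place is the cusp `∞`), and its rational classes are `J₀(N)(ℚ)`. Files `H17Laurent` (with the
order `-1` of `j` at `∞` from `H28Tower`), `H17Final`. -/
theorem ratPic_modular (N : ℕ) [NeZero N] :
    (H17.modularGalF N).ratPic = FixedPoints.addSubgroup
      (AlgebraicClosure ℚ ≃ₐ[ℚ] AlgebraicClosure ℚ) (JZero N) :=
  H17.ratPic_modular N

/-- **Rational set-ups exist** for every action. File `H17Setup`. -/
theorem exists_setup {F : Type*} [Field F] [Algebra (AlgebraicClosure ℚ) F]
    [IsFF (AlgebraicClosure ℚ) F] (Φ : GalF F) : ∃ Γ : GSetup F, Γ.toGalF = Φ :=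
  H17.exists_GSetup Φ

/-- **Global notions.** `Γ.hgt A = ∑_v ∑_{P ∈ A} log w_v(P)` is the height of an effective divisor,
`Γ.pair A B = -∑_v ∑_{P ∈ A} ∑_{Q ∈ B} log dist_v(P, Q)` the pairing of two divisors without common
points, and `Γ.bil A B = (#A · hgt B + #B · hgt A)/d - pair A B`. -/
theorem global_notions {F : Type*} [Field F] [Algebra (AlgebraicClosure ℚ) F] (Γ : GSetup F)
    (A B : Multiset (Place (AlgebraicClosure ℚ) F)) :
    Γ.hgt A = ∑ᶠ v, (A.map fun P => Real.log (Γ.w v P)).sum ∧
      Γ.pair A B = ∑ᶠ v, (A.map fun P => (B.map fun Q => - Real.log (Γ.dist v P Q)).sum).sum ∧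
      Γ.bil A B = (A.card * Γ.hgt B + B.card * Γ.hgt A) / Γ.d - Γ.pair A B :=
  ⟨rfl, rfl, rfl⟩

/-- **A rational divisor class contains a rational divisor.** Proof: let `E` be any divisor in the
class and `P` the fixed place; there is `n` with `dim L(E + n P) = 1`. The effective divisor
equivalent to `E + n P` is unique, hence fixed by the Galois group; `Δ` is this divisor minus `n P`.
`Γ.φ σ` is the action of `σ`. File `H17Rep` (helper93). (For one place and all automorphisms which fix
it, and for torsion classes with a fixed function: `H38MzRep`, helper38.) -/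
theorem exists_rational_divisor {F : Type*} [Field F] [Algebra (AlgebraicClosure ℚ) F]
    [IsFF (AlgebraicClosure ℚ) F] (Γ : GSetup F) {c : Pic0 (AlgebraicClosure ℚ) F}
    (hc : ∀ σ, Γ.φ σ • c = c) :
    ∃ Δ : Divisor (AlgebraicClosure ℚ) F, (∀ σ, Γ.φ σ • Δ = Δ) ∧
      ∃ h : Δ ∈ Divisor.degZero (K := AlgebraicClosure ℚ) (F := F), Pic0.mk ⟨Δ, h⟩ = c :=
  Γ.exists_stable_divisor hc

/-- **Good representatives.** There is `m > 0` such that for `N ≥ m`, every rational class `c` and
every finite set `T` of places, `c` is the class of `A - N D` for a rational effective divisor `A`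
without multiple points which avoids `T`. Proof: `A` is the divisor of zeros of `f₂ - q f₁` for two
rational sections and almost any `q ∈ ℚ`. File `H17Rep` (helper93). -/
theorem exists_good_representative {F : Type*} [Field F] [Algebra (AlgebraicClosure ℚ) F]
    [IsFF (AlgebraicClosure ℚ) F] (Γ : GSetup F) :
    ∃ m : ℕ, 0 < m ∧ ∀ N, m ≤ N → ∀ c : Pic0 (AlgebraicClosure ℚ) F, (∀ σ, Γ.φ σ • c = c) →
      ∀ T : Finset (Place (AlgebraicClosure ℚ) F),
        ∃ A : Multiset (Place (AlgebraicClosure ℚ) F), Γ.Rep N c A ∧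
          (∀ σ, A.map (fun P => Γ.φ σ • P) = A) ∧ A.Nodup ∧ ∀ P ∈ A, P ∉ T :=
  Γ.exists_good_rep

/-- **Theorem of Northcott** for divisors: there are only finitely many rational effective divisors
of bounded degree and bounded height. File `H17Northcott`. -/
theorem northcott {F : Type*} [Field F] [Algebra (AlgebraicClosure ℚ) F]
    [IsFF (AlgebraicClosure ℚ) F] (Γ : GSetup F) (n : ℕ) (B : ℝ) :
    {A : Multiset (Place (AlgebraicClosure ℚ) F) |
      Γ.RatM A ∧ A.card ≤ n ∧ Γ.hgt A ≤ B}.Finite :=
  Γ.northcott n B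

/-- **The height pairing.** There is a function `β` on pairs of rational classes which agrees with
`Γ.bil A B` up to a bounded error for disjoint rational representatives `A`, `B` of given degrees,
and is symmetric and additive up to bounded errors. (By the section formula and the product formula
`Γ.bil A B` depends only on the classes up to a bounded error.) File `H17Bil`. -/
theorem exists_pairing {F : Type*} [Field F] [Algebra (AlgebraicClosure ℚ) F]
    [IsFF (AlgebraicClosure ℚ) F] (Γ : GSetup F) :
    ∃ β : Γ.ratPic → Γ.ratPic → ℝ,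
      (∀ N M, ∃ C : ℝ, ∀ (c c' : Γ.ratPic) (A B : Multiset (Place (AlgebraicClosure ℚ) F)),
        Γ.Rep N (c : Pic0 (AlgebraicClosure ℚ) F) A →
        Γ.Rep M (c' : Pic0 (AlgebraicClosure ℚ) F) B → Γ.RatM A → Γ.RatM B → Disjoint A B →
          |Γ.bil A B - β c c'| ≤ C) ∧
      (∃ C : ℝ, ∀ c c', |β c c' - β c' c| ≤ C) ∧
      ∃ C : ℝ, ∀ c c' c'', |β (c + c') c'' - (β c c'' + β c' c'')| ≤ C :=
  Γ.exists_beta

/-- **Siegel's lemma with the exact exponent.** Some nonzero integral combination `c S` of the `r`
independent rows of an integral matrix `S` has all entries of absolute value at most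
`r · (maximal minor)^(1/r)`. (Pigeonhole principle, no geometry of numbers.) File `H65Siegel`. -/
theorem siegel_lemma {r R : ℕ} (hr : 0 < r) (S : Matrix (Fin r) (Fin R) ℤ)
    (hS : LinearIndependent ℤ S.row) : ∃ c : Fin r → ℤ, c ≠ 0 ∧ ∃ f : Fin r → Fin R,
      ∀ j, |Matrix.vecMul c S j| ^ r ≤ (r : ℤ) ^ r * |(S.submatrix id f).det| :=
  H65Siegel.siegel_int hr S hS

/-- **Galois descent of a kernel.** A `k × R` matrix over `ℚ̄` with independent rows permuted by the
Galois group has a rational subspace of dimension `R - k` in its kernel. Here: the rows are the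
values of a basis of sections at the points of a rational divisor. File `H65SiegelB`. -/
theorem exists_rational_kernel {k r R : ℕ} (hR : r + k = R)
    (E : Matrix (Fin k) (Fin R) (AlgebraicClosure ℚ))
    (hE : LinearIndependent (AlgebraicClosure ℚ) E.row)
    (hG : ∀ σ : AlgebraicClosure ℚ ≃ₐ[ℚ] AlgebraicClosure ℚ, ∃ π : Equiv.Perm (Fin k),
      ∀ i j, σ (E i j) = E (π i) j) :
    ∃ U : Submodule ℚ (Fin R → ℚ), Module.finrank ℚ U = r ∧
      ∀ t ∈ U, E.mulVec (fun j => algebraMap ℚ (AlgebraicClosure ℚ) (t j)) = 0 :=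
  H65Siegel.exists_rat_kernel hR E hE hG

/-- **Positivity.** The quadratic form of a pairing `β` as in `exists_pairing` is bounded below by the
height of a rational representative of the class: `κ · hgt A ≤ β(c, c) + C`, `κ > 0`. Proof: let `P`,
`Q` be reduced rational divisors in the classes `c + N D`, `-c + N D`. The evaluation height (from
Vandermonde determinants) of `P + Q` is at least the sum of those of `P` and `Q` minus `pair P Q`; as
`P + Q` is the divisor of a section, it is bounded above; and Siegel's lemma gives small rational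
sections through `P` and through `Q`, which bound the evaluation heights of `P` and `Q` from below;
the other zeros of the section through `Q` form `A`. File `H17Lower`. -/
theorem height_lower_bound {F : Type*} [Field F] [Algebra (AlgebraicClosure ℚ) F]
    [IsFF (AlgebraicClosure ℚ) F] (Γ : GSetup F) (β : Γ.ratPic → Γ.ratPic → ℝ)
    (hβ : ∀ N M, ∃ C : ℝ, ∀ (c c' : Γ.ratPic) (A B : Multiset (Place (AlgebraicClosure ℚ) F)),
      Γ.Rep N (c : Pic0 (AlgebraicClosure ℚ) F) A →
      Γ.Rep M (c' : Pic0 (AlgebraicClosure ℚ) F) B → Γ.RatM A → Γ.RatM B → Disjoint A B →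
        |Γ.bil A B - β c c'| ≤ C)
    (hβ' : ∃ C : ℝ, ∀ c, |β c (-c) + β c c| ≤ C) :
    ∃ (M : ℕ) (κ C : ℝ), 0 < κ ∧ ∀ c : Γ.ratPic,
      ∃ A : Multiset (Place (AlgebraicClosure ℚ) F), Γ.Rep M (c : Pic0 (AlgebraicClosure ℚ) F) A ∧
        Γ.RatM A ∧ κ * Γ.hgt A ≤ β c c + C :=
  Γ.exists_height_lower β hβ hβ'

/-- **The height on `J₀(N)(ℚ)`**: a nonnegative function `h` with
`h(a + b) + h(a - b) = 2 h(a) + 2 h(b) + O(1)` and only finitely many elements of bounded height.
File `H17Height`. -/
theorem exists_height (N : ℕ) [NeZero N] :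
    ∃ (h : FixedPoints.addSubgroup (AlgebraicClosure ℚ ≃ₐ[ℚ] AlgebraicClosure ℚ) (JZero N) → ℝ)
      (C : ℝ), (∀ c, 0 ≤ h c) ∧ (∀ c c', |h (c + c') + h (c - c') - 2 * (h c + h c')| ≤ C) ∧
      ∀ B : ℝ, {c | h c ≤ B}.Finite := by
  rw [← H17.ratPic_modular]; exact (H17.modularGalF N).exists_height

end Heights

/-! ## 5. The theorem of Mordell and Weil -/

section MordellWeil

/-- **Descent** (Mathlib's descent lemma with `exists_height`): if `J₀(N)(ℚ)/2` is finite, then
`J₀(N)(ℚ)` is finitely generated. File `H17Final`. -/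
theorem fg_of_weak (N : ℕ) [NeZero N]
    (h : (nsmulAddMonoidHom (α := FixedPoints.addSubgroup
      (AlgebraicClosure ℚ ≃ₐ[ℚ] AlgebraicClosure ℚ) (JZero N)) 2).range.FiniteIndex) :
    AddGroup.FG (FixedPoints.addSubgroup
      (AlgebraicClosure ℚ ≃ₐ[ℚ] AlgebraicClosure ℚ) (JZero N)) :=
  H17.mordell_weil_of_weak N h

/-- **Theorem of Mordell and Weil for `J₀(N)`**, all `N ≥ 1`. For `N ≥ 5` prime this is S17.
File `H17MW`. -/
theorem mordell_weil (N : ℕ) [NeZero N] :
    AddGroup.FG (FixedPoints.addSubgroup
      (AlgebraicClosure ℚ ≃ₐ[ℚ] AlgebraicClosure ℚ) (JZero N)) :=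
  H17.mordell_weil_jzero N

end MordellWeil

end Fermat.Agent.Guide.MordellWeil
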