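import Fermat.Agent.S34
import Fermat.Agent.S35
import Fermat.Agent.S36

/-!
# Guide: the Galois representations of newforms at the primes dividing the level (S34, S35, S36)

GuideGalois explains how a two-dimensional representation `ρ` over a complete discrete valuation
ring of residue characteristic `p` is attached to a Hecke eigensystem of level `N` (S30, S31): the
Frobenius elements at the primes `ℓ` prime to `N p` have characteristic polynomial
`X² - a_ℓ X + ℓ`. This page is about the primes `q ≠ p` which divide `N`: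

* S34 (`q ∥ N`): inertia at `q` is unipotent, for the representations of Hecke-Galois data;
* S35 (`q ∥ N`, `g` a newform): a Frobenius element at `q` has characteristic polynomial
  `X² - (q+1) X + q` or `X² + (q+1) X + q` (`ρ` is an unramified twist of a Steinberg
  representation);
* S36 (`q² ∥ N`, `g` a newform): inertia at `q` is NOT unipotent.

S34 and S35 are used in the proof of S59 (modularity lifting), so for S60 and S01, and S34 also in
the proof of S43 (level lowering); S35 and S36 give S58 (the level of a modular curve compared with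
its conductor). All three are deduced from properties of the torsion of the Jacobian `J_0(N)` at a
place above `q`. These geometric inputs (also the one of S36) are used again in S43 and S59 for the
levels with auxiliary primes (`H4EA`).

Reading order.
1. Vocabulary: newforms, unipotent inertia, polynomials in the good Hecke operators.
2. The degeneracy maps between `J_0(Mq)` and `J_0(M)` and the Atkin-Lehner involution.
3. A newform is absent from the lower levels: there is a polynomial `P` in the good Hecke operators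
   which is zero on `S_2(Γ_0(M'))` and on the torsion of `J_0(M')` for a proper divisor `M'` of `M`,
   but not on the newform. This replaces the theory of the new part of the Jacobian.
4. S34: `(σ - 1)² = 0` on the `p`-power torsion of `J_0(mq)` for `σ` in inertia at `q`.
5. S35: the eigenlattice of the newform in `O ⊗ T_p J_0(N)` and the Steinberg relation
   `(φ + q w)(φ + w) = 0` on it.
6. S36: if inertia were unipotent it would have a nonzero fixed vector in the part of
   `T_p J_0(M q²)` which is killed by the maps to level `Mq`; but there the fixed vectors are `0`.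

The geometric inputs are `unipotent_on_torsion`, `steinberg_on_torsion` (explained in GuideBadRed:
`unipotent_inertia`, `steinberg_relation`) and `bounded_inertia_invariants` (explained in
GuideCarayol). For `GaloisRepAdic`, `HeckeGaloisRepDatum`, the properties of `J_0(N)` collected in
`jzeroInputs N` (finite torsion, Frobenius relation `φ² - T_ℓ φ + ℓ = 0`, faithfulness of the Hecke
action) see GuideGalois. `JZero N` is the group of divisor classes of degree 0 of the function field
of `X_0(N)` over `Q̄`, with the action of `Gal(Q̄/Q)` through the coefficients of `q`-expansions.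

Related pages: GuideEigenSteps (the same three statements for the representations attached to an
eigensystem of any Hecke-Galois module, as used in S59), GuideAtkinLehner (the Atkin-Lehner
operator and the trace for modular forms, descent of old forms), GuideEisensteinOne, section 4
(change of the level of an eigenform, used in S58).
Notes: [240] NOTES-GALREP-GLUE.
-/

set_option autoImplicit false

open Polynomial IsLocalRing AlgebraicCurve ModularCurve TensorProduct Fermat.Agent.H31

namespace Fermat.Agent.Guide.Newforms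

/-- The absolute Galois group of `ℚ`. -/
local notation "Gℚ" => AlgebraicClosure ℚ ≃ₐ[ℚ] AlgebraicClosure ℚ

/-! ## 1. Vocabulary -/

/-- **Newforms** (vocabulary of the frozen statements; weight 2, level `Γ_0(N)`). A newform is a
normalised eigenform `f` (`a_1 = 1`, `a_{mn} = a_m a_n` for coprime `m`, `n`, and the usual
recursions for `a_{p^r}`, `p ∤ N` and `p ∣ N`) such that for no proper divisor `M` of `N` there is
a normalised eigenform `g` of level `M` with `a_ℓ(g) = a_ℓ(f)` for all primes `ℓ ∤ N`.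
Definition in `Def_CuspForm_Newforms`. -/
theorem isNewform_iff {N : ℕ} (f : CuspForm (CongruenceSubgroup.Gamma0 N) 2) :
    f.IsNewform ↔ f.IsNormalizedEigenform ∧ ∀ M : ℕ, M ∣ N → M ≠ N →
      ¬ ∃ g : CuspForm (CongruenceSubgroup.Gamma0 M) 2, g.IsNormalizedEigenform ∧
        ∀ ℓ : ℕ, ℓ.Prime → ¬ ℓ ∣ N → ModularFormClass.qCoeff g ℓ = ModularFormClass.qCoeff f ℓ :=
  Iff.rfl

/-- **Unipotent inertia** (vocabulary of the frozen statements). A two-dimensional representation
`ρ` over a local ring is unipotent on inertia at `q` when the elements `σ` of the inertia groups of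
all places of `Q̄` above `q` have characteristic polynomial `(X - 1)²`. Definition in
`Def_GaloisRep_LocalConditions`. -/
theorem isUnipotentOnInertiaAt_iff {A : Type} [CommRing A] [IsLocalRing A] (ρ : GaloisRepAdic A)
    (q : ℕ) : ρ.IsUnipotentOnInertiaAt q ↔
      ∀ P : ValuationSubring (AlgebraicClosure ℚ), P.LiesOverPrime q →
        ∀ σ ∈ P.inertiaSubgroupIn ℚ, LinearMap.charpoly (ρ.ρ σ) = (Polynomial.X - 1) ^ 2 :=
  Iff.rfl

/-- **Polynomials in the good Hecke operators.** `GoodPrimes N S` is the set of the primes `ℓ ∤ N`,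
`ℓ ∉ S`. An integral polynomial `P` in variables `X_ℓ` indexed by it can be evaluated in three
ways: `evHecke N S P` in the Hecke algebra of `S_2(Γ_0(N))`; `evEnd N' _ S P` on `S_2(Γ_0(N'))`
for a divisor `N'` of `N`; `inclHecke N S P` in the polynomial ring `HeckeAlg` which acts on
`J_0(N')` through `heckeModuleBar N'`. Here are the values on a variable: the Hecke operator
`T_ℓ`. Definitions in `H31Mod`, `H35Mult`. -/
theorem good_hecke_operators {N N' : ℕ} [NeZero N] [NeZero N'] (hN : N' ∣ N) (S : Set ℕ)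
    (a : GoodPrimes N S) :
    evHecke N S (MvPolynomial.X a) = CuspForm.heckeAlgebra.T a.1.2 a.2.1 a.2.2 ∧
    H35.evEnd N' hN S (MvPolynomial.X a) =
      CuspForm.heckeTLin 2 a.1.2 (fun h => a.2.1 (h.trans hN)) ∧
    (letI := heckeModuleBar N'
      ∀ x : JZero N', inclHecke N S (MvPolynomial.X a) • x = heckeOperatorBar N' a.1 x) :=
  ⟨evHecke_X N S a, H35.evEnd_X N' hN S a, fun x => by
    rw [inclHecke_X]; exact heckeModuleBar_heckeGen_smul (H67.heckeOperatorsCommuteBar N') a.1 x⟩

/-! ## 2. Degeneracy maps and the Atkin-Lehner involution on `J_0(N)`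

For `M d ∣ N` the degeneracy map `τ ↦ d τ` from `X_0(N)` to `X_0(M)` induces
`degPush d : J_0(N) → J_0(M)` (images of divisors) and `degPull d : J_0(M) → J_0(N)` (inverse
images). For `R = A Q` with `A`, `Q` coprime, `wJ A Q` is the Atkin-Lehner involution `w_Q` of
`J_0(R)`. -/

/-- **Degeneracy maps are defined over `ℚ`**: they commute with the Galois group. Proved in
`H67J`. -/
theorem degeneracy_galois {M N : ℕ} [NeZero M] [NeZero N] (d : ℕ) [NeZero d] (h : M * d ∣ N)
    (σ : Gℚ) : (∀ x : JZero N, H67.degPush (M := M) d h (σ • x) = σ • H67.degPush d h x) ∧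
      ∀ x : JZero M, H67.degPull (N := N) d h (σ • x) = σ • H67.degPull d h x :=
  ⟨H67.degPush_galois d h σ, H67.degPull_galois d h σ⟩

/-- **Degeneracy maps and Hecke operators.** The two degeneracy maps (`a = 1` or `a = q`) between
the levels `Mq` and `M`, `q` prime, commute with `T_r` for the primes `r ≠ q`; so they respect
Hecke eigensystems away from `q`. Proved in `H67Deg`, `H67J`. -/
theorem degeneracy_hecke {M q a : ℕ} [NeZero M] [NeZero (M * q)] [NeZero a] (hq : q.Prime)
    (ha : a = 1 ∨ a = q) (h : M * a ∣ M * q) (r : Nat.Primes) (hr : (r : ℕ) ≠ q) :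
    (∀ x : JZero (M * q), H67.degPush a h (heckeOperatorBar (M * q) r x) =
      heckeOperatorBar M r (H67.degPush a h x)) ∧
    ∀ x : JZero M, H67.degPull a h (heckeOperatorBar M r x) =
      heckeOperatorBar (M * q) r (H67.degPull a h x) :=
  ⟨H67.degPush_hecke hq ha h r hr, H67.degPull_hecke hq ha h r hr⟩

/-- `degPush ∘ degPull` is the multiplication by the degree of the degeneracy map. Proved in
`H67J`. -/
theorem degPush_degPull {M N : ℕ} [NeZero M] [NeZero N] (d : ℕ) [NeZero d] (h : M * d ∣ N)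
    (x : JZero M) : H67.degPush d h (H67.degPull (N := N) d h x) =
      (finrankAlong (AlgebraicClosure ℚ) (H67.dg (AlgebraicClosure ℚ) d h) : ℤ) • x :=
  H67.degPush_degPull d h x

/-- **The Atkin-Lehner involution** `w_Q` of `J_0(R)`, `R = A Q`, `A` and `Q` coprime: it is an
involution, commutes with the Galois group, commutes with the Hecke operators `T_r`, `r` prime to
`Q`, and exchanges the two degeneracy maps to level `A` (`τ ↦ τ` and `τ ↦ Q τ`).
Proved in `H67AL` (the involution of the function field and its action), `H67J`. -/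
theorem atkin_lehner {R A Q : ℕ} [NeZero R] [NeZero A] [NeZero Q] (hR : R = A * Q)
    (hc : A.Coprime Q) :
    (∀ x : JZero R, H67.wJ A Q hR hc (H67.wJ A Q hR hc x) = x) ∧
    (∀ (σ : Gℚ) (x : JZero R), H67.wJ A Q hR hc (σ • x) = σ • H67.wJ A Q hR hc x) ∧
    (∀ r : Nat.Primes, (r : ℕ).Coprime Q → ∀ x : JZero R,
      H67.wJ A Q hR hc (heckeOperatorBar R r x) = heckeOperatorBar R r (H67.wJ A Q hR hc x)) ∧
    ∀ (h1 : A * 1 ∣ R) (h2 : A * Q ∣ R) (x : JZero R),
      H67.degPush 1 h1 (H67.wJ A Q hR hc x) = H67.degPush Q h2 x :=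
  ⟨H67.wJ_wJ hR hc, H67.wJ_galois hR hc, H67.wJ_hecke hR hc, H67.degPush_one_wJ hR hc⟩

/-- **`U_q + w_q = β^* α_*`** on `J_0(Mq)`, `q` a prime not dividing `M`, where `α`, `β` are the
degeneracy maps `τ ↦ τ` and `τ ↦ q τ`. In particular `U_q = - w_q` on the points killed by the
maps to level `M`. Proved in `H67Uq`, `H67J`; used for S39, S40, S43, S44 (and, in the transposed
form `w_q U_q w_q + w_q = α^* β_*`, for the Steinberg relation in section 5). -/
theorem heckeOperatorBar_add_wJ {M : ℕ} [NeZero M] (q : Nat.Primes) [NeZero (M * q)]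
    [NeZero (q : ℕ)] (hqM : ¬ (q : ℕ) ∣ M) (hc : M.Coprime q) (h1 : M * 1 ∣ M * q)
    (h2 : M * q ∣ M * q) (x : JZero (M * q)) :
    heckeOperatorBar (M * q) q x + H67.wJ M q rfl hc x =
      H67.degPull q h2 (H67.degPush 1 h1 x) :=
  H67.heckeOperatorBar_add_wJ q hqM hc h1 h2 x

/-! ## 3. A newform is absent from the lower levels -/

/-- **Strong multiplicity one for Hecke algebras.** For a prime `r ∤ N` and a finite set `S` of
primes some nonzero multiple of the Hecke operator `T_r` on `S_2(Γ_0(N))` is an integral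
polynomial in the `T_ℓ`, `ℓ ∤ N`, `ℓ ∉ S`. Proof by Galois representations instead of the theory
of newforms: on the `p^n`-torsion of `J_0(N)` one has `T_r = φ + r φ⁻¹` for a Frobenius element `φ`
at `r`, and `φ` acts as a power of a Frobenius element at a good prime; so `T_r` is congruent to
polynomials in the good `T_ℓ` modulo all powers of `p` (up to bounded factors), and the Hecke
algebra is a finite `ℤ`-module. Proved in `H35Mult`, `H35E1`. -/
theorem strong_multiplicity_one {N : ℕ} [NeZero N] (S : Finset ℕ) (r : ℕ) (hr : r.Prime)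
    (hrN : ¬ r ∣ N) :
    ∃ (e : ℤ) (P : MvPolynomial (GoodPrimes N (↑S : Set ℕ)) ℤ), e ≠ 0 ∧
      e • CuspForm.heckeTLin 2 hr hrN = H35.evEnd N dvd_rfl (↑S : Set ℕ) P :=
  H35.hmult_of_JZero (jzeroInputs N) S r hr hrN

/-- **Characters of the Hecke algebra come from cusp forms.** If `ψ` is a ring homomorphism from
the polynomials in the good Hecke operators to `ℂ` which vanishes on the polynomials that are zero
on `S_2(Γ_0(N'))`, then there is a nonzero cusp form `f` of level `N'` with `P f = ψ(P) f`.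
(`S_2(Γ_0(N'))` has a basis with integral `q`-expansions.) Proved in `H35Abs`. -/
theorem eigenform_of_character {N N' : ℕ} [NeZero N'] (hN : N' ∣ N) (S : Set ℕ)
    (ψ : MvPolynomial (GoodPrimes N S) ℤ →+* ℂ)
    (hψ : ∀ P, H35.evEnd N' hN S P = 0 → ψ P = 0) :
    ∃ f : CuspForm (CongruenceSubgroup.Gamma0 N') 2, f ≠ 0 ∧
      ∀ P, H35.evEnd N' hN S P f = ψ P • f :=
  H35.exists_eigenform_of_char hN S ψ hψ

/-- **From partial eigenforms to normalised eigenforms.** If `h ≠ 0` is a cusp form of level `M`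
with `T_ℓ h = λ_ℓ h` for all primes `ℓ` not dividing a multiple `N` of `M`, then there is a
normalised eigenform `g` of level `M` with `a_ℓ(g) = λ_ℓ` for these primes. Proved in
`H44OldForm`; also used in the level lowering (`H61L5A`). -/
theorem normalizedEigenform_of_partial {M N : ℕ} [NeZero M] (hMN : M ∣ N)
    (h : CuspForm (CongruenceSubgroup.Gamma0 M) 2) (hne : h ≠ 0) (lam : ℕ → ℂ)
    (hT : ∀ (ℓ : ℕ) (hℓ : ℓ.Prime) (_ : ¬ ℓ ∣ N) (hℓM : ¬ ℓ ∣ M),
      CuspForm.heckeTLin 2 hℓ hℓM h = lam ℓ • h) :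
    ∃ g : CuspForm (CongruenceSubgroup.Gamma0 M) 2, g.IsNormalizedEigenform ∧
      ∀ ℓ : ℕ, ℓ.Prime → ¬ ℓ ∣ N → ModularFormClass.qCoeff g ℓ = lam ℓ :=
  H44.exists_normalizedEigenform_of_partial hMN h hne lam hT

/-- **A newform is absent from lower levels (cusp forms).** Let `g` be a newform of level `M`,
`M'` a proper divisor of `M` and `S` a finite set. There is an integral polynomial `P` in the Hecke
operators `T_ℓ`, `ℓ ∤ M`, `ℓ ∉ S`, with `P = 0` on `S_2(Γ_0(M'))` and `P(a_ℓ(g)) ≠ 0`. Proof: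
otherwise `T_ℓ ↦ a_ℓ(g)` is a character of the Hecke algebra of level `M'`; the three theorems
above give a normalised eigenform of level `M'` with the eigenvalues of `g`. Proved in `H35Abs`. -/
theorem newform_absent_from_lower_levels {M M' : ℕ} [NeZero M] [NeZero M'] (hM' : M' ∣ M)
    (hne : M' ≠ M) {g : CuspForm (CongruenceSubgroup.Gamma0 M) 2} (hg : g.IsNewform)
    (S : Finset ℕ) :
    ∃ P : MvPolynomial (GoodPrimes M (↑S : Set ℕ)) ℤ, H35.evEnd M' hM' (↑S : Set ℕ) P = 0 ∧
      MvPolynomial.eval₂ (Int.castRingHom ℂ)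
        (fun a : GoodPrimes M (↑S : Set ℕ) => ModularFormClass.qCoeff g (a.1 : ℕ)) P ≠ 0 :=
  H35.exists_polynomial_absent hM' hne hg (↑S : Set ℕ)
    fun r hr hrM => H35.hmult_of_JZero (jzeroInputs M) S r hr hrM

/-- **Hecke relations on cusp forms hold on the torsion of the Jacobian.** If `P` is zero on
`S_2(Γ_0(N'))`, `N'` a divisor of `N`, then it is zero on every torsion point of `J_0(N')`.
Proved in `H35Kill` by integral periods: to every `n`-torsion point belongs a cusp form whose
periods have integral real parts `φ(γ)`, such that `γ ↦ ζ^φ(γ)` is the character of the point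
(`kummer_bijection` in GuideBridge; `ζ` a fixed primitive `n`-th root of unity). This relation
(`H35.Link`) respects sums and the Hecke operators, and to the cusp form `0` belongs only the
point `0`. -/
theorem hecke_relation_on_torsion {N N' : ℕ} [NeZero N'] (hN : N' ∣ N) (S : Set ℕ)
    (P : MvPolynomial (GoodPrimes N S) ℤ) (hP : H35.evEnd N' hN S P = 0) :
    letI := heckeModuleBar N'
    ∀ n : ℕ, n ≠ 0 → ∀ c : JZero N', n • c = 0 → inclHecke N S P • c = 0 :=
  letI := H90.algQbarC
  H35.smul_eq_zero_of_evEnd hN S (fun _ _ _ hn hr => hr.isPE hn) P hP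

/-- **A newform is absent from lower levels (Jacobians).** Let `g` be a newform of level `M` and
`χ : T_ℓ ↦ a_ℓ(g)` its character of the Hecke algebra, with values in the ring `O'` through an
embedding `ι` of the ring of eigenvalues. For a proper divisor `M'` of `M` and a prime `p` there is
a polynomial `P` in the good Hecke operators with `χ(P) ≠ 0` and `P = 0` on the `p`-power torsion
of `J_0(M')` (this is `H35.AbsentFrom`). Proved in `H35E1`, `H35Fin`; used for S35 and S36. -/
theorem newform_absent_from_lower_jacobians {M : ℕ} [NeZero M]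
    {g : CuspForm (CongruenceSubgroup.Gamma0 M) 2} (hg : g.IsNewform) {p : ℕ} (hp : p.Prime)
    (S : Finset ℕ) {O' : Type*} [CommRing O'] [IsDomain O'] [CharZero O']
    (χg : CuspForm.heckeAlgebra M 2 (↑S : Set ℕ) →+* ℂ)
    (hχg : ∀ (ℓ : ℕ) (hℓ : ℓ.Prime) (hℓM : ¬ ℓ ∣ M) (hℓS : ℓ ∉ (↑S : Set ℕ)),
      χg (CuspForm.heckeAlgebra.T hℓ hℓM hℓS) = ModularFormClass.qCoeff g ℓ)
    (ι : χg.range →+* O') {M' : ℕ} [NeZero M'] (hM' : M' ∣ M) (hne : M' ≠ M) :
    letI := heckeModuleBar M'
    ∃ P : MvPolynomial (GoodPrimes M (↑S : Set ℕ)) ℤ,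
      (ι.comp χg.rangeRestrict) (evHecke M (↑S : Set ℕ) P) ≠ 0 ∧
      ∀ x : JZero M', (∃ n : ℕ, p ^ n • x = 0) → inclHecke M (↑S : Set ℕ) P • x = 0 :=
  H35.absentFrom hg hp S χg hχg ι (jzeroInputs M) hM' hne

/-! ## 4. S34: unipotent inertia at `q ∥ N` -/

/-- **Inertia at `q ∥ N` is unipotent on `J_0(N)`** (`N = mq`, `q ∤ m`, `p ≠ q`):
`(σ - 1)² = 0` on the `p`-power torsion of `J_0(mq)` for all `σ` in the inertia groups at `q`.
Proved in `H89Inst` from the two-component reduction of `X_0(mq)`, without Néron models or the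
Weil pairing (see GuideBadRed). -/
theorem unipotent_on_torsion {p q m : ℕ} [NeZero m] [NeZero q] [NeZero (m * q)] (hq : q.Prime)
    (hqm : ¬ q ∣ m) (hp : p.Prime) (hpq : p ≠ q) :
    ∀ A : ValuationSubring (AlgebraicClosure ℚ), A.LiesOverPrime q →
      ∀ σ ∈ A.inertiaSubgroupIn ℚ, ∀ x : JZero (m * q), (∃ n : ℕ, p ^ n • x = 0) →
        σ • (σ • x - x) = σ • x - x :=
  H89J.unipotentTorsion' hq hqm hp hpq

/-- **From the torsion of `J_0(N)` to `H.ρ`** (S34). Let `H` be a Hecke-Galois datum of level `N`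
over `𝒪` (`S` finite, containing the prime `p` and the primes of `N`; `T` the Hecke ring of the
datum, `H.ρ` its representation), and let `q ≠ p` be a prime such that `(σ - 1)² = 0` on the
`p`-power torsion of `J_0(N)` for all `σ` in the inertia groups at `q`. Then `H.ρ` is unipotent on
inertia at `q`.
Proof over `T` itself: approximate `σ` by powers of Frobenius elements at good primes and use that
a Hecke operator which kills `J_0(N)[p^n]` is small in `T`. Proved in `H35S34`. -/
theorem unipotent_of_unipotent_torsion {p N : ℕ} [NeZero N] {S : Finset ℕ}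
    {𝒪 : Type} [CommRing 𝒪] [IsDomain 𝒪] [IsDiscreteValuationRing 𝒪]
    [IsAdicComplete (maximalIdeal 𝒪) 𝒪]
    {θ : CuspForm.heckeAlgebra N 2 (↑S : Set ℕ) →+* ResidueField 𝒪}
    {T : Type} [CommRing T] [IsLocalRing T] [IsNoetherianRing T]
    [IsAdicComplete (maximalIdeal T) T] [Algebra 𝒪 T] [IsLocalHom (algebraMap 𝒪 T)]
    [Module.Finite 𝒪 T] [Module.Free 𝒪 T]
    (hp : p.Prime) (hp𝒪 : (p : 𝒪) ∈ maximalIdeal 𝒪) (hpS : p ∈ S)
    (hNS : ∀ q : ℕ, q.Prime → q ∣ N → q ∈ S)
    (H : CuspForm.HeckeGaloisRepDatum N (↑S : Set ℕ) 𝒪 θ T)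
    (q : ℕ) (hq : q.Prime) (hqp : q ≠ p)
    (hss : ∀ A : ValuationSubring (AlgebraicClosure ℚ), A.LiesOverPrime q →
      ∀ σ ∈ A.inertiaSubgroupIn ℚ, ∀ x : JZero N, (∃ n : ℕ, p ^ n • x = 0) →
        σ • (σ • x - x) = σ • x - x) :
    H.ρ.IsUnipotentOnInertiaAt q :=
  haveI := (jzeroInputs N).principal
  H35.S34_of_JZero hp hp𝒪 hpS hNS H q hq hqp (fun n => (jzeroInputs N).finite p n hp)
    (jzeroInputs N).comm ((jzeroInputs N).spec p hp) ((jzeroInputs N).faithful p S hp hpS hNS) hss

/-- **S34**: the representation of a Hecke-Galois datum of level `N` is unipotent on inertia at the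
primes `q ≠ p` which divide `N` exactly once. -/
theorem s34 {𝒪 : Type} [CommRing 𝒪] [IsDomain 𝒪] [IsDiscreteValuationRing 𝒪]
    [IsAdicComplete (maximalIdeal 𝒪) 𝒪] [Finite (ResidueField 𝒪)] [CharZero 𝒪]
    {p : ℕ} (hp : p.Prime) (hp𝒪 : (p : 𝒪) ∈ maximalIdeal 𝒪)
    {N : ℕ} [NeZero N] {S : Finset ℕ} (hpS : p ∈ S) (hNS : ∀ q : ℕ, q.Prime → q ∣ N → q ∈ S)
    {θ : CuspForm.heckeAlgebra N 2 (↑S : Set ℕ) →+* ResidueField 𝒪}
    {T : Type} [CommRing T] [IsLocalRing T] [IsNoetherianRing T]
    [IsAdicComplete (maximalIdeal T) T] [Algebra 𝒪 T] [IsLocalHom (algebraMap 𝒪 T)]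
    [Module.Finite 𝒪 T] [Module.Free 𝒪 T]
    (H : CuspForm.HeckeGaloisRepDatum N (↑S : Set ℕ) 𝒪 θ T)
    (q : ℕ) (hq : q.Prime) (hqp : q ≠ p) (hqN : q ∣ N) (hq2 : ¬ q ^ 2 ∣ N) :
    H.ρ.IsUnipotentOnInertiaAt q :=
  S34.result hp hp𝒪 hpS hNS H q hq hqp hqN hq2

/-! ## 5. S35: the eigenlattice and the Steinberg relation -/

/-- **The eigenlattice.** `T` is a module over `Z` with an action `act` of a commutative ring `A`,
`χ : A → O` a ring homomorphism to a `Z`-algebra `O`. The submodule `H35.chiSub act χ` of `O ⊗ T`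
consists of the `v` with `P v = χ(P) v` for all `P` in `A`. It is applied to `Z = ℤ_p`,
`T = T_p J_0(N)`, `A` = polynomials in the good Hecke operators, `χ(T_ℓ) = a_ℓ(g)`. -/
theorem mem_chiSub {Z O : Type*} [CommRing Z] [CommRing O] [Algebra Z O] {A : Type*} [CommRing A]
    {T : Type*} [AddCommGroup T] [Module Z T] (act : A →+* Module.End Z T) (χ : A →+* O)
    (v : O ⊗[Z] T) :
    v ∈ H35.chiSub act χ ↔ ∀ P, (act P).baseChange O v = χ P • v :=
  H35.mem_chiSub act χ

/-- **The eigenlattice is not zero** if `χ` respects the linear relations between the operators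
`act P` (`T` finite free over the principal ideal domain `Z`, `O` a noetherian domain containing
`Z`). Proved in `H35VChi` from `H35Eigen`. -/
theorem chiSub_ne_bot {Z O : Type*} [CommRing Z] [IsDomain Z] [IsPrincipalIdealRing Z]
    [CommRing O] [IsDomain O] [IsNoetherianRing O] [Algebra Z O] {A : Type*} [CommRing A]
    {T : Type*} [AddCommGroup T] [Module Z T] [Module.Free Z T] [Module.Finite Z T]
    (act : A →+* Module.End Z T) (χ : A →+* O) (hinj : Function.Injective (algebraMap Z O))
    (hker : ∀ S : Finset (Z × A), ∑ i ∈ S, i.1 • act i.2 = 0 →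
      ∑ i ∈ S, algebraMap Z O i.1 * χ i.2 = 0) : H35.chiSub act χ ≠ ⊥ :=
  H35.chiSub_ne_bot act χ hinj hker

/-- **The maps to lower levels kill the eigenlattice**: if `F ∘ P = 0` for some operator `P` with
`χ(P) ≠ 0` then `F` is zero on the eigenlattice. (`F` is a degeneracy map, `P` the polynomial of
`newform_absent_from_lower_jacobians`.) Proved in `H35VChi`. -/
theorem absent_kills_eigenlattice {Z O : Type*} [CommRing Z] [CommRing O] [Algebra Z O]
    {A : Type*} [CommRing A] {T : Type*} [AddCommGroup T] [Module Z T]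
    (act : A →+* Module.End Z T) (χ : A →+* O) [IsDomain O] {T' : Type*} [AddCommGroup T']
    [Module Z T'] [Module.Free Z T'] (F : T →ₗ[Z] T') {P : A} (hP : F ∘ₗ act P = 0)
    (hχ : χ P ≠ 0) {v : O ⊗[Z] T} (hv : v ∈ H35.chiSub act χ) : F.baseChange O v = 0 :=
  H35.baseChange_eq_zero_of_absent act χ F hP hχ hv

/-- **The representation attached to the eigenlattice.** `T` is a finite free `ℤ_p`-module with
commuting actions of the Galois group (`ρT`, continuous) and of the good Hecke operators (`act`)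
such that `φ² - T_ℓ φ + ℓ = 0` for Frobenius elements; `χ` is a character of the Hecke algebra of
level `N` with values in `𝒪'` which respects the relations between the operators. Then the
eigenlattice `V_χ` in `𝒪' ⊗ T` is not zero, every `g` in the Galois group satisfies a quadratic
equation `g² - t g + cyc(g) = 0` on `V_χ` (`cyc` is the cyclotomic character), and over a finite
extension of `𝒪'` there is a two-dimensional representation `ρ` such that `ρ(g)` has characteristic
polynomial `X² - t X + cyc(g)` for these `t`, and `ρ(g) = 1` if `g` acts trivially on `V_χ` and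
`cyc(g) = 1`. So properties of the Galois action on `V_χ` give properties of `ρ`.
Proved in `H35VMain`. -/
theorem attached_of_eigenlattice {p : ℕ} [Fact p.Prime] {N : ℕ} [NeZero N] {S : Finset ℕ}
    {𝒪' : Type} [CommRing 𝒪'] [IsDomain 𝒪'] [IsDiscreteValuationRing 𝒪']
    [IsAdicComplete (maximalIdeal 𝒪') 𝒪'] [Finite (ResidueField 𝒪')]
    [CharZero 𝒪'] [Algebra ℤ_[p] 𝒪'] (hp𝒪' : (p : 𝒪') ∈ maximalIdeal 𝒪')
    (χ : CuspForm.heckeAlgebra N 2 (↑S : Set ℕ) →+* 𝒪')
    {T : Type*} [AddCommGroup T] [Module ℤ_[p] T] [Module.Free ℤ_[p] T] [Module.Finite ℤ_[p] T]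
    (ρT : Gℚ →* Module.End ℤ_[p] T)
    (act : MvPolynomial (GoodPrimes N (↑S : Set ℕ)) ℤ →+* Module.End ℤ_[p] T)
    (hpS : p ∈ S) (hNS : ∀ q : ℕ, q.Prime → q ∣ N → q ∈ S)
    (hcont : ∀ n : ℕ, ∃ L : IntermediateField ℚ (AlgebraicClosure ℚ), FiniteDimensional ℚ L ∧
      ∀ σ : Gℚ, (∀ x ∈ L, σ x = x) → ∀ x : T, ∃ y : T, ρT σ x - x = (p : ℤ_[p]) ^ n • y)
    (hcomm : ∀ P σ, Commute (act P) (ρT σ))
    (hfrob : ∀ (a : GoodPrimes N (↑S : Set ℕ)) (A : ValuationSubring (AlgebraicClosure ℚ)),
      A.LiesOverPrime (a.1 : ℕ) → ∀ φ : Gℚ, A.IsFrobeniusAt φ (a.1 : ℕ) →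
        ∀ x : T, ρT φ (ρT φ x) - act (MvPolynomial.X a) (ρT φ x) + (a.1 : ℕ) • x = 0)
    (hrel : ∀ U : Finset (ℤ_[p] × MvPolynomial (GoodPrimes N (↑S : Set ℕ)) ℤ),
      ∑ i ∈ U, i.1 • act i.2 = 0 →
        ∑ i ∈ U, algebraMap ℤ_[p] 𝒪' i.1 * χ (evHecke N (↑S : Set ℕ) i.2) = 0) :
    H35.chiSub act (χ.comp (evHecke N (↑S : Set ℕ))) ≠ ⊥ ∧
    (∀ g, ∃ t : 𝒪', ∀ w : H35.chiSub act (χ.comp (evHecke N (↑S : Set ℕ))),
      H35.galChi act _ ρT hcomm g (H35.galChi act _ ρT hcomm g w)
        - t • H35.galChi act _ ρT hcomm g w + H35.cyc 𝒪' hp𝒪' g • w = 0) ∧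
    ∃ (𝒪'' : Type) (_ : CommRing 𝒪'') (_ : IsDomain 𝒪'') (_ : IsDiscreteValuationRing 𝒪'')
      (_ : IsAdicComplete (maximalIdeal 𝒪'') 𝒪'') (_ : Finite (ResidueField 𝒪''))
      (_ : CharZero 𝒪'') (_ : Algebra 𝒪' 𝒪'') (_ : Module.Finite 𝒪' 𝒪'')
      (_ : IsLocalHom (algebraMap 𝒪' 𝒪'')),
    Function.Injective (algebraMap 𝒪' 𝒪'') ∧
    ∃ ρ : GaloisRepAdic 𝒪'',
      (∀ g t, (∀ w : H35.chiSub act (χ.comp (evHecke N (↑S : Set ℕ))),
          H35.galChi act _ ρT hcomm g (H35.galChi act _ ρT hcomm g w)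
            - t • H35.galChi act _ ρT hcomm g w + H35.cyc 𝒪' hp𝒪' g • w = 0) →
        LinearMap.charpoly (ρ.ρ g) = X ^ 2 - C (algebraMap 𝒪' 𝒪'' t) * X
          + C (algebraMap 𝒪' 𝒪'' (H35.cyc 𝒪' hp𝒪' g))) ∧
      (∀ g, H35.galChi act (χ.comp (evHecke N (↑S : Set ℕ))) ρT hcomm g = 1 →
        H35.cyc 𝒪' hp𝒪' g = 1 → ρ.ρ g = 1) :=
  H35.exists_rep_chi hp𝒪' χ ρT act hpS hNS hcont hcomm hfrob hrel

/-- **The Steinberg relation on `J_0(Mq)`** (`q ∤ M`, `p ≠ q`). Let `x` be a `p`-power torsion
point of `J_0(Mq)` such that `β^* α_* x = 0` and `β^* α_* w x = 0` (`α`, `β` the degeneracy maps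
`τ ↦ τ`, `τ ↦ q τ` to level `M`, `w` the Atkin-Lehner involution at `q`). Then
`(φ + q w)(φ + w) x = 0` for every Frobenius element `φ` at `q`. Proved in `H89Inst` (see
GuideBadRed). -/
theorem steinberg_on_torsion {p q M : ℕ} [NeZero M] [NeZero q] [NeZero (M * q)] (hq : q.Prime)
    (hqM : ¬ q ∣ M) (hp : p.Prime) (hpq : p ≠ q) (hc : M.Coprime q) :
    ∀ A : ValuationSubring (AlgebraicClosure ℚ), A.LiesOverPrime q →
      ∀ φ : Gℚ, A.IsFrobeniusAt φ q → ∀ x : JZero (M * q), (∃ n : ℕ, p ^ n • x = 0) →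
        H67.degPull (M := M) (N := M * q) q (dvd_refl _) (H67.degPush 1 (by simp) x) = 0 →
        H67.degPull (M := M) (N := M * q) q (dvd_refl _)
          (H67.degPush 1 (by simp) (H67.wJ M q rfl hc x)) = 0 →
          φ • (φ • x) + φ • (H67.wJ M q rfl hc x) + q • H67.wJ M q rfl hc (φ • x) + q • x = 0 :=
  H89J.starInput' hq hqM hp hpq hc

/-- **The trace of Frobenius from the Steinberg relation**, in linear algebra. `s` (the Frobenius
element, with a left inverse) commutes with the involution `w`, which commutes with the operators,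
`D P₀ = 0` for some operator `P₀` with `χ(P₀) ≠ 0` (`D = β^* α_*`), and `(s + q w)(s + w) x = 0`
whenever `D x = D (w x) = 0`. If `s² - t s + q = 0` on the nonzero eigenlattice then `t = q + 1`
or `t = -(q + 1)`. Proof: on an eigenvector of `w` in the eigenlattice, with eigenvalue `ε = ±1`,
the two relations give `(t + ε (q + 1)) s = 0`. Proved in `H35VGlue`. -/
theorem steinberg_trace {Z O A' T : Type*} [CommRing Z] [IsDomain Z] [IsPrincipalIdealRing Z]
    [CommRing O] [IsDomain O] [CharZero O] [Algebra Z O] [CommRing A'] [AddCommGroup T]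
    [Module Z T] [Module.Free Z T] {act : A' →+* Module.End Z T} {χ : A' →+* O}
    (hinj : Function.Injective (algebraMap Z O))
    {s sinv : Module.End Z T} (hsinv : sinv * s = 1) {q : ℕ}
    (w D : Module.End Z T) (hw : w * w = 1) (hwact : ∀ P, Commute (act P) w)
    (hws : Commute w s) {P₀ : A'} (hP₀ : D * act P₀ = 0) (hχ₀ : χ P₀ ≠ 0)
    (hst : ∀ x : T, D x = 0 → D (w x) = 0 → s (s x) + s (w x) + q • w (s x) + q • x = 0)
    (hne : H35.chiSub act χ ≠ ⊥) {t : O}
    (ht : ∀ v ∈ H35.chiSub act χ, s.baseChange O (s.baseChange O v) - t • s.baseChange O v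
      + (q : O) • v = 0) : t = q + 1 ∨ t = -(q + 1) :=
  H35.steinberg_trace act χ hinj hsinv w D hw hwact hws hP₀ hχ₀ hst hne ht

/-- **S35.** Let `g` be a newform of level `M`, `p` a prime, `S` a finite set containing `p` and the
primes of `M`, `χg : T_ℓ ↦ a_ℓ(g)` its character of the Hecke algebra and `ι` an embedding of the
ring of eigenvalues in a complete discrete valuation ring `O'` of residue characteristic `p`. Over
a finite extension of `O'` there is a representation `ρ` with characteristic polynomials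
`X² - a_ℓ(g) X + ℓ` at the primes `ℓ` outside `S`, and `X² ∓ (q+1) X + q` at the primes `q ≠ p`
with `q ∥ M`. -/
theorem s35 {M : ℕ} [NeZero M] {g : CuspForm (CongruenceSubgroup.Gamma0 M) 2} (hg : g.IsNewform)
    (p : ℕ) [Fact p.Prime] (S : Finset ℕ)
    (O' : Type) [CommRing O'] [IsDomain O'] [IsDiscreteValuationRing O']
    [IsAdicComplete (maximalIdeal O') O'] [Finite (ResidueField O')]
    [CharZero O'] (hpO' : (p : O') ∈ maximalIdeal O')
    (χg : CuspForm.heckeAlgebra M 2 (↑S : Set ℕ) →+* ℂ)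
    (hχg : ∀ (ℓ : ℕ) (hℓ : ℓ.Prime) (hℓM : ¬ ℓ ∣ M) (hℓS : ℓ ∉ (↑S : Set ℕ)),
      χg (CuspForm.heckeAlgebra.T hℓ hℓM hℓS) = ModularFormClass.qCoeff g ℓ)
    (ι : χg.range →+* O') (hpS : p ∈ S) (hMS : ∀ q : ℕ, q.Prime → q ∣ M → q ∈ S) :
    ∃ (O'' : Type) (_ : CommRing O'') (_ : IsDomain O'') (_ : IsDiscreteValuationRing O'')
      (_ : IsAdicComplete (maximalIdeal O'') O'') (_ : Finite (ResidueField O''))
      (_ : CharZero O'') (_ : Algebra O' O'') (_ : Module.Finite O' O'')
      (_ : IsLocalHom (algebraMap O' O'')),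
      Function.Injective (algebraMap O' O'') ∧
      ∃ ρ : GaloisRepAdic O'',
        (∀ (ℓ : ℕ) (hℓ : ℓ.Prime) (hℓM : ¬ ℓ ∣ M) (hℓS : ℓ ∉ (↑S : Set ℕ)),
          ∀ A : ValuationSubring (AlgebraicClosure ℚ), A.LiesOverPrime ℓ →
            ∀ σ : Gℚ, A.IsFrobeniusAt σ ℓ →
              LinearMap.charpoly (ρ.ρ σ) = X ^ 2 - C (algebraMap O' O''
                ((ι.comp χg.rangeRestrict) (CuspForm.heckeAlgebra.T hℓ hℓM hℓS))) * X
                  + C ((ℓ : O''))) ∧
        (∀ q : ℕ, q.Prime → q ≠ p → q ∣ M → ¬ q ^ 2 ∣ M →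
          ∀ A : ValuationSubring (AlgebraicClosure ℚ), A.LiesOverPrime q →
            ∀ σ : Gℚ, A.IsFrobeniusAt σ q →
              LinearMap.charpoly (ρ.ρ σ) = X ^ 2 - C ((q : O'') + 1) * X + C ((q : O'')) ∨
              LinearMap.charpoly (ρ.ρ σ) = X ^ 2 + C ((q : O'') + 1) * X + C ((q : O''))) :=
  S35.result hg p S O' hpO' χg hχg ι hpS hMS

/-! ## 6. S36: inertia at `q² ∥ N` is not unipotent -/

/-- **A fixed vector for unipotent operators.** Let `I` be a group of operators on a nonzero
finite torsion-free module over a noetherian domain with `(σ - 1)² = 0` for all `σ` in `I`. Then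
there is a nonzero vector fixed by `I`. Elementary proof: `σ⁻¹ = 2 - σ`, also for products, gives
`(σ-1)(τ-1) = -(τ-1)(σ-1)`; so the image of `σ - 1 ≠ 0` is a stable submodule of smaller rank, and
one concludes by induction. No hypothesis on the characteristic. Proved in `H35VKolchin`. -/
theorem exists_fixed_of_sq_zero {O W G : Type*} [CommRing O] [AddCommGroup W] [Module O W]
    [Group G] [IsDomain O] [IsNoetherianRing O] [Module.Finite O W] [Module.IsTorsionFree O W]
    [Nontrivial W] (I : Subgroup G) (ρ : G →* Module.End O W)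
    (h : ∀ σ ∈ I, (ρ σ - 1) * (ρ σ - 1) = 0) : ∃ w : W, w ≠ 0 ∧ ∀ σ ∈ I, ρ σ w = w :=
  H35.exists_fixed_of_sq_zero I ρ h

/-- **A fixed vector in the Tate module itself.** Notations as for the eigenlattice; `I` is a
subgroup of `G` (inertia) with `(σ - 1)² = 0` on the nonzero eigenlattice, `a` and `b` are
homomorphisms on `T` (the two degeneracy maps) which become zero after some operators `P_a`, `P_b`
with `χ(P_a) ≠ 0`, `χ(P_b) ≠ 0`. Then there is `x ≠ 0` in `T` (not only in `O ⊗ T`) fixed by `I`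
with `a x = b x = 0`. Proved in `H35VGlue`. -/
theorem exists_fixed_of_unipotent {Z O : Type*} [CommRing Z] [IsDomain Z]
    [IsPrincipalIdealRing Z] [CommRing O] [IsDomain O] [CharZero O] [Algebra Z O] {A : Type*}
    [CommRing A] {T : Type*} [AddCommGroup T] [Module Z T] [Module.Free Z T]
    (act : A →+* Module.End Z T) (χ : A →+* O) [IsNoetherianRing O] [Module.Finite Z T]
    (hinj : Function.Injective (algebraMap Z O)) {G : Type*} [Group G] (I : Subgroup G)
    (ρT : G →* Module.End Z T) (hcomm : ∀ P σ, Commute (act P) (ρT σ))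
    (hne : H35.chiSub act χ ≠ ⊥)
    (hsq : ∀ σ ∈ I, ∀ v ∈ H35.chiSub act χ, (ρT σ).baseChange O ((ρT σ).baseChange O v)
      - (2 : O) • (ρT σ).baseChange O v + v = 0)
    {T₁ : Type*} [AddCommGroup T₁] [Module Z T₁] [Module.Free Z T₁] (a b : T →ₗ[Z] T₁)
    {Pa Pb : A} (hPa : a ∘ₗ act Pa = 0) (hχa : χ Pa ≠ 0) (hPb : b ∘ₗ act Pb = 0)
    (hχb : χ Pb ≠ 0) :
    ∃ x : T, x ≠ 0 ∧ (∀ σ ∈ I, ρT σ x = x) ∧ a x = 0 ∧ b x = 0 :=
  H35.exists_fixed_of_unipotent act χ hinj I ρT hcomm hne hsq a b hPa hχa hPb hχb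

/-- **Bounded inertia invariants** (after Carayol). Let `p ≠ q` be primes and `q ∤ M`. At some
place above `q` the `p`-power torsion points of `J_0(M q²)` which are fixed by inertia and killed
by both degeneracy maps to `J_0(M q)` have bounded order. So such vectors of the Tate module are
zero. Proved in `H92*`, `H83*` (see GuideCarayol). -/
theorem bounded_inertia_invariants (p q M : ℕ) [NeZero M] [NeZero (M * q * q)] [NeZero (M * q)]
    [NeZero q] (hp : p.Prime) (hq : q.Prime) (hqp : q ≠ p) (hqM : ¬ q ∣ M) :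
    ∃ c : ℕ, ∃ A : ValuationSubring (AlgebraicClosure ℚ), A.LiesOverPrime q ∧
      ∀ x : JZero (M * q * q), (∃ n : ℕ, p ^ n • x = 0) →
        (∀ σ ∈ A.inertiaSubgroupIn ℚ, σ • x = x) →
        H67.degPush (M := M * q) 1 (by simp) x = 0 →
        H67.degPush (M := M * q) q (dvd_refl _) x = 0 → p ^ c • x = 0 :=
  H92.fixedInput_all H83.carCore p q M hp hq hqp hqM

/-- **S36.** Situation as in S35. Over a finite extension of `O'` there is a representation `ρ`
with characteristic polynomials `X² - a_ℓ(g) X + ℓ` at the primes `ℓ` outside `S` which is not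
unipotent on inertia at the primes `q ≠ p` with `q² ∥ M`. (The frozen statement has two more
hypotheses, `p ≠ 2` and the absolute irreducibility and oddness of the residual representations;
they are not needed, and the theorem is stated here without them. The proof of `S36.result` is the
same citation.) -/
theorem s36 {M : ℕ} [NeZero M] {g : CuspForm (CongruenceSubgroup.Gamma0 M) 2} (hg : g.IsNewform)
    (p : ℕ) [Fact p.Prime] (S : Finset ℕ)
    (O' : Type) [CommRing O'] [IsDomain O'] [IsDiscreteValuationRing O']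
    [IsAdicComplete (maximalIdeal O') O'] [Finite (ResidueField O')]
    [CharZero O'] (hpO' : (p : O') ∈ maximalIdeal O')
    (χg : CuspForm.heckeAlgebra M 2 (↑S : Set ℕ) →+* ℂ)
    (hχg : ∀ (ℓ : ℕ) (hℓ : ℓ.Prime) (hℓM : ¬ ℓ ∣ M) (hℓS : ℓ ∉ (↑S : Set ℕ)),
      χg (CuspForm.heckeAlgebra.T hℓ hℓM hℓS) = ModularFormClass.qCoeff g ℓ)
    (ι : χg.range →+* O') (hpS : p ∈ S) (hMS : ∀ q : ℕ, q.Prime → q ∣ M → q ∈ S) :
    ∃ (O'' : Type) (_ : CommRing O'') (_ : IsDomain O'') (_ : IsDiscreteValuationRing O'')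
      (_ : IsAdicComplete (maximalIdeal O'') O'') (_ : Finite (ResidueField O''))
      (_ : CharZero O'') (_ : Algebra O' O'') (_ : Module.Finite O' O'')
      (_ : IsLocalHom (algebraMap O' O'')),
      Function.Injective (algebraMap O' O'') ∧
      ∃ ρ : GaloisRepAdic O'',
        (∀ (ℓ : ℕ) (hℓ : ℓ.Prime) (hℓM : ¬ ℓ ∣ M) (hℓS : ℓ ∉ (↑S : Set ℕ)),
          ∀ A : ValuationSubring (AlgebraicClosure ℚ), A.LiesOverPrime ℓ →
            ∀ σ : Gℚ, A.IsFrobeniusAt σ ℓ →
              LinearMap.charpoly (ρ.ρ σ) = X ^ 2 - C (algebraMap O' O''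
                ((ι.comp χg.rangeRestrict) (CuspForm.heckeAlgebra.T hℓ hℓM hℓS))) * X
                  + C ((ℓ : O''))) ∧
        (∀ q : ℕ, q.Prime → q ≠ p → M.factorization q = 2 → ¬ ρ.IsUnipotentOnInertiaAt q) :=
  H35.S36_of_fixed hg p S O' hpO' χg hχg ι hpS hMS (fun N _ => jzeroInputs N)
    (H92.fixedInput_all H83.carCore)

end Fermat.Agent.Guide.Newforms
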