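import Fermat.Agent.H13EC7
import Fermat.Agent.H13EC8

set_option autoImplicit false

/-!
# Reader's guide: elliptic curves at a prime of multiplicative reduction, without Tate curves

**What this file is.**  Every theorem below is *proved by citing the library* (at most three lines); the
statement is written out in full.  No other module imports this file.  The results of section 4 are also in
`GuideCurvesLocal`; here is the method.  More steps of the proofs are in `GuideNodeSteps`.

**What the block does.**  Let `W` be a Weierstrass equation over a valuation ring `A` of a field `K` with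
`Δ` in the maximal ideal and `c₄` a unit, so that the reduced curve has a node.  The classical tool is the
Tate curve `Kˣ / q^ℤ`; it needs a complete field and an infinite product.  Here:
* the node is lifted to a critical point `(x₀, y₀)` of the Weierstrass polynomial (the *centre*); with the
  slopes `α`, `β` of the two tangents, `ξ = x - x₀` and `η = y - y₀` the equation of the curve becomes
  `(η - α ξ) (η - β ξ) = ξ³ + g` with `g` in the maximal ideal (section 1);
* the *component* of a point is `|η - α ξ|` or `|η - β ξ|⁻¹`, an element of the value group modulo powers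
  of `|g|` (for the Tate curve: `|u|` modulo powers of `|q|`).  Components are additive, and they are trivial
  exactly for the points with nonsingular reduction (section 2);
* the Galois group acts on components through a sign, the inertia group trivially (section 3);
* this gives the local properties of `W[n]` and of the Tate module for an integral Weierstrass equation `W`
  at all primes dividing `Δ` but not `c₄`, also at 2 and 3 (section 4).

**Where it is used.**  In the local types for modularity lifting and in level lowering; precisely, the line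
"Closures: ..." of a docstring lists the statements SNN whose proof term depends on the theorem cited.

**Reading order.**  `H13NodeVal`, `H13Node`, `H13NodeExists`, `H13NodeComp`, `H13NodeRed`, `H13NodeDiv`,
`H13NodeIdx`, `H13NodeGal`, `H13EC6`, `H13Tame`, `H13EC7`, `H13EC8`.
**Prose.**  NOTES.md, Appendix A.1, NOTES-EC-NODE (helper13).

**Conventions.**  `A.valuation` is written multiplicatively: `A.valuation x ≤ 1` for `x ∈ A`, `< 1` on the
maximal ideal.  `E⁄K` is the base change, `(E⁄K).Point` the group of points of `E` over `K`.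
-/

namespace Fermat.Agent.Guide.Node

open WeierstrassCurve WeierstrassCurve.Affine IsLocalRing
open Fermat.Agent

/-! ## 1. The centre of the node -/

/-- **The notion of a centre.** `H13.NodeData W x₀ y₀ α β g` says: the partial derivatives of
`F = y² + a₁ x y + a₃ y - (x³ + a₂ x² + a₄ x + a₆)` vanish at `(x₀, y₀)`, `F (x₀, y₀) = -g`, and `α`, `β`
are the slopes of the lines in which the quadratic part of `F` at `(x₀, y₀)` decomposes. -/
theorem nodeData_iff {R : Type*} [CommRing R] (W : WeierstrassCurve R) (x₀ y₀ α β g : R) :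
    H13.NodeData W x₀ y₀ α β g ↔
      2 * y₀ + W.a₁ * x₀ + W.a₃ = 0 ∧
      3 * x₀ ^ 2 + 2 * W.a₂ * x₀ + W.a₄ - W.a₁ * y₀ = 0 ∧
      y₀ ^ 2 + W.a₁ * x₀ * y₀ + W.a₃ * y₀ + g = x₀ ^ 3 + W.a₂ * x₀ ^ 2 + W.a₄ * x₀ + W.a₆ ∧
      α + β = -W.a₁ ∧ α * β = -(W.a₂ + 3 * x₀) :=
  ⟨fun h => ⟨h.dy, h.dx, h.eq, h.sum, h.prod⟩, fun h => ⟨h.1, h.2.1, h.2.2.1, h.2.2.2.1, h.2.2.2.2⟩⟩

/-- `H13.GoodNode`: a centre over a valuation ring with `g ≠ 0` in the maximal ideal and two different
tangents after reduction. -/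
theorem goodNode_iff {K : Type*} [Field K] {A : ValuationSubring K} (W : WeierstrassCurve A)
    (x₀ y₀ α β g : A) :
    H13.GoodNode W x₀ y₀ α β g ↔
      H13.NodeData W x₀ y₀ α β g ∧ g ∈ maximalIdeal A ∧ g ≠ 0 ∧ IsUnit (α - β) :=
  ⟨fun h => ⟨h.nd, h.g_mem, h.g_ne, h.unit⟩, fun h => ⟨h.1, h.2.1, h.2.2.1, h.2.2.2⟩⟩

/-- **The equation in coordinates at the centre**: `(η - α ξ) (η - β ξ) = ξ³ + g`. Module `H13Node`.
Closures: S01, S03, S04, S06, S38-S40, S43-S46, S50, S58-S60. -/
theorem equation_at_centre {R : Type*} [CommRing R] {W : WeierstrassCurve R} {x₀ y₀ α β g : R}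
    (h : H13.NodeData W x₀ y₀ α β g) {x y : R} (hE : W.toAffine.Equation x y) :
    ((y - y₀) - α * (x - x₀)) * ((y - y₀) - β * (x - x₀)) = (x - x₀) ^ 3 + g :=
  h.st hE

/-- **The invariants in terms of the centre.** So `g` is up to a unit the discriminant, and the tangents
are different if `c₄` is a unit. Module `H13Node`.
Closures: S01, S03, S04, S06, S38-S40, S43-S46, S50, S58-S60. -/
theorem invariants {R : Type*} [CommRing R] {W : WeierstrassCurve R} {x₀ y₀ α β g : R}
    (h : H13.NodeData W x₀ y₀ α β g) :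
    W.Δ = -g * ((W.b₂ + 12 * x₀) ^ 3 + 432 * g) ∧ W.c₄ = (W.b₂ + 12 * x₀) ^ 2 ∧
      (α - β) ^ 2 = W.b₂ + 12 * x₀ :=
  ⟨h.disc, h.c₄_eq, h.delta_sq⟩

/-- **Existence of the centre.** Over a valuation ring of an algebraically closed field, a Weierstrass
equation with `Δ` in the maximal ideal and `c₄` a unit has a centre. `x₀` is a root of `6 x² + b₂ x + b₄`: if
`6` is a unit, the one with small critical value, otherwise (residue characteristic 2 or 3) the integral
one. Module `H13NodeExists`.
Closures: S01, S03, S04, S06, S38-S40, S43-S46, S50, S58-S60. -/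
theorem exists_centre {K : Type*} [Field K] [IsAlgClosed K] {A : ValuationSubring K}
    (W : WeierstrassCurve A) (hΔ : W.Δ ∈ maximalIdeal A) (hc : IsUnit W.c₄) :
    ∃ x₀ y₀ α β g : A, H13.NodeData W x₀ y₀ α β g ∧ g ∈ maximalIdeal A ∧ IsUnit (α - β) :=
  H13.exists_nodeData W hΔ hc

/-- **Uniqueness of the centre.** Hence it is fixed by all automorphisms of `K` which preserve `A` and
`W`. Module `H13NodeExists`.
Closures: S01, S03, S04, S06, S38-S40, S43-S46, S50, S58-S60. -/
theorem centre_unique {K : Type*} [Field K] {A : ValuationSubring K} {W : WeierstrassCurve A}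
    {x₀ y₀ α β g x₁ y₁ α' β' g' : A} (h : H13.NodeData W x₀ y₀ α β g)
    (h' : H13.NodeData W x₁ y₁ α' β' g') (hu : IsUnit (α - β)) (hg : g ∈ maximalIdeal A)
    (hg' : g' ∈ maximalIdeal A) : x₁ = x₀ ∧ y₁ = y₀ ∧ g' = g :=
  h.unique h' hu hg hg'

/-- **The centre for an integral equation** `W` at a place `A` above a prime `q` of multiplicative
reduction, i.e. `q ∣ Δ ≠ 0` and `q ∤ c₄`. Module `H13EC6`.
Closures: S01, S03, S04, S06, S38-S40, S43-S46, S50, S58-S60. -/
theorem exists_goodNode {K : Type*} [Field K] [IsAlgClosed K] [CharZero K] {W : WeierstrassCurve ℤ}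
    {q : ℕ} (hq : q.Prime) (hbad : (q : ℤ) ∣ W.Δ) (hΔ : W.Δ ≠ 0) (hc : ¬ (q : ℤ) ∣ W.c₄)
    {A : ValuationSubring K} (hA : A.LiesOverPrime q) :
    ∃ x₀ y₀ α β g : A, H13.GoodNode (W.map (Int.castRingHom A)) x₀ y₀ α β g :=
  H13.exists_goodNode hq hbad hΔ hc hA

/-- **The size of `g`** is the size of the discriminant: `|g| = |q| ^ ord_q(Δ)`. Module `H13EC7`.
Closures: S01, S03, S39, S40, S43-S45. -/
theorem valuation_g {K : Type*} [Field K] [CharZero K] {A : ValuationSubring K}
    {W : WeierstrassCurve ℤ} {x₀ y₀ α β g : A}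
    (hN : H13.GoodNode (W.map (Int.castRingHom A)) x₀ y₀ α β g) {q : ℕ} (hq : q.Prime)
    (hA : A.LiesOverPrime q) (hΔ : W.Δ ≠ 0) :
    A.valuation (g : K) = A.valuation (q : K) ^ padicValInt q W.Δ :=
  hN.valuation_g hq hA hΔ

/-! ## 2. Components -/

/-- **The notions "near the node" and "component"** for an affine point `P = (x, y)`. `H13.Near A x₀ P`: the
point reduces to the node, `|x - x₀| < 1`. With `s = (y - y₀) - α (x - x₀)`, `t = (y - y₀) - β (x - x₀)`
the component `c` is `1` if `P` is not near the node, and otherwise `|s|` if `|t| ≤ |s|` and `|t|⁻¹` if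
`|s| ≤ |t|`. (If `|s| = |t|` both values are allowed. The point at infinity is not near the node and
has component `1`.) -/
theorem component_iff {K : Type*} [Field K] {EL : Affine K} {A : ValuationSubring K}
    (x₀ y₀ α β : A) {x y : K} (h : EL.Nonsingular x y) (c : A.ValueGroup) :
    (H13.Near A x₀ (Point.some x y h : EL.Point) ↔ A.valuation (x - x₀) < 1) ∧
    (H13.Comp A x₀ y₀ α β (Point.some x y h : EL.Point) c ↔
      (1 ≤ A.valuation (x - x₀) ∧ c = 1) ∨
      (A.valuation (x - x₀) < 1 ∧
        ((A.valuation ((y - y₀) - β * (x - x₀)) ≤ A.valuation ((y - y₀) - α * (x - x₀)) ∧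
            c = A.valuation ((y - y₀) - α * (x - x₀))) ∨
          (A.valuation ((y - y₀) - α * (x - x₀)) ≤ A.valuation ((y - y₀) - β * (x - x₀)) ∧
            c = (A.valuation ((y - y₀) - β * (x - x₀)))⁻¹)))) :=
  ⟨Iff.rfl, Iff.rfl⟩

/-- **Every point has a component, unique modulo powers of `|g|`.** Module `H13NodeComp`.
Closures: S01, S03, S04, S06, S38-S40, S43-S46, S50, S58-S60. -/
theorem exists_component {K : Type*} [Field K] {A : ValuationSubring K} {W : WeierstrassCurve A}
    {x₀ y₀ α β g : A} {EL : Affine K} (hN : H13.GoodNode W x₀ y₀ α β g)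
    (hL : W.map A.subtype = EL) (P : EL.Point) :
    (∃ c, H13.Comp A x₀ y₀ α β P c) ∧ ∀ c c' : A.ValueGroup, H13.Comp A x₀ y₀ α β P c →
      H13.Comp A x₀ y₀ α β P c' → ∃ k : ℤ, c' = c * A.valuation (g : K) ^ k :=
  ⟨H13.exists_comp x₀ y₀ α β P, fun _ _ h h' => h.unique hN hL h'⟩

/-- **Three collinear points near the node**, the heart of the method: a statement about valuations only.
Let the line be `s = L ξ + ν`, `t = M ξ + ν` with `M - L = δ` a unit; it meets the curve
`s t = ξ³ + g`, `t - s = δ ξ`, in the points with `ξ`-coordinates `ξ₁, ξ₂, ξ₃` if and only if `h₁`, `h₂`, `h₃`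
hold. If all three points are near the node, the product of their components is a power of `|g|`.
(`H13.IsC v s t c` is the condition on `c` in the last case of `component_iff`.) Module `H13NodeVal`.
Closures: S01, S03, S04, S06, S38-S40, S43-S46, S50, S58-S60. -/
theorem three_points {K Γ : Type*} [Field K] [LinearOrderedCommGroupWithZero Γ] (v : Valuation K Γ)
    {δ g L M ν ξ₁ ξ₂ ξ₃ : K} (h₀ : M - L = δ) (h₁ : ξ₁ + ξ₂ + ξ₃ = L * M)
    (h₂ : ξ₁ * ξ₂ + ξ₂ * ξ₃ + ξ₃ * ξ₁ = -(ν * (L + M))) (h₃ : ξ₁ * ξ₂ * ξ₃ = ν ^ 2 - g)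
    (hδ : v δ = 1) (hg0 : g ≠ 0) (hg : v g < 1) (hξ₁ : v ξ₁ < 1) (hξ₂ : v ξ₂ < 1) (hξ₃ : v ξ₃ < 1)
    {c₁ c₂ c₃ : Γ} (hc₁ : H13.IsC v (L * ξ₁ + ν) (M * ξ₁ + ν) c₁)
    (hc₂ : H13.IsC v (L * ξ₂ + ν) (M * ξ₂ + ν) c₂) (hc₃ : H13.IsC v (L * ξ₃ + ν) (M * ξ₃ + ν) c₃) :
    ∃ k : ℤ, c₁ * c₂ * c₃ = v g ^ k :=
  H13.LineData.caseIV ⟨h₀, h₁, h₂, h₃⟩ hδ hg0 hg hξ₁ hξ₂ hξ₃ hc₁ hc₂ hc₃

/-- **Components are additive.** The cases of `three_points` and of one, two or three points away from
the node. Module `H13NodeComp`.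
Closures: S01, S03, S04, S06, S38-S40, S43-S46, S50, S58-S60. -/
theorem component_add {K : Type*} [Field K] [DecidableEq K] {A : ValuationSubring K}
    {W : WeierstrassCurve A} {x₀ y₀ α β g : A} {EL : Affine K} (hN : H13.GoodNode W x₀ y₀ α β g)
    (hL : W.map A.subtype = EL) {P Q : EL.Point} {a b c : A.ValueGroup}
    (hP : H13.Comp A x₀ y₀ α β P a) (hQ : H13.Comp A x₀ y₀ α β Q b)
    (hR : H13.Comp A x₀ y₀ α β (P + Q) c) : ∃ k : ℤ, c = a * b * A.valuation (g : K) ^ k :=
  H13.Comp.add hN hL hP hQ hR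

/-- **Components of torsion points.** If `n P = 0` the `n`-th power of the component is a power of `|g|`:
the components of the `n`-torsion points are `|g| ^ (j / n)`. Module `H13NodeComp`.
Closures: S01, S03, S39, S40, S43-S45. -/
theorem component_pow_eq {K : Type*} [Field K] [DecidableEq K] {A : ValuationSubring K}
    {W : WeierstrassCurve A} {x₀ y₀ α β g : A} {EL : Affine K} (hN : H13.GoodNode W x₀ y₀ α β g)
    (hL : W.map A.subtype = EL) {P : EL.Point} {a : A.ValueGroup}
    (hP : H13.Comp A x₀ y₀ α β P a) {n : ℕ} (hn : n • P = 0) :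
    ∃ k : ℤ, a ^ n = A.valuation (g : K) ^ k :=
  H13.Comp.pow_eq hN hL hP hn

/-- **Trivial component**: if the component of `P` is a power of `|g|`, then `P` is not near the node.
(If `P` is near the node, `|g| < c < |g|⁻¹` and `c ≠ 1`.) Module `H13NodeRed`.
Closures: S01, S03, S04, S06, S38-S40, S43-S46, S50, S58-S60. -/
theorem not_near_of_component {K : Type*} [Field K] {A : ValuationSubring K}
    {W : WeierstrassCurve A} {x₀ y₀ α β g : A} {EL : Affine K} (hN : H13.GoodNode W x₀ y₀ α β g)
    (hL : W.map A.subtype = EL) {P : EL.Point} {k : ℤ}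
    (h : H13.Comp A x₀ y₀ α β P (A.valuation (g : K) ^ k)) : ¬ H13.Near A x₀ P :=
  H13.not_near_of_comp hN hL h

/-- **Equal components**: if the components of `P` and `Q` agree modulo powers of `|g|`, then `P - Q` is not
near the node. Module `H13NodeRed`.
Closures: S01, S03, S04, S06, S38-S40, S43-S46, S50, S58-S60. -/
theorem sub_not_near {K : Type*} [Field K] [DecidableEq K] {A : ValuationSubring K}
    {W : WeierstrassCurve A} {x₀ y₀ α β g : A} {EL : Affine K} (hN : H13.GoodNode W x₀ y₀ α β g)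
    (hL : W.map A.subtype = EL) {P Q : EL.Point} {c d : A.ValueGroup}
    (hP : H13.Comp A x₀ y₀ α β P c) (hQ : H13.Comp A x₀ y₀ α β Q d)
    (hcd : ∃ k : ℤ, c = d * A.valuation (g : K) ^ k) : ¬ H13.Near A x₀ (P - Q) :=
  H13.sub_not_near hN hL hP hQ hcd

/-- **Away from the node = nonsingular reduction.** `H59.Reduces A ρ P P'`: the point `P` reduces to the
point `P'` of the reduced curve (coordinatewise, if the coordinates are in `A`; the points with `x ∉ A` and
the point at infinity reduce to the point at infinity); `Ek.Point` consists of the nonsingular points of the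
reduced curve. Module `H13NodeRed`.
Closures: S01, S03, S04, S06, S38-S40, S43-S46, S50, S59, S60; the direction from left to right also in
S58. -/
theorem not_near_iff_reduces {K : Type*} [Field K] {A : ValuationSubring K}
    {W : WeierstrassCurve A} {x₀ y₀ α β g : A} {EL : Affine K} {Ek : Affine (ResidueField A)}
    (hN : H13.GoodNode W x₀ y₀ α β g) (hL : W.map A.subtype = EL) (hk : W.map (residue A) = Ek)
    (P : EL.Point) :
    ¬ H13.Near A x₀ P ↔ ∃ P' : Ek.Point, H59.Reduces A (residue A) P P' :=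
  ⟨H13.exists_reduces_of_not_near hN hL hk, fun ⟨_, h⟩ => H13.not_near_of_reduces hN hk h⟩

/-- **The nodal cubic is a multiplicative group.** Over a field `k`, with `g = 0` and `α ≠ β`, the map
`P ↦ (η - β ξ) / (η - α ξ)` is an injective homomorphism from the nonsingular points to `kˣ`. (`H13.mulT`
is this map, with value `1` at infinity.) Module `H13NodeRed`.
Closures: S01, S03, S04, S06, S38, S43, S45, S46, S50, S59, S60; the multiplicativity also in S39, S40,
S44. -/
theorem nodal_parameter {k : Type*} [Field k] [DecidableEq k] {W : WeierstrassCurve k}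
    {x₀ y₀ α β : k} (h : H13.NodeData W x₀ y₀ α β 0) (hαβ : α ≠ β) :
    (∀ (x y : k) (hP : W.toAffine.Nonsingular x y), H13.mulT x₀ y₀ α β (Point.some x y hP) =
      ((y - y₀) - β * (x - x₀)) / ((y - y₀) - α * (x - x₀))) ∧
    (∀ P Q : W.toAffine.Point,
      H13.mulT x₀ y₀ α β (P + Q) = H13.mulT x₀ y₀ α β P * H13.mulT x₀ y₀ α β Q) ∧
    Function.Injective (H13.mulT x₀ y₀ α β (W := W)) :=
  ⟨fun _ _ _ => rfl, H13.mulT_add h hαβ, H13.mulT_injective h hαβ⟩

/-- **Equal leading coefficients**: let `P₁`, `P₂` be near the node with the same component `|s₁| = |s₂|`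
(`|t_i| ≤ |s_i|`). If moreover `|s₁ - s₂| < |s₁|`, then `P₁ - P₂` reduces to the point at infinity. This is
the Tate parametrisation to first order. Module `H13NodeRed`.
Closures: S01, S03, S43, S45. -/
theorem sub_reduces_zero {K : Type*} [Field K] [DecidableEq K] {A : ValuationSubring K}
    {W : WeierstrassCurve A} {x₀ y₀ α β g : A} {EL : Affine K} (hN : H13.GoodNode W x₀ y₀ α β g)
    (hL : W.map A.subtype = EL) {x₁ y₁ x₂ y₂ : K} (h₁ : EL.Nonsingular x₁ y₁)
    (h₂ : EL.Nonsingular x₂ y₂) (n₁ : A.valuation (x₁ - x₀) < 1)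
    (l₁ : A.valuation ((y₁ - y₀) - β * (x₁ - x₀)) ≤ A.valuation ((y₁ - y₀) - α * (x₁ - x₀)))
    (l₂ : A.valuation ((y₂ - y₀) - β * (x₂ - x₀)) ≤ A.valuation ((y₂ - y₀) - α * (x₂ - x₀)))
    (heq : A.valuation ((y₁ - y₀) - α * (x₁ - x₀)) = A.valuation ((y₂ - y₀) - α * (x₂ - x₀)))
    (hlt : A.valuation (((y₁ - y₀) - α * (x₁ - x₀)) - ((y₂ - y₀) - α * (x₂ - x₀))) <
      A.valuation ((y₁ - y₀) - α * (x₁ - x₀))) :
    H59.Reduces A (residue A) (Point.some x₁ y₁ h₁ - Point.some x₂ y₂ h₂ : EL.Point)
      (0 : (W.map (residue A)).toAffine.Point) :=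
  H13.sub_reduces_zero hN hL h₁ h₂ n₁ l₁ l₂ heq hlt

/-- **Division polynomials at a node**: all `ψ_n²`, `n ≥ 2`, vanish at the singular point of a nodal
cubic. Module `H13NodeDiv`.
Closures: S01, S03, S04, S06, S38-S40, S43-S46, S50, S59, S60. -/
theorem divisionPolynomial_node {R : Type*} [CommRing R] {W : WeierstrassCurve R} {x₀ y₀ α β : R}
    (h : H13.NodeData W x₀ y₀ α β 0) (n : ℕ) (hn : 2 ≤ n) : (W.ΨSq n).eval x₀ = 0 :=
  h.eval_ΨSq n hn

/-- **In residue characteristic `p` there is a `p`-torsion point near the node.** Otherwise all `p`-torsion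
points would be in the kernel of reduction (by `nodal_parameter` the nodal cubic has no `p`-torsion), so all
roots of `ψ_p²` would be outside `A` and `|ψ_p²|` would be constant on `A`; but it is less than `1` at `x₀`
(`divisionPolynomial_node`) and equal to `1` at `x₀ + 1`. Module `H13NodeDiv`.
Closures: S01, S03, S04, S06, S38-S40, S43-S46, S50, S59, S60. -/
theorem exists_torsion_near {K : Type*} [Field K] [DecidableEq K] [IsAlgClosed K] [CharZero K]
    {A : ValuationSubring K} {W : WeierstrassCurve A} {x₀ y₀ α β g : A} {EL : Affine K}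
    (hN : H13.GoodNode W x₀ y₀ α β g) (hL : W.map A.subtype = EL) {p : ℕ} (hp : p.Prime)
    (hpk : (p : ResidueField A) = 0) : ∃ P : EL.Point, p • P = 0 ∧ H13.Near A x₀ P :=
  H13.exists_near_of_char hN hL hp hpk

/-- **The kernel of reduction is `p`-divisible in residue characteristic `p`**: a `p`-division point of a
point of the kernel of reduction is moved into the kernel by a multiple of the torsion point of
`exists_torsion_near`. `hdiv`: the group of points is `p`-divisible (true over algebraically closed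
fields). Module `H13NodeIdx`.
Closures: S01, S03, S04, S06, S38, S45, S46, S50, S59, S60. -/
theorem kernel_divisible {K : Type*} [Field K] [DecidableEq K] [IsAlgClosed K] [CharZero K]
    {A : ValuationSubring K} {W : WeierstrassCurve A} {x₀ y₀ α β g : A} {EL : Affine K}
    (hN : H13.GoodNode W x₀ y₀ α β g) (hL : W.map A.subtype = EL) {p : ℕ} (hp : p.Prime)
    (hpk : (p : ResidueField A) = 0) (hdiv : ∀ Q : EL.Point, ∃ P : EL.Point, p • P = Q)
    {Q : EL.Point}
    (hQ : H59.Reduces A (residue A) Q (0 : (W.map (residue A)).toAffine.Point)) :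
    ∃ P : EL.Point, H59.Reduces A (residue A) P (0 : (W.map (residue A)).toAffine.Point) ∧
      p • P = Q :=
  H13.exists_nsmul_eq_of_reduces_zero hN hL hp hpk hdiv hQ

/-! ## 3. Galois action -/

/-- **The decomposition group** fixes the centre and fixes or swaps the tangents (split or nonsplit
multiplicative reduction); **the inertia group** fixes everything. Module `H13NodeGal`.
Closures: S01, S03, S04, S06, S38-S40, S43-S46, S50, S58-S60. -/
theorem galois_centre {S K : Type*} [Field S] [Field K] [Algebra S K]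
    {A : ValuationSubring K} {W : WeierstrassCurve ℤ} {x₀ y₀ α β g : A}
    (hN : H13.GoodNode (W.map (Int.castRingHom A)) x₀ y₀ α β g) (σ : K ≃ₐ[S] K) :
    (σ ∈ A.decompositionSubgroup S →
      σ x₀ = x₀ ∧ σ y₀ = y₀ ∧ σ g = g ∧ ((σ α = α ∧ σ β = β) ∨ (σ α = β ∧ σ β = α))) ∧
    (σ ∈ A.inertiaSubgroupIn S → σ x₀ = x₀ ∧ σ y₀ = y₀ ∧ σ g = g ∧ σ α = α ∧ σ β = β) :=
  ⟨fun h => hN.decomp h, fun h => hN.inertia h⟩

/-- **Inertia preserves components**, so `σ P - P` is not near the node for `σ` in the inertia group.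
Here `E` is the base change of the integral equation `W` to a ring `R`, `K` is algebraic over the field
`S`. Module `H13NodeGal`.
Closures: S01, S03, S04, S06, S38-S40, S43-S46, S50, S58-S60. -/
theorem inertia_sub_not_near {R S K : Type*} [CommRing R] [Field S] [Field K] [Algebra R S]
    [Algebra R K] [Algebra S K] [IsScalarTower R S K] [Algebra.IsAlgebraic S K] [DecidableEq K]
    {W : WeierstrassCurve ℤ} {E : Affine R} {A : ValuationSubring K} {x₀ y₀ α β g : A}
    (hN : H13.GoodNode (W.map (Int.castRingHom A)) x₀ y₀ α β g)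
    (hE : W.map (Int.castRingHom R) = E) {σ : K ≃ₐ[S] K} (hσ : σ ∈ A.inertiaSubgroupIn S)
    (P : (E⁄K).Point) : ¬ H13.Near A x₀ (σ • P - P) :=
  H13.smul_sub_not_near hN hE hσ P

/-- **The decomposition group preserves or inverts components**: for `σ` in the decomposition group
either all `σ P - P` or all `σ P + P` are away from the node. Module `H13EC8`.
Closures: S01, S03, S04, S06, S38, S45, S46, S50, S59, S60. -/
theorem decomposition_sub_or_add {R S K : Type*} [CommRing R] [Field S] [Field K] [Algebra R S]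
    [Algebra R K] [Algebra S K] [IsScalarTower R S K] [Algebra.IsAlgebraic S K] [DecidableEq K]
    {W : WeierstrassCurve ℤ} {E : Affine R} {A : ValuationSubring K} {x₀ y₀ α β g : A}
    (hN : H13.GoodNode (W.map (Int.castRingHom A)) x₀ y₀ α β g)
    (hE : W.map (Int.castRingHom R) = E) {σ : K ≃ₐ[S] K} (hσ : σ ∈ A.decompositionSubgroup S) :
    (∀ P : (E⁄K).Point, ¬ H13.Near A x₀ (σ • P - P)) ∨
      (∀ P : (E⁄K).Point, ¬ H13.Near A x₀ (σ • P + P)) :=
  H13.smul_sub_or_add_not_near hN hE hσ

/-- **Unipotence, general form**: `(τ - 1) (σ - 1) P = 0` for `σ`, `τ` in the inertia group and `n P = 0`,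
`n ≠ 0` in the residue field. Proof: `σ P - P` has nonsingular reduction, and a prime-to-`q` torsion point
with nonsingular reduction is fixed by inertia. Module `H13NodeGal`.
Closures: S01, S03, S04, S06, S38, S43, S45, S46, S50, S58-S60. -/
theorem inertia_unipotent_general {R S K : Type*} [CommRing R] [Field S] [Field K] [Algebra R S]
    [Algebra R K] [Algebra S K] [IsScalarTower R S K] [Algebra.IsAlgebraic S K] [DecidableEq K]
    {W : WeierstrassCurve ℤ} {E : Affine R} {A : ValuationSubring K} {x₀ y₀ α β g : A}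
    (hN : H13.GoodNode (W.map (Int.castRingHom A)) x₀ y₀ α β g)
    (hE : W.map (Int.castRingHom R) = E) {σ τ : K ≃ₐ[S] K} (hσ : σ ∈ A.inertiaSubgroupIn S)
    (hτ : τ ∈ A.inertiaSubgroupIn S) {P : (E⁄K).Point} {n : ℕ} (hn : (n : ResidueField A) ≠ 0)
    (h : n • P = 0) : τ • (σ • P - P) = σ • P - P :=
  H13.smul_smul_sub_eq hN hE hσ hτ hn h

/-- **Inertia moves radicals**: some element of some inertia group above `q` moves some `p`-th root of `q`
(`p ≥ 2`). Otherwise the splitting field of `X ^ p - q` would be unramified at `q`, but `q` is a `p`-th power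
in it. Module `H13Tame`.
Closures: S01, S03, S43, S45. -/
theorem inertia_moves_root {q p : ℕ} (hq : q.Prime) (hp : 2 ≤ p) :
    ¬ ∀ A : ValuationSubring (AlgebraicClosure ℚ), A.LiesOverPrime q →
      ∀ σ ∈ A.inertiaSubgroupIn ℚ, ∀ π : AlgebraicClosure ℚ, π ^ p = q → σ π = π :=
  fun h => H13.not_forall_inertia_fix hq hp h

/-! ## 4. Torsion of an elliptic curve over `ℚ` at a multiplicative prime -/

/-- **Inertia is unipotent** (EC6): `(σ - 1)² = 0` on `W[n]` for `σ` in the inertia group of a place above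
a multiplicative prime `q ∤ n`. Module `H13EC6`.
Closures: S01, S03, S04, S06, S38, S43, S45, S46, S50, S58-S60. -/
theorem inertia_unipotent {W : WeierstrassCurve ℤ} {q n : ℕ} (hq : q.Prime)
    (hbad : (q : ℤ) ∣ W.Δ) (hΔ : W.Δ ≠ 0) (hc : ¬ (q : ℤ) ∣ W.c₄) (hqn : ¬ q ∣ n)
    (A : ValuationSubring (AlgebraicClosure ℚ)) (hA : A.LiesOverPrime q)
    (σ : AlgebraicClosure ℚ ≃ₐ[ℚ] AlgebraicClosure ℚ) (hσ : σ ∈ A.inertiaSubgroupIn ℚ)
    (x : Submodule.torsionBy ℤ ((W.map (Int.castRingHom ℚ))⁄(AlgebraicClosure ℚ)).Point (n : ℤ)) :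
    σ • (σ • x - x) = σ • x - x :=
  H13.unipotent_of_multiplicative hq hbad hΔ hc hqn A hA σ hσ x

/-- **Ramification criterion** (EC7): for a multiplicative prime `q ≠ p`, `W[p]` is unramified at `q` if and
only if `p ∣ ord_q(Δ)`. If `p ∣ ord_q(Δ)`, the component of a `p`-torsion point `P` is an integral power of
`|q|`, and `sub_reduces_zero` gives `σ P = P`. Otherwise there is a `p`-torsion point near the node, its
component is `|q| ^ (j / p)` with `p ∤ j`, and if the inertia groups fixed such points they would fix the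
`p`-th roots of `q`, against `inertia_moves_root`. Module `H13EC7`.
Closures: S01, S03, S43, S45. -/
theorem unramified_iff {W : WeierstrassCurve ℤ} {q p : ℕ} (hq : q.Prime) (hp : p.Prime)
    (hbad : (q : ℤ) ∣ W.Δ) (hΔ : W.Δ ≠ 0) (hc : ¬ (q : ℤ) ∣ W.c₄) (hqp : q ≠ p) :
    (∀ A : ValuationSubring (AlgebraicClosure ℚ), A.LiesOverPrime q →
      ∀ σ ∈ A.inertiaSubgroupIn ℚ, ∀ P : Submodule.torsionBy ℤ
        ((W.map (Int.castRingHom ℚ))⁄(AlgebraicClosure ℚ)).Point (p : ℤ), σ • P = P) ↔
      p ∣ padicValInt q W.Δ :=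
  H13.unramified_iff hq hp hbad hΔ hc hqp

/-- **The canonical subgroup in residue characteristic `p`** (EC8): let `p` be multiplicative and `A` a
place above `p`. There is a `p`-divisible group `D` of points (in the proof: the kernel of reduction) with
`0 ≠ D[p] ≠ W[p]`, stable under the decomposition group, which acts on `W[p^∞]` modulo `D` by a sign, and the
inertia group acts trivially on this quotient. Module `H13EC8`.
Closures: S01, S03, S04, S06, S38, S45, S46, S50, S59, S60. -/
theorem exists_divisible_subgroup {W : WeierstrassCurve ℤ} {p : ℕ} (hp : p.Prime)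
    (hbad : (p : ℤ) ∣ W.Δ) (hΔ : W.Δ ≠ 0) (hc : ¬ (p : ℤ) ∣ W.c₄)
    (A : ValuationSubring (AlgebraicClosure ℚ)) (hA : A.LiesOverPrime p) :
    ∃ D : AddSubgroup ((W.map (Int.castRingHom ℚ))⁄(AlgebraicClosure ℚ)).Point,
      (∀ x ∈ D, ∃ y ∈ D, p • y = x) ∧ (∃ x ∈ D, x ≠ 0 ∧ p • x = 0) ∧
      (∃ y, p • y = 0 ∧ y ∉ D) ∧
      (∀ σ ∈ A.decompositionSubgroup ℚ, (∀ x ∈ D, σ • x ∈ D) ∧
        ((∀ (n : ℕ) x, p ^ n • x = 0 → σ • x - x ∈ D) ∨
          (∀ (n : ℕ) x, p ^ n • x = 0 → σ • x + x ∈ D))) ∧
      (∀ σ ∈ A.inertiaSubgroupIn ℚ, ∀ (n : ℕ) x, p ^ n • x = 0 → σ • x - x ∈ D) :=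
  H13.exists_divisible_subgroup hp hbad hΔ hc A hA

/-- **The Tate module is strictly ordinary at a multiplicative prime** (EC8): the limit of the previous
theorem over the `p ^ n`-torsion (`H87Ord`). Module `H13EC8`.
Closures: S01, S03, S04, S06, S38, S45, S46, S50, S59, S60. -/
theorem tate_isStrictOrdinaryAt {W : WeierstrassCurve ℤ} {p : ℕ} [Fact p.Prime]
    (hbad : (p : ℤ) ∣ W.Δ) (hΔ : W.Δ ≠ 0) (hc : ¬ (p : ℤ) ∣ W.c₄) :
    (H87.Tate.tate (W.map (Int.castRingHom ℚ)) (H87.EC.map_int_Δ_ne_zero hΔ)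
      p).IsStrictOrdinaryAt p :=
  H13.isStrictOrdinaryAt_tate hbad hΔ hc

end Fermat.Agent.Guide.Node
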