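import Fermat.Agent.H31EqL
import Fermat.Agent.H31Kum2

/-!
# Guide: the node analysis, step by step

(helper31; library files by helper31, with constructions of helper40, helper45 and helper97; read
by helper13, helper27, helper32, helper73 and helper97)

Companion of `GuideLevelsS44` (sections 4 and 5, where the results are stated:
`orders_at_nodes_congruent_tame`, `orders_at_nodes_congruent_wild`), of `GuideTwoSheets` (the
semistable model of `X_0(mq)` at `q`, which this file takes for granted), of `GuideLevelsMazur`
and of `GuideNodeParameters` (the parameters at the double points).  NOTES.md: Section 3.5,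
[89] NOTES-RIBET-S44-helper31, [114] NOTES-RIBET-S44.

**The aim.**  `u` is a function on `X_0(mp)` whose divisor is divisible by `p` (a Kummer function
of a `p`-torsion point of `J_0(mp)`), of absolute value `1` on the first component of the fibre at
`p`, and invariant under a subgroup `H` of an inertia group at `p`.  One wants to know the orders
of the reduction of `u` at the double points (nodes) modulo `p`.  In the literature this is done
with the component group and the toric part of the Néron model of the jacobian.  Here it is done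
with functions on the residue classes of the model:

* the residue class of a smooth point of the fibre is an open disc, the class of a double point is
  the annulus `|p| < |z| < 1` (sections 2 and 5);
* on a class, the divisor of `u` is `p` times the divisor of a function `g` which is again
  invariant under `H`: the product of the functions `t - t(P)`, where `t` is a parameter invariant
  under all of inertia, over the points `P` of the divisor (section 3);
* a function without zeros and poles on the annulus, whose reduction on the first component has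
  order `0` at the double point, has the same absolute value on the two components
  (`units_of_an_annulus`).  Applied to `u / (z^m g^p)`, `m` the order of the reduction of `u`, this
  gives `|u| = |p|^m |A|^p` on the second component, `A` an `H`-invariant constant (`slope`).  The
  left side does not depend on the double point: if the `H`-invariant constants have values in
  `|p|^ℤ`, all the `m` are congruent modulo `p` (`slope_congruence`);
* if `u` is congruent to `1` to a high order on the components, the generators `g` can be chosen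
  congruent to `1` to about `1/p` of this order (section 4).  This is used in the wild case of the
  node analysis (condition `HasGenOne`) and in the proof that the classes with trivial reduction
  are cyclotomic (`GuideLevelsS44.splitting`).

Sections 5 and 6 construct the data for `X_0(mq)`: the group acts trivially on the special fibre,
every regular function on the special fibre has an invariant regular lift, every invariant
function has the absolute value of an invariant constant, and at the double points one has the
parameter `X(t) - X(t^q)^q`.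

**Closures.**  S01, S03, S39, S40, S43, S44, S45 (section 4, `lifts_iff`,
`invariant_functions_are_discrete`, `unit_on_smooth_class`, `unit_on_node_class`); S39, S40
(section 7); the rest also S04, S06, S38, S46, S50, S59, S60, through Mazur's principle at a prime
`q` different from the prime of the torsion (`slope_congruence` is used only there, so not in S39,
S40, S44).

**Conventions.**  As in `GuideLevelsS44`: `F` is a function field over the algebraically closed
field `K` with a valuation, `Fb` a function field over the residue field `k`; `D.M` is the model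
(`H97.Model`), with valuations `D.M.v i` and reduction maps `D.M.ρ i` of the two components
`i = false, true`, valuation `D.M.vK` and reduction `D.M.res` of the constants, and specialisation
map `D.M.sp` from the places of `F` to the points of the fibre: `Sum.inl (i, x)` is the place `x`
of `Fb` on the component `i`, `Sum.inr n` the double point `n`; `D.M.br n` are the two branches at
`n`, that is the pairs `(i, D.pt i n)`.  Absolute values are written multiplicatively.
-/

set_option autoImplicit false
set_option linter.unusedSectionVars false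
set_option linter.style.haveILetI false

noncomputable section

open AlgebraicCurve ModularCurve IntermediateField WithZero
open Fermat.Agent Fermat.Agent.H97 Fermat.Agent.H34.Two Fermat.Agent.H31.In Fermat.Agent.H31

namespace Fermat.Agent.Guide.NodeAnalysis

/-! ## 1. Two components with a group action -/

section Abstract

variable {K F k Fb Γ ν G : Type*} [Field K] [Field F] [Algebra K F] [Field k] [Field Fb]
  [Algebra k Fb] [LinearOrderedCommGroupWithZero Γ] [Group G] [MulSemiringAction G K]
  [MulSemiringAction G F] {p : ℕ}

/-- **The rules of the group action** (structures `MP.PreData` and `MP.Data`; `H31MPParams`,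
`H31MPBase`).  `G` acts semilinearly; it preserves the valuations of the two components and acts
trivially on the reductions; it moves the places of `F` inside their residue classes; an
`H`-invariant function has, on each component, the absolute value of an `H`-invariant constant;
every element of the residue field has a `G`-invariant representative. -/
theorem action_rules (D : MP.PreData K F k Fb Γ ν G p) :
    (∀ (σ : G) (c : K), σ • algebraMap K F c = algebraMap K F (σ • c)) ∧
      (∀ i (σ : G) f, D.M.v i (σ • f) = D.M.v i f) ∧
      (∀ i (σ : G) f, D.M.v i f ≤ 1 → D.M.ρ i (σ • f) = D.M.ρ i f) ∧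
      (∀ (σ : G) P, ∃ P', D.M.sp P' = D.M.sp P ∧ ∀ f, P.ord (σ • f) = P'.ord f) ∧
      (∀ (H : Subgroup G) i (f : F), (∀ σ ∈ H, σ • f = f) → f ≠ 0 →
        ∃ c : K, c ≠ 0 ∧ (∀ σ ∈ H, σ • c = c) ∧ D.M.v i f = D.M.vK c) ∧
      ∀ e : k, ∃ c : K, (∀ σ ∈ (⊤ : Subgroup G), σ • c = c) ∧ D.M.vK c ≤ 1 ∧ D.M.res c = e :=
  ⟨D.smul_alg, D.v_smul, D.ρ_smul, D.place, D.scale, D.res_lift⟩

/-- **The parameters** (`MP.PreData`, `H31MPParams`).  At a smooth point `x` of the component `x.1`
there is a `G`-invariant function `t`, of absolute value `1` on this component, regular on the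
residue class of `x`, whose reduction has order `1` at `x`.  At a double point `n` there is a
`G`-invariant function `z`, without zeros and poles on the residue class, of absolute value `1` on
the first component, where its reduction has order `1` at `n`, and of absolute value `|p|` on the
second component. -/
theorem parameters (D : MP.PreData K F k Fb Γ ν G p) :
    (∀ x : Bool × Place k Fb, (∀ n, x ∉ D.M.br n) → (∀ σ ∈ (⊤ : Subgroup G), σ • D.t x = D.t x) ∧
      D.M.v x.1 (D.t x) = 1 ∧ (∀ P, D.M.sp P = Sum.inl x → P.adicValuation (D.t x) ≤ 1) ∧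
      x.2.ord (D.M.ρ x.1 (D.t x)) = 1) ∧
    ∀ n, (∀ σ ∈ (⊤ : Subgroup G), σ • D.z n = D.z n) ∧
      (∀ P, D.M.sp P = Sum.inr n → P.ord (D.z n) = 0) ∧ D.M.v false (D.z n) = 1 ∧
      (D.pt false n).ord (D.M.ρ false (D.z n)) = 1 ∧ D.M.v true (D.z n) = D.M.vK p :=
  ⟨fun x hx => ⟨D.t_fix x, D.t_v x hx, D.t_reg x hx, D.t_ord x hx⟩,
    fun n => ⟨D.z_fix n, D.z_unit n, D.z_false n, D.z_ord n, D.z_true n⟩⟩

/-- **Invariant lifts** (`MP.Data.Lifts` unfolded, `H31MPBase`): a function on a component which is
regular at a smooth point is the reduction of a `G`-invariant function which is regular on the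
residue class; the same at a double point for two functions, one on each component, which take the
same value `c` there. -/
theorem lifts_iff (D : MP.Data K F k Fb Γ ν G p) :
    D.Lifts ↔
      (∀ x : Bool × Place k Fb, (∀ n, x ∉ D.M.br n) → ∀ a : Fb, x.2.adicValuation a ≤ 1 →
        ∃ b : F, (∀ σ ∈ (⊤ : Subgroup G), σ • b = b) ∧ D.M.v x.1 b ≤ 1 ∧
          (∀ P, D.M.sp P = Sum.inl x → P.adicValuation b ≤ 1) ∧ D.M.ρ x.1 b = a) ∧
      ∀ n (a : Bool → Fb) (c : k),
        (∀ i, (D.pt i n).adicValuation (a i - algebraMap k Fb c) < 1) →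
          ∃ b : F, (∀ σ ∈ (⊤ : Subgroup G), σ • b = b) ∧ (∀ i, D.M.v i b ≤ 1) ∧
            (∀ P, D.M.sp P = Sum.inr n → P.adicValuation b ≤ 1) ∧ ∀ i, D.M.ρ i b = a i :=
  ⟨fun h => ⟨h.lift_smooth, h.lift_node⟩, fun h => ⟨h.1, h.2⟩⟩

/-- **Values of invariant functions** (`H31MPGen`).  If the `H`-invariant constants are discretely
valued with uniformiser `ϖ` (`D.Disc H ϖ`), an `H`-invariant function of absolute value smaller
than `|ϖ|^m` on a component has absolute value at most `|ϖ|^(m+1)` on this component. -/
theorem invariant_functions_are_discrete (D : MP.Data K F k Fb Γ ν G p) {H : Subgroup G} {ϖ : K}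
    (hd : D.Disc H ϖ) {i : Bool} {f : F} (hf : ∀ σ ∈ H, σ • f = f) {m : ℕ}
    (hlt : D.M.v i f < D.M.vK ϖ ^ m) : D.M.v i f ≤ D.M.vK ϖ ^ (m + 1) :=
  hd.le_pow_succ hf hlt

/-! ## 2. Residue classes -/

variable [IsAlgClosed K] [H3RR.IsFF K F] [IsAlgClosed k] [H3RR.IsFF k Fb]

/-- **The class of a smooth point is a disc** (`H31MPParams`).  Let `Q` be a place in the class of
the smooth point `x`, with parameter `t`.  There is a constant `a`, `|a| < 1`, the value of `t` at
`Q`, such that on the class `t - a` vanishes exactly at `Q`, to the first order.  (If the value of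
`t` at `Q` is `a`, the reduction of `t - a` has order `1` at `x`, and this is the number of zeros
minus the number of poles on the class.) -/
theorem smooth_class_is_disc (D : MP.PreData K F k Fb Γ ν G p) {x : Bool × Place k Fb}
    (hx : ∀ n, x ∉ D.M.br n) {Q : Place K F} (hQ : D.M.sp Q = Sum.inl x) :
    ∃ a : K, D.M.vK a < 1 ∧ 0 < Q.ord (D.t x - algebraMap K F a) ∧
      ∀ P', D.M.sp P' = Sum.inl x → P'.ord (D.t x - algebraMap K F a) =
        (Finsupp.single Q (1 : ℤ) : Divisor K F) P' :=
  D.t_sub hx hQ

/-- **Units at a smooth point** (`H31MPBase`): a function which is regular on the class of a smooth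
point, of absolute value `1`, with reduction of order `0` at the point, has no zeros on the
class. -/
theorem unit_on_smooth_class (D : MP.Data K F k Fb Γ ν G p) {x : Bool × Place k Fb}
    (hx : ∀ n, x ∉ D.M.br n) {b : F} (hb : D.M.v x.1 b = 1)
    (hreg : ∀ P, D.M.sp P = Sum.inl x → P.adicValuation b ≤ 1)
    (hord : x.2.ord (D.M.ρ x.1 b) = 0) : ∀ P, D.M.sp P = Sum.inl x → P.ord b = 0 :=
  D.unit_smooth hx hb hreg hord

/-- **Units at a double point** (`H31MPBase`): the same at a double point; the number of zeros minus
the number of poles on the class is the sum of the orders of the two reductions. -/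
theorem unit_on_node_class (D : MP.Data K F k Fb Γ ν G p) {n : ν} {b : F}
    (hb : ∀ i, D.M.v i b = 1) (hreg : ∀ P, D.M.sp P = Sum.inr n → P.adicValuation b ≤ 1)
    (hord : ∀ i, (D.pt i n).ord (D.M.ρ i b) = 0) : ∀ P, D.M.sp P = Sum.inr n → P.ord b = 0 :=
  D.unit_node hb hreg hord

/-- **The units of an annulus** (`H31MPBase`).  Let `h` be a function without zeros and poles on the
class of the double point `n`, of absolute value `1` on the first component, where its reduction
has order `0` at `n`.  Then `h` also has absolute value `1` on the second component, and the two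
reductions have the same value `c ≠ 0` at `n`.  Proof: if `|h| ≤ 1` on the second component, `h` is
integral on the class, so it has a value at `n`, which is not zero by the first component.
Otherwise apply this to `1/h`. -/
theorem units_of_an_annulus (D : MP.Data K F k Fb Γ ν G p) {n : ν} {h : F} (h0 : h ≠ 0)
    (hord : ∀ P, D.M.sp P = Sum.inr n → P.ord h = 0) (hf : D.M.v false h = 1)
    (hz : (D.pt false n).ord (D.M.ρ false h) = 0) :
    D.M.v true h = 1 ∧ ∃ c : k, c ≠ 0 ∧
      ∀ i, (D.pt i n).adicValuation (D.M.ρ i h - algebraMap k Fb c) < 1 :=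
  D.AN h0 hord hf hz

/-! ## 3. Invariant generators and slopes -/

/-- **The coordinate of a place** (`H31MPParams`).  `D.par a` is the parameter of the class `a` (`t`
or `z`), `D.val P` the value at `P` of the parameter of its class, and `D.tr σ P` the transform of
`P` under `σ`; the coordinate is equivariant, because the parameter is invariant. -/
theorem coordinate (D : MP.PreData K F k Fb Γ ν G p) (σ : G) (P : Place K F) :
    0 < P.ord (D.par (D.M.sp P) - algebraMap K F (D.val P)) ∧
      (∀ P', D.M.sp P' = D.M.sp P → P'.ord (D.par (D.M.sp P) - algebraMap K F (D.val P)) =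
        (Finsupp.single P (1 : ℤ) : Divisor K F) P') ∧
      (∀ f : F, P.ord (σ • f) = (D.tr σ P).ord f) ∧ D.M.sp (D.tr σ P) = D.M.sp P ∧
      σ • D.val (D.tr σ P) = D.val P :=
  ⟨D.par_sub_ord P, fun _ h => D.par_sub_ord' h, D.ord_tr σ P, D.sp_tr σ P, D.val_tr σ P⟩

/-- **Invariant generators** (`H31MPParams`).  Let `f ≠ 0` be invariant under the subgroup `H` and
all its orders divisible by `d`.  On every residue class `a` the divisor of `f` is `d` times the
divisor of an `H`-invariant function, namely of the product of the `(t - t(P))^(ord_P f / d)`, `P`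
in the class.  (It is invariant because `H` permutes the factors.) -/
theorem exists_invariant_generator (D : MP.PreData K F k Fb Γ ν G p) {d : ℕ} (hd : d ≠ 0)
    (H : Subgroup G) {f : F} (hf0 : f ≠ 0) (hf : ∀ σ ∈ H, σ • f = f)
    (hdiv : ∀ P : Place K F, (d : ℤ) ∣ P.ord f) (a : (Bool × Place k Fb) ⊕ ν) :
    ∃ (S : Finset (Place K F)) (g : F), (∀ P ∈ S, D.M.sp P = a) ∧
      g = ∏ P ∈ S, (D.par (D.M.sp P) - algebraMap K F (D.val P)) ^ (P.ord f / d) ∧
      (∀ σ ∈ H, σ • g = g) ∧ ∀ P, D.M.sp P = a → P.ord f = d * P.ord g :=
  let ⟨S, h1, h2, h3, _⟩ := D.exists_gen hd H f hf0 hf hdiv a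
  ⟨S, _, h1, rfl, h2, h3⟩

/-- **Normalised generators at a double point** (`H31MPNode`): the generator can be chosen of
absolute value `1` on the first component and with reduction of any given order `j` at `n`
(divide by an invariant constant and multiply by a power of `z`). -/
theorem normalised_generator (D : MP.Data K F k Fb Γ ν G p) {e : ℕ} (he : e ≠ 0)
    {H : Subgroup G} {u : F} (hu : ∀ σ ∈ H, σ • u = u) (hu0 : u ≠ 0)
    (hdiv : ∀ P : Place K F, (e : ℤ) ∣ P.ord u) (n : ν) (j : ℤ) :
    ∃ g : F, g ≠ 0 ∧ (∀ σ ∈ H, σ • g = g) ∧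
      (∀ P, D.M.sp P = Sum.inr n → P.ord u = e * P.ord g) ∧
      D.M.v false g = 1 ∧ (D.pt false n).ord (D.M.ρ false g) = j :=
  D.gen_node_norm he hu hu0 hdiv n j

/-- **Comparison of the two sides** (`H31MPNode`): let `u`, `g` have absolute value `1` on the first
component.  If the divisor of `u` on the class of `n` is `e` times that of `g`, and the order of the
reduction of `u` at `n` on the first component is `e` times that of `g`, then `|u| = |g|^e` on the
second component.  (`units_of_an_annulus` for `u / g^e`.) -/
theorem compare_two_sides (D : MP.Data K F k Fb Γ ν G p) {e : ℕ} {n : ν} {u g : F}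
    (hu0 : u ≠ 0) (hg0 : g ≠ 0)
    (hgord : ∀ P, D.M.sp P = Sum.inr n → P.ord u = e * P.ord g) (hvu : D.M.v false u = 1)
    (hvg : D.M.v false g = 1)
    (hord : (D.pt false n).ord (D.M.ρ false u) = e * (D.pt false n).ord (D.M.ρ false g)) :
    D.M.v true u = D.M.v true g ^ e :=
  D.node_compare hu0 hg0 hgord hvu hvg hord

/-- **The slope at a double point** (`H31MPNode`).  Let `u` be `H`-invariant with divisor divisible
by `e`, of absolute value `1` on the first component, and `m` the order of its reduction at the
double point `n`.  Then on the second component `|u| = |p|^m |A|^e` with an `H`-invariant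
constant `A`. -/
theorem slope (D : MP.Data K F k Fb Γ ν G p) {e : ℕ} (he : e ≠ 0) {H : Subgroup G} {u : F}
    (hu : ∀ σ ∈ H, σ • u = u) (hu0 : u ≠ 0) (hdiv : ∀ P : Place K F, (e : ℤ) ∣ P.ord u)
    (hvu : D.M.v false u = 1) (n : ν) :
    ∃ (g : F) (A : K), g ≠ 0 ∧ A ≠ 0 ∧ (∀ σ ∈ H, σ • g = g) ∧ (∀ σ ∈ H, σ • A = A) ∧
      (∀ P, D.M.sp P = Sum.inr n → P.ord u = e * P.ord g) ∧ D.M.v false g = 1 ∧
      D.M.v true g = D.M.vK A ∧
      D.M.v true u = D.M.vK (p : K) ^ ((D.pt false n).ord (D.M.ρ false u)) * D.M.vK A ^ e :=
  D.slope_node he hu hu0 hdiv hvu n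

/-- **The slope congruence** (`H31MPNode`).  If moreover the values of the `H`-invariant constants
are powers of `|p|`, and `|u| = |p|^n` on the second component, then the orders of the reduction of
`u` at all double points are congruent to `n` modulo `e`.  (Used for a prime `e` different from the
residue characteristic `p`: Mazur's principle.  For `e = p` one compares two double points, without
`n`: this is `GuideLevelsS44.orders_at_nodes_congruent_tame`.) -/
theorem slope_congruence (D : MP.Data K F k Fb Γ ν G p) {e : ℕ} (he : e ≠ 0)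
    {H : Subgroup G} {u : F} (hu : ∀ σ ∈ H, σ • u = u) (hu0 : u ≠ 0)
    (hdiv : ∀ P : Place K F, (e : ℤ) ∣ P.ord u) (hvu : D.M.v false u = 1)
    (hH : ∀ c : K, c ≠ 0 → (∀ σ ∈ H, σ • c = c) → ∃ m : ℤ, D.M.vK c = D.M.vK (p : K) ^ m)
    (hp0 : (p : K) ≠ 0) (hp1 : D.M.vK (p : K) < 1) {n : ℤ}
    (hn : D.M.v true u = D.M.vK (p : K) ^ n) (s : ν) :
    (e : ℤ) ∣ (D.pt false s).ord (D.M.ρ false u) - n :=
  D.slope_congr he hu hu0 hdiv hvu hH hp0 hp1 hn s

/-! ## 4. Generators congruent to `1`

`D.Disc H ϖ`: the `H`-invariant constants are discretely valued with uniformiser `ϖ`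
(`GuideLevelsS44.disc_iff`); `|p| = |ϖ|^((p-1) d)`, so that `|ϖ|^d` is the value of `ζ - 1` for a
primitive `p`-th root of unity `ζ`. -/

variable [Fact p.Prime] [CharP k p] [CharP Fb p]

/-- **Expansion of `u / g^p`** (`H31MPGen`).  Let `u ≡ 1` modulo `ϖ^n`, `g = 1 + ϖ^m y` with `y`
integral, `1 ≤ m`, `p m < n ≤ p d`.  Then `(u / g^p - 1) / ϖ^(p m)` is integral with reduction
`-ȳ^p`.  (In `(1 + ϖ^m y)^p` the terms between the first and the last are smaller than `|ϖ|^(p m)`,
because `m < d`.) -/
theorem expansion_of_quotient (D : MP.Data K F k Fb Γ ν G p) {H : Subgroup G} {ϖ : K}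
    (hd : D.Disc H ϖ) {d : ℕ} (he : D.M.vK (p : K) = D.M.vK ϖ ^ ((p - 1) * d)) {i : Bool}
    {u g : F} {n m : ℕ} (hm1 : 1 ≤ m) (hmn : p * m < n) (hn : n ≤ p * d)
    (hu : D.M.v i (u - 1) ≤ D.M.vK ϖ ^ n) (hg : D.M.v i (g - 1) ≤ D.M.vK ϖ ^ m) :
    D.M.v i ((u / g ^ p - 1) / algebraMap K F (ϖ ^ (p * m))) ≤ 1 ∧
      D.M.ρ i ((u / g ^ p - 1) / algebraMap K F (ϖ ^ (p * m))) =
        -(D.M.ρ i ((g - 1) / algebraMap K F (ϖ ^ m))) ^ p :=
  D.pow_step hd he hm1 hmn hn hu hg

/-- **Improving a generator** (`H31MPGen`): if `g ≡ 1` modulo `ϖ^m` and `b` is an `H`-invariant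
integral function with the same reduction as `(g - 1) / ϖ^m`, then `g / (1 + ϖ^m b) ≡ 1` modulo
`ϖ^(m+1)`. -/
theorem improve_generator (D : MP.Data K F k Fb Γ ν G p) {H : Subgroup G} {ϖ : K}
    (hd : D.Disc H ϖ) {i : Bool} {g b : F} {m : ℕ} (hgf : ∀ σ ∈ H, σ • g = g)
    (hbf : ∀ σ ∈ H, σ • b = b) (hm1 : 1 ≤ m) (hg : D.M.v i (g - 1) ≤ D.M.vK ϖ ^ m)
    (hb : D.M.v i b ≤ 1) (hρ : D.M.ρ i b = D.M.ρ i ((g - 1) / algebraMap K F (ϖ ^ m))) :
    D.M.v i (1 + algebraMap K F (ϖ ^ m) * b) = 1 ∧
      D.M.ρ i (1 + algebraMap K F (ϖ ^ m) * b) = 1 ∧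
      D.M.v i (g / (1 + algebraMap K F (ϖ ^ m) * b) - 1) ≤ D.M.vK ϖ ^ (m + 1) :=
  D.improve hd hgf hbf hm1 hg hb hρ

/-- **Generators congruent to `1` at smooth points** (`H31MPGen`).  Let `u` be `H`-invariant with
divisor divisible by `p`, and `u ≡ 1` modulo `ϖ^n` on the component of the smooth point `x`,
`n ≤ p d`.  For every `m` with `p m < n` there is an `H`-invariant generator `g ≡ 1` modulo
`ϖ^(m+1)` of the divisor of `u` on the class of `x`.  Proof by induction on `m`.  For `m = 0` divide
a normalised generator by an invariant lift of its reduction.  For the step: `u / g^p` has no zeros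
and poles on the class, so the function of `expansion_of_quotient` is regular on it; hence `ȳ^p`
and `ȳ` are regular at `x`; lift `ȳ` to an invariant regular function `b` and use
`improve_generator`; the factor `1 + ϖ^m b` has no zeros on the class. -/
theorem generator_at_smooth_point (D : MP.Data K F k Fb Γ ν G p) (L : D.Lifts)
    {H : Subgroup G} {ϖ : K} (hd : D.Disc H ϖ) {d : ℕ}
    (he : D.M.vK (p : K) = D.M.vK ϖ ^ ((p - 1) * d)) {x : Bool × Place k Fb}
    (hx : ∀ n, x ∉ D.M.br n) {u : F} (hu : ∀ σ ∈ H, σ • u = u) (hu0 : u ≠ 0)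
    (hdiv : ∀ P : Place K F, (p : ℤ) ∣ P.ord u) {n : ℕ} (hn1 : 1 ≤ n) (hn : n ≤ p * d)
    (hun : D.M.v x.1 (u - 1) ≤ D.M.vK ϖ ^ n) (m : ℕ) (hm : p * m < n) :
    ∃ g : F, g ≠ 0 ∧ (∀ σ ∈ H, σ • g = g) ∧
      (∀ P, D.M.sp P = Sum.inl x → P.ord u = p * P.ord g) ∧
      D.M.v x.1 (g - 1) ≤ D.M.vK ϖ ^ (m + 1) :=
  D.gen_smooth L hd he hx hu hu0 hdiv hn1 hn hun m hm

/-- **Generators congruent to `1` at double points** (`H31MPNode`): the same at a double point,
where the generator is congruent to `1` on both components.  (The function of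
`expansion_of_quotient` is regular on the class and integral on both components, so the two `ȳ^p`
have the same value at the double point; hence the two `ȳ` have the same value, and the pair can
be lifted.) -/
theorem generator_at_double_point (D : MP.Data K F k Fb Γ ν G p) (L : D.Lifts)
    {H : Subgroup G} {ϖ : K} (hd : D.Disc H ϖ) {d : ℕ}
    (he : D.M.vK (p : K) = D.M.vK ϖ ^ ((p - 1) * d)) (s : ν) {u : F}
    (hu : ∀ σ ∈ H, σ • u = u) (hu0 : u ≠ 0) (hdiv : ∀ P : Place K F, (p : ℤ) ∣ P.ord u) {n : ℕ}
    (hn1 : 1 ≤ n) (hn : n ≤ p * d) (hun : ∀ i, D.M.v i (u - 1) ≤ D.M.vK ϖ ^ n) (m : ℕ)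
    (hm : p * m < n) :
    ∃ g : F, g ≠ 0 ∧ (∀ σ ∈ H, σ • g = g) ∧
      (∀ P, D.M.sp P = Sum.inr s → P.ord u = p * P.ord g) ∧
      ∀ i, D.M.v i (g - 1) ≤ D.M.vK ϖ ^ (m + 1) :=
  D.gen_node L hd he s hu hu0 hdiv hn1 hn hun m hm

end Abstract

/-! ## 5. Two sheets with a group action

`S : Sheets K F₀ F k κ Γ q` is the two-sheeted model of `GuideTwoSheets`: `F₀ ⊂ F` (through `S.φ`)
are the function fields of `X_0(m)`, `X_0(mq)`, `κ` is the function field of `X_0(m)` in
characteristic `q`, `S.v₀`, `S.ρ₀` and `S.r` are the valuation, the reduction of functions and the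
reduction of places at the good level, `S.red P` is the reduction of the place below `P`, `S.tw`
the Frobenius twist of the places of `κ`, `S.InR x` the ring of the functions which are integral
on both components and regular over `x`; `S.On i P` (`H97.Sheets.On`) says that the place `P` of
`F` specialises to the component `i`. -/

section TwoSheets

variable {K F₀ F k κ Γ : Type*} [Field K] [Field F₀] [Field F] [Algebra K F₀] [Algebra K F]
  [Field k] [Field κ] [Algebra k κ] [LinearOrderedCommGroupWithZero Γ] {q : ℕ}
  {S : Sheets K F₀ F k κ Γ q}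
  [IsAlgClosed K] [CharZero K] [H3RR.IsFF K F₀] [H3RR.IsFF K F]
  [IsAlgClosed k] [H3RR.IsFF k κ] [H94.FunField K F₀] [H94.FunField K F]
  {G : Type*} [Group G] [MulSemiringAction G K] [MulSemiringAction G F₀]
  [MulSemiringAction G F] {W : F ≃ₐ[K] F} {P₀ : Place K F₀}

/-- **The compatibilities** (`Eq.Equi S G W P₀`, `H31Eq2`).  `G` acts semilinearly on `F₀` and `F`,
compatibly with `S.φ` and with the involution `W`, which exchanges the two components; it
preserves the first valuation and acts trivially on the first reduction; it fixes the place `P₀`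
(the cusp `∞`); every function on the reduced curve with poles only at the reduction of `P₀`, of
large order, has a `G`-invariant integral lift with poles only at `P₀`; the places of `F` which
`W` moves above `P₀` specialise above the reduction of `P₀`.  (The structure also contains that
`G` acts semilinearly, that it acts on the places of `F`, and for the first component the last
two rules of `action_rules`.) -/
theorem equi_rules (E : Eq.Equi S G W P₀) :
    (∀ (σ : G) (b : F₀), σ • S.φ b = S.φ (σ • b)) ∧ (∀ (σ : G) (f : F), σ • W f = W (σ • f)) ∧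
      (∀ (σ : G) (f : F), S.v false (σ • f) = S.v false f) ∧
      (∀ (σ : G) (f : F), S.v false f ≤ 1 → S.ρ false (σ • f) = S.ρ false f) ∧
      (∀ f, S.v true f = S.v false (W f)) ∧ (∀ f, S.ρ true f = S.ρ false (W f)) ∧
      (∀ f, W (W f) = f) ∧ (∀ (σ : G) (b : F₀), P₀.ord (σ • b) = P₀.ord b) ∧
      (∃ n₀ : ℤ, ∀ n : ℤ, n₀ < n → ∀ h : κ,
        h ∈ riemannRochSpace (Finsupp.single (S.r P₀) n : Divisor k κ) →
          ∃ b : F₀, (∀ σ ∈ (⊤ : Subgroup G), σ • b = b) ∧ S.v₀ b ≤ 1 ∧
            b ∈ riemannRochSpace (Finsupp.single P₀ n : Divisor K F₀) ∧ S.ρ₀ b = h) ∧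
      ∀ P : Place K F, (∀ b : F₀, b ∈ P₀.toValuationSubring ↔
        W (S.φ b) ∈ P.toValuationSubring) → S.red P = S.r P₀ :=
  ⟨E.φ_smul, E.W_smul, E.v_smul, E.ρ_smul, E.v_W, E.ρ_W, E.WW, E.ord_P₀, E.lift_inf, E.W_inf⟩

/-- **The reduction of places is invariant** (`H31Eq2`): if `Q'` is the transform of the place `Q` of
`F₀` under `σ`, they have the same reduction.  Proof: otherwise there is a function on the reduced
curve with poles only at the reduction of `P₀` which separates the two reductions; take an
invariant lift `b`; its values at `Q` and `Q'` are conjugate, and conjugate constants have the same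
reduction. -/
theorem reduction_invariant (E : Eq.Equi S G W P₀) {σ : G} {Q Q' : Place K F₀}
    (h : ∀ b : F₀, σ • b ∈ Q.toValuationSubring ↔ b ∈ Q'.toValuationSubring) :
    S.r Q' = S.r Q :=
  E.r_smul h

/-- **The specialisation map is invariant** (`H31Eq2`): if `P'` is the transform of the place `P` of
`F` under `σ`, both specialise to the same smooth point of the same component, or to the same
double point. -/
theorem specialisation_invariant (E : Eq.Equi S G W P₀) [Fact q.Prime] [CharP k q] {σ : G}
    {P P' : Place K F} (h : ∀ f : F, P.ord (σ • f) = P'.ord f) : S.sp P' = S.sp P :=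
  E.sp_smul h

/-- **Values near the cusp** (`H31Eq2`).  Let `b` be an integral function with poles only at `P₀`, of
order at most `n`, whose reduction has a pole of order exactly `n > 0`.  Then at the other places
`Q` which reduce to the same point as `P₀` the value of `b` is not integral.  (This replaces a
parameter at the cusp in the arguments with invariant lifts.) -/
theorem values_near_the_cusp {n : ℤ} (hn : 0 < n) {b : F₀} (hbv : S.v₀ b ≤ 1)
    (hb : b ∈ riemannRochSpace (Finsupp.single P₀ n : Divisor K F₀))
    (hord : (S.r P₀).ord (S.ρ₀ b) = -n) {Q : Place K F₀} (hQ : Q ≠ P₀) (hrQ : S.r Q = S.r P₀)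
    {c : K} (hc : Q.adicValuation (b - algebraMap K F₀ c) < 1) : 1 < S.vK c :=
  Eq.Equi.one_lt_val_inf hn hbv hb hord hQ hrQ hc

/-- **The involution and the reduction** (`H31Eq3`): if `P` is on the second component and
`P' = W P`, the point of the good curve below `P'` reduces to the Frobenius twist of the reduction
of the point below `P`. -/
theorem reduction_of_involution (E : Eq.Equi S G W P₀) [Fact q.Prime] [CharP k q]
    {P P' : Place K F} (h : ∀ f, P'.ord f = P.ord (W f)) (hP : S.On true P) :
    S.red P' = S.tw (S.red P) :=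
  E.red_W h hP

/-- **Invariant regular lifts at the good level** (`H31Eq3`): a function on the reduced curve which
is regular at `y` is the reduction of a `G`-invariant function which is regular at all places
reducing to `y`.  (Write it as a quotient of two functions with poles only at the cusp, see
`quotient_with_poles_at_infinity`, and lift both.) -/
theorem invariant_regular_lift (E : Eq.Equi S G W P₀) (y : Place k κ) {a : κ}
    (ha : y.adicValuation a ≤ 1) :
    ∃ b : F₀, (∀ σ ∈ (⊤ : Subgroup G), σ • b = b) ∧ S.v₀ b ≤ 1 ∧
      (∀ Q, S.r Q = y → Q.adicValuation b ≤ 1) ∧ S.ρ₀ b = a :=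
  E.exists_lift y ha

/-- **Parameters at smooth points** (`H31Eq3`).  For a point `x` of a component there is a
`G`-invariant function `t`, of absolute value `1` on the component, regular on the class of `x`,
whose reduction has order `1` at `x`.  (Lift a parameter of the reduced curve to the good level and
pull it back; on the second component apply `W`.) -/
theorem invariant_parameter (E : Eq.Equi S G W P₀) [Fact q.Prime] [CharP k q]
    (x : Bool × Place k κ) :
    ∃ t : F, (∀ σ ∈ (⊤ : Subgroup G), σ • t = t) ∧ S.v x.1 t = 1 ∧
      (∀ P, S.sp P = Sum.inl x → P.adicValuation t ≤ 1) ∧ x.2.ord (S.ρ x.1 t) = 1 :=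
  E.exists_param x

/-- **Parameters at a double point** (`Eq.NodePar S x z z' u`, `H31Eq1`): `z`, `z'`, `u`, `1/u` are
integral on both components and regular over `x`, `z z' = q u`, and `z`, `z'` reduce to local
parameters of the first, respectively of the second component. -/
theorem nodePar_iff (x : Place k κ) (z z' u : F) :
    Eq.NodePar S x z z' u ↔
      (S.InR x z ∧ S.InR x z' ∧ S.InR x u ∧ S.InR x u⁻¹) ∧ z * z' = q * u ∧
        S.v false z = 1 ∧ S.v true z' = 1 ∧ x.ord (S.ρ false z) = 1 ∧
        (S.tw x).ord (S.ρ true z') = 1 :=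
  ⟨fun h => ⟨⟨h.hz, h.hz', h.hu, h.hui⟩, h.mul, h.v_z, h.v_z', h.ord_z, h.ord_z'⟩,
    fun ⟨⟨h1, h2, h3, h4⟩, h5, h6, h7, h8, h9⟩ => ⟨h1, h2, h3, h4, h5, h6, h7, h8, h9⟩⟩

/-- **The class of a double point is an annulus** (`H31Eq1`).  For a place `P` over the double point
`x` the value `a` of `z` satisfies `|q| < |a| < 1`, and on the class `z - a` vanishes exactly at
`P`, to the first order.  Proof: `a`, and the value of `z' = q u / z`, have reduction `0`; this
gives the inequalities.  For the last claim the number of zeros of `z - a` on the class is computed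
on the two components; `hval` says that the values of `K` are rational powers of `|q|`. -/
theorem node_class_is_annulus [Fact q.Prime] [CharP k q] {x : Place k κ} {z z' u : F}
    (h : Eq.NodePar S x z z' u) (hx : S.Node x)
    (hval : ∀ a : K, a ≠ 0 → ∃ (l : ℕ) (m : ℤ), l ≠ 0 ∧ S.vK a ^ l = S.vK q ^ m)
    {P : Place K F} (hP : S.red P = x) :
    ∃ a : K, S.vK a < 1 ∧ S.vK q < S.vK a ∧ 0 < P.ord (z - algebraMap K F a) ∧
      ∀ P', S.red P' = x → P'.ord (z - algebraMap K F a) =
        (Finsupp.single P (1 : ℤ) : Divisor K F) P' :=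
  h.z_sub hx hval hP

/-- **The data of section 1 from two sheets** (`H31Eq3`): an equivariant two-sheeted model with
invariant parameters at the double points, and values which are rational powers of `|q|`, gives a
structure `MP.PreData` with the same model and the same parameters. -/
theorem exists_preData (E : Eq.Equi S G W P₀) [Fact q.Prime] [CharP k q]
    (z : {x : Place k κ // S.Node x} → F)
    (hz : ∀ n, ∀ σ ∈ (⊤ : Subgroup G), σ • z n = z n)
    (hpar : ∀ n : {x : Place k κ // S.Node x}, ∃ z' u, Eq.NodePar S n.1 (z n) z' u)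
    (htors : ∀ a : K, a ≠ 0 → ∃ (l : ℕ) (m : ℤ), l ≠ 0 ∧ S.vK a ^ l = S.vK q ^ m) :
    ∃ D : MP.PreData K F k κ Γ {x : Place k κ // S.Node x} G q,
      D.M = S.model ∧ (∀ i n, D.pt i n = S.pt i n.1) ∧ D.z = z :=
  ⟨E.preData z hz hpar htors, rfl, fun _ _ => rfl, rfl⟩

end TwoSheets

/-! ## 6. The modular curve

Notation.  `FF L N`, also `H99.FX L N`, is the function field of `X_0(N)` over `L`, a field of
`q`-expansions, and `H31.In.galAct` the action of the automorphisms of `L` on the coefficients of
the expansions.  `IsInf P₀`: `P₀` is the cusp `∞`, that is, the order at `P₀` is the order of the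
expansion.  `Arch A`: if `a` and `b ≠ 0` are in `A` and `a` is not a unit, `b` divides a power of
`a`.  `GaussInt π f`: `f` is a quotient of series with coefficients in `A`, the denominator with
nonzero reduction.  `Triv π G`: the group `G` preserves `A` and acts trivially on the residues, and
every element of `k` has a `G`-invariant representative; `EqI.TrivV π G`: moreover `G` preserves
the values (the first four statements of `inertia_rules`).  `H42.modReductionData` is the
reduction (`H40.ReductionData`) of the function field of `X_0(N)`; it exists if the degree over the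
`j`-line does not become smaller over `k` (`H42.DegLE`).  The hypotheses on `w`, with `w.W` the
Atkin-Lehner involution of `X_0(mq)` (`H99.AL`), and on the reduction of places `r`
(`hr1`, and `hr2` with `H34.GR.DivCompat`) are those of `GuideReduction.sheets_data`. -/

/-- **Pivots** (`H31Pivot`): linearly independent vectors have a nonvanishing minor with respect to
linear functionals without common kernel. -/
theorem exists_pivots {k W ι : Type*} [Field k] [AddCommGroup W] [Module k W] {n : ℕ}
    {e : Fin n → W} (he : LinearIndependent k e) {c : ι → (W →ₗ[k] k)}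
    (hc : ∀ w : W, (∀ i, c i w = 0) → w = 0) :
    ∃ m : Fin n → ι, (Matrix.of fun j i => c (m j) (e i)).det ≠ 0 :=
  Pivot.exists_pivots he hc

/-- **Invariant lifts** (`H31Pivot`).  `R` is a reduction of the function field `F / K` to `E / k`
(valuation ring `R.A` with residue map `R.π`, integral functions `R.B` with reduction `R.ρ`), `V` a
finite-dimensional `G`-stable space of functions, `c i` coefficient functionals compatible with
reduction and with `G` (coefficients of `q`-expansions).  If every element of `k` has a
`G`-invariant representative, every reduction `e` of an integral element of `V` is the reduction of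
a `G`-invariant one.  Proof: choose a basis of `V` with linearly independent reductions and pivots;
the element of `V` whose coefficients at the pivots are invariant representatives of those of `e`
is unique, and its reduction is `e`; so it is invariant. -/
theorem exists_invariant_lift {K F k E : Type*} [Field K] [Field F] [Algebra K F] [Field k]
    [Field E] [Algebra k E] (R : H40.ReductionData K F k E) {G : Type*} [Group G]
    [MulSemiringAction G K] [MulSemiringAction G F] (V : Submodule K F) [FiniteDimensional K V]
    (hGV : ∀ (σ : G), ∀ x ∈ V, σ • x ∈ V) {ι : Type*} (c : ι → (F →ₗ[K] K))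
    (cb : ι → (E →ₗ[k] k))
    (hcomp : ∀ i (x : R.B), (x : F) ∈ V → ∃ a : R.A, (a : K) = c i x ∧ R.π a = cb i (R.ρ x))
    (hsep : ∀ e : E, (∀ i, cb i e = 0) → e = 0)
    (hσ : ∀ i (σ : G) x, c i (σ • x) = σ • c i x)
    (hteich : ∀ e : k, ∃ a : R.A, R.π a = e ∧ ∀ σ : G, σ • (a : K) = a) {e : E}
    (he : e ∈ R.red V) :
    ∃ b : R.B, (b : F) ∈ V ∧ R.ρ b = e ∧ ∀ σ : G, σ • (b : F) = b :=
  Pivot.exists_fixed_lift R V hGV c cb hcomp hsep hσ hteich he

/-- **Quotients with poles at infinity** (`H31Lift`).  A function `a ≠ 0` on a curve which is regular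
at `x` is a quotient `a₁ / a₂` of functions with poles only at a given place `P`, with `a₂` of
order `0` at `x`, or with a pole of order `n` if `x = P` (`hE` is Riemann's theorem, `c` a bound
for the degrees). -/
theorem quotient_with_poles_at_infinity {k E : Type*} [Field k] [IsAlgClosed k] [Field E]
    [Algebra k E] [H3RR.IsFF k E] {g c : ℤ} (hE : H40.RiemannFor k E g c)
    (hdE : ∀ v : Place k E, v.deg = 1) (P x : Place k E) {a : E} (ha0 : a ≠ 0)
    (ha : 0 ≤ x.ord a) :
    ∃ (n n' : ℤ) (a₁ a₂ : E), c < n ∧ c < n' ∧ a₁ ≠ 0 ∧ a₂ ≠ 0 ∧ a₁ = a * a₂ ∧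
      a₁ ∈ riemannRochSpace (Finsupp.single P n' : Divisor k E) ∧
      a₂ ∈ riemannRochSpace (Finsupp.single P n : Divisor k E) ∧
      x.ord a₂ = -(Finsupp.single P n : Divisor k E) x ∧ (x = P → n' = n) :=
  exists_frac_inf hE hdE P x ha0 ha

/-- **Inertia groups** (`H31Scale`, `H31EqJ`; `H1Inertia`).  Let `A` be a place of `ℚ̄` over `q` with
residue map `π : A → k`, `σ` in its inertia group.  Then `σ` preserves `A`, the values and the
residues, every element of `k` has an inertia-invariant representative, and every value of `ℚ̄` is a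
rational power of `|q|`. -/
theorem inertia_rules {q : ℕ} [Fact q.Prime] {A : ValuationSubring (AlgebraicClosure ℚ)}
    (hA : A.LiesOverPrime q) {k : Type*} [Field k] {π : A →+* k} [IsLocalHom π]
    (hπ : Function.Surjective π) :
    (∀ σ ∈ A.inertiaSubgroupIn ℚ, ∀ a ∈ A, σ a ∈ A) ∧
      (∀ σ ∈ A.inertiaSubgroupIn ℚ, ∀ c, A.valuation (σ c) = A.valuation c) ∧
      (∀ σ ∈ A.inertiaSubgroupIn ℚ, ∀ a a' : A, (a' : AlgebraicClosure ℚ) = σ a →
        π a' = π a) ∧
      (∀ e : k, ∃ a : A, π a = e ∧ ∀ σ ∈ A.inertiaSubgroupIn ℚ,
        σ (a : AlgebraicClosure ℚ) = a) ∧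
      ∀ a : AlgebraicClosure ℚ, a ≠ 0 → ∃ (l : ℕ) (m : ℤ), l ≠ 0 ∧
        A.valuation a ^ l = A.valuation (q : AlgebraicClosure ℚ) ^ m :=
  ⟨(triv hA hπ).mem, (EqI.trivV hA hπ).val, fun σ hσ a _ h => (congrArg π (Subtype.ext h)).trans
    ((triv hA hπ).red σ hσ a), (triv hA hπ).teich, fun _ ha => exists_pow_eq_zpow hA ha⟩

section Modular

variable {L : Type*} [Field L] [Algebra ℚ L] [CharZero L] [IsAlgClosed L]
  {A : ValuationSubring L} {k : Type*} [Field k] {π : A →+* k}

/-- **Invariant lifts with poles at `∞`** (`H31Lift`).  A group `G` of automorphisms of `L` which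
acts trivially on the residue field and has invariant representatives (`Triv π G`) acts on the
functions on `X_0(N)` through the coefficients of their `q`-expansions.  Every reduction of an
integral function with poles only at `∞`, of order at most `n`, has a `G`-invariant lift of this
kind. -/
theorem invariant_lift_at_infinity [IsAlgClosed k] {N : ℕ} [NeZero N]
    (hπ : Function.Surjective π) [IsLocalHom π] (arch : Arch A) (hdeg : H42.DegLE L k N)
    {G : Subgroup (L ≃ₐ[ℚ] L)} (hG : Triv π G) {P₀ : Place L (FF L N)} (hP₀ : IsInf P₀) {n : ℤ}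
    {a : modularFunctionFieldFullC k N} (ha : a ∈ (H42.modReductionData A π N hπ hdeg).red
      (riemannRochSpace (Finsupp.single P₀ n : Divisor L (FF L N)))) :
    ∃ b : (H42.modReductionData A π N hπ hdeg).B,
      (b : FF L N) ∈ riemannRochSpace (Finsupp.single P₀ n : Divisor L (FF L N)) ∧
      (H42.modReductionData A π N hπ hdeg).ρ b = a ∧ ∀ σ ∈ G, σ • (b : FF L N) = b :=
  exists_fixed hπ arch hdeg hG hP₀ ha

/-- **Stable spaces have invariant vectors** (`H31Scale`): a nonzero space of functions on `X_0(N)`
with bounded order at `∞`, stable under a group `H` of automorphisms of the constants, contains a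
nonzero `H`-invariant function.  (Take an element of maximal order at `∞` with first coefficient
`1`.) -/
theorem exists_invariant_vector {N : ℕ} [NeZero N] {H : Subgroup (L ≃ₐ[ℚ] L)}
    (V : Submodule L (FF L N)) (hV : ∃ x ∈ V, x ≠ 0) (hVH : ∀ σ ∈ H, ∀ x ∈ V, σ • x ∈ V)
    (hb : ∃ m : ℤ, ∀ x ∈ V, x ≠ 0 → (x : LaurentSeries L).order ≤ m) :
    ∃ x ∈ V, x ≠ 0 ∧ ∀ σ ∈ H, σ • x = x :=
  exists_fixed_mem V hV hVH hb

/-- **Values of invariant functions** (`H31Scale`).  `v` is a Gauss valuation of the function field
of `X_0(N)`: it extends the valuation of `A` and takes the same values, the functions with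
`v f ≤ 1` have Gauss integral `q`-expansions, and those with `v f = 1` and integral expansion have
nonzero reduction.  If `f` is invariant under a group `H` of automorphisms of `L`, then `v f` is
the value of an `H`-invariant constant.  Proof: `f` is a quotient of two invariant functions with
poles only at `∞` (`exists_invariant_vector`); for such a function, the value is that of a
coefficient of its expansion, by boundedness of the expansion. -/
theorem exists_invariant_constant {N : ℕ} [NeZero N] [IsLocalHom π] (arch : Arch A)
    {P₀ : Place L (FF L N)} (hP₀ : IsInf P₀) (v : Valuation (FF L N) A.ValueGroup)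
    (hscale : ∀ f : FF L N, f ≠ 0 → ∃ c : L, c ≠ 0 ∧ v f = A.valuation c)
    (halg : ∀ c : L, v (algebraMap L (FF L N) c) = A.valuation c)
    (hgi : ∀ f : FF L N, v f ≤ 1 → GaussInt π (f : LaurentSeries L))
    (hred : ∀ (f : FF L N) (y : LaurentSeries A), coeffMap A.subtype y = f → v f = 1 →
      coeffMap π y ≠ 0)
    {H : Subgroup (L ≃ₐ[ℚ] L)} {f : FF L N} (hf0 : f ≠ 0) (hf : ∀ σ ∈ H, σ • f = f) :
    ∃ c : L, c ≠ 0 ∧ (∀ σ ∈ H, σ c = c) ∧ v f = A.valuation c :=
  exists_fixed_scale arch hP₀ v hscale halg hgi hred hf0 hf

/-- **The node data of `X_0(mq)`** (`H31EqJ`, `H31EqK`, `H31EqL`; the parameter is from `H45NdG`).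
Notation as in `GuideLevelsS44.special_fibre`: `sheets ...` is the two-sheeted model of `X_0(mq)`
over `X_0(m)`, `q ∤ m`, and `4 ∣ m` or `9 ∣ m`.  Let `G` be a group of automorphisms of `L` which
acts trivially on the residues and on the values, with invariant representatives (an inertia group
at `q`, see `inertia_rules`), and let the values of `L` be rational powers of `|q|`.  Then all the
compatibilities of section 5 hold, for the Atkin-Lehner involution and the cusp `∞`, and there is
a structure `MP.Data` whose model is that of the two sheets, with parameter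
`z = X(t) - X(t^q)^q` (`H45.Nd.zF`) at all double points, `X` a Hauptmodul of level `4` or `9`
(`GuideNodeParameters.node_parameters`); `z` is `G`-invariant, because its expansion has integral
coefficients. -/
theorem exists_modular_data [IsLocalHom π] {m q : ℕ} [NeZero m] [NeZero q] [Fact q.Prime]
    [CharP k q] [IsAlgClosed k] [Infinite k] (w : H99.AL L m q) (hπ : Function.Surjective π)
    (hdeg : H42.DegLE L k m) (hqm : ¬ q ∣ m) (ι : L →+* ℂ) {e : ℕ} (he : e = 4 ∨ e = 9)
    (hem : e ∣ m) (arch : Arch A)
    (r : Place L (H99.FX L m) → Place k (modularFunctionFieldFullC k m)) {c : ℕ}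
    (hr1 : ∀ D : Divisor L (H99.FX L m), (c : ℤ) < Divisor.degree D →
      (H42.modReductionData A π m hπ hdeg).IsRed D (Finsupp.mapDomain r D))
    (hr2 : H34.GR.DivCompat (H42.modReductionData A π m hπ hdeg) r)
    [H3RR.IsFF L (H99.FX L m)] [H3RR.IsFF L (H99.FX L (m * q))]
    [H3RR.IsFF k (modularFunctionFieldFullC k m)] [H94.FunField L (H99.FX L m)]
    [H94.FunField L (H99.FX L (m * q))] {G : Subgroup (L ≃ₐ[ℚ] L)} (hG : EqI.TrivV π G)
    {P₀ : Place L (H99.FX L m)} (hP₀ : IsInf P₀)
    (htors : ∀ a : L, a ≠ 0 → ∃ (l : ℕ) (n : ℤ), l ≠ 0 ∧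
      A.valuation a ^ l = A.valuation (q : L) ^ n) :
    Eq.Equi (sheets w hπ hdeg hqm arch r hr1 hr2) G w.W P₀ ∧
      ∃ D : MP.Data L (H99.FX L (m * q)) k (modularFunctionFieldFullC k m) A.ValueGroup
        {x : Place k (modularFunctionFieldFullC k m) //
          (sheets w hπ hdeg hqm arch r hr1 hr2).Node x} G q,
        D.M = (sheets w hπ hdeg hqm arch r hr1 hr2).model ∧
        ∀ n, D.z n = H45.Nd.zF L q he hem :=
  ⟨EqI.equi w hπ hdeg hqm arch hr1 hr2 hG hP₀,
    EqI.dataX w hπ hdeg hqm ι he hem arch r hr1 hr2 hG hP₀ htors, rfl, fun _ => rfl⟩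

end Modular

/-! ## 7. Change of level -/

/-- **Roots descend** along an extension of function fields of degree prime to `p` (`H31Kum2`): if
a function `u` becomes a `p`-th power in the extension, it is a `p`-th power.  (Take norms.)  Used
to pass between the level `M₀` and an auxiliary level divisible by `4`, one factor `2` at a time,
that is in steps of degree `2` or `3`; for `p = 3` the step of degree `3` is done differently, in
`H61C2` (`GuideLevelsAtP.exists_aux`). -/
theorem root_descends {K F₀ F : Type*} [Field K] [Field F₀] [Field F] [Algebra K F₀]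
    [Algebra K F] (inc : F₀ →ₐ[K] F) {p : ℕ} (hp : p.Prime)
    (hn : ¬ p ∣ finrankAlong K inc) (u : F₀) (f : F) (h : inc u = f ^ p) : ∃ g, u = g ^ p :=
  Kum2.root_descends inc hp hn u f h

end Fermat.Agent.Guide.NodeAnalysis
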