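import Fermat.Agent.H45NdG

/-!
# Reader's guide: the local equation of `X₀(mq)` at a node (companion of `GuideLevelsS44`, section 6)

Every theorem of this file is proved by citing a theorem of the library; nothing here is used by any other
file. Editor: helper45 (modules `H45NdA`-`H45NdG`; `H61NdA`, `H61NdB` are by helper61, the frame `H97Md*` by
helper97). The theorems on `X₀(mq)` are in the closures of S39, S40, S44 and of S01, S03, S04, S06, S38, S43,
S45, S46, S50, S59, S60.

**What is proved** (`node_parameters`). Let `q` be a prime, `m` prime to `q` and divisible by `4` or `9`. The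
curve `X₀(mq)` has in characteristic `q` two components, both equal to `X₀(m)`, which meet in the nodes. At
every node `x` there are functions `z`, `z'` with `z z' = q u`, `u` a unit at the node, such that `z` reduces
to a local parameter at `x` on the first component and `z'` to a local parameter on the second. In classical
language: the curve is regular at the node, with the equation `z z' = q` (thickness one).

**The functions.** Let `X` be the Hauptmodul of level `c = 4` or `c = 9`, and `Y = X(t^q)` its transform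
under the Atkin-Lehner automorphism `w_q`. Then `z = X - Y^q`, `z' = Y - X^q`.

**Proof, in five steps.** (1) `X` has no ramification outside the cusps, so the derivation `d/dX` preserves
the local rings of `X₀(m)` in characteristic `q`; the reduction of `z` has the derivative `1` (that of `Y^q`
is zero), so all its zeros outside the cusps are simple. (2) On the second component `z` reduces to zero,
because `X` and `Y^q` have the same reduction there; a function which vanishes on one component vanishes at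
the node on the other; so `z` has a simple zero at `x`. (3) The derivative of the function `b = z'/q` (on the
first component) is `g - X^(q-1)`, `g = (1/q) dY/dX`. The inverse `q dX/dY` of `g` is regular at the node and
is zero on the second component, so it vanishes at `x`; so `g` has a pole at `x`, and then `b` has a pole at
`x`. (4) The product `u = z b` has the order `1 + (negative) ≤ 0` at both points over the node. The number of
zeros of `u` in the residue class of the node is the sum of these two orders; `u` is regular, so this sum is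
also `≥ 0`; hence it is zero and `u` is a unit. (5) Nodes are not cusps (helper61).

No modular interpretation and no supersingular elliptic curve occurs. Used in `GuideLevelsS44`, section 6
(order of `Δ̄^(q-1)` at the nodes, `H38DvC`), in `GuideNodeAnalysis` (`H31EqL`) and in `H73GeoX`.

Notation. `S : Sheets K F₀ F k κ Γ q` is a two-sheeted model (`GuideReduction`, `GuideTwoSheets`): `F/K` the
function field of the curve above, `F₀/K` that of the curve with good reduction, `κ/k` its reduction;
`S.v false`, `S.v true` are the Gauss valuations of the two components, `S.ρ false`, `S.ρ true` the reduction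
maps to `κ`, `S.tw x` the Frobenius twist of `x` (the point of the second component over `x`), `S.red P` the
reduction of the place `P` of `F` on the curve below. `H99.FX L N` is the function field of `X₀(N)` over `L`,
inside the Laurent series. `w : H99.AL L m q` is the Atkin-Lehner automorphism `w.W` of `H99.FX L (m * q)`,
which exchanges `f(t)` and `f(t^q)` for the functions `f` on `X₀(m)`.
-/

set_option autoImplicit false

noncomputable section

open AlgebraicCurve ModularCurve WithZero IntermediateField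
open Fermat.Agent.H34.Two Fermat.Agent.H97 Fermat.Agent.H97.Sheets

namespace Fermat.Agent.Guide.NodeParameters

/-! ## 1. Nodes of a two-sheeted model -/

section Abstract

/-- **Regular functions and nodes.** `S.InR x f` means that `f` is integral on both components and regular at
all places which reduce to `x`; `x` is a *node* if each such function takes the same value at the two points
over `x`. Files `H97MdA`, `H97MdC`. -/
theorem node_iff {K F₀ F k κ Γ : Type*} [Field K] [Field F₀] [Field F] [Algebra K F₀] [Algebra K F]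
    [Field k] [Field κ] [Algebra k κ] [LinearOrderedCommGroupWithZero Γ] {q : ℕ}
    (S : Sheets K F₀ F k κ Γ q) [IsAlgClosed K] [CharZero K] [H3RR.IsFF K F₀] [H3RR.IsFF K F]
    [IsAlgClosed k] [H3RR.IsFF k κ] [H94.FunField K F₀] [H94.FunField K F] (x : Place k κ) (f : F) :
    (S.InR x f ↔ (∀ i, S.v i f ≤ 1) ∧ ∀ P, S.red P = x → P.adicValuation f ≤ 1) ∧
      (S.Node x ↔ ∀ f, S.InR x f → ∃ c : k, ∀ i : Bool,
        (if i then S.tw x else x).adicValuation (S.ρ i f - algebraMap k κ c) < 1) :=
  ⟨Iff.rfl, Iff.rfl⟩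

/-- **Vanishing at a node**: if `f` is regular at the node `x` and reduces to zero on the second component,
then its reduction on the first component vanishes at `x`. File `H45NdC`. -/
theorem vanishing_at_node {K F₀ F k κ Γ : Type*} [Field K] [Field F₀] [Field F] [Algebra K F₀]
    [Algebra K F] [Field k] [Field κ] [Algebra k κ] [LinearOrderedCommGroupWithZero Γ] {q : ℕ}
    (S : Sheets K F₀ F k κ Γ q) [IsAlgClosed K] [CharZero K] [H3RR.IsFF K F₀] [H3RR.IsFF K F]
    [IsAlgClosed k] [H3RR.IsFF k κ] [H94.FunField K F₀] [H94.FunField K F] {x : Place k κ}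
    (hx : S.Node x) {f : F} (hf : S.InR x f) (h : S.v true f < 1) :
    x.adicValuation (S.ρ false f) < 1 :=
  H45.Nd.lt_of_node S hx hf h

/-- **Zeros in the residue class of a node** (helper97, `H97MdC`): if `f` is a unit on both components, then
the degree of its divisor on the set of places which reduce to the node is the sum of the orders of its two
reductions at the two points over the node. -/
theorem degree_at_node {K F₀ F k κ Γ : Type*} [Field K] [Field F₀] [Field F] [Algebra K F₀]
    [Algebra K F] [Field k] [Field κ] [Algebra k κ] [LinearOrderedCommGroupWithZero Γ] {q : ℕ}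
    (S : Sheets K F₀ F k κ Γ q) [IsAlgClosed K] [CharZero K] [H3RR.IsFF K F₀] [H3RR.IsFF K F]
    [IsAlgClosed k] [H3RR.IsFF k κ] [H94.FunField K F₀] [H94.FunField K F]
    (s : {x : Place k κ // S.Node x}) {f : F} (hf : f ≠ 0) (h : ∀ i, S.v i f = 1)
    {D : Divisor K F} (hD : ∀ P, D P = P.ord f) :
    cls S.sp D (Sum.inr s) = s.1.ord (S.ρ false f) + (S.tw s.1).ord (S.ρ true f) :=
  S.deg_node s hf h hD

/-- **Node parameters** `H31.Eq.NodePar S x z z' u`: the functions `z`, `z'`, `u`, `1/u` are regular at `x`,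
`z z' = q u`, and `z`, `z'` reduce to local parameters on the first and second component. File `H31Eq1`
(also in `GuideNodeAnalysis`, section 5, with the annulus). -/
theorem nodePar_iff {K F₀ F k κ Γ : Type*} [Field K] [Field F₀] [Field F] [Algebra K F₀]
    [Algebra K F] [Field k] [Field κ] [Algebra k κ] [LinearOrderedCommGroupWithZero Γ] {q : ℕ}
    (S : Sheets K F₀ F k κ Γ q) [IsAlgClosed K] [CharZero K] [H3RR.IsFF K F₀] [H3RR.IsFF K F]
    [IsAlgClosed k] [H3RR.IsFF k κ] [H94.FunField K F₀] [H94.FunField K F] (x : Place k κ)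
    (z z' u : F) : H31.Eq.NodePar S x z z' u ↔
      S.InR x z ∧ S.InR x z' ∧ S.InR x u ∧ S.InR x u⁻¹ ∧ z * z' = q * u ∧ S.v false z = 1 ∧
        S.v true z' = 1 ∧ x.ord (S.ρ false z) = 1 ∧ (S.tw x).ord (S.ρ true z') = 1 :=
  ⟨fun h => ⟨h.hz, h.hz', h.hu, h.hui, h.mul, h.v_z, h.v_z', h.ord_z, h.ord_z'⟩,
    fun h => ⟨h.1, h.2.1, h.2.2.1, h.2.2.2.1, h.2.2.2.2.1, h.2.2.2.2.2.1, h.2.2.2.2.2.2.1,
      h.2.2.2.2.2.2.2.1, h.2.2.2.2.2.2.2.2⟩⟩

/-- **Criterion** (step (4) of the proof). `z`, `z'` regular at the node, of value `1` on the component where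
they are to be parameters and of value `|q|` on the other one, with simple zeros at the node, and `z'/q`,
`z/q` with poles: then `z z' = q u` with `u` a unit at the node. File `H45NdA`. -/
theorem criterion {K F₀ F k κ Γ : Type*} [Field K] [Field F₀] [Field F] [Algebra K F₀]
    [Algebra K F] [Field k] [Field κ] [Algebra k κ] [LinearOrderedCommGroupWithZero Γ] {q : ℕ}
    (S : Sheets K F₀ F k κ Γ q) [IsAlgClosed K] [CharZero K] [H3RR.IsFF K F₀] [H3RR.IsFF K F]
    [IsAlgClosed k] [H3RR.IsFF k κ] [H94.FunField K F₀] [H94.FunField K F] [Fact q.Prime]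
    [CharP k q] {x : Place k κ} (hx : S.Node x) {z z' : F} (hz : S.InR x z) (hz' : S.InR x z')
    (vz : S.v false z = 1) (vz' : S.v true z' = 1)
    (vzt : S.v true z = S.vK q) (vzf : S.v false z' = S.vK q)
    (oz : x.ord (S.ρ false z) = 1) (oz' : (S.tw x).ord (S.ρ true z') = 1)
    (pf : x.ord (S.ρ false (z' / q)) < 0) (pt : (S.tw x).ord (S.ρ true (z / q)) < 0) :
    H31.Eq.NodePar S x z z' (z * z' / q) :=
  H45.Nd.nodePar_of S hx hz hz' vz vz' vzt vzf oz oz' pf pt

end Abstract

/-! ## 2. The Hauptmodul and its derivation in characteristic zero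

`L` is an algebraically closed field of characteristic zero with an embedding `ι` in `ℂ`, `c = 4` or `c = 9`,
`c ∣ M`. `H1.Xc c L` is the expansion of the Hauptmodul of level `c` (a Laurent series with integral
coefficients, an eta quotient: `(η(z)/η(4z))⁸` or `(η(z)/η(9z))³`). -/

section CharZero

/-- **The derivation `d/dX`** on Laurent series is `θ/(θX)`, `θ = t d/dt`; `H1.thInv` is the inverse of `θX`.
It has the value `1` at `X`, satisfies the product rule, and its restriction to the function field of `X₀(M)`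
is called `H1.derX`. The series `X` belongs to this function field (`Nd.XF`). Files `H1HauptRing`,
`H1HauptFinal`, `H45NdB`. -/
theorem derivation {L : Type*} [Field L] [Algebra ℚ L] [IsAlgClosed L] [CharZero L] (ι : L →+* ℂ)
    {c : ℕ} {M : ℕ} [NeZero M] (hc : c = 4 ∨ c = 9) (hcM : c ∣ M) (f : H99.FX L M)
    (g h : LaurentSeries L) :
    (H1.thetaL L (H1.Xc c L) * H1.thInv c L = 1 ∧ H1.dX c L g = H1.thInv c L * H1.thetaL L g) ∧
      (H1.dX c L (H1.Xc c L) = 1 ∧ H1.dX c L (g * h) = H1.dX c L g * h + g * H1.dX c L h) ∧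
      (H45.Nd.XF L M hc hcM : LaurentSeries L) = H1.Xc c L ∧
      (H1.derX ι hc hcM f : LaurentSeries L) = H1.dX c L f :=
  ⟨⟨H1.theta_mul_thInv c L, rfl⟩, ⟨H1.dX_Xc c, H1.dX_mul c g h⟩, rfl, H1.coe_derX ι hc hcM f⟩

/-- **`d/dX` preserves regularity** at the places where `j` is finite (the non-cuspidal places): `X - a` is a
local parameter at each of them. File `H45NdB`. -/
theorem derivation_regular {L : Type*} [Field L] [Algebra ℚ L] [IsAlgClosed L] [CharZero L]
    (ι : L →+* ℂ) {c : ℕ} {M : ℕ} [NeZero M] (hc : c = 4 ∨ c = 9) (hcM : c ∣ M) {j : H99.FX L M}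
    (hj : (j : LaurentSeries L) = jqModC L) (v : Place L (H99.FX L M))
    (hjv : j ∈ v.toValuationSubring) {f : H99.FX L M} (hf : f ∈ v.toValuationSubring) :
    H1.derX ι hc hcM f ∈ v.toValuationSubring :=
  H45.Nd.derX_reg ι hc hcM hj v hjv hf

/-- **Transport**: an automorphism `W` with `W x = y` maps `df/dx` to `d(Wf)/dy` (`H94.dd hx` is the
derivation `d/dx`). File `H45NdB`. -/
theorem transport {K F : Type*} [Field K] [Field F] [Algebra K F] [CharZero K] [H94.FunField K F]
    (W : F ≃ₐ[K] F) {x y : F} (hx : Transcendental K x) (hy : Transcendental K y) (hxy : W x = y)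
    (f : F) : W (H94.dd hx f) = H94.dd hy (W f) :=
  H45.Nd.map_dd W hx hy hxy f

/-- **`X` and `Y = X(t^q)`** in the function field of `X₀(mq)` are exchanged by the Atkin-Lehner automorphism
`w`. File `H45NdB`. -/
theorem atkin_lehner {L : Type*} [Field L] [Algebra ℚ L] [IsAlgClosed L] [CharZero L] {c : ℕ}
    {m q : ℕ} [NeZero m] [NeZero q] [Fact q.Prime] (w : H99.AL L m q) (hc : c = 4 ∨ c = 9)
    (hcm : c ∣ m) :
    (H45.Nd.YF L q hc hcm : LaurentSeries L) = qExpand L q (H1.Xc c L) ∧
      w.W (H45.Nd.XF L (m * q) hc (hcm.mul_right q)) = H45.Nd.YF L q hc hcm ∧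
      w.W (H45.Nd.YF L q hc hcm) = H45.Nd.XF L (m * q) hc (hcm.mul_right q) :=
  ⟨H45.Nd.coe_YF hc hcm, H45.Nd.W_XF w hc hcm, H45.Nd.W_YF w hc hcm⟩

/-- **The derivative `dY/dX`** has the expansion `q (θX)(t^q)/θX`; its transform under `w` is its inverse
`dX/dY`, which is regular at the places where `j` is finite. File `H45NdB`. -/
theorem derivative_of_Y {L : Type*} [Field L] [Algebra ℚ L] [IsAlgClosed L] [CharZero L]
    (ι : L →+* ℂ) {c : ℕ} {m q : ℕ} [NeZero m] [NeZero q] [Fact q.Prime] (w : H99.AL L m q)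
    (hc : c = 4 ∨ c = 9) (hcm : c ∣ m) :
    (H1.derX ι hc (hcm.mul_right q) (H45.Nd.YF L q hc hcm) : LaurentSeries L) =
        q * (H1.thInv c L * qExpand L q (H1.thetaL L (H1.Xc c L))) ∧
      w.W (H1.derX ι hc (hcm.mul_right q) (H45.Nd.YF L q hc hcm)) *
        H1.derX ι hc (hcm.mul_right q) (H45.Nd.YF L q hc hcm) = 1 ∧
      ∀ v : Place L (H99.FX L (m * q)), jmq L m q ∈ v.toValuationSubring →
        w.W (H1.derX ι hc (hcm.mul_right q) (H45.Nd.YF L q hc hcm)) ∈ v.toValuationSubring :=
  ⟨H45.Nd.coe_derX_YF ι hc hcm, H45.Nd.W_derX_YF_mul ι w hc hcm, H45.Nd.W_derX_YF_reg ι w hc hcm⟩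

end CharZero

/-! ## 3. Reduction modulo `q` -/

section Reduction

/-- **Frobenius**: in characteristic `q` a series `φ` with coefficients in the prime field satisfies
`φ(t^q) = φ^q`; so for integral coefficients `φ(t^q) - φ^q` is divisible by `q`. File `H45NdC`. -/
theorem frobenius {q : ℕ} [NeZero q] [Fact q.Prime] (k : Type*) [CommRing k] [CharP k q]
    (φ : LaurentSeries ℤ) :
    qExpand k q (coeffMap (Int.castRingHom k) φ) = coeffMap (Int.castRingHom k) φ ^ q ∧
      ∃ β : LaurentSeries ℤ, (q : LaurentSeries ℤ) * β = qExpand ℤ q φ - φ ^ q :=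
  ⟨H45.Nd.qExpand_int_char k φ, H45.Nd.exists_beta φ⟩

/-- **The derivative of `β = (Y - X^q)/q`** is `(θX)(t^q)/θX - X^(q-1)`, in series with integral
coefficients. File `H45NdD`. -/
theorem derivative_of_beta {q : ℕ} [NeZero q] [Fact q.Prime] {c : ℕ} {β : LaurentSeries ℤ}
    (hβ : (q : LaurentSeries ℤ) * β = qExpand ℤ q (H1.Xc c ℤ) - H1.Xc c ℤ ^ q) :
    H1.dX c ℤ β = H1.thInv c ℤ * qExpand ℤ q (H1.thetaL ℤ (H1.Xc c ℤ)) - H1.Xc c ℤ ^ (q - 1) :=
  H45.Nd.dX_beta hβ

/-- **Functions with integral expansions** are integral on the first component, and their reduction has the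
reduced expansion; at level `mq` and at level `m`. (`v1`, `comp1` are the Gauss valuation and the reduction on
the first component of `X₀(mq)`, `v0`, `comp0` those of `X₀(m)`.) File `H45NdC`. -/
theorem integral_expansions {L : Type*} [Field L] [Algebra ℚ L] {A : ValuationSubring L}
    {k : Type*} [Field k] {π : A →+* k} {m q : ℕ} [NeZero m] [NeZero q] [Fact q.Prime] [CharP k q]
    [IsAlgClosed k] [Infinite k] (w : H99.AL L m q) (hπ : Function.Surjective π)
    (hdeg : H42.DegLE L k m) (hqm : ¬ q ∣ m) [IsAlgClosed L] [CharZero L] [IsLocalHom π]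
    {φ : LaurentSeries ℤ} :
    (∀ f : H99.FX L (m * q), (f : LaurentSeries L) = coeffMap (Int.castRingHom L) φ →
      v1 A π w hπ (H42.degreeFact L) hdeg hqm f ≤ 1 ∧
        ((comp1 A π w hπ (H42.degreeFact L) hdeg hqm).red f : LaurentSeries k) =
          coeffMap (Int.castRingHom k) φ) ∧
      ∀ f : H99.FX L m, (f : LaurentSeries L) = coeffMap (Int.castRingHom L) φ →
        v0 A π w hπ (H42.degreeFact L) hdeg hqm f ≤ 1 ∧
          ((comp0 A π w hπ (H42.degreeFact L) hdeg hqm).red f : LaurentSeries k) =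
            coeffMap (Int.castRingHom k) φ :=
  ⟨fun _ h => H45.Nd.red1_int w hπ hdeg hqm h, fun _ h => H45.Nd.red0_int w hπ hdeg hqm h⟩

/-- **`d/dX` commutes with the reduction** of `X₀(m)`. File `H45NdC`. -/
theorem derivation_reduction {L : Type*} [Field L] [Algebra ℚ L] {A : ValuationSubring L}
    {k : Type*} [Field k] {π : A →+* k} {m q : ℕ} [NeZero m] [NeZero q] [Fact q.Prime] [CharP k q]
    [IsAlgClosed k] [Infinite k] (w : H99.AL L m q) (hπ : Function.Surjective π)
    (hdeg : H42.DegLE L k m) (hqm : ¬ q ∣ m) [IsAlgClosed L] [CharZero L] [IsLocalHom π]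
    {c : ℕ} (ι : L →+* ℂ) (hc : c = 4 ∨ c = 9) (hcm : c ∣ m) {b : H99.FX L m}
    (hb : v0 A π w hπ (H42.degreeFact L) hdeg hqm b ≤ 1) :
    v0 A π w hπ (H42.degreeFact L) hdeg hqm (H1.derX ι hc hcm b) ≤ 1 ∧
      ((comp0 A π w hπ (H42.degreeFact L) hdeg hqm).red (H1.derX ι hc hcm b) : LaurentSeries k) =
        H1.dX c k ((comp0 A π w hπ (H42.degreeFact L) hdeg hqm).red b : LaurentSeries k) :=
  H45.Nd.v0_derX w hπ hdeg hqm ι hc hcm hb

/-- **A zero with derivative `1` is simple.** `D a a'` is any relation "`a'` is the derivative of `a`" which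
is defined on the local ring of the place `x` and satisfies the product rule for products `a a b`. File
`H45NdD`. -/
theorem simple_zero {k κ : Type*} [Field k] [IsAlgClosed k] [Field κ] [Algebra k κ] [H3RR.IsFF k κ]
    (x : Place k κ) (D : κ → κ → Prop)
    (hD : ∀ h, x.adicValuation h ≤ 1 → ∃ h', D h h' ∧ x.adicValuation h' ≤ 1)
    (hleib : ∀ a b a' b' u, D a a' → D b b' → D (a * a * b) u → u = 2 * a * a' * b + a * a * b')
    {h : κ} (h1 : D h 1) (hh0 : h ≠ 0) (hh : x.adicValuation h < 1) : x.ord h = 1 :=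
  H45.Nd.ord_eq_one_of_deriv x D hD hleib h1 hh0 hh

end Reduction

/-! ## 4. The curve `X₀(mq)`

From here on the hypotheses are those of `GuideLevelsS44.special_fibre`: `A` is an archimedean valuation ring
of `L` (`Arch A`: if `a` is not a unit and `b ≠ 0`, then `b` divides a power of `a`) with the surjection `π`
to the algebraically closed field `k` of characteristic `q`; `hdeg` says that `X₀(m)` has a function field of
the right degree in characteristic `q`; `r` is the reduction map on the places of `X₀(m)`: for a divisor `D`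
of degree greater than `cc` the reductions of the functions in `L(D)` form the space `L(r D)` (`hr1`), and `r`
takes the divisor of a function to the divisor of its reduction (`hr2`, `DivCompat`). The two-sheeted model is
`sheets w hπ hdeg hqm arch r hr1 hr2`. The modular invariant `j` is `jm L m` as a function on `X₀(m)`,
`jmq L m q` on `X₀(mq)`, `jk k m` on `X₀(m)` in characteristic `q`.
-/

section Curve

/-- **`d/dX` in characteristic `q`** preserves the local ring at a place `x` of `X₀(m)` which is not a cusp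
(the places which reduce to `x` are not cusps). Every regular function at `x` lifts to a function which is
integral and regular at all places reducing to `x`; then use `derivation_regular` and
`derivation_reduction`. File `H45NdC`. -/
theorem derivation_regular_mod {L : Type*} [Field L] [Algebra ℚ L] {A : ValuationSubring L}
    {k : Type*} [Field k] {π : A →+* k} {m q : ℕ} [NeZero m] [NeZero q] [Fact q.Prime] [CharP k q]
    [IsAlgClosed k] [Infinite k] (w : H99.AL L m q) (hπ : Function.Surjective π)
    (hdeg : H42.DegLE L k m) (hqm : ¬ q ∣ m) [IsAlgClosed L] [CharZero L] [IsLocalHom π]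
    {c : ℕ} (ι : L →+* ℂ) (hc : c = 4 ∨ c = 9) (hcm : c ∣ m) (arch : Arch A)
    (r : Place L (H99.FX L m) → Place k (modularFunctionFieldFullC k m)) {cc : ℕ}
    (hr1 : ∀ D : Divisor L (H99.FX L m), (cc : ℤ) < Divisor.degree D →
      (H42.modReductionData A π m hπ hdeg).IsRed D (Finsupp.mapDomain r D))
    (hr2 : H34.GR.DivCompat (H42.modReductionData A π m hπ hdeg) r)
    [H3RR.IsFF L (H99.FX L m)] [H3RR.IsFF L (H99.FX L (m * q))]
    [H3RR.IsFF k (modularFunctionFieldFullC k m)] [H94.FunField L (H99.FX L m)]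
    [H94.FunField L (H99.FX L (m * q))] {x : Place k (modularFunctionFieldFullC k m)}
    (hj0 : ∀ P, r P = x → P.adicValuation (jm L m) ≤ 1)
    {h : modularFunctionFieldFullC k m} (hh : x.adicValuation h ≤ 1) :
    ∃ h' : modularFunctionFieldFullC k m,
      (h' : LaurentSeries k) = H1.dX c k (h : LaurentSeries k) ∧ x.adicValuation h' ≤ 1 :=
  H45.Nd.dX_reg w hπ hdeg hqm ι hc hcm arch r hr1 hr2 hj0 hh

/-- **The function `g = (1/q) dY/dX`** and its inverse `f = q dX/dY`: `g` has the integral expansion
`(θX)(t^q)/θX`, both have the absolute value `1` on the first component, and `f` reduces to zero on the second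
component. Files `H45NdD`, `H45NdE`. -/
theorem values_of_g {L : Type*} [Field L] [Algebra ℚ L] {A : ValuationSubring L}
    {k : Type*} [Field k] {π : A →+* k} {m q : ℕ} [NeZero m] [NeZero q] [Fact q.Prime] [CharP k q]
    [IsAlgClosed k] [Infinite k] (w : H99.AL L m q) (hπ : Function.Surjective π)
    (hdeg : H42.DegLE L k m) (hqm : ¬ q ∣ m) [IsAlgClosed L] [CharZero L] [IsLocalHom π]
    {c : ℕ} (ι : L →+* ℂ) (hc : c = 4 ∨ c = 9) (hcm : c ∣ m)
    [H3RR.IsFF k (modularFunctionFieldFullC k m)] :
    (H45.Nd.gF L q ι hc hcm : LaurentSeries L) = coeffMap (Int.castRingHom L)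
        (H1.thInv c ℤ * qExpand ℤ q (H1.thetaL ℤ (H1.Xc c ℤ))) ∧
      H45.Nd.fF L q w ι hc hcm * H45.Nd.gF L q ι hc hcm = 1 ∧
      v1 A π w hπ (H42.degreeFact L) hdeg hqm (H45.Nd.gF L q ι hc hcm) = 1 ∧
      v1 A π w hπ (H42.degreeFact L) hdeg hqm (H45.Nd.fF L q w ι hc hcm) = 1 ∧
      v2 A π w hπ (H42.degreeFact L) hdeg hqm (H45.Nd.fF L q w ι hc hcm) < 1 :=
  ⟨H45.Nd.coe_gF ι hc hcm, H45.Nd.fF_mul_gF w ι hc hcm, H45.Nd.v1_gF w hπ hdeg hqm ι hc hcm,
    H45.Nd.v1_fF w hπ hdeg hqm ι hc hcm, H45.Nd.v2_fF w hπ hdeg hqm ι hc hcm⟩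

/-- **Nodes are not cusps** (helper61, `H61NdA`, `H61NdB`): `j` is regular at a node `x` of `X₀(m)` in
characteristic `q`, at all places of `X₀(m)` and at all places of `X₀(mq)` which reduce to `x`. -/
theorem nodes_are_not_cusps {L : Type*} [Field L] [Algebra ℚ L] {A : ValuationSubring L}
    {k : Type*} [Field k] {π : A →+* k} {m q : ℕ} [NeZero m] [NeZero q] [Fact q.Prime] [CharP k q]
    [IsAlgClosed k] [Infinite k] (w : H99.AL L m q) (hπ : Function.Surjective π)
    (hdeg : H42.DegLE L k m) (hqm : ¬ q ∣ m) [IsAlgClosed L] [CharZero L] [IsLocalHom π]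
    (arch : Arch A) (r : Place L (H99.FX L m) → Place k (modularFunctionFieldFullC k m)) {cc : ℕ}
    (hr1 : ∀ D : Divisor L (H99.FX L m), (cc : ℤ) < Divisor.degree D →
      (H42.modReductionData A π m hπ hdeg).IsRed D (Finsupp.mapDomain r D))
    (hr2 : H34.GR.DivCompat (H42.modReductionData A π m hπ hdeg) r)
    [H3RR.IsFF L (H99.FX L m)] [H3RR.IsFF L (H99.FX L (m * q))]
    [H3RR.IsFF k (modularFunctionFieldFullC k m)] [H94.FunField L (H99.FX L m)]
    [H94.FunField L (H99.FX L (m * q))] {x : Place k (modularFunctionFieldFullC k m)}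
    (hx : (sheets w hπ hdeg hqm arch r hr1 hr2).Node x) :
    0 ≤ x.ord (jk k m) ∧ (∀ P, r P = x → P.adicValuation (jm L m) ≤ 1) ∧
      ∀ P, (sheets w hπ hdeg hqm arch r hr1 hr2).red P = x → P.adicValuation (jmq L m q) ≤ 1 :=
  ⟨H61.Nd.node_ord_jk w hπ hdeg hqm arch r hr1 hr2 hx, H61.Nd.node_jm w hπ hdeg hqm arch r hr1 hr2 hx,
    H61.Nd.node_jmq w hπ hdeg hqm arch r hr1 hr2 hx⟩

/-- **Step (3)**: at a node the reduction of `g` on the first component has a pole, and so has the reduction
`b` of `(Y - X^q)/q`. File `H45NdF`. -/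
theorem poles_at_a_node {L : Type*} [Field L] [Algebra ℚ L] {A : ValuationSubring L}
    {k : Type*} [Field k] {π : A →+* k} {m q : ℕ} [NeZero m] [NeZero q] [Fact q.Prime] [CharP k q]
    [IsAlgClosed k] [Infinite k] (w : H99.AL L m q) (hπ : Function.Surjective π)
    (hdeg : H42.DegLE L k m) (hqm : ¬ q ∣ m) [IsAlgClosed L] [CharZero L] [IsLocalHom π]
    {c : ℕ} (ι : L →+* ℂ) (hc : c = 4 ∨ c = 9) (hcm : c ∣ m) (arch : Arch A)
    (r : Place L (H99.FX L m) → Place k (modularFunctionFieldFullC k m)) {cc : ℕ}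
    (hr1 : ∀ D : Divisor L (H99.FX L m), (cc : ℤ) < Divisor.degree D →
      (H42.modReductionData A π m hπ hdeg).IsRed D (Finsupp.mapDomain r D))
    (hr2 : H34.GR.DivCompat (H42.modReductionData A π m hπ hdeg) r)
    [H3RR.IsFF L (H99.FX L m)] [H3RR.IsFF L (H99.FX L (m * q))]
    [H3RR.IsFF k (modularFunctionFieldFullC k m)] [H94.FunField L (H99.FX L m)]
    [H94.FunField L (H99.FX L (m * q))] {x : Place k (modularFunctionFieldFullC k m)}
    (hx : (sheets w hπ hdeg hqm arch r hr1 hr2).Node x)
    (hj0 : ∀ P, r P = x → P.adicValuation (jm L m) ≤ 1)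
    (hj : ∀ P, (sheets w hπ hdeg hqm arch r hr1 hr2).red P = x →
      P.adicValuation (jmq L m q) ≤ 1) :
    1 < x.adicValuation ((comp1 A π w hπ (H42.degreeFact L) hdeg hqm).red
        (H45.Nd.gF L q ι hc hcm)) ∧
      ∀ β : LaurentSeries ℤ, (q : LaurentSeries ℤ) * β = qExpand ℤ q (H1.Xc c ℤ) - H1.Xc c ℤ ^ q →
        ∀ b : modularFunctionFieldFullC k m,
          (b : LaurentSeries k) = coeffMap (Int.castRingHom k) β → x.ord b < 0 :=
  ⟨H45.Nd.one_lt_gF w hπ hdeg hqm ι hc hcm arch r hr1 hr2 hx hj, fun _ hβ _ hb =>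
    H45.Nd.ord_beta_neg w hπ hdeg hqm ι hc hcm arch r hr1 hr2 hx hj0 hj hβ hb⟩

/-- **The functions** `z = X - Y^q` and `z' = Y - X^q`: expansions, and `w` exchanges them. File
`H45NdF`. -/
theorem parameters {L : Type*} [Field L] [Algebra ℚ L] [IsAlgClosed L] [CharZero L] {c : ℕ}
    {m q : ℕ} [NeZero m] [NeZero q] [Fact q.Prime] (w : H99.AL L m q) (hc : c = 4 ∨ c = 9)
    (hcm : c ∣ m) :
    (H45.Nd.zF L q hc hcm : LaurentSeries L) =
        coeffMap (Int.castRingHom L) (H1.Xc c ℤ - qExpand ℤ q (H1.Xc c ℤ) ^ q) ∧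
      (H45.Nd.zF' L q hc hcm : LaurentSeries L) =
        coeffMap (Int.castRingHom L) (qExpand ℤ q (H1.Xc c ℤ) - H1.Xc c ℤ ^ q) ∧
      w.W (H45.Nd.zF L q hc hcm) = H45.Nd.zF' L q hc hcm ∧
      w.W (H45.Nd.zF' L q hc hcm) = H45.Nd.zF L q hc hcm :=
  ⟨H45.Nd.coe_zF hc hcm, H45.Nd.coe_zF' hc hcm, H45.Nd.W_zF w hc hcm, H45.Nd.W_zF' w hc hcm⟩

/-- **The theorem.** At every node of the two-sheeted model of `X₀(mq)`, `4 ∣ m` or `9 ∣ m`, `q ∤ m`, the
functions `z = X - Y^q` and `z' = Y - X^q` are node parameters: `z z' = q u` with `u` a unit at the node.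
Files `H45NdF`, `H45NdG`; used by helper38 (`H38DvC`, the divisor of `Δ̄^(q-1)`), helper31 (`H31EqL`) and
helper73 (`H73GeoX`). -/
theorem node_parameters {L : Type*} [Field L] [Algebra ℚ L] {A : ValuationSubring L}
    {k : Type*} [Field k] {π : A →+* k} {m q : ℕ} [NeZero m] [NeZero q] [Fact q.Prime] [CharP k q]
    [IsAlgClosed k] [Infinite k] (w : H99.AL L m q) (hπ : Function.Surjective π)
    (hdeg : H42.DegLE L k m) (hqm : ¬ q ∣ m) [IsAlgClosed L] [CharZero L] [IsLocalHom π]
    {c : ℕ} (ι : L →+* ℂ) (hc : c = 4 ∨ c = 9) (hcm : c ∣ m) (arch : Arch A)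
    (r : Place L (H99.FX L m) → Place k (modularFunctionFieldFullC k m)) {cc : ℕ}
    (hr1 : ∀ D : Divisor L (H99.FX L m), (cc : ℤ) < Divisor.degree D →
      (H42.modReductionData A π m hπ hdeg).IsRed D (Finsupp.mapDomain r D))
    (hr2 : H34.GR.DivCompat (H42.modReductionData A π m hπ hdeg) r)
    [H3RR.IsFF L (H99.FX L m)] [H3RR.IsFF L (H99.FX L (m * q))]
    [H3RR.IsFF k (modularFunctionFieldFullC k m)] [H94.FunField L (H99.FX L m)]
    [H94.FunField L (H99.FX L (m * q))] {x : Place k (modularFunctionFieldFullC k m)}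
    (hx : (sheets w hπ hdeg hqm arch r hr1 hr2).Node x) :
    H31.Eq.NodePar (sheets w hπ hdeg hqm arch r hr1 hr2) x (H45.Nd.zF L q hc hcm)
      (H45.Nd.zF' L q hc hcm)
      (H45.Nd.zF L q hc hcm * H45.Nd.zF' L q hc hcm / (q : H99.FX L (m * q))) :=
  H45.Nd.nodePar w hπ hdeg hqm ι hc hcm arch r hr1 hr2 hx

end Curve

end Fermat.Agent.Guide.NodeParameters
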