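import Fermat.Agent.H13EC7
import Fermat.Agent.H13EC8

set_option autoImplicit false

/-!
# Reader's guide: elliptic curves at a multiplicative prime, more steps of the proofs

**What this file is.**  Supplement to `GuideNode`, where the notions (centre, near the node, component), the
method and the results are written out; here are more steps of the proofs.  Every theorem is *proved by
citing the library* (at most three lines); no other module imports this file.

**Situation.**  `W` is a Weierstrass equation over a valuation ring `A` with centre `(x₀, y₀)`, tangents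
`α`, `β` and critical value `-g` (`H13.GoodNode W x₀ y₀ α β g`, `GuideNode.goodNode_iff`).  For a point
`(x, y)` put `ξ = x - x₀`, `s = (y - y₀) - α ξ`, `t = (y - y₀) - β ξ`.  Then `s t = ξ³ + g` and
`t - s = (α - β) ξ`, with `α - β` a unit and `g` small (`GuideNode.equation_at_centre`).
The Tate curve is not used.  The only geometric input is: the sum of three points is zero if they lie on a
line.  For a line `s = L ξ + ν`, `t = M ξ + ν` everything is a statement about the valuations of `L`, `M`,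
`ν`, `g` and of the three roots `ξ₁, ξ₂, ξ₃` of `(L ξ + ν)(M ξ + ν) = ξ³ + g` (section 1).  This gives the
additivity of the components; the components of the `n`-torsion points are `|g| ^ (j / n)`, where the
*index* `j` is a homomorphism modulo `n` (section 2).  Sections 3 and 4: torsion points near the node, the
Galois action and the two halves of the ramification criterion.

**Where it is used.**  In the local types for modularity lifting and in level lowering; the line
"Closures: ..." of a docstring lists the statements SNN whose proof term depends on the theorem cited.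

**Reading order.**  `H13NodeVal`, `H13Node`, `H13NodeComp`, `H13NodeRed`, `H13NodeDiv`, `H13NodeIdx`,
`H13NodeGal`, `H13EC7`.
**Prose.**  NOTES.md, Appendix A.1, NOTES-EC-NODE (helper13).

**Conventions.**  `|x|` stands for `A.valuation x`: `≤ 1` for `x ∈ A`, `< 1` on the maximal ideal.  `E⁄K` is
the base change, `(E⁄K).Point` the group of points of `E` over `K`.  `A.inertiaSubgroupIn S` and
`A.decompositionSubgroup S` are the inertia group and the decomposition group of `A` in `K ≃ₐ[S] K`.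
-/

namespace Fermat.Agent.Guide.NodeSteps

open WeierstrassCurve WeierstrassCurve.Affine IsLocalRing
open Fermat.Agent

/-! ## 1. Valuations of points near the node and of three collinear points

In this section `v` is any valuation of a field `K` with values in a linearly ordered group with zero. -/

/-- *The component as a function of `s` and `t`.* `H13.IsC v s t c` is the condition in the last case of
`GuideNode.component_iff`: `c = |s|` if `|t| ≤ |s|`, `c = |t|⁻¹` if `|s| ≤ |t|`. -/
theorem isC_iff {K Γ : Type*} [Field K] [LinearOrderedCommGroupWithZero Γ] (v : Valuation K Γ)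
    (s t : K) (c : Γ) : H13.IsC v s t c ↔ (v t ≤ v s ∧ c = v s) ∨ (v s ≤ v t ∧ c = (v t)⁻¹) :=
  Iff.rfl

/-- **Sizes near the node.** Let `s t = ξ³ + g`, `t - s = δ ξ` with `|δ| = 1`, `|ξ| < 1`, `|g| < 1`, `g ≠ 0`.
Then `|s|, |t| < 1`; if `|t| < |s|` then `|g| < |s|²`; if `|s| = |t|` then `|g| = |s|²`. So the component `c`
of a point near the node satisfies `|g| ≤ c² ≤ |g|⁻¹` and `c ≠ 1`. Module `H13NodeVal`.
Closures: S01, S03, S04, S06, S38-S40, S43-S46, S50, S58-S60. -/
theorem sizes_near {K Γ : Type*} [Field K] [LinearOrderedCommGroupWithZero Γ] (v : Valuation K Γ)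
    {s t ξ g δ : K} (hg0 : g ≠ 0) (hδ : v δ = 1) (hg : v g < 1) (hξ : v ξ < 1)
    (hts : t - s = δ * ξ) (hst : s * t = ξ ^ 3 + g) :
    v s < 1 ∧ v t < 1 ∧ (v t < v s → v g < v s ^ 2) ∧ (v s = v t → v g = v s ^ 2) :=
  ⟨H13.near_s_lt v hδ hg hξ hts hst, H13.near_t_lt v hδ hg hξ hts hst,
    H13.near_lt v hδ hg hξ hts hst, H13.near_middle v hg0 hδ hg hξ hts hst⟩

/-- **The component is unique modulo powers of `|g|`**: only if `|s| = |t|` there are two values, `|s|` and
`|s|⁻¹ = |s| |g|⁻¹`. Module `H13NodeVal`.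
Closures: S01, S03, S04, S06, S38-S40, S43-S46, S50, S58-S60. -/
theorem isC_unique {K Γ : Type*} [Field K] [LinearOrderedCommGroupWithZero Γ] (v : Valuation K Γ)
    {s t ξ g δ : K} {c c' : Γ} (hg0 : g ≠ 0) (hδ : v δ = 1) (hg : v g < 1) (hξ : v ξ < 1)
    (hts : t - s = δ * ξ) (hst : s * t = ξ ^ 3 + g) (h : H13.IsC v s t c) (h' : H13.IsC v s t c') :
    ∃ k : ℤ, c' = c * v g ^ k :=
  h.unique hg0 hδ hg hξ hts hst h'

/-- **Three points with sum zero lie on a line** `s = L ξ + ν`, `t = M ξ + ν`, and `ξ₁, ξ₂, ξ₃` are the roots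
of `(L ξ + ν)(M ξ + ν) = ξ³ + g`; the four equations for the coefficients are written out. (Tangents
included, any characteristic.) Module `H13Node`.
Closures: S01, S03, S04, S06, S38-S40, S43-S46, S50, S58-S60. -/
theorem exists_line {K : Type*} [Field K] [DecidableEq K] {W : WeierstrassCurve K}
    {x₀ y₀ α β g : K} (h : H13.NodeData W x₀ y₀ α β g) {x₁ y₁ x₂ y₂ x₃ y₃ : K}
    {h₁ : W.toAffine.Nonsingular x₁ y₁} {h₂ : W.toAffine.Nonsingular x₂ y₂}
    {h₃ : W.toAffine.Nonsingular x₃ y₃}
    (hsum : Point.some x₁ y₁ h₁ + Point.some x₂ y₂ h₂ + Point.some x₃ y₃ h₃ = 0) :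
    ∃ L M ν : K, (M - L = α - β ∧ (x₁ - x₀) + (x₂ - x₀) + (x₃ - x₀) = L * M ∧
        (x₁ - x₀) * (x₂ - x₀) + (x₂ - x₀) * (x₃ - x₀) + (x₃ - x₀) * (x₁ - x₀) = -(ν * (L + M)) ∧
        (x₁ - x₀) * (x₂ - x₀) * (x₃ - x₀) = ν ^ 2 - g) ∧
      (y₁ - y₀) - α * (x₁ - x₀) = L * (x₁ - x₀) + ν ∧ (y₁ - y₀) - β * (x₁ - x₀) = M * (x₁ - x₀) + ν ∧
      (y₂ - y₀) - α * (x₂ - x₀) = L * (x₂ - x₀) + ν ∧ (y₂ - y₀) - β * (x₂ - x₀) = M * (x₂ - x₀) + ν ∧
      (y₃ - y₀) - α * (x₃ - x₀) = L * (x₃ - x₀) + ν ∧ (y₃ - y₀) - β * (x₃ - x₀) = M * (x₃ - x₀) + ν :=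
  let ⟨L, M, ν, hl, H⟩ := h.exists_lineData hsum
  ⟨L, M, ν, ⟨hl.dif, hl.e₁, hl.e₂, hl.e₃⟩, H⟩

/-- **Two points near the node, one away**: the components of the two are inverse to each other (the larger
coordinate is `s` at one of the two points and `t` at the other, and these coordinates have the same value).
The hypotheses `h₀`-`h₃` are those of `exists_line`. Module `H13NodeVal`.
Closures: S01, S03, S04, S06, S38-S40, S43-S46, S50, S58-S60. -/
theorem two_points_near {K Γ : Type*} [Field K] [LinearOrderedCommGroupWithZero Γ]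
    (v : Valuation K Γ) {δ g L M ν ξ₁ ξ₂ ξ₃ : K} (h₀ : M - L = δ) (h₁ : ξ₁ + ξ₂ + ξ₃ = L * M)
    (h₂ : ξ₁ * ξ₂ + ξ₂ * ξ₃ + ξ₃ * ξ₁ = -(ν * (L + M))) (h₃ : ξ₁ * ξ₂ * ξ₃ = ν ^ 2 - g)
    (hδ : v δ = 1) (hg0 : g ≠ 0) (hg : v g < 1) (hξ₁ : 1 ≤ v ξ₁) (hξ₂ : v ξ₂ < 1) (hξ₃ : v ξ₃ < 1) :
    (v (L * ξ₂ + ν) = v (M * ξ₃ + ν) ∧ v (M * ξ₂ + ν) ≤ v (L * ξ₂ + ν) ∧
      v (L * ξ₃ + ν) ≤ v (M * ξ₃ + ν)) ∨
    (v (M * ξ₂ + ν) = v (L * ξ₃ + ν) ∧ v (L * ξ₂ + ν) ≤ v (M * ξ₂ + ν) ∧
      v (M * ξ₃ + ν) ≤ v (L * ξ₃ + ν)) :=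
  H13.LineData.caseIII ⟨h₀, h₁, h₂, h₃⟩ hδ hg0 hg hξ₁ hξ₂ hξ₃

/-- **One point near the node, two away, is impossible**: the points away from the node form a subgroup.
Module `H13NodeVal`. Closures: S01, S03, S04, S06, S38-S40, S43-S46, S50, S58-S60. -/
theorem away_closed {K Γ : Type*} [Field K] [LinearOrderedCommGroupWithZero Γ]
    (v : Valuation K Γ) {δ g L M ν ξ₁ ξ₂ ξ₃ : K} (h₀ : M - L = δ) (h₁ : ξ₁ + ξ₂ + ξ₃ = L * M)
    (h₂ : ξ₁ * ξ₂ + ξ₂ * ξ₃ + ξ₃ * ξ₁ = -(ν * (L + M))) (h₃ : ξ₁ * ξ₂ * ξ₃ = ν ^ 2 - g)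
    (hδ : v δ = 1) (hg : v g < 1) (hξ₁ : 1 ≤ v ξ₁) (hξ₂ : 1 ≤ v ξ₂) : 1 ≤ v ξ₃ :=
  H13.LineData.closed ⟨h₀, h₁, h₂, h₃⟩ hδ hg hξ₁ hξ₂

/-! ## 2. Components and indices -/

/-- **Additivity, symmetric form**: if `P + Q + R = 0` the product of the components is a power of `|g|`. The
cases of section 1; three points near the node: `GuideNode.three_points`. Module `H13NodeComp`.
Closures: S01, S03, S04, S06, S38-S40, S43-S46, S50, S58-S60. -/
theorem component_sum_zero {K : Type*} [Field K] [DecidableEq K] {A : ValuationSubring K}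
    {W : WeierstrassCurve A} {x₀ y₀ α β g : A} {EL : Affine K} (hN : H13.GoodNode W x₀ y₀ α β g)
    (hL : W.map A.subtype = EL) {P Q R : EL.Point} {a b c : A.ValueGroup}
    (hP : H13.Comp A x₀ y₀ α β P a) (hQ : H13.Comp A x₀ y₀ α β Q b)
    (hR : H13.Comp A x₀ y₀ α β R c) (h : P + Q + R = 0) :
    ∃ k : ℤ, a * b * c = A.valuation (g : K) ^ k :=
  H13.Comp.sum_zero hN hL hP hQ hR h

/-- *Index.* `H13.IsIdx x₀ y₀ α β g n P j` says that `P` has the component `|g| ^ (j / n)`. -/
theorem isIdx_iff {K : Type*} [Field K] {A : ValuationSubring K} (x₀ y₀ α β g : A)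
    {EL : Affine K} (n : ℕ) (P : EL.Point) (j : ℤ) :
    H13.IsIdx x₀ y₀ α β g n P j ↔
      ∃ c, H13.Comp A x₀ y₀ α β P c ∧ c ^ n = A.valuation (g : K) ^ j :=
  Iff.rfl

/-- **Existence of the index**: if `n P` is not near the node (in particular if `n P = 0`), the component of
`P` is `|g| ^ (j / n)` for some `j`. Module `H13NodeIdx`.
Closures: S01, S03, S04, S06, S38-S40, S43-S46, S50, S59, S60. -/
theorem exists_index {K : Type*} [Field K] [DecidableEq K] {A : ValuationSubring K}
    {W : WeierstrassCurve A} {x₀ y₀ α β g : A} {EL : Affine K} (hN : H13.GoodNode W x₀ y₀ α β g)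
    (hL : W.map A.subtype = EL) {n : ℕ} {P : EL.Point} (h : ¬ H13.Near A x₀ (n • P)) :
    ∃ j, H13.IsIdx x₀ y₀ α β g n P j :=
  H13.exists_isIdx hN hL h

/-- **The index is a homomorphism modulo `n`.** Module `H13NodeIdx`.
Closures: S01, S03, S04, S06, S38-S40, S43-S46, S50, S59, S60. -/
theorem index_sub {K : Type*} [Field K] [DecidableEq K] {A : ValuationSubring K}
    {W : WeierstrassCurve A} {x₀ y₀ α β g : A} {EL : Affine K} (hN : H13.GoodNode W x₀ y₀ α β g)
    (hL : W.map A.subtype = EL) {n : ℕ} {P Q : EL.Point} {i j : ℤ}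
    (hi : H13.IsIdx x₀ y₀ α β g n P i) (hj : H13.IsIdx x₀ y₀ α β g n Q j) :
    ∃ l : ℤ, H13.IsIdx x₀ y₀ α β g n (P - Q) (i - j + n * l) :=
  hi.sub hN hL hj

/-- **Index zero modulo `n`**: the point is not near the node. Module `H13NodeIdx`.
Closures: S01, S03, S04, S06, S38-S40, S43-S46, S50, S59, S60. -/
theorem not_near_of_index {K : Type*} [Field K] {A : ValuationSubring K}
    {W : WeierstrassCurve A} {x₀ y₀ α β g : A} {EL : Affine K} (hN : H13.GoodNode W x₀ y₀ α β g)
    (hL : W.map A.subtype = EL) {n : ℕ} (hn : n ≠ 0) {P : EL.Point} {j : ℤ}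
    (h : H13.IsIdx x₀ y₀ α β g n P j) (hj : (n : ℤ) ∣ j) : ¬ H13.Near A x₀ P :=
  H13.not_near_of_isIdx hN hL hn h hj

/-! ## 3. Torsion points -/

/-- **Residue characteristic `p`, `p`-power torsion**: a point with nonsingular reduction, a `p`-power
multiple of which is in the kernel of reduction, is itself in the kernel of reduction, because `kˣ` has no
`p`-torsion (`GuideNode.nodal_parameter`). Module `H13NodeDiv`.
Closures: S01, S03, S04, S06, S38-S40, S43-S46, S50, S59, S60. -/
theorem reduces_zero_of_pow_nsmul {K : Type*} [Field K] [DecidableEq K] {A : ValuationSubring K}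
    {W : WeierstrassCurve A} {x₀ y₀ α β g : A} {EL : Affine K} (hN : H13.GoodNode W x₀ y₀ α β g)
    (hL : W.map A.subtype = EL) {p : ℕ} (hp : p.Prime) (hpk : (p : ResidueField A) = 0)
    {P : EL.Point} (hP : ¬ H13.Near A x₀ P) {m : ℕ}
    (h : H59.Reduces A (residue A) (p ^ m • P) (0 : (W.map (residue A)).toAffine.Point)) :
    H59.Reduces A (residue A) P (0 : (W.map (residue A)).toAffine.Point) :=
  H13.reduces_zero_of_pow_nsmul hN hL hp hpk hP h

/-- **Residue characteristic different from `p`**: if `E[p]` has `p²` elements there is a `p`-torsion point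
near the node. Otherwise all of them have nonsingular reduction; reduction is injective on them (its kernel
has no `p`-torsion), but the reduced curve has at most `p` points of order dividing `p`
(`GuideNode.nodal_parameter`). Here `E` is the base change of the integral equation `W` to a ring `R`.
Module `H13EC7`. Closures: S01, S03, S04, S06, S38, S43, S45, S46, S50, S59, S60. -/
theorem exists_torsion_near_of_ne {R K : Type*} [CommRing R] [Field K] [Algebra R K]
    [DecidableEq K] {W : WeierstrassCurve ℤ} {E : Affine R} {A : ValuationSubring K}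
    {x₀ y₀ α β g : A} (hN : H13.GoodNode (W.map (Int.castRingHom A)) x₀ y₀ α β g)
    (hE : W.map (Int.castRingHom R) = E) {p : ℕ} (hp2 : 2 ≤ p) (hp : (p : ResidueField A) ≠ 0)
    (hcard : Nat.card (Submodule.torsionBy ℤ (E⁄K).Point (p : ℤ)) = p ^ 2) :
    ∃ P : (E⁄K).Point, p • P = 0 ∧ H13.Near A x₀ P :=
  H13.exists_near hN hE hp2 hp hcard

/-! ## 4. Galois action

`E` is the base change to a ring `R` of the integral equation `W`, `K` is an algebraic extension of a field
`S` over `R`, `A` a valuation ring of `K`. -/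

/-- **Galois elements preserve or invert components**: `σ` in the decomposition group fixes the centre
(uniqueness of the centre; here `h1`, `h2`); if it fixes the tangents the component of `σ P` is the one of
`P`, if it swaps them the inverse. Module `H13NodeGal`.
Closures: S01, S03, S04, S06, S38, S45, S46, S50, S59, S60 (first half also S39, S40, S43, S44, S58). -/
theorem component_galois {R S K : Type*} [CommRing R] [Field S] [Field K] [Algebra R S]
    [Algebra R K] [Algebra S K] [IsScalarTower R S K] [Algebra.IsAlgebraic S K] [DecidableEq K]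
    {E : Affine R} {A : ValuationSubring K} {x₀ y₀ α β : A} {σ : K ≃ₐ[S] K}
    (hσ : σ ∈ A.decompositionSubgroup S) (h1 : σ x₀ = x₀) (h2 : σ y₀ = y₀) {P : (E⁄K).Point}
    {c : A.ValueGroup} (h : H13.Comp A x₀ y₀ α β P c) :
    ((σ α = α ∧ σ β = β) → H13.Comp A x₀ y₀ α β (σ • P) c) ∧
      ((σ α = β ∧ σ β = α) → H13.Comp A x₀ y₀ α β (σ • P) c⁻¹) :=
  ⟨fun ⟨h3, h4⟩ => h.smul_of_fix hσ h1 h2 h3 h4, fun ⟨h3, h4⟩ => h.smul_of_swap hσ h1 h2 h3 h4⟩

/-- **Ramification criterion, first half**: if `|g| = |z| ^ p` for an element `z` fixed by `σ` in the inertia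
group, then `σ` fixes the `p`-torsion points (`p ≠ 0` in the residue field). The component of a `p`-torsion
point is a power of `|z|`, and `GuideNode.sub_reduces_zero` applies to `P` and `σ P`. Module `H13EC7`.
Closures: S01, S03, S43, S45. -/
theorem inertia_fixes_of_pow {R S K : Type*} [CommRing R] [Field S] [Field K] [Algebra R S]
    [Algebra R K] [Algebra S K] [IsScalarTower R S K] [Algebra.IsAlgebraic S K] [DecidableEq K]
    {W : WeierstrassCurve ℤ} {E : Affine R} {A : ValuationSubring K} {x₀ y₀ α β g : A}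
    (hN : H13.GoodNode (W.map (Int.castRingHom A)) x₀ y₀ α β g)
    (hE : W.map (Int.castRingHom R) = E) {σ : K ≃ₐ[S] K} (hσ : σ ∈ A.inertiaSubgroupIn S)
    {p : ℕ} (hp0 : p ≠ 0) (hp : (p : ResidueField A) ≠ 0) {z : K} (hz : σ z = z)
    (hg : A.valuation (g : K) = A.valuation z ^ p) {P : (E⁄K).Point} (hpP : p • P = 0) :
    σ • P = P :=
  H13.smul_eq_of_dvd hN hE hσ hp0 hp hz hg hpP

/-- **Ramification criterion, second half**: let `|g| = |z| ^ N`, `z` fixed by `σ` in the inertia group,
`p ∤ N`. If `σ` fixes a `p`-torsion point near the node, then `σ` fixes every `p`-th root `π` of `z`. Proof: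
the coordinate `s` of the point (or `t`) has the same value as `π ^ (N k)` for some `k` prime to `p`; `σ`
fixes it and multiplies `π` by a `p`-th root of unity `ζ`, so `ζ ^ (N k)` is congruent to 1 and `ζ = 1`.
Module `H13EC7`. Closures: S01, S03, S43, S45. -/
theorem inertia_fixes_root {R S K : Type*} [CommRing R] [Field S] [Field K] [Algebra R S]
    [Algebra R K] [Algebra S K] [IsScalarTower R S K] [Algebra.IsAlgebraic S K] [DecidableEq K]
    {W : WeierstrassCurve ℤ} {E : Affine R} {A : ValuationSubring K} {x₀ y₀ α β g : A}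
    (hN : H13.GoodNode (W.map (Int.castRingHom A)) x₀ y₀ α β g)
    (hE : W.map (Int.castRingHom R) = E) {σ : K ≃ₐ[S] K} (hσ : σ ∈ A.inertiaSubgroupIn S)
    {p : ℕ} (hp : p.Prime) (hpk : (p : ResidueField A) ≠ 0) {P : (E⁄K).Point} (hpP : p • P = 0)
    (hnear : H13.Near A x₀ P) (hσP : σ • P = P) {π z : K} (hπ : π ^ p = z) (hσz : σ z = z) {N : ℕ}
    (hz0 : z ≠ 0) (hg : A.valuation (g : K) = A.valuation z ^ N) (hpN : ¬ p ∣ N) : σ π = π :=
  H13.fix_of_smul_eq hN hE hσ hp hpk hpP hnear hσP hπ hσz hz0 hg hpN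

end Fermat.Agent.Guide.NodeSteps
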