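import Fermat.Agent.H94BRE
import Fermat.Agent.H30Datum
import Fermat.Agent.H89Inst

/-!
# Eigenclasses of level `M q` killed by both traces at a Taylor–Wiles prime `q` do not exist
-/

set_option autoImplicit false
set_option linter.style.haveILetI false
set_option linter.unusedSectionVars false

noncomputable section

open IsLocalRing Module TensorProduct Polynomial CongruenceSubgroup ModularCurve AlgebraicCurve
open Fermat.Agent.H31 Fermat.Agent.H30 Fermat.Agent.H35 Fermat.Agent.H62 Fermat.Agent.H4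
open Fermat.Agent.H70.Coh Fermat.Agent.H94.BR Fermat.Agent.H67

namespace Fermat.Agent.H37.NN

local notation "Qb" => AlgebraicClosure ℚ
local notation "Gq" => (AlgebraicClosure ℚ ≃ₐ[ℚ] AlgebraicClosure ℚ)

section Lattice

variable {p : ℕ} [Fact p.Prime] {S : Finset ℕ} (hpS : p ∈ S)
    (𝒪' : Type) [CommRing 𝒪'] [IsDomain 𝒪'] [IsDiscreteValuationRing 𝒪']
    [IsAdicComplete (maximalIdeal 𝒪') 𝒪'] [Finite (ResidueField 𝒪')]
    [CharZero 𝒪'] [Algebra ℤ_[p] 𝒪'] (hp𝒪' : (p : 𝒪') ∈ maximalIdeal 𝒪')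
    {Λ : Type*} [CommRing Λ] (χ : Λ →+* 𝒪') (tl : ℕ → Λ)
    {T : Type*} [AddCommGroup T] [Module ℤ_[p] T] [Module.Free ℤ_[p] T] [Module.Finite ℤ_[p] T]
    (ρT : H53.GQ →* Module.End ℤ_[p] T) (act : Λ →+* Module.End ℤ_[p] T)
    (hcont : ∀ n : ℕ, ∃ L : IntermediateField ℚ (AlgebraicClosure ℚ), FiniteDimensional ℚ L ∧
      ∀ σ : H53.GQ, (∀ x ∈ L, σ x = x) → ∀ x : T, ∃ y : T, ρT σ x - x = (p : ℤ_[p]) ^ n • y)
    (hcomm : ∀ P σ, Commute (act P) (ρT σ))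
    (hfrob : ∀ ℓ : ℕ, ℓ.Prime → ℓ ∉ S → ∀ A : ValuationSubring (AlgebraicClosure ℚ),
      A.LiesOverPrime ℓ → ∀ φ : H53.GQ, A.IsFrobeniusAt φ ℓ →
        ∀ x : T, ρT φ (ρT φ x) - act (tl ℓ) (ρT φ x) + ℓ • x = 0)

include hpS hcont hcomm hfrob hp𝒪' in
/-- An eigenvector in a Hecke-Galois lattice has an attached representation. -/
theorem exists_attached_lattice (hne : chiSub act χ ≠ ⊥) :
    ∃ (𝒪'' : Type) (_ : CommRing 𝒪'') (_ : IsDomain 𝒪'') (_ : IsDiscreteValuationRing 𝒪'')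
      (_ : IsAdicComplete (maximalIdeal 𝒪'') 𝒪'') (_ : Finite (ResidueField 𝒪''))
      (_ : CharZero 𝒪'') (_ : Algebra 𝒪' 𝒪'') (_ : Module.Finite 𝒪' 𝒪'')
      (_ : IsLocalHom (algebraMap 𝒪' 𝒪'')),
      Function.Injective (algebraMap 𝒪' 𝒪'') ∧
      ∃ ρ : GaloisRepAdic 𝒪'', IsAttached S (fun ℓ => χ (tl ℓ)) ρ := by
  have hfr : ∀ ℓ : ℕ, ℓ.Prime → ℓ ∉ S → ∀ A : ValuationSubring (AlgebraicClosure ℚ),
      A.LiesOverPrime ℓ → ∀ φ : H53.GQ, A.IsFrobeniusAt φ ℓ →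
        ∀ w : chiSub act χ, galChi act χ ρT hcomm φ (galChi act χ ρT hcomm φ w)
          - χ (tl ℓ) • galChi act χ ρT hcomm φ w + (ℓ : 𝒪') • w = 0 := by
    intro ℓ hℓ hℓS A hA φ hφ w
    have h1 := baseChange_quadratic 𝒪' (ρT φ) (act (tl ℓ)) ℓ (χ (tl ℓ))
      (hfrob ℓ hℓ hℓS A hA φ hφ) (v := (w : 𝒪' ⊗[ℤ_[p]] T))
      (baseChange_mem_chiSub act χ (fun P => hcomm P φ) w.2 (tl ℓ))
    exact Subtype.ext h1
  have hct := galChi_cont 𝒪' hp𝒪' χ ρT act hcont hcomm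
  have h0 := exists_rep_of_sublattice hpS 𝒪' hp𝒪' (chiSub act χ) hne
    (galChi act χ ρT hcomm) hct (fun ℓ => χ (tl ℓ)) hfr
  obtain ⟨-, 𝒪'', i1, i2, i3, i4, i5, i6, i7, i8, i9, hinj, ρ, hcp, -⟩ := h0
  refine ⟨𝒪'', i1, i2, i3, i4, i5, i6, i7, i8, i9, hinj, ρ, ?_⟩
  intro ℓ hℓ hℓS A hA φ hφ
  have hℓp : ℓ ≠ p := fun h => hℓS (h ▸ hpS)
  have hcyc : cyc 𝒪' hp𝒪' φ = (ℓ : 𝒪') := cyc_frobenius 𝒪' hp𝒪' hℓ hℓp hA hφ
  have h1 := hcp φ (χ (tl ℓ)) (fun w => by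
    rw [hcyc]; exact hfr ℓ hℓ hℓS A hA φ hφ w)
  rw [hcyc, map_natCast] at h1
  exact h1

end Lattice

section J

variable {p : ℕ} [Fact p.Prime] {S : Finset ℕ}
    {𝒪' : Type} [CommRing 𝒪'] [IsDomain 𝒪'] [IsDiscreteValuationRing 𝒪']
    [IsAdicComplete (maximalIdeal 𝒪') 𝒪'] [Finite (ResidueField 𝒪')]
    [CharZero 𝒪'] [Algebra ℤ_[p] 𝒪']

/-- **A Hecke eigenvector in `𝒪' ⊗ T_p J₀(N)` has an attached Galois representation.** -/
theorem exists_attached {N : ℕ} [NeZero N] (hpS : p ∈ S)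
    (hNS : ∀ q : ℕ, q.Prime → q ∣ N → q ∈ S) (hp𝒪' : (p : 𝒪') ∈ maximalIdeal 𝒪') {lam : ℕ → 𝒪'}
    {v : 𝒪' ⊗[ℤ_[p]] TateMod p (JZero N)} (hv : IsEigJ p N S lam v) (hv0 : v ≠ 0) :
    ∃ (𝒪'' : Type) (_ : CommRing 𝒪'') (_ : IsDomain 𝒪'') (_ : IsDiscreteValuationRing 𝒪'')
      (_ : IsAdicComplete (maximalIdeal 𝒪'') 𝒪'') (_ : Finite (ResidueField 𝒪''))
      (_ : CharZero 𝒪'') (_ : Algebra 𝒪' 𝒪'') (_ : Module.Finite 𝒪' 𝒪'')
      (_ : IsLocalHom (algebraMap 𝒪' 𝒪'')),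
      Function.Injective (algebraMap 𝒪' 𝒪'') ∧
      ∃ ρ : GaloisRepAdic 𝒪'', IsAttached S lam ρ := by
  letI := heckeModuleBar N
  haveI := (jzeroInputs N).comm
  haveI := (jzeroInputs N).principal
  have hp : p.Prime := Fact.out
  have hfin : {x : JZero N | p • x = 0}.Finite := by simpa using (jzeroInputs N).finite p 1 hp
  have hF := frobeniusQuadratic_of_specializationExists ((jzeroInputs N).spec p hp)
  have hlev := finiteLevel_JZero N p (fun n => (jzeroInputs N).finite p n hp)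
  have := TateMod.finite_of_finite_torsion (p := p) (J := JZero N) hfin
  have := TateMod.free_of_finite_torsion (p := p) (J := JZero N) hfin
  have hne : chiSub (actTate p (JZero N) N (↑S : Set ℕ)) (chiOf N S lam) ≠ ⊥ :=
    (Submodule.ne_bot_iff _).mpr ⟨v, hv.mem_chiSub, hv0⟩
  obtain ⟨𝒪'', i1, i2, i3, i4, i5, i6, i7, i8, i9, hinj, ρ, hρ⟩ :=
    exists_attached_lattice hpS 𝒪' hp𝒪' (chiOf N S lam) (tlN N S) (galTate p (JZero N))
      (actTate p (JZero N) N (↑S : Set ℕ)) (galTate_continuous hlev)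
      (actTate_commute N (↑S : Set ℕ)) (frob_actTate hpS hNS hF) hne
  refine ⟨𝒪'', i1, i2, i3, i4, i5, i6, i7, i8, i9, hinj, ρ, ?_⟩
  intro ℓ hℓ hℓS A hA φ hφ
  have h1 := hρ ℓ hℓ hℓS A hA φ hφ
  have h2 : chiOf N S lam (tlN N S ℓ) = lam ℓ := by
    have hℓN : ¬ ℓ ∣ N := fun h' => hℓS (hNS ℓ hℓ h')
    have hℓS' : ℓ ∉ (↑S : Set ℕ) := by simpa using hℓS
    have h4 : tlN N S ℓ = MvPolynomial.X (⟨⟨ℓ, hℓ⟩, hℓN, hℓS'⟩ : GoodPrimes N (↑S : Set ℕ)) :=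
      tlN_coe (N := N) (S := S) (⟨⟨ℓ, hℓ⟩, hℓN, hℓS'⟩ : GoodPrimes N (↑S : Set ℕ))
    rw [h4, H4.chiOf_X]
  simp only [h2] at h1
  exact h1

set_option maxHeartbeats 1600000 in
/-- **(E35)** for `J₀(Mq)`, attached representations over extensions. -/
theorem E35_JZero_ext {M q : ℕ} [NeZero M] [NeZero (M * q)] [NeZero q] (hpS : p ∈ S)
    (hNS : ∀ r : ℕ, r.Prime → r ∣ M * q → r ∈ S)
    (hp𝒪' : (p : 𝒪') ∈ IsLocalRing.maximalIdeal 𝒪') {lam : ℕ → 𝒪'}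
    {v : 𝒪' ⊗[ℤ_[p]] TateMod p (JZero (M * q))} (hv : IsEigJ p (M * q) S lam v) (hv0 : v ≠ 0)
    (hq : q.Prime) (hqp : q ≠ p) (hqM : ¬ q ∣ M) (hstar : StarInput p q M)
    (h1 : (tateMap (p := p) (degPush (M := M) (N := M * q) 1 (by simp))).baseChange 𝒪' v = 0)
    (h2 : (tateMap (p := p) (degPush (M := M) (N := M * q) q (dvd_refl _))).baseChange 𝒪' v = 0) :
    ∃ u : 𝒪', (u = 1 ∨ u = -1) ∧
      ∀ {𝒪'' : Type} [CommRing 𝒪''] [IsLocalRing 𝒪''] [IsHausdorff (maximalIdeal 𝒪'') 𝒪'']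
        [Algebra 𝒪' 𝒪''] [IsLocalHom (algebraMap 𝒪' 𝒪'')]
        (ρ : GaloisRepAdic 𝒪'') (_ : IsAttached S lam ρ)
        (A : ValuationSubring (AlgebraicClosure ℚ)) (_ : A.LiesOverPrime q)
        (σ : H53.GQ) (_ : A.IsFrobeniusAt σ q),
        LinearMap.charpoly (ρ.ρ σ) =
          (X - C (algebraMap 𝒪' 𝒪'' u)) * (X - C (algebraMap 𝒪' 𝒪'' u * (q : 𝒪''))) := by
  letI := heckeModuleBar (M * q)
  letI := heckeModuleBar M
  haveI := (jzeroInputs (M * q)).comm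
  haveI := (jzeroInputs (M * q)).principal
  have hp : p.Prime := Fact.out
  have hc : M.Coprime q := (Nat.coprime_comm.mp ((Nat.Prime.coprime_iff_not_dvd hq).mpr hqM))
  let D : SteinbergJ (M * q) (↑S : Set ℕ) p q (JZero (M * q)) (JZero M) :=
    { w := wJ M q rfl hc
      f := degPush 1 (by simp)
      g := degPull q (dvd_refl _)
      w_w := wJ_wJ rfl hc
      w_hecke := heckeEquiv_wJ hc (↑S : Set ℕ)
      w_gal := wJ_galois rfl hc
      f_hecke := heckeEquiv_degPush hq (Or.inl rfl) _ (↑S : Set ℕ)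
      star := hstar hc }
  have hcomp : ∀ {J₀ J₁ J₂ : Type} [AddCommGroup J₀] [AddCommGroup J₁] [AddCommGroup J₂]
      (f : J₀ →+ J₁) (g : J₁ →+ J₂), tateMap (p := p) (g.comp f) =
        (tateMap (p := p) g) ∘ₗ (tateMap (p := p) f) := by
    intro J₀ J₁ J₂ _ _ _ f g
    rfl
  obtain ⟨u, hu, h⟩ := E35_of_module (J := JZero (M * q)) hpS hNS 𝒪' hp𝒪' (chiOf (M * q) S lam)
    (by simpa using (jzeroInputs (M * q)).finite p 1 hp)
    (frobeniusQuadratic_of_specializationExists ((jzeroInputs (M * q)).spec p hp))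
    (finiteLevel_JZero (M * q) p (fun n => (jzeroInputs (M * q)).finite p n hp)) hq hqp D
    hv.mem_chiSub hv0 (by
      show (tateMap (p := p) ((degPull q (dvd_refl _)).comp
        (degPush (M := M) (N := M * q) 1 (by simp)))).baseChange 𝒪' v = 0
      rw [hcomp, LinearMap.baseChange_comp, LinearMap.comp_apply, h1, map_zero])
    (by
      show (tateMap (p := p) ((degPull q (dvd_refl _)).comp
        (degPush (M := M) (N := M * q) 1 (by simp)))).baseChange 𝒪'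
          ((tateMap (p := p) (wJ M q rfl hc)).baseChange 𝒪' v) = 0
      rw [hcomp, LinearMap.baseChange_comp, LinearMap.comp_apply, ← LinearMap.comp_apply
        ((tateMap (p := p) (degPush (M := M) (N := M * q) 1 (by simp))).baseChange 𝒪'),
        ← LinearMap.baseChange_comp, ← hcomp]
      have h3 : (degPush (M := M) (N := M * q) 1 (by simp)).comp (wJ M q rfl hc) =
          degPush (M := M) (N := M * q) q (dvd_refl _) :=
        AddMonoidHom.ext fun x => degPush_one_wJ rfl hc (by simp) (dvd_refl _) x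
      rw [h3, h2, map_zero])
  refine ⟨u, hu, ?_⟩
  intro 𝒪'' _ _ _ _ _ ρ hρ A hA σ hσ
  exact h ρ (isAttachedN_chiOf hρ) A hA σ hσ

end J

section Residual

variable {k : Type} [Field k]

/-- Residual representations with the same Frobenius polynomials. -/
theorem charpoly_eq_of_frob {S : Finset ℕ} {a : ∀ ℓ : ℕ, ℓ.Prime → ℓ ∉ S → k}
    (ρ₁ ρ₂ : ResidualGaloisRep k)
    (h₁ : ∀ (ℓ : ℕ) (hℓ : ℓ.Prime) (hℓS : ℓ ∉ S) (A : ValuationSubring Qb),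
      A.LiesOverPrime ℓ → ∀ φ : Gq, A.IsFrobeniusAt φ ℓ →
        LinearMap.charpoly (ρ₁.ρ φ) = X ^ 2 - C (a ℓ hℓ hℓS) * X + C ((ℓ : k)))
    (h₂ : ∀ (ℓ : ℕ) (hℓ : ℓ.Prime) (hℓS : ℓ ∉ S) (A : ValuationSubring Qb),
      A.LiesOverPrime ℓ → ∀ φ : Gq, A.IsFrobeniusAt φ ℓ →
        LinearMap.charpoly (ρ₂.ρ φ) = X ^ 2 - C (a ℓ hℓ hℓS) * X + C ((ℓ : k))) (σ : Gq) :
    LinearMap.charpoly (ρ₁.ρ σ) = LinearMap.charpoly (ρ₂.ρ σ) := by
  haveI : IsHausdorff (maximalIdeal k) k := isHausdorff_field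
  let b₁ := Module.finBasisOfFinrankEq k ρ₁.V ρ₁.finrank_eq
  let b₂ := Module.finBasisOfFinrankEq k ρ₂.V ρ₂.finrank_eq
  have hu := frobData_unique (mcont_residual ρ₁ b₁) (mcont_residual ρ₂ b₂)
    (frobData_toMat_residual ρ₁ b₁ h₁) (frobData_toMat_residual ρ₂ b₂ h₂) σ
  rw [← LinearMap.charpoly_toMatrix (ρ₁.ρ σ) b₁, ← LinearMap.charpoly_toMatrix (ρ₂.ρ σ) b₂,
    Matrix.charpoly_fin_two, Matrix.charpoly_fin_two]
  rw [H53.toMat_apply, H53.toMat_apply] at hu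
  rw [hu.1, hu.2]

/-- The same for two fields. -/
theorem charpoly_map_of_frob {k' : Type} [Field k'] (ι : k →+* k') {S : Finset ℕ}
    {a : ∀ ℓ : ℕ, ℓ.Prime → ℓ ∉ S → k}
    (ρ₁ : ResidualGaloisRep k) (ρ₂ : ResidualGaloisRep k')
    (h₁ : ∀ (ℓ : ℕ) (hℓ : ℓ.Prime) (hℓS : ℓ ∉ S) (A : ValuationSubring Qb),
      A.LiesOverPrime ℓ → ∀ φ : Gq, A.IsFrobeniusAt φ ℓ →
        LinearMap.charpoly (ρ₁.ρ φ) = X ^ 2 - C (a ℓ hℓ hℓS) * X + C ((ℓ : k)))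
    (h₂ : ∀ (ℓ : ℕ) (hℓ : ℓ.Prime) (hℓS : ℓ ∉ S) (A : ValuationSubring Qb),
      A.LiesOverPrime ℓ → ∀ φ : Gq, A.IsFrobeniusAt φ ℓ →
        LinearMap.charpoly (ρ₂.ρ φ) = X ^ 2 - C (ι (a ℓ hℓ hℓS)) * X + C ((ℓ : k'))) (σ : Gq) :
    LinearMap.charpoly (ρ₂.ρ σ) = (LinearMap.charpoly (ρ₁.ρ σ)).map ι := by
  letI : Algebra k k' := ι.toAlgebra
  have hbc : ∀ τ, LinearMap.charpoly ((ρ₁.baseChangeAlong ι).ρ τ) =
      (LinearMap.charpoly (ρ₁.ρ τ)).map ι := fun τ =>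
    LinearMap.charpoly_baseChange (A := k') (ρ₁.ρ τ)
  rw [← hbc]
  refine charpoly_eq_of_frob (S := S) (a := fun ℓ hℓ hℓS => ι (a ℓ hℓ hℓS)) ρ₂
    (ρ₁.baseChangeAlong ι) h₂ ?_ σ
  intro ℓ hℓ hℓS A hA φ hφ
  rw [hbc, h₁ ℓ hℓ hℓS A hA φ hφ]
  simp only [Polynomial.map_add, Polynomial.map_sub, Polynomial.map_mul, Polynomial.map_pow,
    Polynomial.map_X, Polynomial.map_C, map_natCast, Polynomial.map_natCast]

/-- **Non-Eisenstein primes** for an irreducible residual representation. -/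
theorem exists_nonEis_residual {p : ℕ} [Fact p.Prime] (h2k : (2 : k) ≠ 0) (hpk : (p : k) = 0)
    {S : Finset ℕ} (hpS : p ∈ S) {a : ∀ ℓ : ℕ, ℓ.Prime → ℓ ∉ S → k}
    (ρbar : ResidualGaloisRep k) (hirr : ρbar.IsIrreducible)
    (hfr : ∀ (ℓ : ℕ) (hℓ : ℓ.Prime) (hℓS : ℓ ∉ S) (A : ValuationSubring Qb),
      A.LiesOverPrime ℓ → ∀ φ : Gq, A.IsFrobeniusAt φ ℓ →
        LinearMap.charpoly (ρbar.ρ φ) = X ^ 2 - C (a ℓ hℓ hℓS) * X + C ((ℓ : k)))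
    {L : ℕ} (hL : 0 < L) :
    ∃ (ℓ : ℕ) (hℓ : ℓ.Prime) (hℓS : ℓ ∉ S), (ℓ : ZMod L) = 1 ∧ a ℓ hℓ hℓS ≠ 1 + (ℓ : k) := by
  classical
  haveI : NeZero L := ⟨hL.ne'⟩
  haveI hL' : NeZero (L : Qb) := ⟨Nat.cast_ne_zero.mpr hL.ne'⟩
  have hr : Nat.card (rootsOfUnity L Qb) = L := HasEnoughRootsOfUnity.natCard_rootsOfUnity Qb L
  have h2 := ρbar.finrank_eq
  haveI : IsHausdorff (maximalIdeal k) k := isHausdorff_field
  let b := Module.finBasisOfFinrankEq k ρbar.V ρbar.finrank_eq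
  have hdet : LinearMap.det (ρbar.ρ complexConjugation) = -1 := by
    have h := det_involution (Fact.out : p.Prime) hpS (by rw [hpk]; exact zero_mem _)
      (mcont_residual ρbar b) (frobData_toMat_residual ρbar b hfr) complexConjugation_mul_self
      H87.Res.complexConjugation_ne_one
    rwa [H53.toMat_apply, LinearMap.det_toMatrix] at h
  obtain ⟨g, hgker, hg⟩ := exists_tr_ne (ρ := ρbar.ρ) h2 hirr h2k (c := complexConjugation) (by
      rw [← map_mul, complexConjugation_mul_self, map_one]) hdet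
    (cycHom L hr).ker (fun g => by
      rw [MonoidHom.mem_ker, _root_.map_mul, _root_.map_mul, _root_.map_mul, map_inv, map_inv,
        mul_comm (cycHom L hr g), mul_assoc, mul_assoc, mul_inv_cancel_left]
      rw [mul_inv_cancel])
  have hfix : ∀ ζ : Qb, ζ ^ L = 1 → g ζ = ζ := by
    intro ζ hζ
    have hu : IsUnit ζ := IsUnit.of_pow_eq_one hζ hL.ne'
    obtain ⟨t, rfl⟩ := hu
    have ht : t ∈ rootsOfUnity L Qb := by
      rw [mem_rootsOfUnity]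
      exact Units.ext (by rw [Units.val_pow_eq_pow_val, hζ, Units.val_one])
    have h3 := modularCyclotomicCharacter.spec Qb hr (g : Qb ≃+* Qb) ht
    have h4 : modularCyclotomicCharacter Qb hr (g : Qb ≃+* Qb) = 1 := hgker
    rw [h4] at h3
    refine h3.trans ?_
    rw [Units.val_one, ZMod.val_one_eq_one_mod]
    have h5 := pow_eq_pow_mod (M := Qb) 1 hζ
    rw [pow_one] at h5
    rw [← h5]
  obtain ⟨ℓ, hℓ, hℓS, hℓL, A, hA, φ, hφ, j, k', h3, h4⟩ := density_hom_cyc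
    ρbar.factorsThroughFiniteLevel hL g hfix S
  refine ⟨ℓ, hℓ, hℓS, hℓL, ?_⟩
  intro hcon
  apply hg
  have hch := hfr ℓ hℓ hℓS A hA φ hφ
  have h6 : LinearMap.trace k ρbar.V (ρbar.ρ φ) = a ℓ hℓ hℓS :=
    H31.trace_eq_of_charpoly ρbar.finrank_eq (ρbar.ρ φ) _ _ hch
  have h7 : LinearMap.det (ρbar.ρ φ) = ℓ := H31.det_eq_of_charpoly ρbar.finrank_eq _ _ _ hch
  rw [h3]
  apply tr_pow h2
  rw [h6, h7, hcon]

end Residual

section Point

variable {p : ℕ} [Fact p.Prime] {S : Finset ℕ}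
    {𝒪' : Type} [CommRing 𝒪'] [IsDomain 𝒪'] [IsDiscreteValuationRing 𝒪']
    [IsAdicComplete (maximalIdeal 𝒪') 𝒪'] [Finite (ResidueField 𝒪')] [CharZero 𝒪']

/-- **No eigenclass killed by both traces at a prime `q ≡ 1 mod p` with distinct residual
Frobenius eigenvalues.** -/
theorem no_new_point (hp2 : p ≠ 2) (hpS : p ∈ S) (hp𝒪' : (p : 𝒪') ∈ maximalIdeal 𝒪')
    {M q : ℕ} [NeZero M] [NeZero q] [NeZero (M * q)] (hq : q.Prime) (hqM : ¬ q ∣ M)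
    (hNS : ∀ r : ℕ, r.Prime → r ∣ M * q → r ∈ S) (hq1 : p ∣ q - 1)
    {k : Type} [Field k] (ι : k →+* ResidueField 𝒪') {a : ∀ ℓ : ℕ, ℓ.Prime → ℓ ∉ S → k}
    (ρbar : ResidualGaloisRep k) (hirr : ρbar.IsIrreducible)
    (hfr : ∀ (ℓ : ℕ) (hℓ : ℓ.Prime) (hℓS : ℓ ∉ S) (A : ValuationSubring Qb),
      A.LiesOverPrime ℓ → ∀ φ : Gq, A.IsFrobeniusAt φ ℓ →
        LinearMap.charpoly (ρbar.ρ φ) = X ^ 2 - C (a ℓ hℓ hℓS) * X + C ((ℓ : k)))
    (hdist : ∃ A : ValuationSubring Qb, A.LiesOverPrime q ∧ ∃ φ : Gq, A.IsFrobeniusAt φ q ∧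
      ∃ α β : k, α ≠ β ∧ LinearMap.charpoly (ρbar.ρ φ) = (X - C α) * (X - C β))
    {lam : ℕ → 𝒪'} (hlam : ∀ (ℓ : ℕ) (hℓ : ℓ.Prime) (hℓS : ℓ ∉ S),
      residue 𝒪' (lam ℓ) = ι (a ℓ hℓ hℓS))
    {K : Type*} [Field K] [Algebra 𝒪' K] [IsFractionRing 𝒪' K] {N₀ : ℕ} (hM : N₀ ∣ M)
    {y : H1 (gam N₀ (M * q) (dvd_mul_q hM)) (psiRep (1 : (ZMod N₀)ˣ →* Kˣ) K)} (hy0 : y ≠ 0)
    (hT : ∀ (ℓ : ℕ) (hℓ : ℓ.Prime) (hℓN : ¬ ℓ ∣ M * q), ℓ ∉ S →
      (tFam (dvd_mul_q hM) hℓ hℓN).opH (psiRep (1 : (ZMod N₀)ˣ →* Kˣ) K) y =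
        algebraMap 𝒪' K (lam ℓ) • y)
    (h1 : (trFam hM).opH (psiRep (1 : (ZMod N₀)ˣ →* Kˣ) K) y = 0)
    (h2 : (nuFam hM hq).opH (psiRep (1 : (ZMod N₀)ˣ →* Kˣ) K) y = 0) : False := by
  letI : Algebra ℤ_[p] 𝒪' := (padicToAdic 𝒪' hp𝒪').toAlgebra
  have hp : p.Prime := Fact.out
  have hqp : q ≠ p := by
    rintro rfl
    have h := Nat.le_of_dvd (by have := hp.two_le; omega) hq1
    have := hp.two_le
    omega
  -- characteristic
  have hpκ : (p : ResidueField 𝒪') = 0 := by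
    rw [← map_natCast (residue 𝒪')]
    exact (residue_eq_zero_iff _).mpr hp𝒪'
  have hpk : (p : k) = 0 := ι.injective (by rw [map_natCast, map_zero, hpκ])
  have h2k : (2 : k) ≠ 0 := by
    intro h
    have h3 := two_ne_zero_residue hp2 hp𝒪'
    apply h3
    have h4 := congrArg ι h
    rwa [map_ofNat, map_zero] at h4
  -- non-Eisenstein
  obtain ⟨ℓ, hℓ, hℓS, hℓ1, hℓne⟩ := exists_nonEis_residual h2k hpk hpS ρbar hirr hfr
    (Nat.pos_of_ne_zero (NeZero.ne (M * q)))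
  have hne : ∃ ℓ : ℕ, ℓ.Prime ∧ ¬ ℓ ∣ M * q ∧ ℓ ∉ S ∧ ((M * q : ℕ) : ℤ) ∣ (ℓ : ℤ) - 1 ∧
      lam ℓ ≠ 1 + (ℓ : 𝒪') := by
    refine ⟨ℓ, hℓ, fun h => hℓS (hNS ℓ hℓ h), hℓS, ?_, fun h => hℓne ?_⟩
    · rw [← ZMod.intCast_zmod_eq_zero_iff_dvd]
      push_cast
      rw [hℓ1, sub_self]
    · apply ι.injective
      rw [← hlam, h, map_add, map_add, map_one, map_one, map_natCast, map_natCast]
  obtain ⟨w, hw0, hw, h3, h4⟩ := exists_new_isEigJ (K := K) (p := p) hq hM hy0 hT hne h1 h2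
  obtain ⟨𝒪'', i1, i2, i3, i4, i5, i6, i7, i8, i9, hinj, ρ, hρ⟩ :=
    exists_attached hpS hNS hp𝒪' hw hw0
  obtain ⟨u, hu, h⟩ := E35_JZero_ext hpS hNS hp𝒪' hw hw0 hq hqp hqM
    (H89J.starInput' hq hqM hp hqp.symm) h3 h4
  obtain ⟨A, hA, φ, hφ, α, β, hαβ, hch⟩ := hdist
  have h5 := h ρ hρ A hA φ hφ
  -- residual comparison
  let ι' : k →+* ResidueField 𝒪'' := (ResidueField.map (algebraMap 𝒪' 𝒪'')).comp ι
  have hres : ∀ τ, LinearMap.charpoly (ρ.residual.ρ τ) =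
      (LinearMap.charpoly (ρ.ρ τ)).map (residue 𝒪'') := fun τ =>
    LinearMap.charpoly_baseChange (A := ResidueField 𝒪'') (ρ.ρ τ)
  have h6 : LinearMap.charpoly (ρ.residual.ρ φ) = (LinearMap.charpoly (ρbar.ρ φ)).map ι' := by
    refine charpoly_map_of_frob ι' (S := S) (a := a) ρbar ρ.residual hfr ?_ φ
    intro ℓ hℓ hℓS A hA φ hφ
    rw [hres, hρ ℓ hℓ hℓS A hA φ hφ]
    simp only [Polynomial.map_add, Polynomial.map_sub, Polynomial.map_mul, Polynomial.map_pow,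
      Polynomial.map_X, Polynomial.map_C, map_natCast, Polynomial.map_natCast]
    congr 4
    rw [RingHom.comp_apply, ← hlam ℓ hℓ hℓS, ResidueField.map_residue]
  rw [hres, h5, hch] at h6
  have hq1' : (q : ResidueField 𝒪'') = 1 := by
    have hpκ'' : (p : ResidueField 𝒪'') = 0 := by
      have h7 := congrArg (ResidueField.map (algebraMap 𝒪' 𝒪'')) hpκ
      rwa [map_natCast, map_zero] at h7
    obtain ⟨c, hc⟩ := hq1
    have h8 : q = p * c + 1 := by have := hq.one_lt; omega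
    rw [h8, Nat.cast_add, Nat.cast_mul, hpκ'', zero_mul, zero_add, Nat.cast_one]
  have h7 : residue 𝒪'' (algebraMap 𝒪' 𝒪'' u * (q : 𝒪'')) =
      residue 𝒪'' (algebraMap 𝒪' 𝒪'' u) := by rw [map_mul, map_natCast, hq1', mul_one]
  simp only [Polynomial.map_mul, Polynomial.map_sub, Polynomial.map_X, Polynomial.map_C, h7] at h6
  -- roots
  have hroot : ∀ z : ResidueField 𝒪'', z = ι' α ∨ z = ι' β →
      z = residue 𝒪'' (algebraMap 𝒪' 𝒪'' u) := by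
    intro z hz
    have h9 := congrArg (Polynomial.eval z) h6
    simp only [Polynomial.eval_mul, Polynomial.eval_sub, Polynomial.eval_X,
      Polynomial.eval_C] at h9
    have h10 : (z - ι' α) * (z - ι' β) = 0 := by
      rcases hz with rfl | rfl
      · rw [sub_self, zero_mul]
      · rw [sub_self, mul_zero]
    rw [h10] at h9
    rcases mul_eq_zero.mp h9 with h11 | h11
    · exact sub_eq_zero.mp h11
    · exact sub_eq_zero.mp h11
  apply hαβ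
  apply ι'.injective
  rw [hroot _ (Or.inl rfl), hroot (ι' β) (Or.inr rfl)]

end Point

end Fermat.Agent.H37.NN
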