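import Fermat.Agent.H62NE
import Fermat.Agent.H37NNGal

/-!
# Guide: an irreducible `W[p]` is not Eisenstein (the steps)

(helper62; library files `H62*` by helper62, `H86*` by helper86, `H87Res` by helper87, `H74VarChange` by
helper74, `H4EANE` by helper4, `H37NNGal` by helper37)

Companion of `GuideCurvesTate`, section 5, and of `GuideEigen`, section 2. As in the other guides nothing
is new, every theorem is proved by citing the library. Notes: [156], section 2 (and [203] for the use in
S41).

**The question.** In the cohomology of modular curves one has to get rid of the part which comes from the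
cusps (more exactly: from the elements which `T_ℓ` multiplies by `1 + ℓ` for all `ℓ ≡ 1` modulo the
level), and sometimes of the part on which `T_ℓ = ± (1 + ℓ)`. One needs primes which see the difference:

* (I) a prime `ℓ`, outside a given finite set, with `a_ℓ² ≠ (ℓ + 1)²` modulo `p`;
* (II) for every `M` a prime `ℓ ≡ 1` modulo `M`, outside a given finite set, with `a_ℓ ≠ ℓ + 1`
  modulo `p`.

They exist if `p` is odd and the Galois module `W[p]` is irreducible. (II) holds also for every
irreducible two-dimensional representation over a field of characteristic `p` in which the Frobenius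
elements at `ℓ` have determinant `ℓ` (theorem `exists_prime_residual`).

**The proof.** `a_ℓ` and `ℓ` are trace and determinant of a Frobenius element `φ`, and
`tr f = 1 + det f` says that `f` has the eigenvalue `1`, `(tr f)² = (1 + det f)²` that it has the
eigenvalue `1` or `-1` (section 1). Both properties pass from `f` to its powers. By Frobenius' density
theorem every element `g` of the Galois group acts as a power of a Frobenius element, and for (II), if
`g` fixes the `M`-th roots of unity, so does the Frobenius element (section 4). So it is enough to find an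
element `g` of the Galois group (fixing the `M`-th roots of unity in (II)) without the property, and this
is group theory (section 2). The only facts on `W[p]` which are used: it is irreducible, and complex
conjugation acts as an involution of determinant `-1` (section 3). Section 5 has the isomorphisms which
transfer the result from one Weierstrass equation to another.

**Where it is used.** (I): level raising and lowering (Ihara's lemma), theorem `LL`. (II): everywhere
where a class in `H¹(Γ₀(N), ·)` has to vanish on the parabolic elements, on the component groups, or on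
the Shimura subgroup.

**Term closures.** `det_sub_add`, `trace_sq_iff`, `sq_pow`, `nilpotent_part`, `kernels_equal`,
`group_theory_one`, `not_eisenstein_one`: S01, S03, S04, S06, S38, S41, S43, S45, S46, S50, S59, S60.
`trace_iff`, `trace_pow`, `lines`, `exists_not_commute`, `group_theory_two`,
`complexConjugation_on_torsion`, `irreducible_of_modRep`, `density_cyclotomic`, `cyclotomic_kernel`,
`not_eisenstein_two`: the same and S39, S40, S44. `density`: S01, S03, S04, S06, S09, S12, S15, S38, S41,
S43, S45 to S48, S50, S59, S60. `exists_prime_residual`: S01, S03, S04, S06, S38, S43, S45, S46, S50,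
S59, S60. Section 5: S01, S03, S41, S43, S44, S45, its last theorem only S41.
-/

set_option autoImplicit false

open WeierstrassCurve WeierstrassCurve.Affine WeierstrassCurve.Affine.Point

namespace Fermat.Agent.Guide.NonEisenstein

/-- The algebraic closure `Q̄` and its Galois group over `ℚ`. -/
local notation "Qb" => AlgebraicClosure ℚ
local notation "GQ" => (AlgebraicClosure ℚ ≃ₐ[ℚ] AlgebraicClosure ℚ)

/-! ## 1. Endomorphisms of a plane

`V` is a vector space of dimension 2 over a field `k` of any characteristic. File: `H62NEGroup`. -/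

section Plane

variable {k V : Type*} [Field k] [AddCommGroup V] [Module k V]

/-- **Values of the characteristic polynomial** at `1` and `-1`: `det (f - 1) = 1 - tr f + det f` and
`det (f + 1) = 1 + tr f + det f`. -/
theorem det_sub_add (h2 : Module.finrank k V = 2) (f : Module.End k V) :
    LinearMap.det (f - 1) = 1 - LinearMap.trace k V f + LinearMap.det f ∧
      LinearMap.det (f + 1) = 1 + LinearMap.trace k V f + LinearMap.det f :=
  ⟨H62.det_sub_one h2 f, H62.det_add_one h2 f⟩

/-- **The Eisenstein condition for one endomorphism**: `tr f = 1 + det f` if and only if `f` has the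
eigenvalue `1`, that is, `det (f - 1) = 0`. -/
theorem trace_iff (h2 : Module.finrank k V = 2) (f : Module.End k V) :
    LinearMap.trace k V f = 1 + LinearMap.det f ↔ LinearMap.det (f - 1) = 0 :=
  H62.tr_eq_iff h2 f

/-- **The quadratic condition**: `(tr f)² = (1 + det f)²` if and only if `f` has the eigenvalue `1` or the
eigenvalue `-1`. -/
theorem trace_sq_iff (h2 : Module.finrank k V = 2) (f : Module.End k V) :
    LinearMap.trace k V f ^ 2 = (1 + LinearMap.det f) ^ 2 ↔
      LinearMap.det (f - 1) = 0 ∨ LinearMap.det (f + 1) = 0 :=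
  H62.sq_tr_eq_iff h2 f

/-- **The condition passes to powers** (`f - 1` divides `f ^ j - 1`). -/
theorem trace_pow (h2 : Module.finrank k V = 2) (f : Module.End k V)
    (h : LinearMap.trace k V f = 1 + LinearMap.det f) (j : ℕ) :
    LinearMap.trace k V (f ^ j) = 1 + LinearMap.det (f ^ j) :=
  H62.tr_pow h2 f h j

/-- **So does the quadratic condition** (`f + 1` divides `f ^ j - (-1) ^ j`). -/
theorem sq_pow (h2 : Module.finrank k V = 2) (f : Module.End k V)
    (h : LinearMap.trace k V f ^ 2 = (1 + LinearMap.det f) ^ 2) (j : ℕ) :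
    LinearMap.trace k V (f ^ j) ^ 2 = (1 + LinearMap.det (f ^ j)) ^ 2 :=
  H62.sq_tr_pow h2 f h j

/-- **Lines.** Kernel and image of an endomorphism `f ≠ 0` with `det f = 0` are lines, and two lines with
a common vector `v ≠ 0` are equal. -/
theorem lines (h2 : Module.finrank k V = 2) :
    (∀ f : Module.End k V, f ≠ 0 → LinearMap.det f = 0 →
      Module.finrank k (LinearMap.ker f) = 1 ∧ Module.finrank k (LinearMap.range f) = 1) ∧
    ∀ {N N' : Submodule k V}, Module.finrank k N = 1 → Module.finrank k N' = 1 →
      ∀ {v : V}, v ≠ 0 → v ∈ N → v ∈ N' → N = N' :=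
  ⟨H62.lines_of_det_eq_zero h2, fun h h' _ hv hN hN' => H62.eq_of_mem_line h h' hv hN hN'⟩

/-- **The nilpotent part.** If `det f = 1` and `tr f = 2 ε` with `ε² = 1`, then `(ε f - 1)² = 0`
(Cayley-Hamilton). -/
theorem nilpotent_part (h2 : Module.finrank k V = 2) (f : Module.End k V) {ε : k} (hε : ε ^ 2 = 1)
    (hd : LinearMap.det f = 1) (ht : LinearMap.trace k V f = 2 * ε) :
    (ε • f - 1) * (ε • f - 1) = 0 :=
  H62.nilp_of_tr h2 f hε hd ht

/-- **Two nilpotent endomorphisms** `n`, `n' ≠ 0` of square zero with `tr (n n') = 0` have the same kernel.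
Proof: `n n'` has trace and determinant zero, so `(n n')² = 0`. If the kernels (which are also the
images) were different lines, `n` would be injective on the image of `n'` and conversely, and `n n' n n'`
would not be zero. -/
theorem kernels_equal (h2 : Module.finrank k V = 2) {n n' : Module.End k V} (hn : n * n = 0)
    (hn' : n' * n' = 0) (h0 : n ≠ 0) (h0' : n' ≠ 0) (ht : LinearMap.trace k V (n * n') = 0) :
    LinearMap.ker n = LinearMap.ker n' :=
  H62.ker_eq_of_trace_eq_zero h2 hn hn' h0 h0' ht

end Plane

/-! ## 2. Group theory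

`ρ : G → End V` is a representation of a group on a plane, irreducible (`hirr`: there are no stable
subspaces except `0` and `V`), `2 ≠ 0` in `k`, and `c ∈ G` has `ρ(c)² = 1`, `det ρ(c) = -1` ("`ρ` is
odd"). File: `H62NEGroup`. -/

section Rep

variable {k V G : Type*} [Field k] [AddCommGroup V] [Module k V] [Group G]
  {ρ : G →* Module.End k V} (h2 : Module.finrank k V = 2)
  (hirr : ∀ N : Submodule k V, (∀ g, ∀ x ∈ N, ρ g x ∈ N) → N = ⊥ ∨ N = ⊤) (hk : (2 : k) ≠ 0)
  {c : G} (hc : ρ c * ρ c = 1) (hdet : LinearMap.det (ρ c) = -1)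

include h2 hirr hk hc hdet

/-- **`ρ(c)` is not central** in `ρ(G)`: otherwise the kernel of `ρ(c) - 1` is stable, so `ρ(c) = ± 1`, and
the determinant is `1`. -/
theorem exists_not_commute : ∃ g, ρ g * ρ c ≠ ρ c * ρ g :=
  H62.exists_not_commute h2 hirr hk hc hdet

/-- **Group theory for (II).** Let `G₁` be a normal subgroup which contains all `g c g⁻¹ c⁻¹`. Then some
element of `G₁` does not have the eigenvalue `1`. Proof: suppose that all have. If `ρ` is trivial on
`G₁`, then `ρ(c)` is central, which is excluded. Otherwise let `g`, `h ∈ G₁` act nontrivially; `gh` fixes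
a vector `v ≠ 0`, so `(h - 1) v = -(g - 1) (h v)`. If this vector is zero, `g - 1` and `h - 1` have the
same kernel; if not, they have the same image. Thus any two elements of `G₁` which act nontrivially
have the same kernel or the same image (of `g - 1`); but neither the kernel nor the image is the same
for all of them, because it would be stable under `G` (`G₁` is normal). So there are `g₀`, `g₁`, `g₂`
such that `g₁` has another kernel and `g₂` another image than `g₀`; hence `g₁` has the same image and
`g₂` the same kernel as `g₀`, and `g₁`, `g₂` contradict the alternative. -/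
theorem group_theory_two (G₁ : Subgroup G) [G₁.Normal] (hcomm : ∀ g, g * c * g⁻¹ * c⁻¹ ∈ G₁) :
    ∃ g ∈ G₁, LinearMap.trace k V (ρ g) ≠ 1 + LinearMap.det (ρ g) :=
  H62.exists_tr_ne h2 hirr hk hc hdet G₁ hcomm

/-- **Group theory for (I).** Some element of `G` has neither the eigenvalue `1` nor the eigenvalue `-1`.
Proof: suppose the contrary. An element `g` of determinant `1` then has trace `2 ε`, `ε = ± 1`, and
`n_g = ε ρ(g) - 1` has square zero. For two such elements, with signs `ε`, `δ`, the products `g h` and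
`g² h` also have determinant `1`; comparing their traces one finds `tr (n_g n_h) = 0`. If some element
`g₀` of determinant `1` is not `± 1`, all its conjugates have the same `ker n_g` by `kernels_equal`, a
stable line. If all elements of determinant `1` are `± 1`, take a `g` not commuting with `c`: the
commutator is `-1`, so `tr ρ(g) = 0` and `tr ρ(g c) = 0`; by assumption `det ρ(g) = -1`, so `g c` has
determinant `1` and trace `0 ≠ ± 2`. -/
theorem group_theory_one : ∃ g, LinearMap.trace k V (ρ g) ^ 2 ≠ (1 + LinearMap.det (ρ g)) ^ 2 :=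
  H62.exists_sq_tr_ne h2 hirr hk hc hdet

end Rep

/-! ## 3. Complex conjugation on `E[n]`

`galoisRepModuleEnd ℚ E n σ` is the action of `σ ∈ Gal(Q̄/ℚ)` on the `n`-torsion points `E[n]` of a curve
over `ℚ` with coordinates in `Q̄`, a `ℤ/n`-linear map. File: `H62NE`. -/

/-- **Complex conjugation** (restricted to `Q̄`) acts on `E[n]` as an involution of determinant `-1`: the
determinant is the cyclotomic character (`GuideCurvesTate`), and complex conjugation inverts the roots of
unity. -/
theorem complexConjugation_on_torsion (E : WeierstrassCurve ℚ) (hΔ : E.Δ ≠ 0) {n : ℕ} [NeZero n] :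
    galoisRepModuleEnd (K := Qb) ℚ E n complexConjugation *
        galoisRepModuleEnd (K := Qb) ℚ E n complexConjugation = 1 ∧
      LinearMap.det (galoisRepModuleEnd (K := Qb) ℚ E n complexConjugation) = -1 :=
  ⟨H62.sq_complexConjugation E n, H62.det_complexConjugation E hΔ⟩

/-- **Irreducibility** of `W[p]` in the sense of the frozen statements gives the hypothesis `hirr` of
section 2. -/
theorem irreducible_of_modRep {W : WeierstrassCurve ℤ} {p : ℕ} [Fact p.Prime]
    (hirr : W.ModRepIsIrreducible p) :
    ∀ N : Submodule (ZMod p)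
      (Submodule.torsionBy ℤ ((W.map (Int.castRingHom ℚ))⁄Qb).Point p),
      (∀ g, ∀ x ∈ N, galoisRepModuleEnd (K := Qb) ℚ (W.map (Int.castRingHom ℚ)) p g x ∈ N) →
        N = ⊥ ∨ N = ⊤ :=
  H62.irr_of_modRepIsIrreducible hirr

/-! ## 4. From elements of the Galois group to primes -/

/-- **Frobenius' density theorem.** Let `ρ` be a homomorphism from `Gal(Q̄/ℚ)` to a monoid which factors
through a finite quotient, `σ` an element and `S` a finite set. There is a prime `ℓ ∉ S` and a Frobenius
element `φ` at `ℓ` such that `ρ(σ)` and `ρ(φ)` are powers of each other. (Files `H86DensityRep`,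
`H86DensityFinal`; only the zeta functions of number fields are used, see `GuideAbsGal`.) -/
theorem density {X : Type} [Monoid X] {ρ : GQ →* X} (hρ : GaloisFactorsThroughFiniteLevel ρ) (σ : GQ)
    (S : Finset ℕ) : ∃ ℓ : ℕ, ℓ.Prime ∧ ℓ ∉ S ∧ ∃ A : ValuationSubring Qb, A.LiesOverPrime ℓ ∧
      ∃ φ : GQ, A.IsFrobeniusAt φ ℓ ∧ ∃ j k : ℕ, ρ σ = ρ φ ^ j ∧ ρ φ = ρ σ ^ k :=
  H86.density_hom H86.frobDensityFinite hρ σ S

/-- **The same with roots of unity**: if `σ` fixes the `M`-th roots of unity, one can take `ℓ ≡ 1` modulo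
`M`. Proof: apply the theorem to the field of `ρ` together with the `M`-th roots of unity; `φ` acts on it
as a power of `σ`, so it fixes the roots of unity, and a Frobenius element at `ℓ ∤ M` raises them to the
power `ℓ`. File: `H62NE`. -/
theorem density_cyclotomic {X : Type} [Monoid X] {ρ : GQ →* X}
    (hρ : GaloisFactorsThroughFiniteLevel ρ) {M : ℕ} (hM : 0 < M) (σ : GQ)
    (hσ : ∀ ζ : Qb, ζ ^ M = 1 → σ ζ = ζ) (S : Finset ℕ) :
    ∃ ℓ : ℕ, ℓ.Prime ∧ ℓ ∉ S ∧ (ℓ : ZMod M) = 1 ∧ ∃ A : ValuationSubring Qb, A.LiesOverPrime ℓ ∧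
      ∃ φ : GQ, A.IsFrobeniusAt φ ℓ ∧ ∃ j k : ℕ, ρ σ = ρ φ ^ j ∧ ρ φ = ρ σ ^ k :=
  H62.density_hom_cyc hρ hM σ hσ S

/-- **The cyclotomic character** modulo `M` as a homomorphism `cycHom M hr` on the Galois group (`hr` says
that `Q̄` has `M` roots of unity of order dividing `M`). Its kernel is the normal subgroup `G₁` of
`group_theory_two`: it contains all commutators and fixes the `M`-th roots of unity. File: `H62NE`. -/
theorem cyclotomic_kernel (M : ℕ) [NeZero M] (hr : Nat.card (rootsOfUnity M Qb) = M) (σ c : GQ) :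
    (σ ∈ (H62.cycHom M hr).ker ↔ modularCyclotomicCharacter Qb hr (σ : Qb ≃+* Qb) = 1) ∧
      σ * c * σ⁻¹ * c⁻¹ ∈ (H62.cycHom M hr).ker :=
  ⟨Iff.rfl, by
    rw [MonoidHom.mem_ker, map_mul, map_mul, map_mul, map_inv, map_inv,
      mul_comm (H62.cycHom M hr σ), mul_assoc, mul_assoc, mul_inv_cancel_left, mul_inv_cancel]⟩

/-- **(I) for `W[p]`**: from `group_theory_one` for the element `g`, `density` (`ρ(g) = ρ(φ)^j`), `sq_pow`
and trace and determinant of Frobenius (`GuideCurves`), for a prime `ℓ` which does not divide `p B Δ`.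
(`GuideCurvesTate.exists_ne_one`.) File: `H62NE`. -/
theorem not_eisenstein_one {W : WeierstrassCurve ℤ} {p : ℕ} [Fact p.Prime] (hΔ : W.Δ ≠ 0)
    (hp2 : p ≠ 2) (hirr : W.ModRepIsIrreducible p) {B : ℕ} (hB : 0 < B) :
    ∃ ℓ, ℓ.Prime ∧ W.IsGoodPrimeFor ℓ ∧ ¬ ℓ ∣ B ∧ ℓ ≠ p ∧
      ((W.apOfModel ℓ : ZMod p)) ^ 2 ≠ ((ℓ : ZMod p) + 1) ^ 2 :=
  H62.ne1 hΔ hp2 hirr hB

/-- **(II) for `W[p]`**: from `group_theory_two` for the kernel of the cyclotomic character modulo `M`,
`density_cyclotomic` and `trace_pow`. (`GuideCurvesTate.exists_ne_two`.) File: `H62NE`. -/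
theorem not_eisenstein_two {W : WeierstrassCurve ℤ} {p : ℕ} [Fact p.Prime] (hΔ : W.Δ ≠ 0)
    (hp2 : p ≠ 2) (hirr : W.ModRepIsIrreducible p) {B : ℕ} (hB : 0 < B) {M : ℕ} (hM : 0 < M) :
    ∃ ℓ, ℓ.Prime ∧ W.IsGoodPrimeFor ℓ ∧ ¬ ℓ ∣ B ∧ ℓ ≠ p ∧ (ℓ : ZMod M) = 1 ∧
      (W.apOfModel ℓ : ZMod p) ≠ (ℓ : ZMod p) + 1 :=
  H62.ne2 hΔ hp2 hirr hB hM

/-- **(II) for residual representations.** Let `ρbar` be an irreducible residual representation over a
field `k` of characteristic `p ≠ 2` such that Frobenius elements at `ℓ ∉ S` have the characteristic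
polynomial `X² - a_ℓ X + ℓ`. For every `L` there is a prime `ℓ ∉ S`, `ℓ ≡ 1` modulo `L`, with
`a_ℓ ≠ 1 + ℓ`. Proof as for `W[p]`; complex conjugation has determinant `-1` because the determinant is
the cyclotomic character (density). The form for adic representations is
`GuideEigen.exists_nonEisenstein_prime` (`H4EANE`). File: `H37NNGal`. -/
theorem exists_prime_residual {k : Type} [Field k] {p : ℕ} [Fact p.Prime] (h2k : (2 : k) ≠ 0)
    (hpk : (p : k) = 0) {S : Finset ℕ} (hpS : p ∈ S) {a : ∀ ℓ : ℕ, ℓ.Prime → ℓ ∉ S → k}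
    (ρbar : ResidualGaloisRep k) (hirr : ρbar.IsIrreducible)
    (hfr : ∀ (ℓ : ℕ) (hℓ : ℓ.Prime) (hℓS : ℓ ∉ S) (A : ValuationSubring Qb),
      A.LiesOverPrime ℓ → ∀ φ : GQ, A.IsFrobeniusAt φ ℓ →
        LinearMap.charpoly (ρbar.ρ φ) =
          Polynomial.X ^ 2 - Polynomial.C (a ℓ hℓ hℓS) * Polynomial.X + Polynomial.C ((ℓ : k)))
    {L : ℕ} (hL : 0 < L) :
    ∃ (ℓ : ℕ) (hℓ : ℓ.Prime) (hℓS : ℓ ∉ S), (ℓ : ZMod L) = 1 ∧ a ℓ hℓ hℓS ≠ 1 + (ℓ : k) :=
  H37.NN.exists_nonEis_residual h2k hpk hpS ρbar hirr hfr hL

/-! ## 5. Other equations of the same curve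

The statements S41, S43, S44 are about a curve `E` over `ℚ` and an integral model `W` of it; they are
reduced to statements on `W`. Files: `H62VarChange`, `H62NE`. -/

section Models

variable {F K : Type*} [Field F] [Field K] [DecidableEq K] [Algebra F K]

/-- **Points.** For a change of variables `C` over `F` the bijection between the points of `C • E` and of
`E` with coordinates in `K` (`points_change_of_variables` in `GuideCurves`) is an isomorphism of groups and
commutes with all automorphisms of `K` over `F`. -/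
theorem points_equivariant (E : WeierstrassCurve F) (C : VariableChange F) :
    ∃ e : ((C • E)⁄K).Point ≃+ (E⁄K).Point,
      ∀ (σ : K ≃ₐ[F] K) (P : ((C • E)⁄K).Point), e (σ • P) = σ • e P :=
  H62.exists_equivariant_equiv E C

/-- **Torsion points**: the same for the `n`-torsion, as `ℤ/n`-modules. -/
theorem torsion_equivariant (E : WeierstrassCurve F) (C : VariableChange F) (n : ℕ) :
    ∃ e : Submodule.torsionBy ℤ ((C • E)⁄K).Point n ≃ₗ[ZMod n]
        Submodule.torsionBy ℤ (E⁄K).Point n,
      ∀ (σ : K ≃ₐ[F] K) (P : Submodule.torsionBy ℤ ((C • E)⁄K).Point n), e (σ • P) = σ • e P :=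
  H62.exists_equivariant_torsion_equiv E C n

/-- **Irreducibility does not depend on the equation.** -/
theorem irreducible_change (E : WeierstrassCurve F) (C : VariableChange F) (n : ℕ)
    (h : GaloisRepIsIrreducible (K := K) F E n) : GaloisRepIsIrreducible (K := K) F (C • E) n :=
  H62.galoisRepIsIrreducible_variableChange E C n h

end Models

/-- **Integral models.** If the integral equation `W` defines, after a change of variables over `ℚ`, the
curve `E`, then `Δ_W ≠ 0` if `Δ_E ≠ 0`, and `W[n]` is irreducible if `E[n]` is. -/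
theorem integral_model {W : WeierstrassCurve ℤ} {E : WeierstrassCurve ℚ}
    (hW : W.IsIntegralModelOf E) :
    (E.Δ ≠ 0 → W.Δ ≠ 0) ∧
      ∀ {n : ℕ}, GaloisRepIsIrreducible (K := Qb) ℚ E n → W.ModRepIsIrreducible n :=
  ⟨fun hE => H62.Δ_ne_zero_of_isIntegralModelOf hE hW,
    fun h => H62.modRepIsIrreducible_of_isIntegralModelOf hW h⟩

/-- **(I) and (II) for a curve over `ℚ`** and an integral model of it (used in S41). -/
theorem not_eisenstein_of_model {W : WeierstrassCurve ℤ} {E : WeierstrassCurve ℚ} {p : ℕ}
    [Fact p.Prime] (hE : E.Δ ≠ 0) (hW : W.IsIntegralModelOf E) (hp2 : p ≠ 2)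
    (hirr : GaloisRepIsIrreducible (K := Qb) ℚ E p) {B : ℕ} (hB : 0 < B) {M : ℕ} (hM : 0 < M) :
    (∃ ℓ, ℓ.Prime ∧ W.IsGoodPrimeFor ℓ ∧ ¬ ℓ ∣ B ∧ ℓ ≠ p ∧
      ((W.apOfModel ℓ : ZMod p)) ^ 2 ≠ ((ℓ : ZMod p) + 1) ^ 2) ∧
    ∃ ℓ, ℓ.Prime ∧ W.IsGoodPrimeFor ℓ ∧ ¬ ℓ ∣ B ∧ ℓ ≠ p ∧ (ℓ : ZMod M) = 1 ∧
      (W.apOfModel ℓ : ZMod p) ≠ (ℓ : ZMod p) + 1 :=
  ⟨H62.not_eisenstein1 hE hW hp2 hirr hB, H62.not_eisenstein2 hE hW hp2 hirr hB hM⟩

end Fermat.Agent.Guide.NonEisenstein
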