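import Mathlib
import Fermat.Prelude.Def_FreyPackage_EigenformResidualAttachment
import Fermat.Prelude.Def_FreyPackage_IsConductorLevel
import Fermat.Prelude.Def_CuspForm_Newforms
import Fermat.Prelude.Def_EllipticCurve_ZeroComponentAt
import Fermat.Prelude.Def_FLTPrelim_CofixedLine
import Fermat.Prelude.Def_WeierstrassCurve_ConductorLevel
import Fermat.Prelude.Def_WeierstrassCurve_Mlc1RowStatement
import Fermat.Prelude.Def_WeierstrassCurve_PeuRamifiee

/-!
# Guide to the notions of the frozen statements, part 1: Frey packages, elliptic curves, modularity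

The 60 frozen statements use the definitions of `Fermat/Prelude`.  The six files `GuideNotions`,
`GuideNotionsForms`, `GuideNotionsGalois`, `GuideNotionsDeformations`, `GuideNotionsCurves` and
`GuideNotionsSchemes` unfold these definitions by theorems which are true by definition (`rfl`, `Iff.rfl`) or
by taking a structure apart.  With these files and Mathlib alone a reader can check what the frozen
statements say: all definitions of the Prelude which occur in the types of the 60 statements are covered.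
The words used by the other guide files are defined here.  There is no mathematics in these files.

Section 1: Frey packages.  Section 2: the Galois action on torsion points, inertia, Frobenius elements.
Section 3: eigenforms, modularity and residual modularity.  In part 2 (`GuideNotionsForms`): Hecke operators
and Hecke algebras, integral structures, periods, the weight one notions of S46, S47 and S49.  Part 3
(`GuideNotionsGalois`): Galois representations over rings.  Part 4 (`GuideNotionsDeformations`): deformation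
rings.  Part 5 (`GuideNotionsCurves`): `X_0(N)` and `J_0(N)`.  Part 6 (`GuideNotionsSchemes`): schemes.

Where the notions occur (`E` is the Frey curve, `W` a Weierstrass equation over `ℤ`):

    S01  Fermat's Last Theorem             S02  a solution gives a Frey package   S03  there are none
    S04  `E` is modular                    S05  `E[p]` is unramified outside 2 p  S06  `E[p]` is modular
    S07, S08  S₂(Γ₀(2)) = S₂(Γ₀(1)) = 0    S09  `E[p]` is irreducible             S10 - S12  no cofixed line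
    S13  if reducible: cofixed line        S15  zero component                    S38 - S40  lower the level
    S41  level raising                     S42  attachment                        S43, S44  lower the level
    S45  a form of level 2                 S50  `W[3]` is modular                 S51, S52  `W[3]`, `W[5]`
    S58  modular of conductor level        S59  then `W` is modular               S60  semistable curves
-/

set_option autoImplicit false

open WeierstrassCurve WeierstrassCurve.Affine WeierstrassCurve.Affine.Point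
open CongruenceSubgroup (Gamma0)
open ModularFormClass (qCoeff)

namespace Fermat.Agent.Guide.Notions

/-- An algebraic closure of `ℚ`. -/
local notation "Qb" => AlgebraicClosure ℚ

/-! ## Section 1: Frey packages -/

/-- **Frey package**: nonzero integers `a`, `b`, `c` and a prime `p ≥ 5` with `a ^ p + b ^ p = c ^ p`, `a` and
`b` coprime, `a ≡ 3 mod 4` and `b` even. -/
theorem frey_package_iff :
    Nonempty FreyPackage ↔ ∃ (a b c : ℤ) (p : ℕ), a ≠ 0 ∧ b ≠ 0 ∧ c ≠ 0 ∧ p.Prime ∧ 5 ≤ p ∧
      a ^ p + b ^ p = c ^ p ∧ gcd a b = 1 ∧ (a : ZMod 4) = 3 ∧ (b : ZMod 2) = 0 := by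
  constructor
  · rintro ⟨P⟩
    exact ⟨P.a, P.b, P.c, P.p, P.ha0, P.hb0, P.hc0, P.pp, P.hp5, P.hFLT, P.hgcdab, P.ha4, P.hb2⟩
  · rintro ⟨a, b, c, p, h1, h2, h3, h4, h5, h6, h7, h8, h9⟩
    exact ⟨⟨a, b, c, h1, h2, h3, p, h4, h5, h6, h7, h8, h9⟩⟩

/-- **The Frey curve**: `y² + x y = x³ + ((b^p - 1 - a^p)/4) x² - (a^p b^p/16) x` over `ℚ`; it is the curve
`y² = x (x - a^p) (x + b^p)` after a change of variables. -/
theorem frey_curve (P : FreyPackage) :
    P.freyCurve = ⟨1, (P.b ^ P.p - 1 - P.a ^ P.p) / 4, 0, -(P.a ^ P.p) * (P.b ^ P.p) / 16, 0⟩ :=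
  rfl

/-- **Conductor level** of a Frey package: a positive squarefree integer `N` whose prime divisors divide
`a b c`. -/
theorem conductor_level_iff (P : FreyPackage) (N : ℕ) :
    P.IsConductorLevel N ↔
      0 < N ∧ Squarefree N ∧ ∀ q : ℕ, q.Prime → q ∣ N → (q : ℤ) ∣ P.a * P.b * P.c :=
  ⟨fun h => ⟨h.pos, h.squarefree, h.support⟩, fun h => ⟨h.1, h.2.1, h.2.2⟩⟩

/-! ## Section 2: the Galois action on torsion points

`(W⁄K).Point` is the group of points of the Weierstrass curve `W` over the field `K` and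
`Submodule.torsionBy ℤ (W⁄K).Point n` the subgroup of the points killed by `n`. -/

/-- The action of the Galois group on points is the action on coordinates. -/
theorem galois_action_some {R S K : Type*} [CommRing R] [CommRing S] [Field K] [DecidableEq K]
    [Algebra R S] [Algebra R K] [Algebra S K] [IsScalarTower R S K] (W : Affine R) (σ : K ≃ₐ[S] K)
    (x y : K) (h : (W⁄K).Nonsingular x y) :
    ∃ h' : (W⁄K).Nonsingular (σ x) (σ y), σ • Point.some x y h = Point.some (σ x) (σ y) h' :=
  ⟨_, rfl⟩

/-- **`E[n]` is irreducible** as a Galois module: it is not zero and has no Galois stable subgroups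
(submodules over `ℤ/n`) except zero and itself. -/
theorem irreducible_iff (E : Affine ℚ) (n : ℕ) :
    GaloisRepIsIrreducible (K := Qb) ℚ E n ↔
      Nontrivial (Submodule.torsionBy ℤ (E⁄Qb).Point n) ∧
        ∀ N : Submodule (ZMod n) (Submodule.torsionBy ℤ (E⁄Qb).Point n),
          (∀ σ : Qb ≃ₐ[ℚ] Qb, ∀ x ∈ N, σ • x ∈ N) → N = ⊥ ∨ N = ⊤ :=
  Iff.rfl

/-- **`W[n]` is irreducible**, for a Weierstrass equation `W` over `ℤ`: the same for the curve over `ℚ`. -/
theorem mod_rep_irreducible_iff (W : WeierstrassCurve ℤ) (n : ℕ) :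
    W.ModRepIsIrreducible n ↔ GaloisRepIsIrreducible (K := Qb) ℚ (W.map (Int.castRingHom ℚ)) n :=
  Iff.rfl

/-- **Cofixed line**: `E[n]` has a Galois stable subgroup `N`, not zero and not everything, such that the
Galois group acts trivially on the quotient `E[n] / N`. -/
theorem cofixed_line_iff (E : Affine ℚ) (n : ℕ) :
    HasGaloisStableCofixedLine (K := Qb) ℚ E n ↔
      ∃ N : Submodule (ZMod n) (Submodule.torsionBy ℤ (E⁄Qb).Point n),
        (∀ σ : Qb ≃ₐ[ℚ] Qb, ∀ x ∈ N, σ • x ∈ N) ∧ N ≠ ⊥ ∧ N ≠ ⊤ ∧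
          ∀ (σ : Qb ≃ₐ[ℚ] Qb) (x : Submodule.torsionBy ℤ (E⁄Qb).Point n), σ • x - x ∈ N :=
  Iff.rfl

/-- **A place over `q`**: a valuation subring `A` of `L` in whose maximal ideal `q` lies. -/
theorem lies_over_prime_iff {L : Type*} [Field L] (A : ValuationSubring L) (q : ℕ) :
    A.LiesOverPrime q ↔ A.valuation (q : L) < 1 :=
  Iff.rfl

/-- **Inertia group** of a valuation subring `A` of `L` in the automorphism group of `L` over `K`: the
automorphisms which map `A` to itself and act trivially on the residue field.  (In terms of prime ideals of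
the ring of all algebraic integers: `GuideAbsGal`.) -/
theorem mem_inertia_iff {K L : Type*} [Field K] [Field L] [Algebra K L] (A : ValuationSubring L)
    (σ : L ≃ₐ[K] L) :
    σ ∈ A.inertiaSubgroupIn K ↔ ∃ hσ : σ ∈ A.decompositionSubgroup K,
      ∀ x : IsLocalRing.ResidueField A, (⟨σ, hσ⟩ : A.decompositionSubgroup K) • x = x := by
  constructor
  · rintro ⟨τ, hτ, rfl⟩
    exact ⟨τ.2, fun x => congrArg (fun f => f x) (MonoidHom.mem_ker.mp hτ)⟩
  · rintro ⟨hσ, h⟩
    exact ⟨⟨σ, hσ⟩, MonoidHom.mem_ker.mpr (RingEquiv.ext h), rfl⟩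

/-- **Frobenius element** at a place `A` with residue field over `𝔽_q`: it maps `A` to itself and acts on the
residue field by `x ↦ x ^ q`.  (Existence and the translation to prime ideals: `GuideAbsGal`.) -/
theorem frobenius_iff {K L : Type*} [Field K] [Field L] [Algebra K L] (A : ValuationSubring L)
    (σ : L ≃ₐ[K] L) (q : ℕ) :
    A.IsFrobeniusAt σ q ↔ ∃ hσ : σ ∈ A.decompositionSubgroup K,
      ∀ x : IsLocalRing.ResidueField A, (⟨σ, hσ⟩ : A.decompositionSubgroup K) • x = x ^ q :=
  Iff.rfl

/-- **The `p`-torsion of the Frey curve is unramified at `q`**: the inertia groups of all places of `Qb` over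
`q` act trivially. -/
theorem unramified_iff (P : FreyPackage) (q : ℕ) :
    P.GaloisRepUnramifiedAt q ↔
      ∀ A : ValuationSubring Qb, A.LiesOverPrime q → ∀ σ ∈ A.inertiaSubgroupIn ℚ,
        ∀ x : Submodule.torsionBy ℤ ((P.freyCurve : Affine ℚ)⁄Qb).Point P.p, σ • x = x :=
  Iff.rfl

/-- **Peu ramifiée** (S39, for `ℓ = p`): the exponent of `ℓ` in the discriminant is divisible by `p`. -/
theorem peu_ramifiee_iff (W : WeierstrassCurve ℚ) (p ℓ : ℕ) :
    W.IsPeuRamifieeAt p ℓ ↔ (p : ℤ) ∣ padicValRat ℓ W.Δ :=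
  Iff.rfl

/-- **The zero component** (S15): a point of the curve `W` over `Qb` lies in the zero component at the place
`A` if it is zero, or its `x`-coordinate is not integral, or its coordinates are integral and reduce to a
nonsingular point of the reduced equation. -/
theorem in_zero_component_iff (W : WeierstrassCurve ℤ) (A : ValuationSubring Qb)
    (P : ((W.map (Int.castRingHom ℚ))⁄Qb).Point) :
    W.InZeroComponentAt A P ↔ P = 0 ∨ ∃ (x y : Qb)
      (h : ((W.map (Int.castRingHom ℚ))⁄Qb).toAffine.Nonsingular x y), P = .some x y h ∧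
        (x ∉ A ∨ ∃ (hx : x ∈ A) (hy : y ∈ A),
          (W.map (Int.castRingHom (IsLocalRing.ResidueField A))).toAffine.Nonsingular
            (IsLocalRing.residue A ⟨x, hx⟩) (IsLocalRing.residue A ⟨y, hy⟩)) :=
  Iff.rfl

/-! ## Section 3: eigenforms and modularity

`CuspForm (Gamma0 N) k` is Mathlib's space of cusp forms of weight `k` on `Γ₀(N)`. -/

/-- **Fourier coefficients**: `qCoeff f n` is the coefficient of `q ^ n`, `q = exp (2 π i z)`. -/
theorem q_coeff (f : UpperHalfPlane → ℂ) (n : ℕ) :
    qCoeff f n = (UpperHalfPlane.qExpansion 1 f).coeff n :=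
  rfl

/-- **Normalised eigenform** of weight two on `Γ₀(N)`, by its Fourier coefficients `a_n`: `a_1 = 1`,
`a_{mn} = a_m a_n` for coprime `m`, `n`, `a_{p^(r+2)} = a_p a_{p^(r+1)} - p a_{p^r}` for `p ∤ N` and
`a_{p^(r+2)} = a_p a_{p^(r+1)}` for `p ∣ N`. -/
theorem normalized_eigenform_iff {N : ℕ} (f : CuspForm (Gamma0 N) 2) :
    f.IsNormalizedEigenform ↔ qCoeff f 1 = 1 ∧
      (∀ m n : ℕ, m.Coprime n → qCoeff f (m * n) = qCoeff f m * qCoeff f n) ∧
      (∀ p r : ℕ, p.Prime → ¬ p ∣ N →
        qCoeff f (p ^ (r + 2)) = qCoeff f p * qCoeff f (p ^ (r + 1)) - p * qCoeff f (p ^ r)) ∧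
      ∀ p r : ℕ, p.Prime → p ∣ N → qCoeff f (p ^ (r + 2)) = qCoeff f p * qCoeff f (p ^ (r + 1)) :=
  ⟨fun h => ⟨h.1, h.2, h.3, h.4⟩, fun h => ⟨h.1, h.2.1, h.2.2.1, h.2.2.2⟩⟩

/-- **Newform** (S35, S36): a normalised eigenform of level `N` such that for no proper divisor `M` of `N`
there is a normalised eigenform of level `M` with the same coefficients at the primes `ℓ ∤ N`. -/
theorem newform_iff {N : ℕ} (f : CuspForm (Gamma0 N) 2) :
    f.IsNewform ↔ f.IsNormalizedEigenform ∧ ∀ M : ℕ, M ∣ N → M ≠ N →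
      ¬ ∃ g : CuspForm (Gamma0 M) 2, g.IsNormalizedEigenform ∧
        ∀ ℓ : ℕ, ℓ.Prime → ¬ ℓ ∣ N → qCoeff g ℓ = qCoeff f ℓ :=
  Iff.rfl

/-- **New at `q`** in the sense of S41: `a_q = ± 1`. -/
theorem new_at_iff {M : ℕ} (g : CuspForm (Gamma0 M) 2) (q : ℕ) :
    g.IsNewAt q ↔ qCoeff g q ^ 2 = 1 :=
  Iff.rfl

/-- For a Weierstrass equation `W` over `ℤ`: `l` is a **good prime** if it does not divide the discriminant,
and `a_l(W) = l + 1 - #W(𝔽_l)`. -/
theorem good_prime_and_ap (W : WeierstrassCurve ℤ) (l : ℕ) :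
    (W.IsGoodPrimeFor l ↔ ¬ (l : ℤ) ∣ W.Δ) ∧
      W.apOfModel l = (Nat.card (ZMod l) : ℤ) + 1 -
        (Nat.card (W.map (Int.castRingHom (ZMod l))).toAffine.Point : ℤ) :=
  ⟨Iff.rfl, rfl⟩

/-- `a_l(W)` is the trace of Frobenius of the reduction modulo `l`. -/
theorem ap_eq_trace (W : WeierstrassCurve ℤ) (l : ℕ) :
    W.apOfModel l = (W.map (Int.castRingHom (ZMod l))).traceOfFrobenius :=
  rfl

/-- **Semistable model**: a Weierstrass equation over `ℤ` such that no prime divides `Δ` and `c₄`: at every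
prime dividing the discriminant the reduction is nodal. -/
theorem semistable_iff (W : WeierstrassCurve ℤ) :
    W.IsSemistableModel ↔ ∀ p : ℕ, p.Prime → (p : ℤ) ∣ W.Δ → ¬ (p : ℤ) ∣ W.c₄ :=
  Iff.rfl

/-- **Modular of level `N`** (S58): there is a normalised eigenform of weight two on `Γ₀(N)` with
`a_p(f) = a_p(W)` for the good primes `p ∤ N`. -/
theorem modular_model_iff (W : WeierstrassCurve ℤ) (N : ℕ) :
    W.IsModularModelOfLevel N ↔ ∃ f : CuspForm (Gamma0 N) 2, f.IsNormalizedEigenform ∧
      ∀ p : ℕ, p.Prime → W.IsGoodPrimeFor p → ¬ p ∣ N → qCoeff f p = (W.apOfModel p : ℂ) :=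
  Iff.rfl

/-- **The conductor level** of `W` (S58) is the radical of the discriminant: it is positive and squarefree
and, if `Δ ≠ 0`, its prime divisors are those of the discriminant. -/
theorem conductor_level_of_model (W : WeierstrassCurve ℤ) :
    W.conductorLevel = UniqueFactorizationMonoid.radical W.Δ.natAbs ∧ 0 < W.conductorLevel ∧
      Squarefree W.conductorLevel ∧
      (W.Δ ≠ 0 → ∀ q : ℕ, q.Prime → (q ∣ W.conductorLevel ↔ (q : ℤ) ∣ W.Δ)) :=
  ⟨rfl, W.conductorLevel_pos, W.squarefree_conductorLevel,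
    fun hΔ _ hq => W.prime_dvd_conductorLevel_iff hΔ hq⟩

/-- **Integral model** `W` of a curve `E` over `ℚ`: a Weierstrass equation over `ℤ` which is `E` after a
change of variables over `ℚ`. -/
theorem integral_model_iff (W : WeierstrassCurve ℤ) (E : WeierstrassCurve ℚ) :
    W.IsIntegralModelOf E ↔ ∃ C : VariableChange ℚ, C • E = W.map (Int.castRingHom ℚ) :=
  Iff.rfl

/-- **Modularity of an elliptic curve over `ℚ`** (S04, S45, S60): it has an integral model `W` (a Weierstrass
equation over `ℤ` which is `E` after a change of variables over `ℚ`; it need not be minimal) and `W` is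
modular of some level.  `traceOfFrobenius` of a curve over `𝔽_q` is `q + 1 - #W(𝔽_q)`: the number on the
right is `a_q(W) = W.apOfModel q` of `good_prime_and_ap`. -/
theorem modular_iff (E : WeierstrassCurve ℚ) :
    E.IsModular ↔ ∃ W : WeierstrassCurve ℤ,
      (∃ C : VariableChange ℚ, C • E = W.map (Int.castRingHom ℚ)) ∧
      ∃ N : ℕ, 0 < N ∧ ∃ f : CuspForm (Gamma0 N) 2, f.IsNormalizedEigenform ∧
        ∀ q : ℕ, q.Prime → ¬ (q : ℤ) ∣ W.Δ → ¬ q ∣ N →
          qCoeff f q = ((W.map (Int.castRingHom (ZMod q))).traceOfFrobenius : ℂ) :=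
  Iff.rfl

/-- **Modular of exact conductor level** (S59): modular of level `N`, where `N` is the product of the primes
dividing the discriminant of `W`. -/
theorem modular_of_exact_level_iff (W : WeierstrassCurve ℤ) :
    Mlc1IsModularModelOfExactConductorLevel W ↔
      ∃ N : ℕ, 0 < N ∧ Squarefree N ∧ (∀ q : ℕ, q.Prime → (q ∣ N ↔ (q : ℤ) ∣ W.Δ)) ∧
        ∃ f : CuspForm (Gamma0 N) 2, f.IsNormalizedEigenform ∧
          ∀ l : ℕ, l.Prime → W.IsGoodPrimeFor l → ¬ l ∣ N → qCoeff f l = (W.apOfModel l : ℂ) :=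
  Iff.rfl

/-- **`W[p]` is modular of level `M`** (`W` residually modular): there are a normalised eigenform `f` of
weight two on `Γ₀(M)` and a maximal ideal over `p` of the ring of all algebraic integers modulo which
`a_l(f) ≡ a_l(W)`, for all primes `l` not dividing `p M Δ(W)`.  No Galois representation occurs here. -/
theorem residually_modular_iff (W : WeierstrassCurve ℤ) (p M : ℕ) :
    W.IsResiduallyModularOfLevel p M ↔
      ∃ (f : CuspForm (Gamma0 M) 2) (𝔪 : Ideal (integralClosure ℤ ℂ)),
        f.IsNormalizedEigenform ∧ 𝔪.IsMaximal ∧ (p : integralClosure ℤ ℂ) ∈ 𝔪 ∧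
        ∀ l : ℕ, l.Prime → W.IsGoodPrimeFor l → ¬ l ∣ M → l ≠ p →
          ∃ a : integralClosure ℤ ℂ, (a : ℂ) = qCoeff f l ∧
            a - ((W.apOfModel l : ℤ) : integralClosure ℤ ℂ) ∈ 𝔪 :=
  Iff.rfl

/-- **The mod `p` representation of the Frey curve is modular of level `N`**: for some integral model `W` of
the Frey curve `W[p]` is modular of level `N`. -/
theorem modular_of_level_iff (P : FreyPackage) (N : ℕ) :
    P.ModularRepOfLevel N ↔
      ∃ (f : CuspForm (Gamma0 N) 2) (W : WeierstrassCurve ℤ) (𝔪 : Ideal (integralClosure ℤ ℂ)),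
        f.IsNormalizedEigenform ∧ (∃ C : VariableChange ℚ,
          C • P.freyCurve = W.map (Int.castRingHom ℚ)) ∧
        𝔪.IsMaximal ∧ (P.p : integralClosure ℤ ℂ) ∈ 𝔪 ∧
        ∀ l : ℕ, l.Prime → W.IsGoodPrimeFor l → ¬ l ∣ N → l ≠ P.p →
          ∃ a : integralClosure ℤ ℂ, (a : ℂ) = qCoeff f l ∧
            a - ((W.apOfModel l : ℤ) : integralClosure ℤ ℂ) ∈ 𝔪 :=
  Iff.rfl

/-- `galoisRepModuleEnd` in the next definition is the Galois action on the torsion points. -/
theorem galois_rep_module_end_apply (E : Affine ℚ) (n : ℕ) (σ : Qb ≃ₐ[ℚ] Qb)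
    (x : Submodule.torsionBy ℤ (E⁄Qb).Point n) :
    galoisRepModuleEnd (S := ℚ) (K := Qb) E n σ x = σ • x :=
  rfl

/-- **Attachment** (S42), level `M`.  For every normalised eigenform `g` of weight two on `Γ₀(M)` and every
maximal ideal `𝔪` over `p` of the ring of all algebraic integers there are a field `K` of characteristic `p`,
a homomorphism `ψ` to `K` which is zero on `𝔪`, and a two-dimensional representation `ρ` of the Galois group
over `K` with `tr ρ(Frob_ℓ) = ψ(a_ℓ(g))` and `det ρ(Frob_ℓ) = ℓ` for all primes `ℓ ∤ p M`; moreover `ρ` and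
the representation on the `p`-torsion of the Frey curve factor through the Galois group of one number
field `F`. -/
theorem attachment_iff (P : FreyPackage) (M : ℕ) :
    P.EigenformResidualAttachmentAt M ↔
      ∀ g : CuspForm (Gamma0 M) 2, g.IsNormalizedEigenform →
        ∀ 𝔪 : Ideal (integralClosure ℤ ℂ), 𝔪.IsMaximal → (P.p : integralClosure ℤ ℂ) ∈ 𝔪 →
          ∃ (K : Type) (_ : Field K) (_ : Algebra (ZMod P.p) K)
            (V : Type) (_ : AddCommGroup V) (_ : Module K V) (ρ : Representation K (Qb ≃ₐ[ℚ] Qb) V)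
            (ψ : integralClosure ℤ ℂ →+* K)
            (F : Type) (_ : Field F) (_ : NumberField F) (_ : IsGalois ℚ F)
            (_ : Algebra F Qb) (_ : IsScalarTower ℚ F Qb),
            𝔪 ≤ RingHom.ker ψ ∧ Module.finrank K V = 2 ∧
            (AlgEquiv.restrictNormalHom (F := ℚ) (K₁ := Qb) F).ker ≤
              (galoisRepModuleEnd (S := ℚ) (K := Qb) P.freyCurve P.p).ker ⊓ ρ.ker ∧
            (∀ ℓ : ℕ, ℓ.Prime → ¬ ℓ ∣ M → ℓ ≠ P.p →
              ∀ A : ValuationSubring Qb, A.LiesOverPrime ℓ → ∀ τ : Qb ≃ₐ[ℚ] Qb, A.IsFrobeniusAt τ ℓ →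
                ∃ a : integralClosure ℤ ℂ, (a : ℂ) = qCoeff g ℓ ∧
                  LinearMap.trace K V (ρ τ) = ψ a) ∧
            ∀ ℓ : ℕ, ℓ.Prime → ¬ ℓ ∣ M → ℓ ≠ P.p →
              ∀ A : ValuationSubring Qb, A.LiesOverPrime ℓ → ∀ τ : Qb ≃ₐ[ℚ] Qb, A.IsFrobeniusAt τ ℓ →
                LinearMap.det (ρ τ) = (ℓ : K) :=
  Iff.rfl

end Fermat.Agent.Guide.Notions
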