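import Mathlib
import Fermat.Prelude.Def_AlgebraicCurve_CanonicalDivisor
import Fermat.Prelude.Def_AlgebraicCurve_IsCurveOver
import Fermat.Prelude.Def_AlgebraicCurve_Repartitions
import Fermat.Prelude.Def_ModularCurve_ArithmeticGalois
import Fermat.Prelude.Def_ModularCurve_HeckeModule
import Fermat.Prelude.Def_ModularCurve_ReductionModL

/-!
# Guide to the notions of the frozen statements, part 5: curves, divisor classes, `X_0(N)` and `J_0(N)`

Continuation of `GuideNotions`.  In the frozen statements (except S25, S26, S28) a curve is a function field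
`F` over `K`, its Jacobian is the group `Pic0 K F` of divisor classes of degree zero, and `X_0(N)` is the
field of functions generated by the `j(q^d)`, `d ∣ N`, in the field of Laurent series.

Section 1: places, divisors, genus (S17 - S19, S24, S27, S37).  Section 2: the function field of `X_0(N)`
(S17 - S19, S24, S28, S37), the group `J_0(N)` (S17 - S19, S37) and its Galois action (S17, S19, S37).
Section 3: Hecke operators (S37).  Section 4: reduction modulo a place (S18).  The notions of S25, S26, S28
(schemes) are in part 6 (`GuideNotionsSchemes`).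
-/

set_option autoImplicit false

open AlgebraicCurve ModularCurve
open scoped Pointwise

namespace Fermat.Agent.Guide.NotionsCurves

/-- An algebraic closure of `ℚ`. -/
local notation "Qb" => AlgebraicClosure ℚ

/-! ## Section 1: function fields -/

section
variable {K F : Type*} [Field K] [Field F] [Algebra K F]

/-- **Place** of `F` over `K`: a valuation ring of `F` which contains `K`, is not `F`, and is a principal
ideal ring, that is, a discrete valuation ring. -/
theorem place_iff (A : ValuationSubring F) :
    (∃ v : Place K F, v.toValuationSubring = A) ↔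
      (∀ a : K, algebraMap K F a ∈ A) ∧ A ≠ ⊤ ∧ IsPrincipalIdealRing A := by
  constructor
  · rintro ⟨v, rfl⟩
    exact ⟨v.algebraMap_mem', v.ne_top', v.isPrincipalIdealRing'⟩
  · rintro ⟨h1, h2, h3⟩
    exact ⟨⟨A, h1, h2, h3⟩, rfl⟩

/-- **Order** of a function at a place: `f = u π ^ (ord f)` with a unit `u`, for every prime element `π` of
the valuation ring; and this determines it. -/
theorem ord_spec (v : Place K F) {π : v.toValuationSubring} (hπ : Irreducible π) :
    (∀ f : F, f ≠ 0 → ∃ u : v.toValuationSubringˣ,
      f = ((u : v.toValuationSubring) : F) * (π : F) ^ (v.ord f)) ∧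
    ∀ (u : v.toValuationSubringˣ) (n : ℤ),
      v.ord (((u : v.toValuationSubring) : F) * (π : F) ^ n) = n :=
  ⟨fun _ hf => v.exists_unit_mul_zpow hf hπ, fun u n => v.ord_unit_smul_zpow u hπ n⟩

/-- **Divisors** are the finite integral combinations of places (`Divisor K F` is `Place K F →₀ ℤ`); the
**degree** of a place is the degree of its residue field over `K`, and the degree of divisors is additive. -/
theorem degree_single (v : Place K F) (n : ℤ) :
    Divisor.degree (Finsupp.single v n) = n * (Module.finrank K v.ResidueField : ℤ) :=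
  Divisor.degree_single v n

/-- **Divisors of degree zero** and **principal divisors**. -/
theorem mem_degZero_and_principal (D : Divisor K F) :
    (D ∈ Divisor.degZero (K := K) (F := F) ↔ Divisor.degree D = 0) ∧
      (D ∈ Divisor.principal (K := K) (F := F) ↔ ∃ f : F, f ≠ 0 ∧ ∀ v : Place K F, D v = v.ord f) :=
  ⟨Iff.rfl, Iff.rfl⟩

/-- **The class group** `Pic0 K F`: divisors of degree zero modulo principal divisors; and its **torsion**
(S27): the classes killed by `n`. -/
theorem pic0_and_torsion (D : Divisor.degZero (K := K) (F := F)) (x : Pic0 K F) (n : ℕ) :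
    Function.Surjective (Pic0.mk (K := K) (F := F)) ∧
      (Pic0.mk D = 0 ↔ ∃ f : F, f ≠ 0 ∧ ∀ v : Place K F, (D : Divisor K F) v = v.ord f) ∧
      (x ∈ Pic0.torsion K F n ↔ (n : ℤ) • x = 0) :=
  ⟨Pic0.mk_surjective, QuotientAddGroup.eq_zero_iff D, Pic0.mem_torsion⟩

/-- **Curve** (S27): every function `≠ 0` has a divisor, of degree zero, the residue fields are finite over
`K`, and the differentials of `F` over `K` have dimension one. -/
theorem is_curve_over_iff :
    IsCurveOver K F ↔
      (∀ f : F, f ≠ 0 → ∃ D : Divisor K F, (∀ v : Place K F, D v = v.ord f) ∧ Divisor.degree D = 0) ∧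
      (∀ v : Place K F, Module.Finite K v.ResidueField) ∧
      Module.Free F (Ω[F⁄K]) ∧ Module.finrank F (Ω[F⁄K]) = 1 :=
  ⟨fun h => ⟨h.exists_divisor, h.finiteResidue, h.kaehler_free_rank_one⟩,
    fun h => { exists_divisor := h.1, finiteResidue := h.2.1, kaehler_free_rank_one := h.2.2 }⟩

/-- **Repartitions** (adeles): the algebra over `F` generated by the families `α` of functions, indexed by the
places, such that `α_v` is integral at `v` for all but finitely many `v`; the repartitions with poles bounded
by a divisor `D`, and the constant repartitions. -/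
theorem repartitions_def (D : Divisor K F) (α : repartitions K F) :
    repartitions K F = Algebra.adjoin F
      {α : Place K F → F | {v : Place K F | ¬ v.adicValuation (α v) ≤ 1}.Finite} ∧
    (α ∈ repartitionsOf D ↔ ∀ v : Place K F,
      (α : Place K F → F) v = 0 ∨ -D v ≤ v.ord ((α : Place K F → F) v)) ∧
    (α ∈ principalRepartitions K F ↔ ∃ f : F, (α : Place K F → F) = fun _ => f) :=
  ⟨rfl, mem_repartitionsOf_iff, mem_principalRepartitions_iff⟩

/-- **The genus** `genusFF` (S27): the dimension of the space of the repartitions modulo the integral and the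
constant ones. -/
theorem genus_ff_def :
    genusFF K F = Module.finrank K
      (repartitions K F ⧸ (repartitionsOf (0 : Divisor K F) ⊔ principalRepartitions K F)) :=
  rfl

/-- **Order of a differential** (used in S24): the order of its coefficient with respect to `dπ`, `π` a chosen
prime element at `v`; the hypothesis says that `dπ` generates the differentials. -/
theorem ord_differential (v : Place K F) [v.DCoordGenerates] (ω : Ω[F⁄K]) :
    v.ordDifferential ω = v.ord (v.differentialCoeff ω) ∧
      v.differentialCoeff ω • v.dCoord = ω :=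
  ⟨rfl, v.differentialCoeff_smul_dCoord ω⟩

/-- **Canonical divisors exist** (hypothesis of S24): every differential `≠ 0` has a divisor. -/
theorem has_canonical_divisor_iff :
    HasCanonicalDivisor (K := K) (F := F) ↔
      ∀ ω : Ω[F⁄K], ω ≠ 0 → ∃ D : Divisor K F, ∀ v : Place K F, D v = v.ordDifferential ω :=
  ⟨fun h => h.exists_divisor, fun h => ⟨h⟩⟩

end

/-- **The genus** of S24: `(deg div(ω) + 2)/2` for a differential `ω ≠ 0` (if there is one). -/
theorem genus_eq (K F : Type*) [Field K] [Field F] [Algebra K F]
    [HasCanonicalDivisor (K := K) (F := F)] (h : ∃ ω : Ω[F⁄K], ω ≠ 0) :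
    ∃ (ω : Ω[F⁄K]) (D : Divisor K F), ω ≠ 0 ∧ (∀ v : Place K F, D v = v.ordDifferential ω) ∧
      genus K F = (Divisor.degree D + 2).toNat / 2 := by
  classical
  exact ⟨_, _, h.choose_spec, canonicalDivisorOf_apply h.choose_spec, dif_pos h⟩

/-! ## Section 2: the function field of `X_0(N)` and `J_0(N)` -/

/-- **The `q`-expansion of `j`**: `q⁻¹ jNum` with `jNum = E₄³ / ∏ (1 - qⁿ)²⁴`; `jqModC R` is the same Laurent
series over a ring `R`. -/
theorem j_expansion (R : Type*) [CommRing R] :
    (jq = HahnSeries.single (-1 : ℤ) 1 *
      HahnSeries.ofPowerSeries ℤ ℚ (jNum.map (Int.castRingHom ℚ))) ∧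
    jqModC R = HahnSeries.single (-1 : ℤ) 1 *
      HahnSeries.ofPowerSeries ℤ R (jNum.map (Int.castRingHom R)) :=
  ⟨rfl, rfl⟩

open scoped PowerSeries.WithPiTopology in
/-- The power series `jNum = E₄³ / ∏ (1 - qⁿ)²⁴`, `E₄ = 1 + 240 ∑ σ₃(n) qⁿ`, with integral coefficients. -/
theorem j_num :
    jNum = eisenstein4 ^ 3 * dedekindEtaUnitInv ∧
    (eisenstein4 = PowerSeries.mk fun n =>
      if n = 0 then 1 else 240 * ∑ d ∈ n.divisors, (d : ℤ) ^ 3) ∧
    dedekindEtaUnit = (∏' n : ℕ, (1 - PowerSeries.X ^ (n + 1))) ^ 24 ∧
    dedekindEtaUnit * dedekindEtaUnitInv = 1 :=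
  ⟨rfl, rfl, rfl, dedekindEtaUnit_mul_inv⟩

/-- **Substitution** `f(q) ↦ f(q^N)` of Laurent series. -/
theorem q_expand_coeff {R : Type*} [CommRing R] (N : ℕ) [NeZero N] (f : LaurentSeries R) (k : ℤ) :
    (qExpand R N f).coeff ((N : ℤ) * k) = f.coeff k ∧
      (¬ (N : ℤ) ∣ k → (qExpand R N f).coeff k = 0) :=
  ⟨qExpand_coeff_mul N f k, qExpand_coeff_of_not_dvd N f⟩

/-- **The function field of `X_0(N)` over `ℚ`**: generated by the `j(q^d)`, `d ∣ N`, in the field of Laurent
series; over a field `K` of any characteristic the same with `jqModC K`. -/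
theorem function_field (N : ℕ) (K : Type*) [Field K] :
    modularFunctionFieldFull N = IntermediateField.adjoin ℚ
      {x | ∃ (d : ℕ) (_ : NeZero d), d ∣ N ∧ x = qExpand ℚ d jq} ∧
    modularFunctionFieldFullC K N = IntermediateField.adjoin K
      {x | ∃ (d : ℕ) (_ : NeZero d), d ∣ N ∧ x = qExpand K d (jqModC K)} :=
  ⟨rfl, rfl⟩

/-- **The function field of `X_0(N)` over `Qb`**: generated over `Qb` by the series of the field over `ℚ`. -/
theorem function_field_bar (N : ℕ) :
    modularFunctionFieldBar N = IntermediateField.adjoin Qb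
      ((fun x : LaurentSeries ℚ => coeffEmb Qb x) '' (modularFunctionFieldFull N : Set _)) ∧
    ∀ (x : LaurentSeries ℚ) (k : ℤ), (coeffEmb Qb x).coeff k = algebraMap ℚ Qb (x.coeff k) :=
  ⟨rfl, fun _ _ => rfl⟩

/-- **The Galois action on functions** is the action on the coefficients of the `q`-expansion. -/
theorem galois_on_functions (N : ℕ) (σ : Qb ≃ₐ[ℚ] Qb) (f : modularFunctionFieldBar N) (k : ℤ) :
    ((arithmeticGalois (modularFunctionFieldFull N) σ • f : modularFunctionFieldBar N) :
      LaurentSeries Qb).coeff k = σ ((f : LaurentSeries Qb).coeff k) :=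
  rfl

/-- **The action of semilinear automorphisms** `g` of a function field (they map constants to constants) on
places, divisors and classes: `ord_{g v}(g f) = ord_v(f)`, `(g D)(g v) = D(v)`, and the class of `D` goes to
the class of `g D`. -/
theorem semilinear_action {K F : Type*} [Field K] [Field F] [Algebra K F] (g : SemilinearAut K F)
    (v : Place K F) (f : F) (D : Divisor.degZero (K := K) (F := F)) :
    (g • v).ord (g • f) = v.ord f ∧ (g • (D : Divisor K F)) (g • v) = (D : Divisor K F) v ∧
      ∃ E : Divisor.degZero (K := K) (F := F),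
        (E : Divisor K F) = g • (D : Divisor K F) ∧ g • Pic0.mk D = Pic0.mk E :=
  ⟨SemilinearAut.ord_smul g v f, SemilinearAut.divisor_smul_apply_smul g D v, _, rfl, rfl⟩

/-- **`J_0(N)`** (S17 - S19, S37) is the group of divisor classes of degree zero of `X_0(N)` over `Qb`, with
the Galois action given by the semilinear automorphisms `arithmeticGalois`. -/
theorem j_zero (N : ℕ) (σ : Qb ≃ₐ[ℚ] Qb) (x : JZero N) :
    JZero N = Pic0 Qb (modularFunctionFieldBar N) ∧
      σ • x = arithmeticGalois (modularFunctionFieldFull N) σ • x :=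
  ⟨rfl, rfl⟩

/-! ## Section 3: Hecke operators on `J_0(N)` (S37)

A homomorphism `φ : F → F'` of function fields, integral, is a map of curves.  Places, divisors and classes
are pushed forward and pulled back along it. -/

section
variable {K F F' : Type*} [Field K] [Field F] [Field F'] [Algebra K F] [Algebra K F']

/-- **Image of a place**: the functions whose image is integral at `w`. -/
theorem mem_restrict_along_iff (φ : F →ₐ[K] F') (hφ : φ.toRingHom.IsIntegral) (w : Place K F')
    (f : F) :
    f ∈ (w.restrictAlong φ hφ).toValuationSubring ↔ φ f ∈ w.toValuationSubring :=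
  Iff.rfl

/-- **Push forward and pull back of divisors**: `w` goes to `f(w)` times the place below (`f(w)` is the degree
of the extension of residue fields), and the coefficient of the pull back at `w` is `e(w)` times that at the
place below (`e(w)` is the ramification index). -/
theorem push_pull (φ : F →ₐ[K] F') (hφ : φ.toRingHom.IsIntegral) [HasPrincipalDivisors K F']
    (w : Place K F') (n : ℤ) (D : Divisor K F) :
    Divisor.pushforwardAlong φ hφ (Finsupp.single w n) =
        Finsupp.single (w.restrictAlong φ hφ) (n * (w.inertiaDegAlong φ hφ : ℤ)) ∧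
      Divisor.pullbackAlong φ hφ D w = w.ramificationIndexAlong φ * D (w.restrictAlong φ hφ) :=
  ⟨@Divisor.pushforward_single K F F' _ _ _ _ _ (algebraAlong φ) (isScalarTower_along φ)
    (isIntegral_along φ hφ) w n, Divisor.pullbackAlong_apply φ hφ D w⟩

/-- **Correspondence** on classes: pull back along `φ`, push forward along `ψ`.  (The hypotheses make it well
defined: `hFI`, the sum of the `e(w) f(w)` is the degree of `φ`; `hN`, the push forward of the divisor of a
function is the divisor of its norm.) -/
theorem correspondence_mk [HasPrincipalDivisors K F'] (φ ψ : F →ₐ[K] F')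
    (hφ : φ.toRingHom.IsIntegral) (hψ : ψ.toRingHom.IsIntegral)
    (hFI : FundamentalIdentityAlong K φ hφ) (hfin : FiniteAlong K ψ)
    (hN : NormFormulaAlong K ψ hfin) (D : Divisor.degZero (K := K) (F := F)) :
    ∃ E : Divisor.degZero (K := K) (F := F),
      Pic0.correspondence φ ψ hφ hψ hFI hfin hN (Pic0.mk D) = Pic0.mk E ∧
        (E : Divisor K F) = Divisor.pushforwardAlong ψ hψ (Divisor.pullbackAlong φ hφ D) :=
  ⟨_, rfl, rfl⟩

end

/-- **The two degeneracy maps** from the functions of level `N` to those of level `N ℓ`: the inclusion, and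
`f(q) ↦ f(q^ℓ)`. -/
theorem degeneracy_maps (N ℓ : ℕ) [NeZero N] [NeZero ℓ] (f : modularFunctionFieldBar N) :
    (heckeAlphaBar Qb N ℓ f : LaurentSeries Qb) = f ∧
      (heckeBetaBar Qb N ℓ f : LaurentSeries Qb) = qExpand Qb ℓ (f : LaurentSeries Qb) :=
  ⟨coe_heckeAlphaBar N ℓ f, rfl⟩

/-- **The Hecke operator** `T_ℓ` (`U_ℓ` if `ℓ ∣ N`) on `J_0(N)`: the correspondence given by the pull back
along `f(q) ↦ f(q^ℓ)` and the push forward along the inclusion.  (The hypotheses are proved in the library,
see `GuideHecke`.) -/
theorem hecke_operator (N : ℕ) [NeZero N] (ℓ : Nat.Primes) [NeZero (ℓ : ℕ)]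
    (hα : HeckeAlphaBarIntegral Qb N ℓ) (hβ : HeckeBetaBarIntegral Qb N ℓ)
    [HasPrincipalDivisors Qb (modularFunctionFieldBar (N * ℓ))]
    (hFI : FundamentalIdentityAlong Qb (heckeBetaBar Qb N ℓ) hβ)
    (hfin : FiniteAlong Qb (heckeAlphaBar Qb N ℓ))
    (hN : NormFormulaAlong Qb (heckeAlphaBar Qb N ℓ) hfin) (x : JZero N) :
    heckeOperatorBar N ℓ x = Pic0.correspondence (heckeBetaBar Qb N ℓ) (heckeAlphaBar Qb N ℓ)
      hβ hα hFI hfin hN x :=
  congrArg (fun f => f x) (heckeOperatorAlong_eq hα hβ hFI hfin hN)

/-- **The Hecke operators commute**: the hypothesis of S37. -/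
theorem hecke_commute_iff (N : ℕ) [NeZero N] :
    HeckeOperatorsCommuteBar N ↔ ∀ ℓ ℓ' : Nat.Primes,
      heckeOperatorBar N ℓ * heckeOperatorBar N ℓ' = heckeOperatorBar N ℓ' * heckeOperatorBar N ℓ :=
  Iff.rfl

/-- **The action of the polynomial ring** `HeckeAlg` on `J_0(N)`: the variable of `ℓ` acts as the Hecke
operator. -/
theorem hecke_module (N : ℕ) [NeZero N] (h : HeckeOperatorsCommuteBar N) (ℓ : Nat.Primes)
    (x : JZero N) : (letI := heckeModuleBar N; heckeGen ℓ • x) = heckeOperatorBar N ℓ x :=
  heckeModuleBar_heckeGen_smul h ℓ x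

/-- **The statement of S37** for a module `J` with commuting actions of the Galois group and of the Hecke
operators: for every prime `ℓ ∤ N p` and every place over `ℓ` there are a Hecke module `J'`, a Hecke linear
map `sp : J → J'` and an endomorphism `F` of `J'` such that inertia acts trivially after `sp`, the
Frobenius elements act as `F`, `sp` is injective on `p`-power torsion, and `F² - T_ℓ F + ℓ = 0`. -/
theorem specialization_iff (N p : ℕ) (J : Type) [AddCommGroup J] [Module HeckeAlg J]
    [DistribMulAction (Qb ≃ₐ[ℚ] Qb) J] [SMulCommClass (Qb ≃ₐ[ℚ] Qb) HeckeAlg J] :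
    SpecializationExists (K := ℚ) (L := Qb) N p J ↔
      ∀ ℓ : ℕ, (hℓ : ℓ.Prime) → ¬ ℓ ∣ N * p → ∀ A : ValuationSubring Qb, A.LiesOverPrime ℓ →
        ∃ (J' : Type) (_ : AddCommGroup J') (_ : Module HeckeAlg J') (sp : J →+ J') (F : J' →+ J'),
          ((∀ (T : HeckeAlg) (x : J), sp (T • x) = T • sp x) ∧
            (∀ σ ∈ A.inertiaSubgroupIn ℚ, ∀ x : J, sp (σ • x) = sp x) ∧
            (∀ σ : Qb ≃ₐ[ℚ] Qb, A.IsFrobeniusAt σ ℓ → ∀ x : J, sp (σ • x) = F (sp x)) ∧
            ∀ x : J, (∃ n : ℕ, p ^ n • x = 0) → sp x = 0 → x = 0) ∧
          ∀ y : J', F (F y) - heckeGen ⟨ℓ, hℓ⟩ • F y + ℓ • y = 0 := by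
  refine forall_congr' fun ℓ => forall_congr' fun hℓ => forall_congr' fun _ => forall_congr' fun A =>
    forall_congr' fun _ => exists_congr fun J' => exists_congr fun _ => exists_congr fun _ =>
    exists_congr fun sp => exists_congr fun F => and_congr_left' ?_
  exact ⟨fun h => ⟨h.1, h.2, h.3, h.4⟩, fun h => ⟨h.1, h.2.1, h.2.2.1, h.2.2.2⟩⟩

/-! ## Section 4: reduction modulo a place (S18) -/

section
variable {L : Type*} [Field L] [Algebra ℚ L] {A : ValuationSubring L} {k : Type*} [Field k]
  {π : A →+* k} {N : ℕ}

/-- **Reduction of places**, for a homomorphism `π` from a valuation ring `A` of `L` to a field `k` (in S18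
`L = Qb` and `k` is the residue field of `A`): a map `r` from the places of `X_0(N)` over `L` to those of
`X_0(N)` over `k`, which preserves degrees, such that for every function `y` with coefficients in `A`, whose
reduction `ȳ` lies in the function field of `X_0(N)` over `k` and is not zero, the divisor of `y` is mapped to
the divisor of `ȳ`. -/
theorem place_reduction_iff (r : Place L (laurentBaseChange L (modularFunctionFieldFull N)) →
      Place k (modularFunctionFieldFullC k N)) :
    IsPlaceReductionAlong A π N r ↔ (∀ P, (r P).deg = P.deg) ∧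
      ∀ (y : LaurentSeries A)
        (hy : coeffMap A.subtype y ∈ laurentBaseChange L (modularFunctionFieldFull N))
        (hyk : coeffMap π y ∈ modularFunctionFieldFullC k N), coeffMap π y ≠ 0 →
        ∀ D : Divisor L (laurentBaseChange L (modularFunctionFieldFull N)),
          (∀ P, D P = P.ord (⟨coeffMap A.subtype y, hy⟩ :
            laurentBaseChange L (modularFunctionFieldFull N))) →
          ∀ Q, Finsupp.mapDomain r D Q =
            Q.ord (⟨coeffMap π y, hyk⟩ : modularFunctionFieldFullC k N) :=
  Iff.rfl

/-- **The hypothesis of S18** (`ReductionInputsModL A N`): there is a reduction of places, and the divisors of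
the functions with integral coefficients, whose reduction lies in the function field over `k` and is not zero,
generate the group of principal divisors. -/
theorem reduction_inputs_iff :
    ReductionInputsAlong A π N ↔
      ∃ r, IsPlaceReductionAlong A π N r ∧
        Divisor.principal (K := L) (F := laurentBaseChange L (modularFunctionFieldFull N)) ≤
          AddSubgroup.closure {D | ∃ (y : LaurentSeries A)
            (hy : coeffMap A.subtype y ∈ laurentBaseChange L (modularFunctionFieldFull N)),
            coeffMap π y ∈ modularFunctionFieldFullC k N ∧ coeffMap π y ≠ 0 ∧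
              ∀ P, D P = P.ord (⟨coeffMap A.subtype y, hy⟩ :
                laurentBaseChange L (modularFunctionFieldFull N))} :=
  Iff.rfl

/-- **Reduction of classes** (`reductionModL` in S18): the class of `D` goes to the class of the image of `D`
under a reduction of places. -/
theorem reduction_mk (h : ReductionInputsAlong A π N)
    (D : Divisor.degZero (K := L) (F := laurentBaseChange L (modularFunctionFieldFull N))) :
    ∃ (r : Place L (laurentBaseChange L (modularFunctionFieldFull N)) →
        Place k (modularFunctionFieldFullC k N))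
      (E : Divisor.degZero (K := k) (F := modularFunctionFieldFullC k N)),
      IsPlaceReductionAlong A π N r ∧ reductionAlong A π N (Pic0.mk D) = Pic0.mk E ∧
        (E : Divisor k (modularFunctionFieldFullC k N)) = Finsupp.mapDomain r (D : Divisor L _) :=
  ⟨_, _, h.choose_spec.1, reductionAlong_mk h D, rfl⟩

end

/-- The notions of S18 are the case `L = Qb` and `π` the map from `A` to its residue field. -/
theorem reduction_modulo_place (A : ValuationSubring Qb) (N : ℕ) :
    (ReductionInputsModL A N ↔ ReductionInputsAlong A (IsLocalRing.residue A) N) ∧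
      reductionModL A N = reductionAlong A (IsLocalRing.residue A) N :=
  ⟨Iff.rfl, rfl⟩

end Fermat.Agent.Guide.NotionsCurves
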