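import Mathlib
import Fermat.Prelude.Def_Algebra_PatchingDatum
import Fermat.Prelude.Def_CuspForm_HeckeGaloisRepDatum
import Fermat.Prelude.Def_ExtCitation_AdmissibleExtension_v2
import Fermat.Prelude.Def_GaloisRep_DeformationCondition
import Fermat.Prelude.Def_GaloisRep_DeformationRingData
import Fermat.Prelude.Def_GroupCohomology_ContinuousUnramified

/-!
# Guide to the notions of the frozen statements, part 4: deformations, Hecke rings, cohomology

Continuation of `GuideNotionsGalois`.  Section 1: deformation conditions and universal deformation rings (S53,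
S54, S56; see `GuideDeformations`).  Section 2: representations over Hecke rings (S31 - S34, S54), patching
(S57).  Section 3: cohomology of the Galois group of `ℚ` unramified outside `S` (S55; the comparison with the
language used in the proofs is `prelude_sha` in `GuidePoitouTate`), extensions (S14).  The theorems
`local_groups`, `loc_res_one_iff`, `loc_res_two_iff` are by helper58.
-/

set_option autoImplicit false

open Polynomial IsLocalRing CategoryTheory groupCohomology ExtCitation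
open scoped TensorProduct

namespace Fermat.Agent.Guide.NotionsDeformations

/-- An algebraic closure of `ℚ`. -/
local notation "Qb" => AlgebraicClosure ℚ

/-! ## Section 1: deformations -/

/-- **Test algebras**: Artinian local `𝒪`-algebras with the residue field of `𝒪`. -/
theorem artinian_test_algebra_iff (𝒪 A : Type) [CommRing 𝒪] [IsLocalRing 𝒪] [CommRing A]
    [IsLocalRing A] [Algebra 𝒪 A] :
    GaloisRep.IsArtinianTestAlgebra 𝒪 A ↔ IsLocalHom (algebraMap 𝒪 A) ∧
      Function.Surjective (residue A ∘ algebraMap 𝒪 A) ∧ IsArtinianRing A :=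
  ⟨fun h => ⟨h.1, h.2, h.3⟩, fun h => ⟨h.1, h.2.1, h.2.2⟩⟩

/-- **Deformation condition** (S53): a property `𝒟` of representations over local `𝒪`-algebras which, on test
algebras, is invariant under isomorphism, stable under base change, descends along injections and to fibre
products, and which for a complete noetherian local algebra with the residue field of `𝒪` holds if and only
if it holds for all its Artinian quotients. -/
theorem deformation_condition_iff (𝒪 : Type) [CommRing 𝒪] [IsLocalRing 𝒪]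
    (𝒟 : ∀ ⦃A : Type⦄ [CommRing A] [IsLocalRing A] [Algebra 𝒪 A], GaloisRepAdic A → Prop) :
    GaloisRep.IsDeformationCondition 𝒪 𝒟 ↔
      (∀ ⦃A : Type⦄ [CommRing A] [IsLocalRing A] [Algebra 𝒪 A],
        GaloisRep.IsArtinianTestAlgebra 𝒪 A → ∀ ⦃ρ ρ' : GaloisRepAdic A⦄,
          ρ.IsEquiv ρ' → 𝒟 ρ → 𝒟 ρ') ∧
      (∀ ⦃A B : Type⦄ [CommRing A] [IsLocalRing A] [Algebra 𝒪 A]
        [CommRing B] [IsLocalRing B] [Algebra 𝒪 B],
        GaloisRep.IsArtinianTestAlgebra 𝒪 A → GaloisRep.IsArtinianTestAlgebra 𝒪 B →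
        ∀ (φ : A →ₐ[𝒪] B) (hφ : IsLocalHom (φ : A →+* B)) ⦃ρ : GaloisRepAdic A⦄,
          𝒟 ρ → 𝒟 (ρ.baseChangeAlong (φ : A →+* B) hφ)) ∧
      (∀ ⦃A B : Type⦄ [CommRing A] [IsLocalRing A] [Algebra 𝒪 A]
        [CommRing B] [IsLocalRing B] [Algebra 𝒪 B],
        GaloisRep.IsArtinianTestAlgebra 𝒪 A → GaloisRep.IsArtinianTestAlgebra 𝒪 B →
        ∀ (φ : A →ₐ[𝒪] B) (hφ : IsLocalHom (φ : A →+* B)), Function.Injective φ →
          ∀ ⦃ρ : GaloisRepAdic A⦄, 𝒟 (ρ.baseChangeAlong (φ : A →+* B) hφ) → 𝒟 ρ) ∧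
      (∀ ⦃A B C P : Type⦄ [CommRing A] [IsLocalRing A] [Algebra 𝒪 A]
        [CommRing B] [IsLocalRing B] [Algebra 𝒪 B] [CommRing C] [IsLocalRing C] [Algebra 𝒪 C]
        [CommRing P] [IsLocalRing P] [Algebra 𝒪 P],
        GaloisRep.IsArtinianTestAlgebra 𝒪 A → GaloisRep.IsArtinianTestAlgebra 𝒪 B →
        GaloisRep.IsArtinianTestAlgebra 𝒪 C → GaloisRep.IsArtinianTestAlgebra 𝒪 P →
        ∀ (f : A →ₐ[𝒪] C) (g : B →ₐ[𝒪] C) (pA : P →ₐ[𝒪] A) (pB : P →ₐ[𝒪] B)
          (hpA : IsLocalHom (pA : P →+* A)) (hpB : IsLocalHom (pB : P →+* B)),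
          f.comp pA = g.comp pB → Function.Injective (fun x => (pA x, pB x)) →
          (∀ a b, f a = g b → ∃ x, pA x = a ∧ pB x = b) → ∀ ⦃ρ : GaloisRepAdic P⦄,
            𝒟 (ρ.baseChangeAlong (pA : P →+* A) hpA) →
            𝒟 (ρ.baseChangeAlong (pB : P →+* B) hpB) → 𝒟 ρ) ∧
      (∀ ⦃A : Type⦄ [CommRing A] [IsLocalRing A] [IsNoetherianRing A]
        [IsAdicComplete (maximalIdeal A) A] [Algebra 𝒪 A],
        IsLocalHom (algebraMap 𝒪 A) → Function.Surjective (residue A ∘ algebraMap 𝒪 A) →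
        ∀ (ρ : GaloisRepAdic A), 𝒟 ρ ↔
          ∀ ⦃B : Type⦄ [CommRing B] [IsLocalRing B] [Algebra 𝒪 B],
            GaloisRep.IsArtinianTestAlgebra 𝒪 B →
            ∀ (q : A →ₐ[𝒪] B) (hq : IsLocalHom (q : A →+* B)), Function.Surjective q →
              𝒟 (ρ.baseChangeAlong (q : A →+* B) hq)) :=
  ⟨fun h => ⟨h.1, h.2, h.3, h.4, h.5⟩, fun h => ⟨h.1, h.2.1, h.2.2.1, h.2.2.2.1, h.2.2.2.2⟩⟩

/-- **Finite tangent space** (S53): over the ring of dual numbers `k[ε]` of the residue field `k` of `𝒪` there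
are only finitely many isomorphism classes of representations with the property `𝒟` and residual
representation `ρbar`.  (The algebra structures are the obvious ones: `𝒪 → k → k[ε]`, and `k → k[ε] →` the
residue field of `k[ε]`, along which `ρbar` is moved.) -/
theorem tangent_finite_iff (𝒪 : Type) [CommRing 𝒪] [IsLocalRing 𝒪]
    (ρbar : ResidualGaloisRep (ResidueField 𝒪))
    (𝒟 : ∀ ⦃A : Type⦄ [CommRing A] [IsLocalRing A] [Algebra 𝒪 A], GaloisRepAdic A → Prop) :
    GaloisRep.TangentFinite 𝒪 ρbar 𝒟 ↔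
      letI : Algebra 𝒪 (DualNumber (ResidueField 𝒪)) :=
        ((algebraMap (ResidueField 𝒪) (DualNumber (ResidueField 𝒪))).comp
          (algebraMap 𝒪 (ResidueField 𝒪))).toAlgebra
      letI : Algebra (ResidueField 𝒪) (ResidueField (DualNumber (ResidueField 𝒪))) :=
        ((IsLocalRing.residue (DualNumber (ResidueField 𝒪))).comp
          (algebraMap (ResidueField 𝒪) (DualNumber (ResidueField 𝒪)))).toAlgebra
      Finite (Quotient (⟨fun ρ ρ' : {ρ : GaloisRepAdic (DualNumber (ResidueField 𝒪)) // 𝒟 ρ ∧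
          ρ.residual.IsEquiv (ρbar.baseChange (ResidueField (DualNumber (ResidueField 𝒪)))) } =>
          ρ.1.IsEquiv ρ'.1, ⟨fun ρ => ⟨GaloisRepAdic.Equiv.refl ρ.1⟩,
            fun ⟨e⟩ => ⟨e.symm⟩, fun ⟨e⟩ ⟨e'⟩ => ⟨e.trans e'⟩⟩⟩ : Setoid _)) :=
  Iff.rfl

/-- **Universal deformation ring** `D.R` with universal representation `D.ρ` (S53, S54, S56): a complete
noetherian local `𝒪`-algebra with the residue field of `𝒪`; `ρbar` is absolutely irreducible (this is part of
the datum); `D.ρ` has the property `𝒟` and its residual representation is `ρbar`; and every such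
representation `ρA` over such a ring `A` is, up to isomorphism, the base change of `D.ρ` along exactly one
local homomorphism of `𝒪`-algebras `D.R → A`. -/
theorem deformation_ring {𝒪 : Type} [CommRing 𝒪] [IsDomain 𝒪] [IsDiscreteValuationRing 𝒪]
    [IsAdicComplete (maximalIdeal 𝒪) 𝒪] {ρbar : ResidualGaloisRep (ResidueField 𝒪)}
    {𝒟 : ∀ ⦃A : Type⦄ [CommRing A] [IsLocalRing A] [Algebra 𝒪 A], GaloisRepAdic A → Prop}
    (D : GaloisRep.DeformationRingData 𝒪 ρbar 𝒟) :
    (IsNoetherianRing D.R ∧ IsAdicComplete (maximalIdeal D.R) D.R ∧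
      IsLocalHom (algebraMap 𝒪 D.R) ∧ Function.Surjective (residue D.R ∘ algebraMap 𝒪 D.R)) ∧
    (ρbar.IsAbsolutelyIrreducible ∧ 𝒟 D.ρ ∧
      D.ρ.residual.IsEquiv (ρbar.baseChangeAlong (ResidueField.map (algebraMap 𝒪 D.R)))) ∧
    ∀ (A : Type) [CommRing A] [IsLocalRing A] [IsNoetherianRing A]
      [IsAdicComplete (maximalIdeal A) A] [Algebra 𝒪 A] [IsLocalHom (algebraMap 𝒪 A)],
      Function.Surjective (residue A ∘ algebraMap 𝒪 A) → ∀ ρA : GaloisRepAdic A, 𝒟 ρA →
        ρA.residual.IsEquiv (ρbar.baseChangeAlong (ResidueField.map (algebraMap 𝒪 A))) →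
        ∃! φ : D.R →ₐ[𝒪] A, ∃ hφ : IsLocalHom (φ : D.R →+* A),
          (D.ρ.baseChangeAlong (φ : D.R →+* A) hφ).IsEquiv ρA :=
  ⟨⟨inferInstance, inferInstance, inferInstance, D.residue_surjective⟩,
    ⟨D.absIrr, D.isOfType, D.residual_isEquiv⟩, D.universal⟩

/-! ## Section 2: Hecke rings, patching -/

/-- **Representation over a Hecke ring** (S31 - S34, S54): `H : HeckeGaloisRepDatum N S 𝒪 θ T` consists of a
homomorphism `π` from the Hecke algebra of level `N` (without the primes of `S`) to a complete noetherian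
local ring `T` with the residue field of `𝒪`, finite and free over `𝒪`, which reduces to `θ`, whose image
generates `T`, and through which all liftings `χ` of `θ` to `𝒪` factor; and a representation `ρ` over `T`,
residually absolutely irreducible, such that the Frobenius elements at `ℓ ∤ N`, `ℓ ∉ S`, have characteristic
polynomial `X² - π(T_ℓ) X + ℓ`. -/
theorem hecke_galois_rep {N : ℕ} [NeZero N] {S : Set ℕ} {𝒪 : Type} [CommRing 𝒪] [IsDomain 𝒪]
    [IsDiscreteValuationRing 𝒪] [IsAdicComplete (maximalIdeal 𝒪) 𝒪]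
    {θ : CuspForm.heckeAlgebra N 2 S →+* ResidueField 𝒪} {T : Type} [CommRing T] [IsLocalRing T]
    [IsNoetherianRing T] [IsAdicComplete (maximalIdeal T) T] [Algebra 𝒪 T]
    [IsLocalHom (algebraMap 𝒪 T)] [Module.Finite 𝒪 T] [Module.Free 𝒪 T]
    (H : CuspForm.HeckeGaloisRepDatum N S 𝒪 θ T) :
    (∀ t, residue T (H.π t) = ResidueField.map (algebraMap 𝒪 T) (θ t)) ∧
    Algebra.adjoin 𝒪 (Set.range H.π) = ⊤ ∧
    (∀ χ : CuspForm.heckeAlgebra N 2 S →+* 𝒪, (∀ t, residue 𝒪 (χ t) = θ t) →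
      ∃ ψ : T →ₐ[𝒪] 𝒪, ∀ t, ψ (H.π t) = χ t) ∧
    Function.Surjective (residue T ∘ algebraMap 𝒪 T) ∧
    (∀ (ℓ : ℕ) (hℓ : ℓ.Prime) (hℓN : ¬ ℓ ∣ N) (hℓS : ℓ ∉ S),
      ∀ A : ValuationSubring Qb, A.LiesOverPrime ℓ → ∀ σ : Qb ≃ₐ[ℚ] Qb, A.IsFrobeniusAt σ ℓ →
        LinearMap.charpoly (H.ρ.ρ σ) =
          X ^ 2 - C (H.π (CuspForm.heckeAlgebra.T hℓ hℓN hℓS)) * X + C ((ℓ : T))) ∧
    H.ρ.residual.IsAbsolutelyIrreducible :=
  ⟨H.residue_π, H.adjoin_range_π, H.exists_point, H.residue_surjective, H.charpoly_frob,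
    H.residual_absIrr⟩

/-- **A patching level** (S57, there with `J = 0`), over the power series ring `Λ = 𝒪[[X₁, …, X_r]]`: an
endomorphism `φ` of `Λ`, a surjection `ψ : Λ → R` with `ψ φ(X_i) = 0`, a `Λ`-module `N` with a surjection `π`
to the `R`-module `M`, semilinear for `ψ`, with kernel `(φ(X_i)) N`, and elements `b_i` which generate `N`
over `φ(Λ)`, with relations exactly from the ideal `J`. -/
theorem patching_level {𝒪 : Type} [CommRing 𝒪] {r : ℕ} {R : Type} [CommRing R] [Algebra 𝒪 R]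
    {M : Type} [AddCommGroup M] [Module R M] {J : Ideal (MvPowerSeries (Fin r) 𝒪)}
    (L : Algebra.PatchingLevel 𝒪 r R M J) :
    Function.Surjective L.ψ ∧ (∀ i : Fin r, L.ψ (L.φ (MvPowerSeries.X i)) = 0) ∧
    (∀ (f : MvPowerSeries (Fin r) 𝒪) (x : L.N), L.π (f • x) = L.ψ f • L.π x) ∧
    Function.Surjective L.π ∧
    (∀ x : L.N, L.π x = 0 ↔ x ∈ (Ideal.span (Set.range fun i : Fin r => L.φ (MvPowerSeries.X i))) •
      (⊤ : Submodule (MvPowerSeries (Fin r) 𝒪) L.N)) ∧
    (∀ x : L.N, ∃ c : Fin L.d → MvPowerSeries (Fin r) 𝒪, x = ∑ i, L.φ (c i) • L.b i) ∧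
    ∀ c : Fin L.d → MvPowerSeries (Fin r) 𝒪, ∑ i, L.φ (c i) • L.b i = 0 ↔ ∀ i, c i ∈ J :=
  ⟨L.ψ_surjective, L.ψ_φ_X, L.π_smul, L.π_surjective, L.ker_π, L.b_span, L.b_rel⟩

/-! ## Section 3: cohomology -/

/-- **The mod `p` cyclotomic character** `cycloChar p` (S55) and the integer `cycloExp p σ` (S14):
`σ ζ = ζ ^ χ(σ)` for `ζ ^ p = 1`.  (`pPrime p` in S55 is `p` as an element of the type of primes.) -/
theorem cyclo_char_spec (p : ℕ) [Fact p.Prime] (σ : Qb ≃ₐ[ℚ] Qb) (ζ : Qb) (hζ : ζ ^ p = 1) :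
    σ ζ = ζ ^ ((cycloChar p σ : (ZMod p)ˣ) : ZMod p).val ∧ σ ζ = ζ ^ cycloExp p σ ∧
      ((pPrime p : Nat.Primes) : ℕ) = p := by
  have : NeZero p := ⟨(Fact.out : p.Prime).ne_zero⟩
  have h := modularCyclotomicCharacter.spec Qb (card_rootsOfUnity_eq_self p)
    (σ : Qb ≃+* Qb) (rootsOfUnity.mkOfPowEq ζ hζ).2
  exact ⟨h, h, rfl⟩

/-- **The dual twisted by a character** (S55): the linear forms `f` on `M` with the action
`(g f)(m) = χ(g) f(g⁻¹ m)`.  For the cyclotomic character this is `Hom(M, μ_p)`. -/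
theorem dual_twist_apply {k G : Type} [CommRing k] [Group G] (M : Rep k G) (χ : G →* kˣ) (g : G)
    (f : Module.Dual k M) (m : M) :
    ((M.dualTwist χ).ρ g f : Module.Dual k M) m = (χ g : k) * f (M.ρ g⁻¹ m) :=
  rfl

/-- **Unramified outside `S`**: a finite extension `F` of `ℚ` in `Qb` which is fixed by the inertia groups at
all primes outside `S`. -/
theorem unramified_outside_iff (F : IntermediateField ℚ Qb) (S : Finset Nat.Primes) :
    F.IsUnramifiedOutside S ↔ FiniteDimensional ℚ F ∧ ∀ q : Nat.Primes, q ∉ S →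
      ∀ A : ValuationSubring Qb, A.LiesOverPrime (q : ℕ) → A.inertiaSubgroupIn ℚ ≤ F.fixingSubgroup :=
  Iff.rfl

/-- **`H¹` unramified outside `S`** (S55): the classes of the 1-cocycles which are constant on the cosets of
the subgroup fixing some extension `F` unramified outside `S`. -/
theorem mem_h1_S_iff {k : Type} [CommRing k] (S : Finset Nat.Primes) (M : Rep k (Qb ≃ₐ[ℚ] Qb))
    (x : H1 M) :
    x ∈ continuousH1S S M ↔ ∃ c : cocycles₁ M, (∃ F : IntermediateField ℚ Qb,
      F.IsUnramifiedOutside S ∧ ∀ g s, s ∈ F.fixingSubgroup → (c : (Qb ≃ₐ[ℚ] Qb) → M) (g * s) = c g) ∧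
        (H1π M).hom c = x :=
  mem_continuousH1S_iff S M x

/-- **`H²` unramified outside `S`** (S55) is the quotient of the group of the 2-cocycles which are constant on
the cosets of the subgroup fixing some `F` unramified outside `S`, in both variables, by the coboundaries of
the 1-cochains of the same kind. -/
theorem h2_S_cocycles {k : Type} [CommRing k] (S : Finset Nat.Primes) (M : Rep k (Qb ≃ₐ[ℚ] Qb))
    (f : (Qb ≃ₐ[ℚ] Qb) × (Qb ≃ₐ[ℚ] Qb) → M) :
    (f ∈ levelCocyclesS₂ S M ↔ f ∈ cocycles₂ M ∧ ∃ F : IntermediateField ℚ Qb,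
      F.IsUnramifiedOutside S ∧ ∀ g g' s s', s ∈ F.fixingSubgroup → s' ∈ F.fixingSubgroup →
        f (g * s, g' * s') = f (g, g')) ∧
    (f ∈ levelCoboundariesS₂ S M ↔ ∃ x : (Qb ≃ₐ[ℚ] Qb) → M, (∃ F : IntermediateField ℚ Qb,
      F.IsUnramifiedOutside S ∧ ∀ g s, s ∈ F.fixingSubgroup → x (g * s) = x g) ∧
        (d₁₂ M).hom x = f) :=
  ⟨Iff.rfl, mem_levelCoboundariesS₂_iff S M f⟩

/-- **The local groups** (S55).  The places are the primes `q ∈ S` and one archimedean place.  At `q` the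
local group is the Galois group of an algebraic closure of `ℚ_q`, mapped to the Galois group of `ℚ` by
restriction along an embedding `padicEmbedding q` of `Qb`; at the archimedean place it is the group generated
by the complex conjugation, for an embedding of `Qb` in `ℂ`. -/
theorem local_groups (S : Finset Nat.Primes) :
    extArithIndex S = (Unit ⊕ S) ∧
    (∀ q : S, letI : Fact ((q : Nat.Primes) : ℕ).Prime := ⟨q.1.2⟩
      extArithLocalGroups S (Sum.inr q) =
          (PadicAlgCl (q : Nat.Primes) ≃ₐ[ℚ_[((q : Nat.Primes) : ℕ)]] PadicAlgCl (q : Nat.Primes)) ∧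
        ∀ (τ : PadicAlgCl (q : Nat.Primes) ≃ₐ[ℚ_[((q : Nat.Primes) : ℕ)]] PadicAlgCl (q : Nat.Primes))
          (x : Qb), padicEmbedding (q : Nat.Primes) (extArithLoc S (Sum.inr q) τ x) =
            τ (padicEmbedding (q : Nat.Primes) x)) ∧
    (∀ σ : Qb ≃ₐ[ℚ] Qb, (∃ g, extArithLoc S (Sum.inl ()) g = σ) ↔
      σ = 1 ∨ σ = complexConjugation) ∧
    ∀ x : Qb, complexEmbedding (complexConjugation x) = starRingEnd ℂ (complexEmbedding x) := by
  refine ⟨rfl, fun q => ?_, fun σ => ⟨?_, ?_⟩, complexEmbedding_complexConjugation⟩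
  · let _ : Fact ((q : Nat.Primes) : ℕ).Prime := ⟨q.1.2⟩
    exact ⟨rfl, fun τ x => padicEmbedding_localGaloisToGlobal _ τ x⟩
  · rintro ⟨⟨g, hg⟩, rfl⟩
    obtain ⟨n, rfl⟩ := Subgroup.mem_zpowers_iff.1 hg
    change complexConjugation ^ n = 1 ∨ complexConjugation ^ n = complexConjugation
    rcases Int.even_or_odd' n with ⟨m, rfl | rfl⟩
    · left
      rw [zpow_mul, show (complexConjugation ^ (2 : ℤ)) = 1 from complexConjugation_sq, one_zpow]
    · right
      rw [zpow_add, zpow_mul, show (complexConjugation ^ (2 : ℤ)) = 1 from complexConjugation_sq,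
        one_zpow, one_mul, zpow_one]
  · rintro (rfl | rfl)
    · exact ⟨1, map_one _⟩
    · exact ⟨archimedeanGen, rfl⟩

/-- **`Sha¹`** (S55): the classes unramified outside `S` whose restrictions to the decomposition groups at the
primes of `S` and at the archimedean place are zero (`extArithLoc S v` is the homomorphism from the local
Galois group at `v`; what `locRes ... = 0` means for a cocycle is said in `loc_res_one_iff`). -/
theorem mem_sha₁_iff {K : Type} [Field K] (S : Finset Nat.Primes) (M : Rep K (Qb ≃ₐ[ℚ] Qb))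
    (x : H1 M) :
    x ∈ sha₁ S M ↔ x ∈ continuousH1S S M ∧
      ∀ v : extArithIndex S, (locRes (extArithLoc S) M v).hom x = 0 :=
  ⟨fun h => ⟨h.1, fun v => congrFun h.2 v⟩, fun h => ⟨h.1, funext h.2⟩⟩

/-- **`Sha²`** (S55): the same in degree two (see `loc_res_two_iff`). -/
theorem mem_sha₂_iff {k : Type} [CommRing k] (S : Finset Nat.Primes) (M : Rep k (Qb ≃ₐ[ℚ] Qb))
    (x : continuousH2S S M) :
    x ∈ sha₂ S M ↔ ∀ v : extArithIndex S, locRes₂S S M (extArithLoc S v) x = 0 :=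
  ⟨fun h v => congrFun h v, fun h => funext h⟩

/-- **Local conditions** in degree one (S55): the restriction of the class of the cocycle `c` to the local
group at `v` is zero if and only if `c` is there a coboundary `g ↦ g m - m`. -/
theorem loc_res_one_iff {K : Type} [Field K] (S : Finset Nat.Primes) (M : Rep K (Qb ≃ₐ[ℚ] Qb))
    (c : cocycles₁ M) (v : extArithIndex S) :
    (locRes (extArithLoc S) M v).hom ((H1π M).hom c) = 0 ↔
      ∃ m : M, ∀ g : extArithLocalGroups S v,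
        (c : (Qb ≃ₐ[ℚ] Qb) → M) (extArithLoc S v g) = M.ρ (extArithLoc S v g) m - m := by
  rw [H1π_comp_map_apply, H1π_eq_zero_iff]
  refine ⟨fun ⟨m, hm⟩ => ⟨m, fun g => (congrFun hm g).symm⟩, fun ⟨m, hm⟩ => ⟨m, funext fun g => (hm g).symm⟩⟩

/-- **Local conditions** in degree two (S55): the restriction of the class of the cocycle `c` to the local
group at `v` is zero if and only if `c` is there the coboundary of a 1-cochain which is constant on the cosets
of the elements fixing some number field. -/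
theorem loc_res_two_iff {k : Type} [CommRing k] (S : Finset Nat.Primes) (M : Rep k (Qb ≃ₐ[ℚ] Qb))
    (c : levelCocyclesS₂ S M) (v : extArithIndex S) :
    locRes₂S S M (extArithLoc S v) (continuousH2Sπ S M c) = 0 ↔
      ∃ x : extArithLocalGroups S v → M, (∃ F : IntermediateField ℚ Qb, FiniteDimensional ℚ F ∧
        ∀ g s, extArithLoc S v s ∈ F.fixingSubgroup → x (g * s) = x g) ∧
        ∀ g h, (c : (Qb ≃ₐ[ℚ] Qb) × (Qb ≃ₐ[ℚ] Qb) → M) (extArithLoc S v g, extArithLoc S v h) =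
          M.ρ (extArithLoc S v g) (x h) - x (g * h) + x g := by
  refine (continuousH2π_eq_zero_iff _ _ _).trans ((mem_levelCoboundaries₂_iff _ _ _).trans ?_)
  exact exists_congr fun x => and_congr_right fun _ =>
    ⟨fun h g g' => (congrFun h (g, g')).symm, fun h => funext fun g => (h g.1 g.2).symm⟩

/-- **Admissible extension** (S14), `V` a module of order `p²` with a submodule `C` of order `p`: the Galois
group fixes `C` and acts on `V / C` by the cyclotomic character, `V` is unramified outside `p`, and at the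
places over `p` the submodule `C` has a complement stable under the decomposition group; the kernel of the
action is open. -/
theorem admissible_iff (p : ℕ) [Fact p.Prime] (V : Type) [AddCommGroup V] [Module (ZMod p) V]
    [DistribMulAction (Qb ≃ₐ[ℚ] Qb) V] [SMulCommClass (Qb ≃ₐ[ℚ] Qb) (ZMod p) V]
    (C : Submodule (ZMod p) V) :
    IsAdmissibleExtensionCts p V C ↔
      (∀ σ : Qb ≃ₐ[ℚ] Qb, ∀ x ∈ C, σ • x ∈ C) ∧ (∀ σ : Qb ≃ₐ[ℚ] Qb, ∀ x ∈ C, σ • x = x) ∧
      (∀ σ : Qb ≃ₐ[ℚ] Qb, ∀ x : V, σ • x - (cycloExp p σ : ZMod p) • x ∈ C) ∧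
      Nat.card C = p ∧ Nat.card V = p ^ 2 ∧
      (∀ ℓ : ℕ, ℓ.Prime → ℓ ≠ p → ∀ A : ValuationSubring Qb, A.LiesOverPrime ℓ →
        ∀ σ ∈ A.inertiaSubgroupIn ℚ, ∀ x : V, σ • x = x) ∧
      (∀ A : ValuationSubring Qb, A.LiesOverPrime p → ∃ C' : Submodule (ZMod p) V,
        (∀ σ ∈ A.decompositionSubgroup ℚ, ∀ x ∈ C', σ • x ∈ C') ∧ IsCompl C C') ∧
      IsOpen {σ : Qb ≃ₐ[ℚ] Qb | ∀ v : V, σ • v = v} :=
  ⟨fun h => ⟨h.1.1, h.1.2, h.1.3, h.1.4, h.1.5, h.1.6, h.1.7, h.2⟩,
    fun h => ⟨⟨h.1, h.2.1, h.2.2.1, h.2.2.2.1, h.2.2.2.2.1, h.2.2.2.2.2.1, h.2.2.2.2.2.2.1⟩,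
      h.2.2.2.2.2.2.2⟩⟩

/-- **The statement of S14** (for all `p ≥ 3`): for every admissible extension the submodule `C` has a stable
complement. -/
theorem ext_vanishing_iff (p : ℕ) [Fact p.Prime] :
    ExtVanishingCts p ↔ ∀ (V : Type) [AddCommGroup V] [Module (ZMod p) V]
      [DistribMulAction (Qb ≃ₐ[ℚ] Qb) V] [SMulCommClass (Qb ≃ₐ[ℚ] Qb) (ZMod p) V]
      (C : Submodule (ZMod p) V), IsAdmissibleExtensionCts p V C →
        ∃ C' : Submodule (ZMod p) V, (∀ σ : Qb ≃ₐ[ℚ] Qb, ∀ x ∈ C', σ • x ∈ C') ∧ IsCompl C C' :=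
  Iff.rfl

end Fermat.Agent.Guide.NotionsDeformations
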