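import Mathlib
import Fermat.Prelude.Def_CuspForm_HeckeEvalForms
import Fermat.Prelude.Def_CuspForm_HeckeLocal
import Fermat.Prelude.Def_CuspForm_IntegralLattice
import Fermat.Prelude.Def_CuspForm_IntegralStructure
import Fermat.Prelude.Def_Deformations_MatrixRepresentation
import Fermat.Prelude.Def_FormalHecke_Eigensystem
import Fermat.Prelude.Def_LanglandsTunnell_WeightOneRealizationCarriers
import Fermat.Prelude.Def_GaloisRep_ModThreeCyclotomic
import Fermat.Prelude.Def_ModularCurve_GenusNumerics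
import Fermat.Prelude.Def_ModularCurve_ModularUnit
import Fermat.Prelude.Def_ModularCurve_PeriodHomPair
import Fermat.Prelude.Thm_ModularFormClass_qCoeff_heckeT
import Fermat.Prelude.Thm_ModularFormClass_qCoeff_heckeU
import Fermat.Prelude.Thm_CongruenceSubgroup_one_mem_strictPeriods_Gamma0

/-!
# Guide to the notions of the frozen statements, part 2: modular forms

Continuation of `GuideNotions`.  Section 1: Hecke operators and Hecke algebras (S16, S22, S30 - S36, S54).
Section 2: forms with integral coefficients (S16, S23, S46, S49).  Section 3: periods (S21).  Section 4: the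
genus formula (S20, S24).  Section 5: the Eisenstein ideal (S16).  Section 6: weight one and modulo three
(S46, S47, S48, S49).
-/

set_option autoImplicit false

open CongruenceSubgroup (Gamma0 Gamma1)
open ModularFormClass (qCoeff)
open UpperHalfPlane (ofComplex atImInfty)
open Filter Topology
open scoped MatrixGroups

namespace Fermat.Agent.Guide.NotionsForms

/-- An algebraic closure of `ℚ`. -/
local notation "Qb" => AlgebraicClosure ℚ

/-! ## Section 1: Hecke operators and Hecke algebras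

`CuspForm (Gamma0 N) k` is Mathlib's space of cusp forms of weight `k` on `Γ₀(N)`. -/

/-- **The Hecke operator `T_ℓ`** (`ℓ` prime, `ℓ ∤ N`) on cusp forms, on functions and on Fourier coefficients:
`T_ℓ f = ℓ⁻¹ ∑ f((z + j)/ℓ) + ℓ^(k-1) f(ℓ z)`, `a_n(T_ℓ f) = a_{n ℓ}(f) + ℓ^(k-1) a_{n/ℓ}(f)`. -/
theorem hecke_T {N : ℕ} (k : ℤ) {ℓ : ℕ} (hℓ : ℓ.Prime) (hℓN : ¬ ℓ ∣ N) (f : CuspForm (Gamma0 N) k)
    (z : UpperHalfPlane) (n : ℕ) :
    CuspForm.heckeTLin k hℓ hℓN f z =
        (ℓ : ℂ)⁻¹ * ∑ j ∈ Finset.range ℓ, f (ModularForm.heckeMatrix ℓ j • z) +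
          (ℓ : ℂ) ^ (k - 1) * f (ModularForm.heckeDiagMatrix ℓ • z) ∧
      (∀ j : ℕ, ((ModularForm.heckeMatrix ℓ j • z : UpperHalfPlane) : ℂ) = ((z : ℂ) + j) / ℓ) ∧
      ((ModularForm.heckeDiagMatrix ℓ • z : UpperHalfPlane) : ℂ) = (ℓ : ℂ) * (z : ℂ) ∧
      qCoeff (CuspForm.heckeTLin k hℓ hℓN f) n =
        qCoeff f (n * ℓ) + if ℓ ∣ n then (ℓ : ℂ) ^ (k - 1) * qCoeff f (n / ℓ) else 0 :=
  ⟨ModularForm.heckeT_apply k hℓ.ne_zero f z, fun j => ModularForm.coe_heckeMatrix_smul hℓ.ne_zero j z,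
    ModularForm.coe_heckeDiagMatrix_smul hℓ.ne_zero z,
    ModularFormClass.qCoeff_heckeT f (CongruenceSubgroup.one_mem_strictPeriods_Gamma0 N) hℓ.ne_zero n⟩

/-- **The Hecke operator `U_q`** (`q ∣ N`) on cusp forms: `U_q f = q⁻¹ ∑ f((z + j)/q)` and
`a_n(U_q f) = a_{n q}(f)`. -/
theorem hecke_U {N : ℕ} [NeZero N] (k : ℤ) {q : ℕ} (hq : q ≠ 0) (hqN : q ∣ N)
    (f : CuspForm (Gamma0 N) k) (z : UpperHalfPlane) (n : ℕ) :
    CuspForm.heckeULin k hqN f z =
        (q : ℂ)⁻¹ * ∑ j ∈ Finset.range q, f (ModularForm.heckeMatrix q j • z) ∧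
      qCoeff (CuspForm.heckeULin k hqN f) n = qCoeff f (n * q) :=
  ⟨ModularForm.heckeU_apply k hq f z,
    ModularFormClass.qCoeff_heckeU f (CongruenceSubgroup.one_mem_strictPeriods_Gamma0 N) hq n⟩

/-- **The Hecke algebra** `𝕋` of level `N` and weight `k` without the primes of `S`: the subring of the
endomorphisms of the space of cusp forms which is generated by the `T_ℓ` (primes `ℓ ∤ N`, `ℓ ∉ S`) and the
`U_q` (primes `q ∣ N`, `q ∉ S`).  (That it is a commutative ring is proved in the Prelude.) -/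
theorem hecke_algebra (N : ℕ) [NeZero N] (k : ℤ) (S : Set ℕ) :
    CuspForm.heckeAlgebra N k S = Algebra.adjoin ℤ
      ({T | ∃ (ℓ : ℕ) (hℓ : ℓ.Prime) (hℓN : ¬ ℓ ∣ N), ℓ ∉ S ∧ T = CuspForm.heckeTLin k hℓ hℓN} ∪
        {U | ∃ (q : ℕ) (hqN : q ∣ N), q.Prime ∧ q ∉ S ∧ U = CuspForm.heckeULin k hqN}) :=
  rfl

/-- The elements `T_ℓ` and `U_q` of the Hecke algebra are the operators `T_ℓ` and `U_q`. -/
theorem hecke_algebra_elements {N : ℕ} [NeZero N] {k : ℤ} {S : Set ℕ} :
    (∀ {ℓ : ℕ} (hℓ : ℓ.Prime) (hℓN : ¬ ℓ ∣ N) (hℓS : ℓ ∉ S),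
      ((CuspForm.heckeAlgebra.T hℓ hℓN hℓS : CuspForm.heckeAlgebra N k S) :
        Module.End ℂ (CuspForm (Gamma0 N) k)) = CuspForm.heckeTLin k hℓ hℓN) ∧
    ∀ {q : ℕ} (hq : q.Prime) (hqN : q ∣ N) (hqS : q ∉ S),
      ((CuspForm.heckeAlgebra.U hq hqN hqS : CuspForm.heckeAlgebra N k S) :
        Module.End ℂ (CuspForm (Gamma0 N) k)) = CuspForm.heckeULin k hqN :=
  ⟨fun _ _ _ => rfl, fun _ _ _ => rfl⟩

/-! ## Section 2: forms with integral coefficients -/

/-- **Integral structure** (S23): the forms with Fourier coefficients in `ℤ` span the space of cusp forms.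
`CuspForm.intLattice N k` is the group of the forms with coefficients in `ℤ`. -/
theorem integral_structure_iff (N : ℕ) (k : ℤ) :
    CuspForm.HasIntegralStructure N k ↔
      Submodule.span ℂ ((Submodule.span ℤ {f : CuspForm (Gamma0 N) k |
        ∀ n : ℕ, ∃ m : ℤ, qCoeff f n = (m : ℂ)} : Submodule ℤ (CuspForm (Gamma0 N) k)) :
          Set (CuspForm (Gamma0 N) k)) = ⊤ :=
  Iff.rfl

/-- **Integral basis** (S46, S49): the same for weight two, in a different form (`(⊥ : Subring ℂ)` is `ℤ`). -/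
theorem integral_basis_iff (N : ℕ) :
    CuspForm.HasIntegralBasis N ↔ Submodule.span ℂ
      {f : CuspForm (Gamma0 N) 2 | ∀ n : ℕ, qCoeff f n ∈ (⊥ : Subring ℂ)} = ⊤ :=
  Iff.rfl

/-- **The Hecke algebra of the lattice** (S16): `heckeLatticeAlgebra N S` is the image of the Hecke algebra in
the endomorphism ring of the lattice of the forms of weight two with coefficients in `ℤ`. -/
theorem hecke_lattice_algebra (N : ℕ) [NeZero N] (S : Set ℕ) :
    Function.Surjective (CuspForm.latticeRestrictHom N S) ∧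
      ∀ (t : CuspForm.heckeAlgebra N 2 S) (f : CuspForm.intLattice N 2),
        (((CuspForm.latticeRestrictHom N S t : Module.End ℤ (CuspForm.intLattice N 2)) f :
          CuspForm.intLattice N 2) : CuspForm (Gamma0 N) 2) =
          (t : Module.End ℂ (CuspForm (Gamma0 N) 2)) f :=
  ⟨CuspForm.latticeRestrictHom_surjective N S, fun _ _ => rfl⟩

/-! ## Section 3: periods -/

/-- **A primitive of a cusp form** `f` of weight two: a holomorphic function `F` on the upper half plane with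
`F' = f` and `F → 0` at `∞` such that `F(γ z) - F(z)` is constant for `γ ∈ Γ₀(N)` and `F ∘ δ` has a limit at
`∞` for all `δ ∈ SL₂(ℤ)`. -/
theorem primitive_iff (N : ℕ) (f : CuspForm (Gamma0 N) 2) (F : UpperHalfPlane → ℂ) :
    ModularCurve.HasEquivariantPrimitive N f F ↔
      (∀ τ : UpperHalfPlane, HasDerivAt (F ∘ ofComplex) (f τ) ↑τ) ∧ Tendsto F atImInfty (𝓝 0) ∧
        (∀ γ : Gamma0 N, ∃ c : ℂ, ∀ z : UpperHalfPlane, F ((γ : SL(2, ℤ)) • z) - F z = c) ∧
        ∀ δ : SL(2, ℤ), ∃ L : ℂ, Tendsto (fun w : UpperHalfPlane => F (δ • w)) atImInfty (𝓝 L) :=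
  Iff.rfl

/-- **The period homomorphism** of a cusp form of weight two: if `f` has a primitive, then there is a
primitive `F` with `periodMap N f γ = F(γ i) - F(i)`.  (All `f` have primitives: `exists_primitive` and
`period_apply` in `GuidePeriods`.) -/
theorem period_map (N : ℕ) (f : CuspForm (Gamma0 N) 2) {F : UpperHalfPlane → ℂ}
    (hF : ModularCurve.HasEquivariantPrimitive N f F) :
    ∃ F₀ : UpperHalfPlane → ℂ, ModularCurve.HasEquivariantPrimitive N f F₀ ∧
      ∀ γ : Gamma0 N, ModularCurve.periodMap N f (Additive.ofMul γ) =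
        F₀ ((γ : SL(2, ℤ)) • UpperHalfPlane.I) - F₀ UpperHalfPlane.I := by
  obtain ⟨F₀, h₀, h⟩ := ModularCurve.periodMap_def N f hF
  exact ⟨F₀, h₀, fun γ => congrArg (fun φ => φ (Additive.ofMul γ)) h⟩

/-- **Parabolic homomorphisms** of a subgroup `Γ` of `SL₂(ℤ)` to `A`: the homomorphisms which are zero at the
elements with trace `± 2`. -/
theorem mem_parabolic_homs_iff (Γ : Subgroup SL(2, ℤ)) (A : Type*) [AddCommGroup A] [Module ℂ A]
    (φ : Additive Γ →+ A) :
    φ ∈ ModularCurve.Period.parabolicHoms ℂ Γ A ↔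
      ∀ γ : Γ, ((γ : SL(2, ℤ)) : Matrix (Fin 2) (Fin 2) ℤ).trace ^ 2 = 4 →
        φ (Additive.ofMul γ) = 0 :=
  Iff.rfl

/-- **The involution** of the homomorphisms `Γ₀(N) → A`: composition with
`(a, b; c, d) ↦ (a, -b; -c, d)`. -/
theorem char_involution (N : ℕ) (A : Type*) [AddCommGroup A] [Module ℂ A]
    (ψ : Additive (Gamma0 N) →+ A) (γ : Gamma0 N) :
    ModularCurve.Period.charInvolution N ℂ A ψ (Additive.ofMul γ) =
        ψ (Additive.ofMul (ModularCurve.Period.jConjGamma0 N γ)) ∧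
      ((ModularCurve.Period.jConjGamma0 N γ : SL(2, ℤ)) : Matrix (Fin 2) (Fin 2) ℤ) =
        !![(γ : SL(2, ℤ)) 0 0, -(γ : SL(2, ℤ)) 0 1; -(γ : SL(2, ℤ)) 1 0, (γ : SL(2, ℤ)) 1 1] :=
  ⟨rfl, rfl⟩

/-- **The map of S21**: `(f, g) ↦ (P f + c P f) + (P g - c P g)`, `P` the period homomorphism (linear, as is
proved for S21) and `c` the involution. -/
theorem period_hom_pair (N : ℕ) (h : ModularCurve.ExistsPeriodMapLinear N)
    (f g : CuspForm (Gamma0 N) 2) :
    ModularCurve.periodHomPair N (f, g) =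
      (ModularCurve.periodMap N f +
          ModularCurve.Period.charInvolution N ℂ ℂ (ModularCurve.periodMap N f)) +
        (ModularCurve.periodMap N g -
          ModularCurve.Period.charInvolution N ℂ ℂ (ModularCurve.periodMap N g)) := by
  obtain ⟨pml, hpml, he⟩ := ModularCurve.periodHomPair_def N h
  rw [he, ← hpml f, ← hpml g]
  rfl

/-! ## Section 4: the genus formula -/

/-- **The genus formula** (S20, S24): `1 + ψ/12 - ν₂/4 - ν₃/3 - ν_∞/2` with `ψ` the index of `Γ₀(N)`, `ν₂` and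
`ν₃` the numbers of solutions of `x² + 1 = 0` and `x² + x + 1 = 0` in `ℤ/N`, and `ν_∞` the number of cusps. -/
theorem genus_formula (N : ℕ) :
    ModularCurve.genusFormula N =
      1 + ((∑ d ∈ N.divisors with Squarefree d, N / d : ℕ) : ℚ) / 12 -
        (Nat.card {x : ZMod N // x ^ 2 + 1 = 0} : ℚ) / 4 -
        (Nat.card {x : ZMod N // x ^ 2 + x + 1 = 0} : ℚ) / 3 -
        ((∑ d ∈ N.divisors, Nat.totient (Nat.gcd d (N / d)) : ℕ) : ℚ) / 2 :=
  rfl

/-! ## Section 5: the Eisenstein ideal (S16)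

`ModularCurve.HeckeAlg` is the polynomial ring over `ℤ` in one variable `heckeGen ℓ` for each prime `ℓ`. -/

/-- **The Eisenstein ideal** of level `N`: the polynomials which vanish at `T_ℓ = 1 + ℓ` for the primes
`ℓ ∤ N`, `T_ℓ = 1` for the primes `ℓ ∣ N`. -/
theorem mem_eisenstein_ideal_iff (N : ℕ) (t : ModularCurve.HeckeAlg) :
    t ∈ ModularCurve.eisensteinIdeal N ↔
      MvPolynomial.aeval (fun ℓ : Nat.Primes => if (ℓ : ℕ) ∣ N then (1 : ℤ) else 1 + (ℓ : ℕ)) t = 0 :=
  Iff.rfl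

/-- **Evaluation at the Hecke operators**: the homomorphism from the polynomial ring to the Hecke algebra
which maps the variable of `ℓ` to `T_ℓ` if `ℓ ∤ N` and to `U_ℓ` if `ℓ ∣ N`. -/
theorem hecke_eval_forms (N : ℕ) [NeZero N] (k : ℤ) :
    (∀ {ℓ : Nat.Primes} (h : ¬ (ℓ : ℕ) ∣ N), CuspForm.heckeEvalForms N k (ModularCurve.heckeGen ℓ) =
      CuspForm.heckeAlgebra.T ℓ.2 h (Set.notMem_empty _)) ∧
    ∀ {q : Nat.Primes} (h : (q : ℕ) ∣ N), CuspForm.heckeEvalForms N k (ModularCurve.heckeGen q) =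
      CuspForm.heckeAlgebra.U q.2 h (Set.notMem_empty _) :=
  ⟨fun h => CuspForm.heckeEvalForms_heckeGen_of_not_dvd h,
    fun h => CuspForm.heckeEvalForms_heckeGen_of_dvd h⟩

/-- **The Eisenstein numerator** (S16): the numerator of `(p - 1)/12`. -/
theorem eisenstein_numerator (p : ℕ) :
    ModularCurve.eisensteinNumerator p = (p - 1) / Nat.gcd (p - 1) 12 :=
  rfl

/-! ## Section 6: weight one and modulo three (S46, S47, S48, S49) -/

/-- **Finite level** (S29, S31 - S34, S36, S38, S48, S53, S54, S56): a homomorphism `ρ` from the Galois group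
is trivial on the automorphisms which fix some finite extension `L` of `ℚ`. -/
theorem finite_level_iff {M : Type} [MulOneClass M] (ρ : (Qb ≃ₐ[ℚ] Qb) →* M) :
    GaloisFactorsThroughFiniteLevel ρ ↔
      ∃ L : IntermediateField ℚ Qb, FiniteDimensional ℚ L ∧
        ∀ σ : Qb ≃ₐ[ℚ] Qb, (∀ x ∈ L, σ x = x) → ρ σ = 1 :=
  Iff.rfl

/-- **The representation of a homomorphism to `GL_n`** (S48): `ρ` acts on column vectors. -/
theorem matrix_representation {n : Type} [Fintype n] [DecidableEq n] {G k : Type} [Group G] [Field k]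
    (ρ : G →* GL n k) (g : G) (v : n → k) :
    Deformation.matrixRepresentation ρ g v = ((ρ g : GL n k) : Matrix n n k).mulVec v :=
  congrArg (fun f => f v) (Deformation.matrixRepresentation_apply ρ g)

/-- **Formal eigensystem** (S46, S47, S49): a sequence `a` with `a_1 = 1` and
`a_{ℓ n} + e_ℓ a_{n/ℓ} = a_ℓ a_n` for all primes `ℓ` and all `n` (`a_{n/ℓ} = 0` if `ℓ ∤ n`). -/
theorem eigensystem_iff {R : Type*} [CommRing R] (e a : ℕ → R) :
    FormalHecke.IsEigensystem e a ↔ a 1 = 1 ∧ ∀ ℓ : ℕ, ℓ.Prime → ∀ n : ℕ,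
      a (ℓ * n) + e ℓ * (if ℓ ∣ n then a (n / ℓ) else 0) = a ℓ * a n :=
  Iff.rfl

/-- The character `χ` of conductor `3` and the **Eisenstein series of weight one**,
`1 + 6 ∑_{n ≥ 1} (∑_{d ∣ n} χ(d)) q^n`; the factor in `IsLatticeRealized`. -/
theorem eisenstein_chi_neg_three :
    (∀ n : ℕ, EisensteinWeightOne.chiNegThree n =
      if n % 3 = 1 then 1 else if n % 3 = 2 then -1 else 0) ∧
    EisensteinWeightOne.e1Chi3 = PowerSeries.mk (fun n =>
      if n = 0 then 1 else 6 * ∑ d ∈ n.divisors, EisensteinWeightOne.chiNegThree d) :=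
  ⟨fun _ => rfl, rfl⟩

/-- **Lattice realised** (S46, S49): the formal power series `(∑ a_n q^n) · E`, `E` the Eisenstein series of
weight one, is congruent modulo `3` to the Fourier expansion of a cusp form of weight two on `Γ₀(N)` with
coefficients in `ℤ`.  Since `E ≡ 1 mod 3`, this says that `a_n ≡ b_n mod 3` for the coefficients `b_n` of a
form of weight two. -/
theorem lattice_realized_iff (N : ℕ) (a : ℕ → ℤ) :
    CuspForm.IsLatticeRealized N a ↔
      ∃ f : CuspForm (Gamma0 N) 2, (∀ n : ℕ, qCoeff f n ∈ (⊥ : Subring ℂ)) ∧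
        ∃ b : ℕ → ℤ, (∀ n, (b n : ℂ) = qCoeff f n) ∧
          ∀ n, (3 : ℤ) ∣ b n -
            (PowerSeries.mk a * PowerSeries.map (Int.castRingHom ℤ) EisensteinWeightOne.e1Chi3).coeff n :=
  Iff.rfl

/-- **Realised in weight one** (S47): a sequence `b` in `ℤ[√-2]` is, after an embedding into `ℂ`, the sequence
of Fourier coefficients of a cusp form of weight one on `Γ₁(M)`. -/
theorem weight_one_realized_iff (M : ℕ) (b : ℕ → ℤ√(-2)) :
    CuspForm.IsWeightOneChiNegThreeRealized M b ↔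
      ∃ (ι : ℤ√(-2) →+* ℂ) (f : CuspForm (Gamma1 M) 1), ∀ n : ℕ, qCoeff f n = ι (b n) :=
  Iff.rfl

/-- **Reduction** `ℤ[√-2] → 𝔽₃` (S47): the ring homomorphism with `√-2 ↦ -1`. -/
theorem red_apply (x : ℤ√(-2)) : FLT.ExplicitLift.red x = (x.re : ZMod 3) + (x.im : ZMod 3) * (-1) :=
  rfl

/-- **The mod 3 cyclotomic character** (S47) is Mathlib's: `σ ζ = ζ ^ χ(σ)` for `ζ ^ 3 = 1`. -/
theorem mod_three_cyclotomic (σ : Qb ≃ₐ[ℚ] Qb) (ζ : Qb) (hζ : ζ ^ 3 = 1) :
    σ ζ = ζ ^ ((WeierstrassCurve.modThreeCyclotomicChar σ : (ZMod 3)ˣ) : ZMod 3).val :=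
  modularCyclotomicCharacter.spec Qb (IsAlgClosed.card_rootsOfUnity_eq Qb 3) (σ : Qb ≃+* Qb)
    (rootsOfUnity.mkOfPowEq ζ hζ).2

end Fermat.Agent.Guide.NotionsForms
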