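import Mathlib
import Fermat.Prelude.Def_AlgebraicGeometry_NeronModelPropertyBundleCarrier
import Fermat.Prelude.Def_AlgebraicGeometry_RelativeGroupLaw
import Fermat.Prelude.Def_AlgebraicGeometry_RelativePicardFunctor
import Fermat.Prelude.Def_AlgebraicGeometry_RepresentsRelSubPic
import Fermat.Prelude.Def_AlgebraicGeometry_RelPicardAlgEquivZeroCut
import Fermat.Prelude.Def_GoodReductionJacobian_RelativeGroupLawKernel
import Fermat.Prelude.Def_JacJ1Iface
import Fermat.Prelude.Def_ModularCurve_IgusaScheme

/-!
# Guide to the notions of the frozen statements, part 6: schemes (S25, S26, S28)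

As in `GuideNotions`, the definitions of the Prelude are unfolded by theorems which hold by definition or by
taking a structure apart; there is no mathematics here.

Section 1: group laws and abelian schemes, torsion points (S26: an abelian variety of dimension `g` over an
algebraically closed field has `n ^ (2 g)` points killed by `n`, if `n` is not zero in the field; the proof is
described in `GuideAbelian`).  Section 2: line bundles, rigidified line bundles, algebraic equivalence,
representability (S25: the line bundles algebraically equivalent to zero on a smooth proper curve over an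
algebraically closed field are parametrised by a smooth proper connected scheme, the Jacobian; the proof is
described in `GuideJacobians`).  Section 3: the Igusa model of `X_0(N)` over `ℤ_(ℓ)` (S28: its fibre over
every field of characteristic `ℓ ∤ N` is integral; the proof is described in `GuideModularCurves`).

Throughout `X ⟶ Spec R` is Mathlib's notion of a scheme over `R`, `pullback f g` is the fibre product with its
projections `pullback.fst` and `pullback.snd`, and `X.Modules` is the category of sheaves of modules on `X`.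
The unit object `SheafOfModules.unit X.ringCatSheaf` is the structure sheaf of `X`.
-/

set_option autoImplicit false

universe u

open CategoryTheory CategoryTheory.Limits AlgebraicGeometry AlgebraicGeometry.RelPicard NeronModelInfra
  GoodReductionJacobian

namespace Fermat.Agent.Guide.NotionsSchemes

/-! ## Section 1: group laws and abelian schemes -/

/-- **Morphisms over a base**: `SchemeHomOver g f` is the set of morphisms `φ : Y ⟶ X` over `B`; these are
the `Y`-valued points of `X` over `B`.  For `g = 𝟙` they are the sections of `f`. -/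
theorem hom_over {B Y X : Scheme.{u}} (g : Y ⟶ B) (f : X ⟶ B) :
    SchemeHomOver g f = {φ : Y ⟶ X // φ ≫ f = g} :=
  rfl

/-- A morphism `ψ : T' ⟶ T` over `B` maps the `T`-valued points to the `T'`-valued points: `x ↦ x ∘ ψ`. -/
theorem comp_point {B T' T A : Scheme.{u}} {t : T ⟶ B} {t' : T' ⟶ B} {f : A ⟶ B} (ψ : T' ⟶ T)
    (hψ : ψ ≫ t = t') (x : SchemeHomOver t f) : (schemeHomOverComp ψ hψ x).1 = ψ ≫ x.1 :=
  rfl

/-- **Group law** on a scheme `A` over `R`: a group structure on the set of `T`-valued points for all schemes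
`T` over `R`, compatible with the maps from `T`-valued to `T'`-valued points. -/
theorem group_law_iff {R : Type u} [CommRing R] {A : Scheme.{u}} (f : A ⟶ Spec (CommRingCat.of R)) :
    Nonempty (RelativeGroupLaw R f) ↔
      ∃ (mul : ∀ {T : Scheme.{u}} (t : T ⟶ Spec (CommRingCat.of R)),
          SchemeHomOver t f → SchemeHomOver t f → SchemeHomOver t f)
        (one : ∀ {T : Scheme.{u}} (t : T ⟶ Spec (CommRingCat.of R)), SchemeHomOver t f)
        (inv : ∀ {T : Scheme.{u}} (t : T ⟶ Spec (CommRingCat.of R)),
          SchemeHomOver t f → SchemeHomOver t f),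
        (∀ {T : Scheme.{u}} (t : T ⟶ Spec (CommRingCat.of R)) (x y z : SchemeHomOver t f),
          mul t (mul t x y) z = mul t x (mul t y z)) ∧
        (∀ {T : Scheme.{u}} (t : T ⟶ Spec (CommRingCat.of R)) (x : SchemeHomOver t f),
          mul t (one t) x = x ∧ mul t x (one t) = x ∧ mul t (inv t x) x = one t) ∧
        ∀ {T T' : Scheme.{u}} (t : T ⟶ Spec (CommRingCat.of R)) (t' : T' ⟶ Spec (CommRingCat.of R))
          (ψ : T' ⟶ T) (hψ : ψ ≫ t = t') (x y : SchemeHomOver t f),
          schemeHomOverComp ψ hψ (mul t x y) =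
            mul t' (schemeHomOverComp ψ hψ x) (schemeHomOverComp ψ hψ y) :=
  ⟨fun ⟨G⟩ => ⟨G.mul, G.one, G.inv, G.mul_assoc,
      fun t x => ⟨G.one_mul t x, G.mul_one t x, G.inv_mul_cancel t x⟩, G.mul_natural⟩,
    fun ⟨mul, one, inv, h1, h2, h3⟩ => ⟨⟨mul, one, inv, h1, fun t x => (h2 t x).1,
      fun t x => (h2 t x).2.1, fun t x => (h2 t x).2.2, h3⟩⟩⟩

/-- **Commutative** group law: the groups of `T`-valued points are commutative. -/
theorem commutative_iff {R : Type u} [CommRing R] {A : Scheme.{u}} {f : A ⟶ Spec (CommRingCat.of R)}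
    (G : RelativeGroupLaw R f) :
    G.IsCommutative ↔ ∀ {T : Scheme.{u}} (t : T ⟶ Spec (CommRingCat.of R)) (x y : SchemeHomOver t f),
      G.mul t x y = G.mul t y x :=
  Iff.rfl

/-- **Multiples** of a point `x`, written multiplicatively: `nsmul t n x = x ⋯ x` (`n` factors). -/
theorem multiples {R : Type u} [CommRing R] {A : Scheme.{u}} {f : A ⟶ Spec (CommRingCat.of R)}
    (G : RelativeGroupLaw R f) {T : Scheme.{u}} (t : T ⟶ Spec (CommRingCat.of R))
    (x : SchemeHomOver t f) :
    G.nsmul t 0 x = G.one t ∧ ∀ n : ℕ, G.nsmul t (n + 1) x = G.mul t (G.nsmul t n x) x :=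
  ⟨rfl, fun _ => rfl⟩

/-- **Torsion points** (S26): the points whose `n`-th multiple is the neutral element. -/
theorem torsion_point_iff {R : Type u} [CommRing R] {A : Scheme.{u}}
    {f : A ⟶ Spec (CommRingCat.of R)} (G : RelativeGroupLaw R f) {T : Scheme.{u}}
    (t : T ⟶ Spec (CommRingCat.of R)) (n : ℕ) (x : SchemeHomOver t f) :
    G.IsTorsionPoint t n x ↔ G.nsmul t n x = G.one t :=
  Iff.rfl

/-- **Abelian scheme** over `R`: smooth and proper with connected fibres, and it has a group law.  (Since the
neutral element is a section, the fibres are geometrically connected.) -/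
theorem abelian_scheme_iff {R : Type u} [CommRing R] {A : Scheme.{u}}
    (f : A ⟶ Spec (CommRingCat.of R)) :
    AbelianSchemePropertyBundle R f ↔
      Smooth f ∧ IsProper f ∧ (∀ s : Spec (CommRingCat.of R), _root_.IsConnected (f.base ⁻¹' {s})) ∧
        Nonempty (RelativeGroupLaw R f) :=
  ⟨fun h => ⟨h.1, h.2, h.3, h.4⟩, fun h => ⟨h.1, h.2.1, h.2.2.1, h.2.2.2⟩⟩

/-! ## Section 2: line bundles and the Jacobian

In this section `R` is a commutative ring, `c : C ⟶ Spec R` a morphism and `ε` a section of `c`.  The
calculus of line bundles used in the proof of S25 is in `GuideSheaves`. -/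

/-- **Line bundle** on a scheme `X`: a sheaf of modules which is locally isomorphic to the structure sheaf:
every point has an open neighbourhood `U` such that the restriction to `U` is isomorphic to the structure
sheaf of `U`. -/
theorem invertible_iff {X : Scheme.{u}} (M : X.Modules) :
    Scheme.Modules.IsInvertible M ↔ ∀ x : X, ∃ U : X.Opens, x ∈ U ∧
      Nonempty ((Scheme.Modules.pullback U.ι).obj M ≅
        SheafOfModules.unit U.toScheme.ringCatSheaf) :=
  ⟨fun h => h.1, fun h => ⟨h⟩⟩

variable {R : Type u} [CommRing R]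

/-- **Base change**: for `s : T' ⟶ T` over `R` the morphism `baseChangeSnd c s : C × T' ⟶ C × T` (products
over `R`) is `1 × s`. -/
theorem base_change {C T T' : Scheme.{u}} (c : C ⟶ Spec (CommRingCat.of R))
    {t : T ⟶ Spec (CommRingCat.of R)} {t' : T' ⟶ Spec (CommRingCat.of R)} (s : SchemeHomOver t' t) :
    baseChangeSnd c s ≫ pullback.fst c t = pullback.fst c t' ∧
      baseChangeSnd c s ≫ pullback.snd c t = pullback.snd c t' ≫ s.1 :=
  ⟨(pullback.lift_fst _ _ _).trans (Category.comp_id _), pullback.lift_snd _ _ _⟩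

/-- A section `ε` of `c : C ⟶ Spec R` gives the section `rigSection c t ε = (ε, 1) : T ⟶ C × T` of the
projection to `T`. -/
theorem section_after_base_change {C T : Scheme.{u}} (c : C ⟶ Spec (CommRingCat.of R))
    (t : T ⟶ Spec (CommRingCat.of R)) (ε : SchemeHomOver (𝟙 (Spec (CommRingCat.of R))) c) :
    rigSection c t ε ≫ pullback.fst c t = t ≫ ε.1 ∧ rigSection c t ε ≫ pullback.snd c t = 𝟙 T :=
  ⟨pullback.lift_fst _ _ _, pullback.lift_snd _ _ _⟩

variable {C : Scheme.{u}} {c : C ⟶ Spec (CommRingCat.of R)}
  {ε : SchemeHomOver (𝟙 (Spec (CommRingCat.of R))) c}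

/-- **Rigidified line bundles** on `C × T`: the line bundles whose restriction along the section `(ε, 1)` is
trivial (only the existence of a trivialisation is required, it is not part of the data). -/
theorem rigidified_iff {T : Scheme.{u}} {t : T ⟶ Spec (CommRingCat.of R)} (L : (pullback c t).Modules) :
    (∃ M : RigidifiedLineBundle c ε t, M.L = L) ↔ Scheme.Modules.IsInvertible L ∧
      Nonempty ((Scheme.Modules.pullback (rigSection c t ε)).obj L ≅
        SheafOfModules.unit T.ringCatSheaf) := by
  constructor
  · rintro ⟨M, rfl⟩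
    exact ⟨M.isInvertible, M.rigidified⟩
  · exact fun h => ⟨⟨L, h.1, h.2⟩, rfl⟩

/-- The trivial rigidified line bundle is the structure sheaf of `C × T`. -/
theorem unit_bundle {T : Scheme.{u}} (t : T ⟶ Spec (CommRingCat.of R)) :
    (RigidifiedLineBundle.unit t : RigidifiedLineBundle c ε t).L =
      SheafOfModules.unit (pullback c t).ringCatSheaf :=
  rfl

/-- **Inverse image** of a rigidified line bundle along `ψ : T' ⟶ T`: the inverse image along `1 × ψ`. -/
theorem bundle_pullback {T T' : Scheme.{u}} {t : T ⟶ Spec (CommRingCat.of R)}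
    {t' : T' ⟶ Spec (CommRingCat.of R)} (M : RigidifiedLineBundle c ε t) (ψ : SchemeHomOver t' t) :
    (M.pullbackAlong ψ).L = (Scheme.Modules.pullback (baseChangeSnd c ψ)).obj M.L :=
  rfl

/-- **Algebraically equivalent to zero**, for a module `L` on a scheme `A` over a field `k`: there are a
geometrically integral scheme `T'` locally of finite type over `k`, a line bundle `M` on `A × T'` and two
rational points `t₀`, `t₁` of `T'` such that the restriction of `M` to `A × {t₀}` is trivial and the
restriction of `M` to `A × {t₁}` is `L`. -/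
theorem alg_equiv_zero_iff {k : Type u} [Field k] {A : Scheme.{u}} (a : A ⟶ Spec (CommRingCat.of k))
    (L : A.Modules) :
    IsAlgEquivZero a L ↔
      ∃ (T' : Scheme.{u}) (h : T' ⟶ Spec (CommRingCat.of k)) (_ : LocallyOfFiniteType h)
        (_ : GeometricallyIntegral h) (M : (pullback a h).Modules) (_ : Scheme.Modules.IsInvertible M)
        (t₀ t₁ : SchemeHomOver (𝟙 (Spec (CommRingCat.of k))) h),
        Nonempty ((Scheme.Modules.pullback (baseChangeSnd a t₀)).obj M ≅
          SheafOfModules.unit (pullback a (𝟙 (Spec (CommRingCat.of k)))).ringCatSheaf) ∧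
        Nonempty ((Scheme.Modules.pullback (baseChangeSnd a t₁)).obj M ≅
          (Scheme.Modules.pullback (pullback.fst a (𝟙 (Spec (CommRingCat.of k))))).obj L) :=
  Iff.rfl

/-- The condition of S25 on a rigidified line bundle `M` on `C × T`: for every algebraically closed field `k`
and every `k`-valued point `s` of `T` the inverse image of `M` on the fibre over `s`, which is a scheme over
`k`, is algebraically equivalent to zero. -/
theorem cut_iff {T : Scheme.{u}} {t : T ⟶ Spec (CommRingCat.of R)} (M : RigidifiedLineBundle c ε t) :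
    (algEquivZeroCut c ε).P t M ↔
      ∀ (k : Type u) [Field k] [IsAlgClosed k] (s : Spec (CommRingCat.of k) ⟶ T),
        IsAlgEquivZero (pullback.snd (pullback.snd c t) s)
          ((Scheme.Modules.pullback (pullback.fst (pullback.snd c t) s)).obj M.L) :=
  Iff.rfl

/-- A **candidate** for the Jacobian (`RelativePic0Designation`) is a scheme `P` over `R` with a section `z`,
without any condition: a statement about all (some) candidates is a statement about all (some) triples
`(P, p, z)` with `p : P ⟶ Spec R` and `z : Spec R ⟶ P` a section of `p`. -/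
theorem exists_designation_iff (c : C ⟶ Spec (CommRingCat.of R))
    (Q : ∀ P : Scheme.{u}, (P ⟶ Spec (CommRingCat.of R)) → (Spec (CommRingCat.of R) ⟶ P) → Prop) :
    (∃ D : RelativePic0Designation R c, Q D.P D.toBase D.zeroSection) ↔
      ∃ (P : Scheme.{u}) (p : P ⟶ Spec (CommRingCat.of R)) (z : Spec (CommRingCat.of R) ⟶ P),
        z ≫ p = 𝟙 (Spec (CommRingCat.of R)) ∧ Q P p z :=
  ⟨fun ⟨D, h⟩ => ⟨D.P, D.toBase, D.zeroSection, D.zeroSection_toBase, h⟩,
    fun ⟨P, p, z, hz, h⟩ => ⟨⟨P, p, z, hz⟩, h⟩⟩

/-- **Representability** (S25), for a condition `P` on rigidified line bundles (which holds for the trivial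
bundle and is stable under isomorphism and inverse image: the fields of `SubPicCondition`): on `C × D` there
is a rigidified line bundle `𝓟` with `P` (the Poincaré bundle) such that every rigidified line bundle `M` on
`C × T` with `P`, for every scheme `T` over `R`, is isomorphic to the inverse image of `𝓟` along exactly one
morphism `T ⟶ D` over `R`; and the zero section of `D` corresponds to the trivial line bundle. -/
theorem represents_iff (P : SubPicCondition c ε) (D : RelativePic0Designation R c) :
    Nonempty (RepresentsRelSubPic c ε P D) ↔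
      ∃ 𝓟 : RigidifiedLineBundle c ε D.toBase, P.P D.toBase 𝓟 ∧
        (∀ {T : Scheme.{u}} (t : T ⟶ Spec (CommRingCat.of R)) (M : RigidifiedLineBundle c ε t),
          P.P t M → ∃! g : SchemeHomOver t D.toBase, Nonempty ((𝓟.pullbackAlong g).L ≅ M.L)) ∧
        Nonempty ((𝓟.pullbackAlong ⟨D.zeroSection, D.zeroSection_toBase⟩).L ≅
          (RigidifiedLineBundle.unit (c := c) (ε := ε) (𝟙 _)).L) :=
  ⟨fun ⟨h⟩ => ⟨h.poincare, h.poincare_mem, h.univ, h.zero⟩, fun ⟨p, h1, h2, h3⟩ => ⟨⟨p, h1, h2, h3⟩⟩⟩

end Fermat.Agent.Guide.NotionsSchemes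

namespace Fermat.Agent.Guide.NotionsSchemes

open ModularCurve ModularCurve.IgusaScheme

/-! ## Section 3: the Igusa model of the modular curve

`modularFunctionFieldFull N` is the subfield of the field of Laurent series over `ℚ` generated by the series
`j(q^d)`, `d ∣ N` (`GuideNotionsCurves`); classically this is the field of all modular functions on `Γ₀(N)`
with rational Fourier coefficients.  `jq` is the series of the `j`-function and `GaloisRep.ratLocalizedAt ℓ`
is the ring `ℤ_(ℓ)` of the rational numbers with denominator prime to `ℓ` (`GuideNotionsGalois`). -/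

/-- The field of modular functions as an algebra over `ℤ_(ℓ)`, and the `j`-function as an element of it. -/
theorem function_field_algebra (N : ℕ) [NeZero N] (ℓ : ℕ) :
    (∀ a : ↥(GaloisRep.ratLocalizedAt ℓ),
      algebraMap ↥(GaloisRep.ratLocalizedAt ℓ) ↥(modularFunctionFieldFull N) a =
        algebraMap ℚ ↥(modularFunctionFieldFull N) (a : ℚ)) ∧
      ((jFull N : ↥(modularFunctionFieldFull N)) : LaurentSeries ℚ) = jq :=
  ⟨fun _ => rfl, rfl⟩

/-- **The charts**: for a set `S` of modular functions `chartAlg N ℓ S` is the ring of all modular functions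
which are integral over the ring `ℤ_(ℓ)[S]`. -/
theorem mem_chart_iff (N ℓ : ℕ) (S : Set ↥(modularFunctionFieldFull N))
    (x : ↥(modularFunctionFieldFull N)) :
    x ∈ chartAlg N ℓ S ↔ IsIntegral (Algebra.adjoin ↥(GaloisRep.ratLocalizedAt ℓ) S) x :=
  Iff.rfl

/-- The two affine charts and their intersection: the spectra of the integral closures of `ℤ_(ℓ)[j]`,
`ℤ_(ℓ)[1/j]` and `ℤ_(ℓ)[j, 1/j]`. -/
theorem charts (N : ℕ) [NeZero N] (ℓ : ℕ) :
    XFin N ℓ = Spec (CommRingCat.of (chartAlg N ℓ {jFull N})) ∧
      XInf N ℓ = Spec (CommRingCat.of (chartAlg N ℓ {(jFull N)⁻¹})) ∧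
      XMid N ℓ = Spec (CommRingCat.of (chartAlg N ℓ {jFull N, (jFull N)⁻¹})) :=
  ⟨rfl, rfl, rfl⟩

/-- The morphisms from the intersection to the charts are given by the inclusions of rings; they are open
immersions. -/
theorem gluing_morphisms (N : ℕ) [NeZero N] (ℓ : ℕ) [Fact ℓ.Prime] :
    fFin N ℓ = Spec.map (CommRingCat.ofHom
      (Subalgebra.inclusion (chartAlg_mono N ℓ (sFin_subset N))).toRingHom) ∧
    fInf N ℓ = Spec.map (CommRingCat.ofHom
      (Subalgebra.inclusion (chartAlg_mono N ℓ (sInf_subset N))).toRingHom) ∧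
    IsOpenImmersion (fFin N ℓ) ∧ IsOpenImmersion (fInf N ℓ) :=
  ⟨rfl, rfl, inferInstance, inferInstance⟩

/-- **The Igusa scheme**: the model of `X_0(N)` over `ℤ_(ℓ)` obtained by gluing the two charts along their
intersection: the normalisation of the projective `j`-line over `ℤ_(ℓ)` in the field of modular functions. -/
theorem igusa_scheme (N : ℕ) [NeZero N] (ℓ : ℕ) [Fact ℓ.Prime] :
    ModularCurve.IgusaScheme N ℓ = pushout (fFin N ℓ) (fInf N ℓ) :=
  rfl

/-- The two charts are open subschemes which cover the Igusa scheme. -/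
theorem igusa_cover (N : ℕ) [NeZero N] (ℓ : ℕ) [Fact ℓ.Prime] :
    IsOpenImmersion (ιFin N ℓ) ∧ IsOpenImmersion (ιInf N ℓ) ∧ fFin N ℓ ≫ ιFin N ℓ = fInf N ℓ ≫ ιInf N ℓ ∧
      ∀ x : ModularCurve.IgusaScheme N ℓ,
        x ∈ Set.range (ιFin N ℓ).base ∨ x ∈ Set.range (ιInf N ℓ).base :=
  ⟨inferInstance, inferInstance, glue_condition N ℓ, mem_range_ιFin_or_mem_range_ιInf N ℓ⟩

/-- **The structure morphism** `igusaTo N ℓ` to the spectrum of `ℤ_(ℓ)`: on the two charts it is given by the
structure of an algebra over `ℤ_(ℓ)`. -/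
theorem igusa_to_base (N : ℕ) [NeZero N] (ℓ : ℕ) [Fact ℓ.Prime] :
    ιFin N ℓ ≫ igusaTo N ℓ = Spec.map (CommRingCat.ofHom
      (algebraMap ↥(GaloisRep.ratLocalizedAt ℓ) (chartAlg N ℓ {jFull N}))) ∧
    ιInf N ℓ ≫ igusaTo N ℓ = Spec.map (CommRingCat.ofHom
      (algebraMap ↥(GaloisRep.ratLocalizedAt ℓ) (chartAlg N ℓ {(jFull N)⁻¹}))) :=
  ⟨ιFin_igusaTo N ℓ, ιInf_igusaTo N ℓ⟩

end Fermat.Agent.Guide.NotionsSchemes
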