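import Fermat.Agent.H67M5

/-!
# Matching at infinity (helper67), part 6: heights, `khat`, Abel transform

`RA_bF : RA κ (fun u => f (fun _ => ∑ j, u j)) s = RA (bF κ) f (fun _ => ∑ j, s j)`,
`khat_bF : khat (bF κ) s = khat κ (fun _ => s 0)`.
-/

set_option autoImplicit false
set_option linter.unusedSectionVars false

noncomputable section

open MeasureTheory Set Matrix

namespace Fermat.Agent.H67M

open Fermat.Agent Fermat.Agent.H3 Fermat.Agent.H5Z Fermat.Agent.H56Z

/-- the affine product: `aff a w = n(a.z) d(a.y) w` -/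
def aff (a w : H3) : H3 := ⟨a.z + a.y * w.z, a.y * w.y, mul_pos a.pos w.pos⟩

theorem toPt_smul_eq (a w : H3) : toPt a • w = aff a w := by
  rw [toPt, mul_smul, dMat_smul, nMat_smul]
  ext
  · simp only [aff]
    ring
  · simp [aff, abs_of_pos a.pos]

theorem continuous_aff : Continuous fun p : H3 × H3 => aff p.1 p.2 := by
  refine continuous_mk ?_ ?_
  · exact (continuous_z.comp continuous_fst).add ((Complex.continuous_ofReal.comp
      (continuous_y.comp continuous_fst)).mul (continuous_z.comp continuous_snd))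
  · exact (continuous_y.comp continuous_fst).mul (continuous_y.comp continuous_snd)

theorem ch_aff (a w w' : H3) : ch (aff a w) (aff a w') = ch w w' := by
  rw [← toPt_smul_eq, ← toPt_smul_eq, ch_smul]

theorem aff_base (a : H3) : aff a base = a := by
  rw [← toPt_smul_eq, toPt_smul]

theorem integral_aff {E : Type*} [NormedAddCommGroup E] [NormedSpace ℝ E] (a : H3) (f : H3 → E) :
    ∫ w, f (aff a w) = ∫ w, f w := by
  simp only [← toPt_smul_eq]
  exact integral_smul_eq _ f

theorem aff_y (a w : H3) : (aff a w).y = a.y * w.y := rfl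

/-- `x ↦ x₀ x₁ x₂` in the affine group -/
def aff3 (x : Fin 3 → H3) : H3 := aff (x 0) (aff (x 1) (x 2))

theorem continuous_aff3 : Continuous aff3 := by
  have h0 : Continuous fun x : Fin 3 → H3 => x 0 := continuous_apply 0
  have h1 : Continuous fun x : Fin 3 → H3 => x 1 := continuous_apply 1
  have h2 : Continuous fun x : Fin 3 → H3 => x 2 := continuous_apply 2
  have h3 : Continuous fun x : Fin 3 → H3 => aff (x 1) (x 2) :=
    continuous_aff.comp (h1.prodMk h2)
  exact continuous_aff.comp (h0.prodMk h3)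

theorem ch_base_aff (a w : H3) : ch base (aff a w) ≤ 2 * ch base a * ch base w := by
  refine (ch_le_two_mul base a (aff a w)).trans (le_of_eq ?_)
  congr 1
  nth_rewrite 1 [← aff_base a]
  rw [ch_aff]

theorem ch_base_aff3 {T : ℝ} (x : Fin 3 → H3) (hx : ∀ j, ch base (x j) ≤ T) :
    ch base (aff3 x) ≤ 4 * T ^ 3 := by
  have h0 := hx 0
  have h1 := hx 1
  have h2 := hx 2
  have p0 := one_le_ch base (x 0)
  have p1 := one_le_ch base (x 1)
  have p2 := one_le_ch base (x 2)
  have p3 := one_le_ch base (aff (x 1) (x 2))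
  have hT : 1 ≤ T := p0.trans h0
  have e1 := ch_base_aff (x 0) (aff (x 1) (x 2))
  have e2 := ch_base_aff (x 1) (x 2)
  have e3 : ch base (aff (x 1) (x 2)) ≤ 2 * T * T := e2.trans (by gcongr)
  have e4 : ch base (aff3 x) ≤ 2 * T * (2 * T * T) := e1.trans (by gcongr)
  nlinarith

/-- integral over three points with bounded edges: chain coordinates and affine coordinates -/
theorem integrable_affine {κ : (Fin 3 → ℝ) → ℂ} {C T : ℝ} (h : Adm κ C T) {g : H3 → ℂ}
    (hg : Continuous g) : Integrable fun x : Fin 3 → H3 =>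
      κ (fun j => ch base (x j)) * g (aff3 x) := by
  obtain ⟨G, hG⟩ := (isCompact_ballH3 (4 * T ^ 3) base).exists_bound_of_continuousOn
    hg.continuousOn
  set S : Set (Fin 3 → H3) := Bl T (fun _ => base) with hS
  have hSm : MeasurableSet S := measurableSet_Bl T _
  have hfin : volume S < ⊤ := (isCompact_Bl T _).measure_lt_top
  have hm : AEStronglyMeasurable (fun x : Fin 3 → H3 =>
      κ (fun j => ch base (x j)) * g (aff3 x)) := by
    have m1 : Measurable fun x : Fin 3 → H3 => κ (fun j => ch base (x j)) :=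
      h.meas.comp (measurable_pi_lambda _ fun j =>
        measurable_ch_comp measurable_const (measurable_pi_apply j))
    exact m1.aestronglyMeasurable.mul (hg.comp continuous_aff3).aestronglyMeasurable
  have e : (fun x : Fin 3 → H3 => κ (fun j => ch base (x j)) * g (aff3 x)) =
      S.indicator fun x : Fin 3 → H3 => κ (fun j => ch base (x j)) * g (aff3 x) := by
    funext x
    by_cases hx : x ∈ S
    · rw [indicator_of_mem hx]
    · rw [indicator_of_notMem hx]
      simp only [hS, Bl, mem_ofPred_eq, not_forall, not_le] at hx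
      rw [h.supp (fun j => ch base (x j)) hx, zero_mul]
  rw [e, integrable_indicator_iff hSm]
  refine ⟨hm.restrict, HasFiniteIntegral.restrict_of_bounded (C := C * G) hfin ?_⟩
  rw [ae_restrict_iff' hSm]
  refine Filter.Eventually.of_forall fun x hx => ?_
  rw [norm_mul]
  exact mul_le_mul (h.bdd _) (hG _ (ch_base_aff3 x hx)) (norm_nonneg _)
    ((norm_nonneg _).trans (h.bdd 0))

theorem integrable_chain3 {κ : (Fin 3 → ℝ) → ℂ} {C T : ℝ} (h : Adm κ C T) {g : H3 → ℂ}
    (hg : Continuous g) : Integrable fun m : Fin 3 → H3 =>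
      κ ![ch base (m 0), ch (m 0) (m 1), ch (m 1) (m 2)] * g (m 2) := by
  obtain ⟨G, hG⟩ := (isCompact_ballH3 (4 * T ^ 3) base).exists_bound_of_continuousOn
    hg.continuousOn
  have hp : ∀ i : Fin 3, Measurable fun m : Fin 3 → H3 => m i := fun i => measurable_pi_apply i
  have hm : AEStronglyMeasurable (fun m : Fin 3 → H3 =>
      κ ![ch base (m 0), ch (m 0) (m 1), ch (m 1) (m 2)] * g (m 2)) := by
    have m1 : Measurable fun m : Fin 3 → H3 => κ ![ch base (m 0), ch (m 0) (m 1), ch (m 1) (m 2)] := by
      refine h.meas.comp (measurable_pi_lambda _ fun j => ?_)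
      fin_cases j
      · exact measurable_ch_comp measurable_const (hp 0)
      · exact measurable_ch_comp (hp 0) (hp 1)
      · exact measurable_ch_comp (hp 1) (hp 2)
    exact m1.aestronglyMeasurable.mul (hg.comp (continuous_apply 2)).aestronglyMeasurable
  have key : ∀ m : Fin 3 → H3, κ ![ch base (m 0), ch (m 0) (m 1), ch (m 1) (m 2)] ≠ 0 →
      ch base (m 0) ≤ T ∧ ch (m 0) (m 1) ≤ T ∧ ch (m 1) (m 2) ≤ T := by
    intro m hm
    refine ⟨?_, ?_, ?_⟩
    · by_contra h0
      exact hm (h.supp _ ⟨0, not_le.mp h0⟩)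
    · by_contra h0
      exact hm (h.supp _ ⟨1, not_le.mp h0⟩)
    · by_contra h0
      exact hm (h.supp _ ⟨2, not_le.mp h0⟩)
  refine integrable_chain (T := T) (C := C * |G|) (x := base) hm (fun m => ?_) fun m hm => ?_
  · by_cases h0 : κ ![ch base (m 0), ch (m 0) (m 1), ch (m 1) (m 2)] = 0
    · rw [h0, zero_mul, norm_zero]
      exact mul_nonneg ((norm_nonneg _).trans (h.bdd 0)) (abs_nonneg _)
    · obtain ⟨h1, h2, h3⟩ := key m h0
      have p0 := one_le_ch base (m 0)
      have p1 := one_le_ch (m 0) (m 1)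
      have p2 := one_le_ch (m 1) (m 2)
      have p3 := one_le_ch (m 0) (m 2)
      have hT : 1 ≤ T := p0.trans h1
      have e1 : ch (m 0) (m 2) ≤ 2 * T * T := (ch_le_two_mul _ (m 1) _).trans (by gcongr)
      have e2 : ch base (m 2) ≤ 2 * T * (2 * T * T) := (ch_le_two_mul _ (m 0) _).trans (by gcongr)
      have e3 : ch base (m 2) ≤ 4 * T ^ 3 := by nlinarith
      rw [norm_mul]
      exact mul_le_mul (h.bdd _) ((hG _ e3).trans (le_abs_self G)) (norm_nonneg _)
        ((norm_nonneg _).trans (h.bdd 0))
  · obtain ⟨h1, h2, h3⟩ := key m (left_ne_zero_of_mul hm)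
    exact ⟨h1, h2, h3, mem_univ _⟩

/-- **Key identity**: the composed kernel at the base point against a continuous function. -/
theorem integral_bk_mul {κ : (Fin 3 → ℝ) → ℂ} {C T : ℝ} (h : Adm κ C T) {g : H3 → ℂ}
    (hg : Continuous g) : ∫ w : H3, bk κ base w * g w =
      ∫ x : Fin 3 → H3, κ (fun j => ch base (x j)) * g (aff3 x) := by
  have hI := integrable_chain3 h hg
  -- left side as an integral over chains
  have hL : ∫ w : H3, bk κ base w * g w = ∫ m : Fin 3 → H3,
      κ ![ch base (m 0), ch (m 0) (m 1), ch (m 1) (m 2)] * g (m 2) := by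
    have hs := integral_slice (n := 2) 2 hI
    -- put the last coordinate first
    let σ : Fin 3 ≃ Fin 3 :=
      { toFun := ![1, 2, 0], invFun := ![2, 0, 1], left_inv := by decide, right_inv := by decide }
    rw [← integral_perm σ, integral_pi3 _ (integrable_perm σ hI)]
    refine integral_congr_ae (Filter.Eventually.of_forall fun w => ?_)
    simp only
    unfold bk
    rw [← integral_mul_const]
    refine integral_congr_ae (Filter.Eventually.of_forall fun u => ?_)
    simp only
    rw [← integral_mul_const]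
    rfl
  rw [hL, integral_pi3 _ hI, integral_pi3 _ (integrable_affine h hg)]
  refine integral_congr_ae (Filter.Eventually.of_forall fun a => ?_)
  simp only
  rw [← integral_aff a]
  refine integral_congr_ae (Filter.Eventually.of_forall fun b => ?_)
  simp only
  rw [← integral_aff a (fun c => κ ![ch base (![a, aff a b, c] 0),
    ch (![a, aff a b, c] 0) (![a, aff a b, c] 1), ch (![a, aff a b, c] 1) (![a, aff a b, c] 2)] *
    g (![a, aff a b, c] 2)), ← integral_aff b]
  refine integral_congr_ae (Filter.Eventually.of_forall fun c => ?_)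
  simp only [cons_val_zero, cons_val_one, cons_val]
  have e1 : ch a (aff a b) = ch base b := by
    nth_rewrite 1 [← aff_base a]
    rw [ch_aff]
  have e2 : ch (aff a b) (aff a (aff b c)) = ch base c := by
    rw [ch_aff]
    nth_rewrite 1 [← aff_base b]
    rw [ch_aff]
  rw [e1, e2]
  congr 2
  funext j
  fin_cases j <;> rfl

theorem lh_aff3 (x : Fin 3 → H3) : Real.log (aff3 x).y = ∑ j, lh x j := by
  rw [aff3, aff_y, aff_y, Real.log_mul (x 0).pos.ne' (mul_pos (x 1).pos (x 2).pos).ne',
    Real.log_mul (x 1).pos.ne' (x 2).pos.ne', Fin.sum_univ_three]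
  simp only [lh]
  ring

/-- **Functions of the total height**: `R(κ)` on `(H3)³` and `R(bF κ)` on `H3` agree. -/
theorem RA_bF_zero {κ : (Fin 3 → ℝ) → ℂ} (hκ : IsRC κ) {f : (Fin 1 → ℝ) → ℂ}
    (hf : Continuous f) :
    RA κ (fun u => f fun _ => ∑ j, u j) 0 = RA (bF κ) f 0 := by
  obtain ⟨C, T, hT, hC, h⟩ := adm_of_isRC hκ
  have hf' : Continuous fun u : Fin 3 → ℝ => f fun _ => ∑ j, u j := by fun_prop
  have h1 := congrFun (Rk_lh hκ hf') (baseJ (Fin 3))
  have h2 := congrFun (Rk_lh (isRC_bF hκ) hf) (baseJ (Fin 1))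
  simp only [lh_baseJ] at h1 h2
  rw [← h1, ← h2]
  unfold Rk
  have hg : Continuous fun w : H3 => f fun _ => Real.log w.y :=
    hf.comp (continuous_pi fun _ => continuous_y.log fun w => w.pos.ne')
  have h3 := integral_bk_mul h hg
  rw [integral_fin1]
  refine Eq.trans ?_ (h3.symm.trans ?_)
  · refine integral_congr_ae (Filter.Eventually.of_forall fun x => ?_)
    simp only
    rw [lh_aff3]
    rfl
  · refine integral_congr_ae (Filter.Eventually.of_forall fun w => ?_)
    simp only
    rw [bF_chv]
    rfl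

theorem RA_bF {κ : (Fin 3 → ℝ) → ℂ} (hκ : IsRC κ) {f : (Fin 1 → ℝ) → ℂ}
    (hf : Continuous f) (s : Fin 3 → ℝ) :
    RA κ (fun u => f fun _ => ∑ j, u j) s = RA (bF κ) f fun _ => ∑ j, s j := by
  have hg : Continuous fun u : Fin 1 → ℝ => f ((fun _ => ∑ j, s j) + u) := by fun_prop
  have h := RA_bF_zero hκ hg
  have e1 : RA κ (fun u => f fun _ => ∑ j, u j) s =
      RA κ (fun u => f ((fun _ => ∑ j, s j) + fun _ => ∑ j, u j)) 0 := by
    unfold RA
    refine integral_congr_ae (Filter.Eventually.of_forall fun u => ?_)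
    simp only [zero_add]
    congr 2
    congr 1
    funext _
    simp only [Pi.add_apply, Finset.sum_add_distrib]
  have e2 : RA (bF κ) f (fun _ => ∑ j, s j) =
      RA (bF κ) (fun u => f ((fun _ => ∑ j, s j) + u)) 0 := by
    unfold RA
    refine integral_congr_ae (Filter.Eventually.of_forall fun u => ?_)
    simp only [zero_add]
  rw [e1, e2]
  exact h

/-- **The spherical transform of the base change** is the restriction to the diagonal. -/
theorem khat_bF {κ : (Fin 3 → ℝ) → ℂ} (hκ : IsRC κ) (s : Fin 1 → ℂ) :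
    khat (bF κ) s = khat κ fun _ => s 0 := by
  have h := RA_bF_zero hκ (continuous_yexp s)
  have e1 : (fun u : Fin 3 → ℝ => yexp s fun _ => ∑ j, u j) = yexp fun _ : Fin 3 => s 0 := by
    funext u
    simp only [yexp, Finset.univ_unique, Finset.sum_singleton, Fin.default_eq_zero,
      Complex.ofReal_sum, Finset.mul_sum]
  rw [e1, RA_yexp, RA_yexp, yexp_zero, yexp_zero, mul_one, mul_one] at h
  exact h.symm

theorem khat0_bF {κ : (Fin 3 → ℝ) → ℂ} (hκ : IsRC κ) : khat0 (bF κ) = khat0 κ := by
  unfold khat0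
  rw [khat_bF hκ]
  rfl

end Fermat.Agent.H67M
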