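import Fermat.Agent.H59K1
import Fermat.Agent.H67M6
import Fermat.Agent.H59Def

/-!
# The aleph operator as a finite family of pure kernels, part 2: smoothing, base change (helper59)

* `it a n κ = a * ... * a * κ` (`n` times), `IsReal`, `khat0_it`, permutations;
* `bF_it : bF (it (tens3 a a a) n κ) = it a (3 n) (bF κ)`;
* `kF q k n = bF (kE q k n)` : the kernels on the base field.
-/

set_option autoImplicit false
set_option linter.unusedSectionVars false

noncomputable section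

open MeasureTheory
open scoped Real

namespace Fermat.Agent.H59K

open H56Z H5Z H67M

variable {J : Type*} [Fintype J]

/-- Iterated convolution with `a`. -/
def it (a : (J → ℝ) → ℂ) (n : ℕ) (κ : (J → ℝ) → ℂ) : (J → ℝ) → ℂ := (fun κ' => conv a κ')^[n] κ

@[simp] theorem it_zero (a κ : (J → ℝ) → ℂ) : it a 0 κ = κ := rfl

theorem it_succ (a : (J → ℝ) → ℂ) (n : ℕ) (κ : (J → ℝ) → ℂ) :
    it a (n + 1) κ = conv a (it a n κ) := Function.iterate_succ_apply' _ _ _

theorem it_add (a : (J → ℝ) → ℂ) (n n' : ℕ) (κ : (J → ℝ) → ℂ) :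
    it a (n + n') κ = it a n (it a n' κ) := Function.iterate_add_apply _ _ _ _

theorem isRC_it {a κ : (J → ℝ) → ℂ} (ha : IsRC a) (hκ : IsRC κ) (n : ℕ) : IsRC (it a n κ) := by
  induction n with
  | zero => exact hκ
  | succ n ih =>
    rw [it_succ]
    exact ha.conv ih

/-- Real kernels. -/
def IsReal (κ : (J → ℝ) → ℂ) : Prop := ∀ t, (starRingEnd ℂ) (κ t) = κ t

omit [Fintype J] in
theorem isReal_ofReal (k : (J → ℝ) → ℝ) : IsReal fun t => ((k t : ℝ) : ℂ) := fun t =>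
  Complex.conj_ofReal _

omit [Fintype J] in
theorem IsReal.eq_ofReal {κ : (J → ℝ) → ℂ} (h : IsReal κ) : κ = fun t => (((κ t).re : ℝ) : ℂ) :=
  funext fun t => (Complex.conj_eq_iff_re.1 (h t)).symm

theorem IsReal.conv {κ κ' : (J → ℝ) → ℂ} (h : IsReal κ) (h' : IsReal κ') :
    IsReal (conv κ κ') := by
  intro t
  unfold H56Z.conv
  rw [← integral_conj]
  refine integral_congr_ae (Filter.Eventually.of_forall fun v => ?_)
  simp only [map_mul]
  rw [h, h']

theorem IsReal.it {a κ : (J → ℝ) → ℂ} (ha : IsReal a) (hκ : IsReal κ) (n : ℕ) :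
    IsReal (it a n κ) := by
  induction n with
  | zero => exact hκ
  | succ n ih =>
    rw [it_succ]
    exact ha.conv ih

theorem isReal_kE (q : ℝ) (k : ℕ → ℝ → ℝ) (n : Ix) : IsReal (kE q k n) := kE_real q k n

theorem IsReal.bF {κ : (Fin 3 → ℝ) → ℂ} (h : IsReal κ) : IsReal (bF κ) := by
  rw [h.eq_ofReal, bF_ofReal]
  exact isReal_ofReal _

theorem khat0_it {a κ : (J → ℝ) → ℂ} (ha : IsRC a) (hκ : IsRC κ) (n : ℕ) :
    khat0 (it a n κ) = khat0 a ^ n * khat0 κ := by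
  induction n with
  | zero => simp
  | succ n ih =>
    have h1 : khat0 (H56Z.conv a (it a n κ)) = khat0 a * khat0 (it a n κ) :=
      khat_conv ha (isRC_it ha hκ n) 0
    rw [it_succ, h1, ih, pow_succ]
    ring

/-! ### Permutations of the three variables -/

theorem conv_perm (κ κ' : (Fin 3 → ℝ) → ℂ) (e : Equiv.Perm (Fin 3)) (t : Fin 3 → ℝ) :
    conv κ κ' (fun j => t (e j)) =
      conv (fun u => κ fun j => u (e j)) (fun u => κ' fun j => u (e j)) t := by
  unfold H56Z.conv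
  rw [← integral_perm e]
  rfl

/-- A kernel invariant under permutations. -/
def IsSym (κ : (Fin 3 → ℝ) → ℂ) : Prop := ∀ (e : Equiv.Perm (Fin 3)) t, κ (fun j => t (e j)) = κ t

theorem it_perm {a : (Fin 3 → ℝ) → ℂ} (ha : IsSym a) (n : ℕ) (κ : (Fin 3 → ℝ) → ℂ)
    (e : Equiv.Perm (Fin 3)) (t : Fin 3 → ℝ) :
    it a n κ (fun j => t (e j)) = it a n (fun u => κ fun j => u (e j)) t := by
  induction n generalizing t with
  | zero => rfl
  | succ n ih =>
    rw [it_succ, it_succ, conv_perm]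
    have h1 : (fun u : Fin 3 → ℝ => a fun j => u (e j)) = a := funext fun u => ha e u
    have h2 : (fun u : Fin 3 → ℝ => it a n κ fun j => u (e j)) =
      it a n (fun u => κ fun j => u (e j)) := funext fun u => ih u
    rw [h1, h2]

theorem isSym_tn (k : ℝ → ℝ) : IsSym (tn fun _ : Fin 3 => k) := by
  intro e t
  exact tn_perm (fun _ => k) e t

/-- The one-variable kernel on `Fin 1 → ℝ`. -/
def k1 (k : ℝ → ℝ) (t : Fin 1 → ℝ) : ℂ := ((k (t 0) : ℝ) : ℂ)

theorem isRC_k1 {k : ℝ → ℝ} (hk : IsK1 k) : IsRC (k1 k) := by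
  obtain ⟨M, hM⟩ := hk.bdd
  obtain ⟨R, hR⟩ := hk.supp
  refine ⟨Complex.continuous_ofReal.comp (hk.cont.comp (continuous_apply 0)), ⟨M, fun u => ?_⟩,
    ⟨R, fun u hu => ?_⟩⟩
  · unfold k1
    rw [Complex.norm_real, Real.norm_eq_abs]
    exact hM _
  · obtain ⟨j, hj⟩ := hu
    rw [Subsingleton.elim j 0] at hj
    unfold k1
    rw [hR _ hj, Complex.ofReal_zero]

theorem isReal_k1 (k : ℝ → ℝ) : IsReal (k1 k) := fun t => Complex.conj_ofReal _

theorem tn_three (k : Fin 3 → ℝ → ℝ) : tn k = tens3 (k1 (k 0)) (k1 (k 1)) (k1 (k 2)) := by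
  funext t
  unfold tn tens3 k1
  rw [Fin.prod_univ_three]
  push_cast
  rfl

theorem bF_tn (k : Fin 3 → ℝ → ℝ) :
    bF (tn k) = conv (k1 (k 0)) (conv (k1 (k 1)) (k1 (k 2))) := by
  rw [tn_three, bF_tens3]

/-- **Base change of the smoothed kernels.** -/
theorem bF_it {a : ℝ → ℝ} (ha : IsK1 a) {κ : (Fin 3 → ℝ) → ℂ} (hκ : IsRC κ) (n : ℕ) :
    bF (it (tn fun _ => a) n κ) = it (k1 a) (3 * n) (bF κ) := by
  have h3 : IsRC (tn fun _ : Fin 3 => a) := isRC_tn fun _ => ha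
  induction n with
  | zero => rfl
  | succ n ih =>
    have h1 := isRC_it h3 hκ n
    have h2 := isRC_it (isRC_k1 ha) (isRC_bF hκ) (3 * n)
    rw [it_succ, bF_conv h3 h1, ih, bF_tn]
    have e : 3 * (n + 1) = 3 * n + 1 + 1 + 1 := by ring
    rw [e, it_succ, it_succ, it_succ]
    have ha1 := isRC_k1 ha
    rw [conv_assoc ha1 (ha1.conv ha1) h2, conv_assoc ha1 ha1 h2]

/-- The kernels on the base field. -/
def kF (q : ℝ) (k : ℕ → ℝ → ℝ) (n : Ix) : (Fin 1 → ℝ) → ℂ := bF (kE q k n)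

theorem kF_eq (q : ℝ) (k : ℕ → ℝ → ℝ) (n : Ix) :
    kF q k n = fun t => (cf q n : ℂ) * conv (k1 (k (n (Sum.inr 0))))
      (conv (k1 (k (n (Sum.inr 1)))) (k1 (k (n (Sum.inr 2))))) t := by
  have h := bF_const_mul (tn fun j => k (n (Sum.inr j))) (cf q n : ℂ)
  rw [bF_tn] at h
  exact h

theorem isRC_kF (q : ℝ) {k : ℕ → ℝ → ℝ} (hk : ∀ i, IsK1 (k i)) (n : Ix) : IsRC (kF q k n) :=
  isRC_bF (isRC_kE q hk n)

theorem isReal_kF (q : ℝ) (k : ℕ → ℝ → ℝ) (n : Ix) : IsReal (kF q k n) := (isReal_kE q k n).bF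

end Fermat.Agent.H59K
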