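import Fermat.Agent.H39ZInd
import Fermat.Agent.H59K2

/-!
# Radial data of the aleph operator (helper75 for helper39, S47 C5)

* `abel_tn_eq` : the Abel transform of a tensor product
* `abel_conv_step` : translations of Abel transforms and convolutions
* `radData_E`, `radData_F` : `H39Z.RadData` on the two sides.
-/

set_option autoImplicit false

noncomputable section

open MeasureTheory Set
open scoped Real

namespace Fermat.Agent.H75X

open Fermat.Agent.H56Z (abel regU measurableSet_regU IsRC abel_conv continuous_abel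
  hasCompactSupport_abel conv conv_comm)
open Fermat.Agent.H59K (tn IsK1 k1 isRC_tn isRC_k1 bF_tn)
open Fermat.Agent.H67M (bF isRC_bF)
open Fermat.Agent.H39Z (RadData)

/-- the Abel transform in one variable -/
def ab1 (k : ℝ → ℝ) (s : ℝ) : ℂ := 2 * π * ∫ t in Ioi (Real.cosh s), (k t : ℂ)

theorem abel_tn_eq {J : Type*} [Fintype J] (k : J → ℝ → ℝ) (u : J → ℝ) :
    abel (tn k) u = ∏ j, ab1 (k j) (u j) := by
  have h1 : ∫ t in regU u, tn k t =
      ∏ j, ∫ t in Ioi (Real.cosh (u j)), (k j t : ℂ) := by
    have h2 : ∀ j, ∫ t in Ioi (Real.cosh (u j)), (k j t : ℂ) =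
        ∫ t, (Ioi (Real.cosh (u j))).indicator (fun t => (k j t : ℂ)) t := fun j =>
      (integral_indicator measurableSet_Ioi).symm
    simp only [h2]
    rw [← integral_fintype_prod_volume_eq_prod, ← integral_indicator (measurableSet_regU u)]
    refine integral_congr_ae (Filter.Eventually.of_forall fun t => ?_)
    simp only
    by_cases ht : ∀ j, Real.cosh (u j) < t j
    · rw [indicator_of_mem (show t ∈ regU u from ht)]
      unfold tn
      rw [Complex.ofReal_prod]
      refine Finset.prod_congr rfl fun j _ => ?_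
      rw [indicator_of_mem (show t j ∈ Ioi (Real.cosh (u j)) from ht j)]
    · rw [indicator_of_notMem (show t ∉ regU u from ht)]
      push Not at ht
      obtain ⟨j, hj⟩ := ht
      refine (Finset.prod_eq_zero (Finset.mem_univ j) ?_).symm
      exact indicator_of_notMem (fun h => absurd (mem_Ioi.mp h) (not_lt.mpr hj)) _
  rw [abel, h1]
  unfold ab1
  rw [Finset.prod_mul_distrib, Finset.prod_const, Finset.card_univ]

theorem k1_eq_tn (k : ℝ → ℝ) : k1 k = tn (fun _ : Fin 1 => k) := by
  funext t
  unfold k1 tn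
  simp

theorem abel_k1 (k : ℝ → ℝ) (u : Fin 1 → ℝ) : abel (k1 k) u = ab1 k (u 0) := by
  rw [k1_eq_tn, abel_tn_eq]
  simp

section conv

variable {J : Type*} [Fintype J] {κ κ' κ'' : (J → ℝ) → ℂ}

theorem abel_conv_step (h : IsRC κ) (h' : IsRC κ') (h'' : IsRC κ'') (c : J → ℝ)
    (hs : ∀ u, abel κ' u = abel κ (u + c) + abel κ (u - c)) (v : J → ℝ) :
    abel (conv κ' κ'') v = abel (conv κ κ'') (v + c) + abel (conv κ κ'') (v - c) := by
  have hA := continuous_abel h
  have hB := continuous_abel h''
  have hAs := hasCompactSupport_abel h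
  have key : ∀ d : J → ℝ, Integrable (fun u => abel κ (u + d) * abel κ'' (v - u)) ∧
      ∫ u, abel κ (u + d) * abel κ'' (v - u) = abel (conv κ κ'') (v + d) := by
    intro d
    constructor
    · refine Continuous.integrable_of_hasCompactSupport ?_ ?_
      · exact (hA.comp (continuous_id.add continuous_const)).mul
          (hB.comp (continuous_const.sub continuous_id))
      · exact (hAs.comp_homeomorph (Homeomorph.addRight d)).mul_right
    · rw [abel_conv h h'',
        ← integral_add_right_eq_self (fun u => abel κ u * abel κ'' (v + d - u)) d]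
      refine integral_congr_ae (Filter.Eventually.of_forall fun u => ?_)
      simp only
      rw [add_sub_add_right_eq_sub]
  obtain ⟨i1, e1⟩ := key c
  obtain ⟨i2, e2⟩ := key (-c)
  rw [abel_conv h' h'', sub_eq_add_neg v c, ← e1, ← e2, ← integral_add i1 i2]
  refine integral_congr_ae (Filter.Eventually.of_forall fun u => ?_)
  simp only [hs]
  rw [sub_eq_add_neg]
  ring

theorem abel_conv_step' (h : IsRC κ) (h' : IsRC κ') (h'' : IsRC κ'') (c : J → ℝ)
    (hs : ∀ u, abel κ' u = abel κ (u + c) + abel κ (u - c)) (v : J → ℝ) :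
    abel (conv κ'' κ') v = abel (conv κ'' κ) (v + c) + abel (conv κ'' κ) (v - c) := by
  rw [conv_comm κ'' κ', conv_comm κ'' κ]
  exact abel_conv_step h h' h'' c hs v

end conv

section main

variable {k : ℕ → ℝ → ℝ} {ℓ : ℝ}

/-- **(E)** -/
theorem radData_E (hk : ∀ i, IsK1 (k i))
    (hs : ∀ n (u : Fin 1 → ℝ), abel (k1 (k (n + 1))) u =
      abel (k1 (k n)) (u + fun _ => ℓ) + abel (k1 (k n)) (u - fun _ => ℓ)) :
    RadData (κ := Fin 3) (J := Fin 3) (fun i j => if i = j then ℓ else 0)
      (fun n => tn fun j => k (n j)) := by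
  have hs' : ∀ n s, ab1 (k (n + 1)) s = ab1 (k n) (s + ℓ) + ab1 (k n) (s - ℓ) := by
    intro n s
    have := hs n (fun _ => s)
    simpa [abel_k1] using this
  refine ⟨fun n => isRC_tn fun j => hk (n j), fun n i u => ?_⟩
  rw [abel_tn_eq, abel_tn_eq, abel_tn_eq, Fin.prod_univ_three, Fin.prod_univ_three,
    Fin.prod_univ_three]
  fin_cases i
  · simp [hs']
    ring
  · simp [hs']
    ring
  · simp [hs']
    ring

/-- **(F)** -/
theorem radData_F (hk : ∀ i, IsK1 (k i))
    (hs : ∀ n (u : Fin 1 → ℝ), abel (k1 (k (n + 1))) u =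
      abel (k1 (k n)) (u + fun _ => ℓ) + abel (k1 (k n)) (u - fun _ => ℓ)) :
    RadData (κ := Fin 3) (J := Fin 1) (fun _ _ => ℓ) (fun n => bF (tn fun j => k (n j))) := by
  have hr : ∀ n, IsRC (k1 (k n)) := fun n => isRC_k1 (hk n)
  refine ⟨fun n => isRC_bF (isRC_tn fun j => hk (n j)), fun n i u => ?_⟩
  simp only [bF_tn]
  fin_cases i
  · simp only [Pi.add_apply]
    simp
    exact abel_conv_step (hr _) (hr _) ((hr _).conv (hr _)) _ (hs _) u
  · simp
    exact abel_conv_step' ((hr _).conv (hr _)) ((hr _).conv (hr _)) (hr _) _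
      (abel_conv_step (hr _) (hr _) (hr _) _ (hs _)) u
  · simp
    exact abel_conv_step' ((hr _).conv (hr _)) ((hr _).conv (hr _)) (hr _) _
      (abel_conv_step' (hr _) (hr _) (hr _) _ (hs _)) u

end main

end Fermat.Agent.H75X
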