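import Fermat.Agent.H80Inv
import Fermat.Agent.H75XRad

/-!
# S47, block (C): the one-variable kernels of the aleph operator (helper17, from helper80's
inverse Abel transform)

`exists_kk`: kernels `k n` with `abel (k (n+1)) u = abel (k n) (u + ℓ) + abel (k n) (u - ℓ)`,
continuous, of bounded support, Lipschitz, with the value `2 ^ n * h` at the trivial character.
-/

set_option autoImplicit false

noncomputable section

open MeasureTheory Set
open scoped Real

namespace Fermat.Agent.H17S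

open Fermat.Agent.H80Inv Fermat.Agent.H59K Fermat.Agent.H56Z Fermat.Agent.H75X

theorem isK1_invA {ℓ : ℝ} {A : ℝ → ℝ} (h : Seed ℓ A) : IsK1 (invA A) where
  cont := h.contDiff_invA.continuous
  bdd := by
    obtain ⟨M, -, hM⟩ := h.exists_bound_invA
    exact ⟨M, hM⟩
  supp := by
    obtain ⟨R, -, hR⟩ := h.invA_eq_zero_far
    exact ⟨R, hR⟩

theorem ab1_invA {ℓ : ℝ} {A : ℝ → ℝ} (h : Seed ℓ A) (u : ℝ) : ab1 (invA A) u = (A u : ℂ) := by
  have h1 : ∫ t in Ioi (Real.cosh u), (invA A t : ℂ) =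
      ((∫ t in Ioi (Real.cosh u), invA A t : ℝ) : ℂ) := integral_ofReal
  unfold ab1
  rw [h1, ← h.abel_invA u]
  push_cast
  ring

theorem khat0_tn_invA {J : Type*} [Fintype J] {ℓ : ℝ} {A : J → ℝ → ℝ} (h : ∀ j, Seed ℓ (A j)) :
    khat0 (tn fun j => invA (A j)) = ∏ j, ((∫ u, A j u : ℝ) : ℂ) := by
  rw [khat0_eq_integral_abel]
  have h1 : (fun u : J → ℝ => abel (tn fun j => invA (A j)) u) = fun u => ∏ j, ((A j (u j) : ℝ) : ℂ) := by
    funext u
    rw [abel_tn_eq]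
    exact Finset.prod_congr rfl fun j _ => ab1_invA (h j) (u j)
  rw [h1, integral_fintype_prod_volume_eq_prod (fun j (t : ℝ) => ((A j t : ℝ) : ℂ))]
  exact Finset.prod_congr rfl fun j _ => integral_ofReal

theorem exists_kk {ℓ : ℝ} (hℓ : 0 < ℓ) : ∃ (k : ℕ → ℝ → ℝ) (h : ℝ), 0 < h ∧
    (∀ n, IsK1 (k n)) ∧ (∀ n, ∃ L : NNReal, LipschitzWith L (k n)) ∧
    (∀ n (u : Fin 1 → ℝ), abel (k1 (k (n + 1))) u =
      abel (k1 (k n)) (u + fun _ => ℓ) + abel (k1 (k n)) (u - fun _ => ℓ)) ∧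
    ∀ i : Fin 3 → ℕ, khat0 (tn fun j => k (i j)) = ∏ j, (2 ^ i j * (h : ℂ)) := by
  obtain ⟨A, hA, hpos⟩ := exists_seed hℓ
  refine ⟨fun n => invA (iter ℓ A n), ∫ u, A u, hpos, fun n => isK1_invA (hA.iter n),
    fun n => (hA.iter n).exists_lipschitz_invA, fun n u => ?_, fun i => ?_⟩
  · rw [abel_k1, abel_k1, abel_k1, ab1_invA (hA.iter _), ab1_invA (hA.iter _),
      ab1_invA (hA.iter _), iter_succ]
    push_cast
    rfl
  · rw [khat0_tn_invA fun j => hA.iter (i j)]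
    refine Finset.prod_congr rfl fun j _ => ?_
    rw [hA.integral_iter]
    push_cast
    rfl

end Fermat.Agent.H17S
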