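import Mathlib

/-!
# Lattices in `K²` up to homothety (helper26, S47, package C7)

`R` a Dedekind domain with fraction field `K`. `Lat R K`: the finitely generated `R`-submodules of
`K²` which span `K²`; `GL₂(K)` and the group of fractional ideals act; `LatC R K` is the set of
classes modulo fractional ideals, with its action of `PGL₂(K)`.
-/

set_option autoImplicit false
set_option linter.unusedSectionVars false

noncomputable section

open scoped nonZeroDivisors MatrixGroups
open Matrix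

namespace Fermat.Agent.H26Z

variable (R K : Type*) [CommRing R] [IsDedekindDomain R] [Field K] [Algebra R K]
  [IsFractionRing R K]

/-- a lattice in `K²` -/
@[ext]
structure Lat where
  /-- the underlying submodule -/
  M : Submodule R (Fin 2 → K)
  fg : M.FG
  span_eq : Submodule.span K (M : Set (Fin 2 → K)) = ⊤

variable {K}

/-- the action of a matrix as an `R`-linear automorphism -/
def glEquiv (g : GL (Fin 2) K) : (Fin 2 → K) ≃ₗ[R] (Fin 2 → K) where
  toFun v := g • v
  map_add' v w := smul_add g v w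
  map_smul' r v := smul_comm g r v
  invFun v := g⁻¹ • v
  left_inv v := inv_smul_smul g v
  right_inv v := smul_inv_smul g v

@[simp] theorem glEquiv_apply (g : GL (Fin 2) K) (v : Fin 2 → K) : glEquiv R g v = g • v := rfl

variable {R}

namespace Lat

theorem mem_map_glEquiv {g : GL (Fin 2) K} {M : Submodule R (Fin 2 → K)} {v : Fin 2 → K} :
    v ∈ M.map (glEquiv R g).toLinearMap ↔ g⁻¹ • v ∈ M := by
  constructor
  · rintro ⟨w, hw, rfl⟩
    show g⁻¹ • (g • w) ∈ M
    rwa [inv_smul_smul]
  · intro h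
    exact ⟨g⁻¹ • v, h, smul_inv_smul g v⟩

theorem span_map (g : GL (Fin 2) K) (M : Submodule R (Fin 2 → K))
    (h : Submodule.span K (M : Set (Fin 2 → K)) = ⊤) :
    Submodule.span K ((M.map (glEquiv R g).toLinearMap : Submodule R (Fin 2 → K)) :
      Set (Fin 2 → K)) = ⊤ := by
  have h1 : Submodule.span K ((M.map (glEquiv R g).toLinearMap : Submodule R (Fin 2 → K)) :
      Set (Fin 2 → K)) = (Submodule.span K (M : Set (Fin 2 → K))).map
        (glEquiv K g).toLinearMap := by
    rw [Submodule.map_span]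
    rfl
  rw [h1, h, Submodule.map_top, LinearMap.range_eq_top]
  exact (glEquiv K g).surjective

instance : SMul (GL (Fin 2) K) (Lat R K) where
  smul g Λ := ⟨Λ.M.map (glEquiv R g).toLinearMap, Λ.fg.map _, span_map g Λ.M Λ.span_eq⟩

theorem mem_smul {g : GL (Fin 2) K} {Λ : Lat R K} {v : Fin 2 → K} :
    v ∈ (g • Λ).M ↔ g⁻¹ • v ∈ Λ.M := mem_map_glEquiv

theorem smul_mem_smul {g : GL (Fin 2) K} {Λ : Lat R K} {v : Fin 2 → K} :
    g • v ∈ (g • Λ).M ↔ v ∈ Λ.M := by
  rw [mem_smul, inv_smul_smul]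

theorem ext_mem {Λ Λ' : Lat R K} (h : ∀ v, v ∈ Λ.M ↔ v ∈ Λ'.M) : Λ = Λ' :=
  Lat.ext (Submodule.ext h)

instance : MulAction (GL (Fin 2) K) (Lat R K) where
  one_smul Λ := ext_mem fun v => by rw [mem_smul, inv_one, one_smul]
  mul_smul g h Λ := ext_mem fun v => by
    rw [mem_smul, mem_smul, mem_smul, _root_.mul_inv_rev, mul_smul]

theorem fg_smul {I : Submodule R K} {M : Submodule R (Fin 2 → K)} (hI : I.FG) (hM : M.FG) :
    (I • M).FG := by
  obtain ⟨S, hS, rfl⟩ := Submodule.fg_def.mp hI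
  obtain ⟨T, hT, rfl⟩ := Submodule.fg_def.mp hM
  refine Submodule.fg_def.mpr ⟨Set.image2 (fun r v => r • v) S T, hS.image2 _ hT,
    le_antisymm ?_ ?_⟩
  · rw [Submodule.span_le]
    rintro _ ⟨r, hr, v, hv, rfl⟩
    exact Submodule.smul_mem_smul (Submodule.subset_span hr) (Submodule.subset_span hv)
  · rw [Submodule.smul_le]
    intro r hr v hv
    induction hr using Submodule.span_induction with
    | mem r hr =>
      induction hv using Submodule.span_induction with
      | mem v hv => exact Submodule.subset_span ⟨r, hr, v, hv, rfl⟩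
      | zero => rw [smul_zero]; exact zero_mem _
      | add v w _ _ hv hw => rw [smul_add]; exact add_mem hv hw
      | smul a v _ hv => rw [smul_comm]; exact Submodule.smul_mem _ _ hv
    | zero => rw [zero_smul]; exact zero_mem _
    | add r r' _ _ hr hr' => rw [add_smul]; exact add_mem hr hr'
    | smul a r _ hr => rw [smul_assoc]; exact Submodule.smul_mem _ _ hr

theorem exists_ne_zero_mem (I : (FractionalIdeal R⁰ K)ˣ) :
    ∃ a ∈ ((I : FractionalIdeal R⁰ K) : Submodule R K), a ≠ 0 := by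
  obtain ⟨x, hx, h⟩ := FractionalIdeal.exists_ne_zero_mem_isInteger (I := (I : FractionalIdeal R⁰ K))
    I.ne_zero
  exact ⟨_, h, fun h0 => hx ((IsFractionRing.injective R K) (h0.trans (map_zero _).symm))⟩

theorem span_ismul (I : (FractionalIdeal R⁰ K)ˣ) {M : Submodule R (Fin 2 → K)}
    (h : Submodule.span K (M : Set (Fin 2 → K)) = ⊤) :
    Submodule.span K (((((I : FractionalIdeal R⁰ K) : Submodule R K)) • M :
      Submodule R (Fin 2 → K)) : Set (Fin 2 → K)) = ⊤ := by
  obtain ⟨a, ha, ha0⟩ := exists_ne_zero_mem I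
  rw [eq_top_iff, ← h, Submodule.span_le]
  intro v hv
  have h1 : a • v ∈ Submodule.span K (((((I : FractionalIdeal R⁰ K) : Submodule R K)) • M :
      Submodule R (Fin 2 → K)) : Set (Fin 2 → K)) :=
    Submodule.subset_span (Submodule.smul_mem_smul ha hv)
  have h2 := Submodule.smul_mem _ a⁻¹ h1
  rwa [inv_smul_smul₀ ha0] at h2

/-- multiplication of lattices by fractional ideals -/
instance : SMul (FractionalIdeal R⁰ K)ˣ (Lat R K) where
  smul I Λ := ⟨((I : FractionalIdeal R⁰ K) : Submodule R K) • Λ.M,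
    fg_smul (FractionalIdeal.fg_of_isUnit _ I.isUnit) Λ.fg, span_ismul I Λ.span_eq⟩

theorem ismul_M (I : (FractionalIdeal R⁰ K)ˣ) (Λ : Lat R K) :
    (I • Λ).M = ((I : FractionalIdeal R⁰ K) : Submodule R K) • Λ.M := rfl

instance : MulAction (FractionalIdeal R⁰ K)ˣ (Lat R K) where
  one_smul Λ := Lat.ext (by
    rw [ismul_M, Units.val_one, FractionalIdeal.coe_one, Submodule.one_smul])
  mul_smul I J Λ := Lat.ext (by
    rw [ismul_M, ismul_M, ismul_M, Units.val_mul, FractionalIdeal.coe_mul]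
    exact Submodule.smul_assoc _ _ _)

theorem gl_ismul_comm (g : GL (Fin 2) K) (I : (FractionalIdeal R⁰ K)ˣ) (Λ : Lat R K) :
    g • I • Λ = I • g • Λ := by
  apply Lat.ext
  show Submodule.map (glEquiv R g).toLinearMap (((I : FractionalIdeal R⁰ K) : Submodule R K) • Λ.M)
    = ((I : FractionalIdeal R⁰ K) : Submodule R K) • Submodule.map (glEquiv R g).toLinearMap Λ.M
  apply le_antisymm
  · rw [Submodule.map_le_iff_le_comap, Submodule.smul_le]
    intro r hr v hv
    have h1 : r • (g • v) ∈ ((I : FractionalIdeal R⁰ K) : Submodule R K) •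
        Submodule.map (glEquiv R g).toLinearMap Λ.M :=
      Submodule.smul_mem_smul hr ⟨v, hv, rfl⟩
    rw [smul_comm] at h1
    exact h1
  · rw [Submodule.smul_le]
    rintro r hr _ ⟨v, hv, rfl⟩
    refine ⟨r • v, Submodule.smul_mem_smul hr hv, ?_⟩
    show g • (r • v) = r • (g • v)
    rw [smul_comm]

instance : SMulCommClass (GL (Fin 2) K) (FractionalIdeal R⁰ K)ˣ (Lat R K) := ⟨gl_ismul_comm⟩

theorem gl_smul_eq (g : GL (Fin 2) K) (v : Fin 2 → K) : g • v = g.1.mulVec v := rfl

theorem gl_smul_zero (g : GL (Fin 2) K) (v : Fin 2 → K) :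
    (g • v) 0 = g.1 0 0 * v 0 + g.1 0 1 * v 1 := by
  rw [gl_smul_eq, Matrix.mulVec, dotProduct, Fin.sum_univ_two]

theorem gl_smul_one (g : GL (Fin 2) K) (v : Fin 2 → K) :
    (g • v) 1 = g.1 1 0 * v 0 + g.1 1 1 * v 1 := by
  rw [gl_smul_eq, Matrix.mulVec, dotProduct, Fin.sum_univ_two]

theorem scalar_smul_vec (c : Kˣ) (v : Fin 2 → K) :
    GeneralLinearGroup.scalar (Fin 2) c • v = (c : K) • v := by
  rw [gl_smul_eq]
  show (Matrix.scalar (Fin 2) (c : K)).mulVec v = _
  rw [Matrix.scalar_apply, ← Matrix.smul_one_eq_diagonal, Matrix.smul_mulVec, Matrix.one_mulVec]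

/-- scalar matrices act as principal ideals -/
theorem scalar_smul (c : Kˣ) (Λ : Lat R K) :
    GeneralLinearGroup.scalar (Fin 2) c • Λ = toPrincipalIdeal R K c • Λ := by
  apply Lat.ext
  rw [ismul_M, coe_toPrincipalIdeal, FractionalIdeal.coe_spanSingleton]
  apply le_antisymm
  · rintro _ ⟨v, hv, rfl⟩
    have h1 : (c : K) • v ∈ Submodule.span R {(c : K)} • Λ.M :=
      Submodule.smul_mem_smul (Submodule.mem_span_singleton_self _) hv
    rw [← scalar_smul_vec] at h1
    exact h1
  · rw [Submodule.smul_le]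
    intro r hr v hv
    obtain ⟨a, rfl⟩ := Submodule.mem_span_singleton.mp hr
    rw [mem_smul, smul_assoc, ← scalar_smul_vec, smul_comm, inv_smul_smul]
    exact Submodule.smul_mem _ _ hv

instance [Countable K] : Countable (Lat R K) := by
  have h1 : Function.Surjective (fun s : {M : Submodule R (Fin 2 → K) // M.FG ∧
      Submodule.span K (M : Set (Fin 2 → K)) = ⊤} => (⟨s.1, s.2.1, s.2.2⟩ : Lat R K)) :=
    fun Λ => ⟨⟨Λ.M, Λ.fg, Λ.span_eq⟩, rfl⟩
  have h2 : Countable {M : Submodule R (Fin 2 → K) // M.FG} := by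
    refine Function.Surjective.countable (f := fun s : Finset (Fin 2 → K) =>
      (⟨Submodule.span R (s : Set (Fin 2 → K)), s, rfl⟩ :
        {M : Submodule R (Fin 2 → K) // M.FG})) ?_
    rintro ⟨M, s, hs⟩
    exact ⟨s, Subtype.ext hs⟩
  have h3 : Countable {M : Submodule R (Fin 2 → K) // M.FG ∧
      Submodule.span K (M : Set (Fin 2 → K)) = ⊤} := by
    refine Function.Injective.countable (f := fun s => (⟨s.1, s.2.1⟩ :
      {M : Submodule R (Fin 2 → K) // M.FG})) ?_
    rintro ⟨M, hM⟩ ⟨M', hM'⟩ h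
    have h4 : M = M' := congrArg (fun s : {M : Submodule R (Fin 2 → K) // M.FG} => s.1) h
    exact Subtype.ext h4
  exact h1.countable

end Lat

/-! ### Classes of lattices -/

variable (R K)

/-- lattices modulo multiplication by fractional ideals -/
def LatC : Type _ := MulAction.orbitRel.Quotient (FractionalIdeal R⁰ K)ˣ (Lat R K)

variable {R K}

namespace LatC

/-- the class of a lattice -/
def mk (Λ : Lat R K) : LatC R K := Quotient.mk _ Λ

theorem mk_surjective : Function.Surjective (mk : Lat R K → LatC R K) := Quotient.mk_surjective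

theorem mk_eq_mk {Λ Λ' : Lat R K} :
    mk Λ = mk Λ' ↔ ∃ I : (FractionalIdeal R⁰ K)ˣ, I • Λ' = Λ := by
  have h : mk Λ = mk Λ' ↔ MulAction.orbitRel (FractionalIdeal R⁰ K)ˣ (Lat R K) Λ Λ' :=
    ⟨fun h => Quotient.exact h, fun h => Quotient.sound h⟩
  exact h.trans (MulAction.orbitRel_apply.trans MulAction.mem_orbit_iff)

@[simp] theorem mk_ismul (I : (FractionalIdeal R⁰ K)ˣ) (Λ : Lat R K) : mk (I • Λ) = mk Λ :=
  mk_eq_mk.mpr ⟨I, rfl⟩

instance [Countable K] : Countable (LatC R K) := mk_surjective.countable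

instance : MulAction (GL (Fin 2) K) (LatC R K) where
  smul g := Quotient.map' (fun Λ => g • Λ) (by
    rintro Λ Λ' ⟨I, hI⟩
    exact ⟨I, by rw [← hI]; exact (Lat.gl_ismul_comm g I Λ').symm⟩)
  one_smul x := by
    obtain ⟨Λ, rfl⟩ := mk_surjective x
    exact congrArg mk (one_smul _ Λ)
  mul_smul g h x := by
    obtain ⟨Λ, rfl⟩ := mk_surjective x
    exact congrArg mk (mul_smul g h Λ)

theorem smul_mk (g : GL (Fin 2) K) (Λ : Lat R K) : g • mk Λ = mk (g • Λ) := rfl

theorem scalar_smul (c : Kˣ) (x : LatC R K) : GeneralLinearGroup.scalar (Fin 2) c • x = x := by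
  obtain ⟨Λ, rfl⟩ := mk_surjective x
  rw [smul_mk, Lat.scalar_smul, mk_ismul]

instance : MulAction (PGL(2, K)) (LatC R K) := ProjGenLinGroup.mulActionOfGL scalar_smul

theorem pgl_smul (g : GL (Fin 2) K) (x : LatC R K) : ProjGenLinGroup.mk g • x = g • x := rfl

end LatC

end Fermat.Agent.H26Z
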