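import Mathlib
import Fermat.Agent.H31Hyp2
import Fermat.Agent.H26ZLat
import Fermat.Agent.H58RLines
import Fermat.Agent.H58RStein
import Fermat.Agent.H58RUnit
import Fermat.Agent.H59Def

/-!
# Reduction theory: covering by a Siegel set (S47, package C7, piece COV)

`K` a totally complex number field, `e : J → K →+* ℂ` one embedding for every infinite place,
`Y` a `PGL₂(K)`-set with an equivariant map with finite fibres to the classes of lattices in `K²`.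
Then there are a finite `Y₀ ⊆ Y` and `c, C, R > 0` such that every point of `(J → ℍ³) × Y` can be
moved by `PGL₂(K)` into `siegel c C R × Y₀`.
-/

set_option autoImplicit false
set_option linter.unusedSectionVars false

noncomputable section

open NumberField Matrix
open scoped nonZeroDivisors MatrixGroups

namespace Fermat.Agent.H2Z

open Fermat.Agent.H26Z Fermat.Agent.H58R

section Mat

variable {K : Type*} [Field K]

/-- `(1 b; 0 1)` -/
def nK (b : K) : GL (Fin 2) K :=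
  GeneralLinearGroup.mkOfDetNeZero !![1, b; 0, 1] (by simp [Matrix.det_fin_two])

/-- `(a 0; 0 1)` -/
def dK (a : Kˣ) : GL (Fin 2) K :=
  GeneralLinearGroup.mkOfDetNeZero !![(a : K), 0; 0, 1] (by simp [Matrix.det_fin_two])

theorem nK_inv (b : K) : (nK b)⁻¹ = nK (-b) := by
  rw [inv_eq_iff_mul_eq_one]
  ext i j
  fin_cases i <;> fin_cases j <;>
    simp [nK, GeneralLinearGroup.mkOfDetNeZero, Matrix.mul_apply, Fin.sum_univ_two]

theorem dK_inv (a : Kˣ) : (dK a)⁻¹ = dK a⁻¹ := by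
  rw [inv_eq_iff_mul_eq_one]
  ext i j
  fin_cases i <;> fin_cases j <;>
    simp [dK, GeneralLinearGroup.mkOfDetNeZero, Matrix.mul_apply, Fin.sum_univ_two]

theorem nK_smul_zero (b : K) (v : Fin 2 → K) : (nK b • v) 0 = v 0 + b * v 1 := by
  rw [Lat.gl_smul_zero]
  simp [nK, GeneralLinearGroup.mkOfDetNeZero]

theorem nK_smul_one (b : K) (v : Fin 2 → K) : (nK b • v) 1 = v 1 := by
  rw [Lat.gl_smul_one]
  simp [nK, GeneralLinearGroup.mkOfDetNeZero]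

theorem dK_smul_zero (a : Kˣ) (v : Fin 2 → K) : (dK a • v) 0 = a * v 0 := by
  rw [Lat.gl_smul_zero]
  simp [dK, GeneralLinearGroup.mkOfDetNeZero]

theorem dK_smul_one (a : Kˣ) (v : Fin 2 → K) : (dK a • v) 1 = v 1 := by
  rw [Lat.gl_smul_one]
  simp [dK, GeneralLinearGroup.mkOfDetNeZero]

theorem map_nK (φ : K →+* ℂ) (b : K) : GeneralLinearGroup.map φ (nK b) = H3.nMat (φ b) := by
  ext i j
  fin_cases i <;> fin_cases j <;>
    simp [nK, H3.nMat, GeneralLinearGroup.mkOfDetNeZero]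

theorem map_dK (φ : K →+* ℂ) (a : Kˣ) : GeneralLinearGroup.map φ (dK a) =
    H3.dMat (φ a) ((map_ne_zero φ).mpr a.ne_zero) := by
  ext i j
  fin_cases i <;> fin_cases j <;>
    simp [dK, H3.dMat, GeneralLinearGroup.mkOfDetNeZero]

theorem nK_act (φ : K →+* ℂ) (b : K) (w : H3) :
    GeneralLinearGroup.map φ (nK b) • w = ⟨w.z + φ b, w.y, w.pos⟩ := by
  rw [map_nK, H3.nMat_smul]

theorem dK_act_z (φ : K →+* ℂ) (a : Kˣ) (w : H3) :
    (GeneralLinearGroup.map φ (dK a) • w).z = φ a * w.z := by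
  rw [map_dK, H3.dMat_smul]

theorem dK_act_y (φ : K →+* ℂ) (a : Kˣ) (w : H3) :
    (GeneralLinearGroup.map φ (dK a) • w).y = ‖φ a‖ * w.y := by
  rw [map_dK, H3.dMat_smul]

/-- a matrix sending `v ≠ 0` to `e₁` -/
theorem exists_toE1 (v : Fin 2 → K) (hv : v ≠ 0) : ∃ g : GL (Fin 2) K,
    g • v = ![1, 0] ∧ (g : Matrix (Fin 2) (Fin 2) K) 1 0 =
      -(v 1) * (g : Matrix (Fin 2) (Fin 2) K).det ∧
      (g : Matrix (Fin 2) (Fin 2) K) 1 1 = v 0 * (g : Matrix (Fin 2) (Fin 2) K).det := by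
  have key : ∀ u : Fin 2 → K, v 0 * u 1 - u 0 * v 1 ≠ 0 → ∃ g : GL (Fin 2) K,
    g • v = ![1, 0] ∧ (g : Matrix (Fin 2) (Fin 2) K) 1 0 =
      -(v 1) * (g : Matrix (Fin 2) (Fin 2) K).det ∧
      (g : Matrix (Fin 2) (Fin 2) K) 1 1 = v 0 * (g : Matrix (Fin 2) (Fin 2) K).det := by
    intro u hu
    set δ := v 0 * u 1 - u 0 * v 1 with hδ
    have hdet : (!![u 1 / δ, -u 0 / δ; -v 1 / δ, v 0 / δ] : Matrix (Fin 2) (Fin 2) K).det =
        δ⁻¹ := by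
      rw [Matrix.det_fin_two]
      simp only [Matrix.of_apply, Matrix.cons_val', Matrix.cons_val_zero, Matrix.cons_val_one,
        Matrix.cons_val_fin_one]
      field_simp
      rw [hδ]
      ring
    refine ⟨GeneralLinearGroup.mkOfDetNeZero !![u 1 / δ, -u 0 / δ; -v 1 / δ, v 0 / δ]
      (by rw [hdet]; exact inv_ne_zero hu), ?_, ?_, ?_⟩
    · ext i
      fin_cases i
      · show (GeneralLinearGroup.mkOfDetNeZero _ _ • v) 0 = _
        rw [Lat.gl_smul_zero]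
        show u 1 / δ * v 0 + -u 0 / δ * v 1 = 1
        have : u 1 / δ * v 0 + -u 0 / δ * v 1 = (v 0 * u 1 - u 0 * v 1) / δ := by ring
        rw [this, ← hδ, div_self hu]
      · show (GeneralLinearGroup.mkOfDetNeZero _ _ • v) 1 = _
        rw [Lat.gl_smul_one]
        show -v 1 / δ * v 0 + v 0 / δ * v 1 = 0
        ring
    · show (!![u 1 / δ, -u 0 / δ; -v 1 / δ, v 0 / δ] : Matrix (Fin 2) (Fin 2) K) 1 0 =
        -(v 1) * (!![u 1 / δ, -u 0 / δ; -v 1 / δ, v 0 / δ] : Matrix (Fin 2) (Fin 2) K).det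
      rw [hdet]
      simp only [Matrix.of_apply, Matrix.cons_val', Matrix.cons_val_zero, Matrix.cons_val_one,
        Matrix.cons_val_fin_one]
      rw [div_eq_mul_inv]
    · show (!![u 1 / δ, -u 0 / δ; -v 1 / δ, v 0 / δ] : Matrix (Fin 2) (Fin 2) K) 1 1 =
        v 0 * (!![u 1 / δ, -u 0 / δ; -v 1 / δ, v 0 / δ] : Matrix (Fin 2) (Fin 2) K).det
      rw [hdet]
      simp only [Matrix.of_apply, Matrix.cons_val', Matrix.cons_val_zero, Matrix.cons_val_one,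
        Matrix.cons_val_fin_one]
      rw [div_eq_mul_inv]
  by_cases h0 : v 0 = 0
  · have h1 : v 1 ≠ 0 := by
      intro h1
      apply hv
      ext i
      fin_cases i
      · exact h0
      · exact h1
    exact key ![1, 0] (by simpa [h0] using h1)
  · exact key ![0, 1] (by simpa using h0)

/-- the height coordinate after moving `v` to `e₁` -/
theorem toE1_y (φ : K →+* ℂ) (g : GL (Fin 2) K) (v : Fin 2 → K)
    (h10 : (g : Matrix (Fin 2) (Fin 2) K) 1 0 = -(v 1) * (g : Matrix (Fin 2) (Fin 2) K).det)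
    (h11 : (g : Matrix (Fin 2) (Fin 2) K) 1 1 = v 0 * (g : Matrix (Fin 2) (Fin 2) K).det)
    (w : H3) : (GeneralLinearGroup.map φ g • w).y * hn w.z w.y (φ (v 0)) (φ (v 1)) =
      ‖φ (g : Matrix (Fin 2) (Fin 2) K).det‖⁻¹ := by
  have hdet : ((GeneralLinearGroup.map φ g : GL (Fin 2) ℂ) : Matrix (Fin 2) (Fin 2) ℂ).det =
      φ (g : Matrix (Fin 2) (Fin 2) K).det := by
    rw [RingHom.map_det]
    rfl
  have hd0 : φ (g : Matrix (Fin 2) (Fin 2) K).det ≠ 0 :=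
    (map_ne_zero φ).mpr g.det.ne_zero
  have hn0 : ‖φ (g : Matrix (Fin 2) (Fin 2) K).det‖ ≠ 0 := norm_ne_zero_iff.mpr hd0
  have hden : H3.den (GeneralLinearGroup.map φ g : GL (Fin 2) ℂ) w =
      ‖φ (g : Matrix (Fin 2) (Fin 2) K).det‖ ^ 2 *
        (‖φ (v 0) - w.z * φ (v 1)‖ ^ 2 + w.y ^ 2 * ‖φ (v 1)‖ ^ 2) := by
    rw [H3.den]
    have e1 : ((GeneralLinearGroup.map φ g : GL (Fin 2) ℂ) : Matrix (Fin 2) (Fin 2) ℂ) 1 0 =
        -(φ (v 1)) * φ (g : Matrix (Fin 2) (Fin 2) K).det := by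
      show φ ((g : Matrix (Fin 2) (Fin 2) K) 1 0) = _
      rw [h10, map_mul, map_neg]
    have e2 : ((GeneralLinearGroup.map φ g : GL (Fin 2) ℂ) : Matrix (Fin 2) (Fin 2) ℂ) 1 1 =
        φ (v 0) * φ (g : Matrix (Fin 2) (Fin 2) K).det := by
      show φ ((g : Matrix (Fin 2) (Fin 2) K) 1 1) = _
      rw [h11, map_mul]
    rw [e1, e2]
    have e3 : -(φ (v 1)) * φ (g : Matrix (Fin 2) (Fin 2) K).det * w.z +
        φ (v 0) * φ (g : Matrix (Fin 2) (Fin 2) K).det =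
        φ (g : Matrix (Fin 2) (Fin 2) K).det * (φ (v 0) - w.z * φ (v 1)) := by ring
    rw [e3, Complex.normSq_eq_norm_sq, Complex.normSq_eq_norm_sq, norm_mul, norm_mul, norm_neg]
    ring
  have hpos := H3.den_pos (g := ((GeneralLinearGroup.map φ g : GL (Fin 2) ℂ) :
    Matrix (Fin 2) (Fin 2) ℂ)) (GeneralLinearGroup.map φ g).det.ne_zero w
  rw [H3.smul_y, hdet, hn]
  rw [hden] at hpos ⊢
  have hy := w.pos.ne'
  have hX : (‖φ (v 0) - w.z * φ (v 1)‖ ^ 2 + w.y ^ 2 * ‖φ (v 1)‖ ^ 2) ≠ 0 := by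
    intro h
    rw [h, mul_zero] at hpos
    exact lt_irrefl _ hpos
  field_simp

end Mat

section Lattices

variable {K : Type*} [Field K] [NumberField K]

theorem fi_zero_mem (I : FractionalIdeal (𝓞 K)⁰ K) : (0 : K) ∈ I :=
  (Submodule.zero_mem (I : Submodule (𝓞 K) K) : (0 : K) ∈ (I : Submodule (𝓞 K) K))

/-- `Λ = I ⊕ I'` -/
def IsSum (Λ : Lat (𝓞 K) K) (I I' : FractionalIdeal (𝓞 K)⁰ K) : Prop :=
  ∀ v : Fin 2 → K, v ∈ Λ.M ↔ v 0 ∈ I ∧ v 1 ∈ I'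

theorem IsSum.ismul {Λ : Lat (𝓞 K) K} {A B : FractionalIdeal (𝓞 K)⁰ K} (h : IsSum Λ A B)
    (J : (FractionalIdeal (𝓞 K)⁰ K)ˣ) : IsSum (J • Λ) (J * A) (J * B) := by
  intro v
  rw [Lat.ismul_M]
  constructor
  · intro hv
    refine Submodule.smul_induction_on hv ?_ ?_
    · intro r hr w hw
      have hw' := (h w).1 hw
      exact ⟨FractionalIdeal.mul_mem_mul hr hw'.1, FractionalIdeal.mul_mem_mul hr hw'.2⟩
    · intro x y hx hy
      exact ⟨Submodule.add_mem _ hx.1 hy.1, Submodule.add_mem _ hx.2 hy.2⟩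
  · rintro ⟨h0, h1⟩
    have e0 : ∀ x : K, x ∈ ((J : FractionalIdeal (𝓞 K)⁰ K) * A) →
        (![x, 0] : Fin 2 → K) ∈ ((J : FractionalIdeal (𝓞 K)⁰ K) : Submodule (𝓞 K) K) • Λ.M := by
      intro x hx
      refine FractionalIdeal.mul_induction_on hx ?_ ?_
      · intro i hi a ha
        have : (![i * a, 0] : Fin 2 → K) = i • (![a, 0] : Fin 2 → K) := by
          ext k; fin_cases k <;> simp
        rw [this]
        exact Submodule.smul_mem_smul hi ((h _).2 ⟨by simpa using ha, fi_zero_mem B⟩)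
      · intro x y hx hy
        have : (![x + y, 0] : Fin 2 → K) = ![x, 0] + ![y, 0] := by
          ext k; fin_cases k <;> simp
        rw [this]
        exact Submodule.add_mem _ hx hy
    have e1 : ∀ x : K, x ∈ ((J : FractionalIdeal (𝓞 K)⁰ K) * B) →
        (![0, x] : Fin 2 → K) ∈ ((J : FractionalIdeal (𝓞 K)⁰ K) : Submodule (𝓞 K) K) • Λ.M := by
      intro x hx
      refine FractionalIdeal.mul_induction_on hx ?_ ?_
      · intro i hi a ha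
        have : (![0, i * a] : Fin 2 → K) = i • (![0, a] : Fin 2 → K) := by
          ext k; fin_cases k <;> simp
        rw [this]
        exact Submodule.smul_mem_smul hi ((h _).2
          ⟨fi_zero_mem A, by simpa using ha⟩)
      · intro x y hx hy
        have : (![0, x + y] : Fin 2 → K) = ![0, x] + ![0, y] := by
          ext k; fin_cases k <;> simp
        rw [this]
        exact Submodule.add_mem _ hx hy
    have hv : v = ![v 0, 0] + ![0, v 1] := by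
      ext k; fin_cases k <;> simp
    rw [hv]
    exact Submodule.add_mem _ (e0 _ h0) (e1 _ h1)

/-- the standard lattices `I ⊕ 𝓞`, `I ∈ S` -/
def IsStd (S : Finset (FractionalIdeal (𝓞 K)⁰ K)ˣ) (Λ : Lat (𝓞 K) K) : Prop :=
  ∃ I ∈ S, IsSum Λ (I : FractionalIdeal (𝓞 K)⁰ K) 1

theorem finite_isStd (S : Finset (FractionalIdeal (𝓞 K)⁰ K)ˣ) :
    {Λ : Lat (𝓞 K) K | IsStd S Λ}.Finite := by
  classical
  choose f hf hf' using fun Λ : {Λ : Lat (𝓞 K) K // IsStd S Λ} => Λ.2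
  have hinj : Function.Injective fun Λ : {Λ : Lat (𝓞 K) K // IsStd S Λ} =>
      (⟨f Λ, hf Λ⟩ : {I // I ∈ S}) := by
    intro Λ Λ' h
    have h' : f Λ = f Λ' := congrArg Subtype.val h
    apply Subtype.ext
    apply Lat.ext_mem
    intro v
    rw [hf' Λ v, hf' Λ' v, h']
  exact Set.finite_coe_iff.mp (Finite.of_injective _ hinj)

/-- the property of a finite set of representatives of the ideal classes -/
def IsReps (S : Finset (FractionalIdeal (𝓞 K)⁰ K)ˣ) : Prop :=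
  ∀ I : (FractionalIdeal (𝓞 K)⁰ K)ˣ, ∃ J ∈ S, ∃ c : Kˣ,
      ∀ x : K, x ∈ (J : FractionalIdeal (𝓞 K)⁰ K) ↔ (c : K) * x ∈ (I : FractionalIdeal (𝓞 K)⁰ K)

theorem mem_dK_smul {a : Kˣ} {Λ : Lat (𝓞 K) K} {I I' : FractionalIdeal (𝓞 K)⁰ K}
    (h : IsSum Λ I I') (v : Fin 2 → K) :
    v ∈ (dK a • Λ).M ↔ (a⁻¹ : Kˣ) * v 0 ∈ I ∧ v 1 ∈ I' := by
  rw [Lat.mem_smul, dK_inv, h, dK_smul_zero, dK_smul_one]

theorem mem_nK_smul {b : K} {Λ : Lat (𝓞 K) K} (v : Fin 2 → K) :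
    v ∈ (nK b • Λ).M ↔ (![v 0 - b * v 1, v 1] : Fin 2 → K) ∈ Λ.M := by
  rw [Lat.mem_smul, nK_inv]
  have : nK (-b) • v = ![v 0 - b * v 1, v 1] := by
    ext k
    fin_cases k
    · show (nK (-b) • v) 0 = _
      rw [nK_smul_zero]
      simp
      ring
    · show (nK (-b) • v) 1 = _
      rw [nK_smul_one]
      simp
  rw [this]

/-- bringing a lattice to standard form -/
theorem exists_std {S : Finset (FractionalIdeal (𝓞 K)⁰ K)ˣ} (hS : IsReps S)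
    (Λ : Lat (𝓞 K) K) : ∃ (β : K) (c : Kˣ) (I I' I₀ : (FractionalIdeal (𝓞 K)⁰ K)ˣ), I₀ ∈ S ∧
      (∀ v : Fin 2 → K, v ∈ Λ.M ↔ v 0 - β * v 1 ∈ (I : FractionalIdeal (𝓞 K)⁰ K) ∧
        v 1 ∈ (I' : FractionalIdeal (𝓞 K)⁰ K)) ∧
      (∀ x : K, x ∈ (I₀ : FractionalIdeal (𝓞 K)⁰ K) ↔
        (c : K) * x ∈ ((I'⁻¹ * I : (FractionalIdeal (𝓞 K)⁰ K)ˣ) : FractionalIdeal (𝓞 K)⁰ K)) ∧
      IsSum (dK c⁻¹ • I'⁻¹ • nK (-β) • Λ) (I₀ : FractionalIdeal (𝓞 K)⁰ K) 1 := by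
  obtain ⟨β, I, I', h⟩ := exists_split Λ.M Λ.fg Λ.span_eq
  obtain ⟨I₀, hI₀, c, hc⟩ := hS (I'⁻¹ * I)
  refine ⟨β, c, I, I', I₀, hI₀, h, hc, ?_⟩
  have h1 : IsSum (nK (-β) • Λ) (I : FractionalIdeal (𝓞 K)⁰ K) I' := by
    intro v
    rw [mem_nK_smul, h]
    simp
  have h2 := h1.ismul I'⁻¹
  rw [← Units.val_mul, ← Units.val_mul, inv_mul_cancel, Units.val_one] at h2
  intro v
  rw [mem_dK_smul h2, inv_inv, hc]

theorem det_smul_eq (g : GL (Fin 2) K) (u w : Fin 2 → K) :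
    (g • u) 0 * (g • w) 1 - (g • w) 0 * (g • u) 1 =
      (g : Matrix (Fin 2) (Fin 2) K).det * (u 0 * w 1 - w 0 * u 1) := by
  rw [Lat.gl_smul_zero, Lat.gl_smul_zero, Lat.gl_smul_one, Lat.gl_smul_one, Matrix.det_fin_two]
  ring

/-- **Norm bound** for the passage between standard lattices. -/
theorem norm_bound {Λ : Lat (𝓞 K) K} {I₀ : (FractionalIdeal (𝓞 K)⁰ K)ˣ}
    (h₀ : IsSum Λ (I₀ : FractionalIdeal (𝓞 K)⁰ K) 1) (g : GL (Fin 2) K) {β : K} {c : Kˣ}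
    {I I' I₁ : (FractionalIdeal (𝓞 K)⁰ K)ˣ}
    (hsp : ∀ v : Fin 2 → K, v ∈ (g • Λ).M ↔ v 0 - β * v 1 ∈ (I : FractionalIdeal (𝓞 K)⁰ K) ∧
        v 1 ∈ (I' : FractionalIdeal (𝓞 K)⁰ K))
    (hc : ∀ x : K, x ∈ (I₁ : FractionalIdeal (𝓞 K)⁰ K) ↔
        (c : K) * x ∈ ((I'⁻¹ * I : (FractionalIdeal (𝓞 K)⁰ K)ˣ) : FractionalIdeal (𝓞 K)⁰ K))
    (he1 : (![1, 0] : Fin 2 → K) ∈ (g • Λ).M) :
    |Algebra.norm ℚ (c : K)| * |Algebra.norm ℚ (g : Matrix (Fin 2) (Fin 2) K).det| *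
      (FractionalIdeal.absNorm (I₀ : FractionalIdeal (𝓞 K)⁰ K) *
        FractionalIdeal.absNorm (I₁ : FractionalIdeal (𝓞 K)⁰ K)) ≤ 1 := by
  set δ : K := (g : Matrix (Fin 2) (Fin 2) K).det with hδ
  have hδ0 : δ ≠ 0 := g.det.ne_zero
  have h1I : (1 : K) ∈ (I : FractionalIdeal (𝓞 K)⁰ K) := by
    have := ((hsp _).1 he1).1
    simpa using this
  have h1 : (I : FractionalIdeal (𝓞 K)⁰ K) * I' ≤
      FractionalIdeal.spanSingleton (𝓞 K)⁰ δ * I₀ := by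
    rw [FractionalIdeal.mul_le]
    intro a ha b hb
    have hu : (![a, 0] : Fin 2 → K) ∈ (g • Λ).M := by
      rw [hsp]
      exact ⟨by simpa using ha, by simpa using fi_zero_mem (I' : FractionalIdeal (𝓞 K)⁰ K)⟩
    have hw : (![β * b, b] : Fin 2 → K) ∈ (g • Λ).M := by
      rw [hsp]
      exact ⟨by simpa using fi_zero_mem (I : FractionalIdeal (𝓞 K)⁰ K), by simpa using hb⟩
    rw [Lat.mem_smul, h₀] at hu hw
    have h2 := det_smul_eq g (g⁻¹ • ![a, 0]) (g⁻¹ • ![β * b, b])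
    rw [smul_inv_smul, smul_inv_smul] at h2
    have h3 : a * b = δ * ((g⁻¹ • (![a, 0] : Fin 2 → K)) 0 * (g⁻¹ • (![β * b, b] : Fin 2 → K)) 1 -
        (g⁻¹ • (![β * b, b] : Fin 2 → K)) 0 * (g⁻¹ • (![a, 0] : Fin 2 → K)) 1) := by
      rw [← h2]
      simp
    rw [FractionalIdeal.mem_singleton_mul]
    refine ⟨_, ?_, h3⟩
    have key : ∀ x y : K, x ∈ (I₀ : FractionalIdeal (𝓞 K)⁰ K) →
        y ∈ (1 : FractionalIdeal (𝓞 K)⁰ K) → x * y ∈ (I₀ : FractionalIdeal (𝓞 K)⁰ K) := by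
      intro x y hx hy
      have := FractionalIdeal.mul_mem_mul hx hy
      rwa [mul_one] at this
    exact Submodule.sub_mem _ (key _ _ hu.1 hw.2) (key _ _ hw.1 hu.2)
  have h2 : ((I'⁻¹ * I : (FractionalIdeal (𝓞 K)⁰ K)ˣ) : FractionalIdeal (𝓞 K)⁰ K) ≤
      FractionalIdeal.spanSingleton (𝓞 K)⁰ (c : K) * I₁ := by
    intro y hy
    have hy' : y = (c : K) * ((c : K)⁻¹ * y) := by
      rw [← mul_assoc, mul_inv_cancel₀ c.ne_zero, one_mul]
    have h3 : (c : K)⁻¹ * y ∈ (I₁ : FractionalIdeal (𝓞 K)⁰ K) := by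
      rw [hc, ← hy']
      exact hy
    exact FractionalIdeal.mem_singleton_mul.mpr ⟨_, h3, hy'⟩
  have h3 : (I : FractionalIdeal (𝓞 K)⁰ K) * I ≤
      (FractionalIdeal.spanSingleton (𝓞 K)⁰ δ * I₀) *
        (FractionalIdeal.spanSingleton (𝓞 K)⁰ (c : K) * I₁) := by
    have e1 : (I : FractionalIdeal (𝓞 K)⁰ K) * I = (I * I') *
        ((I'⁻¹ * I : (FractionalIdeal (𝓞 K)⁰ K)ˣ) : FractionalIdeal (𝓞 K)⁰ K) := by
      have : I * I = (I * I') * (I'⁻¹ * I) := by group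
      rw [← Units.val_mul, ← Units.val_mul, ← Units.val_mul, this]
    rw [e1]
    exact mul_le_mul' h1 h2
  have hII : (I : FractionalIdeal (𝓞 K)⁰ K) * I ≠ 0 := mul_ne_zero I.ne_zero I.ne_zero
  have h4 := absNorm_le_of_le hII h3
  have h5 : FractionalIdeal.absNorm (I : FractionalIdeal (𝓞 K)⁰ K) ≤ 1 := by
    have := absNorm_le_of_le (one_ne_zero : (1 : FractionalIdeal (𝓞 K)⁰ K) ≠ 0)
      (FractionalIdeal.one_le.mpr h1I)
    rwa [FractionalIdeal.absNorm_one] at this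
  have h6 : FractionalIdeal.absNorm ((I : FractionalIdeal (𝓞 K)⁰ K) *
      (I : FractionalIdeal (𝓞 K)⁰ K)) ≤ 1 := by
    rw [map_mul]
    exact mul_le_one₀ h5 (FractionalIdeal.absNorm_nonneg _) h5
  rw [map_mul, map_mul, map_mul, FractionalIdeal.absNorm_span_singleton,
    FractionalIdeal.absNorm_span_singleton] at h4
  calc _ = |Algebra.norm ℚ δ| * FractionalIdeal.absNorm (I₀ : FractionalIdeal (𝓞 K)⁰ K) *
      (|Algebra.norm ℚ (c : K)| * FractionalIdeal.absNorm (I₁ : FractionalIdeal (𝓞 K)⁰ K)) := by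
        ring
    _ ≤ _ := h4.trans h6

end Lattices

section Cover

variable {K : Type*} [Field K] [NumberField K] [IsTotallyComplex K]
variable {J : Type*} [Fintype J] (e : J → K →+* ℂ)

/-- the action of `GL₂(K)` on `J → ℍ³` -/
def actI (g : GL (Fin 2) K) (x : J → H3) : J → H3 := fun j => GeneralLinearGroup.map (e j) g • x j

theorem actI_mul (g h : GL (Fin 2) K) (x : J → H3) : actI e (g * h) x = actI e g (actI e h x) := by
  funext j
  simp only [actI]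
  rw [map_mul, mul_smul]

theorem actI_one (x : J → H3) : actI e (1 : GL (Fin 2) K) x = x := by
  funext j
  simp only [actI]
  rw [map_one, one_smul]

/-- the Siegel set at infinity -/
def siegel (c C R : ℝ) : Set (J → H3) :=
  {x | (∀ j, c ≤ (x j).y) ∧ (∀ j k, (x j).y ≤ C * (x k).y) ∧ ∀ j, ‖(x j).z‖ ≤ R}

variable (he : Function.Bijective fun j => InfinitePlace.mk (e j))

include he in
/-- **Large height**: every point can be moved to a standard lattice with `∏ y_j²` bounded below. -/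
theorem exists_high (S : Finset (FractionalIdeal (𝓞 K)⁰ K)ˣ) (hS : IsReps S) :
    ∃ c₀ : ℝ, 0 < c₀ ∧ ∀ (x : J → H3) (Λ : Lat (𝓞 K) K), ∃ (g : GL (Fin 2) K) (Λ' : Lat (𝓞 K) K),
      IsStd S Λ' ∧ LatC.mk Λ' = LatC.mk (g • Λ) ∧ c₀ ≤ ∏ j, (actI e g x j).y ^ 2 := by
  classical
  choose R hR hR' using fun I : (FractionalIdeal (𝓞 K)⁰ K)ˣ => exists_short_hn K e he I 1
  obtain ⟨R₀, hR₀, hRS⟩ : ∃ R₀ : ℝ, 0 < R₀ ∧ ∀ I ∈ S, R I ≤ R₀ := by
    refine ⟨1 + ∑ I ∈ S, R I, ?_, fun I hI => ?_⟩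
    · have : 0 ≤ ∑ I ∈ S, R I := Finset.sum_nonneg fun I _ => (hR I).le
      linarith
    · have := Finset.single_le_sum (f := R) (fun I _ => (hR I).le) hI
      linarith
  obtain ⟨m₀, hm₀, hmS⟩ : ∃ m₀ : ℝ, 0 < m₀ ∧ ∀ I ∈ S,
      m₀ ≤ (FractionalIdeal.absNorm (I : FractionalIdeal (𝓞 K)⁰ K) : ℝ) := by
    have hpos : ∀ I : (FractionalIdeal (𝓞 K)⁰ K)ˣ,
        0 < (FractionalIdeal.absNorm (I : FractionalIdeal (𝓞 K)⁰ K) : ℝ) := by
      intro I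
      have h1 : FractionalIdeal.absNorm (I : FractionalIdeal (𝓞 K)⁰ K) ≠ 0 := by
        rw [ne_eq, FractionalIdeal.absNorm_eq_zero_iff]
        exact I.ne_zero
      have h2 := FractionalIdeal.absNorm_nonneg (I : FractionalIdeal (𝓞 K)⁰ K)
      exact_mod_cast lt_of_le_of_ne h2 h1.symm
    refine ⟨(1 + ∑ I ∈ S, (FractionalIdeal.absNorm (I : FractionalIdeal (𝓞 K)⁰ K) : ℝ)⁻¹)⁻¹, ?_,
      fun I hI => ?_⟩
    · have : 0 ≤ ∑ I ∈ S, (FractionalIdeal.absNorm (I : FractionalIdeal (𝓞 K)⁰ K) : ℝ)⁻¹ :=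
        Finset.sum_nonneg fun I _ => (inv_pos.mpr (hpos I)).le
      positivity
    · have h1 := Finset.single_le_sum
        (f := fun I : (FractionalIdeal (𝓞 K)⁰ K)ˣ =>
          (FractionalIdeal.absNorm (I : FractionalIdeal (𝓞 K)⁰ K) : ℝ)⁻¹)
        (fun I _ => (inv_pos.mpr (hpos I)).le) hI
      rw [inv_le_comm₀ (by have := inv_pos.mpr (hpos I); linarith) (hpos I)]
      linarith
  refine ⟨m₀ ^ 2 / R₀ ^ (2 * Fintype.card J), by positivity, fun x Λ => ?_⟩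
  -- first standard form
  obtain ⟨β₁, c₁, A, A', I₀, hI₀, -, -, hstd⟩ := exists_std hS Λ
  set g₁ : GL (Fin 2) K := dK c₁⁻¹ * nK (-β₁) with hg₁
  set Λ₂ : Lat (𝓞 K) K := dK c₁⁻¹ • A'⁻¹ • nK (-β₁) • Λ with hΛ₂
  have hcl₂ : LatC.mk Λ₂ = LatC.mk (g₁ • Λ) := by
    rw [hΛ₂, Lat.gl_ismul_comm, LatC.mk_ismul, hg₁, mul_smul]
  set x₂ := actI e g₁ x with hx₂
  -- Minkowski
  obtain ⟨v, hv, hv0, hv1, hvR⟩ := hR' I₀ (fun j => (x₂ j).z) (fun j => (x₂ j).y)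
    (fun j => (x₂ j).pos)
  obtain ⟨g₂, hg₂v, h10, h11⟩ := exists_toE1 v hv
  have hvΛ : v ∈ Λ₂.M := by
    rw [hstd]
    exact ⟨hv0, by simpa using hv1⟩
  have he1 : (![1, 0] : Fin 2 → K) ∈ (g₂ • Λ₂).M := by
    rw [← hg₂v]
    exact Lat.smul_mem_smul.mpr hvΛ
  -- second standard form
  obtain ⟨β, c, I, I', I₁, hI₁, hsp, hc, hstd'⟩ := exists_std hS (g₂ • Λ₂)
  have hN := norm_bound hstd g₂ hsp hc he1
  set g₃ : GL (Fin 2) K := dK c⁻¹ * nK (-β) with hg₃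
  refine ⟨g₃ * g₂ * g₁, dK c⁻¹ • I'⁻¹ • nK (-β) • g₂ • Λ₂, ⟨I₁, hI₁, hstd'⟩, ?_, ?_⟩
  · have q1 : (g₃ * g₂ * g₁) • Λ = g₃ • g₂ • g₁ • Λ := by rw [mul_smul, mul_smul]
    have q2 : dK c⁻¹ • nK (-β) • g₂ • Λ₂ = g₃ • g₂ • Λ₂ := (mul_smul _ _ _).symm
    rw [Lat.gl_ismul_comm, LatC.mk_ismul, q1, q2,
      ← LatC.smul_mk g₃, ← LatC.smul_mk g₂, hcl₂, LatC.smul_mk, LatC.smul_mk]
  · have hy : ∀ j, (actI e (g₃ * g₂ * g₁) x j).y ^ 2 = (‖e j (c : K)‖ ^ 2)⁻¹ *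
        ((‖e j (g₂ : Matrix (Fin 2) (Fin 2) K).det‖ ^ 2)⁻¹ *
          (hn (x₂ j).z (x₂ j).y (e j (v 0)) (e j (v 1)) ^ 2)⁻¹) := by
      intro j
      have e1 : actI e (g₃ * g₂ * g₁) x j = GeneralLinearGroup.map (e j) (dK c⁻¹) •
          (GeneralLinearGroup.map (e j) (nK (-β)) •
            (GeneralLinearGroup.map (e j) g₂ • x₂ j)) := by
        rw [mul_assoc, actI_mul, hg₃, actI_mul, actI_mul]
        rfl
      have e2 := toE1_y (e j) g₂ v h10 h11 (x₂ j)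
      have e3 : hn (x₂ j).z (x₂ j).y (e j (v 0)) (e j (v 1)) ≠ 0 := by
        intro h0
        rw [h0, mul_zero] at e2
        have : ‖e j (g₂ : Matrix (Fin 2) (Fin 2) K).det‖⁻¹ ≠ 0 :=
          inv_ne_zero (norm_ne_zero_iff.mpr ((map_ne_zero (e j)).mpr g₂.det.ne_zero))
        exact this e2.symm
      have e4 : (GeneralLinearGroup.map (e j) g₂ • x₂ j).y =
          ‖e j (g₂ : Matrix (Fin 2) (Fin 2) K).det‖⁻¹ *
            (hn (x₂ j).z (x₂ j).y (e j (v 0)) (e j (v 1)))⁻¹ := by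
        rw [eq_mul_inv_iff_mul_eq₀ e3, e2]
      rw [e1, dK_act_y, nK_act, e4]
      have e5 : ‖e j ((c⁻¹ : Kˣ) : K)‖ = ‖e j (c : K)‖⁻¹ := by
        rw [Units.val_inv_eq_inv_val, map_inv₀, norm_inv]
      rw [e5]
      ring
    have hprod : ∏ j, (actI e (g₃ * g₂ * g₁) x j).y ^ 2 =
        (|(Algebra.norm ℚ (c : K) : ℝ)| *
          |(Algebra.norm ℚ (g₂ : Matrix (Fin 2) (Fin 2) K).det : ℝ)|)⁻¹ *
          (∏ j, hn (x₂ j).z (x₂ j).y (e j (v 0)) (e j (v 1)) ^ 2)⁻¹ := by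
      rw [Finset.prod_congr rfl fun j _ => hy j, Finset.prod_mul_distrib, Finset.prod_mul_distrib,
        Finset.prod_inv_distrib, Finset.prod_inv_distrib, Finset.prod_inv_distrib,
        abs_norm_eq_prod_sq K e he, abs_norm_eq_prod_sq K e he, mul_inv, mul_assoc]
    rw [hprod]
    have hA : m₀ ^ 2 ≤ (|(Algebra.norm ℚ (c : K) : ℝ)| *
          |(Algebra.norm ℚ (g₂ : Matrix (Fin 2) (Fin 2) K).det : ℝ)|)⁻¹ := by
      have hNR : |(Algebra.norm ℚ (c : K) : ℝ)| *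
          |(Algebra.norm ℚ (g₂ : Matrix (Fin 2) (Fin 2) K).det : ℝ)| *
          ((FractionalIdeal.absNorm (I₀ : FractionalIdeal (𝓞 K)⁰ K) : ℝ) *
            (FractionalIdeal.absNorm (I₁ : FractionalIdeal (𝓞 K)⁰ K) : ℝ)) ≤ 1 := by
        exact_mod_cast hN
      have hpos : 0 < |(Algebra.norm ℚ (c : K) : ℝ)| *
          |(Algebra.norm ℚ (g₂ : Matrix (Fin 2) (Fin 2) K).det : ℝ)| := by
        have n1 : Algebra.norm ℚ (c : K) ≠ 0 := Algebra.norm_ne_zero_iff.mpr c.ne_zero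
        have n2 : Algebra.norm ℚ (g₂ : Matrix (Fin 2) (Fin 2) K).det ≠ 0 :=
          Algebra.norm_ne_zero_iff.mpr g₂.det.ne_zero
        have n1' : (Algebra.norm ℚ (c : K) : ℝ) ≠ 0 := by exact_mod_cast n1
        have n2' : (Algebra.norm ℚ (g₂ : Matrix (Fin 2) (Fin 2) K).det : ℝ) ≠ 0 := by
          exact_mod_cast n2
        exact mul_pos (abs_pos.mpr n1') (abs_pos.mpr n2')
      rw [le_inv_comm₀ (by positivity) hpos]
      have h7 : m₀ ^ 2 ≤ (FractionalIdeal.absNorm (I₀ : FractionalIdeal (𝓞 K)⁰ K) : ℝ) *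
            (FractionalIdeal.absNorm (I₁ : FractionalIdeal (𝓞 K)⁰ K) : ℝ) := by
        rw [sq]
        exact mul_le_mul (hmS _ hI₀) (hmS _ hI₁) hm₀.le (hm₀.le.trans (hmS _ hI₀))
      rw [← one_div, le_div_iff₀ (by positivity)]
      exact (mul_le_mul_of_nonneg_left h7 hpos.le).trans hNR
    have hB : (R₀ ^ (2 * Fintype.card J))⁻¹ ≤
        (∏ j, hn (x₂ j).z (x₂ j).y (e j (v 0)) (e j (v 1)) ^ 2)⁻¹ := by
      have hnpos : ∀ j, 0 < hn (x₂ j).z (x₂ j).y (e j (v 0)) (e j (v 1)) := by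
        intro j
        have e2 := toE1_y (e j) g₂ v h10 h11 (x₂ j)
        refine lt_of_le_of_ne (hn_nonneg (x₂ j).pos _ _) fun h0 => ?_
        rw [← h0, mul_zero] at e2
        have : ‖e j (g₂ : Matrix (Fin 2) (Fin 2) K).det‖⁻¹ ≠ 0 :=
          inv_ne_zero (norm_ne_zero_iff.mpr ((map_ne_zero (e j)).mpr g₂.det.ne_zero))
        exact this e2.symm
      refine inv_anti₀ (Finset.prod_pos fun j _ => pow_pos (hnpos j) 2) ?_
      calc ∏ j, hn (x₂ j).z (x₂ j).y (e j (v 0)) (e j (v 1)) ^ 2 ≤ ∏ _j : J, R₀ ^ 2 :=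
            Finset.prod_le_prod (fun j _ => (pow_pos (hnpos j) 2).le) fun j _ =>
              pow_le_pow_left₀ (hnpos j).le ((hvR j).trans (hRS _ hI₀)) 2
        _ = R₀ ^ (2 * Fintype.card J) := by
            rw [Finset.prod_const, Finset.card_univ, ← pow_mul]
    rw [div_eq_mul_inv]
    exact mul_le_mul hA hB (by positivity) ((sq_nonneg _).trans hA)

/-- units as elements of `Kˣ` -/
theorem mem_unit_mul {I : FractionalIdeal (𝓞 K)⁰ K} (u : (𝓞 K)ˣ) (x : K) :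
    (u : K) * x ∈ I ↔ x ∈ I := by
  constructor
  · intro h
    have h1 : ((u⁻¹ : (𝓞 K)ˣ) : 𝓞 K) • ((u : K) * x) ∈ I :=
      (I : Submodule (𝓞 K) K).smul_mem _ h
    have h2 : ((u⁻¹ : (𝓞 K)ˣ) : 𝓞 K) • ((u : K) * x) = x := by
      rw [Algebra.smul_def, ← mul_assoc]
      have : algebraMap (𝓞 K) K ((u⁻¹ : (𝓞 K)ˣ) : 𝓞 K) * (u : K) = 1 := by
        have h3 : algebraMap (𝓞 K) K ((u⁻¹ : (𝓞 K)ˣ) : 𝓞 K) * algebraMap (𝓞 K) K (u : 𝓞 K) = 1 := by
          rw [← map_mul, ← Units.val_mul, inv_mul_cancel, Units.val_one, map_one]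
        exact h3
      rw [this, one_mul]
    rwa [h2] at h1
  · intro h
    exact (I : Submodule (𝓞 K) K).smul_mem (u : 𝓞 K) h

/-- a unit of `𝓞` as a unit of `K` -/
def uK (u : (𝓞 K)ˣ) : Kˣ := Units.map (algebraMap (𝓞 K) K).toMonoidHom u

theorem coe_uK (u : (𝓞 K)ˣ) : ((uK u : Kˣ) : K) = (u : K) := rfl

theorem dK_unit_smul {I : (FractionalIdeal (𝓞 K)⁰ K)ˣ} {Λ : Lat (𝓞 K) K}
    (h : IsSum Λ (I : FractionalIdeal (𝓞 K)⁰ K) 1) (u : (𝓞 K)ˣ) :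
    IsSum (dK (uK u) • Λ) (I : FractionalIdeal (𝓞 K)⁰ K) 1 := by
  intro v
  rw [mem_dK_smul h]
  have h1 : ((uK u)⁻¹ : Kˣ) = uK u⁻¹ := (map_inv _ _).symm
  rw [h1, coe_uK, mem_unit_mul]

theorem nK_mem_smul {I : (FractionalIdeal (𝓞 K)⁰ K)ˣ} {Λ : Lat (𝓞 K) K}
    (h : IsSum Λ (I : FractionalIdeal (𝓞 K)⁰ K) 1) {b : K}
    (hb : b ∈ (I : FractionalIdeal (𝓞 K)⁰ K)) :
    IsSum (nK b • Λ) (I : FractionalIdeal (𝓞 K)⁰ K) 1 := by
  intro v
  rw [mem_nK_smul, h]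
  simp only [Matrix.cons_val_zero, Matrix.cons_val_one]
  refine and_congr_left fun hv => ?_
  have h1 : b * v 1 ∈ (I : FractionalIdeal (𝓞 K)⁰ K) := by
    have := FractionalIdeal.mul_mem_mul hb hv
    rwa [mul_one] at this
  constructor
  · intro h2
    have := (I : FractionalIdeal (𝓞 K)⁰ K).coeToSubmodule.add_mem h2 h1
    rwa [sub_add_cancel] at this
  · intro h2
    exact (I : FractionalIdeal (𝓞 K)⁰ K).coeToSubmodule.sub_mem h2 h1

include he in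
theorem nonempty_J : Nonempty J := by
  obtain ⟨w⟩ : Nonempty (InfinitePlace K) := inferInstance
  obtain ⟨j, -⟩ := he.2 w
  exact ⟨j⟩

include he in
/-- **Siegel set for lattices.** -/
theorem exists_siegel (S : Finset (FractionalIdeal (𝓞 K)⁰ K)ˣ) (hS : IsReps S) :
    ∃ c C R : ℝ, 0 < c ∧ 0 < C ∧ 0 < R ∧ ∀ (x : J → H3) (Λ : Lat (𝓞 K) K),
      ∃ (g : GL (Fin 2) K) (Λ' : Lat (𝓞 K) K), IsStd S Λ' ∧ LatC.mk Λ' = LatC.mk (g • Λ) ∧
        actI e g x ∈ siegel c C R := by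
  classical
  obtain ⟨c₀, hc₀, H⟩ := exists_high e he S hS
  obtain ⟨C, hC, HU⟩ := exists_unit_balanced' K e he ⊤ top_ne_bot
  choose B hB HB using fun I : (FractionalIdeal (𝓞 K)⁰ K)ˣ => exists_translate K e he I
  obtain ⟨B₀, hB₀, hBS⟩ : ∃ B₀ : ℝ, 0 < B₀ ∧ ∀ I ∈ S, B I ≤ B₀ := by
    refine ⟨1 + ∑ I ∈ S, B I, ?_, fun I hI => ?_⟩
    · have : 0 ≤ ∑ I ∈ S, B I := Finset.sum_nonneg fun I _ => hB I
      linarith
    · have := Finset.single_le_sum (f := B) (fun I _ => hB I) hI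
      linarith
  have hCpos : 0 < C := lt_of_lt_of_le one_pos hC
  have hne : Nonempty J := nonempty_J e he
  set r := Fintype.card J with hr
  have hr0 : 0 < r := Fintype.card_pos
  set c : ℝ := min 1 (c₀ / C ^ r) with hc
  have hcpos : 0 < c := lt_min one_pos (by positivity)
  refine ⟨c, C, B₀, hcpos, hCpos, hB₀, fun x Λ => ?_⟩
  obtain ⟨g₁, Λ₁, ⟨I, hI, hstd⟩, hcl, hprod⟩ := H x Λ
  set x₁ := actI e g₁ x with hx₁
  obtain ⟨u, -, hu⟩ := HU (fun j => (x₁ j).y ^ 2) (fun j => pow_pos (x₁ j).pos 2)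
  set x₂ := actI e (dK (uK u)) x₁ with hx₂
  have hy₂ : ∀ j, (x₂ j).y = ‖e j (u : K)‖ * (x₁ j).y := fun j => dK_act_y (e j) (uK u) (x₁ j)
  obtain ⟨a, ha, hz⟩ := HB I (fun j => (x₂ j).z)
  have ha' : -a ∈ (I : FractionalIdeal (𝓞 K)⁰ K) :=
    (I : FractionalIdeal (𝓞 K)⁰ K).coeToSubmodule.neg_mem ha
  have hx₃ : ∀ j, actI e (nK (-a)) x₂ j = ⟨(x₂ j).z + e j (-a), (x₂ j).y, (x₂ j).pos⟩ :=
    fun j => nK_act (e j) (-a) (x₂ j)
  refine ⟨nK (-a) * dK (uK u) * g₁, nK (-a) • dK (uK u) • Λ₁,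
    ⟨I, hI, nK_mem_smul (dK_unit_smul hstd u) ha'⟩, ?_, ?_⟩
  · have q1 : (nK (-a) * dK (uK u) * g₁) • Λ = nK (-a) • dK (uK u) • g₁ • Λ := by
      rw [mul_smul, mul_smul]
    rw [q1, ← LatC.smul_mk (nK (-a)), ← LatC.smul_mk (dK (uK u)), hcl, LatC.smul_mk,
      LatC.smul_mk]
  · have hact : actI e (nK (-a) * dK (uK u) * g₁) x = actI e (nK (-a)) x₂ := by
      rw [mul_assoc, actI_mul, actI_mul]
    rw [hact]
    have hbal : ∀ i j, (x₂ i).y ^ 2 ≤ C * (x₂ j).y ^ 2 := by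
      intro i j
      rw [hy₂, hy₂, mul_pow, mul_pow]
      exact hu i j
    have hprod₂ : ∏ j, (x₂ j).y ^ 2 = ∏ j, (x₁ j).y ^ 2 := by
      have h1 : ∀ j, (x₂ j).y ^ 2 = ‖e j (u : K)‖ ^ 2 * (x₁ j).y ^ 2 := by
        intro j
        rw [hy₂, mul_pow]
      rw [Finset.prod_congr rfl fun j _ => h1 j, Finset.prod_mul_distrib,
        prod_sq_unit' K e he, one_mul]
    refine ⟨fun j => ?_, fun i j => ?_, fun j => ?_⟩
    · rw [hx₃]
      show c ≤ (x₂ j).y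
      by_contra hcon
      push Not at hcon
      have hyj := (x₂ j).pos
      have h1 := (balanced_geom (fun j => pow_pos (x₂ j).pos 2) hbal j).2
      rw [hprod₂, ← hr] at h1
      have h2 : (x₂ j).y < 1 := lt_of_lt_of_le hcon (min_le_left _ _)
      have h3 : (x₂ j).y < c₀ / C ^ r := lt_of_lt_of_le hcon (min_le_right _ _)
      have h4 : ((x₂ j).y ^ 2) ^ r ≤ (x₂ j).y := by
        rw [← pow_mul]
        exact pow_le_of_le_one hyj.le h2.le (by omega)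
      have h5 : C ^ r * ((x₂ j).y ^ 2) ^ r < c₀ := by
        calc C ^ r * ((x₂ j).y ^ 2) ^ r ≤ C ^ r * (x₂ j).y := by gcongr
          _ < C ^ r * (c₀ / C ^ r) := by gcongr
          _ = c₀ := by field_simp
      exact absurd (hprod.trans h1) (not_le.mpr h5)
    · rw [hx₃, hx₃]
      show (x₂ i).y ≤ C * (x₂ j).y
      have h1 : (x₂ i).y ^ 2 ≤ (C * (x₂ j).y) ^ 2 := by
        refine (hbal i j).trans ?_
        rw [mul_pow]
        have : C ≤ C ^ 2 := by nlinarith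
        gcongr
      exact (pow_le_pow_iff_left₀ (x₂ i).pos.le (by have := (x₂ j).pos; positivity)
        two_ne_zero).mp h1
    · rw [hx₃]
      show ‖(x₂ j).z + e j (-a)‖ ≤ B₀
      rw [map_neg, ← sub_eq_add_neg]
      exact (hz j).trans (hBS I hI)

include he in
/-- **[COV]** Covering by a Siegel set: `Y` a `PGL₂(K)`-set with an equivariant map with finite
fibres to the lattice classes. -/
theorem exists_cover {Y : Type*} [MulAction PGL(2, K) Y] (π : Y → LatC (𝓞 K) K)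
    (hπ : ∀ (g : PGL(2, K)) (y : Y), π (g • y) = g • π y)
    (hfib : ∀ l : LatC (𝓞 K) K, {y | π y = l}.Finite) :
    ∃ (Y₀ : Set Y) (c C R : ℝ), Y₀.Finite ∧ 0 < c ∧ 0 < C ∧ 0 < R ∧ ∀ (x : J → H3) (y : Y),
      ∃ g : PGL(2, K), (fun j => (ProjGenLinGroup.map (e j) g : PGL(2, ℂ)) • x j) ∈ siegel c C R ∧
        g • y ∈ Y₀ := by
  classical
  obtain ⟨S, hS⟩ := exists_reps (O := 𝓞 K) (K := K)
  obtain ⟨c, C, R, hc, hC, hR, H⟩ := exists_siegel e he S hS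
  refine ⟨⋃ Λ ∈ {Λ : Lat (𝓞 K) K | IsStd S Λ}, {y | π y = LatC.mk Λ}, c, C, R,
    (finite_isStd S).biUnion fun Λ _ => hfib _, hc, hC, hR, fun x y => ?_⟩
  obtain ⟨Λ, hΛ⟩ := LatC.mk_surjective (π y)
  obtain ⟨g, Λ', hstd, hcl, hg⟩ := H x Λ
  refine ⟨ProjGenLinGroup.mk g, hg, ?_⟩
  simp only [Set.mem_iUnion, exists_prop]
  refine ⟨Λ', hstd, ?_⟩
  show π (ProjGenLinGroup.mk g • y) = LatC.mk Λ'
  rw [hπ, ← hΛ, LatC.pgl_smul, LatC.smul_mk, hcl]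

end Cover

end Fermat.Agent.H2Z
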