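import Fermat.Agent.H56ZRad3

/-!
# Radial kernels on products of hyperbolic 3-spaces, part 4 (helper56)

`Rk (conv κ κ') g = Rk κ (Rk κ' g)`, continuity of `Rk κ g`, associativity.
-/

set_option autoImplicit false

noncomputable section

open MeasureTheory Set
open scoped Real ENNReal Topology

namespace Fermat.Agent.H56Z

open H5Z

variable {J : Type*} [Fintype J]

omit [Fintype J] in
theorem mem_Bl_comm {R : ℝ} {x w : J → H3} : w ∈ Bl R x ↔ x ∈ Bl R w := by
  simp only [Bl, mem_ofPred_eq, H3.ch_comm]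

omit [Fintype J] in
theorem Bl_subset {R R' : ℝ} (hR : 0 ≤ R) {x v w : J → H3} (h : v ∈ Bl R x) (h' : w ∈ Bl R' v) :
    w ∈ Bl (2 * R * R') x := by
  intro j
  have h1 := ch_triangle (x j) (v j) (w j)
  have h2 : H3.ch (x j) (v j) ≤ R := h j
  have h3 : H3.ch (v j) (w j) ≤ R' := h' j
  have h4 : 0 ≤ H3.ch (v j) (w j) := zero_le_one.trans (H3.one_le_ch _ _)
  have h5 : 2 * H3.ch (x j) (v j) * H3.ch (v j) (w j) ≤ 2 * R * R' :=
    mul_le_mul (by linarith) h3 h4 (by linarith)
  linarith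

omit [Fintype J] in
theorem mem_Bl_self {R : ℝ} (hR : 1 ≤ R) (x : J → H3) : x ∈ Bl R x := by
  intro j
  rw [H3.ch_self]
  exact hR

theorem Bl_mem_nhds {R : ℝ} (hR : 1 < R) (x : J → H3) : Bl R x ∈ 𝓝 x := by
  have h1 : IsOpen {w : J → H3 | ∀ j, H3.ch (x j) (w j) < R} := by
    have : {w : J → H3 | ∀ j, H3.ch (x j) (w j) < R} =
        ⋂ j, {w : J → H3 | H3.ch (x j) (w j) < R} := by
      ext w
      simp
    rw [this]
    refine isOpen_iInter_of_finite fun j => ?_
    have h2 : Continuous fun w : J → H3 => H3.ch (x j) (w j) :=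
      H3.continuous_ch.comp (continuous_const.prodMk (continuous_apply j))
    exact isOpen_lt h2 continuous_const
  refine Filter.mem_of_superset (h1.mem_nhds fun j => ?_) fun w hw j => (hw j).le
  rw [H3.ch_self]
  exact hR

/-- Local boundedness and measurability. -/
structure IsLB (g : (J → H3) → ℂ) : Prop where
  meas : AEStronglyMeasurable g volume
  bdd : ∀ (R : ℝ) (x : J → H3), ∃ G : ℝ, 0 ≤ G ∧ ∀ w ∈ Bl R x, ‖g w‖ ≤ G

theorem IsLB.of_bounded {g : (J → H3) → ℂ} (hg : AEStronglyMeasurable g volume) {G : ℝ}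
    (hG : ∀ w, ‖g w‖ ≤ G) : IsLB g :=
  ⟨hg, fun _ x => ⟨G, (norm_nonneg _).trans (hG x), fun w _ => hG w⟩⟩

theorem IsLB.of_continuous {g : (J → H3) → ℂ} (hg : Continuous g) : IsLB g := by
  refine ⟨hg.aestronglyMeasurable, fun R x => ?_⟩
  obtain ⟨G, hG⟩ := (isCompact_Bl R x).exists_bound_of_continuousOn hg.continuousOn
  exact ⟨max G 0, le_max_right _ _, fun w hw => (hG w hw).trans (le_max_left _ _)⟩

theorem IsLB.integrable_Rk {κ : (J → ℝ) → ℂ} (hκ : IsRC κ) {g : (J → H3) → ℂ} (hg : IsLB g)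
    (x : J → H3) : Integrable (fun w => κ (chv x w) * g w) volume := by
  obtain ⟨R, M, -, -, hM, hR⟩ := hκ.exists_bounds
  obtain ⟨G, -, hG⟩ := hg.bdd R x
  exact H5Z.integrable_Rk hκ.cont hM hR hg.meas hG

/-- `R(κ) g` is continuous. -/
theorem continuous_Rk {κ : (J → ℝ) → ℂ} (hκ : IsRC κ) {g : (J → H3) → ℂ} (hg : IsLB g) :
    Continuous (Rk κ g) := by
  obtain ⟨R, M, hR1, hM0, hM, hR⟩ := hκ.exists_bounds
  rw [continuous_iff_continuousAt]
  intro x
  obtain ⟨G, hG0, hG⟩ := hg.bdd (2 * 2 * R) x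
  unfold Rk
  refine continuousAt_of_dominated (bound := (Bl (2 * 2 * R) x).indicator fun _ => M * G)
    ?_ ?_ ?_ ?_
  · refine Filter.Eventually.of_forall fun y => ?_
    exact (hκ.cont.comp (continuous_chv_right y)).aestronglyMeasurable.mul hg.meas
  · filter_upwards [Bl_mem_nhds one_lt_two x] with y hy
    refine Filter.Eventually.of_forall fun w => ?_
    by_cases hw : w ∈ Bl (2 * 2 * R) x
    · rw [indicator_of_mem hw, norm_mul]
      exact mul_le_mul (hM _) (hG w hw) (norm_nonneg _) hM0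
    · have hw' : w ∉ Bl R y := fun h => hw (Bl_subset (by norm_num) hy h)
      rw [IsRC.eq_zero_of_notMem hR hw', zero_mul, norm_zero]
      exact indicator_nonneg (fun _ _ => by positivity) _
  · rw [integrable_indicator_iff (measurableSet_Bl _ _)]
    exact integrableOn_const (isCompact_Bl _ _).measure_lt_top.ne
  · refine Filter.Eventually.of_forall fun w => ?_
    have h1 : Continuous fun y : J → H3 => chv y w :=
      continuous_chv.comp (continuous_id.prodMk continuous_const)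
    exact ((hκ.cont.comp h1).mul continuous_const).continuousAt

theorem IsLB.Rk {κ : (J → ℝ) → ℂ} (hκ : IsRC κ) {g : (J → H3) → ℂ} (hg : IsLB g) :
    IsLB (Rk κ g) :=
  IsLB.of_continuous (continuous_Rk hκ hg)

theorem integrable_conv {κ κ' : (J → ℝ) → ℂ} (hκ : IsRC κ) (hκ' : IsRC κ')
    {g : (J → H3) → ℂ} (hg : IsLB g) (x : J → H3) :
    Integrable (fun p : (J → H3) × (J → H3) => κ (chv x p.2) * κ' (chv p.2 p.1) * g p.1)
      (volume.prod volume) := by
  obtain ⟨R, M, hR1, hM0, hM, hR⟩ := hκ.exists_bounds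
  obtain ⟨R', M', hR1', hM0', hM', hR'⟩ := hκ'.exists_bounds
  obtain ⟨G, hG0, hG⟩ := hg.bdd (2 * R * R') x
  have hmeas : AEStronglyMeasurable (fun p : (J → H3) × (J → H3) =>
      κ (chv x p.2) * κ' (chv p.2 p.1) * g p.1) (volume.prod volume) := by
    refine AEStronglyMeasurable.mul ?_ hg.meas.comp_fst
    have h1 : Continuous fun p : (J → H3) × (J → H3) => κ (chv x p.2) * κ' (chv p.2 p.1) :=
      (hκ.cont.comp ((continuous_chv_right x).comp continuous_snd)).mul
        (hκ'.cont.comp (continuous_chv.comp (continuous_snd.prodMk continuous_fst)))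
    exact h1.aestronglyMeasurable
  have hS : MeasurableSet (Bl (2 * R * R') x ×ˢ Bl R x) :=
    (measurableSet_Bl _ _).prod (measurableSet_Bl _ _)
  have hfin : (volume.prod volume) (Bl (2 * R * R') x ×ˢ Bl R x) < ⊤ := by
    rw [Measure.prod_prod]
    exact ENNReal.mul_lt_top (isCompact_Bl _ _).measure_lt_top (isCompact_Bl _ _).measure_lt_top
  have hi : Integrable ((Bl (2 * R * R') x ×ˢ Bl R x).indicator
      (fun _ : (J → H3) × (J → H3) => M * M' * G)) (volume.prod volume) := by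
    rw [integrable_indicator_iff hS]
    exact integrableOn_const hfin.ne
  refine hi.mono' hmeas (Filter.Eventually.of_forall fun p => ?_)
  by_cases h2 : p.2 ∈ Bl R x
  · by_cases h1 : p.1 ∈ Bl R' p.2
    · have h3 : p.1 ∈ Bl (2 * R * R') x := Bl_subset (by linarith) h2 h1
      rw [indicator_of_mem (show p ∈ Bl (2 * R * R') x ×ˢ Bl R x from ⟨h3, h2⟩), norm_mul,
        norm_mul]
      exact mul_le_mul (mul_le_mul (hM _) (hM' _) (norm_nonneg _) hM0) (hG _ h3)
        (norm_nonneg _) (by positivity)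
    · rw [IsRC.eq_zero_of_notMem hR' h1, mul_zero, zero_mul, norm_zero]
      exact indicator_nonneg (fun _ _ => by positivity) _
  · rw [IsRC.eq_zero_of_notMem hR h2, zero_mul, zero_mul, norm_zero]
    exact indicator_nonneg (fun _ _ => by positivity) _

/-- `R(κ * κ') g = R(κ) R(κ') g`. -/
theorem Rk_conv {κ κ' : (J → ℝ) → ℂ} (hκ : IsRC κ) (hκ' : IsRC κ')
    {g : (J → H3) → ℂ} (hg : IsLB g) : Rk (conv κ κ') g = Rk κ (Rk κ' g) := by
  funext x
  have h1 : Rk (conv κ κ') g x =
      ∫ w, ∫ v, κ (chv x v) * κ' (chv v w) * g w := by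
    unfold Rk
    refine integral_congr_ae (Filter.Eventually.of_forall fun w => ?_)
    simp only
    rw [conv_apply, ← integral_mul_const]
  rw [h1, integral_integral_swap (integrable_conv hκ hκ' hg x)]
  unfold Rk
  refine integral_congr_ae (Filter.Eventually.of_forall fun v => ?_)
  simp only
  rw [← integral_const_mul]
  refine integral_congr_ae (Filter.Eventually.of_forall fun w => ?_)
  simp only
  ring

/-- Commutativity of the operators. -/
theorem Rk_comm {κ κ' : (J → ℝ) → ℂ} (hκ : IsRC κ) (hκ' : IsRC κ')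
    {g : (J → H3) → ℂ} (hg : IsLB g) : Rk κ (Rk κ' g) = Rk κ' (Rk κ g) := by
  rw [← Rk_conv hκ hκ' hg, ← Rk_conv hκ' hκ hg, conv_comm]

theorem IsRC.isLB {κ : (J → ℝ) → ℂ} (hκ : IsRC κ) (z : J → H3) :
    IsLB fun v => κ (chv v z) :=
  IsLB.of_continuous (hκ.cont.comp (continuous_chv.comp (continuous_id.prodMk continuous_const)))

theorem conv_eq_Rk (κ κ' : (J → ℝ) → ℂ) (x z : J → H3) :
    conv κ κ' (chv x z) = Rk κ (fun v => κ' (chv v z)) x := conv_apply _ _ _ _

theorem conv_assoc {κ κ' κ'' : (J → ℝ) → ℂ} (hκ : IsRC κ) (hκ' : IsRC κ') (hκ'' : IsRC κ'') :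
    conv (conv κ κ') κ'' = conv κ (conv κ' κ'') := by
  funext t
  rw [conv_max (conv κ κ') κ'', conv_max κ, ← chv_base_axJ, conv_eq_Rk,
    Rk_conv hκ hκ' (hκ''.isLB _), conv_eq_Rk]
  congr 1
  funext v
  rw [conv_eq_Rk]

theorem conv_add {κ κ' κ'' : (J → ℝ) → ℂ} (hκ : IsRC κ) (hκ' : IsRC κ') (hκ'' : IsRC κ'') :
    conv κ (κ' + κ'') = conv κ κ' + conv κ κ'' := by
  funext t
  unfold conv
  rw [Pi.add_apply]
  rw [← integral_add ((hκ'.isLB (axJ t)).integrable_Rk hκ (baseJ J))
    ((hκ''.isLB (axJ t)).integrable_Rk hκ (baseJ J))]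
  refine integral_congr_ae (Filter.Eventually.of_forall fun w => ?_)
  simp only [Pi.add_apply]
  ring

theorem conv_const_mul (κ κ' : (J → ℝ) → ℂ) (c : ℂ) :
    conv κ (fun u => c * κ' u) = fun u => c * conv κ κ' u := by
  funext t
  unfold conv
  rw [← integral_const_mul]
  refine integral_congr_ae (Filter.Eventually.of_forall fun w => ?_)
  simp only
  ring

/-- Linearity of `R(κ)` in `κ`. -/
theorem Rk_add {κ κ' : (J → ℝ) → ℂ} (hκ : IsRC κ) (hκ' : IsRC κ')
    {g : (J → H3) → ℂ} (hg : IsLB g) : Rk (κ + κ') g = Rk κ g + Rk κ' g := by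
  funext x
  rw [Pi.add_apply]
  unfold Rk
  rw [← integral_add (hg.integrable_Rk hκ x) (hg.integrable_Rk hκ' x)]
  refine integral_congr_ae (Filter.Eventually.of_forall fun w => ?_)
  simp only [Pi.add_apply]
  ring

theorem Rk_const_mul (κ : (J → ℝ) → ℂ) (c : ℂ) (g : (J → H3) → ℂ) :
    Rk (fun u => c * κ u) g = fun x => c * Rk κ g x := by
  funext x
  unfold Rk
  rw [← integral_const_mul]
  refine integral_congr_ae (Filter.Eventually.of_forall fun w => ?_)
  simp only
  ring

/-- `R(κ)` commutes with the action of `J → GL₂(ℂ)`. -/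
theorem Rk_smul (κ : (J → ℝ) → ℂ) (g : (J → H3) → ℂ) (γ : J → GL (Fin 2) ℂ) (x : J → H3) :
    Rk κ (fun w => g fun j => γ j • w j) x = Rk κ g fun j => γ j • x j := by
  unfold Rk
  rw [← integral_smulJ γ fun w => κ (chv (fun j => γ j • x j) w) * g w]
  refine integral_congr_ae (Filter.Eventually.of_forall fun w => ?_)
  simp only
  rw [chv_smul]

end Fermat.Agent.H56Z
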