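import Mathlib
import Fermat.Agent.H5ZH3
import Fermat.Agent.H31Hyp2

set_option autoImplicit false
set_option linter.style.haveILetI false
set_option linter.unusedSectionVars false

/-! # Iterated mean value step (S47, C8)

`(Rk κ)^[N] f` at height `t` is `≤ C (δ / t)^N sup |f|` if `f` is periodic with mean zero on all
horospheres. -/

open MeasureTheory Set Module

namespace Fermat.Agent.H5Z

open Fermat.Agent

variable {J : Type*} [Fintype J]

/-! ### translations -/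

@[simp] lemma tr_zero (x : J → H3) : tr 0 x = x := by
  funext j
  ext
  · simp
  · rfl

lemma continuous_H3_mk : Continuous (fun p : ℂ × H3 => (⟨p.2.z + p.1, p.2.y, p.2.pos⟩ : H3)) := by
  rw [← H3.coord.comp_continuous_iff]
  have hz : Continuous (fun p : ℂ × H3 => p.2.z) := H3.continuous_z.comp continuous_snd
  have hy : Continuous (fun p : ℂ × H3 => p.2.y) := H3.continuous_y.comp continuous_snd
  have e : (⇑H3.coord ∘ fun p : ℂ × H3 => (⟨p.2.z + p.1, p.2.y, p.2.pos⟩ : H3)) =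
      fun p : ℂ × H3 => ((p.2.z + p.1) / (p.2.y : ℂ), Real.log p.2.y) := by
    funext p
    rfl
  rw [e]
  refine Continuous.prodMk ?_ ?_
  · refine (hz.add continuous_fst).div (Complex.continuous_ofReal.comp hy) fun p => ?_
    exact_mod_cast p.2.pos.ne'
  · exact hy.log fun p => p.2.pos.ne'

lemma continuous_tr_uncurry : Continuous (fun p : (J → ℂ) × (J → H3) => tr p.1 p.2) := by
  refine continuous_pi fun j => ?_
  have h1 : Continuous (fun p : (J → ℂ) × (J → H3) => (p.1 j, p.2 j)) :=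
    ((continuous_apply j).comp continuous_fst).prodMk ((continuous_apply j).comp continuous_snd)
  exact continuous_H3_mk.comp h1

lemma measurable_tr_uncurry : Measurable (fun p : (J → ℂ) × (J → H3) => tr p.1 p.2) :=
  continuous_tr_uncurry.measurable

lemma continuous_tr (n : J → ℂ) : Continuous (tr n : (J → H3) → (J → H3)) :=
  continuous_tr_uncurry.comp (continuous_const.prodMk continuous_id)

lemma continuous_tr_left (x : J → H3) : Continuous (fun n : J → ℂ => tr n x) :=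
  continuous_tr_uncurry.comp (continuous_id.prodMk continuous_const)

/-- translation as a measurable equivalence -/
def trEquiv (n : J → ℂ) : (J → H3) ≃ᵐ (J → H3) where
  toFun := tr n
  invFun := tr (-n)
  left_inv x := by rw [tr_tr, add_neg_cancel, tr_zero]
  right_inv x := by rw [tr_tr, neg_add_cancel, tr_zero]
  measurable_toFun := (continuous_tr n).measurable
  measurable_invFun := (continuous_tr (-n)).measurable

lemma measurePreserving_tr (n : J → ℂ) :
    MeasurePreserving (tr n : (J → H3) → (J → H3)) volume volume := by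
  have h : ∀ j, MeasurePreserving (fun w : H3 => H3.nMat (n j) • w) volume volume :=
    fun j => H3.measurePreserving_smul _
  have h2 := measurePreserving_pi (fun _ : J => (volume : Measure H3)) (fun _ => volume) h
  have e : (fun (a : J → H3) (i : J) => H3.nMat (n i) • a i) = tr n := by
    funext a i
    rw [H3.nMat_smul]
    rfl
  rw [e] at h2
  exact h2

lemma integral_comp_tr {F : Type*} [NormedAddCommGroup F] [NormedSpace ℝ F] (n : J → ℂ)
    (f : (J → H3) → F) : ∫ w, f (tr n w) = ∫ w, f w :=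
  (measurePreserving_tr n).integral_comp (trEquiv n).measurableEmbedding f

@[simp] lemma chv_tr_tr (n : J → ℂ) (x w : J → H3) : chv (tr n x) (tr n w) = chv x w := by
  funext j
  show H3.ch ⟨(x j).z + n j, (x j).y, (x j).pos⟩ ⟨(w j).z + n j, (w j).y, (w j).pos⟩ =
    H3.ch (x j) (w j)
  rw [← H3.nMat_smul, ← H3.nMat_smul, H3.ch_smul]

lemma Rk_tr (κ : (J → ℝ) → ℂ) (g : (J → H3) → ℂ) (n : J → ℂ) (x : J → H3) :
    Rk κ g (tr n x) = Rk κ (fun w => g (tr n w)) x := by
  rw [Rk, Rk, ← integral_comp_tr n]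
  simp only [chv_tr_tr]

/-- `f` is periodic on all horospheres -/
def HPer {ι : Type*} (b : Basis ι ℝ (J → ℂ)) (f : (J → H3) → ℂ) : Prop :=
  ∀ x, ∀ v ∈ Submodule.span ℤ (Set.range b), f (tr v x) = f x

lemma HPer.per {ι : Type*} {b : Basis ι ℝ (J → ℂ)} {f : (J → H3) → ℂ} (h : HPer b f)
    (x : J → H3) : Per b (fun n => f (tr n x)) := by
  intro n v hv
  show f (tr (n + v) x) = f (tr n x)
  rw [← tr_tr, h _ v hv]

lemma HPer.Rk {ι : Type*} {b : Basis ι ℝ (J → ℂ)} {f : (J → H3) → ℂ} (h : HPer b f)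
    (κ : (J → ℝ) → ℂ) : HPer b (Rk κ f) := by
  intro x v hv
  rw [Rk_tr]
  congr 1
  funext w
  exact h w v hv

/-- `f` is bounded on horospherical strips -/
def SBdd (f : (J → H3) → ℂ) : Prop :=
  ∀ a b : ℝ, 0 < a → ∃ G : ℝ, ∀ w, (∀ j, a ≤ (w j).y ∧ (w j).y ≤ b) → ‖f w‖ ≤ G

/-- `f` has mean zero on all horospheres -/
def HZero {ι : Type*} [Fintype ι] (b : Basis ι ℝ (J → ℂ)) (f : (J → H3) → ℂ) : Prop :=
  ∀ x, ∫ n in ZSpan.fundamentalDomain b, f (tr n x) = 0

lemma measurable_Rk {κ : (J → ℝ) → ℂ} (hκ : Continuous κ) {g : (J → H3) → ℂ}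
    (hg : Measurable g) : Measurable (Rk κ g) := by
  have h1 : Measurable (fun p : (J → H3) × (J → H3) => κ (chv p.1 p.2) * g p.2) :=
    (hκ.comp continuous_chv).measurable.mul (hg.comp measurable_snd)
  exact (h1.stronglyMeasurable.integral_prod_right (f := fun x w => κ (chv x w) * g w)).measurable

lemma y_le_of_mem_Bl {R : ℝ} {x w : J → H3} (h : w ∈ Bl R x) (j : J) :
    (x j).y ≤ 2 * R * (w j).y ∧ (w j).y ≤ 2 * R * (x j).y := by
  have h1 := h j
  rw [ch_eq_chc] at h1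
  obtain ⟨h2, h3, -, -⟩ := le_of_chc_le (x j).pos (w j).pos h1
  exact ⟨h2, h3⟩

lemma Rk_eq_indicator {κ : (J → ℝ) → ℂ} {R : ℝ}
    (hR : ∀ u, (∃ j, R < u j) → κ u = 0) (g : (J → H3) → ℂ) (x : J → H3) :
    (fun w => κ (chv x w) * g w) = (Bl R x).indicator (fun w => κ (chv x w) * g w) := by
  ext w
  by_cases hw : w ∈ Bl R x
  · rw [indicator_of_mem hw]
  · rw [indicator_of_notMem hw]
    simp only [Bl, mem_ofPred_eq, not_forall, not_le] at hw
    have h0 : κ (chv x w) = 0 := hR _ hw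
    rw [h0, zero_mul]

lemma norm_Rk_le {κ : (J → ℝ) → ℂ} {M R V : ℝ} (hM : ∀ u, ‖κ u‖ ≤ M)
    (hR : ∀ u, (∃ j, R < u j) → κ u = 0) {g : (J → H3) → ℂ} {x : J → H3} {G : ℝ}
    (hV0 : 0 ≤ V) (hV : volume (Bl R x) ≤ ENNReal.ofReal V)
    (hg : ∀ w ∈ Bl R x, ‖g w‖ ≤ G) (hG : 0 ≤ G) : ‖Rk κ g x‖ ≤ M * G * V := by
  have hM0 : 0 ≤ M := (norm_nonneg _).trans (hM 0)
  have hfin : volume (Bl R x) < ⊤ := hV.trans_lt ENNReal.ofReal_lt_top
  rw [Rk, Rk_eq_indicator hR g x, integral_indicator (measurableSet_Bl R x)]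
  refine (norm_setIntegral_le_of_norm_le_const (C := M * G) hfin ?_).trans ?_
  · intro w hw
    rw [norm_mul]
    exact mul_le_mul (hM _) (hg w hw) (norm_nonneg _) hM0
  · refine mul_le_mul_of_nonneg_left ?_ (by positivity)
    rw [measureReal_def]
    exact ENNReal.toReal_le_of_le_ofReal hV0 hV

lemma SBdd.Rk {κ : (J → ℝ) → ℂ} {M R : ℝ} (hR1 : 1 ≤ R) (hM : ∀ u, ‖κ u‖ ≤ M)
    (hR : ∀ u, (∃ j, R < u j) → κ u = 0) {f : (J → H3) → ℂ} (h : SBdd f) :
    SBdd (Rk κ f) := by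
  intro a b ha
  obtain ⟨V, hV0, hV⟩ := exists_volume_Bl_le J R
  obtain ⟨G, hG⟩ := h (a / (2 * R)) (2 * R * b) (by positivity)
  refine ⟨M * max G 0 * V, fun w hw => ?_⟩
  refine norm_Rk_le hM hR hV0 (hV w) (fun w' hw' => ?_) (le_max_right _ _)
  refine (hG w' fun j => ?_).trans (le_max_left _ _)
  obtain ⟨h1, h2⟩ := y_le_of_mem_Bl hw' j
  obtain ⟨h3, h4⟩ := hw j
  constructor
  · rw [div_le_iff₀ (by positivity)]
    linarith
  · refine h2.trans ?_
    exact mul_le_mul_of_nonneg_left h4 (by positivity)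

lemma HZero.Rk {ι : Type*} [Fintype ι] {b : Basis ι ℝ (J → ℂ)} {κ : (J → ℝ) → ℂ} {M R : ℝ}
    (hR1 : 1 ≤ R) (hκ : Continuous κ) (hM : ∀ u, ‖κ u‖ ≤ M)
    (hR : ∀ u, (∃ j, R < u j) → κ u = 0) {f : (J → H3) → ℂ} (hfm : Measurable f)
    (hsb : SBdd f) (h : HZero b f) : HZero b (Rk κ f) := by
  intro x
  have hM0 : 0 ≤ M := (norm_nonneg _).trans (hM 0)
  obtain ⟨V, hV0, hV⟩ := exists_volume_Bl_le J R
  have hfin : volume (Bl R x) < ⊤ := (hV x).trans_lt ENNReal.ofReal_lt_top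
  -- bounds for the heights of `x`
  obtain ⟨a, ha, hax⟩ : ∃ a : ℝ, 0 < a ∧ ∀ j, a ≤ (x j).y := by
    rcases isEmpty_or_nonempty J with hJ | hJ
    · exact ⟨1, one_pos, fun j => hJ.elim j⟩
    · obtain ⟨j0, hj0⟩ := Finite.exists_min (fun j => (x j).y)
      exact ⟨(x j0).y, (x j0).pos, hj0⟩
  obtain ⟨c, hcx⟩ : ∃ c : ℝ, ∀ j, (x j).y ≤ c := by
    rcases isEmpty_or_nonempty J with hJ | hJ
    · exact ⟨1, fun j => hJ.elim j⟩
    · obtain ⟨j0, hj0⟩ := Finite.exists_max (fun j => (x j).y)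
      exact ⟨(x j0).y, hj0⟩
  obtain ⟨G, hG⟩ := hsb (a / (2 * R)) (2 * R * c) (by positivity)
  have hbd : ∀ (n : J → ℂ), ∀ w ∈ Bl R x, ‖f (tr n w)‖ ≤ G := by
    intro n w hw
    refine hG _ fun j => ?_
    obtain ⟨h1, h2⟩ := y_le_of_mem_Bl hw j
    rw [tr_y]
    constructor
    · rw [div_le_iff₀ (by positivity)]
      have := hax j
      linarith
    · refine h2.trans ?_
      exact mul_le_mul_of_nonneg_left (hcx j) (by positivity)
  have hFD : volume (ZSpan.fundamentalDomain b) < ⊤ :=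
    (ZSpan.fundamentalDomain_isBounded b).measure_lt_top
  have hFm : MeasurableSet (ZSpan.fundamentalDomain b) := ZSpan.fundamentalDomain_measurableSet b
  have hjm : Measurable (fun p : (J → ℂ) × (J → H3) => κ (chv x p.2) * f (tr p.1 p.2)) :=
    ((hκ.comp (continuous_chv_right x)).measurable.comp measurable_snd).mul
      (hfm.comp measurable_tr_uncurry)
  have hint : Integrable (Function.uncurry fun (n : J → ℂ) (w : J → H3) =>
      κ (chv x w) * f (tr n w))
      ((volume.restrict (ZSpan.fundamentalDomain b)).prod volume) := by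
    have e : (Function.uncurry fun (n : J → ℂ) (w : J → H3) => κ (chv x w) * f (tr n w)) =
        (univ ×ˢ Bl R x).indicator (fun p => κ (chv x p.2) * f (tr p.1 p.2)) := by
      ext ⟨n, w⟩
      by_cases hw : w ∈ Bl R x
      · rw [indicator_of_mem (by exact ⟨mem_univ _, hw⟩)]
        rfl
      · rw [indicator_of_notMem (by rintro ⟨-, h2⟩; exact hw h2)]
        simp only [Bl, mem_ofPred_eq, not_forall, not_le] at hw
        have h0 : κ (chv x w) = 0 := hR _ hw
        show κ (chv x w) * f (tr n w) = 0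
        rw [h0, zero_mul]
    rw [e, integrable_indicator_iff (MeasurableSet.univ.prod (measurableSet_Bl R x))]
    refine ⟨hjm.aestronglyMeasurable, ?_⟩
    have hfin2 : ((volume.restrict (ZSpan.fundamentalDomain b)).prod volume)
        ((univ : Set (J → ℂ)) ×ˢ Bl R x) < ⊤ := by
      rw [Measure.prod_prod, Measure.restrict_apply_univ]
      exact ENNReal.mul_lt_top hFD hfin
    refine HasFiniteIntegral.restrict_of_bounded (C := M * G) hfin2 ?_
    rw [ae_restrict_iff' (MeasurableSet.univ.prod (measurableSet_Bl R x))]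
    refine Filter.Eventually.of_forall fun p hp => ?_
    rw [norm_mul]
    exact mul_le_mul (hM _) (hbd _ _ hp.2) (norm_nonneg _) hM0
  have e1 : ∀ n, Fermat.Agent.H5Z.Rk κ f (tr n x) = ∫ w, κ (chv x w) * f (tr n w) := fun n => Rk_tr κ f n x
  simp_rw [e1]
  rw [integral_integral_swap hint]
  have e2 : ∀ w, ∫ n in ZSpan.fundamentalDomain b, κ (chv x w) * f (tr n w) = 0 := by
    intro w
    rw [integral_const_mul, h w, mul_zero]
  simp_rw [e2]
  exact integral_zero _ _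

/-! ### the iterated step -/

/-- the factor by which heights change in one step -/
noncomputable def Q1 (R : ℝ) : ℝ := 2 * R1 R

lemma one_le_R1 {R : ℝ} (hR : 1 ≤ R) : 1 ≤ R1 R := by
  have : 0 ≤ R * (4 * R + 1) := by positivity
  rw [R1]; linarith

lemma one_le_Q1 {R : ℝ} (hR : 1 ≤ R) : 1 ≤ Q1 R := by
  have := one_le_R1 hR
  rw [Q1]; linarith

/-- **Iterated mean value step.** -/
theorem horo_iter {κ : (J → ℝ) → ℂ} {Lκ M R : ℝ} (hR1 : 1 ≤ R) (hLκ0 : 0 ≤ Lκ)
    (hLκ : ∀ u v, ‖κ u - κ v‖ ≤ Lκ * ‖u - v‖) (hM : ∀ u, ‖κ u‖ ≤ M)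
    (hR : ∀ u, (∃ j, R < u j) → κ u = 0) (N : ℕ) :
    ∃ C : ℝ, 0 ≤ C ∧ ∀ {ι : Type} [Fintype ι] (b : Basis ι ℝ (J → ℂ)) (δ : ℝ), 0 ≤ δ →
      (∀ x ∈ ZSpan.fundamentalDomain b, ∀ y ∈ ZSpan.fundamentalDomain b, ‖x - y‖ ≤ δ) →
      ∀ (f : (J → H3) → ℂ), Measurable f → SBdd f → HPer b f → HZero b f →
      ∀ (x : J → H3) (t : ℝ), 0 < t → (∀ j, t ≤ (x j).y) → ∀ G : ℝ, 0 ≤ G →
      (∀ w, (∀ j, (x j).y ≤ Q1 R ^ N * (w j).y ∧ (w j).y ≤ Q1 R ^ N * (x j).y) → ‖f w‖ ≤ G) →
      ‖(Rk κ)^[N] f x‖ ≤ C * (δ / t) ^ N * G := by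
  have hQ1 := one_le_Q1 hR1
  have hQ0 : 0 < Q1 R := by linarith
  have hcont : Continuous κ := by
    have : LipschitzWith ⟨Lκ, hLκ0⟩ κ := LipschitzWith.of_dist_le_mul fun u v => by
      rw [dist_eq_norm, dist_eq_norm]; exact hLκ u v
    exact this.continuous
  obtain ⟨C1, hC1, hstep⟩ := horo_step (J := J) hR1 hLκ0 hLκ hM hR
  induction N with
  | zero =>
    refine ⟨1, zero_le_one, ?_⟩
    intro ι _ b δ hδ0 hδ f hfm hsb hper hz x t ht hx G hG hf
    simp only [Function.iterate_zero, id_eq, pow_zero, mul_one, one_mul]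
    exact hf x fun j => ⟨by simp, by simp⟩
  | succ N ih =>
    obtain ⟨C, hC, ih⟩ := ih
    refine ⟨C1 * (C * Q1 R ^ N), by positivity, ?_⟩
    intro ι _ b δ hδ0 hδ f hfm hsb hper hz x t ht hx G hG hf
    rw [Function.iterate_succ_apply']
    -- properties of the iterates
    have hP : ∀ k, Measurable ((Rk κ)^[k] f) ∧ SBdd ((Rk κ)^[k] f) ∧ HPer b ((Rk κ)^[k] f) ∧
        HZero b ((Rk κ)^[k] f) := by
      intro k
      induction k with
      | zero => exact ⟨hfm, hsb, hper, hz⟩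
      | succ k ihk =>
        obtain ⟨i1, i2, i3, i4⟩ := ihk
        rw [Function.iterate_succ_apply']
        exact ⟨measurable_Rk hcont i1, i2.Rk hR1 hM hR, i3.Rk κ, i4.Rk hR1 hcont hM hR i1 i2⟩
    set g := (Rk κ)^[N] f with hg
    obtain ⟨hgm, hgs, hgp, hgz⟩ := hP N
    have hG' : 0 ≤ C * (δ / (t / Q1 R)) ^ N * G := by positivity
    have h1 : ∀ n, ∀ w ∈ Bl (R1 R) (tr n x), ‖g w‖ ≤ C * (δ / (t / Q1 R)) ^ N * G := by
      intro n w hw
      have hw' : ∀ j, (x j).y ≤ Q1 R * (w j).y ∧ (w j).y ≤ Q1 R * (x j).y := by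
        intro j
        have := y_le_of_mem_Bl hw j
        rw [tr_y] at this
        exact this
      refine ih b δ hδ0 hδ f hfm hsb hper hz w (t / Q1 R) (by positivity) (fun j => ?_) G hG ?_
      · rw [div_le_iff₀ hQ0]
        have h2 := (hw' j).1
        have h3 := hx j
        linarith
      · intro w' hw2
        refine hf w' fun j => ?_
        obtain ⟨a1, a2⟩ := hw' j
        obtain ⟨a3, a4⟩ := hw2 j
        constructor
        · calc (x j).y ≤ Q1 R * (w j).y := a1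
            _ ≤ Q1 R * (Q1 R ^ N * (w' j).y) := by gcongr
            _ = Q1 R ^ (N + 1) * (w' j).y := by ring
        · calc (w' j).y ≤ Q1 R ^ N * (w j).y := a4
            _ ≤ Q1 R ^ N * (Q1 R * (x j).y) := by gcongr
            _ = Q1 R ^ (N + 1) * (x j).y := by ring
    obtain ⟨-, -, hp', hz'⟩ := hP (N + 1)
    rw [Function.iterate_succ_apply', ← hg] at hp' hz'
    have h2 := hstep b δ hδ x t ht hx g _ hG' hgm.aestronglyMeasurable h1 (hp'.per x) (hz' x) 0
    rw [tr_zero] at h2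
    refine h2.trans (le_of_eq ?_)
    have e : δ / (t / Q1 R) = δ / t * Q1 R := by
      field_simp
    rw [e]
    ring

/-- the product of the heights -/
def hgt (x : J → H3) : ℝ := ∏ j, (x j).y

lemma hgt_pos (x : J → H3) : 0 < hgt x := Finset.prod_pos fun j _ => (x j).pos

/-- **Rapid decay from polynomial growth**: `card J * m` smoothing steps gain the factor `hgt⁻ᵐ` at
balanced points. -/
theorem horo_rapid {κ : (J → ℝ) → ℂ} {Lκ M R : ℝ} (hR1 : 1 ≤ R) (hLκ0 : 0 ≤ Lκ)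
    (hLκ : ∀ u v, ‖κ u - κ v‖ ≤ Lκ * ‖u - v‖) (hM : ∀ u, ‖κ u‖ ≤ M)
    (hR : ∀ u, (∃ j, R < u j) → κ u = 0) (m A : ℕ) {c B : ℝ} (hc : 0 < c) (hB : 1 ≤ B) :
    ∃ C : ℝ, 0 ≤ C ∧ ∀ {ι : Type} [Fintype ι] (b : Basis ι ℝ (J → ℂ)) (δ : ℝ), 0 ≤ δ →
      (∀ x ∈ ZSpan.fundamentalDomain b, ∀ y ∈ ZSpan.fundamentalDomain b, ‖x - y‖ ≤ δ) →
      ∀ (f : (J → H3) → ℂ), Measurable f → SBdd f → HPer b f → HZero b f →
      ∀ M0 : ℝ, 0 ≤ M0 →
      (∀ w : J → H3, (∀ j, c / Q1 R ^ (Fintype.card J * m) ≤ (w j).y) → ‖f w‖ ≤ M0 * hgt w ^ A) →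
      ∀ x : J → H3, (∀ j, c ≤ (x j).y) → (∀ i j, (x i).y ≤ B * (x j).y) →
      ‖(Rk κ)^[Fintype.card J * m] f x‖ * hgt x ^ m ≤
        C * δ ^ (Fintype.card J * m) * M0 * hgt x ^ A := by
  have hQ1 := one_le_Q1 hR1
  have hQ0 : 0 < Q1 R := by linarith
  set r := Fintype.card J with hr
  obtain ⟨C, hC, hit⟩ := horo_iter (J := J) hR1 hLκ0 hLκ hM hR (r * m)
  refine ⟨C * B ^ (r * m) * (Q1 R ^ (r * m)) ^ (r * A), by positivity, ?_⟩
  intro ι _ b δ hδ0 hδ f hfm hsb hper hz M0 hM0 hf x hx hbal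
  rcases isEmpty_or_nonempty J with hJ | hJ
  · have hr0 : r = 0 := by rw [hr]; exact Fintype.card_eq_zero
    have h1 := hit b δ hδ0 hδ f hfm hsb hper hz x 1 one_pos (fun j => hJ.elim j)
      (M0 * hgt x ^ A) (by have := hgt_pos x; positivity) (fun w hw => by
        have : w = x := Subsingleton.elim _ _
        rw [this]
        exact hf x fun j => hJ.elim j)
    have h2 : hgt x = 1 := by simp [hgt]
    rw [h2] at h1 ⊢
    simp only [hr0, zero_mul, pow_zero, mul_one, one_pow] at h1 ⊢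
    exact h1
  · obtain ⟨j0, hj0⟩ := Finite.exists_min (fun j => (x j).y)
    have ht : 0 < (x j0).y := (x j0).pos
    have hhx := hgt_pos x
    have hG0 : 0 ≤ M0 * (Q1 R ^ (r * m)) ^ (r * A) * hgt x ^ A := by positivity
    have h1 := hit b δ hδ0 hδ f hfm hsb hper hz x (x j0).y ht hj0
      (M0 * (Q1 R ^ (r * m)) ^ (r * A) * hgt x ^ A) hG0 (fun w hw => by
        refine (hf w fun j => ?_).trans ?_
        · rw [div_le_iff₀ (by positivity)]
          have h3 := (hw j).1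
          have h4 := hx j
          calc c ≤ Q1 R ^ (r * m) * (w j).y := h4.trans h3
            _ = _ := by rw [hr]; ring
        · rw [mul_assoc]
          refine mul_le_mul_of_nonneg_left ?_ hM0
          have h5 : hgt w ≤ (Q1 R ^ (r * m)) ^ r * hgt x := by
            calc hgt w ≤ ∏ j, (Q1 R ^ (r * m) * (x j).y) :=
                  Finset.prod_le_prod (fun j _ => (w j).pos.le) fun j _ => (hw j).2
              _ = (Q1 R ^ (r * m)) ^ r * hgt x := by
                  rw [Finset.prod_mul_distrib, Finset.prod_const, Finset.card_univ, hgt]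
          calc hgt w ^ A ≤ ((Q1 R ^ (r * m)) ^ r * hgt x) ^ A :=
                pow_le_pow_left₀ (hgt_pos w).le h5 A
            _ = (Q1 R ^ (r * m)) ^ (r * A) * hgt x ^ A := by
                rw [mul_pow, pow_mul (Q1 R ^ (r * m)) r A])
    have h6 : hgt x ≤ (B * (x j0).y) ^ r := by
      calc hgt x ≤ ∏ _j : J, (B * (x j0).y) :=
            Finset.prod_le_prod (fun j _ => (x j).pos.le) fun j _ => hbal j j0
        _ = (B * (x j0).y) ^ r := by rw [Finset.prod_const, Finset.card_univ]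
    have h7 : hgt x ^ m ≤ (B * (x j0).y) ^ (r * m) := by
      rw [pow_mul]
      exact pow_le_pow_left₀ hhx.le h6 m
    calc ‖(Rk κ)^[r * m] f x‖ * hgt x ^ m
        ≤ (C * (δ / (x j0).y) ^ (r * m) * (M0 * (Q1 R ^ (r * m)) ^ (r * A) * hgt x ^ A)) *
          (B * (x j0).y) ^ (r * m) := by
          refine mul_le_mul h1 h7 (by positivity) ?_
          have : 0 ≤ C * (δ / (x j0).y) ^ (r * m) := by positivity
          exact mul_nonneg this hG0
      _ = C * B ^ (r * m) * (Q1 R ^ (r * m)) ^ (r * A) * δ ^ (r * m) * M0 * hgt x ^ A := by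
          have e : (δ / (x j0).y) ^ (r * m) * (B * (x j0).y) ^ (r * m) = (δ * B) ^ (r * m) := by
            rw [← mul_pow]
            congr 1
            field_simp
          calc (C * (δ / (x j0).y) ^ (r * m) * (M0 * (Q1 R ^ (r * m)) ^ (r * A) * hgt x ^ A)) *
              (B * (x j0).y) ^ (r * m) = C * (M0 * (Q1 R ^ (r * m)) ^ (r * A) * hgt x ^ A) *
                ((δ / (x j0).y) ^ (r * m) * (B * (x j0).y) ^ (r * m)) := by ring
            _ = _ := by rw [e, mul_pow]; ring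

end Fermat.Agent.H5Z
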