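import Fermat.Agent.H39ZMean2
import Fermat.Agent.H5ZIter
import Fermat.Agent.H56ZRad4

/-!
# Constant terms of functions on `(H3)^J` (helper39, S47 C5)

* `ct0 f x`: the mean of `z ↦ f (tr z x)`;
* `HP b f`: `f` is periodic, along all horospheres, under a multiple of the lattice of `b`;
* `ct0_tr`, `ct0_dil`, `ct0_sum`, `ct0_Rk`.
-/

set_option autoImplicit false
set_option linter.unusedSectionVars false
set_option linter.style.haveILetI false

noncomputable section

open MeasureTheory Set Module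

namespace Fermat.Agent.H39Z

open Fermat.Agent.H5Z (Per tr chv Rk Bl tr_tr tr_z tr_y continuous_tr_uncurry continuous_tr
  measurable_tr_uncurry Rk_tr continuous_chv_right measurableSet_Bl measurable_Rk)
open Fermat.Agent.H56Z (IsRC IsLB isCompact_Bl)

variable {J : Type*} [Fintype J] {ι : Type*} [Fintype ι]

/-- the constant term -/
def ct0 (f : (J → H3) → ℂ) (x : J → H3) : ℂ :=
  cmean (volume : Measure (J → ℂ)) (fun z => f (tr z x))

/-- periodicity along all horospheres under a multiple of the lattice of `b` -/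
def HP (b : Basis ι ℝ (J → ℂ)) (f : (J → H3) → ℂ) : Prop :=
  ∃ n : ℕ, 0 < n ∧ ∀ x, NPer b n (fun z => f (tr z x))

theorem LB.tr_left {f : (J → H3) → ℂ} (hf : LB f) (x : J → H3) : LB fun z : J → ℂ => f (tr z x) :=
  hf.comp (H5Z.continuous_tr_left x)

theorem HP.exists_common {κ : Type*} {b : Basis ι ℝ (J → ℂ)} (s : Finset κ)
    {f : κ → (J → H3) → ℂ} (h : ∀ i ∈ s, HP b (f i)) :
    ∃ n : ℕ, 0 < n ∧ ∀ i ∈ s, ∀ x, NPer b n (fun z => f i (tr z x)) := by
  classical
  induction s using Finset.induction_on with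
  | empty => exact ⟨1, one_pos, fun i hi => absurd hi (Finset.notMem_empty i)⟩
  | insert a s ha ih =>
    obtain ⟨n, hn, h1⟩ := ih fun i hi => h i (Finset.mem_insert_of_mem hi)
    obtain ⟨n', hn', h2⟩ := h a (Finset.mem_insert_self a s)
    refine ⟨n * n', Nat.mul_pos hn hn', fun i hi x => ?_⟩
    rcases Finset.mem_insert.mp hi with rfl | hi
    · exact (h2 x).of_dvd (Dvd.intro_left n rfl)
    · exact (h1 i hi x).of_dvd (Dvd.intro n' rfl)

theorem HP.sum {κ : Type*} {b : Basis ι ℝ (J → ℂ)} (s : Finset κ)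
    {f : κ → (J → H3) → ℂ} (h : ∀ i ∈ s, HP b (f i)) : HP b (fun x => ∑ i ∈ s, f i x) := by
  obtain ⟨n, hn, h1⟩ := HP.exists_common s h
  exact ⟨n, hn, fun x z v hv => Finset.sum_congr rfl fun i hi => h1 i hi x z v hv⟩

theorem HP.const_mul {b : Basis ι ℝ (J → ℂ)} {f : (J → H3) → ℂ} (h : HP b f) (c : ℂ) :
    HP b (fun x => c * f x) := by
  obtain ⟨n, hn, h1⟩ := h
  refine ⟨n, hn, fun x z v hv => ?_⟩
  have h2 := h1 x z v hv
  simp only at h2 ⊢
  rw [h2]

theorem HP.comp_tr {b : Basis ι ℝ (J → ℂ)} {f : (J → H3) → ℂ} (h : HP b f) (w : J → ℂ) :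
    HP b (fun x => f (tr w x)) := by
  obtain ⟨n, hn, h1⟩ := h
  refine ⟨n, hn, fun x z v hv => ?_⟩
  have h2 := h1 x (z + w) v hv
  simp only [tr_tr] at h2 ⊢
  rw [add_right_comm]
  exact h2

theorem ct0_eq {b : Basis ι ℝ (J → ℂ)} {f : (J → H3) → ℂ} (hf : LB f) {n : ℕ} (hn : 0 < n)
    {x : J → H3} (h : NPer b n (fun z => f (tr z x))) :
    ct0 f x = lm volume (sb b hn) (fun z => f (tr z x)) :=
  SPer.cmean_eq volume (hf.tr_left x) hn h

/-- The constant term only depends on the heights. -/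
theorem ct0_tr {b : Basis ι ℝ (J → ℂ)} {f : (J → H3) → ℂ} (hf : LB f) (h : HP b f)
    (w : J → ℂ) (x : J → H3) : ct0 f (tr w x) = ct0 f x := by
  obtain ⟨n, hn, h1⟩ := h
  have h2 := cmean_comp_add volume (hf.tr_left x) ((h1 x).per hn) w
  rw [ct0, ct0, ← h2]
  congr 1
  funext z
  rw [tr_tr, add_comm]

theorem ct0_comp_tr {b : Basis ι ℝ (J → ℂ)} {f : (J → H3) → ℂ} (hf : LB f) (h : HP b f)
    (w : J → ℂ) (x : J → H3) : ct0 (fun x => f (tr w x)) x = ct0 f x := by
  obtain ⟨n, hn, h1⟩ := h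
  have h2 := cmean_comp_add volume (hf.tr_left x) ((h1 x).per hn) w
  rw [ct0, ct0, ← h2]
  congr 1
  funext z
  rw [tr_tr]

/-- dilation by `a ∈ (ℂˣ)^J` -/
def dil (a : J → ℂˣ) (x : J → H3) : J → H3 := fun j =>
  ⟨a j * (x j).z, ‖(a j : ℂ)‖ * (x j).y, mul_pos (norm_pos_iff.2 (a j).ne_zero) (x j).pos⟩

theorem dil_tr (a : J → ℂˣ) (z : J → ℂ) (x : J → H3) :
    dil a (tr z x) = tr (fun j => a j * z j) (dil a x) := by
  funext j
  ext
  · simp only [dil, tr_z]; ring
  · rfl

/-- multiplication by `a ∈ (ℂˣ)^J` -/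
def dilL (a : J → ℂˣ) : (J → ℂ) ≃ₗ[ℝ] (J → ℂ) where
  toFun z j := a j * z j
  map_add' z w := funext fun j => mul_add _ _ _
  map_smul' c z := funext fun j => by
    simp only [Pi.smul_apply, RingHom.id_apply, Complex.real_smul]; ring
  invFun z j := (a j : ℂ)⁻¹ * z j
  left_inv z := funext fun j => by
    simp only
    rw [← mul_assoc, inv_mul_cancel₀ (a j).ne_zero, one_mul]
  right_inv z := funext fun j => by
    simp only
    rw [← mul_assoc, mul_inv_cancel₀ (a j).ne_zero, one_mul]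

/-- Dilations. -/
theorem ct0_comp_dil {b : Basis ι ℝ (J → ℂ)} {f : (J → H3) → ℂ} (hf : LB f) (h : HP b f)
    (a : J → ℂˣ) (x : J → H3) : ct0 (fun x => f (dil a x)) x = ct0 f (dil a x) := by
  obtain ⟨n, hn, h1⟩ := h
  have h2 := cmean_comp_linear volume (hf.tr_left (dil a x)) ((h1 (dil a x)).per hn) (dilL a)
  rw [ct0, ct0, ← h2]
  congr 1
  funext z
  rw [dil_tr]
  rfl

theorem ct0_sum {κ : Type*} {b : Basis ι ℝ (J → ℂ)} (s : Finset κ) {f : κ → (J → H3) → ℂ}
    (hf : ∀ i ∈ s, LB (f i)) (h : ∀ i ∈ s, HP b (f i)) (x : J → H3) :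
    ct0 (fun x => ∑ i ∈ s, f i x) x = ∑ i ∈ s, ct0 (f i) x := by
  refine cmean_sum volume (b := b) s (fun i hi => (hf i hi).tr_left x) fun i hi => ?_
  obtain ⟨n, hn, h1⟩ := h i hi
  exact ⟨n, hn, h1 x⟩

theorem ct0_const_mul {b : Basis ι ℝ (J → ℂ)} {f : (J → H3) → ℂ} (hf : LB f) (h : HP b f)
    (c : ℂ) (x : J → H3) : ct0 (fun x => c * f x) x = c * ct0 f x := by
  obtain ⟨n, hn, h1⟩ := h
  exact cmean_const_mul volume (hf.tr_left x) ((h1 x).per hn) c

theorem LB.isLB {f : (J → H3) → ℂ} (hf : LB f) : IsLB f := by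
  refine ⟨hf.1.aestronglyMeasurable, fun R x => ?_⟩
  obtain ⟨C, hC⟩ := hf.2 _ (isCompact_Bl R x)
  exact ⟨max C 0, le_max_right _ _, fun w hw => (hC w hw).trans (le_max_left _ _)⟩

theorem LB.of_continuous {X : Type*} [TopologicalSpace X] [MeasurableSpace X]
    [OpensMeasurableSpace X] {f : X → ℂ} (hf : Continuous f) : LB f :=
  ⟨hf.measurable, fun _ hK => hK.exists_bound_of_continuousOn hf.continuousOn⟩

theorem LB.Rk {κ : (J → ℝ) → ℂ} (hκ : IsRC κ) {f : (J → H3) → ℂ} (hf : LB f) : LB (Rk κ f) :=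
  LB.of_continuous (H56Z.continuous_Rk hκ hf.isLB)

theorem HP.Rk {b : Basis ι ℝ (J → ℂ)} {f : (J → H3) → ℂ} (h : HP b f) (κ : (J → ℝ) → ℂ) :
    HP b (Rk κ f) := by
  obtain ⟨n, hn, h1⟩ := h
  refine ⟨n, hn, fun x z v hv => ?_⟩
  simp only [Rk_tr]
  unfold H5Z.Rk
  congr 1
  funext w
  congr 1
  exact h1 w z v hv

/-- the constant term is measurable and locally bounded -/
theorem LB.ct0 {b : Basis ι ℝ (J → ℂ)} {f : (J → H3) → ℂ} (hf : LB f) (h : HP b f) :
    LB (ct0 f) := by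
  obtain ⟨n, hn, h1⟩ := h
  have e : Fermat.Agent.H39Z.ct0 f = fun x => lm volume (sb b hn) (fun z => f (tr z x)) :=
    funext fun x => ct0_eq hf hn (h1 x)
  rw [e]
  haveI := finite_fd volume (sb b hn)
  constructor
  · have h2 : Measurable (fun p : (J → H3) × (J → ℂ) => f (tr p.2 p.1)) :=
      hf.1.comp (measurable_tr_uncurry.comp measurable_swap)
    have h3 := (h2.stronglyMeasurable.integral_prod_right
      (ν := volume.restrict (ZSpan.fundamentalDomain (sb b hn)))
      (f := fun x z => f (tr z x))).measurable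
    exact Measurable.const_smul h3 ((volume.real (ZSpan.fundamentalDomain (sb b hn)))⁻¹ : ℝ)
  · intro K hK
    obtain ⟨C, hC⟩ := hf.2 _ (((isCompact_fd (sb b hn)).prod hK).image
      (continuous_tr_uncurry (J := J)))
    refine ⟨C, fun x hx => ?_⟩
    have h4 := norm_setIntegral_le_of_norm_le_const (f := fun z : J → ℂ => f (tr z x)) (C := C)
      (fd_lt_top volume (sb b hn)) fun z hz => hC _ ⟨(z, x), ⟨subset_closure hz, hx⟩, rfl⟩
    show ‖lm volume (sb b hn) (fun z => f (tr z x))‖ ≤ C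
    rw [lm, norm_smul, norm_inv, Real.norm_of_nonneg (fd_pos volume (sb b hn)).le,
      inv_mul_le_iff₀ (fd_pos volume (sb b hn)), mul_comm]
    exact h4

/-- **The constant term commutes with radial kernels.** -/
theorem ct0_Rk {b : Basis ι ℝ (J → ℂ)} {f : (J → H3) → ℂ} (hf : LB f) (h : HP b f)
    {κ : (J → ℝ) → ℂ} (hκ : IsRC κ) (x : J → H3) : ct0 (Rk κ f) x = Rk κ (ct0 f) x := by
  have hRk := h.Rk κ
  obtain ⟨n, hn, h1⟩ := h
  have e : ∀ x, ct0 f x = lm volume (sb b hn) (fun z => f (tr z x)) :=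
    fun x => ct0_eq hf hn (h1 x)
  have h2 : NPer b n (fun z => Rk κ f (tr z x)) := by
    intro z v hv
    simp only [Rk_tr]
    unfold H5Z.Rk
    congr 1
    funext w
    congr 1
    exact h1 w z v hv
  rw [ct0_eq (hf.Rk hκ) hn h2]
  set D := ZSpan.fundamentalDomain (sb b hn) with hD
  have hDm : MeasurableSet D := ZSpan.fundamentalDomain_measurableSet (sb b hn)
  obtain ⟨R, M, hR1, hM0, hM, hR⟩ := hκ.exists_bounds
  have hBm := measurableSet_Bl R x
  have hBc := isCompact_Bl R x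
  obtain ⟨C, hC⟩ := hf.2 _ (((isCompact_fd (sb b hn)).prod hBc).image
      (continuous_tr_uncurry (J := J)))
  have hjm : Measurable (fun p : (J → ℂ) × (J → H3) => κ (chv x p.2) * f (tr p.1 p.2)) :=
    ((hκ.cont.comp (continuous_chv_right x)).measurable.comp measurable_snd).mul
      (hf.1.comp measurable_tr_uncurry)
  have hint : Integrable (Function.uncurry fun (z : J → ℂ) (w : J → H3) =>
      κ (chv x w) * f (tr z w)) ((volume.restrict D).prod volume) := by
    have hfin : ((volume.restrict D).prod (volume : Measure (J → H3)))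
        ((univ : Set (J → ℂ)) ×ˢ Bl R x) < ⊤ := by
      rw [Measure.prod_prod, Measure.restrict_apply_univ]
      exact ENNReal.mul_lt_top (fd_lt_top volume _) hBc.measure_lt_top
    have hion : IntegrableOn (Function.uncurry fun (z : J → ℂ) (w : J → H3) =>
        κ (chv x w) * f (tr z w)) (D ×ˢ Bl R x) ((volume.restrict D).prod volume) := by
      refine Measure.integrableOn_of_bounded (M := M * C) ?_ hjm.aestronglyMeasurable ?_
      · exact (lt_of_le_of_lt (measure_mono (prod_mono (subset_univ _) subset_rfl)) hfin).ne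
      · refine (ae_restrict_iff' (hDm.prod hBm)).mpr (Filter.Eventually.of_forall ?_)
        rintro ⟨z, w⟩ ⟨hz, hw⟩
        show ‖κ (chv x w) * f (tr z w)‖ ≤ M * C
        rw [norm_mul]
        exact mul_le_mul (hM _) (hC _ ⟨(z, w), ⟨subset_closure hz, hw⟩, rfl⟩)
          (norm_nonneg _) hM0
    refine hion.integrable_of_ae_notMem_eq_zero ?_
    have hae : ∀ᵐ p ∂((volume.restrict D).prod (volume : Measure (J → H3))), p.1 ∈ D := by
      have h3 : ∀ᵐ z ∂(volume.restrict D), z ∈ D := ae_restrict_mem hDm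
      exact (Measure.quasiMeasurePreserving_fst (μ := volume.restrict D)
        (ν := (volume : Measure (J → H3)))).ae h3
    filter_upwards [hae] with p hp hnot
    have hw : p.2 ∉ Bl R x := fun hw => hnot ⟨hp, hw⟩
    show κ (chv x p.2) * f (tr p.1 p.2) = 0
    rw [IsRC.eq_zero_of_notMem hR hw, zero_mul]
  have hswap := integral_integral_swap hint
  rw [lm, ← hD]
  simp only [Rk_tr]
  unfold H5Z.Rk
  rw [hswap, ← integral_smul]
  congr 1
  funext w
  rw [e w, lm, ← hD, integral_const_mul]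
  rw [mul_smul_comm]

end Fermat.Agent.H39Z
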