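import Fermat.Agent.H31Hyp2

/-!
# Hyperbolic 3-space, part 3 (helper31)

Horospherical integrals of radial kernels, Haar measure in polar coordinates, products.

* `integral_radial` : `∫_ℂ f (‖z‖) dz = 2π ∫_{r > 0} r f(r) dr`
* `integral_horo` : `∫_ℂ κ(ch (z₀, y) (z, y')) dz = 2π y y' ∫_{t > (y² + y'²)/(2yy')} κ(t) dt`
* `measurePreserving_smul_pi` : invariance of the measure of `ι → H3` under `ι → GL (Fin 2) ℂ`.
-/

set_option autoImplicit false
set_option linter.unusedSectionVars false

noncomputable section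

open MeasureTheory Matrix
open scoped ComplexConjugate Real

namespace Fermat.Agent

namespace H3

variable {E : Type*} [NormedAddCommGroup E] [NormedSpace ℝ E]

/-- radial integrals over `ℂ` -/
theorem integral_radial (f : ℝ → E) :
    ∫ z : ℂ, f ‖z‖ = (2 * π) • ∫ r in Set.Ioi (0 : ℝ), r • f r := by
  rw [integral_fun_norm_addHaar (volume : Measure ℂ) f, Complex.finrank_real_complex]
  have h1 : (volume : Measure ℂ).real (Metric.ball 0 1) = π := by
    rw [Measure.real, Complex.volume_ball]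
    simp
  rw [h1, ← Nat.cast_smul_eq_nsmul ℝ, smul_smul]
  norm_num

/-- change of variables `t = (A + r²) / B` -/
theorem integral_subst {A B : ℝ} (hB : 0 < B) (κ : ℝ → E) :
    ∫ r in Set.Ioi (0 : ℝ), r • κ ((A + r ^ 2) / B) =
      (B / 2) • ∫ t in Set.Ioi (A / B), κ t := by
  have himg : (fun r : ℝ => (A + r ^ 2) / B) '' Set.Ioi 0 = Set.Ioi (A / B) := by
    ext t
    simp only [Set.mem_image, Set.mem_Ioi]
    constructor
    · rintro ⟨r, hr, rfl⟩
      have : 0 < r ^ 2 := by positivity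
      gcongr
      linarith
    · intro ht
      have h1 : 0 < B * t - A := by
        have := (div_lt_iff₀ hB).mp ht
        linarith
      refine ⟨Real.sqrt (B * t - A), Real.sqrt_pos.mpr h1, ?_⟩
      rw [Real.sq_sqrt h1.le]
      field_simp
      ring
  have hinj : Set.InjOn (fun r : ℝ => (A + r ^ 2) / B) (Set.Ioi 0) := by
    intro r hr r' hr' h
    have hr0 : (0 : ℝ) < r := hr
    have hr0' : (0 : ℝ) < r' := hr'
    have h2 : A + r ^ 2 = A + r' ^ 2 := (div_left_inj' hB.ne').mp h
    have h3 : r ^ 2 = r' ^ 2 := by linarith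
    exact (pow_left_inj₀ hr0.le hr0'.le two_ne_zero).mp h3
  have key := integral_image_eq_integral_abs_deriv_smul (s := Set.Ioi (0 : ℝ)) measurableSet_Ioi
    (f := fun r : ℝ => (A + r ^ 2) / B) (f' := fun r => 2 * r / B)
    (fun r _ => by
      have h1 : HasDerivAt (fun r : ℝ => (A + r ^ 2) / B) (2 * r / B) r := by
        have := (((hasDerivAt_id r).pow 2).const_add A).div_const B
        simpa using this
      exact h1.hasDerivWithinAt) hinj κ
  rw [himg] at key
  rw [key, ← integral_smul]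
  refine setIntegral_congr_fun measurableSet_Ioi fun r hr => ?_
  have hr0 : (0 : ℝ) < r := hr
  have h2 : (0 : ℝ) ≤ 2 * r / B := by positivity
  rw [abs_of_nonneg h2, smul_smul]
  congr 1
  field_simp

/-- **Horospherical integral of a radial kernel.** -/
theorem integral_horo (κ : ℝ → E) (w : H3) {y' : ℝ} (hy' : 0 < y') :
    ∫ z : ℂ, κ (ch w ⟨z, y', hy'⟩) = (2 * π * w.y * y') •
      ∫ t in Set.Ioi ((w.y ^ 2 + y' ^ 2) / (2 * w.y * y')), κ t := by
  have hy := w.pos
  have h1 : ∫ z : ℂ, κ (ch w ⟨z, y', hy'⟩) =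
      ∫ z : ℂ, (fun r => κ (((w.y ^ 2 + y' ^ 2) + r ^ 2) / (2 * w.y * y'))) ‖z‖ := by
    rw [← integral_sub_left_eq_self _ (volume : Measure ℂ) w.z]
    refine integral_congr_ae (Filter.Eventually.of_forall fun z => ?_)
    simp only [ch]
    congr 2
    rw [show w.z - (w.z - z) = z by ring, Complex.normSq_eq_norm_sq]
    ring
  refine h1.trans ((integral_radial (fun r =>
    κ (((w.y ^ 2 + y' ^ 2) + r ^ 2) / (2 * w.y * y')))).trans ?_)
  rw [integral_subst (by positivity), smul_smul]
  congr 1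
  ring

/-- the same with `n(b)` -/
theorem integral_nMat (κ : ℝ → E) (w w' : H3) :
    ∫ b : ℂ, κ (ch w (nMat b • w')) = (2 * π * w.y * w'.y) •
      ∫ t in Set.Ioi ((w.y ^ 2 + w'.y ^ 2) / (2 * w.y * w'.y)), κ t := by
  rw [← integral_horo κ w w'.pos,
    ← integral_add_left_eq_self (fun z : ℂ => κ (ch w ⟨z, w'.y, w'.pos⟩)) w'.z]
  simp only [nMat_smul]

/-- `(y² + y'²)/(2yy') = cosh (log (y / y'))` -/
theorem cosh_log_div {y y' : ℝ} (hy : 0 < y) (hy' : 0 < y') :
    (y ^ 2 + y' ^ 2) / (2 * y * y') = Real.cosh (Real.log (y / y')) := by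
  rw [Real.cosh_log (by positivity)]
  field_simp

/-- The integral of a radial function. -/
theorem integral_ch (κ : ℝ → E) (w : H3) (hκ : Integrable fun v : H3 => κ (ch w v)) :
    ∫ v : H3, κ (ch w v) = ∫ y' in Set.Ioi (0 : ℝ), (2 * π * w.y / y' ^ 2) •
      ∫ t in Set.Ioi ((w.y ^ 2 + y' ^ 2) / (2 * w.y * y')), κ t := by
  have hκ' : ∀ v : H3, κ (ch w v) =
      (fun (z : ℂ) (y : ℝ) => κ ((Complex.normSq (w.z - z) + w.y ^ 2 + y ^ 2) / (2 * w.y * y)))
        v.z v.y := fun v => rfl
  have h1 := integral_eq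
    (fun (z : ℂ) (y : ℝ) => κ ((Complex.normSq (w.z - z) + w.y ^ 2 + y ^ 2) / (2 * w.y * y))) hκ
  refine (h1 : ∫ v : H3, κ (ch w v) = _).trans ?_
  refine setIntegral_congr_fun measurableSet_Ioi fun y' hy' => ?_
  have hy0 : (0 : ℝ) < y' := hy'
  have h2 := integral_horo κ w hy0
  simp only [ch] at h2
  rw [h2, smul_smul]
  congr 1
  field_simp

/-! ### Products -/

section Pi

variable {ι : Type*} [Fintype ι]

/-- The product measure on `ι → H3` is invariant under `ι → GL (Fin 2) ℂ`. -/
theorem measurePreserving_smul_pi (g : ι → GL (Fin 2) ℂ) :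
    MeasurePreserving (fun x : ι → H3 => fun i => g i • x i) volume volume :=
  volume_preserving_pi fun i => measurePreserving_smul (g i)

theorem continuous_smul_pi (g : ι → GL (Fin 2) ℂ) :
    Continuous (fun x : ι → H3 => fun i => g i • x i) :=
  continuous_pi fun i => (continuous_smul_const (g i)).comp (continuous_apply i)

end Pi

end H3

end Fermat.Agent
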