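import Fermat.Agent.H95S2
import Fermat.Agent.H31Hyp3

/-!
# Bounded kernel: analytic half of the bridge to the model (helper86)

`X = (J → H3) × Y`, `G` a countable group acting on `J → H3` (preserving all `ch` and the measure)
and on `Y`.  A kernel `c : X → X → ℂ` of class `TK` (invariant, measurable, bounded, locally
bounded range, finite in `Y`) has an automorphic kernel `K c x y = ∑' g, c x (g • y)`.

* `RX κ` : the operator `R(κ)` on functions on `X`; `RC κ` on kernels (first variable);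
* `TK.RC` : the class is stable under `RC κ`;
* `K_RC` : `K (RC κ c) = R(κ) (K c)`;
* `cusp_K` : vanishing of constant terms is preserved by `R(κ)`;
* `bounded` : the bounded kernel theorem for `K (RC κ)^k c`.
-/

set_option autoImplicit false
set_option linter.unusedSectionVars false

noncomputable section

open MeasureTheory
open scoped ComplexConjugate Real

namespace Fermat.Agent.H86B

open Fermat.Agent.H3 Fermat.Agent.H95S

variable {J : Type*} [Fintype J] {Y : Type*}

/-! ### Compact boxes -/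

/-- compact boxes in `J → H3` -/
def D (J : Type*) (R : ℝ) : Set (J → H3) := {v | ∀ j, ‖(v j).z‖ ≤ R ∧ (v j).y ≤ R ∧ 1 ≤ R * (v j).y}

theorem exists_mem_D (v : J → H3) : ∃ R, v ∈ D J R := by
  classical
  refine ⟨∑ j, (‖(v j).z‖ + (v j).y + 1 / (v j).y), fun j => ?_⟩
  have h0 : ∀ i, 0 ≤ ‖(v i).z‖ + (v i).y + 1 / (v i).y := fun i => by
    have h1 := (v i).pos
    positivity
  have h := Finset.single_le_sum (fun i _ => h0 i) (Finset.mem_univ j)
  have h1 := (v j).pos
  have h2 : 0 < 1 / (v j).y := by positivity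
  have h3 := norm_nonneg (v j).z
  refine ⟨by linarith, by linarith, ?_⟩
  have h4 : 1 / (v j).y ≤ ∑ j, (‖(v j).z‖ + (v j).y + 1 / (v j).y) := by linarith
  rwa [div_le_iff₀ h1] at h4

theorem D_mono {R R' : ℝ} (h : R ≤ R') : D J R ⊆ D J R' := fun v hv j =>
  ⟨(hv j).1.trans h, (hv j).2.1.trans h, (hv j).2.2.trans
    (mul_le_mul_of_nonneg_right h (v j).pos.le)⟩

theorem mem_D_of_box {R T : ℝ} (hT : 1 ≤ T) {v v' : J → H3} (hv : v ∈ D J R)
    (h : v' ∈ box T v) : v' ∈ D J (3 * T * R) := by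
  intro j
  obtain ⟨h1, h2, h3⟩ := hv j
  have h4 := y_le_of_ch_le (h j)
  have h5 : (v j).y ≤ 2 * T * (v' j).y := y_le_of_ch_le (by rw [ch_comm]; exact h j)
  have h6 := norm_z_sub_le (by linarith) (h j)
  have hp := (v j).pos
  have hp' := (v' j).pos
  have hR : 0 < R := by linarith
  have hTR : 0 < T * R := by positivity
  have h7 : ‖(v' j).z‖ ≤ ‖(v j).z‖ + ‖(v j).z - (v' j).z‖ := by
    calc ‖(v' j).z‖ = ‖(v j).z - ((v j).z - (v' j).z)‖ := by congr 1; ring
      _ ≤ _ := norm_sub_le _ _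
  have hR1 : R ≤ T * R := by nlinarith
  refine ⟨?_, ?_, ?_⟩
  · nlinarith
  · nlinarith
  · nlinarith

/-- bound for `ch o` on the box -/
theorem ch_o_le {R : ℝ} {v : J → H3} (hv : v ∈ D J R) (j : J) :
    ch o (v j) ≤ (2 * R ^ 2 + 1) * R := by
  obtain ⟨h1, h2, h3⟩ := hv j
  have hp := (v j).pos
  have hR : 0 < R := by linarith
  have h0 := norm_nonneg (v j).z
  rw [ch, o]
  simp only [zero_sub, Complex.normSq_neg, mul_one, one_pow]
  rw [Complex.normSq_eq_norm_sq, div_le_iff₀ (by positivity)]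
  have h4 : ‖(v j).z‖ ^ 2 ≤ R ^ 2 := by nlinarith
  have h5 : (v j).y ^ 2 ≤ R ^ 2 := by nlinarith
  nlinarith [mul_le_mul_of_nonneg_left h3 (by positivity : (0 : ℝ) ≤ 2 * R ^ 2 + 1)]

/-! ### `R(κ)` -/

theorem tr_eq_smul (u : J → ℂ) (w : J → H3) : tr u w = fun j => nMat (u j) • w j := by
  funext j
  rw [nMat_smul]
  rfl

theorem measurePreserving_tr (u : J → ℂ) : MeasurePreserving (tr u : (J → H3) → J → H3) := by
  have h := measurePreserving_smul_pi (fun j => nMat (u j))
  have e : (tr u : (J → H3) → J → H3) = fun w j => nMat (u j) • w j := funext (tr_eq_smul u)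
  rw [e]
  exact h

theorem ch_tr (u : J → ℂ) (w v : J → H3) (j : J) : ch (tr u w j) (tr u v j) = ch (w j) (v j) := by
  rw [tr_eq_smul, tr_eq_smul]
  exact ch_smul _ _ _

theorem continuous_tr : Continuous fun p : (J → ℂ) × (J → H3) => tr p.1 p.2 := by
  refine continuous_pi fun j => ?_
  refine continuous_mk ?_ ?_
  · show Continuous fun p : (J → ℂ) × (J → H3) => (p.2 j).z + p.1 j
    exact (continuous_z.comp ((continuous_apply j).comp continuous_snd)).add
      ((continuous_apply j).comp continuous_fst)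
  · show Continuous fun p : (J → ℂ) × (J → H3) => (p.2 j).y
    exact continuous_y.comp ((continuous_apply j).comp continuous_snd)

variable {κ : (J → ℝ) → ℂ} {T L M : ℝ}

/-- joint measurability of the kernel -/
theorem measurable_ker (h : Ker κ T L M) :
    Measurable fun p : (J → H3) × (J → H3) => κ fun j => ch (p.1 j) (p.2 j) := by
  refine h.continuous.measurable.comp (Continuous.measurable (continuous_pi fun j => ?_))
  have h1 : Continuous fun p : (J → H3) × (J → H3) => (p.1 j, p.2 j) :=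
    ((continuous_apply j).comp continuous_fst).prodMk ((continuous_apply j).comp continuous_snd)
  exact continuous_ch.comp h1

theorem measurable_RK (h : Ker κ T L M) {f : (J → H3) → ℂ} (hf : Measurable f) :
    Measurable (RK κ f) := by
  have h1 : Measurable fun p : (J → H3) × (J → H3) =>
      (κ fun j => ch (p.1 j) (p.2 j)) * f p.2 := (measurable_ker h).mul (hf.comp measurable_snd)
  exact (h1.stronglyMeasurable.integral_prod_right (ν := volume)).measurable

theorem norm_RK_le (h : Ker κ T L M) {f : (J → H3) → ℂ} {w : J → H3} {S : ℝ}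
    (hS : ∀ v ∈ box T w, ‖f v‖ ≤ S) :
    ‖RK κ f w‖ ≤ M * S * (volT T ^ Fintype.card J).toReal := by
  have hM : 0 ≤ M := (norm_nonneg _).trans (h.bdd 0)
  rw [RK, ← setIntegral_eq_integral_of_forall_compl_eq_zero (s := box T w)]
  · have h1 := norm_setIntegral_le_of_norm_le_const (μ := volume) (volume_box_lt_top T w)
      (f := fun v => (κ fun j => ch (w j) (v j)) * f v) (C := M * S) (fun v hv => by
        rw [norm_mul]
        exact mul_le_mul (h.bdd _) (hS v hv) (norm_nonneg _) hM)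
    rw [Measure.real, volume_box] at h1
    exact h1
  · intro v hv
    rw [h.eq_zero hv, zero_mul]

/-- `R(κ)` on functions on `X` -/
def RX (κ : (J → ℝ) → ℂ) (φ : (J → H3) × Y → ℂ) (x : (J → H3) × Y) : ℂ :=
  RK κ (fun v => φ (v, x.2)) x.1

/-- `R(κ)` on kernels, acting on the first variable -/
def RC (κ : (J → ℝ) → ℂ) (c : (J → H3) × Y → (J → H3) × Y → ℂ)
    (x y : (J → H3) × Y) : ℂ := RX κ (fun x => c x y) x

/-! ### Kernels -/

variable {G : Type*} [Group G] [MulAction G (J → H3)] [MulAction G Y]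

/-- The action on `J → H3` is by isometries preserving the measure. -/
structure Iso (G : Type*) [Group G] (J : Type*) [Fintype J] [MulAction G (J → H3)] : Prop where
  ch_smul : ∀ (g : G) (v w : J → H3) (j : J), ch ((g • v) j) ((g • w) j) = ch (v j) (w j)
  mp : ∀ g : G, MeasurePreserving (fun w : J → H3 => g • w) volume volume

/-- Proper discontinuity. -/
def PD (G : Type*) [Group G] (J : Type*) [Fintype J] (Y : Type*) [MulAction G (J → H3)]
    [MulAction G Y] : Prop :=
  ∀ (η ξ : Y) (w w' : J → H3) (T : ℝ),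
    {g : G | g • η = ξ ∧ ∀ j, ch (w j) ((g • w') j) ≤ T}.Finite

/-- The class of kernels. -/
structure TK (G : Type*) [Group G] [MulAction G (J → H3)] [MulAction G Y]
    (c : (J → H3) × Y → (J → H3) × Y → ℂ) : Prop where
  inv : ∀ (g : G) x y, c (g • x) (g • y) = c x y
  meas : ∀ η y, Measurable fun v => c (v, η) y
  bdd : ∃ M, 0 ≤ M ∧ ∀ x y, ‖c x y‖ ≤ M
  loc : ∀ R, ∃ R', ∀ x y, x.1 ∈ D J R → c x y ≠ 0 → y.1 ∈ D J R'
  fin : ∀ η, {ξ | ∃ v w, c (v, η) (w, ξ) ≠ 0}.Finite

theorem smul_mk (g : G) (w : J → H3) (η : Y) : g • ((w, η) : (J → H3) × Y) = (g • w, g • η) := rfl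

theorem RK_smul (hI : Iso G J) (f : (J → H3) → ℂ) (g : G) (w : J → H3) :
    RK κ f (g • w) = RK κ (fun v => f (g • v)) w := by
  rw [RK, RK]
  have hm : MeasurableEmbedding (fun w : J → H3 => g • w) := by
    refine MeasurableEquiv.measurableEmbedding
      { toFun := fun w : J → H3 => g • w
        invFun := fun w => g⁻¹ • w
        left_inv := fun w => inv_smul_smul g w
        right_inv := fun w => smul_inv_smul g w
        measurable_toFun := (hI.mp g).measurable
        measurable_invFun := (hI.mp g⁻¹).measurable }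
  rw [← (hI.mp g).integral_comp hm]
  congr 1
  funext v
  congr 2
  funext j
  exact hI.ch_smul g w v j

theorem TK.RC (hI : Iso G J) {c : (J → H3) × Y → (J → H3) × Y → ℂ} (hc : TK G c)
    (h : Ker κ T L M) : TK G (RC κ c) where
  inv g x y := by
    show RK κ (fun v => c (v, (g • x).2) (g • y)) (g • x).1 = RK κ (fun v => c (v, x.2) y) x.1
    have e : (g • x).1 = g • x.1 := rfl
    rw [e, RK_smul hI]
    congr 1
    funext v
    exact hc.inv g (v, x.2) y
  meas η y := measurable_RK h (hc.meas η y)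
  bdd := by
    obtain ⟨Mc, hM0, hM⟩ := hc.bdd
    have hM' : 0 ≤ M := (norm_nonneg _).trans (h.bdd 0)
    exact ⟨M * Mc * (volT T ^ Fintype.card J).toReal, by positivity,
      fun x y => norm_RK_le h fun v _ => hM _ _⟩
  loc R := by
    obtain ⟨R', hR'⟩ := hc.loc (3 * T * R)
    refine ⟨R', fun x y hx hne => ?_⟩
    by_contra hcon
    apply hne
    show RK κ (fun v => c (v, x.2) y) x.1 = 0
    rw [RK]
    refine integral_eq_zero_of_ae (Filter.Eventually.of_forall fun v => ?_)
    show (κ fun j => ch (x.1 j) (v j)) * c (v, x.2) y = 0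
    by_cases hv : v ∈ box T x.1
    · have h1 : c (v, x.2) y = 0 := by
        by_contra h2
        exact hcon (hR' (v, x.2) y (mem_D_of_box h.one_le hx hv) h2)
      rw [h1, mul_zero]
    · rw [h.eq_zero hv, zero_mul]
  fin η := by
    refine (hc.fin η).subset ?_
    rintro ξ ⟨v, w, hne⟩
    by_contra hcon
    apply hne
    show RK κ (fun v' => c (v', η) (w, ξ)) v = 0
    rw [RK]
    refine integral_eq_zero_of_ae (Filter.Eventually.of_forall fun v' => ?_)
    show (κ fun j => ch (v j) (v' j)) * c (v', η) (w, ξ) = 0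
    have h1 : c (v', η) (w, ξ) = 0 := by
      by_contra h2
      exact hcon ⟨v', w, h2⟩
    rw [h1, mul_zero]

theorem TK.finite_supp (hP : PD G J Y) {c : (J → H3) × Y → (J → H3) × Y → ℂ} (hc : TK G c)
    (R : ℝ) (η : Y) (y : (J → H3) × Y) :
    {g : G | ∃ v ∈ D J R, c (v, η) (g • y) ≠ 0}.Finite := by
  obtain ⟨R', hR'⟩ := hc.loc R
  refine ((hc.fin η).biUnion fun ξ _ =>
    hP y.2 ξ (fun _ => o) y.1 ((2 * R' ^ 2 + 1) * R')).subset ?_
  rintro g ⟨v, hv, hne⟩
  have h1 := hR' (v, η) (g • y) hv hne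
  exact Set.mem_biUnion (⟨v, _, hne⟩ : g • y.2 ∈ {ξ | ∃ v w, c (v, η) (w, ξ) ≠ 0})
    ⟨rfl, fun j => ch_o_le h1 j⟩

/-- The automorphic kernel. -/
def K (G : Type*) [Group G] [MulAction G (J → H3)] [MulAction G Y]
    (c : (J → H3) × Y → (J → H3) × Y → ℂ) (x y : (J → H3) × Y) : ℂ := ∑' g : G, c x (g • y)

theorem K_smul {c : (J → H3) × Y → (J → H3) × Y → ℂ} (hc : TK G c) (h : G)
    (x y : (J → H3) × Y) : K G c (h • x) y = K G c x y := by
  rw [K, K, ← (Equiv.mulLeft h).tsum_eq]
  congr 1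
  funext g
  show c (h • x) ((h * g) • y) = c x (g • y)
  rw [mul_smul, hc.inv]

theorem K_smul_right {c : (J → H3) × Y → (J → H3) × Y → ℂ} (h : G)
    (x y : (J → H3) × Y) : K G c x (h • y) = K G c x y := by
  rw [K, K, ← (Equiv.mulRight h).tsum_eq (fun g => c x (g • y))]
  congr 1
  funext g
  show c x (g • (h • y)) = c x ((g * h) • y)
  rw [mul_smul]

theorem K_symm {c : (J → H3) × Y → (J → H3) × Y → ℂ} (hc : TK G c)
    (hs : ∀ x y, c y x = conj (c x y)) (x y : (J → H3) × Y) : K G c y x = conj (K G c x y) := by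
  rw [K, K, Complex.conj_tsum, ← (Equiv.inv G).tsum_eq]
  congr 1
  funext g
  show c y (g⁻¹ • x) = conj (c x (g • y))
  rw [← hc.inv g, smul_inv_smul, hs]

/-- On a compact box the automorphic kernel is a fixed finite sum. -/
theorem K_eq_sum (hP : PD G J Y) {c : (J → H3) × Y → (J → H3) × Y → ℂ} (hc : TK G c)
    (R : ℝ) (η : Y) (y : (J → H3) × Y) {v : J → H3} (hv : v ∈ D J R) :
    K G c (v, η) y = ∑ g ∈ (hc.finite_supp hP R η y).toFinset, c (v, η) (g • y) := by
  refine tsum_eq_sum fun g hg => ?_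
  by_contra hne
  exact hg ((Set.Finite.mem_toFinset _).mpr ⟨v, hv, hne⟩)

theorem K_locBdd (hP : PD G J Y) {c : (J → H3) × Y → (J → H3) × Y → ℂ} (hc : TK G c)
    (R : ℝ) (η : Y) (y : (J → H3) × Y) :
    ∃ S, 0 ≤ S ∧ ∀ v ∈ D J R, ‖K G c (v, η) y‖ ≤ S := by
  obtain ⟨Mc, hM0, hM⟩ := hc.bdd
  refine ⟨(hc.finite_supp hP R η y).toFinset.card * Mc, by positivity, fun v hv => ?_⟩
  rw [K_eq_sum hP hc R η y hv]
  refine (norm_sum_le _ _).trans ?_
  rw [← nsmul_eq_mul]
  exact Finset.sum_le_card_nsmul _ _ _ fun g _ => hM _ _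

theorem measurableSet_D (R : ℝ) : MeasurableSet (D J R) := by
  have e : D J R = ⋂ j, ({v : J → H3 | ‖(v j).z‖ ≤ R} ∩ ({v | (v j).y ≤ R} ∩
      {v | 1 ≤ R * (v j).y})) := by
    ext v
    simp [D]
  rw [e]
  refine MeasurableSet.iInter fun j => ?_
  have hz : Continuous fun v : J → H3 => (v j).z := continuous_z.comp (continuous_apply j)
  have hy : Continuous fun v : J → H3 => (v j).y := continuous_y.comp (continuous_apply j)
  exact (measurableSet_le hz.norm.measurable measurable_const).inter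
    ((measurableSet_le hy.measurable measurable_const).inter
      (measurableSet_le measurable_const (continuous_const.mul hy).measurable))

theorem measurable_K (hP : PD G J Y) {c : (J → H3) × Y → (J → H3) × Y → ℂ} (hc : TK G c)
    (η : Y) (y : (J → H3) × Y) : Measurable fun v => K G c (v, η) y := by
  -- limit of the restrictions to the boxes `D n`
  have h1 : ∀ n : ℕ, Measurable fun v => (D J (n : ℝ)).indicator
      (fun v => ∑ g ∈ (hc.finite_supp hP n η y).toFinset, c (v, η) (g • y)) v := by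
    intro n
    refine Measurable.indicator ?_ (measurableSet_D _)
    exact Finset.measurable_fun_sum _ fun g _ => hc.meas η (g • y)
  refine measurable_of_tendsto_metrizable h1 ?_
  rw [tendsto_pi_nhds]
  intro v
  obtain ⟨R, hR⟩ := exists_mem_D v
  refine tendsto_const_nhds.congr' ?_
  filter_upwards [Filter.eventually_ge_atTop (Nat.ceil R)] with n hn
  have h2 : v ∈ D J (n : ℝ) := D_mono (Nat.ceil_le.mp hn) hR
  rw [Set.indicator_of_mem h2, K_eq_sum hP hc n η y h2]

/-- `K (R(κ) c) = R(κ) (K c)` -/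
theorem K_RC (hP : PD G J Y) {c : (J → H3) × Y → (J → H3) × Y → ℂ} (hc : TK G c)
    (h : Ker κ T L M) (w : J → H3) (η : Y) (y : (J → H3) × Y) :
    K G (RC κ c) (w, η) y = RK κ (fun v => K G c (v, η) y) w := by
  classical
  obtain ⟨R, hR⟩ := exists_mem_D w
  have hbox : ∀ v ∈ box T w, v ∈ D J (3 * T * R) := fun v hv => mem_D_of_box h.one_le hR hv
  set S := (hc.finite_supp hP (3 * T * R) η y).toFinset with hS
  obtain ⟨Mc, hM0, hM⟩ := hc.bdd
  have h1 : RK κ (fun v => K G c (v, η) y) w =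
      ∫ v, ∑ g ∈ S, (κ fun j => ch (w j) (v j)) * c (v, η) (g • y) := by
    rw [RK]
    congr 1
    funext v
    by_cases hv : v ∈ box T w
    · rw [K_eq_sum hP hc _ η y (hbox v hv), Finset.mul_sum]
    · rw [h.eq_zero hv]
      simp
  rw [h1, integral_finsetSum]
  swap
  · intro g _
    exact h.integrable (hc.meas η (g • y)) (S := Mc) fun v _ => hM _ _
  rw [K]
  rw [tsum_eq_sum (s := S)]
  · rfl
  · intro g hg
    show RK κ (fun v => c (v, η) (g • y)) w = 0
    rw [RK]
    refine integral_eq_zero_of_ae (Filter.Eventually.of_forall fun v => ?_)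
    show (κ fun j => ch (w j) (v j)) * c (v, η) (g • y) = 0
    by_cases hv : v ∈ box T w
    · have h2 : c (v, η) (g • y) = 0 := by
        by_contra h3
        exact hg ((Set.Finite.mem_toFinset _).mpr ⟨v, hbox v hv, h3⟩)
      rw [h2, mul_zero]
    · rw [h.eq_zero hv, zero_mul]

/-! ### Constant terms -/

theorem RK_tr (f : (J → H3) → ℂ) (u : J → ℂ) (w : J → H3) :
    RK κ f (tr u w) = RK κ (fun v => f (tr u v)) w := by
  rw [RK, RK]
  have hm : MeasurableEmbedding (tr u : (J → H3) → J → H3) := by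
    refine MeasurableEquiv.measurableEmbedding
      { toFun := tr u
        invFun := tr (-u)
        left_inv := fun w => by
          rw [tr_tr, neg_add_cancel]
          funext j
          ext <;> simp
        right_inv := fun w => by
          rw [tr_tr, add_neg_cancel]
          funext j
          ext <;> simp
        measurable_toFun := (measurePreserving_tr u).measurable
        measurable_invFun := (measurePreserving_tr (-u)).measurable }
  rw [← (measurePreserving_tr u).integral_comp hm]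
  congr 1
  funext v
  congr 2
  funext j
  exact ch_tr u w v j

/-- `R(κ)` preserves functions with zero constant term. -/
theorem RK_cusp (h : Ker κ T L M) {f : (J → H3) → ℂ} (hf : Measurable f)
    (hb : ∀ R, ∃ S, ∀ v ∈ D J R, ‖f v‖ ≤ S) {P : Set (J → ℂ)} (hP : MeasurableSet P)
    {δ : ℝ} (hδ : ∀ u ∈ P, ∀ j, ‖u j‖ ≤ δ)
    (h0 : ∀ w, ∫ u in P, f (tr u w) = 0) (w : J → H3) : ∫ u in P, RK κ f (tr u w) = 0 := by
  have hPt := volume_lt_top_of_norm_le hδ
  obtain ⟨R, hR⟩ := exists_mem_D w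
  obtain ⟨S, hS⟩ := hb (3 * T * R + |δ|)
  have hM : 0 ≤ M := (norm_nonneg _).trans (h.bdd 0)
  have hin : ∀ u ∈ P, ∀ v ∈ box T w, tr u v ∈ D J (3 * T * R + |δ|) := by
    intro u hu v hv j
    obtain ⟨h1, h2, h3⟩ := mem_D_of_box h.one_le hR hv j
    have hp := (v j).pos
    have hd := abs_nonneg δ
    refine ⟨?_, ?_, ?_⟩
    · rw [tr_z]
      refine (norm_add_le _ _).trans (add_le_add h1 ((hδ u hu j).trans (le_abs_self _)))
    · rw [tr_y]
      linarith
    · rw [tr_y]
      nlinarith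
  have e : ∀ u, RK κ f (tr u w) = ∫ v, (κ fun j => ch (w j) (v j)) * f (tr u v) := fun u => by
    rw [RK_tr]
    rfl
  simp_rw [e]
  have hmeas : Measurable fun p : (J → ℂ) × (J → H3) =>
      (κ fun j => ch (w j) (p.2 j)) * f (tr p.1 p.2) :=
    ((h.measurable_comp w).comp measurable_snd).mul (hf.comp continuous_tr.measurable)
  have hint : Integrable (Function.uncurry fun (u : J → ℂ) (v : J → H3) =>
      (κ fun j => ch (w j) (v j)) * f (tr u v)) ((volume.restrict P).prod volume) := by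
    have h1 : IntegrableOn (Function.uncurry fun (u : J → ℂ) (v : J → H3) =>
        (κ fun j => ch (w j) (v j)) * f (tr u v)) (P ×ˢ box T w) (volume.prod volume) := by
      refine Measure.integrableOn_of_bounded (M := M * S) ?_ hmeas.aestronglyMeasurable ?_
      · rw [Measure.prod_prod]
        exact (ENNReal.mul_lt_top hPt (volume_box_lt_top T w)).ne
      · refine (ae_restrict_iff' (hP.prod (measurableSet_box T w))).mpr
          (Filter.Eventually.of_forall ?_)
        rintro ⟨u, v⟩ ⟨hu, hv⟩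
        show ‖(κ fun j => ch (w j) (v j)) * f (tr u v)‖ ≤ M * S
        rw [norm_mul]
        exact mul_le_mul (h.bdd _) (hS _ (hin u hu v hv)) (norm_nonneg _) hM
    have h2 : (volume.restrict P).prod (volume : Measure (J → H3)) =
        (volume.prod volume).restrict (P ×ˢ Set.univ) := by
      rw [← Measure.prod_restrict, Measure.restrict_univ]
    rw [h2]
    refine h1.of_forall_sdiff_eq_zero (hP.prod MeasurableSet.univ) ?_
    rintro ⟨u, v⟩ ⟨⟨hu, -⟩, hv⟩
    have hv' : v ∉ box T w := fun hv' => hv ⟨hu, hv'⟩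
    show (κ fun j => ch (w j) (v j)) * f (tr u v) = 0
    rw [h.eq_zero hv', zero_mul]
  rw [integral_integral_swap hint]
  refine integral_eq_zero_of_ae (Filter.Eventually.of_forall fun v => ?_)
  show ∫ u in P, (κ fun j => ch (w j) (v j)) * f (tr u v) = 0
  rw [integral_const_mul, h0 v, mul_zero]

/-! ### The theorem -/

/-- iterates -/
def cn (κ : (J → ℝ) → ℂ) (c : (J → H3) × Y → (J → H3) × Y → ℂ) : ℕ →
    (J → H3) × Y → (J → H3) × Y → ℂ
  | 0 => c
  | n + 1 => RC κ (cn κ c n)

theorem TK.cn (hI : Iso G J) {c : (J → H3) × Y → (J → H3) × Y → ℂ} (hc : TK G c)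
    (h : Ker κ T L M) (n : ℕ) : TK G (cn κ c n) := by
  induction n with
  | zero => exact hc
  | succ n ih => exact ih.RC hI h

/-- `R(κ)` preserves vanishing of constant terms of automorphic kernels. -/
theorem cusp_cn (hI : Iso G J) (hP : PD G J Y) {c : (J → H3) × Y → (J → H3) × Y → ℂ}
    (hc : TK G c) (h : Ker κ T L M) (Y0 : Set Y) {δ : ℝ} {n₀ : ℕ}
    (hcusp : ∀ x', Cusp Y0 δ fun x => K G (cn κ c n₀) x x') (n : ℕ) (hn : n₀ ≤ n) :
    ∀ x', Cusp Y0 δ fun x => K G (cn κ c n) x x' := by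
  have hcn : ∀ n, TK G (cn κ c n) := fun n => hc.cn hI h n
  induction n, hn using Nat.le_induction with
  | base => exact hcusp
  | succ n _ ih =>
    intro x' η hη
    obtain ⟨P, hPm, hP0, hPδ, hPint⟩ := ih x' η hη
    refine ⟨P, hPm, hP0, hPδ, fun w => ?_⟩
    have e : ∀ u, K G (cn κ c (n + 1)) (tr u w, η) x' =
        RK κ (fun v => K G (cn κ c n) (v, η) x') (tr u w) := fun u =>
      K_RC hP (hcn n) h (tr u w) η x'
    simp_rw [e]
    exact RK_cusp h (measurable_K hP (hcn n) η x') (fun R => by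
      obtain ⟨S, _, hS⟩ := K_locBdd hP (hcn n) R η x'
      exact ⟨S, hS⟩) hPm hPδ hPint w

/-- **Bounded kernel theorem** on `X = (J → H3) × Y` for the automorphic kernel of `R(κ)^k C`;
the constant terms of `R(κ) C` vanish. -/
theorem bounded (hI : Iso G J) (hP : PD G J Y) {c : (J → H3) × Y → (J → H3) × Y → ℂ}
    (hc : TK G c) (h : Ker κ T L M) (Y0 : Set Y) (hJ : 0 < Fintype.card J) (k : ℕ)
    (hs : ∀ x y, cn κ c k y x = conj (cn κ c k x y))
    -- (I1) constant terms of `x ↦ K (R(κ) C) x x'`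
    {δ : ℝ} (hcusp : ∀ x', Cusp Y0 δ fun x => K G (cn κ c 1) x x')
    -- (I2) reduction theory
    {B c₀ : ℝ} (hc₀ : 0 < c₀)
    (hbal : ∀ η ∈ Y0, ∀ w : J → H3, ∃ w', (∃ g : G, g • ((w, η) : (J → H3) × Y) = (w', η)) ∧
      ht w' = ht w ∧ ∀ j, ht w ^ (1 / (Fintype.card J : ℝ)) ≤ B * (w' j).y)
    (hred : ∀ x : (J → H3) × Y, ∃ w, ∃ η ∈ Y0, (∃ g : G, g • x = (w, η)) ∧ ∀ j, c₀ ≤ (w j).y)
    -- (I3) crude bound
    {A : ℝ} (hA : 0 ≤ A)
    (hbase : ∀ c' > 0, ∃ S, ∀ η ∈ Y0, ∀ η' ∈ Y0, ∀ w w' : J → H3, (∀ j, c' ≤ (w j).y) →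
      (∀ j, c' ≤ (w' j).y) → ‖K G c (w, η) (w', η')‖ ≤ S * (ht w * ht w') ^ A)
    (hk : 2 * A * Fintype.card J ≤ k) (hk0 : 0 < k) :
    ∃ S, ∀ x x', ‖K G (cn κ c k) x x'‖ ≤ S := by
  have hcn : ∀ n, TK G (cn κ c n) := fun n => hc.cn hI h n
  have hcuspn := cusp_cn hI hP hc h Y0 hcusp
  refine bounded_kernel h Y0 hJ (fun x y => ∃ g : G, g • x = y)
    (fun n => K G (cn κ c n)) k ?_ ?_ ?_ ?_
    (fun n _ x' => hcuspn (n + 1) (Nat.le_add_left 1 n) x') hc₀ hbal hred hA
    hbase hk hk0
  · intro n _ x' η _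
    exact measurable_K hP (hcn n) η x'
  · intro n _ x' η _ w
    exact K_RC hP (hcn n) h w η x'
  · rintro n _ _ x y x' ⟨g, rfl⟩
    exact (K_smul (hcn n) g x x').symm
  · intro x x'
    show ‖K G (cn κ c k) x x'‖ = ‖K G (cn κ c k) x' x‖
    rw [K_symm (hcn k) hs x x', RCLike.norm_conj]

end Fermat.Agent.H86B
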