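import Fermat.Agent.H59K2
import Fermat.Agent.H86B1

/-!
# The aleph operator as a finite family of pure kernels, part 3: kernels on the model (helper59)

* `fk m s κ f` : the finite sum of the pure kernels `m.ker (κ i) (f i).k`, `i ∈ s`;
* `cn_fk` : iterated smoothing (helper86's `cn`) of a finite family is the family of the smoothed
  kernels `it a n (κ i)`;
* `fk_herm`, `fk_act` : hermitian symmetry, invariance under the automorphism `s`.
-/

set_option autoImplicit false
set_option linter.unusedSectionVars false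

noncomputable section

open MeasureTheory IsDedekindDomain NumberField
open scoped Real MatrixGroups

namespace Fermat.Agent.H59K

open H56Z H5Z H67M H59XF H59D

variable {K : Type*} [Field K] [NumberField K] {J : Type*} [Fintype J] {I : Type*}

/-- A finite sum of pure kernels. -/
def fk (m : Model K J) (s : Finset I) (κ : I → (J → ℝ) → ℂ) (f : I → GlobKer m.L.fam)
    (x y : m.X) : ℂ :=
  ∑ i ∈ s, m.ker (κ i) (f i).k x y

variable {m : Model K J} {s : Finset I} {κ : I → (J → ℝ) → ℂ} {f : I → GlobKer m.L.fam}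

theorem fk_apply (x y : m.X) :
    fk m s κ f x y = ∑ i ∈ s, κ i (chv x.1 y.1) * (f i).k x.2 y.2 := rfl

theorem fk_smul (g : PGL(2, K)) (x y : m.X) : fk m s κ f (g • x) (g • y) = fk m s κ f x y := by
  unfold fk
  refine Finset.sum_congr rfl fun i _ => ?_
  exact m.ker_smul (κ i) (f i).k (fun g x y => (f i).k_smul g x y) g x y

theorem fk_herm (hκ : ∀ i ∈ s, IsReal (κ i))
    (hf : ∀ i ∈ s, ∀ x y, (starRingEnd ℂ) ((f i).k x y) = (f i).k y x) (x y : m.X) :
    fk m s κ f y x = (starRingEnd ℂ) (fk m s κ f x y) := by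
  rw [fk_apply, fk_apply, map_sum]
  refine Finset.sum_congr rfl fun i hi => ?_
  rw [map_mul, hκ i hi, hf i hi, chv_comm]

/-- Invariance of a family under the automorphism `s`. -/
theorem fk_act (a : AutData m) (e : I ≃ I) (he : ∀ i, e i ∈ s ↔ i ∈ s)
    (hκ : ∀ i ∈ s, ∀ t : J → ℝ, κ (e i) t = κ i fun j => t (a.c.symm j))
    (hf : ∀ i ∈ s, ∀ x y, (f (e i)).k x y = (f i).k (a.twist.act x) (a.twist.act y)) (x y : m.X) :
    fk m s κ f (a.act x) (a.act y) = fk m s κ f x y := by
  have h1 : fk m s κ f x y = ∑ i ∈ s, κ (e i) (chv x.1 y.1) * (f (e i)).k x.2 y.2 := by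
    rw [fk_apply]
    exact (Finset.sum_equiv e (fun i => (he i).symm) fun i _ => rfl).symm
  rw [h1, fk_apply]
  refine Finset.sum_congr rfl fun i hi => ?_
  rw [hκ i hi, hf i hi]
  rfl

/-- One smoothing step. -/
theorem RC_fk {a : (J → ℝ) → ℂ} (ha : IsRC a) (hκ : ∀ i ∈ s, IsRC (κ i)) :
    H86B.RC a (fk m s κ f) = fk m s (fun i => conv a (κ i)) f := by
  funext x y
  show ∫ v : J → H3, a (chv x.1 v) * (∑ i ∈ s, κ i (chv v y.1) * (f i).k x.2 y.2) =
    ∑ i ∈ s, conv a (κ i) (chv x.1 y.1) * (f i).k x.2 y.2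
  have h1 : (fun v : J → H3 => a (chv x.1 v) * ∑ i ∈ s, κ i (chv v y.1) * (f i).k x.2 y.2) =
      fun v => ∑ i ∈ s, (a (chv x.1 v) * κ i (chv v y.1)) * (f i).k x.2 y.2 := by
    funext v
    rw [Finset.mul_sum]
    refine Finset.sum_congr rfl fun i _ => ?_
    ring
  rw [h1, integral_finsetSum]
  · refine Finset.sum_congr rfl fun i _ => ?_
    rw [integral_mul_const, conv_apply]
  · intro i hi
    exact ((hκ i hi).isLB y.1 |>.integrable_Rk ha x.1).mul_const _

/-- **Iterated smoothing of a finite family.** -/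
theorem cn_fk {a : (J → ℝ) → ℂ} (ha : IsRC a) (hκ : ∀ i ∈ s, IsRC (κ i)) (n : ℕ) :
    H86B.cn a (fk m s κ f) n = fk m s (fun i => it a n (κ i)) f := by
  induction n with
  | zero => rfl
  | succ n ih =>
    show H86B.RC a (H86B.cn a (fk m s κ f) n) = _
    have h : (fun i => conv a (it a n (κ i))) = fun i => it a (n + 1) (κ i) :=
      funext fun i => (it_succ a n (κ i)).symm
    rw [ih, RC_fk ha fun i hi => isRC_it ha (hκ i hi) n, h]

end Fermat.Agent.H59K
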