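import Mathlib

/-!
# Local Hecke cosets in `GL₂` and `PGL₂` of a discretely valued field (helper51, C-HECKE of S47)

`K` a field, `v : Valuation K ℤᵐ⁰`, `π : K` with `v π = exp (-1)`.

* `GU v : Subgroup (GL (Fin 2) K)` : `GL₂(𝒪_v)` (valuation description);
* `U0 v : Subgroup PGL(2, K)` : its image;
* `IsReps v m B` : `B : Finset K` is a set of representatives of `𝒪 / π^m`;
* `rb`, `rinf` : the representatives of the `q + 1` cosets of `U0 diag(π,1) U0 / U0`.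
-/

set_option autoImplicit false

open scoped MatrixGroups WithZero
open Matrix

noncomputable section

namespace Fermat.Agent.H51Z

variable {K : Type*} [Field K]

/-! ### Generalities on valuations with values in `ℤᵐ⁰` -/

section Val

variable (v : Valuation K ℤᵐ⁰)

theorem v_sub_le_one {x y : K} (hx : v x ≤ 1) (hy : v y ≤ 1) : v (x - y) ≤ 1 :=
  (v.map_sub x y).trans (max_le hx hy)

theorem v_add_le_one {x y : K} (hx : v x ≤ 1) (hy : v y ≤ 1) : v (x + y) ≤ 1 :=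
  (v.map_add x y).trans (max_le hx hy)

theorem v_mul_le_one {x y : K} (hx : v x ≤ 1) (hy : v y ≤ 1) : v (x * y) ≤ 1 := by
  rw [map_mul]
  exact mul_le_one' hx hy

/-- `v x < 1` iff `v x ≤ exp (-1)`. -/
theorem lt_one_iff {x : ℤᵐ⁰} : x < 1 ↔ x ≤ WithZero.exp (-1 : ℤ) := by
  rcases eq_or_ne x 0 with rfl | hx
  · simp
  · rw [← WithZero.exp_log hx, ← WithZero.exp_zero, WithZero.exp_lt_exp, WithZero.exp_le_exp]
    omega

theorem lt_exp_iff {x : ℤᵐ⁰} {n : ℤ} : x < WithZero.exp n ↔ x ≤ WithZero.exp (n - 1) := by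
  rcases eq_or_ne x 0 with rfl | hx
  · simp
  · rw [← WithZero.exp_log hx, WithZero.exp_lt_exp, WithZero.exp_le_exp]
    omega

end Val

/-! ### `GL₂(𝒪)` and its image in `PGL₂(K)` -/

section Grp

variable (v : Valuation K ℤᵐ⁰)

theorem det_two (g : GL (Fin 2) K) :
    (GeneralLinearGroup.det g : K) = g 0 0 * g 1 1 - g 0 1 * g 1 0 := by
  rw [GeneralLinearGroup.val_det_apply, Matrix.det_fin_two]

/-- `GL₂(𝒪_v)` as a subgroup of `GL₂(K)`. -/
def GU : Subgroup (GL (Fin 2) K) where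
  carrier := {g | (∀ i j, v (g i j) ≤ 1) ∧ v (GeneralLinearGroup.det g : K) = 1}
  mul_mem' := by
    rintro g h ⟨hg, hg'⟩ ⟨hh, hh'⟩
    refine ⟨fun i j => ?_, ?_⟩
    · rw [GeneralLinearGroup.coe_mul, Matrix.mul_apply, Fin.sum_univ_two]
      exact v_add_le_one v (v_mul_le_one v (hg i 0) (hh 0 j)) (v_mul_le_one v (hg i 1) (hh 1 j))
    · rw [map_mul, Units.val_mul, map_mul, hg', hh', mul_one]
  one_mem' := by
    refine ⟨fun i j => ?_, by simp⟩
    rw [GeneralLinearGroup.coe_one]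
    by_cases h : i = j
    · subst h; simp
    · simp [Matrix.one_apply_ne h]
  inv_mem' := by
    rintro g ⟨hg, hg'⟩
    have hd : v ((GeneralLinearGroup.det g⁻¹ : Kˣ) : K) = 1 := by
      rw [map_inv, Units.val_inv_eq_inv_val, map_inv₀, hg', inv_one]
    refine ⟨fun i j => ?_, hd⟩
    rw [Matrix.coe_units_inv, Matrix.inv_def, Matrix.smul_apply, smul_eq_mul, map_mul]
    have h1 : v (Ring.inverse (g : Matrix (Fin 2) (Fin 2) K).det) = 1 := by
      rw [Ring.inverse_eq_inv', map_inv₀, ← GeneralLinearGroup.val_det_apply, hg', inv_one]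
    rw [h1, one_mul, Matrix.adjugate_fin_two]
    fin_cases i <;> fin_cases j
    · simpa using hg 1 1
    · simpa using hg 0 1
    · simpa using hg 1 0
    · simpa using hg 0 0

theorem mem_GU {g : GL (Fin 2) K} :
    g ∈ GU v ↔ (∀ i j, v (g i j) ≤ 1) ∧ v (GeneralLinearGroup.det g : K) = 1 := Iff.rfl

/-- The maximal compact subgroup: the image of `GL₂(𝒪_v)` in `PGL₂(K)`. -/
def U0 : Subgroup PGL(2, K) := (GU v).map ProjGenLinGroup.mk

theorem mk_mem_U0 {g : GL (Fin 2) K} :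
    ProjGenLinGroup.mk g ∈ U0 v ↔ ∃ c : Kˣ, g * GeneralLinearGroup.scalar (Fin 2) c ∈ GU v := by
  constructor
  · rintro ⟨h, hh, hhg⟩
    obtain ⟨u, hu⟩ := ProjGenLinGroup.mk_eq_mk_iff.1 hhg.symm
    exact ⟨u, hu ▸ hh⟩
  · rintro ⟨c, hc⟩
    exact ⟨_, hc, by simp⟩

theorem mk_mem_U0_of_mem {g : GL (Fin 2) K} (hg : g ∈ GU v) : ProjGenLinGroup.mk g ∈ U0 v :=
  ⟨g, hg, rfl⟩

theorem scalar_mul_apply (g : GL (Fin 2) K) (c : Kˣ) (i j : Fin 2) :
    (g * GeneralLinearGroup.scalar (Fin 2) c) i j = g i j * c := by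
  rw [GeneralLinearGroup.coe_mul, GeneralLinearGroup.coe_scalar]
  simp [Matrix.scalar_apply, Matrix.mul_diagonal]

theorem det_mul_scalar (g : GL (Fin 2) K) (c : Kˣ) :
    (GeneralLinearGroup.det (g * GeneralLinearGroup.scalar (Fin 2) c) : K) =
      (GeneralLinearGroup.det g : K) * (c : K) ^ 2 := by
  rw [det_two, det_two]
  simp only [scalar_mul_apply]
  ring

/-- If `v (det g) = 1` the scalar in `mk_mem_U0` is superfluous. -/
theorem mk_mem_U0_iff_of_det {g : GL (Fin 2) K} (hg : v (GeneralLinearGroup.det g : K) = 1) :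
    ProjGenLinGroup.mk g ∈ U0 v ↔ g ∈ GU v := by
  refine ⟨fun h => ?_, mk_mem_U0_of_mem v⟩
  obtain ⟨c, hc1, hc2⟩ := (mk_mem_U0 v).1 h
  rw [det_mul_scalar, map_mul, hg, one_mul, map_pow] at hc2
  have hc : v (c : K) = 1 := by
    have h0 : v (c : K) ≠ 0 := (v.ne_zero_iff).2 c.ne_zero
    rw [← WithZero.exp_log h0] at hc2 ⊢
    rw [← WithZero.exp_nsmul, ← WithZero.exp_zero, WithZero.exp_inj] at hc2
    rw [← WithZero.exp_zero, WithZero.exp_inj]
    simp at hc2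
    exact hc2
  refine ⟨fun i j => ?_, hg⟩
  have := hc1 i j
  rwa [scalar_mul_apply, map_mul, hc, mul_one] at this

end Grp

/-! ### Representatives of the residue rings -/

/-- `B` is a set of representatives of `𝒪 / π^m` (elements of valuation `≤ 1` modulo elements of
valuation `≤ exp (-m)`). -/
structure IsReps (v : Valuation K ℤᵐ⁰) (m : ℕ) (B : Finset K) : Prop where
  le_one : ∀ b ∈ B, v b ≤ 1
  exists_mem : ∀ x, v x ≤ 1 → ∃ b ∈ B, v (x - b) ≤ WithZero.exp (-(m : ℤ))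
  inj : ∀ b ∈ B, ∀ b' ∈ B, v (b - b') ≤ WithZero.exp (-(m : ℤ)) → b = b'

section Cosets

variable (v : Valuation K ℤᵐ⁰)

/-- The matrix `(a b; 0 1)` with `a ≠ 0`. -/
def bm (a : Kˣ) (b : K) : GL (Fin 2) K :=
  GeneralLinearGroup.mkOfDetNeZero !![(a : K), b; 0, 1] (by simp)

/-- The matrix `diag(1, d)`. -/
def dm (d : Kˣ) : GL (Fin 2) K :=
  GeneralLinearGroup.mkOfDetNeZero !![1, 0; 0, (d : K)] (by simp)

@[simp] theorem bm_00 (a : Kˣ) (b : K) : bm a b 0 0 = a := rfl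
@[simp] theorem bm_01 (a : Kˣ) (b : K) : bm a b 0 1 = b := rfl
@[simp] theorem bm_10 (a : Kˣ) (b : K) : bm a b 1 0 = 0 := rfl
@[simp] theorem bm_11 (a : Kˣ) (b : K) : bm a b 1 1 = 1 := rfl
@[simp] theorem dm_00 (d : Kˣ) : dm d 0 0 = 1 := rfl
@[simp] theorem dm_01 (d : Kˣ) : dm d 0 1 = 0 := rfl
@[simp] theorem dm_10 (d : Kˣ) : dm d 1 0 = 0 := rfl
@[simp] theorem dm_11 (d : Kˣ) : dm d 1 1 = d := rfl

theorem gl_ext {g h : GL (Fin 2) K} (h00 : g 0 0 = h 0 0) (h01 : g 0 1 = h 0 1)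
    (h10 : g 1 0 = h 1 0) (h11 : g 1 1 = h 1 1) : g = h := by
  ext i j
  fin_cases i <;> fin_cases j <;> assumption

theorem mul_00 (g h : GL (Fin 2) K) : (g * h) 0 0 = g 0 0 * h 0 0 + g 0 1 * h 1 0 := by
  rw [GeneralLinearGroup.coe_mul, Matrix.mul_apply, Fin.sum_univ_two]
theorem mul_01 (g h : GL (Fin 2) K) : (g * h) 0 1 = g 0 0 * h 0 1 + g 0 1 * h 1 1 := by
  rw [GeneralLinearGroup.coe_mul, Matrix.mul_apply, Fin.sum_univ_two]
theorem mul_10 (g h : GL (Fin 2) K) : (g * h) 1 0 = g 1 0 * h 0 0 + g 1 1 * h 1 0 := by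
  rw [GeneralLinearGroup.coe_mul, Matrix.mul_apply, Fin.sum_univ_two]
theorem mul_11 (g h : GL (Fin 2) K) : (g * h) 1 1 = g 1 0 * h 0 1 + g 1 1 * h 1 1 := by
  rw [GeneralLinearGroup.coe_mul, Matrix.mul_apply, Fin.sum_univ_two]

theorem bm_mul (a a' : Kˣ) (b b' : K) : bm a b * bm a' b' = bm (a * a') (a * b' + b) := by
  apply gl_ext <;> simp [mul_00, mul_01, mul_10, mul_11]

theorem bm_one_zero : bm (1 : Kˣ) 0 = 1 := by
  apply gl_ext <;> simp

theorem bm_inv (a : Kˣ) (b : K) : (bm a b)⁻¹ = bm a⁻¹ (-(a : K)⁻¹ * b) := by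
  rw [inv_eq_iff_mul_eq_one, bm_mul]
  rw [← bm_one_zero]
  congr 1
  · simp
  · simp

theorem dm_inv (d : Kˣ) : (dm d)⁻¹ = dm d⁻¹ := by
  rw [inv_eq_iff_mul_eq_one]
  apply gl_ext <;> simp [mul_00, mul_01, mul_10, mul_11]

theorem mk_dm (d : Kˣ) : ProjGenLinGroup.mk (dm d) = ProjGenLinGroup.mk (bm d⁻¹ 0) := by
  rw [ProjGenLinGroup.mk_eq_mk_iff]
  refine ⟨d⁻¹, ?_⟩
  apply gl_ext <;> rw [scalar_mul_apply] <;> simp

@[simp] theorem det_bm (a : Kˣ) (b : K) : (GeneralLinearGroup.det (bm a b) : K) = a := by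
  rw [det_two]; simp

@[simp] theorem det_dm (d : Kˣ) : (GeneralLinearGroup.det (dm d) : K) = d := by
  rw [det_two]; simp

/-- `q + 1` cosets, existence: every integral `g` with `v (det g) = exp (-1)` lies in some
`bm π b * GU` or in `dm π * GU`. -/
theorem exists_coset {π : Kˣ} (hπ : v (π : K) = WithZero.exp (-1 : ℤ)) {B : Finset K}
    (hB : IsReps v 1 B) {g : GL (Fin 2) K} (hg : ∀ i j, v (g i j) ≤ 1)
    (hd : v (GeneralLinearGroup.det g : K) = WithZero.exp (-1 : ℤ)) :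
    (∃ b ∈ B, (bm π b)⁻¹ * g ∈ GU v) ∨ (dm π)⁻¹ * g ∈ GU v := by
  have hπi : v (((π : K))⁻¹) = WithZero.exp (1 : ℤ) := by
    rw [map_inv₀, hπ, ← WithZero.exp_neg]; norm_num
  have hdiv : ∀ x : K, v x ≤ WithZero.exp (-1 : ℤ) → v ((π : K)⁻¹ * x) ≤ 1 := by
    intro x hx
    rw [map_mul, hπi]
    calc WithZero.exp (1 : ℤ) * v x ≤ WithZero.exp (1 : ℤ) * WithZero.exp (-1 : ℤ) := by gcongr
      _ = 1 := by rw [← WithZero.exp_add]; simp
  have hdet : ∀ a : GL (Fin 2) K, v (GeneralLinearGroup.det a : K) = WithZero.exp (-1 : ℤ) →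
      v (GeneralLinearGroup.det (a⁻¹ * g) : K) = 1 := by
    intro a ha
    rw [map_mul, map_inv, Units.val_mul, Units.val_inv_eq_inv_val, map_mul, map_inv₀, ha, hd]
    rw [← WithZero.exp_neg, ← WithZero.exp_add]; simp
  by_cases hcd : v (g 1 0) < 1 ∧ v (g 1 1) < 1
  · right
    refine ⟨fun i j => ?_, hdet _ (by rw [det_dm, hπ])⟩
    rw [dm_inv]
    fin_cases i <;> fin_cases j
    · change v ((dm π⁻¹ * g) 0 0) ≤ 1
      rw [mul_00]; simpa using hg 0 0
    · change v ((dm π⁻¹ * g) 0 1) ≤ 1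
      rw [mul_01]; simpa using hg 0 1
    · change v ((dm π⁻¹ * g) 1 0) ≤ 1
      rw [mul_10]
      simpa using hdiv _ (lt_one_iff.1 hcd.1)
    · change v ((dm π⁻¹ * g) 1 1) ≤ 1
      rw [mul_11]
      simpa using hdiv _ (lt_one_iff.1 hcd.2)
  · left
    have hdet' : v (g 0 0 * g 1 1 - g 0 1 * g 1 0) ≤ WithZero.exp (-1 : ℤ) := by
      rw [← det_two, hd]
    -- the residue `b`
    obtain ⟨b, hb, hb1, hb2⟩ : ∃ b : K, v b ≤ 1 ∧ v (g 0 0 - b * g 1 0) ≤ WithZero.exp (-1 : ℤ) ∧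
        v (g 0 1 - b * g 1 1) ≤ WithZero.exp (-1 : ℤ) := by
      by_cases h1 : v (g 1 1) < 1
      · have h0 : v (g 1 0) = 1 := by
          by_contra h
          exact hcd ⟨lt_of_le_of_ne (hg 1 0) h, h1⟩
        have hne : g 1 0 ≠ 0 := by
          intro h; rw [h, map_zero] at h0; exact zero_ne_one h0
        refine ⟨g 0 0 / g 1 0, ?_, ?_, ?_⟩
        · rw [map_div₀, h0, div_one]; exact hg 0 0
        · rw [div_mul_cancel₀ _ hne, sub_self, map_zero]; exact zero_le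
        · have : g 0 1 - g 0 0 / g 1 0 * g 1 1 = -(g 0 0 * g 1 1 - g 0 1 * g 1 0) / g 1 0 := by
            field_simp; ring
          rw [this, map_div₀, h0, div_one, Valuation.map_neg]
          exact hdet'
      · have h1' : v (g 1 1) = 1 := le_antisymm (hg 1 1) (not_lt.1 h1)
        have hne : g 1 1 ≠ 0 := by
          intro h; rw [h, map_zero] at h1'; exact zero_ne_one h1'
        refine ⟨g 0 1 / g 1 1, ?_, ?_, ?_⟩
        · rw [map_div₀, h1', div_one]; exact hg 0 1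
        · have : g 0 0 - g 0 1 / g 1 1 * g 1 0 = (g 0 0 * g 1 1 - g 0 1 * g 1 0) / g 1 1 := by
            field_simp
          rw [this, map_div₀, h1', div_one]
          exact hdet'
        · rw [div_mul_cancel₀ _ hne, sub_self, map_zero]; exact zero_le
    obtain ⟨b', hb', hbb'⟩ := hB.exists_mem b hb
    have hshift : ∀ x y : K, v y ≤ 1 → v (x - b * y) ≤ WithZero.exp (-1 : ℤ) →
        v (x - b' * y) ≤ WithZero.exp (-1 : ℤ) := by
      intro x y hy hxy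
      have : x - b' * y = (x - b * y) + (b - b') * y := by ring
      rw [this]
      refine (v.map_add _ _).trans (max_le hxy ?_)
      rw [map_mul]
      calc v (b - b') * v y ≤ WithZero.exp (-((1 : ℕ) : ℤ)) * 1 := by gcongr
        _ = WithZero.exp (-1 : ℤ) := by simp
    refine ⟨b', hb', fun i j => ?_, hdet _ (by rw [det_bm, hπ])⟩
    rw [bm_inv]
    fin_cases i <;> fin_cases j
    · change v ((bm π⁻¹ (-(π : K)⁻¹ * b') * g) 0 0) ≤ 1
      rw [mul_00]
      have : (bm π⁻¹ (-(π : K)⁻¹ * b')) 0 0 * g 0 0 + (bm π⁻¹ (-(π : K)⁻¹ * b')) 0 1 * g 1 0 =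
          (π : K)⁻¹ * (g 0 0 - b' * g 1 0) := by simp; ring
      rw [this]
      exact hdiv _ (hshift _ _ (hg 1 0) hb1)
    · change v ((bm π⁻¹ (-(π : K)⁻¹ * b') * g) 0 1) ≤ 1
      rw [mul_01]
      have : (bm π⁻¹ (-(π : K)⁻¹ * b')) 0 0 * g 0 1 + (bm π⁻¹ (-(π : K)⁻¹ * b')) 0 1 * g 1 1 =
          (π : K)⁻¹ * (g 0 1 - b' * g 1 1) := by simp; ring
      rw [this]
      exact hdiv _ (hshift _ _ (hg 1 1) hb2)
    · change v ((bm π⁻¹ (-(π : K)⁻¹ * b') * g) 1 0) ≤ 1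
      rw [mul_10]; simpa using hg 1 0
    · change v ((bm π⁻¹ (-(π : K)⁻¹ * b') * g) 1 1) ≤ 1
      rw [mul_11]; simpa using hg 1 1

/-- Disjointness: two of the `bm a b` (same `a`) in the same coset of `GU`. -/
theorem bm_inv_mul_mem_iff (a : Kˣ) (b b' : K) :
    (bm a b)⁻¹ * bm a b' ∈ GU v ↔ v (b' - b) ≤ v (a : K) := by
  rw [bm_inv, bm_mul, mem_GU]
  constructor
  · rintro ⟨h, -⟩
    have := h 0 1
    simp only [bm_01] at this
    have h2 : b' - b = (a : K) * (((a⁻¹ : Kˣ) : K) * b' + -(a : K)⁻¹ * b) := by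
      rw [Units.val_inv_eq_inv_val]; field_simp; ring
    rw [h2, map_mul]
    exact (mul_le_mul_right this _).trans (by simp)
  · intro h
    have h1 : v (((a⁻¹ : Kˣ) : K) * b' + -(a : K)⁻¹ * b) ≤ 1 := by
      have : ((a⁻¹ : Kˣ) : K) * b' + -(a : K)⁻¹ * b = (a : K)⁻¹ * (b' - b) := by
        rw [Units.val_inv_eq_inv_val]; ring
      rw [this, map_mul, map_inv₀]
      have h0 : v (a : K) ≠ 0 := (v.ne_zero_iff).2 a.ne_zero
      calc (v (a : K))⁻¹ * v (b' - b) ≤ (v (a : K))⁻¹ * v (a : K) := by gcongr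
        _ = 1 := inv_mul_cancel₀ h0
    refine ⟨fun i j => ?_, ?_⟩
    · fin_cases i <;> fin_cases j
      · change v ((bm (a⁻¹ * a) _) 0 0) ≤ 1
        simp
      · exact h1
      · change v ((bm (a⁻¹ * a) _) 1 0) ≤ 1
        simp
      · change v ((bm (a⁻¹ * a) _) 1 1) ≤ 1
        simp
    · rw [det_bm]; simp

/-- `bm π b` and `dm π` are in different cosets of `GU` if `v π < 1`. -/
theorem dm_inv_mul_bm_not_mem {π : Kˣ} (hπ : v (π : K) < 1) (b : K) :
    (dm π)⁻¹ * bm π b ∉ GU v := by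
  rintro ⟨h, -⟩
  have := h 1 1
  rw [dm_inv, mul_11] at this
  simp only [dm_10, dm_11, bm_01, bm_11, zero_mul, zero_add, mul_one] at this
  rw [Units.val_inv_eq_inv_val, map_inv₀] at this
  have h0 : 0 < v (π : K) := zero_lt_iff.2 ((v.ne_zero_iff).2 π.ne_zero)
  exact absurd ((inv_le_one₀ h0).1 this) (not_le.2 hπ)

end Cosets

end Fermat.Agent.H51Z
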