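import Fermat.Agent.H7ZPos
import Fermat.Agent.H59Def
import Fermat.Agent.H51ZLoc

/-!
# The Borel subgroup in the model (helper7, S47, package C19)

* `borP : Bor K PGL(2, K)`, `n b = (1 b; 0 1)`, `d a = (a 0; 0 1)`;
* `bLevel` : every level of `H59D` is compatible with it;
* `bTwist` : `AutData` gives a `BTwist`;
* `dense` : every point of `XF L.fam` is `PGL(2, K)`-equivalent to a Borel point which is the base
  point at a given finite set of places and at all places where the level is not maximal.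
-/

set_option autoImplicit false
set_option linter.unusedSectionVars false

open IsDedekindDomain HeightOneSpectrum WithZero NumberField Matrix
open scoped MatrixGroups

noncomputable section

namespace Fermat.Agent.H7.Z

open Fermat.Agent.H59XF Fermat.Agent.H59D
open Fermat.Agent.H51Z (bm bm_mul bm_one_zero bm_inv)

/-- The group of matrices `(a b; 0 1)` in `PGL(2, K)`. -/
def borP (K : Type*) [Field K] : Bor K PGL(2, K) where
  n b := ProjGenLinGroup.mk (bm 1 b)
  d a := ProjGenLinGroup.mk (bm a 0)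
  n_zero := by rw [bm_one_zero, map_one]
  n_add a b := by rw [← map_mul, bm_mul]; simp [add_comm]
  d_one := by rw [bm_one_zero, map_one]
  d_mul a b := by rw [← map_mul, bm_mul]; simp
  conj a b := by rw [← map_mul, ← map_mul, bm_mul, bm_mul]; simp

section

variable {K : Type*} [Field K]

@[simp] theorem borP_n (b : K) : (borP K).n b = ProjGenLinGroup.mk (bm 1 b) := rfl

@[simp] theorem borP_d (a : Kˣ) : (borP K).d a = ProjGenLinGroup.mk (bm a 0) := rfl

end

section Ded

variable {R : Type*} [CommRing R] [IsDedekindDomain R] {K : Type*} [Field K] [Algebra R K]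
  [IsFractionRing R K]

theorem bm_coe (a : Kˣ) (b : K) :
    ((bm a b : GL (Fin 2) K) : Matrix (Fin 2) (Fin 2) K) = !![(a : K), b; 0, 1] := rfl

theorem bm_mem_GLw {w : HeightOneSpectrum R} {a : Kˣ} {b : K} (ha : w.valuation K (a : K) = 1)
    (hb : w.valuation K b ≤ 1) : bm a b ∈ GLw w := by
  rw [mem_GLw, bm_coe]
  refine ⟨fun i j => ?_, by simp [Matrix.det_fin_two, ha]⟩
  fin_cases i <;> fin_cases j <;> simp [ha, hb]

theorem n_mem_U0 {w : HeightOneSpectrum R} {b : K} (hb : w.valuation K b ≤ 1) :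
    (borP K).n b ∈ U0 w := ⟨bm 1 b, bm_mem_GLw (by simp) hb, rfl⟩

theorem d_mem_U0 {w : HeightOneSpectrum R} {a : Kˣ} (ha : w.valuation K (a : K) = 1) :
    (borP K).d a ∈ U0 w := ⟨bm a 0, bm_mem_GLw ha (by simp), rfl⟩

/-- Conjugates of small unipotents are in the congruence subgroups. -/
theorem small_conj (w : HeightOneSpectrum R) (n : ℕ) (g : PGL(2, K)) :
    ∃ m : ℕ, ∀ b : K, w.valuation K b ≤ exp (-(m : ℤ)) → g⁻¹ * (borP K).n b * g ∈ Gam w n := by
  induction g using ProjGenLinGroup.induction_on with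
  | mk g =>
    choose e he using fun (i j : Fin 2) =>
      exists_le_exp w (((g⁻¹ : GL (Fin 2) K) : Matrix (Fin 2) (Fin 2) K) i 0 *
        (g : Matrix (Fin 2) (Fin 2) K) 1 j)
    refine ⟨n + ∑ i, ∑ j, e i j, fun b hb => ?_⟩
    have hmat : ((g⁻¹ * bm 1 b * g : GL (Fin 2) K) : Matrix (Fin 2) (Fin 2) K) - 1 =
        ((g⁻¹ : GL (Fin 2) K) : Matrix (Fin 2) (Fin 2) K) *
          (((bm 1 b : GL (Fin 2) K) : Matrix (Fin 2) (Fin 2) K) - 1) *
          (g : Matrix (Fin 2) (Fin 2) K) := by
      rw [mul_sub, sub_mul, mul_one, Units.val_mul, Units.val_mul, ← Units.val_mul g⁻¹ g,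
        inv_mul_cancel, Units.val_one]
    have hent : ∀ i j, ((g⁻¹ * bm 1 b * g : GL (Fin 2) K) : Matrix (Fin 2) (Fin 2) K) i j -
        (1 : Matrix (Fin 2) (Fin 2) K) i j =
        b * (((g⁻¹ : GL (Fin 2) K) : Matrix (Fin 2) (Fin 2) K) i 0 *
          (g : Matrix (Fin 2) (Fin 2) K) 1 j) := by
      intro i j
      have h1 := congrFun (congrFun hmat i) j
      rw [Matrix.sub_apply] at h1
      rw [h1, bm_coe]
      simp [Matrix.mul_apply, Fin.sum_univ_two]
      ring
    have hb1 : ∀ i j, w.valuation K (((g⁻¹ * bm 1 b * g : GL (Fin 2) K) :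
        Matrix (Fin 2) (Fin 2) K) i j - (1 : Matrix (Fin 2) (Fin 2) K) i j) ≤ exp (-(n : ℤ)) := by
      intro i j
      rw [hent, map_mul]
      refine (mul_le_mul' hb (he i j)).trans ?_
      rw [← exp_add, exp_le_exp]
      have h2 : (e i j : ℤ) ≤ ∑ i, ∑ j, (e i j : ℤ) := by
        exact_mod_cast (Finset.single_le_sum (f := fun j => e i j) (fun _ _ => Nat.zero_le _)
          (Finset.mem_univ j)).trans (Finset.single_le_sum (f := fun i => ∑ j, e i j)
            (fun _ _ => Nat.zero_le _) (Finset.mem_univ i))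
      push_cast
      linarith
    refine ⟨g⁻¹ * bm 1 b * g, ⟨⟨fun i j => ?_, ?_⟩, hb1⟩, by rw [map_mul, map_mul, map_inv]; rfl⟩
    · have h3 : ((g⁻¹ * bm 1 b * g : GL (Fin 2) K) : Matrix (Fin 2) (Fin 2) K) i j =
          (((g⁻¹ * bm 1 b * g : GL (Fin 2) K) : Matrix (Fin 2) (Fin 2) K) i j -
            (1 : Matrix (Fin 2) (Fin 2) K) i j) + (1 : Matrix (Fin 2) (Fin 2) K) i j := by ring
      rw [h3]
      refine (Valuation.map_add _ _ _).trans (max_le ((hb1 i j).trans ?_) ?_)
      · rw [← exp_zero, exp_le_exp]; simp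
      · by_cases hij : i = j
        · subst hij; simp
        · simp [hij]
    · rw [Units.val_mul, Units.val_mul, Matrix.det_mul, Matrix.det_mul, bm_coe]
      have h4 : ((g⁻¹ : GL (Fin 2) K) : Matrix (Fin 2) (Fin 2) K).det *
          (g : Matrix (Fin 2) (Fin 2) K).det = 1 := by
        rw [← Matrix.det_mul, ← Units.val_mul, inv_mul_cancel, Units.val_one, Matrix.det_one]
      have h5 : (!![((1 : Kˣ) : K), b; 0, 1] : Matrix (Fin 2) (Fin 2) K).det = 1 := by
        simp [Matrix.det_fin_two]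
      rw [h5, mul_one, h4, map_one]

end Ded

variable {K : Type*} [Field K] [NumberField K]

/-- Every level is compatible with the Borel subgroup. -/
theorem bLevel (L : Level (𝓞 K) K) : BLevel (borP K) L.fam where
  small w g := by
    obtain ⟨n, hn⟩ := L.isOpen w
    obtain ⟨m, hm⟩ := small_conj w n g
    exact ⟨m, fun b hb => hn (hm b hb)⟩
  good := L.fin.subset (by
    intro w hw h
    apply hw
    intro b hb
    rw [Level.fam_U, h]
    exact n_mem_U0 hb)

/-- Places with maximal level are good if the different is trivial there. -/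
theorem goodAt_of_max {L : Level (𝓞 K) K} {w : HeightOneSpectrum (𝓞 K)} (h : L.U w = U0 w)
    (hu : Unram w) : GoodAt (borP K) L.fam w where
  n_mem b hb := by rw [Level.fam_U, h]; exact n_mem_U0 hb
  d_mem a ha := by rw [Level.fam_U, h]; exact d_mem_U0 ha
  unram := hu

theorem map_bm {K' : Type*} [Field K'] (f : K →+* K') (a : Kˣ) (b : K) :
    ProjGenLinGroup.map f (ProjGenLinGroup.mk (bm a b)) =
      ProjGenLinGroup.mk (bm (Units.map (f : K →* K') a) (f b)) := by
  change ProjGenLinGroup.mk _ = _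
  congr 1
  ext i j
  fin_cases i <;> fin_cases j <;> simp [bm]

/-- An automorphism of the model is compatible with the Borel subgroup. -/
def bTwist {J : Type*} [Fintype J] {m : Model K J} (a : AutData m) : BTwist (borP K) m.L.fam where
  t := a.twist
  s := a.s
  val := a.val
  s_n b := by
    change ProjGenLinGroup.map (a.s : K →+* K) (ProjGenLinGroup.mk (bm 1 b)) = _
    rw [map_bm, map_one]
    rfl
  s_d u := by
    change ProjGenLinGroup.map (a.s : K →+* K) (ProjGenLinGroup.mk (bm u 0)) = _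
    rw [map_bm, map_zero]
    rfl

/-- Iwasawa decomposition of cosets. -/
theorem exists_borel_rep (w : HeightOneSpectrum (𝓞 K)) (x : PGL(2, K) ⧸ U0 (K := K) w) :
    ∃ (β : K) (a : Kˣ), x = (((borP K).n β * (borP K).d a : PGL(2, K)) : PGL(2, K) ⧸ U0 (K := K) w) := by
  induction x using QuotientGroup.induction_on with
  | H g =>
    induction g using ProjGenLinGroup.induction_on with
    | mk g =>
      obtain ⟨b, k, hbk, hb0, hk, hkd⟩ := iwasawa w g
      have hdet : (b : Matrix (Fin 2) (Fin 2) K) 0 0 * (b : Matrix (Fin 2) (Fin 2) K) 1 1 ≠ 0 := by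
        have h1 : (b : Matrix (Fin 2) (Fin 2) K).det ≠ 0 := b.det_ne_zero
        rwa [Matrix.det_fin_two, hb0, mul_zero, sub_zero] at h1
      have h00 := left_ne_zero_of_mul hdet
      have h11 := right_ne_zero_of_mul hdet
      refine ⟨(b : Matrix (Fin 2) (Fin 2) K) 0 1 / (b : Matrix (Fin 2) (Fin 2) K) 1 1,
        Units.mk0 ((b : Matrix (Fin 2) (Fin 2) K) 0 0 / (b : Matrix (Fin 2) (Fin 2) K) 1 1)
          (div_ne_zero h00 h11), ?_⟩
      have h2 : (borP K).n ((b : Matrix (Fin 2) (Fin 2) K) 0 1 /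
          (b : Matrix (Fin 2) (Fin 2) K) 1 1) * (borP K).d (Units.mk0
          ((b : Matrix (Fin 2) (Fin 2) K) 0 0 / (b : Matrix (Fin 2) (Fin 2) K) 1 1)
          (div_ne_zero h00 h11)) = ProjGenLinGroup.mk b := by
        rw [borP_n, borP_d, ← map_mul, bm_mul, ProjGenLinGroup.mk_eq_mk_iff]
        refine ⟨Units.mk0 _ h11, ?_⟩
        ext i j
        fin_cases i <;> fin_cases j <;>
          simp [bm, Matrix.mul_apply, Fin.sum_univ_two, hb0, Matrix.GeneralLinearGroup.scalar,
            Matrix.scalar_apply, h11]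
      rw [h2, hbk, map_mul, eq_comm, QuotientGroup.eq, ← mul_assoc, inv_mul_cancel, one_mul]
      exact ⟨k, ⟨hk, hkd⟩, rfl⟩

theorem exists_borel_rep' {w : HeightOneSpectrum (𝓞 K)} {U : Subgroup PGL(2, K)}
    (hU : U = U0 w) (x : PGL(2, K) ⧸ U) :
    ∃ (β : K) (a : Kˣ), x = (((borP K).n β * (borP K).d a : PGL(2, K)) : PGL(2, K) ⧸ U) := by
  subst hU
  exact exists_borel_rep w x

/-- Matrices close to `1` are in the congruence subgroup. -/
theorem mem_GLcong_of_close {w : HeightOneSpectrum (𝓞 K)} {n : ℕ} {g : GL (Fin 2) K}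
    (h : ∀ i j, w.valuation K ((g : Matrix (Fin 2) (Fin 2) K) i j -
      (1 : Matrix (Fin 2) (Fin 2) K) i j) ≤ exp (-((n + 1 : ℕ) : ℤ))) : g ∈ GLcong w n := by
  have hlt : (exp (-((n + 1 : ℕ) : ℤ)) : WithZero (Multiplicative ℤ)) < 1 := by
    rw [← exp_zero, exp_lt_exp]; push_cast; linarith [Int.natCast_nonneg n]
  have hlt' : ∀ i j, w.valuation K ((g : Matrix (Fin 2) (Fin 2) K) i j -
      (1 : Matrix (Fin 2) (Fin 2) K) i j) < 1 := fun i j => (h i j).trans_lt hlt
  have h00 := hlt' 0 0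
  have h01 := hlt' 0 1
  have h10 := hlt' 1 0
  have h11 := hlt' 1 1
  simp only [Matrix.one_apply_eq, ne_eq, zero_ne_one, not_false_eq_true, Matrix.one_apply_ne,
    one_ne_zero, sub_zero] at h00 h01 h10 h11
  refine ⟨⟨fun i j => ?_, ?_⟩, fun i j => (h i j).trans (by rw [exp_le_exp]; push_cast; linarith)⟩
  · have h3 : (g : Matrix (Fin 2) (Fin 2) K) i j = ((g : Matrix (Fin 2) (Fin 2) K) i j -
        (1 : Matrix (Fin 2) (Fin 2) K) i j) + (1 : Matrix (Fin 2) (Fin 2) K) i j := by ring
    change w.valuation K ((g : Matrix (Fin 2) (Fin 2) K) i j) ≤ 1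
    rw [h3]
    refine (Valuation.map_add _ _ _).trans (max_le (hlt' i j).le ?_)
    by_cases hij : i = j
    · subst hij; simp
    · simp [hij]
  · set a := (g : Matrix (Fin 2) (Fin 2) K) 0 0
    set b := (g : Matrix (Fin 2) (Fin 2) K) 0 1
    set c := (g : Matrix (Fin 2) (Fin 2) K) 1 0
    set d := (g : Matrix (Fin 2) (Fin 2) K) 1 1
    have hdet : (g : Matrix (Fin 2) (Fin 2) K).det =
        1 + (((a - 1) + (d - 1) + (a - 1) * (d - 1)) - b * c) := by
      rw [Matrix.det_fin_two]; ring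
    have hsmall : w.valuation K (((a - 1) + (d - 1) + (a - 1) * (d - 1)) - b * c) < 1 := by
      refine (Valuation.map_sub _ _ _).trans_lt (max_lt ?_ ?_)
      · refine (Valuation.map_add _ _ _).trans_lt (max_lt ?_ ?_)
        · exact (Valuation.map_add _ _ _).trans_lt (max_lt h00 h11)
        · rw [map_mul]; exact mul_lt_one_of_nonneg_of_lt_one_left zero_le h00 h11.le
      · rw [map_mul]; exact mul_lt_one_of_nonneg_of_lt_one_left zero_le h01 h10.le
    rw [hdet, Valuation.map_add_eq_of_lt_left, map_one]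
    rw [map_one]; exact hsmall

/-- **Density of the Borel points.** Every point of `X_f` is equivalent under `PGL(2, K)` to a Borel
point which is the base point at a given finite set of places and at all places where the level is
not maximal. -/
theorem dense (L : Level (𝓞 K) K) (S : Finset (HeightOneSpectrum (𝓞 K))) (x : XF L.fam) :
    ∃ g : PGL(2, K), IsBor (borP K) L.fam (g • x) ∧
      ∀ w, w ∈ S ∨ L.U w ≠ U0 w → (g • x) w = ((1 : PGL(2, K)) : PGL(2, K) ⧸ L.fam.U w) := by
  classical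
  have hr : ∀ w, ∃ r : GL (Fin 2) K,
      ((ProjGenLinGroup.mk r : PGL(2, K)) : PGL(2, K) ⧸ L.fam.U w) = x w := by
    intro w
    obtain ⟨g, hg⟩ := QuotientGroup.mk_surjective (x w)
    obtain ⟨r, rfl⟩ := ProjGenLinGroup.mk_surjective g
    exact ⟨r, hg⟩
  choose r hr using hr
  choose n hn using L.isOpen
  let S' : Finset (HeightOneSpectrum (𝓞 K)) := S ∪ L.fin.toFinset
  obtain ⟨γ, hγ⟩ := exists_approx_GL S' r (fun w => n w + 1)
  let y : XF L.fam := (ProjGenLinGroup.mk γ : PGL(2, K))⁻¹ • x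
  have hy1 : ∀ w ∈ S', y w = ((1 : PGL(2, K)) : PGL(2, K) ⧸ L.fam.U w) := by
    intro w hw
    change (ProjGenLinGroup.mk γ : PGL(2, K))⁻¹ • x w = _
    rw [← hr w]
    change (((ProjGenLinGroup.mk γ : PGL(2, K))⁻¹ * ProjGenLinGroup.mk (r w) : PGL(2, K)) :
      PGL(2, K) ⧸ L.fam.U w) = _
    rw [QuotientGroup.eq, _root_.mul_inv_rev, inv_inv, mul_one, ← map_inv, ← map_mul]
    exact hn w ⟨_, mem_GLcong_of_close (hγ w hw), rfl⟩
  have hrep : ∀ w, ∃ (β : K) (a : Kˣ),
      y w = (((borP K).n β * (borP K).d a : PGL(2, K)) : PGL(2, K) ⧸ L.fam.U w) ∧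
      (w ∈ S' → a = 1) := by
    intro w
    by_cases hw : w ∈ S'
    · exact ⟨0, 1, by rw [hy1 w hw, (borP K).n_zero, (borP K).d_one, one_mul], fun _ => rfl⟩
    · have hU : L.fam.U w = U0 w := by
        by_contra hcon
        exact hw (Finset.mem_union_right _ (L.fin.mem_toFinset.mpr hcon))
      obtain ⟨β, a, h⟩ := exists_borel_rep' hU (y w)
      exact ⟨β, a, h, fun h => absurd h hw⟩
  choose β a hβa ha using hrep
  choose m hm using fun w => (bLevel L).small w ((borP K).d (a w))
  let T : Finset (HeightOneSpectrum (𝓞 K)) := S' ∪ y.fin.toFinset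
  obtain ⟨b, hb1, hb2⟩ := exists_approx T β m
  refine ⟨(borP K).n (-b) * (ProjGenLinGroup.mk γ)⁻¹, ?_⟩
  rw [mul_smul]
  have hval : ∀ w, ((borP K).n (-b) • y) w =
      (((borP K).d (a w) : PGL(2, K)) : PGL(2, K) ⧸ L.fam.U w) ∨
      (((borP K).n (-b) • y) w = ((1 : PGL(2, K)) : PGL(2, K) ⧸ L.fam.U w) ∧ w ∉ S') := by
    intro w
    by_cases hw : w ∈ T
    · left
      rw [XF.smul_apply, hβa w]
      change (((borP K).n (-b) * ((borP K).n (β w) * (borP K).d (a w)) : PGL(2, K)) :
        PGL(2, K) ⧸ L.fam.U w) = _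
      rw [eq_comm, QuotientGroup.eq, ← mul_assoc ((borP K).n (-b)), ← (borP K).n_add,
        ← mul_assoc]
      apply hm w
      rw [← Valuation.map_neg]
      have h1 : -(-b + β w) = b - β w := by ring
      rw [h1]
      exact hb1 w hw
    · right
      have h1 : y w = ((1 : PGL(2, K)) : PGL(2, K) ⧸ L.fam.U w) := by
        by_contra hcon
        exact hw (Finset.mem_union_right _ (y.fin.mem_toFinset.mpr hcon))
      have h2 : w ∉ S' := fun h => hw (Finset.mem_union_left _ h)
      have hU : L.fam.U w = U0 w := by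
        by_contra hcon
        exact h2 (Finset.mem_union_right _ (L.fin.mem_toFinset.mpr hcon))
      refine ⟨?_, h2⟩
      rw [XF.smul_apply, h1]
      change (((borP K).n (-b) * 1 : PGL(2, K)) : PGL(2, K) ⧸ L.fam.U w) = _
      rw [eq_comm, QuotientGroup.eq, inv_one, one_mul, mul_one, hU]
      exact n_mem_U0 (by rw [Valuation.map_neg]; exact hb2 w hw)
  refine ⟨fun w => ?_, fun w hw => ?_⟩
  · rcases hval w with h | ⟨h, -⟩
    · exact ⟨a w, h⟩
    · exact ⟨1, by rw [(borP K).d_one]; exact h⟩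
  · have hw' : w ∈ S' := by
      rcases hw with h | h
      · exact Finset.mem_union_left _ h
      · exact Finset.mem_union_right _ (L.fin.mem_toFinset.mpr h)
    rcases hval w with h | ⟨h, h'⟩
    · have h2 := ha w hw'
      rw [h2, (borP K).d_one] at h
      exact h
    · exact absurd hw' h'

end Fermat.Agent.H7.Z
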