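import Fermat.Agent.H19W7
import Fermat.Agent.H7ZMod

/-!
# The Whittaker function in the language of H7ZMod (helper19)
-/

set_option autoImplicit false
set_option linter.unusedSectionVars false

noncomputable section

open Fermat.Agent (H3)
open NumberField Matrix Module IsDedekindDomain HeightOneSpectrum WithZero
open scoped MatrixGroups

namespace Fermat.Agent.H19W

open Fermat.Agent.H59D Fermat.Agent.H59XF

variable {K : Type*} [Field K] [NumberField K] {J : Type*} [Fintype J] [Nonempty J]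
  {m : Model K J}

omit [NumberField K] in
theorem borP_eq : H19W.borP K = H7.Z.borP K := rfl

omit [NumberField K] in
theorem nP_eq (b : K) : nP b = (H7.Z.borP K).n b := rfl

omit [NumberField K] in
theorem dP_eq (a : Kˣ) : dP a = (H7.Z.borP K).d a := rfl

theorem isWM_iff (k0 : ℝ → ℝ) (Φ : m.X → ℂ) (κ : XF m.L.fam → ℂ) : IsWM m k0 Φ κ ↔
    IsW m.e (fun (a : Kˣ) (y : XF m.L.fam) => (H7.Z.borP K).d a • y) (fun u => u * k0 u)
      (fun x y => Φ (x, y)) κ := Iff.rfl

theorem IsWM.whit' {k0 : ℝ → ℝ} (hk0 : ∀ u, 0 < u → k0 u ≠ 0) {Φ : m.X → ℂ}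
    {κ : XF m.L.fam → ℂ} (h : IsWM m k0 Φ κ)
    (hG : ∀ (g : PGL(2, K)) (x : m.X), Φ (g • x) = Φ x) :
    H7.Z.Whit (H7.Z.borP K) m.L.fam κ := h.whit hk0 hG

end Fermat.Agent.H19W
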