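import Mathlib
import Fermat.Agent.H5ZIter
import Fermat.Agent.H7ZMod
import Fermat.Agent.H19W8

set_option autoImplicit false
set_option linter.unusedSectionVars false

/-! # Lattices of translations in the model (S47, C5-LAT)

`m : Model K J`:
* `exists_basis`, `exists_basis_mul` : real bases of `J → ℂ` spanning `𝓞 K`, `N 𝓞 K`;
* `exists_fix`, `exists_fix_finset` : `n(N x) y = y` for `x ∈ 𝓞 K`;
* `n_smul`, `d_smul` : the action of `n(b)`, `d(a)` on the model;
* `exists_hper` : invariant functions are periodic on horospheres. -/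

open MeasureTheory Set Module IsDedekindDomain NumberField Matrix
open scoped MatrixGroups

namespace Fermat.Agent.H5Z

open Fermat.Agent Fermat.Agent.H59D Fermat.Agent.H59XF

variable {K : Type*} [Field K] [NumberField K] {J : Type*} [Fintype J]

/-- the embedding of `K` in `J → ℂ` -/
def emb (m : Model K J) (a : K) : J → ℂ := fun j => m.e j a

@[simp] lemma emb_apply (m : Model K J) (a : K) (j : J) : emb m a j = m.e j a := rfl

lemma emb_add (m : Model K J) (a b : K) : emb m (a + b) = emb m a + emb m b :=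
  funext fun j => map_add (m.e j) a b

lemma emb_zero (m : Model K J) : emb m 0 = 0 := funext fun j => map_zero (m.e j)

lemma emb_neg (m : Model K J) (a : K) : emb m (-a) = -emb m a :=
  funext fun j => map_neg (m.e j) a

lemma emb_sum {ι : Type*} (m : Model K J) (s : Finset ι) (f : ι → K) :
    emb m (∑ i ∈ s, f i) = ∑ i ∈ s, emb m (f i) := by
  funext j
  rw [emb_apply, map_sum, Finset.sum_apply]
  rfl

lemma emb_zsmul (m : Model K J) (n : ℤ) (a : K) : emb m (n • a) = n • emb m a := by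
  funext j
  rw [emb_apply, Pi.smul_apply, emb_apply, map_zsmul]

theorem nonempty_J (m : Model K J) : Nonempty J := by
  obtain ⟨j, -⟩ := m.e_bij.surjective (Classical.arbitrary (InfinitePlace K))
  exact ⟨j⟩

/-- A real basis of `J → ℂ` spanning the lattice `N 𝓞 K`. -/
theorem exists_basis_mul (m : Model K J) (N : ℕ) (hN : 0 < N) :
    ∃ (n : ℕ) (b : Basis (Fin n) ℝ (J → ℂ)), ∀ v : J → ℂ,
      v ∈ Submodule.span ℤ (range b) ↔ ∃ x : 𝓞 K, v = emb m (N * (x : K)) := by
  have := nonempty_J m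
  set bs := integralBasis K with hbs
  let b1 : Basis _ ℝ (J → ℂ) := H19W.embBasis m bs
  have hb1 : ∀ i, b1 i = emb m (bs i) := fun i => H19W.embBasis_apply m bs i
  have hNr : (N : ℝ) ≠ 0 := by exact_mod_cast hN.ne'
  let b2 : Basis _ ℝ (J → ℂ) := b1.isUnitSMul (w := fun _ => (N : ℝ))
    fun _ => isUnit_iff_ne_zero.mpr hNr
  have hb2 : ∀ i, b2 i = emb m (N * bs i) := by
    intro i
    rw [Basis.isUnitSMul_apply, hb1]
    funext j
    rw [Pi.smul_apply, emb_apply, emb_apply, map_mul, map_natCast, Complex.real_smul]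
    simp
  refine ⟨_, b2.reindex (Fintype.equivFin _), fun v => ?_⟩
  rw [Basis.range_reindex]
  constructor
  · intro hv
    rw [Submodule.mem_span_range_iff_exists_fun] at hv
    obtain ⟨c, rfl⟩ := hv
    refine ⟨∑ i, c i • RingOfIntegers.basis K i, ?_⟩
    have h1 : ((∑ i, c i • RingOfIntegers.basis K i : 𝓞 K) : K) = ∑ i, c i • bs i := by
      rw [RingOfIntegers.coe_eq_algebraMap, map_sum]
      refine Finset.sum_congr rfl fun i _ => ?_
      rw [map_zsmul, hbs, integralBasis_apply]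
    rw [h1, Finset.mul_sum, emb_sum]
    refine Finset.sum_congr rfl fun i _ => ?_
    rw [hb2, mul_smul_comm, emb_zsmul]
  · rintro ⟨x, rfl⟩
    rw [Submodule.mem_span_range_iff_exists_fun]
    refine ⟨fun i => (RingOfIntegers.basis K).repr x i, ?_⟩
    have h1 : (x : K) = ∑ i, (RingOfIntegers.basis K).repr x i • bs i := by
      conv_lhs => rw [← (RingOfIntegers.basis K).sum_repr x]
      rw [RingOfIntegers.coe_eq_algebraMap, map_sum]
      refine Finset.sum_congr rfl fun i _ => ?_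
      rw [map_zsmul, hbs, integralBasis_apply]
    rw [h1, Finset.mul_sum, emb_sum]
    refine Finset.sum_congr rfl fun i _ => ?_
    rw [hb2, mul_smul_comm, emb_zsmul]

/-- **(1)** A real basis of `J → ℂ` spanning the lattice `𝓞 K`. -/
theorem exists_basis (m : Model K J) :
    ∃ (n : ℕ) (b : Basis (Fin n) ℝ (J → ℂ)), ∀ v : J → ℂ,
      v ∈ Submodule.span ℤ (range b) ↔ ∃ x : 𝓞 K, v = fun j => m.e j (x : K) := by
  obtain ⟨n, b, h⟩ := exists_basis_mul m 1 one_pos
  refine ⟨n, b, fun v => (h v).trans ?_⟩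
  simp only [Nat.cast_one, one_mul]
  rfl

/-- **(2)** A multiple of `𝓞 K` fixes a given point of `X_f`. -/
theorem exists_fix (m : Model K J) (y : XF m.L.fam) :
    ∃ N : ℕ, 0 < N ∧ ∀ x : 𝓞 K, (H7.Z.borP K).n (N * (x : K)) • y = y := by
  obtain ⟨N, hN, h⟩ := H19W.exists_stab_nat (H7.Z.bLevel m.L) y
  refine ⟨N, Nat.pos_of_ne_zero hN, fun x => h _ fun w => ?_⟩
  rw [map_mul]
  exact (mul_le_mul_right (w.valuation_le_one (K := K) x) _).trans (by rw [mul_one])

/-- **(2')** A multiple of `𝓞 K` fixes finitely many points of `X_f`. -/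
theorem exists_fix_finset (m : Model K J) (Y : Finset (XF m.L.fam)) :
    ∃ N : ℕ, 0 < N ∧ ∀ y ∈ Y, ∀ x : 𝓞 K, (H7.Z.borP K).n (N * (x : K)) • y = y := by
  classical
  choose f hf h using exists_fix m
  refine ⟨∏ y ∈ Y, f y, Finset.prod_pos fun y _ => hf y, fun y hy x => ?_⟩
  have h1 : ((∏ y ∈ Y, f y : ℕ) : K) * (x : K) =
      (f y : K) * (((∏ z ∈ Y.erase y, f z : ℕ) * x : 𝓞 K) : K) := by
    rw [← Finset.mul_prod_erase Y f hy, Nat.cast_mul, mul_assoc]
    push_cast
    rfl
  rw [h1]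
  exact h y _

/-- **(3)** The action of `n(b)` on the model. -/
theorem n_smul (m : Model K J) (b : K) (p : m.X) :
    (H7.Z.borP K).n b • p = (tr (fun j => m.e j b) p.1, (H7.Z.borP K).n b • p.2) :=
  Prod.ext (H19W.actInf_nP m b p.1) rfl

/-- **(3)** The action of `n(b)` on functions. -/
theorem comp_n_smul {E : Type*} (m : Model K J) (f : m.X → E)
    (hf : ∀ (g : PGL(2, K)) (p : m.X), f (g • p) = f p) (b : K) (x : J → H3) (y : XF m.L.fam) :
    f (tr (fun j => m.e j b) x, (H7.Z.borP K).n b • y) = f (x, y) := by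
  exact (congrArg f (n_smul m b (x, y))).symm.trans (hf _ _)

/-- **(3)** The action of `d(a)` on the model. -/
theorem d_smul (m : Model K J) (a : Kˣ) (p : m.X) :
    (H7.Z.borP K).d a • p = (H19W.dil m.e a p.1, (H7.Z.borP K).d a • p.2) :=
  Prod.ext (H19W.actInf_dP m a p.1) rfl

theorem d_smul_fst (m : Model K J) (a : Kˣ) (p : m.X) (j : J) :
    ((H7.Z.borP K).d a • p).1 j = ⟨m.e j a * (p.1 j).z, ‖m.e j a‖ * (p.1 j).y,
      mul_pos (norm_pos_iff.mpr (by rw [Ne, map_eq_zero]; exact a.ne_zero)) (p.1 j).pos⟩ := by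
  rw [d_smul]
  rfl

/-- **(3)** The action of `d(a)` on functions. -/
theorem comp_d_smul {E : Type*} (m : Model K J) (f : m.X → E)
    (hf : ∀ (g : PGL(2, K)) (p : m.X), f (g • p) = f p) (a : Kˣ) (x : J → H3) (y : XF m.L.fam) :
    f (H19W.dil m.e a x, (H7.Z.borP K).d a • y) = f (x, y) := by
  exact (congrArg f (d_smul m a (x, y))).symm.trans (hf _ _)

/-- Invariant functions on the model are periodic on all horospheres, with respect to a lattice
`N 𝓞 K` (the same for finitely many points of `X_f`). -/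
theorem exists_hper (m : Model K J) (Y : Finset (XF m.L.fam)) :
    ∃ (N : ℕ) (_ : 0 < N) (n : ℕ) (b : Basis (Fin n) ℝ (J → ℂ)),
      (∀ v : J → ℂ, v ∈ Submodule.span ℤ (range b) ↔ ∃ x : 𝓞 K, v = emb m (N * (x : K))) ∧
      (∀ y ∈ Y, ∀ x : 𝓞 K, (H7.Z.borP K).n (N * (x : K)) • y = y) ∧
      ∀ f : m.X → ℂ, (∀ (g : PGL(2, K)) (p : m.X), f (g • p) = f p) →
        ∀ y ∈ Y, HPer b (fun x => f (x, y)) := by
  obtain ⟨N, hN, h⟩ := exists_fix_finset m Y
  obtain ⟨n, b, hb⟩ := exists_basis_mul m N hN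
  refine ⟨N, hN, n, b, hb, h, fun f hf y hy x v hv => ?_⟩
  obtain ⟨t, rfl⟩ := (hb v).mp hv
  have h1 := comp_n_smul m f hf (N * (t : K)) x y
  rw [h y hy t] at h1
  exact h1

end Fermat.Agent.H5Z
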