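import Fermat.Agent.H95S4

/-!
# Bounded kernel, part 5 (helper95): uniform exponents

* `H95S.grow_uniform`: moderate growth with an exponent depending on `η ∈ Y0`, `Y0` finite, gives a
  uniform exponent;
* `H95S.bounded_of_eigen'`: `bounded_of_eigen` with this hypothesis.
-/

set_option autoImplicit false
set_option linter.unusedSectionVars false

noncomputable section

open MeasureTheory
open scoped ComplexConjugate Real

namespace Fermat.Agent.H95S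

open Fermat.Agent.H3

variable {J : Type*} [Fintype J] {Y : Type*}

theorem grow_uniform {Y0 : Set Y} (hY0 : Y0.Finite) (Φ : (J → H3) × Y → ℂ)
    (h : ∀ η ∈ Y0, ∃ A : ℝ, ∀ c > 0, ∃ M, ∀ w : J → H3, (∀ j, c ≤ (w j).y) →
      ‖Φ (w, η)‖ ≤ M * ht w ^ A) :
    ∃ A : ℝ, 0 ≤ A ∧ ∀ c > 0, ∃ M, ∀ η ∈ Y0, ∀ w : J → H3, (∀ j, c ≤ (w j).y) →
      ‖Φ (w, η)‖ ≤ M * ht w ^ A := by
  classical
  choose! a ha using h
  set A : ℝ := ∑ η ∈ hY0.toFinset, |a η| with hA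
  have hA0 : 0 ≤ A := Finset.sum_nonneg fun _ _ => abs_nonneg _
  have hle : ∀ η ∈ Y0, a η ≤ A := fun η hη =>
    (le_abs_self _).trans (Finset.single_le_sum (f := fun η => |a η|)
      (fun _ _ => abs_nonneg _) (hY0.mem_toFinset.mpr hη))
  refine ⟨A, hA0, fun c hc => ?_⟩
  have h1 : ∀ η, ∃ M : ℝ, 0 ≤ M ∧ (η ∈ Y0 → ∀ w : J → H3, (∀ j, c ≤ (w j).y) →
      ‖Φ (w, η)‖ ≤ M * ht w ^ A) := by
    intro η
    by_cases hη : η ∈ Y0
    swap
    · exact ⟨0, le_rfl, fun h => absurd h hη⟩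
    obtain ⟨M, hM⟩ := ha η hη c hc
    set C := c ^ Fintype.card J with hC
    have hC0 : 0 < C := by positivity
    refine ⟨|M| * C ^ (a η - A), by positivity, fun _ w hw => ?_⟩
    refine (hM w hw).trans ?_
    have h2 : ht w ^ (a η) ≤ C ^ (a η - A) * ht w ^ A := by
      calc ht w ^ (a η) = ht w ^ (a η - A) * ht w ^ A := by
            rw [← Real.rpow_add (ht_pos w)]
            congr 1
            ring
        _ ≤ _ := by
            refine mul_le_mul_of_nonneg_right ?_ (Real.rpow_nonneg (ht_pos w).le _)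
            exact Real.rpow_le_rpow_of_nonpos hC0 (pow_le_ht hc.le hw) (by linarith [hle η hη])
    calc M * ht w ^ (a η) ≤ |M| * ht w ^ (a η) :=
          mul_le_mul_of_nonneg_right (le_abs_self M) (Real.rpow_nonneg (ht_pos w).le _)
      _ ≤ |M| * (C ^ (a η - A) * ht w ^ A) := mul_le_mul_of_nonneg_left h2 (abs_nonneg M)
      _ = _ := by ring
  choose M hM0 hM using h1
  refine ⟨∑ η ∈ hY0.toFinset, M η, fun η hη w hw => ?_⟩
  refine (hM η hη w hw).trans ?_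
  refine mul_le_mul_of_nonneg_right ?_ (Real.rpow_nonneg (ht_pos w).le _)
  exact Finset.single_le_sum (f := M) (fun η _ => hM0 η) (hY0.mem_toFinset.mpr hη)

/-- Cuspidal eigenfunctions of moderate growth are bounded. -/
theorem bounded_of_eigen' {κ : (J → ℝ) → ℂ} {T L Mκ : ℝ} (hκ : Ker κ T L Mκ) {Y0 : Set Y}
    (hY0 : Y0.Finite) (hJ : 0 < Fintype.card J) (Φ : (J → H3) × Y → ℂ)
    (hgrow : ∀ η ∈ Y0, ∃ A : ℝ, ∀ c > 0, ∃ M, ∀ w : J → H3, (∀ j, c ≤ (w j).y) →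
      ‖Φ (w, η)‖ ≤ M * ht w ^ A)
    (hmeas : ∀ η ∈ Y0, Measurable fun v => Φ (v, η))
    {c₁ : ℂ} (hc₁ : c₁ ≠ 0)
    (heig : ∀ η ∈ Y0, ∀ w, RK κ (fun v => Φ (v, η)) w = c₁ * Φ (w, η))
    {δ : ℝ} (hcusp : Cusp Y0 δ Φ) (rel : (J → H3) × Y → (J → H3) × Y → Prop)
    (hinv : ∀ x y, rel x y → Φ x = Φ y)
    {B c : ℝ} (hc : 0 < c)
    (hbal : ∀ η ∈ Y0, ∀ w, ∃ w', rel (w, η) (w', η) ∧
      ht w' = ht w ∧ ∀ j, ht w ^ (1 / (Fintype.card J : ℝ)) ≤ B * (w' j).y)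
    (hred : ∀ x, ∃ w, ∃ η ∈ Y0, rel x (w, η) ∧ ∀ j, c ≤ (w j).y) :
    ∃ M, ∀ x, ‖Φ x‖ ≤ M := by
  obtain ⟨A, -, hA⟩ := grow_uniform hY0 Φ hgrow
  exact bounded_of_eigen hκ Y0 hJ Φ hA hmeas hc₁ heig hcusp rel hinv hc hbal hred

end Fermat.Agent.H95S
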