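import Fermat.Agent.H17S3
import Fermat.Agent.H59K3
import Fermat.Agent.H95S5
import Fermat.Agent.H35BK1
import Fermat.Agent.H5ZModel
import Fermat.Agent.H39ZCT
import Fermat.Agent.H2ZCov

/-!
# S47, block (C): eigenfunctions of the cuspidal operator are bounded (helper17, CFAM)

* `cusp_of_ct0`: `ct0 = 0` implies `H95S.Cusp` (uniformly for invariant functions);
* `C5 m s κ f`: the operator `∑ i, f i ⊗ κ i` kills constant terms (the statement of C5);
* `bounded_of_eigen_fk`: an invariant eigenfunction of moderate growth of `R(a)^N C_1` is bounded.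
-/

set_option autoImplicit false
set_option linter.unusedSectionVars false

noncomputable section

open MeasureTheory Set Filter
open scoped ENNReal ComplexConjugate MatrixGroups

namespace Fermat.Agent.H17S

open Fermat.Agent.H32Z Fermat.Agent.H59XF Fermat.Agent.H59D Fermat.Agent.H51Z Fermat.Agent.H56Z
  Fermat.Agent.H5Z Fermat.Agent.H59K

variable {K : Type*} [Field K] [NumberField K] {J : Type*} [Fintype J] {m : Model K J}

/-- zero constant terms everywhere -/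
def ZCT (F : m.X → ℂ) : Prop :=
  ∀ (y : XF m.L.fam) (x : J → H3), H39Z.ct0 (fun x => F (x, y)) x = 0

/-- fibrewise measurable and bounded on compact sets -/
def FLB (F : m.X → ℂ) : Prop := ∀ y : XF m.L.fam, H39Z.LB fun x : J → H3 => F (x, y)

/-- The constant term of invariant functions in the form `H95S.Cusp`. -/
theorem cusp_of_ct0 (m : Model K J) (Y : Finset (XF m.L.fam)) :
    ∃ δ : ℝ, ∀ F : m.X → ℂ, (∀ (g : PGL(2, K)) x, F (g • x) = F x) → FLB F →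
      (∀ y ∈ Y, ∀ x, H39Z.ct0 (fun x => F (x, y)) x = 0) →
      H95S.Cusp (Y : Set (XF m.L.fam)) δ F := by
  obtain ⟨N, hN, n, b, -, -, hper⟩ := exists_hper m Y
  have hbd := ZSpan.fundamentalDomain_isBounded (H39Z.sb b one_pos)
  obtain ⟨δ, hδ⟩ := hbd.exists_norm_le
  refine ⟨δ, fun F hF hlb h0 η hη => ?_⟩
  refine ⟨ZSpan.fundamentalDomain (H39Z.sb b one_pos),
    ZSpan.fundamentalDomain_measurableSet _, ?_, ?_, ?_⟩
  · exact pos_iff_ne_zero.2 (ZSpan.measure_fundamentalDomain_ne_zero _)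
  · intro u hu j
    exact (norm_le_pi_norm u j).trans (hδ u hu)
  · intro w
    have h1 : H39Z.NPer b 1 (fun z => (fun x : J → H3 => F (x, η)) (H5Z.tr z w)) := by
      intro z v hv
      have h2 := hper F hF η hη (H5Z.tr z w) v hv
      have h3 : H5Z.tr v (H5Z.tr z w) = H5Z.tr (z + v) w := H5Z.tr_tr v z w
      rw [h3] at h2
      simpa using h2
    have h4 := h0 η hη w
    rw [H39Z.ct0_eq (hlb η) one_pos h1, H39Z.lm, smul_eq_zero] at h4
    rcases h4 with h4 | h4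
    · exact absurd h4 (inv_ne_zero (H39Z.fd_pos _ _).ne')
    · exact h4

/-! ### Operators of finite families -/

variable {I : Type*}

/-- The operator of a finite family. -/
def opF (s : Finset I) (κ : I → (J → ℝ) → ℂ) (f : I → GlobKer m.L.fam) (Φ : m.X → ℂ) (x : m.X) : ℂ :=
  ∑ i ∈ s, gX (f i) (RI (κ i) Φ) x

/-- **C5**: the operator of the family kills constant terms. -/
def C5 (m : Model K J) (s : Finset I) (κ : I → (J → ℝ) → ℂ) (f : I → GlobKer m.L.fam) : Prop :=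
  ∀ Φ : m.X → ℂ, (∀ (g : PGL(2, K)) x, Φ (g • x) = Φ x) → FLB Φ → ZCT (opF s κ f Φ)

variable {s : Finset I} {κ : I → (J → ℝ) → ℂ} {f : I → GlobKer m.L.fam}

theorem ck_fk (hκ : ∀ i ∈ s, IsRC (κ i)) : CK (coarse m) (fk m s κ f) :=
  CK.sum s fun i hi => ck_ker (hκ i hi) (f i)

theorem act_fk (hκ : ∀ i ∈ s, IsRC (κ i)) {Φ : m.X → ℂ} (hΦ : LB (coarse m) Φ) :
    act m.μ (fk m s κ f) Φ = opF s κ f Φ := by
  funext x
  have h1 := act_sum_left (μ := m.μ) s (k := fun i => m.ker (κ i) (f i).k)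
    (fun i hi => ck_ker (hκ i hi) (f i)) hΦ x
  refine h1.trans ?_
  unfold opF
  exact Finset.sum_congr rfl fun i hi => congrFun (act_ker (hκ i hi) (f i) hΦ) x

/-- Fibrewise locally bounded functions are locally bounded. -/
theorem FLB.lb {F : m.X → ℂ} (h : FLB F) : LB (coarse m) F where
  meas := (m.measurable_iff F).2 fun y => (h y).1
  lb := by
    rintro _ ⟨R, A, hA, rfl⟩ p
    obtain ⟨n, hn⟩ := hA.row
    have hfin : {y | A p.2 y}.Finite := Set.finite_of_encard_le_coe (hn p.2)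
    choose C hC using fun y => (h y).2 _ (isCompact_Bl R p.1)
    refine ⟨∑ y ∈ hfin.toFinset, |C y|, Finset.sum_nonneg fun _ _ => abs_nonneg _, ?_⟩
    rintro q ⟨h1, h2⟩
    refine (hC q.2 q.1 h1).trans ((le_abs_self _).trans ?_)
    exact Finset.single_le_sum (f := fun y => |C y|) (fun _ _ => abs_nonneg _)
      (hfin.mem_toFinset.2 h2)

/-- Locally bounded functions are fibrewise bounded on compact sets. -/
theorem LB.flb {F : m.X → ℂ} (h : LB (coarse m) F) : FLB F := by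
  intro y
  refine ⟨(m.measurable_iff F).1 h.meas y, fun C hC => ?_⟩
  have hA : FR (fun a b : XF m.L.fam => a = b) :=
    ⟨⟨1, fun x => by
      have h1 : {y | x = y} = {x} := by ext; simp [eq_comm]
      rw [h1]; simp⟩, ⟨1, fun y => by
      have h1 : {x | x = y} = {y} := by ext; simp
      rw [h1]; simp⟩⟩
  by_cases hne : C.Nonempty
  swap
  · rw [Set.not_nonempty_iff_eq_empty] at hne
    exact ⟨0, fun x hx => by rw [hne] at hx; exact absurd hx (Set.notMem_empty x)⟩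
  obtain ⟨p, -⟩ := hne
  have hcont : Continuous fun w : J → H3 => ∑ j, H3.ch (p j) (w j) :=
    continuous_finsetSum _ fun j _ => H3.continuous_ch.comp
      (continuous_const.prodMk (continuous_apply j))
  obtain ⟨R, hR⟩ := hC.exists_bound_of_continuousOn hcont.continuousOn
  obtain ⟨B, -, hB⟩ := h.lb _ (coarse_band R hA) ((p, y) : (J → H3) × XF m.L.fam)
  refine ⟨B, fun x hx => hB (x, y) ⟨fun j => ?_, rfl⟩⟩
  have h1 := hR x hx
  rw [Real.norm_eq_abs] at h1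
  have h2 : H3.ch (p j) (x j) ≤ ∑ j, H3.ch (p j) (x j) :=
    Finset.single_le_sum (f := fun j => H3.ch (p j) (x j))
      (fun i _ => zero_le_one.trans (H3.one_le_ch _ _)) (Finset.mem_univ j)
  exact h2.trans ((le_abs_self _).trans h1)

theorem lb_opF (hκ : ∀ i ∈ s, IsRC (κ i)) {Φ : m.X → ℂ} (hΦ : LB (coarse m) Φ) :
    LB (coarse m) (opF s κ f Φ) := by
  rw [← act_fk hκ hΦ]
  exact (ck_fk hκ).lb_act hΦ

theorem opF_smul (hκ : ∀ i ∈ s, IsRC (κ i)) {Φ : m.X → ℂ} (hΦ : LB (coarse m) Φ)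
    (hinv : ∀ (g : PGL(2, K)) x, Φ (g • x) = Φ x) (g : PGL(2, K)) (x : m.X) :
    opF s κ f Φ (g • x) = opF s κ f Φ x := by
  rw [← act_fk hκ hΦ]
  exact (ck_fk hκ).act_smul hinv g x

theorem RI_opF {a : (J → ℝ) → ℂ} (ha : IsRC a) (hκ : ∀ i ∈ s, IsRC (κ i)) {Φ : m.X → ℂ}
    (hΦ : LB (coarse m) Φ) : RI a (opF s κ f Φ) = opF s (fun i => conv a (κ i)) f Φ := by
  have h1 : H17S.opF s κ f Φ = fun x => ∑ i ∈ s, (1 : ℂ) * gX (f i) (RI (κ i) Φ) x := by
    funext x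
    simp [H17S.opF]
  rw [h1, RI_sum ha s (fun _ => 1) _ fun i hi => (LB.RI (hκ i hi) hΦ).gX (f i)]
  funext x
  unfold H17S.opF
  refine Finset.sum_congr rfl fun i hi => ?_
  rw [one_mul, RI_gX ha (f i) (LB.RI (hκ i hi) hΦ), RI_conv ha (hκ i hi) hΦ]

theorem opF_RI {a : (J → ℝ) → ℂ} (ha : IsRC a) (hκ : ∀ i ∈ s, IsRC (κ i)) {Φ : m.X → ℂ}
    (hΦ : LB (coarse m) Φ) : opF s κ f (RI a Φ) = opF s (fun i => conv a (κ i)) f Φ := by
  funext x
  unfold opF
  refine Finset.sum_congr rfl fun i hi => ?_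
  rw [RI_conv ha (hκ i hi) hΦ, RI_comm ha (hκ i hi) hΦ]

/-- iterates of `R(a)` -/
def itRI (a : (J → ℝ) → ℂ) (n : ℕ) (Φ : m.X → ℂ) : m.X → ℂ := (RI a)^[n] Φ

theorem itRI_succ (a : (J → ℝ) → ℂ) (n : ℕ) (Φ : m.X → ℂ) :
    itRI a (n + 1) Φ = RI a (itRI a n Φ) := Function.iterate_succ_apply' _ _ _

theorem lb_itRI {a : (J → ℝ) → ℂ} (ha : IsRC a) {Φ : m.X → ℂ} (hΦ : LB (coarse m) Φ) (n : ℕ) :
    LB (coarse m) (itRI a n Φ) := by
  induction n with
  | zero => exact hΦ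
  | succ n ih =>
    rw [itRI_succ]
    exact LB.RI ha ih

theorem itRI_smul {a : (J → ℝ) → ℂ} (ha : IsRC a) {Φ : m.X → ℂ} (hΦ : LB (coarse m) Φ)
    (hinv : ∀ (g : PGL(2, K)) x, Φ (g • x) = Φ x) (n : ℕ) (g : PGL(2, K)) (x : m.X) :
    itRI a n Φ (g • x) = itRI a n Φ x := by
  induction n generalizing g x with
  | zero => exact hinv g x
  | succ n ih =>
    rw [itRI_succ]
    exact RI_smul ha (lb_itRI ha hΦ n) ih g x

theorem itRI_opF {a : (J → ℝ) → ℂ} (ha : IsRC a) (hκ : ∀ i ∈ s, IsRC (κ i)) {Φ : m.X → ℂ}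
    (hΦ : LB (coarse m) Φ) (n : ℕ) :
    itRI a n (opF s κ f Φ) = opF s (fun i => it a n (κ i)) f Φ := by
  induction n with
  | zero => rfl
  | succ n ih =>
    rw [itRI_succ, ih, RI_opF ha (fun i hi => isRC_it ha (hκ i hi) n) hΦ]
    simp only [it_succ]

theorem opF_itRI {a : (J → ℝ) → ℂ} (ha : IsRC a) (hκ : ∀ i ∈ s, IsRC (κ i)) {Φ : m.X → ℂ}
    (hΦ : LB (coarse m) Φ) (n : ℕ) : opF s κ f (itRI a n Φ) = itRI a n (opF s κ f Φ) := by
  induction n with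
  | zero => rfl
  | succ n ih =>
    rw [itRI_succ, opF_RI ha hκ (lb_itRI ha hΦ n), ← RI_opF ha hκ (lb_itRI ha hΦ n), ih, itRI_succ]

/-! ### Growth -/

/-- Growth of order `s` at every point of `X_f`. -/
def GrX (σ : ℝ) (Φ : m.X → ℂ) : Prop :=
  ∀ y : XF m.L.fam, ∀ c > 0, ∃ M : ℝ, 0 ≤ M ∧ ∀ w : J → H3, (∀ j, c ≤ (w j).y) →
    ‖Φ (w, y)‖ ≤ M * H95S.ht w ^ σ

/-- Radial operators preserve the growth. -/
theorem norm_Rk_le_ht {a : (J → ℝ) → ℂ} (ha : IsRC a) {g : (J → H3) → ℂ} {σ c M : ℝ} (hc : 0 < c)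
    {T B : ℝ} (hT : 1 ≤ T) (hB : 0 ≤ B) (haB : ∀ u, ‖a u‖ ≤ B)
    (haT : ∀ u, (∃ j, T < u j) → a u = 0) (hM : 0 ≤ M)
    (hg : ∀ w : J → H3, (∀ j, c / (2 * T) ≤ (w j).y) → ‖g w‖ ≤ M * H95S.ht w ^ σ)
    {w : J → H3} (hw : ∀ j, c ≤ (w j).y) :
    ‖Rk a g w‖ ≤ B * (M * ((2 * T) ^ Fintype.card J) ^ |σ|) *
      ((H5Z.exists_volume_Bl_le J T).choose) * H95S.ht w ^ σ := by
  obtain ⟨hV0, hV⟩ := (H5Z.exists_volume_Bl_le J T).choose_spec
  set V := (H5Z.exists_volume_Bl_le J T).choose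
  set Kc : ℝ := (2 * T) ^ Fintype.card J with hKc
  have hK1 : 1 ≤ Kc := one_le_pow₀ (by linarith)
  have hbox : ∀ v ∈ Bl T w, ‖a (chv w v) * g v‖ ≤ B * (M * Kc ^ |σ| * H95S.ht w ^ σ) := by
    intro v hv
    have hv1 : ∀ j, (w j).y ≤ 2 * T * (v j).y := fun j => by
      have h1 : H3.ch (w j) (v j) ≤ T := hv j
      rw [H3.ch_comm] at h1
      exact H95S.y_le_of_ch_le h1
    have hv2 : ∀ j, (v j).y ≤ 2 * T * (w j).y := fun j => H95S.y_le_of_ch_le (hv j)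
    have hv3 : ∀ j, c / (2 * T) ≤ (v j).y := fun j => by
      rw [div_le_iff₀ (by positivity)]
      linarith [hv1 j, hw j]
    have h4 := hg v hv3
    have h5 : H95S.ht v ≤ Kc * H95S.ht w := by
      rw [hKc, H95S.ht, H95S.ht]
      calc ∏ j, (v j).y ≤ ∏ j, (2 * T * (w j).y) :=
            Finset.prod_le_prod (fun j _ => (v j).pos.le) fun j _ => hv2 j
        _ = _ := by rw [Finset.prod_mul_distrib]; simp
    have h6 : H95S.ht w ≤ Kc * H95S.ht v := by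
      rw [hKc, H95S.ht, H95S.ht]
      calc ∏ j, (w j).y ≤ ∏ j, (2 * T * (v j).y) :=
            Finset.prod_le_prod (fun j _ => (w j).pos.le) fun j _ => hv1 j
        _ = _ := by rw [Finset.prod_mul_distrib]; simp
    rw [norm_mul]
    refine mul_le_mul (haB _) (h4.trans ?_) (norm_nonneg _) hB
    rw [mul_assoc]
    exact mul_le_mul_of_nonneg_left
      (H95S.rpow_le_of_comparable (H95S.ht_pos v) (H95S.ht_pos w) hK1 h5 h6) hM
  have h7 : Rk a g w = ∫ v in Bl T w, a (chv w v) * g v := IsRC.integral_eq_setIntegral haT w g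
  rw [h7]
  have hpos : 0 ≤ H95S.ht w ^ σ := Real.rpow_nonneg (H95S.ht_pos w).le _
  refine (norm_setIntegral_le_of_norm_le_const ((hV w).trans_lt ENNReal.ofReal_lt_top) hbox).trans ?_
  have h8 : (volume : Measure (J → H3)).real (Bl T w) ≤ V :=
    ENNReal.toReal_le_of_le_ofReal hV0 (hV w)
  calc B * (M * Kc ^ |σ| * H95S.ht w ^ σ) * (volume : Measure (J → H3)).real (Bl T w)
      ≤ B * (M * Kc ^ |σ| * H95S.ht w ^ σ) * V := mul_le_mul_of_nonneg_left h8 (by positivity)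
    _ = _ := by ring

theorem grX_RI {a : (J → ℝ) → ℂ} (ha : IsRC a) {σ : ℝ} {Φ : m.X → ℂ} (h : GrX σ Φ) :
    GrX σ (RI a Φ) := by
  intro y c hc
  obtain ⟨T, B, hT, hB, haB, haT⟩ := ha.exists_bounds
  obtain ⟨M, hM, hg⟩ := h y (c / (2 * T)) (by positivity)
  refine ⟨_, ?_, fun w hw => norm_Rk_le_ht ha (g := fun v => Φ (v, y)) hc hT hB haB haT hM hg hw⟩
  have := (H5Z.exists_volume_Bl_le J T).choose_spec.1
  positivity

theorem grX_gX (a : GlobKer m.L.fam) {σ : ℝ} {Φ : m.X → ℂ} (h : GrX σ Φ) : GrX σ (gX a Φ) := by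
  intro y c hc
  choose M hM hM' using fun y' => h y' c hc
  refine ⟨∑ y' ∈ gs a y, ‖a.k y y'‖ * M y', Finset.sum_nonneg fun y' _ =>
    mul_nonneg (norm_nonneg _) (hM y'), fun w hw => ?_⟩
  show ‖∑ y' ∈ gs a y, a.k y y' * Φ (w, y')‖ ≤ _
  rw [Finset.sum_mul]
  refine (norm_sum_le _ _).trans (Finset.sum_le_sum fun y' _ => ?_)
  rw [norm_mul, mul_assoc]
  exact mul_le_mul_of_nonneg_left (hM' y' w hw) (norm_nonneg _)

theorem grX_sum {σ : ℝ} (s : Finset I) {Φ : I → m.X → ℂ} (h : ∀ i ∈ s, GrX σ (Φ i)) :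
    GrX σ (fun x => ∑ i ∈ s, Φ i x) := by
  classical
  intro y c hc
  have h1 : ∀ i, ∃ M : ℝ, 0 ≤ M ∧ (i ∈ s → ∀ w : J → H3, (∀ j, c ≤ (w j).y) →
      ‖Φ i (w, y)‖ ≤ M * H95S.ht w ^ σ) := by
    intro i
    by_cases hi : i ∈ s
    · obtain ⟨M, hM, h2⟩ := h i hi y c hc
      exact ⟨M, hM, fun _ => h2⟩
    · exact ⟨0, le_rfl, fun h' => absurd h' hi⟩
  choose M hM hM' using h1
  refine ⟨∑ i ∈ s, M i, Finset.sum_nonneg fun i _ => hM i, fun w hw => ?_⟩
  rw [Finset.sum_mul]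
  exact (norm_sum_le _ _).trans (Finset.sum_le_sum fun i hi => hM' i hi w hw)

theorem grX_opF (hκ : ∀ i ∈ s, IsRC (κ i)) {σ : ℝ} {Φ : m.X → ℂ} (h : GrX σ Φ) :
    GrX σ (opF s κ f Φ) :=
  grX_sum s fun i hi => grX_gX (f i) (grX_RI (hκ i hi) h)

/-- **The growth step** for an eigenfunction of `R(a)^N C_1`. -/
theorem grX_step (hκ : ∀ i ∈ s, IsRC (κ i)) (h5 : C5 m s κ f) {a : (J → ℝ) → ℂ} {T L Ma : ℝ}
    (ha : H95S.Ker a T L Ma) {N : ℕ} {Φ : m.X → ℂ} (hΦ : LB (coarse m) Φ)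
    (hinv : ∀ (g : PGL(2, K)) x, Φ (g • x) = Φ x) {c : ℂ} (hc : c ≠ 0)
    (heig : ∀ x, opF s (fun i => it a N (κ i)) f Φ x = c * Φ x) {σ : ℝ} (h : GrX σ Φ) :
    GrX (σ - N / Fintype.card J) Φ := by
  have haRC : IsRC a := ⟨ha.continuous, ⟨Ma, ha.bdd⟩, ⟨T, ha.zero⟩⟩
  have : Nonempty J := nonempty_J m
  have hJ : 0 < Fintype.card J := Fintype.card_pos
  intro y c₀ hc₀
  obtain ⟨δ, hδ⟩ := cusp_of_ct0 m {y}
  obtain ⟨B, -, hB⟩ := H35BK.hbal m (Y0 := {y}) (Set.finite_singleton y)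
  -- the iterates
  set F : ℕ → m.X → ℂ := fun n => itRI a n (opF s κ f Φ) with hF
  have hFop : ∀ n, F n = opF s κ f (itRI a n Φ) := fun n => (opF_itRI haRC hκ hΦ n).symm
  have hFlb : ∀ n, LB (coarse m) (F n) := fun n => lb_itRI haRC (lb_opF hκ hΦ) n
  have hFinv : ∀ n (g : PGL(2, K)) x, F n (g • x) = F n x := fun n =>
    itRI_smul haRC (lb_opF hκ hΦ) (opF_smul hκ hΦ hinv) n
  have hFcusp : ∀ n, H95S.Cusp (({y} : Finset (XF m.L.fam)) : Set (XF m.L.fam)) δ (F n) := by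
    intro n
    refine hδ (F n) (hFinv n) (hFlb n).flb fun y' _ x => ?_
    rw [hFop]
    exact h5 (itRI a n Φ) (itRI_smul haRC hΦ hinv n) (lb_itRI haRC hΦ n).flb y' x
  have key := H95S.Gr.iterate (ι := Unit) (κ := a) ha (Y0 := ({y} : Set (XF m.L.fam)))
    (H := fun _ => 1) (s := σ) (F := fun n _ => F n) hJ (fun _ => zero_le_one) N ?_ ?_ ?_
    (δ := δ) ?_ (B := B) ?_
  · obtain ⟨M, hM, h6⟩ := key c₀ hc₀
    refine ⟨‖c‖⁻¹ * M, by positivity, fun w hw => ?_⟩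
    have h7 := h6 () y rfl w hw
    have h8 : F N (w, y) = c * Φ (w, y) := by
      rw [← heig (w, y), hF]
      simp only
      rw [itRI_opF haRC hκ hΦ N]
    simp only [h8, norm_mul, mul_one] at h7
    have hc' : 0 < ‖c‖ := norm_pos_iff.2 hc
    rw [mul_assoc, ← mul_le_mul_iff_right₀ hc', ← mul_assoc, mul_inv_cancel₀ hc'.ne', one_mul]
    exact h7
  · intro c₁ hc₁
    obtain ⟨M, hM, h6⟩ := (grX_opF (f := f) hκ h) y c₁ hc₁
    refine ⟨M, hM, fun _ η hη w hw => ?_⟩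
    rw [mul_one]
    have : η = y := hη
    subst this
    exact h6 w hw
  · intro n _ _ η _
    exact (m.measurable_iff (F n)).1 (hFlb n).meas η
  · intro n _ _ η _ w
    show itRI a (n + 1) (opF s κ f Φ) (w, η) = _
    rw [itRI_succ]
    rfl
  · intro n _ _
    have := hFcusp (n + 1)
    rwa [Finset.coe_singleton] at this
  · intro n _ _ η hη w
    obtain ⟨w', ⟨g, hg⟩, h1, h2⟩ := hB η hη w
    exact ⟨w', by rw [← hg]; exact hFinv (n + 1) g (w, η), h1, h2⟩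

/-- **Eigenfunctions of moderate growth of `R(a)^N C_1` are bounded.** -/
theorem bounded_of_eigen_fk (hκ : ∀ i ∈ s, IsRC (κ i)) (h5 : C5 m s κ f) {a : (J → ℝ) → ℂ}
    {T L Ma : ℝ} (ha : H95S.Ker a T L Ma) {N : ℕ} (hN : 0 < N) {Φ : m.X → ℂ} (hlb : FLB Φ)
    (hinv : ∀ (g : PGL(2, K)) x, Φ (g • x) = Φ x)
    (hgrow : ∃ A : ℝ, ∀ y : XF m.L.fam, ∀ c > 0, ∃ M : ℝ, ∀ w : J → H3, (∀ j, c ≤ (w j).y) →
      ‖Φ (w, y)‖ ≤ M * H95S.ht w ^ A) {c : ℂ} (hc : c ≠ 0)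
    (heig : ∀ x, act m.μ (fk m s (fun i => it a N (κ i)) f) Φ x = c * Φ x) :
    ∃ B : ℝ, ∀ x, ‖Φ x‖ ≤ B := by
  have haRC : IsRC a := ⟨ha.continuous, ⟨Ma, ha.bdd⟩, ⟨T, ha.zero⟩⟩
  have : Nonempty J := nonempty_J m
  have hJ : (0 : ℝ) < Fintype.card J := by exact_mod_cast Fintype.card_pos
  have hΦ := hlb.lb
  have heig' : ∀ x, opF s (fun i => it a N (κ i)) f Φ x = c * Φ x := by
    intro x
    rw [← act_fk (fun i hi => isRC_it haRC (hκ i hi) N) hΦ]
    exact heig x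
  obtain ⟨A, hA⟩ := hgrow
  have hA' : GrX A Φ := by
    intro y c₀ hc₀
    obtain ⟨M, hM⟩ := hA y c₀ hc₀
    exact ⟨|M|, abs_nonneg M, fun w hw => (hM w hw).trans
      (mul_le_mul_of_nonneg_right (le_abs_self M) (Real.rpow_nonneg (H95S.ht_pos w).le _))⟩
  have hall : ∀ n : ℕ, GrX (A - n * (N / Fintype.card J)) Φ := by
    intro n
    induction n with
    | zero => simpa using hA'
    | succ n ih =>
      have h1 := grX_step hκ h5 ha hΦ hinv hc heig' ih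
      have e : A - ((n + 1 : ℕ) : ℝ) * (N / Fintype.card J) =
          A - n * (N / Fintype.card J) - N / Fintype.card J := by
        push_cast
        ring
      rw [e]
      exact h1
  -- an exponent `≤ 0`
  have hNr : (0 : ℝ) < N / Fintype.card J := div_pos (by exact_mod_cast hN) hJ
  obtain ⟨n, hn⟩ := exists_nat_gt (A / (N / Fintype.card J))
  have hneg : A - n * (N / Fintype.card J) ≤ 0 := by
    rw [div_lt_iff₀ hNr] at hn
    linarith
  have hfin := hall n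
  set σ := A - n * (N / Fintype.card J) with hσ
  -- reduction theory
  have := H35BK.isTotallyComplex m
  obtain ⟨Y0, c₀, C, R, hY0, hc₀, -, -, hcov⟩ := H2Z.exists_cover m.e m.e_bij (H64L.lat m.L)
    (H64L.lat_smul m.L) (H64L.finite_fiber_numberField m.L)
  choose M hM hM' using fun y => hfin y c₀ hc₀
  refine ⟨∑ y ∈ hY0.toFinset, M y * (c₀ ^ Fintype.card J) ^ σ, fun x => ?_⟩
  obtain ⟨g, hg1, hg2⟩ := hcov x.1 x.2
  rw [← hinv g x]
  have h1 : ∀ j, c₀ ≤ ((g • x).1 j).y := fun j => hg1.1 j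
  have h2 := hM' (g • x).2 (g • x).1 h1
  refine h2.trans ?_
  have h3 : H95S.ht (g • x).1 ^ σ ≤ (c₀ ^ Fintype.card J) ^ σ :=
    Real.rpow_le_rpow_of_nonpos (by positivity) (H95S.pow_le_ht hc₀.le h1) hneg
  refine (mul_le_mul_of_nonneg_left h3 (hM _)).trans ?_
  exact Finset.single_le_sum (f := fun y => M y * (c₀ ^ Fintype.card J) ^ σ)
    (fun y _ => mul_nonneg (hM y) (by positivity)) (hY0.mem_toFinset.2 hg2)

end Fermat.Agent.H17S
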