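import Mathlib

/-!
# Weak approximation for matrices over the fraction field of a Dedekind domain (helper7, S47, package C19)

* `exists_approx` : additive strong approximation (no class number).
* `exists_approx_mat`, `exists_approx_GL` : simultaneous approximation of matrices.
* `iwasawa` : `GL₂(K) = B(K) GL₂(O_(w))`.
-/

set_option autoImplicit false

open IsDedekindDomain HeightOneSpectrum WithZero

namespace Fermat.Agent.H7.Z

variable {R : Type*} [CommRing R] [IsDedekindDomain R] {K : Type*} [Field K] [Algebra R K]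
  [IsFractionRing R K]

/-- Strong approximation for the additive group: prescribed behaviour at a finite set of primes,
integrality everywhere else. -/
theorem exists_approx (T : Finset (HeightOneSpectrum R)) (x : HeightOneSpectrum R → K)
    (n : HeightOneSpectrum R → ℕ) :
    ∃ β : K, (∀ w ∈ T, w.valuation K (β - x w) ≤ exp (-(n w : ℤ))) ∧
      ∀ w ∉ T, w.valuation K β ≤ 1 := by
  classical
  obtain ⟨b, hb⟩ := IsLocalization.exist_integer_multiples_of_finset (nonZeroDivisors R)
    (T.image x)
  have hb0 : (b : R) ≠ 0 := nonZeroDivisors.ne_zero b.2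
  have hbI : Ideal.span {(b : R)} ≠ ⊥ := by rwa [Ne, Ideal.span_singleton_eq_bot]
  have hfin : {v : HeightOneSpectrum R | v.asIdeal ∣ Ideal.span {(b : R)}}.Finite :=
    Ideal.finite_factors hbI
  let T' : Finset (HeightOneSpectrum R) := hfin.toFinset
  have hk : ∀ w : HeightOneSpectrum R, ∃ k : ℕ, exp (-(k : ℤ)) ≤ w.intValuation (b : R) := by
    intro w
    exact ⟨_, (w.intValuation_eq_exp_neg_multiplicity hb0).ge⟩
  choose k hk using hk
  have hX : ∀ w : HeightOneSpectrum R, ∃ X : R, w ∈ T → algebraMap R K X = (b : R) • x w := by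
    intro w
    by_cases hw : w ∈ T
    · obtain ⟨X, hX⟩ := hb (x w) (Finset.mem_image_of_mem x hw)
      exact ⟨X, fun _ => hX⟩
    · exact ⟨0, fun h => absurd h hw⟩
  choose X hX using hX
  obtain ⟨y, hy⟩ := IsDedekindDomain.exists_forall_sub_mem_ideal
    (s := T ∪ T') (fun w : HeightOneSpectrum R => w.asIdeal) (fun w => n w + k w)
    (fun w _ => w.prime)
    (fun v _ w _ hvw h => hvw (HeightOneSpectrum.ext h))
    (fun w => if (w : HeightOneSpectrum R) ∈ T then X w else 0)
  have hbK : algebraMap R K b ≠ 0 := (IsFractionRing.to_map_eq_zero_iff (K := K)).not.mpr hb0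
  refine ⟨algebraMap R K y / algebraMap R K b, ?_, ?_⟩
  · intro w hw
    have h1 := hy w (Finset.mem_union_left _ hw)
    simp only [hw, if_true] at h1
    have h2 : algebraMap R K y / algebraMap R K b - x w =
        algebraMap R K (y - X w) / algebraMap R K b := by
      rw [map_sub, hX w hw, Algebra.smul_def]
      field_simp
    rw [h2, map_div₀, valuation_of_algebraMap, valuation_of_algebraMap]
    have h3 : w.intValuation (y - X w) ≤ exp (-((n w + k w : ℕ) : ℤ)) :=
      (w.intValuation_le_pow_iff_mem _ _).mpr h1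
    have h4 : w.intValuation (b : R) ≠ 0 := w.intValuation_ne_zero _ hb0
    rw [div_le_iff₀ (zero_lt_iff.mpr h4)]
    refine h3.trans ?_
    have h5 : exp (-((n w + k w : ℕ) : ℤ)) = exp (-(n w : ℤ)) * exp (-(k w : ℤ)) := by
      rw [← exp_add]; congr 1; push_cast; ring
    rw [h5]
    exact mul_le_mul_right (hk w) _
  · intro w hw
    by_cases hw' : w ∈ T'
    · have h1 := hy w (Finset.mem_union_right _ hw')
      simp only [hw, if_false, sub_zero] at h1
      rw [map_div₀, valuation_of_algebraMap, valuation_of_algebraMap]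
      have h3 : w.intValuation y ≤ exp (-((n w + k w : ℕ) : ℤ)) :=
        (w.intValuation_le_pow_iff_mem _ _).mpr h1
      have h4 : w.intValuation (b : R) ≠ 0 := w.intValuation_ne_zero _ hb0
      rw [div_le_iff₀ (zero_lt_iff.mpr h4), one_mul]
      refine h3.trans (le_trans ?_ (hk w))
      rw [exp_le_exp]; push_cast; linarith [Int.natCast_nonneg (n w)]
    · have h1 : ¬ w.asIdeal ∣ Ideal.span {(b : R)} := fun h => hw' (hfin.mem_toFinset.mpr h)
      have h2 : w.valuation K (algebraMap R K b) = 1 := by
        have := (w.valuation_lt_one_iff_dvd (K := K) (b : R)).not.mpr h1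
        exact le_antisymm (w.valuation_le_one _) (not_lt.mp this)
      rw [map_div₀, h2, div_one]
      exact w.valuation_le_one _

/-- Simultaneous approximation of matrices. -/
theorem exists_approx_mat {m m' : Type*} (T : Finset (HeightOneSpectrum R))
    (g : HeightOneSpectrum R → Matrix m m' K) (n : HeightOneSpectrum R → ℕ) :
    ∃ γ : Matrix m m' K,
      (∀ w ∈ T, ∀ i j, w.valuation K (γ i j - g w i j) ≤ exp (-(n w : ℤ))) ∧
      ∀ w ∉ T, ∀ i j, w.valuation K (γ i j) ≤ 1 := by
  choose γ hγ hγ' using fun (i : m) (j : m') => exists_approx T (fun w => g w i j) n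
  exact ⟨Matrix.of γ, fun w hw i j => hγ i j w hw, fun w hw i j => hγ' i j w hw⟩

/-- an upper bound by an integral power -/
theorem exists_le_exp (w : HeightOneSpectrum R) (x : K) :
    ∃ e : ℕ, w.valuation K x ≤ exp (e : ℤ) := by
  by_cases hx : w.valuation K x = 0
  · exact ⟨0, by rw [hx]; exact zero_le⟩
  · refine ⟨(log (w.valuation K x)).toNat, ?_⟩
    rw [← exp_log hx, exp_le_exp]
    exact Int.self_le_toNat _

/-- Weak approximation for `GL₂` (for `GL_m`): finitely many matrices can be approximated by one,
on the left: `(g_w)⁻¹ γ ≡ 1` modulo a prescribed power of `w`. -/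
theorem exists_approx_GL {m : Type*} [Fintype m] [DecidableEq m]
    (T : Finset (HeightOneSpectrum R)) (g : HeightOneSpectrum R → GL m K)
    (n : HeightOneSpectrum R → ℕ) :
    ∃ γ : GL m K, ∀ w ∈ T, ∀ i j,
      w.valuation K ((((g w)⁻¹ * γ : GL m K) : Matrix m m K) i j - (1 : Matrix m m K) i j)
        ≤ exp (-(n w : ℤ)) := by
  classical
  have he : ∀ w : HeightOneSpectrum R, ∃ e : ℕ, ∀ i j,
      w.valuation K ((((g w)⁻¹ : GL m K) : Matrix m m K) i j) ≤ exp (e : ℤ) := by
    intro w
    choose e he using fun (i : m) (j : m) =>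
      exists_le_exp w ((((g w)⁻¹ : GL m K) : Matrix m m K) i j)
    refine ⟨∑ i, ∑ j, e i j, fun i j => (he i j).trans ?_⟩
    rw [exp_le_exp]
    exact_mod_cast (Finset.single_le_sum (f := fun j => e i j) (fun _ _ => Nat.zero_le _)
      (Finset.mem_univ j)).trans (Finset.single_le_sum (f := fun i => ∑ j, e i j)
        (fun _ _ => Nat.zero_le _) (Finset.mem_univ i))
  choose e he using he
  obtain ⟨γ, hγ, -⟩ := exists_approx_mat T (fun w => ((g w : GL m K) : Matrix m m K))
    (fun w => n w + 1 + e w)
  -- the basic estimate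
  have key : ∀ w ∈ T, ∀ i j,
      w.valuation K (((((g w)⁻¹ : GL m K) : Matrix m m K) * γ - 1) i j)
        ≤ exp (-((n w + 1 : ℕ) : ℤ)) := by
    intro w hw i j
    have h1 : (((g w)⁻¹ : GL m K) : Matrix m m K) * γ - 1 =
        (((g w)⁻¹ : GL m K) : Matrix m m K) * (γ - ((g w : GL m K) : Matrix m m K)) := by
      rw [mul_sub]
      congr 1
      rw [← Units.val_mul, inv_mul_cancel, Units.val_one]
    rw [h1, Matrix.mul_apply]
    refine Valuation.map_sum_le _ fun k _ => ?_
    rw [map_mul]
    refine (mul_le_mul' (he w i k) (hγ w hw k j)).trans ?_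
    rw [← exp_add, exp_le_exp]
    push_cast
    linarith
  by_cases hT : T.Nonempty
  · obtain ⟨w, hw⟩ := hT
    have hdet : γ.det ≠ 0 := by
      intro h0
      have h1 : ((((g w)⁻¹ : GL m K) : Matrix m m K) * γ).det = 0 := by
        rw [Matrix.det_mul, h0, mul_zero]
      have h2 : w.valuation K (((((g w)⁻¹ : GL m K) : Matrix m m K) * γ).det - 1) < 1 := by
        set A := (((g w)⁻¹ : GL m K) : Matrix m m K) * γ with hA
        have hA' : ∀ i j, w.valuation K (A i j - (1 : Matrix m m K) i j) < 1 := by
          intro i j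
          refine (key w hw i j).trans_lt ?_
          rw [← exp_zero, exp_lt_exp]
          push_cast
          linarith [Int.natCast_nonneg (n w)]
        -- work in the valuation ring modulo its maximal ideal
        have hAi : ∀ i j, w.valuation K (A i j) ≤ 1 := by
          intro i j
          have h3 : A i j = (A i j - (1 : Matrix m m K) i j) + (1 : Matrix m m K) i j := by ring
          rw [h3]
          refine (Valuation.map_add _ _ _).trans (max_le (hA' i j).le ?_)
          by_cases hij : i = j
          · subst hij; simp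
          · simp [hij]
        let O := (w.valuation K).integer
        let A' : Matrix m m O := Matrix.of fun i j => (⟨A i j, hAi i j⟩ : O)
        let I : Ideal O :=
          { carrier := {x : O | w.valuation K (x : K) < 1}
            zero_mem' := by simp
            add_mem' := by
              intro a b ha hb
              simp only [Set.mem_ofPred_eq] at *
              exact (Valuation.map_add _ _ _).trans_lt (max_lt ha hb)
            smul_mem' := by
              intro c x hx
              simp only [Set.mem_ofPred_eq, smul_eq_mul, Subring.coe_mul, map_mul] at *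
              exact (mul_le_mul' c.2 le_rfl).trans_lt (by rwa [one_mul]) }
        have h4 : (A'.det - 1) ∈ I := by
          rw [← Ideal.Quotient.eq_zero_iff_mem, map_sub, map_one, sub_eq_zero]
          rw [RingHom.map_det]
          have h5 : (Ideal.Quotient.mk I).mapMatrix A' = 1 := by
            ext i j
            rw [RingHom.mapMatrix_apply, Matrix.map_apply]
            have h6 : A' i j - (1 : Matrix m m O) i j ∈ I := by
              change w.valuation K ((A' i j - (1 : Matrix m m O) i j : O) : K) < 1
              have h7 : ((A' i j - (1 : Matrix m m O) i j : O) : K) =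
                  A i j - (1 : Matrix m m K) i j := by
                rw [AddSubgroupClass.coe_sub]
                congr 1
                by_cases hij : i = j
                · subst hij; simp
                · simp [hij]
              rw [h7]; exact hA' i j
            have h8 := Ideal.Quotient.eq.mpr h6
            rw [h8]
            by_cases hij : i = j
            · subst hij; simp
            · simp [hij]
          rw [h5, Matrix.det_one]
        have h9 : ((A'.det - 1 : O) : K) = A.det - 1 := by
          rw [AddSubgroupClass.coe_sub, Subring.coe_one]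
          congr 1
          change (O.subtype) A'.det = A.det
          rw [RingHom.map_det]
          congr 1
        rw [← h9]
        exact h4
      rw [h1, zero_sub, Valuation.map_neg, map_one] at h2
      exact lt_irrefl _ h2
    refine ⟨Matrix.GeneralLinearGroup.mkOfDetNeZero γ hdet, fun w' hw' i j => ?_⟩
    have h1 := key w' hw' i j
    rw [Matrix.sub_apply] at h1
    refine le_trans ?_ (h1.trans ?_)
    · rfl
    · rw [exp_le_exp]; push_cast; linarith
  · exact ⟨1, fun w hw => absurd ⟨w, hw⟩ hT⟩

/-- Iwasawa decomposition over the valuation ring of `w`. -/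
theorem iwasawa (w : HeightOneSpectrum R) (g : GL (Fin 2) K) :
    ∃ b k : GL (Fin 2) K, g = b * k ∧ (b : Matrix (Fin 2) (Fin 2) K) 1 0 = 0 ∧
      (∀ i j, w.valuation K ((k : Matrix (Fin 2) (Fin 2) K) i j) ≤ 1) ∧
      w.valuation K (k : Matrix (Fin 2) (Fin 2) K).det = 1 := by
  set c := (g : Matrix (Fin 2) (Fin 2) K) 1 0 with hc
  set d := (g : Matrix (Fin 2) (Fin 2) K) 1 1 with hd
  have hgdet : (g : Matrix (Fin 2) (Fin 2) K).det ≠ 0 := g.det_ne_zero
  have hcd : c ≠ 0 ∨ d ≠ 0 := by
    by_contra h
    push Not at h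
    apply hgdet
    rw [Matrix.det_fin_two, ← hc, ← hd, h.1, h.2]; ring
  rcases le_total (w.valuation K c) (w.valuation K d) with h | h
  · have hd0 : d ≠ 0 := by
      intro h0
      rw [h0, map_zero, le_zero_iff, map_eq_zero] at h
      exact hcd.elim (fun h' => h' h) (fun h' => h' h0)
    have hdv : w.valuation K d ≠ 0 := (Valuation.ne_zero_iff _).mpr hd0
    let k : Matrix (Fin 2) (Fin 2) K := !![1, 0; c / d, 1]
    have hkdet : k.det = 1 := by simp [k, Matrix.det_fin_two]
    let kk : GL (Fin 2) K := Matrix.GeneralLinearGroup.mkOfDetNeZero k (by rw [hkdet]; exact one_ne_zero)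
    have hkk : (kk : Matrix (Fin 2) (Fin 2) K) = k := rfl
    refine ⟨g * kk⁻¹, kk, by group, ?_, ?_, ?_⟩
    · have h1 : g = (g * kk⁻¹) * kk := by group
      have h2 : (g : Matrix (Fin 2) (Fin 2) K) 1 0 =
          ((g * kk⁻¹ : GL (Fin 2) K) : Matrix (Fin 2) (Fin 2) K) 1 0 * 1 +
          ((g * kk⁻¹ : GL (Fin 2) K) : Matrix (Fin 2) (Fin 2) K) 1 1 * (c / d) := by
        conv_lhs => rw [h1]
        rw [Units.val_mul, Matrix.mul_apply, Fin.sum_univ_two, hkk]
        simp [k]
      have h3 : (g : Matrix (Fin 2) (Fin 2) K) 1 1 =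
          ((g * kk⁻¹ : GL (Fin 2) K) : Matrix (Fin 2) (Fin 2) K) 1 0 * 0 +
          ((g * kk⁻¹ : GL (Fin 2) K) : Matrix (Fin 2) (Fin 2) K) 1 1 * 1 := by
        conv_lhs => rw [h1]
        rw [Units.val_mul, Matrix.mul_apply, Fin.sum_univ_two, hkk]
        simp [k]
      rw [mul_zero, zero_add, mul_one, ← hd] at h3
      rw [← h3, ← hc, mul_div_cancel₀ _ hd0] at h2
      linear_combination -h2
    · intro i j
      rw [hkk]
      fin_cases i <;> fin_cases j <;> simp [k]
      exact (div_le_one₀ (zero_lt_iff.mpr hdv)).mpr h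
    · rw [hkk, hkdet, map_one]
  · have hc0 : c ≠ 0 := by
      intro h0
      rw [h0, map_zero, le_zero_iff, map_eq_zero] at h
      exact hcd.elim (fun h' => h' h0) (fun h' => h' h)
    have hcv : w.valuation K c ≠ 0 := (Valuation.ne_zero_iff _).mpr hc0
    let k : Matrix (Fin 2) (Fin 2) K := !![0, 1; 1, d / c]
    have hkdet : k.det = -1 := by simp [k, Matrix.det_fin_two]
    let kk : GL (Fin 2) K := Matrix.GeneralLinearGroup.mkOfDetNeZero k
      (by rw [hkdet]; exact neg_ne_zero.mpr one_ne_zero)
    have hkk : (kk : Matrix (Fin 2) (Fin 2) K) = k := rfl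
    refine ⟨g * kk⁻¹, kk, by group, ?_, ?_, ?_⟩
    · have h1 : g = (g * kk⁻¹) * kk := by group
      have h2 : (g : Matrix (Fin 2) (Fin 2) K) 1 0 =
          ((g * kk⁻¹ : GL (Fin 2) K) : Matrix (Fin 2) (Fin 2) K) 1 0 * 0 +
          ((g * kk⁻¹ : GL (Fin 2) K) : Matrix (Fin 2) (Fin 2) K) 1 1 * 1 := by
        conv_lhs => rw [h1]
        rw [Units.val_mul, Matrix.mul_apply, Fin.sum_univ_two, hkk]
        simp [k]
      have h3 : (g : Matrix (Fin 2) (Fin 2) K) 1 1 =
          ((g * kk⁻¹ : GL (Fin 2) K) : Matrix (Fin 2) (Fin 2) K) 1 0 * 1 +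
          ((g * kk⁻¹ : GL (Fin 2) K) : Matrix (Fin 2) (Fin 2) K) 1 1 * (d / c) := by
        conv_lhs => rw [h1]
        rw [Units.val_mul, Matrix.mul_apply, Fin.sum_univ_two, hkk]
        simp [k]
      rw [mul_zero, zero_add, mul_one, ← hc] at h2
      rw [← h2, ← hd, mul_div_cancel₀ _ hc0] at h3
      linear_combination -h3
    · intro i j
      rw [hkk]
      fin_cases i <;> fin_cases j <;> simp [k]
      exact (div_le_one₀ (zero_lt_iff.mpr hcv)).mpr h
    · rw [hkk, hkdet, Valuation.map_neg, map_one]

end Fermat.Agent.H7.Z
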