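import Fermat.Agent.H51ZPull
import Fermat.Agent.H7ZApprox
import Fermat.Agent.H59Def

/-!
# The discrete valuations of a Dedekind domain satisfy `Disc` (helper51, C-HECKE of S47)

* `disc_valuation` : `Disc (w.valuation K)` if all `R ⧸ w ^ m` are finite;
* `exists_isReps_card` : representatives coming from `R`, `Nat.card (R ⧸ w ^ m)` of them;
* `card_reps` : every set of representatives has `Nat.card (R ⧸ w ^ m)` elements;
* `U0_eq` : `H59D.U0 w = U0 (w.valuation K)`;
* number fields: `disc_nf`, `card_reps_nf` (`N w ^ m`).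
-/

set_option autoImplicit false

noncomputable section

open scoped Classical MatrixGroups WithZero
open IsDedekindDomain HeightOneSpectrum

namespace Fermat.Agent.H51Z

open Fermat.Agent.H59XF Matrix

section General

variable {R : Type*} [CommRing R] [IsDedekindDomain R] {K : Type*} [Field K] [Algebra R K]
  [IsFractionRing R K]

theorem exists_int_approx (w : HeightOneSpectrum R) (m : ℕ) {x : K} (hx : w.valuation K x ≤ 1) :
    ∃ r : R, w.valuation K (x - algebraMap R K r) ≤ WithZero.exp (-(m : ℤ)) := by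
  obtain ⟨b, hb1, hb2⟩ := H7.Z.exists_approx {w} (fun _ => x) (fun _ => m)
  have h1 := hb1 w (Finset.mem_singleton_self w)
  have hm : (WithZero.exp (-(m : ℤ)) : ℤᵐ⁰) ≤ 1 := by
    rw [← WithZero.exp_zero, WithZero.exp_le_exp]; omega
  have hbint : ∀ w' : HeightOneSpectrum R, w'.valuation K b ≤ 1 := by
    intro w'
    by_cases h : w' = w
    · subst h
      have e : b = (b - x) + x := by ring
      rw [e]
      exact (Valuation.map_add _ _ _).trans (max_le (h1.trans hm) hx)
    · exact hb2 w' (by simpa using h)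
  obtain ⟨r, hr⟩ := mem_integers_of_valuation_le_one K b hbint
  refine ⟨r, ?_⟩
  rw [hr, Valuation.map_sub_swap]
  exact h1

theorem valuation_le_pow_iff (w : HeightOneSpectrum R) (m : ℕ) (r : R) :
    w.valuation K (algebraMap R K r) ≤ WithZero.exp (-(m : ℤ)) ↔ r ∈ w.asIdeal ^ m := by
  rw [valuation_of_algebraMap, intValuation_le_pow_iff_mem]

/-- Representatives coming from `R`. -/
theorem exists_isReps_card (w : HeightOneSpectrum R) (m : ℕ) [Finite (R ⧸ w.asIdeal ^ m)] :
    ∃ B : Finset K, IsReps (w.valuation K) m B ∧ B.card = Nat.card (R ⧸ w.asIdeal ^ m) ∧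
      ∀ b ∈ B, ∃ r : R, algebraMap R K r = b := by
  letI : Fintype (R ⧸ w.asIdeal ^ m) := Fintype.ofFinite _
  have hinj : Function.Injective
      (fun q : R ⧸ w.asIdeal ^ m => algebraMap R K (Quotient.out q)) := by
    intro q q' h
    have h' := IsFractionRing.injective R K h
    rw [← Quotient.out_eq' q, ← Quotient.out_eq' q', h']
  refine ⟨Finset.univ.image (fun q : R ⧸ w.asIdeal ^ m => algebraMap R K (Quotient.out q)),
    ⟨?_, ?_, ?_⟩, ?_, ?_⟩
  · intro b hb
    obtain ⟨q, -, rfl⟩ := Finset.mem_image.1 hb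
    exact valuation_le_one w _
  · intro x hx
    obtain ⟨r, hr⟩ := exists_int_approx w m hx
    refine ⟨_, Finset.mem_image.2 ⟨Ideal.Quotient.mk _ r, Finset.mem_univ _, rfl⟩, ?_⟩
    have h1 : r - Quotient.out (Ideal.Quotient.mk (w.asIdeal ^ m) r) ∈ w.asIdeal ^ m := by
      rw [← Ideal.Quotient.eq]
      exact (Quotient.out_eq' _).symm
    have h2 := (valuation_le_pow_iff (K := K) w m _).2 h1
    have e : x - algebraMap R K (Quotient.out (Ideal.Quotient.mk (w.asIdeal ^ m) r)) =
        (x - algebraMap R K r) +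
          algebraMap R K (r - Quotient.out (Ideal.Quotient.mk (w.asIdeal ^ m) r)) := by
      rw [map_sub]; ring
    rw [e]
    exact (Valuation.map_add _ _ _).trans (max_le hr h2)
  · intro b hb b' hb' h
    obtain ⟨q, -, rfl⟩ := Finset.mem_image.1 hb
    obtain ⟨q', -, rfl⟩ := Finset.mem_image.1 hb'
    rw [← map_sub, valuation_le_pow_iff, ← Ideal.Quotient.eq] at h
    have : q = q' := by
      have e1 : Ideal.Quotient.mk (w.asIdeal ^ m) (Quotient.out q) = q := Quotient.out_eq' q
      have e2 : Ideal.Quotient.mk (w.asIdeal ^ m) (Quotient.out q') = q' := Quotient.out_eq' q'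
      rw [← e1, ← e2, h]
    rw [this]
  · rw [Finset.card_image_of_injective _ hinj, Finset.card_univ, Nat.card_eq_fintype_card]
  · intro b hb
    obtain ⟨q, -, rfl⟩ := Finset.mem_image.1 hb
    exact ⟨_, rfl⟩

/-- Two sets of representatives have the same cardinality. -/
theorem IsReps.card_eq {v : Valuation K ℤᵐ⁰} {m : ℕ} {B B' : Finset K} (h : IsReps v m B)
    (h' : IsReps v m B') : B.card = B'.card := by
  have key : ∀ B B' : Finset K, IsReps v m B → IsReps v m B' → B.card ≤ B'.card := by
    intro B B' h h'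
    choose! f hf1 hf2 using fun x (hx : v x ≤ 1) => h'.exists_mem x hx
    refine Finset.card_le_card_of_injOn f (fun b hb => hf1 b (h.le_one b hb)) ?_
    intro b hb b' hb' hbb
    apply h.inj b hb b' hb'
    have e : b - b' = (b - f b) - (b' - f b') := by rw [hbb]; ring
    rw [e]
    exact (v.map_sub _ _).trans (max_le (hf2 b (h.le_one b hb)) (hf2 b' (h.le_one b' hb')))
  exact le_antisymm (key _ _ h h') (key _ _ h' h)

theorem card_reps (w : HeightOneSpectrum R) (m : ℕ) [Finite (R ⧸ w.asIdeal ^ m)] {B : Finset K}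
    (hB : IsReps (w.valuation K) m B) : B.card = Nat.card (R ⧸ w.asIdeal ^ m) := by
  obtain ⟨B', hB', hc, -⟩ := exists_isReps_card (K := K) w m
  rw [hB.card_eq hB', hc]

theorem exists_unif (w : HeightOneSpectrum R) :
    ∃ π : Kˣ, w.valuation K (π : K) = WithZero.exp (-1 : ℤ) := by
  obtain ⟨π, hπ⟩ := w.valuation_exists_uniformizer K
  have h0 : π ≠ 0 := by
    intro h
    rw [h, map_zero] at hπ
    exact WithZero.exp_ne_zero hπ.symm
  exact ⟨Units.mk0 π h0, hπ⟩

theorem disc_valuation (w : HeightOneSpectrum R) (hfin : ∀ m, Finite (R ⧸ w.asIdeal ^ m)) :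
    Disc (w.valuation K) where
  exists_pi := exists_unif w
  exists_reps m := by
    haveI := hfin m
    obtain ⟨B, hB, -, -⟩ := exists_isReps_card (K := K) w m
    exact ⟨B, hB⟩

/-- The maximal compact subgroup of the model. -/
theorem GLw_eq (w : HeightOneSpectrum R) : H59D.GLw (K := K) w = GU (w.valuation K) := by
  ext g
  rw [H59D.mem_GLw, mem_GU, GeneralLinearGroup.val_det_apply]

theorem U0_eq (w : HeightOneSpectrum R) : H59D.U0 (K := K) w = U0 (w.valuation K) := by
  rw [H59D.U0, U0, GLw_eq]

end General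

section NF

open NumberField

variable {K : Type*} [Field K] [NumberField K]

instance finite_quot_pow (w : HeightOneSpectrum (𝓞 K)) (m : ℕ) :
    Finite (𝓞 K ⧸ w.asIdeal ^ m) :=
  Ideal.finiteQuotientOfFreeOfNeBot _ (pow_ne_zero _ w.ne_bot)

/-- The discrete valuations of a number field. -/
theorem disc_nf (w : HeightOneSpectrum (𝓞 K)) : Disc (w.valuation K) :=
  disc_valuation w (fun _ => inferInstance)

theorem card_reps_nf (w : HeightOneSpectrum (𝓞 K)) (m : ℕ) {B : Finset K}
    (hB : IsReps (w.valuation K) m B) : B.card = (Ideal.absNorm w.asIdeal) ^ m := by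
  rw [card_reps w m hB, ← map_pow, Ideal.absNorm_apply, Submodule.cardQuot_apply]

theorem card_reps_nf' (w : HeightOneSpectrum (𝓞 K)) (m : ℕ) :
    ((disc_nf w).reps m).card = (Ideal.absNorm w.asIdeal) ^ m :=
  card_reps_nf w m ((disc_nf w).isReps m)

end NF

end Fermat.Agent.H51Z
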