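import Mathlib

/-!
# Cut-off functions, unfolding, automorphic kernels (helper32, S47 block C-ABS)

`G` a countable group acting measurably on `X` preserving `μ`. A cut-off is `χ : X → [0,∞]` with
`∑_{g ∈ G} χ (g x) = 1` for all `x`; the measure `ν = χ μ` plays the role of the measure of `G \ X`.
-/

set_option autoImplicit false

noncomputable section

open MeasureTheory Filter
open scoped ENNReal Topology

namespace Fermat.Agent.H32Z

/-- A cut-off function for a countable group acting on `X`. -/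
structure CutOff (G X : Type*) [Group G] [MulAction G X] [MeasurableSpace X] where
  /-- the function -/
  χ : X → ℝ≥0∞
  meas : Measurable χ
  sum_eq : ∀ x, ∑' g : G, χ (g • x) = 1

namespace CutOff

section basic

variable {G X : Type*} [Group G] [MulAction G X] [MeasurableSpace X] (c : CutOff G X)
  (μ : Measure X)

/-- the measure `χ μ` -/
def ν : Measure X := μ.withDensity c.χ

theorem χ_le_one (x : X) : c.χ x ≤ 1 := by
  have h := ENNReal.le_tsum (f := fun g : G => c.χ (g • x)) 1
  rw [c.sum_eq, one_smul] at h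
  exact h

theorem χ_lt_top (x : X) : c.χ x < ∞ := (c.χ_le_one x).trans_lt ENNReal.one_lt_top

theorem ν_le : c.ν μ ≤ μ := by
  unfold ν
  calc μ.withDensity c.χ ≤ μ.withDensity 1 := withDensity_mono (Eventually.of_forall c.χ_le_one)
    _ = μ := withDensity_one

theorem ν_ac : c.ν μ ≪ μ := withDensity_absolutelyContinuous _ _

theorem lintegral_ν {F : X → ℝ≥0∞} (hF : AEMeasurable F μ) :
    ∫⁻ x, F x ∂(c.ν μ) = ∫⁻ x, c.χ x * F x ∂μ :=
  lintegral_withDensity_eq_lintegral_mul₀ c.meas.aemeasurable hF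

theorem integral_ν {E : Type*} [NormedAddCommGroup E] [NormedSpace ℝ E] (F : X → E) :
    ∫ x, F x ∂(c.ν μ) = ∫ x, (c.χ x).toReal • F x ∂μ :=
  integral_withDensity_eq_integral_toReal_smul₀ c.meas.aemeasurable
    (Eventually.of_forall c.χ_lt_top) F

theorem summable_toReal (x : X) : Summable fun g : G => (c.χ (g • x)).toReal :=
  ENNReal.summable_toReal (by rw [c.sum_eq]; exact ENNReal.one_ne_top)

theorem tsum_toReal (x : X) : ∑' g : G, (c.χ (g • x)).toReal = 1 := by
  rw [← ENNReal.tsum_toReal_eq (fun g => (c.χ_lt_top _).ne), c.sum_eq, ENNReal.toReal_one]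

variable {μ} [MeasurableConstSMul G X] [SMulInvariantMeasure G X μ]

omit c in
theorem lintegral_smul (g : G) (F : X → ℝ≥0∞) : ∫⁻ x, F (g • x) ∂μ = ∫⁻ x, F x ∂μ :=
  (measurePreserving_smul g μ).lintegral_comp_emb (MeasurableEquiv.smul g).measurableEmbedding F

variable [Countable G]

/-- **Unfolding**, nonnegative functions. -/
theorem lintegral_unfold {F : X → ℝ≥0∞} (hF : AEMeasurable F μ) :
    ∫⁻ x, F x ∂μ = ∫⁻ x, ∑' g : G, F (g • x) ∂(c.ν μ) := by
  have hFg : ∀ g : G, AEMeasurable (fun x => F (g • x)) μ := fun g =>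
    hF.comp_quasiMeasurePreserving (measurePreserving_smul g μ).quasiMeasurePreserving
  rw [c.lintegral_ν μ (AEMeasurable.tsum hFg)]
  have h1 : (fun x => c.χ x * ∑' g : G, F (g • x)) = fun x => ∑' g : G, c.χ x * F (g • x) := by
    funext x; rw [ENNReal.tsum_mul_left]
  rw [h1, lintegral_tsum (f := fun (g : G) x => c.χ x * F (g • x))
    fun g => c.meas.aemeasurable.mul (hFg g)]
  have h2 : ∀ g : G, ∫⁻ x, c.χ x * F (g • x) ∂μ = ∫⁻ x, c.χ (g⁻¹ • x) * F x ∂μ := by
    intro g
    rw [← lintegral_smul g fun x => c.χ (g⁻¹ • x) * F x]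
    simp
  simp_rw [h2]
  have h3 : ∑' g : G, ∫⁻ x, c.χ (g⁻¹ • x) * F x ∂μ = ∑' g : G, ∫⁻ x, c.χ (g • x) * F x ∂μ :=
    (Equiv.inv G).tsum_eq (fun g => ∫⁻ x, c.χ (g • x) * F x ∂μ)
  rw [h3, ← lintegral_tsum (f := fun (g : G) x => c.χ (g • x) * F x)
      fun g => (c.meas.comp (measurable_const_smul g)).aemeasurable.mul hF]
  refine lintegral_congr fun x => ?_
  rw [ENNReal.tsum_mul_right, c.sum_eq, one_mul]

section Bochner

variable {E : Type*} [NormedAddCommGroup E] [NormedSpace ℝ E]

omit c [Countable G] [NormedSpace ℝ E] in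
theorem integrable_smul {F : X → E} (hF : Integrable F μ) (g : G) :
    Integrable (fun x => F (g • x)) μ :=
  (measurePreserving_smul g μ).integrable_comp_of_integrable hF

omit [NormedSpace ℝ E] in
theorem summable_integral_norm {F : X → E} (hF : Integrable F μ) :
    Summable fun g : G => ∫ x, ‖F (g • x)‖ ∂(c.ν μ) := by
  have h1 : ∑' g : G, ∫⁻ x, ‖F (g • x)‖ₑ ∂(c.ν μ) ≠ ∞ := by
    have h2 : ∀ g : G, AEMeasurable (fun x => ‖F (g • x)‖ₑ) (c.ν μ) := fun g =>
      ((integrable_smul hF g).aestronglyMeasurable.mono_ac (c.ν_ac μ)).enorm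
    rw [← lintegral_tsum h2, ← c.lintegral_unfold hF.aestronglyMeasurable.enorm]
    exact hF.hasFiniteIntegral.ne
  have h3 : ∀ g : G, ∫ x, ‖F (g • x)‖ ∂(c.ν μ) = (∫⁻ x, ‖F (g • x)‖ₑ ∂(c.ν μ)).toReal :=
    fun g => integral_norm_eq_lintegral_enorm
      ((integrable_smul hF g).aestronglyMeasurable.mono_ac (c.ν_ac μ))
  simp_rw [h3]
  exact ENNReal.summable_toReal h1

omit [NormedSpace ℝ E] in
theorem ae_summable {F : X → E} (hF : Integrable F μ) :
    ∀ᵐ x ∂(c.ν μ), Summable fun g : G => ‖F (g • x)‖ := by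
  have h2 : ∀ g : G, AEMeasurable (fun x => ‖F (g • x)‖ₑ) (c.ν μ) := fun g =>
    ((integrable_smul hF g).aestronglyMeasurable.mono_ac (c.ν_ac μ)).enorm
  have h1 : ∫⁻ x, ∑' g : G, ‖F (g • x)‖ₑ ∂(c.ν μ) ≠ ∞ := by
    rw [← c.lintegral_unfold hF.aestronglyMeasurable.enorm]
    exact hF.hasFiniteIntegral.ne
  filter_upwards [ae_lt_top' (AEMeasurable.tsum h2) h1] with x hx
  have := ENNReal.summable_toReal hx.ne
  simpa using this

variable [CompleteSpace E]

omit [NormedSpace ℝ E] in
theorem integrable_tsum {F : X → E} (hF : Integrable F μ) :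
    Integrable (fun x => ∑' g : G, F (g • x)) (c.ν μ) := by
  have hm : ∀ g : G, AEStronglyMeasurable (fun x => F (g • x)) (c.ν μ) := fun g =>
    (integrable_smul hF g).aestronglyMeasurable.mono_ac (c.ν_ac μ)
  refine ⟨?_, ?_⟩
  · refine aestronglyMeasurable_of_tendsto_ae (u := atTop)
      (f := fun (s : Finset G) x => ∑ g ∈ s, F (g • x)) ?_ ?_
    · intro s
      exact Finset.aestronglyMeasurable_fun_sum _ fun g _ => hm g
    · filter_upwards [c.ae_summable hF] with x hx
      exact hx.of_norm.hasSum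
  · have h1 : ∫⁻ x, ∑' g : G, ‖F (g • x)‖ₑ ∂(c.ν μ) < ∞ := by
      rw [← c.lintegral_unfold hF.aestronglyMeasurable.enorm]
      exact hF.hasFiniteIntegral
    refine lt_of_le_of_lt (lintegral_mono_ae ?_) h1
    filter_upwards [c.ae_summable hF] with x hx
    exact enorm_tsum_le_tsum_enorm

omit [Countable G] [CompleteSpace E] [MeasurableConstSMul G X] in
theorem hasSum_smul (x : X) (v : E) :
    HasSum (fun g : G => (c.χ (g⁻¹ • x)).toReal • v) v := by
  have h8 : HasSum (fun g : G => (c.χ (g⁻¹ • x)).toReal) 1 := by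
    have h9 := (c.summable_toReal x).hasSum
    rw [c.tsum_toReal] at h9
    have h10 := ((Equiv.inv G).hasSum_iff (f := fun g : G => (c.χ (g • x)).toReal) (a := 1)).mpr h9
    exact h10
  have h11 := h8.smul_const v
  rwa [one_smul] at h11

omit [Countable G] [CompleteSpace E] in
theorem integral_smul_ν (F : X → E) (g : G) :
    ∫ x, F (g • x) ∂(c.ν μ) = ∫ x, (c.χ (g⁻¹ • x)).toReal • F x ∂μ := by
  rw [c.integral_ν, ← integral_smul_eq_self (μ := μ)
    (fun x => (c.χ (g⁻¹ • x)).toReal • F x) (g := g)]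
  simp

omit [Countable G] [CompleteSpace E] [SMulInvariantMeasure G X μ] in
theorem integrable_χ_smul {F : X → E} (hF : Integrable F μ) (g : G) :
    Integrable (fun x => (c.χ (g⁻¹ • x)).toReal • F x) μ := by
  refine Integrable.mono hF ?_ (Eventually.of_forall fun x => ?_)
  · exact ((c.meas.comp (measurable_const_smul _)).ennreal_toReal.aestronglyMeasurable).smul
      hF.aestronglyMeasurable
  · rw [norm_smul]
    have h3 : (c.χ (g⁻¹ • x)).toReal ≤ 1 :=
      ENNReal.toReal_le_of_le_ofReal zero_le_one (by simpa using c.χ_le_one _)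
    have h4 : ‖(c.χ (g⁻¹ • x)).toReal‖ ≤ 1 := by
      rw [Real.norm_of_nonneg ENNReal.toReal_nonneg]; exact h3
    calc ‖(c.χ (g⁻¹ • x)).toReal‖ * ‖F x‖ ≤ 1 * ‖F x‖ :=
          mul_le_mul_of_nonneg_right h4 (norm_nonneg _)
      _ = ‖F x‖ := one_mul _

omit [CompleteSpace E] in
/-- **Unfolding**, integrable functions. -/
theorem integral_unfold {F : X → E} (hF : Integrable F μ) :
    ∫ x, F x ∂μ = ∫ x, ∑' g : G, F (g • x) ∂(c.ν μ) := by
  have hi : ∀ g : G, Integrable (fun x => F (g • x)) (c.ν μ) := fun g =>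
    (integrable_smul hF g).mono_measure (c.ν_le μ)
  have h1 := hasSum_integral_of_summable_integral_norm hi (c.summable_integral_norm hF)
  have hs : Summable fun g : G => ∫ x, ‖(c.χ (g⁻¹ • x)).toReal • F x‖ ∂μ := by
    refine (c.summable_integral_norm hF).congr fun g => ?_
    rw [c.integral_smul_ν (fun x => ‖F x‖) g]
    refine integral_congr_ae (Eventually.of_forall fun x => ?_)
    simp only
    rw [norm_smul, Real.norm_of_nonneg ENNReal.toReal_nonneg, smul_eq_mul]
  have h5 := hasSum_integral_of_summable_integral_norm (fun g => c.integrable_χ_smul hF g) hs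
  have h6 : ∫ x, ∑' g : G, (c.χ (g⁻¹ • x)).toReal • F x ∂μ = ∫ x, F x ∂μ :=
    integral_congr_ae (Eventually.of_forall fun x => (c.hasSum_smul x (F x)).tsum_eq)
  rw [h6] at h5
  have h7 : (fun g : G => ∫ x, F (g • x) ∂(c.ν μ)) =
      fun g : G => ∫ x, (c.χ (g⁻¹ • x)).toReal • F x ∂μ := funext fun g => c.integral_smul_ν F g
  rw [h7] at h1
  exact h5.unique h1

end Bochner

end basic


section exist

variable {G X : Type*} [Group G] [MulAction G X]

theorem tsum_smul_smul (φ : X → ℝ≥0∞) (h : G) (x : X) :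
    ∑' g : G, φ (g • h • x) = ∑' g : G, φ (g • x) := by
  have := (Equiv.mulRight h).tsum_eq (fun g : G => φ (g • x))
  rw [← this]
  refine tsum_congr fun g => ?_
  simp [mul_smul]

theorem tsum_indicator_ne_zero (S : Set X) (x : X) (h : ∃ g : G, g • x ∈ S) :
    ∑' g : G, S.indicator (fun _ => (1 : ℝ≥0∞)) (g • x) ≠ 0 := by
  obtain ⟨g, hg⟩ := h
  intro h0
  have := ENNReal.tsum_eq_zero.mp h0 g
  simp [hg] at this

theorem tsum_indicator_ne_top (S : Set X) (x : X) (h : {g : G | g • x ∈ S}.Finite) :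
    ∑' g : G, S.indicator (fun _ => (1 : ℝ≥0∞)) (g • x) ≠ ∞ := by
  rw [tsum_eq_sum (s := h.toFinset)]
  · refine (ENNReal.sum_lt_top.mpr fun g _ => ?_).ne
    by_cases hg : g • x ∈ S <;> simp [hg]
  · intro g hg
    have : g • x ∉ S := by simpa using hg
    simp [this]

variable [MeasurableSpace X] [Countable G] [MeasurableConstSMul G X]

/-- The cut-off attached to a function with finite nonzero sums over the orbits. -/
def ofFun (φ : X → ℝ≥0∞) (hφ : Measurable φ) (h0 : ∀ x, ∑' g : G, φ (g • x) ≠ 0)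
    (h1 : ∀ x, ∑' g : G, φ (g • x) ≠ ∞) : CutOff G X where
  χ x := φ x / ∑' g : G, φ (g • x)
  meas := hφ.div (Measurable.tsum fun g => hφ.comp (measurable_const_smul g))
  sum_eq x := by
    simp_rw [tsum_smul_smul φ _ x, div_eq_mul_inv]
    rw [ENNReal.tsum_mul_right]
    exact ENNReal.mul_inv_cancel (h0 x) (h1 x)

/-- The cut-off attached to a measurable set which meets every orbit, with finite fibres. -/
def ofSet (S : Set X) (hS : MeasurableSet S) (hcov : ∀ x, ∃ g : G, g • x ∈ S)
    (hfin : ∀ x, {g : G | g • x ∈ S}.Finite) : CutOff G X :=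
  ofFun (S.indicator fun _ => 1) (measurable_const.indicator hS)
    (fun x => tsum_indicator_ne_zero S x (hcov x)) (fun x => tsum_indicator_ne_top S x (hfin x))

theorem ofSet_χ_eq_zero {S : Set X} {hS : MeasurableSet S} {hcov : ∀ x, ∃ g : G, g • x ∈ S}
    {hfin : ∀ x, {g : G | g • x ∈ S}.Finite} {x : X} (hx : x ∉ S) :
    (ofSet S hS hcov hfin).χ x = 0 := by
  simp [ofSet, ofFun, hx]

theorem ofSet_ν_univ_le {S : Set X} {hS : MeasurableSet S} {hcov : ∀ x, ∃ g : G, g • x ∈ S}
    {hfin : ∀ x, {g : G | g • x ∈ S}.Finite} (μ : Measure X) :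
    (ofSet S hS hcov hfin).ν μ Set.univ ≤ μ S := by
  unfold CutOff.ν
  rw [withDensity_apply _ MeasurableSet.univ, Measure.restrict_univ]
  calc ∫⁻ x, (ofSet S hS hcov hfin).χ x ∂μ ≤ ∫⁻ x, S.indicator (fun _ => 1) x ∂μ := by
        refine lintegral_mono fun x => ?_
        by_cases hx : x ∈ S
        · rw [Set.indicator_of_mem hx]; exact CutOff.χ_le_one _ _
        · rw [ofSet_χ_eq_zero hx]; exact zero_le
    _ = μ S := by rw [lintegral_indicator hS]; simp

end exist

section subgroup

variable {G : Type*} [Group G]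

/-- `G` as a union of left cosets of `H`, with chosen representatives -/
def cosetEquiv (H : Subgroup G) : (G ⧸ H) × H ≃ G :=
  Equiv.ofBijective (fun z => z.1.out * (z.2 : G)) (by
    constructor
    · rintro ⟨q, h⟩ ⟨q', h'⟩ e
      simp only at e
      have h1 : q = q' := by
        rw [← QuotientGroup.out_eq' q, ← QuotientGroup.out_eq' q', QuotientGroup.eq]
        have : (q.out)⁻¹ * q'.out = (h : G) * (h' : G)⁻¹ := by
          rw [eq_mul_inv_iff_mul_eq, mul_assoc, ← e]; group
        rw [this]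
        exact H.mul_mem h.2 (H.inv_mem h'.2)
      subst h1
      have h2 : (h : G) = h' := mul_left_cancel e
      exact Prod.ext rfl (Subtype.ext h2)
    · intro g
      refine ⟨⟨(g : G ⧸ H), ⟨((g : G ⧸ H).out)⁻¹ * g, ?_⟩⟩, ?_⟩
      · rw [← QuotientGroup.eq, QuotientGroup.out_eq']
      · simp)

theorem cosetEquiv_apply (H : Subgroup G) (q : G ⧸ H) (h : H) :
    cosetEquiv H (q, h) = q.out * (h : G) := rfl

instance countable_quotient (H : Subgroup G) [Countable G] : Countable (G ⧸ H) :=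
  inferInstanceAs (Countable (Quotient _))

variable {X : Type*} [MulAction G X] [MeasurableSpace X] [Countable G] [MeasurableConstSMul G X]

/-- Restriction of a cut-off to a subgroup. -/
def restrict (c : CutOff G X) (H : Subgroup G) : CutOff H X where
  χ x := ∑' q : G ⧸ H, c.χ (q.out • x)
  meas := Measurable.tsum fun q => c.meas.comp (measurable_const_smul _)
  sum_eq x := by
    rw [ENNReal.tsum_comm, ← ENNReal.tsum_prod
      (f := fun (q : G ⧸ H) (h : H) => c.χ (q.out • h • x)), ← c.sum_eq x,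
      ← (cosetEquiv H).tsum_eq (fun g : G => c.χ (g • x))]
    refine tsum_congr fun z => ?_
    rw [show cosetEquiv H z = z.1.out * (z.2 : G) from rfl, mul_smul]
    rfl

end subgroup

section indep

variable {G X : Type*} [Group G] [MulAction G X] [MeasurableSpace X] [Countable G]
  [MeasurableConstSMul G X] {μ : Measure X} [SMulInvariantMeasure G X μ] (c c' : CutOff G X)

include c c' in
/-- the integral of an invariant function does not depend on the cut-off -/
theorem lintegral_indep {F : X → ℝ≥0∞} (hF : AEMeasurable F μ) (hinv : ∀ (g : G) x, F (g • x) = F x) :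
    ∫⁻ x, F x ∂(c.ν μ) = ∫⁻ x, F x ∂(c'.ν μ) := by
  rw [c.lintegral_ν μ hF, c'.lintegral_unfold (F := fun x => c.χ x * F x)
    (c.meas.aemeasurable.mul hF)]
  refine lintegral_congr fun x => ?_
  simp_rw [hinv]
  rw [ENNReal.tsum_mul_right, c.sum_eq, one_mul]

omit [Countable G] [MeasurableConstSMul G X] [SMulInvariantMeasure G X μ] in
theorem integrable_ν_iff {E : Type*} [NormedAddCommGroup E] [NormedSpace ℝ E] {F : X → E} :
    Integrable F (c.ν μ) ↔ Integrable (fun x => (c.χ x).toReal • F x) μ :=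
  integrable_withDensity_iff_integrable_smul₀' c.meas.aemeasurable
    (Eventually.of_forall c.χ_lt_top)

end indep

section orbit

variable {G X D : Type*} [Group G] [MulAction G X] [MeasurableSpace X] [Countable G]
  [MeasurableConstSMul G X] {μ : Measure X} [SMulInvariantMeasure G X μ] [MulAction G D]
  (c : CutOff G X) {d₀ : D} (c' : CutOff (MulAction.stabilizer G d₀) X)

/-- the orbit as cosets, the coset `q` corresponds to the point `q.out • d₀` -/
def orbEquiv (d₀ : D) : (G ⧸ MulAction.stabilizer G d₀) ≃ MulAction.orbit G d₀ :=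
  (MulAction.orbitEquivQuotientStabilizer G d₀).symm

omit [MulAction G X] [MeasurableSpace X] [Countable G] [MeasurableConstSMul G X] in
theorem coe_orbEquiv (q : G ⧸ MulAction.stabilizer G d₀) :
    (orbEquiv d₀ q : D) = q.out • d₀ := by
  conv_lhs => rw [← QuotientGroup.out_eq' q]
  exact MulAction.orbitEquivQuotientStabilizer_symm_apply G d₀ _

omit [Countable G] [MeasurableConstSMul G X] in
/-- pointwise form of the unfolding over an orbit -/
theorem tsum_stab {t : D → X → ℝ≥0∞} (ht : ∀ (g : G) d x, t (g • d) (g • x) = t d x) (x : X) :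
    ∑' g : G, c'.χ (g • x) * t d₀ (g • x) = ∑' d : MulAction.orbit G d₀, t d x := by
  rw [← (orbEquiv d₀).tsum_eq, ← (Equiv.inv G).tsum_eq,
    ← (cosetEquiv (MulAction.stabilizer G d₀)).tsum_eq, ENNReal.tsum_prod']
  refine tsum_congr fun q => ?_
  rw [coe_orbEquiv]
  have h1 : ∀ h : MulAction.stabilizer G d₀, c'.χ ((Equiv.inv G (cosetEquiv _ (q, h))) • x) *
      t d₀ ((Equiv.inv G (cosetEquiv _ (q, h))) • x) =
      c'.χ (h⁻¹ • (q.out⁻¹ • x)) * t (q.out • d₀) x := by
    intro h
    have e : Equiv.inv G (cosetEquiv (MulAction.stabilizer G d₀) (q, h)) =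
        ((h⁻¹ : MulAction.stabilizer G d₀) : G) * q.out⁻¹ := by
      simp [cosetEquiv_apply]
    rw [e]
    congr 1
    · rw [mul_smul]; rfl
    · rw [← ht (q.out * h) d₀, ← mul_smul]
      congr 1
      · rw [mul_smul, show (h : G) • d₀ = d₀ from h.2]
      · simp
  simp_rw [h1]
  rw [ENNReal.tsum_mul_right]
  have h2 := (Equiv.inv (MulAction.stabilizer G d₀)).tsum_eq
    (fun h : MulAction.stabilizer G d₀ => c'.χ (h • (q.out⁻¹ • x)))
  have h3 : ∑' h : MulAction.stabilizer G d₀, c'.χ (h⁻¹ • (q.out⁻¹ • x)) = 1 := by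
    rw [← c'.sum_eq (q.out⁻¹ • x), ← h2]; rfl
  rw [h3, one_mul]

/-- **Unfolding over an orbit**, nonnegative functions. -/
theorem lintegral_orbit {t : D → X → ℝ≥0∞} (ht : ∀ (g : G) d x, t (g • d) (g • x) = t d x)
    (hm : AEMeasurable (t d₀) μ) :
    ∫⁻ x, ∑' d : MulAction.orbit G d₀, t d x ∂(c.ν μ) = ∫⁻ x, t d₀ x ∂(c'.ν μ) := by
  rw [c'.lintegral_ν μ hm, c.lintegral_unfold (F := fun x => c'.χ x * t d₀ x)
    (c'.meas.aemeasurable.mul hm)]
  exact lintegral_congr fun x => (c'.tsum_stab ht x).symm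

end orbit


section orbitB

variable {G X D : Type*} [Group G] [MulAction G X] [MeasurableSpace X] [Countable G]
  [MeasurableConstSMul G X] {μ : Measure X} [SMulInvariantMeasure G X μ] [MulAction G D]
  {E : Type*} [NormedAddCommGroup E] [NormedSpace ℝ E]
  (c : CutOff G X) {d₀ : D} (c' : CutOff (MulAction.stabilizer G d₀) X)

omit [NormedSpace ℝ E] in
theorem ae_summable_orbit {t : D → X → E} (ht : ∀ (g : G) d x, t (g • d) (g • x) = t d x)
    (hm : AEStronglyMeasurable (t d₀) μ) (hi : Integrable (t d₀) (c'.ν μ)) :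
    ∀ᵐ x ∂(c.ν μ), Summable fun d : MulAction.orbit G d₀ => ‖t d x‖ := by
  have hcount : Countable (MulAction.orbit G d₀) := (orbEquiv d₀).symm.injective.countable
  have hmd : ∀ d : MulAction.orbit G d₀, AEMeasurable (fun x => ‖t d x‖ₑ) (c.ν μ) := by
    rintro ⟨_, g, rfl⟩
    have e : (fun x => ‖t (g • d₀) x‖ₑ) = fun x => ‖t d₀ (g⁻¹ • x)‖ₑ := by
      funext x
      rw [← ht g d₀ (g⁻¹ • x), smul_inv_smul]
    simp only [e]
    exact (hm.comp_quasiMeasurePreserving
      (measurePreserving_smul g⁻¹ μ).quasiMeasurePreserving).enorm.mono_ac (c.ν_ac μ)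
  have h := c.lintegral_orbit c' (t := fun d x => ‖t d x‖ₑ) (fun g d x => by rw [ht]) hm.enorm
  have h1 : ∫⁻ x, ∑' d : MulAction.orbit G d₀, ‖t d x‖ₑ ∂(c.ν μ) ≠ ∞ := by
    rw [h]; exact hi.hasFiniteIntegral.ne
  filter_upwards [ae_lt_top' (AEMeasurable.tsum hmd) h1] with x hx
  have := ENNReal.summable_toReal hx.ne
  simpa using this

omit [Countable G] [MeasurableConstSMul G X] in
/-- pointwise form of the unfolding over an orbit, vector valued -/
theorem tsum_stab' [CompleteSpace E] {t : D → X → E}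
    (ht : ∀ (g : G) d x, t (g • d) (g • x) = t d x) (x : X)
    (hs : Summable fun d : MulAction.orbit G d₀ => ‖t d x‖) :
    ∑' g : G, (c'.χ (g • x)).toReal • t d₀ (g • x) = ∑' d : MulAction.orbit G d₀, t d x := by
  have hq : ∀ q : G ⧸ MulAction.stabilizer G d₀, ∀ h : MulAction.stabilizer G d₀,
      (c'.χ ((Equiv.inv G (cosetEquiv _ (q, h))) • x)).toReal •
      t d₀ ((Equiv.inv G (cosetEquiv _ (q, h))) • x) =
      (c'.χ (h⁻¹ • (q.out⁻¹ • x))).toReal • t (q.out • d₀) x := by
    intro q h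
    have e : Equiv.inv G (cosetEquiv (MulAction.stabilizer G d₀) (q, h)) =
        ((h⁻¹ : MulAction.stabilizer G d₀) : G) * q.out⁻¹ := by
      simp [cosetEquiv_apply]
    rw [e]
    congr 1
    · rw [mul_smul]; rfl
    · rw [← ht (q.out * h) d₀, ← mul_smul]
      congr 1
      · rw [mul_smul, show (h : G) • d₀ = d₀ from h.2]
      · simp
  have hH : ∀ q : G ⧸ MulAction.stabilizer G d₀, HasSum (fun h : MulAction.stabilizer G d₀ =>
      (c'.χ (h⁻¹ • (q.out⁻¹ • x))).toReal • t (q.out • d₀) x) (t (q.out • d₀) x) := fun q =>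
    c'.hasSum_smul (q.out⁻¹ • x) _
  have hN : ∀ q : G ⧸ MulAction.stabilizer G d₀, HasSum (fun h : MulAction.stabilizer G d₀ =>
      ‖(c'.χ (h⁻¹ • (q.out⁻¹ • x))).toReal • t (q.out • d₀) x‖) ‖t (q.out • d₀) x‖ := fun q => by
    have := c'.hasSum_smul (q.out⁻¹ • x) ‖t (q.out • d₀) x‖
    refine this.congr_fun fun h => ?_
    rw [norm_smul, Real.norm_of_nonneg ENNReal.toReal_nonneg, smul_eq_mul]
  have hs' : Summable fun q : G ⧸ MulAction.stabilizer G d₀ => ‖t (q.out • d₀) x‖ := by
    have := (orbEquiv d₀).summable_iff.mpr hs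
    refine this.congr fun q => ?_
    simp only [Function.comp_apply, coe_orbEquiv]
  have hsum : Summable fun z : (G ⧸ MulAction.stabilizer G d₀) × MulAction.stabilizer G d₀ =>
      (c'.χ (z.2⁻¹ • (z.1.out⁻¹ • x))).toReal • t (z.1.out • d₀) x := by
    apply Summable.of_norm
    rw [summable_prod_of_nonneg (fun z => norm_nonneg _)]
    refine ⟨fun q => (hN q).summable, ?_⟩
    simp_rw [fun q => (hN q).tsum_eq]
    exact hs'
  have e1 : ∑' g : G, (c'.χ (g • x)).toReal • t d₀ (g • x) =
      ∑' z : (G ⧸ MulAction.stabilizer G d₀) × MulAction.stabilizer G d₀,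
      (c'.χ (z.2⁻¹ • (z.1.out⁻¹ • x))).toReal • t (z.1.out • d₀) x := by
    rw [← (Equiv.inv G).tsum_eq (fun g : G => (c'.χ (g • x)).toReal • t d₀ (g • x)),
      ← (cosetEquiv (MulAction.stabilizer G d₀)).tsum_eq
        (fun g : G => (c'.χ ((Equiv.inv G) g • x)).toReal • t d₀ ((Equiv.inv G) g • x))]
    exact tsum_congr fun z => hq z.1 z.2
  rw [e1, hsum.tsum_prod]
  simp_rw [fun q => (hH q).tsum_eq]
  rw [← (orbEquiv d₀).tsum_eq (fun d : MulAction.orbit G d₀ => t d x)]
  refine tsum_congr fun q => ?_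
  rw [coe_orbEquiv]

/-- **Unfolding over an orbit**, integrable functions. -/
theorem integral_orbit [CompleteSpace E] {t : D → X → E}
    (ht : ∀ (g : G) d x, t (g • d) (g • x) = t d x)
    (hm : AEStronglyMeasurable (t d₀) μ) (hi : Integrable (t d₀) (c'.ν μ)) :
    Integrable (fun x => ∑' d : MulAction.orbit G d₀, t d x) (c.ν μ) ∧
    ∫ x, ∑' d : MulAction.orbit G d₀, t d x ∂(c.ν μ) = ∫ x, t d₀ x ∂(c'.ν μ) := by
  have hF : Integrable (fun x => (c'.χ x).toReal • t d₀ x) μ := (c'.integrable_ν_iff).mp hi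
  have hae := c.ae_summable_orbit c' ht hm hi
  constructor
  · refine (c.integrable_tsum hF).congr ?_
    filter_upwards [hae] with x hx
    exact c'.tsum_stab' ht x hx
  · rw [c'.integral_ν, c.integral_unfold hF]
    refine integral_congr_ae ?_
    filter_upwards [hae] with x hx
    exact (c'.tsum_stab' ht x hx).symm

end orbitB


section total

variable {G X D : Type*} [Group G] [MulAction G X] [MeasurableSpace X] [Countable G]
  [MeasurableConstSMul G X] {μ : Measure X} [SMulInvariantMeasure G X μ] [MulAction G D]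
  [Countable D] {E : Type*} [NormedAddCommGroup E] [NormedSpace ℝ E] [CompleteSpace E]
  (c : CutOff G X)

/-- **Class decomposition.** The integral over `G \ X` of the sum over all `d : D` is the sum over
the `G`-orbits in `D` of the integrals over `G_d \ X`. -/
theorem hasSum_orbits {t : D → X → E} (ht : ∀ (g : G) d x, t (g • d) (g • x) = t d x)
    (hm : ∀ d, AEStronglyMeasurable (t d) μ)
    (hfin : ∫⁻ x, ∑' d, ‖t d x‖ₑ ∂(c.ν μ) ≠ ∞)
    (c' : ∀ ω : Quotient (MulAction.orbitRel G D), CutOff (MulAction.stabilizer G ω.out) X) :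
    HasSum (fun ω : Quotient (MulAction.orbitRel G D) => ∫ x, t ω.out x ∂((c' ω).ν μ))
      (∫ x, ∑' d, t d x ∂(c.ν μ)) := by
  classical
  let e : (Σ ω : Quotient (MulAction.orbitRel G D), MulAction.orbit G ω.out) ≃ D :=
    (MulAction.selfEquivSigmaOrbits G D).symm
  have he : ∀ z, e z = z.2 := fun z => rfl
  have hmd : ∀ d, AEMeasurable (fun x => ‖t d x‖ₑ) (c.ν μ) := fun d =>
    ((hm d).mono_ac (c.ν_ac μ)).enorm
  have hlin : ∀ ω : Quotient (MulAction.orbitRel G D),
      ∫⁻ x, ‖t ω.out x‖ₑ ∂((c' ω).ν μ) =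
        ∫⁻ x, ∑' d : MulAction.orbit G ω.out, ‖t d x‖ₑ ∂(c.ν μ) := fun ω =>
    (c.lintegral_orbit (c' ω) (t := fun d x => ‖t d x‖ₑ) (fun g d x => by rw [ht])
      (hm _).enorm).symm
  have htot : ∑' ω : Quotient (MulAction.orbitRel G D),
      ∫⁻ x, ∑' d : MulAction.orbit G ω.out, ‖t d x‖ₑ ∂(c.ν μ) = ∫⁻ x, ∑' d, ‖t d x‖ₑ ∂(c.ν μ) := by
    rw [← lintegral_tsum (f := fun (ω : Quotient (MulAction.orbitRel G D)) x =>
      ∑' d : MulAction.orbit G ω.out, ‖t d x‖ₑ) fun ω => AEMeasurable.tsum fun d => hmd d]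
    refine lintegral_congr fun x => ?_
    rw [← e.tsum_eq, ENNReal.tsum_sigma']
    rfl
  have hi : ∀ ω, Integrable (t (ω : Quotient (MulAction.orbitRel G D)).out) ((c' ω).ν μ) := by
    intro ω
    refine ⟨(hm _).mono_ac ((c' ω).ν_ac μ), ?_⟩
    unfold HasFiniteIntegral
    rw [hlin ω]
    refine lt_of_le_of_lt ?_ hfin.lt_top
    rw [← htot]
    exact ENNReal.le_tsum ω
  have hcnt : Countable (Quotient (MulAction.orbitRel G D)) := inferInstance
  have hint : ∀ ω : Quotient (MulAction.orbitRel G D),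
      Integrable (fun x => ∑' d : MulAction.orbit G ω.out, t d x) (c.ν μ) := fun ω =>
    (c.integral_orbit (c' ω) ht (hm _) (hi ω)).1
  have hae : ∀ᵐ x ∂(c.ν μ), Summable fun d : D => ‖t d x‖ := by
    filter_upwards [ae_lt_top' (AEMeasurable.tsum hmd) hfin] with x hx
    have := ENNReal.summable_toReal hx.ne
    simpa using this
  have hsum : Summable fun ω : Quotient (MulAction.orbitRel G D) =>
      ∫ x, ‖∑' d : MulAction.orbit G ω.out, t d x‖ ∂(c.ν μ) := by
    have h1 : ∑' ω : Quotient (MulAction.orbitRel G D),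
        ∫⁻ x, ‖∑' d : MulAction.orbit G ω.out, t d x‖ₑ ∂(c.ν μ) ≠ ∞ := by
      refine ((ENNReal.tsum_le_tsum fun ω => lintegral_mono fun x => ?_).trans_lt
        (htot.trans_lt hfin.lt_top)).ne
      exact enorm_tsum_le_tsum_enorm
    have h2 : ∀ ω : Quotient (MulAction.orbitRel G D),
        ∫ x, ‖∑' d : MulAction.orbit G ω.out, t d x‖ ∂(c.ν μ) =
        (∫⁻ x, ‖∑' d : MulAction.orbit G ω.out, t d x‖ₑ ∂(c.ν μ)).toReal := fun ω =>
      integral_norm_eq_lintegral_enorm (hint ω).aestronglyMeasurable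
    simp_rw [h2]
    exact ENNReal.summable_toReal h1
  have h := hasSum_integral_of_summable_integral_norm hint hsum
  have e1 : (fun ω : Quotient (MulAction.orbitRel G D) =>
      ∫ x, ∑' d : MulAction.orbit G ω.out, t d x ∂(c.ν μ)) =
      fun ω => ∫ x, t ω.out x ∂((c' ω).ν μ) :=
    funext fun ω => (c.integral_orbit (c' ω) ht (hm _) (hi ω)).2
  have e2 : ∫ x, ∑' ω : Quotient (MulAction.orbitRel G D),
      ∑' d : MulAction.orbit G ω.out, t d x ∂(c.ν μ) = ∫ x, ∑' d, t d x ∂(c.ν μ) := by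
    refine integral_congr_ae ?_
    filter_upwards [hae] with x hx
    have h3 : Summable fun z : (Σ ω : Quotient (MulAction.orbitRel G D), MulAction.orbit G ω.out) =>
        t z.2 x := (e.summable_iff (f := fun d => t d x)).mpr hx.of_norm
    rw [← e.tsum_eq (fun d => t d x)]
    exact (h3.tsum_sigma).symm
  rw [e1, e2] at h
  exact h

end total


section kernel

theorem integrable_tsum_of {ι α E : Type*} [Countable ι] [MeasurableSpace α] {μ : Measure α}
    [NormedAddCommGroup E] [CompleteSpace E] {f : ι → α → E}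
    (hf : ∀ i, AEStronglyMeasurable (f i) μ) (hf' : ∑' i, ∫⁻ a, ‖f i a‖ₑ ∂μ ≠ ∞) :
    Integrable (fun a => ∑' i, f i a) μ := by
  have h1 : ∫⁻ a, ∑' i, ‖f i a‖ₑ ∂μ ≠ ∞ := by
    rwa [lintegral_tsum fun i => (hf i).enorm]
  have hae : ∀ᵐ a ∂μ, Summable fun i => ‖f i a‖ := by
    filter_upwards [ae_lt_top' (AEMeasurable.tsum fun i => (hf i).enorm) h1] with a ha
    have := ENNReal.summable_toReal ha.ne
    simpa using this
  refine ⟨?_, ?_⟩
  · refine aestronglyMeasurable_of_tendsto_ae (u := atTop)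
      (f := fun (s : Finset ι) a => ∑ i ∈ s, f i a) ?_ ?_
    · intro s
      exact Finset.aestronglyMeasurable_fun_sum _ fun i _ => hf i
    · filter_upwards [hae] with a ha
      exact ha.of_norm.hasSum
  · exact lt_of_le_of_lt (lintegral_mono fun a => enorm_tsum_le_tsum_enorm) h1.lt_top

variable {G X : Type*} [Group G] [MulAction G X]

/-- the automorphic kernel of a point pair kernel -/
def autK (G : Type*) {X : Type*} [Group G] [MulAction G X] (k : X → X → ℂ) (x y : X) : ℂ :=
  ∑' g : G, k x (g • y)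

theorem autK_smul_right (k : X → X → ℂ) (x y : X) (h : G) : autK G k x (h • y) = autK G k x y := by
  unfold autK
  rw [← (Equiv.mulRight h).tsum_eq (fun g : G => k x (g • y))]
  refine tsum_congr fun g => ?_
  simp [mul_smul]

theorem autK_smul_left {k : X → X → ℂ} (hk : ∀ (g : G) x y, k (g • x) (g • y) = k x y) (x y : X)
    (h : G) : autK G k (h • x) y = autK G k x y := by
  unfold autK
  rw [← (Equiv.mulLeft h).tsum_eq (fun g : G => k (h • x) (g • y))]
  refine tsum_congr fun g => ?_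
  simp only [Equiv.coe_mulLeft, mul_smul]
  rw [hk]

theorem autK_symm {k : X → X → ℂ} (hk : ∀ (g : G) x y, k (g • x) (g • y) = k x y)
    (hs : ∀ x y, k y x = (starRingEnd ℂ) (k x y)) (x y : X) :
    autK G k y x = (starRingEnd ℂ) (autK G k x y) := by
  unfold autK
  rw [Complex.conj_tsum, ← (Equiv.inv G).tsum_eq (fun g : G => k y (g • x))]
  refine tsum_congr fun g => ?_
  rw [← hs, ← hk g⁻¹ (g • y) x]
  simp

variable [MeasurableSpace X] [Countable G] [MeasurableConstSMul G X] {μ : Measure X}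
  [SMulInvariantMeasure G X μ] (c : CutOff G X)

/-- (A1) integrals against a point pair kernel as integrals over `G \ X`. -/
theorem integral_autK {k : X → X → ℂ} {x : X} {f : X → ℂ} (hf : ∀ (g : G) y, f (g • y) = f y)
    (hi : Integrable (fun y => k x y * f y) μ) :
    ∫ y, k x y * f y ∂μ = ∫ y, autK G k x y * f y ∂(c.ν μ) := by
  rw [c.integral_unfold hi]
  refine integral_congr_ae (Eventually.of_forall fun y => ?_)
  simp only [hf, autK]
  rw [tsum_mul_right]

theorem integrable_autK {k : X → X → ℂ} {x : X} {f : X → ℂ} (hf : ∀ (g : G) y, f (g • y) = f y)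
    (hi : Integrable (fun y => k x y * f y) μ) :
    Integrable (fun y => autK G k x y * f y) (c.ν μ) := by
  refine (c.integrable_tsum hi).congr (Eventually.of_forall fun y => ?_)
  simp only [hf, autK]
  rw [tsum_mul_right]

/-- (A2) composition of automorphic kernels. -/
theorem autK_comp {k₁ k₂ : X → X → ℂ} (h₂ : ∀ (g : G) x y, k₂ (g • x) (g • y) = k₂ x y) {x z : X}
    (hm : ∀ g : G, AEStronglyMeasurable (fun y => k₁ x y * k₂ y (g • z)) μ)
    (hfin : ∑' g : G, ∫⁻ y, ‖k₁ x y * k₂ y (g • z)‖ₑ ∂μ ≠ ∞) :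
    autK G (fun x z => ∫ y, k₁ x y * k₂ y z ∂μ) x z =
      ∫ y, autK G k₁ x y * autK G k₂ y z ∂(c.ν μ) := by
  have h1 : autK G (fun x z => ∫ y, k₁ x y * k₂ y z ∂μ) x z =
      ∫ y, k₁ x y * autK G k₂ y z ∂μ := by
    unfold autK
    rw [← integral_tsum hm hfin]
    refine integral_congr_ae (Eventually.of_forall fun y => ?_)
    simp only
    rw [tsum_mul_left]
  have hi : Integrable (fun y => k₁ x y * autK G k₂ y z) μ := by
    refine (integrable_tsum_of hm hfin).congr (Eventually.of_forall fun y => ?_)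
    simp only [autK]
    rw [tsum_mul_left]
  rw [h1]
  exact c.integral_autK (fun g y => autK_smul_left h₂ y z g) hi

end kernel


/-- `G` with the `s`-twisted conjugation action `g ⋆ d = g d s(g)⁻¹`. -/
def TwConj {G : Type*} [Group G] (_s : G →* G) : Type _ := G

namespace TwConj

variable {G : Type*} [Group G] (s : G →* G)

/-- the identity map -/
def of (d : G) : TwConj s := d

/-- the identity map -/
def val {s : G →* G} (d : TwConj s) : G := d

instance [h : Countable G] : Countable (TwConj s) := h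

instance : MulAction G (TwConj s) where
  smul g d := of s (g * val d * (s g)⁻¹)
  one_smul d := by
    have h1 : (1 * val d * (s 1)⁻¹ : G) = val d := by simp
    exact h1
  mul_smul g h d := by
    have h1 : (g * h * val d * (s (g * h))⁻¹ : G) = g * (h * val d * (s h)⁻¹) * (s g)⁻¹ := by
      rw [map_mul]; group
    exact h1

theorem val_smul (g : G) (d : TwConj s) : val (g • d) = g * val d * (s g)⁻¹ := rfl

theorem mem_stabilizer {g : G} {d : TwConj s} :
    g ∈ MulAction.stabilizer G d ↔ g * val d * (s g)⁻¹ = val d := Iff.rfl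

end TwConj

section twisted

variable {G X : Type*} [Group G] [MulAction G X] [MeasurableSpace X] [Countable G]
  [MeasurableConstSMul G X] {μ : Measure X} [SMulInvariantMeasure G X μ] (c : CutOff G X)

/-- **Geometric side.** `∫_{G \ X} K_k (x, σ x) = ∑_{[d]} ∫_{G_d \ X} k (x, d σ x)`, the sum over the
`s`-twisted conjugacy classes. -/
theorem hasSum_twisted {s : G →* G} {σ : X → X} (hσ : ∀ (g : G) x, σ (g • x) = s g • σ x)
    {k : X → X → ℂ} (hk : ∀ (g : G) x y, k (g • x) (g • y) = k x y)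
    (hm : ∀ d : G, AEStronglyMeasurable (fun x => k x (d • σ x)) μ)
    (hfin : ∫⁻ x, ∑' d : G, ‖k x (d • σ x)‖ₑ ∂(c.ν μ) ≠ ∞)
    (c' : ∀ ω : Quotient (MulAction.orbitRel G (TwConj s)),
      CutOff (MulAction.stabilizer G ω.out) X) :
    HasSum (fun ω : Quotient (MulAction.orbitRel G (TwConj s)) =>
      ∫ x, k x (TwConj.val ω.out • σ x) ∂((c' ω).ν μ)) (∫ x, autK G k x (σ x) ∂(c.ν μ)) :=
  c.hasSum_orbits (D := TwConj s) (t := fun d x => k x (TwConj.val d • σ x))
    (fun g d x => by
      simp only [TwConj.val_smul, hσ, mul_smul]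
      rw [inv_smul_smul, hk]) hm hfin c'

end twisted

end CutOff

end Fermat.Agent.H32Z
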