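import Fermat.Agent.H51ZKer

/-!
# The Iwahori level (helper51, C-HECKE of S47)

`K` a field, `v : Valuation K ℤᵐ⁰`.

* `Iw v : Subgroup PGL(2, K)` : the (upper triangular modulo `π`) Iwahori subgroup;
* `cellU v m = Iw diag(π^m, 1) Iw` described by valuations;
* `Uker v m`, `Pker v`, `Wker v π` : local kernels on `PGL(2, K) ⧸ Iw v`;
* `Uker_mul : U^m * U = U^(m+1)`, `Uker_one_eq : U = (P - 1) * W`, `Wker_sq`, `Pker_sq`.
-/

set_option autoImplicit false

noncomputable section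

open scoped Classical MatrixGroups WithZero

namespace Fermat.Agent.H51Z

open Fermat.Agent.H59XF Matrix

variable {K : Type*} [Field K] (v : Valuation K ℤᵐ⁰)

/-- The predicate describing the double cosets `K^* · I diag(a,1) I`, `c = v a ≤ 1`. -/
def Cell (c : ℤᵐ⁰) (g : GL (Fin 2) K) : Prop :=
  v (g 0 0) ≤ v (g 1 1) ∧ v (g 0 1) ≤ v (g 1 1) ∧ v (g 1 0) < v (g 1 1) ∧
    v (GeneralLinearGroup.det g : K) = c * v (g 1 1) ^ 2

theorem Cell.mul_scalar {c : ℤᵐ⁰} {g : GL (Fin 2) K} (h : Cell v c g) (u : Kˣ) :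
    Cell v c (g * GeneralLinearGroup.scalar (Fin 2) u) := by
  obtain ⟨h1, h2, h3, h4⟩ := h
  have hu : 0 < v (u : K) := zero_lt_iff.2 ((v.ne_zero_iff).2 u.ne_zero)
  refine ⟨?_, ?_, ?_, ?_⟩
  · rw [scalar_mul_apply, scalar_mul_apply, map_mul, map_mul]; gcongr
  · rw [scalar_mul_apply, scalar_mul_apply, map_mul, map_mul]; gcongr
  · rw [scalar_mul_apply, scalar_mul_apply, map_mul, map_mul]
    exact (mul_lt_mul_iff_left₀ hu).2 h3
  · rw [det_mul_scalar, scalar_mul_apply, map_mul, map_mul, map_pow, h4, mul_pow, mul_assoc]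

theorem cell_scalar_iff {c : ℤᵐ⁰} {g : GL (Fin 2) K} (u : Kˣ) :
    Cell v c (g * GeneralLinearGroup.scalar (Fin 2) u) ↔ Cell v c g := by
  refine ⟨fun h => ?_, fun h => h.mul_scalar v u⟩
  have := h.mul_scalar v u⁻¹
  have e : g * GeneralLinearGroup.scalar (Fin 2) u * GeneralLinearGroup.scalar (Fin 2) u⁻¹ = g := by
    rw [map_inv, mul_inv_cancel_right]
  rwa [e] at this

theorem Cell.pos {c : ℤᵐ⁰} {g : GL (Fin 2) K} (h : Cell v c g) : 0 < v (g 1 1) :=
  lt_of_le_of_lt zero_le h.2.2.1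

theorem Cell.mul {c c' : ℤᵐ⁰} {g h : GL (Fin 2) K} (hg : Cell v c g) (hh : Cell v c' h) :
    Cell v (c * c') (g * h) := by
  obtain ⟨g1, g2, g3, g4⟩ := hg
  obtain ⟨h1, h2, h3, h4⟩ := hh
  have hgp : 0 < v (g 1 1) := lt_of_le_of_lt zero_le g3
  have hhp : 0 < v (h 1 1) := lt_of_le_of_lt zero_le h3
  have key : v ((g * h) 1 1) = v (g 1 1) * v (h 1 1) := by
    rw [mul_11, ← map_mul]
    apply v.map_add_eq_of_lt_right
    rw [map_mul, map_mul]
    calc v (g 1 0) * v (h 0 1) ≤ v (g 1 0) * v (h 1 1) := by gcongr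
      _ < v (g 1 1) * v (h 1 1) := (mul_lt_mul_iff_left₀ hhp).2 g3
  refine ⟨?_, ?_, ?_, ?_⟩
  · rw [key, mul_00]
    refine (v.map_add _ _).trans (max_le ?_ ?_)
    · rw [map_mul]; gcongr
    · rw [map_mul]
      exact mul_le_mul' g2 h3.le
  · rw [key, mul_01]
    refine (v.map_add _ _).trans (max_le ?_ ?_)
    · rw [map_mul]; exact mul_le_mul' g1 h2
    · rw [map_mul]; gcongr
  · rw [key, mul_10]
    refine v.map_add_lt ?_ ?_
    · rw [map_mul]
      calc v (g 1 0) * v (h 0 0) ≤ v (g 1 0) * v (h 1 1) := by gcongr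
        _ < v (g 1 1) * v (h 1 1) := (mul_lt_mul_iff_left₀ hhp).2 g3
    · rw [map_mul]
      exact (mul_lt_mul_iff_right₀ hgp).2 h3
  · rw [key, map_mul, Units.val_mul, map_mul, g4, h4, mul_pow, mul_mul_mul_comm]

theorem Cell.adj {g : GL (Fin 2) K} (h : Cell v 1 g) : Cell v 1 (adjGL g) := by
  obtain ⟨h1, h2, h3, h4⟩ := h
  have hp : 0 < v (g 1 1) := lt_of_le_of_lt zero_le h3
  have e00 : (adjGL g) 0 0 = g 1 1 := by
    have := congrFun (congrFun (adjGL_coe g) 0) 0; simpa using this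
  have e01 : (adjGL g) 0 1 = -g 0 1 := by
    have := congrFun (congrFun (adjGL_coe g) 0) 1; simpa using this
  have e10 : (adjGL g) 1 0 = -g 1 0 := by
    have := congrFun (congrFun (adjGL_coe g) 1) 0; simpa using this
  have e11 : (adjGL g) 1 1 = g 0 0 := by
    have := congrFun (congrFun (adjGL_coe g) 1) 1; simpa using this
  -- `v (g 0 0) = v (g 1 1)`
  have key : v (g 0 0) = v (g 1 1) := by
    refine le_antisymm h1 ?_
    by_contra hlt
    rw [not_le] at hlt
    have h5 : v (GeneralLinearGroup.det g : K) < v (g 1 1) ^ 2 := by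
      rw [det_two]
      refine v.map_sub_lt ?_ ?_
      · rw [map_mul, pow_two]
        exact (mul_lt_mul_iff_left₀ hp).2 hlt
      · rw [map_mul, pow_two]
        calc v (g 0 1) * v (g 1 0) ≤ v (g 1 1) * v (g 1 0) := by gcongr
          _ < v (g 1 1) * v (g 1 1) := (mul_lt_mul_iff_right₀ hp).2 h3
    rw [h4, one_mul] at h5
    exact lt_irrefl _ h5
  refine ⟨?_, ?_, ?_, ?_⟩
  · rw [e00, e11, key]
  · rw [e01, e11, key, Valuation.map_neg]; exact h2
  · rw [e10, e11, key, Valuation.map_neg]; exact h3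
  · rw [det_adjGL, e11, key, h4]

/-- Membership of a class in a scalar invariant predicate does not depend on the lift. -/
theorem exists_cell_iff {c : ℤᵐ⁰} {g : GL (Fin 2) K} :
    (∃ h : GL (Fin 2) K, ProjGenLinGroup.mk h = ProjGenLinGroup.mk g ∧ Cell v c h) ↔
      Cell v c g := by
  constructor
  · rintro ⟨h, hh, hc⟩
    obtain ⟨u, rfl⟩ := ProjGenLinGroup.mk_eq_mk_iff.1 hh
    exact hc.mul_scalar v u
  · intro h
    exact ⟨g, rfl, h⟩

/-- The Iwahori subgroup of `PGL₂(K)`. -/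
def Iw : Subgroup PGL(2, K) where
  carrier := {x | ∃ g : GL (Fin 2) K, ProjGenLinGroup.mk g = x ∧ Cell v 1 g}
  mul_mem' := by
    rintro _ _ ⟨g, rfl, hg⟩ ⟨h, rfl, hh⟩
    exact ⟨g * h, map_mul _ _ _, by simpa using hg.mul v hh⟩
  one_mem' := ⟨1, rfl, by
    refine ⟨?_, ?_, ?_, ?_⟩ <;> simp⟩
  inv_mem' := by
    rintro _ ⟨g, rfl, hg⟩
    exact ⟨adjGL g, mk_adjGL g, hg.adj v⟩

theorem mk_mem_Iw {g : GL (Fin 2) K} : ProjGenLinGroup.mk g ∈ Iw v ↔ Cell v 1 g :=
  exists_cell_iff v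

/-- The double coset `Iw diag(a, 1) Iw`, `c = v a`. -/
def cellU (c : ℤᵐ⁰) : Set PGL(2, K) :=
  {x | ∃ g : GL (Fin 2) K, ProjGenLinGroup.mk g = x ∧ Cell v c g}

theorem mk_mem_cellU {c : ℤᵐ⁰} {g : GL (Fin 2) K} :
    ProjGenLinGroup.mk g ∈ cellU v c ↔ Cell v c g := exists_cell_iff v

theorem cellU_one : cellU v 1 = (Iw v : Set PGL(2, K)) := rfl

theorem cellU_mul {c c' : ℤᵐ⁰} {x y : PGL(2, K)} (hx : x ∈ cellU v c) (hy : y ∈ cellU v c') :
    x * y ∈ cellU v (c * c') := by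
  obtain ⟨g, rfl, hg⟩ := hx
  obtain ⟨h, rfl, hh⟩ := hy
  exact ⟨g * h, map_mul _ _ _, hg.mul v hh⟩

theorem cellU_left {c : ℤᵐ⁰} : ∀ u ∈ Iw v, ∀ g ∈ cellU v c, u * g ∈ cellU v c := by
  intro u hu g hg
  have := cellU_mul v (c := 1) (c' := c) hu hg
  rwa [one_mul] at this

theorem cellU_right {c : ℤᵐ⁰} : ∀ u ∈ Iw v, ∀ g ∈ cellU v c, g * u ∈ cellU v c := by
  intro u hu g hg
  have := cellU_mul v (c := c) (c' := 1) hg hu
  rwa [mul_one] at this

variable {v}

/-- Representatives of `cellU v (v a) / Iw`. -/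
def repsU (a : Kˣ) (B : Finset K) : Finset PGL(2, K) :=
  B.image (fun b => ProjGenLinGroup.mk (bm a b))

theorem mem_repsU {a : Kˣ} {B : Finset K} {x : PGL(2, K)} :
    x ∈ repsU a B ↔ ∃ b ∈ B, ProjGenLinGroup.mk (bm a b) = x := by simp [repsU]

theorem cell_bm {a : Kˣ} (ha : v (a : K) ≤ 1) {b : K} (hb : v b ≤ 1) :
    Cell v (v (a : K)) (bm a b) := by
  refine ⟨?_, ?_, ?_, ?_⟩
  · simpa using ha
  · simpa using hb
  · simp
  · rw [det_bm]; simp

theorem cell_one_bm_iff {a : Kˣ} {b : K} :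
    Cell v 1 (bm a b) ↔ v (a : K) = 1 ∧ v b ≤ 1 := by
  constructor
  · rintro ⟨h1, h2, h3, h4⟩
    simp only [bm_00, bm_11, bm_01, map_one, det_bm, one_pow, mul_one] at h1 h2 h3 h4
    exact ⟨h4, h2⟩
  · rintro ⟨h1, h2⟩
    have := cell_bm (v := v) (a := a) h1.le h2
    rwa [h1] at this

theorem bm_inv_mul_cell_iff (a : Kˣ) (b b' : K) :
    Cell v 1 ((bm a b)⁻¹ * bm a b') ↔ v (b' - b) ≤ v (a : K) := by
  rw [bm_inv, bm_mul, cell_one_bm_iff]
  have h0 : v (a : K) ≠ 0 := (v.ne_zero_iff).2 a.ne_zero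
  have h2 : b' - b = (a : K) * (((a⁻¹ : Kˣ) : K) * b' + -(a : K)⁻¹ * b) := by
    rw [Units.val_inv_eq_inv_val]; field_simp; ring
  constructor
  · rintro ⟨-, h⟩
    rw [h2, map_mul]
    exact (mul_le_mul_right h _).trans (by simp)
  · intro h
    refine ⟨by simp, ?_⟩
    rw [h2, map_mul] at h
    have h3 := mul_le_mul_right h (v (a : K))⁻¹
    rwa [inv_mul_cancel₀ h0, inv_mul_cancel_left₀ h0] at h3

/-- Existence of representatives, general form. -/
theorem exists_repsU' {a : Kˣ} {m : ℕ} (ha : v (a : K) = WithZero.exp (-(m : ℤ))) {B : Finset K}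
    (hB : IsReps v m B) {c : ℤᵐ⁰} (hc : c ≤ 1) {g : GL (Fin 2) K} (hg : Cell v (v (a : K) * c) g) :
    ∃ b ∈ B, Cell v c ((bm a b)⁻¹ * g) := by
  obtain ⟨g1, g2, g3, g4⟩ := hg
  have hp : 0 < v (g 1 1) := lt_of_le_of_lt zero_le g3
  have hne : g 1 1 ≠ 0 := (v.ne_zero_iff).1 hp.ne'
  have ha0 : v (a : K) ≠ 0 := (v.ne_zero_iff).2 a.ne_zero
  have hb0 : v (g 0 1 / g 1 1) ≤ 1 := by
    rw [map_div₀]
    exact (div_le_one₀ hp).2 g2
  obtain ⟨b, hb, hbb⟩ := hB.exists_mem _ hb0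
  rw [← ha] at hbb
  refine ⟨b, hb, ?_⟩
  -- the product
  set h := (bm a b)⁻¹ * g with hh
  have e01 : h 0 1 = (a : K)⁻¹ * (g 0 1 - b * g 1 1) := by
    rw [hh, bm_inv, mul_01]; simp; ring
  have e10 : h 1 0 = g 1 0 := by rw [hh, bm_inv, mul_10]; simp
  have e11 : h 1 1 = g 1 1 := by rw [hh, bm_inv, mul_11]; simp
  have ed : v (GeneralLinearGroup.det h : K) = c * v (g 1 1) ^ 2 := by
    rw [hh, map_mul, map_inv, Units.val_mul, Units.val_inv_eq_inv_val, map_mul, map_inv₀, det_bm,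
      g4, mul_assoc, inv_mul_cancel_left₀ ha0]
  have h01 : v (h 0 1) ≤ v (g 1 1) := by
    have : g 0 1 - b * g 1 1 = (g 0 1 / g 1 1 - b) * g 1 1 := by field_simp
    rw [e01, this, map_mul, map_mul, map_inv₀]
    calc (v (a : K))⁻¹ * (v (g 0 1 / g 1 1 - b) * v (g 1 1)) ≤
        (v (a : K))⁻¹ * (v (a : K) * v (g 1 1)) := by gcongr
      _ = v (g 1 1) := inv_mul_cancel_left₀ ha0 _
  have h00 : v (h 0 0) ≤ v (g 1 1) := by
    -- from the determinant
    have hdet : (GeneralLinearGroup.det h : K) = h 0 0 * h 1 1 - h 0 1 * h 1 0 := det_two h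
    have h5 : v (h 0 0 * h 1 1) ≤ v (g 1 1) ^ 2 := by
      have : h 0 0 * h 1 1 = (GeneralLinearGroup.det h : K) + h 0 1 * h 1 0 := by
        rw [hdet]; ring
      rw [this]
      refine (v.map_add _ _).trans (max_le ?_ ?_)
      · rw [ed]
        calc c * v (g 1 1) ^ 2 ≤ 1 * v (g 1 1) ^ 2 := by gcongr
          _ = _ := one_mul _
      · rw [map_mul, e10, pow_two]
        exact mul_le_mul' h01 g3.le
    rw [map_mul, e11, pow_two] at h5
    exact (mul_le_mul_iff_left₀ hp).1 h5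
  refine ⟨?_, ?_, ?_, ?_⟩
  · rw [e11]; exact h00
  · rw [e11]; exact h01
  · rw [e11, e10]; exact g3
  · rw [ed, e11]

/-- Uniqueness of the representative. -/
theorem unique_repsU' {a : Kˣ} {b b' : K} {c : ℤᵐ⁰} {g : GL (Fin 2) K}
    (h : Cell v c ((bm a b)⁻¹ * g)) (h' : Cell v c ((bm a b')⁻¹ * g)) :
    v (b - b') ≤ v (a : K) := by
  have ha0 : v (a : K) ≠ 0 := (v.ne_zero_iff).2 a.ne_zero
  have e01 : ∀ b : K, ((bm a b)⁻¹ * g) 0 1 = (a : K)⁻¹ * (g 0 1 - b * g 1 1) := by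
    intro b
    rw [bm_inv, mul_01]; simp; ring
  have e11 : ∀ b : K, ((bm a b)⁻¹ * g) 1 1 = g 1 1 := by
    intro b
    rw [bm_inv, mul_11]; simp
  have hp : 0 < v (g 1 1) := by
    have := h.pos
    rwa [e11] at this
  have h1 := h.2.1
  have h2 := h'.2.1
  rw [e01, e11] at h1 h2
  have h3 : v ((a : K)⁻¹ * (b - b') * g 1 1) ≤ v (g 1 1) := by
    have : (a : K)⁻¹ * (b - b') * g 1 1 =
        (a : K)⁻¹ * (g 0 1 - b' * g 1 1) - (a : K)⁻¹ * (g 0 1 - b * g 1 1) := by ring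
    rw [this]
    exact (v.map_sub _ _).trans (max_le h2 h1)
  rw [map_mul] at h3
  have h4 : v ((a : K)⁻¹ * (b - b')) ≤ 1 := by
    have : v ((a : K)⁻¹ * (b - b')) * v (g 1 1) ≤ 1 * v (g 1 1) := by rwa [one_mul]
    exact (mul_le_mul_iff_left₀ hp).1 this
  rw [map_mul, map_inv₀] at h4
  have h5 := mul_le_mul_right h4 (v (a : K))
  rwa [mul_inv_cancel_left₀ ha0, mul_one] at h5

theorem exists_repsU {a : Kˣ} {m : ℕ} (ha : v (a : K) = WithZero.exp (-(m : ℤ))) {B : Finset K}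
    (hB : IsReps v m B) {g : GL (Fin 2) K} (hg : Cell v (v (a : K)) g) :
    ∃ b ∈ B, Cell v 1 ((bm a b)⁻¹ * g) :=
  exists_repsU' ha hB le_rfl (by rwa [mul_one])

theorem isCosetReps_repsU {a : Kˣ} {m : ℕ} (ha : v (a : K) = WithZero.exp (-(m : ℤ)))
    {B : Finset K} (hB : IsReps v m B) :
    IsCosetReps (Iw v) (cellU v (v (a : K))) (repsU a B) := by
  have hle : v (a : K) ≤ 1 := by
    rw [ha, ← WithZero.exp_zero, WithZero.exp_le_exp]; omega
  refine ⟨?_, ?_, ?_⟩
  · intro r hr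
    obtain ⟨b, hb, rfl⟩ := mem_repsU.1 hr
    exact (mk_mem_cellU v).2 (cell_bm hle (hB.le_one b hb))
  · rintro _ ⟨g, rfl, hg⟩
    obtain ⟨b, hb, h⟩ := exists_repsU ha hB hg
    refine ⟨_, mem_repsU.2 ⟨b, hb, rfl⟩, ?_⟩
    rw [← map_inv, ← map_mul, mk_mem_Iw]
    exact h
  · intro r hr r' hr' hrr
    obtain ⟨b, hb, rfl⟩ := mem_repsU.1 hr
    obtain ⟨b', hb', rfl⟩ := mem_repsU.1 hr'
    rw [← map_inv, ← map_mul, mk_mem_Iw, bm_inv_mul_cell_iff, ha] at hrr
    rw [hB.inj b' hb' b hb hrr]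

theorem card_repsU {a : Kˣ} {m : ℕ} (ha : v (a : K) = WithZero.exp (-(m : ℤ)))
    {B : Finset K} (hB : IsReps v m B) : (repsU a B).card = B.card := by
  rw [repsU, Finset.card_image_of_injOn]
  intro b hb b' hb' h
  have h2 : (ProjGenLinGroup.mk (bm a b))⁻¹ * ProjGenLinGroup.mk (bm a b') ∈ Iw v := by
    rw [show ProjGenLinGroup.mk (bm a b) = ProjGenLinGroup.mk (bm a b') from h]
    simp
  rw [← map_inv, ← map_mul, mk_mem_Iw, bm_inv_mul_cell_iff, ha] at h2
  exact (hB.inj b' hb' b hb h2).symm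

/-! ### The Atkin-Lehner element -/

/-- The matrix `(0 1; π 0)`. -/
def wm (π : Kˣ) : GL (Fin 2) K :=
  GeneralLinearGroup.mkOfDetNeZero !![0, 1; (π : K), 0] (by simp)

@[simp] theorem wm_00 (π : Kˣ) : wm π 0 0 = 0 := rfl
@[simp] theorem wm_01 (π : Kˣ) : wm π 0 1 = 1 := rfl
@[simp] theorem wm_10 (π : Kˣ) : wm π 1 0 = π := rfl
@[simp] theorem wm_11 (π : Kˣ) : wm π 1 1 = 0 := rfl

/-- Its class in `PGL₂(K)`. -/
def W (π : Kˣ) : PGL(2, K) := ProjGenLinGroup.mk (wm π)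

theorem wm_mul_wm (π : Kˣ) : wm π * wm π = 1 * GeneralLinearGroup.scalar (Fin 2) π := by
  apply gl_ext
  · rw [mul_00, scalar_mul_apply]; simp
  · rw [mul_01, scalar_mul_apply]; simp
  · rw [mul_10, scalar_mul_apply]; simp
  · rw [mul_11, scalar_mul_apply]; simp

@[simp] theorem W_mul_W (π : Kˣ) : W π * W π = 1 := by
  rw [W, ← map_mul, wm_mul_wm, map_mul, ProjGenLinGroup.mk_scalar, mul_one, map_one]

@[simp] theorem W_inv (π : Kˣ) : (W π)⁻¹ = W π := inv_eq_of_mul_eq_one_left (W_mul_W π)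

theorem W_mul_cancel_left (π : Kˣ) (x : PGL(2, K)) : W π * (W π * x) = x := by
  rw [← mul_assoc, W_mul_W, one_mul]

theorem W_mul_cancel_right (π : Kˣ) (x : PGL(2, K)) : x * W π * W π = x := by
  rw [mul_assoc, W_mul_W, mul_one]

theorem mk_mul_scalar' (g : GL (Fin 2) K) (u : Kˣ) :
    ProjGenLinGroup.mk (g * GeneralLinearGroup.scalar (Fin 2) u) = ProjGenLinGroup.mk g := by
  rw [map_mul, ProjGenLinGroup.mk_scalar, mul_one]

/-- The anti-involution `x ↦ W x⁻¹ W` preserves the cells. -/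
theorem W_conj_inv_mem {π : Kˣ} (hπ : v (π : K) = WithZero.exp (-1 : ℤ)) {c : ℤᵐ⁰}
    {x : PGL(2, K)} (hx : x ∈ cellU v c) : W π * x⁻¹ * W π ∈ cellU v c := by
  obtain ⟨g, rfl, g1, g2, g3, g4⟩ := hx
  have hπ0 : (π : K) ≠ 0 := π.ne_zero
  have hp : 0 < v (g 1 1) := lt_of_le_of_lt zero_le g3
  have a00 : (adjGL g) 0 0 = g 1 1 := by
    have := congrFun (congrFun (adjGL_coe g) 0) 0; simpa using this
  have a01 : (adjGL g) 0 1 = -g 0 1 := by
    have := congrFun (congrFun (adjGL_coe g) 0) 1; simpa using this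
  have a10 : (adjGL g) 1 0 = -g 1 0 := by
    have := congrFun (congrFun (adjGL_coe g) 1) 0; simpa using this
  have a11 : (adjGL g) 1 1 = g 0 0 := by
    have := congrFun (congrFun (adjGL_coe g) 1) 1; simpa using this
  -- the matrix `π⁻¹ • wm * adj g * wm`
  refine ⟨wm π * adjGL g * wm π * GeneralLinearGroup.scalar (Fin 2) π⁻¹, ?_, ?_⟩
  · rw [mk_mul_scalar', map_mul, map_mul, mk_adjGL]
    rfl
  · have e00 : (wm π * adjGL g * wm π * GeneralLinearGroup.scalar (Fin 2) π⁻¹) 0 0 = g 0 0 := by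
      rw [scalar_mul_apply, mul_00, mul_00, mul_01]
      simp only [wm_00, wm_01, wm_10, a10, a11, a00, a01]
      rw [Units.val_inv_eq_inv_val]; field_simp; ring
    have e01 : (wm π * adjGL g * wm π * GeneralLinearGroup.scalar (Fin 2) π⁻¹) 0 1 =
        -g 1 0 * (π : K)⁻¹ := by
      rw [scalar_mul_apply, mul_01, mul_00, mul_01]
      simp only [wm_00, wm_01, wm_11, a10, a11, a00, a01]
      rw [Units.val_inv_eq_inv_val]; ring
    have e10 : (wm π * adjGL g * wm π * GeneralLinearGroup.scalar (Fin 2) π⁻¹) 1 0 =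
        -g 0 1 * (π : K) := by
      rw [scalar_mul_apply, mul_10, mul_10, mul_11]
      simp only [wm_00, wm_10, wm_11, a10, a11, a00, a01]
      rw [Units.val_inv_eq_inv_val]; field_simp; ring
    have e11 : (wm π * adjGL g * wm π * GeneralLinearGroup.scalar (Fin 2) π⁻¹) 1 1 = g 1 1 := by
      rw [scalar_mul_apply, mul_11, mul_10, mul_11]
      simp only [wm_01, wm_10, wm_11, a10, a11, a00, a01]
      rw [Units.val_inv_eq_inv_val]; field_simp; ring
    have hπi : v ((π : K)⁻¹) = WithZero.exp (1 : ℤ) := by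
      rw [map_inv₀, hπ, ← WithZero.exp_neg]; norm_num
    refine ⟨?_, ?_, ?_, ?_⟩
    · rw [e00, e11]; exact g1
    · rw [e01, e11, map_mul, Valuation.map_neg, hπi]
      -- `v (g 1 0) < v (g 1 1)` implies `v (g 1 0) ≤ exp (-1) * v (g 1 1)`
      have h1 : v (g 1 0) * (v (g 1 1))⁻¹ < 1 := by
        rw [← div_eq_mul_inv]
        exact (div_lt_one₀ hp).2 g3
      have h2 := lt_one_iff.1 h1
      have h3 : v (g 1 0) ≤ WithZero.exp (-1 : ℤ) * v (g 1 1) := by
        have := mul_le_mul_left h2 (v (g 1 1))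
        rwa [mul_assoc, inv_mul_cancel₀ hp.ne', mul_one] at this
      calc v (g 1 0) * WithZero.exp (1 : ℤ) ≤
          (WithZero.exp (-1 : ℤ) * v (g 1 1)) * WithZero.exp (1 : ℤ) := by gcongr
        _ = v (g 1 1) := by
          rw [mul_right_comm, ← WithZero.exp_add]; simp
    · rw [e10, e11, map_mul, Valuation.map_neg, hπ]
      calc v (g 0 1) * WithZero.exp (-1 : ℤ) ≤ v (g 1 1) * WithZero.exp (-1 : ℤ) := by gcongr
        _ < v (g 1 1) * 1 := by
          apply (mul_lt_mul_iff_right₀ hp).2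
          rw [← WithZero.exp_zero, WithZero.exp_lt_exp]; norm_num
        _ = v (g 1 1) := mul_one _
    · have : (GeneralLinearGroup.det (wm π * adjGL g * wm π *
          GeneralLinearGroup.scalar (Fin 2) π⁻¹) : K) = (GeneralLinearGroup.det g : K) := by
        rw [det_two, e00, e01, e10, e11, det_two]
        field_simp
      rw [this, e11, g4]

theorem W_conj_inv_mem_iff {π : Kˣ} (hπ : v (π : K) = WithZero.exp (-1 : ℤ)) {c : ℤᵐ⁰}
    {x : PGL(2, K)} : W π * x⁻¹ * W π ∈ cellU v c ↔ x ∈ cellU v c := by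
  refine ⟨fun h => ?_, W_conj_inv_mem hπ⟩
  have := W_conj_inv_mem hπ h
  have e : W π * (W π * x⁻¹ * W π)⁻¹ * W π = x := by
    simp only [_root_.mul_inv_rev, inv_inv, W_inv]
    rw [← mul_assoc, ← mul_assoc, W_mul_W, one_mul, mul_assoc, W_mul_W, mul_one]
  rwa [e] at this

theorem W_conj_Iw {π : Kˣ} (hπ : v (π : K) = WithZero.exp (-1 : ℤ)) {x : PGL(2, K)} :
    W π * x * W π ∈ Iw v ↔ x ∈ Iw v := by
  have h := W_conj_inv_mem_iff (v := v) hπ (c := 1) (x := x⁻¹)
  rw [inv_inv] at h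
  rw [cellU_one] at h
  simp only [SetLike.mem_coe, inv_mem_iff] at h
  exact h

/-! ### Kernels at Iwahori level -/

/-- The cells are finite unions of cosets. -/
theorem dc_cellU {π : Kˣ} (hπ : v (π : K) = WithZero.exp (-1 : ℤ)) {a : Kˣ} {m : ℕ}
    (ha : v (a : K) = WithZero.exp (-(m : ℤ))) {B : Finset K} (hB : IsReps v m B) :
    DC (Iw v) (cellU v (v (a : K))) := by
  have hR := isCosetReps_repsU ha hB
  refine ⟨cellU_left v, cellU_right v, ⟨_, hR.ex⟩,
    ⟨(repsU a B).image (fun r => W π * r * W π), fun g hg => ?_⟩⟩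
  obtain ⟨r, hr, hrg⟩ := hR.ex _ (W_conj_inv_mem hπ hg)
  refine ⟨_, Finset.mem_image.2 ⟨r, hr, rfl⟩, ?_⟩
  rw [← W_conj_Iw hπ]
  have e : W π * ((W π * r * W π)⁻¹ * g⁻¹) * W π = r⁻¹ * (W π * g⁻¹ * W π) := by
    simp only [_root_.mul_inv_rev, W_inv]
    simp only [mul_assoc]
    rw [W_mul_cancel_left]
  rw [e]
  exact hrg

/-- Existence of a uniformiser and of representatives for all powers. -/
structure Disc (v : Valuation K ℤᵐ⁰) : Prop where
  exists_pi : ∃ π : Kˣ, v (π : K) = WithZero.exp (-1 : ℤ)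
  exists_reps : ∀ m, ∃ B : Finset K, IsReps v m B

/-- A chosen uniformiser. -/
def Disc.pi (h : Disc v) : Kˣ := h.exists_pi.choose

theorem Disc.v_pi (h : Disc v) : v (h.pi : K) = WithZero.exp (-1 : ℤ) := h.exists_pi.choose_spec

/-- Chosen representatives modulo `π ^ m`. -/
def Disc.reps (h : Disc v) (m : ℕ) : Finset K := (h.exists_reps m).choose

theorem Disc.isReps (h : Disc v) (m : ℕ) : IsReps v m (h.reps m) := (h.exists_reps m).choose_spec

theorem Disc.dcT (h : Disc v) : DC (U0 v) (cellT v) :=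
  dc_cellT ⟨h.pi, h.reps 1, h.v_pi, h.isReps 1⟩

theorem Disc.dcU (h : Disc v) (m : ℕ) : DC (Iw v) (cellU v (WithZero.exp (-(m : ℤ)))) := by
  have ha : v ((h.pi ^ m : Kˣ) : K) = WithZero.exp (-(m : ℤ)) := by
    rw [Units.val_pow_eq_pow_val, map_pow, h.v_pi, ← WithZero.exp_nsmul]
    simp
  have := dc_cellU h.v_pi ha (h.isReps m)
  rwa [ha] at this

/-- The kernel of `U ^ m` (the double coset `Iw diag(π^m, 1) Iw`). -/
def Uker (h : Disc v) (m : ℕ) : LocKer (Iw v) := lind (cellU v (WithZero.exp (-(m : ℤ)))) (h.dcU m)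

theorem Uker_k (h : Disc v) (m : ℕ) (g g' : PGL(2, K)) :
    (Uker h m).k (g : PGL(2, K) ⧸ Iw v) (g' : PGL(2, K) ⧸ Iw v) =
      if g⁻¹ * g' ∈ cellU v (WithZero.exp (-(m : ℤ))) then 1 else 0 := rfl

theorem isCosetReps_cellU {a : Kˣ} {m : ℕ} (ha : v (a : K) = WithZero.exp (-(m : ℤ)))
    {B : Finset K} (hB : IsReps v m B) :
    IsCosetReps (Iw v) (cellU v (WithZero.exp (-(m : ℤ)))) (repsU a B) := by
  rw [← ha]
  exact isCosetReps_repsU ha hB

theorem Uker_zero (h : Disc v) : Uker h 0 = LocKer.one := by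
  have h1 : cellU v (WithZero.exp (-((0 : ℕ) : ℤ))) = (Iw v : Set PGL(2, K)) := by
    simp [cellU_one]
  have h2 : DC (Iw v) (Iw v : Set PGL(2, K)) := h1 ▸ h.dcU 0
  rw [← lind_one_eq h2]
  exact lind_congr _ _ h1

theorem Uker_mul (h : Disc v) (m n : ℕ) :
    LocKer.mul (Uker h m) (Uker h n) = Uker h (m + n) := by
  have ha : v ((h.pi ^ m : Kˣ) : K) = WithZero.exp (-(m : ℤ)) := by
    rw [Units.val_pow_eq_pow_val, map_pow, h.v_pi, ← WithZero.exp_nsmul]
    simp
  have hR := isCosetReps_cellU ha (h.isReps m)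
  have hmn : WithZero.exp (-(m : ℤ)) * WithZero.exp (-(n : ℤ)) =
      WithZero.exp (-((m + n : ℕ) : ℤ)) := by
    rw [← WithZero.exp_add]; congr 1; push_cast; ring
  ext x z
  induction x using QuotientGroup.induction_on with
  | H x =>
    induction z using QuotientGroup.induction_on with
    | H z =>
      rw [Uker, lmul_lind_k (h.dcU m) hR, Uker_k]
      have h1 : ∀ r ∈ repsU (h.pi ^ m) (h.reps m),
          (Uker h n).k ((x * r : PGL(2, K)) : PGL(2, K) ⧸ Iw v) (z : PGL(2, K) ⧸ Iw v) =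
            if r⁻¹ * (x⁻¹ * z) ∈ cellU v (WithZero.exp (-(n : ℤ))) then 1 else 0 := by
        intro r _
        rw [Uker_k]
        have : (x * r)⁻¹ * z = r⁻¹ * (x⁻¹ * z) := by group
        rw [this]
      rw [Finset.sum_congr rfl h1]
      set y := x⁻¹ * z with hy
      by_cases hmem : y ∈ cellU v (WithZero.exp (-((m + n : ℕ) : ℤ)))
      · rw [if_pos hmem]
        obtain ⟨g, hg, hcell⟩ := hmem
        rw [← hmn, ← ha] at hcell
        have hn1 : WithZero.exp (-(n : ℤ)) ≤ (1 : ℤᵐ⁰) := by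
          rw [← WithZero.exp_zero, WithZero.exp_le_exp]; omega
        obtain ⟨b, hb, hcb⟩ := exists_repsU' ha (h.isReps m) hn1 hcell
        rw [Finset.sum_eq_single (ProjGenLinGroup.mk (bm (h.pi ^ m) b))]
        · rw [if_pos]
          rw [← hg, ← map_inv, ← map_mul, mk_mem_cellU]
          exact hcb
        · intro r hr hne
          rw [if_neg]
          intro hmem'
          apply hne
          obtain ⟨b', hb', rfl⟩ := mem_repsU.1 hr
          rw [← hg, ← map_inv, ← map_mul, mk_mem_cellU] at hmem'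
          have h3 := unique_repsU' hmem' hcb
          rw [ha] at h3
          rw [(h.isReps m).inj b' hb' b hb h3]
        · intro hnot
          exact absurd (mem_repsU.2 ⟨b, hb, rfl⟩) hnot
      · rw [if_neg hmem]
        apply Finset.sum_eq_zero
        intro r hr
        rw [if_neg]
        intro hmem'
        apply hmem
        have := cellU_mul v (hR.mem r hr) hmem'
        rw [hmn] at this
        have e : r * (r⁻¹ * y) = y := by group
        rwa [e] at this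

/-- The kernel of the Atkin-Lehner involution. -/
theorem dc_W {π : Kˣ} (hπ : v (π : K) = WithZero.exp (-1 : ℤ)) :
    DC (Iw v) {x | W π * x ∈ Iw v} where
  left u hu g hg := by
    show W π * (u * g) ∈ Iw v
    have e : W π * (u * g) = (W π * u * W π) * (W π * g) := by
      rw [mul_assoc (W π * u), W_mul_cancel_left, mul_assoc]
    rw [e]
    exact (Iw v).mul_mem ((W_conj_Iw hπ).2 hu) hg
  right u hu g hg := by
    show W π * (g * u) ∈ Iw v
    rw [← mul_assoc]
    exact (Iw v).mul_mem hg hu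
  finR := ⟨{W π}, fun g hg => ⟨W π, by simp, by rw [W_inv]; exact hg⟩⟩
  finL := ⟨{W π}, fun g hg => ⟨W π, by simp, by
    rw [W_inv, ← W_conj_Iw hπ, W_mul_cancel_left, ← inv_mem_iff]
    have e : (g⁻¹ * W π)⁻¹ = W π * g := by simp
    rw [e]
    exact hg⟩⟩

theorem isCosetReps_W {π : Kˣ} : IsCosetReps (Iw v) {x | W π * x ∈ Iw v} {W π} where
  mem r hr := by
    rw [Finset.mem_singleton] at hr
    subst hr
    show W π * W π ∈ Iw v
    rw [W_mul_W]
    exact (Iw v).one_mem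
  ex g hg := ⟨W π, by simp, by rw [W_inv]; exact hg⟩
  inj r hr r' hr' _ := by
    rw [Finset.mem_singleton] at hr hr'
    rw [hr, hr']

/-- The kernel of the Atkin-Lehner involution. -/
def Wker {π : Kˣ} (hπ : v (π : K) = WithZero.exp (-1 : ℤ)) : LocKer (Iw v) := lind _ (dc_W hπ)

theorem Wker_k {π : Kˣ} (hπ : v (π : K) = WithZero.exp (-1 : ℤ)) (g g' : PGL(2, K)) :
    (Wker hπ).k (g : PGL(2, K) ⧸ Iw v) (g' : PGL(2, K) ⧸ Iw v) =
      if W π * (g⁻¹ * g') ∈ Iw v then 1 else 0 := rfl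

theorem ltr_Wker {π : Kˣ} (hπ : v (π : K) = WithZero.exp (-1 : ℤ)) :
    ltr (Wker hπ) = Wker hπ := by
  rw [Wker, ltr_lind]
  apply lind_congr
  ext x
  show W π * x⁻¹ ∈ Iw v ↔ W π * x ∈ Iw v
  rw [← W_conj_Iw hπ, W_mul_cancel_left, ← inv_mem_iff]
  simp

theorem lmul_Wker_k {π : Kˣ} (hπ : v (π : K) = WithZero.exp (-1 : ℤ)) (κ : LocKer (Iw v))
    (g g' : PGL(2, K)) :
    (LocKer.mul (Wker hπ) κ).k (g : PGL(2, K) ⧸ Iw v) (g' : PGL(2, K) ⧸ Iw v) =
      κ.k ((g * W π : PGL(2, K)) : PGL(2, K) ⧸ Iw v) (g' : PGL(2, K) ⧸ Iw v) := by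
  rw [Wker, lmul_lind_k _ isCosetReps_W, Finset.sum_singleton]

theorem Wker_sq {π : Kˣ} (hπ : v (π : K) = WithZero.exp (-1 : ℤ)) :
    LocKer.mul (Wker hπ) (Wker hπ) = LocKer.one := by
  ext x z
  induction x using QuotientGroup.induction_on with
  | H x =>
    induction z using QuotientGroup.induction_on with
    | H z =>
      rw [lmul_Wker_k, Wker_k, LocKer.one_k]
      have e : W π * ((x * W π)⁻¹ * z) = x⁻¹ * z := by
        rw [_root_.mul_inv_rev, W_inv, mul_assoc, W_mul_cancel_left]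
      rw [e]
      simp only [QuotientGroup.eq]

theorem le_exp_of_lt {x y : ℤᵐ⁰} (hy : 0 < y) (h : x < y) : x ≤ WithZero.exp (-1 : ℤ) * y := by
  have h1 : x * y⁻¹ < 1 := by
    rw [← div_eq_mul_inv]
    exact (div_lt_one₀ hy).2 h
  have h2 := mul_le_mul_left (lt_one_iff.1 h1) y
  rwa [mul_assoc, inv_mul_cancel₀ hy.ne', mul_one] at h2

/-- `U0 = Iw ⊔ (cellU π) W`. -/
theorem mem_U0_iff {π : Kˣ} (hπ : v (π : K) = WithZero.exp (-1 : ℤ)) {x : PGL(2, K)} :
    x ∈ U0 v ↔ x ∈ Iw v ∨ x * W π ∈ cellU v (WithZero.exp (-1 : ℤ)) := by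
  have hlt : v (π : K) < 1 := by
    rw [hπ, ← WithZero.exp_zero, WithZero.exp_lt_exp]; norm_num
  have hπ0 : (π : K) ≠ 0 := π.ne_zero
  have hdw : (GeneralLinearGroup.det (wm π) : K) = -π := by
    rw [det_two]; simp
  constructor
  · rintro ⟨g, ⟨hg, hd⟩, rfl⟩
    by_cases h10 : v (g 1 0) < 1
    · left
      rw [mk_mem_Iw]
      have h1 : v (g 0 0 * g 1 1) = 1 := by
        have e : g 0 0 * g 1 1 = (GeneralLinearGroup.det g : K) + g 0 1 * g 1 0 := by
          rw [det_two]; ring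
        rw [e, v.map_add_eq_of_lt_left, hd]
        rw [hd, map_mul]
        calc v (g 0 1) * v (g 1 0) ≤ 1 * v (g 1 0) := by gcongr; exact hg 0 1
          _ < 1 := by rwa [one_mul]
      have h11 : v (g 1 1) = 1 := by
        refine le_antisymm (hg 1 1) ?_
        rw [← h1, map_mul]
        calc v (g 0 0) * v (g 1 1) ≤ 1 * v (g 1 1) := by gcongr; exact hg 0 0
          _ = v (g 1 1) := one_mul _
      refine ⟨?_, ?_, ?_, ?_⟩
      · rw [h11]; exact hg 0 0
      · rw [h11]; exact hg 0 1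
      · rw [h11]; exact h10
      · rw [h11, hd]; simp
    · right
      have h10' : v (g 1 0) = 1 := le_antisymm (hg 1 0) (not_lt.1 h10)
      rw [W, ← map_mul, mk_mem_cellU]
      have e00 : (g * wm π) 0 0 = g 0 1 * π := by rw [mul_00]; simp
      have e01 : (g * wm π) 0 1 = g 0 0 := by rw [mul_01]; simp
      have e10 : (g * wm π) 1 0 = g 1 1 * π := by rw [mul_10]; simp
      have e11 : (g * wm π) 1 1 = g 1 0 := by rw [mul_11]; simp
      refine ⟨?_, ?_, ?_, ?_⟩
      · rw [e00, e11, h10', map_mul]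
        exact mul_le_one' (hg 0 1) hlt.le
      · rw [e01, e11, h10']; exact hg 0 0
      · rw [e10, e11, h10', map_mul]
        calc v (g 1 1) * v (π : K) ≤ 1 * v (π : K) := by gcongr; exact hg 1 1
          _ < 1 := by rwa [one_mul]
      · rw [e11, h10', map_mul, Units.val_mul, map_mul, hd, hdw, Valuation.map_neg, hπ]; simp
  · rintro (h | h)
    · obtain ⟨g, rfl, g1, g2, g3, g4⟩ := h
      have hp : 0 < v (g 1 1) := lt_of_le_of_lt zero_le g3
      have hne : g 1 1 ≠ 0 := (v.ne_zero_iff).1 hp.ne'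
      rw [mk_mem_U0]
      refine ⟨(Units.mk0 _ hne)⁻¹, fun i j => ?_, ?_⟩
      · rw [scalar_mul_apply, map_mul, Units.val_inv_eq_inv_val, map_inv₀, Units.val_mk0,
          ← div_eq_mul_inv]
        refine (div_le_one₀ hp).2 ?_
        fin_cases i <;> fin_cases j
        · exact g1
        · exact g2
        · exact g3.le
        · exact le_rfl
      · rw [det_mul_scalar, map_mul, g4, Units.val_inv_eq_inv_val, map_pow, map_inv₀,
          Units.val_mk0, one_mul, inv_pow, mul_inv_cancel₀ (pow_ne_zero 2 hp.ne')]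
    · obtain ⟨g, hg, g1, g2, g3, g4⟩ := h
      have hx : x = ProjGenLinGroup.mk (g * wm π) := by
        rw [map_mul, hg, ← W, W_mul_cancel_right]
      have hp : 0 < v (g 1 1) := lt_of_le_of_lt zero_le g3
      have hne : g 1 1 ≠ 0 := (v.ne_zero_iff).1 hp.ne'
      have g10 : v (g 1 0) ≤ WithZero.exp (-1 : ℤ) * v (g 1 1) := le_exp_of_lt hp g3
      have g00 : v (g 0 0) ≤ WithZero.exp (-1 : ℤ) * v (g 1 1) := by
        have h5 : v (g 0 0 * g 1 1) ≤ (WithZero.exp (-1 : ℤ) * v (g 1 1)) * v (g 1 1) := by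
          have e : g 0 0 * g 1 1 = (GeneralLinearGroup.det g : K) + g 0 1 * g 1 0 := by
            rw [det_two]; ring
          rw [e]
          refine (v.map_add _ _).trans (max_le ?_ ?_)
          · rw [g4, pow_two, mul_assoc]
          · rw [map_mul, mul_comm (v (g 0 1))]
            exact mul_le_mul' g10 g2
        rw [map_mul] at h5
        exact (mul_le_mul_iff_left₀ hp).1 h5
      have e00 : (g * wm π) 0 0 = g 0 1 * π := by rw [mul_00]; simp
      have e01 : (g * wm π) 0 1 = g 0 0 := by rw [mul_01]; simp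
      have e10 : (g * wm π) 1 0 = g 1 1 * π := by rw [mul_10]; simp
      have e11 : (g * wm π) 1 1 = g 1 0 := by rw [mul_11]; simp
      have hpp : 0 < v (g 1 1) * v (π : K) := mul_pos hp (by rw [hπ]; exact WithZero.exp_pos)
      have hdh : v (GeneralLinearGroup.det (g * wm π) : K) =
          WithZero.exp (-1 : ℤ) * v (g 1 1) ^ 2 * WithZero.exp (-1 : ℤ) := by
        rw [map_mul, Units.val_mul, map_mul, g4, hdw, Valuation.map_neg, hπ]
      rw [hx, mk_mem_U0]
      generalize g * wm π = h at e00 e01 e10 e11 hdh ⊢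
      refine ⟨(Units.mk0 _ hne * π)⁻¹, fun i j => ?_, ?_⟩
      · rw [scalar_mul_apply, map_mul, Units.val_inv_eq_inv_val, map_inv₀, Units.val_mul,
          map_mul, Units.val_mk0, ← div_eq_mul_inv]
        refine (div_le_one₀ hpp).2 ?_
        fin_cases i <;> fin_cases j
        · change v (h 0 0) ≤ _
          rw [e00, map_mul]
          exact mul_le_mul' g2 le_rfl
        · change v (h 0 1) ≤ _
          rw [e01, hπ, mul_comm]; exact g00
        · change v (h 1 0) ≤ _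
          rw [e10, map_mul]
        · change v (h 1 1) ≤ _
          rw [e11, hπ, mul_comm]; exact g10
      · rw [det_mul_scalar, map_mul, hdh, Units.val_inv_eq_inv_val, map_pow, map_inv₀,
          Units.val_mul, map_mul, Units.val_mk0, hπ]
        have hz : (WithZero.exp (-1 : ℤ) : ℤᵐ⁰) ≠ 0 := WithZero.exp_ne_zero
        have hq : v (g 1 1) * WithZero.exp (-1 : ℤ) ≠ 0 := mul_ne_zero hp.ne' hz
        have e : WithZero.exp (-1 : ℤ) * v (g 1 1) ^ 2 * WithZero.exp (-1 : ℤ) =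
            (v (g 1 1) * WithZero.exp (-1 : ℤ)) ^ 2 := by
          rw [mul_pow, pow_two (WithZero.exp (-1 : ℤ))]; ac_rfl
        rw [e, inv_pow]
        exact mul_inv_cancel₀ (pow_ne_zero 2 hq)

/-- The two cases of `mem_U0_iff` exclude each other. -/
theorem not_mem_both {π : Kˣ} (_hπ : v (π : K) = WithZero.exp (-1 : ℤ)) {x : PGL(2, K)}
    (h1 : x ∈ Iw v) (h2 : x * W π ∈ cellU v (WithZero.exp (-1 : ℤ))) : False := by
  obtain ⟨g, rfl, g1, g2, g3, g4⟩ := h1
  rw [W, ← map_mul, mk_mem_cellU] at h2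
  have e01 : (g * wm π) 0 1 = g 0 0 := by rw [mul_01]; simp
  have e11 : (g * wm π) 1 1 = g 1 0 := by rw [mul_11]; simp
  have h3 := h2.2.1
  rw [e01, e11] at h3
  -- `v (g 0 0) = v (g 1 1)`
  have hp : 0 < v (g 1 1) := lt_of_le_of_lt zero_le g3
  have h5 : v (GeneralLinearGroup.det g : K) < v (g 1 1) ^ 2 := by
    rw [det_two]
    refine v.map_sub_lt ?_ ?_
    · rw [map_mul, pow_two]
      exact (mul_lt_mul_iff_left₀ hp).2 (lt_of_le_of_lt h3 g3)
    · rw [map_mul, pow_two]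
      calc v (g 0 1) * v (g 1 0) ≤ v (g 1 1) * v (g 1 0) := by gcongr
        _ < v (g 1 1) * v (g 1 1) := (mul_lt_mul_iff_right₀ hp).2 g3
  rw [g4, one_mul] at h5
  exact lt_irrefl _ h5

/-- Representatives of `U0 / Iw`. -/
def repsP (π : Kˣ) (B : Finset K) : Finset PGL(2, K) :=
  insert 1 ((repsU π B).image (fun r => r * W π))

theorem Iw_le_U0 {π : Kˣ} (hπ : v (π : K) = WithZero.exp (-1 : ℤ)) : Iw v ≤ U0 v :=
  fun _ h => (mem_U0_iff hπ).2 (Or.inl h)

theorem isCosetReps_P {π : Kˣ} (hπ : v (π : K) = WithZero.exp (-1 : ℤ)) {B : Finset K}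
    (hB : IsReps v 1 B) : IsCosetReps (Iw v) (U0 v : Set PGL(2, K)) (repsP π B) := by
  have hπ' : v (π : K) = WithZero.exp (-((1 : ℕ) : ℤ)) := by rw [hπ]; simp
  have hR := isCosetReps_cellU hπ' hB
  have h1 : (WithZero.exp (-((1 : ℕ) : ℤ)) : ℤᵐ⁰) = WithZero.exp (-1 : ℤ) := by simp
  rw [h1] at hR
  refine ⟨?_, ?_, ?_⟩
  · intro r hr
    rw [repsP, Finset.mem_insert, Finset.mem_image] at hr
    rcases hr with rfl | ⟨r, hr, rfl⟩
    · exact (U0 v).one_mem
    · exact (mem_U0_iff hπ).2 (Or.inr (by rw [W_mul_cancel_right]; exact hR.mem r hr))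
  · intro x hx
    rcases (mem_U0_iff hπ).1 hx with h | h
    · exact ⟨1, by simp [repsP], by simpa using h⟩
    · obtain ⟨r, hr, hrx⟩ := hR.ex _ h
      refine ⟨r * W π, by
        rw [repsP, Finset.mem_insert, Finset.mem_image]; exact Or.inr ⟨r, hr, rfl⟩, ?_⟩
      rw [← W_conj_Iw hπ]
      have e : W π * ((r * W π)⁻¹ * x) * W π = r⁻¹ * (x * W π) := by
        rw [_root_.mul_inv_rev, W_inv, mul_assoc (W π) r⁻¹ x, W_mul_cancel_left, mul_assoc]
      rw [e]
      exact hrx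
  · intro r hr r' hr' hrr
    rw [repsP, Finset.mem_insert, Finset.mem_image] at hr hr'
    rcases hr with rfl | ⟨r, hr, rfl⟩ <;> rcases hr' with rfl | ⟨r', hr', rfl⟩
    · rfl
    · exfalso
      rw [inv_one, one_mul] at hrr
      exact not_mem_both hπ hrr (by rw [W_mul_cancel_right]; exact hR.mem r' hr')
    · exfalso
      rw [mul_one, inv_mem_iff] at hrr
      exact not_mem_both hπ hrr (by rw [W_mul_cancel_right]; exact hR.mem r hr)
    · rw [← W_conj_Iw hπ] at hrr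
      have e : W π * ((r * W π)⁻¹ * (r' * W π)) * W π = r⁻¹ * r' := by
        rw [_root_.mul_inv_rev, W_inv, mul_assoc (W π) r⁻¹, W_mul_cancel_left, mul_assoc,
          mul_assoc, W_mul_W, mul_one]
      rw [e] at hrr
      rw [hR.inj r hr r' hr' hrr]

theorem card_repsP {π : Kˣ} (hπ : v (π : K) = WithZero.exp (-1 : ℤ)) {B : Finset K}
    (hB : IsReps v 1 B) : (repsP π B).card = B.card + 1 := by
  have hπ' : v (π : K) = WithZero.exp (-((1 : ℕ) : ℤ)) := by rw [hπ]; simp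
  have hR := isCosetReps_cellU hπ' hB
  have h1 : (WithZero.exp (-((1 : ℕ) : ℤ)) : ℤᵐ⁰) = WithZero.exp (-1 : ℤ) := by simp
  rw [h1] at hR
  rw [repsP, Finset.card_insert_of_notMem, Finset.card_image_of_injective, card_repsU hπ' hB]
  · intro x y h
    exact mul_right_cancel h
  · intro h
    obtain ⟨r, hr, hr1⟩ := Finset.mem_image.1 h
    refine not_mem_both hπ (Iw v).one_mem ?_
    rw [← hr1, W_mul_cancel_right]
    exact hR.mem r hr

theorem dc_P {π : Kˣ} (hπ : v (π : K) = WithZero.exp (-1 : ℤ)) {B : Finset K}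
    (hB : IsReps v 1 B) : DC (Iw v) (U0 v : Set PGL(2, K)) := by
  have hR := isCosetReps_P hπ hB
  exact ⟨fun u hu g hg => (U0 v).mul_mem (Iw_le_U0 hπ hu) hg,
    fun u hu g hg => (U0 v).mul_mem hg (Iw_le_U0 hπ hu), ⟨_, hR.ex⟩,
    ⟨_, fun g hg => hR.ex _ ((U0 v).inv_mem hg)⟩⟩

theorem Disc.dcP (h : Disc v) : DC (Iw v) (U0 v : Set PGL(2, K)) := dc_P h.v_pi (h.isReps 1)

/-- The kernel of the sum over `U0 / Iw`. -/
def Pker (h : Disc v) : LocKer (Iw v) := lind _ h.dcP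

theorem Pker_k (h : Disc v) (g g' : PGL(2, K)) :
    (Pker h).k (g : PGL(2, K) ⧸ Iw v) (g' : PGL(2, K) ⧸ Iw v) =
      if g⁻¹ * g' ∈ U0 v then 1 else 0 := rfl

theorem ltr_Pker (h : Disc v) : ltr (Pker h) = Pker h := by
  rw [Pker, ltr_lind]
  apply lind_congr
  ext x
  show x⁻¹ ∈ U0 v ↔ x ∈ U0 v
  exact inv_mem_iff

theorem Pker_sq (h : Disc v) :
    LocKer.mul (Pker h) (Pker h) = lsmul ((h.reps 1).card + 1) (Pker h) := by
  have hR := isCosetReps_P h.v_pi (h.isReps 1)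
  ext x z
  induction x using QuotientGroup.induction_on with
  | H x =>
    induction z using QuotientGroup.induction_on with
    | H z =>
      rw [Pker, lmul_lind_k _ hR, lsmul_k]
      have h1 : ∀ r ∈ repsP h.pi (h.reps 1),
          (lind _ h.dcP).k ((x * r : PGL(2, K)) : PGL(2, K) ⧸ Iw v)
            (z : PGL(2, K) ⧸ Iw v) =
          (lind _ h.dcP).k (x : PGL(2, K) ⧸ Iw v) (z : PGL(2, K) ⧸ Iw v) := by
        intro r hr
        rw [lind_k, lind_k]
        have hr' : r ∈ U0 v := hR.mem r hr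
        have e : (x * r)⁻¹ * z = r⁻¹ * (x⁻¹ * z) := by group
        rw [e]
        simp only [SetLike.mem_coe]
        rw [(U0 v).mul_mem_cancel_left ((U0 v).inv_mem hr')]
      rw [Finset.sum_congr rfl h1, Finset.sum_const, card_repsP h.v_pi (h.isReps 1), nsmul_eq_mul]
      push_cast
      rfl

/-- `U W = P - 1` as kernels, in the form `P = 1 + U W`. -/
theorem Pker_eq (h : Disc v) :
    Pker h = ladd LocKer.one (LocKer.mul (Uker h 1) (Wker h.v_pi)) := by
  have e1 : (WithZero.exp (-((1 : ℕ) : ℤ)) : ℤᵐ⁰) = WithZero.exp (-1 : ℤ) := by simp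
  ext x z
  induction x using QuotientGroup.induction_on with
  | H x =>
    induction z using QuotientGroup.induction_on with
    | H z =>
      rw [ladd_k, Pker_k, LocKer.one_k]
      -- evaluate the product on the transposed side
      have h2 : (LocKer.mul (Uker h 1) (Wker h.v_pi)).k (x : PGL(2, K) ⧸ Iw v)
          (z : PGL(2, K) ⧸ Iw v) =
          (Uker h 1).k (x : PGL(2, K) ⧸ Iw v) ((z * W h.pi : PGL(2, K)) : PGL(2, K) ⧸ Iw v) := by
        have h3 : (LocKer.mul (Uker h 1) (Wker h.v_pi)).k (x : PGL(2, K) ⧸ Iw v)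
            (z : PGL(2, K) ⧸ Iw v) =
            (ltr (LocKer.mul (Uker h 1) (Wker h.v_pi))).k (z : PGL(2, K) ⧸ Iw v)
              (x : PGL(2, K) ⧸ Iw v) := rfl
        rw [h3, ltr_mul, ltr_Wker, lmul_Wker_k]
        rfl
      rw [h2, Uker_k, e1]
      have e : x⁻¹ * (z * W h.pi) = (x⁻¹ * z) * W h.pi := by group
      rw [e]
      simp only [QuotientGroup.eq]
      set y := x⁻¹ * z with hy
      by_cases hyI : y ∈ Iw v
      · have hyU : y ∈ U0 v := Iw_le_U0 h.v_pi hyI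
        have hn : y * W h.pi ∉ cellU v (WithZero.exp (-1 : ℤ)) :=
          fun hh => not_mem_both h.v_pi hyI hh
        rw [if_pos hyU, if_pos hyI, if_neg hn, add_zero]
      · by_cases hyC : y * W h.pi ∈ cellU v (WithZero.exp (-1 : ℤ))
        · rw [if_pos ((mem_U0_iff h.v_pi).2 (Or.inr hyC)), if_neg hyI, if_pos hyC, zero_add]
        · have hn : y ∉ U0 v := fun hh => by
            rcases (mem_U0_iff h.v_pi).1 hh with h4 | h4
            · exact hyI h4
            · exact hyC h4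
          rw [if_neg hn, if_neg hyI, if_neg hyC, add_zero]

end Fermat.Agent.H51Z
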