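import Fermat.Agent.H76U2
import Fermat.Agent.H7ZMod
import Fermat.Agent.H9ZRad

/-!
# S47, block (D): the interface I-DC (helper55)

`IsDForm m S Ty a Φ`: `Φ` is a non zero `PGL₂(E)`-invariant function on `X(E) = (J → ℍ³) × X_f`,
typed at the places of `S`, eigenfunction of the Hecke operators `T_w`, `w ∉ S`, with eigenvalues
`(N w)^(1/2) a_w`, eigenfunction of all radial kernels with the eigenvalues of the trivial spectral
parameter, and of moderate growth, `O(ht ^ A)`, on every set `y_j ≥ c`.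

`DOut E S a`: for all deep types at the places of `S` such a function exists.
-/

set_option autoImplicit false
set_option linter.unusedSectionVars false

open IsDedekindDomain HeightOneSpectrum WithZero NumberField Matrix
open scoped MatrixGroups

noncomputable section

namespace Fermat.Agent.H55D

open Fermat.Agent.H59XF Fermat.Agent.H59D Fermat.Agent.H76U

section Types

variable {E : Type*} [Field E] [NumberField E]

/-- Type data at the place `w` for the standard local character `psi w`: `A` is contained in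
`w ^ k`, contains `w ^ n`, and `C` is contained in `w ^ (2 n + c₀)`. -/
structure Adm (w : HeightOneSpectrum (𝓞 E)) (T : TD E) (k c₀ : ℕ) : Prop where
  psi : ∀ x, T.psi x = Fermat.Agent.H7.Z.psi w x
  deep : ∀ a ∈ T.A, w.valuation E a ≤ exp (-(k : ℤ))
  lev : ∃ n : ℕ, (∀ a : E, w.valuation E a ≤ exp (-(n : ℤ)) → a ∈ T.A) ∧
    ∀ c ∈ T.C, w.valuation E c ≤ exp (-((2 * n + c₀ : ℕ) : ℤ))

end Types

section Form

variable {E : Type*} [Field E] [NumberField E] {J : Type*} [Fintype J]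

open Classical in
/-- The conditions on the function `Φ` delivered by block (D). -/
structure IsDForm (m : Model E J) (S : Finset (HeightOneSpectrum (𝓞 E)))
    (Ty : ∀ w : HeightOneSpectrum (𝓞 E), Typ (m.L.fam.U w)) (a : HeightOneSpectrum (𝓞 E) → ℝ)
    (Φ : m.X → ℂ) : Prop where
  /-- invariance -/
  inv : ∀ (g : PGL(2, E)) (x : m.X), Φ (g • x) = Φ x
  /-- continuity in the variables at infinity -/
  cont : ∀ y : XF m.L.fam, Continuous fun τ : J → H3 => Φ (τ, y)
  /-- growth at the cusps -/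
  growth : ∀ y : XF m.L.fam, ∃ A : ℝ, ∀ c : ℝ, 0 < c → ∃ M : ℝ, ∀ τ : J → H3,
    (∀ j, c ≤ (τ j).y) → ‖Φ (τ, y)‖ ≤ M * (∏ j, (τ j).y) ^ A
  /-- radial kernels -/
  rad : ∀ κ : (J → ℝ) → ℂ, H9Z.Ker κ → ∀ (y : XF m.L.fam) (τ : J → H3),
    H5Z.Rk κ (fun v => Φ (v, y)) τ = H9Z.hat κ * Φ (τ, y)
  /-- Hecke operators -/
  hecke : ∀ w ∉ S, ∀ (ϖ : Eˣ), w.valuation E (ϖ : E) = exp (-(1 : ℤ)) →
    ∀ R : Finset E, H51Z.IsReps (w.valuation E) 1 R → ∀ τ : J → H3,
      Fermat.Agent.H7.Z.HeckeEq (Fermat.Agent.H7.Z.borP E) m.L.fam (fun y => Φ (τ, y)) w ϖ R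
        ((Real.sqrt (Ideal.absNorm w.asIdeal) * a w : ℝ) : ℂ)
  /-- types -/
  typ : ∀ w ∈ S, ∀ (h : (Ty w).H) (τ : J → H3) (y : XF m.L.fam),
    Φ (τ, XF.upd y w ((Ty w).rt h (y w))) = (Ty w).chi h * Φ (τ, y)
  /-- non vanishing -/
  ne : ∃ x, Φ x ≠ 0

end Form

/-- **I-DC**: the output of block (D). -/
def DOut (E : Type) [Field E] [NumberField E] (S : Finset (HeightOneSpectrum (𝓞 E)))
    (a : HeightOneSpectrum (𝓞 E) → ℝ) : Prop :=
  ∃ k c₀ : ℕ, ∀ (J : Type) [Fintype J] (m : Model E J)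
    (T : HeightOneSpectrum (𝓞 E) → TD E) (Ty : ∀ w, Typ (m.L.fam.U w)),
    (∀ w ∈ S, Adm w (T w) k c₀) → (∀ w ∈ S, (Ty w).H = (T w).H) →
    (∀ w ∈ S, ∀ g ∈ (T w).H, (Ty w).chi g = (T w).chi g) → (∀ w ∉ S, m.L.U w = U0 w) →
    ∃ Φ : m.X → ℂ, IsDForm m S Ty a Φ

end Fermat.Agent.H55D
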