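import Fermat.Agent.H67M4
import Fermat.Agent.H56ZChar

/-!
# Matching at infinity (helper67), part 5: the map `bF` on radial kernels

`bF κ` for `κ` in helper56's class `IsRC` on `Fin 3 → ℝ` is in `IsRC` on `Fin 1 → ℝ`, and
* `bF_conv : bF (conv κ κ') = conv (bF κ) (bF κ')`
* `bF_tens : bF (k₁ ⊗ k₂ ⊗ k₃) = conv k₁ (conv k₂ k₃)`.
-/

set_option autoImplicit false
set_option linter.unusedSectionVars false

noncomputable section

open MeasureTheory Set Matrix

namespace Fermat.Agent.H67M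

open Fermat.Agent Fermat.Agent.H3 Fermat.Agent.H5Z Fermat.Agent.H56Z

/-- **The base change map on radial kernels**, `Fin 3` to `Fin 1`. -/
def bF (κ : (Fin 3 → ℝ) → ℂ) : (Fin 1 → ℝ) → ℂ := fun t => bkr κ (t 0)

theorem adm_of_isRC {J : Type*} {κ : (J → ℝ) → ℂ} [Countable J] [Fintype J] (h : IsRC κ) :
    ∃ C T : ℝ, 1 ≤ T ∧ 0 ≤ C ∧ Adm κ C T := by
  obtain ⟨R, M, hR1, hM0, hM, hR⟩ := h.exists_bounds
  exact ⟨M, R, hR1, hM0, h.cont.measurable, hM, hR⟩

/-- integrand of `bk` on the product -/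
def bkI (κ : (Fin 3 → ℝ) → ℂ) (x y : H3) (p : H3 × H3) : ℂ := κ ![ch x p.1, ch p.1 p.2, ch p.2 y]

theorem measurable_bkI {κ : (Fin 3 → ℝ) → ℂ} (hκ : Measurable κ) (x y : H3) :
    Measurable (bkI κ x y) := by
  refine hκ.comp (measurable_pi_lambda _ fun j => ?_)
  fin_cases j
  · exact measurable_ch_comp measurable_const measurable_fst
  · exact measurable_ch_comp measurable_fst measurable_snd
  · exact measurable_ch_comp measurable_snd measurable_const

theorem bkI_bound {κ : (Fin 3 → ℝ) → ℂ} {C T : ℝ} (h : Adm κ C T) (x y : H3) (p : H3 × H3) :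
    ‖bkI κ x y p‖ₑ ≤ ENNReal.ofReal C * (Bt T x p.1 * Bt T p.1 p.2) :=
  enorm_le_of_supp h.bdd h.supp _ _ _ _ _ rfl rfl

theorem measurable_Bt2 (T : ℝ) (x : H3) :
    Measurable fun p : H3 × H3 => Bt T x p.1 * Bt T p.1 p.2 :=
  (measurable_Bt_comp T measurable_const measurable_fst).mul
    (measurable_Bt_comp T measurable_fst measurable_snd)

theorem measurable_Bt_right (T : ℝ) (a : H3) : Measurable fun b : H3 => Bt T a b :=
  measurable_Bt_comp T measurable_const measurable_id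

theorem lintegral_Bt2_le (T : ℝ) (x : H3) :
    ∫⁻ p : H3 × H3, Bt T x p.1 * Bt T p.1 p.2 ≤
      ENNReal.ofReal (Vol T) * ENNReal.ofReal (Vol T) := by
  rw [Measure.volume_eq_prod, lintegral_prod _ (measurable_Bt2 T x).aemeasurable]
  have h1 : ∀ a : H3, ∫⁻ b : H3, Bt T x a * Bt T a b ≤ Bt T x a * ENNReal.ofReal (Vol T) := by
    intro a
    rw [lintegral_const_mul _ (measurable_Bt_right T a)]
    gcongr
    have := lintegral_Bt_le T a 1
    simpa only [one_smul] using this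
  refine (lintegral_mono h1).trans ?_
  rw [lintegral_mul_const _ (measurable_Bt_right T x)]
  gcongr
  have := lintegral_Bt_le T x 1
  simpa only [one_smul] using this

theorem lintegral_bkI_le {κ : (Fin 3 → ℝ) → ℂ} {C T : ℝ} (h : Adm κ C T) (x y : H3) :
    ∫⁻ p, ‖bkI κ x y p‖ₑ ≤
      ENNReal.ofReal C * (ENNReal.ofReal (Vol T) * ENNReal.ofReal (Vol T)) := by
  refine (lintegral_mono (bkI_bound h x y)).trans ?_
  rw [lintegral_const_mul _ (measurable_Bt2 T x)]
  gcongr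
  exact lintegral_Bt2_le T x

theorem integrable_bkI {κ : (Fin 3 → ℝ) → ℂ} {C T : ℝ} (h : Adm κ C T) (x y : H3) :
    Integrable (bkI κ x y) :=
  ⟨(measurable_bkI h.meas x y).aestronglyMeasurable, (lintegral_bkI_le h x y).trans_lt
    (ENNReal.mul_lt_top ENNReal.ofReal_lt_top
      (ENNReal.mul_lt_top ENNReal.ofReal_lt_top ENNReal.ofReal_lt_top))⟩

theorem bk_eq_integral {κ : (Fin 3 → ℝ) → ℂ} {C T : ℝ} (h : Adm κ C T) (x y : H3) :
    bk κ x y = ∫ p, bkI κ x y p := by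
  have h1 := integrable_bkI h x y
  rw [Measure.volume_eq_prod] at h1 ⊢
  rw [integral_prod _ h1]
  rfl

theorem norm_bk_le {κ : (Fin 3 → ℝ) → ℂ} {C T : ℝ} (h : Adm κ C T) (x y : H3) :
    ‖bk κ x y‖ ≤ C * (Vol T * Vol T) := by
  have hC : 0 ≤ C := (norm_nonneg _).trans (h.bdd 0)
  have hV := Vol_nonneg T
  rw [bk_eq_integral h x y]
  refine (norm_integral_le_lintegral_norm _).trans ?_
  refine ENNReal.toReal_le_of_le_ofReal (by positivity) ?_
  rw [ENNReal.ofReal_mul hC, ENNReal.ofReal_mul hV]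
  refine le_trans (le_of_eq ?_) (lintegral_bkI_le h x y)
  refine lintegral_congr fun p => ?_
  rw [ofReal_norm]

/-- continuity of `bk κ` in the second variable -/
theorem continuous_bk {κ : (Fin 3 → ℝ) → ℂ} (hκ : IsRC κ) (x : H3) {X : Type*}
    [TopologicalSpace X] [FirstCountableTopology X] {Y : X → H3} (hY : Continuous Y) :
    Continuous fun c => bk κ x (Y c) := by
  obtain ⟨C, T, -, hC, h⟩ := adm_of_isRC hκ
  have e : (fun c => bk κ x (Y c)) = fun c => ∫ p, bkI κ x (Y c) p :=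
    funext fun c => bk_eq_integral h x (Y c)
  rw [e]
  set B : H3 × H3 → ℝ := fun p => C * (Bt T x p.1 * Bt T p.1 p.2).toReal with hB
  have hle1 : ∀ p : H3 × H3, Bt T x p.1 * Bt T p.1 p.2 ≤ 1 := fun p =>
    mul_le_one' (Bt_le_one _ _ _) (Bt_le_one _ _ _)
  have hBi : Integrable B := by
    refine Integrable.const_mul ?_ C
    refine integrable_toReal_of_lintegral_ne_top (measurable_Bt2 T x).aemeasurable ?_
    exact ((lintegral_Bt2_le T x).trans_lt
      (ENNReal.mul_lt_top ENNReal.ofReal_lt_top ENNReal.ofReal_lt_top)).ne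
  refine continuous_of_dominated (bound := B) (fun c =>
    (measurable_bkI h.meas x (Y c)).aestronglyMeasurable) (fun c => ?_) hBi ?_
  · refine Filter.Eventually.of_forall fun p => ?_
    have h1 := bkI_bound h x (Y c) p
    have h2 : ‖bkI κ x (Y c) p‖ = (‖bkI κ x (Y c) p‖ₑ).toReal := (toReal_enorm _).symm
    rw [h2, hB]
    simp only
    have h3 := ENNReal.toReal_mono (ENNReal.mul_ne_top ENNReal.ofReal_ne_top
      ((hle1 p).trans_lt ENNReal.one_lt_top).ne) h1
    rwa [ENNReal.toReal_mul, ENNReal.toReal_ofReal hC] at h3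
  · refine Filter.Eventually.of_forall fun p => ?_
    refine hκ.cont.comp (continuous_pi fun j => ?_)
    fin_cases j
    · exact continuous_const
    · exact continuous_const
    · exact continuous_ch.comp (continuous_const.prodMk hY)

theorem continuous_bkr {κ : (Fin 3 → ℝ) → ℂ} (hκ : IsRC κ) : Continuous (bkr κ) := by
  refine continuous_bk hκ base (Y := fun c : ℝ => ⟨(√(2 * (c - 1)) : ℝ), 1, one_pos⟩) ?_
  refine continuous_mk ?_ continuous_const
  exact Complex.continuous_ofReal.comp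
    (Real.continuous_sqrt.comp (continuous_const.mul (continuous_id.sub continuous_const)))

/-- `bF` preserves the class of radial kernels. -/
theorem isRC_bF {κ : (Fin 3 → ℝ) → ℂ} (hκ : IsRC κ) : IsRC (bF κ) := by
  obtain ⟨C, T, hT, hC, h⟩ := adm_of_isRC hκ
  refine ⟨(continuous_bkr hκ).comp (continuous_apply 0), ⟨C * (Vol T * Vol T), fun t => ?_⟩,
    ⟨4 * T ^ 3, fun t ht => ?_⟩⟩
  · exact norm_bk_le h _ _
  · obtain ⟨j, hj⟩ := ht
    have hj0 : j = 0 := Subsingleton.elim _ _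
    rw [hj0] at hj
    exact bkr_eq_zero h.supp hT hj

theorem bF_max (κ : (Fin 3 → ℝ) → ℂ) (t : Fin 1 → ℝ) : bF κ (fun j => max (t j) 1) = bF κ t :=
  bkr_max κ (t 0)

theorem bF_chv (κ : (Fin 3 → ℝ) → ℂ) (w w' : Fin 1 → H3) :
    bF κ (chv w w') = bk κ (w 0) (w' 0) :=
  (bk_eq_bkr κ (w 0) (w' 0)).symm

theorem integral_fin1 {E : Type*} [NormedAddCommGroup E] [NormedSpace ℝ E]
    (f : (Fin 1 → H3) → E) : ∫ v : Fin 1 → H3, f v = ∫ v : H3, f fun _ => v :=
  ((volume_preserving_funUnique (Fin 1) H3).symm _).integral_comp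
    (MeasurableEquiv.funUnique (Fin 1) H3).symm.measurableEmbedding f |>.symm

/-- **The base change map is multiplicative.** -/
theorem bF_conv {κ κ' : (Fin 3 → ℝ) → ℂ} (hκ : IsRC κ) (hκ' : IsRC κ') :
    bF (conv κ κ') = conv (bF κ) (bF κ') := by
  obtain ⟨C, T, hT, hC, h⟩ := adm_of_isRC hκ
  obtain ⟨C', T', hT', hC', h'⟩ := adm_of_isRC hκ'
  funext t
  rw [conv_max (bF κ) (bF κ'), ← bF_max (conv κ κ') t, ← chv_base_axJ t, bF_chv, conv_apply,
    integral_fin1]
  simp only [bF_chv]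
  exact (bk_conv h h' (fun X Y => (conv_apply κ κ' X Y).symm) _ _).symm

/-- tensor of three one-variable kernels -/
def tens3 (k₁ k₂ k₃ : (Fin 1 → ℝ) → ℂ) : (Fin 3 → ℝ) → ℂ :=
  fun t => k₁ (fun _ => t 0) * k₂ (fun _ => t 1) * k₃ (fun _ => t 2)

theorem isRC_tens3 {k₁ k₂ k₃ : (Fin 1 → ℝ) → ℂ} (h₁ : IsRC k₁) (h₂ : IsRC k₂) (h₃ : IsRC k₃) :
    IsRC (tens3 k₁ k₂ k₃) := by
  obtain ⟨R₁, M₁, -, p₁, hM₁, hR₁⟩ := h₁.exists_bounds
  obtain ⟨R₂, M₂, -, p₂, hM₂, hR₂⟩ := h₂.exists_bounds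
  obtain ⟨R₃, M₃, -, p₃, hM₃, hR₃⟩ := h₃.exists_bounds
  refine ⟨?_, ⟨M₁ * M₂ * M₃, fun t => ?_⟩, ⟨max R₁ (max R₂ R₃), fun t ht => ?_⟩⟩
  · have e : ∀ i : Fin 3, Continuous fun t : Fin 3 → ℝ => (fun _ : Fin 1 => t i) :=
      fun i => continuous_pi fun _ => continuous_apply i
    exact ((h₁.cont.comp (e 0)).mul (h₂.cont.comp (e 1))).mul (h₃.cont.comp (e 2))
  · unfold tens3
    rw [norm_mul, norm_mul]
    exact mul_le_mul (mul_le_mul (hM₁ _) (hM₂ _) (norm_nonneg _) p₁) (hM₃ _) (norm_nonneg _)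
      (mul_nonneg p₁ p₂)
  · obtain ⟨j, hj⟩ := ht
    have a₁ : R₁ < t j := (le_max_left _ _).trans_lt hj
    have a₂ : R₂ < t j := ((le_max_left _ _).trans (le_max_right _ _)).trans_lt hj
    have a₃ : R₃ < t j := ((le_max_right _ _).trans (le_max_right _ _)).trans_lt hj
    unfold tens3
    fin_cases j
    · rw [hR₁ (fun _ => t 0) ⟨0, a₁⟩, zero_mul, zero_mul]
    · rw [hR₂ (fun _ => t 1) ⟨0, a₂⟩, mul_zero, zero_mul]
    · rw [hR₃ (fun _ => t 2) ⟨0, a₃⟩, mul_zero]

/-- **The base change of a tensor is the triple convolution.** -/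
theorem bF_tens3 (k₁ k₂ k₃ : (Fin 1 → ℝ) → ℂ) :
    bF (tens3 k₁ k₂ k₃) = conv k₁ (conv k₂ k₃) := by
  funext t
  rw [conv_max k₁, ← bF_max _ t, ← chv_base_axJ t, bF_chv, conv_apply, integral_fin1]
  unfold bk
  refine integral_congr_ae (Filter.Eventually.of_forall fun u => ?_)
  simp only
  rw [conv_apply, integral_fin1, ← integral_const_mul]
  refine integral_congr_ae (Filter.Eventually.of_forall fun v => ?_)
  simp only [tens3, cons_val_zero, cons_val_one, cons_val]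
  have e1 : (fun _ : Fin 1 => ch (baseJ (Fin 1) 0) u) = chv (baseJ (Fin 1)) fun _ => u := rfl
  have e2 : (fun _ : Fin 1 => ch u v) = chv (fun _ : Fin 1 => u) fun _ => v := rfl
  have e3 : (fun _ : Fin 1 => ch v (axJ t 0)) = chv (fun _ : Fin 1 => v) (axJ t) := by
    funext j
    rw [Subsingleton.elim j 0]
    rfl
  rw [e1, e2, e3, mul_assoc]

theorem bF_zero : bF 0 = 0 := by
  funext t
  simp [bF, bkr, bk]

theorem bF_const_mul (κ : (Fin 3 → ℝ) → ℂ) (c : ℂ) :
    bF (fun t => c * κ t) = fun t => c * bF κ t := by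
  funext t
  unfold bF bkr bk
  rw [← integral_const_mul]
  refine integral_congr_ae (Filter.Eventually.of_forall fun u => ?_)
  simp only
  rw [← integral_const_mul]

theorem bF_add {κ κ' : (Fin 3 → ℝ) → ℂ} (hκ : IsRC κ) (hκ' : IsRC κ') :
    bF (κ + κ') = bF κ + bF κ' := by
  obtain ⟨C, T, hT, hC, h⟩ := adm_of_isRC hκ
  obtain ⟨C', T', hT', hC', h'⟩ := adm_of_isRC hκ'
  obtain ⟨C'', T'', hT'', hC'', h''⟩ := adm_of_isRC (hκ.add hκ')
  funext t
  rw [Pi.add_apply]
  unfold bF bkr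
  rw [bk_eq_integral h, bk_eq_integral h', bk_eq_integral h'',
    ← integral_add (integrable_bkI h _ _) (integrable_bkI h' _ _)]
  rfl

theorem bF_sum {ι : Type*} (s : Finset ι) (f : ι → (Fin 3 → ℝ) → ℂ)
    (hf : ∀ i ∈ s, IsRC (f i)) : bF (∑ i ∈ s, f i) = ∑ i ∈ s, bF (f i) := by
  classical
  induction s using Finset.induction_on with
  | empty => simpa using bF_zero
  | insert a s ha ih =>
    rw [Finset.sum_insert ha, Finset.sum_insert ha, bF_add (hf a (Finset.mem_insert_self _ _))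
      (IsRC.sum s f fun i hi => hf i (Finset.mem_insert_of_mem hi)),
      ih fun i hi => hf i (Finset.mem_insert_of_mem hi)]

/-- real kernels have real base change -/
theorem bF_ofReal (k : (Fin 3 → ℝ) → ℝ) : bF (fun t => (k t : ℂ)) = fun t => ((bkr k (t 0) : ℝ) : ℂ) := by
  funext t
  unfold bF bkr bk
  rw [← integral_complex_ofReal]
  refine integral_congr_ae (Filter.Eventually.of_forall fun u => ?_)
  simp only
  rw [← integral_complex_ofReal]

theorem bkr_nonneg {k : (Fin 3 → ℝ) → ℝ} (hk : ∀ t, 0 ≤ k t) (c : ℝ) : 0 ≤ bkr k c :=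
  integral_nonneg fun _ => integral_nonneg fun _ => hk _

end Fermat.Agent.H67M
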