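import Fermat.Agent.H7ZFun
import Fermat.Agent.H19W7

/-!
# The positivity lemma on `X(K)` (helper7, S47, package C19)
-/

set_option autoImplicit false
set_option linter.unusedSectionVars false

open IsDedekindDomain HeightOneSpectrum WithZero NumberField Matrix
open scoped MatrixGroups

noncomputable section

namespace Fermat.Agent.H7.Z

open Fermat.Agent.H59XF Fermat.Agent.H59D
open Fermat.Agent.H51Z (bm)

theorem bG_eq_bm {K : Type*} [Field K] (a : Kˣ) (b : K) : H19W.bG a b = bm a b :=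
  Units.ext rfl

theorem nP_eq {K : Type*} [Field K] (b : K) : H19W.nP b = (borP K).n b := by
  rw [H19W.nP, bG_eq_bm]; rfl

theorem dP_eq {K : Type*} [Field K] (a : Kˣ) : H19W.dP a = (borP K).d a := by
  rw [H19W.dP, bG_eq_bm]; rfl

theorem borP_eq (K : Type*) [Field K] : H19W.borP K = borP K := by
  have h1 : (H19W.borP K).n = (borP K).n := funext fun b => nP_eq b
  have h2 : (H19W.borP K).d = (borP K).d := funext fun a => dP_eq a
  cases h : H19W.borP K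
  cases h' : borP K
  rw [h, h'] at h1 h2
  simp only at h1 h2
  subst h1 h2
  rfl

variable {K : Type*} [Field K] [NumberField K] {J : Type*} [Fintype J] [Nonempty J]
  [DecidableEq (HeightOneSpectrum (𝓞 K))] {m : Model K J} {k0 : ℝ → ℝ} {Φ : m.X → ℂ}
  {κ : XF m.L.fam → ℂ}

theorem isW_of (hW : H19W.IsWM m k0 Φ κ) :
    H19W.IsW m.e (dY (borP K) m.L.fam) (fun u => u * k0 u) (fun x y => Φ (x, y)) κ := by
  have h : (fun (a : Kˣ) (y : XF m.L.fam) => (H19W.dP a : PGL(2, K)) • y) =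
      dY (borP K) m.L.fam := by
    funext a y
    rw [dP_eq]; rfl
  rw [← h]
  exact hW

theorem whit_of (hk0 : ∀ u, 0 < u → k0 u ≠ 0) (hW : H19W.IsWM m k0 Φ κ)
    (hG : ∀ (g : PGL(2, K)) (x : m.X), Φ (g • x) = Φ x) : Whit (borP K) m.L.fam κ := by
  rw [← borP_eq]
  exact H19W.IsWM.whit hk0 hW hG

/-- The Hecke equation for functions on `X`. -/
def HeckeX (m : Model K J) (Φ : m.X → ℂ) (w : HeightOneSpectrum (𝓞 K)) (ϖ : Kˣ) (R : Finset K)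
    (lam : ℂ) : Prop :=
  HeckeFun (borP K) m.L.fam (fun x y => Φ (x, y)) w ϖ R lam

/-- The `U`-equation for functions on `X`. -/
def UX (m : Model K J) (Φ : m.X → ℂ) (w : HeightOneSpectrum (𝓞 K)) (ϖ : Kˣ) (R : Finset K)
    (u : ℂ) : Prop :=
  UFun (borP K) m.L.fam (fun x y => Φ (x, y)) w ϖ R u

/-- Type equivariance for functions on `X`. -/
def TypeX (m : Model K J) (Φ : m.X → ℂ) (w : HeightOneSpectrum (𝓞 K)) (Bw : Set K) : Prop :=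
  TypeFun (borP K) m.L.fam (fun x y => Φ (x, y)) w Bw

/-- **POSITIVITY LEMMA** on `X(K)`. -/
theorem posX (a : AutData m) (hk0 : ∀ u, 0 < u → k0 u ≠ 0)
    (hG : ∀ (g : PGL(2, K)) (x : m.X), Φ (g • x) = Φ x) (hW : H19W.IsWM m k0 Φ κ)
    (w₀ : HeightOneSpectrum (𝓞 K)) (hw₀ : a.σ w₀ = w₀)
    (hgood : ∀ u : Kˣ, w₀.valuation K (u : K) = 1 → (borP K).d u ∈ m.L.U w₀)
    (S : Set (HeightOneSpectrum (𝓞 K)))
    (lam : HeightOneSpectrum (𝓞 K) → ℂ) (hlam : ∀ w, lam (a.σ w) = lam w)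
    (hU : ∀ w ∉ S, w ≠ w₀ → GoodAt (borP K) m.L.fam w)
    (hϖ : ∀ w ∉ S, w ≠ w₀ → ∃ ϖ : Kˣ, w.valuation K (ϖ : K) = exp (-(1 : ℤ)) ∧
      ∃ R : Finset K, R.Nonempty ∧ (∀ b ∈ R, w.valuation K b ≤ 1) ∧
        HeckeX m Φ w ϖ R (lam w) ∧
        HeckeX m Φ (a.σ w) (Units.map (a.s : K →* K) ϖ)
          (R.map a.s.toEquiv.toEmbedding) (lam (a.σ w)))
    (Bw : HeightOneSpectrum (𝓞 K) → Set K)
    (hS : ∀ w ∈ S, DualAt (borP K) m.L.fam w (Bw w) ∧ TypeX m Φ w (Bw w) ∧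
      TypeX m Φ (a.σ w) (Bw (a.σ w)) ∧ ∀ b ∈ Bw w, a.s b ∈ Bw (a.σ w))
    (x : m.X) : Φ (a.act x) = Φ x :=
  pos_fun m a (fun u hu => mul_ne_zero hu.ne' (hk0 u hu)) (Φ := fun x y => Φ (x, y))
    (fun g x y => hG g (x, y)) (isW_of hW) (whit_of hk0 hW hG) w₀ hw₀ hgood S lam hlam hU hϖ Bw hS
    x.1 x.2

/-- **Nonvanishing at the base point** on `X(K)`. -/
theorem base_ne_zeroX (hk0 : ∀ u, 0 < u → k0 u ≠ 0)
    (hG : ∀ (g : PGL(2, K)) (x : m.X), Φ (g • x) = Φ x) (hW : H19W.IsWM m k0 Φ κ)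
    (hloc : ∀ w : HeightOneSpectrum (𝓞 K),
      (GoodAt (borP K) m.L.fam w ∧ ∃ ϖ : Kˣ, w.valuation K (ϖ : K) = exp (-(1 : ℤ)) ∧
        ∃ R : Finset K, ∃ lam : ℂ, R.Nonempty ∧ (∀ b ∈ R, w.valuation K b ≤ 1) ∧
          (HeckeX m Φ w ϖ R lam ∨ UX m Φ w ϖ R lam)) ∨
      (∃ Bw : Set K, DualAt (borP K) m.L.fam w Bw ∧ TypeX m Φ w Bw))
    (hΦ : ∃ x, Φ x ≠ 0) : κ (XF.base m.L.fam) ≠ 0 :=
  base_ne_zero m (fun u hu => mul_ne_zero hu.ne' (hk0 u hu)) (Φ := fun x y => Φ (x, y))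
    (fun g x y => hG g (x, y)) (isW_of hW) (whit_of hk0 hW hG) hloc
    (by obtain ⟨x, hx⟩ := hΦ; exact ⟨x.1, x.2, hx⟩)

end Fermat.Agent.H7.Z
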