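import Mathlib
import Fermat.Agent.H59Def

/-!
# S47, block (C): the model, part 2: countability, measure, local kernels of double cosets
-/

set_option autoImplicit false
set_option linter.unusedSectionVars false
set_option linter.unusedVariables false

noncomputable section

open IsDedekindDomain HeightOneSpectrum WithZero NumberField Matrix MeasureTheory
open scoped MatrixGroups

namespace Fermat.Agent.H59D

open Fermat.Agent.H59XF

/-! ## Countability -/

section Countability

variable (K : Type*) [Field K] [NumberField K]

theorem countable_field : Countable K := by
  have : Module.Finite ℚ K := inferInstance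
  let b := Module.finBasis ℚ K
  exact b.equivFun.toEquiv.countable_iff.2 inferInstance

instance countable_GL : Countable (GL (Fin 2) K) := by
  have := countable_field K
  have h : Function.Injective (fun g : GL (Fin 2) K => (g : Matrix (Fin 2) (Fin 2) K)) :=
    Units.val_injective
  have : Countable (Matrix (Fin 2) (Fin 2) K) := inferInstanceAs (Countable (Fin 2 → Fin 2 → K))
  exact h.countable

instance countable_PGL : Countable PGL(2, K) := ProjGenLinGroup.mk_surjective.countable

theorem countable_ringOfIntegers : Countable (𝓞 K) := by
  have := countable_field K
  exact (NumberField.RingOfIntegers.coe_injective (K := K)).countable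

instance countable_heightOneSpectrum : Countable (HeightOneSpectrum (𝓞 K)) := by
  have := countable_ringOfIntegers K
  have h1 : Function.Surjective (fun s : Finset (𝓞 K) => Ideal.span (s : Set (𝓞 K))) := by
    intro I
    obtain ⟨s, hs⟩ := (isNoetherianRing_iff.1 inferInstance).noetherian I
    exact ⟨s, hs⟩
  have h2 : Countable (Ideal (𝓞 K)) := h1.countable
  have h3 : Function.Injective (fun w : HeightOneSpectrum (𝓞 K) => w.asIdeal) :=
    fun a b h => HeightOneSpectrum.ext h
  exact h3.countable

end Countability

namespace Model

variable {K : Type*} [Field K] [NumberField K] {J : Type*} [Fintype J] (m : Model K J)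

instance : Countable (XF m.L.fam) := inferInstance

instance : SigmaFinite (Measure.count : Measure (XF m.L.fam)) := inferInstance

instance sigmaFinite_volume_pi : SigmaFinite (volume : Measure (J → H3)) := by
  rw [volume_pi]; infer_instance

instance : SigmaFinite m.μ :=
  inferInstanceAs (SigmaFinite ((volume : Measure (J → H3)).prod
    (Measure.count : Measure (XF m.L.fam))))

theorem measurable_actInf (g : PGL(2, K)) : Measurable (m.actInf g) := by
  refine measurable_pi_lambda _ fun j => ?_
  exact (measurePreserving_smul (ProjGenLinGroup.map (m.e j) g)).measurable.comp
    (measurable_pi_apply j)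

theorem measurePreserving_actInf (g : PGL(2, K)) :
    MeasurePreserving (m.actInf g) (volume : Measure (J → H3)) volume :=
  volume_preserving_pi fun j => measurePreserving_smul (ProjGenLinGroup.map (m.e j) g)

theorem measurePreserving_count_smul (g : PGL(2, K)) :
    MeasurePreserving (fun x : XF m.L.fam => g • x) Measure.count Measure.count := by
  refine ⟨measurable_of_countable _, ?_⟩
  have : (fun x : XF m.L.fam => g • x) = (MulAction.toPerm g : Equiv.Perm (XF m.L.fam)) := rfl
  rw [this]
  ext s hs
  rw [Measure.map_apply (measurable_of_countable _) hs]
  rw [Measure.count_apply (hs.preimage (measurable_of_countable _)), Measure.count_apply hs]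
  rw [Set.encard_preimage_of_bijective (MulAction.toPerm g).bijective]

theorem measurePreserving_smul' (g : PGL(2, K)) :
    MeasurePreserving (fun x : m.X => g • x) m.μ m.μ :=
  (m.measurePreserving_actInf g).prod (m.measurePreserving_count_smul g)

theorem measurable_smul (g : PGL(2, K)) : Measurable (fun x : m.X => g • x) :=
  (m.measurePreserving_smul' g).measurable

/-- Functions on `X` are measurable as soon as their restrictions to the fibres over `X_f` are. -/
theorem measurable_iff {β : Type*} [MeasurableSpace β] (f : m.X → β) :
    Measurable f ↔ ∀ y : XF m.L.fam, Measurable fun x : J → H3 => f (x, y) := by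
  constructor
  · intro h y
    exact h.comp (measurable_id.prodMk measurable_const)
  · intro h
    exact measurable_from_prod_countable_left h

end Model

namespace AutData

variable {K : Type*} [Field K] [NumberField K] {J : Type*} [Fintype J] {m : Model K J}
  (a : AutData m)

/-- The action of `s` on `J → ℍ³` as an equivalence. -/
def actInfEquiv : (J → H3) ≃ (J → H3) := Equiv.arrowCongr a.c (Equiv.refl H3)

@[simp] theorem actInfEquiv_apply (x : J → H3) : a.actInfEquiv x = a.actInf x := by
  funext j
  rfl

theorem act_injective : Function.Injective a.act := by
  intro x y h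
  have h1 : a.actInf x.1 = a.actInf y.1 := congrArg Prod.fst h
  have h2 : a.twist.act x.2 = a.twist.act y.2 := congrArg Prod.snd h
  refine Prod.ext (funext fun j => ?_) (a.twist.act_injective h2)
  have := congrFun h1 (a.c j)
  rwa [actInf_apply_c, actInf_apply_c] at this

theorem act_surjective : Function.Surjective a.act := by
  intro y
  obtain ⟨x2, h2⟩ := a.twist.act_surjective y.2
  refine ⟨(fun j => y.1 (a.c j), x2), Prod.ext (funext fun j => ?_) h2⟩
  obtain ⟨i, rfl⟩ := a.c.surjective j
  show a.actInf (fun j => y.1 (a.c j)) (a.c i) = _
  rw [actInf_apply_c]

/-- The action of `s` as an equivalence of `X`. -/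
def actEquiv : m.X ≃ m.X := Equiv.ofBijective a.act ⟨a.act_injective, a.act_surjective⟩

@[simp] theorem actEquiv_apply (x : m.X) : a.actEquiv x = a.act x := rfl

theorem measurePreserving_actInf :
    MeasurePreserving a.actInf (volume : Measure (J → H3)) volume := by
  have h := volume_measurePreserving_piCongrLeft (fun _ : J => H3) a.c
  have : (a.actInf : (J → H3) → (J → H3)) = MeasurableEquiv.piCongrLeft (fun _ : J => H3) a.c := by
    funext x
    funext j
    obtain ⟨i, rfl⟩ := a.c.surjective j
    rw [actInf_apply_c, MeasurableEquiv.piCongrLeft_apply_apply]
  rw [this]
  exact h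

theorem measurePreserving_twist :
    MeasurePreserving (fun x : XF m.L.fam => a.twist.act x) Measure.count Measure.count := by
  refine ⟨measurable_of_countable _, ?_⟩
  ext s hs
  rw [Measure.map_apply (measurable_of_countable _) hs,
    Measure.count_apply (hs.preimage (measurable_of_countable _)), Measure.count_apply hs]
  rw [Set.encard_preimage_of_bijective ⟨a.twist.act_injective, a.twist.act_surjective⟩]

theorem measurePreserving_act : MeasurePreserving a.act m.μ m.μ :=
  a.measurePreserving_actInf.prod a.measurePreserving_twist

theorem chJ_actInf (x y : J → H3) :
    Model.chJ (a.actInf x) (a.actInf y) = fun j => Model.chJ x y (a.c.symm j) := rfl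

end AutData

end Fermat.Agent.H59D
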