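import Mathlib
import Fermat.Agent.H59Def2
import Fermat.Agent.H47TClass

/-!
# S47, block (C): construction of the concrete models, part 1: places

`F ⊆ E` number fields, `E/F` Galois of degree 3 with generator `s`; `F` imaginary quadratic, `E`
totally complex.

* `placePerm s` the permutation of the finite places of `E`;
* orbits: `s` permutes transitively the places above `v`;
* embeddings: `embE e₀ s j = e₀ ∘ s⁻ʲ` (`j : Fin 3`), one for each infinite place.
-/

set_option autoImplicit false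
set_option linter.unusedSectionVars false
set_option linter.unusedVariables false

noncomputable section

open IsDedekindDomain HeightOneSpectrum WithZero NumberField
open scoped Pointwise

namespace Fermat.Agent.H83Z

/-! ## The cyclic group of order 3 -/

section Cyc

variable {F E : Type*} [Field F] [Field E] [Algebra F E] [FiniteDimensional F E] [IsGalois F E]

theorem s_pow_three (h3 : Module.finrank F E = 3) (s : E ≃ₐ[F] E) : s ^ 3 = 1 := by
  have h := IsGalois.card_aut_eq_finrank F E
  rw [h3] at h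
  rw [← h]
  exact pow_card_eq_one'

theorem s_app_three (h3 : Module.finrank F E = 3) (s : E ≃ₐ[F] E) (x : E) : s (s (s x)) = x := by
  have h := s_pow_three h3 s
  have h2 : (s ^ 3) x = x := by rw [h]; rfl
  rwa [pow_succ, pow_succ, pow_one] at h2

theorem exists_pow_eq (h3 : Module.finrank F E = 3) (s : E ≃ₐ[F] E) (hs : s ≠ 1)
    (σ : E ≃ₐ[F] E) : ∃ i : ℕ, i < 3 ∧ σ = s ^ i := by
  classical
  have h := IsGalois.card_aut_eq_finrank F E
  rw [h3] at h
  have : Fact (Nat.Prime 3) := ⟨Nat.prime_three⟩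
  have ho : orderOf s = 3 := orderOf_eq_prime (s_pow_three h3 s) hs
  have hz : Subgroup.zpowers s = ⊤ := by
    rw [← Subgroup.card_eq_iff_eq_top, Nat.card_zpowers, ho, h]
  have hσ : σ ∈ Subgroup.zpowers s := by rw [hz]; trivial
  have hfin : IsOfFinOrder s := orderOf_pos_iff.1 (by omega)
  obtain ⟨i, hi⟩ := hfin.mem_zpowers_iff_mem_range_orderOf.1 hσ |> Finset.mem_image.1
  refine ⟨i, ?_, hi.2.symm⟩
  have := Finset.mem_range.1 hi.1
  omega

theorem fixed_of_s (h3 : Module.finrank F E = 3) (s : E ≃ₐ[F] E) (hs : s ≠ 1) {x : E}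
    (hx : s x = x) : x ∈ Set.range (algebraMap F E) := by
  rw [IsGalois.mem_range_algebraMap_iff_fixed]
  intro σ
  obtain ⟨i, -, rfl⟩ := exists_pow_eq h3 s hs σ
  induction i with
  | zero => rfl
  | succ n ih =>
    rw [pow_succ]
    show (s ^ n) (s x) = x
    rw [hx, ih]

end Cyc

/-! ## Finite places -/

section Places

variable {F E : Type*} [Field F] [NumberField F] [Field E] [NumberField E] [Algebra F E]

theorem smulPlace_one (w : HeightOneSpectrum (𝓞 E)) :
    H47.smulPlace (1 : E ≃ₐ[F] E) w = w :=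
  HeightOneSpectrum.ext (by rw [H47.smulPlace_asIdeal, one_smul])

theorem smulPlace_mul (a b : E ≃ₐ[F] E) (w : HeightOneSpectrum (𝓞 E)) :
    H47.smulPlace (a * b) w = H47.smulPlace a (H47.smulPlace b w) :=
  HeightOneSpectrum.ext (by rw [H47.smulPlace_asIdeal, H47.smulPlace_asIdeal,
    H47.smulPlace_asIdeal, mul_smul])

/-- The permutation of the finite places of `E` induced by an automorphism. -/
def placePerm (s : E ≃ₐ[F] E) : Equiv.Perm (HeightOneSpectrum (𝓞 E)) where
  toFun := H47.smulPlace s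
  invFun := H47.smulPlace s⁻¹
  left_inv w := by rw [← smulPlace_mul, inv_mul_cancel, smulPlace_one]
  right_inv w := by rw [← smulPlace_mul, mul_inv_cancel, smulPlace_one]

theorem placePerm_apply (s : E ≃ₐ[F] E) (w : HeightOneSpectrum (𝓞 E)) :
    placePerm s w = H47.smulPlace s w := rfl

theorem placePerm_val (s : E ≃ₐ[F] E) (w : HeightOneSpectrum (𝓞 E)) (x : E) :
    (placePerm s w).valuation E (s x) = w.valuation E x := H47.valuation_smulPlace s w x

theorem placePerm_pow (s : E ≃ₐ[F] E) (n : ℕ) (w : HeightOneSpectrum (𝓞 E)) :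
    (placePerm s ^ n) w = H47.smulPlace (s ^ n) w := by
  induction n with
  | zero => rw [pow_zero, pow_zero, smulPlace_one]; rfl
  | succ n ih =>
    rw [pow_succ', pow_succ', Equiv.Perm.mul_apply, ih, smulPlace_mul]
    rfl

theorem placePerm_mem_above (s : E ≃ₐ[F] E) {v : HeightOneSpectrum (𝓞 F)}
    {w : HeightOneSpectrum (𝓞 E)} : placePerm s w ∈ H82.above E v ↔ w ∈ H82.above E v := by
  constructor
  · intro h
    have := H47.smulPlace_mem_above s⁻¹ h
    rwa [placePerm_apply, ← smulPlace_mul, inv_mul_cancel, smulPlace_one] at this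
  · exact H47.smulPlace_mem_above s

theorem below_placePerm (s : E ≃ₐ[F] E) (w : HeightOneSpectrum (𝓞 E)) :
    H47.below F (placePerm s w) = H47.below F w :=
  (H47.eq_below_of_mem_above ((placePerm_mem_above s).2 (H47.mem_above_below w))).symm

variable [IsGalois F E]

theorem placePerm_three (h3 : Module.finrank F E = 3) (s : E ≃ₐ[F] E)
    (w : HeightOneSpectrum (𝓞 E)) : placePerm s (placePerm s (placePerm s w)) = w := by
  have h := placePerm_pow s 3 w
  rw [s_pow_three h3 s, smulPlace_one] at h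
  rwa [pow_succ, pow_succ, pow_one, Equiv.Perm.mul_apply, Equiv.Perm.mul_apply] at h

/-- `⟨s⟩` acts transitively on the places above `v`. -/
theorem mem_above_iff_exists (h3 : Module.finrank F E = 3) (s : E ≃ₐ[F] E) (hs : s ≠ 1)
    {v : HeightOneSpectrum (𝓞 F)} {w w' : HeightOneSpectrum (𝓞 E)} (hw : w ∈ H82.above E v) :
    w' ∈ H82.above E v ↔ w' = w ∨ w' = placePerm s w ∨ w' = placePerm s (placePerm s w) := by
  constructor
  · intro hw'
    obtain ⟨σ, hσ⟩ := H47.exists_smulPlace_eq hw hw'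
    obtain ⟨i, hi, rfl⟩ := exists_pow_eq h3 s hs σ
    rw [← placePerm_pow] at hσ
    have : i = 0 ∨ i = 1 ∨ i = 2 := by omega
    rcases this with rfl | rfl | rfl
    · left; exact hσ.symm
    · right; left; rw [pow_one] at hσ; exact hσ.symm
    · right; right; rw [pow_two, Equiv.Perm.mul_apply] at hσ; exact hσ.symm
  · rintro (rfl | rfl | rfl)
    · exact hw
    · rwa [placePerm_mem_above]
    · rwa [placePerm_mem_above, placePerm_mem_above]

theorem above_eq (h3 : Module.finrank F E = 3) (s : E ≃ₐ[F] E) (hs : s ≠ 1)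
    {v : HeightOneSpectrum (𝓞 F)} {w : HeightOneSpectrum (𝓞 E)} (hw : w ∈ H82.above E v) :
    H82.above E v = {w, placePerm s w, placePerm s (placePerm s w)} := by
  ext w'
  rw [mem_above_iff_exists h3 s hs hw]
  simp

theorem above_finite (h3 : Module.finrank F E = 3) (s : E ≃ₐ[F] E) (hs : s ≠ 1)
    (v : HeightOneSpectrum (𝓞 F)) : (H82.above E v).Finite := by
  obtain ⟨w, hw⟩ := H47.above_nonempty (L := E) v
  rw [above_eq h3 s hs hw]
  exact Set.toFinite _

/-- nonsplit: `s w = w` -/
theorem nonSplit_iff (h3 : Module.finrank F E = 3) (s : E ≃ₐ[F] E) (hs : s ≠ 1)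
    {v : HeightOneSpectrum (𝓞 F)} {w : HeightOneSpectrum (𝓞 E)} (hw : w ∈ H82.above E v) :
    H82.NonSplit E v ↔ placePerm s w = w := by
  constructor
  · intro h
    obtain ⟨a, ha⟩ := Set.ncard_eq_one.1 h
    have h1 : w ∈ ({a} : Set _) := ha ▸ hw
    have h2 : placePerm s w ∈ ({a} : Set _) := ha ▸ (placePerm_mem_above s).2 hw
    rw [Set.mem_singleton_iff] at h1 h2
    rw [h1, ← h2, h1] at *
    rw [h2, h1] at *
  · intro h
    unfold H82.NonSplit
    rw [above_eq h3 s hs hw, h, h]
    simp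

/-- split: the three places `w`, `s w`, `s² w` are distinct -/
theorem ne_of_split (h3 : Module.finrank F E = 3) (s : E ≃ₐ[F] E) (hs : s ≠ 1)
    {v : HeightOneSpectrum (𝓞 F)} {w : HeightOneSpectrum (𝓞 E)} (hw : w ∈ H82.above E v)
    (hv : ¬ H82.NonSplit E v) : placePerm s w ≠ w ∧ placePerm s (placePerm s w) ≠ w ∧
      placePerm s (placePerm s w) ≠ placePerm s w := by
  have h1 : placePerm s w ≠ w := fun h => hv ((nonSplit_iff h3 s hs hw).2 h)
  refine ⟨h1, ?_, fun h => h1 ((placePerm s).injective h)⟩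
  intro h
  have h2 := placePerm_three h3 s w
  rw [h] at h2
  exact h1 h2

end Places

/-! ## Infinite places -/

section Inf

variable {F E : Type*} [Field F] [NumberField F] [Field E] [NumberField E] [Algebra F E]

/-- The embeddings `e₀ ∘ s⁻ʲ`. -/
def embE (e₀ : E →+* ℂ) (s : E ≃ₐ[F] E) (j : Fin 3) : E →+* ℂ :=
  e₀.comp ((s⁻¹ ^ (j : ℕ) : E ≃ₐ[F] E) : E →+* E)

theorem embE_apply (e₀ : E →+* ℂ) (s : E ≃ₐ[F] E) (j : Fin 3) (x : E) :
    embE e₀ s j x = e₀ ((s⁻¹ ^ (j : ℕ)) x) := rfl

theorem embE_algebraMap (e₀ : E →+* ℂ) (s : E ≃ₐ[F] E) (j : Fin 3) (x : F) :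
    embE e₀ s j (algebraMap F E x) = e₀ (algebraMap F E x) := by
  rw [embE_apply, AlgEquiv.commutes]

theorem embE_succ [IsGalois F E] (h3 : Module.finrank F E = 3) (e₀ : E →+* ℂ) (s : E ≃ₐ[F] E)
    (j : Fin 3) (x : E) : embE e₀ s (j + 1) (s x) = embE e₀ s j x := by
  have hs3 : (s⁻¹) ^ 3 = 1 := s_pow_three h3 s⁻¹
  have h1 : (s⁻¹) ^ ((j + 1 : Fin 3) : ℕ) * s = (s⁻¹) ^ (j : ℕ) := by
    fin_cases j
    · simp
    · show (s⁻¹) ^ 2 * s = (s⁻¹) ^ 1
      group
    · show (s⁻¹) ^ 0 * s = (s⁻¹) ^ 2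
      have : s = (s⁻¹) ^ 2 := by
        rw [← mul_right_inj (s⁻¹), ← pow_succ', hs3, inv_mul_cancel]
      rw [pow_zero, one_mul, ← this]
  rw [embE_apply, embE_apply, ← h1]
  rfl

theorem not_isReal_of_totallyComplex [IsTotallyComplex E] (e : E →+* ℂ) :
    ¬ ComplexEmbedding.IsReal e := by
  have h := IsTotallyComplex.isComplex (InfinitePlace.mk e)
  intro hr
  exact (InfinitePlace.not_isReal_iff_isComplex.2 h) (InfinitePlace.isReal_mk_iff.2 hr)

theorem card_infinitePlace [IsTotallyComplex E] :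
    2 * Fintype.card (InfinitePlace E) = Module.finrank ℚ E := by
  rw [IsTotallyComplex.finrank, InfinitePlace.card_eq_nrRealPlaces_add_nrComplexPlaces,
    IsTotallyComplex.nrRealPlaces_eq_zero, zero_add]

theorem mk_embE_injective [IsTotallyComplex F] [IsGalois F E] (h3 : Module.finrank F E = 3)
    (e₀ : E →+* ℂ) (s : E ≃ₐ[F] E) (hs : s ≠ 1) :
    Function.Injective fun j : Fin 3 => InfinitePlace.mk (embE e₀ s j) := by
  intro i j hij
  have : Fact (Nat.Prime 3) := ⟨Nat.prime_three⟩
  rcases InfinitePlace.mk_eq_iff.1 hij with h | h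
  · have h1 : (s⁻¹) ^ (i : ℕ) = (s⁻¹) ^ (j : ℕ) := by
      ext x
      have := congrArg (fun f : E →+* ℂ => f x) h
      exact e₀.injective this
    have ho : orderOf s⁻¹ = 3 := orderOf_eq_prime (s_pow_three h3 s⁻¹) (inv_ne_one.2 hs)
    rw [pow_inj_mod, ho, Nat.mod_eq_of_lt i.2, Nat.mod_eq_of_lt j.2] at h1
    exact Fin.ext h1
  · exfalso
    apply not_isReal_of_totallyComplex (e₀.comp (algebraMap F E))
    have h2 : ComplexEmbedding.conjugate (e₀.comp (algebraMap F E)) =
        e₀.comp (algebraMap F E) := by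
      ext x
      have := congrArg (fun f : E →+* ℂ => f (algebraMap F E x)) h
      simp only [ComplexEmbedding.conjugate_coe_eq, embE_algebraMap] at this
      simpa using this
    exact h2

theorem mk_embE_bijective [IsTotallyComplex F] [IsTotallyComplex E] [IsGalois F E]
    (h2 : Module.finrank ℚ F = 2) (h3 : Module.finrank F E = 3)
    (e₀ : E →+* ℂ) (s : E ≃ₐ[F] E) (hs : s ≠ 1) :
    Function.Bijective fun j : Fin 3 => InfinitePlace.mk (embE e₀ s j) := by
  rw [Fintype.bijective_iff_injective_and_card]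
  refine ⟨mk_embE_injective h3 e₀ s hs, ?_⟩
  have h := card_infinitePlace (E := E)
  rw [← Module.finrank_mul_finrank ℚ F E, h2, h3] at h
  rw [Fintype.card_fin]
  omega

theorem mk_bijective_of_quadratic [IsTotallyComplex F] (h2 : Module.finrank ℚ F = 2)
    (e : F →+* ℂ) : Function.Bijective fun _ : Fin 1 => InfinitePlace.mk e := by
  rw [Fintype.bijective_iff_injective_and_card]
  refine ⟨fun i j _ => Subsingleton.elim i j, ?_⟩
  have h := card_infinitePlace (E := F)
  rw [h2] at h
  rw [Fintype.card_fin]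
  omega

/-- `E` is totally complex if `F` is. -/
theorem isTotallyComplex_of_algebra [IsTotallyComplex F] : IsTotallyComplex E where
  isComplex w := by
    have h := IsTotallyComplex.isComplex (w.comap (algebraMap F E))
    by_contra hcon
    rw [← InfinitePlace.not_isReal_iff_isComplex] at h hcon
    rw [not_not] at hcon
    exact h (hcon.comap _)

end Inf

end Fermat.Agent.H83Z
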