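import Mathlib
import Fermat.Agent.H83ZInst1

/-!
# S47, block (C): construction of the concrete models, part 2: levels, models, automorphism

* `ofLocal`: a level from finitely many local subgroups;
* stability of `U0`, `Gam`, the Iwahori subgroup under automorphisms;
* `modelE`, `modelF`, `autE`.
-/

set_option autoImplicit false
set_option linter.unusedSectionVars false
set_option linter.unusedVariables false

noncomputable section

open IsDedekindDomain HeightOneSpectrum WithZero NumberField Matrix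
open scoped MatrixGroups

namespace Fermat.Agent.H83Z

open Fermat.Agent.H59D

/-! ## Levels from local data -/

section Local

variable {R : Type*} [CommRing R] [IsDedekindDomain R] {K : Type*} [Field K] [Algebra R K]
  [IsFractionRing R K]

open Classical in
/-- The level which is `V w` for `w ∈ S` and maximal outside the finite set `S`. -/
def ofLocal (S : Set (HeightOneSpectrum R)) (hS : S.Finite)
    (V : HeightOneSpectrum R → Subgroup PGL(2, K))
    (ho : ∀ w ∈ S, ∃ n : ℕ, Gam w n ≤ V w)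
    (hb : ∀ w ∈ S, ∃ c : PGL(2, K), ∀ g ∈ V w, c⁻¹ * g * c ∈ U0 w) : Level R K where
  U w := if w ∈ S then V w else U0 w
  fin := hS.subset (by
    intro w hw
    by_contra hcon
    exact hw (if_neg hcon))
  isOpen w := by
    by_cases h : w ∈ S
    · rw [if_pos h]; exact ho w h
    · rw [if_neg h]; exact ⟨0, Gam_le w 0⟩
  bdd w := by
    by_cases h : w ∈ S
    · rw [if_pos h]; exact hb w h
    · rw [if_neg h]; exact ⟨1, fun g hg => by simpa using hg⟩

theorem ofLocal_mem {S : Set (HeightOneSpectrum R)} {hS : S.Finite}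
    {V : HeightOneSpectrum R → Subgroup PGL(2, K)} {ho hb} {w : HeightOneSpectrum R}
    (hw : w ∈ S) : (ofLocal S hS V ho hb).U w = V w := if_pos hw

theorem ofLocal_not_mem {S : Set (HeightOneSpectrum R)} {hS : S.Finite}
    {V : HeightOneSpectrum R → Subgroup PGL(2, K)} {ho hb} {w : HeightOneSpectrum R}
    (hw : w ∉ S) : (ofLocal S hS V ho hb).U w = U0 w := if_neg hw

/-- The Iwahori subgroup of `GL₂(K)` at `w`. -/
def GLiw (w : HeightOneSpectrum R) : Subgroup (GL (Fin 2) K) where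
  carrier := {g | g ∈ GLw w ∧ w.valuation K (g 1 0) ≤ exp (-1 : ℤ)}
  one_mem' := ⟨one_mem _, by simp⟩
  mul_mem' := by
    rintro a b ⟨ha, ha'⟩ ⟨hb, hb'⟩
    refine ⟨mul_mem ha hb, ?_⟩
    have h1 : (a * b : GL (Fin 2) K) 1 0 = a 1 0 * b 0 0 + a 1 1 * b 1 0 := by
      rw [Units.val_mul, Matrix.mul_apply, Fin.sum_univ_two]
    rw [h1]
    refine Valuation.map_add_le _ ?_ ?_
    · rw [map_mul]; exact (mul_le_mul' ha' (hb.1 0 0)).trans (by rw [mul_one])
    · rw [map_mul]; exact (mul_le_mul' (ha.1 1 1) hb').trans (by rw [one_mul])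
  inv_mem' := by
    rintro a ⟨ha, ha'⟩
    refine ⟨inv_mem ha, ?_⟩
    have hinv : ((a⁻¹ : GL (Fin 2) K) : Matrix (Fin 2) (Fin 2) K) =
        (a : Matrix (Fin 2) (Fin 2) K).det⁻¹ • (a : Matrix (Fin 2) (Fin 2) K).adjugate := by
      rw [Matrix.coe_units_inv, Matrix.inv_def, Ring.inverse_eq_inv']
    rw [hinv, Matrix.smul_apply, smul_eq_mul, map_mul, map_inv₀, ha.2, inv_one, one_mul,
      Matrix.adjugate_fin_two]
    simpa [Valuation.map_neg] using ha'

theorem mem_GLiw {w : HeightOneSpectrum R} {g : GL (Fin 2) K} :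
    g ∈ GLiw w ↔ g ∈ GLw w ∧ w.valuation K (g 1 0) ≤ exp (-1 : ℤ) := Iff.rfl

/-- The Iwahori subgroup of `PGL₂(K)` at `w`. -/
def Iw (w : HeightOneSpectrum R) : Subgroup PGL(2, K) := (GLiw w).map ProjGenLinGroup.mk

theorem Iw_le (w : HeightOneSpectrum R) : Iw (K := K) w ≤ U0 w :=
  Subgroup.map_mono fun _ h => h.1

theorem Gam_one_le_Iw (w : HeightOneSpectrum R) : Gam (K := K) w 1 ≤ Iw w :=
  Subgroup.map_mono fun g hg => ⟨hg.1, by simpa using hg.2 1 0⟩

end Local

/-! ## Scalars: membership of `mk g` -/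

section Scalar

variable {R : Type*} [CommRing R] [IsDedekindDomain R] {K : Type*} [Field K] [Algebra R K]
  [IsFractionRing R K]

theorem mk_mem_map_iff (H : Subgroup (GL (Fin 2) K)) (g : GL (Fin 2) K) :
    (ProjGenLinGroup.mk g : PGL(2, K)) ∈ H.map ProjGenLinGroup.mk ↔
      ∃ h ∈ H, ∃ u : Kˣ, g = GeneralLinearGroup.scalar (Fin 2) u * h := by
  constructor
  · rintro ⟨h, hh, he⟩
    obtain ⟨u, hu⟩ := ProjGenLinGroup.mk_eq_mk_iff.1 he
    refine ⟨h, hh, u, ?_⟩
    rw [← hu]
    ext i j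
    simp [Matrix.mul_apply, Matrix.scalar_apply, Matrix.diagonal_apply, Fin.sum_univ_two]
    fin_cases i <;> fin_cases j <;> simp [mul_comm]
  · rintro ⟨h, hh, u, rfl⟩
    refine ⟨h, hh, ?_⟩
    rw [map_mul, ProjGenLinGroup.mk_scalar, one_mul]

end Scalar

/-! ## Stability under automorphisms -/

section Aut

variable {K : Type*} [Field K] [NumberField K]

/-- `PGL(2, ·)` of an automorphism, on representatives. -/
theorem map_mk (s : K ≃+* K) (g : GL (Fin 2) K) :
    (ProjGenLinGroup.map (s : K →+* K) (ProjGenLinGroup.mk g) : PGL(2, K)) =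
      ProjGenLinGroup.mk (GeneralLinearGroup.map (s : K →+* K) g) := rfl

/-- stability of subgroups of `PGL₂(K)` defined by stable subgroups of `GL₂(K)` -/
theorem map_mem_of_stable (s : K ≃+* K) (H H' : Subgroup (GL (Fin 2) K))
    (h : ∀ g, g ∈ H ↔ GeneralLinearGroup.map (s : K →+* K) g ∈ H') (g : PGL(2, K)) :
    g ∈ H.map ProjGenLinGroup.mk ↔
      (ProjGenLinGroup.map (s : K →+* K) g : PGL(2, K)) ∈ H'.map ProjGenLinGroup.mk := by
  constructor
  · rintro ⟨x, hx, rfl⟩
    exact ⟨_, (h x).1 hx, rfl⟩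
  · rintro ⟨x, hx, hxe⟩
    refine ⟨GeneralLinearGroup.map (s.symm : K →+* K) x, ?_, ?_⟩
    · show GeneralLinearGroup.map (s.symm : K →+* K) x ∈ H
      rw [h]
      have hxx : GeneralLinearGroup.map (s : K →+* K)
          (GeneralLinearGroup.map (s.symm : K →+* K) x) = x := by
        ext i j
        simp
      rw [hxx]
      exact hx
    · apply (AutData.pmap s).injective
      rw [AutData.pmap_apply, AutData.pmap_apply, map_mk, ← hxe]
      congr 1
      ext i j
      simp

variable (s : K ≃+* K) {w w' : HeightOneSpectrum (𝓞 K)}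
  (hv : ∀ x, w'.valuation K (s x) = w.valuation K x)

include hv

theorem GLw_map (g : GL (Fin 2) K) :
    g ∈ GLw w ↔ GeneralLinearGroup.map (s : K →+* K) g ∈ GLw w' := by
  rw [mem_GLw, mem_GLw]
  have h1 : ∀ i j, (GeneralLinearGroup.map (s : K →+* K) g) i j = s (g i j) := fun i j => rfl
  have h2 : ((GeneralLinearGroup.map (s : K →+* K) g : GL (Fin 2) K) :
      Matrix (Fin 2) (Fin 2) K).det = s (g : Matrix (Fin 2) (Fin 2) K).det := by
    rw [Matrix.det_fin_two, Matrix.det_fin_two, h1, h1, h1, h1]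
    simp
  rw [h2, hv]
  simp only [h1, hv]

theorem GLcong_map (n : ℕ) (g : GL (Fin 2) K) :
    g ∈ GLcong w n ↔ GeneralLinearGroup.map (s : K →+* K) g ∈ GLcong w' n := by
  rw [mem_GLcong, mem_GLcong, ← GLw_map s hv]
  refine and_congr Iff.rfl (forall_congr' fun i => forall_congr' fun j => ?_)
  have h1 : (GeneralLinearGroup.map (s : K →+* K) g) i j - (1 : Matrix (Fin 2) (Fin 2) K) i j =
      s (g i j - (1 : Matrix (Fin 2) (Fin 2) K) i j) := by
    rw [map_sub]
    congr 1
    rw [Matrix.one_apply]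
    split_ifs <;> simp
  rw [h1, hv]

theorem GLiw_map (g : GL (Fin 2) K) :
    g ∈ GLiw w ↔ GeneralLinearGroup.map (s : K →+* K) g ∈ GLiw w' := by
  rw [mem_GLiw, mem_GLiw, ← GLw_map s hv]
  have h1 : (GeneralLinearGroup.map (s : K →+* K) g) 1 0 = s (g 1 0) := rfl
  rw [h1, hv]

theorem U0_map (g : PGL(2, K)) :
    g ∈ U0 w ↔ (ProjGenLinGroup.map (s : K →+* K) g : PGL(2, K)) ∈ U0 w' :=
  map_mem_of_stable s _ _ (GLw_map s hv) g

theorem Gam_map (n : ℕ) (g : PGL(2, K)) :
    g ∈ Gam w n ↔ (ProjGenLinGroup.map (s : K →+* K) g : PGL(2, K)) ∈ Gam w' n :=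
  map_mem_of_stable s _ _ (GLcong_map s hv n) g

theorem Iw_map (g : PGL(2, K)) :
    g ∈ Iw w ↔ (ProjGenLinGroup.map (s : K →+* K) g : PGL(2, K)) ∈ Iw w' :=
  map_mem_of_stable s _ _ (GLiw_map s hv) g

end Aut

/-! ## The models of `E` and `F` -/

section Models

variable {F E : Type*} [Field F] [NumberField F] [Field E] [NumberField E] [Algebra F E]
  [IsGalois F E] [IsTotallyComplex F] [IsTotallyComplex E]

/-- The model of `E`. -/
def modelE (h2 : Module.finrank ℚ F = 2) (h3 : Module.finrank F E = 3) (e₀ : E →+* ℂ)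
    (s : E ≃ₐ[F] E) (hs : s ≠ 1) (L : Level (𝓞 E) E) : Model E (Fin 3) where
  e := embE e₀ s
  e_bij := mk_embE_bijective h2 h3 e₀ s hs
  e_cx _ := not_isReal_of_totallyComplex _
  L := L

/-- The model of `F`. -/
def modelF (h2 : Module.finrank ℚ F = 2) (e₀ : E →+* ℂ) (L : Level (𝓞 F) F) :
    Model F (Fin 1) where
  e _ := e₀.comp (algebraMap F E)
  e_bij := mk_bijective_of_quadratic h2 _
  e_cx _ := not_isReal_of_totallyComplex _
  L := L

/-- The automorphism of the model of `E`. -/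
def autE (h2 : Module.finrank ℚ F = 2) (h3 : Module.finrank F E = 3) (e₀ : E →+* ℂ)
    (s : E ≃ₐ[F] E) (hs : s ≠ 1) (L : Level (𝓞 E) E)
    (hL : ∀ w (g : PGL(2, E)), g ∈ L.U w ↔
      ProjGenLinGroup.map ((s : E ≃+* E) : E →+* E) g ∈ L.U (placePerm s w)) :
    AutData (modelE h2 h3 e₀ s hs L) where
  s := (s : E ≃+* E)
  σ := placePerm s
  val := placePerm_val s
  c := Equiv.addRight (1 : Fin 3)
  e_s j x := embE_succ h3 e₀ s j x
  U_s := hL

/-- Stability of a level given by local data. -/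
theorem ofLocal_stable (s : E ≃ₐ[F] E) {S : Set (HeightOneSpectrum (𝓞 E))} {hS : S.Finite}
    {V : HeightOneSpectrum (𝓞 E) → Subgroup PGL(2, E)} {ho hb}
    (hSs : ∀ w, placePerm s w ∈ S ↔ w ∈ S)
    (hV : ∀ w ∈ S, ∀ g : PGL(2, E), g ∈ V w ↔
      ProjGenLinGroup.map ((s : E ≃+* E) : E →+* E) g ∈ V (placePerm s w))
    (w : HeightOneSpectrum (𝓞 E)) (g : PGL(2, E)) :
    g ∈ (ofLocal S hS V ho hb).U w ↔
      ProjGenLinGroup.map ((s : E ≃+* E) : E →+* E) g ∈
        (ofLocal S hS V ho hb).U (placePerm s w) := by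
  by_cases h : w ∈ S
  · rw [ofLocal_mem h, ofLocal_mem ((hSs w).2 h)]
    exact hV w h g
  · rw [ofLocal_not_mem h, ofLocal_not_mem (fun h' => h ((hSs w).1 h'))]
    exact U0_map (s : E ≃+* E) (placePerm_val s w) g

/-- The permutation of the places has order 3. -/
theorem autE_σ_three (h2 : Module.finrank ℚ F = 2) (h3 : Module.finrank F E = 3) (e₀ : E →+* ℂ)
    (s : E ≃ₐ[F] E) (hs : s ≠ 1) (L : Level (𝓞 E) E) (hL) (w : HeightOneSpectrum (𝓞 E)) :
    (autE h2 h3 e₀ s hs L hL).σ ((autE h2 h3 e₀ s hs L hL).σ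
      ((autE h2 h3 e₀ s hs L hL).σ w)) = w := placePerm_three h3 s w

/-- The finite set of places of `E` above a finite set of places of `F` is finite. -/
theorem aboveSet_finite (h3 : Module.finrank F E = 3) (s : E ≃ₐ[F] E) (hs : s ≠ 1)
    {T : Set (HeightOneSpectrum (𝓞 F))} (hT : T.Finite) : (H82.aboveSet E T).Finite := by
  have : H82.aboveSet E T = ⋃ v ∈ T, H82.above E v := by
    ext w
    simp [H82.aboveSet]
  rw [this]
  exact hT.biUnion fun v _ => above_finite h3 s hs v

end Models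

end Fermat.Agent.H83Z
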