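import Fermat.Agent.H79SMono
import Fermat.Agent.H55DC
import Fermat.Agent.H51ZIw
import Fermat.Agent.H83ZInst2
import Fermat.Agent.H7ZX
import Fermat.Agent.H32ZCut
import Fermat.Agent.H67M5
import Fermat.Agent.H82CftDefs

/-!
# S47, block (C): setup and interfaces (helper79)

* `IsInd κ D` : the values of the local kernel `κ` are those of the indicator of `D`;
* `IsTyp κ H χ` : the values of the local kernel `κ` are those of the idempotent of a type;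
* `KerData m S w0 T` : the local kernels (idempotents of the types at `S`, `U` at `w0`, Hecke
  operators elsewhere) on a model;
* `CSetup F E` : the two models with all their data;
* `CSetup.Geom` : the comparison of the geometric sides for monomial test kernels;
* `IsMForm`, `COut` : the output of block (C).
-/

set_option autoImplicit false
set_option linter.unusedSectionVars false

noncomputable section

open IsDedekindDomain HeightOneSpectrum WithZero NumberField Matrix MeasureTheory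
open scoped MatrixGroups

namespace Fermat.Agent.H79S

open Fermat.Agent.H59XF Fermat.Agent.H51Z Fermat.Agent.H59D Fermat.Agent.H76U

/-! ### Local kernels by their values -/

/-- The values of `κ` are those of the indicator function of `D`. -/
def IsInd {G : Type*} [Group G] {H : Subgroup G} (κ : LocKer H) (D : Set G) : Prop :=
  ∀ g g' : G, (g⁻¹ * g' ∈ D → κ.k (g : G ⧸ H) (g' : G ⧸ H) = 1) ∧
    (g⁻¹ * g' ∉ D → κ.k (g : G ⧸ H) (g' : G ⧸ H) = 0)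

/-- The values of `κ` are those of the idempotent of the type `(H, χ)` of level `U`. -/
def IsTyp {G : Type*} [Group G] {U : Subgroup G} (κ : LocKer U) (H : Subgroup G) (χ : G → ℂ) :
    Prop :=
  ∀ g g' : G, (g⁻¹ * g' ∈ H → κ.k (g : G ⧸ U) (g' : G ⧸ U) =
      (χ (g⁻¹ * g'))⁻¹ / ((U.subgroupOf H).index : ℂ)) ∧
    (g⁻¹ * g' ∉ H → κ.k (g : G ⧸ U) (g' : G ⧸ U) = 0)

section KD

variable {K : Type*} [Field K] [NumberField K] {J : Type*} [Fintype J]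

/-- The local kernels of block (C) on a model: level `ker ψ_w` and the idempotent of the type at
the places of `S`, Iwahori level and `U` at `w0`, maximal level and `T_w` elsewhere. -/
structure KerData (m : Model K J) (S : Finset (HeightOneSpectrum (𝓞 K)))
    (w0 : HeightOneSpectrum (𝓞 K)) (T : HeightOneSpectrum (𝓞 K) → TD K) where
  D : HData m.L.fam
  D_S : D.S = S
  D_w0 : D.w0 = w0
  lev_S : ∀ w ∈ S, m.L.U w = (T w).U
  lev_good : ∀ w ∉ S, w ≠ w0 → m.L.U w = H59D.U0 w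
  lev_w0 : m.L.U w0 = H83Z.Iw w0
  T_ind : ∀ w ∉ S, w ≠ w0 → IsInd (D.T w) (cellT (w.valuation K))
  U_ind : IsInd (D.U w0) (cellU (w0.valuation K) (exp (-(1 : ℤ))))
  e_typ : ∀ w ∈ S, IsTyp (D.e w) (T w).H (T w).chi
  e_index : ∀ w ∈ S, ((T w).U.subgroupOf (T w).H).index ≠ 0

end KD

/-! ### The setup -/

/-- The setup of block (C): `E/F` cyclic of degree 3, `F` imaginary quadratic, the models, the
bad places `SF`, `SE`, the auxiliary places `v0`, `w0`, the types and the local kernels. -/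
structure CSetup (F E : Type) [Field F] [NumberField F] [Field E] [NumberField E]
    [Algebra F E] where
  h2 : Module.finrank ℚ F = 2
  h3 : Module.finrank F E = 3
  gal : IsGalois F E
  s : E ≃ₐ[F] E
  hs : s ≠ 1
  mE : Model E (Fin 3)
  aE : AutData mE
  mF : Model F (Fin 1)
  s_eq : ∀ x, aE.s x = s x
  c_eq : aE.c = Equiv.addRight 1
  e_alg : ∀ j (x : F), mE.e j (algebraMap F E x) = mF.e 0 x
  SF : Finset (HeightOneSpectrum (𝓞 F))
  SE : Finset (HeightOneSpectrum (𝓞 E))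
  mem_SE : ∀ w, w ∈ SE ↔ H47.below F w ∈ SF
  v0 : HeightOneSpectrum (𝓞 F)
  w0 : HeightOneSpectrum (𝓞 E)
  v0S : v0 ∉ SF
  above_v0 : H82.above E v0 = {w0}
  /-- the places outside `SF` are unramified in `E` -/
  unr : ∀ v ∉ SF, ∀ w ∈ H82.above E v, v.asIdeal.ramificationIdx' w.asIdeal = 1
  /-- the places outside `SE` are unramified over `ℚ` -/
  unramE : ∀ w ∉ SE, H7.Z.Unram w
  unramF : ∀ v ∉ SF, H7.Z.Unram v
  TE : HeightOneSpectrum (𝓞 E) → TD E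
  TF : HeightOneSpectrum (𝓞 F) → TD F
  psiE : ∀ w ∈ SE, ∀ x, (TE w).psi x = H7.Z.psi w x
  psiF : ∀ v ∈ SF, ∀ x, (TF v).psi x = H7.Z.psi v x
  /-- the types over `E` are stable under `s` -/
  TE_s : ∀ w ∈ SE, ∀ x, (s x ∈ (TE (aE.σ w)).A ↔ x ∈ (TE w).A) ∧
    (s x ∈ (TE (aE.σ w)).B ↔ x ∈ (TE w).B) ∧ (s x ∈ (TE (aE.σ w)).C ↔ x ∈ (TE w).C)
  dualE : ∀ w ∈ SE, H7.Z.DualAt (H7.Z.borP E) mE.L.fam w (TE w).B
  dualF : ∀ v ∈ SF, H7.Z.DualAt (H7.Z.borP F) mF.L.fam v (TF v).B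
  /-- for C21 -/
  lowF : ∀ v ∈ SF, (∀ b : F, (∀ r : F, v.valuation F r ≤ 1 → H7.Z.psi v (b * r) = 1) →
    b ∈ (TF v).B) ∧ ∃ k : ℕ, ∀ c : F, v.valuation F c ≤ exp (-(k : ℤ)) → c ∈ (TF v).C
  kE : KerData mE SE w0 TE
  kF : KerData mF SF v0 TF

namespace CSetup

variable {F E : Type} [Field F] [NumberField F] [Field E] [NumberField E] [Algebra F E]
  (C : CSetup F E)

/-- The places of `E` at which test functions are allowed: not bad and over split places. -/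
def Ok (w : HeightOneSpectrum (𝓞 E)) : Prop :=
  w ∉ C.SE ∧ ¬ H82.NonSplit E (H47.below F w)

/-- Multi-indices. -/
def OkN (n : HeightOneSpectrum (𝓞 E) →₀ ℕ) : Prop := ∀ w ∈ n.support, C.Ok w

/-- The test kernels on `X(E)`. -/
def tkE (κ : (Fin 3 → ℝ) → ℂ) (n : HeightOneSpectrum (𝓞 E) →₀ ℕ) (k : ℕ) : C.mE.X → C.mE.X → ℂ :=
  C.mE.ker κ (C.kE.D.mono n k).k

/-- The test kernels on `X(F)`. -/
def tkF (κ : (Fin 1 → ℝ) → ℂ) (n : HeightOneSpectrum (𝓞 F) →₀ ℕ) (k : ℕ) : C.mF.X → C.mF.X → ℂ :=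
  C.mF.ker κ (C.kF.D.mono n k).k

/-- The matching test kernel. -/
def tkB (κ : (Fin 3 → ℝ) → ℂ) (n : HeightOneSpectrum (𝓞 E) →₀ ℕ) (k : ℕ) : C.mF.X → C.mF.X → ℂ :=
  C.tkF (H67M.bF κ) (n.mapDomain (H47.below F)) (3 * k)

/-- **GEOM**: the comparison of the geometric sides. -/
def Geom : Prop :=
  ∀ (cE : H32Z.CutOff PGL(2, E) C.mE.X) (cF : H32Z.CutOff PGL(2, F) C.mF.X)
    (κ : (Fin 3 → ℝ) → ℂ), H56Z.IsRC κ → ∀ n, C.OkN n → ∃ k0 : ℕ, ∀ k ≥ k0,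
      Integrable (fun x => H32Z.CutOff.autK PGL(2, E) (C.tkE κ n k) x (C.aE.act x))
        (cE.ν C.mE.μ) ∧
      Integrable (fun y => H32Z.CutOff.autK PGL(2, F) (C.tkB κ n k) y y) (cF.ν C.mF.μ) ∧
      ∫ x, H32Z.CutOff.autK PGL(2, E) (C.tkE κ n k) x (C.aE.act x) ∂(cE.ν C.mE.μ) =
        ∫ y, H32Z.CutOff.autK PGL(2, F) (C.tkB κ n k) y y ∂(cF.ν C.mF.μ)

end CSetup

/-! ### The output -/

section MForm

variable {K : Type*} [Field K] [NumberField K] {J : Type*} [Fintype J]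

open Classical in
/-- The conditions on the function `Φ` delivered by block (C). -/
structure IsMForm (m : Model K J) (S : Finset (HeightOneSpectrum (𝓞 K)))
    (v0 : HeightOneSpectrum (𝓞 K)) (T : HeightOneSpectrum (𝓞 K) → TD K)
    (a : HeightOneSpectrum (𝓞 K) → ℝ) (Φ : m.X → ℂ) : Prop where
  inv : ∀ (g : PGL(2, K)) (x : m.X), Φ (g • x) = Φ x
  bdd : ∃ M : ℝ, ∀ x, ‖Φ x‖ ≤ M
  cont : ∀ y : XF m.L.fam, Continuous fun τ : J → H3 => Φ (τ, y)
  rad : ∀ κ : (J → ℝ) → ℂ, H9Z.Ker κ → ∀ (y : XF m.L.fam) (τ : J → H3),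
    H5Z.Rk κ (fun v => Φ (v, y)) τ = H9Z.hat κ * Φ (τ, y)
  hecke : ∀ w ∉ S, w ≠ v0 → ∀ (ϖ : Kˣ), w.valuation K (ϖ : K) = exp (-(1 : ℤ)) →
    ∀ R : Finset K, H51Z.IsReps (w.valuation K) 1 R →
      H7.Z.HeckeX m Φ w ϖ R ((Real.sqrt (Ideal.absNorm w.asIdeal) * a w : ℝ) : ℂ)
  U : ∃ u : ℂ, u ≠ 0 ∧ ∀ (ϖ : Kˣ), v0.valuation K (ϖ : K) = exp (-(1 : ℤ)) →
    ∀ R : Finset K, H51Z.IsReps (v0.valuation K) 1 R → H7.Z.UX m Φ v0 ϖ R u
  typ : ∀ w ∈ S, ∀ h ∈ (T w).H, ∀ (τ : J → H3) (y : XF m.L.fam) (g : PGL(2, K)),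
    Φ (τ, XF.upd y w ((g * h : PGL(2, K)) : PGL(2, K) ⧸ m.L.fam.U w)) =
      (T w).chi h * Φ (τ, XF.upd y w ((g : PGL(2, K)) : PGL(2, K) ⧸ m.L.fam.U w))
  ne : ∃ x, Φ x ≠ 0

/-- The output of block (C), the input of C21: a form on the model of `K` of level `ker ψ_v` at
`v ∈ S`, Iwahori level at `v0`, with `T_v`-eigenvalues `(N v)^(1/2) a v`. -/
def COut (K : Type) [Field K] [NumberField K] (S : Finset (HeightOneSpectrum (𝓞 K)))
    (v0 : HeightOneSpectrum (𝓞 K)) (a : HeightOneSpectrum (𝓞 K) → ℝ) : Prop :=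
  ∃ (m : Model K (Fin 1)) (T : HeightOneSpectrum (𝓞 K) → TD K) (Φ : m.X → ℂ),
    v0 ∉ S ∧ (∀ v ∈ S, m.L.U v = (T v).U) ∧ m.L.U v0 = H83Z.Iw v0 ∧
    (∀ v ∉ S, v ≠ v0 → m.L.U v = H59D.U0 v) ∧ (∀ v ∉ S, H7.Z.Unram v) ∧
    (∀ v ∈ S, ∀ x, (T v).psi x = H7.Z.psi v x) ∧
    (∀ v ∈ S, H7.Z.DualAt (H7.Z.borP K) m.L.fam v (T v).B) ∧
    (∀ v ∈ S, (∀ b : K, (∀ r : K, v.valuation K r ≤ 1 → H7.Z.psi v (b * r) = 1) →
      b ∈ (T v).B) ∧ ∃ k : ℕ, ∀ c : K, v.valuation K c ≤ exp (-(k : ℤ)) → c ∈ (T v).C) ∧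
    IsMForm m S v0 T a Φ

end MForm

end Fermat.Agent.H79S
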