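import Fermat.Agent.H39ZInd
import Fermat.Agent.H79SDef
import Fermat.Agent.H51ZDisc

/-!
# The finite part of the aleph operator for the kernels of block (C) (helper39, S47 C5)
-/

set_option autoImplicit false
set_option linter.unusedSectionVars false
set_option linter.style.haveILetI false

open IsDedekindDomain HeightOneSpectrum WithZero NumberField MeasureTheory Module Matrix
open scoped MatrixGroups

noncomputable section

open scoped Classical

namespace Fermat.Agent.H39Z

open Fermat.Agent.H59XF Fermat.Agent.H59D Fermat.Agent.H12TW Fermat.Agent.H79S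
open Fermat.Agent.H7.Z (borP Bor)
open Fermat.Agent.H51Z (lop gop gs gmul single gone gext single_same single_ne bm dm bm_mul mk_dm
  lind lind_k DC IsCosetReps lop_lind repsT isCosetReps_repsT card_repsT dc_cellT cellT disc_nf
  card_reps_nf' IsReps lmul_one)

variable {K : Type*} [Field K] [NumberField K] {J J' : Type*} [Fintype J] [Fintype J']

theorem mk_bm (a : Kˣ) (b : K) : (ProjGenLinGroup.mk (bm a b) : PGL(2, K)) =
    (borP K).n b * (borP K).d a := by
  show _ = ProjGenLinGroup.mk (bm 1 b) * ProjGenLinGroup.mk (bm a 0)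
  rw [← map_mul, bm_mul]
  simp

theorem mk_dm' (a : Kˣ) : (ProjGenLinGroup.mk (dm a) : PGL(2, K)) = ((borP K).d a)⁻¹ := by
  rw [mk_dm, ← (borP K).d_inv]
  rfl

theorem sum_repsT {M : Type*} [AddCommMonoid M] {v : Valuation K ℤᵐ⁰} {a : Kˣ}
    (ha : v (a : K) = exp (-1 : ℤ)) {B : Finset K} (hB : IsReps v 1 B) (F : PGL(2, K) → M) :
    ∑ r ∈ repsT a B, F r = ∑ b ∈ B, F ((borP K).n b * (borP K).d a) +
      F (((borP K).d a)⁻¹) := by
  have hc := card_repsT ha hB
  unfold repsT at hc ⊢
  have h1 : (ProjGenLinGroup.mk (dm a) : PGL(2, K)) ∉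
      B.image (fun b => ProjGenLinGroup.mk (bm a b)) := by
    intro h
    rw [Finset.insert_eq_of_mem h] at hc
    have := Finset.card_image_le (s := B) (f := fun b => (ProjGenLinGroup.mk (bm a b) : PGL(2, K)))
    omega
  rw [Finset.card_insert_of_notMem h1] at hc
  have h2 : Set.InjOn (fun b => (ProjGenLinGroup.mk (bm a b) : PGL(2, K))) B :=
    Finset.card_image_iff.1 (by omega)
  rw [Finset.sum_insert h1, Finset.sum_image h2, add_comm, mk_dm']
  simp only [mk_bm]

/-- **The finite part.** -/
theorem finData_mono {m : Model K J'} {S : Finset (HeightOneSpectrum (𝓞 K))}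
    {w0 : HeightOneSpectrum (𝓞 K)} {Ty : HeightOneSpectrum (𝓞 K) → H76U.TD K}
    (D : KerData m S w0 Ty) {ι : Type} [Fintype ι] [DecidableEq ι]
    (w : ι → HeightOneSpectrum (𝓞 K)) (hw : ∀ i, w i ∉ S ∧ w i ≠ w0) (a : Kˣ)
    (ha : ∀ i, (w i).valuation K (a : K) = exp (-(1 : ℤ))) :
    FinData (J := J) w a (fun i => Ideal.absNorm (w i).asIdeal) (fun i => D.D.T (w i))
      (fun n => D.D.mono (∑ i, Finsupp.single (w i) (n i)) 0) where
  max i := D.lev_good _ (hw i).1 (hw i).2
  qpos i := Nat.pos_of_ne_zero fun h => (w i).ne_bot (Ideal.absNorm_eq_zero_iff.1 h)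
  hT i := by
    have hU : m.L.fam.U (w i) = H51Z.U0 ((w i).valuation K) := by
      rw [Level.fam_U, D.lev_good _ (hw i).1 (hw i).2, H51Z.U0_eq]
    set B := (disc_nf (w i)).reps 1 with hBdef
    have hB : IsReps ((w i).valuation K) 1 B := (disc_nf (w i)).isReps 1
    have hcard : B.card = Ideal.absNorm (w i).asIdeal := by
      rw [hBdef, card_reps_nf', pow_one]
    refine ⟨B, hcard, fun F y g hg => ?_⟩
    have hDC : DC (m.L.fam.U (w i)) (cellT ((w i).valuation K)) := by
      rw [hU]
      exact dc_cellT ⟨a, B, ha i, hB⟩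
    have hR : IsCosetReps (m.L.fam.U (w i)) (cellT ((w i).valuation K)) (repsT a B) := by
      rw [hU]
      exact isCosetReps_repsT (ha i) hB
    have hT : D.D.T (w i) = lind (cellT ((w i).valuation K)) hDC := by
      ext x y
      induction x using QuotientGroup.induction_on with
      | H x =>
        induction y using QuotientGroup.induction_on with
        | H y =>
          rw [lind_k]
          have h1 := D.T_ind (w i) (hw i).1 (hw i).2 x y
          by_cases h : x⁻¹ * y ∈ cellT ((w i).valuation K)
          · rw [if_pos h, h1.1 h]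
          · rw [if_neg h, h1.2 h]
    show lop (w i) (D.D.T (w i)) F y = _
    rw [hT, lop_lind (w i) hDC hR F y g hg,
      sum_repsT (ha i) hB fun r => F (XF.upd y (w i) ((g * r : PGL(2, K)) : PGL(2, K) ⧸ _))]
    simp only [mul_assoc]
  hf n i := by
    have hN : (∑ i', Finsupp.single (w i') ((n + Pi.single i 1 : ι → ℕ) i') :
        HeightOneSpectrum (𝓞 K) →₀ ℕ) =
        (∑ i', Finsupp.single (w i') (n i')) + Finsupp.single (w i) 1 := by
      simp only [Pi.add_apply, Finsupp.single_add, Finset.sum_add_distrib]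
      congr 1
      rw [Finset.sum_eq_single i]
      · rw [Pi.single_eq_same]
      · intro j _ hj
        rw [Pi.single_eq_of_ne hj, Finsupp.single_zero]
      · intro h; exact absurd (Finset.mem_univ i) h
    show D.D.mono _ 0 = _
    rw [hN]
    set N := (∑ i', Finsupp.single (w i') (n i') : HeightOneSpectrum (𝓞 K) →₀ ℕ) with hNdef
    apply gext
    intro v
    show D.D.loc (N + Finsupp.single (w i) 1) 0 v = LocKer.mul (D.D.loc N 0 v)
      ((single (w i) (D.D.T (w i)) : GlobKer m.L.fam).loc v)
    by_cases hv : v = w i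
    · subst hv
      have hS : w i ∉ D.D.S := by rw [D.D_S]; exact (hw i).1
      have h0 : w i ≠ D.D.w0 := by rw [D.D_w0]; exact (hw i).2
      rw [single_same, D.D.loc_good hS h0, D.D.loc_good hS h0, Finsupp.add_apply,
        Finsupp.single_eq_same, lpow_add, lpow_one]
    · rw [single_ne hv, lmul_one]
      unfold HData.loc
      rw [Finsupp.add_apply, Finsupp.single_eq_of_ne hv, add_zero]

end Fermat.Agent.H39Z
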