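import Fermat.Agent.H39ZCusp
import Fermat.Agent.H39ZFD
import Fermat.Agent.H75XRad
import Fermat.Agent.H17B1

/-!
# C5: the constant terms of the aleph operator vanish, final statements (helper39, S47 C5)

* `PData m S w0 w p`: the arithmetic data (`w i ∣ p`, `N (w i) = p ^ 2`, `p` close to `-1` at all
  other places);
* `c5_E`, `cuspAll_E`: the operator over the sextic field (`w` injective, three embeddings);
* `c5_F`, `cuspAll_F`: the operator over the quadratic field (`w` constant, one embedding).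
-/

set_option autoImplicit false
set_option linter.unusedSectionVars false
set_option linter.style.haveILetI false

open IsDedekindDomain HeightOneSpectrum WithZero NumberField MeasureTheory Module Matrix
open scoped MatrixGroups

noncomputable section

open scoped Classical

namespace Fermat.Agent.H39Z

open Fermat.Agent.H59XF Fermat.Agent.H59D Fermat.Agent.H12TW Fermat.Agent.H79S
open Fermat.Agent.H51Z (gop gs gmul single gone)
open Fermat.Agent.H56Z (IsRC abel conv)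
open Fermat.Agent.H5Z (Rk tr)
open Fermat.Agent.H80Al (IsAleph)
open Fermat.Agent.H86B (CuspAll)
open Fermat.Agent.H59K (fk Ix al ixs isAleph_al cf hdeg kE kF nE it k1 tn IsK1)

variable {K : Type*} [Field K] [NumberField K] {J : Type*} [Fintype J] {m : Model K J}

section gen

variable {ι κ : Type} [Fintype ι] [DecidableEq ι] [Fintype κ] [DecidableEq κ]

/-- The operator `C_1` kills constant terms, in the form of `H17S.C5`. -/
theorem c5_gen {P : MvPolynomial (ι ⊕ κ) ℤ} (hP : IsAleph P)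
    {w : ι → HeightOneSpectrum (𝓞 K)} {a : Kˣ} {q : ι → ℕ} {T : ∀ i, LocKer (m.L.fam.U (w i))}
    {f : (ι → ℕ) → GlobKer m.L.fam} (hD : FinData (J := J) w a q T f) {Lv : κ → J → ℝ}
    {kk : (κ → ℕ) → (J → ℝ) → ℂ} (hR : RadData Lv kk) {r : ℕ}
    (hr : ∀ i, (Finset.univ.filter fun i' => w i' = w i).card = r)
    (ha : ∀ v, (∀ i, w i ≠ v) → v.valuation K (a : K) = 1 ∧ ∃ n : ℕ, Gam v n ≤ m.L.U v ∧
      v.valuation K ((a : K) - 1) ≤ exp (-(n : ℤ)))
    (hL : ∀ j, ∑ k, Lv k j = Real.log ‖m.e j ((a ^ r : Kˣ) : K)‖)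
    (hq : ∏ i, (sqU q hD.qpos i : ℂ) = ((∏ j, ‖m.e j ((a ^ r : Kˣ) : K)‖ : ℝ) : ℂ))
    {κs : (ι ⊕ κ →₀ ℕ) → (J → ℝ) → ℂ}
    (hκs : ∀ n, κs n = fun t => ((MvPolynomial.coeff n P : ℤ) : ℂ) *
      nf q hD.qpos (fun i => n (Sum.inl i)) * kk (fun k => n (Sum.inr k)) t) :
    H17S.C5 m P.support κs (fun n => f fun i => n (Sum.inl i)) := by
  intro Φ hinv hlb y x
  obtain ⟨d, b, hb⟩ := H5Z.exists_basis m
  have hb' : ∀ v : J → ℂ, v ∈ Submodule.span ℤ (Set.range b) →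
      ∃ x : 𝓞 K, v = H5Z.emb m (x : K) := fun v hv => (hb v).1 hv
  have hΦ : AF m (fun y x => Φ (x, y)) := AF.of_inv hinv hlb
  have h1 := hΦ.ct0_C1 hb' hP hD hR hr ha hL hq y x
  have h2 : (fun x : J → H3 => H17S.opF P.support κs (fun n => f fun i => n (Sum.inl i)) Φ
      ((x, y) : m.X)) = C1 P q hD.qpos f kk (fun y x => Φ (x, y)) y := by
    funext x
    rw [H17S.opF, C1]
    refine Finset.sum_congr rfl fun n _ => ?_
    show ∑ y' ∈ gs (f fun i => n (Sum.inl i)) y, (f fun i => n (Sum.inl i)).k y y' *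
      Rk (κs n) (fun v => Φ (v, y')) x = _
    rw [Finset.mul_sum, Finset.mul_sum]
    refine Finset.sum_congr rfl fun y' _ => ?_
    rw [hκs n, Rk_const_mul']
    ring
  rw [h2]
  exact h1

end gen

/-! ### The numerical data -/

/-- The arithmetic data of the aleph operator. -/
structure PData (m : Model K J) (S : Finset (HeightOneSpectrum (𝓞 K)))
    (w0 : HeightOneSpectrum (𝓞 K)) (w : Fin 3 → HeightOneSpectrum (𝓞 K)) (p : ℕ) : Prop where
  pos : 0 < p
  good : ∀ i, w i ∉ S ∧ w i ≠ w0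
  nrm : ∀ i, Ideal.absNorm (w i).asIdeal = p ^ 2
  val : ∀ i, (w i).valuation K (p : K) = exp (-(1 : ℤ))
  out : ∀ v, (∀ i, w i ≠ v) → v.valuation K (p : K) = 1 ∧ ∃ n : ℕ, Gam v n ≤ m.L.U v ∧
    v.valuation K ((p : K) + 1) ≤ exp (-(n : ℤ))

/-- the unit `-p` -/
def mp (K : Type*) [Field K] [CharZero K] {p : ℕ} (hp : 0 < p) : Kˣ :=
  Units.mk0 (-(p : K)) (neg_ne_zero.2 (Nat.cast_ne_zero.2 hp.ne'))

theorem norm_mp {p : ℕ} (hp : 0 < p) (r : ℕ) (j : J) :
    ‖m.e j ((mp K hp ^ r : Kˣ) : K)‖ = (p : ℝ) ^ r := by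
  rw [Units.val_pow_eq_pow_val, map_pow, norm_pow]
  show ‖m.e j (-(p : K))‖ ^ r = _
  rw [map_neg, norm_neg, map_natCast, Complex.norm_natCast]

theorem nf_eq {w : Fin 3 → HeightOneSpectrum (𝓞 K)} {p : ℕ}
    (hN : ∀ i, Ideal.absNorm (w i).asIdeal = p ^ 2)
    (hq : ∀ i, 0 < Ideal.absNorm (w i).asIdeal) (n : Fin 3 → ℕ) :
    nf (fun i => Ideal.absNorm (w i).asIdeal) hq n =
      ((((√((p : ℝ) ^ 2))⁻¹) ^ (∑ i, n i) : ℝ) : ℂ) := by
  rw [nf, ← Finset.prod_pow_eq_pow_sum]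
  push_cast
  refine Finset.prod_congr rfl fun i _ => ?_
  congr 2
  show ((Real.sqrt ((Ideal.absNorm (w i).asIdeal : ℕ) : ℝ) : ℝ) : ℂ) = _
  rw [hN i]
  push_cast
  rfl

section side

variable {S : Finset (HeightOneSpectrum (𝓞 K))} {w0 : HeightOneSpectrum (𝓞 K)}
  {Ty : HeightOneSpectrum (𝓞 K) → H76U.TD K} {w : Fin 3 → HeightOneSpectrum (𝓞 K)} {p : ℕ}

theorem PData.hyps (hP : PData m S w0 w p) {r : ℕ}
    (hr : ∀ i, (Finset.univ.filter fun i' => w i' = w i).card = r)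
    (hrJ : r * Fintype.card J = 3) (hqpos : ∀ i, 0 < Ideal.absNorm (w i).asIdeal) :
    (∀ v, (∀ i, w i ≠ v) → v.valuation K (mp K hP.pos : K) = 1 ∧ ∃ n : ℕ, Gam v n ≤ m.L.U v ∧
      v.valuation K ((mp K hP.pos : K) - 1) ≤ exp (-(n : ℤ))) ∧
    ∏ i, (sqU (fun i => Ideal.absNorm (w i).asIdeal) hqpos i : ℂ) =
      ((∏ j : J, ‖m.e j ((mp K hP.pos ^ r : Kˣ) : K)‖ : ℝ) : ℂ) := by
  refine ⟨fun v hv => ?_, ?_⟩
  · obtain ⟨h1, n, h2, h3⟩ := hP.out v hv
    have e1 : ((mp K hP.pos : Kˣ) : K) = -(p : K) := rfl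
    refine ⟨by rw [e1, Valuation.map_neg, h1], n, h2, ?_⟩
    have e2 : -(p : K) - 1 = -((p : K) + 1) := by ring
    rw [e1, e2, Valuation.map_neg]
    exact h3
  · simp only [norm_mp]
    rw [Finset.prod_const, Finset.card_univ, ← pow_mul, hrJ]
    have h1 : ∀ i, (sqU (fun i => Ideal.absNorm (w i).asIdeal) hqpos i : ℂ) = (p : ℂ) := by
      intro i
      show ((Real.sqrt ((Ideal.absNorm (w i).asIdeal : ℕ) : ℝ) : ℝ) : ℂ) = _
      rw [hP.nrm i]
      push_cast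
      rw [Real.sqrt_sq (Nat.cast_nonneg p)]
      simp
    simp only [h1, Finset.prod_const, Finset.card_univ, Fintype.card_fin]
    push_cast
    rfl

theorem side_gen (D : KerData m S w0 Ty) (hP : PData m S w0 w p) {r : ℕ}
    (hr : ∀ i, (Finset.univ.filter fun i' => w i' = w i).card = r)
    (hrJ : r * Fintype.card J = 3) {Lv : Fin 3 → J → ℝ} {kk : (Fin 3 → ℕ) → (J → ℝ) → ℂ}
    (hR : RadData Lv kk) (hL : ∀ j, ∑ k, Lv k j = r * Real.log p)
    {κs : Ix → (J → ℝ) → ℂ}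
    (hκs : ∀ n, κs n = fun t => (cf ((p : ℝ) ^ 2) n : ℂ) * kk (fun k => n (Sum.inr k)) t) :
    H17S.C5 m ixs κs (fun n => D.D.mono (nE w n) 0) ∧
      ∀ a0 : (J → ℝ) → ℂ, IsRC a0 →
        CuspAll m (fk m ixs (fun n => it a0 1 (κs n)) (fun n => D.D.mono (nE w n) 0)) := by
  have hval : ∀ i, (w i).valuation K ((mp K hP.pos : Kˣ) : K) = exp (-(1 : ℤ)) := by
    intro i
    show (w i).valuation K (-(p : K)) = _
    rw [Valuation.map_neg]
    exact hP.val i
  have hD := finData_mono (J := J) D w hP.good (mp K hP.pos) hval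
  obtain ⟨ha, hq⟩ := hP.hyps hr hrJ hD.qpos
  have hL' : ∀ j, ∑ k, Lv k j = Real.log ‖m.e j ((mp K hP.pos ^ r : Kˣ) : K)‖ := by
    intro j
    rw [norm_mp, Real.log_pow, hL]
  have hκs' : ∀ n : Ix, κs n = fun t => ((MvPolynomial.coeff n al : ℤ) : ℂ) *
      nf (fun i => Ideal.absNorm (w i).asIdeal) hD.qpos (fun i => n (Sum.inl i)) *
        kk (fun k => n (Sum.inr k)) t := by
    intro n
    rw [hκs n]
    funext t
    rw [nf_eq hP.nrm, cf, hdeg]
    push_cast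
    rfl
  exact ⟨c5_gen isAleph_al hD hR hr ha hL' hq hκs', fun a0 ha0 =>
    cuspAll_C1 isAleph_al hD hR hr ha hL' hq hκs' ha0⟩

end side

/-! ### The two sides -/

section final

variable {S : Finset (HeightOneSpectrum (𝓞 K))} {w0 : HeightOneSpectrum (𝓞 K)}
  {Ty : HeightOneSpectrum (𝓞 K) → H76U.TD K} {p : ℕ} {k : ℕ → ℝ → ℝ}

/-- **C5 over the sextic field.** -/
theorem final_E {m : Model K (Fin 3)} (D : KerData m S w0 Ty)
    {w : Fin 3 → HeightOneSpectrum (𝓞 K)} (hw : Function.Injective w) (hP : PData m S w0 w p)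
    {q : ℝ} (hq : q = (p : ℝ) ^ 2) (hk : ∀ i, IsK1 (k i))
    (hs : ∀ n (u : Fin 1 → ℝ), abel (k1 (k (n + 1))) u =
      abel (k1 (k n)) (u + fun _ => Real.log p) + abel (k1 (k n)) (u - fun _ => Real.log p)) :
    H17S.C5 m ixs (kE q k) (fun n => D.D.mono (nE w n) 0) ∧
      ∀ a0 : (Fin 3 → ℝ) → ℂ, IsRC a0 →
        CuspAll m (fk m ixs (fun n => it a0 1 (kE q k n)) (fun n => D.D.mono (nE w n) 0)) := by
  subst hq
  refine side_gen (r := 1) D hP (fun i => ?_) (by simp) (H75X.radData_E hk hs) (fun j => ?_)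
    (fun n => rfl)
  · rw [Finset.card_eq_one]
    refine ⟨i, ?_⟩
    ext i'
    simp [hw.eq_iff]
  · simp

/-- **C5 over the quadratic field.** -/
theorem final_F {m : Model K (Fin 1)} (D : KerData m S w0 Ty) {v : HeightOneSpectrum (𝓞 K)}
    (hP : PData m S w0 (fun _ => v) p)
    {q : ℝ} (hq : q = (p : ℝ) ^ 2) (hk : ∀ i, IsK1 (k i))
    (hs : ∀ n (u : Fin 1 → ℝ), abel (k1 (k (n + 1))) u =
      abel (k1 (k n)) (u + fun _ => Real.log p) + abel (k1 (k n)) (u - fun _ => Real.log p)) :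
    H17S.C5 m ixs (kF q k) (fun n => D.D.mono (nE (fun _ => v) n) 0) ∧
      ∀ a0 : (Fin 1 → ℝ) → ℂ, IsRC a0 →
        CuspAll m (fk m ixs (fun n => it a0 1 (kF q k n))
          (fun n => D.D.mono (nE (fun _ => v) n) 0)) := by
  subst hq
  refine side_gen (r := 3) D hP (fun i => ?_) (by simp) (H75X.radData_F hk hs) (fun j => ?_)
    (fun n => ?_)
  · simp
  · simp
  · exact H67M.bF_const_mul _ _

end final

end Fermat.Agent.H39Z
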