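import Fermat.Agent.H82LocIndex2

/-!
# `[Kˣ : ⨅_{v ∈ T} Kˣᵖ (1 + v^(m_v))] = p^(2 #T + [K:ℚ])`
-/

set_option autoImplicit false

noncomputable section

open IsDedekindDomain NumberField WithZero

namespace Fermat.Agent.H82

variable {K : Type*} [Field K] [NumberField K]

/-- `m` is so large that `1 + v^m` consists of local `p`-th powers. -/
def Deep (ζ : K) (p : ℕ) (v : HeightOneSpectrum (𝓞 K)) (m : ℕ) : Prop :=
  (exp (-(m : ℤ)) : ℤᵐ⁰) < v.valuation K (ζ - 1) ^ p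

theorem Deep.iff {ζ : K} {p : ℕ} {v : HeightOneSpectrum (𝓞 K)} {m c : ℕ}
    (hc : v.valuation K (ζ - 1) = exp (-(c : ℤ))) : Deep ζ p v m ↔ p * c < m := by
  rw [Deep, hc, ← exp_nsmul, exp_lt_exp]
  simp only [nsmul_eq_mul, mul_neg, neg_lt_neg_iff]
  exact_mod_cast Iff.rfl

theorem exists_deep {ζ : K} {p : ℕ} (hp : 1 < p) (hζ : IsPrimitiveRoot ζ p)
    (v : HeightOneSpectrum (𝓞 K)) : ∃ m, Deep ζ p v m := by
  obtain ⟨c, hc⟩ := exists_exp_of_root v hp hζ
  exact ⟨p * c + 1, (Deep.iff hc).2 (Nat.lt_succ_self _)⟩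

theorem Deep.mono {ζ : K} {p : ℕ} {v : HeightOneSpectrum (𝓞 K)} {m n : ℕ} (h : m ≤ n)
    (hm : Deep ζ p v m) : Deep ζ p v n := by
  refine lt_of_le_of_lt ?_ hm
  rw [exp_le_exp]; omega

theorem Deep.pos {ζ : K} {p : ℕ} {v : HeightOneSpectrum (𝓞 K)} {m : ℕ} (hp : 1 < p)
    (hζ : IsPrimitiveRoot ζ p) (hm : Deep ζ p v m) : 0 < m := by
  obtain ⟨c, hc⟩ := exists_exp_of_root v hp hζ
  have := (Deep.iff hc).1 hm
  omega

/-- Away from `p`, `m = 1` is deep. -/
theorem deep_of_not_dvd {ζ : K} {p : ℕ} [hp : Fact p.Prime] (hζ : IsPrimitiveRoot ζ p)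
    {v : HeightOneSpectrum (𝓞 K)} (hv : v.valuation K (p : K) = 1) {m : ℕ} (hm : 0 < m) :
    Deep ζ p v m := by
  obtain ⟨c, hc⟩ := exists_exp_of_root v hp.out.one_lt hζ
  have h1 := val_prime (v.valuation K) hζ
  rw [hv, hc, ← exp_nsmul, eq_comm, exp_eq_one] at h1
  have h2 : c = 0 := by
    have h3 : ((p - 1 : ℕ) : ℤ) * (-(c : ℤ)) = 0 := by simpa using h1
    have h4 : ((p - 1 : ℕ) : ℤ) ≠ 0 := by
      have := hp.out.two_le
      have : p - 1 ≠ 0 := by omega
      exact_mod_cast this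
    rcases mul_eq_zero.1 h3 with h | h
    · exact absurd h h4
    · simpa using h
  rw [Deep.iff hc, h2]
  simpa using hm

theorem absNorm_natCast (n : ℕ) :
    Ideal.absNorm (Ideal.span {(n : 𝓞 K)}) = n ^ Module.finrank ℚ K := by
  rw [Ideal.absNorm_span_singleton]
  have h1 : (n : 𝓞 K) = algebraMap ℤ (𝓞 K) (n : ℤ) := by simp
  rw [h1, Algebra.norm_algebraMap, RingOfIntegers.rank, Int.natAbs_pow, Int.natAbs_natCast]

theorem prod_absNorm (T : Finset (HeightOneSpectrum (𝓞 K))) {r : 𝓞 K} (hr : r ≠ 0)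
    (e : HeightOneSpectrum (𝓞 K) → ℕ)
    (he : ∀ v ∈ T, v.valuation K (algebraMap (𝓞 K) K r) = exp (-(e v : ℤ)))
    (hT : ∀ v, v ∉ T → v.valuation K (algebraMap (𝓞 K) K r) = 1) :
    ∏ v ∈ T, Ideal.absNorm v.asIdeal ^ (e v) = Ideal.absNorm (Ideal.span {r}) := by
  have h0 : Ideal.span {r} ≠ 0 := by
    rw [Ideal.zero_eq_bot, Ne, Ideal.span_singleton_eq_bot]; exact hr
  have hcount : ∀ v : HeightOneSpectrum (𝓞 K), v.valuation K (algebraMap (𝓞 K) K r)
      = exp (-((Associates.mk v.asIdeal).count (Associates.mk (Ideal.span {r})).factors : ℤ)) := by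
    intro v
    rw [HeightOneSpectrum.valuation_of_algebraMap, HeightOneSpectrum.intValuation_if_neg _ hr]
  have h1 := Ideal.finprod_heightOneSpectrum_factorization h0
  have h2 : Function.mulSupport (fun v : HeightOneSpectrum (𝓞 K) =>
      v.maxPowDividing (Ideal.span {r})) ⊆ T := by
    intro v hv
    by_contra hvT
    apply hv
    have h3 := hT v hvT
    rw [hcount v, exp_eq_one] at h3
    have h4 : (Associates.mk v.asIdeal).count (Associates.mk (Ideal.span {r})).factors = 0 := by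
      simpa using h3
    simp only [HeightOneSpectrum.maxPowDividing, h4, pow_zero]
  rw [finprod_eq_prod_of_mulSupport_subset _ h2] at h1
  rw [← h1, map_prod]
  refine Finset.prod_congr rfl fun v hv => ?_
  have h3 := he v hv
  rw [hcount v, exp_inj] at h3
  have h4 : (Associates.mk v.asIdeal).count (Associates.mk (Ideal.span {r})).factors = e v := by
    have := neg_inj.1 h3
    exact_mod_cast this
  rw [HeightOneSpectrum.maxPowDividing, map_pow, h4]

variable {p : ℕ} [hp : Fact p.Prime] {ζ : K} (hζ : IsPrimitiveRoot ζ p)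

include hζ

/-- `|K_vˣ / K_vˣᵖ|`. -/
theorem index_locPow' (v : HeightOneSpectrum (𝓞 K)) {m : ℕ} (hm : Deep ζ p v m) :
    ∃ e : ℕ, v.valuation K (p : K) = exp (-(e : ℤ)) ∧
      (locPow p v m).index = p ^ 2 * Ideal.absNorm v.asIdeal ^ e := by
  obtain ⟨c, hc⟩ := exists_exp_of_root v hp.out.one_lt hζ
  refine ⟨(p - 1) * c, ?_, index_locPow v hζ hc ((Deep.iff hc).1 hm)⟩
  rw [val_prime (v.valuation K) hζ, hc, ← exp_nsmul]
  congr 1
  push_cast
  simp

theorem index_locPow_ne_zero (v : HeightOneSpectrum (𝓞 K)) {m : ℕ} (hm : Deep ζ p v m) :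
    (locPow p v m).index ≠ 0 := by
  obtain ⟨e, -, h⟩ := index_locPow' hζ v hm
  rw [h]
  exact mul_ne_zero (pow_ne_zero _ hp.out.ne_zero) (pow_ne_zero _ (absNorm_pos v).ne')

theorem index_iInf_locPow (T : Finset (HeightOneSpectrum (𝓞 K)))
    (hT : ∀ v, v ∉ T → v.valuation K (p : K) = 1) (m : HeightOneSpectrum (𝓞 K) → ℕ)
    (hm : ∀ v ∈ T, Deep ζ p v (m v)) :
    (⨅ v ∈ T, locPow p v (m v)).index = p ^ (2 * T.card + Module.finrank ℚ K) := by
  rw [index_iInf T m (fun v => locPow p v (m v)) (fun v _ => le_sup_right)]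
  choose! e he1 he2 using fun v (hv : v ∈ T) => index_locPow' hζ v (hm v hv)
  rw [Finset.prod_congr rfl he2, Finset.prod_mul_distrib, Finset.prod_const, ← pow_mul, pow_add]
  congr 1
  have hp0 : (p : 𝓞 K) ≠ 0 := by exact_mod_cast hp.out.ne_zero
  rw [prod_absNorm (K := K) T hp0 e (fun v hv => by rw [map_natCast]; exact he1 v hv)
    (fun v hv => by rw [map_natCast]; exact hT v hv), absNorm_natCast]

end Fermat.Agent.H82
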