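import Mathlib

/-!
# S47, part 2: local factors of the Asai series and of the Rankin-Selberg series

`cU t k` is the value at the `k`-th power of a prime of a normalised Hecke eigensystem with
eigenvalue `t`. For `x > 0` with both `∑ U_k(t)² x^k` and `∑ U_k(t')² x^k` convergent we prove
`(∑ U_k(t) U_k(t') x^k)² (∑ U_k(t)² x^k) (∑ U_k(t')² x^k) ≥ (1 - x²)⁴`.
-/

set_option autoImplicit false

namespace Fermat.Agent.H91.Z

/-- Chebyshev recursion -/
def cU (t : ℝ) : ℕ → ℝ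
  | 0 => 1
  | 1 => t
  | (k + 2) => t * cU t (k + 1) - cU t k

@[simp] lemma cU_zero (t : ℝ) : cU t 0 = 1 := rfl
@[simp] lemma cU_one (t : ℝ) : cU t 1 = t := rfl
lemma cU_add_two (t : ℝ) (k : ℕ) : cU t (k + 2) = t * cU t (k + 1) - cU t k := rfl

section sums

variable {t t' x : ℝ}

lemma summable_mul (h : Summable fun k => cU t k ^ 2 * x ^ k)
    (h' : Summable fun k => cU t' k ^ 2 * x ^ k) (hx : 0 ≤ x) :
    Summable fun k => cU t k * cU t' k * x ^ k := by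
  refine Summable.of_norm_bounded (((h.add h').mul_left (1 / 2))) fun k => ?_
  have hk : (0 : ℝ) ≤ x ^ k := pow_nonneg hx k
  rw [Real.norm_eq_abs, abs_mul, abs_mul, abs_of_nonneg hk]
  have h1 : |cU t k| * |cU t' k| ≤ 1 / 2 * (cU t k ^ 2 + cU t' k ^ 2) := by
    nlinarith [sq_nonneg (|cU t k| - |cU t' k|), sq_abs (cU t k), sq_abs (cU t' k)]
  calc |cU t k| * |cU t' k| * x ^ k ≤ 1 / 2 * (cU t k ^ 2 + cU t' k ^ 2) * x ^ k :=
        mul_le_mul_of_nonneg_right h1 hk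
    _ = _ := by ring

lemma summable_succ (h : Summable fun k => cU t k ^ 2 * x ^ k) (hx : 0 < x) :
    Summable fun k => cU t (k + 1) ^ 2 * x ^ k := by
  have h1 := ((summable_nat_add_iff 1).2 h).mul_left (x⁻¹)
  refine h1.congr fun k => ?_
  rw [pow_succ x k]
  field_simp

lemma summable_mul_succ (h : Summable fun k => cU t k ^ 2 * x ^ k)
    (h' : Summable fun k => cU t' k ^ 2 * x ^ k) (hx : 0 < x) :
    Summable fun k => cU t (k + 1) * cU t' k * x ^ k := by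
  refine Summable.of_norm_bounded ((((summable_succ h hx).add h').mul_left (1 / 2))) fun k => ?_
  have hk : (0 : ℝ) ≤ x ^ k := pow_nonneg hx.le k
  rw [Real.norm_eq_abs, abs_mul, abs_mul, abs_of_nonneg hk]
  have h1 : |cU t (k + 1)| * |cU t' k| ≤ 1 / 2 * (cU t (k + 1) ^ 2 + cU t' k ^ 2) := by
    nlinarith [sq_nonneg (|cU t (k + 1)| - |cU t' k|), sq_abs (cU t (k + 1)), sq_abs (cU t' k)]
  calc |cU t (k + 1)| * |cU t' k| * x ^ k
      ≤ 1 / 2 * (cU t (k + 1) ^ 2 + cU t' k ^ 2) * x ^ k := mul_le_mul_of_nonneg_right h1 hk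
    _ = _ := by ring

/-- the polynomial `Q` -/
def Qp (t t' x : ℝ) : ℝ := (1 - x ^ 2) ^ 2 - t * t' * x * (1 + x ^ 2) + (t ^ 2 + t' ^ 2) * x ^ 2

/-- closed form of the Asai factor -/
theorem tsum_mul_Qp (h : Summable fun k => cU t k ^ 2 * x ^ k)
    (h' : Summable fun k => cU t' k ^ 2 * x ^ k) (hx : 0 < x) (hx1 : x < 1) :
    (∑' k, cU t k * cU t' k * x ^ k) * Qp t t' x = 1 - x ^ 2 := by
  set G := ∑' k, cU t k * cU t' k * x ^ k with hG
  set H := ∑' k, cU t (k + 1) * cU t' k * x ^ k with hH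
  set H' := ∑' k, cU t' (k + 1) * cU t k * x ^ k with hH'
  have sG := summable_mul h h' hx.le
  have sH := summable_mul_succ h h' hx
  have sH' := summable_mul_succ h' h hx
  have sG1 : Summable fun k => cU t (k + 1) * cU t' (k + 1) * x ^ k := by
    have := ((summable_nat_add_iff 1).2 sG).mul_left (x⁻¹)
    refine this.congr fun k => ?_
    rw [pow_succ]; field_simp
  have eG1 : x * (∑' k, cU t (k + 1) * cU t' (k + 1) * x ^ k) = G - 1 := by
    rw [hG, sG.tsum_eq_zero_add, ← tsum_mul_left]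
    have : ∀ k, x * (cU t (k + 1) * cU t' (k + 1) * x ^ k) =
        cU t (k + 1) * cU t' (k + 1) * x ^ (k + 1) := fun k => by rw [pow_succ]; ring
    simp only [this, cU_zero, pow_zero]
    ring
  have eH : H = t * G - x * H' := by
    have s1 : Summable fun k => t * (cU t (k + 1) * cU t' (k + 1) * x ^ k) -
        cU t' (k + 1) * cU t k * x ^ k := (sG1.mul_left t).sub sH'
    have h1 : H = t + x * ∑' k, (t * (cU t (k + 1) * cU t' (k + 1) * x ^ k) -
        cU t' (k + 1) * cU t k * x ^ k) := by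
      rw [hH, sH.tsum_eq_zero_add, ← tsum_mul_left]
      have : ∀ k, x * (t * (cU t (k + 1) * cU t' (k + 1) * x ^ k) -
          cU t' (k + 1) * cU t k * x ^ k) = cU t (k + 1 + 1) * cU t' (k + 1) * x ^ (k + 1) := by
        intro k
        rw [cU_add_two, pow_succ]; ring
      simp only [this, cU_zero, pow_zero, zero_add, cU_one]
      ring
    rw [h1, ((sG1.mul_left t).tsum_sub sH'), tsum_mul_left, ← hH']
    have := eG1
    linear_combination t * this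
  have eH' : H' = t' * G - x * H := by
    have s1 : Summable fun k => t' * (cU t (k + 1) * cU t' (k + 1) * x ^ k) -
        cU t (k + 1) * cU t' k * x ^ k := (sG1.mul_left t').sub sH
    have h1 : H' = t' + x * ∑' k, (t' * (cU t (k + 1) * cU t' (k + 1) * x ^ k) -
        cU t (k + 1) * cU t' k * x ^ k) := by
      rw [hH', sH'.tsum_eq_zero_add, ← tsum_mul_left]
      have : ∀ k, x * (t' * (cU t (k + 1) * cU t' (k + 1) * x ^ k) -
          cU t (k + 1) * cU t' k * x ^ k) = cU t' (k + 1 + 1) * cU t (k + 1) * x ^ (k + 1) := by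
        intro k
        rw [cU_add_two, pow_succ]; ring
      simp only [this, cU_zero, pow_zero, zero_add, cU_one]
      ring
    rw [h1, ((sG1.mul_left t').tsum_sub sH), tsum_mul_left, ← hH]
    have := eG1
    linear_combination t' * this
  have eG : x * (∑' k, cU t (k + 1) * cU t' (k + 1) * x ^ k) =
      t * t' * x + x ^ 2 * (t * t' * (∑' k, cU t (k + 1) * cU t' (k + 1) * x ^ k) -
        t * H - t' * H' + G) := by
    have s2 : Summable fun k => t * t' * (cU t (k + 1) * cU t' (k + 1) * x ^ k) -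
        t * (cU t (k + 1) * cU t' k * x ^ k) - t' * (cU t' (k + 1) * cU t k * x ^ k) +
        cU t k * cU t' k * x ^ k :=
      (((sG1.mul_left _).sub (sH.mul_left _)).sub (sH'.mul_left _)).add sG
    have e2 : t * t' * (∑' k, cU t (k + 1) * cU t' (k + 1) * x ^ k) -
        t * H - t' * H' + G = ∑' k, (t * t' * (cU t (k + 1) * cU t' (k + 1) * x ^ k) -
        t * (cU t (k + 1) * cU t' k * x ^ k) - t' * (cU t' (k + 1) * cU t k * x ^ k) +
        cU t k * cU t' k * x ^ k) := by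
      rw [(((sG1.mul_left _).sub (sH.mul_left _)).sub (sH'.mul_left _)).tsum_add sG,
        ((sG1.mul_left _).sub (sH.mul_left _)).tsum_sub (sH'.mul_left _),
        (sG1.mul_left _).tsum_sub (sH.mul_left _), tsum_mul_left, tsum_mul_left, tsum_mul_left]
    rw [e2, sG1.tsum_eq_zero_add, mul_add, ← tsum_mul_left, ← tsum_mul_left]
    congr 1
    · simp only [zero_add, cU_one, pow_zero]; ring
    · refine tsum_congr fun k => ?_
      rw [cU_add_two, cU_add_two, pow_succ]; ring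
  have hx2 : (1 : ℝ) - x ^ 2 ≠ 0 := by nlinarith
  have f1 : H * (1 - x ^ 2) = (t - x * t') * G := by
    linear_combination eH - x * eH'
  have f2 : H' * (1 - x ^ 2) = (t' - x * t) * G := by
    linear_combination eH' - x * eH
  have f3 : G * (1 - t * t' * x - x ^ 2) + x ^ 2 * (t * H + t' * H') = 1 := by
    have := eG
    set S := ∑' k, cU t (k + 1) * cU t' (k + 1) * x ^ k
    linear_combination (1 - t * t' * x) * (-1 : ℝ) * eG1 + eG
  have f4 := congrArg (fun z => z * (1 - x ^ 2)) f3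
  simp only [one_mul] at f4
  rw [← f4, Qp]
  linear_combination (-(x ^ 2) * t) * f1 + (-(x ^ 2) * t') * f2

/-- closed form of the Rankin-Selberg factor -/
theorem tsum_sq_mul (h : Summable fun k => cU t k ^ 2 * x ^ k) (hx : 0 < x) (hx1 : x < 1) :
    (∑' k, cU t k ^ 2 * x ^ k) * ((1 - x) * ((1 + x) ^ 2 - t ^ 2 * x)) = 1 + x := by
  have h1 := tsum_mul_Qp h h hx hx1
  have e : ∀ k, cU t k * cU t k * x ^ k = cU t k ^ 2 * x ^ k := fun k => by ring
  simp only [e] at h1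
  have hx2 : (1 : ℝ) - x ≠ 0 := by linarith
  apply mul_right_cancel₀ hx2
  rw [Qp] at h1
  linear_combination h1

/-- `R = (1 + x)² - t² x > 0` -/
lemma R_pos (h : Summable fun k => cU t k ^ 2 * x ^ k) (hx : 0 < x) (hx1 : x < 1) :
    0 < (1 + x) ^ 2 - t ^ 2 * x := by
  have h1 := tsum_sq_mul h hx hx1
  have h2 : 0 ≤ ∑' k, cU t k ^ 2 * x ^ k :=
    tsum_nonneg fun k => mul_nonneg (sq_nonneg _) (pow_nonneg hx.le k)
  by_contra hcon
  push Not at hcon
  have h3 : (1 - x) * ((1 + x) ^ 2 - t ^ 2 * x) ≤ 0 :=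
    mul_nonpos_of_nonneg_of_nonpos (by linarith) hcon
  have h4 := mul_nonpos_of_nonneg_of_nonpos h2 h3
  linarith

lemma Qp_pos (hx : 0 < x) (hx1 : x < 1) (hR : 0 < (1 + x) ^ 2 - t ^ 2 * x)
    (hR' : 0 < (1 + x) ^ 2 - t' ^ 2 * x) : 0 < Qp t t' x := by
  have key : ∀ a b : ℝ, 0 < (1 + x) ^ 2 - a ^ 2 * x → 0 < (1 + x) ^ 2 - b ^ 2 * x →
      0 < Qp a b x := by
    intro a b ha hb
    rw [Qp]
    -- `Q = (1-x²)² - a b x (1+x²) + (a²+b²)x²`
    have h1 : a * b * x ≤ ((a ^ 2 + b ^ 2) / 2) * x := by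
      apply mul_le_mul_of_nonneg_right _ hx.le
      nlinarith [sq_nonneg (a - b)]
    have h2 : ((a ^ 2 + b ^ 2) / 2) * x < (1 + x) ^ 2 := by nlinarith
    have h3 : 0 ≤ ((a ^ 2 + b ^ 2) / 2) * x := by positivity
    obtain ⟨m, hm⟩ : ∃ m, m = ((a ^ 2 + b ^ 2) / 2) * x := ⟨_, rfl⟩
    rw [← hm] at h1 h2 h3
    have h4 : (a ^ 2 + b ^ 2) * x ^ 2 = 2 * m * x := by rw [hm]; ring
    rw [h4]
    have h5 : a * b * x * (1 + x ^ 2) ≤ m * (1 + x ^ 2) :=
      mul_le_mul_of_nonneg_right h1 (by positivity)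
    have h6 : m * (1 - x) ^ 2 < (1 + x) ^ 2 * (1 - x) ^ 2 := by
      refine mul_lt_mul_of_pos_right h2 ?_
      have : 0 < 1 - x := by linarith
      positivity
    have e : (1 - x ^ 2) ^ 2 = (1 + x) ^ 2 * (1 - x) ^ 2 := by ring
    rw [e]
    linarith [h5, h6]
  exact key t t' hR hR'

/-- the elementary inequality behind the comparison -/
lemma Qp_le (hx : 0 < x) (hx1 : x < 1) (hR : 0 < (1 + x) ^ 2 - t ^ 2 * x)
    (hR' : 0 < (1 + x) ^ 2 - t' ^ 2 * x) :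
    Qp t t' x ^ 2 * ((1 + x) ^ 2 - t ^ 2 * x) * ((1 + x) ^ 2 - t' ^ 2 * x) * (1 - x) ^ 4 ≤ 1 := by
  have hQ := Qp_pos hx hx1 hR hR'
  obtain ⟨m, hm⟩ : ∃ m, m = ((t ^ 2 + t' ^ 2) / 2) * x := ⟨_, rfl⟩
  have h1 : -(t * t' * x) ≤ m := by
    rw [hm]
    have h0 : -(t * t') ≤ (t ^ 2 + t' ^ 2) / 2 := by nlinarith [sq_nonneg (t + t')]
    calc -(t * t' * x) = -(t * t') * x := by ring
      _ ≤ _ := mul_le_mul_of_nonneg_right h0 hx.le
  have hm0 : 0 ≤ m := by rw [hm]; positivity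
  have hm1 : m < (1 + x) ^ 2 := by rw [hm]; linarith
  -- `Q ≤ (1-x²)² + m (1+x)²`
  have h2 : Qp t t' x ≤ (1 - x ^ 2) ^ 2 + m * (1 + x) ^ 2 := by
    rw [Qp]
    have h4 : (t ^ 2 + t' ^ 2) * x ^ 2 = 2 * m * x := by rw [hm]; ring
    rw [h4]
    have h5 : -(t * t' * x) * (1 + x ^ 2) ≤ m * (1 + x ^ 2) :=
      mul_le_mul_of_nonneg_right h1 (by positivity)
    linarith [h5]
  -- AM-GM for the two `R`
  have h3 : ((1 + x) ^ 2 - t ^ 2 * x) * ((1 + x) ^ 2 - t' ^ 2 * x) ≤ ((1 + x) ^ 2 - m) ^ 2 := by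
    have : (1 + x) ^ 2 - m = (((1 + x) ^ 2 - t ^ 2 * x) + ((1 + x) ^ 2 - t' ^ 2 * x)) / 2 := by
      rw [hm]; ring
    rw [this]
    have h0 := sq_nonneg (((1 + x) ^ 2 - t ^ 2 * x) - ((1 + x) ^ 2 - t' ^ 2 * x))
    generalize (1 + x) ^ 2 - t ^ 2 * x = A at h0 ⊢
    generalize (1 + x) ^ 2 - t' ^ 2 * x = B at h0 ⊢
    linarith [h0]
  have hA : 0 ≤ (1 + x) ^ 2 - m := by linarith
  have hB : 0 ≤ (1 - x ^ 2) ^ 2 + m * (1 + x) ^ 2 := by positivity
  have h4 : ((1 - x) ^ 2 * ((1 - x ^ 2) ^ 2 + m * (1 + x) ^ 2) * ((1 + x) ^ 2 - m)) ≤ 1 := by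
    have e : (1 - x) ^ 2 * ((1 - x ^ 2) ^ 2 + m * (1 + x) ^ 2) * ((1 + x) ^ 2 - m) =
        (1 - x ^ 2) ^ 2 * (((1 - x) ^ 2 + m) * ((1 + x) ^ 2 - m)) := by ring
    rw [e]
    have h5 : ((1 - x) ^ 2 + m) * ((1 + x) ^ 2 - m) ≤ (1 + x ^ 2) ^ 2 := by
      have e0 : (1 + x ^ 2) ^ 2 - ((1 - x) ^ 2 + m) * ((1 + x) ^ 2 - m) = (m - 2 * x) ^ 2 := by
        ring
      have := sq_nonneg (m - 2 * x)
      linarith
    have h6 : (1 - x ^ 2) ^ 2 * (1 + x ^ 2) ^ 2 ≤ 1 := by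
      have : (1 - x ^ 2) ^ 2 * (1 + x ^ 2) ^ 2 = (1 - x ^ 4) ^ 2 := by ring
      rw [this]
      have h7 : 0 ≤ x ^ 4 := by positivity
      have h8 : x ^ 4 ≤ 1 := pow_le_one₀ hx.le hx1.le
      exact pow_le_one₀ (by linarith) (by linarith)
    calc _ ≤ (1 - x ^ 2) ^ 2 * (1 + x ^ 2) ^ 2 := mul_le_mul_of_nonneg_left h5 (sq_nonneg _)
      _ ≤ 1 := h6
  have h5 : 0 ≤ (1 - x) ^ 2 * ((1 - x ^ 2) ^ 2 + m * (1 + x) ^ 2) * ((1 + x) ^ 2 - m) :=
    mul_nonneg (mul_nonneg (sq_nonneg _) hB) hA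
  calc Qp t t' x ^ 2 * ((1 + x) ^ 2 - t ^ 2 * x) * ((1 + x) ^ 2 - t' ^ 2 * x) * (1 - x) ^ 4
      = (Qp t t' x ^ 2 * (1 - x) ^ 4) *
        (((1 + x) ^ 2 - t ^ 2 * x) * ((1 + x) ^ 2 - t' ^ 2 * x)) := by ring
    _ ≤ (((1 - x ^ 2) ^ 2 + m * (1 + x) ^ 2) ^ 2 * (1 - x) ^ 4) * ((1 + x) ^ 2 - m) ^ 2 := by
        apply mul_le_mul _ h3 (mul_pos hR hR').le (by positivity)
        apply mul_le_mul_of_nonneg_right _ (by positivity)
        exact pow_le_pow_left₀ hQ.le h2 2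
    _ = ((1 - x) ^ 2 * ((1 - x ^ 2) ^ 2 + m * (1 + x) ^ 2) * ((1 + x) ^ 2 - m)) ^ 2 := by ring
    _ ≤ 1 := pow_le_one₀ h5 h4

/-- **The local comparison.** -/
theorem local_comparison (h : Summable fun k => cU t k ^ 2 * x ^ k)
    (h' : Summable fun k => cU t' k ^ 2 * x ^ k) (hx : 0 < x) (hx1 : x < 1) :
    0 < (∑' k, cU t k * cU t' k * x ^ k) ∧
    (1 - x ^ 2) ^ 4 ≤ (∑' k, cU t k * cU t' k * x ^ k) ^ 2 *
      ((∑' k, cU t k ^ 2 * x ^ k) * (∑' k, cU t' k ^ 2 * x ^ k)) := by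
  have hR := R_pos h hx hx1
  have hR' := R_pos h' hx hx1
  have hQ := Qp_pos hx hx1 hR hR'
  have e1 := tsum_mul_Qp h h' hx hx1
  have e2 := tsum_sq_mul h hx hx1
  have e3 := tsum_sq_mul h' hx hx1
  set G := ∑' k, cU t k * cU t' k * x ^ k
  set V := ∑' k, cU t k ^ 2 * x ^ k
  set V' := ∑' k, cU t' k ^ 2 * x ^ k
  have hx2 : 0 < 1 - x ^ 2 := by nlinarith
  have hG : 0 < G := by
    by_contra hcon
    push Not at hcon
    have := mul_nonpos_of_nonpos_of_nonneg hcon hQ.le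
    linarith
  refine ⟨hG, ?_⟩
  have hle := Qp_le (t := t) (t' := t') hx hx1 hR hR'
  have hV : 0 ≤ V := tsum_nonneg fun k => mul_nonneg (sq_nonneg _) (pow_nonneg hx.le k)
  have hV' : 0 ≤ V' := tsum_nonneg fun k => mul_nonneg (sq_nonneg _) (pow_nonneg hx.le k)
  have hGV : 0 ≤ G ^ 2 * (V * V') := by positivity
  have hprod : (G ^ 2 * (V * V')) * (Qp t t' x ^ 2 * ((1 + x) ^ 2 - t ^ 2 * x) *
      ((1 + x) ^ 2 - t' ^ 2 * x) * (1 - x) ^ 2) = (1 - x ^ 2) ^ 2 * (1 + x) ^ 2 := by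
    rw [← e1]
    have : (1 + x) ^ 2 = (V * ((1 - x) * ((1 + x) ^ 2 - t ^ 2 * x))) *
      (V' * ((1 - x) * ((1 + x) ^ 2 - t' ^ 2 * x))) := by rw [e2, e3]; ring
    calc _ = (G * Qp t t' x) ^ 2 * ((V * ((1 - x) * ((1 + x) ^ 2 - t ^ 2 * x))) *
      (V' * ((1 - x) * ((1 + x) ^ 2 - t' ^ 2 * x)))) := by ring
      _ = _ := by rw [← this]
  have h1x : 0 < (1 - x) ^ 2 := by nlinarith
  calc (1 - x ^ 2) ^ 4 = ((1 - x ^ 2) ^ 2 * (1 + x) ^ 2) * (1 - x) ^ 2 := by ring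
    _ = (G ^ 2 * (V * V')) * (Qp t t' x ^ 2 * ((1 + x) ^ 2 - t ^ 2 * x) *
      ((1 + x) ^ 2 - t' ^ 2 * x) * (1 - x) ^ 4) := by rw [← hprod]; ring
    _ ≤ (G ^ 2 * (V * V')) * 1 := mul_le_mul_of_nonneg_left hle hGV
    _ = _ := mul_one _

end sums

section special

lemma cU_two (k : ℕ) : cU 2 k = k + 1 := by
  induction k using Nat.strong_induction_on with
  | _ k ih =>
    match k with
    | 0 => simp
    | 1 => rw [cU_one]; norm_num
    | k + 2 =>
      rw [cU_add_two, ih (k + 1) (by omega), ih k (by omega)]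
      push_cast; ring

lemma cU_neg (t : ℝ) (k : ℕ) : cU (-t) k = (-1) ^ k * cU t k := by
  induction k using Nat.strong_induction_on with
  | _ k ih =>
    match k with
    | 0 => simp
    | 1 => simp
    | k + 2 =>
      rw [cU_add_two, cU_add_two, ih (k + 1) (by omega), ih k (by omega)]
      ring

lemma cU_zero_sq_le (k : ℕ) : |cU 0 k| ≤ 1 := by
  induction k using Nat.strong_induction_on with
  | _ k ih =>
    match k with
    | 0 => simp
    | 1 => simp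
    | k + 2 =>
      rw [cU_add_two, zero_mul, zero_sub, abs_neg]
      exact ih k (by omega)

end special

end Fermat.Agent.H91.Z
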