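import Mathlib
import Fermat.Agent.H91ZLocal

/-!
# S47, block (N), N3: sums over ideals of given norm
-/

set_option autoImplicit false
set_option linter.unusedSectionVars false

namespace Fermat.Agent.H91.Z

open Ideal

section general

variable {R : Type*} [CommRing R] [IsDedekindDomain R] [Module.Free ℤ R] [Module.Finite ℤ R]
  [CharZero R]

/-- the ideals of norm `n` -/
noncomputable def fib (R : Type*) [CommRing R] [IsDedekindDomain R] [Module.Free ℤ R]
    [Module.Finite ℤ R] [CharZero R] (n : ℕ) : Finset (Ideal R) :=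
  (Ideal.finite_setOfPred_absNorm_eq (S := R) n).toFinset

lemma mem_fib {n : ℕ} {I : Ideal R} : I ∈ fib R n ↔ absNorm I = n := by
  rw [fib, Set.Finite.mem_toFinset]; rfl

lemma natCast_mem_of_absNorm {I : Ideal R} {n : ℕ} (h : absNorm I = n) : (n : R) ∈ I := by
  rw [← h]; exact absNorm_mem I

lemma absNorm_pos_ne {I : Ideal R} {n : ℕ} (h : absNorm I = n) (hn : n ≠ 0) : I ≠ ⊥ := by
  rintro rfl
  rw [absNorm_bot] at h
  exact hn h.symm

/-- the components of an ideal of norm `m * n` -/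
theorem decomp {m n : ℕ} (hm : m ≠ 0) (hn : n ≠ 0) (hmn : m.Coprime n) {I : Ideal R}
    (hI : absNorm I = m * n) :
    absNorm (I ⊔ span {(m : R)}) = m ∧ absNorm (I ⊔ span {(n : R)}) = n ∧
      (I ⊔ span {(m : R)}) * (I ⊔ span {(n : R)}) = I := by
  set β := I ⊔ span {(m : R)} with hβ
  set γ := I ⊔ span {(n : R)} with hγ
  have hI0 : I ≠ ⊥ := absNorm_pos_ne hI (mul_ne_zero hm hn)
  -- `β γ ≤ I`
  have h1 : β * γ ≤ I := by
    rw [hβ, hγ, Ideal.sup_mul, Ideal.mul_sup, Ideal.mul_sup]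
    refine sup_le (sup_le Ideal.mul_le_left Ideal.mul_le_left) ?_
    · refine sup_le Ideal.mul_le_right ?_
      rw [Ideal.span_singleton_mul_span_singleton, Ideal.span_singleton_le_iff_mem, ← Nat.cast_mul]
      exact natCast_mem_of_absNorm hI
  have hk : absNorm β ∣ m := by
    have d1 : absNorm β ∣ m * n := hI ▸ absNorm_dvd_absNorm_of_le le_sup_left
    have d2 : absNorm β ∣ m ^ Module.finrank ℤ R := by
      rw [← absNorm_span_natCast]
      exact absNorm_dvd_absNorm_of_le le_sup_right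
    have d3 : (absNorm β).Coprime n := by
      have : (m ^ Module.finrank ℤ R).Coprime n := Nat.Coprime.pow_left _ hmn
      exact Nat.Coprime.coprime_dvd_left d2 this
    exact d3.dvd_of_dvd_mul_right d1
  have hk' : absNorm γ ∣ n := by
    have d1 : absNorm γ ∣ m * n := hI ▸ absNorm_dvd_absNorm_of_le le_sup_left
    have d2 : absNorm γ ∣ n ^ Module.finrank ℤ R := by
      rw [← absNorm_span_natCast]
      exact absNorm_dvd_absNorm_of_le le_sup_right
    have d3 : (absNorm γ).Coprime m := by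
      have : (n ^ Module.finrank ℤ R).Coprime m := Nat.Coprime.pow_left _ hmn.symm
      exact Nat.Coprime.coprime_dvd_left d2 this
    exact d3.dvd_of_dvd_mul_left d1
  obtain ⟨J, hJ⟩ := Ideal.dvd_iff_le.2 h1
  -- norms
  have e1 : absNorm β * absNorm γ = m * n * absNorm J := by
    rw [← map_mul, hJ, map_mul, hI]
  have d1 : m * n * absNorm J ∣ m * n := e1 ▸ mul_dvd_mul hk hk'
  have hJ1 : absNorm J = 1 := by
    have h0 : 0 < m * n := Nat.pos_of_ne_zero (mul_ne_zero hm hn)
    have := Nat.le_of_dvd h0 d1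
    have hne : m * n * absNorm J ≠ 0 := by
      intro h
      rw [h, zero_dvd_iff] at d1
      exact h0.ne' d1
    have hJ0 : 0 < absNorm J := Nat.pos_of_ne_zero fun h => hne (by rw [h, mul_zero])
    nlinarith
  have hJt : J = ⊤ := absNorm_eq_one_iff.1 hJ1
  have h2 : β * γ = I := by rw [hJ, hJt, Ideal.mul_top]
  rw [hJ1, mul_one] at e1
  have hb0 : 0 < absNorm β := Nat.pos_of_ne_zero fun h => by
    rw [h, zero_mul] at e1; exact mul_ne_zero hm hn e1.symm
  have hg0 : 0 < absNorm γ := Nat.pos_of_ne_zero fun h => by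
    rw [h, mul_zero] at e1; exact mul_ne_zero hm hn e1.symm
  have l1 := Nat.le_of_dvd (Nat.pos_of_ne_zero hm) hk
  have l2 := Nat.le_of_dvd (Nat.pos_of_ne_zero hn) hk'
  refine ⟨?_, ?_, h2⟩
  · rcases lt_or_eq_of_le l1 with h | h
    · exfalso
      have := Nat.mul_lt_mul_of_lt_of_le h l2 (Nat.pos_of_ne_zero hn)
      omega
    · exact h
  · rcases lt_or_eq_of_le l2 with h | h
    · exfalso
      have := Nat.mul_lt_mul_of_le_of_lt l1 h (Nat.pos_of_ne_zero hm)
      omega
    · exact h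

lemma isCoprime_of_absNorm {m n : ℕ} (hmn : m.Coprime n) {I J : Ideal R} (hI : absNorm I = m)
    (hJ : absNorm J = n) : IsCoprime I J := by
  rw [Ideal.isCoprime_iff_sup_eq, Ideal.eq_top_iff_one]
  have h := Nat.isCoprime_iff_coprime.2 hmn
  obtain ⟨a, b, hab⟩ := h
  have h1 : (1 : R) = (a : R) * (m : R) + (b : R) * (n : R) := by
    have := congrArg (Int.cast : ℤ → R) hab
    push_cast at this
    exact this.symm
  rw [h1]
  exact Submodule.add_mem_sup (I.mul_mem_left _ (natCast_mem_of_absNorm hI))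
    (J.mul_mem_left _ (natCast_mem_of_absNorm hJ))

/-- recovering the first factor -/
lemma mul_sup_span {m n : ℕ} (hmn : m.Coprime n) {I J : Ideal R} (hI : absNorm I = m)
    (hJ : absNorm J = n) : I * J ⊔ span {(m : R)} = I := by
  apply le_antisymm
  · refine sup_le Ideal.mul_le_left ?_
    rw [Ideal.span_singleton_le_iff_mem]
    exact natCast_mem_of_absNorm hI
  · have h1 : J ⊔ span {(m : R)} = ⊤ := by
      rw [Ideal.eq_top_iff_one]
      obtain ⟨a, b, hab⟩ := Nat.isCoprime_iff_coprime.2 hmn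
      have h1 : (1 : R) = (b : R) * (n : R) + (a : R) * (m : R) := by
        have := congrArg (Int.cast : ℤ → R) hab
        push_cast at this
        rw [add_comm]; exact this.symm
      rw [h1]
      exact Submodule.add_mem_sup (J.mul_mem_left _ (natCast_mem_of_absNorm hJ))
        (Ideal.mul_mem_left _ _ (Ideal.mem_span_singleton_self _))
    calc I = I * (J ⊔ span {(m : R)}) := by rw [h1, Ideal.mul_top]
      _ = I * J ⊔ I * span {(m : R)} := Ideal.mul_sup _ _ _
      _ ≤ _ := sup_le_sup_left Ideal.mul_le_right _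

/-- **Multiplicativity of sums over ideals of given norm.** -/
theorem sum_fib_mul {A : Type*} [CommSemiring A] (f : Ideal R → A)
    (hf : ∀ I J, IsCoprime I J → f (I * J) = f I * f J) {m n : ℕ} (hm : m ≠ 0) (hn : n ≠ 0)
    (hmn : m.Coprime n) :
    ∑ I ∈ fib R (m * n), f I = (∑ I ∈ fib R m, f I) * ∑ I ∈ fib R n, f I := by
  rw [Finset.sum_mul_sum, ← Finset.sum_product']
  symm
  refine Finset.sum_bij' (fun x _ => x.1 * x.2)
    (fun I _ => (I ⊔ span {(m : R)}, I ⊔ span {(n : R)})) ?_ ?_ ?_ ?_ ?_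
  · rintro ⟨I, J⟩ h
    rw [Finset.mem_product, mem_fib, mem_fib] at h
    rw [mem_fib, map_mul, h.1, h.2]
  · intro I h
    rw [mem_fib] at h
    obtain ⟨h1, h2, -⟩ := decomp hm hn hmn h
    rw [Finset.mem_product, mem_fib, mem_fib]
    exact ⟨h1, h2⟩
  · rintro ⟨I, J⟩ h
    rw [Finset.mem_product, mem_fib, mem_fib] at h
    refine Prod.ext (mul_sup_span hmn h.1 h.2) ?_
    show I * J ⊔ span {(n : R)} = J
    rw [mul_comm]
    exact mul_sup_span hmn.symm h.2 h.1
  · intro I h
    rw [mem_fib] at h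
    exact (decomp hm hn hmn h).2.2
  · rintro ⟨I, J⟩ h
    rw [Finset.mem_product, mem_fib, mem_fib] at h
    exact (hf I J (isCoprime_of_absNorm hmn h.1 h.2)).symm

lemma fib_one : fib R 1 = {⊤} := by
  ext I
  rw [mem_fib, Finset.mem_singleton, absNorm_eq_one_iff]

lemma fib_zero : fib R 0 = {⊥} := by
  ext I
  rw [mem_fib, Finset.mem_singleton, absNorm_eq_zero_iff]

/-- ideals of norm `p ^ k`, split case -/
theorem sum_fib_split {A : Type*} [CommSemiring A] (f : Ideal R → A) {p : ℕ} (hp : p.Prime)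
    {P P' : Ideal R} (hP : P.IsPrime) (hP' : P'.IsPrime) (hne : P ≠ P') (hN : absNorm P = p)
    (hN' : absNorm P' = p) (hmul : P * P' = span {(p : R)}) (k : ℕ) :
    ∑ I ∈ fib R (p ^ k), f I =
      ∑ ij ∈ Finset.HasAntidiagonal.antidiagonal k, f (P ^ ij.1 * P' ^ ij.2) := by
  have hP0 : P ≠ ⊥ := absNorm_pos_ne hN hp.ne_zero
  have hP0' : P' ≠ ⊥ := absNorm_pos_ne hN' hp.ne_zero
  have hPp : Prime P := (Ideal.prime_iff_isPrime hP0).2 hP
  have hPp' : Prime P' := (Ideal.prime_iff_isPrime hP0').2 hP'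
  symm
  refine Finset.sum_bij (fun ij _ => P ^ ij.1 * P' ^ ij.2) ?_ ?_ ?_ ?_
  · rintro ⟨i, j⟩ h
    rw [Finset.HasAntidiagonal.mem_antidiagonal] at h
    rw [mem_fib, map_mul, map_pow, map_pow, hN, hN', ← pow_add, h]
  · rintro ⟨i, j⟩ h ⟨i', j'⟩ h' heq
    rw [Finset.HasAntidiagonal.mem_antidiagonal] at h h'
    simp only at h h' heq
    have key : ∀ a b a' b' : ℕ, P ^ a * P' ^ b = P ^ a' * P' ^ b' → a ≤ a' := by
      intro a b a' b' he
      have h1 : P ^ a ∣ P' ^ b' * P ^ a' := by rw [mul_comm (P' ^ b'), ← he]; exact dvd_mul_right _ _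
      have h2 : ¬ P ∣ P' ^ b' := by
        intro hd
        have := hPp.dvd_of_dvd_pow hd
        have h3 : P' ≤ P := Ideal.dvd_iff_le.1 this
        have h4 : P'.IsMaximal := hP'.isMaximal hP0'
        exact hne (h4.eq_of_le hP.ne_top h3).symm
      have h3 : P ^ a ∣ P ^ a' := hPp.pow_dvd_of_dvd_mul_left a h2 h1
      exact (pow_dvd_pow_iff hP0 hPp.not_isUnit).1 h3
    have h1 := key _ _ _ _ heq
    have h2 := key _ _ _ _ heq.symm
    have h3 : i = i' := le_antisymm h1 h2
    subst h3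
    have h4 : j = j' := by omega
    rw [h4]
  · intro I hI
    rw [mem_fib] at hI
    have hdvd : I ∣ P ^ k * P' ^ k := by
      rw [← mul_pow, hmul, Ideal.span_singleton_pow, ← Nat.cast_pow, Ideal.dvd_iff_le,
        Ideal.span_singleton_le_iff_mem]
      exact natCast_mem_of_absNorm hI
    obtain ⟨Q, Q', hQ, hQ', rfl⟩ := exists_dvd_and_dvd_of_dvd_mul hdvd
    obtain ⟨i, hi, hi'⟩ := (dvd_prime_pow hPp k).1 hQ
    obtain ⟨j, hj, hj'⟩ := (dvd_prime_pow hPp' k).1 hQ'
    rw [associated_iff_eq] at hi' hj'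
    subst hi' hj'
    refine ⟨(i, j), ?_, rfl⟩
    rw [Finset.HasAntidiagonal.mem_antidiagonal]
    rw [map_mul, map_pow, map_pow, hN, hN', ← pow_add] at hI
    exact Nat.pow_right_injective hp.two_le hI
  · rintro ⟨i, j⟩ _
    rfl

/-- ideals of norm `p ^ k`, inert case -/
theorem sum_fib_inert {A : Type*} [CommSemiring A] (f : Ideal R → A) {p : ℕ} (hp : p.Prime)
    (hP : (span {(p : R)}).IsPrime) (hN : absNorm (span {(p : R)}) = p ^ 2) (k : ℕ) :
    ∑ I ∈ fib R (p ^ (2 * k)), f I = f (span {(p : R)} ^ k) ∧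
    ∑ I ∈ fib R (p ^ (2 * k + 1)), f I = 0 := by
  have hP0 : span {(p : R)} ≠ ⊥ := absNorm_pos_ne hN (pow_ne_zero _ hp.ne_zero)
  have hPp : Prime (span {(p : R)}) := (Ideal.prime_iff_isPrime hP0).2 hP
  have key : ∀ m (I : Ideal R), absNorm I = p ^ m → ∃ j, I = span {(p : R)} ^ j ∧ m = 2 * j := by
    intro m I hI
    have hdvd : I ∣ span {(p : R)} ^ m := by
      rw [Ideal.span_singleton_pow, ← Nat.cast_pow, Ideal.dvd_iff_le,
        Ideal.span_singleton_le_iff_mem]
      exact natCast_mem_of_absNorm hI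
    obtain ⟨j, -, hj'⟩ := (dvd_prime_pow hPp m).1 hdvd
    rw [associated_iff_eq] at hj'
    refine ⟨j, hj', ?_⟩
    rw [hj', map_pow, hN, ← pow_mul] at hI
    exact (Nat.pow_right_injective hp.two_le hI).symm
  constructor
  · have : fib R (p ^ (2 * k)) = {span {(p : R)} ^ k} := by
      ext I
      rw [mem_fib, Finset.mem_singleton]
      constructor
      · intro h
        obtain ⟨j, hj, hj'⟩ := key _ I h
        have : j = k := by omega
        rw [hj, this]
      · rintro rfl
        rw [map_pow, hN, ← pow_mul]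
    rw [this, Finset.sum_singleton]
  · have : fib R (p ^ (2 * k + 1)) = ∅ := by
      rw [Finset.eq_empty_iff_forall_notMem]
      intro I hI
      rw [mem_fib] at hI
      obtain ⟨j, -, hj'⟩ := key _ I hI
      omega
    rw [this, Finset.sum_empty]

end general

end Fermat.Agent.H91.Z
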