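import Mathlib
import Fermat.Agent.H91ZIdeal

/-!
# S47, block (N), N3c: the ring of Eisenstein integers as a subring of `ℂ`

`O : Subring ℂ` with `z ∈ O ↔ ∃ a b : ℤ, z = a + b ω`, `ω = (-1 + i √3)/2`: principal ideal ring,
free of rank two over `ℤ`, `absNorm (span {x}) = |x|²`.
-/

set_option autoImplicit false
set_option linter.unusedSectionVars false

namespace Fermat.Agent.H91.Z

open Complex Module

/-- `ω = (-1 + i √3)/2` -/
noncomputable def omC : ℂ := (-1 + (Real.sqrt 3 : ℂ) * I) / 2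

lemma sqrt3_sq : ((Real.sqrt 3 : ℝ) : ℂ) ^ 2 = 3 := by
  rw [← Complex.ofReal_pow, Real.sq_sqrt (by norm_num)]; norm_num

lemma omC_sq : omC ^ 2 = -1 - omC := by
  rw [omC]
  have h := sqrt3_sq
  have hI : I ^ 2 = -1 := I_sq
  linear_combination (1 / 4 : ℂ) * I ^ 2 * h + (3 / 4 : ℂ) * hI

lemma omC_re : omC.re = -1 / 2 := by
  rw [omC]; simp

lemma omC_im : omC.im = Real.sqrt 3 / 2 := by
  rw [omC]; simp

lemma omC_im_ne : omC.im ≠ 0 := by
  rw [omC_im]
  have : 0 < Real.sqrt 3 := Real.sqrt_pos.2 (by norm_num)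
  positivity

lemma normSq_add_mul (a b : ℝ) : normSq (a + b * omC) = a ^ 2 - a * b + b ^ 2 := by
  rw [normSq_apply]
  have h1 : (a + b * omC : ℂ).re = a - b / 2 := by
    simp [omC_re]; ring
  have h2 : (a + b * omC : ℂ).im = b * (Real.sqrt 3 / 2) := by
    simp [omC_im]
  rw [h1, h2]
  have h3 : Real.sqrt 3 * Real.sqrt 3 = 3 := Real.mul_self_sqrt (by norm_num)
  nlinarith [h3]

/-- the defining property -/
def IsEis (O : Subring ℂ) : Prop := ∀ z : ℂ, z ∈ O ↔ ∃ a b : ℤ, z = a + b * omC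

section ring

variable {O : Subring ℂ} (hO : IsEis O)

include hO

lemma IsEis.omC_mem : omC ∈ O := (hO _).2 ⟨0, 1, by simp⟩

/-- `(a, b) ↦ a + b ω` -/
noncomputable def IsEis.toO (hO : IsEis O) : (Fin 2 → ℤ) →ₗ[ℤ] O where
  toFun v := ⟨v 0 + v 1 * omC, (hO _).2 ⟨v 0, v 1, rfl⟩⟩
  map_add' v w := by
    apply Subtype.ext
    simp only [Pi.add_apply, Int.cast_add, Subring.coe_add]
    ring
  map_smul' m v := by
    apply Subtype.ext
    simp only [Pi.smul_apply, smul_eq_mul, Int.cast_mul, eq_intCast, Int.cast_id,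
      zsmul_eq_mul]
    push_cast
    ring

lemma IsEis.toO_injective : Function.Injective hO.toO := by
  intro v w h
  have h1 : ((v 0 : ℂ) + v 1 * omC) = (w 0 : ℂ) + w 1 * omC := congrArg Subtype.val h
  have him := congrArg Complex.im h1
  have hre := congrArg Complex.re h1
  simp only [add_im, intCast_im, mul_im, intCast_re, zero_mul, add_zero, zero_add] at him
  have e1 : (v 1 : ℝ) = w 1 := mul_right_cancel₀ omC_im_ne him
  have e1' : v 1 = w 1 := by exact_mod_cast e1
  rw [e1'] at hre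
  have e0 : (v 0 : ℝ) = w 0 := by
    simp only [add_re, intCast_re, mul_re, intCast_im, zero_mul, sub_zero] at hre
    linarith
  have e0' : v 0 = w 0 := by exact_mod_cast e0
  funext i
  fin_cases i
  · exact e0'
  · exact e1'

lemma IsEis.toO_surjective : Function.Surjective hO.toO := by
  rintro ⟨z, hz⟩
  obtain ⟨a, b, rfl⟩ := (hO z).1 hz
  exact ⟨![a, b], Subtype.ext (by simp [IsEis.toO])⟩

/-- the basis `1, ω` -/
noncomputable def IsEis.basis (hO : IsEis O) : Basis (Fin 2) ℤ O :=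
  Basis.ofEquivFun (LinearEquiv.ofBijective hO.toO ⟨hO.toO_injective, hO.toO_surjective⟩).symm

lemma IsEis.basis_apply (i : Fin 2) : ((hO.basis i : O) : ℂ) = if i = 0 then 1 else omC := by
  rw [IsEis.basis, Basis.coe_ofEquivFun]
  fin_cases i <;> simp [IsEis.toO]

theorem IsEis.free : Module.Free ℤ O := Module.Free.of_basis hO.basis
theorem IsEis.finite : Module.Finite ℤ O := Module.Finite.of_basis hO.basis

lemma IsEis.repr (v : Fin 2 → ℤ) (z : O) (hz : (z : ℂ) = v 0 + v 1 * omC) (i : Fin 2) :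
    hO.basis.repr z i = v i := by
  have : z = hO.toO v := Subtype.ext hz
  rw [this, IsEis.basis, Basis.ofEquivFun_repr_apply]
  have : (LinearEquiv.ofBijective hO.toO ⟨hO.toO_injective, hO.toO_surjective⟩).symm (hO.toO v) =
    v := by
    rw [LinearEquiv.symm_apply_eq]; rfl
  rw [this]

theorem IsEis.norm_eq (x : O) : ((Algebra.norm ℤ x : ℤ) : ℝ) = normSq (x : ℂ) := by
  obtain ⟨v, rfl⟩ := hO.toO_surjective x
  rw [Algebra.norm_eq_matrix_det hO.basis, Matrix.det_fin_two]
  have hcoe : ((hO.toO v : O) : ℂ) = v 0 + v 1 * omC := rfl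
  have h0 : ∀ i, Algebra.leftMulMatrix hO.basis (hO.toO v) i 0 = v i := by
    intro i
    rw [Algebra.leftMulMatrix_eq_repr_mul]
    apply hO.repr
    rw [Subring.coe_mul, hO.basis_apply, hcoe]; simp
  have h1 : ∀ i, Algebra.leftMulMatrix hO.basis (hO.toO v) i 1 = ![-v 1, v 0 - v 1] i := by
    intro i
    rw [Algebra.leftMulMatrix_eq_repr_mul]
    apply hO.repr
    rw [Subring.coe_mul, hO.basis_apply, hcoe]
    simp only [Fin.isValue, one_ne_zero, ↓reduceIte, Matrix.cons_val_zero, Int.cast_neg,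
      Matrix.cons_val_one, Int.cast_sub]
    linear_combination (v 1 : ℂ) * omC_sq
  rw [h0, h0, h1, h1, hcoe]
  have := normSq_add_mul (v 0 : ℝ) (v 1 : ℝ)
  push_cast at this
  rw [this]
  simp only [Matrix.cons_val_zero, Matrix.cons_val_one]
  push_cast
  ring

theorem IsEis.absNorm_span [IsDedekindDomain O] (x : O) :
    haveI := hO.free; haveI := hO.finite
    ((Ideal.absNorm (Ideal.span {x}) : ℕ) : ℝ) = normSq (x : ℂ) := by
  have := hO.free
  have := hO.finite
  rw [Ideal.absNorm_span_singleton]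
  have h := hO.norm_eq x
  have hnn : 0 ≤ Algebra.norm ℤ x := by
    have : (0 : ℝ) ≤ ((Algebra.norm ℤ x : ℤ) : ℝ) := by rw [h]; exact normSq_nonneg _
    exact_mod_cast this
  rw [← h, Nat.cast_natAbs, abs_of_nonneg hnn]

/-- division with remainder -/
theorem IsEis.exists_div (x y : O) (hy : y ≠ 0) :
    ∃ q : O, normSq ((x - q * y : O) : ℂ) < normSq (y : ℂ) := by
  have hy' : (y : ℂ) ≠ 0 := fun h => hy (Subtype.ext h)
  obtain ⟨r, s, hrs⟩ : ∃ r s : ℝ, (x : ℂ) / y = r + s * omC := by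
    refine ⟨((x : ℂ) / y).re + ((x : ℂ) / y).im / Real.sqrt 3, 2 * ((x : ℂ) / y).im / Real.sqrt 3, ?_⟩
    have h3 : Real.sqrt 3 ≠ 0 := (Real.sqrt_pos.2 (by norm_num)).ne'
    apply Complex.ext
    · simp [omC_re]; ring
    · simp [omC_im]; field_simp
  refine ⟨⟨round r + round s * omC, (hO _).2 ⟨round r, round s, rfl⟩⟩, ?_⟩
  have e1 : ((x - (⟨round r + round s * omC, (hO _).2 ⟨round r, round s, rfl⟩⟩ : O) * y : O) : ℂ) =
      (((r - round r : ℝ) : ℂ) + ((s - round s : ℝ) : ℂ) * omC) * y := by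
    have : (x : ℂ) = (r + s * omC) * y := by rw [← hrs]; field_simp
    push_cast
    rw [this]
    ring
  rw [e1, normSq_mul, normSq_add_mul]
  have h1 := abs_sub_round r
  have h2 := abs_sub_round s
  have hy2 : 0 < normSq (y : ℂ) := normSq_pos.2 hy'
  have h3 : (r - round r) ^ 2 - (r - round r) * (s - round s) + (s - round s) ^ 2 < 1 := by
    rw [abs_le] at h1 h2
    nlinarith [sq_nonneg (r - round r + (s - round s)), sq_nonneg (r - round r - (s - round s))]
  calc _ < 1 * normSq (y : ℂ) := mul_lt_mul_of_pos_right h3 hy2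
    _ = _ := one_mul _

theorem IsEis.isPrincipalIdealRing : IsPrincipalIdealRing O := by
  have hfr := hO.free
  have hfi := hO.finite
  refine ⟨fun I => ?_⟩
  by_cases hI : I = ⊥
  · subst hI; exact ⟨0, by simp⟩
  -- minimal norm
  let S : Set ℕ := {n | ∃ x ∈ I, x ≠ 0 ∧ (Algebra.norm ℤ x).natAbs = n}
  have hS : S.Nonempty := by
    obtain ⟨x, hx, hx0⟩ := Submodule.exists_mem_ne_zero_of_ne_bot hI
    exact ⟨_, x, hx, hx0, rfl⟩
  obtain ⟨y, hy, hy0, hyn⟩ := Nat.sInf_mem hS
  refine ⟨y, le_antisymm (fun x hx => ?_) ?_⟩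
  · obtain ⟨q, hq⟩ := hO.exists_div x y hy0
    by_cases hz : x - q * y = 0
    · rw [sub_eq_zero] at hz
      rw [hz]
      exact Submodule.mem_span_singleton.2 ⟨q, rfl⟩
    · exfalso
      have hmem : x - q * y ∈ I := I.sub_mem hx (I.mul_mem_left _ hy)
      have h1 : sInf S ≤ (Algebra.norm ℤ (x - q * y)).natAbs := Nat.sInf_le ⟨_, hmem, hz, rfl⟩
      rw [← hyn] at h1
      rw [← hO.norm_eq, ← hO.norm_eq] at hq
      have hq' : Algebra.norm ℤ (x - q * y) < Algebra.norm ℤ y := by exact_mod_cast hq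
      have hnn : 0 ≤ Algebra.norm ℤ (x - q * y) := by
        have : (0 : ℝ) ≤ ((Algebra.norm ℤ (x - q * y) : ℤ) : ℝ) := by
          rw [hO.norm_eq]; exact normSq_nonneg _
        exact_mod_cast this
      omega
  · rw [Submodule.span_singleton_le_iff_mem]; exact hy

theorem IsEis.isDedekindDomain : IsDedekindDomain O := by
  have := hO.isPrincipalIdealRing
  infer_instance

end ring

end Fermat.Agent.H91.Z
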