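import Mathlib
import Fermat.Agent.H96TDef
import Fermat.Agent.H91ZEis

/-!
# S47, block (N), N3c: the coefficients of (I-CT) as a function on ideals of `ℤ[ω]`
-/

set_option autoImplicit false

namespace Fermat.Agent.H91.Z

open Fermat.Agent Fermat.Agent.S47T Module

lemma om_eq_omC : om = omC := by
  rw [om, omC, sq3, mul_comm]

theorem isEis : IsEis Eis := fun z => by rw [mem_Eis, om_eq_omC]

instance instPIDEis : IsPrincipalIdealRing Eis := isEis.isPrincipalIdealRing
instance instDedekindEis : IsDedekindDomain Eis := isEis.isDedekindDomain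
instance instFreeEis : Module.Free ℤ Eis := isEis.free
instance instFiniteEis : Module.Finite ℤ Eis := isEis.finite

theorem absNorm_span_Eis (x : Eis) :
    ((Ideal.absNorm (Ideal.span {x}) : ℕ) : ℝ) = Complex.normSq (x : ℂ) := isEis.absNorm_span x

/-- every element of `ℤ[ω]` is `a + b ω` for unique integers `a`, `b` -/
theorem existsUnique_Eis (x : Eis) : ∃! p : ℤ × ℤ, x = (p.1 : Eis) + (p.2 : Eis) * omE := by
  obtain ⟨p, hp⟩ := eisEquiv.surjective x
  refine ⟨p, ?_, fun q hq => ?_⟩
  · apply Subtype.ext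
    rw [← hp, coe_eisEquiv]
    push_cast
    rfl
  · apply eisEquiv.injective
    apply Subtype.ext
    rw [hp, hq, coe_eisEquiv]
    push_cast
    rfl

lemma omE_rel : omE ^ 2 + omE + 1 = 0 := by
  apply Subtype.ext
  push_cast
  exact om_rel

/-- the coefficient function on ideals -/
noncomputable def cI (c : Eis → ℝ) (I : Ideal Eis) : ℝ := c (Submodule.IsPrincipal.generator I)

section

variable {N : ℕ} {c : Eis → ℝ} {F : H3 → ℂ} (h : ICT N c F)

include h

theorem cI_span (x : Eis) : cI c (Ideal.span {x}) = c x := by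
  have h1 : Associated (Submodule.IsPrincipal.generator (Ideal.span {x})) x := by
    rw [← Ideal.span_singleton_eq_span_singleton, Ideal.span_singleton_generator]
  obtain ⟨u, hu⟩ := h1.symm
  rw [cI, ← hu, mul_comm]
  exact h.c_unit _ _ u.isUnit

theorem cI_top : cI c ⊤ = 1 := by
  rw [← Ideal.span_singleton_one, cI_span h, h.c_one]

theorem cI_bot : cI c ⊥ = 0 := by
  rw [← Ideal.span_singleton_eq_bot.2 rfl, cI_span h, h.c_zero]

theorem cI_mul (I J : Ideal Eis) (hIJ : IsCoprime I J) : cI c (I * J) = cI c I * cI c J := by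
  obtain ⟨x, rfl⟩ : ∃ x, I = Ideal.span {x} := ⟨_, (Ideal.span_singleton_generator I).symm⟩
  obtain ⟨y, rfl⟩ : ∃ y, J = Ideal.span {y} := ⟨_, (Ideal.span_singleton_generator J).symm⟩
  rw [Ideal.span_singleton_mul_span_singleton, cI_span h, cI_span h, cI_span h]
  exact h.c_mul x y ((Ideal.isCoprime_span_singleton_iff x y).1 hIJ)

theorem cI_rec (v : Ideal Eis) (hv : v.IsPrime) (hv0 : v ≠ ⊥)
    (hvN : IsCoprime v (Ideal.span {(N : Eis)})) (k : ℕ) :
    cI c (v ^ (k + 2)) = cI c v * cI c (v ^ (k + 1)) - cI c (v ^ k) := by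
  obtain ⟨x, rfl⟩ : ∃ x, v = Ideal.span {x} := ⟨_, (Ideal.span_singleton_generator v).symm⟩
  have hx0 : x ≠ 0 := fun h0 => hv0 (by rw [h0]; exact Ideal.span_singleton_eq_bot.2 rfl)
  have hx : Prime x := (Ideal.span_singleton_prime hx0).1 hv
  rw [Ideal.span_singleton_pow, Ideal.span_singleton_pow, Ideal.span_singleton_pow, cI_span h,
    cI_span h, cI_span h, cI_span h]
  exact h.c_rec x k hx ((Ideal.isCoprime_span_singleton_iff x (N : Eis)).1 hvN)

theorem cI_bad (I : Ideal Eis) (hI : ¬ IsCoprime I (Ideal.span {(N : Eis)})) : cI c I = 0 := by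
  obtain ⟨x, rfl⟩ : ∃ x, I = Ideal.span {x} := ⟨_, (Ideal.span_singleton_generator I).symm⟩
  rw [cI_span h]
  exact h.c_supp x fun hx => hI ((Ideal.isCoprime_span_singleton_iff x (N : Eis)).2 hx)

end

end Fermat.Agent.H91.Z
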