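import Mathlib
import Fermat.Agent.H96TDef
import Fermat.Agent.H91ZICT

/-!
# S47: the dictionary between `𝓞 M`, `M = ℚ(√-3)`, and `Eis = ℤ[ω] ⊆ ℂ`

`F` a number field with `IsCyclotomicExtension {3} ℚ F`, `e : F →+* ℂ` an embedding.
-/

set_option autoImplicit false
set_option linter.unusedSectionVars false
set_option linter.unusedVariables false

noncomputable section

open IsDedekindDomain HeightOneSpectrum WithZero NumberField Matrix Polynomial
open scoped MatrixGroups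

namespace Fermat.Agent.H83Z

open Fermat.Agent.S47T

variable {F : Type*} [Field F] [NumberField F] [IsCyclotomicExtension {3} ℚ F] (e : F →+* ℂ)

/-- an element of `F` mapped to `ω` -/
theorem exists_om : ∃ z : F, IsIntegral ℤ z ∧ e z = om ∧
    (IsPrimitiveRoot z 3) := by
  have hz := IsCyclotomicExtension.zeta_spec 3 ℚ F
  set ζ := IsCyclotomicExtension.zeta 3 ℚ F with hζ
  have h1 : ζ ^ 2 + ζ + 1 = 0 := by
    have h3 := hz.pow_eq_one
    have hne : ζ - 1 ≠ 0 := sub_ne_zero.2 (hz.ne_one (by norm_num))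
    have : (ζ - 1) * (ζ ^ 2 + ζ + 1) = 0 := by linear_combination h3
    exact (mul_eq_zero.1 this).resolve_left hne
  have h2 : (e ζ) ^ 2 + e ζ + 1 = 0 := by
    rw [← map_pow, ← map_add, ← map_one e, ← map_add, h1, map_zero]
  have h3 : (e ζ - om) * (e ζ + 1 + om) = 0 := by linear_combination h2 - om_rel
  rcases mul_eq_zero.1 h3 with h | h
  · exact ⟨ζ, hz.isIntegral (by norm_num), sub_eq_zero.1 h, hz⟩
  · refine ⟨ζ ^ 2, (hz.isIntegral (by norm_num)).pow 2, ?_, hz.pow_of_coprime 2 (by norm_num)⟩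
    rw [map_pow]
    linear_combination h2 - h

/-- `x : F` is integral iff `e x ∈ ℤ[ω]`. -/
theorem isIntegral_iff (x : F) : IsIntegral ℤ x ↔ e x ∈ Eis := by
  obtain ⟨z, hz, hez, hp⟩ := exists_om e
  constructor
  · intro hx
    have hcl := IsCyclotomicExtension.Rat.isIntegralClosure_adjoin_singleton (n := 3) hp
    obtain ⟨y, hy⟩ := hcl.isIntegral_iff.1 hx
    have hmem : ∀ y ∈ Algebra.adjoin ℤ ({z} : Set F), e y ∈ Eis := by
      intro y hy
      induction hy using Algebra.adjoin_induction with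
      | mem x hx =>
        rw [Set.mem_singleton_iff] at hx
        rw [hx, hez]; exact om_mem
      | algebraMap r => rw [eq_intCast, map_intCast]; exact intCast_mem Eis r
      | add x y _ _ hx hy => rw [map_add]; exact Eis.add_mem hx hy
      | mul x y _ _ hx hy => rw [map_mul]; exact Eis.mul_mem hx hy
    rw [← hy]
    exact hmem _ y.2
  · rintro ⟨a, b, hab⟩
    have h1 : x = a + b * z := by
      apply e.injective
      rw [hab, map_add, map_mul, map_intCast, map_intCast, hez]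
    rw [h1]
    exact (isIntegral_algebraMap (R := ℤ) (x := a)).add
      ((isIntegral_algebraMap (R := ℤ) (x := b)).mul hz)

/-- The ring isomorphism `𝓞 F ≃ ℤ[ω]` induced by the embedding `e`. -/
def eisO : 𝓞 F ≃+* Eis := RingEquiv.ofBijective
  ((e.comp (algebraMap (𝓞 F) F)).codRestrict Eis fun a => (isIntegral_iff e _).1 a.2) (by
    constructor
    · intro a b h
      have h1 : e (a : F) = e (b : F) := congrArg Subtype.val h
      exact RingOfIntegers.coe_injective (e.injective h1)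
    · intro y
      obtain ⟨a, b, hab⟩ := y.2
      obtain ⟨z, hz, hez, -⟩ := exists_om e
      have h1 : IsIntegral ℤ ((a : F) + b * z) :=
        (isIntegral_algebraMap (R := ℤ) (x := a)).add
          ((isIntegral_algebraMap (R := ℤ) (x := b)).mul hz)
      refine ⟨⟨(a : F) + b * z, h1⟩, Subtype.ext ?_⟩
      show e ((a : F) + b * z) = y
      rw [map_add, map_mul, map_intCast, map_intCast, hez, hab])

@[simp] theorem coe_eisO (a : 𝓞 F) : ((eisO e a : Eis) : ℂ) = e a := rfl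

theorem e_symm (y : Eis) : e (((eisO e).symm y : 𝓞 F) : F) = (y : ℂ) := by
  rw [← coe_eisO, RingEquiv.apply_symm_apply]

theorem eisO_natCast (N : ℕ) : eisO e (N : 𝓞 F) = (N : Eis) := map_natCast _ N

/-- every element of `F` is a quotient of integers; the image of `e` -/
theorem e_mem_iff (y : ℂ) : (∃ x : F, e x = y) ↔ ∃ a b : ℚ, y = a + b * om := by
  obtain ⟨z, hz, hez, -⟩ := exists_om e
  constructor
  · rintro ⟨x, rfl⟩
    obtain ⟨a, b, hb, rfl⟩ := IsFractionRing.div_surjective (A := 𝓞 F) x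
    -- multiply by the conjugate
    obtain ⟨m, n, hmn⟩ := (eisO e a).2
    obtain ⟨k, l, hkl⟩ := (eisO e b).2
    rw [coe_eisO] at hmn hkl
    have hb0 : e (b : F) ≠ 0 := by
      rw [map_ne_zero_iff _ e.injective]
      exact RingOfIntegers.coe_ne_zero_iff.2 (nonZeroDivisors.ne_zero hb)
    have hN : ((k ^ 2 - k * l + l ^ 2 : ℤ) : ℂ) ≠ 0 := by
      have h1 := normSq_eis k l
      rw [← hkl] at h1
      have h2 : Complex.normSq (e (b : F)) ≠ 0 := by
        rwa [Ne, Complex.normSq_eq_zero]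
      rw [h1] at h2
      exact_mod_cast h2
    have hprod : ((k : ℂ) + l * om) * (k + l * (-1 - om)) = ((k ^ 2 - k * l + l ^ 2 : ℤ) : ℂ) := by
      push_cast
      linear_combination (-(l : ℂ) ^ 2) * om_rel
    refine ⟨((m * k - m * l + n * l : ℤ) : ℚ) / ((k ^ 2 - k * l + l ^ 2 : ℤ) : ℚ),
      ((n * k - m * l : ℤ) : ℚ) / ((k ^ 2 - k * l + l ^ 2 : ℤ) : ℚ), ?_⟩
    rw [map_div₀]
    have hb1 : e ((algebraMap (𝓞 F) F) b) = (k : ℂ) + l * om := hkl
    have ha1 : e ((algebraMap (𝓞 F) F) a) = (m : ℂ) + n * om := hmn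
    rw [hb1, ha1]
    have hb2 : (k : ℂ) + l * om ≠ 0 := by rw [← hkl]; exact hb0
    rw [Rat.cast_div, Rat.cast_div, Rat.cast_intCast, Rat.cast_intCast, Rat.cast_intCast,
      div_eq_iff hb2, ← sub_eq_zero]
    have h5 : (((m * k - m * l + n * l : ℤ) : ℂ) / ((k ^ 2 - k * l + l ^ 2 : ℤ) : ℂ) +
        ((n * k - m * l : ℤ) : ℂ) / ((k ^ 2 - k * l + l ^ 2 : ℤ) : ℂ) * om) *
        (((k ^ 2 - k * l + l ^ 2 : ℤ) : ℂ)) =
        (m + n * om) * (k + l * (-1 - om)) := by
      field_simp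
      push_cast
      linear_combination ((n : ℂ) * l) * om_rel
    have h6 : ((m : ℂ) + n * om - (((m * k - m * l + n * l : ℤ) : ℂ) /
        ((k ^ 2 - k * l + l ^ 2 : ℤ) : ℂ) + ((n * k - m * l : ℤ) : ℂ) /
        ((k ^ 2 - k * l + l ^ 2 : ℤ) : ℂ) * om) * (k + l * om)) *
        ((k ^ 2 - k * l + l ^ 2 : ℤ) : ℂ) = 0 := by
      rw [sub_mul]
      rw [mul_right_comm, h5, ← hprod]
      ring
    exact (mul_eq_zero.1 h6).resolve_right hN
  · rintro ⟨a, b, rfl⟩
    refine ⟨(a : F) + b * z, ?_⟩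
    rw [map_add, map_mul, hez, map_ratCast, map_ratCast]

/-! ## The groups `Γ₀(N)` -/

/-- Every element of `Gam N` comes from a matrix with entries in `𝓞 F`. -/
theorem exists_lift_Gam {N : ℕ} {g : GL (Fin 2) ℂ} (hg : g ∈ S47T.Gam N) :
    ∃ g' : GL (Fin 2) F, GeneralLinearGroup.map e g' = g ∧
      (g' : Matrix (Fin 2) (Fin 2) F).det = 1 ∧
      (∀ i j, IsIntegral ℤ (g' i j)) ∧ ∃ x : F, IsIntegral ℤ x ∧ g' 1 0 = N * x := by
  obtain ⟨hdet, hint, x, hx, hgx⟩ := hg
  let M : Matrix (Fin 2) (Fin 2) F := fun i j =>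
    (((eisO e).symm ⟨(g : Matrix (Fin 2) (Fin 2) ℂ) i j, hint i j⟩ : 𝓞 F) : F)
  have hM : ∀ i j, e (M i j) = (g : Matrix (Fin 2) (Fin 2) ℂ) i j := fun i j => e_symm e _
  have hMd : M.det = 1 := by
    apply e.injective
    rw [map_one, ← hdet, Matrix.det_fin_two, Matrix.det_fin_two, map_sub, map_mul, map_mul, hM,
      hM, hM, hM]
  let g' : GL (Fin 2) F := GeneralLinearGroup.mk'' M (by rw [hMd]; exact isUnit_one)
  have hg' : (g' : Matrix (Fin 2) (Fin 2) F) = M := rfl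
  refine ⟨g', ?_, hMd, ?_, ?_⟩
  · ext i j
    exact hM i j
  · intro i j
    exact ((eisO e).symm ⟨(g : Matrix (Fin 2) (Fin 2) ℂ) i j, hint i j⟩ : 𝓞 F).2
  · refine ⟨(((eisO e).symm ⟨x, hx⟩ : 𝓞 F) : F), ((eisO e).symm ⟨x, hx⟩ : 𝓞 F).2, ?_⟩
    apply e.injective
    rw [map_mul, map_natCast, e_symm]
    show e (M 1 0) = _
    rw [hM, hgx]

/-! ## Places -/

/-- A generator (in `ℤ[ω]`) of the prime of a finite place. -/
theorem exists_prime_gen (v : HeightOneSpectrum (𝓞 F)) : ∃ ϖ : Eis, Prime ϖ ∧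
    v.asIdeal = Ideal.span {(eisO e).symm ϖ} := by
  have hP : (v.asIdeal.map (eisO e)).IsPrime := Ideal.map_isPrime_of_equiv (eisO e)
  have h0 : v.asIdeal.map (eisO e) ≠ ⊥ := by
    intro h
    apply v.ne_bot
    rw [← Ideal.map_eq_bot_iff_of_injective (f := (eisO e : 𝓞 F →+* Eis)) (eisO e).injective]
    exact h
  obtain ⟨ϖ, hϖ⟩ := IsPrincipalIdealRing.principal (v.asIdeal.map (eisO e))
  rw [Ideal.submodule_span_eq] at hϖ
  have hϖ0 : ϖ ≠ 0 := by
    rintro rfl
    exact h0 (by rw [hϖ]; exact Ideal.span_singleton_eq_bot.2 rfl)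
  refine ⟨ϖ, (Ideal.span_singleton_prime hϖ0).1 (hϖ ▸ hP), ?_⟩
  ext a
  rw [Ideal.mem_span_singleton]
  have h2 : a ∈ v.asIdeal ↔ eisO e a ∈ v.asIdeal.map (eisO e) := by
    constructor
    · intro h; exact Ideal.mem_map_of_mem _ h
    · intro h
      obtain ⟨x, hx, hxe⟩ := (Ideal.mem_map_of_equiv (eisO e) _).1 h
      rwa [(eisO e).injective hxe] at hx
  rw [h2, hϖ, Ideal.mem_span_singleton]
  constructor
  · intro h
    have := map_dvd (eisO e).symm h
    rwa [RingEquiv.symm_apply_apply] at this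
  · intro h
    have := map_dvd (eisO e) h
    rwa [RingEquiv.apply_symm_apply] at this

/-- The place of `F` given by a prime of `ℤ[ω]`. -/
def placeOf (ϖ : Eis) (hϖ : Prime ϖ) : HeightOneSpectrum (𝓞 F) where
  asIdeal := Ideal.span {(eisO e).symm ϖ}
  isPrime := by
    rw [Ideal.span_singleton_prime]
    · exact (MulEquiv.prime_iff (eisO e).symm).2 hϖ
    · rw [Ne, map_eq_zero_iff _ (eisO e).symm.injective]; exact hϖ.ne_zero
  ne_bot := by
    rw [Ne, Ideal.span_singleton_eq_bot, map_eq_zero_iff _ (eisO e).symm.injective]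
    exact hϖ.ne_zero

theorem placeOf_asIdeal (ϖ : Eis) (hϖ : Prime ϖ) :
    (placeOf e ϖ hϖ).asIdeal = Ideal.span {(eisO e).symm ϖ} := rfl

variable {e}

/-- valuation of integers: divisibility by powers of `ϖ` -/
theorem val_le_iff {v : HeightOneSpectrum (𝓞 F)} {ϖ : Eis}
    (hv : v.asIdeal = Ideal.span {(eisO e).symm ϖ}) (a : 𝓞 F) (n : ℕ) :
    v.valuation F (a : F) ≤ exp (-(n : ℤ)) ↔ ϖ ^ n ∣ eisO e a := by
  have h1 : v.valuation F (a : F) = v.intValuation a := HeightOneSpectrum.valuation_of_algebraMap _ _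
  rw [h1, HeightOneSpectrum.intValuation_le_pow_iff_mem, hv, Ideal.span_singleton_pow,
    Ideal.mem_span_singleton, ← map_pow]
  constructor
  · intro h
    have := map_dvd (eisO e) h
    rwa [RingEquiv.apply_symm_apply] at this
  · intro h
    have := map_dvd (eisO e).symm h
    rwa [RingEquiv.symm_apply_apply] at this

theorem val_lt_one_iff {v : HeightOneSpectrum (𝓞 F)} {ϖ : Eis}
    (hv : v.asIdeal = Ideal.span {(eisO e).symm ϖ}) (a : 𝓞 F) :
    v.valuation F (a : F) < 1 ↔ ϖ ∣ eisO e a := by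
  have h := val_le_iff hv a 1
  rw [pow_one] at h
  rw [← h]
  constructor
  · intro h1
    have h0 : v.valuation F (a : F) = v.intValuation a :=
      HeightOneSpectrum.valuation_of_algebraMap _ _
    rw [h0, HeightOneSpectrum.intValuation_lt_one_iff_mem] at h1
    rw [h0, HeightOneSpectrum.intValuation_le_pow_iff_mem, pow_one]
    exact h1
  · intro h1
    exact h1.trans_lt (by rw [← exp_zero, exp_lt_exp]; norm_num)

theorem val_eq_one_iff {v : HeightOneSpectrum (𝓞 F)} {ϖ : Eis}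
    (hv : v.asIdeal = Ideal.span {(eisO e).symm ϖ}) (a : 𝓞 F) :
    v.valuation F (a : F) = 1 ↔ ¬ ϖ ∣ eisO e a := by
  rw [← val_lt_one_iff hv, not_lt]
  constructor
  · intro h; exact h.ge
  · intro h
    exact le_antisymm (HeightOneSpectrum.valuation_le_one v a) h

/-- `ϖ` is a uniformiser. -/
theorem val_gen {v : HeightOneSpectrum (𝓞 F)} {ϖ : Eis} (hϖ : Prime ϖ)
    (hv : v.asIdeal = Ideal.span {(eisO e).symm ϖ}) :
    v.valuation F (((eisO e).symm ϖ : 𝓞 F) : F) = exp (-1 : ℤ) := by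
  have h1 := (val_le_iff hv ((eisO e).symm ϖ) 1).2 (by simp)
  have h2 : ¬ v.valuation F (((eisO e).symm ϖ : 𝓞 F) : F) ≤ exp (-((2 : ℕ) : ℤ)) := by
    rw [val_le_iff hv, RingEquiv.apply_symm_apply]
    intro h
    have h3 : ϖ * ϖ ∣ ϖ * 1 := by rwa [mul_one, ← sq]
    exact hϖ.not_unit (isUnit_of_dvd_one ((mul_dvd_mul_iff_left hϖ.ne_zero).1 h3))
  rw [not_le] at h2
  have hne : v.valuation F (((eisO e).symm ϖ : 𝓞 F) : F) ≠ 0 := by
    intro h0
    rw [h0] at h2
    exact not_lt_zero h2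
  obtain ⟨k, hk⟩ : ∃ k : ℤ, v.valuation F (((eisO e).symm ϖ : 𝓞 F) : F) = exp k :=
    ⟨_, (exp_log hne).symm⟩
  rw [hk] at h1 h2 ⊢
  rw [exp_le_exp] at h1
  rw [exp_lt_exp] at h2
  congr 1
  push_cast at h1 h2
  omega

/-- the absolute norm of the place is `|ϖ|²` -/
theorem absNorm_eq {v : HeightOneSpectrum (𝓞 F)} {ϖ : Eis}
    (hv : v.asIdeal = Ideal.span {(eisO e).symm ϖ}) :
    ((Ideal.absNorm v.asIdeal : ℕ) : ℝ) = Complex.normSq (ϖ : ℂ) := by
  rw [← H91.Z.absNorm_span_Eis]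
  congr 1
  rw [Ideal.absNorm_apply, Ideal.absNorm_apply, Submodule.cardQuot_apply, Submodule.cardQuot_apply]
  refine Nat.card_congr (Ideal.quotientEquiv _ _ (eisO e) ?_).toEquiv
  rw [hv, Ideal.map_span, Set.image_singleton]
  simp

end Fermat.Agent.H83Z
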