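/-
S47, package GAL, part G0 (helper3): the finite group theory of `GL₂(𝔽₃)`.

* `Q8`   : `{g | det g = 1, g = ±1 or tr g = 0}`, normal of index 6,
* `SL`   : the kernel of `det`, index 2,
* `C4 i` : the subgroup generated by an element `i` of order 4 of `Q8`,
* `PM`   : `{±1}`.
-/
import Mathlib
import Fermat.Prelude.Def_LanglandsTunnell_ExplicitLift

set_option autoImplicit false

namespace Fermat.Agent.H3G

open Matrix

/-- `GL₂(𝔽₃)` -/
abbrev GG := GL (Fin 2) (ZMod 3)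

local instance : Fact (Nat.Prime 3) := ⟨Nat.prime_three⟩

/-- determinant one -/
def SL : Subgroup GG := (Matrix.GeneralLinearGroup.det (n := Fin 2) (R := ZMod 3)).ker

theorem mem_SL {g : GG} : g ∈ SL ↔ Matrix.GeneralLinearGroup.det g = 1 := Iff.rfl

theorem mem_SL' {g : GG} : g ∈ SL ↔ (g : Matrix (Fin 2) (Fin 2) (ZMod 3)).det = 1 := by
  rw [mem_SL, Units.ext_iff]
  rfl

instance : SL.Normal := by unfold SL; infer_instance

/-- `{±1}` -/
def PM : Subgroup GG where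
  carrier := {g | g = 1 ∨ g = -1}
  one_mem' := Or.inl rfl
  mul_mem' := by
    rintro a b (rfl | rfl) (rfl | rfl) <;> simp
  inv_mem' := by
    rintro a (rfl | rfl) <;> simp

theorem mem_PM {g : GG} : g ∈ PM ↔ g = 1 ∨ g = -1 := Iff.rfl

instance : PM.Normal := ⟨by
  rintro a (rfl | rfl) g
  · left; simp
  · right; simp⟩

theorem det_coe (g : GG) : (g : Matrix (Fin 2) (Fin 2) (ZMod 3)).det =
    g 0 0 * g 1 1 - g 0 1 * g 1 0 := Matrix.det_fin_two _

theorem tr_coe (g : GG) : (g : Matrix (Fin 2) (Fin 2) (ZMod 3)).trace = g 0 0 + g 1 1 :=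
  Matrix.trace_fin_two _

theorem GG_ext {g h : GG} (h1 : g 0 0 = h 0 0) (h2 : g 0 1 = h 0 1) (h3 : g 1 0 = h 1 0)
    (h4 : g 1 1 = h 1 1) : g = h := by
  apply Units.ext
  ext i j
  fin_cases i <;> fin_cases j
  exacts [h1, h2, h3, h4]

theorem eq_one_iff {g : GG} : g = 1 ↔ g 0 0 = 1 ∧ g 0 1 = 0 ∧ g 1 0 = 0 ∧ g 1 1 = 1 := by
  constructor
  · rintro rfl; simp
  · rintro ⟨h1, h2, h3, h4⟩
    exact GG_ext (by simpa using h1) (by simpa using h2) (by simpa using h3) (by simpa using h4)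

theorem eq_neg_one_iff {g : GG} : g = -1 ↔ g 0 0 = -1 ∧ g 0 1 = 0 ∧ g 1 0 = 0 ∧ g 1 1 = -1 := by
  constructor
  · rintro rfl; simp
  · rintro ⟨h1, h2, h3, h4⟩
    exact GG_ext (by simpa using h1) (by simpa using h2) (by simpa using h3) (by simpa using h4)

/-- the condition defining `Q8`, on entries -/
def qc (a b c d : ZMod 3) : Prop := a * d - b * c = 1 ∧ (a + d = 0 ∨ (b = 0 ∧ c = 0))

instance (a b c d : ZMod 3) : Decidable (qc a b c d) := by unfold qc; infer_instance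

theorem qc_mul : ∀ a b c d : ZMod 3, qc a b c d → ∀ a' b' c' d' : ZMod 3, qc a' b' c' d' →
    qc (a * a' + b * c') (a * b' + b * d') (c * a' + d * c') (c * b' + d * d') := by
  decide

/-- the quaternion subgroup -/
def Q8 : Subgroup GG where
  carrier := {g | qc (g 0 0) (g 0 1) (g 1 0) (g 1 1)}
  one_mem' := by simp [qc]
  mul_mem' := by
    intro g h hg hh
    have := qc_mul _ _ _ _ hg _ _ _ _ hh
    simpa [Matrix.mul_apply, Fin.sum_univ_two] using this
  inv_mem' := by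
    intro g hg
    obtain ⟨h1, h2⟩ := hg
    have hdet : (g : Matrix (Fin 2) (Fin 2) (ZMod 3)).det = 1 := by rw [det_coe]; exact h1
    have hinv : ((g⁻¹ : GG) : Matrix (Fin 2) (Fin 2) (ZMod 3)) = !![g 1 1, -g 0 1; -g 1 0, g 0 0] := by
      rw [Matrix.coe_units_inv, Matrix.inv_def, hdet, Ring.inverse_one, one_smul,
        Matrix.adjugate_fin_two]
    have e (i j : Fin 2) : (g⁻¹ : GG) i j = (!![g 1 1, -g 0 1; -g 1 0, g 0 0] :
        Matrix (Fin 2) (Fin 2) (ZMod 3)) i j := by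
      rw [← hinv]
    show qc _ _ _ _
    rw [e, e, e, e]
    refine ⟨?_, ?_⟩
    · simp; linear_combination h1
    · rcases h2 with h2 | ⟨h2, h3⟩
      · left; simp; linear_combination h2
      · right; simp [h2, h3]

theorem mem_Q8 {g : GG} : g ∈ Q8 ↔ qc (g 0 0) (g 0 1) (g 1 0) (g 1 1) := Iff.rfl

theorem qc_iff : ∀ a b c d : ZMod 3, qc a b c d ↔ (a * d - b * c = 1 ∧
    (a + d = 0 ∨ (a = 1 ∧ b = 0 ∧ c = 0 ∧ d = 1) ∨ (a = -1 ∧ b = 0 ∧ c = 0 ∧ d = -1))) := by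
  decide

theorem mem_Q8' {g : GG} : g ∈ Q8 ↔ g ∈ SL ∧
    ((g : Matrix (Fin 2) (Fin 2) (ZMod 3)).trace = 0 ∨ g = 1 ∨ g = -1) := by
  rw [mem_Q8, qc_iff, mem_SL', det_coe, tr_coe, eq_one_iff, eq_neg_one_iff]

theorem PM_le_Q8 : PM ≤ Q8 := by
  rintro g (rfl | rfl)
  · exact Q8.one_mem
  · rw [mem_Q8']
    refine ⟨?_, Or.inr (Or.inr rfl)⟩
    rw [mem_SL', det_coe]
    simp

theorem Q8_le_SL : Q8 ≤ SL := fun _ h => (mem_Q8'.1 h).1

instance : Q8.Normal := ⟨by
  intro n hn g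
  rw [mem_Q8'] at hn ⊢
  refine ⟨Subgroup.Normal.conj_mem inferInstance n hn.1 g, ?_⟩
  rcases hn.2 with h | rfl | rfl
  · left
    rw [Units.val_mul, Units.val_mul, Matrix.trace_units_conj]
    exact h
  · right; left; simp
  · right; right; simp⟩

theorem sq_entries : ∀ a b c d : ZMod 3, a * d - b * c = 1 → a + d = 0 →
    a * a + b * c = -1 ∧ a * b + b * d = 0 ∧ c * a + d * c = 0 ∧ c * b + d * d = -1 := by
  decide

/-- an element of `Q8` other than `±1` has square `-1`. -/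
theorem sq_of_mem_Q8 {g : GG} (hg : g ∈ Q8) (h1 : g ≠ 1) (h2 : g ≠ -1) : g ^ 2 = -1 := by
  rw [mem_Q8', mem_SL', det_coe, tr_coe] at hg
  obtain ⟨hd, ht⟩ := hg
  have ht' : g 0 0 + g 1 1 = 0 := by tauto
  obtain ⟨e1, e2, e3, e4⟩ := sq_entries _ _ _ _ hd ht'
  rw [sq, eq_neg_one_iff]
  simp only [Units.val_mul, Matrix.mul_apply, Fin.sum_univ_two]
  exact ⟨e1, e2, e3, e4⟩

theorem pow_four_of_mem_Q8 {g : GG} (hg : g ∈ Q8) : g ^ 4 = 1 := by
  by_cases h1 : g = 1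
  · rw [h1, one_pow]
  by_cases h2 : g = -1
  · rw [h2]; norm_num
  · rw [show (4 : ℕ) = 2 * 2 from rfl, pow_mul, sq_of_mem_Q8 hg h1 h2]; norm_num

theorem fourth_entries : ∀ a b c d : ZMod 3, a * d - b * c = 1 →
    ((a * a + b * c) * (a * a + b * c) + (a * b + b * d) * (c * a + d * c) = 1 ∧
      (a * a + b * c) * (a * b + b * d) + (a * b + b * d) * (c * b + d * d) = 0 ∧
      (c * a + d * c) * (a * a + b * c) + (c * b + d * d) * (c * a + d * c) = 0 ∧
      (c * a + d * c) * (a * b + b * d) + (c * b + d * d) * (c * b + d * d) = 1) →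
    qc a b c d := by
  decide

theorem mem_Q8_iff_pow {g : GG} : g ∈ Q8 ↔ Matrix.GeneralLinearGroup.det g = 1 ∧ g ^ 4 = 1 := by
  refine ⟨fun h => ⟨Q8_le_SL h, pow_four_of_mem_Q8 h⟩, ?_⟩
  rintro ⟨h1, h2⟩
  rw [← mem_SL, mem_SL', det_coe] at h1
  rw [show (4 : ℕ) = 2 * 2 from rfl, pow_mul, sq (g ^ 2), sq g, eq_one_iff] at h2
  simp only [Units.val_mul, Matrix.mul_apply, Fin.sum_univ_two] at h2
  exact fourth_entries _ _ _ _ h1 h2

/-- `det = -1`: a reflection (square one) or an element of order eight whose square is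
in `Q8` minus `±1`. -/
theorem sq_of_det_neg : ∀ a b c d : ZMod 3, a * d - b * c = -1 →
    qc (a * a + b * c) (a * b + b * d) (c * a + d * c) (c * b + d * d) := by
  decide

theorem sq_mem_Q8_of_not_mem_SL {g : GG} (hg : g ∉ SL) : g ^ 2 ∈ Q8 := by
  rw [mem_SL', det_coe] at hg
  have h0 : g 0 0 * g 1 1 - g 0 1 * g 1 0 ≠ 0 := by
    rw [← det_coe]
    exact ((Matrix.isUnit_iff_isUnit_det _).1 g.isUnit).ne_zero
  have key : ∀ x : ZMod 3, x ≠ 1 → x ≠ 0 → x = -1 := by decide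
  have := sq_of_det_neg _ _ _ _ (key _ hg h0)
  rw [mem_Q8, sq]
  simpa only [Units.val_mul, Matrix.mul_apply, Fin.sum_univ_two] using this

theorem neg_entries : ∀ a b c d : ZMod 3, a * d - b * c = -1 →
    ¬ (a * a + b * c = -1 ∧ a * b + b * d = 0 ∧ c * a + d * c = 0 ∧ c * b + d * d = -1) := by
  decide

theorem sq_ne_neg_one_of_not_mem_SL {g : GG} (hg : g ∉ SL) : g ^ 2 ≠ -1 := by
  rw [mem_SL', det_coe] at hg
  have h0 : g 0 0 * g 1 1 - g 0 1 * g 1 0 ≠ 0 := by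
    rw [← det_coe]
    exact ((Matrix.isUnit_iff_isUnit_det _).1 g.isUnit).ne_zero
  have key : ∀ x : ZMod 3, x ≠ 1 → x ≠ 0 → x = -1 := by decide
  have := neg_entries _ _ _ _ (key _ hg h0)
  intro h
  apply this
  rw [sq, eq_neg_one_iff] at h
  simpa only [Units.val_mul, Matrix.mul_apply, Fin.sum_univ_two] using h

end Fermat.Agent.H3G
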