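/-
S47, package GAL, part G0b (helper3): orders and indices of the subgroups of `GL₂(𝔽₃)`,
traces of a lift `Ψ : GL₂(𝔽₃) → GL₂(ℤ[√-2])`.
-/
import Mathlib
import Fermat.Agent.H3G0

set_option autoImplicit false

namespace Fermat.Agent.H3G

open Matrix FLT.ExplicitLift

local instance : Fact (Nat.Prime 3) := ⟨Nat.prime_three⟩

theorem card_GG : Nat.card GG = 48 := by
  rw [Matrix.card_GL_field]
  simp [Fin.prod_univ_succ, ZMod.card]

theorem det_surjective : Function.Surjective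
    (Matrix.GeneralLinearGroup.det (n := Fin 2) (R := ZMod 3)) := by
  intro u
  refine ⟨Matrix.GeneralLinearGroup.mkOfDetNeZero !![(u : ZMod 3), 0; 0, 1] ?_, ?_⟩
  · simp
  · apply Units.ext
    rw [Matrix.GeneralLinearGroup.val_det_apply]
    simp [Matrix.GeneralLinearGroup.mkOfDetNeZero]

theorem index_SL : SL.index = 2 := by
  unfold SL
  rw [Subgroup.index_ker, MonoidHom.range_eq_top.2 det_surjective]
  rw [Subgroup.card_top, Nat.card_eq_fintype_card]
  decide

theorem card_SL : Nat.card SL = 24 := by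
  have h := SL.card_mul_index
  rw [card_GG, index_SL] at h
  omega

/-- entries of an element of `Q8` -/
def toQc : Q8 ≃ {x : ZMod 3 × ZMod 3 × ZMod 3 × ZMod 3 // qc x.1 x.2.1 x.2.2.1 x.2.2.2} where
  toFun g := ⟨((g : GG) 0 0, (g : GG) 0 1, (g : GG) 1 0, (g : GG) 1 1), g.2⟩
  invFun x := ⟨Matrix.GeneralLinearGroup.mkOfDetNeZero
    !![x.1.1, x.1.2.1; x.1.2.2.1, x.1.2.2.2] (by
      rw [Matrix.det_fin_two_of, x.2.1]; exact one_ne_zero), by
      rw [mem_Q8]
      simpa [Matrix.GeneralLinearGroup.mkOfDetNeZero] using x.2⟩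
  left_inv g := by
    apply Subtype.ext
    apply GG_ext <;> simp [Matrix.GeneralLinearGroup.mkOfDetNeZero]
  right_inv x := by
    apply Subtype.ext
    simp [Matrix.GeneralLinearGroup.mkOfDetNeZero]

theorem card_Q8 : Nat.card Q8 = 8 := by
  rw [Nat.card_congr toQc, Nat.card_eq_fintype_card]
  decide

theorem index_Q8 : Q8.index = 6 := by
  have h := Q8.card_mul_index
  rw [card_GG, card_Q8] at h
  omega

theorem one_ne_neg_one : (1 : GG) ≠ -1 := by
  intro h
  have := (eq_neg_one_iff.1 h).1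
  simp at this
  revert this
  decide

theorem card_PM : Nat.card PM = 2 := by
  have h : ((PM : Subgroup GG) : Set GG) = {1, -1} := by
    ext g; simp [mem_PM]
  rw [show Nat.card PM = Set.ncard ((PM : Subgroup GG) : Set GG) from rfl, h,
    Set.ncard_pair one_ne_neg_one]

theorem index_PM : PM.index = 24 := by
  have h := PM.card_mul_index
  rw [card_GG, card_PM] at h
  omega

theorem index_bot' : (⊥ : Subgroup GG).index = 48 := by
  rw [Subgroup.index_bot, card_GG]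

theorem relIndex_of_card {H K : Subgroup GG} (h : H ≤ K) :
    Nat.card H * H.relIndex K = Nat.card K := by
  rw [Subgroup.relIndex, ← Subgroup.card_mul_index (H.subgroupOf K)]
  congr 1
  exact (Nat.card_congr (Subgroup.subgroupOfEquivOfLe h).toEquiv).symm

theorem relIndex_Q8_SL : Q8.relIndex SL = 3 := by
  have h := relIndex_of_card Q8_le_SL
  rw [card_Q8, card_SL] at h
  omega

theorem relIndex_PM_Q8 : PM.relIndex Q8 = 4 := by
  have h := relIndex_of_card PM_le_Q8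
  rw [card_Q8, card_PM] at h
  omega

/-! ### The cyclic subgroups of order 4 -/

/-- the cyclic group generated by `i` -/
def C4 (i : GG) : Subgroup GG := Subgroup.zpowers i

theorem C4_le {i : GG} (hi : i ∈ Q8) : C4 i ≤ Q8 := (Subgroup.zpowers_le).2 hi

theorem orderOf_eq_four {i : GG} (hi : i ∈ Q8) (h1 : i ≠ 1) (h2 : i ≠ -1) : orderOf i = 4 := by
  have h := sq_of_mem_Q8 hi h1 h2
  apply orderOf_eq_prime_pow (p := 2) (n := 1)
  · rw [pow_one, h]
    exact one_ne_neg_one.symm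
  · exact pow_four_of_mem_Q8 hi

theorem card_C4 {i : GG} (hi : i ∈ Q8) (h1 : i ≠ 1) (h2 : i ≠ -1) : Nat.card (C4 i) = 4 := by
  rw [C4, Nat.card_zpowers, orderOf_eq_four hi h1 h2]

theorem PM_le_C4 {i : GG} (hi : i ∈ Q8) (h1 : i ≠ 1) (h2 : i ≠ -1) : PM ≤ C4 i := by
  rintro g (rfl | rfl)
  · exact Subgroup.one_mem _
  · rw [← sq_of_mem_Q8 hi h1 h2]
    exact Subgroup.pow_mem _ (Subgroup.mem_zpowers i) 2

theorem relIndex_C4_Q8 {i : GG} (hi : i ∈ Q8) (h1 : i ≠ 1) (h2 : i ≠ -1) :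
    (C4 i).relIndex Q8 = 2 := by
  have h := relIndex_of_card (C4_le hi)
  rw [card_Q8, card_C4 hi h1 h2] at h
  omega

theorem relIndex_PM_C4 {i : GG} (hi : i ∈ Q8) (h1 : i ≠ 1) (h2 : i ≠ -1) :
    PM.relIndex (C4 i) = 2 := by
  have h := relIndex_of_card (PM_le_C4 hi h1 h2)
  rw [card_PM, card_C4 hi h1 h2] at h
  omega

/-- the element `(0 -1; 1 0)` -/
def qi : GG := Matrix.GeneralLinearGroup.mkOfDetNeZero !![0, -1; 1, 0] (by
  rw [Matrix.det_fin_two_of]; decide)

theorem qi_mem : qi ∈ Q8 := by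
  rw [mem_Q8]
  simp only [qi, Matrix.GeneralLinearGroup.mkOfDetNeZero]
  show qc 0 (-1) 1 0
  decide

theorem qi_ne_one : qi ≠ 1 := by
  intro h
  have := (eq_one_iff.1 h).1
  revert this
  show ¬ ((0 : ZMod 3) = 1)
  decide

theorem qi_ne_neg_one : qi ≠ -1 := by
  intro h
  have := (eq_neg_one_iff.1 h).1
  revert this
  show ¬ ((0 : ZMod 3) = -1)
  decide

/-- the unipotent element `(1 1; 0 1)` of order `3` -/
def ut : GG := Matrix.GeneralLinearGroup.mkOfDetNeZero !![1, 1; 0, 1] (by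
  rw [Matrix.det_fin_two_of]; decide)

theorem ut_mem : ut ∈ SL := by
  rw [mem_SL', det_coe]
  show (1 : ZMod 3) * 1 - 1 * 0 = 1
  decide

theorem ut_not_mem : ut ∉ Q8 := by
  rw [mem_Q8]
  show ¬ qc 1 1 0 1
  decide

theorem ut_pow : ut ^ 3 = 1 := by
  rw [pow_succ, sq, eq_one_iff]
  simp only [Units.val_mul, Matrix.mul_apply, Fin.sum_univ_two]
  show (((1 : ZMod 3) * 1 + 1 * 0) * 1 + (1 * 1 + 1 * 1) * 0 = 1) ∧
    ((1 : ZMod 3) * 1 + 1 * 0) * 1 + (1 * 1 + 1 * 1) * 1 = 0 ∧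
    ((0 : ZMod 3) * 1 + 1 * 0) * 1 + (0 * 1 + 1 * 1) * 0 = 0 ∧
    ((0 : ZMod 3) * 1 + 1 * 0) * 1 + (0 * 1 + 1 * 1) * 1 = 1
  decide

/-! ### Traces of the lift -/

section Psi

variable {Ψ : GL (Fin 2) (ZMod 3) →* GL (Fin 2) (ℤ√(-2))}
  (hΨ : ∀ g, Matrix.GeneralLinearGroup.map red (Ψ g) = g)

/-- the trace of the lift -/
noncomputable def ptr (Ψ : GL (Fin 2) (ZMod 3) →* GL (Fin 2) (ℤ√(-2))) (g : GG) : ℤ√(-2) :=
  ((Ψ g : GL (Fin 2) (ℤ√(-2))) : Matrix (Fin 2) (Fin 2) (ℤ√(-2))).trace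

theorem cayley {R : Type*} [CommRing R] (A : Matrix (Fin 2) (Fin 2) R) :
    A * A = A.trace • A - A.det • (1 : Matrix (Fin 2) (Fin 2) R) := by
  rw [Matrix.det_fin_two, Matrix.trace_fin_two]
  ext i j
  fin_cases i <;> fin_cases j <;>
    simp [Matrix.mul_apply, Fin.sum_univ_two] <;> ring

theorem eq_one_or_neg_one_of_sq {x : ℤ√(-2)} (h : x * x = 1) : x = 1 ∨ x = -1 := by
  have h' : (x - 1) * (x + 1) = 0 := by linear_combination h
  have hns : ∀ a b : ℤ√(-2), a * b = 0 → a = 0 ∨ b = 0 := by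
    intro a b hab
    have hn : Zsqrtd.norm a * Zsqrtd.norm b = 0 := by rw [← Zsqrtd.norm_mul, hab, Zsqrtd.norm_zero]
    have key : ∀ c : ℤ√(-2), Zsqrtd.norm c = 0 → c = 0 := by
      intro c hc
      rw [Zsqrtd.norm_def] at hc
      have h1 : c.re = 0 := by nlinarith [sq_nonneg c.re, sq_nonneg c.im]
      have h2 : c.im = 0 := by nlinarith [sq_nonneg c.re, sq_nonneg c.im]
      exact Zsqrtd.ext h1 h2
    rcases mul_eq_zero.1 hn with h | h
    · exact Or.inl (key a h)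
    · exact Or.inr (key b h)
  rcases hns _ _ h' with h | h
  · left; linear_combination h
  · right; linear_combination h


theorem eq_zero_or_eq_zero_of_mul {a b : ℤ√(-2)} (hab : a * b = 0) : a = 0 ∨ b = 0 := by
  have hn : Zsqrtd.norm a * Zsqrtd.norm b = 0 := by rw [← Zsqrtd.norm_mul, hab, Zsqrtd.norm_zero]
  have key : ∀ c : ℤ√(-2), Zsqrtd.norm c = 0 → c = 0 := by
    intro c hc
    rw [Zsqrtd.norm_def] at hc
    have h1 : c.re = 0 := by nlinarith [sq_nonneg c.re, sq_nonneg c.im]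
    have h2 : c.im = 0 := by nlinarith [sq_nonneg c.re, sq_nonneg c.im]
    exact Zsqrtd.ext h1 h2
  rcases mul_eq_zero.1 hn with h | h
  · exact Or.inl (key a h)
  · exact Or.inr (key b h)

include hΨ in
theorem red_entry (g : GG) (i j : Fin 2) :
    red ((Ψ g : GL (Fin 2) (ℤ√(-2))) i j) = g i j := by
  conv_rhs => rw [← hΨ g]
  rfl

include hΨ in
theorem red_det (g : GG) : red ((Ψ g : GL (Fin 2) (ℤ√(-2))) : Matrix (Fin 2) (Fin 2) (ℤ√(-2))).det
    = (g : Matrix (Fin 2) (Fin 2) (ZMod 3)).det := by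
  rw [Matrix.det_fin_two, Matrix.det_fin_two, map_sub, map_mul, map_mul, red_entry hΨ,
    red_entry hΨ, red_entry hΨ, red_entry hΨ]

/-- the matrix of the lift -/
noncomputable def pm (Ψ : GL (Fin 2) (ZMod 3) →* GL (Fin 2) (ℤ√(-2))) (g : GG) :
    Matrix (Fin 2) (Fin 2) (ℤ√(-2)) := ((Ψ g : GL (Fin 2) (ℤ√(-2))) : Matrix _ _ _)

theorem ptr_def (g : GG) : ptr Ψ g = (pm Ψ g).trace := rfl

theorem pm_mul (g h : GG) : pm Ψ (g * h) = pm Ψ g * pm Ψ h := by
  simp [pm]

theorem pm_one : pm Ψ 1 = 1 := by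
  simp [pm]

include hΨ in
theorem red_pm_det (g : GG) : red (pm Ψ g).det = (g : Matrix (Fin 2) (Fin 2) (ZMod 3)).det :=
  red_det hΨ g

theorem isUnit_pm_det (g : GG) : IsUnit (pm Ψ g).det :=
  (Matrix.isUnit_iff_isUnit_det _).1 ⟨Ψ g, rfl⟩

theorem unit_eq {x : ℤ√(-2)} (hx : IsUnit x) : x = 1 ∨ x = -1 := by
  have h := (Zsqrtd.norm_eq_one_iff' (by norm_num) x).2 hx
  rw [Zsqrtd.norm_def] at h
  have h0 : x.im = 0 := by
    by_contra hne
    have : 0 < x.im * x.im := mul_self_pos.2 hne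
    nlinarith [mul_self_nonneg x.re]
  rw [h0] at h
  have h1 : x.re * x.re = 1 := by linarith
  rcases mul_self_eq_one_iff.1 h1 with h2 | h2
  · left; exact Zsqrtd.ext (by simpa using h2) (by simpa using h0)
  · right; exact Zsqrtd.ext (by simpa using h2) (by simpa using h0)

theorem red_one_ne : red (-1 : ℤ√(-2)) ≠ 1 := by
  rw [map_neg, map_one]; decide

include hΨ in
theorem det_pm_of_mem {g : GG} (hg : g ∈ SL) : (pm Ψ g).det = 1 := by
  have h := red_pm_det hΨ g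
  rw [mem_SL'.1 hg] at h
  rcases unit_eq (isUnit_pm_det (Ψ := Ψ) g) with h1 | h1
  · exact h1
  · rw [h1] at h
    exact absurd h red_one_ne

include hΨ in
theorem det_pm_of_not_mem {g : GG} (hg : g ∉ SL) : (pm Ψ g).det = -1 := by
  rcases unit_eq (isUnit_pm_det (Ψ := Ψ) g) with h1 | h1
  · have h := red_pm_det hΨ g
    rw [h1, map_one] at h
    exact absurd (mem_SL'.2 h.symm) hg
  · exact h1

theorem ptr_sq (g : GG) : ptr Ψ (g * g) = ptr Ψ g ^ 2 - 2 * (pm Ψ g).det := by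
  rw [ptr_def, pm_mul, cayley, Matrix.trace_sub, Matrix.trace_smul, Matrix.trace_smul,
    Matrix.trace_one, ptr_def]
  simp only [smul_eq_mul, Fintype.card_fin]
  push_cast
  ring

theorem ptr_one : ptr Ψ 1 = 2 := by
  rw [ptr_def, pm_one, Matrix.trace_one]
  simp

theorem neg_one_mem_SL : (-1 : GG) ∈ SL := Q8_le_SL (PM_le_Q8 (Or.inr rfl))

include hΨ in
/-- `Ψ(-1) = -1` -/
theorem pm_neg_one : pm Ψ (-1) = -1 := by
  have hd : (pm Ψ (-1)).det = 1 := det_pm_of_mem hΨ neg_one_mem_SL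
  have hsq : pm Ψ (-1) * pm Ψ (-1) = 1 := by
    rw [← pm_mul, neg_mul_neg, one_mul, pm_one]
  have hc := cayley (pm Ψ (-1))
  rw [hsq, hd, Matrix.trace_fin_two] at hc
  set A := pm Ψ (-1) with hA
  have e : ∀ i j, (A 0 0 + A 1 1) * A i j = 2 * (1 : Matrix (Fin 2) (Fin 2) (ℤ√(-2))) i j := by
    intro i j
    have := congrFun (congrFun hc i) j
    simp only [Matrix.sub_apply, Matrix.smul_apply, smul_eq_mul] at this
    linear_combination -this
  have e00 : (A 0 0 + A 1 1) * A 0 0 = 2 := by simpa using e 0 0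
  have e01 : (A 0 0 + A 1 1) * A 0 1 = 0 := by simpa using e 0 1
  have e10 : (A 0 0 + A 1 1) * A 1 0 = 0 := by simpa using e 1 0
  have e11 : (A 0 0 + A 1 1) * A 1 1 = 2 := by simpa using e 1 1
  have h2 : (2 : ℤ√(-2)) ≠ 0 := by
    intro h
    have := congrArg Zsqrtd.re h
    revert this
    decide
  have hne : A 0 0 + A 1 1 ≠ 0 := by
    intro h
    rw [h, zero_mul] at e00
    exact h2 e00.symm
  have h01 : A 0 1 = 0 := (eq_zero_or_eq_zero_of_mul e01).resolve_left hne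
  have h10 : A 1 0 = 0 := (eq_zero_or_eq_zero_of_mul e10).resolve_left hne
  have hdiff : A 0 0 - A 1 1 = 0 := by
    refine (eq_zero_or_eq_zero_of_mul (a := A 0 0 + A 1 1) ?_).resolve_left hne
    linear_combination e00 - e11
  have hred : red (A 0 0) = -1 := by
    have := red_entry hΨ (-1) 0 0
    rw [hA]
    simpa [pm] using this
  have hsq1 : A 0 0 * A 0 0 = 1 := by
    have : 2 * (A 0 0 * A 0 0 - 1) = 0 := by linear_combination e00 + A 0 0 * hdiff
    have h3 := (eq_zero_or_eq_zero_of_mul this).resolve_left h2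
    linear_combination h3
  have h00 : A 0 0 = -1 := by
    rcases eq_one_or_neg_one_of_sq hsq1 with h | h
    · rw [h, map_one] at hred
      exact absurd hred (by decide)
    · exact h
  have h11 : A 1 1 = -1 := by linear_combination h00 - hdiff
  ext1 i j
  fin_cases i <;> fin_cases j
  · simpa using h00
  · simpa using h01
  · simpa using h10
  · simpa using h11

include hΨ in
theorem ptr_neg_one : ptr Ψ (-1) = -2 := by
  rw [ptr_def, pm_neg_one hΨ, Matrix.trace_neg, Matrix.trace_one]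
  simp

include hΨ in
theorem ptr_neg (g : GG) : ptr Ψ (-g) = -ptr Ψ g := by
  rw [ptr_def, show (-g : GG) = (-1) * g by simp, pm_mul, pm_neg_one hΨ, neg_mul, one_mul,
    Matrix.trace_neg, ptr_def]

include hΨ in
/-- the trace of an element of order `4` of `Q8` is zero -/
theorem ptr_of_mem_Q8 {g : GG} (hg : g ∈ Q8) (h1 : g ≠ 1) (h2 : g ≠ -1) : ptr Ψ g = 0 := by
  have hs := ptr_sq (Ψ := Ψ) g
  rw [← sq, sq_of_mem_Q8 hg h1 h2, ptr_neg_one hΨ, det_pm_of_mem hΨ (Q8_le_SL hg)] at hs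
  have h : ptr Ψ g * ptr Ψ g = 0 := by linear_combination -hs
  rcases eq_zero_or_eq_zero_of_mul h with h | h <;> exact h

include hΨ in
/-- outside of `SL`: `tr Ψ(g) ^ 2 = tr Ψ(g²) - 2` -/
theorem ptr_sq_of_not_mem {g : GG} (hg : g ∉ SL) : ptr Ψ g ^ 2 = ptr Ψ (g * g) - 2 := by
  rw [ptr_sq, det_pm_of_not_mem hΨ hg]
  ring

include hΨ in
/-- values of the trace at the squares of the elements of determinant `-1`. -/
theorem ptr_mul_self_of_not_mem {g : GG} (hg : g ∉ SL) :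
    (g * g = 1 ∧ ptr Ψ (g * g) = 2) ∨ (g * g ≠ 1 ∧ ptr Ψ (g * g) = 0) := by
  by_cases h : g * g = 1
  · left
    exact ⟨h, by rw [h, ptr_one]⟩
  · right
    refine ⟨h, ?_⟩
    have h1 := sq_mem_Q8_of_not_mem_SL hg
    have h2 := sq_ne_neg_one_of_not_mem_SL hg
    rw [sq] at h1 h2
    exact ptr_of_mem_Q8 hΨ h1 h h2

end Psi

end Fermat.Agent.H3G
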