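import Fermat.Agent.H96TIface
import Fermat.Agent.H3G2
import Fermat.Prelude.Def_LanglandsTunnell_WeightOneRealizationCarriers

/-!
# S47: cross-block interfaces, right half (helper15)

The closed propositions at the borders between the blocks (C), (N), (T), (Z) of S47.

* `Rho ρ` : the hypotheses of S47 on `ρ`;
* `SplitVal`, `InertVal` : values of the coefficients `c : Eis → ℝ` of `ICT N c F`;
* `BlockCD` : output of (GAL) + (D) + (C);
* `BlockN` : output of (N), `BlockT` : output of (T), `BlockZ` : output of (Z).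
-/

set_option autoImplicit false

open AutomorphicForm FLT.ExplicitLift EisensteinWeightOne WeierstrassCurve LanglandsTunnell
open scoped MatrixGroups
open Fermat.Agent.S47T CongruenceSubgroup

noncomputable section

namespace Fermat.Agent.H15S47

local notation "Γℚ" => (AlgebraicClosure ℚ ≃ₐ[ℚ] AlgebraicClosure ℚ)

/-- The hypotheses of S47 on `ρ`. -/
structure Rho (ρ : Γℚ →* GL (Fin 2) (ZMod 3)) : Prop where
  cont : Continuous ρ
  surj : Function.Surjective ρ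
  det : ∀ σ : Γℚ, Matrix.GeneralLinearGroup.det (ρ σ) = modThreeCyclotomicChar σ

/-- The trace of (the characteristic zero lift of) an element of `Q₈ ⊆ GL₂(𝔽₃)`: `2`, `-2`, `0`. -/
def trQ (g : GL (Fin 2) (ZMod 3)) : ℝ :=
  haveI := Classical.propDecidable
  if g = 1 then 2 else if g = -1 then -2 else 0

/-- Values of the coefficients `c` at the primes `p = |ϖ|²` with `ρ(Frob_p) ∈ Q₈`. -/
def SplitVal (ρ : Γℚ →* GL (Fin 2) (ZMod 3)) (N : ℕ) (c : Eis → ℝ) : Prop :=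
  ∀ p : ℕ, p.Prime → ¬ p ∣ N →
    ∀ A : ValuationSubring (AlgebraicClosure ℚ), A.LiesOverPrime p →
      ∀ σ : Γℚ, A.IsFrobeniusAt σ p →
        Matrix.GeneralLinearGroup.det (ρ σ) = 1 → (ρ σ) ^ 4 = 1 →
          ∀ ϖ : Eis, Complex.normSq (ϖ : ℂ) = p → c ϖ = trQ (ρ σ)

/-- Values of the coefficients `c` at the rational primes `p` inert in `ℚ(√-3)`: `2` if `Frob_p` is a
reflection, `0` if it has order `8`. -/
def InertVal (ρ : Γℚ →* GL (Fin 2) (ZMod 3)) (N : ℕ) (c : Eis → ℝ) : Prop :=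
  ∀ p : ℕ, p.Prime → ¬ p ∣ N → p % 3 = 2 →
    ∀ A : ValuationSubring (AlgebraicClosure ℚ), A.LiesOverPrime p →
      ∀ σ : Γℚ, A.IsFrobeniusAt σ p → c (p : Eis) = trQ ((ρ σ) ^ 2)

/-- **Output of the blocks (GAL), (D), (C).** -/
def BlockCD : Prop :=
  ∀ ρ : Γℚ →* GL (Fin 2) (ZMod 3), Rho ρ →
    ∃ (N : ℕ) (c : Eis → ℝ) (F : H3 → ℂ), 3 ∣ N ∧ ICT N c F ∧ SplitVal ρ N c ∧ InertVal ρ N c

/-- **Output of block (N).** -/
def BlockN : Prop :=
  ∀ ρ : Γℚ →* GL (Fin 2) (ZMod 3), Rho ρ →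
    ∀ (N : ℕ) (c : Eis → ℝ) (F : H3 → ℂ), 3 ∣ N → ICT N c F → SplitVal ρ N c → InertVal ρ N c →
      DUnb c

/-- **Output of block (T).** -/
def BlockT : Prop :=
  ∀ (N : ℕ) (c : Eis → ℝ) (F : H3 → ℂ), 3 ∣ N → ICT N c F → DUnb c → TOut c

/-- **Output of block (Z)** (helper48). -/
def BlockZ : Prop :=
  ∀ (ρ : Γℚ →* GL (Fin 2) (ZMod 3)) (_ : Continuous ρ) (_ : Function.Surjective ρ)
    (_ : ∀ σ, Matrix.GeneralLinearGroup.det (ρ σ) = modThreeCyclotomicChar σ)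
    (Ψ : GL (Fin 2) (ZMod 3) →* GL (Fin 2) (ℤ√(-2)))
    (_ : ∀ g, Matrix.GeneralLinearGroup.map red (Ψ g) = g)
    (N : ℕ) (_ : NeZero N) (g : CuspForm (Gamma1 N) 1) (_ : g ≠ 0)
    (S : Finset ℕ) (D : ℕ) (_ : 0 < D) (ι : ℤ√(-2) →+* ℂ)
    (_ : ∀ (p : ℕ) (hp : p.Prime) (hpN : ¬ p ∣ N), p ∉ S → p ≡ 1 [MOD D] →
      ∀ A : ValuationSubring (AlgebraicClosure ℚ), A.LiesOverPrime p →
        ∀ σ : Γℚ, A.IsFrobeniusAt σ p →
        Matrix.GeneralLinearGroup.det (ρ σ) = 1 → (ρ σ) ^ 4 = 1 →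
        Fermat.Agent.H58.T1L N 1 p hp hpN g =
          (ι ((Ψ (ρ σ) : GL (Fin 2) (ℤ√(-2))) : Matrix (Fin 2) (Fin 2) (ℤ√(-2))).trace) • g),
    ∃ (N : ℕ) (_ : NeZero N) (b : ℕ → ℤ√(-2)),
      FormalHecke.IsEigensystem
        (fun ℓ => if ℓ ∣ N then 0 else ((chiNegThree ℓ : ℤ) : ℤ√(-2))) b ∧
      CuspForm.IsWeightOneChiNegThreeRealized N b ∧
      ∀ p : ℕ, p.Prime → ¬ p ∣ 3 * N →
        ∀ A : ValuationSubring (AlgebraicClosure ℚ), A.LiesOverPrime p →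
          ∀ σ : Γℚ, A.IsFrobeniusAt σ p →
            b p = ((Ψ (ρ σ) : GL (Fin 2) (ℤ√(-2))) : Matrix (Fin 2) (Fin 2) (ℤ√(-2))).trace

end Fermat.Agent.H15S47
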