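import Mathlib
import Fermat.Agent.H99Combo
import Fermat.Agent.H99PrimeSum

/-!
Upper logarithmic densities and squeezing lemmas.
-/

namespace Fermat.Agent.H85

open Filter Topology

open Fermat.Agent.H99 (dsum HasLogDensity)

/-- upper logarithmic density at most `δ` -/
def ULD (c : Nat.Primes → ℝ) (δ : ℝ) : Prop :=
  (∀ s : ℝ, 1 < s → Summable fun p : Nat.Primes => c p * ((p : ℕ) : ℝ) ^ (-s)) ∧
  ∀ ε : ℝ, 0 < ε → ∀ᶠ s in 𝓝[>] (1 : ℝ), dsum c s ≤ (δ + ε) * Real.log (1 / (s - 1))

lemma tendsto_log_inv' : Tendsto (fun s : ℝ => Real.log (1 / (s - 1))) (𝓝[>] 1) atTop :=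
  H99.tendsto_log_inv

lemma eventually_log_pos : ∀ᶠ s in 𝓝[>] (1 : ℝ), 0 < Real.log (1 / (s - 1)) :=
  tendsto_log_inv'.eventually_gt_atTop 0

lemma dsum_add {c d : Nat.Primes → ℝ} {s : ℝ}
    (hc : Summable fun p : Nat.Primes => c p * ((p : ℕ) : ℝ) ^ (-s))
    (hd : Summable fun p : Nat.Primes => d p * ((p : ℕ) : ℝ) ^ (-s)) :
    dsum (fun p => c p + d p) s = dsum c s + dsum d s := by
  rw [dsum, dsum, dsum, ← hc.tsum_add hd]
  refine tsum_congr fun p => ?_
  ring

lemma dsum_const_mul (a : ℝ) (c : Nat.Primes → ℝ) (s : ℝ) :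
    dsum (fun p => a * c p) s = a * dsum c s := by
  rw [dsum, dsum, ← tsum_mul_left]
  refine tsum_congr fun p => ?_
  ring

lemma dsum_mono {c d : Nat.Primes → ℝ} {s : ℝ} (h : ∀ p, c p ≤ d p)
    (hc : Summable fun p : Nat.Primes => c p * ((p : ℕ) : ℝ) ^ (-s))
    (hd : Summable fun p : Nat.Primes => d p * ((p : ℕ) : ℝ) ^ (-s)) :
    dsum c s ≤ dsum d s := by
  apply hc.tsum_le_tsum _ hd
  intro p
  exact mul_le_mul_of_nonneg_right (h p) (by positivity)

lemma ULD.add {c d : Nat.Primes → ℝ} {δ ε : ℝ} (hc : ULD c δ) (hd : ULD d ε) :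
    ULD (fun p => c p + d p) (δ + ε) := by
  refine ⟨fun s hs => ?_, fun η hη => ?_⟩
  · simpa only [add_mul] using (hc.1 s hs).add (hd.1 s hs)
  · filter_upwards [hc.2 (η / 2) (by linarith), hd.2 (η / 2) (by linarith), self_mem_nhdsWithin]
      with s h1 h2 hs
    rw [dsum_add (hc.1 s hs) (hd.1 s hs)]
    have : (δ + ε + η) * Real.log (1 / (s - 1)) = (δ + η / 2) * Real.log (1 / (s - 1)) +
      (ε + η / 2) * Real.log (1 / (s - 1)) := by ring
    linarith

lemma uld_zero : ULD (fun _ => 0) 0 := by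
  refine ⟨fun s _ => by simp, fun ε hε => ?_⟩
  filter_upwards [eventually_log_pos] with s hs
  simp only [dsum, zero_mul, tsum_zero, zero_add]
  positivity

lemma ULD.sum {ι : Type*} (t : Finset ι) {c : ι → Nat.Primes → ℝ} {δ : ι → ℝ}
    (h : ∀ i ∈ t, ULD (c i) (δ i)) : ULD (fun p => ∑ i ∈ t, c i p) (∑ i ∈ t, δ i) := by
  classical
  induction t using Finset.induction_on with
  | empty => simpa using uld_zero
  | insert i t hi ih =>
    simp only [Finset.sum_insert hi]
    exact (h i (Finset.mem_insert_self i t)).add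
      (ih fun j hj => h j (Finset.mem_insert_of_mem hj))

lemma uld_of_hasLogDensity {c : Nat.Primes → ℝ} {δ : ℝ} (h : HasLogDensity c δ) : ULD c δ := by
  refine ⟨h.1, fun ε hε => ?_⟩
  have h1 : ∀ᶠ s in 𝓝[>] (1 : ℝ), dsum c s / Real.log (1 / (s - 1)) < δ + ε :=
    h.2.eventually_lt_const (by linarith)
  filter_upwards [h1, eventually_log_pos] with s hs hpos
  exact ((div_lt_iff₀ hpos).mp hs).le

lemma ULD.mono {c d : Nat.Primes → ℝ} {δ : ℝ} (hd : ULD d δ) (h : ∀ p, c p ≤ d p)
    (hc : ∀ s : ℝ, 1 < s → Summable fun p : Nat.Primes => c p * ((p : ℕ) : ℝ) ^ (-s)) :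
    ULD c δ := by
  refine ⟨hc, fun ε hε => ?_⟩
  filter_upwards [hd.2 ε hε, self_mem_nhdsWithin] with s h1 hs
  exact (dsum_mono h (hc s hs) (hd.1 s hs)).trans h1

lemma ULD.mono_right {c : Nat.Primes → ℝ} {δ δ' : ℝ} (h : ULD c δ) (hle : δ ≤ δ') : ULD c δ' := by
  refine ⟨h.1, fun ε hε => ?_⟩
  filter_upwards [h.2 ε hε, eventually_log_pos] with s h1 h2
  exact h1.trans (mul_le_mul_of_nonneg_right (by linarith) h2.le)

lemma ULD.const_mul {c : Nat.Primes → ℝ} {δ a : ℝ} (ha : 0 ≤ a) (h : ULD c δ) :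
    ULD (fun p => a * c p) (a * δ) := by
  refine ⟨fun s hs => ?_, fun ε hε => ?_⟩
  · simpa only [mul_assoc] using (h.1 s hs).mul_left a
  · rcases ha.eq_or_lt with h0 | hpos
    · filter_upwards [eventually_log_pos] with s hs
      rw [dsum_const_mul, ← h0]
      simp only [zero_mul, zero_add]
      positivity
    · filter_upwards [h.2 (ε / a) (by positivity)] with s hs
      rw [dsum_const_mul]
      calc a * dsum c s ≤ a * ((δ + ε / a) * Real.log (1 / (s - 1))) :=
            mul_le_mul_of_nonneg_left hs ha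
        _ = (a * δ + ε) * Real.log (1 / (s - 1)) := by field_simp

lemma ULD.congr_off {c d : Nat.Primes → ℝ} {δ : ℝ} (hc : ULD c δ)
    (S : Finset ℕ) (h : ∀ p : Nat.Primes, (p : ℕ) ∉ S → d p = c p) : ULD d δ := by
  have h0 : HasLogDensity (fun p => d p - c p) 0 := by
    apply H99.hasLogDensity_of_finite
    refine Set.Finite.subset (Set.Finite.preimage (Subtype.val_injective.injOn) S.finite_toSet) ?_
    intro p hp
    by_contra hpS
    exact hp (by simp [h p hpS])
  have h1 := hc.add (uld_of_hasLogDensity h0)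
  simpa using h1

/-- both `c` and `-c` controlled gives a density -/
lemma hasLogDensity_of_uld {c : Nat.Primes → ℝ} {δ : ℝ} (h1 : ULD c δ)
    (h2 : ULD (fun p => - c p) (-δ)) : HasLogDensity c δ := by
  refine ⟨h1.1, ?_⟩
  rw [Metric.tendsto_nhds]
  intro ε hε
  filter_upwards [h1.2 (ε / 2) (by linarith), h2.2 (ε / 2) (by linarith), eventually_log_pos]
    with s a b hpos
  have hneg : dsum (fun p => - c p) s = - dsum c s := by
    rw [dsum, dsum, ← tsum_neg]
    exact tsum_congr fun p => by ring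
  rw [hneg] at b
  rw [Real.dist_eq, abs_lt]
  constructor
  · rw [lt_sub_iff_add_lt, lt_div_iff₀ hpos]
    nlinarith
  · rw [sub_lt_iff_lt_add, div_lt_iff₀ hpos]
    nlinarith

lemma hasLogDensity_neg {c : Nat.Primes → ℝ} {δ : ℝ} (h : HasLogDensity c δ) :
    HasLogDensity (fun p => - c p) (-δ) := by
  have := h.const_mul (-1)
  simpa using this

/-- if a finite family has upper densities adding up to the exact density of the sum, then every
member has an exact density. -/
theorem squeeze_sum {ι : Type*} (t : Finset ι) {c : ι → Nat.Primes → ℝ} {δ : ι → ℝ}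
    (h : ∀ i ∈ t, ULD (c i) (δ i))
    (hsum : HasLogDensity (fun p => ∑ i ∈ t, c i p) (∑ i ∈ t, δ i)) :
    ∀ i ∈ t, HasLogDensity (c i) (δ i) := by
  classical
  intro i hi
  refine hasLogDensity_of_uld (h i hi) ?_
  have h1 : ULD (fun p => ∑ j ∈ t.erase i, c j p) (∑ j ∈ t.erase i, δ j) :=
    ULD.sum _ fun j hj => h j (Finset.mem_of_mem_erase hj)
  have h2 : ULD (fun p => - ∑ j ∈ t, c j p) (-∑ j ∈ t, δ j) := uld_of_hasLogDensity (hasLogDensity_neg hsum)
  have h3 := h1.add h2
  have e1 : (fun p => ∑ j ∈ t.erase i, c j p + - ∑ j ∈ t, c j p) = fun p => - c i p := by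
    funext p
    rw [← Finset.add_sum_erase t (fun j => c j p) hi]
    ring
  have e2 : ∑ j ∈ t.erase i, δ j + - ∑ j ∈ t, δ j = - δ i := by
    rw [← Finset.add_sum_erase t δ hi]
    ring
  rw [e1, e2] at h3
  exact h3

lemma summable_prime {s : ℝ} (hs : 1 < s) :
    Summable fun p : Nat.Primes => ((p : ℕ) : ℝ) ^ (-s) :=
  (Nat.Primes.summable_rpow).mpr (by linarith)

lemma summable_of_bdd {c : Nat.Primes → ℝ} (B : ℝ) (h : ∀ p, |c p| ≤ B) {s : ℝ} (hs : 1 < s) :
    Summable fun p : Nat.Primes => c p * ((p : ℕ) : ℝ) ^ (-s) := by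
  refine Summable.of_norm_bounded ((summable_prime hs).mul_left B) fun p => ?_
  rw [norm_mul, Real.norm_eq_abs, Real.norm_of_nonneg (by positivity)]
  exact mul_le_mul_of_nonneg_right (h p) (by positivity)

/-- the set of all primes has density `1` -/
lemma hasLogDensity_one : HasLogDensity (fun _ => 1) 1 := by
  have h1 : HasLogDensity (fun p : Nat.Primes =>
      (Nat.card {I : Ideal (NumberField.RingOfIntegers ℚ) // Ideal.absNorm I = (p : ℕ)} : ℝ)) 1 :=
    ⟨fun s hs => H99.summable_primeCount ℚ hs, H99.tendsto_primeCount ℚ⟩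
  refine h1.congr_off ∅ fun p _ => ?_
  have hc : Nat.card {I : Ideal (NumberField.RingOfIntegers ℚ) // Ideal.absNorm I = (p : ℕ)} = 1 := by
    have e : NumberField.RingOfIntegers ℚ ≃+* ℤ := Rat.ringOfIntegersEquiv
    rw [Nat.card_eq_one_iff_exists]
    have hn : Ideal.absNorm (Ideal.span {((p : ℕ) : NumberField.RingOfIntegers ℚ)}) = p := by
      rw [Ideal.absNorm_span_singleton]
      have : Algebra.norm ℤ (((p : ℕ) : NumberField.RingOfIntegers ℚ)) = ((p : ℕ) : ℤ) := by
        have h3 : Module.finrank ℤ (NumberField.RingOfIntegers ℚ) = 1 := by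
          rw [NumberField.RingOfIntegers.rank]; exact Module.finrank_self ℚ
        have := Algebra.norm_algebraMap_of_basis
          (NumberField.RingOfIntegers.basis ℚ) ((p : ℕ) : ℤ)
        rw [map_natCast] at this
        rw [this, ← Module.finrank_eq_card_basis (NumberField.RingOfIntegers.basis ℚ), h3, pow_one]
      rw [this]; simp
    refine ⟨⟨_, hn⟩, ?_⟩
    rintro ⟨I, hI⟩
    apply Subtype.ext
    have hprin : I.IsPrincipal := by
      have := IsPrincipalIdealRing.of_surjective e.symm.toRingHom e.symm.surjective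
      exact IsPrincipalIdealRing.principal I
    obtain ⟨a, ha⟩ := hprin
    -- I = span {a}, contains p, norms agree
    have hmem : ((Ideal.absNorm I : ℕ) : NumberField.RingOfIntegers ℚ) ∈ I := Ideal.absNorm_mem I
    rw [hI] at hmem
    have hle : Ideal.span {((p : ℕ) : NumberField.RingOfIntegers ℚ)} ≤ I :=
      (Ideal.span_singleton_le_iff_mem _).mpr hmem
    obtain ⟨J, hJ⟩ := Ideal.dvd_iff_le.mpr hle
    have h4 := congrArg Ideal.absNorm hJ
    rw [map_mul, hn, hI] at h4
    have hJ1 : Ideal.absNorm J = 1 := by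
      have := p.2.pos
      exact Nat.eq_of_mul_eq_mul_left this (by rw [mul_one]; exact h4.symm)
    rw [Ideal.absNorm_eq_one_iff] at hJ1
    show I = Ideal.span {((p : ℕ) : NumberField.RingOfIntegers ℚ)}
    rw [hJ, hJ1, Ideal.mul_top]
  rw [hc, Nat.cast_one]

end Fermat.Agent.H85
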