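import Mathlib
import Fermat.Agent.H85LogDens

/-!
Chebotarev's theorem for elements on which the (square of the) cyclotomic character is injective:
abstract form.
-/

namespace Fermat.Agent.H85

open Filter Topology

open Fermat.Agent.H99 (dsum HasLogDensity)

section chars

variable {m : ℕ} [NeZero m]

omit [NeZero m] in
lemma re_mul_re (χ : DirichletCharacter ℂ m) (u v : (ZMod m)ˣ) :
    ((χ u) ^ 2).re * ((χ v) ^ 2).re =
      ((χ ((u ^ 2 * v ^ 2 : (ZMod m)ˣ) : ZMod m)).re +
        (χ ((u ^ 2 * (v ^ 2)⁻¹ : (ZMod m)ˣ) : ZMod m)).re) / 2 := by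
  have h1 : χ ((u ^ 2 * v ^ 2 : (ZMod m)ˣ) : ZMod m) = (χ u) ^ 2 * (χ v) ^ 2 := by
    push_cast
    rw [map_mul, map_pow, map_pow]
  have h2 : χ ((u ^ 2 * (v ^ 2)⁻¹ : (ZMod m)ˣ) : ZMod m) = (χ u) ^ 2 * (starRingEnd ℂ) ((χ v) ^ 2) := by
    rw [Units.val_mul, map_mul, Units.val_pow_eq_pow_val, map_pow]
    congr 1
    have h3 : (starRingEnd ℂ) ((χ v) ^ 2) = χ⁻¹ ((v : ZMod m) ^ 2) := by
      rw [← map_pow]
      exact MulChar.star_apply' χ _
    rw [h3, MulChar.inv_apply]
    congr 1
    rw [← Units.val_pow_eq_pow_val, Ring.inverse_unit]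
  rw [h1, h2, Complex.mul_re, Complex.mul_re, Complex.conj_re, Complex.conj_im]
  ring

lemma sum_re_char (u : (ZMod m)ˣ) :
    ∑ χ : DirichletCharacter ℂ m, (χ (u : ZMod m)).re = if u = 1 then (m.totient : ℝ) else 0 := by
  have h := DirichletCharacter.sum_characters_eq ℂ (u : ZMod m)
  have h2 := congrArg Complex.re h
  rw [Complex.re_sum] at h2
  rw [h2]
  by_cases hu : u = 1
  · rw [if_pos hu, if_pos (by rw [hu, Units.val_one])]
    simp
  · rw [if_neg hu, if_neg (by rwa [Units.val_eq_one])]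
    simp

/-- number of characters trivial on a unit. -/
lemma card_chars_trivial (u : (ZMod m)ˣ) :
    ((Finset.univ.filter (fun χ : DirichletCharacter ℂ m => χ (u : ZMod m) = 1)).card : ℝ) *
      orderOf u = m.totient := by
  classical
  set t := orderOf u with ht
  have htpos : 0 < t := orderOf_pos u
  have h1 : ∑ j ∈ Finset.range t, ∑ χ : DirichletCharacter ℂ m,
      χ ((u ^ j : (ZMod m)ˣ) : ZMod m) = m.totient := by
    rw [Finset.sum_eq_single_of_mem 0 (Finset.mem_range.mpr htpos)]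
    · rw [DirichletCharacter.sum_characters_eq, if_pos (by rw [pow_zero, Units.val_one])]
    · intro j hj hj0
      rw [DirichletCharacter.sum_characters_eq, if_neg]
      rw [Units.val_eq_one]
      intro h
      have := orderOf_dvd_of_pow_eq_one h
      exact hj0 (Nat.eq_zero_of_dvd_of_lt this (Finset.mem_range.mp hj))
  rw [Finset.sum_comm] at h1
  have h2 : ∀ χ : DirichletCharacter ℂ m, ∑ j ∈ Finset.range t, χ ((u ^ j : (ZMod m)ˣ) : ZMod m) =
      if χ (u : ZMod m) = 1 then (t : ℂ) else 0 := by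
    intro χ
    have h3 : ∀ j, χ ((u ^ j : (ZMod m)ˣ) : ZMod m) = (χ (u : ZMod m)) ^ j := by
      intro j; rw [Units.val_pow_eq_pow_val, map_pow]
    rw [Finset.sum_congr rfl fun j _ => h3 j]
    split_ifs with h
    · simp [h]
    · have h4 := geom_sum_mul (χ (u : ZMod m)) t
      rw [← h3 t, ht, pow_orderOf_eq_one, Units.val_one, map_one, sub_self] at h4
      exact (mul_eq_zero.mp h4).resolve_right (sub_ne_zero.mpr h)
  rw [Finset.sum_congr rfl fun χ _ => h2 χ, ← Finset.sum_filter, Finset.sum_const,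
    nsmul_eq_mul] at h1
  exact_mod_cast h1

end chars

/-- Abstract Chebotarev theorem (symmetrised) for elements on which the square of the cyclotomic
character is injective modulo `N0`. -/
theorem cheb1 {W : Type*} [Group W] [Finite W] (m : ℕ) [NeZero m] (c : W →* (ZMod m)ˣ)
    (N0 : Subgroup W) [N0.Normal] (hN0 : ∀ w ∈ N0, (c w) ^ 2 = 1) (τ : W)
    (hτ : ∀ j : ℤ, (c τ ^ 2) ^ j = 1 → τ ^ j ∈ N0)
    (a : Subgroup W → Nat.Primes → ℕ)
    (ha : ∀ H, HasLogDensity (fun p => (a H p : ℝ)) 1)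
    (bad : Finset ℕ) (F : Nat.Primes → W)
    (hF : ∀ p : Nat.Primes, (p : ℕ) ∉ bad → ∀ H : Subgroup W,
      Nat.card {y : W // y⁻¹ * F p * y ∈ H} = Nat.card H * a H p)
    (hc : ∀ p : Nat.Primes, (p : ℕ) ∉ bad → ((c (F p) : (ZMod m)ˣ) : ZMod m) = ((p : ℕ) : ZMod m))
    (htw : ∀ (H : Subgroup W) (χ : DirichletCharacter ℂ m),
      (∃ p : Nat.Primes, a H p ≠ 0 ∧ (χ ((p : ℕ) : ZMod m)) ^ 2 ≠ 1 ∧ χ ((p : ℕ) : ZMod m) ≠ 0) →
      ∃ C : ℝ, ∀ s : ℝ, 1 < s → s ≤ 2 →
        dsum (fun p => (a H p : ℝ) * ((χ ((p : ℕ) : ZMod m)) ^ 2).re) s ≤ C) :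
    HasLogDensity (fun p => (Nat.card {y : W // τ⁻¹ * (y⁻¹ * F p * y) ∈ N0} : ℝ) +
      (Nat.card {y : W // τ * (y⁻¹ * F p * y) ∈ N0} : ℝ)) (2 * Nat.card N0) := by
  classical
  set H : Subgroup W := Subgroup.zpowers τ ⊔ N0 with hH
  have hmemH : ∀ x : W, x ∈ H ↔ ∃ j : ℤ, (τ ^ j)⁻¹ * x ∈ N0 := by
    intro x
    rw [hH, ← SetLike.mem_coe, Subgroup.mul_normal, Set.mem_mul]
    constructor
    · rintro ⟨y, hy, z, hz, rfl⟩
      obtain ⟨j, rfl⟩ := hy
      exact ⟨j, by simpa using hz⟩
    · rintro ⟨j, hj⟩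
      exact ⟨τ ^ j, ⟨j, rfl⟩, (τ ^ j)⁻¹ * x, hj, by group⟩
  -- the squared character
  let f : W →* (ZMod m)ˣ := (powMonoidHom 2).comp c
  have hf : ∀ w, f w = (c w) ^ 2 := fun w => rfl
  have hfN0 : ∀ w ∈ N0, f w = 1 := hN0
  set A : (ZMod m)ˣ := f τ with hA
  set t := orderOf A with ht
  have htpos : 0 < t := orderOf_pos A
  have hfH : ∀ x : W, ∀ j : ℤ, (τ ^ j)⁻¹ * x ∈ N0 → f x = A ^ j := by
    intro x j hx
    have h1 := hfN0 _ hx
    rw [map_mul, map_inv, map_zpow] at h1
    exact (inv_mul_eq_one.mp h1).symm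
  -- card H = t * card N0
  have hcardH : Nat.card H = t * Nat.card N0 := by
    let fH : H →* (ZMod m)ˣ := f.comp H.subtype
    have hker : fH.ker = N0.subgroupOf H := by
      ext x
      rw [MonoidHom.mem_ker, Subgroup.mem_subgroupOf]
      constructor
      · intro hx
        obtain ⟨j, hj⟩ := (hmemH x).mp x.2
        have h1 := hfH x j hj
        have h2 : A ^ j = 1 := by rw [← h1]; exact hx
        have h3 := hτ j h2
        have h4 := N0.mul_mem h3 hj
        rwa [mul_inv_cancel_left] at h4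
      · intro hx; exact hfN0 _ hx
    have hrange : fH.range = Subgroup.zpowers A := by
      ext y
      constructor
      · rintro ⟨x, rfl⟩
        obtain ⟨j, hj⟩ := (hmemH x).mp x.2
        exact ⟨j, (hfH x j hj).symm⟩
      · rintro ⟨j, rfl⟩
        have hx : τ ^ j ∈ H := (hmemH _).mpr ⟨j, by rw [inv_mul_cancel]; exact N0.one_mem⟩
        refine ⟨⟨τ ^ j, hx⟩, ?_⟩
        show f (τ ^ j) = A ^ j
        rw [map_zpow]
    have h1 := fH.ker.card_eq_card_quotient_mul_card_subgroup
    have h2 : Nat.card (H ⧸ fH.ker) = Nat.card fH.range :=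
      Nat.card_congr (QuotientGroup.quotientKerEquivRange fH).toEquiv
    rw [h2, hrange, Nat.card_zpowers, hker] at h1
    rw [h1, ← ht]
    congr 1
    have hle : N0 ≤ H := le_sup_right
    exact Nat.card_congr (Subgroup.subgroupOfEquivOfLe hle).toEquiv
  have hHpos : (0 : ℝ) < Nat.card H := by exact_mod_cast Nat.card_pos (α := H)
  have hN0pos : (0 : ℝ) < Nat.card N0 := by exact_mod_cast Nat.card_pos (α := N0)
  have hφpos : (0 : ℝ) < m.totient := by exact_mod_cast Nat.totient_pos.mpr (NeZero.pos m)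
  -- congruence facts at good primes
  have hfF : ∀ p : Nat.Primes, ∀ y : W, f (y⁻¹ * F p * y) = f (F p) := by
    intro p y
    rw [map_mul, map_mul, map_inv, mul_comm _ (f y), ← mul_assoc, mul_inv_cancel, one_mul]
  have hχF : ∀ p : Nat.Primes, (p : ℕ) ∉ bad → ∀ χ : DirichletCharacter ℂ m,
      (χ ((p : ℕ) : ZMod m)) ^ 2 = χ ((f (F p) : (ZMod m)ˣ) : ZMod m) := by
    intro p hp χ
    rw [← hc p hp, ← map_pow, hf, Units.val_pow_eq_pow_val]
  have hχne : ∀ p : Nat.Primes, (p : ℕ) ∉ bad → ∀ χ : DirichletCharacter ℂ m,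
      χ ((p : ℕ) : ZMod m) ≠ 0 := by
    intro p hp χ
    rw [← hc p hp]
    intro h0
    have := χ.unit_norm_eq_one (c (F p))
    rw [h0, norm_zero] at this
    exact zero_ne_one this
  -- the twisted counting functions
  let g : DirichletCharacter ℂ m → Nat.Primes → ℝ := fun χ p =>
    (a H p : ℝ) * ((χ ((p : ℕ) : ZMod m)) ^ 2).re
  let δ : DirichletCharacter ℂ m → ℝ := fun χ => if χ (A : ZMod m) = 1 then 1 else 0
  have hsumm : ∀ χ : DirichletCharacter ℂ m, ∀ s : ℝ, 1 < s →
      Summable fun p : Nat.Primes => g χ p * ((p : ℕ) : ℝ) ^ (-s) := by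
    intro χ s hs
    refine Summable.of_norm_bounded ((ha H).1 s hs) fun p => ?_
    rw [norm_mul, norm_mul, Real.norm_of_nonneg (Nat.cast_nonneg _), Real.norm_eq_abs,
      Real.norm_of_nonneg (by positivity : (0 : ℝ) ≤ ((p : ℕ) : ℝ) ^ (-s))]
    have h1 : |((χ ((p : ℕ) : ZMod m)) ^ 2).re| ≤ 1 := by
      refine (Complex.abs_re_le_norm _).trans ?_
      rw [norm_pow]
      exact pow_le_one₀ (norm_nonneg _) (χ.norm_le_one _)
    calc (a H p : ℝ) * |((χ ((p : ℕ) : ZMod m)) ^ 2).re| * ((p : ℕ) : ℝ) ^ (-s)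
        ≤ (a H p : ℝ) * 1 * ((p : ℕ) : ℝ) ^ (-s) := by gcongr
      _ = (a H p : ℝ) * ((p : ℕ) : ℝ) ^ (-s) := by rw [mul_one]
  have huld : ∀ χ ∈ (Finset.univ : Finset (DirichletCharacter ℂ m)), ULD (g χ) (δ χ) := by
    intro χ _
    by_cases hχ : χ (A : ZMod m) = 1
    · have hδ : δ χ = 1 := if_pos hχ
      rw [hδ]
      apply uld_of_hasLogDensity
      refine (ha H).congr_off bad fun p hp => ?_
      by_cases h0 : a H p = 0
      · simp [g, h0]
      · have h1 : 0 < Nat.card {y : W // y⁻¹ * F p * y ∈ H} := by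
          rw [hF p hp H]; exact Nat.mul_pos Nat.card_pos (Nat.pos_of_ne_zero h0)
        obtain ⟨⟨y, hy⟩⟩ := (Nat.card_pos_iff.mp h1).1
        obtain ⟨j, hj⟩ := (hmemH _).mp hy
        have h2 := hfH _ j hj
        rw [hfF] at h2
        have h3 : (χ ((p : ℕ) : ZMod m)) ^ 2 = 1 := by
          rw [hχF p hp, h2]
          have h4 : (χ.toUnitHom A) = 1 := by
            apply Units.ext
            rw [MulChar.coe_toUnitHom, hχ, Units.val_one]
          have h5 : (χ.toUnitHom (A ^ j)) = 1 := by rw [map_zpow, h4, one_zpow]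
          rw [← MulChar.coe_toUnitHom, h5, Units.val_one]
        simp [g, h3]
    · have hδ : δ χ = 0 := if_neg hχ
      rw [hδ]
      have hex : ∃ p : Nat.Primes, a H p ≠ 0 ∧ (χ ((p : ℕ) : ZMod m)) ^ 2 ≠ 1 ∧
          χ ((p : ℕ) : ZMod m) ≠ 0 := by
        obtain ⟨p, hp, y, hy⟩ := H99.exists_conj_generator a (fun H s hs => (ha H).1 s hs)
          (fun H => (ha H).2) bad F hF τ
        refine ⟨p, ?_, ?_, hχne p hp χ⟩
        · have hyH : y⁻¹ * F p * y ∈ H := by
            have : y⁻¹ * F p * y ∈ Subgroup.zpowers τ := by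
              rw [← hy]; exact Subgroup.mem_zpowers _
            exact (le_sup_left : Subgroup.zpowers τ ≤ H) this
          intro h0
          have h1 := hF p hp H
          rw [h0, mul_zero] at h1
          have : Nonempty {y : W // y⁻¹ * F p * y ∈ H} := ⟨⟨y, hyH⟩⟩
          exact Nat.card_pos.ne' h1
        · rw [hχF p hp]
          intro h1
          apply hχ
          have hτ' : τ ∈ Subgroup.zpowers (y⁻¹ * F p * y) := by
            rw [hy]; exact Subgroup.mem_zpowers τ
          obtain ⟨j, hj⟩ := hτ'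
          have h2 : A = (f (F p)) ^ j := by
            rw [hA, ← hj]
            simp only [map_zpow]
            rw [hfF]
          have h4 : (χ.toUnitHom (f (F p))) = 1 := by
            apply Units.ext
            rw [MulChar.coe_toUnitHom, h1, Units.val_one]
          have h5 : (χ.toUnitHom A) = 1 := by rw [h2, map_zpow, h4, one_zpow]
          rw [← MulChar.coe_toUnitHom, h5, Units.val_one]
      obtain ⟨C, hC⟩ := htw H χ hex
      refine ⟨hsumm χ, fun ε hε => ?_⟩
      have h2 : ∀ᶠ s in 𝓝[>] (1 : ℝ), s ≤ 2 := by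
        have := Ioo_mem_nhdsGT (show (1 : ℝ) < 2 by norm_num)
        filter_upwards [this] with s hs using hs.2.le
      filter_upwards [h2, self_mem_nhdsWithin,
        tendsto_log_inv'.eventually_ge_atTop (C / ε)] with s hs2 hs1 hlog
      refine (hC s hs1 hs2).trans ?_
      rw [zero_add]
      rw [div_le_iff₀ hε] at hlog
      linarith
  -- e = number of characters trivial on A
  set e : ℕ := (Finset.univ.filter (fun χ : DirichletCharacter ℂ m => χ (A : ZMod m) = 1)).card
    with he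
  have het : (e : ℝ) * t = m.totient := card_chars_trivial A
  have hδsum : ∑ χ : DirichletCharacter ℂ m, δ χ = e := by
    simp only [δ, Finset.sum_ite, Finset.sum_const, nsmul_eq_mul, mul_one, mul_zero, add_zero, he]
  -- the total sum over characters
  have htot : HasLogDensity (fun p => ∑ χ : DirichletCharacter ℂ m, g χ p)
      (∑ χ : DirichletCharacter ℂ m, δ χ) := by
    rw [hδsum]
    have h1 := (ha N0).const_mul ((m.totient : ℝ) * Nat.card N0 / Nat.card H)
    have h2 : (m.totient : ℝ) * Nat.card N0 / Nat.card H * 1 = e := by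
      rw [hcardH, ← het]
      push_cast
      field_simp
    rw [h2] at h1
    refine h1.congr_off bad fun p hp => ?_
    have h3 : ∑ χ : DirichletCharacter ℂ m, g χ p =
        (a H p : ℝ) * (if f (F p) = 1 then (m.totient : ℝ) else 0) := by
      rw [← sum_re_char, Finset.mul_sum]
      refine Finset.sum_congr rfl fun χ _ => ?_
      simp only [g]
      rw [hχF p hp]
    rw [h3]
    split_ifs with h4
    · -- F p ∈ N0 iff conj in H
      have h5 : Nat.card {y : W // y⁻¹ * F p * y ∈ H} = Nat.card {y : W // y⁻¹ * F p * y ∈ N0} := by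
        apply Nat.card_congr
        refine Equiv.subtypeEquivRight fun y => ?_
        constructor
        · intro hy
          obtain ⟨j, hj⟩ := (hmemH _).mp hy
          have h6 := hfH _ j hj
          rw [hfF, h4] at h6
          have h7 := N0.mul_mem (hτ j h6.symm) hj
          rwa [mul_inv_cancel_left] at h7
        · intro hy; exact (le_sup_right : N0 ≤ H) hy
      rw [hF p hp, hF p hp] at h5
      have h6 : (Nat.card H : ℝ) * a H p = Nat.card N0 * a N0 p := by exact_mod_cast h5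
      field_simp
      linarith
    · -- then F p ∉ N0, a N0 p = 0
      have h5 : a N0 p = 0 := by
        have h6 := hF p hp N0
        have h7 : IsEmpty {y : W // y⁻¹ * F p * y ∈ N0} := by
          refine ⟨fun y => h4 ?_⟩
          have := hfN0 _ y.2
          rwa [hfF] at this
        rw [Nat.card_of_isEmpty] at h6
        rcases Nat.mul_eq_zero.mp h6.symm with h8 | h8
        · exact absurd h8 Nat.card_pos.ne'
        · exact h8
      rw [h5]; simp
  have hdens := squeeze_sum Finset.univ huld htot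
  -- weighted sum
  have hw : HasLogDensity (fun p => ∑ χ : DirichletCharacter ℂ m,
      (2 * Nat.card H / m.totient : ℝ) * ((χ (c τ)) ^ 2).re * g χ p) (2 * Nat.card N0) := by
    have h1 := HasLogDensity.sum (Finset.univ : Finset (DirichletCharacter ℂ m))
      (c := fun χ p => (2 * Nat.card H / m.totient : ℝ) * ((χ (c τ)) ^ 2).re * g χ p)
      (δ := fun χ => (2 * Nat.card H / m.totient : ℝ) * ((χ (c τ)) ^ 2).re * δ χ)
      (fun χ hχ => (hdens χ hχ).const_mul _)
    have h2 : ∑ χ : DirichletCharacter ℂ m,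
        (2 * Nat.card H / m.totient : ℝ) * ((χ (c τ)) ^ 2).re * δ χ = 2 * Nat.card N0 := by
      have h3 : ∀ χ : DirichletCharacter ℂ m,
          (2 * Nat.card H / m.totient : ℝ) * ((χ (c τ)) ^ 2).re * δ χ =
          (2 * Nat.card H / m.totient : ℝ) * δ χ := by
        intro χ
        simp only [δ]
        split_ifs with h
        · have : (χ (c τ)) ^ 2 = 1 := by
            rw [← map_pow, ← Units.val_pow_eq_pow_val]; exact h
          rw [this]; simp
        · simp
      rw [Finset.sum_congr rfl fun χ _ => h3 χ, ← Finset.mul_sum, hδsum, hcardH, ← het]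
      have ht0 : (t : ℝ) ≠ 0 := by exact_mod_cast htpos.ne'
      have he0 : (e : ℝ) ≠ 0 := by
        intro h0; rw [h0, zero_mul] at het; exact hφpos.ne het
      push_cast
      field_simp
    rw [h2] at h1
    exact h1
  refine hw.congr_off bad fun p hp => ?_
  -- pointwise identity
  have h1 : ∀ χ : DirichletCharacter ℂ m,
      (2 * Nat.card H / m.totient : ℝ) * ((χ (c τ)) ^ 2).re * g χ p =
      (Nat.card H / m.totient : ℝ) * (a H p) *
        ((χ (((c τ) ^ 2 * (c (F p)) ^ 2 : (ZMod m)ˣ) : ZMod m)).re +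
        (χ (((c τ) ^ 2 * ((c (F p)) ^ 2)⁻¹ : (ZMod m)ˣ) : ZMod m)).re) := by
    intro χ
    have h2 := re_mul_re χ (c τ) (c (F p))
    simp only [g]
    rw [← hc p hp]
    have h3 : (2 * Nat.card H / m.totient : ℝ) * ((χ (c τ)) ^ 2).re *
        ((a H p : ℝ) * ((χ (c (F p))) ^ 2).re) =
        (2 * Nat.card H / m.totient : ℝ) * (a H p : ℝ) *
          (((χ (c τ)) ^ 2).re * ((χ (c (F p))) ^ 2).re) := by ring
    rw [h3, h2]
    ring
  rw [Finset.sum_congr rfl fun χ _ => h1 χ, ← Finset.mul_sum, Finset.sum_add_distrib,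
    sum_re_char, sum_re_char]
  -- the two counting functions
  have hcount : ∀ ε : ℤ, (ε = 1 ∨ ε = -1) →
      (Nat.card {y : W // (τ ^ ε)⁻¹ * (y⁻¹ * F p * y) ∈ N0} : ℝ) =
      if (f τ) ^ ε = f (F p) then (Nat.card H : ℝ) * a H p else 0 := by
    intro ε hε
    split_ifs with h
    · rw [show (Nat.card H : ℝ) * a H p = ((Nat.card H * a H p : ℕ) : ℝ) by push_cast; ring,
        ← hF p hp H]
      congr 1
      apply Nat.card_congr
      refine Equiv.subtypeEquivRight fun y => ?_
      constructor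
      · intro hy; exact (hmemH _).mpr ⟨ε, hy⟩
      · intro hy
        obtain ⟨j, hj⟩ := (hmemH _).mp hy
        have h2 := hfH _ j hj
        rw [hfF, ← h] at h2
        have h3 : A ^ (j - ε) = 1 := by
          rw [zpow_sub, ← h2, mul_inv_cancel]
        have h4 := hτ _ h3
        have h5 : (τ ^ ε)⁻¹ * (y⁻¹ * F p * y) = τ ^ (j - ε) * ((τ ^ j)⁻¹ * (y⁻¹ * F p * y)) := by
          rw [zpow_sub, (Commute.zpow_zpow_self τ j ε).inv_right.eq]
          group
        rw [h5]
        exact N0.mul_mem h4 hj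
    · have h7 : IsEmpty {y : W // (τ ^ ε)⁻¹ * (y⁻¹ * F p * y) ∈ N0} := by
        refine ⟨fun y => h ?_⟩
        have := hfH _ ε y.2
        rw [hfF] at this
        exact this.symm
      rw [Nat.card_of_isEmpty]; simp
  have hc1 := hcount 1 (Or.inl rfl)
  have hc2 := hcount (-1) (Or.inr rfl)
  rw [zpow_one, zpow_one] at hc1
  rw [zpow_neg_one, zpow_neg_one, inv_inv] at hc2
  rw [hc1, hc2]
  have e1 : ((c τ) ^ 2 * (c (F p)) ^ 2 = 1) ↔ (f τ)⁻¹ = f (F p) := by
    rw [hf, hf, inv_eq_iff_mul_eq_one]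
  have e2 : ((c τ) ^ 2 * ((c (F p)) ^ 2)⁻¹ = 1) ↔ f τ = f (F p) := by
    rw [hf, hf, mul_inv_eq_one]
  simp only [e1, e2]
  split_ifs <;> field_simp <;> ring

end Fermat.Agent.H85
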