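import Mathlib
import Fermat.Agent.H85Cheb1

/-!
Chebotarev's crossing argument, abstract form, and the passage to symmetric class functions.
-/

namespace Fermat.Agent.H85

open Filter Topology

open Fermat.Agent.H99 (dsum HasLogDensity)

/-- `#{z | z⁻¹ x z = g} + #{z | z⁻¹ x z = g⁻¹}` -/
noncomputable def bfun {G : Type*} [Group G] (g x : G) : ℕ :=
  Nat.card {z : G // z⁻¹ * x * z = g} + Nat.card {z : G // z⁻¹ * x * z = g⁻¹}

lemma card_conj_congr {G : Type*} [Group G] {x x' : G} (h : IsConj x x') (g : G) :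
    Nat.card {z : G // z⁻¹ * x * z = g} = Nat.card {z : G // z⁻¹ * x' * z = g} := by
  obtain ⟨w, rfl⟩ := isConj_iff.mp h
  refine Nat.card_congr ⟨fun z => ⟨w * z.1, ?_⟩, fun z => ⟨w⁻¹ * z.1, ?_⟩, fun z => ?_, fun z => ?_⟩
  · refine Eq.trans ?_ z.2
    group
  · refine Eq.trans ?_ z.2
    group
  · apply Subtype.ext; simp
  · apply Subtype.ext; simp

lemma bfun_congr {G : Type*} [Group G] {x x' : G} (h : IsConj x x') (g : G) :
    bfun g x = bfun g x' := by
  rw [bfun, bfun, card_conj_congr h, card_conj_congr h]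

/-- The arithmetic data attached to a finite Galois extension: `W` its group, `c` the cyclotomic
character, `a H p` the number of ideals of norm `p` in the fixed field of `H`, `F` Frobenius
elements. -/
structure ArithData (W : Type) [Group W] [Finite W] (m : ℕ) [NeZero m] (c : W →* (ZMod m)ˣ)
    (a : Subgroup W → Nat.Primes → ℕ) (bad : Finset ℕ) (F : Nat.Primes → W) : Prop where
  dens : ∀ H, HasLogDensity (fun p => (a H p : ℝ)) 1
  count : ∀ p : Nat.Primes, (p : ℕ) ∉ bad → ∀ H : Subgroup W,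
      Nat.card {y : W // y⁻¹ * F p * y ∈ H} = Nat.card H * a H p
  cyc : ∀ p : Nat.Primes, (p : ℕ) ∉ bad → ((c (F p) : (ZMod m)ˣ) : ZMod m) = ((p : ℕ) : ZMod m)
  tw : ∀ (H : Subgroup W) (χ : DirichletCharacter ℂ m),
      (∃ p : Nat.Primes, a H p ≠ 0 ∧ (χ ((p : ℕ) : ZMod m)) ^ 2 ≠ 1 ∧ χ ((p : ℕ) : ZMod m) ≠ 0) →
      ∃ C : ℝ, ∀ s : ℝ, 1 < s → s ≤ 2 →
        dsum (fun p => (a H p : ℝ) * ((χ ((p : ℕ) : ZMod m)) ^ 2).re) s ≤ C

/-- crossing step -/
theorem cross {G : Type*} [Group G] [Finite G] (Fb : Nat.Primes → G) (g : G)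
    {W : Type} [Group W] [Finite W] (res : W →* G) {m : ℕ} [NeZero m]
    (c : W →* (ZMod m)ˣ) (a : Subgroup W → Nat.Primes → ℕ) (bad : Finset ℕ) (F : Nat.Primes → W)
    (hD : ArithData W m c a bad F) (hconj : ∀ p : Nat.Primes, (p : ℕ) ∉ bad → IsConj (res (F p)) (Fb p))
    (δ : ℝ) (hδ : (1 - δ) * Nat.card res.ker ≤
      Nat.card {τ : W // res τ = g ∧ orderOf g ∣ orderOf ((c τ) ^ 2)}) :
    ULD (fun p => -(bfun g (Fb p) : ℝ)) (-(2 * (1 - δ))) := by
  classical
  have := Fintype.ofFinite W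
  -- N0
  set N0 : Subgroup W := res.ker ⊓ ((powMonoidHom 2).comp c : W →* (ZMod m)ˣ).ker with hN0
  have hN0mem : ∀ w, w ∈ N0 ↔ res w = 1 ∧ (c w) ^ 2 = 1 := fun w => Iff.rfl
  have hnorm : N0.Normal := by rw [hN0]; infer_instance
  set good : Finset W := Finset.univ.filter
    (fun τ => res τ = g ∧ orderOf g ∣ orderOf ((c τ) ^ 2)) with hgood
  have hgoodcard : (good.card : ℝ) = Nat.card {τ : W // res τ = g ∧ orderOf g ∣ orderOf ((c τ) ^ 2)} := by
    rw [Nat.card_eq_fintype_card, Fintype.card_subtype]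
  have hN0pos : (0 : ℝ) < Nat.card N0 := by exact_mod_cast Nat.card_pos (α := N0)
  have hkpos : (0 : ℝ) < Nat.card res.ker := by exact_mod_cast Nat.card_pos (α := res.ker)
  have hB : ∀ τ ∈ good, HasLogDensity
      (fun p => (Nat.card {y : W // τ⁻¹ * (y⁻¹ * F p * y) ∈ N0} : ℝ) +
      (Nat.card {y : W // τ * (y⁻¹ * F p * y) ∈ N0} : ℝ)) (2 * Nat.card N0) := by
    intro τ hτ
    obtain ⟨-, hτ1, hτ2⟩ := Finset.mem_filter.mp hτ
    refine cheb1 m c N0 (fun w hw => hw.2) τ (fun j hj => ?_) a hD.dens bad F hD.count hD.cyc hD.tw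
    rw [hN0mem]
    constructor
    · rw [map_zpow, hτ1]
      have h1 : (orderOf ((c τ) ^ 2) : ℤ) ∣ j := orderOf_dvd_iff_zpow_eq_one.mpr hj
      exact orderOf_dvd_iff_zpow_eq_one.mp ((Int.natCast_dvd_natCast.mpr hτ2).trans h1)
    · rw [map_zpow, ← hj, ← zpow_natCast, ← zpow_natCast, ← zpow_mul, ← zpow_mul, mul_comm]
  have hsum := HasLogDensity.sum good hB
  rw [Finset.sum_const, nsmul_eq_mul, hgoodcard] at hsum
  -- comparison
  have hcomp : ∀ x : W, (∑ τ ∈ good, ((Nat.card {y : W // τ⁻¹ * (y⁻¹ * x * y) ∈ N0} : ℝ) +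
      (Nat.card {y : W // τ * (y⁻¹ * x * y) ∈ N0} : ℝ))) ≤
      (Nat.card N0 * Nat.card res.ker : ℝ) * bfun g (res x) := by
    intro x
    rw [Finset.sum_add_distrib]
    -- general estimate
    have hfib : ∀ (u : W → W) (h : G) (_ : ∀ τ ∈ good, res (u τ) = h) (_ : Set.InjOn u good),
        ∑ τ ∈ good, Nat.card {y : W // (u τ)⁻¹ * (y⁻¹ * x * y) ∈ N0} ≤
          Nat.card N0 * (Nat.card res.ker * Nat.card {z : G // z⁻¹ * res x * z = h}) := by
      intro u h hu hinj
      have e1 : ∀ τ, Nat.card {y : W // (u τ)⁻¹ * (y⁻¹ * x * y) ∈ N0} =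
          ∑ y : W, if (u τ)⁻¹ * (y⁻¹ * x * y) ∈ N0 then 1 else 0 := by
        intro τ
        rw [Nat.card_eq_fintype_card, Fintype.card_subtype, Finset.card_filter]
      rw [Finset.sum_congr rfl fun τ _ => e1 τ, Finset.sum_comm]
      have e2 : ∀ y : W, (∑ τ ∈ good, if (u τ)⁻¹ * (y⁻¹ * x * y) ∈ N0 then 1 else 0) ≤
          if res (y⁻¹ * x * y) = h then Nat.card N0 else 0 := by
        intro y
        split_ifs with hy
        · rw [← Finset.card_filter]
          have h3 : Nat.card N0 = (Finset.univ.filter (fun w : W => w ∈ N0)).card := by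
            rw [Nat.card_eq_fintype_card, Fintype.card_subtype]
          rw [h3]
          apply Finset.card_le_card_of_injOn (fun τ => (u τ)⁻¹ * (y⁻¹ * x * y))
          · intro τ hτ
            simpa using (Finset.mem_filter.mp hτ).2
          · intro τ hτ τ' hτ' heq
            have h4 : (u τ)⁻¹ = (u τ')⁻¹ := mul_right_cancel heq
            exact hinj (Finset.mem_filter.mp hτ).1 (Finset.mem_filter.mp hτ').1 (inv_injective h4)
        · apply le_of_eq
          apply Finset.sum_eq_zero
          intro τ hτ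
          rw [if_neg]
          intro h3
          apply hy
          have h4 := ((hN0mem _).mp h3).1
          rw [map_mul, map_inv, hu τ hτ] at h4
          exact (inv_mul_eq_one.mp h4).symm
      refine (Finset.sum_le_sum fun y _ => e2 y).trans ?_
      rw [← Finset.sum_filter, Finset.sum_const, smul_eq_mul, mul_comm]
      apply Nat.mul_le_mul_left
      -- #{y | res (y⁻¹ x y) = h} ≤ card ker * #{z | ...}
      have h5 : Nat.card {z : G // z⁻¹ * res x * z = h} =
          ((Set.toFinite {z : G | z⁻¹ * res x * z = h}).toFinset).card := by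
        rw [← Set.ncard_eq_toFinset_card]; rfl
      rw [h5]
      apply Finset.card_le_mul_card_image_of_maps_to (f := res)
      · intro y hy
        have := (Finset.mem_filter.mp hy).2
        rw [Set.Finite.mem_toFinset]
        show (res y)⁻¹ * res x * res y = h
        rw [← this, map_mul, map_mul, map_inv]
      · intro z _
        have h6 : Nat.card res.ker = (Finset.univ.filter (fun w : W => w ∈ res.ker)).card := by
          rw [Nat.card_eq_fintype_card, Fintype.card_subtype]
        rw [h6]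
        rcases Finset.eq_empty_or_nonempty
          ((Finset.univ.filter fun y => res (y⁻¹ * x * y) = h).filter fun y => res y = z) with h7 | h7
        · rw [h7]; simp
        · obtain ⟨y0, hy0⟩ := h7
          apply Finset.card_le_card_of_injOn (fun y => y0⁻¹ * y)
          · intro y hy
            simp only [Finset.coe_filter, Finset.mem_filter, Finset.mem_univ, true_and,
              Set.mem_ofPred_eq] at hy hy0 ⊢
            rw [MonoidHom.mem_ker, map_mul, map_inv, hy.2, hy0.2, inv_mul_cancel]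
          · intro y _ y' _ heq
            exact mul_left_cancel heq
    have h1 := hfib id g (fun τ hτ => (Finset.mem_filter.mp hτ).2.1) Function.injective_id.injOn
    have h2 := hfib (fun τ => τ⁻¹) g⁻¹
      (fun τ hτ => by rw [map_inv, (Finset.mem_filter.mp hτ).2.1]) inv_injective.injOn
    simp only [inv_inv, id] at h1 h2
    rw [bfun]
    have h1' : (∑ τ ∈ good, (Nat.card {y : W // τ⁻¹ * (y⁻¹ * x * y) ∈ N0} : ℝ)) ≤
        Nat.card N0 * (Nat.card res.ker * Nat.card {z : G // z⁻¹ * res x * z = g}) := by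
      exact_mod_cast h1
    have h2' : (∑ τ ∈ good, (Nat.card {y : W // τ * (y⁻¹ * x * y) ∈ N0} : ℝ)) ≤
        Nat.card N0 * (Nat.card res.ker * Nat.card {z : G // z⁻¹ * res x * z = g⁻¹}) := by
      exact_mod_cast h2
    push_cast
    nlinarith
  -- upper bound for the negative
  have h1 := uld_of_hasLogDensity (hasLogDensity_neg hsum)
  have h2 : ULD (fun p => -(bfun g (res (F p)) : ℝ))
      (-(2 * (1 - δ))) := by
    have h3 := h1.const_mul (a := 1 / (Nat.card N0 * Nat.card res.ker : ℝ)) (by positivity)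
    have h4 : 1 / (Nat.card N0 * Nat.card res.ker : ℝ) *
        -((Nat.card {τ : W // res τ = g ∧ orderOf g ∣ orderOf ((c τ) ^ 2)} : ℝ) * (2 * Nat.card N0))
        ≤ -(2 * (1 - δ)) := by
      have h5 : 1 / (Nat.card N0 * Nat.card res.ker : ℝ) *
        -((Nat.card {τ : W // res τ = g ∧ orderOf g ∣ orderOf ((c τ) ^ 2)} : ℝ) * (2 * Nat.card N0))
        = -(2 * ((Nat.card {τ : W // res τ = g ∧ orderOf g ∣ orderOf ((c τ) ^ 2)} : ℝ) /
          Nat.card res.ker)) := by
        field_simp
      rw [h5]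
      have h6 : (1 - δ) ≤ (Nat.card {τ : W // res τ = g ∧ orderOf g ∣ orderOf ((c τ) ^ 2)} : ℝ) /
          Nat.card res.ker := by
        rw [le_div_iff₀ hkpos]; exact hδ
      linarith
    refine (h3.mono_right h4).mono (fun p => ?_) (fun s hs => ?_)
    · have h5 := hcomp (F p)
      have h6 : (1 / (Nat.card N0 * Nat.card res.ker : ℝ)) *
          ∑ τ ∈ good, ((Nat.card {y : W // τ⁻¹ * (y⁻¹ * F p * y) ∈ N0} : ℝ) +
            (Nat.card {y : W // τ * (y⁻¹ * F p * y) ∈ N0} : ℝ)) ≤ bfun g (res (F p)) := by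
        rw [one_div, inv_mul_le_iff₀ (by positivity)]
        exact h5
      rw [mul_neg]
      linarith
    · apply summable_of_bdd (2 * Nat.card G : ℝ) _ hs
      intro p
      rw [abs_neg, Nat.abs_cast, bfun]
      have h7 : ∀ h : G, Nat.card {z : G // z⁻¹ * res (F p) * z = h} ≤ Nat.card G :=
        fun h => Nat.card_le_card_of_injective _ Subtype.val_injective
      have h8 := h7 g
      have h9 := h7 g⁻¹
      have : Nat.card {z : G // z⁻¹ * res (F p) * z = g} +
        Nat.card {z : G // z⁻¹ * res (F p) * z = g⁻¹} ≤ 2 * Nat.card G := by omega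
      exact_mod_cast this
  exact h2.congr_off bad fun p hp => by rw [bfun_congr (hconj p hp)]

/-- from the lower bounds to the exact densities -/
theorem hasLogDensity_bfun {G : Type*} [Group G] [Finite G] (Fb : Nat.Primes → G)
    (h : ∀ g : G, ∀ δ : ℝ, 0 < δ → ULD (fun p => -(bfun g (Fb p) : ℝ)) (-(2 * (1 - δ)))) (g : G) :
    HasLogDensity (fun p => (bfun g (Fb p) : ℝ)) 2 := by
  classical
  have := Fintype.ofFinite G
  have h1 : ∀ g ∈ (Finset.univ : Finset G), ULD (fun p => -(bfun g (Fb p) : ℝ)) (-2) := by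
    intro g _
    refine ⟨(h g 1 one_pos).1, fun ε hε => ?_⟩
    have h2 := (h g (ε / 4) (by linarith)).2 (ε / 2) (by linarith)
    filter_upwards [h2] with s hs
    refine hs.trans (le_of_eq ?_)
    ring
  have h2 : HasLogDensity (fun p => ∑ g : G, -(bfun g (Fb p) : ℝ)) (∑ _g : G, (-2 : ℝ)) := by
    have h3 := hasLogDensity_one.const_mul (-(2 * Nat.card G : ℝ))
    have e1 : (∑ _g : G, (-2 : ℝ)) = -(2 * Nat.card G : ℝ) * 1 := by
      rw [Finset.sum_const, Finset.card_univ, nsmul_eq_mul, ← Nat.card_eq_fintype_card]; ring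
    rw [e1]
    refine h3.congr_off ∅ fun p _ => ?_
    have h4 : ∑ g : G, bfun g (Fb p) = 2 * Nat.card G := by
      simp only [bfun]
      rw [Finset.sum_add_distrib]
      have h5 : ∑ g : G, Nat.card {z : G // z⁻¹ * Fb p * z = g} = Nat.card G := by
        rw [Nat.card_congr (Equiv.sigmaFiberEquiv (fun z : G => z⁻¹ * Fb p * z)).symm,
          Nat.card_sigma]
      have h6 : ∑ g : G, Nat.card {z : G // z⁻¹ * Fb p * z = g⁻¹} = Nat.card G := by
        rw [← h5]
        exact Equiv.sum_comp (Equiv.inv G) fun g => Nat.card {z : G // z⁻¹ * Fb p * z = g}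
      rw [h5, h6]; ring
    rw [Finset.sum_neg_distrib]
    have h7 : ∑ g : G, (bfun g (Fb p) : ℝ) = 2 * Nat.card G := by exact_mod_cast h4
    rw [h7]; ring
  have h3 := squeeze_sum Finset.univ h1 h2 g (Finset.mem_univ g)
  have h4 := hasLogDensity_neg h3
  simpa using h4

/-- Symmetric class functions. -/
theorem hasLogDensity_classFun {G : Type*} [Group G] [Fintype G] (Fb : Nat.Primes → G)
    (h : ∀ g : G, HasLogDensity (fun p => (bfun g (Fb p) : ℝ)) 2) (f : G → ℝ)
    (hconj : ∀ x y, f (y⁻¹ * x * y) = f x) (hinv : ∀ x, f x⁻¹ = f x) :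
    HasLogDensity (fun p => f (Fb p)) ((∑ g : G, f g) / Fintype.card G) := by
  classical
  have hpos : (0 : ℝ) < Fintype.card G := by exact_mod_cast Fintype.card_pos
  have h1 := HasLogDensity.sum (Finset.univ : Finset G)
    (c := fun g p => (f g / (2 * Fintype.card G)) * (bfun g (Fb p) : ℝ))
    (δ := fun g => (f g / (2 * Fintype.card G)) * 2) (fun g _ => (h g).const_mul _)
  have h2 : ∑ g : G, (f g / (2 * Fintype.card G)) * 2 = (∑ g : G, f g) / Fintype.card G := by
    rw [Finset.sum_div]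
    refine Finset.sum_congr rfl fun g _ => ?_
    field_simp
  rw [h2] at h1
  refine h1.congr_off ∅ fun p _ => ?_
  have h3 : ∀ ε : G → G, (∀ g, ε (ε g) = g) → (∀ g, f (ε g) = f g) →
      ∑ g : G, f g * (Nat.card {z : G // z⁻¹ * Fb p * z = ε g} : ℝ) =
      Fintype.card G * f (Fb p) := by
    intro ε hε hf
    have e1 : ∀ g : G, f g * (Nat.card {z : G // z⁻¹ * Fb p * z = ε g} : ℝ) =
        ∑ z : G, if ε (z⁻¹ * Fb p * z) = g then f (Fb p) else 0 := by
      intro g
      rw [← Finset.sum_filter, Finset.sum_const, nsmul_eq_mul, Nat.card_eq_fintype_card,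
        Fintype.card_subtype, mul_comm]
      have e2 : (Finset.univ.filter fun z : G => z⁻¹ * Fb p * z = ε g) =
          (Finset.univ.filter fun z : G => ε (z⁻¹ * Fb p * z) = g) := by
        ext z
        simp only [Finset.mem_filter, Finset.mem_univ, true_and]
        constructor
        · intro hz; rw [hz, hε]
        · intro hz; rw [← hz, hε]
      rw [e2]
      by_cases hne : (Finset.univ.filter fun z : G => ε (z⁻¹ * Fb p * z) = g).Nonempty
      · obtain ⟨z, hz⟩ := hne
        have hz' := (Finset.mem_filter.mp hz).2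
        rw [← hz', hf, hconj]
      · rw [Finset.not_nonempty_iff_eq_empty] at hne
        rw [hne]; simp
    rw [Finset.sum_congr rfl fun g _ => e1 g, Finset.sum_comm]
    have e3 : ∀ z : G, (∑ g : G, if ε (z⁻¹ * Fb p * z) = g then f (Fb p) else 0) = f (Fb p) := by
      intro z
      rw [Finset.sum_ite_eq]
      simp
    rw [Finset.sum_congr rfl fun z _ => e3 z, Finset.sum_const, Finset.card_univ, nsmul_eq_mul]
  have h4 := h3 id (fun g => rfl) (fun g => rfl)
  have h5 := h3 (fun g => g⁻¹) inv_inv hinv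
  simp only [id] at h4
  have h6 : ∑ g : G, (f g / (2 * Fintype.card G)) * (bfun g (Fb p) : ℝ) =
      (∑ g : G, f g * (Nat.card {z : G // z⁻¹ * Fb p * z = g} : ℝ) +
        ∑ g : G, f g * (Nat.card {z : G // z⁻¹ * Fb p * z = g⁻¹} : ℝ)) / (2 * Fintype.card G) := by
    rw [← Finset.sum_add_distrib, Finset.sum_div]
    refine Finset.sum_congr rfl fun g _ => ?_
    rw [bfun]
    push_cast
    ring
  rw [h6, h4, h5]
  field_simp
  ring

end Fermat.Agent.H85
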