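import Mathlib
import Fermat.Agent.H85Cheb2

/-!
Counting units `u` of `ZMod q` with `n ∣ orderOf (u ^ 2)`.
-/

namespace Fermat.Agent.H85

lemma exists_prime_dvd_of_not_dvd (n r d N : ℕ) (hn : n ≠ 0) (hN : N ≠ 0) (hr : 1 ≤ r)
    (hnr : n ^ r ∣ N) (hd : d ∣ N) (hnd : ¬ n ∣ d) :
    ∃ l ∈ n.primeFactors, d ∣ N / l ^ (r - 1) ∧ l ^ (r - 1) ∣ N := by
  have hd0 : d ≠ 0 := fun h => hN (by rw [h] at hd; exact Nat.eq_zero_of_zero_dvd hd)
  have h1 : ¬ n.factorization ≤ d.factorization := fun h =>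
    hnd ((Nat.factorization_le_iff_dvd hn hd0).mp h)
  rw [Finsupp.le_def] at h1
  push Not at h1
  obtain ⟨l, hl⟩ := h1
  have hlp : l.Prime := by
    by_contra h
    have := Nat.factorization_eq_zero_of_not_prime n h
    omega
  have hvn : 1 ≤ n.factorization l := by omega
  have hln : l ∣ n := (hlp.dvd_iff_one_le_factorization hn).mpr hvn
  have hvN : r * n.factorization l ≤ N.factorization l := by
    have := (Nat.factorization_le_iff_dvd (pow_ne_zero r hn) hN).mpr hnr l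
    rwa [Nat.factorization_pow, Finsupp.smul_apply, smul_eq_mul] at this
  have hlN : l ^ (r - 1) ∣ N :=
    (pow_dvd_pow _ (Nat.sub_le r 1)).trans ((pow_dvd_pow_of_dvd hln r).trans hnr)
  refine ⟨l, Nat.mem_primeFactors.mpr ⟨hlp, hln, hn⟩, ?_, hlN⟩
  -- d * l^(r-1) ∣ N
  have hdl : d * l ^ (r - 1) ∣ N := by
    rw [← Nat.factorization_le_iff_dvd (mul_ne_zero hd0 (pow_ne_zero _ hlp.ne_zero)) hN]
    intro p
    rw [Nat.factorization_mul hd0 (pow_ne_zero _ hlp.ne_zero), Finsupp.add_apply,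
      hlp.factorization_pow]
    by_cases hp : p = l
    · subst hp
      rw [Finsupp.single_eq_same]
      have h2 : d.factorization p + (r - 1) + 1 ≤ n.factorization p + (r - 1) := by omega
      have h3 : n.factorization p + (r - 1) ≤ r * n.factorization p + 1 := by
        obtain ⟨k, rfl⟩ := Nat.exists_eq_add_of_le hr
        obtain ⟨v, hv⟩ := Nat.exists_eq_add_of_le hvn
        rw [hv]
        have : 1 + v + (1 + k - 1) ≤ (1 + k) * (1 + v) := by
          have : (1 + k) * (1 + v) = 1 + v + k + k * v := by ring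
          rw [this]
          have : 1 + v + (1 + k - 1) = 1 + v + k := by omega
          rw [this]
          exact Nat.le_add_right _ _
        omega
      omega
    · rw [Finsupp.single_eq_of_ne hp, add_zero]
      exact (Nat.factorization_le_iff_dvd hd0 hN).mpr hd p
  obtain ⟨k, hk⟩ := hdl
  refine ⟨k, ?_⟩
  rw [hk]
  rw [show d * l ^ (r - 1) * k = (d * k) * l ^ (r - 1) by ring]
  exact Nat.mul_div_cancel _ (pow_pos hlp.pos _)

/-- most units `u` of `ZMod q` satisfy `n ∣ orderOf (u^2)` when `q ≡ 1 mod n^r`. -/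
theorem card_good_units (q n r : ℕ) [Fact q.Prime] (hn : n ≠ 0) (hr : 1 ≤ r)
    (hq : n ^ r ∣ q - 1) :
    (1 - (4 * n : ℝ) / 2 ^ r) * (q - 1 : ℕ) ≤
      Nat.card {u : (ZMod q)ˣ // n ∣ orderOf (u ^ 2)} := by
  classical
  have hqp : q.Prime := Fact.out
  have hN : q - 1 ≠ 0 := by have := hqp.two_le; omega
  have hcard : Fintype.card (ZMod q)ˣ = q - 1 := ZMod.card_units q
  have h1 : Nat.card {u : (ZMod q)ˣ // n ∣ orderOf (u ^ 2)} =
      (Finset.univ.filter fun u : (ZMod q)ˣ => n ∣ orderOf (u ^ 2)).card := by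
    rw [Nat.card_eq_fintype_card, Fintype.card_subtype]
  have h2 : (Finset.univ.filter fun u : (ZMod q)ˣ => n ∣ orderOf (u ^ 2)).card +
      (Finset.univ.filter fun u : (ZMod q)ˣ => ¬ n ∣ orderOf (u ^ 2)).card = q - 1 := by
    rw [Finset.card_filter_add_card_filter_not, Finset.card_univ, hcard]
  have h3 : ((Finset.univ.filter fun u : (ZMod q)ˣ => ¬ n ∣ orderOf (u ^ 2)).card : ℝ) ≤
      (4 * n : ℝ) / 2 ^ r * (q - 1 : ℕ) := by
    have hsub : (Finset.univ.filter fun u : (ZMod q)ˣ => ¬ n ∣ orderOf (u ^ 2)) ⊆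
        n.primeFactors.biUnion fun l =>
          if l ^ (r - 1) ∣ q - 1 then
            Finset.univ.filter fun u : (ZMod q)ˣ => u ^ (2 * ((q - 1) / l ^ (r - 1))) = 1
          else ∅ := by
      intro u hu
      have hu2 := (Finset.mem_filter.mp hu).2
      have hd : orderOf (u ^ 2) ∣ q - 1 := by
        rw [← hcard]; exact orderOf_dvd_card
      obtain ⟨l, hl, hl1, hl2⟩ := exists_prime_dvd_of_not_dvd n r _ (q - 1) hn hN hr hq hd hu2
      rw [Finset.mem_biUnion]
      refine ⟨l, hl, ?_⟩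
      rw [if_pos hl2, Finset.mem_filter]
      refine ⟨Finset.mem_univ _, ?_⟩
      rw [pow_mul]
      exact orderOf_dvd_iff_pow_eq_one.mp hl1
    have h4 : (Finset.univ.filter fun u : (ZMod q)ˣ => ¬ n ∣ orderOf (u ^ 2)).card ≤
        ∑ l ∈ n.primeFactors, if l ^ (r - 1) ∣ q - 1 then 2 * ((q - 1) / l ^ (r - 1)) else 0 := by
      refine (Finset.card_le_card hsub).trans (Finset.card_biUnion_le.trans ?_)
      apply Finset.sum_le_sum
      intro l hl
      split_ifs with h
      · have hlp := (Nat.mem_primeFactors.mp hl).1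
        have hpos : 0 < (q - 1) / l ^ (r - 1) :=
          Nat.div_pos (Nat.le_of_dvd (Nat.pos_of_ne_zero hN) h) (pow_pos hlp.pos _)
        have hpos2 : 0 < 2 * ((q - 1) / l ^ (r - 1)) := by omega
        have h5 := IsCyclic.card_pow_eq_one_le (α := (ZMod q)ˣ) hpos2
        exact h5
      · simp
    have h5 : ∀ l ∈ n.primeFactors,
        ((if l ^ (r - 1) ∣ q - 1 then 2 * ((q - 1) / l ^ (r - 1)) else 0 : ℕ) : ℝ) ≤
        4 / 2 ^ r * (q - 1 : ℕ) := by
      intro l hl
      have hlp := (Nat.mem_primeFactors.mp hl).1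
      split_ifs with h
      · have h6 : (((q - 1) / l ^ (r - 1) : ℕ) : ℝ) ≤ (q - 1 : ℕ) / (2 : ℝ) ^ (r - 1) := by
          rw [Nat.cast_div h (by exact_mod_cast (pow_pos hlp.pos _).ne')]
          apply div_le_div_of_nonneg_left (Nat.cast_nonneg _) (by positivity)
          push_cast
          exact pow_le_pow_left₀ (by norm_num) (by exact_mod_cast hlp.two_le) _
        have h7 : (2 : ℝ) ^ r = 2 * 2 ^ (r - 1) := by
          rw [← pow_succ']; congr 1; omega
        push_cast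
        rw [h7]
        calc (2 : ℝ) * (((q - 1) / l ^ (r - 1) : ℕ) : ℝ) ≤ 2 * ((q - 1 : ℕ) / (2 : ℝ) ^ (r - 1)) := by
              gcongr
          _ = 4 / (2 * 2 ^ (r - 1)) * (q - 1 : ℕ) := by field_simp; ring
      · push_cast
        positivity
    calc ((Finset.univ.filter fun u : (ZMod q)ˣ => ¬ n ∣ orderOf (u ^ 2)).card : ℝ)
        ≤ ((∑ l ∈ n.primeFactors, if l ^ (r - 1) ∣ q - 1 then 2 * ((q - 1) / l ^ (r - 1)) else 0 : ℕ) : ℝ) := by
          exact_mod_cast h4
      _ = ∑ l ∈ n.primeFactors,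
          ((if l ^ (r - 1) ∣ q - 1 then 2 * ((q - 1) / l ^ (r - 1)) else 0 : ℕ) : ℝ) := by
          rw [Nat.cast_sum]
      _ ≤ ∑ _l ∈ n.primeFactors, 4 / 2 ^ r * ((q - 1 : ℕ) : ℝ) := Finset.sum_le_sum h5
      _ = n.primeFactors.card * (4 / 2 ^ r * ((q - 1 : ℕ) : ℝ)) := by
          rw [Finset.sum_const, nsmul_eq_mul]
      _ ≤ n * (4 / 2 ^ r * ((q - 1 : ℕ) : ℝ)) := by
          gcongr
          exact_mod_cast (Finset.card_le_card (fun p hp => by
            rw [Finset.mem_Icc]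
            have := Nat.mem_primeFactors.mp hp
            exact ⟨this.1.pos, Nat.le_of_dvd (Nat.pos_of_ne_zero hn) this.2.1⟩ :
              n.primeFactors ⊆ Finset.Icc 1 n)).trans (by simp)
      _ = (4 * n : ℝ) / 2 ^ r * (q - 1 : ℕ) := by ring
  have h6 : ((Finset.univ.filter fun u : (ZMod q)ˣ => n ∣ orderOf (u ^ 2)).card : ℝ) +
      ((Finset.univ.filter fun u : (ZMod q)ˣ => ¬ n ∣ orderOf (u ^ 2)).card : ℝ) = (q - 1 : ℕ) := by
    exact_mod_cast h2
  rw [h1]
  linarith

end Fermat.Agent.H85
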