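import Mathlib
import Fermat.Agent.H85Cheb3

/-!
The compositum of a Galois number field with `ℚ(ζ_q)`, `q` prime to the discriminant.
-/

namespace Fermat.Agent.H85

open NumberField

lemma normal_T {F L T : Type*} [Field F] [Field L] [Field T] [Algebra F L] [Algebra F T] [Algebra L T]
    [IsScalarTower F L T] [Normal F L] [FiniteDimensional F T] {q : ℕ} [NeZero q] {ζ : T}
    (hζ : IsPrimitiveRoot ζ q) (htop : Algebra.adjoin L {ζ} = ⊤) : Normal F T := by
  have h1 : Normal F (IsScalarTower.toAlgHom F L T).fieldRange :=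
    Normal.of_algEquiv (AlgEquiv.ofInjectiveField (IsScalarTower.toAlgHom F L T))
  have h0 : IsCyclotomicExtension {q} F (IntermediateField.adjoin F {ζ}) :=
    hζ.intermediateField_adjoin_isCyclotomicExtension F
  have h2 : Normal F (IntermediateField.adjoin F {ζ}) :=
    (IsCyclotomicExtension.isGalois {q} F _).to_normal
  have h3 : Normal F ((IsScalarTower.toAlgHom F L T).fieldRange ⊔
    IntermediateField.adjoin F {ζ} : IntermediateField F T) := inferInstance
  have h4 : (IsScalarTower.toAlgHom F L T).fieldRange ⊔ IntermediateField.adjoin F {ζ} = ⊤ := by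
    rw [eq_top_iff]
    intro x _
    have hx : x ∈ Algebra.adjoin L {ζ} := htop ▸ Algebra.mem_top
    induction hx using Algebra.adjoin_induction with
    | mem y hy =>
      rw [Set.mem_singleton_iff.mp hy]
      exact (le_sup_right : IntermediateField.adjoin F {ζ} ≤ _)
        (IntermediateField.mem_adjoin_simple_self F _)
    | algebraMap r => exact (le_sup_left : (IsScalarTower.toAlgHom F L T).fieldRange ≤ _) ⟨r, rfl⟩
    | add x y _ _ hx hy => exact add_mem (hx trivial) (hy trivial)
    | mul x y _ _ hx hy => exact mul_mem (hx trivial) (hy trivial)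
  rw [h4] at h3
  exact Normal.of_algEquiv IntermediateField.topEquiv

section compositum

variable (L : Type) [Field L] [NumberField L] [IsGalois ℚ L] (q : ℕ) [hq : Fact q.Prime]

/-- the compositum `L(ζ_q)` -/
abbrev TT : Type := CyclotomicField q L

instance : NeZero q := ⟨hq.out.ne_zero⟩

noncomputable instance : CharZero (TT L q) := charZero_of_injective_algebraMap
  (algebraMap L (TT L q)).injective

instance : IsScalarTower ℚ L (TT L q) := inferInstance

instance : FiniteDimensional L (TT L q) :=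
  IsCyclotomicExtension.finiteDimensional {q} L (TT L q)

instance instNF : NumberField (TT L q) where
  to_charZero := inferInstance
  to_finiteDimensional := FiniteDimensional.trans ℚ L (TT L q)

/-- the chosen root of unity -/
noncomputable def zz : TT L q := IsCyclotomicExtension.zeta q L (TT L q)

omit [IsGalois ℚ L] in
lemma zz_spec : IsPrimitiveRoot (zz L q) q := IsCyclotomicExtension.zeta_spec q L (TT L q)

/-- image of `L` in the compositum -/
noncomputable def K1 : IntermediateField ℚ (TT L q) :=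
  (IsScalarTower.toAlgHom ℚ L (TT L q)).fieldRange

/-- `ℚ(ζ_q)` in the compositum -/
noncomputable def K2 : IntermediateField ℚ (TT L q) := IntermediateField.adjoin ℚ {zz L q}

noncomputable def eK1 : L ≃ₐ[ℚ] K1 L q :=
  AlgEquiv.ofInjectiveField (IsScalarTower.toAlgHom ℚ L (TT L q))

instance : IsGalois ℚ (K1 L q) := IsGalois.of_algEquiv (eK1 L q)

instance instK2 : IsCyclotomicExtension {q} ℚ (K2 L q) :=
  (zz_spec L q).intermediateField_adjoin_isCyclotomicExtension ℚ

instance : IsGalois ℚ (K2 L q) := IsCyclotomicExtension.isGalois {q} ℚ _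

lemma sup_eq_top : K1 L q ⊔ K2 L q = ⊤ := by
  rw [eq_top_iff]
  intro x _
  have h := IsCyclotomicExtension.adjoin_primitive_root_eq_top (A := L) (zz_spec L q)
  have hx : x ∈ Algebra.adjoin L {zz L q} := h ▸ Algebra.mem_top
  induction hx using Algebra.adjoin_induction with
  | mem y hy =>
    rw [Set.mem_singleton_iff.mp hy]
    exact (le_sup_right : K2 L q ≤ _) (IntermediateField.mem_adjoin_simple_self ℚ _)
  | algebraMap r => exact (le_sup_left : K1 L q ≤ _) ⟨r, rfl⟩
  | add x y _ _ hx hy => exact add_mem (hx trivial) (hy trivial)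
  | mul x y _ _ hx hy => exact mul_mem (hx trivial) (hy trivial)

instance instNormalT : Normal ℚ (TT L q) :=
  normal_T (zz_spec L q)
    (IsCyclotomicExtension.adjoin_primitive_root_eq_top (A := L) (zz_spec L q))

instance instGaloisT : IsGalois ℚ (TT L q) where

/-- restriction to `L` -/
noncomputable def resL : (TT L q ≃ₐ[ℚ] TT L q) →* (L ≃ₐ[ℚ] L) := AlgEquiv.restrictNormalHom L

lemma resL_surjective : Function.Surjective (resL L q) :=
  AlgEquiv.restrictNormalHom_surjective (TT L q)

omit hq in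
lemma resL_apply (σ : TT L q ≃ₐ[ℚ] TT L q) (x : L) :
    algebraMap L (TT L q) (resL L q σ x) = σ (algebraMap L (TT L q) x) :=
  AlgEquiv.restrictNormal_commutes σ L x

/-- cyclotomic character -/
noncomputable def cyc : (TT L q ≃ₐ[ℚ] TT L q) →* (ZMod q)ˣ := (zz_spec L q).autToPow ℚ

lemma cyc_spec (σ : TT L q ≃ₐ[ℚ] TT L q) :
    zz L q ^ ((cyc L q σ : (ZMod q)ˣ) : ZMod q).val = σ (zz L q) :=
  (zz_spec L q).autToPow_spec ℚ σ

lemma prod_injective : Function.Injective
    (fun σ : TT L q ≃ₐ[ℚ] TT L q => (resL L q σ, cyc L q σ)) := by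
  intro σ τ h
  have h1 : resL L q σ = resL L q τ := congrArg Prod.fst h
  have h2 : cyc L q σ = cyc L q τ := congrArg Prod.snd h
  have hx : ∀ x : TT L q, σ x = τ x := by
    intro x
    have h := IsCyclotomicExtension.adjoin_primitive_root_eq_top (A := L) (zz_spec L q)
    have hx : x ∈ Algebra.adjoin L {zz L q} := h ▸ Algebra.mem_top
    induction hx using Algebra.adjoin_induction with
    | mem y hy =>
      rw [Set.mem_singleton_iff.mp hy, ← cyc_spec, ← cyc_spec, h2]
    | algebraMap r => rw [← resL_apply, ← resL_apply, h1]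
    | add x y _ _ hx hy => rw [map_add, map_add, hx, hy]
    | mul x y _ _ hx hy => rw [map_mul, map_mul, hx, hy]
  exact AlgEquiv.ext hx

lemma finrank_TT (hdisc : ¬ (q : ℤ) ∣ discr L) :
    Module.finrank ℚ (TT L q) = Module.finrank ℚ L * (q - 1) := by
  have hqp := hq.out
  have hd1 : discr (K1 L q) = discr L := (discr_eq_discr_of_algEquiv L (eK1 L q)).symm
  have hcop : IsCoprime (discr (K1 L q)) (discr (K2 L q)) := by
    rw [hd1]
    have h1 : (discr (K2 L q)).natAbs ∣ q ^ (Nat.totient q) := by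
      rw [IsCyclotomicExtension.Rat.natAbs_discr q (K2 L q)]
      exact Nat.div_dvd_of_dvd (Nat.prod_primeFactors_pow_totient_ediv_dvd (NeZero.pos _))
    have h2 : IsCoprime (discr L) ((q : ℤ) ^ (Nat.totient q)) := by
      apply IsCoprime.pow_right
      rw [isCoprime_comm]
      exact ((Nat.prime_iff_prime_int.mp hqp).irreducible.coprime_iff_not_dvd).mpr hdisc
    apply h2.of_isCoprime_of_dvd_right
    rw [← Int.natAbs_dvd]
    exact_mod_cast h1
  have hdis : (K1 L q).LinearDisjoint (K2 L q) :=
    linearDisjoint_of_isGalois_isCoprime_discr _ _ _ hcop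
  have h3 := hdis.finrank_sup
  rw [sup_eq_top, IntermediateField.finrank_top', IsCyclotomicExtension.Rat.finrank q (K2 L q),
    Nat.totient_prime hqp] at h3
  rw [h3, (eK1 L q).toLinearEquiv.finrank_eq]

lemma prod_bijective (hdisc : ¬ (q : ℤ) ∣ discr L) : Function.Bijective
    (fun σ : TT L q ≃ₐ[ℚ] TT L q => (resL L q σ, cyc L q σ)) := by
  have := Fintype.ofFinite (TT L q ≃ₐ[ℚ] TT L q)
  have := Fintype.ofFinite (L ≃ₐ[ℚ] L)
  rw [Fintype.bijective_iff_injective_and_card]
  refine ⟨prod_injective L q, ?_⟩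
  rw [Fintype.card_prod, ZMod.card_units q, ← Nat.card_eq_fintype_card, ← Nat.card_eq_fintype_card,
    IsGalois.card_aut_eq_finrank, IsGalois.card_aut_eq_finrank, finrank_TT L q hdisc]

lemma card_lifts (hdisc : ¬ (q : ℤ) ∣ discr L) (g : L ≃ₐ[ℚ] L) (P : (ZMod q)ˣ → Prop) :
    Nat.card {τ : TT L q ≃ₐ[ℚ] TT L q // resL L q τ = g ∧ P (cyc L q τ)} =
      Nat.card {u : (ZMod q)ˣ // P u} := by
  let e := Equiv.ofBijective _ (prod_bijective L q hdisc)
  refine Nat.card_congr ⟨fun τ => ⟨cyc L q τ.1, τ.2.2⟩, fun u => ⟨e.symm (g, u.1), ?_⟩, ?_, ?_⟩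
  · have h1 : e (e.symm (g, u.1)) = (g, u.1) := e.apply_symm_apply _
    have h2 : resL L q (e.symm (g, u.1)) = g := congrArg Prod.fst h1
    have h3 : cyc L q (e.symm (g, u.1)) = u.1 := congrArg Prod.snd h1
    refine ⟨h2, ?_⟩
    rw [h3]
    exact u.2
  · rintro ⟨τ, h1, h2⟩
    apply Subtype.ext
    show e.symm (g, cyc L q τ) = τ
    rw [Equiv.symm_apply_eq]
    show (g, cyc L q τ) = (resL L q τ, cyc L q τ)
    rw [h1]
  · rintro ⟨u, hu⟩
    apply Subtype.ext
    have h1 : e (e.symm (g, u)) = (g, u) := e.apply_symm_apply _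
    exact congrArg Prod.snd h1

lemma card_ker (hdisc : ¬ (q : ℤ) ∣ discr L) : Nat.card (resL L q).ker = q - 1 := by
  have h1 := card_lifts L q hdisc 1 (fun _ => True)
  have h2 : Nat.card (resL L q).ker =
      Nat.card {τ : TT L q ≃ₐ[ℚ] TT L q // resL L q τ = 1 ∧ True} := by
    refine Nat.card_congr (Equiv.subtypeEquivRight fun τ => ?_)
    rw [MonoidHom.mem_ker, and_true]
  rw [h2, h1]
  have h3 : Nat.card {u : (ZMod q)ˣ // True} = Nat.card (ZMod q)ˣ :=
    Nat.card_congr (Equiv.subtypeUnivEquiv fun _ => trivial)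
  rw [h3, Nat.card_eq_fintype_card, ZMod.card_units q]

end compositum

end Fermat.Agent.H85
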