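import Mathlib
import Fermat.Agent.H85Cheb4
import Fermat.Agent.H82FrobDensity

/-!
Chebotarev's density theorem (symmetric form) for number fields, given boundedness of the twisted
zeta functions.
-/

namespace Fermat.Agent.H85

open NumberField Filter Topology

open scoped Pointwise

open Fermat.Agent.H99 (dsum HasLogDensity)

/-- number of ideals of norm `p` -/
noncomputable def aK (K : Type) [Field K] [NumberField K] (p : ℕ) : ℕ :=
  Nat.card {I : Ideal (𝓞 K) // Ideal.absNorm I = p}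

/-- The analytic input: boundedness of prime sums twisted by squares of Dirichlet characters. -/
def TwistBound : Prop := ∀ (K : Type) [Field K] [NumberField K] (m : ℕ) [NeZero m]
  (χ : DirichletCharacter ℂ m),
  (∃ I : Ideal (𝓞 K), (χ ((Ideal.absNorm I : ℕ) : ZMod m)) ^ 2 ≠ 1 ∧
    χ ((Ideal.absNorm I : ℕ) : ZMod m) ≠ 0) →
  ∃ C : ℝ, ∀ s : ℝ, 1 < s → s ≤ 2 →
    dsum (fun p => (aK K p : ℝ) * ((χ ((p : ℕ) : ZMod m)) ^ 2).re) s ≤ C

/-- `F` is a Frobenius element above `p` -/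
def IsFrobElt (L : Type) [Field L] [NumberField L] (p : ℕ) (F : L ≃ₐ[ℚ] L) : Prop :=
  ∃ P : Ideal (𝓞 L), P.IsPrime ∧ ((p : ℕ) : 𝓞 L) ∈ P ∧ ∀ x : 𝓞 L, F • x - x ^ p ∈ P

lemma under_eq (L : Type) [Field L] [NumberField L] (P : Ideal (𝓞 L)) [P.IsPrime]
    {ℓ : ℕ} (hℓ : ℓ.Prime) (h : ((ℓ : ℕ) : 𝓞 L) ∈ P) : P.under ℤ = Ideal.span {(ℓ : ℤ)} := by
  have hmax : (Ideal.span {(ℓ : ℤ)}).IsMaximal :=
    PrincipalIdealRing.isMaximal_of_irreducible (Nat.prime_iff_prime_int.mp hℓ).irreducible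
  refine (hmax.eq_of_le (Ideal.IsPrime.under ℤ P).ne_top ?_).symm
  rw [Ideal.span_singleton_le_iff_mem, Ideal.under_def, Ideal.mem_comap]
  simpa using h

lemma charP_of_prime_cast {R : Type*} [Ring R] [Nontrivial R] [NoZeroDivisors R] {p : ℕ}
    (hp : p.Prime) (h : ((p : ℕ) : R) = 0) : CharP R p := by
  obtain ⟨q, hq⟩ := CharP.exists R
  have h1 : q ∣ p := (CharP.cast_eq_zero_iff R q p).mp h
  rcases (Nat.dvd_prime hp).mp h1 with h2 | h2
  · exfalso
    subst h2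
    exact CharP.ringChar_ne_one (ringChar.eq R 1).symm.symm
  · rwa [← h2]

/-- Frobenius elements at an unramified prime are conjugate. -/
theorem isConj_of_isFrobElt (L : Type) [Field L] [NumberField L] [IsGalois ℚ L] (p : ℕ)
    (hp : p.Prime)
    (hfree : ∀ (Ω : Type) [Field Ω] [CharP Ω p] (ψ : 𝓞 L →+* Ω)
      (h : L ≃ₐ[ℚ] L), (∀ b : 𝓞 L, ψ (h • b) = ψ b) → h = 1)
    (F F' : L ≃ₐ[ℚ] L) (hF : IsFrobElt L p F) (hF' : IsFrobElt L p F') : IsConj F F' := by
  obtain ⟨P, hP, hpP, hFP⟩ := hF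
  obtain ⟨P', hP', hpP', hFP'⟩ := hF'
  obtain ⟨g, hg⟩ := Algebra.IsInvariant.exists_smul_of_under_eq ℤ (𝓞 L) (L ≃ₐ[ℚ] L) P P' (by
    rw [under_eq L P hp hpP, under_eq L P' hp hpP'])
  rw [isConj_iff]
  refine ⟨g, ?_⟩
  have h1 : ∀ x : 𝓞 L, (g * F * g⁻¹) • x - x ^ p ∈ P' := by
    intro x
    rw [hg, Ideal.mem_pointwise_smul_iff_inv_smul_mem]
    have h2 := hFP (g⁻¹ • x)
    convert h2 using 1
    have e1 : g⁻¹ • ((g * F * g⁻¹) • x) = F • g⁻¹ • x := by
      rw [smul_smul, smul_smul]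
      congr 1
      group
    rw [smul_sub, smul_pow', e1]
  have hmax : P'.IsMaximal := by
    apply hP'.isMaximal
    intro hbot
    rw [hbot, Ideal.mem_bot] at hpP'
    have : (p : 𝓞 L) ≠ 0 := by exact_mod_cast hp.ne_zero
    exact this hpP'
  letI : Field (𝓞 L ⧸ P') := Ideal.Quotient.field P'
  have hchar : CharP (𝓞 L ⧸ P') p := by
    have h3 : ((p : ℕ) : 𝓞 L ⧸ P') = 0 := by
      rw [← map_natCast (Ideal.Quotient.mk P')]
      exact Ideal.Quotient.eq_zero_iff_mem.mpr hpP'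
    exact charP_of_prime_cast hp h3
  have h2 := hfree (𝓞 L ⧸ P') (Ideal.Quotient.mk P') (F' * (g * F * g⁻¹)⁻¹) (by
    intro b
    rw [Ideal.Quotient.mk_eq_mk_iff_sub_mem]
    have h3 := hFP' ((g * F * g⁻¹)⁻¹ • b)
    have h4 := h1 ((g * F * g⁻¹)⁻¹ • b)
    have h5 := P'.sub_mem h3 h4
    convert h5 using 1
    rw [smul_smul, smul_smul, mul_inv_cancel, one_smul]
    ring)
  rw [mul_inv_eq_one] at h2
  exact h2.symm

/-- restriction of Frobenius elements. -/
theorem isFrobElt_resL (L : Type) [Field L] [NumberField L] [IsGalois ℚ L] (q : ℕ)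
    [hq : Fact q.Prime] (p : ℕ) (F : TT L q ≃ₐ[ℚ] TT L q) (hF : IsFrobElt (TT L q) p F) :
    IsFrobElt L p (resL L q F) := by
  obtain ⟨P, hP, hpP, hFP⟩ := hF
  refine ⟨P.comap (algebraMap (𝓞 L) (𝓞 (TT L q))), Ideal.comap_isPrime _ _, ?_, ?_⟩
  · rw [Ideal.mem_comap, map_natCast]; exact hpP
  · intro x
    rw [Ideal.mem_comap, map_sub, map_pow]
    have h1 : algebraMap (𝓞 L) (𝓞 (TT L q)) (resL L q F • x) =
        F • algebraMap (𝓞 L) (𝓞 (TT L q)) x := by
      apply RingOfIntegers.ext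
      exact resL_apply L q F x
    rw [h1]
    exact hFP _

/-- The arithmetic data of the compositum. -/
theorem exists_arithData (htw : TwistBound) (L : Type) [Field L] [NumberField L] [IsGalois ℚ L]
    (q : ℕ) [hq : Fact q.Prime] :
    ∃ (a : Subgroup (TT L q ≃ₐ[ℚ] TT L q) → Nat.Primes → ℕ) (bad : Finset ℕ)
      (F : Nat.Primes → (TT L q ≃ₐ[ℚ] TT L q)),
      ArithData (TT L q ≃ₐ[ℚ] TT L q) q (cyc L q) a bad F ∧
      ∀ p : Nat.Primes, (p : ℕ) ∉ bad → IsFrobElt (TT L q) p (F p) := by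
  classical
  obtain ⟨n, hn, hgood⟩ := H82.exists_bad (TT L q)
  have hfact : ∀ p : Nat.Primes, Fact (p : ℕ).Prime := fun p => ⟨p.2⟩
  have hdata : ∀ p : Nat.Primes, (p : ℕ) ∉ ({q} ∪ n.primeFactors : Finset ℕ) →
      ∃ (ψ₀ : 𝓞 (TT L q) →+* AlgebraicClosure (ZMod (p : ℕ))) (F : TT L q ≃ₐ[ℚ] TT L q),
      (∀ b : 𝓞 (TT L q), ψ₀ b ^ (p : ℕ) = ψ₀ (F • b)) ∧
      ∀ H : Subgroup (TT L q ≃ₐ[ℚ] TT L q), Nat.card {y : TT L q ≃ₐ[ℚ] TT L q // y⁻¹ * F * y ∈ H} =
      Nat.card H * Nat.card {I : Ideal (𝓞 (IntermediateField.fixedField H)) //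
        Ideal.absNorm I = (p : ℕ)} := by
    intro p hp
    have hpn : ¬ (p : ℕ) ∣ n := fun h =>
      hp (Finset.mem_union_right _ (Nat.mem_primeFactors.mpr ⟨p.2, h, hn⟩))
    exact H82.exists_frob_data (TT L q) p (hgood p p.2 hpn)
  choose ψ F' hψ hcount using hdata
  let F : Nat.Primes → (TT L q ≃ₐ[ℚ] TT L q) := fun p =>
    if h : (p : ℕ) ∉ ({q} ∪ n.primeFactors : Finset ℕ) then F' p h else 1
  have hFeq : ∀ (p : Nat.Primes) (hp : (p : ℕ) ∉ ({q} ∪ n.primeFactors : Finset ℕ)), F p = F' p hp :=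
    fun p hp => dif_pos hp
  refine ⟨fun H p => aK (IntermediateField.fixedField H) p, {q} ∪ n.primeFactors, F,
    ⟨?_, ?_, ?_, ?_⟩, ?_⟩
  · intro H
    exact ⟨fun s hs => H99.summable_primeCount _ hs, H99.tendsto_primeCount _⟩
  · intro p hp H
    rw [hFeq p hp]
    exact hcount p hp H
  · intro p hp
    rw [hFeq p hp]
    have hpq : (p : ℕ) ≠ q := fun h => hp (Finset.mem_union_left _ (by rw [h]; simp))
    set ζ : 𝓞 (TT L q) := (zz_spec L q).toInteger with hζ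
    have hζprim : IsPrimitiveRoot ζ q := (zz_spec L q).toInteger_isPrimitiveRoot
    set c := ((cyc L q (F' p hp) : (ZMod q)ˣ) : ZMod q) with hc
    have h1 : (F' p hp) • ζ = ζ ^ c.val := by
      apply RingOfIntegers.ext
      have := cyc_spec L q (F' p hp)
      exact this.symm
    have h2 := hψ p hp ζ
    rw [h1, map_pow] at h2
    -- image is a nontrivial q-th root of unity
    have h3 : orderOf (ψ p hp ζ) = q := by
      apply orderOf_eq_prime
      · rw [← map_pow, hζprim.pow_eq_one, map_one]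
      · intro h4
        have h5 : ∑ i ∈ Finset.range q, ζ ^ i = 0 := hζprim.geom_sum_eq_zero hq.out.one_lt
        have h6 := congrArg (ψ p hp) h5
        rw [map_sum, map_zero] at h6
        simp only [map_pow, h4, one_pow, Finset.sum_const, Finset.card_range, nsmul_eq_mul,
          mul_one] at h6
        have h7 := (CharP.cast_eq_zero_iff (AlgebraicClosure (ZMod (p : ℕ))) (p : ℕ) q).mp h6
        exact hpq ((Nat.prime_dvd_prime_iff_eq p.2 hq.out).mp h7)
    have hne : ψ p hp ζ ≠ 0 := by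
      intro h0
      rw [h0] at h3
      have h4 : (0 : AlgebraicClosure (ZMod (p : ℕ))) ^ q = 1 := by
        rw [← h3]; exact pow_orderOf_eq_one _
      rw [zero_pow hq.out.ne_zero] at h4
      exact zero_ne_one h4
    have h4 := pow_inj_mod (x := Units.mk0 _ hne) (n := (p : ℕ)) (m := c.val)
    have h5 : (Units.mk0 _ hne) ^ (p : ℕ) = (Units.mk0 _ hne) ^ c.val := by
      apply Units.ext
      rw [Units.val_pow_eq_pow_val, Units.val_pow_eq_pow_val]
      exact h2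
    have h6 := h4.mp h5
    have h7 : orderOf (Units.mk0 _ hne) = q := by
      rw [← orderOf_units, Units.val_mk0, h3]
    rw [h7] at h6
    have h8 : ((p : ℕ) : ZMod q) = ((c.val : ℕ) : ZMod q) :=
      (ZMod.natCast_eq_natCast_iff' _ _ _).mpr h6
    rw [h8, ZMod.natCast_zmod_val]
  · intro H χ ⟨p, hp0, hp1, hp2⟩
    apply htw (IntermediateField.fixedField H) q χ
    have hpos : 0 < Nat.card {I : Ideal (𝓞 (IntermediateField.fixedField H)) //
        Ideal.absNorm I = (p : ℕ)} := Nat.pos_of_ne_zero hp0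
    obtain ⟨⟨I, hI⟩⟩ := (Nat.card_pos_iff.mp hpos).1
    exact ⟨I, by rw [hI]; exact ⟨hp1, hp2⟩⟩
  · intro p hp
    rw [hFeq p hp]
    refine ⟨RingHom.ker (ψ p hp), RingHom.ker_isPrime _, ?_, ?_⟩
    · rw [RingHom.mem_ker, map_natCast, CharP.cast_eq_zero]
    · intro x
      rw [RingHom.mem_ker, map_sub, map_pow, ← hψ p hp, sub_self]

/-- **Chebotarev density theorem**, symmetric form, for number fields. -/
theorem chebotarev_symm_of (htw : TwistBound) (L : Type) [Field L] [NumberField L] [IsGalois ℚ L]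
    (Fb : Nat.Primes → (L ≃ₐ[ℚ] L)) (S : Finset ℕ)
    (hFb : ∀ p : Nat.Primes, (p : ℕ) ∉ S → IsFrobElt L p (Fb p))
    (g : L ≃ₐ[ℚ] L) : HasLogDensity (fun p => (bfun g (Fb p) : ℝ)) 2 := by
  classical
  apply hasLogDensity_bfun
  intro g δ hδ
  obtain ⟨n₀, hn₀, hgood⟩ := H82.exists_bad L
  -- choose r
  set n := orderOf g with hn
  have hnpos : 0 < n := orderOf_pos g
  obtain ⟨r, hr⟩ : ∃ r : ℕ, (4 * n : ℝ) / δ < 2 ^ r := pow_unbounded_of_one_lt _ (by norm_num)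
  have hr' : (4 * n : ℝ) / 2 ^ (r + 1) ≤ δ := by
    rw [div_lt_iff₀ hδ] at hr
    rw [div_le_iff₀ (by positivity), pow_succ]
    nlinarith [pow_pos (show (0 : ℝ) < 2 by norm_num) r]
  -- choose q
  have hdisc0 : discr L ≠ 0 := discr_ne_zero L
  obtain ⟨q, hqp, hqbig, hq1⟩ := Nat.exists_prime_gt_modEq_one (k := n ^ (r + 1))
    ((discr L).natAbs) (pow_ne_zero _ hnpos.ne')
  have hqfact : Fact q.Prime := ⟨hqp⟩
  have hdisc : ¬ (q : ℤ) ∣ discr L := by
    intro h
    have h1 : q ∣ (discr L).natAbs := Int.natCast_dvd.mp h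
    exact absurd (Nat.le_of_dvd (Int.natAbs_pos.mpr hdisc0) h1) (by omega)
  obtain ⟨a, bad, F, hD, hFfrob⟩ := exists_arithData htw L q
  have hcross := cross (G := L ≃ₐ[ℚ] L) Fb g (resL L q) (cyc L q) a (bad ∪ S ∪ n₀.primeFactors) F
    ⟨hD.dens, fun p hp => hD.count p (fun h => hp (by simp [h])),
      fun p hp => hD.cyc p (fun h => hp (by simp [h])), hD.tw⟩
    (fun p hp => by
      have h1 : (p : ℕ) ∉ bad := fun h => hp (by simp [h])
      have h2 : (p : ℕ) ∉ S := fun h => hp (by simp [h])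
      have h3 : ¬ (p : ℕ) ∣ n₀ := fun h => hp (by simp [h, hn₀, p.2])
      exact isConj_of_isFrobElt L p p.2 (hgood p p.2 h3) _ _
        (isFrobElt_resL L q p _ (hFfrob p h1)) (hFb p h2))
    δ (by
      rw [card_lifts L q hdisc g (fun u => orderOf g ∣ orderOf (u ^ 2)), card_ker L q hdisc]
      have h1 := card_good_units q n (r + 1) hnpos.ne' (by omega)
        ((Nat.modEq_iff_dvd' hqp.one_lt.le).mp hq1.symm)
      refine le_trans ?_ h1
      apply mul_le_mul_of_nonneg_right _ (Nat.cast_nonneg _)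
      linarith)
  exact hcross

end Fermat.Agent.H85
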