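import Mathlib
import Fermat.Agent.H99PrimeSum
import Fermat.Agent.H85Cheb5

/-!
Euler products over ideals with complex completely multiplicative weights, and the resulting
bounds for prime sums.
-/

namespace Fermat.Agent.H85

open NumberField IsDedekindDomain Filter Topology

open Fermat.Agent.H99 (SuppIn xp Ps HighDeg degOneEquiv dsum)

variable {K : Type*} [Field K] [NumberField K]

/-- finite Euler product -/
lemma tsum_suppIn_complex (w : Ideal (𝓞 K) → ℂ) (h1 : w 1 = 1)
    (hmul : ∀ I J, w (I * J) = w I * w J) (hsum : Summable fun I => ‖w I‖)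
    (hlt : ∀ P : HeightOneSpectrum (𝓞 K), ‖w P.asIdeal‖ < 1)
    (F : Finset (HeightOneSpectrum (𝓞 K))) :
    ∑' I : SuppIn K F, w (I : Ideal (𝓞 K)) = ∏ P ∈ F, (1 - w P.asIdeal)⁻¹ := by
  classical
  have hpow : ∀ (I : Ideal (𝓞 K)) (n : ℕ), w (I ^ n) = w I ^ n := by
    intro I n
    induction n with
    | zero => rw [pow_zero, pow_zero, h1]
    | succ n ih => rw [pow_succ, hmul, ih, pow_succ]
  induction F using Finset.induction_on with
  | empty =>
    rw [H99.suppIn_empty, tsum_singleton, h1, Finset.prod_empty]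
  | insert P F hPF ih =>
    rw [Finset.prod_insert hPF, ← ih, ← tsum_geometric_of_norm_lt_one (hlt P)]
    have hPprime : Prime P.asIdeal := P.prime
    let f : ℕ × SuppIn K F → SuppIn K (insert P F) := fun x =>
      ⟨P.asIdeal ^ x.1 * (x.2 : Ideal (𝓞 K)), by
        refine ⟨mul_ne_zero (pow_ne_zero _ P.ne_bot) x.2.2.1, fun Q hQ => ?_⟩
        rcases Q.prime.dvd_or_dvd hQ with h | h
        · have h2 := Q.prime.dvd_of_dvd_pow h
          have : Q = P := by
            apply HeightOneSpectrum.ext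
            have hle := Ideal.dvd_iff_le.mp h2
            exact (Ring.DimensionLEOne.maximalOfPrime P.ne_bot P.isPrime).eq_of_le
              Q.isPrime.ne_top hle |>.symm
          simp [this]
        · exact Finset.mem_insert_of_mem (x.2.2.2 Q h)⟩
    have hnd : ∀ I : SuppIn K F, ¬ P.asIdeal ∣ (I : Ideal (𝓞 K)) := fun I h => hPF (I.2.2 P h)
    have hf : Function.Bijective f := by
      constructor
      · rintro ⟨m, I⟩ ⟨n, J⟩ h
        have h' : P.asIdeal ^ m * (I : Ideal (𝓞 K)) = P.asIdeal ^ n * (J : Ideal (𝓞 K)) :=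
          congrArg Subtype.val h
        have hmn : m = n := by
          by_contra hne
          rcases Nat.lt_or_gt_of_ne hne with hlt | hlt
          · obtain ⟨k, rfl⟩ := Nat.exists_eq_add_of_lt hlt
            have : (I : Ideal (𝓞 K)) = P.asIdeal ^ (k + 1) * J := by
              apply mul_left_cancel₀ (pow_ne_zero m P.ne_bot : P.asIdeal ^ m ≠ 0)
              rw [h']; ring
            exact hnd I (this ▸ Dvd.dvd.mul_right (dvd_pow_self _ (Nat.succ_ne_zero k)) _)
          · obtain ⟨k, rfl⟩ := Nat.exists_eq_add_of_lt hlt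
            have : (J : Ideal (𝓞 K)) = P.asIdeal ^ (k + 1) * I := by
              apply mul_left_cancel₀ (pow_ne_zero n P.ne_bot : P.asIdeal ^ n ≠ 0)
              rw [← h']; ring
            exact hnd J (this ▸ Dvd.dvd.mul_right (dvd_pow_self _ (Nat.succ_ne_zero k)) _)
        subst hmn
        have : (I : Ideal (𝓞 K)) = J :=
          mul_left_cancel₀ (pow_ne_zero m P.ne_bot : P.asIdeal ^ m ≠ 0) h'
        exact Prod.ext rfl (Subtype.ext this)
      · rintro ⟨J, hJ0, hJ⟩
        have hfin : FiniteMultiplicity P.asIdeal J :=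
          FiniteMultiplicity.of_prime_left hPprime hJ0
        obtain ⟨I, hI, hnI⟩ := hfin.exists_eq_pow_mul_and_not_dvd
        have hI0 : I ≠ ⊥ := by
          rintro rfl
          exact hnI (dvd_zero _)
        refine ⟨⟨multiplicity P.asIdeal J, ⟨I, hI0, fun Q hQ => ?_⟩⟩, Subtype.ext hI.symm⟩
        have hQJ : Q ∈ insert P F := hJ Q (hI ▸ Dvd.dvd.mul_left hQ _)
        rcases Finset.mem_insert.mp hQJ with rfl | h
        · exact absurd hQ hnI
        · exact h
    rw [← (Equiv.ofBijective f hf).tsum_eq]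
    have e1 : ∀ c : ℕ × SuppIn K F, w ((Equiv.ofBijective f hf) c : Ideal (𝓞 K)) =
        w P.asIdeal ^ c.1 * w (c.2 : Ideal (𝓞 K)) := by
      intro c
      show w (P.asIdeal ^ c.1 * (c.2 : Ideal (𝓞 K))) = _
      rw [hmul, hpow]
    rw [tsum_congr e1, tsum_mul_tsum_of_summable_norm]
    · simpa [norm_pow] using summable_geometric_of_lt_one (norm_nonneg _) (hlt P)
    · exact hsum.subtype _

/-- convergence of finite Euler products -/
lemma tendsto_suppIn (w : Ideal (𝓞 K) → ℂ) (h0 : w ⊥ = 0) (hsum : Summable fun I => ‖w I‖) :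
    Tendsto (fun F : Finset (HeightOneSpectrum (𝓞 K)) => ∑' I : SuppIn K F, w (I : Ideal (𝓞 K)))
      atTop (𝓝 (∑' I, w I)) := by
  classical
  have h1 : ∀ F : Finset (HeightOneSpectrum (𝓞 K)), ∑' I : SuppIn K F, w (I : Ideal (𝓞 K)) =
      ∑' I, (SuppIn K F).indicator w I := fun F => tsum_subtype _ _
  simp only [h1]
  refine tendsto_tsum_of_dominated_convergence hsum (fun I => ?_) (Eventually.of_forall fun F I => ?_)
  · by_cases hI : I = ⊥
    · subst hI
      have : ∀ F : Finset (HeightOneSpectrum (𝓞 K)), (SuppIn K F).indicator w ⊥ = w ⊥ := by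
        intro F
        rw [Set.indicator_apply, h0, ite_self]
      simp only [this]
      exact tendsto_const_nhds
    · have hfin : {P : HeightOneSpectrum (𝓞 K) | P.asIdeal ∣ I}.Finite := Ideal.finite_factors hI
      refine tendsto_const_nhds.congr' ?_
      filter_upwards [eventually_ge_atTop hfin.toFinset] with F hF
      rw [Set.indicator_of_mem]
      exact ⟨hI, fun P hP => hF (hfin.mem_toFinset.mpr hP)⟩
  · rw [Set.indicator_apply]
    split_ifs
    · exact le_rfl
    · rw [norm_zero]; exact norm_nonneg _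

lemma norm_one_sub_le (z : ℂ) : ‖1 - z‖ ≤ Real.exp (-z.re + ‖z‖ ^ 2 / 2) := by
  have h1 : ‖1 - z‖ ^ 2 = 1 - 2 * z.re + ‖z‖ ^ 2 := by
    rw [← Complex.normSq_eq_norm_sq, ← Complex.normSq_eq_norm_sq, Complex.normSq_apply,
      Complex.normSq_apply]
    simp
    ring
  have h2 : ‖1 - z‖ ^ 2 ≤ (Real.exp (-z.re + ‖z‖ ^ 2 / 2)) ^ 2 := by
    rw [h1, ← Real.exp_nat_mul]
    have := Real.add_one_le_exp (-2 * z.re + ‖z‖ ^ 2)
    calc 1 - 2 * z.re + ‖z‖ ^ 2 = (-2 * z.re + ‖z‖ ^ 2) + 1 := by ring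
      _ ≤ Real.exp (-2 * z.re + ‖z‖ ^ 2) := this
      _ = Real.exp ((2 : ℕ) * (-z.re + ‖z‖ ^ 2 / 2)) := by congr 1; push_cast; ring
  exact (pow_le_pow_iff_left₀ (norm_nonneg _) (Real.exp_pos _).le two_ne_zero).mp h2

/-- If the total series is bounded by `C`, the prime sums are bounded above. -/
theorem sum_re_le (w : Ideal (𝓞 K) → ℂ) (h0 : w ⊥ = 0) (h1 : w 1 = 1)
    (hmul : ∀ I J, w (I * J) = w I * w J) (hsum : Summable fun I => ‖w I‖)
    (hlt : ∀ P : HeightOneSpectrum (𝓞 K), ‖w P.asIdeal‖ < 1)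
    (C : ℝ) (hC : ‖∑' I, w I‖ ≤ C) (B : ℝ)
    (hB : ∑' P : HeightOneSpectrum (𝓞 K), ‖w P.asIdeal‖ ^ 2 / 2 ≤ B) :
    ∑' P : HeightOneSpectrum (𝓞 K), (w P.asIdeal).re ≤ Real.log C + B := by
  classical
  have hinj : Function.Injective (fun P : HeightOneSpectrum (𝓞 K) => P.asIdeal) :=
    fun P Q h => HeightOneSpectrum.ext h
  have hsP : Summable fun P : HeightOneSpectrum (𝓞 K) => ‖w P.asIdeal‖ :=
    hsum.comp_injective hinj
  have hsre : Summable fun P : HeightOneSpectrum (𝓞 K) => (w P.asIdeal).re :=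
    Summable.of_norm_bounded hsP fun P => by
      rw [Real.norm_eq_abs]; exact Complex.abs_re_le_norm _
  have hssq : Summable fun P : HeightOneSpectrum (𝓞 K) => ‖w P.asIdeal‖ ^ 2 / 2 := by
    refine Summable.of_nonneg_of_le (fun P => by positivity) (fun P => ?_) hsP
    have := hlt P
    have h2 := norm_nonneg (w P.asIdeal)
    nlinarith
  -- each finite product is bounded below
  have hfin : ∀ F : Finset (HeightOneSpectrum (𝓞 K)),
      Real.exp (∑ P ∈ F, ((w P.asIdeal).re - ‖w P.asIdeal‖ ^ 2 / 2)) ≤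
        ‖∑' I : SuppIn K F, w (I : Ideal (𝓞 K))‖ := by
    intro F
    rw [tsum_suppIn_complex w h1 hmul hsum hlt F, norm_prod, Real.exp_sum]
    apply Finset.prod_le_prod
    · intro P _; exact (Real.exp_pos _).le
    · intro P _
      rw [norm_inv]
      have h2 := norm_one_sub_le (w P.asIdeal)
      have h3 : 0 < ‖1 - w P.asIdeal‖ := by
        rw [norm_pos_iff, sub_ne_zero]
        intro h4
        have := hlt P
        rw [← h4, norm_one] at this
        exact lt_irrefl _ this
      have h5 : -((w P.asIdeal).re - ‖w P.asIdeal‖ ^ 2 / 2) =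
          -(w P.asIdeal).re + ‖w P.asIdeal‖ ^ 2 / 2 := by ring
      rw [le_inv_comm₀ (Real.exp_pos _) h3, ← Real.exp_neg, h5]
      exact h2
  have hlim := (tendsto_suppIn w h0 hsum).norm
  have hlim2 : Tendsto (fun F : Finset (HeightOneSpectrum (𝓞 K)) =>
      Real.exp (∑ P ∈ F, ((w P.asIdeal).re - ‖w P.asIdeal‖ ^ 2 / 2))) atTop
      (𝓝 (Real.exp (∑' P : HeightOneSpectrum (𝓞 K), ((w P.asIdeal).re - ‖w P.asIdeal‖ ^ 2 / 2)))) :=
    (Real.continuous_exp.tendsto _).comp (hsre.sub hssq).hasSum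
  have h2 := le_of_tendsto_of_tendsto' hlim2 hlim hfin
  have h3 := h2.trans hC
  have hCpos : 0 < C := lt_of_lt_of_le (Real.exp_pos _) h3
  have h4 := (Real.le_log_iff_exp_le hCpos).mpr h3
  rw [hsre.tsum_sub hssq] at h4
  linarith

end Fermat.Agent.H85
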