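import Mathlib
import Fermat.Agent.H85Euler

/-!
From boundedness of `∑_I ψ(N I) N(I)^{-s}` to boundedness (from above) of the prime sums.
-/

namespace Fermat.Agent.H85

open NumberField IsDedekindDomain Filter Topology

open scoped nonZeroDivisors

open Fermat.Agent.H99 (SuppIn xp Ps HighDeg degOneEquiv dsum HasLogDensity)

/-- Boundedness of the zeta functions twisted by an even Dirichlet character of the norm. -/
def NormCharBound : Prop := ∀ (K : Type) [Field K] [NumberField K] (m : ℕ) [NeZero m]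
  (ψ : DirichletCharacter ℂ m), ψ (-1) = 1 →
  (∃ I : Ideal (𝓞 K), ψ ((Ideal.absNorm I : ℕ) : ZMod m) ≠ 1 ∧
    ψ ((Ideal.absNorm I : ℕ) : ZMod m) ≠ 0) →
  ∃ C : ℝ, ∀ s : ℝ, 1 < s → s ≤ 2 →
    ‖∑' I : (Ideal (𝓞 K))⁰, ψ ((Ideal.absNorm (I : Ideal (𝓞 K)) : ℕ) : ZMod m) *
      (((Ideal.absNorm (I : Ideal (𝓞 K)) : ℝ) ^ (-s) : ℝ) : ℂ)‖ ≤ C

section

variable (K : Type) [Field K] [NumberField K]

lemma summable_absNorm {s : ℝ} (hs : 1 < s) :
    Summable fun I : Ideal (𝓞 K) => (Ideal.absNorm I : ℝ) ^ (-s) := by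
  have h1 : ∑' I : Ideal (𝓞 K), ENNReal.ofReal ((Ideal.absNorm I : ℝ) ^ (-s)) ≠ ⊤ := by
    have h2 := H99.Z_eq K hs
    rw [H99.Z] at h2
    have h3 : ∑' I : Ideal (𝓞 K), ENNReal.ofReal ((Ideal.absNorm I : ℝ) ^ (-s)) =
        ENNReal.ofReal (H99.zr K s) := h2
    rw [h3]
    exact ENNReal.ofReal_ne_top
  have h2 := ENNReal.summable_toReal h1
  refine h2.congr fun I => ?_
  rw [ENNReal.toReal_ofReal (by positivity)]

/-- the weight -/
noncomputable def ww {m : ℕ} (ψ : DirichletCharacter ℂ m) (s : ℝ) (I : Ideal (𝓞 K)) : ℂ :=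
  ψ ((Ideal.absNorm I : ℕ) : ZMod m) * (((Ideal.absNorm I : ℝ) ^ (-s) : ℝ) : ℂ)

variable {m : ℕ} [NeZero m] (ψ : DirichletCharacter ℂ m)

lemma ww_bot {s : ℝ} (hs : 1 < s) : ww K ψ s ⊥ = 0 := by
  rw [ww, Ideal.absNorm_bot, Nat.cast_zero, Nat.cast_zero, Real.zero_rpow (by linarith)]
  simp

lemma ww_one (s : ℝ) : ww K ψ s 1 = 1 := by
  rw [ww, map_one]; simp

lemma ww_mul (s : ℝ) (I J : Ideal (𝓞 K)) : ww K ψ s (I * J) = ww K ψ s I * ww K ψ s J := by
  rw [ww, ww, ww, map_mul, Nat.cast_mul, map_mul, Nat.cast_mul,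
    Real.mul_rpow (by positivity) (by positivity), Complex.ofReal_mul]
  ring

lemma norm_ww_le (s : ℝ) (I : Ideal (𝓞 K)) : ‖ww K ψ s I‖ ≤ (Ideal.absNorm I : ℝ) ^ (-s) := by
  rw [ww, norm_mul, Complex.norm_real, Real.norm_of_nonneg (by positivity)]
  calc ‖ψ ((Ideal.absNorm I : ℕ) : ZMod m)‖ * (Ideal.absNorm I : ℝ) ^ (-s)
      ≤ 1 * (Ideal.absNorm I : ℝ) ^ (-s) :=
        mul_le_mul_of_nonneg_right (ψ.norm_le_one _) (by positivity)
    _ = _ := one_mul _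

lemma summable_ww {s : ℝ} (hs : 1 < s) : Summable fun I => ‖ww K ψ s I‖ :=
  Summable.of_nonneg_of_le (fun _ => norm_nonneg _) (norm_ww_le K ψ s) (summable_absNorm K hs)

lemma tsum_ww_eq {s : ℝ} (hs : 1 < s) :
    ∑' I, ww K ψ s I = ∑' I : (Ideal (𝓞 K))⁰, ww K ψ s (I : Ideal (𝓞 K)) := by
  symm
  apply tsum_subtype_eq_of_support_subset
  intro I hI
  rw [SetLike.mem_coe, mem_nonZeroDivisors_iff_ne_zero]
  rintro rfl
  exact hI (ww_bot K ψ hs)

end

/-- bounded twisted zeta functions imply the prime sum bounds. -/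
theorem twistBound_of (h : NormCharBound) : TwistBound := by
  classical
  intro K _ _ m _ χ hex
  obtain ⟨I₀, hI₀, hI₀'⟩ := hex
  set ψ : DirichletCharacter ℂ m := χ ^ 2 with hψ
  have hψv : ∀ x : ZMod m, ψ x = (χ x) ^ 2 := fun x => by rw [hψ, MulChar.pow_apply' χ two_ne_zero]
  have hψeven : ψ (-1) = 1 := by
    rw [hψv, ← map_pow]; simp
  obtain ⟨C, hC⟩ := h K m ψ hψeven ⟨I₀, by rw [hψv]; exact hI₀, by
    rw [hψv]; exact pow_ne_zero 2 hI₀'⟩
  refine ⟨Real.log C + Ps K 2 / 2 + Module.finrank ℚ K * ∑' n : ℕ, ((n : ℝ) ^ 2)⁻¹, ?_⟩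
  intro s hs hs2
  have hsP : Summable fun P : HeightOneSpectrum (𝓞 K) => xp K s P := H99.summable_xp K hs
  have hwP : ∀ P : HeightOneSpectrum (𝓞 K), ‖ww K ψ s P.asIdeal‖ ≤ xp K s P :=
    fun P => norm_ww_le K ψ s P.asIdeal
  have h1 := sum_re_le (ww K ψ s) (ww_bot K ψ hs) (ww_one K ψ s) (ww_mul K ψ s)
    (summable_ww K ψ hs) (fun P => lt_of_le_of_lt (hwP P)
      (lt_of_le_of_lt (H99.xp_le_half K hs.le P) (by norm_num)))
    C (by rw [tsum_ww_eq K ψ hs]; exact hC s hs hs2) (Ps K 2 / 2) (by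
      have e1 : Ps K 2 / 2 = ∑' P : HeightOneSpectrum (𝓞 K), xp K 2 P / 2 := by
        rw [Ps, tsum_div_const]
      rw [e1]
      refine Summable.tsum_le_tsum (fun P => ?_) ?_ ((H99.summable_xp K (by norm_num)).div_const 2)
      · have h2 := H99.xp_sq_le K hs.le P
        have h3 := pow_le_pow_left₀ (norm_nonneg _) (hwP P) 2
        linarith
      · refine Summable.of_nonneg_of_le (fun P => by positivity) (fun P => ?_)
          ((H99.summable_xp K (by norm_num : (1:ℝ) < 2)).div_const 2)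
        have h2 := H99.xp_sq_le K hs.le P
        have h3 := pow_le_pow_left₀ (norm_nonneg _) (hwP P) 2
        linarith)
  -- split into degree one and higher degree
  have hsre : Summable fun P : HeightOneSpectrum (𝓞 K) => (ww K ψ s P.asIdeal).re :=
    Summable.of_norm_bounded hsP fun P => by
      rw [Real.norm_eq_abs]; exact (Complex.abs_re_le_norm _).trans (hwP P)
  have h2 := hsre.tsum_subtype_add_tsum_subtype_compl (HighDeg K)
  have h3 : -(∑' P : HighDeg K, (ww K ψ s (P : HeightOneSpectrum (𝓞 K)).asIdeal).re) ≤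
      Module.finrank ℚ K * ∑' n : ℕ, ((n : ℝ) ^ 2)⁻¹ := by
    refine le_trans ?_ (H99.tsum_highDeg_le K hs)
    rw [← tsum_neg]
    refine Summable.tsum_le_tsum (fun P => ?_) (hsre.subtype _).neg (hsP.subtype _)
    have h4 := (Complex.abs_re_le_norm (ww K ψ s (P : HeightOneSpectrum (𝓞 K)).asIdeal)).trans
      (hwP P)
    exact (neg_le_abs _).trans h4
  -- degree one part
  have h4 : ∑' P : ↥(HighDeg K)ᶜ, (ww K ψ s (P : HeightOneSpectrum (𝓞 K)).asIdeal).re =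
      dsum (fun p => (aK K p : ℝ) * ((χ ((p : ℕ) : ZMod m)) ^ 2).re) s := by
    rw [← (degOneEquiv K).tsum_eq]
    have hsum : Summable (fun x : (Σ p : Nat.Primes, {I : Ideal (𝓞 K) // Ideal.absNorm I = (p : ℕ)}) =>
        (ww K ψ s ((degOneEquiv K x : ↥(HighDeg K)ᶜ) : HeightOneSpectrum (𝓞 K)).asIdeal).re) :=
      ((degOneEquiv K).summable_iff
        (f := fun P : ↥(HighDeg K)ᶜ => (ww K ψ s (P : HeightOneSpectrum (𝓞 K)).asIdeal).re)).mpr
        (hsre.subtype _)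
    rw [hsum.tsum_sigma, dsum]
    refine tsum_congr fun p => ?_
    have h5 : ∀ b : {I : Ideal (𝓞 K) // Ideal.absNorm I = (p : ℕ)},
        (ww K ψ s ((degOneEquiv K ⟨p, b⟩ : ↥(HighDeg K)ᶜ) : HeightOneSpectrum (𝓞 K)).asIdeal).re =
        ((χ ((p : ℕ) : ZMod m)) ^ 2).re * ((p : ℕ) : ℝ) ^ (-s) := by
      intro b
      show (ww K ψ s b.1).re = _
      rw [ww, b.2, hψv, Complex.re_mul_ofReal]
    rw [tsum_congr h5]
    have : Finite {I : Ideal (𝓞 K) // Ideal.absNorm I = (p : ℕ)} :=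
      Set.Finite.to_subtype (Ideal.finite_setOfPred_absNorm_eq (S := 𝓞 K) (p : ℕ))
    have := Fintype.ofFinite {I : Ideal (𝓞 K) // Ideal.absNorm I = (p : ℕ)}
    rw [tsum_fintype, Finset.sum_const, Finset.card_univ, nsmul_eq_mul, aK,
      Nat.card_eq_fintype_card]
    ring
  rw [← h4]
  linarith

end Fermat.Agent.H85
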