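import Mathlib
import Fermat.Agent.H85Twist
import Fermat.Agent.H86DensityFinal
import Fermat.Agent.H86DensityRep
import Fermat.Agent.H70Frob

/-!
Chebotarev's theorem (symmetric form) for finite level representations of `Gal(ℚ̄/ℚ)`.
-/

namespace Fermat.Agent.H85

open NumberField Filter Topology

open Fermat.Agent.H99 (dsum HasLogDensity)

local notation "Qb" => AlgebraicClosure ℚ
local notation "Gq" => (AlgebraicClosure ℚ ≃ₐ[ℚ] AlgebraicClosure ℚ)

/-- a chosen Frobenius element at each prime -/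
noncomputable def Fr (p : Nat.Primes) : Gq := (H70.exists_place_frobenius p.2).choose_spec.choose

/-- a chosen place -/
noncomputable def Pl (p : Nat.Primes) : ValuationSubring Qb :=
  (H70.exists_place_frobenius p.2).choose

lemma Pl_liesOver (p : Nat.Primes) : (Pl p).LiesOverPrime p :=
  (H70.exists_place_frobenius p.2).choose_spec.choose_spec.1

lemma Fr_spec (p : Nat.Primes) : (Pl p).IsFrobeniusAt (Fr p) p :=
  (H70.exists_place_frobenius p.2).choose_spec.choose_spec.2

lemma isFrobElt_restrict (M : IntermediateField ℚ Qb) [NumberField M] [Normal ℚ M]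
    (p : Nat.Primes) : IsFrobElt M p (AlgEquiv.restrictNormalHom M (Fr p)) :=
  ⟨H86.centre M (Pl p), inferInstance, H86.natCast_mem_centre M (Pl_liesOver p),
    H86.restrict_frobenius M (Fr_spec p)⟩

/-- **Chebotarev**, symmetric form, for finite level homomorphisms of the absolute Galois group. -/
theorem chebotarev_gal_of (htw : TwistBound) {Q : Type} [Group Q] (ρ : Gq →* Q)
    (hρ : GaloisFactorsThroughFiniteLevel ρ) [Fintype ρ.range] (f : Q → ℝ)
    (hconj : ∀ x ∈ ρ.range, ∀ y ∈ ρ.range, f (y⁻¹ * x * y) = f x)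
    (hinv : ∀ x ∈ ρ.range, f x⁻¹ = f x) :
    HasLogDensity (fun p => f (ρ (Fr p))) ((∑ g : ρ.range, f g) / Fintype.card ρ.range) := by
  classical
  obtain ⟨L, hfin, hL⟩ := hρ
  let M : IntermediateField ℚ Qb := IntermediateField.normalClosure ℚ L Qb
  have hfd : FiniteDimensional ℚ M := inferInstance
  have hno : Normal ℚ M := normalClosure.normal ℚ L Qb
  have hLM : L ≤ M := L.le_normalClosure
  have hnf : NumberField M := ⟨⟩
  have hgal : IsGalois ℚ M := ⟨⟩
  let r : Gq →* (M ≃ₐ[ℚ] M) := AlgEquiv.restrictNormalHom M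
  have hr : Function.Surjective r := AlgEquiv.restrictNormalHom_surjective Qb
  have hker : r.ker ≤ ρ.ker := by
    intro σ hσ
    rw [MonoidHom.mem_ker] at hσ ⊢
    apply hL
    intro x hx
    have h1 : ((r σ ⟨x, hLM hx⟩ : M) : Qb) = σ x :=
      AlgEquiv.restrictNormal_commutes σ M (⟨x, hLM hx⟩ : M)
    rw [hσ] at h1
    exact h1.symm
  let ρb : (M ≃ₐ[ℚ] M) →* Q := r.liftOfSurjective hr ⟨ρ, hker⟩
  have hρb : ∀ σ, ρb (r σ) = ρ σ := fun σ =>
    MonoidHom.liftOfRightInverse_comp_apply r _ (Function.rightInverse_surjInv hr) ⟨ρ, hker⟩ σ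
  have hmem : ∀ x : M ≃ₐ[ℚ] M, ρb x ∈ ρ.range := by
    intro x
    obtain ⟨σ, rfl⟩ := hr x
    exact ⟨σ, (hρb σ).symm⟩
  have := Fintype.ofFinite (M ≃ₐ[ℚ] M)
  have h1 := hasLogDensity_classFun (G := M ≃ₐ[ℚ] M) (fun p => r (Fr p))
    (chebotarev_symm_of htw M (fun p => r (Fr p)) ∅ (fun p _ => isFrobElt_restrict M p))
    (fun x => f (ρb x))
    (fun x y => by rw [map_mul, map_mul, map_inv]; exact hconj _ (hmem x) _ (hmem y))
    (fun x => by rw [map_inv]; exact hinv _ (hmem x))
  -- averages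
  have havg : (∑ g : M ≃ₐ[ℚ] M, f (ρb g)) / Fintype.card (M ≃ₐ[ℚ] M) =
      (∑ g : ρ.range, f g) / Fintype.card ρ.range := by
    let ρr : (M ≃ₐ[ℚ] M) →* ρ.range := ρb.codRestrict ρ.range hmem
    have hsurj : Function.Surjective ρr := by
      rintro ⟨_, ⟨σ, rfl⟩⟩
      exact ⟨r σ, Subtype.ext (hρb σ)⟩
    have h2 : ∀ y : ρ.range, (Finset.univ.filter (fun g => ρr g = y)).card =
        Nat.card ρr.ker := by
      intro y
      obtain ⟨x, rfl⟩ := hsurj y
      rw [Nat.card_eq_fintype_card, ← Fintype.card_subtype]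
      refine Fintype.card_congr ⟨fun g => ⟨x⁻¹ * g.1, ?_⟩, fun g => ⟨x * g.1, ?_⟩, ?_, ?_⟩
      · rw [MonoidHom.mem_ker, map_mul, map_inv, g.2, inv_mul_cancel]
      · have := g.2
        rw [MonoidHom.mem_ker] at this
        rw [map_mul, this, mul_one]
      · intro g; apply Subtype.ext; simp
      · intro g; apply Subtype.ext; simp
    have h3 : (∑ g : M ≃ₐ[ℚ] M, f (ρb g)) = Nat.card ρr.ker * ∑ g : ρ.range, f g := by
      have : ∀ g, f (ρb g) = f (ρr g) := fun g => rfl
      rw [Finset.sum_congr rfl fun g _ => this g,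
        ← Finset.sum_fiberwise (s := Finset.univ) (g := ρr), Finset.mul_sum]
      refine Finset.sum_congr rfl fun y _ => ?_
      rw [← h2 y, ← nsmul_eq_mul, ← Finset.sum_const]
      refine Finset.sum_congr rfl fun g hg => ?_
      rw [(Finset.mem_filter.mp hg).2]
    have h4 : (Fintype.card (M ≃ₐ[ℚ] M) : ℝ) = Nat.card ρr.ker * Fintype.card ρ.range := by
      have h5 := ρr.ker.card_eq_card_quotient_mul_card_subgroup
      have h6 : Nat.card ((M ≃ₐ[ℚ] M) ⧸ ρr.ker) = Nat.card ρ.range :=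
        Nat.card_congr (QuotientGroup.quotientKerEquivOfSurjective ρr hsurj).toEquiv
      rw [h6] at h5
      rw [← Nat.card_eq_fintype_card, h5, ← Nat.card_eq_fintype_card]
      push_cast
      ring
    rw [h3, h4]
    have h7 : (Nat.card ρr.ker : ℝ) ≠ 0 := by exact_mod_cast Nat.card_pos.ne'
    rw [mul_div_mul_left _ _ h7]
  rw [havg] at h1
  refine h1.congr_off ∅ fun p _ => ?_
  show f (ρ (Fr p)) = f (ρb (r (Fr p)))
  rw [hρb]

end Fermat.Agent.H85
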