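import Mathlib
import Fermat.Agent.H62FrobTrace
import Fermat.Agent.H31Cyclo
import Fermat.Prelude.Def_GaloisRep_Residual

/-!
# The mod `N` cyclotomic character of `Gal(ℚ̄/ℚ)`
-/

set_option autoImplicit false

namespace Fermat.Agent.H48

noncomputable section

local notation "Qb" => AlgebraicClosure ℚ
local notation "Gq" => (AlgebraicClosure ℚ ≃ₐ[ℚ] AlgebraicClosure ℚ)

lemma natCard_rootsOfUnity_Qb (N : ℕ) [NeZero N] : Nat.card (rootsOfUnity N Qb) = N := by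
  haveI : NeZero (N : Qb) := ⟨by exact_mod_cast NeZero.ne N⟩
  exact HasEnoughRootsOfUnity.natCard_rootsOfUnity Qb N

/-- The mod `N` cyclotomic character. -/
def cyc (N : ℕ) [NeZero N] : Gq →* (ZMod N)ˣ where
  toFun σ := modularCyclotomicCharacter Qb (natCard_rootsOfUnity_Qb N) (σ : Qb ≃+* Qb)
  map_one' := map_one (modularCyclotomicCharacter Qb (natCard_rootsOfUnity_Qb N))
  map_mul' σ τ := map_mul (modularCyclotomicCharacter Qb (natCard_rootsOfUnity_Qb N))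
    (σ : Qb ≃+* Qb) (τ : Qb ≃+* Qb)

variable {N : ℕ} [NeZero N]

theorem cyc_frob {p : ℕ} (hp : p.Prime) (hpN : ¬ p ∣ N) {A : ValuationSubring Qb}
    (hA : A.LiesOverPrime p) {σ : Gq} (hσ : A.IsFrobeniusAt σ p) :
    ((cyc N σ : (ZMod N)ˣ) : ZMod N) = p :=
  H62.modularCyclotomicCharacter_frob hp hpN hA hσ (natCard_rootsOfUnity_Qb N)

theorem cyc_eq_one {σ : Gq} (h : ∀ ζ : Qb, ζ ^ N = 1 → σ ζ = ζ) : cyc N σ = 1 := by
  apply Units.ext
  show ((modularCyclotomicCharacter Qb (natCard_rootsOfUnity_Qb N) (σ : Qb ≃+* Qb) : (ZMod N)ˣ) :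
    ZMod N) = 1
  symm
  refine modularCyclotomicCharacter.unique Qb (natCard_rootsOfUnity_Qb N) _ fun t ht => ?_
  have ht' : (t : Qb) ^ N = 1 := by
    have := (mem_rootsOfUnity N t).mp ht
    rw [← Units.val_pow_eq_pow_val, this, Units.val_one]
  change σ (t : Qb) = _
  rw [h _ ht', ← Nat.cast_one, ZMod.val_natCast, ← pow_eq_pow_mod 1 ht', pow_one]

theorem cyc_inertia {p : ℕ} (hp : p.Prime) (hpN : ¬ p ∣ N) {A : ValuationSubring Qb}
    (hA : A.LiesOverPrime p) {σ : Gq} (hσ : σ ∈ A.inertiaSubgroupIn ℚ) : cyc N σ = 1 :=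
  cyc_eq_one fun _ hζ => H31.inertia_apply_rootOfUnity A hA
    ((Nat.Prime.coprime_iff_not_dvd hp).mpr hpN) (Nat.pos_of_ne_zero (NeZero.ne N)) hσ hζ

theorem cyc_finite (N : ℕ) [NeZero N] : ∃ L : IntermediateField ℚ Qb, FiniteDimensional ℚ L ∧
    ∀ σ : Gq, (∀ x ∈ L, σ x = x) → cyc N σ = 1 := by
  have hfin : Set.Finite {ζ : Qb | ζ ^ N = 1} := by
    have h0 : (Polynomial.X ^ N - 1 : Polynomial Qb) ≠ 0 := by
      have := Polynomial.monic_X_pow_sub_C (1 : Qb) (NeZero.ne N)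
      rw [Polynomial.C_1] at this
      exact this.ne_zero
    refine (Polynomial.rootSet_finite (Polynomial.X ^ N - 1 : Polynomial Qb) Qb).subset ?_
    intro ζ hζ
    rw [Polynomial.mem_rootSet]
    refine ⟨h0, ?_⟩
    have : ζ ^ N = 1 := hζ
    simp [this]
  haveI := hfin.to_subtype
  refine ⟨IntermediateField.adjoin ℚ {ζ : Qb | ζ ^ N = 1}, ?_, fun σ hσ => ?_⟩
  · exact IntermediateField.finiteDimensional_adjoin (fun x _ =>
      (AlgebraicClosure.isAlgebraic ℚ).isIntegral.1 x)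
  · exact cyc_eq_one fun ζ hζ => hσ ζ (IntermediateField.subset_adjoin ℚ _ hζ)

/-- A character of `(ZMod N)ˣ` as a character of the Galois group. -/
def detC {k : Type} [Monoid k] (N : ℕ) [NeZero N] (ψ : (ZMod N)ˣ →* k) : Gq →* k :=
  ψ.comp (cyc N)

theorem detC_finite {k : Type} [Monoid k] (N : ℕ) [NeZero N] (ψ : (ZMod N)ˣ →* k) :
    GaloisFactorsThroughFiniteLevel (detC N ψ) := by
  obtain ⟨L, hL, h⟩ := cyc_finite N
  exact ⟨L, hL, fun σ hσ => by rw [detC, MonoidHom.comp_apply, h σ hσ, map_one]⟩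

theorem detC_inertia {k : Type} [Monoid k] (ψ : (ZMod N)ˣ →* k) {p : ℕ} (hp : p.Prime)
    (hpN : ¬ p ∣ N) {A : ValuationSubring Qb} (hA : A.LiesOverPrime p) {σ : Gq}
    (hσ : σ ∈ A.inertiaSubgroupIn ℚ) : detC N ψ σ = 1 := by
  rw [detC, MonoidHom.comp_apply, cyc_inertia hp hpN hA hσ, map_one]

theorem detC_frob {k : Type} [Monoid k] (ψ : (ZMod N)ˣ →* k) {p : ℕ} (hp : p.Prime)
    (hpN : ¬ p ∣ N) {A : ValuationSubring Qb} (hA : A.LiesOverPrime p) {σ : Gq}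
    (hσ : A.IsFrobeniusAt σ p) : detC N ψ σ =
      ψ (ZMod.unitOfCoprime p ((Nat.Prime.coprime_iff_not_dvd hp).mpr hpN)) := by
  rw [detC, MonoidHom.comp_apply]
  congr 1
  apply Units.ext
  rw [cyc_frob hp hpN hA hσ, ZMod.coe_unitOfCoprime]

end

end Fermat.Agent.H48
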