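import Fermat.Agent.H22Sep
import Fermat.Agent.H22Hecke

/-!
Generalisation of the period lattice to an arbitrary finite index subgroup `Γ` of `SL(2, ℤ)` and to
arbitrary operators given by integral matrices of positive determinant.
-/

set_option autoImplicit false

open UpperHalfPlane Filter Topology MeasureTheory Set CongruenceSubgroup
open scoped MatrixGroups ModularForm Manifold

noncomputable section

namespace Fermat.Agent.H22.Gen

variable {Γ : Subgroup SL(2, ℤ)} [Γ.FiniteIndex]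

open ConjAct Pointwise in
lemma isArithmetic_translate (g : SL(2, ℤ)) :
    Subgroup.IsArithmetic (toConjAct (Matrix.SpecialLinearGroup.mapGL ℝ g)⁻¹ •
      ((Γ : Subgroup (GL (Fin 2) ℝ)))) := by
  simpa [(show Rat.castHom ℝ = algebraMap ℚ ℝ by rfl), map_inv,
      Matrix.SpecialLinearGroup.map_mapGL]
      using! Subgroup.IsArithmetic.conj ((Γ : Subgroup (GL (Fin 2) ℝ)))
        (Matrix.SpecialLinearGroup.mapGL ℚ g)⁻¹

lemma cuspLike_of_cuspForm {k : ℤ} (f : CuspForm Γ k) : CuspLike k f := by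
  refine ⟨f.holo', fun g => ?_⟩
  have := isArithmetic_translate (Γ := Γ) g
  have h1 := CuspFormClass.exp_decay_atImInfty'
    (CuspForm.translate f (Matrix.SpecialLinearGroup.mapGL ℝ g))
  obtain ⟨c, hc, hO⟩ := h1
  obtain ⟨C, hC⟩ := hO.bound
  rw [UpperHalfPlane.atImInfty, eventually_comap] at hC
  obtain ⟨A, hA⟩ := eventually_atTop.mp hC
  refine ⟨c, hc, C, A, fun τ hτ => ?_⟩
  have := hA τ.im hτ τ rfl
  rwa [Real.norm_of_nonneg (Real.exp_pos _).le] at this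

omit [Γ.FiniteIndex] in
lemma slash_of_mem {k : ℤ} (f : CuspForm Γ k) {γ : SL(2, ℤ)} (hγ : γ ∈ Γ) :
    (f : ℍ → ℂ) ∣[k] γ = f :=
  SlashInvariantFormClass.slash_action_eq f (Matrix.SpecialLinearGroup.mapGL ℝ γ)
    (Subgroup.mem_map_of_mem _ hγ)

variable (Γ) in
/-- The period functional `f ↦ ∫_∞^{g ∞} (f ∣ γ) P`. -/
def Lam {w : ℕ} (γ : SL(2, ℤ)) {P : ℍ → ℂ} (hP : P ∈ Pol ℤ w) (g : SL(2, ℤ)) :
    CuspForm Γ ((w : ℤ) + 2) →ₗ[ℂ] ℂ where
  toFun f := Phi (((f : ℍ → ℂ) ∣[(w : ℤ) + 2] γ) * P) g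
  map_add' f f' := by
    have h1 := ((cuspLike_of_cuspForm f).slash γ).good_mul hP
    have h2 := ((cuspLike_of_cuspForm f').slash γ).good_mul hP
    rw [FunLike.coe_add, SlashAction.add_slash, add_mul, Phi_add h1 h2]
  map_smul' c f := by
    have h1 := ((cuspLike_of_cuspForm f).slash γ).good_mul hP
    have h2 : (((c • f : CuspForm Γ ((w : ℤ) + 2)) : ℍ → ℂ) ∣[(w : ℤ) + 2] γ) * P =
        c • ((((f : ℍ → ℂ) ∣[(w : ℤ) + 2] γ)) * P) := by
      rw [FunLike.coe_smul, ModularForm.SL_smul_slash, smul_mul_assoc]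
    rw [h2, Phi_smul h1]
    rfl

lemma Lam_apply {w : ℕ} (γ : SL(2, ℤ)) {P : ℍ → ℂ} (hP : P ∈ Pol ℤ w) (g : SL(2, ℤ))
    (f : CuspForm Γ ((w : ℤ) + 2)) :
    Lam Γ γ hP g f = Phi (((f : ℍ → ℂ) ∣[(w : ℤ) + 2] γ) * P) g := rfl

lemma Lam_mul {w : ℕ} (γ : SL(2, ℤ)) {P : ℍ → ℂ} (hP : P ∈ Pol ℤ w) (g g' : SL(2, ℤ)) :
    Lam Γ γ hP (g * g') = Lam Γ γ hP g + Lam Γ (γ * g) (Pol_slash hP g) g' := by
  ext f
  have h1 := ((cuspLike_of_cuspForm f).slash γ).good_mul hP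
  simp only [LinearMap.add_apply, Lam_apply]
  rw [Phi_mul h1, mul_slash_two (w := w), SlashAction.slash_mul]

lemma Lam_one {w : ℕ} (γ : SL(2, ℤ)) {P : ℍ → ℂ} (hP : P ∈ Pol ℤ w) :
    Lam Γ γ hP 1 = 0 := by
  ext f
  simp only [Lam_apply, Phi_one, LinearMap.zero_apply]

lemma Lam_T {w : ℕ} (γ : SL(2, ℤ)) {P : ℍ → ℂ} (hP : P ∈ Pol ℤ w) :
    Lam Γ γ hP ModularGroup.T = 0 := by
  ext f
  have h1 := ((cuspLike_of_cuspForm f).slash γ).good_mul hP
  simp only [Lam_apply, Phi_T h1, LinearMap.zero_apply]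

/-- The finite generating set. -/
lemma finite_gens (Γ : Subgroup SL(2, ℤ)) [Γ.FiniteIndex] (w : ℕ) :
    {L : CuspForm Γ ((w : ℤ) + 2) →ₗ[ℂ] ℂ |
      ∃ (γ : SL(2, ℤ)) (i : ℕ) (hi : i ≤ w),
        L = Lam Γ γ (Submodule.subset_span ⟨i, hi, rfl⟩ :
          (fun τ : ℍ => (τ : ℂ) ^ i) ∈ Pol ℤ w) ModularGroup.S}.Finite := by
  have key : ∀ (γ γ' : SL(2, ℤ)) (i : ℕ) (hi : i ≤ w), γ' * γ⁻¹ ∈ Γ →
      Lam Γ γ (Submodule.subset_span ⟨i, hi, rfl⟩ :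
          (fun τ : ℍ => (τ : ℂ) ^ i) ∈ Pol ℤ w) ModularGroup.S =
      Lam Γ γ' (Submodule.subset_span ⟨i, hi, rfl⟩ :
          (fun τ : ℍ => (τ : ℂ) ^ i) ∈ Pol ℤ w) ModularGroup.S := by
    intro γ γ' i hi h
    ext f
    simp only [Lam_apply]
    have h2 : (f : ℍ → ℂ) ∣[(w : ℤ) + 2] γ' = (f : ℍ → ℂ) ∣[(w : ℤ) + 2] γ := by
      have : γ' = (γ' * γ⁻¹) * γ := by group
      rw [this, SlashAction.slash_mul, slash_of_mem f h]
    rw [h2]
  have hfin : Finite (SL(2, ℤ) ⧸ (Γ)) := inferInstance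
  refine Set.Finite.subset (Set.finite_range
    (fun x : (SL(2, ℤ) ⧸ (Γ)) × Fin (w + 1) =>
      Lam Γ (x.1.out)⁻¹ (Submodule.subset_span ⟨x.2.1, Nat.lt_succ_iff.mp x.2.2, rfl⟩ :
          (fun τ : ℍ => (τ : ℂ) ^ x.2.1) ∈ Pol ℤ w) ModularGroup.S)) ?_
  rintro L ⟨γ, i, hi, rfl⟩
  refine ⟨((γ⁻¹ : SL(2, ℤ)), ⟨i, Nat.lt_succ_of_le hi⟩), ?_⟩
  apply key (i := i) (hi := hi)
  have h1 : ((((γ⁻¹ : SL(2, ℤ)) : SL(2, ℤ) ⧸ (Γ)).out : SL(2, ℤ)) :
      SL(2, ℤ) ⧸ (Γ)) = ((γ⁻¹ : SL(2, ℤ)) : SL(2, ℤ) ⧸ (Γ)) := Quotient.out_eq' _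
  rw [QuotientGroup.eq] at h1
  have h2 := (Γ).inv_mem h1
  simpa using h2

/-- The span of the finite generating set. -/
def M0 (Γ : Subgroup SL(2, ℤ)) [Γ.FiniteIndex] (w : ℕ) : Submodule ℤ (CuspForm Γ ((w : ℤ) + 2) →ₗ[ℂ] ℂ) :=
  Submodule.span ℤ {L : CuspForm Γ ((w : ℤ) + 2) →ₗ[ℂ] ℂ |
      ∃ (γ : SL(2, ℤ)) (i : ℕ) (hi : i ≤ w),
        L = Lam Γ γ (Submodule.subset_span ⟨i, hi, rfl⟩ :
          (fun τ : ℍ => (τ : ℂ) ^ i) ∈ Pol ℤ w) ModularGroup.S}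

lemma M0_fg (Γ : Subgroup SL(2, ℤ)) [Γ.FiniteIndex] (w : ℕ) : (M0 Γ w).FG :=
  Submodule.fg_span (finite_gens Γ w)

lemma Lam_S_mem {w : ℕ} (γ : SL(2, ℤ)) {P : ℍ → ℂ} (hP : P ∈ Pol ℤ w) :
    Lam Γ γ hP ModularGroup.S ∈ M0 Γ w := by
  induction hP using Submodule.span_induction with
  | mem x hx =>
    obtain ⟨i, hi, rfl⟩ := hx
    exact Submodule.subset_span ⟨γ, i, hi, rfl⟩
  | zero =>
    convert (M0 Γ w).zero_mem
    ext f
    simp [Lam_apply, Phi_zero]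
  | add x y hx' hy' hx hy =>
    convert (M0 Γ w).add_mem hx hy
    ext f
    have h1 := ((cuspLike_of_cuspForm f).slash γ).good_mul hx'
    have h2 := ((cuspLike_of_cuspForm f).slash γ).good_mul hy'
    simp only [Lam_apply, mul_add, LinearMap.add_apply, Phi_add h1 h2]
  | smul a x hx' hx =>
    convert (M0 Γ w).smul_mem a hx
    ext f
    have h1 := ((cuspLike_of_cuspForm f).slash γ).good_mul hx'
    simp only [Lam_apply, LinearMap.smul_apply]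
    have : ((f : ℍ → ℂ) ∣[(w : ℤ) + 2] γ) * (a • x) = (a : ℂ) • (((f : ℍ → ℂ) ∣[(w : ℤ) + 2] γ) * x) := by
      ext τ; simp; ring
    rw [this, Phi_smul h1]
    simp

lemma Lam_mem {w : ℕ} (g : SL(2, ℤ)) :
    ∀ (γ : SL(2, ℤ)) {P : ℍ → ℂ} (hP : P ∈ Pol ℤ w), Lam Γ γ hP g ∈ M0 Γ w := by
  have hg : g ∈ Subgroup.closure {ModularGroup.S, ModularGroup.T} := by
    rw [SpecialLinearGroup.SL2Z_generators]; trivial
  induction hg using Subgroup.closure_induction with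
  | mem x hx =>
    intro γ P hP
    rcases hx with rfl | rfl
    · exact Lam_S_mem γ hP
    · rw [Lam_T]; exact zero_mem _
  | one => intro γ P hP; rw [Lam_one]; exact zero_mem _
  | mul x y _ _ hx hy =>
    intro γ P hP
    rw [Lam_mul]
    exact add_mem (hx γ hP) (hy _ _)
  | inv x _ hx =>
    intro γ P hP
    have h1 := Lam_mul (Γ := Γ) γ hP x⁻¹ x
    rw [inv_mul_cancel, Lam_one] at h1
    have h2 : Lam Γ γ hP x⁻¹ = - Lam Γ (γ * x⁻¹) (Pol_slash hP x⁻¹) x := by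
      rw [eq_neg_iff_add_eq_zero, ← h1]
    rw [h2]
    exact neg_mem (hx _ _)

/-- The lattice of periods. -/
def M (Γ : Subgroup SL(2, ℤ)) [Γ.FiniteIndex] (w : ℕ) : Submodule ℤ (CuspForm Γ ((w : ℤ) + 2) →ₗ[ℂ] ℂ) :=
  Submodule.span ℤ {L : CuspForm Γ ((w : ℤ) + 2) →ₗ[ℂ] ℂ |
      ∃ (P : ℍ → ℂ) (hP : P ∈ Pol ℤ w) (g : SL(2, ℤ)), L = Lam Γ 1 hP g}

lemma M_le (Γ : Subgroup SL(2, ℤ)) [Γ.FiniteIndex] (w : ℕ) : M Γ w ≤ M0 Γ w := by
  refine Submodule.span_le.mpr ?_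
  rintro L ⟨P, hP, g, rfl⟩
  exact Lam_mem g 1 hP

lemma M_fg (Γ : Subgroup SL(2, ℤ)) [Γ.FiniteIndex] (w : ℕ) : (M Γ w).FG := by
  have h1 : IsNoetherian ℤ (M0 Γ w) := isNoetherian_of_fg_of_noetherian _ (M0_fg Γ w)
  rw [isNoetherian_submodule] at h1
  exact h1 _ (M_le Γ w)

section MatOp

/-- `δ` is an integral matrix of positive determinant. -/
def IsIntMat (δ : GL (Fin 2) ℝ) : Prop :=
  ∃ D : Matrix (Fin 2) (Fin 2) ℤ,
    (δ : Matrix (Fin 2) (Fin 2) ℝ) = D.map (Int.cast : ℤ → ℝ) ∧ 0 < D.det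

lemma IsIntMat.det_pos {δ : GL (Fin 2) ℝ} (h : IsIntMat δ) : 0 < δ.det.val := by
  obtain ⟨D, hD, h0⟩ := h
  rw [Matrix.GeneralLinearGroup.val_det_apply, hD]
  have : (D.map (Int.cast : ℤ → ℝ)).det = (D.det : ℝ) :=
    (RingHom.map_det (Int.castRingHom ℝ) D).symm
  rw [this]
  exact_mod_cast h0

lemma IsIntMat.mapGL (g : SL(2, ℤ)) : IsIntMat (Matrix.SpecialLinearGroup.mapGL ℝ g) :=
  ⟨(g : Matrix (Fin 2) (Fin 2) ℤ), by
    rw [Matrix.SpecialLinearGroup.mapGL_coe_matrix]; rfl, by rw [g.det_coe]; exact one_pos⟩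

lemma IsIntMat.mul {δ δ' : GL (Fin 2) ℝ} (h : IsIntMat δ) (h' : IsIntMat δ') :
    IsIntMat (δ * δ') := by
  obtain ⟨D, hD, h0⟩ := h
  obtain ⟨D', hD', h0'⟩ := h'
  refine ⟨D * D', ?_, ?_⟩
  · have h3 : (D * D').map (Int.cast : ℤ → ℝ) =
          D.map (Int.cast : ℤ → ℝ) * D'.map (Int.cast : ℤ → ℝ) :=
        Matrix.map_mul (f := Int.castRingHom ℝ)
    rw [h3, ← hD, ← hD']
    rfl
  · rw [Matrix.det_mul]; exact mul_pos h0 h0'

lemma isIntMat_heckeMatrix {p : ℕ} (hp : p ≠ 0) (j : ℕ) :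
    IsIntMat (ModularForm.heckeMatrix p j) :=
  ⟨_, heckeMatrix_int hp j, by simpa using Nat.pos_of_ne_zero hp⟩

lemma isIntMat_heckeDiagMatrix {p : ℕ} (hp : p ≠ 0) :
    IsIntMat (ModularForm.heckeDiagMatrix p) :=
  ⟨_, heckeDiagMatrix_int hp, by simpa using Nat.pos_of_ne_zero hp⟩

variable {w : ℕ}

lemma exists_Pol_mat {δ : GL (Fin 2) ℝ} (hδ : IsIntMat δ) {P : ℍ → ℂ} (hP : P ∈ Pol ℤ w) :
    ∃ P' ∈ Pol ℤ w, ∀ τ, P' (δ • τ) = (δ.det.val : ℂ) ^ w * (denom δ τ ^ w)⁻¹ * P τ := by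
  have hpos := hδ.det_pos
  obtain ⟨D, hD, h0⟩ := hδ
  have hdet : (δ.det.val : ℂ) = (D 0 0 : ℂ) * D 1 1 - (D 0 1 : ℂ) * D 1 0 := by
    rw [Matrix.GeneralLinearGroup.val_det_apply, hD, Matrix.det_fin_two]
    simp
  have e00 : ((δ 0 0 : ℝ) : ℂ) = D 0 0 := by rw [hD]; simp
  have e01 : ((δ 0 1 : ℝ) : ℂ) = D 0 1 := by rw [hD]; simp
  have e10 : ((δ 1 0 : ℝ) : ℂ) = D 1 0 := by rw [hD]; simp
  have e11 : ((δ 1 1 : ℝ) : ℂ) = D 1 1 := by rw [hD]; simp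
  induction hP using Submodule.span_induction with
  | mem x hx =>
    obtain ⟨i, hi, rfl⟩ := hx
    refine ⟨_, lin_mem_Pol (R := ℤ) (w := w) (D 1 1) (-(D 0 1)) (-(D 1 0)) (D 0 0) hi,
      fun τ => ?_⟩
    have hd := denom_ne_zero δ τ
    rw [coe_smul_of_det_pos hpos]
    simp only [num, denom, e00, e01, e10, e11] at hd ⊢
    rw [hdet]
    have h1 : ((D 1 1 : ℂ) * (((D 0 0 : ℂ) * τ + D 0 1) / ((D 1 0 : ℂ) * τ + D 1 1)) +
        ((-(D 0 1) : ℤ) : ℂ)) = ((D 0 0 : ℂ) * D 1 1 - (D 0 1 : ℂ) * D 1 0) * τ /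
          ((D 1 0 : ℂ) * τ + D 1 1) := by
      rw [eq_div_iff hd, add_mul, mul_assoc, div_mul_cancel₀ _ hd]
      push_cast
      ring
    have h2 : (((-(D 1 0) : ℤ) : ℂ) * (((D 0 0 : ℂ) * τ + D 0 1) / ((D 1 0 : ℂ) * τ + D 1 1)) +
        (D 0 0 : ℂ)) = ((D 0 0 : ℂ) * D 1 1 - (D 0 1 : ℂ) * D 1 0) /
          ((D 1 0 : ℂ) * τ + D 1 1) := by
      rw [eq_div_iff hd, add_mul, mul_assoc, div_mul_cancel₀ _ hd]
      push_cast
      ring
    rw [h1, h2]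
    obtain ⟨m, rfl⟩ := Nat.exists_eq_add_of_le hi
    rw [Nat.add_sub_cancel_left, div_pow, div_pow, mul_pow, pow_add, pow_add, mul_inv]
    field_simp
  | zero => exact ⟨0, zero_mem _, fun τ => by simp⟩
  | add x y _ _ hx hy =>
    obtain ⟨x', hx', hx⟩ := hx
    obtain ⟨y', hy', hy⟩ := hy
    exact ⟨x' + y', add_mem hx' hy', fun τ => by simp only [Pi.add_apply, hx, hy]; ring⟩
  | smul a x _ hx =>
    obtain ⟨x', hx', hx⟩ := hx
    exact ⟨a • x', Submodule.smul_mem _ _ hx', fun τ => by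
      simp only [Pi.smul_apply, hx, zsmul_eq_mul]; ring⟩

lemma slash_mul_eq {δ : GL (Fin 2) ℝ} (hδ : 0 < δ.det.val) {f P P' : ℍ → ℂ}
    (h : ∀ τ, P' (δ • τ) = (δ.det.val : ℂ) ^ w * (denom δ τ ^ w)⁻¹ * P τ) :
    (f * P') ∣[(2 : ℤ)] δ = (f ∣[(w : ℤ) + 2] δ) * P := by
  funext τ
  have hσ : UpperHalfPlane.σ δ = .refl ℝ ℂ := by rw [UpperHalfPlane.σ, if_pos hδ]
  have hd := denom_ne_zero δ τ
  have hδ' : ((δ.det.val : ℝ) : ℂ) ≠ 0 := by exact_mod_cast hδ.ne'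
  rw [Pi.mul_apply, ModularForm.slash_apply, ModularForm.slash_apply, hσ, abs_of_pos hδ]
  simp only [ContinuousAlgEquiv.refl_apply, Pi.mul_apply, h]
  have e1 : ((δ.det.val : ℝ) : ℂ) ^ ((w : ℤ) + 2 - 1) = ((δ.det.val : ℝ) : ℂ) ^ (w + 1) := by
    rw [show ((w : ℤ) + 2 - 1) = ((w + 1 : ℕ) : ℤ) by push_cast; ring, zpow_natCast]
  have e2 : (denom δ τ) ^ (-((w : ℤ) + 2)) = ((denom δ τ) ^ (w + 2))⁻¹ := by
    rw [show (-((w : ℤ) + 2)) = -((w + 2 : ℕ) : ℤ) by push_cast; ring, zpow_neg, zpow_natCast]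
  have e3 : ((δ.det.val : ℝ) : ℂ) ^ ((2 : ℤ) - 1) = ((δ.det.val : ℝ) : ℂ) := by
    rw [show ((2 : ℤ) - 1) = 1 by norm_num, zpow_one]
  have e4 : (denom δ τ) ^ (-(2 : ℤ)) = ((denom δ τ) ^ 2)⁻¹ := by
    rw [zpow_neg]; norm_cast
  rw [e1, e2, e3, e4]
  field_simp
  ring

lemma exists_Lam_mat {δ : GL (Fin 2) ℝ} (hδ : IsIntMat δ) {P : ℍ → ℂ} (hP : P ∈ Pol ℤ w)
    (g : SL(2, ℤ)) :
    ∃ L ∈ M Γ w, ∀ (f : CuspForm Γ ((w : ℤ) + 2)),
      ∃ F : ℍ → ℂ, IsPrim F (((f : ℍ → ℂ) ∣[(w : ℤ) + 2] δ) * P) ∧ VZero F ∧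
        Tendsto (fun y : ℝ => F (g • ofComplex ((0 : ℝ) + y * Complex.I))) atTop (𝓝 (L f)) := by
  obtain ⟨P', hP', hPP'⟩ := exists_Pol_mat hδ hP
  have hpos := hδ.det_pos
  obtain ⟨D, hD, h0⟩ := hδ
  obtain ⟨g₁, B₁, hdec₁, h10₁, h00₁, h11₁⟩ := exists_decomp δ D hD h0 1
  obtain ⟨g₂, B₂, hdec₂, h10₂, h00₂, h11₂⟩ := exists_decomp δ D hD h0 g
  refine ⟨Lam Γ 1 hP' g₂ - Lam Γ 1 hP' g₁,
    sub_mem (Submodule.subset_span ⟨P', hP', g₂, rfl⟩) (Submodule.subset_span ⟨P', hP', g₁, rfl⟩),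
    fun f => ?_⟩
  have hf := cuspLike_of_cuspForm f
  have hg := hf.good_mul hP'
  refine ⟨fun τ => prim (f * P') (δ • τ) - Phi (f * P') g₁, ?_, ?_, ?_⟩
  · rw [← slash_mul_eq hpos hPP']
    exact (hg.isPrim_prim.comp_slash hpos).sub_const _
  · intro x
    have := tendsto_of_decomp hg hdec₁ h10₁ h00₁ h11₁ x
    simpa using this.sub_const (Phi (f * P') g₁)
  · have := tendsto_of_decomp hg hdec₂ h10₂ h00₂ h11₂ 0
    simpa only [Lam_apply, SlashAction.slash_one, LinearMap.sub_apply] using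
      this.sub_const (Phi (f * P') g₁)

/-- An operator on cusp forms which is an integral combination of slashes by integral matrices. -/
def IsMatOp {k : ℤ} (T : Module.End ℂ (CuspForm Γ k)) : Prop :=
  ∃ (ι : Type) (_ : Fintype ι) (δ : ι → GL (Fin 2) ℝ) (c : ι → ℤ), (∀ i, IsIntMat (δ i)) ∧
    ∀ f : CuspForm Γ k, (T f : ℍ → ℂ) = ∑ i, (c i : ℂ) • ((f : ℍ → ℂ) ∣[k] δ i)

lemma M_comp_of_isMatOp {T : Module.End ℂ (CuspForm Γ ((w : ℤ) + 2))} (hT : IsMatOp T)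
    {L : CuspForm Γ ((w : ℤ) + 2) →ₗ[ℂ] ℂ} (hL : L ∈ M Γ w) : L ∘ₗ T ∈ M Γ w := by
  induction hL using Submodule.span_induction with
  | mem x hx =>
    obtain ⟨P, hP, g, rfl⟩ := hx
    obtain ⟨ι, _, δ, c, hδ, hT⟩ := hT
    choose L hL H using fun i => exists_Lam_mat (Γ := Γ) (hδ i) hP g
    have hmem : ∑ i, c i • L i ∈ M Γ w :=
      Submodule.sum_mem _ fun i _ => Submodule.smul_mem _ _ (hL i)
    convert hmem using 1
    ext f
    choose F hF hF0 hlim using fun i => H i f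
    have h1 := (cuspLike_of_cuspForm (T f)).good_mul hP
    have h2 := h1.tendsto_phi g 0
    have h3 : prim ((T f : ℍ → ℂ) * P) = ∑ i, (c i : ℂ) • F i := by
      refine prim_eq ?_ (VZero.sum _ fun i _ => (hF0 i).smul _)
      rw [hT, Finset.sum_mul]
      refine IsPrim.sum _ fun i _ => ?_
      rw [smul_mul_assoc]
      exact (hF i).smul _
    rw [h3] at h2
    rw [LinearMap.comp_apply, Lam_apply, SlashAction.slash_one]
    refine tendsto_nhds_unique h2 ?_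
    rw [LinearMap.sum_apply]
    simp only [Finset.sum_apply, Pi.smul_apply, LinearMap.smul_apply]
    refine tendsto_finsetSum _ fun i _ => ?_
    have := (hlim i).const_smul (c i : ℂ)
    simpa using this
  | zero => simp
  | add x y _ _ hx hy => rw [LinearMap.add_comp]; exact add_mem hx hy
  | smul a x _ hx =>
    have : (a • x) ∘ₗ T = a • (x ∘ₗ T) := by ext; simp
    rw [this]; exact Submodule.smul_mem _ _ hx

lemma M_comp_adjoin {X : Set (Module.End ℂ (CuspForm Γ ((w : ℤ) + 2)))}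
    (hX : ∀ T ∈ X, IsMatOp T) {t : Module.End ℂ (CuspForm Γ ((w : ℤ) + 2))}
    (ht : t ∈ Algebra.adjoin ℤ X)
    {L : CuspForm Γ ((w : ℤ) + 2) →ₗ[ℂ] ℂ} (hL : L ∈ M Γ w) :
    L ∘ₗ t ∈ M Γ w := by
  induction ht using Algebra.adjoin_induction generalizing L with
  | mem x hx => exact M_comp_of_isMatOp (hX x hx) hL
  | algebraMap r =>
    have : L ∘ₗ (algebraMap ℤ (Module.End ℂ (CuspForm Γ ((w : ℤ) + 2))) r) = r • L := by
      ext f
      simp
    rw [this]; exact Submodule.smul_mem _ _ hL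
  | add x y _ _ hx hy =>
    rw [LinearMap.comp_add]; exact add_mem (hx hL) (hy hL)
  | mul x y _ _ hx hy =>
    rw [Module.End.mul_eq_comp, ← LinearMap.comp_assoc]
    exact hy (hx hL)

end MatOp

section vanish

variable {w : ℕ}

/-- The Eichler integral of a form without periods, as a cusp form of weight `-w`. -/
def eicForm (f : CuspForm Γ ((w : ℤ) + 2)) (H : NoPer w f) :
    CuspForm Γ (-(w : ℤ)) where
  toFun := Eic w f
  slash_action_eq' := by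
    rintro _ ⟨γ, hγ, rfl⟩
    have h1 := Eic_slash (cuspLike_of_cuspForm f) H γ
    rw [slash_of_mem f hγ] at h1
    exact h1
  holo' := Eic_mdifferentiable w (cuspLike_of_cuspForm f).sd
  zero_at_cusps' := by
    intro c hc
    rw [Subgroup.IsArithmetic.isCusp_iff_isCusp_SL2Z] at hc
    rw [OnePoint.isZeroAt_iff_forall_SL2Z hc]
    intro γ _
    rw [Eic_slash (cuspLike_of_cuspForm f) H γ]
    exact ((cuspLike_of_cuspForm f).slash γ).isZeroAtImInfty_Eic w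

lemma eq_zero_of_weight_nonpos (k : ℤ) (hk : k ≤ 0) (F : CuspForm Γ k) :
    (F : ℍ → ℂ) = 0 := by
  have hz : IsZeroAtImInfty (F : ℍ → ℂ) := CuspFormClass.zero_at_infty F
  let G : ModularForm Γ k :=
    { toFun := F
      slash_action_eq' := F.slash_action_eq'
      holo' := F.holo'
      bdd_at_cusps' := fun hc g hg => (F.zero_at_cusps' hc g hg).isBoundedAtImInfty }
  rcases hk.lt_or_eq with hk | rfl
  · have := ModularForm.isZero_of_neg_weight (𝒢 := (Γ : Subgroup (GL (Fin 2) ℝ))) hk G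
    have h2 : (G : ℍ → ℂ) = 0 := by rw [this]; rfl
    exact h2
  · obtain ⟨c, hc⟩ := ModularForm.eq_const_of_weight_zero
      (𝒢 := (Γ : Subgroup (GL (Fin 2) ℝ))) G
    have h1 : (F : ℍ → ℂ) = Function.const ℍ c := hc
    rw [h1] at hz ⊢
    have h2 : Tendsto (Function.const ℍ c) atImInfty (𝓝 0) := hz
    have h3 : c = 0 := tendsto_nhds_unique tendsto_const_nhds h2
    rw [h3]; rfl

lemma eq_zero_of_noPer (f : CuspForm Γ ((w : ℤ) + 2)) (H : NoPer w f) : f = 0 := by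
  have h1 : Eic w (f : ℍ → ℂ) = 0 := eq_zero_of_weight_nonpos (-(w : ℤ)) (by omega) (eicForm f H)
  exact DFunLike.coe_injective (eq_zero_of_Eic w (cuspLike_of_cuspForm f).sd h1)

/-- The common kernel of the period functionals is zero. -/
lemma eq_zero_of_forall_M (f : CuspForm Γ ((w : ℤ) + 2)) (H : ∀ L ∈ M Γ w, L f = 0) : f = 0 := by
  apply eq_zero_of_noPer
  apply noPer_of_int (cuspLike_of_cuspForm _)
  intro P hP g
  have := H _ (Submodule.subset_span ⟨P, hP, g, rfl⟩)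
  rwa [Lam_apply, SlashAction.slash_one] at this

end vanish

section final

/-- The Hecke-type algebras generated by integral matrix operators are finite over `ℤ`. -/
theorem moduleFinite_adjoin_add_two (w : ℕ)
    (X : Set (Module.End ℂ (CuspForm Γ ((w : ℤ) + 2)))) (hX : ∀ T ∈ X, IsMatOp T) :
    Module.Finite ℤ (Algebra.adjoin ℤ X) := by
  have hfin : Module.Finite ℤ (M Γ w) := Module.Finite.iff_fg.mpr (M_fg Γ w)
  let φ : Algebra.adjoin ℤ X →ₗ[ℤ] (M Γ w →ₗ[ℤ] M Γ w) :=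
    { toFun := fun t =>
        { toFun := fun L => ⟨L.1 ∘ₗ t.1, M_comp_adjoin hX t.2 L.2⟩
          map_add' := fun L L' => by
            apply Subtype.ext
            simp [LinearMap.add_comp]
          map_smul' := fun a L => by
            apply Subtype.ext
            ext f
            simp }
      map_add' := fun t t' => by
        ext L f
        simp
      map_smul' := fun a t => by
        ext L f
        simp }
  have hinj : Function.Injective φ := by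
    rw [injective_iff_map_eq_zero]
    intro t ht
    apply Subtype.ext
    ext1 f
    apply eq_zero_of_forall_M
    intro L hL
    have h1 := LinearMap.congr_fun ht ⟨L, hL⟩
    have h2 := congrArg Subtype.val h1
    exact LinearMap.congr_fun h2 f
  exact Module.Finite.of_injective φ hinj

lemma moduleFinite_adjoin_of_nonpos {k : ℤ} (hk : k ≤ 0)
    (X : Set (Module.End ℂ (CuspForm Γ k))) : Module.Finite ℤ (Algebra.adjoin ℤ X) := by
  have h0 : Subsingleton (CuspForm Γ k) :=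
    ⟨fun f g => by
      apply DFunLike.coe_injective
      rw [eq_zero_of_weight_nonpos k hk f, eq_zero_of_weight_nonpos k hk g]⟩
  have : Subsingleton (Module.End ℂ (CuspForm Γ k)) :=
    ⟨fun a b => LinearMap.ext fun x => Subsingleton.elim _ _⟩
  have : Subsingleton (Algebra.adjoin ℤ X) := inferInstance
  infer_instance

/-- Main theorem: for every finite index `Γ ≤ SL(2, ℤ)` and every weight `k ≠ 1`, the `ℤ`-algebra
generated by any set of operators given by integral matrices is a finite `ℤ`-module. -/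
theorem moduleFinite_adjoin {k : ℤ} (hk : k ≠ 1)
    (X : Set (Module.End ℂ (CuspForm Γ k))) (hX : ∀ T ∈ X, IsMatOp T) :
    Module.Finite ℤ (Algebra.adjoin ℤ X) := by
  rcases le_or_gt k 0 with hk0 | hk0
  · exact moduleFinite_adjoin_of_nonpos hk0 X
  obtain ⟨w, rfl⟩ : ∃ w : ℕ, k = (w : ℤ) + 2 := ⟨(k - 2).toNat, by omega⟩
  exact moduleFinite_adjoin_add_two w X hX

end final

end Fermat.Agent.H22.Gen
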