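import Mathlib
import Fermat.Prelude.Def_ModularForm_HeckeOperator
import Fermat.Prelude.Sol.S_ModularForm_heckeT_slash_eq_self_of_mem_Gamma0

/-! Diamond operators and the Hecke operator `T_p`, `p ∤ N`, on functions invariant under
`Γ₁(N)`: function level. -/

set_option autoImplicit false

noncomputable section

namespace Fermat.Agent.H58

open UpperHalfPlane ModularForm CongruenceSubgroup
open scoped MatrixGroups ModularForm OnePoint
open Matrix.SpecialLinearGroup (mapGL)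

/-- Invariance under `Γ₁(N)` at function level. -/
def Inv1 (N : ℕ) (k : ℤ) (f : ℍ → ℂ) : Prop := ∀ γ : SL(2, ℤ), γ ∈ Gamma1 N → f ∣[k] γ = f

theorem mem_Gamma1_of_Gamma0 {N : ℕ} {γ : SL(2, ℤ)} (h0 : γ ∈ Gamma0 N)
    (h1 : ((γ 1 1 : ℤ) : ZMod N) = 1) : γ ∈ Gamma1 N := by
  rw [Gamma1_mem]
  have hc := Gamma0_mem.1 h0
  have hdet : γ 0 0 * γ 1 1 - γ 0 1 * γ 1 0 = 1 := by
    have h := γ.det_coe
    rwa [Matrix.det_fin_two] at h
  have h2 := congrArg (Int.cast : ℤ → ZMod N) hdet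
  push_cast at h2
  rw [h1, hc, mul_one, mul_zero, sub_zero] at h2
  exact ⟨h2, h1, hc⟩

theorem Gamma0_mul_11 {N : ℕ} {γ δ : SL(2, ℤ)} (hγ : γ ∈ Gamma0 N) :
    (((γ * δ) 1 1 : ℤ) : ZMod N) = ((γ 1 1 : ℤ) : ZMod N) * ((δ 1 1 : ℤ) : ZMod N) := by
  have hc := Gamma0_mem.1 hγ
  have : (γ * δ) 1 1 = γ 1 0 * δ 0 1 + γ 1 1 * δ 1 1 := by
    simp [Matrix.mul_apply, Fin.sum_univ_two]
  rw [this]
  push_cast
  rw [hc]; ring

theorem Gamma0_inv_11 {N : ℕ} {γ : SL(2, ℤ)} (hγ : γ ∈ Gamma0 N) :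
    ((γ 1 1 : ℤ) : ZMod N) * (((γ⁻¹) 1 1 : ℤ) : ZMod N) = 1 := by
  rw [← Gamma0_mul_11 hγ, mul_inv_cancel]; simp

/-- The slash action of `Γ₀(N)` on `Γ₁(N)`-invariant functions only depends on the lower right
entry. -/
theorem Inv1.slash_congr {N : ℕ} {k : ℤ} {f : ℍ → ℂ} (hf : Inv1 N k f) {γ δ : SL(2, ℤ)}
    (hγ : γ ∈ Gamma0 N) (hδ : δ ∈ Gamma0 N)
    (h : ((γ 1 1 : ℤ) : ZMod N) = ((δ 1 1 : ℤ) : ZMod N)) : f ∣[k] γ = f ∣[k] δ := by
  have h1 : γ * δ⁻¹ ∈ Gamma1 N := by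
    apply mem_Gamma1_of_Gamma0 (mul_mem hγ (inv_mem hδ))
    rw [Gamma0_mul_11 hγ, h, Gamma0_inv_11 hδ]
  have h2 : γ = (γ * δ⁻¹) * δ := by group
  rw [h2, SlashAction.slash_mul, hf _ h1]

theorem Inv1.slash {N : ℕ} {k : ℤ} {f : ℍ → ℂ} (hf : Inv1 N k f) {σ : SL(2, ℤ)}
    (hσ : σ ∈ Gamma0 N) : Inv1 N k (f ∣[k] σ) := by
  intro γ hγ
  have hγ0 : γ ∈ Gamma0 N := Gamma1_in_Gamma0 N hγ
  rw [← SlashAction.slash_mul]
  apply hf.slash_congr (mul_mem hσ hγ0) hσ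
  rw [Gamma0_mul_11 hσ, ((Gamma1_mem N γ).1 hγ).2.1, mul_one]

theorem exists_sigma (N : ℕ) {d : ℤ} (hd : IsCoprime d (N : ℤ)) :
    ∃ γ : SL(2, ℤ), γ ∈ Gamma0 N ∧ γ 1 1 = d := by
  obtain ⟨a, b, h⟩ := hd
  refine ⟨⟨!![a, -b; N, d], ?_⟩, ?_, rfl⟩
  · rw [Matrix.det_fin_two_of]
    linear_combination h
  · rw [Gamma0_mem]
    show (((N : ℤ) : ℤ) : ZMod N) = 0
    simp

/-- A matrix in `Γ₀(N)` with lower right entry `d` (if `d` is prime to `N`). -/
def sig (N : ℕ) (d : ℤ) : SL(2, ℤ) :=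
  open Classical in if h : IsCoprime d (N : ℤ) then (exists_sigma N h).choose else 1

theorem sig_mem (N : ℕ) (d : ℤ) : sig N d ∈ Gamma0 N := by
  unfold sig
  split_ifs with h
  · exact (exists_sigma N h).choose_spec.1
  · exact one_mem _

theorem sig_11 {N : ℕ} {d : ℤ} (hd : IsCoprime d (N : ℤ)) : sig N d 1 1 = d := by
  unfold sig
  rw [dif_pos hd]
  exact (exists_sigma N hd).choose_spec.2

theorem Inv1.slash_sig {N : ℕ} {k : ℤ} {f : ℍ → ℂ} (hf : Inv1 N k f) {γ : SL(2, ℤ)}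
    (hγ : γ ∈ Gamma0 N) {d : ℤ} (hd : IsCoprime d (N : ℤ))
    (h : ((γ 1 1 : ℤ) : ZMod N) = (d : ZMod N)) : f ∣[k] γ = f ∣[k] sig N d := by
  apply hf.slash_congr hγ (sig_mem N d)
  rw [sig_11 hd, h]

section matrices

open P2MW.S_ModularForm_heckeT_slash_eq_self_of_mem_Gamma0.ModularForm.HeckeSlashInvariance

variable {p : ℕ} (hp : p ≠ 0)
include hp

theorem hm1 (g : SL(2, ℤ)) (j j' : ℕ) (e : ℤ)
    (he : g 0 1 + j * g 1 1 = j' * (g 0 0 + j * g 1 0) + p * e) :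
    ∃ g' : SL(2, ℤ), g' 1 0 = p * g 1 0 ∧ g' 1 1 = g 1 1 - g 1 0 * j' ∧
      heckeMatrix p j * mapGL ℝ g = mapGL ℝ g' * heckeMatrix p j' := by
  have hdet := det_eq g
  refine ⟨⟨!![g 0 0 + j * g 1 0, e; p * g 1 0, g 1 1 - g 1 0 * j'], ?_⟩, rfl, rfl, ?_⟩
  · rw [Matrix.det_fin_two_of]
    linear_combination hdet + (g 1 0) * he
  · ext i j
    fin_cases i <;> fin_cases j <;>
      simp [hp, Matrix.mul_apply, Fin.sum_univ_two]
    all_goals first
      | (have := congrArg (Int.cast : ℤ → ℝ) he; push_cast at this ⊢; linear_combination this)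
      | (have := congrArg (Int.cast : ℤ → ℝ) he; push_cast at this ⊢; linear_combination -this)
      | ring1

theorem hm2 (g : SL(2, ℤ)) (j : ℕ) (e : ℤ)
    (he : g 0 0 + j * g 1 0 = p * e) :
    ∃ g' : SL(2, ℤ), g' 1 0 = g 1 0 ∧ g' 1 1 = p * g 1 1 ∧
      heckeMatrix p j * mapGL ℝ g = mapGL ℝ g' * heckeDiagMatrix p := by
  have hdet := det_eq g
  refine ⟨⟨!![e, g 0 1 + j * g 1 1; g 1 0, p * g 1 1], ?_⟩, rfl, rfl, ?_⟩
  · rw [Matrix.det_fin_two_of]
    linear_combination hdet - (g 1 1) * he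
  · ext i j
    fin_cases i <;> fin_cases j <;>
      simp [hp, Matrix.mul_apply, Fin.sum_univ_two]
    all_goals first
      | (have := congrArg (Int.cast : ℤ → ℝ) he; push_cast at this ⊢; linear_combination this)
      | (have := congrArg (Int.cast : ℤ → ℝ) he; push_cast at this ⊢; linear_combination -this)
      | ring1

theorem hm3 (g : SL(2, ℤ)) (j' : ℕ) (e : ℤ)
    (he : g 1 1 = g 1 0 * j' + p * e) :
    ∃ g' : SL(2, ℤ), g' 1 0 = g 1 0 ∧ g' 1 1 = e ∧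
      heckeDiagMatrix p * mapGL ℝ g = mapGL ℝ g' * heckeMatrix p j' := by
  have hdet := det_eq g
  refine ⟨⟨!![p * g 0 0, g 0 1 - g 0 0 * j'; g 1 0, e], ?_⟩, rfl, rfl, ?_⟩
  · rw [Matrix.det_fin_two_of]
    linear_combination hdet - (g 0 0) * he
  · ext i j
    fin_cases i <;> fin_cases j <;>
      simp [hp, Matrix.mul_apply, Fin.sum_univ_two]
    all_goals first
      | (have := congrArg (Int.cast : ℤ → ℝ) he; push_cast at this ⊢; linear_combination this)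
      | (have := congrArg (Int.cast : ℤ → ℝ) he; push_cast at this ⊢; linear_combination -this)
      | ring1

theorem hm4 (g : SL(2, ℤ)) (e : ℤ) (he : g 1 0 = p * e) :
    ∃ g' : SL(2, ℤ), g' 1 0 = e ∧ g' 1 1 = g 1 1 ∧
      heckeDiagMatrix p * mapGL ℝ g = mapGL ℝ g' * heckeDiagMatrix p := by
  have hdet := det_eq g
  refine ⟨⟨!![g 0 0, p * g 0 1; e, g 1 1], ?_⟩, rfl, rfl, ?_⟩
  · rw [Matrix.det_fin_two_of]
    linear_combination hdet + (g 0 1) * he
  · ext i j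
    fin_cases i <;> fin_cases j <;>
      simp [hp, Matrix.mul_apply, Fin.sum_univ_two]
    all_goals first
      | (have := congrArg (Int.cast : ℤ → ℝ) he; push_cast at this ⊢; linear_combination this)
      | (have := congrArg (Int.cast : ℤ → ℝ) he; push_cast at this ⊢; linear_combination -this)
      | ring1

end matrices

section heckeT1

open P2MW.S_ModularForm_heckeT_slash_eq_self_of_mem_Gamma0.ModularForm.HeckeSlashInvariance

/-- `T_p` on `Γ₁(N)`-invariant functions (`p ∤ N`). -/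
def T1 (N : ℕ) (k : ℤ) (p : ℕ) (f : ℍ → ℂ) : ℍ → ℂ :=
  heckeU k p f + (f ∣[k] sig N p) ∣[k] heckeDiagMatrix p

variable {N : ℕ} {k : ℤ} {p : ℕ}

/-- The summands of `T_p` indexed by the projective line. -/
def tw (N : ℕ) (k : ℤ) (p : ℕ) (f : ℍ → ℂ) (x : OnePoint (ZMod p)) : ℍ → ℂ :=
  x.elim (f ∣[k] sig N p) (fun _ ↦ f)

theorem T1_eq_sum [NeZero p] (f : ℍ → ℂ) :
    T1 N k p f = ∑ x : OnePoint (ZMod p), (tw N k p f x) ∣[k] heckeRep p x := by
  rw [T1, heckeU_eq_sum_zmod, add_comm]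
  exact (Fintype.sum_option (fun x : OnePoint (ZMod p) ↦ (tw N k p f x) ∣[k] heckeRep p x)).symm

variable [Fact p.Prime]

theorem tw_slash (hpN : ¬ p ∣ N) {f : ℍ → ℂ} (hf : Inv1 N k f) {g : SL(2, ℤ)}
    (hg : g ∈ Gamma0 N) (x : OnePoint (ZMod p)) :
    ∃ g' : SL(2, ℤ), heckeRep p x * mapGL ℝ g = mapGL ℝ g' * heckeRep p (redMatrix p g • x) ∧
      (tw N k p f x) ∣[k] g' = tw N k p (f ∣[k] g) (redMatrix p g • x) := by
  have hp : p ≠ 0 := (Fact.out : p.Prime).ne_zero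
  have : NeZero p := ⟨hp⟩
  have hcopN : Nat.Coprime p N := (Nat.Prime.coprime_iff_not_dvd Fact.out).mpr hpN
  have hcop : IsCoprime (p : ℤ) (N : ℤ) := Nat.isCoprime_iff_coprime.mpr hcopN
  have hgN : (N : ℤ) ∣ g 1 0 := (ZMod.intCast_zmod_eq_zero_iff_dvd _ _).mp (Gamma0_mem.mp hg)
  have hmem : ∀ g' : SL(2, ℤ), (N : ℤ) ∣ g' 1 0 → g' ∈ Gamma0 N := fun g' h =>
    Gamma0_mem.mpr ((ZMod.intCast_zmod_eq_zero_iff_dvd _ _).mpr h)
  have hg0 : ((g 1 0 : ℤ) : ZMod N) = 0 := Gamma0_mem.mp hg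
  have hσ : ((sig N p 1 1 : ℤ) : ZMod N) = (p : ZMod N) := by rw [sig_11 hcop]; simp
  induction x using OnePoint.rec with
  | infty =>
    rw [OnePoint.smul_infty_eq_ite]
    by_cases hc : ((g 1 0 : ℤ) : ZMod p) = 0
    · rw [if_pos (by simpa using hc), heckeRep_infty]
      obtain ⟨e, he⟩ := (ZMod.intCast_zmod_eq_zero_iff_dvd _ _).mp hc
      obtain ⟨g', hg', hg'1, hmul⟩ := hm4 hp g e he
      refine ⟨g', hmul, ?_⟩
      have h1 : g' ∈ Gamma0 N := by
        apply hmem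
        rw [hg']
        exact hcop.symm.dvd_of_dvd_mul_left (he ▸ hgN)
      show (f ∣[k] sig N p) ∣[k] g' = (f ∣[k] g) ∣[k] sig N p
      rw [← SlashAction.slash_mul, ← SlashAction.slash_mul]
      apply hf.slash_congr (mul_mem (sig_mem N p) h1) (mul_mem hg (sig_mem N p))
      rw [Gamma0_mul_11 (sig_mem N p), Gamma0_mul_11 hg, hg'1, mul_comm]
    · rw [if_neg (by simpa using hc), heckeRep_infty, heckeRep_coe]
      set y : ZMod p := redMatrix p g 0 0 / redMatrix p g 1 0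
        with hy
      obtain ⟨e, he⟩ : (p : ℤ) ∣ g 1 1 - g 1 0 * y.val := by
        rw [← ZMod.intCast_zmod_eq_zero_iff_dvd]
        push_cast
        rw [ZMod.natCast_zmod_val, hy, redMatrix_apply_zero_zero, redMatrix_apply_one_zero,
          mul_div_cancel₀ _ hc, sub_self]
      obtain ⟨g', hg', hg'1, hmul⟩ := hm3 hp g y.val e (by linear_combination he)
      refine ⟨g', hmul, ?_⟩
      have h1 : g' ∈ Gamma0 N := hmem _ (hg' ▸ hgN)
      show (f ∣[k] sig N p) ∣[k] g' = f ∣[k] g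
      rw [← SlashAction.slash_mul]
      apply hf.slash_congr (mul_mem (sig_mem N p) h1) hg
      rw [Gamma0_mul_11 (sig_mem N p), hσ, hg'1]
      have := congrArg (Int.cast : ℤ → ZMod N) he
      push_cast at this
      rw [hg0, zero_mul, sub_zero] at this
      exact this.symm
  | coe j =>
    rw [OnePoint.smul_some_eq_ite]
    by_cases h : redMatrix p g 1 0 * j + redMatrix p g 1 1 = 0
    · rw [if_pos h, heckeRep_infty, heckeRep_coe]
      rw [redMatrix_apply_one_zero, redMatrix_apply_one_one] at h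
      obtain ⟨e, he⟩ : (p : ℤ) ∣ g 0 0 + j.val * g 1 0 := by
        rw [← ZMod.intCast_zmod_eq_zero_iff_dvd]
        push_cast
        rw [ZMod.natCast_zmod_val]
        linear_combination h
      obtain ⟨g', hg', hg'1, hmul⟩ := hm2 hp g j.val e he
      refine ⟨g', hmul, ?_⟩
      have h1 : g' ∈ Gamma0 N := hmem _ (hg' ▸ hgN)
      show f ∣[k] g' = (f ∣[k] g) ∣[k] sig N p
      rw [← SlashAction.slash_mul]
      apply hf.slash_congr h1 (mul_mem hg (sig_mem N p))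
      rw [Gamma0_mul_11 hg, hσ, hg'1]
      push_cast
      ring
    · rw [if_neg h, heckeRep_coe, heckeRep_coe]
      set y : ZMod p := (redMatrix p g 0 0 * j + redMatrix p g 0 1) /
        (redMatrix p g 1 0 * j + redMatrix p g 1 1) with hy
      obtain ⟨e, he⟩ : (p : ℤ) ∣ g 0 1 + j.val * g 1 1 - y.val * (g 0 0 + j.val * g 1 0) := by
        rw [← ZMod.intCast_zmod_eq_zero_iff_dvd]
        push_cast
        rw [ZMod.natCast_zmod_val, ZMod.natCast_zmod_val,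
          show ((g 0 0 : ℤ) : ZMod p) + j * ((g 1 0 : ℤ) : ZMod p)
            = redMatrix p g 1 0 * j + redMatrix p g 1 1 by
              rw [redMatrix_apply_one_zero, redMatrix_apply_one_one]; ring,
          hy, div_mul_cancel₀ _ h, redMatrix_apply_zero_zero, redMatrix_apply_zero_one]
        ring
      obtain ⟨g', hg', hg'1, hmul⟩ := hm1 hp g j.val y.val e (by linear_combination he)
      refine ⟨g', hmul, ?_⟩
      have h1 : g' ∈ Gamma0 N := hmem _ (hg' ▸ dvd_mul_of_dvd_right hgN _)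
      show f ∣[k] g' = f ∣[k] g
      apply hf.slash_congr h1 hg
      rw [hg'1]
      push_cast
      rw [hg0, zero_mul, sub_zero]

/-- `T_p` commutes with the action of `Γ₀(N)`. -/
theorem T1_slash (hpN : ¬ p ∣ N) {f : ℍ → ℂ} (hf : Inv1 N k f) {g : SL(2, ℤ)}
    (hg : g ∈ Gamma0 N) : (T1 N k p f) ∣[k] g = T1 N k p (f ∣[k] g) := by
  have hp : p ≠ 0 := (Fact.out : p.Prime).ne_zero
  have : NeZero p := ⟨hp⟩
  show (T1 N k p f) ∣[k] (mapGL ℝ g) = _
  rw [T1_eq_sum, T1_eq_sum, SlashAction.sum_slash]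
  calc ∑ x : OnePoint (ZMod p), (tw N k p f x ∣[k] heckeRep p x) ∣[k] mapGL ℝ g
      = ∑ x : OnePoint (ZMod p), (tw N k p (f ∣[k] g) (redMatrix p g • x)) ∣[k]
          heckeRep p (redMatrix p g • x) := by
        refine Finset.sum_congr rfl fun x _ ↦ ?_
        obtain ⟨g', hmul, h2⟩ := tw_slash hpN hf hg x
        rw [← SlashAction.slash_mul, hmul, SlashAction.slash_mul, ← h2]
        rfl
    _ = ∑ x : OnePoint (ZMod p), (tw N k p (f ∣[k] g) x) ∣[k] heckeRep p x :=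
        Equiv.sum_comp (MulAction.toPerm (redMatrix p g))
          (fun x ↦ (tw N k p (f ∣[k] g) x) ∣[k] heckeRep p x)

theorem Inv1.T1 (hpN : ¬ p ∣ N) {f : ℍ → ℂ} (hf : Inv1 N k f) : Inv1 N k (T1 N k p f) := by
  intro γ hγ
  rw [T1_slash hpN hf (Gamma1_in_Gamma0 N hγ), hf γ hγ]

end heckeT1

end Fermat.Agent.H58
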