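import Mathlib
import Fermat.Agent.H58Dia
import Fermat.Agent.H4TransferPE

/-!
# Hecke correspondences on `Hom(Γ, A)` for a subgroup `Γ ≤ SL(2, ℤ)` (project GAMMA1)

* `IsPE`, `PE Γ A`: homomorphisms `Γ → A` killing the parabolic and the elliptic elements.
* `HeckeSys Γ`: a finite family `α i` with `α i * γ = δ * α (i·γ)`, `δ ∈ Γ`; `HeckeSys.hom` is the
  transfer on `Additive Γ →+ A`.
* `sysT M p`, `sysDia M d`: the systems of `T_p` and `⟨d⟩` for `Γ₁(M)`.
-/

set_option autoImplicit false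

open CongruenceSubgroup UpperHalfPlane Matrix.SpecialLinearGroup ModularForm
open scoped MatrixGroups

namespace Fermat.Agent.H48

noncomputable section

/-- `φ` kills the parabolic and elliptic elements (`±1` included). -/
def IsPE {Γ : Subgroup SL(2, ℤ)} {A : Type*} [AddCommGroup A] (φ : Additive Γ →+ A) : Prop :=
  ∀ γ : Γ, ((γ : SL(2, ℤ)) : Matrix (Fin 2) (Fin 2) ℤ).trace ^ 2 ≤ 4 →
    φ (Additive.ofMul γ) = 0

/-- Homomorphisms killing the parabolic and elliptic elements. -/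
def PE (Γ : Subgroup SL(2, ℤ)) (A : Type*) [AddCommGroup A] : AddSubgroup (Additive Γ →+ A) where
  carrier := {φ | IsPE φ}
  zero_mem' := fun _ _ => rfl
  add_mem' {φ ψ} hφ hψ := fun γ hγ => by rw [AddMonoidHom.add_apply, hφ γ hγ, hψ γ hγ, add_zero]
  neg_mem' {φ} hφ := fun γ hγ => by rw [AddMonoidHom.neg_apply, hφ γ hγ, neg_zero]

lemma mem_PE {Γ : Subgroup SL(2, ℤ)} {A : Type*} [AddCommGroup A] {φ : Additive Γ →+ A} :
    φ ∈ PE Γ A ↔ IsPE φ := Iff.rfl

/-- A Hecke correspondence, given by coset representatives. -/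
structure HeckeSys (Γ : Subgroup SL(2, ℤ)) where
  /-- index set -/
  ι : Type
  /-- the index set is finite -/
  fin : Fintype ι
  /-- the representatives -/
  α : ι → GL (Fin 2) ℝ
  /-- positive determinant -/
  det_pos : ∀ i, 0 < (α i).det.val
  /-- the (right) action on the index set -/
  act : Γ → Equiv.Perm ι
  /-- the cocycle -/
  coc : Γ → ι → Γ
  spec : ∀ (γ : Γ) (i : ι), α i * mapGL ℝ (γ : SL(2, ℤ)) = mapGL ℝ (coc γ i : SL(2, ℤ)) * α (act γ i)
  act_mul : ∀ (γ γ' : Γ) (i : ι), act (γ * γ') i = act γ' (act γ i)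

attribute [instance] HeckeSys.fin

namespace HeckeSys

variable {Γ : Subgroup SL(2, ℤ)} (H : HeckeSys Γ)

lemma mapGL_injective' {a b : Γ}
    (h : (mapGL ℝ (a : SL(2, ℤ)) : GL (Fin 2) ℝ) = mapGL ℝ (b : SL(2, ℤ))) : a = b :=
  Subtype.ext (mapGL_injective h)

lemma coc_unique (γ : Γ) (i : H.ι) {δ : Γ}
    (h : H.α i * mapGL ℝ (γ : SL(2, ℤ)) = mapGL ℝ (δ : SL(2, ℤ)) * H.α (H.act γ i)) :
    δ = H.coc γ i := by
  apply mapGL_injective'
  rw [H.spec γ i] at h
  exact (mul_right_cancel h).symm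

lemma act_one (i : H.ι) : H.act 1 i = i := by
  have h := H.act_mul 1 1 i
  rw [one_mul] at h
  exact ((H.act 1).injective h).symm

lemma coc_mul (γ γ' : Γ) (i : H.ι) :
    H.coc (γ * γ') i = H.coc γ i * H.coc γ' (H.act γ i) := by
  symm
  apply H.coc_unique
  have h1 := H.spec γ i
  have h2 := H.spec γ' (H.act γ i)
  push_cast
  rw [map_mul, ← mul_assoc, h1, mul_assoc, h2, ← mul_assoc, map_mul, H.act_mul]

lemma coc_one (i : H.ι) : H.coc 1 i = 1 := by
  symm
  apply H.coc_unique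
  simp [act_one]

variable {A B : Type*} [AddCommGroup A] [AddCommGroup B]

/-- The transfer on homomorphisms. -/
def hom : (Additive Γ →+ A) →+ (Additive Γ →+ A) where
  toFun φ :=
    AddMonoidHom.mk' (fun γ => ∑ i : H.ι, φ (Additive.ofMul (H.coc γ.toMul i))) (by
      intro a b
      rw [← Equiv.sum_comp (H.act a.toMul)
        (fun i => φ (Additive.ofMul (H.coc b.toMul i))), ← Finset.sum_add_distrib]
      refine Finset.sum_congr rfl fun x _ => ?_
      rw [toMul_add, H.coc_mul, ofMul_mul, map_add])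
  map_zero' := by ext; simp
  map_add' φ ψ := by
    ext γ
    simp [Finset.sum_add_distrib]

lemma hom_apply (φ : Additive Γ →+ A) (γ : Additive Γ) :
    H.hom φ γ = ∑ i : H.ι, φ (Additive.ofMul (H.coc γ.toMul i)) := rfl

/-- Naturality in the coefficients. -/
lemma hom_comp (φ : Additive Γ →+ A) (f : A →+ B) :
    H.hom (f.comp φ) = f.comp (H.hom φ) := by
  ext γ
  simp [hom_apply]

lemma hom_smul {R : Type*} [Semiring R] [Module R A] (c : R)
    (φ : Additive Γ →+ A) : H.hom (c • φ) = c • H.hom φ := by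
  ext γ
  simp [hom_apply, Finset.smul_sum]

lemma sl_smul_eq (g : SL(2, ℤ)) (τ : ℍ) : g • τ = (mapGL ℝ g : GL (Fin 2) ℝ) • τ := rfl

lemma smul_smul_eq (γ : Γ) (i : H.ι) (τ : ℍ) :
    H.α i • ((γ : SL(2, ℤ)) • τ) = (H.coc γ i : SL(2, ℤ)) • (H.α (H.act γ i) • τ) := by
  rw [sl_smul_eq, sl_smul_eq, ← mul_smul, ← mul_smul]
  congr 1
  exact H.spec γ i

/-- additive compatibility with primitives -/
theorem sum_smul (F : ℍ → A) (φ : Additive Γ →+ A)
    (hF : ∀ (γ : Γ) (τ : ℍ), F ((γ : SL(2, ℤ)) • τ) = F τ + φ (Additive.ofMul γ))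
    (γ : Γ) (τ : ℍ) :
    ∑ i : H.ι, F (H.α i • ((γ : SL(2, ℤ)) • τ)) =
      (∑ i : H.ι, F (H.α i • τ)) + H.hom φ (Additive.ofMul γ) := by
  rw [hom_apply, ← Equiv.sum_comp (H.act γ) (fun i => F (H.α i • τ)),
    ← Finset.sum_add_distrib]
  refine Finset.sum_congr rfl fun x _ => ?_
  rw [H.smul_smul_eq, hF]
  rfl

/-- multiplicative compatibility -/
theorem prod_smul (h : ℍ → ℂ) (χ : Additive Γ →+ Additive ℂˣ)
    (hF : ∀ (γ : Γ) (τ : ℍ), h ((γ : SL(2, ℤ)) • τ) =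
      ((χ (Additive.ofMul γ)).toMul : ℂ) * h τ)
    (γ : Γ) (τ : ℍ) :
    ∏ i : H.ι, h (H.α i • ((γ : SL(2, ℤ)) • τ)) =
      ((H.hom χ (Additive.ofMul γ)).toMul : ℂ) * ∏ i : H.ι, h (H.α i • τ) := by
  rw [hom_apply, ← Equiv.prod_comp (H.act γ) (fun i => h (H.α i • τ)),
    toMul_sum, Units.coe_prod, ← Finset.prod_mul_distrib]
  refine Finset.prod_congr rfl fun x _ => ?_
  rw [H.smul_smul_eq, hF]
  rfl

lemma act_pow (γ : Γ) (n : ℕ) (x : H.ι) : H.act (γ ^ n) x = (H.act γ : H.ι → H.ι)^[n] x := by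
  induction n generalizing x with
  | zero => simp [act_one]
  | succ n ih => rw [pow_succ, H.act_mul, ih, Function.iterate_succ_apply']

lemma coc_pow (φ : Additive Γ →+ A) (γ : Γ) (x : H.ι) (n : ℕ) :
    ∑ i ∈ Finset.range n, φ (Additive.ofMul (H.coc γ ((H.act γ : H.ι → H.ι)^[i] x))) =
      φ (Additive.ofMul (H.coc (γ ^ n) x)) := by
  induction n with
  | zero => simp [H.coc_one]
  | succ n ih =>
    rw [Finset.sum_range_succ, ih, pow_succ, H.coc_mul, ofMul_mul, map_add, ← H.act_pow]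

lemma trace_coc (γ : Γ) (x : H.ι) (hx : H.act γ x = x) :
    ((H.coc γ x : SL(2, ℤ)) : Matrix (Fin 2) (Fin 2) ℤ).trace =
      ((γ : SL(2, ℤ)) : Matrix (Fin 2) (Fin 2) ℤ).trace := by
  have h := H.spec γ x
  rw [hx] at h
  have h2 : (mapGL ℝ (H.coc γ x : SL(2, ℤ)) : GL (Fin 2) ℝ) =
      H.α x * mapGL ℝ (γ : SL(2, ℤ)) * (H.α x)⁻¹ := by rw [h]; group
  have h3 := congrArg (fun g : GL (Fin 2) ℝ => (g : Matrix (Fin 2) (Fin 2) ℝ).trace) h2
  simp only [Units.val_mul] at h3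
  rw [Matrix.trace_mul_comm, ← mul_assoc, Units.inv_mul, one_mul] at h3
  have e : ∀ g : SL(2, ℤ), ((mapGL ℝ g : GL (Fin 2) ℝ) : Matrix (Fin 2) (Fin 2) ℝ).trace =
      (((g : Matrix (Fin 2) (Fin 2) ℤ).trace : ℤ) : ℝ) := by
    intro g
    simp [Matrix.trace_fin_two]
  rw [e, e] at h3
  exact_mod_cast h3

/-- Hecke correspondences preserve the homomorphisms killing parabolic and elliptic elements. -/
theorem isPE_hom {φ : Additive Γ →+ A} (hφ : IsPE φ) : IsPE (H.hom φ) := by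
  intro γ hγ
  rw [hom_apply]
  apply Fermat.Agent.H4.sum_eq_zero_of_cycles (H.act γ)
  intro x
  simp only [toMul_ofMul]
  rw [H.coc_pow]
  apply hφ
  have hfix : H.act (γ ^ (Function.minimalPeriod (H.act γ : Equiv.Perm H.ι) x)) x = x := by
    rw [H.act_pow, Function.iterate_minimalPeriod]
  rw [H.trace_coc _ x hfix]
  push_cast
  exact Fermat.Agent.H4.trace_sq_pow_le _ hγ _

/-- The Hecke correspondence on `PE Γ A`. -/
def homPE (A : Type*) [AddCommGroup A] : PE Γ A →+ PE Γ A where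
  toFun φ := ⟨H.hom φ.1, H.isPE_hom φ.2⟩
  map_zero' := Subtype.ext (map_zero _)
  map_add' _ _ := Subtype.ext (map_add _ _ _)

@[simp] lemma coe_homPE (A : Type*) [AddCommGroup A] (φ : PE Γ A) :
    (H.homPE A φ : Additive Γ →+ A) = H.hom φ.1 := rfl

end HeckeSys

section Gamma1

open P2MW.S_ModularForm_heckeT_slash_eq_self_of_mem_Gamma0.ModularForm.HeckeSlashInvariance
open Fermat.Agent.H58

variable {N p : ℕ} [Fact p.Prime]

/-- `1`, except at the point at infinity, where it is `p`. -/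
def lowR (p : ℕ) (x : OnePoint (ZMod p)) : ℤ := x.elim (p : ℤ) (fun _ => 1)

omit [Fact p.Prime] in
@[simp] lemma lowR_infty : lowR p (OnePoint.infty) = (p : ℤ) := rfl
omit [Fact p.Prime] in
@[simp] lemma lowR_coe (j : ZMod p) : lowR p (j : OnePoint (ZMod p)) = 1 := rfl

/-- The twist `1` or `σ_p`. -/
def twS (N p : ℕ) (x : OnePoint (ZMod p)) : SL(2, ℤ) := x.elim (sig N p) (fun _ => 1)

omit [Fact p.Prime] in
@[simp] lemma twS_infty : twS N p (OnePoint.infty) = sig N p := rfl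
omit [Fact p.Prime] in
@[simp] lemma twS_coe (j : ZMod p) : twS N p (j : OnePoint (ZMod p)) = 1 := rfl

omit [Fact p.Prime] in
lemma twS_mem (x : OnePoint (ZMod p)) : twS N p x ∈ Gamma0 N := by
  induction x using OnePoint.rec with
  | infty => exact sig_mem N p
  | coe j => exact one_mem _

lemma isCoprime_of_not_dvd (hpN : ¬ p ∣ N) : IsCoprime (p : ℤ) (N : ℤ) :=
  Nat.isCoprime_iff_coprime.mpr ((Nat.Prime.coprime_iff_not_dvd Fact.out).mpr hpN)

lemma twS_11 (hpN : ¬ p ∣ N) (x : OnePoint (ZMod p)) : twS N p x 1 1 = lowR p x := by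
  induction x using OnePoint.rec with
  | infty => rw [twS_infty, sig_11 (isCoprime_of_not_dvd hpN), lowR_infty]
  | coe j => simp

/-- The matrix identity behind `T_p`, with control of the lower right entry. -/
theorem heckeRep_mul_low (hpN : ¬ p ∣ N) {g : SL(2, ℤ)}
    (hg : g ∈ Gamma0 N) (x : OnePoint (ZMod p)) :
    ∃ g' : SL(2, ℤ), heckeRep p x * mapGL ℝ g = mapGL ℝ g' * heckeRep p (redMatrix p g • x) ∧
      g' ∈ Gamma0 N ∧
      ((lowR p x : ℤ) : ZMod N) * ((g' 1 1 : ℤ) : ZMod N) =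
        ((g 1 1 : ℤ) : ZMod N) * ((lowR p (redMatrix p g • x) : ℤ) : ZMod N) := by
  have hp : p ≠ 0 := (Fact.out : p.Prime).ne_zero
  have : NeZero p := ⟨hp⟩
  have hcop : IsCoprime (p : ℤ) (N : ℤ) := isCoprime_of_not_dvd hpN
  have hgN : (N : ℤ) ∣ g 1 0 := (ZMod.intCast_zmod_eq_zero_iff_dvd _ _).mp (Gamma0_mem.mp hg)
  have hmem : ∀ g' : SL(2, ℤ), (N : ℤ) ∣ g' 1 0 → g' ∈ Gamma0 N := fun g' h =>
    Gamma0_mem.mpr ((ZMod.intCast_zmod_eq_zero_iff_dvd _ _).mpr h)
  have hg0 : ((g 1 0 : ℤ) : ZMod N) = 0 := Gamma0_mem.mp hg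
  induction x using OnePoint.rec with
  | infty =>
    rw [OnePoint.smul_infty_eq_ite]
    by_cases hc : ((g 1 0 : ℤ) : ZMod p) = 0
    · rw [if_pos (by simpa using hc), heckeRep_infty]
      obtain ⟨e, he⟩ := (ZMod.intCast_zmod_eq_zero_iff_dvd _ _).mp hc
      obtain ⟨g', hg', hg'1, hmul⟩ := hm4 hp g e he
      refine ⟨g', hmul, ?_, ?_⟩
      · apply hmem
        rw [hg']
        exact hcop.symm.dvd_of_dvd_mul_left (he ▸ hgN)
      · rw [lowR_infty, hg'1, mul_comm]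
    · rw [if_neg (by simpa using hc), heckeRep_infty, heckeRep_coe]
      set y : ZMod p := redMatrix p g 0 0 / redMatrix p g 1 0
        with hy
      obtain ⟨e, he⟩ : (p : ℤ) ∣ g 1 1 - g 1 0 * y.val := by
        rw [← ZMod.intCast_zmod_eq_zero_iff_dvd]
        push_cast
        rw [ZMod.natCast_zmod_val, hy, redMatrix_apply_zero_zero, redMatrix_apply_one_zero,
          mul_div_cancel₀ _ hc, sub_self]
      obtain ⟨g', hg', hg'1, hmul⟩ := hm3 hp g y.val e (by linear_combination he)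
      refine ⟨g', hmul, hmem _ (hg' ▸ hgN), ?_⟩
      rw [lowR_infty, lowR_coe, hg'1]
      have := congrArg (Int.cast : ℤ → ZMod N) he
      push_cast at this
      rw [hg0, zero_mul, sub_zero] at this
      push_cast
      rw [mul_one]
      exact this.symm
  | coe j =>
    rw [OnePoint.smul_some_eq_ite]
    by_cases h : redMatrix p g 1 0 * j + redMatrix p g 1 1 = 0
    · rw [if_pos h, heckeRep_infty, heckeRep_coe]
      rw [redMatrix_apply_one_zero, redMatrix_apply_one_one] at h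
      obtain ⟨e, he⟩ : (p : ℤ) ∣ g 0 0 + j.val * g 1 0 := by
        rw [← ZMod.intCast_zmod_eq_zero_iff_dvd]
        push_cast
        rw [ZMod.natCast_zmod_val]
        linear_combination h
      obtain ⟨g', hg', hg'1, hmul⟩ := hm2 hp g j.val e he
      refine ⟨g', hmul, hmem _ (hg' ▸ hgN), ?_⟩
      rw [lowR_infty, lowR_coe, hg'1]
      push_cast
      ring
    · rw [if_neg h, heckeRep_coe, heckeRep_coe]
      set y : ZMod p := (redMatrix p g 0 0 * j + redMatrix p g 0 1) /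
        (redMatrix p g 1 0 * j + redMatrix p g 1 1) with hy
      obtain ⟨e, he⟩ : (p : ℤ) ∣ g 0 1 + j.val * g 1 1 - y.val * (g 0 0 + j.val * g 1 0) := by
        rw [← ZMod.intCast_zmod_eq_zero_iff_dvd]
        push_cast
        rw [ZMod.natCast_zmod_val, ZMod.natCast_zmod_val,
          show ((g 0 0 : ℤ) : ZMod p) + j * ((g 1 0 : ℤ) : ZMod p)
            = redMatrix p g 1 0 * j + redMatrix p g 1 1 by
              rw [redMatrix_apply_one_zero, redMatrix_apply_one_one]; ring,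
          hy, div_mul_cancel₀ _ h, redMatrix_apply_zero_zero, redMatrix_apply_zero_one]
        ring
      obtain ⟨g', hg', hg'1, hmul⟩ := hm1 hp g j.val y.val e (by linear_combination he)
      refine ⟨g', hmul, hmem _ (hg' ▸ dvd_mul_of_dvd_right hgN _), ?_⟩
      rw [lowR_coe, lowR_coe, hg'1]
      push_cast
      rw [hg0, zero_mul, sub_zero]
      ring

/-- The representatives of `T_p` for `Γ₁(N)`. -/
def repT (N p : ℕ) (x : OnePoint (ZMod p)) : GL (Fin 2) ℝ :=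
  mapGL ℝ (twS N p x) * heckeRep p x

omit [Fact p.Prime] in
lemma repT_infty : repT N p OnePoint.infty = mapGL ℝ (sig N p) * heckeDiagMatrix p := rfl

omit [Fact p.Prime] in
lemma repT_coe (j : ZMod p) : repT N p (j : OnePoint (ZMod p)) = heckeMatrix p j.val := by
  show mapGL ℝ (1 : SL(2, ℤ)) * heckeMatrix p j.val = _
  rw [map_one, one_mul]

theorem exists_coc (hpN : ¬ p ∣ N) (γ : Gamma1 N) (x : OnePoint (ZMod p)) :
    ∃ δ : Gamma1 N, repT N p x * mapGL ℝ (γ : SL(2, ℤ)) =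
      mapGL ℝ (δ : SL(2, ℤ)) * repT N p (redMatrix p (γ : SL(2, ℤ)) • x) := by
  have hγ0 : (γ : SL(2, ℤ)) ∈ Gamma0 N := Gamma1_in_Gamma0 N γ.2
  obtain ⟨g', h1, h2, h3⟩ := heckeRep_mul_low hpN hγ0 x
  set y := redMatrix p (γ : SL(2, ℤ)) • x with hy
  refine ⟨⟨twS N p x * g' * (twS N p y)⁻¹, ?_⟩, ?_⟩
  · apply mem_Gamma1_of_Gamma0
    · exact mul_mem (mul_mem (twS_mem x) h2) (inv_mem (twS_mem y))
    · have h4 : ((γ : SL(2, ℤ)) 1 1 : ZMod N) = 1 := ((Gamma1_mem N _).1 γ.2).2.1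
      rw [Gamma0_mul_11 (mul_mem (twS_mem x) h2), Gamma0_mul_11 (twS_mem x), twS_11 hpN, h3,
        h4, one_mul, ← twS_11 hpN y, Gamma0_inv_11 (twS_mem y)]
  · show mapGL ℝ (twS N p x) * heckeRep p x * mapGL ℝ (γ : SL(2, ℤ)) =
      mapGL ℝ (twS N p x * g' * (twS N p y)⁻¹) * (mapGL ℝ (twS N p y) * heckeRep p y)
    rw [mul_assoc, h1, map_mul, map_mul, map_inv]
    group

lemma redMat_mul' (g h : SL(2, ℤ)) : redMatrix p (g * h) = redMatrix p h * redMatrix p g :=
  Fermat.Agent.H4.redMat_mul g h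

/-- The system of `T_p` for `Γ₁(N)`, `p ∤ N` prime. -/
def sysT (N p : ℕ) (hp : p.Prime) (hpN : ¬ p ∣ N) : HeckeSys (Gamma1 N) :=
  haveI : Fact p.Prime := ⟨hp⟩
  { ι := OnePoint (ZMod p)
    fin := inferInstance
    α := repT N p
    det_pos := fun x => by
      have h1 : 0 < (heckeRep p x).det.val := by
        induction x using OnePoint.rec with
        | infty => exact det_heckeDiagMatrix_pos p
        | coe j => exact det_heckeMatrix_pos p j.val
      rw [repT, map_mul, Units.val_mul]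
      simpa using h1
    act := fun (γ : Gamma1 N) => MulAction.toPerm (redMatrix p (γ : SL(2, ℤ)))
    coc := fun (γ : Gamma1 N) x => (exists_coc hpN γ x).choose
    spec := fun (γ : Gamma1 N) x => (exists_coc hpN γ x).choose_spec
    act_mul := fun γ γ' x => by
      show redMatrix p ((γ * γ' : Gamma1 N) : SL(2, ℤ)) • x =
        redMatrix p (γ' : SL(2, ℤ)) • (redMatrix p (γ : SL(2, ℤ)) • x)
      rw [← mul_smul, ← redMat_mul']
      rfl }

omit [Fact p.Prime] in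
lemma conj_mem_Gamma1 {σ γ : SL(2, ℤ)} (hσ : σ ∈ Gamma0 N) (hγ : γ ∈ Gamma1 N) :
    σ * γ * σ⁻¹ ∈ Gamma1 N := by
  have hγ0 := Gamma1_in_Gamma0 N hγ
  apply mem_Gamma1_of_Gamma0
  · exact mul_mem (mul_mem hσ hγ0) (inv_mem hσ)
  · rw [Gamma0_mul_11 (mul_mem hσ hγ0), Gamma0_mul_11 hσ, ((Gamma1_mem N γ).1 hγ).2.1, mul_one,
      Gamma0_inv_11 hσ]

/-- The system of `⟨d⟩` for `Γ₁(N)`. -/
def sysDia (N : ℕ) (d : ℤ) : HeckeSys (Gamma1 N) where
  ι := Unit
  fin := inferInstance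
  α := fun _ => mapGL ℝ (sig N d)
  det_pos := fun _ => by simp
  act := fun _ => 1
  coc := fun γ _ => ⟨sig N d * γ * (sig N d)⁻¹, conj_mem_Gamma1 (sig_mem N d) γ.2⟩
  spec := fun γ _ => by
    show mapGL ℝ (sig N d) * mapGL ℝ (γ : SL(2, ℤ)) =
      mapGL ℝ (sig N d * (γ : SL(2, ℤ)) * (sig N d)⁻¹) * mapGL ℝ (sig N d)
    rw [← map_mul, ← map_mul]
    congr 1
    group
  act_mul := fun _ _ _ => rfl

omit [Fact p.Prime] in
lemma sysDia_hom_apply (N : ℕ) (d : ℤ) {A : Type*} [AddCommGroup A]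
    (φ : Additive (Gamma1 N) →+ A) (γ : Gamma1 N) :
    (sysDia N d).hom φ (Additive.ofMul γ) =
      φ (Additive.ofMul ⟨sig N d * γ * (sig N d)⁻¹, conj_mem_Gamma1 (sig_mem N d) γ.2⟩) := by
  rw [HeckeSys.hom_apply]
  show ∑ _i : Unit, _ = _
  rw [Fintype.sum_unique]
  rfl

end Gamma1

end

end Fermat.Agent.H48
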