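import Fermat.Agent.H4Periods

set_option autoImplicit false

/-!
# The period lattice as a module over the Hecke algebra, mod `p` eigenclasses (helper4)

* `exists_functional`: finite modules, prime ideals containing the annihilator.
* `Lat N`: the period lattice in `Dual ℂ S₂(Γ₀(N))`, image of `Γ₀(N)`.
* `exists_eigenclass`: for every ring hom `θ : heckeAlgebra N 2 S → k` to a field there is a nonzero
  `ψ : Additive (Gamma0 N) →+ k` killing parabolic and elliptic elements with
  `heckeHom ψ = θ (T_ℓ) • ψ`.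
-/

open CongruenceSubgroup UpperHalfPlane ModularForm ModularCurve TensorProduct
open scoped MatrixGroups

namespace Fermat.Agent.H4

open Fermat.Agent.H21

noncomputable section

/-- If `M` is a finite `R`-module whose annihilator is contained in the kernel of a ring hom
`θ : R → k` to a field, then there is a nonzero additive map `g : M → k` with
`g (r • m) = θ r * g m`. -/
theorem exists_functional {R M k : Type*} [CommRing R] [AddCommGroup M] [Module R M]
    [Module.Finite R M] [Field k] (θ : R →+* k)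
    (hann : ∀ r : R, (∀ m : M, r • m = 0) → θ r = 0) :
    ∃ g : M →+ k, g ≠ 0 ∧ ∀ (r : R) (m : M), g (r • m) = θ r * g m := by
  classical
  let p : PrimeSpectrum R := ⟨RingHom.ker θ, RingHom.ker_isPrime θ⟩
  have : p.asIdeal.IsPrime := p.2
  have hp : p ∈ Module.support R M := by
    rw [Module.support_eq_zeroLocus]
    intro r hr
    exact hann r (fun m => Module.mem_annihilator.1 hr m)
  have hnt : Nontrivial (p.asIdeal.ResidueField ⊗[R] M) :=
    (Module.mem_support_iff_nontrivial_residueField_tensorProduct p).1 hp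
  obtain ⟨x, hx⟩ := exists_ne (0 : p.asIdeal.ResidueField ⊗[R] M)
  -- a nonzero functional
  obtain ⟨f, hf⟩ := Module.Projective.exists_dual_ne_zero p.asIdeal.ResidueField hx
  let θ' : p.asIdeal.ResidueField →+* k := Ideal.ResidueField.lift p.asIdeal θ (fun a h => h) (by
    intro x hx
    exact isUnit_iff_ne_zero.2 hx)
  refine ⟨θ'.toAddMonoidHom.comp (f.toAddMonoidHom.comp
    ((TensorProduct.mk R p.asIdeal.ResidueField M 1).toAddMonoidHom)), ?_, ?_⟩
  · intro h0
    apply hf
    have h1 : ∀ m : M, f (1 ⊗ₜ m) = 0 := by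
      intro m
      have := DFunLike.congr_fun h0 m
      simpa using this
    have h2 : ∀ y : p.asIdeal.ResidueField ⊗[R] M, f y = 0 := by
      intro y
      induction y with
      | zero => simp
      | tmul a m =>
        have : a ⊗ₜ[R] m = a • ((1 : p.asIdeal.ResidueField) ⊗ₜ[R] m) := by
          rw [TensorProduct.smul_tmul', smul_eq_mul, mul_one]
        rw [this, map_smul, h1, smul_zero]
      | add y z hy hz =>
        rw [map_add, hy, hz, add_zero]
    exact h2 x
  · intro r m
    have : (1 : p.asIdeal.ResidueField) ⊗ₜ[R] (r • m) =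
        (algebraMap R p.asIdeal.ResidueField r) • ((1 : p.asIdeal.ResidueField) ⊗ₜ[R] m) := by
      rw [← TensorProduct.smul_tmul, TensorProduct.smul_tmul', smul_eq_mul, mul_one,
        Algebra.smul_def, mul_one]
    simp only [AddMonoidHom.coe_comp, Function.comp_apply, LinearMap.toAddMonoidHom_coe,
      TensorProduct.mk_apply, RingHom.toAddMonoidHom_eq_coe, AddMonoidHom.coe_coe]
    rw [this, map_smul, smul_eq_mul, map_mul]
    congr 1
    exact Ideal.ResidueField.lift_algebraMap _ _ _ _ r

/-- `Γ₀(N)` is finitely generated. -/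
instance group_fg_gamma0 (N : ℕ) [NeZero N] : Group.FG (Gamma0 N) := by
  have h1 : Group.FG SL(2, ℤ) := by
    rw [Group.fg_iff]
    exact ⟨_, SpecialLinearGroup.SL2Z_generators, Set.toFinite _⟩
  exact Subgroup.fg_of_index_ne_zero _

variable (N : ℕ) [NeZero N] (S : Set ℕ)

/-- The dual of the space of cusp forms. -/
abbrev DualS : Type := Module.Dual ℂ (CuspForm (Gamma0 N) 2)

/-- `γ ↦ (f ↦ period of f along γ)` -/
def perHom : Additive (Gamma0 N) →+ DualS N where
  toFun γ :=
    { toFun := fun f => periodMap N f γ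
      map_add' := fun f g => by rw [periodMap_add']; rfl
      map_smul' := fun c f => by rw [periodMap_smul']; rfl }
  map_zero' := by
    refine LinearMap.ext fun f => ?_
    exact map_zero (periodMap N f)
  map_add' γ γ' := by
    refine LinearMap.ext fun f => ?_
    exact map_add (periodMap N f) γ γ'

lemma perHom_apply (γ : Additive (Gamma0 N)) (f : CuspForm (Gamma0 N) 2) :
    perHom N γ f = periodMap N f γ := rfl

/-- The period lattice. -/
def Lat : Submodule ℤ (DualS N) := AddSubgroup.toIntSubmodule (perHom N).range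

lemma mem_Lat {v : DualS N} : v ∈ Lat N ↔ ∃ γ, perHom N γ = v := Iff.rfl

instance finite_lat : Module.Finite ℤ (Lat N) := by
  have h0 : AddGroup.FG (Additive (Gamma0 N)) := GroupFG.iff_add_fg.1 inferInstance
  have h1 : AddGroup.FG (perHom N).range := AddGroup.fg_range _
  exact Module.Finite.iff_addGroup_fg.2 h1

/-- The (transposed) action of the Hecke algebra. -/
def dualAct : CuspForm.heckeAlgebra N 2 S →+* Module.End ℂ (DualS N) where
  toFun T := (T.1 : Module.End ℂ (CuspForm (Gamma0 N) 2)).dualMap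
  map_one' := by
    refine LinearMap.ext fun v => LinearMap.ext fun f => rfl
  map_mul' T T' := by
    rw [mul_comm]
    refine LinearMap.ext fun v => LinearMap.ext fun f => rfl
  map_zero' := by
    refine LinearMap.ext fun v => LinearMap.ext fun f => ?_
    simp
  map_add' T T' := by
    refine LinearMap.ext fun v => LinearMap.ext fun f => ?_
    simp

lemma dualAct_apply (T : CuspForm.heckeAlgebra N 2 S) (v : DualS N) (f : CuspForm (Gamma0 N) 2) :
    dualAct N S T v f = v (T.1 f) := rfl

variable {N S}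

lemma dualAct_injective : Function.Injective (dualAct N S) := by
  intro T T' h
  apply Subtype.ext
  refine LinearMap.ext fun f => ?_
  rw [← sub_eq_zero]
  by_contra hne
  obtain ⟨v, hv⟩ := Module.Projective.exists_dual_ne_zero ℂ hne
  apply hv
  rw [map_sub, sub_eq_zero]
  exact LinearMap.congr_fun (LinearMap.congr_fun h v) f

/-- `T_ℓ` on the periods -/
lemma dualAct_T_perHom {ℓ : ℕ} [hℓ : Fact ℓ.Prime] (hℓN : ¬ ℓ ∣ N) (hℓS : ℓ ∉ S)
    (γ : Additive (Gamma0 N)) :
    dualAct N S (CuspForm.heckeAlgebra.T hℓ.out hℓN hℓS) (perHom N γ) =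
      heckeHom hℓN (perHom N) γ := by
  refine LinearMap.ext fun f => ?_
  rw [dualAct_apply, CuspForm.heckeAlgebra.coe_T, perHom_apply, periodMap_heckeTLin, heckeHom_apply,
    heckeHom_apply, LinearMap.sum_apply]
  rfl

/-- the transfer of an element -/
def transf {ℓ : ℕ} [hℓ : Fact ℓ.Prime] (hℓN : ¬ ℓ ∣ N) (γ : Additive (Gamma0 N)) :
    Additive (Gamma0 N) :=
  ((Finset.univ : Finset (OnePoint (ZMod ℓ))).toList.map
    (fun x => Additive.ofMul (coc hℓN γ.toMul x))).sum

lemma heckeHom_eq_transf {A : Type*} [AddCommGroup A] {ℓ : ℕ} [hℓ : Fact ℓ.Prime] (hℓN : ¬ ℓ ∣ N)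
    (φ : Additive (Gamma0 N) →+ A) (γ : Additive (Gamma0 N)) :
    heckeHom hℓN φ γ = φ (transf hℓN γ) := by
  rw [transf, map_list_sum, List.map_map, heckeHom_apply]
  exact (Finset.sum_map_toList _ _).symm

lemma dualAct_mem_Lat (hNS : ∀ q : ℕ, q.Prime → q ∣ N → q ∈ S) (T : CuspForm.heckeAlgebra N 2 S) :
    ∀ v ∈ Lat N, dualAct N S T v ∈ Lat N := by
  obtain ⟨T, hT⟩ := T
  induction hT using Algebra.adjoin_induction with
  | mem T hT =>
    rcases hT with ⟨ℓ, hℓ, hℓN, hℓS, rfl⟩ | ⟨q, hqN, hq, hqS, rfl⟩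
    · haveI : Fact ℓ.Prime := ⟨hℓ⟩
      rintro _ ⟨γ, rfl⟩
      refine ⟨transf hℓN γ, ?_⟩
      rw [← heckeHom_eq_transf]
      exact (dualAct_T_perHom hℓN hℓS γ).symm
    · exact absurd (hNS q hq hqN) hqS
  | algebraMap n =>
    intro v hv
    have : dualAct N S ⟨algebraMap ℤ _ n, Subalgebra.algebraMap_mem _ n⟩ v = n • v := by
      refine LinearMap.ext fun f => ?_
      rw [dualAct_apply]
      show v ((algebraMap ℤ (Module.End ℂ (CuspForm (Gamma0 N) 2)) n) f) = _
      rw [Algebra.algebraMap_eq_smul_one]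
      simp
    rw [this]
    exact Submodule.smul_mem _ n hv
  | add T T' hT hT' h1 h2 =>
    intro v hv
    have h3 := Submodule.add_mem _ (h1 v hv) (h2 v hv)
    rw [← LinearMap.add_apply, ← map_add] at h3
    exact h3
  | mul T T' hT hT' h1 h2 =>
    intro v hv
    have := h1 _ (h2 v hv)
    rw [← Module.End.mul_apply, ← map_mul] at this
    exact this

/-- The action of the Hecke algebra on the period lattice. -/
def latAct (hNS : ∀ q : ℕ, q.Prime → q ∣ N → q ∈ S) :
    CuspForm.heckeAlgebra N 2 S →+* Module.End ℤ (Lat N) where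
  toFun T := ((dualAct N S T).restrictScalars ℤ).restrict (dualAct_mem_Lat hNS T)
  map_one' := by
    refine LinearMap.ext fun v => Subtype.ext ?_
    simp
  map_mul' T T' := by
    refine LinearMap.ext fun v => Subtype.ext ?_
    simp
  map_zero' := by
    refine LinearMap.ext fun v => Subtype.ext ?_
    simp
  map_add' T T' := by
    refine LinearMap.ext fun v => Subtype.ext ?_
    simp

lemma coe_latAct_apply (hNS : ∀ q : ℕ, q.Prime → q ∣ N → q ∈ S) (T : CuspForm.heckeAlgebra N 2 S)
    (v : Lat N) : (latAct hNS T v : DualS N) = dualAct N S T v := rfl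

/-- Periods separate cusp forms. -/
lemma eq_zero_of_forall_perHom (f : CuspForm (Gamma0 N) 2) (h : ∀ γ, perHom N γ f = 0) : f = 0 := by
  rw [← periodMap_eq_zero_iff]
  exact AddMonoidHom.ext h

lemma latAct_injective (hNS : ∀ q : ℕ, q.Prime → q ∣ N → q ∈ S) :
    Function.Injective (latAct hNS) := by
  rw [injective_iff_map_eq_zero]
  intro T hT
  apply Subtype.ext
  refine LinearMap.ext fun f => ?_
  apply eq_zero_of_forall_perHom
  intro γ
  have h1 := congrArg (fun g : Module.End ℤ (Lat N) => (g ⟨perHom N γ, γ, rfl⟩ : DualS N)) hT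
  exact LinearMap.congr_fun h1 f

/-- The map from the group to the lattice. -/
def toLat (N : ℕ) [NeZero N] : Additive (Gamma0 N) →+ Lat N where
  toFun γ := ⟨perHom N γ, γ, rfl⟩
  map_zero' := Subtype.ext (map_zero _)
  map_add' _ _ := Subtype.ext (map_add _ _ _)

lemma toLat_surjective : Function.Surjective (toLat N) := by
  rintro ⟨_, γ, rfl⟩
  exact ⟨γ, rfl⟩

lemma isPE_perHom : IsPE (perHom N) := by
  intro γ hγ
  refine LinearMap.ext fun f => ?_
  exact isPE_periodMap f γ hγ

lemma isPE_toLat : IsPE (toLat N) := fun γ hγ => Subtype.ext (isPE_perHom γ hγ)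

lemma latAct_T_toLat (hNS : ∀ q : ℕ, q.Prime → q ∣ N → q ∈ S) {ℓ : ℕ} [hℓ : Fact ℓ.Prime]
    (hℓN : ¬ ℓ ∣ N) (hℓS : ℓ ∉ S) (γ : Additive (Gamma0 N)) :
    latAct hNS (CuspForm.heckeAlgebra.T hℓ.out hℓN hℓS) (toLat N γ) =
      heckeHom hℓN (toLat N) γ := by
  apply Subtype.ext
  rw [coe_latAct_apply]
  have h1 := dualAct_T_perHom (S := S) hℓN hℓS γ
  refine h1.trans ?_
  rw [heckeHom_apply, heckeHom_apply]
  push_cast
  rfl

/-- **Mod `p` (or characteristic zero) eigenclasses.** -/
theorem exists_eigenclass (hNS : ∀ q : ℕ, q.Prime → q ∣ N → q ∈ S) {k : Type*} [Field k]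
    (θ : CuspForm.heckeAlgebra N 2 S →+* k) :
    ∃ ψ : Additive (Gamma0 N) →+ k, ψ ≠ 0 ∧ IsPE ψ ∧
      ∀ (ℓ : ℕ) [hℓ : Fact ℓ.Prime] (hℓN : ¬ ℓ ∣ N) (hℓS : ℓ ∉ S),
        heckeHom hℓN ψ = θ (CuspForm.heckeAlgebra.T hℓ.out hℓN hℓS) • ψ := by
  letI : Module (CuspForm.heckeAlgebra N 2 S) (Lat N) := Module.compHom _ (latAct hNS)
  have hsmul : ∀ (T : CuspForm.heckeAlgebra N 2 S) (v : Lat N), T • v = latAct hNS T v :=
    fun _ _ => rfl
  haveI : IsScalarTower ℤ (CuspForm.heckeAlgebra N 2 S) (Lat N) := by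
    constructor
    intro n T v
    rw [hsmul, hsmul, map_zsmul]
    rfl
  haveI : Module.Finite (CuspForm.heckeAlgebra N 2 S) (Lat N) :=
    Module.Finite.of_restrictScalars_finite ℤ _ _
  obtain ⟨g, hg0, hg⟩ := exists_functional (M := Lat N) θ (fun T hT => by
    have : T = 0 := latAct_injective hNS (by
      rw [map_zero]
      exact LinearMap.ext hT)
    rw [this, map_zero])
  refine ⟨g.comp (toLat N), ?_, ?_, ?_⟩
  · intro h0
    apply hg0
    refine AddMonoidHom.ext fun v => ?_
    obtain ⟨γ, rfl⟩ := toLat_surjective v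
    exact DFunLike.congr_fun h0 γ
  · intro γ hγ
    rw [AddMonoidHom.comp_apply, isPE_toLat γ hγ, map_zero]
  · intro ℓ hℓ hℓN hℓS
    rw [heckeHom_comp]
    refine AddMonoidHom.ext fun γ => ?_
    rw [AddMonoidHom.comp_apply, ← latAct_T_toLat hNS hℓN hℓS, ← hsmul, hg]
    rfl

end

end Fermat.Agent.H4
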