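import Mathlib
import Fermat.Agent.H58Dia
import Fermat.Agent.H22Gen
import Fermat.Prelude.Def_FLTPrelim_Modularity
import Fermat.Prelude.Def_ModularForm_HeckeOperatorForms
import Fermat.Prelude.Sol.S_UpperHalfPlane_qCoeff_heckeT
import Fermat.Prelude.Sol.S_CuspFormClass_isZeroAt_heckeT

/-! Diamond and Hecke operators on cusp forms of level `Γ₁(N)`. -/

set_option autoImplicit false

noncomputable section

namespace Fermat.Agent.H58

open UpperHalfPlane ModularForm CongruenceSubgroup ModularFormClass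
open scoped MatrixGroups ModularForm OnePoint Manifold
open Matrix.SpecialLinearGroup (mapGL)

variable {N : ℕ} {k : ℤ}

theorem one_mem_strictPeriods_Gamma1 (N : ℕ) :
    (1 : ℝ) ∈ (Gamma1 N : Subgroup (GL (Fin 2) ℝ)).strictPeriods := by
  rw [strictPeriods_Gamma1]
  exact AddSubgroup.mem_zmultiples _

theorem inv1_of_class {F : Type*} [FunLike F ℍ ℂ]
    [SlashInvariantFormClass F (Gamma1 N : Subgroup (GL (Fin 2) ℝ)) k] (f : F) :
    Inv1 N k f := fun γ hγ =>
  SlashInvariantFormClass.slash_action_eq f (mapGL ℝ γ) (Subgroup.mem_map_of_mem _ hγ)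

/-- Constructor for cusp forms on `Γ₁(N)`. -/
def mkCusp (g : ℍ → ℂ) (h1 : Inv1 N k g) (h2 : MDiff g)
    (h3 : ∀ {c : OnePoint ℝ}, IsCusp c (Gamma1 N : Subgroup (GL (Fin 2) ℝ)) → c.IsZeroAt g k) :
    CuspForm (Gamma1 N) k where
  toFun := g
  slash_action_eq' := by
    rintro _ ⟨γ, hγ, rfl⟩
    exact h1 γ hγ
  holo' := h2
  zero_at_cusps' := h3

@[simp] theorem coe_mkCusp (g : ℍ → ℂ) (h1 : Inv1 N k g) (h2 : MDiff g) (h3) :
    ⇑(mkCusp g h1 h2 h3) = g := rfl

/-- Constructor for modular forms on `Γ₁(N)`. -/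
def mkMod (g : ℍ → ℂ) (h1 : Inv1 N k g) (h2 : MDiff g)
    (h3 : ∀ {c : OnePoint ℝ}, IsCusp c (Gamma1 N : Subgroup (GL (Fin 2) ℝ)) → c.IsBoundedAt g k) :
    ModularForm (Gamma1 N) k where
  toFun := g
  slash_action_eq' := by
    rintro _ ⟨γ, hγ, rfl⟩
    exact h1 γ hγ
  holo' := h2
  bdd_at_cusps' := h3

@[simp] theorem coe_mkMod (g : ℍ → ℂ) (h1 : Inv1 N k g) (h2 : MDiff g) (h3) :
    ⇑(mkMod g h1 h2 h3) = g := rfl

theorem mapGL_eq_map (γ : SL(2, ℤ)) :
    mapGL ℝ γ = Matrix.GeneralLinearGroup.map (Rat.castHom ℝ) (mapGL ℚ γ) := by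
  ext i j
  simp [Matrix.SpecialLinearGroup.mapGL_coe_matrix]

open P2MW.S_CuspFormClass_isZeroAt_heckeT.ModularForm.S06W2 in
theorem isZeroAt_slash_SL [NeZero N] {F : Type*} [FunLike F ℍ ℂ]
    [CuspFormClass F (Gamma1 N : Subgroup (GL (Fin 2) ℝ)) k] (f : F) (γ : SL(2, ℤ))
    {c : OnePoint ℝ} (hc : IsCusp c (Gamma1 N : Subgroup (GL (Fin 2) ℝ))) :
    c.IsZeroAt (⇑f ∣[k] γ) k := by
  show c.IsZeroAt (⇑f ∣[k] (mapGL ℝ γ)) k
  rw [mapGL_eq_map]
  exact isZeroAt_slash_ratCast f _ hc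

open P2MW.S_CuspFormClass_isZeroAt_heckeT.ModularForm.S06W2 in
theorem isBoundedAt_slash_SL [NeZero N] {F : Type*} [FunLike F ℍ ℂ]
    [ModularFormClass F (Gamma1 N : Subgroup (GL (Fin 2) ℝ)) k] (f : F) (γ : SL(2, ℤ))
    {c : OnePoint ℝ} (hc : IsCusp c (Gamma1 N : Subgroup (GL (Fin 2) ℝ))) :
    c.IsBoundedAt (⇑f ∣[k] γ) k := by
  show c.IsBoundedAt (⇑f ∣[k] (mapGL ℝ γ)) k
  rw [mapGL_eq_map]
  exact isBoundedAt_slash_ratCast f _ hc

theorem mdiff_slash_SL {f : ℍ → ℂ} (hf : MDiff f) (γ : SL(2, ℤ)) : MDiff (f ∣[k] γ) :=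
  MDifferentiable.slash hf k (mapGL ℝ γ)

/-- Diamond operator on cusp forms. -/
def dia (N : ℕ) [NeZero N] (k : ℤ) (d : ℤ) : Module.End ℂ (CuspForm (Gamma1 N) k) where
  toFun f := mkCusp (⇑f ∣[k] sig N d) ((inv1_of_class f).slash (sig_mem N d))
    (mdiff_slash_SL (CuspFormClass.holo f) _) (fun hc => isZeroAt_slash_SL f _ hc)
  map_add' f g := DFunLike.coe_injective <| by
    show (⇑(f + g) ∣[k] sig N d) = _
    rw [FunLike.coe_add, SlashAction.add_slash]; rfl
  map_smul' c f := DFunLike.coe_injective <| by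
    show (⇑(c • f) ∣[k] sig N d) = _
    rw [FunLike.coe_smul, ModularForm.SL_smul_slash]; rfl

theorem coe_dia [NeZero N] (d : ℤ) (f : CuspForm (Gamma1 N) k) :
    ⇑(dia N k d f) = ⇑f ∣[k] sig N d := rfl

theorem coe_dia_eq [NeZero N] {d : ℤ} (hd : IsCoprime d (N : ℤ)) (f : CuspForm (Gamma1 N) k)
    {γ : SL(2, ℤ)} (hγ : γ ∈ Gamma0 N) (h : ((γ 1 1 : ℤ) : ZMod N) = (d : ZMod N)) :
    ⇑(dia N k d f) = ⇑f ∣[k] γ := by
  rw [coe_dia, (inv1_of_class f).slash_sig hγ hd h]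

theorem dia_mul [NeZero N] {d e : ℤ} (hd : IsCoprime d (N : ℤ)) (he : IsCoprime e (N : ℤ)) :
    dia N k (d * e) = dia N k d * dia N k e := by
  ext f : 1
  apply DFunLike.coe_injective
  rw [Module.End.mul_apply]
  show (⇑f ∣[k] sig N (d * e)) = (⇑f ∣[k] sig N e) ∣[k] sig N d
  rw [← SlashAction.slash_mul]
  apply (inv1_of_class f).slash_congr (sig_mem N _) (mul_mem (sig_mem N _) (sig_mem N _))
  rw [Gamma0_mul_11 (sig_mem N _), sig_11 hd, sig_11 he, sig_11 (hd.mul_left he)]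
  push_cast; ring

theorem dia_comm [NeZero N] {d e : ℤ} (hd : IsCoprime d (N : ℤ)) (he : IsCoprime e (N : ℤ)) :
    Commute (dia N k d) (dia N k e) := by
  show dia N k d * dia N k e = dia N k e * dia N k d
  rw [← dia_mul hd he, ← dia_mul he hd, mul_comm]

theorem dia_congr [NeZero N] {d e : ℤ} (hd : IsCoprime d (N : ℤ)) (he : IsCoprime e (N : ℤ))
    (h : (d : ZMod N) = e) : dia N k d = dia N k e := by
  ext f : 1
  apply DFunLike.coe_injective
  show (⇑f ∣[k] sig N d) = (⇑f ∣[k] sig N e)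
  apply (inv1_of_class f).slash_congr (sig_mem N _) (sig_mem N _)
  rw [sig_11 hd, sig_11 he, h]

theorem dia_one [NeZero N] : dia N k 1 = 1 := by
  ext f : 1
  apply DFunLike.coe_injective
  show (⇑f ∣[k] sig N 1) = ⇑f
  apply (inv1_of_class f) _
  apply mem_Gamma1_of_Gamma0 (sig_mem N _)
  rw [sig_11 isCoprime_one_left]; simp

open P2MW.S_CuspFormClass_isZeroAt_heckeT.ModularForm.S06W2 in
/-- The Hecke operator `T_p` on `S_k(Γ₁(N))`, `p ∤ N` prime. -/
def T1L (N : ℕ) [NeZero N] (k : ℤ) (p : ℕ) (hp : p.Prime) (hpN : ¬ p ∣ N) :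
    Module.End ℂ (CuspForm (Gamma1 N) k) where
  toFun f := mkCusp (T1 N k p ⇑f)
    (by have : Fact p.Prime := ⟨hp⟩; exact (inv1_of_class f).T1 hpN)
    ((mdifferentiable_heckeU (CuspFormClass.holo f) k p).add
      (MDifferentiable.slash (mdiff_slash_SL (CuspFormClass.holo f) (sig N p)) k _))
    (fun {c} hc => by
      apply (isZeroAt_heckeU f p hc).add
      obtain ⟨g, hg⟩ := exists_heckeDiagMatrix_eq_map p
      rw [hg, ← coe_dia]
      exact isZeroAt_slash_ratCast (dia N k p f) g hc)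
  map_add' f g := DFunLike.coe_injective <| by
    show T1 N k p ⇑(f + g) = T1 N k p ⇑f + T1 N k p ⇑g
    simp only [T1, FunLike.coe_add, SlashAction.add_slash, heckeU_add]
    abel
  map_smul' c f := DFunLike.coe_injective <| by
    show T1 N k p ⇑(c • f) = c • T1 N k p ⇑f
    simp only [T1]
    rw [FunLike.coe_smul, heckeU_smul, ModularForm.SL_smul_slash, ModularForm.smul_slash,
      σ_heckeDiagMatrix, ContinuousAlgEquiv.refl_apply, smul_add]

theorem coe_T1L [NeZero N] {p : ℕ} (hp : p.Prime) (hpN : ¬ p ∣ N) (f : CuspForm (Gamma1 N) k) :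
    ⇑(T1L N k p hp hpN f) = heckeU k p ⇑f + (⇑(dia N k p f)) ∣[k] heckeDiagMatrix p := rfl

theorem qCoeff_T1L [NeZero N] {p : ℕ} (hp : p.Prime) (hpN : ¬ p ∣ N)
    (f : CuspForm (Gamma1 N) k) (n : ℕ) :
    qCoeff (T1L N k p hp hpN f) n = qCoeff f (p * n) +
      (p : ℂ) ^ (k - 1) * (if p ∣ n then qCoeff (dia N k p f) (n / p) else 0) := by
  have hΓ := one_mem_strictPeriods_Gamma1 N
  have : Fact (IsCusp OnePoint.infty (Gamma1 N : Subgroup (GL (Fin 2) ℝ))) :=
    ⟨Subgroup.isCusp_of_mem_strictPeriods one_pos hΓ⟩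
  have h1 := fun τ => P2MW.S_UpperHalfPlane_qCoeff_heckeT.M4cP1W2.hasSum_heckeU hp.ne_zero
    (SlashInvariantFormClass.periodic_comp_ofComplex f hΓ) (holo f) (bdd_at_infty f) k τ
  have h2 := fun τ => P2MW.S_UpperHalfPlane_qCoeff_heckeT.M4cP1W2.hasSum_diag hp.ne_zero
    (SlashInvariantFormClass.periodic_comp_ofComplex (dia N k p f) hΓ) (holo (dia N k p f))
      (bdd_at_infty (dia N k p f)) k τ
  have h3 : ∀ τ : ℍ, HasSum (fun n : ℕ => (qCoeff f (p * n) +
      (p : ℂ) ^ (k - 1) * (if p ∣ n then qCoeff (dia N k p f) (n / p) else 0)) •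
        Function.Periodic.qParam 1 τ ^ n) (T1L N k p hp hpN f τ) := by
    intro τ
    rw [coe_T1L, Pi.add_apply, slash_heckeDiagMatrix_apply k hp.ne_zero]
    convert (h1 τ).add (h2 τ) using 1
    funext n
    rw [coeffHeckeU_apply, mul_comm n p]
    split_ifs <;> simp only [smul_eq_mul] <;> ring
  exact (P2MW.S_UpperHalfPlane_qCoeff_heckeT.M4cP1W2.qExpansion_coeff_unique'
    (holo (T1L N k p hp hpN f)).continuous
    (ModularFormClass.analyticAt_cuspFunction_zero _ one_pos hΓ) h3 n).symm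

theorem ext_qCoeff {f g : CuspForm (Gamma1 N) k} (h : ∀ n, qCoeff f n = qCoeff g n) : f = g :=
  P2MW.S_UpperHalfPlane_qCoeff_heckeT.M4cP1W2.eq_of_forall_qCoeff_eq
    (one_mem_strictPeriods_Gamma1 N) h

theorem T1L_dia_comm [NeZero N] {p : ℕ} (hp : p.Prime) (hpN : ¬ p ∣ N) (d : ℤ) :
    Commute (T1L N k p hp hpN) (dia N k d) := by
  have : Fact p.Prime := ⟨hp⟩
  show T1L N k p hp hpN * dia N k d = dia N k d * T1L N k p hp hpN
  ext f : 1
  apply DFunLike.coe_injective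
  rw [Module.End.mul_apply, Module.End.mul_apply]
  show T1 N k p (⇑f ∣[k] sig N d) = (T1 N k p ⇑f) ∣[k] sig N d
  rw [T1_slash hpN (inv1_of_class f) (sig_mem N d)]

theorem T1L_T1L_comm [NeZero N] {p : ℕ} (hp : p.Prime) (hpN : ¬ p ∣ N) {q : ℕ} (hq : q.Prime)
    (hqN : ¬ q ∣ N) : Commute (T1L N k p hp hpN) (T1L N k q hq hqN) := by
  by_cases hpq : p = q
  · subst hpq; exact Commute.refl _
  show T1L N k p hp hpN * T1L N k q hq hqN = T1L N k q hq hqN * T1L N k p hp hpN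
  ext f : 1
  apply ext_qCoeff
  intro n
  have hcop : Nat.Coprime p q := (Nat.coprime_primes hp hq).2 hpq
  have hp' : IsCoprime (p : ℤ) (N : ℤ) :=
    Nat.isCoprime_iff_coprime.mpr ((Nat.Prime.coprime_iff_not_dvd hp).mpr hpN)
  have hq' : IsCoprime (q : ℤ) (N : ℤ) :=
    Nat.isCoprime_iff_coprime.mpr ((Nat.Prime.coprime_iff_not_dvd hq).mpr hqN)
  have e1 : dia N k p (T1L N k q hq hqN f) = T1L N k q hq hqN (dia N k p f) :=
    (LinearMap.congr_fun (T1L_dia_comm hq hqN (k := k) (p : ℤ)) f).symm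
  have e2 : dia N k q (T1L N k p hp hpN f) = T1L N k p hp hpN (dia N k q f) :=
    (LinearMap.congr_fun (T1L_dia_comm hp hpN (k := k) (q : ℤ)) f).symm
  have e3 : dia N k p (dia N k q f) = dia N k q (dia N k p f) :=
    LinearMap.congr_fun (dia_comm (k := k) hp' hq') f
  rw [Module.End.mul_apply, Module.End.mul_apply]
  simp only [qCoeff_T1L, e1, e2]
  rw [e3]
  have d1 : (q ∣ p * n) ↔ q ∣ n := by
    constructor
    · exact fun h => (Nat.Coprime.dvd_of_dvd_mul_left hcop.symm h)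
    · exact fun h => Dvd.dvd.mul_left h p
  have d2 : (p ∣ q * n) ↔ p ∣ n := by
    constructor
    · exact fun h => (Nat.Coprime.dvd_of_dvd_mul_left hcop h)
    · exact fun h => Dvd.dvd.mul_left h q
  have e4 : q * (p * n) = p * (q * n) := by ring
  simp only [d1, d2, e4]
  by_cases h1 : p ∣ n <;> by_cases h2 : q ∣ n
  · simp only [h1, h2, if_true]
    obtain ⟨a, rfl⟩ := h1
    have h3 : q ∣ a := by
      exact Nat.Coprime.dvd_of_dvd_mul_left hcop.symm h2
    obtain ⟨b, rfl⟩ := h3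
    have f1 : p * (p * (q * b)) / q = p * (p * b) := by
      rw [show p * (p * (q * b)) = q * (p * (p * b)) by ring, Nat.mul_div_cancel_left _ hq.pos]
    have f2 : p * (q * b) / p = q * b := Nat.mul_div_cancel_left _ hp.pos
    have f3 : q * (p * (q * b)) / p = q * (q * b) := by
      rw [show q * (p * (q * b)) = p * (q * (q * b)) by ring, Nat.mul_div_cancel_left _ hp.pos]
    have f4 : p * (q * b) / q = p * b := by
      rw [show p * (q * b) = q * (p * b) by ring, Nat.mul_div_cancel_left _ hq.pos]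
    have f5 : q * b / q = b := Nat.mul_div_cancel_left _ hq.pos
    have f6 : p * b / p = b := Nat.mul_div_cancel_left _ hp.pos
    rw [f1, f2, f3, f4]
    simp only [dvd_mul_right, if_true, f5, f6]
    ring
  · simp only [h1, h2, if_true, if_false]
    obtain ⟨a, rfl⟩ := h1
    have h3 : ¬ q ∣ a := fun h => h2 (Dvd.dvd.mul_left h p)
    have f2 : p * a / p = a := Nat.mul_div_cancel_left _ hp.pos
    have f3 : q * (p * a) / p = q * a := by
      rw [show q * (p * a) = p * (q * a) by ring, Nat.mul_div_cancel_left _ hp.pos]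
    rw [f2, f3]
    simp only [h3, if_false]
    ring
  · simp only [h1, h2, if_true, if_false]
    obtain ⟨a, rfl⟩ := h2
    have h3 : ¬ p ∣ a := fun h => h1 (Dvd.dvd.mul_left h q)
    have f2 : q * a / q = a := Nat.mul_div_cancel_left _ hq.pos
    have f3 : p * (q * a) / q = p * a := by
      rw [show p * (q * a) = q * (p * a) by ring, Nat.mul_div_cancel_left _ hq.pos]
    rw [f2, f3]
    simp only [h3, if_false]
    ring
  · simp only [h1, h2, if_false]
    ring

open H22.Gen in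
theorem isMatOp_dia [NeZero N] (d : ℤ) : IsMatOp (dia N k d) :=
  ⟨Unit, inferInstance, fun _ => mapGL ℝ (sig N d), fun _ => 1, fun _ => IsIntMat.mapGL _,
    fun f => by simp [coe_dia]; rfl⟩

open H22.Gen in
theorem isMatOp_T1L [NeZero N] {p : ℕ} (hp : p.Prime) (hpN : ¬ p ∣ N) :
    IsMatOp (T1L N k p hp hpN) := by
  refine ⟨Option (Fin p), inferInstance,
    fun x => x.elim (mapGL ℝ (sig N p) * heckeDiagMatrix p) (fun j => heckeMatrix p j),
    fun _ => 1, ?_, fun f => ?_⟩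
  · rintro (_ | j)
    · exact (IsIntMat.mapGL _).mul (isIntMat_heckeDiagMatrix hp.ne_zero)
    · exact isIntMat_heckeMatrix hp.ne_zero j
  · rw [coe_T1L, Fintype.sum_option]
    simp only [Option.elim, Int.cast_one, one_smul]
    rw [coe_dia, heckeU_def, Finset.sum_range, add_comm, SlashAction.slash_mul]
    rfl

end Fermat.Agent.H58
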