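import Mathlib
import Fermat.Agent.H48Defs
import Fermat.Agent.H22Gen
import Fermat.Agent.H58Hecke1
import Fermat.Agent.H4Lattice

/-!
# Periods of weight two cusp forms for finite index subgroups, mod `p` eigenclasses

For a finite index subgroup `Γ` of `SL(2, ℤ)` and a commutative ring `R` of endomorphisms of
`S₂(Γ)` generated by operators attached to `HeckeSys Γ`, every ring hom `θ : R → k` to a field
occurs in `PE Γ k` (`exists_eigenclass`).
-/

set_option autoImplicit false

open CongruenceSubgroup UpperHalfPlane ModularForm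
open scoped MatrixGroups Manifold

namespace Fermat.Agent.H48

open Fermat.Agent.H22 Fermat.Agent.H22.Gen

noncomputable section

variable {Γ : Subgroup SL(2, ℤ)} [Γ.FiniteIndex]

lemma good_of_cuspForm (f : CuspForm Γ 2) : Good (f : ℍ → ℂ) := by
  have h := cuspLike_of_cuspForm f
  refine ⟨h.hol, fun g => ?_⟩
  have h2 := (h.slash g).sd
  exact h2.dec

/-- The period homomorphism. -/
def per (f : CuspForm Γ 2) : Additive Γ →+ ℂ where
  toFun γ := Phi f (γ.toMul : SL(2, ℤ))
  map_zero' := Phi_one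
  map_add' γ δ := by
    show Phi f ((γ.toMul : SL(2, ℤ)) * (δ.toMul : SL(2, ℤ))) = _
    rw [Phi_mul (good_of_cuspForm f), slash_of_mem f γ.toMul.2]

lemma per_apply (f : CuspForm Γ 2) (γ : Γ) : per f (Additive.ofMul γ) = Phi f (γ : SL(2, ℤ)) := rfl

lemma prim_smul_eq' (f : CuspForm Γ 2) (γ : Γ) (τ : ℍ) :
    prim f ((γ : SL(2, ℤ)) • τ) = prim f τ + per f (Additive.ofMul γ) := by
  rw [(good_of_cuspForm f).prim_smul_eq, slash_of_mem f γ.2]
  rfl

lemma per_add (f g : CuspForm Γ 2) : per (f + g) = per f + per g := by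
  refine AddMonoidHom.ext fun γ => ?_
  show Phi (⇑(f + g)) _ = _
  rw [FunLike.coe_add, Phi_add (good_of_cuspForm f) (good_of_cuspForm g)]
  rfl

lemma per_smul (c : ℂ) (f : CuspForm Γ 2) : per (c • f) = c • per f := by
  refine AddMonoidHom.ext fun γ => ?_
  show Phi (⇑(c • f)) _ = _
  rw [FunLike.coe_smul, Phi_smul (good_of_cuspForm f)]
  rfl

/-- Periods separate cusp forms. -/
theorem eq_zero_of_per (f : CuspForm Γ 2) (H : per f = 0) : f = 0 := by
  have hinv : ∀ γ : Γ, ∀ τ : ℍ, prim f ((γ : SL(2, ℤ)) • τ) = prim f τ := fun γ τ => by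
    rw [prim_smul_eq', H]; simp
  have hprim : IsPrim (prim f) (f : ℍ → ℂ) := (good_of_cuspForm f).isPrim_prim
  let G : ModularForm Γ 0 :=
    { toFun := prim f
      slash_action_eq' := by
        rintro _ ⟨γ, hγ, rfl⟩
        funext τ
        have h1 : (prim (f : ℍ → ℂ) ∣[(0 : ℤ)] γ) τ = prim f (γ • τ) := by
          rw [ModularForm.SL_slash_apply]
          simp
        exact h1.trans (hinv ⟨γ, hγ⟩ τ)
      holo' := hprim.mdifferentiable
      bdd_at_cusps' := by
        intro c hc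
        rw [Subgroup.IsArithmetic.isCusp_iff_isCusp_SL2Z] at hc
        rw [OnePoint.isBoundedAt_iff_forall_SL2Z hc]
        intro γ _
        have h2 : (prim (f : ℍ → ℂ) ∣[(0 : ℤ)] γ) =
            prim ((f : ℍ → ℂ) ∣[(2 : ℤ)] γ) + Function.const ℍ (Phi f γ) := by
          funext τ
          rw [ModularForm.SL_slash_apply]
          simp only [neg_zero, zpow_zero, mul_one, Pi.add_apply, Function.const_apply]
          exact (good_of_cuspForm f).prim_smul_eq γ τ
        rw [h2]
        have h3 : IsZeroAtImInfty (prim ((f : ℍ → ℂ) ∣[(2 : ℤ)] γ)) :=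
          CuspLike.isZeroAtImInfty_Eic ((cuspLike_of_cuspForm f).slash γ) 0
        exact h3.isBoundedAtImInfty.add (Filter.const_boundedAtFilter _ _) }
  obtain ⟨c, hc⟩ := ModularForm.eq_const_of_weight_zero
      (𝒢 := (Γ : Subgroup (GL (Fin 2) ℝ))) G
  have hc' : prim (f : ℍ → ℂ) = Function.const ℍ c := hc
  apply DFunLike.coe_injective
  funext τ
  have h4 := hprim τ
  rw [hc'] at h4
  have h5 : HasDerivAt ((Function.const ℍ c) ∘ ofComplex) 0 (τ : ℂ) := hasDerivAt_const (τ : ℂ) c
  exact h4.unique h5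

/-- The periods of a cusp form kill the parabolic and elliptic elements. -/
theorem isPE_per (f : CuspForm Γ 2) : IsPE (per f) := by
  intro γ hγ
  rcases hγ.lt_or_eq with h | h
  · have h1 : γ ^ 12 = 1 := by
      apply Subtype.ext
      push_cast
      exact Fermat.Agent.H4.pow_twelve_eq_one _ h
    have h2 : (12 : ℕ) • per f (Additive.ofMul γ) = 0 := by
      rw [← map_nsmul, ← ofMul_pow, h1, ofMul_one, map_zero]
    simpa using h2
  · refine Fermat.Agent.H21.period_eq_zero_of_parabolic (F := prim f) (fun δ => ⟨Phi f δ, ?_⟩) h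
      (fun z => ?_)
    · have h2 : (fun w : ℍ => prim (f : ℍ → ℂ) (δ • w)) =
          fun w => prim ((f : ℍ → ℂ) ∣[(2 : ℤ)] δ) w + Phi f δ := by
        funext τ
        exact (good_of_cuspForm f).prim_smul_eq δ τ
      rw [h2]
      have h3 : IsZeroAtImInfty (prim ((f : ℍ → ℂ) ∣[(2 : ℤ)] δ)) :=
        CuspLike.isZeroAtImInfty_Eic ((cuspLike_of_cuspForm f).slash δ) 0
      have h4 : Filter.Tendsto (prim ((f : ℍ → ℂ) ∣[(2 : ℤ)] δ)) atImInfty (nhds 0) := h3
      simpa using h4.add_const (Phi f δ)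
    · rw [prim_smul_eq' f γ z]
      ring

/-- Hecke operators and periods. -/
theorem per_of_sum (H : HeckeSys Γ) (f g : CuspForm Γ 2)
    (hg : (g : ℍ → ℂ) = ∑ i : H.ι, (f : ℍ → ℂ) ∣[(2 : ℤ)] H.α i) :
    per g = H.hom (per f) := by
  have h1 : IsPrim (fun τ => ∑ i : H.ι, prim f (H.α i • τ)) (g : ℍ → ℂ) := by
    intro τ
    have e : ((fun τ => ∑ i : H.ι, prim f (H.α i • τ)) ∘ ofComplex) =
      fun w => ∑ i : H.ι, ((fun τ => prim (f : ℍ → ℂ) (H.α i • τ)) ∘ ofComplex) w := rfl
    rw [e, hg, Finset.sum_apply]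
    exact HasDerivAt.fun_sum fun i _ => (good_of_cuspForm f).isPrim_prim.comp_slash (H.det_pos i) τ
  have h2 : IsPrim (prim (g : ℍ → ℂ)) (g : ℍ → ℂ) := (good_of_cuspForm g).isPrim_prim
  have h3 := h2.sub h1
  rw [sub_self] at h3
  refine AddMonoidHom.ext fun γ => ?_
  obtain ⟨γ, rfl⟩ := Additive.ofMul.surjective γ
  have h4 := H.sum_smul (prim f) (per f) (fun γ τ => prim_smul_eq' f γ τ) γ UpperHalfPlane.I
  have h5 := prim_smul_eq' g γ UpperHalfPlane.I
  have h6 := h3.const_of_zero ((γ : SL(2, ℤ)) • UpperHalfPlane.I) UpperHalfPlane.I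
  simp only [Pi.sub_apply] at h6
  linear_combination h6 + h4 - h5

/-- An operator is attached to a Hecke system. -/
def IsSysOp (H : HeckeSys Γ) (T : Module.End ℂ (CuspForm Γ 2)) : Prop :=
  ∀ f : CuspForm Γ 2, (T f : ℍ → ℂ) = ∑ i : H.ι, (f : ℍ → ℂ) ∣[(2 : ℤ)] H.α i

omit [Γ.FiniteIndex] in
variable (Γ) in
/-- The dual of the space of cusp forms. -/
abbrev DualS : Type := Module.Dual ℂ (CuspForm Γ 2)

variable (Γ) in
/-- `γ ↦ (f ↦ period of f along γ)` -/
def perHom : Additive Γ →+ DualS Γ where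
  toFun γ :=
    { toFun := fun f => per f γ
      map_add' := fun f g => by rw [per_add]; rfl
      map_smul' := fun c f => by rw [per_smul]; rfl }
  map_zero' := by
    refine LinearMap.ext fun f => ?_
    exact map_zero (per f)
  map_add' γ γ' := by
    refine LinearMap.ext fun f => ?_
    exact map_add (per f) γ γ'

lemma perHom_apply (γ : Additive Γ) (f : CuspForm Γ 2) : perHom Γ γ f = per f γ := rfl

lemma isPE_perHom : IsPE (perHom Γ) := by
  intro γ hγ
  refine LinearMap.ext fun f => ?_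
  exact isPE_per f γ hγ

variable (Γ) in
/-- The period lattice. -/
def Lat : Submodule ℤ (DualS Γ) := AddSubgroup.toIntSubmodule (perHom Γ).range

lemma mem_Lat {v : DualS Γ} : v ∈ Lat Γ ↔ ∃ γ, perHom Γ γ = v := Iff.rfl

instance group_fg : Group.FG Γ := by
  have h1 : Group.FG SL(2, ℤ) := by
    rw [Group.fg_iff]
    exact ⟨_, SpecialLinearGroup.SL2Z_generators, Set.toFinite _⟩
  exact Subgroup.fg_of_index_ne_zero _

instance finite_lat : Module.Finite ℤ (Lat Γ) := by
  have h0 : AddGroup.FG (Additive Γ) := GroupFG.iff_add_fg.1 inferInstance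
  have h1 : AddGroup.FG (perHom Γ).range := AddGroup.fg_range _
  exact Module.Finite.iff_addGroup_fg.2 h1

variable (Γ) in
/-- The map from the group to the lattice. -/
def toLat : Additive Γ →+ Lat Γ where
  toFun γ := ⟨perHom Γ γ, γ, rfl⟩
  map_zero' := Subtype.ext (map_zero _)
  map_add' _ _ := Subtype.ext (map_add _ _ _)

lemma toLat_surjective : Function.Surjective (toLat Γ) := by
  rintro ⟨_, γ, rfl⟩
  exact ⟨γ, rfl⟩

lemma isPE_toLat : IsPE (toLat Γ) := fun γ hγ => Subtype.ext (isPE_perHom γ hγ)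

/-- the transfer of an element -/
def transf (H : HeckeSys Γ) (γ : Additive Γ) : Additive Γ :=
  ((Finset.univ : Finset H.ι).toList.map
    (fun x => Additive.ofMul (H.coc γ.toMul x))).sum

omit [Γ.FiniteIndex] in
lemma hom_eq_transf (H : HeckeSys Γ) {A : Type*} [AddCommGroup A]
    (φ : Additive Γ →+ A) (γ : Additive Γ) :
    H.hom φ γ = φ (transf H γ) := by
  rw [transf, map_list_sum, List.map_map, HeckeSys.hom_apply]
  exact (Finset.sum_map_toList _ _).symm

/-- Hecke operators on the periods -/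
lemma dualMap_perHom {H : HeckeSys Γ} {T : Module.End ℂ (CuspForm Γ 2)} (hT : IsSysOp H T)
    (γ : Additive Γ) : T.dualMap (perHom Γ γ) = H.hom (perHom Γ) γ := by
  refine LinearMap.ext fun f => ?_
  rw [LinearMap.dualMap_apply, perHom_apply, per_of_sum H f (T f) (hT f), HeckeSys.hom_apply,
    HeckeSys.hom_apply, LinearMap.sum_apply]
  rfl

lemma dualMap_mem_Lat {H : HeckeSys Γ} {T : Module.End ℂ (CuspForm Γ 2)} (hT : IsSysOp H T) :
    ∀ v ∈ Lat Γ, T.dualMap v ∈ Lat Γ := by
  rintro _ ⟨γ, rfl⟩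
  refine ⟨transf H γ, ?_⟩
  rw [← hom_eq_transf]
  exact (dualMap_perHom hT γ).symm

lemma adjoin_mem_Lat {X : Set (Module.End ℂ (CuspForm Γ 2))} (hX : ∀ T ∈ X, ∃ H, IsSysOp H T)
    {T : Module.End ℂ (CuspForm Γ 2)} (hT : T ∈ Algebra.adjoin ℤ X) :
    ∀ v ∈ Lat Γ, T.dualMap v ∈ Lat Γ := by
  induction hT using Algebra.adjoin_induction with
  | mem T hT =>
    obtain ⟨H, hH⟩ := hX T hT
    exact dualMap_mem_Lat hH
  | algebraMap n =>
    intro v hv
    have : (algebraMap ℤ (Module.End ℂ (CuspForm Γ 2)) n).dualMap v = n • v := by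
      refine LinearMap.ext fun f => ?_
      rw [LinearMap.dualMap_apply, Algebra.algebraMap_eq_smul_one]
      simp
    rw [this]
    exact Submodule.smul_mem _ n hv
  | add T T' hT hT' h1 h2 =>
    intro v hv
    have h3 := Submodule.add_mem _ (h1 v hv) (h2 v hv)
    have e : (T + T').dualMap v = T.dualMap v + T'.dualMap v := by
      refine LinearMap.ext fun f => ?_
      simp
    rw [e]
    exact h3
  | mul T T' hT hT' h1 h2 =>
    intro v hv
    exact h2 _ (h1 v hv)

/-- Periods separate cusp forms. -/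
lemma eq_zero_of_forall_perHom (f : CuspForm Γ 2) (h : ∀ γ, perHom Γ γ f = 0) : f = 0 :=
  eq_zero_of_per f (AddMonoidHom.ext h)

/-- **Eigenclasses.** Let `X` be a set of pairwise commuting operators on `S₂(Γ)` attached to Hecke
systems. Every ring hom from the algebra generated by `X` to a field `k` occurs in `PE Γ k`. -/
theorem exists_eigenclass (X : Set (Module.End ℂ (CuspForm Γ 2)))
    (hX : ∀ T ∈ X, ∃ H, IsSysOp H T) (hcomm : ∀ a ∈ X, ∀ b ∈ X, a * b = b * a)
    {k : Type*} [Field k] (θ : Algebra.adjoin ℤ X →+* k) :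
    ∃ ψ : Additive Γ →+ k, ψ ≠ 0 ∧ IsPE ψ ∧
      ∀ (T : Module.End ℂ (CuspForm Γ 2)) (hT : T ∈ X) (H : HeckeSys Γ), IsSysOp H T →
        H.hom ψ = θ ⟨T, Algebra.subset_adjoin hT⟩ • ψ := by
  letI : CommRing (Algebra.adjoin ℤ X) := Algebra.adjoinCommRingOfComm ℤ hcomm
  let act : Algebra.adjoin ℤ X →+* Module.End ℤ (Lat Γ) :=
    { toFun := fun T => ((T.1.dualMap).restrictScalars ℤ).restrict (adjoin_mem_Lat hX T.2)
      map_one' := by
        refine LinearMap.ext fun v => Subtype.ext (LinearMap.ext fun f => rfl)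
      map_mul' := fun T T' => by
        rw [mul_comm]
        refine LinearMap.ext fun v => Subtype.ext (LinearMap.ext fun f => rfl)
      map_zero' := by
        refine LinearMap.ext fun v => Subtype.ext (LinearMap.ext fun f => ?_)
        simp
      map_add' := fun T T' => by
        refine LinearMap.ext fun v => Subtype.ext (LinearMap.ext fun f => ?_)
        simp }
  have hact : ∀ (T : Algebra.adjoin ℤ X) (v : Lat Γ) (f : CuspForm Γ 2),
      (act T v : DualS Γ) f = (v : DualS Γ) (T.1 f) := fun T v f => rfl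
  have hinj : ∀ T : Algebra.adjoin ℤ X, act T = 0 → T = 0 := by
    intro T hT
    apply Subtype.ext
    refine LinearMap.ext fun f => ?_
    apply eq_zero_of_forall_perHom
    intro γ
    have h1 := hact T ⟨perHom Γ γ, γ, rfl⟩ f
    rw [hT] at h1
    exact h1.symm
  letI : Module (Algebra.adjoin ℤ X) (Lat Γ) := Module.compHom _ act
  have hsmul : ∀ (T : Algebra.adjoin ℤ X) (v : Lat Γ), T • v = act T v := fun _ _ => rfl
  haveI : IsScalarTower ℤ (Algebra.adjoin ℤ X) (Lat Γ) := by
    constructor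
    intro n T v
    rw [hsmul, hsmul, map_zsmul]
    rfl
  haveI : Module.Finite (Algebra.adjoin ℤ X) (Lat Γ) :=
    Module.Finite.of_restrictScalars_finite ℤ _ _
  obtain ⟨g, hg0, hg⟩ := Fermat.Agent.H4.exists_functional (M := Lat Γ) θ (fun T hT => by
    have : T = 0 := hinj T (LinearMap.ext hT)
    rw [this, map_zero])
  refine ⟨g.comp (toLat Γ), ?_, ?_, ?_⟩
  · intro h0
    apply hg0
    refine AddMonoidHom.ext fun v => ?_
    obtain ⟨γ, rfl⟩ := toLat_surjective v
    exact DFunLike.congr_fun h0 γ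
  · intro γ hγ
    rw [AddMonoidHom.comp_apply, isPE_toLat γ hγ, map_zero]
  · intro T hT H hH
    rw [HeckeSys.hom_comp]
    refine AddMonoidHom.ext fun γ => ?_
    have h2 : H.hom (toLat Γ) γ = (⟨T, Algebra.subset_adjoin hT⟩ : Algebra.adjoin ℤ X) • toLat Γ γ := by
      apply Subtype.ext
      rw [hsmul]
      have h3 := dualMap_perHom hH γ
      refine Eq.trans ?_ h3.symm
      rw [HeckeSys.hom_apply, HeckeSys.hom_apply]
      push_cast
      rfl
    rw [AddMonoidHom.comp_apply, h2, hg]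
    rfl

end

end Fermat.Agent.H48
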