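import Mathlib
import Fermat.Agent.H48Per

/-!
# Extension of scalars for `PE Γ F`

For a field `F`, `PES Γ F` is the `F`-space of homomorphisms `Γ → F` killing parabolic and elliptic
elements. For an extension `k / F`, `ev : k ⊗ PES Γ F → Hom(Γ, k)` is injective, with image the
homomorphisms killing parabolic and elliptic elements.
-/

set_option autoImplicit false

open CongruenceSubgroup UpperHalfPlane TensorProduct
open scoped MatrixGroups

namespace Fermat.Agent.H48

noncomputable section

variable {Γ : Subgroup SL(2, ℤ)} {F k : Type*} [Field F] [Field k] [Algebra F k]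

variable (Γ F) in
/-- Homomorphisms killing parabolic and elliptic elements, as a vector space. -/
def PES : Submodule F (Additive Γ →+ F) where
  carrier := {φ | IsPE φ}
  zero_mem' := fun _ _ => rfl
  add_mem' {φ ψ} hφ hψ := fun γ hγ => by rw [AddMonoidHom.add_apply, hφ γ hγ, hψ γ hγ, add_zero]
  smul_mem' c φ hφ := fun γ hγ => by
    show c • φ (Additive.ofMul γ) = 0
    rw [hφ γ hγ, smul_zero]

lemma mem_PES {φ : Additive Γ →+ F} : φ ∈ PES Γ F ↔ IsPE φ := Iff.rfl

/-- The Hecke correspondence on `PES Γ F`. -/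
def HeckeSys.lin (H : HeckeSys Γ) (F : Type*) [Field F] : PES Γ F →ₗ[F] PES Γ F where
  toFun φ := ⟨H.hom φ.1, H.isPE_hom φ.2⟩
  map_add' _ _ := Subtype.ext (map_add _ _ _)
  map_smul' c φ := Subtype.ext (H.hom_smul c φ.1)

@[simp] lemma HeckeSys.coe_lin (H : HeckeSys Γ) (φ : PES Γ F) :
    (H.lin F φ : Additive Γ →+ F) = H.hom φ.1 := rfl

instance finiteDimensional_PES [Γ.FiniteIndex] : FiniteDimensional F (PES Γ F) := by
  have h0 : AddGroup.FG (Additive Γ) := GroupFG.iff_add_fg.1 inferInstance
  obtain ⟨S, hS, hfin⟩ := AddGroup.fg_iff.1 h0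
  haveI : Finite S := hfin
  let r : PES Γ F →ₗ[F] (S → F) :=
    { toFun := fun φ s => φ.1 s
      map_add' := fun _ _ => rfl
      map_smul' := fun _ _ => rfl }
  refine FiniteDimensional.of_injective r ?_
  intro φ ψ h
  apply Subtype.ext
  apply AddMonoidHom.eq_of_eqOn_dense hS
  intro s hs
  exact congrFun h ⟨s, hs⟩

variable (Γ F k) in
/-- scalar extension of a homomorphism -/
def toK : PES Γ F →ₗ[F] (Additive Γ →+ k) where
  toFun φ := (algebraMap F k).toAddMonoidHom.comp φ.1
  map_add' φ ψ := by ext γ; simp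
  map_smul' c φ := by
    ext γ
    simp [Algebra.smul_def]

lemma toK_apply (φ : PES Γ F) (γ : Additive Γ) : toK Γ F k φ γ = algebraMap F k (φ.1 γ) := rfl

variable (Γ F k) in
/-- The evaluation map. -/
def ev : k ⊗[F] PES Γ F →ₗ[k] (Additive Γ →+ k) := (toK Γ F k).liftBaseChange k

lemma ev_tmul (c : k) (φ : PES Γ F) : ev Γ F k (c ⊗ₜ φ) = c • toK Γ F k φ := rfl

lemma repr_ev {ι : Type*} [DecidableEq ι] (b : Module.Basis ι F k) (x : k ⊗[F] PES Γ F) (γ : Additive Γ) (i : ι) :
    b.repr (ev Γ F k x γ) i = (TensorProduct.equivFinsuppOfBasisLeft b x i).1 γ := by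
  induction x with
  | zero => simp
  | add x y hx hy =>
    rw [map_add, AddMonoidHom.add_apply, map_add, Finsupp.add_apply, hx, hy, map_add,
      Finsupp.add_apply]
    rfl
  | tmul c φ =>
    rw [ev_tmul, TensorProduct.equivFinsuppOfBasisLeft_apply_tmul_apply]
    show b.repr (c • algebraMap F k (φ.1 γ)) i = (b.repr c i • φ).1 γ
    have h1 : c • algebraMap F k (φ.1 γ) = (φ.1 γ) • c := by
      rw [smul_eq_mul, Algebra.smul_def, mul_comm]
    rw [h1, map_smul, Finsupp.smul_apply]
    show (φ.1 γ) • b.repr c i = b.repr c i • φ.1 γ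
    rw [smul_eq_mul, smul_eq_mul, mul_comm]

lemma ev_injective : Function.Injective (ev Γ F k) := by
  classical
  rw [← LinearMap.ker_eq_bot, LinearMap.ker_eq_bot']
  intro x hx
  let b := Module.Basis.ofVectorSpace F k
  apply (TensorProduct.equivFinsuppOfBasisLeft b).injective
  rw [map_zero]
  refine Finsupp.ext fun i => Subtype.ext (AddMonoidHom.ext fun γ => ?_)
  have h := repr_ev b x γ i
  rw [hx] at h
  rw [← h]
  simp

lemma exists_ev_eq [Γ.FiniteIndex] (ψ : Additive Γ →+ k) (hψ : IsPE ψ) :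
    ∃ x : k ⊗[F] PES Γ F, ev Γ F k x = ψ := by
  classical
  let b := Module.Basis.ofVectorSpace F k
  have h0 : AddGroup.FG (Additive Γ) := GroupFG.iff_add_fg.1 inferInstance
  obtain ⟨S, hS, hfin⟩ := AddGroup.fg_iff.1 h0
  let c : Module.Basis.ofVectorSpaceIndex F k → (Additive Γ →+ F) := fun i =>
    (b.coord i).toAddMonoidHom.comp ψ
  let f : Module.Basis.ofVectorSpaceIndex F k →₀ PES Γ F :=
    Finsupp.onFinset (hfin.toFinset.biUnion fun s => (b.repr (ψ s)).support)
      (fun i => ⟨c i, fun γ hγ => by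
        show b.coord i (ψ _) = 0
        rw [hψ γ hγ, map_zero]⟩) (by
        intro i hi
        by_contra hcon
        apply hi
        apply Subtype.ext
        apply AddMonoidHom.eq_of_eqOn_dense hS
        intro s hs
        show b.repr (ψ s) i = 0
        by_contra h1
        apply hcon
        rw [Finset.mem_biUnion]
        exact ⟨s, hfin.mem_toFinset.2 hs, Finsupp.mem_support_iff.2 h1⟩)
  refine ⟨(TensorProduct.equivFinsuppOfBasisLeft b).symm f, ?_⟩
  refine AddMonoidHom.ext fun γ => ?_
  apply b.repr.injective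
  refine Finsupp.ext fun i => ?_
  rw [repr_ev, LinearEquiv.apply_symm_apply]
  rfl

lemma ev_baseChange_lin (H : HeckeSys Γ) (x : k ⊗[F] PES Γ F) :
    ev Γ F k ((H.lin F).baseChange k x) = H.hom (ev Γ F k x) := by
  induction x with
  | zero => simp
  | add x y hx hy => rw [map_add, map_add, map_add, map_add, hx, hy]
  | tmul c φ =>
    rw [LinearMap.baseChange_tmul, ev_tmul, ev_tmul, H.hom_smul]
    congr 1
    show (algebraMap F k).toAddMonoidHom.comp (H.hom φ.1) = _
    rw [← H.hom_comp]
    rfl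

end

end Fermat.Agent.H48
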