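import Mathlib
import Fermat.Agent.H48Per

/-!
# Eigenclasses for `Γ₁(M)`

`genSet M`: the operators `T_p` (`p ∤ M` prime) and `⟨d⟩` (`d` prime to `M`) on `S₂(Γ₁(M))`.
`exists_eigenclass_Gamma1`: every ring hom from the algebra they generate to a field `k` occurs in
`PE (Gamma1 M) k`.
-/

set_option autoImplicit false

open CongruenceSubgroup UpperHalfPlane ModularForm
open scoped MatrixGroups Manifold
open Matrix.SpecialLinearGroup (mapGL)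

namespace Fermat.Agent.H48

open Fermat.Agent.H58

noncomputable section

variable {M : ℕ} [NeZero M]

theorem isSysOp_dia (d : ℤ) : IsSysOp (sysDia M d) (dia M 2 d) := by
  intro f
  show _ = ∑ _i : Unit, _
  rw [Fintype.sum_unique]
  rfl

theorem isSysOp_T1L {p : ℕ} (hp : p.Prime) (hpM : ¬ p ∣ M) :
    IsSysOp (sysT M p hp hpM) (T1L M 2 p hp hpM) := by
  intro f
  haveI : Fact p.Prime := ⟨hp⟩
  haveI : NeZero p := ⟨hp.ne_zero⟩
  show T1 M 2 p ⇑f = ∑ x : OnePoint (ZMod p), ⇑f ∣[(2 : ℤ)] repT M p x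
  rw [T1_eq_sum]
  refine Finset.sum_congr rfl fun x _ => ?_
  rw [repT, SlashAction.slash_mul]
  congr 1
  induction x using OnePoint.rec with
  | infty => rfl
  | coe j =>
    show ⇑f = ⇑f ∣[(2 : ℤ)] (1 : SL(2, ℤ))
    rw [SlashAction.slash_one]

/-- The Hecke operators on `S₂(Γ₁(M))`. -/
def genSet (M : ℕ) [NeZero M] : Set (Module.End ℂ (CuspForm (Gamma1 M) 2)) :=
  {T | (∃ (p : ℕ) (hp : p.Prime) (hpM : ¬ p ∣ M), T = T1L M 2 p hp hpM) ∨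
    ∃ d : ℤ, IsCoprime d (M : ℤ) ∧ T = dia M 2 d}

theorem T1L_mem_genSet {p : ℕ} (hp : p.Prime) (hpM : ¬ p ∣ M) : T1L M 2 p hp hpM ∈ genSet M :=
  Or.inl ⟨p, hp, hpM, rfl⟩

theorem dia_mem_genSet {d : ℤ} (hd : IsCoprime d (M : ℤ)) : dia M 2 d ∈ genSet M :=
  Or.inr ⟨d, hd, rfl⟩

theorem genSet_comm : ∀ a ∈ genSet M, ∀ b ∈ genSet M, a * b = b * a := by
  rintro _ (⟨p, hp, hpM, rfl⟩ | ⟨d, hd, rfl⟩) _ (⟨q, hq, hqM, rfl⟩ | ⟨e, he, rfl⟩)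
  · exact T1L_T1L_comm hp hpM hq hqM
  · exact T1L_dia_comm hp hpM e
  · exact (T1L_dia_comm hq hqM d).symm
  · exact dia_comm hd he

theorem genSet_sys : ∀ T ∈ genSet M, ∃ H, IsSysOp H T := by
  rintro _ (⟨p, hp, hpM, rfl⟩ | ⟨d, hd, rfl⟩)
  · exact ⟨_, isSysOp_T1L hp hpM⟩
  · exact ⟨_, isSysOp_dia d⟩

/-- The Hecke algebra of `S₂(Γ₁(M))` away from `M`, with the diamond operators. -/
abbrev HAlg (M : ℕ) [NeZero M] : Subalgebra ℤ (Module.End ℂ (CuspForm (Gamma1 M) 2)) :=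
  Algebra.adjoin ℤ (genSet M)

/-- `T_p` as an element of the Hecke algebra. -/
def HAlg.T {p : ℕ} (hp : p.Prime) (hpM : ¬ p ∣ M) : HAlg M :=
  ⟨T1L M 2 p hp hpM, Algebra.subset_adjoin (T1L_mem_genSet hp hpM)⟩

/-- `⟨d⟩` as an element of the Hecke algebra. -/
def HAlg.dia {d : ℤ} (hd : IsCoprime d (M : ℤ)) : HAlg M :=
  ⟨H58.dia M 2 d, Algebra.subset_adjoin (dia_mem_genSet hd)⟩

/-- **Eigenclasses for `Γ₁(M)`.** -/
theorem exists_eigenclass_Gamma1 {k : Type*} [Field k] (θ : HAlg M →+* k) :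
    ∃ ψ : Additive (Gamma1 M) →+ k, ψ ≠ 0 ∧ IsPE ψ ∧
      (∀ (p : ℕ) (hp : p.Prime) (hpM : ¬ p ∣ M),
        (sysT M p hp hpM).hom ψ = θ (HAlg.T hp hpM) • ψ) ∧
      ∀ (d : ℤ) (hd : IsCoprime d (M : ℤ)), (sysDia M d).hom ψ = θ (HAlg.dia hd) • ψ := by
  obtain ⟨ψ, h1, h2, h3⟩ := exists_eigenclass (genSet M) genSet_sys genSet_comm θ
  exact ⟨ψ, h1, h2, fun p hp hpM => h3 _ (T1L_mem_genSet hp hpM) _ (isSysOp_T1L hp hpM),
    fun d hd => h3 _ (dia_mem_genSet hd) _ (isSysOp_dia d)⟩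

end

end Fermat.Agent.H48
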