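import Mathlib
import Fermat.Agent.H48Defs
import Fermat.Prelude.Def_GaloisRep_Residual
import Fermat.Prelude.Def_GaloisRep_LocalConditions

/-!
# The Galois action on characters of `Γ₁(M)`: statement of the interface

`Vn Γ n`: the characters `Γ → ℂˣ` killed by `n`, trivial on parabolic and elliptic elements.
`HasGalAction M n`: the statement that `Gal(ℚ̄/ℚ)` acts on `Vn (Gamma1 M) n`, commuting with Hecke
operators, unramified outside `M n`, with the Eichler–Shimura relation.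
-/

set_option autoImplicit false

open CongruenceSubgroup
open scoped MatrixGroups

namespace Fermat.Agent.H48

noncomputable section

local notation "Qb" => AlgebraicClosure ℚ
local notation "Gq" => (AlgebraicClosure ℚ ≃ₐ[ℚ] AlgebraicClosure ℚ)

/-- Characters killed by `n`, trivial on the parabolic and elliptic elements. -/
def Vn (Γ : Subgroup SL(2, ℤ)) (n : ℕ) : AddSubgroup (Additive Γ →+ Additive ℂˣ) where
  carrier := {χ | IsPE χ ∧ ∀ γ, n • χ γ = 0}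
  zero_mem' := ⟨fun _ _ => rfl, fun _ => nsmul_zero _⟩
  add_mem' {φ ψ} hφ hψ := ⟨(PE Γ _).add_mem hφ.1 hψ.1, fun γ => by
    rw [AddMonoidHom.add_apply, nsmul_add, hφ.2, hψ.2, add_zero]⟩
  neg_mem' {φ} hφ := ⟨(PE Γ _).neg_mem hφ.1, fun γ => by
    rw [AddMonoidHom.neg_apply, neg_nsmul, hφ.2, neg_zero]⟩

lemma mem_Vn {Γ : Subgroup SL(2, ℤ)} {n : ℕ} {χ : Additive Γ →+ Additive ℂˣ} :
    χ ∈ Vn Γ n ↔ IsPE χ ∧ ∀ γ, n • χ γ = 0 := Iff.rfl

/-- The Hecke correspondence on `Vn Γ n`. -/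
def HeckeSys.homV {Γ : Subgroup SL(2, ℤ)} (H : HeckeSys Γ) (n : ℕ) : Vn Γ n →+ Vn Γ n where
  toFun χ := ⟨H.hom χ.1, H.isPE_hom χ.2.1, fun γ => by
    rw [HeckeSys.hom_apply, ← Finset.sum_nsmul]
    exact Finset.sum_eq_zero fun i _ => χ.2.2 _⟩
  map_zero' := Subtype.ext (map_zero _)
  map_add' _ _ := Subtype.ext (map_add _ _ _)

@[simp] lemma HeckeSys.coe_homV {Γ : Subgroup SL(2, ℤ)} (H : HeckeSys Γ) (n : ℕ) (χ : Vn Γ n) :
    (H.homV n χ : Additive Γ →+ Additive ℂˣ) = H.hom χ.1 := rfl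

/-- **Interface (GAL)**: Galois action on the characters of `Γ₁(M)` of order dividing `n`. -/
def HasGalAction (M n : ℕ) : Prop :=
  ∃ R : Gq →* AddMonoid.End (Vn (Gamma1 M) n),
    GaloisFactorsThroughFiniteLevel R ∧
    (∀ (p : ℕ) (hp : p.Prime) (hpM : ¬ p ∣ M) (σ : Gq) (χ : Vn (Gamma1 M) n),
      R σ ((sysT M p hp hpM).homV n χ) = (sysT M p hp hpM).homV n (R σ χ)) ∧
    (∀ d : ℤ, IsCoprime d (M : ℤ) → ∀ (σ : Gq) (χ : Vn (Gamma1 M) n),
      R σ ((sysDia M d).homV n χ) = (sysDia M d).homV n (R σ χ)) ∧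
    ∀ (p : ℕ) (hp : p.Prime) (hpM : ¬ p ∣ M), ¬ p ∣ n →
      ∀ A : ValuationSubring Qb, A.LiesOverPrime p →
        (∀ σ ∈ A.inertiaSubgroupIn ℚ, R σ = 1) ∧
        ∀ σ : Gq, A.IsFrobeniusAt σ p → ∀ χ : Vn (Gamma1 M) n,
          R σ (R σ χ) + p • (sysDia M p).homV n χ = R σ ((sysT M p hp hpM).homV n χ)

end

end Fermat.Agent.H48
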