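import Mathlib
import Fermat.Agent.H48Gal
import Fermat.Agent.H48Base
import Fermat.Agent.H48Eig1
import Fermat.Agent.H96TwoDim
import Fermat.Agent.H86DensityFinal
import Fermat.Agent.H86DensityRep

/-!
# Residual Galois representations from the Galois action on characters of `Γ₁(M)`
-/

set_option autoImplicit false

open CongruenceSubgroup TensorProduct
open scoped MatrixGroups

namespace Fermat.Agent.H48

noncomputable section

local notation "Qb" => AlgebraicClosure ℚ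
local notation "Gq" => (AlgebraicClosure ℚ ≃ₐ[ℚ] AlgebraicClosure ℚ)

section torsion

variable {Γ : Subgroup SL(2, ℤ)} (n : ℕ) [hn : Fact n.Prime]

/-- A primitive `n`-th root of unity. -/
def zet : ℂˣ := Units.mk0 (Complex.exp (2 * Real.pi * Complex.I / n)) (Complex.exp_ne_zero _)

lemma zet_spec : IsPrimitiveRoot (zet n) n :=
  (IsPrimitiveRoot.coe_units_iff).1 (Complex.isPrimitiveRoot_exp n hn.out.ne_zero)

/-- `ZMod n` is isomorphic to the group of `n`-th roots of unity. -/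
def eMu : ZMod n ≃+ Additive (Subgroup.zpowers (zet n)) := (zet_spec n).zmodEquivZPowers

/-- The embedding of `ZMod n` in `ℂˣ`. -/
def eC : ZMod n →+ Additive ℂˣ :=
  (MonoidHom.toAdditive (Subgroup.zpowers (zet n)).subtype).comp (eMu n).toAddMonoidHom

lemma eC_injective : Function.Injective (eC n) := by
  intro a b h
  apply (eMu n).injective
  exact Subtype.ext h

lemma exists_eC {x : Additive ℂˣ} (hx : n • x = 0) : ∃ a, eC n a = x := by
  have h1 : x.toMul ^ n = 1 := hx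
  have h2 : x.toMul ∈ rootsOfUnity n ℂ := (mem_rootsOfUnity n _).2 h1
  haveI : NeZero n := ⟨hn.out.ne_zero⟩
  rw [← (zet_spec n).zpowers_eq] at h2
  refine ⟨(eMu n).symm (Additive.ofMul ⟨x.toMul, h2⟩), ?_⟩
  show ((eMu n ((eMu n).symm _)).toMul : ℂˣ) = x.toMul
  rw [AddEquiv.apply_symm_apply]
  rfl

/-- `PES Γ (ZMod n) → Vn Γ n`. -/
def toVHom (Γ : Subgroup SL(2, ℤ)) : PES Γ (ZMod n) →+ Vn Γ n where
  toFun φ := ⟨(eC n).comp φ.1, fun γ hγ => by
      show eC n (φ.1 _) = 0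
      rw [φ.2 γ hγ, map_zero], fun γ => by
      show n • (eC n (φ.1 γ)) = 0
      rw [← map_nsmul, nsmul_eq_mul, ZMod.natCast_self, zero_mul, map_zero]⟩
  map_zero' := Subtype.ext (by ext γ; show ((eC n 0).toMul : ℂ) = _; rw [map_zero]; rfl)
  map_add' φ ψ := Subtype.ext (by
    refine AddMonoidHom.ext fun γ => ?_
    show eC n (φ.1 γ + ψ.1 γ) = _
    rw [map_add]; rfl)

lemma toVHom_apply (φ : PES Γ (ZMod n)) (γ : Additive Γ) :
    (toVHom n Γ φ).1 γ = eC n (φ.1 γ) := rfl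

lemma toVHom_bijective : Function.Bijective (toVHom n Γ) := by
  constructor
  · intro φ ψ h
    apply Subtype.ext
    refine AddMonoidHom.ext fun γ => ?_
    apply eC_injective n
    rw [← toVHom_apply, ← toVHom_apply, h]
  · intro χ
    have h1 : ∀ γ, ∃ a, eC n a = χ.1 γ := fun γ => exists_eC n (χ.2.2 γ)
    choose f hf using h1
    refine ⟨⟨AddMonoidHom.mk' f fun a b => ?_, fun γ hγ => ?_⟩, ?_⟩
    · apply eC_injective n
      rw [map_add, hf, hf, hf, map_add]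
    · apply eC_injective n
      show eC n (f _) = _
      rw [hf, χ.2.1 γ hγ, map_zero]
    · apply Subtype.ext
      refine AddMonoidHom.ext fun γ => ?_
      rw [toVHom_apply]
      exact hf γ

/-- `PES Γ (ZMod n) ≃ Vn Γ n`. -/
def toV (Γ : Subgroup SL(2, ℤ)) : PES Γ (ZMod n) ≃+ Vn Γ n :=
  AddEquiv.ofBijective (toVHom n Γ) (toVHom_bijective n)

lemma toV_lin (H : HeckeSys Γ) (φ : PES Γ (ZMod n)) :
    toV n Γ (H.lin (ZMod n) φ) = H.homV n (toV n Γ φ) := by
  apply Subtype.ext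
  show (eC n).comp (H.hom φ.1) = H.hom ((eC n).comp φ.1)
  rw [H.hom_comp]

end torsion

section action

variable {Γ : Subgroup SL(2, ℤ)} (n : ℕ) [hn : Fact n.Prime] {G : Type*} [Group G]

/-- transport of structure -/
def rhoF (R : G →* AddMonoid.End (Vn Γ n)) : G →* Module.End (ZMod n) (PES Γ (ZMod n)) where
  toFun σ := AddMonoidHom.toZModLinearMap n
    ((toV n Γ).symm.toAddMonoidHom.comp ((R σ : Vn Γ n →+ Vn Γ n).comp (toV n Γ).toAddMonoidHom))
  map_one' := by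
    refine LinearMap.ext fun φ => ?_
    show (toV n Γ).symm (R 1 (toV n Γ φ)) = φ
    rw [map_one]
    exact (toV n Γ).symm_apply_apply φ
  map_mul' σ τ := by
    refine LinearMap.ext fun φ => ?_
    show (toV n Γ).symm (R (σ * τ) (toV n Γ φ)) =
      (toV n Γ).symm (R σ (toV n Γ ((toV n Γ).symm (R τ (toV n Γ φ)))))
    rw [map_mul, AddEquiv.apply_symm_apply]
    rfl

lemma rhoF_apply (R : G →* AddMonoid.End (Vn Γ n)) (σ : G) (φ : PES Γ (ZMod n)) :
    toV n Γ (rhoF n R σ φ) = R σ (toV n Γ φ) := by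
  show toV n Γ ((toV n Γ).symm (R σ (toV n Γ φ))) = _
  rw [AddEquiv.apply_symm_apply]

end action

section main

open Polynomial

variable {M n : ℕ} [NeZero M] [hn : Fact n.Prime] {k : Type} [Field k] [Algebra (ZMod n) k]

omit [NeZero M] in
lemma isCoprime_of_prime {p : ℕ} (hp : p.Prime) (hpM : ¬ p ∣ M) : IsCoprime (p : ℤ) (M : ℤ) :=
  Nat.isCoprime_iff_coprime.mpr ((Nat.Prime.coprime_iff_not_dvd hp).mpr hpM)

/-- The simultaneous eigenspace. -/
def eigW (n : ℕ) [Fact n.Prime] [Algebra (ZMod n) k] (θ : HAlg M →+* k) :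
    Submodule k (k ⊗[ZMod n] PES (Gamma1 M) (ZMod n)) where
  carrier := {w | (∀ (p : ℕ) (hp : p.Prime) (hpM : ¬ p ∣ M),
      ((sysT M p hp hpM).lin (ZMod n)).baseChange k w = θ (HAlg.T hp hpM) • w) ∧
    ∀ (d : ℤ) (hd : IsCoprime d (M : ℤ)),
      ((sysDia M d).lin (ZMod n)).baseChange k w = θ (HAlg.dia hd) • w}
  zero_mem' := ⟨fun p hp hpM => by rw [map_zero, smul_zero], fun d hd => by
    rw [map_zero, smul_zero]⟩
  add_mem' {a b} ha hb := ⟨fun p hp hpM => by rw [map_add, smul_add, ha.1, hb.1], fun d hd => by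
    rw [map_add, smul_add, ha.2, hb.2]⟩
  smul_mem' c w hw := ⟨fun p hp hpM => by rw [map_smul, hw.1, smul_comm], fun d hd => by
    rw [map_smul, hw.2, smul_comm]⟩

lemma mem_eigW {θ : HAlg M →+* k} {w : k ⊗[ZMod n] PES (Gamma1 M) (ZMod n)} :
    w ∈ eigW n θ ↔ (∀ (p : ℕ) (hp : p.Prime) (hpM : ¬ p ∣ M),
      ((sysT M p hp hpM).lin (ZMod n)).baseChange k w = θ (HAlg.T hp hpM) • w) ∧
    ∀ (d : ℤ) (hd : IsCoprime d (M : ℤ)),
      ((sysDia M d).lin (ZMod n)).baseChange k w = θ (HAlg.dia hd) • w := Iff.rfl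

instance nontrivial_eigW (θ : HAlg M →+* k) : Nontrivial (eigW n θ) := by
  obtain ⟨ψ, h1, h2, h3, h4⟩ := exists_eigenclass_Gamma1 θ
  obtain ⟨x, hx⟩ := exists_ev_eq (F := ZMod n) ψ h2
  refine ⟨⟨x, ?_⟩, 0, ?_⟩
  · refine mem_eigW.2 ⟨fun p hp hpM => ?_, fun d hd => ?_⟩
    · apply ev_injective
      rw [ev_baseChange_lin, map_smul, hx, h3]
    · apply ev_injective
      rw [ev_baseChange_lin, map_smul, hx, h4]
  · intro h0
    have h5 : x = 0 := congrArg Subtype.val h0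
    apply h1
    rw [← hx, h5, map_zero]

/-- The simultaneous eigenspace, as a type. -/
def EW (n : ℕ) [Fact n.Prime] [Algebra (ZMod n) k] (θ : HAlg M →+* k) : Type := eigW n θ

instance (θ : HAlg M →+* k) : AddCommGroup (EW n θ) := (eigW n θ).addCommGroup

instance (θ : HAlg M →+* k) : Module k (EW n θ) := (eigW n θ).module

instance (θ : HAlg M →+* k) : Nontrivial (EW n θ) := nontrivial_eigW θ

instance (θ : HAlg M →+* k) : FiniteDimensional k (EW n θ) :=
  inferInstanceAs (FiniteDimensional k (eigW n θ))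

/-- **From the Galois action on characters to two-dimensional representations.** -/
theorem exists_residual [IsAlgClosed k] (hG : HasGalAction M n) (θ : HAlg M →+* k) (d : Gq →* k)
    (hd0 : GaloisFactorsThroughFiniteLevel d)
    (hd1 : ∀ p : ℕ, p.Prime → ¬ p ∣ M → ¬ p ∣ n → ∀ A : ValuationSubring Qb, A.LiesOverPrime p →
      ∀ σ ∈ A.inertiaSubgroupIn ℚ, d σ = 1)
    (hd2 : ∀ (p : ℕ) (hp : p.Prime) (hpM : ¬ p ∣ M), ¬ p ∣ n → ∀ A : ValuationSubring Qb,
      A.LiesOverPrime p → ∀ σ : Gq, A.IsFrobeniusAt σ p →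
        d σ = p * θ (HAlg.dia (isCoprime_of_prime hp hpM))) :
    ∃ ρ : ResidualGaloisRep k, ∀ (p : ℕ) (hp : p.Prime) (hpM : ¬ p ∣ M), ¬ p ∣ n →
      ρ.IsUnramifiedAt p ∧ ∀ A : ValuationSubring Qb, A.LiesOverPrime p →
        ∀ σ : Gq, A.IsFrobeniusAt σ p →
          (ρ.ρ σ).charpoly = X ^ 2 - C (θ (HAlg.T hp hpM)) * X + C (d σ) := by
  classical
  obtain ⟨R, hR0, hRT, hRd, hRp⟩ := hG
  -- the representation on `k ⊗ PES`
  let ρ1 : Gq →* Module.End (ZMod n) (PES (Gamma1 M) (ZMod n)) := rhoF n R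
  let ρ2 : Gq →* Module.End k (k ⊗[ZMod n] PES (Gamma1 M) (ZMod n)) :=
    (Module.End.baseChangeHom (ZMod n) k (PES (Gamma1 M) (ZMod n))).toMonoidHom.comp ρ1
  have hρ2 : ∀ σ, ρ2 σ = (ρ1 σ).baseChange k := fun σ => rfl
  -- commutation with Hecke operators
  have hcommT : ∀ (p : ℕ) (hp : p.Prime) (hpM : ¬ p ∣ M) (σ : Gq),
      ρ1 σ ∘ₗ (sysT M p hp hpM).lin (ZMod n) = (sysT M p hp hpM).lin (ZMod n) ∘ₗ ρ1 σ := by
    intro p hp hpM σ
    refine LinearMap.ext fun φ => ?_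
    apply (toV n (Gamma1 M)).injective
    rw [LinearMap.comp_apply, LinearMap.comp_apply, rhoF_apply, toV_lin, toV_lin, rhoF_apply, hRT]
  have hcommD : ∀ (e : ℤ) (he : IsCoprime e (M : ℤ)) (σ : Gq),
      ρ1 σ ∘ₗ (sysDia M e).lin (ZMod n) = (sysDia M e).lin (ZMod n) ∘ₗ ρ1 σ := by
    intro e he σ
    refine LinearMap.ext fun φ => ?_
    apply (toV n (Gamma1 M)).injective
    rw [LinearMap.comp_apply, LinearMap.comp_apply, rhoF_apply, toV_lin, toV_lin, rhoF_apply,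
      hRd e he]
  have hstab : ∀ (σ : Gq) (w), w ∈ eigW n θ → ρ2 σ w ∈ eigW n θ := by
    intro σ w hw
    refine mem_eigW.2 ⟨fun p hp hpM => ?_, fun e he => ?_⟩
    · rw [hρ2, ← LinearMap.comp_apply, ← LinearMap.baseChange_comp, ← hcommT,
        LinearMap.baseChange_comp, LinearMap.comp_apply, hw.1, map_smul]
    · rw [hρ2, ← LinearMap.comp_apply, ← LinearMap.baseChange_comp, ← hcommD e he,
        LinearMap.baseChange_comp, LinearMap.comp_apply, hw.2, map_smul]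
  let ρ3 : Gq →* Module.End k (EW n θ) :=
    { toFun := fun σ => (ρ2 σ).restrict (hstab σ)
      map_one' := by
        refine LinearMap.ext fun w => Subtype.ext ?_
        show ρ2 1 w.1 = w.1
        rw [map_one]; rfl
      map_mul' := fun σ τ => by
        refine LinearMap.ext fun w => Subtype.ext ?_
        show ρ2 (σ * τ) w.1 = ρ2 σ (ρ2 τ w.1)
        rw [map_mul]; rfl }
  have hρ3 : ∀ σ (w : EW n θ), (ρ3 σ w).1 = ρ2 σ w.1 :=
    fun σ w => rfl
  have hone : ∀ σ, R σ = 1 → ρ3 σ = 1 := by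
    intro σ hσ
    have h1 : ρ1 σ = 1 := by
      refine LinearMap.ext fun φ => ?_
      apply (toV n (Gamma1 M)).injective
      rw [rhoF_apply, hσ]
      rfl
    refine LinearMap.ext fun w => Subtype.ext ?_
    rw [hρ3, hρ2, h1]
    show (LinearMap.id.baseChange k) w.1 = w.1
    rw [LinearMap.baseChange_id]; rfl
  -- the quadratic relation at Frobenius elements
  have hquad : ∀ (p : ℕ) (hp : p.Prime) (hpM : ¬ p ∣ M), ¬ p ∣ n → ∀ A : ValuationSubring Qb,
      A.LiesOverPrime p → ∀ σ : Gq, A.IsFrobeniusAt σ p →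
      ρ3 σ * ρ3 σ - θ (HAlg.T hp hpM) • ρ3 σ + d σ • (1 : Module.End k (EW n θ)) = 0 := by
    intro p hp hpM hpn A hA σ hσ
    have h1 := (hRp p hp hpM hpn A hA).2 σ hσ
    have h2 : ρ1 σ ∘ₗ ρ1 σ + (p : ZMod n) • (sysDia M p).lin (ZMod n) =
        ρ1 σ ∘ₗ (sysT M p hp hpM).lin (ZMod n) := by
      refine LinearMap.ext fun φ => ?_
      apply (toV n (Gamma1 M)).injective
      rw [LinearMap.add_apply, LinearMap.comp_apply, LinearMap.comp_apply, map_add, rhoF_apply,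
        rhoF_apply, rhoF_apply, toV_lin, ← h1]
      congr 1
      rw [LinearMap.smul_apply, Nat.cast_smul_eq_nsmul, map_nsmul, toV_lin]
    have h3 := congrArg (fun f : Module.End (ZMod n) (PES (Gamma1 M) (ZMod n)) => f.baseChange k) h2
    simp only [LinearMap.baseChange_add, LinearMap.baseChange_comp, LinearMap.baseChange_smul] at h3
    refine LinearMap.ext fun w => Subtype.ext ?_
    have h4 := LinearMap.congr_fun h3 w.1
    rw [LinearMap.add_apply, LinearMap.comp_apply, LinearMap.comp_apply, LinearMap.smul_apply,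
      w.2.2 _ (isCoprime_of_prime hp hpM), w.2.1, map_smul] at h4
    have h5 : (p : ZMod n) • θ (HAlg.dia (isCoprime_of_prime hp hpM)) • (w.1) = d σ • w.1 := by
      rw [hd2 p hp hpM hpn A hA σ hσ, Nat.cast_smul_eq_nsmul, mul_smul, Nat.cast_smul_eq_nsmul]
    rw [h5] at h4
    show ρ2 σ (ρ2 σ w.1) - θ (HAlg.T hp hpM) • ρ2 σ w.1 + d σ • w.1 = 0
    rw [hρ2, ← h4]
    abel
  -- Frobenius density
  have hfin : GaloisFactorsThroughFiniteLevel (ρ3.prod d) := by
    obtain ⟨L1, hL1, h1⟩ := hR0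
    obtain ⟨L2, hL2, h2⟩ := hd0
    haveI := hL1
    haveI := hL2
    refine ⟨L1 ⊔ L2, inferInstance, fun σ hσ => ?_⟩
    have h3 : ρ3 σ = 1 := hone σ (h1 σ fun x hx => hσ x ((le_sup_left : L1 ≤ L1 ⊔ L2) hx))
    have h4 : d σ = 1 := h2 σ fun x hx => hσ x ((le_sup_right : L2 ≤ L1 ⊔ L2) hx)
    rw [MonoidHom.prod_apply, h3, h4]
    rfl
  have hpow : ∀ g : Gq, ∃ (F : Gq) (j : ℕ) (t : k),
      ρ3 F * ρ3 F - t • ρ3 F + d F • (1 : Module.End k (EW n θ)) = 0 ∧ ρ3 g = ρ3 F ^ j ∧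
        d g = d F ^ j := by
    intro g
    obtain ⟨p, hp, hpS, A, hA, φ, hφ, j, i, h1, h2⟩ :=
      H86.density_hom H86.frobDensityFinite hfin g (M * n).primeFactors
    have h0 : M * n ≠ 0 := mul_ne_zero (NeZero.ne M) hn.out.ne_zero
    have hpM : ¬ p ∣ M := fun h => hpS (Nat.mem_primeFactors.2 ⟨hp, h.mul_right n, h0⟩)
    have hpn : ¬ p ∣ n := fun h => hpS (Nat.mem_primeFactors.2 ⟨hp, h.mul_left M, h0⟩)
    refine ⟨φ, j, θ (HAlg.T hp hpM), hquad p hp hpM hpn A hA φ hφ, ?_, ?_⟩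
    · exact congrArg Prod.fst h1
    · exact congrArg Prod.snd h1
  obtain ⟨ρ', h1, h2⟩ := H96.exists_twoDim_of_quadratic_of_pow ρ3 d hpow
  have hker : ∀ σ, R σ = 1 → d σ = 1 → ρ' σ = 1 := fun σ h3 h4 => h2 σ (hone σ h3) h4
  refine ⟨{ V := Fin 2 → k
            finrank_eq := by simp
            ρ := (Matrix.toLinAlgEquiv' : Matrix (Fin 2) (Fin 2) k ≃ₐ[k] _).toMonoidHom.comp ρ'
            factorsThroughFiniteLevel := ?_ }, fun p hp hpM hpn => ⟨?_, ?_⟩⟩
  · obtain ⟨L1, hL1, h3⟩ := hR0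
    obtain ⟨L2, hL2, h4⟩ := hd0
    haveI := hL1
    haveI := hL2
    refine ⟨L1 ⊔ L2, inferInstance, fun σ hσ => ?_⟩
    have h5 : ρ' σ = 1 := hker σ
      (h3 σ fun x hx => hσ x ((le_sup_left : L1 ≤ L1 ⊔ L2) hx))
      (h4 σ fun x hx => hσ x ((le_sup_right : L2 ≤ L1 ⊔ L2) hx))
    rw [MonoidHom.comp_apply, h5, map_one]
  · intro A hA σ hσ
    have h5 : ρ' σ = 1 := hker σ ((hRp p hp hpM hpn A hA).1 σ hσ) (hd1 p hp hpM hpn A hA σ hσ)
    show (Matrix.toLinAlgEquiv' : Matrix (Fin 2) (Fin 2) k ≃ₐ[k] _).toMonoidHom.comp ρ' σ = 1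
    rw [MonoidHom.comp_apply, h5, map_one]
  · intro A hA σ hσ
    obtain ⟨h5, h6⟩ := h1 σ _ (hquad p hp hpM hpn A hA σ hσ)
    show (Matrix.toLin' (ρ' σ)).charpoly = _
    rw [Matrix.charpoly_toLin', Matrix.charpoly_fin_two, h5, h6]

end main

end

end Fermat.Agent.H48
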