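import Mathlib
import Fermat.Agent.H79Conj

/-!
# Galois stability of spaces of modular forms (not necessarily cuspidal)

Adaptation of helper79's `exists_conj_cuspForm_of` to modular forms.
-/

set_option autoImplicit false

open Filter Topology Complex UpperHalfPlane
open scoped Manifold MatrixGroups ModularForm

namespace Fermat.Agent.H50

open Fermat.Agent.H79

/-- if `B / A` is integral over level one modular forms, it is a modular form. -/
theorem exists_modForm_mul_eq (Γ : Subgroup SL(2, ℤ)) [Γ.FiniteIndex] {k w : ℤ}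
    (A : ModularForm Γ w) (hA : A ≠ 0) (B : ModularForm Γ (w + k)) {n : ℕ}
    (c : (i : ℕ) → ModularForm 𝒮ℒ ((i : ℤ) * k))
    (h : ∀ τ : ℍ, B τ ^ n + ∑ i ∈ Finset.Icc 1 n, c i τ * A τ ^ i * B τ ^ (n - i) = 0) :
    ∃ F : ModularForm Γ k, ∀ τ, A τ * F τ = B τ := by
  have hA0 : (⇑A : ℍ → ℂ) ≠ 0 := fun h0 => hA (DFunLike.ext _ _ fun τ => congrFun h0 τ)
  obtain ⟨F, hF, hAF⟩ := exists_mdiff_div (ModularFormClass.holo A) (ModularFormClass.holo B) hA0
    (n := n) (fun i => ⇑(c i)) (fun i => ModularFormClass.holo (c i)) h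
  -- the equation for `F`
  have hFeq : ∀ τ : ℍ, F τ ^ n + ∑ i ∈ Finset.Icc 1 n, c i τ * F τ ^ (n - i) = 0 := by
    have hmd : MDiff (fun τ => F τ ^ n + ∑ i ∈ Finset.Icc 1 n, c i τ * F τ ^ (n - i)) := by
      refine (hF.pow n).add ?_
      have e : (fun τ : ℍ => ∑ i ∈ Finset.Icc 1 n, c i τ * F τ ^ (n - i)) =
          ∑ i ∈ Finset.Icc 1 n, fun τ => c i τ * F τ ^ (n - i) := by
        funext τ
        simp only [Finset.sum_apply]
      rw [e]
      refine MDifferentiable.sum fun i _ => ?_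
      exact (ModularFormClass.holo (c i)).mul (hF.pow (n - i))
    have hprod : (fun τ => A τ ^ n) *
        (fun τ => F τ ^ n + ∑ i ∈ Finset.Icc 1 n, c i τ * F τ ^ (n - i)) = 0 := by
      ext τ
      simp only [Pi.mul_apply, Pi.zero_apply]
      rw [← h τ, ← hAF τ, mul_add, Finset.mul_sum, mul_pow]
      congr 1
      refine Finset.sum_congr rfl fun i hi => ?_
      have hin : i ≤ n := (Finset.mem_Icc.mp hi).2
      have h5 : A τ ^ n = A τ ^ i * A τ ^ (n - i) := by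
        rw [← pow_add]; congr 1; omega
      rw [h5, mul_pow]; ring
    rcases (mul_eq_zero_iff ((ModularFormClass.holo A).pow n) hmd).mp hprod with h0 | h0
    · exfalso
      apply hA0
      ext τ
      have := congrFun h0 τ
      simp only [Pi.zero_apply] at this ⊢
      exact eq_zero_of_pow_eq_zero this
    · intro τ
      exact congrFun h0 τ
  -- invariance
  have hinv : ∀ γ ∈ (Γ : Subgroup (GL (Fin 2) ℝ)), F ∣[k] γ = F := by
    rintro _ ⟨γ, hγ, rfl⟩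
    have h1 : (⇑A : ℍ → ℂ) * F = ⇑B := funext hAF
    have hAγ : (⇑A : ℍ → ℂ) ∣[w] γ = ⇑A :=
      SlashInvariantFormClass.slash_action_eq A _ ⟨γ, hγ, rfl⟩
    have hBγ : (⇑B : ℍ → ℂ) ∣[w + k] γ = ⇑B :=
      SlashInvariantFormClass.slash_action_eq B _ ⟨γ, hγ, rfl⟩
    have h2 : ((⇑A : ℍ → ℂ) * F) ∣[w + k] γ = (⇑A : ℍ → ℂ) * (F ∣[k] γ) := by
      rw [ModularForm.mul_slash_SL2, hAγ]
    rw [h1, hBγ, ← h1] at h2
    have h3 : (⇑A : ℍ → ℂ) * (F ∣[k] γ - F) = 0 := by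
      rw [mul_sub, ← h2, sub_self]
    have hFγ : MDiff (F ∣[k] γ) := hF.slash k _
    rcases (mul_eq_zero_iff (ModularFormClass.holo A) (hFγ.sub hF)).mp h3 with h0 | h0
    · exact absurd h0 hA0
    · exact sub_eq_zero.mp h0
  -- vanishing at cusps
  have hcusp : ∀ γ : SL(2, ℤ), IsBoundedAtImInfty (F ∣[k] γ) := by
    intro γ
    have heq : ∀ τ : ℍ, (F ∣[k] γ) τ ^ n +
        ∑ i ∈ Finset.Icc 1 n, c i τ * (F ∣[k] γ) τ ^ (n - i) = 0 := by
      intro τ
      have h1 := hFeq (γ • τ)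
      have hd : denom γ τ ≠ 0 := denom_ne_zero _ _
      have hci : ∀ i, c i (γ • τ) = denom γ τ ^ ((i : ℤ) * k) * c i τ := by
        intro i
        have hγ : (Matrix.SpecialLinearGroup.mapGL ℝ γ) ∈ (𝒮ℒ : Subgroup (GL (Fin 2) ℝ)) :=
          ⟨γ, rfl⟩
        exact SlashInvariantForm.slash_action_eqn'' (c i) hγ τ
      rw [ModularForm.SL_slash_apply]
      have h2 : (denom γ τ ^ (-k)) ^ n * (F (γ • τ) ^ n +
          ∑ i ∈ Finset.Icc 1 n, c i (γ • τ) * F (γ • τ) ^ (n - i)) = 0 := by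
        rw [h1, mul_zero]
      rw [← h2, mul_add, Finset.mul_sum, ← mul_pow, mul_comm (denom γ τ ^ (-k))]
      congr 1
      refine Finset.sum_congr rfl fun i hi => ?_
      have hin : i ≤ n := (Finset.mem_Icc.mp hi).2
      have h3 : (denom γ τ ^ (-k)) ^ n * denom γ τ ^ ((i : ℤ) * k) =
          (denom γ τ ^ (-k)) ^ (n - i) := by
        rw [← zpow_natCast, ← zpow_natCast, ← zpow_mul, ← zpow_mul, ← zpow_add₀ hd]
        congr 1
        push_cast [Nat.cast_sub hin]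
        ring
      rw [hci i, mul_pow, ← h3]
      ring
    -- a common bound for the coefficients
    have hbd : ∀ i : ℕ, ∃ M A : ℝ, ∀ τ : ℍ, A ≤ τ.im → ‖c i τ‖ ≤ M := by
      intro i
      have h1 : IsBoundedAtImInfty (c i : ℍ → ℂ) := ModularFormClass.bdd_at_infty (c i)
      rw [UpperHalfPlane.isBoundedAtImInfty_iff] at h1
      obtain ⟨M, A, h⟩ := h1
      exact ⟨M, A, h⟩
    choose M A' hMA using hbd
    set M0 : ℝ := ∑ i ∈ Finset.Icc 1 n, |M i| with hM0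
    have hM0n : 0 ≤ M0 := Finset.sum_nonneg fun i _ => abs_nonneg _
    set A0 : ℝ := ∑ i ∈ Finset.Icc 1 n, |A' i| with hA0'
    rw [UpperHalfPlane.isBoundedAtImInfty_iff]
    refine ⟨M0 + 1, A0, fun τ hτ => ?_⟩
    refine (norm_lt_of_root (fun i => c i τ) _ (M0 + 1) (by positivity) (heq τ) ?_).le
    calc ∑ i ∈ Finset.Icc 1 n, ‖c i τ‖ * ((M0 + 1)⁻¹) ^ i
        ≤ ∑ i ∈ Finset.Icc 1 n, |M i| * (M0 + 1)⁻¹ := by
          refine Finset.sum_le_sum fun i hi => ?_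
          have h5 : A' i ≤ τ.im := by
            refine le_trans (le_trans (le_abs_self _) ?_) hτ
            exact Finset.single_le_sum (f := fun i => |A' i|) (fun _ _ => abs_nonneg _) hi
          have h6 : ‖c i τ‖ ≤ |M i| := (hMA i τ h5).trans (le_abs_self _)
          have h7 : ((M0 + 1)⁻¹) ^ i ≤ (M0 + 1)⁻¹ := by
            have h8 : (M0 + 1)⁻¹ ≤ 1 := inv_le_one_of_one_le₀ (by linarith)
            have h9 : 0 ≤ (M0 + 1)⁻¹ := by positivity
            calc ((M0 + 1)⁻¹) ^ i ≤ ((M0 + 1)⁻¹) ^ 1 :=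
                  pow_le_pow_of_le_one h9 h8 (Finset.mem_Icc.mp hi).1
              _ = (M0 + 1)⁻¹ := pow_one _
          exact mul_le_mul h6 h7 (by positivity) (abs_nonneg _)
      _ = M0 * (M0 + 1)⁻¹ := by rw [← Finset.sum_mul]
      _ < 1 := by
          rw [← div_eq_mul_inv, div_lt_one (by positivity)]
          linarith
  refine ⟨{ toFun := F, slash_action_eq' := hinv, holo' := hF, bdd_at_cusps' := ?_ }, hAF⟩
  intro x hx
  rw [Subgroup.IsArithmetic.isCusp_iff_isCusp_SL2Z] at hx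
  rw [OnePoint.isBoundedAt_iff_forall_SL2Z hx]
  intro γ _
  exact hcusp γ


/-- Galois stability of modular forms on `Γ`, given (A) level-one stability, (B1) integrality over
level one and (B2) a primitive element. -/
theorem exists_conj_modForm_of (Γ : Subgroup SL(2, ℤ)) [Γ.FiniteIndex]
    (h1 : (1 : ℝ) ∈ (Γ : Subgroup (GL (Fin 2) ℝ)).strictPeriods) (σ : ℂ →+* ℂ)
    (hA : ∀ (k : ℤ) (G : ModularForm 𝒮ℒ k), ∃ G' : ModularForm 𝒮ℒ k,
      qExpansion 1 G' = (qExpansion 1 G).map σ)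
    {k w : ℤ} (f : ModularForm Γ k)
    {m : ℕ} (c : (i : ℕ) → ModularForm 𝒮ℒ ((i : ℤ) * k))
    (hc : ∀ τ, f τ ^ m + ∑ i ∈ Finset.Icc 1 m, c i τ * f τ ^ (m - i) = 0)
    {n : ℕ} (g : ModularForm Γ w) (D : ModularForm Γ (w * ((n : ℤ) - 1)))
    (hg : (qExpansion 1 g).map σ = qExpansion 1 g) (hD : D ≠ 0)
    (G : (i : ℕ) → ModularForm 𝒮ℒ (w * ((n : ℤ) - 1 - i)))
    (hG : ∀ τ, D τ = ∑ i ∈ Finset.range n, G i τ * g τ ^ i)
    (H : (i : ℕ) → ModularForm 𝒮ℒ (k + w * ((n : ℤ) - 1 - i)))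
    (hH : ∀ τ, D τ * f τ = ∑ i ∈ Finset.range n, H i τ * g τ ^ i) :
    ∃ f' : ModularForm Γ k, qExpansion 1 f' = (qExpansion 1 f).map σ := by
  have hle : (Γ : Subgroup (GL (Fin 2) ℝ)) ≤ 𝒮ℒ := by
    rintro _ ⟨γ, -, rfl⟩
    exact ⟨γ, rfl⟩
  have h1' : (1 : ℝ) ∈ (𝒮ℒ : Subgroup (GL (Fin 2) ℝ)).strictPeriods :=
    one_mem_strictPeriods_SL
  choose G' hG' using fun i => hA _ (G i)
  choose H' hH' using fun i => hA _ (H i)
  choose c' hc' using fun i => hA _ (c i)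
  set Pg := qExpansion 1 (g : ℍ → ℂ) with hPg
  set Pf := qExpansion 1 (f : ℍ → ℂ) with hPf
  -- the form `A = D^σ`
  obtain ⟨A, hAe⟩ : IsMF (Γ : Subgroup (GL (Fin 2) ℝ)) (w * ((n : ℤ) - 1))
      (∑ i ∈ Finset.range n, (⇑(G' i) : ℍ → ℂ) * (⇑g : ℍ → ℂ) ^ i) := by
    refine isMF_sum _ _ fun i _ => ?_
    exact (((isMF_coe (G' i)).mono hle).mul ((isMF_coe g).pow i)).weight_eq (by ring)
  obtain ⟨B, hBe⟩ : IsMF (Γ : Subgroup (GL (Fin 2) ℝ)) (w * ((n : ℤ) - 1) + k)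
      (∑ i ∈ Finset.range n, (⇑(H' i) : ℍ → ℂ) * (⇑g : ℍ → ℂ) ^ i) := by
    refine isMF_sum _ _ fun i _ => ?_
    exact (((isMF_coe (H' i)).mono hle).mul ((isMF_coe g).pow i)).weight_eq (by ring)
  have hQg : HasQ (g : ℍ → ℂ) Pg := hasQ_of_class h1 g
  have hQf : HasQ (f : ℍ → ℂ) Pf := hasQ_of_class h1 f
  have hQA : HasQ (A : ℍ → ℂ) ((qExpansion 1 D).map σ) := by
    have e1 : HasQ (D : ℍ → ℂ) (∑ i ∈ Finset.range n, qExpansion 1 (G i : ℍ → ℂ) * Pg ^ i) := by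
      have : (⇑D : ℍ → ℂ) = ∑ i ∈ Finset.range n, (⇑(G i) : ℍ → ℂ) * (⇑g : ℍ → ℂ) ^ i := by
        funext τ
        rw [hG τ]
        simp only [Finset.sum_apply, Pi.mul_apply, Pi.pow_apply]
      rw [this]
      exact hasQ_sum _ _ _ fun i _ => (hasQ_of_class h1' (G i)).mul (hQg.pow i)
    rw [e1.2, map_sum, hAe]
    refine hasQ_sum _ _ _ fun i _ => ?_
    rw [map_mul, map_pow, hg, ← hG' i]
    exact (hasQ_of_class h1' (G' i)).mul (hQg.pow i)
  have hQB : HasQ (B : ℍ → ℂ) ((qExpansion 1 D).map σ * Pf.map σ) := by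
    have e1 : qExpansion 1 D * Pf =
        ∑ i ∈ Finset.range n, qExpansion 1 (H i : ℍ → ℂ) * Pg ^ i := by
      have e2 : HasQ ((D : ℍ → ℂ) * (f : ℍ → ℂ)) (qExpansion 1 D * Pf) :=
        (hasQ_of_class h1 D).mul hQf
      have e3 : HasQ ((D : ℍ → ℂ) * (f : ℍ → ℂ))
          (∑ i ∈ Finset.range n, qExpansion 1 (H i : ℍ → ℂ) * Pg ^ i) := by
        have : (⇑D : ℍ → ℂ) * (⇑f : ℍ → ℂ) =
            ∑ i ∈ Finset.range n, (⇑(H i) : ℍ → ℂ) * (⇑g : ℍ → ℂ) ^ i := by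
          funext τ
          simp only [Finset.sum_apply, Pi.mul_apply, Pi.pow_apply]
          exact hH τ
        rw [this]
        exact hasQ_sum _ _ _ fun i _ => (hasQ_of_class h1' (H i)).mul (hQg.pow i)
      rw [← e2.2, ← e3.2]
    rw [← map_mul, e1, map_sum, hBe]
    refine hasQ_sum _ _ _ fun i _ => ?_
    rw [map_mul, map_pow, hg, ← hH' i]
    exact (hasQ_of_class h1' (H' i)).mul (hQg.pow i)
  have hQD : qExpansion 1 D ≠ 0 := fun h0 =>
    hD ((ModularForm.qExpansion_eq_zero_iff one_pos h1 D).mp h0)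
  have hinj : Function.Injective (PowerSeries.map (σ : ℂ →+* ℂ)) := by
    intro P Q hPQ
    ext i
    have := congrArg (PowerSeries.coeff i) hPQ
    rw [PowerSeries.coeff_map, PowerSeries.coeff_map] at this
    exact σ.injective this
  have hPA : (qExpansion 1 D).map σ ≠ 0 := by
    intro h0
    exact hQD (hinj (by rw [h0, map_zero]))
  have hA0 : A ≠ 0 := by
    rintro rfl
    apply hPA
    rw [← hQA.2]
    exact qExpansion_zero 1
  -- integrality relation for q-expansions of `f`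
  have hrel : Pf ^ m + ∑ i ∈ Finset.Icc 1 m, qExpansion 1 (c i : ℍ → ℂ) * Pf ^ (m - i) = 0 := by
    have e1 : HasQ ((f : ℍ → ℂ) ^ m + ∑ i ∈ Finset.Icc 1 m, (c i : ℍ → ℂ) * (f : ℍ → ℂ) ^ (m - i))
        (Pf ^ m + ∑ i ∈ Finset.Icc 1 m, qExpansion 1 (c i : ℍ → ℂ) * Pf ^ (m - i)) :=
      (hQf.pow m).add (hasQ_sum _ _ _ fun i _ => (hasQ_of_class h1' (c i)).mul (hQf.pow _))
    have e2 : ((f : ℍ → ℂ) ^ m + ∑ i ∈ Finset.Icc 1 m, (c i : ℍ → ℂ) * (f : ℍ → ℂ) ^ (m - i)) =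
        0 := by
      funext τ
      simp only [Pi.add_apply, Pi.pow_apply, Finset.sum_apply, Pi.mul_apply, Pi.zero_apply]
      exact hc τ
    rw [e2] at e1
    rw [← e1.2]
    exact qExpansion_zero 1
  have hrel' : (Pf.map σ) ^ m +
      ∑ i ∈ Finset.Icc 1 m, qExpansion 1 (c' i : ℍ → ℂ) * (Pf.map σ) ^ (m - i) = 0 := by
    have := congrArg (PowerSeries.map σ) hrel
    rw [map_add, map_pow, map_sum, map_zero] at this
    rw [← this]
    congr 1
    refine Finset.sum_congr rfl fun i _ => ?_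
    rw [map_mul, map_pow, hc' i]
  -- the integral relation between `A` and `B`
  have hAB : ∀ τ : ℍ, B τ ^ m + ∑ i ∈ Finset.Icc 1 m, c' i τ * A τ ^ i * B τ ^ (m - i) = 0 := by
    obtain ⟨E, hE⟩ : IsMF (Γ : Subgroup (GL (Fin 2) ℝ)) ((m : ℤ) * (w * ((n : ℤ) - 1) + k))
        ((B : ℍ → ℂ) ^ m + ∑ i ∈ Finset.Icc 1 m, (c' i : ℍ → ℂ) * (A : ℍ → ℂ) ^ i *
          (B : ℍ → ℂ) ^ (m - i)) := by
      refine ((isMF_coe B).pow m).add (isMF_sum _ _ fun i hi => ?_)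
      have him : i ≤ m := (Finset.mem_Icc.mp hi).2
      refine ((((isMF_of_class (c' i)).mono hle).mul ((isMF_coe A).pow i)).mul
        ((isMF_coe B).pow (m - i))).weight_eq ?_
      push_cast [Nat.cast_sub him]
      ring
    have hQE : HasQ (E : ℍ → ℂ) 0 := by
      rw [hE]
      set PA := (qExpansion 1 D).map σ with hPAdef
      have e1 : HasQ ((B : ℍ → ℂ) ^ m + ∑ i ∈ Finset.Icc 1 m, (c' i : ℍ → ℂ) * (A : ℍ → ℂ) ^ i *
          (B : ℍ → ℂ) ^ (m - i)) ((PA * Pf.map σ) ^ m + ∑ i ∈ Finset.Icc 1 m,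
            qExpansion 1 (c' i : ℍ → ℂ) * PA ^ i * (PA * Pf.map σ) ^ (m - i)) :=
        (hQB.pow m).add (hasQ_sum _ _ _ fun i _ =>
          ((hasQ_of_class h1' (c' i)).mul (hQA.pow i)).mul (hQB.pow (m - i)))
      convert e1 using 1
      have e2 : (PA * Pf.map σ) ^ m + ∑ i ∈ Finset.Icc 1 m,
            qExpansion 1 (c' i : ℍ → ℂ) * PA ^ i * (PA * Pf.map σ) ^ (m - i) =
          PA ^ m * ((Pf.map σ) ^ m +
            ∑ i ∈ Finset.Icc 1 m, qExpansion 1 (c' i : ℍ → ℂ) * (Pf.map σ) ^ (m - i)) := by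
        rw [mul_add, mul_pow, Finset.mul_sum]
        congr 1
        refine Finset.sum_congr rfl fun i hi => ?_
        have him : i ≤ m := (Finset.mem_Icc.mp hi).2
        have h5 : PA ^ m = PA ^ i * PA ^ (m - i) := by
          rw [← pow_add]; congr 1; omega
        rw [h5, mul_pow]; ring
      rw [e2, hrel', mul_zero]
    have hE0 : E = 0 := (ModularForm.qExpansion_eq_zero_iff one_pos h1 E).mp hQE.2
    intro τ
    have := congrFun hE τ
    rw [hE0] at this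
    simp only [Pi.add_apply, Pi.pow_apply, Finset.sum_apply, Pi.mul_apply] at this
    rw [← this]
    rfl
  obtain ⟨F, hF⟩ := exists_modForm_mul_eq Γ A hA0 B c' hAB
  refine ⟨F, ?_⟩
  have hQF : HasQ (F : ℍ → ℂ) (qExpansion 1 F) := hasQ_of_class h1 F
  have e1 : (qExpansion 1 D).map σ * qExpansion 1 F = (qExpansion 1 D).map σ * Pf.map σ := by
    have e2 := hQA.mul hQF
    have e3 : (⇑A : ℍ → ℂ) * (⇑F : ℍ → ℂ) = ⇑B := funext hF
    rw [e3] at e2
    rw [← e2.2, ← hQB.2]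
  exact mul_left_cancel₀ hPA e1


end Fermat.Agent.H50
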