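import Mathlib
import Fermat.Agent.H90TwistedEis

/-!
# Fourier expansions of Eisenstein series with periodic coefficients

`hasSum_genEis` : for `c` bounded and `N`-periodic in the second variable, and `k ≥ 3`,
the `q_N`-expansion of `genEis k c`.
-/

set_option autoImplicit false

noncomputable section

open UpperHalfPlane hiding I
open Complex EisensteinSeries MatrixGroups
open scoped Real Nat

namespace Fermat.Agent.H50

open Fermat.Agent.H90

local notation "𝕢" => Function.Periodic.qParam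

/-- the constant in the Lipschitz formula -/
def lipC (N k : ℕ) : ℂ := (-2 * π * I) ^ k / ((k - 1)! * (N : ℂ) ^ k)

/-- the `N`-th root of unity `exp (2πi b / N)` -/
def rootE (N : ℕ) (b : ℤ) : ℂ := cexp (2 * π * I * b / N)

lemma rootE_add (N : ℕ) (a b : ℤ) : rootE N (a + b) = rootE N a * rootE N b := by
  rw [rootE, rootE, rootE, ← Complex.exp_add]
  congr 1
  push_cast
  ring

lemma rootE_zero (N : ℕ) : rootE N 0 = 1 := by simp [rootE]

lemma rootE_N_mul (N : ℕ) [NeZero N] (a : ℤ) : rootE N (N * a) = 1 := by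
  rw [rootE, Complex.exp_eq_one_iff]
  refine ⟨a, ?_⟩
  have : (N : ℂ) ≠ 0 := Nat.cast_ne_zero.mpr (NeZero.ne N)
  field_simp
  push_cast
  ring

lemma rootE_add_N_mul (N : ℕ) [NeZero N] (a b : ℤ) : rootE N (a + N * b) = rootE N a := by
  rw [rootE_add, rootE_N_mul, mul_one]

lemma rootE_eq_pow (N : ℕ) [NeZero N] (a : ℤ) (d : ℕ) : rootE N (a * d) = rootE N a ^ d := by
  rw [rootE, rootE, ← Complex.exp_nat_mul]
  congr 1
  push_cast
  ring

lemma norm_rootE (N : ℕ) (a : ℤ) : ‖rootE N a‖ = 1 := by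
  rw [rootE]
  have : 2 * (π : ℂ) * I * a / N = ((2 * π * a / N : ℝ) : ℂ) * I := by push_cast; ring
  rw [this, Complex.norm_exp_ofReal_mul_I]

lemma shift_mem {N : ℕ} [NeZero N] (m : ℕ) (hm : 0 < m) (b : ℤ) (z : ℍ) :
    0 < (((m : ℂ) * z + b) / N).im := by
  have hN : (0 : ℝ) < N := Nat.cast_pos.mpr (Nat.pos_of_ne_zero (NeZero.ne N))
  have : (((m : ℂ) * z + b) / N).im = m * z.im / N := by
    rw [Complex.div_natCast_im]
    simp
  rw [this]
  have hm' : (0 : ℝ) < m := Nat.cast_pos.mpr hm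
  have := z.im_pos
  positivity

/-- Lipschitz formula for one line with a periodic coefficient -/
theorem hasSum_line {N : ℕ} [NeZero N] {k : ℕ} (hk : 3 ≤ k) (u : ℤ → ℂ)
    (hu : ∀ n, u (n + N) = u n) {m : ℕ} (hm : 0 < m) (z : ℍ) :
    ∑' n : ℤ, u n * ((m : ℂ) * z + n) ^ (-(k : ℤ)) =
      lipC N k * ∑' d : ℕ+, (d : ℂ) ^ (k - 1) * (∑ b : Fin N, u b * rootE N (b * d)) *
        𝕢 N z ^ (m * d : ℕ) := by
  have hN : (N : ℂ) ≠ 0 := Nat.cast_ne_zero.mpr (NeZero.ne N)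
  have hu' : ∀ (t n : ℤ), u (t * N + n) = u n := by
    have hp : Function.Periodic u (N : ℤ) := hu
    intro t n
    have := (hp.zsmul t) n
    rw [smul_eq_mul] at this
    rw [add_comm, this]
  -- summability
  have hsum0 : ∀ b : ℤ, Summable fun t : ℤ => 1 / ((((m : ℂ) * z + b) / N) + t) ^ k := by
    intro b
    have := linear_right_summable (((m : ℂ) * z + b) / N) 1 (k := k) (by omega)
    refine this.congr fun t => ?_
    simp
  have hterm : ∀ (t : ℤ) (b : Fin N), u (t * N + b) *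
      ((m : ℂ) * z + ((t * N + b : ℤ) : ℂ)) ^ (-(k : ℤ)) =
      u b * ((N : ℂ) ^ k)⁻¹ * (1 / ((((m : ℂ) * z + (b : ℤ)) / N) + t) ^ k) := by
    intro t b
    rw [hu', zpow_neg, zpow_natCast]
    have h1 : ((m : ℂ) * z + ((t * N + b : ℤ) : ℂ)) = N * ((((m : ℂ) * z + (b : ℤ)) / N) + t) := by
      push_cast
      field_simp
      ring
    rw [h1, mul_pow]
    rw [mul_inv]
    ring
  have hsum2 : Summable fun p : Fin N × ℤ => u (p.2 * N + p.1) *
      ((m : ℂ) * z + ((p.2 * N + p.1 : ℤ) : ℂ)) ^ (-(k : ℤ)) := by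
    apply Summable.of_norm
    rw [summable_prod_of_nonneg (fun _ => norm_nonneg _)]
    refine ⟨fun b => ?_, (hasSum_fintype _).summable⟩
    simp_rw [hterm]
    exact ((hsum0 b).norm.mul_left ‖u b * ((N : ℂ) ^ k)⁻¹‖).congr fun t => (norm_mul _ _).symm
  rw [← (Int.divModEquiv N).symm.tsum_eq]
  simp only [Int.divModEquiv_symm_apply]
  rw [← (Equiv.prodComm (Fin N) ℤ).tsum_eq]
  simp only [Equiv.prodComm_apply, Prod.fst_swap, Prod.snd_swap]
  rw [hsum2.tsum_prod, tsum_fintype]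
  simp only [hterm]
  have hz : ∀ b : Fin N, ∑' t : ℤ, (1 / ((((m : ℂ) * z + (b : ℤ)) / N) + t) ^ k) =
      (-2 * π * I) ^ k / (k - 1)! * ∑' d : ℕ+, (d : ℂ) ^ (k - 1) *
        (rootE N (b * d) * 𝕢 N z ^ (m * d : ℕ)) := by
    intro b
    have h := qExpansion_identity_pnat (k := k - 1) (by omega)
      ⟨((m : ℂ) * z + (b : ℤ)) / N, shift_mem m hm b z⟩
    simp only [show k - 1 + 1 = k by omega] at h
    rw [h]
    congr 1
    refine tsum_congr fun d => ?_
    congr 1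
    rw [rootE, Function.Periodic.qParam, ← Complex.exp_nat_mul, ← Complex.exp_nat_mul,
      ← Complex.exp_add]
    congr 1
    push_cast
    field_simp
    ring
  simp_rw [tsum_mul_left, hz]
  have hq : ‖𝕢 N z‖ < 1 := by
    have hN0 : (0 : ℝ) < N := Nat.cast_pos.mpr (Nat.pos_of_ne_zero (NeZero.ne N))
    exact UpperHalfPlane.norm_qParam_lt_one _ z
  have hsumd : ∀ b : Fin N, Summable fun d : ℕ+ => u b * ((d : ℂ) ^ (k - 1) *
        (rootE N (b * d) * 𝕢 N z ^ (m * d : ℕ))) := by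
    intro b
    refine Summable.mul_left _ ?_
    apply Summable.of_norm
    have h3 := (summable_prod_mul_pow (𝕜 := ℂ) (k - 1) hq).norm.comp_injective
      (i := fun d : ℕ+ => ((⟨m, hm⟩ : ℕ+), d)) (fun a b h => by simpa using h)
    refine h3.congr fun d => ?_
    simp [norm_rootE, Function.comp]
  have hR : ∑' d : ℕ+, (d : ℂ) ^ (k - 1) * (∑ b : Fin N, u b * rootE N (b * d)) *
        𝕢 N z ^ (m * d : ℕ) = ∑ b : Fin N, u b * ∑' d : ℕ+, (d : ℂ) ^ (k - 1) *
        (rootE N (b * d) * 𝕢 N z ^ (m * d : ℕ)) := by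
    simp_rw [← tsum_mul_left]
    rw [← Summable.tsum_finsetSum fun b _ => hsumd b]
    refine tsum_congr fun d => ?_
    rw [Finset.mul_sum, Finset.sum_mul]
    refine Finset.sum_congr rfl fun b _ => ?_
    ring
  rw [hR, Finset.mul_sum]
  refine Finset.sum_congr rfl fun b _ => ?_
  rw [lipC]
  field_simp

/-- the Fourier transform of the coefficient function in the second variable, symmetrised -/
def fourC (N k : ℕ) (c : (Fin 2 → ℤ) → ℂ) (m d : ℕ) : ℂ :=
  ∑ b : Fin N, (c ![m, b] + (-1) ^ k * c ![-m, -b]) * rootE N (b * d)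

/-- the coefficients of the `q_N`-expansion -/
def coefE (N k : ℕ) (c : (Fin 2 → ℤ) → ℂ) (r : ℕ) : ℂ :=
  if r = 0 then ∑' n : ℤ, c ![0, n] * (n : ℂ) ^ (-(k : ℤ))
  else lipC N k * ∑ p ∈ r.divisorsAntidiagonal, (p.2 : ℂ) ^ (k - 1) * fourC N k c p.1 p.2

lemma norm_fourC_le {N k : ℕ} {c : (Fin 2 → ℤ) → ℂ} {C : ℝ} (hc : ∀ v, ‖c v‖ ≤ C) (m d : ℕ) :
    ‖fourC N k c m d‖ ≤ N * (2 * C) := by
  rw [fourC]
  refine (norm_sum_le _ _).trans ?_
  refine (Finset.sum_le_sum (g := fun _ => 2 * C) fun b _ => ?_).trans_eq ?_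
  · rw [norm_mul, norm_rootE, mul_one]
    refine (norm_add_le _ _).trans ?_
    rw [norm_mul, norm_pow, norm_neg, norm_one, one_pow, one_mul]
    linarith [hc ![m, b], hc ![-m, -b]]
  · simp

theorem hasSum_genEis {N : ℕ} [NeZero N] {k : ℕ} (hk : 3 ≤ k) {c : (Fin 2 → ℤ) → ℂ} {C : ℝ}
    (hc : ∀ v, ‖c v‖ ≤ C) (hper : ∀ m n, c ![m, n + N] = c ![m, n]) (z : ℍ) :
    HasSum (fun r : ℕ => coefE N k c r * 𝕢 N z ^ r) (genEis k c z) := by
  have hsum : Summable fun v => c v * eisSummand k v z :=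
    summable_term (by exact_mod_cast hk) hc z
  have hsum1 : Summable fun p : ℤ × ℤ => c ![p.1, p.2] * eisSummand k ![p.1, p.2] z := by
    refine (finTwoArrowEquiv ℤ).summable_iff.mp <| hsum.congr fun v => ?_
    simp [show ![v 0, v 1] = v from List.ofFn_inj.mp rfl]
  have h1 : genEis k c z = ∑' (m : ℤ), ∑' n : ℤ, c ![m, n] * eisSummand k ![m, n] z := by
    rw [genEis, ← (finTwoArrowEquiv ℤ).symm.tsum_eq, finTwoArrowEquiv_symm_apply]
    exact hsum1.tsum_prod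
  have h0 : ∑' n : ℤ, c ![0, n] * eisSummand k ![0, n] z =
      ∑' n : ℤ, c ![0, n] * (n : ℂ) ^ (-(k : ℤ)) := by
    refine tsum_congr fun n => ?_
    simp [eisSummand]
  have hpos : ∀ m : ℕ+, ∑' n : ℤ, c ![m, n] * eisSummand k ![m, n] z =
      lipC N k * ∑' d : ℕ+, (d : ℂ) ^ (k - 1) * (∑ b : Fin N, c ![m, b] * rootE N (b * d)) *
        𝕢 N z ^ (m * d : ℕ) := by
    intro m
    rw [← hasSum_line hk (fun n => c ![m, n]) (fun n => hper _ _) m.pos z]
    refine tsum_congr fun n => ?_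
    simp [eisSummand]
  have hper' : ∀ m n, c ![-m, -(n + N)] = c ![-m, -n] := by
    intro m n
    have := hper (-m) (-(n + N))
    rw [show -(n + (N : ℤ)) + N = -n by ring] at this
    exact this.symm
  have hneg : ∀ m : ℕ+, ∑' n : ℤ, c ![-m, n] * eisSummand k ![-m, n] z =
      lipC N k * ∑' d : ℕ+, (d : ℂ) ^ (k - 1) *
        (∑ b : Fin N, ((-1) ^ k * c ![-m, -b]) * rootE N (b * d)) * 𝕢 N z ^ (m * d : ℕ) := by
    intro m
    rw [← hasSum_line hk (fun n => (-1) ^ k * c ![-m, -n]) (fun n => by rw [hper']) m.pos z]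
    rw [← (Equiv.neg ℤ).tsum_eq]
    refine tsum_congr fun n => ?_
    simp only [Equiv.neg_apply, eisSummand]
    have : ((![-(m : ℤ), -n] 0 : ℤ) : ℂ) * (z : ℂ) + ((![-(m : ℤ), -n] 1 : ℤ) : ℂ) =
      (-1) * (((m : ℕ) : ℂ) * z + n) := by simp; ring
    rw [this, mul_zpow]
    have h2 : ((-1 : ℂ)) ^ (-(k : ℤ)) = (-1) ^ k := by
      rw [zpow_neg, zpow_natCast, ← inv_pow]
      norm_num
    rw [h2]
    ring
  have hS : Summable fun m : ℤ => ∑' n : ℤ, c ![m, n] * eisSummand k ![m, n] z := hsum1.prod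
  have hq : ‖𝕢 N z‖ < 1 := UpperHalfPlane.norm_qParam_lt_one _ z
  have hC : 0 ≤ C := le_trans (norm_nonneg _) (hc 0)
  -- double sum
  have hdbl : Summable fun p : ℕ+ × ℕ+ => lipC N k * ((p.2 : ℂ) ^ (k - 1) *
      fourC N k c p.1 p.2) * 𝕢 N z ^ (p.1 * p.2 : ℕ) := by
    refine Summable.of_norm_bounded
      ((summable_prod_mul_pow (𝕜 := ℂ) (k - 1) hq).norm.mul_left (‖lipC N k‖ * (N * (2 * C))))
      fun p => ?_
    rw [norm_mul, norm_mul, norm_mul, norm_mul]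
    have h3 := norm_fourC_le (N := N) (k := k) hc p.1 p.2
    have e : ‖lipC N k‖ * (‖((p.2 : ℕ) : ℂ) ^ (k - 1)‖ * ‖fourC N k c p.1 p.2‖) *
      ‖𝕢 N z ^ (p.1 * p.2 : ℕ)‖ = ‖lipC N k‖ * ‖fourC N k c p.1 p.2‖ *
      (‖((p.2 : ℕ) : ℂ) ^ (k - 1)‖ * ‖𝕢 N z ^ (p.1 * p.2 : ℕ)‖) := by ring
    rw [e]
    gcongr
  have hcomb : ∑' m : ℕ+, ∑' n : ℤ, c ![m, n] * eisSummand k ![m, n] z +
      ∑' m : ℕ+, ∑' n : ℤ, c ![-m, n] * eisSummand k ![-m, n] z =
      ∑' p : ℕ+ × ℕ+, lipC N k * ((p.2 : ℂ) ^ (k - 1) *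
      fourC N k c p.1 p.2) * 𝕢 N z ^ (p.1 * p.2 : ℕ) := by
    rw [hdbl.tsum_prod]
    have i1 : Summable fun m : ℕ+ => ∑' n : ℤ, c ![m, n] * eisSummand k ![m, n] z :=
      hS.comp_injective (i := fun m : ℕ+ => ((m : ℕ) : ℤ)) (fun a b h => by
        have h' : ((a : ℕ) : ℤ) = ((b : ℕ) : ℤ) := h
        have : (a : ℕ) = b := by omega
        exact PNat.coe_injective this)
    have i2 : Summable fun m : ℕ+ => ∑' n : ℤ, c ![-m, n] * eisSummand k ![-m, n] z :=
      hS.comp_injective (i := fun m : ℕ+ => -((m : ℕ) : ℤ)) (fun a b h => by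
        have h' : -((a : ℕ) : ℤ) = -((b : ℕ) : ℤ) := h
        have : (a : ℕ) = b := by omega
        exact PNat.coe_injective this)
    rw [← i1.tsum_add i2]
    refine tsum_congr fun m => ?_
    rw [hpos, hneg, ← mul_add]
    have hs : ∀ u : ℤ → ℂ, Summable fun d : ℕ+ => (d : ℂ) ^ (k - 1) *
        (∑ b : Fin N, u b * rootE N (b * d)) * 𝕢 N z ^ (m * d : ℕ) := by
      intro u
      have h3 := ((summable_prod_mul_pow (𝕜 := ℂ) (k - 1) hq).norm.comp_injective
        (i := fun d : ℕ+ => (m, d)) (fun a b h => by simpa using h)).mul_left (∑ b : Fin N, ‖u b‖)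
      refine Summable.of_norm_bounded h3 fun d => ?_
      rw [norm_mul, norm_mul]
      have h4 : ‖∑ b : Fin N, u b * rootE N (b * d)‖ ≤ ∑ b : Fin N, ‖u b‖ := by
        refine (norm_sum_le _ _).trans (Finset.sum_le_sum fun b _ => ?_)
        rw [norm_mul, norm_rootE, mul_one]
      simp only [Function.comp, norm_mul]
      have e : ‖((d : ℕ) : ℂ) ^ (k - 1)‖ * ‖∑ b : Fin N, u b * rootE N (b * d)‖ *
        ‖𝕢 N z ^ (m * d : ℕ)‖ = ‖∑ b : Fin N, u b * rootE N (b * d)‖ *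
        (‖((d : ℕ) : ℂ) ^ (k - 1)‖ * ‖𝕢 N z ^ (m * d : ℕ)‖) := by ring
      rw [e]
      gcongr
    rw [← (hs fun n => c ![m, n]).tsum_add (hs fun n => (-1) ^ k * c ![-m, -n]), ← tsum_mul_left]
    refine tsum_congr fun d => ?_
    rw [fourC]
    simp only [add_mul, Finset.sum_add_distrib]
    ring
  have htot : genEis k c z = coefE N k c 0 + ∑' p : ℕ+ × ℕ+, lipC N k * ((p.2 : ℂ) ^ (k - 1) *
      fourC N k c p.1 p.2) * 𝕢 N z ^ (p.1 * p.2 : ℕ) := by
    rw [h1, tsum_int_eq_zero_add_tsum_pnat hS, ← hcomb, h0]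
    simp only [coefE, if_true]
    ring
  -- regroup
  have hreg := hdbl.hasSum
  rw [← sigmaAntidiagonalEquivProd.hasSum_iff] at hreg
  have hreg2 := hreg.sigma (fun n => (hasSum_fintype _))
  have hfin : HasSum (fun n : ℕ+ => coefE N k c n * 𝕢 N z ^ (n : ℕ))
      (∑' p : ℕ+ × ℕ+, lipC N k * ((p.2 : ℂ) ^ (k - 1) *
      fourC N k c p.1 p.2) * 𝕢 N z ^ (p.1 * p.2 : ℕ)) := by
    convert! hreg2 using 2 with n
    rw [coefE, if_neg n.ne_zero]
    simp only [Function.comp, sigmaAntidiagonalEquivProd, divisorsAntidiagonalFactors,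
      Equiv.coe_fn_mk, PNat.mk_coe]
    rw [Finset.univ_eq_attach, Finset.sum_attach (n : ℕ).divisorsAntidiagonal
      (fun x => lipC N k * ((x.2 : ℂ) ^ (k - 1) * fourC N k c x.1 x.2) * 𝕢 N z ^ (x.1 * x.2)),
      Finset.mul_sum, Finset.sum_mul]
    refine Finset.sum_congr rfl fun x hx => ?_
    rw [(Nat.mem_divisorsAntidiagonal.mp hx).1]
  rw [htot, ← hasSum_nat_add_iff' 1]
  simp only [Finset.range_one, Finset.sum_singleton, pow_zero, mul_one]
  rw [add_sub_cancel_left]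
  exact (hasSum_pnat_iff_hasSum_succ (f := fun n => coefE N k c n * 𝕢 N z ^ n)).mp hfin

end Fermat.Agent.H50
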