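import Mathlib
import Fermat.Agent.H50EisQ

/-!
# Eisenstein series of weight `k ≥ 3` on `Γ₁(N)` with explicit `q`-expansions

`eisG N k hk φ : ModularForm (Gamma1 N) k` has `q`-expansion
`c₀ + ∑_{r ≥ 1} (∑_{m d = r} d^(k-1) (φ(m) + (-1)^k φ(-m))) q^r`.
-/

set_option autoImplicit false

noncomputable section

open UpperHalfPlane hiding I
open Complex EisensteinSeries MatrixGroups CongruenceSubgroup ModularForm Matrix
open scoped Real Nat

namespace Fermat.Agent.H50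

open Fermat.Agent.H90

local notation "𝕢" => Function.Periodic.qParam

/-- coefficient function depending only on the first coordinate modulo `N` -/
def colC (N : ℕ) (u : ZMod N → ℂ) (v : Fin 2 → ℤ) : ℂ := u ((v 0 : ℤ) : ZMod N)

lemma exists_bound {N : ℕ} [NeZero N] (u : ZMod N → ℂ) : ∃ C : ℝ, ∀ x, ‖u x‖ ≤ C := by
  classical
  refine ⟨∑ x, ‖u x‖, fun x => ?_⟩
  exact Finset.single_le_sum (f := fun x => ‖u x‖) (fun _ _ => norm_nonneg _) (Finset.mem_univ x)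

lemma lipC_ne_zero {N k : ℕ} [NeZero N] : lipC N k ≠ 0 := by
  rw [lipC]
  have hN : (N : ℂ) ≠ 0 := Nat.cast_ne_zero.mpr (NeZero.ne N)
  have h1 : ((k - 1)! : ℂ) ≠ 0 := by exact_mod_cast Nat.factorial_ne_zero _
  have h2 : (-2 * π * I : ℂ) ≠ 0 := by simp [Real.pi_ne_zero]
  positivity

variable {N : ℕ} [NeZero N] {k : ℕ}

omit [NeZero N] in
lemma vecMul_inv_zero (δ : SL(2, ℤ)) (v : Fin 2 → ℤ) :
    (v ᵥ* ((δ⁻¹ : SL(2, ℤ)) : Matrix (Fin 2) (Fin 2) ℤ)) 0 = v 0 * δ 1 1 - v 1 * δ 1 0 := by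
  have h := Matrix.SpecialLinearGroup.SL2_inv_expl δ
  have h00 : (δ⁻¹) 0 0 = δ 1 1 := by rw [h]; rfl
  have h10 : (δ⁻¹) 1 0 = -δ 1 0 := by rw [h]; rfl
  have : (v ᵥ* ((δ⁻¹ : SL(2, ℤ)) : Matrix (Fin 2) (Fin 2) ℤ)) 0 =
      v 0 * (δ⁻¹) 0 0 + v 1 * (δ⁻¹) 1 0 := by
    simp [vecMul, dotProduct, Fin.sum_univ_two]
  rw [this, h00, h10]
  ring

omit [NeZero N] in
lemma colC_slash (u : ZMod N → ℂ) {δ : SL(2, ℤ)} (hδ : δ ∈ Gamma0 N) :
    genEis k (colC N u) ∣[(k : ℤ)] δ = genEis k (colC N fun x => u (x * (δ 1 1 : ℤ))) := by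
  rw [genEis_slash]
  congr 1
  funext v
  rw [colC, colC, vecMul_inv_zero]
  push_cast
  rw [(Gamma0_mem.mp hδ : ((δ 1 0 : ℤ) : ZMod N) = 0), mul_zero, sub_zero]

omit [NeZero N] in
lemma one_mem_strictPeriods_Gamma1 :
    (1 : ℝ) ∈ (Gamma1 N : Subgroup (GL (Fin 2) ℝ)).strictPeriods := by
  simp

/-- The normalised Eisenstein series of weight `k ≥ 3` on `Γ₁(N)` attached to `u : ZMod N → ℂ`. -/
def eisG (N : ℕ) [NeZero N] (k : ℕ) (hk : 3 ≤ k) (u : ZMod N → ℂ) :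
    ModularForm (Gamma1 N) (k : ℤ) where
  toFun := (lipC 1 k)⁻¹ • genEis k (colC N u)
  slash_action_eq' := by
    rintro _ ⟨γ, hγ, rfl⟩
    have h0 : γ ∈ Gamma0 N := Gamma1_in_Gamma0 N hγ
    have h1 : ((γ 1 1 : ℤ) : ZMod N) = 1 := ((Gamma1_mem N γ).mp hγ).2.1
    have := colC_slash (k := k) u h0
    rw [h1] at this
    simp only [mul_one] at this
    change ((lipC 1 k)⁻¹ • genEis k (colC N u)) ∣[(k : ℤ)] γ = _
    rw [ModularForm.SL_smul_slash, this]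
  holo' := by
    obtain ⟨C, hC⟩ := exists_bound u
    exact (genEis_mdifferentiable (by exact_mod_cast hk) (C := C)
      (c := colC N u) (fun v => hC _)).const_smul _
  bdd_at_cusps' {c} hc := by
    obtain ⟨C, hC⟩ := exists_bound u
    rw [Subgroup.IsArithmetic.isCusp_iff_isCusp_SL2Z] at hc
    rw [OnePoint.isBoundedAt_iff_forall_SL2Z hc]
    intro γ _
    rw [ModularForm.SL_smul_slash, genEis_slash]
    exact (genEis_bounded (by exact_mod_cast hk) (C := C) fun v => hC _).const_smul_left _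

lemma coe_eisG (hk : 3 ≤ k) (u : ZMod N → ℂ) :
    (eisG N k hk u : ℍ → ℂ) = (lipC 1 k)⁻¹ • genEis k (colC N u) := rfl

/-- Diamond operators. -/
lemma eisG_slash (hk : 3 ≤ k) (u : ZMod N → ℂ) {δ : SL(2, ℤ)} (hδ : δ ∈ Gamma0 N) :
    (eisG N k hk u : ℍ → ℂ) ∣[(k : ℤ)] δ = eisG N k hk fun x => u (x * (δ 1 1 : ℤ)) := by
  rw [coe_eisG, coe_eisG, ModularForm.SL_smul_slash, colC_slash u hδ]

/-- the coefficients of the `q`-expansion of `eisG` -/
def coefG (N k : ℕ) (u : ZMod N → ℂ) (r : ℕ) : ℂ :=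
  if r = 0 then (lipC 1 k)⁻¹ * (u 0 * ∑' n : ℤ, (n : ℂ) ^ (-(k : ℤ)))
  else ∑ p ∈ r.divisorsAntidiagonal, (p.2 : ℂ) ^ (k - 1) * (u p.1 + (-1) ^ k * u (-p.1))

theorem hasSum_eisG (hk : 3 ≤ k) (u : ZMod N → ℂ) (z : ℍ) :
    HasSum (fun r : ℕ => coefG N k u r * 𝕢 1 z ^ r) (eisG N k hk u z) := by
  obtain ⟨C, hC⟩ := exists_bound u
  have h := (hasSum_genEis (N := 1) hk (c := colC N u) (C := C) (fun v => hC _)
    (fun m n => by simp [colC]) z).mul_left (lipC 1 k)⁻¹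
  rw [coe_eisG]
  simp only [Pi.smul_apply, smul_eq_mul]
  convert! h using 2 with r
  · rw [← mul_assoc, coefG, coefE]
    simp only [Nat.cast_one]
    congr 1
    split_ifs with h0
    · simp only [colC, cons_val_zero, Int.cast_zero]
      rw [tsum_mul_left]
    · rw [← mul_assoc, inv_mul_cancel₀ lipC_ne_zero, one_mul]
      refine Finset.sum_congr rfl fun p _ => ?_
      simp [fourC, colC, rootE]

theorem qExpansion_eisG (hk : 3 ≤ k) (u : ZMod N → ℂ) (r : ℕ) :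
    (qExpansion 1 (eisG N k hk u)).coeff r = coefG N k u r :=
  (ModularFormClass.qExpansion_coeff_unique one_pos one_mem_strictPeriods_Gamma1
    (fun τ => by simpa using hasSum_eisG hk u τ) r).symm

lemma coefG_zero_of_odd (hk : Odd k) (hk3 : 3 ≤ k) (u : ZMod N → ℂ) : coefG N k u 0 = 0 := by
  rw [coefG, if_pos rfl]
  have h : ∑' n : ℤ, (n : ℂ) ^ (-(k : ℤ)) = -∑' n : ℤ, (n : ℂ) ^ (-(k : ℤ)) := by
    conv_lhs => rw [← (Equiv.neg ℤ).tsum_eq]
    rw [← tsum_neg]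
    refine tsum_congr fun n => ?_
    simp only [Equiv.neg_apply, Int.cast_neg]
    rw [_root_.zpow_neg, _root_.zpow_neg, zpow_natCast, zpow_natCast, hk.neg_pow, inv_neg]
  have h0 : ∑' n : ℤ, (n : ℂ) ^ (-(k : ℤ)) = 0 := by
    have h2 : (2 : ℂ) * ∑' n : ℤ, (n : ℂ) ^ (-(k : ℤ)) = 0 := by linear_combination h
    simpa using h2
  rw [h0]
  simp

omit [NeZero N] in
lemma coefG_one (u : ZMod N → ℂ) : coefG N k u 1 = u 1 + (-1) ^ k * u (-1) := by
  simp [coefG]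

/-- integrality of the coefficients in odd weight -/
lemma coefG_int_of_odd (hk : Odd k) (hk3 : 3 ≤ k) (u : ZMod N → ℤ) (r : ℕ) :
    ∃ a : ℤ, coefG N k (fun x => (u x : ℂ)) r = a := by
  rcases eq_or_ne r 0 with rfl | hr
  · exact ⟨0, by rw [coefG_zero_of_odd hk hk3]; simp⟩
  · refine ⟨∑ p ∈ r.divisorsAntidiagonal, (p.2 : ℤ) ^ (k - 1) * (u p.1 + (-1) ^ k * u (-p.1)), ?_⟩
    rw [coefG, if_neg hr]
    push_cast
    rfl

end Fermat.Agent.H50
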