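import Mathlib
import Fermat.Agent.H50Gamma1Eis
import Fermat.Agent.H23Main

/-!
# Primitive forms on `Γ₁(N)` and the arithmetic of `S_k(Γ)`

`HasPrim Γ` : there is a modular form on `Γ` with integral `q`-expansion whose stabiliser in
`SL₂(ℤ)` is exactly `Γ`.  `hasPrim_Gamma1 N`.
For such `Γ` (containing `T`): Galois conjugation, rational spans, bounded denominators.
-/

set_option autoImplicit false

noncomputable section

open UpperHalfPlane hiding I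
open Complex EisensteinSeries MatrixGroups CongruenceSubgroup ModularForm ModularFormClass
open scoped Real Nat Manifold

namespace Fermat.Agent.H50

/-- the group has a primitive form with integral `q`-expansion -/
def HasPrim (Γ : Subgroup SL(2, ℤ)) : Prop :=
  ∃ (w : ℤ) (g : ModularForm Γ w), (∀ m, ∃ z : ℤ, (qExpansion 1 g).coeff m = z) ∧
    ∀ γ : SL(2, ℤ), (⇑g : ℍ → ℂ) ∣[w] γ = ⇑g → γ ∈ Γ

theorem hasPrim_Gamma0 (N : ℕ) [NeZero N] : HasPrim (Gamma0 N) :=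
  ⟨4, H78.E4N N, H78.E4N_integral N, fun γ h => H78.E4N_stab N γ h⟩

section Generic

variable {Γ : Subgroup SL(2, ℤ)} [Γ.FiniteIndex]

/-- if two forms have joint stabiliser `Γ`, a combination has stabiliser `Γ` -/
theorem exists_comb_stab {w : ℤ} (a b : ModularForm Γ w)
    (hst : ∀ γ : SL(2, ℤ), (⇑a : ℍ → ℂ) ∣[w] γ = ⇑a → (⇑b : ℍ → ℂ) ∣[w] γ = ⇑b → γ ∈ Γ) :
    ∃ t : ℕ, ∀ γ : SL(2, ℤ),
      (⇑(a + (t : ℂ) • b) : ℍ → ℂ) ∣[w] γ = ⇑(a + (t : ℂ) • b) → γ ∈ Γ := by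
  classical
  let g : ℕ → ModularForm Γ w := fun t => a + (t : ℂ) • b
  have hg : ∀ t, (⇑(g t) : ℍ → ℂ) = ⇑a + (t : ℂ) • ⇑b := fun t => rfl
  have hgs : ∀ t (γ : SL(2, ℤ)), (⇑(g t) : ℍ → ℂ) ∣[w] γ =
      (⇑a : ℍ → ℂ) ∣[w] γ + (t : ℂ) • ((⇑b : ℍ → ℂ) ∣[w] γ) := by
    intro t γ
    rw [hg, SlashAction.add_slash, ModularForm.SL_smul_slash]
  by_contra hcon
  have hbad : ∀ t : ℕ, ∃ γ : SL(2, ℤ), (⇑(g t) : ℍ → ℂ) ∣[w] γ = ⇑(g t) ∧ γ ∉ Γ := by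
    intro t
    by_contra h
    push Not at h
    exact hcon ⟨t, h⟩
  choose γ hγ hγn using hbad
  have : Finite (SL(2, ℤ) ⧸ Γ) := Subgroup.finite_quotient_of_finiteIndex
  obtain ⟨s, t, hst', heq⟩ := Finite.exists_ne_map_eq_of_infinite
    (fun t : ℕ => (QuotientGroup.mk (γ t)⁻¹ : SL(2, ℤ) ⧸ Γ))
  rw [QuotientGroup.eq, inv_inv] at heq
  -- `γ s * (γ t)⁻¹ ∈ Γ`
  set δ := γ s * (γ t)⁻¹ with hδ
  have hs2 : (⇑(g s) : ℍ → ℂ) ∣[w] γ t = ⇑(g s) := by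
    have e : γ s = δ * γ t := by rw [hδ]; group
    have h2 := hγ s
    rw [e, SlashAction.slash_mul] at h2
    have h3 : (⇑(g s) : ℍ → ℂ) ∣[w] δ = ⇑(g s) :=
      SlashInvariantFormClass.slash_action_eq (g s) _ ⟨δ, heq, rfl⟩
    rwa [h3] at h2
  have ht2 := hγ t
  rw [hgs, hg] at hs2 ht2
  have hne : ((s : ℂ) - t) ≠ 0 := by
    rw [sub_ne_zero]
    exact_mod_cast hst'
  have hbb : (⇑b : ℍ → ℂ) ∣[w] γ t = ⇑b := by
    have h4 : ((s : ℂ) - t) • ((⇑b : ℍ → ℂ) ∣[w] γ t) = ((s : ℂ) - t) • (⇑b : ℍ → ℂ) := by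
      rw [sub_smul, sub_smul]
      have e3 := congrArg₂ (fun x y : ℍ → ℂ => x - y) hs2 ht2
      change (⇑a ∣[w] γ t + (s : ℂ) • ⇑b ∣[w] γ t) - (⇑a ∣[w] γ t + (t : ℂ) • ⇑b ∣[w] γ t) =
        (⇑a + (s : ℂ) • ⇑b) - (⇑a + (t : ℂ) • ⇑b) at e3
      rwa [add_sub_add_left_eq_sub, add_sub_add_left_eq_sub] at e3
    exact smul_right_injective _ hne h4
  have haa : (⇑a : ℍ → ℂ) ∣[w] γ t = ⇑a := by
    rw [hbb] at ht2
    exact add_right_cancel ht2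
  exact hγn t (hst _ haa hbb)

omit [Γ.FiniteIndex] in
lemma comb_int (h1 : (1 : ℝ) ∈ (Γ : Subgroup (GL (Fin 2) ℝ)).strictPeriods) {w : ℤ}
    (a b : ModularForm Γ w)
    (ha : ∀ m, ∃ z : ℤ, (qExpansion 1 a).coeff m = z)
    (hb : ∀ m, ∃ z : ℤ, (qExpansion 1 b).coeff m = z) (t : ℕ) (m : ℕ) :
    ∃ z : ℤ, (qExpansion 1 (a + (t : ℂ) • b : ModularForm Γ w)).coeff m = z := by
  obtain ⟨x, hx⟩ := ha m
  obtain ⟨y, hy⟩ := hb m
  refine ⟨x + t * y, ?_⟩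
  rw [FunLike.coe_add, ModularForm.qExpansion_add one_pos h1, FunLike.coe_smul,
    ModularForm.qExpansion_smul one_pos h1, map_add, PowerSeries.coeff_smul, hx, hy]
  push_cast
  rfl

/-- if two forms with integral `q`-expansions have joint stabiliser `Γ`, a combination is
primitive -/
theorem hasPrim_of_pair (h1 : (1 : ℝ) ∈ (Γ : Subgroup (GL (Fin 2) ℝ)).strictPeriods) {w : ℤ}
    (a b : ModularForm Γ w)
    (ha : ∀ m, ∃ z : ℤ, (qExpansion 1 a).coeff m = z)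
    (hb : ∀ m, ∃ z : ℤ, (qExpansion 1 b).coeff m = z)
    (hst : ∀ γ : SL(2, ℤ), (⇑a : ℍ → ℂ) ∣[w] γ = ⇑a → (⇑b : ℍ → ℂ) ∣[w] γ = ⇑b → γ ∈ Γ) :
    HasPrim Γ := by
  obtain ⟨t, ht⟩ := exists_comb_stab a b hst
  exact ⟨w, a + (t : ℂ) • b, comb_int h1 a b ha hb t, ht⟩

end Generic

/-! ### `Γ₁(N)` -/

lemma Gamma1_eq_Gamma0_of_le_two {N : ℕ} (hN : N ≤ 2) [NeZero N] : Gamma1 N = Gamma0 N := by
  refine le_antisymm (Gamma1_in_Gamma0 N) fun γ hγ => ?_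
  have hN0 : N ≠ 0 := NeZero.ne N
  rw [Gamma1_mem]
  have h10 := Gamma0_mem.mp hγ
  interval_cases N
  · exact absurd rfl hN0
  · exact ⟨Subsingleton.elim _ _, Subsingleton.elim _ _, h10⟩
  · have hdet : ((γ 0 0 : ℤ) : ZMod 2) * (γ 1 1 : ℤ) = 1 := by
      have := congrArg (Int.cast : ℤ → ZMod 2) γ.det_coe
      rw [Matrix.det_fin_two] at this
      push_cast at this
      rw [h10] at this
      simpa using this
    have key : ∀ x y : ZMod 2, x * y = 1 → x = 1 ∧ y = 1 := by decide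
    exact ⟨(key _ _ hdet).1, (key _ _ hdet).2, h10⟩

section E4

open H78

variable (N : ℕ) [NeZero N]

/-- the limit of `E₄(Nτ) ∣ γ` at `i∞` -/
lemma E4N_lim (γ : SL(2, ℤ)) : ∃ x : ℝ, x ≠ 0 ∧
    Filter.Tendsto ((E4N N : ℍ → ℂ) ∣[(4 : ℤ)] γ) atImInfty (nhds (((x ^ 4)⁻¹ : ℝ) : ℂ)) ∧
    (x ^ 4 = 1 → γ ∈ Gamma0 N) := by
  have hN : N ≠ 0 := NeZero.ne N
  have hNC : (N : ℂ) ≠ 0 := by exact_mod_cast hN
  obtain ⟨δ, e, hedvd, hV10, hV00⟩ := exists_upper N γ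
  set V : GL (Fin 2) ℝ := (Matrix.SpecialLinearGroup.mapGL ℝ δ)⁻¹ * heckeDiagMatrix N *
      Matrix.SpecialLinearGroup.mapGL ℝ γ with hVdef
  have hVdet : V.det.val = N := by
    rw [hVdef, map_mul, map_mul, Units.val_mul, Units.val_mul, det_heckeDiagMatrix hN, map_inv]
    simp
  have hV : (E₄ : ℍ → ℂ) ∣[(4 : ℤ)] V = ((E₄ : ℍ → ℂ) ∣[(4 : ℤ)] heckeDiagMatrix N) ∣[(4 : ℤ)]
      (Matrix.SpecialLinearGroup.mapGL ℝ γ) := by
    rw [hVdef, SlashAction.slash_mul, SlashAction.slash_mul, ← map_inv, E4_slash]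
  have hNpos : (0 : ℝ) < N := by exact_mod_cast Nat.pos_of_ne_zero hN
  have hdetV : V.det.val = V 0 0 * V 1 1 := by
    rw [Matrix.GeneralLinearGroup.val_det_apply, Matrix.det_fin_two, hV10]; ring
  have hV11 : V 1 1 ≠ 0 := by
    intro h0
    rw [h0, mul_zero, hVdet] at hdetV
    exact hNpos.ne' hdetV
  refine ⟨V 1 1, hV11, ?_, fun h4 => ?_⟩
  · have lim1 := tendsto_slash E4_tendsto 4 hV10 (by rw [hVdet]; exact hNpos)
    rw [hV] at lim1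
    have e1 : ((E4N N : ℍ → ℂ) ∣[(4 : ℤ)] γ) = ((N : ℂ) ^ (3 : ℤ))⁻¹ •
        (((E₄ : ℍ → ℂ) ∣[(4 : ℤ)] heckeDiagMatrix N) ∣[(4 : ℤ)]
          (Matrix.SpecialLinearGroup.mapGL ℝ γ)) := by
      rw [coe_E4N, e4N_eq', ModularForm.SL_smul_slash]
      rfl
    rw [e1]
    convert! lim1.const_smul (((N : ℂ) ^ (3 : ℤ))⁻¹) using 2
    have h3 : ((N : ℂ) ^ (3 : ℤ)) ≠ 0 := zpow_ne_zero _ hNC
    generalize V 1 1 = x
    rw [hVdet, smul_eq_mul, one_mul, show (4 : ℤ) - 1 = 3 by norm_num]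
    push_cast
    rw [← mul_assoc, inv_mul_cancel₀ h3, one_mul, _root_.zpow_neg]
    norm_cast
  · have h11 : V 1 1 = 1 ∨ V 1 1 = -1 := by
      have : (V 1 1 - 1) * (V 1 1 + 1) * ((V 1 1) ^ 2 + 1) = 0 := by linear_combination h4
      rcases mul_eq_zero.mp this with h | h
      · rcases mul_eq_zero.mp h with h | h
        · left; linarith
        · right; linarith
      · nlinarith [sq_nonneg (V 1 1)]
    have he : e = N ∨ e = -N := by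
      rw [hV00, hVdet] at hdetV
      rcases h11 with h | h
      · left
        rw [h, mul_one] at hdetV
        exact_mod_cast hdetV.symm
      · right
        rw [h] at hdetV
        have : (e : ℝ) = -N := by linarith
        exact_mod_cast this
    rw [Gamma0_mem, ZMod.intCast_zmod_eq_zero_iff_dvd]
    rcases he with rfl | rfl
    · exact hedvd
    · exact (neg_dvd).mp hedvd

lemma E4N_tendsto : Filter.Tendsto (E4N N : ℍ → ℂ) atImInfty (nhds 1) := by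
  have hN : N ≠ 0 := NeZero.ne N
  exact E4_tendsto.comp (tendsto_smul_atImInfty (by rw [val_heckeDiagMatrix hN]; simp))

end E4

lemma pow_slash_SL2 (k : ℤ) (f : ℍ → ℂ) (γ : SL(2, ℤ)) (n : ℕ) :
    (f ^ n) ∣[(n * k : ℤ)] γ = (f ∣[k] γ) ^ n := by
  induction n with
  | zero =>
    simp only [pow_zero, Nat.cast_zero, zero_mul]
    exact ModularForm.is_invariant_one' γ
  | succ n ih =>
    rw [pow_succ, pow_succ, ← ih, ← ModularForm.mul_slash_SL2]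
    congr 1
    push_cast
    ring

open H79 in
/-- the joint stabiliser of `F^5` and `E₄(Nτ)^3 F` -/
theorem stab_aux (N : ℕ) [NeZero N] (hN : 3 ≤ N) (γ : SL(2, ℤ))
    (h1 : ((eisG N 3 le_rfl (fun x => if x = 1 then 1 else 0) : ℍ → ℂ) ∣[((3 : ℕ) : ℤ)] γ) ^ 5 =
      (eisG N 3 le_rfl (fun x => if x = 1 then 1 else 0) : ℍ → ℂ) ^ 5)
    (h2 : ((H78.E4N N : ℍ → ℂ) ∣[(4 : ℤ)] γ) ^ 3 *
      ((eisG N 3 le_rfl (fun x => if x = 1 then 1 else 0) : ℍ → ℂ) ∣[((3 : ℕ) : ℤ)] γ) =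
      (H78.E4N N : ℍ → ℂ) ^ 3 *
        (eisG N 3 le_rfl (fun x => if x = 1 then 1 else 0) : ℍ → ℂ)) : γ ∈ Gamma1 N := by
  classical
  set F : ModularForm (Gamma1 N) (3 : ℕ) := eisG N 3 le_rfl (fun x => if x = 1 then 1 else 0)
    with hF
  set E : ℍ → ℂ := (H78.E4N N : ℍ → ℂ) with hE
  set e1 : ℍ → ℂ := E ∣[(4 : ℤ)] γ with he1
  set f1 : ℍ → ℂ := (F : ℍ → ℂ) ∣[((3 : ℕ) : ℤ)] γ with hf1
  have hmE : MDiff E := ModularFormClass.holo (H78.E4N N)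
  have hmF : MDiff (F : ℍ → ℂ) := ModularFormClass.holo F
  have hme1 : MDiff e1 := hmE.slash 4 _
  have hmf1 : MDiff f1 := hmF.slash _ _
  have hval : coefG N 3 (fun x => if x = 1 then 1 else 0) 1 = 1 := by
    rw [coefG_one]
    have : (-1 : ZMod N) ≠ 1 := by
      intro h
      have h2 : ((2 : ℕ) : ZMod N) = 0 := by
        push_cast
        linear_combination -h
      rw [ZMod.natCast_eq_zero_iff] at h2
      exact absurd (Nat.le_of_dvd (by norm_num) h2) (by omega)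
    simp [this]
  have hF0 : (F : ℍ → ℂ) ≠ 0 := by
    intro h0
    have h3 : (qExpansion 1 (F : ℍ → ℂ)).coeff 1 = 1 := by rw [hF, qExpansion_eisG, hval]
    rw [h0, qExpansion_zero] at h3
    simp at h3
  have hE0 : E ≠ 0 := by
    intro h0
    have := E4N_tendsto N
    rw [← hE, h0] at this
    exact zero_ne_one (tendsto_nhds_unique tendsto_const_nhds this)
  -- step 1: `γ ∈ Γ₀(N)`
  have hpow : e1 ^ 15 = E ^ 15 := by
    have h3 : (e1 ^ 15 - E ^ 15) * (F : ℍ → ℂ) ^ 5 = 0 := by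
      calc (e1 ^ 15 - E ^ 15) * (F : ℍ → ℂ) ^ 5 =
          e1 ^ 15 * (F : ℍ → ℂ) ^ 5 - (E ^ 3 * F) ^ 5 := by ring
        _ = e1 ^ 15 * f1 ^ 5 - (e1 ^ 3 * f1) ^ 5 := by rw [h1, h2]
        _ = 0 := by ring
    rcases (UpperHalfPlane.mul_eq_zero_iff ((hme1.pow 15).sub (hmE.pow 15)) (hmF.pow 5)).mp h3 with h | h
    · exact sub_eq_zero.mp h
    · exfalso
      apply hF0
      funext z
      have := congrFun h z
      simpa using this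
  have hγ0 : γ ∈ Gamma0 N := by
    obtain ⟨x, hx0, hx, hx2⟩ := E4N_lim N γ
    apply hx2
    have l1 := hx.pow 15
    have l2 := (E4N_tendsto N).pow 15
    have l3 : (fun τ => ((H78.E4N N : ℍ → ℂ) ∣[(4 : ℤ)] γ) τ ^ 15) =
        fun τ => (H78.E4N N τ) ^ 15 := by
      funext τ
      exact congrFun hpow τ
    rw [l3] at l1
    have l4 := tendsto_nhds_unique l1 l2
    rw [one_pow] at l4
    have l5 : ((x ^ 4)⁻¹) ^ 15 = 1 := by exact_mod_cast l4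
    have l6 : (0 : ℝ) < (x ^ 4)⁻¹ := by positivity
    have l7 := (pow_eq_one_iff_of_nonneg l6.le (by norm_num)).mp l5
    rwa [inv_eq_one] at l7
  -- step 2
  have hEE : e1 = E := SlashInvariantFormClass.slash_action_eq (H78.E4N N) _ ⟨γ, hγ0, rfl⟩
  have hff : f1 = F := by
    rw [hEE] at h2
    have h3 : E ^ 3 * (f1 - F) = 0 := by rw [mul_sub, h2, sub_self]
    rcases (UpperHalfPlane.mul_eq_zero_iff (hmE.pow 3) (hmf1.sub hmF)).mp h3 with h | h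
    · exfalso
      apply hE0
      funext z
      have := congrFun h z
      simpa using this
    · exact sub_eq_zero.mp h
  have hcoef : coefG N 3 (fun x => if x * ((γ 1 1 : ℤ) : ZMod N) = 1 then 1 else 0) 1 = 1 := by
    rw [hf1, hF, eisG_slash le_rfl _ hγ0] at hff
    rw [← qExpansion_eisG le_rfl, hff, qExpansion_eisG, hval]
  rw [coefG_one] at hcoef
  have h11 : ((γ 1 1 : ℤ) : ZMod N) = 1 := by
    by_contra hne
    simp only [one_mul, hne, if_false, zero_add] at hcoef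
    split_ifs at hcoef with h
    · norm_num at hcoef
    · norm_num at hcoef
  have h10 := Gamma0_mem.mp hγ0
  have hdet : ((γ 0 0 : ℤ) : ZMod N) * (γ 1 1 : ℤ) = 1 := by
    have := congrArg (Int.cast : ℤ → ZMod N) γ.det_coe
    rw [Matrix.det_fin_two] at this
    push_cast at this
    rw [h10] at this
    simpa using this
  rw [h11, mul_one] at hdet
  exact (Gamma1_mem N γ).mpr ⟨hdet, h11, h10⟩

/-- primitive form all of whose diamond translates have integral `q`-expansions -/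
def HasPrimN (N : ℕ) (Γ : Subgroup SL(2, ℤ)) : Prop :=
  ∃ (w : ℤ) (g : ModularForm Γ w),
    (∀ δ ∈ Gamma0 N, ∀ m, ∃ z : ℤ, (qExpansion 1 ((g : ℍ → ℂ) ∣[w] δ)).coeff m = z) ∧
    ∀ γ : SL(2, ℤ), (⇑g : ℍ → ℂ) ∣[w] γ = ⇑g → γ ∈ Γ

lemma HasPrimN.hasPrim {N : ℕ} {Γ : Subgroup SL(2, ℤ)} (h : HasPrimN N Γ) : HasPrim Γ := by
  obtain ⟨w, g, hg, hst⟩ := h
  refine ⟨w, g, fun m => ?_, hst⟩
  obtain ⟨z, hz⟩ := hg 1 (one_mem _) m
  exact ⟨z, by rwa [SlashAction.slash_one] at hz⟩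

/-- Diamond translates of a modular form on `Γ₁(N)`. -/
def slashM (N : ℕ) [NeZero N] {k : ℤ} (f : ModularForm (Gamma1 N) k) (δ : Gamma0 N) :
    ModularForm (Gamma1 N) k where
  toFun := (f : ℍ → ℂ) ∣[k] (δ : SL(2, ℤ))
  slash_action_eq' := by
    rintro _ ⟨γ, hγ, rfl⟩
    have h1 : (δ : SL(2, ℤ)) * γ * (δ : SL(2, ℤ))⁻¹ ∈ Gamma1 N := by
      have hγ0 : γ ∈ Gamma0 N := Gamma1_in_Gamma0 N hγ
      have h2 : (⟨γ, hγ0⟩ : Gamma0 N) ∈ Gamma1' N := by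
        rw [Gamma1_to_Gamma0_mem]
        exact (Gamma1_mem N γ).mp hγ
      have h3 : δ * ⟨γ, hγ0⟩ * δ⁻¹ ∈ Gamma1' N := by
        rw [Gamma1_mem'] at h2 ⊢
        rw [map_mul, map_mul, h2, mul_one, ← map_mul, mul_inv_cancel, map_one]
      rw [Gamma1_to_Gamma0_mem] at h3
      exact (Gamma1_mem N _).mpr h3
    change ((f : ℍ → ℂ) ∣[k] (δ : SL(2, ℤ))) ∣[k] γ = _
    have h4 : (f : ℍ → ℂ) ∣[k] ((δ : SL(2, ℤ)) * γ * (δ : SL(2, ℤ))⁻¹) = f :=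
      SlashInvariantFormClass.slash_action_eq f _ ⟨_, h1, rfl⟩
    rw [← SlashAction.slash_mul]
    have h5 : (δ : SL(2, ℤ)) * γ = ((δ : SL(2, ℤ)) * γ * (δ : SL(2, ℤ))⁻¹) * (δ : SL(2, ℤ)) := by
      group
    rw [h5, SlashAction.slash_mul, h4]
  holo' := (ModularFormClass.holo f).slash k _
  bdd_at_cusps' {c} hc := by
    rw [Subgroup.IsArithmetic.isCusp_iff_isCusp_SL2Z] at hc
    rw [OnePoint.isBoundedAt_iff_forall_SL2Z hc]
    intro γ _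
    rw [← SlashAction.slash_mul]
    exact (H78.translate_good f (Matrix.SpecialLinearGroup.mapGL ℝ ((δ : SL(2, ℤ)) * γ))
      ⟨_, rfl⟩).2

lemma coe_slashM {N : ℕ} [NeZero N] {k : ℤ} (f : ModularForm (Gamma1 N) k) (δ : Gamma0 N) :
    (slashM N f δ : ℍ → ℂ) = (f : ℍ → ℂ) ∣[k] (δ : SL(2, ℤ)) := rfl

open H79 in
/-- **Primitive form on `Γ₁(N)`**. -/
theorem hasPrimN_Gamma1 (N : ℕ) [NeZero N] : HasPrimN N (Gamma1 N) := by
  classical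
  rcases Nat.lt_or_ge N 3 with hN | hN
  · rw [Gamma1_eq_Gamma0_of_le_two (by omega)]
    obtain ⟨w, g, hg, hst⟩ := hasPrim_Gamma0 N
    refine ⟨w, g, fun δ hδ m => ?_, hst⟩
    have : (g : ℍ → ℂ) ∣[w] δ = g := SlashInvariantFormClass.slash_action_eq g _ ⟨δ, hδ, rfl⟩
    rw [this]
    exact hg m
  set F : ModularForm (Gamma1 N) (3 : ℕ) := eisG N 3 le_rfl (fun x => if x = 1 then 1 else 0)
    with hF
  have hle : (Gamma1 N : Subgroup (GL (Fin 2) ℝ)) ≤ (Gamma0 N : Subgroup (GL (Fin 2) ℝ)) :=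
    Subgroup.map_mono (Gamma1_in_Gamma0 N)
  obtain ⟨a, ha⟩ : IsMF (Gamma1 N : Subgroup (GL (Fin 2) ℝ)) 15 ((F : ℍ → ℂ) ^ 5) :=
    ((isMF_coe F).pow 5).weight_eq (by norm_num)
  obtain ⟨b, hb⟩ : IsMF (Gamma1 N : Subgroup (GL (Fin 2) ℝ)) 15
      ((H78.E4N N : ℍ → ℂ) ^ 3 * (F : ℍ → ℂ)) :=
    ((((isMF_coe (H78.E4N N)).mono hle).pow 3).mul (isMF_coe F)).weight_eq (by norm_num)
  have hp := one_mem_strictPeriods_Gamma1 (N := N)
  have hp0 : (1 : ℝ) ∈ (Gamma0 N : Subgroup (GL (Fin 2) ℝ)).strictPeriods :=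
    CongruenceSubgroup.one_mem_strictPeriods_Gamma0 N
  have hQF : HasQ (F : ℍ → ℂ) (qExpansion 1 F) := hasQ_of_class hp F
  have hQE : HasQ (H78.E4N N : ℍ → ℂ) (qExpansion 1 (H78.E4N N)) := hasQ_of_class hp0 _
  have hFint : ∀ δ : SL(2, ℤ), δ ∈ Gamma0 N →
      HasQ ((F : ℍ → ℂ) ∣[((3 : ℕ) : ℤ)] δ) (qExpansion 1 ((F : ℍ → ℂ) ∣[((3 : ℕ) : ℤ)] δ)) ∧
      H23.IntPS (qExpansion 1 ((F : ℍ → ℂ) ∣[((3 : ℕ) : ℤ)] δ)) := by
    intro δ hδ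
    rw [hF, eisG_slash le_rfl _ hδ]
    refine ⟨hasQ_of_class hp _, fun r => ?_⟩
    rw [qExpansion_eisG]
    obtain ⟨z, hz⟩ := coefG_int_of_odd (N := N) (k := 3) (by decide) le_rfl
      (fun x => if x * ((δ 1 1 : ℤ) : ZMod N) = 1 then 1 else 0) r
    refine ⟨z, ?_⟩
    rw [← hz]
    congr 1
    funext x
    split_ifs <;> simp
  have hEint : H23.IntPS (qExpansion 1 (H78.E4N N)) := H78.E4N_integral N
  have hEδ : ∀ δ : SL(2, ℤ), δ ∈ Gamma0 N → (H78.E4N N : ℍ → ℂ) ∣[(4 : ℤ)] δ = H78.E4N N :=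
    fun δ hδ => SlashInvariantFormClass.slash_action_eq (H78.E4N N) _ ⟨δ, hδ, rfl⟩
  have haδ : ∀ δ : SL(2, ℤ), (a : ℍ → ℂ) ∣[(15 : ℤ)] δ =
      ((F : ℍ → ℂ) ∣[((3 : ℕ) : ℤ)] δ) ^ 5 := by
    intro δ
    rw [ha, show (15 : ℤ) = ((5 : ℕ) : ℤ) * ((3 : ℕ) : ℤ) by norm_num, pow_slash_SL2]
  have hbδ : ∀ δ : SL(2, ℤ), (b : ℍ → ℂ) ∣[(15 : ℤ)] δ =
      ((H78.E4N N : ℍ → ℂ) ∣[(4 : ℤ)] δ) ^ 3 * ((F : ℍ → ℂ) ∣[((3 : ℕ) : ℤ)] δ) := by
    intro δ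
    rw [hb, show (15 : ℤ) = ((3 : ℕ) : ℤ) * 4 + ((3 : ℕ) : ℤ) by norm_num,
      ModularForm.mul_slash_SL2, pow_slash_SL2]
  obtain ⟨t, ht⟩ := exists_comb_stab a b (by
    intro γ h1 h2
    rw [haδ, ha] at h1
    rw [hbδ, hb] at h2
    exact stab_aux N hN γ h1 h2)
  refine ⟨15, a + (t : ℂ) • b, ?_, ht⟩
  intro δ hδ m
  have e : (⇑(a + (t : ℂ) • b) : ℍ → ℂ) ∣[(15 : ℤ)] δ =
      ((F : ℍ → ℂ) ∣[((3 : ℕ) : ℤ)] δ) ^ 5 +
        (t : ℂ) • ((H78.E4N N : ℍ → ℂ) ^ 3 * ((F : ℍ → ℂ) ∣[((3 : ℕ) : ℤ)] δ)) := by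
    have : (⇑(a + (t : ℂ) • b) : ℍ → ℂ) = ⇑a + (t : ℂ) • ⇑b := rfl
    rw [this, SlashAction.add_slash, ModularForm.SL_smul_slash, haδ, hbδ, hEδ δ hδ]
  obtain ⟨hQ, hI⟩ := hFint δ hδ
  have hQb := (hQE.pow 3).mul hQ
  have hIb : H23.IntPS (qExpansion 1 ((H78.E4N N : ℍ → ℂ) ^ 3 *
      ((F : ℍ → ℂ) ∣[((3 : ℕ) : ℤ)] δ))) := by
    rw [hQb.2]
    exact (hEint.pow 3).mul hI
  have hIa : H23.IntPS (qExpansion 1 (((F : ℍ → ℂ) ∣[((3 : ℕ) : ℤ)] δ) ^ 5)) := by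
    rw [(hQ.pow 5).2]
    exact hI.pow 5
  have hQs : HasQ ((t : ℂ) • ((H78.E4N N : ℍ → ℂ) ^ 3 * ((F : ℍ → ℂ) ∣[((3 : ℕ) : ℤ)] δ)))
      ((t : ℂ) • qExpansion 1 ((H78.E4N N : ℍ → ℂ) ^ 3 *
      ((F : ℍ → ℂ) ∣[((3 : ℕ) : ℤ)] δ))) := by
    refine ⟨?_, ?_⟩
    · rw [UpperHalfPlane.cuspFunction_smul hQb.1.continuousAt]
      exact hQb.1.const_smul
    · rw [UpperHalfPlane.qExpansion_smul hQb.1]
  rw [e, ((hQ.pow 5).add hQs).2, map_add, PowerSeries.coeff_smul]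
  obtain ⟨x, hx⟩ := (by rw [← (hQ.pow 5).2]; exact hIa m :
    ∃ z : ℤ, ((qExpansion 1 ((F : ℍ → ℂ) ∣[((3 : ℕ) : ℤ)] δ)) ^ 5).coeff m = z)
  obtain ⟨y, hy⟩ := hIb m
  refine ⟨x + t * y, ?_⟩
  rw [hx, hy]
  push_cast
  rfl

theorem hasPrim_Gamma1 (N : ℕ) [NeZero N] : HasPrim (Gamma1 N) := (hasPrimN_Gamma1 N).hasPrim


end Fermat.Agent.H50
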