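import Mathlib
import Fermat.Agent.H50Prim1
import Fermat.Agent.H50ConjM
import Fermat.Prelude.Thm_ModularForm_sturm_bound_of_isArithmetic

/-!
# Arithmetic of `M_k(Γ)` and `S_k(Γ)` for `Γ ∋ T` having a primitive form

Galois conjugation, rational spans and bounded denominators, in all weights, for every finite index
subgroup `Γ` of `SL₂(ℤ)` containing `T` with `HasPrim Γ`; in particular for `Γ₁(N)`.
-/

set_option autoImplicit false

noncomputable section

open UpperHalfPlane hiding I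
open Complex EisensteinSeries MatrixGroups CongruenceSubgroup ModularForm ModularFormClass
open scoped Real Nat Manifold

namespace Fermat.Agent.H50

open Fermat.Agent.H79 Fermat.Agent.H23

/-! ### integral equations of modular forms over level one -/

section B1

variable {𝒢 : Subgroup (GL (Fin 2) ℝ)} [𝒢.IsArithmetic] {k : ℤ}

/-- integral equation of a modular form over level one modular forms -/
theorem modForm_integral (f : ModularForm 𝒢 k) :
    ∃ n : ℕ, 0 < n ∧ ∃ c : (i : ℕ) → ModularForm 𝒮ℒ ((i : ℤ) * k),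
      ∀ τ, f τ ^ n + ∑ i ∈ Finset.Icc 1 n, c i τ * f τ ^ (n - i) = 0 := by
  classical
  let := Fintype.ofFinite (H78.CosetSpace 𝒢)
  set F : H78.CosetSpace 𝒢 → ℍ → ℂ := SlashInvariantForm.quotientFunc f with hFdef
  have hF : H78.Fam k F := H78.fam_quotientFunc f
  set q0 : H78.CosetSpace 𝒢 := ⟦1⟧ with hq0
  have hFq0 : F q0 = f := by
    rw [hFdef, hq0, SlashInvariantForm.quotientFunc_mk]
    simp
  have hc : ∀ i : ℕ, ∃ c : ModularForm 𝒮ℒ ((i : ℤ) * k), ∀ z, c z =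
      (-1) ^ i * H78.Fam.esymm F i z := by
    intro i
    obtain ⟨c, hc⟩ := hF.isMF_esymm i
    refine ⟨ModularForm.mcast (mul_comm _ _) (((-1 : ℂ) ^ i) • c), fun z => ?_⟩
    have : (((-1 : ℂ) ^ i) • c) z = (-1) ^ i * H78.Fam.esymm F i z := by
      rw [← hc]; rfl
    exact this
  choose c hc using hc
  refine ⟨Fintype.card (H78.CosetSpace 𝒢), Fintype.card_pos, c, fun τ => ?_⟩
  have key := congrArg (Polynomial.eval (f τ))
    (Multiset.prod_X_sub_X_eq_sum_esymm (Finset.univ.val.map fun q => F q τ))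
  have hz : Polynomial.eval (f τ) (Multiset.map (fun t => Polynomial.X - Polynomial.C t)
      (Multiset.map (fun q => F q τ) Finset.univ.val)).prod = 0 := by
    rw [Multiset.map_map, Polynomial.eval_multiset_prod, Multiset.prod_eq_zero_iff,
      Multiset.map_map, Multiset.mem_map]
    refine ⟨q0, by simp, ?_⟩
    simp [hFq0]
  rw [hz] at key
  rw [Polynomial.eval_finsetSum] at key
  simp only [Multiset.card_map, Finset.card_val, Finset.card_univ] at key
  rw [Finset.range_eq_Ico, Finset.sum_eq_sum_Ico_succ_bot (Nat.succ_pos _)] at key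
  simp only [pow_zero, one_mul, Nat.sub_zero, Multiset.esymm, Multiset.powersetCard_zero_left,
    Multiset.map_singleton, Multiset.prod_zero, Multiset.sum_singleton, map_one,
    Polynomial.eval_pow, Polynomial.eval_X] at key
  rw [key]
  congr 1
  refine Finset.sum_congr ?_ fun i hi => ?_
  · ext x; simp
  · rw [Finset.mem_Ico] at hi
    rw [hc i, H78.Fam.esymm_apply]
    simp [Multiset.esymm]
    ring

end B1

variable {Γ : Subgroup SL(2, ℤ)} [Γ.FiniteIndex]

/-- `(B2)` for groups with a primitive form -/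
theorem lagrange_of_hasPrim (hp : HasPrim Γ) : ∃ (w : ℤ) (n : ℕ) (g : ModularForm Γ w)
    (D : ModularForm Γ (w * ((n : ℤ) - 1))),
    (∀ m, ∃ z : ℤ, (qExpansion 1 g).coeff m = z) ∧ D ≠ 0 ∧
      (∃ G : (i : ℕ) → ModularForm 𝒮ℒ (w * ((n : ℤ) - 1 - i)),
        ∀ τ, D τ = ∑ i ∈ Finset.range n, G i τ * g τ ^ i) ∧
      ∀ (k : ℤ) (f : ModularForm Γ k),
        ∃ G : (i : ℕ) → ModularForm 𝒮ℒ (k + w * ((n : ℤ) - 1 - i)),
        ∀ τ, D τ * f τ = ∑ i ∈ Finset.range n, G i τ * g τ ^ i := by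
  obtain ⟨w, g, hg, hst⟩ := hp
  have hle : (Γ : Subgroup (GL (Fin 2) ℝ)) ≤ 𝒮ℒ := by
    rintro _ ⟨γ, _, rfl⟩
    exact ⟨γ, rfl⟩
  obtain ⟨n, D, _, hD, h1, h2⟩ := H78.lagrange_forms hle g (by
    rintro _ ⟨γ, rfl⟩ h
    exact ⟨γ, hst γ h, rfl⟩)
  exact ⟨w, n, g, D, hg, hD, h1, h2⟩

section

variable (hT : (1 : ℝ) ∈ (Γ : Subgroup (GL (Fin 2) ℝ)).strictPeriods) (hp : HasPrim Γ)

include hT hp

/-- **Conjugation of cusp forms.** -/
theorem exists_conj_cusp {k : ℤ} (σ : ℂ →+* ℂ) (f : CuspForm Γ k) :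
    ∃ f' : CuspForm Γ k, qExpansion 1 f' = (qExpansion 1 f).map σ := by
  obtain ⟨m, hm, c, hc⟩ := H78.cuspForm_integral f
  obtain ⟨w, n, g, D, hg, hD, ⟨G, hG⟩, hH⟩ := lagrange_of_hasPrim hp
  obtain ⟨H, hH⟩ := hH k (ModularFormClass.modularForm f)
  refine exists_conj_cuspForm_of Γ hT σ (fun k G => levelOne_conj σ G)
    (fun k G => levelOne_cusp_conj σ G) f c hc g D ?_ hD G hG H hH
  ext i
  obtain ⟨z, hz⟩ := hg i
  rw [PowerSeries.coeff_map, hz]
  simp

/-- **Conjugation of modular forms.** -/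
theorem exists_conj_mod {k : ℤ} (σ : ℂ →+* ℂ) (f : ModularForm Γ k) :
    ∃ f' : ModularForm Γ k, qExpansion 1 f' = (qExpansion 1 f).map σ := by
  obtain ⟨m, hm, c, hc⟩ := modForm_integral f
  obtain ⟨w, n, g, D, hg, hD, ⟨G, hG⟩, hH⟩ := lagrange_of_hasPrim hp
  obtain ⟨H, hH⟩ := hH k f
  refine exists_conj_modForm_of Γ hT σ (fun k G => levelOne_conj σ G) f c hc g D ?_ hD G hG H hH
  ext i
  obtain ⟨z, hz⟩ := hg i
  rw [PowerSeries.coeff_map, hz]
  simp

end

section coeff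

variable (Γ) (k : ℤ) (hT : (1 : ℝ) ∈ (Γ : Subgroup (GL (Fin 2) ℝ)).strictPeriods)

/-- The `n`-th `q`-coefficient as a linear functional on modular forms. -/
def coeffM (n : ℕ) : ModularForm Γ k →ₗ[ℂ] ℂ where
  toFun f := (qExpansion 1 f).coeff n
  map_add' f g := by
    rw [FunLike.coe_add, ModularForm.qExpansion_add one_pos hT, map_add]
  map_smul' a f := by
    rw [FunLike.coe_smul, ModularForm.qExpansion_smul one_pos hT]
    simp

/-- The `n`-th `q`-coefficient as a linear functional on cusp forms. -/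
def coeffS (n : ℕ) : CuspForm Γ k →ₗ[ℂ] ℂ where
  toFun f := (qExpansion 1 f).coeff n
  map_add' f g := by
    rw [FunLike.coe_add, ModularForm.qExpansion_add one_pos hT, map_add]
  map_smul' a f := by
    rw [FunLike.coe_smul, ModularForm.qExpansion_smul one_pos hT]
    simp

omit [Γ.FiniteIndex] in
lemma coeffM_apply (n : ℕ) (f : ModularForm Γ k) :
    coeffM Γ k hT n f = (qExpansion 1 f).coeff n := rfl

omit [Γ.FiniteIndex] in
lemma coeffS_apply (n : ℕ) (f : CuspForm Γ k) :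
    coeffS Γ k hT n f = (qExpansion 1 f).coeff n := rfl

/-- the Sturm bound -/
def sturmB : ℕ := (k * (Γ : Subgroup (GL (Fin 2) ℝ)).relIndex 𝒮ℒ).toNat / 12

include hT in
lemma mod_eq_zero_of_coeff (f : ModularForm Γ k)
    (h : ∀ n ≤ sturmB Γ k, (qExpansion 1 f).coeff n = 0) : f = 0 := by
  refine ModularForm.sturm_bound_of_isArithmetic hT ?_
  refine lt_of_lt_of_le (b := ((sturmB Γ k + 1 : ℕ) : ℕ∞)) ?_ ?_
  · exact_mod_cast Nat.lt_succ_self _
  · refine PowerSeries.nat_le_order _ _ fun i hi => h i (by omega)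

include hT in
lemma cusp_eq_zero_of_coeff (f : CuspForm Γ k)
    (h : ∀ n ≤ sturmB Γ k, (qExpansion 1 f).coeff n = 0) : f = 0 := by
  have h1 := mod_eq_zero_of_coeff Γ k hT (ModularFormClass.modularForm f) h
  ext z
  exact DFunLike.congr_fun h1 z

include hT in
theorem finiteDimensional_mod : FiniteDimensional ℂ (ModularForm Γ k) := by
  let L : ModularForm Γ k →ₗ[ℂ] (Fin (sturmB Γ k + 1) → ℂ) :=
    LinearMap.pi fun i => coeffM Γ k hT i
  refine Module.Finite.of_injective L ?_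
  rw [← LinearMap.ker_eq_bot, LinearMap.ker_eq_bot']
  intro f hf
  apply mod_eq_zero_of_coeff Γ k hT
  intro n hn
  exact congrFun hf ⟨n, Nat.lt_succ_of_le hn⟩

include hT in
theorem finiteDimensional_cusp : FiniteDimensional ℂ (CuspForm Γ k) := by
  let L : CuspForm Γ k →ₗ[ℂ] (Fin (sturmB Γ k + 1) → ℂ) :=
    LinearMap.pi fun i => coeffS Γ k hT i
  refine Module.Finite.of_injective L ?_
  rw [← LinearMap.ker_eq_bot, LinearMap.ker_eq_bot']
  intro f hf
  apply cusp_eq_zero_of_coeff Γ k hT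
  intro n hn
  exact congrFun hf ⟨n, Nat.lt_succ_of_le hn⟩

end coeff

section

variable (hT : (1 : ℝ) ∈ (Γ : Subgroup (GL (Fin 2) ℝ)).strictPeriods) (hp : HasPrim Γ) (k : ℤ)

include hT hp

theorem rational_span_mod :
    Submodule.span ℂ {f : ModularForm Γ k | ∀ n, ∃ q : ℚ, (qExpansion 1 f).coeff n = (q : ℂ)} =
      ⊤ := by
  have := finiteDimensional_mod Γ k hT
  refine descent (coeffM Γ k hT) (fun w hw => ?_) (fun σ w => ?_)
  · exact mod_eq_zero_of_coeff Γ k hT w fun n _ => hw n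
  · obtain ⟨w', hw'⟩ := exists_conj_mod hT hp σ w
    refine ⟨w', fun i => ?_⟩
    rw [coeffM_apply, coeffM_apply, hw', PowerSeries.coeff_map]

theorem rational_span_cusp :
    Submodule.span ℂ {f : CuspForm Γ k | ∀ n, ∃ q : ℚ, (qExpansion 1 f).coeff n = (q : ℂ)} =
      ⊤ := by
  have := finiteDimensional_cusp Γ k hT
  refine descent (coeffS Γ k hT) (fun w hw => ?_) (fun σ w => ?_)
  · exact cusp_eq_zero_of_coeff Γ k hT w fun n _ => hw n
  · obtain ⟨w', hw'⟩ := exists_conj_cusp hT hp σ w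
    refine ⟨w', fun i => ?_⟩
    rw [coeffS_apply, coeffS_apply, hw', PowerSeries.coeff_map]

/-- A modular form with rational `q`-expansion has bounded denominators. -/
theorem bddDen_mod
    (f : ModularForm Γ k) (hf : ∀ n, ∃ q : ℚ, (qExpansion 1 f).coeff n = (q : ℂ)) :
    ∃ D : ℤ, D ≠ 0 ∧ ∀ n, ∃ z : ℤ, (D : ℂ) * (qExpansion 1 f).coeff n = z := by
  obtain ⟨m, hm, c, hc⟩ := modForm_integral f
  obtain ⟨w, n, g, D, hg, hD, ⟨G, hG⟩, hH⟩ := lagrange_of_hasPrim hp
  obtain ⟨H, hH⟩ := hH k f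
  choose q hq using hf
  let F : PowerSeries ℚ := PowerSeries.mk q
  have hF : F.map (algebraMap ℚ ℂ) = qExpansion 1 f := by
    ext i
    rw [PowerSeries.coeff_map, PowerSeries.coeff_mk]
    exact (hq i).symm
  have hgS : qExpansion 1 g ∈ SpanInt := IntPS.mem_spanInt hg
  have h1' : (1 : ℝ) ∈ (𝒮ℒ : Subgroup (GL (Fin 2) ℝ)).strictPeriods :=
    one_mem_strictPeriods_SL
  have hQg : HasQ (g : ℍ → ℂ) (qExpansion 1 g) := hasQ_of_class hT g
  have hQf : HasQ (f : ℍ → ℂ) (qExpansion 1 f) := hasQ_of_class hT f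
  have hQD : qExpansion 1 D ≠ 0 := fun h0 =>
    hD ((ModularForm.qExpansion_eq_zero_iff one_pos hT D).mp h0)
  have hDq : qExpansion 1 D = ∑ i ∈ Finset.range n, qExpansion 1 (G i) * qExpansion 1 g ^ i := by
    have e1 : HasQ (D : ℍ → ℂ) (∑ i ∈ Finset.range n, qExpansion 1 (G i : ℍ → ℂ) *
        qExpansion 1 g ^ i) := by
      have : (⇑D : ℍ → ℂ) = ∑ i ∈ Finset.range n, (⇑(G i) : ℍ → ℂ) * (⇑g : ℍ → ℂ) ^ i := by
        funext τ
        rw [hG τ]
        simp only [Finset.sum_apply, Pi.mul_apply, Pi.pow_apply]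
      rw [this]
      exact hasQ_sum _ _ _ fun i _ => (hasQ_of_class h1' (G i)).mul (hQg.pow i)
    exact e1.2
  have hBq : qExpansion 1 D * qExpansion 1 f =
      ∑ i ∈ Finset.range n, qExpansion 1 (H i) * qExpansion 1 g ^ i := by
    have e2 : HasQ ((D : ℍ → ℂ) * (f : ℍ → ℂ)) (qExpansion 1 D * qExpansion 1 f) :=
      (hasQ_of_class hT D).mul hQf
    have e3 : HasQ ((D : ℍ → ℂ) * (f : ℍ → ℂ))
        (∑ i ∈ Finset.range n, qExpansion 1 (H i : ℍ → ℂ) * qExpansion 1 g ^ i) := by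
      have : (⇑D : ℍ → ℂ) * (⇑f : ℍ → ℂ) =
          ∑ i ∈ Finset.range n, (⇑(H i) : ℍ → ℂ) * (⇑g : ℍ → ℂ) ^ i := by
        funext τ
        simp only [Finset.sum_apply, Pi.mul_apply, Pi.pow_apply]
        exact hH τ
      rw [this]
      exact hasQ_sum _ _ _ fun i _ => (hasQ_of_class h1' (H i)).mul (hQg.pow i)
    rw [← e2.2, ← e3.2]
  have hrel : qExpansion 1 f ^ m +
      ∑ i ∈ Finset.Icc 1 m, qExpansion 1 (c i : ℍ → ℂ) * qExpansion 1 f ^ (m - i) = 0 := by
    have e1 : HasQ ((f : ℍ → ℂ) ^ m + ∑ i ∈ Finset.Icc 1 m, (c i : ℍ → ℂ) * (f : ℍ → ℂ) ^ (m - i))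
        (qExpansion 1 f ^ m +
          ∑ i ∈ Finset.Icc 1 m, qExpansion 1 (c i : ℍ → ℂ) * qExpansion 1 f ^ (m - i)) :=
      (hQf.pow m).add (hasQ_sum _ _ _ fun i _ => (hasQ_of_class h1' (c i)).mul (hQf.pow _))
    have e2 : ((f : ℍ → ℂ) ^ m + ∑ i ∈ Finset.Icc 1 m, (c i : ℍ → ℂ) * (f : ℍ → ℂ) ^ (m - i)) =
        0 := by
      funext τ
      simp only [Pi.add_apply, Pi.pow_apply, Finset.sum_apply, Pi.mul_apply, Pi.zero_apply]
      exact hc τ
    rw [e2] at e1
    rw [← e1.2]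
    exact qExpansion_zero 1
  have key : BddDen F := by
    refine bddDen_of (A := qExpansion 1 D)
      (B := ∑ i ∈ Finset.range n, qExpansion 1 (H i) * qExpansion 1 g ^ i) hQD ?_ ?_ ?_
      (n := m) (c := fun i => qExpansion 1 (c i : ℍ → ℂ)) ?_ ?_
    · rw [hDq]
      exact Submodule.sum_mem _ fun i _ => spanInt_mul (spanInt_levelOne _) (spanInt_pow hgS i)
    · exact Submodule.sum_mem _ fun i _ => spanInt_mul (spanInt_levelOne _) (spanInt_pow hgS i)
    · rw [hF, hBq]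
    · intro i
      exact spanInt_levelOne _
    · rw [hF]
      exact hrel
  rw [bddDen_iff] at key
  obtain ⟨D', hD', h⟩ := key
  refine ⟨D', hD', fun i => ?_⟩
  obtain ⟨z, hz⟩ := h i
  refine ⟨z, ?_⟩
  rw [hq i]
  rw [PowerSeries.coeff_mk] at hz
  exact_mod_cast hz

theorem bddDen_cusp
    (f : CuspForm Γ k) (hf : ∀ n, ∃ q : ℚ, (qExpansion 1 f).coeff n = (q : ℂ)) :
    ∃ D : ℤ, D ≠ 0 ∧ ∀ n, ∃ z : ℤ, (D : ℂ) * (qExpansion 1 f).coeff n = z :=
  bddDen_mod hT hp k (ModularFormClass.modularForm f) hf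

/-- `M_k(Γ)` is spanned by forms with integral `q`-expansions. -/
theorem integral_span_mod :
    Submodule.span ℂ {f : ModularForm Γ k | ∀ n, ∃ z : ℤ, (qExpansion 1 f).coeff n = (z : ℂ)} =
      ⊤ := by
  rw [eq_top_iff, ← rational_span_mod hT hp k, Submodule.span_le]
  intro f hf
  obtain ⟨D, hD, h⟩ := bddDen_mod hT hp k f hf
  have hmem : (D : ℂ) • f ∈ Submodule.span ℂ
      {f : ModularForm Γ k | ∀ n, ∃ z : ℤ, (qExpansion 1 f).coeff n = (z : ℂ)} := by
    refine Submodule.subset_span fun n => ?_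
    obtain ⟨z, hz⟩ := h n
    refine ⟨z, ?_⟩
    have h3 := (coeffM Γ k hT n).map_smul (D : ℂ) f
    rw [coeffM_apply, coeffM_apply, smul_eq_mul, hz] at h3
    exact h3
  have h4 := Submodule.smul_mem _ ((D : ℂ)⁻¹) hmem
  rwa [smul_smul, inv_mul_cancel₀ (by exact_mod_cast hD), one_smul] at h4

/-- `S_k(Γ)` is spanned by forms with integral `q`-expansions. -/
theorem integral_span_cusp :
    Submodule.span ℂ {f : CuspForm Γ k | ∀ n, ∃ z : ℤ, (qExpansion 1 f).coeff n = (z : ℂ)} =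
      ⊤ := by
  rw [eq_top_iff, ← rational_span_cusp hT hp k, Submodule.span_le]
  intro f hf
  obtain ⟨D, hD, h⟩ := bddDen_cusp hT hp k f hf
  have hmem : (D : ℂ) • f ∈ Submodule.span ℂ
      {f : CuspForm Γ k | ∀ n, ∃ z : ℤ, (qExpansion 1 f).coeff n = (z : ℂ)} := by
    refine Submodule.subset_span fun n => ?_
    obtain ⟨z, hz⟩ := h n
    refine ⟨z, ?_⟩
    have h3 := (coeffS Γ k hT n).map_smul (D : ℂ) f
    rw [coeffS_apply, coeffS_apply, smul_eq_mul, hz] at h3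
    exact h3
  have h4 := Submodule.smul_mem _ ((D : ℂ)⁻¹) hmem
  rwa [smul_smul, inv_mul_cancel₀ (by exact_mod_cast hD), one_smul] at h4

end

end Fermat.Agent.H50
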