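import Mathlib
import Fermat.Agent.H58Hecke1
import Fermat.Agent.H50Arith

/-!
# Hecke relations determine the nebentypus

If `f ∈ S_k(Γ₁(N))` satisfies the Hecke relations with character `ε` for all primes `p ∤ N`, then
`f ∣ γ = ε(d) f` for all `γ ∈ Γ₀(N)` with lower right entry `d`.
-/

set_option autoImplicit false

noncomputable section

namespace Fermat.Agent.H48

open UpperHalfPlane ModularForm CongruenceSubgroup ModularFormClass
open scoped MatrixGroups ModularForm Manifold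
open Matrix.SpecialLinearGroup (mapGL)
open Fermat.Agent.H58

variable {N : ℕ} {k : ℤ} {p : ℕ}

lemma hasSum_diag' (hp : p.Prime) (g : CuspForm (Gamma1 N) k) (τ : ℍ) :
    HasSum (fun n : ℕ => (if p ∣ n then (p : ℂ) ^ (k - 1) * qCoeff g (n / p) else 0) •
      Function.Periodic.qParam 1 τ ^ n) ((⇑g ∣[k] heckeDiagMatrix p) τ) := by
  have hΓ := one_mem_strictPeriods_Gamma1 N
  haveI : Fact (IsCusp OnePoint.infty (Gamma1 N : Subgroup (GL (Fin 2) ℝ))) :=
    ⟨Subgroup.isCusp_of_mem_strictPeriods one_pos hΓ⟩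
  have h2 := P2MW.S_UpperHalfPlane_qCoeff_heckeT.M4cP1W2.hasSum_diag hp.ne_zero
    (SlashInvariantFormClass.periodic_comp_ofComplex g hΓ) (holo g) (bdd_at_infty g) k τ
  rw [slash_heckeDiagMatrix_apply k hp.ne_zero]
  convert h2 using 1
  funext n
  split_ifs <;> simp

lemma qCoeff_of_diag (hp : p.Prime) {g h : CuspForm (Gamma1 N) k}
    (H : ⇑h = ⇑g ∣[k] heckeDiagMatrix p) (n : ℕ) :
    qCoeff h n = if p ∣ n then (p : ℂ) ^ (k - 1) * qCoeff g (n / p) else 0 := by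
  have h3 := hasSum_diag' hp g
  rw [← H] at h3
  exact (P2MW.S_UpperHalfPlane_qCoeff_heckeT.M4cP1W2.qExpansion_coeff_unique'
    (holo h).continuous
    (ModularFormClass.analyticAt_cuspFunction_zero _ one_pos (one_mem_strictPeriods_Gamma1 N))
      h3 n).symm

lemma diag_of_qCoeff (hp : p.Prime) {g h : CuspForm (Gamma1 N) k}
    (H : ∀ n, qCoeff h n = if p ∣ n then (p : ℂ) ^ (k - 1) * qCoeff g (n / p) else 0) :
    ⇑h = ⇑g ∣[k] heckeDiagMatrix p := by
  funext τ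
  have h1 := P2MW.S_UpperHalfPlane_qCoeff_heckeT.M4cP1W2.hasSum_qCoeff h
    (one_mem_strictPeriods_Gamma1 N) τ
  have h2 := hasSum_diag' hp g τ
  simp only [H] at h1
  exact h1.unique h2

lemma heckeU_of_diag (hp : p.Prime) {g h : CuspForm (Gamma1 N) k}
    (H : ⇑h = ⇑g ∣[k] heckeDiagMatrix p) :
    heckeU k p ⇑h = (p : ℂ) ^ (k - 1) • ⇑g := by
  funext τ
  have hΓ := one_mem_strictPeriods_Gamma1 N
  haveI : Fact (IsCusp OnePoint.infty (Gamma1 N : Subgroup (GL (Fin 2) ℝ))) :=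
    ⟨Subgroup.isCusp_of_mem_strictPeriods one_pos hΓ⟩
  have h1 := P2MW.S_UpperHalfPlane_qCoeff_heckeT.M4cP1W2.hasSum_heckeU hp.ne_zero
    (SlashInvariantFormClass.periodic_comp_ofComplex h hΓ) (holo h) (bdd_at_infty h) k τ
  have h2 := (P2MW.S_UpperHalfPlane_qCoeff_heckeT.M4cP1W2.hasSum_qCoeff g hΓ τ).mul_left
    ((p : ℂ) ^ (k - 1))
  have e : (fun n : ℕ => coeffHeckeU p (qCoeff ⇑h) n • Function.Periodic.qParam 1 (τ : ℂ) ^ n) =
      fun i => (p : ℂ) ^ (k - 1) * qCoeff ⇑g i • Function.Periodic.qParam 1 (τ : ℂ) ^ i := by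
    funext n
    rw [coeffHeckeU_apply, qCoeff_of_diag hp H, if_pos (dvd_mul_left p n),
      Nat.mul_div_cancel _ hp.pos]
    simp only [smul_eq_mul]
    ring
  rw [e] at h1
  exact h1.unique h2

/-- `qCoeff` as a linear map. -/
def cL (N : ℕ) (k : ℤ) (n : ℕ) : CuspForm (Gamma1 N) k →ₗ[ℂ] ℂ :=
  H50.coeffS (Gamma1 N) k (one_mem_strictPeriods_Gamma1 N) n

lemma cL_apply (f : CuspForm (Gamma1 N) k) (n : ℕ) : cL N k n f = qCoeff f n := rfl

lemma qCoeff_zero' (n : ℕ) : qCoeff ⇑(0 : CuspForm (Gamma1 N) k) n = 0 := by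
  rw [← cL_apply, map_zero]

lemma qCoeff_sub' (u v : CuspForm (Gamma1 N) k) (n : ℕ) :
    qCoeff ⇑(u - v) n = qCoeff u n - qCoeff v n := by
  rw [← cL_apply, map_sub]; rfl

lemma qCoeff_smul' (c : ℂ) (u : CuspForm (Gamma1 N) k) (n : ℕ) :
    qCoeff ⇑(c • u) n = c * qCoeff u n := by
  rw [← cL_apply, map_smul]; rfl

variable (N k p) in
/-- The forms `g` such that `g ∣ diag(p, 1)` is again of level `Γ₁(N)`. -/
def liftsV : Submodule ℂ (CuspForm (Gamma1 N) k) where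
  carrier := {g | ∃ h : CuspForm (Gamma1 N) k, ⇑h = ⇑g ∣[k] heckeDiagMatrix p}
  zero_mem' := ⟨0, by
    have : ((0 : CuspForm (Gamma1 N) k) : ℍ → ℂ) = 0 := rfl
    rw [this, SlashAction.zero_slash]⟩
  add_mem' := by
    rintro a b ⟨h, hh⟩ ⟨h', hh'⟩
    refine ⟨h + h', ?_⟩
    rw [FunLike.coe_add, FunLike.coe_add, hh, hh', SlashAction.add_slash]
  smul_mem' := by
    rintro c a ⟨h, hh⟩
    refine ⟨c • h, ?_⟩
    rw [FunLike.coe_smul, FunLike.coe_smul, hh, ModularForm.smul_slash,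
      σ_heckeDiagMatrix, ContinuousAlgEquiv.refl_apply]

lemma dia_mem_liftsV [NeZero N] (hp : p.Prime) (hpN : ¬ p ∣ N) {g h : CuspForm (Gamma1 N) k}
    (H : ⇑h = ⇑g ∣[k] heckeDiagMatrix p) : dia N k p h ∈ liftsV N k p := by
  refine ⟨T1L N k p hp hpN h - (p : ℂ) ^ (k - 1) • g, ?_⟩
  rw [FunLike.coe_sub, FunLike.coe_smul, coe_T1L, heckeU_of_diag hp H]
  abel

lemma mem_liftsV [NeZero N] (hp : p.Prime) (hpN : ¬ p ∣ N) {g h : CuspForm (Gamma1 N) k}
    (H : ⇑h = ⇑g ∣[k] heckeDiagMatrix p) : h ∈ liftsV N k p := by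
  obtain ⟨w, hw⟩ := dia_mem_liftsV hp hpN H
  have hpN' : IsCoprime (p : ℤ) (N : ℤ) :=
    Nat.isCoprime_iff_coprime.mpr ((Nat.Prime.coprime_iff_not_dvd hp).mpr hpN)
  have hd1 : IsCoprime ((p : ℤ) + N) (N : ℤ) := by
    have := hpN'.add_mul_left_left 1
    simpa using this
  have hd2 : IsCoprime ((p : ℤ) + N) (p : ℤ) := by
    have := hpN'.symm.add_mul_left_left 1
    simpa [add_comm] using this
  have hd : IsCoprime ((p : ℤ) + N) ((N * p : ℕ) : ℤ) := by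
    push_cast
    exact hd1.mul_right hd2
  obtain ⟨s, hs0, hs1⟩ := exists_sigma (N * p) hd
  have hs10 : ((N * p : ℕ) : ℤ) ∣ s 1 0 :=
    (ZMod.intCast_zmod_eq_zero_iff_dvd _ _).mp (Gamma0_mem.mp hs0)
  obtain ⟨c, hc⟩ := hs10
  obtain ⟨g', h1, h2, h3⟩ := hm4 hp.ne_zero s (N * c) (by rw [hc]; push_cast; ring)
  have hg'0 : g' ∈ Gamma0 N := by
    rw [Gamma0_mem, h1]
    simp
  have hsN : s ∈ Gamma0 N := by
    rw [Gamma0_mem, hc]
    simp
  have h4 : ⇑(dia N k p h) = ⇑h ∣[k] g' := by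
    apply coe_dia_eq hpN' h hg'0
    rw [h2, hs1]
    simp
  have h5 : (⇑h ∣[k] g') ∣[k] heckeDiagMatrix p = (⇑h ∣[k] heckeDiagMatrix p) ∣[k] s := by
    show (⇑h ∣[k] (mapGL ℝ g')) ∣[k] heckeDiagMatrix p =
      (⇑h ∣[k] heckeDiagMatrix p) ∣[k] (mapGL ℝ s)
    rw [← SlashAction.slash_mul, ← SlashAction.slash_mul, h3]
  rw [h4, h5] at hw
  refine ⟨mkCusp (⇑w ∣[k] s⁻¹) ((inv1_of_class w).slash (inv_mem hsN))
    (mdiff_slash_SL (CuspFormClass.holo w) _) (fun hc => isZeroAt_slash_SL w _ hc), ?_⟩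
  rw [coe_mkCusp, hw, ← SlashAction.slash_mul, mul_inv_cancel, SlashAction.slash_one]

/-- The operator `V_p` on the forms that can be raised. -/
def opV [NeZero N] (k : ℤ) (hp : p.Prime) (hpN : ¬ p ∣ N) :
    liftsV N k p →ₗ[ℂ] liftsV N k p where
  toFun g := ⟨g.2.choose, mem_liftsV hp hpN g.2.choose_spec⟩
  map_add' a b := by
    apply Subtype.ext
    apply DFunLike.coe_injective
    show ⇑((a + b).2.choose) = ⇑(a.2.choose + b.2.choose)
    rw [FunLike.coe_add, (a + b).2.choose_spec, a.2.choose_spec, b.2.choose_spec,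
      ← SlashAction.add_slash]
    rfl
  map_smul' c a := by
    apply Subtype.ext
    apply DFunLike.coe_injective
    show ⇑((c • a).2.choose) = ⇑(c • a.2.choose)
    rw [FunLike.coe_smul, (c • a).2.choose_spec, a.2.choose_spec]
    show ⇑(c • a.1) ∣[k] _ = _
    rw [FunLike.coe_smul, ModularForm.smul_slash, σ_heckeDiagMatrix,
      ContinuousAlgEquiv.refl_apply]

lemma coe_opV [NeZero N] (hp : p.Prime) (hpN : ¬ p ∣ N) (g : liftsV N k p) :
    ⇑(opV k hp hpN g).1 = ⇑g.1 ∣[k] heckeDiagMatrix p := g.2.choose_spec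

theorem liftsV_eq_bot [NeZero N] (hp : p.Prime) (hpN : ¬ p ∣ N) : liftsV N k p = ⊥ := by
  haveI : FiniteDimensional ℂ (CuspForm (Gamma1 N) k) :=
    H50.finiteDimensional_cusp (Gamma1 N) k (one_mem_strictPeriods_Gamma1 N)
  have hp0 : (p : ℂ) ^ (k - 1) ≠ 0 := zpow_ne_zero _ (by exact_mod_cast hp.ne_zero)
  have hinj : Function.Injective (opV (N := N) k hp hpN) := by
    rw [← LinearMap.ker_eq_bot, LinearMap.ker_eq_bot']
    intro g hg
    apply Subtype.ext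
    apply ext_qCoeff
    intro n
    have h1 := qCoeff_of_diag hp (coe_opV hp hpN g) (p * n)
    rw [if_pos (dvd_mul_right p n), Nat.mul_div_cancel_left _ hp.pos, hg] at h1
    have h2 : qCoeff ((0 : liftsV N k p).1) (p * n) = 0 := qCoeff_zero' _
    rw [h2] at h1
    have h3 : qCoeff g.1 n = 0 := (mul_eq_zero.1 h1.symm).resolve_left hp0
    have h4 : qCoeff ((0 : liftsV N k p).1) n = 0 := qCoeff_zero' _
    rw [h3, h4]
  have hsurj : Function.Surjective (opV (N := N) k hp hpN) := LinearMap.injective_iff_surjective.1 hinj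
  have hdvd : ∀ (j : ℕ) (g : liftsV N k p) (n : ℕ), qCoeff g.1 n ≠ 0 → p ^ j ∣ n := by
    intro j
    induction j with
    | zero => intro g n _; simp
    | succ j ih =>
      intro g n hn
      obtain ⟨g', rfl⟩ := hsurj g
      rw [qCoeff_of_diag hp (coe_opV hp hpN g')] at hn
      split_ifs at hn with h1
      · obtain ⟨m, rfl⟩ := h1
        rw [Nat.mul_div_cancel_left _ hp.pos] at hn
        rw [pow_succ']
        exact mul_dvd_mul_left p (ih g' m (right_ne_zero_of_mul hn))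
      · exact absurd rfl hn
  rw [eq_bot_iff]
  intro g hg
  rw [Submodule.mem_bot]
  apply ext_qCoeff
  intro n
  rw [qCoeff_zero']
  rcases Nat.eq_zero_or_pos n with rfl | hn
  · haveI : Fact (IsCusp OnePoint.infty (Gamma1 N : Subgroup (GL (Fin 2) ℝ))) :=
      ⟨Subgroup.isCusp_of_mem_strictPeriods one_pos (one_mem_strictPeriods_Gamma1 N)⟩
    exact CuspFormClass.qExpansion_coeff_zero g one_pos (one_mem_strictPeriods_Gamma1 N)
  · by_contra hne
    have h1 := hdvd n ⟨g, hg⟩ n hne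
    have h2 := Nat.le_of_dvd hn h1
    have h3 : n < p ^ n := Nat.lt_pow_self hp.one_lt
    omega

/-- The Hecke relation at `p` forces `⟨p⟩ f = ε(p) f`. -/
theorem dia_eq_of_hecke [NeZero N] (hp : p.Prime) (hpN : ¬ p ∣ N) (f : CuspForm (Gamma1 N) k)
    (e a : ℂ) (hT : ∀ n : ℕ, qCoeff f (p * n) +
      (p : ℂ) ^ (k - 1) * (e * (if p ∣ n then qCoeff f (n / p) else 0)) = a * qCoeff f n) :
    dia N k p f = e • f := by
  have hmem : dia N k p f - e • f ∈ liftsV N k p := by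
    refine ⟨T1L N k p hp hpN f - a • f, diag_of_qCoeff hp fun n => ?_⟩
    rw [qCoeff_sub', qCoeff_smul', qCoeff_T1L, ← hT n]
    split_ifs with h1
    · rw [qCoeff_sub', qCoeff_smul']
      ring
    · ring
  rw [liftsV_eq_bot hp hpN, Submodule.mem_bot, sub_eq_zero] at hmem
  exact hmem

/-- **Hecke relations determine the nebentypus.** -/
theorem nebentypus [NeZero N] (ε : DirichletCharacter ℂ N) (f : CuspForm (Gamma1 N) k) (a : ℕ → ℂ)
    (hT : ∀ p : ℕ, p.Prime → ¬ p ∣ N → ∀ n : ℕ, qCoeff f (p * n) +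
      (p : ℂ) ^ (k - 1) * (ε (p : ZMod N) * (if p ∣ n then qCoeff f (n / p) else 0)) =
        a p * qCoeff f n) (γ : SL(2, ℤ)) (hγ : γ ∈ Gamma0 N) :
    ⇑f ∣[k] γ = ε ((γ 1 1 : ℤ) : ZMod N) • ⇑f := by
  have hu : IsUnit ((γ 1 1 : ℤ) : ZMod N) := IsUnit.of_mul_eq_one _ (Gamma0_inv_11 hγ)
  obtain ⟨u, hu⟩ := hu
  obtain ⟨p, hpgt, hp, hpu⟩ := Nat.forall_exists_prime_gt_and_eq_mod (q := N) (a := (u : ZMod N))
    u.isUnit N
  have hpN : ¬ p ∣ N := fun h => absurd (Nat.le_of_dvd (Nat.pos_of_ne_zero (NeZero.ne N)) h)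
    (not_le.2 hpgt)
  have hpN' : IsCoprime (p : ℤ) (N : ℤ) :=
    Nat.isCoprime_iff_coprime.mpr ((Nat.Prime.coprime_iff_not_dvd hp).mpr hpN)
  have h1 := dia_eq_of_hecke hp hpN f _ _ (hT p hp hpN)
  have h2 : ⇑(dia N k p f) = ⇑f ∣[k] γ := by
    apply coe_dia_eq hpN' f hγ
    rw [← hu, ← hpu]
    simp
  rw [← h2, h1, FunLike.coe_smul, ← hu, ← hpu]

end Fermat.Agent.H48
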