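import Mathlib
import Fermat.Agent.H50Arith

/-!
# Diamond operators commute with Galois conjugation

`conj_slashM` : if `f' = f^σ` on `Γ₁(N)` then `f' ∣ δ = (f ∣ δ)^σ` for `δ ∈ Γ₀(N)`.
-/

set_option autoImplicit false

noncomputable section

open UpperHalfPlane hiding I
open Complex EisensteinSeries MatrixGroups CongruenceSubgroup ModularForm ModularFormClass
open scoped Real Nat Manifold

namespace Fermat.Agent.H50

open Fermat.Agent.H79 Fermat.Agent.H23

lemma levelOne_slash {k : ℤ} (G : ModularForm 𝒮ℒ k) (δ : SL(2, ℤ)) :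
    (G : ℍ → ℂ) ∣[k] δ = G :=
  SlashInvariantFormClass.slash_action_eq G _ ⟨δ, rfl⟩

lemma sum_mul_pow_slash {w k' : ℤ} {n : ℕ} {e : ℕ → ℤ} (H : (i : ℕ) → ModularForm 𝒮ℒ (e i))
    (he : ∀ i, e i + i * w = k') (g : ℍ → ℂ) (δ : SL(2, ℤ)) :
    (∑ i ∈ Finset.range n, (H i : ℍ → ℂ) * g ^ i) ∣[k'] δ =
      ∑ i ∈ Finset.range n, (H i : ℍ → ℂ) * (g ∣[w] δ) ^ i := by
  rw [show ((∑ i ∈ Finset.range n, (H i : ℍ → ℂ) * g ^ i) ∣[k'] δ) =
    ∑ i ∈ Finset.range n, ((H i : ℍ → ℂ) * g ^ i) ∣[k'] δ from SlashAction.sum_slash ..]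
  refine Finset.sum_congr rfl fun i _ => ?_
  rw [← he i, ModularForm.mul_slash_SL2, levelOne_slash, pow_slash_SL2]

section

variable (N : ℕ) [NeZero N]

theorem conj_slashM (σ : ℂ →+* ℂ) {k : ℤ} (f f' : ModularForm (Gamma1 N) k)
    (h : qExpansion 1 f' = (qExpansion 1 f).map σ) (δ : Gamma0 N) :
    qExpansion 1 (slashM N f' δ) = (qExpansion 1 (slashM N f δ)).map σ := by
  obtain ⟨w, g, hg, hst⟩ := hasPrimN_Gamma1 N
  have hT := one_mem_strictPeriods_Gamma1 (N := N)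
  have h1' : (1 : ℝ) ∈ (𝒮ℒ : Subgroup (GL (Fin 2) ℝ)).strictPeriods :=
    one_mem_strictPeriods_SL
  have hle : (Gamma1 N : Subgroup (GL (Fin 2) ℝ)) ≤ 𝒮ℒ := by
    rintro _ ⟨γ, _, rfl⟩
    exact ⟨γ, rfl⟩
  obtain ⟨n, D, _, hD, ⟨G, hG⟩, hH⟩ := H78.lagrange_forms hle g (by
    rintro _ ⟨γ, rfl⟩ h
    exact ⟨γ, hst γ h, rfl⟩)
  obtain ⟨H, hH⟩ := hH k f
  -- conjugates of the coefficients
  choose G' hG' using fun i => levelOne_conj σ (G i)
  choose H' hH' using fun i => levelOne_conj σ (H i)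
  -- `g ∣ δ` has a σ-invariant expansion
  have hgδ : ∀ ε : Gamma0 N, (qExpansion 1 (slashM N g ε)).map σ = qExpansion 1 (slashM N g ε) := by
    intro ε
    ext m
    obtain ⟨z, hz⟩ := hg ε ε.2 m
    rw [PowerSeries.coeff_map, coe_slashM, hz]
    simp
  have hQg : ∀ ε : Gamma0 N, HasQ (slashM N g ε : ℍ → ℂ) (qExpansion 1 (slashM N g ε)) :=
    fun ε => hasQ_of_class hT _
  have hone : ∀ {l : ℤ} (F : ModularForm (Gamma1 N) l), (slashM N F 1 : ℍ → ℂ) = F := by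
    intro l F
    rw [coe_slashM]
    simp
  -- forms `A = D^σ`, `B = (D f)^σ` at level of functions, for every ε
  have hDfun : (D : ℍ → ℂ) = ∑ i ∈ Finset.range n, (G i : ℍ → ℂ) * (g : ℍ → ℂ) ^ i := by
    funext τ
    rw [hG τ]
    simp only [Finset.sum_apply, Pi.mul_apply, Pi.pow_apply]
  have hDffun : (D : ℍ → ℂ) * (f : ℍ → ℂ) =
      ∑ i ∈ Finset.range n, (H i : ℍ → ℂ) * (g : ℍ → ℂ) ^ i := by
    funext τ
    simp only [Finset.sum_apply, Pi.mul_apply, Pi.pow_apply]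
    exact hH τ
  -- generic computation of expansions
  have key : ∀ {e : ℕ → ℤ} (X : (i : ℕ) → ModularForm 𝒮ℒ (e i))
      (X' : (i : ℕ) → ModularForm 𝒮ℒ (e i)) (_ : ∀ i, qExpansion 1 (X' i) =
        (qExpansion 1 (X i)).map σ) (ε : Gamma0 N) (P : PowerSeries ℂ)
      (_ : HasQ (∑ i ∈ Finset.range n, (X i : ℍ → ℂ) * (slashM N g ε : ℍ → ℂ) ^ i) P),
      HasQ (∑ i ∈ Finset.range n, (X' i : ℍ → ℂ) * (slashM N g ε : ℍ → ℂ) ^ i) (P.map σ) := by
    intro e X X' hX ε P hP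
    have e1 : HasQ (∑ i ∈ Finset.range n, (X i : ℍ → ℂ) * (slashM N g ε : ℍ → ℂ) ^ i)
        (∑ i ∈ Finset.range n, qExpansion 1 (X i) * qExpansion 1 (slashM N g ε) ^ i) :=
      hasQ_sum _ _ _ fun i _ => (hasQ_of_class h1' (X i)).mul ((hQg ε).pow i)
    rw [← hP.2, e1.2, map_sum]
    refine hasQ_sum _ _ _ fun i _ => ?_
    rw [map_mul, map_pow, hgδ ε, ← hX i]
    exact (hasQ_of_class h1' (X' i)).mul ((hQg ε).pow i)
  -- the functions `A` and `B`
  set A : ℍ → ℂ := ∑ i ∈ Finset.range n, (G' i : ℍ → ℂ) * (g : ℍ → ℂ) ^ i with hA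
  set B : ℍ → ℂ := ∑ i ∈ Finset.range n, (H' i : ℍ → ℂ) * (g : ℍ → ℂ) ^ i with hB
  have hQD : ∀ ε : Gamma0 N, HasQ (slashM N D ε : ℍ → ℂ) (qExpansion 1 (slashM N D ε)) :=
    fun ε => hasQ_of_class hT _
  have hQf : ∀ ε : Gamma0 N, HasQ (slashM N f ε : ℍ → ℂ) (qExpansion 1 (slashM N f ε)) :=
    fun ε => hasQ_of_class hT _
  have hQf' : ∀ ε : Gamma0 N, HasQ (slashM N f' ε : ℍ → ℂ) (qExpansion 1 (slashM N f' ε)) :=
    fun ε => hasQ_of_class hT _
  have hAε : ∀ ε : Gamma0 N, HasQ (A ∣[w * ((n : ℤ) - 1)] (ε : SL(2, ℤ)))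
      ((qExpansion 1 (slashM N D ε)).map σ) := by
    intro ε
    rw [hA, sum_mul_pow_slash (w := w) G' (fun i => by ring)]
    refine key G G' hG' ε _ ?_
    have : (slashM N D ε : ℍ → ℂ) =
        ∑ i ∈ Finset.range n, (G i : ℍ → ℂ) * (slashM N g ε : ℍ → ℂ) ^ i := by
      rw [coe_slashM, hDfun, sum_mul_pow_slash (w := w) G (fun i => by ring)]
      rfl
    rw [← this]
    exact hQD ε
  have hBε : ∀ ε : Gamma0 N, HasQ (B ∣[w * ((n : ℤ) - 1) + k] (ε : SL(2, ℤ)))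
      ((qExpansion 1 (slashM N D ε) * qExpansion 1 (slashM N f ε)).map σ) := by
    intro ε
    rw [hB, sum_mul_pow_slash (w := w) H' (fun i => by ring)]
    refine key H H' hH' ε _ ?_
    have : (slashM N D ε : ℍ → ℂ) * (slashM N f ε : ℍ → ℂ) =
        ∑ i ∈ Finset.range n, (H i : ℍ → ℂ) * (slashM N g ε : ℍ → ℂ) ^ i := by
      rw [coe_slashM, coe_slashM, ← ModularForm.mul_slash_SL2, hDffun,
        sum_mul_pow_slash (w := w) H (fun i => by ring)]
      rfl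
    rw [← this]
    exact (hQD ε).mul (hQf ε)
  -- `A * f' = B`
  have hA1 := hAε 1
  have hB1 := hBε 1
  simp only [hone, OneMemClass.coe_one, SlashAction.slash_one] at hA1 hB1
  have hgMF : IsMF (Gamma1 N : Subgroup (GL (Fin 2) ℝ)) w (g : ℍ → ℂ) := isMF_coe g
  have hAMF : IsMF (Gamma1 N : Subgroup (GL (Fin 2) ℝ)) (w * ((n : ℤ) - 1)) A := by
    rw [hA]
    refine isMF_sum _ _ fun i _ => ?_
    exact (((isMF_coe (G' i)).mono hle).mul (hgMF.pow i)).weight_eq (by ring)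
  have hBMF : IsMF (Gamma1 N : Subgroup (GL (Fin 2) ℝ)) (w * ((n : ℤ) - 1) + k) B := by
    rw [hB]
    refine isMF_sum _ _ fun i _ => ?_
    exact (((isMF_coe (H' i)).mono hle).mul (hgMF.pow i)).weight_eq (by ring)
  have hAB : A * (f' : ℍ → ℂ) = B := by
    obtain ⟨X, hX⟩ := hAMF.mul (isMF_coe f')
    obtain ⟨Y, hY⟩ := hBMF
    have h2 : HasQ (A * (f' : ℍ → ℂ)) ((qExpansion 1 D).map σ * qExpansion 1 f') :=
      hA1.mul (hasQ_of_class hT f')
    have h3 : X - Y = 0 := by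
      apply (ModularForm.qExpansion_eq_zero_iff one_pos hT (X - Y)).mp
      rw [FunLike.coe_sub, ModularForm.qExpansion_sub one_pos hT, hX, hY, h2.2, hB1.2, map_mul, h,
        sub_self]
    rw [← hX, ← hY, sub_eq_zero.mp h3]
  have hABδ : (A ∣[w * ((n : ℤ) - 1)] (δ : SL(2, ℤ))) * (slashM N f' δ : ℍ → ℂ) =
      B ∣[w * ((n : ℤ) - 1) + k] (δ : SL(2, ℤ)) := by
    rw [coe_slashM, ← ModularForm.mul_slash_SL2, hAB]
  have h4 := (hAε δ).mul (hQf' δ)
  rw [hABδ] at h4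
  have h5 := h4.2.symm.trans (hBε δ).2
  rw [map_mul] at h5
  refine mul_left_cancel₀ ?_ h5
  -- nonvanishing
  have hDδ : qExpansion 1 (slashM N D δ) ≠ 0 := by
    intro h0
    have h6 : slashM N D δ = 0 := (ModularForm.qExpansion_eq_zero_iff one_pos hT _).mp h0
    apply hD
    have h7 : (D : ℍ → ℂ) ∣[w * ((n : ℤ) - 1)] (δ : SL(2, ℤ)) = 0 := by
      rw [← coe_slashM, h6]; rfl
    have h8 : ((D : ℍ → ℂ) ∣[w * ((n : ℤ) - 1)] (δ : SL(2, ℤ))) ∣[w * ((n : ℤ) - 1)]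
        (δ : SL(2, ℤ))⁻¹ = 0 := by rw [h7, SlashAction.zero_slash]
    rw [← SlashAction.slash_mul, mul_inv_cancel, SlashAction.slash_one] at h8
    exact DFunLike.ext _ _ fun z => congrFun h8 z
  intro h0
  apply hDδ
  ext i
  have := congrArg (PowerSeries.coeff i) h0
  rw [PowerSeries.coeff_map, map_zero] at this
  rw [map_zero]
  exact σ.injective (this.trans (map_zero σ).symm)

variable {N}

/-- a form with rational coefficients has rational diamond translates -/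
theorem slashM_rational {k : ℤ} (f : ModularForm (Gamma1 N) k)
    (hf : ∀ n, ∃ q : ℚ, (qExpansion 1 f).coeff n = (q : ℂ)) (δ : Gamma0 N) (n : ℕ) :
    ∃ q : ℚ, (qExpansion 1 (slashM N f δ)).coeff n = (q : ℂ) := by
  apply exists_rat_of_forall_ringHom
  intro σ
  have h : qExpansion 1 f = (qExpansion 1 f).map σ := by
    ext i
    obtain ⟨q, hq⟩ := hf i
    rw [PowerSeries.coeff_map, hq]
    simp
  have h2 := conj_slashM N σ f f h δ
  have h3 := congrArg (PowerSeries.coeff n) h2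
  rw [PowerSeries.coeff_map] at h3
  exact h3.symm

end

/-! ### the same for cusp forms -/

section Cusp

variable (N : ℕ) [NeZero N]

/-- Diamond translates of a cusp form on `Γ₁(N)`. -/
def slashS {k : ℤ} (f : CuspForm (Gamma1 N) k) (δ : Gamma0 N) : CuspForm (Gamma1 N) k where
  toFun := (f : ℍ → ℂ) ∣[k] (δ : SL(2, ℤ))
  slash_action_eq' := (slashM N (ModularFormClass.modularForm f) δ).slash_action_eq'
  holo' := (ModularFormClass.holo f).slash k _
  zero_at_cusps' {c} hc := by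
    rw [Subgroup.IsArithmetic.isCusp_iff_isCusp_SL2Z] at hc
    rw [OnePoint.isZeroAt_iff_forall_SL2Z hc]
    intro γ _
    rw [← SlashAction.slash_mul]
    exact H78.translate_zero f (Matrix.SpecialLinearGroup.mapGL ℝ ((δ : SL(2, ℤ)) * γ))
      ⟨_, rfl⟩

lemma coe_slashS {k : ℤ} (f : CuspForm (Gamma1 N) k) (δ : Gamma0 N) :
    (slashS N f δ : ℍ → ℂ) = (f : ℍ → ℂ) ∣[k] (δ : SL(2, ℤ)) := rfl

theorem conj_slashS (σ : ℂ →+* ℂ) {k : ℤ} (f f' : CuspForm (Gamma1 N) k)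
    (h : qExpansion 1 f' = (qExpansion 1 f).map σ) (δ : Gamma0 N) :
    qExpansion 1 (slashS N f' δ) = (qExpansion 1 (slashS N f δ)).map σ :=
  conj_slashM N σ (ModularFormClass.modularForm f) (ModularFormClass.modularForm f') h δ

theorem slashS_rational {k : ℤ} (f : CuspForm (Gamma1 N) k)
    (hf : ∀ n, ∃ q : ℚ, (qExpansion 1 f).coeff n = (q : ℂ)) (δ : Gamma0 N) (n : ℕ) :
    ∃ q : ℚ, (qExpansion 1 (slashS N f δ)).coeff n = (q : ℂ) :=
  slashM_rational (ModularFormClass.modularForm f) hf δ n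

/-- The lattice of cusp forms all of whose diamond translates have integral `q`-expansions. -/
def diaLattice (k : ℤ) : Submodule ℤ (CuspForm (Gamma1 N) k) where
  carrier := {f | ∀ (δ : Gamma0 N) (n : ℕ), ∃ z : ℤ, (qExpansion 1 (slashS N f δ)).coeff n = z}
  zero_mem' := by
    intro δ n
    refine ⟨0, ?_⟩
    rw [coe_slashS]
    have : ((0 : CuspForm (Gamma1 N) k) : ℍ → ℂ) = 0 := rfl
    rw [this, SlashAction.zero_slash, qExpansion_zero]
    simp
  add_mem' := by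
    intro f g hf hg δ n
    obtain ⟨x, hx⟩ := hf δ n
    obtain ⟨y, hy⟩ := hg δ n
    refine ⟨x + y, ?_⟩
    have e : slashS N (f + g) δ = slashS N f δ + slashS N g δ := by
      apply DFunLike.coe_injective
      rw [coe_slashS, FunLike.coe_add, FunLike.coe_add, SlashAction.add_slash]
      rfl
    rw [e, FunLike.coe_add, ModularForm.qExpansion_add one_pos one_mem_strictPeriods_Gamma1,
      map_add, hx, hy]
    push_cast
    rfl
  smul_mem' := by
    intro c f hf δ n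
    obtain ⟨x, hx⟩ := hf δ n
    refine ⟨c * x, ?_⟩
    have e : slashS N (c • f) δ = (c : ℂ) • slashS N f δ := by
      apply DFunLike.coe_injective
      rw [FunLike.coe_smul, coe_slashS, coe_slashS]
      have : ((c • f : CuspForm (Gamma1 N) k) : ℍ → ℂ) = (c : ℂ) • (f : ℍ → ℂ) := by
        ext z
        simp
      rw [this, ModularForm.SL_smul_slash]
    rw [e, FunLike.coe_smul, ModularForm.qExpansion_smul one_pos one_mem_strictPeriods_Gamma1,
      PowerSeries.coeff_smul, hx]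
    push_cast
    rfl

lemma mem_diaLattice {k : ℤ} {f : CuspForm (Gamma1 N) k} : f ∈ diaLattice N k ↔
    ∀ (δ : Gamma0 N) (n : ℕ), ∃ z : ℤ, (qExpansion 1 (slashS N f δ)).coeff n = z := Iff.rfl

/-- `f ∣ δ` only depends on the lower right entry of `δ` modulo `N` -/
lemma slashS_eq_of_map_eq {k : ℤ} (f : CuspForm (Gamma1 N) k) {δ ε : Gamma0 N}
    (h : Gamma0Map N δ = Gamma0Map N ε) : slashS N f δ = slashS N f ε := by
  apply DFunLike.coe_injective
  rw [coe_slashS, coe_slashS]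
  have h1 : δ * ε⁻¹ ∈ Gamma1' N := by
    rw [Gamma1_mem', map_mul, h, ← map_mul, mul_inv_cancel, map_one]
  rw [Gamma1_to_Gamma0_mem] at h1
  have h2 : ((δ : SL(2, ℤ)) * (ε : SL(2, ℤ))⁻¹) ∈ Gamma1 N := (Gamma1_mem N _).mpr h1
  have h3 : (f : ℍ → ℂ) ∣[k] ((δ : SL(2, ℤ)) * (ε : SL(2, ℤ))⁻¹) = f :=
    SlashInvariantFormClass.slash_action_eq f _ ⟨_, h2, rfl⟩
  have h4 : (δ : SL(2, ℤ)) = ((δ : SL(2, ℤ)) * (ε : SL(2, ℤ))⁻¹) * (ε : SL(2, ℤ)) := by group
  rw [h4, SlashAction.slash_mul, h3]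

theorem span_diaLattice (k : ℤ) :
    Submodule.span ℂ (diaLattice N k : Set (CuspForm (Gamma1 N) k)) = ⊤ := by
  classical
  have hT := one_mem_strictPeriods_Gamma1 (N := N)
  have hp := hasPrim_Gamma1 N
  rw [eq_top_iff, ← rational_span_cusp hT hp k, Submodule.span_le]
  intro f hf
  -- a common denominator for all translates
  have hD : ∀ δ : Gamma0 N, ∃ D : ℤ, D ≠ 0 ∧
      ∀ n, ∃ z : ℤ, (D : ℂ) * (qExpansion 1 (slashS N f δ)).coeff n = z := fun δ =>
    bddDen_cusp hT hp k (slashS N f δ) (slashS_rational N f hf δ)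
  choose D hD0 hD using hD
  let s : Set (ZMod N) := Set.range (fun δ : Gamma0 N => Gamma0Map N δ)
  have hs : ∀ x : s, ∃ δ : Gamma0 N, Gamma0Map N δ = x := fun x => x.2
  choose r hr using hs
  have : Fintype s := Fintype.ofFinite s
  let M : ℤ := ∏ x : s, D (r x)
  have hM : M ≠ 0 := Finset.prod_ne_zero_iff.mpr fun x _ => hD0 _
  have hmem : (M : ℂ) • f ∈ diaLattice N k := by
    rw [mem_diaLattice]
    intro δ n
    obtain ⟨z, hz⟩ := hD (r ⟨Gamma0Map N δ, δ, rfl⟩) n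
    have e1 : slashS N f δ = slashS N f (r ⟨Gamma0Map N δ, δ, rfl⟩) :=
      slashS_eq_of_map_eq N f (hr ⟨Gamma0Map N δ, δ, rfl⟩).symm
    have e2 : slashS N ((M : ℂ) • f) δ = (M : ℂ) • slashS N f δ := by
      apply DFunLike.coe_injective
      rw [FunLike.coe_smul, coe_slashS, coe_slashS, FunLike.coe_smul, ModularForm.SL_smul_slash]
    obtain ⟨c, hc⟩ : D (r ⟨Gamma0Map N δ, δ, rfl⟩) ∣ M :=
      Finset.dvd_prod_of_mem (fun x : s => D (r x)) (Finset.mem_univ _)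
    refine ⟨c * z, ?_⟩
    rw [e2, FunLike.coe_smul, ModularForm.qExpansion_smul one_pos hT, PowerSeries.coeff_smul,
      e1, hc, smul_eq_mul]
    push_cast
    rw [← hz]
    ring
  have h4 := Submodule.smul_mem (Submodule.span ℂ (diaLattice N k : Set (CuspForm (Gamma1 N) k)))
    ((M : ℂ)⁻¹) (Submodule.subset_span hmem)
  rwa [smul_smul, inv_mul_cancel₀ (by exact_mod_cast hM), one_smul] at h4

end Cusp

end Fermat.Agent.H50
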