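import Mathlib
import Fermat.Agent.H50Diamond
import Fermat.Agent.H58Hecke1

/-!
# The Hecke algebra of `S_k(Γ₁(N))` is finite over `ℤ`, `k ≥ 1`
-/

set_option autoImplicit false

noncomputable section

open UpperHalfPlane hiding I
open Complex MatrixGroups CongruenceSubgroup ModularForm ModularFormClass
open scoped Real Manifold
open Matrix.SpecialLinearGroup (mapGL)

namespace Fermat.Agent.H50

open Fermat.Agent.H58

variable {N : ℕ} [NeZero N] {k : ℤ}

lemma sig_coe_mem (N : ℕ) (d : ℤ) : sig N d ∈ Gamma0 N := sig_mem N d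

lemma dia_eq_slashS (d : ℤ) (f : CuspForm (Gamma1 N) k) :
    dia N k d f = slashS N f ⟨sig N d, sig_mem N d⟩ := rfl

lemma slashS_slashS (f : CuspForm (Gamma1 N) k) (δ ε : Gamma0 N) :
    slashS N (slashS N f δ) ε = slashS N f (δ * ε) := by
  apply DFunLike.coe_injective
  rw [coe_slashS, coe_slashS, coe_slashS, ← SlashAction.slash_mul]
  rfl

lemma slashS_one (f : CuspForm (Gamma1 N) k) : slashS N f 1 = f := by
  apply DFunLike.coe_injective
  rw [coe_slashS]
  simp

lemma slashS_T1L {p : ℕ} (hp : p.Prime) (hpN : ¬ p ∣ N) (f : CuspForm (Gamma1 N) k)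
    (δ : Gamma0 N) : slashS N (T1L N k p hp hpN f) δ = T1L N k p hp hpN (slashS N f δ) := by
  have : Fact p.Prime := ⟨hp⟩
  apply DFunLike.coe_injective
  rw [coe_slashS]
  show (T1 N k p ⇑f) ∣[k] (δ : SL(2, ℤ)) = T1 N k p (⇑f ∣[k] (δ : SL(2, ℤ)))
  rw [T1_slash hpN (inv1_of_class f) δ.2]

lemma diaLattice_slashS {f : CuspForm (Gamma1 N) k} (hf : f ∈ diaLattice N k) (δ : Gamma0 N) :
    slashS N f δ ∈ diaLattice N k := by
  intro ε n
  rw [slashS_slashS]
  exact hf _ n

lemma diaLattice_dia {f : CuspForm (Gamma1 N) k} (hf : f ∈ diaLattice N k) (d : ℤ) :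
    dia N k d f ∈ diaLattice N k := by
  rw [dia_eq_slashS]
  exact diaLattice_slashS hf _

lemma diaLattice_T1L (hk : 1 ≤ k) {p : ℕ} (hp : p.Prime) (hpN : ¬ p ∣ N)
    {f : CuspForm (Gamma1 N) k} (hf : f ∈ diaLattice N k) :
    T1L N k p hp hpN f ∈ diaLattice N k := by
  rw [mem_diaLattice] at hf ⊢
  intro δ n
  obtain ⟨x, hx⟩ := hf δ (p * n)
  obtain ⟨y, hy⟩ := hf (δ * ⟨sig N p, sig_mem N p⟩) (n / p)
  obtain ⟨e, he⟩ : ∃ e : ℕ, k - 1 = e := ⟨(k - 1).toNat, by omega⟩
  have h := qCoeff_T1L hp hpN (slashS N f δ) n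
  rw [← slashS_T1L, dia_eq_slashS, slashS_slashS, he, zpow_natCast] at h
  unfold qCoeff at h
  rw [h, hx]
  by_cases hd : p ∣ n
  · refine ⟨x + p ^ e * y, ?_⟩
    rw [if_pos hd, hy]
    push_cast
    ring
  · refine ⟨x, ?_⟩
    rw [if_neg hd, mul_zero, add_zero]

variable (N k) in
theorem diaLattice_fg : Module.Finite ℤ (diaLattice N k) := by
  have hT := one_mem_strictPeriods_Gamma1 (N := N)
  set B := sturmB (Gamma1 N) k with hB
  let ι : (Fin (B + 1) → ℤ) →ₗ[ℤ] (Fin (B + 1) → ℂ) :=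
    LinearMap.pi fun i => (Int.castAddHom ℂ).toIntLinearMap ∘ₗ LinearMap.proj i
  have hι : ∀ x i, ι x i = (x i : ℂ) := fun x i => rfl
  have hmem : ∀ f : diaLattice N k,
      (fun i : Fin (B + 1) => (qExpansion 1 (f : CuspForm (Gamma1 N) k)).coeff i) ∈
        LinearMap.range ι := by
    intro f
    have h1 : ∀ i : Fin (B + 1), ∃ z : ℤ,
        (qExpansion 1 (f : CuspForm (Gamma1 N) k)).coeff i = z := by
      intro i
      have := f.2 1 i
      rwa [slashS_one] at this
    choose z hz using h1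
    exact ⟨z, funext fun i => by rw [hι, hz]⟩
  let φ : diaLattice N k →ₗ[ℤ] LinearMap.range ι :=
    { toFun := fun f => ⟨_, hmem f⟩
      map_add' := fun f g => by
        apply Subtype.ext
        funext i
        exact (coeffS (Gamma1 N) k hT i).map_add f.1 g.1
      map_smul' := fun a f => by
        apply Subtype.ext
        funext i
        exact ((coeffS (Gamma1 N) k hT i).restrictScalars ℤ).map_smul a f.1 }
  have hφ : Function.Injective φ := by
    rw [injective_iff_map_eq_zero]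
    intro f hf
    apply Subtype.ext
    apply cusp_eq_zero_of_coeff (Gamma1 N) k hT
    intro n hn
    have := congrFun (congrArg Subtype.val hf) ⟨n, Nat.lt_succ_of_le hn⟩
    exact this
  exact Module.Finite.of_injective φ hφ

/-- the generators `T_p` (`p ∤ N`) and `⟨d⟩` of the Hecke algebra of `Γ₁(N)` -/
def heckeGen1 (N : ℕ) [NeZero N] (k : ℤ) : Set (Module.End ℂ (CuspForm (Gamma1 N) k)) :=
  {T | (∃ (p : ℕ) (hp : p.Prime) (hpN : ¬ p ∣ N), T = T1L N k p hp hpN) ∨
    ∃ d : ℤ, IsCoprime d (N : ℤ) ∧ T = dia N k d}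

/-- the Hecke algebra of `S_k(Γ₁(N))`, generated by `T_p` (`p ∤ N`) and `⟨d⟩` -/
def hecke1 (N : ℕ) [NeZero N] (k : ℤ) : Subalgebra ℤ (Module.End ℂ (CuspForm (Gamma1 N) k)) :=
  Algebra.adjoin ℤ (heckeGen1 N k)

lemma T1L_mem_hecke1 {p : ℕ} (hp : p.Prime) (hpN : ¬ p ∣ N) :
    T1L N k p hp hpN ∈ hecke1 N k := Algebra.subset_adjoin (Or.inl ⟨p, hp, hpN, rfl⟩)

lemma dia_mem_hecke1 {d : ℤ} (hd : IsCoprime d (N : ℤ)) :
    dia N k d ∈ hecke1 N k := Algebra.subset_adjoin (Or.inr ⟨d, hd, rfl⟩)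

/-- operators preserving the lattice -/
def stabL (N : ℕ) [NeZero N] (k : ℤ) : Subalgebra ℤ (Module.End ℂ (CuspForm (Gamma1 N) k)) where
  carrier := {t | ∀ f ∈ diaLattice N k, t f ∈ diaLattice N k}
  mul_mem' := fun {s t} hs ht f hf => hs (t f) (ht f hf)
  add_mem' := fun {s t} hs ht f hf => (diaLattice N k).add_mem (hs f hf) (ht f hf)
  algebraMap_mem' := fun a f hf => by
    have : (algebraMap ℤ (Module.End ℂ (CuspForm (Gamma1 N) k)) a) f = a • f := by
      simp
    rw [this]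
    exact (diaLattice N k).smul_mem a hf

lemma hecke1_le_stabL (hk : 1 ≤ k) : hecke1 N k ≤ stabL N k := by
  refine Algebra.adjoin_le ?_
  rintro t (⟨p, hp, hpN, rfl⟩ | ⟨d, -, rfl⟩) f hf
  · exact diaLattice_T1L hk hp hpN hf
  · exact diaLattice_dia hf d

lemma diaLattice_hecke1 (hk : 1 ≤ k) {t : Module.End ℂ (CuspForm (Gamma1 N) k)}
    (ht : t ∈ hecke1 N k) : ∀ f ∈ diaLattice N k, t f ∈ diaLattice N k :=
  hecke1_le_stabL hk ht

instance hecke1_comm : IsMulCommutative (hecke1 N k) := by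
  refine Algebra.isMulCommutative_adjoin ℤ ?_
  rintro s (⟨p, hp, hpN, rfl⟩ | ⟨d, hd, rfl⟩) t (⟨q, hq, hqN, rfl⟩ | ⟨e, he, rfl⟩)
  · exact T1L_T1L_comm hp hpN hq hqN
  · exact T1L_dia_comm hp hpN e
  · exact (T1L_dia_comm hq hqN d).symm
  · exact dia_comm hd he

/-- **The Hecke algebra of `S_k(Γ₁(N))` is finite over `ℤ`** (`k ≥ 1`, in particular weight 1). -/
theorem moduleFinite_hecke1 (hk : 1 ≤ k) : Module.Finite ℤ (hecke1 N k) := by
  have hfin := diaLattice_fg N k
  let φ : hecke1 N k →ₗ[ℤ] (diaLattice N k →ₗ[ℤ] diaLattice N k) :=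
    { toFun := fun t =>
        { toFun := fun f => ⟨t.1 f.1, diaLattice_hecke1 hk t.2 f.1 f.2⟩
          map_add' := fun f g => by
            apply Subtype.ext
            simp
          map_smul' := fun a f => by
            apply Subtype.ext
            simp }
      map_add' := fun t t' => by
        ext f
        simp
      map_smul' := fun a t => by
        ext f
        simp }
  have hinj : Function.Injective φ := by
    rw [injective_iff_map_eq_zero]
    intro t ht
    apply Subtype.ext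
    have h0 : ∀ f ∈ diaLattice N k, t.1 f = 0 := fun f hf =>
      congrArg Subtype.val (LinearMap.congr_fun ht ⟨f, hf⟩)
    apply LinearMap.ext
    intro f
    have hf : f ∈ Submodule.span ℂ (diaLattice N k : Set (CuspForm (Gamma1 N) k)) := by
      rw [span_diaLattice]; trivial
    refine Submodule.span_induction (p := fun f _ => t.1 f = (0 : hecke1 N k).1 f) ?_ ?_ ?_ ?_ hf
    · intro f hf
      rw [h0 f hf]; rfl
    · simp
    · intro x y _ _ hx hy
      rw [map_add, map_add, hx, hy]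
    · intro a x _ hx
      rw [map_smul, map_smul, hx]
  exact Module.Finite.of_injective φ hinj

end Fermat.Agent.H50
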