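import Mathlib
import Fermat.Agent.H50Hecke1

/-!
# From weight one eigenforms to characters of the weight two Hecke algebra

-/

set_option autoImplicit false

noncomputable section

open UpperHalfPlane hiding I
open Complex MatrixGroups CongruenceSubgroup ModularForm ModularFormClass
open scoped Real Manifold
open Matrix.SpecialLinearGroup (mapGL)

namespace Fermat.Agent.H50

open Fermat.Agent.H58

/-! ### common denominators of coefficients -/

section Den

open Matrix in
/-- integral matrices with `ℚ`-independent columns have an integral left inverse up to a scalar -/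
lemma exists_int_leftInverse {ι κ : Type*} [Fintype ι] [DecidableEq ι] [Fintype κ]
    [DecidableEq κ] (H : Matrix κ ι ℤ)
    (hH : ∀ x : ι → ℚ, (H.map (Int.cast : ℤ → ℚ)) *ᵥ x = 0 → x = 0) :
    ∃ (C : Matrix ι κ ℤ) (D : ℤ), D ≠ 0 ∧ ∀ i i', (C * H) i i' = if i = i' then D else 0 := by
  classical
  set HQ : Matrix κ ι ℚ := H.map (Int.cast : ℤ → ℚ) with hHQ
  have hker : LinearMap.ker (Matrix.toLin' HQ) = ⊥ := by
    rw [LinearMap.ker_eq_bot']
    intro x hx
    exact hH x (by rwa [Matrix.toLin'_apply] at hx)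
  obtain ⟨g, hg⟩ := LinearMap.exists_leftInverse_of_injective _ hker
  set CQ : Matrix ι κ ℚ := LinearMap.toMatrix' g with hCQ
  have hCH : CQ * HQ = 1 := by
    have h1 := congrArg LinearMap.toMatrix' hg
    rw [LinearMap.toMatrix'_comp, LinearMap.toMatrix'_toLin', LinearMap.toMatrix'_id] at h1
    exact h1
  set D : ℤ := ∏ p : ι × κ, ((CQ p.1 p.2).den : ℤ) with hD
  have hD0 : D ≠ 0 := Finset.prod_ne_zero_iff.mpr fun p _ => by
    exact_mod_cast (CQ p.1 p.2).den_ne_zero
  have hint : ∀ i j, ∃ z : ℤ, (D : ℚ) * CQ i j = z := by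
    intro i j
    obtain ⟨c, hc⟩ : ((CQ i j).den : ℤ) ∣ D :=
      Finset.dvd_prod_of_mem (fun p : ι × κ => ((CQ p.1 p.2).den : ℤ)) (Finset.mem_univ (i, j))
    refine ⟨c * (CQ i j).num, ?_⟩
    rw [hc]
    have h2 : ((CQ i j).den : ℚ) * CQ i j = (CQ i j).num := by
      rw [mul_comm]; exact Rat.mul_den_eq_num _
    push_cast
    rw [← h2]
    ring
  choose C hC using hint
  refine ⟨Matrix.of C, D, hD0, fun i i' => ?_⟩
  have e1 : ((Matrix.of C) * H).map (Int.cast : ℤ → ℚ) =
      (Matrix.of C).map (Int.cast : ℤ → ℚ) * HQ := by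
    ext i j
    simp [Matrix.mul_apply, HQ]
  have e2 : (Matrix.of C).map (Int.cast : ℤ → ℚ) = (D : ℚ) • CQ := by
    ext i j
    simp [hC i j]
  rw [e2, Matrix.smul_mul, hCH] at e1
  have e3 := congrFun (congrFun e1 i) i'
  rw [Matrix.map_apply, Matrix.smul_apply, Matrix.one_apply, smul_eq_mul] at e3
  have e4 : (((Matrix.of C * H) i i' : ℤ) : ℚ) = ((if i = i' then D else 0 : ℤ) : ℚ) := by
    rw [e3]
    split_ifs <;> simp
  exact_mod_cast e4

variable (N : ℕ) [NeZero N] (k : ℤ)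

/-- the Sturm bound for `Γ₁(N)` -/
abbrev stB : ℕ := sturmB (Gamma1 N) k

/-- There is an integer `D ≠ 0` with: for every subring `A` of `ℂ` and cusp form `g` whose first
coefficients lie in `A`, all `D * a_n(g)` lie in `A`. -/
theorem exists_den : ∃ D : ℤ, D ≠ 0 ∧ ∀ (g : CuspForm (Gamma1 N) k) (A : Subring ℂ),
    (∀ n ≤ stB N k, (qExpansion 1 g).coeff n ∈ A) →
      ∀ n, (D : ℂ) * (qExpansion 1 g).coeff n ∈ A := by
  classical
  have hT := one_mem_strictPeriods_Gamma1 (N := N)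
  have hp := hasPrim_Gamma1 N
  have hfd := finiteDimensional_cusp (Gamma1 N) k hT
  have hs := integral_span_cusp hT hp k
  obtain ⟨ι, hι, hιd, b, hb⟩ : ∃ (ι : Type) (_ : Fintype ι) (_ : DecidableEq ι)
      (b : Module.Basis ι ℂ (CuspForm (Gamma1 N) k)),
      ∀ i, ∀ n, ∃ z : ℤ, (qExpansion 1 (b i)).coeff n = z := by
    let b := Module.Basis.ofSpan hs.ge
    exact ⟨_, FiniteDimensional.fintypeBasisIndex b, Classical.decEq _, b, fun i =>
      Module.Basis.ofSpan_subset hs.ge ⟨i, rfl⟩⟩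
  choose z hz using hb
  let H : Matrix (Fin (stB N k + 1)) ι ℤ := Matrix.of fun j i => z i j
  have hcoef : ∀ (x : ι → ℂ) n, (qExpansion 1 (∑ i, x i • b i : CuspForm (Gamma1 N) k)).coeff n =
      ∑ i, x i * (z i n : ℂ) := by
    intro x n
    have h1 := map_sum (coeffS (Gamma1 N) k hT n) (fun i => x i • b i) Finset.univ
    simp only [map_smul, smul_eq_mul, coeffS_apply, hz] at h1
    exact h1
  obtain ⟨C, D, hD, hCD⟩ := exists_int_leftInverse H (by
    intro x hx
    have h2 : (∑ i, (x i : ℂ) • b i : CuspForm (Gamma1 N) k) = 0 := by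
      apply cusp_eq_zero_of_coeff (Gamma1 N) k hT
      intro n hn
      rw [hcoef]
      have h3 := congrFun hx ⟨n, Nat.lt_succ_of_le hn⟩
      simp only [Matrix.mulVec, dotProduct, Matrix.map_apply, H, Matrix.of_apply,
        Pi.zero_apply] at h3
      have h4 := congrArg (Rat.cast : ℚ → ℂ) h3
      push_cast at h4
      rw [← h4]
      exact Finset.sum_congr rfl fun i _ => mul_comm _ _
    have h5 := Fintype.linearIndependent_iff.mp b.linearIndependent (fun i => (x i : ℂ)) h2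
    funext i
    exact_mod_cast h5 i)
  refine ⟨D, hD, fun g A hg n => ?_⟩
  set x := fun i => b.repr g i with hx
  have hgx : g = ∑ i, x i • b i := (b.sum_repr g).symm
  have hDx : ∀ i, (D : ℂ) * x i ∈ A := by
    intro i
    have e1 : (D : ℂ) * x i = ∑ j : Fin (stB N k + 1), (C i j : ℂ) *
        (qExpansion 1 g).coeff j := by
      have e2 : ∀ j : Fin (stB N k + 1), (qExpansion 1 g).coeff j = ∑ i, x i * (H j i : ℂ) := by
        intro j
        conv_lhs => rw [hgx]
        rw [hcoef]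
        rfl
      simp_rw [e2, Finset.mul_sum]
      rw [Finset.sum_comm]
      have e3 : ∀ i', ∑ j : Fin (stB N k + 1), (C i j : ℂ) * (x i' * (H j i' : ℂ)) =
          x i' * ((C * H) i i' : ℤ) := by
        intro i'
        rw [Matrix.mul_apply]
        push_cast
        rw [Finset.mul_sum]
        exact Finset.sum_congr rfl fun j _ => by ring
      rw [Finset.sum_congr rfl fun i' _ => e3 i', Finset.sum_eq_single i]
      · rw [hCD, if_pos rfl, mul_comm]
      · intro i' _ hne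
        rw [hCD, if_neg (Ne.symm hne), Int.cast_zero, mul_zero]
      · intro h
        exact absurd (Finset.mem_univ i) h
    rw [e1]
    refine A.sum_mem fun j _ => A.mul_mem (intCast_mem A _) (hg j ?_)
    exact Nat.le_of_lt_succ j.2
  have e4 : (D : ℂ) * (qExpansion 1 g).coeff n = ∑ i, ((D : ℂ) * x i) * (z i n : ℂ) := by
    conv_lhs => rw [hgx]
    rw [hcoef, Finset.mul_sum]
    exact Finset.sum_congr rfl fun i _ => by ring
  rw [e4]
  exact A.sum_mem fun i _ => A.mul_mem (hDx i) (intCast_mem A _)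

end Den

/-! ### valuation subrings of `ℂ` above `ℓ` -/

section Val

variable (𝒱 : ValuationSubring ℂ)

lemma intCast_inv_mem {ℓ : ℕ} (hℓ : ℓ.Prime) (h𝒱 : (ℓ : ℂ) ∈ 𝒱.nonunits) {D : ℤ}
    (hD : ¬ (ℓ : ℤ) ∣ D) : ((D : ℂ))⁻¹ ∈ 𝒱 := by
  have h1 : 𝒱.valuation (D : ℂ) ≤ 1 := (𝒱.valuation_le_one_iff _).mpr (intCast_mem 𝒱 D)
  have h2 : ¬ 𝒱.valuation (D : ℂ) < 1 := by
    intro h
    have hcop : IsCoprime (ℓ : ℤ) D :=
      (Nat.prime_iff_prime_int.mp hℓ).coprime_iff_not_dvd.mpr hD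
    obtain ⟨u, v, huv⟩ := hcop
    have h3 : 𝒱.valuation (ℓ : ℂ) < 1 := (𝒱.mem_nonunits_iff).mp h𝒱
    have h4 : ((u : ℂ) * ℓ + v * D) = 1 := by exact_mod_cast huv
    have hu : 𝒱.valuation (u : ℂ) ≤ 1 := (𝒱.valuation_le_one_iff _).mpr (intCast_mem 𝒱 u)
    have hv : 𝒱.valuation (v : ℂ) ≤ 1 := (𝒱.valuation_le_one_iff _).mpr (intCast_mem 𝒱 v)
    have h5 : 𝒱.valuation ((u : ℂ) * ℓ + v * D) < 1 := by
      refine lt_of_le_of_lt (𝒱.valuation.map_add _ _) (max_lt ?_ ?_)
      · rw [map_mul]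
        exact lt_of_le_of_lt (mul_le_of_le_one_left' hu) h3
      · rw [map_mul]
        exact lt_of_le_of_lt (mul_le_of_le_one_left' hv) h
    rw [h4, map_one] at h5
    exact lt_irrefl _ h5
  have h6 : 𝒱.valuation (D : ℂ) = 1 := le_antisymm h1 (not_lt.mp h2)
  rw [← 𝒱.valuation_le_one_iff, map_inv₀, h6, inv_one]

end Val

/-! ### normalisation of cusp forms with respect to a valuation -/

section Norm

variable {N : ℕ} [NeZero N] {k : ℤ}

theorem exists_scale (𝒱 : ValuationSubring ℂ) {D : ℤ} (hD𝒱 : ((D : ℂ))⁻¹ ∈ 𝒱)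
    (hD0 : D ≠ 0)
    (hD : ∀ (g : CuspForm (Gamma1 N) k) (A : Subring ℂ),
      (∀ n ≤ stB N k, (qExpansion 1 g).coeff n ∈ A) →
        ∀ n, (D : ℂ) * (qExpansion 1 g).coeff n ∈ A)
    {f : CuspForm (Gamma1 N) k} (hf : f ≠ 0) :
    ∃ c : ℂ, c ≠ 0 ∧ (∀ n, (qExpansion 1 (c • f : CuspForm (Gamma1 N) k)).coeff n ∈ 𝒱) ∧
      ∃ n, (qExpansion 1 (c • f : CuspForm (Gamma1 N) k)).coeff n = 1 := by
  have hT := one_mem_strictPeriods_Gamma1 (N := N)
  obtain ⟨n0, hn0, hmax⟩ := Finset.exists_max_image (Finset.range (stB N k + 1))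
    (fun n => 𝒱.valuation ((qExpansion 1 f).coeff n)) ⟨0, by simp⟩
  have hne : (qExpansion 1 f).coeff n0 ≠ 0 := by
    intro h0
    apply hf
    apply cusp_eq_zero_of_coeff (Gamma1 N) k hT
    intro n hn
    have h1 := hmax n (Finset.mem_range.mpr (Nat.lt_succ_of_le hn))
    rw [h0, map_zero] at h1
    exact (map_eq_zero _).mp (le_antisymm h1 zero_le)
  set c := ((qExpansion 1 f).coeff n0)⁻¹ with hc
  have hcoef : ∀ n, (qExpansion 1 (c • f : CuspForm (Gamma1 N) k)).coeff n =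
      c * (qExpansion 1 f).coeff n := fun n => (coeffS (Gamma1 N) k hT n).map_smul c f
  refine ⟨c, inv_ne_zero hne, fun n => ?_, n0, by rw [hcoef, hc, inv_mul_cancel₀ hne]⟩
  have h1 : ∀ n ≤ stB N k, (qExpansion 1 (c • f : CuspForm (Gamma1 N) k)).coeff n ∈
      𝒱.toSubring := by
    intro n hn
    change _ ∈ 𝒱
    rw [hcoef, ← 𝒱.valuation_le_one_iff, map_mul, hc, map_inv₀]
    have h2 := hmax n (Finset.mem_range.mpr (Nat.lt_succ_of_le hn))
    have h3 : 𝒱.valuation ((qExpansion 1 f).coeff n0) ≠ 0 := (map_ne_zero _).mpr hne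
    rw [mul_comm]
    exact mul_inv_le_of_le_mul₀ zero_le zero_le (by rw [one_mul]; exact h2)
  have h2 := hD (c • f) 𝒱.toSubring h1 n
  have h3 := 𝒱.mul_mem _ _ hD𝒱 h2
  rwa [← mul_assoc, inv_mul_cancel₀ (by exact_mod_cast hD0), one_mul] at h3

end Norm

/-! ### abstract construction of a residual character -/

section Abstract

variable {V : Type*} [AddCommGroup V] [Module ℂ V]

theorem exists_residue_hom (𝒱 : ValuationSubring ℂ) (L : AddSubgroup V)
    (hL : ∀ c : 𝒱, ∀ x ∈ L, (c : ℂ) • x ∈ L) (G : V)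
    (hG : ∀ c : 𝒱, (c : ℂ) • G ∈ L → IsLocalRing.residue 𝒱 c = 0)
    (A : Subalgebra ℤ (Module.End ℂ V)) (h : ∀ t ∈ A, ∃ c : 𝒱, t G - (c : ℂ) • G ∈ L)
    (hst : ∀ t ∈ A, ∀ x ∈ L, t x ∈ L) :
    ∃ θ : A →+* IsLocalRing.ResidueField 𝒱, ∀ (t : A) (c : 𝒱), t.1 G - (c : ℂ) • G ∈ L →
      θ t = IsLocalRing.residue 𝒱 c := by
  have huniq : ∀ (v : V) (c c' : 𝒱), v - (c : ℂ) • G ∈ L → v - (c' : ℂ) • G ∈ L →
      IsLocalRing.residue 𝒱 c = IsLocalRing.residue 𝒱 c' := by
    intro v c c' h1 h2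
    have h3 := L.sub_mem h2 h1
    have h4 : v - (c' : ℂ) • G - (v - (c : ℂ) • G) = ((c - c' : 𝒱) : ℂ) • G := by
      push_cast
      rw [sub_smul]
      abel
    rw [h4] at h3
    have h5 := hG _ h3
    rwa [map_sub, sub_eq_zero] at h5
  choose c hc using fun t : A => h t.1 t.2
  let θ : A →+* IsLocalRing.ResidueField 𝒱 :=
    { toFun := fun t => IsLocalRing.residue 𝒱 (c t)
      map_one' := by
        rw [← map_one (IsLocalRing.residue 𝒱)]
        refine huniq G _ _ (hc 1) ?_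
        simp
      map_mul' := fun s t => by
        rw [← map_mul]
        refine huniq ((s * t).1 G) _ _ (hc _) ?_
        have h1 : ((s * t).1 G) - ((c s * c t : 𝒱) : ℂ) • G =
            s.1 (t.1 G - (c t : ℂ) • G) + (c t : ℂ) • (s.1 G - (c s : ℂ) • G) := by
          have e1 : (s * t).1 G = s.1 (t.1 G) := rfl
          have e2 : ((c s * c t : 𝒱) : ℂ) = (c t : ℂ) * (c s : ℂ) := by
            push_cast
            ring
          rw [map_sub, map_smul, smul_sub, smul_smul, e1, e2]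
          abel
        rw [h1]
        exact L.add_mem (hst s.1 s.2 _ (hc t)) (hL _ _ (hc s))
      map_zero' := by
        rw [← map_zero (IsLocalRing.residue 𝒱)]
        refine huniq 0 _ _ (hc 0) ?_
        simp
      map_add' := fun s t => by
        rw [← map_add]
        refine huniq ((s + t).1 G) _ _ (hc _) ?_
        have h1 : ((s + t).1 G) - ((c s + c t : 𝒱) : ℂ) • G =
            (s.1 G - (c s : ℂ) • G) + (t.1 G - (c t : ℂ) • G) := by
          have : (s + t).1 G = s.1 G + t.1 G := rfl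
          rw [this]
          push_cast
          rw [add_smul]
          abel
        rw [h1]
        exact L.add_mem (hc s) (hc t) }
  exact ⟨θ, fun t c' h' => huniq _ _ _ (hc t) h'⟩

end Abstract

end Fermat.Agent.H50
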