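import Mathlib
import Fermat.Agent.H50Theta

/-!
# From weight one eigenforms to characters of the weight two Hecke algebra, II

`exists_theta` : for an eigenform `f ∈ S_1(Γ₁(N))` and almost all primes `ℓ`, a ring homomorphism
from the Hecke algebra of `S_2(Γ₁(Nℓ))` to a field of characteristic `ℓ` with
`T_p ↦ a_p`, `⟨d⟩ ↦ ε(d) d⁻¹`.
-/

set_option autoImplicit false

noncomputable section

open UpperHalfPlane hiding I
open Complex MatrixGroups CongruenceSubgroup ModularForm ModularFormClass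
open scoped Real Manifold
open Matrix.SpecialLinearGroup (mapGL)

namespace Fermat.Agent.H50

open Fermat.Agent.H58 Fermat.Agent.H79

/-- the auxiliary weight one form of level `ℓ` : all diamond translates are `≡ δ₁₁⁻¹ mod 𝔪` -/
structure GoodE (ℓ : ℕ) (𝒱 : ValuationSubring ℂ) where
  E : ModularForm (Gamma1 ℓ) 1
  int : ∀ δ ∈ Gamma0 ℓ, ∀ n, (qExpansion 1 ((E : ℍ → ℂ) ∣[(1 : ℤ)] δ)).coeff n ∈ 𝒱
  zero : ∀ δ ∈ Gamma0 ℓ, ((δ 1 1 : ℤ) : ℂ) * (qExpansion 1 ((E : ℍ → ℂ) ∣[(1 : ℤ)] δ)).coeff 0 - 1 ∈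
    𝒱.nonunits
  pos : ∀ δ ∈ Gamma0 ℓ, ∀ n, 1 ≤ n → (qExpansion 1 ((E : ℍ → ℂ) ∣[(1 : ℤ)] δ)).coeff n ∈
    𝒱.nonunits

section nonunits

variable {𝒱 : ValuationSubring ℂ}

lemma nu_iff {x : ℂ} : x ∈ 𝒱.nonunits ↔ 𝒱.valuation x < 1 := 𝒱.mem_nonunits_iff

lemma nu_mem {x : ℂ} (h : x ∈ 𝒱.nonunits) : x ∈ 𝒱 :=
  (𝒱.valuation_le_one_iff _).mp (nu_iff.mp h).le

lemma nu_zero : (0 : ℂ) ∈ 𝒱.nonunits := by rw [nu_iff, map_zero]; exact zero_lt_one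

lemma nu_add {x y : ℂ} (hx : x ∈ 𝒱.nonunits) (hy : y ∈ 𝒱.nonunits) : x + y ∈ 𝒱.nonunits := by
  rw [nu_iff] at *
  exact lt_of_le_of_lt (𝒱.valuation.map_add _ _) (max_lt hx hy)

lemma nu_neg {x : ℂ} (hx : x ∈ 𝒱.nonunits) : -x ∈ 𝒱.nonunits := by
  rw [nu_iff] at *
  rwa [Valuation.map_neg]

lemma nu_sub {x y : ℂ} (hx : x ∈ 𝒱.nonunits) (hy : y ∈ 𝒱.nonunits) : x - y ∈ 𝒱.nonunits := by
  rw [sub_eq_add_neg]; exact nu_add hx (nu_neg hy)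

lemma nu_mul {x y : ℂ} (hx : x ∈ 𝒱) (hy : y ∈ 𝒱.nonunits) : x * y ∈ 𝒱.nonunits := by
  rw [nu_iff] at *
  rw [map_mul]
  exact lt_of_le_of_lt (mul_le_of_le_one_left' ((𝒱.valuation_le_one_iff _).mpr hx)) hy

lemma nu_mul' {x y : ℂ} (hx : x ∈ 𝒱.nonunits) (hy : y ∈ 𝒱) : x * y ∈ 𝒱.nonunits := by
  rw [mul_comm]; exact nu_mul hy hx

lemma nu_sum {ι : Type*} {s : Finset ι} {f : ι → ℂ} (h : ∀ i ∈ s, f i ∈ 𝒱.nonunits) :
    ∑ i ∈ s, f i ∈ 𝒱.nonunits := by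
  classical
  induction s using Finset.induction_on with
  | empty => rw [Finset.sum_empty]; exact nu_zero
  | insert a s ha ih =>
    rw [Finset.sum_insert ha]
    exact nu_add (h _ (Finset.mem_insert_self _ _)) (ih fun i hi => h i (Finset.mem_insert_of_mem hi))

lemma nu_one : (1 : ℂ) ∉ 𝒱.nonunits := by
  rw [nu_iff, map_one]; exact lt_irrefl _

lemma residue_eq_zero_iff {c : 𝒱} : IsLocalRing.residue 𝒱 c = 0 ↔ (c : ℂ) ∈ 𝒱.nonunits := by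
  rw [IsLocalRing.residue_eq_zero_iff, nu_iff, 𝒱.valuation_lt_one_iff]

lemma residue_eq_iff {c c' : 𝒱} : IsLocalRing.residue 𝒱 c = IsLocalRing.residue 𝒱 c' ↔
    (c : ℂ) - c' ∈ 𝒱.nonunits := by
  rw [← sub_eq_zero, ← map_sub, residue_eq_zero_iff]
  rfl

lemma coeff_mul_mod {P Q : PowerSeries ℂ} (hP : ∀ n, P.coeff n ∈ 𝒱)
    (hQ : ∀ n, 1 ≤ n → Q.coeff n ∈ 𝒱.nonunits) (n : ℕ) :
    (P * Q).coeff n - P.coeff n * Q.coeff 0 ∈ 𝒱.nonunits := by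
  rw [PowerSeries.coeff_mul]
  have h1 : (n, 0) ∈ Finset.HasAntidiagonal.antidiagonal n := by
    rw [Finset.HasAntidiagonal.mem_antidiagonal]; rfl
  rw [← Finset.add_sum_erase _ _ h1, add_sub_cancel_left]
  refine nu_sum fun p hp => ?_
  rw [Finset.mem_erase, Finset.HasAntidiagonal.mem_antidiagonal] at hp
  refine nu_mul (hP _) (hQ _ ?_)
  by_contra h
  apply hp.1
  have h2 : p.2 = 0 := by omega
  have h3 : p.1 = n := by omega
  exact Prod.ext h3 h2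

end nonunits

/-! ### the product of a cusp form of level `N` and a modular form of level `ℓ` -/

section Mul

variable {N ℓ : ℕ}

lemma Gamma1_mul_left : Gamma1 (N * ℓ) ≤ Gamma1 N := by
  intro γ hγ
  rw [Gamma1_mem] at *
  have h : ∀ a b : ℤ, ((a : ℤ) : ZMod (N * ℓ)) = b → ((a : ℤ) : ZMod N) = b := by
    intro a b hab
    rw [ZMod.intCast_eq_intCast_iff_dvd_sub] at *
    exact dvd_trans (by push_cast; exact dvd_mul_right _ _) hab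
  refine ⟨?_, ?_, ?_⟩
  · have := h (γ 0 0) 1 (by simpa using hγ.1)
    simpa using this
  · have := h (γ 1 1) 1 (by simpa using hγ.2.1)
    simpa using this
  · have := h (γ 1 0) 0 (by simpa using hγ.2.2)
    simpa using this

lemma Gamma1_mul_right : Gamma1 (N * ℓ) ≤ Gamma1 ℓ := by
  rw [mul_comm]; exact Gamma1_mul_left

lemma Gamma0_mul_left : Gamma0 (N * ℓ) ≤ Gamma0 N := by
  intro γ hγ
  rw [Gamma0_mem, ZMod.intCast_zmod_eq_zero_iff_dvd] at *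
  exact dvd_trans (by push_cast; exact dvd_mul_right _ _) hγ

lemma Gamma0_mul_right : Gamma0 (N * ℓ) ≤ Gamma0 ℓ := by
  rw [mul_comm]; exact Gamma0_mul_left

/-- product of a cusp form on `Γ₁(N)` and a modular form on `Γ₁(ℓ)` -/
def mulC [NeZero N] [NeZero ℓ] (f : CuspForm (Gamma1 N) 1) (E : ModularForm (Gamma1 ℓ) 1) :
    CuspForm (Gamma1 (N * ℓ)) 2 where
  toFun := (f : ℍ → ℂ) * (E : ℍ → ℂ)
  slash_action_eq' := by
    rintro _ ⟨γ, hγ, rfl⟩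
    have h1 : (f : ℍ → ℂ) ∣[(1 : ℤ)] γ = f :=
      SlashInvariantFormClass.slash_action_eq f _ ⟨γ, Gamma1_mul_left hγ, rfl⟩
    have h2 : (E : ℍ → ℂ) ∣[(1 : ℤ)] γ = E :=
      SlashInvariantFormClass.slash_action_eq E _ ⟨γ, Gamma1_mul_right hγ, rfl⟩
    change ((f : ℍ → ℂ) * (E : ℍ → ℂ)) ∣[(2 : ℤ)] γ = _
    rw [show (2 : ℤ) = 1 + 1 by norm_num, ModularForm.mul_slash_SL2, h1, h2]
  holo' := (CuspFormClass.holo f).mul (ModularFormClass.holo E)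
  zero_at_cusps' {c} hc := by
    have : NeZero (N * ℓ) := inferInstance
    rw [Subgroup.IsArithmetic.isCusp_iff_isCusp_SL2Z] at hc
    rw [OnePoint.isZeroAt_iff_forall_SL2Z hc]
    intro γ _
    have h1 := H78.translate_zero f (mapGL ℝ γ) ⟨γ, rfl⟩
    have h2 := (H78.translate_good E (mapGL ℝ γ) ⟨γ, rfl⟩).2
    rw [show (2 : ℤ) = 1 + 1 by norm_num, ModularForm.mul_slash_SL2]
    rw [IsZeroAtImInfty, Filter.ZeroAtFilter] at h1 ⊢
    rw [IsBoundedAtImInfty, Filter.BoundedAtFilter] at h2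
    rw [← Asymptotics.isLittleO_one_iff (F := ℝ)] at h1 ⊢
    have := h1.mul_isBigO h2
    have h3 : (fun x : ℍ => (1 : ℝ) * (1 : ℍ → ℝ) x) = fun _ => 1 := by ext; simp
    rw [h3] at this
    exact this

lemma coe_mulC [NeZero N] [NeZero ℓ] (f : CuspForm (Gamma1 N) 1) (E : ModularForm (Gamma1 ℓ) 1) :
    (mulC f E : ℍ → ℂ) = (f : ℍ → ℂ) * (E : ℍ → ℂ) := rfl

end Mul

/-! ### the main construction -/

section Main

variable {N ℓ : ℕ} [NeZero N] [NeZero ℓ]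

/-- the lattice of cusp forms all of whose diamond translates have coefficients in `𝔪` -/
def nuL (M : ℕ) [NeZero M] (𝒱 : ValuationSubring ℂ) : AddSubgroup (CuspForm (Gamma1 M) 2) where
  carrier := {h | ∀ (δ : Gamma0 M) n, (qExpansion 1 (slashS M h δ)).coeff n ∈ 𝒱.nonunits}
  zero_mem' := by
    intro δ n
    rw [coe_slashS]
    have : ((0 : CuspForm (Gamma1 M) 2) : ℍ → ℂ) = 0 := rfl
    rw [this, SlashAction.zero_slash, qExpansion_zero, map_zero]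
    exact nu_zero
  add_mem' := by
    intro f g hf hg δ n
    have e : slashS M (f + g) δ = slashS M f δ + slashS M g δ := by
      apply DFunLike.coe_injective
      rw [coe_slashS, FunLike.coe_add, FunLike.coe_add, SlashAction.add_slash]
      rfl
    rw [e, FunLike.coe_add, ModularForm.qExpansion_add one_pos one_mem_strictPeriods_Gamma1,
      map_add]
    exact nu_add (hf δ n) (hg δ n)
  neg_mem' := by
    intro f hf δ n
    have e : slashS M (-f) δ = (-1 : ℂ) • slashS M f δ := by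
      apply DFunLike.coe_injective
      rw [FunLike.coe_smul, coe_slashS, coe_slashS]
      have : ((-f : CuspForm (Gamma1 M) 2) : ℍ → ℂ) = (-1 : ℂ) • (f : ℍ → ℂ) := by
        ext z
        simp
      rw [this, ModularForm.SL_smul_slash]
    rw [e, FunLike.coe_smul, ModularForm.qExpansion_smul one_pos one_mem_strictPeriods_Gamma1,
      PowerSeries.coeff_smul, smul_eq_mul, neg_one_mul]
    exact nu_neg (hf δ n)

variable {M : ℕ} [NeZero M] {𝒱 : ValuationSubring ℂ}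

lemma mem_nuL {h : CuspForm (Gamma1 M) 2} : h ∈ nuL M 𝒱 ↔
    ∀ (δ : Gamma0 M) n, (qExpansion 1 (slashS M h δ)).coeff n ∈ 𝒱.nonunits := Iff.rfl

lemma slashS_smul {N : ℕ} [NeZero N] {k : ℤ} (c : ℂ) (h : CuspForm (Gamma1 N) k) (δ : Gamma0 N) :
    slashS N (c • h) δ = c • slashS N h δ := by
  apply DFunLike.coe_injective
  rw [FunLike.coe_smul, coe_slashS, coe_slashS, FunLike.coe_smul, ModularForm.SL_smul_slash]

lemma slashS_sub {N : ℕ} [NeZero N] {k : ℤ} (g h : CuspForm (Gamma1 N) k) (δ : Gamma0 N) :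
    slashS N (g - h) δ = slashS N g δ - slashS N h δ := by
  apply DFunLike.coe_injective
  rw [FunLike.coe_sub, coe_slashS, coe_slashS, coe_slashS, FunLike.coe_sub, sub_eq_add_neg,
    SlashAction.add_slash, SlashAction.neg_slash, ← sub_eq_add_neg]

lemma coeff_smul' {N : ℕ} [NeZero N] {k : ℤ} (c : ℂ) (h : CuspForm (Gamma1 N) k) (n : ℕ) :
    (qExpansion 1 (c • h : CuspForm (Gamma1 N) k)).coeff n = c * (qExpansion 1 h).coeff n :=
  (coeffS (Gamma1 N) k one_mem_strictPeriods_Gamma1 n).map_smul c h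

lemma coeff_sub' {N : ℕ} [NeZero N] {k : ℤ} (g h : CuspForm (Gamma1 N) k) (n : ℕ) :
    (qExpansion 1 (g - h : CuspForm (Gamma1 N) k)).coeff n =
      (qExpansion 1 g).coeff n - (qExpansion 1 h).coeff n :=
  (coeffS (Gamma1 N) k one_mem_strictPeriods_Gamma1 n).map_sub g h

lemma nuL_smul {c : ℂ} (hc : c ∈ 𝒱) {h : CuspForm (Gamma1 M) 2} (hh : h ∈ nuL M 𝒱) :
    c • h ∈ nuL M 𝒱 := by
  rw [mem_nuL] at *
  intro δ n
  rw [slashS_smul, coeff_smul']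
  exact nu_mul hc (hh δ n)

lemma nuL_dia {h : CuspForm (Gamma1 M) 2} (hh : h ∈ nuL M 𝒱) (d : ℤ) :
    dia M 2 d h ∈ nuL M 𝒱 := by
  rw [dia_eq_slashS, mem_nuL]
  intro δ n
  rw [slashS_slashS]
  exact hh _ n

/-- the coefficient formula for `T_p`, in terms of `slashS` -/
lemma coeff_T1L {N : ℕ} [NeZero N] {k : ℤ} {p : ℕ} (hp : p.Prime) (hpN : ¬ p ∣ N)
    (f : CuspForm (Gamma1 N) k) (δ : Gamma0 N) (n : ℕ) :
    (qExpansion 1 (slashS N (T1L N k p hp hpN f) δ)).coeff n =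
      (qExpansion 1 (slashS N f δ)).coeff (p * n) + (p : ℂ) ^ (k - 1) *
        (if p ∣ n then
          (qExpansion 1 (slashS N f (δ * ⟨sig N p, sig_mem N p⟩))).coeff (n / p) else 0) := by
  have h := qCoeff_T1L hp hpN (slashS N f δ) n
  rw [← slashS_T1L, dia_eq_slashS, slashS_slashS] at h
  exact h

lemma nuL_T1L {p : ℕ} (hp : p.Prime) (hpM : ¬ p ∣ M) {h : CuspForm (Gamma1 M) 2}
    (hh : h ∈ nuL M 𝒱) : T1L M 2 p hp hpM h ∈ nuL M 𝒱 := by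
  rw [mem_nuL] at *
  intro δ n
  rw [coeff_T1L]
  refine nu_add (hh _ _) ?_
  have h1 : (p : ℂ) ^ ((2 : ℤ) - 1) ∈ 𝒱 := by
    rw [show (2 : ℤ) - 1 = 1 by norm_num, zpow_one]
    exact natCast_mem 𝒱 p
  split_ifs with hd
  · exact nu_mul h1 (hh _ _)
  · rw [mul_zero]; exact nu_zero

lemma isIntegral_mem {x : ℂ} (hx : IsIntegral ℤ x) : x ∈ 𝒱 := by
  have h1 : IsIntegral 𝒱 x := hx.tower_top
  obtain ⟨y, hy⟩ := IsIntegrallyClosed.isIntegral_iff.mp h1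
  rw [← hy]
  exact y.2

lemma isIntegral_dirichlet (ε : DirichletCharacter ℂ N) (x : ZMod N) : IsIntegral ℤ (ε x) := by
  by_cases hx : IsUnit x
  · have h1 : (ε x) ^ (Fintype.card (ZMod N)ˣ) = 1 := by
      obtain ⟨u, rfl⟩ := hx
      rw [← map_pow, ← Units.val_pow_eq_pow_val, pow_card_eq_one, Units.val_one, map_one]
    exact IsIntegral.of_pow Fintype.card_pos (by rw [h1]; exact isIntegral_one)
  · rw [ε.map_nonunit hx]
    exact isIntegral_zero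

omit [NeZero ℓ] in
lemma int_notMem_nu (hℓ : ℓ.Prime) (h𝒱 : (ℓ : ℂ) ∈ 𝒱.nonunits) {x : ℂ} {d : ℤ}
    (hd : ¬ (ℓ : ℤ) ∣ d) (h : (d : ℂ) * x ∈ 𝒱.nonunits) : x ∈ 𝒱.nonunits := by
  have h1 := intCast_inv_mem 𝒱 hℓ h𝒱 hd
  have h2 := nu_mul h1 h
  have hd0 : (d : ℂ) ≠ 0 := by
    intro h0
    have : d = 0 := by exact_mod_cast h0
    exact hd (this ▸ dvd_zero _)
  rwa [← mul_assoc, inv_mul_cancel₀ hd0, one_mul] at h2

omit [NeZero ℓ] in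
lemma dvd_cast_mem (h𝒱 : (ℓ : ℂ) ∈ 𝒱.nonunits) {d : ℤ} (hd : (ℓ : ℤ) ∣ d) :
    (d : ℂ) ∈ 𝒱.nonunits := by
  obtain ⟨c, rfl⟩ := hd
  push_cast
  exact nu_mul' h𝒱 (intCast_mem 𝒱 c)

omit [NeZero N] in
lemma coprime_11 {δ : SL(2, ℤ)} (hδ : δ ∈ Gamma0 N) : IsCoprime (δ 1 1) (N : ℤ) := by
  rw [Gamma0_mem, ZMod.intCast_zmod_eq_zero_iff_dvd] at hδ
  obtain ⟨c, hc⟩ := hδ
  have h := δ.det_coe
  rw [Matrix.det_fin_two, hc] at h
  exact ⟨δ 0 0, -(δ 0 1 * c), by linear_combination h⟩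

/-- abbreviation: constant term of `E ∣ δ` -/
def E0 (E : GoodE ℓ 𝒱) (δ : SL(2, ℤ)) : ℂ :=
  (qExpansion 1 ((E.E : ℍ → ℂ) ∣[(1 : ℤ)] δ)).coeff 0

omit [NeZero ℓ] in
lemma E0_rel (hℓ : ℓ.Prime) (h𝒱 : (ℓ : ℂ) ∈ 𝒱.nonunits) (E : GoodE ℓ 𝒱) {δ δ' : SL(2, ℤ)}
    (hδ : δ ∈ Gamma0 ℓ) (hδ' : δ' ∈ Gamma0 ℓ) {d : ℤ}
    (h : (ℓ : ℤ) ∣ δ' 1 1 - d * δ 1 1) : (d : ℂ) * E0 E δ' - E0 E δ ∈ 𝒱.nonunits := by
  have h1 : ((δ 1 1 : ℤ) : ℂ) * E0 E δ - 1 ∈ 𝒱.nonunits := E.zero δ hδ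
  have h2 : ((δ' 1 1 : ℤ) : ℂ) * E0 E δ' - 1 ∈ 𝒱.nonunits := E.zero δ' hδ'
  have h3 : (((δ' 1 1 - d * δ 1 1 : ℤ)) : ℂ) * E0 E δ' ∈ 𝒱.nonunits :=
    nu_mul' (dvd_cast_mem h𝒱 h) (E.int δ' hδ' 0)
  have hnd : ¬ (ℓ : ℤ) ∣ δ 1 1 := by
    intro hd
    have := coprime_11 hδ
    have h4 : IsUnit (ℓ : ℤ) := this.isUnit_of_dvd' hd dvd_rfl
    exact (Nat.prime_iff_prime_int.mp hℓ).not_isUnit h4
  apply int_notMem_nu hℓ h𝒱 hnd
  have h5 := nu_sub (nu_sub h2 h1) h3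
  convert! h5 using 1
  push_cast
  ring

variable (ε : DirichletCharacter ℂ N) (a : ℕ → ℂ) (g : CuspForm (Gamma1 N) 1)

lemma slash_eq_of_dia
    (hdia : ∀ d : ℤ, IsCoprime d (N : ℤ) → dia N 1 d g = ε (d : ZMod N) • g)
    {δ : SL(2, ℤ)} (hδ : δ ∈ Gamma0 N) :
    (g : ℍ → ℂ) ∣[(1 : ℤ)] δ = ε ((δ 1 1 : ℤ) : ZMod N) • (g : ℍ → ℂ) := by
  rw [← coe_dia_eq (coprime_11 hδ) g hδ rfl, hdia _ (coprime_11 hδ)]
  rfl

lemma key_coeff (hgint : ∀ n, (qExpansion 1 g).coeff n ∈ 𝒱)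
    (hdia : ∀ d : ℤ, IsCoprime d (N : ℤ) → dia N 1 d g = ε (d : ZMod N) • g)
    (E : GoodE ℓ 𝒱) (δ : Gamma0 (N * ℓ)) (n : ℕ) :
    (qExpansion 1 (slashS (N * ℓ) (mulC g E.E) δ)).coeff n -
      ε (((δ : SL(2, ℤ)) 1 1 : ℤ) : ZMod N) * E0 E δ * (qExpansion 1 g).coeff n ∈
        𝒱.nonunits := by
  have hδN : (δ : SL(2, ℤ)) ∈ Gamma0 N := Gamma0_mul_left δ.2
  have hδℓ : (δ : SL(2, ℤ)) ∈ Gamma0 ℓ := Gamma0_mul_right δ.2
  set u := ε (((δ : SL(2, ℤ)) 1 1 : ℤ) : ZMod N) with hu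
  have hu𝒱 : u ∈ 𝒱 := isIntegral_mem (isIntegral_dirichlet ε _)
  have h1 : (slashS (N * ℓ) (mulC g E.E) δ : ℍ → ℂ) =
      (u • (g : ℍ → ℂ)) * ((E.E : ℍ → ℂ) ∣[(1 : ℤ)] (δ : SL(2, ℤ))) := by
    rw [coe_slashS, coe_mulC, show (2 : ℤ) = 1 + 1 by norm_num, ModularForm.mul_slash_SL2,
      slash_eq_of_dia ε g hdia hδN]
  have hQg : HasQ ((u • g : CuspForm (Gamma1 N) 1) : ℍ → ℂ) (qExpansion 1 (u • g)) :=
    hasQ_of_class one_mem_strictPeriods_Gamma1 (u • g)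
  have hQE : HasQ ((E.E : ℍ → ℂ) ∣[(1 : ℤ)] (δ : SL(2, ℤ)))
      (qExpansion 1 ((E.E : ℍ → ℂ) ∣[(1 : ℤ)] (δ : SL(2, ℤ)))) :=
    hasQ_of_class one_mem_strictPeriods_Gamma1 (slashM ℓ E.E ⟨δ, hδℓ⟩)
  have h2 := (hQg.mul hQE).2
  rw [FunLike.coe_smul] at h2
  rw [h1, h2]
  have h3 : ∀ n, (qExpansion 1 (u • (g : ℍ → ℂ))).coeff n = u * (qExpansion 1 g).coeff n :=
    fun n => coeff_smul' u g n
  have h4 := coeff_mul_mod (𝒱 := 𝒱) (P := qExpansion 1 (u • (g : ℍ → ℂ)))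
    (Q := qExpansion 1 ((E.E : ℍ → ℂ) ∣[(1 : ℤ)] (δ : SL(2, ℤ))))
    (fun n => by rw [h3]; exact 𝒱.mul_mem _ _ hu𝒱 (hgint n)) (fun n hn => E.pos δ hδℓ n hn) n
  rw [h3] at h4
  have h5 : u * E0 E δ * (qExpansion 1 g).coeff n =
      u * (qExpansion 1 g).coeff n *
        (qExpansion 1 ((E.E : ℍ → ℂ) ∣[(1 : ℤ)] (δ : SL(2, ℤ)))).coeff 0 := by
    rw [E0]; ring
  rw [h5]
  exact h4

lemma rel_R
    (hdia : ∀ d : ℤ, IsCoprime d (N : ℤ) → dia N 1 d g = ε (d : ZMod N) • g)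
    {p : ℕ} (hp : p.Prime) (hpN : ¬ p ∣ N) (hT : T1L N 1 p hp hpN g = a p • g) (n : ℕ) :
    (qExpansion 1 g).coeff (p * n) +
      (if p ∣ n then ε (p : ZMod N) * (qExpansion 1 g).coeff (n / p) else 0) =
      a p * (qExpansion 1 g).coeff n := by
  have h := qCoeff_T1L hp hpN g n
  have hcop : IsCoprime (p : ℤ) (N : ℤ) :=
    Nat.isCoprime_iff_coprime.mpr ((Nat.Prime.coprime_iff_not_dvd hp).mpr hpN)
  rw [hT, hdia _ hcop] at h
  unfold qCoeff at h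
  rw [coeff_smul', coeff_smul', sub_self, zpow_zero, one_mul] at h
  rw [h]
  simp

variable (M 𝒱) in
/-- operators preserving `nuL` -/
def stabNu : Subalgebra ℤ (Module.End ℂ (CuspForm (Gamma1 M) 2)) where
  carrier := {t | ∀ x ∈ nuL M 𝒱, t x ∈ nuL M 𝒱}
  mul_mem' := fun {s t} hs ht f hf => hs (t f) (ht f hf)
  add_mem' := fun {s t} hs ht f hf => (nuL M 𝒱).add_mem (hs f hf) (ht f hf)
  algebraMap_mem' := fun z f hf => by
    have : (algebraMap ℤ (Module.End ℂ (CuspForm (Gamma1 M) 2)) z) f = (z : ℂ) • f := by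
      simp only [algebraMap_int_eq, eq_intCast, Module.End.intCast_apply]
      exact (Int.cast_smul_eq_zsmul ℂ z f).symm
    rw [this]
    exact nuL_smul (intCast_mem 𝒱 z) hf

lemma mem_stabNu {t : Module.End ℂ (CuspForm (Gamma1 M) 2)} :
    t ∈ stabNu M 𝒱 ↔ ∀ x ∈ nuL M 𝒱, t x ∈ nuL M 𝒱 := Iff.rfl

variable (M 𝒱) in
lemma hecke1_le_stabNu : hecke1 M 2 ≤ stabNu M 𝒱 := by
  refine Algebra.adjoin_le ?_
  rintro t (⟨p, hp, hpN, rfl⟩ | ⟨d, -, rfl⟩) f hf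
  · exact nuL_T1L hp hpN hf
  · exact nuL_dia hf d

variable (M 𝒱) in
/-- operators for which `G` is an eigenvector modulo `nuL` -/
def goodNu (G : CuspForm (Gamma1 M) 2) : Subalgebra ℤ (Module.End ℂ (CuspForm (Gamma1 M) 2)) where
  carrier := {t | (∀ x ∈ nuL M 𝒱, t x ∈ nuL M 𝒱) ∧ ∃ c : 𝒱, t G - (c : ℂ) • G ∈ nuL M 𝒱}
  mul_mem' := by
    rintro s t ⟨hs, c, hc⟩ ⟨ht, c', hc'⟩
    refine ⟨fun f hf => hs (t f) (ht f hf), c * c', ?_⟩
    have h0 : (s * t) G - (((c * c' : 𝒱) : ℂ)) • G =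
        s (t G - (c' : ℂ) • G) + (c' : ℂ) • (s G - (c : ℂ) • G) := by
      have e2 : ((c * c' : 𝒱) : ℂ) = (c' : ℂ) * (c : ℂ) := by
        push_cast
        ring
      rw [map_sub, map_smul, smul_sub, smul_smul, e2, Module.End.mul_apply]
      abel
    rw [h0]
    exact (nuL M 𝒱).add_mem (hs _ hc') (nuL_smul c'.2 hc)
  add_mem' := by
    rintro s t ⟨hs, c, hc⟩ ⟨ht, c', hc'⟩
    refine ⟨fun f hf => (nuL M 𝒱).add_mem (hs f hf) (ht f hf), c + c', ?_⟩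
    have h0 : (s + t) G - (((c + c' : 𝒱) : ℂ)) • G = (s G - (c : ℂ) • G) + (t G - (c' : ℂ) • G) := by
      push_cast
      rw [LinearMap.add_apply, add_smul]
      abel
    rw [h0]
    exact (nuL M 𝒱).add_mem hc hc'
  algebraMap_mem' := by
    intro z
    refine ⟨fun f hf => ?_, z, ?_⟩
    · have : (algebraMap ℤ (Module.End ℂ (CuspForm (Gamma1 M) 2)) z) f = (z : ℂ) • f := by
        simp only [algebraMap_int_eq, eq_intCast, Module.End.intCast_apply]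
        exact (Int.cast_smul_eq_zsmul ℂ z f).symm
      rw [this]
      exact nuL_smul (intCast_mem 𝒱 z) hf
    · have : (algebraMap ℤ (Module.End ℂ (CuspForm (Gamma1 M) 2)) z) G = (z : ℂ) • G := by
        simp only [algebraMap_int_eq, eq_intCast, Module.End.intCast_apply]
        exact (Int.cast_smul_eq_zsmul ℂ z G).symm
      rw [this]
      have h0 : (z : ℂ) • G - (((z : 𝒱) : ℂ)) • G = 0 := by
        push_cast
        rw [sub_self]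
      rw [h0]
      exact (nuL M 𝒱).zero_mem

lemma mem_goodNu {G : CuspForm (Gamma1 M) 2} {t : Module.End ℂ (CuspForm (Gamma1 M) 2)} :
    t ∈ goodNu M 𝒱 G ↔ (∀ x ∈ nuL M 𝒱, t x ∈ nuL M 𝒱) ∧
      ∃ c : 𝒱, t G - (c : ℂ) • G ∈ nuL M 𝒱 := Iff.rfl

/-- **Main construction.** -/
theorem exists_theta_of_normalized (hgint : ∀ n, (qExpansion 1 g).coeff n ∈ 𝒱)
    (hg1 : ∃ n, (qExpansion 1 g).coeff n = 1)
    (hdia : ∀ d : ℤ, IsCoprime d (N : ℤ) → dia N 1 d g = ε (d : ZMod N) • g)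
    (hT : ∀ (p : ℕ) (hp : p.Prime) (hpN : ¬ p ∣ N), T1L N 1 p hp hpN g = a p • g)
    (ha : ∀ p : ℕ, p.Prime → ¬ p ∣ N → a p ∈ 𝒱)
    (hℓ : ℓ.Prime) (h𝒱 : (ℓ : ℂ) ∈ 𝒱.nonunits) (E : GoodE ℓ 𝒱) :
    ∃ θ : hecke1 (N * ℓ) 2 →+* IsLocalRing.ResidueField 𝒱,
      (∀ (p : ℕ) (hp : p.Prime) (hpM : ¬ p ∣ N * ℓ) (hpN : ¬ p ∣ N),
        θ ⟨T1L (N * ℓ) 2 p hp hpM, T1L_mem_hecke1 hp hpM⟩ =
          IsLocalRing.residue 𝒱 ⟨a p, ha p hp hpN⟩) ∧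
      (∀ (d : ℤ) (hd : IsCoprime d ((N * ℓ : ℕ) : ℤ)),
        (d : IsLocalRing.ResidueField 𝒱) * θ ⟨dia (N * ℓ) 2 d, dia_mem_hecke1 hd⟩ =
          IsLocalRing.residue 𝒱 ⟨ε (d : ZMod N), isIntegral_mem (isIntegral_dirichlet ε _)⟩) := by
  classical
  set M := N * ℓ with hM
  set G : CuspForm (Gamma1 M) 2 := mulC g E.E with hG
  -- the coefficient function
  set e : Gamma0 M → ℂ := fun δ => ε (((δ : SL(2, ℤ)) 1 1 : ℤ) : ZMod N) * E0 E δ with he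
  have hkey : ∀ (δ : Gamma0 M) (n : ℕ), (qExpansion 1 (slashS M G δ)).coeff n -
      e δ * (qExpansion 1 g).coeff n ∈ 𝒱.nonunits := fun δ n => key_coeff ε g hgint hdia E δ n
  have hε : ∀ x, ε x ∈ 𝒱 := fun x => isIntegral_mem (isIntegral_dirichlet ε x)
  have hE0 : ∀ δ : Gamma0 M, E0 E (δ : SL(2, ℤ)) ∈ 𝒱 := fun δ =>
    E.int δ (Gamma0_mul_right δ.2) 0
  have he𝒱 : ∀ δ, e δ ∈ 𝒱 := fun δ => 𝒱.mul_mem _ _ (hε _) (hE0 δ)
  -- the behaviour of `e` under multiplication of `δ` by an element with lower right entry `d`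
  have hemul : ∀ (δ δ' : Gamma0 M) (d : ℤ), IsCoprime d (M : ℤ) →
      (((δ' : SL(2, ℤ)) 1 1 : ℤ) : ZMod M) = ((δ : SL(2, ℤ)) 1 1 : ℤ) * (d : ZMod M) →
      (d : ℂ) * e δ' - ε (d : ZMod N) * e δ ∈ 𝒱.nonunits := by
    intro δ δ' d hd h
    have h1 : (M : ℤ) ∣ (δ' : SL(2, ℤ)) 1 1 - d * (δ : SL(2, ℤ)) 1 1 := by
      rw [← ZMod.intCast_zmod_eq_zero_iff_dvd]
      push_cast
      rw [h]
      ring
    have h2 : (ℓ : ℤ) ∣ (δ' : SL(2, ℤ)) 1 1 - d * (δ : SL(2, ℤ)) 1 1 :=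
      dvd_trans ⟨(N : ℤ), by rw [hM]; push_cast; ring⟩ h1
    have h3 : (N : ℤ) ∣ (δ' : SL(2, ℤ)) 1 1 - d * (δ : SL(2, ℤ)) 1 1 :=
      dvd_trans ⟨(ℓ : ℤ), by rw [hM]; push_cast; ring⟩ h1
    have h4 : (((δ' : SL(2, ℤ)) 1 1 : ℤ) : ZMod N) =
        (d : ZMod N) * (((δ : SL(2, ℤ)) 1 1 : ℤ) : ZMod N) := by
      rw [← ZMod.intCast_zmod_eq_zero_iff_dvd] at h3
      push_cast at h3
      exact sub_eq_zero.mp h3
    have h5 := E0_rel hℓ h𝒱 E (Gamma0_mul_right δ.2) (Gamma0_mul_right δ'.2) h2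
    have h6 := nu_mul (𝒱.mul_mem _ _ (hε (d : ZMod N))
      (hε (((δ : SL(2, ℤ)) 1 1 : ℤ) : ZMod N))) h5
    convert! h6 using 1
    rw [he]
    simp only
    rw [h4, map_mul]
    ring
  -- coprimality facts
  have hdℓ : ∀ d : ℤ, IsCoprime d (M : ℤ) → ¬ (ℓ : ℤ) ∣ d := by
    intro d hd h
    have h1 : IsUnit (ℓ : ℤ) := hd.isUnit_of_dvd' h ⟨(N : ℤ), by rw [hM]; push_cast; ring⟩
    exact (Nat.prime_iff_prime_int.mp hℓ).not_isUnit h1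
  -- `c G ∈ L → c ∈ 𝔪`
  have hGL : ∀ c : 𝒱, (c : ℂ) • G ∈ nuL M 𝒱 → IsLocalRing.residue 𝒱 c = 0 := by
    intro c hc
    obtain ⟨n, hn⟩ := hg1
    rw [residue_eq_zero_iff]
    have h1 := hc 1 n
    rw [slashS_smul, coeff_smul'] at h1
    have h2 := nu_mul c.2 (hkey 1 n)
    rw [hn, mul_one] at h2
    have h3 : (c : ℂ) * e 1 ∈ 𝒱.nonunits := by
      have := nu_sub h1 h2
      convert! this using 1
      ring
    have h4 : e 1 - 1 ∈ 𝒱.nonunits := by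
      have h5 := E.zero 1 (one_mem _)
      rw [he]
      simpa [E0] using h5
    have h6 := nu_sub h3 (nu_mul c.2 h4)
    convert! h6 using 1
    ring
  -- the generators
  have hTp : ∀ (p : ℕ) (hp : p.Prime) (hpM : ¬ p ∣ M) (hpN : ¬ p ∣ N),
      T1L M 2 p hp hpM G - a p • G ∈ nuL M 𝒱 := by
    intro p hp hpM hpN δ n
    have hcop : IsCoprime (p : ℤ) (M : ℤ) :=
      Nat.isCoprime_iff_coprime.mpr ((Nat.Prime.coprime_iff_not_dvd hp).mpr hpM)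
    rw [slashS_sub, coeff_sub', slashS_smul, coeff_smul', coeff_T1L,
      show (2 : ℤ) - 1 = 1 by norm_num, zpow_one]
    have hR := rel_R ε a g hdia hp hpN (hT p hp hpN) n
    have k1 := hkey δ (p * n)
    have k2 := hkey δ n
    by_cases hd : p ∣ n
    · rw [if_pos hd] at hR ⊢
      set δ' := δ * ⟨sig M p, sig_mem M p⟩ with hδ'
      have k3 := hkey δ' (n / p)
      have k4 := hemul δ δ' p hcop (by
        rw [hδ']
        have := Gamma0_mul_11 (δ := sig M p) δ.2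
        rw [Subgroup.coe_mul]
        simp only
        rw [this, sig_11 hcop])
      have h1 := nu_add (nu_add k1 (nu_mul (natCast_mem 𝒱 p) k3))
        (nu_sub (nu_mul' k4 (hgint (n / p))) (nu_mul (ha p hp hpN) k2))
      convert! h1 using 1
      push_cast at hR ⊢
      linear_combination (e δ) * hR
    · rw [if_neg hd] at hR ⊢
      have h1 := nu_sub k1 (nu_mul (ha p hp hpN) k2)
      convert! h1 using 1
      linear_combination (e δ) * hR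
  have hdi : ∀ (d : ℤ) (_ : IsCoprime d (M : ℤ)), ∃ c : 𝒱, (c : ℂ) * d = ε (d : ZMod N) ∧
      dia M 2 d G - (c : ℂ) • G ∈ nuL M 𝒱 := by
    intro d hd
    have hd0 : (d : ℂ) ≠ 0 := by
      intro h0
      have : d = 0 := by exact_mod_cast h0
      exact hdℓ d hd (this ▸ dvd_zero _)
    have hinv := intCast_inv_mem 𝒱 hℓ h𝒱 (hdℓ d hd)
    refine ⟨⟨ε (d : ZMod N) * (d : ℂ)⁻¹, 𝒱.mul_mem _ _ (hε _) hinv⟩, ?_, ?_⟩
    · simp only
      rw [mul_assoc, inv_mul_cancel₀ hd0, mul_one]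
    · intro δ n
      rw [slashS_sub, coeff_sub', slashS_smul, coeff_smul', dia_eq_slashS, slashS_slashS]
      set δ' : Gamma0 M := ⟨sig M d, sig_mem M d⟩ * δ with hδ'
      have k2 := hkey δ n
      have k3 := hkey δ' n
      have k4 := hemul δ δ' d hd (by
        rw [hδ']
        have := Gamma0_mul_11 (δ := (δ : SL(2, ℤ))) (sig_mem M d)
        rw [Subgroup.coe_mul]
        simp only
        rw [this, sig_11 hd, mul_comm])
      apply int_notMem_nu hℓ h𝒱 (hdℓ d hd)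
      have h1 := nu_add (nu_mul (intCast_mem 𝒱 d) k3)
        (nu_sub (nu_mul' k4 (hgint n)) (nu_mul (hε (d : ZMod N)) k2))
      convert! h1 using 1
      field_simp
      ring
  -- all operators
  have hstab : ∀ t ∈ hecke1 M 2, ∀ x ∈ nuL M 𝒱, t x ∈ nuL M 𝒱 := fun t ht =>
    (mem_stabNu).mp (hecke1_le_stabNu M 𝒱 ht)
  have hle : hecke1 M 2 ≤ goodNu M 𝒱 G := by
    refine Algebra.adjoin_le ?_
    rintro t (⟨p, hp, hpM, rfl⟩ | ⟨d, hd, rfl⟩)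
    · have hpN : ¬ p ∣ N := fun h => hpM (h.mul_right ℓ)
      exact ⟨fun x hx => nuL_T1L hp hpM hx, ⟨a p, ha p hp hpN⟩, hTp p hp hpM hpN⟩
    · obtain ⟨c, -, hc⟩ := hdi d hd
      exact ⟨fun x hx => nuL_dia hx d, c, hc⟩
  have hall : ∀ t ∈ hecke1 M 2, ∃ c : 𝒱, t G - (c : ℂ) • G ∈ nuL M 𝒱 := fun t ht =>
    (mem_goodNu.mp (hle ht)).2
  obtain ⟨θ, hθ⟩ := exists_residue_hom 𝒱 (nuL M 𝒱) (fun c x hx => nuL_smul c.2 hx) G hGL
    (hecke1 M 2) hall hstab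
  refine ⟨θ, fun p hp hpM hpN => ?_, fun d hd => ?_⟩
  · exact hθ ⟨T1L M 2 p hp hpM, T1L_mem_hecke1 hp hpM⟩ ⟨a p, ha p hp hpN⟩ (hTp p hp hpM hpN)
  · obtain ⟨c, hc1, hc2⟩ := hdi d hd
    rw [hθ ⟨dia M 2 d, dia_mem_hecke1 hd⟩ c hc2]
    have h1 : (d : IsLocalRing.ResidueField 𝒱) = IsLocalRing.residue 𝒱 (d : 𝒱) := by
      rw [map_intCast]
    rw [h1, ← map_mul, residue_eq_iff]
    have h2 : (((d : 𝒱) * c : 𝒱) : ℂ) - ε (d : ZMod N) = 0 := by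
      rw [← hc1]
      push_cast
      ring
    rw [h2]
    exact nu_zero

end Main

end Fermat.Agent.H50
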