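import Mathlib
import Fermat.Agent.H50ThetaB

/-!
# Inputs for the Galois action on `Γ₁(N)`-forms

* `fg_span_coeffM`: the `q`-coefficients of a modular form span a finitely generated group.
* `exists_max_coeff`: a coefficient of maximal absolute value, for every valuation ring.
* `exists_sepForm`: a form of even weight with stabiliser `± Γ₁(N)`.
* `exists_conj_eigen`: conjugates of weight one eigenforms.
* `exists_eigenchar`, `isIntegral_eigenvalue`, `exists_numberField`: eigenvalues are algebraic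
  integers in a number field.
-/

set_option autoImplicit false

noncomputable section

open UpperHalfPlane hiding I
open Complex MatrixGroups CongruenceSubgroup ModularForm ModularFormClass
open scoped Real Manifold
open Matrix.SpecialLinearGroup (mapGL)

namespace Fermat.Agent.H50

open Fermat.Agent.H58

section FG

variable {Γ : Subgroup SL(2, ℤ)} [Γ.FiniteIndex]
variable (hT : (1 : ℝ) ∈ (Γ : Subgroup (GL (Fin 2) ℝ)).strictPeriods) (hp : HasPrim Γ)

include hT hp

/-- The `q`-coefficients of a modular form lie in a finitely generated group. -/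
theorem fg_span_coeffM {k : ℤ} (f : ModularForm Γ k) :
    (Submodule.span ℤ (Set.range fun n => (qExpansion 1 f).coeff n)).FG := by
  classical
  have hfd := finiteDimensional_mod Γ k hT
  have hs := integral_span_mod hT hp k
  obtain ⟨ι, hι, b, hb⟩ : ∃ (ι : Type) (_ : Fintype ι)
      (b : Module.Basis ι ℂ (ModularForm Γ k)),
      ∀ i, ∀ n, ∃ z : ℤ, (qExpansion 1 (b i)).coeff n = z := by
    let b := Module.Basis.ofSpan hs.ge
    exact ⟨_, FiniteDimensional.fintypeBasisIndex b, b, fun i =>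
      Module.Basis.ofSpan_subset hs.ge ⟨i, rfl⟩⟩
  choose z hz using hb
  let L : Submodule ℤ ℂ := Submodule.span ℤ (Set.range fun i => b.repr f i)
  have hL : L.FG := Submodule.fg_span (Set.finite_range _)
  have hfin : Module.Finite ℤ L := Module.Finite.iff_fg.mpr hL
  have hle : Submodule.span ℤ (Set.range fun n => (qExpansion 1 f).coeff n) ≤ L := by
    rw [Submodule.span_le]
    rintro _ ⟨n, rfl⟩
    show (qExpansion 1 f).coeff n ∈ L
    have h1 : (qExpansion 1 f).coeff n = ∑ i, (b.repr f i) * ((z i n : ℤ) : ℂ) := by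
      conv_lhs => rw [← b.sum_repr f]
      rw [← coeffM_apply (hT := hT), map_sum]
      refine Finset.sum_congr rfl fun i _ => ?_
      rw [map_smul, coeffM_apply, hz, smul_eq_mul]
    rw [h1]
    refine Submodule.sum_mem _ fun i _ => ?_
    rw [mul_comm, ← zsmul_eq_mul]
    exact L.smul_mem _ (Submodule.subset_span ⟨i, rfl⟩)
  have hnoeth : IsNoetherian ℤ L := inferInstance
  have h2 : (Submodule.comap L.subtype
      (Submodule.span ℤ (Set.range fun n => (qExpansion 1 f).coeff n))).FG :=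
    IsNoetherian.noetherian _
  have h3 := h2.map L.subtype
  rwa [Submodule.map_comap_subtype, inf_eq_right.mpr hle] at h3

theorem fg_span_coeffS {k : ℤ} (f : CuspForm Γ k) :
    (Submodule.span ℤ (Set.range fun n => (qExpansion 1 f).coeff n)).FG :=
  fg_span_coeffM hT hp (ModularFormClass.modularForm f)

end FG

/-- A family spanning a finitely generated group has an element of maximal absolute value. -/
theorem exists_max_of_fg {K : Type*} [Field K] (b : ℕ → K)
    (hfg : (Submodule.span ℤ (Set.range b)).FG) (A : ValuationSubring K) (hne : ∃ n, b n ≠ 0) :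
    ∃ n0, b n0 ≠ 0 ∧ ∀ n, b n / b n0 ∈ A := by
  classical
  obtain ⟨s, hs, hspan⟩ := (Submodule.fg_span_iff_fg_span_finset_subset _).mp hfg
  obtain ⟨m, hm⟩ := hne
  have hsne : s.Nonempty := by
    rw [Finset.nonempty_iff_ne_empty]
    rintro rfl
    have : b m ∈ Submodule.span ℤ (Set.range b) := Submodule.subset_span ⟨m, rfl⟩
    rw [hspan] at this
    simp only [Finset.coe_empty, Submodule.span_empty, Submodule.mem_bot] at this
    exact hm this
  obtain ⟨x, hx, hmax⟩ := Finset.exists_max_image s (fun y => A.valuation y) hsne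
  obtain ⟨n0, hn0⟩ := hs hx
  have hall : ∀ y ∈ Submodule.span ℤ (Set.range b), A.valuation y ≤ A.valuation x := by
    intro y hy
    rw [hspan] at hy
    refine Submodule.span_induction (p := fun y _ => A.valuation y ≤ A.valuation x) ?_ ?_ ?_ ?_ hy
    · exact fun y hy => hmax y hy
    · rw [map_zero]; exact zero_le
    · exact fun y z _ _ h1 h2 => (A.valuation.map_add _ _).trans (max_le h1 h2)
    · intro a y _ h
      rw [zsmul_eq_mul, map_mul]
      have : A.valuation ((a : ℤ) : K) ≤ 1 := (A.valuation_le_one_iff _).mpr (intCast_mem A a)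
      exact le_trans (mul_le_of_le_one_left' this) h
  have hx0 : x ≠ 0 := by
    rintro rfl
    have := hall (b m) (Submodule.subset_span ⟨m, rfl⟩)
    rw [map_zero, le_zero_iff, map_eq_zero] at this
    exact hm this
  refine ⟨n0, by rw [hn0]; exact hx0, fun n => ?_⟩
  rw [← A.valuation_le_one_iff, map_div₀, hn0]
  exact div_le_one_of_le₀ (hall _ (Submodule.subset_span ⟨n, rfl⟩)) zero_le

/-- **Normalisation** (A3iii) for `ι : K → ℂ` and a valuation ring `A` of `K`. -/
theorem exists_max_coeff {Γ : Subgroup SL(2, ℤ)} [Γ.FiniteIndex]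
    (hT : (1 : ℝ) ∈ (Γ : Subgroup (GL (Fin 2) ℝ)).strictPeriods) (hp : HasPrim Γ)
    {K : Type*} [Field K] (ι : K →+* ℂ) (A : ValuationSubring K) {k : ℤ}
    (f : ModularForm Γ k) (hf : f ≠ 0) (b : ℕ → K)
    (hb : ∀ n, (qExpansion 1 f).coeff n = ι (b n)) :
    ∃ n0, b n0 ≠ 0 ∧ ∀ n, b n / b n0 ∈ A := by
  have hfg := fg_span_coeffM hT hp f
  refine exists_max_of_fg b ?_ A ?_
  · let L : K →ₗ[ℤ] ℂ := ι.toAddMonoidHom.toIntLinearMap
    have hL : Function.Injective L := ι.injective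
    refine Submodule.fg_of_fg_map_injective L hL ?_
    rw [Submodule.map_span]
    convert! hfg using 2
    ext y
    constructor
    · rintro ⟨_, ⟨n, rfl⟩, rfl⟩
      exact ⟨n, hb n⟩
    · rintro ⟨n, rfl⟩
      exact ⟨b n, ⟨n, rfl⟩, (hb n).symm⟩
  · by_contra h
    push Not at h
    apply hf
    refine mod_eq_zero_of_coeff Γ k hT f fun n _ => ?_
    rw [hb, h, map_zero]

/-- **(SEP)**: a form of even weight with integral coefficients and stabiliser `± Γ₁(N)`. -/
theorem exists_sepForm (N : ℕ) [NeZero N] : ∃ (w : ℤ) (g : ModularForm (Gamma1 N) w), Even w ∧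
    (∀ m, ∃ z : ℤ, (qExpansion 1 g).coeff m = z) ∧
    ∀ γ : SL(2, ℤ), (⇑g : ℍ → ℂ) ∣[w] γ = ⇑g ↔ (γ ∈ Gamma1 N ∨ -γ ∈ Gamma1 N) := by
  obtain ⟨w, g, hg, hst⟩ := hasPrim_Gamma1 N
  have hinv : ∀ γ ∈ Gamma1 N, (⇑g : ℍ → ℂ) ∣[w] γ = ⇑g := fun γ hγ =>
    SlashInvariantFormClass.slash_action_eq g _ ⟨γ, hγ, rfl⟩
  have hneg : ∀ (v : ℤ) (h : ℍ → ℂ) (γ : SL(2, ℤ)), h ∣[v] (-γ) = (-1 : ℂ) ^ v • (h ∣[v] γ) := by
    intro v h γ
    ext τ
    rw [SL_slash_apply, Pi.smul_apply, SL_slash_apply, smul_eq_mul,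
      ModularGroup.SL_neg_smul]
    have h1 : denom (((-γ : SL(2, ℤ)) : GL (Fin 2) ℝ)) τ =
        -1 * denom ((γ : SL(2, ℤ)) : GL (Fin 2) ℝ) τ := by
      rw [UpperHalfPlane.denom, UpperHalfPlane.denom]
      simp
      ring
    rw [h1, mul_zpow, ← inv_zpow', inv_neg_one]
    ring
  rcases Int.even_or_odd w with hw | hw
  · refine ⟨w, g, hw, hg, fun γ => ⟨fun h => Or.inl (hst γ h), ?_⟩⟩
    rintro (h | h)
    · exact hinv γ h
    · have h1 := hneg w g (-γ)
      rw [neg_neg, hw.neg_one_zpow, one_smul, hinv _ h] at h1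
      exact h1
  · refine ⟨w + w, g.mul g, ⟨w, rfl⟩, ?_, fun γ => ?_⟩
    · intro m
      have hT := one_mem_strictPeriods_Gamma1 (N := N)
      have h1 : qExpansion 1 (g.mul g) = qExpansion 1 g * qExpansion 1 g :=
        ModularForm.qExpansion_mul one_pos hT g g
      choose z hz using hg
      rw [h1, PowerSeries.coeff_mul]
      refine ⟨∑ p ∈ Finset.HasAntidiagonal.antidiagonal m, z p.1 * z p.2, ?_⟩
      push_cast
      exact Finset.sum_congr rfl fun p _ => by rw [hz, hz]
    · have hcoe : (⇑(g.mul g) : ℍ → ℂ) = ⇑g * ⇑g := rfl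
      rw [hcoe, ModularForm.mul_slash_SL2]
      constructor
      · intro h
        have hm : MDiff (⇑g : ℍ → ℂ) := ModularFormClass.holo g
        have hm1 : MDiff ((⇑g : ℍ → ℂ) ∣[w] γ) := hm.slash _ _
        have h3 : ((⇑g : ℍ → ℂ) ∣[w] γ - ⇑g) * ((⇑g : ℍ → ℂ) ∣[w] γ + ⇑g) = 0 := by
          calc _ = ((⇑g : ℍ → ℂ) ∣[w] γ) * ((⇑g : ℍ → ℂ) ∣[w] γ) - ⇑g * ⇑g := by ring
            _ = 0 := by rw [h, sub_self]
        rcases (UpperHalfPlane.mul_eq_zero_iff (hm1.sub hm) (hm1.add hm)).mp h3 with h4 | h4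
        · exact Or.inl (hst γ (sub_eq_zero.mp h4))
        · right
          apply hst
          rw [hneg, hw.neg_one_zpow, eq_neg_of_add_eq_zero_left h4]
          ext τ
          simp
      · rintro (h | h)
        · rw [hinv γ h]
        · have h1 := hneg w g (-γ)
          rw [neg_neg, hw.neg_one_zpow, hinv _ h] at h1
          rw [h1]
          ext τ
          simp

section Eigen

variable {N : ℕ} [NeZero N]

/-- **Conjugates of weight one eigenforms** (in the form of S48). -/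
theorem exists_conj_eigen (ε : DirichletCharacter ℂ N) (f : CuspForm (Gamma1 N) 1)
    (hf₁ : qCoeff f 1 = 1)
    (hT : ∀ p : ℕ, p.Prime → ¬ p ∣ N → ∀ n : ℕ,
      qCoeff f (p * n) + ε (p : ZMod N) * (if p ∣ n then qCoeff f (n / p) else 0) =
        qCoeff f p * qCoeff f n) (σ : ℂ →+* ℂ) :
    ∃ f' : CuspForm (Gamma1 N) 1, qCoeff f' 1 = 1 ∧
      (∀ p : ℕ, p.Prime → ¬ p ∣ N → ∀ n : ℕ,
        qCoeff f' (p * n) + (ε.ringHomComp σ) (p : ZMod N) *
          (if p ∣ n then qCoeff f' (n / p) else 0) = qCoeff f' p * qCoeff f' n) ∧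
      ∀ n, qCoeff f' n = σ (qCoeff f n) := by
  obtain ⟨f', hf'⟩ := exists_conj_cusp (one_mem_strictPeriods_Gamma1 (N := N)) (hasPrim_Gamma1 N) σ f
  have h : ∀ n, qCoeff f' n = σ (qCoeff f n) := by
    intro n
    show (qExpansion 1 f').coeff n = σ ((qExpansion 1 f).coeff n)
    rw [hf', PowerSeries.coeff_map]
  refine ⟨f', by rw [h, hf₁, map_one], fun p hp hpN n => ?_, h⟩
  have h1 := congrArg σ (hT p hp hpN n)
  rw [map_add, map_mul, map_mul, apply_ite σ, map_zero] at h1
  rw [h, h, h]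
  simp only [h, MulChar.ringHomComp_apply]
  exact h1

/-- eigenvalue relations as an equality of forms -/
theorem T1L_eq_of_qCoeff (ε : DirichletCharacter ℂ N) (f : CuspForm (Gamma1 N) 1)
    (hε : ∀ γ : SL(2, ℤ), γ ∈ Gamma0 N → ⇑f ∣[(1 : ℤ)] γ = ε ((γ 1 1 : ℤ) : ZMod N) • ⇑f)
    {p : ℕ} (hp : p.Prime) (hpN : ¬ p ∣ N) (a : ℂ)
    (hT : ∀ n : ℕ,
      qCoeff f (p * n) + ε (p : ZMod N) * (if p ∣ n then qCoeff f (n / p) else 0) =
        a * qCoeff f n) : T1L N 1 p hp hpN f = a • f := by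
  have hcop : IsCoprime (p : ℤ) (N : ℤ) :=
    Nat.isCoprime_iff_coprime.mpr ((Nat.Prime.coprime_iff_not_dvd hp).mpr hpN)
  have hd : dia N 1 p f = ε (p : ZMod N) • f := by
    apply DFunLike.coe_injective
    rw [dia_eq_slashS, coe_slashS]
    have h1 := hε (sig N p) (sig_mem N p)
    rw [sig_11 hcop] at h1
    rw [h1]
    simp
  have hT1 := one_mem_strictPeriods_Gamma1 (N := N)
  rw [← sub_eq_zero]
  refine cusp_eq_zero_of_coeff (Gamma1 N) 1 hT1 _ fun n _ => ?_
  have h2 : (qExpansion 1 (T1L N 1 p hp hpN f - a • f : CuspForm (Gamma1 N) 1)).coeff n =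
      (qExpansion 1 (T1L N 1 p hp hpN f)).coeff n - a * (qExpansion 1 f).coeff n := by
    rw [coeff_sub', coeff_smul']
  rw [h2]
  have h3 := qCoeff_T1L (k := 1) hp hpN f n
  rw [hd, sub_self, zpow_zero, one_mul] at h3
  have h4 : qCoeff (ε (p : ZMod N) • f : CuspForm (Gamma1 N) 1) (n / p) =
      ε (p : ZMod N) * qCoeff f (n / p) :=
    coeff_smul' _ _ _
  rw [h4] at h3
  have h5 := hT n
  have h6 : qCoeff (T1L N 1 p hp hpN f) n = a * qCoeff f n := by
    rw [h3, ← h5]
    split_ifs <;> ring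
  show qCoeff (T1L N 1 p hp hpN f) n - a * qCoeff f n = 0
  rw [h6, sub_self]

/-- The eigencharacter of an eigenform. -/
theorem exists_eigenchar {k : ℤ} (f : CuspForm (Gamma1 N) k) (hf : f ≠ 0)
    (e : ℤ → ℂ) (a : ℕ → ℂ)
    (hdia : ∀ d : ℤ, IsCoprime d (N : ℤ) → dia N k d f = e d • f)
    (hT : ∀ (p : ℕ) (hp : p.Prime) (hpN : ¬ p ∣ N), T1L N k p hp hpN f = a p • f) :
    ∃ χ : hecke1 N k →+* ℂ, (∀ t : hecke1 N k, t.1 f = χ t • f) ∧
      (∀ (p : ℕ) (hp : p.Prime) (hpN : ¬ p ∣ N),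
        χ ⟨T1L N k p hp hpN, T1L_mem_hecke1 hp hpN⟩ = a p) ∧
      (∀ (d : ℤ) (hd : IsCoprime d (N : ℤ)), χ ⟨dia N k d, dia_mem_hecke1 hd⟩ = e d) := by
  let S : Subalgebra ℤ (Module.End ℂ (CuspForm (Gamma1 N) k)) :=
    { carrier := {t | ∃ c : ℂ, t f = c • f}
      mul_mem' := by
        rintro s t ⟨c, hc⟩ ⟨d, hd⟩
        exact ⟨d * c, by rw [Module.End.mul_apply, hd, map_smul, hc, smul_smul]⟩
      add_mem' := by
        rintro s t ⟨c, hc⟩ ⟨d, hd⟩
        exact ⟨c + d, by rw [LinearMap.add_apply, hd, hc, add_smul]⟩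
      algebraMap_mem' := by
        intro z
        refine ⟨(z : ℂ), ?_⟩
        simp only [algebraMap_int_eq, eq_intCast, Module.End.intCast_apply]
        exact (Int.cast_smul_eq_zsmul ℂ z f).symm }
  have hle : hecke1 N k ≤ S := by
    refine Algebra.adjoin_le ?_
    rintro t (⟨p, hp, hpN, rfl⟩ | ⟨d, hd, rfl⟩)
    · exact ⟨a p, hT p hp hpN⟩
    · exact ⟨e d, hdia d hd⟩
  have huniq : ∀ c d : ℂ, c • f = d • f → c = d := fun c d h => smul_left_injective ℂ hf h
  choose c hc using fun t : hecke1 N k => (show ∃ c : ℂ, t.1 f = c • f from hle t.2)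
  refine ⟨{ toFun := c, map_one' := ?_, map_mul' := ?_, map_zero' := ?_, map_add' := ?_ },
    hc, ?_, ?_⟩
  · apply huniq
    rw [← hc, one_smul]
    rfl
  · intro s t
    apply huniq
    rw [← hc, mul_comm, ← smul_smul, ← hc s, ← map_smul, ← hc t]
    rfl
  · apply huniq
    rw [← hc, zero_smul]
    rfl
  · intro s t
    apply huniq
    rw [← hc, add_smul, ← hc, ← hc]
    rfl
  · intro p hp hpN
    apply huniq
    show c _ • f = _
    rw [← hc, ← hT p hp hpN]
  · intro d hd
    apply huniq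
    show c _ • f = _
    rw [← hc, ← hdia d hd]

/-- Eigenvalues are algebraic integers. -/
theorem isIntegral_eigenchar {k : ℤ} (hk : 1 ≤ k) (χ : hecke1 N k →+* ℂ) (t : hecke1 N k) :
    IsIntegral ℤ (χ t) := by
  have := moduleFinite_hecke1 (N := N) hk
  have h1 : IsIntegral ℤ t := Algebra.IsIntegral.isIntegral t
  exact h1.map (χ.toIntAlgHom)

/-- Eigenvalues lie in a number field. -/
theorem exists_numberField {k : ℤ} (hk : 1 ≤ k) (χ : hecke1 N k →+* ℂ) :
    ∃ K : IntermediateField ℚ ℂ, FiniteDimensional ℚ K ∧ ∀ t, χ t ∈ K := by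
  have hfin := moduleFinite_hecke1 (N := N) hk
  obtain ⟨s, hs⟩ := hfin.fg_top
  let K : IntermediateField ℚ ℂ := IntermediateField.adjoin ℚ ((fun t => χ t) '' (s : Set (hecke1 N k)))
  refine ⟨K, ?_, fun t => ?_⟩
  · refine IntermediateField.finiteDimensional_adjoin ?_
    rintro _ ⟨t, -, rfl⟩
    exact (isIntegral_eigenchar hk χ t).tower_top
  · have ht : t ∈ Submodule.span ℤ (s : Set (hecke1 N k)) := by rw [hs]; trivial
    refine Submodule.span_induction (p := fun t _ => χ t ∈ K) ?_ ?_ ?_ ?_ ht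
    · exact fun t ht => IntermediateField.subset_adjoin _ _ ⟨t, ht, rfl⟩
    · rw [map_zero]; exact K.zero_mem
    · intro x y _ _ hx hy
      rw [map_add]; exact K.add_mem hx hy
    · intro z x _ hx
      rw [zsmul_eq_mul, map_mul, map_intCast]
      exact K.mul_mem (intCast_mem K z) hx

/-- **(A3)** for the form of S48, assuming the nebentypus property `hε`: the eigenvalues `a_p`
are algebraic integers, all contained in one number field containing the values of `ε`. -/
theorem weightOne_integral (ε : DirichletCharacter ℂ N) (f : CuspForm (Gamma1 N) 1)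
    (hf₁ : qCoeff f 1 = 1)
    (hT : ∀ p : ℕ, p.Prime → ¬ p ∣ N → ∀ n : ℕ,
      qCoeff f (p * n) + ε (p : ZMod N) * (if p ∣ n then qCoeff f (n / p) else 0) =
        qCoeff f p * qCoeff f n)
    (hε : ∀ γ : SL(2, ℤ), γ ∈ Gamma0 N → ⇑f ∣[(1 : ℤ)] γ = ε ((γ 1 1 : ℤ) : ZMod N) • ⇑f) :
    (∀ p : ℕ, p.Prime → ¬ p ∣ N → IsIntegral ℤ (qCoeff f p)) ∧
    ∃ K : IntermediateField ℚ ℂ, FiniteDimensional ℚ K ∧
      (∀ p : ℕ, p.Prime → ¬ p ∣ N → qCoeff f p ∈ K) ∧ ∀ x : ZMod N, ε x ∈ K := by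
  have hf : f ≠ 0 := by
    rintro rfl
    have h0 : qCoeff ((0 : CuspForm (Gamma1 N) 1) : ℍ → ℂ) 1 = 0 :=
      (coeffS (Gamma1 N) 1 one_mem_strictPeriods_Gamma1 1).map_zero
    rw [h0] at hf₁
    exact zero_ne_one hf₁
  have hdia : ∀ d : ℤ, IsCoprime d (N : ℤ) → dia N 1 d f = ε (d : ZMod N) • f := by
    intro d hd
    apply DFunLike.coe_injective
    rw [dia_eq_slashS, coe_slashS]
    have h1 := hε (sig N d) (sig_mem N d)
    rw [sig_11 hd] at h1
    rw [h1]
    simp
  obtain ⟨χ, -, h1, h2⟩ := exists_eigenchar f hf (fun d => ε (d : ZMod N)) (fun p => qCoeff f p)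
    hdia (fun p hp hpN => T1L_eq_of_qCoeff ε f hε hp hpN _ (hT p hp hpN))
  refine ⟨fun p hp hpN => ?_, ?_⟩
  · rw [← h1 p hp hpN]
    exact isIntegral_eigenchar le_rfl χ _
  · obtain ⟨K, hK, hKt⟩ := exists_numberField le_rfl χ
    refine ⟨K, hK, fun p hp hpN => ?_, fun x => ?_⟩
    · rw [← h1 p hp hpN]
      exact hKt _
    · by_cases hx : IsUnit x
      · have h3 : IsCoprime (x.val : ℤ) (N : ℤ) :=
          Nat.isCoprime_iff_coprime.mpr ((ZMod.isUnit_iff_coprime _ _).mp (by
            rwa [ZMod.natCast_zmod_val]))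
        have h4 := h2 _ h3
        have h5 : (((x.val : ℕ) : ℤ) : ZMod N) = x := by
          rw [Int.cast_natCast, ZMod.natCast_zmod_val]
        rw [h5] at h4
        rw [← h4]
        exact hKt _
      · rw [ε.map_nonunit hx]
        exact K.zero_mem

end Eigen

end Fermat.Agent.H50
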