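import Mathlib
import Fermat.Agent.H58Hecke1

/-! Residual Hecke characters of level `Γ₁(M)` from congruences between `q`-expansions. -/

set_option autoImplicit false

noncomputable section

namespace Fermat.Agent.H58

open UpperHalfPlane ModularForm CongruenceSubgroup ModularFormClass

section RedTo

variable {F : Type*} [CommRing F] {S : Type*} [SetLike S ℂ] [SubringClass S ℂ] {R : S}
  (φ : R →+* F)

/-- `z` is an element of the subring `R` (e.g. the ring of algebraic integers) reducing to `c`. -/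
def RedTo (z : ℂ) (c : F) : Prop := ∃ h : z ∈ R, φ ⟨z, h⟩ = c

variable {φ}

theorem RedTo.unique {z : ℂ} {c c' : F} (h : RedTo φ z c) (h' : RedTo φ z c') : c = c' := by
  obtain ⟨_, rfl⟩ := h
  obtain ⟨_, rfl⟩ := h'
  rfl

theorem RedTo.add {z w : ℂ} {a b : F} (h : RedTo φ z a) (h' : RedTo φ w b) :
    RedTo φ (z + w) (a + b) := by
  obtain ⟨h1, rfl⟩ := h
  obtain ⟨h2, rfl⟩ := h'
  refine ⟨add_mem h1 h2, ?_⟩
  rw [← map_add]; rfl

theorem RedTo.mul {z w : ℂ} {a b : F} (h : RedTo φ z a) (h' : RedTo φ w b) :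
    RedTo φ (z * w) (a * b) := by
  obtain ⟨h1, rfl⟩ := h
  obtain ⟨h2, rfl⟩ := h'
  refine ⟨mul_mem h1 h2, ?_⟩
  rw [← map_mul]; rfl

theorem RedTo.neg {z : ℂ} {a : F} (h : RedTo φ z a) : RedTo φ (-z) (-a) := by
  obtain ⟨h1, rfl⟩ := h
  refine ⟨neg_mem h1, ?_⟩
  rw [← map_neg]; rfl

theorem RedTo.sub {z w : ℂ} {a b : F} (h : RedTo φ z a) (h' : RedTo φ w b) :
    RedTo φ (z - w) (a - b) := by
  rw [sub_eq_add_neg, sub_eq_add_neg]
  exact h.add h'.neg

theorem RedTo.zero : RedTo φ 0 0 := ⟨zero_mem _, map_zero φ⟩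

theorem RedTo.one : RedTo φ 1 1 := ⟨one_mem _, map_one φ⟩

theorem RedTo.natCast (n : ℕ) : RedTo φ n n := by
  refine ⟨natCast_mem _ n, ?_⟩
  rw [← map_natCast φ n]; rfl

theorem RedTo.intCast (n : ℤ) : RedTo φ n n := by
  refine ⟨intCast_mem _ n, ?_⟩
  rw [← map_intCast φ n]; rfl

theorem RedTo.pow {z : ℂ} {a : F} (h : RedTo φ z a) (n : ℕ) : RedTo φ (z ^ n) (a ^ n) := by
  obtain ⟨h1, rfl⟩ := h
  refine ⟨pow_mem h1 n, ?_⟩
  rw [← map_pow]; rfl

theorem RedTo.sum {ι : Type*} (s : Finset ι) {z : ι → ℂ} {a : ι → F}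
    (h : ∀ i ∈ s, RedTo φ (z i) (a i)) : RedTo φ (∑ i ∈ s, z i) (∑ i ∈ s, a i) := by
  classical
  induction s using Finset.induction_on with
  | empty => simpa using RedTo.zero
  | insert i s hi ih =>
    rw [Finset.sum_insert hi, Finset.sum_insert hi]
    exact (h i (Finset.mem_insert_self i s)).add
      (ih fun j hj => h j (Finset.mem_insert_of_mem hj))

theorem redTo_self (z : R) : RedTo φ z (φ z) := ⟨z.2, rfl⟩

end RedTo

/-- Generators of the Hecke algebra of level `Γ₁(M)`. -/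
def gens1 (M : ℕ) [NeZero M] (k : ℤ) : Set (Module.End ℂ (CuspForm (Gamma1 M) k)) :=
  {t | ∃ (p : ℕ) (hp : p.Prime) (hpM : ¬ p ∣ M), t = T1L M k p hp hpM} ∪
  {t | ∃ d : ℤ, IsCoprime d (M : ℤ) ∧ t = dia M k d}

/-- The Hecke algebra of level `Γ₁(M)`, generated by `T_p`, `p ∤ M`, and diamond operators. -/
def hecke1 (M : ℕ) [NeZero M] (k : ℤ) : Subalgebra ℤ (Module.End ℂ (CuspForm (Gamma1 M) k)) :=
  Algebra.adjoin ℤ (gens1 M k)

theorem T1L_mem (M : ℕ) [NeZero M] (k : ℤ) (p : ℕ) (hp : p.Prime) (hpM : ¬ p ∣ M) :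
    T1L M k p hp hpM ∈ hecke1 M k :=
  Algebra.subset_adjoin (Or.inl ⟨p, hp, hpM, rfl⟩)

theorem dia_mem (M : ℕ) [NeZero M] (k : ℤ) {d : ℤ} (hd : IsCoprime d (M : ℤ)) :
    dia M k d ∈ hecke1 M k :=
  Algebra.subset_adjoin (Or.inr ⟨d, hd, rfl⟩)

theorem moduleFinite_hecke1 (M : ℕ) [NeZero M] {k : ℤ} (hk : k ≠ 1) :
    Module.Finite ℤ (hecke1 M k) := by
  apply H22.Gen.moduleFinite_adjoin hk
  rintro t (⟨p, hp, hpM, rfl⟩ | ⟨d, _, rfl⟩)
  · exact isMatOp_T1L hp hpM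
  · exact isMatOp_dia d

theorem gens1_comm (M : ℕ) [NeZero M] (k : ℤ) :
    ∀ s ∈ gens1 M k, ∀ t ∈ gens1 M k, Commute s t := by
  rintro s (⟨p, hp, hpM, rfl⟩ | ⟨d, hd, rfl⟩) t (⟨q, hq, hqM, rfl⟩ | ⟨e, he, rfl⟩)
  · exact T1L_T1L_comm hp hpM hq hqM
  · exact T1L_dia_comm hp hpM e
  · exact (T1L_dia_comm hq hqM d).symm
  · exact dia_comm hd he

instance instIsMulCommutativeHecke1 (M : ℕ) [NeZero M] (k : ℤ) : IsMulCommutative (hecke1 M k) :=
  Algebra.isMulCommutative_adjoin ℤ (fun s hs t ht => gens1_comm M k s hs t ht)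

theorem hecke1_mul_comm {M : ℕ} [NeZero M] {k : ℤ} (s t : hecke1 M k) : s * t = t * s :=
  mul_comm' s t

theorem qCoeff_add1 {M : ℕ} {k : ℤ} (f g : CuspForm (Gamma1 M) k) (n : ℕ) :
    qCoeff ⇑(f + g) n = qCoeff ⇑f n + qCoeff ⇑g n := by
  have h := ModularForm.qExpansion_add (f := f) (g := g) one_pos
    (one_mem_strictPeriods_Gamma1 M)
  rw [qCoeff, FunLike.coe_add, h, map_add]
  rfl

theorem qCoeff_smul1 {M : ℕ} {k : ℤ} (c : ℂ) (f : CuspForm (Gamma1 M) k) (n : ℕ) :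
    qCoeff ⇑(c • f) n = c * qCoeff ⇑f n := by
  have h := ModularForm.qExpansion_smul (f := f) one_pos
    (one_mem_strictPeriods_Gamma1 M) c
  rw [qCoeff, FunLike.coe_smul, h]
  rfl

section residual

variable {F : Type*} [CommRing F] {S : Type*} [SetLike S ℂ] [SubringClass S ℂ] {R : S}
  (φ : R →+* F) {M : ℕ} [NeZero M] {k : ℤ}

/-- All `⟨d⟩ h` have integral `q`-expansion, reducing to `χ(d) c ā`. -/
def Good (χ : ℤ → F) (abar : ℕ → F) (h : CuspForm (Gamma1 M) k) (c : F) : Prop :=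
  ∀ d : ℤ, IsCoprime d (M : ℤ) → ∀ n : ℕ, RedTo φ (qCoeff (dia M k d h) n) (χ d * c * abar n)

variable {φ} {χ : ℤ → F} {abar : ℕ → F}

theorem Good.add {h h' : CuspForm (Gamma1 M) k} {c c' : F} (hh : Good φ χ abar h c)
    (hh' : Good φ χ abar h' c') : Good φ χ abar (h + h') (c + c') := by
  intro d hd n
  rw [map_add, qCoeff_add1]
  have := (hh d hd n).add (hh' d hd n)
  convert this using 1
  ring

theorem Good.intSmul {h : CuspForm (Gamma1 M) k} {c : F} (hh : Good φ χ abar h c) (m : ℤ) :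
    Good φ χ abar (m • h) (m * c) := by
  intro d hd n
  rw [map_zsmul, ← Int.cast_smul_eq_zsmul ℂ, qCoeff_smul1]
  have := (RedTo.intCast (φ := φ) m).mul (hh d hd n)
  convert this using 1
  ring

theorem Good.diaOp (hχ : ∀ d e : ℤ, IsCoprime d (M : ℤ) → IsCoprime e (M : ℤ) →
      χ (d * e) = χ d * χ e) {h : CuspForm (Gamma1 M) k} {c : F} (hh : Good φ χ abar h c)
    {e : ℤ} (he : IsCoprime e (M : ℤ)) : Good φ χ abar (dia M k e h) (χ e * c) := by
  intro d hd n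
  have h1 : dia M k d (dia M k e h) = dia M k (d * e) h := by
    rw [dia_mul hd he]; rfl
  rw [h1]
  have := hh (d * e) (hd.mul_left he) n
  rw [hχ d e hd he] at this
  convert this using 1
  ring

theorem Good.heckeOp (hχ : ∀ d e : ℤ, IsCoprime d (M : ℤ) → IsCoprime e (M : ℤ) →
      χ (d * e) = χ d * χ e) (hk : 1 ≤ k) {p : ℕ} (hp : p.Prime) (hpM : ¬ p ∣ M)
    {lam : F}
    (hT : ∀ n, abar (p * n) + (p : F) ^ (k - 1).toNat * χ p * (if p ∣ n then abar (n / p) else 0) =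
      lam * abar n)
    {h : CuspForm (Gamma1 M) k} {c : F} (hh : Good φ χ abar h c) :
    Good φ χ abar (T1L M k p hp hpM h) (lam * c) := by
  intro d hd n
  have hp' : IsCoprime (p : ℤ) (M : ℤ) :=
    Nat.isCoprime_iff_coprime.mpr ((Nat.Prime.coprime_iff_not_dvd hp).mpr hpM)
  have h1 : dia M k d (T1L M k p hp hpM h) = T1L M k p hp hpM (dia M k d h) :=
    (LinearMap.congr_fun (T1L_dia_comm hp hpM (k := k) d) h).symm
  have h2 : dia M k p (dia M k d h) = dia M k (p * d) h := by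
    rw [dia_mul hp' hd]; rfl
  rw [h1, qCoeff_T1L, h2]
  have e1 := hh d hd (p * n)
  have e2 : RedTo φ ((p : ℂ) ^ (k - 1)) ((p : F) ^ (k - 1).toNat) := by
    have h3 : (k - 1) = ((k - 1).toNat : ℤ) := by omega
    rw [h3, zpow_natCast, Int.toNat_natCast]
    exact (RedTo.natCast p).pow _
  have e3 : RedTo φ (if p ∣ n then qCoeff (dia M k (p * d) h) (n / p) else 0)
      (χ p * χ d * c * (if p ∣ n then abar (n / p) else 0)) := by
    split_ifs
    · have := hh (p * d) (hp'.mul_left hd) (n / p)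
      rwa [hχ _ _ hp' hd] at this
    · rw [mul_zero]; exact RedTo.zero
  have := e1.add (e2.mul e3)
  convert this using 1
  linear_combination (-(χ d * c)) * hT n

/-- The action of the Hecke algebra on reductions. -/
theorem exists_eigen (hχ : ∀ d e : ℤ, IsCoprime d (M : ℤ) → IsCoprime e (M : ℤ) →
      χ (d * e) = χ d * χ e) (hk : 1 ≤ k)
    {lam : ℕ → F}
    (hT : ∀ p : ℕ, p.Prime → ¬ p ∣ M → ∀ n, abar (p * n) +
      (p : F) ^ (k - 1).toNat * χ p * (if p ∣ n then abar (n / p) else 0) = lam p * abar n)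
    (t : Module.End ℂ (CuspForm (Gamma1 M) k)) (ht : t ∈ hecke1 M k) :
    ∃ c : F, ∀ (h : CuspForm (Gamma1 M) k) (c' : F), Good φ χ abar h c' →
      Good φ χ abar (t h) (c * c') := by
  induction ht using Algebra.adjoin_induction with
  | mem t ht =>
    rcases ht with ⟨p, hp, hpM, rfl⟩ | ⟨d, hd, rfl⟩
    · exact ⟨lam p, fun h c' hh => hh.heckeOp hχ hk hp hpM (hT p hp hpM)⟩
    · exact ⟨χ d, fun h c' hh => hh.diaOp hχ hd⟩
  | algebraMap r =>
    refine ⟨r, fun h c' hh => ?_⟩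
    have := hh.intSmul r
    have e : (algebraMap ℤ (Module.End ℂ (CuspForm (Gamma1 M) k))) r h = r • h := by
      rw [Algebra.algebraMap_eq_smul_one]; rfl
    rw [e]
    exact this
  | add s t _ _ hs ht =>
    obtain ⟨c, hc⟩ := hs
    obtain ⟨d, hd⟩ := ht
    refine ⟨c + d, fun h c' hh => ?_⟩
    rw [add_mul]
    exact (hc h c' hh).add (hd h c' hh)
  | mul s t _ _ hs ht =>
    obtain ⟨c, hc⟩ := hs
    obtain ⟨d, hd⟩ := ht
    refine ⟨c * d, fun h c' hh => ?_⟩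
    rw [mul_assoc]
    exact hc _ _ (hd h c' hh)

theorem Good.unique (hχ1 : χ 1 = 1) {m₀ : ℕ} (ha1 : IsUnit (abar m₀))
    {h : CuspForm (Gamma1 M) k} {c c' : F}
    (h1 : Good φ χ abar h c) (h2 : Good φ χ abar h c') : c = c' := by
  have e1 := h1 1 isCoprime_one_left m₀
  have e2 := h2 1 isCoprime_one_left m₀
  have := e1.unique e2
  rw [hχ1, one_mul, one_mul] at this
  exact ha1.mul_right_cancel this

/-- **Residual Hecke character from a congruence.** -/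
theorem exists_residual_char' (hχ1 : χ 1 = 1) {m₀ : ℕ} (ha1 : IsUnit (abar m₀))
    (hχ : ∀ d e : ℤ, IsCoprime d (M : ℤ) → IsCoprime e (M : ℤ) →
      χ (d * e) = χ d * χ e) (hk : 1 ≤ k) {lam : ℕ → F}
    (hT : ∀ p : ℕ, p.Prime → ¬ p ∣ M → ∀ n, abar (p * n) +
      (p : F) ^ (k - 1).toNat * χ p * (if p ∣ n then abar (n / p) else 0) = lam p * abar n)
    {h₀ : CuspForm (Gamma1 M) k} (h0 : Good φ χ abar h₀ 1) :
    ∃ ψ : hecke1 M k →+* F,
      (∀ (p : ℕ) (hp : p.Prime) (hpM : ¬ p ∣ M), ψ ⟨T1L M k p hp hpM, T1L_mem M k p hp hpM⟩ = lam p)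
      ∧ (∀ (d : ℤ) (hd : IsCoprime d (M : ℤ)), ψ ⟨dia M k d, dia_mem M k hd⟩ = χ d)
      ∧ ∀ t : hecke1 M k, Good φ χ abar (t.1 h₀) (ψ t) := by
  choose c hc using fun t : hecke1 M k => exists_eigen (φ := φ) hχ hk hT t.1 t.2
  have key : ∀ t : hecke1 M k, Good φ χ abar (t.1 h₀) (c t) := fun t => by
    have := hc t h₀ 1 h0
    rwa [mul_one] at this
  have uniq : ∀ (t : hecke1 M k) (x : F), Good φ χ abar (t.1 h₀) x → c t = x :=
    fun t x hx => (key t).unique hχ1 ha1 hx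
  refine ⟨{ toFun := c, map_one' := ?_, map_mul' := ?_, map_zero' := ?_, map_add' := ?_ }, ?_, ?_,
    key⟩
  · exact uniq 1 1 h0
  · intro s t
    apply uniq
    exact hc s _ _ (key t)
  · apply uniq
    have := h0.intSmul 0
    simpa using this
  · intro s t
    apply uniq
    exact (key s).add (key t)
  · intro p hp hpM
    apply uniq
    have := h0.heckeOp hχ hk hp hpM (hT p hp hpM)
    rwa [mul_one] at this
  · intro d hd
    apply uniq
    have := h0.diaOp hχ hd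
    rwa [mul_one] at this

/-- Variant with `a₁ = 1`. -/
theorem exists_residual_char (hχ1 : χ 1 = 1) (ha1 : abar 1 = 1)
    (hχ : ∀ d e : ℤ, IsCoprime d (M : ℤ) → IsCoprime e (M : ℤ) →
      χ (d * e) = χ d * χ e) (hk : 1 ≤ k)
    (hT : ∀ p : ℕ, p.Prime → ¬ p ∣ M → ∀ n, abar (p * n) +
      (p : F) ^ (k - 1).toNat * χ p * (if p ∣ n then abar (n / p) else 0) = abar p * abar n)
    {h₀ : CuspForm (Gamma1 M) k} (h0 : Good φ χ abar h₀ 1) :
    ∃ ψ : hecke1 M k →+* F,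
      (∀ (p : ℕ) (hp : p.Prime) (hpM : ¬ p ∣ M), ψ ⟨T1L M k p hp hpM, T1L_mem M k p hp hpM⟩ = abar p)
      ∧ (∀ (d : ℤ) (hd : IsCoprime d (M : ℤ)), ψ ⟨dia M k d, dia_mem M k hd⟩ = χ d)
      ∧ ∀ t : hecke1 M k, Good φ χ abar (t.1 h₀) (ψ t) :=
  exists_residual_char' hχ1 (m₀ := 1) (by rw [ha1]; exact isUnit_one) hχ hk hT h0

end residual

end Fermat.Agent.H58
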