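import Mathlib
import Fermat.Agent.H58Eis3
import Fermat.Agent.H58Red

/-! Weight one Eisenstein series of level `Γ₁(N)` and, for `N = ℓ` an odd prime, the normalised
form congruent to `1` modulo primes above `ℓ`. -/

set_option autoImplicit false

noncomputable section

namespace Fermat.Agent.H58

open UpperHalfPlane ModularForm CongruenceSubgroup ModularFormClass
open scoped MatrixGroups ModularForm OnePoint Manifold
open Matrix.SpecialLinearGroup (mapGL)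

variable {N : ℕ}

theorem NI_div [NeZero N] {u : ℤ} (hu : ¬ (N : ℤ) ∣ u) : NI 0 ((u : ℝ) / N) := by
  rintro ⟨-, ⟨n, hn⟩⟩
  apply hu
  have hN : (N : ℝ) ≠ 0 := by exact_mod_cast NeZero.ne N
  rw [div_eq_iff hN] at hn
  refine ⟨n, ?_⟩
  have : (u : ℝ) = (((N : ℤ) * n : ℤ) : ℝ) := by push_cast; linarith
  exact_mod_cast this

theorem Ev_congr_mod [NeZero N] {u v : ℤ} (h : (u : ZMod N) = v) :
    Ev 0 ((u : ℝ) / N) = Ev 0 ((v : ℝ) / N) := by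
  ext τ
  rw [← sub_eq_zero, ← Int.cast_sub, ZMod.intCast_zmod_eq_zero_iff_dvd] at h
  obtain ⟨m, hm⟩ := h
  have hN : (N : ℝ) ≠ 0 := by exact_mod_cast NeZero.ne N
  have e : (u : ℝ) / N = (v : ℝ) / N + m := by
    have h1 : (u : ℝ) = v + N * m := by
      have h2 : u = v + N * m := by linarith
      rw [h2]; push_cast; ring
    rw [h1]; field_simp
  rw [e, Ev_add_int_right]

theorem Ev_slash_Gamma0 [NeZero N] {u : ℤ} (hu : ¬ (N : ℤ) ∣ u) {γ : SL(2, ℤ)}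
    (hγ : γ ∈ Gamma0 N) :
    (Ev 0 ((u : ℝ) / N)) ∣[(1 : ℤ)] γ = Ev 0 (((u * γ 1 1 : ℤ) : ℝ) / N) := by
  have hN : (N : ℝ) ≠ 0 := by exact_mod_cast NeZero.ne N
  have h0 := NI_div hu
  rw [Ev_slash γ h0]
  have h1 := h0.mul γ
  obtain ⟨m, hm⟩ := (ZMod.intCast_zmod_eq_zero_iff_dvd _ _).mp (Gamma0_mem.mp hγ)
  have e1 : (0 : ℝ) * γ 0 0 + (u : ℝ) / N * γ 1 0 = 0 + ((u * m : ℤ) : ℝ) := by
    rw [hm]; push_cast; field_simp; ring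
  have e2 : (0 : ℝ) * γ 0 1 + (u : ℝ) / N * γ 1 1 = ((u * γ 1 1 : ℤ) : ℝ) / N := by
    push_cast; ring
  rw [e1, e2] at h1 ⊢
  have h2 : NI 0 (((u * γ 1 1 : ℤ) : ℝ) / N) := by
    have := h1.add_int (-(u * m)) 0
    simpa using this
  ext τ
  rw [Ev_add_int_left h2]

/-- Weight one Eisenstein series on `Γ₁(N)`. -/
def E1 (N : ℕ) [NeZero N] (u : ℤ) (hu : ¬ (N : ℤ) ∣ u) : ModularForm (Gamma1 N) 1 :=
  mkMod (Ev 0 ((u : ℝ) / N))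
    (fun γ hγ => by
      rw [Ev_slash_Gamma0 hu (Gamma1_in_Gamma0 N hγ)]
      apply Ev_congr_mod
      push_cast
      rw [((Gamma1_mem N γ).1 hγ).2.1, mul_one])
    (mdifferentiable_Ev (NI_div hu))
    (fun {c} hc => by
      rw [Subgroup.IsArithmetic.isCusp_iff_isCusp_SL2Z] at hc
      rw [OnePoint.isBoundedAt_iff_forall_SL2Z hc]
      intro γ _
      exact isBoundedAtImInfty_Ev_slash (NI_div hu) γ)

theorem coe_E1 [NeZero N] (u : ℤ) (hu : ¬ (N : ℤ) ∣ u) : ⇑(E1 N u hu) = Ev 0 ((u : ℝ) / N) := rfl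

theorem qCoeff_E1 [NeZero N] (u : ℤ) (hu : ¬ (N : ℤ) ∣ u) (n : ℕ) :
    qCoeff (E1 N u hu) n = cE (nm ((u : ℝ) / N : ℝ)) n := by
  have hΓ := one_mem_strictPeriods_Gamma1 N
  refine (P2MW.S_UpperHalfPlane_qCoeff_heckeT.M4cP1W2.qExpansion_coeff_unique'
    (holo (E1 N u hu)).continuous
    (ModularFormClass.analyticAt_cuspFunction_zero _ one_pos hΓ) (c := cE (nm ((u : ℝ) / N : ℝ)))
    (fun τ => ?_) n).symm
  exact hasSum_Ev ((u : ℝ) / N) τ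

section ell

variable {ℓ : ℕ} [Fact ℓ.Prime] (hℓ : ℓ ≠ 2)

instance : NeZero ℓ := ⟨(Fact.out : ℓ.Prime).ne_zero⟩

omit [Fact ℓ.Prime] in
theorem nm_div_eq (u : ℤ) : nm ((u : ℝ) / ℓ : ℝ) = nm ((1 : ℝ) / ℓ : ℝ) ^ u := by
  rw [nm, nm, ← Complex.exp_int_mul]
  congr 1
  push_cast
  ring

/-- The standard primitive `ℓ`-th root of unity. -/
def zl (ℓ : ℕ) : ℂ := nm ((1 : ℝ) / ℓ : ℝ)

theorem zl_pow : (zl ℓ) ^ ℓ = 1 := by
  rw [zl, nm_nat_mul]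
  have : (ℓ : ℂ) ≠ 0 := by exact_mod_cast (Fact.out : ℓ.Prime).ne_zero
  have e : (ℓ : ℂ) * ((1 / ℓ : ℝ) : ℂ) = 1 := by push_cast; field_simp
  rw [e, nm_one]

omit [Fact ℓ.Prime] in
theorem zl_ne_zero : zl ℓ ≠ 0 := nm_ne_zero _

theorem zl_zpow_eq_one_iff (u : ℤ) : (zl ℓ) ^ u = 1 ↔ (ℓ : ℤ) ∣ u := by
  rw [zl, ← nm_div_eq, nm_eq_one_iff]
  have hℓ0 : (ℓ : ℝ) ≠ 0 := by exact_mod_cast (Fact.out : ℓ.Prime).ne_zero
  constructor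
  · rintro ⟨n, hn⟩
    refine ⟨n, ?_⟩
    have h1 : ((u : ℝ) / ℓ) = n := by exact_mod_cast hn
    rw [div_eq_iff hℓ0] at h1
    have : (u : ℝ) = (((ℓ : ℤ) * n : ℤ) : ℝ) := by push_cast; linarith
    exact_mod_cast this
  · rintro ⟨n, rfl⟩
    refine ⟨n, ?_⟩
    push_cast
    have : (ℓ : ℂ) ≠ 0 := by exact_mod_cast (Fact.out : ℓ.Prime).ne_zero
    field_simp

theorem isIntegral_zl_zpow (u : ℤ) : zl ℓ ^ u ∈ integralClosure ℤ ℂ := by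
  have h1 : zl ℓ ∈ integralClosure ℤ ℂ := by
    have : IsIntegral ℤ ((zl ℓ) ^ ℓ) := by rw [zl_pow]; exact isIntegral_one
    exact this.of_pow (Fact.out : ℓ.Prime).pos
  have h2 : (zl ℓ)⁻¹ ∈ integralClosure ℤ ℂ := by
    have : (zl ℓ)⁻¹ = zl ℓ ^ (ℓ - 1) := by
      refine (eq_inv_of_mul_eq_one_left ?_).symm
      rw [← pow_succ, Nat.sub_add_cancel (Fact.out : ℓ.Prime).one_lt.le, zl_pow]
    rw [this]
    exact pow_mem h1 _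
  rcases u with n | n
  · simpa using pow_mem h1 n
  · rw [zpow_negSucc, ← inv_pow]
    exact pow_mem h2 _

variable {F : Type*} [Field F] [CharP F ℓ] {S : Type*} [SetLike S ℂ] [SubringClass S ℂ] {R : S}
  (hR : ∀ z : ℂ, IsIntegral ℤ z → z ∈ R) (φ : R →+* F)
include hR

theorem redTo_zl_zpow (u : ℤ) : RedTo φ (zl ℓ ^ u) 1 := by
  refine ⟨hR _ (isIntegral_zl_zpow u), ?_⟩
  set x := φ ⟨zl ℓ ^ u, hR _ (isIntegral_zl_zpow u)⟩ with hx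
  have h1 : x ^ ℓ = 1 := by
    rw [hx, ← map_pow]
    have : (⟨zl ℓ ^ u, hR _ (isIntegral_zl_zpow u)⟩ : R) ^ ℓ = 1 := by
      apply Subtype.ext
      show (zl ℓ ^ u) ^ ℓ = 1
      rw [← zpow_natCast, ← zpow_mul, mul_comm, zpow_mul, zpow_natCast, zl_pow, one_zpow]
    rw [this, map_one]
  have h2 : (x - 1) ^ ℓ = 0 := by
    rw [sub_pow_char, h1, one_pow, sub_self]
  exact sub_eq_zero.1 (pow_eq_zero_iff (Fact.out : ℓ.Prime).ne_zero |>.1 h2)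

omit [Field F] [CharP F ℓ] [SetLike S ℂ] [SubringClass S ℂ] hR in
theorem zl_zpow_sub_one_ne_zero {u : ℤ} (hu : ¬ (ℓ : ℤ) ∣ u) : zl ℓ ^ u - 1 ≠ 0 := by
  rw [sub_ne_zero, Ne, zl_zpow_eq_one_iff]; exact hu

theorem redTo_ratio {a b : ℤ} (hb : ¬ (ℓ : ℤ) ∣ b) :
    RedTo φ ((zl ℓ ^ a - 1) / (zl ℓ ^ b - 1)) ((a : F) / b) := by
  have hb' : (b : ZMod ℓ) ≠ 0 := by
    rw [Ne, ZMod.intCast_zmod_eq_zero_iff_dvd]; exact hb
  set e : ℕ := ((a : ZMod ℓ) / b).val with he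
  have he' : ((b * e : ℤ) : ZMod ℓ) = a := by
    push_cast
    rw [he, ZMod.natCast_zmod_val, mul_div_cancel₀ _ hb']
  have hbF : (b : F) ≠ 0 := by
    intro h
    exact hb ((CharP.intCast_eq_zero_iff F ℓ b).1 h)
  have heF : (e : F) = (a : F) / b := by
    rw [eq_div_iff hbF, mul_comm]
    rw [← sub_eq_zero, ← Int.cast_sub, ZMod.intCast_zmod_eq_zero_iff_dvd] at he'
    have := (CharP.intCast_eq_zero_iff F ℓ (b * e - a)).2 he'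
    push_cast at this
    exact sub_eq_zero.1 this
  have hz : zl ℓ ^ a = (zl ℓ ^ b) ^ e := by
    rw [← sub_eq_zero, ← Int.cast_sub, ZMod.intCast_zmod_eq_zero_iff_dvd] at he'
    have h1 := (zl_zpow_eq_one_iff (ℓ := ℓ) (b * e - a)).2 he'
    rw [zpow_sub₀ zl_ne_zero, div_eq_one_iff_eq (zpow_ne_zero _ zl_ne_zero)] at h1
    rw [← h1, zpow_mul, zpow_natCast]
  have h1 : (zl ℓ ^ a - 1) / (zl ℓ ^ b - 1) = ∑ i ∈ Finset.range e, (zl ℓ ^ b) ^ i := by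
    rw [hz, geom_sum_eq]
    exact sub_ne_zero.1 (zl_zpow_sub_one_ne_zero hb)
  rw [h1, ← heF]
  have h2 := RedTo.sum (φ := φ) (Finset.range e) (z := fun i => (zl ℓ ^ b) ^ i)
    (a := fun _ => (1 : F)) (fun i _ => by
      have := (redTo_zl_zpow (ℓ := ℓ) hR φ b).pow i
      rwa [one_pow] at this)
  simpa using h2

/-- Normalising constant. -/
def kap (ℓ : ℕ) (u : ℤ) : ℂ := Real.pi * Complex.I * ((zl ℓ ^ u + 1) / (zl ℓ ^ u - 1))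

omit [Field F] [CharP F ℓ] [SetLike S ℂ] [SubringClass S ℂ] hR in
theorem not_dvd_two_mul {u : ℤ} (hℓ : ℓ ≠ 2) (hu : ¬ (ℓ : ℤ) ∣ u) : ¬ (ℓ : ℤ) ∣ 2 * u := by
  intro h
  rcases (Nat.prime_iff_prime_int.1 (Fact.out : ℓ.Prime)).dvd_or_dvd h with h | h
  · have h1 : ℓ ∣ 2 := by exact_mod_cast h
    exact hℓ ((Nat.prime_dvd_prime_iff_eq Fact.out Nat.prime_two).1 h1)
  · exact hu h

omit [Field F] [CharP F ℓ] [SetLike S ℂ] [SubringClass S ℂ] hR in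
theorem zl_add_one {u : ℤ} (hu : ¬ (ℓ : ℤ) ∣ u) :
    zl ℓ ^ u + 1 = (zl ℓ ^ (2 * u) - 1) / (zl ℓ ^ u - 1) := by
  rw [eq_div_iff (zl_zpow_sub_one_ne_zero hu), mul_comm 2 u, zpow_mul]
  rw [show ((zl ℓ ^ u) ^ (2 : ℤ)) = (zl ℓ ^ u) ^ 2 from zpow_ofNat _ 2]
  ring

omit [Field F] [CharP F ℓ] [SetLike S ℂ] [SubringClass S ℂ] hR in
theorem kap_eq {u : ℤ} (hu : ¬ (ℓ : ℤ) ∣ u) :
    kap ℓ u = Real.pi * Complex.I * ((zl ℓ ^ (2 * u) - 1) / (zl ℓ ^ u - 1) ^ 2) := by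
  rw [kap, zl_add_one hu, div_div, sq]

omit [Field F] [CharP F ℓ] [SetLike S ℂ] [SubringClass S ℂ] hR in
theorem kap_ne_zero (hℓ : ℓ ≠ 2) {u : ℤ} (hu : ¬ (ℓ : ℤ) ∣ u) : kap ℓ u ≠ 0 := by
  rw [kap_eq hu]
  have h1 := zl_zpow_sub_one_ne_zero hu
  have h2 := zl_zpow_sub_one_ne_zero (not_dvd_two_mul hℓ hu)
  have h3 : (Real.pi * Complex.I : ℂ) ≠ 0 := by simp [Real.pi_ne_zero]
  exact mul_ne_zero h3 (div_ne_zero h2 (pow_ne_zero 2 h1))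

theorem redTo_kap_ratio (hℓ : ℓ ≠ 2) {u d : ℤ} (hu : ¬ (ℓ : ℤ) ∣ u) (hd : ¬ (ℓ : ℤ) ∣ d) :
    RedTo φ (kap ℓ (u * d) / kap ℓ u) ((d : F)⁻¹) := by
  have hud : ¬ (ℓ : ℤ) ∣ u * d := by
    intro h
    rcases (Nat.prime_iff_prime_int.1 (Fact.out : ℓ.Prime)).dvd_or_dvd h with h | h
    · exact hu h
    · exact hd h
  have h1 := zl_zpow_sub_one_ne_zero hu
  have h2 := zl_zpow_sub_one_ne_zero (not_dvd_two_mul hℓ hu)
  have h3 : (Real.pi * Complex.I : ℂ) ≠ 0 := by simp [Real.pi_ne_zero]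
  have h4 := zl_zpow_sub_one_ne_zero hud
  have e : kap ℓ (u * d) / kap ℓ u = ((zl ℓ ^ (2 * (u * d)) - 1) / (zl ℓ ^ (2 * u) - 1)) *
      ((zl ℓ ^ u - 1) / (zl ℓ ^ (u * d) - 1)) ^ 2 := by
    rw [kap_eq hu, kap_eq hud]
    field_simp
  rw [e]
  have r1 := redTo_ratio (ℓ := ℓ) hR φ (a := 2 * (u * d)) (not_dvd_two_mul hℓ hu)
  have r2 := (redTo_ratio (ℓ := ℓ) hR φ (a := u) hud).pow 2
  have r3 := r1.mul r2
  convert r3 using 1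
  have hF : ∀ x : ℤ, ¬ (ℓ : ℤ) ∣ x → (x : F) ≠ 0 := fun x hx h =>
    hx ((CharP.intCast_eq_zero_iff F ℓ x).1 h)
  have f1 := hF _ hu
  have f2 := hF _ hd
  have f3 : (2 : F) ≠ 0 := by
    have := hF 2 (by
      intro h
      have h1 : ℓ ∣ 2 := by exact_mod_cast h
      exact hℓ ((Nat.prime_dvd_prime_iff_eq Fact.out Nat.prime_two).1 h1))
    simpa using this
  push_cast
  field_simp

/-- The normalised Eisenstein series, congruent to `1`. -/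
def Et (ℓ : ℕ) [Fact ℓ.Prime] (u : ℤ) (hu : ¬ (ℓ : ℤ) ∣ u) : ModularForm (Gamma1 ℓ) 1 :=
  (kap ℓ u)⁻¹ • E1 ℓ u hu

omit [Field F] [CharP F ℓ] [SetLike S ℂ] [SubringClass S ℂ] hR in
theorem Et_slash (hℓ : ℓ ≠ 2) {u d : ℤ} (hu : ¬ (ℓ : ℤ) ∣ u) (hud : ¬ (ℓ : ℤ) ∣ u * d)
    {γ : SL(2, ℤ)} (hγ : γ ∈ Gamma0 ℓ) (hd : ((γ 1 1 : ℤ) : ZMod ℓ) = d) :
    (⇑(Et ℓ u hu)) ∣[(1 : ℤ)] γ = (kap ℓ (u * d) / kap ℓ u) • ⇑(Et ℓ (u * d) hud) := by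
  rw [Et, Et, FunLike.coe_smul, FunLike.coe_smul, ModularForm.SL_smul_slash, coe_E1, coe_E1,
    Ev_slash_Gamma0 hu hγ, smul_smul]
  have e : (kap ℓ (u * d) / kap ℓ u) * (kap ℓ (u * d))⁻¹ = (kap ℓ u)⁻¹ := by
    rw [div_mul_eq_mul_div, mul_inv_cancel₀ (kap_ne_zero hℓ hud), one_div]
  rw [e]
  congr 1
  apply Ev_congr_mod
  push_cast
  rw [hd]

omit [Fact ℓ.Prime] [Field F] [CharP F ℓ] [SetLike S ℂ] [SubringClass S ℂ] hR in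
theorem qCoeff_smulM {M : ℕ} {k : ℤ} (c : ℂ) (f : ModularForm (Gamma1 M) k) (n : ℕ) :
    qCoeff ⇑(c • f) n = c * qCoeff ⇑f n := by
  have h := ModularForm.qExpansion_smul (f := f) one_pos
    (one_mem_strictPeriods_Gamma1 M) c
  rw [qCoeff, FunLike.coe_smul, h]
  rfl

theorem redTo_dsum (u : ℤ) (n : ℕ) : RedTo φ (dsum (zl ℓ ^ u) n) 0 := by
  have h := RedTo.sum (φ := φ) n.divisors (z := fun d => ((zl ℓ ^ u)⁻¹ ^ d - (zl ℓ ^ u) ^ d))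
    (a := fun _ => (0 : F)) (fun d _ => by
      have h1 := (redTo_zl_zpow (ℓ := ℓ) hR φ u).pow d
      have h2 := (redTo_zl_zpow (ℓ := ℓ) hR φ (-u)).pow d
      have h3 := h2.sub h1
      rw [one_pow, sub_self, zpow_neg] at h3
      exact h3)
  rw [Finset.sum_const_zero] at h
  exact h

theorem redTo_Et (hℓ : ℓ ≠ 2) {u : ℤ} (hu : ¬ (ℓ : ℤ) ∣ u) (n : ℕ) :
    RedTo φ (qCoeff (Et ℓ u hu) n) (if n = 0 then 1 else 0) := by
  have hk := kap_ne_zero hℓ hu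
  have hz : nm ((u : ℝ) / ℓ : ℝ) = zl ℓ ^ u := nm_div_eq u
  rw [Et, qCoeff_smulM, qCoeff_E1, hz, cE]
  split_ifs with hn
  · have : (kap ℓ u)⁻¹ * (Real.pi * Complex.I * ((zl ℓ ^ u + 1) / (zl ℓ ^ u - 1))) = 1 :=
      inv_mul_cancel₀ hk
    rw [this]
    exact RedTo.one (φ := φ)
  · have h1 := zl_zpow_sub_one_ne_zero hu
    have h2 := zl_zpow_sub_one_ne_zero (not_dvd_two_mul hℓ hu)
    have h3 : (Real.pi * Complex.I : ℂ) ≠ 0 := by simp [Real.pi_ne_zero]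
    have e : (kap ℓ u)⁻¹ * (2 * Real.pi * Complex.I * dsum (zl ℓ ^ u) n) =
        2 * (zl ℓ ^ u - 1) * ((zl ℓ ^ u - 1) / (zl ℓ ^ (2 * u) - 1)) * dsum (zl ℓ ^ u) n := by
      rw [kap_eq hu]
      field_simp
    rw [e]
    have r1 := redTo_ratio (ℓ := ℓ) hR φ (a := u) (not_dvd_two_mul hℓ hu)
    have r2 := (RedTo.natCast (φ := φ) 2).mul ((redTo_zl_zpow (ℓ := ℓ) hR φ u).sub (RedTo.one (φ := φ)))
    have r3 := (r2.mul r1).mul (redTo_dsum hR φ u n)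
    simpa using r3

end ell

end Fermat.Agent.H58
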