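import Mathlib
import Fermat.Agent.H58E1

/-! Weight one forms on `Γ₁(N)` give residual characters of the weight two Hecke algebra of level
`Γ₁(M)`, `N ∣ M`, `ℓ ∣ M`. -/

set_option autoImplicit false

noncomputable section

namespace Fermat.Agent.H58

open UpperHalfPlane ModularForm CongruenceSubgroup ModularFormClass
open scoped MatrixGroups ModularForm OnePoint Manifold
open Matrix.SpecialLinearGroup (mapGL)

theorem Gamma1_le_of_dvd {M N : ℕ} (h : N ∣ M) : Gamma1 M ≤ Gamma1 N := by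
  intro γ hγ
  rw [Gamma1_mem] at hγ ⊢
  have key : ∀ a b : ℤ, (a : ZMod M) = b → (a : ZMod N) = b := by
    intro a b hab
    rw [← sub_eq_zero, ← Int.cast_sub, ZMod.intCast_zmod_eq_zero_iff_dvd] at hab ⊢
    exact (Int.natCast_dvd_natCast.mpr h).trans hab
  refine ⟨?_, ?_, ?_⟩
  · simpa using key _ 1 (by simpa using hγ.1)
  · simpa using key _ 1 (by simpa using hγ.2.1)
  · simpa using key _ 0 (by simpa using hγ.2.2)

theorem Gamma0_le_of_dvd1 {M N : ℕ} (h : N ∣ M) : Gamma0 M ≤ Gamma0 N := by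
  intro γ hγ
  rw [Gamma0_mem, ZMod.intCast_zmod_eq_zero_iff_dvd] at hγ ⊢
  exact (Int.natCast_dvd_natCast.mpr h).trans hγ

/-- Level inclusion for cusp forms on `Γ₁`. -/
def levelC1 {M N : ℕ} [NeZero M] [NeZero N] (k : ℤ) (h : N ∣ M) (f : CuspForm (Gamma1 N) k) :
    CuspForm (Gamma1 M) k :=
  mkCusp ⇑f (fun γ hγ => inv1_of_class f γ (Gamma1_le_of_dvd h hγ)) (CuspFormClass.holo f)
    (fun {c} hc => by
      apply CuspFormClass.zero_at_cusps f
      rw [Subgroup.IsArithmetic.isCusp_iff_isCusp_SL2Z] at hc ⊢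
      exact hc)

/-- Level inclusion for modular forms on `Γ₁`. -/
def levelM1 {M N : ℕ} [NeZero M] [NeZero N] (k : ℤ) (h : N ∣ M) (f : ModularForm (Gamma1 N) k) :
    ModularForm (Gamma1 M) k :=
  mkMod ⇑f (fun γ hγ => inv1_of_class f γ (Gamma1_le_of_dvd h hγ)) (ModularFormClass.holo f)
    (fun {c} hc => by
      apply ModularFormClass.bdd_at_cusps f
      rw [Subgroup.IsArithmetic.isCusp_iff_isCusp_SL2Z] at hc ⊢
      exact hc)

@[simp] theorem coe_levelC1 {M N : ℕ} [NeZero M] [NeZero N] (k : ℤ) (h : N ∣ M)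
    (f : CuspForm (Gamma1 N) k) : ⇑(levelC1 k h f) = ⇑f := rfl

@[simp] theorem coe_levelM1 {M N : ℕ} [NeZero M] [NeZero N] (k : ℤ) (h : N ∣ M)
    (f : ModularForm (Gamma1 N) k) : ⇑(levelM1 k h f) = ⇑f := rfl

/-- Product of a cusp form and a modular form of weight one. -/
def prod2 {M : ℕ} (f : CuspForm (Gamma1 M) 1) (g : ModularForm (Gamma1 M) 1) :
    CuspForm (Gamma1 M) 2 := CuspForm.mulModularForm f g

theorem coe_prod2 {M : ℕ} (f : CuspForm (Gamma1 M) 1) (g : ModularForm (Gamma1 M) 1) :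
    ⇑(prod2 f g) = ⇑f * ⇑g := rfl

theorem qCoeff_prod2 {M : ℕ} (f : CuspForm (Gamma1 M) 1) (g : ModularForm (Gamma1 M) 1) (n : ℕ) :
    qCoeff (prod2 f g) n = ∑ x ∈ Finset.HasAntidiagonal.antidiagonal n, qCoeff f x.1 * qCoeff g x.2 := by
  have h := ModularForm.qExpansion_mul_coe (f := f) (g := g) one_pos
    (one_mem_strictPeriods_Gamma1 M)
  rw [qCoeff, coe_prod2, h, PowerSeries.coeff_mul]
  rfl

section main

variable {N : ℕ} [NeZero N] {ℓ : ℕ} [Fact ℓ.Prime] {M : ℕ} [NeZero M]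

/-- `f · E` where `E ≡ 1` is the weight one Eisenstein series of level `ℓ`. -/
def fE (hNM : N ∣ M) (hℓM : ℓ ∣ M) (f : CuspForm (Gamma1 N) 1) (u : ℤ) (hu : ¬ (ℓ : ℤ) ∣ u) :
    CuspForm (Gamma1 M) 2 := prod2 (levelC1 1 hNM f) (levelM1 1 hℓM (Et ℓ u hu))

section general

variable {F : Type*} [Field F] [CharP F ℓ] {S : Type*} [SetLike S ℂ] [SubringClass S ℂ] {R : S}
  (hR : ∀ z : ℂ, IsIntegral ℤ z → z ∈ R) (φ : R →+* F)

include hR in
theorem redTo_fE (hℓ : ℓ ≠ 2) (hNM : N ∣ M) (hℓM : ℓ ∣ M) (f : CuspForm (Gamma1 N) 1)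
    {abar : ℕ → F} (hf : ∀ n, RedTo φ (qCoeff f n) (abar n)) (u : ℤ) (hu : ¬ (ℓ : ℤ) ∣ u) (n : ℕ) :
    RedTo φ (qCoeff (fE hNM hℓM f u hu) n) (abar n) := by
  rw [fE, qCoeff_prod2]
  have h := RedTo.sum (φ := φ) (Finset.HasAntidiagonal.antidiagonal n)
    (z := fun x => qCoeff (levelC1 (M := M) 1 hNM f) x.1 * qCoeff (levelM1 (M := M) 1 hℓM (Et ℓ u hu)) x.2)
    (a := fun x => abar x.1 * (if x.2 = 0 then 1 else 0))
    (fun x _ => (hf x.1).mul (redTo_Et hR φ hℓ hu x.2))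
  convert h using 1
  rw [Finset.sum_eq_single (n, 0)]
  · simp
  · rintro ⟨a, b⟩ hab hne
    rw [Finset.HasAntidiagonal.mem_antidiagonal] at hab
    have : b ≠ 0 := by
      rintro rfl
      apply hne
      simp only [add_zero] at hab
      rw [hab]
    simp [this]
  · intro h
    exact absurd (Finset.HasAntidiagonal.mem_antidiagonal.2 (by simp)) h

omit [NeZero M] in
theorem not_dvd_of_isCoprime {d : ℤ} (hd : IsCoprime d (M : ℤ)) (hℓM : ℓ ∣ M) :
    ¬ (ℓ : ℤ) ∣ d := by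
  intro h
  have h1 : (ℓ : ℤ) ∣ (M : ℤ) := Int.natCast_dvd_natCast.mpr hℓM
  have h2 := hd.isUnit_of_dvd' h h1
  rw [Int.isUnit_iff] at h2
  have := (Fact.out : ℓ.Prime).one_lt
  omega

theorem isIntegral_dirichlet (ε : DirichletCharacter ℂ N) (x : ZMod N) : IsIntegral ℤ (ε x) := by
  by_cases hx : IsUnit x
  · have h1 : (ε x) ^ (Fintype.card (ZMod N)ˣ) = 1 := by
      obtain ⟨u, rfl⟩ := hx
      rw [← map_pow, ← Units.val_pow_eq_pow_val, pow_card_eq_one, Units.val_one, map_one]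
    have h2 : IsIntegral ℤ ((ε x) ^ (Fintype.card (ZMod N)ˣ)) := by rw [h1]; exact isIntegral_one
    exact h2.of_pow Fintype.card_pos
  · rw [MulChar.map_nonunit ε hx]; exact isIntegral_zero

include hR in
/-- The residual character attached to a weight one eigenform: general version. `R` is any subring
of `ℂ` containing the algebraic integers, `g` is any form with coefficients in `R`, one of them
nonzero under `φ`, which is an eigenvector of the `T_p`, `p ∤ M`. -/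
theorem weightOne_residual' (hℓ : ℓ ≠ 2) (hNM : N ∣ M) (hℓM : ℓ ∣ M)
    (ε : DirichletCharacter ℂ N) (g : CuspForm (Gamma1 N) 1)
    (hint : ∀ n, qCoeff g n ∈ R) {m₀ : ℕ} (hm₀ : φ ⟨qCoeff g m₀, hint m₀⟩ ≠ 0)
    (hε : ∀ γ : SL(2, ℤ), γ ∈ Gamma0 N → ⇑g ∣[(1 : ℤ)] γ = ε ((γ 1 1 : ℤ) : ZMod N) • ⇑g)
    (a : ℕ → ℂ) (ha : ∀ p : ℕ, p.Prime → ¬ p ∣ M → a p ∈ R)
    (hT : ∀ p : ℕ, p.Prime → ¬ p ∣ M → ∀ n : ℕ,
        qCoeff g (p * n) + ε (p : ZMod N) * (if p ∣ n then qCoeff g (n / p) else 0) =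
          a p * qCoeff g n) :
    ∃ ψ : hecke1 M 2 →+* F,
      (∀ (p : ℕ) (hp : p.Prime) (hpM : ¬ p ∣ M),
        RedTo φ (a p) (ψ ⟨T1L M 2 p hp hpM, T1L_mem M 2 p hp hpM⟩)) ∧
      (∀ (d : ℤ) (hd : IsCoprime d (M : ℤ)),
        RedTo φ (ε (d : ZMod N)) ((d : F) * ψ ⟨dia M 2 d, dia_mem M 2 hd⟩)) := by
  classical
  have hεint : ∀ x : ZMod N, ε x ∈ R := fun x => hR _ (isIntegral_dirichlet ε x)
  set abar : ℕ → F := fun n => φ ⟨qCoeff g n, hint n⟩ with habar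
  have hf : ∀ n, RedTo φ (qCoeff g n) (abar n) := fun n => ⟨hint n, rfl⟩
  set lam : ℕ → F := fun p => if h : p.Prime ∧ ¬ p ∣ M then φ ⟨a p, ha p h.1 h.2⟩ else 0 with hlam
  have hl : ∀ p : ℕ, p.Prime → ¬ p ∣ M → RedTo φ (a p) (lam p) := fun p h1 h2 => by
    refine ⟨ha p h1 h2, ?_⟩
    rw [hlam]
    simp only
    rw [dif_pos ⟨h1, h2⟩]
  set ebar : ℤ → F := fun d => φ ⟨ε (d : ZMod N), hεint _⟩ with hebar
  have he : ∀ d : ℤ, RedTo φ (ε (d : ZMod N)) (ebar d) := fun d => ⟨hεint _, rfl⟩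
  set χ : ℤ → F := fun d => ebar d * (d : F)⁻¹ with hχdef
  have hemul : ∀ d e : ℤ, ebar (d * e) = ebar d * ebar e := by
    intro d e
    refine (he (d * e)).unique ?_
    have := (he d).mul (he e)
    rwa [← map_mul, ← Int.cast_mul] at this
  have hχ : ∀ d e : ℤ, IsCoprime d (M : ℤ) → IsCoprime e (M : ℤ) → χ (d * e) = χ d * χ e := by
    intro d e _ _
    simp only [hχdef, hemul]
    push_cast
    rw [mul_inv]; ring
  have hχ1 : χ 1 = 1 := by
    have h1 : ebar 1 = 1 := (he 1).unique (by simpa using RedTo.one (φ := φ))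
    simp [hχdef, h1]
  have hu1 : ¬ (ℓ : ℤ) ∣ 1 := by
    intro h
    have := Int.eq_one_of_dvd_one (by positivity) h
    have h2 := (Fact.out : ℓ.Prime).one_lt
    omega
  have hT' : ∀ p : ℕ, p.Prime → ¬ p ∣ M → ∀ n, abar (p * n) +
      (p : F) ^ ((2 : ℤ) - 1).toNat * χ p * (if p ∣ n then abar (n / p) else 0) =
        lam p * abar n := by
    intro p hp hpM n
    have hp' : IsCoprime (p : ℤ) (M : ℤ) :=
      Nat.isCoprime_iff_coprime.mpr ((Nat.Prime.coprime_iff_not_dvd hp).mpr hpM)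
    have hpF : (p : F) ≠ 0 := by
      intro h
      have h1 := (CharP.cast_eq_zero_iff F ℓ p).1 h
      exact not_dvd_of_isCoprime hp' hℓM (Int.natCast_dvd_natCast.mpr h1)
    have e1 : (p : F) ^ ((2 : ℤ) - 1).toNat * χ p = ebar p := by
      have : ((2 : ℤ) - 1).toNat = 1 := rfl
      rw [this, pow_one, hχdef]
      simp only [Int.cast_natCast]
      field_simp
    rw [e1]
    have h1 : RedTo φ (qCoeff g (p * n) + ε (p : ZMod N) *
        (if p ∣ n then qCoeff g (n / p) else 0)) (abar (p * n) +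
          ebar p * (if p ∣ n then abar (n / p) else 0)) := by
      refine (hf _).add (RedTo.mul ?_ ?_)
      · simpa using he p
      · split_ifs
        · exact hf _
        · exact RedTo.zero
    rw [hT p hp hpM n] at h1
    exact h1.unique ((hl p hp hpM).mul (hf n))
  have hgood : Good φ χ abar (fE hNM hℓM g 1 hu1) 1 := by
    intro d hd n
    have hdℓ : ¬ (ℓ : ℤ) ∣ d := not_dvd_of_isCoprime hd hℓM
    have hd1 : ¬ (ℓ : ℤ) ∣ 1 * d := by rwa [one_mul]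
    have e1 : dia M 2 d (fE hNM hℓM g 1 hu1) =
        (ε (d : ZMod N) * (kap ℓ (1 * d) / kap ℓ 1)) • fE hNM hℓM g (1 * d) hd1 := by
      apply DFunLike.coe_injective
      rw [coe_dia, FunLike.coe_smul, fE, fE, coe_prod2, coe_prod2, coe_levelC1, coe_levelM1,
        coe_levelM1]
      have h2 : ((sig M d 1 1 : ℤ) : ZMod N) = d := by rw [sig_11 hd]
      have h3 : ((sig M d 1 1 : ℤ) : ZMod ℓ) = d := by rw [sig_11 hd]
      have h4 := ModularForm.mul_slash_SL2 1 1 (sig M d) ⇑g ⇑(Et ℓ 1 hu1)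
      rw [show (1 : ℤ) + 1 = 2 from rfl] at h4
      rw [h4, hε _ (Gamma0_le_of_dvd1 hNM (sig_mem M d)), h2,
        Et_slash hℓ hu1 hd1 (Gamma0_le_of_dvd1 hℓM (sig_mem M d)) h3, smul_mul_smul_comm]
    rw [e1, qCoeff_smul1]
    have h1 := ((he d).mul (redTo_kap_ratio hR φ hℓ hu1 hdℓ)).mul
      (redTo_fE hR φ hℓ hNM hℓM g hf (1 * d) hd1 n)
    convert h1 using 1
    simp only [hχdef]
    ring
  obtain ⟨ψ, h1, h2, -⟩ := exists_residual_char' hχ1 (m₀ := m₀) (isUnit_iff_ne_zero.2 hm₀) hχ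
    (by norm_num) hT' hgood
  refine ⟨ψ, fun p hp hpM => ?_, fun d hd => ?_⟩
  · rw [h1]; exact hl p hp hpM
  · rw [h2 d hd]
    have hdF : (d : F) ≠ 0 := by
      intro h
      exact not_dvd_of_isCoprime hd hℓM ((CharP.intCast_eq_zero_iff F ℓ d).1 h)
    have : (d : F) * χ d = ebar d := by
      simp only [hχdef]; field_simp
    rw [this]
    exact he d

end general

/-- The residual character attached to a weight one eigenform with integral coefficients. -/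
theorem weightOne_residual {F : Type*} [Field F] [CharP F ℓ] (φ : integralClosure ℤ ℂ →+* F)
    (hℓ : ℓ ≠ 2) (hNM : N ∣ M) (hℓM : ℓ ∣ M)
    (ε : DirichletCharacter ℂ N) (f : CuspForm (Gamma1 N) 1)
    (hf1 : qCoeff f 1 = 1) (hint : ∀ n, IsIntegral ℤ (qCoeff f n))
    (hε : ∀ γ : SL(2, ℤ), γ ∈ Gamma0 N → ⇑f ∣[(1 : ℤ)] γ = ε ((γ 1 1 : ℤ) : ZMod N) • ⇑f)
    (hT : ∀ p : ℕ, p.Prime → ¬ p ∣ M → ∀ n : ℕ,
        qCoeff f (p * n) + ε (p : ZMod N) * (if p ∣ n then qCoeff f (n / p) else 0) =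
          qCoeff f p * qCoeff f n) :
    ∃ ψ : hecke1 M 2 →+* F,
      (∀ (p : ℕ) (hp : p.Prime) (hpM : ¬ p ∣ M),
        RedTo φ (qCoeff f p) (ψ ⟨T1L M 2 p hp hpM, T1L_mem M 2 p hp hpM⟩)) ∧
      (∀ (d : ℤ) (hd : IsCoprime d (M : ℤ)),
        RedTo φ (ε (d : ZMod N)) ((d : F) * ψ ⟨dia M 2 d, dia_mem M 2 hd⟩)) := by
  refine weightOne_residual' (R := integralClosure ℤ ℂ) (fun z hz => hz) φ hℓ hNM hℓM ε f hint
    (m₀ := 1) ?_ hε (fun n => qCoeff f n) (fun p _ _ => hint p) hT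
  have : (⟨qCoeff f 1, hint 1⟩ : integralClosure ℤ ℂ) = 1 := Subtype.ext hf1
  rw [this, map_one]
  exact one_ne_zero

end main

end Fermat.Agent.H58
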