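import Mathlib
import Fermat.Agent.H58WtOne
import Fermat.Agent.H48Eig1

/-! The residual character of a weight one form on helper48's Hecke algebra `HAlg M`. -/

set_option autoImplicit false

noncomputable section

namespace Fermat.Agent.H58

open UpperHalfPlane ModularForm CongruenceSubgroup ModularFormClass
open scoped MatrixGroups ModularForm OnePoint Manifold

variable {N : ℕ} [NeZero N] {ℓ : ℕ} [Fact ℓ.Prime] {M : ℕ} [NeZero M]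

theorem genSet_eq (M : ℕ) [NeZero M] : H48.genSet M = gens1 M 2 := rfl

theorem HAlg_eq (M : ℕ) [NeZero M] : H48.HAlg M = hecke1 M 2 := rfl

/-- **(c)**, general form. `R` is any subring of `ℂ` containing the algebraic integers, `g` a form
of weight one with coefficients in `R`, one of them nonzero under `φ`. -/
theorem exists_theta {k : Type*} [Field k] [CharP k ℓ] {S : Type*} [SetLike S ℂ]
    [SubringClass S ℂ] {R : S} (hR : ∀ z : ℂ, IsIntegral ℤ z → z ∈ R) (φ : R →+* k)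
    (hℓ : ℓ ≠ 2) (hNM : N ∣ M) (hℓM : ℓ ∣ M)
    (ε : DirichletCharacter ℂ N) (g : CuspForm (Gamma1 N) 1)
    (hint : ∀ n, qCoeff g n ∈ R) {m₀ : ℕ} (hm₀ : φ ⟨qCoeff g m₀, hint m₀⟩ ≠ 0)
    (hε : ∀ γ : SL(2, ℤ), γ ∈ Gamma0 N → ⇑g ∣[(1 : ℤ)] γ = ε ((γ 1 1 : ℤ) : ZMod N) • ⇑g)
    (a : ℕ → ℂ) (ha : ∀ p : ℕ, p.Prime → ¬ p ∣ M → a p ∈ R)
    (hT : ∀ p : ℕ, p.Prime → ¬ p ∣ M → ∀ n : ℕ,
        qCoeff g (p * n) + ε (p : ZMod N) * (if p ∣ n then qCoeff g (n / p) else 0) =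
          a p * qCoeff g n) :
    ∃ θ : H48.HAlg M →+* k,
      (∀ (p : ℕ) (hp : p.Prime) (hpM : ¬ p ∣ M), θ (H48.HAlg.T hp hpM) = φ ⟨a p, ha p hp hpM⟩) ∧
      (∀ (d : ℤ) (hd : IsCoprime d (M : ℤ)), θ (H48.HAlg.dia hd) =
        φ ⟨ε (d : ZMod N), hR _ (isIntegral_dirichlet ε _)⟩ * (d : k)⁻¹) := by
  obtain ⟨ψ, h1, h2⟩ := weightOne_residual' hR φ hℓ hNM hℓM ε g hint hm₀ hε a ha hT
  refine ⟨ψ, fun p hp hpM => ?_, fun d hd => ?_⟩
  · obtain ⟨_, h⟩ := h1 p hp hpM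
    exact h.symm
  · obtain ⟨_, h⟩ := h2 d hd
    have hdF : (d : k) ≠ 0 := by
      intro h
      exact not_dvd_of_isCoprime hd hℓM ((CharP.intCast_eq_zero_iff k ℓ d).1 h)
    rw [h, mul_comm (d : k), mul_assoc, mul_inv_cancel₀ hdF, mul_one]
    rfl

/-- **(c)** for a normalised form with integral coefficients. -/
theorem exists_theta_of_integral {k : Type*} [Field k] [CharP k ℓ]
    (φ : integralClosure ℤ ℂ →+* k)
    (hℓ : ℓ ≠ 2) (hNM : N ∣ M) (hℓM : ℓ ∣ M)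
    (ε : DirichletCharacter ℂ N) (f : CuspForm (Gamma1 N) 1)
    (hf1 : qCoeff f 1 = 1) (hint : ∀ n, IsIntegral ℤ (qCoeff f n))
    (hε : ∀ γ : SL(2, ℤ), γ ∈ Gamma0 N → ⇑f ∣[(1 : ℤ)] γ = ε ((γ 1 1 : ℤ) : ZMod N) • ⇑f)
    (hT : ∀ p : ℕ, p.Prime → ¬ p ∣ M → ∀ n : ℕ,
        qCoeff f (p * n) + ε (p : ZMod N) * (if p ∣ n then qCoeff f (n / p) else 0) =
          qCoeff f p * qCoeff f n) :
    ∃ θ : H48.HAlg M →+* k,
      (∀ (p : ℕ) (hp : p.Prime) (hpM : ¬ p ∣ M), θ (H48.HAlg.T hp hpM) = φ ⟨qCoeff f p, hint p⟩) ∧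
      (∀ (d : ℤ) (hd : IsCoprime d (M : ℤ)), θ (H48.HAlg.dia hd) =
        φ ⟨ε (d : ZMod N), isIntegral_dirichlet ε _⟩ * (d : k)⁻¹) := by
  refine exists_theta (R := integralClosure ℤ ℂ) (fun z hz => hz) φ hℓ hNM hℓM ε f hint
    (m₀ := 1) ?_ hε (fun n => qCoeff f n) (fun p _ _ => hint p) hT
  have : (⟨qCoeff f 1, hint 1⟩ : integralClosure ℤ ℂ) = 1 := Subtype.ext hf1
  rw [this, map_one]
  exact one_ne_zero

end Fermat.Agent.H58
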