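import Mathlib
import Fermat.Agent.H48Glue
import Fermat.Agent.H48Det
import Fermat.Agent.H48Neb
import Fermat.Agent.H50Inputs
import Fermat.Agent.H50ThetaB
import Fermat.Agent.H58WtOneH

/-!
# Interface (C): residual representations attached to a weight one form

`exists_residual_of_weightOne`: for almost all primes `ℓ`, assuming `HasGalAction (N * ℓ) ℓ`, every
ring hom `φ : ℤ̄ → k` to an algebraically closed field of characteristic `ℓ` gives a two-dimensional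
representation over `k` attached to the weight one form `f`.
-/

set_option autoImplicit false

noncomputable section

namespace Fermat.Agent.H48

open UpperHalfPlane ModularForm CongruenceSubgroup ModularFormClass
open scoped MatrixGroups ModularForm
open Fermat.Agent.H58

local notation "Qb" => AlgebraicClosure ℚ
local notation "Gq" => (AlgebraicClosure ℚ ≃ₐ[ℚ] AlgebraicClosure ℚ)
local notation "Zb" => integralClosure ℤ ℂ

variable {N : ℕ} [NeZero N]

/-- The Hecke relations of the statement S48. -/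
def HeckeRel (ε : DirichletCharacter ℂ N) (f : CuspForm (Gamma1 N) 1) : Prop :=
  ∀ p : ℕ, p.Prime → ¬ p ∣ N → ∀ n : ℕ,
    qCoeff f (p * n) + ε (p : ZMod N) * (if p ∣ n then qCoeff f (n / p) else 0) =
      qCoeff f p * qCoeff f n

theorem HeckeRel.nebentypus {ε : DirichletCharacter ℂ N} {f : CuspForm (Gamma1 N) 1}
    (hT : HeckeRel ε f) (γ : SL(2, ℤ)) (hγ : γ ∈ Gamma0 N) :
    ⇑f ∣[(1 : ℤ)] γ = ε ((γ 1 1 : ℤ) : ZMod N) • ⇑f := by
  refine Fermat.Agent.H48.nebentypus ε f (fun p => qCoeff f p) (fun p hp hpN n => ?_) γ hγ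
  have := hT p hp hpN n
  rw [sub_self, zpow_zero, one_mul]
  exact this

theorem HeckeRel.isIntegral {ε : DirichletCharacter ℂ N} {f : CuspForm (Gamma1 N) 1}
    (hT : HeckeRel ε f) (hf1 : qCoeff f 1 = 1) {p : ℕ} (hp : p.Prime) (hpN : ¬ p ∣ N) :
    IsIntegral ℤ (qCoeff f p) :=
  (H50.weightOne_integral ε f hf1 hT hT.nebentypus).1 p hp hpN

section transfer

variable {ℓ : ℕ} [hℓ : Fact ℓ.Prime] {k : Type} [Field k] [CharP k ℓ]

/-- The ring hom `θ` on the Hecke algebra of level `N ℓ` attached to `f` and `φ`. -/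
theorem exists_theta_k {D : ℤ} (hD0 : D ≠ 0)
    (hD : ∀ (g : CuspForm (Gamma1 N) 1) (A : Subring ℂ),
      (∀ n ≤ H50.stB N 1, (qExpansion 1 g).coeff n ∈ A) →
        ∀ n, (D : ℂ) * (qExpansion 1 g).coeff n ∈ A)
    (hℓD : ¬ (ℓ : ℤ) ∣ D) (hℓ2 : ℓ ≠ 2)
    {ε : DirichletCharacter ℂ N} {f : CuspForm (Gamma1 N) 1} (hT : HeckeRel ε f)
    (hf1 : qCoeff f 1 = 1) (φ : Zb →+* k) (M : ℕ) [NeZero M] (hNM : N ∣ M) (hℓM : ℓ ∣ M) :
    ∃ θ : HAlg M →+* k,
      (∀ (p : ℕ) (hp : p.Prime) (hpM : ¬ p ∣ M), θ (HAlg.T hp hpM) =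
        φ ⟨qCoeff f p, hT.isIntegral hf1 hp fun h => hpM (h.trans hNM)⟩) ∧
      (∀ (d : ℤ) (hd : IsCoprime d (M : ℤ)), θ (HAlg.dia hd) =
        φ ⟨ε (d : ZMod N), isIntegral_dirichlet ε _⟩ * (d : k)⁻¹) := by
  have hf0 : f ≠ 0 := by
    rintro rfl
    rw [qCoeff_zero'] at hf1
    exact zero_ne_one hf1
  -- the valuation ring
  have hker : RingHom.ker φ ≠ ⊤ := RingHom.ker_ne_top φ
  obtain ⟨V, hV1, hV2⟩ := Ideal.image_subset_nonunits_valuationSubring
    (A := (Zb).toSubring) (RingHom.ker φ : Ideal (Zb).toSubring) hker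
  have hZV : ∀ z : ℂ, IsIntegral ℤ z → z ∈ V := fun z hz => hV1 hz
  have hℓV : (ℓ : ℂ) ∈ V.nonunits := by
    apply hV2
    refine ⟨((ℓ : Zb) : (Zb).toSubring), ?_, rfl⟩
    show φ (ℓ : Zb) = 0
    rw [map_natCast, CharP.cast_eq_zero]
  let res : V →+* IsLocalRing.ResidueField V := IsLocalRing.residue V
  let j : Zb →+* IsLocalRing.ResidueField V := res.comp
    (Subring.inclusion (S := (Zb).toSubring) (T := V.toSubring) hV1)
  have hj0 : ∀ z : Zb, j z = 0 ↔ (z : ℂ) ∈ V.nonunits := by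
    intro z
    exact H50.residue_eq_zero_iff
  have hj : ∀ z : Zb, φ z = 0 → j z = 0 := fun z hz => (hj0 z).2 (hV2 ⟨z, hz, rfl⟩)
  -- `ker φ` is maximal
  have hmax : (RingHom.ker φ).IsMaximal := by
    haveI : (RingHom.ker φ).IsPrime := RingHom.ker_isPrime φ
    have hc : ((RingHom.ker φ).comap (algebraMap ℤ Zb)).IsMaximal := by
      have h1 : (Ideal.span {(ℓ : ℤ)}).IsMaximal :=
        Int.ideal_span_isMaximal_of_prime ℓ
      have h2 : Ideal.span {(ℓ : ℤ)} ≤ (RingHom.ker φ).comap (algebraMap ℤ Zb) := by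
        rw [Ideal.span_singleton_le_iff_mem, Ideal.mem_comap, RingHom.mem_ker]
        simp
      have h3 : (RingHom.ker φ).comap (algebraMap ℤ Zb) ≠ ⊤ :=
        (Ideal.comap_isPrime (algebraMap ℤ Zb) (RingHom.ker φ)).ne_top
      rw [← h1.eq_of_le h3 h2]
      exact h1
    exact Ideal.isMaximal_of_isIntegral_of_isMaximal_comap _ hc
  have hkerj : ∀ z : Zb, j z = 0 → φ z = 0 := by
    have h1 : RingHom.ker φ ≤ RingHom.ker j := fun z hz => hj z hz
    have h2 := hmax.eq_of_le (RingHom.ker_ne_top j) h1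
    intro z hz
    have : z ∈ RingHom.ker j := hz
    rw [← h2] at this
    exact this
  have hchar : CharP (IsLocalRing.ResidueField V) ℓ := by
    rw [CharP.charP_iff_prime_eq_zero hℓ.out]
    have h1 : j (ℓ : Zb) = 0 := hj _ (by rw [map_natCast, CharP.cast_eq_zero])
    rwa [map_natCast] at h1
  -- the weight one Hecke character over the residue field of `V`
  obtain ⟨c, hc0, hcV, n₀, hn₀⟩ := H50.exists_scale V
    (H50.intCast_inv_mem V hℓ.out hℓV hℓD) hD0 hD hf0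
  have hq : ∀ n, qCoeff ((c • f : CuspForm (Gamma1 N) 1) : ℍ → ℂ) n = c * qCoeff f n :=
    fun n => qCoeff_smul' c f n
  have hint : ∀ n, qCoeff ((c • f : CuspForm (Gamma1 N) 1) : ℍ → ℂ) n ∈ V := hcV
  have ha : ∀ p : ℕ, p.Prime → ¬ p ∣ M → qCoeff f p ∈ V := fun p hp hpM =>
    hZV _ (hT.isIntegral hf1 hp fun h => hpM (h.trans hNM))
  have hε : ∀ γ : SL(2, ℤ), γ ∈ Gamma0 N →
      ((c • f : CuspForm (Gamma1 N) 1) : ℍ → ℂ) ∣[(1 : ℤ)] γ =
        ε ((γ 1 1 : ℤ) : ZMod N) • ((c • f : CuspForm (Gamma1 N) 1) : ℍ → ℂ) := by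
    intro γ hγ
    have h1 := hT.nebentypus γ hγ
    show (c • ⇑f) ∣[(1 : ℤ)] γ = ε ((γ 1 1 : ℤ) : ZMod N) • (c • ⇑f)
    rw [ModularForm.SL_smul_slash, h1, smul_comm]
  have hTc : ∀ p : ℕ, p.Prime → ¬ p ∣ M → ∀ n : ℕ,
      qCoeff ((c • f : CuspForm (Gamma1 N) 1) : ℍ → ℂ) (p * n) + ε (p : ZMod N) *
        (if p ∣ n then qCoeff ((c • f : CuspForm (Gamma1 N) 1) : ℍ → ℂ) (n / p) else 0) =
          qCoeff f p * qCoeff ((c • f : CuspForm (Gamma1 N) 1) : ℍ → ℂ) n := by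
    intro p hp hpM n
    have h1 := hT p hp (fun h => hpM (h.trans hNM)) n
    rw [hq, hq, hq, mul_left_comm, ← h1]
    split_ifs <;> ring
  obtain ⟨θV, hθT, hθd⟩ := H58.exists_theta (R := V) hZV res hℓ2 hNM hℓM ε (c • f) hint
    (m₀ := n₀) (by
      have : (⟨_, hint n₀⟩ : V) = 1 := Subtype.ext hn₀
      rw [this, map_one]
      exact one_ne_zero) hε (fun n => qCoeff f n) ha hTc
  -- the range of `θV` is contained in the range of `j`
  have hjV : ∀ (z : ℂ) (hz : IsIntegral ℤ z) (hz' : z ∈ V), res ⟨z, hz'⟩ = j ⟨z, hz⟩ :=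
    fun z hz hz' => rfl
  have hinv : ∀ (d : ℤ), IsCoprime d (M : ℤ) →
      ∃ e : ℤ, (d : IsLocalRing.ResidueField V)⁻¹ = (e : IsLocalRing.ResidueField V) ∧
        (d : k)⁻¹ = (e : k) := by
    intro d hd
    have hdl : IsCoprime d (ℓ : ℤ) := hd.of_isCoprime_of_dvd_right (Int.natCast_dvd_natCast.2 hℓM)
    obtain ⟨u, v, huv⟩ := hdl
    have aux : ∀ (F : Type) [Field F] [CharP F ℓ], (d : F)⁻¹ = (u : F) := by
      intro F _ _
      have h1 := congrArg (fun z : ℤ => (z : F)) huv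
      simp only [Int.cast_add, Int.cast_mul, Int.cast_natCast, CharP.cast_eq_zero, mul_zero,
        add_zero, Int.cast_one] at h1
      exact (eq_inv_of_mul_eq_one_left h1).symm
    exact ⟨u, aux _, aux _⟩
  have hrange : ∀ t : HAlg M, θV t ∈ j.range := by
    rintro ⟨t, ht⟩
    induction ht using Algebra.adjoin_induction with
    | mem t ht =>
      obtain ⟨p, hp, hpM, rfl⟩ | ⟨d, hd, rfl⟩ := ht
      · exact ⟨⟨qCoeff f p, hT.isIntegral hf1 hp fun h => hpM (h.trans hNM)⟩,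
          (hθT p hp hpM).symm⟩
      · obtain ⟨e, he, -⟩ := hinv d hd
        have h1 := hθd d hd
        rw [he] at h1
        refine ⟨⟨ε (d : ZMod N), isIntegral_dirichlet ε _⟩ * (e : Zb), ?_⟩
        refine (j.map_mul _ _).trans ?_
        rw [map_intCast j e]
        exact h1.symm
    | algebraMap r =>
      refine ⟨algebraMap ℤ Zb r, ?_⟩
      have h1 : θV (algebraMap ℤ (HAlg M) r) = (r : IsLocalRing.ResidueField V) := by simp
      have h2 : j (algebraMap ℤ Zb r) = (r : IsLocalRing.ResidueField V) := by simp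
      rw [h2]
      exact h1.symm
    | add x y hx hy ihx ihy =>
      have h1 : θV ⟨x + y, add_mem hx hy⟩ = θV ⟨x, hx⟩ + θV ⟨y, hy⟩ := by
        rw [← map_add]; rfl
      rw [h1]
      exact add_mem ihx ihy
    | mul x y hx hy ihx ihy =>
      have h1 : θV ⟨x * y, mul_mem hx hy⟩ = θV ⟨x, hx⟩ * θV ⟨y, hy⟩ := by
        rw [← map_mul]; rfl
      rw [h1]
      exact mul_mem ihx ihy
  let lift : j.range →+* k :=
    RingHom.liftOfSurjective j.rangeRestrict j.rangeRestrict_surjective ⟨φ, fun z hz => by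
      rw [RingHom.mem_ker] at hz ⊢
      exact hkerj z (congrArg Subtype.val hz)⟩
  have hlift : ∀ z, lift (j.rangeRestrict z) = φ z := fun z =>
    RingHom.liftOfRightInverse_comp_apply _ _ _ _ _
  refine ⟨lift.comp (θV.codRestrict j.range hrange), fun p hp hpM => ?_, fun d hd => ?_⟩
  · rw [RingHom.comp_apply, ← hlift]
    congr 1
    exact Subtype.ext (hθT p hp hpM)
  · obtain ⟨e, he, he'⟩ := hinv d hd
    rw [RingHom.comp_apply, he', ← map_intCast φ e, ← φ.map_mul, ← hlift]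
    congr 1
    refine Subtype.ext ?_
    have h1 := hθd d hd
    rw [he, ← map_intCast j e] at h1
    refine Eq.trans ?_ (j.map_mul _ _).symm
    exact h1

end transfer

/-- The reduction of the nebentypus character. -/
def redChar {k : Type} [Field k] (φ : Zb →+* k) (ε : DirichletCharacter ℂ N) :
    (ZMod N)ˣ →* k where
  toFun u := φ ⟨ε (u : ZMod N), isIntegral_dirichlet ε _⟩
  map_one' := by
    rw [← φ.map_one]
    congr 1
    exact Subtype.ext (by simp)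
  map_mul' u v := by
    rw [← φ.map_mul]
    congr 1
    exact Subtype.ext (by simp)

open Polynomial in
/-- **Interface (C)**: the mod `ℓ` representations attached to a weight one form. -/
theorem exists_residual_of_weightOne {ε : DirichletCharacter ℂ N} {f : CuspForm (Gamma1 N) 1}
    (hT : HeckeRel ε f) (hf1 : qCoeff f 1 = 1) :
    ∃ ℓ₀ : ℕ, ∀ ℓ : ℕ, ℓ.Prime → ℓ₀ < ℓ → HasGalAction (N * ℓ) ℓ →
      ∀ (k : Type) [Field k] [IsAlgClosed k] [CharP k ℓ] (φ : Zb →+* k),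
        ∃ ρ : ResidualGaloisRep k, ∀ (p : ℕ) (hp : p.Prime) (hpN : ¬ p ∣ N), p ≠ ℓ →
          ρ.IsUnramifiedAt p ∧ ∀ A : ValuationSubring Qb, A.LiesOverPrime p →
            ∀ σ : Gq, A.IsFrobeniusAt σ p →
              (ρ.ρ σ).charpoly = X ^ 2 - C (φ ⟨qCoeff f p, hT.isIntegral hf1 hp hpN⟩) * X +
                C (φ ⟨ε (p : ZMod N), isIntegral_dirichlet ε _⟩) := by
  obtain ⟨D, hD0, hD⟩ := H50.exists_den (N := N) (k := 1)
  refine ⟨max D.natAbs 4, fun ℓ hℓ hlt hG k _ _ _ φ => ?_⟩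
  have hℓD : ¬ (ℓ : ℤ) ∣ D := by
    intro h
    have h1 := Nat.le_of_dvd (Int.natAbs_pos.2 hD0) (by simpa using Int.natAbs_dvd_natAbs.2 h)
    omega
  have hℓ2 : ℓ ≠ 2 := by omega
  haveI : Fact ℓ.Prime := ⟨hℓ⟩
  haveI : NeZero (N * ℓ) := ⟨mul_ne_zero (NeZero.ne N) hℓ.ne_zero⟩
  letI : Algebra (ZMod ℓ) k := ZMod.algebra k ℓ
  obtain ⟨θ, hθT, hθd⟩ := exists_theta_k hD0 hD hℓD hℓ2 hT hf1 φ (N * ℓ) (dvd_mul_right _ _)
    (dvd_mul_left _ _)
  have hM : ∀ {p : ℕ}, p.Prime → ¬ p ∣ N → p ≠ ℓ → ¬ p ∣ N * ℓ := by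
    intro p hp hpN hpℓ h
    rcases (Nat.Prime.dvd_mul hp).1 h with h | h
    · exact hpN h
    · exact hpℓ ((Nat.prime_dvd_prime_iff_eq hp hℓ).1 h)
  have hn : ∀ {p : ℕ}, p.Prime → p ≠ ℓ → ¬ p ∣ ℓ := fun hp hpℓ h =>
    hpℓ ((Nat.prime_dvd_prime_iff_eq hp hℓ).1 h)
  obtain ⟨ρ, hρ⟩ := exists_residual (M := N * ℓ) (n := ℓ) hG θ (detC N (redChar φ ε))
    (detC_finite N _)
    (fun p hp hpM _ A hA σ hσ => detC_inertia _ hp (fun h => hpM (h.mul_right _)) hA hσ)
    (fun p hp hpM _ A hA σ hσ => by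
      have hpN : ¬ p ∣ N := fun h => hpM (h.mul_right _)
      have hpk : (p : k) ≠ 0 := by
        intro h
        rw [CharP.cast_eq_zero_iff k ℓ] at h
        exact hpM (((Nat.prime_dvd_prime_iff_eq hℓ hp).1 h) ▸ dvd_mul_left _ _)
      have h1 := hθd p (isCoprime_of_prime hp hpM)
      have h2 : ((((p : ℕ) : ℤ) : k))⁻¹ = ((p : k))⁻¹ := by rw [Int.cast_natCast]
      rw [h2] at h1
      have h3 : ∀ x : k, x = p * (x * (p : k)⁻¹) := fun x => by
        rw [mul_left_comm, mul_inv_cancel₀ hpk, mul_one]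
      rw [detC_frob _ hp hpN hA hσ, h1]
      refine (h3 _).trans ?_
      have h4 : redChar φ ε (ZMod.unitOfCoprime p
          ((Nat.Prime.coprime_iff_not_dvd hp).mpr hpN)) =
            φ ⟨ε ((p : ℤ) : ZMod N), isIntegral_dirichlet ε _⟩ := by
        show φ _ = φ _
        congr 1
        exact Subtype.ext (by simp [ZMod.coe_unitOfCoprime])
      rw [h4])
  refine ⟨ρ, fun p hp hpN hpℓ => ?_⟩
  obtain ⟨h1, h2⟩ := hρ p hp (hM hp hpN hpℓ) (hn hp hpℓ)
  refine ⟨h1, fun A hA σ hσ => ?_⟩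
  rw [h2 A hA σ hσ, hθT, detC_frob _ hp hpN hA hσ]
  congr 2

end Fermat.Agent.H48
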