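import Mathlib
import Fermat.Agent.H23Descent

/-!
Embeddings of algebraic extensions of `ℚ` in `ℂ` extend to endomorphisms of `ℂ`.
-/

namespace Fermat.Agent.H85

theorem exists_extend_embedding (E : IntermediateField ℚ ℂ) [Algebra.IsAlgebraic ℚ E]
    (τ : E →ₐ[ℚ] ℂ) : ∃ σ : ℂ →+* ℂ, ∀ x : E, σ (x : ℂ) = τ x := by
  let A := algebraicClosure ℚ ℂ
  have hEA : E ≤ A := by
    intro x hx
    rw [mem_algebraicClosure_iff]
    have h1 : IsAlgebraic ℚ (⟨x, hx⟩ : E) := Algebra.IsAlgebraic.isAlgebraic _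
    exact (isAlgebraic_algHom_iff E.val Subtype.val_injective).mpr h1
  -- extend to A
  letI : Algebra E A := (IntermediateField.inclusion hEA).toRingHom.toAlgebra
  letI : Algebra E ℂ := τ.toRingHom.toAlgebra
  have htower : IsScalarTower ℚ E A := IsScalarTower.of_algebraMap_eq fun x => by
    exact ((IntermediateField.inclusion hEA).commutes x).symm
  have hroot : ∀ x : A, ∃ p : Polynomial ℚ, p ≠ 0 ∧
      Polynomial.eval₂ (Rat.castHom A) x p = 0 := by
    intro x
    obtain ⟨p, hp, hpx⟩ := mem_algebraicClosure_iff.mp x.2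
    refine ⟨p, hp, ?_⟩
    apply (algebraMap A ℂ).injective
    rw [map_zero, Polynomial.hom_eval₂, ← hpx, Polynomial.aeval_def]
    congr 1
  have halg : Algebra.IsAlgebraic E A := by
    refine ⟨fun x => ?_⟩
    obtain ⟨p, hp, hpx⟩ := hroot x
    refine ⟨p.map (Rat.castHom E), (Polynomial.map_ne_zero_iff (Rat.castHom E).injective).mpr hp, ?_⟩
    rw [Polynomial.aeval_def, Polynomial.eval₂_map, ← hpx]
    congr 1
  let τ1 : A →ₐ[E] ℂ := IsAlgClosed.lift
  have hτ1 : ∀ x : E, τ1 (IntermediateField.inclusion hEA x) = τ x := fun x => τ1.commutes x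
  let τ2 : A →+* A :=
    { toFun := fun x => ⟨τ1 x, by
        rw [mem_algebraicClosure_iff]
        obtain ⟨p, hp, hpx⟩ := hroot x
        refine ⟨p, hp, ?_⟩
        have h2 := congrArg (τ1 : A →+* ℂ) hpx
        rw [map_zero, Polynomial.hom_eval₂] at h2
        rw [← h2, Polynomial.aeval_def]
        congr 1
        exact Subsingleton.elim _ _⟩
      map_one' := Subtype.ext (map_one τ1)
      map_mul' := fun x y => Subtype.ext (map_mul τ1 x y)
      map_zero' := Subtype.ext (map_zero τ1)
      map_add' := fun x y => Subtype.ext (map_add τ1 x y) }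
  obtain ⟨B, hB⟩ := exists_isTranscendenceBasis A ℂ
  let φ : MvPolynomial B A →+* ℂ :=
    (MvPolynomial.aeval (R := A) ((↑) : B → ℂ)).toRingHom.comp (MvPolynomial.map τ2)
  have hφ : Function.Injective φ := by
    rw [RingHom.coe_comp]
    exact (show Function.Injective (MvPolynomial.aeval (R := A) ((↑) : B → ℂ)) from hB.1).comp
      (MvPolynomial.map_injective _ τ2.injective)
  obtain ⟨σ, hσ⟩ := H23.exists_ringHom_of_basis hB φ hφ
  refine ⟨σ, fun x => ?_⟩
  have h1 := hσ (MvPolynomial.C (IntermediateField.inclusion hEA x))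
  rw [MvPolynomial.aeval_C] at h1
  have h2 : φ (MvPolynomial.C (IntermediateField.inclusion hEA x)) = τ x := by
    show MvPolynomial.aeval (R := A) ((↑) : B → ℂ) (MvPolynomial.map τ2 (MvPolynomial.C _)) = τ x
    rw [MvPolynomial.map_C, MvPolynomial.aeval_C]
    exact hτ1 x
  rw [h2] at h1
  exact h1

end Fermat.Agent.H85
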