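import Mathlib

/-!
# Frobenius density theorem, algebraic half (finite level)

* `Fermat.Agent.H82.exists_smul_eq_of_agree`: two homs `B → Ω` agreeing on `B^G` differ by `G`.
* `Fermat.Agent.H82.exists_extension`: homs to algebraically closed fields extend along integral maps.
* `Fermat.Agent.H82.card_conj_mem_eq`: `#{y | y⁻¹ F y ∈ H} = #H * #{I ⊂ 𝓞 (L^H) : N I = p}`.
* `Fermat.Agent.H82.exists_bad`: trivial inertia for almost all primes.
-/

set_option autoImplicit false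
namespace Fermat.Agent.H82
open Polynomial NumberField

section general

/-- Two ring homomorphisms `B → Ω` into a domain which agree on the invariants `A = B^G` (`G` finite)
differ by an element of `G`. -/
theorem exists_smul_eq_of_agree {A B G Ω : Type*} [CommRing A] [CommRing B] [Algebra A B]
    [Group G] [Finite G] [MulSemiringAction G B] [Algebra.IsInvariant A B G]
    [CommRing Ω] [IsDomain Ω] (ψ ψ' : B →+* Ω)
    (h : ∀ a : A, ψ (algebraMap A B a) = ψ' (algebraMap A B a)) :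
    ∃ g : G, ∀ b, ψ b = ψ' (g • b) := by
  classical
  cases nonempty_fintype G
  by_contra hcon
  push Not at hcon
  choose b hb using hcon
  let e : G ≃ Fin (Fintype.card G) := Fintype.equivFin G
  let β : B[X] := ∑ g : G, C (b g) * X ^ ((e g : Fin _) : ℕ)
  have hcoeff : ∀ g : G, β.coeff (e g) = b g := by
    intro g
    simp only [β, finsetSum_coeff, coeff_C_mul, coeff_X_pow]
    rw [Finset.sum_eq_single g]
    · simp
    · intro g' _ hg'
      have : ((e g : Fin _) : ℕ) ≠ (e g' : Fin _) := by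
        intro h2
        exact hg' (e.injective (Fin.ext h2)).symm
      simp [this]
    · simp
  let P : B[X][X] := MulSemiringAction.charpoly G β
  have hagree : ∀ c : B[X], (∀ g : G, g • c = c) → mapRingHom ψ c = mapRingHom ψ' c := by
    intro c hc
    ext n
    simp only [coe_mapRingHom, coeff_map]
    have h1 : ∀ g : G, g • c.coeff n = c.coeff n := by
      intro g
      rw [← Polynomial.coeff_smul, hc g]
    obtain ⟨a, ha⟩ := Algebra.IsInvariant.isInvariant (A := A) (c.coeff n) h1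
    rw [← ha]
    exact h a
  have hP : P.map (mapRingHom ψ) = P.map (mapRingHom ψ') := by
    ext1 n
    rw [coeff_map, coeff_map]
    exact hagree _ fun g => MulSemiringAction.smul_coeff_charpoly β n g
  have hroot : (P.map (mapRingHom ψ)).eval (mapRingHom ψ β) = 0 := by
    rw [eval_map, eval₂_hom, MulSemiringAction.eval_charpoly, map_zero]
  rw [hP] at hroot
  have hprod : (P.map (mapRingHom ψ')).eval (mapRingHom ψ β) = ∏ g : G, (mapRingHom ψ β - mapRingHom ψ' (g • β)) := by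
    simp only [P, MulSemiringAction.charpoly_eq, Polynomial.map_prod, Polynomial.map_sub, map_X, map_C,
      eval_prod, eval_sub, eval_X, eval_C]
  rw [hprod, Finset.prod_eq_zero_iff] at hroot
  obtain ⟨g, -, hg⟩ := hroot
  rw [sub_eq_zero] at hg
  have h2 := congrArg (fun q => q.coeff (e g)) hg
  simp only [coe_mapRingHom, coeff_map, Polynomial.coeff_smul, hcoeff] at h2
  exact hb g h2


/-- Ring homomorphisms to an algebraically closed field extend along integral injective extensions. -/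
theorem exists_extension {A B Ω : Type*} [CommRing A] [CommRing B] [Algebra A B] [Algebra.IsIntegral A B]
    (hinj : Function.Injective (algebraMap A B)) [Field Ω] [IsAlgClosed Ω] (φ : A →+* Ω) :
    ∃ ψ : B →+* Ω, ∀ a, ψ (algebraMap A B a) = φ a := by
  obtain ⟨p, hp⟩ : ∃ p, p = RingHom.ker φ := ⟨_, rfl⟩
  have hP : p.IsPrime := hp ▸ RingHom.ker_isPrime φ
  obtain ⟨Q, -, hQ, hQP⟩ := Ideal.exists_ideal_over_prime_of_isIntegral (S := B) p ⊥ (by
    rw [← RingHom.ker_eq_comap_bot, (RingHom.injective_iff_ker_eq_bot _).mp hinj]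
    exact bot_le)
  have hover : Q.LiesOver p := ⟨by rw [Ideal.under_def, hQP]⟩
  let φ' : (A ⧸ p) →+* Ω := Ideal.Quotient.lift p φ (fun a ha => by rwa [hp] at ha)
  have hφ' : Function.Injective φ' := by
    rw [RingHom.injective_iff_ker_eq_bot, Ideal.ker_quotient_lift]
    rw [← hp, Ideal.map_quotient_self]
  let _ : Algebra (A ⧸ p) Ω := φ'.toAlgebra
  have i1 : Module.IsTorsionFree (A ⧸ p) Ω := Module.isTorsionFree_iff_algebraMap_injective.mpr hφ'
  have i2 : FaithfulSMul (A ⧸ p) (B ⧸ Q) := Ideal.Quotient.instFaithfulSMul ..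
  have i3 : Module.IsTorsionFree (A ⧸ p) (B ⧸ Q) :=
    Module.isTorsionFree_iff_algebraMap_injective.mpr (FaithfulSMul.algebraMap_injective _ _)
  let θ : (B ⧸ Q) →ₐ[A ⧸ p] Ω := IsAlgClosed.lift
  refine ⟨(θ : (B ⧸ Q) →+* Ω).comp (Ideal.Quotient.mk Q), fun a => ?_⟩
  have h1 : (Ideal.Quotient.mk Q) (algebraMap A B a) = algebraMap (A ⧸ p) (B ⧸ Q) (Ideal.Quotient.mk _ a) := rfl
  simp only [RingHom.comp_apply, h1, RingHom.coe_coe, AlgHom.commutes]
  rfl

end general

section homs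

variable {p : ℕ} [hp : Fact p.Prime]

lemma exists_zmod_of_pow_eq {Ω : Type*} [Field Ω] [CharP Ω p] {x : Ω} (hx : x ^ p = x) :
    ∃ a : ZMod p, ZMod.castHom (dvd_refl p) Ω a = x := by
  have h := (Subfield.mem_bot_iff_pow_eq_self Ω p).mpr hx
  obtain ⟨n, hn⟩ := (_root_.mem_bot_iff_intCast p Ω).mp h
  exact ⟨(n : ZMod p), by rw [map_intCast, hn]⟩

/-- homs to `ZMod p` versus Frobenius-fixed homs to `Ω`. -/
noncomputable def homEquiv (R Ω : Type*) [CommRing R] [Field Ω] [CharP Ω p] :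
    (R →+* ZMod p) ≃ {φ : R →+* Ω // ∀ x, φ x ^ p = φ x} :=
  Equiv.ofBijective (fun φ => ⟨(ZMod.castHom (dvd_refl p) Ω).comp φ, fun x => by
    rw [RingHom.comp_apply, ← map_pow, ZMod.pow_card]⟩) ⟨by
      intro φ φ' h
      ext x
      have h1 := congrArg (fun θ => θ.1 x) h
      simp only [RingHom.comp_apply] at h1
      exact (ZMod.castHom (dvd_refl p) Ω).injective h1, by
      rintro ⟨φ, hφ⟩
      choose f hf using fun x => exists_zmod_of_pow_eq (hφ x)
      have hinj := (ZMod.castHom (dvd_refl p) Ω).injective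
      refine ⟨{ toFun := f, map_one' := ?_, map_mul' := ?_, map_zero' := ?_, map_add' := ?_ }, ?_⟩
      · apply hinj; rw [hf, map_one, map_one]
      · intro x y; apply hinj; rw [map_mul, hf, hf, hf, map_mul]
      · apply hinj; rw [hf, map_zero, map_zero]
      · intro x y; apply hinj; rw [map_add, hf, hf, hf, map_add]
      · apply Subtype.ext
        ext x
        exact hf x⟩

variable (K : Type*) [Field K] [NumberField K]

/-- ideals of norm `p` versus ring homs to `ZMod p`. -/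
noncomputable def idealEquiv :
    (𝓞 K →+* ZMod p) ≃ {I : Ideal (𝓞 K) // Ideal.absNorm I = p} :=
  Equiv.ofBijective (fun φ => ⟨RingHom.ker φ, by
      rw [Ideal.absNorm_apply, Submodule.cardQuot_apply,
        Nat.card_congr (RingHom.quotientKerEquivOfSurjective (ZMod.ringHom_surjective φ)).toEquiv, Nat.card_zmod]⟩)
    ⟨by
      intro φ φ' h
      exact ZMod.ringHom_eq_of_ker_eq φ φ' (congrArg Subtype.val h), by
      rintro ⟨I, hI⟩
      rw [Ideal.absNorm_apply, Submodule.cardQuot_apply] at hI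
      have hfin : Finite (𝓞 K ⧸ I) := Nat.finite_of_card_ne_zero (by rw [hI]; exact hp.out.ne_zero)
      let _ : Fintype (𝓞 K ⧸ I) := Fintype.ofFinite _
      rw [Nat.card_eq_fintype_card] at hI
      let e : ZMod p ≃+* (𝓞 K ⧸ I) := ZMod.ringEquivOfPrime _ hp.out hI
      refine ⟨(e.symm : (𝓞 K ⧸ I) →+* ZMod p).comp (Ideal.Quotient.mk I), ?_⟩
      apply Subtype.ext
      simp only
      ext x
      rw [RingHom.mem_ker, RingHom.comp_apply, RingHom.coe_coe, EmbeddingLike.map_eq_zero_iff,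
        Ideal.Quotient.eq_zero_iff_mem]⟩

lemma card_ideal_eq_card_hom (Ω : Type*) [Field Ω] [CharP Ω p] :
    Nat.card {I : Ideal (𝓞 K) // Ideal.absNorm I = p} = Nat.card {φ : 𝓞 K →+* Ω // ∀ x, φ x ^ p = φ x} :=
  Nat.card_congr ((idealEquiv K).symm.trans (homEquiv (𝓞 K) Ω))

end homs

section galois

variable {L : Type*} [Field L] [NumberField L] [IsGalois ℚ L]

instance isInvariant_int : Algebra.IsInvariant ℤ (𝓞 L) (L ≃ₐ[ℚ] L) := by
  constructor
  intro b hb
  have h1 : ((b : 𝓞 L) : L) ∈ IntermediateField.fixedField (⊤ : Subgroup (L ≃ₐ[ℚ] L)) := by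
    rintro ⟨g, -⟩
    exact congrArg (fun x : 𝓞 L => (x : L)) (hb g)
  have h0 : IntermediateField.fixedField (⊤ : Subgroup (L ≃ₐ[ℚ] L)) = ⊥ :=
    ((IsGalois.tfae (F := ℚ) (E := L)).out 0 1).mp ‹IsGalois ℚ L›
  rw [h0, IntermediateField.mem_bot] at h1
  obtain ⟨k, hk⟩ := h1
  have h2 : IsIntegral ℤ k := by
    rw [← isIntegral_algebraMap_iff (algebraMap ℚ L).injective, hk]
    exact RingOfIntegers.isIntegral_coe b
  obtain ⟨a, ha⟩ := IsIntegrallyClosed.algebraMap_eq_of_integral h2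
  refine ⟨a, ?_⟩
  apply RingOfIntegers.coe_injective
  change algebraMap (𝓞 L) L (algebraMap ℤ (𝓞 L) a) = (b : L)
  rw [← hk, ← ha]
  simp

instance isInvariant_fixedField (H : Subgroup (L ≃ₐ[ℚ] L)) :
    Algebra.IsInvariant (𝓞 (IntermediateField.fixedField H)) (𝓞 L) H := by
  constructor
  intro b hb
  have h1 : ((b : 𝓞 L) : L) ∈ IntermediateField.fixedField H := by
    rintro g
    exact congrArg (fun x : 𝓞 L => (x : L)) (hb g)
  let c : IntermediateField.fixedField H := ⟨(b : L), h1⟩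
  have hc : IsIntegral ℤ c := by
    rw [← isIntegral_algebraMap_iff (algebraMap (IntermediateField.fixedField H) L).injective]
    exact RingOfIntegers.isIntegral_coe b
  refine ⟨⟨c, hc⟩, ?_⟩
  apply RingOfIntegers.coe_injective
  rfl


/-- counting lemma: number of Frobenius fixed homs on the fixed field of `H`. -/
theorem card_conj_mem_eq (H : Subgroup (L ≃ₐ[ℚ] L)) {p : ℕ} [Fact p.Prime] {Ω : Type*} [Field Ω] [CharP Ω p]
    [IsAlgClosed Ω] (ψ₀ : 𝓞 L →+* Ω) (F : L ≃ₐ[ℚ] L) (hF : ∀ b : 𝓞 L, ψ₀ b ^ p = ψ₀ (F • b))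
    (hfree : ∀ (ψ : 𝓞 L →+* Ω) (h : L ≃ₐ[ℚ] L), (∀ b : 𝓞 L, ψ (h • b) = ψ b) → h = 1) :
    Nat.card {y : L ≃ₐ[ℚ] L // y⁻¹ * F * y ∈ H} =
      Nat.card H * Nat.card {I : Ideal (𝓞 (IntermediateField.fixedField H)) // Ideal.absNorm I = p} := by
  classical
  set K := IntermediateField.fixedField H with hK
  rw [card_ideal_eq_card_hom K Ω, ← Nat.card_prod]
  have hfix : ∀ (h : L ≃ₐ[ℚ] L), h ∈ H → ∀ x : 𝓞 K, h • (algebraMap (𝓞 K) (𝓞 L) x) = algebraMap (𝓞 K) (𝓞 L) x := by
    intro h hh x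
    apply RingOfIntegers.coe_injective
    have h1 : ((x : K) : L) ∈ IntermediateField.fixedField H := (x : K).2
    exact h1 ⟨h, hh⟩
  -- the basic maps
  let act : (L ≃ₐ[ℚ] L) → (𝓞 L →+* Ω) := fun y => ψ₀.comp (MulSemiringAction.toRingHom (L ≃ₐ[ℚ] L) (𝓞 L) y)
  have hact : ∀ y b, act y b = ψ₀ (y • b) := fun y b => rfl
  let Φ : (L ≃ₐ[ℚ] L) → (𝓞 K →+* Ω) := fun y => (act y).comp (algebraMap (𝓞 K) (𝓞 L))
  have hΦ : ∀ y x, Φ y x = ψ₀ (y • algebraMap (𝓞 K) (𝓞 L) x) := fun y x => rfl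
  -- fibres
  have hfib : ∀ y y' : L ≃ₐ[ℚ] L, Φ y = Φ y' → ∃ h ∈ H, y = y' * h := by
    intro y y' hyy
    obtain ⟨h, hh⟩ := exists_smul_eq_of_agree (A := 𝓞 K) (B := 𝓞 L) (G := H) (act y) (act y')
      (fun a => congrArg (fun θ => θ a) hyy)
    refine ⟨h, h.2, ?_⟩
    have h1 : (y' * h)⁻¹ * y = 1 := by
      apply hfree (act (y' * h))
      intro b
      have h2 : ∀ c, ψ₀ (y • c) = ψ₀ ((y' * (h : L ≃ₐ[ℚ] L)) • c) := fun c => by
        have := hh c
        rw [hact, hact] at this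
        rw [this, mul_smul]
        rfl
      rw [hact, hact, smul_smul, mul_inv_cancel_left]
      exact h2 b
    rw [inv_mul_eq_one] at h1
    exact h1.symm
  have hfib' : ∀ (y : L ≃ₐ[ℚ] L) (h : L ≃ₐ[ℚ] L), h ∈ H → Φ (y * h) = Φ y := by
    intro y h hh
    ext x
    rw [hΦ, hΦ, mul_smul, hfix h hh]
  -- surjectivity
  have hsurj : ∀ φ : 𝓞 K →+* Ω, ∃ y, Φ y = φ := by
    intro φ
    obtain ⟨ψ, hψ⟩ := exists_extension (A := 𝓞 K) (B := 𝓞 L)
      (FaithfulSMul.algebraMap_injective _ _) φ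
    obtain ⟨g, hg⟩ := exists_smul_eq_of_agree (A := ℤ) (B := 𝓞 L) (G := L ≃ₐ[ℚ] L) ψ ψ₀
      (fun a => by simp)
    refine ⟨g, ?_⟩
    ext x
    rw [hΦ, ← hg, hψ]
  -- Frobenius-fixed iff
  have hmem : ∀ y, y⁻¹ * F * y ∈ H ↔ ∀ x, Φ y x ^ p = Φ y x := by
    intro y
    have hFy : ∀ x, Φ y x ^ p = Φ (F * y) x := by
      intro x
      rw [hΦ, hΦ, hF, smul_smul]
    constructor
    · intro hy x
      have h1 : F * y = y * (y⁻¹ * F * y) := by group
      rw [hFy, h1, hfib' _ _ hy]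
    · intro hy
      have h1 : Φ (F * y) = Φ y := by
        ext x
        rw [← hFy, hy]
      obtain ⟨h, hh, hh2⟩ := hfib _ _ h1
      have h2 : y⁻¹ * F * y = h := by
        rw [mul_assoc, hh2]; group
      rw [h2]; exact hh
  choose sec hsec using hsurj
  symm
  refine Nat.card_congr (Equiv.ofBijective
    (fun x : H × {φ : 𝓞 K →+* Ω // ∀ x, φ x ^ p = φ x} => ⟨sec x.2.1 * x.1, ?_⟩) ⟨?_, ?_⟩)
  · rw [hmem, hfib' _ _ x.1.2, hsec]
    exact x.2.2
  · rintro ⟨h, φ⟩ ⟨h', φ'⟩ heq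
    simp only [Subtype.mk.injEq] at heq
    have h1 : φ.1 = φ'.1 := by
      have a := hfib' (sec φ.1) _ h.2
      have b := hfib' (sec φ'.1) _ h'.2
      rw [heq] at a
      rw [← hsec φ.1, ← a, b, hsec φ'.1]
    have h2 : φ = φ' := Subtype.ext h1
    subst h2
    have h3 : h = h' := Subtype.ext (mul_left_cancel heq)
    rw [h3]
  · rintro ⟨y, hy⟩
    obtain ⟨h, hh, hh2⟩ := hfib y (sec (Φ y)) (hsec _).symm
    refine ⟨(⟨h, hh⟩, ⟨Φ y, (hmem y).mp hy⟩), ?_⟩
    apply Subtype.ext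
    exact hh2.symm


/-- an integer controlling the primes with nontrivial inertia. -/
theorem exists_bad (L : Type*) [Field L] [NumberField L] [IsGalois ℚ L] :
    ∃ n : ℕ, n ≠ 0 ∧ ∀ p : ℕ, p.Prime → ¬ p ∣ n → ∀ (Ω : Type) [Field Ω] [CharP Ω p] (ψ : 𝓞 L →+* Ω)
      (h : L ≃ₐ[ℚ] L), (∀ b : 𝓞 L, ψ (h • b) = ψ b) → h = 1 := by
  classical
  have hex : ∀ g : L ≃ₐ[ℚ] L, g ≠ 1 → ∃ θ : 𝓞 L, θ - g • θ ≠ 0 := by
    intro g hg
    by_contra hcon
    push Not at hcon
    apply hg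
    ext x
    obtain ⟨a, b, hb, rfl⟩ := IsFractionRing.div_surjective (A := 𝓞 L) x
    have h1 : ∀ c : 𝓞 L, g (algebraMap (𝓞 L) L c) = algebraMap (𝓞 L) L c := by
      intro c
      have := congrArg (algebraMap (𝓞 L) L) (sub_eq_zero.mp (hcon c))
      exact this.symm
    rw [map_div₀, h1, h1]
    rfl
  choose! θ hθ using hex
  let δ : 𝓞 L := ∏ g ∈ (Finset.univ : Finset (L ≃ₐ[ℚ] L)).erase 1, (θ g - g • θ g)
  have hδ : δ ≠ 0 := by
    rw [Finset.prod_ne_zero_iff]
    intro g hg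
    exact hθ g (Finset.mem_erase.mp hg).1
  refine ⟨Ideal.absNorm (Ideal.span {δ}), ?_, ?_⟩
  · rw [Ne, Ideal.absNorm_eq_zero_iff, Ideal.span_singleton_eq_bot]
    exact hδ
  · intro p hp hpn Ω _ _ ψ h hh
    by_contra hne
    apply hpn
    have h1 : ψ δ = 0 := by
      rw [map_prod]
      apply Finset.prod_eq_zero (Finset.mem_erase.mpr ⟨hne, Finset.mem_univ h⟩)
      rw [map_sub, hh, sub_self]
    have h2 : ((Ideal.absNorm (Ideal.span {δ}) : ℕ) : 𝓞 L) ∈ Ideal.span {δ} := Ideal.absNorm_mem _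
    obtain ⟨c, hc⟩ := Ideal.mem_span_singleton'.mp h2
    have h3 : ψ ((Ideal.absNorm (Ideal.span {δ}) : ℕ) : 𝓞 L) = 0 := by
      rw [← hc, map_mul, h1, mul_zero]
    rw [map_natCast] at h3
    exact (CharP.cast_eq_zero_iff Ω p _).mp h3

end galois

end Fermat.Agent.H82
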