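import Mathlib

/-!
Orbit counting lemma used for the classification of finite subgroups of `PGL₂`.
-/

namespace Fermat.Agent.H85

open MulAction

/-- arithmetic core: three orbits -/
lemma arith_three (n s1 s2 s3 e1 e2 e3 : ℕ) (h1 : s1 * e1 = n) (h2 : s2 * e2 = n)
    (h3 : s3 * e3 = n) (he1 : 2 ≤ e1) (he2 : 2 ≤ e2) (he3 : 2 ≤ e3)
    (hs1 : 3 ≤ s1) (_hs2 : 3 ≤ s2) (hs3 : 3 ≤ s3)
    (h12 : e1 ≤ e2) (h23 : e2 ≤ e3) (hsum : s1 + s2 + s3 = n + 2) : n ≤ 60 := by
  have hn : 0 < n := by
    rw [← h1]; positivity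
  -- e1 = 2
  have he1' : e1 = 2 := by
    by_contra hne
    have he1'' : 3 ≤ e1 := by omega
    have a1 : 3 * s1 ≤ n := by rw [← h1]; nlinarith
    have a2 : 3 * s2 ≤ n := by rw [← h2]; nlinarith
    have a3 : 3 * s3 ≤ n := by rw [← h3]; nlinarith
    omega
  subst he1'
  have he2' : e2 ≤ 3 := by
    by_contra hne
    have b2 : 4 ≤ e2 := by omega
    have b3 : 4 ≤ e3 := by omega
    have a2 : 4 * s2 ≤ n := by rw [← h2]; nlinarith
    have a3 : 4 * s3 ≤ n := by rw [← h3]; nlinarith
    omega
  have he2'' : e2 = 2 ∨ e2 = 3 := by omega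
  rcases he2'' with h | h
  · subst h
    omega
  · subst h
    have he3' : e3 ≤ 5 := by
      by_contra hne
      have b3 : 6 ≤ e3 := by omega
      have a3 : 6 * s3 ≤ n := by rw [← h3]; nlinarith
      omega
    interval_cases e3 <;> omega

lemma arith_three' (n s1 s2 s3 e1 e2 e3 : ℕ) (h1 : s1 * e1 = n) (h2 : s2 * e2 = n)
    (h3 : s3 * e3 = n) (he1 : 2 ≤ e1) (he2 : 2 ≤ e2) (he3 : 2 ≤ e3)
    (hs1 : 3 ≤ s1) (hs2 : 3 ≤ s2) (hs3 : 3 ≤ s3)
    (hsum : s1 + s2 + s3 = n + 2) : n ≤ 60 := by
  rcases le_total e1 e2 with a | a <;> rcases le_total e2 e3 with b | b <;>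
    rcases le_total e1 e3 with c | c
  · exact arith_three n s1 s2 s3 e1 e2 e3 h1 h2 h3 he1 he2 he3 hs1 hs2 hs3 a b hsum
  · exact arith_three n s1 s2 s3 e1 e2 e3 h1 h2 h3 he1 he2 he3 hs1 hs2 hs3 a b hsum
  · exact arith_three n s1 s3 s2 e1 e3 e2 h1 h3 h2 he1 he3 he2 hs1 hs3 hs2 c b (by omega)
  · exact arith_three n s3 s1 s2 e3 e1 e2 h3 h1 h2 he3 he1 he2 hs3 hs1 hs2 c a (by omega)
  · exact arith_three n s2 s1 s3 e2 e1 e3 h2 h1 h3 he2 he1 he3 hs2 hs1 hs3 a c (by omega)
  · exact arith_three n s2 s3 s1 e2 e3 e1 h2 h3 h1 he2 he3 he1 hs2 hs3 hs1 b c (by omega)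
  · exact arith_three n s3 s2 s1 e3 e2 e1 h3 h2 h1 he3 he2 he1 hs3 hs2 hs1 b a (by omega)
  · exact arith_three n s3 s2 s1 e3 e2 e1 h3 h2 h1 he3 he2 he1 hs3 hs2 hs1 b a (by omega)

/-- Orbit counting: a finite group `G` acting on a finite set `X`, a subgroup `Z` acting trivially,
each element outside `Z` with exactly two fixed points, and every point fixed by some element
outside `Z`. Then either there is a stabiliser of index at most two or `[G : Z] ≤ 60`. -/
theorem orbit_count {G X : Type*} [Group G] [Finite G] [Finite X] [MulAction G X]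
    (Z : Subgroup G) (hZ : ∀ z ∈ Z, ∀ x : X, z • x = x)
    (h2 : ∀ g, g ∉ Z → Nat.card (fixedBy X g) = 2)
    (hstab : ∀ x : X, ∃ g, g ∉ Z ∧ g • x = x) :
    (∃ x : X, (stabilizer G x).index ≤ 2) ∨ Nat.card G ≤ 60 * Nat.card Z := by
  classical
  by_contra hcon
  push Not at hcon
  obtain ⟨hidx, hbig⟩ := hcon
  have := Fintype.ofFinite G
  have := Fintype.ofFinite X
  have hzpos : 0 < Nat.card Z := Nat.card_pos
  obtain ⟨n, hn⟩ : ∃ n, Nat.card G = n * Nat.card Z := by
    obtain ⟨c, hc⟩ := Subgroup.card_subgroup_dvd_card Z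
    exact ⟨c, by rw [hc, mul_comm]⟩
  set z := Nat.card Z with hz
  have hn60 : 60 < n := by
    rw [hn] at hbig
    exact lt_of_mul_lt_mul_right hbig (Nat.zero_le _)
  -- Burnside
  have hburn := MulAction.sum_card_fixedBy_eq_card_orbits_mul_card_group G X
  have hsum : ∑ g : G, Fintype.card (fixedBy X g) = z * Fintype.card X + 2 * (Nat.card G - z) := by
    have h1 : ∀ g : G, Fintype.card (fixedBy X g) = if g ∈ Z then Fintype.card X else 2 := by
      intro g
      split_ifs with hg
      · rw [Fintype.card_eq]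
        refine ⟨(Equiv.subtypeUnivEquiv ?_)⟩
        intro x
        exact hZ g hg x
      · rw [← Nat.card_eq_fintype_card]
        exact h2 g hg
    rw [Finset.sum_congr rfl (fun g _ => h1 g), Finset.sum_ite, Finset.sum_const, Finset.sum_const,
      smul_eq_mul, smul_eq_mul]
    have hc1 : (Finset.univ.filter (fun g : G => g ∈ Z)).card = z := by
      rw [hz, Nat.card_eq_fintype_card, Fintype.card_subtype]
    have hc2 : (Finset.univ.filter (fun g : G => g ∉ Z)).card = Nat.card G - z := by
      rw [Finset.filter_not, Finset.card_sdiff_of_subset (Finset.filter_subset _ _), hc1,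
        Nat.card_eq_fintype_card, Finset.card_univ]
    rw [hc1, hc2, mul_comm (Nat.card G - z) 2]
  rw [hsum, ← Nat.card_eq_fintype_card (α := G)] at hburn
  set r := Fintype.card (Quotient (orbitRel G X)) with hr
  -- orbit sizes
  have horb : ∀ x : X, ∃ e : ℕ, 2 ≤ e ∧ Nat.card (orbit G x) * e = n := by
    intro x
    have h1 : Nat.card (orbit G x) * Nat.card (stabilizer G x) = Nat.card G := by
      have := MulAction.card_orbit_mul_card_stabilizer_eq_card_group G x
      simpa [Nat.card_eq_fintype_card] using this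
    have hle : Z ≤ stabilizer G x := fun g hg => hZ g hg x
    obtain ⟨c, hc⟩ := Subgroup.card_dvd_of_le hle
    have hc2 : 2 ≤ c := by
      have hne : Nat.card (stabilizer G x) ≠ z := by
        intro heq
        obtain ⟨g, hg, hgx⟩ := hstab x
        have : Z = stabilizer G x := by
          apply SetLike.coe_injective
          refine Set.eq_of_subset_of_ncard_le hle ?_ (Set.toFinite _)
          rw [← Nat.card_coe_set_eq, ← Nat.card_coe_set_eq]
          exact heq.le
        apply hg
        rw [this]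
        exact hgx
      have hpos : 0 < Nat.card (stabilizer G x) := Nat.card_pos
      rcases c with _ | _ | c
      · rw [mul_zero] at hc; omega
      · exact absurd (by rw [hc, zero_add, mul_one]) hne
      · omega
    refine ⟨c, hc2, ?_⟩
    rw [hc, hn] at h1
    have h1' : (Nat.card (orbit G x) * c) * z = n * z := by
      rw [← h1]; ring
    exact Nat.eq_of_mul_eq_mul_right hzpos h1'
  have horb3 : ∀ x : X, 3 ≤ Nat.card (orbit G x) := by
    intro x
    have h1 := hidx x
    rw [MulAction.index_stabilizer] at h1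
    rw [Nat.card_coe_set_eq]
    omega
  -- card X as a sum over orbits
  have hX : Fintype.card X = ∑ ω : Quotient (orbitRel G X), Nat.card (orbitRel.Quotient.orbit ω) := by
    have e := MulAction.selfEquivSigmaOrbits' G X
    rw [Fintype.card_congr e, Fintype.card_sigma]
    exact Finset.sum_congr rfl fun ω _ => (Nat.card_eq_fintype_card).symm
  have hω : ∀ ω : Quotient (orbitRel G X), ∃ e : ℕ, 2 ≤ e ∧
      Nat.card (orbitRel.Quotient.orbit ω) * e = n ∧ 3 ≤ Nat.card (orbitRel.Quotient.orbit ω) := by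
    intro ω
    induction ω using Quotient.inductionOn' with
    | h x =>
      obtain ⟨e, he2, he⟩ := horb x
      refine ⟨e, he2, ?_, ?_⟩
      · rw [orbitRel.Quotient.orbit_mk]; exact he
      · rw [orbitRel.Quotient.orbit_mk]; exact horb3 x
  -- main equation: r * n = card X + 2 (n - 1)
  have hmain : r * n + 2 = Fintype.card X + 2 * n := by
    have h1 : z * Fintype.card X + 2 * (n * z - z) = r * (n * z) := by rw [← hn]; exact hburn
    have h2 : z ≤ n * z := Nat.le_mul_of_pos_left z (by omega)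
    have h3 : z * Fintype.card X + 2 * (n * z) = r * (n * z) + 2 * z := by omega
    have h4 : (r * n + 2) * z = (Fintype.card X + 2 * n) * z := by linarith [h3]
    exact Nat.eq_of_mul_eq_mul_right hzpos h4
  have hXle : 2 * Fintype.card X ≤ r * n := by
    rw [hX, Finset.mul_sum, hr, ← Finset.card_univ, ← smul_eq_mul, ← Finset.sum_const]
    apply Finset.sum_le_sum
    intro ω _
    obtain ⟨e, he2, he, _⟩ := hω ω
    rw [← he]
    nlinarith
  have hXge : 3 * r ≤ Fintype.card X := by
    rw [hX, hr, mul_comm, ← Finset.card_univ, ← smul_eq_mul, ← Finset.sum_const]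
    apply Finset.sum_le_sum
    intro ω _
    obtain ⟨e, he2, he, h3⟩ := hω ω
    exact h3
  have hr4 : r < 4 := by
    by_contra h4
    have h4 : 4 ≤ r := by omega
    have : 4 * n ≤ r * n := Nat.mul_le_mul_right n h4
    omega
  have hr3 : r = 3 := by
    interval_cases r
    · omega
    · omega
    · omega
    · rfl
  rw [hr3] at hmain hXle hXge
  obtain ⟨f⟩ : Nonempty (Fin 3 ≃ Quotient (orbitRel G X)) := by
    rw [← Fintype.card_eq, ← hr, hr3, Fintype.card_fin]
  have hX3 : Fintype.card X = Nat.card (orbitRel.Quotient.orbit (f 0)) +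
      Nat.card (orbitRel.Quotient.orbit (f 1)) + Nat.card (orbitRel.Quotient.orbit (f 2)) := by
    rw [hX, ← f.sum_comp, Fin.sum_univ_three]
  obtain ⟨e1, he1, hs1, ht1⟩ := hω (f 0)
  obtain ⟨e2, he2, hs2, ht2⟩ := hω (f 1)
  obtain ⟨e3, he3, hs3, ht3⟩ := hω (f 2)
  have := arith_three' n _ _ _ e1 e2 e3 hs1 hs2 hs3 he1 he2 he3 ht1 ht2 ht3 (by omega)
  omega

/-- Variant of `orbit_count` for an action on a possibly infinite set. -/
theorem orbit_count' {G X : Type*} [Group G] [Finite G] [MulAction G X]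
    (Z : Subgroup G) [hZn : Z.Normal] (hZ : ∀ z ∈ Z, ∀ x : X, z • x = x)
    (h2 : ∀ g, g ∉ Z → Nat.card (fixedBy X g) = 2) :
    (∃ x : X, (stabilizer G x).index ≤ 2) ∨ Nat.card G ≤ 60 * Nat.card Z := by
  classical
  let S : SubMulAction G X :=
    { carrier := {x | ∃ g, g ∉ Z ∧ g • x = x}
      smul_mem' := by
        rintro h x ⟨g, hg, hgx⟩
        refine ⟨h * g * h⁻¹, ?_, ?_⟩
        · intro hmem
          apply hg
          have := hZn.conj_mem _ hmem h⁻¹
          simpa [mul_assoc] using this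
        · rw [mul_smul, mul_smul, inv_smul_smul, hgx] }
  have hmemS : ∀ x : X, x ∈ S ↔ ∃ g, g ∉ Z ∧ g • x = x := fun x => Iff.rfl
  have hfin : Finite S := by
    have h1 : (S : Set X) ⊆ ⋃ g ∈ {g : G | g ∉ Z}, fixedBy X g := by
      rintro x ⟨g, hg, hgx⟩
      simp only [Set.mem_iUnion]
      exact ⟨g, hg, hgx⟩
    have h2' : (⋃ g ∈ {g : G | g ∉ Z}, fixedBy X g).Finite := by
      apply Set.Finite.biUnion (Set.toFinite _)
      intro g hg
      have h3 := h2 g hg
      exact Nat.finite_of_card_ne_zero (α := fixedBy X g) (by omega)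
    exact (h2'.subset h1)
  have hmain := orbit_count (G := G) (X := S) Z
    (fun z hz x => Subtype.ext (hZ z hz x.1))
    (fun g hg => by
      rw [← h2 g hg]
      refine Nat.card_congr ⟨fun x => ⟨x.1.1, ?_⟩, fun x => ⟨⟨x.1, g, hg, x.2⟩, ?_⟩, ?_, ?_⟩
      · have := x.2
        rw [mem_fixedBy] at this ⊢
        exact congrArg Subtype.val this
      · rw [mem_fixedBy]
        exact Subtype.ext x.2
      · intro x; rfl
      · intro x; rfl)
    (fun x => by
      obtain ⟨g, hg, hgx⟩ := x.2
      exact ⟨g, hg, Subtype.ext hgx⟩)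
  rcases hmain with ⟨x, hx⟩ | h
  · left
    refine ⟨x.1, ?_⟩
    have : stabilizer G x.1 = stabilizer G x := by
      ext g
      rw [mem_stabilizer_iff, mem_stabilizer_iff]
      constructor
      · intro h; exact Subtype.ext h
      · intro h; exact congrArg Subtype.val h
    rw [this]; exact hx
  · right; exact h

end Fermat.Agent.H85
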