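import Mathlib
import Fermat.Agent.H85Orbit

/-!
Bounds for finite subgroups of `GL₂(k)`, `k` algebraically closed of characteristic `ℓ`, most of
whose elements have few characteristic polynomials.
-/

namespace Fermat.Agent.H85

open Matrix MulAction

open scoped LinearAlgebra.Projectivization

variable {k : Type*} [Field k]

/-- Cayley–Hamilton for 2×2 matrices. -/
lemma ch (A : Matrix (Fin 2) (Fin 2) k) :
    A * A - A.trace • A + A.det • (1 : Matrix (Fin 2) (Fin 2) k) = 0 := by
  ext i j
  fin_cases i <;> fin_cases j <;>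
    simp [Matrix.mul_apply, trace_fin_two, det_fin_two, Fin.sum_univ_two] <;> ring

lemma one_add_pow_of_sq_zero (N : Matrix (Fin 2) (Fin 2) k) (hN : N * N = 0) (m : ℕ) :
    (1 + N) ^ m = 1 + (m : k) • N := by
  induction m with
  | zero => simp
  | succ m ih =>
    rw [pow_succ, ih, Nat.cast_succ, add_smul, one_smul, mul_add, mul_one, add_mul, one_mul,
      smul_mul_assoc, hN, smul_zero, add_zero, add_assoc]

lemma sub_one_sq (u : Matrix (Fin 2) (Fin 2) k) (htr : u.trace = 2) (hdet : u.det = 1) :
    (u - 1) * (u - 1) = 0 := by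
  have h := ch u
  rw [htr, hdet] at h
  have : (u - 1) * (u - 1) = u * u - (2 : k) • u + (1 : k) • 1 := by
    rw [sub_mul, mul_sub, mul_one, one_mul, one_smul, two_smul]
    abel
  rw [this, h]

lemma eq_one_of_sq_zero (u : Matrix (Fin 2) (Fin 2) k) (h : (u - 1) * (u - 1) = 0) (m : ℕ)
    (hm : (m : k) ≠ 0) (hu : u ^ m = 1) : u = 1 := by
  have h1 := one_add_pow_of_sq_zero (u - 1) h m
  rw [add_sub_cancel, hu] at h1
  have h2 : (m : k) • (u - 1) = 0 := by
    have := h1.symm
    rwa [add_eq_left] at this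
  rcases smul_eq_zero.mp h2 with h3 | h3
  · exact absurd h3 hm
  · exact sub_eq_zero.mp h3

/-- A matrix with a fixed vector has `1 - tr + det = 0`. -/
lemma trace_eq_of_fixed (u : Matrix (Fin 2) (Fin 2) k) (v : Fin 2 → k) (hv : v ≠ 0) (c : k)
    (h : u *ᵥ v = c • v) : c * c - u.trace * c + u.det = 0 := by
  have h1 := congrArg (fun A => A *ᵥ v) (ch u)
  simp only [add_mulVec, sub_mulVec, smul_mulVec, one_mulVec, zero_mulVec, ← mulVec_mulVec, h,
    mulVec_smul, smul_smul] at h1
  have h2 : (c * c - u.trace * c + u.det) • v = 0 := by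
    rw [add_smul, sub_smul]; exact h1
  rcases smul_eq_zero.mp h2 with h3 | h3
  · exact h3
  · exact absurd h3 hv

lemma root_eq_or (t d c1 c2 c3 : k) (h1 : c1 * c1 - t * c1 + d = 0) (h2 : c2 * c2 - t * c2 + d = 0)
    (h3 : c3 * c3 - t * c3 + d = 0) : c1 = c2 ∨ c1 = c3 ∨ c2 = c3 := by
  by_contra hcon
  push Not at hcon
  obtain ⟨h12, h13, h23⟩ := hcon
  have a : (c1 - c2) * (c1 + c2 - t) = 0 := by linear_combination h1 - h2
  have b : (c1 - c3) * (c1 + c3 - t) = 0 := by linear_combination h1 - h3
  have a' := (mul_eq_zero.mp a).resolve_left (sub_ne_zero.mpr h12)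
  have b' := (mul_eq_zero.mp b).resolve_left (sub_ne_zero.mpr h13)
  apply h23
  linear_combination a' - b'

/-- In a finite group of order prime to the characteristic preserving a line, there are at most two
elements with a given characteristic polynomial. -/
theorem card_le_two_of_line (D : Subgroup (GL (Fin 2) k)) [Finite D]
    (hD : ((Nat.card D : ℕ) : k) ≠ 0) (v : Fin 2 → k) (hv : v ≠ 0)
    (hline : ∀ g ∈ D, ∃ c : k, (g : Matrix (Fin 2) (Fin 2) k) *ᵥ v = c • v)
    (H : Finset (GL (Fin 2) k)) (hH : ∀ g ∈ H, g ∈ D) (t d : k)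
    (htd : ∀ g ∈ H, (g : Matrix (Fin 2) (Fin 2) k).trace = t ∧
      (g : Matrix (Fin 2) (Fin 2) k).det = d) : H.card ≤ 2 := by
  classical
  -- two elements with same eigenvalue are equal
  have key : ∀ g ∈ H, ∀ h ∈ H, ∀ c : k, (g : Matrix (Fin 2) (Fin 2) k) *ᵥ v = c • v →
      (h : Matrix (Fin 2) (Fin 2) k) *ᵥ v = c • v → g = h := by
    intro g hg h hh c hgc hhc
    set u : GL (Fin 2) k := h⁻¹ * g with hu
    have huD : u ∈ D := D.mul_mem (D.inv_mem (hH h hh)) (hH g hg)
    have huv : (u : Matrix (Fin 2) (Fin 2) k) *ᵥ v = (1 : k) • v := by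
      have h1 : (h⁻¹ : GL (Fin 2) k).val *ᵥ (h.val *ᵥ v) = v := by
        rw [mulVec_mulVec, ← Units.val_mul, inv_mul_cancel, Units.val_one, one_mulVec]
      rw [hu, Units.val_mul, ← mulVec_mulVec, hgc, ← hhc, h1, one_smul]
    have hudet : (u : Matrix (Fin 2) (Fin 2) k).det = 1 := by
      have h1 : (h : Matrix (Fin 2) (Fin 2) k).det * (u : Matrix (Fin 2) (Fin 2) k).det
          = (g : Matrix (Fin 2) (Fin 2) k).det := by
        rw [← det_mul, ← Units.val_mul, hu, mul_inv_cancel_left]
      rw [(htd h hh).2, (htd g hg).2] at h1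
      have hd0 : d ≠ 0 := by
        rw [← (htd h hh).2]
        exact (isUnit_iff_ne_zero.mp ((Matrix.isUnit_iff_isUnit_det _).mp h.isUnit))
      exact mul_left_cancel₀ hd0 (by rw [h1, mul_one])
    have hutr : (u : Matrix (Fin 2) (Fin 2) k).trace = 2 := by
      have := trace_eq_of_fixed _ v hv 1 huv
      rw [hudet] at this
      linear_combination -this
    have hpow : (u : Matrix (Fin 2) (Fin 2) k) ^ (Nat.card D) = 1 := by
      have h1 : (⟨u, huD⟩ : D) ^ (Nat.card D) = 1 := pow_card_eq_one'
      have h2 : u ^ (Nat.card D) = 1 := congrArg Subtype.val h1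
      rw [← Units.val_pow_eq_pow_val, h2, Units.val_one]
    have h1 := eq_one_of_sq_zero _ (sub_one_sq _ hutr hudet) _ hD hpow
    have h2 : u = 1 := Units.ext h1
    rw [hu] at h2
    exact (inv_mul_eq_one.mp h2).symm
  by_contra hcard
  push Not at hcard
  obtain ⟨a, b, c, ha, hb, hc, hab, hac, hbc⟩ := Finset.two_lt_card_iff.mp hcard
  obtain ⟨ca, hca⟩ := hline a (hH a ha)
  obtain ⟨cb, hcb⟩ := hline b (hH b hb)
  obtain ⟨cc, hcc⟩ := hline c (hH c hc)
  have ea := trace_eq_of_fixed _ v hv _ hca
  have eb := trace_eq_of_fixed _ v hv _ hcb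
  have ec := trace_eq_of_fixed _ v hv _ hcc
  rw [(htd a ha).1, (htd a ha).2] at ea
  rw [(htd b hb).1, (htd b hb).2] at eb
  rw [(htd c hc).1, (htd c hc).2] at ec
  rcases root_eq_or t d ca cb cc ea eb ec with h | h | h
  · exact hab (key a ha b hb ca hca (h ▸ hcb))
  · exact hac (key a ha c hc ca hca (h ▸ hcc))
  · exact hbc (key b hb c hc cb hcb (h ▸ hcc))

/-- over an algebraically closed field, a non-scalar matrix of finite order prime to the
characteristic has two eigenvectors with distinct eigenvalues. -/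
lemma exists_eigen [IsAlgClosed k] (A : Matrix (Fin 2) (Fin 2) k) (m : ℕ) (hm : (m : k) ≠ 0)
    (hA : A ^ m = 1) (hns : ∀ c : k, A ≠ c • 1) :
    ∃ (l μ : k) (v w : Fin 2 → k), l ≠ μ ∧ v ≠ 0 ∧ w ≠ 0 ∧ A *ᵥ v = l • v ∧ A *ᵥ w = μ • w := by
  classical
  obtain ⟨l, hl⟩ : ∃ l : k, l * l - A.trace * l + A.det = 0 := by
    have hdeg : (Polynomial.C 1 * Polynomial.X ^ 2 + Polynomial.C (-A.trace) * Polynomial.X
        + Polynomial.C A.det : Polynomial k).degree ≠ 0 := by
      rw [Polynomial.degree_quadratic one_ne_zero]; norm_num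
    obtain ⟨l, hl⟩ := IsAlgClosed.exists_root _ hdeg
    refine ⟨l, ?_⟩
    simp [Polynomial.IsRoot] at hl
    linear_combination hl
  set μ := A.trace - l with hμ
  have hμ' : μ * μ - A.trace * μ + A.det = 0 := by rw [hμ]; linear_combination hl
  have hev : ∀ c : k, c * c - A.trace * c + A.det = 0 →
      ∃ v : Fin 2 → k, v ≠ 0 ∧ A *ᵥ v = c • v := by
    intro c hc
    have hdet : (A - c • (1 : Matrix (Fin 2) (Fin 2) k)).det = 0 := by
      rw [det_fin_two]
      rw [trace_fin_two, det_fin_two] at hc
      simp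
      linear_combination hc
    obtain ⟨v, hv, hv0⟩ := Matrix.exists_mulVec_eq_zero_iff.mpr hdet
    refine ⟨v, hv, ?_⟩
    rw [sub_mulVec, smul_mulVec, one_mulVec, sub_eq_zero] at hv0
    exact hv0
  by_cases hlμ : l = μ
  · -- scalar
    exfalso
    have htr : A.trace = 2 * l := by rw [hμ] at hlμ; linear_combination -hlμ
    have hdet : A.det = l * l := by rw [htr] at hl; linear_combination hl
    have hl0 : l ≠ 0 := by
      intro h0
      have : IsUnit A := by
        rcases Nat.eq_zero_or_pos m with h | h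
        · subst h; simp at hm
        · exact IsUnit.of_pow_eq_one hA h.ne'
      have := (isUnit_iff_ne_zero.mp ((Matrix.isUnit_iff_isUnit_det _).mp this))
      rw [hdet, h0] at this
      simp at this
    -- u = l⁻¹ A unipotent
    set u : Matrix (Fin 2) (Fin 2) k := l⁻¹ • A with hu
    have hutr : u.trace = 2 := by
      rw [hu, trace_smul, htr, smul_eq_mul]; field_simp
    have hudet : u.det = 1 := by
      rw [hu, det_smul, hdet]; simp; field_simp
    have hsq := sub_one_sq u hutr hudet
    have hpow := one_add_pow_of_sq_zero (u - 1) hsq m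
    rw [add_sub_cancel, hu, smul_pow, hA] at hpow
    -- (l⁻¹)^m • 1 = 1 + m • (u - 1)
    have h2 : l⁻¹ • A = ((m : k)⁻¹ * ((l⁻¹) ^ m - 1) + 1) • (1 : Matrix (Fin 2) (Fin 2) k) := by
      have h3 : (m : k) • (l⁻¹ • A - 1) = ((l⁻¹) ^ m - 1) • (1 : Matrix (Fin 2) (Fin 2) k) := by
        rw [sub_smul, hpow, one_smul]; simp
      have h4 : l⁻¹ • A - 1 = ((m : k)⁻¹ * ((l⁻¹) ^ m - 1)) • (1 : Matrix (Fin 2) (Fin 2) k) := by
        rw [mul_smul, ← h3, smul_smul, inv_mul_cancel₀ hm, one_smul]
      rw [add_smul, one_smul, ← h4]; simp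
    apply hns (l * ((m : k)⁻¹ * ((l⁻¹) ^ m - 1) + 1))
    rw [mul_smul, ← h2, smul_smul, mul_inv_cancel₀ hl0, one_smul]
  · obtain ⟨v, hv, hv'⟩ := hev l hl
    obtain ⟨w, hw, hw'⟩ := hev μ hμ'
    exact ⟨l, μ, v, w, hlμ, hv, hw, hv', hw'⟩

lemma smul_mk_eq_iff (g : GL (Fin 2) k) (v : Fin 2 → k) (hv : v ≠ 0) :
    g • (Projectivization.mk k v hv) = Projectivization.mk k v hv ↔
      ∃ c : k, (g : Matrix (Fin 2) (Fin 2) k) *ᵥ v = c • v := by
  rw [Projectivization.smul_mk, Projectivization.mk_eq_mk_iff']
  constructor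
  · rintro ⟨a, ha⟩
    exact ⟨a, ha.symm⟩
  · rintro ⟨a, ha⟩
    exact ⟨a, ha.symm⟩

/-- eigenvectors for a matrix with two distinct eigenvalues -/
lemma fixedBy_card (g : GL (Fin 2) k) (l μ : k) (v w : Fin 2 → k) (hlμ : l ≠ μ) (hv : v ≠ 0)
    (hw : w ≠ 0) (h1 : (g : Matrix (Fin 2) (Fin 2) k) *ᵥ v = l • v)
    (h2 : (g : Matrix (Fin 2) (Fin 2) k) *ᵥ w = μ • w) :
    fixedBy (ℙ k (Fin 2 → k)) g = {Projectivization.mk k v hv, Projectivization.mk k w hw} ∧
    Projectivization.mk k v hv ≠ Projectivization.mk k w hw := by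
  have hne : Projectivization.mk k v hv ≠ Projectivization.mk k w hw := by
    intro h
    rw [Projectivization.mk_eq_mk_iff'] at h
    obtain ⟨a, ha⟩ := h
    rw [← ha, mulVec_smul, h2, smul_smul, smul_smul] at h1
    have h3 : (a * μ - l * a) • w = 0 := by rw [sub_smul, h1, sub_self]
    rcases smul_eq_zero.mp h3 with h4 | h4
    · have h5 : a * (μ - l) = 0 := by linear_combination h4
      rcases mul_eq_zero.mp h5 with h6 | h6
      · rw [h6, zero_smul] at ha; exact hv ha.symm
      · exact hlμ (sub_eq_zero.mp h6).symm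
    · exact hw h4
  refine ⟨?_, hne⟩
  ext L
  induction L using Projectivization.ind with
  | h x hx =>
  rw [mem_fixedBy, smul_mk_eq_iff]
  simp only [Set.mem_insert_iff, Set.mem_singleton_iff]
  constructor
  · rintro ⟨c, hc⟩
    -- c is an eigenvalue
    have e1 := trace_eq_of_fixed _ v hv _ h1
    have e2 := trace_eq_of_fixed _ w hw _ h2
    have e3 := trace_eq_of_fixed _ x hx _ hc
    -- v, w are a basis
    have hdet : (Matrix.of ![v, w]).det ≠ 0 := by
      intro h0
      apply hne
      rw [Projectivization.mk_eq_mk_iff']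
      rw [det_fin_two] at h0
      simp at h0
      by_cases hw0 : w 0 = 0
      · have hw1 : w 1 ≠ 0 := by
          intro h; apply hw; ext i; fin_cases i
          · exact hw0
          · exact h
        refine ⟨v 1 / w 1, ?_⟩
        have hv0 : v 0 = 0 := by
          rw [hw0, mul_zero, sub_zero] at h0
          exact (mul_eq_zero.mp h0).resolve_right hw1
        ext i; fin_cases i
        · simp [hw0, hv0]
        · simp; field_simp
      · refine ⟨v 0 / w 0, ?_⟩
        ext i; fin_cases i
        · simp; field_simp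
        · simp; field_simp; linear_combination h0
    obtain ⟨a, b, hab⟩ : ∃ a b : k, x = a • v + b • w := by
      set D := (Matrix.of ![v, w]).det with hD
      have hD' : D = v 0 * w 1 - v 1 * w 0 := by rw [hD, det_fin_two]; simp
      refine ⟨(x 0 * w 1 - x 1 * w 0) / D, (v 0 * x 1 - v 1 * x 0) / D, ?_⟩
      ext i; fin_cases i
      · simp
        field_simp
        rw [hD']; ring
      · simp
        field_simp
        rw [hD']; ring
    have h4 : (a * (l - c)) • v + (b * (μ - c)) • w = 0 := by
      have h5 := hc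
      rw [hab, mulVec_add, mulVec_smul, mulVec_smul, h1, h2, smul_add, smul_smul, smul_smul,
        smul_smul, smul_smul] at h5
      have h6 : (a * (l - c)) • v + (b * (μ - c)) • w =
          ((a * l) • v + (b * μ) • w) - ((c * a) • v + (c * b) • w) := by
        rw [mul_sub, mul_sub, sub_smul, sub_smul, mul_comm c a, mul_comm c b]; abel
      rw [h6, h5, sub_self]
    have hli : ∀ p q : k, p • v + q • w = 0 → p = 0 ∧ q = 0 := by
      intro p q hpq
      have c0 := congrFun hpq 0
      have c1 := congrFun hpq 1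
      simp at c0 c1
      rw [det_fin_two] at hdet
      simp at hdet
      constructor
      · have : p * (v 0 * w 1 - v 1 * w 0) = 0 := by linear_combination w 1 * c0 - w 0 * c1
        exact (mul_eq_zero.mp this).resolve_right hdet
      · have : q * (v 0 * w 1 - v 1 * w 0) = 0 := by linear_combination v 0 * c1 - v 1 * c0
        exact (mul_eq_zero.mp this).resolve_right hdet
    obtain ⟨p0, q0⟩ := hli _ _ h4
    by_cases ha : a = 0
    · right
      rw [Projectivization.mk_eq_mk_iff']
      exact ⟨b, by rw [hab, ha, zero_smul, zero_add]⟩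
    · have hlc : l = c := sub_eq_zero.mp ((mul_eq_zero.mp p0).resolve_left ha)
      have hb : b = 0 := by
        rcases mul_eq_zero.mp q0 with h | h
        · exact h
        · exact absurd (hlc.trans (sub_eq_zero.mp h).symm) hlμ
      left
      rw [Projectivization.mk_eq_mk_iff']
      exact ⟨a, by rw [hab, hb, zero_smul, add_zero]⟩
  · rintro (h | h)
    · rw [Projectivization.mk_eq_mk_iff'] at h
      obtain ⟨a, ha⟩ := h
      exact ⟨l, by rw [← ha, mulVec_smul, h1, smul_comm]⟩
    · rw [Projectivization.mk_eq_mk_iff'] at h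
      obtain ⟨a, ha⟩ := h
      exact ⟨μ, by rw [← ha, mulVec_smul, h2, smul_comm]⟩

/-- the trace/determinant pair -/
noncomputable def td (g : GL (Fin 2) k) : k × k :=
  ((g : Matrix (Fin 2) (Fin 2) k).trace, (g : Matrix (Fin 2) (Fin 2) k).det)

/-- scalar elements of a subgroup of `GL₂`. -/
def scalars (G : Subgroup (GL (Fin 2) k)) : Subgroup G where
  carrier := {g | ∃ c : k, ((g : GL (Fin 2) k) : Matrix (Fin 2) (Fin 2) k) = c • 1}
  mul_mem' := by
    rintro a b ⟨c, hc⟩ ⟨d, hd⟩
    refine ⟨c * d, ?_⟩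
    rw [Subgroup.coe_mul, Units.val_mul, hc, hd, smul_mul_smul_comm, mul_one]
  one_mem' := ⟨1, by rw [Subgroup.coe_one, Units.val_one, one_smul]⟩
  inv_mem' := by
    rintro a ⟨c, hc⟩
    have hc0 : c ≠ 0 := by
      rintro rfl
      rw [zero_smul] at hc
      exact (a : GL (Fin 2) k).ne_zero hc
    refine ⟨c⁻¹, ?_⟩
    rw [Subgroup.coe_inv]
    have h1 : ((a : GL (Fin 2) k)⁻¹ : GL (Fin 2) k).val * (a : GL (Fin 2) k).val = 1 := by
      rw [← Units.val_mul, inv_mul_cancel, Units.val_one]
    rw [hc, mul_smul_comm, mul_one] at h1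
    rw [← h1, smul_smul, inv_mul_cancel₀ hc0, one_smul]

lemma mem_scalars {G : Subgroup (GL (Fin 2) k)} (g : G) : g ∈ scalars G ↔
    ∃ c : k, ((g : GL (Fin 2) k) : Matrix (Fin 2) (Fin 2) k) = c • 1 := Iff.rfl

instance (G : Subgroup (GL (Fin 2) k)) : (scalars G).Normal where
  conj_mem := by
    rintro a ⟨c, hc⟩ g
    refine ⟨c, ?_⟩
    rw [Subgroup.coe_mul, Subgroup.coe_mul, Units.val_mul, Units.val_mul, hc, mul_smul_comm,
      mul_one, smul_mul_assoc, ← Units.val_mul, Subgroup.coe_inv, mul_inv_cancel, Units.val_one]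

/-- Prime-to-characteristic case. -/
theorem card_le_of_prime_to [IsAlgClosed k] (G : Subgroup (GL (Fin 2) k)) [Finite G]
    (hG : ((Nat.card G : ℕ) : k) ≠ 0) (M : ℕ) (H : Finset (GL (Fin 2) k)) (hHG : ∀ g ∈ H, g ∈ G)
    (hH : 3 * Nat.card G ≤ 4 * H.card) (hM : ∃ T : Finset (k × k), T.card ≤ M ∧ ∀ g ∈ H, td g ∈ T) :
    Nat.card G ≤ 160 * M := by
  classical
  obtain ⟨T, hTM, hT⟩ := hM
  have hGpos : 0 < Nat.card G := Nat.card_pos
  rcases orbit_count' (G := G) (X := ℙ k (Fin 2 → k)) (scalars G)
    (by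
      rintro z ⟨c, hc⟩ x
      induction x using Projectivization.ind with
      | h v hv =>
      have : z • Projectivization.mk k v hv = (z : GL (Fin 2) k) • Projectivization.mk k v hv := rfl
      rw [this, smul_mk_eq_iff]
      exact ⟨c, by rw [hc, smul_mulVec, one_mulVec]⟩)
    (by
      intro g hg
      have hpow : ((g : GL (Fin 2) k) : Matrix (Fin 2) (Fin 2) k) ^ (Nat.card G) = 1 := by
        have h1 : g ^ (Nat.card G) = 1 := pow_card_eq_one'
        have h2 : (g : GL (Fin 2) k) ^ (Nat.card G) = 1 := congrArg Subtype.val h1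
        rw [← Units.val_pow_eq_pow_val, h2, Units.val_one]
      obtain ⟨l, μ, v, w, hlμ, hv, hw, h1, h2⟩ := exists_eigen _ _ hG hpow
        (fun c hc => hg ⟨c, hc⟩)
      obtain ⟨h3, h4⟩ := fixedBy_card (g : GL (Fin 2) k) l μ v w hlμ hv hw h1 h2
      have h5 : fixedBy (ℙ k (Fin 2 → k)) g = fixedBy (ℙ k (Fin 2 → k)) (g : GL (Fin 2) k) := rfl
      rw [h5, h3, Nat.card_coe_set_eq, Set.ncard_pair h4])
    with ⟨x, hx⟩ | h
  · -- a subgroup of index ≤ 2 fixing a line
    induction x using Projectivization.ind with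
    | h v hv =>
    set S := stabilizer G (Projectivization.mk k v hv) with hS
    set D : Subgroup (GL (Fin 2) k) := S.map G.subtype with hDdef
    have hDcard : Nat.card D = Nat.card S := by
      rw [hDdef]
      exact (Nat.card_congr (S.equivMapOfInjective _ G.subtype_injective).toEquiv).symm
    have hDfin : Finite D := by
      have : Finite S := inferInstance
      exact Nat.finite_of_card_ne_zero (by rw [hDcard]; exact Nat.card_pos.ne')
    have hmul : S.index * Nat.card S = Nat.card G := by
      rw [mul_comm]; exact S.card_mul_index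
    have hSk : ((Nat.card D : ℕ) : k) ≠ 0 := by
      intro h0
      apply hG
      rw [← hmul, Nat.cast_mul, ← hDcard, h0, mul_zero]
    have hDG : D ≤ G := by
      rintro g ⟨g', _, rfl⟩
      exact g'.2
    set HD := H.filter (fun g => g ∈ D) with hHD
    -- each fibre has at most two elements
    have hfib : HD.card ≤ 2 * T.card := by
      apply Finset.card_le_mul_card_image_of_maps_to (f := td)
      · intro g hg
        exact hT g (Finset.mem_filter.mp hg).1
      · rintro ⟨t, d⟩ _
        apply card_le_two_of_line D hSk v hv _ _ _ t d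
        · intro g hg
          obtain ⟨h1, h2⟩ := Finset.mem_filter.mp hg
          have := (Prod.mk.injEq _ _ _ _).mp h2
          exact ⟨this.1, this.2⟩
        · rintro g ⟨g', hg', rfl⟩
          exact (smul_mk_eq_iff _ v hv).mp hg'
        · intro g hg
          exact (Finset.mem_filter.mp (Finset.mem_filter.mp hg).1).2
    -- complement
    have hcompl : (H.filter (fun g => g ∉ D)).card ≤ Nat.card G - Nat.card D := by
      have := Fintype.ofFinite G
      have := Fintype.ofFinite D
      have h1 : (G : Set (GL (Fin 2) k)).ncard = Nat.card G := rfl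
      have h2 : (D : Set (GL (Fin 2) k)).ncard = Nat.card D := rfl
      have hGf : (G : Set (GL (Fin 2) k)).Finite := Set.toFinite _
      have hDf : (D : Set (GL (Fin 2) k)).Finite := Set.toFinite _
      rw [← h1, ← h2, ← Set.ncard_sdiff hDG hDf, ← Set.ncard_coe_finset]
      apply Set.ncard_le_ncard _ (hGf.subset Set.sdiff_subset)
      intro g hg
      have := Finset.mem_filter.mp (Finset.mem_coe.mp hg)
      exact ⟨hHG g this.1, this.2⟩
    have hsplit : H.card = HD.card + (H.filter (fun g => g ∉ D)).card :=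
      (Finset.card_filter_add_card_filter_not _).symm
    have hDge : Nat.card G ≤ 2 * Nat.card D := by
      rw [← hmul, hDcard]
      exact Nat.mul_le_mul_right _ hx
    have hDle : Nat.card D ≤ Nat.card G := by
      rw [← hmul, hDcard]
      exact Nat.le_mul_of_pos_left _ (Nat.pos_of_ne_zero S.index_ne_zero_of_finite)
    omega
  · -- small projective image
    have hq : Nat.card (G ⧸ scalars G) ≤ 60 := by
      have h1 := (scalars G).card_eq_card_quotient_mul_card_subgroup
      rw [h1] at h
      exact Nat.le_of_mul_le_mul_right h Nat.card_pos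
    have : Fintype (G ⧸ scalars G) := Fintype.ofFinite _
    rw [Nat.card_eq_fintype_card, ← Finset.card_univ] at hq
    have hH2 : H.card ≤ 2 * ((Finset.univ : Finset (G ⧸ scalars G)) ×ˢ T).card := by
      apply Finset.card_le_mul_card_image_of_maps_to
        (f := fun g => ((if hg : g ∈ G then (QuotientGroup.mk (⟨g, hg⟩ : G) : G ⧸ scalars G) else
          (1 : G ⧸ scalars G)), td g))
      · intro g hg
        rw [Finset.mem_product]
        exact ⟨Finset.mem_univ _, hT g hg⟩
      · rintro ⟨q, t, d⟩ _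
        by_contra hcard
        push Not at hcard
        obtain ⟨a, b, c, ha, hb, hc, hab, hac, hbc⟩ := Finset.two_lt_card_iff.mp hcard
        obtain ⟨ha1, ha2⟩ := Finset.mem_filter.mp ha
        obtain ⟨hb1, hb2⟩ := Finset.mem_filter.mp hb
        obtain ⟨hc1, hc2⟩ := Finset.mem_filter.mp hc
        rw [dif_pos (hHG a ha1)] at ha2
        rw [dif_pos (hHG b hb1)] at hb2
        rw [dif_pos (hHG c hc1)] at hc2
        have key : ∀ x y : GL (Fin 2) k, ∀ hx : x ∈ G, ∀ hy : y ∈ G,
            (QuotientGroup.mk (⟨x, hx⟩ : G) : G ⧸ scalars G) = QuotientGroup.mk (⟨y, hy⟩ : G) →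
            td x = td y → x ≠ y →
            (y : Matrix (Fin 2) (Fin 2) k) = -(x : Matrix (Fin 2) (Fin 2) k) := by
          intro x y hx hy hq htd hxy
          rw [QuotientGroup.eq] at hq
          obtain ⟨s, hs⟩ := hq
          have hs' : (x⁻¹ : GL (Fin 2) k).val * y.val = s • 1 := by
            rw [← Units.val_mul]; exact hs
          have hy' : y.val = s • x.val := by
            have h1 : x.val * ((x⁻¹ : GL (Fin 2) k).val * y.val) = y.val := by
              rw [← mul_assoc, ← Units.val_mul, mul_inv_cancel, Units.val_one, one_mul]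
            rw [← h1, hs', mul_smul_comm, mul_one]
          have hdet : (x : Matrix (Fin 2) (Fin 2) k).det = (y : Matrix (Fin 2) (Fin 2) k).det :=
            congrArg Prod.snd htd
          rw [hy', det_smul, Fintype.card_fin] at hdet
          have hx0 : (x : Matrix (Fin 2) (Fin 2) k).det ≠ 0 :=
            (isUnit_iff_ne_zero.mp ((Matrix.isUnit_iff_isUnit_det _).mp x.isUnit))
          have hs2 : (s - 1) * (s + 1) = 0 := by
            have : (s ^ 2 - 1) * (x : Matrix (Fin 2) (Fin 2) k).det = 0 := by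
              linear_combination -hdet
            have := (mul_eq_zero.mp this).resolve_right hx0
            linear_combination this
          rcases mul_eq_zero.mp hs2 with h | h
          · exfalso
            apply hxy
            apply Units.ext
            rw [hy', sub_eq_zero.mp h, one_smul]
          · rw [hy', eq_neg_of_add_eq_zero_left h, neg_smul, one_smul]
        have hq1 := (congrArg Prod.fst ha2).trans (congrArg Prod.fst hb2).symm
        have hq2 := (congrArg Prod.fst ha2).trans (congrArg Prod.fst hc2).symm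
        have ht1 := (congrArg Prod.snd ha2).trans (congrArg Prod.snd hb2).symm
        have ht2 := (congrArg Prod.snd ha2).trans (congrArg Prod.snd hc2).symm
        have e1 := key a b (hHG a ha1) (hHG b hb1) hq1 ht1 hab
        have e2 := key a c (hHG a ha1) (hHG c hc1) hq2 ht2 hac
        exact hbc (Units.ext (e1.trans e2.symm))
    rw [Finset.card_product] at hH2
    have h3 : (Finset.univ : Finset (G ⧸ scalars G)).card * T.card ≤ 60 * M :=
      Nat.mul_le_mul hq hTM
    omega

end Fermat.Agent.H85
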