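import Mathlib

/-!
Transfer of solutions of polynomial systems with algebraic integer coefficients from infinitely
many residue characteristics to characteristic zero, and the application to two-dimensional
representations of finite groups.
-/

namespace Fermat.Agent.H85

open MvPolynomial

universe u

section transfer

variable {O k' K : Type*} [CommRing O] [Field k'] [Algebra O k'] [Field K] [IsAlgClosed K]
  [Algebra k' K]

lemma exists_den {σ : Type*}
    (hden : ∀ x : k', ∃ m : ℤ, m ≠ 0 ∧ ∃ o : O, algebraMap O k' o = m * x)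
    (c : MvPolynomial σ k') :
    ∃ m : ℤ, m ≠ 0 ∧ ∃ c' : MvPolynomial σ O, map (algebraMap O k') c' = (m : MvPolynomial σ k') * c := by
  induction c using MvPolynomial.induction_on' with
  | monomial s a =>
    obtain ⟨m, hm, o, ho⟩ := hden a
    refine ⟨m, hm, monomial s o, ?_⟩
    rw [map_monomial, ho]
    have : (m : MvPolynomial σ k') = C (m : k') := by simp
    rw [this, C_mul_monomial]
  | add p q hp hq =>
    obtain ⟨m, hm, p', hp'⟩ := hp
    obtain ⟨n, hn, q', hq'⟩ := hq
    refine ⟨m * n, mul_ne_zero hm hn, (n : MvPolynomial σ O) * p' + (m : MvPolynomial σ O) * q', ?_⟩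
    rw [map_add, map_mul, map_mul, hp', hq']
    simp only [map_intCast]
    push_cast
    ring

/-- A system of polynomial equations over `O` (an order-like ring in a characteristic zero field)
which has solutions modulo infinitely many primes has a solution in characteristic zero. -/
theorem exists_point (hinj : Function.Injective (algebraMap O k')) [CharZero k']
    (hden : ∀ x : k', ∃ m : ℤ, m ≠ 0 ∧ ∃ o : O, algebraMap O k' o = m * x)
    {σ ι : Type*} [Finite σ] [Finite ι] (f : ι → MvPolynomial σ O) (S : Set ℕ) (hS : S.Infinite)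
    (hmod : ∀ ℓ ∈ S, ∃ (κ : Type u) (_ : Field κ) (φ : O →+* κ), CharP κ ℓ ∧
      ∃ x : σ → κ, ∀ i, eval₂ φ x (f i) = 0) :
    ∃ x : σ → K, ∀ i, eval₂ ((algebraMap k' K).comp (algebraMap O k')) x (f i) = 0 := by
  classical
  have := Fintype.ofFinite ι
  set I : Ideal (MvPolynomial σ k') := Ideal.span (Set.range fun i => map (algebraMap O k') (f i))
    with hI
  by_cases htop : I = ⊤
  · exfalso
    have h1 : (1 : MvPolynomial σ k') ∈ I := htop ▸ Submodule.mem_top
    rw [hI, Ideal.mem_span_range_iff_exists_fun] at h1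
    obtain ⟨c, hc⟩ := h1
    choose m hm c' hc' using fun i => exists_den hden (c i)
    set m0 : ℤ := ∏ i, m i with hm0
    have hm0' : m0 ≠ 0 := Finset.prod_ne_zero_iff.mpr fun i _ => hm i
    -- identity over O
    have hid : ∑ i, ((∏ j ∈ Finset.univ.erase i, m j : ℤ) : MvPolynomial σ O) * c' i * f i
        = (m0 : MvPolynomial σ O) := by
      apply map_injective _ hinj
      rw [map_sum]
      have : ∀ i, map (algebraMap O k')
          (((∏ j ∈ Finset.univ.erase i, m j : ℤ) : MvPolynomial σ O) * c' i * f i)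
          = (m0 : MvPolynomial σ k') * (c i * map (algebraMap O k') (f i)) := by
        intro i
        rw [map_mul, map_mul, hc', map_intCast, hm0,
          ← Finset.mul_prod_erase Finset.univ m (Finset.mem_univ i)]
        push_cast
        ring
      rw [Finset.sum_congr rfl fun i _ => this i, ← Finset.mul_sum, hc, mul_one, map_intCast]
    -- all ℓ ∈ S divide m0
    have hdvd : ∀ ℓ ∈ S, (ℓ : ℤ) ∣ m0 := by
      intro ℓ hℓ
      obtain ⟨κ, _, φ, hchar, x, hx⟩ := hmod ℓ hℓ
      have h2 := congrArg (eval₂ φ x) hid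
      rw [eval₂_sum] at h2
      rw [Finset.sum_eq_zero (fun i _ => by rw [eval₂_mul, hx i, mul_zero])] at h2
      have h3 : eval₂ φ x (m0 : MvPolynomial σ O) = (m0 : κ) := by
        have : (m0 : MvPolynomial σ O) = C (m0 : O) := by simp
        rw [this, eval₂_C, map_intCast]
      rw [h3] at h2
      exact (CharP.intCast_eq_zero_iff κ ℓ m0).mp h2.symm
    apply hS
    apply (Set.finite_Iic m0.natAbs).subset
    intro ℓ hℓ
    have := hdvd ℓ hℓ
    exact Nat.le_of_dvd (Int.natAbs_pos.mpr hm0') (by simpa using Int.natAbs_dvd_natAbs.mpr this)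
  · obtain ⟨M, hM, hIM⟩ := Ideal.exists_le_maximal I htop
    obtain ⟨x, hx⟩ := eq_vanishingIdeal_singleton_of_isMaximal K hM
    refine ⟨x, fun i => ?_⟩
    have h1 : map (algebraMap O k') (f i) ∈ M := hIM (Ideal.subset_span ⟨i, rfl⟩)
    rw [hx, mem_vanishingIdeal_singleton_iff] at h1
    rw [aeval_def, eval₂_map] at h1
    exact h1

end transfer

section rep

variable {O k' K : Type*} [CommRing O] [Field k'] [Algebra O k'] [Field K] [IsAlgClosed K]
  [Algebra k' K]

open Matrix

/-- Equations of the variety of two-dimensional representations with prescribed trace and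
determinant. -/
noncomputable def repEq (G : Type) [Group G] (t d : G → O) :
    ((G × G × Fin 2 × Fin 2) ⊕ ((Fin 2 × Fin 2) ⊕ (G ⊕ G))) →
      MvPolynomial (G × Fin 2 × Fin 2) O
  | Sum.inl (g, h, i, j) => X (g * h, i, j) - ∑ l : Fin 2, X (g, i, l) * X (h, l, j)
  | Sum.inr (Sum.inl (i, j)) => X (1, i, j) - C (if i = j then 1 else 0)
  | Sum.inr (Sum.inr (Sum.inl g)) => X (g, 0, 0) + X (g, 1, 1) - C (t g)
  | Sum.inr (Sum.inr (Sum.inr g)) =>
      X (g, 0, 0) * X (g, 1, 1) - X (g, 0, 1) * X (g, 1, 0) - C (d g)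

lemma repEq_of_rep (G : Type) [Group G] (t d : G → O) {κ : Type*} [Field κ] (φ : O →+* κ)
    (r : G →* GL (Fin 2) κ) (ht : ∀ g, (r g).val.trace = φ (t g))
    (hd : ∀ g, (r g).val.det = φ (d g)) (i) :
    eval₂ φ (fun x : G × Fin 2 × Fin 2 => (r x.1).val x.2.1 x.2.2) (repEq G t d i) = 0 := by
  rcases i with ⟨g, h, i, j⟩ | ⟨i, j⟩ | g | g
  · simp only [repEq, eval₂_sub, eval₂_X, map_mul, Units.val_mul, Matrix.mul_apply, eval₂_sum,
      eval₂_mul, sub_self]
  · simp only [repEq, eval₂_sub, eval₂_X, map_one, Units.val_one, eval₂_C, Matrix.one_apply]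
    split_ifs <;> simp
  · simp only [repEq, eval₂_sub, eval₂_add, eval₂_X, eval₂_C]
    rw [← ht, trace_fin_two, sub_self]
  · simp only [repEq, eval₂_sub, eval₂_mul, eval₂_X, eval₂_C]
    rw [← hd, det_fin_two, sub_self]

lemma rep_of_repEq (G : Type) [Group G] (t d : G → O) {κ : Type*} [Field κ] (φ : O →+* κ)
    (x : G × Fin 2 × Fin 2 → κ) (hx : ∀ i, eval₂ φ x (repEq G t d i) = 0) :
    ∃ r : G →* GL (Fin 2) κ, ∀ g, (r g).val.trace = φ (t g) ∧ (r g).val.det = φ (d g) := by
  let m : G →* Matrix (Fin 2) (Fin 2) κ :=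
    { toFun := fun g => Matrix.of fun i j => x (g, i, j)
      map_one' := by
        ext i j
        have := hx (Sum.inr (Sum.inl (i, j)))
        simp only [repEq, eval₂_sub, eval₂_X, eval₂_C] at this
        rw [Matrix.of_apply, sub_eq_zero.mp this, Matrix.one_apply]
        split_ifs <;> simp
      map_mul' := by
        intro g h
        ext i j
        have := hx (Sum.inl (g, h, i, j))
        simp only [repEq, eval₂_sub, eval₂_X, eval₂_sum, eval₂_mul] at this
        rw [Matrix.of_apply, sub_eq_zero.mp this, Matrix.mul_apply]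
        rfl }
  refine ⟨m.toHomUnits, fun g => ⟨?_, ?_⟩⟩
  · have := hx (Sum.inr (Sum.inr (Sum.inl g)))
    simp only [repEq, eval₂_sub, eval₂_add, eval₂_X, eval₂_C] at this
    rw [MonoidHom.coe_toHomUnits, ← sub_eq_zero.mp this, trace_fin_two]
    rfl
  · have := hx (Sum.inr (Sum.inr (Sum.inr g)))
    simp only [repEq, eval₂_sub, eval₂_mul, eval₂_X, eval₂_C] at this
    rw [MonoidHom.coe_toHomUnits, ← sub_eq_zero.mp this, det_fin_two]
    rfl

/-- **Lifting of two-dimensional representations**: if a finite group `G` has, in infinitely many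
characteristics, representations with trace and determinant the reductions of fixed algebraic
integers, then it has such a representation in characteristic zero. -/
theorem exists_rep (hinj : Function.Injective (algebraMap O k')) [CharZero k']
    (hden : ∀ x : k', ∃ m : ℤ, m ≠ 0 ∧ ∃ o : O, algebraMap O k' o = m * x)
    (G : Type) [Group G] [Finite G] (t d : G → O) (S : Set ℕ) (hS : S.Infinite)
    (hmod : ∀ ℓ ∈ S, ∃ (κ : Type u) (_ : Field κ) (φ : O →+* κ) (r : G →* GL (Fin 2) κ),
      CharP κ ℓ ∧ ∀ g, (r g).val.trace = φ (t g) ∧ (r g).val.det = φ (d g)) :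
    ∃ r : G →* GL (Fin 2) K, ∀ g,
      (r g).val.trace = algebraMap k' K (algebraMap O k' (t g)) ∧
      (r g).val.det = algebraMap k' K (algebraMap O k' (d g)) := by
  obtain ⟨x, hx⟩ := exists_point (K := K) hinj hden (repEq G t d) S hS (by
    intro ℓ hℓ
    obtain ⟨κ, hκ, φ, r, hchar, hr⟩ := hmod ℓ hℓ
    exact ⟨κ, hκ, φ, hchar, _, repEq_of_rep G t d φ r (fun g => (hr g).1) (fun g => (hr g).2)⟩)
  exact rep_of_repEq G t d _ x hx

end rep

end Fermat.Agent.H85
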