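import Mathlib
import Fermat.Agent.H85Group
import Fermat.Agent.H85Transfer

/-!
A family of two-dimensional representations with bounded image in infinitely many characteristics
comes from a single finite group representation in characteristic zero.
-/

namespace Fermat.Agent.H85

open Matrix

/-- The ring of all algebraic integers. -/
abbrev ZZ : Type := integralClosure ℤ ℂ

/-- inclusion of the algebraic integers in the algebraic numbers -/
noncomputable def toAlg : ZZ →+* algebraicClosure ℚ ℂ where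
  toFun x := ⟨x.1, by
    have h : IsIntegral ℤ (x.1 : ℂ) := x.2
    exact mem_algebraicClosure_iff.mpr (h.tower_top (A := ℚ)).isAlgebraic⟩
  map_one' := rfl
  map_mul' _ _ := rfl
  map_zero' := rfl
  map_add' _ _ := rfl

lemma toAlg_coe (x : ZZ) : ((toAlg x : algebraicClosure ℚ ℂ) : ℂ) = x.1 := rfl

lemma toAlg_injective : Function.Injective toAlg := by
  intro x y h
  apply Subtype.ext
  exact congrArg (fun z : algebraicClosure ℚ ℂ => (z : ℂ)) h

lemma toAlg_den (x : algebraicClosure ℚ ℂ) : ∃ m : ℤ, m ≠ 0 ∧ ∃ o : ZZ, toAlg o = m * x := by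
  have hx : IsAlgebraic ℚ (x : ℂ) := mem_algebraicClosure_iff.mp x.2
  have hx' : IsAlgebraic ℤ (x : ℂ) := (IsFractionRing.isAlgebraic_iff ℤ ℚ ℂ).mpr hx
  obtain ⟨m, hm, hint⟩ := hx'.exists_integral_multiple
  refine ⟨m, hm, ⟨m • (x : ℂ), hint⟩, ?_⟩
  apply Subtype.ext
  rw [toAlg_coe]
  simp

/-- Lifting to `ℂ`. -/
theorem exists_rep_complex
    (G : Type) [Group G] [Finite G] (t d : G → ZZ) (S : Set ℕ) (hS : S.Infinite)
    (hmod : ∀ ℓ ∈ S, ∃ (κ : Type) (_ : Field κ) (φ : ZZ →+* κ) (r : G →* GL (Fin 2) κ),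
      CharP κ ℓ ∧ ∀ g, (r g).val.trace = φ (t g) ∧ (r g).val.det = φ (d g)) :
    ∃ r : G →* GL (Fin 2) ℂ, ∀ g,
      (r g).val.trace = (t g : ℂ) ∧ (r g).val.det = (d g : ℂ) := by
  letI : Algebra ZZ (algebraicClosure ℚ ℂ) := toAlg.toAlgebra
  exact exists_rep (O := ZZ) (k' := algebraicClosure ℚ ℂ) (K := ℂ) toAlg_injective
    toAlg_den G t d S hS hmod

/-- roots of unity lift along any ring homomorphism from the algebraic integers to a field. -/
lemma exists_rootOfUnity {κ : Type*} [Field κ] (φ : ZZ →+* κ) (n : ℕ) (hn : 0 < n) (a : κ)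
    (ha : a ^ n = 1) : ∃ ζ : ZZ, ζ ^ n = 1 ∧ φ ζ = a := by
  have hprim := Complex.isPrimitiveRoot_exp n hn.ne'
  set z := Complex.exp (2 * Real.pi * Complex.I / n) with hz
  have hzint : IsIntegral ℤ z := hprim.isIntegral hn
  have hprim' : IsPrimitiveRoot (⟨z, hzint⟩ : ZZ) n :=
    IsPrimitiveRoot.of_map_of_injective (f := algebraMap ZZ ℂ) hprim Subtype.val_injective
  have h1 := Polynomial.X_pow_sub_one_eq_prod hn hprim'
  have h2 := congrArg (fun p => Polynomial.eval₂ φ a p) h1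
  simp only [Polynomial.eval₂_sub, Polynomial.eval₂_pow, Polynomial.eval₂_X, Polynomial.eval₂_one,
    ha, sub_self, Polynomial.eval₂_finsetProd, Polynomial.eval₂_C] at h2
  obtain ⟨ζ, hζ, hζ'⟩ := Finset.prod_eq_zero_iff.mp h2.symm
  refine ⟨ζ, ?_, (sub_eq_zero.mp hζ').symm⟩
  exact (Polynomial.mem_nthRootsFinset hn 1).mp hζ

lemma exists_trace_det {κ : Type*} [Field κ] [IsAlgClosed κ] (B : Matrix (Fin 2) (Fin 2) κ) (n : ℕ)
    (hB : B ^ n = 1) : ∃ a b : κ, a ^ n = 1 ∧ b ^ n = 1 ∧ B.trace = a + b ∧ B.det = a * b := by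
  classical
  obtain ⟨l, hl⟩ : ∃ l : κ, l * l - B.trace * l + B.det = 0 := by
    have hdeg : (Polynomial.C 1 * Polynomial.X ^ 2 + Polynomial.C (-B.trace) * Polynomial.X
        + Polynomial.C B.det : Polynomial κ).degree ≠ 0 := by
      rw [Polynomial.degree_quadratic one_ne_zero]; norm_num
    obtain ⟨l, hl⟩ := IsAlgClosed.exists_root _ hdeg
    refine ⟨l, ?_⟩
    simp [Polynomial.IsRoot] at hl
    linear_combination hl
  set μ := B.trace - l with hμ
  have hμ' : μ * μ - B.trace * μ + B.det = 0 := by rw [hμ]; linear_combination hl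
  have hev : ∀ c : κ, c * c - B.trace * c + B.det = 0 → c ^ n = 1 := by
    intro c hc
    have hdet : (B - c • (1 : Matrix (Fin 2) (Fin 2) κ)).det = 0 := by
      rw [det_fin_two]
      rw [trace_fin_two, det_fin_two] at hc
      simp
      linear_combination hc
    obtain ⟨v, hv, hv0⟩ := Matrix.exists_mulVec_eq_zero_iff.mpr hdet
    rw [sub_mulVec, smul_mulVec, one_mulVec, sub_eq_zero] at hv0
    have hpow : ∀ m : ℕ, (B ^ m) *ᵥ v = c ^ m • v := by
      intro m
      induction m with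
      | zero => simp
      | succ m ih => rw [pow_succ, ← mulVec_mulVec, hv0, mulVec_smul, ih, smul_smul, pow_succ, mul_comm]
    have h1 := hpow n
    rw [hB, one_mulVec] at h1
    have h2 : (c ^ n - 1) • v = 0 := by rw [sub_smul, one_smul, ← h1, sub_self]
    rcases smul_eq_zero.mp h2 with h | h
    · exact sub_eq_zero.mp h
    · exact absurd h hv
  refine ⟨l, μ, hev l hl, hev μ hμ', by rw [hμ]; ring, ?_⟩
  rw [hμ]; linear_combination hl

/-- every finite group of order at most `A` embeds in `Perm (Fin A)`. -/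
lemma exists_embed (G : Type*) [Group G] [Finite G] (A : ℕ) (hA : Nat.card G ≤ A) :
    ∃ e : G →* Equiv.Perm (Fin A), Function.Injective e := by
  classical
  have := Fintype.ofFinite G
  have h1 : Fintype.card G ≤ Fintype.card (Fin A) := by
    rw [Fintype.card_fin, ← Nat.card_eq_fintype_card]; exact hA
  obtain ⟨ι⟩ := Function.Embedding.nonempty_of_card_le h1
  refine ⟨(Equiv.Perm.viaEmbeddingHom ι).comp (MulAction.toPermHom G G), ?_⟩
  rw [MonoidHom.coe_comp]
  exact (Equiv.Perm.viaEmbeddingHom_injective ι).comp MulAction.toPerm_injective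

/-- A family of representations with bounded image. -/
theorem exists_common {Γ : Type*} [Group Γ] (A : ℕ) (S : Set ℕ) (hS : S.Infinite)
    (κ : S → Type) [∀ s, Field (κ s)] [∀ s, IsAlgClosed (κ s)] [hchar : ∀ s : S, CharP (κ s) s]
    (φ : ∀ s : S, ZZ →+* κ s) (ρ : ∀ s : S, Γ →* GL (Fin 2) (κ s))
    (hfin : ∀ s, Finite (ρ s).range) (hA : ∀ s, Nat.card (ρ s).range ≤ A) :
    ∃ (Q : Type) (_ : Group Q) (_ : Finite Q) (t d : Q → ZZ) (R : Q →* GL (Fin 2) ℂ)
      (S' : Set S), S'.Infinite ∧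
      (∀ g, (R g).val.trace = (t g : ℂ) ∧ (R g).val.det = (d g : ℂ)) ∧
      ∀ s ∈ S', ∃ π : Γ →* Q, Function.Surjective π ∧ (∀ σ, π σ = 1 ↔ ρ s σ = 1) ∧
        ∀ σ, (ρ s σ).val.trace = φ s (t (π σ)) ∧ (ρ s σ).val.det = φ s (d (π σ)) := by
  classical
  set n := A.factorial with hn
  have hnpos : 0 < n := Nat.factorial_pos A
  have : NeZero n := ⟨hnpos.ne'⟩
  choose e he using fun s => exists_embed (ρ s).range A (hA s)
  -- the homomorphism to Perm
  let pr : ∀ s, Γ →* Equiv.Perm (Fin A) := fun s => (e s).comp (ρ s).rangeRestrict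
  have hpr1 : ∀ s σ, pr s σ = 1 ↔ ρ s σ = 1 := by
    intro s σ
    constructor
    · intro h
      have h1 : e s ((ρ s).rangeRestrict σ) = e s 1 := by rw [map_one]; exact h
      have h2 := he s h1
      exact congrArg Subtype.val h2
    · intro h
      have h2 : (ρ s).rangeRestrict σ = 1 := Subtype.ext h
      show e s ((ρ s).rangeRestrict σ) = 1
      rw [h2, map_one]
  have hpreq : ∀ s σ τ, pr s σ = pr s τ → ρ s σ = ρ s τ := by
    intro s σ τ h
    have h1 : pr s (σ * τ⁻¹) = 1 := by rw [map_mul, map_inv, h, mul_inv_cancel]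
    rw [hpr1, map_mul, map_inv, mul_inv_eq_one] at h1
    exact h1
  -- eigenvalues
  let U := rootsOfUnity n ZZ
  have hlift : ∀ s σ, ∃ ab : U × U,
      (ρ s σ).val.trace = φ s ((ab.1 : ZZˣ) + (ab.2 : ZZˣ)) ∧
      (ρ s σ).val.det = φ s ((ab.1 : ZZˣ) * (ab.2 : ZZˣ)) := by
    intro s σ
    have hpow : (ρ s σ).val ^ n = 1 := by
      have h1 : ((ρ s).rangeRestrict σ) ^ (Nat.card (ρ s).range) = 1 := pow_card_eq_one'
      have h2 : Nat.card (ρ s).range ∣ n :=
        Nat.dvd_factorial Nat.card_pos (hA s)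
      obtain ⟨c, hc⟩ := h2
      have h3 : ((ρ s).rangeRestrict σ) ^ n = 1 := by rw [hc, pow_mul, h1, one_pow]
      have h4 : (ρ s σ) ^ n = 1 := congrArg Subtype.val h3
      rw [← Units.val_pow_eq_pow_val, h4, Units.val_one]
    obtain ⟨a, b, ha, hb, htr, hdet⟩ := exists_trace_det _ n hpow
    obtain ⟨α, hα, hα'⟩ := exists_rootOfUnity (φ s) n hnpos a ha
    obtain ⟨β, hβ, hβ'⟩ := exists_rootOfUnity (φ s) n hnpos b hb
    refine ⟨(rootsOfUnity.mkOfPowEq α hα, rootsOfUnity.mkOfPowEq β hβ), ?_, ?_⟩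
    · rw [htr, map_add]
      simp [hα', hβ']
    · rw [hdet, map_mul]
      simp [hα', hβ']
  choose ab hab using hlift
  -- the data to which we apply the pigeonhole principle
  let F : S → Subgroup (Equiv.Perm (Fin A)) × (Equiv.Perm (Fin A) → U × U) := fun s =>
    ((pr s).range, fun g => if h : ∃ σ, pr s σ = g then ab s h.choose else (1, 1))
  have : Infinite S := hS.to_subtype
  obtain ⟨⟨Q, v⟩, hy⟩ := Finite.exists_infinite_fiber F
  set S' : Set S := F ⁻¹' {(Q, v)} with hS'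
  have hS'inf : S'.Infinite := Set.infinite_coe_iff.mp hy
  let t : Q → ZZ := fun g => ((v g).1 : ZZˣ) + ((v g).2 : ZZˣ)
  let d : Q → ZZ := fun g => ((v g).1 : ZZˣ) * ((v g).2 : ZZˣ)
  have hmain : ∀ s ∈ S', ∃ π : Γ →* Q, Function.Surjective π ∧ (∀ σ, π σ = 1 ↔ ρ s σ = 1) ∧
        ∀ σ, (ρ s σ).val.trace = φ s (t (π σ)) ∧ (ρ s σ).val.det = φ s (d (π σ)) := by
    intro s hs
    have hF : F s = (Q, v) := hs
    have hQ : (pr s).range = Q := congrArg Prod.fst hF
    have hv : (fun g => if h : ∃ σ, pr s σ = g then ab s h.choose else (1, 1)) = v :=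
      congrArg Prod.snd hF
    subst hQ
    refine ⟨(pr s).rangeRestrict, (pr s).rangeRestrict_surjective, ?_, ?_⟩
    · intro σ
      rw [← hpr1]
      constructor
      · intro h; exact congrArg Subtype.val h
      · intro h; exact Subtype.ext h
    · intro σ
      have hex : ∃ τ, pr s τ = pr s σ := ⟨σ, rfl⟩
      have h1 : v (pr s σ) = ab s hex.choose := by
        rw [← hv]
        simp only
        rw [dif_pos hex]
      have h2 : ρ s hex.choose = ρ s σ := hpreq s _ _ hex.choose_spec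
      have h3 := hab s hex.choose
      rw [h2] at h3
      have ht : t ((pr s).rangeRestrict σ) = ((v (pr s σ)).1 : ZZˣ) + ((v (pr s σ)).2 : ZZˣ) := rfl
      have hd : d ((pr s).rangeRestrict σ) = ((v (pr s σ)).1 : ZZˣ) * ((v (pr s σ)).2 : ZZˣ) := rfl
      rw [ht, hd, h1]
      exact h3
  obtain ⟨R, hR⟩ := exists_rep_complex Q t d (Subtype.val '' S')
    (hS'inf.image Subtype.val_injective.injOn) (by
      rintro ℓ ⟨s, hs, rfl⟩
      obtain ⟨π, hπ, hπ1, hπ2⟩ := hmain s hs
      have hker : π.ker ≤ (ρ s).ker := by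
        intro σ hσ
        rw [MonoidHom.mem_ker] at hσ ⊢
        exact (hπ1 σ).mp hσ
      let r : Q →* GL (Fin 2) (κ s) := π.liftOfSurjective hπ ⟨ρ s, hker⟩
      have hr : ∀ σ, r (π σ) = ρ s σ := fun σ => by
        have := MonoidHom.liftOfRightInverse_comp_apply π _ (Function.rightInverse_surjInv hπ)
          ⟨ρ s, hker⟩ σ
        exact this
      refine ⟨κ s, inferInstance, φ s, r, hchar s, fun g => ?_⟩
      obtain ⟨σ, rfl⟩ := hπ g
      rw [hr]
      exact hπ2 σ)
  exact ⟨Q, inferInstance, inferInstance, t, d, R, S', hS'inf, hR, hmain⟩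

end Fermat.Agent.H85
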