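import Mathlib
import Fermat.Agent.H85LogDens
import Fermat.Agent.H82Galois
import Fermat.Agent.H85Transfer
import Fermat.Agent.H85Pigeon

/-!
Infinitely many primes split off a degree one factor in a given number field, and the
resulting residue homomorphisms of the ring of all algebraic integers.
-/

namespace Fermat.Agent.H85

open NumberField Filter Topology

open Fermat.Agent.H99 (dsum HasLogDensity)

lemma hasLogDensity_unique {c : Nat.Primes → ℝ} {δ δ' : ℝ} (h : HasLogDensity c δ)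
    (h' : HasLogDensity c δ') : δ = δ' :=
  tendsto_nhds_unique h.2 h'.2

theorem infinite_split (K : Type) [Field K] [NumberField K] :
    {ℓ : ℕ | ℓ.Prime ∧ Nonempty (𝓞 K →+* ZMod ℓ)}.Infinite := by
  intro hfin
  have h1 : HasLogDensity (fun p : Nat.Primes =>
      (Nat.card {I : Ideal (𝓞 K) // Ideal.absNorm I = (p : ℕ)} : ℝ)) 1 :=
    ⟨fun s hs => H99.summable_primeCount K hs, H99.tendsto_primeCount K⟩
  have h2 : HasLogDensity (fun p : Nat.Primes =>
      (Nat.card {I : Ideal (𝓞 K) // Ideal.absNorm I = (p : ℕ)} : ℝ)) 0 := by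
    apply H99.hasLogDensity_of_finite
    refine Set.Finite.subset (Set.Finite.preimage (Subtype.val_injective.injOn) hfin) ?_
    intro p hp
    have hne : Nat.card {I : Ideal (𝓞 K) // Ideal.absNorm I = (p : ℕ)} ≠ 0 := by
      intro h0
      exact hp (by simp [h0])
    have : Nonempty {I : Ideal (𝓞 K) // Ideal.absNorm I = (p : ℕ)} := by
      by_contra hcon
      rw [not_nonempty_iff] at hcon
      exact hne Nat.card_of_isEmpty
    obtain ⟨I⟩ := this
    have hf : Fact (p : ℕ).Prime := ⟨p.2⟩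
    exact ⟨p.2, ⟨(H82.idealEquiv (p := p) K).symm I⟩⟩
  exact one_ne_zero (hasLogDensity_unique h1 h2)

/-- the inclusion of the ring of integers of a subfield of `ℂ` -/
noncomputable def inclZZ (E : IntermediateField ℚ ℂ) : 𝓞 E →+* ZZ where
  toFun x := ⟨((x : E) : ℂ), (RingOfIntegers.isIntegral_coe x).map (E.val.toRingHom.toIntAlgHom)⟩
  map_one' := rfl
  map_mul' _ _ := rfl
  map_zero' := rfl
  map_add' _ _ := rfl

lemma inclZZ_coe (E : IntermediateField ℚ ℂ) (x : 𝓞 E) : ((inclZZ E x : ZZ) : ℂ) = ((x : E) : ℂ) :=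
  rfl

lemma inclZZ_injective (E : IntermediateField ℚ ℂ) : Function.Injective (inclZZ E) := by
  intro x y h
  have h1 : ((x : E) : ℂ) = ((y : E) : ℂ) := congrArg (Subtype.val : ZZ → ℂ) h
  exact RingOfIntegers.ext (Subtype.ext h1)

lemma exists_inclZZ (E : IntermediateField ℚ ℂ) (x : ZZ) (hx : (x : ℂ) ∈ E) :
    ∃ y : 𝓞 E, inclZZ E y = x := by
  have hint : IsIntegral ℤ (⟨(x : ℂ), hx⟩ : E) := by
    have h1 : IsIntegral ℤ ((⟨(x : ℂ), hx⟩ : E) : ℂ) := x.2
    exact (isIntegral_algHom_iff (E.val.toRingHom.toIntAlgHom) Subtype.val_injective).mp h1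
  exact ⟨⟨⟨(x : ℂ), hx⟩, hint⟩, Subtype.ext rfl⟩

/-- residue homomorphisms of the ring of algebraic integers which map a given number field into
the prime field, for infinitely many primes -/
theorem exists_residue (E : IntermediateField ℚ ℂ) [FiniteDimensional ℚ E] :
    ∃ S : Set ℕ, S.Infinite ∧ ∀ ℓ ∈ S, ∃ _ : Fact ℓ.Prime,
      ∃ φ : ZZ →+* AlgebraicClosure (ZMod ℓ), ∀ x : ZZ, (x : ℂ) ∈ E → ∃ n : ℤ, φ x = n := by
  have hnf : NumberField E := ⟨⟩
  refine ⟨_, infinite_split E, ?_⟩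
  rintro ℓ ⟨hℓ, ⟨φ0⟩⟩
  have hf : Fact ℓ.Prime := ⟨hℓ⟩
  let _ : Algebra (𝓞 E) ZZ := (inclZZ E).toAlgebra
  have hint : Algebra.IsIntegral (𝓞 E) ZZ := by
    refine ⟨fun x => ?_⟩
    have h1 : IsIntegral ℤ x := by
      have := integralClosure.AlgebraIsIntegral (R := ℤ) (A := ℂ)
      exact this.isIntegral x
    exact h1.tower_top
  obtain ⟨ψ, hψ⟩ := H82.exists_extension (A := 𝓞 E) (B := ZZ) (Ω := AlgebraicClosure (ZMod ℓ))
    (inclZZ_injective E) ((algebraMap (ZMod ℓ) (AlgebraicClosure (ZMod ℓ))).comp φ0)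
  refine ⟨hf, ψ, fun x hx => ?_⟩
  obtain ⟨y, rfl⟩ := exists_inclZZ E x hx
  refine ⟨((φ0 y).val : ℤ), ?_⟩
  have h1 := hψ y
  have h2 : algebraMap (𝓞 E) ZZ y = inclZZ E y := rfl
  rw [h2] at h1
  have h3 : (((φ0 y).val : ℕ) : ZMod ℓ) = φ0 y := ZMod.natCast_zmod_val _
  rw [h1, RingHom.comp_apply, Int.cast_natCast,
    ← map_natCast (algebraMap (ZMod ℓ) (AlgebraicClosure (ZMod ℓ))), h3]

end Fermat.Agent.H85
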