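import Mathlib
import Fermat.Agent.H85Split
import Fermat.Agent.H85Extend

/-!
Outside a set of primes of small density the Hecke eigenvalues lie in a finite set.
-/

namespace Fermat.Agent.H85

open NumberField Filter Topology

open Fermat.Agent.H99 (dsum HasLogDensity)

open scoped Classical in
/-- indicator function of a set of primes -/
noncomputable def ind (X : Set Nat.Primes) (p : Nat.Primes) : ℝ := if p ∈ X then 1 else 0

lemma ind_nonneg (X : Set Nat.Primes) (p : Nat.Primes) : 0 ≤ ind X p := by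
  unfold ind; split_ifs <;> norm_num

lemma abs_ind_le (X : Set Nat.Primes) (p : Nat.Primes) : |ind X p| ≤ 1 := by
  unfold ind; split_ifs <;> norm_num

lemma density_le {c d : Nat.Primes → ℝ} {δ δ' : ℝ} (h : HasLogDensity c δ) (h' : ULD d δ')
    (S : Finset ℕ) (hle : ∀ p : Nat.Primes, (p : ℕ) ∉ S → c p ≤ d p) : δ ≤ δ' := by
  classical
  let d' : Nat.Primes → ℝ := fun p => if (p : ℕ) ∈ S then c p else d p
  have hd' : ULD d' δ' := h'.congr_off S (d := d') fun p hp => if_neg hp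
  have hcd : ∀ p, c p ≤ d' p := by
    intro p
    by_cases hp : (p : ℕ) ∈ S
    · simp only [d', if_pos hp]; exact le_rfl
    · simp only [d', if_neg hp]; exact hle p hp
  apply le_of_forall_pos_le_add
  intro ε hε
  apply le_of_tendsto h.2
  filter_upwards [hd'.2 ε hε, eventually_log_pos, self_mem_nhdsWithin] with s h1 h2 hs
  rw [div_le_iff₀ h2]
  exact (dsum_mono hcd (h.1 s hs) (hd'.1 s hs)).trans h1

/-- finitely many roots of unity of bounded order -/
lemma finite_rou (n : ℕ) (hn : 0 < n) : {x : ZZ | x ^ n = 1}.Finite := by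
  classical
  refine ((Polynomial.nthRoots n (1 : ZZ)).toFinset.finite_toSet).subset ?_
  intro x hx
  simpa [Polynomial.mem_nthRoots hn] using hx

/-- finitely many algebraic integers of a number field with bounded conjugates -/
lemma finite_bounded (E : IntermediateField ℚ ℂ) [FiniteDimensional ℚ E] (c : ℝ) :
    {x : ZZ | ∃ y : 𝓞 E, inclZZ E y = x ∧ ∀ τ : E →+* ℂ, ‖τ (y : E)‖ ≤ c}.Finite := by
  have hnf : NumberField E := ⟨⟩
  have h1 := NumberField.Embeddings.finite_of_norm_le E ℂ c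
  have h2 : {y : 𝓞 E | ∀ τ : E →+* ℂ, ‖τ (y : E)‖ ≤ c}.Finite := by
    apply Set.Finite.of_finite_image (f := fun y : 𝓞 E => (y : E)) _
      (fun _ _ _ _ h => RingOfIntegers.ext h)
    refine h1.subset ?_
    rintro _ ⟨y, hy, rfl⟩
    exact ⟨y.isIntegral_coe, hy⟩
  refine (h2.image (inclZZ E)).subset ?_
  rintro x ⟨y, rfl, hy⟩
  exact ⟨y, hy, rfl⟩

theorem exists_good (N : ℕ) (a e : ℕ → ZZ)
    (E : IntermediateField ℚ ℂ) [FiniteDimensional ℚ E]
    (haE : ∀ p : ℕ, p.Prime → ¬ p ∣ N → (a p : ℂ) ∈ E)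
    (n : ℕ) (hn : 0 < n) (he : ∀ p : ℕ, p.Prime → ¬ p ∣ N → e p ^ n = 1)
    (hA2 : ∀ σ : ℂ →+* ℂ, ∀ c : ℝ, 0 < c →
      ULD (fun p : Nat.Primes => if (p : ℕ) ∣ N then 0 else min (‖σ (a p)‖ ^ 2) c) 1)
    (δ : ℝ) (hδ : 0 < δ) :
    ∃ (T : Finset (ZZ × ZZ)) (X : Set Nat.Primes), ULD (ind X) δ ∧
      ∀ p : Nat.Primes, ¬ (p : ℕ) ∣ N → p ∉ X → (a p, e p) ∈ T := by
  classical
  have hnf : NumberField E := ⟨⟩
  have hne : Nonempty (E →ₐ[ℚ] ℂ) := ⟨E.val⟩
  set r : ℝ := (Fintype.card (E →ₐ[ℚ] ℂ) : ℝ) with hr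
  have hrpos : 0 < r := by
    rw [hr]; exact_mod_cast Fintype.card_pos
  set c : ℝ := r / δ with hc
  have hcpos : 0 < c := by positivity
  let b : (E →ₐ[ℚ] ℂ) → Nat.Primes → ℝ := fun τ p =>
    if h : (p : ℕ) ∣ N then 0 else min (‖τ ⟨(a p : ℂ), haE p p.2 h⟩‖ ^ 2) c
  have hb : ∀ τ, ULD (b τ) 1 := by
    intro τ
    obtain ⟨σ, hσ⟩ := exists_extend_embedding E τ
    have h1 := hA2 σ c hcpos
    have h2 : (fun p : Nat.Primes => if (p : ℕ) ∣ N then 0 else min (‖σ (a p)‖ ^ 2) c) = b τ := by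
      funext p
      by_cases h : (p : ℕ) ∣ N
      · simp only [b, dif_pos h, if_pos h]
      · simp only [b, dif_neg h, if_neg h]
        rw [← hσ]
    rwa [h2] at h1
  have hbnn : ∀ τ p, 0 ≤ b τ p := by
    intro τ p
    by_cases h : (p : ℕ) ∣ N
    · simp only [b, dif_pos h]; exact le_rfl
    · simp only [b, dif_neg h]; positivity
  let X : Set Nat.Primes := {p | ∃ τ, b τ p = c}
  have hsum := ULD.sum (Finset.univ : Finset (E →ₐ[ℚ] ℂ)) (fun τ _ => hb τ)
  have hsum' := hsum.const_mul (a := 1 / c) (by positivity)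
  have hX : ULD (ind X) δ := by
    have h1 : (1 / c) * ∑ _τ : E →ₐ[ℚ] ℂ, (1 : ℝ) = δ := by
      rw [Finset.sum_const, Finset.card_univ, nsmul_eq_mul, mul_one, ← hr, hc]
      field_simp
    rw [h1] at hsum'
    refine hsum'.mono (fun p => ?_) (fun s hs => summable_of_bdd 1 (abs_ind_le X) hs)
    unfold ind
    split_ifs with h
    · obtain ⟨τ, hτ⟩ := h
      rw [one_div, le_inv_mul_iff₀ hcpos, mul_one, ← hτ]
      exact Finset.single_le_sum (f := fun τ => b τ p) (fun i _ => hbnn i p) (Finset.mem_univ τ)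
    · exact mul_nonneg (by positivity) (Finset.sum_nonneg fun i _ => hbnn i p)
  let T : Finset (ZZ × ZZ) := (finite_bounded E (Real.sqrt c)).toFinset ×ˢ (finite_rou n hn).toFinset
  refine ⟨T, X, hX, fun p hp hpX => ?_⟩
  rw [Finset.mem_product, Set.Finite.mem_toFinset, Set.Finite.mem_toFinset]
  refine ⟨?_, he p p.2 hp⟩
  obtain ⟨y, hy⟩ := exists_inclZZ E (a p) (haE p p.2 hp)
  refine ⟨y, hy, fun τ => ?_⟩
  have hyE : (y : E) = ⟨(a p : ℂ), haE p p.2 hp⟩ := Subtype.ext (congrArg (Subtype.val : ZZ → ℂ) hy)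
  let τ' : E →ₐ[ℚ] ℂ := RingHom.toRatAlgHom τ
  have h1 : b τ' p ≠ c := fun h => hpX ⟨τ', h⟩
  have h2 : b τ' p = min (‖τ (y : E)‖ ^ 2) c := by
    simp only [b, dif_neg hp]
    rw [← hyE]
    rfl
  rw [h2] at h1
  have h3 : ‖τ (y : E)‖ ^ 2 < c := by
    by_contra hcon
    exact h1 (min_eq_right (not_lt.mp hcon))
  exact Real.le_sqrt_of_sq_le h3.le

end Fermat.Agent.H85
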