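import Mathlib
import Fermat.Prelude.Def_GaloisRep_Residual
import Fermat.Agent.H85Pigeon
import Fermat.Agent.H86DensityRep
import Fermat.Agent.H86DensityFinal
import Fermat.Agent.H70Frob

/-!
Gluing mod `ℓ` representations with bounded image into a complex representation
(Deligne–Serre, §8).
-/

namespace Fermat.Agent.H85

open Matrix

local notation "Γℚ" => (AlgebraicClosure ℚ ≃ₐ[ℚ] AlgebraicClosure ℚ)
local notation "Qb" => AlgebraicClosure ℚ

/-- A mod `ℓ` representation with Frobenius data `(a, e)` outside `N ℓ`. -/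
structure IsModRep (N : ℕ) (a e : ℕ → ZZ) (ℓ : ℕ) {κ : Type} [Field κ] (φ : ZZ →+* κ)
    (ρ : Γℚ →* GL (Fin 2) κ) : Prop where
  level : GaloisFactorsThroughFiniteLevel ρ
  unram : ∀ p : ℕ, p.Prime → ¬ p ∣ N → p ≠ ℓ → ∀ A : ValuationSubring Qb, A.LiesOverPrime p →
    ∀ σ ∈ A.inertiaSubgroupIn ℚ, ρ σ = 1
  frob : ∀ p : ℕ, p.Prime → ¬ p ∣ N → p ≠ ℓ → ∀ A : ValuationSubring Qb, A.LiesOverPrime p →
    ∀ σ : Γℚ, A.IsFrobeniusAt σ p →
      (ρ σ).val.trace = φ (a p) ∧ (ρ σ).val.det = φ (e p)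

/-- a nonzero algebraic integer vanishes in only finitely many characteristics -/
lemma finite_zeros (S : Set ℕ) (κ : S → Type) [∀ s, Field (κ s)] [hchar : ∀ s : S, CharP (κ s) s]
    (φ : ∀ s : S, ZZ →+* κ s) (x : ZZ) (hx : x ≠ 0) : {s : S | φ s x = 0}.Finite := by
  have hint : IsIntegral ℤ x := by
    have := integralClosure.AlgebraIsIntegral (R := ℤ) (A := ℂ)
    exact this.isIntegral x
  have h1 := Ideal.comap_ne_bot_of_integral_mem (I := Ideal.span {x}) hx
    (Ideal.mem_span_singleton_self x) hint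
  obtain ⟨m, hm, hm0⟩ := Submodule.exists_mem_ne_zero_of_ne_bot h1
  rw [Ideal.mem_comap, Ideal.mem_span_singleton] at hm
  obtain ⟨y, hy⟩ := hm
  apply Set.Finite.of_finite_image (f := Subtype.val) _ Subtype.val_injective.injOn
  apply (Set.finite_Iic m.natAbs).subset
  rintro _ ⟨s, hs, rfl⟩
  have h2 : ((m : ℤ) : κ s) = 0 := by
    have h3 := congrArg (φ s) hy
    rw [map_mul, hs, zero_mul] at h3
    rw [← h3]
    simp
  have h4 := (CharP.intCast_eq_zero_iff (κ s) s m).mp h2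
  exact Nat.le_of_dvd (Int.natAbs_pos.mpr hm0) (by simpa using Int.natAbs_dvd_natAbs.mpr h4)

lemma trace_pow_congr {κ : Type*} [Field κ] (B C : Matrix (Fin 2) (Fin 2) κ)
    (h1 : B.trace = C.trace) (h2 : B.det = C.det) (j : ℕ) : (B ^ j).trace = (C ^ j).trace := by
  induction j using Nat.twoStepInduction with
  | zero => simp
  | one => simpa using h1
  | more n ih1 ih2 =>
    have key : ∀ D : Matrix (Fin 2) (Fin 2) κ,
        (D ^ (n + 2)).trace = D.trace * (D ^ (n + 1)).trace - D.det * (D ^ n).trace := by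
      intro D
      have h := ch D
      have h3 : D * D = D.trace • D - D.det • (1 : Matrix (Fin 2) (Fin 2) κ) := by
        rw [← sub_eq_zero, ← h]; abel
      have h4 : D ^ (n + 2) = D ^ n * (D * D) := by rw [pow_add, pow_two]
      rw [h4, h3, mul_sub, mul_smul_comm, mul_smul_comm, mul_one, trace_sub, trace_smul, trace_smul,
        smul_eq_mul, smul_eq_mul, ← pow_succ]
    rw [key B, key C, ih1, ih2, h1, h2]

lemma level_comp {M M' : Type} [Monoid M] [Monoid M'] {ρ : Γℚ →* M}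
    (h : GaloisFactorsThroughFiniteLevel ρ) (ρ' : Γℚ →* M') (hker : ∀ σ, ρ σ = 1 → ρ' σ = 1) :
    GaloisFactorsThroughFiniteLevel ρ' := by
  obtain ⟨L, hL, h1⟩ := h
  exact ⟨L, hL, fun σ hσ => hker σ (h1 σ hσ)⟩

/-- Two finite level complex (or other) representations with the same Frobenius trace and
determinant outside a finite set of primes have the same trace and determinant everywhere. -/
theorem trace_det_congr {κ : Type} [Field κ] (ρ ρ' : Γℚ →* GL (Fin 2) κ)
    (h : GaloisFactorsThroughFiniteLevel ρ) (h' : GaloisFactorsThroughFiniteLevel ρ')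
    (S : Finset ℕ)
    (hfr : ∀ p : ℕ, p.Prime → p ∉ S → ∀ A : ValuationSubring Qb, A.LiesOverPrime p →
      ∀ σ : Γℚ, A.IsFrobeniusAt σ p → (ρ σ).val.trace = (ρ' σ).val.trace ∧
        (ρ σ).val.det = (ρ' σ).val.det) (σ : Γℚ) :
    (ρ σ).val.trace = (ρ' σ).val.trace ∧ (ρ σ).val.det = (ρ' σ).val.det := by
  obtain ⟨L, hL, hL1⟩ := h
  obtain ⟨L', hL', hL1'⟩ := h'
  have : FiniteDimensional ℚ (L ⊔ L' : IntermediateField ℚ Qb) :=
    IntermediateField.finiteDimensional_sup L L'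
  obtain ⟨p, hp, hpS, A, hA, τ, hτ, j, -, hj, -⟩ :=
    H86.frobenius_density H86.frobDensityFinite (L ⊔ L' : IntermediateField ℚ Qb) σ S
  have e1 : ρ σ = ρ (τ ^ j) := H86.map_eq_of_forall_mem (ρ := ρ) hL1
    (fun x hx => hj x ((le_sup_left : L ≤ L ⊔ L') hx))
  have e2 : ρ' σ = ρ' (τ ^ j) := H86.map_eq_of_forall_mem (ρ := ρ') hL1'
    (fun x hx => hj x ((le_sup_right : L' ≤ L ⊔ L') hx))
  obtain ⟨htr, hdet⟩ := hfr p hp hpS A hA τ hτ
  rw [e1, e2, map_pow, map_pow, Units.val_pow_eq_pow_val, Units.val_pow_eq_pow_val]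
  exact ⟨trace_pow_congr _ _ htr hdet j, by rw [det_pow, det_pow, hdet]⟩

/-- **Gluing theorem.** -/
theorem glue (N : ℕ) (hN0 : N ≠ 0) (a e : ℕ → ZZ) (B : ℕ) (S : Set ℕ) (hS : S.Infinite)
    (κ : S → Type) [∀ s, Field (κ s)] [∀ s, IsAlgClosed (κ s)] [hchar : ∀ s : S, CharP (κ s) s]
    (φ : ∀ s : S, ZZ →+* κ s) (ρ : ∀ s : S, Γℚ →* GL (Fin 2) (κ s))
    (hρ : ∀ s : S, IsModRep N a e s (φ s) (ρ s))
    (hfin : ∀ s, Finite (ρ s).range) (hB : ∀ s, Nat.card (ρ s).range ≤ B) :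
    ∃ ρ : Γℚ →* GL (Fin 2) ℂ, GaloisFactorsThroughFiniteLevel ρ ∧
      ∀ p : ℕ, p.Prime → ¬ p ∣ N →
        ∀ A : ValuationSubring Qb, A.LiesOverPrime p →
          (∀ σ ∈ A.inertiaSubgroupIn ℚ, ρ σ = 1) ∧
          ∀ σ : Γℚ, A.IsFrobeniusAt σ p →
            ((ρ σ : GL (Fin 2) ℂ) : Matrix (Fin 2) (Fin 2) ℂ).trace = (a p : ℂ) ∧
            ((ρ σ : GL (Fin 2) ℂ) : Matrix (Fin 2) (Fin 2) ℂ).det = (e p : ℂ) := by
  classical
  obtain ⟨Q, _, _, t, d, R, S', hS', hR, hmain⟩ := exists_common B S hS κ φ ρ hfin hB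
  choose! π hπs hπ1 hπ using hmain
  have hZ := finite_zeros S κ φ
  -- Step 1
  have step1 : ∀ p : ℕ, p.Prime → ¬ p ∣ N → ∃ g : Q, a p = t g ∧ e p = d g := by
    intro p hp hpN
    obtain ⟨A, σ, hA, hσ⟩ := H70.exists_place_frobenius hp
    have h1 : ∀ s ∈ S', (s : ℕ) ≠ p → ∃ g : Q, φ s (a p - t g) = 0 ∧ φ s (e p - d g) = 0 := by
      intro s hs hsp
      refine ⟨π s σ, ?_⟩
      obtain ⟨h1, h2⟩ := (hρ s).frob p hp hpN (Ne.symm hsp) A hA σ hσ
      obtain ⟨h3, h4⟩ := hπ s hs σ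
      rw [map_sub, map_sub, ← h1, ← h2, h3, h4, sub_self, sub_self]
      exact ⟨rfl, rfl⟩
    by_contra hcon
    push Not at hcon
    -- S' is contained in a finite union
    apply hS'
    have hfin1 : (⋃ g : Q, {s : S | φ s (a p - t g) = 0 ∧ φ s (e p - d g) = 0}).Finite := by
      apply Set.finite_iUnion
      intro g
      by_cases hg : a p = t g
      · have hg2 : e p - d g ≠ 0 := sub_ne_zero.mpr (hcon g hg)
        exact (hZ _ hg2).subset fun s hs => hs.2
      · have hg2 : a p - t g ≠ 0 := sub_ne_zero.mpr hg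
        exact (hZ _ hg2).subset fun s hs => hs.1
    have hfin2 : {s : S | (s : ℕ) = p}.Finite := by
      apply Set.Finite.of_finite_image (f := Subtype.val) _ Subtype.val_injective.injOn
      apply (Set.finite_singleton p).subset
      rintro _ ⟨s, hs, rfl⟩
      exact hs
    apply (hfin1.union hfin2).subset
    intro s hs
    by_cases hsp : (s : ℕ) = p
    · exact Or.inr hsp
    · left
      obtain ⟨g, hg⟩ := h1 s hs hsp
      exact Set.mem_iUnion.mpr ⟨g, hg⟩
  -- Step 2 : the good indices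
  set good : Set S := {s | s ∈ S' ∧ ∀ g h : Q, φ s (t g - t h) = 0 → φ s (d g - d h) = 0 →
    t g = t h ∧ d g = d h} with hgood
  have hgoodinf : good.Infinite := by
    intro hfin'
    apply hS'
    have hbad : (⋃ g : Q, ⋃ h : Q, {s : S | (φ s (t g - t h) = 0 ∧ φ s (d g - d h) = 0) ∧
        ¬ (t g = t h ∧ d g = d h)}).Finite := by
      apply Set.finite_iUnion
      intro g
      apply Set.finite_iUnion
      intro h
      by_cases h1 : t g = t h
      · by_cases h2 : d g = d h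
        · apply Set.finite_empty.subset
          rintro s ⟨_, hs⟩
          exact hs ⟨h1, h2⟩
        · exact (hZ _ (sub_ne_zero.mpr h2)).subset fun s hs => hs.1.2
      · exact (hZ _ (sub_ne_zero.mpr h1)).subset fun s hs => hs.1.1
    apply (hfin'.union hbad).subset
    intro s hs
    by_cases hg : s ∈ good
    · exact Or.inl hg
    · right
      have : ∃ g h : Q, φ s (t g - t h) = 0 ∧ φ s (d g - d h) = 0 ∧ ¬ (t g = t h ∧ d g = d h) := by
        by_contra hcon
        push Not at hcon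
        apply hg
        refine ⟨hs, fun g h h1 h2 => ?_⟩
        by_contra h3
        exact h3 ⟨(hcon g h h1 h2).1, (hcon g h h1 h2).2⟩
      obtain ⟨g, h, h1, h2, h3⟩ := this
      exact Set.mem_iUnion.mpr ⟨g, Set.mem_iUnion.mpr ⟨h, ⟨h1, h2⟩, h3⟩⟩
  -- Step 3
  let P : S → (Γℚ →* GL (Fin 2) ℂ) := fun s => R.comp (π s)
  have hPlevel : ∀ s ∈ good, GaloisFactorsThroughFiniteLevel (P s) := by
    intro s hs
    apply level_comp (hρ s).level
    intro σ hσ
    have h1 : π s σ = 1 := (hπ1 s hs.1 σ).mpr hσ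
    show R (π s σ) = 1
    rw [h1, map_one]
  have hPunram : ∀ s ∈ good, ∀ p : ℕ, p.Prime → ¬ p ∣ N → p ≠ s → ∀ A : ValuationSubring Qb,
      A.LiesOverPrime p → ∀ σ ∈ A.inertiaSubgroupIn ℚ, P s σ = 1 := by
    intro s hs p hp hpN hps A hA σ hσ
    have h0 := (hρ s).unram p hp hpN hps A hA σ hσ
    have h1 : π s σ = 1 := (hπ1 s hs.1 σ).mpr h0
    show R (π s σ) = 1
    rw [h1, map_one]
  have hPfrob : ∀ s ∈ good, ∀ p : ℕ, p.Prime → ¬ p ∣ N → p ≠ s → ∀ A : ValuationSubring Qb,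
      A.LiesOverPrime p → ∀ σ : Γℚ, A.IsFrobeniusAt σ p →
        (P s σ).val.trace = (a p : ℂ) ∧ (P s σ).val.det = (e p : ℂ) := by
    intro s hs p hp hpN hps A hA σ hσ
    obtain ⟨g, hg1, hg2⟩ := step1 p hp hpN
    obtain ⟨h1, h2⟩ := (hρ s).frob p hp hpN hps A hA σ hσ
    obtain ⟨h3, h4⟩ := hπ s hs.1 σ
    have h5 : φ s (t (π s σ) - t g) = 0 := by
      rw [map_sub, ← h3, h1, ← hg1, sub_self]
    have h6 : φ s (d (π s σ) - d g) = 0 := by
      rw [map_sub, ← h4, h2, ← hg2, sub_self]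
    obtain ⟨h7, h8⟩ := hs.2 _ _ h5 h6
    have h9 := hR (π s σ)
    refine ⟨?_, ?_⟩
    · show (R (π s σ)).val.trace = _
      rw [h9.1, h7, hg1]
    · show (R (π s σ)).val.det = _
      rw [h9.2, h8, hg2]
  -- Step 4
  obtain ⟨s, hs⟩ := hgoodinf.nonempty
  obtain ⟨s', hs', hne⟩ := hgoodinf.exists_notMem_finset {s}
  have hne' : (s' : ℕ) ≠ (s : ℕ) := fun h => hne (by simpa using Subtype.ext h)
  have hcong : ∀ σ : Γℚ, (P s σ).val.trace = (P s' σ).val.trace ∧
      (P s σ).val.det = (P s' σ).val.det := by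
    intro σ
    apply trace_det_congr (P s) (P s') (hPlevel s hs) (hPlevel s' hs')
      (N.primeFactors ∪ {(s : ℕ), (s' : ℕ)})
    intro p hp hpS A hA τ hτ
    simp only [Finset.mem_union, Nat.mem_primeFactors, Finset.mem_insert, Finset.mem_singleton,
      not_or, not_and] at hpS
    have hpN : ¬ p ∣ N := fun h => hpS.1 hp h hN0
    obtain ⟨h1, h2⟩ := hPfrob s hs p hp hpN hpS.2.1 A hA τ hτ
    obtain ⟨h3, h4⟩ := hPfrob s' hs' p hp hpN hpS.2.2 A hA τ hτ
    exact ⟨h1.trans h3.symm, h2.trans h4.symm⟩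
  refine ⟨P s, hPlevel s hs, ?_⟩
  intro p hp hpN A hA
  by_cases hps : p = s
  · have hps' : p ≠ s' := by rw [hps]; exact hne'.symm
    constructor
    · intro σ hσ
      have h1 := hPunram s' hs' p hp hpN hps' A hA σ hσ
      obtain ⟨h2, h3⟩ := hcong σ
      rw [h1, Units.val_one, trace_one, Fintype.card_fin, Nat.cast_ofNat] at h2
      rw [h1, Units.val_one, det_one] at h3
      have h4 := sub_one_sq _ h2 h3
      -- finite order
      have hfo : (P s σ).val ^ (Nat.card Q) = 1 := by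
        have h5 : (π s σ) ^ (Nat.card Q) = 1 := pow_card_eq_one'
        rw [← Units.val_pow_eq_pow_val]
        show ((R (π s σ)) ^ (Nat.card Q)).val = 1
        rw [← map_pow, h5, map_one, Units.val_one]
      have h6 := eq_one_of_sq_zero _ h4 (Nat.card Q)
        (Nat.cast_ne_zero.mpr Nat.card_pos.ne') hfo
      exact Units.ext h6
    · intro σ hσ
      obtain ⟨h2, h3⟩ := hcong σ
      rw [h2, h3]
      exact hPfrob s' hs' p hp hpN hps' A hA σ hσ
  · exact ⟨hPunram s hs p hp hpN hps A hA, hPfrob s hs p hp hpN hps A hA⟩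

end Fermat.Agent.H85
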