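import Mathlib
import Fermat.Agent.H85Group

/-!
The case of finite irreducible subgroups of `GL₂(k)` of order divisible by the characteristic,
with traces in the prime field.
-/

namespace Fermat.Agent.H85

open Matrix MulAction

variable {k : Type*} [Field k]

lemma exists_coord (v w : Fin 2 → k) (hD : v 0 * w 1 - v 1 * w 0 ≠ 0) (x : Fin 2 → k) :
    ∃ a b : k, x = a • v + b • w := by
  obtain ⟨D, hD'⟩ : ∃ D, D = v 0 * w 1 - v 1 * w 0 := ⟨_, rfl⟩
  rw [← hD'] at hD
  refine ⟨(x 0 * w 1 - x 1 * w 0) / D, (v 0 * x 1 - v 1 * x 0) / D, ?_⟩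
  ext i; fin_cases i
  · simp
    field_simp
    rw [hD']; ring
  · simp
    field_simp
    rw [hD']; ring

lemma exists_smul_of_det (v w : Fin 2 → k) (hv : v ≠ 0) (hD : v 0 * w 1 - v 1 * w 0 = 0) :
    ∃ c : k, w = c • v := by
  by_cases hv0 : v 0 = 0
  · have hv1 : v 1 ≠ 0 := by
      intro h; apply hv; ext i; fin_cases i
      · exact hv0
      · exact h
    refine ⟨w 1 / v 1, ?_⟩
    have hw0 : w 0 = 0 := by
      rw [hv0, zero_mul, zero_sub, neg_eq_zero] at hD
      exact (mul_eq_zero.mp hD).resolve_left hv1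
    ext i; fin_cases i
    · simp [hw0, hv0]
    · simp; field_simp
  · refine ⟨w 0 / v 0, ?_⟩
    ext i; fin_cases i
    · simp; field_simp
    · simp; field_simp; linear_combination hD

/-- The normal form. -/
lemma exists_normal_form (ℓ : ℕ) [Fact ℓ.Prime] [CharP k ℓ] (G : Subgroup (GL (Fin 2) k))
    [Finite G] (hdvd : ℓ ∣ Nat.card G)
    (hirr : ∀ v : Fin 2 → k, v ≠ 0 → ∃ g ∈ G, ∀ c : k, (g : Matrix (Fin 2) (Fin 2) k) *ᵥ v ≠ c • v) :
    ∃ (P : GL (Fin 2) k) (u u' : GL (Fin 2) k) (y : k), u ∈ G ∧ u' ∈ G ∧ y ≠ 0 ∧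
      (P⁻¹ * u * P : GL (Fin 2) k).val = !![1, 1; 0, 1] ∧
      (P⁻¹ * u' * P : GL (Fin 2) k).val = !![1, 0; y, 1] := by
  obtain ⟨u0, hu0⟩ := exists_prime_orderOf_dvd_card' ℓ hdvd
  set u : GL (Fin 2) k := u0.1 with hu
  have hupow : u ^ ℓ = 1 := by
    rw [hu, ← Subgroup.coe_pow, ← hu0, pow_orderOf_eq_one, Subgroup.coe_one]
  have hune : u ≠ 1 := by
    intro h
    have : u0 = 1 := Subtype.ext h
    rw [this, orderOf_one] at hu0
    exact (Fact.out : ℓ.Prime).one_lt.ne hu0
  set N : Matrix (Fin 2) (Fin 2) k := u.val - 1 with hN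
  have hN0 : N ≠ 0 := by
    intro h
    apply hune
    apply Units.ext
    rw [Units.val_one]
    exact sub_eq_zero.mp h
  have hNnil : IsNilpotent N := by
    refine ⟨ℓ, ?_⟩
    rw [hN, sub_pow_char_of_commute ℓ (Commute.one_right _), one_pow,
      ← Units.val_pow_eq_pow_val, hupow, Units.val_one, sub_self]
  have hNtr : N.trace = 0 := (Matrix.isNilpotent_trace_of_isNilpotent hNnil).eq_zero
  have hNdet : N.det = 0 := by
    obtain ⟨m, hm⟩ := hNnil
    have : N.det ^ m = 0 := by
      rw [← det_pow, hm]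
      simp
    exact eq_zero_of_pow_eq_zero this
  have hNN : N * N = 0 := by
    have := ch N
    rw [hNtr, hNdet, zero_smul, zero_smul, sub_zero, add_zero] at this
    exact this
  have hNN' : ∀ x, N *ᵥ (N *ᵥ x) = 0 := fun x => by rw [mulVec_mulVec, hNN, zero_mulVec]
  obtain ⟨x0, hx0⟩ : ∃ x, N *ᵥ x ≠ 0 := by
    by_contra hcon
    push Not at hcon
    apply hN0
    ext i j
    have := congrFun (hcon (Pi.single j 1)) i
    simpa using this
  set v0 := N *ᵥ x0 with hv0
  obtain ⟨g, hg, hgv⟩ := hirr v0 hx0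
  set w : Fin 2 → k := g.val *ᵥ v0 with hw
  have hdet0 : v0 0 * w 1 - v0 1 * w 0 ≠ 0 := by
    intro h
    obtain ⟨c, hc⟩ := exists_smul_of_det v0 w hx0 h
    exact hgv c hc
  have hNw : N *ᵥ w ≠ 0 := by
    intro h
    apply hx0
    obtain ⟨a, b, hab⟩ := exists_coord v0 w hdet0 x0
    rw [hv0, hab, mulVec_add, mulVec_smul, mulVec_smul, h, hNN' x0, smul_zero, smul_zero, add_zero]
  set v := N *ᵥ w with hv
  have hNv : N *ᵥ v = 0 := hNN' w
  obtain ⟨a, hva⟩ : ∃ a : k, v = a • v0 := by
    obtain ⟨a, b, hab⟩ := exists_coord v0 w hdet0 v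
    have h1 : b • v = 0 := by
      have h2 := hNv
      rw [hab, mulVec_add, mulVec_smul, mulVec_smul, hNN' x0, smul_zero, zero_add] at h2
      exact h2
    rcases smul_eq_zero.mp h1 with h2 | h2
    · exact ⟨a, by rw [hab, h2, zero_smul, add_zero]⟩
    · exact absurd h2 hNw
  have ha0 : a ≠ 0 := by
    rintro rfl
    rw [zero_smul] at hva
    exact hNw hva
  have hdet : v 0 * w 1 - v 1 * w 0 ≠ 0 := by
    have : v 0 * w 1 - v 1 * w 0 = a * (v0 0 * w 1 - v0 1 * w 0) := by
      rw [hva]; simp; ring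
    rw [this]
    exact mul_ne_zero ha0 hdet0
  -- N' = g N g⁻¹
  set u' : GL (Fin 2) k := g * u * g⁻¹ with hu'
  set N' : Matrix (Fin 2) (Fin 2) k := u'.val - 1 with hN'
  have hN'eq : N' = g.val * N * (g⁻¹ : GL (Fin 2) k).val := by
    rw [hN', hu', hN, mul_sub, sub_mul, mul_one, Units.val_mul, Units.val_mul]
    congr 1
    rw [← Units.val_mul, mul_inv_cancel, Units.val_one]
  have hN'N' : ∀ x, N' *ᵥ (N' *ᵥ x) = 0 := by
    intro x
    have : N' * N' = 0 := by
      have h1 : (g⁻¹ : GL (Fin 2) k).val * g.val = 1 := by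
        rw [← Units.val_mul, inv_mul_cancel, Units.val_one]
      rw [hN'eq]
      calc g.val * N * (g⁻¹ : GL (Fin 2) k).val * (g.val * N * (g⁻¹ : GL (Fin 2) k).val)
          = g.val * N * ((g⁻¹ : GL (Fin 2) k).val * g.val) * N * (g⁻¹ : GL (Fin 2) k).val := by
            simp only [mul_assoc]
        _ = g.val * (N * N) * (g⁻¹ : GL (Fin 2) k).val := by rw [h1]; simp only [mul_assoc, mul_one]
        _ = 0 := by rw [hNN, mul_zero, zero_mul]
    rw [mulVec_mulVec, this, zero_mulVec]
  have hN'w : N' *ᵥ w = 0 := by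
    have h1 : (g⁻¹ : GL (Fin 2) k).val *ᵥ w = v0 := by
      rw [hw, mulVec_mulVec, ← Units.val_mul, inv_mul_cancel, Units.val_one, one_mulVec]
    rw [hN'eq, ← mulVec_mulVec, h1, ← mulVec_mulVec, hNN' x0, mulVec_zero]
  obtain ⟨y, hy⟩ : ∃ y : k, N' *ᵥ v = y • w := by
    obtain ⟨a', b', hab⟩ := exists_coord v w hdet (N' *ᵥ v)
    have h1 := hN'N' v
    rw [hab, mulVec_add, mulVec_smul, mulVec_smul, hN'w, smul_zero, add_zero] at h1
    rcases smul_eq_zero.mp h1 with h2 | h2
    · exact ⟨b', by rw [hab, h2, zero_smul, zero_add]⟩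
    · exact ⟨0, by rw [h2, zero_smul]⟩
  have hy0 : y ≠ 0 := by
    rintro rfl
    rw [zero_smul] at hy
    -- N' = 0
    have h1 : ∀ x, N' *ᵥ x = 0 := by
      intro x
      obtain ⟨a', b', hab⟩ := exists_coord v w hdet x
      rw [hab, mulVec_add, mulVec_smul, mulVec_smul, hN'w, hy, smul_zero, smul_zero, add_zero]
    have h2 : N' = 0 := by
      ext i j
      have := congrFun (h1 (Pi.single j 1)) i
      simpa using this
    have h3 : u' = 1 := by
      apply Units.ext
      rw [Units.val_one]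
      exact sub_eq_zero.mp h2
    apply hune
    have h4 : u = g⁻¹ * u' * g := by rw [hu']; group
    rw [h4, h3]; group
  -- P
  let Pm : Matrix (Fin 2) (Fin 2) k := !![v 0, w 0; v 1, w 1]
  have hPdet : Pm.det ≠ 0 := by
    rw [det_fin_two]
    simp only [Pm, of_apply, cons_val', cons_val_zero, cons_val_fin_one, cons_val_one]
    intro h
    apply hdet
    linear_combination h
  let P : GL (Fin 2) k := Matrix.GeneralLinearGroup.mkOfDetNeZero Pm hPdet
  have hPval : P.val = Pm := rfl
  refine ⟨P, u, u', y, u0.2, G.mul_mem (G.mul_mem hg u0.2) (G.inv_mem hg), hy0, ?_, ?_⟩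
  · have h1 : u.val * Pm = Pm * !![1, 1; 0, 1] := by
      have h2 : N * Pm = Pm * !![0, 1; 0, 0] := by
        ext i j
        have a0 := congrFun hNv i
        have a1 := congrFun hv.symm i
        fin_cases i <;> fin_cases j <;>
          simp [Pm, Matrix.mul_apply, Fin.sum_univ_two, mulVec, dotProduct] at a0 a1 ⊢ <;> assumption
      have h3 : u.val = 1 + N := by rw [hN]; abel
      rw [h3, add_mul, h2, one_mul]
      ext i j
      fin_cases i <;> fin_cases j <;> simp [Pm, Matrix.mul_apply, Fin.sum_univ_two, add_comm]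
    rw [Units.val_mul, Units.val_mul, mul_assoc, hPval, h1, ← mul_assoc, ← hPval, ← Units.val_mul,
      inv_mul_cancel, Units.val_one, one_mul]
  · have h1 : u'.val * Pm = Pm * !![1, 0; y, 1] := by
      have h2 : N' * Pm = Pm * !![0, 0; y, 0] := by
        ext i j
        have a0 := congrFun hN'w i
        have a1 := congrFun hy i
        fin_cases i <;> fin_cases j <;>
          simp [Pm, Matrix.mul_apply, Fin.sum_univ_two, mulVec, dotProduct] at a0 a1 ⊢ <;>
          first
          | assumption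
          | linear_combination a1
      have h3 : u'.val = 1 + N' := by rw [hN']; abel
      rw [h3, add_mul, h2, one_mul]
      ext i j
      fin_cases i <;> fin_cases j <;> simp [Pm, Matrix.mul_apply, Fin.sum_univ_two, add_comm]
    rw [Units.val_mul, Units.val_mul, mul_assoc, hPval, h1, ← mul_assoc, ← hPval, ← Units.val_mul,
      inv_mul_cancel, Units.val_one, one_mul]

/-- conjugation of 2×2 matrices -/
noncomputable def cj (P : GL (Fin 2) k) (g : GL (Fin 2) k) : Matrix (Fin 2) (Fin 2) k :=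
  (P⁻¹ * g * P : GL (Fin 2) k).val

lemma cj_mul (P g h : GL (Fin 2) k) : cj P (g * h) = cj P g * cj P h := by
  rw [cj, cj, cj, ← Units.val_mul]
  congr 1
  group

lemma cj_injective (P : GL (Fin 2) k) : Function.Injective (cj P) := by
  intro g h hgh
  have h1 : P⁻¹ * g * P = P⁻¹ * h * P := Units.ext hgh
  have h2 : P⁻¹ * g = P⁻¹ * h := mul_right_cancel h1
  exact mul_left_cancel h2

lemma cj_trace (P g : GL (Fin 2) k) : (cj P g).trace = (g : Matrix (Fin 2) (Fin 2) k).trace := by
  rw [cj, Units.val_mul, Matrix.trace_mul_comm, ← Units.val_mul]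
  congr 2
  group

lemma cj_det (P g : GL (Fin 2) k) : (cj P g).det = (g : Matrix (Fin 2) (Fin 2) k).det := by
  rw [cj, Units.val_mul, Matrix.det_mul_comm, ← Units.val_mul]
  congr 2
  group

lemma cj_pow (P g : GL (Fin 2) k) (n : ℕ) : cj P (g ^ n) = (cj P g) ^ n := by
  induction n with
  | zero => rw [pow_zero, pow_zero, cj]; simp
  | succ n ih => rw [pow_succ, pow_succ, cj_mul, ih]

lemma upper_pow (x : k) (n : ℕ) : (!![1, x; 0, 1] : Matrix (Fin 2) (Fin 2) k) ^ n =
    !![1, n * x; 0, 1] := by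
  induction n with
  | zero => ext i j; fin_cases i <;> fin_cases j <;> simp
  | succ n ih =>
    rw [pow_succ, ih]
    ext i j
    fin_cases i <;> fin_cases j <;> simp [Matrix.mul_apply, Fin.sum_univ_two] <;> ring

lemma lower_pow (x : k) (n : ℕ) : (!![1, 0; x, 1] : Matrix (Fin 2) (Fin 2) k) ^ n =
    !![1, 0; n * x, 1] := by
  induction n with
  | zero => ext i j; fin_cases i <;> fin_cases j <;> simp
  | succ n ih =>
    rw [pow_succ, ih]
    ext i j
    fin_cases i <;> fin_cases j <;> simp [Matrix.mul_apply, Fin.sum_univ_two] <;> ring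

/-- If `ℓ ∣ |G|` and `G` is irreducible with traces in the prime field then `ℓ` is bounded. -/
theorem ell_le (ℓ : ℕ) [Fact ℓ.Prime] [CharP k ℓ] (G : Subgroup (GL (Fin 2) k))
    [Finite G] (hdvd : ℓ ∣ Nat.card G)
    (hirr : ∀ v : Fin 2 → k, v ≠ 0 → ∃ g ∈ G, ∀ c : k, (g : Matrix (Fin 2) (Fin 2) k) *ᵥ v ≠ c • v)
    (htr : ∀ g ∈ G, ∃ n : ℤ, (g : Matrix (Fin 2) (Fin 2) k).trace = n)
    (M : ℕ) (H : Finset (GL (Fin 2) k)) (hHG : ∀ g ∈ H, g ∈ G)
    (hH : 3 * Nat.card G ≤ 4 * H.card) (hM : ∃ T : Finset (k × k), T.card ≤ M ∧ ∀ g ∈ H, td g ∈ T) :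
    3 * (ℓ - 1) ≤ 8 * M := by
  classical
  have hℓp : ℓ.Prime := Fact.out
  obtain ⟨T, hTM, hT⟩ := hM
  obtain ⟨P, u, u', y, hu, hu', hy0, hcu, hcu'⟩ := exists_normal_form ℓ G hdvd hirr
  letI : Algebra (ZMod ℓ) k := ZMod.algebra k ℓ
  set F : Subfield k := (algebraMap (ZMod ℓ) k).fieldRange with hF
  have hint : ∀ n : ℤ, (n : k) ∈ F := by
    intro n
    exact ⟨(n : ZMod ℓ), by simp⟩
  have htrF : ∀ g ∈ G, (cj P g).trace ∈ F := by
    intro g hg
    rw [cj_trace]
    obtain ⟨n, hn⟩ := htr g hg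
    rw [hn]
    exact hint n
  have hcu2 : cj P u = !![1, 1; 0, 1] := hcu
  have hcu2' : cj P u' = !![1, 0; y, 1] := hcu'
  have htwo : (2 : k) ∈ F := by simpa using hint 2
  have hyF : y ∈ F := by
    have h1 := htrF (u * u') (G.mul_mem hu hu')
    rw [cj_mul, hcu2, hcu2', trace_fin_two] at h1
    simp [Matrix.mul_apply, Fin.sum_univ_two] at h1
    have h2 := F.sub_mem h1 htwo
    convert h2 using 1
    ring
  -- all entries are in F
  have hentries : ∀ g ∈ G, ∀ i j, cj P g i j ∈ F := by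
    intro g hg
    have t0 := htrF g hg
    have t1 := htrF (g * u) (G.mul_mem hg hu)
    have t2 := htrF (g * u') (G.mul_mem hg hu')
    have t3 := htrF (g * (u * u')) (G.mul_mem hg (G.mul_mem hu hu'))
    rw [cj_mul, hcu2, trace_fin_two] at t1
    rw [cj_mul, hcu2', trace_fin_two] at t2
    rw [cj_mul, cj_mul, hcu2, hcu2', trace_fin_two] at t3
    rw [trace_fin_two] at t0
    simp [Matrix.mul_apply, Fin.sum_univ_two] at t1 t2 t3
    have hc : cj P g 1 0 ∈ F := by
      have := F.sub_mem t1 t0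
      convert this using 1
      ring
    have hb : cj P g 0 1 ∈ F := by
      have h1 := F.sub_mem t2 t0
      have h2 := F.mul_mem h1 (F.inv_mem hyF)
      convert h2 using 1
      field_simp
      ring
    have ha : cj P g 0 0 ∈ F := by
      have h1 := F.sub_mem t3 t0
      have h2 := F.sub_mem (F.sub_mem h1 hc) (F.mul_mem hb hyF)
      have h3 := F.mul_mem h2 (F.inv_mem hyF)
      convert h3 using 1
      field_simp
      ring
    have hd : cj P g 1 1 ∈ F := by
      have := F.sub_mem t0 ha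
      convert this using 1
      ring
    intro i j
    fin_cases i <;> fin_cases j
    · exact ha
    · exact hb
    · exact hc
    · exact hd
  have hFcard : Nat.card F = ℓ := by
    have h1 : Nat.card (ZMod ℓ) = ℓ := Nat.card_zmod ℓ
    rw [← h1]
    exact (Nat.card_congr (Equiv.ofInjective _ (algebraMap (ZMod ℓ) k).injective)).symm
  have hFfin : Finite F := Nat.finite_of_card_ne_zero (by rw [hFcard]; exact hℓp.ne_zero)
  have : Fintype F := Fintype.ofFinite F
  set FS : Finset k := (F : Set k).toFinite.toFinset with hFS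
  have hFScard : FS.card = ℓ := by
    rw [hFS, ← Set.ncard_eq_toFinset_card _ (Set.toFinite _)]
    exact hFcard
  have hmemFS : ∀ x : k, x ∈ FS ↔ x ∈ F := by
    intro x; rw [hFS, Set.Finite.mem_toFinset]; rfl
  -- upper bound
  have hupper : H.card ≤ 2 * (ℓ * ℓ) * T.card := by
    apply Finset.card_le_mul_card_image_of_maps_to (f := td)
    · intro g hg; exact hT g hg
    · rintro ⟨t, d⟩ _
      have hcard : ((Finset.univ : Finset Bool) ×ˢ (FS ×ˢ FS)).card = 2 * (ℓ * ℓ) := by
        rw [Finset.card_product, Finset.card_product, hFScard]; rfl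
      rw [← hcard]
      apply Finset.card_le_card_of_injOn
        (fun g => (decide (cj P g 0 1 = 0), cj P g 0 0,
          if cj P g 0 1 = 0 then cj P g 1 0 else cj P g 0 1))
      · intro g hg
        have hg1 := (Finset.mem_filter.mp hg).1
        have h1 := hentries g (hHG g hg1)
        simp only [Finset.coe_product, Set.mem_prod, Finset.mem_coe, Finset.mem_univ, true_and,
          hmemFS]
        refine ⟨h1 0 0, ?_⟩
        split_ifs
        · exact h1 1 0
        · exact h1 0 1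
      · intro g hg h hh hgh
        obtain ⟨hg1, hg2⟩ := Finset.mem_filter.mp hg
        obtain ⟨hh1, hh2⟩ := Finset.mem_filter.mp hh
        have htdg : (cj P g).trace = t ∧ (cj P g).det = d := by
          rw [cj_trace, cj_det]; exact (Prod.mk.injEq _ _ _ _).mp hg2
        have htdh : (cj P h).trace = t ∧ (cj P h).det = d := by
          rw [cj_trace, cj_det]; exact (Prod.mk.injEq _ _ _ _).mp hh2
        rw [trace_fin_two, det_fin_two] at htdg htdh
        simp only [Prod.mk.injEq] at hgh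
        obtain ⟨e1, e2, e3⟩ := hgh
        apply cj_injective P
        have e11 : cj P g 1 1 = cj P h 1 1 := by
          linear_combination htdg.1 - htdh.1 - e2
        by_cases hb : cj P g 0 1 = 0
        · have hb' : cj P h 0 1 = 0 := by
            rw [hb] at e1; simpa using e1
          rw [if_pos hb, if_pos hb'] at e3
          ext i j; fin_cases i <;> fin_cases j
          · exact e2
          · exact hb.trans hb'.symm
          · exact e3
          · exact e11
        · have hb' : cj P h 0 1 ≠ 0 := by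
            intro h0; apply hb; rw [h0] at e1; simpa using e1
          rw [if_neg hb, if_neg hb'] at e3
          have e10 : cj P g 1 0 = cj P h 1 0 := by
            have h1 : cj P g 0 1 * cj P g 1 0 = cj P g 0 1 * cj P h 1 0 := by
              have a1 := htdg.2
              have a2 := htdh.2
              rw [← e2, ← e11, ← e3] at a2
              linear_combination a2 - a1
            exact mul_left_cancel₀ hb h1
          ext i j; fin_cases i <;> fin_cases j
          · exact e2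
          · exact e3
          · exact e10
          · exact e11
  -- lower bound
  have hlower : ℓ * ((ℓ - 1) * ℓ) ≤ Nat.card G := by
    have hG : ((G : Set (GL (Fin 2) k)).toFinite.toFinset).card = Nat.card G := by
      rw [← Set.ncard_eq_toFinset_card _ (Set.toFinite _)]; rfl
    have hcard : (Finset.range ℓ ×ˢ (Finset.Ico 1 ℓ ×ˢ Finset.range ℓ)).card
        = ℓ * ((ℓ - 1) * ℓ) := by
      rw [Finset.card_product, Finset.card_product, Finset.card_range, Nat.card_Ico]
    rw [← hG, ← hcard]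
    apply Finset.card_le_card_of_injOn (fun x => u ^ x.1 * (u' ^ x.2.1 * u ^ x.2.2))
    · intro x _
      rw [Set.Finite.coe_toFinset]
      exact G.mul_mem (G.pow_mem hu _) (G.mul_mem (G.pow_mem hu' _) (G.pow_mem hu _))
    · rintro ⟨i, j, m⟩ hx ⟨i', j', m'⟩ hx' heq
      simp only [Finset.coe_product, Set.mem_prod, Finset.mem_coe, Finset.mem_range,
        Finset.mem_Ico] at hx hx'
      have h1 := congrArg (cj P) heq
      simp only [cj_mul, cj_pow, hcu2, hcu2', upper_pow, lower_pow] at h1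
      have h00 := congrFun (congrFun h1 0) 0
      have h10 := congrFun (congrFun h1 1) 0
      have h11 := congrFun (congrFun h1 1) 1
      simp [Matrix.mul_apply, Fin.sum_univ_two] at h00 h10 h11
      have hcast : ∀ a b : ℕ, a < ℓ → b < ℓ → (a : k) = b → a = b := by
        intro a b ha hb hab
        exact CharP.natCast_injOn_Iio k ℓ ha hb hab
      have hj : (j : k) = j' := by
        rcases h10 with h | h
        · exact h
        · exact absurd h hy0
      have hjj := hcast j j' hx.2.1.2 hx'.2.1.2 hj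
      subst hjj
      have hj0 : (j : k) ≠ 0 := by
        intro h0
        have := hcast j 0 hx.2.1.2 hℓp.pos (by rw [h0, Nat.cast_zero])
        omega
      have hjy : (j : k) * y ≠ 0 := mul_ne_zero hj0 hy0
      have hi : (i : k) = i' := mul_right_cancel₀ hjy h00
      have hm : (m : k) = m' := mul_left_cancel₀ hjy h11
      rw [hcast i i' hx.1 hx'.1 hi, hcast m m' hx.2.2 hx'.2.2 hm]
  -- conclusion
  have hℓ1 : 0 < ℓ := hℓp.pos
  have h1 : 3 * (ℓ * ((ℓ - 1) * ℓ)) ≤ 4 * (2 * (ℓ * ℓ) * M) := by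
    calc 3 * (ℓ * ((ℓ - 1) * ℓ)) ≤ 3 * Nat.card G := Nat.mul_le_mul_left _ hlower
      _ ≤ 4 * H.card := hH
      _ ≤ 4 * (2 * (ℓ * ℓ) * T.card) := Nat.mul_le_mul_left _ hupper
      _ ≤ 4 * (2 * (ℓ * ℓ) * M) := Nat.mul_le_mul_left _ (Nat.mul_le_mul_left _ hTM)
  have h2 : (3 * (ℓ - 1)) * (ℓ * ℓ) ≤ (8 * M) * (ℓ * ℓ) := by
    calc (3 * (ℓ - 1)) * (ℓ * ℓ) = 3 * (ℓ * ((ℓ - 1) * ℓ)) := by ring
      _ ≤ 4 * (2 * (ℓ * ℓ) * M) := h1
      _ = (8 * M) * (ℓ * ℓ) := by ring
  exact Nat.le_of_mul_le_mul_right h2 (Nat.mul_pos hℓ1 hℓ1)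

/-- **Main group-theoretic bound** (Deligne–Serre, Proposition 7.2). -/
theorem card_le_of_few_charpoly [IsAlgClosed k] (ℓ : ℕ) [Fact ℓ.Prime] [CharP k ℓ]
    (G : Subgroup (GL (Fin 2) k)) [Finite G]
    (hss : (∀ v : Fin 2 → k, v ≠ 0 →
      ∃ g ∈ G, ∀ c : k, (g : Matrix (Fin 2) (Fin 2) k) *ᵥ v ≠ c • v) ∨ ¬ ℓ ∣ Nat.card G)
    (htr : ∀ g ∈ G, ∃ n : ℤ, (g : Matrix (Fin 2) (Fin 2) k).trace = n)
    (M : ℕ) (H : Finset (GL (Fin 2) k)) (hHG : ∀ g ∈ H, g ∈ G)
    (hH : 3 * Nat.card G ≤ 4 * H.card) (hM : ∃ T : Finset (k × k), T.card ≤ M ∧ ∀ g ∈ H, td g ∈ T)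
    (hℓ : 8 * M < 3 * (ℓ - 1)) :
    ¬ ℓ ∣ Nat.card G ∧ Nat.card G ≤ 160 * M := by
  have h1 : ¬ ℓ ∣ Nat.card G := by
    intro hdvd
    rcases hss with h | h
    · have := ell_le ℓ G hdvd h htr M H hHG hH hM
      omega
    · exact h hdvd
  refine ⟨h1, card_le_of_prime_to G ?_ M H hHG hH hM⟩
  intro h0
  exact h1 ((CharP.cast_eq_zero_iff k ℓ _).mp h0)

end Fermat.Agent.H85
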