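import Mathlib
import Fermat.Agent.H85Group2
import Fermat.Agent.H85Glue
import Fermat.Prelude.Def_Deformations_MatrixRepresentation

/-!
Semisimplification of two-dimensional matrix representations, irreducibility criteria.
-/

namespace Fermat.Agent.H85

open Matrix

local notation "Γℚ" => (AlgebraicClosure ℚ ≃ₐ[ℚ] AlgebraicClosure ℚ)

/-- no common eigenvector -/
def NoLine {Γ κ : Type*} [Group Γ] [Field κ] (ρ : Γ →* GL (Fin 2) κ) : Prop :=
  ∀ v : Fin 2 → κ, v ≠ 0 → ∃ g, ∀ c : κ, (ρ g).val *ᵥ v ≠ c • v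

/-- The character on a common eigenvector. -/
lemma exists_char {Γ κ : Type*} [Group Γ] [Field κ] (ρ : Γ →* GL (Fin 2) κ) (v : Fin 2 → κ)
    (hv : v ≠ 0) (h : ∀ g, ∃ c : κ, (ρ g).val *ᵥ v = c • v) :
    ∃ χ : Γ →* κˣ, ∀ g, (ρ g).val *ᵥ v = (χ g : κ) • v := by
  choose c hc using h
  have huniq : ∀ a b : κ, a • v = b • v → a = b := by
    intro a b hab
    have : (a - b) • v = 0 := by rw [sub_smul, hab, sub_self]
    rcases smul_eq_zero.mp this with h | h
    · exact sub_eq_zero.mp h
    · exact absurd h hv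
  let m : Γ →* κ :=
    { toFun := c
      map_one' := by
        apply huniq
        rw [← hc, map_one, Units.val_one, one_mulVec, one_smul]
      map_mul' := by
        intro g h
        apply huniq
        rw [← hc, map_mul, Units.val_mul, ← mulVec_mulVec, hc h, mulVec_smul, hc g, smul_smul,
          mul_comm] }
  exact ⟨m.toHomUnits, fun g => hc g⟩

/-- diagonal representation attached to two characters. -/
noncomputable def diagRep {Γ κ : Type*} [Group Γ] [Field κ] (χ₁ χ₂ : Γ →* κˣ) : Γ →* GL (Fin 2) κ :=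
  MonoidHom.toHomUnits
    { toFun := fun g => Matrix.diagonal ![(χ₁ g : κ), (χ₂ g : κ)]
      map_one' := by
        ext i j; fin_cases i <;> fin_cases j <;> simp
      map_mul' := by
        intro g h
        rw [diagonal_mul_diagonal]
        congr 1
        ext i; fin_cases i <;> simp }

lemma diagRep_val {Γ κ : Type*} [Group Γ] [Field κ] (χ₁ χ₂ : Γ →* κˣ) (g : Γ) :
    (diagRep χ₁ χ₂ g).val = Matrix.diagonal ![(χ₁ g : κ), (χ₂ g : κ)] := rfl

/-- Semisimplification. -/
theorem exists_ss {Γ κ : Type*} [Group Γ] [Field κ] (ρ : Γ →* GL (Fin 2) κ) :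
    ∃ ρ' : Γ →* GL (Fin 2) κ, (∀ σ, (ρ' σ).val.trace = (ρ σ).val.trace ∧
      (ρ' σ).val.det = (ρ σ).val.det) ∧ (∀ σ, ρ σ = 1 → ρ' σ = 1) ∧
      (NoLine ρ' ∨ ∃ χ₁ χ₂ : Γ →* κˣ, ρ' = diagRep χ₁ χ₂) := by
  by_cases h : NoLine ρ
  · exact ⟨ρ, fun σ => ⟨rfl, rfl⟩, fun σ h => h, Or.inl h⟩
  · rw [NoLine] at h
    push Not at h
    obtain ⟨v, hv, hv'⟩ := h
    obtain ⟨χ, hχ⟩ := exists_char ρ v hv hv'
    let dt : Γ →* κˣ := (GeneralLinearGroup.det (n := Fin 2) (R := κ)).comp ρ
    have hdt : ∀ g, (dt g : κ) = (ρ g).val.det := fun g => rfl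
    refine ⟨diagRep χ (dt * χ⁻¹), fun σ => ?_, fun σ hσ => ?_, Or.inr ⟨_, _, rfl⟩⟩
    · have h1 := trace_eq_of_fixed _ v hv _ (hχ σ)
      have h2 : (χ σ : κ) ≠ 0 := (χ σ).ne_zero
      rw [diagRep_val, trace_diagonal, det_diagonal, Fin.sum_univ_two, Fin.prod_univ_two]
      simp only [Matrix.cons_val_zero, Matrix.cons_val_one, MonoidHom.mul_apply,
        MonoidHom.inv_apply, Units.val_mul, Units.val_inv_eq_inv_val, hdt]
      constructor
      · field_simp
        linear_combination h1
      · field_simp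
    · have h1 : χ σ = 1 := by
        have h2 := hχ σ
        rw [hσ, Units.val_one, one_mulVec] at h2
        have h3 : ((1 : κ) - (χ σ : κ)) • v = 0 := by rw [sub_smul, one_smul, ← h2, sub_self]
        rcases smul_eq_zero.mp h3 with h4 | h4
        · exact Units.ext (sub_eq_zero.mp h4).symm
        · exact absurd h4 hv
      have h2 : dt σ = 1 := by
        show (GeneralLinearGroup.det (ρ σ)) = 1
        rw [hσ, map_one]
      apply Units.ext
      rw [diagRep_val, MonoidHom.mul_apply, MonoidHom.inv_apply, h1, h2, Units.val_one]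
      ext i j; fin_cases i <;> fin_cases j <;> simp

/-- a diagonal representation with finite image has order prime to the characteristic. -/
lemma not_dvd_card_range_diagRep {Γ κ : Type*} [Group Γ] [Field κ] (ℓ : ℕ) [Fact ℓ.Prime]
    [CharP κ ℓ] (χ₁ χ₂ : Γ →* κˣ) [Finite (diagRep χ₁ χ₂).range] :
    ¬ ℓ ∣ Nat.card (diagRep χ₁ χ₂).range := by
  intro hdvd
  obtain ⟨g, hg⟩ := exists_prime_orderOf_dvd_card' ℓ hdvd
  obtain ⟨σ, hσ⟩ := g.2
  have h1 : g ^ ℓ = 1 := by rw [← hg, pow_orderOf_eq_one]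
  have h2 : (g : GL (Fin 2) κ) ^ ℓ = 1 := congrArg Subtype.val h1
  rw [← hσ, ← map_pow] at h2
  have h3 := congrArg Units.val h2
  rw [diagRep_val, Units.val_one] at h3
  have key : ∀ x : κˣ, (x : κ) ^ ℓ = 1 → x = 1 := by
    intro x hx
    have h4 : ((x : κ) - 1) ^ ℓ = 0 := by rw [sub_pow_char, hx, one_pow, sub_self]
    exact Units.ext (sub_eq_zero.mp (eq_zero_of_pow_eq_zero h4))
  have h4 : χ₁ σ = 1 := by
    apply key
    have := congrFun (congrFun h3 0) 0
    simpa using this
  have h5 : χ₂ σ = 1 := by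
    apply key
    have := congrFun (congrFun h3 1) 1
    simpa using this
  have h6 : g = 1 := by
    apply Subtype.ext
    rw [← hσ]
    apply Units.ext
    rw [diagRep_val, h4, h5]
    ext i j; fin_cases i <;> fin_cases j <;> simp
  rw [h6, orderOf_one] at hg
  exact (Fact.out : ℓ.Prime).one_lt.ne hg

/-- irreducibility from the absence of common eigenvectors -/
theorem isIrreducible_of_noLine {Γ : Type} [Group Γ] {κ : Type} [Field κ] (ρ : Γ →* GL (Fin 2) κ)
    (h : NoLine ρ) : (Deformation.matrixRepresentation ρ).IsIrreducible := by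
  have hnt : Nontrivial (Subrepresentation (Deformation.matrixRepresentation ρ)) := by
    refine ⟨⊥, ⊤, fun hbt => ?_⟩
    have h1 : (⊥ : Submodule κ (Fin 2 → κ)) = ⊤ := congrArg Subrepresentation.toSubmodule hbt
    exact bot_ne_top h1
  refine { hnt with eq_bot_or_eq_top := fun W => ?_ }
  have hinv : ∀ g, ∀ x ∈ W.toSubmodule, (ρ g).val *ᵥ x ∈ W.toSubmodule := by
    intro g x hx
    have h1 := W.apply_mem_toSubmodule g hx
    rw [Deformation.matrixRepresentation_apply] at h1
    exact h1
  have hfin : Module.finrank κ W.toSubmodule ≤ 2 := by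
    have := W.toSubmodule.finrank_le
    simpa using this
  by_cases h0 : W.toSubmodule = ⊥
  · left
    exact Subrepresentation.toSubmodule_injective h0
  · right
    obtain ⟨v, hvW, hv⟩ := Submodule.exists_mem_ne_zero_of_ne_bot h0
    obtain ⟨g, hg⟩ := h v hv
    apply Subrepresentation.toSubmodule_injective
    show W.toSubmodule = ⊤
    apply Submodule.eq_top_of_finrank_eq
    have hle : Module.finrank κ (Fin 2 → κ) ≤ Module.finrank κ W.toSubmodule := by
      have hli : LinearIndependent κ ![v, (ρ g).val *ᵥ v] := by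
        rw [LinearIndependent.pair_iff' hv]
        intro a ha
        exact hg a ha.symm
      have hli2 : LinearIndependent κ ![(⟨v, hvW⟩ : W.toSubmodule), ⟨_, hinv g v hvW⟩] := by
        apply LinearIndependent.of_comp W.toSubmodule.subtype
        have hc : (⇑W.toSubmodule.subtype ∘
            ![(⟨v, hvW⟩ : W.toSubmodule), ⟨_, hinv g v hvW⟩]) = ![v, (ρ g).val *ᵥ v] := by
          ext i; fin_cases i <;> rfl
        rw [hc]
        exact hli
      have := hli2.fintype_card_le_finrank
      simpa using this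
    exact le_antisymm (by simpa using hfin) hle

end Fermat.Agent.H85
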