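import Mathlib
import Fermat.Agent.H85Bad
import Fermat.Agent.H85SS
import Fermat.Agent.H85ChebGal

/-!
Uniform bound for the images of the semisimplified mod `ℓ` representations.
-/

namespace Fermat.Agent.H85

open Matrix Filter Topology

open Fermat.Agent.H99 (dsum HasLogDensity)

local notation "Γℚ" => (AlgebraicClosure ℚ ≃ₐ[ℚ] AlgebraicClosure ℚ)
local notation "Qb" => AlgebraicClosure ℚ

lemma finite_range {Q : Type} [Group Q] (ρ : Γℚ →* Q) (hρ : GaloisFactorsThroughFiniteLevel ρ) :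
    Finite ρ.range := by
  obtain ⟨L, hfin, hL⟩ := hρ
  let M : IntermediateField ℚ Qb := IntermediateField.normalClosure ℚ L Qb
  have hfd : FiniteDimensional ℚ M := inferInstance
  have hno : Normal ℚ M := normalClosure.normal ℚ L Qb
  have hLM : L ≤ M := L.le_normalClosure
  let r : Γℚ →* (M ≃ₐ[ℚ] M) := AlgEquiv.restrictNormalHom M
  have hker : ∀ σ, r σ = 1 → ρ σ = 1 := by
    intro σ hσ
    apply hL
    intro x hx
    have h1 : ((r σ ⟨x, hLM hx⟩ : M) : Qb) = σ x :=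
      AlgEquiv.restrictNormal_commutes σ M (⟨x, hLM hx⟩ : M)
    rw [hσ] at h1
    exact h1.symm
  refine Finite.of_injective (fun x : ρ.range => r x.2.choose) ?_
  intro x y hxy
  have h1 : r (x.2.choose * y.2.choose⁻¹) = 1 := by
    rw [map_mul, map_inv]
    exact mul_inv_eq_one.mpr hxy
  have h2 := hker _ h1
  rw [map_mul, map_inv, x.2.choose_spec, y.2.choose_spec] at h2
  exact Subtype.ext (mul_inv_eq_one.mp h2)

lemma trace_pow_int {κ : Type*} [Field κ] (B : Matrix (Fin 2) (Fin 2) κ)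
    (h1 : ∃ n : ℤ, B.trace = n) (h2 : ∃ n : ℤ, B.det = n) (j : ℕ) :
    ∃ n : ℤ, (B ^ j).trace = n := by
  obtain ⟨t, ht⟩ := h1
  obtain ⟨d, hd⟩ := h2
  induction j using Nat.twoStepInduction with
  | zero => exact ⟨2, by simp⟩
  | one => exact ⟨t, by simpa using ht⟩
  | more n ih1 ih2 =>
    obtain ⟨x, hx⟩ := ih1
    obtain ⟨y, hy⟩ := ih2
    refine ⟨t * y - d * x, ?_⟩
    have h := ch B
    have h3 : B * B = B.trace • B - B.det • (1 : Matrix (Fin 2) (Fin 2) κ) := by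
      rw [← sub_eq_zero, ← h]; abel
    have h4 : B ^ (n + 2) = B ^ n * (B * B) := by rw [pow_add, pow_two]
    rw [h4, h3, mul_sub, mul_smul_comm, mul_smul_comm, mul_one, trace_sub, trace_smul, trace_smul,
      smul_eq_mul, smul_eq_mul, ← pow_succ, hx, hy, ht, hd]
    push_cast
    ring

/-- every element is a Frobenius power on finite level -/
lemma exists_frob_pow {Q : Type} [Group Q] (ρ : Γℚ →* Q) (hρ : GaloisFactorsThroughFiniteLevel ρ)
    (S : Finset ℕ) (σ : Γℚ) : ∃ p : ℕ, p.Prime ∧ p ∉ S ∧ ∃ A : ValuationSubring Qb,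
      A.LiesOverPrime p ∧ ∃ τ : Γℚ, A.IsFrobeniusAt τ p ∧ ∃ j : ℕ, ρ σ = ρ (τ ^ j) := by
  obtain ⟨L, hL, hL1⟩ := hρ
  obtain ⟨p, hp, hpS, A, hA, τ, hτ, j, -, hj, -⟩ :=
    H86.frobenius_density H86.frobDensityFinite L σ S
  exact ⟨p, hp, hpS, A, hA, τ, hτ, j, H86.map_eq_of_forall_mem (ρ := ρ) hL1 hj⟩

lemma td_conj {κ : Type*} [Field κ] (x y : GL (Fin 2) κ) : td (y⁻¹ * x * y) = td x := by
  unfold td
  rw [Units.val_mul, Units.val_mul, trace_mul_cycle, det_mul, det_mul]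
  have h1 : (y : Matrix (Fin 2) (Fin 2) κ) * (y⁻¹ : GL (Fin 2) κ).val = 1 := by
    rw [← Units.val_mul, mul_inv_cancel, Units.val_one]
  have h2 : (y⁻¹ : GL (Fin 2) κ).val.det * (y : Matrix (Fin 2) (Fin 2) κ).det = 1 := by
    rw [← det_mul, ← Units.val_mul, inv_mul_cancel, Units.val_one, det_one]
  rw [h1, one_mul]
  refine Prod.ext rfl ?_
  linear_combination (x : Matrix (Fin 2) (Fin 2) κ).det * h2

lemma td_inv {κ : Type*} [Field κ] (x : GL (Fin 2) κ) :
    td x⁻¹ = ((td x).1 / (td x).2, 1 / (td x).2) := by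
  have h2 : (x⁻¹ : GL (Fin 2) κ).val.det * (x : Matrix (Fin 2) (Fin 2) κ).det = 1 := by
    rw [← det_mul, ← Units.val_mul, inv_mul_cancel, Units.val_one, det_one]
  have h0 : (x : Matrix (Fin 2) (Fin 2) κ).det ≠ 0 := right_ne_zero_of_mul_eq_one h2
  have h3 := ch (x : Matrix (Fin 2) (Fin 2) κ)
  have h4 := congrArg (fun B => (x⁻¹ : GL (Fin 2) κ).val * B) h3
  simp only [mul_zero] at h4
  unfold td
  refine Prod.ext ?_ (eq_div_of_mul_eq h0 h2)
  show (x⁻¹ : GL (Fin 2) κ).val.trace = x.val.trace / x.val.det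
  rw [eq_div_iff h0]
  have h5 : (x⁻¹ : GL (Fin 2) κ).val * x.val = 1 := by
    rw [← Units.val_mul, inv_mul_cancel, Units.val_one]
  rw [mul_add, mul_sub, ← mul_assoc, h5, one_mul, mul_smul_comm, mul_smul_comm, h5, mul_one] at h4
  have h6 := congrArg Matrix.trace h4
  rw [trace_add, trace_sub, trace_smul, trace_smul, trace_one, trace_zero, smul_eq_mul,
    smul_eq_mul, Fintype.card_fin] at h6
  push_cast at h6
  rw [Matrix.coe_units_inv]
  linear_combination h6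

theorem card_bound (htw : TwistBound) (N : ℕ) (hN0 : N ≠ 0) (a e : ℕ → ZZ)
    (T : Finset (ZZ × ZZ)) (X : Set Nat.Primes) (hX : ULD (ind X) (1 / 4))
    (hT : ∀ p : Nat.Primes, ¬ (p : ℕ) ∣ N → p ∉ X → (a p, e p) ∈ T)
    (ℓ : ℕ) [Fact ℓ.Prime] (hℓ : 16 * T.card < 3 * (ℓ - 1)) {κ : Type} [Field κ] [IsAlgClosed κ]
    [CharP κ ℓ] (φ : ZZ →+* κ)
    (ha : ∀ p : ℕ, p.Prime → ¬ p ∣ N → ∃ n : ℤ, φ (a p) = n)
    (he : ∀ p : ℕ, p.Prime → ¬ p ∣ N → ∃ n : ℤ, φ (e p) = n)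
    (ρ : Γℚ →* GL (Fin 2) κ) (hρ : IsModRep N a e ℓ φ ρ) :
    ∃ ρ' : Γℚ →* GL (Fin 2) κ, IsModRep N a e ℓ φ ρ' ∧ Finite ρ'.range ∧
      Nat.card ρ'.range ≤ 320 * T.card := by
  classical
  obtain ⟨ρ', htd, hker, hss⟩ := exists_ss ρ
  have hρ' : IsModRep N a e ℓ φ ρ' :=
    ⟨level_comp hρ.level ρ' hker,
      fun p hp hpN hpl A hA σ hσ => hker σ (hρ.unram p hp hpN hpl A hA σ hσ),
      fun p hp hpN hpl A hA σ hσ => by
        rw [(htd σ).1, (htd σ).2]
        exact hρ.frob p hp hpN hpl A hA σ hσ⟩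
  have hfin := finite_range ρ' hρ'.level
  refine ⟨ρ', hρ', hfin, ?_⟩
  have := Fintype.ofFinite ρ'.range
  let S : Finset ℕ := insert ℓ N.primeFactors
  have hS : ∀ p : ℕ, p.Prime → p ∉ S → ¬ p ∣ N ∧ p ≠ ℓ := by
    intro p hp hpS
    rw [Finset.mem_insert, not_or] at hpS
    exact ⟨fun h => hpS.2 (Nat.mem_primeFactors.mpr ⟨hp, h, hN0⟩), hpS.1⟩
  -- traces are integers
  have htr : ∀ g ∈ ρ'.range, ∃ n : ℤ, (g : Matrix (Fin 2) (Fin 2) κ).trace = n := by
    rintro _ ⟨σ, rfl⟩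
    obtain ⟨p, hp, hpS, A, hA, τ, hτ, j, hj⟩ := exists_frob_pow ρ' hρ'.level S σ
    obtain ⟨h1, h2⟩ := hS p hp hpS
    obtain ⟨h3, h4⟩ := hρ'.frob p hp h1 h2 A hA τ hτ
    rw [hj, map_pow, Units.val_pow_eq_pow_val]
    exact trace_pow_int _ (h3 ▸ ha p hp h1) (h4 ▸ he p hp h1) j
  -- the density argument
  let T1 : Finset (κ × κ) := T.image fun x => (φ x.1, φ x.2)
  let f : GL (Fin 2) κ → ℝ := fun g => if td g ∈ T1 ∨ td g⁻¹ ∈ T1 then 0 else 1
  have hden := chebotarev_gal_of htw ρ' hρ'.level f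
    (fun x _ y _ => by
      have h1 : (y⁻¹ * x * y)⁻¹ = y⁻¹ * x⁻¹ * y := by group
      simp only [f, h1, td_conj])
    (fun x _ => by
      simp only [f, inv_inv]
      congr 1
      exact propext or_comm)
  have hle : (∑ g : ρ'.range, f g) / Fintype.card ρ'.range ≤ 1 / 4 := by
    refine density_le hden hX S fun p hpS => ?_
    obtain ⟨h1, h2⟩ := hS p p.2 hpS
    by_cases hpX : p ∈ X
    · have h3 : ind X p = 1 := if_pos hpX
      rw [h3]
      simp only [f]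
      split_ifs <;> norm_num
    · have h3 := hT p h1 hpX
      obtain ⟨h4, h5⟩ := hρ'.frob p p.2 h1 h2 _ (Pl_liesOver p) _ (Fr_spec p)
      have h6 : td (ρ' (Fr p)) ∈ T1 := by
        rw [Finset.mem_image]
        exact ⟨_, h3, by rw [td, h4, h5]⟩
      have h7 : f (ρ' (Fr p)) = 0 := if_pos (Or.inl h6)
      rw [h7]
      exact ind_nonneg X p
  let Hs : Finset ρ'.range := Finset.univ.filter fun g => td (g : GL (Fin 2) κ) ∈ T1 ∨ td (g : GL (Fin 2) κ)⁻¹ ∈ T1
  let H : Finset (GL (Fin 2) κ) := Hs.map (Function.Embedding.subtype _)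
  have hcardH : H.card = Hs.card := Finset.card_map _
  have hsum : (∑ g : ρ'.range, f g) = (Fintype.card ρ'.range : ℝ) - Hs.card := by
    have h1 : ∀ g : ρ'.range, f g = 1 - (if td (g : GL (Fin 2) κ) ∈ T1 ∨ td (g : GL (Fin 2) κ)⁻¹ ∈ T1 then (1 : ℝ) else 0) := by
      intro g
      simp only [f]
      split_ifs <;> norm_num
    rw [Finset.sum_congr rfl fun g _ => h1 g, Finset.sum_sub_distrib, Finset.sum_const,
      Finset.card_univ, nsmul_eq_mul, mul_one, Finset.sum_boole]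
  have hcpos : (0 : ℝ) < Fintype.card ρ'.range := by exact_mod_cast Fintype.card_pos
  have hH : 3 * Nat.card ρ'.range ≤ 4 * H.card := by
    rw [hcardH, Nat.card_eq_fintype_card]
    rw [hsum, div_le_iff₀ hcpos] at hle
    have : (3 : ℝ) * Fintype.card ρ'.range ≤ 4 * Hs.card := by linarith
    exact_mod_cast this
  let T2 : Finset (κ × κ) := T1 ∪ T1.image fun x => (x.1 / x.2, 1 / x.2)
  have hT1c : T1.card ≤ T.card := Finset.card_image_le
  have hT2c : T2.card ≤ 2 * T.card := by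
    have h1 : T2.card ≤ T1.card + (T1.image fun x => (x.1 / x.2, 1 / x.2)).card :=
      Finset.card_union_le _ _
    have h2 : (T1.image fun x : κ × κ => (x.1 / x.2, 1 / x.2)).card ≤ T1.card :=
      Finset.card_image_le
    omega
  have hM : ∃ T : Finset (κ × κ), T.card ≤ T2.card ∧ ∀ g ∈ H, td g ∈ T := by
    refine ⟨T2, le_rfl, fun g hg => ?_⟩
    rw [Finset.mem_map] at hg
    obtain ⟨g', hg', rfl⟩ := hg
    rw [Finset.mem_filter] at hg'
    rw [Finset.mem_union]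
    rcases hg'.2 with h | h
    · exact Or.inl h
    · right
      rw [Finset.mem_image]
      refine ⟨_, h, ?_⟩
      rw [← td_inv, inv_inv]
      rfl
  have hbd := card_le_of_few_charpoly ℓ ρ'.range ?_ htr (2 * T.card) H ?_ hH ?_ ?_
  · have := hbd.2
    omega
  · rcases hss with h | ⟨χ₁, χ₂, h⟩
    · left
      intro v hv
      obtain ⟨g, hg⟩ := h v hv
      exact ⟨ρ' g, ⟨g, rfl⟩, hg⟩
    · right
      subst h
      exact not_dvd_card_range_diagRep ℓ χ₁ χ₂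
  · intro g hg
    rw [Finset.mem_map] at hg
    obtain ⟨g', -, rfl⟩ := hg
    exact g'.2
  · obtain ⟨T', h1, h2⟩ := hM
    exact ⟨T', h1.trans hT2c, h2⟩
  · omega

end Fermat.Agent.H85
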