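import Mathlib
import Fermat.Agent.H85Bound

/-!
The Deligne–Serre theorem from its inputs: mod `ℓ` representations, the mean square bound for the
Hecke eigenvalues, and Chebotarev's density theorem.
-/

namespace Fermat.Agent.H85

open Matrix Filter Topology

open Fermat.Agent.H99 (dsum HasLogDensity)

local notation "Γℚ" => (AlgebraicClosure ℚ ≃ₐ[ℚ] AlgebraicClosure ℚ)
local notation "Qb" => AlgebraicClosure ℚ

lemma norm_add_sq_of_norm_one (x y : ℂˣ) (hx : ‖(x : ℂ)‖ = 1) (hy : ‖(y : ℂ)‖ = 1) :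
    ‖(x : ℂ) + y‖ ^ 2 = 2 + 2 * ((x : ℂ) * (y⁻¹ : ℂˣ)).re := by
  have h1 : ((y⁻¹ : ℂˣ) : ℂ) = (starRingEnd ℂ) (y : ℂ) := by
    have h2 : (y : ℂ) * (starRingEnd ℂ) (y : ℂ) = 1 := by
      rw [Complex.mul_conj, Complex.normSq_eq_norm_sq, hy]; norm_num
    rw [Units.val_inv_eq_inv_val]
    exact inv_eq_of_mul_eq_one_right h2
  rw [h1, ← Complex.normSq_eq_norm_sq, Complex.normSq_add, Complex.normSq_eq_norm_sq,
    Complex.normSq_eq_norm_sq, hx, hy]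
  ring

theorem noLine_of (htw : TwistBound) (N : ℕ) (hN0 : N ≠ 0) (a : ℕ → ZZ)
    (ρ : Γℚ →* GL (Fin 2) ℂ) (hρ : GaloisFactorsThroughFiniteLevel ρ)
    (hfr : ∀ p : ℕ, p.Prime → ¬ p ∣ N → ∀ A : ValuationSubring Qb, A.LiesOverPrime p →
      ∀ σ : Γℚ, A.IsFrobeniusAt σ p →
        ((ρ σ : GL (Fin 2) ℂ) : Matrix (Fin 2) (Fin 2) ℂ).trace = (a p : ℂ))
    (hA2 : ∀ c : ℝ, 0 < c →
      ULD (fun p : Nat.Primes => if (p : ℕ) ∣ N then 0 else min (‖((a p : ZZ) : ℂ)‖ ^ 2) c) 1) :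
    NoLine ρ := by
  classical
  by_contra hcon
  rw [NoLine] at hcon
  push Not at hcon
  obtain ⟨v, hv, hv'⟩ := hcon
  obtain ⟨χ, hχ⟩ := exists_char ρ v hv hv'
  let dt : Γℚ →* ℂˣ := (GeneralLinearGroup.det (n := Fin 2) (R := ℂ)).comp ρ
  have hdt : ∀ g, (dt g : ℂ) = (ρ g).val.det := fun g => rfl
  let χ₂ : Γℚ →* ℂˣ := dt * χ⁻¹
  have htr : ∀ g, (ρ g).val.trace = (χ g : ℂ) + χ₂ g := by
    intro σ
    have h1 := trace_eq_of_fixed _ v hv _ (hχ σ)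
    have h2 : (χ σ : ℂ) ≠ 0 := (χ σ).ne_zero
    simp only [χ₂, MonoidHom.mul_apply, MonoidHom.inv_apply, Units.val_mul,
      Units.val_inv_eq_inv_val, hdt]
    field_simp
    linear_combination -h1
  let ψ : Γℚ →* ℂˣ × ℂˣ := χ.prod χ₂
  have hker : ∀ σ, ρ σ = 1 → ψ σ = 1 := by
    intro σ hσ
    have h1 : χ σ = 1 := by
      have h2 := hχ σ
      rw [hσ, Units.val_one, one_mulVec] at h2
      have h3 : ((1 : ℂ) - (χ σ : ℂ)) • v = 0 := by rw [sub_smul, one_smul, ← h2, sub_self]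
      rcases smul_eq_zero.mp h3 with h4 | h4
      · exact Units.ext (sub_eq_zero.mp h4).symm
      · exact absurd h4 hv
    have h2 : dt σ = 1 := by
      show (GeneralLinearGroup.det (ρ σ)) = 1
      rw [hσ, map_one]
    refine Prod.ext h1 ?_
    show dt σ * (χ σ)⁻¹ = 1
    rw [h1, h2, inv_one, one_mul]
  have hψ := level_comp hρ ψ hker
  have hfin := finite_range ψ hψ
  have := Fintype.ofFinite ψ.range
  have hnorm : ∀ g : ψ.range, ‖((g : ℂˣ × ℂˣ).1 : ℂ)‖ = 1 ∧ ‖((g : ℂˣ × ℂˣ).2 : ℂ)‖ = 1 := by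
    intro g
    have h1 : g ^ Fintype.card ψ.range = 1 := pow_card_eq_one
    have h2 : (g : ℂˣ × ℂˣ) ^ Fintype.card ψ.range = 1 := congrArg Subtype.val h1
    have h3 : Fintype.card ψ.range ≠ 0 := Fintype.card_ne_zero
    constructor
    · have h4 : (((g : ℂˣ × ℂˣ).1 : ℂ)) ^ Fintype.card ψ.range = 1 := by
        rw [← Units.val_pow_eq_pow_val]
        exact congrArg (fun x : ℂˣ × ℂˣ => (x.1 : ℂ)) h2
      exact Complex.norm_eq_one_of_pow_eq_one h4 h3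
    · have h4 : (((g : ℂˣ × ℂˣ).2 : ℂ)) ^ Fintype.card ψ.range = 1 := by
        rw [← Units.val_pow_eq_pow_val]
        exact congrArg (fun x : ℂˣ × ℂˣ => (x.2 : ℂ)) h2
      exact Complex.norm_eq_one_of_pow_eq_one h4 h3
  let f : ℂˣ × ℂˣ → ℝ := fun x => ‖(x.1 : ℂ) + x.2‖ ^ 2
  have hf : ∀ g : ψ.range, f g = 2 + 2 * (((g : ℂˣ × ℂˣ).1 : ℂ) * ((g : ℂˣ × ℂˣ).2⁻¹ : ℂˣ)).re :=
    fun g => norm_add_sq_of_norm_one _ _ (hnorm g).1 (hnorm g).2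
  have hden := chebotarev_gal_of htw ψ hψ f
    (fun x _ y _ => by
      have : y⁻¹ * x * y = x := by rw [mul_comm y⁻¹ x, mul_assoc, inv_mul_cancel, mul_one]
      rw [this])
    (fun x hx => by
      have h1 := hf ⟨x, hx⟩
      have h2 := hf ⟨x⁻¹, inv_mem hx⟩
      rw [h1, h2]
      show 2 + 2 * (((x.1⁻¹ : ℂˣ) : ℂ) * (((x.2⁻¹)⁻¹ : ℂˣ) : ℂ)).re =
        2 + 2 * ((x.1 : ℂ) * (x.2⁻¹ : ℂˣ)).re
      rw [inv_inv]
      have h3 : ((x.1⁻¹ : ℂˣ) : ℂ) * (x.2 : ℂ) = (starRingEnd ℂ) ((x.1 : ℂ) * (x.2⁻¹ : ℂˣ)) := by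
        have conj_eq : ∀ y : ℂˣ, ‖(y : ℂ)‖ = 1 → ((y⁻¹ : ℂˣ) : ℂ) = (starRingEnd ℂ) (y : ℂ) := by
          intro y hy
          have h2 : (y : ℂ) * (starRingEnd ℂ) (y : ℂ) = 1 := by
            rw [Complex.mul_conj, Complex.normSq_eq_norm_sq, hy]; norm_num
          rw [Units.val_inv_eq_inv_val]
          exact inv_eq_of_mul_eq_one_right h2
        rw [map_mul, conj_eq x.1 (hnorm ⟨x, hx⟩).1, conj_eq x.2 (hnorm ⟨x, hx⟩).2,
          Complex.conj_conj]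
      rw [h3, Complex.conj_re])
  let η : ψ.range →* ℂ :=
    { toFun := fun g => ((g : ℂˣ × ℂˣ).1 : ℂ) * ((g : ℂˣ × ℂˣ).2⁻¹ : ℂˣ)
      map_one' := by simp
      map_mul' := by
        intro g h
        simp only [Subgroup.coe_mul, Prod.fst_mul, Prod.snd_mul, mul_inv, Units.val_mul]
        ring }
  have hη : 0 ≤ (∑ g : ψ.range, η g).re := by
    rw [sum_hom_units]
    split_ifs
    · simp
    · simp
  have hcpos : (0 : ℝ) < Fintype.card ψ.range := by exact_mod_cast Fintype.card_pos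
  have hsum : 2 ≤ (∑ g : ψ.range, f g) / Fintype.card ψ.range := by
    rw [le_div_iff₀ hcpos, Finset.sum_congr rfl fun g _ => hf g, Finset.sum_add_distrib,
      Finset.sum_const, Finset.card_univ, nsmul_eq_mul, ← Finset.mul_sum, ← Complex.re_sum]
    have h1 : (∑ g : ψ.range, ((g : ℂˣ × ℂˣ).1 : ℂ) * ((g : ℂˣ × ℂˣ).2⁻¹ : ℂˣ)) =
      ∑ g : ψ.range, η g := rfl
    rw [h1]
    linarith
  have hle : (∑ g : ψ.range, f g) / Fintype.card ψ.range ≤ 1 := by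
    refine density_le hden (hA2 4 (by norm_num)) N.primeFactors fun p hpS => ?_
    have hpN : ¬ (p : ℕ) ∣ N := fun h => hpS (Nat.mem_primeFactors.mpr ⟨p.2, h, hN0⟩)
    simp only [if_neg hpN]
    have h1 := hfr p p.2 hpN _ (Pl_liesOver p) _ (Fr_spec p)
    rw [htr] at h1
    have h2 : f (ψ (Fr p)) = ‖((a p : ZZ) : ℂ)‖ ^ 2 := by
      rw [← h1]; rfl
    rw [h2]
    refine le_min le_rfl ?_
    have h3 := hnorm ⟨ψ (Fr p), ⟨_, rfl⟩⟩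
    have h4 : ‖((a p : ZZ) : ℂ)‖ ≤ 2 := by
      rw [← h1]
      refine (norm_add_le _ _).trans ?_
      have h5 : ‖(χ (Fr p) : ℂ)‖ = 1 := h3.1
      have h6 : ‖(χ₂ (Fr p) : ℂ)‖ = 1 := h3.2
      rw [h5, h6]; norm_num
    nlinarith [norm_nonneg ((a p : ZZ) : ℂ)]
  linarith

/-- **Deligne–Serre theorem** from its inputs. -/
theorem deligneSerre_of (htw : TwistBound) (N : ℕ) (hN0 : N ≠ 0) (a e : ℕ → ZZ)
    (E : IntermediateField ℚ ℂ) [FiniteDimensional ℚ E]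
    (haE : ∀ p : ℕ, p.Prime → ¬ p ∣ N → (a p : ℂ) ∈ E)
    (heE : ∀ p : ℕ, p.Prime → ¬ p ∣ N → (e p : ℂ) ∈ E)
    (n : ℕ) (hn : 0 < n) (he : ∀ p : ℕ, p.Prime → ¬ p ∣ N → e p ^ n = 1)
    (hA2 : ∀ σ : ℂ →+* ℂ, ∀ c : ℝ, 0 < c →
      ULD (fun p : Nat.Primes => if (p : ℕ) ∣ N then 0 else min (‖σ (a p)‖ ^ 2) c) 1)
    (hC : ∃ ℓ₀ : ℕ, ∀ ℓ : ℕ, ℓ.Prime → ℓ₀ < ℓ → ∀ (κ : Type) [Field κ] [IsAlgClosed κ] [CharP κ ℓ]
      (φ : ZZ →+* κ), ∃ ρ : Γℚ →* GL (Fin 2) κ, IsModRep N a e ℓ φ ρ) :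
    ∃ ρ : Γℚ →* GL (Fin 2) ℂ, GaloisFactorsThroughFiniteLevel ρ ∧
      (Deformation.matrixRepresentation ρ).IsIrreducible ∧
      ∀ p : ℕ, p.Prime → ¬ p ∣ N →
        ∀ A : ValuationSubring Qb, A.LiesOverPrime p →
          (∀ σ ∈ A.inertiaSubgroupIn ℚ, ρ σ = 1) ∧
          ∀ σ : Γℚ, A.IsFrobeniusAt σ p →
            ((ρ σ : GL (Fin 2) ℂ) : Matrix (Fin 2) (Fin 2) ℂ).trace = (a p : ℂ) ∧
            ((ρ σ : GL (Fin 2) ℂ) : Matrix (Fin 2) (Fin 2) ℂ).det = (e p : ℂ) := by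
  classical
  obtain ⟨ℓ₀, hC⟩ := hC
  obtain ⟨T, X, hX, hT⟩ := exists_good N a e E haE n hn he hA2 (1 / 4) (by norm_num)
  obtain ⟨S, hS, hres⟩ := exists_residue E
  let B : ℕ := max ℓ₀ (16 * T.card + 1)
  let S' : Set ℕ := S \ Set.Iic B
  have hS' : S'.Infinite := hS.sdiff (Set.finite_Iic B)
  have key : ∀ s : S', ∃ (_ : Fact (s : ℕ).Prime) (φ : ZZ →+* AlgebraicClosure (ZMod s))
      (ρ : Γℚ →* GL (Fin 2) (AlgebraicClosure (ZMod s))), IsModRep N a e s φ ρ ∧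
        Finite ρ.range ∧ Nat.card ρ.range ≤ 320 * T.card := by
    intro s
    obtain ⟨hf, φ, hφ⟩ := hres s s.2.1
    have hB : B < (s : ℕ) := not_le.mp s.2.2
    have h1 : ℓ₀ < (s : ℕ) := (le_max_left _ _).trans_lt hB
    have h2 : 16 * T.card + 1 < (s : ℕ) := (le_max_right _ _).trans_lt hB
    obtain ⟨ρ, hρ⟩ := hC s hf.out h1 (AlgebraicClosure (ZMod s)) φ
    exact ⟨hf, φ, card_bound htw N hN0 a e T X hX hT s (by omega) φ
      (fun p hp hpN => hφ _ (haE p hp hpN)) (fun p hp hpN => hφ _ (heE p hp hpN)) ρ hρ⟩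
  choose hf φ ρ hρ hfin hcard using key
  obtain ⟨r, hr, hmain⟩ := glue N hN0 a e (320 * T.card) S' hS'
    (fun s => AlgebraicClosure (ZMod (s : ℕ))) φ ρ hρ hfin hcard
  refine ⟨r, hr, isIrreducible_of_noLine r ?_, hmain⟩
  refine noLine_of htw N hN0 a r hr (fun p hp hpN A hA σ hσ => ((hmain p hp hpN A hA).2 σ hσ).1) ?_
  intro c hc
  exact hA2 (RingHom.id ℂ) c hc

end Fermat.Agent.H85
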