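import Mathlib
import Fermat.Agent.H48Neb

/-!
# Mean square bound for the coefficients of weight one cusp forms
-/

set_option autoImplicit false

noncomputable section

namespace Fermat.Agent.H48

open UpperHalfPlane hiding I
open ModularForm CongruenceSubgroup ModularFormClass
open scoped MatrixGroups ModularForm Manifold
open Complex (I)

section Bessel

/-- Bessel's inequality for continuous functions on the circle. -/
theorem bessel (g : C(AddCircle (1 : ℝ), ℂ)) {B : ℝ} (hB : ∀ x, ‖g x‖ ≤ B) (s : Finset ℤ) :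
    ∑ i ∈ s, ‖fourierCoeff g i‖ ^ 2 ≤ B ^ 2 := by
  haveI : Fact ((0 : ℝ) < 1) := ⟨one_pos⟩
  have hB0 : 0 ≤ B := (norm_nonneg _).trans (hB 0)
  set x : MeasureTheory.Lp ℂ 2 (@AddCircle.haarAddCircle 1 _) :=
    ContinuousMap.toLp (E := ℂ) 2 AddCircle.haarAddCircle ℂ g with hx
  have h1 : ∀ i, fourierCoeff g i = inner ℂ (@fourierLp 1 _ 2 _ i) x := by
    intro i
    rw [← fourierCoeff_toLp, ← fourierBasis_repr, HilbertBasis.repr_apply_apply, coe_fourierBasis]
  simp only [h1]
  refine (Orthonormal.sum_inner_products_le x orthonormal_fourier).trans ?_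
  have h2 : ‖x‖ ≤ B := by
    have h3 : ∀ᵐ t ∂(@AddCircle.haarAddCircle 1 _), ‖x t‖ ≤ B := by
      filter_upwards [ContinuousMap.coeFn_toLp (p := 2) (𝕜 := ℂ) (@AddCircle.haarAddCircle 1 _) g] with t ht
      rw [hx, ht]
      exact hB t
    have h4 := MeasureTheory.Lp.norm_le_of_ae_bound hB0 h3
    simpa [MeasureTheory.measureUnivNNReal] using h4
  exact pow_le_pow_left₀ (norm_nonneg _) h2 2

end Bessel

variable {N : ℕ}

theorem sum_sq_qCoeff_le_line (f : CuspForm (Gamma1 N) 1) {t B : ℝ} (ht : 0 < t)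
    (hB : ∀ τ : ℍ, τ.im = t → ‖f τ‖ ≤ B) (K : ℕ) :
    ∑ n ∈ Finset.range K, ‖qCoeff f n‖ ^ 2 * Real.exp (-4 * Real.pi * n * t) ≤ B ^ 2 := by
  haveI : Fact ((0 : ℝ) < 1) := ⟨one_pos⟩
  have hΓ := Fermat.Agent.H58.one_mem_strictPeriods_Gamma1 N
  have hper := SlashInvariantFormClass.periodic_comp_ofComplex f hΓ
  -- the restriction to the horizontal line
  let F : ℝ → ℂ := fun u => (⇑f ∘ ofComplex) (u + t * I)
  have hFper : Function.Periodic F 1 := by
    intro u
    show (⇑f ∘ ofComplex) ((u + 1 : ℝ) + t * I) = (⇑f ∘ ofComplex) (u + t * I)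
    have := hper (u + t * I)
    rw [← this]
    congr 1
    push_cast
    ring
  have hmem : ∀ u : ℝ, 0 < ((u : ℂ) + t * I).im := fun u => by simpa using ht
  have hFf : ∀ u : ℝ, F u = f ⟨u + t * I, hmem u⟩ := by
    intro u
    show f (ofComplex (u + t * I)) = _
    rw [ofComplex_apply_of_im_pos (hmem u)]
  have hFc : Continuous F := by
    have h1 : Continuous (fun u : ℝ => (⟨u + t * I, hmem u⟩ : ℍ)) := by
      rw [UpperHalfPlane.isEmbedding_coe.continuous_iff]
      show Continuous (fun u : ℝ => (u : ℂ) + t * I)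
      fun_prop
    have h2 := (CuspFormClass.holo f).continuous.comp h1
    have h3 : F = (⇑f ∘ fun u : ℝ => (⟨u + t * I, hmem u⟩ : ℍ)) := funext hFf
    rw [h3]
    exact h2
  let g : C(AddCircle (1 : ℝ), ℂ) := ⟨hFper.lift, by
    exact continuous_coinduced_dom.mpr hFc⟩
  have hgB : ∀ x, ‖g x‖ ≤ B := by
    intro x
    induction x using QuotientAddGroup.induction_on with
    | H u =>
      show ‖F u‖ ≤ B
      rw [hFf]
      exact hB _ (by simp [UpperHalfPlane.im])
  have hcoeff : ∀ n : ℕ, fourierCoeff g n = qCoeff f n * Real.exp (-2 * Real.pi * n * t) := by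
    intro n
    rw [fourierCoeff_eq_intervalIntegral g n 0]
    have h1 := ModularFormClass.qExpansion_coeff_eq_intervalIntegral f one_pos hΓ n ht
    have h2 : qCoeff f n = (qExpansion 1 f).coeff n := rfl
    rw [h2, h1, ← intervalIntegral.integral_const_mul, zero_add,
      ← intervalIntegral.integral_mul_const]
    simp only [div_one, one_smul, Complex.ofReal_one, one_mul]
    refine intervalIntegral.integral_congr fun u _ => ?_
    show fourier (-(n : ℤ)) (u : AddCircle (1 : ℝ)) • F u = _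
    rw [hFf u, fourier_coe_apply, smul_eq_mul, Function.Periodic.qParam, ← Complex.exp_nat_mul,
      one_div, ← Complex.exp_neg]
    have key : Complex.exp (2 * ↑Real.pi * I * ((-(n : ℤ) : ℤ) : ℂ) * u / ((1 : ℝ) : ℂ)) =
        Complex.exp (-(n * (2 * ↑Real.pi * I * (u + t * I) / ((1 : ℝ) : ℂ)))) *
          Complex.exp ((-2 * Real.pi * n * t : ℝ) : ℂ) := by
      rw [← Complex.exp_add]
      congr 1
      push_cast
      ring_nf
      rw [Complex.I_sq]
      ring
    rw [Complex.ofReal_exp, key]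
    ring
  have h5 := bessel g hgB ((Finset.range K).map ⟨fun n : ℕ => (n : ℤ), fun a b h => by simpa using h⟩)
  rw [Finset.sum_map] at h5
  refine le_trans (le_of_eq ?_) h5
  refine Finset.sum_congr rfl fun n _ => ?_
  show _ = ‖fourierCoeff g (n : ℤ)‖ ^ 2
  rw [hcoeff n, norm_mul, mul_pow, Complex.norm_real, Real.norm_of_nonneg (Real.exp_pos _).le,
    ← Real.exp_nat_mul]
  congr 2
  push_cast
  ring

/-- **Mean square bound.** -/
theorem exists_sum_sq_qCoeff_le [NeZero N] (f : CuspForm (Gamma1 N) 1) :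
    ∃ C : ℝ, 0 ≤ C ∧ ∀ X : ℕ, ∑ n ∈ Finset.range (X + 1), ‖qCoeff f n‖ ^ 2 ≤ C * X := by
  obtain ⟨C, hC⟩ := CuspFormClass.exists_bound f
  refine ⟨C ^ 2 * Real.exp (4 * Real.pi), by positivity, fun X => ?_⟩
  rcases Nat.eq_zero_or_pos X with rfl | hX
  · have h0 : qCoeff f 0 = 0 := by
      haveI : Fact (IsCusp OnePoint.infty (Gamma1 N : Subgroup (GL (Fin 2) ℝ))) :=
        ⟨Subgroup.isCusp_of_mem_strictPeriods one_pos
          (Fermat.Agent.H58.one_mem_strictPeriods_Gamma1 N)⟩
      exact CuspFormClass.qExpansion_coeff_zero f one_pos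
        (Fermat.Agent.H58.one_mem_strictPeriods_Gamma1 N)
    simp [h0]
  have hX' : (0 : ℝ) < X := by exact_mod_cast hX
  have h1 := sum_sq_qCoeff_le_line f (t := 1 / X) (B := C / (1 / X : ℝ) ^ ((1 : ℝ) / 2))
    (by positivity) (fun τ hτ => by
      have := hC τ
      rw [hτ] at this
      simpa using this) (X + 1)
  have h2 : (C / (1 / X : ℝ) ^ ((1 : ℝ) / 2)) ^ 2 = C ^ 2 * X := by
    rw [div_pow, ← Real.rpow_natCast ((1 / X : ℝ) ^ ((1 : ℝ) / 2)) 2, ← Real.rpow_mul (by positivity)]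
    norm_num
  rw [h2] at h1
  calc ∑ n ∈ Finset.range (X + 1), ‖qCoeff f n‖ ^ 2
      ≤ ∑ n ∈ Finset.range (X + 1),
        Real.exp (4 * Real.pi) * (‖qCoeff f n‖ ^ 2 * Real.exp (-4 * Real.pi * n * (1 / X))) := by
        refine Finset.sum_le_sum fun n hn => ?_
        have hn' : (n : ℝ) ≤ X := by
          have := Nat.lt_succ_iff.1 (Finset.mem_range.1 hn)
          exact_mod_cast this
        have h3 : (1 : ℝ) ≤ Real.exp (4 * Real.pi) * Real.exp (-4 * Real.pi * n * (1 / X)) := by
          rw [← Real.exp_add, Real.one_le_exp_iff]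
          have h4 : (n : ℝ) * (1 / X) ≤ 1 := by
            rw [mul_one_div, div_le_one hX']
            exact hn'
          nlinarith [Real.pi_pos]
        nlinarith [sq_nonneg ‖qCoeff f n‖]
    _ = Real.exp (4 * Real.pi) *
        ∑ n ∈ Finset.range (X + 1), ‖qCoeff f n‖ ^ 2 * Real.exp (-4 * Real.pi * n * (1 / X)) := by
        rw [Finset.mul_sum]
    _ ≤ Real.exp (4 * Real.pi) * (C ^ 2 * X) := by
        gcongr
    _ = C ^ 2 * Real.exp (4 * Real.pi) * X := by ring

end Fermat.Agent.H48
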