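import Mathlib
import Fermat.Agent.H48Anal

/-!
# The Rankin type bound (A2)

`rankin_bound`: for a weight one cusp form on `Γ₁(N)` satisfying the Hecke relations away from `N`,
`∑_{p ∈ P} min(|a_p|², c) p^{-s} ≤ log (1/(s-1)) + C` for all finite sets `P` of primes `p ∤ N` and
all `1 < s ≤ 2`, with `C` depending only on `f` and `c`.
-/

set_option autoImplicit false

noncomputable section

namespace Fermat.Agent.H48

open ModularForm CongruenceSubgroup ModularFormClass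
open scoped MatrixGroups ModularForm

/-- Abel summation inequality. -/
theorem abel_nonneg {d w : ℕ → ℝ} (hw : Antitone w) (hw0 : ∀ n, 0 ≤ w n)
    (hd : ∀ K, 0 ≤ ∑ n ∈ Finset.range K, d n) (K : ℕ) :
    0 ≤ ∑ n ∈ Finset.range K, d n * w n := by
  have key : ∀ K, (∑ n ∈ Finset.range (K + 1), d n) * w K ≤
      ∑ n ∈ Finset.range (K + 1), d n * w n := by
    intro K
    induction K with
    | zero => simp
    | succ K ih =>
      rw [Finset.sum_range_succ (fun n => d n * w n), Finset.sum_range_succ d]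
      have h1 : (∑ n ∈ Finset.range (K + 1), d n) * w (K + 1) ≤
          (∑ n ∈ Finset.range (K + 1), d n) * w K :=
        mul_le_mul_of_nonneg_left (hw (Nat.le_succ K)) (hd _)
      linarith
  cases K with
  | zero => simp
  | succ K => exact (mul_nonneg (hd _) (hw0 K)).trans (key K)

theorem sum_rpow_le {s : ℝ} (hs : 1 < s) (K : ℕ) :
    ∑ n ∈ Finset.range K, ((n : ℝ) + 1) ^ (-s) ≤ 1 + 1 / (s - 1) := by
  have hs1 : 0 < s - 1 := by linarith
  have key : ∀ K : ℕ, ∑ n ∈ Finset.range (K + 1), ((n : ℝ) + 1) ^ (-s) ≤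
      1 + (1 - ((K : ℝ) + 1) ^ (1 - s)) / (s - 1) := by
    intro K
    induction K with
    | zero => simp
    | succ K ih =>
      rw [Finset.sum_range_succ]
      push_cast
      have hK : (0 : ℝ) < (K : ℝ) + 1 := by positivity
      have hK2 : (0 : ℝ) < (K : ℝ) + 1 + 1 := by positivity
      -- the step: (n+1)^(-s) ≤ (n^(1-s) - (n+1)^(1-s))/(s-1)
      have h1 : ((K : ℝ) + 1 + 1) ^ (-s) ≤
          (((K : ℝ) + 1) ^ (1 - s) - ((K : ℝ) + 1 + 1) ^ (1 - s)) / (s - 1) := by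
        rw [le_div_iff₀ hs1]
        have h2 : ((K : ℝ) + 1) ^ (1 - s) = ((K : ℝ) + 1 + 1) ^ (1 - s) *
            (((K : ℝ) + 1) / ((K : ℝ) + 1 + 1)) ^ (1 - s) := by
          rw [Real.div_rpow hK.le hK2.le]
          field_simp
        have h3 : 1 + (s - 1) * (1 / ((K : ℝ) + 1 + 1)) ≤
            (((K : ℝ) + 1) / ((K : ℝ) + 1 + 1)) ^ (1 - s) := by
          rw [Real.rpow_def_of_pos (by positivity)]
          have h4 : Real.log (((K : ℝ) + 1) / ((K : ℝ) + 1 + 1)) ≤ - (1 / ((K : ℝ) + 1 + 1)) := by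
            have h5 := Real.log_le_sub_one_of_pos (x := ((K : ℝ) + 1) / ((K : ℝ) + 1 + 1))
              (by positivity)
            have h6 : ((K : ℝ) + 1) / ((K : ℝ) + 1 + 1) - 1 = - (1 / ((K : ℝ) + 1 + 1)) := by
              field_simp
              ring
            linarith
          have h7 := Real.add_one_le_exp
            (Real.log (((K : ℝ) + 1) / ((K : ℝ) + 1 + 1)) * (1 - s))
          nlinarith
        have h8 : ((K : ℝ) + 1 + 1) ^ (-s) = ((K : ℝ) + 1 + 1) ^ (1 - s) * (1 / ((K : ℝ) + 1 + 1)) := by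
          rw [show (-s) = (1 - s) - 1 by ring, Real.rpow_sub_one hK2.ne']
          ring
        rw [h8, h2]
        have h9 : 0 < ((K : ℝ) + 1 + 1) ^ (1 - s) := Real.rpow_pos_of_pos hK2 _
        nlinarith
      have h10 : 1 + (1 - ((K : ℝ) + 1) ^ (1 - s)) / (s - 1) +
          (((K : ℝ) + 1) ^ (1 - s) - ((K : ℝ) + 1 + 1) ^ (1 - s)) / (s - 1) =
          1 + (1 - ((K : ℝ) + 1 + 1) ^ (1 - s)) / (s - 1) := by
        ring
      linarith
  cases K with
  | zero => simp; positivity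
  | succ K =>
    refine (key K).trans ?_
    have h1 : 0 < ((K : ℝ) + 1) ^ (1 - s) := Real.rpow_pos_of_pos (by positivity) _
    gcongr
    linarith

variable {N : ℕ}

theorem dirichlet_le [NeZero N] (f : CuspForm (Gamma1 N) 1) :
    ∃ C : ℝ, 0 ≤ C ∧ ∀ s : ℝ, 1 < s → s ≤ 2 → ∀ K : ℕ,
      ∑ n ∈ Finset.range K, ‖qCoeff f (n + 1)‖ ^ 2 * ((n : ℝ) + 1) ^ (-s) ≤ C / (s - 1) := by
  obtain ⟨C, hC0, hC⟩ := exists_sum_sq_qCoeff_le f
  refine ⟨2 * C, by positivity, fun s hs hs2 K => ?_⟩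
  have hs1 : 0 < s - 1 := by linarith
  have h1 := abel_nonneg (d := fun n => C - ‖qCoeff f (n + 1)‖ ^ 2)
    (w := fun n => ((n : ℝ) + 1) ^ (-s)) (by
      intro a b hab
      have : (a : ℝ) ≤ b := by exact_mod_cast hab
      exact Real.rpow_le_rpow_of_nonpos (by positivity) (by linarith) (by linarith))
    (fun n => by positivity) (by
      intro K
      have h2 := hC K
      rw [Finset.sum_range_succ'] at h2
      rw [Finset.sum_sub_distrib, Finset.sum_const, Finset.card_range, nsmul_eq_mul]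
      have h3 : 0 ≤ ‖qCoeff f 0‖ ^ 2 := by positivity
      linarith) K
  have h4 : ∑ n ∈ Finset.range K, (C - ‖qCoeff f (n + 1)‖ ^ 2) * ((n : ℝ) + 1) ^ (-s) =
      C * ∑ n ∈ Finset.range K, ((n : ℝ) + 1) ^ (-s) -
      ∑ n ∈ Finset.range K, ‖qCoeff f (n + 1)‖ ^ 2 * ((n : ℝ) + 1) ^ (-s) := by
    rw [Finset.mul_sum, ← Finset.sum_sub_distrib]
    exact Finset.sum_congr rfl fun n _ => by ring
  rw [h4] at h1
  have h5 := sum_rpow_le hs K
  have h6 : 1 + 1 / (s - 1) ≤ 2 / (s - 1) := by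
    rw [show (2 : ℝ) / (s - 1) = 1 / (s - 1) + 1 / (s - 1) by ring]
    have : 1 ≤ 1 / (s - 1) := by
      rw [le_div_iff₀ hs1]; linarith
    linarith
  have h7 : C * ∑ n ∈ Finset.range K, ((n : ℝ) + 1) ^ (-s) ≤ C * (2 / (s - 1)) :=
    mul_le_mul_of_nonneg_left (h5.trans h6) hC0
  have h8 : 2 * C / (s - 1) = C * (2 / (s - 1)) := by ring
  rw [h8]
  linarith

/-- Multiplicativity on squarefree products of good primes. -/
theorem qCoeff_prod (a : ℕ → ℂ) (h1 : a 1 = 1)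
    (hT : ∀ p : ℕ, p.Prime → ¬ p ∣ N → ∀ n : ℕ, ¬ p ∣ n → a (p * n) = a p * a n)
    (t : Finset ℕ) (ht : ∀ p ∈ t, p.Prime ∧ ¬ p ∣ N) : a (∏ p ∈ t, p) = ∏ p ∈ t, a p := by
  classical
  induction t using Finset.induction_on with
  | empty => simp [h1]
  | insert p t hp ih =>
    rw [Finset.prod_insert hp, Finset.prod_insert hp,
      hT p (ht p (Finset.mem_insert_self _ _)).1 (ht p (Finset.mem_insert_self _ _)).2, ih]
    · exact fun q hq => ht q (Finset.mem_insert_of_mem hq)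
    · intro hdvd
      obtain ⟨q, hq, hpq⟩ := (Prime.dvd_finset_prod_iff
        (ht p (Finset.mem_insert_self _ _)).1.prime _).1 hdvd
      have := (Nat.prime_dvd_prime_iff_eq (ht p (Finset.mem_insert_self _ _)).1
        (ht q (Finset.mem_insert_of_mem hq)).1).1 hpq
      exact hp (this ▸ hq)

/-- The finite Euler product is bounded by the Dirichlet series. -/
theorem prod_le_sum (a : ℕ → ℂ) (h1 : a 1 = 1)
    (hT : ∀ p : ℕ, p.Prime → ¬ p ∣ N → ∀ n : ℕ, ¬ p ∣ n → a (p * n) = a p * a n)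
    (s : ℝ) (P : Finset ℕ) (hP : ∀ p ∈ P, p.Prime ∧ ¬ p ∣ N) :
    ∏ p ∈ P, (1 + ‖a p‖ ^ 2 * (p : ℝ) ^ (-s)) ≤
      ∑ n ∈ Finset.range (∏ p ∈ P, p), ‖a (n + 1)‖ ^ 2 * ((n : ℝ) + 1) ^ (-s) := by
  classical
  have hpos : ∀ t ∈ P.powerset, 0 < ∏ p ∈ t, p := fun t ht =>
    Finset.prod_pos fun p hp => (hP p (Finset.mem_powerset.1 ht hp)).1.pos
  rw [Finset.prod_one_add]
  have h2 : ∀ t ∈ P.powerset, ∏ p ∈ t, (‖a p‖ ^ 2 * (p : ℝ) ^ (-s)) =
      (fun n : ℕ => ‖a (n + 1)‖ ^ 2 * ((n : ℝ) + 1) ^ (-s)) ((∏ p ∈ t, p) - 1) := by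
    intro t ht
    have h3 : (∏ p ∈ t, p) - 1 + 1 = ∏ p ∈ t, p := Nat.sub_add_cancel (hpos t ht)
    have h4 : (((∏ p ∈ t, p) - 1 : ℕ) : ℝ) + 1 = ((∏ p ∈ t, p : ℕ) : ℝ) := by
      rw [← Nat.cast_add_one, h3]
    simp only
    rw [h4, h3, qCoeff_prod a h1 hT t (fun p hp => hP p (Finset.mem_powerset.1 ht hp)),
      Finset.prod_mul_distrib, norm_prod, Finset.prod_pow, Nat.cast_prod,
      Real.finsetProd_rpow _ _ (fun p _ => Nat.cast_nonneg p)]
  rw [Finset.sum_congr rfl h2]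
  have hinj : Set.InjOn (fun t : Finset ℕ => (∏ p ∈ t, p) - 1) (P.powerset : Set (Finset ℕ)) := by
    intro t ht t' ht' h
    have h3 : (∏ p ∈ t, p) = ∏ p ∈ t', p := by
      have := hpos t (Finset.mem_coe.1 ht)
      have := hpos t' (Finset.mem_coe.1 ht')
      simp only at h
      omega
    have h4 := Nat.primeFactors_prod (s := t)
      (fun p hp => (hP p (Finset.mem_powerset.1 (Finset.mem_coe.1 ht) hp)).1)
    have h5 := Nat.primeFactors_prod (s := t')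
      (fun p hp => (hP p (Finset.mem_powerset.1 (Finset.mem_coe.1 ht') hp)).1)
    rw [← h4, ← h5, h3]
  rw [← Finset.sum_image (g := fun t : Finset ℕ => (∏ p ∈ t, p) - 1)
    (f := fun n : ℕ => ‖a (n + 1)‖ ^ 2 * ((n : ℝ) + 1) ^ (-s)) hinj]
  refine Finset.sum_le_sum_of_subset_of_nonneg ?_ fun n _ _ => by positivity
  intro n hn
  obtain ⟨t, ht, rfl⟩ := Finset.mem_image.1 hn
  rw [Finset.mem_range]
  have h3 : (∏ p ∈ t, p) ≤ ∏ p ∈ P, p :=
    Finset.prod_le_prod_of_subset_of_one_le' (Finset.mem_powerset.1 ht)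
      (fun p hp _ => (hP p hp).1.one_lt.le)
  have h4 := hpos t ht
  omega

/-- **(A2)** -/
theorem rankin_bound [NeZero N] (f : CuspForm (Gamma1 N) 1) (h1 : qCoeff f 1 = 1)
    (hT : ∀ p : ℕ, p.Prime → ¬ p ∣ N → ∀ n : ℕ, ¬ p ∣ n →
      qCoeff f (p * n) = qCoeff f p * qCoeff f n) (c : ℝ) (hc : 0 ≤ c) :
    ∃ C : ℝ, ∀ s : ℝ, 1 < s → s ≤ 2 → ∀ P : Finset ℕ, (∀ p ∈ P, p.Prime ∧ ¬ p ∣ N) →
      ∑ p ∈ P, min (‖qCoeff f p‖ ^ 2) c * (p : ℝ) ^ (-s) ≤ Real.log (1 / (s - 1)) + C := by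
  obtain ⟨C, hC0, hC⟩ := dirichlet_le f
  have hC1 : 1 ≤ C := by
    have h2 := hC 2 (by norm_num) le_rfl 1
    simp [h1] at h2
    linarith
  set Z : ℝ := ∑' n : ℕ, (n : ℝ) ^ (-2 : ℝ) with hZ
  have hsum : Summable fun n : ℕ => (n : ℝ) ^ (-2 : ℝ) :=
    Real.summable_nat_rpow.2 (by norm_num)
  refine ⟨Real.log C + c ^ 2 * Z, fun s hs hs2 P hP => ?_⟩
  have hs1 : 0 < s - 1 := by linarith
  have h3 := prod_le_sum (fun n => qCoeff f n) h1 hT s P hP
  have h4 := h3.trans (hC s hs hs2 _)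
  have hpos : ∀ p ∈ P, 0 < 1 + ‖qCoeff f p‖ ^ 2 * (p : ℝ) ^ (-s) := fun p _ => by positivity
  have h5 := Real.log_le_log (Finset.prod_pos hpos) h4
  rw [Real.log_prod (fun p hp => (hpos p hp).ne')] at h5
  have h6 : Real.log (C / (s - 1)) = Real.log C + Real.log (1 / (s - 1)) := by
    rw [← Real.log_mul (by linarith) (by positivity)]
    congr 1
    ring
  rw [h6] at h5
  have h7 : ∀ p ∈ P, min (‖qCoeff f p‖ ^ 2) c * (p : ℝ) ^ (-s) ≤
      Real.log (1 + ‖qCoeff f p‖ ^ 2 * (p : ℝ) ^ (-s)) + c ^ 2 * (p : ℝ) ^ (-2 : ℝ) := by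
    intro p hp
    have hp1 : (1 : ℝ) ≤ p := by exact_mod_cast (hP p hp).1.one_lt.le
    set x : ℝ := min (‖qCoeff f p‖ ^ 2) c * (p : ℝ) ^ (-s) with hx
    have hx0 : 0 ≤ x := by positivity
    have hmono : Real.log (1 + x) ≤ Real.log (1 + ‖qCoeff f p‖ ^ 2 * (p : ℝ) ^ (-s)) := by
      apply Real.log_le_log (by positivity)
      have : x ≤ ‖qCoeff f p‖ ^ 2 * (p : ℝ) ^ (-s) :=
        mul_le_mul_of_nonneg_right (min_le_left _ _) (by positivity)
      linarith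
    have hlog : x - x ^ 2 / 2 ≤ Real.log (1 + x) := by
      have h8 := Real.le_log_one_add_of_nonneg hx0
      refine le_trans ?_ h8
      rw [le_div_iff₀ (by positivity)]
      nlinarith [pow_nonneg hx0 3]
    have hx2 : x ^ 2 ≤ c ^ 2 * (p : ℝ) ^ (-2 : ℝ) := by
      have h9 : x ≤ c * (p : ℝ) ^ (-1 : ℝ) := by
        apply mul_le_mul (min_le_right _ _) _ (by positivity) hc
        exact Real.rpow_le_rpow_of_exponent_le hp1 (by linarith)
      have h10 : x ^ 2 ≤ (c * (p : ℝ) ^ (-1 : ℝ)) ^ 2 := pow_le_pow_left₀ hx0 h9 2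
      refine h10.trans (le_of_eq ?_)
      rw [mul_pow, ← Real.rpow_natCast ((p : ℝ) ^ (-1 : ℝ)) 2, ← Real.rpow_mul (by positivity)]
      norm_num
    nlinarith [sq_nonneg x]
  have h8 : ∑ p ∈ P, (p : ℝ) ^ (-2 : ℝ) ≤ Z := hsum.sum_le_tsum P fun n _ => by positivity
  calc ∑ p ∈ P, min (‖qCoeff f p‖ ^ 2) c * (p : ℝ) ^ (-s)
      ≤ ∑ p ∈ P, (Real.log (1 + ‖qCoeff f p‖ ^ 2 * (p : ℝ) ^ (-s)) +
          c ^ 2 * (p : ℝ) ^ (-2 : ℝ)) := Finset.sum_le_sum h7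
    _ = ∑ p ∈ P, Real.log (1 + ‖qCoeff f p‖ ^ 2 * (p : ℝ) ^ (-s)) +
          c ^ 2 * ∑ p ∈ P, (p : ℝ) ^ (-2 : ℝ) := by
        rw [Finset.sum_add_distrib, Finset.mul_sum]
    _ ≤ (Real.log C + Real.log (1 / (s - 1))) + c ^ 2 * Z := by
        gcongr
    _ = Real.log (1 / (s - 1)) + (Real.log C + c ^ 2 * Z) := by ring

end Fermat.Agent.H48
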