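import Mathlib
import Fermat.Agent.H85Bad
import Fermat.Agent.H50Inputs
import Fermat.Agent.H48Rankin
import Fermat.Agent.H48Neb

/-!
Mean square bound for the eigenvalues in terms of upper logarithmic densities.
-/

namespace Fermat.Agent.H85

open Filter Topology CongruenceSubgroup ModularFormClass
open scoped MatrixGroups

open Fermat.Agent.H99 (dsum HasLogDensity)

/-- from finite partial sums to upper densities -/
theorem uld_of_finite_sums (N : ℕ) (b : ℕ → ℝ) (c : ℝ)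
    (hb0 : ∀ p, 0 ≤ b p) (hb : ∀ p, b p ≤ c) (C : ℝ)
    (h : ∀ s : ℝ, 1 < s → s ≤ 2 → ∀ P : Finset ℕ, (∀ p ∈ P, p.Prime ∧ ¬ p ∣ N) →
      ∑ p ∈ P, b p * (p : ℝ) ^ (-s) ≤ Real.log (1 / (s - 1)) + C) :
    ULD (fun p : Nat.Primes => if (p : ℕ) ∣ N then 0 else b p) 1 := by
  classical
  have hc : 0 ≤ c := (hb0 0).trans (hb 0)
  have hsum : ∀ s : ℝ, 1 < s → Summable fun p : Nat.Primes =>
      (if (p : ℕ) ∣ N then 0 else b p) * ((p : ℕ) : ℝ) ^ (-s) := by
    intro s hs
    refine summable_of_bdd c (fun p => ?_) hs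
    split_ifs
    · simpa using hc
    · rw [abs_of_nonneg (hb0 _)]; exact hb _
  refine ⟨hsum, fun ε hε => ?_⟩
  have h1 : ∀ᶠ s in 𝓝[>] (1 : ℝ), C ≤ ε * Real.log (1 / (s - 1)) := by
    filter_upwards [tendsto_log_inv'.eventually_ge_atTop (C / ε)] with s hs
    rw [div_le_iff₀ hε] at hs
    linarith
  have h2 : ∀ᶠ s in 𝓝[>] (1 : ℝ), s ≤ 2 := by
    apply nhdsWithin_le_nhds
    exact eventually_le_nhds (by norm_num)
  filter_upwards [h1, h2, self_mem_nhdsWithin] with s h3 h4 h5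
  have h6 : dsum (fun p : Nat.Primes => if (p : ℕ) ∣ N then 0 else b p) s ≤
      Real.log (1 / (s - 1)) + C := by
    refine (hsum s h5).tsum_le_of_sum_le fun t => ?_
    have h7 := h s h5 h4 ((t.filter fun p : Nat.Primes => ¬ (p : ℕ) ∣ N).image
      fun p : Nat.Primes => (p : ℕ)) (by
        intro p hp
        rw [Finset.mem_image] at hp
        obtain ⟨q, hq, rfl⟩ := hp
        exact ⟨q.2, (Finset.mem_filter.mp hq).2⟩)
    rw [Finset.sum_image (s := t.filter fun p : Nat.Primes => ¬ (p : ℕ) ∣ N)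
      (g := fun p : Nat.Primes => (p : ℕ)) (f := fun p : ℕ => b p * (p : ℝ) ^ (-s))
      (fun x _ y _ hxy => Nat.Primes.coe_nat_injective hxy)] at h7
    refine (le_of_eq ?_).trans h7
    rw [Finset.sum_filter]
    refine Finset.sum_congr rfl fun p _ => ?_
    by_cases hp : (p : ℕ) ∣ N
    · simp [hp]
    · simp [hp]
  linarith

/-- **(A2)** for all conjugates -/
theorem meanSquare (N : ℕ) [NeZero N] (ε : DirichletCharacter ℂ N) (f : CuspForm (Gamma1 N) 1)
    (hf₁ : qCoeff f 1 = 1)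
    (hT : ∀ p : ℕ, p.Prime → ¬ p ∣ N → ∀ n : ℕ,
      qCoeff f (p * n) + ε (p : ZMod N) * (if p ∣ n then qCoeff f (n / p) else 0) =
        qCoeff f p * qCoeff f n) (σ : ℂ →+* ℂ) (c : ℝ) (hc : 0 < c) :
    ULD (fun p : Nat.Primes => if (p : ℕ) ∣ N then 0 else min (‖σ (qCoeff f p)‖ ^ 2) c) 1 := by
  obtain ⟨f', hf1', hT', hf'⟩ := H50.exists_conj_eigen ε f hf₁ hT σ
  obtain ⟨C, hC⟩ := H48.rankin_bound f' hf1' (fun p hp hpN n hpn => by
    have := hT' p hp hpN n
    rw [if_neg hpn, mul_zero, add_zero] at this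
    exact this) c hc.le
  have h1 := uld_of_finite_sums N (fun p => min (‖qCoeff f' p‖ ^ 2) c) c
    (fun p => by positivity) (fun p => min_le_right _ _) C hC
  simpa only [hf'] using h1

end Fermat.Agent.H85
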