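import Mathlib
import Fermat.Agent.H85MeanSq
import Fermat.Agent.H85Final

/-!
The Deligne–Serre theorem for weight one forms from the mod `ℓ` representations.
-/

namespace Fermat.Agent.H85

open Filter Topology CongruenceSubgroup ModularFormClass Matrix ModularForm UpperHalfPlane
open scoped MatrixGroups ModularForm

local notation "Γℚ" => (AlgebraicClosure ℚ ≃ₐ[ℚ] AlgebraicClosure ℚ)
local notation "Qb" => AlgebraicClosure ℚ

/-- The mod `ℓ` representations attached to a weight one form, for all large `ℓ`. -/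
def HasModReps (N : ℕ) [NeZero N] (ε : DirichletCharacter ℂ N) (f : CuspForm (Gamma1 N) 1) : Prop :=
  ∀ a e : ℕ → ZZ, (∀ p : ℕ, p.Prime → ¬ p ∣ N → (a p : ℂ) = qCoeff f p ∧
    (e p : ℂ) = ε (p : ZMod N)) →
  ∃ ℓ₀ : ℕ, ∀ ℓ : ℕ, ℓ.Prime → ℓ₀ < ℓ → ∀ (κ : Type) [Field κ] [IsAlgClosed κ] [CharP κ ℓ]
      (φ : ZZ →+* κ), ∃ ρ : Γℚ →* GL (Fin 2) κ, IsModRep N a e ℓ φ ρ

theorem deligneSerre_modular (htw : TwistBound)
    (N : ℕ) [NeZero N] (ε : DirichletCharacter ℂ N) (f : CuspForm (Gamma1 N) 1)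
    (hf₁ : qCoeff f 1 = 1)
    (hT : ∀ p : ℕ, p.Prime → ¬ p ∣ N → ∀ n : ℕ,
        qCoeff f (p * n) + ε (p : ZMod N) * (if p ∣ n then qCoeff f (n / p) else 0) =
          qCoeff f p * qCoeff f n)
    (hC : HasModReps N ε f) :
    ∃ ρ : Γℚ →* GL (Fin 2) ℂ, GaloisFactorsThroughFiniteLevel ρ ∧
      (Deformation.matrixRepresentation ρ).IsIrreducible ∧
      ∀ p : ℕ, p.Prime → ¬ p ∣ N →
        ∀ A : ValuationSubring (AlgebraicClosure ℚ), A.LiesOverPrime p →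
          (∀ σ ∈ A.inertiaSubgroupIn ℚ, ρ σ = 1) ∧
          ∀ σ : Γℚ, A.IsFrobeniusAt σ p →
            ((ρ σ : GL (Fin 2) ℂ) : Matrix (Fin 2) (Fin 2) ℂ).trace = qCoeff f p ∧
            ((ρ σ : GL (Fin 2) ℂ) : Matrix (Fin 2) (Fin 2) ℂ).det = ε (p : ZMod N) := by
  classical
  have hε : ∀ γ : SL(2, ℤ), γ ∈ Gamma0 N →
      (⇑f : UpperHalfPlane → ℂ) ∣[(1 : ℤ)] γ = ε ((γ 1 1 : ℤ) : ZMod N) • ⇑f := by
    refine H48.nebentypus ε f (fun p => qCoeff f p) fun p hp hpN n => ?_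
    rw [sub_self, zpow_zero, one_mul]
    exact hT p hp hpN n
  obtain ⟨hint, E, hE, haE, heE⟩ := H50.weightOne_integral ε f hf₁ hT hε
  have hεint : ∀ x : ZMod N, IsIntegral ℤ (ε x) := fun x => H50.isIntegral_dirichlet ε x
  let a : ℕ → ZZ := fun p => if h : p.Prime ∧ ¬ p ∣ N then ⟨qCoeff f p, hint p h.1 h.2⟩ else 0
  let e : ℕ → ZZ := fun p => ⟨ε (p : ZMod N), hεint _⟩
  have ha : ∀ p : ℕ, p.Prime → ¬ p ∣ N → (a p : ℂ) = qCoeff f p := by
    intro p hp hpN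
    simp only [a, dif_pos (And.intro hp hpN)]
  have he : ∀ p : ℕ, (e p : ℂ) = ε (p : ZMod N) := fun p => rfl
  obtain ⟨ρ, h1, h2, h3⟩ := deligneSerre_of htw N (NeZero.ne N) a e E
    (fun p hp hpN => by rw [ha p hp hpN]; exact haE p hp hpN)
    (fun p hp hpN => heE _)
    (Fintype.card (ZMod N)ˣ) Fintype.card_pos
    (fun p hp hpN => by
      apply Subtype.ext
      show (ε (p : ZMod N)) ^ _ = 1
      have hu : IsUnit ((p : ℕ) : ZMod N) :=
        (ZMod.isUnit_iff_coprime _ _).mpr ((Nat.Prime.coprime_iff_not_dvd hp).mpr hpN)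
      obtain ⟨u, hu⟩ := hu
      rw [← hu, ← map_pow, ← Units.val_pow_eq_pow_val, pow_card_eq_one, Units.val_one, map_one])
    (fun σ c hc => by
      have h := meanSquare N ε f hf₁ hT σ c hc
      refine h.congr_off ∅ fun p _ => ?_
      by_cases hpN : (p : ℕ) ∣ N
      · simp only [if_pos hpN]
      · simp only [if_neg hpN]
        rw [ha p p.2 hpN])
    (hC a e fun p hp hpN => ⟨ha p hp hpN, he p⟩)
  refine ⟨ρ, h1, h2, fun p hp hpN A hA => ?_⟩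
  obtain ⟨h4, h5⟩ := h3 p hp hpN A hA
  refine ⟨h4, fun σ hσ => ?_⟩
  obtain ⟨h6, h7⟩ := h5 σ hσ
  rw [ha p hp hpN] at h6
  exact ⟨h6, h7⟩

end Fermat.Agent.H85
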