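import Mathlib
import Fermat.Agent.H85Skel
import Fermat.Agent.H48C
import Fermat.Agent.H85Twist

/-!
S48 from the analytic input `NormCharBound` and the Galois action on the characters of `Γ₁(M)`.
-/

namespace Fermat.Agent.H85

open Filter Topology CongruenceSubgroup ModularFormClass Matrix ModularForm UpperHalfPlane
open scoped MatrixGroups ModularForm

local notation "Γℚ" => (AlgebraicClosure ℚ ≃ₐ[ℚ] AlgebraicClosure ℚ)
local notation "Qb" => AlgebraicClosure ℚ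

open Polynomial in
/-- a two-dimensional residual representation in matrix form -/
theorem exists_matrixRep {k : Type} [Field k] (ρ : ResidualGaloisRep k) :
    ∃ r : Γℚ →* GL (Fin 2) k, GaloisFactorsThroughFiniteLevel r ∧
      (∀ σ, ρ.ρ σ = 1 → r σ = 1) ∧
      ∀ σ (t d : k), (ρ.ρ σ).charpoly = X ^ 2 - C t * X + C d →
        (r σ).val.trace = t ∧ (r σ).val.det = d := by
  classical
  let b : Module.Basis (Fin 2) k ρ.V := Module.finBasisOfFinrankEq k ρ.V ρ.finrank_eq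
  let m : Γℚ →* Matrix (Fin 2) (Fin 2) k :=
    ((LinearMap.toMatrixAlgEquiv b : Module.End k ρ.V ≃ₐ[k] _) :
      Module.End k ρ.V →* Matrix (Fin 2) (Fin 2) k).comp ρ.ρ
  let r : Γℚ →* GL (Fin 2) k := MonoidHom.toHomUnits m
  have hone : ∀ σ, ρ.ρ σ = 1 → r σ = 1 := by
    intro σ hσ
    apply Units.ext
    show LinearMap.toMatrixAlgEquiv b (ρ.ρ σ) = 1
    rw [hσ, map_one]
  refine ⟨r, ?_, hone, fun σ t d h => ?_⟩
  · obtain ⟨L, hL, h1⟩ := ρ.factorsThroughFiniteLevel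
    exact ⟨L, hL, fun σ hσ => hone σ (h1 σ hσ)⟩
  · have h1 : (r σ).val.charpoly = (ρ.ρ σ).charpoly := LinearMap.charpoly_toMatrix (ρ.ρ σ) b
    rw [h, Matrix.charpoly_fin_two] at h1
    have h2 := congrArg (fun P : k[X] => P.coeff 0) h1
    have h3 := congrArg (fun P : k[X] => P.coeff 1) h1
    simp only [coeff_add, coeff_sub, coeff_X_pow, coeff_C_mul, coeff_X, coeff_C] at h2 h3
    norm_num at h2 h3
    exact ⟨h3, h2⟩

theorem hasModReps (N : ℕ) [NeZero N] (ε : DirichletCharacter ℂ N) (f : CuspForm (Gamma1 N) 1)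
    (hf₁ : qCoeff f 1 = 1) (hT : H48.HeckeRel ε f)
    (hGal : ∀ ℓ : ℕ, ℓ.Prime → 5 ≤ ℓ → H48.HasGalAction (N * ℓ) ℓ) : HasModReps N ε f := by
  intro a e hae
  obtain ⟨ℓ₀, h⟩ := H48.exists_residual_of_weightOne hT hf₁
  refine ⟨max ℓ₀ 5, fun ℓ hℓ hlt κ _ _ _ φ => ?_⟩
  obtain ⟨ρ, hρ⟩ := h ℓ hℓ ((le_max_left _ _).trans_lt hlt)
    (hGal ℓ hℓ ((le_max_right _ _).trans hlt.le)) κ φ
  obtain ⟨r, h1, h2, h3⟩ := exists_matrixRep ρ
  refine ⟨r, h1, fun p hp hpN hpl A hA σ hσ => h2 σ ((hρ p hp hpN hpl).1 A hA σ hσ),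
    fun p hp hpN hpl A hA σ hσ => ?_⟩
  obtain ⟨h4, h5⟩ := h3 σ _ _ ((hρ p hp hpN hpl).2 A hA σ hσ)
  obtain ⟨h6, h7⟩ := hae p hp hpN
  constructor
  · rw [h4]; congr 1; exact Subtype.ext h6.symm
  · rw [h5]; congr 1; exact Subtype.ext h7.symm

/-- S48 from its two remaining inputs. -/
theorem S48_of (hnc : NormCharBound)
    (N : ℕ) [NeZero N] (ε : DirichletCharacter ℂ N) (f : CuspForm (Gamma1 N) 1)
    (hGal : ∀ ℓ : ℕ, ℓ.Prime → 5 ≤ ℓ → H48.HasGalAction (N * ℓ) ℓ)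
    (hf₁ : ModularFormClass.qCoeff f 1 = 1)
    (hT : ∀ p : ℕ, p.Prime → ¬ p ∣ N → ∀ n : ℕ,
        ModularFormClass.qCoeff f (p * n) +
            ε (p : ZMod N) * (if p ∣ n then ModularFormClass.qCoeff f (n / p) else 0) =
          ModularFormClass.qCoeff f p * ModularFormClass.qCoeff f n) :
    ∃ ρ : Γℚ →* GL (Fin 2) ℂ, GaloisFactorsThroughFiniteLevel ρ ∧
      (Deformation.matrixRepresentation ρ).IsIrreducible ∧
      ∀ p : ℕ, p.Prime → ¬ p ∣ N →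
        ∀ A : ValuationSubring (AlgebraicClosure ℚ), A.LiesOverPrime p →
          (∀ σ ∈ A.inertiaSubgroupIn ℚ, ρ σ = 1) ∧
          ∀ σ : Γℚ, A.IsFrobeniusAt σ p →
            ((ρ σ : GL (Fin 2) ℂ) : Matrix (Fin 2) (Fin 2) ℂ).trace = ModularFormClass.qCoeff f p ∧
            ((ρ σ : GL (Fin 2) ℂ) : Matrix (Fin 2) (Fin 2) ℂ).det = ε (p : ZMod N) :=
  deligneSerre_modular (twistBound_of hnc) N ε f hf₁ hT (hasModReps N ε f hf₁ hT hGal)

end Fermat.Agent.H85
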