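import Mathlib
import Fermat.Agent.H85Twist
import Fermat.Agent.H76NormChar
import Fermat.Agent.H76ClassL

/-!
Boundedness of `∑_I ψ(N I) N(I)^{-s}` for even Dirichlet characters `ψ` which are not trivial on
norms of ideals.
-/

namespace Fermat.Agent.H85

open NumberField

open scoped nonZeroDivisors

section

variable {K : Type} [Field K] [NumberField K]

/-- every ideal class contains an ideal of norm prime to `m` -/
lemma exists_coprime_rep (m : ℕ) (hm : m ≠ 0) (C : ClassGroup (𝓞 K)) :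
    ∃ I : (Ideal (𝓞 K))⁰, ClassGroup.mk0 I = C ∧
      (Ideal.absNorm (I : Ideal (𝓞 K))).Coprime m := by
  set M : Ideal (𝓞 K) := Ideal.span {(m : 𝓞 K)} with hM
  have hM0 : M ≠ ⊥ := by
    rw [hM, Ne, Ideal.span_singleton_eq_bot]
    exact_mod_cast hm
  -- coprimality criterion
  have hcrit : ∀ B : Ideal (𝓞 K), M ⊔ B = ⊤ → (Ideal.absNorm B).Coprime m := by
    intro B hB
    apply Nat.Coprime.symm
    rw [Nat.coprime_iff_gcd_eq_one]
    by_contra hcon
    obtain ⟨p, hp, hpd⟩ := Nat.exists_prime_and_dvd hcon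
    have h1 : p ∣ m := hpd.trans (Nat.gcd_dvd_left _ _)
    have h2 : p ∣ Ideal.absNorm B := hpd.trans (Nat.gcd_dvd_right _ _)
    obtain ⟨P, hP, h3, h4⟩ := Ideal.exists_isMaximal_dvd_of_dvd_absNorm'
      (S := 𝓞 K) hp B h2
    apply hP.ne_top
    rw [← top_le_iff, ← hB, sup_le_iff]
    constructor
    · rw [hM, Ideal.span_singleton_le_iff_mem]
      have h5 : (p : 𝓞 K) ∈ P := by
        have : (p : ℤ) ∈ P.under ℤ := by rw [h3]; exact Ideal.mem_span_singleton_self _
        simpa [Ideal.under_def, Ideal.mem_comap] using this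
      obtain ⟨c, rfl⟩ := h1
      push_cast
      exact P.mul_mem_right _ h5
    · exact Ideal.le_of_dvd h4
  obtain ⟨J, hJ⟩ := ClassGroup.mk0_surjective (C⁻¹)
  by_cases htop : M = ⊤
  · obtain ⟨I, hI⟩ := ClassGroup.mk0_surjective C
    exact ⟨I, hI, hcrit _ (by rw [htop, top_sup_eq])⟩
  · have hJ0 : (J : Ideal (𝓞 K)) ≠ 0 := nonZeroDivisors.ne_zero J.2
    obtain ⟨a, ha⟩ := IsDedekindDomain.exists_sup_span_eq (I := (J : Ideal (𝓞 K)) * M)
      (J := (J : Ideal (𝓞 K))) Ideal.mul_le_left (mul_ne_zero hJ0 hM0)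
    have haJ : a ∈ (J : Ideal (𝓞 K)) := by
      rw [← ha]
      exact Ideal.mem_sup_right (Ideal.mem_span_singleton_self a)
    obtain ⟨B, hB⟩ := Ideal.dvd_iff_le.mpr ((Ideal.span_singleton_le_iff_mem _).mpr haJ)
    have hMB : M ⊔ B = ⊤ := by
      rw [hB, ← Ideal.mul_sup] at ha
      have : (J : Ideal (𝓞 K)) * (M ⊔ B) = (J : Ideal (𝓞 K)) * ⊤ := by
        rw [ha, Ideal.mul_top]
      exact mul_left_cancel₀ hJ0 this
    have hB0 : B ≠ 0 := by
      rintro rfl
      apply htop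
      rw [← hMB]
      exact (sup_bot_eq M).symm
    refine ⟨⟨B, mem_nonZeroDivisors_of_ne_zero hB0⟩, ?_, hcrit B hMB⟩
    have h1 : ClassGroup.mk0 (J * ⟨B, mem_nonZeroDivisors_of_ne_zero hB0⟩) = 1 := by
      rw [ClassGroup.mk0_eq_one_iff]
      show ((J : Ideal (𝓞 K)) * B).IsPrincipal
      rw [← hB]
      exact ⟨a, rfl⟩
    rw [map_mul, hJ] at h1
    rw [eq_comm, ← inv_mul_eq_one]
    exact h1

/-- value of an even character on a natural absolute value -/
lemma char_natAbs {m : ℕ} (ψ : DirichletCharacter ℂ m) (hev : ψ (-1) = 1) (x : ℤ) :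
    ψ ((x.natAbs : ℕ) : ZMod m) = ψ ((x : ℤ) : ZMod m) := by
  rcases Int.natAbs_eq x with h | h
  · conv_rhs => rw [h]
    rw [Int.cast_natCast]
  · conv_rhs => rw [h]
    rw [Int.cast_neg, Int.cast_natCast, neg_eq_neg_one_mul, map_mul, hev, one_mul]

lemma psi_mul_eq_one {m : ℕ} (ψ : DirichletCharacter ℂ m) (hev : ψ (-1) = 1)
    (h01 : ∀ a : 𝓞 K, ψ ((Algebra.norm ℤ a : ℤ) : ZMod m) ≠ 0 →
      ψ ((Algebra.norm ℤ a : ℤ) : ZMod m) = 1)
    (I J : (Ideal (𝓞 K))⁰) (hIJ : ClassGroup.mk0 I * ClassGroup.mk0 J = 1)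
    (hI : (Ideal.absNorm (I : Ideal (𝓞 K))).Coprime m)
    (hJ : (Ideal.absNorm (J : Ideal (𝓞 K))).Coprime m) :
    ψ ((Ideal.absNorm (I : Ideal (𝓞 K)) : ℕ) : ZMod m) *
      ψ ((Ideal.absNorm (J : Ideal (𝓞 K)) : ℕ) : ZMod m) = 1 := by
  rw [← map_mul, ClassGroup.mk0_eq_one_iff] at hIJ
  obtain ⟨c, hc⟩ := hIJ
  have h1 : ((I * J : (Ideal (𝓞 K))⁰) : Ideal (𝓞 K)) = Ideal.span {c} := hc
  have h2 : Ideal.absNorm (I : Ideal (𝓞 K)) * Ideal.absNorm (J : Ideal (𝓞 K)) =
      (Algebra.norm ℤ c).natAbs := by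
    rw [← map_mul, ← Ideal.absNorm_span_singleton, ← h1]
    rfl
  rw [← map_mul, ← Nat.cast_mul, h2, char_natAbs ψ hev]
  apply h01
  rw [← char_natAbs ψ hev, ← h2]
  have h3 : IsUnit ((Ideal.absNorm (I : Ideal (𝓞 K)) * Ideal.absNorm (J : Ideal (𝓞 K)) : ℕ) :
      ZMod m) := (ZMod.isUnit_iff_coprime _ _).mpr (hI.mul_left hJ)
  exact (h3.map ψ).ne_zero

/-- the class group character attached to an even character which is trivial on norms of
elements -/
theorem exists_kappa {m : ℕ} (hm : m ≠ 0) (ψ : DirichletCharacter ℂ m) (hev : ψ (-1) = 1)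
    (h01 : ∀ a : 𝓞 K, ψ ((Algebra.norm ℤ a : ℤ) : ZMod m) ≠ 0 →
      ψ ((Algebra.norm ℤ a : ℤ) : ZMod m) = 1) :
    ∃ κ : ClassGroup (𝓞 K) →* ℂˣ, ∀ I : (Ideal (𝓞 K))⁰,
      (Ideal.absNorm (I : Ideal (𝓞 K))).Coprime m →
      (κ (ClassGroup.mk0 I) : ℂ) = ψ ((Ideal.absNorm (I : Ideal (𝓞 K)) : ℕ) : ZMod m) := by
  choose R hR hRm using fun C : ClassGroup (𝓞 K) => exists_coprime_rep m hm C
  let v : ClassGroup (𝓞 K) → ℂ := fun C =>
    ψ ((Ideal.absNorm (R C : Ideal (𝓞 K)) : ℕ) : ZMod m)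
  have key : ∀ I : (Ideal (𝓞 K))⁰, (Ideal.absNorm (I : Ideal (𝓞 K))).Coprime m →
      v (ClassGroup.mk0 I) = ψ ((Ideal.absNorm (I : Ideal (𝓞 K)) : ℕ) : ZMod m) := by
    intro I hI
    set C := ClassGroup.mk0 I with hC
    have h1 := psi_mul_eq_one ψ hev h01 (R C) (R C⁻¹) (by rw [hR, hR, mul_inv_cancel])
      (hRm _) (hRm _)
    have h2 := psi_mul_eq_one ψ hev h01 I (R C⁻¹) (by rw [hR, ← hC, mul_inv_cancel])
      hI (hRm _)
    exact mul_right_cancel₀ (right_ne_zero_of_mul_eq_one h1) (h1.trans h2.symm)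
  let w : ClassGroup (𝓞 K) →* ℂ :=
    { toFun := v
      map_one' := by
        have h := key 1 (by simp)
        rw [map_one] at h
        rw [h]
        simp
      map_mul' := by
        intro C D
        have h := key (R C * R D) (by
          show (Ideal.absNorm ((R C : Ideal (𝓞 K)) * (R D : Ideal (𝓞 K)))).Coprime m
          rw [map_mul]
          exact (hRm C).mul_left (hRm D))
        rw [map_mul, hR, hR] at h
        rw [h]
        show ψ ((Ideal.absNorm ((R C : Ideal (𝓞 K)) * (R D : Ideal (𝓞 K))) : ℕ) : ZMod m) = _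
        rw [map_mul, Nat.cast_mul, map_mul] }
  exact ⟨w.toHomUnits, fun I hI => key I hI⟩

lemma norm_kappa (κ : ClassGroup (𝓞 K) →* ℂˣ) (C : ClassGroup (𝓞 K)) : ‖(κ C : ℂ)‖ = 1 := by
  apply Complex.norm_eq_one_of_pow_eq_one (n := Fintype.card (ClassGroup (𝓞 K))) _
    Fintype.card_ne_zero
  rw [← Units.val_pow_eq_pow_val, ← map_pow, pow_card_eq_one, map_one, Units.val_one]

/-- not divisible by any prime in `S` -/
def FreeOf (S : Finset (Ideal (𝓞 K))) (I : Ideal (𝓞 K)) : Prop := ∀ P ∈ S, ¬ P ∣ I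

/-- term of the class group `L`-series -/
noncomputable def gterm (κ : ClassGroup (𝓞 K) →* ℂˣ) (s : ℝ) (I : (Ideal (𝓞 K))⁰) : ℂ :=
  (κ (ClassGroup.mk0 I) : ℂ) * (((Ideal.absNorm (I : Ideal (𝓞 K)) : ℝ) ^ (-s) : ℝ) : ℂ)

lemma gterm_mul (κ : ClassGroup (𝓞 K) →* ℂˣ) (s : ℝ) (I J : (Ideal (𝓞 K))⁰) :
    gterm κ s (I * J) = gterm κ s I * gterm κ s J := by
  unfold gterm
  have h1 : Ideal.absNorm ((I * J : (Ideal (𝓞 K))⁰) : Ideal (𝓞 K)) =
      Ideal.absNorm (I : Ideal (𝓞 K)) * Ideal.absNorm (J : Ideal (𝓞 K)) := by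
    rw [← map_mul]; rfl
  rw [h1, map_mul, map_mul, Units.val_mul, Nat.cast_mul, Real.mul_rpow (by positivity)
    (by positivity), Complex.ofReal_mul]
  ring

lemma norm_gterm (κ : ClassGroup (𝓞 K) →* ℂˣ) (s : ℝ) (I : (Ideal (𝓞 K))⁰) :
    ‖gterm κ s I‖ = (Ideal.absNorm (I : Ideal (𝓞 K)) : ℝ) ^ (-s) := by
  unfold gterm
  rw [norm_mul, norm_kappa, one_mul, Complex.norm_real, Real.norm_of_nonneg (by positivity)]

lemma norm_gterm_le_one (κ : ClassGroup (𝓞 K) →* ℂˣ) {s : ℝ} (hs : 1 < s)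
    (I : (Ideal (𝓞 K))⁰) : ‖gterm κ s I‖ ≤ 1 := by
  rw [norm_gterm]
  apply Real.rpow_le_one_of_one_le_of_nonpos _ (by linarith)
  have : Ideal.absNorm (I : Ideal (𝓞 K)) ≠ 0 := by
    rw [Ne, Ideal.absNorm_eq_zero_iff]
    exact nonZeroDivisors.ne_zero I.2
  exact_mod_cast Nat.one_le_iff_ne_zero.mpr this

open scoped Classical in
theorem bounded_free (κ : ClassGroup (𝓞 K) →* ℂˣ) (hκ : κ ≠ 1) (S : Finset (Ideal (𝓞 K)))
    (hS : ∀ P ∈ S, Prime P) : ∃ C : ℝ, ∀ s : ℝ, 1 < s → s ≤ 2 →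
      ‖∑' I : (Ideal (𝓞 K))⁰, (if FreeOf S (I : Ideal (𝓞 K)) then gterm κ s I else 0)‖ ≤ C := by
  induction S using Finset.induction_on with
  | empty =>
    obtain ⟨C, hC⟩ := H76.classLSeries_bounded K κ hκ
    refine ⟨C, fun s h1 h2 => ?_⟩
    have h3 : ∀ I : (Ideal (𝓞 K))⁰, (if FreeOf ∅ (I : Ideal (𝓞 K)) then gterm κ s I else 0) =
        (κ (ClassGroup.mk0 I) : ℂ) * (((Ideal.absNorm (I : Ideal (𝓞 K)) : ℝ) ^ (-s) : ℝ) : ℂ) := by
      intro I
      rw [if_pos]
      · rfl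
      · intro P hP; exact absurd hP (Finset.notMem_empty P)
    rw [tsum_congr h3]
    exact hC s h1 h2
  | insert P S hP ih =>
    obtain ⟨C, hC⟩ := ih fun Q hQ => hS Q (Finset.mem_insert_of_mem hQ)
    have hPp := hS P (Finset.mem_insert_self _ _)
    refine ⟨2 * C, fun s h1 h2 => ?_⟩
    have hsum : Summable fun I : (Ideal (𝓞 K))⁰ => (Ideal.absNorm (I : Ideal (𝓞 K)) : ℝ) ^ (-s) :=
      (summable_absNorm K h1).comp_injective Subtype.val_injective
    have hsumS : ∀ (p : (Ideal (𝓞 K))⁰ → Prop) [DecidablePred p],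
        Summable fun I : (Ideal (𝓞 K))⁰ => if p I then gterm κ s I else 0 := by
      intro p _
      refine Summable.of_norm_bounded hsum fun I => ?_
      split_ifs
      · rw [norm_gterm]
      · rw [norm_zero]; positivity
    let P' : (Ideal (𝓞 K))⁰ := ⟨P, mem_nonZeroDivisors_of_ne_zero hPp.ne_zero⟩
    have hdec : ∀ I : (Ideal (𝓞 K))⁰,
        (if FreeOf (insert P S) (I : Ideal (𝓞 K)) then gterm κ s I else 0) =
        (if FreeOf S (I : Ideal (𝓞 K)) then gterm κ s I else 0) -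
        (if FreeOf S (I : Ideal (𝓞 K)) ∧ P ∣ (I : Ideal (𝓞 K)) then gterm κ s I else 0) := by
      intro I
      by_cases h3 : FreeOf S (I : Ideal (𝓞 K))
      · by_cases h4 : P ∣ (I : Ideal (𝓞 K))
        · have h5 : ¬ FreeOf (insert P S) (I : Ideal (𝓞 K)) :=
            fun h5 => h5 P (Finset.mem_insert_self _ _) h4
          have h6 : FreeOf S (I : Ideal (𝓞 K)) ∧ P ∣ (I : Ideal (𝓞 K)) := ⟨h3, h4⟩
          rw [if_neg h5, if_pos h3, if_pos h6, sub_self]
        · have h5 : FreeOf (insert P S) (I : Ideal (𝓞 K)) := by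
            intro Q hQ
            rcases Finset.mem_insert.mp hQ with rfl | hQ
            · exact h4
            · exact h3 Q hQ
          have h6 : ¬ (FreeOf S (I : Ideal (𝓞 K)) ∧ P ∣ (I : Ideal (𝓞 K))) := fun h => h4 h.2
          rw [if_pos h5, if_pos h3, if_neg h6, sub_zero]
      · have h5 : ¬ FreeOf (insert P S) (I : Ideal (𝓞 K)) :=
          fun h5 => h3 fun Q hQ => h5 Q (Finset.mem_insert_of_mem hQ)
        have h6 : ¬ (FreeOf S (I : Ideal (𝓞 K)) ∧ P ∣ (I : Ideal (𝓞 K))) := fun h => h3 h.1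
        rw [if_neg h5, if_neg h3, if_neg h6, sub_zero]
    have hsec : ∑' I : (Ideal (𝓞 K))⁰,
        (if FreeOf S (I : Ideal (𝓞 K)) ∧ P ∣ (I : Ideal (𝓞 K)) then gterm κ s I else 0) =
        gterm κ s P' * ∑' I : (Ideal (𝓞 K))⁰,
          (if FreeOf S (I : Ideal (𝓞 K)) then gterm κ s I else 0) := by
      have hinj : Function.Injective fun I : (Ideal (𝓞 K))⁰ => P' * I := by
        intro I J h
        have h3 : P * (I : Ideal (𝓞 K)) = P * (J : Ideal (𝓞 K)) := congrArg Subtype.val h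
        exact Subtype.ext (mul_left_cancel₀ hPp.ne_zero h3)
      rw [← hinj.tsum_eq, ← tsum_mul_left]
      · refine tsum_congr fun I => ?_
        have h3 : (FreeOf S ((P' * I : (Ideal (𝓞 K))⁰) : Ideal (𝓞 K)) ∧
            P ∣ ((P' * I : (Ideal (𝓞 K))⁰) : Ideal (𝓞 K))) ↔ FreeOf S (I : Ideal (𝓞 K)) := by
          constructor
          · rintro ⟨h4, -⟩ Q hQ h5
            exact h4 Q hQ (h5.mul_left P)
          · intro h4
            refine ⟨fun Q hQ h5 => ?_, dvd_mul_right P _⟩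
            have hQp := hS Q (Finset.mem_insert_of_mem hQ)
            rcases hQp.dvd_or_dvd h5 with h6 | h6
            · have h7 : Q = P := associated_iff_eq.mp (hQp.associated_of_dvd hPp h6)
              exact hP (h7 ▸ hQ)
            · exact h4 Q hQ h6
        by_cases h4 : FreeOf S (I : Ideal (𝓞 K))
        · rw [if_pos (h3.mpr h4), if_pos h4, gterm_mul]
        · rw [if_neg (fun h => h4 (h3.mp h)), if_neg h4, mul_zero]
      · intro I hI
        rw [Function.mem_support] at hI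
        have h3 : FreeOf S (I : Ideal (𝓞 K)) ∧ P ∣ (I : Ideal (𝓞 K)) := by
          by_contra h
          exact hI (if_neg h)
        obtain ⟨J, hJ⟩ := h3.2
        have hJ0 : J ≠ 0 := by
          rintro rfl
          rw [mul_zero] at hJ
          exact nonZeroDivisors.ne_zero I.2 hJ
        exact ⟨⟨J, mem_nonZeroDivisors_of_ne_zero hJ0⟩, Subtype.ext hJ.symm⟩
    have hsub : ∑' I : (Ideal (𝓞 K))⁰,
        ((if FreeOf S (I : Ideal (𝓞 K)) then gterm κ s I else 0) -
        (if FreeOf S (I : Ideal (𝓞 K)) ∧ P ∣ (I : Ideal (𝓞 K)) then gterm κ s I else 0)) =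
        ∑' I : (Ideal (𝓞 K))⁰, (if FreeOf S (I : Ideal (𝓞 K)) then gterm κ s I else 0) -
        ∑' I : (Ideal (𝓞 K))⁰,
          (if FreeOf S (I : Ideal (𝓞 K)) ∧ P ∣ (I : Ideal (𝓞 K)) then gterm κ s I else 0) :=
      Summable.tsum_sub (hsumS fun I => FreeOf S (I : Ideal (𝓞 K)))
        (hsumS fun I => FreeOf S (I : Ideal (𝓞 K)) ∧ P ∣ (I : Ideal (𝓞 K)))
    rw [tsum_congr hdec, hsub, hsec]
    have h3 := hC s h1 h2
    calc ‖_ - _‖ ≤ ‖∑' I : (Ideal (𝓞 K))⁰, (if FreeOf S (I : Ideal (𝓞 K)) then gterm κ s I else 0)‖ +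
        ‖gterm κ s P' * ∑' I : (Ideal (𝓞 K))⁰,
          (if FreeOf S (I : Ideal (𝓞 K)) then gterm κ s I else 0)‖ := norm_sub_le _ _
      _ ≤ C + 1 * C := by
        rw [norm_mul]
        exact add_le_add h3 (mul_le_mul (norm_gterm_le_one κ h1 P') h3 (norm_nonneg _) zero_le_one)
      _ = 2 * C := by ring

end

/-- **Boundedness of zeta functions twisted by an even Dirichlet character of the norm.** -/
theorem normCharBound : NormCharBound := by
  classical
  intro K _ _ m _ ψ hev hI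
  by_cases ha : ∃ a : 𝓞 K, ψ ((Algebra.norm ℤ a : ℤ) : ZMod m) ≠ 0 ∧
      ψ ((Algebra.norm ℤ a : ℤ) : ZMod m) ≠ 1
  · obtain ⟨a, ha0, ha1⟩ := ha
    obtain ⟨C, hC⟩ := H76.normCharLSeries_bounded K (NeZero.ne m) ψ hev a ha0 ha1 (fun _ => 1)
    refine ⟨C, fun s h1 h2 => ?_⟩
    have h3 := hC s h1 h2
    simpa only [one_mul] using h3
  · push Not at ha
    obtain ⟨κ, hκ⟩ := exists_kappa (NeZero.ne m) ψ hev ha
    have hcop : ∀ I : Ideal (𝓞 K), ψ ((Ideal.absNorm I : ℕ) : ZMod m) ≠ 0 ↔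
        (Ideal.absNorm I).Coprime m := by
      intro I
      rw [← ZMod.isUnit_iff_coprime]
      constructor
      · intro h
        by_contra h2
        exact h (ψ.map_nonunit h2)
      · intro h
        exact (h.map ψ).ne_zero
    set M : Ideal (𝓞 K) := Ideal.span {(m : 𝓞 K)} with hM
    have hM0 : M ≠ ⊥ := by
      rw [hM, Ne, Ideal.span_singleton_eq_bot]
      exact_mod_cast NeZero.ne m
    let S : Finset (Ideal (𝓞 K)) := (UniqueFactorizationMonoid.normalizedFactors M).toFinset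
    have hS : ∀ P ∈ S, Prime P := fun P hP =>
      UniqueFactorizationMonoid.prime_of_normalized_factor P (Multiset.mem_toFinset.mp hP)
    have hSmem : ∀ P : Ideal (𝓞 K), Prime P → P ∣ M → P ∈ S := by
      intro P hP hPM
      rw [Multiset.mem_toFinset]
      obtain ⟨Q, hQ, hPQ⟩ := UniqueFactorizationMonoid.exists_mem_normalizedFactors_of_dvd hM0
        hP.irreducible hPM
      rwa [associated_iff_eq.mp hPQ]
    have hfree : ∀ I : (Ideal (𝓞 K))⁰, FreeOf S (I : Ideal (𝓞 K)) ↔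
        (Ideal.absNorm (I : Ideal (𝓞 K))).Coprime m := by
      intro I
      constructor
      · intro h
        rw [Nat.coprime_comm, Nat.coprime_iff_gcd_eq_one]
        by_contra hcon
        obtain ⟨p, hp, hpd⟩ := Nat.exists_prime_and_dvd hcon
        have h1 : p ∣ m := hpd.trans (Nat.gcd_dvd_left _ _)
        have h2 : p ∣ Ideal.absNorm (I : Ideal (𝓞 K)) := hpd.trans (Nat.gcd_dvd_right _ _)
        obtain ⟨P, hP, h3, h4⟩ := Ideal.exists_isMaximal_dvd_of_dvd_absNorm'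
          (S := 𝓞 K) hp (I : Ideal (𝓞 K)) h2
        have h5 : (p : 𝓞 K) ∈ P := by
          have : (p : ℤ) ∈ P.under ℤ := by rw [h3]; exact Ideal.mem_span_singleton_self _
          simpa [Ideal.under_def, Ideal.mem_comap] using this
        have hPM : P ∣ M := by
          rw [Ideal.dvd_iff_le, hM, Ideal.span_singleton_le_iff_mem]
          obtain ⟨c, rfl⟩ := h1
          push_cast
          exact P.mul_mem_right _ h5
        have hP0 : P ≠ ⊥ := by
          rintro rfl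
          exact hM0 (eq_bot_iff.mpr (Ideal.le_of_dvd hPM))
        exact h P (hSmem P (Ideal.prime_of_isPrime hP0 hP.isPrime) hPM) h4
      · intro h P hP hPI
        have hPp := hS P hP
        have hPM : P ∣ M := UniqueFactorizationMonoid.dvd_of_mem_normalizedFactors
          (Multiset.mem_toFinset.mp hP)
        have hPmax : P.IsMaximal := (Ideal.isPrime_of_prime hPp).isMaximal hPp.ne_zero
        -- the norm of `P` is a power of a prime dividing `m`
        have h1 : Ideal.absNorm P ∣ Ideal.absNorm (I : Ideal (𝓞 K)) :=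
          Ideal.absNorm_dvd_absNorm_of_le (Ideal.le_of_dvd hPI)
        have h2 : (m : 𝓞 K) ∈ P := by
          have := Ideal.le_of_dvd hPM
          rwa [hM, Ideal.span_singleton_le_iff_mem] at this
        obtain ⟨q, n, hn, hqP, hq, H⟩ := Ideal.exists_prime_and_absNorm_eq_pow P
        have h3 : q ∣ Ideal.absNorm (I : Ideal (𝓞 K)) := by
          rw [H] at h1
          exact (dvd_pow_self q hn.ne').trans h1
        have h4 : ¬ q ∣ m := by
          intro h5
          have h6 : q ∣ Nat.gcd (Ideal.absNorm (I : Ideal (𝓞 K))) m := Nat.dvd_gcd h3 h5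
          rw [h] at h6
          exact hq.one_lt.ne' (Nat.dvd_one.mp h6)
        -- `q` and `m` are coprime, both in `P`
        have h5 : IsCoprime (q : ℤ) (m : ℤ) :=
          Nat.isCoprime_iff_coprime.mpr ((Nat.Prime.coprime_iff_not_dvd hq).mpr h4)
        obtain ⟨u, v, huv⟩ := h5
        apply hPmax.ne_top
        rw [Ideal.eq_top_iff_one]
        have h6 : (1 : 𝓞 K) = (u : 𝓞 K) * (q : 𝓞 K) + (v : 𝓞 K) * (m : 𝓞 K) := by
          have := congrArg (Int.cast : ℤ → 𝓞 K) huv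
          push_cast at this
          exact this.symm
        rw [h6]
        exact P.add_mem (P.mul_mem_left _ hqP) (P.mul_mem_left _ h2)
    have hκ1 : κ ≠ 1 := by
      rintro rfl
      obtain ⟨I, hI1, hI0⟩ := hI
      have hI' : I ≠ 0 := by
        rintro rfl
        have h1 := (hcop 0).mp hI0
        rw [map_zero] at h1
        have h2 : m = 1 := by simpa using h1
        subst h2
        apply hI1
        have : (((Ideal.absNorm (0 : Ideal (𝓞 K)) : ℕ) : ZMod 1)) = 1 := Subsingleton.elim _ _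
        rw [this, map_one]
      have h1 := hκ ⟨I, mem_nonZeroDivisors_of_ne_zero hI'⟩ ((hcop I).mp hI0)
      exact hI1 (by rw [← h1]; rfl)
    obtain ⟨C, hC⟩ := bounded_free κ hκ1 S hS
    refine ⟨C, fun s h1 h2 => ?_⟩
    have h3 : ∀ I : (Ideal (𝓞 K))⁰, ψ ((Ideal.absNorm (I : Ideal (𝓞 K)) : ℕ) : ZMod m) *
        (((Ideal.absNorm (I : Ideal (𝓞 K)) : ℝ) ^ (-s) : ℝ) : ℂ) =
        (if FreeOf S (I : Ideal (𝓞 K)) then gterm κ s I else 0) := by
      intro I
      by_cases h4 : FreeOf S (I : Ideal (𝓞 K))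
      · rw [if_pos h4, gterm, hκ I ((hfree I).mp h4)]
      · rw [if_neg h4]
        have h5 : ψ ((Ideal.absNorm (I : Ideal (𝓞 K)) : ℕ) : ZMod m) = 0 := by
          by_contra h6
          exact h4 ((hfree I).mpr ((hcop _).mp h6))
        rw [h5, zero_mul]
    rw [tsum_congr h3]
    exact hC s h1 h2

end Fermat.Agent.H85
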