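import Mathlib
import Fermat.Agent.H85NCB
import Fermat.Agent.H85ChebGal
import Fermat.Agent.H85Fin

/-!
Unconditional forms: Chebotarev's density theorem (symmetric form) and S48 from the Galois action.
-/

namespace Fermat.Agent.H85

open Filter Topology CongruenceSubgroup ModularFormClass Matrix ModularForm UpperHalfPlane
open scoped MatrixGroups ModularForm

open Fermat.Agent.H99 (dsum HasLogDensity)

local notation "Γℚ" => (AlgebraicClosure ℚ ≃ₐ[ℚ] AlgebraicClosure ℚ)

theorem twistBound : TwistBound := twistBound_of normCharBound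

/-- **Chebotarev's density theorem** (symmetric form) for finite level homomorphisms. -/
theorem chebotarev_gal {Q : Type} [Group Q] (ρ : Γℚ →* Q)
    (hρ : GaloisFactorsThroughFiniteLevel ρ) [Fintype ρ.range] (f : Q → ℝ)
    (hconj : ∀ x ∈ ρ.range, ∀ y ∈ ρ.range, f (y⁻¹ * x * y) = f x)
    (hinv : ∀ x ∈ ρ.range, f x⁻¹ = f x) :
    HasLogDensity (fun p => f (ρ (Fr p))) ((∑ g : ρ.range, f g) / Fintype.card ρ.range) :=
  chebotarev_gal_of twistBound ρ hρ f hconj hinv

/-- S48 from the Galois action on the characters of `Γ₁(Nℓ)`. -/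
theorem S48_of_hasGalAction
    (N : ℕ) [NeZero N] (ε : DirichletCharacter ℂ N) (f : CuspForm (Gamma1 N) 1)
    (hGal : ∀ ℓ : ℕ, ℓ.Prime → 5 ≤ ℓ → H48.HasGalAction (N * ℓ) ℓ)
    (hf₁ : ModularFormClass.qCoeff f 1 = 1)
    (hT : ∀ p : ℕ, p.Prime → ¬ p ∣ N → ∀ n : ℕ,
        ModularFormClass.qCoeff f (p * n) +
            ε (p : ZMod N) * (if p ∣ n then ModularFormClass.qCoeff f (n / p) else 0) =
          ModularFormClass.qCoeff f p * ModularFormClass.qCoeff f n) :
    ∃ ρ : Γℚ →* GL (Fin 2) ℂ, GaloisFactorsThroughFiniteLevel ρ ∧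
      (Deformation.matrixRepresentation ρ).IsIrreducible ∧
      ∀ p : ℕ, p.Prime → ¬ p ∣ N →
        ∀ A : ValuationSubring (AlgebraicClosure ℚ), A.LiesOverPrime p →
          (∀ σ ∈ A.inertiaSubgroupIn ℚ, ρ σ = 1) ∧
          ∀ σ : Γℚ, A.IsFrobeniusAt σ p →
            ((ρ σ : GL (Fin 2) ℂ) : Matrix (Fin 2) (Fin 2) ℂ).trace = ModularFormClass.qCoeff f p ∧
            ((ρ σ : GL (Fin 2) ℂ) : Matrix (Fin 2) (Fin 2) ℂ).det = ε (p : ZMod N) :=
  S48_of normCharBound N ε f hGal hf₁ hT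

end Fermat.Agent.H85
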