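import Mathlib
import Fermat.Agent.H85Cheb
import Fermat.Prelude.Def_GaloisRep_ModThreeCyclotomic

/-!
# S47, block (N), package N2: densities of Frobenius elements in `GL₂(𝔽₃)`

Lower bounds for `∑ p^{-s}`, `s → 1+`, over the primes whose Frobenius is `± 1` (density `1/24`)
resp. a reflection (density `1/4`).
-/

set_option autoImplicit false

namespace Fermat.Agent.H25Z

open Filter Topology
open Fermat.Agent.H99 (dsum HasLogDensity)
open Fermat.Agent.H85 (Fr Pl Pl_liesOver Fr_spec)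
open scoped MatrixGroups

local notation "Γℚ" => (AlgebraicClosure ℚ ≃ₐ[ℚ] AlgebraicClosure ℚ)

/-- lower bounds on `(1,2]` from a logarithmic density -/
theorem lower_of_density {c : Nat.Primes → ℝ} {δ : ℝ} (h : HasLogDensity c δ)
    (hc : ∀ p, 0 ≤ c p) {a : ℝ} (ha0 : 0 ≤ a) (ha : a < δ) :
    ∃ C : ℝ, ∀ s : ℝ, 1 < s → s ≤ 2 → a * Real.log (1 / (s - 1)) - C ≤ dsum c s := by
  have h1 : ∀ᶠ s : ℝ in 𝓝[>] 1, a < dsum c s / Real.log (1 / (s - 1)) :=
    h.2.eventually (lt_mem_nhds ha)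
  have h2 : ∀ᶠ s : ℝ in 𝓝[>] (1 : ℝ), s < 2 := by
    filter_upwards [Ioo_mem_nhdsGT (show (1 : ℝ) < 2 by norm_num)] with s hs using hs.2
  obtain ⟨u, hu, hsub⟩ := (mem_nhdsGT_iff_exists_Ioo_subset' (show (1 : ℝ) < 2 by norm_num)).mp
    (h1.and h2)
  have hu1 : (1 : ℝ) < u := hu
  have hnn : ∀ s : ℝ, 0 ≤ dsum c s := fun s =>
    tsum_nonneg fun p => mul_nonneg (hc p) (Real.rpow_nonneg (Nat.cast_nonneg _) _)
  refine ⟨a * |Real.log (1 / (u - 1))|, fun s hs hs2 => ?_⟩
  by_cases hsu : s < u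
  · have h3 := hsub (show s ∈ Set.Ioo 1 u from ⟨hs, hsu⟩)
    have h4 : a < dsum c s / Real.log (1 / (s - 1)) := h3.1
    have h5 : s < 2 := h3.2
    have h6 : 0 < Real.log (1 / (s - 1)) := by
      apply Real.log_pos
      rw [lt_div_iff₀ (by linarith)]
      linarith
    rw [lt_div_iff₀ h6] at h4
    have : 0 ≤ a * |Real.log (1 / (u - 1))| := mul_nonneg ha0 (abs_nonneg _)
    linarith
  · push Not at hsu
    have h3 : Real.log (1 / (s - 1)) ≤ Real.log (1 / (u - 1)) := by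
      apply Real.log_le_log
      · apply div_pos one_pos; linarith
      · apply one_div_le_one_div_of_le <;> linarith
    have h4 : a * Real.log (1 / (s - 1)) ≤ a * |Real.log (1 / (u - 1))| :=
      mul_le_mul_of_nonneg_left (h3.trans (le_abs_self _)) ha0
    have := hnn s
    linarith

section Count

theorem card_GL3 : Fintype.card (GL (Fin 2) (ZMod 3)) = 48 := by
  have := Matrix.card_GL_field (𝔽 := ZMod 3) 2
  rw [Nat.card_eq_fintype_card] at this
  rw [this]
  simp [Fin.prod_univ_two]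

theorem card_filter_matrix_refl :
    (Finset.univ.filter fun M : Matrix (Fin 2) (Fin 2) (ZMod 3) =>
      M * M = 1 ∧ M.det = -1).card = 12 := by
  decide +kernel

theorem exists_unit {M : Matrix (Fin 2) (Fin 2) (ZMod 3)} (h : M * M = 1) :
    ∃ u : GL (Fin 2) (ZMod 3), (u : Matrix (Fin 2) (Fin 2) (ZMod 3)) = M :=
  ⟨Units.mk M M h h, rfl⟩

set_option maxRecDepth 4000 in
theorem card_refl :
    (Finset.univ.filter fun g : GL (Fin 2) (ZMod 3) =>
      g ^ 2 = 1 ∧ (g : Matrix (Fin 2) (Fin 2) (ZMod 3)).det = -1).card = 12 := by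
  rw [← card_filter_matrix_refl]
  refine Finset.card_bij (fun g _ => (g : Matrix (Fin 2) (Fin 2) (ZMod 3))) ?_ ?_ ?_
  · intro g hg
    rw [Finset.mem_filter] at hg ⊢
    refine ⟨Finset.mem_univ _, ?_, hg.2.2⟩
    have := congrArg (fun x : GL (Fin 2) (ZMod 3) => (x : Matrix (Fin 2) (Fin 2) (ZMod 3))) hg.2.1
    simpa [pow_two] using this
  · intro g _ g' _ h
    exact Units.ext h
  · intro M hM
    rw [Finset.mem_filter] at hM
    obtain ⟨u, hu⟩ : ∃ u : GL (Fin 2) (ZMod 3), (u : Matrix (Fin 2) (Fin 2) (ZMod 3)) = M :=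
      exists_unit hM.2.1
    refine ⟨u, ?_, hu⟩
    rw [Finset.mem_filter]
    refine ⟨Finset.mem_univ _, ?_, by rw [hu]; exact hM.2.2⟩
    apply Units.ext
    rw [pow_two, Units.val_mul, hu, hM.2.1, Units.val_one]

theorem neg_one_ne_one : (-1 : GL (Fin 2) (ZMod 3)) ≠ 1 := by
  intro h
  have h1 := congrArg (fun x : GL (Fin 2) (ZMod 3) => (x : Matrix (Fin 2) (Fin 2) (ZMod 3)) 0 0) h
  simp at h1
  exact absurd h1 (by decide)

theorem card_pm_one :
    (Finset.univ.filter fun g : GL (Fin 2) (ZMod 3) => g = 1 ∨ g = -1).card = 2 := by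
  have : (Finset.univ.filter fun g : GL (Fin 2) (ZMod 3) => g = 1 ∨ g = -1) = {1, -1} := by
    ext g; simp
  rw [this, Finset.card_pair neg_one_ne_one.symm]

end Count

theorem sum_range_eq {Γ G : Type*} [Group Γ] [Group G] [Fintype G] (ρ : Γ →* G) [Fintype ρ.range]
    (h : ρ.range = ⊤) (f : G → ℝ) : ∑ g : ρ.range, f g = ∑ g : G, f g :=
  Fintype.sum_equiv ((MulEquiv.subgroupCongr h).trans Subgroup.topEquiv).toEquiv _ _
    (fun _ => rfl)

open Classical in
/-- **Chebotarev for a surjective homomorphism to `GL₂(𝔽₃)`**: a symmetric conjugation invariant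
predicate has logarithmic density `#{g | P g}/48`. -/
theorem hasLogDensity_of_pred (ρ : Γℚ →* GL (Fin 2) (ZMod 3))
    (hρ : GaloisFactorsThroughFiniteLevel ρ) (hsurj : Function.Surjective ρ)
    (P : GL (Fin 2) (ZMod 3) → Prop)
    (hconj : ∀ x y, P x → P (y⁻¹ * x * y)) (hinv : ∀ x, P x → P x⁻¹) (n : ℕ)
    (hn : (Finset.univ.filter P).card = n) (S : Finset ℕ) :
    HasLogDensity (fun p => if ((p : ℕ) ∉ S ∧ P (ρ (Fr p))) then 1 else 0) (n / 48) := by
  have : Fintype ρ.range := Fintype.ofFinite _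
  have htop : ρ.range = ⊤ := MonoidHom.range_eq_top.mpr hsurj
  have hconj' : ∀ x y, P (y⁻¹ * x * y) ↔ P x := by
    intro x y
    refine ⟨fun h => ?_, hconj x y⟩
    have := hconj _ y⁻¹ h
    simpa [mul_assoc] using this
  have hinv' : ∀ x, P x⁻¹ ↔ P x := by
    intro x
    refine ⟨fun h => ?_, hinv x⟩
    simpa using hinv _ h
  have h := H85.chebotarev_gal ρ hρ (fun g => if P g then (1 : ℝ) else 0)
    (fun x _ y _ => by simp only [hconj' x y]) (fun x _ => by simp only [hinv' x])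
  have hcard : Fintype.card ρ.range = 48 := by
    rw [← card_GL3, ← Nat.card_eq_fintype_card, htop, Nat.card_congr Subgroup.topEquiv.toEquiv,
      Nat.card_eq_fintype_card]
  have hsum : (∑ g : ρ.range, if P (g : GL (Fin 2) (ZMod 3)) then (1 : ℝ) else 0) = n := by
    rw [← hn, Finset.card_filter]
    push_cast
    exact sum_range_eq ρ htop (fun g => if P g then (1 : ℝ) else 0)
  rw [hcard, hsum] at h
  push_cast at h
  exact h.congr_off S fun p hp => by simp [hp]

theorem density_A (ρ : Γℚ →* GL (Fin 2) (ZMod 3))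
    (hρ : GaloisFactorsThroughFiniteLevel ρ) (hsurj : Function.Surjective ρ) (S : Finset ℕ)
    {a : ℝ} (ha0 : 0 ≤ a) (ha : a < 1 / 24) :
    ∃ C : ℝ, ∀ s : ℝ, 1 < s → s ≤ 2 → a * Real.log (1 / (s - 1)) - C ≤
      ∑' p : Nat.Primes, Set.indicator {p : Nat.Primes | (p : ℕ) ∉ S ∧
        (ρ (Fr p) = 1 ∨ ρ (Fr p) = -1)} (fun p => ((p : ℕ) : ℝ) ^ (-s)) p := by
  classical
  have h := hasLogDensity_of_pred ρ hρ hsurj (fun g => g = 1 ∨ g = -1)
    (by rintro x y (rfl | rfl) <;> simp) (by rintro x (rfl | rfl) <;> simp) 2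
    (by convert card_pm_one) S
  obtain ⟨C, hC⟩ := lower_of_density h (fun p => by positivity) ha0 (by norm_num; linarith)
  refine ⟨C, fun s hs hs2 => (hC s hs hs2).trans (le_of_eq ?_)⟩
  rw [dsum]
  refine tsum_congr fun p => ?_
  rw [Set.indicator_apply]
  simp only [Set.mem_ofPred_eq]
  split_ifs <;> simp

theorem density_B (ρ : Γℚ →* GL (Fin 2) (ZMod 3))
    (hρ : GaloisFactorsThroughFiniteLevel ρ) (hsurj : Function.Surjective ρ) (S : Finset ℕ)
    {b : ℝ} (hb0 : 0 ≤ b) (hb : b < 1 / 4) :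
    ∃ C : ℝ, ∀ s : ℝ, 1 < s → s ≤ 2 → b * Real.log (1 / (s - 1)) - C ≤
      ∑' p : Nat.Primes, Set.indicator {p : Nat.Primes | (p : ℕ) ∉ S ∧
        (ρ (Fr p) ^ 2 = 1 ∧
          ((ρ (Fr p) : GL (Fin 2) (ZMod 3)) : Matrix (Fin 2) (Fin 2) (ZMod 3)).det = -1)}
        (fun p => ((p : ℕ) : ℝ) ^ (-s)) p := by
  classical
  have h := hasLogDensity_of_pred ρ hρ hsurj
    (fun g => g ^ 2 = 1 ∧ (g : Matrix (Fin 2) (Fin 2) (ZMod 3)).det = -1)
    (by
      rintro x y ⟨h1, h2⟩
      refine ⟨?_, ?_⟩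
      · have : (y⁻¹ * x * y) ^ 2 = y⁻¹ * x ^ 2 * y := by simp only [pow_two, mul_assoc, mul_inv_cancel_left]
        rw [this, h1]; simp
      · rw [Units.val_mul, Units.val_mul, Matrix.det_mul, Matrix.det_mul, mul_comm, ← mul_assoc,
          ← Matrix.det_mul, ← Units.val_mul, mul_inv_cancel]
        simpa using h2)
    (by
      rintro x ⟨h1, h2⟩
      have hx : x⁻¹ = x := by
        rw [pow_two] at h1
        exact inv_eq_of_mul_eq_one_left h1
      rw [hx]
      exact ⟨h1, h2⟩) 12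
    (by convert card_refl) S
  obtain ⟨C, hC⟩ := lower_of_density h (fun p => by positivity) hb0 (by norm_num; linarith)
  refine ⟨C, fun s hs hs2 => (hC s hs hs2).trans (le_of_eq ?_)⟩
  rw [dsum]
  refine tsum_congr fun p => ?_
  rw [Set.indicator_apply]
  simp only [Set.mem_ofPred_eq]
  split_ifs <;> simp

end Fermat.Agent.H25Z
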