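import Fermat.Agent.H37NReal
import Fermat.Agent.H96TDef

/-!
# `N4` for the interface `ICT`: mean square bound for the coefficients of `F`
-/

set_option autoImplicit false

open Complex Set
open scoped Real

noncomputable section

namespace Fermat.Agent.H37N

open Fermat.Agent.S47T

lemma K0_eq (x : ℝ) : S47T.K0 x = H22Z.K0 x := by
  unfold S47T.K0 H22Z.K0
  simp only [neg_mul]

lemma w3_eq_om : w3 = om := by
  apply Complex.ext
  · simp [w3, om, sq3]
  · simp [w3, om, sq3]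

/-- the phase of `fterm` -/
lemma ee_phase (α z : ℂ) :
    ee ((2 * (α * z / sq3).re : ℝ)) = cexp ((4 * π * (α * z).im / √3 : ℝ) * I) := by
  have h3 : (√3 : ℝ) ≠ 0 := by positivity
  have h1 : α * z / sq3 = -(I * (α * z)) / (√3 : ℝ) := by
    rw [sq3, div_eq_div_iff (mul_ne_zero I_ne_zero (ofReal_ne_zero.mpr h3))
      (ofReal_ne_zero.mpr h3)]
    linear_combination (α * z * (√3 : ℝ)) * I_mul_I
  have h2 : (α * z / sq3).re = (α * z).im / √3 := by
    rw [h1, div_ofReal_re, neg_re, I_mul_re, neg_neg]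
  rw [h2, ee]
  congr 1
  push_cast
  ring

lemma fterm_eq (c : Eis → ℝ) (z : ℂ) {y : ℝ} (hy : 0 < y) (α : Eis) :
    fterm c ⟨z, y, hy⟩ α = (c α : ℂ) * (y * H22Z.K0 (kap * ‖(α : ℂ)‖ * y) : ℝ) *
      cexp ((4 * π * ((α : ℂ) * z).im / √3 : ℝ) * I) := by
  have h1 : 4 * π * ‖(α : ℂ)‖ * y / √3 = kap * ‖(α : ℂ)‖ * y := by
    rw [kap]
    ring
  unfold fterm
  rw [ee_phase, K0_eq]
  dsimp only
  rw [h1]
  congr 1
  push_cast
  ring

/-- **N4 for `ICT`.** -/
theorem ict_mean_square {N : ℕ} {c : Eis → ℝ} {F : H3 → ℂ} (h : ICT N c F) :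
    ∃ C : ℝ, 0 ≤ C ∧ ∀ X : ℝ, 0 < X → ∀ T : Finset Eis,
      (∀ α ∈ T, α ≠ 0 ∧ Complex.normSq (α : ℂ) ≤ X) → ∑ α ∈ T, c α ^ 2 ≤ C * X := by
  obtain ⟨B, hB⟩ := h.bdd
  refine ⟨(B / H22Z.K0 kap) ^ 2, sq_nonneg _, fun X hX T hT => ?_⟩
  have hsum : ∀ y : ℝ, 0 < y →
      Summable fun α : Eis => ‖(c α : ℂ) * (y * H22Z.K0 (kap * ‖(α : ℂ)‖ * y) : ℝ)‖ := by
    intro y hy
    have h1 := ((h.expn ⟨0, y, hy⟩).summable).norm
    refine h1.congr fun α => ?_
    rw [fterm_eq, norm_mul _ (cexp _), norm_exp_ofReal_mul_I, mul_one]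
  have key := mean_square_K0 (fun α : Eis => (α : ℂ)) Subtype.val_injective
    (fun α => by
      obtain ⟨a, b, hab⟩ := α.2
      exact ⟨a, b, by rw [w3_eq_om]; exact hab⟩) (fun α => (c α : ℂ)) (B := B) hsum
    (fun z y hy => by
      refine le_of_eq_of_le ?_ (hB ⟨z, y, hy⟩)
      rw [← (h.expn ⟨z, y, hy⟩).tsum_eq]
      congr 1
      exact tsum_congr fun α => (fterm_eq c z hy α).symm) hX T
    (fun α hα h0 => (hT α hα).1 (Subtype.ext h0))
    (fun α hα => by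
      rw [← Complex.normSq_eq_norm_sq]
      exact (hT α hα).2)
  refine le_of_eq_of_le (Finset.sum_congr rfl fun α _ => ?_) key
  rw [norm_real, Real.norm_eq_abs, sq_abs]

/-- **`hL` for `ICT`.** `l n` is bounded by the sum of `c α ^ 2` over elements of norm `n`. -/
theorem ict_dirichlet {N : ℕ} {c : Eis → ℝ} {F : H3 → ℂ} (h : ICT N c F) {l : ℕ → ℝ}
    (hl0 : ∀ n, 0 ≤ l n) (hl00 : l 0 = 0) (T : ℕ → Finset Eis)
    (hT : ∀ n, ∀ α ∈ T n, Complex.normSq (α : ℂ) = n)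
    (hl : ∀ n, n ≠ 0 → l n ≤ ∑ α ∈ T n, c α ^ 2) :
    ∃ CL : ℝ, ∀ s : ℝ, 1 < s → s ≤ 2 → Summable (fun n : ℕ => l n * (n : ℝ) ^ (-s)) ∧
      ∑' n : ℕ, l n * (n : ℝ) ^ (-s) ≤ CL / (s - 1) := by
  classical
  obtain ⟨C, hC, hms⟩ := ict_mean_square h
  refine exists_dirichlet_bound hl0 (C := C) fun X => ?_
  have hdisj : Set.PairwiseDisjoint (↑(Finset.Icc 1 X) : Set ℕ) T := by
    intro m _ n _ hmn
    rw [Function.onFun, Finset.disjoint_left]
    intro α hαm hαn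
    exact hmn (by exact_mod_cast (hT m α hαm).symm.trans (hT n α hαn))
  have h1 : ∑ n ∈ Finset.range (X + 1), l n ≤ ∑ n ∈ Finset.Icc 1 X, ∑ α ∈ T n, c α ^ 2 := by
    have h2 : ∑ n ∈ Finset.range (X + 1), l n = ∑ n ∈ Finset.Icc 1 X, l n := by
      refine (Finset.sum_subset (fun n hn => ?_) fun n hn hn' => ?_).symm
      · rw [Finset.mem_Icc] at hn
        rw [Finset.mem_range]
        omega
      · rw [Finset.mem_Icc] at hn'
        rw [Finset.mem_range] at hn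
        have : n = 0 := by omega
        rw [this, hl00]
    rw [h2]
    refine Finset.sum_le_sum fun n hn => hl n ?_
    rw [Finset.mem_Icc] at hn
    omega
  rw [← Finset.sum_biUnion hdisj] at h1
  refine h1.trans (hms (X + 1) (by positivity) _ fun α hα => ?_)
  rw [Finset.mem_biUnion] at hα
  obtain ⟨n, hn, hαn⟩ := hα
  rw [Finset.mem_Icc] at hn
  have h3 := hT n α hαn
  constructor
  · rintro rfl
    rw [ZeroMemClass.coe_zero, map_zero] at h3
    have : n = 0 := by exact_mod_cast h3.symm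
    omega
  · rw [h3]
    have : (n : ℝ) ≤ X := by exact_mod_cast hn.2
    linarith

end Fermat.Agent.H37N
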