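import Mathlib
import Fermat.Agent.H91ZLocal

/-!
# S47, block (N): Euler products of nonnegative multiplicative functions
-/

set_option autoImplicit false

namespace Fermat.Agent.H91.Z

open Finset Nat

section nonneg

variable {F : ℕ → ℝ}

/-- finite Euler products of a nonnegative multiplicative summable function -/
theorem prod_le_tsum (h1 : F 1 = 1) (hmul : ∀ {m n : ℕ}, m.Coprime n → F (m * n) = F m * F n)
    (h0 : ∀ n, 0 ≤ F n) (hs : Summable F) (N : ℕ) :
    ∏ p ∈ primesBelow N, ∑' k, F (p ^ k) ≤ ∑' n, F n := by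
  have hn : Summable (‖F ·‖) := by simpa [Real.norm_eq_abs, abs_of_nonneg (h0 _)] using hs
  rw [EulerProduct.prod_primesBelow_tsum_eq_tsum_smoothNumbers h1 hmul hn N]
  exact Summable.tsum_subtype_le F _ h0 hs

/-- a nonnegative multiplicative function with bounded finite Euler products is summable -/
theorem summable_of_prod_le (h1 : F 1 = 1)
    (hmul : ∀ {m n : ℕ}, m.Coprime n → F (m * n) = F m * F n)
    (hz : F 0 = 0) (h0 : ∀ n, 0 ≤ F n) (hloc : ∀ p : ℕ, p.Prime → Summable fun k => F (p ^ k))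
    {K : ℝ} (hK : ∀ N, ∏ p ∈ primesBelow N, ∑' k, F (p ^ k) ≤ K) : Summable F := by
  have hloc' : ∀ {p : ℕ}, p.Prime → Summable fun k => ‖F (p ^ k)‖ := by
    intro p hp
    simpa [Real.norm_eq_abs, abs_of_nonneg (h0 _)] using hloc p hp
  refine summable_of_sum_range_le h0 (c := K) fun n => ?_
  refine le_trans ?_ (hK n)
  obtain ⟨h2, h3⟩ := EulerProduct.summable_and_hasSum_smoothNumbers_prod_primesBelow_tsum h1 hmul
    hloc' n
  rw [← h3.tsum_eq]
  have hsm : Summable fun m : smoothNumbers n => F m := h3.summable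
  have h4 : ∑ i ∈ range n, F i = ∑ i ∈ (range n).filter (· ≠ 0), F i := by
    rw [Finset.sum_filter]
    refine Finset.sum_congr rfl fun i _ => ?_
    split_ifs with h
    · rfl
    · push Not at h
      rw [h, hz]
  rw [h4]
  have hmem : ∀ i ∈ (range n).filter (· ≠ 0), i ∈ smoothNumbers n := by
    intro i hi
    rw [Finset.mem_filter, Finset.mem_range] at hi
    exact mem_smoothNumbers_of_lt (Nat.pos_of_ne_zero hi.2) hi.1
  have h5 : ∑ i ∈ (range n).filter (· ≠ 0), F i =
      ∑ i ∈ ((range n).filter (· ≠ 0)).attach, F i := (Finset.sum_attach _ _).symm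
  rw [h5]
  let e : {i // i ∈ (range n).filter (· ≠ 0)} → smoothNumbers n := fun i => ⟨i, hmem i i.2⟩
  have he : Function.Injective e := fun a b hab => by
    apply Subtype.ext
    exact congrArg (fun z : smoothNumbers n => (z : ℕ)) hab
  have h6 : ∑ i ∈ ((range n).filter (· ≠ 0)).attach, F i =
      ∑ j ∈ (((range n).filter (· ≠ 0)).attach).map ⟨e, he⟩, F j := by
    rw [Finset.sum_map]
    rfl
  rw [h6]
  exact hsm.sum_le_tsum _ (fun i _ => h0 i)

end nonneg

end Fermat.Agent.H91.Z
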