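import Mathlib
import Fermat.Agent.H91ZMult

/-!
# S47, block (N): the Asai Dirichlet series is unbounded near `s = 1`
-/

set_option autoImplicit false

namespace Fermat.Agent.H91.Z

open Finset Nat Filter Topology

/-- Coefficients of the Asai series `d` and of the Rankin-Selberg series `l` of a Hecke
eigensystem on a quadratic field (`p % 3 = 1`: split, `p % 3 = 2`: inert). -/
structure AsaiData (N : ℕ) (t t' : ℕ → ℝ) (A B : Set ℕ) (d l : ℕ → ℝ) : Prop where
  d_zero : d 0 = 0
  d_one : d 1 = 1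
  d_mul : ∀ {m n : ℕ}, m.Coprime n → d (m * n) = d m * d n
  l_zero : l 0 = 0
  l_one : l 1 = 1
  l_mul : ∀ {m n : ℕ}, m.Coprime n → l (m * n) = l m * l n
  l_nonneg : ∀ n, 0 ≤ l n
  d_split : ∀ p : ℕ, p.Prime → ¬ p ∣ 3 * N → p % 3 = 1 → ∀ k, d (p ^ k) = cU (t p) k * cU (t' p) k
  l_split : ∀ p : ℕ, p.Prime → ¬ p ∣ 3 * N → p % 3 = 1 → ∀ k, l (p ^ k) =
    ∑ ij ∈ Finset.HasAntidiagonal.antidiagonal k, cU (t p) ij.1 ^ 2 * cU (t' p) ij.2 ^ 2
  d_inert : ∀ p : ℕ, p.Prime → ¬ p ∣ 3 * N → p % 3 = 2 → ∀ k, d (p ^ k) = cU (t p) k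
  d_bad : ∀ p : ℕ, p.Prime → p ∣ 3 * N → ∀ k, d (p ^ (k + 1)) = 0
  A_spec : ∀ p ∈ A, p.Prime ∧ ¬ p ∣ 3 * N ∧ p % 3 = 1 ∧
    ((t p = 2 ∧ t' p = 2) ∨ (t p = -2 ∧ t' p = -2))
  B_spec : ∀ p ∈ B, p.Prime ∧ ¬ p ∣ 3 * N ∧ p % 3 = 2 ∧ t p = 2
  notB_spec : ∀ p : ℕ, p.Prime → ¬ p ∣ 3 * N → p % 3 = 2 → p ∉ B → t p = 0

section elementary

lemma exp_le_one_add {x : ℝ} (hx : 0 ≤ x) (hx1 : x ≤ 1 / 2) :
    Real.exp (x - x ^ 2) ≤ 1 + x := by
  have h1 : 1 - (x - x ^ 2) ≤ Real.exp (-(x - x ^ 2)) := by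
    have := Real.add_one_le_exp (-(x - x ^ 2))
    linarith
  have h2 : 0 < 1 - (x - x ^ 2) := by nlinarith
  have h3 : 1 ≤ (1 + x) * (1 - (x - x ^ 2)) := by nlinarith [pow_nonneg hx 3]
  have h4 : 1 ≤ (1 + x) * Real.exp (-(x - x ^ 2)) :=
    h3.trans (mul_le_mul_of_nonneg_left h1 (by linarith))
  rw [Real.exp_neg] at h4
  have h5 := Real.exp_pos (x - x ^ 2)
  rwa [← div_eq_mul_inv, le_div_iff₀ h5, one_mul] at h4

lemma exp_le_inv {x : ℝ} (hx1 : x < 1) : Real.exp x ≤ (1 - x)⁻¹ := by
  have h1 : 1 - x ≤ Real.exp (-x) := by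
    have := Real.add_one_le_exp (-x)
    linarith
  rw [Real.exp_neg] at h1
  have h2 : 0 < 1 - x := by linarith
  exact (le_inv_comm₀ h2 (Real.exp_pos x)).1 h1

lemma exp_neg_le {y : ℝ} (hy : 0 ≤ y) (hy1 : y ≤ 1 / 2) : Real.exp (-(2 * y)) ≤ 1 - y := by
  have h1 : 1 + 2 * y ≤ Real.exp (2 * y) := by
    have := Real.add_one_le_exp (2 * y)
    linarith
  have h2 : 1 ≤ (1 + 2 * y) * (1 - y) := by nlinarith
  have h3 : 1 ≤ Real.exp (2 * y) * (1 - y) :=
    h2.trans (mul_le_mul_of_nonneg_right h1 (by linarith))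
  rw [Real.exp_neg]
  rw [inv_le_iff_one_le_mul₀ (Real.exp_pos _)]
  linarith [mul_comm (Real.exp (2 * y)) (1 - y)]

/-- closed form for the standard factor -/
lemma tsum_cU_mul {t x : ℝ} (h : Summable fun k => cU t k * x ^ k) :
    (∑' k, cU t k * x ^ k) * (1 - t * x + x ^ 2) = 1 := by
  set S := ∑' k, cU t k * x ^ k with hS
  have h1 : S = 1 + ∑' k, cU t (k + 1) * x ^ (k + 1) := by
    rw [hS, h.tsum_eq_zero_add]; simp
  have s1 : Summable fun k => cU t (k + 1) * x ^ (k + 1) := (summable_nat_add_iff 1).2 h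
  have h2 : ∑' k, cU t (k + 1) * x ^ (k + 1) =
      t * x + ∑' k, cU t (k + 1 + 1) * x ^ (k + 1 + 1) := by
    rw [s1.tsum_eq_zero_add]; simp
  have h3 : ∑' k, cU t (k + 1 + 1) * x ^ (k + 1 + 1) =
      t * x * (∑' k, cU t (k + 1) * x ^ (k + 1)) - x ^ 2 * S := by
    rw [hS, ← tsum_mul_left, ← tsum_mul_left,
      ← (s1.mul_left (t * x)).tsum_sub (h.mul_left (x ^ 2))]
    refine tsum_congr fun k => ?_
    rw [cU_add_two]; ring
  linear_combination h1 + (1 : ℝ) * h2 + h3 - t * x * h1

end elementary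

section local_

variable {N : ℕ} {t t' : ℕ → ℝ} {A B : Set ℕ} {d l : ℕ → ℝ}

/-- the weight of a prime in the final estimate -/
noncomputable def wt (A B : Set ℕ) (x : ℝ) (p : ℕ) : ℝ := by
  classical
  exact (if p ∈ A then 16 * x else 0) + (if p ∈ B then 4 * x else 0) - 8 * x ^ 2

/-- the local estimate at one prime -/
theorem AsaiData.local_estimate (D : AsaiData N t t' A B d l) {p : ℕ} (hp : p.Prime) {x : ℝ}
    (hx : 0 < x) (hx1 : x ≤ 1 / 2) (hl : Summable fun k => l (p ^ k) * x ^ k) :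
    Summable (fun k => d (p ^ k) * x ^ k) ∧
    (∑' k, |d (p ^ k)| * x ^ k) ≤ (∑' k, l (p ^ k) * x ^ k) * ((1 - x)⁻¹ * (1 - x)⁻¹) ∧
    0 < (∑' k, d (p ^ k) * x ^ k) ∧
    Real.exp (wt A B x p) ≤ (∑' k, d (p ^ k) * x ^ k) ^ 2 * (∑' k, l (p ^ k) * x ^ k) := by
  classical
  have hx' : x < 1 := by linarith
  have h1x : 0 < 1 - x := by linarith
  have hlnn : ∀ k, 0 ≤ l (p ^ k) * x ^ k := fun k => mul_nonneg (D.l_nonneg _) (pow_nonneg hx.le k)
  have hL1 : 1 ≤ ∑' k, l (p ^ k) * x ^ k := by
    have := hl.le_tsum 0 (fun k _ => hlnn k)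
    simpa [D.l_one] using this
  have hinv : 1 ≤ (1 - x)⁻¹ := (one_le_inv₀ h1x).2 (by linarith)
  have hinv2 : 1 ≤ (1 - x)⁻¹ * (1 - x)⁻¹ := by nlinarith
  have hx2 : 0 ≤ x ^ 2 := sq_nonneg x
  have hx3 : x ^ 2 ≤ 1 / 2 := by nlinarith
  by_cases hbad : p ∣ 3 * N
  · -- bad primes
    have hA : p ∉ A := fun h => (D.A_spec p h).2.1 hbad
    have hB : p ∉ B := fun h => (D.B_spec p h).2.1 hbad
    have hd : ∀ k, k ≠ 0 → d (p ^ k) = 0 := by
      intro k hk
      obtain ⟨j, rfl⟩ := Nat.exists_eq_succ_of_ne_zero hk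
      exact D.d_bad p hp hbad j
    have hs : HasSum (fun k => d (p ^ k) * x ^ k) 1 := by
      have := hasSum_single (f := fun k => d (p ^ k) * x ^ k) 0
        (fun k hk => by simp [hd k hk])
      simpa [D.d_one] using this
    have hs' : HasSum (fun k => |d (p ^ k)| * x ^ k) 1 := by
      have := hasSum_single (f := fun k => |d (p ^ k)| * x ^ k) 0
        (fun k hk => by simp [hd k hk])
      simpa [D.d_one] using this
    refine ⟨hs.summable, ?_, ?_, ?_⟩
    · rw [hs'.tsum_eq]; nlinarith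
    · rw [hs.tsum_eq]; exact one_pos
    · rw [hs.tsum_eq, one_pow, one_mul]
      refine le_trans ?_ hL1
      rw [← Real.exp_zero]
      apply Real.exp_le_exp.2
      rw [wt, if_neg hA, if_neg hB]
      nlinarith
  · have h3 : p % 3 = 1 ∨ p % 3 = 2 := by
      have h0 : p % 3 ≠ 0 := by
        intro h0
        have h3p : 3 ∣ p := Nat.dvd_of_mod_eq_zero h0
        have : 3 = p := (Nat.prime_dvd_prime_iff_eq Nat.prime_three hp).1 h3p
        exact hbad (this ▸ Dvd.intro _ rfl)
      omega
    rcases h3 with h3 | h3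
    · -- split primes
      have hB : p ∉ B := fun h => by have := (D.B_spec p h).2.2.1; omega
      have hdk := D.d_split p hp hbad h3
      have hlk := D.l_split p hp hbad h3
      have hle1 : ∀ k, cU (t p) k ^ 2 ≤ l (p ^ k) := by
        intro k
        rw [hlk]
        have := Finset.single_le_sum (f := fun ij : ℕ × ℕ => cU (t p) ij.1 ^ 2 * cU (t' p) ij.2 ^ 2)
          (fun ij _ => mul_nonneg (sq_nonneg _) (sq_nonneg _))
          (Finset.HasAntidiagonal.mem_antidiagonal.2 (show ((k, 0) : ℕ × ℕ).1 + ((k, 0) : ℕ × ℕ).2 = k from rfl))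
        simpa using this
      have hle2 : ∀ k, cU (t' p) k ^ 2 ≤ l (p ^ k) := by
        intro k
        rw [hlk]
        have := Finset.single_le_sum (f := fun ij : ℕ × ℕ => cU (t p) ij.1 ^ 2 * cU (t' p) ij.2 ^ 2)
          (fun ij _ => mul_nonneg (sq_nonneg _) (sq_nonneg _))
          (Finset.HasAntidiagonal.mem_antidiagonal.2 (show ((0, k) : ℕ × ℕ).1 + ((0, k) : ℕ × ℕ).2 = k from
            zero_add k))
        simpa using this
      have s1 : Summable fun k => cU (t p) k ^ 2 * x ^ k :=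
        Summable.of_nonneg_of_le (fun k => mul_nonneg (sq_nonneg _) (pow_nonneg hx.le k))
          (fun k => mul_le_mul_of_nonneg_right (hle1 k) (pow_nonneg hx.le k)) hl
      have s2 : Summable fun k => cU (t' p) k ^ 2 * x ^ k :=
        Summable.of_nonneg_of_le (fun k => mul_nonneg (sq_nonneg _) (pow_nonneg hx.le k))
          (fun k => mul_le_mul_of_nonneg_right (hle2 k) (pow_nonneg hx.le k)) hl
      have hprod : (∑' k, cU (t p) k ^ 2 * x ^ k) * (∑' k, cU (t' p) k ^ 2 * x ^ k) =
          ∑' k, l (p ^ k) * x ^ k := by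
        rw [tsum_mul_tsum_eq_tsum_sum_antidiagonal_of_summable_norm
          (by simpa [abs_of_pos hx] using s1)
          (by simpa [abs_of_pos hx] using s2)]
        refine tsum_congr fun k => ?_
        rw [hlk, Finset.sum_mul]
        refine Finset.sum_congr rfl fun ij hij => ?_
        rw [← Finset.HasAntidiagonal.mem_antidiagonal.1 hij, pow_add]
        ring
      have sd : Summable fun k => d (p ^ k) * x ^ k := by
        simpa [hdk] using summable_mul s1 s2 hx.le
      have habs : ∀ k, |d (p ^ k)| * x ^ k ≤ l (p ^ k) * x ^ k := by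
        intro k
        apply mul_le_mul_of_nonneg_right _ (pow_nonneg hx.le k)
        rw [hdk, abs_mul]
        have e1 := hle1 k
        have e2 := hle2 k
        nlinarith [sq_nonneg (|cU (t p) k| - |cU (t' p) k|), sq_abs (cU (t p) k),
          sq_abs (cU (t' p) k)]
      have sabs : Summable fun k => |d (p ^ k)| * x ^ k :=
        Summable.of_nonneg_of_le (fun k => mul_nonneg (abs_nonneg _) (pow_nonneg hx.le k)) habs hl
      obtain ⟨c1, c2⟩ := local_comparison s1 s2 hx hx'
      have ed : (∑' k, cU (t p) k * cU (t' p) k * x ^ k) = ∑' k, d (p ^ k) * x ^ k := by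
        simp only [hdk]
      rw [hprod] at c2
      rw [ed] at c1 c2
      refine ⟨sd, ?_, c1, ?_⟩
      · calc (∑' k, |d (p ^ k)| * x ^ k) ≤ ∑' k, l (p ^ k) * x ^ k := sabs.tsum_le_tsum habs hl
          _ ≤ _ := le_mul_of_one_le_right (by linarith) hinv2
      · by_cases hA : p ∈ A
        · -- Frobenius `±1`
          have hVV : ∀ k : ℕ, d (p ^ k) = ((k : ℝ) + 1) ^ 2 ∧
              cU (t p) k ^ 2 = ((k : ℝ) + 1) ^ 2 ∧ cU (t' p) k ^ 2 = ((k : ℝ) + 1) ^ 2 := by
            intro k
            rcases (D.A_spec p hA).2.2.2 with ⟨e1, e2⟩ | ⟨e1, e2⟩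
            · rw [hdk, e1, e2, cU_two]; exact ⟨by ring, rfl, rfl⟩
            · rw [hdk, e1, e2, cU_neg, cU_two]
              have : ((-1 : ℝ) ^ k) ^ 2 = 1 := by rw [← pow_mul, mul_comm, pow_mul]; simp
              refine ⟨?_, ?_, ?_⟩
              · calc _ = ((-1 : ℝ) ^ k) ^ 2 * ((k : ℝ) + 1) ^ 2 := by ring
                  _ = _ := by rw [this, one_mul]
              · rw [mul_pow, this, one_mul]
              · rw [mul_pow, this, one_mul]
          have e1 : (∑' k, cU (t p) k ^ 2 * x ^ k) = ∑' k, d (p ^ k) * x ^ k :=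
            tsum_congr fun k => by rw [(hVV k).1, (hVV k).2.1]
          have e2 : (∑' k, cU (t' p) k ^ 2 * x ^ k) = ∑' k, d (p ^ k) * x ^ k :=
            tsum_congr fun k => by rw [(hVV k).1, (hVV k).2.2]
          have e3 := tsum_sq_mul s1 hx hx'
          have ht : t p ^ 2 = 4 := by
            rcases (D.A_spec p hA).2.2.2 with ⟨e1, -⟩ | ⟨e1, -⟩ <;> rw [e1] <;> norm_num
          rw [e1, ht] at e3
          rw [← hprod, e1, e2]
          set S := ∑' k, d (p ^ k) * x ^ k with hS
          have e4 : S = (1 + x) * ((1 - x)⁻¹) ^ 3 := by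
            have h4 : (1 - x) ^ 3 ≠ 0 := pow_ne_zero _ h1x.ne'
            rw [inv_pow, ← div_eq_mul_inv, eq_div_iff h4, ← e3]
            ring
          have e5 : Real.exp (4 * x - x ^ 2) ≤ S := by
            rw [e4]
            have f1 := exp_le_one_add hx.le hx1
            have f2 := exp_le_inv hx'
            have f3 : Real.exp (4 * x - x ^ 2) = Real.exp (x - x ^ 2) * Real.exp x ^ 3 := by
              rw [← Real.exp_nat_mul, ← Real.exp_add]
              congr 1
              push_cast; ring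
            rw [f3]
            exact mul_le_mul f1 (pow_le_pow_left₀ (Real.exp_pos _).le f2 3)
              (pow_nonneg (Real.exp_pos _).le 3) (by linarith)
          have e6 : Real.exp (4 * (4 * x - x ^ 2)) ≤ S ^ 4 := by
            have := pow_le_pow_left₀ (Real.exp_pos _).le e5 4
            rw [← Real.exp_nat_mul] at this
            simpa using this
          calc Real.exp (wt A B x p) ≤ Real.exp (4 * (4 * x - x ^ 2)) := by
                apply Real.exp_le_exp.2
                rw [wt, if_pos hA, if_neg hB]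
                nlinarith
            _ ≤ S ^ 4 := e6
            _ = S ^ 2 * (S * S) := by ring
        · refine le_trans ?_ c2
          have f1 := exp_neg_le hx2 hx3
          have f2 := pow_le_pow_left₀ (Real.exp_pos _).le f1 4
          rw [← Real.exp_nat_mul] at f2
          refine le_trans (le_of_eq ?_) f2
          congr 1
          rw [wt, if_neg hA, if_neg hB]
          push_cast; ring
    · -- inert primes
      have hA : p ∉ A := fun h => by have := (D.A_spec p h).2.2.1; omega
      have hdk := D.d_inert p hp hbad h3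
      by_cases hB : p ∈ B
      · have ht := (D.B_spec p hB).2.2.2
        have e0 : ∀ k : ℕ, d (p ^ k) = (k : ℝ) + 1 := fun k => by rw [hdk, ht, cU_two]
        have hg := hasSum_coe_mul_geometric_of_norm_lt_one (𝕜 := ℝ) (r := x)
          (by rw [Real.norm_eq_abs, abs_of_pos hx]; exact hx')
        have hg0 := hasSum_geometric_of_lt_one hx.le hx'
        have hs : HasSum (fun k => d (p ^ k) * x ^ k) ((1 - x)⁻¹ * (1 - x)⁻¹) := by
          have h7 := hg.add hg0
          have e1 : x / (1 - x) ^ 2 + (1 - x)⁻¹ = (1 - x)⁻¹ * (1 - x)⁻¹ := by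
            field_simp; ring
          rw [e1] at h7
          have e2 : (fun k : ℕ => (k : ℝ) * x ^ k + x ^ k) = fun k => d (p ^ k) * x ^ k := by
            funext k; rw [e0]; ring
          rwa [e2] at h7
        have habs : ∀ k, |d (p ^ k)| * x ^ k = d (p ^ k) * x ^ k := by
          intro k
          rw [abs_of_nonneg]
          rw [e0]; positivity
        have hpos : 0 < (1 - x)⁻¹ * (1 - x)⁻¹ := by positivity
        refine ⟨hs.summable, ?_, ?_, ?_⟩
        · rw [tsum_congr habs, hs.tsum_eq]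
          exact le_mul_of_one_le_left hpos.le hL1
        · rw [hs.tsum_eq]; exact hpos
        · rw [hs.tsum_eq]
          have f2 := exp_le_inv hx'
          have f3 : Real.exp (4 * x) ≤ ((1 - x)⁻¹ * (1 - x)⁻¹) ^ 2 := by
            have := pow_le_pow_left₀ (Real.exp_pos _).le f2 4
            rw [← Real.exp_nat_mul] at this
            calc Real.exp (4 * x) = Real.exp ((4 : ℕ) * x) := by norm_num
              _ ≤ _ := this
              _ = _ := by ring
          calc Real.exp (wt A B x p) ≤ Real.exp (4 * x) := by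
                apply Real.exp_le_exp.2
                rw [wt, if_neg hA, if_pos hB]
                nlinarith
            _ ≤ ((1 - x)⁻¹ * (1 - x)⁻¹) ^ 2 := f3
            _ ≤ _ := le_mul_of_one_le_right (by positivity) hL1
      · have ht := D.notB_spec p hp hbad h3 hB
        have e0 : ∀ k, |d (p ^ k)| ≤ 1 := fun k => by rw [hdk, ht]; exact cU_zero_sq_le k
        have hg0 := hasSum_geometric_of_lt_one hx.le hx'
        have habs : ∀ k, |d (p ^ k)| * x ^ k ≤ x ^ k := fun k =>
          mul_le_of_le_one_left (pow_nonneg hx.le k) (e0 k)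
        have sabs : Summable fun k => |d (p ^ k)| * x ^ k :=
          Summable.of_nonneg_of_le (fun k => mul_nonneg (abs_nonneg _) (pow_nonneg hx.le k)) habs
            hg0.summable
        have sd : Summable fun k => d (p ^ k) * x ^ k := by
          refine Summable.of_norm_bounded sabs fun k => ?_
          rw [Real.norm_eq_abs, abs_mul, abs_of_nonneg (pow_nonneg hx.le k)]
        have e1 : (∑' k, d (p ^ k) * x ^ k) * (1 + x ^ 2) = 1 := by
          have sd' : Summable fun k => cU 0 k * x ^ k := by simpa [hdk, ht] using sd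
          have := tsum_cU_mul sd'
          simp only [hdk, ht]
          linarith [this]
        have h1x2 : 0 < 1 + x ^ 2 := by positivity
        have e2 : (∑' k, d (p ^ k) * x ^ k) = (1 + x ^ 2)⁻¹ := eq_inv_of_mul_eq_one_left e1
        refine ⟨sd, ?_, ?_, ?_⟩
        · calc (∑' k, |d (p ^ k)| * x ^ k) ≤ ∑' k, x ^ k := sabs.tsum_le_tsum habs hg0.summable
            _ = (1 - x)⁻¹ := hg0.tsum_eq
            _ ≤ (1 - x)⁻¹ * (1 - x)⁻¹ := le_mul_of_one_le_right (by positivity) hinv
            _ ≤ _ := le_mul_of_one_le_left (by positivity) hL1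
        · rw [e2]; positivity
        · rw [e2]
          have f1 : Real.exp (-(x ^ 2)) ≤ (1 + x ^ 2)⁻¹ := by
            rw [Real.exp_neg]
            apply inv_anti₀ h1x2
            have := Real.add_one_le_exp (x ^ 2)
            linarith
          have f2 : Real.exp (-(2 * x ^ 2)) ≤ ((1 + x ^ 2)⁻¹) ^ 2 := by
            have := pow_le_pow_left₀ (Real.exp_pos _).le f1 2
            rw [← Real.exp_nat_mul] at this
            calc Real.exp (-(2 * x ^ 2)) = Real.exp ((2 : ℕ) * -(x ^ 2)) := by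
                  congr 1; push_cast; ring
              _ ≤ _ := this
          calc Real.exp (wt A B x p) ≤ Real.exp (-(2 * x ^ 2)) := by
                apply Real.exp_le_exp.2
                rw [wt, if_neg hA, if_neg hB]
                nlinarith
            _ ≤ ((1 + x ^ 2)⁻¹) ^ 2 := f2
            _ ≤ _ := le_mul_of_one_le_right (by positivity) hL1

end local_

end Fermat.Agent.H91.Z
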