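import Mathlib
import Fermat.Agent.H91ZIdeal
import Fermat.Agent.H91ZMain

/-!
# S47, block (N), piece N3b: from a Hecke system on the ideals of `ℤ[ω]` to `AsaiData`

`EisLike om`: the ring `O` is `ℤ ⊕ ℤ om` with `om² + om + 1 = 0` (for instance the subring `ℤ[ω]` of
`ℂ`, or the ring of integers of `ℚ(√-3)`). For a function `c` on the ideals of `O` which is
multiplicative, satisfies the Hecke recursion at the primes not dividing `3N` and vanishes on the
ideals which are not prime to `3N`, the functions `n ↦ c((n))` and `n ↦ ∑_{N a = n} c(a)²` satisfy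
`AsaiData`.
-/

set_option autoImplicit false
set_option linter.unusedSectionVars false
set_option linter.style.haveILetI false

namespace Fermat.Agent.H62N

open Ideal Fermat.Agent.H91.Z

/-- `O = ℤ ⊕ ℤ om`, `om² + om + 1 = 0`. -/
structure EisLike {O : Type*} [CommRing O] (om : O) : Prop where
  rel : om ^ 2 + om + 1 = 0
  ex : ∀ x : O, ∃ a b : ℤ, x = a + b * om
  indep : ∀ a b : ℤ, (a : O) + b * om = 0 → a = 0 ∧ b = 0

section basis

variable {O : Type*} [CommRing O] {om : O} (h : EisLike om)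

include h

lemma EisLike.exists_basis : Nonempty (Module.Basis (Fin 2) ℤ O) := by
  have hli : LinearIndependent ℤ ![(1 : O), om] := by
    rw [LinearIndependent.pair_iff]
    intro a b hab
    apply h.indep
    simpa [zsmul_eq_mul] using hab
  have hsp : ⊤ ≤ Submodule.span ℤ (Set.range ![(1 : O), om]) := by
    intro x _
    obtain ⟨a, b, rfl⟩ := h.ex x
    have h1 : (1 : O) ∈ Submodule.span ℤ (Set.range ![(1 : O), om]) :=
      Submodule.subset_span ⟨0, rfl⟩
    have h2 : om ∈ Submodule.span ℤ (Set.range ![(1 : O), om]) :=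
      Submodule.subset_span ⟨1, rfl⟩
    have := Submodule.add_mem _ (Submodule.smul_mem _ a h1) (Submodule.smul_mem _ b h2)
    simpa [zsmul_eq_mul] using this
  exact ⟨Module.Basis.mk hli hsp⟩

lemma EisLike.free : Module.Free ℤ O := Module.Free.of_basis h.exists_basis.some

lemma EisLike.finite : Module.Finite ℤ O := Module.Finite.of_basis h.exists_basis.some

lemma EisLike.finrank : Module.finrank ℤ O = 2 := by
  rw [Module.finrank_eq_card_basis h.exists_basis.some, Fintype.card_fin]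

/-- a prime number is not a unit -/
lemma EisLike.not_dvd_one {p : ℕ} (hp : p.Prime) (x : O) : (p : O) * x ≠ 1 := by
  intro hx
  obtain ⟨a, b, rfl⟩ := h.ex x
  have h1 := h.indep (p * a - 1) (p * b) (by push_cast; linear_combination hx)
  have h2 : (p : ℤ) * a = 1 := by linarith [h1.1]
  have h3 : (p : ℤ) ∣ 1 := ⟨a, h2.symm⟩
  have h4 := Int.natAbs_dvd_natAbs.mpr h3
  simp only [Int.natAbs_natCast, Int.natAbs_one, Nat.dvd_one] at h4
  exact hp.one_lt.ne' h4

lemma EisLike.not_coprime_of_dvd {p : ℕ} (hp : p.Prime) {I J : Ideal O}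
    (hI : ∀ x ∈ I, (p : O) ∣ x) (hJ : ∀ x ∈ J, (p : O) ∣ x) : ¬ IsCoprime I J := by
  rw [Ideal.isCoprime_iff_exists]
  rintro ⟨i, hi, j, hj, hij⟩
  obtain ⟨x, hx⟩ := dvd_add (hI i hi) (hJ j hj)
  rw [hij] at hx
  exact h.not_dvd_one hp x hx.symm

end basis

section arith

variable {O : Type*} [CommRing O]

lemma isCoprime_of_mem {a b : Ideal O} {m n : ℕ} (hmn : m.Coprime n)
    (ha : (m : O) ∈ a) (hb : (n : O) ∈ b) : IsCoprime a b := by
  rw [Ideal.isCoprime_iff_exists]
  obtain ⟨u, v, h⟩ := Nat.isCoprime_iff_coprime.mpr hmn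
  refine ⟨(u : O) * m, a.mul_mem_left _ ha, (v : O) * n, b.mul_mem_left _ hb, ?_⟩
  exact_mod_cast congrArg (Int.cast : ℤ → O) h

/-- a cube root of unity modulo `p ≡ 1 mod 3` -/
lemma exists_root {p : ℕ} (hp : p.Prime) (h3 : p % 3 = 1) : ∃ r : ℤ, (p : ℤ) ∣ r ^ 2 + r + 1 := by
  have hF : Fact p.Prime := ⟨hp⟩
  have h1 : 3 ∣ Fintype.card (ZMod p)ˣ := by
    rw [ZMod.card_units_eq_totient, Nat.totient_prime hp]
    omega
  have hF3 : Fact (Nat.Prime 3) := ⟨Nat.prime_three⟩
  obtain ⟨x, hx⟩ := exists_prime_orderOf_dvd_card 3 h1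
  have hx3 : x ^ 3 = 1 := by rw [← hx]; exact pow_orderOf_eq_one x
  have hx1 : x ≠ 1 := by
    intro h
    rw [h, orderOf_one] at hx
    omega
  have hy3 : ((x : (ZMod p)ˣ) : ZMod p) ^ 3 = 1 := by
    rw [← Units.val_pow_eq_pow_val, hx3, Units.val_one]
  have hy1 : ((x : (ZMod p)ˣ) : ZMod p) - 1 ≠ 0 := by
    intro h
    exact hx1 (Units.ext (sub_eq_zero.mp h))
  set y : ZMod p := ((x : (ZMod p)ˣ) : ZMod p) with hy
  have h0 : y ^ 2 + y + 1 = 0 := by
    have : (y - 1) * (y ^ 2 + y + 1) = 0 := by linear_combination hy3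
    exact (mul_eq_zero.mp this).resolve_left hy1
  refine ⟨(y.val : ℤ), ?_⟩
  rw [← ZMod.intCast_zmod_eq_zero_iff_dvd]
  push_cast
  rw [ZMod.natCast_zmod_val]
  exact h0

end arith

section primes

variable {O : Type*} [CommRing O] [IsDedekindDomain O] [Module.Free ℤ O] [Module.Finite ℤ O]
  {om : O} (h : EisLike om)

include h

lemma EisLike.absNorm_span (n : ℕ) : absNorm (span {(n : O)}) = n ^ 2 := by
  rw [absNorm_span_natCast, h.finrank]

/-- splitting of `p ≡ 1 mod 3` -/
theorem EisLike.exists_split {p : ℕ} (hp : p.Prime) (h3 : p % 3 = 1) :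
    ∃ P P' : Ideal O, P.IsPrime ∧ P'.IsPrime ∧ P ≠ P' ∧ absNorm P = p ∧ absNorm P' = p ∧
      P * P' = span {(p : O)} ∧ IsCoprime P P' := by
  obtain ⟨r, m, hr⟩ := exists_root hp h3
  have hrO : (r : O) ^ 2 + r + 1 = (p : O) * (m : O) := by exact_mod_cast congrArg (Int.cast : ℤ → O) hr
  set P : Ideal O := span {(p : O), om - r} with hP
  set P' : Ideal O := span {(p : O), om + 1 + r} with hP'
  have hpP : (p : O) ∈ P := subset_span (by simp)
  have hpP' : (p : O) ∈ P' := subset_span (by simp)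
  have haP : om - r ∈ P := subset_span (by simp)
  have haP' : om + 1 + r ∈ P' := subset_span (by simp)
  have hcop : IsCoprime P P' := by
    rw [Ideal.isCoprime_iff_sup_eq, Ideal.eq_top_iff_one]
    have h1 : (p : O) ∈ P ⊔ P' := Ideal.mem_sup_left hpP
    have h2 : ((2 : O) * r + 1) ∈ P ⊔ P' := by
      have := Ideal.sub_mem (P ⊔ P') (Ideal.mem_sup_right haP') (Ideal.mem_sup_left haP)
      convert this using 1
      ring
    have h3' : (3 : O) ∈ P ⊔ P' := by
      have e : (3 : O) = (4 * (m : O)) * (p : O) - (2 * r + 1) * ((2 : O) * r + 1) := by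
        linear_combination (4 : O) * hrO
      rw [e]
      exact Ideal.sub_mem _ (Ideal.mul_mem_left _ _ h1) (Ideal.mul_mem_left _ _ h2)
    have hc : p.Coprime 3 := by
      rw [hp.coprime_iff_not_dvd]
      intro hd
      have := (Nat.prime_dvd_prime_iff_eq hp Nat.prime_three).1 hd
      omega
    obtain ⟨u, v, huv⟩ := Nat.isCoprime_iff_coprime.mpr hc
    have huv' : (u : O) * (p : O) + v * 3 = 1 := by exact_mod_cast congrArg (Int.cast : ℤ → O) huv
    rw [← huv']
    exact Ideal.add_mem _ (Ideal.mul_mem_left _ _ h1) (Ideal.mul_mem_left _ _ h3')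
  have hmul : P * P' = span {(p : O)} := by
    apply le_antisymm
    · rw [hP, hP', Ideal.span_pair_mul_span_pair, Ideal.span_le]
      intro x hx
      simp only [Set.mem_insert_iff, Set.mem_singleton_iff] at hx
      rw [SetLike.mem_coe, Ideal.mem_span_singleton]
      rcases hx with rfl | rfl | rfl | rfl
      · exact Dvd.intro _ rfl
      · exact Dvd.intro _ rfl
      · exact Dvd.intro_left _ rfl
      · refine ⟨-(m : O), ?_⟩
        linear_combination h.rel - hrO
    · rw [Ideal.mul_eq_inf_of_isCoprime hcop]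
      rw [le_inf_iff, span_singleton_le_iff_mem, span_singleton_le_iff_mem]
      exact ⟨hpP, hpP'⟩
  have hno : ∀ s : ℤ, (om + s : O) ∉ span {(p : O)} := by
    intro s hs
    rw [Ideal.mem_span_singleton] at hs
    obtain ⟨x, hx⟩ := hs
    obtain ⟨a, b, rfl⟩ := h.ex x
    have h1 := h.indep (s - p * a) (1 - p * b) (by push_cast; linear_combination hx)
    have h2 : (p : ℤ) * b = 1 := by linarith [h1.2]
    have h4 := Int.natAbs_dvd_natAbs.mpr (⟨b, h2.symm⟩ : (p : ℤ) ∣ 1)
    simp only [Int.natAbs_natCast, Int.natAbs_one, Nat.dvd_one] at h4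
    exact hp.one_lt.ne' h4
  have hPt : P ≠ ⊤ := by
    intro ht
    rw [ht, Ideal.top_mul] at hmul
    rw [hmul] at haP'
    apply hno (1 + r)
    push_cast
    rwa [← add_assoc]
  have hPt' : P' ≠ ⊤ := by
    intro ht
    rw [ht, Ideal.mul_top] at hmul
    rw [hmul] at haP
    apply hno (-r)
    push_cast
    rwa [← sub_eq_add_neg]
  have hN : absNorm P * absNorm P' = p ^ 2 := by
    rw [← map_mul, hmul, h.absNorm_span]
  have h1 : absNorm P ≠ 1 := fun e => hPt (absNorm_eq_one_iff.mp e)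
  have h1' : absNorm P' ≠ 1 := fun e => hPt' (absNorm_eq_one_iff.mp e)
  obtain ⟨e, e'⟩ := (Nat.Prime.mul_eq_prime_sq_iff hp h1 h1').mp hN
  have hirr : Irreducible p := hp
  refine ⟨P, P', isPrime_of_irreducible_absNorm (e.symm ▸ hirr),
    isPrime_of_irreducible_absNorm (e'.symm ▸ hirr), ?_, e, e', hmul, hcop⟩
  intro heq
  rw [← heq, Ideal.isCoprime_iff_sup_eq, sup_idem] at hcop
  exact hPt hcop

/-- inertia of `p ≡ 2 mod 3` -/
theorem EisLike.isPrime_inert {p : ℕ} (hp : p.Prime) (h3 : p % 3 = 2) :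
    (span {(p : O)}).IsPrime := by
  have hN := h.absNorm_span p
  have hne : span {(p : O)} ≠ ⊤ := by
    intro ht
    rw [ht, absNorm_top] at hN
    have := hp.one_lt
    nlinarith
  obtain ⟨P, hPm, hle⟩ := Ideal.exists_le_maximal _ hne
  obtain ⟨J, hJ⟩ := Ideal.dvd_iff_le.mpr hle
  have hprod : absNorm P * absNorm J = p ^ 2 := by rw [← map_mul, ← hJ, hN]
  by_cases hJ1 : absNorm J = 1
  · rw [absNorm_eq_one_iff] at hJ1
    rw [hJ, hJ1, Ideal.mul_top]
    exact hPm.isPrime
  exfalso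
  have hP1 : absNorm P ≠ 1 := fun e => hPm.ne_top (absNorm_eq_one_iff.mp e)
  obtain ⟨e, -⟩ := (Nat.Prime.mul_eq_prime_sq_iff hp hP1 hJ1).mp hprod
  have hcard : Nat.card (O ⧸ P) = p := by
    rw [← e]; rfl
  letI := Ideal.Quotient.field P
  haveI : Finite (O ⧸ P) := Nat.finite_of_card_ne_zero (hcard ▸ hp.ne_zero)
  haveI := Fintype.ofFinite (O ⧸ P)
  set t : O ⧸ P := Ideal.Quotient.mk P om with ht
  have ht0 : t ^ 2 + t + 1 = 0 := by
    rw [ht, ← map_pow, ← map_add, ← map_one (Ideal.Quotient.mk P), ← map_add, h.rel, map_zero]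
  have ht3 : t ^ 3 = 1 := by linear_combination (t - 1) * ht0
  have htne : t ≠ 0 := by
    intro h0
    rw [h0] at ht0
    norm_num at ht0
  have hpow : t ^ (p - 1) = 1 := by
    have := FiniteField.pow_card_sub_one_eq_one t htne
    rwa [← Nat.card_eq_fintype_card, hcard] at this
  have ht1 : t = 1 := by
    have h5 : orderOf t ∣ 3 := orderOf_dvd_of_pow_eq_one ht3
    have h6 : orderOf t ∣ p - 1 := orderOf_dvd_of_pow_eq_one hpow
    have h7 : Nat.gcd 3 (p - 1) = 1 := by
      rw [← Nat.coprime_iff_gcd_eq_one, Nat.Prime.coprime_iff_not_dvd Nat.prime_three]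
      have := hp.two_le
      omega
    have h8 : orderOf t ∣ 1 := h7 ▸ Nat.dvd_gcd h5 h6
    rw [Nat.dvd_one, orderOf_eq_one_iff] at h8
    exact h8
  rw [ht1] at ht0
  have h3P : ((3 : ℕ) : O) ∈ P := by
    rw [← Ideal.Quotient.eq_zero_iff_mem, map_natCast]
    push_cast
    linear_combination ht0
  have hpP : (p : O) ∈ P := hle (Ideal.mem_span_singleton_self _)
  have hc : Nat.Coprime 3 p := by
    rw [Nat.Prime.coprime_iff_not_dvd Nat.prime_three]
    omega
  have hcc := isCoprime_of_mem hc h3P hpP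
  rw [Ideal.isCoprime_iff_sup_eq, sup_idem] at hcc
  exact hPm.ne_top hcc

end primes

/-- A Hecke system on the ideals of `O`, level `N`. -/
structure IdealHecke {O : Type*} [CommRing O] (N : ℕ) (c : Ideal O → ℝ) : Prop where
  top : c ⊤ = 1
  mul : ∀ a b : Ideal O, IsCoprime a b → c (a * b) = c a * c b
  recur : ∀ v : Ideal O, v.IsPrime → v ≠ ⊥ → IsCoprime v (span {((3 * N : ℕ) : O)}) →
    ∀ k, c (v ^ (k + 2)) = c v * c (v ^ (k + 1)) - c (v ^ k)
  bad : ∀ a : Ideal O, ¬ IsCoprime a (span {((3 * N : ℕ) : O)}) → c a = 0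

section main

variable {O : Type*} [CommRing O] [IsDedekindDomain O] [Module.Free ℤ O] [Module.Finite ℤ O]
  [CharZero O] {om : O} {N : ℕ} {c : Ideal O → ℝ}

omit [IsDedekindDomain O] [Module.Free ℤ O] [Module.Finite ℤ O] [CharZero O] in
lemma IdealHecke.pow_eq (hc : IdealHecke N c) {v : Ideal O} (hv : v.IsPrime) (hv0 : v ≠ ⊥)
    (hcop : IsCoprime v (span {((3 * N : ℕ) : O)})) (k : ℕ) : c (v ^ k) = cU (c v) k := by
  induction k using Nat.strong_induction_on with
  | _ k ih =>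
    match k with
    | 0 => rw [pow_zero, Ideal.one_eq_top, hc.top, cU_zero]
    | 1 => rw [pow_one, cU_one]
    | k + 2 => rw [hc.recur v hv hv0 hcop, cU_add_two, ih (k + 1) (by omega), ih k (by omega)]

omit [IsDedekindDomain O] [Module.Free ℤ O] [Module.Finite ℤ O] [CharZero O] in
lemma IdealHecke.bot (hc : IdealHecke N c) (h : EisLike om) : c ⊥ = 0 := by
  apply hc.bad
  apply h.not_coprime_of_dvd Nat.prime_three
  · intro x hx
    rw [Ideal.mem_bot.mp hx]
    exact dvd_zero _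
  · intro x hx
    rw [Ideal.mem_span_singleton] at hx
    refine dvd_trans ?_ hx
    exact ⟨(N : O), by push_cast; ring⟩

/-- **N3b**: `AsaiData` from a Hecke system on ideals. -/
theorem exists_asaiData (h : EisLike om) (hc : IdealHecke N c) {A B : Set ℕ}
    (hA : ∀ p ∈ A, p.Prime ∧ ¬ p ∣ 3 * N ∧ p % 3 = 1 ∧
      ((∀ v : Ideal O, absNorm v = p → c v = 2) ∨ (∀ v : Ideal O, absNorm v = p → c v = -2)))
    (hB : ∀ p ∈ B, p.Prime ∧ ¬ p ∣ 3 * N ∧ p % 3 = 2 ∧ c (span {(p : O)}) = 2)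
    (hnB : ∀ p : ℕ, p.Prime → ¬ p ∣ 3 * N → p % 3 = 2 → p ∉ B → c (span {(p : O)}) = 0) :
    ∃ t t' : ℕ → ℝ, AsaiData N t t' A B (fun n => c (span {(n : O)}))
      (fun n => ∑ I ∈ fib O n, c I ^ 2) := by
  classical
  have hex : ∀ p : ℕ, ∃ PP : Ideal O × Ideal O,
      (p.Prime → p % 3 = 1 → PP.1.IsPrime ∧ PP.2.IsPrime ∧ PP.1 ≠ PP.2 ∧ absNorm PP.1 = p ∧
        absNorm PP.2 = p ∧ PP.1 * PP.2 = span {(p : O)} ∧ IsCoprime PP.1 PP.2) ∧
      (p.Prime → p % 3 = 2 → PP.1 = span {(p : O)}) := by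
    intro p
    by_cases h1 : p.Prime ∧ p % 3 = 1
    · obtain ⟨P, P', hP⟩ := h.exists_split h1.1 h1.2
      exact ⟨(P, P'), fun _ _ => hP, fun _ h2 => absurd h2 (by omega)⟩
    · exact ⟨(span {(p : O)}, ⊥), fun a b => absurd ⟨a, b⟩ h1, fun _ _ => rfl⟩
  choose PP h1 h2 using hex
  have hne : ∀ {p : ℕ} {v : Ideal O}, p.Prime → absNorm v = p → v ≠ ⊥ :=
    fun hp hv => absNorm_pos_ne hv hp.ne_zero
  have hcopN : ∀ {p : ℕ} {v : Ideal O}, p.Prime → ¬ p ∣ 3 * N → (p : O) ∈ v →
      IsCoprime v (span {((3 * N : ℕ) : O)}) := fun hp hpN hv =>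
    isCoprime_of_mem ((hp.coprime_iff_not_dvd).mpr hpN) hv (Ideal.mem_span_singleton_self _)
  have hmem : ∀ {p : ℕ} {v : Ideal O}, absNorm v = p → (p : O) ∈ v :=
    fun hv => natCast_mem_of_absNorm hv
  have hspan : ∀ p k : ℕ, span {((p ^ k : ℕ) : O)} = span {(p : O)} ^ k := by
    intro p k
    rw [Ideal.span_singleton_pow, Nat.cast_pow]
  refine ⟨fun p => c (PP p).1, fun p => c (PP p).2, ?_⟩
  refine
    { d_zero := ?_, d_one := ?_, d_mul := ?_, l_zero := ?_, l_one := ?_, l_mul := ?_,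
      l_nonneg := ?_, d_split := ?_, l_split := ?_, d_inert := ?_, d_bad := ?_, A_spec := ?_,
      B_spec := ?_, notB_spec := ?_ }
  · -- d_zero
    rw [Nat.cast_zero, Ideal.span_singleton_zero]
    exact hc.bot h
  · -- d_one
    rw [Nat.cast_one, Ideal.span_singleton_one]
    exact hc.top
  · -- d_mul
    intro m n hmn
    rw [Nat.cast_mul, ← Ideal.span_singleton_mul_span_singleton]
    exact hc.mul _ _ (isCoprime_of_mem hmn (Ideal.mem_span_singleton_self _)
      (Ideal.mem_span_singleton_self _))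
  · -- l_zero
    rw [fib_zero, Finset.sum_singleton, hc.bot h]
    norm_num
  · -- l_one
    rw [fib_one, Finset.sum_singleton, hc.top]
    norm_num
  · -- l_mul
    intro m n hmn
    by_cases hm : m = 0
    · subst hm
      have : n = 1 := by simpa using hmn
      subst this
      rw [fib_one, Finset.sum_singleton, hc.top, one_pow, mul_one, mul_one]
    by_cases hn : n = 0
    · subst hn
      have : m = 1 := by simpa using hmn
      subst this
      rw [fib_one, Finset.sum_singleton, hc.top, one_pow, one_mul, one_mul]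
    exact sum_fib_mul (fun I => c I ^ 2)
      (fun I J hIJ => by simp only [hc.mul I J hIJ, mul_pow]) hm hn hmn
  · -- l_nonneg
    intro n
    exact Finset.sum_nonneg fun I _ => sq_nonneg _
  · -- d_split
    intro p hp hpN h3 k
    obtain ⟨a1, a2, a3, a4, a5, a6, a7⟩ := h1 p hp h3
    rw [hspan, ← a6, mul_pow, hc.mul _ _ a7.pow,
      hc.pow_eq a1 (hne hp a4) (hcopN hp hpN (hmem a4)),
      hc.pow_eq a2 (hne hp a5) (hcopN hp hpN (hmem a5))]
  · -- l_split
    intro p hp hpN h3 k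
    obtain ⟨a1, a2, a3, a4, a5, a6, a7⟩ := h1 p hp h3
    rw [sum_fib_split (fun I => c I ^ 2) hp a1 a2 a3 a4 a5 a6 k]
    refine Finset.sum_congr rfl fun ij _ => ?_
    rw [hc.mul _ _ a7.pow, mul_pow,
      hc.pow_eq a1 (hne hp a4) (hcopN hp hpN (hmem a4)),
      hc.pow_eq a2 (hne hp a5) (hcopN hp hpN (hmem a5))]
  · -- d_inert
    intro p hp hpN h3 k
    have hpr := h.isPrime_inert hp h3
    rw [hspan, h2 p hp h3]
    refine hc.pow_eq hpr ?_ (hcopN hp hpN (Ideal.mem_span_singleton_self _)) k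
    intro hbot
    rw [Ideal.span_singleton_eq_bot] at hbot
    exact hp.ne_zero (by exact_mod_cast hbot)
  · -- d_bad
    intro p hp hpN k
    apply hc.bad
    apply h.not_coprime_of_dvd hp
    · intro x hx
      rw [Ideal.mem_span_singleton] at hx
      refine dvd_trans ?_ hx
      rw [Nat.cast_pow]
      exact dvd_pow_self _ (Nat.succ_ne_zero k)
    · intro x hx
      rw [Ideal.mem_span_singleton] at hx
      refine dvd_trans ?_ hx
      exact_mod_cast Nat.cast_dvd_cast (α := O) hpN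
  · -- A_spec
    intro p hp
    obtain ⟨b1, b2, b3, b4⟩ := hA p hp
    obtain ⟨a1, a2, a3, a4, a5, a6, a7⟩ := h1 p b1 b3
    refine ⟨b1, b2, b3, ?_⟩
    rcases b4 with b4 | b4
    · exact Or.inl ⟨b4 _ a4, b4 _ a5⟩
    · exact Or.inr ⟨b4 _ a4, b4 _ a5⟩
  · -- B_spec
    intro p hp
    obtain ⟨b1, b2, b3, b4⟩ := hB p hp
    refine ⟨b1, b2, b3, ?_⟩
    rw [h2 p b1 b3]
    exact b4
  · -- notB_spec
    intro p hp hpN h3 hpB
    rw [h2 p hp h3]
    exact hnB p hp hpN h3 hpB

end main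

end Fermat.Agent.H62N
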