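import Fermat.Agent.H6TWFrob
import Fermat.Agent.H62NE
import Fermat.Prelude.Def_GaloisRep_ModThreeCyclotomic

/-!
# S47: primes `p ≡ -1 mod n` with Frobenius of order `8` (helper83)

`exists_prime_order_eight`: for `ρ : G_ℚ → GL₂(𝔽₃)` surjective with cyclotomic determinant and
`n ≥ 1` there are infinitely many primes `p ≡ -1 mod n` such that `ρ` is unramified at `p` and
`ρ(Frob_p)` has order `8`.
-/

set_option autoImplicit false

open WeierstrassCurve

namespace Fermat.Agent.H83Z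

local notation "Qb" => AlgebraicClosure ℚ
local notation "Γℚ" => (AlgebraicClosure ℚ ≃ₐ[ℚ] AlgebraicClosure ℚ)

/-- a continuous homomorphism to a discrete group factors through a finite level -/
theorem factors_of_continuous {G : Type} [Group G] [TopologicalSpace G] [DiscreteTopology G]
    (ρ : Γℚ →* G) (hρ : Continuous ρ) : GaloisFactorsThroughFiniteLevel ρ := by
  have h1 : ρ ⁻¹' {1} ∈ nhds (1 : Γℚ) := by
    apply (hρ.isOpen_preimage _ (isOpen_discrete _)).mem_nhds
    simp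
  obtain ⟨L, hL, hLU⟩ := (krullTopology_mem_nhds_one_iff ℚ Qb _).1 h1
  exact ⟨L, hL, fun σ hσ => hLU (by
    rw [SetLike.mem_coe, IntermediateField.mem_fixingSubgroup_iff]
    exact hσ)⟩

section Mat

local notation "G3" => GL (Fin 2) (ZMod 3)

local instance fact3 : Fact (Nat.Prime 3) := ⟨Nat.prime_three⟩

/-- upper unipotent -/
def up (a : ZMod 3) : G3 :=
  ⟨!![1, a; 0, 1], !![1, -a; 0, 1], by ext i j; fin_cases i <;> fin_cases j <;> simp,
    by ext i j; fin_cases i <;> fin_cases j <;> simp⟩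

/-- lower unipotent -/
def lo (a : ZMod 3) : G3 :=
  ⟨!![1, 0; a, 1], !![1, 0; -a, 1], by ext i j; fin_cases i <;> fin_cases j <;> simp,
    by ext i j; fin_cases i <;> fin_cases j <;> simp⟩

/-- `diag(-1, 1)` -/
def dg : G3 :=
  ⟨!![-1, 0; 0, 1], !![-1, 0; 0, 1], by ext i j; fin_cases i <;> fin_cases j <;> simp,
    by ext i j; fin_cases i <;> fin_cases j <;> simp⟩

/-- an element of order `8` -/
def h8 : G3 :=
  ⟨!![1, 1; 1, 0], !![0, 1; 1, -1], by ext i j; fin_cases i <;> fin_cases j <;> simp,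
    by ext i j; fin_cases i <;> fin_cases j <;> simp⟩

theorem up_comm (a : ZMod 3) : dg * up a * dg⁻¹ * (up a)⁻¹ = up a := by
  revert a
  decide

theorem lo_comm (a : ZMod 3) : dg * lo a * dg⁻¹ * (lo a)⁻¹ = lo a := by
  revert a
  decide

theorem orderOf_h8 : orderOf h8 = 8 := by
  have h1 : h8 ^ (2 ^ 3) = 1 := by decide
  have h2 : ¬ h8 ^ (2 ^ 2) = 1 := by decide
  exact orderOf_eq_prime_pow h2 h1

theorem det_h8 : Matrix.GeneralLinearGroup.det h8 = -1 := by
  apply Units.ext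
  rw [Matrix.GeneralLinearGroup.val_det_apply]
  decide

/-- a normal subgroup containing the elementary matrices contains `SL₂(𝔽₃)` -/
theorem mem_of_det_eq_one (K : Subgroup G3) (hu : ∀ a, up a ∈ K) (hl : ∀ a, lo a ∈ K) (y : G3)
    (hy : (y : Matrix (Fin 2) (Fin 2) (ZMod 3)).det = 1) : y ∈ K := by
  have key : ∀ y : G3, (y : Matrix (Fin 2) (Fin 2) (ZMod 3)).det = 1 →
      (y : Matrix (Fin 2) (Fin 2) (ZMod 3)) 1 0 ≠ 0 → y ∈ K := by
    intro y hy h
    set a := (y : Matrix (Fin 2) (Fin 2) (ZMod 3)) 0 0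
    set b := (y : Matrix (Fin 2) (Fin 2) (ZMod 3)) 0 1
    set c := (y : Matrix (Fin 2) (Fin 2) (ZMod 3)) 1 0
    set d := (y : Matrix (Fin 2) (Fin 2) (ZMod 3)) 1 1
    have hdet : a * d - b * c = 1 := by rw [← hy, Matrix.det_fin_two]
    have e : y = up ((a - 1) / c) * lo c * up ((d - 1) / c) := by
      apply Units.ext
      ext i j
      rw [Units.val_mul, Units.val_mul]
      change _ = (!![1, (a - 1) / c; 0, 1] * !![1, 0; c, 1] * !![1, (d - 1) / c; 0, 1] :
        Matrix (Fin 2) (Fin 2) (ZMod 3)) i j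
      fin_cases i <;> fin_cases j <;> simp [Matrix.mul_apply, Fin.sum_univ_two]
      · change a = _
        field_simp
        ring
      · change b = _
        field_simp
        linear_combination -hdet
      · rfl
      · change d = _
        field_simp
        ring
    rw [e]
    exact K.mul_mem (K.mul_mem (hu _) (hl _)) (hu _)
  by_cases h : (y : Matrix (Fin 2) (Fin 2) (ZMod 3)) 1 0 = 0
  · have h1 : y * lo 1 ∈ K := by
      apply key
      · rw [Units.val_mul, Matrix.det_mul, hy, one_mul]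
        change (!![1, 0; 1, 1] : Matrix (Fin 2) (Fin 2) (ZMod 3)).det = 1
        simp [Matrix.det_fin_two]
      · rw [Units.val_mul]
        change ((y : Matrix (Fin 2) (Fin 2) (ZMod 3)) *
          (!![1, 0; 1, 1] : Matrix (Fin 2) (Fin 2) (ZMod 3))) 1 0 ≠ 0
        simp only [Matrix.mul_apply, Fin.sum_univ_two]
        simp [h]
        intro h2
        rw [Matrix.det_fin_two, h, h2] at hy
        simp at hy
    have h2 := K.mul_mem h1 (K.inv_mem (hl 1))
    rwa [mul_inv_cancel_right] at h2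
  · exact key y hy h

end Mat

/-- the action of complex conjugation on roots of unity -/
theorem complexConjugation_root {n : ℕ} (hn : 0 < n) {ζ : Qb} (hζ : ζ ^ n = 1) :
    complexConjugation ζ = ζ⁻¹ := by
  apply complexEmbedding.injective
  change complexEmbedding (complexConjugation ζ) = complexEmbedding ζ⁻¹
  rw [complexEmbedding_complexConjugation, map_inv₀]
  have h1 : (complexEmbedding ζ) ^ n = 1 := by rw [← map_pow, hζ, map_one]
  have h2 : ‖complexEmbedding ζ‖ = 1 := Complex.norm_eq_one_of_pow_eq_one h1 hn.ne'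
  rw [Complex.inv_def, Complex.normSq_eq_norm_sq, h2]
  simp

local instance isAlgebraicQb : Algebra.IsAlgebraic ℚ Qb := AlgebraicClosure.isAlgebraic ℚ
local instance isAlgClosureQb : IsAlgClosure ℚ Qb := ⟨inferInstance, inferInstance⟩
local instance normalQb : Normal ℚ Qb := IsAlgClosure.normal ℚ Qb

/-- **Primes with Frobenius of order `8` and `p ≡ -1 mod n`.** -/
theorem exists_prime_order_eight (ρ : Γℚ →* GL (Fin 2) (ZMod 3)) (hρ : Continuous ρ)
    (hsurj : Function.Surjective ρ)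
    (hdet : ∀ σ : Γℚ, Matrix.GeneralLinearGroup.det (ρ σ) = modThreeCyclotomicChar σ)
    {n : ℕ} (hn : 0 < n) (S : Finset ℕ) :
    ∃ p : ℕ, p.Prime ∧ p ∉ S ∧ (p : ZMod n) = -1 ∧ p % 3 = 2 ∧
      ∀ A : ValuationSubring Qb, A.LiesOverPrime p →
        (∀ σ ∈ A.inertiaSubgroupIn ℚ, ρ σ = 1) ∧
        ∀ σ : Γℚ, A.IsFrobeniusAt σ p → orderOf (ρ σ) = 8 := by
  classical
  obtain ⟨L, hL, hLρ⟩ := factors_of_continuous ρ hρ
  set m := 3 * n with hm
  have hm0 : 0 < m := by omega
  have hmne : NeZero m := ⟨hm0.ne'⟩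
  have hM' : NeZero (m : Qb) := ⟨Nat.cast_ne_zero.mpr hm0.ne'⟩
  have h3' : NeZero (3 : Qb) := ⟨by norm_num⟩
  obtain ⟨ζ, hζ⟩ := HasEnoughRootsOfUnity.exists_primitiveRoot Qb m
  have hint : IsIntegral ℚ ζ := (hζ.isIntegral hm0).tower_top
  have hfin' : FiniteDimensional ℚ (IntermediateField.adjoin ℚ {ζ}) :=
    IntermediateField.adjoin.finiteDimensional hint
  -- every element of `SL₂(𝔽₃)` is the image of an element acting trivially on `ζ`
  let N : Subgroup Γℚ := (IntermediateField.adjoin ℚ {ζ}).fixingSubgroup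
  have hcommN : ∀ a b : Γℚ, a * b * a⁻¹ * b⁻¹ ∈ N := by
    intro a b
    rw [IntermediateField.mem_fixingSubgroup_iff]
    have hab : ∀ c : Γℚ, ∃ k : ℕ, c ζ = ζ ^ k := by
      intro c
      obtain ⟨k, -, hk⟩ := hζ.eq_pow_of_pow_eq_one (ξ := c ζ)
        (by rw [← map_pow, hζ.pow_eq_one, map_one])
      exact ⟨k, hk.symm⟩
    have hcomm : ∀ a b : Γℚ, (a * b) ζ = (b * a) ζ := by
      intro a b
      obtain ⟨k, hk⟩ := hab a
      obtain ⟨l, hl⟩ := hab b
      rw [AlgEquiv.mul_apply, AlgEquiv.mul_apply, hk, hl, map_pow, map_pow, hk, hl, ← pow_mul,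
        ← pow_mul, mul_comm]
    have h1 : (a * b * a⁻¹ * b⁻¹) ζ = ζ := by
      have h2 : (a⁻¹ * b⁻¹) ζ = (b⁻¹ * a⁻¹) ζ := hcomm _ _
      rw [mul_assoc, AlgEquiv.mul_apply, h2, ← AlgEquiv.mul_apply, mul_assoc, ← mul_assoc b,
        mul_inv_cancel, one_mul, mul_inv_cancel]
      rfl
    intro x hx
    have h3 : x ∈ IntermediateField.fixedField (Subgroup.zpowers (a * b * a⁻¹ * b⁻¹)) := by
      have h4 : IntermediateField.adjoin ℚ {ζ} ≤
          IntermediateField.fixedField (Subgroup.zpowers (a * b * a⁻¹ * b⁻¹)) := by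
        rw [IntermediateField.adjoin_simple_le_iff, IntermediateField.mem_fixedField_iff]
        intro f hf
        obtain ⟨k, rfl⟩ := Subgroup.mem_zpowers_iff.mp hf
        have h5 : (a * b * a⁻¹ * b⁻¹) ∈ MulAction.stabilizer Γℚ ζ := h1
        exact (MulAction.stabilizer Γℚ ζ).zpow_mem h5 k
      exact h4 hx
    rw [IntermediateField.mem_fixedField_iff] at h3
    exact h3 _ (Subgroup.mem_zpowers _)
  have hSL : ∀ y : GL (Fin 2) (ZMod 3),
      (y : Matrix (Fin 2) (Fin 2) (ZMod 3)).det = 1 → ∃ x ∈ N, ρ x = y := by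
    obtain ⟨d, hd⟩ := hsurj dg
    intro y hy
    have h := mem_of_det_eq_one (N.map ρ) (fun a => ?_) (fun a => ?_) y hy
    · exact h
    · obtain ⟨u, hu⟩ := hsurj (up a)
      refine ⟨d * u * d⁻¹ * u⁻¹, hcommN _ _, ?_⟩
      rw [map_mul, map_mul, map_mul, map_inv, map_inv, hd, hu, up_comm]
    · obtain ⟨u, hu⟩ := hsurj (lo a)
      refine ⟨d * u * d⁻¹ * u⁻¹, hcommN _ _, ?_⟩
      rw [map_mul, map_mul, map_mul, map_inv, map_inv, hd, hu, lo_comm]
  -- the determinant at complex conjugation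
  have hdetc : Matrix.GeneralLinearGroup.det (ρ complexConjugation) = -1 := by
    rw [hdet, modThreeCyclotomicChar_apply]
    exact H87.Res.cyclotomic_involution complexConjugation_mul_self
      H87.Res.complexConjugation_ne_one _
  obtain ⟨x, hxN, hx⟩ := hSL ((ρ complexConjugation)⁻¹ * h8) (by
    have h1 : Matrix.GeneralLinearGroup.det ((ρ complexConjugation)⁻¹ * h8) = 1 := by
      rw [map_mul, map_inv, hdetc, det_h8]
      simp
    have h2 := congrArg Units.val h1
    rwa [Matrix.GeneralLinearGroup.val_det_apply] at h2)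
  set g : Γℚ := complexConjugation * x with hg
  have hgρ : ρ g = h8 := by rw [hg, map_mul, hx, mul_inv_cancel_left]
  have hgζ : g ζ = ζ⁻¹ := by
    rw [hg, AlgEquiv.mul_apply, (IntermediateField.mem_fixingSubgroup_iff _ _).mp hxN ζ
      (IntermediateField.mem_adjoin_simple_self ℚ ζ), complexConjugation_root hm0 hζ.pow_eq_one]
  -- Frobenius density
  let M : IntermediateField ℚ Qb := IntermediateField.normalClosure ℚ
    (L ⊔ IntermediateField.adjoin ℚ {ζ} : IntermediateField ℚ Qb) Qb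
  have hfd0 : FiniteDimensional ℚ (L ⊔ IntermediateField.adjoin ℚ {ζ} :
    IntermediateField ℚ Qb) := IntermediateField.finiteDimensional_sup _ _
  have hfd : FiniteDimensional ℚ M := inferInstance
  have hno : Normal ℚ M := normalClosure.normal ℚ
    (L ⊔ IntermediateField.adjoin ℚ {ζ} : IntermediateField ℚ Qb) Qb
  have hLM : (L ⊔ IntermediateField.adjoin ℚ {ζ} : IntermediateField ℚ Qb) ≤ M :=
    IntermediateField.le_normalClosure _
  have hL1 : L ≤ M := le_sup_left.trans hLM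
  have hζM : ζ ∈ M := hLM ((le_sup_right : IntermediateField.adjoin ℚ {ζ} ≤ _)
    (IntermediateField.mem_adjoin_simple_self ℚ ζ))
  have hMρ : ∀ σ : Γℚ, (∀ x ∈ M, σ x = x) → ρ σ = 1 := fun σ h => hLρ σ fun x hx => h x (hL1 hx)
  obtain ⟨p, hp, hpS, hin, A, φ, hA, hφ, ⟨j, hj⟩, ⟨k, hk⟩, hall⟩ :=
    Fermat.Agent.H6.good_prime M g (S ∪ m.primeFactors)
  have hpm : ¬ p ∣ m := fun h =>
    hpS (Finset.mem_union_right _ (Nat.mem_primeFactors.mpr ⟨hp, h, hm0.ne'⟩))
  have e1 : h8 = ρ φ ^ j := by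
    rw [← hgρ, ← map_pow]
    exact H86.map_eq_of_forall_mem hMρ hj
  have e2 : ρ φ = h8 ^ k := by
    rw [← hgρ, ← map_pow]
    exact H86.map_eq_of_forall_mem hMρ hk
  have hord : orderOf (ρ φ) = 8 := by
    apply Nat.dvd_antisymm
    · rw [e2, ← orderOf_h8]
      exact orderOf_pow_dvd k
    · rw [← orderOf_h8, e1]
      exact orderOf_pow_dvd j
  have hkodd : Odd k := by
    by_contra hcon
    rw [Nat.not_odd_iff_even] at hcon
    obtain ⟨t, rfl⟩ := hcon
    have h1 : ρ φ ^ 4 = 1 := by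
      rw [e2, ← pow_mul, show (t + t) * 4 = 8 * t by ring, pow_mul, ← orderOf_h8,
        pow_orderOf_eq_one, one_pow]
    have h2 := orderOf_dvd_of_pow_eq_one h1
    rw [hord] at h2
    omega
  have hφζ : φ ζ = ζ⁻¹ := by
    rw [hk ζ hζM]
    have h1 : ∀ t : ℕ, (g ^ (2 * t)) ζ = ζ := by
      intro t
      induction t with
      | zero => rfl
      | succ t ih =>
        rw [mul_add, mul_one, pow_add, AlgEquiv.mul_apply, pow_two, AlgEquiv.mul_apply, hgζ,
          map_inv₀, hgζ, inv_inv, ih]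
    obtain ⟨t, rfl⟩ := hkodd
    rw [pow_add, pow_one, AlgEquiv.mul_apply, hgζ, map_inv₀, h1]
  have hφζ' : φ ζ = ζ ^ p := H31.frobenius_apply_rootOfUnity A hA
    ((Nat.Prime.coprime_iff_not_dvd hp).mpr hpm) hm0 hφ hζ.pow_eq_one
  have hdvd : m ∣ p + 1 := by
    rw [← hζ.pow_eq_one_iff_dvd, pow_succ, ← hφζ', hφζ, inv_mul_cancel₀ (hζ.ne_zero hm0.ne')]
  refine ⟨p, hp, fun h => hpS (Finset.mem_union_left _ h), ?_, ?_, fun P hP => ⟨fun σ hσ =>
    hMρ σ (hin P hP σ hσ), fun σ hσ => ?_⟩⟩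
  · have h1 : ((p + 1 : ℕ) : ZMod n) = 0 := by
      rw [ZMod.natCast_eq_zero_iff]
      exact (dvd_mul_left n 3).trans hdvd
    push_cast at h1
    linear_combination h1
  · have h1 : 3 ∣ p + 1 := (dvd_mul_right 3 n).trans hdvd
    omega
  · obtain ⟨γ, hγ⟩ := hall P hP σ hσ
    have h1 : ρ σ = ρ (γ * φ * γ⁻¹) := H86.map_eq_of_forall_mem hMρ hγ
    rw [h1, map_mul, map_mul, map_inv, ← MulAut.conj_apply]
    rw [← hord]
    exact orderOf_injective (MulAut.conj (ρ γ)).toMonoidHom (MulAut.conj (ρ γ)).injective _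

end Fermat.Agent.H83Z
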