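import Mathlib
import Fermat.Agent.H91ZMain

/-!
# S47, block (N): the Asai Dirichlet series is unbounded near `s = 1`, conclusion
-/

set_option autoImplicit false

namespace Fermat.Agent.H91.Z

open Finset Nat Filter Topology

section rpow

lemma rpow_neg_pow (p k : ℕ) (s : ℝ) : ((p ^ k : ℕ) : ℝ) ^ (-s) = ((p : ℝ) ^ (-s)) ^ k := by
  rw [Nat.cast_pow, ← Real.rpow_natCast, ← Real.rpow_natCast, ← Real.rpow_mul (by positivity),
    ← Real.rpow_mul (by positivity), mul_comm]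

lemma rpow_neg_mul (m n : ℕ) (s : ℝ) :
    ((m * n : ℕ) : ℝ) ^ (-s) = (m : ℝ) ^ (-s) * (n : ℝ) ^ (-s) := by
  rw [Nat.cast_mul, Real.mul_rpow (by positivity) (by positivity)]

lemma prime_rpow_pos {p : ℕ} (hp : p.Prime) (s : ℝ) : 0 < (p : ℝ) ^ (-s) :=
  Real.rpow_pos_of_pos (by exact_mod_cast hp.pos) _

lemma prime_rpow_le {p : ℕ} (hp : p.Prime) {s : ℝ} (hs : 1 < s) : (p : ℝ) ^ (-s) ≤ 1 / 2 := by
  have h2 : (2 : ℝ) ≤ p := by exact_mod_cast hp.two_le
  have h1 : (1 : ℝ) ≤ p := by linarith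
  calc (p : ℝ) ^ (-s) ≤ (p : ℝ) ^ (-1 : ℝ) := Real.rpow_le_rpow_of_exponent_le h1 (by linarith)
    _ = (p : ℝ)⁻¹ := Real.rpow_neg_one _
    _ ≤ 1 / 2 := by
        rw [inv_eq_one_div]
        exact one_div_le_one_div_of_le (by norm_num) h2

lemma zero_rpow_neg {s : ℝ} (hs : 1 < s) : ((0 : ℕ) : ℝ) ^ (-s) = 0 := by
  rw [Nat.cast_zero, Real.zero_rpow (by linarith)]

end rpow

variable {N : ℕ} {t t' : ℕ → ℝ} {A B : Set ℕ} {d l : ℕ → ℝ}

lemma zeta_prod_le {s : ℝ} (hs : 1 < s) (M : ℕ) :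
    ∏ p ∈ primesBelow M, (1 - (p : ℝ) ^ (-s))⁻¹ ≤ ∑' n : ℕ, (n : ℝ) ^ (-s) := by
  have hsum : Summable fun n : ℕ => (n : ℝ) ^ (-s) := Real.summable_nat_rpow.2 (by linarith)
  have h := prod_le_tsum (F := fun n : ℕ => (n : ℝ) ^ (-s)) (by simp)
    (fun {m n} _ => rpow_neg_mul m n s) (fun n => Real.rpow_nonneg (by positivity) _) hsum M
  refine le_trans (le_of_eq ?_) h
  refine Finset.prod_congr rfl fun p hp => ?_
  have hpp := prime_of_mem_primesBelow hp
  simp only [rpow_neg_pow]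
  exact (tsum_geometric_of_lt_one (prime_rpow_pos hpp s).le
    (lt_of_le_of_lt (prime_rpow_le hpp hs) (by norm_num))).symm

/-- absolute convergence of the Asai series -/
theorem AsaiData.summable (D : AsaiData N t t' A B d l) {s : ℝ} (hs : 1 < s)
    (hl : Summable fun n : ℕ => l n * (n : ℝ) ^ (-s)) :
    Summable fun n : ℕ => |d n| * (n : ℝ) ^ (-s) := by
  have hlp : ∀ p : ℕ, p.Prime → Summable fun k => l (p ^ k) * ((p : ℝ) ^ (-s)) ^ k := by
    intro p hp
    have := hl.comp_injective (Nat.pow_right_injective hp.one_lt)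
    simpa only [Function.comp_def, rpow_neg_pow] using this
  have hnn : ∀ n : ℕ, 0 ≤ (n : ℝ) ^ (-s) := fun n => Real.rpow_nonneg (by positivity) _
  refine summable_of_prod_le (F := fun n : ℕ => |d n| * (n : ℝ) ^ (-s))
    (K := (∑' n, l n * (n : ℝ) ^ (-s)) * ((∑' n : ℕ, (n : ℝ) ^ (-s)) *
      (∑' n : ℕ, (n : ℝ) ^ (-s)))) ?_ ?_ ?_ ?_ ?_ ?_
  · simp [D.d_one]
  · intro m n hmn
    simp only [rpow_neg_mul, D.d_mul hmn, abs_mul]
    ring
  · simp [D.d_zero]
  · intro n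
    exact mul_nonneg (abs_nonneg _) (hnn n)
  · intro p hp
    have h1 := (D.local_estimate hp (prime_rpow_pos hp s) (prime_rpow_le hp hs) (hlp p hp)).1
    have h2 := h1.norm
    refine h2.congr fun k => ?_
    rw [Real.norm_eq_abs, abs_mul, abs_of_nonneg (pow_nonneg (prime_rpow_pos hp s).le k),
      rpow_neg_pow]
  · intro M
    have hA1 : ∏ p ∈ primesBelow M, ∑' k, l (p ^ k) * ((p ^ k : ℕ) : ℝ) ^ (-s) ≤
        ∑' n, l n * (n : ℝ) ^ (-s) := by
      refine prod_le_tsum (F := fun n : ℕ => l n * (n : ℝ) ^ (-s)) (by simp [D.l_one]) ?_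
        (fun n => mul_nonneg (D.l_nonneg n) (hnn n)) hl M
      intro m n hmn
      simp only [rpow_neg_mul, D.l_mul hmn]
      ring
    have hZ := zeta_prod_le hs M
    have hZ0 : 0 ≤ ∏ p ∈ primesBelow M, (1 - (p : ℝ) ^ (-s))⁻¹ := by
      refine Finset.prod_nonneg fun p hp => ?_
      have hpp := prime_of_mem_primesBelow hp
      have := prime_rpow_le hpp hs
      have h3 : 0 ≤ 1 - (p : ℝ) ^ (-s) := by linarith
      exact inv_nonneg.2 h3
    have hA0 : 0 ≤ ∏ p ∈ primesBelow M, ∑' k, l (p ^ k) * ((p ^ k : ℕ) : ℝ) ^ (-s) :=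
      Finset.prod_nonneg fun p _ => tsum_nonneg fun k => mul_nonneg (D.l_nonneg _) (hnn _)
    calc ∏ p ∈ primesBelow M, ∑' k, |d (p ^ k)| * ((p ^ k : ℕ) : ℝ) ^ (-s)
        ≤ ∏ p ∈ primesBelow M, ((∑' k, l (p ^ k) * ((p ^ k : ℕ) : ℝ) ^ (-s)) *
            ((1 - (p : ℝ) ^ (-s))⁻¹ * (1 - (p : ℝ) ^ (-s))⁻¹)) := by
          refine Finset.prod_le_prod (fun p _ => tsum_nonneg fun k =>
            mul_nonneg (abs_nonneg _) (hnn _)) fun p hp => ?_
          have hpp := prime_of_mem_primesBelow hp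
          have h1 := (D.local_estimate hpp (prime_rpow_pos hpp s) (prime_rpow_le hpp hs)
            (hlp p hpp)).2.1
          simp only [rpow_neg_pow]
          exact h1
      _ = (∏ p ∈ primesBelow M, ∑' k, l (p ^ k) * ((p ^ k : ℕ) : ℝ) ^ (-s)) *
            ((∏ p ∈ primesBelow M, (1 - (p : ℝ) ^ (-s))⁻¹) *
              (∏ p ∈ primesBelow M, (1 - (p : ℝ) ^ (-s))⁻¹)) := by
          rw [Finset.prod_mul_distrib, Finset.prod_mul_distrib]
      _ ≤ _ := mul_le_mul hA1 (mul_le_mul hZ hZ hZ0 (hZ0.trans hZ)) (mul_nonneg hZ0 hZ0)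
          (hA0.trans hA1)

/-- the key inequality -/
theorem AsaiData.key (D : AsaiData N t t' A B d l) {s : ℝ} (hs : 1 < s)
    (hl : Summable fun n : ℕ => l n * (n : ℝ) ^ (-s)) :
    0 ≤ ∑' n, d n * (n : ℝ) ^ (-s) ∧
    Real.exp (16 * (∑' n : ℕ, A.indicator (fun n : ℕ => (n : ℝ) ^ (-s)) n) +
      4 * (∑' n : ℕ, B.indicator (fun n : ℕ => (n : ℝ) ^ (-s)) n) -
      8 * ∑' n : ℕ, (n : ℝ) ^ (-2 : ℝ)) ≤
      (∑' n, d n * (n : ℝ) ^ (-s)) ^ 2 * ∑' n, l n * (n : ℝ) ^ (-s) := by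
  classical
  have hlp : ∀ p : ℕ, p.Prime → Summable fun k => l (p ^ k) * ((p : ℝ) ^ (-s)) ^ k := by
    intro p hp
    have := hl.comp_injective (Nat.pow_right_injective hp.one_lt)
    simpa only [Function.comp_def, rpow_neg_pow] using this
  have hnn : ∀ n : ℕ, 0 ≤ (n : ℝ) ^ (-s) := fun n => Real.rpow_nonneg (by positivity) _
  have hsd := D.summable hs hl
  have hsum : Summable fun n : ℕ => (n : ℝ) ^ (-s) := Real.summable_nat_rpow.2 (by linarith)
  have hsum2 : Summable fun n : ℕ => (n : ℝ) ^ (-2 : ℝ) :=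
    Real.summable_nat_rpow.2 (by norm_num)
  -- Euler products
  have hD : Tendsto (fun M : ℕ => ∏ p ∈ primesBelow M, ∑' k, d (p ^ k) * ((p : ℝ) ^ (-s)) ^ k)
      atTop (𝓝 (∑' n, d n * (n : ℝ) ^ (-s))) := by
    have := EulerProduct.eulerProduct (f := fun n : ℕ => d n * (n : ℝ) ^ (-s)) (by simp [D.d_one])
      (fun {m n} hmn => by simp only [rpow_neg_mul, D.d_mul hmn]; ring)
      (by
        refine hsd.congr fun n => ?_
        rw [Real.norm_eq_abs, abs_mul, abs_of_nonneg (hnn n)]) (by simp [D.d_zero])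
    simpa only [rpow_neg_pow] using this
  have hL : Tendsto (fun M : ℕ => ∏ p ∈ primesBelow M, ∑' k, l (p ^ k) * ((p : ℝ) ^ (-s)) ^ k)
      atTop (𝓝 (∑' n, l n * (n : ℝ) ^ (-s))) := by
    have := EulerProduct.eulerProduct (f := fun n : ℕ => l n * (n : ℝ) ^ (-s)) (by simp [D.l_one])
      (fun {m n} hmn => by simp only [rpow_neg_mul, D.l_mul hmn]; ring)
      (by
        refine hl.congr fun n => ?_
        rw [Real.norm_eq_abs, abs_of_nonneg (mul_nonneg (D.l_nonneg n) (hnn n))])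
      (by simp [D.l_zero])
    simpa only [rpow_neg_pow] using this
  have hloc : ∀ p : ℕ, p.Prime → 0 < (∑' k, d (p ^ k) * ((p : ℝ) ^ (-s)) ^ k) ∧
      Real.exp (wt A B ((p : ℝ) ^ (-s)) p) ≤ (∑' k, d (p ^ k) * ((p : ℝ) ^ (-s)) ^ k) ^ 2 *
        (∑' k, l (p ^ k) * ((p : ℝ) ^ (-s)) ^ k) := fun p hp =>
    (D.local_estimate hp (prime_rpow_pos hp s) (prime_rpow_le hp hs) (hlp p hp)).2.2
  refine ⟨ge_of_tendsto' hD fun M => Finset.prod_nonneg fun p hp =>
    (hloc p (prime_of_mem_primesBelow hp)).1.le, ?_⟩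
  -- sums
  have hSA : Tendsto (fun M : ℕ => ∑ n ∈ range M, A.indicator (fun n : ℕ => (n : ℝ) ^ (-s)) n)
      atTop (𝓝 (∑' n : ℕ, A.indicator (fun n : ℕ => (n : ℝ) ^ (-s)) n)) :=
    (hsum.indicator A).hasSum.tendsto_sum_nat
  have hSB : Tendsto (fun M : ℕ => ∑ n ∈ range M, B.indicator (fun n : ℕ => (n : ℝ) ^ (-s)) n)
      atTop (𝓝 (∑' n : ℕ, B.indicator (fun n : ℕ => (n : ℝ) ^ (-s)) n)) :=
    (hsum.indicator B).hasSum.tendsto_sum_nat
  have hlim : Tendsto (fun M : ℕ => Real.exp (16 * (∑ n ∈ range M,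
      A.indicator (fun n : ℕ => (n : ℝ) ^ (-s)) n) + 4 * (∑ n ∈ range M,
      B.indicator (fun n : ℕ => (n : ℝ) ^ (-s)) n) - 8 * ∑' n : ℕ, (n : ℝ) ^ (-2 : ℝ))) atTop
      (𝓝 (Real.exp (16 * (∑' n : ℕ, A.indicator (fun n : ℕ => (n : ℝ) ^ (-s)) n) +
      4 * (∑' n : ℕ, B.indicator (fun n : ℕ => (n : ℝ) ^ (-s)) n) -
      8 * ∑' n : ℕ, (n : ℝ) ^ (-2 : ℝ)))) :=
    (Real.continuous_exp.tendsto _).comp
      (((hSA.const_mul 16).add (hSB.const_mul 4)).sub_const _)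
  refine le_of_tendsto_of_tendsto' hlim ((hD.pow 2).mul hL) fun M => ?_
  rw [← Finset.prod_pow, ← Finset.prod_mul_distrib]
  calc _ ≤ Real.exp (∑ p ∈ primesBelow M, wt A B ((p : ℝ) ^ (-s)) p) := by
        apply Real.exp_le_exp.2
        have e1 : ∑ p ∈ primesBelow M, wt A B ((p : ℝ) ^ (-s)) p =
            16 * (∑ n ∈ range M, A.indicator (fun n : ℕ => (n : ℝ) ^ (-s)) n) +
            4 * (∑ n ∈ range M, B.indicator (fun n : ℕ => (n : ℝ) ^ (-s)) n) -
            8 * ∑ p ∈ primesBelow M, ((p : ℝ) ^ (-s)) ^ 2 := by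
          have hAB : ∀ (T : Set ℕ) (hT : ∀ p ∈ T, p.Prime),
              ∑ n ∈ range M, T.indicator (fun n : ℕ => (n : ℝ) ^ (-s)) n =
              ∑ p ∈ primesBelow M, T.indicator (fun n : ℕ => (n : ℝ) ^ (-s)) p := by
            intro T hT
            rw [primesBelow, Finset.sum_filter]
            refine Finset.sum_congr rfl fun n _ => ?_
            split_ifs with h
            · rfl
            · exact Set.indicator_of_notMem (fun hn => h (hT n hn)) _
          rw [hAB A (fun p hp => (D.A_spec p hp).1), hAB B (fun p hp => (D.B_spec p hp).1),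
            Finset.mul_sum, Finset.mul_sum, Finset.mul_sum, ← Finset.sum_add_distrib,
            ← Finset.sum_sub_distrib]
          refine Finset.sum_congr rfl fun p _ => ?_
          rw [wt, Set.indicator_apply, Set.indicator_apply]
          split_ifs <;> ring
        rw [e1]
        have e2 : ∑ p ∈ primesBelow M, ((p : ℝ) ^ (-s)) ^ 2 ≤ ∑' n : ℕ, (n : ℝ) ^ (-2 : ℝ) := by
          refine le_trans ?_ (hsum2.sum_le_tsum (primesBelow M)
            (fun n _ => Real.rpow_nonneg (by positivity) _))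
          refine Finset.sum_le_sum fun p hp => ?_
          have hpp := prime_of_mem_primesBelow hp
          have h1 : (1 : ℝ) ≤ p := by exact_mod_cast hpp.one_lt.le
          rw [← Real.rpow_natCast, ← Real.rpow_mul (by positivity)]
          apply Real.rpow_le_rpow_of_exponent_le h1
          push_cast; linarith
        linarith
    _ = ∏ p ∈ primesBelow M, Real.exp (wt A B ((p : ℝ) ^ (-s)) p) := Real.exp_sum _ _
    _ ≤ _ := Finset.prod_le_prod (fun p _ => (Real.exp_pos _).le)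
        fun p hp => (hloc p (prime_of_mem_primesBelow hp)).2

/-- **The Asai series is unbounded near `s = 1`.** -/
theorem AsaiData.unbounded (D : AsaiData N t t' A B d l) {a b CL CA CB : ℝ}
    (hab : 1 < 16 * a + 4 * b)
    (hL : ∀ s : ℝ, 1 < s → s ≤ 2 → Summable (fun n : ℕ => l n * (n : ℝ) ^ (-s)) ∧
      ∑' n : ℕ, l n * (n : ℝ) ^ (-s) ≤ CL / (s - 1))
    (hA : ∀ s : ℝ, 1 < s → s ≤ 2 → a * Real.log (1 / (s - 1)) - CA ≤
      ∑' n : ℕ, A.indicator (fun n : ℕ => (n : ℝ) ^ (-s)) n)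
    (hB : ∀ s : ℝ, 1 < s → s ≤ 2 → b * Real.log (1 / (s - 1)) - CB ≤
      ∑' n : ℕ, B.indicator (fun n : ℕ => (n : ℝ) ^ (-s)) n) (K : ℝ) :
    ∃ s₀ : ℝ, 1 < s₀ ∧ ∀ s : ℝ, 1 < s → s < s₀ →
      Summable (fun n : ℕ => d n * (n : ℝ) ^ (-s)) ∧ K < ∑' n : ℕ, d n * (n : ℝ) ^ (-s) := by
  set δ := 16 * a + 4 * b - 1 with hδ
  have hδ0 : 0 < δ := by linarith
  set C2 := ∑' n : ℕ, (n : ℝ) ^ (-2 : ℝ) with hC2
  set C' := 16 * CA + 4 * CB + 8 * C2 with hC'
  set M := max CL 1 with hM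
  have hM1 : 1 ≤ M := le_max_right _ _
  have hM0 : 0 < M := by linarith
  set Λ := (C' + Real.log (M * (K ^ 2 + 1))) / δ with hΛ
  refine ⟨1 + min 1 (Real.exp (-Λ)), by
    have : 0 < min 1 (Real.exp (-Λ)) := lt_min one_pos (Real.exp_pos _)
    linarith, fun s hs hs0 => ?_⟩
  have hs1 : s - 1 < 1 := by have := min_le_left 1 (Real.exp (-Λ)); linarith
  have hs2 : s - 1 < Real.exp (-Λ) := by have := min_le_right 1 (Real.exp (-Λ)); linarith
  have hs3 : 0 < s - 1 := by linarith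
  obtain ⟨hl, hLs⟩ := hL s hs (by linarith)
  have hsd := D.summable hs hl
  have hnn : ∀ n : ℕ, 0 ≤ (n : ℝ) ^ (-s) := fun n => Real.rpow_nonneg (by positivity) _
  have hsd' : Summable (fun n : ℕ => d n * (n : ℝ) ^ (-s)) := by
    refine Summable.of_norm_bounded hsd fun n => ?_
    rw [Real.norm_eq_abs, abs_mul, abs_of_nonneg (hnn n)]
  obtain ⟨k1, k2⟩ := D.key hs hl
  refine ⟨hsd', ?_⟩
  set Ds := ∑' n, d n * (n : ℝ) ^ (-s) with hDs
  set Ls := ∑' n, l n * (n : ℝ) ^ (-s) with hLs'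
  set lam := Real.log (1 / (s - 1)) with hlam
  have hlam1 : Λ < lam := by
    rw [hlam, one_div, Real.log_inv]
    have := Real.log_lt_log hs3 hs2
    rw [Real.log_exp] at this
    linarith
  have hexp : Real.exp lam = 1 / (s - 1) := Real.exp_log (by positivity)
  have hA' := hA s hs (by linarith)
  have hB' := hB s hs (by linarith)
  have hLs2 : Ls ≤ M * Real.exp lam := by
    rw [hexp]
    calc Ls ≤ CL / (s - 1) := hLs
      _ = CL * (1 / (s - 1)) := by ring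
      _ ≤ M * (1 / (s - 1)) := mul_le_mul_of_nonneg_right (le_max_left _ _) (by positivity)
  have h1 : Real.exp ((1 + δ) * lam - C') ≤ Ds ^ 2 * (M * Real.exp lam) := by
    refine le_trans ?_ (le_trans k2 (mul_le_mul_of_nonneg_left hLs2 (sq_nonneg _)))
    apply Real.exp_le_exp.2
    have e1 : (1 + δ) * lam - C' = 16 * (a * lam - CA) + 4 * (b * lam - CB) - 8 * C2 := by
      rw [hδ, hC']; ring
    rw [e1]
    linarith
  have h2 : Real.exp (δ * lam - C') ≤ Ds ^ 2 * M := by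
    have h3 : Real.exp ((1 + δ) * lam - C') = Real.exp (δ * lam - C') * Real.exp lam := by
      rw [← Real.exp_add]; congr 1; ring
    rw [h3] at h1
    have h4 : Real.exp (δ * lam - C') * Real.exp lam ≤ (Ds ^ 2 * M) * Real.exp lam := by
      linarith [h1]
    exact le_of_mul_le_mul_right h4 (Real.exp_pos _)
  have h3 : M * (K ^ 2 + 1) < Real.exp (δ * lam - C') := by
    have h4 : 0 < M * (K ^ 2 + 1) := by positivity
    rw [← Real.exp_log h4]
    apply Real.exp_lt_exp.2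
    have h5 : C' + Real.log (M * (K ^ 2 + 1)) < lam * δ := (div_lt_iff₀ hδ0).1 hlam1
    linarith
  have h4 : K ^ 2 + 1 < Ds ^ 2 := by
    have h5 : M * (K ^ 2 + 1) < M * Ds ^ 2 := by linarith
    exact lt_of_mul_lt_mul_left h5 hM0.le
  exact lt_of_pow_lt_pow_left₀ 2 k1 (by linarith)

end Fermat.Agent.H91.Z
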