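import Mathlib
import Fermat.Agent.H91ZICT
import Fermat.Agent.H91ZUnb
import Fermat.Agent.H62N2
import Fermat.Agent.H37NIct
import Fermat.Agent.H25ZDens
import Fermat.Agent.H83ZPrime
import Fermat.Agent.H62FrobTrace

/-!
# S47, block (N): final statement

The Dirichlet series `∑ c(n) n^{-s}` of an (I-CT) system with the traces of an octahedral
representation is unbounded as `s → 1+`.
-/

set_option autoImplicit false

namespace Fermat.Agent.H91.Z

open Fermat.Agent Fermat.Agent.S47T Module Ideal WeierstrassCurve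
open Fermat.Agent.H62N Fermat.Agent.H25Z
open Fermat.Agent.H85 (Fr Pl Pl_liesOver Fr_spec)
open scoped MatrixGroups

local notation "Γℚ" => (AlgebraicClosure ℚ ≃ₐ[ℚ] AlgebraicClosure ℚ)

/-- integer valued trace of `Ψ` on `Q₈` -/
noncomputable def q8tr (g : GL (Fin 2) (ZMod 3)) : ℝ := if g = 1 then 2 else if g = -1 then -2 else 0

/-- the values of `c` at the places of `M` that split in `E`, in terms of rational primes -/
def ValH (ρ : Γℚ →* GL (Fin 2) (ZMod 3)) (N : ℕ) (c : Eis → ℝ) : Prop :=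
  ∀ p : ℕ, p.Prime → ¬ p ∣ N → ∀ A : ValuationSubring (AlgebraicClosure ℚ), A.LiesOverPrime p →
    ∀ σ : Γℚ, A.IsFrobeniusAt σ p →
      (∀ ϖ : Eis, Complex.normSq (ϖ : ℂ) = p → (ρ σ) ^ 4 = 1 → c ϖ = q8tr (ρ σ)) ∧
      (p % 3 = 2 → c (p : Eis) = q8tr ((ρ σ) ^ 2))

/-! ### group theory in `GL₂(𝔽₃)` -/

lemma sq_ne_neg_one_aux : ∀ a b c d : ZMod 3, a * d - b * c = -1 →
    ¬ (a * a + b * c = -1 ∧ a * b + b * d = 0 ∧ c * a + d * c = 0 ∧ c * b + d * d = -1) := by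
  decide

lemma sq_ne_neg_one {g : GL (Fin 2) (ZMod 3)}
    (hg : (g : Matrix (Fin 2) (Fin 2) (ZMod 3)).det = -1) : g ^ 2 ≠ -1 := by
  intro h
  have h1 : (g : Matrix (Fin 2) (Fin 2) (ZMod 3)) * (g : Matrix (Fin 2) (Fin 2) (ZMod 3)) = -1 := by
    rw [← Units.val_mul, ← pow_two, h, Units.val_neg, Units.val_one]
  rw [Matrix.det_fin_two] at hg
  apply sq_ne_neg_one_aux _ _ _ _ hg
  refine ⟨?_, ?_, ?_, ?_⟩
  · simpa [Matrix.mul_apply, Fin.sum_univ_two] using congrFun (congrFun h1 0) 0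
  · simpa [Matrix.mul_apply, Fin.sum_univ_two] using congrFun (congrFun h1 0) 1
  · simpa [Matrix.mul_apply, Fin.sum_univ_two] using congrFun (congrFun h1 1) 0
  · simpa [Matrix.mul_apply, Fin.sum_univ_two] using congrFun (congrFun h1 1) 1

lemma neg_one_ne_one : (-1 : GL (Fin 2) (ZMod 3)) ≠ 1 := by
  intro h
  have h0 : (-1 : Matrix (Fin 2) (Fin 2) (ZMod 3)) = 1 := by
    have := congrArg Units.val h
    rwa [Units.val_neg, Units.val_one] at this
  have h1 := congrFun (congrFun h0 0) 0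
  rw [Matrix.neg_apply, Matrix.one_apply_eq] at h1
  exact absurd h1 (by decide)

lemma q8tr_one : q8tr 1 = 2 := by rw [q8tr, if_pos rfl]

lemma q8tr_neg_one : q8tr (-1) = -2 := by rw [q8tr, if_neg neg_one_ne_one, if_pos rfl]

lemma q8tr_sq {g : GL (Fin 2) (ZMod 3)}
    (hg : (g : Matrix (Fin 2) (Fin 2) (ZMod 3)).det = -1) (h2 : g ^ 2 ≠ 1) : q8tr (g ^ 2) = 0 := by
  rw [q8tr, if_neg h2, if_neg (sq_ne_neg_one hg)]

lemma mod_three_of_cast_one {p : ℕ} (h : (p : ZMod 3) = 1) : p % 3 = 1 := by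
  have : ((p : ℕ) : ZMod 3) = ((1 : ℕ) : ZMod 3) := by rw [h, Nat.cast_one]
  exact (ZMod.natCast_eq_natCast_iff' _ _ _).1 this

lemma mod_three_of_cast_neg_one {p : ℕ} (h : (p : ZMod 3) = -1) : p % 3 = 2 := by
  have : ((p : ℕ) : ZMod 3) = ((2 : ℕ) : ZMod 3) := by rw [h]; decide
  exact (ZMod.natCast_eq_natCast_iff' _ _ _).1 this

/-! ### determinants of Frobenius elements -/

section frob

variable {ρ : Γℚ →* GL (Fin 2) (ZMod 3)}

theorem det_frob (hdet : ∀ σ : Γℚ, Matrix.GeneralLinearGroup.det (ρ σ) = modThreeCyclotomicChar σ)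
    {p : ℕ} (hp : p.Prime) (h3 : ¬ p ∣ 3) {A : ValuationSubring (AlgebraicClosure ℚ)}
    (hA : A.LiesOverPrime p) {σ : Γℚ} (hσ : A.IsFrobeniusAt σ p) :
    ((ρ σ : GL (Fin 2) (ZMod 3)) : Matrix (Fin 2) (Fin 2) (ZMod 3)).det = (p : ZMod 3) := by
  have h1 := congrArg Units.val (hdet σ)
  rw [Matrix.GeneralLinearGroup.val_det_apply] at h1
  rw [h1, modThreeCyclotomicChar_apply]
  exact H62.modularCyclotomicCharacter_frob hp h3 hA hσ _

end frob

/-! ### the Hecke system on ideals -/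

theorem eisLike : EisLike omE where
  rel := omE_rel
  ex := fun x => by
    obtain ⟨p, hp, -⟩ := existsUnique_Eis x
    exact ⟨p.1, p.2, hp⟩
  indep := fun a b hab => by
    obtain ⟨p, hp, hu⟩ := existsUnique_Eis 0
    have h1 := hu (a, b) hab.symm
    have h2 := hu (0, 0) (by simp)
    have h3 := h1.trans h2.symm
    simpa using h3

section main

variable {N : ℕ} {c : Eis → ℝ} {F : H3 → ℂ}

theorem idealHecke (h : ICT N c F) (h3 : 3 ∣ N) : IdealHecke N (cI c) where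
  top := cI_top h
  mul := cI_mul h
  recur := fun v hv hv0 hc k => by
    refine cI_rec h v hv hv0 (hc.of_isCoprime_of_dvd_right ?_) k
    rw [Ideal.dvd_span_singleton, Ideal.mem_span_singleton]
    exact ⟨3, by push_cast; ring⟩
  bad := fun a ha => by
    refine cI_bad h a fun hc => ha ?_
    obtain ⟨M, hM⟩ := h3
    refine (hc.pow_right (n := 2)).of_isCoprime_of_dvd_right ?_
    rw [Ideal.span_singleton_pow, Ideal.dvd_span_singleton, Ideal.mem_span_singleton]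
    refine ⟨(M : Eis), ?_⟩
    conv_lhs => rw [hM]
    conv_rhs => rw [hM]
    push_cast
    ring

/-- mean square of the coefficients in the form needed for `AsaiData.unbounded` -/
theorem l_bound (h : ICT N c F) :
    ∃ CL : ℝ, ∀ s : ℝ, 1 < s → s ≤ 2 →
      Summable (fun n : ℕ => (∑ I ∈ fib Eis n, cI c I ^ 2) * (n : ℝ) ^ (-s)) ∧
      ∑' n : ℕ, (∑ I ∈ fib Eis n, cI c I ^ 2) * (n : ℝ) ^ (-s) ≤ CL / (s - 1) := by
  classical
  refine Fermat.Agent.H37N.ict_dirichlet h (l := fun n => ∑ I ∈ fib Eis n, cI c I ^ 2)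
    (fun n => Finset.sum_nonneg fun I _ => sq_nonneg _) ?_
    (fun n => (fib Eis n).image (fun I => Submodule.IsPrincipal.generator I)) ?_ ?_
  · show ∑ I ∈ fib Eis 0, cI c I ^ 2 = 0
    rw [fib_zero, Finset.sum_singleton, cI_bot h]
    norm_num
  · intro n α hα
    rw [Finset.mem_image] at hα
    obtain ⟨I, hI, rfl⟩ := hα
    rw [mem_fib] at hI
    rw [← absNorm_span_Eis, Ideal.span_singleton_generator, hI]
  · intro n _
    refine le_of_eq ?_
    show ∑ I ∈ fib Eis n, cI c I ^ 2 = _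
    rw [Finset.sum_image]
    · rfl
    · intro I _ J _ hIJ
      have h1 := congrArg (fun x => Ideal.span {x}) hIJ
      simpa only [Ideal.span_singleton_generator] using h1

/-- sums over the primes with a property, as sums over a set of natural numbers -/
theorem tsum_primes_indicator (P : Nat.Primes → Prop) (s : ℝ) :
    ∑' p : Nat.Primes, Set.indicator {p : Nat.Primes | P p} (fun p => ((p : ℕ) : ℝ) ^ (-s)) p =
      ∑' n : ℕ, Set.indicator {n : ℕ | ∃ hn : n.Prime, P ⟨n, hn⟩} (fun n : ℕ => (n : ℝ) ^ (-s)) n := by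
  classical
  rw [← Function.Injective.tsum_eq (g := fun p : Nat.Primes => (p : ℕ)) Subtype.val_injective
    (f := Set.indicator {n : ℕ | ∃ hn : n.Prime, P ⟨n, hn⟩} (fun n : ℕ => (n : ℝ) ^ (-s)))]
  · refine tsum_congr fun p => ?_
    rw [Set.indicator_apply, Set.indicator_apply]
    have h1 : (p ∈ {p : Nat.Primes | P p}) ↔ ((p : ℕ) ∈ {n : ℕ | ∃ hn : n.Prime, P ⟨n, hn⟩}) := by
      constructor
      · intro hp
        exact ⟨p.2, hp⟩
      · rintro ⟨_, hp⟩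
        exact hp
    by_cases hp : p ∈ {p : Nat.Primes | P p}
    · rw [if_pos hp, if_pos (h1.1 hp)]
    · rw [if_neg hp, if_neg (fun h2 => hp (h1.2 h2))]
  · intro n hn
    rw [Function.mem_support, Set.indicator_apply_ne_zero] at hn
    obtain ⟨⟨hn1, _⟩, _⟩ := hn
    exact ⟨⟨n, hn1⟩, rfl⟩

/-- **Block (N).** -/
theorem asai_unbounded (h : ICT N c F) (h3 : 3 ∣ N)
    (ρ : Γℚ →* GL (Fin 2) (ZMod 3)) (hρ : Continuous ρ) (hsurj : Function.Surjective ρ)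
    (hdet : ∀ σ : Γℚ, Matrix.GeneralLinearGroup.det (ρ σ) = modThreeCyclotomicChar σ)
    (hv : ValH ρ N c) (K : ℝ) :
    ∃ s₀ : ℝ, 1 < s₀ ∧ ∀ s : ℝ, 1 < s → s < s₀ →
      Summable (fun n : ℕ => c (n : Eis) * (n : ℝ) ^ (-s)) ∧
      K < ∑' n : ℕ, c (n : Eis) * (n : ℝ) ^ (-s) := by
  classical
  have hN0 : 3 * N ≠ 0 := by
    have := h.pos
    omega
  have hfin := Fermat.Agent.H83Z.factors_of_continuous ρ hρ
  set S : Finset ℕ := (3 * N).primeFactors with hS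
  have hSp : ∀ p : ℕ, p.Prime → (p ∉ S ↔ ¬ p ∣ 3 * N) := by
    intro p hp
    rw [hS, Nat.mem_primeFactors]
    constructor
    · intro h1 h2
      exact h1 ⟨hp, h2, hN0⟩
    · rintro h1 ⟨_, h2, _⟩
      exact h1 h2
  obtain ⟨CA, hCA⟩ := density_A ρ hfin hsurj S (a := 1 / 25) (by norm_num) (by norm_num)
  obtain ⟨CB, hCB⟩ := density_B ρ hfin hsurj S (b := 6 / 25) (by norm_num) (by norm_num)
  obtain ⟨CL, hCL⟩ := l_bound h
  set A : Set ℕ := {n : ℕ | ∃ hn : n.Prime, (((⟨n, hn⟩ : Nat.Primes) : ℕ) ∉ S ∧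
    (ρ (Fr ⟨n, hn⟩) = 1 ∨ ρ (Fr ⟨n, hn⟩) = -1))} with hAdef
  set B : Set ℕ := {n : ℕ | ∃ hn : n.Prime, (((⟨n, hn⟩ : Nat.Primes) : ℕ) ∉ S ∧
    (ρ (Fr ⟨n, hn⟩) ^ 2 = 1 ∧
      ((ρ (Fr ⟨n, hn⟩) : GL (Fin 2) (ZMod 3)) : Matrix (Fin 2) (Fin 2) (ZMod 3)).det = -1))}
    with hBdef
  have hnd3 : ∀ p : ℕ, p.Prime → ¬ p ∣ 3 * N → ¬ p ∣ 3 ∧ ¬ p ∣ N := fun p _ hpN =>
    ⟨fun h1 => hpN (h1.mul_right N), fun h1 => hpN (h1.mul_left 3)⟩
  -- the primes in `A`
  have hA : ∀ p ∈ A, p.Prime ∧ ¬ p ∣ 3 * N ∧ p % 3 = 1 ∧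
      ((∀ v : Ideal Eis, absNorm v = p → cI c v = 2) ∨
        (∀ v : Ideal Eis, absNorm v = p → cI c v = -2)) := by
    rintro p ⟨hp, hpS, hpm⟩
    have hpN : ¬ p ∣ 3 * N := (hSp p hp).1 hpS
    obtain ⟨hp3, hpN'⟩ := hnd3 p hp hpN
    have hd := det_frob hdet hp hp3 (Pl_liesOver ⟨p, hp⟩) (Fr_spec ⟨p, hp⟩)
    have hval := (hv p hp hpN' (Pl ⟨p, hp⟩) (Pl_liesOver ⟨p, hp⟩) (Fr ⟨p, hp⟩)
      (Fr_spec ⟨p, hp⟩)).1
    have hgen : ∀ v : Ideal Eis, absNorm v = p →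
        Complex.normSq ((Submodule.IsPrincipal.generator v : Eis) : ℂ) = p := by
      intro v hv1
      rw [← absNorm_span_Eis, Ideal.span_singleton_generator, hv1]
    rcases hpm with h1 | h1
    · refine ⟨hp, hpN, ?_, Or.inl fun v hv1 => ?_⟩
      · rw [h1, Units.val_one, Matrix.det_one] at hd
        exact mod_three_of_cast_one hd.symm
      · rw [cI, hval _ (hgen v hv1) (by rw [h1, one_pow]), h1, q8tr_one]
    · refine ⟨hp, hpN, ?_, Or.inr fun v hv1 => ?_⟩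
      · rw [h1, Units.val_neg, Units.val_one, Matrix.det_neg, Matrix.det_one,
          Fintype.card_fin] at hd
        apply mod_three_of_cast_one
        rw [← hd]
        norm_num
      · rw [cI, hval _ (hgen v hv1) (by rw [h1, Even.neg_one_pow (by decide)]), h1, q8tr_neg_one]
  -- the primes in `B`
  have hB : ∀ p ∈ B, p.Prime ∧ ¬ p ∣ 3 * N ∧ p % 3 = 2 ∧ cI c (span {(p : Eis)}) = 2 := by
    rintro p ⟨hp, hpS, hp2, hpd⟩
    have hpN : ¬ p ∣ 3 * N := (hSp p hp).1 hpS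
    obtain ⟨hp3, hpN'⟩ := hnd3 p hp hpN
    have hd := det_frob hdet hp hp3 (Pl_liesOver ⟨p, hp⟩) (Fr_spec ⟨p, hp⟩)
    have hval := (hv p hp hpN' (Pl ⟨p, hp⟩) (Pl_liesOver ⟨p, hp⟩) (Fr ⟨p, hp⟩)
      (Fr_spec ⟨p, hp⟩)).2
    have hp32 : p % 3 = 2 := mod_three_of_cast_neg_one (hd.symm.trans hpd)
    refine ⟨hp, hpN, hp32, ?_⟩
    rw [cI_span h, hval hp32, hp2, q8tr_one]
  have hnB : ∀ p : ℕ, p.Prime → ¬ p ∣ 3 * N → p % 3 = 2 → p ∉ B →
      cI c (span {(p : Eis)}) = 0 := by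
    intro p hp hpN hp32 hpB
    obtain ⟨hp3, hpN'⟩ := hnd3 p hp hpN
    have hd := det_frob hdet hp hp3 (Pl_liesOver ⟨p, hp⟩) (Fr_spec ⟨p, hp⟩)
    have hval := (hv p hp hpN' (Pl ⟨p, hp⟩) (Pl_liesOver ⟨p, hp⟩) (Fr ⟨p, hp⟩)
      (Fr_spec ⟨p, hp⟩)).2
    have hpd : (p : ZMod 3) = -1 := by
      have : (p : ZMod 3) = ((2 : ℕ) : ZMod 3) :=
        (ZMod.natCast_eq_natCast_iff' _ _ _).2 (by rw [hp32])
      rw [this]; decide
    rw [hpd] at hd
    rw [cI_span h, hval hp32]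
    apply q8tr_sq hd
    intro h2
    exact hpB ⟨hp, (hSp p hp).2 hpN, h2, hd⟩
  obtain ⟨t, t', D⟩ := exists_asaiData eisLike (idealHecke h h3) hA hB hnB
  have hcd : ∀ n : ℕ, cI c (span {(n : Eis)}) = c (n : Eis) := fun n => cI_span h _
  obtain ⟨s₀, hs₀, hmain⟩ := D.unbounded (a := 1 / 25) (b := 6 / 25) (CL := CL) (CA := CA)
    (CB := CB) (by norm_num) hCL
    (fun s hs hs2 => by
      refine (hCA s hs hs2).trans (le_of_eq ?_)
      exact tsum_primes_indicator (fun p : Nat.Primes => (p : ℕ) ∉ S ∧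
        (ρ (Fr p) = 1 ∨ ρ (Fr p) = -1)) s)
    (fun s hs hs2 => by
      refine (hCB s hs hs2).trans (le_of_eq ?_)
      exact tsum_primes_indicator (fun p : Nat.Primes => (p : ℕ) ∉ S ∧
        (ρ (Fr p) ^ 2 = 1 ∧
          ((ρ (Fr p) : GL (Fin 2) (ZMod 3)) : Matrix (Fin 2) (Fin 2) (ZMod 3)).det = -1)) s) K
  refine ⟨s₀, hs₀, fun s hs hs1 => ?_⟩
  have h1 := hmain s hs hs1
  simp only [hcd] at h1
  exact h1

end main

end Fermat.Agent.H91.Z
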