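import Mathlib
import Fermat.Agent.H91ZFinal
import Fermat.Agent.H15S47Def

/-!
# S47, block (N): the output in the form `BlockN` of the cross-block interface
-/

set_option autoImplicit false

namespace Fermat.Agent.H91.Z

open Fermat.Agent Fermat.Agent.S47T WeierstrassCurve
open scoped MatrixGroups

local notation "Γℚ" => (AlgebraicClosure ℚ ≃ₐ[ℚ] AlgebraicClosure ℚ)

lemma trQ_eq_q8tr (g : GL (Fin 2) (ZMod 3)) : H15S47.trQ g = q8tr g := by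
  rw [H15S47.trQ, q8tr]
  split_ifs <;> rfl

/-- a norm from `ℤ[ω]` which is a prime `≠ 3` is `1 mod 3` -/
lemma mod_three_of_normSq {p : ℕ} (hp : p.Prime) (hp3 : p ≠ 3) {ϖ : Eis}
    (h : Complex.normSq (ϖ : ℂ) = p) : p % 3 = 1 := by
  obtain ⟨a, b, hab⟩ := ϖ.2
  rw [hab, normSq_eis] at h
  have h1 : a ^ 2 - a * b + b ^ 2 = (p : ℤ) := by exact_mod_cast h
  have h2 : ((p : ℤ) % 3) = 0 ∨ ((p : ℤ) % 3) = 1 := by
    rw [← h1]
    have e : a ^ 2 - a * b + b ^ 2 = (a + b) ^ 2 - 3 * (a * b) := by ring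
    rw [e]
    have h4 : (a + b) % 3 = 0 ∨ (a + b) % 3 = 1 ∨ (a + b) % 3 = 2 := by omega
    rw [Int.sub_mul_emod_self_left, pow_two, Int.mul_emod]
    rcases h4 with h4 | h4 | h4 <;> rw [h4] <;> norm_num
  rcases h2 with h2 | h2
  · exfalso
    have h3 : 3 ∣ p := by omega
    exact hp3 ((Nat.prime_dvd_prime_iff_eq Nat.prime_three hp).1 h3).symm
  · omega

theorem valH_of {ρ : Γℚ →* GL (Fin 2) (ZMod 3)}
    (hdet : ∀ σ : Γℚ, Matrix.GeneralLinearGroup.det (ρ σ) = modThreeCyclotomicChar σ)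
    {N : ℕ} (h3 : 3 ∣ N) {c : Eis → ℝ} (hS : H15S47.SplitVal ρ N c) (hI : H15S47.InertVal ρ N c) :
    ValH ρ N c := by
  intro p hp hpN A hA σ hσ
  refine ⟨fun ϖ hϖ h4 => ?_, fun hp2 => ?_⟩
  · have hp3 : p ≠ 3 := fun h => hpN (h ▸ h3)
    have hp1 : p % 3 = 1 := mod_three_of_normSq hp hp3 hϖ
    have hnd : ¬ p ∣ 3 := fun h => hp3 ((Nat.prime_dvd_prime_iff_eq hp Nat.prime_three).1 h)
    have hd := det_frob hdet hp hnd hA hσ
    have h1 : ((p : ℕ) : ZMod 3) = ((1 : ℕ) : ZMod 3) :=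
      (ZMod.natCast_eq_natCast_iff' _ _ _).2 (by rw [hp1])
    rw [h1, Nat.cast_one] at hd
    have hd1 : Matrix.GeneralLinearGroup.det (ρ σ) = 1 := Units.ext (by
      rw [Matrix.GeneralLinearGroup.val_det_apply, hd, Units.val_one])
    rw [hS p hp hpN A hA σ hσ hd1 h4 ϖ hϖ, trQ_eq_q8tr]
  · rw [hI p hp hpN hp2 A hA σ hσ, trQ_eq_q8tr]

/-- **Output of block (N)**. -/
theorem blockN : H15S47.BlockN := by
  intro ρ hρ N c F h3 hF hS hI K
  obtain ⟨s₀, hs₀, h⟩ := asai_unbounded hF h3 ρ hρ.cont hρ.surj hρ.det (valH_of hρ.det h3 hS hI) K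
  refine ⟨s₀, hs₀, fun s hs hs1 => ?_⟩
  have e : (fun n : ℕ => c (n : Eis) / (n : ℝ) ^ s) = fun n : ℕ => c (n : Eis) * (n : ℝ) ^ (-s) := by
    funext n
    rw [Real.rpow_neg (Nat.cast_nonneg n), div_eq_mul_inv]
  rw [e]
  exact h s hs hs1

end Fermat.Agent.H91.Z
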