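import Mathlib
import Fermat.Agent.H83ZEis
import Fermat.Agent.H91ZBlockN
import Fermat.Agent.H47TClass

/-!
# S47: places of `M = ℚ(√-3)` and primes of `ℤ[ω]`, part 2
-/

set_option autoImplicit false
set_option linter.unusedSectionVars false
set_option linter.unusedVariables false

noncomputable section

open IsDedekindDomain HeightOneSpectrum WithZero NumberField Matrix Polynomial
open scoped MatrixGroups ComplexConjugate

namespace Fermat.Agent.H83Z

open Fermat.Agent.S47T

/-! ## Primes of `ℤ[ω]` -/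

/-- the norm as a natural number -/
theorem exists_nat_normSq (x : Eis) : ∃ n : ℕ, Complex.normSq (x : ℂ) = n := by
  obtain ⟨a, b, hab⟩ := x.2
  rw [hab, normSq_eis]
  have h0 : 0 ≤ a ^ 2 - a * b + b ^ 2 := by nlinarith [sq_nonneg (a - b), sq_nonneg a, sq_nonneg b]
  exact ⟨(a ^ 2 - a * b + b ^ 2).toNat, by
    rw [← Int.cast_natCast, Int.toNat_of_nonneg h0]⟩

theorem isUnit_of_normSq_eq_one {x : Eis} (h : Complex.normSq (x : ℂ) = 1) : IsUnit x := by
  refine IsUnit.of_mul_eq_one (conjE x) (Subtype.ext ?_)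
  rw [Subring.coe_mul, coe_conjE, Complex.mul_conj, h]
  simp

theorem normSq_eq_one_of_isUnit {x : Eis} (h : IsUnit x) : Complex.normSq (x : ℂ) = 1 := by
  obtain ⟨y, hy⟩ := h.exists_right_inv
  obtain ⟨m, hm⟩ := exists_nat_normSq x
  obtain ⟨n, hn⟩ := exists_nat_normSq y
  have h1 : Complex.normSq (x : ℂ) * Complex.normSq (y : ℂ) = 1 := by
    rw [← Complex.normSq_mul, ← Subring.coe_mul, hy, Subring.coe_one, Complex.normSq_one]
  rw [hm, hn] at h1
  have h2 : m * n = 1 := by exact_mod_cast h1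
  rw [hm, Nat.eq_one_of_mul_eq_one_right h2, Nat.cast_one]

/-- elements of prime norm are prime -/
theorem prime_of_normSq {p : ℕ} (hp : p.Prime) {ϖ : Eis} (h : Complex.normSq (ϖ : ℂ) = p) :
    Prime ϖ := by
  rw [← irreducible_iff_prime]
  refine ⟨fun hu => ?_, fun x y hxy => ?_⟩
  · rw [normSq_eq_one_of_isUnit hu] at h
    exact hp.one_lt.ne (by exact_mod_cast h)
  · obtain ⟨m, hm⟩ := exists_nat_normSq x
    obtain ⟨n, hn⟩ := exists_nat_normSq y
    rw [hxy, Subring.coe_mul, Complex.normSq_mul, hm, hn] at h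
    have h2 : m * n = p := by exact_mod_cast h
    rcases (Nat.prime_mul_iff.1 (h2 ▸ hp)) with ⟨_, h1⟩ | ⟨_, h1⟩
    · right; exact isUnit_of_normSq_eq_one (by rw [hn, h1, Nat.cast_one])
    · left; exact isUnit_of_normSq_eq_one (by rw [hm, h1, Nat.cast_one])

/-- `p ≡ 2 (mod 3)` stays prime -/
theorem prime_of_inert {p : ℕ} (hp : p.Prime) (h3 : p % 3 = 2) : Prime (p : Eis) := by
  have hpn : Complex.normSq (((p : Eis) : Eis) : ℂ) = (p : ℝ) ^ 2 := by
    rw [Subring.coe_natCast, ← Complex.ofReal_natCast, Complex.normSq_ofReal, sq]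
  rw [← irreducible_iff_prime]
  refine ⟨fun hu => ?_, fun x y hxy => ?_⟩
  · rw [normSq_eq_one_of_isUnit hu] at hpn
    have : (p : ℝ) = 1 := by nlinarith [(Nat.cast_nonneg p : (0 : ℝ) ≤ p)]
    exact hp.one_lt.ne (by exact_mod_cast this.symm)
  · obtain ⟨m, hm⟩ := exists_nat_normSq x
    obtain ⟨n, hn⟩ := exists_nat_normSq y
    rw [hxy, Subring.coe_mul, Complex.normSq_mul, hm, hn] at hpn
    have h2 : m * n = p ^ 2 := by exact_mod_cast hpn
    have hne : ∀ z : Eis, Complex.normSq (z : ℂ) ≠ (p : ℕ) := by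
      intro z hz
      have := H91.Z.mod_three_of_normSq hp (by omega) hz
      omega
    have hm' : m ∣ p ^ 2 := ⟨n, h2.symm⟩
    obtain ⟨i, hi, hmi⟩ := (Nat.dvd_prime_pow hp).1 hm'
    have : i = 0 ∨ i = 1 ∨ i = 2 := by omega
    rcases this with rfl | rfl | rfl
    · left
      exact isUnit_of_normSq_eq_one (by rw [hm, hmi, pow_zero, Nat.cast_one])
    · exfalso
      exact hne x (by rw [hm, hmi, pow_one])
    · right
      have hp0 : 0 < p ^ 2 := pow_pos hp.pos 2
      rw [hmi] at h2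
      have h4 : n = 1 := by
        have : p ^ 2 * n = p ^ 2 * 1 := by rw [h2, mul_one]
        exact Nat.eq_of_mul_eq_mul_left hp0 this
      exact isUnit_of_normSq_eq_one (by rw [hn, h4, Nat.cast_one])

theorem normSq_natCast (p : ℕ) : Complex.normSq (((p : Eis) : Eis) : ℂ) = (p : ℝ) ^ 2 := by
  rw [Subring.coe_natCast, ← Complex.ofReal_natCast, Complex.normSq_ofReal, sq]

variable {F : Type*} [Field F] [NumberField F] [IsCyclotomicExtension {3} ℚ F] {e : F →+* ℂ}

/-! ## Places and rational integers -/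

/-- A place `v` with `v(p) < 1`, `p` prime. -/
theorem val_natCast_lt_one_iff {v : HeightOneSpectrum (𝓞 F)} {ϖ : Eis}
    (hv : v.asIdeal = Ideal.span {(eisO e).symm ϖ}) (N : ℕ) :
    v.valuation F (N : F) < 1 ↔ ϖ ∣ (N : Eis) := by
  have := val_lt_one_iff hv (N : 𝓞 F)
  rwa [eisO_natCast] at this

/-- Every place lies over a unique rational prime. -/
theorem exists_prime_below (v : HeightOneSpectrum (𝓞 F)) :
    ∃ p : ℕ, p.Prime ∧ v.valuation F (p : F) < 1 := by
  have h1 : (v.asIdeal.comap (algebraMap ℤ (𝓞 F))).IsPrime := Ideal.comap_isPrime _ _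
  have h2 : v.asIdeal.under ℤ ≠ ⊥ := Ideal.under_ne_bot _ v.ne_bot
  obtain ⟨n, hn⟩ := IsPrincipalIdealRing.principal (v.asIdeal.under ℤ)
  rw [Ideal.submodule_span_eq] at hn
  have hn0 : n ≠ 0 := by
    rintro rfl
    exact h2 (by rw [hn]; exact Ideal.span_singleton_eq_bot.2 rfl)
  have hnp : Prime n := (Ideal.span_singleton_prime hn0).1 (hn ▸ h1)
  refine ⟨n.natAbs, Int.prime_iff_natAbs_prime.1 hnp, ?_⟩
  have h3 : n ∈ v.asIdeal.under ℤ := by rw [hn]; exact Ideal.mem_span_singleton_self n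
  have h4 : ((n.natAbs : ℕ) : 𝓞 F) ∈ v.asIdeal := by
    have h5 : algebraMap ℤ (𝓞 F) n ∈ v.asIdeal := h3
    rw [eq_intCast] at h5
    have h7 : ((n.natAbs : ℕ) : 𝓞 F) = (((n.natAbs : ℕ) : ℤ) : 𝓞 F) := (Int.cast_natCast _).symm
    rw [h7]
    rcases Int.natAbs_eq n with h | h
    · rw [← h]; exact h5
    · have h8 : ((n.natAbs : ℕ) : ℤ) = -n := by omega
      rw [h8, Int.cast_neg]
      exact v.asIdeal.neg_mem h5
  have h6 : v.valuation F (((n.natAbs : ℕ) : 𝓞 F) : F) < 1 := by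
    have h0 : v.valuation F (((n.natAbs : ℕ) : 𝓞 F) : F) = v.intValuation ((n.natAbs : ℕ) : 𝓞 F) :=
      HeightOneSpectrum.valuation_of_algebraMap _ _
    rw [h0, HeightOneSpectrum.intValuation_lt_one_iff_mem]
    exact h4
  simpa using h6

/-- The set of places dividing `N ≠ 0` is finite. -/
theorem finite_places_dvd {N : ℕ} (hN : N ≠ 0) :
    {v : HeightOneSpectrum (𝓞 F) | v.valuation F (N : F) < 1}.Finite := by
  have hN0 : (N : F) ≠ 0 := Nat.cast_ne_zero.2 hN
  refine (HeightOneSpectrum.Support.finite (𝓞 F) ((N : F)⁻¹)).subset ?_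
  intro v hv
  show 1 < v.valuation F ((N : F)⁻¹)
  rw [map_inv₀, one_lt_inv₀ (zero_lt_iff.2 ((Valuation.ne_zero_iff _).2 hN0))]
  exact hv

/-- coprimality with `N` in terms of places -/
theorem isCoprime_iff {β : 𝓞 F} {N : ℕ} : IsCoprime (eisO e β) (N : Eis) ↔
    ∀ v : HeightOneSpectrum (𝓞 F), v.valuation F (N : F) < 1 → v.valuation F (β : F) = 1 := by
  constructor
  · intro h v hvN
    obtain ⟨ϖ, hϖ, hv⟩ := exists_prime_gen e v
    rw [val_natCast_lt_one_iff hv] at hvN
    rw [val_eq_one_iff hv]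
    intro hd
    exact hϖ.not_unit (h.isUnit_of_dvd' hd hvN)
  · intro h
    by_contra hcon
    have hne : ¬ (eisO e β = 0 ∧ (N : Eis) = 0) := by
      rintro ⟨h1, h2⟩
      -- `N = 0`, all valuations of `0` are `< 1`
      have hN0 : N = 0 := by
        have h3 : ((N : Eis) : ℂ) = 0 := by rw [h2]; rfl
        rw [Subring.coe_natCast] at h3
        exact_mod_cast h3
      have hp3 : Prime ((5 : ℕ) : Eis) := prime_of_inert (by norm_num) (by norm_num)
      have h4 := h (placeOf e _ hp3) (by rw [hN0]; simp)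
      have hb : β = 0 := by
        rwa [map_eq_zero_iff _ (eisO e).injective] at h1
      rw [hb] at h4
      simp at h4
    obtain ⟨ϖ, hϖ, h1, h2⟩ : ∃ ϖ : Eis, Prime ϖ ∧ ϖ ∣ eisO e β ∧ ϖ ∣ (N : Eis) := by
      by_contra hno
      push Not at hno
      apply hcon
      apply isCoprime_of_prime_dvd hne
      intro z hz hz1
      exact hno z hz hz1
    have hv := placeOf_asIdeal e ϖ hϖ
    have h3 := h (placeOf e ϖ hϖ) ((val_natCast_lt_one_iff hv N).2 h2)
    rw [val_eq_one_iff hv] at h3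
    exact h3 h1

/-- an element of `ℤ[ω]` is a unit iff all valuations are one; elements with equal valuations are
associated -/
theorem isUnit_iff_val {β : 𝓞 F} (hβ : β ≠ 0) : IsUnit (eisO e β) ↔
    ∀ v : HeightOneSpectrum (𝓞 F), v.valuation F (β : F) = 1 := by
  constructor
  · intro h v
    obtain ⟨ϖ, hϖ, hv⟩ := exists_prime_gen e v
    rw [val_eq_one_iff hv]
    intro hd
    exact hϖ.not_unit (isUnit_of_dvd_unit hd h)
  · intro h
    by_contra hcon
    have h0 : eisO e β ≠ 0 := by rwa [Ne, map_eq_zero_iff _ (eisO e).injective]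
    obtain ⟨ϖ, hϖ, hd⟩ := WfDvdMonoid.exists_irreducible_factor hcon h0
    have hϖ' : Prime ϖ := irreducible_iff_prime.1 hϖ
    have hv := placeOf_asIdeal e ϖ hϖ'
    have h3 := h (placeOf e ϖ hϖ')
    rw [val_eq_one_iff hv] at h3
    exact h3 hd

end Fermat.Agent.H83Z
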