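import Mathlib
import Fermat.Agent.H86Density

/-!
# S47, block GAL: primes of number fields inside `ℚ̄` and Frobenius elements

For a finite subfield `L` of `ℚ̄` and a place `A` of `ℚ̄` over `p`, `H86.centre L A` is the prime of
`𝓞 L` below `A` and `absNorm (centre L A) = p ^ resDeg L A p`.  If `K` is normal, unramified at `p`
and contains `L`, then for a Frobenius element `φ` at `A`:
`φ ^ k` is trivial on `L` if and only if `resDeg L A p ∣ k`.
-/

set_option autoImplicit false
set_option linter.style.haveILetI false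
set_option linter.unusedSectionVars false

open scoped Pointwise
open NumberField IsDedekindDomain

noncomputable section

namespace Fermat.Agent.H30G

local notation "Qb" => AlgebraicClosure ℚ
local notation "Zb" => integralClosure ℤ (AlgebraicClosure ℚ)
local notation "Gq" => (AlgebraicClosure ℚ ≃ₐ[ℚ] AlgebraicClosure ℚ)

open H86 (centre)

section Basic

variable (L : IntermediateField ℚ Qb)

theorem centre_ne_bot {A : ValuationSubring Qb} {p : ℕ} (hp : p.Prime) (hA : A.LiesOverPrime p) :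
    centre L A ≠ ⊥ := by
  intro h
  have h1 := H86.natCast_mem_centre L hA
  rw [h] at h1
  have : ((p : ℕ) : 𝓞 L) = 0 := by simpa using h1
  exact hp.ne_zero (by exact_mod_cast this)

variable [NumberField L]

/-- Every prime of `𝓞 L` containing `p` is the centre of a place of `ℚ̄` over `p`. -/
theorem exists_centre_eq {p : ℕ} (hp : p.Prime) (P : Ideal (𝓞 L))
    [hP : P.IsPrime] (h : ((p : ℕ) : 𝓞 L) ∈ P) :
    ∃ A : ValuationSubring Qb, A.LiesOverPrime p ∧ centre L A = P := by
  let g : 𝓞 L →+* Qb := (algebraMap L Qb).comp (algebraMap (𝓞 L) L)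
  have hg : Function.Injective g :=
    (algebraMap L Qb).injective.comp (FaithfulSMul.algebraMap_injective (𝓞 L) L)
  let R : Subring Qb := g.range
  let e : 𝓞 L ≃+* R := RingEquiv.ofBijective g.rangeRestrict
    ⟨fun x y hxy => by
      have h1 : g x = g y := congrArg (Subtype.val : R → Qb) hxy
      exact hg h1, g.rangeRestrict_surjective⟩
  let I : Ideal R := P.comap e.symm.toRingHom
  have hI : I ≠ ⊤ := by
    intro htop
    have h1 : (1 : R) ∈ I := by rw [htop]; exact Submodule.mem_top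
    have h2 : (1 : 𝓞 L) ∈ P := by
      have := h1
      rw [Ideal.mem_comap, map_one] at this
      exact this
    exact hP.ne_top ((Ideal.eq_top_iff_one P).mpr h2)
  obtain ⟨B, -, hB⟩ := Ideal.image_subset_nonunits_valuationSubring I hI
  have key : ∀ x ∈ P, ((x : L) : Qb) ∈ B.nonunits := by
    intro x hx
    refine hB ⟨e x, ?_, rfl⟩
    change e.symm (e x) ∈ P
    rwa [e.symm_apply_apply]
  refine ⟨B, ?_, ?_⟩
  · have := key _ h
    have e1 : ((((p : ℕ) : 𝓞 L) : L) : Qb) = (p : Qb) := by simp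
    rw [e1] at this
    exact this
  · have hle : P ≤ centre L B := fun x hx => (H86.mem_centre L B x).mpr (key x hx)
    have hP0 : P ≠ ⊥ := by
      rintro rfl
      have : ((p : ℕ) : 𝓞 L) = 0 := by simpa using h
      exact hp.ne_zero (by exact_mod_cast this)
    exact ((hP.isMaximal hP0).eq_of_le (H86.centre_isPrime L B).ne_top hle).symm

/-- the place of `L` below `A` -/
def pl {A : ValuationSubring Qb} {p : ℕ} (hp : p.Prime)
    (hA : A.LiesOverPrime p) : HeightOneSpectrum (𝓞 L) :=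
  ⟨centre L A, H86.centre_isPrime L A, centre_ne_bot L hp hA⟩

omit [NumberField L] in
/-- the residue characteristic and the norm of a prime -/
theorem exists_absNorm_eq_pow {F : Type*} [Field F] [NumberField F] (P : Ideal (𝓞 F))
    [hP : P.IsPrime] (h0 : P ≠ ⊥) :
    ∃ (p n : ℕ), p.Prime ∧ 0 < n ∧ ((p : ℕ) : 𝓞 F) ∈ P ∧ Ideal.absNorm P = p ^ n ∧
      ∀ k : ℕ, (∀ x : 𝓞 F, x ^ p ^ k - x ∈ P) ↔ n ∣ k := by
  haveI hmax : P.IsMaximal := hP.isMaximal h0
  letI : Field (𝓞 F ⧸ P) := Ideal.Quotient.field P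
  haveI : Finite (𝓞 F ⧸ P) := Ideal.finiteQuotientOfFreeOfNeBot P h0
  letI : Fintype (𝓞 F ⧸ P) := Fintype.ofFinite _
  obtain ⟨p, hchar⟩ := CharP.exists (𝓞 F ⧸ P)
  obtain ⟨n, hp, hn⟩ := FiniteField.card (𝓞 F ⧸ P) p
  have hcard : Ideal.absNorm P = p ^ (n : ℕ) := by
    rw [← hn, ← Nat.card_eq_fintype_card]
    rfl
  refine ⟨p, n, hp, n.pos, ?_, hcard, fun k => ?_⟩
  · rw [← Ideal.Quotient.eq_zero_iff_mem, map_natCast]
    exact CharP.cast_eq_zero _ _
  · haveI : Fact p.Prime := ⟨hp⟩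
    have e1 : (∀ x : 𝓞 F, x ^ p ^ k - x ∈ P) ↔ ∀ y : 𝓞 F ⧸ P, y ^ p ^ k = y := by
      constructor
      · intro h y
        obtain ⟨x, rfl⟩ := Ideal.Quotient.mk_surjective y
        rw [← map_pow, ← sub_eq_zero, ← map_sub, Ideal.Quotient.eq_zero_iff_mem]
        exact h x
      · intro h x
        rw [← Ideal.Quotient.eq_zero_iff_mem, map_sub, map_pow, h, sub_self]
    rw [e1]
    constructor
    · intro h
      letI : Algebra (ZMod p) (𝓞 F ⧸ P) := ZMod.algebra _ p
      have hfr : Module.finrank (ZMod p) (𝓞 F ⧸ P) = n := by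
        have h1 := Module.card_eq_pow_finrank (K := ZMod p) (V := 𝓞 F ⧸ P)
        rw [hn, ZMod.card] at h1
        exact (Nat.pow_right_injective hp.two_le h1).symm
      rw [← hfr, ← FiniteField.orderOf_frobeniusAlgHom (ZMod p) (𝓞 F ⧸ P),
        orderOf_dvd_iff_pow_eq_one]
      ext y
      rw [AlgHom.coe_pow, FiniteField.coe_frobeniusAlgHom, pow_iterate, AlgHom.one_apply,
        ZMod.card]
      exact h y
    · rintro ⟨m, rfl⟩ y
      rw [pow_mul, ← hn]
      exact FiniteField.pow_card_pow m y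

/-- Every place of `L` is the centre of a place of `ℚ̄` over some prime. -/
theorem exists_pl_eq (w : HeightOneSpectrum (𝓞 L)) :
    ∃ (p : ℕ) (hp : p.Prime) (A : ValuationSubring Qb) (hA : A.LiesOverPrime p),
      pl L hp hA = w := by
  haveI := w.isPrime
  obtain ⟨p, n, hp, -, hpw, -, -⟩ := exists_absNorm_eq_pow w.asIdeal w.ne_bot
  obtain ⟨A, hA, h⟩ := exists_centre_eq L hp w.asIdeal hpw
  exact ⟨p, hp, A, hA, HeightOneSpectrum.ext h⟩

/-- the residue degree of the prime below `A` -/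
def resDeg (A : ValuationSubring Qb) (p : ℕ) : ℕ := Nat.log p (Ideal.absNorm (centre L A))

variable {L} {A : ValuationSubring Qb} {p : ℕ}

theorem resDeg_spec (hp : p.Prime) (hA : A.LiesOverPrime p) :
    0 < resDeg L A p ∧ Ideal.absNorm (centre L A) = p ^ resDeg L A p ∧
      ∀ k : ℕ, (∀ x : 𝓞 L, x ^ p ^ k - x ∈ centre L A) ↔ resDeg L A p ∣ k := by
  obtain ⟨q, n, hq, hn, hqP, hN, hk⟩ := exists_absNorm_eq_pow (centre L A) (centre_ne_bot L hp hA)
  have hqp : q = p := by
    by_contra hne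
    have hcop : IsCoprime ((q : ℕ) : ℤ) ((p : ℕ) : ℤ) :=
      Nat.isCoprime_iff_coprime.mpr ((Nat.coprime_primes hq hp).mpr hne)
    obtain ⟨a, b, hab⟩ := hcop
    have h1 : ((a * q + b * p : ℤ) : 𝓞 L) ∈ centre L A := by
      push_cast
      exact Ideal.add_mem _ (Ideal.mul_mem_left _ _ hqP)
        (Ideal.mul_mem_left _ _ (H86.natCast_mem_centre L hA))
    rw [hab, Int.cast_one] at h1
    exact (H86.centre_isPrime L A).ne_top ((Ideal.eq_top_iff_one _).mpr h1)
  subst hqp
  have hlog : resDeg L A q = n := by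
    rw [resDeg, hN, Nat.log_pow hq.one_lt]
  rw [hlog]
  exact ⟨hn, hN, hk⟩

theorem absNorm_centre (hp : p.Prime) (hA : A.LiesOverPrime p) :
    Ideal.absNorm (centre L A) = p ^ resDeg L A p := (resDeg_spec hp hA).2.1

theorem resDeg_pos (hp : p.Prime) (hA : A.LiesOverPrime p) : 0 < resDeg L A p :=
  (resDeg_spec hp hA).1

theorem forall_pow_sub_mem_iff (hp : p.Prime) (hA : A.LiesOverPrime p) (k : ℕ) :
    (∀ x : 𝓞 L, x ^ p ^ k - x ∈ centre L A) ↔ resDeg L A p ∣ k := (resDeg_spec hp hA).2.2 k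

end Basic

section Tower

/-- the inclusion of the rings of integers -/
def incl {L₁ L₂ : IntermediateField ℚ Qb} (h : L₁ ≤ L₂) : 𝓞 L₁ →+* 𝓞 L₂ :=
  RingOfIntegers.mapRingHom (IntermediateField.inclusion h)

theorem comap_incl_centre {L₁ L₂ : IntermediateField ℚ Qb} (h : L₁ ≤ L₂)
    (A : ValuationSubring Qb) : (centre L₂ A).comap (incl h) = centre L₁ A := by
  ext x
  rw [Ideal.mem_comap, H86.mem_centre, H86.mem_centre]
  rfl

/-- `p` is unramified in the normal extension `K` -/
def UnrK (K : IntermediateField ℚ Qb) (p : ℕ) : Prop :=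
  ∀ A : ValuationSubring Qb, A.LiesOverPrime p → ∀ τ : K ≃ₐ[ℚ] K,
    (∀ x : 𝓞 K, τ • x - x ∈ centre K A) → τ = 1

theorem exists_unrK (K : IntermediateField ℚ Qb) [NumberField K] [Normal ℚ K] :
    ∃ D : ℕ, 0 < D ∧ ∀ p : ℕ, p.Prime → ¬ p ∣ D → UnrK K p := by
  classical
  haveI : Finite (K ≃ₐ[ℚ] K) := inferInstance
  letI : Fintype (K ≃ₐ[ℚ] K) := Fintype.ofFinite _
  have hx : ∀ τ : K ≃ₐ[ℚ] K, ∃ x : 𝓞 K, τ ≠ 1 → τ • x - x ≠ 0 := by
    intro τ
    by_contra hcon
    push Not at hcon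
    have hτ : τ ≠ 1 := (hcon 0).1
    apply hτ
    ext y
    obtain ⟨a, b, hb, rfl⟩ := IsFractionRing.div_surjective (A := 𝓞 K) y
    have h1 : ∀ x : 𝓞 K, τ (algebraMap (𝓞 K) K x) = algebraMap (𝓞 K) K x := by
      intro x
      have h2 := sub_eq_zero.mp (hcon x).2
      have h3 := congrArg (algebraMap (𝓞 K) K) h2
      exact h3
    rw [map_div₀, h1, h1]
    rfl
  choose x hx using hx
  refine ⟨∏ τ : K ≃ₐ[ℚ] K, if τ = 1 then 1 else Ideal.absNorm (Ideal.span {τ • x τ - x τ}),
    ?_, ?_⟩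
  · apply Finset.prod_pos
    intro τ _
    split_ifs with h
    · exact one_pos
    · refine Nat.pos_of_ne_zero ?_
      rw [Ne, Ideal.absNorm_eq_zero_iff, Ideal.span_singleton_eq_bot]
      exact hx τ h
  · intro p hp hpD A hA τ hτ
    by_contra hne
    apply hpD
    refine dvd_trans ?_ (Finset.dvd_prod_of_mem _ (Finset.mem_univ τ))
    rw [if_neg hne]
    have h1 : Ideal.absNorm (centre K A) ∣ Ideal.absNorm (Ideal.span {τ • x τ - x τ}) :=
      Ideal.absNorm_dvd_absNorm_of_le ((Ideal.span_singleton_le_iff_mem _).mpr (hτ _))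
    refine dvd_trans ?_ h1
    rw [absNorm_centre hp hA]
    exact dvd_pow_self _ (resDeg_pos hp hA).ne'

/-- powers of Frobenius elements -/
theorem frob_pow_sub_mem {p : ℕ} {A : ValuationSubring Qb} {φ : Gq} (hφ : A.IsFrobeniusAt φ p)
    (k : ℕ) (b : Zb) : (φ ^ k) • b - b ^ p ^ k ∈ H54.primeBelow A := by
  obtain ⟨hdec, hfr⟩ := hφ
  have hk : ∀ (k : ℕ) (r : IsLocalRing.ResidueField A),
      ((⟨φ, hdec⟩ : A.decompositionSubgroup ℚ) ^ k) • r = r ^ p ^ k := by
    intro k
    induction k with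
    | zero => intro r; simp
    | succ k ih =>
      intro r
      rw [pow_succ', mul_smul, ih, smul_pow', hfr, ← pow_mul, pow_succ']
  have h := hk k (IsLocalRing.residue A (H54.toPlace A b))
  have h1 : ((⟨φ, hdec⟩ : A.decompositionSubgroup ℚ) ^ k) •
      IsLocalRing.residue A (H54.toPlace A b) =
      IsLocalRing.residue A (H54.toPlace A ((φ ^ k) • b)) := rfl
  rw [h1, ← map_pow, ← map_pow, ← sub_eq_zero, ← map_sub, ← map_sub,
    IsLocalRing.residue_eq_zero_iff] at h
  rw [H54.primeBelow, Ideal.mem_comap]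
  exact h

/-- **Residue degrees and Frobenius elements**. -/
theorem frob_pow_iff {K L : IntermediateField ℚ Qb} [NumberField K] [Normal ℚ K] [NumberField L]
    (hLK : L ≤ K) {p : ℕ} (hp : p.Prime) (hunr : UnrK K p) {A : ValuationSubring Qb}
    (hA : A.LiesOverPrime p) {φ : Gq} (hφ : A.IsFrobeniusAt φ p) (k : ℕ) :
    (∀ x ∈ L, (φ ^ k) x = x) ↔ resDeg L A p ∣ k := by
  constructor
  · intro h
    rw [← forall_pow_sub_mem_iff hp hA]
    intro x
    have h1 := frob_pow_sub_mem hφ k (H86.toZb L x)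
    have h2 : (φ ^ k) • H86.toZb L x = H86.toZb L x := by
      apply Subtype.ext
      exact h _ (x : L).2
    rw [h2, ← map_pow, ← map_sub, ← neg_sub, map_neg, neg_mem_iff] at h1
    exact h1
  · rintro ⟨m, rfl⟩
    letI : Algebra L K := (IntermediateField.inclusion hLK).toRingHom.toAlgebra
    haveI : IsScalarTower ℚ L K := IsScalarTower.of_algebraMap_eq (fun x => by simp)
    haveI : IsGalois ℚ K := ⟨⟩
    haveI : IsGalois L K := IsGalois.tower_top_of_isGalois ℚ L K
    haveI : Finite (𝓞 K ⧸ centre K A) :=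
      Ideal.finiteQuotientOfFreeOfNeBot _ (centre_ne_bot K hp hA)
    obtain ⟨ψ, hψ⟩ := IsArithFrobAt.exists_of_isInvariant (R := 𝓞 L) (G := K ≃ₐ[L] K)
      (centre K A)
    have hcard : Nat.card (𝓞 L ⧸ (centre K A).under (𝓞 L)) = p ^ resDeg L A p := by
      have h1 : (centre K A).under (𝓞 L) = centre L A := comap_incl_centre hLK A
      rw [h1]
      exact absNorm_centre hp hA
    set f := resDeg L A p with hf
    have hψ1 : ∀ x : 𝓞 K, ψ • x - x ^ p ^ f ∈ centre K A := by
      intro x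
      have := hψ x
      rw [hcard] at this
      exact this
    have hψm : ∀ (m : ℕ) (x : 𝓞 K), ψ ^ m • x - x ^ p ^ (f * m) ∈ centre K A := by
      intro m
      induction m with
      | zero => intro x; simp
      | succ m ih =>
        intro x
        have h1 := hψ1 (ψ ^ m • x)
        have h2 : (ψ ^ m • x) ^ p ^ f - (x ^ p ^ (f * m)) ^ p ^ f ∈ centre K A :=
          Ideal.mem_of_dvd _ (sub_dvd_pow_sub_pow _ _ _) (ih x)
        have h3 := Ideal.add_mem _ h1 h2
        rw [sub_add_sub_cancel, ← mul_smul, ← pow_succ', ← pow_mul, ← pow_add] at h3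
        rw [Nat.mul_succ]
        exact h3
    set φK := AlgEquiv.restrictNormalHom (F := ℚ) (K₁ := Qb) K φ with hφK
    have hφk : ∀ (k : ℕ) (x : 𝓞 K), φK ^ k • x - x ^ p ^ k ∈ centre K A := by
      intro k x
      have h1 := frob_pow_sub_mem hφ k (H86.toZb K x)
      rw [← H86.toZb_smul, ← map_pow, ← map_sub, map_pow] at h1
      exact h1
    have hstab : ∀ k : ℕ, φK ^ k • centre K A = centre K A := by
      intro k
      induction k with
      | zero => simp
      | succ k ih => rw [pow_succ', mul_smul, ih, H86.frobenius_smul_centre K hφ]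
    have hone : (φK ^ (f * m))⁻¹ * (ψ.restrictScalars ℚ) ^ m = 1 := by
      apply hunr A hA
      intro x
      have h1 : (ψ.restrictScalars ℚ) ^ m • x = ψ ^ m • x := by
        have e1 : (ψ.restrictScalars ℚ) ^ m = (ψ ^ m).restrictScalars ℚ :=
          (map_pow (AlgEquiv.restrictScalarsHom ℚ) ψ m).symm
        rw [e1]
        rfl
      have h2 : (ψ.restrictScalars ℚ) ^ m • x - φK ^ (f * m) • x ∈ centre K A := by
        rw [h1]
        have := Ideal.sub_mem _ (hψm m x) (hφk (f * m) x)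
        rwa [sub_sub_sub_cancel_right] at this
      have h3 : (φK ^ (f * m))⁻¹ • ((ψ.restrictScalars ℚ) ^ m • x - φK ^ (f * m) • x) ∈
          centre K A := by
        rw [← Ideal.mem_pointwise_smul_iff_inv_smul_mem, hstab]
        exact h2
      rw [smul_sub, inv_smul_smul, ← mul_smul] at h3
      exact h3
    rw [inv_mul_eq_one] at hone
    intro x hx
    have h1 : (((φK ^ (f * m)) ⟨x, hLK hx⟩ : K) : Qb) = (φ ^ (f * m)) x := by
      rw [hφK, ← map_pow]
      exact AlgEquiv.restrictNormal_commutes (φ ^ (f * m)) K ⟨x, hLK hx⟩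
    rw [← h1, hone]
    have e1 : (ψ.restrictScalars ℚ) ^ m = (ψ ^ m).restrictScalars ℚ :=
      (map_pow (AlgEquiv.restrictScalarsHom ℚ) ψ m).symm
    rw [e1]
    have h2 : (ψ ^ m) (algebraMap L K ⟨x, hx⟩) = algebraMap L K ⟨x, hx⟩ :=
      AlgEquiv.commutes (ψ ^ m) _
    exact congrArg (Subtype.val : K → Qb) h2

end Tower

end Fermat.Agent.H30G
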