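/-
S47, package GAL, part G1 (helper3): the fixed fields `fld ρ H` of the preimages of the
subgroups `H` of `GL₂(𝔽₃)` under `ρ : Gal(Q̄/ℚ) → GL₂(𝔽₃)`.
-/
import Mathlib
import Fermat.Agent.H3G0

set_option autoImplicit false
set_option maxSynthPendingDepth 3
set_option linter.style.haveILetI false

namespace Fermat.Agent.H3G

open Matrix Module

local notation "Qb" => AlgebraicClosure ℚ
local notation "GQ" => (AlgebraicClosure ℚ ≃ₐ[ℚ] AlgebraicClosure ℚ)

theorem isGalois_Qb : IsGalois ℚ Qb := by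
  have h1 : Algebra.IsAlgebraic ℚ Qb := AlgebraicClosure.isAlgebraic ℚ
  have h2 : IsAlgClosure ℚ Qb := ⟨inferInstance, inferInstance⟩
  exact IsAlgClosure.isGalois ℚ Qb

variable (ρ : GQ →* GG)

/-- the fixed field of `ρ⁻¹(H)` -/
noncomputable def fld (H : Subgroup GG) : IntermediateField ℚ Qb :=
  IntermediateField.fixedField (H.comap ρ)

variable {ρ}

theorem mem_fld {H : Subgroup GG} {x : Qb} : x ∈ fld ρ H ↔ ∀ σ : GQ, ρ σ ∈ H → σ x = x := by
  unfold fld
  rw [IntermediateField.mem_fixedField_iff]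
  rfl

theorem isOpen_comap (hρ : Continuous ρ) (H : Subgroup GG) : IsOpen ((H.comap ρ : Subgroup GQ) : Set GQ) :=
  (isOpen_discrete (H : Set GG)).preimage hρ

theorem isClosed_comap (hρ : Continuous ρ) (H : Subgroup GG) :
    IsClosed ((H.comap ρ : Subgroup GQ) : Set GQ) :=
  (isClosed_discrete (H : Set GG)).preimage hρ

theorem fixingSubgroup_fld (hρ : Continuous ρ) (H : Subgroup GG) :
    (fld ρ H).fixingSubgroup = H.comap ρ :=
  have : IsGalois ℚ Qb := isGalois_Qb
  InfiniteGalois.fixingSubgroup_fixedField (⟨H.comap ρ, isClosed_comap hρ H⟩ : ClosedSubgroup GQ)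

theorem mem_fixingSubgroup_fld (hρ : Continuous ρ) {H : Subgroup GG} {σ : GQ} :
    σ ∈ (fld ρ H).fixingSubgroup ↔ ρ σ ∈ H := by
  rw [fixingSubgroup_fld hρ]
  rfl

theorem fld_anti {H H' : Subgroup GG} (h : H ≤ H') : fld ρ H' ≤ fld ρ H := by
  intro x hx
  rw [mem_fld] at hx ⊢
  exact fun σ hσ => hx σ (h hσ)

theorem finiteDimensional_fld (hρ : Continuous ρ) (H : Subgroup GG) :
    FiniteDimensional ℚ (fld ρ H) := by
  have : IsGalois ℚ Qb := isGalois_Qb
  rw [← InfiniteGalois.isOpen_iff_finite]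
  show IsOpen ((fld ρ H).fixingSubgroup : Set GQ)
  rw [fixingSubgroup_fld hρ]
  exact isOpen_comap hρ H

theorem numberField_fld (hρ : Continuous ρ) (H : Subgroup GG) : NumberField (fld ρ H) := by
  haveI := finiteDimensional_fld hρ H
  refine @NumberField.mk (fld ρ H) _ inferInstance ?_
  convert this

theorem finrank_fld (hρ : Continuous ρ) (hsurj : Function.Surjective ρ) (H : Subgroup GG) :
    finrank ℚ (fld ρ H) = H.index := by
  have : IsGalois ℚ Qb := isGalois_Qb
  rw [IntermediateField.finrank_eq_fixingSubgroup_index, fixingSubgroup_fld hρ,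
    Subgroup.index_comap_of_surjective _ hsurj]

/-- the translate of `fld ρ H` by `σ` -/
theorem map_mem_fld {H : Subgroup GG} {σ : GQ} (hσ : ∀ h ∈ H, (ρ σ)⁻¹ * h * ρ σ ∈ H) {x : Qb}
    (hx : x ∈ fld ρ H) : σ x ∈ fld ρ H := by
  rw [mem_fld] at hx ⊢
  intro τ hτ
  have h1 := hx (σ⁻¹ * τ * σ) (by
    rw [map_mul, map_mul, map_inv]
    exact hσ _ hτ)
  have h2 : σ ((σ⁻¹ * τ * σ) x) = σ x := congrArg σ h1
  have h3 : σ ((σ⁻¹ * τ * σ) x) = τ (σ x) := by
    have : σ * (σ⁻¹ * τ * σ) = τ * σ := by group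
    exact DFunLike.congr_fun this x
  rw [← h3, h2]

theorem normal_fld (H : Subgroup GG) [hH : H.Normal] : Normal ℚ (fld ρ H) := by
  have key : @Normal ℚ (fld ρ H) _ _ (fld ρ H).algebra' := by
    have : IsGalois ℚ Qb := isGalois_Qb
    rw [IntermediateField.normal_iff_forall_map_le]
    intro φ
    have hφ : Function.Bijective φ := Algebra.IsAlgebraic.algHom_bijective φ
    intro y hy
    obtain ⟨x, hx, rfl⟩ := hy
    let σ : GQ := AlgEquiv.ofBijective φ hφ
    have : σ x ∈ fld ρ H := map_mem_fld (fun h hh => by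
      have := hH.conj_mem h hh (ρ σ)⁻¹
      simpa using this) hx
    exact this
  convert key using 1
  exact Subsingleton.elim _ _

theorem isGalois_fld (H : Subgroup GG) [hH : H.Normal] : IsGalois ℚ (fld ρ H) := by
  haveI := normal_fld (ρ := ρ) H
  exact ⟨⟩

end Fermat.Agent.H3G
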