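/-
S47, package GAL, part G1b (helper3): relative extensions `fld ρ H' ⊆ fld ρ H` for `H ≤ H'`,
their automorphisms, Galois groups and degrees.
-/
import Mathlib
import Fermat.Agent.H3G1
import Fermat.Agent.H3G2

set_option autoImplicit false
set_option maxSynthPendingDepth 3
set_option linter.style.haveILetI false

namespace Fermat.Agent.H3G

open Matrix Module

local notation "Qb" => AlgebraicClosure ℚ
local notation "GQ" => (AlgebraicClosure ℚ ≃ₐ[ℚ] AlgebraicClosure ℚ)

/-! ### Pairs of intermediate fields -/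

section Pair

variable {L L' L'' : IntermediateField ℚ Qb}

/-- the algebra structure given by an inclusion -/
@[reducible] noncomputable def algOf (h : L ≤ L') : Algebra L L' :=
  (IntermediateField.inclusion h).toRingHom.toAlgebra

theorem algOf_apply (h : L ≤ L') (x : L) :
    ((@algebraMap L L' _ _ (algOf h) x : L') : Qb) = (x : Qb) := rfl

theorem tower_Q (h : L ≤ L') : @IsScalarTower ℚ L L' _ (algOf h).toSMul _ := by
  letI := algOf h
  exact IsScalarTower.of_algebraMap_eq (fun x => rfl)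

theorem tower_Qb (h : L ≤ L') : @IsScalarTower L L' Qb (algOf h).toSMul _ _ := by
  letI := algOf h
  exact IsScalarTower.of_algebraMap_eq (fun x => rfl)

theorem tower_three (h : L ≤ L') (h' : L' ≤ L'') :
    @IsScalarTower L L' L'' (algOf h).toSMul (algOf h').toSMul (algOf (h.trans h')).toSMul := by
  letI := algOf h
  letI := algOf h'
  letI := algOf (h.trans h')
  exact IsScalarTower.of_algebraMap_eq (fun x => rfl)

theorem finiteDimensional_pair (h : L ≤ L') [FiniteDimensional ℚ L'] :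
    @Module.Finite L L' _ _ (algOf h).toModule := by
  letI := algOf h
  haveI := tower_Q h
  exact FiniteDimensional.right ℚ L L'

theorem finrank_pair (h : L ≤ L') :
    finrank ℚ L * @finrank L L' _ _ (algOf h).toModule = finrank ℚ L' := by
  letI := algOf h
  haveI := tower_Q h
  exact finrank_mul_finrank ℚ L L'

end Pair

/-! ### The relative extensions `fld ρ H' ⊆ fld ρ H` -/

section Rel

variable {ρ : GQ →* GG} {H H' : Subgroup GG}

theorem finrank_rel (hρ : Continuous ρ) (hsurj : Function.Surjective ρ) (h : H ≤ H') :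
    @finrank (fld ρ H') (fld ρ H) _ _ (algOf (fld_anti h)).toModule = H.relIndex H' := by
  have h1 := finrank_pair (fld_anti (ρ := ρ) h)
  rw [finrank_fld hρ hsurj, finrank_fld hρ hsurj, ← Subgroup.relIndex_mul_index h,
    mul_comm (H.relIndex H')] at h1
  have h2 : H'.index ≠ 0 := by
    have : Finite GG := inferInstance
    exact Subgroup.index_ne_zero_of_finite
  exact Nat.eq_of_mul_eq_mul_left (Nat.pos_of_ne_zero h2) h1

/-- `σ` induces an automorphism of `fld ρ H` over `fld ρ H'` if `ρ σ ∈ H'` and `H` is normal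
in `H'`. -/
noncomputable def autRel (h : H ≤ H') (hn : (H.subgroupOf H').Normal) (σ : GQ) (hσ : ρ σ ∈ H') :
    letI := algOf (fld_anti (ρ := ρ) h)
    fld ρ H ≃ₐ[fld ρ H'] fld ρ H :=
  letI := algOf (fld_anti (ρ := ρ) h)
  have key : ∀ τ : GQ, ρ τ ∈ H' → ∀ x ∈ fld ρ H, τ x ∈ fld ρ H := by
    intro τ hτ x hx
    refine map_mem_fld (fun g hg => ?_) hx
    have := hn.conj_mem ⟨g, h hg⟩ hg ⟨(ρ τ)⁻¹, H'.inv_mem hτ⟩
    simpa [Subgroup.mem_subgroupOf] using this
  have hσ' : ρ σ⁻¹ ∈ H' := by rw [map_inv]; exact H'.inv_mem hσ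
  { toFun := fun x => ⟨σ x, key σ hσ x x.2⟩
    invFun := fun x => ⟨σ⁻¹ x, key σ⁻¹ hσ' x x.2⟩
    left_inv := fun x => Subtype.ext (σ.symm_apply_apply (x : Qb))
    right_inv := fun x => Subtype.ext (σ.apply_symm_apply (x : Qb))
    map_mul' := fun x y => Subtype.ext (map_mul σ (x : Qb) y)
    map_add' := fun x y => Subtype.ext (map_add σ (x : Qb) y)
    commutes' := fun x => Subtype.ext (mem_fld.1 x.2 σ hσ) }

theorem autRel_apply (h : H ≤ H') (hn : (H.subgroupOf H').Normal) (σ : GQ) (hσ : ρ σ ∈ H')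
    (x : fld ρ H) :
    letI := algOf (fld_anti (ρ := ρ) h)
    ((autRel h hn σ hσ x : fld ρ H) : Qb) = σ (x : Qb) := rfl

theorem autRel_eq_iff (hρ : Continuous ρ) (h : H ≤ H') (hn : (H.subgroupOf H').Normal) (σ : GQ)
    (hσ : ρ σ ∈ H') (τ : GQ) (hτ : ρ τ ∈ H') :
    letI := algOf (fld_anti (ρ := ρ) h)
    autRel h hn σ hσ = autRel h hn τ hτ ↔ (ρ σ)⁻¹ * ρ τ ∈ H := by
  letI := algOf (fld_anti (ρ := ρ) h)
  rw [← map_inv, ← map_mul, ← mem_fixingSubgroup_fld hρ, IntermediateField.mem_fixingSubgroup_iff]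
  constructor
  · intro he x hx
    have h1 : σ x = τ x := by
      have := congrArg (fun f : fld ρ H ≃ₐ[fld ρ H'] fld ρ H => ((f ⟨x, hx⟩ : fld ρ H) : Qb)) he
      exact this
    show σ⁻¹ (τ x) = x
    rw [← h1]
    exact σ.symm_apply_apply x
  · intro he
    apply AlgEquiv.ext
    intro x
    apply Subtype.ext
    show σ (x : Qb) = τ (x : Qb)
    have h1 : σ⁻¹ (τ x) = x := he x x.2
    conv_lhs => rw [← h1]
    exact σ.apply_symm_apply _

theorem autRel_eq_one_iff (hρ : Continuous ρ) (h : H ≤ H') (hn : (H.subgroupOf H').Normal) (σ : GQ)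
    (hσ : ρ σ ∈ H') :
    letI := algOf (fld_anti (ρ := ρ) h)
    autRel h hn σ hσ = 1 ↔ ρ σ ∈ H := by
  letI := algOf (fld_anti (ρ := ρ) h)
  have h1 : autRel (ρ := ρ) h hn 1 (by rw [map_one]; exact H'.one_mem) = 1 := rfl
  rw [← h1, autRel_eq_iff hρ, map_one, mul_one, inv_mem_iff]

theorem autRel_mul (h : H ≤ H') (hn : (H.subgroupOf H').Normal) (σ τ : GQ)
    (hσ : ρ σ ∈ H') (hτ : ρ τ ∈ H') (hστ : ρ (σ * τ) ∈ H') :
    letI := algOf (fld_anti (ρ := ρ) h)
    autRel h hn (σ * τ) hστ = autRel h hn σ hσ * autRel h hn τ hτ := rfl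

theorem autRel_pow (h : H ≤ H') (hn : (H.subgroupOf H').Normal) (σ : GQ)
    (hσ : ρ σ ∈ H') (n : ℕ) (hn' : ρ (σ ^ n) ∈ H') :
    letI := algOf (fld_anti (ρ := ρ) h)
    autRel h hn (σ ^ n) hn' = autRel h hn σ hσ ^ n := by
  letI := algOf (fld_anti (ρ := ρ) h)
  induction n with
  | zero => rfl
  | succ n ih =>
    have hp : ρ (σ ^ n) ∈ H' := by rw [map_pow]; exact H'.pow_mem hσ n
    have h1 := ih hp
    apply AlgEquiv.ext
    intro x
    apply Subtype.ext
    have h2 : ((autRel h hn σ hσ ^ (n + 1)) x : fld ρ H) =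
        (autRel h hn σ hσ ^ n) (autRel h hn σ hσ x) := by rw [pow_succ]; rfl
    have h3 : (σ ^ (n + 1)) (x : Qb) = (σ ^ n) (σ x) := by rw [pow_succ]; rfl
    rw [h2, ← h1]
    exact h3

/-- every automorphism of `fld ρ H` over `fld ρ H'` comes from some `σ`. -/
theorem autRel_surjective (hρ : Continuous ρ) (h : H ≤ H') (hn : (H.subgroupOf H').Normal) :
    letI := algOf (fld_anti (ρ := ρ) h)
    ∀ g : fld ρ H ≃ₐ[fld ρ H'] fld ρ H, ∃ (σ : GQ) (hσ : ρ σ ∈ H'), autRel h hn σ hσ = g := by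
  letI := algOf (fld_anti (ρ := ρ) h)
  haveI := tower_Qb (fld_anti (ρ := ρ) h)
  intro g
  haveI : IsGalois ℚ Qb := isGalois_Qb
  haveI hnorm : Normal (fld ρ H') Qb := Normal.tower_top_of_normal ℚ (fld ρ H') Qb
  let τ : Qb ≃ₐ[fld ρ H'] Qb := g.liftNormal Qb
  have hτ : ∀ y : fld ρ H, τ (y : Qb) = ((g y : fld ρ H) : Qb) := fun y =>
    g.liftNormal_commutes Qb y
  have hσ : ρ (τ.restrictScalars ℚ) ∈ H' := by
    rw [← mem_fixingSubgroup_fld hρ, IntermediateField.mem_fixingSubgroup_iff]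
    intro x hx
    exact τ.commutes ⟨x, hx⟩
  refine ⟨τ.restrictScalars ℚ, hσ, ?_⟩
  apply AlgEquiv.ext
  intro y
  apply Subtype.ext
  exact hτ y

theorem isGalois_rel (hρ : Continuous ρ) (h : H ≤ H') (hn : (H.subgroupOf H').Normal) :
    letI := algOf (fld_anti (ρ := ρ) h)
    IsGalois (fld ρ H') (fld ρ H) := by
  letI := algOf (fld_anti (ρ := ρ) h)
  haveI := finiteDimensional_fld hρ H
  haveI := finiteDimensional_pair (fld_anti (ρ := ρ) h)
  apply IsGalois.of_fixedField_eq_bot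
  rw [eq_bot_iff]
  intro x hx
  rw [IntermediateField.mem_bot]
  have hx' : ∀ g : fld ρ H ≃ₐ[fld ρ H'] fld ρ H, g x = x := by
    intro g
    exact (IntermediateField.mem_fixedField_iff _ _).1 hx g (Subgroup.mem_top g)
  have hmem : (x : Qb) ∈ fld ρ H' := by
    rw [mem_fld]
    intro σ hσ
    exact congrArg Subtype.val (hx' (autRel h hn σ hσ))
  exact ⟨⟨x, hmem⟩, rfl⟩

theorem card_rel (hρ : Continuous ρ) (hsurj : Function.Surjective ρ) (h : H ≤ H')
    (hn : (H.subgroupOf H').Normal) :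
    letI := algOf (fld_anti (ρ := ρ) h)
    Nat.card (fld ρ H ≃ₐ[fld ρ H'] fld ρ H) = H.relIndex H' := by
  letI := algOf (fld_anti (ρ := ρ) h)
  haveI := isGalois_rel hρ h hn
  haveI := finiteDimensional_fld hρ H
  haveI := finiteDimensional_pair (fld_anti (ρ := ρ) h)
  rw [IsGalois.card_aut_eq_finrank, finrank_rel hρ hsurj h]

end Rel

end Fermat.Agent.H3G
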