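import Mathlib
import Fermat.Agent.H30G1
import Fermat.Agent.H3G3
import Fermat.Agent.H6TWFrob
import Fermat.Agent.H47TClass

/-!
# S47, block GAL: the Frobenius dictionary for `ρ : Gal(ℚ̄/ℚ) → GL₂(𝔽₃)`

Fields `fld ρ H` (helper3), `M = fld ρ SL`, `E = fld ρ Q8`, `K = fld ρ ⊥`.
* `exists_absNorm_place` : norms of the places of `fld ρ H` over `p`, in terms of a Frobenius at `p`;
* `aval K w` : the eigenvalue at the place `w` of `E` (`2`, `-2`, `0`), defined by norms only;
* `aval_*` : its value in terms of `tr Ψ(ρ(Frob_p))`.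
-/

set_option autoImplicit false
set_option linter.style.haveILetI false
set_option linter.unusedSectionVars false

open scoped Pointwise
open NumberField IsDedekindDomain

noncomputable section

namespace Fermat.Agent.H30G

local notation "Qb" => AlgebraicClosure ℚ
local notation "Zb" => integralClosure ℤ (AlgebraicClosure ℚ)
local notation "Gq" => (AlgebraicClosure ℚ ≃ₐ[ℚ] AlgebraicClosure ℚ)

open H86 (centre)
open H3G (GG fld SL Q8 PM ptr algOf fld_anti)

/-! ### Uniqueness and conjugacy of Frobenius elements -/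

section Conj

/-- Inertia acts trivially on an extension which is unramified. -/
theorem inertia_trivial {K : IntermediateField ℚ Qb} [Normal ℚ K] {p : ℕ} (hunr : UnrK K p)
    {A : ValuationSubring Qb} (hA : A.LiesOverPrime p) {σ : Gq}
    (hσ : σ ∈ A.inertiaSubgroupIn ℚ) : ∀ x ∈ K, σ x = x := by
  rw [H91.mem_inertiaSubgroupIn_iff] at hσ
  have h1 : AlgEquiv.restrictNormalHom K σ = 1 := by
    apply hunr A hA
    intro x
    rw [H86.mem_centre]
    have h2 := hσ.2 ((x : K) : Qb) (H54.integral_mem A (H86.toZb K x))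
    have h3 : ((((AlgEquiv.restrictNormalHom K σ) • x - x : 𝓞 K) : K) : Qb) =
        σ ((x : K) : Qb) - ((x : K) : Qb) := by
      have h4 := congrArg (Subtype.val : Zb → Qb) (H86.toZb_smul K σ x)
      have h5 : ((((AlgEquiv.restrictNormalHom K σ) • x - x : 𝓞 K) : K) : Qb) =
          ((((AlgEquiv.restrictNormalHom K σ) • x : 𝓞 K) : K) : Qb) - ((x : K) : Qb) := by
        push_cast
        rfl
      rw [h5]
      congr 1
    rw [h3]
    exact h2
  intro x hx
  have h2 : (((AlgEquiv.restrictNormalHom K σ) ⟨x, hx⟩ : K) : Qb) = σ x :=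
    AlgEquiv.restrictNormal_commutes σ K ⟨x, hx⟩
  rw [← h2, h1]
  rfl

/-- Two Frobenius elements at the same place agree on an unramified extension. -/
theorem frob_eq_on {K : IntermediateField ℚ Qb} [Normal ℚ K] {p : ℕ} (hunr : UnrK K p)
    {A : ValuationSubring Qb} (hA : A.LiesOverPrime p) {φ φ' : Gq}
    (hφ : A.IsFrobeniusAt φ p) (hφ' : A.IsFrobeniusAt φ' p) : ∀ x ∈ K, (φ⁻¹ * φ') x = x :=
  inertia_trivial hunr hA (H6.frobenius_inv_mul_mem hφ hφ')

end Conj

section Rho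

variable {ρ : Gq →* GG} (hρ : Continuous ρ) {p : ℕ} (hp : p.Prime)

instance normal_bot : (⊥ : Subgroup GG).Normal := inferInstance

include hρ in
theorem rho_inertia (hunr : UnrK (fld ρ ⊥) p) {A : ValuationSubring Qb} (hA : A.LiesOverPrime p)
    {σ : Gq} (hσ : σ ∈ A.inertiaSubgroupIn ℚ) : ρ σ = 1 := by
  haveI : Normal ℚ (fld ρ ⊥) := H3G.normal_fld ⊥
  have h := inertia_trivial hunr hA hσ
  rw [← Subgroup.mem_bot, ← H3G.mem_fixingSubgroup_fld hρ,
    IntermediateField.mem_fixingSubgroup_iff]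
  exact h

include hρ in
theorem rho_frob_eq (hunr : UnrK (fld ρ ⊥) p) {A : ValuationSubring Qb} (hA : A.LiesOverPrime p)
    {φ φ' : Gq} (hφ : A.IsFrobeniusAt φ p) (hφ' : A.IsFrobeniusAt φ' p) : ρ φ' = ρ φ := by
  have h := rho_inertia hρ hunr hA (H6.frobenius_inv_mul_mem hφ hφ')
  rw [map_mul, map_inv, inv_mul_eq_one] at h
  exact h.symm

include hρ hp in
theorem rho_frob_conj (hunr : UnrK (fld ρ ⊥) p) {A A' : ValuationSubring Qb}
    (hA : A.LiesOverPrime p) (hA' : A'.LiesOverPrime p) {φ φ' : Gq}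
    (hφ : A.IsFrobeniusAt φ p) (hφ' : A'.IsFrobeniusAt φ' p) :
    ∃ g : GG, ρ φ' = g * ρ φ * g⁻¹ := by
  obtain ⟨τ, rfl⟩ := H54.exists_smul_eq hp hA hA'
  refine ⟨ρ τ, ?_⟩
  rw [← map_inv, ← map_mul, ← map_mul]
  exact rho_frob_eq hρ hunr hA' (H6.frobenius_conj hφ τ) hφ'

include hρ hp in
/-- the residue degree of `fld ρ H` at a place, in terms of the Frobenius -/
theorem resDeg_dvd_iff (hunr : UnrK (fld ρ ⊥) p) {A : ValuationSubring Qb}
    (hA : A.LiesOverPrime p) {φ : Gq} (hφ : A.IsFrobeniusAt φ p) (H : Subgroup GG)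
    [NumberField (fld ρ H)] (k : ℕ) :
    resDeg (fld ρ H) A p ∣ k ↔ ρ φ ^ k ∈ H := by
  haveI : Normal ℚ (fld ρ ⊥) := H3G.normal_fld ⊥
  haveI : NumberField (fld ρ ⊥) := H3G.numberField_fld hρ ⊥
  rw [← frob_pow_iff (fld_anti (ρ := ρ) (bot_le : ⊥ ≤ H)) hp hunr hA hφ, ← map_pow,
    ← H3G.mem_fixingSubgroup_fld hρ, IntermediateField.mem_fixingSubgroup_iff]

include hρ hp in
/-- **Norms of places** of the normal field `fld ρ H`. -/
theorem exists_absNorm_place (hunr : UnrK (fld ρ ⊥) p) {A : ValuationSubring Qb}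
    (hA : A.LiesOverPrime p) {φ : Gq} (hφ : A.IsFrobeniusAt φ p) (H : Subgroup GG) [H.Normal]
    [NumberField (fld ρ H)] (P : Ideal (𝓞 (fld ρ H))) [P.IsPrime] (hP : ((p : ℕ) : 𝓞 (fld ρ H)) ∈ P) :
    ∃ f : ℕ, 0 < f ∧ Ideal.absNorm P = p ^ f ∧ ∀ k : ℕ, f ∣ k ↔ ρ φ ^ k ∈ H := by
  obtain ⟨A', hA', rfl⟩ := exists_centre_eq (fld ρ H) hp P hP
  obtain ⟨φ', hφ'⟩ := H54.exists_isFrobeniusAt hp hA'
  obtain ⟨g, hg⟩ := rho_frob_conj hρ hp hunr hA hA' hφ hφ'
  refine ⟨resDeg (fld ρ H) A' p, resDeg_pos hp hA', absNorm_centre hp hA', fun k => ?_⟩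
  rw [resDeg_dvd_iff hρ hp hunr hA' hφ', hg, conj_pow]
  constructor
  · intro h
    have := Subgroup.Normal.conj_mem inferInstance _ h g⁻¹
    simpa [mul_assoc] using this
  · intro h
    exact Subgroup.Normal.conj_mem inferInstance _ h g

end Rho

/-! ### The eigenvalue attached to a place of `E` -/

section Aval

open Classical in
/-- The eigenvalue `a_w` attached to a place `w` of `E` by the Galois extension `K/E` with group
`Q8`: `2`, `-2`, `0` if the residue degree of `w` in `K` is `1`, `2`, or else. -/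
def aval {E : Type*} (K : Type*) [Field E] [NumberField E] [Field K] [NumberField K] [Algebra E K]
    (w : HeightOneSpectrum (𝓞 E)) : ℤ :=
  if ∃ P ∈ H82.above K w, Ideal.absNorm P.asIdeal = Ideal.absNorm w.asIdeal then 2
  else if ∃ P ∈ H82.above K w, Ideal.absNorm P.asIdeal = Ideal.absNorm w.asIdeal ^ 2 then -2
  else 0

variable {E : Type*} {K : Type*} [Field E] [NumberField E] [Field K] [NumberField K] [Algebra E K]

theorem one_lt_absNorm (w : HeightOneSpectrum (𝓞 E)) : 1 < Ideal.absNorm w.asIdeal := by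
  have h0 : Ideal.absNorm w.asIdeal ≠ 0 := by
    rw [Ne, Ideal.absNorm_eq_zero_iff]; exact w.ne_bot
  have h1 : Ideal.absNorm w.asIdeal ≠ 1 := by
    rw [Ne, Ideal.absNorm_eq_one_iff]; exact w.isPrime.ne_top
  omega

/-- If all places of `K` above `w` have norm `N w ^ f`, this is the value of `aval`. -/
theorem aval_eq_of_forall {w : HeightOneSpectrum (𝓞 E)} {f : ℕ}
    (h : ∀ P ∈ H82.above K w, Ideal.absNorm P.asIdeal = Ideal.absNorm w.asIdeal ^ f) :
    aval K w = if f = 1 then 2 else if f = 2 then -2 else 0 := by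
  obtain ⟨P₀, hP₀⟩ := H47.above_nonempty (L := K) w
  have hN := one_lt_absNorm w
  have key : ∀ m : ℕ, (∃ P ∈ H82.above K w, Ideal.absNorm P.asIdeal = Ideal.absNorm w.asIdeal ^ m) ↔
      f = m := by
    intro m
    constructor
    · rintro ⟨P, hP, hPm⟩
      rw [h P hP] at hPm
      exact Nat.pow_right_injective hN hPm
    · rintro rfl
      exact ⟨P₀, hP₀, h P₀ hP₀⟩
  have k1 := key 1
  rw [pow_one] at k1
  unfold aval
  simp only [k1, key 2]

end Aval

end Fermat.Agent.H30G
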