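/-
S47, package GAL, part G1c (helper3): the number fields
`ℚ ⊂ M ⊂ E ⊂ B_i ⊂ B' ⊂ K` attached to the representation `ρ`, as fixed fields inside `Q̄`,
with all the algebra / tower / Galois / totally complex instances, `ζ₃ ∈ M`.
-/
import Mathlib
import Fermat.Agent.H3G3
import Fermat.Prelude.Def_GaloisRep_ModThreeCyclotomic

set_option autoImplicit false
set_option maxSynthPendingDepth 3
set_option linter.style.haveILetI false

namespace Fermat.Agent.H3G

open Matrix Module NumberField

local notation "Qb" => AlgebraicClosure ℚ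
local notation "GQ" => (AlgebraicClosure ℚ ≃ₐ[ℚ] AlgebraicClosure ℚ)

/-- the hypotheses of S47 on `ρ` -/
structure RD where
  /-- the representation -/
  ρ : GQ →* GG
  cont : Continuous ρ
  surj : Function.Surjective ρ
  det : ∀ σ : GQ, Matrix.GeneralLinearGroup.det (ρ σ) = WeierstrassCurve.modThreeCyclotomicChar σ

/-- the elements of order `4` of `Q8` -/
structure QI where
  /-- the element -/
  g : GG
  mem : g ∈ Q8
  ne_one : g ≠ 1
  ne_neg_one : g ≠ -1

noncomputable instance : Inhabited QI := ⟨⟨qi, qi_mem, qi_ne_one, qi_ne_neg_one⟩⟩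

/-! ### the primitive cube root of unity -/

theorem exists_z3 : ∃ ζ : Qb, IsPrimitiveRoot ζ 3 :=
  HasEnoughRootsOfUnity.exists_primitiveRoot Qb 3

/-- a primitive cube root of unity in `Q̄` -/
noncomputable def z3 : Qb := exists_z3.choose

theorem z3_spec : IsPrimitiveRoot z3 3 := exists_z3.choose_spec

theorem apply_z3 (σ : GQ) :
    σ z3 = z3 ^ ((WeierstrassCurve.modThreeCyclotomicChar σ : (ZMod 3)ˣ) : ZMod 3).val := by
  have hz := z3_spec
  let t : Qbˣ := hz.toRootsOfUnity
  have ht : (t : Qbˣ) ∈ rootsOfUnity 3 Qb := hz.toRootsOfUnity.2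
  have h := modularCyclotomicCharacter.spec Qb
    (IsAlgClosed.card_rootsOfUnity_eq (AlgebraicClosure ℚ) 3) (σ : Qb ≃+* Qb) ht
  have h1 : ((t : Qbˣ) : Qb) = z3 := IsPrimitiveRoot.val_toRootsOfUnity_coe hz
  rw [h1] at h
  exact h

namespace RD

variable (D : RD)

instance numberField (H : Subgroup GG) : NumberField (fld D.ρ H) := numberField_fld D.cont H

instance galois (H : Subgroup GG) [H.Normal] : IsGalois ℚ (fld D.ρ H) := isGalois_fld H

theorem finrank_Q (H : Subgroup GG) : finrank ℚ (fld D.ρ H) = H.index :=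
  finrank_fld D.cont D.surj H

theorem z3_mem : z3 ∈ fld D.ρ SL := by
  rw [mem_fld]
  intro σ hσ
  rw [mem_SL, D.det] at hσ
  rw [apply_z3, hσ, Units.val_one, ZMod.val_one, pow_one]

/-- the quadratic field `ℚ(ζ₃)` -/
abbrev M := ↥(fld D.ρ SL)

/-- the `S₃`-field -/
abbrev E := ↥(fld D.ρ Q8)

/-- the quadratic extensions `B_i` of `E` -/
abbrev B (i : QI) := ↥(fld D.ρ (C4 i.g))

/-- the biquadratic extension of `E` (the `S₄`-field) -/
abbrev B' := ↥(fld D.ρ PM)

/-- the field cut out by `ρ` -/
abbrev K := ↥(fld D.ρ ⊥)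

/-- the cube root of unity in `M` -/
noncomputable def ζ : D.M := ⟨z3, D.z3_mem⟩

theorem ζ_spec : IsPrimitiveRoot D.ζ 3 :=
  IsPrimitiveRoot.of_map_of_injective (f := algebraMap D.M Qb) (by exact z3_spec)
    (algebraMap D.M Qb).injective

theorem isTotallyComplex_of_le {H : Subgroup GG} (h : H ≤ SL) :
    IsTotallyComplex (fld D.ρ H) := by
  have hz : IsPrimitiveRoot (⟨z3, fld_anti h D.z3_mem⟩ : fld D.ρ H) 3 :=
    IsPrimitiveRoot.of_map_of_injective (f := algebraMap (fld D.ρ H) Qb) (by exact z3_spec)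
      (algebraMap (fld D.ρ H) Qb).injective
  constructor
  intro v
  rw [← InfinitePlace.not_isReal_iff_isComplex]
  intro hv
  have hre := InfinitePlace.isReal_iff.1 hv
  let φ : fld D.ρ H →+* ℝ := ComplexEmbedding.IsReal.embedding hre
  have hφ : IsPrimitiveRoot (φ ⟨z3, fld_anti h D.z3_mem⟩) 3 :=
    hz.map_of_injective φ.injective
  set x := φ ⟨z3, fld_anti h D.z3_mem⟩
  have h3 : x ^ 3 = 1 := hφ.pow_eq_one
  have h1 : x ≠ 1 := hφ.ne_one (by norm_num)
  have h4 : (x - 1) * (x ^ 2 + x + 1) = 0 := by linear_combination h3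
  rcases mul_eq_zero.1 h4 with h5 | h5
  · exact h1 (by linarith)
  · nlinarith [sq_nonneg (x + 1 / 2)]

/-! ### instances for the tower -/

variable (i : QI)

theorem C4_le_Q8 : C4 i.g ≤ Q8 := C4_le i.mem

theorem C4_le_SL : C4 i.g ≤ SL := (C4_le i.mem).trans Q8_le_SL

theorem PM_le_C4' : PM ≤ C4 i.g := PM_le_C4 i.mem i.ne_one i.ne_neg_one

instance instTCM : IsTotallyComplex D.M := D.isTotallyComplex_of_le le_rfl
instance instTCE : IsTotallyComplex D.E := D.isTotallyComplex_of_le Q8_le_SL
instance instTCB : IsTotallyComplex (D.B i) := D.isTotallyComplex_of_le (C4_le_SL i)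
instance instTCB' : IsTotallyComplex D.B' := D.isTotallyComplex_of_le (PM_le_Q8.trans Q8_le_SL)
instance instTCK : IsTotallyComplex D.K := D.isTotallyComplex_of_le bot_le

noncomputable instance algME : Algebra D.M D.E := algOf (fld_anti Q8_le_SL)
noncomputable instance algMB : Algebra D.M (D.B i) := algOf (fld_anti (C4_le_SL i))
noncomputable instance algMB' : Algebra D.M D.B' := algOf (fld_anti (PM_le_Q8.trans Q8_le_SL))
noncomputable instance algMK : Algebra D.M D.K := algOf (fld_anti bot_le)
noncomputable instance algEB : Algebra D.E (D.B i) := algOf (fld_anti (C4_le_Q8 i))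
noncomputable instance algEB' : Algebra D.E D.B' := algOf (fld_anti PM_le_Q8)
noncomputable instance algEK : Algebra D.E D.K := algOf (fld_anti bot_le)
noncomputable instance algBB' : Algebra (D.B i) D.B' := algOf (fld_anti (PM_le_C4' i))
noncomputable instance algBK : Algebra (D.B i) D.K := algOf (fld_anti bot_le)
noncomputable instance algB'K : Algebra D.B' D.K := algOf (fld_anti bot_le)

instance towQME : IsScalarTower ℚ D.M D.E := tower_Q _
instance towQMB : IsScalarTower ℚ D.M (D.B i) := tower_Q _
instance towQMB' : IsScalarTower ℚ D.M D.B' := tower_Q _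
instance towQMK : IsScalarTower ℚ D.M D.K := tower_Q _
instance towQEB : IsScalarTower ℚ D.E (D.B i) := tower_Q _
instance towQEB' : IsScalarTower ℚ D.E D.B' := tower_Q _
instance towQEK : IsScalarTower ℚ D.E D.K := tower_Q _
instance towQBB' : IsScalarTower ℚ (D.B i) D.B' := tower_Q _
instance towQBK : IsScalarTower ℚ (D.B i) D.K := tower_Q _
instance towQB'K : IsScalarTower ℚ D.B' D.K := tower_Q _

instance towMEQb : IsScalarTower D.M D.E Qb := tower_Qb _
instance towMBQb : IsScalarTower D.M (D.B i) Qb := tower_Qb _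
instance towMB'Qb : IsScalarTower D.M D.B' Qb := tower_Qb _
instance towMKQb : IsScalarTower D.M D.K Qb := tower_Qb _
instance towEBQb : IsScalarTower D.E (D.B i) Qb := tower_Qb _
instance towEB'Qb : IsScalarTower D.E D.B' Qb := tower_Qb _
instance towEKQb : IsScalarTower D.E D.K Qb := tower_Qb _
instance towBB'Qb : IsScalarTower (D.B i) D.B' Qb := tower_Qb _
instance towBKQb : IsScalarTower (D.B i) D.K Qb := tower_Qb _
instance towB'KQb : IsScalarTower D.B' D.K Qb := tower_Qb _

instance towMEB : IsScalarTower D.M D.E (D.B i) := tower_three _ _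
instance towMEB' : IsScalarTower D.M D.E D.B' := tower_three _ _
instance towMEK : IsScalarTower D.M D.E D.K := tower_three _ _
instance towMBB' : IsScalarTower D.M (D.B i) D.B' := tower_three _ _
instance towMBK : IsScalarTower D.M (D.B i) D.K := tower_three _ _
instance towMB'K : IsScalarTower D.M D.B' D.K := tower_three _ _
instance towEBB' : IsScalarTower D.E (D.B i) D.B' := tower_three _ _
instance towEBK : IsScalarTower D.E (D.B i) D.K := tower_three _ _
instance towEB'K : IsScalarTower D.E D.B' D.K := tower_three _ _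
instance towBB'K : IsScalarTower (D.B i) D.B' D.K := tower_three _ _

/-! ### Galois instances -/

theorem normal_of_index_two {H H' : Subgroup GG} (h : H.relIndex H' = 2) :
    (H.subgroupOf H').Normal := Subgroup.normal_of_index_eq_two h

theorem normal_subgroupOf {H : Subgroup GG} [H.Normal] (H' : Subgroup GG) :
    (H.subgroupOf H').Normal := inferInstance

instance galME : IsGalois D.M D.E := isGalois_rel D.cont Q8_le_SL (normal_subgroupOf _)
instance galMB' : IsGalois D.M D.B' :=
  isGalois_rel D.cont (PM_le_Q8.trans Q8_le_SL) (normal_subgroupOf _)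
instance galMK : IsGalois D.M D.K := isGalois_rel D.cont bot_le (normal_subgroupOf _)
instance galEB : IsGalois D.E (D.B i) := isGalois_rel D.cont (C4_le_Q8 i)
  (normal_of_index_two (relIndex_C4_Q8 i.mem i.ne_one i.ne_neg_one))
instance galEB' : IsGalois D.E D.B' := isGalois_rel D.cont PM_le_Q8 (normal_subgroupOf _)
instance galEK : IsGalois D.E D.K := isGalois_rel D.cont bot_le (normal_subgroupOf _)
instance galBB' : IsGalois (D.B i) D.B' := isGalois_rel D.cont (PM_le_C4' i) (normal_subgroupOf _)
instance galBK : IsGalois (D.B i) D.K := isGalois_rel D.cont bot_le (normal_subgroupOf _)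
instance galB'K : IsGalois D.B' D.K := isGalois_rel D.cont bot_le (normal_subgroupOf _)

/-! ### degrees -/

theorem finrank_M : finrank ℚ D.M = 2 := by rw [D.finrank_Q, index_SL]
theorem finrank_E : finrank ℚ D.E = 6 := by rw [D.finrank_Q, index_Q8]
theorem finrank_B' : finrank ℚ D.B' = 24 := by rw [D.finrank_Q, index_PM]
theorem finrank_K : finrank ℚ D.K = 48 := by rw [D.finrank_Q, index_bot']

theorem finrank_ME : finrank D.M D.E = 3 := by
  rw [← relIndex_Q8_SL]; exact finrank_rel D.cont D.surj Q8_le_SL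

theorem finrank_EB : finrank D.E (D.B i) = 2 := by
  rw [← relIndex_C4_Q8 i.mem i.ne_one i.ne_neg_one]
  exact finrank_rel D.cont D.surj (C4_le_Q8 i)

theorem finrank_EB' : finrank D.E D.B' = 4 := by
  rw [← relIndex_PM_Q8]; exact finrank_rel D.cont D.surj PM_le_Q8

theorem finrank_BB' : finrank (D.B i) D.B' = 2 := by
  rw [← relIndex_PM_C4 i.mem i.ne_one i.ne_neg_one]
  exact finrank_rel D.cont D.surj (PM_le_C4' i)

theorem finrank_B'K : finrank D.B' D.K = 2 := by
  refine Eq.trans ?_ card_PM
  rw [show Nat.card PM = (⊥ : Subgroup GG).relIndex PM by rw [Subgroup.relIndex_bot_left]]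
  exact finrank_rel D.cont D.surj bot_le

theorem finrank_BK : finrank (D.B i) D.K = 4 := by
  refine Eq.trans ?_ (card_C4 i.mem i.ne_one i.ne_neg_one)
  rw [show Nat.card (C4 i.g) = (⊥ : Subgroup GG).relIndex (C4 i.g) by
    rw [Subgroup.relIndex_bot_left]]
  exact finrank_rel D.cont D.surj bot_le

theorem finrank_EK : finrank D.E D.K = 8 := by
  refine Eq.trans ?_ card_Q8
  rw [show Nat.card Q8 = (⊥ : Subgroup GG).relIndex Q8 by rw [Subgroup.relIndex_bot_left]]
  exact finrank_rel D.cont D.surj bot_le

theorem finrank_B : finrank ℚ (D.B i) = 12 := by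
  have h := finrank_mul_finrank ℚ D.E (D.B i)
  rw [D.finrank_E, D.finrank_EB] at h
  exact h.symm

end RD

end Fermat.Agent.H3G
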