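/-
S47, package GAL, part G1d (helper3): the generator `s` of `Gal(E/M)`, the complex embeddings of
`E` and `M`, `M = ℚ(ζ₃)` is cyclotomic.
-/
import Mathlib
import Fermat.Agent.H3G4

set_option autoImplicit false
set_option maxSynthPendingDepth 3
set_option linter.style.haveILetI false

namespace Fermat.Agent.H3G

open Matrix Module NumberField

local notation "Qb" => AlgebraicClosure ℚ
local notation "GQ" => (AlgebraicClosure ℚ ≃ₐ[ℚ] AlgebraicClosure ℚ)

namespace RD

variable (D : RD)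

/-! ### the generator of `Gal(E/M)` -/

/-- an automorphism of `Q̄` with image `(1 1; 0 1)` -/
noncomputable def sig : GQ := (D.surj ut).choose

theorem ρ_sig : D.ρ D.sig = ut := (D.surj ut).choose_spec

theorem ρ_sig_mem : D.ρ D.sig ∈ SL := by rw [D.ρ_sig]; exact ut_mem

/-- the generator of `Gal(E/M)` -/
noncomputable def s : D.E ≃ₐ[D.M] D.E :=
  autRel Q8_le_SL (normal_subgroupOf SL) D.sig D.ρ_sig_mem

theorem s_apply (x : D.E) : ((D.s x : D.E) : Qb) = D.sig (x : Qb) := rfl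

theorem s_ne_one : D.s ≠ 1 := by
  intro h
  have h1 := (autRel_eq_one_iff D.cont Q8_le_SL (normal_subgroupOf SL) D.sig D.ρ_sig_mem).1 h
  rw [D.ρ_sig] at h1
  exact ut_not_mem h1

theorem s_pow_three : D.s ^ 3 = 1 := by
  have h0 : D.ρ (D.sig ^ 3) = 1 := by rw [map_pow, D.ρ_sig, ut_pow]
  have h1 : D.ρ (D.sig ^ 3) ∈ SL := by rw [h0]; exact SL.one_mem
  have h2 := autRel_pow (ρ := D.ρ) Q8_le_SL (normal_subgroupOf SL) D.sig D.ρ_sig_mem 3 h1
  have h3 := (autRel_eq_one_iff D.cont Q8_le_SL (normal_subgroupOf SL) (D.sig ^ 3) h1).2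
    (by rw [h0]; exact Q8.one_mem)
  rw [h2] at h3
  exact h3

theorem orderOf_s : orderOf D.s = 3 := by
  haveI : Fact (Nat.Prime 3) := ⟨Nat.prime_three⟩
  exact orderOf_eq_prime D.s_pow_three D.s_ne_one

theorem card_ME : Nat.card (D.E ≃ₐ[D.M] D.E) = 3 := by
  rw [IsGalois.card_aut_eq_finrank, D.finrank_ME]

theorem zpowers_s : Subgroup.zpowers D.s = ⊤ := by
  haveI : Fact (Nat.Prime 3) := ⟨Nat.prime_three⟩
  exact zpowers_eq_top_of_prime_card D.card_ME D.s_ne_one

theorem eq_s_pow (g : D.E ≃ₐ[D.M] D.E) : ∃ k < 3, g = D.s ^ k := by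
  classical
  have h : g ∈ Subgroup.zpowers D.s := by rw [D.zpowers_s]; trivial
  haveI : Finite (D.E ≃ₐ[D.M] D.E) := Nat.finite_of_card_ne_zero (by rw [D.card_ME]; norm_num)
  rw [← mem_powers_iff_mem_zpowers, mem_powers_iff_mem_range_orderOf, D.orderOf_s] at h
  obtain ⟨k, hk, rfl⟩ := Finset.mem_image.1 h
  exact ⟨k, Finset.mem_range.1 hk, rfl⟩

/-- an element of `E` fixed by `s` is in `M` -/
theorem mem_range_of_s_fixed {x : D.E} (hx : D.s x = x) : ∃ y : D.M, algebraMap D.M D.E y = x := by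
  have h : x ∈ (⊥ : IntermediateField D.M D.E) := by
    rw [← IsGalois.fixedField_top (F := D.M) (E := D.E), IntermediateField.mem_fixedField_iff]
    intro g _
    obtain ⟨k, -, rfl⟩ := D.eq_s_pow g
    clear * - hx
    induction k with
    | zero => rfl
    | succ k ih =>
      rw [pow_succ]
      show (D.s ^ k) (D.s x) = x
      rw [hx, ih]
  exact IntermediateField.mem_bot.1 h

/-! ### complex embeddings -/

/-- an embedding of `Q̄` in `ℂ` -/
noncomputable def ιC : Qb →+* ℂ :=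
  haveI : Algebra.IsAlgebraic ℚ Qb := AlgebraicClosure.isAlgebraic ℚ
  (IsAlgClosed.lift (R := ℚ) (S := Qb) (M := ℂ) : Qb →ₐ[ℚ] ℂ)

/-- the embedding of `M` in `ℂ` -/
noncomputable def eM : D.M →+* ℂ := ιC.comp (algebraMap D.M Qb)

/-- the basic embedding of `E` in `ℂ` -/
noncomputable def e0 : D.E →+* ℂ := ιC.comp (algebraMap D.E Qb)

theorem e0_algebraMap (x : D.M) : D.e0 (algebraMap D.M D.E x) = D.eM x := rfl

/-- the three embeddings of `E`: `e_{j+1} ∘ s = e_j` -/
noncomputable def eE (j : Fin 3) : D.E →+* ℂ :=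
  D.e0.comp (((D.s⁻¹ ^ (j : ℕ) : D.E ≃ₐ[D.M] D.E) : D.E →ₐ[D.M] D.E) : D.E →+* D.E)

theorem eE_apply (j : Fin 3) (x : D.E) : D.eE j x = D.e0 ((D.s⁻¹ ^ (j : ℕ) : D.E ≃ₐ[D.M] D.E) x) :=
  rfl

theorem eE_zero : D.eE 0 = D.e0 := rfl

theorem s_inv_pow_three : D.s⁻¹ ^ 3 = 1 := by rw [inv_pow, D.s_pow_three, inv_one]

theorem s_inv_pow_mod (n : ℕ) : D.s⁻¹ ^ (n % 3) = D.s⁻¹ ^ n := by
  conv_rhs => rw [← Nat.mod_add_div n 3, pow_add, pow_mul, D.s_inv_pow_three, one_pow, mul_one]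

theorem eE_succ_s (j : Fin 3) (x : D.E) : D.eE (j + 1) (D.s x) = D.eE j x := by
  rw [eE_apply, eE_apply]
  congr 1
  have h1 : D.s⁻¹ ^ ((j + 1 : Fin 3) : ℕ) = D.s⁻¹ ^ (j : ℕ) * D.s⁻¹ := by
    rw [Fin.val_add, s_inv_pow_mod, ← pow_succ]
    rfl
  rw [h1]
  show (D.s⁻¹ ^ (j : ℕ)) (D.s⁻¹ (D.s x)) = _
  congr 1
  exact D.s.symm_apply_apply x

theorem eE_algebraMap (j : Fin 3) (x : D.M) : D.eE j (algebraMap D.M D.E x) = D.eM x := by
  rw [eE_apply, AlgEquiv.commutes, e0_algebraMap]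

theorem eM_not_isReal : ¬ ComplexEmbedding.IsReal D.eM :=
  IsTotallyComplex.complexEmbedding_not_isReal _

theorem eE_not_isReal (j : Fin 3) : ¬ ComplexEmbedding.IsReal (D.eE j) :=
  IsTotallyComplex.complexEmbedding_not_isReal _

theorem eE_mk_injective : Function.Injective fun j => InfinitePlace.mk (D.eE j) := by
  intro i j h
  have h' : InfinitePlace.mk (D.eE i) = InfinitePlace.mk (D.eE j) := h
  rw [InfinitePlace.mk_eq_iff] at h'
  rcases h' with h' | h'
  · have h1 : D.s⁻¹ ^ (i : ℕ) = D.s⁻¹ ^ (j : ℕ) := by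
      apply AlgEquiv.ext
      intro x
      apply D.e0.injective
      exact RingHom.congr_fun h' x
    have h2 : orderOf D.s⁻¹ = 3 := by rw [orderOf_inv, D.orderOf_s]
    have h3 := pow_injOn_Iio_orderOf (x := D.s⁻¹) (by rw [h2]; exact i.2) (by rw [h2]; exact j.2) h1
    exact Fin.ext h3
  · exfalso
    apply D.eM_not_isReal
    rw [ComplexEmbedding.isReal_iff]
    apply RingHom.ext
    intro x
    have h1 := RingHom.congr_fun h' (algebraMap D.M D.E x)
    rw [ComplexEmbedding.conjugate_coe_eq, eE_algebraMap, eE_algebraMap] at h1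
    rw [ComplexEmbedding.conjugate_coe_eq]
    exact h1

theorem card_infinitePlace {H : Subgroup GG} (h : H ≤ SL) :
    2 * Fintype.card (InfinitePlace (fld D.ρ H)) = H.index := by
  haveI := D.isTotallyComplex_of_le h
  rw [InfinitePlace.card_eq_nrRealPlaces_add_nrComplexPlaces,
    IsTotallyComplex.nrRealPlaces_eq_zero, zero_add, ← IsTotallyComplex.finrank, D.finrank_Q]

theorem eE_mk_bijective : Function.Bijective fun j => InfinitePlace.mk (D.eE j) := by
  rw [Fintype.bijective_iff_injective_and_card]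
  refine ⟨D.eE_mk_injective, ?_⟩
  have h : 2 * Fintype.card (InfinitePlace D.E) = Q8.index := D.card_infinitePlace Q8_le_SL
  rw [index_Q8] at h
  rw [Fintype.card_fin]
  omega

theorem eM_mk_bijective (J : Type*) [Unique J] :
    Function.Bijective fun _ : J => InfinitePlace.mk D.eM := by
  haveI : Fintype J := Unique.fintype
  rw [Fintype.bijective_iff_injective_and_card]
  refine ⟨fun i j _ => Subsingleton.elim i j, ?_⟩
  have h : 2 * Fintype.card (InfinitePlace D.M) = SL.index := D.card_infinitePlace le_rfl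
  rw [index_SL] at h
  rw [Fintype.card_unique]
  omega

/-! ### `M = ℚ(ζ₃)` -/

theorem adjoin_ζ : IntermediateField.adjoin ℚ {D.ζ} = ⊤ := by
  rw [Field.primitive_element_iff_minpoly_natDegree_eq, D.finrank_M,
    ← Polynomial.cyclotomic_eq_minpoly_rat D.ζ_spec (by norm_num), Polynomial.natDegree_cyclotomic]
  decide

instance cyclotomic : IsCyclotomicExtension {3} ℚ D.M := by
  have h1 : Algebra.adjoin ℚ {D.ζ} = ⊤ := by
    rw [← IntermediateField.adjoin_simple_toSubalgebra_of_isAlgebraic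
      (Algebra.IsAlgebraic.isAlgebraic (R := ℚ) D.ζ), D.adjoin_ζ]
    rfl
  rw [IsCyclotomicExtension.iff_adjoin_eq_top]
  refine ⟨fun n hn _ => ?_, ?_⟩
  · obtain rfl : n = 3 := hn
    exact ⟨D.ζ, D.ζ_spec⟩
  · rw [eq_top_iff, ← h1]
    apply Algebra.adjoin_mono
    rintro _ rfl
    exact ⟨3, rfl, by norm_num, D.ζ_spec.pow_eq_one⟩

theorem pid_M : IsPrincipalIdealRing (𝓞 D.M) := IsCyclotomicExtension.Rat.three_pid D.M

end RD

end Fermat.Agent.H3G
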