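import Fermat.Agent.H96TDef
import Fermat.Agent.H3G1
import Fermat.Prelude.Def_LanglandsTunnell_WeightOneRealizationCarriers

/-!
# S47: the meeting point of the two halves of the assembly (helper46 / helper15)

`CArith ρ N c`: the arithmetic information about the values `c` of the output `ICT N c F` of the
cubic descent; `CTOut ρ`: the output of the left half (blocks GAL, D, C), the input of the right
half (blocks N, T, Z).
-/

set_option autoImplicit false

open scoped MatrixGroups

namespace Fermat.Agent.H46Z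

open Fermat.Agent.S47T Fermat.Agent.H3G

local notation "Γℚ" => (AlgebraicClosure ℚ ≃ₐ[ℚ] AlgebraicClosure ℚ)

/-- The trace of the lift of `g` to characteristic zero, for `g` in `Q8`. -/
noncomputable def val8 (g : GG) : ℝ :=
  haveI := Classical.propDecidable
  if g = 1 then 2 else if g = -1 then -2 else 0

/-- What is known about the values `c` at the primes of `ℤ[ω]` not dividing `N` which split
completely in `E`. -/
structure CArith (ρ : Γℚ →* GL (Fin 2) (ZMod 3)) (N : ℕ) (c : Eis → ℝ) : Prop where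
  /-- `3` is a bad prime -/
  three : 3 ∣ N
  /-- `p` split completely in `E` -/
  split : ∀ p : ℕ, p.Prime → ¬ p ∣ 3 * N →
    ∀ A : ValuationSubring (AlgebraicClosure ℚ), A.LiesOverPrime p →
      ∀ σ : Γℚ, A.IsFrobeniusAt σ p → ρ σ ∈ Q8 →
        ∀ ϖ : Eis, Complex.normSq (ϖ : ℂ) = p → c ϖ = val8 (ρ σ)
  /-- `p` inert in `ℚ(ω)` -/
  inert : ∀ p : ℕ, p.Prime → ¬ p ∣ 3 * N →
    ∀ A : ValuationSubring (AlgebraicClosure ℚ), A.LiesOverPrime p →
      ∀ σ : Γℚ, A.IsFrobeniusAt σ p → ρ σ ∉ SL → c (p : Eis) = val8 (ρ σ ^ 2)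

/-- The output of the left half of the assembly. -/
def CTOut (ρ : Γℚ →* GL (Fin 2) (ZMod 3)) : Prop :=
  ∃ (N : ℕ) (c : Eis → ℝ) (F : H3 → ℂ), ICT N c F ∧ CArith ρ N c

end Fermat.Agent.H46Z
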