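import Fermat.Agent.H89D1

/-!
# Places in a quaternion tower

`E ⊂ B ⊂ C ⊂ K`, `K/E` Galois with group `Q8`, `C` the fixed field of the centre, `B/E` quadratic.
-/

set_option autoImplicit false
set_option linter.unusedSectionVars false

noncomputable section

namespace Fermat.Agent.H89D

open IsDedekindDomain NumberField
open scoped Pointwise

section general

variable {E M L : Type*} [Field E] [NumberField E] [Field M] [NumberField M] [Field L]
  [NumberField L] [Algebra E M] [Algebra M L] [Algebra E L] [IsScalarTower E M L]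

theorem dec_below_eq_map [IsGalois E L] [Normal E M] (Q : HeightOneSpectrum (𝓞 L)) :
    dec E (H47.below M Q) = (dec E Q).map (AlgEquiv.restrictNormalHom M) := by
  ext σ'
  rw [mem_dec_below_iff, Subgroup.mem_map]
  rfl

/-- An automorphism of `L/E` fixing `M` as an automorphism of `L/M`. -/
def liftFix (σ : L ≃ₐ[E] L) (h : ∀ x : M, σ (algebraMap M L x) = algebraMap M L x) :
    L ≃ₐ[M] L :=
  AlgEquiv.ofRingEquiv (f := σ.toRingEquiv) h

theorem liftFix_restrictScalars (σ : L ≃ₐ[E] L)
    (h : ∀ x : M, σ (algebraMap M L x) = algebraMap M L x) :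
    (liftFix σ h).restrictScalars E = σ := by
  ext x
  rfl

theorem restrictNormal_eq_one_iff [Normal E M] (σ : L ≃ₐ[E] L) :
    AlgEquiv.restrictNormal σ M = 1 ↔ ∀ x : M, σ (algebraMap M L x) = algebraMap M L x := by
  constructor
  · intro h x
    rw [← AlgEquiv.restrictNormal_commutes, h]
    rfl
  · intro h
    ext x
    apply (algebraMap M L).injective
    rw [AlgEquiv.restrictNormal_commutes, h]
    rfl

/-- In a quadratic extension every automorphism is `1` or a given nontrivial one. -/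
theorem eq_one_or_eq [IsGalois M L] (h2 : Module.finrank M L = 2) {τ : L ≃ₐ[M] L} (hτ : τ ≠ 1)
    (σ : L ≃ₐ[M] L) : σ = 1 ∨ σ = τ := by
  have : FiniteDimensional M L := Module.Finite.of_restrictScalars_finite ℚ M L
  have hc := IsGalois.card_aut_eq_finrank M L
  rw [h2] at hc
  obtain ⟨a, b, hab, huniv⟩ := Nat.card_eq_two_iff.1 hc
  have h1 : ∀ ρ : L ≃ₐ[M] L, ρ = a ∨ ρ = b := fun ρ => by
    have : ρ ∈ ({a, b} : Set _) := huniv ▸ Set.mem_univ ρ
    simpa using this
  rcases h1 1 with h | h <;> rcases h1 τ with h' | h' <;> rcases h1 σ with h'' | h''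
  · exact Or.inl (h''.trans h.symm)
  · exact absurd (h'.trans h.symm) hτ
  · exact Or.inl (h''.trans h.symm)
  · exact Or.inr (h''.trans h'.symm)
  · exact Or.inr (h''.trans h'.symm)
  · exact Or.inl (h''.trans h.symm)
  · exact absurd (h'.trans h.symm) hτ
  · exact Or.inl (h''.trans h.symm)

end general

section tower

variable (E B C K : Type*) [Field E] [NumberField E] [Field B] [NumberField B] [Field C]
  [NumberField C] [Field K] [NumberField K] [Algebra E B] [Algebra E C] [Algebra E K]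
  [Algebra B C] [Algebra B K] [Algebra C K] [IsScalarTower E B C] [IsScalarTower E B K]
  [IsScalarTower E C K] [IsScalarTower B C K]

/-- `E ⊂ B ⊂ C ⊂ K`: `K/E` is Galois of group `Q8`, `C` is the fixed field of the centre and
`B/E` is one of the three quadratic subextensions. -/
structure IsQ8Tower : Prop where
  isGalois_EK : IsGalois E K
  isGalois_EC : IsGalois E C
  finrank_EB : Module.finrank E B = 2
  finrank_BC : Module.finrank B C = 2
  finrank_CK : Module.finrank C K = 2
  sq_eq_one : ∀ σ : C ≃ₐ[E] C, σ * σ = 1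
  fix_of_sq : ∀ σ : K ≃ₐ[E] K, σ * σ = 1 → ∀ x : C, σ (algebraMap C K x) = algebraMap C K x

variable {E B C K}

namespace IsQ8Tower

variable (H : IsQ8Tower E B C K)

include H

theorem isGalois_EB : IsGalois E B := by
  have : Algebra.IsQuadraticExtension E B := ⟨H.finrank_EB⟩
  infer_instance

theorem isGalois_BC : IsGalois B C := by
  have : Algebra.IsQuadraticExtension B C := ⟨H.finrank_BC⟩
  infer_instance

theorem isGalois_CK : IsGalois C K := by
  have : Algebra.IsQuadraticExtension C K := ⟨H.finrank_CK⟩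
  infer_instance

theorem isGalois_BK : IsGalois B K := by
  have := H.isGalois_EK
  exact IsGalois.tower_top_of_isGalois E B K

theorem finrank_EC : Module.finrank E C = 4 := by
  rw [← Module.finrank_mul_finrank E B C, H.finrank_EB, H.finrank_BC]

theorem finrank_EK : Module.finrank E K = 8 := by
  rw [← Module.finrank_mul_finrank E C K, H.finrank_EC, H.finrank_CK]

theorem exists_z : ∃ z : K ≃ₐ[C] K, z ≠ 1 := by
  have := H.isGalois_CK
  have : FiniteDimensional C K := Module.Finite.of_restrictScalars_finite ℚ C K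
  have hc := IsGalois.card_aut_eq_finrank C K
  rw [H.finrank_CK] at hc
  have : Nontrivial (K ≃ₐ[C] K) := by
    apply Finite.one_lt_card_iff_nontrivial.1
    omega
  exact exists_ne 1

/-- A decomposition group in `K/E` is trivial or contains `Gal(K/C)`, if it is cyclic. -/
theorem nonSplit_iff_dec_ne_bot {w : HeightOneSpectrum (𝓞 E)}
    (hunr : ∀ Q ∈ H82.above K w, w.asIdeal.ramificationIdx' Q.asIdeal = 1)
    {P : HeightOneSpectrum (𝓞 C)} {Q : HeightOneSpectrum (𝓞 K)} (hP : P ∈ H82.above C w)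
    (hQ : Q ∈ H82.above K P) : H82.NonSplit K P ↔ dec E Q ≠ ⊥ := by
  have := H.isGalois_EK
  have := H.isGalois_EC
  have := H.isGalois_CK
  have hQw := mem_above_trans hP hQ
  rw [nonSplit_iff hQ]
  constructor
  · intro h hbot
    obtain ⟨z, hz⟩ := H.exists_z
    have h1 : z.restrictScalars E ∈ dec E Q := h z
    rw [hbot, Subgroup.mem_bot] at h1
    apply hz
    ext x
    exact AlgEquiv.congr_fun h1 x
  · intro hne
    obtain ⟨φ, -, hφ, -⟩ := exists_frob hQw (hunr Q hQw)
    have hφ1 : φ ≠ 1 := by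
      rintro rfl
      apply hne
      rw [hφ, Subgroup.zpowers_one_eq_bot]
    have hφQ : φ ∈ dec E Q := by rw [hφ]; exact Subgroup.mem_zpowers φ
    -- a nontrivial element fixing `C` in the decomposition group
    obtain ⟨ψ, hψ1, hψQ, hψ⟩ : ∃ ψ : K ≃ₐ[E] K, ψ ≠ 1 ∧ ψ ∈ dec E Q ∧
        ∀ x : C, ψ (algebraMap C K x) = algebraMap C K x := by
      by_cases h2 : φ * φ = 1
      · exact ⟨φ, hφ1, hφQ, H.fix_of_sq φ h2⟩
      · refine ⟨φ * φ, h2, mul_mem hφQ hφQ, ?_⟩
        rw [← restrictNormal_eq_one_iff]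
        have h3 := H.sq_eq_one (AlgEquiv.restrictNormalHom C φ)
        rw [← map_mul] at h3
        exact h3
    intro σ
    have hη : liftFix ψ hψ ≠ 1 := by
      intro h4
      apply hψ1
      rw [← liftFix_restrictScalars ψ hψ, h4]
      rfl
    rcases eq_one_or_eq H.finrank_CK hη σ with rfl | rfl
    · exact smulPlace_one Q
    · rw [← smulPlace_restrictScalars (E := E), liftFix_restrictScalars]
      exact hψQ

theorem ncard_K {w : HeightOneSpectrum (𝓞 E)} {Q : HeightOneSpectrum (𝓞 K)}
    (hQ : Q ∈ H82.above K w) : (H82.above K w).ncard * Nat.card (dec E Q) = 8 := by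
  have := H.isGalois_EK
  rw [ncard_above_mul_card_dec hQ, H.finrank_EK]

theorem ncard_C {w : HeightOneSpectrum (𝓞 E)} {P : HeightOneSpectrum (𝓞 C)}
    (hP : P ∈ H82.above C w) : (H82.above C w).ncard * Nat.card (dec E P) = 4 := by
  have := H.isGalois_EC
  rw [ncard_above_mul_card_dec hP, H.finrank_EC]

theorem ncard_B {w : HeightOneSpectrum (𝓞 E)} {P : HeightOneSpectrum (𝓞 B)}
    (hP : P ∈ H82.above B w) : (H82.above B w).ncard * Nat.card (dec E P) = 2 := by
  have := H.isGalois_EB
  rw [ncard_above_mul_card_dec hP, H.finrank_EB]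

theorem dec_C_eq_zpowers {w : HeightOneSpectrum (𝓞 E)}
    (hunr : ∀ Q ∈ H82.above K w, w.asIdeal.ramificationIdx' Q.asIdeal = 1)
    {P : HeightOneSpectrum (𝓞 C)} (hP : P ∈ H82.above C w) :
    ∃ ψ : C ≃ₐ[E] C, dec E P = Subgroup.zpowers ψ := by
  have := H.isGalois_EK
  have := H.isGalois_EC
  obtain ⟨Q, hQ⟩ := H47.above_nonempty (L := K) P
  have hQw := mem_above_trans hP hQ
  obtain ⟨φ, -, hφ, -⟩ := exists_frob hQw (hunr Q hQw)
  refine ⟨AlgEquiv.restrictNormalHom C φ, ?_⟩
  rw [H47.eq_below_of_mem_above hQ, dec_below_eq_map, hφ, MonoidHom.map_zpowers]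

theorem ncard_C_eq {w : HeightOneSpectrum (𝓞 E)}
    (hunr : ∀ Q ∈ H82.above K w, w.asIdeal.ramificationIdx' Q.asIdeal = 1) :
    (H82.above C w).ncard = 4 ∨ (H82.above C w).ncard = 2 := by
  obtain ⟨P, hP⟩ := H47.above_nonempty (L := C) w
  have h1 := H.ncard_C hP
  obtain ⟨ψ, hψ⟩ := H.dec_C_eq_zpowers hunr hP
  rw [hψ, Nat.card_zpowers] at h1
  have h2 : orderOf ψ ∣ 2 := orderOf_dvd_of_pow_eq_one (by rw [sq, H.sq_eq_one])
  rcases (Nat.dvd_prime Nat.prime_two).1 h2 with h3 | h3 <;> rw [h3] at h1 <;> omega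

theorem dec_C_eq_bot {w : HeightOneSpectrum (𝓞 E)} (h : (H82.above C w).ncard = 4)
    {P : HeightOneSpectrum (𝓞 C)} (hP : P ∈ H82.above C w) : dec E P = ⊥ := by
  have h1 := H.ncard_C hP
  rw [h] at h1
  exact Subgroup.card_eq_one.1 (by omega)

theorem card_dec_C {w : HeightOneSpectrum (𝓞 E)} (h : (H82.above C w).ncard = 2)
    {P : HeightOneSpectrum (𝓞 C)} (hP : P ∈ H82.above C w) : Nat.card (dec E P) = 2 := by
  have h1 := H.ncard_C hP
  rw [h] at h1
  omega

theorem nonSplit_K_iff {w : HeightOneSpectrum (𝓞 E)}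
    (hunr : ∀ Q ∈ H82.above K w, w.asIdeal.ramificationIdx' Q.asIdeal = 1)
    {P : HeightOneSpectrum (𝓞 C)} (hP : P ∈ H82.above C w) :
    H82.NonSplit K P ↔ (H82.above K w).ncard ≠ 8 := by
  obtain ⟨Q, hQ⟩ := H47.above_nonempty (L := K) P
  have h1 := H.ncard_K (mem_above_trans hP hQ)
  rw [H.nonSplit_iff_dec_ne_bot hunr hP hQ, not_iff_not, ← Subgroup.card_eq_one]
  constructor
  · intro h2; rw [h2] at h1; omega
  · intro h2; rw [h2] at h1; omega

theorem ncard_C_of_ncard_K {w : HeightOneSpectrum (𝓞 E)} (h : (H82.above K w).ncard = 8) :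
    (H82.above C w).ncard = 4 := by
  have := H.isGalois_EK
  have := H.isGalois_EC
  obtain ⟨Q, hQ⟩ := H47.above_nonempty (L := K) w
  have h1 := H.ncard_K hQ
  have h2 : dec E Q = ⊥ := Subgroup.card_eq_one.1 (by rw [h] at h1; omega)
  have h3 := H.ncard_C (below_mem_above (M := C) hQ)
  rw [dec_below_eq_map, h2, Subgroup.map_bot, Subgroup.card_bot] at h3
  omega

theorem not_nonSplit_B {w : HeightOneSpectrum (𝓞 E)} (h : (H82.above C w).ncard = 4) :
    ¬ H82.NonSplit B w := by
  have := H.isGalois_EC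
  have := H.isGalois_EB
  intro h0
  have h0' : (H82.above B w).ncard = 1 := h0
  obtain ⟨P, hP⟩ := H47.above_nonempty (L := C) w
  have h3 := H.ncard_B (below_mem_above (M := B) hP)
  rw [dec_below_eq_map, H.dec_C_eq_bot h hP, Subgroup.map_bot, Subgroup.card_bot, h0'] at h3
  omega

theorem smulPlace_tau_iff {τ : C ≃ₐ[B] C} (hτ : τ ≠ 1) {w : HeightOneSpectrum (𝓞 E)}
    (hunr : ∀ Q ∈ H82.above K w, w.asIdeal.ramificationIdx' Q.asIdeal = 1)
    {P : HeightOneSpectrum (𝓞 C)} (hP : P ∈ H82.above C w) :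
    H47.smulPlace τ P = P ↔ (H82.above C w).ncard = 2 ∧ ¬ H82.NonSplit B w := by
  have := H.isGalois_EC
  have := H.isGalois_EB
  have := H.isGalois_BC
  have hτ' : τ.restrictScalars E ≠ 1 := by
    intro h
    apply hτ
    ext x
    exact AlgEquiv.congr_fun h x
  have hPB := below_mem_above (M := B) hP
  have hB := H.ncard_B hPB
  constructor
  · intro h
    have h1 : τ.restrictScalars E ∈ dec E P := h
    have h2 : (H82.above C w).ncard = 2 := by
      rcases H.ncard_C_eq hunr with h3 | h3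
      · rw [H.dec_C_eq_bot h3 hP, Subgroup.mem_bot] at h1
        exact absurd h1 hτ'
      · exact h3
    refine ⟨h2, fun h0 => ?_⟩
    have h0' : (H82.above B w).ncard = 1 := h0
    obtain ⟨ψ, hψ⟩ := H.dec_C_eq_zpowers hunr hP
    have hψ2 : orderOf ψ ∣ 2 := orderOf_dvd_of_pow_eq_one (by rw [sq, H.sq_eq_one])
    have h4 : dec E P = Subgroup.zpowers (τ.restrictScalars E) := by
      have h5 : Subgroup.zpowers (τ.restrictScalars E) ≤ dec E P := Subgroup.zpowers_le.2 h1
      have : Finite (dec E P) := Nat.finite_of_card_ne_zero (by rw [H.card_dec_C h2 hP]; omega)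
      refine (Subgroup.eq_of_le_of_card_ge h5 ?_).symm
      rw [H.card_dec_C h2 hP, Nat.card_zpowers]
      rw [orderOf_eq_prime (p := 2) (by rw [sq, H.sq_eq_one]) hτ']
    have h6 : dec E (H47.below B P) = ⊥ := by
      rw [dec_below_eq_map, h4, MonoidHom.map_zpowers, Subgroup.zpowers_eq_bot]
      change AlgEquiv.restrictNormal _ B = 1
      rw [restrictNormal_eq_one_iff]
      exact τ.commutes
    rw [h6, Subgroup.card_bot, h0'] at hB
    omega
  · rintro ⟨h2, h0⟩
    have h0' : (H82.above B w).ncard ≠ 1 := h0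
    have h3 : dec E (H47.below B P) = ⊥ := by
      apply Subgroup.card_eq_one.1
      have hdvd : (H82.above B w).ncard ∣ 2 := Dvd.intro _ hB
      rcases (Nat.dvd_prime Nat.prime_two).1 hdvd with h4 | h4
      · exact absurd h4 h0'
      · rw [h4] at hB; omega
    have h4 : Nontrivial (dec E P) := by
      have : Finite (dec E P) := Nat.finite_of_card_ne_zero (by rw [H.card_dec_C h2 hP]; omega)
      apply Finite.one_lt_card_iff_nontrivial.1
      rw [H.card_dec_C h2 hP]
      omega
    obtain ⟨⟨ψ, hψ⟩, hψ1⟩ := exists_ne (1 : dec E P)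
    have hψ1' : ψ ≠ 1 := fun h => hψ1 (Subtype.ext h)
    have h5 : AlgEquiv.restrictNormal ψ B = 1 := by
      have h6 : AlgEquiv.restrictNormal ψ B ∈ dec E (H47.below B P) :=
        mem_dec_below_iff.2 ⟨ψ, hψ, rfl⟩
      rw [h3, Subgroup.mem_bot] at h6
      exact h6
    rw [restrictNormal_eq_one_iff] at h5
    have h7 : liftFix ψ h5 = τ := by
      rcases eq_one_or_eq H.finrank_BC hτ (liftFix ψ h5) with h8 | h8
      · exfalso
        apply hψ1'
        rw [← liftFix_restrictScalars ψ h5, h8]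
        rfl
      · exact h8
    rw [← h7, ← smulPlace_restrictScalars (E := E), liftFix_restrictScalars]
    exact hψ

end IsQ8Tower

end tower

end Fermat.Agent.H89D
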